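import Mathlib
import Fermat.Agent.Pack.LT2.E21L0
import Fermat.Agent.Pack.LT2.E21L1

set_option linter.all false

-- ===== PACK-BEGIN LT/CFT/H476/EQSpec.lean
section


/-!
# Row LT, tower CFT, sub-tower EX (sub-architect helper681), ROW E1.C = COUNTING
# (owner helper476): `QuadOfSharpC : SharpQuadRecC → ChebKC → ExistQuadC`

OFF-MAIN.  Definitions and `Prop`s only, MATHLIB ONLY.  Nothing is assumed, nothing is proved
here.  The interface of the sub-tower is `LT/CFT/H681/ExSpec.lean` (helper681); this file is the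
INTERNAL cut of the row E1.C.  All `Prop`s are TRUE statements of mathematics.

## Vocabulary

`S` = a finite set of primes of `K` (in the application: ALL primes above a finite set `T` of
rational primes, `2 ∈ T`), `fS S n = ∏_{v ∈ S} vⁿ`, `RayN S n` = the quadratic ray class
characters modulo `fS S n`, as functions on the primes OUTSIDE `S`.
Subgroups of `Kˣ`, all defined as closures: `sqG` (squares), `sUnitG S` (generated by the
integral `S`-units), `rayG S n` (generated by the `a ≡ 1 mod fS S n`), `unitAtG S` (generated by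
the integers prime to `S`).

## The leaves

* `InertC`       (from the CLOSED `ChebKC`): a non-square is a non-residue at infinitely many `v`.
* `QsymMulC`     (finite fields): the Legendre symbol is multiplicative.
* `GenClExistsC` (finiteness of the class group): `T`, `S`, `m` exist.
* `FsLeC`        (unique factorisation of ideals): `fS S k ≤ 𝔪` for `k` large.
* `SUnitSqC`     (Dirichlet + class group): `2^(|S| + r₂)` integral `S`-units, pairwise distinct
  modulo squares of `K`.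
* `CharBoundC`   (characters of a finite group of exponent `2`; `S` generates the class group):
  `|RayN S n| ≤ [Kˣ : sqG · sUnitG S · rayG S n]`.
* `ParityC`      (approximation): `[Kˣ : sqG · unitAtG S] ≤ 2^|S|`.
* `UnitRedC`     (reduction modulo `fS S n` + the local count of helper137 / helper438 /
  helper266): `[sqG · unitAtG S : sqG · rayG S n] ≤ 2^|S| · 2^[K:ℚ]`.
* `EvenOrdC`     (anisotropy of `x² - u y²` modulo `v`): `ord_v (A² - u B²)` is even if `u` is
  not a square modulo `v`.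
* `ShaC`         (`Ш = 1`: an `S`-unit which is a square times an element of a deep ray is a
  square; norm trick + `InertC` + `EvenOrdC`).

`EQTop.lean` PROVES the row from the leaves.
-/

set_option autoImplicit false

open IsDedekindDomain NumberField

noncomputable section

namespace Fermat.Agent.LT.CFT.EQ

/-! ## 1. Vocabulary (Mathlib only) -/

section Defs

variable {K : Type} [Field K] [NumberField K]

/-- The exponent of the prime `v` in the principal ideal `(α)` (`0` if `α = 0`).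
(The same term as `CFT.ordAt` of `CFT/Spec.lean`.) -/
def ord (v : HeightOneSpectrum (𝓞 K)) (α : 𝓞 K) : ℕ :=
  (Associates.mk v.asIdeal).count (Associates.mk (Ideal.span {α})).factors

/-- `d` is a square modulo `v`.  (The same term as `EX.IsSqMod`.) -/
def IsSqMod (v : HeightOneSpectrum (𝓞 K)) (d : 𝓞 K) : Prop :=
  ∃ x : 𝓞 K, x ^ 2 - d ∈ v.asIdeal

open Classical in
/-- The Legendre symbol `(d / v) ∈ {±1}`: `1` iff `d` is a square modulo `v`
(so `(d / v) = 1` if `v ∣ d`; such `v` are never used). -/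
def qsym (d : 𝓞 K) (v : HeightOneSpectrum (𝓞 K)) : ℤˣ :=
  if IsSqMod v d then 1 else -1

/-- The value of the multiplicative extension of `χ` on the principal ideal `(α)`. -/
def rayProd (χ : HeightOneSpectrum (𝓞 K) → ℤˣ) (α : 𝓞 K) : ℤˣ :=
  ∏ᶠ v : HeightOneSpectrum (𝓞 K), χ v ^ ord v α

/-- `χ` is a (quadratic) ray class character modulo `𝔪`: trivial on `(α)`, `α ≡ 1 mod 𝔪`.
(The values of `χ` at the primes dividing `𝔪` are irrelevant.) -/
def IsRayChar (𝔪 : Ideal (𝓞 K)) (χ : HeightOneSpectrum (𝓞 K) → ℤˣ) : Prop :=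
  ∀ α : 𝓞 K, α ≠ 0 → α - 1 ∈ 𝔪 → rayProd χ α = 1

/-- The prime `P` lies above an element of `T`.  (The same term as `EX.AboveT`.) -/
def AboveT (T : Finset ℕ) (P : HeightOneSpectrum (𝓞 K)) : Prop :=
  ∃ q ∈ T, ((q : ℕ) : 𝓞 K) ∈ P.asIdeal

/-- `u ∈ 𝓞_K` is an (integral) `S`-unit: `u ≠ 0` and every prime dividing `u` lies in `S`. -/
def IsSInt (S : Finset (HeightOneSpectrum (𝓞 K))) (u : 𝓞 K) : Prop :=
  u ≠ 0 ∧ ∀ v : HeightOneSpectrum (𝓞 K), u ∈ v.asIdeal → v ∈ S

/-- `S` contains the primes over `2`. -/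
def Has2 (S : Finset (HeightOneSpectrum (𝓞 K))) : Prop :=
  ∀ v : HeightOneSpectrum (𝓞 K), (2 : 𝓞 K) ∈ v.asIdeal → v ∈ S

/-- The modulus `∏_{v ∈ S} vⁿ`. -/
def fS (S : Finset (HeightOneSpectrum (𝓞 K))) (n : ℕ) : Ideal (𝓞 K) :=
  ∏ v ∈ S, v.asIdeal ^ n

/-- The classes of the primes of `S` generate the class group: every nonzero ideal becomes
principal after multiplication by an ideal supported in `S`. -/
def GenCl (S : Finset (HeightOneSpectrum (𝓞 K))) : Prop :=
  ∀ I : Ideal (𝓞 K), I ≠ ⊥ → ∃ (x : 𝓞 K) (J : Ideal (𝓞 K)), x ≠ 0 ∧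
    (∀ v : HeightOneSpectrum (𝓞 K), J ≤ v.asIdeal → v ∈ S) ∧ I * J = Ideal.span {x}

/-- The same with a BOUND: the multiplier `J` divides `fS S m`. -/
def GenClN (S : Finset (HeightOneSpectrum (𝓞 K))) (m : ℕ) : Prop :=
  ∀ I : Ideal (𝓞 K), I ≠ ⊥ → ∃ (x : 𝓞 K) (J : Ideal (𝓞 K)), x ≠ 0 ∧
    fS S m ≤ J ∧ I * J = Ideal.span {x}

/-- `∏_{v ∉ S} ψ(v) ^ ord_v(α)`. -/
def outProd (S : Finset (HeightOneSpectrum (𝓞 K)))
    (ψ : {v : HeightOneSpectrum (𝓞 K) // v ∉ S} → ℤˣ) (α : 𝓞 K) : ℤˣ :=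
  ∏ᶠ v : {v : HeightOneSpectrum (𝓞 K) // v ∉ S}, ψ v ^ ord v.1 α

/-- The quadratic ray class characters modulo `fS S n`, as functions on the primes OUTSIDE
`S`. -/
def RayN (S : Finset (HeightOneSpectrum (𝓞 K))) (n : ℕ) :
    Set ({v : HeightOneSpectrum (𝓞 K) // v ∉ S} → ℤˣ) :=
  {ψ | ∀ α : 𝓞 K, α ≠ 0 → α - 1 ∈ fS S n → outProd S ψ α = 1}

/-- The Legendre symbol `(u / ·)` on the primes outside `S`. -/
def qsymOut (S : Finset (HeightOneSpectrum (𝓞 K))) (u : 𝓞 K) :
    {v : HeightOneSpectrum (𝓞 K) // v ∉ S} → ℤˣ :=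
  fun v => qsym u v.1

/-- The squares of `Kˣ`. -/
def sqG (K : Type) [Field K] [NumberField K] : Subgroup Kˣ :=
  (powMonoidHom 2 : Kˣ →* Kˣ).range

/-- The subgroup of `Kˣ` generated by the integral `S`-units. -/
def sUnitG (S : Finset (HeightOneSpectrum (𝓞 K))) : Subgroup Kˣ :=
  Subgroup.closure {x : Kˣ | ∃ u : 𝓞 K, IsSInt S u ∧ (x : K) = algebraMap (𝓞 K) K u}

/-- The ray modulo `fS S n`: the subgroup of `Kˣ` generated by the `a ∈ 𝓞_K`,
`a ≡ 1 mod fS S n`. -/
def rayG (S : Finset (HeightOneSpectrum (𝓞 K))) (n : ℕ) : Subgroup Kˣ :=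
  Subgroup.closure {x : Kˣ | ∃ a : 𝓞 K, a - 1 ∈ fS S n ∧ (x : K) = algebraMap (𝓞 K) K a}

/-- The subgroup of `Kˣ` generated by the `a ∈ 𝓞_K` prime to `S`. -/
def unitAtG (S : Finset (HeightOneSpectrum (𝓞 K))) : Subgroup Kˣ :=
  Subgroup.closure {x : Kˣ | ∃ a : 𝓞 K, (∀ v ∈ S, a ∉ v.asIdeal) ∧
    (x : K) = algebraMap (𝓞 K) K a}

/-- `Ш = 1` at level `n`: an element of `sUnitG S` which is a square times an element of the ray
modulo `fS S n` is a square. -/
def ShaAt (S : Finset (HeightOneSpectrum (𝓞 K))) (n : ℕ) : Prop :=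
  sUnitG S ⊓ (sqG K ⊔ rayG S n) ≤ sqG K

end Defs

/-- `K` is totally complex.  (The same term as `CFT.TotallyComplex`.) -/
def TotCplx (K : Type) [Field K] [NumberField K] : Prop :=
  ∀ w : InfinitePlace K, w.IsComplex

/-! ## 2. The row (ideal form) -/

/-- **ROW E1 = EXIST-QUAD, ideal form**: every quadratic ray class character of a totally
complex number field is a Legendre symbol `(d / ·)` at almost all primes. -/
def ExistQuadC : Prop :=
  ∀ (K : Type) [Field K] [NumberField K], TotCplx K →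
    ∀ 𝔪 : Ideal (𝓞 K), 𝔪 ≠ ⊥ → ∀ χ : HeightOneSpectrum (𝓞 K) → ℤˣ, IsRayChar 𝔪 χ →
      ∃ d : 𝓞 K, d ≠ 0 ∧ ∃ T : Finset (HeightOneSpectrum (𝓞 K)),
        ∀ v : HeightOneSpectrum (𝓞 K), v ∉ T → χ v = qsym d v

/-- **KUMMER-RAY, sharp form** (ONE application of `EX.SharpQuadRecC`, first alternative;
proved by helper476 in `EQSharp.lean`): for `S` = the primes above `T ∋ 2` the Legendre symbols
of ALL integral `S`-units are ray class characters modulo the SAME `fS S N`. -/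
def KummerSC : Prop :=
  ∀ (K : Type) [Field K] [NumberField K], TotCplx K →
    ∀ (T : Finset ℕ) (S : Finset (HeightOneSpectrum (𝓞 K))), 2 ∈ T →
      (∀ P : HeightOneSpectrum (𝓞 K), P ∈ S ↔ AboveT T P) →
      ∃ N : ℕ, 1 ≤ N ∧ ∀ u : 𝓞 K, IsSInt S u → qsymOut S u ∈ RayN S N

/-! ## 3. The leaves -/

/-- **E1.C.1 INERT PRIMES** (from the closed `CFT.ChebKC`: `σ ∈ G_K` with `σ √u = -√u`;
for a Frobenius element `φ` at `v ∤ 2u`, `φ √u = √u` iff `u` is a square modulo `v`). -/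
def InertC : Prop :=
  ∀ (K : Type) [Field K] [NumberField K] (u : 𝓞 K),
    (¬ ∃ x : K, x ^ 2 = algebraMap (𝓞 K) K u) →
    ∀ T : Finset (HeightOneSpectrum (𝓞 K)),
      ∃ v : HeightOneSpectrum (𝓞 K), v ∉ T ∧ u ∉ v.asIdeal ∧ ¬ IsSqMod v u

/-- **E1.C.2 MULTIPLICATIVITY of the Legendre symbol** (the residue field is finite). -/
def QsymMulC : Prop :=
  ∀ (K : Type) [Field K] [NumberField K] (u u' : 𝓞 K) (v : HeightOneSpectrum (𝓞 K)),
    u ∉ v.asIdeal → u' ∉ v.asIdeal → qsym (u * u') v = qsym u v * qsym u' v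

/-- **E1.C.3 `S` EXISTS** (finiteness of the class group): every finite set `T₀` of rational
primes is contained in a finite set `T` of rational primes such that the set `S` of ALL primes of
`K` above `T` generates the class group, with bounded multipliers. -/
def GenClExistsC : Prop :=
  ∀ (K : Type) [Field K] [NumberField K] (T₀ : Finset ℕ), (∀ q ∈ T₀, q.Prime) →
    ∃ (T : Finset ℕ) (S : Finset (HeightOneSpectrum (𝓞 K))) (m : ℕ),
      T₀ ⊆ T ∧ (∀ q ∈ T, q.Prime) ∧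
      (∀ P : HeightOneSpectrum (𝓞 K), P ∈ S ↔ AboveT T P) ∧ GenClN S m

/-- **E1.C.4** (unique factorisation of ideals): an ideal all of whose prime divisors lie in
`S` contains `fS S k` for some `k`. -/
def FsLeC : Prop :=
  ∀ (K : Type) [Field K] [NumberField K] (S : Finset (HeightOneSpectrum (𝓞 K)))
    (𝔪 : Ideal (𝓞 K)), 𝔪 ≠ ⊥ →
    (∀ v : HeightOneSpectrum (𝓞 K), 𝔪 ≤ v.asIdeal → v ∈ S) → ∃ k : ℕ, fS S k ≤ 𝔪

/-- **E1.C.5 `S`-UNITS MODULO SQUARES** (Dirichlet's unit theorem: `E/E² ≅ (ℤ/2)^{r₂}`; the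
principal `S`-ideals are a subgroup of finite index of `ℤ^S`): there are `2^(|S| + r₂)` integral
`S`-units, pairwise distinct modulo squares of `K`. -/
def SUnitSqC : Prop :=
  ∀ (K : Type) [Field K] [NumberField K], TotCplx K →
    ∀ S : Finset (HeightOneSpectrum (𝓞 K)),
      ∃ U : Finset (𝓞 K), U.card = 2 ^ (S.card + InfinitePlace.nrComplexPlaces K) ∧
        (∀ u ∈ U, IsSInt S u) ∧
        ∀ u ∈ U, ∀ u' ∈ U, u ≠ u' →
          ¬ ∃ x : K, x ^ 2 = algebraMap (𝓞 K) K u * algebraMap (𝓞 K) K u'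

/-- **E1.C.6 CHARACTER BOUND**: `ψ ∈ RayN S n` extends to a homomorphism `Kˣ → {±1}` trivial on
`sqG`, `sUnitG S`, `rayG S n` (`x = a/b ↦ outProd a · outProd b`), and `ψ` is determined by it
because `S` generates the class group (`v J = (x)`, `ψ(v) = outProd x`); a finite abelian group
of exponent `2` has as many characters as elements. -/
def CharBoundC : Prop :=
  ∀ (K : Type) [Field K] [NumberField K] (S : Finset (HeightOneSpectrum (𝓞 K))) (n : ℕ),
    GenCl S → (sqG K ⊔ sUnitG S ⊔ rayG S n).index ≠ 0 →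
      (RayN S n).Finite ∧ (RayN S n).ncard ≤ (sqG K ⊔ sUnitG S ⊔ rayG S n).index

/-- **E1.C.7 PARITY** (approximation: for `v ∈ S` there is `π ∈ 𝓞_K` with `ord_v π = 1` and
`π ∉ v'` for the other `v' ∈ S`; an element of `Kˣ` with even valuations on `S` is a square times
a quotient of integers prime to `S`). -/
def ParityC : Prop :=
  ∀ (K : Type) [Field K] [NumberField K] (S : Finset (HeightOneSpectrum (𝓞 K))),
    (sqG K ⊔ unitAtG S).index ≠ 0 ∧ (sqG K ⊔ unitAtG S).index ≤ 2 ^ S.card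

/-- **E1.C.8 REDUCTION** modulo `fS S n`: the classes of the integers prime to `S` modulo
`sqG · rayG S n` are the image of `(𝓞/fS S n)ˣ / squares`, of order `≤ 2^|S| · 2^[K:ℚ]`
(helper137 `index_sq_units_le137`). -/
def UnitRedC : Prop :=
  ∀ (K : Type) [Field K] [NumberField K] (S : Finset (HeightOneSpectrum (𝓞 K))) (n : ℕ),
    1 ≤ n →
    (sqG K ⊔ rayG S n).relIndex (sqG K ⊔ unitAtG S) ≠ 0 ∧
    (sqG K ⊔ rayG S n).relIndex (sqG K ⊔ unitAtG S) ≤ 2 ^ S.card * 2 ^ Module.finrank ℚ K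

/-- **E1.C.9 EVEN VALUATION of the norm form** at a prime where `u` is not a square:
`ord_v (A² - u B²) = 2 min (ord_v A, ord_v B)`. -/
def EvenOrdC : Prop :=
  ∀ (K : Type) [Field K] [NumberField K] (v : HeightOneSpectrum (𝓞 K)) (u A B : 𝓞 K),
    ¬ IsSqMod v u → A ^ 2 - u * B ^ 2 ≠ 0 → Even (ord v (A ^ 2 - u * B ^ 2))

/-- **E1.C.10 `Ш = 1`**.  If the Legendre symbols of the integral `S`-units are ray class
characters modulo `fS S N`, then for `n` large an element of `sUnitG S` which is a square times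
an element of the ray modulo `fS S n` is a square.  (Norm trick: `u e² b = c² a`,
`a ≡ b ≡ 1 mod fS S n`; for `w J = (α)`, `w` inert: `b (A² - u B²) = c² (4 α b + (b - a)(α - 1)²)`
with `A = c (1 + α)`, `B = e (α - 1)`, so `(u / w) = 1` by `EvenOrdC`; contradiction with
`InertC`.) -/
def ShaC : Prop :=
  ∀ (K : Type) [Field K] [NumberField K] (S : Finset (HeightOneSpectrum (𝓞 K))), Has2 S →
    ∀ m : ℕ, GenClN S m → ∀ N : ℕ, 1 ≤ N →
      (∀ u : 𝓞 K, IsSInt S u → qsymOut S u ∈ RayN S N) →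
      ∃ n₁ : ℕ, ∀ n : ℕ, n₁ ≤ n → ShaAt S n

/-- **THE COUNT** (proved in `EQTop.lean` from `CharBoundC`, `ParityC`, `UnitRedC`,
`SUnitSqC`): at most `2^(|S| + r₂)` quadratic ray class characters modulo `fS S n`, if
`Ш = 1` at level `n`. -/
def CountNC : Prop :=
  ∀ (K : Type) [Field K] [NumberField K], TotCplx K →
    ∀ (S : Finset (HeightOneSpectrum (𝓞 K))) (n : ℕ), 1 ≤ n → GenCl S → ShaAt S n →
      (RayN S n).Finite ∧ (RayN S n).ncard ≤ 2 ^ (S.card + InfinitePlace.nrComplexPlaces K)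

end Fermat.Agent.LT.CFT.EQ

end

end
-- ===== PACK-END LT/CFT/H476/EQSpec.lean

-- ===== PACK-BEGIN LT/CFT/H137/SqLocal.lean
section


/-!
# Row LT, tower CFT, sub-tower EX (existence at `2`), leaf E1 (EXIST-QUAD), COUNT assets
# (helper137, OFF-MAIN, Mathlib only)

LOCAL COUNT of the square roots of `1` at finite level:

* `sub_or_add_mem_pow137` : `R` Dedekind, `v` a prime, `2 ∉ v ^ (c + 1)`, `x ^ 2 - 1 ∈ v ^ k`
  ⟹ `x - 1 ∈ v ^ (k - c)` or `x + 1 ∈ v ^ (k - c)`.
* `card_sq_eq_one_le137` : `K` a number field, `v` a prime of `𝓞 K`, `2 ∉ v ^ (c + 1)`: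
  `#{x ∈ 𝓞 K ⧸ v ^ k | x ^ 2 = 1} ≤ 2 * N(v) ^ c`.
-/

set_option autoImplicit false

open IsDedekindDomain NumberField

namespace Fermat.Agent.LT.CFT.H137

section Dedekind

variable {R : Type*} [CommRing R] [IsDedekindDomain R]

/-- In a Dedekind domain: if `(x - 1) (x + 1) ∈ v ^ k` and `2 ∉ v ^ (c + 1)` then one of the two
factors lies in `v ^ (k - c)`. -/
theorem sub_or_add_mem_pow137 (v : HeightOneSpectrum R) (c k : ℕ)
    (h2 : (2 : R) ∉ v.asIdeal ^ (c + 1)) (x : R) (hx : x ^ 2 - 1 ∈ v.asIdeal ^ k) :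
    x - 1 ∈ v.asIdeal ^ (k - c) ∨ x + 1 ∈ v.asIdeal ^ (k - c) := by
  classical
  by_cases ha0 : x - 1 = 0
  · left; rw [ha0]; exact Submodule.zero_mem _
  by_cases hb0 : x + 1 = 0
  · right; rw [hb0]; exact Submodule.zero_mem _
  -- valuations
  set a : ℤ := WithZero.log (v.intValuation (x - 1)) with ha
  set b : ℤ := WithZero.log (v.intValuation (x + 1)) with hb
  have hva : v.intValuation (x - 1) ≠ 0 := v.intValuation_ne_zero _ ha0
  have hvb : v.intValuation (x + 1) ≠ 0 := v.intValuation_ne_zero _ hb0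
  have ea : v.intValuation (x - 1) = WithZero.exp a := (WithZero.exp_log hva).symm
  have eb : v.intValuation (x + 1) = WithZero.exp b := (WithZero.exp_log hvb).symm
  -- the product
  have hprod : v.intValuation (x ^ 2 - 1) = WithZero.exp (a + b) := by
    have : x ^ 2 - 1 = (x - 1) * (x + 1) := by ring
    rw [this, map_mul, ea, eb, WithZero.exp_add]
  have hk : a + b ≤ -(k : ℤ) := by
    have h := (v.intValuation_le_pow_iff_mem (x ^ 2 - 1) k).2 hx
    rw [hprod] at h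
    exact WithZero.exp_le_exp.1 h
  -- the difference
  have h2' : ¬ v.intValuation (2 : R) ≤ WithZero.exp (-((c + 1 : ℕ) : ℤ)) := fun h =>
    h2 ((v.intValuation_le_pow_iff_mem 2 (c + 1)).1 h)
  have h2le : v.intValuation (2 : R) ≤ max (v.intValuation (x + 1)) (v.intValuation (x - 1)) := by
    have : (2 : R) = (x + 1) - (x - 1) := by ring
    rw [this]
    exact Valuation.map_sub _ _ _
  have hmax : -((c + 1 : ℕ) : ℤ) < max b a := by
    by_contra hcon
    replace hcon := not_lt.1 hcon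
    apply h2'
    refine le_trans h2le ?_
    rw [ea, eb]
    rcases le_total (WithZero.exp b) (WithZero.exp a) with h | h
    · rw [max_eq_right h]
      exact WithZero.exp_le_exp.2 (le_trans (le_max_right _ _) hcon)
    · rw [max_eq_left h]
      exact WithZero.exp_le_exp.2 (le_trans (le_max_left _ _) hcon)
  have hale : a ≤ 0 := by
    have h := v.intValuation_le_one (x - 1)
    rw [ea, ← WithZero.exp_zero] at h
    exact WithZero.exp_le_exp.1 h
  have hble : b ≤ 0 := by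
    have h := v.intValuation_le_one (x + 1)
    rw [eb, ← WithZero.exp_zero] at h
    exact WithZero.exp_le_exp.1 h
  rcases lt_max_iff.1 hmax with h | h
  · -- `b > -(c+1)`: so `a ≤ -(k - c)`
    left
    rw [← v.intValuation_le_pow_iff_mem, ea]
    apply WithZero.exp_le_exp.2
    push_cast at h ⊢
    omega
  · right
    rw [← v.intValuation_le_pow_iff_mem, eb]
    apply WithZero.exp_le_exp.2
    push_cast at h ⊢
    omega

end Dedekind

section NumberField

variable (K : Type*) [Field K] [NumberField K]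

/-- The number of elements of `v ^ m / v ^ k` (`m ≤ k`) is `N(v) ^ (k - m)`. -/
theorem card_map_pow137 (v : HeightOneSpectrum (𝓞 K)) (m k : ℕ) (hmk : m ≤ k) :
    Nat.card (Submodule.map (Submodule.mkQ (v.asIdeal ^ k)) (v.asIdeal ^ m)) =
      Ideal.absNorm v.asIdeal ^ (k - m) := by
  have hle : v.asIdeal ^ k ≤ v.asIdeal ^ m := Ideal.pow_le_pow_right hmk
  have h := Submodule.card_quotient_mul_card_quotient (v.asIdeal ^ m) (v.asIdeal ^ k) hle
  have hk : Nat.card (𝓞 K ⧸ v.asIdeal ^ k) = Ideal.absNorm v.asIdeal ^ k := by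
    rw [← Submodule.cardQuot_apply, ← Ideal.absNorm_apply, map_pow]
  have hm : Nat.card (𝓞 K ⧸ v.asIdeal ^ m) = Ideal.absNorm v.asIdeal ^ m := by
    rw [← Submodule.cardQuot_apply, ← Ideal.absNorm_apply, map_pow]
  rw [hk, hm] at h
  have hpos : 0 < Ideal.absNorm v.asIdeal ^ m := by
    apply pow_pos
    rw [Nat.pos_iff_ne_zero, Ne, Ideal.absNorm_eq_zero_iff]
    exact v.ne_bot
  have : Ideal.absNorm v.asIdeal ^ k =
      Ideal.absNorm v.asIdeal ^ (k - m) * Ideal.absNorm v.asIdeal ^ m := by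
    rw [← pow_add, Nat.sub_add_cancel hmk]
  rw [this] at h
  exact Nat.eq_of_mul_eq_mul_right hpos h

/-- **LOCAL COUNT.**  `#{x ∈ 𝓞 K ⧸ v ^ k | x ^ 2 = 1} ≤ 2 * N(v) ^ c` if `2 ∉ v ^ (c + 1)`. -/
theorem card_sq_eq_one_le137 (v : HeightOneSpectrum (𝓞 K)) (c k : ℕ)
    (h2 : (2 : 𝓞 K) ∉ v.asIdeal ^ (c + 1)) :
    Nat.card {x : 𝓞 K ⧸ v.asIdeal ^ k // x ^ 2 = 1} ≤ 2 * Ideal.absNorm v.asIdeal ^ c := by
  classical
  have hfin : Finite (𝓞 K ⧸ v.asIdeal ^ k) := by
    apply Ideal.finiteQuotientOfFreeOfNeBot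
    exact pow_ne_zero _ v.ne_bot
  by_cases hkc : k ≤ c
  · -- everything
    have h1 : Nat.card {x : 𝓞 K ⧸ v.asIdeal ^ k // x ^ 2 = 1} ≤
        Nat.card (𝓞 K ⧸ v.asIdeal ^ k) :=
      Nat.card_le_card_of_injective _ Subtype.val_injective
    have hk : Nat.card (𝓞 K ⧸ v.asIdeal ^ k) = Ideal.absNorm v.asIdeal ^ k := by
      rw [← Submodule.cardQuot_apply, ← Ideal.absNorm_apply, map_pow]
    have hN : 1 ≤ Ideal.absNorm v.asIdeal := by
      rw [Nat.one_le_iff_ne_zero, Ne, Ideal.absNorm_eq_zero_iff]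
      exact v.ne_bot
    calc Nat.card {x : 𝓞 K ⧸ v.asIdeal ^ k // x ^ 2 = 1}
        ≤ Ideal.absNorm v.asIdeal ^ k := by rw [← hk]; exact h1
      _ ≤ Ideal.absNorm v.asIdeal ^ c := Nat.pow_le_pow_right hN hkc
      _ ≤ 2 * Ideal.absNorm v.asIdeal ^ c := Nat.le_mul_of_pos_left _ (by norm_num)
  · replace hkc := not_le.1 hkc
    set M : Submodule (𝓞 K) (𝓞 K ⧸ v.asIdeal ^ k) :=
      Submodule.map (Submodule.mkQ (v.asIdeal ^ k)) (v.asIdeal ^ (k - c)) with hM
    have hMcard : Nat.card M = Ideal.absNorm v.asIdeal ^ c := by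
      have h := card_map_pow137 K v (k - c) k (Nat.sub_le _ _)
      rwa [Nat.sub_sub_self hkc.le] at h
    have hMfin : Finite M := Finite.of_injective _ Subtype.val_injective
    -- the key dichotomy
    have key : ∀ x : 𝓞 K ⧸ v.asIdeal ^ k, x ^ 2 = 1 → x - 1 ∈ M ∨ x + 1 ∈ M := by
      intro x hx
      obtain ⟨y, rfl⟩ := Ideal.Quotient.mk_surjective x
      have hy : y ^ 2 - 1 ∈ v.asIdeal ^ k := by
        rw [← Ideal.Quotient.eq_zero_iff_mem, map_sub, map_pow, map_one, hx, sub_self]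
      rcases sub_or_add_mem_pow137 v c k h2 y hy with h | h
      · left
        exact ⟨y - 1, h, by simp⟩
      · right
        exact ⟨y + 1, h, by simp⟩
    -- the injection into `Bool × M`
    let f : {x : 𝓞 K ⧸ v.asIdeal ^ k // x ^ 2 = 1} → Bool × M := fun x =>
      if h : x.1 - 1 ∈ M then (true, ⟨x.1 - 1, h⟩)
      else (false, ⟨x.1 + 1, (key x.1 x.2).resolve_left h⟩)
    have hf : Function.Injective f := by
      intro x y hxy
      apply Subtype.ext
      by_cases hx : x.1 - 1 ∈ M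
      · by_cases hy : y.1 - 1 ∈ M
        · simp only [f, dif_pos hx, dif_pos hy, Prod.mk.injEq, true_and, Subtype.mk.injEq] at hxy
          exact sub_left_injective hxy
        · simp only [f, dif_pos hx, dif_neg hy, Prod.mk.injEq] at hxy
          exact absurd hxy.1 (by simp)
      · by_cases hy : y.1 - 1 ∈ M
        · simp only [f, dif_neg hx, dif_pos hy, Prod.mk.injEq] at hxy
          exact absurd hxy.1 (by simp)
        · simp only [f, dif_neg hx, dif_neg hy, Prod.mk.injEq, true_and, Subtype.mk.injEq] at hxy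
          exact add_left_injective _ hxy
    calc Nat.card {x : 𝓞 K ⧸ v.asIdeal ^ k // x ^ 2 = 1}
        ≤ Nat.card (Bool × M) := Nat.card_le_card_of_injective f hf
      _ = 2 * Ideal.absNorm v.asIdeal ^ c := by
          rw [Nat.card_prod, hMcard, Nat.card_eq_fintype_card, Fintype.card_bool]

end NumberField

end Fermat.Agent.LT.CFT.H137

end
-- ===== PACK-END LT/CFT/H137/SqLocal.lean

-- ===== PACK-BEGIN LT/CFT/H137/Lattice.lean
section


/-!
# Row LT, tower CFT, sub-tower EX, leaf E1 (EXIST-QUAD), COUNT assets (helper137, OFF-MAIN)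

Index computations in the lattice `ι → Multiplicative ℤ` (Mathlib only):

* `index_range_pow137` : `[ℤ^ι : n ℤ^ι] = n ^ #ι` (`n ≠ 0`).
* `relIndex_map_pow_two137` : a subgroup `Λ` of finite index of `ℤ^ι` has `[Λ : 2Λ] = 2 ^ #ι`.
-/

set_option autoImplicit false
set_option linter.unusedSectionVars false
set_option linter.unusedVariables false

namespace Fermat.Agent.LT.CFT.H137

variable (ι : Type*) [Finite ι]

/-- Reduction modulo `n`, componentwise. -/
noncomputable def latRed137 (n : ℕ) :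
    (ι → Multiplicative ℤ) →* (ι → Multiplicative (ZMod n)) :=
  MonoidHom.pi fun i =>
    (AddMonoidHom.toMultiplicative (Int.castAddHom (ZMod n))).comp (Pi.evalMonoidHom _ i)

theorem latRed_apply137 (n : ℕ) (m : ι → Multiplicative ℤ) (i : ι) :
    latRed137 ι n m i = Multiplicative.ofAdd ((Multiplicative.toAdd (m i) : ℤ) : ZMod n) := rfl

theorem latRed_surjective137 (n : ℕ) : Function.Surjective (latRed137 ι n) := by
  intro c
  have h : ∀ i, ∃ a : ℤ, (a : ZMod n) = Multiplicative.toAdd (c i) :=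
    fun i => ZMod.intCast_surjective _
  choose a ha using h
  refine ⟨fun i => Multiplicative.ofAdd (a i), ?_⟩
  funext i
  rw [latRed_apply137, toAdd_ofAdd, ha i, ofAdd_toAdd]

theorem latRed_ker137 (n : ℕ) :
    (latRed137 ι n).ker = (powMonoidHom n : (ι → Multiplicative ℤ) →* _).range := by
  ext m
  rw [MonoidHom.mem_ker, MonoidHom.mem_range]
  constructor
  · intro h
    have h1 : ∀ i, (n : ℤ) ∣ Multiplicative.toAdd (m i) := by
      intro i
      have := congrFun h i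
      rw [latRed_apply137] at this
      have h2 : ((Multiplicative.toAdd (m i) : ℤ) : ZMod n) = 0 := by
        have := congrArg Multiplicative.toAdd this
        simpa using this
      exact (ZMod.intCast_zmod_eq_zero_iff_dvd _ n).1 h2
    choose b hb using h1
    refine ⟨fun i => Multiplicative.ofAdd (b i), ?_⟩
    funext i
    rw [powMonoidHom_apply, Pi.pow_apply, ← ofAdd_nsmul, ← ofAdd_toAdd (m i), hb i]
    rfl
  · rintro ⟨b, rfl⟩
    funext i
    rw [latRed_apply137, powMonoidHom_apply, Pi.pow_apply, toAdd_pow]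
    simp

/-- `[ℤ^ι : n ℤ^ι] = n ^ #ι`. -/
theorem index_range_pow137 (n : ℕ) (hn : n ≠ 0) :
    (powMonoidHom n : (ι → Multiplicative ℤ) →* _).range.index = n ^ Nat.card ι := by
  have : NeZero n := ⟨hn⟩
  rw [← latRed_ker137, Subgroup.index_ker,
    MonoidHom.range_eq_top.2 (latRed_surjective137 ι n), Subgroup.card_top, Nat.card_fun]
  congr 1
  rw [Nat.card_congr (Multiplicative.toAdd : Multiplicative (ZMod n) ≃ ZMod n), Nat.card_zmod]

theorem pow_two_injective137 :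
    Function.Injective (powMonoidHom 2 : (ι → Multiplicative ℤ) →* _) := by
  intro a b h
  funext i
  have h1 := congrFun h i
  rw [powMonoidHom_apply, powMonoidHom_apply, Pi.pow_apply, Pi.pow_apply] at h1
  have h2 := congrArg Multiplicative.toAdd h1
  rw [toAdd_pow, toAdd_pow] at h2
  have h3 : Multiplicative.toAdd (a i) = Multiplicative.toAdd (b i) := by
    have : (2 : ℤ) * Multiplicative.toAdd (a i) = 2 * Multiplicative.toAdd (b i) := by
      simpa using h2
    omega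
  exact Multiplicative.toAdd.injective h3

/-- A subgroup `Λ` of finite index of `ℤ^ι` has `[Λ : 2Λ] = 2 ^ #ι`. -/
theorem relIndex_map_pow_two137 (Λ : Subgroup (ι → Multiplicative ℤ)) (hΛ : Λ.index ≠ 0) :
    (Λ.map (powMonoidHom 2)).relIndex Λ = 2 ^ Nat.card ι := by
  set f : (ι → Multiplicative ℤ) →* (ι → Multiplicative ℤ) := powMonoidHom 2 with hf
  have hle1 : Λ.map f ≤ Λ := by
    rintro _ ⟨x, hx, rfl⟩
    rw [hf, powMonoidHom_apply]
    exact Λ.pow_mem hx 2
  have hle2 : Λ.map f ≤ (⊤ : Subgroup (ι → Multiplicative ℤ)).map f :=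
    Subgroup.map_mono le_top
  have h1 := Subgroup.relIndex_mul_index hle1
  have h2 := Subgroup.relIndex_mul_index hle2
  have h3 : (Λ.map f).relIndex ((⊤ : Subgroup (ι → Multiplicative ℤ)).map f) = Λ.index := by
    rw [Subgroup.relIndex_map_map_of_injective _ _ (pow_two_injective137 ι),
      Subgroup.relIndex_top_right]
  have h4 : ((⊤ : Subgroup (ι → Multiplicative ℤ)).map f).index = 2 ^ Nat.card ι := by
    rw [← MonoidHom.range_eq_map]
    exact index_range_pow137 ι 2 (by norm_num)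
  rw [h3, h4] at h2
  rw [← h2, mul_comm] at h1
  exact Nat.eq_of_mul_eq_mul_left (Nat.pos_of_ne_zero hΛ) h1

end Fermat.Agent.LT.CFT.H137

end
-- ===== PACK-END LT/CFT/H137/Lattice.lean

-- ===== PACK-BEGIN LT/H963/CyclicAbs.lean
section


/-!
# Row LT (helper963, OFF-MAIN asset): multiplicity one in MODULE form from a MATCH statement

Abstract core, Mathlib only.

`H` a complex inner product space (not necessarily complete), `ρ` a unitary representation of a
group `G` on `H`, `V` a finite-dimensional subspace, `P` the orthogonal projection onto `V`.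

MATCH hypothesis (shape of `T2.H941.MatchC`): for any two non-zero vectors `e, e₂ ∈ V` the spans
of the translates `ρ(g) e` and `ρ(g) e₂` have a non-zero vector in common.

CONCLUSION (`cyclic_of_match963`): every non-zero `e ∈ V` is CYCLIC for the compressions
`P ρ(g)`: the vectors `P (ρ(g) e)` span `V`.  (If `V` is the space of `U`-invariant vectors of a
joint eigenspace and the translations are by elements commuting with the eigen-operators, the
compressions `P ρ(g) |_V` are the operators of the Hecke algebra of `U`, and the statement says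
that `V` is a SIMPLE module of that algebra.)

Proof.  Let `M = span {P (ρ(g) e)} ⊆ V`.  If `M ≠ V` there is `e₂ ∈ V`, `e₂ ≠ 0`, orthogonal to
`M`.  Then `⟪e₂, ρ(h) e⟫ = ⟪e₂, P (ρ(h) e)⟫ = 0` for all `h`, so by unitarity
`⟪ρ(g') e₂, ρ(g) e⟫ = ⟪e₂, ρ(g'⁻¹ g) e⟫ = 0`: the two spans of translates are orthogonal, and a
common vector is orthogonal to itself.
-/

set_option autoImplicit false

open scoped InnerProductSpace

namespace Fermat.Agent.LT.H963

variable {H : Type*} [NormedAddCommGroup H] [InnerProductSpace ℂ H]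
variable {G : Type*} [Group G]

/-- The span of the translates of `e`. -/
def orbitSpan963 (ρ : G →* (H ≃ₗᵢ[ℂ] H)) (e : H) : Submodule ℂ H :=
  Submodule.span ℂ (Set.range fun g : G => ρ g e)

/-- Unitarity: `⟪ρ(g') x, ρ(g) y⟫ = ⟪x, ρ(g'⁻¹ g) y⟫`. -/
theorem inner_translate963 (ρ : G →* (H ≃ₗᵢ[ℂ] H)) (g g' : G) (x y : H) :
    ⟪ρ g' x, ρ g y⟫_ℂ = ⟪x, ρ (g'⁻¹ * g) y⟫_ℂ := by
  have h : ρ g y = ρ g' (ρ (g'⁻¹ * g) y) := by
    have : ρ g = ρ g' * ρ (g'⁻¹ * g) := by rw [← map_mul, mul_inv_cancel_left]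
    rw [this, LinearIsometryEquiv.coe_mul, Function.comp_apply]
  rw [h, LinearIsometryEquiv.inner_map_map]

/-- If `e₂` is orthogonal to every translate of `e`, the spans of the translates of `e₂` and of
`e` are orthogonal. -/
theorem orbitSpan_orthogonal963 (ρ : G →* (H ≃ₗᵢ[ℂ] H)) (e e₂ : H)
    (h : ∀ g : G, ⟪e₂, ρ g e⟫_ℂ = 0) :
    ∀ x ∈ orbitSpan963 ρ e₂, ∀ y ∈ orbitSpan963 ρ e, ⟪x, y⟫_ℂ = 0 := by
  intro x hx y hy
  refine Submodule.span_induction (p := fun x _ => ⟪x, y⟫_ℂ = 0) ?_ ?_ ?_ ?_ hx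
  · rintro _ ⟨g', rfl⟩
    refine Submodule.span_induction (p := fun y _ => ⟪ρ g' e₂, y⟫_ℂ = 0) ?_ ?_ ?_ ?_ hy
    · rintro _ ⟨g, rfl⟩
      show ⟪ρ g' e₂, ρ g e⟫_ℂ = 0
      rw [inner_translate963]
      exact h _
    · exact inner_zero_right _
    · intro a b _ _ ha hb
      rw [inner_add_right, ha, hb, add_zero]
    · intro c a _ ha
      rw [inner_smul_right, ha, mul_zero]
  · exact inner_zero_left _
  · intro a b _ _ ha hb
    rw [inner_add_left, ha, hb, add_zero]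
  · intro c a _ ha
    rw [inner_smul_left, ha, mul_zero]

/-- **Multiplicity one in module form, abstract core.**  Under the MATCH hypothesis every
non-zero vector of the finite-dimensional subspace `V` is cyclic for the compressions
`P ρ(g)`. -/
theorem cyclic_of_match963 (ρ : G →* (H ≃ₗᵢ[ℂ] H)) (V : Submodule ℂ H)
    [FiniteDimensional ℂ V]
    (hmatch : ∀ e ∈ V, ∀ e₂ ∈ V, e ≠ 0 → e₂ ≠ 0 →
      ∃ x : H, x ∈ orbitSpan963 ρ e ∧ x ∈ orbitSpan963 ρ e₂ ∧ x ≠ 0)
    (e : H) (he : e ∈ V) (he0 : e ≠ 0) :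
    Submodule.span ℂ (Set.range fun g : G => V.starProjection (ρ g e)) = V := by
  classical
  set M : Submodule ℂ H :=
    Submodule.span ℂ (Set.range fun g : G => V.starProjection (ρ g e)) with hM
  have hMV : M ≤ V := by
    rw [hM, Submodule.span_le]
    rintro _ ⟨g, rfl⟩
    exact Submodule.starProjection_apply_mem V _
  by_contra hne
  have hlt : M < V := lt_of_le_of_ne hMV hne
  -- a non-zero vector of `V` orthogonal to `M`
  have hfd : FiniteDimensional ℂ M := Submodule.finiteDimensional_of_le hMV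
  obtain ⟨e₂, he₂V, he₂0, he₂M⟩ : ∃ e₂ ∈ V, e₂ ≠ 0 ∧ ∀ m ∈ M, ⟪e₂, m⟫_ℂ = 0 := by
    obtain ⟨v, hvV, hvM⟩ := SetLike.exists_of_lt hlt
    refine ⟨v - M.starProjection v, ?_, ?_, ?_⟩
    · exact V.sub_mem hvV (hMV (Submodule.starProjection_apply_mem M v))
    · intro h0
      apply hvM
      have : v = M.starProjection v := sub_eq_zero.mp h0
      rw [this]
      exact Submodule.starProjection_apply_mem M v
    · intro m hm
      exact Submodule.starProjection_inner_eq_zero v m hm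
  -- `e₂` is orthogonal to all translates of `e`
  have horth : ∀ g : G, ⟪e₂, ρ g e⟫_ℂ = 0 := by
    intro g
    have h0 : ⟪ρ g e - V.starProjection (ρ g e), e₂⟫_ℂ = 0 :=
      Submodule.starProjection_inner_eq_zero (ρ g e) e₂ he₂V
    have h1 : ⟪e₂, ρ g e - V.starProjection (ρ g e)⟫_ℂ = 0 := inner_eq_zero_symm.mp h0
    rw [inner_sub_right, sub_eq_zero] at h1
    rw [h1]
    exact he₂M _ (Submodule.subset_span ⟨g, rfl⟩)
  obtain ⟨x, hx1, hx2, hx0⟩ := hmatch e he e₂ he₂V he0 he₂0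
  have hxx : ⟪x, x⟫_ℂ = 0 := orbitSpan_orthogonal963 ρ e e₂ horth x hx2 x hx1
  exact hx0 (inner_self_eq_zero.mp hxx)

end Fermat.Agent.LT.H963

end
-- ===== PACK-END LT/H963/CyclicAbs.lean

-- ===== PACK-BEGIN LT/H751/JointSpec.lean
section


/-!
# Row LT, tower T2, pre-leaf SPEC-ABS (helper751): joint eigenbasis

OFF-MAIN.  Mathlib only, no definitions.

Abstract core of the discreteness of the cuspidal spectrum (Gelfand--Piatetski-Shapiro form):
`H` a complex Hilbert space, `𝒯` a set of pairwise commuting bounded operators which is closed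
under adjoints, `Kc ⊆ 𝒯` a subset of COMPACT operators with trivial common kernel.  Then

* `exists_hilbertBasis_joint_eigen751`: `H` has a Hilbert basis of joint eigenvectors of `𝒯`;
* `finiteDimensional_iInf_eigenspace751`: every joint eigenspace is finite-dimensional;
* `countable_of_orthonormal751`: if `H` is separable, every orthonormal family is countable.

(Mathlib has the spectral theorem for ONE compact self-adjoint operator:
`ContinuousLinearMap.orthogonalComplement_iSup_eigenspaces_eq_bot`.)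

In the application `𝒯` = the Hecke operators `T_v`, `S_v` (`v ∤ 𝔫`) and their adjoints together
with the archimedean spherical convolution operators `R(f_∞)`, `Kc` = the latter (compact on the
cuspidal space by reduction theory, trivial common kernel by an approximate identity).
-/

set_option autoImplicit false

namespace Fermat.Agent.LT.H751

open Module End

section FiniteDim

variable {V : Type*} [AddCommGroup V] [Module ℂ V]

/-- A commuting set of endomorphisms has a common eigenvector in every nonzero finite-dimensional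
invariant subspace (no normality needed). -/
theorem exists_joint_eigenvector_of_finiteDimensional751 (𝒮 : Set (V →ₗ[ℂ] V))
    (hcomm : ∀ S ∈ 𝒮, ∀ T ∈ 𝒮, ∀ x : V, S (T x) = T (S x))
    (W : Submodule ℂ V) [FiniteDimensional ℂ W] (hW : W ≠ ⊥)
    (hinv : ∀ S ∈ 𝒮, ∀ w ∈ W, S w ∈ W) :
    ∃ v ∈ W, v ≠ 0 ∧ ∀ S ∈ 𝒮, ∃ c : ℂ, S v = c • v := by
  -- strong induction on the dimension of `W`
  suffices h : ∀ n : ℕ, ∀ W : Submodule ℂ V, FiniteDimensional ℂ W → finrank ℂ W = n → W ≠ ⊥ →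
      (∀ S ∈ 𝒮, ∀ w ∈ W, S w ∈ W) → ∃ v ∈ W, v ≠ 0 ∧ ∀ S ∈ 𝒮, ∃ c : ℂ, S v = c • v from
    h _ W inferInstance rfl hW hinv
  intro n
  induction n using Nat.strong_induction_on with
  | _ n ih =>
    intro W hfd hn hW hinv
    by_cases hsc : ∀ S ∈ 𝒮, ∃ c : ℂ, ∀ w ∈ W, S w = c • w
    · obtain ⟨v, hvW, hv0⟩ := (Submodule.ne_bot_iff W).1 hW
      exact ⟨v, hvW, hv0, fun S hS => (hsc S hS).imp fun c hc => hc v hvW⟩
    · push Not at hsc
      obtain ⟨S, hS, hSns⟩ := hsc
      -- an eigenvalue of `S` on `W`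
      have : Nontrivial W := Submodule.nontrivial_iff_ne_bot.2 hW
      let S' : End ℂ W := S.restrict (hinv S hS)
      obtain ⟨c, hc⟩ := Module.End.exists_eigenvalue S'
      obtain ⟨⟨w₀, hw₀W⟩, hw₀⟩ := hc.exists_hasEigenvector
      have hw₀eq : S w₀ = c • w₀ := by
        have := hw₀.apply_eq_smul
        have h2 := congrArg Subtype.val this
        simpa [S'] using h2
      have hw₀ne : w₀ ≠ 0 := fun h => hw₀.2 (Subtype.ext h)
      -- the smaller invariant subspace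
      let W' : Submodule ℂ V := W ⊓ eigenspace (S : End ℂ V) c
      have hW'le : W' ≤ W := inf_le_left
      have hW'ne : W' ≠ ⊥ := by
        refine (Submodule.ne_bot_iff _).2 ⟨w₀, ⟨hw₀W, ?_⟩, hw₀ne⟩
        exact mem_eigenspace_iff.2 hw₀eq
      have hW'lt : W' < W := by
        refine lt_of_le_of_ne hW'le fun h => ?_
        obtain ⟨w, hwW, hw⟩ := hSns c
        refine hw ?_
        have : w ∈ W' := h ▸ hwW
        exact mem_eigenspace_iff.1 this.2
      have hW'inv : ∀ T ∈ 𝒮, ∀ w ∈ W', T w ∈ W' := by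
        intro T hT w hw
        refine ⟨hinv T hT w hw.1, mem_eigenspace_iff.2 ?_⟩
        have h1 : S w = c • w := mem_eigenspace_iff.1 hw.2
        rw [hcomm S hS T hT w, h1, map_smul]
      have : FiniteDimensional ℂ W' := Submodule.finiteDimensional_of_le hW'le
      have hlt : finrank ℂ W' < n := hn ▸ Submodule.finrank_lt_finrank_of_lt hW'lt
      obtain ⟨v, hv, hv0, hvS⟩ := ih _ hlt W' inferInstance rfl hW'ne hW'inv
      exact ⟨v, hW'le hv, hv0, hvS⟩

end FiniteDim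

section Hilbert

variable {H : Type*} [NormedAddCommGroup H] [InnerProductSpace ℂ H] [CompleteSpace H]

open ContinuousLinearMap

/-- The orthogonal complement of a subspace which is invariant under an adjoint-closed set of
operators is invariant. -/
theorem orthogonal_invariant751 (𝒯 : Set (H →L[ℂ] H)) (hstar : ∀ T ∈ 𝒯, adjoint T ∈ 𝒯)
    (N : Submodule ℂ H) (hN : ∀ T ∈ 𝒯, ∀ y ∈ N, T y ∈ N) :
    ∀ T ∈ 𝒯, ∀ x ∈ Nᗮ, T x ∈ Nᗮ := by
  intro T hT x hx
  rw [Submodule.mem_orthogonal] at hx ⊢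
  intro y hy
  rw [← adjoint_inner_left]
  exact hx _ (hN _ (hstar T hT) y hy)

/-- **Key step.**  In the nonzero orthogonal complement of an invariant subspace there is a joint
eigenvector. -/
theorem exists_joint_eigenvector_orthogonal751 (𝒯 Kc : Set (H →L[ℂ] H))
    (hcomm : ∀ S ∈ 𝒯, ∀ T ∈ 𝒯, S * T = T * S)
    (hstar : ∀ T ∈ 𝒯, adjoint T ∈ 𝒯)
    (hK : Kc ⊆ 𝒯) (hcpt : ∀ k ∈ Kc, IsCompactOperator k)
    (hnd : ∀ x : H, (∀ k ∈ Kc, k x = 0) → x = 0)
    (N : Submodule ℂ H) (hN : ∀ T ∈ 𝒯, ∀ y ∈ N, T y ∈ N) (hP : Nᗮ ≠ ⊥) :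
    ∃ v ∈ Nᗮ, v ≠ 0 ∧ ∀ T ∈ 𝒯, ∃ c : ℂ, T v = c • v := by
  have hPinv := orthogonal_invariant751 𝒯 hstar N hN
  obtain ⟨x, hxP, hx0⟩ := (Submodule.ne_bot_iff _).1 hP
  -- a compact operator of the family which does not kill `x`
  obtain ⟨k, hk, hkx⟩ : ∃ k ∈ Kc, k x ≠ 0 := by
    by_contra h
    push Not at h
    exact hx0 (hnd x h)
  have hkT : k ∈ 𝒯 := hK hk
  have hksT : adjoint k ∈ 𝒯 := hstar k hkT
  -- `A = k† k` is compact, self-adjoint, commutes with the family, does not kill `x`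
  set A : H →L[ℂ] H := adjoint k * k with hA
  have hAcpt : IsCompactOperator A := (hcpt k hk).clm_comp (adjoint k)
  have hAsa : IsSelfAdjoint A := by
    rw [hA, ← star_eq_adjoint]
    exact IsSelfAdjoint.star_mul_self k
  have hAsym : (A : H →ₗ[ℂ] H).IsSymmetric := hAsa.isSymmetric
  have hAcomm : ∀ T ∈ 𝒯, ∀ y : H, A (T y) = T (A y) := by
    intro T hT y
    have h1 : k * T = T * k := hcomm k hkT T hT
    have h2 : adjoint k * T = T * adjoint k := hcomm _ hksT T hT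
    have h3 : A * T = T * A := by
      rw [hA, mul_assoc, h1, ← mul_assoc, h2, mul_assoc]
    exact congrArg (fun f : H →L[ℂ] H => f y) h3
  have hAx : A x ≠ 0 := by
    intro h
    have h1 : inner ℂ (A x) x = inner ℂ (k x) (k x) := by
      rw [hA]
      exact adjoint_inner_left k x (k x)
    rw [h, inner_zero_left] at h1
    exact hkx (inner_self_eq_zero.1 h1.symm)
  have hAP : ∀ v ∈ Nᗮ, A v ∈ Nᗮ := fun v hv =>
    hPinv _ hksT _ (hPinv _ hkT _ hv)
  -- the restriction of `A` to `P = Nᗮ` has a nonzero eigenvalue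
  let S : Nᗮ →L[ℂ] Nᗮ := A.restrict hAP
  have hScpt : IsCompactOperator S := hAcpt.restrict' hAP
  have hSsym : (S : Nᗮ →ₗ[ℂ] Nᗮ).IsSymmetric := hAsym.restrict_invariant hAP
  have hS0 : S ≠ 0 := by
    intro h
    have h1 : S ⟨x, hxP⟩ = 0 := by rw [h]; rfl
    exact hAx (congrArg Subtype.val h1)
  obtain ⟨μ, hμ, hμ0⟩ : ∃ μ : ℂ, HasEigenvalue (S : End ℂ Nᗮ) μ ∧ μ ≠ 0 := by
    by_contra h
    push Not at h
    exact hS0 ((eq_zero_of_forall_hasEigenvalue_eq_zero hScpt hSsym).1 h)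
  obtain ⟨⟨v₀, hv₀P⟩, hv₀⟩ := hμ.exists_hasEigenvector
  have hv₀eq : A v₀ = μ • v₀ := congrArg Subtype.val hv₀.apply_eq_smul
  have hv₀ne : v₀ ≠ 0 := fun h => hv₀.2 (Subtype.ext h)
  -- the finite-dimensional invariant subspace `W`
  let W : Submodule ℂ H := Nᗮ ⊓ eigenspace (A : End ℂ H) μ
  have hWne : W ≠ ⊥ :=
    (Submodule.ne_bot_iff _).2 ⟨v₀, ⟨hv₀P, mem_eigenspace_iff.2 hv₀eq⟩, hv₀ne⟩
  have : FiniteDimensional ℂ (eigenspace (A : End ℂ H) μ) :=
    finite_dimensional_eigenspace hAcpt μ hμ0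
  have : FiniteDimensional ℂ W := Submodule.finiteDimensional_of_le inf_le_right
  obtain ⟨v, hvW, hv0, hv⟩ := exists_joint_eigenvector_of_finiteDimensional751
    ((fun T : H →L[ℂ] H => (T : H →ₗ[ℂ] H)) '' 𝒯)
    (by
      rintro _ ⟨S₁, hS₁, rfl⟩ _ ⟨S₂, hS₂, rfl⟩ y
      exact congrArg (fun f : H →L[ℂ] H => f y) (hcomm S₁ hS₁ S₂ hS₂))
    W hWne
    (by
      rintro _ ⟨T, hT, rfl⟩ w hw
      refine ⟨hPinv T hT w hw.1, mem_eigenspace_iff.2 ?_⟩
      have h1 : A w = μ • w := mem_eigenspace_iff.1 hw.2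
      change A (T w) = μ • T w
      rw [hAcomm T hT w, h1, map_smul])
  exact ⟨v, hvW.1, hv0, fun T hT => hv _ ⟨T, hT, rfl⟩⟩

/-- A maximal orthonormal set of joint eigenvectors has trivial orthogonal complement. -/
theorem exists_orthonormal_joint_eigen751 (𝒯 Kc : Set (H →L[ℂ] H))
    (hcomm : ∀ S ∈ 𝒯, ∀ T ∈ 𝒯, S * T = T * S)
    (hstar : ∀ T ∈ 𝒯, adjoint T ∈ 𝒯)
    (hK : Kc ⊆ 𝒯) (hcpt : ∀ k ∈ Kc, IsCompactOperator k)
    (hnd : ∀ x : H, (∀ k ∈ Kc, k x = 0) → x = 0) :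
    ∃ s : Set H, Orthonormal ℂ (Subtype.val : s → H) ∧
      (∀ x ∈ s, ∀ T ∈ 𝒯, ∃ c : ℂ, T x = c • x) ∧ (Submodule.span ℂ s)ᗮ = ⊥ := by
  classical
  -- Zorn: a maximal orthonormal set of joint eigenvectors
  obtain ⟨s, -, hsmax⟩ := zorn_subset_nonempty
    {b : Set H | (∀ x ∈ b, ∀ T ∈ 𝒯, ∃ c : ℂ, T x = c • x) ∧
      Orthonormal ℂ (Subtype.val : b → H)}
    (by
      refine fun c hc cc _ => ⟨⋃₀ c, ⟨?_, ?_⟩, fun _ => Set.subset_sUnion_of_mem⟩
      · rintro x ⟨b, hb, hxb⟩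
        exact (hc hb).1 x hxb
      · exact orthonormal_sUnion_of_directed cc.directedOn fun x xc => (hc xc).2)
    ∅ ⟨fun x hx => absurd hx (Set.notMem_empty x), orthonormal_empty ℂ H⟩
  obtain ⟨⟨hsJ, hso⟩, hmax⟩ := hsmax
  refine ⟨s, hso, hsJ, ?_⟩
  by_contra hP
  -- `span s` is invariant
  have hN : ∀ T ∈ 𝒯, ∀ y ∈ Submodule.span ℂ s, T y ∈ Submodule.span ℂ s := by
    intro T hT y hy
    induction hy using Submodule.span_induction with
    | mem x hx =>
      obtain ⟨c, hc⟩ := hsJ x hx T hT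
      rw [hc]
      exact Submodule.smul_mem _ _ (Submodule.subset_span hx)
    | zero => simp
    | add x y _ _ hx hy => rw [map_add]; exact Submodule.add_mem _ hx hy
    | smul a x _ hx => rw [map_smul]; exact Submodule.smul_mem _ _ hx
  obtain ⟨v, hvP, hv0, hvJ⟩ :=
    exists_joint_eigenvector_orthogonal751 𝒯 Kc hcomm hstar hK hcpt hnd _ hN hP
  -- normalise
  have hnv : (‖v‖ : ℂ) ≠ 0 := by
    simpa using hv0
  set u : H := ((‖v‖ : ℂ)⁻¹) • v with hu
  have huP : u ∈ (Submodule.span ℂ s)ᗮ := Submodule.smul_mem _ _ hvP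
  have hun : ‖u‖ = 1 := by
    rw [hu, norm_smul, norm_inv, Complex.norm_real, norm_norm,
      inv_mul_cancel₀ (norm_ne_zero_iff.2 hv0)]
  have huJ : ∀ T ∈ 𝒯, ∃ c : ℂ, T u = c • u := by
    intro T hT
    obtain ⟨c, hc⟩ := hvJ T hT
    exact ⟨c, by rw [hu, map_smul, hc, smul_comm]⟩
  have hus : u ∉ s := by
    intro h
    have h1 : inner ℂ u u = 0 :=
      (Submodule.mem_orthogonal _ _).1 huP u (Submodule.subset_span h)
    have h2 : u = 0 := inner_self_eq_zero.1 h1
    rw [h2, norm_zero] at hun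
    exact zero_ne_one hun
  have hins : insert u s ∈ {b : Set H | (∀ x ∈ b, ∀ T ∈ 𝒯, ∃ c : ℂ, T x = c • x) ∧
      Orthonormal ℂ (Subtype.val : b → H)} := by
    refine ⟨?_, ?_⟩
    · rintro x (rfl | hx)
      · exact huJ
      · exact hsJ x hx
    · rw [orthonormal_subtype_iff_ite] at hso ⊢
      rintro a (rfl | ha) b (rfl | hb)
      · simp [inner_self_eq_norm_sq_to_K, hun]
      · have hab : u ≠ b := fun h => hus (h ▸ hb)
        rw [if_neg hab]
        have := (Submodule.mem_orthogonal _ _).1 huP b (Submodule.subset_span hb)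
        rw [← inner_conj_symm, this, map_zero]
      · have hab : a ≠ u := fun h => hus (h ▸ ha)
        rw [if_neg hab]
        exact (Submodule.mem_orthogonal _ _).1 huP a (Submodule.subset_span ha)
      · exact hso a ha b hb
  exact hus (hmax hins (Set.subset_insert u s) (Set.mem_insert u s))

universe u

/-- **Joint eigenbasis.**  A commuting, adjoint-closed set `𝒯` of bounded operators on a complex
Hilbert space which contains a set `Kc` of compact operators with trivial common kernel admits a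
Hilbert basis of joint eigenvectors. -/
theorem exists_hilbertBasis_joint_eigen751 {H : Type u} [NormedAddCommGroup H]
    [InnerProductSpace ℂ H] [CompleteSpace H] (𝒯 Kc : Set (H →L[ℂ] H))
    (hcomm : ∀ S ∈ 𝒯, ∀ T ∈ 𝒯, S * T = T * S)
    (hstar : ∀ T ∈ 𝒯, adjoint T ∈ 𝒯)
    (hK : Kc ⊆ 𝒯) (hcpt : ∀ k ∈ Kc, IsCompactOperator k)
    (hnd : ∀ x : H, (∀ k ∈ Kc, k x = 0) → x = 0) :
    ∃ (ι : Type u) (b : HilbertBasis ι ℂ H), ∀ i : ι, ∀ T ∈ 𝒯, ∃ c : ℂ, T (b i) = c • b i := by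
  obtain ⟨s, hso, hsJ, hsp⟩ := exists_orthonormal_joint_eigen751 𝒯 Kc hcomm hstar hK hcpt hnd
  refine ⟨s, HilbertBasis.mkOfOrthogonalEqBot hso (by rwa [Subtype.range_coe]), ?_⟩
  intro i T hT
  rw [HilbertBasis.coe_mkOfOrthogonalEqBot]
  exact hsJ i i.2 T hT

/-- Every joint eigenspace of a set of operators which contains a set of compact operators with
trivial common kernel is finite-dimensional. -/
theorem finiteDimensional_iInf_eigenspace751 (𝒯 Kc : Set (H →L[ℂ] H))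
    (hK : Kc ⊆ 𝒯) (hcpt : ∀ k ∈ Kc, IsCompactOperator k)
    (hnd : ∀ x : H, (∀ k ∈ Kc, k x = 0) → x = 0) (χ : (H →L[ℂ] H) → ℂ) :
    FiniteDimensional ℂ
      (⨅ T ∈ 𝒯, eigenspace ((T : H →L[ℂ] H) : End ℂ H) (χ T) : Submodule ℂ H) := by
  set E : Submodule ℂ H := ⨅ T ∈ 𝒯, eigenspace ((T : H →L[ℂ] H) : End ℂ H) (χ T) with hE
  have hmem : ∀ x ∈ E, ∀ T ∈ 𝒯, T x = χ T • x := by
    intro x hx T hT
    have h1 : x ∈ eigenspace ((T : H →L[ℂ] H) : End ℂ H) (χ T) := by
      have := (Submodule.mem_iInf _).1 hx T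
      exact (Submodule.mem_iInf _).1 this hT
    exact mem_eigenspace_iff.1 h1
  by_cases hbot : E = ⊥
  · rw [hbot]
    infer_instance
  · obtain ⟨x, hxE, hx0⟩ := (Submodule.ne_bot_iff _).1 hbot
    obtain ⟨k, hk, hkx⟩ : ∃ k ∈ Kc, k x ≠ 0 := by
      by_contra h
      push Not at h
      exact hx0 (hnd x h)
    have hχ : χ k ≠ 0 := by
      intro h
      apply hkx
      rw [hmem x hxE k (hK hk), h, zero_smul]
    have : FiniteDimensional ℂ (eigenspace ((k : H →L[ℂ] H) : End ℂ H) (χ k)) :=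
      finite_dimensional_eigenspace (hcpt k hk) (χ k) hχ
    have hle : E ≤ eigenspace ((k : H →L[ℂ] H) : End ℂ H) (χ k) := fun y hy =>
      mem_eigenspace_iff.2 (hmem y hy k (hK hk))
    exact Submodule.finiteDimensional_of_le hle

/-- A joint eigenvector of a commuting adjoint-closed set: the eigenvalue of the adjoint is the
conjugate eigenvalue. -/
theorem adjoint_apply_of_eigen751 (T : H →L[ℂ] H) (hT : adjoint T * T = T * adjoint T)
    (x : H) (c : ℂ) (hx : T x = c • x) : adjoint T x = (starRingEnd ℂ) c • x := by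
  -- `S = T - c` is normal and kills `x`, so `S†` kills `x`
  set S : H →L[ℂ] H := T - c • (1 : H →L[ℂ] H) with hS
  have hSadj : adjoint S = adjoint T - (starRingEnd ℂ) c • (1 : H →L[ℂ] H) := by
    rw [hS, map_sub, LinearIsometryEquiv.map_smulₛₗ]
    congr 2
    rw [← star_eq_adjoint, star_one]
  have hSx : S x = 0 := by
    simp [hS, hx]
  have hnorm : adjoint S * S = S * adjoint S := by
    rw [hSadj, hS]
    simp only [sub_mul, mul_sub, smul_mul_assoc, mul_smul_comm, one_mul, mul_one, hT, smul_sub,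
      smul_smul, mul_comm c ((starRingEnd ℂ) c)]
    abel
  have h1 : inner ℂ (adjoint S x) (adjoint S x) = inner ℂ (S x) (S x) := by
    rw [adjoint_inner_left, ← adjoint_inner_right (A := S)]
    congr 1
    exact (congrArg (fun f : H →L[ℂ] H => f x) hnorm).symm
  rw [hSx, inner_zero_left] at h1
  have h2 : adjoint S x = 0 := inner_self_eq_zero.1 h1
  rw [hSadj] at h2
  simpa [sub_eq_zero] using h2

omit [CompleteSpace H] in
/-- In a separable space every orthonormal family is countable. -/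
theorem countable_of_orthonormal751 [TopologicalSpace.SeparableSpace H] {ι : Type*}
    {v : ι → H} (hv : Orthonormal ℂ v) : Countable ι := by
  classical
  have hd : ∀ i : ι, ∃ n : ℕ, dist (v i) (TopologicalSpace.denseSeq H n) < 1 / 2 := fun i =>
    (TopologicalSpace.denseRange_denseSeq H).exists_dist_lt (v i) (by norm_num)
  choose f hf using hd
  refine Function.Injective.countable (f := f) fun i j hij => ?_
  by_contra hne
  have h1 : dist (v i) (v j) < 1 := by
    calc dist (v i) (v j) ≤ dist (v i) (TopologicalSpace.denseSeq H (f i))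
          + dist (TopologicalSpace.denseSeq H (f i)) (v j) := dist_triangle _ _ _
      _ < 1 / 2 + 1 / 2 := by
          refine add_lt_add (hf i) ?_
          rw [hij, dist_comm]
          exact hf j
      _ = 1 := by norm_num
  have h2 : ‖v i - v j‖ ^ 2 = 2 := by
    rw [@norm_sub_sq ℂ, hv.1 i, hv.1 j, hv.2 hne]
    norm_num
  rw [dist_eq_norm] at h1
  have h3 : ‖v i - v j‖ ^ 2 < 1 := by
    have h0 : 0 ≤ ‖v i - v j‖ := norm_nonneg _
    nlinarith
  linarith

/-- **Joint eigenbasis, separable case**: the basis is indexed by a countable type. -/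
theorem exists_hilbertBasis_joint_eigen_countable751 {H : Type u} [NormedAddCommGroup H]
    [InnerProductSpace ℂ H] [CompleteSpace H] [TopologicalSpace.SeparableSpace H]
    (𝒯 Kc : Set (H →L[ℂ] H))
    (hcomm : ∀ S ∈ 𝒯, ∀ T ∈ 𝒯, S * T = T * S)
    (hstar : ∀ T ∈ 𝒯, adjoint T ∈ 𝒯)
    (hK : Kc ⊆ 𝒯) (hcpt : ∀ k ∈ Kc, IsCompactOperator k)
    (hnd : ∀ x : H, (∀ k ∈ Kc, k x = 0) → x = 0) :
    ∃ (ι : Type u) (_ : Countable ι) (b : HilbertBasis ι ℂ H),
      ∀ i : ι, ∀ T ∈ 𝒯, ∃ c : ℂ, T (b i) = c • b i ∧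
        adjoint T (b i) = (starRingEnd ℂ) c • b i := by
  obtain ⟨ι, b, hb⟩ := exists_hilbertBasis_joint_eigen751 𝒯 Kc hcomm hstar hK hcpt hnd
  refine ⟨ι, countable_of_orthonormal751 b.orthonormal, b, fun i T hT => ?_⟩
  obtain ⟨c, hc⟩ := hb i T hT
  exact ⟨c, hc, adjoint_apply_of_eigen751 T (hcomm _ (hstar T hT) T hT) _ c hc⟩

end Hilbert

end Fermat.Agent.LT.H751

end
-- ===== PACK-END LT/H751/JointSpec.lean

-- ===== PACK-BEGIN LT/T3/M/H719/ProdHaarM.lean
section


/-!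
# Row LT, tower T3, station T3.18M, leaf M.7 `SplitMC` (helper719): the generic part -- OFF-MAIN

`prodHaarM719` (Mathlib only): a Haar measure of `(∀ i, A i) × (ι → ℂ)` (`A i` locally compact,
second countable, Hausdorff commutative topological groups with their Borel σ-algebras, `ι₁`, `ι`
finite) integrates the pure tensors of continuous functions with compact support to the product
of the integrals (Haar measures `Measure.addHaar` on the `A i`, Lebesgue on `ℂ`), up to a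
constant.  Multi-factor form of `T3.H800.prodHaarC800` (helper800).
-/

set_option autoImplicit false

open MeasureTheory

noncomputable section

namespace Fermat.Agent.LT.T3.M.H719

/-- A pure tensor of functions with compact support has compact support. -/
theorem hasCompactSupport_tensorM719 {ι₁ ι : Type} [Fintype ι₁] [Fintype ι] {A : ι₁ → Type}
    [∀ i, TopologicalSpace (A i)] [∀ i, T2Space (A i)]
    {φ₀ : ∀ i, A i → ℂ} {φ : ι → ℂ → ℂ} (h₀ : ∀ i, HasCompactSupport (φ₀ i))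
    (h : ∀ w, HasCompactSupport (φ w)) :
    HasCompactSupport (fun p : (∀ i, A i) × (ι → ℂ) =>
      (∏ i, φ₀ i (p.1 i)) * ∏ w : ι, φ w (p.2 w)) := by
  have hK : IsCompact ((Set.pi Set.univ fun i => tsupport (φ₀ i)) ×ˢ
      (Set.pi Set.univ fun w => tsupport (φ w))) :=
    (isCompact_univ_pi fun i => h₀ i).prod (isCompact_univ_pi fun w => h w)
  refine HasCompactSupport.intro hK fun p hp => ?_
  by_contra hne
  apply hp
  have h1 : ∏ i, φ₀ i (p.1 i) ≠ 0 := fun h0 => hne (by rw [h0, zero_mul])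
  have h2 : ∏ w : ι, φ w (p.2 w) ≠ 0 := fun h0 => hne (by rw [h0, mul_zero])
  refine ⟨fun i _ => subset_tsupport _ ?_, fun w _ => subset_tsupport _ ?_⟩
  · exact (Finset.prod_ne_zero_iff.mp h1) i (Finset.mem_univ i)
  · exact (Finset.prod_ne_zero_iff.mp h2) w (Finset.mem_univ w)

/-- **Multi-factor `ProdHaar`.** -/
theorem prodHaarM719 {ι₁ : Type} [Fintype ι₁] (A : ι₁ → Type) [∀ i, AddCommGroup (A i)]
    [∀ i, TopologicalSpace (A i)] [∀ i, IsTopologicalAddGroup (A i)]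
    [∀ i, LocallyCompactSpace (A i)] [∀ i, T2Space (A i)]
    [∀ i, SecondCountableTopology (A i)] [∀ i, MeasurableSpace (A i)] [∀ i, BorelSpace (A i)]
    (ι : Type) [Fintype ι]
    (μ : Measure ((∀ i, A i) × (ι → ℂ))) (hμ : μ.IsAddHaarMeasure) :
    ∃ c₀ : ℂ, ∀ (φ₀ : ∀ i, A i → ℂ) (φ : ι → ℂ → ℂ),
      (∀ i, Continuous (φ₀ i)) → (∀ i, HasCompactSupport (φ₀ i)) →
      (∀ w, Continuous (φ w)) → (∀ w, HasCompactSupport (φ w)) →
      Integrable (fun h : (∀ i, A i) × (ι → ℂ) =>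
        (∏ i, φ₀ i (h.1 i)) * ∏ w : ι, φ w (h.2 w)) μ ∧
      ∫ h, (∏ i, φ₀ i (h.1 i)) * ∏ w : ι, φ w (h.2 w) ∂μ
        = c₀ * (∏ i, ∫ x, φ₀ i x ∂(Measure.addHaar : Measure (A i)))
          * ∏ w : ι, ∫ z : ℂ, φ w z := by
  set π₀ : Measure (∀ i, A i) := Measure.pi (fun i => (Measure.addHaar : Measure (A i)))
    with hπ₀
  have hπ₀' : π₀.IsAddHaarMeasure := by rw [hπ₀]; infer_instance
  set m : Measure ((∀ i, A i) × (ι → ℂ)) := π₀.prod (volume : Measure (ι → ℂ)) with hm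
  have hm' : m.IsAddHaarMeasure := Measure.prod.instIsAddHaarMeasure _ _
  have hμm : μ = Measure.addHaarScalarFactor μ m • m := Measure.isAddLeftInvariant_eq_smul μ m
  refine ⟨((Measure.addHaarScalarFactor μ m : NNReal) : ℝ), fun φ₀ φ hc₀ hs₀ hc hs => ?_⟩
  have hcont : Continuous (fun p : (∀ i, A i) × (ι → ℂ) =>
      (∏ i, φ₀ i (p.1 i)) * ∏ w : ι, φ w (p.2 w)) :=
    (continuous_finsetProd _ fun i _ =>
        (hc₀ i).comp ((continuous_apply i).comp continuous_fst)).mul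
      (continuous_finsetProd _ fun w _ => (hc w).comp ((continuous_apply w).comp continuous_snd))
  have hsupp := hasCompactSupport_tensorM719 hs₀ hs
  refine ⟨hcont.integrable_of_hasCompactSupport hsupp, ?_⟩
  have h1 : ∫ p, (∏ i, φ₀ i (p.1 i)) * ∏ w : ι, φ w (p.2 w) ∂μ
      = ((Measure.addHaarScalarFactor μ m : NNReal) : ℝ)
        • ∫ p, (∏ i, φ₀ i (p.1 i)) * ∏ w : ι, φ w (p.2 w) ∂m := by
    conv_lhs => rw [hμm]
    rw [integral_smul_nnreal_measure]
    rfl
  have h2 : ∫ p, (∏ i, φ₀ i (p.1 i)) * ∏ w : ι, φ w (p.2 w) ∂m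
      = (∫ x : (∀ i, A i), ∏ i, φ₀ i (x i) ∂π₀) * ∫ y : ι → ℂ, ∏ w : ι, φ w (y w) :=
    integral_prod_mul (fun x : (∀ i, A i) => ∏ i, φ₀ i (x i))
      (fun y : ι → ℂ => ∏ w : ι, φ w (y w))
  have h3 : ∫ y : ι → ℂ, ∏ w : ι, φ w (y w) = ∏ w : ι, ∫ z : ℂ, φ w z :=
    integral_fintype_prod_volume_eq_prod φ
  have h4 : ∫ x : (∀ i, A i), ∏ i, φ₀ i (x i) ∂π₀
      = ∏ i, ∫ x, φ₀ i x ∂(Measure.addHaar : Measure (A i)) :=
    integral_fintype_prod_eq_prod φ₀
  rw [h1, h2, h3, h4, Complex.real_smul, mul_assoc]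

end Fermat.Agent.LT.T3.M.H719

end

end
-- ===== PACK-END LT/T3/M/H719/ProdHaarM.lean

-- ===== PACK-BEGIN LT/T6/H438/HasseQ3.lean
section


/-!
# Row LT, tower T6, leaf T6.00 at `l = 2` over `ℚ` (helper438, OFF-MAIN): `HasseNormQ3`

The quadratic step `A3q` (`K = ℚ`, `K' = F = ℚ(√-3)`) needs Hasse's norm theorem for
`M = L(√-3)` over `L = ℚ[γ]`, an ARBITRARY quadratic field `≠ F`, real quadratic included
(both real places ramify in `M`).  Tower CFT is totally complex only.  This file cuts the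
statement into ELEMENTARY leaves (Mathlib only, no class field theory, no idèles):

    HasseNormQ3C  ⟸  QuadGenC + LocalAC + NormFC + AlgBC + LocMulC + LocalCC + CoreC + AlgCC

* Step A (`LocalAC` + `NormFC`): `n = N_{L/ℚ}(x)` is `> 0` with even valuation at every prime
  `p ≡ 2 mod 3`, hence `n = a² + 3 b²` (a norm from `F`).
* Step B (`AlgBC`): if `N_{L/ℚ}(x) = N_{F/ℚ}(z)` then `N_{M/L}(x + z) = x (Tr x + Tr z)`, so
  `x = c · N_{M/L}(y)` with `c ∈ ℚ^×`.
* Step C (`LocMulC` + `LocalCC` + `CoreC` + `AlgCC`): `c` is again a local norm everywhere; this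
  says exactly `RatCond d c` (no place which SPLITS in `L = ℚ(√d)` ramifies in the quaternion
  algebra `(-3, c)_ℚ`); then `c ∈ N(F^×) · N(ℚ(√(-3d))^×)` (`CoreC`: Hasse principle for
  "`L` splits `(-3, c)_ℚ`" = Legendre's theorem + Dirichlet's theorem + quadratic reciprocity), and
  both factors are norms from `M` to `L`.

Every Prop below is a TRUE statement.  Definitions and the PROVED top only; no `sorry`.
-/

set_option autoImplicit false

open IsDedekindDomain NumberField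

noncomputable section

namespace Fermat.Agent.LT.T6.H438

/-! ## The statement -/

/-- `x` is a local norm from `M` at every finite place of `L` (the hypothesis of `T6.HasseNormC`,
verbatim). -/
def IsLocNormFin438 (L M : Type) [Field L] [NumberField L] [Field M] [NumberField M]
    [Algebra L M] (x : L) : Prop :=
  ∀ u : IsDedekindDomain.HeightOneSpectrum (NumberField.RingOfIntegers L),
    ∃ y : TensorProduct L (u.adicCompletion L) M,
      Algebra.norm (u.adicCompletion L) (S := TensorProduct L (u.adicCompletion L) M) y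
        = algebraMap L (u.adicCompletion L) x

/-- `x` is a local norm from `M` at every infinite place of `L` (the hypothesis of
`T6.HasseNormC`, verbatim). -/
def IsLocNormInf438 (L M : Type) [Field L] [NumberField L] [Field M] [NumberField M]
    [Algebra L M] (x : L) : Prop :=
  ∀ u : NumberField.InfinitePlace L,
    ∃ y : TensorProduct L u.Completion M,
      Algebra.norm u.Completion (S := TensorProduct L u.Completion M) y
        = algebraMap L u.Completion x

/-- `(L, M)` is a pair of the quadratic step: `[L : ℚ] = 2`, `[M : L] = 2`, `√-3 ∈ M`,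
`√-3 ∉ L`. -/
structure IsQ3Pair438 (L M : Type) [Field L] [NumberField L] [Field M] [NumberField M]
    [Algebra L M] : Prop where
  degL : Module.finrank ℚ L = 2
  degM : Module.finrank L M = 2
  root : ∃ r : M, r ^ 2 = -3
  noRoot : ∀ s : L, s ^ 2 ≠ -3

/-- **HASSE NORM THEOREM for `M = L(√-3)`, `L` a quadratic field** (real or imaginary). -/
def HasseNormQ3C438 : Prop :=
  ∀ (L M : Type) [Field L] [NumberField L] [Field M] [NumberField M] [Algebra L M],
    IsQ3Pair438 L M → ∀ x : L, x ≠ 0 → IsLocNormFin438 L M x → IsLocNormInf438 L M x →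
      ∃ y : M, Algebra.norm L y = x

/-! ## Rational conditions -/

/-- The prime `p` splits in `ℚ(√d)` (`d` squarefree): `d ≡ 1 mod 8` for `p = 2`, and `d` a nonzero
square mod `p` for `p` odd. -/
def Splits438 (d : ℤ) (p : ℕ) : Prop :=
  (p = 2 ∧ d % 8 = 1) ∨ (p ≠ 2 ∧ ¬ (p : ℤ) ∣ d ∧ IsSquare ((d : ZMod p)))

/-- `n` is everywhere locally a norm from `F = ℚ(√-3)`: `n > 0` and `v_p(n)` is even for every
prime `p ≡ 2 mod 3` (the condition at `3` follows). -/
def NormCondF438 (n : ℚ) : Prop :=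
  0 < n ∧ ∀ p : ℕ, p.Prime → p % 3 = 2 → Even (padicValRat p n)

/-- The `3`-adic unit part of `c` is `≡ 1 mod 3`, in product-formula form:
`sign(c) · (-1)^{#{p ≡ 2 mod 3 : v_p(c) odd}} = 1`. -/
def Lam3_438 (c : ℚ) : Prop :=
  ∃ P : Finset ℕ, (∀ p : ℕ, p ∈ P ↔ p.Prime ∧ p % 3 = 2 ∧ Odd (padicValRat p c)) ∧
    (0 < c ↔ Even P.card)

/-- `c ∈ ℚ^×` is everywhere locally a norm from `L(√-3)` to `L = ℚ(√d)`:
no place which splits in `L` ramifies in `(-3, c)_ℚ`. -/
structure RatCond438 (d : ℤ) (c : ℚ) : Prop where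
  atInf : 0 < d → 0 < c
  atInert : ∀ p : ℕ, p.Prime → p % 3 = 2 → Odd (padicValRat p c) → ¬ Splits438 d p
  atThree : d % 3 = 1 → Lam3_438 c

/-! ## The leaves -/

/-- **Leaf QUAD-GEN.**  A quadratic field is `ℚ(√d)`, `d ≠ 1` a squarefree integer. -/
def QuadGenC438 : Prop :=
  ∀ (L : Type) [Field L] [NumberField L], Module.finrank ℚ L = 2 →
    ∃ d : ℤ, Squarefree d ∧ d ≠ 1 ∧ ∃ δ : L, δ ^ 2 = (d : L)

/-- **Leaf LOCAL-A.**  If `x` is a local norm everywhere from `M = L(√-3)`, then `N_{L/ℚ}(x)` is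
everywhere locally a norm from `F`: positive (`L` imaginary: automatic; `L` real: `x` is totally
positive), and `v_p` even for `p ≡ 2 mod 3` (at `u | p` of residue degree `1` the algebra
`L_u ⊗ M` is the unramified quadratic extension: `X² + X + 1` is irreducible mod `p`; `p` inert
in `L`: `v_p(N x) = 2 v_u(x)`). -/
def LocalAC438 : Prop :=
  ∀ (L M : Type) [Field L] [NumberField L] [Field M] [NumberField M] [Algebra L M],
    IsQ3Pair438 L M → ∀ x : L, x ≠ 0 → IsLocNormFin438 L M x → IsLocNormInf438 L M x →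
      NormCondF438 (Algebra.norm ℚ x)

/-- **Leaf NORM-F.**  The norms from `ℚ(√-3)`: a positive rational with even valuation at every
prime `p ≡ 2 mod 3` is `a² + 3 b²` (`3 = 0² + 3·1²`, `p ≡ 1 mod 3` is `a² + 3b²`, squares). -/
def NormFC438 : Prop :=
  ∀ n : ℚ, NormCondF438 n → ∃ a b : ℚ, n = a ^ 2 + 3 * b ^ 2

/-- **Leaf ALG-B** (pure field theory).  If `N_{L/ℚ}(x) = a² + 3b² = N_{F/ℚ}(z)`, `z = a + b√-3`,
then `N_{M/L}(x ± z) = x (Tr_{L/ℚ} x ± 2a)`, and one of the two traces is `≠ 0` because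
`√-3 ∉ L`.  So `x = c · N_{M/L}(y)` with `c ∈ ℚ^×`. -/
def AlgBC438 : Prop :=
  ∀ (L M : Type) [Field L] [NumberField L] [Field M] [NumberField M] [Algebra L M],
    IsQ3Pair438 L M → ∀ x : L, x ≠ 0 → (∃ a b : ℚ, Algebra.norm ℚ x = a ^ 2 + 3 * b ^ 2) →
      ∃ (c : ℚ) (y : M), c ≠ 0 ∧ y ≠ 0 ∧ x = algebraMap ℚ L c * Algebra.norm L y

/-- **Leaf LOC-MUL.**  The local norm conditions are stable under division by a global norm
(`Algebra.norm` commutes with the base change `L_u ⊗_L ·`, and is multiplicative). -/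
def LocMulC438 : Prop :=
  ∀ (L M : Type) [Field L] [NumberField L] [Field M] [NumberField M] [Algebra L M],
    IsQ3Pair438 L M → ∀ (x c : L) (y : M), y ≠ 0 → x = c * Algebra.norm L y →
      IsLocNormFin438 L M x → IsLocNormInf438 L M x →
        IsLocNormFin438 L M c ∧ IsLocNormInf438 L M c

/-- **Leaf LOCAL-C.**  For `c ∈ ℚ^×`: if `c` is a local norm everywhere from `M = L(√-3)`,
`L = ℚ(√d)`, then `RatCond d c` (`L` real: `c > 0`; `p ≡ 2 mod 3` split in `L`: `L_u = ℚ_p`,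
`L_u ⊗ M` unramified quadratic, `v_p(c)` even; `3` split in `L`: `c = a² + 3b²` in `ℚ_3`, so the
unit part of `c` is a square mod `3`).  `d ≠ 1` makes `δ` a generator of `L`. -/
def LocalCC438 : Prop :=
  ∀ (L M : Type) [Field L] [NumberField L] [Field M] [NumberField M] [Algebra L M],
    IsQ3Pair438 L M → ∀ (d : ℤ) (δ : L), Squarefree d → d ≠ 1 → δ ^ 2 = (d : L) →
      ∀ c : ℚ, c ≠ 0 → IsLocNormFin438 L M (algebraMap ℚ L c) →
        IsLocNormInf438 L M (algebraMap ℚ L c) → RatCond438 d c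

/-- **Leaf CORE (elementary number theory over `ℚ`).**  Hasse principle for "`ℚ(√d)` splits
`(-3, c)_ℚ`": if no place which splits in `ℚ(√d)` ramifies in `(-3, c)`, then
`c ∈ N(ℚ(√-3)^×) · N(ℚ(√(-3d))^×)`.  Serre, *Cours d'arithmétique* IV Thm 8 (`n = 4`) for the
form `a² + 3b² - c e² - 3cd f²`: Legendre's theorem (ternary forms) + Dirichlet's theorem on
primes in arithmetic progressions (Mathlib) + quadratic reciprocity (Mathlib). -/
def CoreC438 : Prop :=
  ∀ (d : ℤ) (c : ℚ), Squarefree d → d ≠ 1 → d ≠ -3 → c ≠ 0 → RatCond438 d c →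
    ∃ a b e f : ℚ, (e ≠ 0 ∨ f ≠ 0) ∧ c * (e ^ 2 + 3 * (d : ℚ) * f ^ 2) = a ^ 2 + 3 * b ^ 2

/-- **Leaf ALG-C** (pure field theory).  `N(F^×) · N(ℚ(√(-3d))^×) ⊆ N_{M/L}(M^×)`: for
`r² = -3`, `δ² = d`: `N_{M/L}(a + b r) = a² + 3b²` and `N_{M/L}(e + f r δ) = e² + 3 d f²` (`≠ 0` because `√-3 ∉ L` and
`d ≠ 0`). -/
def AlgCC438 : Prop :=
  ∀ (L M : Type) [Field L] [NumberField L] [Field M] [NumberField M] [Algebra L M],
    IsQ3Pair438 L M → ∀ (d : ℤ) (δ : L), Squarefree d → δ ^ 2 = (d : L) → ∀ c : ℚ, c ≠ 0 →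
      (∃ a b e f : ℚ, (e ≠ 0 ∨ f ≠ 0) ∧
        c * (e ^ 2 + 3 * (d : ℚ) * f ^ 2) = a ^ 2 + 3 * b ^ 2) →
      ∃ y : M, Algebra.norm L y = algebraMap ℚ L c

/-! ## The top -/

/-- **TOP.**  `HasseNormQ3C` from the eight elementary leaves. -/
theorem hasseNormQ3_of_leaves438 (hgen : QuadGenC438) (hA : LocalAC438) (hF : NormFC438)
    (hB : AlgBC438) (hmul : LocMulC438) (hC : LocalCC438) (hcore : CoreC438)
    (hAC : AlgCC438) : HasseNormQ3C438 := by
  intro L M _ _ _ _ _ hp x hx hfin hinf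
  obtain ⟨d, hdsf, hd1, δ, hδ⟩ := hgen L hp.degL
  have hd3 : d ≠ -3 := by
    rintro rfl
    exact hp.noRoot δ (by rw [hδ]; push_cast; ring)
  obtain ⟨a, b, hab⟩ := hF _ (hA L M hp x hx hfin hinf)
  obtain ⟨c, y, hc, hy, hxy⟩ := hB L M hp x hx ⟨a, b, hab⟩
  obtain ⟨hcfin, hcinf⟩ := hmul L M hp x (algebraMap ℚ L c) y hy hxy hfin hinf
  have hrat : RatCond438 d c := hC L M hp d δ hdsf hd1 hδ c hc hcfin hcinf
  obtain ⟨y₁, hy₁⟩ := hAC L M hp d δ hdsf hδ c hc (hcore d c hdsf hd1 hd3 hc hrat)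
  exact ⟨y₁ * y, by rw [map_mul, hy₁, hxy]⟩

end Fermat.Agent.LT.T6.H438

end

end
-- ===== PACK-END LT/T6/H438/HasseQ3.lean

-- ===== PACK-BEGIN LT/T6/H219/Parity.lean
section


/-!
# T6.00b (HasseNormQ3, cut of helper438): tool Q2, parity of the valuation of `a² + 3 b²`
(helper219)

`R` a Dedekind domain with fraction field `K`, `v` a height-one prime such that `X² - X + 1` has
no root in `R / v` (e.g. `#(R / v) ≡ 2 mod 3`, residue characteristic `2` INCLUDED).  If
`x ∈ K` is of the form `a² + 3 b²` in the completion `K_v`, then `v(x)` is a square in `ℤᵐ⁰`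
(i.e. the additive valuation of `x` is even).  Mathlib only.
-/

set_option autoImplicit false

namespace Fermat.Agent.LT.T6.H219

open IsDedekindDomain HeightOneSpectrum WithZero Topology

variable {R : Type*} [CommRing R] [IsDedekindDomain R] {K : Type*} [Field K] [Algebra R K]
  [IsFractionRing R K] (v : HeightOneSpectrum R)

/-- Every integral element of the completion is congruent to a global integer modulo the
maximal ideal. -/
theorem exists_int_approx219 (β : v.adicCompletion K) (hβ : Valued.v β ≤ 1) :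
    ∃ r : R, Valued.v (β - algebraMap R (v.adicCompletion K) r) < 1 := by
  have hd := denseRange_algebraMap (K := K) v
  have hU : {y : v.adicCompletion K | Valued.v (y - β) < (1 : ℤᵐ⁰)} ∈ 𝓝 β := by
    rw [Valued.mem_nhds]
    exact ⟨1, fun y hy => by simpa using hy⟩
  obtain ⟨_, hyU, ⟨y, rfl⟩⟩ := mem_closure_iff_nhds.mp (hd β) _ hU
  have hyU' : Valued.v (algebraMap K (v.adicCompletion K) y - β) < 1 := hyU
  have hy1 : v.valuation K y ≤ 1 := by
    rw [← valuedAdicCompletion_eq_valuation' v y]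
    have : (algebraMap K (v.adicCompletion K) y) = (algebraMap K (v.adicCompletion K) y - β) + β := by
      ring
    change Valued.v (algebraMap K (v.adicCompletion K) y) ≤ 1
    rw [this]
    exact (Valuation.map_add _ _ _).trans (max_le hyU'.le hβ)
  obtain ⟨r, hr⟩ := exists_valuation_sub_lt_of_integer v hy1 1
  refine ⟨r, ?_⟩
  have e : β - algebraMap R (v.adicCompletion K) r
      = (β - algebraMap K (v.adicCompletion K) y)
        + algebraMap K (v.adicCompletion K) (y - algebraMap R K r) := by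
    rw [IsScalarTower.algebraMap_apply R K (v.adicCompletion K), map_sub]
    ring
  rw [e]
  apply Valuation.map_add_lt
  · rw [Valuation.map_sub_swap]; exact hyU'
  · change Valued.v ((y - algebraMap R K r : K) : v.adicCompletion K) < 1
    rw [valuedAdicCompletion_eq_valuation', Valuation.map_sub_swap]
    simpa using hr

/-- If `X² - X + 1` has no root modulo `v`, then `β² - β + 1` is a unit for every integral `β`
of the completion. -/
theorem val_phi_one219 (hroot : ∀ r : R, r ^ 2 - r + 1 ∉ v.asIdeal)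
    (β : v.adicCompletion K) (hβ : Valued.v β ≤ 1) :
    Valued.v (β ^ 2 - β + 1) = 1 := by
  obtain ⟨r, hr⟩ := exists_int_approx219 v β hβ
  set ρ : v.adicCompletion K := algebraMap R (v.adicCompletion K) r with hρ
  have hρ1 : Valued.v ρ ≤ 1 := by
    rw [hρ, IsScalarTower.algebraMap_apply R K (v.adicCompletion K)]
    change Valued.v ((algebraMap R K r : K) : v.adicCompletion K) ≤ 1
    rw [valuedAdicCompletion_eq_valuation']
    exact valuation_le_one v r
  have h1 : Valued.v (ρ ^ 2 - ρ + 1) = 1 := by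
    have : ρ ^ 2 - ρ + 1 = algebraMap R (v.adicCompletion K) (r ^ 2 - r + 1) := by
      rw [hρ]; simp
    rw [this, IsScalarTower.algebraMap_apply R K (v.adicCompletion K)]
    change Valued.v ((algebraMap R K (r ^ 2 - r + 1) : K) : v.adicCompletion K) = 1
    rw [valuedAdicCompletion_eq_valuation']
    exact (valuation_eq_one_iff_notMem v).mpr (hroot r)
  have h2 : Valued.v ((β - ρ) * (β + ρ - 1)) < 1 := by
    rw [map_mul]
    have h3 : Valued.v (β + ρ - 1) ≤ 1 := by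
      have : β + ρ - 1 = (β + ρ) + (-1) := by ring
      rw [this]
      refine (Valuation.map_add _ _ _).trans (max_le ?_ ?_)
      · exact (Valuation.map_add _ _ _).trans (max_le hβ hρ1)
      · simp
    calc Valued.v (β - ρ) * Valued.v (β + ρ - 1) ≤ Valued.v (β - ρ) * 1 := by
          gcongr
      _ = Valued.v (β - ρ) := mul_one _
      _ < 1 := hr
  have e : β ^ 2 - β + 1 = (ρ ^ 2 - ρ + 1) + (β - ρ) * (β + ρ - 1) := by ring
  rw [e, Valuation.map_add_eq_of_lt_left _ (by rw [h1]; exact h2), h1]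

/-- The valuation of `A² - A B + B²` is the square of `max (v A) (v B)`. -/
theorem val_phi_sq219 (hroot : ∀ r : R, r ^ 2 - r + 1 ∉ v.asIdeal)
    (A B : v.adicCompletion K) :
    ∃ γ : ℤᵐ⁰, Valued.v (A ^ 2 - A * B + B ^ 2) = γ ^ 2 := by
  rcases le_or_gt (Valued.v B) (Valued.v A) with h | h
  · by_cases hA : A = 0
    · subst hA
      have hB : B = 0 := by
        rw [map_zero, le_zero_iff] at h
        exact (Valuation.zero_iff _).mp h
      subst hB
      exact ⟨0, by simp⟩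
    · refine ⟨Valued.v A, ?_⟩
      have hβ : Valued.v (B / A) ≤ 1 := by
        rw [map_div₀]
        exact div_le_one_of_le₀ h zero_le
      have e : A ^ 2 - A * B + B ^ 2 = A ^ 2 * ((B / A) ^ 2 - (B / A) + 1) := by
        field_simp
        ring
      rw [e, map_mul, val_phi_one219 v hroot _ hβ, mul_one, map_pow]
  · have hB : B ≠ 0 := by
      rintro rfl
      simp at h
    refine ⟨Valued.v B, ?_⟩
    have hβ : Valued.v (A / B) ≤ 1 := by
      rw [map_div₀]
      exact div_le_one_of_le₀ h.le zero_le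
    have e : A ^ 2 - A * B + B ^ 2 = B ^ 2 * ((A / B) ^ 2 - (A / B) + 1) := by
      field_simp
    rw [e, map_mul, val_phi_one219 v hroot _ hβ, mul_one, map_pow]

/-- **Q2 (parity).**  If `X² - X + 1` has no root modulo `v` and `x = a² + 3 b²` in the
completion `K_v`, then `v(x)` is a square in the value group. -/
theorem val_sq_of_n3_219 (hroot : ∀ r : R, r ^ 2 - r + 1 ∉ v.asIdeal) (x : K)
    (a b : v.adicCompletion K)
    (h : a ^ 2 + 3 * b ^ 2 = algebraMap K (v.adicCompletion K) x) :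
    ∃ γ : ℤᵐ⁰, v.valuation K x = γ ^ 2 := by
  obtain ⟨γ, hγ⟩ := val_phi_sq219 v hroot (a + b) (2 * b)
  refine ⟨γ, ?_⟩
  rw [← hγ, ← valuedAdicCompletion_eq_valuation' v x]
  change Valued.v (algebraMap K (v.adicCompletion K) x) = _
  rw [← h]
  congr 1
  ring

end Fermat.Agent.LT.T6.H219

end
-- ===== PACK-END LT/T6/H219/Parity.lean

-- ===== PACK-BEGIN LT/T6/H296/CutoffMat.lean
section


/-!
# Row LT, tower T6, sub-tower T6inf, leaf T6inf.09 `CutoffExC` (helper296): matrix algebra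

`A` a real `2 × 2` matrix with `tr² - 4 det ≠ 0`, `A' = A - (tr A / 2)` its traceless part,
`D = (tr² - 4 det) / 4`, so `A'² = D`.

* `cent_struct296` : every `x` commuting with `A` is `a + b A'`;
* `det_ab296`      : `det (a + b A') = a² - D b²`;
* `E296_mul`       : `(r + A') (a + b A') = (a + b r) (r + A')` if `r² = D`;
* `entry_bound296` : `|(a + b A')ᵢⱼ| ≤ |a| + |b| M`.

OFF-MAIN.  Mathlib only.
-/

set_option autoImplicit false

open Matrix

noncomputable section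

namespace Fermat.Agent.LT.T6.H296

/-- The traceless part `A - (tr A / 2)`. -/
def trl296 (A : Matrix (Fin 2) (Fin 2) ℝ) : Matrix (Fin 2) (Fin 2) ℝ :=
  A - (A.trace / 2) • (1 : Matrix (Fin 2) (Fin 2) ℝ)

/-- The quarter of the discriminant. -/
def qd296 (A : Matrix (Fin 2) (Fin 2) ℝ) : ℝ := (A.trace ^ 2 - 4 * A.det) / 4

/-- The element `a + b A'`. -/
def ab296 (A : Matrix (Fin 2) (Fin 2) ℝ) (a b : ℝ) : Matrix (Fin 2) (Fin 2) ℝ :=
  a • (1 : Matrix (Fin 2) (Fin 2) ℝ) + b • trl296 A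

theorem trl296_apply (A : Matrix (Fin 2) (Fin 2) ℝ) :
    trl296 A 0 0 = (A 0 0 - A 1 1) / 2 ∧ trl296 A 0 1 = A 0 1 ∧ trl296 A 1 0 = A 1 0 ∧
      trl296 A 1 1 = (A 1 1 - A 0 0) / 2 := by
  refine ⟨?_, ?_, ?_, ?_⟩ <;>
    simp [trl296, Matrix.trace_fin_two, Matrix.sub_apply, Matrix.smul_apply,
      Matrix.one_apply] <;> ring

theorem qd296_eq (A : Matrix (Fin 2) (Fin 2) ℝ) :
    qd296 A = ((A 0 0 - A 1 1) / 2) ^ 2 + A 0 1 * A 1 0 := by
  simp only [qd296, Matrix.trace_fin_two, Matrix.det_fin_two]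
  ring

theorem ab296_apply (A : Matrix (Fin 2) (Fin 2) ℝ) (a b : ℝ) :
    ab296 A a b 0 0 = a + b * ((A 0 0 - A 1 1) / 2) ∧ ab296 A a b 0 1 = b * A 0 1 ∧
      ab296 A a b 1 0 = b * A 1 0 ∧ ab296 A a b 1 1 = a + b * ((A 1 1 - A 0 0) / 2) := by
  obtain ⟨h00, h01, h10, h11⟩ := trl296_apply A
  refine ⟨?_, ?_, ?_, ?_⟩ <;>
    simp [ab296, Matrix.add_apply, Matrix.smul_apply, Matrix.one_apply, h00, h01, h10, h11]

/-- Every matrix commuting with a regular `A` is `a + b A'`. -/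
theorem cent_struct296 (A : Matrix (Fin 2) (Fin 2) ℝ) (hD : qd296 A ≠ 0)
    (x : Matrix (Fin 2) (Fin 2) ℝ) (hx : x * A = A * x) :
    ∃ a b : ℝ, x = ab296 A a b := by
  have h00 := congr_fun (congr_fun hx 0) 0
  have h01 := congr_fun (congr_fun hx 0) 1
  have h10 := congr_fun (congr_fun hx 1) 0
  have h11 := congr_fun (congr_fun hx 1) 1
  simp only [Matrix.mul_apply, Fin.sum_univ_two] at h00 h01 h10 h11
  have hD' := qd296_eq A
  have h2D : 2 * qd296 A ≠ 0 := mul_ne_zero two_ne_zero hD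
  obtain ⟨b, hb⟩ : ∃ b : ℝ, b * (2 * qd296 A) =
      (x 0 0 - x 1 1) * ((A 0 0 - A 1 1) / 2) + x 0 1 * A 1 0 + x 1 0 * A 0 1 :=
    ⟨_, div_mul_cancel₀ _ h2D⟩
  obtain ⟨e00, e01, e10, e11⟩ := ab296_apply A ((x 0 0 + x 1 1) / 2) b
  refine ⟨(x 0 0 + x 1 1) / 2, b, ?_⟩
  have g00 : x 0 0 = ab296 A ((x 0 0 + x 1 1) / 2) b 0 0 := by
    rw [e00]
    apply mul_left_cancel₀ h2D
    linear_combination (-((A 0 0 - A 1 1) / 2)) * hb + (x 0 0 - x 1 1) * hD' +
      (A 1 0 / 2) * h01 - (A 0 1 / 2) * h10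
  have g01 : x 0 1 = ab296 A ((x 0 0 + x 1 1) / 2) b 0 1 := by
    rw [e01]
    apply mul_left_cancel₀ h2D
    linear_combination (-(A 0 1)) * hb + (2 * x 0 1) * hD' +
      (-(A 0 0 - A 1 1) / 2) * h01 + (A 0 1) * h00
  have g10 : x 1 0 = ab296 A ((x 0 0 + x 1 1) / 2) b 1 0 := by
    rw [e10]
    apply mul_left_cancel₀ h2D
    linear_combination (-(A 1 0)) * hb + (2 * x 1 0) * hD' +
      ((A 0 0 - A 1 1) / 2) * h10 + (A 1 0) * h11
  have g11 : x 1 1 = ab296 A ((x 0 0 + x 1 1) / 2) b 1 1 := by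
    rw [e11]
    apply mul_left_cancel₀ h2D
    linear_combination (-((A 1 1 - A 0 0) / 2)) * hb + (x 1 1 - x 0 0) * hD' -
      (A 1 0 / 2) * h01 + (A 0 1 / 2) * h10
  ext i j
  fin_cases i <;> fin_cases j
  exacts [g00, g01, g10, g11]

/-- The product formula in `ℝ[A']`, `A'² = D`. -/
theorem ab296_mul (A : Matrix (Fin 2) (Fin 2) ℝ) (a b a' b' : ℝ) :
    ab296 A a b * ab296 A a' b' = ab296 A (a * a' + qd296 A * b * b') (a * b' + b * a') := by
  obtain ⟨e00, e01, e10, e11⟩ := ab296_apply A a b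
  obtain ⟨f00, f01, f10, f11⟩ := ab296_apply A a' b'
  obtain ⟨g00, g01, g10, g11⟩ :=
    ab296_apply A (a * a' + qd296 A * b * b') (a * b' + b * a')
  have hD' := qd296_eq A
  have k00 : (ab296 A a b * ab296 A a' b') 0 0 =
      ab296 A (a * a' + qd296 A * b * b') (a * b' + b * a') 0 0 := by
    rw [Matrix.mul_apply, Fin.sum_univ_two, e00, e01, f00, f10, g00, hD']
    ring
  have k01 : (ab296 A a b * ab296 A a' b') 0 1 =
      ab296 A (a * a' + qd296 A * b * b') (a * b' + b * a') 0 1 := by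
    rw [Matrix.mul_apply, Fin.sum_univ_two, e00, e01, f01, f11, g01]
    ring
  have k10 : (ab296 A a b * ab296 A a' b') 1 0 =
      ab296 A (a * a' + qd296 A * b * b') (a * b' + b * a') 1 0 := by
    rw [Matrix.mul_apply, Fin.sum_univ_two, e10, e11, f00, f10, g10]
    ring
  have k11 : (ab296 A a b * ab296 A a' b') 1 1 =
      ab296 A (a * a' + qd296 A * b * b') (a * b' + b * a') 1 1 := by
    rw [Matrix.mul_apply, Fin.sum_univ_two, e10, e11, f01, f11, g11, hD']
    ring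
  ext i j
  fin_cases i <;> fin_cases j
  exacts [k00, k01, k10, k11]

theorem ab296_comm (A : Matrix (Fin 2) (Fin 2) ℝ) (a b a' b' : ℝ) :
    ab296 A a b * ab296 A a' b' = ab296 A a' b' * ab296 A a b := by
  rw [ab296_mul, ab296_mul]
  congr 1 <;> ring

theorem ab296_smul (A : Matrix (Fin 2) (Fin 2) ℝ) (c a b : ℝ) :
    c • ab296 A a b = ab296 A (c * a) (c * b) := by
  simp only [ab296, smul_add, smul_smul]

theorem ab296_one (A : Matrix (Fin 2) (Fin 2) ℝ) : ab296 A 1 0 = 1 := by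
  simp [ab296]

theorem ab296_self (A : Matrix (Fin 2) (Fin 2) ℝ) : ab296 A (A.trace / 2) 1 = A := by
  simp [ab296, trl296]

/-- `a + b A'` commutes with `A`. -/
theorem ab296_comm_self (A : Matrix (Fin 2) (Fin 2) ℝ) (a b : ℝ) :
    ab296 A a b * A = A * ab296 A a b := by
  have h := ab296_comm A a b (A.trace / 2) 1
  rwa [ab296_self] at h

theorem det_ab296 (A : Matrix (Fin 2) (Fin 2) ℝ) (a b : ℝ) :
    (ab296 A a b).det = a ^ 2 - qd296 A * b ^ 2 := by
  obtain ⟨e00, e01, e10, e11⟩ := ab296_apply A a b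
  rw [Matrix.det_fin_two, e00, e01, e10, e11, qd296_eq]
  ring

/-- `(r + A') (a + b A') = (a + b r) (r + A')` if `r² = D`. -/
theorem E296_mul (A : Matrix (Fin 2) (Fin 2) ℝ) (r : ℝ) (hr : r * r = qd296 A) (a b : ℝ) :
    ab296 A r 1 * ab296 A a b = (a + b * r) • ab296 A r 1 := by
  rw [ab296_mul, ab296_smul, ← hr]
  congr 1 <;> ring

/-- `r + A' ≠ 0` if `r ≠ 0` (its trace is `2 r`). -/
theorem E296_ne_zero (A : Matrix (Fin 2) (Fin 2) ℝ) (r : ℝ) (hr : r ≠ 0) :
    ab296 A r 1 ≠ 0 := by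
  intro h
  obtain ⟨e00, -, -, e11⟩ := ab296_apply A r 1
  rw [h] at e00 e11
  simp only [Matrix.zero_apply] at e00 e11
  apply hr
  linarith

/-- The sum of the absolute values of the entries. -/
def M296 (A : Matrix (Fin 2) (Fin 2) ℝ) : ℝ := |A 0 0| + |A 0 1| + |A 1 0| + |A 1 1|

theorem M296_nonneg (A : Matrix (Fin 2) (Fin 2) ℝ) : 0 ≤ M296 A := by
  unfold M296
  positivity

theorem abs_trl296_le (A : Matrix (Fin 2) (Fin 2) ℝ) (i j : Fin 2) :
    |trl296 A i j| ≤ M296 A := by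
  obtain ⟨h00, h01, h10, h11⟩ := trl296_apply A
  have p00 := abs_nonneg (A 0 0)
  have p01 := abs_nonneg (A 0 1)
  have p10 := abs_nonneg (A 1 0)
  have p11 := abs_nonneg (A 1 1)
  have q1 : |(A 0 0 - A 1 1) / 2| ≤ |A 0 0| + |A 1 1| := by
    rw [abs_div, abs_two]
    have := abs_sub (A 0 0) (A 1 1)
    have h2 : |A 0 0 - A 1 1| / 2 ≤ |A 0 0 - A 1 1| := by
      have := abs_nonneg (A 0 0 - A 1 1)
      linarith
    linarith
  have q2 : |(A 1 1 - A 0 0) / 2| ≤ |A 0 0| + |A 1 1| := by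
    rw [abs_div, abs_two]
    have := abs_sub (A 1 1) (A 0 0)
    have h2 : |A 1 1 - A 0 0| / 2 ≤ |A 1 1 - A 0 0| := by
      have := abs_nonneg (A 1 1 - A 0 0)
      linarith
    linarith
  unfold M296
  fin_cases i <;> fin_cases j
  · show |trl296 A 0 0| ≤ _
    rw [h00]; linarith
  · show |trl296 A 0 1| ≤ _
    rw [h01]; linarith
  · show |trl296 A 1 0| ≤ _
    rw [h10]; linarith
  · show |trl296 A 1 1| ≤ _
    rw [h11]; linarith

/-- Entries of `a + b A'` are bounded by `|a| + |b| M`. -/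
theorem entry_bound296 (A : Matrix (Fin 2) (Fin 2) ℝ) (a b : ℝ) (i j : Fin 2) :
    |ab296 A a b i j| ≤ |a| + |b| * M296 A := by
  have h1 : ab296 A a b i j = a * (1 : Matrix (Fin 2) (Fin 2) ℝ) i j + b * trl296 A i j := by
    simp [ab296, Matrix.add_apply, Matrix.smul_apply]
  rw [h1]
  have h2 : |(1 : Matrix (Fin 2) (Fin 2) ℝ) i j| ≤ 1 := by
    rw [Matrix.one_apply]
    split_ifs <;> simp
  calc |a * (1 : Matrix (Fin 2) (Fin 2) ℝ) i j + b * trl296 A i j|
      ≤ |a * (1 : Matrix (Fin 2) (Fin 2) ℝ) i j| + |b * trl296 A i j| := abs_add_le _ _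
    _ = |a| * |(1 : Matrix (Fin 2) (Fin 2) ℝ) i j| + |b| * |trl296 A i j| := by
        rw [abs_mul, abs_mul]
    _ ≤ |a| * 1 + |b| * M296 A :=
        add_le_add (mul_le_mul_of_nonneg_left h2 (abs_nonneg _))
          (mul_le_mul_of_nonneg_left (abs_trl296_le A i j) (abs_nonneg _))
    _ = |a| + |b| * M296 A := by ring

/-- The uniform bound: `|a| ≤ 2`, `|b| ρ ≤ 2`, `ρ > 0`. -/
theorem entry_bound2_296 (A : Matrix (Fin 2) (Fin 2) ℝ) (a b ρ : ℝ) (hρ : 0 < ρ)
    (ha : |a| ≤ 2) (hb : |b| * ρ ≤ 2) (i j : Fin 2) :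
    |ab296 A a b i j| ≤ 2 + 2 / ρ * M296 A := by
  have hb' : |b| ≤ 2 / ρ := by
    rw [le_div_iff₀ hρ]
    exact hb
  calc |ab296 A a b i j| ≤ |a| + |b| * M296 A := entry_bound296 A a b i j
    _ ≤ 2 + 2 / ρ * M296 A :=
        add_le_add ha (mul_le_mul_of_nonneg_right hb' (M296_nonneg A))

/-! ### The squared Frobenius norm of `E^ℂ Y` -/

/-- `∑ |(E^ℂ Y)ᵢⱼ|²`. -/
def frob296 (E : Matrix (Fin 2) (Fin 2) ℝ) (Y : Matrix (Fin 2) (Fin 2) ℂ) : ℝ :=
  ∑ i, ∑ j, Complex.normSq ((E.map (algebraMap ℝ ℂ) * Y) i j)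

theorem frob296_nonneg (E : Matrix (Fin 2) (Fin 2) ℝ) (Y : Matrix (Fin 2) (Fin 2) ℂ) :
    0 ≤ frob296 E Y :=
  Finset.sum_nonneg fun _ _ => Finset.sum_nonneg fun _ _ => Complex.normSq_nonneg _

theorem frob296_pos (E : Matrix (Fin 2) (Fin 2) ℝ) (Y : Matrix (Fin 2) (Fin 2) ℂ)
    (h : E.map (algebraMap ℝ ℂ) * Y ≠ 0) : 0 < frob296 E Y := by
  by_contra hc
  have h0 : frob296 E Y = 0 := le_antisymm (not_lt.mp hc) (frob296_nonneg E Y)
  apply h
  ext i j
  unfold frob296 at h0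
  have h1 := (Finset.sum_eq_zero_iff_of_nonneg
    (fun i _ => Finset.sum_nonneg fun j _ => Complex.normSq_nonneg _)).1 h0 i (Finset.mem_univ i)
  have h2 := (Finset.sum_eq_zero_iff_of_nonneg
    (fun j _ => Complex.normSq_nonneg _)).1 h1 j (Finset.mem_univ j)
  simpa using h2

theorem frob296_smul (c : ℝ) (E : Matrix (Fin 2) (Fin 2) ℝ) (Y : Matrix (Fin 2) (Fin 2) ℂ) :
    frob296 (c • E) Y = c ^ 2 * frob296 E Y := by
  unfold frob296
  have h1 : (c • E).map (algebraMap ℝ ℂ) = (c : ℂ) • E.map (algebraMap ℝ ℂ) := by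
    ext i j
    simp [Matrix.map_apply, Matrix.smul_apply]
  rw [h1, Matrix.smul_mul, Finset.mul_sum]
  refine Finset.sum_congr rfl fun i _ => ?_
  rw [Finset.mul_sum]
  refine Finset.sum_congr rfl fun j _ => ?_
  rw [Matrix.smul_apply, smul_eq_mul, Complex.normSq_mul, Complex.normSq_ofReal]
  ring

theorem frob296_mul_map (E X : Matrix (Fin 2) (Fin 2) ℝ) (Y : Matrix (Fin 2) (Fin 2) ℂ) :
    frob296 E (X.map (algebraMap ℝ ℂ) * Y) = frob296 (E * X) Y := by
  unfold frob296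
  rw [Matrix.map_mul, Matrix.mul_assoc]

/-- The key transformation law. -/
theorem frob296_E_ab (A : Matrix (Fin 2) (Fin 2) ℝ) (r : ℝ) (hr : r * r = qd296 A) (a b : ℝ)
    (Y : Matrix (Fin 2) (Fin 2) ℂ) :
    frob296 (ab296 A r 1) ((ab296 A a b).map (algebraMap ℝ ℂ) * Y) =
      (a + b * r) ^ 2 * frob296 (ab296 A r 1) Y := by
  rw [frob296_mul_map, E296_mul A r hr, frob296_smul]

theorem map_ne_zero296 (E : Matrix (Fin 2) (Fin 2) ℝ) (hE : E ≠ 0) :
    E.map (algebraMap ℝ ℂ) ≠ 0 := by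
  intro h
  apply hE
  ext i j
  have := congr_fun (congr_fun h i) j
  simpa [Matrix.map_apply] using this

theorem frob296_pos_of_isUnit (E : Matrix (Fin 2) (Fin 2) ℝ) (hE : E ≠ 0)
    (Y : Matrix (Fin 2) (Fin 2) ℂ) (hY : IsUnit Y) : 0 < frob296 E Y := by
  apply frob296_pos
  intro h
  apply map_ne_zero296 E hE
  obtain ⟨u, rfl⟩ := hY
  have := congr_arg (fun Z => Z * ((u⁻¹ : (Matrix (Fin 2) (Fin 2) ℂ)ˣ) : Matrix (Fin 2) (Fin 2) ℂ)) h
  simpa [Matrix.mul_assoc] using this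

theorem frob296_one_pos (E : Matrix (Fin 2) (Fin 2) ℝ) (hE : E ≠ 0) : 0 < frob296 E 1 :=
  frob296_pos_of_isUnit E hE 1 isUnit_one

end Fermat.Agent.LT.T6.H296

end

end
-- ===== PACK-END LT/T6/H296/CutoffMat.lean

-- ===== PACK-BEGIN LT/T6/H367/EllSum.lean
section


/-!
# Row LT, tower T6, leaf T6.14c `EllCountC` (helper367): the combinatorics of the count

OFF-MAIN.  No gaps, nothing assumed.  Mathlib only.

`S n a = ∑_{ξ mod νⁿ} a (r(n, ξ))` satisfies `S 0 a = N 0 · a 0` and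
`S (n+1) a = S n a'`, `a' 0 = q_n a 0 + (Q - q_n) a 1`, `a' r = Q a (r+1)` (`r ≥ 1`), with
`N (n+1) = q_n N n`.  Closed form of `S n a` and of the partial sums `∑_{n < M} S n a`.
-/

set_option autoImplicit false

noncomputable section

namespace Fermat.Agent.LT.T6.H367

open Finset

/-- **Closed form of `S n a`.** -/
theorem comb367 (Q : ℂ) (N qn : ℕ → ℂ) (hN : ∀ n, N (n + 1) = qn n * N n)
    (S : ℕ → (ℕ → ℂ) → ℂ) (hS0 : ∀ a, S 0 a = N 0 * a 0)
    (hS : ∀ n a, S (n + 1) a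
      = S n (fun r => if r = 0 then qn n * a 0 + (Q - qn n) * a 1 else Q * a (r + 1))) :
    ∀ n a, S n a = N n * a 0
      + ∑ r ∈ range n, Q ^ r * (Q * N (n - 1 - r) - N (n - r)) * a (r + 1) := by
  intro n
  induction n with
  | zero => intro a; simp [hS0]
  | succ n ih =>
    intro a
    rw [hS, ih, Finset.sum_range_succ']
    have h1 : ∑ r ∈ range n, Q ^ r * (Q * N (n - 1 - r) - N (n - r)) *
          (if r + 1 = 0 then qn n * a 0 + (Q - qn n) * a 1 else Q * a (r + 1 + 1))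
        = ∑ r ∈ range n, Q ^ (r + 1) * (Q * N (n + 1 - 1 - (r + 1)) - N (n + 1 - (r + 1)))
            * a (r + 1 + 1) := by
      refine Finset.sum_congr rfl fun r _ => ?_
      have e1 : n + 1 - 1 - (r + 1) = n - 1 - r := by omega
      have e2 : n + 1 - (r + 1) = n - r := by omega
      rw [if_neg (Nat.succ_ne_zero r), e1, e2, pow_succ]
      ring
    rw [h1, if_pos rfl, hN n]
    simp only [pow_zero, Nat.add_sub_cancel, Nat.sub_zero, zero_add]
    rw [hN n]
    ring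

/-- The partial sums of `Q N j - N (j+1)`. -/
def eSum367 (Q : ℂ) (N : ℕ → ℂ) (m : ℕ) : ℂ := ∑ j ∈ range m, (Q * N j - N (j + 1))

theorem eSum367_eq (Q : ℂ) (N : ℕ → ℂ) (m : ℕ) :
    eSum367 Q N m = Q * (∑ j ∈ range m, N j) - (∑ j ∈ range (m + 1), N j) + N 0 := by
  unfold eSum367
  rw [Finset.sum_sub_distrib, ← Finset.mul_sum, Finset.sum_range_succ' N m]
  ring

/-- **Closed form of the partial sums.** -/
theorem psum367 (Q : ℂ) (N : ℕ → ℂ) (S : ℕ → (ℕ → ℂ) → ℂ)
    (hS : ∀ n a, S n a = N n * a 0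
      + ∑ r ∈ range n, Q ^ r * (Q * N (n - 1 - r) - N (n - r)) * a (r + 1))
    (a : ℕ → ℂ) (M : ℕ) :
    ∑ n ∈ range M, S n a = (∑ n ∈ range M, N n) * a 0
      + ∑ r ∈ range M, Q ^ r * a (r + 1) * eSum367 Q N (M - 1 - r) := by
  induction M with
  | zero => simp
  | succ M ih =>
    rw [Finset.sum_range_succ, ih, hS M a, Finset.sum_range_succ N M,
      Finset.sum_range_succ (fun r => Q ^ r * a (r + 1) * eSum367 Q N (M + 1 - 1 - r)) M]
    have h0 : eSum367 Q N (M + 1 - 1 - M) = 0 := by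
      have : M + 1 - 1 - M = 0 := by omega
      rw [this]
      unfold eSum367
      simp
    have h1 : ∑ r ∈ range M, Q ^ r * a (r + 1) * eSum367 Q N (M + 1 - 1 - r)
        = ∑ r ∈ range M, Q ^ r * a (r + 1) * eSum367 Q N (M - 1 - r)
          + ∑ r ∈ range M, Q ^ r * (Q * N (M - 1 - r) - N (M - r)) * a (r + 1) := by
      rw [← Finset.sum_add_distrib]
      refine Finset.sum_congr rfl fun r hr => ?_
      have hr' : r < M := Finset.mem_range.1 hr
      have e1 : M + 1 - 1 - r = (M - 1 - r) + 1 := by omega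
      have e2 : M - 1 - r + 1 = M - r := by omega
      rw [e1]
      unfold eSum367
      rw [Finset.sum_range_succ, e2]
      ring
    rw [h1, h0]
    ring

/-- The sequence `N n = qⁿ` for `n ≤ c`, `0` for `n > c`. -/
def nSeq367 (q : ℕ) (c : ℕ) (n : ℕ) : ℂ := if n ≤ c then (q : ℂ) ^ n else 0

theorem nSeq367_sum (q c M : ℕ) (hM : c + 1 ≤ M) :
    ∑ n ∈ range M, nSeq367 q c n = ∑ n ∈ range (c + 1), (q : ℂ) ^ n := by
  have hsub : range (c + 1) ⊆ range M := Finset.range_subset_range.2 hM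
  rw [← Finset.sum_subset hsub]
  · refine Finset.sum_congr rfl fun n hn => ?_
    unfold nSeq367
    rw [if_pos (by have := Finset.mem_range.1 hn; omega)]
  · intro n _ hn
    unfold nSeq367
    rw [if_neg (by have := Finset.mem_range.not.1 hn; omega)]

theorem eSum367_nSeq (Q : ℂ) (q c m : ℕ) (hm : c + 1 ≤ m) :
    eSum367 Q (nSeq367 q c) m
      = 1 + (Q - 1) * ∑ n ∈ range (c + 1), (q : ℂ) ^ n := by
  rw [eSum367_eq, nSeq367_sum q c m hm, nSeq367_sum q c (m + 1) (by omega)]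
  unfold nSeq367
  simp
  ring

/-- **The total.**  `a r = 0` for `r ≥ R`: the sum of the `S n a`, `n < M`, `M ≥ R + c + 2`. -/
theorem total367 (Q : ℂ) (q c : ℕ) (S : ℕ → (ℕ → ℂ) → ℂ)
    (hS : ∀ n a, S n a = nSeq367 q c n * a 0
      + ∑ r ∈ range n, Q ^ r * (Q * nSeq367 q c (n - 1 - r) - nSeq367 q c (n - r)) * a (r + 1))
    (a : ℕ → ℂ) (R : ℕ) (ha : ∀ r, R ≤ r → a r = 0) (M : ℕ) (hM : R + c + 2 ≤ M) :
    (∀ n, M ≤ n → S n a = 0) ∧
    ∑ n ∈ range M, S n a = (∑ n ∈ range (c + 1), (q : ℂ) ^ n) * a 0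
      + ∑ r ∈ range M, Q ^ r * (1 + (Q - 1) * ∑ n ∈ range (c + 1), (q : ℂ) ^ n) * a (r + 1) := by
  constructor
  · intro n hn
    rw [hS n a]
    have h0 : nSeq367 q c n = 0 := by
      unfold nSeq367
      rw [if_neg (by omega)]
    rw [h0, zero_mul, zero_add]
    refine Finset.sum_eq_zero fun r hr => ?_
    have hr' : r < n := Finset.mem_range.1 hr
    by_cases hrR : R ≤ r + 1
    · rw [ha (r + 1) hrR, mul_zero]
    · have h1 : nSeq367 q c (n - 1 - r) = 0 := by
        unfold nSeq367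
        rw [if_neg (by omega)]
      have h2 : nSeq367 q c (n - r) = 0 := by
        unfold nSeq367
        rw [if_neg (by omega)]
      rw [h1, h2]
      ring
  · rw [psum367 Q (nSeq367 q c) S hS a M, nSeq367_sum q c M (by omega)]
    congr 1
    refine Finset.sum_congr rfl fun r hr => ?_
    by_cases hrR : R ≤ r + 1
    · rw [ha (r + 1) hrR, mul_zero, zero_mul, mul_zero]
    · rw [eSum367_nSeq Q q c (M - 1 - r) (by omega)]
      ring

end Fermat.Agent.LT.T6.H367

end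

end
-- ===== PACK-END LT/T6/H367/EllSum.lean

-- ===== PACK-BEGIN LT/T6/H501/RadInt0Core.lean
section


/-!
# Row LT, tower T6, sub-leaf T6.20a.7 `RadInt0C626`: the core (helper501) — OFF-MAIN, Mathlib only

    ∫∫ Φ(√(A² + α x² + β v²)) / √(A² + α x² + β v²) dv dx = (2π / √(αβ)) ∫_{X > A} Φ(X) dX

for `Φ` continuous, zero on `(R, ∞)`, and `A, α, β > 0`.

Proof.  Rescale `x` and `v` (`Measure.integral_comp_mul_left`, no integrability), Fubini for the
continuous compactly supported function `p ↦ h(p.1² + p.2²)`, the measure preserving equivalence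
`ℂ ≃ ℝ × ℝ`, `integral_fun_norm_addHaar` on `ℂ` (radial functions) and the substitution
`X = √(A² + r²)` (`integral_image_eq_integral_abs_deriv_smul`).
-/

set_option autoImplicit false

open MeasureTheory

noncomputable section

namespace Fermat.Agent.LT.H501.Rad

/-- `h(t) = Φ(√(A² + t)) / √(A² + t)`. -/
def hfun (Φ : ℝ → ℂ) (A t : ℝ) : ℂ :=
  Φ (Real.sqrt (A ^ 2 + t)) / ((Real.sqrt (A ^ 2 + t) : ℝ) : ℂ)

lemma sqrt_pos_of {A t : ℝ} (hA : 0 < A) (ht : 0 ≤ t) : 0 < Real.sqrt (A ^ 2 + t) := by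
  apply Real.sqrt_pos.2
  positivity

lemma continuous_hfun_comp {Φ : ℝ → ℂ} (hΦ : Continuous Φ) {A : ℝ} (hA : 0 < A)
    {X : Type*} [TopologicalSpace X] {q : X → ℝ} (hq : Continuous q) (hq0 : ∀ x, 0 ≤ q x) :
    Continuous (fun x => hfun Φ A (q x)) := by
  unfold hfun
  have h1 : Continuous (fun x => Real.sqrt (A ^ 2 + q x)) :=
    Real.continuous_sqrt.comp (continuous_const.add hq)
  refine (hΦ.comp h1).div (Complex.continuous_ofReal.comp h1) (fun x => ?_)
  have := sqrt_pos_of hA (hq0 x)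
  exact_mod_cast this.ne'

lemma hfun_eq_zero {Φ : ℝ → ℂ} {R : ℝ} (hR : ∀ X : ℝ, R < X → Φ X = 0) {A t : ℝ}
    (ht : R ^ 2 < t) (_hR0 : 0 ≤ R) : hfun Φ A t = 0 := by
  unfold hfun
  have h : R < Real.sqrt (A ^ 2 + t) := by
    apply Real.lt_sqrt_of_sq_lt
    nlinarith [sq_nonneg A]
  rw [hR _ h, zero_div]

/-! ## Rescaling -/

lemma integral_rescale (g : ℝ → ℝ → ℂ) {α β : ℝ} (hα : 0 < α) (hβ : 0 < β) :
    ∫ x : ℝ, ∫ v : ℝ, g (Real.sqrt α * x) (Real.sqrt β * v)
      = (((Real.sqrt (α * β))⁻¹ : ℝ) : ℂ) * ∫ y : ℝ, ∫ v : ℝ, g y v := by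
  have hsα : 0 < Real.sqrt α := Real.sqrt_pos.2 hα
  have hsβ : 0 < Real.sqrt β := Real.sqrt_pos.2 hβ
  have h1 : ∀ x : ℝ, ∫ v : ℝ, g (Real.sqrt α * x) (Real.sqrt β * v)
      = |(Real.sqrt β)⁻¹| • ∫ v : ℝ, g (Real.sqrt α * x) v := fun x =>
    Measure.integral_comp_mul_left (fun v => g (Real.sqrt α * x) v) (Real.sqrt β)
  simp only [h1]
  rw [integral_smul]
  have h2 := Measure.integral_comp_mul_left (fun y => ∫ v : ℝ, g y v) (Real.sqrt α)
  rw [h2, abs_of_pos (inv_pos.2 hsα), abs_of_pos (inv_pos.2 hsβ), Real.sqrt_mul hα.le,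
    mul_inv, Complex.real_smul, Complex.real_smul, ← mul_assoc]
  push_cast
  ring

/-! ## The radial integral -/

lemma integral_radial_complex (f : ℝ → ℂ) :
    ∫ z : ℂ, f ‖z‖ = ((2 * Real.pi : ℝ) : ℂ) * ∫ r in Set.Ioi (0 : ℝ), (r : ℂ) * f r := by
  have h := integral_fun_norm_addHaar (volume : Measure ℂ) f
  rw [h, Complex.finrank_real_complex]
  have hb : (volume : Measure ℂ).real (Metric.ball 0 1) = Real.pi := by
    rw [Measure.real, Complex.volume_ball]
    simp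
  rw [hb]
  have hint : ∫ y in Set.Ioi (0 : ℝ), y ^ (2 - 1) • f y
      = ∫ r in Set.Ioi (0 : ℝ), (r : ℂ) * f r := by
    apply integral_congr_ae
    filter_upwards with y
    simp [Complex.real_smul]
  rw [hint, Complex.real_smul]
  rw [show (2 : ℕ) • (((Real.pi : ℝ) : ℂ) * ∫ r in Set.Ioi (0 : ℝ), (r : ℂ) * f r)
      = (2 : ℂ) * (((Real.pi : ℝ) : ℂ) * ∫ r in Set.Ioi (0 : ℝ), (r : ℂ) * f r) from by
    rw [nsmul_eq_mul]; norm_num]
  push_cast
  ring

/-! ## The substitution `X = √(A² + r²)` -/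

lemma hasDerivAt_sqrt_add_sq {A : ℝ} (hA : 0 < A) (r : ℝ) :
    HasDerivAt (fun r : ℝ => Real.sqrt (A ^ 2 + r ^ 2)) (r / Real.sqrt (A ^ 2 + r ^ 2)) r := by
  have hpos : 0 < A ^ 2 + r ^ 2 := by positivity
  have h1 : HasDerivAt (fun r : ℝ => A ^ 2 + r ^ 2) (2 * r) r := by
    have := (hasDerivAt_pow 2 r).const_add (A ^ 2)
    simpa using this
  have h2 := h1.sqrt hpos.ne'
  have e : 2 * r / (2 * Real.sqrt (A ^ 2 + r ^ 2)) = r / Real.sqrt (A ^ 2 + r ^ 2) := by
    have : Real.sqrt (A ^ 2 + r ^ 2) ≠ 0 := (Real.sqrt_pos.2 hpos).ne'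
    field_simp
  rw [e] at h2
  exact h2

lemma sqrt_add_sq_lt {A r₁ r₂ : ℝ} (h₁ : 0 ≤ r₁) (h : r₁ < r₂) :
    Real.sqrt (A ^ 2 + r₁ ^ 2) < Real.sqrt (A ^ 2 + r₂ ^ 2) := by
  apply Real.sqrt_lt_sqrt (by positivity)
  nlinarith

lemma sqrt_add_sq_image {A : ℝ} (hA : 0 < A) :
    (fun r : ℝ => Real.sqrt (A ^ 2 + r ^ 2)) '' Set.Ioi 0 = Set.Ioi A := by
  ext X
  constructor
  · rintro ⟨r, hr, rfl⟩
    have hr' : (0 : ℝ) < r := hr
    show A < Real.sqrt (A ^ 2 + r ^ 2)
    apply Real.lt_sqrt_of_sq_lt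
    nlinarith
  · intro hX
    have hX' : A < X := hX
    have hpos : 0 < X ^ 2 - A ^ 2 := by nlinarith
    refine ⟨Real.sqrt (X ^ 2 - A ^ 2), Real.sqrt_pos.2 hpos, ?_⟩
    show Real.sqrt (A ^ 2 + Real.sqrt (X ^ 2 - A ^ 2) ^ 2) = X
    rw [Real.sq_sqrt hpos.le]
    have : A ^ 2 + (X ^ 2 - A ^ 2) = X ^ 2 := by ring
    rw [this, Real.sqrt_sq (by linarith)]

lemma sqrt_add_sq_injOn (A : ℝ) :
    Set.InjOn (fun r : ℝ => Real.sqrt (A ^ 2 + r ^ 2)) (Set.Ioi 0) := by
  intro a ha b hb hab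
  rcases lt_trichotomy a b with h | h | h
  · exact absurd hab (sqrt_add_sq_lt (le_of_lt ha) h).ne
  · exact h
  · exact absurd hab (sqrt_add_sq_lt (le_of_lt hb) h).ne'

lemma integral_subst (Φ : ℝ → ℂ) {A : ℝ} (hA : 0 < A) :
    ∫ r in Set.Ioi (0 : ℝ), (r : ℂ) * hfun Φ A (r ^ 2) = ∫ X in Set.Ioi A, Φ X := by
  have h := integral_image_eq_integral_abs_deriv_smul (s := Set.Ioi (0 : ℝ))
    (f := fun r : ℝ => Real.sqrt (A ^ 2 + r ^ 2))
    (f' := fun r : ℝ => r / Real.sqrt (A ^ 2 + r ^ 2)) measurableSet_Ioi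
    (fun r _ => (hasDerivAt_sqrt_add_sq hA r).hasDerivWithinAt) (sqrt_add_sq_injOn A) Φ
  rw [sqrt_add_sq_image hA] at h
  rw [h]
  apply setIntegral_congr_fun measurableSet_Ioi
  intro r hr
  have hr' : (0 : ℝ) < r := hr
  have hs : 0 < Real.sqrt (A ^ 2 + r ^ 2) := sqrt_pos_of hA (sq_nonneg r)
  show (r : ℂ) * hfun Φ A (r ^ 2)
    = |r / Real.sqrt (A ^ 2 + r ^ 2)| • Φ (Real.sqrt (A ^ 2 + r ^ 2))
  rw [abs_of_pos (div_pos hr' hs), Complex.real_smul]
  unfold hfun
  push_cast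
  ring

/-! ## The core -/

theorem radInt0_core501 (Φ : ℝ → ℂ) (hΦ : Continuous Φ) (hR : ∃ R : ℝ, ∀ X : ℝ, R < X → Φ X = 0)
    (A α β : ℝ) (hA : 0 < A) (hα : 0 < α) (hβ : 0 < β) :
    (∫ x : ℝ, ∫ v : ℝ, Φ (Real.sqrt (A ^ 2 + α * x ^ 2 + β * v ^ 2)) /
        ((Real.sqrt (A ^ 2 + α * x ^ 2 + β * v ^ 2) : ℝ) : ℂ))
      = ((2 * Real.pi / Real.sqrt (α * β) : ℝ) : ℂ) * ∫ X in Set.Ioi A, Φ X := by
  obtain ⟨R₀, hR₀⟩ := hR
  -- a nonnegative bound
  obtain ⟨R, hR0, hR⟩ : ∃ R : ℝ, 0 ≤ R ∧ ∀ X : ℝ, R < X → Φ X = 0 :=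
    ⟨max R₀ 0, le_max_right _ _, fun X hX => hR₀ X (lt_of_le_of_lt (le_max_left _ _) hX)⟩
  -- step 1: the integrand as a function of the rescaled variables
  have e1 : ∀ x v : ℝ, Φ (Real.sqrt (A ^ 2 + α * x ^ 2 + β * v ^ 2)) /
        ((Real.sqrt (A ^ 2 + α * x ^ 2 + β * v ^ 2) : ℝ) : ℂ)
      = (fun y w : ℝ => hfun Φ A (y ^ 2 + w ^ 2)) (Real.sqrt α * x) (Real.sqrt β * v) := by
    intro x v
    show _ = hfun Φ A ((Real.sqrt α * x) ^ 2 + (Real.sqrt β * v) ^ 2)
    have : A ^ 2 + ((Real.sqrt α * x) ^ 2 + (Real.sqrt β * v) ^ 2)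
        = A ^ 2 + α * x ^ 2 + β * v ^ 2 := by
      rw [mul_pow, mul_pow, Real.sq_sqrt hα.le, Real.sq_sqrt hβ.le]
      ring
    unfold hfun
    rw [this]
  simp only [e1]
  rw [integral_rescale (fun y w : ℝ => hfun Φ A (y ^ 2 + w ^ 2)) hα hβ]
  -- step 2: Fubini
  have hc : Continuous (fun p : ℝ × ℝ => hfun Φ A (p.1 ^ 2 + p.2 ^ 2)) :=
    continuous_hfun_comp hΦ hA (by fun_prop) (fun p => by positivity)
  have hsupp : HasCompactSupport (fun p : ℝ × ℝ => hfun Φ A (p.1 ^ 2 + p.2 ^ 2)) := by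
    apply HasCompactSupport.intro (isCompact_closedBall (0 : ℝ × ℝ) R)
    intro p hp
    apply hfun_eq_zero hR _ hR0
    rw [Metric.mem_closedBall, dist_zero_right, not_le, Prod.norm_def] at hp
    rcases lt_max_iff.1 hp with h | h
    · rw [Real.norm_eq_abs] at h
      have : R ^ 2 < p.1 ^ 2 := by
        rw [← sq_abs p.1]
        exact pow_lt_pow_left₀ h hR0 (by norm_num)
      nlinarith [sq_nonneg p.2]
    · rw [Real.norm_eq_abs] at h
      have : R ^ 2 < p.2 ^ 2 := by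
        rw [← sq_abs p.2]
        exact pow_lt_pow_left₀ h hR0 (by norm_num)
      nlinarith [sq_nonneg p.1]
  have hint : Integrable (fun p : ℝ × ℝ => hfun Φ A (p.1 ^ 2 + p.2 ^ 2))
      ((volume : Measure ℝ).prod (volume : Measure ℝ)) := by
    rw [← Measure.volume_eq_prod]
    exact hc.integrable_of_hasCompactSupport hsupp
  have e2 : ∫ y : ℝ, ∫ w : ℝ, hfun Φ A (y ^ 2 + w ^ 2)
      = ∫ p : ℝ × ℝ, hfun Φ A (p.1 ^ 2 + p.2 ^ 2) := by
    rw [Measure.volume_eq_prod, integral_prod _ hint]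
  -- step 3: to `ℂ`
  have e3 : ∫ p : ℝ × ℝ, hfun Φ A (p.1 ^ 2 + p.2 ^ 2)
      = ∫ z : ℂ, (fun r : ℝ => hfun Φ A (r ^ 2)) ‖z‖ := by
    rw [← Complex.volume_preserving_equiv_real_prod.integral_comp'
      (g := fun p : ℝ × ℝ => hfun Φ A (p.1 ^ 2 + p.2 ^ 2))]
    apply integral_congr_ae
    filter_upwards with z
    show hfun Φ A (z.re ^ 2 + z.im ^ 2) = hfun Φ A (‖z‖ ^ 2)
    rw [Complex.sq_norm, Complex.normSq_apply]
    ring_nf
  have e4 := integral_radial_complex (fun r : ℝ => hfun Φ A (r ^ 2))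
  have e5 := integral_subst Φ hA
  rw [e2, e3, e4]
  show _ * (_ * ∫ r in Set.Ioi (0 : ℝ), (r : ℂ) * hfun Φ A (r ^ 2)) = _
  rw [e5, ← mul_assoc]
  congr 1
  push_cast
  rw [div_eq_mul_inv]
  ring

end Fermat.Agent.LT.H501.Rad

end

end
-- ===== PACK-END LT/T6/H501/RadInt0Core.lean

-- ===== PACK-BEGIN LT/T6/H781/EllSpec.lean
section


/-!
# Row LT, tower T6, leaf T6.28 `ArchEllId` (registry 1263): SPEC of the owner (helper781)

OFF-MAIN.  Mathlib only.  Definitions and ONE Prop; the proof is in `LT/T6/H781/EllId.lean`.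

THE ELLIPTIC IDENTITY of the archimedean matching `ℂ/ℝ` (memo `coord/LT-T6-interface.md` v4 of
helper22, "Why (3)"), as a statement of calculus on profiles.

* `abelT g x = ∫_ℝ g(x + u²) du`                               (the Abel transform `A g` of `H²`);
* `tailI Φ X = ∫_{t > X} Φ(t) dt`               (`π⁻¹ ×` the Abel transform of `H³` of `Φ ∘ ρ_ℂ`);
* `ellDown g θ = ∫_{τ>0} g(1 + 2 sin²θ sinh²τ) sinh τ dτ`
  (`O_{k_θ}(f₀) = 4π · ellDown g₀ θ`, `O_{k_θ}(f₁) = 4π √2 cos θ · ellDown G₁ θ`);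
* `ellUp Φ θ = ∫_{τ>0} ∫_ℝ Φ(2 cosh²β (1 + sin²(θ/2) sinh²τ) - 1) cosh²β sinh τ dβ dτ`
  (`TO_{k_{θ/2}}(φ) = 2π vol · ellUp Φ θ` with `β = 2b`:
  `ρ_ℂ(a_{-b} y_τ a_{-b}) = 2 cosh²(2b) (1 + sin²(θ/2) sinh²τ) - 1`, checked numerically);
* `IsProfile g`: continuous on `[1, ∞)`, zero from some point on.

`ArchEllIdC`: if `g₀`, `G₁` are Abel-matched to `Φ` with the constant `κ`
(`√2 (A g₀)(x) = 2 c(x) (A G₁)(x) = κ Ψ(c(x))`, `c(x) = √((x+1)/2)`, `Ψ = tailI Φ`: the hyperbolic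
matching `F_{f₀}(t) = F_{f₁}(t) = κ Ψ(cosh (t/2))`), then at every regular elliptic angle
`ellDown g₀ θ + √2 cos θ · ellDown G₁ θ = (κ/π) · ellUp Φ θ`.

Proof on paper (all steps are Fubini for continuous compactly supported functions, polar
coordinates and one-dimensional substitutions):
(A) `π · ellDown g θ = ∫_{p>0} (A g)(1 + p²) / (2 sin²θ + p²) dp`
    (polar coordinates in `(p, u)`, `∫_{-π/2}^{π/2} dψ / (m² + r² cos²ψ) = π / (m √(m²+r²))`,
    `r = m sinh τ`);
(B) `ellUp Φ θ = (1/2) ∫_{v>0} Ψ(cosh v) / (cosh v - cos θ) dv`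
    ((A) for `g_β(y) = Φ(2 cosh²β y - 1)`, `m = |sin (θ/2)|`; then
    `∫∫ Φ(2cosh²β (1+p²+u²) - 1) cosh²β du dβ = π Ψ(1+2p²) / (2 √(1+p²))`, `p = sinh (v/2)`);
(C) `p = √2 sinh v` in (A) for `g₀` and `G₁`:
    `ellDown g₀ θ + √2 cos θ ellDown G₁ θ = (κ/2π) ∫_{v>0} Ψ(cosh v) / (cosh v - cos θ) dv`.
Numerical check of (A), (B): `/tmp` scripts of the owner (6 digits), and the script of helper22.
-/

set_option autoImplicit false

open MeasureTheory

noncomputable section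

namespace Fermat.Agent.LT.T6.H781

/-- The Abel transform of `H²` on profiles: `(A g)(x) = ∫_ℝ g(x + u²) du`. -/
def abelT (g : ℝ → ℂ) (x : ℝ) : ℂ := ∫ u : ℝ, g (x + u ^ 2)

/-- The tail integral `Ψ(X) = ∫_{t > X} Φ(t) dt`. -/
def tailI (Φ : ℝ → ℂ) (X : ℝ) : ℂ := ∫ t in Set.Ioi X, Φ t

/-- The elliptic orbital integral downstairs, as an integral of the profile. -/
def ellDown (g : ℝ → ℂ) (θ : ℝ) : ℂ :=
  ∫ τ in Set.Ioi (0 : ℝ), g (1 + 2 * Real.sin θ ^ 2 * Real.sinh τ ^ 2) * ((Real.sinh τ : ℝ) : ℂ)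

/-- The twisted elliptic orbital integral upstairs, as an integral of the profile. -/
def ellUp (Φ : ℝ → ℂ) (θ : ℝ) : ℂ :=
  ∫ τ in Set.Ioi (0 : ℝ), ∫ β : ℝ,
    Φ (2 * Real.cosh β ^ 2 * (1 + Real.sin (θ / 2) ^ 2 * Real.sinh τ ^ 2) - 1) *
      ((Real.cosh β ^ 2 * Real.sinh τ : ℝ) : ℂ)

/-- The common value of both sides: `∫_{v>0} Ψ(cosh v) / (cosh v - cos θ) dv`. -/
def ellKer (Ψ : ℝ → ℂ) (θ : ℝ) : ℂ :=
  ∫ v in Set.Ioi (0 : ℝ), Ψ (Real.cosh v) / ((Real.cosh v - Real.cos θ : ℝ) : ℂ)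

/-- A profile: continuous on `[1, ∞)` and zero from some point on. -/
def IsProfile (g : ℝ → ℂ) : Prop :=
  ContinuousOn g (Set.Ici 1) ∧ ∃ R : ℝ, ∀ y : ℝ, R ≤ y → g y = 0

/-- **T6.28 (A)**: the elliptic orbital integral downstairs in terms of the Abel transform. -/
def EllDownC : Prop :=
  ∀ (g : ℝ → ℂ), IsProfile g → ∀ θ : ℝ, Real.sin θ ≠ 0 →
    ((Real.pi : ℝ) : ℂ) * ellDown g θ =
      ∫ p in Set.Ioi (0 : ℝ), abelT g (1 + p ^ 2) / ((2 * Real.sin θ ^ 2 + p ^ 2 : ℝ) : ℂ)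

/-- **T6.28 (B)**: the twisted elliptic orbital integral upstairs in terms of the tail integral
(the Abel transform of `H³`). -/
def EllUpC : Prop :=
  ∀ (Φ : ℝ → ℂ), IsProfile Φ → ∀ θ : ℝ, Real.sin θ ≠ 0 →
    ellUp Φ θ = (1 / 2 : ℂ) * ellKer (tailI Φ) θ

/-- **T6.28 `ArchEllId`**: THE ELLIPTIC IDENTITY for Abel-matched profiles. -/
def ArchEllIdC : Prop :=
  ∀ (g₀ G₁ Φ : ℝ → ℂ) (κ : ℂ), IsProfile g₀ → IsProfile G₁ → IsProfile Φ →
    (∀ x : ℝ, 1 ≤ x →
      abelT g₀ x = κ * tailI Φ (Real.sqrt ((x + 1) / 2)) / ((Real.sqrt 2 : ℝ) : ℂ)) →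
    (∀ x : ℝ, 1 ≤ x →
      abelT G₁ x = κ * tailI Φ (Real.sqrt ((x + 1) / 2)) /
        ((2 * Real.sqrt ((x + 1) / 2) : ℝ) : ℂ)) →
    ∀ θ : ℝ, Real.sin θ ≠ 0 →
      ellDown g₀ θ + ((Real.sqrt 2 * Real.cos θ : ℝ) : ℂ) * ellDown G₁ θ
        = κ / ((Real.pi : ℝ) : ℂ) * ellUp Φ θ

/-- The formal top of the leaf: (A) and (B) give the identity — proved in `EllId.lean`. -/
def ArchEllIdTopC : Prop := EllDownC → EllUpC → ArchEllIdC

end Fermat.Agent.LT.T6.H781

end

end
-- ===== PACK-END LT/T6/H781/EllSpec.lean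

-- ===== PACK-BEGIN LT/T6/H75/Unfold.lean
section


/-!
# Row LT, tower T6: UNFOLDING, independence of the cut-off function (helper75)

OFF-MAIN.  Mathlib only.  No hole.

`unfold_cutoff75`: `G`, `H` groups with measures `μ` (left invariant) and `ν` (inversion
invariant), both s-finite; `j : H →* G` with `(t, x) ↦ j t * x` measurable; `F` measurable on `G`
with `F (j t * x) = F x`; `β₁`, `β₂ ≥ 0` measurable with `∫ β (j t * x) dν(t) = 1` for all `x`.
Then `∫ F β₁ dμ = ∫ F β₂ dμ` (Bochner integrals, NO integrability hypothesis: if one of the two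
integrands is not integrable, neither is the other).

Proof: `f (t, x) = F x β₁ x β₂ (j t x)` on `H × G`; its integral over `ν ⊗ μ` is `∫ F β₁ dμ`
(`unfold_aux75`); the map `(t, x) ↦ (t⁻¹, j t x)` preserves `ν ⊗ μ` and exchanges `β₁` and `β₂`.
-/

set_option autoImplicit false

open MeasureTheory

noncomputable section

namespace Fermat.Agent.LT.T6.H75

variable {G H : Type*} [Group G] [Group H] [MeasurableSpace G] [MeasurableSpace H]

omit [Group H] in
/-- The double integral of `F(x) β(x) γ(j(t) x)` is `∫ F β` if `∫ γ(j(t) x) dν(t) = 1`. -/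
theorem unfold_aux75 (μ : Measure G) [SFinite μ] (ν : Measure H) [SFinite ν]
    (j : H → G) (hj : Measurable (fun p : H × G => j p.1 * p.2))
    (F : G → ℂ) (hF : Measurable F) (β γ : G → ℝ) (hβm : Measurable β) (hγm : Measurable γ)
    (hγ0 : ∀ x, 0 ≤ γ x) (hγ : ∀ x, ∫ t, γ (j t * x) ∂ν = 1) :
    ∫ p : H × G, F p.2 * (β p.2 : ℂ) * (γ (j p.1 * p.2) : ℂ) ∂(ν.prod μ)
      = ∫ x, F x * (β x : ℂ) ∂μ := by
  set f : H × G → ℂ := fun p => F p.2 * (β p.2 : ℂ) * (γ (j p.1 * p.2) : ℂ) with hf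
  have hfm : Measurable f := by
    have h1 : Measurable (fun p : H × G => F p.2) := hF.comp measurable_snd
    have h2 : Measurable (fun p : H × G => (β p.2 : ℂ)) :=
      Complex.measurable_ofReal.comp (hβm.comp measurable_snd)
    have h3 : Measurable (fun p : H × G => (γ (j p.1 * p.2) : ℂ)) :=
      Complex.measurable_ofReal.comp (hγm.comp hj)
    exact (h1.mul h2).mul h3
  have hgm : Measurable (fun x => F x * (β x : ℂ)) :=
    hF.mul (Complex.measurable_ofReal.comp hβm)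
  -- the fibre integrals
  have hint : ∀ x, Integrable (fun t => γ (j t * x)) ν := by
    intro x
    by_contra h
    have := integral_undef h
    rw [hγ x] at this
    exact one_ne_zero this
  have hfib : ∀ x, Integrable (fun t => f (t, x)) ν := by
    intro x
    exact (hint x).ofReal.const_mul (F x * (β x : ℂ))
  have hnorm : ∀ x, ∫ t, ‖f (t, x)‖ ∂ν = ‖F x * (β x : ℂ)‖ := by
    intro x
    have e : (fun t => ‖f (t, x)‖) = fun t => ‖F x * (β x : ℂ)‖ * γ (j t * x) := by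
      funext t
      simp only [hf]
      rw [norm_mul, Complex.norm_real, Real.norm_eq_abs, abs_of_nonneg (hγ0 _)]
    rw [e, integral_const_mul, hγ x, mul_one]
  have hval : ∀ x, ∫ t, f (t, x) ∂ν = F x * (β x : ℂ) := by
    intro x
    have e : (fun t => f (t, x)) = fun t => F x * (β x : ℂ) * ((γ (j t * x) : ℝ) : ℂ) := rfl
    rw [e, integral_const_mul, integral_complex_ofReal, hγ x, Complex.ofReal_one, mul_one]
  have hiff : Integrable f (ν.prod μ) ↔ Integrable (fun x => F x * (β x : ℂ)) μ := by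
    rw [integrable_prod_iff' hfm.aestronglyMeasurable]
    simp only [hnorm]
    constructor
    · rintro ⟨_, h2⟩
      exact (integrable_norm_iff hgm.aestronglyMeasurable).mp h2
    · intro h
      exact ⟨Filter.Eventually.of_forall hfib, h.norm⟩
  by_cases hI : Integrable (fun x => F x * (β x : ℂ)) μ
  · rw [integral_prod_symm f (hiff.mpr hI)]
    simp only [hval]
  · rw [integral_undef hI, integral_undef (fun h => hI (hiff.mp h))]

/-- **Unfolding: independence of the cut-off function.** -/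
theorem unfold_cutoff75 [MeasurableMul G] [MeasurableInv H]
    (μ : Measure G) [SFinite μ] [μ.IsMulLeftInvariant]
    (ν : Measure H) [SFinite ν] [ν.IsInvInvariant]
    (j : H →* G) (hj : Measurable (fun p : H × G => j p.1 * p.2))
    (F : G → ℂ) (hF : Measurable F) (hFinv : ∀ t x, F (j t * x) = F x)
    (β₁ β₂ : G → ℝ)
    (hβ₁m : Measurable β₁) (hβ₁0 : ∀ x, 0 ≤ β₁ x) (hβ₁ : ∀ x, ∫ t, β₁ (j t * x) ∂ν = 1)
    (hβ₂m : Measurable β₂) (hβ₂0 : ∀ x, 0 ≤ β₂ x) (hβ₂ : ∀ x, ∫ t, β₂ (j t * x) ∂ν = 1) :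
    ∫ x, F x * (β₁ x : ℂ) ∂μ = ∫ x, F x * (β₂ x : ℂ) ∂μ := by
  rw [← unfold_aux75 μ ν j hj F hF β₁ β₂ hβ₁m hβ₂m hβ₂0 hβ₂,
    ← unfold_aux75 μ ν j hj F hF β₂ β₁ hβ₂m hβ₁m hβ₁0 hβ₁]
  -- the measure preserving involution
  have hS1 : MeasurePreserving (fun p : H × G => (p.1, j p.1 * p.2)) (ν.prod μ) (ν.prod μ) :=
    MeasurePreserving.skew_product (f := id) (MeasurePreserving.id ν)
      (g := fun t x => j t * x) hj
      (Filter.Eventually.of_forall fun t => map_mul_left_eq_self μ (j t))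
  have hS2 : MeasurePreserving (Prod.map (Inv.inv : H → H) (id : G → G)) (ν.prod μ) (ν.prod μ) :=
    (Measure.measurePreserving_inv ν).prod (MeasurePreserving.id μ)
  have hΨ : MeasurePreserving (fun p : H × G => (p.1⁻¹, j p.1 * p.2)) (ν.prod μ) (ν.prod μ) :=
    hS2.comp hS1
  set f : H × G → ℂ := fun p => F p.2 * (β₁ p.2 : ℂ) * (β₂ (j p.1 * p.2) : ℂ) with hf
  have hfm : Measurable f := by
    have h1 : Measurable (fun p : H × G => F p.2) := hF.comp measurable_snd
    have h2 : Measurable (fun p : H × G => (β₁ p.2 : ℂ)) :=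
      Complex.measurable_ofReal.comp (hβ₁m.comp measurable_snd)
    have h3 : Measurable (fun p : H × G => (β₂ (j p.1 * p.2) : ℂ)) :=
      Complex.measurable_ofReal.comp (hβ₂m.comp hj)
    exact (h1.mul h2).mul h3
  have h1 := integral_map hΨ.measurable.aemeasurable
    (hfm.aestronglyMeasurable (μ := Measure.map (fun p : H × G => (p.1⁻¹, j p.1 * p.2))
      (ν.prod μ)))
  rw [hΨ.map_eq] at h1
  rw [h1]
  congr 1
  funext p
  simp only [hf]
  rw [hFinv, map_inv, inv_mul_cancel_left]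
  ring

end Fermat.Agent.LT.T6.H75

end

end
-- ===== PACK-END LT/T6/H75/Unfold.lean

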