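import Mathlib
import Fermat.Agent.Pack.LT2.E21L0
import Fermat.Agent.Pack.LT2.E21L1

set_option linter.all false

-- ===== PACK-BEGIN LT/CFT/H3/IndexTwoCore.lean
section


/-!
# Row LT, tower CFT, leaf CFT.16.E2.2b `IndexTwoC589`: the Mathlib-only core (helper3)

OFF-MAIN.  `index_two_core3`: `K₁/K` of degree `2` (any finite degree `n` works the same way:
`index_core3`), `char K = 0`, `j : K → ℚ̄`, `j₁ : K₁ → ℚ̄` compatible; `G`, `G₁` the subgroups of
`Gal(ℚ̄/ℚ)` fixing `j K`, `j₁ K₁` pointwise.  Then `G₁ ≤ G` and `[G : G₁] = [K₁ : K]`.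

Proof: `ℚ̄` is a Galois extension of `K` (via `j`); `G ≃ Gal(ℚ̄/K)`, `G₁` corresponds to the
fixing subgroup of the intermediate field `L = j₁ K₁`, and
`IntermediateField.finrank_eq_fixingSubgroup_index`.
-/

set_option autoImplicit false
set_option linter.style.haveILetI false

noncomputable section

namespace Fermat.Agent.LT.CFT.H3

/-- `[G : G₁] = [K₁ : K]`. -/
theorem index_core3 (K : Type) [Field K] [CharZero K] (j : K →+* AlgebraicClosure ℚ)
    (K₁ : Type) [Field K₁] [Algebra K K₁]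
    (j₁ : K₁ →+* AlgebraicClosure ℚ) (hj : ∀ x : K, j₁ (algebraMap K K₁ x) = j x)
    (G G₁ : Subgroup (AlgebraicClosure ℚ ≃ₐ[ℚ] AlgebraicClosure ℚ))
    (hG : ∀ σ, σ ∈ G ↔ ∀ x : K, σ (j x) = j x)
    (hG₁ : ∀ σ, σ ∈ G₁ ↔ ∀ x : K₁, σ (j₁ x) = j₁ x) :
    G₁ ≤ G ∧ (G₁.subgroupOf G).index = Module.finrank K K₁ := by
  have hle : G₁ ≤ G := by
    intro σ hσ
    rw [hG]
    intro x
    rw [← hj x]
    exact (hG₁ σ).1 hσ _
  refine ⟨hle, ?_⟩
  letI : Algebra K (AlgebraicClosure ℚ) := j.toAlgebra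
  have halg : ∀ x : K, algebraMap K (AlgebraicClosure ℚ) x = j x := fun _ => rfl
  haveI : IsScalarTower ℚ K (AlgebraicClosure ℚ) := IsScalarTower.of_algebraMap_eq fun q => by
    rw [halg, eq_ratCast, eq_ratCast, map_ratCast]
  haveI : Algebra.IsAlgebraic ℚ (AlgebraicClosure ℚ) := AlgebraicClosure.isAlgebraic ℚ
  haveI : Algebra.IsAlgebraic K (AlgebraicClosure ℚ) :=
    Algebra.IsAlgebraic.tower_top (K := ℚ) K
  haveI : IsAlgClosure K (AlgebraicClosure ℚ) := ⟨inferInstance, inferInstance⟩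
  haveI : IsGalois K (AlgebraicClosure ℚ) := ⟨⟩
  -- the image of `K₁`
  have hcomm : ∀ x : K, j₁ (algebraMap K K₁ x) = algebraMap K (AlgebraicClosure ℚ) x :=
    fun x => by rw [hj, halg]
  let j₁' : K₁ →ₐ[K] AlgebraicClosure ℚ := { j₁ with commutes' := hcomm }
  have hj₁' : ∀ x : K₁, j₁' x = j₁ x := fun _ => rfl
  let L : IntermediateField K (AlgebraicClosure ℚ) := j₁'.fieldRange
  have hfin : Module.finrank K L = Module.finrank K K₁ :=
    (AlgEquiv.ofInjectiveField j₁').toLinearEquiv.finrank_eq.symm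
  rw [← hfin, IntermediateField.finrank_eq_fixingSubgroup_index (AlgebraicClosure ℚ) L]
  -- the comparison of the groups
  let f : ↥G →* (AlgebraicClosure ℚ ≃ₐ[K] AlgebraicClosure ℚ) :=
    { toFun := fun σ => AlgEquiv.ofRingEquiv (f := (σ : AlgebraicClosure ℚ ≃ₐ[ℚ] AlgebraicClosure ℚ).toRingEquiv)
        (fun x => (hG σ).1 σ.2 x)
      map_one' := by
        ext x
        rfl
      map_mul' := by
        intro a b
        ext x
        rfl }
  have hf : ∀ (σ : ↥G) (x : AlgebraicClosure ℚ),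
      f σ x = (σ : AlgebraicClosure ℚ ≃ₐ[ℚ] AlgebraicClosure ℚ) x := fun _ _ => rfl
  have hsurj : Function.Surjective f := by
    intro τ
    have hmem : (AlgEquiv.ofRingEquiv (R := ℚ) (f := τ.toRingEquiv)
        (fun q => by rw [eq_ratCast]; exact map_ratCast τ.toRingEquiv q)
        : AlgebraicClosure ℚ ≃ₐ[ℚ] AlgebraicClosure ℚ) ∈ G := by
      rw [hG]
      intro x
      exact τ.commutes x
    refine ⟨⟨_, hmem⟩, ?_⟩
    ext x
    rfl
  have hcomap : G₁.subgroupOf G = L.fixingSubgroup.comap f := by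
    ext σ
    rw [Subgroup.mem_subgroupOf, Subgroup.mem_comap, IntermediateField.mem_fixingSubgroup_iff,
      hG₁]
    constructor
    · rintro h x ⟨y, rfl⟩
      rw [hf]
      exact h y
    · intro h y
      have := h (j₁ y) ⟨y, rfl⟩
      rw [hf] at this
      exact this
  rw [hcomap, Subgroup.index_comap_of_surjective _ hsurj]

end Fermat.Agent.LT.CFT.H3

end

end
-- ===== PACK-END LT/CFT/H3/IndexTwoCore.lean

-- ===== PACK-BEGIN LT/T6/H189/HaarEmb.lean
section


/-!
# Row LT, tower T6, leaf T6.23 -- the generic lemma (helper189)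

OFF-MAIN, Mathlib only.

`haar_restrict_range_eq_smul_map189`: let `Ψ : H → G` be an open embedding of a locally compact
second countable group `H` into a group `G` such that every left translation of `H` corresponds to
`g ↦ g₁ * g * g₂` with `g₂` preserving the Haar measure `μ` of `G` on the right.  Then
`μ.restrict (range Ψ) = c • map Ψ η` for every Haar measure `η` of `H`, `0 < c < ∞`.
-/

set_option autoImplicit false

open MeasureTheory Set
open scoped ENNReal

namespace Fermat.Agent.LT.T6.H189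

section Generic

variable {G H : Type*} [Group G] [TopologicalSpace G] [IsTopologicalGroup G]
  [MeasurableSpace G] [BorelSpace G]
  [Group H] [TopologicalSpace H] [IsTopologicalGroup H] [MeasurableSpace H] [BorelSpace H]

/-- The pull-back of a Haar measure along an equivariant open embedding is a Haar measure. -/
theorem isHaarMeasure_comap189 (μ : Measure G) [μ.IsHaarMeasure] (Ψ : H → G)
    (hΨ : Topology.IsOpenEmbedding Ψ)
    (hequiv : ∀ h₀ : H, ∃ g₁ g₂ : G, (∀ h, Ψ (h₀ * h) = g₁ * Ψ h * g₂) ∧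
      Measure.map (fun g => g * g₂) μ = μ) :
    (μ.comap Ψ).IsHaarMeasure := by
  have hme : MeasurableEmbedding Ψ := hΨ.measurableEmbedding
  have happ : ∀ S : Set H, (μ.comap Ψ) S = μ (Ψ '' S) := fun S => hme.comap_apply μ S
  refine
    { lt_top_of_isCompact := ?_
      map_mul_left_eq_self := ?_
      open_pos := ?_ }
  · intro C hC
    rw [happ]
    exact (hC.image hΨ.continuous).measure_lt_top
  · intro h₀
    obtain ⟨g₁, g₂, hΨm, hμ⟩ := hequiv h₀
    ext S hS
    rw [Measure.map_apply (measurable_const_mul h₀) hS, happ, happ]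
    have hset : Ψ '' ((fun h => h₀ * h) ⁻¹' S) = (fun g => g₁ * g * g₂) ⁻¹' (Ψ '' S) := by
      ext x
      constructor
      · rintro ⟨h, hh, rfl⟩
        exact ⟨h₀ * h, hh, hΨm h⟩
      · rintro ⟨s, hs, hsx⟩
        refine ⟨h₀⁻¹ * s, by simpa using hs, ?_⟩
        have h1 := hΨm (h₀⁻¹ * s)
        rw [mul_inv_cancel_left] at h1
        have h2 : g₁ * Ψ (h₀⁻¹ * s) * g₂ = g₁ * x * g₂ := by rw [← h1, hsx]
        exact mul_left_cancel (mul_right_cancel h2)
    rw [hset]
    have hA : MeasurableSet (Ψ '' S) := hme.measurableSet_image.mpr hS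
    have hB : MeasurableSet ((fun g => g * g₂) ⁻¹' (Ψ '' S)) := measurable_mul_const g₂ hA
    have hcomp : (fun g => g₁ * g * g₂) ⁻¹' (Ψ '' S)
        = (fun g => g₁ * g) ⁻¹' ((fun g => g * g₂) ⁻¹' (Ψ '' S)) := rfl
    rw [hcomp, measure_preimage_mul]
    have h3 : (Measure.map (fun g => g * g₂) μ) (Ψ '' S) = μ (Ψ '' S) := by rw [hμ]
    rwa [Measure.map_apply (measurable_mul_const g₂) hA] at h3
  · intro U hU hne
    rw [happ]
    exact ((hΨ.isOpenMap U hU).measure_pos μ (hne.image Ψ)).ne'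

/-- **The generic lemma.** -/
theorem haar_restrict_range_eq_smul_map189 [LocallyCompactSpace H] [SecondCountableTopology H]
    (μ : Measure G) [μ.IsHaarMeasure] (η : Measure H) [η.IsHaarMeasure] (Ψ : H → G)
    (hΨ : Topology.IsOpenEmbedding Ψ)
    (hequiv : ∀ h₀ : H, ∃ g₁ g₂ : G, (∀ h, Ψ (h₀ * h) = g₁ * Ψ h * g₂) ∧
      Measure.map (fun g => g * g₂) μ = μ) :
    ∃ c : ℝ≥0∞, c ≠ 0 ∧ c ≠ ⊤ ∧ μ.restrict (Set.range Ψ) = c • Measure.map Ψ η := by
  have hme : MeasurableEmbedding Ψ := hΨ.measurableEmbedding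
  have : (μ.comap Ψ).IsHaarMeasure := isHaarMeasure_comap189 μ Ψ hΨ hequiv
  have h1 : μ.comap Ψ = (μ.comap Ψ).haarScalarFactor η • η :=
    Measure.isMulLeftInvariant_eq_smul (μ.comap Ψ) η
  have hpos : 0 < (μ.comap Ψ).haarScalarFactor η :=
    Measure.haarScalarFactor_pos_of_isHaarMeasure (μ.comap Ψ) η
  refine ⟨((μ.comap Ψ).haarScalarFactor η : ℝ≥0∞), ?_, ENNReal.coe_ne_top, ?_⟩
  · exact_mod_cast hpos.ne'
  · rw [← hme.map_comap μ]
    conv_lhs => rw [h1]
    rw [Measure.map_smul]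
    rfl

end Generic

end Fermat.Agent.LT.T6.H189

end
-- ===== PACK-END LT/T6/H189/HaarEmb.lean

-- ===== PACK-BEGIN LT/T6/H964/Abel.lean
section


/-!
# Row LT, tower T6, leaf T6.24 (part 1): the Abel transform `(A g)(r) = ∫_ℝ g(r + u²) du`
(helper964, OFF-MAIN, Mathlib only)

For `g : ℝ → ℂ` continuous and vanishing above `R` (`VanishesAbove964 R g`):

* `abelT964 g r = ∫ u, g (r + u ^ 2)`; the integrand is continuous with compact support;
* `abelT_vanishesAbove964` : `A g` vanishes above `R`;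
* `abelT_congr_Ici964`     : `(A g)(r)` depends only on `g` on `[r, ∞)`;
* `continuous_abelT964`, `hasDerivAt_abelT964`, `deriv_abelT964` (`(A g)' = A (g')`),
  `contDiff_abelT964` : `A` preserves `C^n` for every `n` (`n = ∞` included).

Reference: Helgason, *Groups and Geometric Analysis*, Ch. I §4 (Abel's integral equation);
memo `coord/LT-T6-interface.md` (helper22) v4, "Why (2)".
-/

set_option autoImplicit false

open MeasureTheory Set Filter Topology
open scoped ContDiff

noncomputable section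

namespace Fermat.Agent.LT.T6.H964

/-- `g` vanishes on `(R, ∞)`. -/
def VanishesAbove964 (R : ℝ) (g : ℝ → ℂ) : Prop := ∀ x, R < x → g x = 0

/-- The Abel transform `(A g)(r) = ∫_ℝ g(r + u²) du`. -/
def abelT964 (g : ℝ → ℂ) (r : ℝ) : ℂ := ∫ u : ℝ, g (r + u ^ 2)

theorem VanishesAbove964.mono {R R' : ℝ} {g : ℝ → ℂ} (h : VanishesAbove964 R g) (hR : R ≤ R') :
    VanishesAbove964 R' g := fun x hx => h x (lt_of_le_of_lt hR hx)

theorem VanishesAbove964.deriv {R : ℝ} {g : ℝ → ℂ} (h : VanishesAbove964 R g) :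
    VanishesAbove964 R (deriv g) := by
  intro x hx
  have : g =ᶠ[𝓝 x] fun _ => (0 : ℂ) := by
    filter_upwards [Ioi_mem_nhds hx] with y hy using h y hy
  rw [this.deriv_eq]
  simp

theorem VanishesAbove964.smul {R : ℝ} {g : ℝ → ℂ} (h : VanishesAbove964 R g) (c : ℂ) :
    VanishesAbove964 R (fun x => c * g x) := fun x hx => by simp [h x hx]

/-- The integrand vanishes for `c < |u|` as soon as `R - r ≤ c ^ 2`. -/
theorem integrand_eq_zero964 {R : ℝ} {g : ℝ → ℂ} (h : VanishesAbove964 R g) {r c u : ℝ}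
    (hc : 0 ≤ c) (hrc : R - r ≤ c ^ 2) (hu : c < |u|) : g (r + u ^ 2) = 0 := by
  apply h
  have h1 : c ^ 2 < u ^ 2 := by
    rw [← sq_abs u]
    exact pow_lt_pow_left₀ hu hc two_ne_zero
  linarith

/-- A radius which works for all `r ≥ a`. -/
def rad964 (R a : ℝ) : ℝ := Real.sqrt (max (R - a) 0)

theorem rad_nonneg964 (R a : ℝ) : 0 ≤ rad964 R a := Real.sqrt_nonneg _

theorem le_rad_sq964 (R a r : ℝ) (har : a ≤ r) : R - r ≤ rad964 R a ^ 2 := by
  unfold rad964
  rw [Real.sq_sqrt (le_max_right _ _)]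
  exact le_trans (by linarith) (le_max_left _ _)

theorem integrand_eq_zero_of_rad964 {R : ℝ} {g : ℝ → ℂ} (h : VanishesAbove964 R g) {a r u : ℝ}
    (har : a ≤ r) (hu : u ∉ Icc (-rad964 R a) (rad964 R a)) : g (r + u ^ 2) = 0 := by
  apply integrand_eq_zero964 h (rad_nonneg964 R a) (le_rad_sq964 R a r har)
  by_contra hcon
  rw [not_lt] at hcon
  exact hu (abs_le.mp hcon)

theorem hasCompactSupport_integrand964 {R : ℝ} {g : ℝ → ℂ} (h : VanishesAbove964 R g) (r : ℝ) :
    HasCompactSupport (fun u : ℝ => g (r + u ^ 2)) :=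
  HasCompactSupport.intro isCompact_Icc
    (fun _ hu => integrand_eq_zero_of_rad964 h (le_refl r) hu)

theorem continuous_integrand964 {g : ℝ → ℂ} (hg : Continuous g) (r : ℝ) :
    Continuous (fun u : ℝ => g (r + u ^ 2)) := by fun_prop

theorem integrable_integrand964 {R : ℝ} {g : ℝ → ℂ} (hg : Continuous g)
    (h : VanishesAbove964 R g) (r : ℝ) : Integrable (fun u : ℝ => g (r + u ^ 2)) :=
  (continuous_integrand964 hg r).integrable_of_hasCompactSupport
    (hasCompactSupport_integrand964 h r)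

/-- `A g` vanishes above `R`. -/
theorem abelT_vanishesAbove964 {R : ℝ} {g : ℝ → ℂ} (h : VanishesAbove964 R g) :
    VanishesAbove964 R (abelT964 g) := by
  intro r hr
  unfold abelT964
  have : (fun u : ℝ => g (r + u ^ 2)) = fun _ => (0 : ℂ) := by
    funext u
    apply h
    have := sq_nonneg u
    linarith
  rw [this]
  simp

/-- `(A g)(r)` depends only on the values of `g` on `[r, ∞)`. -/
theorem abelT_congr_Ici964 {g g' : ℝ → ℂ} {a : ℝ} (h : ∀ x, a ≤ x → g x = g' x) (r : ℝ)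
    (hr : a ≤ r) : abelT964 g r = abelT964 g' r := by
  unfold abelT964
  congr 1
  funext u
  apply h
  have := sq_nonneg u
  linarith

theorem abelT_smul964 (g : ℝ → ℂ) (c : ℂ) (r : ℝ) :
    abelT964 (fun x => c * g x) r = c * abelT964 g r := by
  unfold abelT964
  exact integral_const_mul c _

theorem abelT_add964 {R : ℝ} {g h : ℝ → ℂ} (hg : Continuous g) (hh : Continuous h)
    (vg : VanishesAbove964 R g) (vh : VanishesAbove964 R h) (r : ℝ) :
    abelT964 (fun x => g x + h x) r = abelT964 g r + abelT964 h r := by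
  unfold abelT964
  exact integral_add (integrable_integrand964 hg vg r) (integrable_integrand964 hh vh r)

/-- A continuous function vanishing above `R` is bounded on every `[a, ∞)`. -/
theorem exists_bound_Ici964 {R : ℝ} {g : ℝ → ℂ} (hg : Continuous g)
    (h : VanishesAbove964 R g) (a : ℝ) : ∃ M : ℝ, 0 ≤ M ∧ ∀ x, a ≤ x → ‖g x‖ ≤ M := by
  obtain ⟨M, hM⟩ := (isCompact_Icc (a := a) (b := max a R)).exists_bound_of_continuousOn
    hg.continuousOn
  refine ⟨max M 0, le_max_right _ _, fun x hx => ?_⟩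
  by_cases hxR : x ≤ max a R
  · exact le_trans (hM x ⟨hx, hxR⟩) (le_max_left _ _)
  · rw [not_le] at hxR
    rw [h x (lt_of_le_of_lt (le_max_right _ _) hxR)]
    simp

/-- The dominating function near `r₀`. -/
def bound964 (M R r₀ : ℝ) (u : ℝ) : ℝ :=
  (Icc (-rad964 R (r₀ - 1)) (rad964 R (r₀ - 1))).indicator (fun _ => M) u

theorem integrable_bound964 (M R r₀ : ℝ) : Integrable (bound964 M R r₀) := by
  unfold bound964
  rw [integrable_indicator_iff measurableSet_Icc]
  exact integrableOn_const (by simp) (by simp)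

theorem norm_le_bound964 {R : ℝ} {g : ℝ → ℂ} (h : VanishesAbove964 R g) {M r₀ : ℝ}
    (_hM0 : 0 ≤ M) (hM : ∀ x, r₀ - 1 ≤ x → ‖g x‖ ≤ M) {r : ℝ} (hr : r ∈ Metric.ball r₀ 1)
    (u : ℝ) : ‖g (r + u ^ 2)‖ ≤ bound964 M R r₀ u := by
  have hr' : r₀ - 1 ≤ r := by
    rw [Metric.mem_ball, Real.dist_eq, abs_lt] at hr
    linarith [hr.1]
  unfold bound964
  by_cases hu : u ∈ Icc (-rad964 R (r₀ - 1)) (rad964 R (r₀ - 1))
  · rw [indicator_of_mem hu]
    apply hM
    have := sq_nonneg u
    linarith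
  · rw [indicator_of_notMem hu, integrand_eq_zero_of_rad964 h hr' hu]
    simp

/-- `A g` is continuous. -/
theorem continuous_abelT964 {R : ℝ} {g : ℝ → ℂ} (hg : Continuous g)
    (h : VanishesAbove964 R g) : Continuous (abelT964 g) := by
  rw [continuous_iff_continuousAt]
  intro r₀
  obtain ⟨M, hM0, hM⟩ := exists_bound_Ici964 hg h (r₀ - 1)
  unfold abelT964
  refine continuousAt_of_dominated (bound := bound964 M R r₀) ?_ ?_ (integrable_bound964 M R r₀) ?_
  · exact Eventually.of_forall fun r => (continuous_integrand964 hg r).aestronglyMeasurable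
  · filter_upwards [Metric.ball_mem_nhds r₀ one_pos] with r hr
    exact Eventually.of_forall fun u => norm_le_bound964 h hM0 hM hr u
  · exact Eventually.of_forall fun u => by fun_prop

/-- `(A g)' = A (g')`. -/
theorem hasDerivAt_abelT964 {R : ℝ} {g : ℝ → ℂ} (hg : ContDiff ℝ 1 g)
    (h : VanishesAbove964 R g) (r₀ : ℝ) :
    HasDerivAt (abelT964 g) (abelT964 (deriv g) r₀) r₀ := by
  have hg' : Continuous (deriv g) := hg.continuous_deriv le_rfl
  obtain ⟨M, hM0, hM⟩ := exists_bound_Ici964 hg' h.deriv (r₀ - 1)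
  have key := hasDerivAt_integral_of_dominated_loc_of_deriv_le (μ := volume)
    (F := fun r u => g (r + u ^ 2)) (F' := fun r u => deriv g (r + u ^ 2)) (x₀ := r₀)
    (bound := bound964 M R r₀) (s := Metric.ball r₀ 1) (Metric.ball_mem_nhds r₀ one_pos)
    (Eventually.of_forall fun r => (continuous_integrand964 hg.continuous r).aestronglyMeasurable)
    (integrable_integrand964 hg.continuous h r₀)
    (continuous_integrand964 hg' r₀).aestronglyMeasurable
    (Eventually.of_forall fun u r hr => norm_le_bound964 h.deriv hM0 hM hr u)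
    (integrable_bound964 M R r₀)
    (Eventually.of_forall fun u r _ => by
      have h1 : HasDerivAt g (deriv g (r + u ^ 2)) (r + u ^ 2) :=
        (hg.differentiable one_ne_zero (r + u ^ 2)).hasDerivAt
      have h2 : HasDerivAt (fun r : ℝ => r + u ^ 2) 1 r := (hasDerivAt_id r).add_const _
      have h3 := h1.scomp r h2
      rw [one_smul] at h3
      exact h3)
  exact key.2

theorem differentiable_abelT964 {R : ℝ} {g : ℝ → ℂ} (hg : ContDiff ℝ 1 g)
    (h : VanishesAbove964 R g) : Differentiable ℝ (abelT964 g) :=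
  fun r => (hasDerivAt_abelT964 hg h r).differentiableAt

theorem deriv_abelT964 {R : ℝ} {g : ℝ → ℂ} (hg : ContDiff ℝ 1 g)
    (h : VanishesAbove964 R g) : deriv (abelT964 g) = abelT964 (deriv g) :=
  funext fun r => (hasDerivAt_abelT964 hg h r).deriv

/-- `A` preserves `C^n`, `n` finite. -/
theorem contDiff_abelT_nat964 (n : ℕ) : ∀ {R : ℝ} {g : ℝ → ℂ}, ContDiff ℝ n g →
    VanishesAbove964 R g → ContDiff ℝ n (abelT964 g) := by
  induction n with
  | zero =>
    intro R g hg h
    rw [Nat.cast_zero, contDiff_zero] at hg ⊢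
    exact continuous_abelT964 hg h
  | succ n ih =>
    intro R g hg h
    have h1 : ContDiff ℝ 1 g := hg.of_le (by norm_cast; omega)
    rw [Nat.cast_succ] at hg ⊢
    rw [contDiff_succ_iff_deriv] at hg ⊢
    refine ⟨differentiable_abelT964 h1 h, fun hω => ?_, ?_⟩
    · exact absurd hω (by simp)
    · rw [deriv_abelT964 h1 h]
      exact ih hg.2.2 h.deriv

/-- `A` preserves smoothness. -/
theorem contDiff_abelT964 {R : ℝ} {g : ℝ → ℂ} (hg : ContDiff ℝ ∞ g)
    (h : VanishesAbove964 R g) : ContDiff ℝ ∞ (abelT964 g) :=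
  contDiff_infty.mpr fun n => contDiff_abelT_nat964 n (hg.of_le (by exact_mod_cast le_top)) h

end Fermat.Agent.LT.T6.H964

end
end
-- ===== PACK-END LT/T6/H964/Abel.lean

-- ===== PACK-BEGIN LT/T2/H729/ThetaMeas.lean
section


/-!
# Row LT, tower T2, leaf T2.22d, sub-leaf T2.22d.2 `ThetaMeasC175` (helper729): core

OFF-MAIN.  Mathlib only.  Nothing is assumed.

`measurePreserving_antiInvolution729` : in a locally compact second countable group, a Haar
measure which is also right invariant is preserved by every continuous involutive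
anti-automorphism `θ` (`θ (g h) = θ h θ g`, `θ ∘ θ = id`).

Proof.  `μ.map θ` is finite on compact sets and LEFT invariant (right invariance of `μ`), hence
`μ.map θ = c • μ` (uniqueness of Haar measure); `θ ∘ θ = id` gives `c² = 1`, so `c = 1`.
-/

set_option autoImplicit false

open MeasureTheory MeasureTheory.Measure
open scoped NNReal ENNReal

namespace Fermat.Agent.LT.T2.H729

/-- A continuous involutive anti-automorphism of a unimodular group preserves Haar measure. -/
theorem measurePreserving_antiInvolution729 {G : Type*} [Group G] [TopologicalSpace G]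
    [IsTopologicalGroup G] [LocallyCompactSpace G] [SecondCountableTopology G]
    [MeasurableSpace G] [BorelSpace G] (μ : Measure G) [μ.IsHaarMeasure]
    [μ.IsMulRightInvariant] (θ : G → G) (hc : Continuous θ) (hinv : ∀ g, θ (θ g) = g)
    (hmul : ∀ g h, θ (g * h) = θ h * θ g) : MeasurePreserving θ μ μ := by
  let e : G ≃ₜ G :=
    { toFun := θ
      invFun := θ
      left_inv := hinv
      right_inv := hinv
      continuous_toFun := hc
      continuous_invFun := hc }
  have hmeas : Measurable θ := hc.measurable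
  have : IsFiniteMeasureOnCompacts (μ.map θ) := IsFiniteMeasureOnCompacts.map μ e
  have : (μ.map θ).IsMulLeftInvariant := by
    constructor
    intro g
    rw [Measure.map_map (measurable_const_mul g) hmeas]
    have h1 : (fun x => g * x) ∘ θ = θ ∘ (fun x => x * θ g) := by
      funext x
      simp only [Function.comp_apply, hmul, hinv]
    rw [h1, ← Measure.map_map hmeas (measurable_mul_const _), map_mul_right_eq_self]
  set c : ℝ≥0 := haarScalarFactor (μ.map θ) μ with hcdef
  have h1 : μ.map θ = c • μ := isMulLeftInvariant_eq_smul _ _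
  have h2 : (μ.map θ).map θ = μ := by
    rw [Measure.map_map hmeas hmeas]
    have : θ ∘ θ = id := funext hinv
    rw [this, Measure.map_id]
  have h3 : (c * c) • μ = μ := by
    have h4 : (μ.map θ).map θ = c • (c • μ) := by
      conv_lhs => rw [h1]
      rw [Measure.map_smul, h1]
    rw [h2] at h4
    rw [mul_smul]
    exact h4.symm
  obtain ⟨C, hC, hC1⟩ := exists_compact_mem_nhds (1 : G)
  have hpos : 0 < μ C := measure_pos_of_mem_nhds μ hC1
  have hfin : μ C < ⊤ := hC.measure_lt_top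
  have h5 : ((c * c : ℝ≥0) : ℝ≥0∞) * μ C = 1 * μ C := by
    have := congrArg (fun ν : Measure G => ν C) h3
    simpa using this
  have h6 : ((c * c : ℝ≥0) : ℝ≥0∞) = 1 := (ENNReal.mul_left_inj hpos.ne' hfin.ne).mp h5
  have h7 : c * c = 1 := by exact_mod_cast h6
  have h8 : c = 1 := by
    have h9 : (c : ℝ) * c = 1 := by exact_mod_cast h7
    have hc0 : 0 ≤ (c : ℝ) := c.2
    have h10 : (c : ℝ) = 1 := by nlinarith
    exact_mod_cast h10
  exact ⟨hmeas, by rw [h1, h8, one_smul]⟩

end Fermat.Agent.LT.T2.H729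

end
-- ===== PACK-END LT/T2/H729/ThetaMeas.lean

-- ===== PACK-BEGIN LT/T2/H355/LocArchCore.lean
section


/-!
# Row LT, tower T2, leaf T2.22d.4 `LocArchC175` (helper355): the linear algebra

OFF-MAIN.  Mathlib only.  For every `M ∈ M₂(ℂ)` there is `A ∈ SU(2)` with
`θ(M) A = A M`, `θ([[a, b], [c, d]]) = [[a, -c], [-b, d]]`; `A` is real if `M` is real.

`A = [[α, -β], [β, conj α]]` with `β` real, `|α|² + β² = 1`, `β (d - a) = α b + conj α · c`.
-/

set_option autoImplicit false

open scoped ComplexConjugate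

noncomputable section

namespace Fermat.Agent.LT.T2.H355

/-- two real linear equations in three real unknowns have a non-zero solution -/
theorem exists_kernel355 (u v : Fin 3 → ℝ) :
    ∃ w : Fin 3 → ℝ, w ≠ 0 ∧ u 0 * w 0 + u 1 * w 1 + u 2 * w 2 = 0 ∧
      v 0 * w 0 + v 1 * w 1 + v 2 * w 2 = 0 := by
  let f : (Fin 3 → ℝ) →ₗ[ℝ] (Fin 2 → ℝ) := Matrix.mulVecLin (Matrix.of ![u, v])
  have h : LinearMap.ker f ≠ ⊥ := LinearMap.ker_ne_bot_of_finrank_lt (by simp)
  obtain ⟨w, hw, hw0⟩ := Submodule.exists_mem_ne_zero_of_ne_bot h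
  have hk : f w = 0 := LinearMap.mem_ker.1 hw
  refine ⟨w, hw0, ?_, ?_⟩
  · have h0 := congrFun hk 0
    simpa [f, Matrix.mulVec, dotProduct, Fin.sum_univ_three] using h0
  · have h1 := congrFun hk 1
    simpa [f, Matrix.mulVec, dotProduct, Fin.sum_univ_three] using h1

/-- the core: from a non-zero real solution `(x, y, t)` of the two real equations -/
theorem core355 (M : Matrix (Fin 2) (Fin 2) ℂ) (x y t : ℝ) (h0 : x ^ 2 + y ^ 2 + t ^ 2 ≠ 0)
    (hR : t * ((M 1 1).re - (M 0 0).re)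
      = x * ((M 0 1).re + (M 1 0).re) + y * ((M 1 0).im - (M 0 1).im))
    (hI : t * ((M 1 1).im - (M 0 0).im)
      = x * ((M 0 1).im + (M 1 0).im) + y * ((M 0 1).re - (M 1 0).re)) :
    ∃ A : Matrix (Fin 2) (Fin 2) ℂ,
      A * A.conjTranspose = 1 ∧ A.det = 1 ∧
        !![M 0 0, -M 1 0; -M 0 1, M 1 1] * A = A * M ∧
        (y = 0 → ∀ i j, (A i j).im = 0) := by
  have hpos : 0 < x ^ 2 + y ^ 2 + t ^ 2 :=
    lt_of_le_of_ne (by positivity) (Ne.symm h0)
  set n : ℝ := Real.sqrt (x ^ 2 + y ^ 2 + t ^ 2) with hn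
  have hn0 : n ≠ 0 := (Real.sqrt_pos.2 hpos).ne'
  have hn2 : n ^ 2 = x ^ 2 + y ^ 2 + t ^ 2 := Real.sq_sqrt hpos.le
  set X : ℝ := x / n with hX
  set Y : ℝ := y / n with hY
  set T : ℝ := t / n with hT
  have hnorm : X ^ 2 + Y ^ 2 + T ^ 2 = 1 := by
    rw [hX, hY, hT, div_pow, div_pow, div_pow, ← add_div, ← add_div, hn2, div_self h0]
  have hR' : T * ((M 1 1).re - (M 0 0).re)
      = X * ((M 0 1).re + (M 1 0).re) + Y * ((M 1 0).im - (M 0 1).im) := by
    rw [hX, hY, hT]
    field_simp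
    linear_combination hR
  have hI' : T * ((M 1 1).im - (M 0 0).im)
      = X * ((M 0 1).im + (M 1 0).im) + Y * ((M 0 1).re - (M 1 0).re) := by
    rw [hX, hY, hT]
    field_simp
    linear_combination hI
  -- the complex equation
  have hE : ((T : ℝ) : ℂ) * (M 1 1 - M 0 0)
      = (⟨X, Y⟩ : ℂ) * M 0 1 + (⟨X, -Y⟩ : ℂ) * M 1 0 := by
    apply Complex.ext
    · simp only [Complex.mul_re, Complex.sub_re, Complex.sub_im, Complex.add_re,
        Complex.ofReal_re, Complex.ofReal_im, zero_mul, sub_zero]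
      linear_combination hR'
    · simp only [Complex.mul_im, Complex.sub_re, Complex.sub_im, Complex.add_im,
        Complex.ofReal_re, Complex.ofReal_im, zero_mul, add_zero]
      linear_combination hI'
  have hN : (⟨X, Y⟩ : ℂ) * (⟨X, -Y⟩ : ℂ) + ((T : ℝ) : ℂ) * ((T : ℝ) : ℂ) = 1 := by
    apply Complex.ext
    · simp only [Complex.add_re, Complex.mul_re, Complex.ofReal_re, Complex.ofReal_im,
        Complex.one_re, mul_zero, sub_zero]
      linear_combination hnorm
    · simp only [Complex.add_im, Complex.mul_im, Complex.ofReal_re, Complex.ofReal_im,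
        Complex.one_im, mul_zero, zero_mul, add_zero]
      ring
  have hc1 : (starRingEnd ℂ) (⟨X, Y⟩ : ℂ) = (⟨X, -Y⟩ : ℂ) := rfl
  have hc2 : (starRingEnd ℂ) (⟨X, -Y⟩ : ℂ) = (⟨X, Y⟩ : ℂ) := by
    apply Complex.ext <;> simp
  have hc3 : (starRingEnd ℂ) ((T : ℝ) : ℂ) = ((T : ℝ) : ℂ) := Complex.conj_ofReal T
  have hAH : (!![(⟨X, Y⟩ : ℂ), -((T : ℝ) : ℂ); ((T : ℝ) : ℂ), (⟨X, -Y⟩ : ℂ)] :
      Matrix (Fin 2) (Fin 2) ℂ).conjTranspose
      = !![(⟨X, -Y⟩ : ℂ), ((T : ℝ) : ℂ); -((T : ℝ) : ℂ), (⟨X, Y⟩ : ℂ)] := by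
    ext i j
    fin_cases i <;> fin_cases j
    · exact hc1
    · exact hc3
    · show (starRingEnd ℂ) (-((T : ℝ) : ℂ)) = -((T : ℝ) : ℂ)
      rw [map_neg, hc3]
    · exact hc2
  refine ⟨!![(⟨X, Y⟩ : ℂ), -((T : ℝ) : ℂ); ((T : ℝ) : ℂ), (⟨X, -Y⟩ : ℂ)], ?_, ?_, ?_, ?_⟩
  · rw [hAH]
    ext i j
    fin_cases i <;> fin_cases j
    · simp only [Fin.zero_eta, Fin.isValue, Matrix.mul_apply, Fin.sum_univ_two,
        Matrix.of_apply, Matrix.cons_val', Matrix.cons_val_zero,
        Matrix.cons_val_fin_one, Matrix.cons_val_one, Matrix.one_apply_eq]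
      linear_combination hN
    · simp only [Fin.zero_eta, Fin.isValue, Fin.mk_one, Matrix.mul_apply, Fin.sum_univ_two,
        Matrix.of_apply, Matrix.cons_val', Matrix.cons_val_zero,
        Matrix.cons_val_fin_one, Matrix.cons_val_one, ne_eq, zero_ne_one, not_false_eq_true,
        Matrix.one_apply_ne]
      ring
    · simp only [Fin.zero_eta, Fin.isValue, Fin.mk_one, Matrix.mul_apply, Fin.sum_univ_two,
        Matrix.of_apply, Matrix.cons_val', Matrix.cons_val_zero,
        Matrix.cons_val_fin_one, Matrix.cons_val_one, ne_eq, one_ne_zero, not_false_eq_true,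
        Matrix.one_apply_ne]
      ring
    · simp only [Fin.mk_one, Fin.isValue, Matrix.mul_apply, Fin.sum_univ_two,
        Matrix.of_apply, Matrix.cons_val', Matrix.cons_val_zero,
        Matrix.cons_val_fin_one, Matrix.cons_val_one, Matrix.one_apply_eq]
      linear_combination hN
  · rw [Matrix.det_fin_two_of]
    linear_combination hN
  · ext i j
    fin_cases i <;> fin_cases j
    · simp [Matrix.mul_apply, Fin.sum_univ_two]
      ring
    · simp [Matrix.mul_apply, Fin.sum_univ_two]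
      linear_combination hE
    · simp [Matrix.mul_apply, Fin.sum_univ_two]
      linear_combination hE
    · simp [Matrix.mul_apply, Fin.sum_univ_two]
      ring
  · intro hy i j
    have hY0 : Y = 0 := by rw [hY, hy, zero_div]
    fin_cases i <;> fin_cases j <;> simp [hY0]

/-- **T2.22d.4, explicit form.** -/
theorem locArch355 (M : Matrix (Fin 2) (Fin 2) ℂ) :
    ∃ A : Matrix (Fin 2) (Fin 2) ℂ,
      A * A.conjTranspose = 1 ∧ A.det = 1 ∧
        !![M 0 0, -M 1 0; -M 0 1, M 1 1] * A = A * M ∧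
        ((∀ i j, (M i j).im = 0) → ∀ i j, (A i j).im = 0) := by
  by_cases hreal : ∀ i j, (M i j).im = 0
  · by_cases h2 : (M 1 1).re - (M 0 0).re = 0 ∧ (M 0 1).re + (M 1 0).re = 0
    · obtain ⟨A, h1, h2', h3, h4⟩ := core355 M 1 0 0 (by norm_num)
        (by rw [h2.2]; ring)
        (by rw [hreal 0 0, hreal 1 1, hreal 0 1, hreal 1 0]; ring)
      exact ⟨A, h1, h2', h3, fun _ => h4 rfl⟩
    · have hne : ((M 1 1).re - (M 0 0).re) ^ 2 + (0 : ℝ) ^ 2 + ((M 0 1).re + (M 1 0).re) ^ 2 ≠ 0 := by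
        intro h0
        apply h2
        have ha : 0 ≤ ((M 1 1).re - (M 0 0).re) ^ 2 := sq_nonneg _
        have hb : 0 ≤ ((M 0 1).re + (M 1 0).re) ^ 2 := sq_nonneg _
        have ha0 : ((M 1 1).re - (M 0 0).re) ^ 2 = 0 := by nlinarith
        have hb0 : ((M 0 1).re + (M 1 0).re) ^ 2 = 0 := by nlinarith
        exact ⟨pow_eq_zero_iff (two_ne_zero) |>.1 ha0, pow_eq_zero_iff (two_ne_zero) |>.1 hb0⟩
      obtain ⟨A, h1, h2', h3, h4⟩ := core355 M ((M 1 1).re - (M 0 0).re) 0
        ((M 0 1).re + (M 1 0).re) hne (by ring)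
        (by rw [hreal 0 0, hreal 1 1, hreal 0 1, hreal 1 0]; ring)
      exact ⟨A, h1, h2', h3, fun _ => h4 rfl⟩
  · obtain ⟨w, hw0, hu, hv⟩ := exists_kernel355
      ![-((M 0 1).re + (M 1 0).re), -((M 1 0).im - (M 0 1).im), (M 1 1).re - (M 0 0).re]
      ![-((M 0 1).im + (M 1 0).im), -((M 0 1).re - (M 1 0).re), (M 1 1).im - (M 0 0).im]
    have hne : w 0 ^ 2 + w 1 ^ 2 + w 2 ^ 2 ≠ 0 := by
      intro h0
      apply hw0
      have h00 : 0 ≤ w 0 ^ 2 := sq_nonneg _
      have h11 : 0 ≤ w 1 ^ 2 := sq_nonneg _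
      have h22 : 0 ≤ w 2 ^ 2 := sq_nonneg _
      have e0 : w 0 ^ 2 = 0 := by nlinarith
      have e1 : w 1 ^ 2 = 0 := by nlinarith
      have e2 : w 2 ^ 2 = 0 := by nlinarith
      funext i
      fin_cases i
      · exact pow_eq_zero_iff (two_ne_zero) |>.1 e0
      · exact pow_eq_zero_iff (two_ne_zero) |>.1 e1
      · exact pow_eq_zero_iff (two_ne_zero) |>.1 e2
    simp only [Fin.isValue, Matrix.cons_val_zero, Matrix.cons_val_one, Matrix.cons_val] at hu hv
    obtain ⟨A, h1, h2', h3, _⟩ := core355 M (w 0) (w 1) (w 2) hne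
      (by linear_combination hu) (by linear_combination hv)
    exact ⟨A, h1, h2', h3, fun h => absurd h hreal⟩

end Fermat.Agent.LT.T2.H355

end

end
-- ===== PACK-END LT/T2/H355/LocArchCore.lean

-- ===== PACK-BEGIN LT/T2/H841/QuatAvg.lean
section


/-!
# Row LT, tower T2, leaf T2.07.18 (helper841): the quaternionic average

OFF-MAIN.  Mathlib only.  `qmat q = [[z, -w̄], [w, z̄]]` for `q = (z, w) ∈ ℂ × ℂ` runs over
`ℝ_{≥0} · SU(2)`; right multiplication by an element `[[a, -c̄], [c, ā]]` of `SU(2)` is an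
`ℝ`-linear bijection `qT a c` of `ℂ × ℂ` which preserves `qN q = |z|² + |w|² = det (qmat q)`, hence
the annulus `qA = {1 ≤ qN ≤ 4}` and (therefore) the Lebesgue measure.
-/

set_option autoImplicit false

open MeasureTheory

noncomputable section

namespace Fermat.Agent.LT.T2.H841

/-- The matrix `[[z, -w̄], [w, z̄]]`. -/
def qmat (q : ℂ × ℂ) : Matrix (Fin 2) (Fin 2) ℂ :=
  !![q.1, -(starRingEnd ℂ q.2); q.2, starRingEnd ℂ q.1]

/-- The matrix `[[a, -c̄], [c, ā]]` (an element of `SU(2)` when `|a|² + |c|² = 1`). -/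
def suMat (a c : ℂ) : Matrix (Fin 2) (Fin 2) ℂ :=
  !![a, -(starRingEnd ℂ c); c, starRingEnd ℂ a]

/-- `|z|² + |w|²`. -/
def qN (q : ℂ × ℂ) : ℝ := Complex.normSq q.1 + Complex.normSq q.2

theorem det_qmat (q : ℂ × ℂ) : (qmat q).det = ((qN q : ℝ) : ℂ) := by
  simp only [qmat, qN, Matrix.det_fin_two_of, Complex.ofReal_add, Complex.normSq_eq_conj_mul_self]
  ring

theorem continuous_qN : Continuous qN := by
  unfold qN
  exact (Complex.continuous_normSq.comp continuous_fst).add
    (Complex.continuous_normSq.comp continuous_snd)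

theorem continuous_qmat : Continuous qmat := by
  unfold qmat
  refine continuous_matrix fun i j => ?_
  fin_cases i <;> fin_cases j
  · exact continuous_fst
  · exact (Complex.continuous_conj.comp continuous_snd).neg
  · exact continuous_snd
  · exact Complex.continuous_conj.comp continuous_fst

/-- The annulus `1 ≤ |z|² + |w|² ≤ 4`. -/
def qA : Set (ℂ × ℂ) := {q | 1 ≤ qN q ∧ qN q ≤ 4}

theorem isClosed_qA : IsClosed qA :=
  (isClosed_le continuous_const continuous_qN).inter (isClosed_le continuous_qN continuous_const)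

theorem measurableSet_qA : MeasurableSet qA := isClosed_qA.measurableSet

theorem qN_pos_of_mem {q : ℂ × ℂ} (hq : q ∈ qA) : 0 < qN q := lt_of_lt_of_le one_pos hq.1

theorem det_qmat_ne_zero {q : ℂ × ℂ} (hq : q ∈ qA) : (qmat q).det ≠ 0 := by
  rw [det_qmat]
  exact_mod_cast (qN_pos_of_mem hq).ne'

theorem qA_subset_closedBall : qA ⊆ Metric.closedBall (0 : ℂ × ℂ) 2 := by
  intro q hq
  have h1 : Complex.normSq q.1 ≤ 4 := by
    have := Complex.normSq_nonneg q.2
    have := hq.2
    unfold qN at this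
    linarith
  have h2 : Complex.normSq q.2 ≤ 4 := by
    have := Complex.normSq_nonneg q.1
    have := hq.2
    unfold qN at this
    linarith
  have e1 : ‖q.1‖ ≤ 2 := by
    have h := Complex.normSq_eq_norm_sq q.1
    have h0 := norm_nonneg q.1
    nlinarith
  have e2 : ‖q.2‖ ≤ 2 := by
    have h := Complex.normSq_eq_norm_sq q.2
    have h0 := norm_nonneg q.2
    nlinarith
  rw [Metric.mem_closedBall, dist_zero_right]
  exact max_le e1 e2

theorem volume_qA_lt_top : (volume : Measure (ℂ × ℂ)) qA < ⊤ :=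
  lt_of_le_of_lt (measure_mono qA_subset_closedBall) measure_closedBall_lt_top

theorem volume_qA_pos : 0 < (volume : Measure (ℂ × ℂ)) qA := by
  have hopen : IsOpen {q : ℂ × ℂ | 1 < qN q ∧ qN q < 4} :=
    (isOpen_lt continuous_const continuous_qN).inter (isOpen_lt continuous_qN continuous_const)
  have hne : ({q : ℂ × ℂ | 1 < qN q ∧ qN q < 4}).Nonempty := by
    refine ⟨((3 / 2 : ℝ), 0), ?_⟩
    simp only [Set.mem_ofPred_eq, qN, Complex.normSq_ofReal, map_zero, add_zero]
    constructor <;> norm_num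
  refine lt_of_lt_of_le (hopen.measure_pos volume hne) (measure_mono ?_)
  intro q hq
  exact ⟨hq.1.le, hq.2.le⟩

/-- Right multiplication by `suMat a c`, in the coordinates `q`. -/
def qT (a c : ℂ) : (ℂ × ℂ) →ₗ[ℝ] (ℂ × ℂ) where
  toFun q := (q.1 * a - starRingEnd ℂ q.2 * c, q.2 * a + starRingEnd ℂ q.1 * c)
  map_add' p q := by
    ext <;> simp only [Prod.fst_add, Prod.snd_add, map_add] <;> ring_nf
  map_smul' r q := by
    ext <;>
    simp only [Prod.smul_fst, Prod.smul_snd, Complex.real_smul, map_mul, Complex.conj_ofReal,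
      RingHom.id_apply] <;> ring_nf

theorem qT_apply (a c : ℂ) (q : ℂ × ℂ) :
    qT a c q = (q.1 * a - starRingEnd ℂ q.2 * c, q.2 * a + starRingEnd ℂ q.1 * c) := rfl

theorem qmat_qT (a c : ℂ) (q : ℂ × ℂ) : qmat (qT a c q) = qmat q * suMat a c := by
  simp only [qmat, suMat, qT_apply]
  ext i j
  fin_cases i <;> fin_cases j <;>
  simp [Matrix.mul_apply, Fin.sum_univ_two] <;> ring

theorem qN_qT (a c : ℂ) (h : Complex.normSq a + Complex.normSq c = 1) (q : ℂ × ℂ) :
    qN (qT a c q) = qN q := by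
  have h1 : ((qN (qT a c q) : ℝ) : ℂ) = ((qN q : ℝ) : ℂ) := by
    rw [← det_qmat, ← det_qmat, qmat_qT, Matrix.det_mul]
    have : (suMat a c).det = 1 := by
      have h' : ((Complex.normSq a + Complex.normSq c : ℝ) : ℂ) = 1 := by rw [h]; simp
      simp only [suMat, Matrix.det_fin_two_of]
      rw [← h']
      simp only [Complex.ofReal_add, Complex.normSq_eq_conj_mul_self]
      ring
    rw [this, mul_one]
  exact_mod_cast h1

theorem qT_qT_inv (a c : ℂ) (h : Complex.normSq a + Complex.normSq c = 1) (q : ℂ × ℂ) :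
    qT (starRingEnd ℂ a) (-c) (qT a c q) = q := by
  have h' : a * starRingEnd ℂ a + c * starRingEnd ℂ c = 1 := by
    have : ((Complex.normSq a + Complex.normSq c : ℝ) : ℂ) = 1 := by rw [h]; simp
    rw [← this]
    simp only [Complex.ofReal_add, Complex.normSq_eq_conj_mul_self]
    ring
  simp only [qT_apply]
  ext
  · simp only [map_add, map_mul, Complex.conj_conj]
    linear_combination q.1 * h'
  · simp only [map_mul, map_sub, Complex.conj_conj]
    linear_combination q.2 * h'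

theorem normSq_conj_neg (a c : ℂ) (h : Complex.normSq a + Complex.normSq c = 1) :
    Complex.normSq (starRingEnd ℂ a) + Complex.normSq (-c) = 1 := by
  simpa [Complex.normSq_conj, Complex.normSq_neg] using h

theorem qT_inv_qT (a c : ℂ) (h : Complex.normSq a + Complex.normSq c = 1) (q : ℂ × ℂ) :
    qT a c (qT (starRingEnd ℂ a) (-c) q) = q := by
  have := qT_qT_inv (starRingEnd ℂ a) (-c) (normSq_conj_neg a c h) q
  simpa using this

/-- `qT a c` as a linear equivalence. -/
def qTe (a c : ℂ) (h : Complex.normSq a + Complex.normSq c = 1) : (ℂ × ℂ) ≃ₗ[ℝ] (ℂ × ℂ) :=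
  { qT a c with
    invFun := qT (starRingEnd ℂ a) (-c)
    left_inv := qT_qT_inv a c h
    right_inv := qT_inv_qT a c h }

theorem qT_preimage_qA (a c : ℂ) (h : Complex.normSq a + Complex.normSq c = 1) :
    (qT a c) ⁻¹' qA = qA := by
  ext q
  simp only [Set.mem_preimage, qA, Set.mem_ofPred_eq, qN_qT a c h]

theorem qT_image_qA (a c : ℂ) (h : Complex.normSq a + Complex.normSq c = 1) :
    (qT a c) '' qA = qA := by
  ext q
  constructor
  · rintro ⟨p, hp, rfl⟩
    simpa only [qA, Set.mem_ofPred_eq, qN_qT a c h] using hp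
  · intro hq
    refine ⟨qT (starRingEnd ℂ a) (-c) q, ?_, qT_inv_qT a c h q⟩
    simpa only [qA, Set.mem_ofPred_eq, qN_qT _ _ (normSq_conj_neg a c h)] using hq

theorem abs_det_qT (a c : ℂ) (h : Complex.normSq a + Complex.normSq c = 1) :
    ENNReal.ofReal |LinearMap.det (qT a c)| = 1 := by
  haveI : (volume : Measure (ℂ × ℂ)).IsAddHaarMeasure :=
    inferInstanceAs ((volume : Measure ℂ).prod (volume : Measure ℂ)).IsAddHaarMeasure
  have h1 := Measure.addHaar_image_linearMap (volume : Measure (ℂ × ℂ)) (qT a c) qA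
  rw [qT_image_qA a c h] at h1
  have hpos := volume_qA_pos
  have hfin := volume_qA_lt_top
  have h2 : ENNReal.ofReal |LinearMap.det (qT a c)| * volume qA = 1 * volume qA := by
    rw [one_mul]; exact h1.symm
  exact (ENNReal.mul_left_inj hpos.ne' hfin.ne).mp h2

theorem measurePreserving_qT (a c : ℂ) (h : Complex.normSq a + Complex.normSq c = 1) :
    MeasurePreserving (qT a c) (volume : Measure (ℂ × ℂ)) volume := by
  haveI : (volume : Measure (ℂ × ℂ)).IsAddHaarMeasure :=
    inferInstanceAs ((volume : Measure ℂ).prod (volume : Measure ℂ)).IsAddHaarMeasure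
  have hdet := abs_det_qT a c h
  have hne : LinearMap.det (qT a c) ≠ 0 := by
    intro h0
    rw [h0] at hdet
    simp at hdet
  refine ⟨(LinearMap.continuous_of_finiteDimensional (qT a c)).measurable, ?_⟩
  rw [Measure.map_linearMap_addHaar_eq_smul_addHaar volume hne, abs_inv]
  have h3 : |LinearMap.det (qT a c)| = 1 := by
    have := congrArg ENNReal.toReal hdet
    rwa [ENNReal.toReal_ofReal (abs_nonneg _), ENNReal.toReal_one] at this
  rw [h3, inv_one, ENNReal.ofReal_one, one_smul]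

/-- **Invariance of the average**: `∫_{qA} F(q · k) dq = ∫_{qA} F(q) dq` for `k ∈ SU(2)`. -/
theorem setIntegral_qA_comp_qT (a c : ℂ) (h : Complex.normSq a + Complex.normSq c = 1)
    (F : ℂ × ℂ → ℂ) : ∫ q in qA, F (qT a c q) = ∫ q in qA, F q := by
  have hemb : MeasurableEmbedding (qT a c) :=
    (qTe a c h).toContinuousLinearEquiv.toHomeomorph.measurableEmbedding
  have := (measurePreserving_qT a c h).setIntegral_preimage_emb hemb F qA
  rwa [qT_preimage_qA a c h] at this

end Fermat.Agent.LT.T2.H841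

end

end
-- ===== PACK-END LT/T2/H841/QuatAvg.lean

-- ===== PACK-BEGIN LT/T2/H555/CartanInf.lean
section


/-!
# Row LT, tower T2, leaf T2.07.32 (`SubCartanInf429`): Cartan decomposition at infinity (helper555)

OFF-MAIN.  Imports Mathlib only.  Nothing is assumed, no opaque constant, no placeholder proof.

* `svd555`: over `𝕜 = ℝ` or `ℂ`, every invertible square matrix is `k₁ * diagonal d * k₂` with
  `k₁`, `k₂` unitary and `d` real and positive (singular value decomposition via the spectral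
  theorem for the positive definite matrix `gᴴ * g`).
* `subCartanInf_core555`: the literal statement of `SubCartanInf429`
  (`origin/helper429@dcf706097 Fermat/Agent/LT/T2/H429/OpsSpec.lean`): `GL₂(ℂ) = U(2) A U(2)`,
  and for a matrix with real entries the two unitary factors can be taken in `SO(2)` and the
  diagonal part real.
-/

set_option autoImplicit false

open Matrix
open scoped ComplexOrder

noncomputable section

namespace Fermat.Agent.LT.T2.H555

/-- Spectral decomposition of `gᴴ * g` for invertible `g`, with the dependencies cut. -/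
theorem spectral555 {𝕜 : Type*} [RCLike 𝕜] {n : Type*} [Fintype n] [DecidableEq n]
    (g : Matrix n n 𝕜) (hg : g.det ≠ 0) :
    ∃ (U : Matrix n n 𝕜) (ev : n → ℝ), Uᴴ * U = 1 ∧ (∀ i, 0 < ev i) ∧
      gᴴ * g = U * Matrix.diagonal (fun i => ((ev i : ℝ) : 𝕜)) * Uᴴ := by
  have hinj : Function.Injective g.mulVec := by
    rw [Matrix.mulVec_injective_iff_isUnit, Matrix.isUnit_iff_isUnit_det]
    exact isUnit_iff_ne_zero.mpr hg
  have hA : (gᴴ * g).IsHermitian := Matrix.isHermitian_conjTranspose_mul_self g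
  have hpd : (gᴴ * g).PosDef := Matrix.PosDef.conjTranspose_mul_self g hinj
  refine ⟨(hA.eigenvectorUnitary : Matrix n n 𝕜), hA.eigenvalues, ?_,
    fun i => hpd.eigenvalues_pos i, ?_⟩
  · have := Matrix.UnitaryGroup.star_mul_self hA.eigenvectorUnitary
    rwa [Matrix.star_eq_conjTranspose] at this
  · have h := hA.spectral_theorem
    rw [Unitary.conjStarAlgAut_apply, Matrix.star_eq_conjTranspose] at h
    exact h

/-- Singular value decomposition of an invertible square matrix over `ℝ` or `ℂ`. -/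
theorem svd555 {𝕜 : Type*} [RCLike 𝕜] {n : Type*} [Fintype n] [DecidableEq n]
    (g : Matrix n n 𝕜) (hg : g.det ≠ 0) :
    ∃ (k₁ k₂ : Matrix n n 𝕜) (d : n → ℝ),
      k₁ * k₁.conjTranspose = 1 ∧ k₂ * k₂.conjTranspose = 1 ∧ (∀ i, 0 < d i) ∧
      g = k₁ * Matrix.diagonal (fun i => ((d i : ℝ) : 𝕜)) * k₂ := by
  obtain ⟨U, ev, hUU, hpos, hspec⟩ := spectral555 g hg
  have hUU' : U * Uᴴ = 1 := mul_eq_one_comm.mp hUU
  set d : n → ℝ := fun i => Real.sqrt (ev i) with hd
  have hdpos : ∀ i, 0 < d i := fun i => Real.sqrt_pos.mpr (hpos i)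
  have hdd : ∀ i, d i * d i = ev i := fun i => Real.mul_self_sqrt (hpos i).le
  set D : Matrix n n 𝕜 := Matrix.diagonal (fun i => ((d i : ℝ) : 𝕜)) with hD
  set Di : Matrix n n 𝕜 := Matrix.diagonal (fun i => (((d i)⁻¹ : ℝ) : 𝕜)) with hDi
  have hDiD : Di * D = 1 := by
    rw [hDi, hD, Matrix.diagonal_mul_diagonal, ← Matrix.diagonal_one]
    congr 1
    funext i
    rw [← RCLike.ofReal_mul, inv_mul_cancel₀ (hdpos i).ne', RCLike.ofReal_one]
  have hDiH : Diᴴ = Di := by
    rw [hDi, Matrix.diagonal_conjTranspose]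
    congr 1
    funext i
    simp
  have hDLD : Di * Matrix.diagonal (fun i => ((ev i : ℝ) : 𝕜)) * Di = 1 := by
    rw [hDi, Matrix.diagonal_mul_diagonal, Matrix.diagonal_mul_diagonal, ← Matrix.diagonal_one]
    congr 1
    funext i
    rw [← hdd i, ← RCLike.ofReal_mul, ← RCLike.ofReal_mul, ← RCLike.ofReal_one]
    congr 1
    have := (hdpos i).ne'
    field_simp
  refine ⟨g * U * Di, Uᴴ, d, ?_, ?_, hdpos, ?_⟩
  · apply mul_eq_one_comm.mp
    rw [Matrix.conjTranspose_mul, Matrix.conjTranspose_mul, hDiH]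
    calc Di * (Uᴴ * gᴴ) * (g * U * Di)
        = Di * (Uᴴ * (gᴴ * g) * U) * Di := by simp only [Matrix.mul_assoc]
      _ = Di * ((Uᴴ * U) * Matrix.diagonal (fun i => ((ev i : ℝ) : 𝕜)) * (Uᴴ * U))
            * Di := by rw [hspec]; simp only [Matrix.mul_assoc]
      _ = 1 := by rw [hUU, Matrix.one_mul, Matrix.mul_one, hDLD]
  · rw [Matrix.conjTranspose_conjTranspose]
    exact hUU
  · calc g = g * (U * Uᴴ) := by rw [hUU', Matrix.mul_one]
      _ = g * U * (Di * D) * Uᴴ := by rw [hDiD, Matrix.mul_one, Matrix.mul_assoc]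
      _ = g * U * Di * D * Uᴴ := by simp only [Matrix.mul_assoc]

/-- A real matrix with `K * Kᴴ = 1` has determinant of square one. -/
theorem det_sq555 {n : Type*} [Fintype n] [DecidableEq n] (K : Matrix n n ℝ)
    (h : K * Kᴴ = 1) : K.det * K.det = 1 := by
  have h' := congrArg Matrix.det h
  rw [Matrix.det_mul, Matrix.det_conjTranspose, Matrix.det_one] at h'
  simpa using h'

/-- The sign matrix `diagonal ![1, e]` with `e * e = 1` is an involution. -/
theorem sign_mul_self555 (e : ℝ) (he : e * e = 1) :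
    (Matrix.diagonal ![1, e] : Matrix (Fin 2) (Fin 2) ℝ) * Matrix.diagonal ![1, e] = 1 := by
  rw [Matrix.diagonal_mul_diagonal, ← Matrix.diagonal_one]
  congr 1
  funext i
  fin_cases i
  · simp
  · simp [he]

theorem sign_conjTranspose555 (e : ℝ) :
    (Matrix.diagonal ![1, e] : Matrix (Fin 2) (Fin 2) ℝ)ᴴ = Matrix.diagonal ![1, e] := by
  rw [Matrix.diagonal_conjTranspose, star_trivial]

theorem sign_det555 (e : ℝ) :
    (Matrix.diagonal ![1, e] : Matrix (Fin 2) (Fin 2) ℝ).det = e := by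
  rw [Matrix.det_diagonal, Fin.prod_univ_two]
  simp

/-- Real singular value decomposition of an invertible real `2 × 2` matrix with both orthogonal
factors of determinant one: `GL₂(ℝ) = SO(2) · A · SO(2)` with `A` the real diagonal matrices. -/
theorem svdReal555 (G : Matrix (Fin 2) (Fin 2) ℝ) (hG : G.det ≠ 0) :
    ∃ (k₁ k₂ : Matrix (Fin 2) (Fin 2) ℝ) (a b : ℝ),
      k₁ * k₁ᴴ = 1 ∧ k₂ * k₂ᴴ = 1 ∧ k₁.det = 1 ∧ k₂.det = 1 ∧
      G = k₁ * Matrix.diagonal ![a, b] * k₂ := by
  obtain ⟨K₁, K₂, d, h₁, h₂, -, hG'⟩ := svd555 G hG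
  have e₁ := det_sq555 K₁ h₁
  have e₂ := det_sq555 K₂ h₂
  have hmid : (Matrix.diagonal ![1, K₁.det] : Matrix (Fin 2) (Fin 2) ℝ)
      * Matrix.diagonal ![d 0, K₁.det * d 1 * K₂.det] * Matrix.diagonal ![1, K₂.det]
      = Matrix.diagonal (fun i => ((d i : ℝ) : ℝ)) := by
    rw [Matrix.diagonal_mul_diagonal, Matrix.diagonal_mul_diagonal]
    congr 1
    funext i
    fin_cases i
    · simp
    · simp only [Fin.mk_one, Fin.isValue, Matrix.cons_val_one, Matrix.cons_val_fin_one]
      calc K₁.det * (K₁.det * d 1 * K₂.det) * K₂.det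
          = (K₁.det * K₁.det) * d 1 * (K₂.det * K₂.det) := by ring
        _ = d 1 := by rw [e₁, e₂, one_mul, mul_one]
  refine ⟨K₁ * Matrix.diagonal ![1, K₁.det], Matrix.diagonal ![1, K₂.det] * K₂, d 0,
    K₁.det * d 1 * K₂.det, ?_, ?_, ?_, ?_, ?_⟩
  · rw [Matrix.conjTranspose_mul, sign_conjTranspose555]
    calc K₁ * Matrix.diagonal ![1, K₁.det] * (Matrix.diagonal ![1, K₁.det] * K₁ᴴ)
        = K₁ * (Matrix.diagonal ![1, K₁.det] * Matrix.diagonal ![1, K₁.det]) * K₁ᴴ := by
          simp only [Matrix.mul_assoc]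
      _ = 1 := by rw [sign_mul_self555 _ e₁, Matrix.mul_one, h₁]
  · rw [Matrix.conjTranspose_mul, sign_conjTranspose555]
    calc Matrix.diagonal ![1, K₂.det] * K₂ * (K₂ᴴ * Matrix.diagonal ![1, K₂.det])
        = Matrix.diagonal ![1, K₂.det] * (K₂ * K₂ᴴ) * Matrix.diagonal ![1, K₂.det] := by
          simp only [Matrix.mul_assoc]
      _ = 1 := by rw [h₂, Matrix.mul_one, sign_mul_self555 _ e₂]
  · rw [Matrix.det_mul, sign_det555, e₁]
  · rw [Matrix.det_mul, sign_det555, e₂]
  · calc G = K₁ * Matrix.diagonal (fun i => ((d i : ℝ) : ℝ)) * K₂ := hG'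
      _ = K₁ * (Matrix.diagonal ![1, K₁.det] * Matrix.diagonal ![d 0, K₁.det * d 1 * K₂.det]
            * Matrix.diagonal ![1, K₂.det]) * K₂ := by rw [hmid]
      _ = K₁ * Matrix.diagonal ![1, K₁.det] * Matrix.diagonal ![d 0, K₁.det * d 1 * K₂.det]
            * (Matrix.diagonal ![1, K₂.det] * K₂) := by simp only [Matrix.mul_assoc]

/-- Complexification of real matrices commutes with the conjugate transpose. -/
theorem map_conjTranspose555 {n : Type*} (K : Matrix n n ℝ) :
    (K.map Complex.ofRealHom)ᴴ = Kᴴ.map Complex.ofRealHom := by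
  ext i j
  simp [Matrix.conjTranspose_apply]

/-- **T2.07.32** (`SubCartanInf429`, literal statement): `GL₂(ℂ) = U(2) · A · U(2)`; for a matrix
with real entries the unitary factors can be taken real of determinant one and the diagonal part
real. -/
theorem subCartanInf_core555 :
    ∀ g : Matrix (Fin 2) (Fin 2) ℂ, g.det ≠ 0 →
      ∃ k₁ k₂ : Matrix (Fin 2) (Fin 2) ℂ, ∃ a b : ℂ,
        k₁ * k₁.conjTranspose = 1 ∧ k₂ * k₂.conjTranspose = 1 ∧
        g = k₁ * Matrix.diagonal ![a, b] * k₂ ∧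
        ((∀ i j, (g i j).im = 0) →
          (∀ i j, (k₁ i j).im = 0) ∧ (∀ i j, (k₂ i j).im = 0) ∧ k₁.det = 1 ∧ k₂.det = 1 ∧
            a.im = 0 ∧ b.im = 0) := by
  intro g hg
  by_cases hreal : ∀ i j, (g i j).im = 0
  · -- real case
    set G : Matrix (Fin 2) (Fin 2) ℝ := fun i j => (g i j).re with hGdef
    have hgG : g = G.map Complex.ofRealHom := by
      ext i j
      apply Complex.ext
      · rw [Matrix.map_apply]
        exact (Complex.ofReal_re _).symm
      · rw [Matrix.map_apply]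
        exact (hreal i j).trans (Complex.ofReal_im _).symm
    have hdet : g.det = ((G.det : ℝ) : ℂ) := by
      have h := RingHom.map_det Complex.ofRealHom G
      rw [RingHom.mapMatrix_apply] at h
      rw [hgG]
      exact h.symm
    have hG : G.det ≠ 0 := by
      intro h0
      apply hg
      rw [hdet, h0, Complex.ofReal_zero]
    obtain ⟨K₁, K₂, a, b, h₁, h₂, hd₁, hd₂, hGK⟩ := svdReal555 G hG
    have hmapdet : ∀ K : Matrix (Fin 2) (Fin 2) ℝ, K.det = 1 →
        (K.map Complex.ofRealHom).det = 1 := by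
      intro K hK
      have h := RingHom.map_det Complex.ofRealHom K
      rw [RingHom.mapMatrix_apply] at h
      rw [← h, hK, map_one]
    have hmapun : ∀ K : Matrix (Fin 2) (Fin 2) ℝ, K * Kᴴ = 1 →
        K.map Complex.ofRealHom * (K.map Complex.ofRealHom)ᴴ = 1 := by
      intro K hK
      rw [map_conjTranspose555, ← Matrix.map_mul, hK]
      exact Matrix.map_one _ (map_zero _) (map_one _)
    have hdiag : (Matrix.diagonal ![a, b] : Matrix (Fin 2) (Fin 2) ℝ).map Complex.ofRealHom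
        = Matrix.diagonal ![(a : ℂ), (b : ℂ)] := by
      rw [Matrix.diagonal_map (map_zero _)]
      congr 1
      funext i
      fin_cases i <;> simp
    refine ⟨K₁.map Complex.ofRealHom, K₂.map Complex.ofRealHom, (a : ℂ), (b : ℂ),
      hmapun K₁ h₁, hmapun K₂ h₂, ?_, fun _ => ⟨?_, ?_, hmapdet K₁ hd₁, hmapdet K₂ hd₂, ?_, ?_⟩⟩
    · rw [hgG, hGK, Matrix.map_mul, Matrix.map_mul, hdiag]
    · intro i j; simp
    · intro i j; simp
    · simp
    · simp
  · -- general case: the last clause is vacuous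
    obtain ⟨k₁, k₂, d, h₁, h₂, -, hgk⟩ := svd555 g hg
    refine ⟨k₁, k₂, ((d 0 : ℝ) : ℂ), ((d 1 : ℝ) : ℂ), h₁, h₂, ?_, fun h => absurd h hreal⟩
    have hfun : (fun i => ((d i : ℝ) : ℂ)) = ![((d 0 : ℝ) : ℂ), ((d 1 : ℝ) : ℂ)] := by
      funext i
      fin_cases i <;> simp
    rw [← hfun]
    exact hgk

end Fermat.Agent.LT.T2.H555

end
end
-- ===== PACK-END LT/T2/H555/CartanInf.lean

-- ===== PACK-BEGIN LT/T2/H878/FubiniMean.lean
section


/-!
# Row LT, tower T2, sub-leaf T2.07.21 (helper878), part 2: the abstract commutation argument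

OFF-MAIN.  Mathlib only.

`G` is a second countable Hausdorff topological group with a measure `μ` which is finite on
compact sets, left and right invariant; `P` is a parameter space with a measure `ν₀` finite on
compact sets, `B' ⊆ B` with `B` compact; `Y, Z : P → G` are continuous families.

`comm_abstract878`: the convolution `R(f) φ (x) = ∫ φ(x h) f(h) dμ(h)` commutes with the mean
`M φ (x) = ∫_{B'} φ(x Y_p) wt(p) dν₀(p)` as soon as
* `E1`: `∫ φ(x h Y_p) f(h) dμ(h) = ∫ φ(x h) f(h Z_p) dμ(h)` for every `p`;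
* `E2` (equality of the kernels): `∫_{B'} f(Y_p⁻¹ h) wt(p) dν₀ = ∫_{B'} f(h Z_p) wt(p) dν₀`.
-/

set_option autoImplicit false
set_option linter.unusedSectionVars false

open MeasureTheory Set
open scoped Pointwise

noncomputable section

namespace Fermat.Agent.LT.T2.H878

section abstract878

variable {G : Type*} [Group G] [TopologicalSpace G] [IsTopologicalGroup G] [T2Space G]
  [SecondCountableTopology G] [MeasurableSpace G] [BorelSpace G]
  {P : Type*} [TopologicalSpace P] [T2Space P] [SecondCountableTopology P] [MeasurableSpace P]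
  [BorelSpace P]
  (μ : Measure G) [IsFiniteMeasureOnCompacts μ] [SFinite μ]
  (ν₀ : Measure P) [IsFiniteMeasureOnCompacts ν₀] [SFinite ν₀]

/-- Integrability on the product of a continuous function which vanishes for `h` outside a
compact set. -/
theorem fubini_int878 {Φ : G → P → ℂ} (hΦ : Continuous (Function.uncurry Φ)) {C : Set G}
    (hC : IsCompact C) {B' B : Set P} (hB' : MeasurableSet B') (hB : IsCompact B)
    (hBB : B' ⊆ B) (h0 : ∀ h, h ∉ C → ∀ p ∈ B, Φ h p = 0) :
    Integrable (Function.uncurry Φ) (μ.prod (ν₀.restrict B')) := by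
  have e : μ.prod (ν₀.restrict B') = (μ.prod ν₀).restrict (univ ×ˢ B') := by
    rw [← Measure.prod_restrict, Measure.restrict_univ]
  rw [e]
  have h1 : IntegrableOn (Function.uncurry Φ) (C ×ˢ B) (μ.prod ν₀) :=
    hΦ.continuousOn.integrableOn_compact (hC.prod hB)
  refine h1.of_forall_sdiff_eq_zero (MeasurableSet.univ.prod hB') ?_
  rintro ⟨h, p⟩ ⟨hp, hn⟩
  have hpB : p ∈ B := hBB hp.2
  have hh : h ∉ C := fun hh => hn ⟨hh, hpB⟩
  exact h0 h hh p hpB

/-- Fubini for a continuous function which vanishes for `h` outside a compact set. -/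
theorem fubini878 {Φ : G → P → ℂ} (hΦ : Continuous (Function.uncurry Φ)) {C : Set G}
    (hC : IsCompact C) {B' B : Set P} (hB' : MeasurableSet B') (hB : IsCompact B)
    (hBB : B' ⊆ B) (h0 : ∀ h, h ∉ C → ∀ p ∈ B, Φ h p = 0) :
    ∫ h, ∫ p in B', Φ h p ∂ν₀ ∂μ = ∫ p in B', ∫ h, Φ h p ∂μ ∂ν₀ :=
  integral_integral_swap (fubini_int878 μ ν₀ hΦ hC hB' hB hBB h0)

/-- **The abstract commutation argument.** -/
theorem comm_abstract878 [μ.IsMulLeftInvariant]
    {f φ : G → ℂ} (hf : Continuous f) (hfc : HasCompactSupport f) (hφ : Continuous φ)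
    {Y Z : P → G} (hY : Continuous Y) (hZ : Continuous Z) {wt : P → ℂ} (hwt : Continuous wt)
    {B' B : Set P} (hB' : MeasurableSet B') (hB : IsCompact B) (hBB : B' ⊆ B)
    (E1 : ∀ p x, ∫ h, φ (x * h * Y p) * f h ∂μ = ∫ h, φ (x * h) * f (h * Z p) ∂μ)
    (E2 : ∀ h, ∫ p in B', f ((Y p)⁻¹ * h) * wt p ∂ν₀ = ∫ p in B', f (h * Z p) * wt p ∂ν₀)
    (x : G) :
    ∫ h, (∫ p in B', φ (x * h * Y p) * wt p ∂ν₀) * f h ∂μ
      = ∫ p in B', (∫ h, φ (x * Y p * h) * f h ∂μ) * wt p ∂ν₀ := by
  -- Step A, B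
  have hA : ∫ h, (∫ p in B', φ (x * h * Y p) * wt p ∂ν₀) * f h ∂μ
      = ∫ p in B', ∫ h, φ (x * h * Y p) * wt p * f h ∂μ ∂ν₀ := by
    rw [← fubini878 μ ν₀ (Φ := fun h p => φ (x * h * Y p) * wt p * f h) (C := tsupport f)
      ?_ hfc hB' hB hBB ?_]
    · refine integral_congr_ae (Filter.Eventually.of_forall fun h => ?_)
      exact (integral_mul_const (f h) _).symm
    · show Continuous fun q : G × P => φ (x * q.1 * Y q.2) * wt q.2 * f q.1
      fun_prop
    · intro h hh p _
      rw [image_eq_zero_of_notMem_tsupport hh, mul_zero]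
  -- Step C
  have hC : ∫ p in B', ∫ h, φ (x * h * Y p) * wt p * f h ∂μ ∂ν₀
      = ∫ p in B', ∫ h, φ (x * h) * f (h * Z p) * wt p ∂μ ∂ν₀ := by
    refine integral_congr_ae (Filter.Eventually.of_forall fun p => ?_)
    show ∫ h, φ (x * h * Y p) * wt p * f h ∂μ = ∫ h, φ (x * h) * f (h * Z p) * wt p ∂μ
    rw [integral_mul_const, ← E1 p x, ← integral_mul_const]
    refine integral_congr_ae (Filter.Eventually.of_forall fun h => ?_)
    show φ (x * h * Y p) * wt p * f h = φ (x * h * Y p) * f h * wt p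
    ring
  -- Step D
  have hD : ∫ p in B', ∫ h, φ (x * h) * f (h * Z p) * wt p ∂μ ∂ν₀
      = ∫ h, φ (x * h) * ∫ p in B', f (h * Z p) * wt p ∂ν₀ ∂μ := by
    rw [← fubini878 μ ν₀ (Φ := fun h p => φ (x * h) * f (h * Z p) * wt p)
      (C := tsupport f * (Z '' B)⁻¹) ?_ (hfc.isCompact.mul (hB.image hZ).inv) hB' hB hBB ?_]
    · refine integral_congr_ae (Filter.Eventually.of_forall fun h => ?_)
      show ∫ p in B', φ (x * h) * f (h * Z p) * wt p ∂ν₀
        = φ (x * h) * ∫ p in B', f (h * Z p) * wt p ∂ν₀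
      rw [← integral_const_mul]
      refine integral_congr_ae (Filter.Eventually.of_forall fun p => ?_)
      show φ (x * h) * f (h * Z p) * wt p = φ (x * h) * (f (h * Z p) * wt p)
      ring
    · show Continuous fun q : G × P => φ (x * q.1) * f (q.1 * Z q.2) * wt q.2
      fun_prop
    · intro h hh p hp
      have : h * Z p ∉ tsupport f := by
        intro hmem
        apply hh
        refine ⟨h * Z p, hmem, (Z p)⁻¹, ?_, by group⟩
        exact Set.inv_mem_inv.2 (Set.mem_image_of_mem Z hp)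
      rw [image_eq_zero_of_notMem_tsupport this, mul_zero, zero_mul]
  -- Step E
  have hE : ∫ h, φ (x * h) * ∫ p in B', f (h * Z p) * wt p ∂ν₀ ∂μ
      = ∫ h, φ (x * h) * ∫ p in B', f ((Y p)⁻¹ * h) * wt p ∂ν₀ ∂μ := by
    refine integral_congr_ae (Filter.Eventually.of_forall fun h => ?_)
    show φ (x * h) * ∫ p in B', f (h * Z p) * wt p ∂ν₀
      = φ (x * h) * ∫ p in B', f ((Y p)⁻¹ * h) * wt p ∂ν₀
    rw [E2 h]
  -- Step F
  have hF : ∫ h, φ (x * h) * ∫ p in B', f ((Y p)⁻¹ * h) * wt p ∂ν₀ ∂μ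
      = ∫ p in B', ∫ h, φ (x * h) * f ((Y p)⁻¹ * h) * wt p ∂μ ∂ν₀ := by
    rw [← fubini878 μ ν₀ (Φ := fun h p => φ (x * h) * f ((Y p)⁻¹ * h) * wt p)
      (C := (Y '' B) * tsupport f) ?_ ((hB.image hY).mul hfc.isCompact) hB' hB hBB ?_]
    · refine integral_congr_ae (Filter.Eventually.of_forall fun h => ?_)
      show φ (x * h) * ∫ p in B', f ((Y p)⁻¹ * h) * wt p ∂ν₀
        = ∫ p in B', φ (x * h) * f ((Y p)⁻¹ * h) * wt p ∂ν₀
      rw [← integral_const_mul]
      refine integral_congr_ae (Filter.Eventually.of_forall fun p => ?_)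
      show φ (x * h) * (f ((Y p)⁻¹ * h) * wt p) = φ (x * h) * f ((Y p)⁻¹ * h) * wt p
      ring
    · show Continuous fun q : G × P => φ (x * q.1) * f ((Y q.2)⁻¹ * q.1) * wt q.2
      fun_prop
    · intro h hh p hp
      have : (Y p)⁻¹ * h ∉ tsupport f := by
        intro hmem
        apply hh
        exact ⟨Y p, Set.mem_image_of_mem Y hp, (Y p)⁻¹ * h, hmem, by group⟩
      rw [image_eq_zero_of_notMem_tsupport this, mul_zero, zero_mul]
  -- Step G
  have hG : ∫ p in B', ∫ h, φ (x * h) * f ((Y p)⁻¹ * h) * wt p ∂μ ∂ν₀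
      = ∫ p in B', (∫ h, φ (x * Y p * h) * f h ∂μ) * wt p ∂ν₀ := by
    refine integral_congr_ae (Filter.Eventually.of_forall fun p => ?_)
    show ∫ h, φ (x * h) * f ((Y p)⁻¹ * h) * wt p ∂μ = (∫ h, φ (x * Y p * h) * f h ∂μ) * wt p
    rw [integral_mul_const]
    congr 1
    rw [← integral_mul_left_eq_self (μ := μ) (fun h => φ (x * h) * f ((Y p)⁻¹ * h)) (Y p)]
    refine integral_congr_ae (Filter.Eventually.of_forall fun h => ?_)
    show φ (x * (Y p * h)) * f ((Y p)⁻¹ * (Y p * h)) = φ (x * Y p * h) * f h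
    rw [inv_mul_cancel_left, mul_assoc]
  rw [hA, hC, hD, hE, hF, hG]

/-- The mean of a convolution is an integrable function of the parameter. -/
theorem mean_conv_integrable878
    {f φ : G → ℂ} (hf : Continuous f) (hfc : HasCompactSupport f) (hφ : Continuous φ)
    {Y : P → G} (hY : Continuous Y) {wt : P → ℂ} (hwt : Continuous wt)
    {B' B : Set P} (hB' : MeasurableSet B') (hB : IsCompact B) (hBB : B' ⊆ B) (x : G) :
    IntegrableOn (fun p => (∫ h, φ (x * Y p * h) * f h ∂μ) * wt p) B' ν₀ := by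
  have h1 := fubini_int878 μ ν₀ (Φ := fun h p => φ (x * Y p * h) * f h * wt p) (C := tsupport f)
    (by
      show Continuous fun q : G × P => φ (x * Y q.2 * q.1) * f q.1 * wt q.2
      fun_prop) hfc hB' hB hBB (by
      intro h hh p _
      rw [image_eq_zero_of_notMem_tsupport hh, mul_zero, zero_mul])
  have h2 := h1.integral_prod_right
  refine h2.congr (Filter.Eventually.of_forall fun p => ?_)
  show ∫ h, φ (x * Y p * h) * f h * wt p ∂μ = (∫ h, φ (x * Y p * h) * f h ∂μ) * wt p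
  rw [integral_mul_const]

/-- The mean of a continuous function is the integral of an integrable function. -/
theorem mean_integrable878 {φ : G → ℂ} (hφ : Continuous φ)
    {Y : P → G} (hY : Continuous Y) {wt : P → ℂ} (hwt : Continuous wt)
    {B' B : Set P} (hB : IsCompact B) (hBB : B' ⊆ B) (x : G) :
    IntegrableOn (fun p => φ (x * Y p) * wt p) B' ν₀ := by
  have hc : Continuous fun p => φ (x * Y p) * wt p := by fun_prop
  exact (hc.continuousOn.integrableOn_compact hB).mono_set hBB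

end abstract878

end Fermat.Agent.LT.T2.H878

end

end
-- ===== PACK-END LT/T2/H878/FubiniMean.lean

-- ===== PACK-BEGIN LT/T2/H323/Count/Lattice.lean
section


/-!
# Row LT, tower T2, sub-leaf T2.03c.1 `LeafCount` (helper323), OFF-MAIN : LATTICE POINTS

`exists_card_box_le323` : there is `C ≥ 0` such that for every `ρ ≥ 0` the number of algebraic
integers `x ∈ 𝓞 K` with `|x|_w ≤ ρ` at every infinite place `w` is at most
`(2 C ρ + 1) ^ [K : ℚ]`.

Proof: coordinates in the integral basis.  `x = ∑ aᵢ bᵢ`, `aᵢ ∈ ℤ`, and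
`a = L (mixedEmbedding x)` for the `ℝ`-linear isomorphism `L` of the mixed space with `ℝ^n` given
by the lattice basis; `L` is bounded (finite dimension), `‖mixedEmbedding x‖ = max_w |x|_w`.
Mathlib only.
-/

set_option autoImplicit false
set_option linter.style.haveILetI false

open NumberField Module
open NumberField.mixedEmbedding (mixedSpace)

noncomputable section

namespace Fermat.Agent.LT.T2.H323

variable (K : Type) [Field K] [NumberField K]

set_option backward.isDefEq.respectTransparency false in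
open scoped Classical in
/-- `‖mixedEmbedding x‖ ≤ ρ` if `|x|_w ≤ ρ` at every infinite place. -/
theorem norm_mixedEmbedding_le323 (x : K) (ρ : ℝ)
    (h : ∀ w : InfinitePlace K, w x ≤ ρ) : ‖mixedEmbedding K x‖ ≤ ρ := by
  rw [mixedEmbedding.norm_eq_sup'_normAtPlace]
  refine Finset.sup'_le _ _ fun w _ => ?_
  rw [mixedEmbedding.normAtPlace_apply]
  exact h w

set_option backward.isDefEq.respectTransparency false in
open scoped Classical in
/-- The coordinates of an algebraic integer in the integral basis are bounded by the norm of its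
mixed embedding. -/
theorem exists_coord_bound323 :
    ∃ C : ℝ, 0 ≤ C ∧ ∀ (x : 𝓞 K) (i : Free.ChooseBasisIndex ℤ (𝓞 K)),
      |(((RingOfIntegers.basis K).repr x i : ℤ) : ℝ)| ≤ C * ‖mixedEmbedding K (x : K)‖ := by
  classical
  set L : mixedSpace K →L[ℝ] (Free.ChooseBasisIndex ℤ (𝓞 K) → ℝ) :=
    LinearMap.toContinuousLinearMap
      ((mixedEmbedding.latticeBasis K).equivFun : mixedSpace K →ₗ[ℝ] _) with hL
  refine ⟨‖L‖, norm_nonneg _, fun x i => ?_⟩
  have h1 : L (mixedEmbedding K (x : K)) i = (((RingOfIntegers.basis K).repr x i : ℤ) : ℝ) := by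
    show (mixedEmbedding.latticeBasis K).equivFun (mixedEmbedding K (x : K)) i = _
    rw [Basis.equivFun_apply, mixedEmbedding.latticeBasis_repr_apply]
    have h2 := integralBasis_repr_apply K x i
    rw [h2]
    simp
  rw [← h1]
  calc |L (mixedEmbedding K (x : K)) i| = ‖L (mixedEmbedding K (x : K)) i‖ := (Real.norm_eq_abs _).symm
    _ ≤ ‖L (mixedEmbedding K (x : K))‖ := norm_le_pi_norm _ i
    _ ≤ ‖L‖ * ‖mixedEmbedding K (x : K)‖ := L.le_opNorm _

set_option backward.isDefEq.respectTransparency false in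
open scoped Classical in
/-- **The count of lattice points in a box.** -/
theorem exists_card_box_le323 :
    ∃ C : ℝ, 0 ≤ C ∧ ∀ ρ : ℝ, 0 ≤ ρ → ∀ T : Finset (𝓞 K),
      (∀ x ∈ T, ∀ w : InfinitePlace K, w (x : K) ≤ ρ) →
        (T.card : ℝ) ≤ (2 * C * ρ + 1) ^ Module.finrank ℚ K := by
  classical
  obtain ⟨C, hC0, hC⟩ := exists_coord_bound323 K
  refine ⟨C, hC0, fun ρ hρ T hT => ?_⟩
  set N : ℕ := ⌊C * ρ⌋₊ with hN
  have hCρ : 0 ≤ C * ρ := mul_nonneg hC0 hρ
  -- the coordinate map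
  set Φ : 𝓞 K → (Free.ChooseBasisIndex ℤ (𝓞 K) → ℤ) :=
    fun x i => (RingOfIntegers.basis K).repr x i with hΦ
  have hinj : Function.Injective Φ := by
    intro x y hxy
    apply (RingOfIntegers.basis K).repr.injective
    ext i
    exact congrFun hxy i
  have himg : T.image Φ ⊆ Fintype.piFinset fun _ => Finset.Icc (-(N : ℤ)) (N : ℤ) := by
    intro a ha
    obtain ⟨x, hx, rfl⟩ := Finset.mem_image.mp ha
    rw [Fintype.mem_piFinset]
    intro i
    have h1 := hC x i
    have h2 : ‖mixedEmbedding K (x : K)‖ ≤ ρ := norm_mixedEmbedding_le323 K _ ρ (hT x hx)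
    have h3 : |(((RingOfIntegers.basis K).repr x i : ℤ) : ℝ)| ≤ C * ρ :=
      h1.trans (mul_le_mul_of_nonneg_left h2 hC0)
    have h4 : |(RingOfIntegers.basis K).repr x i| ≤ (N : ℤ) := by
      have h5 : ((|(RingOfIntegers.basis K).repr x i| : ℤ) : ℝ) ≤ C * ρ := by
        rw [Int.cast_abs]
        exact h3
      have h6 : ((|(RingOfIntegers.basis K).repr x i|).toNat : ℝ) ≤ C * ρ := by
        have h7 : (((|(RingOfIntegers.basis K).repr x i|).toNat : ℤ) : ℝ)
            = ((|(RingOfIntegers.basis K).repr x i| : ℤ) : ℝ) := by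
          rw [Int.toNat_of_nonneg (abs_nonneg _)]
        have h8 : (((|(RingOfIntegers.basis K).repr x i|).toNat : ℤ) : ℝ)
            = ((|(RingOfIntegers.basis K).repr x i|).toNat : ℝ) := by
          push_cast
          rfl
        rw [← h8, h7]
        exact h5
      have h9 : (|(RingOfIntegers.basis K).repr x i|).toNat ≤ N := Nat.le_floor h6
      calc |(RingOfIntegers.basis K).repr x i|
          = ((|(RingOfIntegers.basis K).repr x i|).toNat : ℤ) :=
            (Int.toNat_of_nonneg (abs_nonneg _)).symm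
        _ ≤ (N : ℤ) := by exact_mod_cast h9
    rw [Finset.mem_Icc]
    exact abs_le.mp h4
  have hcard : T.card ≤ (2 * N + 1) ^ Module.finrank ℚ K := by
    calc T.card = (T.image Φ).card := (Finset.card_image_of_injective T hinj).symm
      _ ≤ (Fintype.piFinset fun _ : Free.ChooseBasisIndex ℤ (𝓞 K) =>
            Finset.Icc (-(N : ℤ)) (N : ℤ)).card := Finset.card_le_card himg
      _ = (2 * N + 1) ^ Module.finrank ℚ K := by
          rw [Fintype.card_piFinset, Finset.prod_const, Finset.card_univ, Int.card_Icc,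
            ← Module.finrank_eq_card_chooseBasisIndex, RingOfIntegers.rank]
          congr 1
          omega
  have hN' : (N : ℝ) ≤ C * ρ := Nat.floor_le hCρ
  calc (T.card : ℝ) ≤ (((2 * N + 1) ^ Module.finrank ℚ K : ℕ) : ℝ) := by exact_mod_cast hcard
    _ = (2 * (N : ℝ) + 1) ^ Module.finrank ℚ K := by push_cast; rfl
    _ ≤ (2 * C * ρ + 1) ^ Module.finrank ℚ K := by
        apply pow_le_pow_left₀ (by positivity)
        nlinarith

/-- The valuation of the image of `k : K` in `K_v` (Mathlib `valuedAdicCompletion_eq_valuation'`).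
-/
theorem valued_algebraMapL323 (v : IsDedekindDomain.HeightOneSpectrum (𝓞 K)) (k : K) :
    Valued.v (algebraMap K (v.adicCompletion K) k) = v.valuation K k :=
  IsDedekindDomain.HeightOneSpectrum.valuedAdicCompletion_eq_valuation' v k

/-- **Lattice points with a denominator.**  For `d ∈ 𝓞 K`, `d ≠ 0`, the number of `ξ ∈ K` with
`d ξ` integral at every finite place and `|ξ|_w ≤ ρ` at every infinite place is at most
`(A ρ + 1) ^ [K : ℚ]`, `A` depending on `d` only. -/
theorem exists_card_le_of_denom323 (d : 𝓞 K) (hd : d ≠ 0) :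
    ∃ A : ℝ, 0 ≤ A ∧ ∀ ρ : ℝ, 0 ≤ ρ → ∀ T : Finset K,
      (∀ ξ ∈ T, (∀ v : IsDedekindDomain.HeightOneSpectrum (𝓞 K),
          Valued.v (algebraMap K (v.adicCompletion K) (algebraMap (𝓞 K) K d) *
            algebraMap K (v.adicCompletion K) ξ) ≤ 1) ∧
        ∀ w : InfinitePlace K, w ξ ≤ ρ) →
      (T.card : ℝ) ≤ (A * ρ + 1) ^ Module.finrank ℚ K := by
  classical
  obtain ⟨C, hC0, hC⟩ := exists_card_box_le323 K
  set W : ℝ := ∑ w : InfinitePlace K, w (algebraMap (𝓞 K) K d) with hW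
  have hW0 : 0 ≤ W := Finset.sum_nonneg fun w _ => apply_nonneg _ _
  refine ⟨2 * C * W, by positivity, fun ρ hρ T hT => ?_⟩
  have hint : ∀ ξ ∈ T, ∃ x : 𝓞 K, algebraMap (𝓞 K) K x = algebraMap (𝓞 K) K d * ξ := by
    intro ξ hξ
    have h := IsDedekindDomain.HeightOneSpectrum.mem_integers_of_valuation_le_one K
      (algebraMap (𝓞 K) K d * ξ) fun v => by
        have := (hT ξ hξ).1 v
        rw [← map_mul, valued_algebraMapL323] at this
        exact this
    obtain ⟨x, hx⟩ := h
    exact ⟨x, hx⟩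
  set f : K → 𝓞 K := fun ξ =>
    if h : ∃ x : 𝓞 K, algebraMap (𝓞 K) K x = algebraMap (𝓞 K) K d * ξ then h.choose else 0
    with hf
  have hfv : ∀ ξ ∈ T, algebraMap (𝓞 K) K (f ξ) = algebraMap (𝓞 K) K d * ξ := by
    intro ξ hξ
    have h := hint ξ hξ
    simp only [hf, dif_pos h]
    exact h.choose_spec
  have hdK : algebraMap (𝓞 K) K d ≠ 0 := by simpa using hd
  have hinj : Set.InjOn f T := by
    intro ξ hξ η hη h
    have := congrArg (fun x : 𝓞 K => algebraMap (𝓞 K) K x) h
    simp only [hfv ξ hξ, hfv η hη] at this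
    exact mul_left_cancel₀ hdK this
  have hcard : (T.image f).card = T.card := Finset.card_image_of_injOn hinj
  have hb : ∀ x ∈ T.image f, ∀ w : InfinitePlace K, w (x : K) ≤ W * ρ := by
    intro x hx w
    obtain ⟨ξ, hξ, rfl⟩ := Finset.mem_image.mp hx
    have e : ((f ξ : 𝓞 K) : K) = algebraMap (𝓞 K) K d * ξ := hfv ξ hξ
    rw [e, map_mul]
    have h1 : w (algebraMap (𝓞 K) K d) ≤ W :=
      Finset.single_le_sum (f := fun w : InfinitePlace K => w (algebraMap (𝓞 K) K d))
        (fun w _ => apply_nonneg _ _) (Finset.mem_univ w)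
    exact mul_le_mul h1 ((hT ξ hξ).2 w) (apply_nonneg _ _) hW0
  have := hC (W * ρ) (mul_nonneg hW0 hρ) (T.image f) hb
  rw [hcard] at this
  calc (T.card : ℝ) ≤ (2 * C * (W * ρ) + 1) ^ Module.finrank ℚ K := this
    _ = (2 * C * W * ρ + 1) ^ Module.finrank ℚ K := by ring_nf

end Fermat.Agent.LT.T2.H323

end

end
-- ===== PACK-END LT/T2/H323/Count/Lattice.lean

-- ===== PACK-BEGIN LT/T6/H219/SplitPlace.lean
section


/-!
# T6.00b (HasseNormQ3, cut of helper438): split places of a quadratic field (helper219)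

`L` a quadratic number field, `δ ∈ L`, `δ² = d` (`d ≠ 1` squarefree), `p` a prime such that `d` is
a square in `ℤ_p`.  Then there is a height-one prime `v` of `𝓞 L` and a ring homomorphism
`φ : 𝓞 L →+* ZMod p` with kernel `v` such that `p ∉ v²`; the `v`-adic valuation of a rational
number `c ≠ 0` is `exp (- padicValRat p c)`.  Mathlib only.
-/

set_option autoImplicit false

namespace Fermat.Agent.LT.T6.H219

open IsDedekindDomain HeightOneSpectrum WithZero NumberField Polynomial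

/-! ### `δ` generates `L` -/

theorem int_eq_one_of_squarefree_of_isSquare219 {d : ℤ} (hd : Squarefree d) (h : IsSquare d) :
    d = 1 := by
  obtain ⟨m, rfl⟩ := h
  have hm : IsUnit m := hd m dvd_rfl
  rcases Int.isUnit_iff.mp hm with rfl | rfl <;> norm_num

theorem not_mem_range_of_sq219 {L : Type} [Field L] [CharZero L] (d : ℤ) (hd : Squarefree d)
    (hd1 : d ≠ 1) (δ : L) (hδ : δ ^ 2 = (d : L)) :
    δ ∉ Set.range (algebraMap ℚ L) := by
  rintro ⟨q, rfl⟩
  apply hd1
  apply int_eq_one_of_squarefree_of_isSquare219 hd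
  rw [← Rat.isSquare_intCast_iff]
  refine ⟨q, ?_⟩
  have : algebraMap ℚ L (q ^ 2) = algebraMap ℚ L (d : ℚ) := by
    rw [map_pow, hδ]; simp
  have := (algebraMap ℚ L).injective this
  rw [← this, pow_two]

theorem adjoin_eq_top219 {L : Type} [Field L] [NumberField L] (hdeg : Module.finrank ℚ L = 2)
    (d : ℤ) (hd : Squarefree d) (hd1 : d ≠ 1) (δ : L) (hδ : δ ^ 2 = (d : L)) :
    IntermediateField.adjoin ℚ {δ} = ⊤ := by
  have hs := IntermediateField.isSimpleOrder_of_finrank_prime (F := ℚ) (E := L)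
    (by rw [hdeg]; exact Nat.prime_two)
  rcases hs.eq_bot_or_eq_top (IntermediateField.adjoin ℚ {δ}) with h | h
  · exfalso
    rw [IntermediateField.adjoin_simple_eq_bot_iff, IntermediateField.mem_bot] at h
    exact not_mem_range_of_sq219 d hd hd1 δ hδ h
  · exact h

/-- An embedding of `L` into any field extension of `ℚ` in which `d` is a square. -/
theorem exists_algHom_of_sqrt219 {L : Type} [Field L] [NumberField L]
    (hdeg : Module.finrank ℚ L = 2) (d : ℤ) (hd : Squarefree d) (hd1 : d ≠ 1) (δ : L)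
    (hδ : δ ^ 2 = (d : L)) (E : Type*) [Field E] [Algebra ℚ E] (ρ : E) (hρ : ρ ^ 2 = (d : E)) :
    Nonempty (L →ₐ[ℚ] E) := by
  apply IntermediateField.nonempty_algHom_of_adjoin_splits (S := {δ}) _
    (adjoin_eq_top219 hdeg d hd hd1 δ hδ)
  intro s hs
  rw [Set.mem_singleton_iff] at hs
  subst hs
  refine ⟨Algebra.IsIntegral.isIntegral s, ?_⟩
  have hdvd : minpoly ℚ s ∣ (X ^ 2 - C (d : ℚ)) := by
    apply minpoly.dvd
    simp [hδ]
  have hmap : ((X : ℚ[X]) ^ 2 - C (d : ℚ)).map (algebraMap ℚ E) = (X - C ρ) * (X + C ρ) := by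
    simp only [Polynomial.map_sub, Polynomial.map_pow, Polynomial.map_X, map_intCast]
    have : (X - C ρ) * (X + C ρ) = X ^ 2 - C (ρ ^ 2) := by
      rw [C_pow]; ring
    rw [this, hρ]
    simp
  have hne : ((X : ℚ[X]) ^ 2 - C (d : ℚ)).map (algebraMap ℚ E) ≠ 0 := by
    rw [hmap]
    exact mul_ne_zero (X_sub_C_ne_zero ρ) (X_add_C_ne_zero ρ)
  refine Splits.of_dvd ?_ hne (Polynomial.map_dvd _ hdvd)
  rw [hmap]
  exact (Splits.X_sub_C ρ).mul (Splits.X_add_C ρ)

/-! ### Square roots in `ℤ_p` (Hensel) -/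

theorem aeval_sq_sub219 {p : ℕ} [Fact p.Prime] (d : ℤ) (a : ℤ_[p]) :
    (X ^ 2 - C d : ℤ[X]).aeval a = a ^ 2 - (d : ℤ_[p]) := by
  simp

theorem aeval_deriv_sq_sub219 {p : ℕ} [Fact p.Prime] (d : ℤ) (a : ℤ_[p]) :
    (X ^ 2 - C d : ℤ[X]).derivative.aeval a = 2 * a := by
  simp
  exact Or.inl (map_ofNat _ 2)

theorem exists_padic_sqrt_two219 (d : ℤ) (h : d % 8 = 1) :
    ∃ z : ℤ_[2], z ^ 2 = (d : ℤ_[2]) := by
  have hn : ‖(X ^ 2 - C d : ℤ[X]).aeval (1 : ℤ_[2])‖
      < ‖(X ^ 2 - C d : ℤ[X]).derivative.aeval (1 : ℤ_[2])‖ ^ 2 := by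
    rw [aeval_sq_sub219, aeval_deriv_sq_sub219]
    have h8 : ((2 : ℕ) ^ 3 : ℤ) ∣ (1 - d) := by
      norm_num
      omega
    have h1 : ‖((1 - d : ℤ) : ℤ_[2])‖ ≤ (2 : ℝ) ^ (-(3 : ℕ) : ℤ) := by
      have := (PadicInt.norm_int_le_pow_iff_dvd (p := 2) (k := 1 - d) (n := 3)).mpr h8
      simpa using this
    have h2 : ‖(2 : ℤ_[2])‖ = (2 : ℝ)⁻¹ := by
      have := PadicInt.norm_p (p := 2)
      simpa using this
    have e : (1 : ℤ_[2]) ^ 2 - (d : ℤ_[2]) = ((1 - d : ℤ) : ℤ_[2]) := by push_cast; ring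
    rw [e, mul_one, h2]
    refine lt_of_le_of_lt h1 ?_
    norm_num
  obtain ⟨z, hz, -⟩ := hensels_lemma hn
  rw [aeval_sq_sub219] at hz
  exact ⟨z, sub_eq_zero.mp hz⟩

theorem exists_padic_sqrt_odd219 (p : ℕ) [Fact p.Prime] (hp2 : p ≠ 2) (d : ℤ)
    (hpd : ¬ (p : ℤ) ∣ d) (hsq : IsSquare ((d : ZMod p))) :
    ∃ z : ℤ_[p], z ^ 2 = (d : ℤ_[p]) := by
  obtain ⟨r, hr⟩ := hsq
  obtain ⟨r₀, rfl⟩ := ZMod.intCast_surjective r
  have hdvd : (p : ℤ) ∣ r₀ ^ 2 - d := by
    rw [← ZMod.intCast_zmod_eq_zero_iff_dvd]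
    push_cast
    rw [hr]; ring
  have hr₀ : ¬ (p : ℤ) ∣ r₀ := by
    intro h
    apply hpd
    have : (p : ℤ) ∣ r₀ ^ 2 := dvd_pow h (by norm_num)
    exact (dvd_sub_right this).mp hdvd
  have hp : Nat.Prime p := Fact.out
  have h2 : ¬ (p : ℤ) ∣ 2 * r₀ := by
    intro h
    rcases (Nat.prime_iff_prime_int.mp hp).dvd_or_dvd h with h | h
    · have : p ∣ 2 := by exact_mod_cast h
      exact hp2 ((Nat.prime_dvd_prime_iff_eq hp Nat.prime_two).mp this)
    · exact hr₀ h
  have hn : ‖(X ^ 2 - C d : ℤ[X]).aeval (r₀ : ℤ_[p])‖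
      < ‖(X ^ 2 - C d : ℤ[X]).derivative.aeval (r₀ : ℤ_[p])‖ ^ 2 := by
    rw [aeval_sq_sub219, aeval_deriv_sq_sub219]
    have e1 : (r₀ : ℤ_[p]) ^ 2 - (d : ℤ_[p]) = ((r₀ ^ 2 - d : ℤ) : ℤ_[p]) := by push_cast; ring
    have e2 : 2 * (r₀ : ℤ_[p]) = ((2 * r₀ : ℤ) : ℤ_[p]) := by push_cast; ring
    have n1 : ‖((r₀ ^ 2 - d : ℤ) : ℤ_[p])‖ < 1 := (PadicInt.norm_int_lt_one_iff_dvd _).mpr hdvd
    have n2 : ‖((2 * r₀ : ℤ) : ℤ_[p])‖ = 1 := by
      rcases lt_or_eq_of_le (PadicInt.norm_le_one ((2 * r₀ : ℤ) : ℤ_[p])) with h | h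
      · exact absurd ((PadicInt.norm_int_lt_one_iff_dvd _).mp h) h2
      · exact h
    rw [e1, e2, n2]
    simpa using n1
  obtain ⟨z, hz, -⟩ := hensels_lemma hn
  rw [aeval_sq_sub219] at hz
  exact ⟨z, sub_eq_zero.mp hz⟩

/-! ### The place of `L` attached to an embedding `L → ℚ_p` -/

section place

variable {L : Type} [Field L] [NumberField L] {p : ℕ} [Fact p.Prime] (ψ : L →+* ℚ_[p])

omit [NumberField L] in
theorem norm_le_one_of_integral219 (α : 𝓞 L) : ‖ψ (α : L)‖ ≤ 1 := by
  have h1 : IsIntegral ℤ (α : L) := RingOfIntegers.isIntegral_coe α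
  have h2 : IsIntegral ℤ (ψ (α : L)) := map_isIntegral_int ψ h1
  have h3 : IsIntegral ℤ_[p] (ψ (α : L)) := h2.tower_top
  obtain ⟨y, hy⟩ := IsIntegrallyClosed.isIntegral_iff.mp h3
  rw [← hy]
  exact y.2

/-- The induced homomorphism `𝓞 L → ℤ_p`. -/
noncomputable def toPadicInt219 : 𝓞 L →+* ℤ_[p] where
  toFun α := ⟨ψ (α : L), norm_le_one_of_integral219 ψ α⟩
  map_one' := by apply Subtype.ext; simp
  map_mul' a b := by
    apply Subtype.ext
    show ψ ((a * b : 𝓞 L) : L) = ψ (a : L) * ψ (b : L)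
    simp
  map_zero' := by apply Subtype.ext; simp
  map_add' a b := by
    apply Subtype.ext
    show ψ ((a + b : 𝓞 L) : L) = ψ (a : L) + ψ (b : L)
    simp

theorem toPadicInt219_coe (α : 𝓞 L) : ((toPadicInt219 ψ α : ℤ_[p]) : ℚ_[p]) = ψ (α : L) := rfl

/-- The induced homomorphism `𝓞 L → 𝔽_p`. -/
noncomputable def toZModP219 : 𝓞 L →+* ZMod p :=
  PadicInt.toZMod.comp (toPadicInt219 ψ)

theorem natCast_p_ne_zero219 : ((p : ℕ) : 𝓞 L) ≠ 0 := by
  have hp : Nat.Prime p := Fact.out
  exact_mod_cast hp.ne_zero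

theorem natCast_p_mem_ker219 : ((p : ℕ) : 𝓞 L) ∈ RingHom.ker (toZModP219 ψ) := by
  rw [RingHom.mem_ker, map_natCast]
  exact ZMod.natCast_self p

/-- The place of `L` cut out by `ψ`. -/
noncomputable def placeOf219 : HeightOneSpectrum (𝓞 L) where
  asIdeal := RingHom.ker (toZModP219 ψ)
  isPrime := RingHom.ker_isPrime _
  ne_bot := fun h => natCast_p_ne_zero219 (L := L) (p := p) (by
    have := natCast_p_mem_ker219 ψ
    rw [h] at this
    exact this)

theorem placeOf219_asIdeal : (placeOf219 ψ).asIdeal = RingHom.ker (toZModP219 ψ) := rfl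

theorem mem_placeOf219 (α : 𝓞 L) : α ∈ (placeOf219 ψ).asIdeal ↔ toZModP219 ψ α = 0 := by
  rw [placeOf219_asIdeal, RingHom.mem_ker]

theorem intCast_notMem_placeOf219 (n : ℤ) (hn : ¬ (p : ℤ) ∣ n) :
    (n : 𝓞 L) ∉ (placeOf219 ψ).asIdeal := by
  rw [mem_placeOf219, map_intCast, ZMod.intCast_zmod_eq_zero_iff_dvd]
  exact hn

theorem sq_dvd_of_mem_sq219 (x : 𝓞 L) (hx : x ∈ (placeOf219 ψ).asIdeal ^ 2) :
    (p : ℤ_[p]) ^ 2 ∣ toPadicInt219 ψ x := by
  have hle : Ideal.map (toPadicInt219 ψ) ((placeOf219 ψ).asIdeal ^ 2)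
      ≤ (IsLocalRing.maximalIdeal ℤ_[p]) ^ 2 := by
    rw [Ideal.map_pow]
    apply Ideal.pow_right_mono
    rw [Ideal.map_le_iff_le_comap]
    intro y hy
    rw [Ideal.mem_comap, ← PadicInt.ker_toZMod, RingHom.mem_ker]
    exact (mem_placeOf219 ψ y).mp hy
  have := hle (Ideal.mem_map_of_mem _ hx)
  rw [PadicInt.maximalIdeal_eq_span_p, Ideal.span_singleton_pow,
    Ideal.mem_span_singleton] at this
  exact this

theorem natCast_p_notMem_sq219 : ((p : ℕ) : 𝓞 L) ∉ (placeOf219 ψ).asIdeal ^ 2 := by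
  intro h
  have h1 := sq_dvd_of_mem_sq219 ψ _ h
  rw [map_natCast] at h1
  obtain ⟨t, ht⟩ := h1
  have hp0 : (p : ℤ_[p]) ≠ 0 := by
    have hp : Nat.Prime p := Fact.out
    exact_mod_cast hp.ne_zero
  have h2 : (p : ℤ_[p]) * t = 1 := by
    apply mul_left_cancel₀ hp0
    rw [mul_one]
    calc (p : ℤ_[p]) * ((p : ℤ_[p]) * t) = (p : ℤ_[p]) ^ 2 * t := by ring
      _ = p := ht.symm
  exact PadicInt.p_nonunit (IsUnit.of_mul_eq_one _ h2)

theorem intValuation_p219 : (placeOf219 ψ).intValuation ((p : ℕ) : 𝓞 L) = exp (-1 : ℤ) := by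
  have h1 : (placeOf219 ψ).intValuation ((p : ℕ) : 𝓞 L) ≤ exp (-((1 : ℕ) : ℤ)) := by
    rw [intValuation_le_pow_iff_mem, pow_one]
    exact natCast_p_mem_ker219 ψ
  have h2 : ¬ (placeOf219 ψ).intValuation ((p : ℕ) : 𝓞 L) ≤ exp (-((2 : ℕ) : ℤ)) := by
    rw [intValuation_le_pow_iff_mem]
    exact natCast_p_notMem_sq219 ψ
  have h0 : (placeOf219 ψ).intValuation ((p : ℕ) : 𝓞 L) ≠ 0 :=
    intValuation_ne_zero _ _ (natCast_p_ne_zero219 (L := L) (p := p))
  obtain ⟨k, hk⟩ : ∃ k : ℤ, (placeOf219 ψ).intValuation ((p : ℕ) : 𝓞 L) = exp k :=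
    ⟨_, (exp_log h0).symm⟩
  rw [hk] at h1 h2 ⊢
  rw [exp_le_exp] at h1 h2
  congr 1
  push_cast at h1 h2
  omega

end place

end Fermat.Agent.LT.T6.H219

end
-- ===== PACK-END LT/T6/H219/SplitPlace.lean

-- ===== PACK-BEGIN LT/H338/TreeDist.lean
section


/-!
# Row LT, tower T6 — displacement counts for automorphisms of a regular tree (helper338, OFF-MAIN)

Mathlib only.  A *tree distance* on `V` is a function `d : V → V → ℕ` with the four properties of
`IsTreeDist338` (the distance function of a tree satisfies them, see `TreeGraph.lean`; the distance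
`a - b` of the Cartan invariant `(a, b)` on homothety classes of lattices satisfies them too).

For a distance-preserving map `g` with a fixed point `o`:
* `disp_step338` : `d x (g x) = d (par x) (g (par x)) + 2` for every non-fixed `x`
  (`par x` = the neighbour of `x` towards `o`);
* `even_disp338` : every displacement is even;
* `ncard_disp_even338` : if all vertices have `q + 1` neighbours and `g` has exactly `n₀` fixed
  points, then the number of `x` with `d x (g x) = 2 (r + 1)` is `(q n₀ + 2 - n₀) q ^ r`.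
This is the count behind the fundamental lemma for `GL2` at elliptic elements fixing a vertex.
-/

namespace Fermat.Agent.LT.H338

open Finset

/-- The properties of the distance function of a tree that the counts use. -/
structure IsTreeDist338 {V : Type*} (d : V → V → ℕ) : Prop where
  eq_zero : ∀ x y, d x y = 0 ↔ x = y
  symm : ∀ x y, d x y = d y x
  step : ∀ u v w, d v w = 1 → d u v = d u w + 1 ∨ d u w = d u v + 1
  toward : ∀ u v, u ≠ v → ∃! w, d v w = 1 ∧ d u w + 1 = d u v

section Rooted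

variable {V : Type*} {d : V → V → ℕ} (hd : IsTreeDist338 d) (o : V)

/-- The parent of `x` with respect to the root `o` (and `o` itself for `x = o`). -/
noncomputable def par338 (x : V) : V :=
  open Classical in if h : o ≠ x then (hd.toward o x h).exists.choose else x

theorem par338_root : par338 hd o o = o := by
  simp [par338]

theorem par338_adj {x : V} (h : o ≠ x) : d x (par338 hd o x) = 1 := by
  rw [par338, dif_pos h]
  exact (hd.toward o x h).exists.choose_spec.1

theorem par338_depth {x : V} (h : o ≠ x) : d o (par338 hd o x) + 1 = d o x := by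
  rw [par338, dif_pos h]
  exact (hd.toward o x h).exists.choose_spec.2

theorem par338_unique {x w : V} (h : o ≠ x) (h1 : d x w = 1) (h2 : d o w + 1 = d o x) :
    w = par338 hd o x :=
  (hd.toward o x h).unique ⟨h1, h2⟩ ⟨par338_adj hd o h, par338_depth hd o h⟩

include hd in
theorem root_ne_of_depth338 {x : V} {n : ℕ} (h : d o x = n + 1) : o ≠ x := by
  intro e
  have := (hd.eq_zero o x).2 e
  omega

/-- The neighbour of `x` towards any `y` that is not deeper than `x` is the parent of `x`. -/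
theorem star338 : ∀ (n : ℕ) (x y : V), d x y = n → x ≠ y → d o y ≤ d o x →
    d y (par338 hd o x) + 1 = d y x := by
  intro n
  induction n using Nat.strong_induction_on with
  | _ n ih =>
    intro x y hxy hne hle
    obtain ⟨w, ⟨hw1, hw2⟩, -⟩ := hd.toward y x (Ne.symm hne)
    have hox : o ≠ x := by
      intro e
      subst e
      have h0 : d o o = 0 := (hd.eq_zero o o).2 rfl
      have : d o y = 0 := by omega
      exact hne ((hd.eq_zero o y).1 this)
    rcases hd.step o x w hw1 with h | h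
    · have : w = par338 hd o x := par338_unique hd o hox hw1 h.symm
      rw [← this]; exact hw2
    · exfalso
      have hwy : w ≠ y := by
        intro e
        subst e
        omega
      have hlt : d w y < n := by
        rw [hd.symm w y, ← hxy, hd.symm x y]; omega
      have hrec := ih (d w y) hlt w y rfl hwy (by omega)
      have how : o ≠ w := root_ne_of_depth338 hd o h
      have hx : x = par338 hd o w :=
        par338_unique hd o how (by rw [hd.symm]; exact hw1) h.symm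
      rw [← hx] at hrec
      omega

end Rooted

section Fixed

variable {V : Type*} {d : V → V → ℕ} (hd : IsTreeDist338 d) (g : V → V)
  (hg : ∀ x y, d (g x) (g y) = d x y) (o : V) (ho : g o = o)

include hg ho in
theorem depth_map338 (x : V) : d o (g x) = d o x := by
  conv_lhs => rw [← ho]
  exact hg o x

include hg ho in
theorem map_par338 {x : V} (h : o ≠ x) : g (par338 hd o x) = par338 hd o (g x) := by
  have hd0 := depth_map338 g hg o ho x
  have hox : d o x ≠ 0 := fun e => h ((hd.eq_zero o x).1 e)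
  have h' : o ≠ g x := by
    intro e
    have := (hd.eq_zero o (g x)).2 e
    omega
  refine par338_unique hd o h' ?_ ?_
  · rw [hg]; exact par338_adj hd o h
  · rw [depth_map338 g hg o ho, hd0]; exact par338_depth hd o h

include hg ho in
theorem fixed_par338 {x : V} (hx : g x = x) : g (par338 hd o x) = par338 hd o x := by
  by_cases h : o = x
  · subst h; rw [par338_root]; exact ho
  · rw [map_par338 hd g hg o ho h, hx]

include hg ho in
/-- The displacement grows by exactly `2` at each step away from the fixed points. -/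
theorem disp_step338 {x : V} (hx : g x ≠ x) :
    d x (g x) = d (par338 hd o x) (g (par338 hd o x)) + 2 := by
  have hox : o ≠ x := by
    intro e; subst e; exact hx ho
  have hd0 := depth_map338 g hg o ho x
  have hp := par338_depth hd o hox
  have h1 := star338 hd o (d x (g x)) x (g x) rfl (Ne.symm hx) (by omega)
  have hne : g x ≠ par338 hd o x := by
    intro e
    rw [← e] at hp
    omega
  have h2 := star338 hd o (d (g x) (par338 hd o x)) (g x) (par338 hd o x) rfl hne (by omega)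
  rw [← map_par338 hd g hg o ho hox] at h2
  rw [hd.symm (par338 hd o x) (g x)] at h2
  rw [hd.symm (g x) x] at h1
  omega

include hd hg ho in
theorem even_disp338 : ∀ (n : ℕ) (x : V), d o x = n → Even (d x (g x)) := by
  intro n
  induction n using Nat.strong_induction_on with
  | _ n ih =>
    intro x hx
    by_cases hfx : g x = x
    · rw [hfx, (hd.eq_zero x x).2 rfl]; exact Even.zero
    · have hox : o ≠ x := by
        intro e; subst e; exact hfx ho
      have hp := par338_depth hd o hox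
      have := ih (d o (par338 hd o x)) (by omega) (par338 hd o x) rfl
      rw [disp_step338 hd g hg o ho hfx]
      exact this.add even_two

end Fixed

end Fermat.Agent.LT.H338

end
-- ===== PACK-END LT/H338/TreeDist.lean

-- ===== PACK-BEGIN LT/T6/H439/RadInt1Core.lean
section


/-!
# Row LT, tower T6, leaf T6.20a.8 `RadInt1C626`: the calculus core (helper439, OFF-MAIN)

Mathlib only.  For `Φ` continuous, `Φ = 0` on `(R, ∞)`, and `A, α, β > 0`:

  `∫∫ Φ(√(A² + α x² + β v²)) / (A² + α x²) dv dx = (2π / (A √(αβ))) ∫_{X > A} Φ(X) dX`.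

Proof: scaling `x ↦ x/√α`, `v ↦ v/√β`; Fubini; polar coordinates (`integral_comp_polarCoord_symm`);
`∫_{-π}^{π} dθ / (A² + r² cos² θ) = 2π / (A √(A² + r²))` (`t = tan θ`);
`X = √(A² + r²)`.
-/

set_option autoImplicit false

open MeasureTheory Set Real

noncomputable section

namespace Fermat.Agent.LT.T6.H439

/-! ## The angular integral -/

/-- `∫_ℝ dt / (A² t² + c²) = π / (A c)`. -/
theorem rad_integral_inv439 {A c : ℝ} (hA : 0 < A) (hc : 0 < c) :
    ∫ t : ℝ, (A ^ 2 * t ^ 2 + c ^ 2)⁻¹ = π / (A * c) := by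
  have h := Measure.integral_comp_mul_left (fun y : ℝ => (1 + y ^ 2)⁻¹) (A / c)
  rw [integral_univ_inv_one_add_sq] at h
  have e : ∀ t : ℝ, (A ^ 2 * t ^ 2 + c ^ 2)⁻¹ = (c ^ 2)⁻¹ * (1 + (A / c * t) ^ 2)⁻¹ := by
    intro t
    have : 0 < A ^ 2 * t ^ 2 + c ^ 2 := by positivity
    field_simp
    ring
  simp_rw [e]
  rw [MeasureTheory.integral_const_mul, h, abs_of_pos (by positivity), smul_eq_mul]
  field_simp

/-- `∫_{-π/2}^{π/2} dθ / (A² + r² cos² θ) = π / (A √(A² + r²))`. -/
theorem rad_theta_half439 {A : ℝ} (hA : 0 < A) (r : ℝ) :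
    ∫ θ in Ioo (-(π / 2)) (π / 2), (A ^ 2 + r ^ 2 * cos θ ^ 2)⁻¹
      = π / (A * √(A ^ 2 + r ^ 2)) := by
  have hc : 0 < √(A ^ 2 + r ^ 2) := Real.sqrt_pos.2 (by positivity)
  have h1 := integral_image_eq_integral_abs_deriv_smul (s := Ioo (-(π / 2)) (π / 2))
    (f := tan) (f' := fun θ => 1 / cos θ ^ 2) measurableSet_Ioo
    (fun θ hθ => (Real.hasDerivAt_tan (cos_pos_of_mem_Ioo hθ).ne').hasDerivWithinAt) injOn_tan
    (fun t : ℝ => (A ^ 2 * t ^ 2 + (√(A ^ 2 + r ^ 2)) ^ 2)⁻¹)
  rw [image_tan_Ioo, setIntegral_univ, rad_integral_inv439 hA hc] at h1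
  rw [h1]
  apply setIntegral_congr_fun measurableSet_Ioo
  intro θ hθ
  have hcos : 0 < cos θ := cos_pos_of_mem_Ioo hθ
  simp only [smul_eq_mul]
  rw [Real.sq_sqrt (by positivity), Real.tan_eq_sin_div_cos, abs_of_pos (by positivity)]
  have hs := Real.sin_sq_add_cos_sq θ
  have hs' : sin θ ^ 2 = 1 - cos θ ^ 2 := by linarith
  have h2 : 0 < A ^ 2 + r ^ 2 * cos θ ^ 2 := by positivity
  have h3 : A ^ 2 * (sin θ / cos θ) ^ 2 + (A ^ 2 + r ^ 2)
      = (A ^ 2 + r ^ 2 * cos θ ^ 2) / cos θ ^ 2 := by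
    field_simp
    rw [hs']
    ring
  rw [h3]
  field_simp

/-- `∫_{-π}^{π} dθ / (A² + r² cos² θ) = 2π / (A √(A² + r²))`. -/
theorem rad_theta439 {A : ℝ} (hA : 0 < A) (r : ℝ) :
    ∫ θ in Ioo (-π) π, (A ^ 2 + r ^ 2 * cos θ ^ 2)⁻¹ = 2 * π / (A * √(A ^ 2 + r ^ 2)) := by
  set g : ℝ → ℝ := fun θ => (A ^ 2 + r ^ 2 * cos θ ^ 2)⁻¹ with hg
  have hgc : Continuous g := by
    refine Continuous.inv₀ (by fun_prop) (fun θ => ?_)
    positivity
  have hper : Function.Periodic g π := by
    intro θ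
    simp only [hg, Real.cos_add_pi, neg_sq]
  have hint : ∀ a b : ℝ, IntervalIntegrable g volume a b := fun a b =>
    hgc.intervalIntegrable a b
  have e1 : ∫ θ in Ioo (-π) π, g θ = ∫ θ in (-π)..π, g θ := by
    rw [intervalIntegral.integral_of_le (by linarith [pi_pos]), integral_Ioc_eq_integral_Ioo]
  have e2 : ∫ θ in Ioo (-(π / 2)) (π / 2), g θ = ∫ θ in (-(π / 2))..(π / 2), g θ := by
    rw [intervalIntegral.integral_of_le (by linarith [pi_pos]), integral_Ioc_eq_integral_Ioo]
  have h3 : ∫ θ in (-π)..π, g θ = (∫ θ in (-π)..0, g θ) + ∫ θ in (0 : ℝ)..π, g θ :=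
    (intervalIntegral.integral_add_adjacent_intervals (hint _ _) (hint _ _)).symm
  have h4 : ∫ θ in (-π)..0, g θ = ∫ θ in (-(π / 2))..(π / 2), g θ := by
    have := hper.intervalIntegral_add_eq (-π) (-(π / 2))
    rw [show -π + π = 0 by ring, show -(π / 2) + π = π / 2 by ring] at this
    exact this
  have h5 : ∫ θ in (0 : ℝ)..π, g θ = ∫ θ in (-(π / 2))..(π / 2), g θ := by
    have := hper.intervalIntegral_add_eq 0 (-(π / 2))
    rw [show (0 : ℝ) + π = π by ring, show -(π / 2) + π = π / 2 by ring] at this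
    exact this
  rw [e1, h3, h4, h5, ← e2, rad_theta_half439 hA r]
  ring

/-! ## The radial substitution -/

/-- `∫_{X > A} Φ(X) dX = ∫_{r > 0} (r / √(A² + r²)) Φ(√(A² + r²)) dr`. -/
theorem rad_subst439 {A : ℝ} (hA : 0 < A) (Φ : ℝ → ℂ) :
    ∫ X in Ioi A, Φ X
      = ∫ r in Ioi (0 : ℝ), (r / √(A ^ 2 + r ^ 2)) • Φ (√(A ^ 2 + r ^ 2)) := by
  have himg : (fun r : ℝ => √(A ^ 2 + r ^ 2)) '' Ioi 0 = Ioi A := by
    ext X
    constructor
    · rintro ⟨r, hr, rfl⟩
      show A < √(A ^ 2 + r ^ 2)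
      rw [Real.lt_sqrt hA.le]
      have hr' : (0 : ℝ) < r := hr
      have : 0 < r ^ 2 := by positivity
      linarith
    · intro hX
      have hX' : A < X := hX
      have hpos : 0 < X ^ 2 - A ^ 2 := by nlinarith
      refine ⟨√(X ^ 2 - A ^ 2), Real.sqrt_pos.2 hpos, ?_⟩
      show √(A ^ 2 + √(X ^ 2 - A ^ 2) ^ 2) = X
      rw [Real.sq_sqrt hpos.le, add_sub_cancel, Real.sqrt_sq (by linarith)]
  have hinj : InjOn (fun r : ℝ => √(A ^ 2 + r ^ 2)) (Ioi 0) := by
    intro r₁ h₁ r₂ h₂ h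
    have h' : A ^ 2 + r₁ ^ 2 = A ^ 2 + r₂ ^ 2 := by
      have := congrArg (fun x : ℝ => x ^ 2) h
      simp only at this
      rwa [Real.sq_sqrt (by positivity), Real.sq_sqrt (by positivity)] at this
    have h1 : (0 : ℝ) < r₁ := h₁
    have h2 : (0 : ℝ) < r₂ := h₂
    have h3 : r₁ ^ 2 = r₂ ^ 2 := by linarith
    have h4 : (r₁ - r₂) * (r₁ + r₂) = 0 := by linear_combination h3
    rcases mul_eq_zero.1 h4 with h5 | h5
    · linarith
    · linarith
  have hder : ∀ r ∈ Ioi (0 : ℝ), HasDerivWithinAt (fun r : ℝ => √(A ^ 2 + r ^ 2))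
      (r / √(A ^ 2 + r ^ 2)) (Ioi 0) r := by
    intro r _
    have h0 : A ^ 2 + r ^ 2 ≠ 0 := by positivity
    have h1 : HasDerivAt (fun r : ℝ => A ^ 2 + r ^ 2) (2 * r) r := by
      simpa using ((hasDerivAt_pow 2 r).const_add (A ^ 2))
    have h2 := h1.sqrt h0
    have e : 2 * r / (2 * √(A ^ 2 + r ^ 2)) = r / √(A ^ 2 + r ^ 2) := by
      rw [mul_div_mul_left _ _ two_ne_zero]
    rw [e] at h2
    exact h2.hasDerivWithinAt
  have h := integral_image_eq_integral_abs_deriv_smul measurableSet_Ioi hder hinj Φ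
  rw [himg] at h
  rw [h]
  apply setIntegral_congr_fun measurableSet_Ioi
  intro r hr
  have hr' : (0 : ℝ) < r := hr
  have hs : 0 < √(A ^ 2 + r ^ 2) := Real.sqrt_pos.2 (by positivity)
  simp only
  rw [abs_of_pos (by positivity)]

/-! ## The integrand on `ℝ²` -/

/-- `F(x, v) = Φ(√(A² + x² + v²)) / (A² + x²)`. -/
def radF439 (Φ : ℝ → ℂ) (A : ℝ) (p : ℝ × ℝ) : ℂ :=
  Φ (√(A ^ 2 + p.1 ^ 2 + p.2 ^ 2)) / ((A ^ 2 + p.1 ^ 2 : ℝ) : ℂ)

/-- The integrand in polar coordinates (with the Jacobian). -/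
def radG439 (Φ : ℝ → ℂ) (A : ℝ) (q : ℝ × ℝ) : ℂ :=
  (q.1 • Φ (√(A ^ 2 + q.1 ^ 2))) * (((A ^ 2 + q.1 ^ 2 * cos q.2 ^ 2)⁻¹ : ℝ) : ℂ)

theorem continuous_radF439 {Φ : ℝ → ℂ} (hΦ : Continuous Φ) {A : ℝ} (hA : 0 < A) :
    Continuous (radF439 Φ A) := by
  unfold radF439
  refine Continuous.div (by fun_prop) (by fun_prop) (fun p => ?_)
  have : 0 < A ^ 2 + p.1 ^ 2 := by positivity
  exact Complex.ofReal_ne_zero.2 this.ne'

theorem rad_sqrt_gt439 {R r y : ℝ} (hr : |R| < |r|) (hy : r ^ 2 ≤ y) : R < √y := by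
  have h1 : |r| ≤ √y := by
    rw [← Real.sqrt_sq_eq_abs]
    exact Real.sqrt_le_sqrt hy
  exact lt_of_le_of_lt (le_abs_self R) (lt_of_lt_of_le hr h1)

theorem hasCompactSupport_radF439 {Φ : ℝ → ℂ} {R : ℝ} (hR : ∀ X : ℝ, R < X → Φ X = 0)
    (A : ℝ) : HasCompactSupport (radF439 Φ A) := by
  refine HasCompactSupport.intro (isCompact_closedBall (0 : ℝ × ℝ) |R|) (fun p hp => ?_)
  rw [Metric.mem_closedBall, dist_zero_right, not_le] at hp
  rw [Prod.norm_def, lt_max_iff, Real.norm_eq_abs, Real.norm_eq_abs] at hp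
  unfold radF439
  rcases hp with h | h
  · rw [hR _ (rad_sqrt_gt439 h (by nlinarith [sq_nonneg A, sq_nonneg p.2])), zero_div]
  · rw [hR _ (rad_sqrt_gt439 h (by nlinarith [sq_nonneg A, sq_nonneg p.1])), zero_div]

theorem integrable_radF439 {Φ : ℝ → ℂ} (hΦ : Continuous Φ) {R : ℝ}
    (hR : ∀ X : ℝ, R < X → Φ X = 0) {A : ℝ} (hA : 0 < A) :
    Integrable (radF439 Φ A) :=
  (continuous_radF439 hΦ hA).integrable_of_hasCompactSupport (hasCompactSupport_radF439 hR A)

theorem radF_polar439 (Φ : ℝ → ℂ) (A : ℝ) (q : ℝ × ℝ) :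
    q.1 • radF439 Φ A (polarCoord.symm q) = radG439 Φ A q := by
  rw [polarCoord_symm_apply]
  unfold radF439 radG439
  have e1 : A ^ 2 + (q.1 * cos q.2) ^ 2 + (q.1 * sin q.2) ^ 2 = A ^ 2 + q.1 ^ 2 := by
    have := Real.sin_sq_add_cos_sq q.2
    linear_combination (q.1 ^ 2) * this
  simp only [e1]
  rw [div_eq_mul_inv, Complex.ofReal_inv, mul_pow, smul_mul_assoc]

theorem continuous_radG439 {Φ : ℝ → ℂ} (hΦ : Continuous Φ) {A : ℝ} (hA : 0 < A) :
    Continuous (radG439 Φ A) := by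
  unfold radG439
  have h1 : Continuous (fun q : ℝ × ℝ => (A ^ 2 + q.1 ^ 2 * cos q.2 ^ 2)⁻¹) :=
    Continuous.inv₀ (by fun_prop) (fun q => by positivity)
  have h2 : Continuous (fun q : ℝ × ℝ => Φ (√(A ^ 2 + q.1 ^ 2))) := by fun_prop
  exact (continuous_fst.smul h2).mul (Complex.continuous_ofReal.comp h1)

theorem integrableOn_radG439 {Φ : ℝ → ℂ} (hΦ : Continuous Φ) {R : ℝ}
    (hR : ∀ X : ℝ, R < X → Φ X = 0) {A : ℝ} (hA : 0 < A) :
    IntegrableOn (radG439 Φ A) (Ioi (0 : ℝ) ×ˢ Ioo (-π) π) := by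
  have hK : IsCompact (Icc (0 : ℝ) |R| ×ˢ Icc (-π) π) := isCompact_Icc.prod isCompact_Icc
  have h1 : IntegrableOn (radG439 Φ A) (Icc (0 : ℝ) |R| ×ˢ Icc (-π) π) :=
    (continuous_radG439 hΦ hA).continuousOn.integrableOn_compact hK
  refine h1.of_forall_sdiff_eq_zero (measurableSet_Ioi.prod measurableSet_Ioo) (fun q hq => ?_)
  obtain ⟨hq1, hq2⟩ := hq
  have hq0 : (0 : ℝ) < q.1 := hq1.1
  have hr : |R| < q.1 := by
    by_contra hcon
    exact hq2 ⟨⟨hq0.le, not_lt.1 hcon⟩, ⟨hq1.2.1.le, hq1.2.2.le⟩⟩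
  unfold radG439
  rw [hR _ (rad_sqrt_gt439 (r := q.1) (by rwa [abs_of_pos hq0]) (by nlinarith [sq_nonneg A])),
    smul_zero, zero_mul]

/-! ## The radial integral -/

/-- `∫∫ Φ(√(A² + x² + v²)) / (A² + x²) = (2π / A) ∫_{X > A} Φ`. -/
theorem rad_main439 {Φ : ℝ → ℂ} (hΦ : Continuous Φ) {R : ℝ}
    (hR : ∀ X : ℝ, R < X → Φ X = 0) {A : ℝ} (hA : 0 < A) :
    ∫ p : ℝ × ℝ, radF439 Φ A p = ((2 * π / A : ℝ) : ℂ) * ∫ X in Ioi A, Φ X := by
  rw [← integral_comp_polarCoord_symm]
  simp_rw [radF_polar439]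
  rw [polarCoord_target, Measure.volume_eq_prod,
    setIntegral_prod _ (integrableOn_radG439 hΦ hR hA)]
  have inner : ∀ r ∈ Ioi (0 : ℝ), ∫ θ in Ioo (-π) π, radG439 Φ A (r, θ)
      = ((2 * π / A : ℝ) : ℂ) * ((r / √(A ^ 2 + r ^ 2)) • Φ (√(A ^ 2 + r ^ 2))) := by
    intro r _
    unfold radG439
    simp only
    have hθ : ∫ θ in Ioo (-π) π, (((A ^ 2 + r ^ 2 * cos θ ^ 2)⁻¹ : ℝ) : ℂ)
        = ((2 * π / (A * √(A ^ 2 + r ^ 2)) : ℝ) : ℂ) := by
      rw [← rad_theta439 hA r]
      exact integral_ofReal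
    rw [MeasureTheory.integral_const_mul, hθ]
    have hs : 0 < √(A ^ 2 + r ^ 2) := Real.sqrt_pos.2 (by positivity)
    have hs' : ((√(A ^ 2 + r ^ 2) : ℝ) : ℂ) ≠ 0 := Complex.ofReal_ne_zero.2 hs.ne'
    have hA' : ((A : ℝ) : ℂ) ≠ 0 := Complex.ofReal_ne_zero.2 hA.ne'
    simp only [Complex.real_smul]
    push_cast
    field_simp
  rw [setIntegral_congr_fun measurableSet_Ioi inner, MeasureTheory.integral_const_mul,
    ← rad_subst439 hA Φ]

/-- Scaling of the two variables. -/
theorem rad_scale439 (F : ℝ × ℝ → ℂ) (hF : Integrable F) {a b : ℝ} (ha : 0 < a) (hb : 0 < b) :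
    ∫ x : ℝ, ∫ v : ℝ, F (a * x, b * v) = ((1 / (a * b) : ℝ) : ℂ) * ∫ p : ℝ × ℝ, F p := by
  have h1 : ∀ x : ℝ, ∫ v : ℝ, F (a * x, b * v) = |b⁻¹| • ∫ v : ℝ, F (a * x, v) := fun x =>
    Measure.integral_comp_mul_left (fun v => F (a * x, v)) b
  simp_rw [h1]
  rw [integral_smul]
  have h2 := Measure.integral_comp_mul_left (fun x => ∫ v : ℝ, F (x, v)) a
  rw [h2, Measure.volume_eq_prod, integral_prod F hF, abs_of_pos (inv_pos.2 ha),
    abs_of_pos (inv_pos.2 hb), smul_smul, Complex.real_smul]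
  congr 2
  field_simp

/-- **The radial integral with weight `1 / (A² + α x²)`** (the statement of `RadInt1C626`). -/
theorem radInt1_core439 (Φ : ℝ → ℂ) (hΦ : Continuous Φ)
    (hR : ∃ R : ℝ, ∀ X : ℝ, R < X → Φ X = 0) (A α β : ℝ) (hA : 0 < A) (hα : 0 < α)
    (hβ : 0 < β) :
    (∫ x : ℝ, ∫ v : ℝ, Φ (Real.sqrt (A ^ 2 + α * x ^ 2 + β * v ^ 2)) /
          ((A ^ 2 + α * x ^ 2 : ℝ) : ℂ))
        = ((2 * Real.pi / (A * Real.sqrt (α * β)) : ℝ) : ℂ) * ∫ X in Set.Ioi A, Φ X := by
  obtain ⟨R, hR⟩ := hR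
  have e : ∀ x v : ℝ, Φ (√(A ^ 2 + α * x ^ 2 + β * v ^ 2)) / ((A ^ 2 + α * x ^ 2 : ℝ) : ℂ)
      = radF439 Φ A (√α * x, √β * v) := by
    intro x v
    unfold radF439
    simp only [mul_pow, Real.sq_sqrt hα.le, Real.sq_sqrt hβ.le]
  simp_rw [e]
  rw [rad_scale439 _ (integrable_radF439 hΦ hR hA) (Real.sqrt_pos.2 hα) (Real.sqrt_pos.2 hβ),
    rad_main439 hΦ hR hA, ← mul_assoc, ← Complex.ofReal_mul]
  congr 2
  rw [Real.sqrt_mul hα.le]
  field_simp

end Fermat.Agent.LT.T6.H439

end

end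
-- ===== PACK-END LT/T6/H439/RadInt1Core.lean

-- ===== PACK-BEGIN LT/T6/H517/Abel.lean
section


/-!
# Row LT, tower T6, P7 (archimedean matching `ℂ/ℝ`): the Abel transform (helper517), OFF-MAIN

`abelT517 F v = ∫_ℝ F (v + w²) dw` and its inverse `abelInv517 Q x = -(1/π) ∫_ℝ Q' (x + w²) dw`.
Mathlib only.
-/

set_option autoImplicit false
set_option linter.unusedSectionVars false

open MeasureTheory Real Set Filter Topology
open scoped ContDiff

noncomputable section

namespace Fermat.Agent.LT.T6.H517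

variable {E : Type*} [NormedAddCommGroup E] [NormedSpace ℝ E]

/-- The Abel transform `(𝒜F)(v) = ∫_ℝ F(v + w²) dw`. -/
def abelT517 (F : ℝ → E) (v : ℝ) : E := ∫ w : ℝ, F (v + w ^ 2)

/-- The inverse Abel transform `F(x) = -(1/π) ∫_ℝ Q'(x + w²) dw`. -/
def abelInv517 (Q : ℝ → E) (x : ℝ) : E := (-(1 / π)) • ∫ w : ℝ, deriv Q (x + w ^ 2)

/-- `G` vanishes on `[M, ∞)`. -/
def VanishesAbove517 (G : ℝ → E) (M : ℝ) : Prop := ∀ x : ℝ, M ≤ x → G x = 0

theorem sq_add_sq_ge_of_norm517 {p : ℝ × ℝ} {M : ℝ}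
    (hp : p ∉ Metric.closedBall (0 : ℝ × ℝ) (Real.sqrt (|M|) + 1)) : M ≤ p.1 ^ 2 + p.2 ^ 2 := by
  simp only [Metric.mem_closedBall, dist_zero_right, not_le] at hp
  have h1 : Real.sqrt (|M|) + 1 < max |p.1| |p.2| := by
    simpa [Prod.norm_def] using hp
  have h0 : 0 ≤ Real.sqrt (|M|) := Real.sqrt_nonneg _
  have h2 : |M| < (max |p.1| |p.2|) ^ 2 := by
    have : Real.sqrt (|M|) < max |p.1| |p.2| := by linarith
    have h3 := Real.sq_sqrt (abs_nonneg M)
    nlinarith
  have h4 : (max |p.1| |p.2|) ^ 2 ≤ p.1 ^ 2 + p.2 ^ 2 := by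
    rcases max_cases |p.1| |p.2| with ⟨h, _⟩ | ⟨h, _⟩
    · rw [h, sq_abs]; nlinarith [sq_nonneg p.2]
    · rw [h, sq_abs]; nlinarith [sq_nonneg p.1]
  have h5 : M ≤ |M| := le_abs_self _
  linarith

theorem hasCompactSupport_radial517 {G : ℝ → E} {M : ℝ} (hG : VanishesAbove517 G M)
    (g : ℝ → ℝ) :
    HasCompactSupport (fun p : ℝ × ℝ => g p.1 • G (p.1 ^ 2 + p.2 ^ 2)) := by
  apply HasCompactSupport.intro (K := Metric.closedBall (0 : ℝ × ℝ) (Real.sqrt (|M|) + 1))
    (isCompact_closedBall _ _)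
  intro p hp
  rw [hG _ (sq_add_sq_ge_of_norm517 hp), smul_zero]

/-- Polar coordinates for `∫∫ g(s) • G(s² + w²) ds dw`. -/
theorem integral_mul_radial517 [CompleteSpace E] {G : ℝ → E} (hGc : Continuous G) {M : ℝ}
    (hG : VanishesAbove517 G M) {g : ℝ → ℝ} (hg : Continuous g) :
    ∫ s : ℝ, g s • ∫ w : ℝ, G (s ^ 2 + w ^ 2)
      = ∫ r in Ioi (0 : ℝ), (r * ∫ θ in Ioo (-π) π, g (r * cos θ)) • G (r ^ 2) := by
  set f : ℝ × ℝ → E := fun p => g p.1 • G (p.1 ^ 2 + p.2 ^ 2) with hf
  have hfc : Continuous f := by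
    apply Continuous.smul
    · exact hg.comp continuous_fst
    · exact hGc.comp (by fun_prop)
  have hfi : Integrable f (volume.prod volume) := by
    rw [← Measure.volume_eq_prod]
    exact hfc.integrable_of_hasCompactSupport (hasCompactSupport_radial517 hG g)
  have h1 : ∫ s : ℝ, g s • ∫ w : ℝ, G (s ^ 2 + w ^ 2) = ∫ p : ℝ × ℝ, f p := by
    rw [Measure.volume_eq_prod, integral_prod f hfi]
    refine integral_congr_ae (Eventually.of_forall fun s => ?_)
    simp only [hf]
    rw [integral_smul]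
  rw [h1, ← integral_comp_polarCoord_symm f]
  -- the polar side
  set F' : ℝ × ℝ → E := fun q => q.1 • f (polarCoord.symm q) with hF'
  have hF'eq : ∀ q : ℝ × ℝ, F' q = (q.1 * g (q.1 * cos q.2)) • G (q.1 ^ 2) := by
    intro q
    simp only [hF', hf, polarCoord_symm_apply]
    have : (q.1 * cos q.2) ^ 2 + (q.1 * sin q.2) ^ 2 = q.1 ^ 2 := by
      have := Real.cos_sq_add_sin_sq q.2
      nlinarith
    rw [this, smul_smul]
  have hF'c : Continuous F' := by
    have : F' = fun q : ℝ × ℝ => (q.1 * g (q.1 * cos q.2)) • G (q.1 ^ 2) := funext hF'eq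
    rw [this]
    apply Continuous.smul
    · exact continuous_fst.mul (hg.comp (by fun_prop))
    · exact hGc.comp (by fun_prop)
  have hF'i : IntegrableOn F' (Ioi (0 : ℝ) ×ˢ Ioo (-π) π) (volume.prod volume) := by
    have hK : IntegrableOn F' (Icc (0 : ℝ) (Real.sqrt (|M|) + 1) ×ˢ Icc (-π) π)
        (volume.prod volume) := by
      rw [← Measure.volume_eq_prod]
      exact hF'c.continuousOn.integrableOn_compact (isCompact_Icc.prod isCompact_Icc)
    refine hK.of_forall_sdiff_eq_zero (measurableSet_Ioi.prod measurableSet_Ioo) ?_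
    rintro ⟨r, θ⟩ ⟨⟨hr, hθ⟩, hn⟩
    simp only [mem_Ioi, mem_Ioo] at hr hθ
    have hr2 : Real.sqrt (|M|) + 1 < r := by
      by_contra hcon
      exact hn ⟨⟨hr.le, not_lt.mp hcon⟩, ⟨hθ.1.le, hθ.2.le⟩⟩
    rw [hF'eq]
    have h0 : 0 ≤ Real.sqrt (|M|) := Real.sqrt_nonneg _
    have h3 := Real.sq_sqrt (abs_nonneg M)
    have : M ≤ r ^ 2 := by
      have h5 : M ≤ |M| := le_abs_self _
      nlinarith
    rw [hG _ this, smul_zero]
  have h2 : ∫ q in polarCoord.target, F' q
      = ∫ r in Ioi (0 : ℝ), ∫ θ in Ioo (-π) π, F' (r, θ) := by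
    rw [polarCoord_target, Measure.volume_eq_prod, setIntegral_prod F' hF'i]
  rw [h2]
  refine setIntegral_congr_fun measurableSet_Ioi fun r _ => ?_
  simp only [hF'eq]
  rw [integral_smul_const, integral_const_mul]

/-- The substitution `y = r²` on `(0, ∞)`. -/
theorem integral_Ioi_comp_sq517 (h : ℝ → E) :
    ∫ y in Ioi (0 : ℝ), h y = ∫ r in Ioi (0 : ℝ), (2 * r) • h (r ^ 2) := by
  have himg : (fun r : ℝ => r ^ 2) '' Ioi (0 : ℝ) = Ioi 0 := by
    ext y
    simp only [mem_image, mem_Ioi]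
    constructor
    · rintro ⟨r, hr, rfl⟩
      positivity
    · intro hy
      exact ⟨Real.sqrt y, Real.sqrt_pos.mpr hy, Real.sq_sqrt hy.le⟩
  have hinj : InjOn (fun r : ℝ => r ^ 2) (Ioi (0 : ℝ)) := by
    intro a ha b hb hab
    simp only [mem_Ioi] at ha hb
    have hab' : a ^ 2 = b ^ 2 := hab
    nlinarith [sq_nonneg (a - b), sq_nonneg (a + b)]
  have hder : ∀ r ∈ Ioi (0 : ℝ), HasDerivWithinAt (fun r : ℝ => r ^ 2) (2 * r) (Ioi 0) r := by
    intro r _
    have := (hasDerivAt_pow 2 r).hasDerivWithinAt (s := Ioi (0 : ℝ))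
    simpa using this
  have key := integral_image_eq_integral_abs_deriv_smul measurableSet_Ioi hder hinj h
  rw [himg] at key
  rw [key]
  refine setIntegral_congr_fun measurableSet_Ioi fun r hr => ?_
  simp only [mem_Ioi] at hr
  have : |2 * r| = 2 * r := abs_of_pos (by linarith)
  simp only [this]

/-- `∫∫ G(s² + w²) ds dw = π ∫_0^∞ G(y) dy`. -/
theorem integral_radial517 [CompleteSpace E] {G : ℝ → E} (hGc : Continuous G) {M : ℝ}
    (hG : VanishesAbove517 G M) :
    ∫ s : ℝ, ∫ w : ℝ, G (s ^ 2 + w ^ 2) = π • ∫ y in Ioi (0 : ℝ), G y := by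
  have h := integral_mul_radial517 hGc hG (g := fun _ => (1 : ℝ)) continuous_const
  simp only [one_smul] at h
  rw [h, integral_Ioi_comp_sq517 G, ← integral_smul]
  refine setIntegral_congr_fun measurableSet_Ioi fun r _ => ?_
  have hvol : ∫ θ in Ioo (-π) π, (1 : ℝ) = 2 * π := by
    rw [setIntegral_const]
    simp [Measure.real, Real.volume_Ioo, two_mul, Real.pi_pos.le]
  simp only [hvol, smul_smul]
  congr 1
  ring

theorem vanishesAbove_comp_add517 {G : ℝ → E} {M : ℝ} (hG : VanishesAbove517 G M) (v : ℝ) :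
    VanishesAbove517 (fun y => G (v + y)) (M - v) := by
  intro y hy
  exact hG _ (by linarith)

theorem vanishesAbove_deriv517 {Q : ℝ → E} {M : ℝ} (hQ : VanishesAbove517 Q M)
    (hc : Continuous (deriv Q)) : VanishesAbove517 (deriv Q) M := by
  have hopen : ∀ x, M < x → deriv Q x = 0 := by
    intro x hx
    have : Q =ᶠ[𝓝 x] fun _ => (0 : E) := by
      filter_upwards [Ioi_mem_nhds hx] with y hy
      exact hQ y (le_of_lt hy)
    rw [this.deriv_eq]
    simp
  intro x hx
  rcases hx.eq_or_lt with rfl | hlt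
  · have hcl : M ∈ closure (Ioi M) := by
      rw [closure_Ioi]; exact self_mem_Ici
    have : deriv Q M ∈ closure ({0} : Set E) := by
      refine map_mem_closure hc hcl ?_
      intro y hy
      simpa using hopen y hy
    simpa using this
  · exact hopen x hlt

/-- FTC: `∫_0^∞ Q'(v + y) dy = -Q(v)`. -/
theorem integral_Ioi_deriv517 [CompleteSpace E] {Q : ℝ → E} (hQ : ContDiff ℝ 1 Q) {M : ℝ}
    (hQM : VanishesAbove517 Q M) (v : ℝ) :
    ∫ y in Ioi (0 : ℝ), deriv Q (v + y) = - Q v := by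
  have hdc : Continuous (deriv Q) := hQ.continuous_deriv le_rfl
  have hd0 := vanishesAbove_deriv517 hQM hdc
  have hderiv : ∀ y ∈ Ici (0 : ℝ), HasDerivAt (fun y => Q (v + y)) (deriv Q (v + y)) y := by
    intro y _
    have h1 : HasDerivAt Q (deriv Q (v + y)) (v + y) :=
      (hQ.differentiable one_ne_zero (v + y)).hasDerivAt
    exact h1.comp_const_add v y
  have hint : IntegrableOn (fun y => deriv Q (v + y)) (Ioi (0 : ℝ)) := by
    have hK : IntegrableOn (fun y => deriv Q (v + y)) (Icc (0 : ℝ) (|M - v| + 1)) :=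
      (hdc.comp (by fun_prop : Continuous fun y : ℝ => v + y)).continuousOn.integrableOn_compact
        isCompact_Icc
    refine hK.of_forall_sdiff_eq_zero measurableSet_Ioi ?_
    rintro y ⟨hy, hn⟩
    simp only [mem_Ioi] at hy
    have : |M - v| + 1 < y := by
      by_contra hcon
      exact hn ⟨hy.le, not_lt.mp hcon⟩
    apply hd0
    have := le_abs_self (M - v)
    linarith
  have htend : Tendsto (fun y => Q (v + y)) atTop (𝓝 0) := by
    apply tendsto_const_nhds.congr'
    filter_upwards [eventually_ge_atTop (M - v)] with y hy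
    exact (hQM _ (by linarith)).symm
  rw [integral_Ioi_of_hasDerivAt_of_tendsto' hderiv hint htend]
  simp

/-- **Abel inversion.**  `𝒜 (𝒜⁻¹ Q) = Q` for `Q` of class `C¹` vanishing on `[M, ∞)`. -/
theorem abelT_abelInv517 [CompleteSpace E] {Q : ℝ → E} (hQ : ContDiff ℝ 1 Q) {M : ℝ}
    (hQM : VanishesAbove517 Q M) (v : ℝ) : abelT517 (abelInv517 Q) v = Q v := by
  have hdc : Continuous (deriv Q) := hQ.continuous_deriv le_rfl
  have hd0 := vanishesAbove_deriv517 hQM hdc
  have hG : VanishesAbove517 (fun y => deriv Q (v + y)) (M - v) := vanishesAbove_comp_add517 hd0 v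
  have hGc : Continuous fun y => deriv Q (v + y) := hdc.comp (by fun_prop)
  have h := integral_radial517 hGc hG
  rw [integral_Ioi_deriv517 hQ hQM v] at h
  simp only [abelT517, abelInv517]
  rw [integral_smul]
  have h2 : ∀ w w' : ℝ, v + w ^ 2 + w' ^ 2 = v + (w ^ 2 + w' ^ 2) := fun w w' => by ring
  simp only [h2]
  rw [h, smul_smul]
  have : -(1 / π) * π = -1 := by
    field_simp
  rw [this]
  simp

theorem vanishesAbove_abelT517 {G : ℝ → E} {M : ℝ} (hG : VanishesAbove517 G M) :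
    VanishesAbove517 (abelT517 G) M := by
  intro x hx
  simp only [abelT517]
  have : (fun w : ℝ => G (x + w ^ 2)) = fun _ => (0 : E) := by
    funext w
    exact hG _ (by nlinarith [sq_nonneg w])
  rw [this]
  simp

theorem vanishesAbove_abelInv517 {Q : ℝ → E} {M : ℝ} (hQ : VanishesAbove517 Q M)
    (hc : Continuous (deriv Q)) : VanishesAbove517 (abelInv517 Q) M := by
  intro x hx
  have h := vanishesAbove_abelT517 (vanishesAbove_deriv517 hQ hc) x hx
  simp only [abelT517] at h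
  simp only [abelInv517, h, smul_zero]

theorem integrable_comp_add_sq517 {G : ℝ → E} (hGc : Continuous G) {M : ℝ}
    (hG : VanishesAbove517 G M) (x : ℝ) : Integrable fun w : ℝ => G (x + w ^ 2) := by
  apply (hGc.comp (by fun_prop : Continuous fun w : ℝ => x + w ^ 2)).integrable_of_hasCompactSupport
  apply HasCompactSupport.intro (K := Icc (-(|M - x| + 1)) (|M - x| + 1)) isCompact_Icc
  intro w hw
  apply hG
  have h1 : |M - x| + 1 < |w| := by
    by_contra hcon
    exact hw (abs_le.mp (not_lt.mp hcon))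
  have h2 := le_abs_self (M - x)
  have h3 := abs_nonneg (M - x)
  have h4 : w ^ 2 = |w| ^ 2 := (sq_abs w).symm
  nlinarith

/-- Differentiation of the Abel transform under the integral sign. -/
theorem hasDerivAt_abelT517 [CompleteSpace E] {G : ℝ → E} (hG1 : ContDiff ℝ 1 G) {M : ℝ}
    (hG : VanishesAbove517 G M) (x₀ : ℝ) :
    HasDerivAt (abelT517 G) (abelT517 (deriv G) x₀) x₀ := by
  have hGc : Continuous G := hG1.continuous
  have hdc : Continuous (deriv G) := hG1.continuous_deriv le_rfl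
  have hd0 := vanishesAbove_deriv517 hG hdc
  set R : ℝ := |M - x₀| + 2 with hR
  have hRpos : 0 < R := by have := abs_nonneg (M - x₀); linarith
  obtain ⟨C, hC⟩ := (isCompact_Icc (a := x₀ - 1) (b := x₀ + 1 + R ^ 2)).exists_bound_of_continuousOn
    hdc.continuousOn
  set bound : ℝ → ℝ := (Icc (-R) R).indicator fun _ => C with hbound
  have key := hasDerivAt_integral_of_dominated_loc_of_deriv_le (μ := volume)
    (F := fun x w => G (x + w ^ 2)) (F' := fun x w => deriv G (x + w ^ 2)) (x₀ := x₀)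
    (s := Metric.ball x₀ 1) (bound := bound) (Metric.ball_mem_nhds x₀ one_pos)
    (Eventually.of_forall fun x =>
      (hGc.comp (by fun_prop : Continuous fun w : ℝ => x + w ^ 2)).aestronglyMeasurable)
    (integrable_comp_add_sq517 hGc hG x₀)
    (hdc.comp (by fun_prop : Continuous fun w : ℝ => x₀ + w ^ 2)).aestronglyMeasurable
    ?_ ?_ ?_
  · exact key.2
  · refine Eventually.of_forall fun w x hx => ?_
    rw [Metric.mem_ball, Real.dist_eq] at hx
    have hx' := abs_lt.mp hx
    by_cases hw : w ∈ Icc (-R) R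
    · simp only [hbound, indicator_of_mem hw]
      apply hC
      have hw2 : w ^ 2 ≤ R ^ 2 := by
        have := abs_le.mpr hw
        have h4 : w ^ 2 = |w| ^ 2 := (sq_abs w).symm
        have h5 := abs_nonneg w
        nlinarith
      constructor
      · nlinarith [sq_nonneg w]
      · linarith
    · simp only [hbound, indicator_of_notMem hw]
      have h1 : R < |w| := by
        by_contra hcon
        exact hw (abs_le.mp (not_lt.mp hcon))
      have : M ≤ x + w ^ 2 := by
        have h2 := le_abs_self (M - x₀)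
        have h3 := abs_nonneg (M - x₀)
        have h4 : w ^ 2 = |w| ^ 2 := (sq_abs w).symm
        nlinarith
      rw [hd0 _ this, norm_zero]
  · exact (integrable_indicator_iff measurableSet_Icc).mpr
      (integrableOn_const (by simp))
  · refine Eventually.of_forall fun w x _ => ?_
    have h1 : HasDerivAt G (deriv G (x + w ^ 2)) (x + w ^ 2) :=
      (hG1.differentiable one_ne_zero (x + w ^ 2)).hasDerivAt
    exact h1.comp_add_const x (w ^ 2)

theorem contDiff_nat_abelT517 [CompleteSpace E] (n : ℕ) :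
    ∀ {G : ℝ → E}, ContDiff ℝ ∞ G → ∀ {M : ℝ}, VanishesAbove517 G M →
      ContDiff ℝ n (abelT517 G) := by
  induction n with
  | zero =>
    intro G hG M hGM
    have hG1 : ContDiff ℝ 1 G := hG.of_le (by exact_mod_cast le_top)
    rw [Nat.cast_zero, contDiff_zero]
    exact continuous_iff_continuousAt.mpr fun x =>
      (hasDerivAt_abelT517 hG1 hGM x).continuousAt
  | succ n ih =>
    intro G hG M hGM
    have hG1 : ContDiff ℝ 1 G := hG.of_le (by exact_mod_cast le_top)
    have hd : ∀ x, HasDerivAt (abelT517 G) (abelT517 (deriv G) x) x :=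
      fun x => hasDerivAt_abelT517 hG1 hGM x
    have hderiv : deriv (abelT517 G) = abelT517 (deriv G) := funext fun x => (hd x).deriv
    have hdG : ContDiff ℝ ∞ (deriv G) := by
      have := (contDiff_infty_iff_deriv.mp hG).2
      exact this
    have hdc : Continuous (deriv G) := hG1.continuous_deriv le_rfl
    have hd0 := vanishesAbove_deriv517 hGM hdc
    rw [show ((n + 1 : ℕ) : WithTop ℕ∞) = (n : WithTop ℕ∞) + 1 by push_cast; rfl]
    rw [contDiff_succ_iff_deriv]
    refine ⟨fun x => (hd x).differentiableAt, ?_, ?_⟩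
    · intro h
      exfalso
      exact absurd h (by exact_mod_cast WithTop.coe_ne_top)
    · rw [hderiv]
      exact ih hdG hd0

theorem contDiff_abelT517 [CompleteSpace E] {G : ℝ → E} (hG : ContDiff ℝ ∞ G) {M : ℝ}
    (hGM : VanishesAbove517 G M) : ContDiff ℝ ∞ (abelT517 G) :=
  contDiff_infty.mpr fun n => contDiff_nat_abelT517 n hG hGM

theorem contDiff_abelInv517 [CompleteSpace E] {Q : ℝ → E} (hQ : ContDiff ℝ ∞ Q) {M : ℝ}
    (hQM : VanishesAbove517 Q M) : ContDiff ℝ ∞ (abelInv517 Q) := by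
  have hdQ : ContDiff ℝ ∞ (deriv Q) := (contDiff_infty_iff_deriv.mp hQ).2
  have hd0 := vanishesAbove_deriv517 hQM hdQ.continuous
  have h : abelInv517 Q = fun x => (-(1 / π)) • abelT517 (deriv Q) x := rfl
  rw [h]
  exact (contDiff_abelT517 hdQ hd0).const_smul _

end Fermat.Agent.LT.T6.H517

end

end
-- ===== PACK-END LT/T6/H517/Abel.lean

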