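import Mathlib
import Fermat.Agent.Pack.LT2.E21L0
import Fermat.Agent.Pack.LT2.E21L1

set_option linter.all false

-- ===== PACK-BEGIN LT/CFT/H266/SqOne.lean
section


/-!
# Row LT, tower CFT, sub-tower EX (existence at `2`), helper266, OFF-MAIN

Finite-level square classes (Mathlib only, reusable):
for a Dedekind domain `R`, a nonzero prime `P` with finite residue field and `2 ∉ P ^ (e + 1)`,
the equation `x ^ 2 = 1` has at most `2 * N(P) ^ e` solutions in `R ⧸ P ^ k` (every `k`),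
hence also in the unit group `(R ⧸ P ^ k)ˣ`, and the squares have index at most
`2 * N(P) ^ e` in `(R ⧸ P ^ k)ˣ`.
-/

set_option autoImplicit false

namespace Fermat.Agent.LT.CFT.H266

variable {R : Type*} [CommRing R] [IsDedekindDomain R]

/-- If `(a - 1) (a + 1) ∈ P ^ k` and `2 ∉ P ^ (e + 1)` then `a ≡ 1` or `a ≡ -1` modulo
`P ^ (k - e)`. -/
theorem sub_or_add_mem_pow266 (P : Ideal R) [P.IsPrime] (hP : P ≠ ⊥) (k e : ℕ)
    (h2 : (2 : R) ∉ P ^ (e + 1)) (a : R) (ha : (a - 1) * (a + 1) ∈ P ^ k) :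
    a - 1 ∈ P ^ (k - e) ∨ a + 1 ∈ P ^ (k - e) := by
  have hprime : Prime P := Ideal.prime_of_isPrime hP inferInstance
  have hmem : ∀ (x : R) (n : ℕ),
      x ∈ P ^ n ↔ (n : ℕ∞) ≤ emultiplicity P (Ideal.span {x}) := by
    intro x n
    rw [← pow_dvd_iff_le_emultiplicity, Ideal.dvd_span_singleton]
  have hk : (k : ℕ∞) ≤
      emultiplicity P (Ideal.span {a - 1}) + emultiplicity P (Ideal.span {a + 1}) := by
    rw [← emultiplicity_mul hprime, Ideal.span_singleton_mul_span_singleton, ← hmem]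
    exact ha
  have key : ∀ m₁ m₂ : ℕ∞, (k : ℕ∞) ≤ m₁ + m₂ → ¬ ((e + 1 : ℕ) : ℕ∞) ≤ m₂ →
      ((k - e : ℕ) : ℕ∞) ≤ m₁ := by
    intro m₁ m₂ h h'
    have h3 : m₂ ≤ (e : ℕ∞) := by
      rw [not_le] at h'
      have : m₂ < (e : ℕ∞) + 1 := by exact_mod_cast h'
      exact (ENat.lt_add_one_iff (ENat.natCast_ne_top e)).mp this
    have h4 : (k : ℕ∞) ≤ m₁ + e := h.trans (by gcongr)
    rw [ENat.natCast_sub]
    exact tsub_le_iff_right.mpr h4
  by_cases h1 : a + 1 ∈ P ^ (e + 1)
  · have h3 : a - 1 ∉ P ^ (e + 1) := fun h => h2 (by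
      have h5 := Ideal.sub_mem _ h1 h
      have h4 : (a + 1) - (a - 1) = 2 := by ring
      rwa [h4] at h5)
    right
    rw [hmem] at h3 ⊢
    exact key _ _ (by rwa [add_comm] at hk) h3
  · left
    rw [hmem] at h1 ⊢
    exact key _ _ hk h1

/-- `R ⧸ P ^ k` is finite when `R ⧸ P` is. -/
theorem finite_quot_pow266 (P : Ideal R) [P.IsPrime] (hP : P ≠ ⊥) [Finite (R ⧸ P)] (k : ℕ) :
    Finite (R ⧸ P ^ k) := by
  have h1 : Submodule.cardQuot (P ^ k) = Submodule.cardQuot P ^ k := cardQuot_pow_of_prime hP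
  have h2 : Nat.card (R ⧸ P ^ k) = Nat.card (R ⧸ P) ^ k := h1
  have h3 : Nat.card (R ⧸ P ^ k) ≠ 0 := by
    rw [h2]
    exact pow_ne_zero _ Nat.card_pos.ne'
  exact Nat.finite_of_card_ne_zero h3

/-- The image of `P ^ (k - e)` in `R ⧸ P ^ k` has at most `N(P) ^ e` elements. -/
theorem card_map_pow_le266 (P : Ideal R) [P.IsPrime] (hP : P ≠ ⊥) [Finite (R ⧸ P)]
    (k e : ℕ) :
    Nat.card (Submodule.map (P ^ k).mkQ (P ^ (k - e))) ≤ Nat.card (R ⧸ P) ^ e := by
  have hle : P ^ k ≤ P ^ (k - e) := Ideal.pow_le_pow_right (Nat.sub_le k e)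
  have h := Submodule.card_quotient_mul_card_quotient (P ^ (k - e)) (P ^ k) hle
  have h1 : Nat.card (R ⧸ P ^ k) = Nat.card (R ⧸ P) ^ k :=
    cardQuot_pow_of_prime (P := P) hP (i := k)
  have h2 : Nat.card (R ⧸ P ^ (k - e)) = Nat.card (R ⧸ P) ^ (k - e) :=
    cardQuot_pow_of_prime (P := P) hP (i := k - e)
  have hN : 0 < Nat.card (R ⧸ P) := Nat.card_pos
  rw [h1, h2] at h
  have h5 : Nat.card (R ⧸ P) ^ k ≤ Nat.card (R ⧸ P) ^ e * Nat.card (R ⧸ P) ^ (k - e) := by
    rw [← pow_add]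
    exact Nat.pow_le_pow_right hN (by omega)
  rw [← h] at h5
  exact Nat.le_of_mul_le_mul_right h5 (pow_pos hN _)

/-- **Square roots of one at finite level**: at most `2 * N(P) ^ e` solutions of `x ^ 2 = 1`
in `R ⧸ P ^ k` when `2 ∉ P ^ (e + 1)`. -/
theorem card_sq_eq_one_le266 (P : Ideal R) [P.IsPrime] (hP : P ≠ ⊥) [Finite (R ⧸ P)]
    (k e : ℕ) (h2 : (2 : R) ∉ P ^ (e + 1)) :
    Nat.card {x : R ⧸ P ^ k // x ^ 2 = 1} ≤ 2 * Nat.card (R ⧸ P) ^ e := by
  classical
  have := finite_quot_pow266 P hP k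
  set J : Submodule R (R ⧸ P ^ k) := Submodule.map (P ^ k).mkQ (P ^ (k - e)) with hJ
  have hsub : {x : R ⧸ P ^ k | x ^ 2 = 1} ⊆
      (fun j => 1 + j) '' (J : Set (R ⧸ P ^ k)) ∪ (fun j => -1 + j) '' (J : Set (R ⧸ P ^ k)) := by
    intro x hx
    obtain ⟨a, rfl⟩ := Ideal.Quotient.mk_surjective x
    have ha : (a - 1) * (a + 1) ∈ P ^ k := by
      rw [← Ideal.Quotient.eq_zero_iff_mem]
      have hx' : (Ideal.Quotient.mk (P ^ k) a) ^ 2 = 1 := hx
      have : (a - 1) * (a + 1) = a ^ 2 - 1 := by ring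
      rw [this, map_sub, map_pow, map_one, hx', sub_self]
    rcases sub_or_add_mem_pow266 P hP k e h2 a ha with h | h
    · left
      refine ⟨(P ^ k).mkQ (a - 1), Submodule.mem_map_of_mem h, ?_⟩
      simp
    · right
      refine ⟨(P ^ k).mkQ (a + 1), Submodule.mem_map_of_mem h, ?_⟩
      simp
  have hcard : Nat.card {x : R ⧸ P ^ k // x ^ 2 = 1} =
      Set.ncard {x : R ⧸ P ^ k | x ^ 2 = 1} := rfl
  rw [hcard]
  calc Set.ncard {x : R ⧸ P ^ k | x ^ 2 = 1}
      ≤ Set.ncard ((fun j => 1 + j) '' (J : Set (R ⧸ P ^ k)) ∪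
          (fun j => -1 + j) '' (J : Set (R ⧸ P ^ k))) :=
        Set.ncard_le_ncard hsub (Set.toFinite _)
    _ ≤ Set.ncard ((fun j => 1 + j) '' (J : Set (R ⧸ P ^ k))) +
          Set.ncard ((fun j => -1 + j) '' (J : Set (R ⧸ P ^ k))) := Set.ncard_union_le _ _
    _ ≤ Set.ncard (J : Set (R ⧸ P ^ k)) + Set.ncard (J : Set (R ⧸ P ^ k)) :=
        add_le_add (Set.ncard_image_le (Set.toFinite _)) (Set.ncard_image_le (Set.toFinite _))
    _ = 2 * Nat.card J := by
        have : Set.ncard (J : Set (R ⧸ P ^ k)) = Nat.card J := rfl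
        rw [this]; ring
    _ ≤ 2 * Nat.card (R ⧸ P) ^ e :=
        Nat.mul_le_mul_left 2 (card_map_pow_le266 P hP k e)

/-- The same bound in the unit group. -/
theorem card_units_sq_eq_one_le266 (P : Ideal R) [P.IsPrime] (hP : P ≠ ⊥) [Finite (R ⧸ P)]
    (k e : ℕ) (h2 : (2 : R) ∉ P ^ (e + 1)) :
    Nat.card {x : (R ⧸ P ^ k)ˣ // x ^ 2 = 1} ≤ 2 * Nat.card (R ⧸ P) ^ e := by
  have := finite_quot_pow266 P hP k
  refine le_trans ?_ (card_sq_eq_one_le266 P hP k e h2)
  refine Nat.card_le_card_of_injective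
    (fun x : {x : (R ⧸ P ^ k)ˣ // x ^ 2 = 1} =>
      (⟨(x.1 : R ⧸ P ^ k), by
        have := congrArg Units.val x.2
        simpa using this⟩ : {x : R ⧸ P ^ k // x ^ 2 = 1})) ?_
  intro x y hxy
  have h := congrArg Subtype.val hxy
  exact Subtype.ext (Units.ext h)

/-- In a finite commutative group the squares have index equal to the number of solutions of
`x ^ 2 = 1`. -/
theorem index_sq_eq_card266 (G : Type*) [CommGroup G] [Finite G] :
    (powMonoidHom 2 : G →* G).range.index = Nat.card {x : G // x ^ 2 = 1} := by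
  have h1 := Subgroup.index_ker (powMonoidHom 2 : G →* G)
  have h2 := Subgroup.card_mul_index (powMonoidHom 2 : G →* G).ker
  have h3 := Subgroup.card_mul_index (powMonoidHom 2 : G →* G).range
  have hker : Nat.card (powMonoidHom 2 : G →* G).ker = Nat.card {x : G // x ^ 2 = 1} := by
    refine Nat.card_congr (Equiv.subtypeEquivRight ?_)
    intro x
    simp [MonoidHom.mem_ker]
  rw [← hker]
  have hpos : 0 < Nat.card (powMonoidHom 2 : G →* G).range := Nat.card_pos
  rw [h1] at h2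
  have : Nat.card (powMonoidHom 2 : G →* G).range * (powMonoidHom 2 : G →* G).range.index =
      Nat.card (powMonoidHom 2 : G →* G).range * Nat.card (powMonoidHom 2 : G →* G).ker := by
    rw [h3, mul_comm, h2]
  exact Nat.eq_of_mul_eq_mul_left hpos this

/-- **Finite-level square classes**: the squares have index at most `2 * N(P) ^ e` in
`(R ⧸ P ^ k)ˣ` when `2 ∉ P ^ (e + 1)`. -/
theorem index_sq_units_le266 (P : Ideal R) [P.IsPrime] (hP : P ≠ ⊥) [Finite (R ⧸ P)]
    (k e : ℕ) (h2 : (2 : R) ∉ P ^ (e + 1)) :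
    (powMonoidHom 2 : (R ⧸ P ^ k)ˣ →* (R ⧸ P ^ k)ˣ).range.index ≤
      2 * Nat.card (R ⧸ P) ^ e := by
  have := finite_quot_pow266 P hP k
  rw [index_sq_eq_card266]
  exact card_units_sq_eq_one_le266 P hP k e h2

end Fermat.Agent.LT.CFT.H266

end
-- ===== PACK-END LT/CFT/H266/SqOne.lean

-- ===== PACK-BEGIN LT/T6/H189/ArchIntSpec.lean
section


/-!
# Row LT, tower T6, leaf T6.23 `ArchInt` -- SPEC (owner helper189)

OFF-MAIN.  Definitions and frozen Props only, Mathlib only.  No hole, nothing assumed.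

INTEGRATION FORMULAS (Iwasawa and polar) on `GL₂(ℝ)` (component `det > 0`) and on `GL₂(ℂ)` for an
ARBITRARY Haar measure, as IDENTITIES OF MEASURES (so that every integral / lower integral formula
follows by `integral_map`, `lintegral_map`, Fubini):

* `IwasawaRC` : `μ|_{det > 0} = c • (iwaR)_* (du₁ du₂ dx dθ)`, `iwaR (u₁, u₂, x, θ) = diag(e^{u₁}, e^{u₂}) n(x) k_θ`,
  `θ ∈ (0, 2π]`;
* `PolarRC`   : `μ|_{det > 0} = c • (polR)_* (dr dθ₁ (sinh t dt) dθ₂)`,
  `polR (r, θ₁, t, θ₂) = e^r k_{θ₁} diag(e^{t/2}, e^{-t/2}) k_{θ₂}`, `t > 0`, `θ₁, θ₂ ∈ (0, 2π]`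
  (each element is hit twice: `(θ₁ + π, θ₂ + π)`; the constant absorbs it);
* `U2HaarC`   : there is a probability measure `κ` on `GL₂(ℂ)` carried by `U(2)`, invariant under left and right
  translations by `U(2)` and under inversion (`IsU2Haar κ`; it is unique);
* `IwasawaCC` : `μ' = c • (iwaC)_* (du₁ du₂ dw dκ)`, `iwaC (u₁, u₂, w, k) = diag(e^{u₁}, e^{u₂}) n(w) k`;
* `PolarCC`   : `μ' = c • (polC)_* (dr dκ (sinh² d dd) dκ)`, `polC (r, k, d, k') = e^r k diag(e^{d/2}, e^{-d/2}) k'`.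
* `RightInvRC`, `RightInvCC` : every Haar measure of `GL₂(ℝ)`, `GL₂(ℂ)` is right invariant and inversion invariant.

The other component of `GL₂(ℝ)`: `μ|_{det < 0}` is the image of `μ|_{det > 0}` under `g ↦ epsR * g`
(left invariance), `epsR = diag(-1, 1)`.

Conventions: `k_θ = !![cos θ, -sin θ; sin θ, cos θ]` (as `wtChar` of `T6/SpecArch.lean`),
`n(x) = !![1, x; 0, 1]`; the σ-algebra of `GL₂` is `borel _`, passed explicitly as in `T6/SpecArch.lean`.
-/

set_option autoImplicit false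

open MeasureTheory
open scoped Matrix ENNReal

noncomputable section

namespace Fermat.Agent.LT.T6.H189

/-! ## 1. The real group -/

/-- `diag(e^{u₁}, e^{u₂}) ∈ GL₂(ℝ)`. -/
def dgR (u₁ u₂ : ℝ) : GL (Fin 2) ℝ :=
  Matrix.GeneralLinearGroup.mkOfDetNeZero !![Real.exp u₁, 0; 0, Real.exp u₂]
    (by simp [Matrix.det_fin_two, Real.exp_ne_zero])

/-- `n(x) = !![1, x; 0, 1] ∈ GL₂(ℝ)`. -/
def unR (x : ℝ) : GL (Fin 2) ℝ :=
  Matrix.GeneralLinearGroup.mkOfDetNeZero !![1, x; 0, 1] (by simp [Matrix.det_fin_two])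

/-- The rotation `k_θ = !![cos θ, -sin θ; sin θ, cos θ] ∈ SO(2)`. -/
def rotR (θ : ℝ) : GL (Fin 2) ℝ :=
  Matrix.GeneralLinearGroup.mkOfDetNeZero
    !![Real.cos θ, -Real.sin θ; Real.sin θ, Real.cos θ]
    (by
      have h := Real.cos_sq_add_sin_sq θ
      simp only [Matrix.det_fin_two_of]
      intro h0
      nlinarith [h, h0])

/-- `epsR = diag(-1, 1)`. -/
def epsR : GL (Fin 2) ℝ :=
  Matrix.GeneralLinearGroup.mkOfDetNeZero !![-1, 0; 0, 1] (by simp [Matrix.det_fin_two])

/-- The positive scalar `e^r`. -/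
def sclR (r : ℝ) : GL (Fin 2) ℝ := dgR r r

/-- `a_t = diag(e^{t/2}, e^{-t/2})`. -/
def atR (t : ℝ) : GL (Fin 2) ℝ := dgR (t / 2) (-(t / 2))

/-- The Iwasawa parametrisation `(u₁, u₂, x, θ) ↦ diag(e^{u₁}, e^{u₂}) n(x) k_θ`. -/
def iwaR (p : ℝ × ℝ × ℝ × ℝ) : GL (Fin 2) ℝ := dgR p.1 p.2.1 * unR p.2.2.1 * rotR p.2.2.2

/-- The polar parametrisation `(r, θ₁, t, θ₂) ↦ e^r k_{θ₁} a_t k_{θ₂}`. -/
def polR (p : ℝ × ℝ × ℝ × ℝ) : GL (Fin 2) ℝ := sclR p.1 * rotR p.2.1 * atR p.2.2.1 * rotR p.2.2.2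

/-- The measure `dθ` on `(0, 2π]`. -/
def angM : Measure ℝ := volume.restrict (Set.Ioc 0 (2 * Real.pi))

/-- The measure `sinh t dt` on `(0, ∞)`. -/
def radMR : Measure ℝ :=
  (volume.restrict (Set.Ioi (0 : ℝ))).withDensity fun t => ENNReal.ofReal (Real.sinh t)

/-- The measure `sinh² d dd` on `(0, ∞)`. -/
def radMC : Measure ℝ :=
  (volume.restrict (Set.Ioi (0 : ℝ))).withDensity fun t => ENNReal.ofReal (Real.sinh t ^ 2)

/-- The measure `du₁ du₂ dx dθ` of the Iwasawa coordinates. -/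
def iwaMR : Measure (ℝ × ℝ × ℝ × ℝ) := volume.prod (volume.prod (volume.prod angM))

/-- The measure `dr dθ₁ (sinh t dt) dθ₂` of the polar coordinates. -/
def polMR : Measure (ℝ × ℝ × ℝ × ℝ) := volume.prod (angM.prod (radMR.prod angM))

/-- The component `det > 0` of `GL₂(ℝ)`. -/
def posR : Set (GL (Fin 2) ℝ) := {g | 0 < (g : Matrix (Fin 2) (Fin 2) ℝ).det}

/-- **T6.23 (a): the Iwasawa integration formula on `GL₂(ℝ)⁺`.** -/
def IwasawaRC : Prop :=
  ∀ μ : @Measure (GL (Fin 2) ℝ) (borel _), @Measure.IsHaarMeasure _ _ _ (borel _) μ →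
    ∃ c : ℝ≥0∞, c ≠ 0 ∧ c ≠ ⊤ ∧
      @Measure.restrict _ (borel _) μ posR = c • @Measure.map _ _ _ (borel _) iwaR iwaMR

/-- **T6.23 (b): the polar integration formula on `GL₂(ℝ)⁺`.** -/
def PolarRC : Prop :=
  ∀ μ : @Measure (GL (Fin 2) ℝ) (borel _), @Measure.IsHaarMeasure _ _ _ (borel _) μ →
    ∃ c : ℝ≥0∞, c ≠ 0 ∧ c ≠ ⊤ ∧
      @Measure.restrict _ (borel _) μ posR = c • @Measure.map _ _ _ (borel _) polR polMR

/-- **T6.23 (e): `GL₂(ℝ)` is unimodular**: every Haar measure is right invariant and inversion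
invariant. -/
def RightInvRC : Prop :=
  ∀ μ : @Measure (GL (Fin 2) ℝ) (borel _), @Measure.IsHaarMeasure _ _ _ (borel _) μ →
    (∀ g : GL (Fin 2) ℝ, @Measure.map _ _ (borel _) (borel _) (fun x => x * g) μ = μ) ∧
      @Measure.map _ _ (borel _) (borel _) (fun x : GL (Fin 2) ℝ => x⁻¹) μ = μ

/-! ## 2. The complex group -/

/-- `diag(e^{u₁}, e^{u₂}) ∈ GL₂(ℂ)` (`u₁, u₂` real). -/
def dgC (u₁ u₂ : ℝ) : GL (Fin 2) ℂ :=
  Matrix.GeneralLinearGroup.mkOfDetNeZero !![(Real.exp u₁ : ℂ), 0; 0, (Real.exp u₂ : ℂ)]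
    (by
      simp only [Matrix.det_fin_two_of, mul_zero, sub_zero]
      exact mul_ne_zero (by exact_mod_cast Real.exp_ne_zero u₁)
        (by exact_mod_cast Real.exp_ne_zero u₂))

/-- `n(w) = !![1, w; 0, 1] ∈ GL₂(ℂ)`. -/
def unC (w : ℂ) : GL (Fin 2) ℂ :=
  Matrix.GeneralLinearGroup.mkOfDetNeZero !![1, w; 0, 1] (by simp [Matrix.det_fin_two])

/-- The positive scalar `e^r` in `GL₂(ℂ)`. -/
def sclC (r : ℝ) : GL (Fin 2) ℂ := dgC r r

/-- `a_d = diag(e^{d/2}, e^{-d/2})` in `GL₂(ℂ)`. -/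
def atC (d : ℝ) : GL (Fin 2) ℂ := dgC (d / 2) (-(d / 2))

/-- `U(2)` as a subset of `GL₂(ℂ)`. -/
def U2 : Set (GL (Fin 2) ℂ) :=
  {k | (k : Matrix (Fin 2) (Fin 2) ℂ) * (k : Matrix (Fin 2) (Fin 2) ℂ).conjTranspose = 1}

/-- `κ` is THE Haar probability measure of `U(2)`, as a measure on `GL₂(ℂ)`. -/
structure IsU2Haar (κ : @Measure (GL (Fin 2) ℂ) (borel _)) : Prop where
  prob : κ Set.univ = 1
  supp : κ U2ᶜ = 0
  left : ∀ k ∈ U2, @Measure.map _ _ (borel _) (borel _) (fun x => k * x) κ = κ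
  right : ∀ k ∈ U2, @Measure.map _ _ (borel _) (borel _) (fun x => x * k) κ = κ
  inv : @Measure.map _ _ (borel _) (borel _) (fun x : GL (Fin 2) ℂ => x⁻¹) κ = κ

/-- The Iwasawa parametrisation `(u₁, u₂, w, k) ↦ diag(e^{u₁}, e^{u₂}) n(w) k`. -/
def iwaC (p : ℝ × ℝ × ℂ × GL (Fin 2) ℂ) : GL (Fin 2) ℂ := dgC p.1 p.2.1 * unC p.2.2.1 * p.2.2.2

/-- The polar parametrisation `(r, k, d, k') ↦ e^r k a_d k'`. -/
def polC (p : ℝ × GL (Fin 2) ℂ × ℝ × GL (Fin 2) ℂ) : GL (Fin 2) ℂ :=
  sclC p.1 * p.2.1 * atC p.2.2.1 * p.2.2.2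

/-- The measure `du₁ du₂ dw dκ` of the Iwasawa coordinates (Borel σ-algebra on `GL₂(ℂ)`). -/
def iwaMC (κ : @Measure (GL (Fin 2) ℂ) (borel _)) :
    @Measure (ℝ × ℝ × ℂ × GL (Fin 2) ℂ)
      (@Prod.instMeasurableSpace _ _ _ (@Prod.instMeasurableSpace _ _ _
        (@Prod.instMeasurableSpace _ _ _ (borel _)))) :=
  letI : MeasurableSpace (GL (Fin 2) ℂ) := borel _
  (volume : Measure ℝ).prod ((volume : Measure ℝ).prod ((volume : Measure ℂ).prod κ))

/-- The measure `dr dκ (sinh² d dd) dκ` of the polar coordinates. -/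
def polMC (κ : @Measure (GL (Fin 2) ℂ) (borel _)) :
    @Measure (ℝ × GL (Fin 2) ℂ × ℝ × GL (Fin 2) ℂ)
      (@Prod.instMeasurableSpace _ _ _ (@Prod.instMeasurableSpace _ _ (borel _)
        (@Prod.instMeasurableSpace _ _ _ (borel _)))) :=
  letI : MeasurableSpace (GL (Fin 2) ℂ) := borel _
  (volume : Measure ℝ).prod (κ.prod (radMC.prod κ))

/-- **T6.23 (c0): the Haar probability measure of `U(2)` exists.** -/
def U2HaarC : Prop := ∃ κ : @Measure (GL (Fin 2) ℂ) (borel _), IsU2Haar κ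

/-- **T6.23 (c): the Iwasawa integration formula on `GL₂(ℂ)`.** -/
def IwasawaCC : Prop :=
  ∀ κ : @Measure (GL (Fin 2) ℂ) (borel _), IsU2Haar κ →
  ∀ μ : @Measure (GL (Fin 2) ℂ) (borel _), @Measure.IsHaarMeasure _ _ _ (borel _) μ →
    ∃ c : ℝ≥0∞, c ≠ 0 ∧ c ≠ ⊤ ∧
      μ = c • @Measure.map _ _
        (@Prod.instMeasurableSpace _ _ _ (@Prod.instMeasurableSpace _ _ _
          (@Prod.instMeasurableSpace _ _ _ (borel _)))) (borel _) iwaC (iwaMC κ)

/-- **T6.23 (d): the polar integration formula on `GL₂(ℂ)`.** -/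
def PolarCC : Prop :=
  ∀ κ : @Measure (GL (Fin 2) ℂ) (borel _), IsU2Haar κ →
  ∀ μ : @Measure (GL (Fin 2) ℂ) (borel _), @Measure.IsHaarMeasure _ _ _ (borel _) μ →
    ∃ c : ℝ≥0∞, c ≠ 0 ∧ c ≠ ⊤ ∧
      μ = c • @Measure.map _ _
        (@Prod.instMeasurableSpace _ _ _ (@Prod.instMeasurableSpace _ _ (borel _)
          (@Prod.instMeasurableSpace _ _ _ (borel _)))) (borel _) polC (polMC κ)

/-- **T6.23 (e'): `GL₂(ℂ)` is unimodular.** -/
def RightInvCC : Prop :=
  ∀ μ : @Measure (GL (Fin 2) ℂ) (borel _), @Measure.IsHaarMeasure _ _ _ (borel _) μ →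
    (∀ g : GL (Fin 2) ℂ, @Measure.map _ _ (borel _) (borel _) (fun x => x * g) μ = μ) ∧
      @Measure.map _ _ (borel _) (borel _) (fun x : GL (Fin 2) ℂ => x⁻¹) μ = μ

/-! ## 3. The output of the leaf -/

/-- **The output of T6.23.** -/
structure ArchIntOut : Prop where
  iwaR : IwasawaRC
  polR : PolarRC
  invR : RightInvRC
  haarU : U2HaarC
  iwaC : IwasawaCC
  polC : PolarCC
  invC : RightInvCC

end Fermat.Agent.LT.T6.H189

end

end
-- ===== PACK-END LT/T6/H189/ArchIntSpec.lean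

-- ===== PACK-BEGIN LT/T6/H673/IwGroup.lean
section


/-!
# Row LT, tower T6, leaf T6.29.I1 `IwasawaIntRC` (helper673), part 1: the group `B⁺` in coordinates

OFF-MAIN, Mathlib only.  The group `B⁺` of the matrices
`e^{ζ/2} [[e^{r/2}, e^{r/2} x], [0, e^{-r/2}]]` in the coordinates `((ζ, r), x)`:

    ((ζ₀, r₀), x₀) * ((ζ, r), x) = ((ζ₀ + ζ, r₀ + r), e^{-r} x₀ + x).

It is a locally compact, second countable topological group, and the Lebesgue measure
`dζ dr dx` is a left Haar measure of it (`isHaar_volBP673`).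
-/

set_option autoImplicit false

open MeasureTheory

noncomputable section

namespace Fermat.Agent.LT.T6.H673

/-- The coordinates `((ζ, r), x)` of the group `B⁺`. -/
def BP673 : Type := (ℝ × ℝ) × ℝ

namespace BP673

/-- The element with the coordinates `((ζ, r), x)`. -/
def mk (ζ r x : ℝ) : BP673 := ((ζ, r), x)

/-- The coordinate `ζ`. -/
def zt (p : BP673) : ℝ := (show (ℝ × ℝ) × ℝ from p).1.1

/-- The coordinate `r`. -/
def rr (p : BP673) : ℝ := (show (ℝ × ℝ) × ℝ from p).1.2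

/-- The coordinate `x`. -/
def xx (p : BP673) : ℝ := (show (ℝ × ℝ) × ℝ from p).2

@[ext] theorem ext {p q : BP673} (h1 : p.zt = q.zt) (h2 : p.rr = q.rr) (h3 : p.xx = q.xx) :
    p = q :=
  Prod.ext (Prod.ext h1 h2) h3

@[simp] theorem zt_mk (ζ r x : ℝ) : (mk ζ r x).zt = ζ := rfl
@[simp] theorem rr_mk (ζ r x : ℝ) : (mk ζ r x).rr = r := rfl
@[simp] theorem xx_mk (ζ r x : ℝ) : (mk ζ r x).xx = x := rfl

theorem mk_eta (p : BP673) : mk p.zt p.rr p.xx = p := rfl

instance : Mul BP673 :=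
  ⟨fun p q => mk (p.zt + q.zt) (p.rr + q.rr) (Real.exp (-q.rr) * p.xx + q.xx)⟩

instance : One BP673 := ⟨mk 0 0 0⟩

instance : Inv BP673 := ⟨fun p => mk (-p.zt) (-p.rr) (-(Real.exp p.rr * p.xx))⟩

@[simp] theorem zt_mul (p q : BP673) : (p * q).zt = p.zt + q.zt := rfl
@[simp] theorem rr_mul (p q : BP673) : (p * q).rr = p.rr + q.rr := rfl
@[simp] theorem xx_mul (p q : BP673) : (p * q).xx = Real.exp (-q.rr) * p.xx + q.xx := rfl
@[simp] theorem zt_one : (1 : BP673).zt = 0 := rfl
@[simp] theorem rr_one : (1 : BP673).rr = 0 := rfl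
@[simp] theorem xx_one : (1 : BP673).xx = 0 := rfl
@[simp] theorem zt_inv (p : BP673) : (p⁻¹).zt = -p.zt := rfl
@[simp] theorem rr_inv (p : BP673) : (p⁻¹).rr = -p.rr := rfl
@[simp] theorem xx_inv (p : BP673) : (p⁻¹).xx = -(Real.exp p.rr * p.xx) := rfl

instance : Group BP673 :=
  Group.ofLeftAxioms
    (by
      intro p q s
      ext
      · simp [add_assoc]
      · simp [add_assoc]
      · simp only [xx_mul, rr_mul, neg_add, Real.exp_add]
        ring)
    (by
      intro p
      ext <;> simp)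
    (by
      intro p
      ext
      · simp
      · simp
      · simp only [xx_mul, xx_inv, xx_one]
        rw [mul_neg, ← mul_assoc, ← Real.exp_add, neg_add_cancel, Real.exp_zero, one_mul,
          neg_add_cancel])

instance : TopologicalSpace BP673 := inferInstanceAs (TopologicalSpace ((ℝ × ℝ) × ℝ))
instance : T2Space BP673 := inferInstanceAs (T2Space ((ℝ × ℝ) × ℝ))
instance : LocallyCompactSpace BP673 := inferInstanceAs (LocallyCompactSpace ((ℝ × ℝ) × ℝ))
instance : SecondCountableTopology BP673 :=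
  inferInstanceAs (SecondCountableTopology ((ℝ × ℝ) × ℝ))
instance : MeasurableSpace BP673 := inferInstanceAs (MeasurableSpace ((ℝ × ℝ) × ℝ))
instance : BorelSpace BP673 := inferInstanceAs (BorelSpace ((ℝ × ℝ) × ℝ))

theorem continuous_zt : Continuous zt := continuous_fst.comp continuous_fst
theorem continuous_rr : Continuous rr := continuous_snd.comp continuous_fst
theorem continuous_xx : Continuous xx := continuous_snd

theorem continuous_mk {X : Type*} [TopologicalSpace X] {f g h : X → ℝ} (hf : Continuous f)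
    (hg : Continuous g) (hh : Continuous h) : Continuous fun t => mk (f t) (g t) (h t) :=
  (hf.prodMk hg).prodMk hh

theorem measurable_mk {X : Type*} [MeasurableSpace X] {f g h : X → ℝ} (hf : Measurable f)
    (hg : Measurable g) (hh : Measurable h) : Measurable fun t => mk (f t) (g t) (h t) :=
  (hf.prodMk hg).prodMk hh

instance : IsTopologicalGroup BP673 where
  continuous_mul := by
    have h1 : Continuous fun pq : BP673 × BP673 => pq.1 := continuous_fst
    have h2 : Continuous fun pq : BP673 × BP673 => pq.2 := continuous_snd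
    exact continuous_mk ((continuous_zt.comp h1).add (continuous_zt.comp h2))
      ((continuous_rr.comp h1).add (continuous_rr.comp h2))
      (((Real.continuous_exp.comp (continuous_rr.comp h2).neg).mul (continuous_xx.comp h1)).add
        (continuous_xx.comp h2))
  continuous_inv :=
    continuous_mk continuous_zt.neg continuous_rr.neg
      ((Real.continuous_exp.comp continuous_rr).mul continuous_xx).neg

end BP673

/-- The Lebesgue measure `dζ dr dx` on `B⁺`. -/
def volBP673 : Measure BP673 := (volume : Measure ((ℝ × ℝ) × ℝ))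

instance : IsFiniteMeasureOnCompacts volBP673 :=
  inferInstanceAs (IsFiniteMeasureOnCompacts (volume : Measure ((ℝ × ℝ) × ℝ)))

instance : Measure.IsOpenPosMeasure volBP673 :=
  inferInstanceAs (Measure.IsOpenPosMeasure (volume : Measure ((ℝ × ℝ) × ℝ)))

instance : SFinite volBP673 :=
  inferInstanceAs (SFinite (volume : Measure ((ℝ × ℝ) × ℝ)))

/-- Left translations of `B⁺` preserve the Lebesgue measure (translation and shear). -/
theorem measurePreserving_mul_left673 (p : BP673) :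
    MeasurePreserving (fun q : BP673 => p * q) volBP673 volBP673 := by
  have h1 : MeasurePreserving (fun q : ℝ × ℝ => (p.zt + q.1, p.rr + q.2))
      (volume : Measure (ℝ × ℝ)) (volume : Measure (ℝ × ℝ)) := by
    have := (measurePreserving_add_left (volume : Measure (ℝ × ℝ)) (p.zt, p.rr))
    exact this
  have h2 : Measurable (Function.uncurry fun (q : ℝ × ℝ) (x : ℝ) =>
      Real.exp (-q.2) * p.xx + x) := by
    unfold Function.uncurry
    fun_prop
  have h3 : ∀ᵐ q : ℝ × ℝ ∂(volume : Measure (ℝ × ℝ)),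
      Measure.map (fun x : ℝ => Real.exp (-q.2) * p.xx + x) (volume : Measure ℝ)
        = (volume : Measure ℝ) := by
    refine Filter.Eventually.of_forall fun q => ?_
    exact (measurePreserving_add_left (volume : Measure ℝ) (Real.exp (-q.2) * p.xx)).map_eq
  have h4 := MeasurePreserving.skew_product (μc := (volume : Measure ℝ))
    (μd := (volume : Measure ℝ)) h1 h2 h3
  exact h4

instance : Measure.IsMulLeftInvariant volBP673 :=
  ⟨fun p => (measurePreserving_mul_left673 p).map_eq⟩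

instance isHaar_volBP673 : Measure.IsHaarMeasure volBP673 := {}

end Fermat.Agent.LT.T6.H673

end

end
-- ===== PACK-END LT/T6/H673/IwGroup.lean

-- ===== PACK-BEGIN LT/T6/H964/Hadamard.lean
section


/-!
# Row LT, tower T6, leaf T6.24 (part 3): Hadamard's lemma and the even Taylor expansion
(helper964, OFF-MAIN, Mathlib only)

* `hadI964 j f t = ∫₀¹ τ^j f(τ t) dτ`; `hasDerivAt_hadI964` (`(hadI j f)' = hadI (j+1) f'`),
  `contDiff_hadI964`;
* `hadamard964` : `f t = f 0 + t * hadI 0 f' t`;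
* `even_decomp964` : a smooth even `F` is `F 0 + t² c(t)` with `c` smooth and even;
* `even_taylor964` : for every `M`, `F t = p(t²) + t^(2M) G(t)` with `p`, `G` smooth.
-/

set_option autoImplicit false

open MeasureTheory Set Filter Topology
open scoped ContDiff

noncomputable section

namespace Fermat.Agent.LT.T6.H964

/-- `hadI964 j f t = ∫₀¹ τ^j f(τ t) dτ`. -/
def hadI964 (j : ℕ) (f : ℝ → ℂ) (t : ℝ) : ℂ := ∫ τ in (0 : ℝ)..1, (τ : ℂ) ^ j * f (τ * t)

theorem continuous_hadI964 (j : ℕ) {f : ℝ → ℂ} (hf : Continuous f) :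
    Continuous (hadI964 j f) := by
  have h := intervalIntegral.continuous_parametric_intervalIntegral_of_continuous'
    (μ := volume) (f := fun (t : ℝ) (τ : ℝ) => (τ : ℂ) ^ j * f (τ * t))
    (by unfold Function.uncurry; fun_prop) 0 1
  exact h

theorem exists_bound_Icc964 {f : ℝ → ℂ} (hf : Continuous f) (c : ℝ) :
    ∃ C : ℝ, ∀ x, |x| ≤ c → ‖f x‖ ≤ C := by
  obtain ⟨C, hC⟩ := (isCompact_Icc (a := -c) (b := c)).exists_bound_of_continuousOn
    hf.continuousOn
  exact ⟨C, fun x hx => hC x (abs_le.mp hx)⟩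

/-- `(hadI j f)' = hadI (j+1) f'`. -/
theorem hasDerivAt_hadI964 (j : ℕ) {f : ℝ → ℂ} (hf : ContDiff ℝ 1 f) (t₀ : ℝ) :
    HasDerivAt (hadI964 j f) (hadI964 (j + 1) (deriv f) t₀) t₀ := by
  have hf' : Continuous (deriv f) := hf.continuous_deriv le_rfl
  have hfc : Continuous f := hf.continuous
  obtain ⟨C, hC⟩ := exists_bound_Icc964 hf' (|t₀| + 1)
  have key := intervalIntegral.hasDerivAt_integral_of_dominated_loc_of_deriv_le (μ := volume)
    (a := (0 : ℝ)) (b := 1)
    (F := fun (t : ℝ) (τ : ℝ) => (τ : ℂ) ^ j * f (τ * t))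
    (F' := fun (t : ℝ) (τ : ℝ) => (τ : ℂ) ^ (j + 1) * deriv f (τ * t)) (x₀ := t₀)
    (bound := fun _ => C) (s := Metric.ball t₀ 1) (Metric.ball_mem_nhds t₀ one_pos)
    (Eventually.of_forall fun t =>
      (by fun_prop : Continuous fun τ : ℝ => (τ : ℂ) ^ j * f (τ * t)).aestronglyMeasurable)
    ((by fun_prop : Continuous fun τ : ℝ => (τ : ℂ) ^ j * f (τ * t₀)).intervalIntegrable 0 1)
    ((by fun_prop : Continuous fun τ : ℝ =>
      (τ : ℂ) ^ (j + 1) * deriv f (τ * t₀)).aestronglyMeasurable)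
    (Eventually.of_forall fun τ hτ t ht => by
      rw [uIoc_of_le zero_le_one] at hτ
      have hτ0 : 0 ≤ τ := hτ.1.le
      have hτ1 : τ ≤ 1 := hτ.2
      have ht' : |t| ≤ |t₀| + 1 := by
        rw [Metric.mem_ball, Real.dist_eq] at ht
        have := abs_sub_abs_le_abs_sub t t₀
        linarith
      have h1 : |τ * t| ≤ |t₀| + 1 := by
        rw [abs_mul, abs_of_nonneg hτ0]
        calc τ * |t| ≤ 1 * |t| := mul_le_mul_of_nonneg_right hτ1 (abs_nonneg t)
          _ = |t| := one_mul _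
          _ ≤ |t₀| + 1 := ht'
      have h2 : ‖(τ : ℂ) ^ (j + 1)‖ ≤ 1 := by
        rw [norm_pow, Complex.norm_real, Real.norm_eq_abs, abs_of_nonneg hτ0]
        exact pow_le_one₀ hτ0 hτ1
      calc ‖(τ : ℂ) ^ (j + 1) * deriv f (τ * t)‖
          = ‖(τ : ℂ) ^ (j + 1)‖ * ‖deriv f (τ * t)‖ := norm_mul _ _
        _ ≤ 1 * C := mul_le_mul h2 (hC _ h1) (norm_nonneg _) zero_le_one
        _ = C := one_mul _)
    intervalIntegrable_const
    (Eventually.of_forall fun τ _ t _ => by
      have h1 : HasDerivAt f (deriv f (τ * t)) (τ * t) :=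
        (hf.differentiable one_ne_zero (τ * t)).hasDerivAt
      have h2 : HasDerivAt (fun t : ℝ => τ * t) τ t := by
        simpa using (hasDerivAt_id t).const_mul τ
      have h3 := h1.scomp t h2
      have h4 : HasDerivAt (fun t : ℝ => (τ : ℂ) ^ j * f (τ * t))
          ((τ : ℂ) ^ j * (τ • deriv f (τ * t))) t := h3.const_mul ((τ : ℂ) ^ j)
      refine h4.congr_deriv ?_
      rw [Complex.real_smul, pow_succ]
      ring)
  exact key.2

theorem differentiable_hadI964 (j : ℕ) {f : ℝ → ℂ} (hf : ContDiff ℝ 1 f) :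
    Differentiable ℝ (hadI964 j f) :=
  fun t => (hasDerivAt_hadI964 j hf t).differentiableAt

theorem deriv_hadI964 (j : ℕ) {f : ℝ → ℂ} (hf : ContDiff ℝ 1 f) :
    deriv (hadI964 j f) = hadI964 (j + 1) (deriv f) :=
  funext fun t => (hasDerivAt_hadI964 j hf t).deriv

theorem contDiff_hadI_nat964 (n : ℕ) : ∀ (j : ℕ) {f : ℝ → ℂ}, ContDiff ℝ n f →
    ContDiff ℝ n (hadI964 j f) := by
  induction n with
  | zero =>
    intro j f hf
    rw [Nat.cast_zero, contDiff_zero] at hf ⊢
    exact continuous_hadI964 j hf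
  | succ n ih =>
    intro j f hf
    have h1 : ContDiff ℝ 1 f := hf.of_le (by norm_cast; omega)
    rw [Nat.cast_succ] at hf ⊢
    rw [contDiff_succ_iff_deriv] at hf ⊢
    refine ⟨differentiable_hadI964 j h1, fun hω => ?_, ?_⟩
    · exact absurd hω (by simp)
    · rw [deriv_hadI964 j h1]
      exact ih (j + 1) hf.2.2

theorem contDiff_hadI964 (j : ℕ) {f : ℝ → ℂ} (hf : ContDiff ℝ ∞ f) :
    ContDiff ℝ ∞ (hadI964 j f) :=
  contDiff_infty.mpr fun n => contDiff_hadI_nat964 n j (hf.of_le (by exact_mod_cast le_top))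

/-- **Hadamard's lemma**: `f t = f 0 + t * ∫₀¹ f'(τ t) dτ`. -/
theorem hadamard964 {f : ℝ → ℂ} (hf : ContDiff ℝ 1 f) (t : ℝ) :
    f t = f 0 + (t : ℂ) * hadI964 0 (deriv f) t := by
  have hf' : Continuous (deriv f) := hf.continuous_deriv le_rfl
  have hderiv : ∀ τ ∈ uIcc (0 : ℝ) 1,
      HasDerivAt (fun τ : ℝ => f (τ * t)) ((t : ℂ) * deriv f (τ * t)) τ := by
    intro τ _
    have h1 : HasDerivAt f (deriv f (τ * t)) (τ * t) :=
      (hf.differentiable one_ne_zero (τ * t)).hasDerivAt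
    have h2 : HasDerivAt (fun τ : ℝ => τ * t) t τ := by
      simpa using (hasDerivAt_id τ).mul_const t
    have h3 := h1.scomp τ h2
    rwa [Complex.real_smul] at h3
  have hint : IntervalIntegrable (fun τ : ℝ => (t : ℂ) * deriv f (τ * t)) volume 0 1 :=
    (by fun_prop : Continuous fun τ : ℝ => (t : ℂ) * deriv f (τ * t)).intervalIntegrable 0 1
  have key := intervalIntegral.integral_eq_sub_of_hasDerivAt hderiv hint
  rw [intervalIntegral.integral_const_mul] at key
  unfold hadI964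
  simp only [pow_zero, one_mul]
  rw [key]
  simp

/-! ## Parity -/

/-- `F` is even. -/
def IsEven964 (F : ℝ → ℂ) : Prop := ∀ t, F (-t) = F t

/-- `F` is odd. -/
def IsOdd964 (F : ℝ → ℂ) : Prop := ∀ t, F (-t) = -F t

theorem isOdd_deriv964 {F : ℝ → ℂ} (h : IsEven964 F) : IsOdd964 (deriv F) := by
  intro t
  have e : (fun x : ℝ => F (-x)) = F := funext h
  have h1 := deriv_comp_neg F (-t)
  rw [e, neg_neg] at h1
  rw [h1]

theorem isEven_deriv964 {F : ℝ → ℂ} (h : IsOdd964 F) : IsEven964 (deriv F) := by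
  intro t
  have e : (fun x : ℝ => F (-x)) = fun x => -F x := funext h
  have h1 := deriv_comp_neg F t
  rw [e] at h1
  have h2 : deriv (fun x => -F x) t = -deriv F t := by
    simp
  rw [h2] at h1
  exact neg_injective h1.symm

theorem IsOdd964.zero {F : ℝ → ℂ} (h : IsOdd964 F) : F 0 = 0 := by
  have := h 0
  rw [neg_zero] at this
  have h2 : (2 : ℂ) * F 0 = 0 := by linear_combination this
  simpa using h2

theorem isEven_hadI964 {F : ℝ → ℂ} (h : IsEven964 F) (j : ℕ) : IsEven964 (hadI964 j F) := by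
  intro t
  unfold hadI964
  congr 1
  funext τ
  rw [mul_neg, h]

theorem isOdd_hadI964 {F : ℝ → ℂ} (h : IsOdd964 F) (j : ℕ) : IsOdd964 (hadI964 j F) := by
  intro t
  unfold hadI964
  rw [← intervalIntegral.integral_neg]
  congr 1
  funext τ
  rw [mul_neg, h]
  ring

theorem contDiff_deriv_infty964 {F : ℝ → ℂ} (hF : ContDiff ℝ ∞ F) : ContDiff ℝ ∞ (deriv F) :=
  (contDiff_infty_iff_deriv.mp hF).2

/-- A smooth even function is `F 0 + t² c(t)` with `c` smooth and even. -/
theorem even_decomp964 {F : ℝ → ℂ} (hF : ContDiff ℝ ∞ F) (he : IsEven964 F) :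
    ∃ c : ℝ → ℂ, ContDiff ℝ ∞ c ∧ IsEven964 c ∧ ∀ t : ℝ, F t = F 0 + (t : ℂ) ^ 2 * c t := by
  have hF1 : ContDiff ℝ 1 F := hF.of_le (by exact_mod_cast le_top)
  have hF' : ContDiff ℝ ∞ (deriv F) := contDiff_deriv_infty964 hF
  set b : ℝ → ℂ := hadI964 0 (deriv F) with hb
  have hbs : ContDiff ℝ ∞ b := contDiff_hadI964 0 hF'
  have hbo : IsOdd964 b := isOdd_hadI964 (isOdd_deriv964 he) 0
  have hb1 : ContDiff ℝ 1 b := hbs.of_le (by exact_mod_cast le_top)
  have hb' : ContDiff ℝ ∞ (deriv b) := contDiff_deriv_infty964 hbs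
  refine ⟨hadI964 0 (deriv b), contDiff_hadI964 0 hb', isEven_hadI964 (isEven_deriv964 hbo) 0,
    fun t => ?_⟩
  have h1 := hadamard964 hF1 t
  have h2 := hadamard964 hb1 t
  rw [hbo.zero, zero_add] at h2
  rw [h1, ← hb, h2]
  ring

/-- **Even Taylor expansion**: for every `M`, a smooth even `F` is `p(t²) + t^(2M) G(t)` with
`p` and `G` smooth. -/
theorem even_taylor964 (M : ℕ) : ∀ {F : ℝ → ℂ}, ContDiff ℝ ∞ F → IsEven964 F →
    ∃ p G : ℝ → ℂ, ContDiff ℝ ∞ p ∧ ContDiff ℝ ∞ G ∧ IsEven964 G ∧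
      ∀ t : ℝ, F t = p (t ^ 2) + (t : ℂ) ^ (2 * M) * G t := by
  induction M with
  | zero =>
    intro F hF he
    exact ⟨fun _ => 0, F, contDiff_const, hF, he, fun t => by simp⟩
  | succ M ih =>
    intro F hF he
    obtain ⟨p, G, hp, hG, hGe, hFG⟩ := ih hF he
    obtain ⟨c, hc, hce, hGc⟩ := even_decomp964 hG hGe
    refine ⟨fun s => p s + G 0 * (s : ℂ) ^ M, c, ?_, hc, hce, fun t => ?_⟩
    · refine hp.add (contDiff_const.mul ?_)
      exact (Complex.ofRealCLM.contDiff.pow M)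
    · rw [hFG t, hGc t]
      push_cast
      ring

end Fermat.Agent.LT.T6.H964
end
end
-- ===== PACK-END LT/T6/H964/Hadamard.lean

-- ===== PACK-BEGIN LT/T2/H570/LocFinAbs.lean
section


/-!
# Row LT, tower T2, leaf T2.02d.5a (helper570): the abstract form

OFF-MAIN.  Mathlib only.  For a field `L` with a valuation `ν` and `M ∈ GL₂(L)` there are
`A, B ∈ GL₂(𝒪_ν)` (given with their inverses, all entries of valuation `≤ 1`) with
`adjugate M = A M B`.

Proof.  `adjugate M = J Mᵀ J⁻¹` with `J = [[0,1],[-1,0]]`, and `Mᵀ = A₀ M B₀`: if `M 0 0 ≠ 0`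
has the largest valuation among `M 0 0, M 0 1, M 1 0`, put `t = (M 0 1 - M 1 0) / M 0 0`; then
`[[1,0],[t,1]] M [[1,-t],[0,1]] = Mᵀ`.  In general one of the four entries has the largest
valuation among itself and its two neighbours, and a permutation of the rows and/or of the
columns moves it to the position `(0,0)`.
-/

set_option autoImplicit false

namespace Fermat.Agent.LT.T2.H570

open Matrix

variable {L : Type*} [Field L] {Γ₀ : Type*} [LinearOrderedCommGroupWithZero Γ₀]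

/-- All entries have valuation `≤ 1`. -/
def IsInt570 (ν : Valuation L Γ₀) (A : Matrix (Fin 2) (Fin 2) L) : Prop :=
  ∀ i j, ν (A i j) ≤ 1

theorem isInt570_mul (ν : Valuation L Γ₀) {A B : Matrix (Fin 2) (Fin 2) L}
    (hA : IsInt570 ν A) (hB : IsInt570 ν B) : IsInt570 ν (A * B) := by
  intro i j
  rw [Matrix.mul_apply, Fin.sum_univ_two]
  refine (ν.map_add _ _).trans (max_le ?_ ?_)
  · rw [ν.map_mul]; exact mul_le_one' (hA i 0) (hB 0 j)
  · rw [ν.map_mul]; exact mul_le_one' (hA i 1) (hB 1 j)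

/-- `A ∈ GL₂(𝒪_ν)`, with the inverse `A'`. -/
structure IsIntPair570 (ν : Valuation L Γ₀) (A A' : Matrix (Fin 2) (Fin 2) L) : Prop where
  mul : A * A' = 1
  int : IsInt570 ν A
  int' : IsInt570 ν A'

theorem IsIntPair570.mul_pair (ν : Valuation L Γ₀) {A A' B B' : Matrix (Fin 2) (Fin 2) L}
    (hA : IsIntPair570 ν A A') (hB : IsIntPair570 ν B B') :
    IsIntPair570 ν (A * B) (B' * A') where
  mul := by
    calc A * B * (B' * A') = A * (B * B') * A' := by simp only [Matrix.mul_assoc]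
      _ = 1 := by rw [hB.mul, Matrix.mul_one, hA.mul]
  int := isInt570_mul ν hA.int hB.int
  int' := isInt570_mul ν hB.int' hA.int'

/-- The relation `N = A M B` with `A, B ∈ GL₂(𝒪_ν)`. -/
def Rel570 (ν : Valuation L Γ₀) (M N : Matrix (Fin 2) (Fin 2) L) : Prop :=
  ∃ A A' B B' : Matrix (Fin 2) (Fin 2) L,
    IsIntPair570 ν A A' ∧ IsIntPair570 ν B B' ∧ N = A * M * B

/-- The permutation matrix. -/
def swap570 (L : Type*) [Field L] : Matrix (Fin 2) (Fin 2) L := !![0, 1; 1, 0]

theorem swap570_mul_swap570 : swap570 L * swap570 L = 1 := by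
  ext i j
  fin_cases i <;> fin_cases j <;>
    simp only [Matrix.mul_apply, Fin.sum_univ_two, swap570] <;> simp

theorem swap570_transpose : (swap570 L)ᵀ = swap570 L := by
  ext i j; fin_cases i <;> fin_cases j <;> simp [swap570]

theorem isInt570_swap (ν : Valuation L Γ₀) : IsInt570 ν (swap570 L) := by
  intro i j; fin_cases i <;> fin_cases j <;> simp [swap570]

theorem isIntPair570_swap (ν : Valuation L Γ₀) : IsIntPair570 ν (swap570 L) (swap570 L) :=
  ⟨swap570_mul_swap570, isInt570_swap ν, isInt570_swap ν⟩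

/-- The rotation `J = [[0,1],[-1,0]]` and its inverse. -/
def rot570 (L : Type*) [Field L] : Matrix (Fin 2) (Fin 2) L := !![0, 1; -1, 0]

/-- The inverse of `J`. -/
def rotInv570 (L : Type*) [Field L] : Matrix (Fin 2) (Fin 2) L := !![0, -1; 1, 0]

theorem isIntPair570_rot (ν : Valuation L Γ₀) : IsIntPair570 ν (rot570 L) (rotInv570 L) where
  mul := by
    ext i j
    fin_cases i <;> fin_cases j <;>
      simp only [Matrix.mul_apply, Fin.sum_univ_two, rot570, rotInv570] <;> simp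
  int := by intro i j; fin_cases i <;> fin_cases j <;> simp [rot570]
  int' := by intro i j; fin_cases i <;> fin_cases j <;> simp [rotInv570]

theorem isIntPair570_rotInv (ν : Valuation L Γ₀) : IsIntPair570 ν (rotInv570 L) (rot570 L) where
  mul := by
    ext i j
    fin_cases i <;> fin_cases j <;>
      simp only [Matrix.mul_apply, Fin.sum_univ_two, rot570, rotInv570] <;> simp
  int := by intro i j; fin_cases i <;> fin_cases j <;> simp [rotInv570]
  int' := by intro i j; fin_cases i <;> fin_cases j <;> simp [rot570]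

/-- `adjugate M = J Mᵀ J⁻¹`. -/
theorem adjugate_eq_rot570 (M : Matrix (Fin 2) (Fin 2) L) :
    M.adjugate = rot570 L * Mᵀ * rotInv570 L := by
  rw [Matrix.adjugate_fin_two]
  ext i j
  fin_cases i <;> fin_cases j <;>
    simp only [Matrix.mul_apply, Fin.sum_univ_two, Matrix.transpose_apply, rot570,
      rotInv570] <;>
    simp

/-- The core case: `M 0 0 ≠ 0` has the largest valuation among `M 0 0`, `M 0 1`, `M 1 0`. -/
theorem rel570_core (ν : Valuation L Γ₀) (M : Matrix (Fin 2) (Fin 2) L) (h0 : M 0 0 ≠ 0)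
    (h1 : ν (M 0 1) ≤ ν (M 0 0)) (h2 : ν (M 1 0) ≤ ν (M 0 0)) : Rel570 ν M Mᵀ := by
  set t : L := (M 0 1 - M 1 0) / M 0 0 with ht
  have hta : t * M 0 0 = M 0 1 - M 1 0 := by rw [ht]; field_simp
  have hνt : ν t ≤ 1 := by
    rw [ht, map_div₀]
    have hpos : (0 : Γ₀) < ν (M 0 0) := by
      rw [Valuation.pos_iff]; exact h0
    rw [div_le_one₀ hpos]
    exact (ν.map_sub _ _).trans (max_le h1 h2)
  have hνnt : ν (-t) ≤ 1 := by rw [Valuation.map_neg]; exact hνt
  refine ⟨!![1, 0; t, 1], !![1, 0; -t, 1], !![1, -t; 0, 1], !![1, t; 0, 1], ⟨?_, ?_, ?_⟩,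
    ⟨?_, ?_, ?_⟩, ?_⟩
  · ext i j
    fin_cases i <;> fin_cases j <;> simp only [Matrix.mul_apply, Fin.sum_univ_two] <;> simp
  · intro i j; fin_cases i <;> fin_cases j <;> simp [hνt]
  · intro i j; fin_cases i <;> fin_cases j <;> simp [hνt]
  · ext i j
    fin_cases i <;> fin_cases j <;> simp only [Matrix.mul_apply, Fin.sum_univ_two] <;> simp
  · intro i j; fin_cases i <;> fin_cases j <;> simp [hνt]
  · intro i j; fin_cases i <;> fin_cases j <;> simp [hνt]
  · ext i j
    fin_cases i <;> fin_cases j <;>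
      simp only [Matrix.mul_apply, Fin.sum_univ_two, Matrix.transpose_apply] <;>
      simp
    · linear_combination hta
    · linear_combination -hta
    · linear_combination t * hta

/-- Transport along a permutation of the rows. -/
theorem rel570_of_swap_left (ν : Valuation L Γ₀) (M : Matrix (Fin 2) (Fin 2) L)
    (h : Rel570 ν (swap570 L * M) (swap570 L * M)ᵀ) : Rel570 ν M Mᵀ := by
  obtain ⟨A, A', B, B', hA, hB, e⟩ := h
  refine ⟨A * swap570 L, swap570 L * A', B * swap570 L, swap570 L * B',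
    hA.mul_pair ν (isIntPair570_swap ν), hB.mul_pair ν (isIntPair570_swap ν), ?_⟩
  rw [Matrix.transpose_mul, swap570_transpose] at e
  calc Mᵀ = Mᵀ * swap570 L * swap570 L := by
        rw [Matrix.mul_assoc, swap570_mul_swap570, Matrix.mul_one]
    _ = A * (swap570 L * M) * B * swap570 L := by rw [e]
    _ = A * swap570 L * M * (B * swap570 L) := by simp only [Matrix.mul_assoc]

/-- Transport along a permutation of the columns. -/
theorem rel570_of_swap_right (ν : Valuation L Γ₀) (M : Matrix (Fin 2) (Fin 2) L)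
    (h : Rel570 ν (M * swap570 L) (M * swap570 L)ᵀ) : Rel570 ν M Mᵀ := by
  obtain ⟨A, A', B, B', hA, hB, e⟩ := h
  refine ⟨swap570 L * A, A' * swap570 L, swap570 L * B, B' * swap570 L,
    (isIntPair570_swap ν).mul_pair ν hA, (isIntPair570_swap ν).mul_pair ν hB, ?_⟩
  rw [Matrix.transpose_mul, swap570_transpose] at e
  calc Mᵀ = swap570 L * (swap570 L * Mᵀ) := by
        rw [← Matrix.mul_assoc, swap570_mul_swap570, Matrix.one_mul]
    _ = swap570 L * (A * (M * swap570 L) * B) := by rw [e]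
    _ = swap570 L * A * M * (swap570 L * B) := by simp only [Matrix.mul_assoc]

/-- Every invertible `M` is related to its transpose. -/
theorem rel570_transpose (ν : Valuation L Γ₀) (M : Matrix (Fin 2) (Fin 2) L) (hM : M.det ≠ 0) :
    Rel570 ν M Mᵀ := by
  rw [Matrix.det_fin_two] at hM
  have hz : ∀ x y : L, ν x ≤ ν y → y = 0 → x = 0 := by
    intro x y hxy hy
    rw [hy, map_zero] at hxy
    exact ν.zero_iff.mp (le_antisymm hxy zero_le)
  by_cases ha : ν (M 0 1) ≤ ν (M 0 0) ∧ ν (M 1 0) ≤ ν (M 0 0)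
  · -- the entry `(0,0)`
    refine rel570_core ν M ?_ ha.1 ha.2
    intro h0
    apply hM
    rw [hz _ _ ha.1 h0, h0]; ring
  by_cases hd : ν (M 0 1) ≤ ν (M 1 1) ∧ ν (M 1 0) ≤ ν (M 1 1)
  · -- the entry `(1,1)`
    apply rel570_of_swap_left
    apply rel570_of_swap_right
    have e00 : (swap570 L * M * swap570 L) 0 0 = M 1 1 := by
      simp only [Matrix.mul_apply, Fin.sum_univ_two, swap570]; simp
    have e01 : (swap570 L * M * swap570 L) 0 1 = M 1 0 := by
      simp only [Matrix.mul_apply, Fin.sum_univ_two, swap570]; simp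
    have e10 : (swap570 L * M * swap570 L) 1 0 = M 0 1 := by
      simp only [Matrix.mul_apply, Fin.sum_univ_two, swap570]; simp
    refine rel570_core ν _ ?_ ?_ ?_
    · rw [e00]
      intro h0
      apply hM
      rw [hz _ _ hd.1 h0, h0]; ring
    · rw [e00, e01]; exact hd.2
    · rw [e00, e10]; exact hd.1
  -- now the largest of the two off-diagonal entries dominates the diagonal
  rcases le_total (ν (M 1 0)) (ν (M 0 1)) with hcb | hbc
  · -- the entry `(0,1)`
    have h1 : ν (M 0 0) ≤ ν (M 0 1) := by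
      by_contra h
      rw [not_le] at h
      exact ha ⟨h.le, hcb.trans h.le⟩
    have h2 : ν (M 1 1) ≤ ν (M 0 1) := by
      by_contra h
      rw [not_le] at h
      exact hd ⟨h.le, hcb.trans h.le⟩
    apply rel570_of_swap_right
    have e00 : (M * swap570 L) 0 0 = M 0 1 := by
      simp only [Matrix.mul_apply, Fin.sum_univ_two, swap570]; simp
    have e01 : (M * swap570 L) 0 1 = M 0 0 := by
      simp only [Matrix.mul_apply, Fin.sum_univ_two, swap570]; simp
    have e10 : (M * swap570 L) 1 0 = M 1 1 := by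
      simp only [Matrix.mul_apply, Fin.sum_univ_two, swap570]; simp
    refine rel570_core ν _ ?_ ?_ ?_
    · rw [e00]
      intro h0
      apply hM
      rw [hz _ _ h1 h0, h0]; ring
    · rw [e00, e01]; exact h1
    · rw [e00, e10]; exact h2
  · -- the entry `(1,0)`
    have h1 : ν (M 0 0) ≤ ν (M 1 0) := by
      by_contra h
      rw [not_le] at h
      exact ha ⟨hbc.trans h.le, h.le⟩
    have h2 : ν (M 1 1) ≤ ν (M 1 0) := by
      by_contra h
      rw [not_le] at h
      exact hd ⟨hbc.trans h.le, h.le⟩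
    apply rel570_of_swap_left
    have e00 : (swap570 L * M) 0 0 = M 1 0 := by
      simp only [Matrix.mul_apply, Fin.sum_univ_two, swap570]; simp
    have e01 : (swap570 L * M) 0 1 = M 1 1 := by
      simp only [Matrix.mul_apply, Fin.sum_univ_two, swap570]; simp
    have e10 : (swap570 L * M) 1 0 = M 0 0 := by
      simp only [Matrix.mul_apply, Fin.sum_univ_two, swap570]; simp
    refine rel570_core ν _ ?_ ?_ ?_
    · rw [e00]
      intro h0
      apply hM
      rw [hz _ _ h1 h0, h0]; ring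
    · rw [e00, e01]; exact h2
    · rw [e00, e10]; exact h1

/-- **The abstract form of T2.02d.5a**: `adjugate M = A M B` with `A, B ∈ GL₂(𝒪_ν)`. -/
theorem adjugate_rel570 (ν : Valuation L Γ₀) (M : Matrix (Fin 2) (Fin 2) L) (hM : M.det ≠ 0) :
    ∃ A A' B B' : Matrix (Fin 2) (Fin 2) L,
      A * A' = 1 ∧ B * B' = 1 ∧
      (∀ i j, ν (A i j) ≤ 1) ∧ (∀ i j, ν (A' i j) ≤ 1) ∧
      (∀ i j, ν (B i j) ≤ 1) ∧ (∀ i j, ν (B' i j) ≤ 1) ∧
      M.adjugate = A * M * B := by
  obtain ⟨A, A', B, B', hA, hB, e⟩ := rel570_transpose ν M hM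
  have hA2 := (isIntPair570_rot ν).mul_pair ν hA
  have hB2 := hB.mul_pair ν (isIntPair570_rotInv ν)
  refine ⟨rot570 L * A, A' * rotInv570 L, B * rotInv570 L, rot570 L * B',
    hA2.mul, hB2.mul, hA2.int, hA2.int', hB2.int, hB2.int', ?_⟩
  rw [adjugate_eq_rot570, e]
  simp only [Matrix.mul_assoc]

end Fermat.Agent.LT.T2.H570

end
-- ===== PACK-END LT/T2/H570/LocFinAbs.lean

-- ===== PACK-BEGIN LT/T2/H197/S2Core.lean
section


/-!
# Row LT, tower T2, sub-leaf T2.07.31 (helper197): rotation invariance of `sin β dβ dα`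

Mathlib only.  The round measure of `S² = ℂP¹` in the affine coordinate `z` is
`4 dA(z) / (1 + |z|²)²`:

* `euler_eq_plane197` : the Euler-angle integral `∫₀^{2π} ∫₀^π G(e^{-iα} tan(β/2)) sin β dβ dα`
  equals `∫_ℂ G(z) · 4 / (1 + |z|²)² dA(z)` (substitution `r = tan (β/2)`, polar coordinates);
* `moebius197` : invariance of `4 dA / (1 + |z|²)²` under the unitary Möbius maps
  `z ↦ (r + s z) / (p + q z)` (change of variables in `ℂ`).
-/

set_option autoImplicit false

open MeasureTheory Complex Set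

noncomputable section

namespace Fermat.Agent.LT.T2.H197

/-- The density of the round measure of the Riemann sphere in the affine coordinate. -/
def rho197 (z : ℂ) : ℝ := 4 / (1 + Complex.normSq z) ^ 2

theorem one_add_normSq_pos197 (z : ℂ) : 0 < 1 + Complex.normSq z := by
  have := Complex.normSq_nonneg z
  linarith

theorem continuous_rho197 : Continuous rho197 := by
  unfold rho197
  refine Continuous.div continuous_const ?_ fun z => ?_
  · exact (continuous_const.add Complex.continuous_normSq).pow 2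
  · exact pow_ne_zero 2 (one_add_normSq_pos197 z).ne'

theorem integrable_rho197 : Integrable rho197 (volume : Measure ℂ) := by
  have h := integrable_rpow_neg_one_add_norm_sq (E := ℂ) (μ := volume) (r := 4)
    (by rw [Complex.finrank_real_complex]; norm_num)
  have h2 := h.const_mul 4
  refine h2.congr (Filter.Eventually.of_forall fun z => ?_)
  simp only [rho197]
  have hpos : (0 : ℝ) < 1 + ‖z‖ ^ 2 := by positivity
  rw [Complex.normSq_eq_norm_sq, show (-4 / 2 : ℝ) = -(2 : ℕ) by norm_num, Real.rpow_neg hpos.le,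
    Real.rpow_natCast]
  ring

theorem integrable_mul_rho197 (G : ℂ → ℂ) (hG : Continuous G) (C : ℝ) (hC : ∀ z, ‖G z‖ ≤ C) :
    Integrable (fun z => G z * (rho197 z : ℂ)) (volume : Measure ℂ) :=
  Integrable.bdd_mul (c := C) integrable_rho197.ofReal hG.aestronglyMeasurable
    (Filter.Eventually.of_forall hC)

/-- The integrand in polar coordinates. -/
def polarFun197 (G : ℂ → ℂ) (p : ℝ × ℝ) : ℂ :=
  p.1 • (G (Complex.polarCoord.symm p) * (rho197 (Complex.polarCoord.symm p) : ℂ))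

theorem continuous_polarFun197 (G : ℂ → ℂ) (hG : Continuous G) :
    Continuous (polarFun197 G) := by
  unfold polarFun197
  have h1 : Continuous fun p : ℝ × ℝ => Complex.polarCoord.symm p := by
    simp only [Complex.polarCoord_symm_apply]
    fun_prop
  have h2 : Continuous fun p : ℝ × ℝ => (rho197 (Complex.polarCoord.symm p) : ℂ) :=
    Complex.continuous_ofReal.comp (continuous_rho197.comp h1)
  exact continuous_fst.smul ((hG.comp h1).mul h2)

theorem integrableOn_polarFun197 (G : ℂ → ℂ) (hG : Continuous G) (C : ℝ)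
    (hC : ∀ z, ‖G z‖ ≤ C) :
    IntegrableOn (polarFun197 G) (Ioi (0 : ℝ) ×ˢ Ioo (-Real.pi) Real.pi) volume := by
  refine ⟨(continuous_polarFun197 G hG).aestronglyMeasurable, ?_⟩
  have hI := integrable_mul_rho197 G hG C hC
  have h1 := Complex.lintegral_comp_polarCoord_symm (fun z => ‖G z * (rho197 z : ℂ)‖ₑ)
  have h2 : ∫⁻ p in Ioi (0 : ℝ) ×ˢ Ioo (-Real.pi) Real.pi, ‖polarFun197 G p‖ₑ
      = ∫⁻ p in polarCoord.target, ENNReal.ofReal p.1 •
          ‖G (Complex.polarCoord.symm p) * (rho197 (Complex.polarCoord.symm p) : ℂ)‖ₑ := by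
    rw [polarCoord_target]
    refine setLIntegral_congr_fun (measurableSet_Ioi.prod measurableSet_Ioo) fun p hp => ?_
    have hp1 : (0 : ℝ) < p.1 := hp.1
    simp only [polarFun197]
    rw [enorm_smul, smul_eq_mul, Real.enorm_eq_ofReal hp1.le]
  rw [HasFiniteIntegral, h2, h1]
  exact hI.2


theorem half_mem197 {β : ℝ} (hβ : β ∈ Ioo (0 : ℝ) Real.pi) :
    β / 2 ∈ Ioo (-(Real.pi / 2)) (Real.pi / 2) := by
  constructor
  · have := hβ.1
    have := Real.pi_pos
    linarith
  · have := hβ.2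
    linarith

theorem cos_half_pos197 {β : ℝ} (hβ : β ∈ Ioo (0 : ℝ) Real.pi) : 0 < Real.cos (β / 2) :=
  Real.cos_pos_of_mem_Ioo (half_mem197 hβ)

theorem image_tan_half197 : (fun β : ℝ => Real.tan (β / 2)) '' Ioo (0 : ℝ) Real.pi = Ioi 0 := by
  ext r
  constructor
  · rintro ⟨β, hβ, rfl⟩
    exact Real.tan_pos_of_pos_of_lt_pi_div_two (by have := hβ.1; linarith)
      (by have := hβ.2; linarith)
  · intro hr
    have hr' : (0 : ℝ) < r := hr
    refine ⟨2 * Real.arctan r, ⟨?_, ?_⟩, ?_⟩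
    · have := Real.arctan_pos.2 hr'
      linarith
    · have := Real.arctan_lt_pi_div_two r
      linarith
    · show Real.tan (2 * Real.arctan r / 2) = r
      rw [mul_div_cancel_left₀ _ (two_ne_zero' ℝ), Real.tan_arctan]

/-- The substitution `r = tan (β / 2)`. -/
theorem inner_subst197 (g : ℝ → ℂ) :
    ∫ β in (0 : ℝ)..Real.pi, g (Real.tan (β / 2)) * ((Real.sin β : ℝ) : ℂ)
      = ∫ r in Ioi (0 : ℝ), g r * ((r * (4 / (1 + r ^ 2) ^ 2) : ℝ) : ℂ) := by
  rw [intervalIntegral.integral_of_le Real.pi_pos.le, integral_Ioc_eq_integral_Ioo]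
  have hderiv : ∀ β ∈ Ioo (0 : ℝ) Real.pi, HasDerivWithinAt (fun β : ℝ => Real.tan (β / 2))
      (1 / Real.cos (β / 2) ^ 2 * (1 / 2)) (Ioo (0 : ℝ) Real.pi) β := by
    intro β hβ
    have h1 := Real.hasDerivAt_tan (cos_half_pos197 hβ).ne'
    have h2 : HasDerivAt (fun β : ℝ => β / 2) (1 / 2) β := by
      simpa using (hasDerivAt_id β).div_const 2
    exact (h1.comp β h2).hasDerivWithinAt
  have hinj : InjOn (fun β : ℝ => Real.tan (β / 2)) (Ioo (0 : ℝ) Real.pi) := by
    intro a ha b hb hab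
    have := Real.injOn_tan (half_mem197 ha) (half_mem197 hb) hab
    linarith
  have key := integral_image_eq_integral_abs_deriv_smul measurableSet_Ioo hderiv hinj
    (fun r => g r * ((r * (4 / (1 + r ^ 2) ^ 2) : ℝ) : ℂ))
  rw [image_tan_half197] at key
  rw [key]
  refine setIntegral_congr_fun measurableSet_Ioo fun β hβ => ?_
  have hc := cos_half_pos197 hβ
  have hsin : Real.sin β = 2 * Real.sin (β / 2) * Real.cos (β / 2) := by
    have := Real.sin_two_mul (β / 2)
    rw [mul_div_cancel₀ _ (two_ne_zero' ℝ)] at this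
    exact this
  have htan : Real.tan (β / 2) = Real.sin (β / 2) / Real.cos (β / 2) := Real.tan_eq_sin_div_cos _
  have h1 : 1 + Real.tan (β / 2) ^ 2 = 1 / Real.cos (β / 2) ^ 2 := by
    rw [htan]
    field_simp
    have := Real.sin_sq_add_cos_sq (β / 2)
    linarith
  have hR : |1 / Real.cos (β / 2) ^ 2 * (1 / 2)|
      * (Real.tan (β / 2) * (4 / (1 + Real.tan (β / 2) ^ 2) ^ 2)) = Real.sin β := by
    rw [abs_of_pos (by positivity), h1, hsin, htan]
    field_simp
    ring
  rw [Complex.real_smul, ← hR]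
  push_cast
  ring


theorem det_mul197 (c : ℂ) :
    ((c • (1 : ℂ →L[ℂ] ℂ)).restrictScalars ℝ).det = Complex.normSq c := by
  have h : (((c • (1 : ℂ →L[ℂ] ℂ)).restrictScalars ℝ : ℂ →L[ℝ] ℂ) : ℂ →ₗ[ℝ] ℂ)
      = LinearMap.mul ℝ ℂ c := by
    ext <;> simp
  rw [ContinuousLinearMap.det, h, ← Algebra.norm_complex_apply, Algebra.norm_apply]
  rfl

/-- **Möbius invariance** of the round measure of the Riemann sphere, affine coordinate. -/
theorem moebius197 (g : ℂ → ℂ) (p q r s : ℂ) (hδ : Complex.normSq (p * s - q * r) = 1)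
    (hu : ∀ z : ℂ, Complex.normSq (p + q * z) + Complex.normSq (r + s * z)
      = 1 + Complex.normSq z) :
    ∫ z, g ((r + s * z) / (p + q * z)) * (rho197 z : ℂ) = ∫ w, g w * (rho197 w : ℂ) := by
  have hδ0 : p * s - q * r ≠ 0 := by
    intro h
    rw [h, map_zero] at hδ
    exact zero_ne_one hδ
  set S : Set ℂ := {z | p + q * z ≠ 0} with hSdef
  set φ : ℂ → ℂ := fun z => (r + s * z) / (p + q * z) with hφ
  set f' : ℂ → (ℂ →L[ℝ] ℂ) := fun z =>
    ((((p * s - q * r) / (p + q * z) ^ 2) • (1 : ℂ →L[ℂ] ℂ)).restrictScalars ℝ) with hf'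
  have hSo : IsOpen S := by
    have hc : Continuous fun z : ℂ => p + q * z := by fun_prop
    exact isOpen_ne_fun hc continuous_const
  have hS : MeasurableSet S := hSo.measurableSet
  have hderiv : ∀ z ∈ S, HasFDerivWithinAt φ (f' z) S z := by
    intro z hz
    have h1 : HasDerivAt (fun z : ℂ => r + s * z) s z := by
      simpa using ((hasDerivAt_id z).const_mul s).const_add r
    have h2 : HasDerivAt (fun z : ℂ => p + q * z) q z := by
      simpa using ((hasDerivAt_id z).const_mul q).const_add p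
    have h3 := h1.div h2 hz
    have h4 : s * (p + q * z) - (r + s * z) * q = p * s - q * r := by ring
    rw [h4] at h3
    have h5 := h3.hasFDerivAt.restrictScalars ℝ
    have h6 : (ContinuousLinearMap.restrictScalars ℝ
        (ContinuousLinearMap.toSpanSingleton ℂ ((p * s - q * r) / (p + q * z) ^ 2)))
        = f' z := by
      ext x
      simp [hf', mul_comm]
    rw [h6] at h5
    exact h5.hasFDerivWithinAt
  have hinj : InjOn φ S := by
    intro z₁ h₁ z₂ h₂ h
    simp only [hφ] at h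
    rw [div_eq_div_iff h₁ h₂] at h
    have h' : (p * s - q * r) * (z₁ - z₂) = 0 := by linear_combination h
    rcases mul_eq_zero.1 h' with h0 | h0
    · exact absurd h0 hδ0
    · exact sub_eq_zero.1 h0
  have key := integral_image_eq_integral_abs_det_fderiv_smul volume hS hderiv hinj
    (fun w => g w * (rho197 w : ℂ))
  -- the two exceptional sets are null
  have hSc : (Sᶜ : Set ℂ).Subsingleton := by
    intro a ha b hb
    simp only [hSdef, mem_compl_iff, mem_ofPred_eq, not_not] at ha hb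
    have hq : q ≠ 0 := by
      intro hq
      rw [hq, zero_mul, add_zero] at ha
      have := hu 0
      simp [ha, hq] at this
      have h1 : p * s - q * r = 0 := by rw [ha, hq]; ring
      exact hδ0 h1
    have : q * (a - b) = 0 := by linear_combination ha - hb
    rcases mul_eq_zero.1 this with h0 | h0
    · exact absurd h0 hq
    · exact sub_eq_zero.1 h0
  have hS_ae : S =ᵐ[volume] (univ : Set ℂ) := by
    rw [ae_eq_univ]
    exact hSc.measure_zero volume
  have himg : ({w : ℂ | s - q * w ≠ 0} : Set ℂ) ⊆ φ '' S := by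
    intro w hw
    simp only [mem_ofPred_eq] at hw
    refine ⟨(p * w - r) / (s - q * w), ?_, ?_⟩
    · simp only [hSdef, mem_ofPred_eq]
      have : p + q * ((p * w - r) / (s - q * w)) = (p * s - q * r) / (s - q * w) := by
        field_simp
        ring
      rw [this]
      exact div_ne_zero hδ0 hw
    · simp only [hφ]
      have h1 : p + q * ((p * w - r) / (s - q * w)) = (p * s - q * r) / (s - q * w) := by
        field_simp
        ring
      have h2 : r + s * ((p * w - r) / (s - q * w)) = (p * s - q * r) * w / (s - q * w) := by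
        rw [eq_div_iff hw, add_mul, mul_assoc, div_mul_cancel₀ _ hw]
        ring
      rw [h1, h2, div_div_div_cancel_right₀ hw, mul_div_cancel_left₀ _ hδ0]
  have hIc : ((φ '' S)ᶜ : Set ℂ).Subsingleton := by
    intro a ha b hb
    have ha' : ¬ (s - q * a ≠ 0) := fun h => ha (himg h)
    have hb' : ¬ (s - q * b ≠ 0) := fun h => hb (himg h)
    simp only [not_not] at ha' hb'
    have hq : q ≠ 0 := by
      intro hq
      rw [hq, zero_mul, sub_zero] at ha'
      have h1 : p * s - q * r = 0 := by rw [ha', hq]; ring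
      exact hδ0 h1
    have : q * (a - b) = 0 := by linear_combination hb' - ha'
    rcases mul_eq_zero.1 this with h0 | h0
    · exact absurd h0 hq
    · exact sub_eq_zero.1 h0
  have hI_ae : φ '' S =ᵐ[volume] (univ : Set ℂ) := by
    rw [ae_eq_univ]
    exact hIc.measure_zero volume
  -- the Jacobian identity
  have hjac : ∀ z ∈ S, |(f' z).det| • (g (φ z) * (rho197 (φ z) : ℂ))
      = g (φ z) * (rho197 z : ℂ) := by
    intro z hz
    have hz' : Complex.normSq (p + q * z) ≠ 0 := by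
      rw [Ne, Complex.normSq_eq_zero]; exact hz
    have hpos : 0 < Complex.normSq (p + q * z) := lt_of_le_of_ne (Complex.normSq_nonneg _)
      (Ne.symm hz')
    have hdet : (f' z).det = 1 / Complex.normSq (p + q * z) ^ 2 := by
      simp only [hf']
      rw [det_mul197, map_div₀, hδ, map_pow]
    have hφz : 1 + Complex.normSq (φ z)
        = (1 + Complex.normSq z) / Complex.normSq (p + q * z) := by
      simp only [hφ]
      rw [map_div₀, ← hu z, eq_div_iff hz', add_mul, div_mul_cancel₀ _ hz']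
      ring
    have h1 := one_add_normSq_pos197 z
    have hR : |(f' z).det| * rho197 (φ z) = rho197 z := by
      rw [hdet, abs_of_pos (by positivity), rho197, rho197, hφz]
      field_simp
    rw [Complex.real_smul, ← hR]
    push_cast
    ring
  calc ∫ z, g (φ z) * (rho197 z : ℂ)
      = ∫ z in S, g (φ z) * (rho197 z : ℂ) := by
        rw [← setIntegral_univ]
        exact setIntegral_congr_set hS_ae.symm
    _ = ∫ z in S, |(f' z).det| • (g (φ z) * (rho197 (φ z) : ℂ)) := by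
        refine setIntegral_congr_fun hS fun z hz => ?_
        exact (hjac z hz).symm
    _ = ∫ w in φ '' S, g w * (rho197 w : ℂ) := key.symm
    _ = ∫ w, g w * (rho197 w : ℂ) :=
        (setIntegral_congr_set hI_ae).trans setIntegral_univ


/-- The radial integral along the ray of argument `θ`. -/
def radial197 (G : ℂ → ℂ) (θ : ℝ) : ℂ :=
  ∫ r in Ioi (0 : ℝ), G (Complex.exp (Complex.I * (θ : ℂ)) * (r : ℂ))
    * ((r * (4 / (1 + r ^ 2) ^ 2) : ℝ) : ℂ)

theorem radial_periodic197 (G : ℂ → ℂ) : Function.Periodic (radial197 G) (2 * Real.pi) := by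
  intro θ
  unfold radial197
  have h : Complex.exp (Complex.I * ((θ + 2 * Real.pi : ℝ) : ℂ))
      = Complex.exp (Complex.I * (θ : ℂ)) := by
    rw [show Complex.I * ((θ + 2 * Real.pi : ℝ) : ℂ)
      = Complex.I * (θ : ℂ) + 2 * Real.pi * Complex.I by push_cast; ring]
    rw [Complex.exp_add, Complex.exp_two_pi_mul_I, mul_one]
  rw [h]

theorem polarFun_apply197 (G : ℂ → ℂ) (r θ : ℝ) :
    polarFun197 G (r, θ) = G (Complex.exp (Complex.I * (θ : ℂ)) * (r : ℂ))
      * ((r * (4 / (1 + r ^ 2) ^ 2) : ℝ) : ℂ) := by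
  have h1 : Complex.polarCoord.symm (r, θ) = Complex.exp (Complex.I * (θ : ℂ)) * (r : ℂ) := by
    rw [Complex.polarCoord_symm_apply, mul_comm Complex.I, Complex.exp_mul_I]
    push_cast
    ring
  have h2 : Complex.normSq (Complex.exp (Complex.I * (θ : ℂ)) * (r : ℂ)) = r ^ 2 := by
    rw [map_mul, Complex.normSq_eq_norm_sq, mul_comm Complex.I, Complex.norm_exp_ofReal_mul_I,
      Complex.normSq_ofReal]
    ring
  simp only [polarFun197]
  rw [h1, rho197, h2, Complex.real_smul]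
  push_cast
  ring

/-- **The Euler-angle integral in the affine coordinate of the Riemann sphere.** -/
theorem euler_eq_plane197 (G : ℂ → ℂ) (hG : Continuous G) (C : ℝ) (hC : ∀ z, ‖G z‖ ≤ C) :
    ∫ α in (0 : ℝ)..(2 * Real.pi), ∫ β in (0 : ℝ)..Real.pi,
        G (Complex.exp (-(Complex.I * (α : ℂ))) * ((Real.tan (β / 2) : ℝ) : ℂ))
          * ((Real.sin β : ℝ) : ℂ)
      = ∫ z, G z * (rho197 z : ℂ) := by
  -- the inner integral
  have hin : ∀ α : ℝ, (∫ β in (0 : ℝ)..Real.pi,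
      G (Complex.exp (-(Complex.I * (α : ℂ))) * ((Real.tan (β / 2) : ℝ) : ℂ))
        * ((Real.sin β : ℝ) : ℂ)) = radial197 G (-α) := by
    intro α
    have h := inner_subst197 (fun r => G (Complex.exp (-(Complex.I * (α : ℂ))) * (r : ℂ)))
    rw [h, radial197]
    have : Complex.exp (Complex.I * ((-α : ℝ) : ℂ)) = Complex.exp (-(Complex.I * (α : ℂ))) := by
      push_cast
      rw [mul_neg]
    rw [this]
  simp_rw [hin]
  rw [intervalIntegral.integral_comp_neg (fun x => radial197 G x), neg_zero]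
  have hper := (radial_periodic197 G).intervalIntegral_add_eq (-(2 * Real.pi)) (-Real.pi)
  rw [show -(2 * Real.pi) + 2 * Real.pi = 0 by ring,
    show -Real.pi + 2 * Real.pi = Real.pi by ring] at hper
  rw [hper, intervalIntegral.integral_of_le (by linarith [Real.pi_pos]),
    integral_Ioc_eq_integral_Ioo]
  -- Fubini
  have hI := integrableOn_polarFun197 G hG C hC
  have hF : ∫ p in Ioi (0 : ℝ) ×ˢ Ioo (-Real.pi) Real.pi, polarFun197 G p
      = ∫ θ in Ioo (-Real.pi) Real.pi, ∫ r in Ioi (0 : ℝ), polarFun197 G (r, θ) := by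
    have hI' : Integrable (polarFun197 G)
        ((volume.restrict (Ioi (0 : ℝ))).prod (volume.restrict (Ioo (-Real.pi) Real.pi))) := by
      rw [Measure.prod_restrict]
      exact hI
    have := integral_prod_symm (polarFun197 G) hI'
    rw [Measure.prod_restrict] at this
    exact this
  have hP := Complex.integral_comp_polarCoord_symm (fun z => G z * (rho197 z : ℂ))
  rw [polarCoord_target] at hP
  rw [← hP]
  have hP' : (∫ p in Ioi (0 : ℝ) ×ˢ Ioo (-Real.pi) Real.pi,
      p.1 • (G (Complex.polarCoord.symm p) * (rho197 (Complex.polarCoord.symm p) : ℂ)))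
      = ∫ p in Ioi (0 : ℝ) ×ˢ Ioo (-Real.pi) Real.pi, polarFun197 G p := rfl
  rw [hP', hF]
  refine setIntegral_congr_fun measurableSet_Ioo fun θ _ => ?_
  simp only [radial197]
  refine setIntegral_congr_fun measurableSet_Ioi fun r _ => ?_
  exact (polarFun_apply197 G r θ).symm

end Fermat.Agent.LT.T2.H197

end
end
-- ===== PACK-END LT/T2/H197/S2Core.lean

-- ===== PACK-BEGIN LT/T2/H841/Fubini.lean
section


/-!
# Row LT, tower T2, leaf T2.07.18 (helper841): Fubini for double interval integrals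

OFF-MAIN.  Mathlib only.
-/

set_option autoImplicit false

open MeasureTheory

noncomputable section

namespace Fermat.Agent.LT.T2.H841

/-- Lebesgue measure on `(0, a]`. -/
def nu841 (a : ℝ) : Measure ℝ := (volume : Measure ℝ).restrict (Set.Ioc 0 a)

instance isFiniteMeasure_nu841 (a : ℝ) : IsFiniteMeasure (nu841 a) := by
  unfold nu841
  infer_instance

/-- The measure of the box `(0, a] × (0, b]`. -/
def box841 (a b : ℝ) : Measure (ℝ × ℝ) := (nu841 a).prod (nu841 b)

instance isFiniteMeasure_box841 (a b : ℝ) : IsFiniteMeasure (box841 a b) := by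
  unfold box841
  infer_instance

/-- A double interval integral is an integral over the box. -/
theorem dbl841 {G : ℝ → ℝ → ℂ} {a b : ℝ} (ha : 0 ≤ a) (hb : 0 ≤ b)
    (hG : Integrable (Function.uncurry G) (box841 a b)) :
    (∫ α in (0 : ℝ)..a, ∫ β in (0 : ℝ)..b, G α β) = ∫ p, G p.1 p.2 ∂(box841 a b) := by
  have h1 : (∫ α in (0 : ℝ)..a, ∫ β in (0 : ℝ)..b, G α β)
      = ∫ α, (∫ β, G α β ∂(nu841 b)) ∂(nu841 a) := by
    rw [intervalIntegral.integral_of_le ha]
    refine integral_congr_ae (Filter.Eventually.of_forall fun α => ?_)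
    exact intervalIntegral.integral_of_le hb
  rw [h1]
  exact (integral_prod (Function.uncurry G) hG).symm

/-- **Fubini**: an integral over a finite measure space commutes with a double interval
integral. -/
theorem swap841 {X : Type*} [MeasurableSpace X] (μ : Measure X) [SFinite μ]
    (F : X → ℝ → ℝ → ℂ) {a b : ℝ} (ha : 0 ≤ a) (hb : 0 ≤ b)
    (hF : Integrable (fun p : X × ℝ × ℝ => F p.1 p.2.1 p.2.2) (μ.prod (box841 a b))) :
    (∫ x, (∫ α in (0 : ℝ)..a, ∫ β in (0 : ℝ)..b, F x α β) ∂μ)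
      = ∫ α in (0 : ℝ)..a, ∫ β in (0 : ℝ)..b, (∫ x, F x α β ∂μ) := by
  have h1 : (∫ x, (∫ α in (0 : ℝ)..a, ∫ β in (0 : ℝ)..b, F x α β) ∂μ)
      = ∫ x, (∫ p, F x p.1 p.2 ∂(box841 a b)) ∂μ := by
    refine integral_congr_ae ?_
    filter_upwards [hF.prod_right_ae] with x hx
    exact dbl841 ha hb hx
  have h2 : (∫ x, (∫ p, F x p.1 p.2 ∂(box841 a b)) ∂μ)
      = ∫ p, (∫ x, F x p.1 p.2 ∂μ) ∂(box841 a b) :=
    integral_integral_swap (f := fun x (p : ℝ × ℝ) => F x p.1 p.2) hF
  have h3 : Integrable (Function.uncurry fun α β => ∫ x, F x α β ∂μ) (box841 a b) :=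
    hF.integral_prod_right
  rw [h1, h2, dbl841 ha hb h3]

/-- Integrability on `μ × box` of a bounded function which is continuous on `s × ℝ × ℝ`, for
`μ` the restriction of a measure to a measurable set `s` of finite measure. -/
theorem integrable_box841 {X : Type*} [TopologicalSpace X] [MeasurableSpace X]
    [OpensMeasurableSpace X] [SecondCountableTopology X]
    (μ : Measure X) [SFinite μ] {s : Set X} (hs : MeasurableSet s) (hμs : μ s < ⊤)
    (F : X → ℝ → ℝ → ℂ) (a b : ℝ)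
    (hc : ContinuousOn (fun p : X × ℝ × ℝ => F p.1 p.2.1 p.2.2) (s ×ˢ Set.univ))
    (hb : ∃ C : ℝ, ∀ x α β, ‖F x α β‖ ≤ C) :
    Integrable (fun p : X × ℝ × ℝ => F p.1 p.2.1 p.2.2) ((μ.restrict s).prod (box841 a b)) := by
  obtain ⟨C, hC⟩ := hb
  have : IsFiniteMeasure (μ.restrict s) := ⟨by simpa using hμs⟩
  have hmeas : AEStronglyMeasurable (fun p : X × ℝ × ℝ => F p.1 p.2.1 p.2.2)
      ((μ.restrict s).prod (box841 a b)) := by
    have h1 : (μ.restrict s).prod (box841 a b)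
        = (μ.prod (box841 a b)).restrict (s ×ˢ Set.univ) := by
      rw [← Measure.prod_restrict, Measure.restrict_univ]
    rw [h1]
    exact hc.aestronglyMeasurable (hs.prod MeasurableSet.univ)
  exact Integrable.of_bound hmeas C (Filter.Eventually.of_forall fun p => hC _ _ _)

/-- **Fubini** for two double interval integrals of a bounded continuous function. -/
theorem swap4_841 (F : ℝ → ℝ → ℝ → ℝ → ℂ)
    (hc : Continuous fun p : (ℝ × ℝ) × ℝ × ℝ => F p.1.1 p.1.2 p.2.1 p.2.2)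
    (hb : ∃ C : ℝ, ∀ x y z t, ‖F x y z t‖ ≤ C) {a b a' b' : ℝ}
    (ha : 0 ≤ a) (hb0 : 0 ≤ b) (ha' : 0 ≤ a') (hb' : 0 ≤ b') :
    (∫ α in (0 : ℝ)..a, ∫ β in (0 : ℝ)..b, ∫ α' in (0 : ℝ)..a', ∫ β' in (0 : ℝ)..b',
        F α β α' β')
      = ∫ α' in (0 : ℝ)..a', ∫ β' in (0 : ℝ)..b', ∫ α in (0 : ℝ)..a, ∫ β in (0 : ℝ)..b,
        F α β α' β' := by
  obtain ⟨C, hC⟩ := hb
  have hF : Integrable (fun p : (ℝ × ℝ) × ℝ × ℝ => F p.1.1 p.1.2 p.2.1 p.2.2)
      ((box841 a b).prod (box841 a' b')) :=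
    Integrable.of_bound hc.aestronglyMeasurable C
      (Filter.Eventually.of_forall fun p => hC _ _ _ _)
  have hx : ∀ x y : ℝ, Integrable (Function.uncurry (F x y)) (box841 a' b') := fun x y => by
    refine Integrable.of_bound ?_ C (Filter.Eventually.of_forall fun p => hC _ _ _ _)
    have : Continuous (Function.uncurry (F x y)) :=
      hc.comp (Continuous.prodMk (continuous_const (y := ((x, y) : ℝ × ℝ))) continuous_id)
    exact this.aestronglyMeasurable
  have hy : ∀ z t : ℝ, Integrable (Function.uncurry fun x y => F x y z t) (box841 a b) :=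
    fun z t => by
    refine Integrable.of_bound ?_ C (Filter.Eventually.of_forall fun p => hC _ _ _ _)
    have : Continuous (Function.uncurry fun x y => F x y z t) :=
      hc.comp (Continuous.prodMk continuous_id (continuous_const (y := ((z, t) : ℝ × ℝ))))
    exact this.aestronglyMeasurable
  have e1 : (∫ α in (0 : ℝ)..a, ∫ β in (0 : ℝ)..b, ∫ α' in (0 : ℝ)..a', ∫ β' in (0 : ℝ)..b',
        F α β α' β')
      = ∫ α in (0 : ℝ)..a, ∫ β in (0 : ℝ)..b, ∫ p, F α β p.1 p.2 ∂(box841 a' b') := by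
    refine intervalIntegral.integral_congr fun α _ => ?_
    refine intervalIntegral.integral_congr fun β _ => ?_
    exact dbl841 ha' hb' (hx α β)
  have e2 : (∫ α in (0 : ℝ)..a, ∫ β in (0 : ℝ)..b, ∫ p, F α β p.1 p.2 ∂(box841 a' b'))
      = ∫ x, (∫ p, F x.1 x.2 p.1 p.2 ∂(box841 a' b')) ∂(box841 a b) :=
    dbl841 (G := fun α β => ∫ p, F α β p.1 p.2 ∂(box841 a' b')) ha hb0 hF.integral_prod_left
  have e3 : (∫ x, (∫ p, F x.1 x.2 p.1 p.2 ∂(box841 a' b')) ∂(box841 a b))
      = ∫ p, (∫ x, F x.1 x.2 p.1 p.2 ∂(box841 a b)) ∂(box841 a' b') :=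
    integral_integral_swap (f := fun (x : ℝ × ℝ) (p : ℝ × ℝ) => F x.1 x.2 p.1 p.2) hF
  have e4 : (∫ p, (∫ x, F x.1 x.2 p.1 p.2 ∂(box841 a b)) ∂(box841 a' b'))
      = ∫ α' in (0 : ℝ)..a', ∫ β' in (0 : ℝ)..b', ∫ x, F x.1 x.2 α' β' ∂(box841 a b) :=
    (dbl841 (G := fun α' β' => ∫ x, F x.1 x.2 α' β' ∂(box841 a b)) ha' hb'
      hF.integral_prod_right).symm
  have e5 : (∫ α' in (0 : ℝ)..a', ∫ β' in (0 : ℝ)..b', ∫ x, F x.1 x.2 α' β' ∂(box841 a b))
      = ∫ α' in (0 : ℝ)..a', ∫ β' in (0 : ℝ)..b', ∫ α in (0 : ℝ)..a, ∫ β in (0 : ℝ)..b,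
        F α β α' β' := by
    refine intervalIntegral.integral_congr fun α' _ => ?_
    refine intervalIntegral.integral_congr fun β' _ => ?_
    exact (dbl841 ha hb0 (hy α' β')).symm
  rw [e1, e2, e3, e4, e5]

end Fermat.Agent.LT.T2.H841

end

end
-- ===== PACK-END LT/T2/H841/Fubini.lean

-- ===== PACK-BEGIN LT/T2/H322/MeanAbs.lean
section


/-!
# Row LT, tower T2, sub-leaf T2.07.15 (helper322): the abstract mean-value bound

OFF-MAIN, Mathlib only.  `(X, μ)`, `(P, ρ)` finite measure spaces, `u : X → P → ℂ` jointly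
measurable and bounded, `∫ ‖u(g,p)‖² dμ(g) ≤ N` for every `p`, `‖v(g)‖ ≤ ∫ ‖u(g,p)‖ dρ(p)`.
Then `∫ ‖v‖² dμ ≤ ρ(P)² N` (Cauchy--Schwarz in `p`, Fubini).
-/

set_option autoImplicit false

open MeasureTheory

noncomputable section

namespace Fermat.Agent.LT.T2.H322

/-- Cauchy--Schwarz on a finite measure space: `(∫ a)² ≤ ρ(P) ∫ a²`. -/
theorem sq_integral_le322 {P : Type*} [MeasurableSpace P] (ρ : Measure P) [IsFiniteMeasure ρ]
    (a : P → ℝ) (ha : Integrable a ρ) (ha2 : Integrable (fun p => a p ^ 2) ρ) :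
    (∫ p, a p ∂ρ) ^ 2 ≤ ρ.real Set.univ * ∫ p, a p ^ 2 ∂ρ := by
  have key : ∀ m : ℝ,
      0 ≤ ρ.real Set.univ * (m * m) + (-2 * ∫ p, a p ∂ρ) * m + ∫ p, a p ^ 2 ∂ρ := by
    intro m
    have h1 : 0 ≤ ∫ p, (a p - m) ^ 2 ∂ρ := integral_nonneg (fun p => sq_nonneg _)
    have h2 : ∫ p, (a p - m) ^ 2 ∂ρ = ∫ p, ((a p ^ 2 - 2 * m * a p) + m ^ 2) ∂ρ := by
      congr 1; ext p; ring
    have h3 : ∫ p, ((a p ^ 2 - 2 * m * a p) + m ^ 2) ∂ρ
        = ∫ p, a p ^ 2 ∂ρ - 2 * m * ∫ p, a p ∂ρ + ρ.real Set.univ * m ^ 2 := by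
      have e1 := integral_add (μ := ρ) (f := fun p => a p ^ 2 - 2 * m * a p)
        (g := fun _ => m ^ 2) (ha2.sub (ha.const_mul _)) (integrable_const _)
      have e2 := integral_sub (μ := ρ) (f := fun p => a p ^ 2)
        (g := fun p => 2 * m * a p) ha2 (ha.const_mul _)
      have e3 : ∫ p, 2 * m * a p ∂ρ = 2 * m * ∫ p, a p ∂ρ := integral_const_mul _ _
      have e4 : ∫ _p : P, m ^ 2 ∂ρ = ρ.real Set.univ * m ^ 2 := by
        rw [integral_const, smul_eq_mul]
      rw [e1, e2, e3, e4]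
    rw [h2, h3] at h1
    nlinarith [h1]
  have h := discrim_le_zero key
  unfold discrim at h
  nlinarith [h]

/-- **The abstract mean-value bound.** -/
theorem abs_mean_bound322 {X P : Type*} [MeasurableSpace X] [MeasurableSpace P]
    (μ : Measure X) [IsFiniteMeasure μ] (ρ : Measure P) [IsFiniteMeasure ρ]
    (u : X → P → ℂ) (hu : Measurable (Function.uncurry u))
    (B : ℝ) (hB : ∀ g p, ‖u g p‖ ≤ B)
    (N : ℝ) (hN : ∀ p, ∫ g, ‖u g p‖ ^ 2 ∂μ ≤ N)
    (v : X → ℂ) (hv : ∀ g, ‖v g‖ ≤ ∫ p, ‖u g p‖ ∂ρ) :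
    ∫ g, ‖v g‖ ^ 2 ∂μ ≤ ρ.real Set.univ ^ 2 * N := by
  -- the two real functions on the product
  have hm1 : Measurable (fun z : X × P => ‖u z.1 z.2‖) := hu.norm
  have hm2 : Measurable (fun z : X × P => ‖u z.1 z.2‖ ^ 2) := hm1.pow_const 2
  have hi2 : Integrable (fun z : X × P => ‖u z.1 z.2‖ ^ 2) (μ.prod ρ) := by
    refine Integrable.of_bound hm2.aestronglyMeasurable (B ^ 2) (Filter.Eventually.of_forall ?_)
    intro z
    rw [Real.norm_eq_abs, abs_of_nonneg (by positivity)]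
    exact pow_le_pow_left₀ (norm_nonneg _) (hB _ _) 2
  -- sections
  have hs1 : ∀ g, Integrable (fun p => ‖u g p‖) ρ := by
    intro g
    have hmg : Measurable (fun p => ‖u g p‖) := hm1.comp measurable_prodMk_left
    refine Integrable.of_bound hmg.aestronglyMeasurable B (Filter.Eventually.of_forall ?_)
    intro p
    rw [Real.norm_eq_abs, abs_of_nonneg (norm_nonneg _)]
    exact hB g p
  have hs2 : ∀ g, Integrable (fun p => ‖u g p‖ ^ 2) ρ := by
    intro g
    have hmg : Measurable (fun p => ‖u g p‖ ^ 2) := hm2.comp measurable_prodMk_left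
    refine Integrable.of_bound hmg.aestronglyMeasurable (B ^ 2) (Filter.Eventually.of_forall ?_)
    intro p
    rw [Real.norm_eq_abs, abs_of_nonneg (by positivity)]
    exact pow_le_pow_left₀ (norm_nonneg _) (hB _ _) 2
  -- Step 1: pointwise Cauchy--Schwarz
  have step1 : ∀ g, ‖v g‖ ^ 2 ≤ ρ.real Set.univ * ∫ p, ‖u g p‖ ^ 2 ∂ρ := by
    intro g
    have h1 : ‖v g‖ ^ 2 ≤ (∫ p, ‖u g p‖ ∂ρ) ^ 2 :=
      pow_le_pow_left₀ (norm_nonneg _) (hv g) 2
    exact h1.trans (sq_integral_le322 ρ _ (hs1 g) (hs2 g))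
  -- Step 2: integrate in `g`
  have hI : Integrable (fun g => ∫ p, ‖u g p‖ ^ 2 ∂ρ) μ := hi2.integral_prod_left
  have step2 : ∫ g, ‖v g‖ ^ 2 ∂μ ≤ ∫ g, ρ.real Set.univ * ∫ p, ‖u g p‖ ^ 2 ∂ρ ∂μ := by
    refine integral_mono_of_nonneg (Filter.Eventually.of_forall fun g => by positivity)
      (hI.const_mul _) (Filter.Eventually.of_forall step1)
  -- Step 3: Fubini
  have step3 : ∫ g, ∫ p, ‖u g p‖ ^ 2 ∂ρ ∂μ = ∫ p, ∫ g, ‖u g p‖ ^ 2 ∂μ ∂ρ :=
    integral_integral_swap (f := fun g p => ‖u g p‖ ^ 2) hi2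
  have hJ : Integrable (fun p => ∫ g, ‖u g p‖ ^ 2 ∂μ) ρ := hi2.integral_prod_right
  have step4 : ∫ p, ∫ g, ‖u g p‖ ^ 2 ∂μ ∂ρ ≤ ρ.real Set.univ * N := by
    have h := integral_mono hJ (integrable_const N) hN
    rwa [integral_const, smul_eq_mul] at h
  have hR : 0 ≤ ρ.real Set.univ := measureReal_nonneg
  calc ∫ g, ‖v g‖ ^ 2 ∂μ ≤ ∫ g, ρ.real Set.univ * ∫ p, ‖u g p‖ ^ 2 ∂ρ ∂μ := step2
    _ = ρ.real Set.univ * ∫ g, ∫ p, ‖u g p‖ ^ 2 ∂ρ ∂μ := integral_const_mul _ _
    _ = ρ.real Set.univ * ∫ p, ∫ g, ‖u g p‖ ^ 2 ∂μ ∂ρ := by rw [step3]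
    _ ≤ ρ.real Set.univ * (ρ.real Set.univ * N) := mul_le_mul_of_nonneg_left step4 hR
    _ = ρ.real Set.univ ^ 2 * N := by ring

end Fermat.Agent.LT.T2.H322

end

end
-- ===== PACK-END LT/T2/H322/MeanAbs.lean

-- ===== PACK-BEGIN LT/T2/H907/Mat2.lean
section


/-!
# Row LT, tower T2, leaf T2.06 (helper907): 2×2 complex matrices

`frob907 M = ∑ |M i j|²` (the square of the Frobenius norm), its invariance under unitary
matrices and under inversion (after division by `|det M|`), the inequality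
`2 |det M| ≤ frob907 M` and its equality case `M Mᴴ = |det M| • 1`.

Mathlib only.
-/

open Matrix

noncomputable section

namespace Fermat.Agent.LT.T2.H907

/-- The square of the Frobenius norm of a `2 × 2` complex matrix. -/
def frob907 (M : Matrix (Fin 2) (Fin 2) ℂ) : ℝ := ∑ i, ∑ j, Complex.normSq (M i j)

theorem frob907_eq (M : Matrix (Fin 2) (Fin 2) ℂ) :
    frob907 M = Complex.normSq (M 0 0) + Complex.normSq (M 0 1)
      + (Complex.normSq (M 1 0) + Complex.normSq (M 1 1)) := by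
  simp [frob907, Fin.sum_univ_two]

theorem frob907_nonneg (M : Matrix (Fin 2) (Fin 2) ℂ) : 0 ≤ frob907 M :=
  Finset.sum_nonneg fun _ _ => Finset.sum_nonneg fun _ _ => Complex.normSq_nonneg _

theorem frob907_eq_re_trace (M : Matrix (Fin 2) (Fin 2) ℂ) :
    frob907 M = (M * Mᴴ).trace.re := by
  rw [frob907_eq]
  simp only [Matrix.trace, Matrix.diag, Matrix.mul_apply, Matrix.conjTranspose_apply,
    Fin.sum_univ_two, Complex.add_re, RCLike.star_def, Complex.mul_conj, Complex.ofReal_re]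

theorem conjTranspose_mul_self_of_mul_conjTranspose907 {U : Matrix (Fin 2) (Fin 2) ℂ}
    (hU : U * Uᴴ = 1) : Uᴴ * U = 1 :=
  mul_eq_one_comm.mp hU

theorem frob907_mul_unitary (M : Matrix (Fin 2) (Fin 2) ℂ) {U : Matrix (Fin 2) (Fin 2) ℂ}
    (hU : U * Uᴴ = 1) : frob907 (M * U) = frob907 M := by
  rw [frob907_eq_re_trace, frob907_eq_re_trace, Matrix.conjTranspose_mul]
  have : M * U * (Uᴴ * Mᴴ) = M * Mᴴ := by
    rw [Matrix.mul_assoc, ← Matrix.mul_assoc U, hU, Matrix.one_mul]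
  rw [this]

theorem frob907_unitary_mul (M : Matrix (Fin 2) (Fin 2) ℂ) {U : Matrix (Fin 2) (Fin 2) ℂ}
    (hU : U * Uᴴ = 1) : frob907 (U * M) = frob907 M := by
  rw [frob907_eq_re_trace, frob907_eq_re_trace, Matrix.conjTranspose_mul]
  have h0 : U * M * (Mᴴ * Uᴴ) = U * (M * Mᴴ) * Uᴴ := by
    simp only [Matrix.mul_assoc]
  have h1 : (U * M * (Mᴴ * Uᴴ)).trace = (Uᴴ * U * (M * Mᴴ)).trace := by
    rw [h0, Matrix.trace_mul_comm, Matrix.mul_assoc]
  rw [h1, conjTranspose_mul_self_of_mul_conjTranspose907 hU, Matrix.one_mul]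

theorem norm_det_of_unitary907 {U : Matrix (Fin 2) (Fin 2) ℂ} (hU : U * Uᴴ = 1) :
    ‖U.det‖ = 1 := by
  have h := congrArg Matrix.det hU
  rw [Matrix.det_mul, Matrix.det_conjTranspose, Matrix.det_one] at h
  have h2 : Complex.normSq U.det = 1 := by
    have := congrArg Complex.re h
    rw [RCLike.star_def, Complex.mul_conj] at this
    simpa using this
  rw [Complex.normSq_eq_norm_sq] at h2
  have h3 : ‖U.det‖ ^ 2 = 1 ^ 2 := by rw [h2]; norm_num
  exact (sq_eq_sq₀ (norm_nonneg _) zero_le_one).mp h3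

/-- The Lagrange identity `(∑|M i j|²)² - 4 |det M|² = (p - s)² + 4 |q|²`. -/
theorem frob907_sq_sub (M : Matrix (Fin 2) (Fin 2) ℂ) :
    frob907 M ^ 2 - 4 * Complex.normSq M.det
      = (Complex.normSq (M 0 0) + Complex.normSq (M 0 1)
          - (Complex.normSq (M 1 0) + Complex.normSq (M 1 1))) ^ 2
        + 4 * Complex.normSq (M 0 0 * (starRingEnd ℂ) (M 1 0)
            + M 0 1 * (starRingEnd ℂ) (M 1 1)) := by
  rw [frob907_eq, Matrix.det_fin_two]
  simp only [Complex.normSq_apply, Complex.add_re, Complex.add_im, Complex.sub_re,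
    Complex.sub_im, Complex.mul_re, Complex.mul_im, Complex.conj_re, Complex.conj_im]
  ring

theorem two_norm_det_le_frob907 (M : Matrix (Fin 2) (Fin 2) ℂ) : 2 * ‖M.det‖ ≤ frob907 M := by
  have h := frob907_sq_sub M
  have h1 : 0 ≤ frob907 M ^ 2 - 4 * Complex.normSq M.det := by
    rw [h]
    have := Complex.normSq_nonneg (M 0 0 * (starRingEnd ℂ) (M 1 0)
      + M 0 1 * (starRingEnd ℂ) (M 1 1))
    positivity
  rw [Complex.normSq_eq_norm_sq] at h1
  have h2 : (2 * ‖M.det‖) ^ 2 ≤ frob907 M ^ 2 := by nlinarith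
  exact (sq_le_sq₀ (by positivity) (frob907_nonneg M)).mp h2

/-- **Equality case**: `∑ |M i j|² = 2 |det M|` forces `M Mᴴ = |det M| • 1`. -/
theorem mul_conjTranspose_of_frob907_eq {M : Matrix (Fin 2) (Fin 2) ℂ}
    (h : frob907 M = 2 * ‖M.det‖) : M * Mᴴ = ((‖M.det‖ : ℝ) : ℂ) • (1 : Matrix (Fin 2) (Fin 2) ℂ) := by
  have hid := frob907_sq_sub M
  have h0 : frob907 M ^ 2 - 4 * Complex.normSq M.det = 0 := by
    rw [h, Complex.normSq_eq_norm_sq]; ring
  rw [h0] at hid
  set p := Complex.normSq (M 0 0) + Complex.normSq (M 0 1) with hp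
  set s := Complex.normSq (M 1 0) + Complex.normSq (M 1 1) with hs
  set q := M 0 0 * (starRingEnd ℂ) (M 1 0) + M 0 1 * (starRingEnd ℂ) (M 1 1) with hq
  have hqn := Complex.normSq_nonneg q
  have hps : (p - s) ^ 2 = 0 := by nlinarith [sq_nonneg (p - s)]
  have hq0 : Complex.normSq q = 0 := by nlinarith [sq_nonneg (p - s)]
  have hps' : p = s := by
    have := pow_eq_zero_iff (two_ne_zero) |>.mp hps
    linarith
  have hq' : q = 0 := Complex.normSq_eq_zero.mp hq0
  have hsum : p + s = 2 * ‖M.det‖ := by rw [← h, frob907_eq]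
  have hp' : p = ‖M.det‖ := by linarith
  have hs' : s = ‖M.det‖ := by linarith
  have hqc : (starRingEnd ℂ) q = 0 := by rw [hq']; simp
  ext i j
  fin_cases i <;> fin_cases j
  · simp only [Fin.zero_eta, Fin.isValue, Matrix.mul_apply, Matrix.conjTranspose_apply,
      Fin.sum_univ_two, RCLike.star_def, Complex.mul_conj, Matrix.smul_apply, Matrix.one_apply_eq,
      smul_eq_mul, mul_one]
    rw [← hp', hp]
    push_cast
    rfl
  · simp only [Fin.zero_eta, Fin.isValue, Fin.mk_one, Matrix.mul_apply, Matrix.conjTranspose_apply,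
      Fin.sum_univ_two, RCLike.star_def, Matrix.smul_apply, smul_eq_mul]
    rw [Matrix.one_apply_ne (by decide), mul_zero]
    exact hq'
  · simp only [Fin.zero_eta, Fin.isValue, Fin.mk_one, Matrix.mul_apply, Matrix.conjTranspose_apply,
      Fin.sum_univ_two, RCLike.star_def, Matrix.smul_apply, smul_eq_mul]
    rw [Matrix.one_apply_ne (by decide), mul_zero]
    have : M 1 0 * (starRingEnd ℂ) (M 0 0) + M 1 1 * (starRingEnd ℂ) (M 0 1)
        = (starRingEnd ℂ) q := by
      rw [hq]; simp only [map_add, map_mul, Complex.conj_conj]; ring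
    rw [this, hqc]
  · simp only [Fin.mk_one, Fin.isValue, Matrix.mul_apply, Matrix.conjTranspose_apply,
      Fin.sum_univ_two, RCLike.star_def, Complex.mul_conj, Matrix.smul_apply, Matrix.one_apply_eq,
      smul_eq_mul, mul_one]
    rw [← hs', hs]
    push_cast
    rfl

/-- Inversion: `frob (M⁻¹) = frob M / |det M|²` for an invertible `2 × 2` matrix. -/
theorem frob907_inv {M N : Matrix (Fin 2) (Fin 2) ℂ} (h : M * N = 1) :
    frob907 N * ‖M.det‖ ^ 2 = frob907 M := by
  have hdet : M.det * N.det = 1 := by rw [← Matrix.det_mul, h, Matrix.det_one]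
  have hM : M.det ≠ 0 := left_ne_zero_of_mul_eq_one hdet
  have hN : N = M⁻¹ := (Matrix.inv_eq_right_inv h).symm
  have hNe : ∀ i j, N i j = M.det⁻¹ * (Matrix.adjugate M) i j := by
    intro i j
    rw [hN, Matrix.inv_def, Matrix.smul_apply, smul_eq_mul, Ring.inverse_eq_inv']
  have hn : Complex.normSq M.det ≠ 0 := by
    rw [Ne, Complex.normSq_eq_zero]; exact hM
  rw [← Complex.normSq_eq_norm_sq, frob907_eq, frob907_eq, hNe, hNe, hNe, hNe,
    Matrix.adjugate_fin_two]
  simp only [Matrix.of_apply, Matrix.cons_val', Matrix.cons_val_zero, Matrix.cons_val_one,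
    Matrix.cons_val_fin_one, Complex.normSq_mul, Complex.normSq_inv, Complex.normSq_neg]
  field_simp
  ring

end Fermat.Agent.LT.T2.H907

end

end
-- ===== PACK-END LT/T2/H907/Mat2.lean

-- ===== PACK-BEGIN LT/T6/H219/TensorNorm.lean
section


/-!
# T6.00b (HasseNormQ3, cut of helper438): tool Q1, the norm form on `A ⊗_L M` (helper219)

`M = L(r)`, `r² = -3`, `[M : L] = 2`.  For every commutative `L`-algebra `A` and every
`y : A ⊗_L M` the norm `Algebra.norm A y` is of the form `a² + 3 b²` with `a, b : A`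
(coordinates of `y` in the base-changed basis `{1, 1 ⊗ r}`).  Mathlib only.
-/

set_option autoImplicit false

namespace Fermat.Agent.LT.T6.H219

open TensorProduct

/-- `{1, r}` is linearly independent over `L` when `r ∉ L`. -/
theorem linIndep_one_r219 {L M : Type} [Field L] [Field M] [Algebra L M]
    (r : M) (hrL : ∀ s : L, algebraMap L M s ≠ r) :
    LinearIndependent L ![(1 : M), r] := by
  rw [LinearIndependent.pair_iff]
  intro s t h
  have ht : t = 0 := by
    by_contra ht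
    apply hrL (-(s / t))
    have h1 : t • r = -(s • (1 : M)) := by
      rw [eq_neg_iff_add_eq_zero, add_comm]; exact h
    have h2 : r = t⁻¹ • (t • r) := by rw [smul_smul, inv_mul_cancel₀ ht, one_smul]
    rw [h2, h1, Algebra.algebraMap_eq_smul_one, smul_neg, smul_smul, neg_smul]
    congr 2
    field_simp
  subst ht
  refine ⟨?_, rfl⟩
  rw [zero_smul, add_zero] at h
  have := (smul_eq_zero.mp h)
  simpa using this

/-- The basis `{1, r}` of `M` over `L`. -/
noncomputable def basisOneR219 {L M : Type} [Field L] [Field M] [Algebra L M]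
    (hdeg : Module.finrank L M = 2) (r : M) (hrL : ∀ s : L, algebraMap L M s ≠ r) :
    Module.Basis (Fin 2) L M :=
  basisOfLinearIndependentOfCardEqFinrank (linIndep_one_r219 r hrL) (by simp [hdeg])

theorem basisOneR219_zero {L M : Type} [Field L] [Field M] [Algebra L M]
    (hdeg : Module.finrank L M = 2) (r : M) (hrL : ∀ s : L, algebraMap L M s ≠ r) :
    basisOneR219 hdeg r hrL 0 = 1 := by
  simp [basisOneR219]

theorem basisOneR219_one {L M : Type} [Field L] [Field M] [Algebra L M]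
    (hdeg : Module.finrank L M = 2) (r : M) (hrL : ∀ s : L, algebraMap L M s ≠ r) :
    basisOneR219 hdeg r hrL 1 = r := by
  simp [basisOneR219]

/-- **Q1.**  The norm of any element of `A ⊗_L M` is a value of the form `a² + 3 b²`. -/
theorem norm_tensor_eq219 {L M : Type} [Field L] [Field M] [Algebra L M]
    (hdeg : Module.finrank L M = 2) (r : M) (hr : r ^ 2 = -3)
    (hrL : ∀ s : L, algebraMap L M s ≠ r)
    (A : Type*) [CommRing A] [Algebra L A] (y : A ⊗[L] M) :
    ∃ a b : A, Algebra.norm A y = a ^ 2 + 3 * b ^ 2 := by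
  classical
  set b := basisOneR219 hdeg r hrL with hb
  set B : Module.Basis (Fin 2) A (A ⊗[L] M) := Algebra.TensorProduct.basis A b with hB
  have hB0 : B 0 = 1 := by
    rw [hB, Algebra.TensorProduct.basis_apply, hb, basisOneR219_zero]
    rfl
  have hB1 : B 1 = (1 : A) ⊗ₜ[L] r := by
    rw [hB, Algebra.TensorProduct.basis_apply, hb, basisOneR219_one]
  have hρ : ((1 : A) ⊗ₜ[L] r) * ((1 : A) ⊗ₜ[L] r) = -3 := by
    rw [Algebra.TensorProduct.tmul_mul_tmul, one_mul, ← pow_two, hr]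
    have h := map_neg (Algebra.TensorProduct.includeRight : M →ₐ[L] A ⊗[L] M) (3 : M)
    rw [map_ofNat] at h
    exact h
  have h3 : (-3 : A ⊗[L] M) = (-3 : A) • (1 : A ⊗[L] M) := by
    rw [Algebra.smul_def, mul_one, map_neg, map_ofNat]
  refine ⟨B.repr y 0, B.repr y 1, ?_⟩
  have hy : y = B.repr y 0 • B 0 + B.repr y 1 • B 1 := by
    have := B.sum_repr y
    rw [Fin.sum_univ_two] at this
    exact this.symm
  rw [Algebra.norm_eq_matrix_det B, Matrix.det_fin_two]
  simp only [Algebra.leftMulMatrix_eq_repr_mul]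
  have e0 : y * B 0 = B.repr y 0 • B 0 + B.repr y 1 • B 1 := by
    rw [hB0, mul_one, ← hB0]; exact hy
  have e1 : y * B 1 = (-3 * B.repr y 1) • B 0 + B.repr y 0 • B 1 := by
    conv_lhs => rw [hy]
    rw [add_mul, smul_mul_assoc, smul_mul_assoc, hB0, one_mul, hB1, hρ, h3, smul_smul,
      add_comm, mul_comm]
  rw [e0, e1]
  simp only [map_add, map_smul, Module.Basis.repr_self, Finsupp.add_apply, Finsupp.smul_apply,
    Finsupp.single_apply]
  simp
  ring

end Fermat.Agent.LT.T6.H219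

end
-- ===== PACK-END LT/T6/H219/TensorNorm.lean

-- ===== PACK-BEGIN LT/T6/H296/CutoffAbs.lean
section


/-!
# Row LT, tower T6, sub-tower T6inf, leaf T6inf.09 `CutoffExC` (helper296): abstract part

* `tent296` : an explicit continuous function `ℝ → ℝ`, `≥ 0`, nonzero exactly on `(1/4, 4)`.
* `cutoff_abs296` : the Bruhat trick for a COMMUTATIVE group `T` with Haar measure `μ`:
  if `Ψ : H → ℝ` is continuous, `≥ 0`, and on every orbit `t ↦ Ψ (j t * x)` is a translate
  `t ↦ F (t * s)` of ONE continuous compactly supported function `F ≥ 0`, `F ≠ 0`, on `T`,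
  then `β = Ψ / ∫ F` satisfies `∫ β (j t * x) dμ(t) = 1` for all `x`.
* `isCompact_gl_box296` : the set of `g ∈ GL₂(ℝ)` with all entries of `g` and `g⁻¹` bounded by
  `C` is compact.

OFF-MAIN.  Mathlib only.
-/

set_option autoImplicit false

open MeasureTheory

noncomputable section

namespace Fermat.Agent.LT.T6.H296

/-- The tent function: continuous, `≥ 0`, nonzero exactly on `(1/4, 4)`. -/
def tent296 (u : ℝ) : ℝ := max 0 (min (u - 1 / 4) (4 - u))

theorem tent296_continuous : Continuous tent296 := by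
  unfold tent296
  fun_prop

theorem tent296_nonneg (u : ℝ) : 0 ≤ tent296 u := le_max_left _ _

theorem tent296_ne_zero_iff (u : ℝ) : tent296 u ≠ 0 ↔ 1 / 4 < u ∧ u < 4 := by
  unfold tent296
  constructor
  · intro h
    by_contra hc
    apply h
    apply max_eq_left
    rw [not_and_or] at hc
    rcases hc with hc | hc
    · exact (min_le_left _ _).trans (by linarith [not_lt.mp hc])
    · exact (min_le_right _ _).trans (by linarith [not_lt.mp hc])
  · rintro ⟨h1, h2⟩
    have : 0 < min (u - 1 / 4) (4 - u) := lt_min (by linarith) (by linarith)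
    rw [max_eq_right this.le]
    exact this.ne'

theorem tent296_one_ne_zero : tent296 1 ≠ 0 :=
  (tent296_ne_zero_iff 1).2 ⟨by norm_num, by norm_num⟩

/-- `u ∈ (1/4, 4)` iff `u⁻¹ ∈ (1/4, 4)`, one direction. -/
theorem inv_mem_quarter_four296 {u : ℝ} (h : 1 / 4 < u ∧ u < 4) : 1 / 4 < u⁻¹ ∧ u⁻¹ < 4 := by
  obtain ⟨h1, h2⟩ := h
  have hu : 0 < u := by linarith
  constructor
  · rw [lt_inv_comm₀ (by norm_num) hu]
    norm_num
    exact h2
  · rw [inv_lt_comm₀ hu (by norm_num)]
    norm_num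
    linarith

/-- **The Bruhat trick, commutative case.** -/
theorem cutoff_abs296 {T H : Type*} [Group T] [TopologicalSpace T] [IsTopologicalGroup T]
    [MeasurableSpace T] [BorelSpace T] [TopologicalSpace H] [Mul H]
    (hcomm : ∀ a b : T, a * b = b * a)
    (μ : Measure T) [μ.IsHaarMeasure] (j : T → H) (Ψ : H → ℝ) (hΨc : Continuous Ψ)
    (hΨ0 : ∀ x, 0 ≤ Ψ x)
    (F : T → ℝ) (hFc : Continuous F) (hFs : HasCompactSupport F) (hF0 : ∀ t, 0 ≤ F t)
    (hFne : ∃ t, F t ≠ 0)
    (h : ∀ x : H, ∃ s : T, ∀ t : T, Ψ (j t * x) = F (t * s)) :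
    ∃ β : H → ℝ, Continuous β ∧ (∀ x, 0 ≤ β x) ∧ ∀ x, ∫ t, β (j t * x) ∂μ = 1 := by
  obtain ⟨t₀, ht₀⟩ := hFne
  have hc : 0 < ∫ t, F t ∂μ :=
    hFc.integral_pos_of_hasCompactSupport_nonneg_nonzero hFs hF0 ht₀
  refine ⟨fun x => Ψ x / ∫ t, F t ∂μ, hΨc.div_const _,
    fun x => div_nonneg (hΨ0 x) hc.le, fun x => ?_⟩
  obtain ⟨s, hs⟩ := h x
  have h1 : (fun t => Ψ (j t * x) / ∫ t, F t ∂μ) = fun t => F (s * t) / ∫ t, F t ∂μ := by
    funext t
    rw [hs t, hcomm]
  simp only [h1]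
  rw [integral_div, integral_mul_left_eq_self F s, div_self hc.ne']

/-- The box of `GL₂(ℝ)`: all entries of `g` and of `g⁻¹` are bounded by `C`. -/
def glBox296 (C : ℝ) : Set (GL (Fin 2) ℝ) :=
  {g | (∀ i j, |(g : Matrix (Fin 2) (Fin 2) ℝ) i j| ≤ C) ∧
    ∀ i j, |((g⁻¹ : GL (Fin 2) ℝ) : Matrix (Fin 2) (Fin 2) ℝ) i j| ≤ C}

theorem isCompact_glBox296 (C : ℝ) : IsCompact (glBox296 C) := by
  let KM : Set (Matrix (Fin 2) (Fin 2) ℝ) := {m | ∀ i j, |m i j| ≤ C}
  have hKM : IsCompact KM := by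
    have h1 : KM = Set.pi Set.univ
        (fun _ : Fin 2 => Set.pi Set.univ (fun _ : Fin 2 => Set.Icc (-C) C)) := by
      ext m
      constructor
      · intro h i _ j _
        exact abs_le.1 (h i j)
      · intro h i j
        exact abs_le.2 (h i (Set.mem_univ i) j (Set.mem_univ j))
    rw [h1]
    exact isCompact_univ_pi (fun _ => isCompact_univ_pi (fun _ => isCompact_Icc))
  have hK2 : IsCompact (KM ×ˢ (MulOpposite.op '' KM)) :=
    hKM.prod (hKM.image MulOpposite.continuous_op)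
  have h3 := (Units.isClosedEmbedding_embedProduct
    (α := Matrix (Fin 2) (Fin 2) ℝ)).isCompact_preimage hK2
  convert h3 using 1
  ext g
  rw [Set.mem_preimage, Set.mem_prod]
  constructor
  · rintro ⟨h1, h2⟩
    exact ⟨h1, _, h2, rfl⟩
  · rintro ⟨h1, x, hx, hxe⟩
    refine ⟨h1, ?_⟩
    have hx2 : x = ((g⁻¹ : GL (Fin 2) ℝ) : Matrix (Fin 2) (Fin 2) ℝ) :=
      MulOpposite.op_injective hxe
    rw [← hx2]
    exact hx

end Fermat.Agent.LT.T6.H296

end

end
-- ===== PACK-END LT/T6/H296/CutoffAbs.lean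

-- ===== PACK-BEGIN LT/T6/H559/EllTools.lean
section


/-!
# Row LT, tower T6, leaf T6.28 (ArchEllId) — calculus tools (helper559, OFF-MAIN, Mathlib only)

Tail integrals of a continuous profile vanishing beyond `R`, the exact radial integral,
and integrability of continuous functions on a closed rectangle vanishing outside a compact set.
-/

set_option autoImplicit false

open MeasureTheory Set Real Filter Topology

noncomputable section

namespace Fermat.Agent.LT.T6.H559

/-- The tail integral `Ψ(X) = ∫_X^∞ Φ`. -/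
def tail559 (Φ : ℝ → ℂ) (X : ℝ) : ℂ := ∫ t in Ioi X, Φ t

/-- A profile: continuous and zero beyond `R`. -/
structure IsProfile559 (Φ : ℝ → ℂ) (R : ℝ) : Prop where
  cont : Continuous Φ
  zero : ∀ x, R ≤ x → Φ x = 0

theorem IsProfile559.integrableOn_Ioi {Φ : ℝ → ℂ} {R : ℝ} (h : IsProfile559 Φ R) (X : ℝ) :
    IntegrableOn Φ (Ioi X) := by
  have h1 : IntegrableOn Φ (Icc X (max X R)) :=
    h.cont.continuousOn.integrableOn_compact isCompact_Icc
  refine h1.of_forall_sdiff_eq_zero measurableSet_Ioi ?_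
  intro x hx
  apply h.zero
  have hx1 : X < x := hx.1
  have hx2 : ¬ (X ≤ x ∧ x ≤ max X R) := hx.2
  by_contra hlt
  exact hx2 ⟨hx1.le, le_trans (not_le.mp hlt).le (le_max_right _ _)⟩

theorem IsProfile559.tail_zero {Φ : ℝ → ℂ} {R : ℝ} (h : IsProfile559 Φ R) {X : ℝ} (hX : R ≤ X) :
    tail559 Φ X = 0 := by
  unfold tail559
  apply setIntegral_eq_zero_of_forall_eq_zero
  intro x hx
  exact h.zero x (hX.trans (le_of_lt hx))

theorem IsProfile559.tail_eq {Φ : ℝ → ℂ} {R : ℝ} (h : IsProfile559 Φ R) (a X : ℝ) :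
    tail559 Φ X = tail559 Φ a - ∫ t in a..X, Φ t := by
  unfold tail559
  rw [← intervalIntegral.integral_Ioi_sub_Ioi' (h.integrableOn_Ioi a) (h.integrableOn_Ioi X)]
  ring

theorem IsProfile559.tail_hasDerivAt {Φ : ℝ → ℂ} {R : ℝ} (h : IsProfile559 Φ R) (X : ℝ) :
    HasDerivAt (tail559 Φ) (-Φ X) X := by
  have h1 : HasDerivAt (fun X => ∫ t in (0:ℝ)..X, Φ t) (Φ X) X :=
    intervalIntegral.integral_hasDerivAt_right (h.cont.intervalIntegrable _ _)
      (h.cont.stronglyMeasurableAtFilter _ _) h.cont.continuousAt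
  have h2 : tail559 Φ = fun X => tail559 Φ 0 - ∫ t in (0:ℝ)..X, Φ t := by
    funext X; exact h.tail_eq 0 X
  rw [h2]
  exact h1.const_sub (tail559 Φ 0)

theorem IsProfile559.tail_continuous {Φ : ℝ → ℂ} {R : ℝ} (h : IsProfile559 Φ R) :
    Continuous (tail559 Φ) :=
  continuous_iff_continuousAt.2 fun X => (h.tail_hasDerivAt X).continuousAt

theorem IsProfile559.tail_profile {Φ : ℝ → ℂ} {R : ℝ} (h : IsProfile559 Φ R) :
    IsProfile559 (tail559 Φ) R :=
  ⟨h.tail_continuous, fun _ hx => h.tail_zero hx⟩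

/-- **Exact radial integral**: `∫_{r > r₀} Φ(γ + A r²) r dr = Ψ(γ + A r₀²) / (2A)`. -/
theorem radial559 (Φ : ℝ → ℂ) {A r₀ : ℝ} (γ : ℝ) (hA : 0 < A) (hr : 0 ≤ r₀) :
    ∫ r in Ioi r₀, (r : ℂ) * Φ (γ + A * r ^ 2) = tail559 Φ (γ + A * r₀ ^ 2) / (2 * A) := by
  have himg : (fun r : ℝ => γ + A * r ^ 2) '' Ioi r₀ = Ioi (γ + A * r₀ ^ 2) := by
    ext y
    constructor
    · rintro ⟨r, hr', rfl⟩
      have hr'' : r₀ < r := hr'
      have : r₀ ^ 2 < r ^ 2 := by nlinarith
      show γ + A * r₀ ^ 2 < γ + A * r ^ 2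
      nlinarith
    · intro hy
      have hy' : γ + A * r₀ ^ 2 < y := hy
      have hpos : 0 ≤ (y - γ) / A := by
        apply div_nonneg _ hA.le
        nlinarith [sq_nonneg r₀]
      refine ⟨Real.sqrt ((y - γ) / A), ?_, ?_⟩
      · show r₀ < Real.sqrt ((y - γ) / A)
        apply Real.lt_sqrt_of_sq_lt
        rw [lt_div_iff₀ hA]
        nlinarith
      · show γ + A * Real.sqrt ((y - γ) / A) ^ 2 = y
        rw [Real.sq_sqrt hpos]
        field_simp
        ring
  have hinj : InjOn (fun r : ℝ => γ + A * r ^ 2) (Ioi r₀) := by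
    intro x hx y hy hxy
    have hx' : r₀ < x := hx
    have hy' : r₀ < y := hy
    have h1 : A * x ^ 2 = A * y ^ 2 := by simpa using hxy
    have h2 : x ^ 2 = y ^ 2 := mul_left_cancel₀ hA.ne' h1
    have hx0 : 0 ≤ x := hr.trans hx'.le
    have hy0 : 0 ≤ y := hr.trans hy'.le
    exact (sq_eq_sq₀ hx0 hy0).1 h2
  have hder : ∀ x ∈ Ioi r₀, HasDerivWithinAt (fun r : ℝ => γ + A * r ^ 2) (2 * A * x) (Ioi r₀) x := by
    intro x _
    have : HasDerivAt (fun r : ℝ => γ + A * r ^ 2) (A * (2 * x ^ 1 * 1)) x :=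
      ((hasDerivAt_id x).pow 2 |>.const_mul A).const_add γ
    have h2 : A * (2 * x ^ 1 * 1) = 2 * A * x := by ring
    rw [h2] at this
    exact this.hasDerivWithinAt
  have key := integral_image_eq_integral_abs_deriv_smul measurableSet_Ioi hder hinj Φ
  rw [himg] at key
  unfold tail559
  rw [key]
  have hcongr : ∫ x in Ioi r₀, |2 * A * x| • Φ (γ + A * x ^ 2)
      = ∫ x in Ioi r₀, ((2 * A : ℝ) : ℂ) * ((x : ℂ) * Φ (γ + A * x ^ 2)) := by
    apply setIntegral_congr_fun measurableSet_Ioi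
    intro x hx
    have hx' : r₀ < x := hx
    have hx0 : 0 ≤ x := hr.trans hx'.le
    have : |2 * A * x| = 2 * A * x := abs_of_nonneg (by positivity)
    simp only [this, Complex.real_smul]
    push_cast
    ring
  rw [hcongr, integral_const_mul]
  have hA' : (A : ℂ) ≠ 0 := by exact_mod_cast hA.ne'
  push_cast
  field_simp

/-- Integrability on a closed product region of a function continuous on it and vanishing on it
outside a compact set. -/
theorem integrableOn_prod559 {f : ℝ × ℝ → ℂ} {S K : Set (ℝ × ℝ)} (hS : IsClosed S)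
    (hK : IsCompact K) (hf : ContinuousOn f S) (h0 : ∀ p ∈ S, p ∉ K → f p = 0) :
    IntegrableOn f S (volume : Measure (ℝ × ℝ)) := by
  have h1 : IntegrableOn f (S ∩ K) (volume : Measure (ℝ × ℝ)) :=
    (hf.mono inter_subset_left).integrableOn_compact (hK.inter_left hS)
  refine h1.of_forall_sdiff_eq_zero hS.measurableSet ?_
  intro p hp
  exact h0 p hp.1 (fun hpK => hp.2 ⟨hp.1, hpK⟩)

end Fermat.Agent.LT.T6.H559

end
end
-- ===== PACK-END LT/T6/H559/EllTools.lean

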