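import Mathlib
import Fermat.Agent.Pack.LT2.E21L0
import Fermat.Agent.Pack.LT2.E21L1

set_option linter.all false

-- ===== PACK-BEGIN LT/CFT/H116/ExtIdx2Core.lean
section


/-!
# Row LT, tower CFT, leaf CFT.16.E2.2 `ExtIdx2C589` — Mathlib-only core (helper116), OFF-MAIN

Extension of a homomorphism `Φ₁ : H₁ → A` (`A` abelian) from a subgroup `H₁ ≤ H` of index `2`
to `H`, given `φ₀ ∈ H ∖ H₁`, `a₀ ∈ A` with `Φ₁(φ₀²) = a₀²` and `Φ₁(φ₀ c φ₀⁻¹) = Φ₁(c)`.
-/

set_option autoImplicit false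

namespace Fermat.Agent.LT.CFT.H116

section

variable {G : Type} [Group G] {H H₁ : Subgroup G} {A : Type} [CommGroup A]

/-- index two, in terms of elements of `G`. -/
theorem mul_mem_iff116 (hidx : (H₁.subgroupOf H).index = 2) {a b : G} (ha : a ∈ H)
    (hb : b ∈ H) : a * b ∈ H₁ ↔ (a ∈ H₁ ↔ b ∈ H₁) := by
  have h := Subgroup.mul_mem_iff_of_index_two hidx (a := (⟨a, ha⟩ : ↥H)) (b := ⟨b, hb⟩)
  simpa [Subgroup.mem_subgroupOf] using h

theorem inv_mem_iff116 {a : G} : a⁻¹ ∈ H₁ ↔ a ∈ H₁ := Subgroup.inv_mem_iff H₁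

/-- The core statement. -/
theorem extIdx2_core116 (Φ₁ : ↥H₁ →* A) (φ₀ : G) (a₀ : A) (hle : H₁ ≤ H)
    (hidx : (H₁.subgroupOf H).index = 2) (h0 : φ₀ ∈ H) (h0' : φ₀ ∉ H₁)
    (hsq : ∀ h : φ₀ * φ₀ ∈ H₁, Φ₁ ⟨φ₀ * φ₀, h⟩ = a₀ * a₀)
    (hconj : ∀ (c : ↥H₁) (h : φ₀ * (c : G) * φ₀⁻¹ ∈ H₁),
      Φ₁ ⟨φ₀ * (c : G) * φ₀⁻¹, h⟩ = Φ₁ c) :
    ∃ Φ : ↥H →* A, (∀ (c : ↥H) (hc : (c : G) ∈ H₁), Φ c = Φ₁ ⟨(c : G), hc⟩) ∧
      ∀ h : φ₀ ∈ H, Φ ⟨φ₀, h⟩ = a₀ := by
  classical
  have h0i : φ₀⁻¹ ∈ H := H.inv_mem h0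
  have h0i' : φ₀⁻¹ ∉ H₁ := fun h => h0' (inv_mem_iff116.1 h)
  -- elements outside `H₁`
  have hout : ∀ x : G, x ∈ H → x ∉ H₁ → x * φ₀⁻¹ ∈ H₁ := by
    intro x hx hx'
    rw [mul_mem_iff116 hidx hx h0i]
    exact ⟨fun h => absurd h hx', fun h => absurd h h0i'⟩
  -- the squares
  have hsqm : φ₀ * φ₀ ∈ H₁ := by
    rw [mul_mem_iff116 hidx h0 h0]
  -- conjugation
  have hcm : ∀ c : G, c ∈ H₁ → φ₀ * c * φ₀⁻¹ ∈ H₁ := by
    intro c hc
    have h1 : φ₀ * c ∈ H := H.mul_mem h0 (hle hc)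
    rw [mul_mem_iff116 hidx h1 h0i]
    have h2 : φ₀ * c ∉ H₁ := by
      rw [mul_mem_iff116 hidx h0 (hle hc)]
      exact fun h => h0' (h.2 hc)
    exact ⟨fun h => absurd h h2, fun h => absurd h h0i'⟩
  -- the map
  let f : ↥H → A := fun x =>
    if hx : (x : G) ∈ H₁ then Φ₁ ⟨(x : G), hx⟩
    else Φ₁ ⟨(x : G) * φ₀⁻¹, hout x x.2 hx⟩ * a₀
  have hf_in : ∀ (x : ↥H) (hx : (x : G) ∈ H₁), f x = Φ₁ ⟨(x : G), hx⟩ := by
    intro x hx
    simp only [f, dif_pos hx]
  have hf_out : ∀ (x : ↥H) (hx : (x : G) ∉ H₁),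
      f x = Φ₁ ⟨(x : G) * φ₀⁻¹, hout x x.2 hx⟩ * a₀ := by
    intro x hx
    simp only [f, dif_neg hx]
  have hmul : ∀ x y : ↥H, f (x * y) = f x * f y := by
    intro x y
    by_cases hx : (x : G) ∈ H₁
    · by_cases hy : (y : G) ∈ H₁
      · have hxy : ((x * y : ↥H) : G) ∈ H₁ := by
          rw [Subgroup.coe_mul]; exact H₁.mul_mem hx hy
        rw [hf_in _ hxy, hf_in _ hx, hf_in _ hy, ← map_mul]
        rfl
      · have hxy : ((x * y : ↥H) : G) ∉ H₁ := by
          rw [Subgroup.coe_mul, mul_mem_iff116 hidx x.2 y.2]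
          exact fun h => hy (h.1 hx)
        rw [hf_out _ hxy, hf_in _ hx, hf_out _ hy, ← mul_assoc, ← map_mul]
        congr 2
        apply Subtype.ext
        simp [mul_assoc]
    · by_cases hy : (y : G) ∈ H₁
      · have hxy : ((x * y : ↥H) : G) ∉ H₁ := by
          rw [Subgroup.coe_mul, mul_mem_iff116 hidx x.2 y.2]
          exact fun h => hx (h.2 hy)
        rw [hf_out _ hxy, hf_out _ hx, hf_in _ hy]
        have e1 : (⟨((x * y : ↥H) : G) * φ₀⁻¹, hout _ (x * y).2 hxy⟩ : ↥H₁)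
            = ⟨(x : G) * φ₀⁻¹, hout x x.2 hx⟩ * ⟨φ₀ * (y : G) * φ₀⁻¹, hcm y hy⟩ := by
          apply Subtype.ext
          simp [mul_assoc]
        rw [e1, map_mul, hconj ⟨(y : G), hy⟩ (hcm y hy)]
        rw [mul_assoc, mul_assoc, mul_comm (Φ₁ ⟨(y : G), hy⟩) a₀]
      · have hxy : ((x * y : ↥H) : G) ∈ H₁ := by
          rw [Subgroup.coe_mul, mul_mem_iff116 hidx x.2 y.2]
          exact ⟨fun h => absurd h hx, fun h => absurd h hy⟩
        rw [hf_in _ hxy, hf_out _ hx, hf_out _ hy]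
        have hy1 : (y : G) * φ₀⁻¹ ∈ H₁ := hout y y.2 hy
        have e1 : (⟨((x * y : ↥H) : G), hxy⟩ : ↥H₁)
            = ⟨(x : G) * φ₀⁻¹, hout x x.2 hx⟩ *
              ⟨φ₀ * ((y : G) * φ₀⁻¹) * φ₀⁻¹, hcm _ hy1⟩ * ⟨φ₀ * φ₀, hsqm⟩ := by
          apply Subtype.ext
          simp [mul_assoc]
        rw [e1, map_mul, map_mul, hsq hsqm, hconj ⟨(y : G) * φ₀⁻¹, hy1⟩ (hcm _ hy1)]
        simp only [mul_assoc]
        congr 1
        rw [mul_left_comm]
  refine ⟨MonoidHom.mk' f hmul, ?_, ?_⟩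
  · intro c hc
    exact hf_in c hc
  · intro h
    show f ⟨φ₀, h⟩ = a₀
    rw [hf_out ⟨φ₀, h⟩ h0']
    have e1 : (⟨((⟨φ₀, h⟩ : ↥H) : G) * φ₀⁻¹, hout _ h h0'⟩ : ↥H₁) = 1 := by
      apply Subtype.ext
      simp
    rw [e1, map_one, one_mul]

end

end Fermat.Agent.LT.CFT.H116

end
-- ===== PACK-END LT/CFT/H116/ExtIdx2Core.lean

-- ===== PACK-BEGIN LT/CFT/H276/Ray2Core.lean
section


/-!
# Row LT, tower CFT, leaf CFT.16.E2.3 `Ray2C589` (registry 1763, helper276): the CORE, OFF-MAIN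

Mathlib only.  The RAY CLASS MONOID modulo a proper non-zero ideal `𝔪` of the ring of integers
of a number field: ideals prime to `𝔪` modulo `I ∼ J ⇔ (a) I = (b) J`, `a ≡ b ≡ 1 mod 𝔪`.

* `RayM276 𝔪`, `rayCon276 𝔪` : the monoid and the congruence;
* `isUnit_mk276` : every class is invertible (the quotient is a GROUP);
* `finite_rayCl276` : the quotient is FINITE (surjection from `Cl(𝓞 K) × 𝓞 K / 𝔪`);
* `principal_of_rel_one276` : `I ∼ 1 ⇒ I = (c)`, `c ≡ 1 mod 𝔪`;
* `exists_two_part276` : the `2`-primary quotient `A` of a finite commutative group `U`, as the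
  image of `x ↦ x ^ m`, `m` odd.
-/

set_option autoImplicit false
set_option linter.unusedSectionVars false

open NumberField

noncomputable section

namespace Fermat.Agent.LT.CFT.H276

variable {K : Type} [Field K] [NumberField K]

/-! ## 1. Elementary facts on `x ≡ 1 mod 𝔪` and coprimality -/

theorem sub_one_mul_mem276 {𝔪 : Ideal (𝓞 K)} {a b : 𝓞 K} (ha : a - 1 ∈ 𝔪) (hb : b - 1 ∈ 𝔪) :
    a * b - 1 ∈ 𝔪 := by
  have : a * b - 1 = a * (b - 1) + (a - 1) := by ring
  rw [this]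
  exact 𝔪.add_mem (𝔪.mul_mem_left _ hb) ha

theorem ne_zero_of_sub_one_mem276 {𝔪 : Ideal (𝓞 K)} (htop : 𝔪 ≠ ⊤) {a : 𝓞 K}
    (ha : a - 1 ∈ 𝔪) : a ≠ 0 := by
  rintro rfl
  apply htop
  rw [Ideal.eq_top_iff_one]
  have : (1 : 𝓞 K) = -(0 - 1) := by ring
  rw [this]
  exact 𝔪.neg_mem ha

theorem isCoprime_span_iff276 {𝔪 : Ideal (𝓞 K)} {x : 𝓞 K} :
    IsCoprime (Ideal.span {x}) 𝔪 ↔ ∃ z : 𝓞 K, x * z - 1 ∈ 𝔪 := by
  rw [Ideal.isCoprime_iff_exists]
  constructor
  · rintro ⟨i, hi, j, hj, hij⟩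
    obtain ⟨z, rfl⟩ := Ideal.mem_span_singleton'.mp hi
    refine ⟨z, ?_⟩
    have : x * z - 1 = -j := by rw [← hij, mul_comm]; ring
    rw [this]
    exact 𝔪.neg_mem hj
  · rintro ⟨z, hz⟩
    refine ⟨x * z, Ideal.mem_span_singleton'.mpr ⟨z, mul_comm _ _⟩, -(x * z - 1),
      𝔪.neg_mem hz, by ring⟩

theorem isCoprime_span_of_sub_one276 {𝔪 : Ideal (𝓞 K)} {x : 𝓞 K} (hx : x - 1 ∈ 𝔪) :
    IsCoprime (Ideal.span {x}) 𝔪 :=
  isCoprime_span_iff276.mpr ⟨1, by rwa [mul_one]⟩

/-- Coprimality of `(x)` to `𝔪` depends on `x mod 𝔪` only. -/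
theorem isCoprime_span_congr276 {𝔪 : Ideal (𝓞 K)} {x y : 𝓞 K} (h : x - y ∈ 𝔪)
    (hx : IsCoprime (Ideal.span {x}) 𝔪) : IsCoprime (Ideal.span {y}) 𝔪 := by
  obtain ⟨z, hz⟩ := isCoprime_span_iff276.mp hx
  refine isCoprime_span_iff276.mpr ⟨z, ?_⟩
  have : y * z - 1 = (x * z - 1) - (x - y) * z := by ring
  rw [this]
  exact 𝔪.sub_mem hz (𝔪.mul_mem_right _ h)

theorem ne_bot_of_isCoprime276 {𝔪 I : Ideal (𝓞 K)} (htop : 𝔪 ≠ ⊤) (h : IsCoprime I 𝔪) :
    I ≠ ⊥ := by
  rintro rfl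
  rw [Ideal.isCoprime_iff_sup_eq, bot_sup_eq] at h
  exact htop h

/-- For nonzero ideals `J`, `𝔪` there is an ideal `𝔟` coprime to `𝔪` with `J * 𝔟` principal. -/
theorem exists_coprime_mul_span276 (J 𝔪 : Ideal (𝓞 K)) (hJ : J ≠ ⊥) (hm : 𝔪 ≠ ⊥) :
    ∃ (𝔟 : Ideal (𝓞 K)) (z : 𝓞 K), IsCoprime 𝔟 𝔪 ∧ J * 𝔟 = Ideal.span {z} := by
  have h1 : J * 𝔪 ≤ J := Ideal.mul_le_left
  have h2 : J * 𝔪 ≠ 0 := mul_ne_zero hJ hm
  obtain ⟨a, ha⟩ := IsDedekindDomain.exists_sup_span_eq h1 h2
  have haJ : Ideal.span {a} ≤ J := by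
    rw [← ha]
    exact le_sup_right
  obtain ⟨𝔟, h𝔟⟩ := Ideal.dvd_iff_le.mpr haJ
  refine ⟨𝔟, a, ?_, h𝔟.symm⟩
  rw [Ideal.isCoprime_iff_sup_eq]
  have h3 : J * (𝔟 ⊔ 𝔪) = J * ⊤ := by
    rw [Ideal.mul_sup, ← h𝔟, Ideal.mul_top, sup_comm]
    exact ha
  exact mul_left_cancel₀ hJ h3

/-! ## 2. The ray congruence -/

/-- `I ∼ J`: `(a) I = (b) J` with `a ≡ b ≡ 1 mod 𝔪`. -/
def rayRel276 (𝔪 : Ideal (𝓞 K)) (I J : Ideal (𝓞 K)) : Prop :=
  ∃ a b : 𝓞 K, a - 1 ∈ 𝔪 ∧ b - 1 ∈ 𝔪 ∧ Ideal.span {a} * I = Ideal.span {b} * J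

theorem rayRel_refl276 (𝔪 : Ideal (𝓞 K)) (I : Ideal (𝓞 K)) : rayRel276 𝔪 I I :=
  ⟨1, 1, by simp, by simp, rfl⟩

theorem rayRel_symm276 {𝔪 I J : Ideal (𝓞 K)} (h : rayRel276 𝔪 I J) : rayRel276 𝔪 J I := by
  obtain ⟨a, b, ha, hb, hab⟩ := h
  exact ⟨b, a, hb, ha, hab.symm⟩

theorem rayRel_trans276 {𝔪 I J L : Ideal (𝓞 K)} (h1 : rayRel276 𝔪 I J)
    (h2 : rayRel276 𝔪 J L) : rayRel276 𝔪 I L := by
  obtain ⟨a, b, ha, hb, hab⟩ := h1
  obtain ⟨c, d, hc, hd, hcd⟩ := h2
  refine ⟨c * a, b * d, sub_one_mul_mem276 hc ha, sub_one_mul_mem276 hb hd, ?_⟩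
  rw [← Ideal.span_singleton_mul_span_singleton, ← Ideal.span_singleton_mul_span_singleton,
    mul_assoc, hab, ← mul_assoc, mul_comm (Ideal.span {c}), mul_assoc, hcd, mul_assoc]

theorem rayRel_mul276 {𝔪 I J I' J' : Ideal (𝓞 K)} (h1 : rayRel276 𝔪 I J)
    (h2 : rayRel276 𝔪 I' J') : rayRel276 𝔪 (I * I') (J * J') := by
  obtain ⟨a, b, ha, hb, hab⟩ := h1
  obtain ⟨c, d, hc, hd, hcd⟩ := h2
  refine ⟨a * c, b * d, sub_one_mul_mem276 ha hc, sub_one_mul_mem276 hb hd, ?_⟩
  rw [← Ideal.span_singleton_mul_span_singleton, ← Ideal.span_singleton_mul_span_singleton]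
  calc Ideal.span {a} * Ideal.span {c} * (I * I')
      = (Ideal.span {a} * I) * (Ideal.span {c} * I') := by ring
    _ = (Ideal.span {b} * J) * (Ideal.span {d} * J') := by rw [hab, hcd]
    _ = Ideal.span {b} * Ideal.span {d} * (J * J') := by ring

/-- A principal ideal `(x)`, `x ≡ 1 mod 𝔪`, is equivalent to `1`. -/
theorem rayRel_span_one276 {𝔪 : Ideal (𝓞 K)} {x : 𝓞 K} (hx : x - 1 ∈ 𝔪) :
    rayRel276 𝔪 (Ideal.span {x}) 1 :=
  ⟨1, x, by simp, hx, by rw [Ideal.span_singleton_one, Ideal.one_eq_top, Ideal.top_mul,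
    Ideal.mul_top]⟩

/-- `(x) ∼ (y)` if `x ≡ y mod 𝔪` are prime to `𝔪`. -/
theorem rayRel_span_congr276 {𝔪 : Ideal (𝓞 K)} {x y : 𝓞 K} (h : x - y ∈ 𝔪)
    (hx : IsCoprime (Ideal.span {x}) 𝔪) : rayRel276 𝔪 (Ideal.span {x}) (Ideal.span {y}) := by
  obtain ⟨s, hs⟩ := isCoprime_span_iff276.mp hx
  have hs' : y * s - 1 ∈ 𝔪 := by
    have : y * s - 1 = (x * s - 1) - (x - y) * s := by ring
    rw [this]
    exact 𝔪.sub_mem hs (𝔪.mul_mem_right _ h)
  refine ⟨y * s, x * s, hs', hs, ?_⟩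
  rw [Ideal.span_singleton_mul_span_singleton, Ideal.span_singleton_mul_span_singleton]
  congr 1
  ring_nf

/-- `I ∼ 1` means: `I = (c)` with `c ≡ 1 mod 𝔪`. -/
theorem principal_of_rel_one276 {𝔪 : Ideal (𝓞 K)} (htop : 𝔪 ≠ ⊤) {I : Ideal (𝓞 K)}
    (h : rayRel276 𝔪 I 1) : ∃ c : 𝓞 K, Ideal.span {c} = I ∧ c - 1 ∈ 𝔪 := by
  obtain ⟨a, b, ha, hb, hab⟩ := h
  rw [mul_one] at hab
  have ha0 : a ≠ 0 := ne_zero_of_sub_one_mem276 htop ha
  have hb1 : b ∈ Ideal.span {a} * I := by
    rw [hab]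
    exact Ideal.mem_span_singleton_self b
  have hb2 : b ∈ Ideal.span {a} := Ideal.mul_le_left hb1
  obtain ⟨c, rfl⟩ := Ideal.mem_span_singleton'.mp hb2
  refine ⟨c, ?_, ?_⟩
  · have h1 : Ideal.span {a} * I = Ideal.span {a} * Ideal.span {c} := by
      rw [hab, Ideal.span_singleton_mul_span_singleton, mul_comm]
    have h2 : Ideal.span {a} ≠ (0 : Ideal (𝓞 K)) := by
      rw [Ne, Ideal.zero_eq_bot, Ideal.span_singleton_eq_bot]
      exact ha0
    exact (mul_left_cancel₀ h2 h1).symm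
  · have : c - 1 = (c * a - 1) - c * (a - 1) := by ring
    rw [this]
    exact 𝔪.sub_mem hb (𝔪.mul_mem_left _ ha)

/-! ## 3. The monoid of ideals prime to `𝔪` and its quotient -/

/-- The submonoid of the ideals prime to `𝔪`. -/
def rayMon276 (𝔪 : Ideal (𝓞 K)) : Submonoid (Ideal (𝓞 K)) where
  carrier := {I | IsCoprime I 𝔪}
  one_mem' := isCoprime_one_left
  mul_mem' := fun ha hb => IsCoprime.mul_left ha hb

/-- The monoid of the ideals prime to `𝔪`, as a type with ONE instance path. -/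
def RayM276 (𝔪 : Ideal (𝓞 K)) : Type := ↥(rayMon276 𝔪)

instance instCommMonoidRayM276 (𝔪 : Ideal (𝓞 K)) : CommMonoid (RayM276 𝔪) :=
  inferInstanceAs (CommMonoid ↥(rayMon276 𝔪))

/-- An ideal prime to `𝔪` as an element of the monoid. -/
def rayMk276 {𝔪 : Ideal (𝓞 K)} (I : Ideal (𝓞 K)) (h : IsCoprime I 𝔪) : RayM276 𝔪 :=
  (⟨I, h⟩ : ↥(rayMon276 𝔪))

/-- The underlying ideal. -/
def rayVal276 {𝔪 : Ideal (𝓞 K)} (x : RayM276 𝔪) : Ideal (𝓞 K) :=
  (show ↥(rayMon276 𝔪) from x).1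

theorem rayVal_coprime276 {𝔪 : Ideal (𝓞 K)} (x : RayM276 𝔪) : IsCoprime (rayVal276 x) 𝔪 :=
  (show ↥(rayMon276 𝔪) from x).2

theorem rayVal_mk276 {𝔪 : Ideal (𝓞 K)} (I : Ideal (𝓞 K)) (h : IsCoprime I 𝔪) :
    rayVal276 (rayMk276 I h) = I := rfl

theorem rayMk_val276 {𝔪 : Ideal (𝓞 K)} (x : RayM276 𝔪) :
    rayMk276 (rayVal276 x) (rayVal_coprime276 x) = x := rfl

theorem rayVal_mul276 {𝔪 : Ideal (𝓞 K)} (x y : RayM276 𝔪) :
    rayVal276 (x * y) = rayVal276 x * rayVal276 y := rfl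

theorem rayVal_one276 {𝔪 : Ideal (𝓞 K)} : rayVal276 (1 : RayM276 𝔪) = 1 := rfl

theorem rayVal_pow276 {𝔪 : Ideal (𝓞 K)} (x : RayM276 𝔪) (n : ℕ) :
    rayVal276 (x ^ n) = rayVal276 x ^ n := by
  induction n with
  | zero => rw [pow_zero, pow_zero]; rfl
  | succ n ih => rw [pow_succ, pow_succ, rayVal_mul276, ih]

theorem rayMk_mul276 {𝔪 : Ideal (𝓞 K)} {I J : Ideal (𝓞 K)} (hI : IsCoprime I 𝔪)
    (hJ : IsCoprime J 𝔪) :
    rayMk276 (I * J) (IsCoprime.mul_left hI hJ) = rayMk276 I hI * rayMk276 J hJ := rfl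

/-- The ray congruence on the ideals prime to `𝔪`. -/
def rayCon276 (𝔪 : Ideal (𝓞 K)) : Con (RayM276 𝔪) where
  r I J := rayRel276 𝔪 (rayVal276 I) (rayVal276 J)
  iseqv := ⟨fun I => rayRel_refl276 𝔪 (rayVal276 I), fun h => rayRel_symm276 h,
    fun h1 h2 => rayRel_trans276 h1 h2⟩
  mul' := fun h1 h2 => rayRel_mul276 h1 h2

theorem rayCon_iff276 {𝔪 : Ideal (𝓞 K)} (I J : RayM276 𝔪) :
    rayCon276 𝔪 I J ↔ rayRel276 𝔪 (rayVal276 I) (rayVal276 J) := Iff.rfl

/-! ## 4. Every class is invertible -/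

theorem isUnit_mk276 {𝔪 : Ideal (𝓞 K)} (hbot : 𝔪 ≠ ⊥) (htop : 𝔪 ≠ ⊤) (x : RayM276 𝔪) :
    IsUnit ((rayCon276 𝔪).mk' x) := by
  have hI : IsCoprime (rayVal276 x) 𝔪 := rayVal_coprime276 x
  have hI0 : rayVal276 x ≠ ⊥ := ne_bot_of_isCoprime276 htop hI
  obtain ⟨𝔟, z, h𝔟, hz⟩ := exists_coprime_mul_span276 (rayVal276 x) 𝔪 hI0 hbot
  have hzc : IsCoprime (Ideal.span {z}) 𝔪 := by
    rw [← hz]
    exact IsCoprime.mul_left hI h𝔟
  obtain ⟨t, ht⟩ := isCoprime_span_iff276.mp hzc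
  have htc : IsCoprime (Ideal.span {t}) 𝔪 :=
    isCoprime_span_iff276.mpr ⟨z, by rwa [mul_comm]⟩
  have hy : IsCoprime (𝔟 * Ideal.span {t}) 𝔪 := IsCoprime.mul_left h𝔟 htc
  have hrel : rayCon276 𝔪 (x * rayMk276 (𝔟 * Ideal.span {t}) hy) 1 := by
    show rayRel276 𝔪 (rayVal276 x * (𝔟 * Ideal.span {t})) 1
    rw [← mul_assoc, hz, Ideal.span_singleton_mul_span_singleton]
    exact rayRel_span_one276 ht
  have hxy : (rayCon276 𝔪).mk' x * (rayCon276 𝔪).mk' (rayMk276 (𝔟 * Ideal.span {t}) hy) = 1 := by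
    rw [← map_mul, ← map_one (rayCon276 𝔪).mk']
    exact (Con.eq (rayCon276 𝔪)).mpr hrel
  exact IsUnit.of_mul_eq_one _ hxy

/-! ## 5. Finiteness -/

/-- The class of a non-zero ideal. -/
def cl276 (I : Ideal (𝓞 K)) (hI : I ≠ ⊥) : ClassGroup (𝓞 K) :=
  ClassGroup.mk0 ⟨I, mem_nonZeroDivisors_iff_ne_zero.mpr hI⟩

theorem cl_mul276 {I J : Ideal (𝓞 K)} (hI : I ≠ ⊥) (hJ : J ≠ ⊥) :
    cl276 (I * J) (mul_ne_zero hI hJ) = cl276 I hI * cl276 J hJ := by
  unfold cl276
  rw [← map_mul]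
  rfl

theorem cl_eq_one_iff276 {I : Ideal (𝓞 K)} (hI : I ≠ ⊥) :
    cl276 I hI = 1 ↔ Submodule.IsPrincipal I :=
  ClassGroup.mk0_eq_one_iff _

theorem cl_congr276 {I J : Ideal (𝓞 K)} (h : I = J) (hI : I ≠ ⊥) (hJ : J ≠ ⊥) :
    cl276 I hI = cl276 J hJ := by
  subst h
  rfl

/-- Every ideal class contains an ideal prime to `𝔪`. -/
theorem exists_coprime_rep276 {𝔪 : Ideal (𝓞 K)} (hbot : 𝔪 ≠ ⊥) (htop : 𝔪 ≠ ⊤)
    (C : ClassGroup (𝓞 K)) :
    ∃ (J : Ideal (𝓞 K)) (hJ : J ≠ ⊥), IsCoprime J 𝔪 ∧ cl276 J hJ = C := by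
  obtain ⟨⟨J₀, hJ₀⟩, hC⟩ := ClassGroup.mk0_surjective C⁻¹
  have hJ₀' : J₀ ≠ ⊥ := mem_nonZeroDivisors_iff_ne_zero.mp hJ₀
  obtain ⟨𝔟, z, h𝔟, hz⟩ := exists_coprime_mul_span276 J₀ 𝔪 hJ₀' hbot
  have h𝔟0 : 𝔟 ≠ ⊥ := ne_bot_of_isCoprime276 htop h𝔟
  refine ⟨𝔟, h𝔟0, h𝔟, ?_⟩
  have h1 : cl276 (J₀ * 𝔟) (mul_ne_zero hJ₀' h𝔟0) = 1 :=
    (cl_eq_one_iff276 _).mpr (hz ▸ ⟨⟨z, rfl⟩⟩)
  rw [cl_mul276 hJ₀' h𝔟0] at h1
  have h2 : cl276 J₀ hJ₀' = C⁻¹ := hC
  rw [h2] at h1
  exact (inv_mul_eq_one.mp h1).symm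

/-- **The ray class monoid is finite.** -/
theorem finite_rayCl276 {𝔪 : Ideal (𝓞 K)} (hbot : 𝔪 ≠ ⊥) (htop : 𝔪 ≠ ⊤) :
    Finite (rayCon276 𝔪).Quotient := by
  classical
  have _hfin : Finite (𝓞 K ⧸ 𝔪) := Ideal.finiteQuotientOfFreeOfNeBot 𝔪 hbot
  choose rep hrep0 hrepc hrepC using exists_coprime_rep276 (K := K) hbot htop
  let F : ClassGroup (𝓞 K) × (𝓞 K ⧸ 𝔪) → (rayCon276 𝔪).Quotient := fun p =>
    if h : IsCoprime (Ideal.span {Quotient.out p.2}) 𝔪 then
      (rayCon276 𝔪).mk' (rayMk276 (rep p.1 * Ideal.span {Quotient.out p.2})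
        (IsCoprime.mul_left (hrepc p.1) h))
    else 1
  refine Finite.of_surjective F ?_
  intro g
  obtain ⟨x, rfl⟩ := (rayCon276 𝔪).mk'_surjective g
  obtain ⟨I, hI, rfl⟩ : ∃ (I : Ideal (𝓞 K)) (hI : IsCoprime I 𝔪), rayMk276 I hI = x :=
    ⟨rayVal276 x, rayVal_coprime276 x, rfl⟩
  have hI0 : I ≠ ⊥ := ne_bot_of_isCoprime276 htop hI
  set C : ClassGroup (𝓞 K) := cl276 I hI0 with hC
  have hJ0 := hrep0 C
  have hJc := hrepc C
  have hJC := hrepC C
  obtain ⟨𝔟, z₂, h𝔟, hz₂⟩ := exists_coprime_mul_span276 (rep C) 𝔪 hJ0 hbot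
  have h𝔟0 : 𝔟 ≠ ⊥ := ne_bot_of_isCoprime276 htop h𝔟
  -- `I 𝔟` is principal
  have h1 : cl276 (I * 𝔟) (mul_ne_zero hI0 h𝔟0) = 1 := by
    rw [cl_mul276 hI0 h𝔟0, ← hC, ← hJC, ← cl_mul276 hJ0 h𝔟0]
    exact (cl_eq_one_iff276 _).mpr (hz₂ ▸ ⟨⟨z₂, rfl⟩⟩)
  obtain ⟨⟨z₁, hz₁⟩⟩ := (cl_eq_one_iff276 _).mp h1
  have hz₁' : I * 𝔟 = Ideal.span {z₁} := hz₁
  have hz₁c : IsCoprime (Ideal.span {z₁}) 𝔪 := by
    rw [← hz₁']
    exact IsCoprime.mul_left hI h𝔟
  have hz₂c : IsCoprime (Ideal.span {z₂}) 𝔪 := by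
    rw [← hz₂]
    exact IsCoprime.mul_left hJc h𝔟
  obtain ⟨t, ht⟩ := isCoprime_span_iff276.mp hz₂c
  have htc : IsCoprime (Ideal.span {t}) 𝔪 :=
    isCoprime_span_iff276.mpr ⟨z₂, by rwa [mul_comm]⟩
  have hkey : Ideal.span {z₂} * I = Ideal.span {z₁} * rep C := by
    rw [← hz₂, ← hz₁']
    ring
  -- the residue
  set z : 𝓞 K := z₁ * t with hz
  have hzc : IsCoprime (Ideal.span {z}) 𝔪 := by
    rw [hz, ← Ideal.span_singleton_mul_span_singleton]
    exact IsCoprime.mul_left hz₁c htc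
  set r : 𝓞 K ⧸ 𝔪 := Ideal.Quotient.mk 𝔪 z with hr
  have hout : Quotient.out r - z ∈ 𝔪 := by
    rw [← Ideal.Quotient.eq, Ideal.Quotient.mk_out]
  have hzout : z - Quotient.out r ∈ 𝔪 := by
    have : z - Quotient.out r = -(Quotient.out r - z) := by ring
    rw [this]
    exact 𝔪.neg_mem hout
  have houtc : IsCoprime (Ideal.span {Quotient.out r}) 𝔪 :=
    isCoprime_span_congr276 hzout hzc
  refine ⟨(C, r), ?_⟩
  show (if h : IsCoprime (Ideal.span {Quotient.out r}) 𝔪 then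
      (rayCon276 𝔪).mk' (rayMk276 (rep C * Ideal.span {Quotient.out r})
        (IsCoprime.mul_left (hrepc C) h))
    else 1) = _
  rw [dif_pos houtc]
  refine (Con.eq (rayCon276 𝔪)).mpr ?_
  show rayRel276 𝔪 (rep C * Ideal.span {Quotient.out r}) I
  have e1 : rayRel276 𝔪 (rep C * Ideal.span {Quotient.out r}) (rep C * Ideal.span {z}) :=
    rayRel_mul276 (rayRel_refl276 𝔪 _) (rayRel_span_congr276 hout houtc)
  have e2 : rayRel276 𝔪 (rep C * Ideal.span {z}) I := by
    refine ⟨1, z₂ * t, by simp, ht, ?_⟩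
    rw [Ideal.span_singleton_one, Ideal.top_mul, hz,
      ← Ideal.span_singleton_mul_span_singleton, ← Ideal.span_singleton_mul_span_singleton]
    calc rep C * (Ideal.span {z₁} * Ideal.span {t})
        = Ideal.span {t} * (Ideal.span {z₁} * rep C) := by ring
      _ = Ideal.span {t} * (Ideal.span {z₂} * I) := by rw [hkey]
      _ = Ideal.span {z₂} * Ideal.span {t} * I := by ring
  exact rayRel_trans276 e1 e2

/-! ## 6. The `2`-primary quotient of a finite commutative group -/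

/-- The image of `x ↦ x ^ m`, `m` the odd part of the order, is a `2`-group. -/
theorem exists_two_part276 (U : Type) [CommGroup U] [Finite U] :
    ∃ m : ℕ, Odd m ∧ ∃ k : ℕ, Nat.card ((powMonoidHom m : U →* U).range) = 2 ^ k := by
  have hn : Nat.card U ≠ 0 := Nat.card_pos.ne'
  obtain ⟨k, m, hm, hkm⟩ := Nat.exists_eq_two_pow_mul_odd hn
  refine ⟨m, hm, ?_⟩
  have _h2 : Fact (Nat.Prime 2) := ⟨Nat.prime_two⟩
  have hp : IsPGroup 2 (powMonoidHom m : U →* U).range := by
    rintro ⟨_, ⟨g, rfl⟩⟩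
    refine ⟨k, Subtype.ext ?_⟩
    show (g ^ m) ^ (2 ^ k) = 1
    rw [← pow_mul, mul_comm, ← hkm, pow_card_eq_one']
  exact IsPGroup.iff_card.mp hp

end Fermat.Agent.LT.CFT.H276

end

end
-- ===== PACK-END LT/CFT/H276/Ray2Core.lean

-- ===== PACK-BEGIN LT/CFT/H589/IdeleExp.lean
section


/-!
# Row LT, tower CFT, leaf IDELE (helper589), part 1: exponents of idèles

`idExp589 v z` is the exponent of the idèle `z` at the finite place `v`; `idChar589 c` is the
character `z ↦ ∏_v c_v ^ (idExp589 v z)` of the idèle group attached to a family `c` of units.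
Mathlib only.
-/

set_option autoImplicit false

open IsDedekindDomain NumberField

noncomputable section

namespace Fermat.Agent.LT.H589

variable {K : Type} [Field K] [NumberField K]

/-- The adèle ring of `K` (same Mathlib type as in the tower Spec). -/
abbrev Adl589 (K : Type) [Field K] [NumberField K] : Type := NumberField.AdeleRing (𝓞 K) K

/-- The finite component of an idèle at `v`. -/
def finComp589 (v : HeightOneSpectrum (𝓞 K)) (z : (Adl589 K)ˣ) : v.adicCompletion K :=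
  (z : Adl589 K).2 v

theorem finComp589_one (v : HeightOneSpectrum (𝓞 K)) : finComp589 v (1 : (Adl589 K)ˣ) = 1 := rfl

theorem finComp589_mul (v : HeightOneSpectrum (𝓞 K)) (z w : (Adl589 K)ˣ) :
    finComp589 v (z * w) = finComp589 v z * finComp589 v w := rfl

theorem finComp589_mul_inv (v : HeightOneSpectrum (𝓞 K)) (z : (Adl589 K)ˣ) :
    finComp589 v z * finComp589 v z⁻¹ = 1 := by
  rw [← finComp589_mul, mul_inv_cancel, finComp589_one]

theorem finComp589_ne_zero (v : HeightOneSpectrum (𝓞 K)) (z : (Adl589 K)ˣ) :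
    finComp589 v z ≠ 0 := by
  intro h
  have := finComp589_mul_inv v z
  rw [h, zero_mul] at this
  exact zero_ne_one this

theorem finComp589_inv (v : HeightOneSpectrum (𝓞 K)) (z : (Adl589 K)ˣ) :
    finComp589 v z⁻¹ = (finComp589 v z)⁻¹ :=
  eq_inv_of_mul_eq_one_right (finComp589_mul_inv v z)

/-- The valuation of the component at `v`. -/
def finVal589 (v : HeightOneSpectrum (𝓞 K)) (z : (Adl589 K)ˣ) : WithZero (Multiplicative ℤ) :=
  Valued.v (finComp589 v z)

theorem finVal589_ne_zero (v : HeightOneSpectrum (𝓞 K)) (z : (Adl589 K)ˣ) :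
    finVal589 v z ≠ 0 := by
  unfold finVal589
  rw [Ne, Valuation.zero_iff]
  exact finComp589_ne_zero v z

theorem finVal589_mul (v : HeightOneSpectrum (𝓞 K)) (z w : (Adl589 K)ˣ) :
    finVal589 v (z * w) = finVal589 v z * finVal589 v w := by
  unfold finVal589
  rw [finComp589_mul, map_mul]

theorem finVal589_one (v : HeightOneSpectrum (𝓞 K)) : finVal589 v (1 : (Adl589 K)ˣ) = 1 := by
  unfold finVal589
  rw [finComp589_one, map_one]

/-- For almost all `v` the component of an idèle at `v` is a unit. -/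
theorem finVal589_eventually_eq_one (z : (Adl589 K)ˣ) :
    ∀ᶠ v in Filter.cofinite, finVal589 v z = 1 := by
  have hu : IsUnit ((z : Adl589 K).2) := by
    refine ⟨⟨(z : Adl589 K).2, ((z⁻¹ : (Adl589 K)ˣ) : Adl589 K).2, ?_, ?_⟩, rfl⟩
    · have := congrArg Prod.snd z.mul_inv
      exact this
    · have := congrArg Prod.snd z.inv_mul
      exact this
  exact (FiniteAdeleRing.isUnit_iff.mp hu).2

/-- The exponent of the idèle `z` at `v`. -/
def idExp589 (v : HeightOneSpectrum (𝓞 K)) (z : (Adl589 K)ˣ) : ℤ :=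
  - WithZero.log (finVal589 v z)

theorem finVal589_eq_exp (v : HeightOneSpectrum (𝓞 K)) (z : (Adl589 K)ˣ) :
    finVal589 v z = WithZero.exp (- idExp589 v z) := by
  unfold idExp589
  rw [neg_neg, WithZero.exp_log (finVal589_ne_zero v z)]

theorem idExp589_eq_of_finVal {v : HeightOneSpectrum (𝓞 K)} {z : (Adl589 K)ˣ} {n : ℤ}
    (h : finVal589 v z = WithZero.exp (-n)) : idExp589 v z = n := by
  unfold idExp589
  rw [h, WithZero.log_exp, neg_neg]

theorem idExp589_eq_zero_of_finVal {v : HeightOneSpectrum (𝓞 K)} {z : (Adl589 K)ˣ}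
    (h : finVal589 v z = 1) : idExp589 v z = 0 := by
  unfold idExp589
  rw [h, WithZero.log_one, neg_zero]

theorem idExp589_one (v : HeightOneSpectrum (𝓞 K)) : idExp589 v (1 : (Adl589 K)ˣ) = 0 :=
  idExp589_eq_zero_of_finVal (finVal589_one v)

theorem idExp589_mul (v : HeightOneSpectrum (𝓞 K)) (z w : (Adl589 K)ˣ) :
    idExp589 v (z * w) = idExp589 v z + idExp589 v w := by
  unfold idExp589
  rw [finVal589_mul, WithZero.log_mul (finVal589_ne_zero v z) (finVal589_ne_zero v w)]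
  ring

theorem idExp589_finite_support (z : (Adl589 K)ˣ) :
    {v : HeightOneSpectrum (𝓞 K) | idExp589 v z ≠ 0}.Finite := by
  have h := finVal589_eventually_eq_one z
  rw [Filter.eventually_cofinite] at h
  refine h.subset ?_
  intro v hv hv1
  exact hv (idExp589_eq_zero_of_finVal hv1)

/-- The character of the idèle group attached to a family `c` of units of `ℂ`:
`z ↦ ∏_v c_v ^ (idExp589 v z)`. -/
def idChar589 (c : HeightOneSpectrum (𝓞 K) → ℂˣ) : (Adl589 K)ˣ →* ℂˣ where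
  toFun z := ∏ᶠ v : HeightOneSpectrum (𝓞 K), c v ^ idExp589 v z
  map_one' := by
    simp only [idExp589_one, zpow_zero]
    exact finprod_one
  map_mul' z w := by
    simp only [idExp589_mul, zpow_add]
    refine finprod_mul_distrib ?_ ?_
    · refine (idExp589_finite_support z).subset ?_
      intro v hv h0
      apply hv
      simp only [h0, zpow_zero]
    · refine (idExp589_finite_support w).subset ?_
      intro v hv h0
      apply hv
      simp only [h0, zpow_zero]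

theorem idChar589_apply (c : HeightOneSpectrum (𝓞 K) → ℂˣ) (z : (Adl589 K)ˣ) :
    idChar589 c z = ∏ᶠ v : HeightOneSpectrum (𝓞 K), c v ^ idExp589 v z := rfl

/-- The character is trivial on idèles whose exponents vanish wherever `c ≠ 1`. -/
theorem idChar589_eq_one_of (c : HeightOneSpectrum (𝓞 K) → ℂˣ) (z : (Adl589 K)ˣ)
    (h : ∀ v, c v = 1 ∨ idExp589 v z = 0) : idChar589 c z = 1 := by
  rw [idChar589_apply]
  have : ∀ v : HeightOneSpectrum (𝓞 K), c v ^ idExp589 v z = 1 := by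
    intro v
    rcases h v with h1 | h1
    · rw [h1, one_zpow]
    · rw [h1, zpow_zero]
  simp only [this]
  exact finprod_one

/-- The value on an idèle with a single nonzero exponent. -/
theorem idChar589_eq_of_single (c : HeightOneSpectrum (𝓞 K) → ℂˣ) (z : (Adl589 K)ˣ)
    (v₀ : HeightOneSpectrum (𝓞 K)) (h : ∀ v, v ≠ v₀ → idExp589 v z = 0) :
    idChar589 c z = c v₀ ^ idExp589 v₀ z := by
  rw [idChar589_apply]
  refine finprod_eq_single _ v₀ ?_
  intro v hv
  rw [h v hv, zpow_zero]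

end Fermat.Agent.LT.H589

end

end
-- ===== PACK-END LT/CFT/H589/IdeleExp.lean

-- ===== PACK-BEGIN LT/T6/H283/CartanCore.lean
section


/-!
# Row LT, tower T6, leaf T6.29.C1 (CARTAN-C): the matrix core (helper283)

OFF-MAIN.  Mathlib only.

Two invertible complex `2 × 2` matrices `Y`, `Y'` with `‖det Y‖ = ‖det Y'‖` and
`Re tr (Yᴴ Y) = Re tr (Y'ᴴ Y')` are in the same double coset of `U(2)`: the Hermitian matrices
`Yᴴ Y` and `Y'ᴴ Y'` have the same trace and the same determinant, hence the same pair of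
eigenvalues, hence they are conjugate under a unitary matrix `V` (spectral theorem), and
`K = Y' V Y⁻¹` is unitary.
-/

set_option autoImplicit false

open scoped Matrix

namespace Fermat.Agent.LT.T6.H283

/-- Two pairs of real numbers with the same sum and the same product agree up to order. -/
theorem pair_eq_or_swap283 (a b c d : ℝ) (hs : a + b = c + d) (hp : a * b = c * d) :
    (c = a ∧ d = b) ∨ (c = b ∧ d = a) := by
  have h : (c - a) * (c - b) = 0 := by linear_combination (-c) * hs + hp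
  rcases mul_eq_zero.1 h with h1 | h1
  · left
    have hc : c = a := by linarith
    exact ⟨hc, by linarith⟩
  · right
    have hc : c = b := by linarith
    exact ⟨hc, by linarith⟩

/-- The swap matrix is unitary. -/
theorem swap_mem_unitary283 :
    (!![0, 1; 1, 0] : Matrix (Fin 2) (Fin 2) ℂ) ∈ Matrix.unitaryGroup (Fin 2) ℂ := by
  rw [Matrix.mem_unitaryGroup_iff]
  ext i j
  fin_cases i <;> fin_cases j <;>
    simp [Matrix.mul_apply, Fin.sum_univ_two, Matrix.star_eq_conjTranspose,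
      Matrix.conjTranspose_apply]

/-- The swap matrix conjugates `diag (a, b)` to `diag (b, a)`. -/
theorem swap_conj_diagonal283 (d d' : Fin 2 → ℂ) (h0 : d' 0 = d 1) (h1 : d' 1 = d 0) :
    (!![0, 1; 1, 0] : Matrix (Fin 2) (Fin 2) ℂ) * Matrix.diagonal d *
      star (!![0, 1; 1, 0] : Matrix (Fin 2) (Fin 2) ℂ) = Matrix.diagonal d' := by
  have hd : Matrix.diagonal d = !![d 0, 0; 0, d 1] := by
    ext i j
    fin_cases i <;> fin_cases j <;> simp
  have hd' : Matrix.diagonal d' = !![d 1, 0; 0, d 0] := by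
    ext i j
    fin_cases i <;> fin_cases j <;> simp [h0, h1]
  rw [hd, hd']
  ext i j
  fin_cases i <;> fin_cases j <;>
    simp [Matrix.mul_apply, Fin.sum_univ_two, Matrix.star_eq_conjTranspose,
      Matrix.conjTranspose_apply]

/-- Two Hermitian complex `2 × 2` matrices with the same trace and the same determinant are
conjugate under a unitary matrix. -/
theorem herm_conj283 (P P' : Matrix (Fin 2) (Fin 2) ℂ) (hP : P.IsHermitian)
    (hP' : P'.IsHermitian) (htr : P.trace.re = P'.trace.re) (hdet : P.det = P'.det) :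
    ∃ V : Matrix.unitaryGroup (Fin 2) ℂ,
      P' = (V : Matrix (Fin 2) (Fin 2) ℂ) * P * star (V : Matrix (Fin 2) (Fin 2) ℂ) := by
  -- the eigenvalues
  have hs : hP.eigenvalues 0 + hP.eigenvalues 1 = hP'.eigenvalues 0 + hP'.eigenvalues 1 := by
    have h1 := hP.trace_eq_sum_eigenvalues
    have h2 := hP'.trace_eq_sum_eigenvalues
    rw [Fin.sum_univ_two] at h1 h2
    rw [RCLike.ofReal_eq_complex_ofReal] at h1 h2
    have h1' := congrArg Complex.re h1
    have h2' := congrArg Complex.re h2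
    simp only [Complex.add_re, Complex.ofReal_re] at h1' h2'
    rw [← h1', ← h2', htr]
  have hp : hP.eigenvalues 0 * hP.eigenvalues 1 = hP'.eigenvalues 0 * hP'.eigenvalues 1 := by
    have h1 := hP.det_eq_prod_eigenvalues
    have h2 := hP'.det_eq_prod_eigenvalues
    rw [Fin.prod_univ_two, RCLike.ofReal_eq_complex_ofReal] at h1 h2
    have h3 : ((hP.eigenvalues 0 * hP.eigenvalues 1 : ℝ) : ℂ)
        = ((hP'.eigenvalues 0 * hP'.eigenvalues 1 : ℝ) : ℂ) := by
      rw [Complex.ofReal_mul, Complex.ofReal_mul, ← h1, ← h2, hdet]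
    exact_mod_cast h3
  -- the two diagonal matrices are conjugate under a unitary matrix
  have hW : ∃ W : Matrix.unitaryGroup (Fin 2) ℂ,
      Matrix.diagonal ((RCLike.ofReal : ℝ → ℂ) ∘ hP'.eigenvalues)
        = (W : Matrix (Fin 2) (Fin 2) ℂ) *
            Matrix.diagonal ((RCLike.ofReal : ℝ → ℂ) ∘ hP.eigenvalues) *
            star (W : Matrix (Fin 2) (Fin 2) ℂ) := by
    rcases pair_eq_or_swap283 _ _ _ _ hs hp with ⟨h0, h1⟩ | ⟨h0, h1⟩
    · refine ⟨1, ?_⟩
      have hfun : hP'.eigenvalues = hP.eigenvalues := by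
        funext i
        fin_cases i
        · exact h0
        · exact h1
      rw [hfun]
      simp
    · refine ⟨⟨_, swap_mem_unitary283⟩, ?_⟩
      exact (swap_conj_diagonal283 _ _ (by simp [h0]) (by simp [h1])).symm
  obtain ⟨W, hW⟩ := hW
  refine ⟨hP'.eigenvectorUnitary * W * star hP.eigenvectorUnitary, ?_⟩
  have e1 := hP'.spectral_theorem
  have e2 := hP.conjStarAlgAut_star_eigenvectorUnitary
  rw [Unitary.conjStarAlgAut_apply] at e1
  rw [Unitary.conjStarAlgAut_star_apply] at e2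
  rw [hW, ← e2] at e1
  conv_lhs => rw [e1]
  simp only [Matrix.mul_assoc, MulMemClass.coe_mul, Unitary.coe_star, star_mul, star_star]

/-- **The matrix core of CARTAN-C.** -/
theorem cartan_core283 (Y Y' : Matrix (Fin 2) (Fin 2) ℂ) (hY : IsUnit Y.det)
    (hdet : ‖Y.det‖ = ‖Y'.det‖) (htr : (Yᴴ * Y).trace.re = (Y'ᴴ * Y').trace.re) :
    ∃ K V : Matrix (Fin 2) (Fin 2) ℂ,
      K * Kᴴ = 1 ∧ Kᴴ * K = 1 ∧ V * Vᴴ = 1 ∧ Vᴴ * V = 1 ∧ Y' = K * Y * V := by
  have hdet' : (Yᴴ * Y).det = (Y'ᴴ * Y').det := by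
    rw [Matrix.det_mul, Matrix.det_mul, Matrix.det_conjTranspose, Matrix.det_conjTranspose]
    have hz : ∀ z : ℂ, star z * z = ((‖z‖ : ℝ) : ℂ) ^ 2 := fun z => by
      rw [RCLike.star_def, Complex.conj_mul']
    rw [hz, hz, hdet]
  obtain ⟨V, hV⟩ := herm_conj283 (Yᴴ * Y) (Y'ᴴ * Y')
    (Matrix.isHermitian_conjTranspose_mul_self Y) (Matrix.isHermitian_conjTranspose_mul_self Y')
    htr hdet'
  have hV1 : (V : Matrix (Fin 2) (Fin 2) ℂ) * (V : Matrix (Fin 2) (Fin 2) ℂ)ᴴ = 1 := by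
    rw [← Matrix.star_eq_conjTranspose]
    exact Unitary.coe_mul_star_self V
  have hV2 : (V : Matrix (Fin 2) (Fin 2) ℂ)ᴴ * (V : Matrix (Fin 2) (Fin 2) ℂ) = 1 := by
    rw [← Matrix.star_eq_conjTranspose]
    exact Unitary.coe_star_mul_self V
  rw [Matrix.star_eq_conjTranspose] at hV
  have hYi : Y * Y⁻¹ = 1 := Matrix.mul_nonsing_inv Y hY
  have hYi' : Y⁻¹ * Y = 1 := Matrix.nonsing_inv_mul Y hY
  set Vm : Matrix (Fin 2) (Fin 2) ℂ := (V : Matrix (Fin 2) (Fin 2) ℂ) with hVm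
  have hK : (Y' * Vm * Y⁻¹)ᴴ * (Y' * Vm * Y⁻¹) = 1 := by
    have h1 : (Y' * Vm * Y⁻¹)ᴴ * (Y' * Vm * Y⁻¹)
        = (Y⁻¹)ᴴ * (Vmᴴ * (Y'ᴴ * Y') * Vm) * Y⁻¹ := by
      simp only [Matrix.conjTranspose_mul, Matrix.mul_assoc]
    have h2 : Vmᴴ * (Y'ᴴ * Y') * Vm = Yᴴ * Y := by
      rw [hV]
      calc Vmᴴ * (Vm * (Yᴴ * Y) * Vmᴴ) * Vm
          = (Vmᴴ * Vm) * (Yᴴ * Y) * (Vmᴴ * Vm) := by simp only [Matrix.mul_assoc]
        _ = Yᴴ * Y := by rw [hV2, Matrix.one_mul, Matrix.mul_one]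
    rw [h1, h2]
    calc (Y⁻¹)ᴴ * (Yᴴ * Y) * Y⁻¹ = ((Y⁻¹)ᴴ * Yᴴ) * (Y * Y⁻¹) := by
          simp only [Matrix.mul_assoc]
      _ = 1 := by
          rw [← Matrix.conjTranspose_mul, hYi, Matrix.conjTranspose_one, Matrix.one_mul]
  refine ⟨Y' * Vm * Y⁻¹, Vmᴴ, mul_eq_one_comm.1 hK, hK, ?_, ?_, ?_⟩
  · rw [Matrix.conjTranspose_conjTranspose]; exact hV2
  · rw [Matrix.conjTranspose_conjTranspose]; exact hV1
  · calc Y' = Y' * (Vm * Vmᴴ) := by rw [hV1, Matrix.mul_one]
      _ = Y' * Vm * (Y⁻¹ * Y) * Vmᴴ := by rw [hYi', Matrix.mul_one, Matrix.mul_assoc]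
      _ = Y' * Vm * Y⁻¹ * Y * Vmᴴ := by simp only [Matrix.mul_assoc]

end Fermat.Agent.LT.T6.H283

end
-- ===== PACK-END LT/T6/H283/CartanCore.lean

-- ===== PACK-BEGIN LT/T6/H8/Unimod.lean
section


/-!
# Unimodularity of `GL₂(ℂ)` — core (helper8), Mathlib only

* `modChar_eq_one_of_central8`, `modChar_eq_one_of_comm8`, `modChar_eq_one_of_pow8`: the modular
  character of a locally compact group is trivial on central elements, on commutators (in the form
  `c * b * a = a * b`) and on elements of finite order;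
* `rightInv_of_modChar8`: if the modular character is trivial, every Haar measure (second countable
  group) is right invariant and inversion invariant;
* `modChar_GL2C8`: the modular character of `GL₂(ℂ)` is trivial
  (`g = n(x) diag(p, q) w n(y)` or `g = diag(p, q) n(y)`; `n(x) = [diag(2,1), n(x)]`,
  `diag(p, q) = z · diag(t, t⁻¹)` with `z² = p q`, `diag(t, t⁻¹) = [diag(t,1), w]`, `w⁴ = 1`);
* `rightInv_GL2C8`: every Haar measure of `GL₂(ℂ)` is right invariant and inversion invariant.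
-/

set_option autoImplicit false
set_option linter.style.haveILetI false
set_option linter.unnecessarySeqFocus false

open MeasureTheory MeasureTheory.Measure
open scoped NNReal ENNReal

noncomputable section

namespace Fermat.Agent.LT.T6.H8

/-! ## 1. The modular character -/

section General

variable {G : Type*} [TopologicalSpace G] [Group G] [IsTopologicalGroup G] [LocallyCompactSpace G]

/-- The modular character is trivial on central elements. -/
theorem modChar_eq_one_of_central8 (z : G) (hz : ∀ g : G, g * z = z * g) :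
    modularCharacterFun z = 1 := by
  borelize G
  rw [modularCharacterFun_eq_haarScalarFactor (haar : Measure G) z]
  have h : map (fun x => x * z) (haar : Measure G) = haar := by
    have h1 : (fun x : G => x * z) = fun x => z * x := funext fun x => hz x
    rw [h1]
    exact map_mul_left_eq_self haar z
  have key : ∀ (ν : Measure G) [IsFiniteMeasureOnCompacts ν] [IsMulLeftInvariant ν],
      ν = (haar : Measure G) → haarScalarFactor ν (haar : Measure G) = 1 := by
    intro ν _ _ hν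
    subst hν
    exact haarScalarFactor_self _
  exact key _ h

/-- The modular character is trivial on commutators: `c = a b a⁻¹ b⁻¹`, written `c b a = a b`. -/
theorem modChar_eq_one_of_comm8 (a b c : G) (h : c * b * a = a * b) :
    modularCharacterFun c = 1 := by
  have h1 := congrArg (modularCharacterFun (G := G)) h
  rw [modularCharacterFun_map_mul, modularCharacterFun_map_mul, modularCharacterFun_map_mul] at h1
  have ha : modularCharacterFun a ≠ 0 := (modularCharacterFun_pos a).ne'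
  have hb : modularCharacterFun b ≠ 0 := (modularCharacterFun_pos b).ne'
  have h2 : modularCharacterFun c * (modularCharacterFun b * modularCharacterFun a)
      = 1 * (modularCharacterFun b * modularCharacterFun a) := by
    rw [one_mul, ← mul_assoc, h1, mul_comm]
  exact mul_right_cancel₀ (mul_ne_zero hb ha) h2

/-- The modular character is trivial on elements of finite order. -/
theorem modChar_eq_one_of_pow8 (w : G) (n : ℕ) (hn : n ≠ 0) (h : w ^ n = 1) :
    modularCharacterFun w = 1 := by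
  have h1 : (modularCharacter (G := G)) w ^ n = 1 := by
    rw [← map_pow, h, map_one]
  exact (pow_eq_one_iff_of_nonneg zero_le hn).mp h1

/-- If the modular character is trivial, every Haar measure is right invariant and inversion
invariant. -/
theorem rightInv_of_modChar8 [T2Space G] [SecondCountableTopology G] [MeasurableSpace G]
    [BorelSpace G] (h : ∀ g : G, modularCharacterFun g = 1) (μ : Measure G) [IsHaarMeasure μ] :
    (∀ g : G, map (fun x => x * g) μ = μ) ∧ map (fun x : G => x⁻¹) μ = μ := by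
  have hright : ∀ g : G, map (fun x => x * g) μ = μ := by
    intro g
    have h1 := map_right_mul_eq_modularCharacterFun_smul μ g
    rw [h g, one_smul] at h1
    exact h1
  refine ⟨hright, ?_⟩
  haveI : IsMulRightInvariant μ := ⟨hright⟩
  -- the image measure is left invariant: it is `c μ`, and `c² = 1`
  let c : ℝ≥0∞ := haarScalarFactor μ.inv μ
  have hc : μ.inv = c • μ := isMulLeftInvariant_eq_smul_of_innerRegular μ.inv μ
  have h2 : map Inv.inv (map Inv.inv μ) = c ^ 2 • μ := by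
    rw [← inv_def μ, hc, Measure.map_smul, ← inv_def μ, hc, smul_smul, pow_two]
  have μeq : μ = c ^ 2 • μ := by
    rw [map_map continuous_inv.measurable continuous_inv.measurable] at h2
    simpa only [inv_involutive, Function.Involutive.comp_self, Measure.map_id] using h2
  have K : TopologicalSpace.PositiveCompacts G := Classical.arbitrary _
  have h3 : c ^ 2 * μ K = 1 ^ 2 * μ K := by
    conv_rhs => rw [μeq]
    simp
  have h4 : c ^ 2 = 1 ^ 2 :=
    (ENNReal.mul_left_inj (measure_pos_of_nonempty_interior _ K.interior_nonempty).ne'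
          K.isCompact.measure_lt_top.ne).1 h3
  have h5 : c = 1 := (ENNReal.pow_right_strictMono two_ne_zero).injective h4
  have h6 : μ.inv = μ := by rw [hc, h5, one_smul]
  exact h6

end General

/-! ## 2. The topology of `GL₂(ℂ)` -/

theorem locallyCompactSpace_GL2C8 : LocallyCompactSpace (GL (Fin 2) ℂ) := by
  have : LocallyCompactSpace (Matrix (Fin 2) (Fin 2) ℂ) :=
    inferInstanceAs (LocallyCompactSpace (Fin 2 → Fin 2 → ℂ))
  have : T2Space (Matrix (Fin 2) (Fin 2) ℂ) := inferInstanceAs (T2Space (Fin 2 → Fin 2 → ℂ))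
  infer_instance

theorem secondCountableTopology_GL2C8 : SecondCountableTopology (GL (Fin 2) ℂ) := by
  have : SecondCountableTopology (Matrix (Fin 2) (Fin 2) ℂ) :=
    inferInstanceAs (SecondCountableTopology (Fin 2 → Fin 2 → ℂ))
  have : SecondCountableTopology (Matrix (Fin 2) (Fin 2) ℂ)ᵐᵒᵖ :=
    (MulOpposite.opHomeomorph (M := Matrix (Fin 2) (Fin 2) ℂ)).symm.isEmbedding.secondCountableTopology
  exact Units.isEmbedding_embedProduct.secondCountableTopology

/-! ## 3. The elements -/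

/-- `n(x) = [[1, x], [0, 1]]`. -/
def nU8 (x : ℂ) : GL (Fin 2) ℂ :=
  Matrix.GeneralLinearGroup.mkOfDetNeZero !![1, x; 0, 1] (by simp [Matrix.det_fin_two])

/-- `diag(p, q)`. -/
def dg8 (p q : ℂ) (hp : p ≠ 0) (hq : q ≠ 0) : GL (Fin 2) ℂ :=
  Matrix.GeneralLinearGroup.mkOfDetNeZero !![p, 0; 0, q] (by simp [Matrix.det_fin_two, hp, hq])

/-- `w = [[0, -1], [1, 0]]`. -/
def wE8 : GL (Fin 2) ℂ :=
  Matrix.GeneralLinearGroup.mkOfDetNeZero !![0, -1; 1, 0] (by simp [Matrix.det_fin_two])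

theorem nU8_val (x : ℂ) : (nU8 x : Matrix (Fin 2) (Fin 2) ℂ) = !![1, x; 0, 1] := rfl

theorem dg8_val (p q : ℂ) (hp : p ≠ 0) (hq : q ≠ 0) :
    (dg8 p q hp hq : Matrix (Fin 2) (Fin 2) ℂ) = !![p, 0; 0, q] := rfl

theorem wE8_val : (wE8 : Matrix (Fin 2) (Fin 2) ℂ) = !![0, -1; 1, 0] := rfl

section Elements

attribute [local instance] locallyCompactSpace_GL2C8

theorem modChar_nU8 (x : ℂ) : modularCharacterFun (nU8 x) = 1 := by
  refine modChar_eq_one_of_comm8 (dg8 2 1 two_ne_zero one_ne_zero) (nU8 x) (nU8 x) ?_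
  apply Units.ext
  simp only [Units.val_mul, nU8_val, dg8_val]
  ext i j
  fin_cases i <;> fin_cases j <;> simp [Matrix.mul_apply, Fin.sum_univ_two] <;> (try ring)

theorem modChar_wE8 : modularCharacterFun wE8 = 1 := by
  refine modChar_eq_one_of_pow8 wE8 4 (by norm_num) ?_
  apply Units.ext
  have h4 : (wE8 ^ 4 : GL (Fin 2) ℂ) = wE8 * wE8 * (wE8 * wE8) := by
    rw [show (4 : ℕ) = 2 + 2 from rfl, pow_add, pow_two]
  rw [h4]
  simp only [Units.val_mul, wE8_val, Units.val_one]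
  ext i j
  fin_cases i <;> fin_cases j <;> simp [Matrix.mul_apply, Fin.sum_univ_two]

theorem modChar_dgInv8 (t : ℂ) (ht : t ≠ 0) :
    modularCharacterFun (dg8 t t⁻¹ ht (inv_ne_zero ht)) = 1 := by
  refine modChar_eq_one_of_comm8 (dg8 t 1 ht one_ne_zero) wE8 _ ?_
  apply Units.ext
  simp only [Units.val_mul, wE8_val, dg8_val]
  ext i j
  fin_cases i <;> fin_cases j <;> simp [Matrix.mul_apply, Fin.sum_univ_two, ht]

theorem modChar_scalar8 (z : ℂ) (hz : z ≠ 0) : modularCharacterFun (dg8 z z hz hz) = 1 := by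
  refine modChar_eq_one_of_central8 _ fun g => ?_
  apply Units.ext
  simp only [Units.val_mul, dg8_val]
  ext i j
  fin_cases i <;> fin_cases j <;> simp [Matrix.mul_apply, Fin.sum_univ_two, mul_comm]

theorem modChar_dg8 (p q : ℂ) (hp : p ≠ 0) (hq : q ≠ 0) :
    modularCharacterFun (dg8 p q hp hq) = 1 := by
  obtain ⟨z, hz⟩ : ∃ z : ℂ, z ^ 2 = p * q := IsAlgClosed.exists_pow_nat_eq (p * q) (by norm_num)
  have hz0 : z ≠ 0 := by
    rintro rfl
    have : (0 : ℂ) = p * q := by simpa using hz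
    exact mul_ne_zero hp hq this.symm
  have ht : p / z ≠ 0 := div_ne_zero hp hz0
  have hdec : dg8 p q hp hq = dg8 z z hz0 hz0 * dg8 (p / z) (p / z)⁻¹ ht (inv_ne_zero ht) := by
    apply Units.ext
    simp only [Units.val_mul, dg8_val]
    ext i j
    fin_cases i <;> fin_cases j <;> simp [Matrix.mul_apply, Fin.sum_univ_two]
    · field_simp
    · field_simp
      rw [hz, mul_comm]
  rw [hdec, modularCharacterFun_map_mul, modChar_scalar8, modChar_dgInv8, one_mul]

/-- **The modular character of `GL₂(ℂ)` is trivial.** -/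
theorem modChar_GL2C8 (g : GL (Fin 2) ℂ) : modularCharacterFun g = 1 := by
  have hdet : (g : Matrix (Fin 2) (Fin 2) ℂ).det ≠ 0 := by
    have := g.isUnit
    exact (Matrix.isUnit_iff_isUnit_det _).mp this |>.ne_zero
  rw [Matrix.det_fin_two] at hdet
  set a := (g : Matrix (Fin 2) (Fin 2) ℂ) 0 0 with ha
  set b := (g : Matrix (Fin 2) (Fin 2) ℂ) 0 1 with hb
  set c := (g : Matrix (Fin 2) (Fin 2) ℂ) 1 0 with hc
  set d := (g : Matrix (Fin 2) (Fin 2) ℂ) 1 1 with hd
  have hg : (g : Matrix (Fin 2) (Fin 2) ℂ) = !![a, b; c, d] := by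
    ext i j
    fin_cases i <;> fin_cases j <;> rfl
  by_cases hc0 : c = 0
  · -- upper triangular
    rw [hc0, mul_zero, sub_zero] at hdet
    have ha0 : a ≠ 0 := left_ne_zero_of_mul hdet
    have hd0 : d ≠ 0 := right_ne_zero_of_mul hdet
    have hdec : g = dg8 a d ha0 hd0 * nU8 (b / a) := by
      apply Units.ext
      simp only [Units.val_mul, dg8_val, nU8_val]
      rw [hg, hc0]
      ext i j
      fin_cases i <;> fin_cases j <;> simp [Matrix.mul_apply, Fin.sum_univ_two]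
      field_simp
    rw [hdec, modularCharacterFun_map_mul, modChar_dg8, modChar_nU8, one_mul]
  · have hp : (a * d - b * c) / c ≠ 0 := div_ne_zero hdet hc0
    have hdec : g = nU8 (a / c) * dg8 ((a * d - b * c) / c) c hp hc0 * wE8 * nU8 (d / c) := by
      apply Units.ext
      simp only [Units.val_mul, dg8_val, nU8_val, wE8_val]
      rw [hg]
      ext i j
      fin_cases i <;> fin_cases j <;> simp [Matrix.mul_apply, Fin.sum_univ_two] <;>
        (try field_simp) <;> (try ring)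
    rw [hdec, modularCharacterFun_map_mul, modularCharacterFun_map_mul,
      modularCharacterFun_map_mul, modChar_dg8, modChar_nU8, modChar_nU8, modChar_wE8]
    simp

end Elements

/-! ## 4. Haar measures of `GL₂(ℂ)` -/

/-- **Every Haar measure of `GL₂(ℂ)` is right invariant and inversion invariant.** -/
theorem rightInv_GL2C8 [MeasurableSpace (GL (Fin 2) ℂ)] [BorelSpace (GL (Fin 2) ℂ)]
    (μ : Measure (GL (Fin 2) ℂ)) [IsHaarMeasure μ] :
    (∀ g : GL (Fin 2) ℂ, map (fun x => x * g) μ = μ) ∧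
      map (fun x : GL (Fin 2) ℂ => x⁻¹) μ = μ := by
  haveI := locallyCompactSpace_GL2C8
  haveI := secondCountableTopology_GL2C8
  exact rightInv_of_modChar8 modChar_GL2C8 μ

end Fermat.Agent.LT.T6.H8

end

end
-- ===== PACK-END LT/T6/H8/Unimod.lean

-- ===== PACK-BEGIN LT/T2/H166/SU2Comm.lean
section


/-!
# Row LT, tower T2 -- tool (helper166, OFF-MAIN): characters of `U(2)` are trivial on `SU(2)`

Mathlib only.  `sigma_eq_one166`: a function `σ` on the `2 × 2` complex matrices which is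
multiplicative and nowhere zero on the unitary matrices takes the value `1` at every unitary
matrix of determinant `1`.

Proof.  If `y` and `c` are unitary with `c y c⁻¹ = y⁻¹` then `σ(y)² = 1`, so `σ(y²) = 1`.  This
applies to `diag(z, z̄) = diag(μ, μ̄)²` (`c = [[0, 1], [-1, 0]]`) and to the real rotations
`[[c, -s], [s, c]]` (`c = diag(1, -1)`), and every element of `SU(2)` is a product
`diag(z₁, z̄₁) · rotation · diag(z₂, z̄₂)`.
-/

set_option autoImplicit false

open scoped Matrix ComplexConjugate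

noncomputable section

namespace Fermat.Agent.LT.T2.H166

/-- `diag(z, z̄)`. -/
def dg166 (z : ℂ) : Matrix (Fin 2) (Fin 2) ℂ := !![z, 0; 0, conj z]

/-- The real rotation `[[c, -s], [s, c]]`. -/
def rt166 (c s : ℝ) : Matrix (Fin 2) (Fin 2) ℂ := !![(c : ℂ), -(s : ℂ); (s : ℂ), (c : ℂ)]

/-- `[[0, 1], [-1, 0]]`. -/
def wz166 : Matrix (Fin 2) (Fin 2) ℂ := !![0, 1; -1, 0]

/-- `diag(1, -1)`. -/
def sz166 : Matrix (Fin 2) (Fin 2) ℂ := !![1, 0; 0, -1]

theorem dg_unitary166 (z : ℂ) (hz : z * conj z = 1) : dg166 z * (dg166 z)ᴴ = 1 := by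
  have hz' : conj z * z = 1 := by rw [mul_comm]; exact hz
  ext i j
  fin_cases i <;> fin_cases j <;>
    simp [dg166, Matrix.mul_apply, Fin.sum_univ_two, Matrix.conjTranspose_apply, hz, hz']

theorem rt_unitary166 (c s : ℝ) (h : c ^ 2 + s ^ 2 = 1) : rt166 c s * (rt166 c s)ᴴ = 1 := by
  have hC : (c : ℂ) * c + (s : ℂ) * s = 1 := by
    have := congrArg (fun x : ℝ => (x : ℂ)) h
    simp only [Complex.ofReal_add, Complex.ofReal_pow, Complex.ofReal_one] at this
    linear_combination this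
  ext i j
  fin_cases i <;> fin_cases j <;>
    simp [rt166, Matrix.mul_apply, Fin.sum_univ_two, Matrix.conjTranspose_apply]
  · linear_combination hC
  · ring
  · ring
  · linear_combination hC

theorem wz_unitary166 : wz166 * wz166ᴴ = 1 := by
  ext i j
  fin_cases i <;> fin_cases j <;>
    simp [wz166, Matrix.mul_apply, Fin.sum_univ_two, Matrix.conjTranspose_apply]

theorem sz_unitary166 : sz166 * sz166ᴴ = 1 := by
  ext i j
  fin_cases i <;> fin_cases j <;>
    simp [sz166, Matrix.mul_apply, Fin.sum_univ_two, Matrix.conjTranspose_apply]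

theorem dg_mul166 (z z' : ℂ) : dg166 (z * z') = dg166 z * dg166 z' := by
  ext i j
  fin_cases i <;> fin_cases j <;>
    simp [dg166, Matrix.mul_apply, Fin.sum_univ_two]

theorem wz_dg166 (z : ℂ) : wz166 * dg166 z * wz166ᴴ = (dg166 z)ᴴ := by
  ext i j
  fin_cases i <;> fin_cases j <;>
    simp [dg166, wz166, Matrix.mul_apply, Fin.sum_univ_two, Matrix.conjTranspose_apply]

theorem rt_mul166 (c s c' s' : ℝ) :
    rt166 c s * rt166 c' s' = rt166 (c * c' - s * s') (c * s' + s * c') := by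
  ext i j
  fin_cases i <;> fin_cases j <;>
    simp [rt166, Matrix.mul_apply, Fin.sum_univ_two] <;> ring

theorem sz_rt166 (c s : ℝ) : sz166 * rt166 c s * sz166ᴴ = (rt166 c s)ᴴ := by
  ext i j
  fin_cases i <;> fin_cases j <;>
    simp [rt166, sz166, Matrix.mul_apply, Fin.sum_univ_two, Matrix.conjTranspose_apply]

/-! ## Unitary matrices -/

theorem unitary_mul166 {x y : Matrix (Fin 2) (Fin 2) ℂ} (hx : x * xᴴ = 1) (hy : y * yᴴ = 1) :
    (x * y) * (x * y)ᴴ = 1 := by
  rw [Matrix.conjTranspose_mul]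
  calc x * y * (yᴴ * xᴴ) = x * (y * yᴴ) * xᴴ := by simp only [mul_assoc]
    _ = 1 := by rw [hy, mul_one, hx]

theorem unitary_star166 {x : Matrix (Fin 2) (Fin 2) ℂ} (hx : x * xᴴ = 1) : xᴴ * xᴴᴴ = 1 := by
  rw [Matrix.conjTranspose_conjTranspose]
  exact mul_eq_one_comm.mp hx

/-- The shape of the elements of `SU(2)`. -/
theorem su2_form166 (m : Matrix (Fin 2) (Fin 2) ℂ) (hu : m * mᴴ = 1) (hd : m.det = 1) :
    m 1 1 = conj (m 0 0) ∧ m 0 1 = -conj (m 1 0) := by
  have hinv : m⁻¹ = mᴴ := Matrix.inv_eq_right_inv hu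
  have hadj : m⁻¹ = m.adjugate := by
    rw [Matrix.inv_def, hd]
    simp
  have h : mᴴ = m.adjugate := hinv.symm.trans hadj
  rw [Matrix.adjugate_fin_two] at h
  have h00 := congrFun (congrFun h 0) 0
  have h01 := congrFun (congrFun h 0) 1
  simp only [Matrix.conjTranspose_apply, Matrix.of_apply, Matrix.cons_val', Matrix.cons_val_zero,
    Matrix.cons_val_one, Matrix.cons_val_fin_one] at h00 h01
  refine ⟨h00.symm, ?_⟩
  have h01' : star (m 1 0) = -m 0 1 := h01
  have e : conj (m 1 0) = star (m 1 0) := rfl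
  rw [e, h01', neg_neg]

/-! ## Square roots on the unit circle -/

theorem exists_sqrt_circle166 (z : ℂ) (hz : z * conj z = 1) :
    ∃ μ : ℂ, μ * conj μ = 1 ∧ μ * μ = z := by
  have hn : ‖z‖ = 1 := by
    have h1 : ((‖z‖ ^ 2 : ℝ) : ℂ) = 1 := by
      rw [← hz, Complex.mul_conj, Complex.normSq_eq_norm_sq]
    have h2 : ‖z‖ ^ 2 = 1 := by exact_mod_cast h1
    have h3 : (0 : ℝ) ≤ ‖z‖ := norm_nonneg z
    nlinarith
  refine ⟨Complex.exp (((Complex.arg z / 2 : ℝ) : ℂ) * Complex.I), ?_, ?_⟩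
  · have hc : conj (((Complex.arg z / 2 : ℝ) : ℂ) * Complex.I)
        = -(((Complex.arg z / 2 : ℝ) : ℂ) * Complex.I) := by
      rw [map_mul, Complex.conj_ofReal, Complex.conj_I]
      ring
    rw [← Complex.exp_conj, ← Complex.exp_add, hc, add_neg_cancel, Complex.exp_zero]
  · rw [← Complex.exp_add]
    have h : (((Complex.arg z / 2 : ℝ) : ℂ) * Complex.I
        + ((Complex.arg z / 2 : ℝ) : ℂ) * Complex.I) = (Complex.arg z : ℂ) * Complex.I := by
      push_cast
      ring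
    rw [h]
    have h' := Complex.norm_mul_exp_arg_mul_I z
    rw [hn] at h'
    simpa using h'

theorem exists_sqrt_rot166 (c s : ℝ) (h : c ^ 2 + s ^ 2 = 1) :
    ∃ c' s' : ℝ, c' ^ 2 + s' ^ 2 = 1 ∧ c = c' * c' - s' * s' ∧ s = c' * s' + s' * c' := by
  have hz : (⟨c, s⟩ : ℂ) * conj (⟨c, s⟩ : ℂ) = 1 := by
    apply Complex.ext
    · simp
      nlinarith
    · simp
      ring
  obtain ⟨μ, hμ, hμ2⟩ := exists_sqrt_circle166 _ hz
  refine ⟨μ.re, μ.im, ?_, ?_, ?_⟩
  · have := congrArg Complex.re hμ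
    simp at this
    nlinarith
  · have := congrArg Complex.re hμ2
    simp at this
    linarith
  · have := congrArg Complex.im hμ2
    simp at this
    linarith

/-- Every complex number is a phase times its norm. -/
theorem exists_phase166 (a : ℂ) : ∃ p : ℂ, p * conj p = 1 ∧ a = p * ((‖a‖ : ℝ) : ℂ) := by
  by_cases ha : a = 0
  · exact ⟨1, by simp, by simp [ha]⟩
  · have hn : (‖a‖ : ℂ) ≠ 0 := by
      exact_mod_cast (norm_ne_zero_iff.mpr ha)
    refine ⟨a / ((‖a‖ : ℝ) : ℂ), ?_, ?_⟩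
    · rw [map_div₀, Complex.conj_ofReal, div_mul_div_comm, Complex.mul_conj,
        Complex.normSq_eq_norm_sq]
      push_cast
      field_simp
    · field_simp

/-! ## The decomposition of `SU(2)` -/

theorem su2_decomp166 (m : Matrix (Fin 2) (Fin 2) ℂ) (hu : m * mᴴ = 1) (hd : m.det = 1) :
    ∃ (z₁ z₂ : ℂ) (c s : ℝ), z₁ * conj z₁ = 1 ∧ z₂ * conj z₂ = 1 ∧ c ^ 2 + s ^ 2 = 1 ∧
      m = dg166 z₁ * rt166 c s * dg166 z₂ := by
  obtain ⟨h11, h01⟩ := su2_form166 m hu hd
  obtain ⟨pa, hpa, ha⟩ := exists_phase166 (m 0 0)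
  obtain ⟨pb, hpb, hb⟩ := exists_phase166 (m 1 0)
  have hpab : (pa * pb) * conj (pa * pb) = 1 := by
    rw [map_mul]
    calc pa * pb * (conj pa * conj pb) = (pa * conj pa) * (pb * conj pb) := by ring
      _ = 1 := by rw [hpa, hpb, mul_one]
  obtain ⟨ν, hν, hν2⟩ := exists_sqrt_circle166 (pa * pb) hpab
  have hν2c : conj ν * conj ν = conj pa * conj pb := by
    rw [← map_mul, ← map_mul, hν2]
  have hcs : ‖m 0 0‖ ^ 2 + ‖m 1 0‖ ^ 2 = 1 := by
    have h1 : m 0 0 * m 1 1 - m 0 1 * m 1 0 = 1 := by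
      rw [← Matrix.det_fin_two]
      exact hd
    rw [h11, h01] at h1
    have h2 : (((‖m 0 0‖ ^ 2 + ‖m 1 0‖ ^ 2 : ℝ)) : ℂ) = 1 := by
      rw [← Complex.normSq_eq_norm_sq, ← Complex.normSq_eq_norm_sq, Complex.ofReal_add,
        ← Complex.mul_conj, ← Complex.mul_conj]
      linear_combination h1
    exact_mod_cast h2
  refine ⟨pa * conj ν, ν, ‖m 0 0‖, ‖m 1 0‖, ?_, hν, hcs, ?_⟩
  · rw [map_mul, Complex.conj_conj]
    calc pa * conj ν * (conj pa * ν) = (pa * conj pa) * (ν * conj ν) := by ring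
      _ = 1 := by rw [hpa, hν, mul_one]
  · have hνc : conj ν * ν = 1 := by rw [mul_comm]; exact hν
    have hpac : conj pa * pa = 1 := by rw [mul_comm]; exact hpa
    have hac : conj (m 0 0) = conj pa * ((‖m 0 0‖ : ℝ) : ℂ) := by
      conv_lhs => rw [ha]
      rw [map_mul, Complex.conj_ofReal]
    have hbc : conj (m 1 0) = conj pb * ((‖m 1 0‖ : ℝ) : ℂ) := by
      conv_lhs => rw [hb]
      rw [map_mul, Complex.conj_ofReal]
    ext i j
    fin_cases i <;> fin_cases j
    · simp only [dg166, rt166, Matrix.mul_apply, Fin.sum_univ_two, Fin.zero_eta, Fin.isValue,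
        Matrix.of_apply, Matrix.cons_val', Matrix.cons_val_zero, Matrix.cons_val_one,
        Matrix.cons_val_fin_one]
      linear_combination ha - pa * ((‖m 0 0‖ : ℝ) : ℂ) * hνc
    · simp only [dg166, rt166, Matrix.mul_apply, Fin.sum_univ_two, Fin.zero_eta, Fin.mk_one,
        Fin.isValue, Matrix.of_apply, Matrix.cons_val', Matrix.cons_val_zero, Matrix.cons_val_one,
        Matrix.cons_val_fin_one, map_mul, Complex.conj_conj]
      rw [h01, hbc]
      linear_combination (pa * ((‖m 1 0‖ : ℝ) : ℂ)) * hν2c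
        + (conj pb * ((‖m 1 0‖ : ℝ) : ℂ)) * hpa
    · simp only [dg166, rt166, Matrix.mul_apply, Fin.sum_univ_two, Fin.zero_eta, Fin.mk_one,
        Fin.isValue, Matrix.of_apply, Matrix.cons_val', Matrix.cons_val_zero, Matrix.cons_val_one,
        Matrix.cons_val_fin_one, map_mul, Complex.conj_conj]
      linear_combination hb - (conj pa * ((‖m 1 0‖ : ℝ) : ℂ)) * hν2
        - (pb * ((‖m 1 0‖ : ℝ) : ℂ)) * hpac
    · simp only [dg166, rt166, Matrix.mul_apply, Fin.sum_univ_two, Fin.mk_one,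
        Fin.isValue, Matrix.of_apply, Matrix.cons_val', Matrix.cons_val_zero, Matrix.cons_val_one,
        Matrix.cons_val_fin_one, map_mul, Complex.conj_conj]
      rw [h11, hac]
      linear_combination - (conj pa * ((‖m 0 0‖ : ℝ) : ℂ)) * hν

/-! ## Characters -/

section Char

variable (σ : Matrix (Fin 2) (Fin 2) ℂ → ℂ)

theorem sigma_one166
    (hmul : ∀ x y : Matrix (Fin 2) (Fin 2) ℂ, x * xᴴ = 1 → y * yᴴ = 1 → σ (x * y) = σ x * σ y)
    (hne : ∀ x : Matrix (Fin 2) (Fin 2) ℂ, x * xᴴ = 1 → σ x ≠ 0) : σ 1 = 1 := by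
  have h1 : (1 : Matrix (Fin 2) (Fin 2) ℂ) * 1ᴴ = 1 := by simp
  have h := hmul 1 1 h1 h1
  rw [mul_one] at h
  have h0 := hne 1 h1
  have h' : σ 1 * 1 = σ 1 * σ 1 := by rw [mul_one]; exact h
  exact (mul_left_cancel₀ h0 h').symm

/-- If `c y c⁻¹ = y⁻¹` then `σ(y²) = 1`. -/
theorem sigma_sq166
    (hmul : ∀ x y : Matrix (Fin 2) (Fin 2) ℂ, x * xᴴ = 1 → y * yᴴ = 1 → σ (x * y) = σ x * σ y)
    (hne : ∀ x : Matrix (Fin 2) (Fin 2) ℂ, x * xᴴ = 1 → σ x ≠ 0)
    {y c : Matrix (Fin 2) (Fin 2) ℂ} (hy : y * yᴴ = 1) (hc : c * cᴴ = 1)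
    (hcy : c * y * cᴴ = yᴴ) : σ (y * y) = 1 := by
  have h1 := sigma_one166 σ hmul hne
  have hys : σ y * σ yᴴ = 1 := by rw [← hmul y yᴴ hy (unitary_star166 hy), hy, h1]
  have hcs : σ c * σ cᴴ = 1 := by rw [← hmul c cᴴ hc (unitary_star166 hc), hc, h1]
  have h2 : σ yᴴ = σ y := by
    rw [← hcy, hmul (c * y) cᴴ (unitary_mul166 hc hy) (unitary_star166 hc), hmul c y hc hy]
    calc σ c * σ y * σ cᴴ = σ y * (σ c * σ cᴴ) := by ring
      _ = σ y := by rw [hcs, mul_one]
  rw [hmul y y hy hy]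
  rw [h2] at hys
  exact hys

/-- **A character of `U(2)` is trivial on `SU(2)`.** -/
theorem sigma_eq_one166
    (hmul : ∀ x y : Matrix (Fin 2) (Fin 2) ℂ, x * xᴴ = 1 → y * yᴴ = 1 → σ (x * y) = σ x * σ y)
    (hne : ∀ x : Matrix (Fin 2) (Fin 2) ℂ, x * xᴴ = 1 → σ x ≠ 0)
    (m : Matrix (Fin 2) (Fin 2) ℂ) (hu : m * mᴴ = 1) (hd : m.det = 1) : σ m = 1 := by
  obtain ⟨z₁, z₂, c, s, h1, h2, hcs, rfl⟩ := su2_decomp166 m hu hd
  have hD : ∀ z : ℂ, z * conj z = 1 → σ (dg166 z) = 1 := by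
    intro z hz
    obtain ⟨μ, hμ, rfl⟩ := exists_sqrt_circle166 z hz
    rw [dg_mul166]
    exact sigma_sq166 σ hmul hne (dg_unitary166 μ hμ) wz_unitary166 (wz_dg166 μ)
  have hR : ∀ c s : ℝ, c ^ 2 + s ^ 2 = 1 → σ (rt166 c s) = 1 := by
    intro c s hcs
    obtain ⟨c', s', h', hc, hs⟩ := exists_sqrt_rot166 c s hcs
    rw [hc, hs, ← rt_mul166]
    exact sigma_sq166 σ hmul hne (rt_unitary166 c' s' h') sz_unitary166 (sz_rt166 c' s')
  rw [hmul _ _ (unitary_mul166 (dg_unitary166 z₁ h1) (rt_unitary166 c s hcs))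
      (dg_unitary166 z₂ h2),
    hmul _ _ (dg_unitary166 z₁ h1) (rt_unitary166 c s hcs), hD z₁ h1, hD z₂ h2, hR c s hcs]
  simp

end Char

end Fermat.Agent.LT.T2.H166

end

end
-- ===== PACK-END LT/T2/H166/SU2Comm.lean

-- ===== PACK-BEGIN LT/T2/H354/Char.lean
section


/-!
# Row LT, tower T2, leaf T2.26 (helper354): continuous characters of `ℝ`

A continuous function `χ : ℝ → ℂ` with `χ 0 = 1` and `χ (s + t) = χ s * χ t` is `t ↦ exp (c t)`;
if moreover `χ (2π) = 1` then `χ t = exp (i t) ^ n` for an integer `n`.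

Mathlib only.
-/

open MeasureTheory Filter Topology

noncomputable section

namespace Fermat.Agent.LT.T2.H354

/-- A continuous multiplicative function on `ℝ` is an exponential. -/
theorem char_eq_exp354 (χ : ℝ → ℂ) (hc : Continuous χ) (h0 : χ 0 = 1)
    (hmul : ∀ s t, χ (s + t) = χ s * χ t) : ∃ c : ℂ, ∀ t : ℝ, χ t = Complex.exp (c * t) := by
  -- the primitive
  set I : ℝ → ℂ := fun t => ∫ s in (0 : ℝ)..t, χ s with hI
  have hderI : ∀ t, HasDerivAt I (χ t) t := fun t =>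
    intervalIntegral.integral_hasDerivAt_right (hc.intervalIntegrable _ _)
      hc.aestronglyMeasurable.stronglyMeasurableAtFilter hc.continuousAt
  have hI0 : I 0 = 0 := by simp [hI]
  -- a point where the primitive does not vanish
  obtain ⟨δ, hδ⟩ : ∃ δ : ℝ, I δ ≠ 0 := by
    have h1 : HasDerivAt I (1 : ℂ) 0 := by
      have := hderI 0
      rwa [h0] at this
    have h2 : ∀ᶠ z in 𝓝[≠] (0 : ℝ), I z ≠ 0 := h1.eventually_ne one_ne_zero
    obtain ⟨δ, hδ⟩ := h2.exists
    exact ⟨δ, hδ⟩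
  -- the functional equation for the primitive
  have hkey : ∀ t, χ t * I δ = I (t + δ) - I t := by
    intro t
    have e1 : χ t * I δ = ∫ s in (0 : ℝ)..δ, χ (t + s) := by
      rw [hI]
      change χ t * ∫ s in (0 : ℝ)..δ, χ s = _
      rw [← intervalIntegral.integral_const_mul]
      refine intervalIntegral.integral_congr fun s _ => ?_
      change χ t * χ s = χ (t + s)
      rw [hmul]
    have e2 : ∫ s in (0 : ℝ)..δ, χ (t + s) = ∫ s in (t + 0)..(t + δ), χ s := by
      rw [intervalIntegral.integral_comp_add_left (fun s => χ s) t]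
    have e3 : ∫ s in (t + 0)..(t + δ), χ s = I (t + δ) - I t := by
      rw [add_zero, hI]
      change _ = (∫ s in (0 : ℝ)..(t + δ), χ s) - ∫ s in (0 : ℝ)..t, χ s
      rw [intervalIntegral.integral_interval_sub_left (hc.intervalIntegrable _ _)
        (hc.intervalIntegrable _ _)]
    rw [e1, e2, e3]
  set c : ℂ := (χ δ - 1) / I δ with hcdef
  have hχ : ∀ t, χ t = (I (t + δ) - I t) / I δ := fun t => by
    rw [← hkey t, mul_div_assoc, div_self hδ, mul_one]
  have hderχ : ∀ t, HasDerivAt χ (c * χ t) t := by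
    intro t
    have h1 : HasDerivAt (fun t => I (t + δ)) (χ (t + δ)) t :=
      HasDerivAt.comp_add_const t δ (hderI (t + δ))
    have h2 : HasDerivAt (fun t => (I (t + δ) - I t) / I δ) ((χ (t + δ) - χ t) / I δ) t :=
      (h1.sub (hderI t)).div_const _
    have h3 : (fun t => (I (t + δ) - I t) / I δ) = χ := by
      funext s
      exact (hχ s).symm
    rw [h3] at h2
    have h4 : (χ (t + δ) - χ t) / I δ = c * χ t := by
      rw [hcdef, hmul]
      field_simp
    rwa [h4] at h2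
  -- `χ(t) exp(-c t)` is constant
  set g : ℝ → ℂ := fun t => χ t * Complex.exp (-(c * t)) with hg
  have hderg : ∀ t, HasDerivAt g 0 t := by
    intro t
    have h1 : HasDerivAt (fun t : ℝ => -(c * (t : ℂ))) (-c) t := by
      have h0 : HasDerivAt (fun t : ℝ => (t : ℂ)) 1 t := by
        simpa using (hasDerivAt_id t).ofReal_comp
      have h5 := (h0.const_mul c).neg
      rw [mul_one] at h5
      exact h5
    have h2 : HasDerivAt (fun t : ℝ => Complex.exp (-(c * (t : ℂ))))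
        (Complex.exp (-(c * t)) * (-c)) t := h1.cexp
    have h3 := (hderχ t).mul h2
    have h4 : c * χ t * Complex.exp (-(c * t)) + χ t * (Complex.exp (-(c * t)) * (-c)) = 0 := by
      ring
    rw [h4] at h3
    exact h3
  have hconst : ∀ t, g t = g 0 := by
    intro t
    have hd : Differentiable ℝ g := fun s => (hderg s).differentiableAt
    exact is_const_of_deriv_eq_zero hd (fun s => (hderg s).deriv) t 0
  refine ⟨c, fun t => ?_⟩
  have h1 := hconst t
  have h2 : g 0 = 1 := by simp [hg, h0]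
  rw [h2, hg] at h1
  simp only at h1
  have h3 : χ t = χ t * Complex.exp (-(c * t)) * Complex.exp (c * t) := by
    rw [mul_assoc, ← Complex.exp_add, neg_add_cancel, Complex.exp_zero, mul_one]
  rw [h3, h1, one_mul]

/-- A continuous multiplicative function on `ℝ` of period `2π` is `t ↦ exp (i t) ^ n`. -/
theorem char_periodic354 (χ : ℝ → ℂ) (hc : Continuous χ) (h0 : χ 0 = 1)
    (hmul : ∀ s t, χ (s + t) = χ s * χ t) (hper : χ (2 * Real.pi) = 1) :
    ∃ n : ℤ, ∀ t : ℝ, χ t = Complex.exp (t * Complex.I) ^ n := by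
  obtain ⟨c, hcχ⟩ := char_eq_exp354 χ hc h0 hmul
  have h1 : Complex.exp (c * ((2 * Real.pi : ℝ) : ℂ)) = 1 := by rw [← hcχ, hper]
  obtain ⟨n, hn⟩ := Complex.exp_eq_one_iff.1 h1
  have hpi : ((2 * Real.pi : ℝ) : ℂ) ≠ 0 := by
    rw [Ne, Complex.ofReal_eq_zero]
    positivity
  have hcn : c = n * Complex.I := by
    have : c * ((2 * Real.pi : ℝ) : ℂ) = (n * Complex.I) * ((2 * Real.pi : ℝ) : ℂ) := by
      rw [hn]; push_cast; ring
    exact mul_right_cancel₀ hpi this
  refine ⟨n, fun t => ?_⟩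
  rw [hcχ, hcn, ← Complex.exp_int_mul]
  congr 1
  ring

end Fermat.Agent.LT.T2.H354

end

end
-- ===== PACK-END LT/T2/H354/Char.lean

-- ===== PACK-BEGIN LT/T2/H437/LocRealCore.lean
section


/-!
# Row LT, tower T2, sub-leaf T2.02d.5c (`LocRealC724`), core (helper437) -- Mathlib only

For every real `2 × 2` matrix `M` there is `A ∈ SO(2)` with `adjugate M = A * M * (-A)`.

Explicitly: write `M = [[a, b], [c, d]]`.  For `A = [[s, -t], [t, s]]` one has
`A * M * (-A) = adjugate M` as soon as `s * (a + d) = t * (c - b)`, and a unit vector `(s, t)` with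
this property always exists (`(s, t) = (c - b, a + d) / r`, or `(1, 0)` when `a + d = c - b = 0`).
No hypothesis on the determinant is needed.
-/

set_option autoImplicit false

namespace Fermat.Agent.LT.T2.H437

/-- The rotation-type matrix `[[s, -t], [t, s]]`. -/
def rot437 (s t : ℝ) : Matrix (Fin 2) (Fin 2) ℝ := !![s, -t; t, s]

theorem rot437_mul_transpose (s t : ℝ) (h : s ^ 2 + t ^ 2 = 1) :
    rot437 s t * (rot437 s t).transpose = 1 := by
  ext i j
  fin_cases i <;> fin_cases j <;>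
    simp [rot437, Matrix.mul_apply, Fin.sum_univ_two] <;> nlinarith [h]

theorem rot437_det (s t : ℝ) (h : s ^ 2 + t ^ 2 = 1) : (rot437 s t).det = 1 := by
  rw [rot437, Matrix.det_fin_two_of]
  nlinarith [h]

theorem neg_rot437_mul_transpose (s t : ℝ) (h : s ^ 2 + t ^ 2 = 1) :
    (-rot437 s t) * (-rot437 s t).transpose = 1 := by
  rw [Matrix.transpose_neg, neg_mul_neg]
  exact rot437_mul_transpose s t h

theorem neg_rot437_det (s t : ℝ) (h : s ^ 2 + t ^ 2 = 1) : (-rot437 s t).det = 1 := by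
  rw [Matrix.det_neg, rot437_det s t h]
  simp

/-- The key identity: `adjugate M = A * M * (-A)` for `A = rot437 s t` with
`s * (M 0 0 + M 1 1) = t * (M 1 0 - M 0 1)` and `s² + t² = 1`. -/
theorem adjugate_eq_rot437 (M : Matrix (Fin 2) (Fin 2) ℝ) (s t : ℝ) (h : s ^ 2 + t ^ 2 = 1)
    (hst : s * (M 0 0 + M 1 1) = t * (M 1 0 - M 0 1)) :
    M.adjugate = rot437 s t * M * (-rot437 s t) := by
  have hM : M = !![M 0 0, M 0 1; M 1 0, M 1 1] := Matrix.eta_fin_two M
  generalize M 0 0 = a at hM hst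
  generalize M 0 1 = b at hM hst
  generalize M 1 0 = c at hM hst
  generalize M 1 1 = d at hM hst
  subst hM
  have e11 : d = -((s * a + -(t * c)) * s) + -((s * b + -(t * d)) * t) := by
    linear_combination (-d) * h + s * hst
  have e12 : -b = (s * a + -(t * c)) * t + -((s * b + -(t * d)) * s) := by
    linear_combination b * h + (-t) * hst
  have e21 : -c = -((t * a + s * c) * s) + -((t * b + s * d) * t) := by
    linear_combination c * h + t * hst
  have e22 : a = (t * a + s * c) * t + -((t * b + s * d) * s) := by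
    linear_combination (-a) * h + s * hst
  rw [Matrix.adjugate_fin_two_of, rot437]
  simp only [Matrix.mul_fin_two, Matrix.neg_of, Matrix.neg_cons, Matrix.neg_empty, neg_neg,
    mul_neg, neg_mul]
  ext i j
  fin_cases i <;> fin_cases j
  · simpa using e11
  · simpa using e12
  · simpa using e21
  · simpa using e22

/-- A unit vector `(s, t)` with `s * x = t * y`. -/
theorem exists_unit437 (x y : ℝ) : ∃ s t : ℝ, s ^ 2 + t ^ 2 = 1 ∧ s * x = t * y := by
  by_cases h0 : x ^ 2 + y ^ 2 = 0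
  · have hx : x = 0 := by nlinarith [sq_nonneg x, sq_nonneg y]
    have hy : y = 0 := by nlinarith [sq_nonneg x, sq_nonneg y]
    exact ⟨1, 0, by norm_num, by rw [hx, hy]; ring⟩
  · have hpos : 0 < x ^ 2 + y ^ 2 := lt_of_le_of_ne (by positivity) (Ne.symm h0)
    have hr : 0 < Real.sqrt (x ^ 2 + y ^ 2) := Real.sqrt_pos.mpr hpos
    have hr2 : Real.sqrt (x ^ 2 + y ^ 2) ^ 2 = x ^ 2 + y ^ 2 := Real.sq_sqrt hpos.le
    refine ⟨y / Real.sqrt (x ^ 2 + y ^ 2), x / Real.sqrt (x ^ 2 + y ^ 2), ?_, ?_⟩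
    · rw [div_pow, div_pow, hr2]
      field_simp
      ring
    · field_simp

/-- **Core of T2.02d.5c**: for every real `2 × 2` matrix `M` there are `A, B ∈ SO(2)` with
`adjugate M = A * M * B`. -/
theorem locReal437 (M : Matrix (Fin 2) (Fin 2) ℝ) :
    ∃ A B : Matrix (Fin 2) (Fin 2) ℝ,
      A * A.transpose = 1 ∧ A.det = 1 ∧ B * B.transpose = 1 ∧ B.det = 1 ∧
        M.adjugate = A * M * B := by
  obtain ⟨s, t, h, hst⟩ := exists_unit437 (M 0 0 + M 1 1) (M 1 0 - M 0 1)
  exact ⟨rot437 s t, -rot437 s t, rot437_mul_transpose s t h, rot437_det s t h,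
    neg_rot437_mul_transpose s t h, neg_rot437_det s t h, adjugate_eq_rot437 M s t h hst⟩

end Fermat.Agent.LT.T2.H437

end
-- ===== PACK-END LT/T2/H437/LocRealCore.lean

-- ===== PACK-BEGIN LT/T2/H8/LocCpxCore.lean
section


/-!
# T2.02d.5b, core (helper8): unitary equivalence of `M`, `Mᵀ` and `adjugate M` over `ℂ`

Mathlib only.  For an invertible complex square matrix `M` the Hermitian matrix `Mᴴ * M` is positive
definite; the spectral theorem gives `Mᴴ * M = V * diagonal ev * Vᴴ` with `V` unitary and `ev > 0`, so that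
`P := M * V * diagonal (1 / √ev)` is unitary and `M = P * diagonal (√ev) * Vᴴ` (singular value
decomposition).  Hence `Mᵀ = (V̄ * Pᴴ) * M * (V * Pᵀ)`, and for `2 × 2` matrices
`adjugate M = J * Mᵀ * Jᴴ` with `J = !![0, 1; -1, 0]`.
-/

namespace Fermat.Agent.LT.T2.H8

open Matrix
open scoped ComplexOrder

/-- Singular value decomposition of an invertible complex square matrix, in the form needed here:
`M = P * diagonal d * Q` with `P`, `Q` unitary. -/
theorem exists_unitary_diag_unitary8 {n : Type*} [Fintype n] [DecidableEq n]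
    (M : Matrix n n ℂ) (hM : M.det ≠ 0) :
    ∃ (P Q : Matrix n n ℂ) (d : n → ℂ),
      P * Pᴴ = 1 ∧ Pᴴ * P = 1 ∧ Q * Qᴴ = 1 ∧ Qᴴ * Q = 1 ∧ M = P * diagonal d * Q := by
  classical
  have hH : (Mᴴ * M).IsHermitian := isHermitian_conjTranspose_mul_self M
  have hinj : Function.Injective M.mulVec :=
    Matrix.mulVec_injective_iff_isUnit.mpr ((Matrix.isUnit_iff_isUnit_det _).mpr (Ne.isUnit hM))
  have hPD : (Mᴴ * M).PosDef := Matrix.PosDef.conjTranspose_mul_self M hinj
  obtain ⟨V, ev, hVV, hVV', hpos, hspec⟩ : ∃ (V : Matrix n n ℂ) (ev : n → ℝ),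
      Vᴴ * V = 1 ∧ V * Vᴴ = 1 ∧ (∀ i, 0 < ev i) ∧
        Mᴴ * M = V * diagonal (fun i => ((ev i : ℝ) : ℂ)) * Vᴴ := by
    refine ⟨(hH.eigenvectorUnitary : Matrix n n ℂ), hH.eigenvalues, ?_, ?_, ?_, ?_⟩
    · exact Unitary.coe_star_mul_self hH.eigenvectorUnitary
    · exact Unitary.coe_mul_star_self hH.eigenvectorUnitary
    · exact fun i => hPD.eigenvalues_pos i
    · have h := hH.spectral_theorem
      rw [Unitary.conjStarAlgAut_apply] at h
      exact h
  -- the diagonal matrices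
  set s : n → ℂ := fun i => ((Real.sqrt (ev i) : ℝ) : ℂ) with hs
  set t : n → ℂ := fun i => (((Real.sqrt (ev i))⁻¹ : ℝ) : ℂ) with ht
  have hst : ∀ i, s i * t i = 1 := by
    intro i
    have h0 : Real.sqrt (ev i) ≠ 0 := (Real.sqrt_pos.mpr (hpos i)).ne'
    simp only [hs, ht]
    rw [← Complex.ofReal_mul, mul_inv_cancel₀ h0, Complex.ofReal_one]
  have htet : ∀ i, t i * ((ev i : ℝ) : ℂ) * t i = 1 := by
    intro i
    have h0 : Real.sqrt (ev i) ≠ 0 := (Real.sqrt_pos.mpr (hpos i)).ne'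
    simp only [ht]
    rw [← Complex.ofReal_mul, ← Complex.ofReal_mul, ← Complex.ofReal_one]
    congr 1
    have hsq : Real.sqrt (ev i) * Real.sqrt (ev i) = ev i :=
      Real.mul_self_sqrt (hpos i).le
    field_simp
    nlinarith [hsq]
  have htH : (diagonal t)ᴴ = diagonal t := by
    rw [diagonal_conjTranspose]
    congr 1
    funext i
    simp [ht]
  refine ⟨M * V * diagonal t, Vᴴ, s, ?_, ?_, ?_, ?_, ?_⟩
  · -- P * Pᴴ = 1 follows from Pᴴ * P = 1
    have h1 : (M * V * diagonal t)ᴴ * (M * V * diagonal t) = 1 := by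
      rw [conjTranspose_mul, conjTranspose_mul, htH]
      calc diagonal t * (Vᴴ * Mᴴ) * (M * V * diagonal t)
          = diagonal t * (Vᴴ * (Mᴴ * M) * V) * diagonal t := by simp only [Matrix.mul_assoc]
        _ = diagonal t * ((Vᴴ * V) * diagonal (fun i => ((ev i : ℝ) : ℂ)) * (Vᴴ * V))
              * diagonal t := by rw [hspec]; simp only [Matrix.mul_assoc]
        _ = 1 := by
            rw [hVV, Matrix.one_mul, Matrix.mul_one, diagonal_mul_diagonal, diagonal_mul_diagonal]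
            rw [← diagonal_one]
            congr 1
            funext i
            exact htet i
    exact mul_eq_one_comm.mp h1
  · rw [conjTranspose_mul, conjTranspose_mul, htH]
    calc diagonal t * (Vᴴ * Mᴴ) * (M * V * diagonal t)
        = diagonal t * (Vᴴ * (Mᴴ * M) * V) * diagonal t := by simp only [Matrix.mul_assoc]
      _ = diagonal t * ((Vᴴ * V) * diagonal (fun i => ((ev i : ℝ) : ℂ)) * (Vᴴ * V))
            * diagonal t := by rw [hspec]; simp only [Matrix.mul_assoc]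
      _ = 1 := by
          rw [hVV, Matrix.one_mul, Matrix.mul_one, diagonal_mul_diagonal, diagonal_mul_diagonal]
          rw [← diagonal_one]
          congr 1
          funext i
          exact htet i
  · rw [conjTranspose_conjTranspose]; exact hVV
  · rw [conjTranspose_conjTranspose]; exact hVV'
  · have hts : diagonal t * diagonal s = (1 : Matrix n n ℂ) := by
      rw [diagonal_mul_diagonal, ← diagonal_one]
      congr 1
      funext i
      rw [mul_comm]; exact hst i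
    calc M = M * (V * Vᴴ) := by rw [hVV', Matrix.mul_one]
      _ = M * V * (diagonal t * diagonal s) * Vᴴ := by
          rw [hts, Matrix.mul_one, Matrix.mul_assoc]
      _ = M * V * diagonal t * diagonal s * Vᴴ := by simp only [Matrix.mul_assoc]

/-- An invertible complex square matrix is unitarily equivalent to its transpose. -/
theorem exists_unitary_transpose8 {n : Type*} [Fintype n] [DecidableEq n]
    (M : Matrix n n ℂ) (hM : M.det ≠ 0) :
    ∃ A B : Matrix n n ℂ, A * Aᴴ = 1 ∧ B * Bᴴ = 1 ∧ Mᵀ = A * M * B := by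
  obtain ⟨P, Q, d, hP, hP', hQ, hQ', hMd⟩ := exists_unitary_diag_unitary8 M hM
  have hQT : Qᵀ * (Qᵀ)ᴴ = 1 := by
    have : (Qᵀ)ᴴ = (Qᴴ)ᵀ := by
      ext i j; simp [conjTranspose_apply, transpose_apply]
    rw [this, ← transpose_mul, hQ', transpose_one]
  have hPT : Pᵀ * (Pᵀ)ᴴ = 1 := by
    have : (Pᵀ)ᴴ = (Pᴴ)ᵀ := by
      ext i j; simp [conjTranspose_apply, transpose_apply]
    rw [this, ← transpose_mul, hP', transpose_one]
  refine ⟨Qᵀ * Pᴴ, Qᴴ * Pᵀ, ?_, ?_, ?_⟩
  · rw [conjTranspose_mul, conjTranspose_conjTranspose]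
    calc Qᵀ * Pᴴ * (P * (Qᵀ)ᴴ) = Qᵀ * (Pᴴ * P) * (Qᵀ)ᴴ := by simp only [Matrix.mul_assoc]
      _ = 1 := by rw [hP', Matrix.mul_one, hQT]
  · rw [conjTranspose_mul, conjTranspose_conjTranspose]
    calc Qᴴ * Pᵀ * ((Pᵀ)ᴴ * Q) = Qᴴ * (Pᵀ * (Pᵀ)ᴴ) * Q := by simp only [Matrix.mul_assoc]
      _ = 1 := by rw [hPT, Matrix.mul_one, hQ']
  · calc Mᵀ = Qᵀ * diagonal d * Pᵀ := by
          conv_lhs => rw [hMd]
          rw [transpose_mul, transpose_mul, diagonal_transpose, Matrix.mul_assoc]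
      _ = Qᵀ * ((Pᴴ * P) * diagonal d * (Q * Qᴴ)) * Pᵀ := by
          rw [hP', hQ, Matrix.one_mul, Matrix.mul_one]
      _ = Qᵀ * Pᴴ * (P * diagonal d * Q) * (Qᴴ * Pᵀ) := by simp only [Matrix.mul_assoc]
      _ = Qᵀ * Pᴴ * M * (Qᴴ * Pᵀ) := by rw [← hMd]

/-- **T2.02d.5b, core.**  For `M ∈ GL₂(ℂ)` there are `A, B ∈ U(2)` with `adjugate M = A * M * B`. -/
theorem exists_unitary_adjugate8 (M : Matrix (Fin 2) (Fin 2) ℂ) (hM : M.det ≠ 0) :
    ∃ A B : Matrix (Fin 2) (Fin 2) ℂ,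
      A * A.conjTranspose = 1 ∧ B * B.conjTranspose = 1 ∧ M.adjugate = A * M * B := by
  obtain ⟨A, B, hA, hB, hAB⟩ := exists_unitary_transpose8 M hM
  have hJ : (!![0, 1; -1, 0] : Matrix (Fin 2) (Fin 2) ℂ) * (!![0, 1; -1, 0])ᴴ = 1 := by
    ext i j
    fin_cases i <;> fin_cases j <;> simp [Matrix.mul_apply, Fin.sum_univ_two, conjTranspose_apply]
  have hJ' : ((!![0, 1; -1, 0] : Matrix (Fin 2) (Fin 2) ℂ))ᴴ * !![0, 1; -1, 0] = 1 :=
    mul_eq_one_comm.mp hJ
  have hadj : M.adjugate = !![0, 1; -1, 0] * Mᵀ * (!![0, 1; -1, 0])ᴴ := by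
    rw [Matrix.adjugate_fin_two]
    ext i j
    fin_cases i <;> fin_cases j <;>
      simp [Matrix.mul_apply, Fin.sum_univ_two, conjTranspose_apply, Matrix.vecMul, dotProduct,
        transpose_apply]
  refine ⟨!![0, 1; -1, 0] * A, B * (!![0, 1; -1, 0])ᴴ, ?_, ?_, ?_⟩
  · rw [conjTranspose_mul]
    calc !![0, 1; -1, 0] * A * (Aᴴ * (!![0, 1; -1, 0])ᴴ)
        = !![0, 1; -1, 0] * (A * Aᴴ) * (!![0, 1; -1, 0])ᴴ := by simp only [Matrix.mul_assoc]
      _ = 1 := by rw [hA, Matrix.mul_one, hJ]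
  · rw [conjTranspose_mul, conjTranspose_conjTranspose]
    calc B * (!![0, 1; -1, 0])ᴴ * (!![0, 1; -1, 0] * Bᴴ)
        = B * ((!![0, 1; -1, 0])ᴴ * !![0, 1; -1, 0]) * Bᴴ := by simp only [Matrix.mul_assoc]
      _ = 1 := by rw [hJ', Matrix.mul_one, hB]
  · rw [hadj, hAB]
    simp only [Matrix.mul_assoc]

end Fermat.Agent.LT.T2.H8

end
-- ===== PACK-END LT/T2/H8/LocCpxCore.lean

-- ===== PACK-BEGIN LT/T6/H502/NormProd.lean
section


/-!
# Row LT, tower T6, sub-leaf T6.07 (helper502): norm = product over the Galois group, after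
base change

OFF-MAIN.  Mathlib only.

`M / L` finite Galois (`L` infinite), `A` a commutative `L`-algebra.  For every `y ∈ A ⊗_L M`

    algebraMap A (A ⊗ M) (Algebra.norm A y) = ∏_{σ ∈ Gal(M/L)} (1 ⊗ σ) y

(`algebraMap_norm_eq_prod502`).  Proof: both sides are polynomial in the coordinates of `y`; the
two polynomials (over `M`) agree on `Lⁿ` by `Algebra.norm_eq_prod_automorphisms`, hence are equal.
-/

set_option autoImplicit false

open scoped TensorProduct

noncomputable section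

namespace Fermat.Agent.LT.T6.H502

section NormProd

variable {L M : Type*} [Field L] [Field M] [Algebra L M] [FiniteDimensional L M]

/-- The generic left multiplication matrix, over `MvPolynomial (Fin n) L`. -/
def genMat502 {n : ℕ} (b : Module.Basis (Fin n) L M) :
    Matrix (Fin n) (Fin n) (MvPolynomial (Fin n) L) :=
  fun i k => ∑ j, MvPolynomial.X j * MvPolynomial.C (Algebra.leftMulMatrix b (b j) i k)

/-- The generic norm polynomial. -/
def genNorm502 {n : ℕ} (b : Module.Basis (Fin n) L M) : MvPolynomial (Fin n) L :=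
  (genMat502 b).det

omit [FiniteDimensional L M] in
/-- Evaluating the generic norm polynomial in an `L`-algebra `S` at `c` gives the determinant of
`∑ c_j [b_j]`. -/
theorem aeval_genNorm502 {n : ℕ} (b : Module.Basis (Fin n) L M) {S : Type*} [CommRing S]
    [Algebra L S] (c : Fin n → S) :
    MvPolynomial.aeval c (genNorm502 b)
      = Matrix.det (fun i k => ∑ j, c j * algebraMap L S (Algebra.leftMulMatrix b (b j) i k)) := by
  unfold genNorm502
  rw [AlgHom.map_det]
  congr 1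
  ext i k
  simp [genMat502, AlgHom.mapMatrix_apply, Matrix.map_apply]

omit [FiniteDimensional L M] in
/-- The norm of `∑ a_j ⊗ b_j` over `A`. -/
theorem norm_sum_tmul502 {n : ℕ} (b : Module.Basis (Fin n) L M) {A : Type*} [CommRing A]
    [Algebra L A] (a : Fin n → A) :
    Algebra.norm A (∑ j, a j ⊗ₜ[L] b j : A ⊗[L] M) = MvPolynomial.aeval a (genNorm502 b) := by
  rw [Algebra.norm_eq_matrix_det (Algebra.TensorProduct.basis A b), aeval_genNorm502]
  congr 1
  ext i k
  rw [Algebra.leftMulMatrix_eq_repr_mul, Algebra.TensorProduct.basis_apply, Finset.sum_mul,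
    map_sum, Finsupp.coe_finsetSum, Finset.sum_apply]
  refine Finset.sum_congr rfl fun j _ => ?_
  rw [Algebra.TensorProduct.tmul_mul_tmul, mul_one, Algebra.TensorProduct.basis_repr_tmul,
    Algebra.leftMulMatrix_eq_repr_mul]
  simp

/-- The norm of `∑ x_j b_j` over `L`. -/
theorem norm_sum_smul502 {n : ℕ} (b : Module.Basis (Fin n) L M) (x : Fin n → L) :
    Algebra.norm L (∑ j, x j • b j : M) = MvPolynomial.eval x (genNorm502 b) := by
  have h := aeval_genNorm502 b (S := L) x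
  rw [MvPolynomial.aeval_eq_eval] at h
  rw [Algebra.norm_eq_matrix_det b, h]
  congr 1
  ext i k
  rw [map_sum, Matrix.sum_apply]
  refine Finset.sum_congr rfl fun j _ => ?_
  rw [map_smul, Matrix.smul_apply, smul_eq_mul]
  simp

variable [IsGalois L M] [Infinite L]

/-- The polynomial identity behind `Algebra.norm_eq_prod_automorphisms`. -/
theorem map_genNorm502 {n : ℕ} (b : Module.Basis (Fin n) L M) :
    MvPolynomial.map (algebraMap L M) (genNorm502 b)
      = ∏ σ : M ≃ₐ[L] M, ∑ j, MvPolynomial.X j * MvPolynomial.C (σ (b j)) := by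
  refine MvPolynomial.funext_set (fun _ => Set.range (algebraMap L M))
    (fun _ => Set.infinite_range_of_injective (algebraMap L M).injective) ?_
  intro x hx
  have hx' : ∀ j, ∃ c : L, algebraMap L M c = x j := fun j => hx j (Set.mem_univ j)
  choose x₀ hx₀ using hx'
  have hx₁ : x = fun j => algebraMap L M (x₀ j) := funext fun j => (hx₀ j).symm
  rw [MvPolynomial.eval_map, hx₁]
  have h1 : MvPolynomial.eval₂ (algebraMap L M) (fun j => algebraMap L M (x₀ j)) (genNorm502 b)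
      = algebraMap L M (MvPolynomial.eval x₀ (genNorm502 b)) := by
    have := MvPolynomial.eval₂_comp_left (algebraMap L M) (RingHom.id L) x₀ (genNorm502 b)
    rw [RingHom.comp_id] at this
    rw [MvPolynomial.eval, MvPolynomial.coe_eval₂Hom, this]
    rfl
  rw [h1, ← norm_sum_smul502, Algebra.norm_eq_prod_automorphisms, map_prod]
  refine Finset.prod_congr rfl fun σ _ => ?_
  rw [map_sum, map_sum]
  refine Finset.sum_congr rfl fun j _ => ?_
  simp [Algebra.smul_def]

/-- **Norm = product over the Galois group, after base change.** -/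
theorem algebraMap_norm_eq_prod502 {A : Type*} [CommRing A] [Algebra L A] (y : A ⊗[L] M) :
    algebraMap A (A ⊗[L] M) (Algebra.norm A y)
      = ∏ σ : M ≃ₐ[L] M, Algebra.TensorProduct.map (AlgHom.id A A) (σ : M →ₐ[L] M) y := by
  classical
  set n := Module.finrank L M with hn
  let b : Module.Basis (Fin n) L M := Module.finBasis L M
  let bA : Module.Basis (Fin n) A (A ⊗[L] M) := Algebra.TensorProduct.basis A b
  -- coordinates of `y`
  have hy : y = ∑ j, (bA.repr y j) ⊗ₜ[L] b j := by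
    conv_lhs => rw [← bA.sum_repr y]
    refine Finset.sum_congr rfl fun j _ => ?_
    rw [Algebra.TensorProduct.basis_repr_symm_apply']
  set a : Fin n → A := fun j => bA.repr y j with ha
  rw [hy, norm_sum_tmul502]
  -- the evaluation homomorphism `MvPolynomial (Fin n) M → A ⊗ M`
  let ev : MvPolynomial (Fin n) M →+* A ⊗[L] M :=
    MvPolynomial.eval₂Hom
      ((Algebra.TensorProduct.includeRight : M →ₐ[L] A ⊗[L] M) : M →+* A ⊗[L] M)
      (fun j => a j ⊗ₜ[L] (1 : M))
  have hev : ev (MvPolynomial.map (algebraMap L M) (genNorm502 b))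
      = algebraMap A (A ⊗[L] M) (MvPolynomial.aeval a (genNorm502 b)) := by
    show MvPolynomial.eval₂ _ _ (MvPolynomial.map (algebraMap L M) (genNorm502 b)) = _
    rw [MvPolynomial.eval₂_map]
    have h := MvPolynomial.eval₂_comp_left
      ((Algebra.TensorProduct.includeLeft : A →ₐ[A] A ⊗[L] M) : A →+* A ⊗[L] M)
      (algebraMap L A) a (genNorm502 b)
    have h2 : algebraMap A (A ⊗[L] M) (MvPolynomial.aeval a (genNorm502 b))
        = ((Algebra.TensorProduct.includeLeft : A →ₐ[A] A ⊗[L] M) : A →+* A ⊗[L] M)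
            (MvPolynomial.eval₂ (algebraMap L A) a (genNorm502 b)) := by
      rw [MvPolynomial.aeval_def]
      rfl
    rw [h2, h]
    congr 1
    ext c
    simp [Algebra.TensorProduct.includeLeft, Algebra.TensorProduct.includeRight,
      Algebra.algebraMap_eq_smul_one, TensorProduct.smul_tmul]
  rw [← hev, map_genNorm502, map_prod]
  refine Finset.prod_congr rfl fun σ _ => ?_
  rw [map_sum, map_sum]
  refine Finset.sum_congr rfl fun j _ => ?_
  simp [ev, a]

end NormProd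

end Fermat.Agent.LT.T6.H502

end

end
-- ===== PACK-END LT/T6/H502/NormProd.lean

-- ===== PACK-BEGIN LT/T6/H502/LocMap.lean
section


/-!
# Row LT, tower T6, sub-leaf T6.07 (helper502): maps between completions

OFF-MAIN.  Mathlib only.

For number fields `L / K`:
* `finMap502 u : K_v →+* L_u` for a finite place `u` of `L`, `v = u ∩ 𝓞 K`;
* `infMap502 u : K_w →+* L_u` for an infinite place `u` of `L`, `w = u.comap (algebraMap K L)`;
both compatible with `K → L`.
-/

set_option autoImplicit false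

open IsDedekindDomain NumberField

noncomputable section

namespace Fermat.Agent.LT.T6.H502

section Fin

variable (K : Type) {L : Type} [Field K] [NumberField K] [Field L] [NumberField L] [Algebra K L]

/-- The place of `K` under a finite place of `L`. -/
def finUnder502 (u : HeightOneSpectrum (𝓞 L)) : HeightOneSpectrum (𝓞 K) :=
  u.under (𝓞 K)

instance finUnder_liesOver502 (u : HeightOneSpectrum (𝓞 L)) :
    u.asIdeal.LiesOver (finUnder502 K u).asIdeal :=
  ⟨rfl⟩

/-- The map `K_v → L_u`. -/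
def finMap502 (u : HeightOneSpectrum (𝓞 L)) :
    (finUnder502 K u).adicCompletion K →+* u.adicCompletion L :=
  ((HeightOneSpectrum.adicCompletion.equiv L u).symm.toRingHom.comp
    (UniformSpace.Completion.mapRingHom
      (algebraMap (WithVal ((finUnder502 K u).valuation K)) (WithVal (u.valuation L)))
      (HeightOneSpectrum.uniformContinuous_algebraMap_liesOver K L
        (finUnder502 K u) u).continuous)).comp
    (HeightOneSpectrum.adicCompletion.equiv K (finUnder502 K u)).toRingHom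

theorem finMap_algebraMap502 (u : HeightOneSpectrum (𝓞 L)) (x : K) :
    finMap502 K u (algebraMap K ((finUnder502 K u).adicCompletion K) x)
      = algebraMap L (u.adicCompletion L) (algebraMap K L x) := by
  apply HeightOneSpectrum.adicCompletion.ext
  show UniformSpace.Completion.mapRingHom _ _
    ((algebraMap K ((finUnder502 K u).adicCompletion K) x).toCompletion) = _
  rw [HeightOneSpectrum.algebraMap_adicCompletion_toCompletion,
    HeightOneSpectrum.algebraMap_adicCompletion_toCompletion]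
  exact UniformSpace.Completion.mapRingHom_coe _ _

end Fin

section Inf

open scoped NumberField.LiesOver

variable (K : Type) {L : Type} [Field K] [NumberField K] [Field L] [NumberField L] [Algebra K L]

/-- The place of `K` under an infinite place of `L`. -/
def infUnder502 (u : InfinitePlace L) : InfinitePlace K :=
  u.comap (algebraMap K L)

instance infUnder_liesOver502 (u : InfinitePlace L) : u.LiesOver (infUnder502 K u) :=
  ⟨rfl⟩

/-- The map `K_w → L_u`. -/
def infMap502 (u : InfinitePlace L) : (infUnder502 K u).Completion →+* u.Completion :=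
  NumberField.LiesOver.completionMap

theorem infMap_algebraMap502 (u : InfinitePlace L) (x : K) :
    infMap502 K u (algebraMap K (infUnder502 K u).Completion x)
      = algebraMap L u.Completion (algebraMap K L x) := by
  have h : algebraMap K (infUnder502 K u).Completion x
      = ((WithAbs.toAbs (infUnder502 K u).1 x : WithAbs (infUnder502 K u).1) :
          (infUnder502 K u).Completion) := rfl
  rw [infMap502, h, NumberField.LiesOver.completionMap_coe]
  apply InfinitePlace.Completion.ext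
  rw [InfinitePlace.Completion.algebraMap_toCompletion, UniformSpace.Completion.algebraMap_def]
  simp [WithAbs.algebraMap_left_apply, WithAbs.algebraMap_right_apply]

end Inf

end Fermat.Agent.LT.T6.H502

end

end
-- ===== PACK-END LT/T6/H502/LocMap.lean

-- ===== PACK-BEGIN LT/T6/H379/TwStdCore.lean
section


/-!
# Row LT, tower T6, leaf T6.20e.2e.3 `TwStdC75` (helper379): the core in coordinates

Mathlib only.  `δ ∈ GL₂(ℂ)` with `δ δ̄ = γ`, `γ = [[a, b], [c, d]]` real with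
`n² = det γ - (tr γ / 2)²`, `n ≠ 0`, and `(u + i w)² = tr γ / 2 + i n`.  Then there is an
invertible `Y` with `δ Ȳ = Y [[u, -w], [w, u]]`:

    Y = (u - i w) ξ (1, -i) + (δ ξ̄) (1, i),    ξ = ((a - d)/2 - i n, c)ᵀ

(`ξ` is an eigenvector of `γ` for `m - i n`, `δ ξ̄` one for `m + i n` because `δ` commutes with
`γ`; `det Y = 4 n (u - i w) (δ ξ̄)₂`).
-/

set_option autoImplicit false

open scoped ComplexConjugate

noncomputable section

namespace Fermat.Agent.LT.T6.H379

open Complex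

/-- **The core of `TwStdC75`, in coordinates.** -/
theorem twStd_core379 (a b c d n u w : ℝ) (x11 x12 x21 x22 : ℂ)
    (hn : n ≠ 0) (hn2 : n ^ 2 = a * d - b * c - ((a + d) / 2) ^ 2)
    (hu : u ^ 2 - w ^ 2 = (a + d) / 2) (hw : 2 * u * w = n)
    (hdet : x11 * x22 - x12 * x21 ≠ 0)
    (H11 : x11 * conj x11 + x12 * conj x21 = a)
    (H12 : x11 * conj x12 + x12 * conj x22 = b)
    (H21 : x21 * conj x11 + x22 * conj x21 = c)
    (H22 : x21 * conj x12 + x22 * conj x22 = d) :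
    ∃ y11 y12 y21 y22 : ℂ, y11 * y22 - y12 * y21 ≠ 0 ∧
      x11 * conj y11 + x12 * conj y21 = y11 * u + y12 * w ∧
      x11 * conj y12 + x12 * conj y22 = y11 * (-w) + y12 * u ∧
      x21 * conj y11 + x22 * conj y21 = y21 * u + y22 * w ∧
      x21 * conj y12 + x22 * conj y22 = y21 * (-w) + y22 * u := by
  -- the hypotheses over `ℂ`
  have hn2c : (n : ℂ) ^ 2 = a * d - b * c - ((a + d) / 2) ^ 2 := by exact_mod_cast hn2
  have huc : (u : ℂ) ^ 2 - (w : ℂ) ^ 2 = (a + d) / 2 := by exact_mod_cast hu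
  have hwc : 2 * (u : ℂ) * w = n := by exact_mod_cast hw
  have hnc : (n : ℂ) ≠ 0 := by exact_mod_cast hn
  -- the conjugate relations `δ̄ δ = γ`
  have H11' : conj x11 * x11 + conj x12 * x21 = a := by
    have := congrArg conj H11
    simpa using this
  have H21' : conj x21 * x11 + conj x22 * x21 = c := by
    have := congrArg conj H21
    simpa using this
  -- `c ≠ 0`
  have hc : c ≠ 0 := by
    intro h0
    have h1 : n ^ 2 = -((a - d) / 2) ^ 2 := by rw [hn2, h0]; ring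
    have h2 : 0 < n ^ 2 := by positivity
    nlinarith [sq_nonneg ((a - d) / 2)]
  have hcc : (c : ℂ) ≠ 0 := by exact_mod_cast hc
  -- `u - i w ≠ 0`
  have hP : (u : ℂ) - I * w ≠ 0 := by
    intro h0
    have h1 : ((u : ℂ) - I * w) * ((u : ℂ) + I * w) = 0 := by rw [h0, zero_mul]
    have h2 : ((u : ℂ) - I * w) * ((u : ℂ) + I * w) = ((u ^ 2 + w ^ 2 : ℝ) : ℂ) := by
      push_cast
      linear_combination (-(w : ℂ) ^ 2) * I_sq
    rw [h2] at h1
    have h3 : u ^ 2 + w ^ 2 = 0 := by exact_mod_cast h1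
    have hu0 : u = 0 := by nlinarith [sq_nonneg u, sq_nonneg w]
    apply hn
    rw [← hw, hu0]
    ring
  -- `δ` commutes with `γ`
  have C1 : (b : ℂ) * x21 = c * x12 := by
    linear_combination (-x11) * H11 + (-x21) * H12 + x11 * H11' + x12 * H21'
  have C3 : (c : ℂ) * (x11 - x22) = (a - d) * x21 := by
    linear_combination (-x11) * H21 + (-x21) * H22 + x21 * H11' + x22 * H21'
  -- the vectors
  have hI3 : (I : ℂ) ^ 3 = -I := by rw [pow_succ, I_sq]; ring
  have hI4 : (I : ℂ) ^ 4 = 1 := by rw [pow_succ, hI3]; simp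
  obtain ⟨ξ1, hξ1⟩ : ∃ z : ℂ, z = (a - d) / 2 - I * n := ⟨_, rfl⟩
  obtain ⟨ξb, hξb⟩ : ∃ z : ℂ, z = (a - d) / 2 + I * n := ⟨_, rfl⟩
  obtain ⟨η1, hη1⟩ : ∃ z : ℂ, z = x11 * ξb + x12 * c := ⟨_, rfl⟩
  obtain ⟨η2, hη2⟩ : ∃ z : ℂ, z = x21 * ξb + x22 * c := ⟨_, rfl⟩
  obtain ⟨P, hPdef⟩ : ∃ z : ℂ, z = (u : ℂ) - I * w := ⟨_, rfl⟩
  have hP' : P ≠ 0 := by rw [hPdef]; exact hP
  have c2 : conj (2 : ℂ) = 2 := map_ofNat _ 2
  have cξ1 : conj ξ1 = ξb := by
    rw [hξ1, hξb, map_sub, map_div₀, map_sub, map_mul, conj_ofReal, conj_ofReal, conj_ofReal,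
      conj_I, c2]
    ring
  have cξb : conj ξb = ξ1 := by
    rw [hξ1, hξb, map_add, map_div₀, map_sub, map_mul, conj_ofReal, conj_ofReal, conj_ofReal,
      conj_I, c2]
    ring
  have cP : conj P = (u : ℂ) + I * w := by
    rw [hPdef, map_sub, map_mul, conj_ofReal, conj_ofReal, conj_I]
    ring
  -- the relation `c η₁ = ξ̄₁ η₂`
  have R : (c : ℂ) * η1 = ξb * η2 := by
    have e : ξb * ξ1 = -(b * c) := by
      rw [hξ1, hξb]
      linear_combination (-(n : ℂ) ^ 2) * I_sq + hn2c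
    have e2 : (a : ℂ) - d - ξb = ξ1 := by rw [hξ1, hξb]; ring
    rw [hη1, hη2]
    linear_combination ξb * C3 + (-(c : ℂ)) * C1 + x21 * e + (x21 * ξb) * e2
  refine ⟨P * ξ1 + η1, -I * P * ξ1 + I * η1, P * c + η2, -I * P * c + I * η2, ?_, ?_, ?_, ?_, ?_⟩
  · -- the determinant
    have hd : (P * ξ1 + η1) * (-I * P * c + I * η2) - (-I * P * ξ1 + I * η1) * (P * c + η2)
        = 2 * I * P * (ξ1 * η2 - c * η1) := by ring
    rw [hd]
    have h1 : ξ1 * η2 - c * η1 = -(2 * I * n) * η2 := by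
      rw [R, hξ1, hξb]
      ring
    rw [h1]
    have hη2ne : η2 ≠ 0 := by
      intro h0
      have h2 : (c : ℂ) * η1 = 0 := by rw [R, h0, mul_zero]
      have h3 : η1 = 0 := by
        rcases mul_eq_zero.1 h2 with h | h
        · exact absurd h hcc
        · exact h
      apply hdet
      have h4 : (x11 * x22 - x12 * x21) * c = 0 := by
        have e1 : x11 * ξb + x12 * c = 0 := by rw [← hη1]; exact h3
        have e2 : x21 * ξb + x22 * c = 0 := by rw [← hη2]; exact h0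
        linear_combination x11 * e2 - x21 * e1
      rcases mul_eq_zero.1 h4 with h | h
      · exact h
      · exact absurd h hcc
    have hI : (I : ℂ) ≠ 0 := I_ne_zero
    have h2 : (2 : ℂ) ≠ 0 := two_ne_zero
    exact mul_ne_zero (mul_ne_zero (mul_ne_zero h2 hI) hP')
      (mul_ne_zero (neg_ne_zero.2 (mul_ne_zero (mul_ne_zero h2 hI) hnc)) hη2ne)
  · simp only [map_add, map_mul, map_neg, cξ1, cP, conj_I, conj_ofReal, hη1, hη2, cξb]
    rw [hPdef, hξ1, hξb]
    linear_combination (norm := skip) ((a - d) / 2 - I * n) * H11 + c * H12 + hn2c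
      - ((a - d) / 2 - I * n) * huc + I * ((a - d) / 2 - I * n) * hwc
    ring_nf
    simp only [I_sq, hI3, hI4]
    ring
  · simp only [map_add, map_mul, map_neg, cξ1, cP, conj_I, conj_ofReal, hη1, hη2, cξb]
    rw [hPdef, hξ1, hξb]
    linear_combination (norm := skip) (-I) * (((a - d) / 2 - I * n) * H11 + c * H12 + hn2c
      - ((a - d) / 2 - I * n) * huc + I * ((a - d) / 2 - I * n) * hwc)
    ring_nf
    simp only [I_sq, hI3, hI4]
    ring
  · simp only [map_add, map_mul, map_neg, cξ1, cP, conj_I, conj_ofReal, hη1, hη2, cξb]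
    rw [hPdef, hξ1, hξb]
    linear_combination (norm := skip) ((a - d) / 2 - I * n) * H21 + c * H22 - c * huc
      + I * c * hwc
    ring_nf
    simp only [I_sq, hI3, hI4]
    ring
  · simp only [map_add, map_mul, map_neg, cξ1, cP, conj_I, conj_ofReal, hη1, hη2, cξb]
    rw [hPdef, hξ1, hξb]
    linear_combination (norm := skip) (-I) * (((a - d) / 2 - I * n) * H21 + c * H22 - c * huc
      + I * c * hwc)
    ring_nf
    simp only [I_sq, hI3, hI4]
    ring

end Fermat.Agent.LT.T6.H379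

end
end
-- ===== PACK-END LT/T6/H379/TwStdCore.lean

-- ===== PACK-BEGIN LT/T6/H189/BGrp.lean
section


/-!
# Row LT, tower T6, leaf T6.23 -- the group `B(𝕜) = (ℝ × ℝ) ⋉ 𝕜` (helper189)

OFF-MAIN, Mathlib only.

`BG189 𝕜 = (ℝ × ℝ) × 𝕜` with the group law `(v, y) * (u, x) = (v + u, x + e^{u₂ - u₁} y)`, i.e.
the law of the matrices `diag(e^{u₁}, e^{u₂}) n(x)`.  The Lebesgue measure is a left Haar measure.
-/

set_option autoImplicit false

open MeasureTheory Set
open scoped ENNReal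

noncomputable section

namespace Fermat.Agent.LT.T6.H189

section Raw

variable {𝕜 : Type} [AddCommGroup 𝕜] [Module ℝ 𝕜]

/-- The product of `B(𝕜)` on the underlying type. -/
def bmul189 (a b : (ℝ × ℝ) × 𝕜) : (ℝ × ℝ) × 𝕜 :=
  ((a.1.1 + b.1.1, a.1.2 + b.1.2), b.2 + Real.exp (b.1.2 - b.1.1) • a.2)

/-- The inverse of `B(𝕜)` on the underlying type. -/
def binv189 (a : (ℝ × ℝ) × 𝕜) : (ℝ × ℝ) × 𝕜 :=
  ((-a.1.1, -a.1.2), -(Real.exp (a.1.1 - a.1.2) • a.2))

theorem bmul_assoc189 (a b c : (ℝ × ℝ) × 𝕜) :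
    bmul189 (bmul189 a b) c = bmul189 a (bmul189 b c) := by
  simp only [bmul189]
  refine Prod.ext (Prod.ext (add_assoc _ _ _) (add_assoc _ _ _)) ?_
  simp only [smul_add, smul_smul, ← Real.exp_add]
  rw [add_assoc]
  congr 2
  ring_nf

theorem bone_mul189 (a : (ℝ × ℝ) × 𝕜) : bmul189 ((0, 0), 0) a = a := by
  simp [bmul189]

theorem bmul_one189 (a : (ℝ × ℝ) × 𝕜) : bmul189 a ((0, 0), 0) = a := by
  simp [bmul189]

theorem binv_mul189 (a : (ℝ × ℝ) × 𝕜) : bmul189 (binv189 a) a = ((0, 0), 0) := by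
  simp only [bmul189, binv189]
  refine Prod.ext (Prod.ext (neg_add_cancel _) (neg_add_cancel _)) ?_
  simp only [smul_neg, smul_smul, ← Real.exp_add]
  have : a.1.2 - a.1.1 + (a.1.1 - a.1.2) = 0 := by ring
  rw [this, Real.exp_zero, one_smul, add_neg_cancel]

end Raw

/-- The group `B(𝕜)`: the underlying type is `(ℝ × ℝ) × 𝕜`. -/
def BG189 (𝕜 : Type) : Type := (ℝ × ℝ) × 𝕜

namespace BG189

variable {𝕜 : Type}

section Alg

variable [AddCommGroup 𝕜] [Module ℝ 𝕜]

/-- The underlying triple. -/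
def val189 (a : BG189 𝕜) : (ℝ × ℝ) × 𝕜 := a

/-- The element of `B(𝕜)` with a given underlying triple. -/
def mk189 (a : (ℝ × ℝ) × 𝕜) : BG189 𝕜 := a

instance instGroup189 : Group (BG189 𝕜) where
  mul a b := bmul189 a b
  one := ((0, 0), 0)
  inv a := binv189 a
  mul_assoc := bmul_assoc189
  one_mul := bone_mul189
  mul_one := bmul_one189
  inv_mul_cancel := binv_mul189

theorem mul_def189 (a b : BG189 𝕜) : a * b = mk189 (bmul189 (val189 a) (val189 b)) := rfl

theorem one_def189 : (1 : BG189 𝕜) = mk189 ((0, 0), 0) := rfl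

theorem inv_def189 (a : BG189 𝕜) : a⁻¹ = mk189 (binv189 (val189 a)) := rfl

end Alg

section Top

variable [NormedAddCommGroup 𝕜] [NormedSpace ℝ 𝕜]

instance instTopologicalSpace189 : TopologicalSpace (BG189 𝕜) :=
  inferInstanceAs (TopologicalSpace ((ℝ × ℝ) × 𝕜))

instance instT2Space189 : T2Space (BG189 𝕜) :=
  inferInstanceAs (T2Space ((ℝ × ℝ) × 𝕜))

instance instSecondCountable189 [SecondCountableTopology 𝕜] :
    SecondCountableTopology (BG189 𝕜) :=
  inferInstanceAs (SecondCountableTopology ((ℝ × ℝ) × 𝕜))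

instance instLocallyCompact189 [LocallyCompactSpace 𝕜] : LocallyCompactSpace (BG189 𝕜) :=
  inferInstanceAs (LocallyCompactSpace ((ℝ × ℝ) × 𝕜))

instance instIsTopologicalGroup189 : IsTopologicalGroup (BG189 𝕜) where
  continuous_mul := by
    have h : Continuous fun p : ((ℝ × ℝ) × 𝕜) × ((ℝ × ℝ) × 𝕜) => bmul189 p.1 p.2 := by
      unfold bmul189
      fun_prop
    exact h
  continuous_inv := by
    have h : Continuous fun a : (ℝ × ℝ) × 𝕜 => binv189 a := by
      unfold binv189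
      fun_prop
    exact h

end Top

section Meas

variable [NormedAddCommGroup 𝕜] [NormedSpace ℝ 𝕜] [MeasureSpace 𝕜] [BorelSpace 𝕜]
  [SecondCountableTopology 𝕜]

instance instMeasurableSpace189 : MeasurableSpace (BG189 𝕜) :=
  inferInstanceAs (MeasurableSpace ((ℝ × ℝ) × 𝕜))

instance instBorelSpace189 : BorelSpace (BG189 𝕜) :=
  inferInstanceAs (BorelSpace ((ℝ × ℝ) × 𝕜))

/-- The Lebesgue measure of `B(𝕜)`. -/
def vol189 (𝕜 : Type) [NormedAddCommGroup 𝕜] [NormedSpace ℝ 𝕜] [MeasureSpace 𝕜] [BorelSpace 𝕜]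
    [SecondCountableTopology 𝕜] : Measure (BG189 𝕜) :=
  ((volume : Measure (ℝ × ℝ)).prod (volume : Measure 𝕜) : Measure ((ℝ × ℝ) × 𝕜))

variable [(volume : Measure 𝕜).IsAddHaarMeasure] [SFinite (volume : Measure 𝕜)]

/-- **The Lebesgue measure is a left Haar measure of `B(𝕜)`.** -/
instance isHaarMeasure_vol189 : (vol189 𝕜).IsHaarMeasure := by
  have hadd : ((volume : Measure (ℝ × ℝ)).prod (volume : Measure 𝕜)).IsAddHaarMeasure :=
    inferInstance
  refine
    { lt_top_of_isCompact := ?_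
      map_mul_left_eq_self := ?_
      open_pos := ?_ }
  · intro C hC
    exact hadd.toIsFiniteMeasureOnCompacts.lt_top_of_isCompact hC
  · intro a
    have hpres : MeasurePreserving
        (fun p : (ℝ × ℝ) × 𝕜 => bmul189 (val189 a) p)
        ((volume : Measure (ℝ × ℝ)).prod (volume : Measure 𝕜))
        ((volume : Measure (ℝ × ℝ)).prod (volume : Measure 𝕜)) := by
      have hf : MeasurePreserving (fun u : ℝ × ℝ => ((val189 a).1.1 + u.1, (val189 a).1.2 + u.2))
          (volume : Measure (ℝ × ℝ)) (volume : Measure (ℝ × ℝ)) := by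
        have := measurePreserving_add_left (volume : Measure (ℝ × ℝ))
          ((val189 a).1.1, (val189 a).1.2)
        exact this
      refine MeasurePreserving.skew_product (g := fun (u : ℝ × ℝ) (x : 𝕜) =>
        x + Real.exp (u.2 - u.1) • (val189 a).2) hf ?_ ?_
      · have : Continuous (Function.uncurry fun (u : ℝ × ℝ) (x : 𝕜) =>
            x + Real.exp (u.2 - u.1) • (val189 a).2) := by
          unfold Function.uncurry
          fun_prop
        exact this.measurable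
      · refine Filter.Eventually.of_forall fun u => ?_
        exact (measurePreserving_add_right (volume : Measure 𝕜)
          (Real.exp (u.2 - u.1) • (val189 a).2)).map_eq
    exact hpres.map_eq
  · intro U hU hne
    exact hadd.toIsOpenPosMeasure.open_pos U hU hne

end Meas

end BG189

end Fermat.Agent.LT.T6.H189

end

end
-- ===== PACK-END LT/T6/H189/BGrp.lean

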