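import Mathlib
import Fermat.Agent.Pack.LT3.E0L3

set_option linter.all false

-- ===== PACK-BEGIN LT/T6/H313/QuadFrame.lean
section


/-!
# Row LT, tower T6, sub-leaf T6.15c3 (helper313): the frame

OFF-MAIN.  Mathlib only.

* `nrm313 σ n β = β · σ(β) ⋯ σ^{n-1}(β)` in a commutative monoid (recursion of `T6.twN`);
* `qMap313`, `qAut313`: functoriality of `QuadraticAlgebra R a b` (`X² = a + b X`) in `R`;
* `qEval313`: evaluation at a root of `X² - b X - a`.
-/

set_option autoImplicit false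
set_option linter.style.haveILetI false
set_option linter.unusedSectionVars false
set_option linter.unusedVariables false

namespace Fermat.Agent.LT.T6.H313

/-! ## The twisted norm in a commutative monoid -/

section Nrm

variable {M M' : Type*} [CommMonoid M] [CommMonoid M']

/-- `N_n β = β · σ(β) ⋯ σ^{n-1}(β)`, with the recursion of `T6.twN`. -/
def nrm313 (σ : M → M) : ℕ → M → M
  | 0, _ => 1
  | (n + 1), β => β * σ (nrm313 σ n β)

@[simp] theorem nrm313_zero (σ : M → M) (β : M) : nrm313 σ 0 β = 1 := rfl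

theorem nrm313_succ (σ : M → M) (n : ℕ) (β : M) :
    nrm313 σ (n + 1) β = β * σ (nrm313 σ n β) := rfl

theorem nrm313_mul (σ : M → M) (hσ : ∀ x y, σ (x * y) = σ x * σ y) (n : ℕ) (β γ : M) :
    nrm313 σ n (β * γ) = nrm313 σ n β * nrm313 σ n γ := by
  induction n with
  | zero => simp
  | succ n ih => rw [nrm313_succ, nrm313_succ, nrm313_succ, ih, hσ]; exact mul_mul_mul_comm _ _ _ _

theorem nrm313_map (φ : M → M') (hφ1 : φ 1 = 1) (hφ : ∀ x y, φ (x * y) = φ x * φ y)
    (σ : M → M) (σ' : M' → M') (h : ∀ x, φ (σ x) = σ' (φ x)) (n : ℕ) (β : M) :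
    φ (nrm313 σ n β) = nrm313 σ' n (φ β) := by
  induction n with
  | zero => simpa using hφ1
  | succ n ih => rw [nrm313_succ, nrm313_succ, hφ, h, ih]

/-- The product form of the twisted norm. -/
theorem nrm313_eq_prod (σ : M → M) (h1 : σ 1 = 1) (hσ : ∀ x y, σ (x * y) = σ x * σ y)
    (n : ℕ) (β : M) : nrm313 σ n β = ∏ j ∈ Finset.range n, σ^[j] β := by
  induction n with
  | zero => simp
  | succ n ih =>
    have hprod : ∀ (m : ℕ) (f : ℕ → M),
        σ (∏ j ∈ Finset.range m, f j) = ∏ j ∈ Finset.range m, σ (f j) := by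
      intro m f
      induction m with
      | zero => simpa using h1
      | succ m ihm => rw [Finset.prod_range_succ, hσ, ihm, Finset.prod_range_succ]
    rw [nrm313_succ, ih, hprod, Finset.prod_range_succ', mul_comm]
    simp [Function.iterate_succ_apply']

/-- The twisted norm of an element is fixed by `σ` when `σ^n = 1`. -/
theorem nrm313_fixed (σ : M → M) (h1 : σ 1 = 1) (hσ : ∀ x y, σ (x * y) = σ x * σ y)
    (n : ℕ) (β : M) (hn : σ^[n] β = β) : σ (nrm313 σ n β) = nrm313 σ n β := by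
  have hprod : ∀ (m : ℕ) (f : ℕ → M),
      σ (∏ j ∈ Finset.range m, f j) = ∏ j ∈ Finset.range m, σ (f j) := by
    intro m f
    induction m with
    | zero => simpa using h1
    | succ m ihm => rw [Finset.prod_range_succ, hσ, ihm, Finset.prod_range_succ]
  rw [nrm313_eq_prod σ h1 hσ, hprod]
  cases n with
  | zero => simp
  | succ m =>
    rw [Finset.prod_range_succ, Finset.prod_range_succ']
    simp only [Function.iterate_zero, id_eq]
    rw [← Function.iterate_succ_apply' σ m β, hn]
    refine congrArg (· * β) ?_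
    refine Finset.prod_congr rfl fun j _ => ?_
    rw [Function.iterate_succ_apply']

end Nrm

/-! ## Functoriality of the quadratic algebra -/

section QMap

variable {R S : Type*} [CommRing R] [CommRing S]

/-- The map `QuadraticAlgebra R a b → QuadraticAlgebra S a' b'` induced by a ring homomorphism
`φ : R → S` with `φ a = a'`, `φ b = b'`. -/
def qMap313 (φ : R →+* S) {a b : R} {a' b' : S} (ha : φ a = a') (hb : φ b = b') :
    QuadraticAlgebra R a b →+* QuadraticAlgebra S a' b' where
  toFun z := ⟨φ z.re, φ z.im⟩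
  map_one' := by
    ext
    · exact map_one φ
    · exact map_zero φ
  map_mul' x y := by subst ha hb; ext <;> simp
  map_zero' := by
    ext
    · exact map_zero φ
    · exact map_zero φ
  map_add' x y := by ext <;> simp

@[simp] theorem qMap313_re (φ : R →+* S) {a b : R} {a' b' : S} (ha : φ a = a') (hb : φ b = b')
    (z : QuadraticAlgebra R a b) : (qMap313 φ ha hb z).re = φ z.re := rfl

@[simp] theorem qMap313_im (φ : R →+* S) {a b : R} {a' b' : S} (ha : φ a = a') (hb : φ b = b')
    (z : QuadraticAlgebra R a b) : (qMap313 φ ha hb z).im = φ z.im := rfl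

/-- The automorphism of `QuadraticAlgebra R a b` induced by an automorphism of `R` fixing `a`
and `b`. -/
def qAut313 (σ : R ≃+* R) {a b : R} (ha : σ a = a) (hb : σ b = b) :
    QuadraticAlgebra R a b ≃+* QuadraticAlgebra R a b where
  toFun z := ⟨σ z.re, σ z.im⟩
  invFun z := ⟨σ.symm z.re, σ.symm z.im⟩
  left_inv z := by ext <;> simp
  right_inv z := by ext <;> simp
  map_mul' x y := by
    ext
    · simp [ha]
    · simp [hb]
  map_add' x y := by ext <;> simp

@[simp] theorem qAut313_re (σ : R ≃+* R) {a b : R} (ha : σ a = a) (hb : σ b = b)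
    (z : QuadraticAlgebra R a b) : (qAut313 σ ha hb z).re = σ z.re := rfl

@[simp] theorem qAut313_im (σ : R ≃+* R) {a b : R} (ha : σ a = a) (hb : σ b = b)
    (z : QuadraticAlgebra R a b) : (qAut313 σ ha hb z).im = σ z.im := rfl

theorem qAut313_pow_re (σ : R ≃+* R) {a b : R} (ha : σ a = a) (hb : σ b = b) (n : ℕ)
    (z : QuadraticAlgebra R a b) : ((qAut313 σ ha hb ^ n) z).re = (σ ^ n) z.re := by
  induction n generalizing z with
  | zero => simp
  | succ n ih => rw [pow_succ, pow_succ, RingAut.mul_apply, RingAut.mul_apply, ih]; rfl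

theorem qAut313_pow_im (σ : R ≃+* R) {a b : R} (ha : σ a = a) (hb : σ b = b) (n : ℕ)
    (z : QuadraticAlgebra R a b) : ((qAut313 σ ha hb ^ n) z).im = (σ ^ n) z.im := by
  induction n generalizing z with
  | zero => simp
  | succ n ih => rw [pow_succ, pow_succ, RingAut.mul_apply, RingAut.mul_apply, ih]; rfl

theorem qAut313_omega (σ : R ≃+* R) {a b : R} (ha : σ a = a) (hb : σ b = b) :
    qAut313 σ ha hb (QuadraticAlgebra.omega : QuadraticAlgebra R a b) = QuadraticAlgebra.omega := by
  ext <;> simp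

theorem qAut313_C (σ : R ≃+* R) {a b : R} (ha : σ a = a) (hb : σ b = b) (r : R) :
    qAut313 σ ha hb (QuadraticAlgebra.C r : QuadraticAlgebra R a b) = QuadraticAlgebra.C (σ r) := by
  ext <;> simp

/-- Evaluation at a root `r` of `X² = a + b X`. -/
def qEval313 {a b : R} (r : R) (hr : r * r = a + b * r) : QuadraticAlgebra R a b →+* R where
  toFun z := z.re + z.im * r
  map_one' := by
    show (1 : R) + 0 * r = 1
    ring
  map_mul' x y := by
    simp only [QuadraticAlgebra.re_mul, QuadraticAlgebra.im_mul]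
    linear_combination (-(x.im * y.im)) * hr
  map_zero' := by
    show (0 : R) + 0 * r = 0
    ring
  map_add' x y := by simp only [QuadraticAlgebra.re_add, QuadraticAlgebra.im_add]; ring

@[simp] theorem qEval313_apply {a b : R} (r : R) (hr : r * r = a + b * r)
    (z : QuadraticAlgebra R a b) : qEval313 r hr z = z.re + z.im * r := rfl

/-- Iterates of a ring automorphism are its powers. -/
theorem iterate_eq_pow313 (σ : R ≃+* R) (n : ℕ) (x : R) : (⇑σ)^[n] x = (σ ^ n) x := by
  induction n with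
  | zero => simp
  | succ n ih => rw [Function.iterate_succ_apply', ih, pow_succ', RingAut.mul_apply]

/-- The twisted norm of a ring automorphism, product form with powers. -/
theorem nrm313_ringEquiv (σ : R ≃+* R) (n : ℕ) (x : R) :
    nrm313 (⇑σ) n x = ∏ j ∈ Finset.range n, (σ ^ j) x := by
  rw [nrm313_eq_prod (⇑σ) (map_one σ) (map_mul σ)]
  exact Finset.prod_congr rfl fun j _ => iterate_eq_pow313 σ j x

end QMap

end Fermat.Agent.LT.T6.H313

end
-- ===== PACK-END LT/T6/H313/QuadFrame.lean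

-- ===== PACK-BEGIN LT/T6/H98/NewtonAbs.lean
section


/-!
# Row LT, tower T6, sub-leaf T6.15c4 (helper98): the Newton iteration for quadratic equations

`K` a field with a valuation in `ℤᵐ⁰` whose uniform structure is complete.  If
`v b < v a ^ 2` then `X² + a X + b` has a root in `K` (`X = -a Y`, `Y = Y² + b / a²`, the
iteration `Y₀ = 0`, `Y_{n+1} = Y_n² + c` is a Cauchy sequence).  Mathlib only.
-/

set_option autoImplicit false

noncomputable section

namespace Fermat.Agent.LT.T6.H98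

open WithZero Filter Topology

/-- Powers of an element `< 1` of `ℤᵐ⁰` become smaller than every nonzero element. -/
theorem exists_pow_lt98 (x r : WithZero (Multiplicative ℤ)) (hx : x < 1) (hr : r ≠ 0) :
    ∃ N : ℕ, x ^ (N + 1) < r := by
  by_cases hx0 : x = 0
  · refine ⟨0, ?_⟩
    rw [hx0, zero_add, pow_one]
    exact zero_lt_iff.mpr hr
  · have hlx : log x < 0 := by
      rw [log_lt_iff_lt_exp hx0, exp_zero]
      exact hx
    refine ⟨(log r).natAbs, ?_⟩
    have hne : x ^ ((log r).natAbs + 1) ≠ 0 := pow_ne_zero _ hx0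
    rw [← log_lt_log hne hr, log_pow]
    have h1 : ((log r).natAbs : ℤ) = |log r| := Int.natCast_natAbs _
    have h2 : -|log r| ≤ log r := neg_abs_le _
    have h3 : (((log r).natAbs + 1 : ℕ) : ℤ) = |log r| + 1 := by
      simp
    rw [nsmul_eq_mul, h3]
    have h4 : (|log r| + 1) * log x ≤ (|log r| + 1) * (-1) := by
      apply mul_le_mul_of_nonneg_left
      · omega
      · positivity
    have h5 : 0 ≤ |log r| := abs_nonneg _
    linarith

variable {K : Type} [Field K] [Valued K (WithZero (Multiplicative ℤ))]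

/-- The iteration `Y₀ = 0`, `Y_{n+1} = Y_n² + c`. -/
def newtonSeq98 (c : K) : ℕ → K
  | 0 => 0
  | (n + 1) => newtonSeq98 c n ^ 2 + c

omit [Valued K (WithZero (Multiplicative ℤ))] in
theorem newtonSeq98_succ (c : K) (n : ℕ) :
    newtonSeq98 c (n + 1) = newtonSeq98 c n ^ 2 + c := rfl

theorem newtonSeq98_le (c : K) (hc : Valued.v c ≤ 1) (n : ℕ) :
    Valued.v (newtonSeq98 c n) ≤ Valued.v c := by
  induction n with
  | zero => simp [newtonSeq98]
  | succ n ih =>
    rw [newtonSeq98_succ]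
    refine (Valuation.map_add _ _ _).trans (max_le ?_ le_rfl)
    rw [map_pow]
    calc Valued.v (newtonSeq98 c n) ^ 2 ≤ Valued.v c ^ 2 := pow_le_pow_left₀ zero_le ih 2
      _ = Valued.v c * Valued.v c := sq _
      _ ≤ Valued.v c * 1 := mul_le_mul' le_rfl hc
      _ = Valued.v c := mul_one _

theorem newtonSeq98_step (c : K) (hc : Valued.v c ≤ 1) (n : ℕ) :
    Valued.v (newtonSeq98 c (n + 1) - newtonSeq98 c n) ≤ Valued.v c ^ (n + 1) := by
  induction n with
  | zero => simp [newtonSeq98]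
  | succ n ih =>
    have h1 : newtonSeq98 c (n + 1 + 1) - newtonSeq98 c (n + 1)
        = (newtonSeq98 c (n + 1) - newtonSeq98 c n)
          * (newtonSeq98 c (n + 1) + newtonSeq98 c n) := by
      rw [newtonSeq98_succ c (n + 1), newtonSeq98_succ c n]
      ring
    rw [h1, map_mul, pow_succ (Valued.v c) (n + 1)]
    refine mul_le_mul' ih ?_
    exact (Valuation.map_add _ _ _).trans
      (max_le (newtonSeq98_le c hc _) (newtonSeq98_le c hc _))

theorem newtonSeq98_tail (c : K) (hc : Valued.v c ≤ 1) (n j : ℕ) :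
    Valued.v (newtonSeq98 c (n + j) - newtonSeq98 c n) ≤ Valued.v c ^ (n + 1) := by
  induction j with
  | zero => simp
  | succ j ih =>
    have h1 : newtonSeq98 c (n + (j + 1)) - newtonSeq98 c n
        = (newtonSeq98 c (n + j + 1) - newtonSeq98 c (n + j))
          + (newtonSeq98 c (n + j) - newtonSeq98 c n) := by
      rw [← add_assoc]
      ring
    rw [h1]
    refine (Valuation.map_add _ _ _).trans (max_le ?_ ih)
    refine (newtonSeq98_step c hc (n + j)).trans ?_
    exact pow_le_pow_right_of_le_one' hc (by omega)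

theorem newtonSeq98_cauchy (c : K) (hc : Valued.v c < 1) : CauchySeq (newtonSeq98 c) := by
  rw [Filter.HasBasis.cauchySeq_iff (Valued.hasBasis_uniformity K _)]
  intro γ _
  have hr : MonoidWithZeroHom.ValueGroup₀.embedding γ.1 ≠ 0 := by
    intro h0
    exact γ.ne_zero ((map_eq_zero _).mp h0)
  obtain ⟨N, hN⟩ := exists_pow_lt98 (Valued.v c) _ hc hr
  refine ⟨N, fun m hm n hn => ?_⟩
  show (Valued.v : Valuation K _).restrict (newtonSeq98 c n - newtonSeq98 c m) < γ.1
  rw [Valuation.restrict_lt_iff_lt_embedding]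
  refine lt_of_le_of_lt ?_ hN
  obtain ⟨j, rfl⟩ := Nat.exists_eq_add_of_le hm
  obtain ⟨j', rfl⟩ := Nat.exists_eq_add_of_le hn
  have h1 : newtonSeq98 c (N + j') - newtonSeq98 c (N + j)
      = (newtonSeq98 c (N + j') - newtonSeq98 c N)
        - (newtonSeq98 c (N + j) - newtonSeq98 c N) := by ring
  rw [h1]
  exact (Valuation.map_sub _ _ _).trans
    (max_le (newtonSeq98_tail c hc.le N j') (newtonSeq98_tail c hc.le N j))

/-- The fixed point equation `y = y² + c` has a solution for `v c < 1`. -/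
theorem exists_fixed98 [CompleteSpace K] (c : K) (hc : Valued.v c < 1) :
    ∃ y : K, y = y ^ 2 + c := by
  obtain ⟨y, hy⟩ := cauchySeq_tendsto_of_complete (newtonSeq98_cauchy c hc)
  refine ⟨y, ?_⟩
  have h1 : Tendsto (fun n => newtonSeq98 c (n + 1)) atTop (𝓝 y) :=
    (tendsto_add_atTop_iff_nat 1).mpr hy
  have h2 : Tendsto (fun n => newtonSeq98 c (n + 1)) atTop (𝓝 (y ^ 2 + c)) := by
    have := (hy.pow 2).add_const c
    exact this
  exact tendsto_nhds_unique h1 h2

/-- **Newton's lemma for quadratic polynomials.**  In a complete field with a valuation in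
`ℤᵐ⁰`, the polynomial `X² + a X + b` with `v b < v a ^ 2` has a root. -/
theorem exists_root_quadratic98 [CompleteSpace K] (a b : K)
    (h : Valued.v b < Valued.v a ^ 2) : ∃ x : K, x ^ 2 + a * x + b = 0 := by
  have ha : a ≠ 0 := by
    rintro rfl
    simp at h
  have hva : Valued.v a ≠ 0 := (Valuation.ne_zero_iff _).mpr ha
  have hc : Valued.v (b / a ^ 2) < 1 := by
    rw [map_div₀, map_pow]
    exact (div_lt_one₀ (zero_lt_iff.mpr (pow_ne_zero 2 hva))).mpr h
  obtain ⟨y, hy⟩ := exists_fixed98 (b / a ^ 2) hc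
  refine ⟨-a * y, ?_⟩
  have h1 : b = a ^ 2 * (y - y ^ 2) := by
    have : b / a ^ 2 = y - y ^ 2 := by linear_combination -hy
    field_simp at this
    linear_combination this
  rw [h1]
  ring

end Fermat.Agent.LT.T6.H98

end

end
-- ===== PACK-END LT/T6/H98/NewtonAbs.lean

-- ===== PACK-BEGIN LT/T6/H842/EllCore.lean
section


/-!
# Row LT, tower T6, leaf T6.27 (helper842): the abstract unfolding lemma

OFF-MAIN.  Mathlib only.

`unfold_core842`: let `μ = map Ψ (π ⊗ λ)` for a measurable `Ψ : P × Y → G`; let `Ω` be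
constant along the `Y`-direction (`Ω (Ψ (p, y)) = ω p` for `π`-almost all `p` and all `y`) and
let `B ≥ 0` have `∫ B (Ψ (p, y)) dλ(y) = κ` for every `p`.  If `ω` is `π`-integrable then
`Ω B` is `μ`-integrable and `∫ Ω B dμ = κ ∫ ω dπ`.
-/

set_option autoImplicit false

open MeasureTheory

noncomputable section

namespace Fermat.Agent.LT.T6.H842

theorem unfold_core842 {P Y G : Type*} [MeasurableSpace P] [MeasurableSpace Y]
    [MeasurableSpace G] (π : Measure P) (lam : Measure Y) [SFinite π] [SFinite lam]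
    (Ψ : P × Y → G) (hΨ : Measurable Ψ)
    (Ω : G → ℂ) (hΩ : Measurable Ω)
    (B : G → ℝ) (hB : Measurable B) (hB0 : ∀ g, 0 ≤ B g)
    (ω : P → ℂ) (hω : Integrable ω π)
    (hinv : ∀ᵐ p ∂π, ∀ y, Ω (Ψ (p, y)) = ω p)
    (κ : ℝ) (hBint : ∀ p, Integrable (fun y => B (Ψ (p, y))) lam)
    (hcut : ∀ p, ∫ y, B (Ψ (p, y)) ∂lam = κ) :
    Integrable (fun g => Ω g * (B g : ℂ)) (Measure.map Ψ (π.prod lam)) ∧
      ∫ g, Ω g * (B g : ℂ) ∂(Measure.map Ψ (π.prod lam)) = (κ : ℂ) * ∫ p, ω p ∂π := by
  have hF : Measurable (fun g => Ω g * (B g : ℂ)) :=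
    hΩ.mul (Complex.measurable_ofReal.comp hB)
  have hFΨ : Measurable (fun z : P × Y => Ω (Ψ z) * (B (Ψ z) : ℂ)) := hF.comp hΨ
  -- the a.e. equality on the product
  have hae : ∀ᵐ z ∂(π.prod lam), Ω (Ψ z) * (B (Ψ z) : ℂ) = ω z.1 * (B (Ψ z) : ℂ) := by
    have h1 : ∀ᵐ z ∂(π.prod lam), ∀ y, Ω (Ψ (z.1, y)) = ω z.1 :=
      (Measure.quasiMeasurePreserving_fst (μ := π) (ν := lam)).ae hinv
    filter_upwards [h1] with z hz
    rw [← hz z.2]
  have hHm : AEStronglyMeasurable (fun z : P × Y => ω z.1 * (B (Ψ z) : ℂ)) (π.prod lam) :=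
    hFΨ.aestronglyMeasurable.congr hae
  -- integrability of `H`
  have hnorm : ∀ p, ∫ y, ‖ω p * (B (Ψ (p, y)) : ℂ)‖ ∂lam = ‖ω p‖ * κ := by
    intro p
    have : (fun y => ‖ω p * (B (Ψ (p, y)) : ℂ)‖) = fun y => ‖ω p‖ * B (Ψ (p, y)) := by
      funext y
      rw [norm_mul, Complex.norm_real, Real.norm_of_nonneg (hB0 _)]
    rw [this, integral_const_mul, hcut p]
  have hH : Integrable (fun z : P × Y => ω z.1 * (B (Ψ z) : ℂ)) (π.prod lam) := by
    rw [integrable_prod_iff hHm]
    refine ⟨Filter.Eventually.of_forall fun p => ?_, ?_⟩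
    · exact ((hBint p).ofReal (𝕜 := ℂ)).const_mul (ω p)
    · simp only [hnorm]
      exact hω.norm.mul_const κ
  have hFint : Integrable (fun z : P × Y => Ω (Ψ z) * (B (Ψ z) : ℂ)) (π.prod lam) :=
    hH.congr (hae.mono fun z hz => hz.symm)
  refine ⟨?_, ?_⟩
  · rw [integrable_map_measure hF.aestronglyMeasurable hΨ.aemeasurable]
    exact hFint
  · rw [integral_map hΨ.aemeasurable hF.aestronglyMeasurable, integral_congr_ae hae,
      integral_prod _ hH]
    have : ∀ p, ∫ y, ω p * (B (Ψ (p, y)) : ℂ) ∂lam = ω p * (κ : ℂ) := by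
      intro p
      rw [integral_const_mul]
      have h2 : ∫ y, ((B (Ψ (p, y)) : ℝ) : ℂ) ∂lam = ((∫ y, B (Ψ (p, y)) ∂lam : ℝ) : ℂ) :=
        integral_ofReal
      rw [h2, hcut p]
    simp only [this]
    rw [integral_mul_const, mul_comm]

end Fermat.Agent.LT.T6.H842

end

end
-- ===== PACK-END LT/T6/H842/EllCore.lean

-- ===== PACK-BEGIN LT/T6/H863/Reps.lean
section


/-!
# Row LT, tower T6, leaf T6.16 (`SplitMatchC`) -- helper863, OFF-MAIN

Part 1: sums over systems of representatives of an equivalence relation (pure combinatorics).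

* `sum_reps_eq_863` : the sum of a class function over a system of representatives covering its
  support does not depend on the system;
* `exists_reps_863` : every finite set contains a system of representatives of itself.

Mathlib only; every proof is complete.
-/

set_option autoImplicit false

open scoped Classical

noncomputable section

namespace Fermat.Agent.LT.T6.H863

variable {α : Type*}

/-- `R` is a system of pairwise inequivalent elements. -/
def IsIneq863 (r : α → α → Prop) (R : Finset α) : Prop :=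
  ∀ a ∈ R, ∀ b ∈ R, r a b → a = b

/-- `R` covers the support of `F` up to equivalence. -/
def Covers863 (r : α → α → Prop) (F : α → ℂ) (R : Finset α) : Prop :=
  ∀ a : α, F a ≠ 0 → ∃ b ∈ R, r a b

theorem IsIneq863.subset {r : α → α → Prop} {R R' : Finset α} (h : IsIneq863 r R)
    (hs : R' ⊆ R) : IsIneq863 r R' :=
  fun a ha b hb hab => h a (hs ha) b (hs hb) hab

/-- **Independence of the representatives.**  `r` an equivalence relation, `F` a class function,
`R₁`, `R₂` two systems of pairwise inequivalent elements, both covering the support of `F`. -/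
theorem sum_reps_eq_863 (r : α → α → Prop) (hr : Equivalence r) (F : α → ℂ)
    (hF : ∀ a b, r a b → F a = F b) (R₁ R₂ : Finset α)
    (h₁ : IsIneq863 r R₁) (h₂ : IsIneq863 r R₂)
    (c₁ : Covers863 r F R₁) (c₂ : Covers863 r F R₂) :
    ∑ a ∈ R₁, F a = ∑ a ∈ R₂, F a := by
  rw [← Finset.sum_filter_ne_zero (s := R₁), ← Finset.sum_filter_ne_zero (s := R₂)]
  have key : ∀ a ∈ R₁.filter (fun a => F a ≠ 0), ∃ b ∈ R₂, r a b := by
    intro a ha
    exact c₂ a (Finset.mem_filter.mp ha).2
  have key' : ∀ b ∈ R₂.filter (fun a => F a ≠ 0), ∃ a ∈ R₁, r b a := by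
    intro b hb
    exact c₁ b (Finset.mem_filter.mp hb).2
  refine Finset.sum_bij' (fun a ha => Classical.choose (key a ha))
    (fun b hb => Classical.choose (key' b hb)) ?_ ?_ ?_ ?_ ?_
  · intro a ha
    obtain ⟨hb, hab⟩ := Classical.choose_spec (key a ha)
    refine Finset.mem_filter.mpr ⟨hb, ?_⟩
    rw [← hF _ _ hab]
    exact (Finset.mem_filter.mp ha).2
  · intro b hb
    obtain ⟨ha, hba⟩ := Classical.choose_spec (key' b hb)
    refine Finset.mem_filter.mpr ⟨ha, ?_⟩
    rw [← hF _ _ hba]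
    exact (Finset.mem_filter.mp hb).2
  · intro a ha
    obtain ⟨hb, hab⟩ := Classical.choose_spec (key a ha)
    have hb' : Classical.choose (key a ha) ∈ R₂.filter (fun a => F a ≠ 0) := by
      refine Finset.mem_filter.mpr ⟨hb, ?_⟩
      rw [← hF _ _ hab]
      exact (Finset.mem_filter.mp ha).2
    obtain ⟨ha', hba⟩ := Classical.choose_spec (key' _ hb')
    exact h₁ _ ha' _ (Finset.mem_filter.mp ha).1 (hr.symm (hr.trans hab hba))
  · intro b hb
    obtain ⟨ha, hba⟩ := Classical.choose_spec (key' b hb)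
    have ha' : Classical.choose (key' b hb) ∈ R₁.filter (fun a => F a ≠ 0) := by
      refine Finset.mem_filter.mpr ⟨ha, ?_⟩
      rw [← hF _ _ hba]
      exact (Finset.mem_filter.mp hb).2
    obtain ⟨hb', hab⟩ := Classical.choose_spec (key _ ha')
    exact h₂ _ hb' _ (Finset.mem_filter.mp hb).1 (hr.symm (hr.trans hba hab))
  · intro a ha
    obtain ⟨-, hab⟩ := Classical.choose_spec (key a ha)
    exact hF _ _ hab

/-- Every finite set contains a system of pairwise inequivalent elements covering it. -/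
theorem exists_reps_863 (r : α → α → Prop) (hr : Equivalence r) (E : Finset α) :
    ∃ H : Finset α, H ⊆ E ∧ IsIneq863 r H ∧ ∀ e ∈ E, ∃ h ∈ H, r e h := by
  induction E using Finset.induction_on with
  | empty => exact ⟨∅, Finset.Subset.refl _, fun a ha => by simp at ha, fun e he => by simp at he⟩
  | insert x E hx ih =>
    obtain ⟨H, hHE, hH, hcov⟩ := ih
    by_cases hex : ∃ h ∈ H, r x h
    · refine ⟨H, hHE.trans (Finset.subset_insert _ _), hH, fun e he => ?_⟩
      rcases Finset.mem_insert.mp he with rfl | he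
      · exact hex
      · exact hcov e he
    · refine ⟨insert x H, Finset.insert_subset_insert _ hHE, ?_, fun e he => ?_⟩
      · intro a ha b hb hab
        rcases Finset.mem_insert.mp ha with hax | haH
        · rcases Finset.mem_insert.mp hb with hbx | hbH
          · rw [hax, hbx]
          · exact absurd ⟨b, hbH, hax ▸ hab⟩ hex
        · rcases Finset.mem_insert.mp hb with hbx | hbH
          · exact absurd ⟨a, haH, hbx ▸ hr.symm hab⟩ hex
          · exact hH a haH b hbH hab
      · rcases Finset.mem_insert.mp he with rfl | he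
        · exact ⟨e, Finset.mem_insert_self _ _, hr.refl e⟩
        · obtain ⟨h, hh, heh⟩ := hcov e he
          exact ⟨h, Finset.mem_insert_of_mem hh, heh⟩

end Fermat.Agent.LT.T6.H863

end

end
-- ===== PACK-END LT/T6/H863/Reps.lean

-- ===== PACK-BEGIN LT/T6/Inf/H434/SmoothAlg.lean
section


/-!
# Row LT, sub-tower T6inf, leaf T6inf.04.2 `SmoothC811` -- SPARE (helper434), part 1: ALGEBRA

OFF-MAIN.  Mathlib only.  The Iwasawa form of `p · k_θ a_t` for `p` upper triangular:

`P(η, ξ) · (k_θ a_t) = P(η - log D, ξ + e^η s c (e^{-t} - e^{t}) / D) · k_β`,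
`D = s² e^{t} + c² e^{-t}`, `(cos β, sin β) = (c e^{-t/2}, s e^{t/2}) / √D`  (`c = cos θ`, `s = sin θ`).
-/

set_option autoImplicit false

open scoped Matrix

noncomputable section

namespace Fermat.Agent.LT.T6.Inf.H434

/-- `k_θ = [[cos θ, sin θ], [-sin θ, cos θ]]`. -/
def rotM434 (θ : ℝ) : Matrix (Fin 2) (Fin 2) ℝ :=
  !![Real.cos θ, Real.sin θ; -Real.sin θ, Real.cos θ]

/-- `a_t = diag(e^{t/2}, e^{-t/2})`. -/
def torM434 (t : ℝ) : Matrix (Fin 2) (Fin 2) ℝ :=
  !![Real.exp (t / 2), 0; 0, Real.exp (-(t / 2))]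

/-- `k_β` as an element of `GL₂(ℝ)`. -/
def rotU434 (β : ℝ) : GL (Fin 2) ℝ :=
  ⟨rotM434 β, rotM434 (-β),
    by
      ext i j
      fin_cases i <;> fin_cases j <;>
        simp [rotM434, Matrix.mul_apply, Fin.sum_univ_two, Real.cos_neg, Real.sin_neg] <;>
        nlinarith [Real.sin_sq_add_cos_sq β],
    by
      ext i j
      fin_cases i <;> fin_cases j <;>
        simp [rotM434, Matrix.mul_apply, Fin.sum_univ_two, Real.cos_neg, Real.sin_neg] <;>
        nlinarith [Real.sin_sq_add_cos_sq β]⟩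

@[simp] theorem coe_rotU434 (β : ℝ) :
    ((rotU434 β : GL (Fin 2) ℝ) : Matrix (Fin 2) (Fin 2) ℝ) = rotM434 β := rfl

theorem bor_aux434 (a a' ξ : ℝ) (h : a * a' = 1) :
    !![a, ξ * a'; 0, a'] * !![a', -(ξ * a'); 0, a] = (1 : Matrix (Fin 2) (Fin 2) ℝ) := by
  rw [Matrix.mul_fin_two, Matrix.one_fin_two]
  have h' : a' * a = 1 := by rw [mul_comm]; exact h
  have e1 : a * a' + ξ * a' * 0 = 1 := by rw [mul_zero, add_zero]; exact h
  have e2 : a * -(ξ * a') + ξ * a' * a = 0 := by ring
  have e3 : (0 : ℝ) * a' + a' * 0 = 0 := by ring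
  have e4 : 0 * -(ξ * a') + a' * a = 1 := by rw [zero_mul, zero_add]; exact h'
  rw [e1, e2, e3, e4]

theorem bor_aux'434 (a a' ξ : ℝ) (h : a * a' = 1) :
    !![a', -(ξ * a'); 0, a] * !![a, ξ * a'; 0, a'] = (1 : Matrix (Fin 2) (Fin 2) ℝ) := by
  rw [Matrix.mul_fin_two, Matrix.one_fin_two]
  have h' : a' * a = 1 := by rw [mul_comm]; exact h
  have e1 : a' * a + -(ξ * a') * 0 = 1 := by rw [mul_zero, add_zero]; exact h'
  have e2 : a' * (ξ * a') + -(ξ * a') * a' = 0 := by ring
  have e3 : (0 : ℝ) * a + a * 0 = 0 := by ring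
  have e4 : 0 * (ξ * a') + a * a' = 1 := by rw [zero_mul, zero_add]; exact h
  rw [e1, e2, e3, e4]

theorem exp_half_mul434 (x : ℝ) : Real.exp (x / 2) * Real.exp (-(x / 2)) = 1 := by
  rw [← Real.exp_add, add_neg_cancel, Real.exp_zero]

/-- The upper triangular element `n_ξ a_η = [[e^{η/2}, ξ e^{-η/2}], [0, e^{-η/2}]]`, `y = (η, ξ)`. -/
def bor434 (y : ℝ × ℝ) : GL (Fin 2) ℝ :=
  ⟨!![Real.exp (y.1 / 2), y.2 * Real.exp (-(y.1 / 2)); 0, Real.exp (-(y.1 / 2))],
    !![Real.exp (-(y.1 / 2)), -(y.2 * Real.exp (-(y.1 / 2))); 0, Real.exp (y.1 / 2)],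
    bor_aux434 _ _ _ (exp_half_mul434 y.1), bor_aux'434 _ _ _ (exp_half_mul434 y.1)⟩

theorem coe_bor434 (y : ℝ × ℝ) :
    ((bor434 y : GL (Fin 2) ℝ) : Matrix (Fin 2) (Fin 2) ℝ)
      = !![Real.exp (y.1 / 2), y.2 * Real.exp (-(y.1 / 2)); 0, Real.exp (-(y.1 / 2))] := rfl

theorem coe_inv_bor434 (y : ℝ × ℝ) :
    (((bor434 y)⁻¹ : GL (Fin 2) ℝ) : Matrix (Fin 2) (Fin 2) ℝ)
      = !![Real.exp (-(y.1 / 2)), -(y.2 * Real.exp (-(y.1 / 2))); 0, Real.exp (y.1 / 2)] := rfl

theorem bor_zero434 : bor434 (0, 0) = 1 := by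
  apply Units.ext
  rw [coe_bor434]
  ext i j
  fin_cases i <;> fin_cases j <;> simp

/-- `D(θ, t) = sin² θ e^{t} + cos² θ e^{-t} > 0`. -/
def dd434 (θ t : ℝ) : ℝ := Real.sin θ ^ 2 * Real.exp t + Real.cos θ ^ 2 * Real.exp (-t)

theorem dd_pos434 (θ t : ℝ) : 0 < dd434 θ t := by
  unfold dd434
  have h1 := Real.exp_pos t
  have h2 := Real.exp_pos (-t)
  have h3 := Real.sin_sq_add_cos_sq θ
  rcases lt_or_ge 0 (Real.sin θ ^ 2) with h | h
  · have : 0 ≤ Real.cos θ ^ 2 * Real.exp (-t) := by positivity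
    have : 0 < Real.sin θ ^ 2 * Real.exp t := by positivity
    linarith
  · have hs : Real.sin θ ^ 2 = 0 := le_antisymm h (sq_nonneg _)
    have hc : Real.cos θ ^ 2 = 1 := by linarith
    rw [hs, hc]
    simpa using h2

/-- `√D` (as `exp (log D / 2)`). -/
def rr434 (θ t : ℝ) : ℝ := Real.exp (Real.log (dd434 θ t) / 2)

theorem rr_pos434 (θ t : ℝ) : 0 < rr434 θ t := Real.exp_pos _

theorem rr_sq434 (θ t : ℝ) : rr434 θ t ^ 2 = dd434 θ t := by
  unfold rr434
  rw [sq, ← Real.exp_add, add_halves, Real.exp_log (dd_pos434 θ t)]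

/-- The shear `τ_{θ,t}(η, ξ) = (η - log D, ξ + e^η s c (e^{-t} - e^{t}) / D)`. -/
def tau434 (θ t : ℝ) (y : ℝ × ℝ) : ℝ × ℝ :=
  (y.1 - Real.log (dd434 θ t),
    y.2 + Real.exp y.1 * (Real.sin θ * Real.cos θ * (Real.exp (-t) - Real.exp t) / dd434 θ t))

/-- `cos β`. -/
def cb434 (θ t : ℝ) : ℝ := Real.cos θ * Real.exp (-(t / 2)) / rr434 θ t

/-- `sin β`. -/
def sb434 (θ t : ℝ) : ℝ := Real.sin θ * Real.exp (t / 2) / rr434 θ t

theorem cb_sq_add_sb_sq434 (θ t : ℝ) : cb434 θ t ^ 2 + sb434 θ t ^ 2 = 1 := by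
  unfold cb434 sb434
  have hr := rr_pos434 θ t
  have hr2 := rr_sq434 θ t
  have e1 : Real.exp (-(t / 2)) ^ 2 = Real.exp (-t) := by
    rw [sq, ← Real.exp_add]; congr 1; ring
  have e2 : Real.exp (t / 2) ^ 2 = Real.exp t := by
    rw [sq, ← Real.exp_add]; congr 1; ring
  rw [div_pow, div_pow, ← add_div, mul_pow, mul_pow, e1, e2, hr2]
  have hD := dd_pos434 θ t
  rw [div_eq_one_iff_eq hD.ne']
  unfold dd434
  ring

/-- The unit complex number `W = cos β + i sin β`. -/
def ww434 (θ t : ℝ) : ℂ := ((cb434 θ t : ℝ) : ℂ) + ((sb434 θ t : ℝ) : ℂ) * Complex.I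

theorem norm_ww434 (θ t : ℝ) : ‖ww434 θ t‖ = 1 := by
  have h : ww434 θ t = ⟨cb434 θ t, sb434 θ t⟩ := by
    apply Complex.ext <;> simp [ww434]
  rw [h, Complex.norm_def, Complex.normSq_mk, ← sq, ← sq, cb_sq_add_sb_sq434, Real.sqrt_one]

theorem ww_ne_zero434 (θ t : ℝ) : ww434 θ t ≠ 0 := by
  intro h
  have := norm_ww434 θ t
  rw [h, norm_zero] at this
  exact zero_ne_one this

/-- The angle `β`. -/
def beta434 (θ t : ℝ) : ℝ := Complex.arg (ww434 θ t)

theorem cos_beta434 (θ t : ℝ) : Real.cos (beta434 θ t) = cb434 θ t := by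
  unfold beta434
  rw [Complex.cos_arg (ww_ne_zero434 θ t), norm_ww434, div_one]
  simp [ww434]

theorem sin_beta434 (θ t : ℝ) : Real.sin (beta434 θ t) = sb434 θ t := by
  unfold beta434
  rw [Complex.sin_arg, norm_ww434, div_one]
  simp [ww434]

theorem exp_beta434 (θ t : ℝ) :
    Complex.exp (((beta434 θ t : ℝ) : ℂ) * Complex.I) = ww434 θ t := by
  rw [Complex.exp_mul_I, ← Complex.ofReal_cos, ← Complex.ofReal_sin, cos_beta434, sin_beta434]
  rfl

/-- **THE IWASAWA IDENTITY.** -/
theorem bor_mul_rot_tor434 (θ t : ℝ) (y : ℝ × ℝ) (K A : GL (Fin 2) ℝ)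
    (hK : (K : Matrix (Fin 2) (Fin 2) ℝ) = rotM434 θ)
    (hA : (A : Matrix (Fin 2) (Fin 2) ℝ) = torM434 t) :
    bor434 y * (K * A) = bor434 (tau434 θ t y) * rotU434 (beta434 θ t) := by
  apply Units.ext
  rw [Units.val_mul, Units.val_mul, Units.val_mul, hK, hA, coe_bor434, coe_bor434, coe_rotU434]
  have hr := rr_pos434 θ t
  have hr2 := rr_sq434 θ t
  have hD := dd_pos434 θ t
  obtain ⟨η, ξ⟩ := y
  -- the exponentials
  have ea : Real.exp (η / 2) * Real.exp (-(η / 2)) = 1 := by rw [← Real.exp_add]; simp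
  have eu : Real.exp (t / 2) * Real.exp (-(t / 2)) = 1 := by rw [← Real.exp_add]; simp
  have eη : Real.exp η = Real.exp (η / 2) ^ 2 := by rw [sq, ← Real.exp_add, add_halves]
  have et : Real.exp t = Real.exp (t / 2) ^ 2 := by rw [sq, ← Real.exp_add, add_halves]
  have emt : Real.exp (-t) = Real.exp (-(t / 2)) ^ 2 := by
    rw [sq, ← Real.exp_add]; congr 1; ring
  have e1 : Real.exp ((η - Real.log (dd434 θ t)) / 2) = Real.exp (η / 2) / rr434 θ t := by
    unfold rr434
    rw [← Real.exp_sub]; congr 1; ring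
  have e2 : Real.exp (-((η - Real.log (dd434 θ t)) / 2)) = Real.exp (-(η / 2)) * rr434 θ t := by
    unfold rr434
    rw [← Real.exp_add]; congr 1; ring
  have hsc := Real.sin_sq_add_cos_sq θ
  simp only [tau434, rotM434, torM434]
  rw [cos_beta434, sin_beta434, e1, e2]
  unfold cb434 sb434
  have hDdef : dd434 θ t = Real.sin θ ^ 2 * Real.exp (t / 2) ^ 2
      + Real.cos θ ^ 2 * Real.exp (-(t / 2)) ^ 2 := by
    unfold dd434; rw [← et, ← emt]
  rw [eη, emt, et]
  generalize Real.exp (η / 2) = a at *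
  generalize Real.exp (-(η / 2)) = a' at *
  generalize Real.exp (t / 2) = u at *
  generalize Real.exp (-(t / 2)) = u' at *
  generalize rr434 θ t = r at *
  generalize dd434 θ t = D at *
  generalize Real.sin θ = s at *
  generalize Real.cos θ = c at *
  subst hDdef
  have hrne : r ≠ 0 := hr.ne'
  have hDne : s ^ 2 * u ^ 2 + c ^ 2 * u' ^ 2 ≠ 0 := hD.ne'
  rw [Matrix.mul_fin_two, Matrix.mul_fin_two, Matrix.mul_fin_two]
  rw [← hr2]
  have ha0 : a ≠ 0 := fun h => by rw [h, zero_mul] at ea; exact zero_ne_one ea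
  have hu0 : u ≠ 0 := fun h => by rw [h, zero_mul] at eu; exact zero_ne_one eu
  have ha' : a' = a⁻¹ := eq_inv_of_mul_eq_one_right ea
  have hu' : u' = u⁻¹ := eq_inv_of_mul_eq_one_right eu
  subst ha' hu'
  have hr2' : u ^ 2 * r ^ 2 = s ^ 2 * u ^ 4 + c ^ 2 := by
    rw [hr2]
    field_simp
  have g00 : a * (c * u + s * 0) + ξ * a⁻¹ * (-s * u + c * 0)
      = a / r * (c * u⁻¹ / r)
        + (ξ + a ^ 2 * (s * c * (u⁻¹ ^ 2 - u ^ 2) / r ^ 2)) * (a⁻¹ * r) * -(s * u / r) := by
    field_simp
    linear_combination (a ^ 2 * c) * hr2' + (a ^ 2 * c) * hsc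
  have g01 : a * (c * 0 + s * u⁻¹) + ξ * a⁻¹ * (-s * 0 + c * u⁻¹)
      = a / r * (s * u / r)
        + (ξ + a ^ 2 * (s * c * (u⁻¹ ^ 2 - u ^ 2) / r ^ 2)) * (a⁻¹ * r) * (c * u⁻¹ / r) := by
    field_simp
    linear_combination (a ^ 2 * s) * hr2' + (a ^ 2 * s * u ^ 4) * hsc
  have g10 : 0 * (c * u + s * 0) + a⁻¹ * (-s * u + c * 0)
      = 0 * (c * u⁻¹ / r) + a⁻¹ * r * -(s * u / r) := by
    field_simp
    ring
  have g11 : 0 * (c * 0 + s * u⁻¹) + a⁻¹ * (-s * 0 + c * u⁻¹)
      = 0 * (s * u / r) + a⁻¹ * r * (c * u⁻¹ / r) := by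
    field_simp
    ring
  rw [g00, g01, g10, g11]

end Fermat.Agent.LT.T6.Inf.H434

end

end
-- ===== PACK-END LT/T6/Inf/H434/SmoothAlg.lean

-- ===== PACK-BEGIN LT/T7/H175/PeriodBasis.lean
section


/-!
# Row LT, tower T7, asset ARCH-PROJ (helper175), part 1: the PERIOD BASIS

OFF-MAIN.  Mathlib only.

`V = (InfinitePlace K → ℝ)` is the logarithmic space of the positive scalars at the infinite
places.  For `c ≠ 0` and `N ≥ 1` the constant vector `(c, …, c)` and the vectors
`(N · log |ε_j|_w)_w`, `ε_j` a fundamental system of units, form an `ℝ`-basis of `V`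
(Dirichlet's unit theorem: `NumberField.Units.dirichletUnitTheorem`).  So the lattice spanned by
the ray generator and by the units `≡ 1 mod 𝔫` is cocompact in `V`.
-/

set_option autoImplicit false
set_option linter.unusedSectionVars false

open NumberField NumberField.Units NumberField.Units.dirichletUnitTheorem
  NumberField.InfinitePlace Module
open scoped Classical

noncomputable section

namespace Fermat.Agent.LT.T7.H175

variable (K : Type) [Field K] [NumberField K]

/-- The logarithmic vector `(log |ε|_w)_w` of a unit. -/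
def unitLog175 (ε : (𝓞 K)ˣ) : InfinitePlace K → ℝ := fun w => Real.log (w ((ε : 𝓞 K) : K))

/-- The projection of `V` on the logarithmic space of Mathlib. -/
def logProj175 : (InfinitePlace K → ℝ) →ₗ[ℝ] logSpace K where
  toFun x := fun w => (mult w.1 : ℝ) * x w.1
  map_add' x y := by funext w; simp [mul_add]
  map_smul' a x := by funext w; simp [mul_left_comm]

/-- The weighted sum `∑ mult w · x_w`. -/
def logSum175 : (InfinitePlace K → ℝ) →ₗ[ℝ] ℝ where
  toFun x := ∑ w : InfinitePlace K, (mult w : ℝ) * x w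
  map_add' x y := by simp [mul_add, Finset.sum_add_distrib]
  map_smul' a x := by simp [Finset.mul_sum, mul_left_comm]

theorem logProj175_unitLog (ε : (𝓞 K)ˣ) :
    logProj175 K (unitLog175 K ε) = logEmbedding K (Additive.ofMul ε) := rfl

theorem logSum175_unitLog (ε : (𝓞 K)ˣ) : logSum175 K (unitLog175 K ε) = 0 :=
  sum_mult_mul_log ε

/-- The family: the constant vector and the scaled logarithmic vectors of a fundamental system
of units. -/
def periodVec175 (c : ℝ) (N : ℕ) : Option (Fin (rank K)) → (InfinitePlace K → ℝ)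
  | none => fun _ => c
  | some j => (N : ℝ) • unitLog175 K (fundSystem K j)

theorem mult_ne_zero175 (w : InfinitePlace K) : (mult w : ℝ) ≠ 0 := by
  have : 0 < mult w := mult_pos
  exact_mod_cast this.ne'

/-- Every vector agrees outside `w₀` with a combination of the logarithmic vectors of the
fundamental units. -/
theorem exists_agree175 (x : InfinitePlace K → ℝ) :
    ∃ z ∈ Submodule.span ℝ (Set.range fun j => unitLog175 K (fundSystem K j)),
      ∀ w : InfinitePlace K, w ≠ w₀ → z w = x w := by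
  classical
  let B : Basis (Fin (rank K)) ℝ (logSpace K) :=
    (basisUnitLattice K).ofZLatticeBasis ℝ (unitLattice K)
  have hB : ∀ j, B j = logProj175 K (unitLog175 K (fundSystem K j)) := by
    intro j
    rw [logProj175_unitLog, logEmbedding_fundSystem]
    exact (basisUnitLattice K).ofZLatticeBasis_apply ℝ (unitLattice K) j
  refine ⟨∑ j, B.repr (logProj175 K x) j • unitLog175 K (fundSystem K j), ?_, ?_⟩
  · refine Submodule.sum_mem _ fun j _ => Submodule.smul_mem _ _ ?_
    exact Submodule.subset_span ⟨j, rfl⟩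
  · intro w hw
    have h1 : logProj175 K (∑ j, B.repr (logProj175 K x) j • unitLog175 K (fundSystem K j))
        = logProj175 K x := by
      rw [map_sum]
      simp only [map_smul, ← hB]
      exact B.sum_repr _
    have h2 := congrFun h1 ⟨w, hw⟩
    simp only [logProj175, LinearMap.coe_mk, AddHom.coe_mk] at h2
    exact mul_left_cancel₀ (mult_ne_zero175 K w) h2

theorem logSum175_span {z : InfinitePlace K → ℝ}
    (hz : z ∈ Submodule.span ℝ (Set.range fun j => unitLog175 K (fundSystem K j))) :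
    logSum175 K z = 0 := by
  induction hz using Submodule.span_induction with
  | mem x hx =>
    obtain ⟨j, rfl⟩ := hx
    exact logSum175_unitLog K _
  | zero => exact map_zero _
  | add x y _ _ hx hy => rw [map_add, hx, hy, add_zero]
  | smul a x _ hx => rw [map_smul, hx, smul_zero]

theorem span_unit_le175 (c : ℝ) {N : ℕ} (hN : 0 < N) :
    Submodule.span ℝ (Set.range fun j => unitLog175 K (fundSystem K j))
      ≤ Submodule.span ℝ (Set.range (periodVec175 K c N)) := by
  rw [Submodule.span_le]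
  rintro _ ⟨j, rfl⟩
  have hN' : (N : ℝ) ≠ 0 := by exact_mod_cast hN.ne'
  have h1 : periodVec175 K c N (some j) ∈ Submodule.span ℝ (Set.range (periodVec175 K c N)) :=
    Submodule.subset_span ⟨some j, rfl⟩
  have h2 := Submodule.smul_mem _ ((N : ℝ)⁻¹) h1
  have h3 : ((N : ℝ)⁻¹) • periodVec175 K c N (some j) = unitLog175 K (fundSystem K j) := by
    show ((N : ℝ)⁻¹) • ((N : ℝ) • unitLog175 K (fundSystem K j)) = _
    rw [smul_smul, inv_mul_cancel₀ hN', one_smul]
  rw [h3] at h2
  exact h2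

theorem logSum175_single (t : ℝ) :
    logSum175 K (Pi.single (w₀ : InfinitePlace K) t) = (mult (w₀ : InfinitePlace K) : ℝ) * t := by
  classical
  show ∑ w : InfinitePlace K, (mult w : ℝ) * (Pi.single (w₀ : InfinitePlace K) t : _ → ℝ) w = _
  rw [Finset.sum_eq_single (w₀ : InfinitePlace K)]
  · rw [Pi.single_eq_same]
  · intro w _ hw
    rw [Pi.single_eq_of_ne hw, mul_zero]
  · intro h
    exact absurd (Finset.mem_univ _) h

theorem eq_single_of_agree175 {y : InfinitePlace K → ℝ}
    (hy : ∀ w : InfinitePlace K, w ≠ w₀ → y w = 0) :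
    y = Pi.single (w₀ : InfinitePlace K) (y w₀) := by
  classical
  funext w
  by_cases hw : w = w₀
  · subst hw
    rw [Pi.single_eq_same]
  · rw [Pi.single_eq_of_ne hw, hy w hw]

/-- **The period vectors span `V`.** -/
theorem span_periodVec175 {c : ℝ} (hc : c ≠ 0) {N : ℕ} (hN : 0 < N) :
    Submodule.span ℝ (Set.range (periodVec175 K c N)) = ⊤ := by
  classical
  set W := Submodule.span ℝ (Set.range (periodVec175 K c N)) with hW
  -- the basis vector at `w₀` lies in `W`
  have hsingle : (Pi.single (w₀ : InfinitePlace K) (1 : ℝ) : InfinitePlace K → ℝ) ∈ W := by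
    obtain ⟨z, hz, hzw⟩ := exists_agree175 K (fun _ => c)
    have hρ : (fun _ : InfinitePlace K => c) ∈ W := Submodule.subset_span ⟨none, rfl⟩
    have hzW : z ∈ W := span_unit_le175 K c hN hz
    have hd : (fun _ : InfinitePlace K => c) - z ∈ W := Submodule.sub_mem _ hρ hzW
    have hd0 : ∀ w : InfinitePlace K, w ≠ w₀ → ((fun _ : InfinitePlace K => c) - z) w = 0 := by
      intro w hw
      show c - z w = 0
      rw [hzw w hw, sub_self]
    have hd1 := eq_single_of_agree175 K hd0
    set t := ((fun _ : InfinitePlace K => c) - z) w₀ with ht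
    have hS : logSum175 K ((fun _ : InfinitePlace K => c) - z)
        = c * ∑ w : InfinitePlace K, (mult w : ℝ) := by
      rw [map_sub, logSum175_span K hz, sub_zero]
      show ∑ w : InfinitePlace K, (mult w : ℝ) * c = _
      rw [Finset.mul_sum]
      exact Finset.sum_congr rfl fun w _ => mul_comm _ _
    have hS2 : logSum175 K ((fun _ : InfinitePlace K => c) - z)
        = (mult (w₀ : InfinitePlace K) : ℝ) * t := by
      conv_lhs => rw [hd1]
      exact logSum175_single K t
    have hpos : 0 < ∑ w : InfinitePlace K, (mult w : ℝ) := by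
      refine Finset.sum_pos (fun w _ => ?_) Finset.univ_nonempty
      have : 0 < mult w := mult_pos
      exact_mod_cast this
    have ht0 : t ≠ 0 := by
      intro h0
      rw [h0, mul_zero] at hS2
      rw [hS2] at hS
      exact (mul_ne_zero hc hpos.ne') hS.symm
    have h5 := Submodule.smul_mem W t⁻¹ hd
    rw [hd1] at h5
    have h6 : t⁻¹ • (Pi.single (w₀ : InfinitePlace K) t : InfinitePlace K → ℝ)
        = Pi.single (w₀ : InfinitePlace K) (1 : ℝ) := by
      funext w
      by_cases hw : w = w₀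
      · subst hw
        simp [ht0]
      · simp [Pi.single_eq_of_ne hw]
    rw [h6] at h5
    exact h5
  rw [eq_top_iff]
  intro x _
  obtain ⟨z, hz, hzw⟩ := exists_agree175 K x
  have hzW : z ∈ W := span_unit_le175 K c hN hz
  have hd0 : ∀ w : InfinitePlace K, w ≠ w₀ → (x - z) w = 0 := by
    intro w hw
    show x w - z w = 0
    rw [hzw w hw, sub_self]
  have hd1 := eq_single_of_agree175 K hd0
  have h7 : (Pi.single (w₀ : InfinitePlace K) ((x - z) w₀) : InfinitePlace K → ℝ)
      = ((x - z) w₀) • (Pi.single (w₀ : InfinitePlace K) (1 : ℝ) : InfinitePlace K → ℝ) := by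
    funext w
    by_cases hw : w = w₀
    · subst hw
      simp
    · simp [Pi.single_eq_of_ne hw]
  have h8 : x - z ∈ W := by
    rw [hd1, h7]
    exact Submodule.smul_mem _ _ hsingle
  have : x = (x - z) + z := by abel
  rw [this]
  exact Submodule.add_mem _ h8 hzW

theorem card_option_rank175 :
    Fintype.card (Option (Fin (rank K))) = finrank ℝ (InfinitePlace K → ℝ) := by
  rw [Fintype.card_option, Fintype.card_fin, Module.finrank_fintype_fun_eq_card, rank]
  have : 0 < Fintype.card (InfinitePlace K) := Fintype.card_pos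
  omega

/-- **THE PERIOD BASIS** of `V = (InfinitePlace K → ℝ)`. -/
def periodBasis175 {c : ℝ} (hc : c ≠ 0) {N : ℕ} (hN : 0 < N) :
    Basis (Option (Fin (rank K))) ℝ (InfinitePlace K → ℝ) :=
  basisOfTopLeSpanOfCardEqFinrank (periodVec175 K c N) (span_periodVec175 K hc hN).ge
    (card_option_rank175 K)

theorem periodBasis175_apply {c : ℝ} (hc : c ≠ 0) {N : ℕ} (hN : 0 < N)
    (i : Option (Fin (rank K))) : periodBasis175 K hc hN i = periodVec175 K c N i := by
  unfold periodBasis175
  rw [coe_basisOfTopLeSpanOfCardEqFinrank]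

end Fermat.Agent.LT.T7.H175

end

end
-- ===== PACK-END LT/T7/H175/PeriodBasis.lean

-- ===== PACK-BEGIN LT/T7/H228/SchurAbs.lean
section


/-!
# Row LT, tower T7, leaf T7.L2.3.5.5 `SD534.SchurSeqC` (registry 2183): the abstract core, part 1
(helper228)

OFF-MAIN.  Mathlib only.  Simultaneous Schur form of four commuting endomorphisms of a finite
dimensional complex inner product space:

* `exists_common_eigen228`: four commuting endomorphisms have a common eigenvector;
* `exists_joint_kernel228`: two commuting endomorphisms whose ranges lie in a proper subspace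
  have a common kernel vector (Fitting);
* `IsAdapted228`: `T L ⊆ L`, `T e - d e ∈ L` (the diagonal coefficient is multiplicative);
* `exists_schur228`: an orthonormal family `e` of `finrank` members, with subspaces `L i ⊥ e i`
  to which `Z, Z', U, B` are adapted, and every diagonal pair of `(Z, U)` is a joint eigenvalue.
-/

set_option autoImplicit false
set_option linter.unusedSectionVars false
set_option linter.unusedVariables false

open scoped ComplexConjugate InnerProductSpace
open Module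

noncomputable section

namespace Fermat.Agent.LT.T7.H228

/-! ## 1. Common eigenvectors -/

section Eigen

variable {E : Type} [AddCommGroup E] [Module ℂ E] [FiniteDimensional ℂ E]

/-- One step: inside a nonzero invariant subspace `P` there is a nonzero eigenspace `P'` of `f`,
invariant under everything which commutes with `f` and preserves `P`. -/
theorem eigen_step228 (f : E →ₗ[ℂ] E) (P : Submodule ℂ E) (hP : P ≠ ⊥)
    (hinv : ∀ x ∈ P, f x ∈ P) :
    ∃ (μ : ℂ) (P' : Submodule ℂ E), P' ≤ P ∧ P' ≠ ⊥ ∧ (∀ x ∈ P', f x = μ • x) ∧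
      ∀ g : E →ₗ[ℂ] E, (∀ x, f (g x) = g (f x)) → (∀ x ∈ P, g x ∈ P) → ∀ x ∈ P', g x ∈ P' := by
  have : Nontrivial P := (Submodule.nontrivial_iff_ne_bot).2 hP
  obtain ⟨μ, hμ⟩ := Module.End.exists_eigenvalue (f.restrict hinv)
  obtain ⟨v, hv⟩ := hμ.exists_hasEigenvector
  have hv1 : (f.restrict hinv) v = μ • v := hv.apply_eq_smul
  have hv0 : v ≠ 0 := hv.2
  refine ⟨μ, P ⊓ LinearMap.ker (f - μ • LinearMap.id), inf_le_left, ?_, ?_, ?_⟩
  · intro h
    have hmem : (v : E) ∈ P ⊓ LinearMap.ker (f - μ • LinearMap.id) := by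
      refine Submodule.mem_inf.2 ⟨v.2, ?_⟩
      rw [LinearMap.mem_ker, LinearMap.sub_apply, LinearMap.smul_apply, LinearMap.id_apply]
      have := congrArg Subtype.val hv1
      simp only [LinearMap.coe_restrict_apply, Submodule.coe_smul] at this
      rw [this, sub_self]
    rw [h, Submodule.mem_bot] at hmem
    exact hv0 (Subtype.ext hmem)
  · intro x hx
    have := (Submodule.mem_inf.1 hx).2
    rw [LinearMap.mem_ker, LinearMap.sub_apply, LinearMap.smul_apply, LinearMap.id_apply,
      sub_eq_zero] at this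
    exact this
  · intro g hfg hgP x hx
    refine Submodule.mem_inf.2 ⟨hgP x (Submodule.mem_inf.1 hx).1, ?_⟩
    have := (Submodule.mem_inf.1 hx).2
    rw [LinearMap.mem_ker, LinearMap.sub_apply, LinearMap.smul_apply, LinearMap.id_apply,
      sub_eq_zero] at this
    rw [LinearMap.mem_ker, LinearMap.sub_apply, LinearMap.smul_apply, LinearMap.id_apply,
      sub_eq_zero, hfg, this, map_smul]

/-- Four commuting endomorphisms of a nonzero finite dimensional complex vector space have a
common eigenvector. -/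
theorem exists_common_eigen228 [Nontrivial E] (f₁ f₂ f₃ f₄ : E →ₗ[ℂ] E)
    (h12 : ∀ x, f₁ (f₂ x) = f₂ (f₁ x)) (h13 : ∀ x, f₁ (f₃ x) = f₃ (f₁ x))
    (h14 : ∀ x, f₁ (f₄ x) = f₄ (f₁ x)) (h23 : ∀ x, f₂ (f₃ x) = f₃ (f₂ x))
    (h24 : ∀ x, f₂ (f₄ x) = f₄ (f₂ x)) (h34 : ∀ x, f₃ (f₄ x) = f₄ (f₃ x)) :
    ∃ (v : E) (μ₁ μ₂ μ₃ μ₄ : ℂ), v ≠ 0 ∧ f₁ v = μ₁ • v ∧ f₂ v = μ₂ • v ∧ f₃ v = μ₃ • v ∧
      f₄ v = μ₄ • v := by
  have htop : (⊤ : Submodule ℂ E) ≠ ⊥ := top_ne_bot
  obtain ⟨μ₁, P₁, -, hP₁, he₁, hi₁⟩ := eigen_step228 f₁ ⊤ htop (fun x _ => Submodule.mem_top)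
  have i2 := hi₁ f₂ h12 (fun x _ => Submodule.mem_top)
  have i3 := hi₁ f₃ h13 (fun x _ => Submodule.mem_top)
  have i4 := hi₁ f₄ h14 (fun x _ => Submodule.mem_top)
  obtain ⟨μ₂, P₂, hle₂, hP₂, he₂, hi₂⟩ := eigen_step228 f₂ P₁ hP₁ i2
  have j3 := hi₂ f₃ h23 i3
  have j4 := hi₂ f₄ h24 i4
  obtain ⟨μ₃, P₃, hle₃, hP₃, he₃, hi₃⟩ := eigen_step228 f₃ P₂ hP₂ j3
  have k4 := hi₃ f₄ h34 j4
  obtain ⟨μ₄, P₄, hle₄, hP₄, he₄, -⟩ := eigen_step228 f₄ P₃ hP₃ k4
  obtain ⟨v, hv, hv0⟩ := Submodule.exists_mem_ne_zero_of_ne_bot hP₄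
  exact ⟨v, μ₁, μ₂, μ₃, μ₄, hv0, he₁ v (hle₂ (hle₃ (hle₄ hv))), he₂ v (hle₃ (hle₄ hv)),
    he₃ v (hle₄ hv), he₄ v hv⟩

/-! ## 2. The joint kernel (Fitting) -/

/-- Two commuting endomorphisms whose ranges lie in a proper subspace have a common kernel
vector. -/
theorem exists_joint_kernel228 (S T : E →ₗ[ℂ] E) (hST : ∀ x, S (T x) = T (S x))
    (H : Submodule ℂ E) (hH : H ≠ ⊤) (hS : ∀ x, S x ∈ H) (hT : ∀ x, T x ∈ H) :
    ∃ y : E, y ≠ 0 ∧ S y = 0 ∧ T y = 0 := by
  classical
  -- the generalised kernel of `S`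
  set G : Submodule ℂ E := ⨆ n : ℕ, LinearMap.ker (S ^ n) with hG
  have hcompl := LinearMap.isCompl_iSup_ker_pow_iInf_range_pow S
  have hGmem : ∀ x : E, x ∈ G ↔ ∃ n : ℕ, (S ^ n) x = 0 := by
    intro x
    rw [hG, Submodule.mem_iSup_of_directed]
    · simp only [LinearMap.mem_ker]
    · intro i j
      refine ⟨max i j, ?_, ?_⟩
      · intro x hx
        rw [LinearMap.mem_ker] at hx ⊢
        rw [show max i j = (max i j - i) + i by omega, pow_add, Module.End.mul_apply, hx, map_zero]
      · intro x hx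
        rw [LinearMap.mem_ker] at hx ⊢
        rw [show max i j = (max i j - j) + j by omega, pow_add, Module.End.mul_apply, hx, map_zero]
  -- powers of `S` commute with `T`
  have hpow : ∀ (n : ℕ) (x : E), (S ^ n) (T x) = T ((S ^ n) x) := by
    intro n
    induction n with
    | zero => intro x; simp
    | succ n ih =>
      intro x
      rw [pow_succ, Module.End.mul_apply, Module.End.mul_apply, hST, ih]
  -- `G` is not contained in `H`
  have hGH : ¬ G ≤ H := by
    intro hle
    apply hH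
    rw [eq_top_iff]
    have h1 : (⨅ n : ℕ, LinearMap.range (S ^ n)) ≤ H := by
      refine le_trans (iInf_le _ 1) ?_
      rintro x ⟨y, rfl⟩
      rw [pow_one]
      exact hS y
    calc (⊤ : Submodule ℂ E) = G ⊔ ⨅ n : ℕ, LinearMap.range (S ^ n) := hcompl.sup_eq_top.symm
      _ ≤ H := sup_le hle h1
  -- `T` is not injective on `G`
  have hTG : ∀ x ∈ G, T x ∈ G := by
    intro x hx
    obtain ⟨n, hn⟩ := (hGmem x).1 hx
    exact (hGmem _).2 ⟨n, by rw [hpow, hn, map_zero]⟩
  have hex : ∃ g ∈ G, g ≠ 0 ∧ T g = 0 := by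
    by_contra hcon
    push Not at hcon
    apply hGH
    have hinj : Function.Injective (T.restrict hTG) := by
      rw [← LinearMap.ker_eq_bot, LinearMap.ker_eq_bot']
      intro x hx
      by_contra hx0
      have h1 := hcon x x.2 (fun h => hx0 (Subtype.ext h))
      apply h1
      have := congrArg Subtype.val hx
      simpa using this
    have hsurj : Function.Surjective (T.restrict hTG) :=
      LinearMap.injective_iff_surjective.1 hinj
    intro x hx
    obtain ⟨y, hy⟩ := hsurj ⟨x, hx⟩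
    have := congrArg Subtype.val hy
    simp only [LinearMap.coe_restrict_apply] at this
    rw [← this]
    exact hT _
  obtain ⟨g, hgG, hg0, hTg⟩ := hex
  obtain ⟨n, hn⟩ := (hGmem g).1 hgG
  -- the minimal exponent
  have hexn : ∃ n : ℕ, (S ^ n) g = 0 := ⟨n, hn⟩
  set m := Nat.find hexn with hm
  have hm0 : (S ^ m) g = 0 := Nat.find_spec hexn
  have hmpos : m ≠ 0 := by
    intro h0
    rw [h0, pow_zero] at hm0
    exact hg0 hm0
  obtain ⟨k, hk⟩ : ∃ k, m = k + 1 := Nat.exists_eq_succ_of_ne_zero hmpos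
  refine ⟨(S ^ k) g, ?_, ?_, ?_⟩
  · intro h
    have : m ≤ k := Nat.find_min' hexn h
    omega
  · have : S ((S ^ k) g) = (S ^ (k + 1)) g := by
      rw [pow_succ', Module.End.mul_apply]
    rw [this, ← hk]
    exact hm0
  · rw [← hpow, hTg, map_zero]

end Eigen

/-! ## 3. Adapted operators -/

section Adapted

variable {E : Type} [NormedAddCommGroup E] [InnerProductSpace ℂ E]

/-- `T` is adapted to `(e, L)` with diagonal coefficient `d`: `T L ⊆ L` and `T e - d e ∈ L`. -/
def IsAdapted228 (e : E) (L : Submodule ℂ E) (T : E →ₗ[ℂ] E) (d : ℂ) : Prop :=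
  (∀ x ∈ L, T x ∈ L) ∧ T e - d • e ∈ L

theorem IsAdapted228.comp {e : E} {L : Submodule ℂ E} {S T : E →ₗ[ℂ] E} {s t : ℂ}
    (hS : IsAdapted228 e L S s) (hT : IsAdapted228 e L T t) :
    IsAdapted228 e L (S ∘ₗ T) (s * t) := by
  refine ⟨fun x hx => hS.1 _ (hT.1 x hx), ?_⟩
  have h1 : (S ∘ₗ T) e - (s * t) • e = S (T e - t • e) + t • (S e - s • e) := by
    rw [LinearMap.comp_apply, map_sub, map_smul, smul_sub, smul_smul, mul_comm t s]
    abel
  rw [h1]
  exact L.add_mem (hS.1 _ hT.2) (L.smul_mem _ hS.2)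

theorem isAdapted_id228 (e : E) (L : Submodule ℂ E) :
    IsAdapted228 e L LinearMap.id 1 := by
  refine ⟨fun x hx => hx, ?_⟩
  rw [LinearMap.id_apply, one_smul, sub_self]
  exact L.zero_mem

theorem IsAdapted228.pow {e : E} {L : Submodule ℂ E} {T : E →ₗ[ℂ] E} {t : ℂ}
    (hT : IsAdapted228 e L T t) (m : ℕ) : IsAdapted228 e L (T ^ m) (t ^ m) := by
  induction m with
  | zero =>
    rw [pow_zero, pow_zero]
    exact isAdapted_id228 e L
  | succ m ih =>
    rw [pow_succ, pow_succ]
    exact ih.comp hT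

theorem IsAdapted228.inner_eq {e : E} {L : Submodule ℂ E} {T : E →ₗ[ℂ] E} {d : ℂ}
    (he : ⟪e, e⟫_ℂ = 1) (hL : ∀ x ∈ L, ⟪e, x⟫_ℂ = 0) (hT : IsAdapted228 e L T d) :
    ⟪e, T e⟫_ℂ = d := by
  have h1 : T e = (T e - d • e) + d • e := by abel
  rw [h1, inner_add_right, hL _ hT.2, inner_smul_right, he, mul_one, zero_add]

end Adapted

/-! ## 4. The simultaneous Schur form -/

/-- The four operators. -/
def IsOneOf228 {E : Type} [AddCommGroup E] [Module ℂ E] (Z Z' U B T : E →ₗ[ℂ] E) : Prop :=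
  T = Z ∨ T = Z' ∨ T = U ∨ T = B

/-- **Simultaneous Schur form.**  Four commuting endomorphisms of a finite dimensional complex
inner product space: there is an orthonormal family `e` with `finrank` members and subspaces
`L i ⊥ e i` such that the four operators are adapted to `(e i, L i)`, and every diagonal pair of
`(Z, U)` is a joint eigenvalue. -/
theorem exists_schur228 : ∀ (n : ℕ) (E : Type) [NormedAddCommGroup E] [InnerProductSpace ℂ E]
    [FiniteDimensional ℂ E] (Z Z' U B : E →ₗ[ℂ] E), finrank ℂ E = n →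
    (∀ x, Z (Z' x) = Z' (Z x)) → (∀ x, Z (U x) = U (Z x)) → (∀ x, Z (B x) = B (Z x)) →
    (∀ x, Z' (U x) = U (Z' x)) → (∀ x, Z' (B x) = B (Z' x)) → (∀ x, U (B x) = B (U x)) →
    ∃ (ι : Type) (_ : Fintype ι) (e : ι → E) (L : ι → Submodule ℂ E),
      Fintype.card ι = n ∧ Orthonormal ℂ e ∧ (∀ i, ∀ x ∈ L i, ⟪e i, x⟫_ℂ = 0) ∧
      (∀ i, ∀ T : E →ₗ[ℂ] E, IsOneOf228 Z Z' U B T →
        IsAdapted228 (e i) (L i) T ⟪e i, T (e i)⟫_ℂ) ∧
      ∀ i, ∃ y : E, y ≠ 0 ∧ Z y = ⟪e i, Z (e i)⟫_ℂ • y ∧ U y = ⟪e i, U (e i)⟫_ℂ • y := by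
  intro n
  induction n with
  | zero =>
    intro E _ _ _ Z Z' U B hn _ _ _ _ _ _
    refine ⟨Empty, inferInstance, fun i => i.elim, fun i => i.elim, ?_, ?_, ?_, ?_, ?_⟩
    · simp
    · exact ⟨fun i => i.elim, fun i => i.elim⟩
    · exact fun i => i.elim
    · exact fun i => i.elim
    · exact fun i => i.elim
  | succ n ih =>
    intro E _ _ _ Z Z' U B hn hZZ' hZU hZB hZ'U hZ'B hUB
    classical
    have hnt : Nontrivial E := Module.nontrivial_of_finrank_pos (R := ℂ) (by omega)
    -- the adjoints commute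
    have hadj : ∀ (S T : E →ₗ[ℂ] E), (∀ x, S (T x) = T (S x)) →
        ∀ x, LinearMap.adjoint S (LinearMap.adjoint T x)
          = LinearMap.adjoint T (LinearMap.adjoint S x) := by
      intro S T h x
      have h1 : S ∘ₗ T = T ∘ₗ S := LinearMap.ext h
      have h2 := congrArg LinearMap.adjoint h1
      rw [LinearMap.adjoint_comp, LinearMap.adjoint_comp] at h2
      exact (LinearMap.congr_fun h2 x).symm
    obtain ⟨v, μ₁, μ₂, μ₃, μ₄, hv0, h1, h2, h3, h4⟩ :=
      exists_common_eigen228 (LinearMap.adjoint Z) (LinearMap.adjoint Z') (LinearMap.adjoint U)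
        (LinearMap.adjoint B) (hadj Z Z' hZZ') (hadj Z U hZU) (hadj Z B hZB) (hadj Z' U hZ'U)
        (hadj Z' B hZ'B) (hadj U B hUB)
    -- the unit vector
    have hnv : (‖v‖ : ℂ) ≠ 0 := by
      rw [Ne, Complex.ofReal_eq_zero, norm_eq_zero]
      exact hv0
    set c : ℂ := (‖v‖ : ℂ)⁻¹ with hc
    have hc0 : c ≠ 0 := inv_ne_zero hnv
    set vh : E := c • v with hvh
    have hvh1 : ⟪vh, vh⟫_ℂ = 1 := by
      rw [hvh, inner_smul_left, inner_smul_right, inner_self_eq_norm_sq_to_K, hc]
      simp only [map_inv₀, Complex.conj_ofReal]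
      have : ((‖v‖ : ℝ) : ℂ) ≠ 0 := hnv
      field_simp
      norm_cast
    have hvh0 : vh ≠ 0 := by
      intro h
      rw [h, inner_zero_left] at hvh1
      exact zero_ne_one hvh1
    have hadjvh : ∀ (T : E →ₗ[ℂ] E) (μ : ℂ), LinearMap.adjoint T v = μ • v →
        LinearMap.adjoint T vh = μ • vh := by
      intro T μ hT
      rw [hvh, map_smul, hT, smul_comm]
    -- the invariant hyperplane
    set H : Submodule ℂ E := (ℂ ∙ v)ᗮ with hH
    have hHmem : ∀ x, x ∈ H ↔ ⟪vh, x⟫_ℂ = 0 := by
      intro x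
      rw [hH, Submodule.mem_orthogonal_singleton_iff_inner_right, hvh, inner_smul_left]
      constructor
      · intro h
        rw [h, mul_zero]
      · intro h
        rcases mul_eq_zero.1 h with h' | h'
        · exact absurd ((map_eq_zero (starRingEnd ℂ)).1 h') hc0
        · exact h'
    have hinner : ∀ (T : E →ₗ[ℂ] E) (μ : ℂ), LinearMap.adjoint T v = μ • v →
        ∀ x, ⟪vh, T x⟫_ℂ = conj μ * ⟪vh, x⟫_ℂ := by
      intro T μ hT x
      rw [← LinearMap.adjoint_inner_left, hadjvh T μ hT, inner_smul_left]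
    have hinv : ∀ (T : E →ₗ[ℂ] E) (μ : ℂ), LinearMap.adjoint T v = μ • v →
        ∀ x ∈ H, T x ∈ H := by
      intro T μ hT x hx
      rw [hHmem] at hx ⊢
      rw [hinner T μ hT, hx, mul_zero]
    have hfr : finrank ℂ H = n := by
      have : Fact (finrank ℂ E = n + 1) := ⟨hn⟩
      exact Submodule.finrank_orthogonal_span_singleton hv0
    have hcomm : ∀ (S T : E →ₗ[ℂ] E) (hS : ∀ x ∈ H, S x ∈ H) (hT : ∀ x ∈ H, T x ∈ H),
        (∀ x, S (T x) = T (S x)) → ∀ x, (S.restrict hS) ((T.restrict hT) x)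
          = (T.restrict hT) ((S.restrict hS) x) := by
      intro S T hS hT h x
      apply Subtype.ext
      simp only [LinearMap.coe_restrict_apply]
      exact h _
    obtain ⟨ι, hι, e', L', hcard, horth, hperp, hadp, heig⟩ :=
      ih H (Z.restrict (hinv Z μ₁ h1)) (Z'.restrict (hinv Z' μ₂ h2))
        (U.restrict (hinv U μ₃ h3)) (B.restrict (hinv B μ₄ h4)) hfr
        (hcomm Z Z' _ _ hZZ') (hcomm Z U _ _ hZU) (hcomm Z B _ _ hZB) (hcomm Z' U _ _ hZ'U)
        (hcomm Z' B _ _ hZ'B) (hcomm U B _ _ hUB)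
    -- transfer of one adapted operator
    have htrans : ∀ (i : ι) (T : E →ₗ[ℂ] E) (hT : ∀ x ∈ H, T x ∈ H),
        IsAdapted228 (e' i) (L' i) (T.restrict hT) ⟪e' i, (T.restrict hT) (e' i)⟫_ℂ →
        IsAdapted228 (e' i : E) ((L' i).map H.subtype) T ⟪(e' i : E), T (e' i : E)⟫_ℂ := by
      intro i T hT hA
      have hd : ⟪e' i, (T.restrict hT) (e' i)⟫_ℂ = ⟪(e' i : E), T (e' i : E)⟫_ℂ := by
        rw [Submodule.coe_inner, LinearMap.coe_restrict_apply]
      rw [hd] at hA
      constructor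
      · rintro x ⟨x', hx', rfl⟩
        exact ⟨(T.restrict hT) x', hA.1 x' hx', by simp⟩
      · refine ⟨(T.restrict hT) (e' i) - ⟪(e' i : E), T (e' i : E)⟫_ℂ • e' i, hA.2, ?_⟩
        simp
    have hdiag : ∀ (T : E →ₗ[ℂ] E) (μ : ℂ), LinearMap.adjoint T v = μ • v →
        ⟪vh, T vh⟫_ℂ = conj μ := by
      intro T μ hT
      rw [hinner T μ hT, hvh1, mul_one]
    have hlast : ∀ (T : E →ₗ[ℂ] E) (μ : ℂ), LinearMap.adjoint T v = μ • v →
        IsAdapted228 vh H T ⟪vh, T vh⟫_ℂ := by
      intro T μ hT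
      refine ⟨hinv T μ hT, ?_⟩
      rw [hHmem, inner_sub_right, inner_smul_right, hvh1, mul_one, sub_self]
    refine ⟨Option ι, inferInstance, fun o => o.elim vh (fun i => (e' i : E)),
      fun o => o.elim H (fun i => (L' i).map H.subtype), ?_, ?_, ?_, ?_, ?_⟩
    · rw [Fintype.card_option, hcard]
    · rw [orthonormal_iff_ite]
      have horth' := orthonormal_iff_ite.1 horth
      rintro (_ | i) (_ | j)
      · simpa using hvh1
      · have : ⟪vh, (e' j : E)⟫_ℂ = 0 := (hHmem _).1 (e' j).2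
        simpa using this
      · have : ⟪vh, (e' i : E)⟫_ℂ = 0 := (hHmem _).1 (e' i).2
        have h' : ⟪(e' i : E), vh⟫_ℂ = 0 := by
          rw [← inner_conj_symm, this, map_zero]
        simpa using h'
      · have := horth' i j
        rw [Submodule.coe_inner] at this
        simpa using this
    · rintro (_ | i) x hx
      · exact (hHmem x).1 hx
      · obtain ⟨x', hx', rfl⟩ := hx
        have := hperp i x' hx'
        rw [Submodule.coe_inner] at this
        exact this
    · rintro (_ | i) T hT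
      · rcases hT with rfl | rfl | rfl | rfl
        · exact hlast _ μ₁ h1
        · exact hlast _ μ₂ h2
        · exact hlast _ μ₃ h3
        · exact hlast _ μ₄ h4
      · rcases hT with rfl | rfl | rfl | rfl
        · exact htrans i _ _ (hadp i _ (Or.inl rfl))
        · exact htrans i _ _ (hadp i _ (Or.inr (Or.inl rfl)))
        · exact htrans i _ _ (hadp i _ (Or.inr (Or.inr (Or.inl rfl))))
        · exact htrans i _ _ (hadp i _ (Or.inr (Or.inr (Or.inr rfl))))
    · rintro (_ | i)
      · -- the last vector: Fitting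
        have hHtop : H ≠ ⊤ := by
          intro h
          have : vh ∈ H := by rw [h]; exact Submodule.mem_top
          rw [hHmem, hvh1] at this
          exact one_ne_zero this
        have hrange : ∀ (T : E →ₗ[ℂ] E) (μ : ℂ), LinearMap.adjoint T v = μ • v →
            ∀ x, (T - ⟪vh, T vh⟫_ℂ • (LinearMap.id : E →ₗ[ℂ] E)) x ∈ H := by
          intro T μ hT x
          rw [hHmem, LinearMap.sub_apply, LinearMap.smul_apply, LinearMap.id_apply,
            inner_sub_right, inner_smul_right, hinner T μ hT, hdiag T μ hT, sub_self]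
        obtain ⟨y, hy0, hy1, hy2⟩ := exists_joint_kernel228
          (Z - ⟪vh, Z vh⟫_ℂ • LinearMap.id) (U - ⟪vh, U vh⟫_ℂ • LinearMap.id)
          (by
            intro x
            simp only [LinearMap.sub_apply, LinearMap.smul_apply, LinearMap.id_apply, map_sub,
              map_smul, hZU]
            module)
          H hHtop (hrange Z μ₁ h1) (hrange U μ₃ h3)
        refine ⟨y, hy0, ?_, ?_⟩
        · rw [LinearMap.sub_apply, LinearMap.smul_apply, LinearMap.id_apply, sub_eq_zero] at hy1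
          exact hy1
        · rw [LinearMap.sub_apply, LinearMap.smul_apply, LinearMap.id_apply, sub_eq_zero] at hy2
          exact hy2
      · obtain ⟨y, hy0, hy1, hy2⟩ := heig i
        refine ⟨(y : E), fun h => hy0 (Subtype.ext h), ?_, ?_⟩
        · have := congrArg Subtype.val hy1
          simpa [Submodule.coe_inner] using this
        · have := congrArg Subtype.val hy2
          simpa [Submodule.coe_inner] using this

/-! ## 5. The diagonal formula -/

/-- **Simultaneous Schur form, diagonal formula.**  `Z, Z', U, B` commuting, `Z Z' = 1`.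
There is an orthonormal basis `e` (indexed by a finite type of cardinality `finrank`) with
`⟪e i, B Z^k U^m e i⟫ = x i * b i ^ k * l i ^ m`, `⟪e i, B Z'^k U^m e i⟫ = x i * (b i)⁻¹ ^ k * l i ^ m`,
`b i ≠ 0`, and `(b i, l i)` is a joint eigenvalue of `(Z, U)`. -/
theorem exists_schur_diag228 (E : Type) [NormedAddCommGroup E] [InnerProductSpace ℂ E]
    [FiniteDimensional ℂ E] (Z Z' U B : E →ₗ[ℂ] E)
    (hZZ' : ∀ x, Z (Z' x) = x) (hZ'Z : ∀ x, Z' (Z x) = x)
    (hZU : ∀ x, Z (U x) = U (Z x)) (hZB : ∀ x, Z (B x) = B (Z x))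
    (hZ'U : ∀ x, Z' (U x) = U (Z' x)) (hZ'B : ∀ x, Z' (B x) = B (Z' x))
    (hUB : ∀ x, U (B x) = B (U x)) :
    ∃ (ι : Type) (_ : Fintype ι) (e : ι → E) (b l x : ι → ℂ),
      Fintype.card ι = finrank ℂ E ∧ Orthonormal ℂ e ∧
      (∀ p : E, ∑ i, ‖⟪e i, p⟫_ℂ‖ ^ 2 = ‖p‖ ^ 2) ∧
      (∀ i, b i ≠ 0) ∧
      (∀ i (k m : ℕ), ⟪e i, B ((Z ^ k) ((U ^ m) (e i)))⟫_ℂ = x i * b i ^ k * l i ^ m) ∧
      (∀ i (k m : ℕ), ⟪e i, B ((Z' ^ k) ((U ^ m) (e i)))⟫_ℂ = x i * (b i)⁻¹ ^ k * l i ^ m) ∧
      ∀ i, ∃ y : E, y ≠ 0 ∧ Z y = b i • y ∧ U y = l i • y := by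
  obtain ⟨ι, hι, e, L, hcard, horth, hperp, hadp, heig⟩ :=
    exists_schur228 (finrank ℂ E) E Z Z' U B rfl (fun x => by rw [hZZ', hZ'Z]) hZU hZB hZ'U
      hZ'B hUB
  have he1 : ∀ i, ⟪e i, e i⟫_ℂ = 1 := fun i => by
    rw [inner_self_eq_norm_sq_to_K, horth.1 i]
    simp
  have hAZ := fun i => hadp i Z (Or.inl rfl)
  have hAZ' := fun i => hadp i Z' (Or.inr (Or.inl rfl))
  have hAU := fun i => hadp i U (Or.inr (Or.inr (Or.inl rfl)))
  have hAB := fun i => hadp i B (Or.inr (Or.inr (Or.inr rfl)))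
  have hbb' : ∀ i, ⟪e i, Z (e i)⟫_ℂ * ⟪e i, Z' (e i)⟫_ℂ = 1 := by
    intro i
    have h := ((hAZ i).comp (hAZ' i)).inner_eq (he1 i) (hperp i)
    rw [LinearMap.comp_apply, hZZ', he1] at h
    exact h.symm
  have hb0 : ∀ i, ⟪e i, Z (e i)⟫_ℂ ≠ 0 := fun i h => by
    have := hbb' i
    rw [h, zero_mul] at this
    exact zero_ne_one this
  have hb' : ∀ i, ⟪e i, Z' (e i)⟫_ℂ = (⟪e i, Z (e i)⟫_ℂ)⁻¹ := fun i =>
    eq_inv_of_mul_eq_one_right (hbb' i)
  -- the basis
  have hspan : (⊤ : Submodule ℂ E) ≤ Submodule.span ℂ (Set.range e) := by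
    rw [horth.linearIndependent.span_eq_top_of_card_eq_finrank' hcard]
  refine ⟨ι, hι, e, fun i => ⟪e i, Z (e i)⟫_ℂ, fun i => ⟪e i, U (e i)⟫_ℂ,
    fun i => ⟪e i, B (e i)⟫_ℂ, hcard, horth, ?_, hb0, ?_, ?_, heig⟩
  · intro p
    have := (OrthonormalBasis.mk horth hspan).sum_sq_norm_inner_right p
    simpa using this
  · intro i k m
    have h := ((hAB i).comp (((hAZ i).pow k).comp ((hAU i).pow m))).inner_eq (he1 i) (hperp i)
    simpa [mul_assoc] using h
  · intro i k m
    have h := ((hAB i).comp (((hAZ' i).pow k).comp ((hAU i).pow m))).inner_eq (he1 i) (hperp i)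
    rw [hb' i] at h
    simpa [mul_assoc] using h

end Fermat.Agent.LT.T7.H228

end
end
-- ===== PACK-END LT/T7/H228/SchurAbs.lean

-- ===== PACK-BEGIN LT/T7/H627/UnfoldCutAbs.lean
section


/-!
# Row LT, tower T7, leaf C2.1 `UnfoldC305`: the abstract part (helper627, Mathlib only)

OFF-MAIN.

* `lintegral_cut627` : Tonelli on `G × T` + left invariance of `μ`:
  `∫⁻_F g(x) (∫⁻_T β(j t x) dμT) dμ = ∫⁻_G g β · μT{t : (j t)⁻¹ y ∈ F} dμ` for `g` left invariant
  under `j(T)`.
* `measure_eq_of_strict627` : two strict fundamental domains of a countable subgroup have the same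
  measure.
* `integral_eq_of_parts627` : a complex Bochner integral is determined by the four lower integrals
  of the positive / negative parts of the real / imaginary part (no integrability hypothesis).
-/

set_option autoImplicit false
set_option linter.unusedSectionVars false
set_option linter.style.haveILetI false

open MeasureTheory Set
open scoped ENNReal

noncomputable section

namespace Fermat.Agent.LT.T7.H627

section Tonelli

variable {G : Type*} [Group G] [MeasurableSpace G] [MeasurableMul₂ G] [MeasurableInv G]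
  {T : Type*} [MeasurableSpace T]

theorem lintegral_cut627 (μ : Measure G) [μ.IsMulLeftInvariant] [SFinite μ]
    (μT : Measure T) [SFinite μT] (j : T → G) (hj : Measurable j)
    {F : Set G} (hF : MeasurableSet F) {g β : G → ℝ≥0∞} (hg : Measurable g) (hβ : Measurable β)
    (hinv : ∀ (t : T) (x : G), g (j t * x) = g x) :
    ∫⁻ x in F, g x * (∫⁻ t, β (j t * x) ∂μT) ∂μ
      = ∫⁻ y, g y * β y * μT {t : T | (j t)⁻¹ * y ∈ F} ∂μ := by
  have h1 : Measurable fun z : G × T => F.indicator (fun _ => (1 : ℝ≥0∞)) z.1 * g z.1 *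
      β (j z.2 * z.1) := by
    refine (((measurable_const.indicator hF).comp measurable_fst).mul
      (hg.comp measurable_fst)).mul (hβ.comp ?_)
    exact (hj.comp measurable_snd).mul measurable_fst
  have h2 : Measurable fun z : T × G => F.indicator (fun _ => (1 : ℝ≥0∞)) ((j z.1)⁻¹ * z.2) *
      g z.2 * β z.2 := by
    refine (((measurable_const.indicator hF).comp ?_).mul
      (hg.comp measurable_snd)).mul (hβ.comp measurable_snd)
    exact ((hj.comp measurable_fst).inv).mul measurable_snd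
  calc ∫⁻ x in F, g x * (∫⁻ t, β (j t * x) ∂μT) ∂μ
      = ∫⁻ x, ∫⁻ t, F.indicator (fun _ => (1 : ℝ≥0∞)) x * g x * β (j t * x) ∂μT ∂μ := by
        rw [← lintegral_indicator hF]
        refine lintegral_congr fun x => ?_
        have hm : Measurable fun t : T => β (j t * x) := hβ.comp (hj.mul measurable_const)
        by_cases hx : x ∈ F
        · simp only [indicator_of_mem hx, one_mul]
          exact (lintegral_const_mul _ hm).symm
        · simp only [indicator_of_notMem hx, zero_mul, lintegral_zero]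
    _ = ∫⁻ t, ∫⁻ x, F.indicator (fun _ => (1 : ℝ≥0∞)) x * g x * β (j t * x) ∂μ ∂μT :=
        lintegral_lintegral_swap h1.aemeasurable
    _ = ∫⁻ t, ∫⁻ y, F.indicator (fun _ => (1 : ℝ≥0∞)) ((j t)⁻¹ * y) * g y * β y ∂μ ∂μT := by
        refine lintegral_congr fun t => ?_
        rw [← lintegral_mul_left_eq_self (μ := μ)
          (fun x => F.indicator (fun _ => (1 : ℝ≥0∞)) x * g x * β (j t * x)) (j t)⁻¹]
        refine lintegral_congr fun y => ?_
        have e1 : j t * ((j t)⁻¹ * y) = y := mul_inv_cancel_left _ _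
        have e2 : g ((j t)⁻¹ * y) = g y := by
          have := hinv t ((j t)⁻¹ * y)
          rw [e1] at this
          exact this.symm
        simp only [e1, e2]
    _ = ∫⁻ y, ∫⁻ t, F.indicator (fun _ => (1 : ℝ≥0∞)) ((j t)⁻¹ * y) * g y * β y ∂μT ∂μ :=
        lintegral_lintegral_swap h2.aemeasurable
    _ = ∫⁻ y, g y * β y * μT {t : T | (j t)⁻¹ * y ∈ F} ∂μ := by
        refine lintegral_congr fun y => ?_
        have hset : MeasurableSet {t : T | (j t)⁻¹ * y ∈ F} :=
          (hj.inv.mul measurable_const) hF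
        have e : ∀ t, F.indicator (fun _ => (1 : ℝ≥0∞)) ((j t)⁻¹ * y) * g y * β y
            = (g y * β y) * {t : T | (j t)⁻¹ * y ∈ F}.indicator (fun _ => (1 : ℝ≥0∞)) t := by
          intro t
          by_cases ht : (j t)⁻¹ * y ∈ F
          · have ht' : t ∈ {t : T | (j t)⁻¹ * y ∈ F} := ht
            simp [ht, ht']
          · have ht' : t ∉ {t : T | (j t)⁻¹ * y ∈ F} := ht
            simp [ht, ht']
        simp_rw [e]
        rw [lintegral_const_mul _ (measurable_const.indicator hset),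
          lintegral_indicator hset]
        simp

end Tonelli

section Fund

theorem measure_eq_of_strict627 {T : Type*} [Group T] [MeasurableSpace T] [MeasurableMul T]
    (μT : Measure T) [μT.IsMulLeftInvariant] (Γ : Subgroup T) [Countable Γ]
    {E₁ E₂ : Set T} (h₁m : MeasurableSet E₁) (h₂m : MeasurableSet E₂)
    (h₁ : ∀ t : T, ∃! γ : Γ, (γ : T) * t ∈ E₁) (h₂ : ∀ t : T, ∃! γ : Γ, (γ : T) * t ∈ E₂) :
    μT E₁ = μT E₂ :=
  (IsFundamentalDomain.mk' (G := Γ) h₁m.nullMeasurableSet h₁).measure_eq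
    (IsFundamentalDomain.mk' (G := Γ) h₂m.nullMeasurableSet h₂)

end Fund

section Parts

variable {X : Type*} [MeasurableSpace X]

theorem integrable_iff_parts627 (m : Measure X) {f : X → ℝ} (hf : Measurable f) :
    Integrable f m ↔
      (∫⁻ x, ENNReal.ofReal (f x) ∂m ≠ ⊤ ∧ ∫⁻ x, ENNReal.ofReal (-f x) ∂m ≠ ⊤) := by
  have hsum : ∫⁻ x, ‖f x‖ₑ ∂m
      = ∫⁻ x, ENNReal.ofReal (f x) ∂m + ∫⁻ x, ENNReal.ofReal (-f x) ∂m := by
    have hm1 : Measurable fun x => ENNReal.ofReal (f x) := ENNReal.measurable_ofReal.comp hf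
    rw [← lintegral_add_left hm1]
    refine lintegral_congr fun x => ?_
    rw [Real.enorm_eq_ofReal_abs]
    rcases le_total 0 (f x) with h | h
    · rw [abs_of_nonneg h, ENNReal.ofReal_of_nonpos (neg_nonpos.mpr h), add_zero]
    · rw [abs_of_nonpos h, ENNReal.ofReal_of_nonpos h, zero_add]
  constructor
  · intro h
    have h' : ∫⁻ x, ‖f x‖ₑ ∂m < ⊤ := h.hasFiniteIntegral
    rw [hsum] at h'
    exact ⟨(ENNReal.add_lt_top.mp h').1.ne, (ENNReal.add_lt_top.mp h').2.ne⟩
  · rintro ⟨h1, h2⟩
    refine ⟨hf.aestronglyMeasurable, ?_⟩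
    show ∫⁻ x, ‖f x‖ₑ ∂m < ⊤
    rw [hsum]
    exact ENNReal.add_lt_top.mpr ⟨h1.lt_top, h2.lt_top⟩

/-- The four parts are finite. -/
def PartsFin627 (m : Measure X) (h : X → ℂ) : Prop :=
  (∫⁻ x, ENNReal.ofReal (h x).re ∂m ≠ ⊤ ∧ ∫⁻ x, ENNReal.ofReal (-(h x).re) ∂m ≠ ⊤) ∧
    (∫⁻ x, ENNReal.ofReal (h x).im ∂m ≠ ⊤ ∧ ∫⁻ x, ENNReal.ofReal (-(h x).im) ∂m ≠ ⊤)

theorem integrable_iff_partsFin627 (m : Measure X) {h : X → ℂ} (hh : Measurable h) :
    Integrable h m ↔ PartsFin627 m h := by
  have hre : Measurable fun x => (h x).re := Complex.measurable_re.comp hh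
  have him : Measurable fun x => (h x).im := Complex.measurable_im.comp hh
  rw [← Integrable.re_im_iff (f := h)]
  exact and_congr (integrable_iff_parts627 m hre) (integrable_iff_parts627 m him)

theorem integral_eq_parts627 (m : Measure X) {h : X → ℂ} (hh : Measurable h)
    (hfin : PartsFin627 m h) :
    ∫ x, h x ∂m
      = (((∫⁻ x, ENNReal.ofReal (h x).re ∂m).toReal
          - (∫⁻ x, ENNReal.ofReal (-(h x).re) ∂m).toReal : ℝ) : ℂ)
        + (((∫⁻ x, ENNReal.ofReal (h x).im ∂m).toReal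
          - (∫⁻ x, ENNReal.ofReal (-(h x).im) ∂m).toReal : ℝ) : ℂ) * Complex.I := by
  have hint : Integrable h m := (integrable_iff_partsFin627 m hh).mpr hfin
  have hr : Integrable (fun x => (h x).re) m := hint.re
  have hi : Integrable (fun x => (h x).im) m := hint.im
  rw [← integral_re_add_im hint]
  have e1 := integral_eq_lintegral_pos_part_sub_lintegral_neg_part hr
  have e2 := integral_eq_lintegral_pos_part_sub_lintegral_neg_part hi
  simp only [RCLike.re_to_complex, RCLike.im_to_complex, RCLike.I_to_complex] at *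
  rw [e1, e2]
  rfl

theorem integral_eq_zero_of_not_partsFin627 (m : Measure X) {h : X → ℂ} (hh : Measurable h)
    (hfin : ¬ PartsFin627 m h) : ∫ x, h x ∂m = 0 :=
  integral_undef fun hint => hfin ((integrable_iff_partsFin627 m hh).mp hint)

/-- **A complex Bochner integral is determined by the four lower integrals.** -/
theorem integral_eq_of_parts627 (m₁ m₂ : Measure X) (c : ℝ≥0∞) {h₁ h₂ : X → ℂ}
    (hm₁ : Measurable h₁) (hm₂ : Measurable h₂)
    (e1 : ∫⁻ x, ENNReal.ofReal (h₁ x).re ∂m₁ = c * ∫⁻ x, ENNReal.ofReal (h₂ x).re ∂m₂)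
    (e2 : ∫⁻ x, ENNReal.ofReal (-(h₁ x).re) ∂m₁ = c * ∫⁻ x, ENNReal.ofReal (-(h₂ x).re) ∂m₂)
    (e3 : ∫⁻ x, ENNReal.ofReal (h₁ x).im ∂m₁ = c * ∫⁻ x, ENNReal.ofReal (h₂ x).im ∂m₂)
    (e4 : ∫⁻ x, ENNReal.ofReal (-(h₁ x).im) ∂m₁ = c * ∫⁻ x, ENNReal.ofReal (-(h₂ x).im) ∂m₂) :
    ∫ x, h₁ x ∂m₁ = ((c.toReal : ℝ) : ℂ) * ∫ x, h₂ x ∂m₂ := by
  by_cases hc : c = 0 ∨ c = ⊤
  · -- the right side vanishes
    have hc' : c.toReal = 0 := by
      rcases hc with h | h
      · rw [h]; rfl
      · rw [h]; rfl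
    rw [hc', Complex.ofReal_zero, zero_mul]
    -- every part on the left is `0` or `⊤`
    have key : ∀ a : ℝ≥0∞, c * a ≠ ⊤ → c * a = 0 := by
      intro a ha
      rcases hc with h | h
      · rw [h, zero_mul]
      · by_cases ha0 : a = 0
        · rw [ha0, mul_zero]
        · exact absurd (by rw [h]; exact ENNReal.top_mul ha0) ha
    by_cases hfin : PartsFin627 m₁ h₁
    · rw [integral_eq_parts627 m₁ hm₁ hfin]
      obtain ⟨⟨f1, f2⟩, f3, f4⟩ := hfin
      rw [e1] at f1 ⊢
      rw [e2] at f2 ⊢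
      rw [e3] at f3 ⊢
      rw [e4] at f4 ⊢
      rw [key _ f1, key _ f2, key _ f3, key _ f4]
      simp
    · exact integral_eq_zero_of_not_partsFin627 m₁ hm₁ hfin
  · have hc0 : c ≠ 0 := fun h => hc (Or.inl h)
    have hct : c ≠ ⊤ := fun h => hc (Or.inr h)
    have key : ∀ a : ℝ≥0∞, c * a ≠ ⊤ ↔ a ≠ ⊤ := by
      intro a
      constructor
      · intro h ha
        apply h
        rw [ha]
        exact ENNReal.mul_top hc0
      · intro ha
        exact ENNReal.mul_ne_top hct ha
    have hiff : PartsFin627 m₁ h₁ ↔ PartsFin627 m₂ h₂ := by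
      unfold PartsFin627
      rw [e1, e2, e3, e4, key, key, key, key]
    by_cases hfin : PartsFin627 m₂ h₂
    · rw [integral_eq_parts627 m₁ hm₁ (hiff.mpr hfin), integral_eq_parts627 m₂ hm₂ hfin,
        e1, e2, e3, e4]
      simp only [ENNReal.toReal_mul]
      push_cast
      ring
    · rw [integral_eq_zero_of_not_partsFin627 m₂ hm₂ hfin,
        integral_eq_zero_of_not_partsFin627 m₁ hm₁ (fun h => hfin (hiff.mp h)), mul_zero]

end Parts

end Fermat.Agent.LT.T7.H627

end

end
-- ===== PACK-END LT/T7/H627/UnfoldCutAbs.lean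

-- ===== PACK-BEGIN LT/T7/H584/Cutoff.lean
section


/-!
# Row LT, tower T7, geometric half of the comparison (helper584): EXISTENCE OF CUT-OFF FUNCTIONS

OFF-MAIN.  Mathlib only.

`G` a locally compact, `σ`-compact Hausdorff group, `T` a CLOSED subgroup with a right invariant
measure `μT` (finite on compact sets, positive on non-empty open sets; e.g. a Haar measure of a
unimodular `T`).  Then there is a CONTINUOUS `β ≥ 0` on `G` with

    ∫_T β(t x) dμT(t) = 1     for every `x ∈ G`

(`exists_cutoff584`; a Bruhat function of `T \ G`).  This is the cut-off function of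
`T6.OrbSumIntC` (local twisted centralisers) and of `twTerm_unfold_frame584` (adelic twisted
centralisers): both statements are quantified over ALL cut-off functions, this file shows that
there is one.

Construction: `h = ∑ c_n f_n > 0` with `f_n ∈ C_c(G)`, `0 ≤ f_n ≤ 1`, `f_n = 1` on the `n`-th
set of a compact exhaustion, `c_n > 0` so small that `c_n ∫_T f_n(t x) dt ≤ 2^{-n}` uniformly in
`x`; `H(x) = ∫_T h(t x) dt` is continuous, positive and left `T`-invariant; `β = h / H`.
-/

set_option autoImplicit false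
set_option linter.style.haveILetI false
set_option linter.unusedSectionVars false

open MeasureTheory Set Topology
open scoped ENNReal Pointwise

noncomputable section

namespace Fermat.Agent.LT.T7.H584

section Cutoff

variable {G : Type*} [Group G] [TopologicalSpace G] [IsTopologicalGroup G]

/-- The orbital average `x ↦ ∫_T f(t x) dμT(t)`. -/
def orbInt584 (T : Subgroup G) [MeasurableSpace T] (μT : Measure T) (f : G → ℝ) (x : G) : ℝ :=
  ∫ t : T, f ((t : G) * x) ∂μT

theorem isCompact_coe_preimage584 (T : Subgroup G) (hT : IsClosed (T : Set G)) {C : Set G}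
    (hC : IsCompact C) : IsCompact ((fun t : T => (t : G)) ⁻¹' C) :=
  (hT.isClosedEmbedding_subtypeVal).isCompact_preimage hC

theorem section_eq_zero584 (T : Subgroup G) (f : G → ℝ) (W : Set G) {x : G} (hx : x ∈ W)
    {t : T} (ht : t ∉ (fun t : T => (t : G)) ⁻¹' (tsupport f * W⁻¹)) : f ((t : G) * x) = 0 := by
  by_contra hne
  apply ht
  have h1 : (t : G) * x ∈ tsupport f := subset_tsupport f hne
  have h2 : (t : G) = (t : G) * x * x⁻¹ := by group
  show (t : G) ∈ tsupport f * W⁻¹
  rw [h2]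
  exact Set.mul_mem_mul h1 (Set.inv_mem_inv.mpr hx)

variable [LocallyCompactSpace G] [T2Space G]

theorem hasCompactSupport_section584 (T : Subgroup G) (hT : IsClosed (T : Set G)) (f : G → ℝ)
    (hfc : HasCompactSupport f) (x : G) :
    HasCompactSupport fun t : T => f ((t : G) * x) := by
  have hk : IsCompact ((fun t : T => (t : G)) ⁻¹' (tsupport f * ({x} : Set G)⁻¹)) :=
    isCompact_coe_preimage584 T hT (hfc.isCompact.mul isCompact_singleton.inv)
  refine HasCompactSupport.intro hk fun t ht => ?_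
  exact section_eq_zero584 T f {x} (mem_singleton x) ht

variable (T : Subgroup G) [MeasurableSpace T] [BorelSpace T] (μT : Measure T)
  [IsFiniteMeasureOnCompacts μT]

theorem continuous_orbInt584 (hT : IsClosed (T : Set G)) (f : G → ℝ) (hf : Continuous f)
    (hfc : HasCompactSupport f) : Continuous (orbInt584 T μT f) := by
  rw [continuous_iff_continuousAt]
  intro x₀
  obtain ⟨W, hWc, hWn⟩ := exists_compact_mem_nhds x₀
  have hk : IsCompact ((fun t : T => (t : G)) ⁻¹' (tsupport f * W⁻¹)) :=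
    isCompact_coe_preimage584 T hT (hfc.isCompact.mul hWc.inv)
  have hcont : Continuous (Function.uncurry fun (x : G) (t : T) => f ((t : G) * x)) := by
    have : Continuous fun p : G × T => ((p.2 : T) : G) * p.1 :=
      (continuous_subtype_val.comp continuous_snd).mul continuous_fst
    exact hf.comp this
  have hco : ContinuousOn (fun x : G => ∫ t : T, f ((t : G) * x) ∂μT) W :=
    continuousOn_integral_of_compact_support (μ := μT)
      (f := fun (x : G) (t : T) => f ((t : G) * x)) (s := W) hk hcont.continuousOn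
      (fun p t hp ht => section_eq_zero584 T f W hp ht)
  exact hco.continuousAt hWn

variable [μT.IsMulRightInvariant]

theorem orbInt_mul584 (f : G → ℝ) (t' : T) (x : G) :
    orbInt584 T μT f ((t' : G) * x) = orbInt584 T μT f x := by
  unfold orbInt584
  have h := integral_mul_right_eq_self (μ := μT) (fun t : T => f ((t : G) * x)) t'
  rw [← h]
  refine integral_congr_ae (Filter.Eventually.of_forall fun t => ?_)
  simp only [Subgroup.coe_mul, mul_assoc]

theorem orbInt_nonneg584 (f : G → ℝ) (hf0 : ∀ x, 0 ≤ f x) (x : G) : 0 ≤ orbInt584 T μT f x :=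
  integral_nonneg fun _ => hf0 _

/-- Uniform bound of the orbital average of a function with values in `[0,1]` supported in
`C`. -/
theorem orbInt_le584 (f : G → ℝ) (hf1 : ∀ x, f x ≤ 1) (C : Set G)
    (hC : ∀ x, f x ≠ 0 → x ∈ C) (hfin : μT ((fun t : T => (t : G)) ⁻¹' (C * C⁻¹)) ≠ ⊤) (x : G) :
    orbInt584 T μT f x ≤ (μT ((fun t : T => (t : G)) ⁻¹' (C * C⁻¹))).toReal := by
  set E : Set T := {t : T | (t : G) * x ∈ C} with hE
  have h1 : ENNReal.ofReal (orbInt584 T μT f x) ≤ μT E := by
    refine integral_le_measure (fun t _ => hf1 _) (fun t ht => ?_)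
    have : f ((t : G) * x) = 0 := by
      by_contra hne
      exact ht (hC _ hne)
    rw [this]
  have h2 : μT E ≤ μT ((fun t : T => (t : G)) ⁻¹' (C * C⁻¹)) := by
    by_cases hne : E.Nonempty
    · obtain ⟨t₀, ht₀⟩ := hne
      have hsub : E ⊆ (fun t : T => t * t₀⁻¹) ⁻¹' ((fun t : T => (t : G)) ⁻¹' (C * C⁻¹)) := by
        intro t ht
        show ((t * t₀⁻¹ : T) : G) ∈ C * C⁻¹
        have e : ((t * t₀⁻¹ : T) : G) = ((t : G) * x) * ((t₀ : G) * x)⁻¹ := by
          rw [Subgroup.coe_mul, Subgroup.coe_inv]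
          group
        rw [e]
        exact Set.mul_mem_mul ht (Set.inv_mem_inv.mpr ht₀)
      calc μT E ≤ μT ((fun t : T => t * t₀⁻¹) ⁻¹' ((fun t : T => (t : G)) ⁻¹' (C * C⁻¹))) :=
            measure_mono hsub
        _ = μT ((fun t : T => (t : G)) ⁻¹' (C * C⁻¹)) := measure_preimage_mul_right μT _ _
    · rw [Set.not_nonempty_iff_eq_empty.mp hne, measure_empty]
      exact zero_le
  have h3 := (ENNReal.ofReal_le_iff_le_toReal hfin).mp (h1.trans h2)
  exact h3

variable [μT.IsOpenPosMeasure] [SigmaCompactSpace G]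

/-- **EXISTENCE OF A CUT-OFF FUNCTION** (Bruhat function of `T \ G`). -/
theorem exists_cutoff584 (hT : IsClosed (T : Set G)) :
    ∃ β : G → ℝ, Continuous β ∧ (∀ x, 0 ≤ β x) ∧
      (∀ x : G, Integrable (fun t : T => β ((t : G) * x)) μT) ∧
      ∀ x : G, ∫ t : T, β ((t : G) * x) ∂μT = 1 := by
  classical
  -- the compact exhaustion and the Urysohn functions
  let Kc : CompactExhaustion G := CompactExhaustion.choice G
  have hU : ∀ n : ℕ, ∃ f : C(G, ℝ), EqOn f 1 (Kc n) ∧ EqOn f 0 (interior (Kc (n + 1)))ᶜ ∧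
      HasCompactSupport f ∧ ∀ x, f x ∈ Icc (0 : ℝ) 1 := fun n =>
    exists_continuous_one_zero_of_isCompact (Kc.isCompact n) isOpen_interior.isClosed_compl
      (disjoint_compl_right_iff_subset.mpr (Kc.subset_interior_succ n))
  choose f hf1 hf0 hfc hfI using hU
  have hfsupp : ∀ n x, f n x ≠ 0 → x ∈ Kc (n + 1) := by
    intro n x hx
    by_contra hxK
    apply hx
    have : x ∈ (interior (Kc (n + 1)))ᶜ := fun h => hxK (interior_subset h)
    simpa using hf0 n this
  -- the bounds
  set A : ℕ → Set T := fun n => (fun t : T => (t : G)) ⁻¹' (Kc (n + 1) * (Kc (n + 1))⁻¹) with hA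
  have hAc : ∀ n, IsCompact (A n) := fun n =>
    isCompact_coe_preimage584 T hT ((Kc.isCompact (n + 1)).mul (Kc.isCompact (n + 1)).inv)
  have hAfin : ∀ n, μT (A n) ≠ ⊤ := fun n => (hAc n).measure_ne_top
  set m : ℕ → ℝ := fun n => (μT (A n)).toReal with hm
  have hm0 : ∀ n, 0 ≤ m n := fun n => ENNReal.toReal_nonneg
  set c : ℕ → ℝ := fun n => (1 / 2 : ℝ) ^ n / (1 + m n) with hc
  have hcpos : ∀ n, 0 < c n := fun n => div_pos (by positivity) (by linarith [hm0 n])
  have hcle : ∀ n, c n ≤ (1 / 2 : ℝ) ^ n := by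
    intro n
    rw [hc]
    exact div_le_self (by positivity) (by linarith [hm0 n])
  have hcm : ∀ n, c n * m n ≤ (1 / 2 : ℝ) ^ n := by
    intro n
    rw [hc]
    simp only
    rw [div_mul_eq_mul_div, div_le_iff₀ (by linarith [hm0 n])]
    have : (0 : ℝ) ≤ (1 / 2 : ℝ) ^ n := by positivity
    nlinarith [hm0 n]
  have hgeo : Summable fun n : ℕ => (1 / 2 : ℝ) ^ n :=
    summable_geometric_of_lt_one (by norm_num) (by norm_num)
  have hfn0 : ∀ n x, 0 ≤ f n x := fun n x => (hfI n x).1
  have hfn1 : ∀ n x, f n x ≤ 1 := fun n x => (hfI n x).2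
  -- the orbital averages of the `f n`
  set Hn : ℕ → G → ℝ := fun n => orbInt584 T μT (f n) with hHn
  have hHn0 : ∀ n x, 0 ≤ Hn n x := fun n x => orbInt_nonneg584 T μT (f n) (hfn0 n) x
  have hHnle : ∀ n x, Hn n x ≤ m n := fun n x =>
    orbInt_le584 T μT (f n) (hfn1 n) (Kc (n + 1)) (hfsupp n) (hAfin n) x
  have hHnc : ∀ n, Continuous (Hn n) := fun n =>
    continuous_orbInt584 T μT hT (f n) (f n).continuous (hfc n)
  -- the positive function `h` and its orbital average `H`
  set h : G → ℝ := fun x => ∑' n, c n * f n x with hh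
  have hsum_h : ∀ x, Summable fun n => c n * f n x := by
    intro x
    refine Summable.of_nonneg_of_le (fun n => mul_nonneg (hcpos n).le (hfn0 n x)) (fun n => ?_) hgeo
    calc c n * f n x ≤ c n * 1 := mul_le_mul_of_nonneg_left (hfn1 n x) (hcpos n).le
      _ ≤ (1 / 2 : ℝ) ^ n := by rw [mul_one]; exact hcle n
  have hh_cont : Continuous h := by
    refine continuous_tsum (fun n => continuous_const.mul (f n).continuous) hgeo (fun n x => ?_)
    rw [Real.norm_of_nonneg (mul_nonneg (hcpos n).le (hfn0 n x))]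
    calc c n * f n x ≤ c n * 1 := mul_le_mul_of_nonneg_left (hfn1 n x) (hcpos n).le
      _ ≤ (1 / 2 : ℝ) ^ n := by rw [mul_one]; exact hcle n
  have hh0 : ∀ x, 0 ≤ h x := fun x => tsum_nonneg fun n => mul_nonneg (hcpos n).le (hfn0 n x)
  set H : G → ℝ := fun x => ∑' n, c n * Hn n x with hH
  have hsum_H : ∀ x, Summable fun n => c n * Hn n x := by
    intro x
    refine Summable.of_nonneg_of_le (fun n => mul_nonneg (hcpos n).le (hHn0 n x)) (fun n => ?_) hgeo
    calc c n * Hn n x ≤ c n * m n := mul_le_mul_of_nonneg_left (hHnle n x) (hcpos n).le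
      _ ≤ (1 / 2 : ℝ) ^ n := hcm n
  have hH_cont : Continuous H := by
    refine continuous_tsum (fun n => continuous_const.mul (hHnc n)) hgeo (fun n x => ?_)
    rw [Real.norm_of_nonneg (mul_nonneg (hcpos n).le (hHn0 n x))]
    calc c n * Hn n x ≤ c n * m n := mul_le_mul_of_nonneg_left (hHnle n x) (hcpos n).le
      _ ≤ (1 / 2 : ℝ) ^ n := hcm n
  -- integrability of the sections
  have hint_n : ∀ n x, Integrable (fun t : T => c n * f n ((t : G) * x)) μT := by
    intro n x
    refine Integrable.const_mul ?_ _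
    have hcs := hasCompactSupport_section584 T hT (f n) (hfc n) x
    have hcont : Continuous fun t : T => f n ((t : G) * x) :=
      (f n).continuous.comp (continuous_subtype_val.mul continuous_const)
    exact hcont.integrable_of_hasCompactSupport hcs
  have hnorm_n : ∀ n x, ∫ t : T, ‖c n * f n ((t : G) * x)‖ ∂μT = c n * Hn n x := by
    intro n x
    have e : ∀ t : T, ‖c n * f n ((t : G) * x)‖ = c n * f n ((t : G) * x) := fun t =>
      Real.norm_of_nonneg (mul_nonneg (hcpos n).le (hfn0 n _))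
    simp only [e]
    rw [integral_const_mul]
    rfl
  -- `H` is the orbital average of `h`
  have hHh : ∀ x, HasSum (fun n => ∫ t : T, c n * f n ((t : G) * x) ∂μT)
      (∫ t : T, h ((t : G) * x) ∂μT) := by
    intro x
    have hs : Summable fun n => ∫ t : T, ‖c n * f n ((t : G) * x)‖ ∂μT := by
      simp only [hnorm_n]
      exact hsum_H x
    exact hasSum_integral_of_summable_integral_norm (hint_n · x) hs
  have hHeq : ∀ x, ∫ t : T, h ((t : G) * x) ∂μT = H x := by
    intro x
    rw [← (hHh x).tsum_eq]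
    refine tsum_congr fun n => ?_
    rw [integral_const_mul]
    rfl
  -- positivity of `H`
  have hHpos : ∀ x, 0 < H x := by
    intro x
    obtain ⟨n, hn⟩ : ∃ n, x ∈ Kc n := by
      have := Kc.iUnion_eq ▸ mem_univ x
      simpa using this
    have hpos : 0 < Hn n x := by
      have hcs := hasCompactSupport_section584 T hT (f n) (hfc n) x
      have hcont : Continuous fun t : T => f n ((t : G) * x) :=
        (f n).continuous.comp (continuous_subtype_val.mul continuous_const)
      refine hcont.integral_pos_of_hasCompactSupport_nonneg_nonzero hcs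
        (fun t => hfn0 n _) (x := (1 : T)) ?_
      have : f n x = 1 := by simpa using hf1 n hn
      simp [this]
    calc 0 < c n * Hn n x := mul_pos (hcpos n) hpos
      _ ≤ H x := (hsum_H x).le_tsum n (fun j _ => mul_nonneg (hcpos j).le (hHn0 j x))
  have hh_int : ∀ x, Integrable (fun t : T => h ((t : G) * x)) μT := by
    intro x
    by_contra hni
    have h0 := integral_undef hni
    have h1 := hHeq x
    have h2 := hHpos x
    rw [h0] at h1
    linarith
  -- invariance of `H`
  have hHinv : ∀ (t' : T) (x : G), H ((t' : G) * x) = H x := by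
    intro t' x
    simp only [hH, hHn, orbInt_mul584]
  -- the cut-off function
  refine ⟨fun x => h x / H x, hh_cont.div hH_cont (fun x => (hHpos x).ne'),
    fun x => div_nonneg (hh0 x) (hHpos x).le, fun x => ?_, fun x => ?_⟩
  · have : (fun t : T => h ((t : G) * x) / H ((t : G) * x))
        = fun t : T => h ((t : G) * x) / H x := by
      funext t
      rw [hHinv]
    rw [this]
    exact (hh_int x).div_const _
  · have : (fun t : T => h ((t : G) * x) / H ((t : G) * x))
        = fun t : T => h ((t : G) * x) / H x := by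
      funext t
      rw [hHinv]
    rw [this, integral_div, hHeq]
    exact div_self (hHpos x).ne'

/-- The cut-off function in the `ℝ≥0∞`-form used by `integral_unfold_cut584`. -/
theorem exists_cutoff_lintegral584 (hT : IsClosed (T : Set G)) :
    ∃ β : G → ℝ, Continuous β ∧ (∀ x, 0 ≤ β x) ∧
      (∀ x : G, Integrable (fun t : T => β ((t : G) * x)) μT) ∧
      (∀ x : G, ∫ t : T, β ((t : G) * x) ∂μT = 1) ∧
      ∀ x : G, ∫⁻ t : T, ENNReal.ofReal (β ((t : G) * x)) ∂μT = 1 := by
  obtain ⟨β, hβc, hβ0, hβi, hβ1⟩ := exists_cutoff584 T μT hT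
  refine ⟨β, hβc, hβ0, hβi, hβ1, fun x => ?_⟩
  rw [← ofReal_integral_eq_lintegral_ofReal (hβi x)
    (Filter.Eventually.of_forall fun t => hβ0 _), hβ1 x, ENNReal.ofReal_one]

end Cutoff

end Fermat.Agent.LT.T7.H584

end

end
-- ===== PACK-END LT/T7/H584/Cutoff.lean

-- ===== PACK-BEGIN LT/T7/H787/TorAlg.lean
section


/-!
# Row LT, tower T7, leaf T7.L2.1.C2.5b `TorMeasC305` (owner helper787): algebra — OFF-MAIN

Mathlib only.

* `comm_of_comm787`: over a commutative ring, two `2 × 2` matrices which commute with a matrix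
  `Γ` whose lower left entry is a unit commute (the centraliser of `Γ` is `A + A Γ`);
* `lower_left_ne_zero787`: a `2 × 2` matrix over a field without eigenvalue in the field has a
  non-zero lower left entry;
* `gl_map_injective787`, `gl_of_fixed787`: descent of invertible matrices along an injective ring
  homomorphism.
-/

set_option autoImplicit false

namespace Fermat.Agent.LT.T7.H787

open Matrix

section Cent

variable {A : Type*} [CommRing A]

theorem mul_apply_two787 (x y : Matrix (Fin 2) (Fin 2) A) (i j : Fin 2) :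
    (x * y) i j = x i 0 * y 0 j + x i 1 * y 1 j := by
  rw [Matrix.mul_apply, Fin.sum_univ_two]

/-- Two matrices commuting with `Γ` commute, if the lower left entry of `Γ` is a unit. -/
theorem comm_of_comm787 (Γ x y : Matrix (Fin 2) (Fin 2) A) (hu : IsUnit (Γ 1 0))
    (hx : x * Γ = Γ * x) (hy : y * Γ = Γ * y) : x * y = y * x := by
  obtain ⟨u, hu⟩ := hu
  have hv : Γ 1 0 * (↑u⁻¹ : A) = 1 := by rw [← hu]; exact u.mul_inv
  have hx00 := congrFun (congrFun hx 0) 0
  have hx10 := congrFun (congrFun hx 1) 0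
  have hy00 := congrFun (congrFun hy 0) 0
  have hy10 := congrFun (congrFun hy 1) 0
  rw [mul_apply_two787, mul_apply_two787] at hx00 hx10 hy00 hy10
  have ex01 : x 0 1 = (↑u⁻¹ : A) * Γ 0 1 * x 1 0 := by
    linear_combination (↑u⁻¹ : A) * hx00 - x 0 1 * hv
  have ex00 : x 0 0 = x 1 1 + (↑u⁻¹ : A) * (Γ 0 0 - Γ 1 1) * x 1 0 := by
    linear_combination (-(↑u⁻¹ : A)) * hx10 - (x 0 0 - x 1 1) * hv
  have ey01 : y 0 1 = (↑u⁻¹ : A) * Γ 0 1 * y 1 0 := by
    linear_combination (↑u⁻¹ : A) * hy00 - y 0 1 * hv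
  have ey00 : y 0 0 = y 1 1 + (↑u⁻¹ : A) * (Γ 0 0 - Γ 1 1) * y 1 0 := by
    linear_combination (-(↑u⁻¹ : A)) * hy10 - (y 0 0 - y 1 1) * hv
  ext i j
  rw [mul_apply_two787, mul_apply_two787]
  fin_cases i <;> fin_cases j
  · show x 0 0 * y 0 0 + x 0 1 * y 1 0 = y 0 0 * x 0 0 + y 0 1 * x 1 0
    rw [ex01, ey01]
    ring
  · show x 0 0 * y 0 1 + x 0 1 * y 1 1 = y 0 0 * x 0 1 + y 0 1 * x 1 1
    rw [ex01, ey01, ex00, ey00]
    ring
  · show x 1 0 * y 0 0 + x 1 1 * y 1 0 = y 1 0 * x 0 0 + y 1 1 * x 1 0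
    rw [ex00, ey00]
    ring
  · show x 1 0 * y 0 1 + x 1 1 * y 1 1 = y 1 0 * x 0 1 + y 1 1 * x 1 1
    rw [ex01, ey01]
    ring

/-- The same in `GL₂`. -/
theorem gl_comm_of_comm787 (Γ x y : GL (Fin 2) A)
    (hu : IsUnit ((Γ : Matrix (Fin 2) (Fin 2) A) 1 0))
    (hx : x * Γ = Γ * x) (hy : y * Γ = Γ * y) : x * y = y * x := by
  apply Units.ext
  have hx' : (x : Matrix (Fin 2) (Fin 2) A) * (Γ : Matrix (Fin 2) (Fin 2) A)
      = (Γ : Matrix (Fin 2) (Fin 2) A) * (x : Matrix (Fin 2) (Fin 2) A) := by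
    have := congrArg (fun g : GL (Fin 2) A => (g : Matrix (Fin 2) (Fin 2) A)) hx
    simpa using this
  have hy' : (y : Matrix (Fin 2) (Fin 2) A) * (Γ : Matrix (Fin 2) (Fin 2) A)
      = (Γ : Matrix (Fin 2) (Fin 2) A) * (y : Matrix (Fin 2) (Fin 2) A) := by
    have := congrArg (fun g : GL (Fin 2) A => (g : Matrix (Fin 2) (Fin 2) A)) hy
    simpa using this
  have := comm_of_comm787 _ _ _ hu hx' hy'
  simpa using this

end Cent

section Field

variable {F : Type*} [Field F]

/-- A matrix without eigenvalue in the field has a non-zero lower left entry. -/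
theorem lower_left_ne_zero787 (M : Matrix (Fin 2) (Fin 2) F)
    (h : ∀ x : F, x ^ 2 - M.trace * x + M.det ≠ 0) : M 1 0 ≠ 0 := by
  intro h0
  apply h (M 0 0)
  rw [Matrix.trace_fin_two, Matrix.det_fin_two, h0]
  ring

end Field

section Descent

variable {R S : Type*} [CommRing R] [CommRing S]

theorem gl_map_apply787 (f : R →+* S) (g : GL (Fin 2) R) (i j : Fin 2) :
    ((Matrix.GeneralLinearGroup.map f g : GL (Fin 2) S) : Matrix (Fin 2) (Fin 2) S) i j
      = f ((g : Matrix (Fin 2) (Fin 2) R) i j) := rfl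

theorem gl_map_injective787 (f : R →+* S) (hf : Function.Injective f) :
    Function.Injective (Matrix.GeneralLinearGroup.map (n := Fin 2) f) := by
  intro g g' h
  apply Units.ext
  ext i j
  apply hf
  exact congrArg (fun x : GL (Fin 2) S => (x : Matrix (Fin 2) (Fin 2) S) i j) h

/-- An invertible matrix over `S` whose entries and whose inverse determinant come from `R` comes
from an invertible matrix over `R`, if `f` is injective and its image is the set of the fixed
points of an endomorphism `τ`. -/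
theorem gl_of_fixed787 (f : R →+* S) (hf : Function.Injective f) (τ : S →+* S)
    (honto : ∀ y : S, τ y = y → ∃ x : R, f x = y)
    (x : GL (Fin 2) S) (hx : ∀ i j, τ ((x : Matrix (Fin 2) (Fin 2) S) i j)
      = (x : Matrix (Fin 2) (Fin 2) S) i j) :
    ∃ t : GL (Fin 2) R, Matrix.GeneralLinearGroup.map f t = x := by
  choose! e he using honto
  -- the matrix
  let T : Matrix (Fin 2) (Fin 2) R := fun i j => e ((x : Matrix (Fin 2) (Fin 2) S) i j)
  have hT : T.map f = (x : Matrix (Fin 2) (Fin 2) S) := by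
    ext i j
    exact he _ (hx i j)
  -- the inverse matrix has fixed entries as well
  have hxinv : ∀ i j, τ (((x⁻¹ : GL (Fin 2) S) : Matrix (Fin 2) (Fin 2) S) i j)
      = ((x⁻¹ : GL (Fin 2) S) : Matrix (Fin 2) (Fin 2) S) i j := by
    have h1 : Matrix.GeneralLinearGroup.map τ x = x := by
      apply Units.ext
      ext i j
      exact hx i j
    have h2 : Matrix.GeneralLinearGroup.map τ x⁻¹ = x⁻¹ := by
      rw [map_inv, h1]
    intro i j
    exact congrArg (fun g : GL (Fin 2) S => (g : Matrix (Fin 2) (Fin 2) S) i j) h2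
  let T' : Matrix (Fin 2) (Fin 2) R :=
    fun i j => e (((x⁻¹ : GL (Fin 2) S) : Matrix (Fin 2) (Fin 2) S) i j)
  have hT' : T'.map f = ((x⁻¹ : GL (Fin 2) S) : Matrix (Fin 2) (Fin 2) S) := by
    ext i j
    exact he _ (hxinv i j)
  have hinj : Function.Injective (fun M : Matrix (Fin 2) (Fin 2) R => M.map f) := by
    intro M N h
    ext i j
    apply hf
    exact congrFun (congrFun h i) j
  have h1 : T * T' = 1 := by
    apply hinj
    show (T * T').map f = (1 : Matrix (Fin 2) (Fin 2) R).map f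
    rw [Matrix.map_mul, hT, hT', Matrix.map_one f (map_zero f) (map_one f), ← Units.val_mul,
      mul_inv_cancel, Units.val_one]
  have h2 : T' * T = 1 := by
    apply hinj
    show (T' * T).map f = (1 : Matrix (Fin 2) (Fin 2) R).map f
    rw [Matrix.map_mul, hT, hT', Matrix.map_one f (map_zero f) (map_one f), ← Units.val_mul,
      inv_mul_cancel, Units.val_one]
  refine ⟨⟨T, T', h1, h2⟩, ?_⟩
  apply Units.ext
  ext i j
  exact he _ (hx i j)

end Descent

end Fermat.Agent.LT.T7.H787

end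
-- ===== PACK-END LT/T7/H787/TorAlg.lean

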