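import Mathlib
import Fermat.Agent.Pack.LT3.E0L2

set_option linter.all false

-- ===== PACK-BEGIN LT/T6/H769/CoreRecip.lean
section


/-!
# Row LT, T6.00q.7 `CoreC438` (helper769, OFF-MAIN): reciprocity bookkeeping

The "ternary product formula": for pairwise coprime odd `a, b, c`, signs `eB, eC` and exponents
`i, j, k`, with `A = 2^i a`, `B = eB 2^j b`, `C = eC 2^k c`,

    J(-BC | a) · J(-CA | b) · J(-AB | c) = F8(a, b, c mod 8, signs, exponents)

(`lemmaT769`), and the finite `2`-adic lemma `omega769`: the class of `c` modulo `8` can be chosen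
so that `F8 = 1`.  Mathlib only.
-/

set_option autoImplicit false

namespace Fermat.Agent.LT.T6.H769

open scoped NumberTheorySymbols

/-- `χ₄` on odd naturals. -/
def x4_769 (n : ℕ) : ℤ := if n % 4 = 1 then 1 else -1

/-- `χ₈` on odd naturals. -/
def x8_769 (n : ℕ) : ℤ := if n % 8 = 1 ∨ n % 8 = 7 then 1 else -1

/-- The reciprocity sign. -/
def rr769 (a b : ℕ) : ℤ := if a % 4 = 3 ∧ b % 4 = 3 then -1 else 1

/-- `J(e | n)` for `e = ± 1`. -/
def sg769 (e : ℤ) (n : ℕ) : ℤ := if e = 1 then 1 else x4_769 n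

theorem jac_neg_one769 {n : ℕ} (hn : n % 2 = 1) : J(-1 | n) = x4_769 n := by
  rw [jacobiSym.at_neg_one (Nat.odd_iff.mpr hn), ZMod.χ₄_nat_eq_if_mod_four, x4_769]
  simp [hn]

theorem jac_two769 {n : ℕ} (hn : n % 2 = 1) : J(2 | n) = x8_769 n := by
  rw [jacobiSym.at_two (Nat.odd_iff.mpr hn), ZMod.χ₈_nat_eq_if_mod_eight, x8_769]
  simp [hn]

theorem jac_sg769 {e : ℤ} (he : e = 1 ∨ e = -1) {n : ℕ} (hn : n % 2 = 1) :
    J(e | n) = sg769 e n := by
  rcases he with rfl | rfl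
  · simp [sg769, jacobiSym.one_left]
  · rw [jac_neg_one769 hn]
    simp [sg769]

theorem jac_rr769 {a b : ℕ} (ha : a % 2 = 1) (hb : b % 2 = 1) (h : a.Coprime b) :
    J(a | b) * J(b | a) = rr769 a b := by
  have h1 := jacobiSym.quadratic_reciprocity_if ha hb
  have h2 : J((b : ℤ) | a) ^ 2 = 1 := by
    apply jacobiSym.sq_one
    rw [Int.gcd_natCast_natCast]
    exact h.symm
  rw [← h1, rr769]
  split_ifs
  · linear_combination (-1 : ℤ) * h2
  · linear_combination h2

/-- The explicit right-hand side of the product formula. -/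
def F8_769 (a b c : ℕ) (eB eC : ℤ) (i j k : ℕ) : ℤ :=
  sg769 (-eB * eC) a * sg769 (-eC) b * sg769 (-eB) c *
    x8_769 a ^ (j + k) * x8_769 b ^ (k + i) * x8_769 c ^ (i + j) *
    rr769 a b * rr769 a c * rr769 b c

/-- **Ternary product formula.** -/
theorem lemmaT769 (a b c : ℕ) (ha : a % 2 = 1) (hb : b % 2 = 1) (hc : c % 2 = 1)
    (hab : a.Coprime b) (hac : a.Coprime c) (hbc : b.Coprime c)
    (eB eC : ℤ) (heB : eB = 1 ∨ eB = -1) (heC : eC = 1 ∨ eC = -1) (i j k : ℕ) :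
    J(-(eB * 2 ^ j * b) * (eC * 2 ^ k * c) | a) * J(-(eC * 2 ^ k * c) * (2 ^ i * a) | b) *
      J(-(2 ^ i * a) * (eB * 2 ^ j * b) | c) = F8_769 a b c eB eC i j k := by
  obtain ⟨E1, hE1, s1⟩ : ∃ E1 : ℤ, E1 = -eB * eC ∧ (E1 = 1 ∨ E1 = -1) := by
    refine ⟨_, rfl, ?_⟩
    rcases heB with rfl | rfl <;> rcases heC with rfl | rfl <;> simp
  obtain ⟨E2, hE2, s2⟩ : ∃ E2 : ℤ, E2 = -eC ∧ (E2 = 1 ∨ E2 = -1) := by
    refine ⟨_, rfl, ?_⟩
    rcases heC with rfl | rfl <;> simp
  obtain ⟨E3, hE3, s3⟩ : ∃ E3 : ℤ, E3 = -eB ∧ (E3 = 1 ∨ E3 = -1) := by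
    refine ⟨_, rfl, ?_⟩
    rcases heB with rfl | rfl <;> simp
  have e1 : -(eB * 2 ^ j * (b : ℤ)) * (eC * 2 ^ k * c) = E1 * 2 ^ (j + k) * b * c := by
    rw [hE1]
    ring
  have e2 : -(eC * 2 ^ k * (c : ℤ)) * (2 ^ i * a) = E2 * 2 ^ (k + i) * c * a := by
    rw [hE2]
    ring
  have e3 : -(2 ^ i * (a : ℤ)) * (eB * 2 ^ j * b) = E3 * 2 ^ (i + j) * a * b := by
    rw [hE3]
    ring
  rw [e1, e2, e3]
  simp only [jacobiSym.mul_left, jacobiSym.pow_left]
  rw [jac_sg769 s1 ha, jac_sg769 s2 hb, jac_sg769 s3 hc, jac_two769 ha, jac_two769 hb,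
    jac_two769 hc, F8_769, ← jac_rr769 ha hb hab, ← jac_rr769 ha hc hac, ← jac_rr769 hb hc hbc,
    ← hE1, ← hE2, ← hE3]
  ring

theorem x4_mod8_769 (n : ℕ) : x4_769 (n % 8) = x4_769 n := by
  unfold x4_769
  rw [Nat.mod_mod_of_dvd n (by norm_num : 4 ∣ 8)]

theorem x8_mod8_769 (n : ℕ) : x8_769 (n % 8) = x8_769 n := by
  unfold x8_769
  rw [Nat.mod_mod]

theorem rr_mod8_769 (a b : ℕ) : rr769 (a % 8) (b % 8) = rr769 a b := by
  unfold rr769
  rw [Nat.mod_mod_of_dvd a (by norm_num : 4 ∣ 8), Nat.mod_mod_of_dvd b (by norm_num : 4 ∣ 8)]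

theorem sg_mod8_769 (e : ℤ) (n : ℕ) : sg769 e (n % 8) = sg769 e n := by
  unfold sg769
  rw [x4_mod8_769]

theorem F8_mod8_769 (a b c : ℕ) (eB eC : ℤ) (i j k : ℕ) :
    F8_769 (a % 8) (b % 8) (c % 8) eB eC i j k = F8_769 a b c eB eC i j k := by
  unfold F8_769
  simp only [sg_mod8_769, x8_mod8_769, rr_mod8_769]

/-- Signs as booleans. -/
def sgn769 (t : Bool) : ℤ := if t then 1 else -1

/-- The finite check, as a boolean. -/
def omegaChk769 (a b c : ℕ) (tB tC : Bool) (t : ℕ) : Bool :=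
  decide (a % 2 = 1 → b % 2 = 1 → c % 2 = 1 → ¬ (tB = true ∧ tC = true) →
    (t = 3 → (tB = true → (a * b) % 8 ≠ 3) ∧ (tB = false → (a * b) % 8 ≠ 5)) →
    ∃ u < 8, u % 2 = 1 ∧
      F8_769 a b ((c * u) % 8) (sgn769 tB) (sgn769 tC)
        (if t = 1 then 1 else 0) (if t = 2 then 1 else 0) (if t = 3 then 1 else 0) = 1)

theorem omega_all769 : ∀ a < 8, ∀ b < 8, ∀ c < 8, ∀ t < 4, ∀ tB tC : Bool,
    omegaChk769 a b c tB tC t = true := by
  decide +kernel

/-- **The finite `2`-adic lemma**: the class of `q` modulo `8` can be chosen with `F8 = 1`. -/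
theorem omega769 (a b c3 : ℕ) (ha : a % 2 = 1) (hb : b % 2 = 1) (hc : c3 % 2 = 1)
    (tB tC : Bool) (hsign : ¬ (tB = true ∧ tC = true)) (t : ℕ) (ht : t < 4)
    (h2 : t = 3 → (tB = true → (a * b) % 8 ≠ 3) ∧ (tB = false → (a * b) % 8 ≠ 5)) :
    ∃ u < 8, u % 2 = 1 ∧ ∀ q : ℕ, q % 8 = u →
      F8_769 a b (c3 * q) (sgn769 tB) (sgn769 tC)
        (if t = 1 then 1 else 0) (if t = 2 then 1 else 0) (if t = 3 then 1 else 0) = 1 := by
  have h := omega_all769 (a % 8) (Nat.mod_lt _ (by norm_num)) (b % 8) (Nat.mod_lt _ (by norm_num))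
    (c3 % 8) (Nat.mod_lt _ (by norm_num)) t ht tB tC
  unfold omegaChk769 at h
  rw [decide_eq_true_eq] at h
  have e2 : ∀ n : ℕ, n % 8 % 2 = n % 2 := fun n => Nat.mod_mod_of_dvd n (by norm_num)
  have e3 : (a % 8) * (b % 8) % 8 = (a * b) % 8 := (Nat.mul_mod a b 8).symm
  rw [e2, e2, e2, e3] at h
  obtain ⟨u, hu8, hu2, hu⟩ := h ha hb hc hsign h2
  refine ⟨u, hu8, hu2, fun q hq => ?_⟩
  rw [← F8_mod8_769, Nat.mul_mod c3 q 8, hq]
  exact hu

/-- `J(-3 | p) = -1` for odd `p ≡ 2 mod 3`. -/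
theorem jac_neg_three769 {p : ℕ} (hp2 : p % 2 = 1) (hp3 : p % 3 = 2) : J(-3 | p) = -1 := by
  have h1 : (-3 : ℤ) = (-1) * ((3 : ℕ) : ℤ) := by norm_num
  have h3 : J(((p : ℕ) : ℤ) | 3) = -1 := by
    rw [jacobiSym.mod_left]
    have : ((p : ℤ) % ((3 : ℕ) : ℤ)) = 2 := by
      have : ((p % 3 : ℕ) : ℤ) = 2 := by rw [hp3]; rfl
      rw [← this]
      push_cast
      rfl
    rw [this, jac_two769 (by norm_num)]
    decide
  have h4 := jacobiSym.quadratic_reciprocity_if (a := 3) (b := p) (by norm_num) hp2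
  rw [h1, jacobiSym.mul_left, jac_neg_one769 hp2, ← h4, h3, x4_769]
  rcases Nat.odd_mod_four_iff.mp hp2 with h | h
  · simp [h]
  · simp [h]

/-- If `J(x | p) = 1` at every prime divisor of `N`, then `J(x | N) = 1`. -/
theorem jac_one_of_primes769 (x : ℤ) (N : ℕ)
    (h : ∀ p : ℕ, p.Prime → p ∣ N → J(x | p) = 1) : J(x | N) = 1 := by
  induction N using Nat.recOnPrimeCoprime with
  | zero => exact jacobiSym.zero_right x
  | prime_pow p n hp =>
    rcases Nat.eq_zero_or_pos n with rfl | hn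
    · simp [jacobiSym.one_right]
    · rw [jacobiSym.pow_right, h p hp (dvd_pow_self p hn.ne'), one_pow]
  | coprime a b ha hb _ iha ihb =>
    rw [jacobiSym.mul_right' x (by omega) (by omega),
      iha (fun p hp hpa => h p hp (hpa.mul_right b)),
      ihb (fun p hp hpb => h p hp (hpb.mul_left a)), one_mul]

end Fermat.Agent.LT.T6.H769

end
-- ===== PACK-END LT/T6/H769/CoreRecip.lean

-- ===== PACK-BEGIN LT/T6/H717/BH90Aux.lean
section


/-!
# Row LT, tower T6, leaf T6.18g2-P2 (bounded Hilbert 90), helper717: Mathlib-only tools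

OFF-MAIN.

* `exists_partition717` : GALOIS PARTITION OF UNITY.  For a field automorphism `s` with
  `s ^ m ≠ 1` (`0 < m < l`) there is a finite family `(a_j, b_j)` with
  `∑_j a_j · s^m (b_j) = δ_{m,0}` (`m < l`).  (No degree, no basis, no trace form: the product
  `∏_{0<m<l} (s^m(y_m) ⊗ 1 - 1 ⊗ y_m)` expanded.)
* `MBdd717` : entrywise bounds for `2 × 2` matrices over a field with a valuation in `ℤᵐ⁰`.
* `exists_reps717` : finitely many representatives of a ball modulo a smaller ball.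
* `exists_cramer717` : a finite family of vectors of `k²` of rank `2` lies in `g 𝒪²`, `g` = the
  pair of vectors of maximal `|det|` (Cramer's rule).
-/

set_option autoImplicit false
set_option linter.unusedSectionVars false
set_option linter.style.haveILetI false
set_option linter.unusedVariables false

open scoped Matrix

namespace Fermat.Agent.LT.T6.H717

/-! ## Galois partition of unity -/

/-- Abstract product expansion: for ring homs `τ m' : K →+* K`, elements `c m, y m` (`m ∈ F`),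
there is a finite family `(a_j, b_j)` with `∑_j a_j τ_{m'}(b_j) = ∏_{m ∈ F} (c_m - τ_{m'}(y_m))`
for all `m'`. -/
theorem exists_family_prod717 {K : Type} [CommRing K] (τ : ℕ → (K →+* K)) (c y : ℕ → K)
    (F : Finset ℕ) :
    ∃ (ι : Type) (_ : Fintype ι) (a b : ι → K), ∀ m' : ℕ,
      ∑ j, a j * τ m' (b j) = ∏ m ∈ F, (c m - τ m' (y m)) := by
  classical
  induction F using Finset.induction_on with
  | empty =>
    refine ⟨Unit, inferInstance, fun _ => 1, fun _ => 1, fun m' => ?_⟩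
    simp
  | insert m₀ F hm ih =>
    obtain ⟨ι, hι, a, b, hab⟩ := ih
    refine ⟨ι ⊕ ι, inferInstance, Sum.elim (fun j => a j * c m₀) (fun j => - a j),
      Sum.elim b (fun j => b j * y m₀), fun m' => ?_⟩
    rw [Fintype.sum_sum_type, Finset.prod_insert hm, ← hab m']
    simp only [Sum.elim_inl, Sum.elim_inr, map_mul]
    rw [sub_mul, Finset.mul_sum, Finset.mul_sum, sub_eq_add_neg, ← Finset.sum_neg_distrib]
    congr 1
    · refine Finset.sum_congr rfl (fun j _ => ?_)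
      ring
    · refine Finset.sum_congr rfl (fun j _ => ?_)
      ring

/-- **Galois partition of unity.** -/
theorem exists_partition717 {K : Type} [Field K] (s : K ≃+* K) (l : ℕ)
    (hfaith : ∀ m : ℕ, 0 < m → m < l → ∃ y : K, (s ^ m) y ≠ y) :
    ∃ (ι : Type) (_ : Fintype ι) (a b : ι → K), ∀ m : ℕ, m < l →
      ∑ j, a j * (s ^ m) (b j) = if m = 0 then 1 else 0 := by
  classical
  choose! y hy using hfaith
  set τ : ℕ → (K →+* K) := fun m => ((s ^ m : K ≃+* K) : K →+* K) with hτ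
  set c : ℕ → K := fun m => (s ^ m) (y m) with hc
  set F : Finset ℕ := (Finset.range l).filter (fun m => m ≠ 0) with hF
  obtain ⟨ι, hι, a, b, hab⟩ := exists_family_prod717 τ c y F
  set d : K := ∏ m ∈ F, (c m - y m) with hd
  have hd0 : d ≠ 0 := by
    rw [hd, Finset.prod_ne_zero_iff]
    intro m hm
    rw [hF, Finset.mem_filter, Finset.mem_range] at hm
    exact sub_ne_zero.2 (hy m (Nat.pos_of_ne_zero hm.2) hm.1)
  refine ⟨ι, hι, fun j => d⁻¹ * a j, b, fun m hm => ?_⟩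
  have h1 : ∑ j, d⁻¹ * a j * (s ^ m) (b j) = d⁻¹ * ∑ j, a j * τ m (b j) := by
    rw [Finset.mul_sum]
    refine Finset.sum_congr rfl (fun j _ => ?_)
    rw [mul_assoc]
    rfl
  rw [h1, hab m]
  by_cases hm0 : m = 0
  · subst hm0
    rw [if_pos rfl]
    have : ∏ m ∈ F, (c m - τ 0 (y m)) = d := by
      rw [hd]
      refine Finset.prod_congr rfl (fun m _ => ?_)
      simp [hτ]
    rw [this, inv_mul_cancel₀ hd0]
  · rw [if_neg hm0]
    have : ∏ m' ∈ F, (c m' - τ m (y m')) = 0 := by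
      apply Finset.prod_eq_zero (i := m)
      · rw [hF, Finset.mem_filter, Finset.mem_range]
        exact ⟨hm, hm0⟩
      · simp [hc, hτ]
    rw [this, mul_zero]

/-! ## Valuations in `ℤᵐ⁰` -/

section Val

open WithZero

lemma le_exp_pred_of_lt717 (x : WithZero (Multiplicative ℤ)) (a : ℤ) (h : x < exp a) :
    x ≤ exp (a - 1) := by
  by_cases hx : x = 0
  · rw [hx]; exact zero_le'
  · rw [← exp_log hx] at h ⊢
    rw [exp_lt_exp] at h
    rw [exp_le_exp]
    omega

variable {K : Type} [Field K] [Valued K (WithZero (Multiplicative ℤ))]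

/-- Entrywise bound of a `2 × 2` matrix. -/
def MBdd717 (B : ℤ) (M : Matrix (Fin 2) (Fin 2) K) : Prop :=
  ∀ a b : Fin 2, Valued.v (M a b) ≤ exp B

lemma MBdd717.mono {B B' : ℤ} {M : Matrix (Fin 2) (Fin 2) K} (h : MBdd717 B M) (hB : B ≤ B') :
    MBdd717 B' M := fun a b => (h a b).trans (exp_le_exp.2 hB)

lemma MBdd717.one : MBdd717 0 (1 : Matrix (Fin 2) (Fin 2) K) := by
  intro a b
  rw [exp_zero]
  by_cases hab : a = b
  · subst hab
    rw [Matrix.one_apply_eq, map_one]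
  · rw [Matrix.one_apply_ne hab, map_zero]
    exact zero_le'

lemma MBdd717.mul {B B' : ℤ} {M M' : Matrix (Fin 2) (Fin 2) K} (h : MBdd717 B M)
    (h' : MBdd717 B' M') : MBdd717 (B + B') (M * M') := by
  intro a b
  rw [Matrix.mul_apply]
  refine Valuation.map_sum_le _ (fun c _ => ?_)
  rw [map_mul, exp_add]
  exact mul_le_mul' (h a c) (h' c b)

lemma MBdd717.sum {ι : Type*} {B : ℤ} (s : Finset ι) (f : ι → Matrix (Fin 2) (Fin 2) K)
    (h : ∀ j ∈ s, MBdd717 B (f j)) : MBdd717 B (∑ j ∈ s, f j) := by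
  intro a b
  rw [Matrix.sum_apply]
  exact Valuation.map_sum_le _ (fun j hj => h j hj a b)

lemma MBdd717.smul {B Bb : ℤ} {M : Matrix (Fin 2) (Fin 2) K} {c : K}
    (hc : Valued.v c ≤ exp Bb) (h : MBdd717 B M) : MBdd717 (Bb + B) (c • M) := by
  intro a b
  rw [Matrix.smul_apply, smul_eq_mul, map_mul, exp_add]
  exact mul_le_mul' hc (h a b)

lemma MBdd717.map {B : ℤ} {M : Matrix (Fin 2) (Fin 2) K} (σ : K →+* K)
    (hσ : ∀ y : K, Valued.v (σ y) = Valued.v y) (h : MBdd717 B M) : MBdd717 B (M.map σ) := by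
  intro a b
  rw [Matrix.map_apply, hσ]
  exact h a b

/-! ## Representatives -/

/-- Representatives of the integers modulo `ϖ^N`. -/
theorem exists_reps_int717 (hunif : ∃ ϖ : K, Valued.v ϖ = exp (-1 : ℤ))
    (hres : ∃ T : Finset K, ∀ z : K, Valued.v z ≤ 1 → ∃ x ∈ T, Valued.v (z - x) < 1) (N : ℕ) :
    ∃ R : Finset K, ∀ z : K, Valued.v z ≤ 1 → ∃ r ∈ R, Valued.v (z - r) ≤ exp (-(N : ℤ)) := by
  classical
  obtain ⟨ϖ, hϖ⟩ := hunif
  obtain ⟨T, hT⟩ := hres
  have hϖ0 : ϖ ≠ 0 := by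
    intro h0
    rw [h0, map_zero] at hϖ
    exact exp_ne_zero hϖ.symm
  induction N with
  | zero =>
    refine ⟨{0}, fun z hz => ⟨0, Finset.mem_singleton_self _, ?_⟩⟩
    rw [sub_zero]
    simpa using hz
  | succ N ih =>
    obtain ⟨R, hR⟩ := ih
    refine ⟨(T ×ˢ R).image (fun p => p.1 + ϖ * p.2), fun z hz => ?_⟩
    obtain ⟨t, ht, hzt⟩ := hT z hz
    have hzt' : Valued.v (z - t) ≤ exp (-1 : ℤ) := by
      have := le_exp_pred_of_lt717 (Valued.v (z - t)) 0 (by rw [exp_zero]; exact hzt)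
      simpa using this
    set z₁ : K := (z - t) / ϖ with hz₁
    have hz₁v : Valued.v z₁ ≤ 1 := by
      rw [hz₁, map_div₀, hϖ]
      rw [div_le_iff₀ (lt_of_le_of_ne zero_le' (Ne.symm exp_ne_zero)), one_mul]
      exact hzt'
    obtain ⟨r, hr, hzr⟩ := hR z₁ hz₁v
    refine ⟨t + ϖ * r, ?_, ?_⟩
    · rw [Finset.mem_image]
      exact ⟨(t, r), Finset.mem_product.2 ⟨ht, hr⟩, rfl⟩
    · have e1 : z - (t + ϖ * r) = ϖ * (z₁ - r) := by
        rw [hz₁]
        field_simp
        ring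
      rw [e1, map_mul, hϖ]
      have e2 : (exp (-((N + 1 : ℕ) : ℤ)) : WithZero (Multiplicative ℤ))
          = exp (-1 : ℤ) * exp (-(N : ℤ)) := by
        rw [← exp_add]
        congr 1
        push_cast
        ring
      rw [e2]
      exact mul_le_mul' le_rfl hzr

/-- Representatives of a ball modulo a smaller ball. -/
theorem exists_reps717 (hunif : ∃ ϖ : K, Valued.v ϖ = exp (-1 : ℤ))
    (hres : ∃ T : Finset K, ∀ z : K, Valued.v z ≤ 1 → ∃ x ∈ T, Valued.v (z - x) < 1)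
    (C M : ℤ) :
    ∃ R : Finset K, ∀ z : K, Valued.v z ≤ exp C → ∃ r ∈ R, Valued.v (z - r) ≤ exp (-M) := by
  classical
  obtain ⟨R, hR⟩ := exists_reps_int717 hunif hres (M + C).toNat
  obtain ⟨ϖ, hϖ⟩ := hunif
  have hϖ0 : ϖ ≠ 0 := by
    intro h0
    rw [h0, map_zero] at hϖ
    exact exp_ne_zero hϖ.symm
  have hpow : ∀ j : ℤ, Valued.v (ϖ ^ j) = exp (-j) := by
    intro j
    rw [map_zpow₀, hϖ]
    rw [← exp_zsmul]
    congr 1
    simp
  refine ⟨R.image (fun r => ϖ ^ (-C) * r), fun z hz => ?_⟩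
  have hz' : Valued.v (ϖ ^ C * z) ≤ 1 := by
    rw [map_mul, hpow, ← exp_zero]
    calc exp (-C) * Valued.v z ≤ exp (-C) * exp C := mul_le_mul' le_rfl hz
      _ = exp 0 := by rw [← exp_add]; congr 1; ring
  obtain ⟨r, hr, hzr⟩ := hR _ hz'
  refine ⟨ϖ ^ (-C) * r, Finset.mem_image.2 ⟨r, hr, rfl⟩, ?_⟩
  have e1 : z - ϖ ^ (-C) * r = ϖ ^ (-C) * (ϖ ^ C * z - r) := by
    rw [mul_sub, ← mul_assoc, ← zpow_add₀ hϖ0]
    simp
  rw [e1, map_mul, hpow, neg_neg]
  calc exp C * Valued.v (ϖ ^ C * z - r) ≤ exp C * exp (-((M + C).toNat : ℤ)) :=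
        mul_le_mul' le_rfl hzr
    _ = exp (C - ((M + C).toNat : ℤ)) := by rw [← exp_add]; congr 1
    _ ≤ exp (-M) := by
        rw [exp_le_exp]
        have := Int.self_le_toNat (M + C)
        omega

/-! ## Cramer selection -/

/-- A finite family of vectors of `k²` containing two independent vectors lies in the
`𝒪`-span of the pair of maximal `|det|`. -/
theorem exists_cramer717 {J : Type} [Fintype J] (w : J → Fin 2 → K)
    (hne : ∃ p p' : J, w p 0 * w p' 1 - w p 1 * w p' 0 ≠ 0) :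
    ∃ p1 p2 : J, (w p1 0 * w p2 1 - w p1 1 * w p2 0 ≠ 0) ∧
      ∀ p : J, ∃ α β : K, Valued.v α ≤ 1 ∧ Valued.v β ≤ 1 ∧
        ∀ r : Fin 2, w p r = w p1 r * α + w p2 r * β := by
  classical
  obtain ⟨q, q', hqq⟩ := hne
  obtain ⟨⟨p1, p2⟩, -, hmax⟩ := Finset.exists_max_image (Finset.univ : Finset (J × J))
    (fun P => Valued.v (w P.1 0 * w P.2 1 - w P.1 1 * w P.2 0)) ⟨(q, q'), Finset.mem_univ _⟩
  set D : K := w p1 0 * w p2 1 - w p1 1 * w p2 0 with hD
  have hD0 : D ≠ 0 := by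
    intro h0
    have h1 := hmax (q, q') (Finset.mem_univ _)
    simp only at h1
    rw [h0, map_zero] at h1
    exact hqq ((map_eq_zero _).1 (le_antisymm h1 zero_le'))
  have hvD : 0 < Valued.v D := lt_of_le_of_ne zero_le' (fun h => hD0 ((map_eq_zero _).1 h.symm))
  refine ⟨p1, p2, hD0, fun p => ?_⟩
  refine ⟨(w p 0 * w p2 1 - w p 1 * w p2 0) / D, (w p1 0 * w p 1 - w p1 1 * w p 0) / D, ?_, ?_, ?_⟩
  · rw [map_div₀, div_le_one₀ hvD]
    exact hmax (p, p2) (Finset.mem_univ _)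
  · rw [map_div₀, div_le_one₀ hvD]
    exact hmax (p1, p) (Finset.mem_univ _)
  · intro r
    fin_cases r
    · show w p 0 = w p1 0 * _ + w p2 0 * _
      field_simp
      rw [hD]
      ring
    · show w p 1 = w p1 1 * _ + w p2 1 * _
      field_simp
      rw [hD]
      ring

end Val

end Fermat.Agent.LT.T6.H717

end
-- ===== PACK-END LT/T6/H717/BH90Aux.lean

-- ===== PACK-BEGIN LT/T6/H333/QNorm.lean
section


/-!
# Row LT, tower T6, leaf T6.18g3.1a `H820.RootFnC820` (helper333) -- part 1: the quadratic algebra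

OFF-MAIN.  Mathlib only.  `k` is a field with a valuation in `ℤᵐ⁰`, `A = QuadraticAlgebra k α β`
(`ω² = α + β ω`) with `|α|, |β| ≤ 1`.  `QLe333 u r` says that both coordinates of `u` have
valuation `≤ r` (the sup-norm of `u` is `≤ r`); it is ultrametric and submultiplicative.

* `qkey333`: for `z, z'` in the ball `1 + {‖·‖ ≤ ρ}`, `ρ ≤ 1`:
  `z ^ l - z' ^ l = (z - z') * (l + e)` with `‖e‖ ≤ ρ`.
* `qnear_pow333`: the coordinates of `z ^ n` computed in `QuadraticAlgebra k α β` and in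
  `QuadraticAlgebra k α' β'` differ by at most `max |α - α'| |β - β'|` (for `‖z‖ ≤ 1`).
-/

set_option autoImplicit false

noncomputable section

namespace Fermat.Agent.LT.T6.H333

variable {k : Type} [Field k] [Valued k (WithZero (Multiplicative ℤ))]

local notation "Γ" => WithZero (Multiplicative ℤ)

/-- Both coordinates of `u` have valuation `≤ r`. -/
def QLe333 {α β : k} (u : QuadraticAlgebra k α β) (r : Γ) : Prop :=
  Valued.v u.re ≤ r ∧ Valued.v u.im ≤ r

section Basic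

variable {α β : k}

theorem qle_zero333 (r : Γ) : QLe333 (0 : QuadraticAlgebra k α β) r := by
  refine ⟨?_, ?_⟩
  · show Valued.v (0 : k) ≤ r
    rw [Valuation.map_zero]; exact zero_le
  · show Valued.v (0 : k) ≤ r
    rw [Valuation.map_zero]; exact zero_le

theorem qle_mono333 {u : QuadraticAlgebra k α β} {r r' : Γ} (h : QLe333 u r) (hr : r ≤ r') :
    QLe333 u r' :=
  ⟨h.1.trans hr, h.2.trans hr⟩

theorem qle_add333 {u u' : QuadraticAlgebra k α β} {r : Γ} (h : QLe333 u r) (h' : QLe333 u' r) :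
    QLe333 (u + u') r := by
  refine ⟨?_, ?_⟩
  · rw [QuadraticAlgebra.re_add]; exact Valuation.map_add_le _ h.1 h'.1
  · rw [QuadraticAlgebra.im_add]; exact Valuation.map_add_le _ h.2 h'.2

theorem qle_neg333 {u : QuadraticAlgebra k α β} {r : Γ} (h : QLe333 u r) : QLe333 (-u) r := by
  refine ⟨?_, ?_⟩
  · rw [QuadraticAlgebra.re_neg, Valuation.map_neg]; exact h.1
  · rw [QuadraticAlgebra.im_neg, Valuation.map_neg]; exact h.2

theorem qle_sub333 {u u' : QuadraticAlgebra k α β} {r : Γ} (h : QLe333 u r) (h' : QLe333 u' r) :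
    QLe333 (u - u') r := by
  rw [sub_eq_add_neg]
  exact qle_add333 h (qle_neg333 h')

theorem qle_sum333 {ι : Type*} (s : Finset ι) (f : ι → QuadraticAlgebra k α β) {r : Γ}
    (h : ∀ i ∈ s, QLe333 (f i) r) : QLe333 (∑ i ∈ s, f i) r := by
  classical
  induction s using Finset.induction_on with
  | empty => simpa using qle_zero333 r
  | insert a s ha ih =>
    rw [Finset.sum_insert ha]
    exact qle_add333 (h a (Finset.mem_insert_self a s))
      (ih fun i hi => h i (Finset.mem_insert_of_mem hi))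

theorem qle_one333 : QLe333 (1 : QuadraticAlgebra k α β) 1 := by
  refine ⟨?_, ?_⟩
  · show Valued.v (1 : k) ≤ 1
    rw [Valuation.map_one]
  · show Valued.v (0 : k) ≤ 1
    rw [Valuation.map_zero]; exact zero_le

theorem qle_C333 (x : k) :
    QLe333 (QuadraticAlgebra.C x : QuadraticAlgebra k α β) (Valued.v x) := by
  refine ⟨?_, ?_⟩
  · show Valued.v x ≤ Valued.v x
    exact le_rfl
  · show Valued.v (0 : k) ≤ Valued.v x
    rw [Valuation.map_zero]; exact zero_le

theorem qle_mul333 (hα : Valued.v α ≤ 1) (hβ : Valued.v β ≤ 1) {u u' : QuadraticAlgebra k α β}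
    {r r' : Γ} (h : QLe333 u r) (h' : QLe333 u' r') : QLe333 (u * u') (r * r') := by
  have h1 : ∀ x y : k, Valued.v x ≤ r → Valued.v y ≤ r' → Valued.v (x * y) ≤ r * r' := by
    intro x y hx hy
    rw [Valuation.map_mul]
    exact mul_le_mul' hx hy
  have h2 : ∀ c x y : k, Valued.v c ≤ 1 → Valued.v x ≤ r → Valued.v y ≤ r' →
      Valued.v (c * x * y) ≤ r * r' := by
    intro c x y hc hx hy
    rw [mul_assoc, Valuation.map_mul]
    calc Valued.v c * Valued.v (x * y) ≤ 1 * (r * r') := mul_le_mul' hc (h1 x y hx hy)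
      _ = r * r' := one_mul _
  refine ⟨?_, ?_⟩
  · rw [QuadraticAlgebra.re_mul]
    exact Valuation.map_add_le _ (h1 _ _ h.1 h'.1) (h2 _ _ _ hα h.2 h'.2)
  · rw [QuadraticAlgebra.im_mul]
    exact Valuation.map_add_le _
      (Valuation.map_add_le _ (h1 _ _ h.1 h'.2) (h1 _ _ h.2 h'.1)) (h2 _ _ _ hβ h.2 h'.2)

theorem qle_pow333 (hα : Valued.v α ≤ 1) (hβ : Valued.v β ≤ 1) {u : QuadraticAlgebra k α β}
    (h : QLe333 u 1) (n : ℕ) : QLe333 (u ^ n) 1 := by
  induction n with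
  | zero => rw [pow_zero]; exact qle_one333
  | succ n ih =>
    rw [pow_succ]
    have := qle_mul333 hα hβ ih h
    rwa [one_mul] at this

/-- `‖u‖ ≤ 1` for `u` in the ball `1 + {‖·‖ ≤ ρ}`, `ρ ≤ 1`. -/
theorem qle_of_ball333 {u : QuadraticAlgebra k α β} {ρ : Γ} (hρ : ρ ≤ 1)
    (h : QLe333 (u - 1) ρ) : QLe333 u 1 := by
  have : u = (u - 1) + 1 := by ring
  rw [this]
  exact qle_add333 (qle_mono333 h hρ) qle_one333

/-- The ball `1 + {‖·‖ ≤ ρ}`, `ρ ≤ 1`, is closed under multiplication. -/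
theorem qball_mul333 (hα : Valued.v α ≤ 1) (hβ : Valued.v β ≤ 1) {u u' : QuadraticAlgebra k α β}
    {ρ : Γ} (hρ : ρ ≤ 1) (h : QLe333 (u - 1) ρ) (h' : QLe333 (u' - 1) ρ) :
    QLe333 (u * u' - 1) ρ := by
  have e : u * u' - 1 = (u - 1) * u' + (u' - 1) := by ring
  rw [e]
  refine qle_add333 ?_ h'
  have := qle_mul333 hα hβ h (qle_of_ball333 hρ h')
  rwa [mul_one] at this

theorem qball_one333 (ρ : Γ) : QLe333 ((1 : QuadraticAlgebra k α β) - 1) ρ := by
  rw [sub_self]; exact qle_zero333 ρ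

theorem qball_pow333 (hα : Valued.v α ≤ 1) (hβ : Valued.v β ≤ 1) {u : QuadraticAlgebra k α β}
    {ρ : Γ} (hρ : ρ ≤ 1) (h : QLe333 (u - 1) ρ) (n : ℕ) : QLe333 (u ^ n - 1) ρ := by
  induction n with
  | zero => rw [pow_zero]; exact qball_one333 ρ
  | succ n ih => rw [pow_succ]; exact qball_mul333 hα hβ hρ ih h

/-- **The key factorisation**: `z ^ l - z' ^ l = (z - z') * (l + e)`, `‖e‖ ≤ ρ`. -/
theorem qkey333 (hα : Valued.v α ≤ 1) (hβ : Valued.v β ≤ 1) {z z' : QuadraticAlgebra k α β}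
    {ρ : Γ} (hρ : ρ ≤ 1) (h : QLe333 (z - 1) ρ) (h' : QLe333 (z' - 1) ρ) (l : ℕ) :
    ∃ e : QuadraticAlgebra k α β, QLe333 e ρ ∧
      z ^ l - z' ^ l = (z - z') * ((l : QuadraticAlgebra k α β) + e) := by
  refine ⟨∑ i ∈ Finset.range l, (z ^ i * z' ^ (l - 1 - i) - 1), ?_, ?_⟩
  · refine qle_sum333 _ _ fun i _ => ?_
    exact qball_mul333 hα hβ hρ (qball_pow333 hα hβ hρ h i) (qball_pow333 hα hβ hρ h' _)
  · rw [Finset.sum_sub_distrib, Finset.sum_const, Finset.card_range, nsmul_eq_mul, mul_one,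
      add_sub_cancel, mul_comm, geom_sum₂_mul]

end Basic

/-! ## Comparison of two quadratic algebras -/

section Near

variable {α β α' β' : k}

/-- The coordinates of `u` and `u'` (in two different quadratic algebras) differ by `≤ η`. -/
def QNear333 (u : QuadraticAlgebra k α β) (u' : QuadraticAlgebra k α' β') (η : Γ) : Prop :=
  Valued.v (u.re - u'.re) ≤ η ∧ Valued.v (u.im - u'.im) ≤ η

theorem qnear_mul333 (hα' : Valued.v α' ≤ 1) (hβ' : Valued.v β' ≤ 1) {η : Γ}
    (hαη : Valued.v (α - α') ≤ η) (hβη : Valued.v (β - β') ≤ η)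
    {u₁ u₂ : QuadraticAlgebra k α β} {u₁' u₂' : QuadraticAlgebra k α' β'}
    (h₁ : QLe333 u₁ 1) (h₂ : QLe333 u₂ 1) (h₁' : QLe333 u₁' 1) (h₂' : QLe333 u₂' 1)
    (n₁ : QNear333 u₁ u₁' η) (n₂ : QNear333 u₂ u₂' η) : QNear333 (u₁ * u₂) (u₁' * u₂') η := by
  -- `x y - x' y' = (x - x') y + x' (y - y')`
  have h1 : ∀ x y x' y' : k, Valued.v y ≤ 1 → Valued.v x' ≤ 1 → Valued.v (x - x') ≤ η →
      Valued.v (y - y') ≤ η → Valued.v (x * y - x' * y') ≤ η := by
    intro x y x' y' hy hx' hx hyy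
    have e : x * y - x' * y' = (x - x') * y + x' * (y - y') := by ring
    rw [e]
    refine Valuation.map_add_le _ ?_ ?_
    · rw [Valuation.map_mul]
      calc Valued.v (x - x') * Valued.v y ≤ η * 1 := mul_le_mul' hx hy
        _ = η := mul_one _
    · rw [Valuation.map_mul]
      calc Valued.v x' * Valued.v (y - y') ≤ 1 * η := mul_le_mul' hx' hyy
        _ = η := one_mul _
  have hm : ∀ x y : k, Valued.v x ≤ 1 → Valued.v y ≤ 1 → Valued.v (x * y) ≤ 1 := by
    intro x y hx hy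
    rw [Valuation.map_mul]
    calc Valued.v x * Valued.v y ≤ 1 * 1 := mul_le_mul' hx hy
      _ = 1 := one_mul _
  have h2 : ∀ c c' x y x' y' : k, Valued.v c' ≤ 1 → Valued.v (c - c') ≤ η →
      Valued.v x ≤ 1 → Valued.v y ≤ 1 → Valued.v x' ≤ 1 → Valued.v y' ≤ 1 →
      Valued.v (x - x') ≤ η → Valued.v (y - y') ≤ η →
      Valued.v (c * x * y - c' * x' * y') ≤ η := by
    intro c c' x y x' y' hc' hc hx hy hx' hy' hxx hyy
    have e : c * x * y - c' * x' * y' = (c - c') * (x * y) + c' * (x * y - x' * y') := by ring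
    rw [e]
    refine Valuation.map_add_le _ ?_ ?_
    · rw [Valuation.map_mul]
      calc Valued.v (c - c') * Valued.v (x * y) ≤ η * 1 := mul_le_mul' hc (hm x y hx hy)
        _ = η := mul_one _
    · rw [Valuation.map_mul]
      calc Valued.v c' * Valued.v (x * y - x' * y') ≤ 1 * η :=
            mul_le_mul' hc' (h1 x y x' y' hy hx' hxx hyy)
        _ = η := one_mul _
  refine ⟨?_, ?_⟩
  · rw [QuadraticAlgebra.re_mul, QuadraticAlgebra.re_mul]
    have e : u₁.re * u₂.re + α * u₁.im * u₂.im - (u₁'.re * u₂'.re + α' * u₁'.im * u₂'.im)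
        = (u₁.re * u₂.re - u₁'.re * u₂'.re)
          + (α * u₁.im * u₂.im - α' * u₁'.im * u₂'.im) := by ring
    rw [e]
    exact Valuation.map_add_le _ (h1 _ _ _ _ h₂.1 h₁'.1 n₁.1 n₂.1)
      (h2 _ _ _ _ _ _ hα' hαη h₁.2 h₂.2 h₁'.2 h₂'.2 n₁.2 n₂.2)
  · rw [QuadraticAlgebra.im_mul, QuadraticAlgebra.im_mul]
    have e : u₁.re * u₂.im + u₁.im * u₂.re + β * u₁.im * u₂.im
          - (u₁'.re * u₂'.im + u₁'.im * u₂'.re + β' * u₁'.im * u₂'.im)
        = ((u₁.re * u₂.im - u₁'.re * u₂'.im) + (u₁.im * u₂.re - u₁'.im * u₂'.re))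
          + (β * u₁.im * u₂.im - β' * u₁'.im * u₂'.im) := by ring
    rw [e]
    exact Valuation.map_add_le _
      (Valuation.map_add_le _ (h1 _ _ _ _ h₂.2 h₁'.1 n₁.1 n₂.2)
        (h1 _ _ _ _ h₂.1 h₁'.2 n₁.2 n₂.1))
      (h2 _ _ _ _ _ _ hβ' hβη h₁.2 h₂.2 h₁'.2 h₂'.2 n₁.2 n₂.2)

/-- The same coordinates, in another quadratic algebra. -/
def qcopy333 (α' β' : k) (u : QuadraticAlgebra k α β) : QuadraticAlgebra k α' β' :=
  ⟨u.re, u.im⟩

theorem qle_copy333 {u : QuadraticAlgebra k α β} {r : Γ} (h : QLe333 u r) :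
    QLe333 (qcopy333 α' β' u) r := h

theorem qnear_pow333 (hα : Valued.v α ≤ 1) (hβ : Valued.v β ≤ 1)
    (hα' : Valued.v α' ≤ 1) (hβ' : Valued.v β' ≤ 1) {η : Γ}
    (hαη : Valued.v (α - α') ≤ η) (hβη : Valued.v (β - β') ≤ η)
    {u : QuadraticAlgebra k α β} (h : QLe333 u 1) (n : ℕ) :
    QNear333 (u ^ n) ((qcopy333 α' β' u) ^ n) η := by
  induction n with
  | zero =>
    rw [pow_zero, pow_zero]
    refine ⟨?_, ?_⟩
    · show Valued.v ((1 : k) - 1) ≤ η
      rw [sub_self, Valuation.map_zero]; exact zero_le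
    · show Valued.v ((0 : k) - 0) ≤ η
      rw [sub_self, Valuation.map_zero]; exact zero_le
  | succ n ih =>
    rw [pow_succ, pow_succ]
    refine qnear_mul333 hα' hβ' hαη hβη (qle_pow333 hα hβ h n) h
      (qle_pow333 hα' hβ' (qle_copy333 h) n) (qle_copy333 h) ih ?_
    refine ⟨?_, ?_⟩
    · show Valued.v (u.re - u.re) ≤ η
      rw [sub_self, Valuation.map_zero]; exact zero_le
    · show Valued.v (u.im - u.im) ≤ η
      rw [sub_self, Valuation.map_zero]; exact zero_le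

end Near

end Fermat.Agent.LT.T6.H333

end

end
-- ===== PACK-END LT/T6/H333/QNorm.lean

-- ===== PACK-BEGIN LT/T6/H333/Lim.lean
section


/-!
# Row LT, tower T6, leaf T6.18g3.1a `H820.RootFnC820` (helper333) -- part 2: limits

OFF-MAIN.  Mathlib only.  In a complete field with a valuation in `ℤᵐ⁰`, a sequence with
`|a (n + 1) - a n| ≤ exp (-n)` has a limit `L` with `|L - a n| ≤ exp (-n)`; an element whose
valuation is `≤ exp (-n)` for every `n` is zero.
-/

set_option autoImplicit false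

open Filter Topology

noncomputable section

namespace Fermat.Agent.LT.T6.H333

variable {k : Type} [Field k] [Valued k (WithZero (Multiplicative ℤ))]

local notation "Γ" => WithZero (Multiplicative ℤ)

theorem tail_le333 (a : ℕ → k)
    (h : ∀ n, Valued.v (a (n + 1) - a n) ≤ WithZero.exp (-(n : ℤ))) :
    ∀ n m, n ≤ m → Valued.v (a m - a n) ≤ WithZero.exp (-(n : ℤ)) := by
  intro n m hnm
  induction m, hnm using Nat.le_induction with
  | base => rw [sub_self, map_zero]; exact zero_le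
  | succ m hm ih =>
    have e : a (m + 1) - a n = (a (m + 1) - a m) + (a m - a n) := by ring
    rw [e]
    refine Valuation.map_add_le _ ((h m).trans ?_) ih
    rw [WithZero.exp_le_exp]
    omega

theorem cauchySeq333 (a : ℕ → k)
    (h : ∀ n, Valued.v (a (n + 1) - a n) ≤ WithZero.exp (-(n : ℤ))) : CauchySeq a := by
  rw [(Valued.hasBasis_uniformity k Γ).cauchySeq_iff]
  intro γ _
  have hγ : MonoidWithZeroHom.ValueGroup₀.embedding γ.1 ≠ 0 :=
    MonoidWithZeroHom.ValueGroup₀.embedding_unit_ne_zero γ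
  obtain ⟨N, hN⟩ : ∃ N : ℕ,
      WithZero.exp (-(N : ℤ)) < MonoidWithZeroHom.ValueGroup₀.embedding γ.1 := by
    refine ⟨(1 - WithZero.log (MonoidWithZeroHom.ValueGroup₀.embedding γ.1)).toNat, ?_⟩
    rw [← WithZero.lt_log_iff_exp_lt hγ]
    omega
  refine ⟨N, fun m hm n hn => ?_⟩
  show Valued.v.restrict (a n - a m) < γ.1
  rw [Valuation.restrict_lt_iff_lt_embedding]
  refine lt_of_le_of_lt ?_ hN
  have e : a n - a m = (a n - a N) - (a m - a N) := by ring
  rw [e]
  exact Valuation.map_sub_le _ (tail_le333 a h N n hn) (tail_le333 a h N m hm)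

/-- The limit of a fast Cauchy sequence, with the ultrametric bound. -/
theorem exists_lim333 [CompleteSpace k] (a : ℕ → k)
    (h : ∀ n, Valued.v (a (n + 1) - a n) ≤ WithZero.exp (-(n : ℤ))) :
    ∃ L : k, ∀ n, Valued.v (L - a n) ≤ WithZero.exp (-(n : ℤ)) := by
  obtain ⟨L, hL⟩ := cauchySeq_tendsto_of_complete (cauchySeq333 a h)
  refine ⟨L, fun n => ?_⟩
  by_contra hcon
  rw [not_le] at hcon
  have hne : Valued.v (L - a n) ≠ 0 := by
    intro h0
    rw [h0] at hcon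
    exact absurd hcon (not_lt.mpr zero_le)
  have hT : Tendsto (fun m => a m - a n) atTop (𝓝 (L - a n)) := hL.sub_const (a n)
  have hev := hT (Valued.locally_const hne)
  rw [Filter.mem_map, Filter.mem_atTop_sets] at hev
  obtain ⟨M, hM⟩ := hev
  have h1 : Valued.v (a (max M n) - a n) = Valued.v (L - a n) := hM (max M n) (le_max_left _ _)
  have h2 := tail_le333 a h n (max M n) (le_max_right _ _)
  rw [h1] at h2
  exact absurd hcon (not_lt.mpr h2)

/-- An element of valuation `≤ exp (-n)` for every `n` is zero. -/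
theorem eq_zero_of_forall_le333 (x : k) (h : ∀ n : ℕ, Valued.v x ≤ WithZero.exp (-(n : ℤ))) :
    x = 0 := by
  by_contra hx
  have hv : Valued.v x ≠ 0 := (Valuation.ne_zero_iff _).mpr hx
  have h1 := h (1 - WithZero.log (Valued.v x)).toNat
  rw [← WithZero.log_le_iff_le_exp hv] at h1
  omega

end Fermat.Agent.LT.T6.H333

end

end
-- ===== PACK-END LT/T6/H333/Lim.lean

-- ===== PACK-BEGIN LT/T6/Inf/H864/OdeSing.lean
section


/-!
# Row LT, sub-tower T6inf, leaf T6inf.03f `OdeUniqC59`: the Mathlib-only core (helper864)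

OFF-MAIN.  A solution of `y'' + coth t · y' = λ y` on `t > 0` (complex valued) which tends to `0`
at `0+` vanishes identically.

`p = sinh t · y'` has `p' = λ sinh t · y`.  If `‖y‖ ≤ B` on `(0, a]` then `p` is Lipschitz there
with constant `L = ‖λ‖ sinh a · B`; `‖p t‖ ≤ L t` (otherwise `p` stays close to a constant `c ≠ 0`
near `0` and `⟪c, y⟫ - κ log sinh` is non-decreasing, so `log sinh` is bounded below near `0`);
hence `‖y'‖ ≤ L`, `‖y t‖ ≤ L t ≤ B / 2` for small `a`: `y = 0` on `(0, a]`.  On `[a / 2, ∞)`: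
`F = ‖y‖² + ‖y'‖²` has `F' ≤ (1 + ‖λ‖) F`, `F(a / 2) = 0`.
-/

set_option autoImplicit false

open scoped RealInnerProductSpace

noncomputable section

namespace Fermat.Agent.LT.T6.Inf.H864

variable {lam : ℂ} {y y' : ℝ → ℂ}

/-- `p = sinh t · y'`. -/
def pFun (y' : ℝ → ℂ) (t : ℝ) : ℂ := ((Real.sinh t : ℝ) : ℂ) * y' t

theorem hasDerivAt_pFun
    (hd' : ∀ t : ℝ, 0 < t →
      HasDerivAt y' (lam * y t - ((Real.cosh t / Real.sinh t : ℝ) : ℂ) * y' t) t)
    {t : ℝ} (ht : 0 < t) :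
    HasDerivAt (pFun y') (lam * ((Real.sinh t : ℝ) : ℂ) * y t) t := by
  have hs : Real.sinh t ≠ 0 := (Real.sinh_pos_iff.2 ht).ne'
  have hsC : ((Real.sinh t : ℝ) : ℂ) ≠ 0 := Complex.ofReal_ne_zero.2 hs
  have h1 : HasDerivAt (fun t : ℝ => ((Real.sinh t : ℝ) : ℂ)) ((Real.cosh t : ℝ) : ℂ) t :=
    (Real.hasDerivAt_sinh t).ofReal_comp
  have h2 := h1.mul (hd' t ht)
  refine h2.congr_deriv ?_
  rw [Complex.ofReal_div]
  field_simp
  ring

theorem norm_nonneg_of_bound {a B : ℝ} (ha : 0 < a)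
    (hB : ∀ t : ℝ, 0 < t → t ≤ a → ‖y t‖ ≤ B) : 0 ≤ B :=
  (norm_nonneg _).trans (hB a ha le_rfl)

/-- `p` is Lipschitz on `(0, a]`. -/
theorem pFun_lip
    (hd' : ∀ t : ℝ, 0 < t →
      HasDerivAt y' (lam * y t - ((Real.cosh t / Real.sinh t : ℝ) : ℂ) * y' t) t)
    {a B : ℝ} (hB : ∀ t : ℝ, 0 < t → t ≤ a → ‖y t‖ ≤ B) {s t : ℝ} (hs : 0 < s) (hst : s ≤ t)
    (hta : t ≤ a) :
    ‖pFun y' t - pFun y' s‖ ≤ ‖lam‖ * Real.sinh a * B * (t - s) := by
  have ha : 0 < a := hs.trans_le (hst.trans hta)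
  have hB0 := norm_nonneg_of_bound ha hB
  refine norm_image_sub_le_of_norm_deriv_le_segment'
    (f := pFun y') (f' := fun x => lam * ((Real.sinh x : ℝ) : ℂ) * y x) (a := s) (b := t)
    (fun x hx => (hasDerivAt_pFun hd' (hs.trans_le hx.1)).hasDerivWithinAt)
    (fun x hx => ?_) t (Set.right_mem_Icc.2 hst)
  have hx0 : 0 < x := hs.trans_le hx.1
  have hxa : x ≤ a := (le_of_lt hx.2).trans hta
  rw [norm_mul, norm_mul, Complex.norm_real, Real.norm_eq_abs,
    abs_of_pos (Real.sinh_pos_iff.2 hx0)]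
  have h1 : Real.sinh x ≤ Real.sinh a := Real.sinh_le_sinh.2 hxa
  have h2 := hB x hx0 hxa
  have h3 : 0 ≤ Real.sinh x := (Real.sinh_pos_iff.2 hx0).le
  calc ‖lam‖ * Real.sinh x * ‖y x‖ ≤ ‖lam‖ * Real.sinh a * B := by
        apply mul_le_mul (mul_le_mul_of_nonneg_left h1 (norm_nonneg _)) h2 (norm_nonneg _)
        exact mul_nonneg (norm_nonneg _) (h3.trans h1)

/-- Near `0` the values of `y` are small. -/
theorem exists_small (hy0 : ContinuousWithinAt y (Set.Ici 0) 0) (hy00 : y 0 = 0) {ε : ℝ}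
    (hε : 0 < ε) : ∃ δ : ℝ, 0 < δ ∧ ∀ t : ℝ, 0 < t → t ≤ δ → ‖y t‖ < ε := by
  rw [Metric.continuousWithinAt_iff] at hy0
  obtain ⟨δ, hδ, h⟩ := hy0 ε hε
  refine ⟨δ / 2, by positivity, fun t ht htδ => ?_⟩
  have := h (Set.mem_Ici.2 ht.le) (by rw [Real.dist_eq, sub_zero, abs_of_pos ht]; linarith)
  rwa [hy00, dist_zero_right] at this

theorem inner_pFun (c : ℂ) (s : ℝ) :
    ⟪c, pFun y' s⟫ = Real.sinh s * ⟪c, y' s⟫ := by
  have e : pFun y' s = (Real.sinh s : ℝ) • y' s := by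
    rw [pFun, Complex.real_smul]
  rw [e, inner_smul_right]

/-- `‖p t‖ ≤ L t` on `(0, a]`. -/
theorem pFun_small (hd : ∀ t : ℝ, 0 < t → HasDerivAt y (y' t) t)
    (hd' : ∀ t : ℝ, 0 < t →
      HasDerivAt y' (lam * y t - ((Real.cosh t / Real.sinh t : ℝ) : ℂ) * y' t) t)
    {a B : ℝ} (hB : ∀ t : ℝ, 0 < t → t ≤ a → ‖y t‖ ≤ B) {t : ℝ} (ht : 0 < t) (hta : t ≤ a) :
    ‖pFun y' t‖ ≤ ‖lam‖ * Real.sinh a * B * t := by
  set L := ‖lam‖ * Real.sinh a * B with hL
  have ha : 0 < a := ht.trans_le hta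
  have hB0 := norm_nonneg_of_bound ha hB
  have hL0 : 0 ≤ L :=
    mul_nonneg (mul_nonneg (norm_nonneg _) (Real.sinh_pos_iff.2 ha).le) hB0
  by_contra hcon
  have hcon' : L * t < ‖pFun y' t‖ := lt_of_not_ge hcon
  set ε := ‖pFun y' t‖ - L * t with hε
  have hεpos : 0 < ε := by linarith
  set η := min t (ε / (2 * (L + 1))) with hη
  have hηpos : 0 < η := lt_min ht (by positivity)
  have hηt : η ≤ t := min_le_left _ _
  have hLη : L * η ≤ ε / 2 := by
    have h1 : η ≤ ε / (2 * (L + 1)) := min_le_right _ _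
    have h2 : L * η ≤ L * (ε / (2 * (L + 1))) := mul_le_mul_of_nonneg_left h1 hL0
    have h3 : L * (ε / (2 * (L + 1))) ≤ ε / 2 := by
      have e : L * (ε / (2 * (L + 1))) = (L / (L + 1)) * (ε / 2) := by
        field_simp
      rw [e]
      have h4 : L / (L + 1) ≤ 1 := by
        rw [div_le_one (by linarith)]
        linarith
      have h5 : 0 ≤ ε / 2 := by linarith
      calc L / (L + 1) * (ε / 2) ≤ 1 * (ε / 2) := mul_le_mul_of_nonneg_right h4 h5
        _ = ε / 2 := one_mul _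
    linarith
  set c := pFun y' η with hc
  have hcε : ε ≤ ‖c‖ := by
    have h1 := pFun_lip hd' hB hηpos hηt hta
    have h2 : ‖pFun y' t‖ ≤ ‖pFun y' t - pFun y' η‖ + ‖pFun y' η‖ := by
      have := norm_add_le (pFun y' t - pFun y' η) (pFun y' η)
      simpa using this
    have h3 : 0 ≤ L * η := mul_nonneg hL0 hηpos.le
    have h4 : L * (t - η) = L * t - L * η := by ring
    rw [h4] at h1
    linarith
  have hcpos : 0 < ‖c‖ := hεpos.trans_le hcε
  -- the inner product with `c` stays large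
  have hinner : ∀ s : ℝ, 0 < s → s ≤ η → ‖c‖ ^ 2 / 2 ≤ ⟪c, pFun y' s⟫ := by
    intro s hs hsη
    have h1 := pFun_lip hd' hB hs hsη (hηt.trans hta)
    have h2 : ‖pFun y' s - c‖ ≤ ‖c‖ / 2 := by
      rw [norm_sub_rev]
      calc ‖c - pFun y' s‖ ≤ L * (η - s) := h1
        _ ≤ L * η := mul_le_mul_of_nonneg_left (by linarith) hL0
        _ ≤ ε / 2 := hLη
        _ ≤ ‖c‖ / 2 := by linarith
    have h3 : ⟪c, pFun y' s⟫ = ⟪c, c⟫ + ⟪c, pFun y' s - c⟫ := by
      rw [← inner_add_right]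
      congr 1
      ring
    have h4 : |⟪c, pFun y' s - c⟫| ≤ ‖c‖ * ‖pFun y' s - c‖ := abs_real_inner_le_norm _ _
    have h5 : ⟪c, c⟫ = ‖c‖ ^ 2 := real_inner_self_eq_norm_sq c
    rw [h3, h5]
    have h6 := neg_le_of_abs_le h4
    have h7 := mul_le_mul_of_nonneg_left h2 hcpos.le
    nlinarith
  -- the comparison function
  have hcosh : 0 < Real.cosh η := Real.cosh_pos η
  set κ := ‖c‖ ^ 2 / (2 * Real.cosh η) with hκ
  have hκpos : 0 < κ := by positivity
  have hFd : ∀ s : ℝ, 0 < s → HasDerivAt (fun x => ⟪c, y x⟫ - κ * Real.log (Real.sinh x))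
      (⟪c, y' s⟫ - κ * (Real.cosh s / Real.sinh s)) s := by
    intro s hs
    have h1 : HasDerivAt (fun x => ⟪c, y x⟫) ⟪c, y' s⟫ s := by
      have := (hasDerivAt_const s c).inner ℝ (hd s hs)
      simpa using this
    have h2 : HasDerivAt (fun x => Real.log (Real.sinh x)) (Real.cosh s / Real.sinh s) s :=
      (Real.hasDerivAt_sinh s).log (Real.sinh_pos_iff.2 hs).ne'
    exact h1.sub (h2.const_mul κ)
  have hmono : MonotoneOn (fun x => ⟪c, y x⟫ - κ * Real.log (Real.sinh x)) (Set.Ioc 0 η) := by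
    refine monotoneOn_of_deriv_nonneg (convex_Ioc 0 η)
      (fun s hs => (hFd s hs.1).continuousAt.continuousWithinAt)
      (fun s hs => ?_) (fun s hs => ?_)
    · rw [interior_Ioc] at hs
      exact (hFd s hs.1).differentiableAt.differentiableWithinAt
    · rw [interior_Ioc] at hs
      rw [(hFd s hs.1).deriv]
      have hsinh : 0 < Real.sinh s := Real.sinh_pos_iff.2 hs.1
      have h1 := hinner s hs.1 hs.2.le
      rw [inner_pFun] at h1
      have h2 : Real.cosh s ≤ Real.cosh η := by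
        rw [Real.cosh_le_cosh, abs_of_pos hs.1, abs_of_pos hηpos]
        exact hs.2.le
      have h3 : κ * Real.cosh η = ‖c‖ ^ 2 / 2 := by
        rw [hκ]
        field_simp
      have h4 : κ * (Real.cosh s / Real.sinh s) ≤ ⟪c, y' s⟫ := by
        rw [← mul_div_assoc, div_le_iff₀ hsinh]
        calc κ * Real.cosh s ≤ κ * Real.cosh η := mul_le_mul_of_nonneg_left h2 hκpos.le
          _ = ‖c‖ ^ 2 / 2 := h3
          _ ≤ Real.sinh s * ⟪c, y' s⟫ := h1
          _ = ⟪c, y' s⟫ * Real.sinh s := mul_comm _ _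
      linarith
  -- `log sinh` is bounded below on `(0, η]`
  set m₀ := Real.log (Real.sinh η) - 2 * ‖c‖ * B / κ with hm₀
  have hlow : ∀ s : ℝ, 0 < s → s ≤ η → m₀ ≤ Real.log (Real.sinh s) := by
    intro s hs hsη
    have h1 := hmono (Set.mem_Ioc.2 ⟨hs, hsη⟩) (Set.mem_Ioc.2 ⟨hηpos, le_rfl⟩) hsη
    simp only at h1
    have h2 : |⟪c, y s⟫| ≤ ‖c‖ * B :=
      (abs_real_inner_le_norm _ _).trans
        (mul_le_mul_of_nonneg_left (hB s hs (hsη.trans (hηt.trans hta))) hcpos.le)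
    have h3 : |⟪c, y η⟫| ≤ ‖c‖ * B :=
      (abs_real_inner_le_norm _ _).trans
        (mul_le_mul_of_nonneg_left (hB η hηpos (hηt.trans hta)) hcpos.le)
    have h4 := neg_le_of_abs_le h2
    have h5 := le_of_abs_le h3
    have h6 : κ * (Real.log (Real.sinh η) - Real.log (Real.sinh s)) ≤ 2 * ‖c‖ * B := by
      linarith
    have h7 : Real.log (Real.sinh η) - Real.log (Real.sinh s) ≤ 2 * ‖c‖ * B / κ := by
      rw [le_div_iff₀ hκpos]
      linarith
    rw [hm₀]
    linarith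
  -- contradiction at a small point
  set s₀ := min η (Real.arsinh (Real.exp m₀ / 2)) with hs₀
  have hs₀pos : 0 < s₀ :=
    lt_min hηpos (Real.arsinh_pos_iff.2 (by positivity))
  have hs₀η : s₀ ≤ η := min_le_left _ _
  have h1 : Real.sinh s₀ ≤ Real.exp m₀ / 2 := by
    have := Real.sinh_le_sinh.2 (min_le_right η (Real.arsinh (Real.exp m₀ / 2)))
    rwa [Real.sinh_arsinh] at this
  have h2 : Real.sinh s₀ < Real.exp m₀ := by
    have := Real.exp_pos m₀
    linarith
  have h3 : Real.log (Real.sinh s₀) < m₀ :=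
    (Real.log_lt_iff_lt_exp (Real.sinh_pos_iff.2 hs₀pos)).2 h2
  exact absurd (hlow s₀ hs₀pos hs₀η) (not_le.2 h3)

/-- `‖y'‖ ≤ L` on `(0, a]`. -/
theorem deriv_bound (hd : ∀ t : ℝ, 0 < t → HasDerivAt y (y' t) t)
    (hd' : ∀ t : ℝ, 0 < t →
      HasDerivAt y' (lam * y t - ((Real.cosh t / Real.sinh t : ℝ) : ℂ) * y' t) t)
    {a B : ℝ} (hB : ∀ t : ℝ, 0 < t → t ≤ a → ‖y t‖ ≤ B) {t : ℝ} (ht : 0 < t) (hta : t ≤ a) :
    ‖y' t‖ ≤ ‖lam‖ * Real.sinh a * B := by
  have ha : 0 < a := ht.trans_le hta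
  have hB0 := norm_nonneg_of_bound ha hB
  have hL0 : 0 ≤ ‖lam‖ * Real.sinh a * B :=
    mul_nonneg (mul_nonneg (norm_nonneg _) (Real.sinh_pos_iff.2 ha).le) hB0
  have h1 := pFun_small hd hd' hB ht hta
  have hsinh : 0 < Real.sinh t := Real.sinh_pos_iff.2 ht
  have h2 : t ≤ Real.sinh t := Real.self_le_sinh_iff.2 ht.le
  rw [pFun, norm_mul, Complex.norm_real, Real.norm_eq_abs, abs_of_pos hsinh] at h1
  have h3 : Real.sinh t * ‖y' t‖ ≤ Real.sinh t * (‖lam‖ * Real.sinh a * B) := by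
    calc Real.sinh t * ‖y' t‖ ≤ ‖lam‖ * Real.sinh a * B * t := h1
      _ ≤ ‖lam‖ * Real.sinh a * B * Real.sinh t := mul_le_mul_of_nonneg_left h2 hL0
      _ = Real.sinh t * (‖lam‖ * Real.sinh a * B) := mul_comm _ _
  exact le_of_mul_le_mul_left h3 hsinh

/-- `‖y t‖ ≤ L t` on `(0, a]`. -/
theorem val_bound (hy0 : ContinuousWithinAt y (Set.Ici 0) 0) (hy00 : y 0 = 0)
    (hd : ∀ t : ℝ, 0 < t → HasDerivAt y (y' t) t)
    (hd' : ∀ t : ℝ, 0 < t →
      HasDerivAt y' (lam * y t - ((Real.cosh t / Real.sinh t : ℝ) : ℂ) * y' t) t)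
    {a B : ℝ} (hB : ∀ t : ℝ, 0 < t → t ≤ a → ‖y t‖ ≤ B) {t : ℝ} (ht : 0 < t) (hta : t ≤ a) :
    ‖y t‖ ≤ ‖lam‖ * Real.sinh a * B * t := by
  set L := ‖lam‖ * Real.sinh a * B with hL
  have ha : 0 < a := ht.trans_le hta
  have hB0 := norm_nonneg_of_bound ha hB
  have hL0 : 0 ≤ L :=
    mul_nonneg (mul_nonneg (norm_nonneg _) (Real.sinh_pos_iff.2 ha).le) hB0
  refine le_of_forall_pos_le_add (fun ε hε => ?_)
  obtain ⟨δ, hδ, hsmall⟩ := exists_small hy0 hy00 hε
  set s := min δ t with hs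
  have hspos : 0 < s := lt_min hδ ht
  have hst : s ≤ t := min_le_right _ _
  have h1 : ‖y t - y s‖ ≤ L * (t - s) := by
    refine norm_image_sub_le_of_norm_deriv_le_segment'
      (f := y) (f' := y') (a := s) (b := t)
      (fun x hx => (hd x (hspos.trans_le hx.1)).hasDerivWithinAt)
      (fun x hx => ?_) t (Set.right_mem_Icc.2 hst)
    exact deriv_bound hd hd' hB (hspos.trans_le hx.1) ((le_of_lt hx.2).trans hta)
  have h2 : ‖y s‖ < ε := hsmall s hspos (min_le_left _ _)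
  have h3 : ‖y t‖ ≤ ‖y t - y s‖ + ‖y s‖ := by
    have := norm_add_le (y t - y s) (y s)
    simpa using this
  have h4 : L * (t - s) ≤ L * t := mul_le_mul_of_nonneg_left (by linarith) hL0
  linarith

/-- `y = 0` near `0`. -/
theorem zero_near (hy0 : ContinuousWithinAt y (Set.Ici 0) 0) (hy00 : y 0 = 0)
    (hd : ∀ t : ℝ, 0 < t → HasDerivAt y (y' t) t)
    (hd' : ∀ t : ℝ, 0 < t →
      HasDerivAt y' (lam * y t - ((Real.cosh t / Real.sinh t : ℝ) : ℂ) * y' t) t) :
    ∃ a : ℝ, 0 < a ∧ ∀ t : ℝ, 0 < t → t ≤ a → y t = 0 := by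
  obtain ⟨δ, hδ, hsmall⟩ := exists_small hy0 hy00 (ε := 1) one_pos
  have hlam : 0 < ‖lam‖ + 1 := by positivity
  set a := min δ (min (Real.arsinh 1) (1 / (2 * (‖lam‖ + 1)))) with ha
  have hapos : 0 < a :=
    lt_min hδ (lt_min (Real.arsinh_pos_iff.2 one_pos) (by positivity))
  have haδ : a ≤ δ := min_le_left _ _
  have ha1 : Real.sinh a ≤ 1 := by
    have h : a ≤ Real.arsinh 1 := (min_le_right _ _).trans (min_le_left _ _)
    have := Real.sinh_le_sinh.2 h
    rwa [Real.sinh_arsinh] at this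
  have ha2 : a ≤ 1 / (2 * (‖lam‖ + 1)) := (min_le_right _ _).trans (min_le_right _ _)
  have hsinh0 : 0 ≤ Real.sinh a := (Real.sinh_pos_iff.2 hapos).le
  have hhalf : ‖lam‖ * Real.sinh a * a ≤ 1 / 2 := by
    have h1 : ‖lam‖ * Real.sinh a ≤ ‖lam‖ := by
      calc ‖lam‖ * Real.sinh a ≤ ‖lam‖ * 1 := mul_le_mul_of_nonneg_left ha1 (norm_nonneg _)
        _ = ‖lam‖ := mul_one _
    have h2 : ‖lam‖ * Real.sinh a * a ≤ ‖lam‖ * (1 / (2 * (‖lam‖ + 1))) :=
      mul_le_mul h1 ha2 hapos.le (norm_nonneg _)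
    have h3 : ‖lam‖ * (1 / (2 * (‖lam‖ + 1))) ≤ 1 / 2 := by
      rw [mul_one_div, div_le_iff₀ (by positivity)]
      have := norm_nonneg lam
      linarith
    linarith
  have hind : ∀ n : ℕ, ∀ t : ℝ, 0 < t → t ≤ a → ‖y t‖ ≤ (1 / 2 : ℝ) ^ n := by
    intro n
    induction n with
    | zero =>
      intro t ht hta
      rw [pow_zero]
      exact (hsmall t ht (hta.trans haδ)).le
    | succ n ih =>
      intro t ht hta
      have h1 := val_bound hy0 hy00 hd hd' ih ht hta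
      have hpow : 0 ≤ (1 / 2 : ℝ) ^ n := by positivity
      have h2 : ‖lam‖ * Real.sinh a * (1 / 2 : ℝ) ^ n * t ≤
          ‖lam‖ * Real.sinh a * (1 / 2 : ℝ) ^ n * a :=
        mul_le_mul_of_nonneg_left hta
          (mul_nonneg (mul_nonneg (norm_nonneg _) hsinh0) hpow)
      have h3 : ‖lam‖ * Real.sinh a * (1 / 2 : ℝ) ^ n * a =
          (‖lam‖ * Real.sinh a * a) * (1 / 2 : ℝ) ^ n := by ring
      have h4 : (‖lam‖ * Real.sinh a * a) * (1 / 2 : ℝ) ^ n ≤ 1 / 2 * (1 / 2 : ℝ) ^ n :=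
        mul_le_mul_of_nonneg_right hhalf hpow
      rw [pow_succ']
      linarith
  refine ⟨a, hapos, fun t ht hta => ?_⟩
  have hlim : Filter.Tendsto (fun n : ℕ => (1 / 2 : ℝ) ^ n) Filter.atTop (nhds 0) :=
    tendsto_pow_atTop_nhds_zero_of_lt_one (by norm_num) (by norm_num)
  have hle : ‖y t‖ ≤ 0 := ge_of_tendsto' hlim (fun n => hind n t ht hta)
  exact norm_le_zero_iff.1 hle

/-- The core of `OdeUniqC59`. -/
theorem ode_sing_uniq864 (lam : ℂ) (y y' : ℝ → ℂ)
    (hy0 : ContinuousWithinAt y (Set.Ici 0) 0) (hy00 : y 0 = 0)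
    (hd : ∀ t : ℝ, 0 < t → HasDerivAt y (y' t) t)
    (hd' : ∀ t : ℝ, 0 < t →
      HasDerivAt y' (lam * y t - ((Real.cosh t / Real.sinh t : ℝ) : ℂ) * y' t) t) :
    ∀ t : ℝ, 0 < t → y t = 0 := by
  obtain ⟨a, hapos, hzero⟩ := zero_near hy0 hy00 hd hd'
  set a₁ := a / 2 with ha₁
  have ha₁pos : 0 < a₁ := by positivity
  have ha₁a : a₁ < a := by rw [ha₁]; linarith
  have hy1 : y a₁ = 0 := hzero a₁ ha₁pos ha₁a.le
  have hy1' : y' a₁ = 0 := by
    have hev : y =ᶠ[nhds a₁] fun _ => (0 : ℂ) := by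
      have hmem : Set.Ioo 0 a ∈ nhds a₁ := Ioo_mem_nhds ha₁pos ha₁a
      filter_upwards [hmem] with t ht
      exact hzero t ht.1 ht.2.le
    have h0 : HasDerivAt y 0 a₁ := (hasDerivAt_const a₁ (0 : ℂ)).congr_of_eventuallyEq hev
    exact (hd a₁ ha₁pos).unique h0
  set C : ℝ := 1 + ‖lam‖ with hC
  have hF : ∀ s : ℝ, 0 < s → HasDerivAt (fun x => ‖y x‖ ^ 2 + ‖y' x‖ ^ 2)
      (2 * ⟪y s, y' s⟫ +
        2 * ⟪y' s, lam * y s - ((Real.cosh s / Real.sinh s : ℝ) : ℂ) * y' s⟫) s :=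
    fun s hs => (hd s hs).norm_sq.add (hd' s hs).norm_sq
  have hexp : ∀ s : ℝ, HasDerivAt (fun x => Real.exp (-(C * x)))
      (Real.exp (-(C * s)) * (-C)) s := by
    intro s
    have h0 : HasDerivAt (fun x : ℝ => C * x) C s := by
      simpa using (hasDerivAt_id s).const_mul C
    have h1 : HasDerivAt (fun x : ℝ => -(C * x)) (-C) s := h0.fun_neg
    exact h1.exp
  have hG : ∀ s : ℝ, 0 < s →
      HasDerivAt (fun x => Real.exp (-(C * x)) * (‖y x‖ ^ 2 + ‖y' x‖ ^ 2))
      (Real.exp (-(C * s)) * (-C) * (‖y s‖ ^ 2 + ‖y' s‖ ^ 2) +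
        Real.exp (-(C * s)) * (2 * ⟪y s, y' s⟫ +
          2 * ⟪y' s, lam * y s - ((Real.cosh s / Real.sinh s : ℝ) : ℂ) * y' s⟫)) s :=
    fun s hs => (hexp s).mul (hF s hs)
  have hGanti : AntitoneOn (fun x => Real.exp (-(C * x)) * (‖y x‖ ^ 2 + ‖y' x‖ ^ 2))
      (Set.Ici a₁) := by
    refine antitoneOn_of_deriv_nonpos (convex_Ici a₁)
      (fun s hs => (hG s (ha₁pos.trans_le hs)).continuousAt.continuousWithinAt)
      (fun s hs => ?_) (fun s hs => ?_)
    · rw [interior_Ici] at hs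
      exact (hG s (ha₁pos.trans hs)).differentiableAt.differentiableWithinAt
    · rw [interior_Ici] at hs
      have hs0 : 0 < s := ha₁pos.trans hs
      rw [(hG s hs0).deriv]
      have hpos : 0 < Real.exp (-(C * s)) := Real.exp_pos _
      have hsinh : 0 < Real.sinh s := Real.sinh_pos_iff.2 hs0
      have hcoth : 0 ≤ Real.cosh s / Real.sinh s := (div_pos (Real.cosh_pos s) hsinh).le
      have e1 : ⟪y' s, lam * y s - ((Real.cosh s / Real.sinh s : ℝ) : ℂ) * y' s⟫ =
          ⟪y' s, lam * y s⟫ - Real.cosh s / Real.sinh s * ‖y' s‖ ^ 2 := by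
        have e : ((Real.cosh s / Real.sinh s : ℝ) : ℂ) * y' s =
            (Real.cosh s / Real.sinh s : ℝ) • y' s := by
          rw [Complex.real_smul]
        rw [inner_sub_right, e, inner_smul_right, real_inner_self_eq_norm_sq]
      have h1 : ⟪y s, y' s⟫ ≤ ‖y s‖ * ‖y' s‖ := real_inner_le_norm _ _
      have h2 : ⟪y' s, lam * y s⟫ ≤ ‖y' s‖ * (‖lam‖ * ‖y s‖) := by
        have := real_inner_le_norm (y' s) (lam * y s)
        rwa [norm_mul] at this
      have h3 : 0 ≤ Real.cosh s / Real.sinh s * ‖y' s‖ ^ 2 := mul_nonneg hcoth (sq_nonneg _)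
      have key : -C * (‖y s‖ ^ 2 + ‖y' s‖ ^ 2) + (2 * ⟪y s, y' s⟫ +
          2 * ⟪y' s, lam * y s - ((Real.cosh s / Real.sinh s : ℝ) : ℂ) * y' s⟫) ≤ 0 := by
        rw [e1, hC]
        have hn := norm_nonneg lam
        nlinarith [sq_nonneg (‖y s‖ - ‖y' s‖), norm_nonneg (y s), norm_nonneg (y' s),
          mul_nonneg hn (sq_nonneg (‖y s‖ - ‖y' s‖))]
      have e2 : Real.exp (-(C * s)) * (-C) * (‖y s‖ ^ 2 + ‖y' s‖ ^ 2) +
          Real.exp (-(C * s)) * (2 * ⟪y s, y' s⟫ +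
            2 * ⟪y' s, lam * y s - ((Real.cosh s / Real.sinh s : ℝ) : ℂ) * y' s⟫) =
          Real.exp (-(C * s)) * (-C * (‖y s‖ ^ 2 + ‖y' s‖ ^ 2) + (2 * ⟪y s, y' s⟫ +
            2 * ⟪y' s, lam * y s - ((Real.cosh s / Real.sinh s : ℝ) : ℂ) * y' s⟫)) := by
        ring
      rw [e2]
      exact mul_nonpos_of_nonneg_of_nonpos hpos.le key
  intro t ht
  rcases le_total t a with hta | hta
  · exact hzero t ht hta
  · have hta₁ : a₁ ≤ t := ha₁a.le.trans hta
    have h1 := hGanti (Set.mem_Ici.2 le_rfl) (Set.mem_Ici.2 hta₁) hta₁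
    simp only [hy1, hy1'] at h1
    have hpos : 0 < Real.exp (-(C * t)) := Real.exp_pos _
    have h2 : Real.exp (-(C * t)) * (‖y t‖ ^ 2 + ‖y' t‖ ^ 2) ≤ 0 := by
      simpa using h1
    have h3 : ‖y t‖ ^ 2 + ‖y' t‖ ^ 2 ≤ 0 := by
      by_contra hcon
      have hcon' : 0 < ‖y t‖ ^ 2 + ‖y' t‖ ^ 2 := lt_of_not_ge hcon
      have := mul_pos hpos hcon'
      linarith
    have h4 : ‖y t‖ ^ 2 ≤ 0 := by nlinarith [sq_nonneg ‖y' t‖]
    have h5 : ‖y t‖ ^ 2 = 0 := le_antisymm h4 (sq_nonneg _)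
    have h6 : ‖y t‖ = 0 := pow_eq_zero_iff (two_ne_zero) |>.1 h5
    exact norm_eq_zero.1 h6

end Fermat.Agent.LT.T6.Inf.H864

end

end
-- ===== PACK-END LT/T6/Inf/H864/OdeSing.lean

-- ===== PACK-BEGIN LT/T6/Inf/H905/UniqCore.lean
section


/-!
# Row LT, sub-tower T6inf, leaf T6inf.04.5 -- the Mathlib-only core (helper905)

OFF-MAIN.  Uniqueness for the radial equation

    D'' + (coth u + tanh (u/2)) D' + μ D = 0      (u > 0)

at the regular singular point `0`: a `C²` function `D` on `ℝ` with `D 0 = 0`, `D' 0 = 0` which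
solves the equation on `u > 0` vanishes on `[0, ∞)`.

Route: `p = sinh u cosh² (u/2)`, `p' = p (coth u + tanh (u/2))`, so `(p D')' = -μ p D` on
`[0, ∞)` (at `0` both sides vanish); `p` is increasing on `[0, ∞)`, hence
`‖D' v‖ ≤ ‖μ‖ φ v`, `φ v = ∫₀^v ‖D‖`; mean value inequality `‖D u‖ ≤ ‖μ‖ u φ u`; Grönwall for
`φ` (`φ' = ‖D‖ ≤ ‖μ‖ U φ` on `[0, U]`, `φ 0 = 0`).
-/

set_option autoImplicit false

open MeasureTheory Set

noncomputable section

namespace Fermat.Agent.LT.T6.Inf.H905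

/-- The weight `p = sinh u cosh² (u/2)`. -/
def pw905 (u : ℝ) : ℝ := Real.sinh u * Real.cosh (u / 2) ^ 2

/-- The derivative of the weight. -/
def pwd905 (u : ℝ) : ℝ :=
  Real.cosh u * Real.cosh (u / 2) ^ 2 + Real.sinh u * (Real.cosh (u / 2) * Real.sinh (u / 2))

theorem hasDerivAt_pw905 (u : ℝ) : HasDerivAt pw905 (pwd905 u) u := by
  have h1 := Real.hasDerivAt_sinh u
  have h2 : HasDerivAt (fun x : ℝ => Real.cosh (x / 2)) (Real.sinh (u / 2) * (1 / 2)) u :=
    HasDerivAt.cosh ((hasDerivAt_id' u).div_const 2)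
  have h3 : HasDerivAt (fun x : ℝ => Real.cosh (x / 2) ^ 2)
      (((2 : ℕ) : ℝ) * Real.cosh (u / 2) ^ (2 - 1) * (Real.sinh (u / 2) * (1 / 2))) u :=
    h2.fun_pow 2
  have h4 : HasDerivAt (fun x : ℝ => Real.sinh x * Real.cosh (x / 2) ^ 2)
      (Real.cosh u * Real.cosh (u / 2) ^ 2
        + Real.sinh u * (((2 : ℕ) : ℝ) * Real.cosh (u / 2) ^ (2 - 1)
          * (Real.sinh (u / 2) * (1 / 2)))) u :=
    h1.fun_mul h3
  have h5 : pwd905 u = Real.cosh u * Real.cosh (u / 2) ^ 2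
      + Real.sinh u * (((2 : ℕ) : ℝ) * Real.cosh (u / 2) ^ (2 - 1)
        * (Real.sinh (u / 2) * (1 / 2))) := by
    unfold pwd905
    have e1 : (2 - 1 : ℕ) = 1 := rfl
    rw [e1, pow_one]
    push_cast
    ring
  rw [h5]
  exact h4

theorem continuous_pw905 : Continuous pw905 := by
  unfold pw905
  fun_prop

theorem pw_zero905 : pw905 0 = 0 := by
  unfold pw905
  simp

theorem pw_nonneg905 {u : ℝ} (hu : 0 ≤ u) : 0 ≤ pw905 u := by
  unfold pw905
  exact mul_nonneg (Real.sinh_nonneg_iff.mpr hu) (sq_nonneg _)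

theorem pw_pos905 {u : ℝ} (hu : 0 < u) : 0 < pw905 u := by
  unfold pw905
  exact mul_pos (Real.sinh_pos_iff.mpr hu) (pow_pos (Real.cosh_pos _) 2)

theorem pw_mono905 {s v : ℝ} (hs : 0 ≤ s) (hsv : s ≤ v) : pw905 s ≤ pw905 v := by
  unfold pw905
  have h1 : Real.sinh s ≤ Real.sinh v := Real.sinh_le_sinh.mpr hsv
  have h2 : Real.cosh (s / 2) ≤ Real.cosh (v / 2) := by
    rw [Real.cosh_le_cosh, abs_of_nonneg (by linarith), abs_of_nonneg (by linarith)]
    linarith
  have h3 : Real.cosh (s / 2) ^ 2 ≤ Real.cosh (v / 2) ^ 2 :=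
    pow_le_pow_left₀ (Real.cosh_pos _).le h2 2
  exact mul_le_mul h1 h3 (sq_nonneg _) ((Real.sinh_nonneg_iff.mpr hs).trans h1)

/-- `p (coth u + tanh (u/2)) = p'` on `u > 0`. -/
theorem pw_mul_coef905 {u : ℝ} (hu : 0 < u) :
    pw905 u * (Real.cosh u / Real.sinh u + Real.sinh (u / 2) / Real.cosh (u / 2)) = pwd905 u := by
  have h1 : Real.sinh u ≠ 0 := (Real.sinh_pos_iff.mpr hu).ne'
  have h2 : Real.cosh (u / 2) ≠ 0 := (Real.cosh_pos _).ne'
  unfold pw905 pwd905
  field_simp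

/-- **The core of T6inf.04.5.** -/
theorem ode_uniq_core905 (μ : ℂ) (D : ℝ → ℂ) (hD : ContDiff ℝ 2 D) (h0 : D 0 = 0)
    (h1 : deriv D 0 = 0)
    (hode : ∀ u : ℝ, 0 < u →
      deriv (deriv D) u
        + ((Real.cosh u / Real.sinh u + Real.sinh (u / 2) / Real.cosh (u / 2) : ℝ) : ℂ)
          * deriv D u + μ * D u = 0) :
    ∀ u : ℝ, 0 ≤ u → D u = 0 := by
  have hDd : Differentiable ℝ D := hD.differentiable (by norm_num)
  have hDc : Continuous D := hD.continuous
  have hD'd : Differentiable ℝ (deriv D) := hD.differentiable_deriv_two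
  have hnc : Continuous fun x => ‖D x‖ := hDc.norm
  -- the function `h = p D'` and its derivative
  have hh : ∀ x : ℝ, 0 ≤ x →
      HasDerivAt (fun y => ((pw905 y : ℝ) : ℂ) * deriv D y)
        (-(μ * ((pw905 x : ℝ) : ℂ) * D x)) x := by
    intro x hx
    have hraw := ((hasDerivAt_pw905 x).ofReal_comp).mul (hD'd x).hasDerivAt
    have heq : ((pwd905 x : ℝ) : ℂ) * deriv D x + ((pw905 x : ℝ) : ℂ) * deriv (deriv D) x
        = -(μ * ((pw905 x : ℝ) : ℂ) * D x) := by
      rcases hx.lt_or_eq with hpos | hzero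
      · have hc : ((pw905 x : ℝ) : ℂ)
            * ((Real.cosh x / Real.sinh x + Real.sinh (x / 2) / Real.cosh (x / 2) : ℝ) : ℂ)
            = ((pwd905 x : ℝ) : ℂ) := by
          rw [← Complex.ofReal_mul, pw_mul_coef905 hpos]
        linear_combination ((pw905 x : ℝ) : ℂ) * hode x hpos - deriv D x * hc
      · rw [← hzero, pw_zero905, h1]
        simp
    rw [heq] at hraw
    exact hraw
  -- the integral identity
  have hint : ∀ v : ℝ, 0 ≤ v →
      (∫ x in (0 : ℝ)..v, -(μ * ((pw905 x : ℝ) : ℂ) * D x))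
        = ((pw905 v : ℝ) : ℂ) * deriv D v := by
    intro v hv
    have hcont : Continuous fun x => -(μ * ((pw905 x : ℝ) : ℂ) * D x) :=
      ((continuous_const.mul (Complex.continuous_ofReal.comp continuous_pw905)).mul hDc).neg
    have := intervalIntegral.integral_eq_sub_of_hasDerivAt
      (f := fun y => ((pw905 y : ℝ) : ℂ) * deriv D y)
      (f' := fun x => -(μ * ((pw905 x : ℝ) : ℂ) * D x)) (a := 0) (b := v)
      (fun x hx => hh x (by rw [Set.uIcc_of_le hv] at hx; exact hx.1))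
      (hcont.intervalIntegrable _ _)
    rw [this, pw_zero905]
    simp
  -- the bound of `D'`
  have hbd : ∀ v : ℝ, 0 ≤ v → ‖deriv D v‖ ≤ ‖μ‖ * ∫ s in (0 : ℝ)..v, ‖D s‖ := by
    intro v hv
    rcases hv.lt_or_eq with hpos | hzero
    · have hp := pw_pos905 hpos
      have h2 : pw905 v * ‖deriv D v‖ ≤ pw905 v * (‖μ‖ * ∫ s in (0 : ℝ)..v, ‖D s‖) := by
        calc pw905 v * ‖deriv D v‖ = ‖((pw905 v : ℝ) : ℂ) * deriv D v‖ := by
              rw [norm_mul, Complex.norm_real, Real.norm_eq_abs, abs_of_pos hp]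
          _ = ‖∫ x in (0 : ℝ)..v, -(μ * ((pw905 x : ℝ) : ℂ) * D x)‖ := by rw [hint v hv]
          _ ≤ ∫ x in (0 : ℝ)..v, ‖-(μ * ((pw905 x : ℝ) : ℂ) * D x)‖ :=
              intervalIntegral.norm_integral_le_integral_norm hv
          _ ≤ ∫ x in (0 : ℝ)..v, ‖μ‖ * pw905 v * ‖D x‖ := by
              refine intervalIntegral.integral_mono_on hv ?_ ?_ ?_
              · exact (((continuous_const.mul
                  (Complex.continuous_ofReal.comp continuous_pw905)).mul hDc).neg.norm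
                  ).intervalIntegrable _ _
              · exact (continuous_const.mul hnc).intervalIntegrable _ _
              · intro x hx
                rw [norm_neg, norm_mul, norm_mul, Complex.norm_real, Real.norm_eq_abs,
                  abs_of_nonneg (pw_nonneg905 hx.1)]
                have := pw_mono905 hx.1 hx.2
                have hμ := norm_nonneg μ
                have hDx := norm_nonneg (D x)
                exact mul_le_mul_of_nonneg_right (mul_le_mul_of_nonneg_left this hμ) hDx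
          _ = pw905 v * (‖μ‖ * ∫ s in (0 : ℝ)..v, ‖D s‖) := by
              rw [intervalIntegral.integral_const_mul]
              ring
      exact le_of_mul_le_mul_left h2 hp
    · rw [← hzero, h1, norm_zero, intervalIntegral.integral_same, mul_zero]
  -- monotonicity of `φ`
  have hφmono : ∀ x u : ℝ, 0 ≤ x → x ≤ u →
      (∫ s in (0 : ℝ)..x, ‖D s‖) ≤ ∫ s in (0 : ℝ)..u, ‖D s‖ := by
    intro x u hx hxu
    have hadd := intervalIntegral.integral_add_adjacent_intervals (μ := volume)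
      (hnc.intervalIntegrable (μ := volume) 0 x) (hnc.intervalIntegrable (μ := volume) x u)
    have hnn : 0 ≤ ∫ s in x..u, ‖D s‖ :=
      intervalIntegral.integral_nonneg hxu fun s _ => norm_nonneg _
    linarith
  have hφnn : ∀ u : ℝ, 0 ≤ u → 0 ≤ ∫ s in (0 : ℝ)..u, ‖D s‖ := fun u hu =>
    intervalIntegral.integral_nonneg hu fun s _ => norm_nonneg _
  -- the bound of `D`
  have hDb : ∀ u : ℝ, 0 ≤ u → ‖D u‖ ≤ ‖μ‖ * (∫ s in (0 : ℝ)..u, ‖D s‖) * u := by
    intro u hu
    have hseg := norm_image_sub_le_of_norm_deriv_le_segment' (f := D) (f' := deriv D)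
      (a := 0) (b := u) (C := ‖μ‖ * ∫ s in (0 : ℝ)..u, ‖D s‖)
      (fun x _ => (hDd x).hasDerivAt.hasDerivWithinAt)
      (fun x hx => (hbd x hx.1).trans
        (mul_le_mul_of_nonneg_left (hφmono x u hx.1 hx.2.le) (norm_nonneg μ)))
      u ⟨hu, le_rfl⟩
    rw [h0, sub_zero, sub_zero] at hseg
    exact hseg
  -- Grönwall
  intro U hU
  have hgr := norm_le_gronwallBound_of_norm_deriv_right_le
    (f := fun u => ∫ s in (0 : ℝ)..u, ‖D s‖) (f' := fun x => ‖D x‖) (δ := 0)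
    (K := ‖μ‖ * U) (ε := 0) (a := 0) (b := U)
    (by
      have : Continuous fun u => ∫ s in (0 : ℝ)..u, ‖D s‖ :=
        intervalIntegral.continuous_primitive (fun a b => hnc.intervalIntegrable a b) 0
      exact this.continuousOn)
    (fun x _ => (intervalIntegral.integral_hasDerivAt_right (hnc.intervalIntegrable 0 x)
      (hnc.stronglyMeasurableAtFilter volume _) hnc.continuousAt).hasDerivWithinAt)
    (by simp)
    (fun x hx => by
      rw [add_zero, Real.norm_eq_abs, Real.norm_eq_abs, abs_of_nonneg (norm_nonneg _),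
        abs_of_nonneg (hφnn x hx.1)]
      have h := hDb x hx.1
      have hφ := hφnn x hx.1
      have hμ := norm_nonneg μ
      calc ‖D x‖ ≤ ‖μ‖ * (∫ s in (0 : ℝ)..x, ‖D s‖) * x := h
        _ ≤ ‖μ‖ * (∫ s in (0 : ℝ)..x, ‖D s‖) * U :=
            mul_le_mul_of_nonneg_left hx.2.le (mul_nonneg hμ hφ)
        _ = ‖μ‖ * U * ∫ s in (0 : ℝ)..x, ‖D s‖ := by ring)
    U ⟨hU, le_rfl⟩
  rw [gronwallBound_ε0_δ0, Real.norm_eq_abs, abs_of_nonneg (hφnn U hU)] at hgr
  have hφ0 : (∫ s in (0 : ℝ)..U, ‖D s‖) = 0 := le_antisymm hgr (hφnn U hU)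
  have := hDb U hU
  rw [hφ0, mul_zero, zero_mul] at this
  exact norm_le_zero_iff.mp this

end Fermat.Agent.LT.T6.Inf.H905

end
end
-- ===== PACK-END LT/T6/Inf/H905/UniqCore.lean

-- ===== PACK-BEGIN LT/T7/H16/IwLocal.lean
section


/-!
# Row LT, tower T7, asset T7.L2.R (helper16): the Iwahori subgroup of `GL₂` of a discretely
valued field, matrix form

OFF-MAIN.  Mathlib only.  `F` a field with a valuation `v` with values in `ℤᵐ⁰`.

* `IsGLO16 v x` : `x ∈ GL₂(𝒪)` (integral entries, determinant a unit);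
* `IsIw16 v x` : `x` lies in the Iwahori subgroup `I` (lower left entry of valuation `< 1`);
* `IsJ16 v x` : `x ∈ GL₂(𝒪) \ I` (lower left entry a unit).

Closure under products and inverses, conjugation by `ω = antidiag(1, c)` (`v c = exp (-1)`)
preserves `I`, `I diag(c', 1) I ω⁻¹ ⊆ GL₂(𝒪) \ I`, and the Bruhat decomposition
`GL₂(𝒪) \ I = I s I`, `s = antidiag(1, 1)`.
-/

set_option autoImplicit false

namespace Fermat.Agent.LT.T7.H16

open Matrix WithZero

variable {F : Type*} [Field F] (v : Valuation F ℤᵐ⁰)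

/-- `x ∈ GL₂(𝒪)`: integral entries and a determinant of valuation `1`. -/
def IsGLO16 (x : Matrix (Fin 2) (Fin 2) F) : Prop :=
  (∀ i j, v (x i j) ≤ 1) ∧ v x.det = 1

/-- `x` lies in the Iwahori subgroup. -/
def IsIw16 (x : Matrix (Fin 2) (Fin 2) F) : Prop :=
  IsGLO16 v x ∧ v (x 1 0) < 1

/-- `x ∈ GL₂(𝒪)` does not lie in the Iwahori subgroup. -/
def IsJ16 (x : Matrix (Fin 2) (Fin 2) F) : Prop :=
  IsGLO16 v x ∧ v (x 1 0) = 1

variable {v}

theorem lt_one_iff_le16 {a : ℤᵐ⁰} : a < 1 ↔ a ≤ exp (-1 : ℤ) := by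
  have h := WithZero.lt_mul_exp_iff_le (x := a) (y := exp (-1 : ℤ)) exp_ne_zero
  rw [← exp_add] at h
  simpa using h

theorem exp_neg_one_lt_one16 : (exp (-1 : ℤ) : ℤᵐ⁰) < 1 := lt_one_iff_le16.2 le_rfl

theorem ne_zero_of_v16 {c : F} (hc : v c = exp (-1 : ℤ)) : c ≠ 0 := by
  intro h
  rw [h, map_zero] at hc
  exact exp_ne_zero hc.symm

theorem v_add_le16 {a b : F} (ha : v a ≤ 1) (hb : v b ≤ 1) : v (a + b) ≤ 1 :=
  (v.map_add a b).trans (max_le ha hb)

theorem v_add_lt16 {a b : F} (ha : v a < 1) (hb : v b < 1) : v (a + b) < 1 :=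
  lt_of_le_of_lt (v.map_add a b) (max_lt ha hb)

theorem v_mul_le16 {a b : F} (ha : v a ≤ 1) (hb : v b ≤ 1) : v (a * b) ≤ 1 := by
  rw [map_mul]
  calc v a * v b ≤ 1 * 1 := mul_le_mul' ha hb
    _ = 1 := one_mul 1

theorem v_mul_lt_left16 {a b : F} (ha : v a < 1) (hb : v b ≤ 1) : v (a * b) < 1 := by
  rw [map_mul]
  calc v a * v b ≤ v a * 1 := mul_le_mul' le_rfl hb
    _ = v a := mul_one _
    _ < 1 := ha

theorem v_mul_lt_right16 {a b : F} (ha : v a ≤ 1) (hb : v b < 1) : v (a * b) < 1 := by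
  rw [mul_comm]
  exact v_mul_lt_left16 hb ha

theorem v_neg_le16 {a : F} (ha : v a ≤ 1) : v (-a) ≤ 1 := by rwa [Valuation.map_neg]

theorem v_sub_le16 {a b : F} (ha : v a ≤ 1) (hb : v b ≤ 1) : v (a - b) ≤ 1 := by
  rw [sub_eq_add_neg]
  exact v_add_le16 ha (v_neg_le16 hb)

/-! ## `GL₂(𝒪)` -/

theorem isGLO16_one : IsGLO16 v (1 : Matrix (Fin 2) (Fin 2) F) := by
  refine ⟨fun i j => ?_, by rw [det_one, map_one]⟩
  by_cases h : i = j
  · subst h
    rw [one_apply_eq, map_one]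
  · rw [one_apply_ne h, map_zero]
    exact zero_le_one

theorem isGLO16_mul {x y : Matrix (Fin 2) (Fin 2) F} (hx : IsGLO16 v x) (hy : IsGLO16 v y) :
    IsGLO16 v (x * y) := by
  refine ⟨fun i j => ?_, by rw [det_mul, map_mul, hx.2, hy.2, one_mul]⟩
  rw [mul_apply, Fin.sum_univ_two]
  exact v_add_le16 (v_mul_le16 (hx.1 i 0) (hy.1 0 j)) (v_mul_le16 (hx.1 i 1) (hy.1 1 j))

theorem det_ne_zero16 {x : Matrix (Fin 2) (Fin 2) F} (hx : IsGLO16 v x) : x.det ≠ 0 := by
  intro h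
  have := hx.2
  rw [h, map_zero] at this
  exact zero_ne_one this

theorem inv_eq16 {x : Matrix (Fin 2) (Fin 2) F} (hx : x.det ≠ 0) :
    x⁻¹ = !![x 1 1 / x.det, -(x 0 1) / x.det; -(x 1 0) / x.det, x 0 0 / x.det] := by
  rw [Matrix.inv_def, Ring.inverse_eq_inv', Matrix.adjugate_fin_two]
  ext i j
  fin_cases i <;> fin_cases j <;> simp [div_eq_inv_mul]

theorem v_div_det16 {x : Matrix (Fin 2) (Fin 2) F} (hx : IsGLO16 v x) (a : F) :
    v (a / x.det) = v a := by
  rw [map_div₀, hx.2, div_one]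

theorem isGLO16_inv {x : Matrix (Fin 2) (Fin 2) F} (hx : IsGLO16 v x) : IsGLO16 v x⁻¹ := by
  have hd := det_ne_zero16 hx
  refine ⟨fun i j => ?_, ?_⟩
  · rw [inv_eq16 hd]
    fin_cases i <;> fin_cases j
    · show v (x 1 1 / x.det) ≤ 1
      rw [v_div_det16 hx]; exact hx.1 1 1
    · show v (-(x 0 1) / x.det) ≤ 1
      rw [v_div_det16 hx, Valuation.map_neg]; exact hx.1 0 1
    · show v (-(x 1 0) / x.det) ≤ 1
      rw [v_div_det16 hx, Valuation.map_neg]; exact hx.1 1 0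
    · show v (x 0 0 / x.det) ≤ 1
      rw [v_div_det16 hx]; exact hx.1 0 0
  · rw [Matrix.det_nonsing_inv, Ring.inverse_eq_inv', map_inv₀, hx.2, inv_one]

/-! ## The Iwahori subgroup -/

theorem isIw16_one : IsIw16 v (1 : Matrix (Fin 2) (Fin 2) F) := by
  refine ⟨isGLO16_one, ?_⟩
  rw [one_apply_ne (by decide : (1 : Fin 2) ≠ 0), map_zero]
  exact zero_lt_one

theorem isIw16_mul {x y : Matrix (Fin 2) (Fin 2) F} (hx : IsIw16 v x) (hy : IsIw16 v y) :
    IsIw16 v (x * y) := by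
  refine ⟨isGLO16_mul hx.1 hy.1, ?_⟩
  rw [mul_apply, Fin.sum_univ_two]
  exact v_add_lt16 (v_mul_lt_left16 hx.2 (hy.1.1 0 0)) (v_mul_lt_right16 (hx.1.1 1 1) hy.2)

theorem isIw16_inv {x : Matrix (Fin 2) (Fin 2) F} (hx : IsIw16 v x) : IsIw16 v x⁻¹ := by
  refine ⟨isGLO16_inv hx.1, ?_⟩
  rw [inv_eq16 (det_ne_zero16 hx.1)]
  show v (-(x 1 0) / x.det) < 1
  rw [v_div_det16 hx.1, Valuation.map_neg]
  exact hx.2

/-- The diagonal entries of an Iwahori matrix are units. -/
theorem IsIw16.diag {x : Matrix (Fin 2) (Fin 2) F} (hx : IsIw16 v x) :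
    v (x 0 0) = 1 ∧ v (x 1 1) = 1 := by
  have hdet := hx.1.2
  rw [det_fin_two] at hdet
  have hsmall : v (x 0 1 * x 1 0) < 1 := v_mul_lt_right16 (hx.1.1 0 1) hx.2
  have e : x 0 0 * x 1 1 = (x 0 0 * x 1 1 - x 0 1 * x 1 0) + x 0 1 * x 1 0 := by ring
  have hprod : v (x 0 0) * v (x 1 1) = 1 := by
    rw [← map_mul, e, Valuation.map_add_eq_of_lt_left v (by rw [hdet]; exact hsmall)]
    exact hdet
  have h0 : v (x 0 0) = 1 := by
    refine le_antisymm (hx.1.1 0 0) ?_
    by_contra hlt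
    rw [not_le] at hlt
    have : v (x 0 0) * v (x 1 1) < 1 := by
      calc v (x 0 0) * v (x 1 1) ≤ v (x 0 0) * 1 := mul_le_mul' le_rfl (hx.1.1 1 1)
        _ = v (x 0 0) := mul_one _
        _ < 1 := hlt
    rw [hprod] at this
    exact lt_irrefl _ this
  refine ⟨h0, ?_⟩
  rw [h0, one_mul] at hprod
  exact hprod

/-- In `GL₂(𝒪)`: not Iwahori iff the lower left entry is a unit. -/
theorem isJ16_of_not_isIw {x : Matrix (Fin 2) (Fin 2) F} (hx : IsGLO16 v x)
    (h : ¬ IsIw16 v x) : IsJ16 v x := by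
  refine ⟨hx, le_antisymm (hx.1 1 0) ?_⟩
  by_contra hlt
  rw [not_le] at hlt
  exact h ⟨hx, hlt⟩

theorem not_isIw16_of_isJ {x : Matrix (Fin 2) (Fin 2) F} (hx : IsJ16 v x) : ¬ IsIw16 v x :=
  fun h => absurd hx.2 (ne_of_lt h.2)

/-! ## Conjugation by `ω = antidiag(1, c)` -/

/-- `ω = [[0, 1], [c, 0]]`. -/
def omegaM16 (c : F) : Matrix (Fin 2) (Fin 2) F := !![0, 1; c, 0]

/-- `ω⁻¹ = [[0, c⁻¹], [1, 0]]`. -/
def omegaInvM16 (c : F) : Matrix (Fin 2) (Fin 2) F := !![0, c⁻¹; 1, 0]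

theorem omegaM16_mul_inv {c : F} (hc : c ≠ 0) : omegaM16 c * omegaInvM16 c = 1 := by
  unfold omegaM16 omegaInvM16
  ext i j
  fin_cases i <;> fin_cases j <;> simp [Matrix.mul_apply, Fin.sum_univ_two, hc]

theorem omegaInvM16_mul {c : F} (hc : c ≠ 0) : omegaInvM16 c * omegaM16 c = 1 := by
  unfold omegaM16 omegaInvM16
  ext i j
  fin_cases i <;> fin_cases j <;> simp [Matrix.mul_apply, Fin.sum_univ_two, hc]

theorem omegaM16_sq (c : F) : omegaM16 c * omegaM16 c = Matrix.diagonal (fun _ => c) := by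
  unfold omegaM16
  ext i j
  fin_cases i <;> fin_cases j <;> simp [Matrix.mul_apply, Fin.sum_univ_two]

theorem conj_omega16 {c : F} (hc : c ≠ 0) (x : Matrix (Fin 2) (Fin 2) F) :
    omegaInvM16 c * x * omegaM16 c = !![x 1 1, x 1 0 / c; c * x 0 1, x 0 0] := by
  unfold omegaM16 omegaInvM16
  conv_lhs => rw [Matrix.eta_fin_two x]
  rw [Matrix.mul_fin_two, Matrix.mul_fin_two]
  have h00 : (0 * x 0 0 + c⁻¹ * x 1 0) * 0 + (0 * x 0 1 + c⁻¹ * x 1 1) * c = x 1 1 := by
    field_simp <;> ring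
  have h01 : (0 * x 0 0 + c⁻¹ * x 1 0) * 1 + (0 * x 0 1 + c⁻¹ * x 1 1) * 0 = x 1 0 / c := by
    field_simp <;> ring
  have h10 : (1 * x 0 0 + 0 * x 1 0) * 0 + (1 * x 0 1 + 0 * x 1 1) * c = c * x 0 1 := by
    ring
  have h11 : (1 * x 0 0 + 0 * x 1 0) * 1 + (1 * x 0 1 + 0 * x 1 1) * 0 = x 0 0 := by
    ring
  rw [h00, h01, h10, h11]

theorem conj_omega16' {c : F} (hc : c ≠ 0) (x : Matrix (Fin 2) (Fin 2) F) :
    omegaM16 c * x * omegaInvM16 c = !![x 1 1, x 1 0 / c; c * x 0 1, x 0 0] := by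
  unfold omegaM16 omegaInvM16
  conv_lhs => rw [Matrix.eta_fin_two x]
  rw [Matrix.mul_fin_two, Matrix.mul_fin_two]
  have h00 : (0 * x 0 0 + 1 * x 1 0) * 0 + (0 * x 0 1 + 1 * x 1 1) * 1 = x 1 1 := by
    ring
  have h01 : (0 * x 0 0 + 1 * x 1 0) * c⁻¹ + (0 * x 0 1 + 1 * x 1 1) * 0 = x 1 0 / c := by
    field_simp <;> ring
  have h10 : (c * x 0 0 + 0 * x 1 0) * 0 + (c * x 0 1 + 0 * x 1 1) * 1 = c * x 0 1 := by
    ring
  have h11 : (c * x 0 0 + 0 * x 1 0) * c⁻¹ + (c * x 0 1 + 0 * x 1 1) * 0 = x 0 0 := by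
    field_simp <;> ring
  rw [h00, h01, h10, h11]

theorem isIw16_conjForm {c : F} (hc : v c = exp (-1 : ℤ)) {x : Matrix (Fin 2) (Fin 2) F}
    (hx : IsIw16 v x) : IsIw16 v !![x 1 1, x 1 0 / c; c * x 0 1, x 0 0] := by
  have hc0 : c ≠ 0 := by
    intro h
    rw [h, map_zero] at hc
    exact exp_ne_zero hc.symm
  have hclt : v c < 1 := by rw [hc]; exact exp_neg_one_lt_one16
  refine ⟨⟨fun i j => ?_, ?_⟩, ?_⟩
  · fin_cases i <;> fin_cases j
    · exact hx.1.1 1 1
    · show v (x 1 0 / c) ≤ 1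
      rw [map_div₀, hc]
      have h1 : v (x 1 0) ≤ exp (-1 : ℤ) := lt_one_iff_le16.1 hx.2
      rw [div_le_one₀ exp_pos]
      exact h1
    · show v (c * x 0 1) ≤ 1
      exact v_mul_le16 hclt.le (hx.1.1 0 1)
    · exact hx.1.1 0 0
  · rw [det_fin_two_of]
    have : x 1 1 * x 0 0 - x 1 0 / c * (c * x 0 1) = x.det := by
      rw [det_fin_two]
      field_simp <;> ring
    rw [this]
    exact hx.1.2
  · show v (c * x 0 1) < 1
    exact v_mul_lt_left16 hclt (hx.1.1 0 1)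

theorem isIw16_conj {c : F} (hc : v c = exp (-1 : ℤ)) {x : Matrix (Fin 2) (Fin 2) F}
    (hx : IsIw16 v x) : IsIw16 v (omegaInvM16 c * x * omegaM16 c) := by
  rw [conj_omega16 (ne_zero_of_v16 hc)]
  exact isIw16_conjForm hc hx

theorem isIw16_conj' {c : F} (hc : v c = exp (-1 : ℤ)) {x : Matrix (Fin 2) (Fin 2) F}
    (hx : IsIw16 v x) : IsIw16 v (omegaM16 c * x * omegaInvM16 c) := by
  rw [conj_omega16' (ne_zero_of_v16 hc)]
  exact isIw16_conjForm hc hx

/-! ## The double coset `I diag(c', 1) I` -/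

theorem diag_mul_omegaInv16 (c c' : F) :
    !![c', 0; 0, 1] * omegaInvM16 c = !![0, c' / c; 1, 0] := by
  unfold omegaInvM16
  ext i j
  fin_cases i <;> fin_cases j <;> simp [Matrix.mul_apply, Fin.sum_univ_two, div_eq_mul_inv]

theorem isJ16_weyl {u : F} (hu : v u = 1) : IsJ16 v !![0, u; 1, 0] := by
  refine ⟨⟨fun i j => ?_, ?_⟩, ?_⟩
  · fin_cases i <;> fin_cases j
    · show v (0 : F) ≤ 1
      rw [map_zero]; exact zero_le_one
    · show v u ≤ 1
      exact hu.le
    · show v (1 : F) ≤ 1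
      rw [map_one]
    · show v (0 : F) ≤ 1
      rw [map_zero]; exact zero_le_one
  · rw [det_fin_two_of]
    simp [hu]
  · show v (1 : F) = 1
    exact map_one v

/-- `I · J · I ⊆ J`. -/
theorem isJ16_mul_mul {k₁ s k₂ : Matrix (Fin 2) (Fin 2) F} (h₁ : IsIw16 v k₁)
    (hs : IsJ16 v s) (h₂ : IsIw16 v k₂) : IsJ16 v (k₁ * s * k₂) := by
  have hG : IsGLO16 v (k₁ * s * k₂) := isGLO16_mul (isGLO16_mul h₁.1 hs.1) h₂.1
  refine isJ16_of_not_isIw hG fun hI => not_isIw16_of_isJ hs ?_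
  have hd₁ := det_ne_zero16 h₁.1
  have hd₂ := det_ne_zero16 h₂.1
  have e : s = k₁⁻¹ * (k₁ * s * k₂) * k₂⁻¹ := by
    rw [Matrix.mul_assoc k₁ s k₂, ← Matrix.mul_assoc k₁⁻¹, Matrix.nonsing_inv_mul _ (isUnit_iff_ne_zero.2 hd₁),
      Matrix.one_mul, Matrix.mul_assoc, Matrix.mul_nonsing_inv _ (isUnit_iff_ne_zero.2 hd₂),
      Matrix.mul_one]
  rw [e]
  exact isIw16_mul (isIw16_mul (isIw16_inv h₁) hI) (isIw16_inv h₂)

/-- `I diag(c', 1) I ω⁻¹ ⊆ GL₂(𝒪) \ I`. -/
theorem isJ16_coset {c c' : F} (hc : v c = exp (-1 : ℤ)) (hc' : v c' = exp (-1 : ℤ))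
    {k₁ k₂ : Matrix (Fin 2) (Fin 2) F} (h₁ : IsIw16 v k₁) (h₂ : IsIw16 v k₂) :
    IsJ16 v (k₁ * !![c', 0; 0, 1] * k₂ * omegaInvM16 c) := by
  have hc0 : c ≠ 0 := by
    intro h
    rw [h, map_zero] at hc
    exact exp_ne_zero hc.symm
  have e : k₁ * !![c', 0; 0, 1] * k₂ * omegaInvM16 c
      = k₁ * !![0, c' / c; 1, 0] * (omegaM16 c * k₂ * omegaInvM16 c) := by
    rw [← diag_mul_omegaInv16]
    simp only [Matrix.mul_assoc]
    rw [← Matrix.mul_assoc (omegaInvM16 c) (omegaM16 c), omegaInvM16_mul hc0, Matrix.one_mul]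
  rw [e]
  refine isJ16_mul_mul h₁ (isJ16_weyl ?_) (isIw16_conj' hc h₂)
  rw [map_div₀, hc, hc']
  exact div_self exp_ne_zero

/-! ## Bruhat -/

/-- `GL₂(𝒪) \ I = I s I`. -/
theorem bruhat16 {x : Matrix (Fin 2) (Fin 2) F} (hx : IsJ16 v x) :
    ∃ n b : Matrix (Fin 2) (Fin 2) F, IsIw16 v n ∧ IsIw16 v b ∧ x = n * !![0, 1; 1, 0] * b := by
  have hc0 : x 1 0 ≠ 0 := by
    intro h
    have := hx.2
    rw [h, map_zero] at this
    exact zero_ne_one this
  refine ⟨!![1, x 0 0 / x 1 0; 0, 1], !![x 1 0, x 1 1; 0, -(x.det / x 1 0)], ?_, ?_, ?_⟩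
  · refine ⟨⟨fun i j => ?_, ?_⟩, ?_⟩
    · fin_cases i <;> fin_cases j
      · show v (1 : F) ≤ 1
        rw [map_one]
      · show v (x 0 0 / x 1 0) ≤ 1
        rw [map_div₀, hx.2, div_one]
        exact hx.1.1 0 0
      · show v (0 : F) ≤ 1
        rw [map_zero]; exact zero_le_one
      · show v (1 : F) ≤ 1
        rw [map_one]
    · rw [det_fin_two_of]
      simp
    · show v (0 : F) < 1
      rw [map_zero]; exact zero_lt_one
  · refine ⟨⟨fun i j => ?_, ?_⟩, ?_⟩
    · fin_cases i <;> fin_cases j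
      · exact hx.1.1 1 0
      · exact hx.1.1 1 1
      · show v (0 : F) ≤ 1
        rw [map_zero]; exact zero_le_one
      · show v (-(x.det / x 1 0)) ≤ 1
        rw [Valuation.map_neg, map_div₀, hx.2, hx.1.2, div_one]
    · rw [det_fin_two_of]
      have : x 1 0 * -(x.det / x 1 0) - x 1 1 * 0 = -x.det := by
        field_simp <;> ring
      rw [this, Valuation.map_neg]
      exact hx.1.2
    · show v (0 : F) < 1
      rw [map_zero]; exact zero_lt_one
  · ext i j
    fin_cases i <;> fin_cases j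
    · simp [Matrix.mul_apply, Fin.sum_univ_two]
      field_simp
    · simp [Matrix.mul_apply, Fin.sum_univ_two, det_fin_two]
      field_simp
      ring
    · simp [Matrix.mul_apply, Fin.sum_univ_two]
    · simp [Matrix.mul_apply, Fin.sum_univ_two]

end Fermat.Agent.LT.T7.H16

end
-- ===== PACK-END LT/T7/H16/IwLocal.lean

-- ===== PACK-BEGIN LT/T7/H222/PushParCore.lean
section


/-!
# Row LT, tower T7, leaf T7.L2.1.RT4 `PushParC` (registry 2582): Mathlib-only core (helper222)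

OFF-MAIN.  `N` linear with `N (B (inl i)) = b i`, `N (B (inr j)) = 0` maps the fundamental
parallelepiped of `B` onto the one of `b` and the normalised Lebesgue measure to the normalised
Lebesgue measure.  No project vocabulary; the VERBATIM leaf is in `PushPar.lean`.
-/

set_option autoImplicit false

open MeasureTheory

noncomputable section

namespace Fermat.Agent.LT.T7.H222

/-- The unit cube `[0,1)^κ`. -/
def cube222 (κ : Type) : Set (κ → ℝ) := Set.pi Set.univ fun _ : κ => Set.Ico (0 : ℝ) 1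

theorem measurableSet_cube222 (κ : Type) [Fintype κ] : MeasurableSet (cube222 κ) :=
  MeasurableSet.pi Set.countable_univ fun _ _ => measurableSet_Ico

theorem volume_cube222 (κ : Type) [Fintype κ] : volume (cube222 κ) = 1 := by
  unfold cube222
  rw [volume_pi, Measure.pi_pi]
  simp [Real.volume_Ico]

theorem mem_cube222 {κ : Type} (x : κ → ℝ) : x ∈ cube222 κ ↔ ∀ k, x k ∈ Set.Ico (0 : ℝ) 1 := by
  simp [cube222]

/-- The normalised integral over the fundamental parallelepiped of a basis is the integral over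
the unit cube in the coordinates of the basis (no integrability hypothesis). -/
theorem normalized_integral_fundamentalDomain222 {κ κ' : Type} [Fintype κ] [Fintype κ']
    (B : Module.Basis κ ℝ (κ' → ℝ)) (f : (κ' → ℝ) → ℂ) :
    (((volume (ZSpan.fundamentalDomain B)).toReal : ℝ) : ℂ)⁻¹
        * ∫ t in ZSpan.fundamentalDomain B, f t
      = ∫ x in cube222 κ, f (B.equivFun.symm x) := by
  classical
  set e : (κ' → ℝ) ≃L[ℝ] (κ → ℝ) := B.equivFun.toContinuousLinearEquiv with he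
  have hecoe : ∀ t, e t = B.equivFun t := fun t => rfl
  have hesymm : ∀ x, e.symm x = B.equivFun.symm x := fun x => rfl
  set em : (κ' → ℝ) ≃ᵐ (κ → ℝ) := e.toHomeomorph.toMeasurableEquiv with hem
  have hemcoe : ∀ t, em t = B.equivFun t := fun t => rfl
  have hemsymm : ∀ x, em.symm x = B.equivFun.symm x := fun x => rfl
  set ν : Measure (κ → ℝ) := Measure.map e (volume : Measure (κ' → ℝ)) with hν
  have : ν.IsAddHaarMeasure := e.isAddHaarMeasure_map volume
  have hνem : Measure.map em (volume : Measure (κ' → ℝ)) = ν := rfl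
  set c : NNReal := Measure.addHaarScalarFactor ν (volume : Measure (κ → ℝ)) with hc
  have hsm : ν = c • (volume : Measure (κ → ℝ)) :=
    Measure.isAddLeftInvariant_eq_smul ν volume
  have hQ := measurableSet_cube222 κ
  have hpre : em ⁻¹' cube222 κ = ZSpan.fundamentalDomain B := by
    ext t
    simp only [Set.mem_preimage, mem_cube222, ZSpan.mem_fundamentalDomain, hemcoe,
      Module.Basis.equivFun_apply]
  -- the volume of the parallelepiped
  have hvol : volume (ZSpan.fundamentalDomain B) = (c : ENNReal) := by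
    have h1 : ν (cube222 κ) = volume (em ⁻¹' cube222 κ) := by
      rw [← hνem]; exact em.map_apply _
    rw [← hpre, ← h1, hsm]
    simp [volume_cube222]
  have hc0 : c ≠ 0 := by
    intro h0
    have := ZSpan.measure_fundamentalDomain_ne_zero B (μ := (volume : Measure (κ' → ℝ)))
    rw [hvol, h0] at this
    exact this (by simp)
  -- change of variables
  have hint : ∫ t in ZSpan.fundamentalDomain B, f t
      = (c : ℝ) • ∫ x in cube222 κ, f (B.equivFun.symm x) := by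
    have h2 := setIntegral_map_equiv (μ := (volume : Measure (κ' → ℝ))) em
      (fun x => f (B.equivFun.symm x)) (cube222 κ)
    rw [hpre, hνem] at h2
    have h3 : ∀ t, f (B.equivFun.symm (em t)) = f t := by
      intro t
      rw [hemcoe, LinearEquiv.symm_apply_apply]
    simp only [h3] at h2
    rw [← h2, hsm, Measure.restrict_smul, integral_smul_nnreal_measure]
    rfl
  rw [hint, hvol]
  simp only [ENNReal.coe_toReal, Complex.real_smul]
  have hcC : ((c : ℝ) : ℂ) ≠ 0 := by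
    exact_mod_cast hc0
  field_simp

/-- Fubini on the unit cube of a sum type: a function of the `inl` coordinates. -/
theorem integral_cube_sum_inl222 {ι J : Type} [Fintype ι] [Fintype J] (g : (ι → ℝ) → ℂ) :
    ∫ x in cube222 (ι ⊕ J), g (fun i => x (Sum.inl i)) = ∫ y in cube222 ι, g y := by
  classical
  have hQ := measurableSet_cube222 (ι ⊕ J)
  have hQι := measurableSet_cube222 ι
  have hQJ := measurableSet_cube222 J
  set E := MeasurableEquiv.sumPiEquivProdPi (fun _ : ι ⊕ J => ℝ) with hE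
  have hmp : MeasurePreserving E volume volume :=
    volume_measurePreserving_sumPiEquivProdPi (fun _ : ι ⊕ J => ℝ)
  have hE1 : ∀ x : ι ⊕ J → ℝ, (E x).1 = fun i => x (Sum.inl i) := fun x => rfl
  have hE2 : ∀ x : ι ⊕ J → ℝ, (E x).2 = fun j => x (Sum.inr j) := fun x => rfl
  -- the integrand on the product
  set Φ : (ι → ℝ) × (J → ℝ) → ℂ :=
    fun p => (cube222 ι).indicator g p.1 * (cube222 J).indicator (fun _ => (1 : ℂ)) p.2 with hΦ
  have hcomp : ∀ x : ι ⊕ J → ℝ,
      (cube222 (ι ⊕ J)).indicator (fun x => g (fun i => x (Sum.inl i))) x = Φ (E x) := by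
    intro x
    simp only [hΦ, hE1, hE2]
    by_cases hx : x ∈ cube222 (ι ⊕ J)
    · have h1 : (fun i => x (Sum.inl i)) ∈ cube222 ι := by
        rw [mem_cube222] at hx ⊢
        exact fun i => hx _
      have h2 : (fun j => x (Sum.inr j)) ∈ cube222 J := by
        rw [mem_cube222] at hx ⊢
        exact fun j => hx _
      rw [Set.indicator_of_mem hx, Set.indicator_of_mem h1, Set.indicator_of_mem h2, mul_one]
    · rw [Set.indicator_of_notMem hx]
      by_cases h1 : (fun i => x (Sum.inl i)) ∈ cube222 ι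
      · have h2 : (fun j => x (Sum.inr j)) ∉ cube222 J := by
          intro h2
          apply hx
          rw [mem_cube222] at h1 h2 ⊢
          rintro (i | j)
          · exact h1 i
          · exact h2 j
        rw [Set.indicator_of_notMem h2, mul_zero]
      · rw [Set.indicator_of_notMem h1, zero_mul]
  calc ∫ x in cube222 (ι ⊕ J), g (fun i => x (Sum.inl i))
      = ∫ x, (cube222 (ι ⊕ J)).indicator (fun x => g (fun i => x (Sum.inl i))) x := by
        rw [integral_indicator hQ]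
    _ = ∫ x, Φ (E x) := by simp only [hcomp]
    _ = ∫ p, Φ p := hmp.integral_comp' Φ
    _ = (∫ y, (cube222 ι).indicator g y) * ∫ z, (cube222 J).indicator (fun _ => (1 : ℂ)) z := by
        rw [hΦ]
        exact integral_prod_mul (μ := (volume : Measure (ι → ℝ)))
          (ν := (volume : Measure (J → ℝ))) _ _
    _ = ∫ y in cube222 ι, g y := by
        rw [integral_indicator hQι, integral_indicator hQJ]
        simp [volume_cube222, Measure.real]

/-- **Core of `PushParC`.** -/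
theorem pushPar_core222 (ι ι' J : Type) [Fintype ι] [Fintype ι'] [Fintype J]
    (N : (ι' → ℝ) →ₗ[ℝ] (ι → ℝ)) (b : Module.Basis ι ℝ (ι → ℝ))
    (B : Module.Basis (ι ⊕ J) ℝ (ι' → ℝ))
    (hl : ∀ i, N (B (Sum.inl i)) = b i) (hr : ∀ j, N (B (Sum.inr j)) = 0) :
    (∀ t' ∈ ZSpan.fundamentalDomain B, N t' ∈ ZSpan.fundamentalDomain b) ∧
    (∀ t ∈ ZSpan.fundamentalDomain b, ∃ t' ∈ ZSpan.fundamentalDomain B, N t' = t) ∧
    ∀ h : (ι → ℝ) → ℂ, IntegrableOn h (ZSpan.fundamentalDomain b) volume →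
      (((volume (ZSpan.fundamentalDomain B)).toReal : ℝ) : ℂ)⁻¹
          * ∫ t' in ZSpan.fundamentalDomain B, h (N t')
        = (((volume (ZSpan.fundamentalDomain b)).toReal : ℝ) : ℂ)⁻¹
          * ∫ t in ZSpan.fundamentalDomain b, h t := by
  classical
  -- `N` in coordinates
  have hN : ∀ x : ι ⊕ J → ℝ, N (B.equivFun.symm x) = b.equivFun.symm (fun i => x (Sum.inl i)) := by
    intro x
    rw [Module.Basis.equivFun_symm_apply, Module.Basis.equivFun_symm_apply, map_sum,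
      Fintype.sum_sum_type]
    simp only [map_smul, hl, hr, smul_zero, Finset.sum_const_zero, add_zero]
  have hrepr : ∀ t' : ι' → ℝ, ∀ i, b.repr (N t') i = B.repr t' (Sum.inl i) := by
    intro t' i
    have h1 : t' = B.equivFun.symm (B.equivFun t') := (LinearEquiv.symm_apply_apply _ _).symm
    have h2 : N t' = b.equivFun.symm (fun i => B.equivFun t' (Sum.inl i)) := by
      conv_lhs => rw [h1]
      exact hN _
    have h3 : b.equivFun (N t') = fun i => B.equivFun t' (Sum.inl i) := by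
      rw [h2, LinearEquiv.apply_symm_apply]
    have h4 := congrFun h3 i
    simpa [Module.Basis.equivFun_apply] using h4
  refine ⟨?_, ?_, ?_⟩
  · intro t' ht' i
    rw [hrepr]
    exact ht' _
  · intro t ht
    refine ⟨B.equivFun.symm (Sum.elim (fun i => b.repr t i) (fun _ : J => (0 : ℝ))), ?_, ?_⟩
    · intro k
      have : B.repr (B.equivFun.symm (Sum.elim (fun i => b.repr t i) (fun _ : J => (0 : ℝ)))) k
          = Sum.elim (fun i => b.repr t i) (fun _ : J => (0 : ℝ)) k := by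
        have h5 := LinearEquiv.apply_symm_apply B.equivFun
          (Sum.elim (fun i => b.repr t i) (fun _ : J => (0 : ℝ)))
        have h6 := congrFun h5 k
        rw [Module.Basis.equivFun_apply] at h6
        exact h6
      rw [this]
      rcases k with i | j
      · exact ht i
      · simp
    · rw [hN]
      have : (fun i : ι => Sum.elim (fun i => b.repr t i) (fun _ : J => (0 : ℝ)) (Sum.inl i))
          = b.equivFun t := by
        ext i
        simp [Module.Basis.equivFun_apply]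
      rw [this, LinearEquiv.symm_apply_apply]
  · intro h _
    rw [normalized_integral_fundamentalDomain222 B (fun t' => h (N t')),
      normalized_integral_fundamentalDomain222 b h]
    simp only [hN]
    exact integral_cube_sum_inl222 (J := J) (fun y => h (b.equivFun.symm y))

end Fermat.Agent.LT.T7.H222

end

end
-- ===== PACK-END LT/T7/H222/PushParCore.lean

-- ===== PACK-BEGIN LT/T7/H729/IotaInfCore.lean
section


/-!
# Row LT, tower T7, leaf T7.L2.1.C2.4.2 `H943.IotaInfC943` (helper729): the core (Mathlib only)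

OFF-MAIN.  Proved lemma only.  ADDITIVE (new names only).

If the infinite place `w` of `L` lies over the place `v` of `K`, the composite of the completion
map `K_v → L_w` with the extension embedding of `w` is the extension embedding of `v` or its
complex conjugate.
-/

set_option autoImplicit false

open NumberField NumberField.InfinitePlace NumberField.InfinitePlace.Completion
open NumberField.ComplexEmbedding
open scoped ComplexConjugate

noncomputable section

namespace Fermat.Agent.LT.T7.IotaInf729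

open scoped NumberField.LiesOver in
theorem extEmb_completionMap729 {K L : Type*} [Field K] [Field L] [Algebra K L]
    (w : InfinitePlace L) (v : InfinitePlace K) [w.LiesOver v] :
    (∀ y : v.Completion,
        extensionEmbedding w (NumberField.LiesOver.completionMap (v := v) (w := w) y)
          = extensionEmbedding v y) ∨
      (∀ y : v.Completion,
        extensionEmbedding w (NumberField.LiesOver.completionMap (v := v) (w := w) y)
          = conj (extensionEmbedding v y)) := by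
  cases InfinitePlace.LiesOver.embedding_comp_eq_or_conjugate_embedding_comp_eq w v with
  | inl hl =>
    left
    have : ComplexEmbedding.LiesOver w.embedding v.embedding := ⟨hl⟩
    have h := (liesOver_extensionEmbedding w v).over
    intro y
    exact RingHom.congr_fun h y
  | inr hr =>
    right
    have : ComplexEmbedding.LiesOver (conjugate w.embedding) v.embedding := ⟨hr⟩
    have h := (liesOver_conjugate_extensionEmbedding w v).over
    intro y
    have h1 : conj (extensionEmbedding w (NumberField.LiesOver.completionMap (v := v) (w := w) y))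
        = extensionEmbedding v y := RingHom.congr_fun h y
    rw [← h1, Complex.conj_conj]

end Fermat.Agent.LT.T7.IotaInf729

end

end
-- ===== PACK-END LT/T7/H729/IotaInfCore.lean

-- ===== PACK-BEGIN LT/T7/H119/TorCompCore.lean
section


/-!
# Row LT, tower T7, node T7.L2.1 `SupplyC`, leaf C2.6 `TorCompC305` (helper119): the abstract core

OFF-MAIN.  Mathlib only.  No hole, nothing assumed.

* `measure_eq_of_strictFD119` : two strict fundamental domains (inside a set `S`) of a countable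
  group acting by left translations have the same measure, for a left invariant measure;
* `comm_of_comm_reg119` : over a commutative ring, two `2 × 2` matrices commuting with a matrix of
  invertible discriminant commute (Cramer);
* `gl_comm_of_comm_reg119` : the same in `GL₂`.
-/

set_option autoImplicit false

open MeasureTheory

namespace Fermat.Agent.LT.T7.H119

/-- Two strict fundamental domains `A`, `B ⊆ S` of a countable group `Γ` acting on the group `T`
by left translations (through `e : Γ →* T`) have the same measure, for every left invariant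
measure. -/
theorem measure_eq_of_strictFD119 {T Γ : Type*} [Group T] [MeasurableSpace T] [MeasurableMul T]
    [Group Γ] [Countable Γ] (e : Γ →* T) (μ : Measure T) [μ.IsMulLeftInvariant]
    (S A B : Set T) (hA : MeasurableSet A) (hB : MeasurableSet B) (hAS : A ⊆ S) (hBS : B ⊆ S)
    (hAu : ∀ t ∈ S, ∃! g : Γ, e g * t ∈ A) (hBu : ∀ t ∈ S, ∃! g : Γ, e g * t ∈ B) :
    μ A = μ B := by
  have hAdec : A = ⋃ g : Γ, (A ∩ (fun t => e g * t) ⁻¹' B) := by
    ext t
    constructor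
    · intro ht
      obtain ⟨g, hg, -⟩ := hBu t (hAS ht)
      exact Set.mem_iUnion.2 ⟨g, ht, hg⟩
    · intro ht
      obtain ⟨g, hg⟩ := Set.mem_iUnion.1 ht
      exact hg.1
  have hBdec : B = ⋃ g : Γ, (B ∩ (fun t => e g⁻¹ * t) ⁻¹' A) := by
    ext t
    constructor
    · intro ht
      obtain ⟨g, hg, -⟩ := hAu t (hBS ht)
      refine Set.mem_iUnion.2 ⟨g⁻¹, ht, ?_⟩
      show e g⁻¹⁻¹ * t ∈ A
      rwa [inv_inv]
    · intro ht
      obtain ⟨g, hg⟩ := Set.mem_iUnion.1 ht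
      exact hg.1
  have hAdis : Pairwise (Function.onFun Disjoint fun g : Γ => A ∩ (fun t => e g * t) ⁻¹' B) := by
    intro g g' hgg'
    rw [Function.onFun, Set.disjoint_left]
    rintro t ⟨htA, htg⟩ ⟨-, htg'⟩
    obtain ⟨g₀, -, hu⟩ := hBu t (hAS htA)
    exact hgg' ((hu g htg).trans (hu g' htg').symm)
  have hBdis : Pairwise (Function.onFun Disjoint fun g : Γ => B ∩ (fun t => e g⁻¹ * t) ⁻¹' A) := by
    intro g g' hgg'
    rw [Function.onFun, Set.disjoint_left]
    rintro t ⟨htB, htg⟩ ⟨-, htg'⟩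
    obtain ⟨g₀, -, hu⟩ := hAu t (hBS htB)
    exact hgg' (inv_injective ((hu g⁻¹ htg).trans (hu g'⁻¹ htg').symm))
  have hAm : ∀ g : Γ, MeasurableSet (A ∩ (fun t => e g * t) ⁻¹' B) :=
    fun g => hA.inter (measurable_const_mul _ hB)
  have hBm : ∀ g : Γ, MeasurableSet (B ∩ (fun t => e g⁻¹ * t) ⁻¹' A) :=
    fun g => hB.inter (measurable_const_mul _ hA)
  have hpiece : ∀ g : Γ, μ (B ∩ (fun t => e g⁻¹ * t) ⁻¹' A)
      = μ (A ∩ (fun t => e g * t) ⁻¹' B) := by
    intro g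
    have h1 : B ∩ (fun t => e g⁻¹ * t) ⁻¹' A
        = (fun t => e g⁻¹ * t) ⁻¹' (A ∩ (fun t => e g * t) ⁻¹' B) := by
      ext t
      simp only [Set.mem_inter_iff, Set.mem_preimage, map_inv, mul_inv_cancel_left]
      exact and_comm
    rw [h1, measure_preimage_mul]
  calc μ A = μ (⋃ g : Γ, (A ∩ (fun t => e g * t) ⁻¹' B)) := congrArg μ hAdec
    _ = ∑' g : Γ, μ (A ∩ (fun t => e g * t) ⁻¹' B) := measure_iUnion hAdis hAm
    _ = ∑' g : Γ, μ (B ∩ (fun t => e g⁻¹ * t) ⁻¹' A) := by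
        congr 1
        funext g
        exact (hpiece g).symm
    _ = μ (⋃ g : Γ, (B ∩ (fun t => e g⁻¹ * t) ⁻¹' A)) := (measure_iUnion hBdis hBm).symm
    _ = μ B := (congrArg μ hBdec).symm

section Cramer

variable {R : Type*} [CommRing R]

/-- The three Cramer relations for a matrix commuting with `g`. -/
theorem cramer_rel119 (g z : Matrix (Fin 2) (Fin 2) R) (hz : z * g = g * z) :
    (g.trace ^ 2 - 4 * g.det) * z 0 1
        = g 0 1 * ((g 0 0 - g 1 1) * (z 0 0 - z 1 1) + 2 * (g 1 0 * z 0 1 + g 0 1 * z 1 0)) ∧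
      (g.trace ^ 2 - 4 * g.det) * z 1 0
        = g 1 0 * ((g 0 0 - g 1 1) * (z 0 0 - z 1 1) + 2 * (g 1 0 * z 0 1 + g 0 1 * z 1 0)) ∧
      (g.trace ^ 2 - 4 * g.det) * (z 0 0 - z 1 1)
        = (g 0 0 - g 1 1) *
          ((g 0 0 - g 1 1) * (z 0 0 - z 1 1) + 2 * (g 1 0 * z 0 1 + g 0 1 * z 1 0)) := by
  have h00 := congrFun (congrFun hz 0) 0
  have h01 := congrFun (congrFun hz 0) 1
  have h10 := congrFun (congrFun hz 1) 0
  simp only [Matrix.mul_apply, Fin.sum_univ_two] at h00 h01 h10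
  rw [Matrix.trace_fin_two, Matrix.det_fin_two]
  refine ⟨?_, ?_, ?_⟩
  · linear_combination (-(g 0 0 - g 1 1)) * h01 + 2 * g 0 1 * h00
  · linear_combination (g 0 0 - g 1 1) * h10 - 2 * g 1 0 * h00
  · linear_combination (2 * g 1 0) * h01 - (2 * g 0 1) * h10

/-- **Cramer.**  Two matrices commuting with a `2 × 2` matrix of invertible discriminant
commute. -/
theorem comm_of_comm_reg119 (g x y : Matrix (Fin 2) (Fin 2) R)
    (hd : IsUnit (g.trace ^ 2 - 4 * g.det)) (hx : x * g = g * x) (hy : y * g = g * y) :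
    x * y = y * x := by
  obtain ⟨hx1, hx2, hx3⟩ := cramer_rel119 g x hx
  obtain ⟨hy1, hy2, hy3⟩ := cramer_rel119 g y hy
  set Δ := g.trace ^ 2 - 4 * g.det with hΔ
  set V := (g 0 0 - g 1 1) * (x 0 0 - x 1 1) + 2 * (g 1 0 * x 0 1 + g 0 1 * x 1 0) with hV
  set W := (g 0 0 - g 1 1) * (y 0 0 - y 1 1) + 2 * (g 1 0 * y 0 1 + g 0 1 * y 1 0) with hW
  have hcancel : ∀ r : R, Δ ^ 2 * r = 0 → r = 0 := by
    intro r hr
    have h2 : IsUnit (Δ ^ 2) := hd.pow 2
    exact (h2.mul_right_eq_zero).mp hr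
  ext i j
  rw [← sub_eq_zero]
  apply hcancel
  fin_cases i <;> fin_cases j <;>
    simp only [Matrix.mul_apply, Fin.sum_univ_two, Fin.zero_eta, Fin.mk_one, Fin.isValue]
  · linear_combination (Δ * y 1 0) * hx1 + (g 0 1 * V) * hy2 - (Δ * x 1 0) * hy1
      - (g 0 1 * W) * hx2
  · linear_combination (Δ * y 0 1) * hx3 + ((g 0 0 - g 1 1) * V) * hy1 - (Δ * x 0 1) * hy3
      - ((g 0 0 - g 1 1) * W) * hx1
  · linear_combination (Δ * x 1 0) * hy3 + ((g 0 0 - g 1 1) * W) * hx2 - (Δ * y 1 0) * hx3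
      - ((g 0 0 - g 1 1) * V) * hy2
  · linear_combination (Δ * y 0 1) * hx2 + (g 1 0 * V) * hy1 - (Δ * x 0 1) * hy2
      - (g 1 0 * W) * hx1

/-- **Cramer in `GL₂`.** -/
theorem gl_comm_of_comm_reg119 (g x y : GL (Fin 2) R)
    (hd : IsUnit ((g : Matrix (Fin 2) (Fin 2) R).trace ^ 2
      - 4 * (g : Matrix (Fin 2) (Fin 2) R).det))
    (hx : x * g = g * x) (hy : y * g = g * y) : x * y = y * x := by
  apply Units.ext
  have hx' : (x : Matrix (Fin 2) (Fin 2) R) * g = g * x :=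
    congrArg (fun z : GL (Fin 2) R => (z : Matrix (Fin 2) (Fin 2) R)) hx
  have hy' : (y : Matrix (Fin 2) (Fin 2) R) * g = g * y :=
    congrArg (fun z : GL (Fin 2) R => (z : Matrix (Fin 2) (Fin 2) R)) hy
  exact comm_of_comm_reg119 (g : Matrix (Fin 2) (Fin 2) R) x y hd hx' hy'

end Cramer

end Fermat.Agent.LT.T7.H119

end
-- ===== PACK-END LT/T7/H119/TorCompCore.lean

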