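import Mathlib
import Fermat.Agent.Pack.LT3.E0L0
import Fermat.Agent.Pack.LT3.E0L2
import Fermat.Agent.Pack.LT3.E1L2

set_option linter.all false

-- ===== PACK-BEGIN LT/CFT/H241/EX/CharBound.lean
section


/-!
# Row LT, tower CFT, sub-tower EX, leaf CFT.16.E1.C.6 `CharBoundC` (helper241, SPARE), OFF-MAIN

`charBoundC241 : EQ.CharBoundC` (`LT/CFT/H476/EQSpec.lean`, sha256 9f9ec67e; MATHLIB ONLY).

Route.  For `ψ` on the primes outside `S` the function `a ↦ outProd S ψ a` is multiplicative on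
the nonzero integers of `K`; `x = a / b ↦ outProd a · outProd b` is a homomorphism
`cbHom241 S ψ : Kˣ → ℤˣ`.  For `ψ ∈ RayN S n` it kills the squares, the `S`-units and the ray, so
it is a character of the finite group `Kˣ / (sqG · sUnitG S · rayG S n)`.  As `S` generates the
class group, `ψ(v) = cbHom241 S ψ x_v` with `v J = (x_v)`: the character determines `ψ`.  A finite
abelian group has at most as many characters with values in `ℤˣ ⊆ ℂˣ` as elements.
-/

set_option autoImplicit false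
set_option linter.unusedSectionVars false
set_option linter.style.haveILetI false

open IsDedekindDomain NumberField
open Fermat.Agent.LT.CFT

noncomputable section

namespace Fermat.Agent.LT.CFT.H241

variable {K : Type} [Field K] [NumberField K]

theorem cb_span_ne_bot241 {a : 𝓞 K} (ha : a ≠ 0) : Ideal.span {a} ≠ (⊥ : Ideal (𝓞 K)) := by
  rw [Ne, Ideal.span_singleton_eq_bot]
  exact ha

theorem cb_mk_ne_zero241 {I : Ideal (𝓞 K)} (hI : I ≠ ⊥) : Associates.mk I ≠ 0 := by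
  rw [Associates.mk_ne_zero]
  exact hI

theorem cb_irred241 (v : HeightOneSpectrum (𝓞 K)) : Irreducible (Associates.mk v.asIdeal) :=
  Associates.irreducible_mk.2 v.irreducible

theorem cb_ord_mul241 (v : HeightOneSpectrum (𝓞 K)) {a b : 𝓞 K} (ha : a ≠ 0) (hb : b ≠ 0) :
    EQ.ord v (a * b) = EQ.ord v a + EQ.ord v b := by
  unfold EQ.ord
  rw [← Ideal.span_singleton_mul_span_singleton, ← Associates.mk_mul_mk]
  exact Associates.count_mul (cb_mk_ne_zero241 (cb_span_ne_bot241 ha))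
    (cb_mk_ne_zero241 (cb_span_ne_bot241 hb)) (cb_irred241 v)

theorem cb_count_eq_zero_iff241 (v : HeightOneSpectrum (𝓞 K)) {I : Ideal (𝓞 K)} (hI : I ≠ ⊥) :
    (Associates.mk v.asIdeal).count (Associates.mk I).factors = 0 ↔ ¬ I ≤ v.asIdeal := by
  rw [← not_iff_not, not_not, ← Ne, Associates.count_ne_zero_iff_dvd hI v.irreducible,
    Ideal.dvd_iff_le]

theorem cb_ord_eq_zero_iff241 (v : HeightOneSpectrum (𝓞 K)) {a : 𝓞 K} (ha : a ≠ 0) :
    EQ.ord v a = 0 ↔ a ∉ v.asIdeal := by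
  unfold EQ.ord
  rw [cb_count_eq_zero_iff241 v (cb_span_ne_bot241 ha), Ideal.span_singleton_le_iff_mem]

theorem cb_finite_supp241 (S : Finset (HeightOneSpectrum (𝓞 K)))
    (ψ : {v : HeightOneSpectrum (𝓞 K) // v ∉ S} → ℤˣ) {a : 𝓞 K} (ha : a ≠ 0) :
    (Function.mulSupport fun v : {v : HeightOneSpectrum (𝓞 K) // v ∉ S} =>
      ψ v ^ EQ.ord v.1 a).Finite := by
  have hfin : {v : HeightOneSpectrum (𝓞 K) | v.asIdeal ∣ Ideal.span {a}}.Finite :=
    Ideal.finite_factors (cb_span_ne_bot241 ha)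
  refine Set.Finite.subset (hfin.preimage Subtype.val_injective.injOn) ?_
  intro v hv
  show v.1.asIdeal ∣ Ideal.span {a}
  rw [Ideal.dvd_span_singleton]
  by_contra h
  apply hv
  show ψ v ^ EQ.ord v.1 a = 1
  rw [(cb_ord_eq_zero_iff241 v.1 ha).2 h, pow_zero]

theorem cb_outProd_mul241 (S : Finset (HeightOneSpectrum (𝓞 K)))
    (ψ : {v : HeightOneSpectrum (𝓞 K) // v ∉ S} → ℤˣ) {a b : 𝓞 K} (ha : a ≠ 0) (hb : b ≠ 0) :
    EQ.outProd S ψ (a * b) = EQ.outProd S ψ a * EQ.outProd S ψ b := by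
  unfold EQ.outProd
  rw [← finprod_mul_distrib (cb_finite_supp241 S ψ ha) (cb_finite_supp241 S ψ hb)]
  congr 1
  funext v
  rw [cb_ord_mul241 v.1 ha hb, pow_add]

/-- `outProd` of an integer with no prime divisor outside `S`. -/
theorem cb_outProd_eq_one241 (S : Finset (HeightOneSpectrum (𝓞 K)))
    (ψ : {v : HeightOneSpectrum (𝓞 K) // v ∉ S} → ℤˣ) {a : 𝓞 K} (ha : a ≠ 0)
    (h : ∀ v : HeightOneSpectrum (𝓞 K), a ∈ v.asIdeal → v ∈ S) : EQ.outProd S ψ a = 1 := by
  unfold EQ.outProd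
  refine finprod_eq_one_of_forall_eq_one (fun v => ?_)
  rw [(cb_ord_eq_zero_iff241 v.1 ha).2 (fun hmem => v.2 (h v.1 hmem)), pow_zero]

theorem cb_outProd_one241 (S : Finset (HeightOneSpectrum (𝓞 K)))
    (ψ : {v : HeightOneSpectrum (𝓞 K) // v ∉ S} → ℤˣ) : EQ.outProd S ψ (1 : 𝓞 K) = 1 :=
  cb_outProd_eq_one241 S ψ one_ne_zero
    (fun v hv => absurd ((Ideal.eq_top_iff_one _).2 hv) v.isPrime.ne_top)

theorem cb_units_swap241 : ∀ u₁ u₂ u₃ u₄ : ℤˣ, u₁ * u₄ = u₃ * u₂ → u₁ * u₂ = u₃ * u₄ := by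
  decide

/-- Every element of `Kˣ` is a quotient of nonzero integers. -/
theorem cb_frac241 (x : Kˣ) : ∃ a b : 𝓞 K, a ≠ 0 ∧ b ≠ 0 ∧
    (x : K) * algebraMap (𝓞 K) K b = algebraMap (𝓞 K) K a := by
  obtain ⟨a, b, hb, hab⟩ := IsFractionRing.div_surjective (A := 𝓞 K) (x : K)
  have hb0 : b ≠ 0 := nonZeroDivisors.ne_zero hb
  have hb1 : algebraMap (𝓞 K) K b ≠ 0 := by
    rw [Ne, FaithfulSMul.algebraMap_eq_zero_iff]
    exact hb0
  refine ⟨a, b, ?_, hb0, ?_⟩
  · rintro rfl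
    rw [map_zero, zero_div] at hab
    exact x.ne_zero hab.symm
  · rw [← hab, div_mul_cancel₀ _ hb1]

/-- The value of the character on `x` (by a choice of a fraction). -/
def cbTheta241 (S : Finset (HeightOneSpectrum (𝓞 K)))
    (ψ : {v : HeightOneSpectrum (𝓞 K) // v ∉ S} → ℤˣ) (x : Kˣ) : ℤˣ :=
  EQ.outProd S ψ (Classical.choose (cb_frac241 x)) *
    EQ.outProd S ψ (Classical.choose (Classical.choose_spec (cb_frac241 x)))

theorem cb_frac_indep241 (S : Finset (HeightOneSpectrum (𝓞 K)))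
    (ψ : {v : HeightOneSpectrum (𝓞 K) // v ∉ S} → ℤˣ) (x : K) (a b a₀ b₀ : 𝓞 K) (ha : a ≠ 0)
    (hb : b ≠ 0) (ha₀ : a₀ ≠ 0) (hb₀ : b₀ ≠ 0)
    (hab : x * algebraMap (𝓞 K) K b = algebraMap (𝓞 K) K a)
    (hab₀ : x * algebraMap (𝓞 K) K b₀ = algebraMap (𝓞 K) K a₀) :
    EQ.outProd S ψ a₀ * EQ.outProd S ψ b₀ = EQ.outProd S ψ a * EQ.outProd S ψ b := by
  apply cb_units_swap241
  rw [← cb_outProd_mul241 S ψ ha₀ hb, ← cb_outProd_mul241 S ψ ha hb₀]
  congr 1
  apply FaithfulSMul.algebraMap_injective (𝓞 K) K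
  rw [map_mul, map_mul, ← hab₀, ← hab]
  ring

theorem cb_theta_eq241 (S : Finset (HeightOneSpectrum (𝓞 K)))
    (ψ : {v : HeightOneSpectrum (𝓞 K) // v ∉ S} → ℤˣ) (x : Kˣ) (a b : 𝓞 K) (ha : a ≠ 0)
    (hb : b ≠ 0) (hab : (x : K) * algebraMap (𝓞 K) K b = algebraMap (𝓞 K) K a) :
    cbTheta241 S ψ x = EQ.outProd S ψ a * EQ.outProd S ψ b := by
  obtain ⟨ha₀, hb₀, hab₀⟩ := Classical.choose_spec (Classical.choose_spec (cb_frac241 x))
  exact cb_frac_indep241 S ψ (x : K) a b _ _ ha hb ha₀ hb₀ hab hab₀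

theorem cb_theta_one241 (S : Finset (HeightOneSpectrum (𝓞 K)))
    (ψ : {v : HeightOneSpectrum (𝓞 K) // v ∉ S} → ℤˣ) : cbTheta241 S ψ 1 = 1 := by
  have h1 : ((1 : Kˣ) : K) * algebraMap (𝓞 K) K 1 = algebraMap (𝓞 K) K 1 := by
    rw [Units.val_one, one_mul]
  rw [cb_theta_eq241 S ψ 1 1 1 one_ne_zero one_ne_zero h1, cb_outProd_one241, mul_one]

theorem cb_theta_mul241 (S : Finset (HeightOneSpectrum (𝓞 K)))
    (ψ : {v : HeightOneSpectrum (𝓞 K) // v ∉ S} → ℤˣ) (x y : Kˣ) :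
    cbTheta241 S ψ (x * y) = cbTheta241 S ψ x * cbTheta241 S ψ y := by
  obtain ⟨a, b, ha, hb, hab⟩ := cb_frac241 x
  obtain ⟨c, d, hc, hd, hcd⟩ := cb_frac241 y
  have h1 : ((x * y : Kˣ) : K) * algebraMap (𝓞 K) K (b * d) = algebraMap (𝓞 K) K (a * c) := by
    rw [map_mul, map_mul, ← hab, ← hcd, Units.val_mul]
    ring
  rw [cb_theta_eq241 S ψ x a b ha hb hab, cb_theta_eq241 S ψ y c d hc hd hcd,
    cb_theta_eq241 S ψ (x * y) (a * c) (b * d) (mul_ne_zero ha hc) (mul_ne_zero hb hd) h1,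
    cb_outProd_mul241 S ψ ha hc, cb_outProd_mul241 S ψ hb hd]
  exact mul_mul_mul_comm _ _ _ _

/-- The homomorphism `Kˣ → ℤˣ`, `a / b ↦ outProd a · outProd b`. -/
def cbHom241 (S : Finset (HeightOneSpectrum (𝓞 K)))
    (ψ : {v : HeightOneSpectrum (𝓞 K) // v ∉ S} → ℤˣ) : Kˣ →* ℤˣ where
  toFun := cbTheta241 S ψ
  map_one' := cb_theta_one241 S ψ
  map_mul' := cb_theta_mul241 S ψ

theorem cbHom_int241 (S : Finset (HeightOneSpectrum (𝓞 K)))
    (ψ : {v : HeightOneSpectrum (𝓞 K) // v ∉ S} → ℤˣ) (x : Kˣ) (a : 𝓞 K)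
    (hx : (x : K) = algebraMap (𝓞 K) K a) : cbHom241 S ψ x = EQ.outProd S ψ a := by
  have ha : a ≠ 0 := by
    rintro rfl
    rw [map_zero] at hx
    exact x.ne_zero hx
  have h1 : (x : K) * algebraMap (𝓞 K) K 1 = algebraMap (𝓞 K) K a := by
    rw [map_one, mul_one, hx]
  show cbTheta241 S ψ x = _
  rw [cb_theta_eq241 S ψ x a 1 ha one_ne_zero h1, cb_outProd_one241, mul_one]

/-- The character of `ψ ∈ RayN S n` kills the squares, the `S`-units and the ray. -/
theorem cb_le_ker241 (S : Finset (HeightOneSpectrum (𝓞 K))) (n : ℕ)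
    (ψ : {v : HeightOneSpectrum (𝓞 K) // v ∉ S} → ℤˣ) (hψ : ψ ∈ EQ.RayN S n) :
    EQ.sqG K ⊔ EQ.sUnitG S ⊔ EQ.rayG S n ≤ (cbHom241 S ψ).ker := by
  refine sup_le (sup_le ?_ ?_) ?_
  · rintro x ⟨y, rfl⟩
    rw [MonoidHom.mem_ker, powMonoidHom_apply, map_pow, sq]
    exact Int.units_mul_self _
  · unfold EQ.sUnitG
    rw [Subgroup.closure_le]
    rintro x ⟨u, hu, hx⟩
    rw [SetLike.mem_coe, MonoidHom.mem_ker, cbHom_int241 S ψ x u hx]
    exact cb_outProd_eq_one241 S ψ hu.1 hu.2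
  · unfold EQ.rayG
    rw [Subgroup.closure_le]
    rintro x ⟨a, ha, hx⟩
    rw [SetLike.mem_coe, MonoidHom.mem_ker, cbHom_int241 S ψ x a hx]
    refine hψ a ?_ ha
    rintro rfl
    rw [map_zero] at hx
    exact x.ne_zero hx

/-- `S` generates the class group: the value `ψ(v)` is a value of the character of `ψ`, at an
element which does not depend on `ψ`. -/
theorem cb_value241 (S : Finset (HeightOneSpectrum (𝓞 K))) (hG : EQ.GenCl S)
    (v : {v : HeightOneSpectrum (𝓞 K) // v ∉ S}) :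
    ∃ x : Kˣ, ∀ ψ : {v : HeightOneSpectrum (𝓞 K) // v ∉ S} → ℤˣ, cbHom241 S ψ x = ψ v := by
  classical
  obtain ⟨x₀, J, hx₀, hJ, hmul⟩ := hG v.1.asIdeal v.1.ne_bot
  have hJ0 : J ≠ ⊥ := by
    rintro rfl
    rw [Ideal.mul_bot] at hmul
    exact cb_span_ne_bot241 hx₀ hmul.symm
  have hx₀' : algebraMap (𝓞 K) K x₀ ≠ 0 := by
    rw [Ne, FaithfulSMul.algebraMap_eq_zero_iff]
    exact hx₀
  refine ⟨Units.mk0 _ hx₀', fun ψ => ?_⟩
  rw [cbHom_int241 S ψ (Units.mk0 _ hx₀') x₀ rfl]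
  unfold EQ.outProd
  have hord : ∀ w : {v : HeightOneSpectrum (𝓞 K) // v ∉ S},
      EQ.ord w.1 x₀ = if w = v then 1 else 0 := by
    intro w
    unfold EQ.ord
    rw [← hmul, ← Associates.mk_mul_mk, Associates.count_mul (cb_mk_ne_zero241 v.1.ne_bot)
      (cb_mk_ne_zero241 hJ0) (cb_irred241 w.1),
      (cb_count_eq_zero_iff241 w.1 hJ0).2 (fun hle => w.2 (hJ w.1 hle)), add_zero]
    by_cases hwv : w = v
    · rw [if_pos hwv, hwv]
      exact Associates.count_self (cb_irred241 v.1)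
    · rw [if_neg hwv]
      refine Associates.count_eq_zero_of_ne (cb_irred241 w.1) (cb_irred241 v.1) ?_
      intro heq
      apply hwv
      apply Subtype.ext
      apply HeightOneSpectrum.ext
      exact associated_iff_eq.1 (Associates.mk_eq_mk_iff_associated.1 heq)
  rw [finprod_eq_single _ v (fun w hw => by rw [hord w, if_neg hw, pow_zero]), hord v,
    if_pos rfl, pow_one]

/-- **CFT.16.E1.C.6 (CharBound)**. -/
theorem charBoundC241 : EQ.CharBoundC := by
  classical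
  intro K _ _ S n hG hidx
  obtain ⟨H, hH⟩ : ∃ H : Subgroup Kˣ, H = EQ.sqG K ⊔ EQ.sUnitG S ⊔ EQ.rayG S n := ⟨_, rfl⟩
  rw [← hH] at hidx ⊢
  haveI : H.FiniteIndex := ⟨hidx⟩
  haveI : Finite (Kˣ ⧸ H) := Subgroup.finite_quotient_of_finiteIndex
  -- the characters
  let Φ : ↥(EQ.RayN S n) → ((Kˣ ⧸ H) →* ℤˣ) := fun ψ =>
    QuotientGroup.lift H (cbHom241 S ψ.1) (hH ▸ cb_le_ker241 S n ψ.1 ψ.2)
  have hΦ : Function.Injective Φ := by
    intro ψ ψ' h
    apply Subtype.ext
    funext v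
    obtain ⟨x, hx⟩ := cb_value241 S hG v
    have h1 := congrArg (fun f : (Kˣ ⧸ H) →* ℤˣ => f (QuotientGroup.mk x)) h
    simp only [Φ, QuotientGroup.lift_mk] at h1
    rw [hx, hx] at h1
    exact h1
  -- the count
  let Ψ : ((Kˣ ⧸ H) →* ℤˣ) → ((Kˣ ⧸ H) →* ℂˣ) := fun f =>
    (Units.map ((Int.castRingHom ℂ) : ℤ →* ℂ)).comp f
  have hΨ : Function.Injective Ψ := by
    intro f g h
    ext q
    have h1 := congrArg (fun F : (Kˣ ⧸ H) →* ℂˣ => ((F q : ℂˣ) : ℂ)) h
    simp only [Ψ, MonoidHom.comp_apply, Units.coe_map, MonoidHom.coe_coe, eq_intCast] at h1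
    exact_mod_cast h1
  haveI : NeZero (Monoid.exponent (Kˣ ⧸ H) : ℂ) :=
    ⟨Nat.cast_ne_zero.2 (Monoid.exponent_ne_zero_of_finite (G := Kˣ ⧸ H))⟩
  have hcardC : Nat.card ((Kˣ ⧸ H) →* ℂˣ) = Nat.card (Kˣ ⧸ H) :=
    CommGroup.card_monoidHom_of_hasEnoughRootsOfUnity (Kˣ ⧸ H) ℂ
  haveI : Finite ((Kˣ ⧸ H) →* ℂˣ) := Nat.finite_of_card_ne_zero (by
    rw [hcardC]
    exact Nat.card_pos.ne')
  haveI : Finite ((Kˣ ⧸ H) →* ℤˣ) := Finite.of_injective Ψ hΨ
  haveI : Finite ↥(EQ.RayN S n) := Finite.of_injective Φ hΦ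
  refine ⟨Set.toFinite _, ?_⟩
  rw [← Nat.card_coe_set_eq, Subgroup.index_eq_card, ← hcardC]
  exact (Nat.card_le_card_of_injective Φ hΦ).trans (Nat.card_le_card_of_injective Ψ hΨ)

end Fermat.Agent.LT.CFT.H241

end
end
-- ===== PACK-END LT/CFT/H241/EX/CharBound.lean

-- ===== PACK-BEGIN LT/T6/H964/Whitney.lean
section


/-!
# Row LT, tower T6, leaf T6.24 (part 4): Whitney's theorem on even functions (finite order form)
(helper964, OFF-MAIN, Mathlib only)

* `whit964 M G s = s^M G(√|s|)` is of class `C^M` for smooth `G` (`contDiff_whit964`);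
* `whitney_even964` : a smooth even `F` is, for every `N`, of the form `F t = k(t²)` with
  `k` of class `C^N` on `ℝ`;
* `whitney_cosh964` : a smooth even `F` is, for every `N`, of the form `F t = h(cosh t)` with
  `h` of class `C^N` on `ℝ`; `h = F ∘ arcosh` on `[1, ∞)` and `h` vanishes above `cosh T` if
  `F` vanishes for `|t| > T`.

Reference: H. Whitney, *Differentiable even functions*, Duke Math. J. 10 (1943).
-/

set_option autoImplicit false

open MeasureTheory Set Filter Topology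
open scoped ContDiff

noncomputable section

namespace Fermat.Agent.LT.T6.H964

/-- `whit964 M G s = s^M · G(√|s|)`. -/
def whit964 (M : ℕ) (G : ℝ → ℂ) (s : ℝ) : ℂ := (s : ℂ) ^ M * G (Real.sqrt |s|)

/-- `whitD964 M G = (M+1) G + (1/2) t G'`: the derivative of `whit964 (M+1) G` is
`whit964 M (whitD964 M G)`. -/
def whitD964 (M : ℕ) (G : ℝ → ℂ) (t : ℝ) : ℂ :=
  ((M : ℂ) + 1) * G t + (1 / 2 : ℂ) * (t : ℂ) * deriv G t

theorem continuous_whit964 (M : ℕ) {G : ℝ → ℂ} (hG : Continuous G) :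
    Continuous (whit964 M G) := by
  unfold whit964
  fun_prop

theorem contDiff_whitD964 (M : ℕ) {G : ℝ → ℂ} (hG : ContDiff ℝ ∞ G) :
    ContDiff ℝ ∞ (whitD964 M G) := by
  unfold whitD964
  have h1 : ContDiff ℝ ∞ (deriv G) := contDiff_deriv_infty964 hG
  have h2 : ContDiff ℝ ∞ (fun t : ℝ => (t : ℂ)) := Complex.ofRealCLM.contDiff
  exact (contDiff_const.mul hG).add ((contDiff_const.mul h2).mul h1)

theorem hasDerivAt_sqrt_abs964 {s : ℝ} (hs : s ≠ 0) :
    ∃ d : ℝ, HasDerivAt (fun s : ℝ => Real.sqrt |s|) d s ∧ s * d = Real.sqrt |s| / 2 := by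
  have habs : |s| ≠ 0 := abs_ne_zero.mpr hs
  have hsq : Real.sqrt |s| ≠ 0 := by
    rw [Real.sqrt_ne_zero (abs_nonneg s)]
    exact habs
  have hmul : Real.sqrt |s| * Real.sqrt |s| = |s| := Real.mul_self_sqrt (abs_nonneg s)
  rcases hs.lt_or_gt with h | h
  · refine ⟨1 / (2 * Real.sqrt |s|) * (-1),
      (Real.hasDerivAt_sqrt habs).comp s (hasDerivAt_abs_neg h), ?_⟩
    have e : s = -|s| := by rw [abs_of_neg h]; ring
    field_simp
    nlinarith [hmul, e]
  · refine ⟨1 / (2 * Real.sqrt |s|) * 1,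
      (Real.hasDerivAt_sqrt habs).comp s (hasDerivAt_abs_pos h), ?_⟩
    have e : s = |s| := by rw [abs_of_pos h]
    field_simp
    nlinarith [hmul, e]

theorem hasDerivAt_whit_of_ne964 (M : ℕ) {G : ℝ → ℂ} (hG : ContDiff ℝ 1 G) {s : ℝ}
    (hs : s ≠ 0) : HasDerivAt (whit964 (M + 1) G) (whit964 M (whitD964 M G) s) s := by
  obtain ⟨d, hd, hsd⟩ := hasDerivAt_sqrt_abs964 hs
  have h1 : HasDerivAt G (deriv G (Real.sqrt |s|)) (Real.sqrt |s|) :=
    (hG.differentiable one_ne_zero _).hasDerivAt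
  have h2 : HasDerivAt (fun s : ℝ => G (Real.sqrt |s|)) (d • deriv G (Real.sqrt |s|)) s :=
    h1.scomp s hd
  have h3 : HasDerivAt (fun s : ℝ => (s : ℂ) ^ (M + 1)) (((M + 1 : ℕ) : ℂ) * (s : ℂ) ^ M) s := by
    simpa using (hasDerivAt_pow (M + 1) (s : ℂ)).comp_ofReal
  have h4 : HasDerivAt (whit964 (M + 1) G)
      (((M + 1 : ℕ) : ℂ) * (s : ℂ) ^ M * G (Real.sqrt |s|) +
        (s : ℂ) ^ (M + 1) * (d • deriv G (Real.sqrt |s|))) s := h3.mul h2
  refine h4.congr_deriv ?_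
  unfold whit964 whitD964
  have e : ((s * d : ℝ) : ℂ) = ((Real.sqrt |s| / 2 : ℝ) : ℂ) := by rw [hsd]
  rw [Complex.real_smul, pow_succ]
  push_cast at e ⊢
  linear_combination ((s : ℂ) ^ M * deriv G (Real.sqrt |s|)) * e

theorem hasDerivAt_mul_self964 {ψ : ℝ → ℂ} (hψ : ContinuousAt ψ 0) :
    HasDerivAt (fun s : ℝ => (s : ℂ) * ψ s) (ψ 0) 0 := by
  rw [hasDerivAt_iff_tendsto_slope_zero]
  have h1 : Tendsto ψ (𝓝[≠] 0) (𝓝 (ψ 0)) := hψ.tendsto.mono_left nhdsWithin_le_nhds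
  refine h1.congr' ?_
  filter_upwards [self_mem_nhdsWithin] with t ht
  have ht0 : (t : ℂ) ≠ 0 := by
    have : t ≠ 0 := ht
    exact_mod_cast this
  simp only [zero_add, Complex.ofReal_zero, zero_mul, sub_zero, Complex.real_smul,
    Complex.ofReal_inv]
  field_simp

theorem whit_whitD_zero964 (M : ℕ) (G : ℝ → ℂ) :
    whit964 M (whitD964 M G) 0 = whit964 M G 0 := by
  unfold whit964 whitD964
  cases M with
  | zero => simp
  | succ M => simp

theorem hasDerivAt_whit_zero964 (M : ℕ) {G : ℝ → ℂ} (hG : Continuous G) :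
    HasDerivAt (whit964 (M + 1) G) (whit964 M (whitD964 M G) 0) 0 := by
  rw [whit_whitD_zero964]
  have h := hasDerivAt_mul_self964 (ψ := whit964 M G) (continuous_whit964 M hG).continuousAt
  have e : whit964 (M + 1) G = fun s : ℝ => (s : ℂ) * whit964 M G s := by
    funext s
    unfold whit964
    rw [pow_succ]
    ring
  rw [e]
  exact h

theorem hasDerivAt_whit964 (M : ℕ) {G : ℝ → ℂ} (hG : ContDiff ℝ 1 G) (s : ℝ) :
    HasDerivAt (whit964 (M + 1) G) (whit964 M (whitD964 M G) s) s := by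
  by_cases hs : s = 0
  · subst hs
    exact hasDerivAt_whit_zero964 M hG.continuous
  · exact hasDerivAt_whit_of_ne964 M hG hs

theorem deriv_whit964 (M : ℕ) {G : ℝ → ℂ} (hG : ContDiff ℝ 1 G) :
    deriv (whit964 (M + 1) G) = whit964 M (whitD964 M G) :=
  funext fun s => (hasDerivAt_whit964 M hG s).deriv

/-- `s ↦ s^M G(√|s|)` is of class `C^M` for smooth `G`. -/
theorem contDiff_whit964 (M : ℕ) : ∀ {G : ℝ → ℂ}, ContDiff ℝ ∞ G →
    ContDiff ℝ M (whit964 M G) := by
  induction M with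
  | zero =>
    intro G hG
    rw [Nat.cast_zero, contDiff_zero]
    exact continuous_whit964 0 hG.continuous
  | succ M ih =>
    intro G hG
    have h1 : ContDiff ℝ 1 G := hG.of_le (by exact_mod_cast le_top)
    rw [Nat.cast_succ, contDiff_succ_iff_deriv]
    refine ⟨fun s => (hasDerivAt_whit964 M h1 s).differentiableAt, fun hω => ?_, ?_⟩
    · exact absurd hω (by simp)
    · rw [deriv_whit964 M h1]
      exact ih (contDiff_whitD964 M hG)

/-- **Whitney's theorem on even functions, finite order form**: a smooth even function is, for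
every `N`, of the form `t ↦ k(t²)` with `k` of class `C^N`. -/
theorem whitney_even964 {F : ℝ → ℂ} (hF : ContDiff ℝ ∞ F) (he : IsEven964 F) (N : ℕ) :
    ∃ k : ℝ → ℂ, ContDiff ℝ N k ∧ ∀ t : ℝ, F t = k (t ^ 2) := by
  obtain ⟨p, G, hp, hG, hGe, hFG⟩ := even_taylor964 N hF he
  refine ⟨fun s => p s + whit964 N G s, ?_, fun t => ?_⟩
  · exact (hp.of_le (by exact_mod_cast le_top)).add (contDiff_whit964 N hG)
  · rw [hFG t]
    have h1 : |t ^ 2| = t ^ 2 := abs_of_nonneg (sq_nonneg t)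
    have h2 : G (Real.sqrt |t ^ 2|) = G t := by
      rw [h1, Real.sqrt_sq_eq_abs]
      rcases abs_choice t with h | h
      · rw [h]
      · rw [h, hGe]
    change p (t ^ 2) + (t : ℂ) ^ (2 * N) * G t
      = p (t ^ 2) + ((t ^ 2 : ℝ) : ℂ) ^ N * G (Real.sqrt |t ^ 2|)
    rw [h2]
    push_cast
    ring

theorem cosh_eq_one_add964 (t : ℝ) : Real.cosh t = 1 + (2 * Real.sinh (t / 2)) ^ 2 / 2 := by
  have h1 := Real.cosh_two_mul (t / 2)
  have h2 := Real.cosh_sq (t / 2)
  have e : 2 * (t / 2) = t := by ring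
  rw [e] at h1
  rw [h1, h2]
  ring

/-- **Whitney's theorem, `cosh` form**: a smooth even function is, for every `N`, of the form
`t ↦ h(cosh t)` with `h` of class `C^N` on `ℝ`. -/
theorem whitney_cosh964 {F : ℝ → ℂ} (hF : ContDiff ℝ ∞ F) (he : IsEven964 F) (N : ℕ) :
    ∃ h : ℝ → ℂ, ContDiff ℝ N h ∧ ∀ t : ℝ, F t = h (Real.cosh t) := by
  have hsm : ContDiff ℝ ∞ (fun w : ℝ => F (2 * Real.arsinh (w / 2))) := by
    have h1 : ContDiff ℝ ∞ (fun w : ℝ => 2 * Real.arsinh (w / 2)) :=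
      contDiff_const.mul (Real.contDiff_arsinh.comp (contDiff_id.div_const 2))
    exact hF.comp h1
  have hev : IsEven964 (fun w : ℝ => F (2 * Real.arsinh (w / 2))) := by
    intro w
    have e : 2 * Real.arsinh (-w / 2) = -(2 * Real.arsinh (w / 2)) := by
      rw [neg_div, Real.arsinh_neg]
      ring
    change F (2 * Real.arsinh (-w / 2)) = F (2 * Real.arsinh (w / 2))
    rw [e, he]
  obtain ⟨k, hk, hFk⟩ := whitney_even964 hsm hev N
  refine ⟨fun r => k (2 * (r - 1)), ?_, fun t => ?_⟩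
  · exact hk.comp (contDiff_const.mul (contDiff_id.sub contDiff_const))
  · have h1 := hFk (2 * Real.sinh (t / 2))
    have e1 : 2 * Real.arsinh (2 * Real.sinh (t / 2) / 2) = t := by
      have : 2 * Real.sinh (t / 2) / 2 = Real.sinh (t / 2) := by ring
      rw [this, Real.arsinh_sinh]
      ring
    have e2 : (2 * Real.sinh (t / 2)) ^ 2 = 2 * (Real.cosh t - 1) := by
      rw [cosh_eq_one_add964 t]
      ring
    simp only [e1, e2] at h1
    exact h1

/-- The function of `r = cosh t` is `F ∘ arcosh` on `[1, ∞)`. -/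
theorem eq_comp_arcosh964 {F h : ℝ → ℂ} (hFh : ∀ t : ℝ, F t = h (Real.cosh t)) {r : ℝ}
    (hr : 1 ≤ r) : h r = F (Real.arcosh r) := by
  rw [hFh, Real.cosh_arcosh hr]

/-- Two functions of `cosh t` representing the same `F` agree on `[1, ∞)`. -/
theorem eq_on_Ici_of_cosh964 {F h h' : ℝ → ℂ} (hFh : ∀ t : ℝ, F t = h (Real.cosh t))
    (hFh' : ∀ t : ℝ, F t = h' (Real.cosh t)) (r : ℝ) (hr : 1 ≤ r) : h r = h' r := by
  rw [eq_comp_arcosh964 hFh hr, eq_comp_arcosh964 hFh' hr]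

/-- Support: if `F t = 0` for `|t| > T` then `h` vanishes above `cosh T`. -/
theorem eq_zero_of_cosh_lt964 {F h : ℝ → ℂ} (hFh : ∀ t : ℝ, F t = h (Real.cosh t)) {T : ℝ}
    (hT : ∀ t : ℝ, T < |t| → F t = 0) {r : ℝ} (hr : Real.cosh T < r) : h r = 0 := by
  have hr1 : 1 ≤ r := le_trans (Real.one_le_cosh T) hr.le
  rw [eq_comp_arcosh964 hFh hr1]
  apply hT
  have h1 : Real.cosh T < Real.cosh (Real.arcosh r) := by rwa [Real.cosh_arcosh hr1]
  rw [Real.cosh_lt_cosh] at h1
  exact lt_of_le_of_lt (le_abs_self T) h1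

end Fermat.Agent.LT.T6.H964

end
end
-- ===== PACK-END LT/T6/H964/Whitney.lean

-- ===== PACK-BEGIN LT/T7/H582/CutFinite.lean
section


/-!
# Row LT, tower T7, leaf C2.7.13.4 `LocEqArchC340` (helper582, registry row 2623), OFF-MAIN

PART 2 (Mathlib only): **a cut-off function is integrable on `T · Ω`, `Ω` compact**.

`H` a locally compact second countable group with a Haar measure `μ`, `T` a closed subgroup with
a Haar measure `μT`, `β ≥ 0` measurable with `∫_T β(t x) dμT(t) = 1` for every `x`.  If every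
element of the measurable set `E` is of the form `t ω` with `t ∈ T`, `ω ∈ Ω` (`Ω` compact), then
`∫_E β dμ < ∞`.  (Tonelli: for a compact neighbourhood `V` of `1` and `A = V Ω`,
`μT(W) 1_E(z) ≤ μT {t : t⁻¹ z ∈ A}` with `W = {s ∈ T : s⁻¹ ∈ V}`, and
`∫ β(z) μT{t : t⁻¹ z ∈ A} dμ(z) = ∫_A ∫_T β(t z) dμT(t) dμ(z) = μ(A)`.)

Theorems only (new names, suffix `582`).
-/

set_option autoImplicit false

open MeasureTheory
open scoped Pointwise Topology

noncomputable section

namespace Fermat.Agent.LT.T7.H582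

variable {H : Type} [Group H] [TopologicalSpace H] [IsTopologicalGroup H]
  [LocallyCompactSpace H] [T2Space H] [SecondCountableTopology H] [MeasurableSpace H]
  [BorelSpace H]

theorem lintegral_cut_lt_top582 (μ : Measure H) [μ.IsHaarMeasure]
    (T : Subgroup H) (hT : IsClosed (T : Set H)) (μT : @Measure T (borel _))
    (hμT : @Measure.IsHaarMeasure _ _ _ (borel _) μT)
    (β : H → ℝ) (hβm : Measurable β) (hβ0 : ∀ x, 0 ≤ β x)
    (hβ1 : ∀ x : H, @integral _ _ _ _ (borel _) μT (fun t : T => β ((t : H) * x)) = 1)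
    (Ω : Set H) (hΩ : IsCompact Ω) (E : Set H) (hE : MeasurableSet E)
    (hEΩ : ∀ z ∈ E, ∃ t : T, ((t : H))⁻¹ * z ∈ Ω) :
    ∫⁻ z in E, ENNReal.ofReal (β z) ∂μ < ⊤ := by
  letI : MeasurableSpace T := borel _
  haveI : BorelSpace T := ⟨rfl⟩
  haveI := hμT
  haveI : LocallyCompactSpace T := hT.isClosedEmbedding_subtypeVal.locallyCompactSpace
  haveI : SecondCountableTopology T :=
    Topology.IsEmbedding.subtypeVal.secondCountableTopology
  haveI : SigmaCompactSpace T := inferInstance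
  haveI : SigmaFinite μT := inferInstance
  -- a compact neighbourhood of `1`
  obtain ⟨V, hVc, hV1⟩ := exists_compact_mem_nhds (1 : H)
  set A : Set H := V * Ω with hA
  have hAc : IsCompact A := hVc.mul hΩ
  have hAm : MeasurableSet A := hAc.isClosed.measurableSet
  set W : Set T := {s : T | ((s : H))⁻¹ ∈ V} with hW
  have hWn : W ∈ 𝓝 (1 : T) := by
    have hc : Continuous (fun s : T => ((s : H))⁻¹) := continuous_subtype_val.inv
    have h1 : (fun s : T => ((s : H))⁻¹) 1 = 1 := by simp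
    have h2 : Filter.Tendsto (fun s : T => ((s : H))⁻¹) (𝓝 (1 : T)) (𝓝 (1 : H)) := by
      simpa using hc.tendsto (1 : T)
    exact h2 hV1
  have hWpos : 0 < μT W := Measure.measure_pos_of_mem_nhds μT hWn
  -- the pointwise bound
  have hcontm : Continuous (fun p : H × T => ((p.2 : H))⁻¹ * p.1) :=
    (continuous_subtype_val.comp continuous_snd).inv.mul continuous_fst
  have hbound : ∀ z ∈ E, μT W ≤ μT {t : T | ((t : H))⁻¹ * z ∈ A} := by
    intro z hz
    obtain ⟨t₀, ht₀⟩ := hEΩ z hz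
    have hsub : (fun s : T => t₀⁻¹ * s) ⁻¹' W ⊆ {t : T | ((t : H))⁻¹ * z ∈ A} := by
      intro t ht
      have ht' : (((t₀⁻¹ * t : T) : H))⁻¹ ∈ V := ht
      refine ⟨(((t₀⁻¹ * t : T) : H))⁻¹, ht', ((t₀ : H))⁻¹ * z, ht₀, ?_⟩
      show (((t₀⁻¹ * t : T) : H))⁻¹ * (((t₀ : H))⁻¹ * z) = ((t : H))⁻¹ * z
      push_cast
      group
    calc μT W = μT ((fun s : T => t₀⁻¹ * s) ⁻¹' W) := (measure_preimage_mul μT t₀⁻¹ W).symm
      _ ≤ _ := measure_mono hsub
  -- Tonelli
  have hF1 : Measurable (fun p : H × T =>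
      ENNReal.ofReal (β p.1) * A.indicator (1 : H → ENNReal) (((p.2 : H))⁻¹ * p.1)) := by
    refine (ENNReal.measurable_ofReal.comp (hβm.comp measurable_fst)).mul ?_
    exact (measurable_one.indicator hAm).comp hcontm.measurable
  have hcontm2 : Continuous (fun p : H × T => (p.2 : H) * p.1) :=
    (continuous_subtype_val.comp continuous_snd).mul continuous_fst
  have hF2 : Measurable (fun p : H × T =>
      ENNReal.ofReal (β ((p.2 : H) * p.1)) * A.indicator (1 : H → ENNReal) p.1) := by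
    refine (ENNReal.measurable_ofReal.comp (hβm.comp hcontm2.measurable)).mul ?_
    exact (measurable_one.indicator hAm).comp measurable_fst
  have hone : ∀ z : H, ∫⁻ t : T, ENNReal.ofReal (β ((t : H) * z)) ∂μT = 1 := by
    intro z
    have hint : Integrable (fun t : T => β ((t : H) * z)) μT := by
      by_contra hni
      have := integral_undef hni
      rw [hβ1 z] at this
      exact one_ne_zero this
    rw [← ofReal_integral_eq_lintegral_ofReal hint (ae_of_all _ fun t => hβ0 _), hβ1 z]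
    simp
  have hkey : ∫⁻ z, ENNReal.ofReal (β z) * μT {t : T | ((t : H))⁻¹ * z ∈ A} ∂μ = μ A := by
    have h1 : ∀ z : H, ENNReal.ofReal (β z) * μT {t : T | ((t : H))⁻¹ * z ∈ A}
        = ∫⁻ t : T, ENNReal.ofReal (β z)
            * A.indicator (1 : H → ENNReal) (((t : H))⁻¹ * z) ∂μT := by
      intro z
      have hm : MeasurableSet {t : T | ((t : H))⁻¹ * z ∈ A} := by
        have hc : Continuous (fun t : T => ((t : H))⁻¹ * z) :=
          continuous_subtype_val.inv.mul continuous_const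
        exact hc.measurable hAm
      rw [lintegral_const_mul' _ _ ENNReal.ofReal_ne_top]
      congr 1
      rw [← lintegral_indicator_one hm]
      rfl
    simp only [h1]
    rw [lintegral_lintegral_swap hF1.aemeasurable]
    have h2 : ∀ t : T, ∫⁻ z, ENNReal.ofReal (β z)
          * A.indicator (1 : H → ENNReal) (((t : H))⁻¹ * z) ∂μ
        = ∫⁻ z, ENNReal.ofReal (β ((t : H) * z)) * A.indicator (1 : H → ENNReal) z ∂μ := by
      intro t
      have := lintegral_mul_left_eq_self (μ := μ) (fun z => ENNReal.ofReal (β z)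
          * A.indicator (1 : H → ENNReal) (((t : H))⁻¹ * z)) (t : H)
      rw [← this]
      refine lintegral_congr fun z => ?_
      show ENNReal.ofReal (β ((t : H) * z)) * A.indicator 1 (((t : H))⁻¹ * ((t : H) * z)) = _
      rw [inv_mul_cancel_left]
    simp only [h2]
    rw [lintegral_lintegral_swap (f := fun (t : T) (z : H) =>
      ENNReal.ofReal (β ((t : H) * z)) * A.indicator (1 : H → ENNReal) z)
      (hF2.comp measurable_swap).aemeasurable]
    have h3 : ∀ z : H, ∫⁻ t : T, ENNReal.ofReal (β ((t : H) * z))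
          * A.indicator (1 : H → ENNReal) z ∂μT = A.indicator (1 : H → ENNReal) z := by
      intro z
      by_cases hz : z ∈ A
      · rw [Set.indicator_of_mem hz]
        simp [hone z]
      · rw [Set.indicator_of_notMem hz]
        simp
    simp only [h3]
    rw [lintegral_indicator_one hAm]
  have hle : μT W * ∫⁻ z in E, ENNReal.ofReal (β z) ∂μ ≤ μ A := by
    have hmi : Measurable (E.indicator fun z : H => ENNReal.ofReal (β z)) :=
      (ENNReal.measurable_ofReal.comp hβm).indicator hE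
    rw [← hkey, ← lintegral_indicator hE, ← lintegral_const_mul _ hmi]
    refine lintegral_mono fun z => ?_
    by_cases hz : z ∈ E
    · rw [Set.indicator_of_mem hz, mul_comm]
      exact mul_le_mul' le_rfl (hbound z hz)
    · rw [Set.indicator_of_notMem hz]
      simp
  by_contra hcon
  have htop : ∫⁻ z in E, ENNReal.ofReal (β z) ∂μ = ⊤ := not_lt_top_iff.mp hcon
  rw [htop, ENNReal.mul_top hWpos.ne'] at hle
  exact absurd (lt_of_le_of_lt hle hAc.measure_lt_top) (lt_irrefl _)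

end Fermat.Agent.LT.T7.H582

end

end
-- ===== PACK-END LT/T7/H582/CutFinite.lean

-- ===== PACK-BEGIN LT/T6/H846/OrbAbs.lean
section


/-!
# Row LT, tower T6, leaf T6.19 `OrbSumIntC` (helper846) -- abstract measure theory, OFF-MAIN

Mathlib only.  `G` a second countable topological group with its Borel σ-algebra, `μ` a left
invariant measure, `U` an open subgroup with `μ U = 1`; `H` a second group with a continuous
homomorphism `ι : H → G` and a left invariant measure `ν`.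

* `lintegral_doubleCoset846` : if `∫ β(ι t · z) dν(t) = 1` for all `z`, then
  `ν {t | x⁻¹ ι(t) x ∈ U} · ∫_{ι(H) x U} β dμ = 1`   (two applications of Tonelli).
-/

set_option autoImplicit false
set_option linter.unusedSectionVars false

open MeasureTheory
open scoped ENNReal

noncomputable section

namespace Fermat.Agent.LT.T6.H846

section Abstract

variable {G H : Type} [Group G] [Group H]

/-- The stabiliser in `H` of the coset `x U`. -/
def stab846 (ι : H →* G) (U : Subgroup G) (x : G) : Set H := {t | x⁻¹ * ι t * x ∈ U}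

/-- The double coset `ι(H) x U`. -/
def dcoset846 (ι : H →* G) (U : Subgroup G) (x : G) : Set G :=
  {z | ∃ t : H, ∃ u ∈ U, z = ι t * x * u}

section Top

variable [TopologicalSpace G] [IsTopologicalGroup G] [TopologicalSpace H]

theorem isOpen_stab846 (ι : H →* G) (hι : Continuous ι) (U : Subgroup G)
    (hU : IsOpen (U : Set G)) (x : G) : IsOpen (stab846 ι U x) := by
  have hc : Continuous fun t : H => x⁻¹ * ι t * x :=
    (continuous_const.mul hι).mul continuous_const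
  exact hU.preimage hc

theorem isOpen_leftCoset846 (U : Subgroup G) (hU : IsOpen (U : Set G)) (x : G) :
    IsOpen {z : G | x⁻¹ * z ∈ U} :=
  hU.preimage (continuous_const.mul continuous_id)

omit [TopologicalSpace G] [IsTopologicalGroup G] [TopologicalSpace H] in
theorem dcoset_eq_iUnion846 (ι : H →* G) (U : Subgroup G) (x : G) :
    dcoset846 ι U x = ⋃ t : H, {z : G | (ι t * x)⁻¹ * z ∈ U} := by
  ext z
  simp only [dcoset846, Set.mem_ofPred_eq, Set.mem_iUnion]
  constructor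
  · rintro ⟨t, u, hu, rfl⟩
    refine ⟨t, ?_⟩
    have e : (ι t * x)⁻¹ * (ι t * x * u) = u := by group
    change (ι t * x)⁻¹ * (ι t * x * u) ∈ U
    rw [e]
    exact hu
  · rintro ⟨t, ht⟩
    exact ⟨t, _, ht, by group⟩

theorem isOpen_dcoset846 (ι : H →* G) (U : Subgroup G) (hU : IsOpen (U : Set G)) (x : G) :
    IsOpen (dcoset846 ι U x) := by
  rw [dcoset_eq_iUnion846]
  exact isOpen_iUnion fun t => isOpen_leftCoset846 U hU _

end Top

/-- The fibre `{t | ι(t)⁻¹ z ∈ x U}` is a left translate of the stabiliser if `z ∈ ι(H) x U` and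
is empty otherwise. -/
theorem fibre_eq846 (ι : H →* G) (U : Subgroup G) (x : G) (t₀ : H) (u₀ : G) (hu₀ : u₀ ∈ U) :
    {t : H | x⁻¹ * ((ι t)⁻¹ * (ι t₀ * x * u₀)) ∈ U}
      = (fun t => t₀⁻¹ * t) ⁻¹' stab846 ι U x := by
  ext t
  simp only [Set.mem_ofPred_eq, Set.mem_preimage, stab846, map_mul, map_inv]
  have e1 : x⁻¹ * ((ι t)⁻¹ * (ι t₀ * x * u₀)) = (x⁻¹ * ((ι t₀)⁻¹ * ι t) * x)⁻¹ * u₀ := by group
  rw [e1]
  constructor
  · intro h
    have h2 := U.mul_mem hu₀ (U.inv_mem h)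
    have e2 : u₀ * ((x⁻¹ * ((ι t₀)⁻¹ * ι t) * x)⁻¹ * u₀)⁻¹ = x⁻¹ * ((ι t₀)⁻¹ * ι t) * x := by
      group
    rwa [e2] at h2
  · intro h
    exact U.mul_mem (U.inv_mem h) hu₀

theorem fibre_empty846 (ι : H →* G) (U : Subgroup G) (x z : G) (hz : z ∉ dcoset846 ι U x) :
    {t : H | x⁻¹ * ((ι t)⁻¹ * z) ∈ U} = ∅ := by
  ext t
  simp only [Set.mem_ofPred_eq, Set.mem_empty_iff_false, iff_false]
  intro h
  exact hz ⟨t, _, h, by group⟩

theorem measure_fibre846 [MeasurableSpace H] [MeasurableMul H]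
    (ν : Measure H) [ν.IsMulLeftInvariant] (ι : H →* G) (U : Subgroup G) (x z : G) :
    ν {t : H | x⁻¹ * ((ι t)⁻¹ * z) ∈ U}
      = (dcoset846 ι U x).indicator (fun _ => ν (stab846 ι U x)) z := by
  by_cases hz : z ∈ dcoset846 ι U x
  · rw [Set.indicator_of_mem hz]
    obtain ⟨t₀, u₀, hu₀, rfl⟩ := hz
    rw [fibre_eq846 ι U x t₀ u₀ hu₀, measure_preimage_mul]
  · rw [Set.indicator_of_notMem hz, fibre_empty846 ι U x z hz, measure_empty]

variable [TopologicalSpace G] [IsTopologicalGroup G]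
  [SecondCountableTopology G] [MeasurableSpace G] [BorelSpace G]
  [TopologicalSpace H] [IsTopologicalGroup H]
  [SecondCountableTopology H] [MeasurableSpace H] [BorelSpace H]
  (μ : Measure G) [μ.IsMulLeftInvariant] [SFinite μ]
  (ν : Measure H) [ν.IsMulLeftInvariant] [SFinite ν]

/-- **Key identity** (Weil's formula for the open subgroup `U`, by Tonelli). -/
theorem lintegral_doubleCoset846 (ι : H →* G) (hι : Continuous ι) (U : Subgroup G)
    (hU : IsOpen (U : Set G)) (hμU : μ (U : Set G) = 1)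
    (β : G → ℝ≥0∞) (hβ : Measurable β) (hβ1 : ∀ z, ∫⁻ t : H, β (ι t * z) ∂ν = 1) (x : G) :
    ν (stab846 ι U x) * ∫⁻ z in dcoset846 ι U x, β z ∂μ = 1 := by
  classical
  -- the coset `x U`
  set A : Set G := {z : G | x⁻¹ * z ∈ U} with hA
  have hAo : IsOpen A := isOpen_leftCoset846 U hU x
  have hAm : MeasurableSet A := hAo.measurableSet
  have hμA : μ A = 1 := by
    have : A = (fun z => x⁻¹ * z) ⁻¹' (U : Set G) := rfl
    rw [this, measure_preimage_mul, hμU]
  have hιm : Measurable ι := hι.measurable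
  -- step 1
  have h1 : ∫⁻ z, ∫⁻ t : H, A.indicator (fun _ => (1 : ℝ≥0∞)) z * β (ι t * z) ∂ν ∂μ = 1 := by
    have : ∀ z, ∫⁻ t : H, A.indicator (fun _ => (1 : ℝ≥0∞)) z * β (ι t * z) ∂ν
        = A.indicator (fun _ => (1 : ℝ≥0∞)) z := by
      intro z
      rw [lintegral_const_mul' _ _ (by
        by_cases hz : z ∈ A
        · simp [Set.indicator_of_mem hz]
        · simp [Set.indicator_of_notMem hz]), hβ1 z, mul_one]
    simp_rw [this]
    rw [lintegral_indicator hAm]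
    simp [hμA]
  -- measurability on the product
  have hm1 : Measurable fun p : G × H => A.indicator (fun _ => (1 : ℝ≥0∞)) p.1 * β (ι p.2 * p.1) := by
    refine Measurable.mul ?_ ?_
    · exact (measurable_const.indicator hAm).comp measurable_fst
    · exact hβ.comp ((hιm.comp measurable_snd).mul measurable_fst)
  -- step 2: Tonelli
  have h2 : ∫⁻ t : H, ∫⁻ z, A.indicator (fun _ => (1 : ℝ≥0∞)) z * β (ι t * z) ∂μ ∂ν = 1 := by
    refine Eq.trans ?_ h1
    exact (lintegral_lintegral_swap (μ := μ) (ν := ν) (f := fun z (t : H) =>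
      A.indicator (fun _ => (1 : ℝ≥0∞)) z * β (ι t * z)) hm1.aemeasurable).symm
  -- step 3: left invariance
  have h3 : ∀ t : H, ∫⁻ z, A.indicator (fun _ => (1 : ℝ≥0∞)) z * β (ι t * z) ∂μ
      = ∫⁻ z, A.indicator (fun _ => (1 : ℝ≥0∞)) ((ι t)⁻¹ * z) * β z ∂μ := by
    intro t
    have := lintegral_mul_left_eq_self (μ := μ)
      (fun z => A.indicator (fun _ => (1 : ℝ≥0∞)) ((ι t)⁻¹ * z) * β z) (ι t)
    rw [← this]
    simp
  simp_rw [h3] at h2
  -- step 4: Tonelli again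
  have hm2 : Measurable fun p : H × G =>
      A.indicator (fun _ => (1 : ℝ≥0∞)) ((ι p.1)⁻¹ * p.2) * β p.2 := by
    refine Measurable.mul ?_ ?_
    · exact (measurable_const.indicator hAm).comp
        (((hιm.comp measurable_fst).inv).mul measurable_snd)
    · exact hβ.comp measurable_snd
  have h4 : ∫⁻ z, ∫⁻ t : H, A.indicator (fun _ => (1 : ℝ≥0∞)) ((ι t)⁻¹ * z) * β z ∂ν ∂μ = 1 := by
    refine Eq.trans ?_ h2
    exact (lintegral_lintegral_swap (μ := ν) (ν := μ) (f := fun (t : H) z =>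
      A.indicator (fun _ => (1 : ℝ≥0∞)) ((ι t)⁻¹ * z) * β z) hm2.aemeasurable).symm
  -- step 5: the inner integral
  have h5 : ∀ z, ∫⁻ t : H, A.indicator (fun _ => (1 : ℝ≥0∞)) ((ι t)⁻¹ * z) * β z ∂ν
      = (dcoset846 ι U x).indicator (fun z => ν (stab846 ι U x) * β z) z := by
    intro z
    have hmz : Measurable fun t : H => A.indicator (fun _ => (1 : ℝ≥0∞)) ((ι t)⁻¹ * z) :=
      (measurable_const.indicator hAm).comp ((hιm.inv).mul measurable_const)
    rw [lintegral_mul_const _ hmz]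
    have e : (fun t : H => A.indicator (fun _ => (1 : ℝ≥0∞)) ((ι t)⁻¹ * z))
        = {t : H | x⁻¹ * ((ι t)⁻¹ * z) ∈ U}.indicator (fun _ => (1 : ℝ≥0∞)) := by
      funext t
      simp only [Set.indicator, hA, Set.mem_ofPred_eq]
    have hmS : MeasurableSet {t : H | x⁻¹ * ((ι t)⁻¹ * z) ∈ U} := by
      have hc : Continuous fun t : H => x⁻¹ * ((ι t)⁻¹ * z) :=
        continuous_const.mul ((hι.inv).mul continuous_const)
      exact (hU.preimage hc).measurableSet
    rw [e, lintegral_indicator hmS, setLIntegral_const, one_mul, measure_fibre846]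
    by_cases hz : z ∈ dcoset846 ι U x
    · simp [Set.indicator_of_mem hz]
    · simp [Set.indicator_of_notMem hz]
  simp_rw [h5] at h4
  rw [lintegral_indicator (isOpen_dcoset846 ι U hU x).measurableSet] at h4
  rw [← lintegral_const_mul _ hβ]
  exact h4

end Abstract

end Fermat.Agent.LT.T6.H846

end

end
-- ===== PACK-END LT/T6/H846/OrbAbs.lean

-- ===== PACK-BEGIN LT/T7/H176/FD/CutAbs.lean
section


/-!
# Row LT, tower T7, node C2.7.7 `FactDownC305`, leaf FD.8 `ArchIntblC558`: abstract part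
# (helper176, OFF-MAIN, MATHLIB ONLY)

`integrable_of_cut176`: `G` a locally compact, Hausdorff, second countable group with a Haar
measure `μ`, `T` a closed subgroup with a Haar measure `μT`, `β ≥ 0` a continuous cut-off function
(`∫_T β(t x) dμT(t) = 1` for all `x`), `f` continuous and bounded with `{f ≠ 0} ⊆ T · C`, `C`
compact.  Then `f · β` is integrable.

Proof.  `N` a compact neighbourhood of `1` in `T`, `C₂ = N⁻¹ C` (compact).  For `y = t₀ c`:
`{t : t⁻¹ y ∈ C₂} ⊇ t₀ N`, so `1 ≤ μT(N)⁻¹ ∫_T 1_{C₂}(t⁻¹ y) dμT(t)` on the support, and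
`∫_G ∫_T 1_{C₂}(t⁻¹ y) β(y) dμT(t) dμ(y) = ∫_T ∫_G 1_{C₂}(y) β(t y) dμ(y) dμT(t)
  = ∫_G 1_{C₂}(y) ∫_T β(t y) dμT(t) dμ(y) = μ(C₂) < ∞` (Tonelli, left invariance of `μ`).
Only the LEFT invariance of `μ` and of `μT` is used (no unimodularity, no commutativity).
-/

set_option autoImplicit false

open MeasureTheory Topology
open scoped ENNReal

noncomputable section

namespace Fermat.Agent.LT.T7.H176

section Abstract

variable {G : Type*} [Group G] [TopologicalSpace G] [IsTopologicalGroup G]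
  [SecondCountableTopology G] [MeasurableSpace G] [BorelSpace G]

/-- **Tonelli for a cut-off function.** -/
theorem lintegral_cut_eq176 (μ : Measure G) [SFinite μ] [μ.IsMulLeftInvariant]
    (T : Subgroup G) [MeasurableSpace T] [BorelSpace T] (μT : Measure T) [SFinite μT]
    (b : G → ℝ≥0∞) (hb : Measurable b)
    (hcut : ∀ x : G, ∫⁻ t : T, b ((t : G) * x) ∂μT = 1)
    (C₂ : Set G) (hC₂ : MeasurableSet C₂) :
    ∫⁻ y, (∫⁻ t : T, C₂.indicator (fun _ => (1 : ℝ≥0∞)) ((t : G)⁻¹ * y) ∂μT) * b y ∂μ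
      = μ C₂ := by
  have hval : Measurable (fun t : T => (t : G)) := continuous_subtype_val.measurable
  have hind : Measurable (C₂.indicator (fun _ : G => (1 : ℝ≥0∞))) :=
    measurable_const.indicator hC₂
  -- the two kernels
  have hm1 : Measurable (fun p : G × T => C₂.indicator (fun _ => (1 : ℝ≥0∞)) ((p.2 : G)⁻¹ * p.1)
      * b p.1) := by
    refine Measurable.mul ?_ (hb.comp measurable_fst)
    refine hind.comp ?_
    have hc : Continuous (fun p : G × T => (p.2 : G)⁻¹ * p.1) :=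
      ((continuous_subtype_val.comp continuous_snd).inv).mul continuous_fst
    exact hc.measurable
  have hm2 : Measurable (fun p : T × G => C₂.indicator (fun _ => (1 : ℝ≥0∞)) p.2
      * b ((p.1 : G) * p.2)) := by
    refine Measurable.mul (hind.comp measurable_snd) (hb.comp ?_)
    have hc : Continuous (fun p : T × G => (p.1 : G) * p.2) :=
      (continuous_subtype_val.comp continuous_fst).mul continuous_snd
    exact hc.measurable
  calc ∫⁻ y, (∫⁻ t : T, C₂.indicator (fun _ => (1 : ℝ≥0∞)) ((t : G)⁻¹ * y) ∂μT) * b y ∂μ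
      = ∫⁻ y, ∫⁻ t : T, C₂.indicator (fun _ => (1 : ℝ≥0∞)) ((t : G)⁻¹ * y) * b y ∂μT ∂μ := by
        refine lintegral_congr fun y => ?_
        rw [lintegral_mul_const]
        exact hind.comp ((hval.inv).mul_const y)
    _ = ∫⁻ t : T, ∫⁻ y, C₂.indicator (fun _ => (1 : ℝ≥0∞)) ((t : G)⁻¹ * y) * b y ∂μ ∂μT :=
        lintegral_lintegral_swap hm1.aemeasurable
    _ = ∫⁻ t : T, ∫⁻ y, C₂.indicator (fun _ => (1 : ℝ≥0∞)) y * b ((t : G) * y) ∂μ ∂μT := by
        refine lintegral_congr fun t => ?_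
        have h := lintegral_mul_left_eq_self (μ := μ)
          (fun y => C₂.indicator (fun _ => (1 : ℝ≥0∞)) ((t : G)⁻¹ * y) * b y) (t : G)
        rw [← h]
        refine lintegral_congr fun y => ?_
        simp only [inv_mul_cancel_left]
    _ = ∫⁻ y, ∫⁻ t : T, C₂.indicator (fun _ => (1 : ℝ≥0∞)) y * b ((t : G) * y) ∂μT ∂μ :=
        lintegral_lintegral_swap hm2.aemeasurable
    _ = ∫⁻ y, C₂.indicator (fun _ => (1 : ℝ≥0∞)) y ∂μ := by
        refine lintegral_congr fun y => ?_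
        rw [lintegral_const_mul, hcut y, mul_one]
        exact hb.comp (hval.mul_const y)
    _ = μ C₂ := by
        rw [lintegral_indicator hC₂]
        simp

/-- **Integrability of a cut-off orbital integrand** (abstract form). -/
theorem integrable_of_cut176 [LocallyCompactSpace G] [T2Space G]
    (μ : Measure G) [μ.IsHaarMeasure]
    (T : Subgroup G) (hT : IsClosed (T : Set G)) [MeasurableSpace T] [BorelSpace T]
    (μT : Measure T) [μT.IsHaarMeasure]
    (β : G → ℝ) (hβc : Continuous β) (hβ0 : ∀ x, 0 ≤ β x)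
    (hcut : ∀ x : G, ∫ t : T, β ((t : G) * x) ∂μT = 1)
    (f : G → ℂ) (hf : Continuous f) (M : ℝ) (hM : ∀ y, ‖f y‖ ≤ M)
    (C : Set G) (hC : IsCompact C)
    (hsupp : ∀ y, f y ≠ 0 → ∃ t ∈ T, ∃ c ∈ C, y = t * c) :
    Integrable (fun y => f y * ((β y : ℝ) : ℂ)) μ := by
  have : LocallyCompactSpace T := hT.isClosedEmbedding_subtypeVal.locallyCompactSpace
  have : SigmaCompactSpace T := hT.isClosedEmbedding_subtypeVal.sigmaCompactSpace
  have : SigmaFinite μ := inferInstance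
  have : SigmaFinite μT := inferInstance
  obtain ⟨N, hNc, hN1⟩ := exists_compact_mem_nhds (1 : T)
  have hNpos : 0 < μT N := Measure.measure_pos_of_mem_nhds μT hN1
  have hNfin : μT N < ⊤ := hNc.measure_lt_top
  obtain ⟨C₂, hC₂c, hC₂⟩ : ∃ C₂ : Set G, IsCompact C₂ ∧
      ∀ n ∈ N, ∀ c ∈ C, (n : G)⁻¹ * c ∈ C₂ :=
    ⟨(fun p : T × G => (p.1 : G)⁻¹ * p.2) '' (N ×ˢ C),
      (hNc.prod hC).image (((continuous_subtype_val.comp continuous_fst).inv).mul continuous_snd),
      fun n hn c hc => ⟨(n, c), ⟨hn, hc⟩, rfl⟩⟩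
  have hC₂m : MeasurableSet C₂ := hC₂c.isClosed.measurableSet
  set b : G → ℝ≥0∞ := fun y => ENNReal.ofReal (β y) with hb
  have hbm : Measurable b := ENNReal.measurable_ofReal.comp hβc.measurable
  have hcut' : ∀ x : G, ∫⁻ t : T, b ((t : G) * x) ∂μT = 1 := by
    intro x
    have hint : Integrable (fun t : T => β ((t : G) * x)) μT :=
      integrable_of_integral_eq_one (hcut x)
    have h := ofReal_integral_eq_lintegral_ofReal hint
      (Filter.Eventually.of_forall fun t => hβ0 _)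
    rw [hcut x] at h
    simpa using h.symm
  have hkey := lintegral_cut_eq176 μ T μT b hbm hcut' C₂ hC₂m
  -- the lower bound on the support
  have hg : ∀ y, f y ≠ 0 →
      μT N ≤ ∫⁻ t : T, C₂.indicator (fun _ => (1 : ℝ≥0∞)) ((t : G)⁻¹ * y) ∂μT := by
    intro y hy
    obtain ⟨t₀, ht₀, c, hc, rfl⟩ := hsupp y hy
    have hSm : MeasurableSet {t : T | (t : G)⁻¹ * (t₀ * c) ∈ C₂} := by
      have hcont : Continuous (fun t : T => (t : G)⁻¹ * (t₀ * c)) :=
        (continuous_subtype_val.inv).mul continuous_const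
      exact hC₂m.preimage hcont.measurable
    have h1 : (fun t : T => C₂.indicator (fun _ => (1 : ℝ≥0∞)) ((t : G)⁻¹ * (t₀ * c)))
        = {t : T | (t : G)⁻¹ * (t₀ * c) ∈ C₂}.indicator (fun _ => (1 : ℝ≥0∞)) := by
      funext t
      by_cases h : (t : G)⁻¹ * (t₀ * c) ∈ C₂
      · rw [Set.indicator_of_mem h]
        exact (Set.indicator_of_mem (s := {t : T | (t : G)⁻¹ * (t₀ * c) ∈ C₂}) h
          (fun _ => (1 : ℝ≥0∞))).symm
      · rw [Set.indicator_of_notMem h]
        exact (Set.indicator_of_notMem (s := {t : T | (t : G)⁻¹ * (t₀ * c) ∈ C₂}) h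
          (fun _ => (1 : ℝ≥0∞))).symm
    rw [h1, lintegral_indicator hSm]
    simp only [lintegral_const, MeasurableSet.univ, Measure.restrict_apply, Set.univ_inter,
      one_mul]
    have h2 : μT ((fun t : T => (⟨t₀, ht₀⟩ : T)⁻¹ * t) ⁻¹' N) = μT N :=
      measure_preimage_mul μT _ N
    rw [← h2]
    refine measure_mono ?_
    intro t ht
    simp only [Set.mem_preimage] at ht
    have h3 := hC₂ _ ht c hc
    have h4 : (((⟨t₀, ht₀⟩ : T)⁻¹ * t : T) : G)⁻¹ * c = (t : G)⁻¹ * (t₀ * c) := by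
      simp [mul_assoc]
    rw [h4] at h3
    exact h3
  -- integrability
  refine ⟨(hf.mul (Complex.continuous_ofReal.comp hβc)).aestronglyMeasurable, ?_⟩
  have hM0 : ENNReal.ofReal M * (μT N)⁻¹ ≠ ⊤ :=
    ENNReal.mul_ne_top ENNReal.ofReal_ne_top (ENNReal.inv_ne_top.mpr hNpos.ne')
  calc ∫⁻ y, ‖f y * ((β y : ℝ) : ℂ)‖ₑ ∂μ
      ≤ ∫⁻ y, ENNReal.ofReal M * (μT N)⁻¹ *
          ((∫⁻ t : T, C₂.indicator (fun _ => (1 : ℝ≥0∞)) ((t : G)⁻¹ * y) ∂μT) * b y) ∂μ := by
        refine lintegral_mono fun y => ?_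
        by_cases hy : f y = 0
        · simp [hy]
        · have h1 : ‖f y * ((β y : ℝ) : ℂ)‖ₑ = ‖f y‖ₑ * b y := by
            rw [enorm_mul]
            congr 1
            rw [← ofReal_norm]
            simp [hb, abs_of_nonneg (hβ0 y)]
          have h2 : ‖f y‖ₑ ≤ ENNReal.ofReal M := by
            rw [← ofReal_norm]
            exact ENNReal.ofReal_le_ofReal (hM y)
          have h3 : (1 : ℝ≥0∞)
              ≤ (μT N)⁻¹ * ∫⁻ t : T, C₂.indicator (fun _ => (1 : ℝ≥0∞)) ((t : G)⁻¹ * y) ∂μT := by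
            calc (1 : ℝ≥0∞) = (μT N)⁻¹ * μT N :=
                  (ENNReal.inv_mul_cancel hNpos.ne' hNfin.ne).symm
              _ ≤ _ := by gcongr; exact hg y hy
          rw [h1]
          calc ‖f y‖ₑ * b y ≤ ENNReal.ofReal M * (1 * b y) := by
                rw [one_mul]; gcongr
            _ ≤ ENNReal.ofReal M * (((μT N)⁻¹ *
                  ∫⁻ t : T, C₂.indicator (fun _ => (1 : ℝ≥0∞)) ((t : G)⁻¹ * y) ∂μT) * b y) := by
                gcongr
            _ = _ := by ring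
    _ = ENNReal.ofReal M * (μT N)⁻¹ * μ C₂ := by
        rw [lintegral_const_mul' _ _ hM0, hkey]
    _ < ⊤ := ENNReal.mul_lt_top hM0.lt_top hC₂c.measure_lt_top

end Abstract

end Fermat.Agent.LT.T7.H176

end

end
-- ===== PACK-END LT/T7/H176/FD/CutAbs.lean

-- ===== PACK-BEGIN LT/T7/H776/AbsSpec.lean
section


/-!
# Row LT, tower T7, NODE T7.L2.3.5.4 `SD534.WBasisC` (row 2182, helper776): ABSTRACT LEAVES

OFF-MAIN.  MATHLIB ONLY.  Frozen Props, no hole, nothing assumed.  ADDITIVE.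

`M` a complex vector space, `form` a positive definite hermitian form on the subspace `Vm`
(linear in the FIRST variable), `u` an orthonormal sequence with index set `J`, classes `cl`.

* `AbsExhaustC776` : finite classes + exhaustion from Parseval, orthogonality of the classes
  and finite dimension of the classes.
* `ProjSeqC776` : from an orthonormal sequence `u` (complete for the subspace `Wm`, finite
  classes) and a linear map `P` which maps the members into `Wm` and into their class spaces,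
  fixes `Wm` and satisfies `form χ (P (u j)) = form χ (u j)` for `χ ∈ Wm`, to an orthonormal
  sequence `w` of members of `Wm` which is complete for `Wm`, with `w j` in the span of the
  `P (u i)`, `cl i = cl j`, and which exhausts `Wm ⊓ (class space)`.
-/

set_option autoImplicit false

open scoped ComplexConjugate

noncomputable section

namespace Fermat.Agent.LT.T7.WB776

/-- **LEAF WB.A4 = ABS-EXHAUST (MATHLIB ONLY).**
`Cls a x` = "`x` is a member of the class `a`" (NOT assumed to be closed under `+`).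
Hypotheses, for the classes `a = cl j₀`, `j₀ ∈ J`, only: the members of the class lie in `Vm`
and in a finite dimensional subspace, Parseval holds for them, and they are orthogonal to the
members `u j` of the other classes.
Conclusion: the classes of indices are finite and every member of the class `cl j₀` lies in the
span of the `u j`, `j ∈ J`, `cl j = cl j₀`.
Proof: the `u j` of one class are orthonormal, hence linearly independent, in a finite
dimensional space: finitely many.  For `x` in the class: Parseval and orthogonality give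
`‖x‖² = ∑_{cl j = cl j₀} |⟨x, u j⟩|²` (finite sum), so `y = x - ∑ ⟨x, u j⟩ u j` has
`⟨y, y⟩ = 0`, `y ∈ Vm`, `y = 0`. -/
def AbsExhaustC776 : Prop :=
  ∀ (M : Type) [AddCommGroup M] [Module ℂ M] (form : M → M → ℂ) (Vm : Submodule ℂ M)
    (A : Type) (u : ℕ → M) (J : Set ℕ) (cl : ℕ → A) (Cls : A → M → Prop),
    (∀ x ∈ Vm, ∀ y ∈ Vm, ∀ z ∈ Vm, form (x + y) z = form x z + form y z) →
    (∀ (a : ℂ), ∀ x ∈ Vm, ∀ y ∈ Vm, form (a • x) y = a * form x y) →
    (∀ x ∈ Vm, ∀ y ∈ Vm, form y x = conj (form x y)) →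
    (∀ x ∈ Vm, 0 ≤ (form x x).re) →
    (∀ x ∈ Vm, form x x = 0 → x = 0) →
    (∀ j₀ ∈ J, ∀ x : M, Cls (cl j₀) x → x ∈ Vm) →
    (∀ j₀ ∈ J, ∃ W : Submodule ℂ M, Module.Finite ℂ W ∧ ∀ x : M, Cls (cl j₀) x → x ∈ W) →
    (∀ j ∈ J, Cls (cl j) (u j)) →
    (∀ j ∈ J, form (u j) (u j) = 1) →
    (∀ i ∈ J, ∀ j ∈ J, i ≠ j → form (u i) (u j) = 0) →
    (∀ j₀ ∈ J, ∀ x : M, Cls (cl j₀) x →
      HasSum (fun j : J => ‖form x (u j)‖ ^ 2) (form x x).re) →
    (∀ j₀ ∈ J, ∀ x : M, Cls (cl j₀) x → ∀ j ∈ J, cl j ≠ cl j₀ → form x (u j) = 0) →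
    (∀ j₀ ∈ J, {j : ℕ | j ∈ J ∧ cl j = cl j₀}.Finite) ∧
      ∀ j₀ ∈ J, ∀ x : M, Cls (cl j₀) x →
        x ∈ Submodule.span ℂ {f : M | ∃ j : ℕ, j ∈ J ∧ cl j = cl j₀ ∧ f = u j}

/-- **LEAF WB.C1 = PROJ-SEQ (MATHLIB ONLY).**
Proof: for a class `a` let `E a = span {u j : cl j = a}` (finite dimensional, orthonormal basis
`u j`) and `F a = span {P (u j) : cl j = a} ⊆ Wm ⊓ E a`; for `x ∈ Wm ⊓ E a`: `x = P x ∈ F a`, so
`F a = Wm ⊓ E a`.  Gram--Schmidt in `F a`: an orthonormal basis `w j`, `j ∈ J' a ⊆ J a`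
(`dim F a ≤ |J a|`); `J = ⋃ J' a`.  Different classes are orthogonal (`F a ⊆ E a`).
Parseval: for `χ ∈ Wm` the component `x = ∑_{cl j = a} ⟨χ, u j⟩ u j` of `χ` in `E a` lies in
`Wm`: `P x ∈ Wm ⊓ E a` and `⟨P x, u i⟩ = ⟨x, u i⟩` for `cl i = a`
(`⟨P u j, u i⟩ = ⟨P u j, P u i⟩ = ⟨u j, P u i⟩` by the last hypothesis and the symmetry,
`⟨x, P u i⟩ = ⟨χ, P u i⟩ = ⟨χ, u i⟩`), so `P x = x`.  Hence
`∑_{cl j = a} |⟨χ, u j⟩|² = ‖x‖² = ∑_{j ∈ J' a} |⟨x, w j⟩|² = ∑_{j ∈ J' a} |⟨χ, w j⟩|²`;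
regroup the two sums class by class (finite classes, nonnegative terms). -/
def ProjSeqC776 : Prop :=
  ∀ (M : Type) [AddCommGroup M] [Module ℂ M] (form : M → M → ℂ) (Vm Wm : Submodule ℂ M)
    (A : Type) (u : ℕ → M) (J₀ : Set ℕ) (cl : ℕ → A) (P : M →ₗ[ℂ] M),
    Wm ≤ Vm →
    (∀ x ∈ Vm, ∀ y ∈ Vm, ∀ z ∈ Vm, form (x + y) z = form x z + form y z) →
    (∀ (a : ℂ), ∀ x ∈ Vm, ∀ y ∈ Vm, form (a • x) y = a * form x y) →
    (∀ x ∈ Vm, ∀ y ∈ Vm, form y x = conj (form x y)) →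
    (∀ x ∈ Vm, 0 ≤ (form x x).re) →
    (∀ x ∈ Vm, form x x = 0 → x = 0) →
    (∀ j ∈ J₀, u j ∈ Vm) →
    (∀ j ∈ J₀, form (u j) (u j) = 1) →
    (∀ i ∈ J₀, ∀ j ∈ J₀, i ≠ j → form (u i) (u j) = 0) →
    (∀ χ ∈ Wm, HasSum (fun j : J₀ => ‖form χ (u j)‖ ^ 2) (form χ χ).re) →
    (∀ j₀ ∈ J₀, {j : ℕ | j ∈ J₀ ∧ cl j = cl j₀}.Finite) →
    (∀ j ∈ J₀, P (u j) ∈ Wm) →
    (∀ j ∈ J₀, P (u j) ∈ Submodule.span ℂ {f : M | ∃ i : ℕ, i ∈ J₀ ∧ cl i = cl j ∧ f = u i}) →
    (∀ χ ∈ Wm, P χ = χ) →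
    (∀ χ ∈ Wm, ∀ j ∈ J₀, form χ (P (u j)) = form χ (u j)) →
    ∃ (w : ℕ → M) (J : Set ℕ), J ⊆ J₀ ∧
      (∀ j ∈ J, w j ∈
        Submodule.span ℂ {f : M | ∃ i : ℕ, i ∈ J₀ ∧ cl i = cl j ∧ f = P (u i)}) ∧
      (∀ j ∈ J, form (w j) (w j) = 1) ∧
      (∀ i ∈ J, ∀ j ∈ J, i ≠ j → form (w i) (w j) = 0) ∧
      (∀ χ ∈ Wm, HasSum (fun j : J => ‖form χ (w j)‖ ^ 2) (form χ χ).re) ∧
      ∀ j₀ ∈ J₀, ∀ x ∈ Wm,
        x ∈ Submodule.span ℂ {f : M | ∃ i : ℕ, i ∈ J₀ ∧ cl i = cl j₀ ∧ f = u i} →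
        x ∈ Submodule.span ℂ {f : M | ∃ j : ℕ, j ∈ J ∧ cl j = cl j₀ ∧ f = w j}

end Fermat.Agent.LT.T7.WB776

end

end
-- ===== PACK-END LT/T7/H776/AbsSpec.lean

-- ===== PACK-BEGIN LT/T7/H566/SchurCore.lean
section


/-!
# Simultaneous Schur form of commuting operators (Mathlib only; helper566)

Asset for the leaf `SD534.SchurSeqC` (row LT, tower T7, node T7.L2.3.5 of helper534).

* `exists_common_eigvec566` : a commuting set of endomorphisms of a finite dimensional complex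
  vector space has a common eigenvector in every nonzero invariant subspace.
* `exists_schur566` : a commuting set of endomorphisms of a finite dimensional complex inner
  product space has an orthonormal basis `e` such that at every index `j` there is an invariant
  subspace `F'` orthogonal to `e j` with `A (e j) ∈ a • e j + F'` for every member `A`.
* `schur_triple566` : for commuting `B`, `U` and a group action `Z : ℤ → End V`:
  `⟪e j, B (Z k (U ^ m (e j)))⟫ = x j * b j ^ k * l j ^ m`, and `(b j, l j)` is a joint eigenvalue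
  of `(Z 1, U)`.
-/

set_option autoImplicit false

open Module

noncomputable section

namespace Fermat.Agent.LT.T7.H566

universe u

/-! ## 1. Common eigenvectors -/

section CommonEig

variable {V : Type*} [AddCommGroup V] [Module ℂ V] [FiniteDimensional ℂ V]

/-- An endomorphism has an eigenvector in every nonzero invariant subspace. -/
theorem exists_eigvec_in566 (A : End ℂ V) (G : Submodule ℂ V) (hG : G ≠ ⊥)
    (hA : ∀ x ∈ G, A x ∈ G) : ∃ v ∈ G, v ≠ 0 ∧ ∃ μ : ℂ, A v = μ • v := by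
  have : Nontrivial G := Submodule.nontrivial_iff_ne_bot.2 hG
  obtain ⟨μ, hμ⟩ := Module.End.exists_eigenvalue (A.restrict hA)
  obtain ⟨v, hv⟩ := hμ.exists_hasEigenvector
  refine ⟨v, v.2, ?_, μ, ?_⟩
  · intro h
    exact hv.2 (Subtype.ext h)
  · have h2 := congrArg Subtype.val hv.apply_eq_smul
    simpa using h2

/-- A commuting set of endomorphisms has a common eigenvector in every nonzero invariant
subspace. -/
theorem exists_common_eigvec566 (S : Set (End ℂ V))
    (hS : ∀ A ∈ S, ∀ B ∈ S, ∀ x, A (B x) = B (A x)) :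
    ∀ (n : ℕ) (G : Submodule ℂ V), finrank ℂ G = n → G ≠ ⊥ →
      (∀ A ∈ S, ∀ x ∈ G, A x ∈ G) →
      ∃ v ∈ G, v ≠ 0 ∧ ∀ A ∈ S, ∃ μ : ℂ, A v = μ • v := by
  intro n
  induction n using Nat.strong_induction_on with
  | _ n ih =>
    intro G hn hG hinv
    by_cases hsc : ∀ A ∈ S, ∃ μ : ℂ, ∀ x ∈ G, A x = μ • x
    · obtain ⟨v, hv, hv0⟩ := Submodule.exists_mem_ne_zero_of_ne_bot hG
      exact ⟨v, hv, hv0, fun A hA => (hsc A hA).imp fun μ h => h v hv⟩
    · push Not at hsc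
      obtain ⟨A, hA, hAns⟩ := hsc
      obtain ⟨v₀, hv₀G, hv₀, μ, hμ⟩ := exists_eigvec_in566 A G hG (hinv A hA)
      obtain ⟨x₀, hx₀G, hx₀⟩ := hAns μ
      let G' : Submodule ℂ V := G ⊓ LinearMap.ker (A - μ • (1 : End ℂ V))
      have hmem : ∀ x, x ∈ G' ↔ x ∈ G ∧ A x = μ • x := by
        intro x
        simp only [G', Submodule.mem_inf, LinearMap.mem_ker, LinearMap.sub_apply,
          LinearMap.smul_apply, Module.End.one_apply, sub_eq_zero]
      have hG'le : G' ≤ G := inf_le_left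
      have hG'ne : G' ≠ ⊥ := by
        intro h
        have h1 : v₀ ∈ G' := (hmem v₀).2 ⟨hv₀G, hμ⟩
        rw [h] at h1
        exact hv₀ ((Submodule.mem_bot ℂ).1 h1)
      have hG'lt : G' < G := by
        refine lt_of_le_of_ne hG'le ?_
        intro h
        have h1 : x₀ ∈ G' := h ▸ hx₀G
        exact hx₀ ((hmem x₀).1 h1).2
      have hfin : finrank ℂ G' < n := hn ▸ Submodule.finrank_lt_finrank_of_lt hG'lt
      have hinv' : ∀ B ∈ S, ∀ x ∈ G', B x ∈ G' := by
        intro B hB x hx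
        obtain ⟨hxG, hAx⟩ := (hmem x).1 hx
        refine (hmem _).2 ⟨hinv B hB x hxG, ?_⟩
        rw [hS A hA B hB x, hAx, map_smul]
      obtain ⟨v, hv, hv0, hve⟩ := ih (finrank ℂ G') hfin G' rfl hG'ne hinv'
      exact ⟨v, hG'le hv, hv0, hve⟩

omit [FiniteDimensional ℂ V] in
/-- An eigenvalue on a generalised eigenspace is the parameter of the eigenspace. -/
theorem eigval_eq_of_mem_maxGen566 (T : End ℂ V) (b μ : ℂ) (v : V) (hv : v ≠ 0)
    (hT : T v = μ • v) (hmem : v ∈ T.maxGenEigenspace b) : μ = b := by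
  rw [Module.End.mem_maxGenEigenspace] at hmem
  obtain ⟨k, hk⟩ := hmem
  have hpow : ∀ k : ℕ, ((T - b • (1 : End ℂ V)) ^ k) v = (μ - b) ^ k • v := by
    intro k
    induction k with
    | zero => simp
    | succ k ih =>
      rw [pow_succ', Module.End.mul_apply, ih, map_smul, LinearMap.sub_apply,
        LinearMap.smul_apply, Module.End.one_apply, hT, ← sub_smul, smul_smul, pow_succ]
  rw [hpow k] at hk
  rcases smul_eq_zero.1 hk with h | h
  · have hk0 : k ≠ 0 := by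
      rintro rfl
      simp at h
    exact sub_eq_zero.1 ((pow_eq_zero_iff hk0).1 h)
  · exact absurd h hv

/-- If a functional `L` is an eigen-covector of `T` on the invariant subspace `F` and does not
vanish on `F`, then it does not vanish on the generalised eigenspace of `T` in `F`. -/
theorem exists_genEig_ne566 (T : End ℂ V) (F : Submodule ℂ V) (hF : ∀ x ∈ F, T x ∈ F)
    (L : V →ₗ[ℂ] ℂ) (b : ℂ) (hL : ∀ y ∈ F, L (T y) = b * L y) (hne : ∃ y ∈ F, L y ≠ 0) :
    ∃ y ∈ F ⊓ T.maxGenEigenspace b, L y ≠ 0 := by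
  by_contra hcon
  push Not at hcon
  have hpres : ∀ μ : ℂ, ∀ y ∈ F, (T - μ • (1 : End ℂ V)) y ∈ F := by
    intro μ y hy
    rw [LinearMap.sub_apply, LinearMap.smul_apply, Module.End.one_apply]
    exact F.sub_mem (hF y hy) (F.smul_mem μ hy)
  have hpow : ∀ (μ : ℂ) (k : ℕ), ∀ y ∈ F,
      L (((T - μ • (1 : End ℂ V)) ^ k) y) = (b - μ) ^ k * L y := by
    intro μ k
    induction k with
    | zero => intro y _; simp
    | succ k ih =>
      intro y hy
      rw [pow_succ, Module.End.mul_apply, ih _ (hpres μ y hy), LinearMap.sub_apply,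
        LinearMap.smul_apply, Module.End.one_apply, map_sub, map_smul, hL y hy, smul_eq_mul,
        pow_succ]
      ring
  have hle : ∀ μ : ℂ, F ⊓ T.maxGenEigenspace μ ≤ LinearMap.ker L := by
    intro μ y hy
    rw [LinearMap.mem_ker]
    by_cases hμ : μ = b
    · subst hμ
      exact hcon y hy
    · obtain ⟨hyF, hyG⟩ := Submodule.mem_inf.1 hy
      rw [Module.End.mem_maxGenEigenspace] at hyG
      obtain ⟨k, hk⟩ := hyG
      have h1 := hpow μ k y hyF
      rw [hk, map_zero] at h1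
      rcases mul_eq_zero.1 h1.symm with h | h
      · have hk0 : k ≠ 0 := by
          rintro rfl
          simp at h
        exact absurd (sub_eq_zero.1 ((pow_eq_zero_iff hk0).1 h)).symm hμ
      · exact h
  have hFle : F ≤ LinearMap.ker L := by
    have h1 : F = F ⊓ ⨆ μ : ℂ, T.maxGenEigenspace μ := by
      rw [Module.End.iSup_maxGenEigenspace_eq_top, inf_top_eq]
    have h2 : F ⊓ ⨆ μ : ℂ, T.maxGenEigenspace μ = ⨆ μ : ℂ, F ⊓ T.maxGenEigenspace μ :=
      Submodule.inf_iSup_genEigenspace hF ⊤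
    rw [h1, h2]
    exact iSup_le hle
  obtain ⟨y, hy, hy0⟩ := hne
  exact hy0 (LinearMap.mem_ker.1 (hFle hy))

/-- Two commuting endomorphisms with a common eigen-covector on an invariant subspace have a
joint eigenvector with the same eigenvalues. -/
theorem exists_joint_eigvec566 (Z₁ U : End ℂ V) (hZU : ∀ x, Z₁ (U x) = U (Z₁ x))
    (F : Submodule ℂ V) (hZF : ∀ x ∈ F, Z₁ x ∈ F) (hUF : ∀ x ∈ F, U x ∈ F)
    (L : V →ₗ[ℂ] ℂ) (b l : ℂ) (hLZ : ∀ y ∈ F, L (Z₁ y) = b * L y)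
    (hLU : ∀ y ∈ F, L (U y) = l * L y) (hne : ∃ y ∈ F, L y ≠ 0) :
    ∃ v ∈ F, v ≠ 0 ∧ Z₁ v = b • v ∧ U v = l • v := by
  have hcomm : Commute Z₁ U := by
    apply LinearMap.ext
    intro x
    exact hZU x
  -- the first generalised eigenspace
  let G₁ : Submodule ℂ V := F ⊓ Z₁.maxGenEigenspace b
  have hG₁Z : ∀ x ∈ G₁, Z₁ x ∈ G₁ := fun x hx =>
    Submodule.mem_inf.2 ⟨hZF x (Submodule.mem_inf.1 hx).1,
      Module.End.mapsTo_maxGenEigenspace_of_comm (Commute.refl Z₁) b (Submodule.mem_inf.1 hx).2⟩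
  have hG₁U : ∀ x ∈ G₁, U x ∈ G₁ := fun x hx =>
    Submodule.mem_inf.2 ⟨hUF x (Submodule.mem_inf.1 hx).1,
      Module.End.mapsTo_maxGenEigenspace_of_comm hcomm b (Submodule.mem_inf.1 hx).2⟩
  have hne₁ : ∃ y ∈ G₁, L y ≠ 0 := exists_genEig_ne566 Z₁ F hZF L b hLZ hne
  -- the second generalised eigenspace
  let G₂ : Submodule ℂ V := G₁ ⊓ U.maxGenEigenspace l
  have hne₂ : ∃ y ∈ G₂, L y ≠ 0 :=
    exists_genEig_ne566 U G₁ hG₁U L l (fun y hy => hLU y (Submodule.mem_inf.1 hy).1) hne₁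
  have hG₂Z : ∀ x ∈ G₂, Z₁ x ∈ G₂ := fun x hx =>
    Submodule.mem_inf.2 ⟨hG₁Z x (Submodule.mem_inf.1 hx).1,
      Module.End.mapsTo_maxGenEigenspace_of_comm hcomm.symm l (Submodule.mem_inf.1 hx).2⟩
  have hG₂U : ∀ x ∈ G₂, U x ∈ G₂ := fun x hx =>
    Submodule.mem_inf.2 ⟨hG₁U x (Submodule.mem_inf.1 hx).1,
      Module.End.mapsTo_maxGenEigenspace_of_comm (Commute.refl U) l (Submodule.mem_inf.1 hx).2⟩
  have hG₂ne : G₂ ≠ ⊥ := by
    intro h
    obtain ⟨y, hy, hy0⟩ := hne₂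
    rw [h, Submodule.mem_bot] at hy
    rw [hy, map_zero] at hy0
    exact hy0 rfl
  let S : Set (End ℂ V) := {Z₁, U}
  have hS : ∀ A ∈ S, ∀ B ∈ S, ∀ x, A (B x) = B (A x) := by
    intro A hA B hB x
    rcases hA with rfl | rfl <;> rcases hB with rfl | rfl
    · rfl
    · exact hZU x
    · exact (hZU x).symm
    · rfl
  obtain ⟨v, hv, hv0, hve⟩ := exists_common_eigvec566 S hS (finrank ℂ G₂) G₂ rfl hG₂ne (by
    intro A hA x hx
    rcases hA with rfl | rfl
    · exact hG₂Z x hx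
    · exact hG₂U x hx)
  obtain ⟨μ, hμ⟩ := hve Z₁ (Or.inl rfl)
  obtain ⟨ν, hν⟩ := hve U (Or.inr rfl)
  have hvG₁ : v ∈ G₁ := (Submodule.mem_inf.1 hv).1
  have h1 : μ = b := eigval_eq_of_mem_maxGen566 Z₁ b μ v hv0 hμ (Submodule.mem_inf.1 hvG₁).2
  have h2 : ν = l := eigval_eq_of_mem_maxGen566 U l ν v hv0 hν (Submodule.mem_inf.1 hv).2
  exact ⟨v, (Submodule.mem_inf.1 hvG₁).1, hv0, h1 ▸ hμ, h2 ▸ hν⟩

end CommonEig

/-! ## 2. The Schur form -/

section Schur

/-- The triangular data at one vector `v`: an invariant subspace `F'` orthogonal to `v` such that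
every member of `S` maps `v` into `ℂ v + F'`. -/
def IsTriAt566 {V : Type*} [NormedAddCommGroup V] [InnerProductSpace ℂ V]
    (S : Set (End ℂ V)) (v : V) (F' : Submodule ℂ V) : Prop :=
  (∀ A ∈ S, ∀ y ∈ F', A y ∈ F') ∧ (∀ y ∈ F', inner ℂ v y = 0) ∧
    ∀ A ∈ S, ∃ a : ℂ, A v - a • v ∈ F'

/-- **Simultaneous Schur form**: a commuting set of endomorphisms of a finite dimensional complex
inner product space is upper triangular in an orthonormal basis. -/
theorem exists_schur566 (n : ℕ) :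
    ∀ (V : Type u) [NormedAddCommGroup V] [InnerProductSpace ℂ V] [FiniteDimensional ℂ V]
      (S : Set (End ℂ V)), (∀ A ∈ S, ∀ B ∈ S, ∀ x, A (B x) = B (A x)) → finrank ℂ V = n →
      ∃ e : Fin n → V, Orthonormal ℂ e ∧ ∀ j, ∃ F' : Submodule ℂ V, IsTriAt566 S (e j) F' := by
  induction n with
  | zero =>
    intro V _ _ _ S _ _
    exact ⟨fun i => i.elim0, ⟨fun i => i.elim0, fun i => i.elim0⟩, fun i => i.elim0⟩
  | succ n ih =>
    intro V _ _ _ S hS hn
    -- a common eigenvector of the adjoints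
    let Sad : Set (End ℂ V) := {A' | ∃ A ∈ S, A' = LinearMap.adjoint A}
    have hSad : ∀ A ∈ Sad, ∀ B ∈ Sad, ∀ x, A (B x) = B (A x) := by
      rintro _ ⟨A, hA, rfl⟩ _ ⟨B, hB, rfl⟩ x
      have h1 : LinearMap.adjoint A ∘ₗ LinearMap.adjoint B = LinearMap.adjoint (B ∘ₗ A) :=
        (LinearMap.adjoint_comp B A).symm
      have h2 : LinearMap.adjoint B ∘ₗ LinearMap.adjoint A = LinearMap.adjoint (A ∘ₗ B) :=
        (LinearMap.adjoint_comp A B).symm
      have h3 : B ∘ₗ A = A ∘ₗ B := by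
        ext y
        exact hS B hB A hA y
      have h4 : LinearMap.adjoint A ∘ₗ LinearMap.adjoint B
          = LinearMap.adjoint B ∘ₗ LinearMap.adjoint A := by
        rw [h1, h2, h3]
      exact congrArg (fun f : V →ₗ[ℂ] V => f x) h4
    have htop : finrank ℂ (⊤ : Submodule ℂ V) = n + 1 := by rw [finrank_top, hn]
    have hne : (⊤ : Submodule ℂ V) ≠ ⊥ := by
      intro h
      have h0 : finrank ℂ (⊤ : Submodule ℂ V) = 0 := by rw [h]; exact finrank_bot ℂ V
      omega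
    obtain ⟨w, -, hw0, hw⟩ := exists_common_eigvec566 Sad hSad (n + 1) ⊤ htop hne
      (fun _ _ _ _ => Submodule.mem_top)
    let W' : Submodule ℂ V := (ℂ ∙ w)ᗮ
    have hW'mem : ∀ x, x ∈ W' ↔ inner ℂ w x = 0 := fun x =>
      Submodule.mem_orthogonal_singleton_iff_inner_right
    have hfact : Fact (finrank ℂ V = n + 1) := ⟨hn⟩
    have hW'fin : finrank ℂ W' = n := Submodule.finrank_orthogonal_span_singleton hw0
    have hadj : ∀ A ∈ S, ∃ μ : ℂ, ∀ y : V, inner ℂ w (A y) = μ * inner ℂ w y := by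
      intro A hA
      obtain ⟨μ, hμ⟩ := hw (LinearMap.adjoint A) ⟨A, hA, rfl⟩
      refine ⟨starRingEnd ℂ μ, fun y => ?_⟩
      rw [← LinearMap.adjoint_inner_left, hμ, inner_smul_left]
    have hW'inv : ∀ A ∈ S, ∀ x ∈ W', A x ∈ W' := by
      intro A hA x hx
      rw [hW'mem] at hx ⊢
      obtain ⟨μ, hμ⟩ := hadj A hA
      rw [hμ, hx, mul_zero]
    let S' : Set (End ℂ W') := {A' | ∃ A ∈ S, ∀ x : W', ((A' x : W') : V) = A x}
    have hS' : ∀ A ∈ S', ∀ B ∈ S', ∀ x, A (B x) = B (A x) := by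
      rintro A' ⟨A, hA, hA'⟩ B' ⟨B, hB, hB'⟩ x
      apply Subtype.ext
      rw [hA', hB', hB', hA', hS A hA B hB]
    obtain ⟨e', he', htri'⟩ := ih W' S' hS' hW'fin
    let ŵ : V := (‖w‖⁻¹ : ℂ) • w
    have hŵnorm : ‖ŵ‖ = 1 := norm_smul_inv_norm hw0
    have hŵW : ∀ y ∈ W', inner ℂ ŵ y = 0 := by
      intro y hy
      rw [inner_smul_left, (hW'mem y).1 hy, mul_zero]
    let e : Fin (n + 1) → V := Fin.snoc (α := fun _ => V) (fun i => (e' i : V)) ŵ
    have he_cs : ∀ i : Fin n, e i.castSucc = (e' i : V) := fun i =>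
      Fin.snoc_castSucc (α := fun _ => V) _ _ i
    have he_last : e (Fin.last n) = ŵ := Fin.snoc_last (α := fun _ => V) _ _
    refine ⟨e, ⟨?_, ?_⟩, ?_⟩
    · intro i
      rcases Fin.eq_castSucc_or_eq_last i with ⟨i', rfl⟩ | rfl
      · rw [he_cs]
        exact he'.1 i'
      · rw [he_last]
        exact hŵnorm
    · intro i j hij
      rcases Fin.eq_castSucc_or_eq_last i with ⟨i', rfl⟩ | rfl <;>
        rcases Fin.eq_castSucc_or_eq_last j with ⟨j', rfl⟩ | rfl
      · rw [he_cs, he_cs]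
        have hij' : i' ≠ j' := fun h => hij (by rw [h])
        exact he'.2 hij'
      · rw [he_cs, he_last]
        exact inner_eq_zero_symm.1 (hŵW _ (e' i').2)
      · rw [he_cs, he_last]
        exact hŵW _ (e' j').2
      · exact absurd rfl hij
    · intro j
      rcases Fin.eq_castSucc_or_eq_last j with ⟨i, rfl⟩ | rfl
      · obtain ⟨F'', h1, h2, h3⟩ := htri' i
        refine ⟨F''.map W'.subtype, ?_, ?_, ?_⟩
        · rintro A hA _ ⟨y, hy, rfl⟩
          have hAr : A.restrict (hW'inv A hA) ∈ S' := ⟨A, hA, fun x => rfl⟩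
          exact ⟨A.restrict (hW'inv A hA) y, h1 _ hAr y hy, rfl⟩
        · rintro _ ⟨y, hy, rfl⟩
          rw [he_cs]
          exact h2 y hy
        · intro A hA
          have hAr : A.restrict (hW'inv A hA) ∈ S' := ⟨A, hA, fun x => rfl⟩
          obtain ⟨a, ha⟩ := h3 _ hAr
          refine ⟨a, ?_⟩
          rw [he_cs]
          exact ⟨_, ha, rfl⟩
      · refine ⟨W', hW'inv, ?_, ?_⟩
        · rw [he_last]
          exact hŵW
        · intro A hA
          rw [he_last]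
          obtain ⟨μ, hμ⟩ := hadj A hA
          refine ⟨μ, ?_⟩
          have h1 : inner ℂ w (μ • ŵ) = μ * inner ℂ w ŵ := inner_smul_right _ _ _
          rw [hW'mem, inner_sub_right, hμ, h1, sub_self]

end Schur

/-! ## 3. The diagonal of a product; the triple `(B, Z, U)` -/

section Triple

variable {V : Type u} [NormedAddCommGroup V] [InnerProductSpace ℂ V]

/-- `A` is triangular at `(v, F')` with diagonal value `a`. -/
def TriVal566 (v : V) (F' : Submodule ℂ V) (A : End ℂ V) (a : ℂ) : Prop :=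
  (∀ y ∈ F', A y ∈ F') ∧ A v - a • v ∈ F'

theorem triVal_one566 (v : V) (F' : Submodule ℂ V) : TriVal566 v F' 1 1 :=
  ⟨fun _ hy => hy, by simp⟩

theorem triVal_mul566 {v : V} {F' : Submodule ℂ V} {A B : End ℂ V} {a b : ℂ}
    (hA : TriVal566 v F' A a) (hB : TriVal566 v F' B b) : TriVal566 v F' (A * B) (a * b) := by
  refine ⟨fun y hy => hA.1 _ (hB.1 y hy), ?_⟩
  have h : (A * B) v - (a * b) • v = A (B v - b • v) + b • (A v - a • v) := by
    simp only [Module.End.mul_apply, map_sub, map_smul, smul_sub, smul_smul]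
    rw [mul_comm b a]
    abel
  rw [h]
  exact F'.add_mem (hA.1 _ hB.2) (F'.smul_mem b hA.2)

theorem triVal_pow566 {v : V} {F' : Submodule ℂ V} {A : End ℂ V} {a : ℂ}
    (hA : TriVal566 v F' A a) (m : ℕ) : TriVal566 v F' (A ^ m) (a ^ m) := by
  induction m with
  | zero => simpa using triVal_one566 v F'
  | succ m ih =>
    rw [pow_succ, pow_succ]
    exact triVal_mul566 ih hA

theorem triVal_inner566 {v : V} {F' : Submodule ℂ V} {A : End ℂ V} {a : ℂ}
    (hv : inner ℂ v v = 1) (hF : ∀ y ∈ F', inner ℂ v y = 0) (hA : TriVal566 v F' A a) :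
    inner ℂ v (A v) = a := by
  have h := hF _ hA.2
  rw [inner_sub_right, inner_smul_right, hv, mul_one, sub_eq_zero] at h
  exact h

theorem triVal_sup566 {v : V} {F' : Submodule ℂ V} {A : End ℂ V} {a : ℂ}
    (hv : inner ℂ v v = 1) (hF : ∀ y ∈ F', inner ℂ v y = 0) (hA : TriVal566 v F' A a) :
    ∀ y ∈ F' ⊔ Submodule.span ℂ {v},
      A y ∈ F' ⊔ Submodule.span ℂ {v} ∧ inner ℂ v (A y) = a * inner ℂ v y := by
  intro y hy
  obtain ⟨y', hy', z, hz, rfl⟩ := Submodule.mem_sup.1 hy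
  obtain ⟨c, rfl⟩ := Submodule.mem_span_singleton.1 hz
  have hAv : A v = a • v + (A v - a • v) := by abel
  constructor
  · rw [map_add, map_smul]
    refine Submodule.add_mem _ (Submodule.mem_sup_left (hA.1 y' hy')) ?_
    rw [hAv, smul_add]
    exact Submodule.add_mem _
      (Submodule.mem_sup_right (Submodule.smul_mem _ _ (Submodule.smul_mem _ _
        (Submodule.mem_span_singleton_self v))))
      (Submodule.mem_sup_left (Submodule.smul_mem _ _ hA.2))
  · rw [map_add, map_smul, inner_add_right, inner_add_right, inner_smul_right,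
      inner_smul_right, hF _ (hA.1 y' hy'), hF y' hy', triVal_inner566 hv hF hA, hv]
    ring

/-- A multiplicative function on `ℤ` is a power function. -/
theorem zpow_of_hom566 (β : ℤ → ℂ) (h0 : β 0 = 1) (hadd : ∀ k k', β (k + k') = β k * β k') :
    ∀ k, β k = β 1 ^ k := by
  have h1 : β 1 * β (-1) = 1 := by
    rw [← hadd]
    simpa using h0
  have hne : β 1 ≠ 0 := left_ne_zero_of_mul_eq_one h1
  have hinv : β (-1) = (β 1)⁻¹ := eq_inv_of_mul_eq_one_right h1
  intro k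
  induction k using Int.induction_on with
  | zero => simp [h0]
  | succ k ih => rw [hadd, ih, zpow_add_one₀ hne]
  | pred k ih => rw [sub_eq_add_neg, hadd, ih, hinv, zpow_add₀ hne, zpow_neg_one]

variable [FiniteDimensional ℂ V]

/-- **The Schur form of a commuting triple** `(B, Z, U)`, `Z` a group action of `ℤ`. -/
theorem schur_triple566 (B U : End ℂ V) (Z : ℤ → End ℂ V)
    (hBU : ∀ x, B (U x) = U (B x)) (hBZ : ∀ k x, B (Z k x) = Z k (B x))
    (hUZ : ∀ k x, U (Z k x) = Z k (U x))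
    (hZ0 : ∀ x, Z 0 x = x) (hZadd : ∀ k k' x, Z (k + k') x = Z k (Z k' x)) :
    ∃ (e : Fin (finrank ℂ V) → V) (x b l : Fin (finrank ℂ V) → ℂ), Orthonormal ℂ e ∧
      (∀ j (k : ℤ) (m : ℕ),
        inner ℂ (e j) (B (Z k ((U ^ m) (e j)))) = x j * b j ^ k * l j ^ m) ∧
      ∀ j, ∃ v : V, v ≠ 0 ∧ Z 1 v = b j • v ∧ U v = l j • v := by
  let S : Set (End ℂ V) := {A | A = B ∨ A = U ∨ ∃ k, A = Z k}
  have hZZ : ∀ k k' x, Z k (Z k' x) = Z k' (Z k x) := by
    intro k k' x
    rw [← hZadd, ← hZadd, add_comm]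
  have hS : ∀ A ∈ S, ∀ B' ∈ S, ∀ x, A (B' x) = B' (A x) := by
    rintro A (rfl | rfl | ⟨k, rfl⟩) B' (rfl | rfl | ⟨k', rfl⟩) x
    · rfl
    · exact hBU x
    · exact hBZ k' x
    · exact (hBU x).symm
    · rfl
    · exact hUZ k' x
    · exact (hBZ k x).symm
    · exact (hUZ k x).symm
    · exact hZZ k k' x
  obtain ⟨e, he, htri⟩ := exists_schur566 (finrank ℂ V) V S hS rfl
  choose F' hF' using htri
  have hmk : ∀ j, ∀ A ∈ S, ∃ a, TriVal566 (e j) (F' j) A a := by
    intro j A hA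
    obtain ⟨a, ha⟩ := (hF' j).2.2 A hA
    exact ⟨a, (hF' j).1 A hA, ha⟩
  choose x hx using fun j => hmk j B (Or.inl rfl)
  choose l hl using fun j => hmk j U (Or.inr (Or.inl rfl))
  choose β hβ using fun j k => hmk j (Z k) (Or.inr (Or.inr ⟨k, rfl⟩))
  have hvv : ∀ j, inner ℂ (e j) (e j) = 1 := by
    intro j
    rw [inner_self_eq_norm_sq_to_K, he.1 j]
    simp
  refine ⟨e, x, fun j => β j 1, l, he, ?_, ?_⟩
  · intro j k m
    have hβ0 : β j 0 = 1 := by
      have h1 := triVal_inner566 (hvv j) (hF' j).2.1 (hβ j 0)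
      rw [hZ0, hvv j] at h1
      exact h1.symm
    have hβadd : ∀ k k', β j (k + k') = β j k * β j k' := by
      intro k k'
      have h1 := triVal_inner566 (hvv j) (hF' j).2.1 (hβ j (k + k'))
      have h2 := triVal_inner566 (hvv j) (hF' j).2.1 (triVal_mul566 (hβ j k) (hβ j k'))
      rw [Module.End.mul_apply, ← hZadd, h1] at h2
      exact h2
    have hβz : ∀ k, β j k = β j 1 ^ k := zpow_of_hom566 _ hβ0 hβadd
    have hcomp : TriVal566 (e j) (F' j) (B * (Z k * U ^ m)) (x j * (β j k * l j ^ m)) :=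
      triVal_mul566 (hx j) (triVal_mul566 (hβ j k) (triVal_pow566 (hl j) m))
    have h := triVal_inner566 (hvv j) (hF' j).2.1 hcomp
    simp only [Module.End.mul_apply] at h
    rw [h, hβz k]
    ring
  · intro j
    have hZs := triVal_sup566 (hvv j) (hF' j).2.1 (hβ j 1)
    have hUs := triVal_sup566 (hvv j) (hF' j).2.1 (hl j)
    obtain ⟨v, -, hv0, h1, h2⟩ := exists_joint_eigvec566 (Z 1) U (fun x => (hUZ 1 x).symm)
      (F' j ⊔ Submodule.span ℂ {e j}) (fun y hy => (hZs y hy).1) (fun y hy => (hUs y hy).1)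
      (innerₛₗ ℂ (e j)) (β j 1) (l j) (fun y hy => (hZs y hy).2) (fun y hy => (hUs y hy).2)
      ⟨e j, Submodule.mem_sup_right (Submodule.mem_span_singleton_self _), by
        show inner ℂ (e j) (e j) ≠ 0
        rw [hvv j]
        exact one_ne_zero⟩
    exact ⟨v, hv0, h1, h2⟩

end Triple

end Fermat.Agent.LT.T7.H566

end

end
-- ===== PACK-END LT/T7/H566/SchurCore.lean

-- ===== PACK-BEGIN LT/T7/H666/Ram.lean
section


/-!
# Row LT, tower T7, asset (helper666): THE RAMIFIED PLACES divide one non-zero ideal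

OFF-MAIN.  Mathlib only.  No hole, nothing assumed.

`K'/K` an extension of number fields.  `ramIdeal666 K K'` = the contraction to `𝓞 K` of the
relative different of `𝓞 K' / 𝓞 K`:

* `ramIdeal_ne_bot666 : ramIdeal666 K K' ≠ ⊥`;
* `dvd_ramIdeal666`   : if `w ∩ 𝓞 K = v` and `w² ∣ v 𝓞_{K'}` (`w` is RAMIFIED over `v`) then
  `v ∣ ramIdeal666 K K'`.

So a level of `K` which is divisible by `ramIdeal666 K K'` is divisible by every place of `K`
which ramifies in `K'` (use: the base level of the geometric half of the comparison, where the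
places outside the level must be unramified - `coord/RAM666.md`).
-/

set_option autoImplicit false

open IsDedekindDomain NumberField

noncomputable section

namespace Fermat.Agent.LT.T7.H666

variable {K K' : Type} [Field K] [NumberField K] [Field K'] [NumberField K'] [Algebra K K']

/-- The contraction to `𝓞 K` of the relative different of `K'/K`. -/
def ramIdeal666 (K K' : Type) [Field K] [NumberField K] [Field K'] [NumberField K']
    [Algebra K K'] : Ideal (𝓞 K) :=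
  Ideal.comap (algebraMap (𝓞 K) (𝓞 K')) (differentIdeal (𝓞 K) (𝓞 K'))

theorem ramIdeal_ne_bot666 : ramIdeal666 K K' ≠ ⊥ := by
  intro h
  have hne : differentIdeal (𝓞 K) (𝓞 K') ≠ ⊥ := differentIdeal_ne_bot
  have h1 : ((Ideal.absNorm (differentIdeal (𝓞 K) (𝓞 K')) : ℕ) : 𝓞 K')
      ∈ differentIdeal (𝓞 K) (𝓞 K') := Ideal.absNorm_mem _
  have h2 : ((Ideal.absNorm (differentIdeal (𝓞 K) (𝓞 K')) : ℕ) : 𝓞 K) ∈ ramIdeal666 K K' := by
    rw [ramIdeal666, Ideal.mem_comap, map_natCast]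
    exact h1
  rw [h, Ideal.mem_bot] at h2
  have h3 : Ideal.absNorm (differentIdeal (𝓞 K) (𝓞 K')) = 0 := by exact_mod_cast h2
  rw [Ideal.absNorm_eq_zero_iff] at h3
  exact hne h3

/-- A place `v` of `K` under a place `w` of `K'` with `w² ∣ v 𝒪_{K'}` (a RAMIFIED place) divides
the contraction of the different. -/
theorem dvd_ramIdeal666 (v : HeightOneSpectrum (𝓞 K)) (w : HeightOneSpectrum (𝓞 K'))
    (hvw : Ideal.comap (algebraMap (𝓞 K) (𝓞 K')) w.asIdeal = v.asIdeal)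
    (h : w.asIdeal ^ 2 ∣ Ideal.map (algebraMap (𝓞 K) (𝓞 K')) v.asIdeal) :
    v.asIdeal ∣ ramIdeal666 K K' := by
  have hmax : v.asIdeal.IsMaximal := v.isMaximal
  have h1 : w.asIdeal ^ (2 - 1) ∣ differentIdeal (𝓞 K) (𝓞 K') :=
    pow_sub_one_dvd_differentIdeal (𝓞 K) w.asIdeal 2 v.ne_bot h
  simp only [Nat.add_one_sub_one, pow_one] at h1
  rw [Ideal.dvd_iff_le, ramIdeal666, ← hvw]
  exact Ideal.comap_mono (Ideal.dvd_iff_le.mp h1)

end Fermat.Agent.LT.T7.H666

end

end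
-- ===== PACK-END LT/T7/H666/Ram.lean

-- ===== PACK-BEGIN LT/T7/H822/RegParam.lean
section


/-!
# Row LT, tower T7, asset of helper822: the parameters at the regular place (abstract form)

OFF-MAIN.  Mathlib only.  No `sorry`.

Abstract Iwahori--Hecke algebra of `GL₂` at one place acting on a complex inner product space:
`S` (the operator of `I s I`) is symmetric with `S² = (q - 1) S + q`, `ρ` (the operator of the
normaliser `ω` of `I`) is an isometry and `ρ²` (the scalar uniformiser) commutes with `S`.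
`U = S ρ` (or `ρ S`) is the operator of `I diag(ϖ, 1) I`.

* `zOp822 S ρ q = S ρ + ρ S - (q - 1) ρ` commutes with `S` and `ρ` (`zOp822_comm_S`,
  `zOp822_comm_rho`) and `U² = Z U - q ρ²` (`U_sq822`).
* `regParam_of_eigen822`: every joint eigenvalue `(b, μ)` of `(ρ², S ρ)` satisfies
  `‖b‖ = 1`, `‖μ / √q‖ ≤ √q` and (`‖μ / √q‖ = 1` or `(μ / √q)² = t b` with `t > 0`): this is
  `T7.IsRegParam (√q) b (μ / √q)` of `T7/Reg.lean`, for OLD and NEW vectors alike, with no
  newform theory.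
* `regParam_of_eigen'822`: the same for `U = ρ S`.
-/

set_option autoImplicit false

open scoped ComplexConjugate InnerProductSpace

namespace Fermat.Agent.LT.T7.H822

variable {V : Type*} [NormedAddCommGroup V] [InnerProductSpace ℂ V]

/-- The central element `Z = S ρ + ρ S - (q - 1) ρ` (the spherical Hecke operator in Iwahori
form). -/
def zOp822 (S ρ : Module.End ℂ V) (q : ℝ) : Module.End ℂ V :=
  S * ρ + ρ * S - ((q : ℂ) - 1) • ρ

theorem zOp822_comm_S (S ρ : Module.End ℂ V) (q : ℝ)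
    (hq : S * S = ((q : ℂ) - 1) • S + (q : ℂ) • (1 : Module.End ℂ V)) :
    zOp822 S ρ q * S = S * zOp822 S ρ q := by
  unfold zOp822
  have h1 : ρ * S * S = ((q : ℂ) - 1) • (ρ * S) + (q : ℂ) • ρ := by
    rw [mul_assoc, hq, mul_add, mul_smul_comm, mul_smul_comm, mul_one]
  have h2 : S * (S * ρ) = ((q : ℂ) - 1) • (S * ρ) + (q : ℂ) • ρ := by
    rw [← mul_assoc, hq, add_mul, smul_mul_assoc, smul_mul_assoc, one_mul]
  rw [sub_mul, add_mul, mul_sub, mul_add, h1, h2, smul_mul_assoc, mul_smul_comm]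
  simp only [mul_assoc]
  abel

theorem zOp822_comm_rho (S ρ : Module.End ℂ V) (q : ℝ)
    (hz : (ρ * ρ) * S = S * (ρ * ρ)) :
    zOp822 S ρ q * ρ = ρ * zOp822 S ρ q := by
  unfold zOp822
  rw [sub_mul, add_mul, mul_sub, mul_add, smul_mul_assoc, mul_smul_comm]
  have h1 : S * ρ * ρ = ρ * (ρ * S) := by
    rw [mul_assoc, ← hz, mul_assoc]
  rw [h1]
  simp only [mul_assoc]
  abel

/-- The quadratic relation of `U = S ρ` over the centre: `U² = Z U - q ρ²`. -/
theorem U_sq822 (S ρ : Module.End ℂ V) (q : ℝ)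
    (hq : S * S = ((q : ℂ) - 1) • S + (q : ℂ) • (1 : Module.End ℂ V)) :
    (S * ρ) * (S * ρ) = zOp822 S ρ q * (S * ρ) - (q : ℂ) • (ρ * ρ) := by
  unfold zOp822
  have h1 : ρ * S * (S * ρ) = ((q : ℂ) - 1) • (ρ * (S * ρ)) + (q : ℂ) • (ρ * ρ) := by
    rw [mul_assoc, ← mul_assoc S S ρ, hq, add_mul, smul_mul_assoc, smul_mul_assoc, one_mul,
      mul_add, mul_smul_comm, mul_smul_comm]
  rw [sub_mul, add_mul, h1, smul_mul_assoc]
  abel


/-- `⟪Z x, ρ² y⟫ = ⟪x, Z y⟫`: the adjoint of `Z` is `ρ⁻² Z` (no inverse needed). -/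
theorem inner_zOp822 (S ρ : Module.End ℂ V) (q : ℝ)
    (hS : ∀ x y : V, ⟪S x, y⟫_ℂ = ⟪x, S y⟫_ℂ)
    (hρ : ∀ x y : V, ⟪ρ x, ρ y⟫_ℂ = ⟪x, y⟫_ℂ)
    (hz : (ρ * ρ) * S = S * (ρ * ρ)) (x y : V) :
    ⟪zOp822 S ρ q x, (ρ * ρ) y⟫_ℂ = ⟪x, zOp822 S ρ q y⟫_ℂ := by
  have hz' : ∀ v : V, S (ρ (ρ v)) = ρ (ρ (S v)) := fun v => by
    have := congrArg (fun f : Module.End ℂ V => f v) hz
    simpa using this.symm
  have e1 : ⟪S (ρ x), ρ (ρ y)⟫_ℂ = ⟪x, ρ (S y)⟫_ℂ := by
    rw [hS, hz', hρ]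
  have e2 : ⟪ρ (S x), ρ (ρ y)⟫_ℂ = ⟪x, S (ρ y)⟫_ℂ := by
    rw [hρ, hS]
  have e3 : ⟪((q : ℂ) - 1) • ρ x, ρ (ρ y)⟫_ℂ = ⟪x, ((q : ℂ) - 1) • ρ y⟫_ℂ := by
    rw [inner_smul_left, inner_smul_right, hρ]
    congr 1
    simp
  simp only [zOp822, LinearMap.sub_apply, LinearMap.add_apply, Module.End.mul_apply,
    LinearMap.smul_apply, inner_sub_left, inner_add_left, inner_sub_right, inner_add_right]
  rw [e1, e2, e3]
  ring

/-- `‖S y‖ ≤ q ‖y‖` for a symmetric `S` with `S² = (q - 1) S + q`, `q ≥ 1`. -/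
theorem norm_S_le822 (S : Module.End ℂ V) (q : ℝ) (hq1 : 1 ≤ q)
    (hS : ∀ x y : V, ⟪S x, y⟫_ℂ = ⟪x, S y⟫_ℂ)
    (hSq : S * S = ((q : ℂ) - 1) • S + (q : ℂ) • (1 : Module.End ℂ V)) (y : V) :
    ‖S y‖ ≤ q * ‖y‖ := by
  have hSS : S (S y) = ((q : ℂ) - 1) • S y + (q : ℂ) • y := by
    have := congrArg (fun f : Module.End ℂ V => f y) hSq
    simpa using this
  have h1 : ⟪S y, S y⟫_ℂ = ((q : ℂ) - 1) * ⟪y, S y⟫_ℂ + (q : ℂ) * ⟪y, y⟫_ℂ := by
    rw [hS y (S y), hSS, inner_add_right, inner_smul_right, inner_smul_right]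
  have hre : ∀ v : V, (⟪v, v⟫_ℂ).re = ‖v‖ ^ 2 := fun v => by
    have := inner_self_eq_norm_sq (𝕜 := ℂ) v
    simpa using this
  have h2 : ‖S y‖ ^ 2 = (q - 1) * (⟪y, S y⟫_ℂ).re + q * ‖y‖ ^ 2 := by
    have := congrArg Complex.re h1
    have e : (((q : ℂ) - 1) * ⟪y, S y⟫_ℂ).re = (q - 1) * (⟪y, S y⟫_ℂ).re := by
      have : ((q : ℂ) - 1) = ((q - 1 : ℝ) : ℂ) := by push_cast; ring
      rw [this, Complex.re_ofReal_mul]
    rw [Complex.add_re, e, Complex.re_ofReal_mul, hre, hre] at this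
    exact this
  have h3 : (⟪y, S y⟫_ℂ).re ≤ ‖y‖ * ‖S y‖ :=
    (Complex.re_le_norm _).trans (norm_inner_le_norm y (S y))
  have h4 : ‖S y‖ ^ 2 ≤ (q - 1) * (‖y‖ * ‖S y‖) + q * ‖y‖ ^ 2 := by
    rw [h2]
    have := mul_le_mul_of_nonneg_left h3 (sub_nonneg.2 hq1)
    linarith
  by_contra hcon
  rw [not_le] at hcon
  have hn : 0 ≤ ‖y‖ := norm_nonneg y
  have hqn : 0 ≤ q * ‖y‖ := mul_nonneg (by linarith) hn
  have hp := mul_pos (sub_pos.2 hcon) (add_pos_of_pos_of_nonneg (lt_of_le_of_lt hqn hcon) hn)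
  nlinarith

/-- The algebra behind `IsRegParam`: a root `l` of `x² - a x + b` with `‖b‖ = 1` and
`conj a * b = a` has `‖l‖ = 1` or `l² = ‖l‖² b`. -/
theorem root_dichotomy822 {a b l : ℂ} (hb : ‖b‖ = 1) (ha : conj a * b = a)
    (hl : l ^ 2 + b = a * l) :
    ‖l‖ = 1 ∨ ∃ t : ℝ, 0 < t ∧ l ^ 2 = (t : ℂ) * b := by
  have hbb : b * conj b = 1 := by
    rw [Complex.mul_conj, Complex.normSq_eq_norm_sq, hb]
    simp
  have hl0 : l ≠ 0 := by
    rintro rfl
    have : b = 0 := by simpa using hl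
    rw [this] at hb
    simp at hb
  have hc : conj l ^ 2 + conj b = conj a * conj l := by
    have := congrArg conj hl
    simpa using this
  have hc' : b * conj l ^ 2 + 1 = a * conj l := by
    have : b * (conj l ^ 2 + conj b) = b * (conj a * conj l) := by rw [hc]
    rw [mul_add, hbb] at this
    rw [this]
    calc b * (conj a * conj l) = (conj a * b) * conj l := by ring
      _ = a * conj l := by rw [ha]
  have key : (l * conj l - 1) * (l - b * conj l) = 0 := by
    have e1 : (l ^ 2 + b) * conj l = (b * conj l ^ 2 + 1) * l := by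
      rw [hl, hc']
      ring
    linear_combination e1
  rcases mul_eq_zero.1 key with h | h
  · left
    have h1 : l * conj l = 1 := sub_eq_zero.1 h
    rw [Complex.mul_conj, Complex.normSq_eq_norm_sq] at h1
    have h2 : ‖l‖ ^ 2 = 1 := by exact_mod_cast h1
    have h3 : (‖l‖ - 1) * (‖l‖ + 1) = 0 := by ring_nf; linarith
    rcases mul_eq_zero.1 h3 with h4 | h4
    · linarith
    · have := norm_nonneg l
      linarith
  · right
    refine ⟨‖l‖ ^ 2, by positivity, ?_⟩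
    have h1 : l = b * conj l := sub_eq_zero.1 h
    have h2 : l ^ 2 = (l * conj l) * b := by
      calc l ^ 2 = l * l := sq l
        _ = l * (b * conj l) := by rw [← h1]
        _ = (l * conj l) * b := by ring
    rw [h2, Complex.mul_conj, Complex.normSq_eq_norm_sq]


theorem norm_rho822 (ρ : Module.End ℂ V) (hρ : ∀ x y : V, ⟪ρ x, ρ y⟫_ℂ = ⟪x, y⟫_ℂ) (v : V) :
    ‖ρ v‖ = ‖v‖ := by
  have h1 : ‖ρ v‖ ^ 2 = ‖v‖ ^ 2 := by
    have e1 := inner_self_eq_norm_sq (𝕜 := ℂ) (ρ v)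
    have e2 := inner_self_eq_norm_sq (𝕜 := ℂ) v
    rw [hρ] at e1
    rw [← e1, ← e2]
  have h2 := norm_nonneg (ρ v)
  have h3 := norm_nonneg v
  nlinarith

/-- **The parameters at the regular place** (`U = S ρ`).  Every joint eigenvalue `(b, μ)` of
`(ρ², S ρ)` satisfies `T7.IsRegParam (√q) b (μ / √q)`. -/
theorem regParam_of_eigen822 [FiniteDimensional ℂ V] (S ρ : Module.End ℂ V) (q : ℝ)
    (hq1 : 1 ≤ q)
    (hS : ∀ x y : V, ⟪S x, y⟫_ℂ = ⟪x, S y⟫_ℂ)
    (hSq : S * S = ((q : ℂ) - 1) • S + (q : ℂ) • (1 : Module.End ℂ V))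
    (hρ : ∀ x y : V, ⟪ρ x, ρ y⟫_ℂ = ⟪x, y⟫_ℂ)
    (hz : (ρ * ρ) * S = S * (ρ * ρ))
    {b μ : ℂ} {x : V} (hx : x ≠ 0) (hb : (ρ * ρ) x = b • x) (hμ : (S * ρ) x = μ • x) :
    ‖b‖ = 1 ∧ ‖μ / (Real.sqrt q : ℂ)‖ ≤ Real.sqrt q ∧
      (‖μ / (Real.sqrt q : ℂ)‖ = 1 ∨
        ∃ t : ℝ, 0 < t ∧ (μ / (Real.sqrt q : ℂ)) ^ 2 = (t : ℂ) * b) := by
  have hq0 : 0 < q := by linarith
  have hs0 : 0 < Real.sqrt q := Real.sqrt_pos.2 hq0
  have hsC : (Real.sqrt q : ℂ) ≠ 0 := by exact_mod_cast hs0.ne'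
  have hss : (Real.sqrt q : ℂ) ^ 2 = (q : ℂ) := by
    rw [← Complex.ofReal_pow, Real.sq_sqrt hq0.le]
  have hxn : 0 < ‖x‖ := norm_pos_iff.2 hx
  -- (a) `‖b‖ = 1`
  have hbn : ‖b‖ = 1 := by
    have h1 : ‖b‖ * ‖x‖ = ‖x‖ := by
      rw [← norm_smul, ← hb, Module.End.mul_apply, norm_rho822 ρ hρ, norm_rho822 ρ hρ]
    exact (mul_eq_right₀ hxn.ne').1 h1
  -- (b) `‖μ‖ ≤ q`
  have hμn : ‖μ‖ ≤ q := by
    have h1 : ‖μ‖ * ‖x‖ ≤ q * ‖x‖ := by
      rw [← norm_smul, ← hμ, Module.End.mul_apply]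
      refine (norm_S_le822 S q hq1 hS hSq (ρ x)).trans ?_
      rw [norm_rho822 ρ hρ]
    exact le_of_mul_le_mul_right h1 hxn
  -- (c) an eigenvector of `Z` in the joint eigenspace
  set Z := zOp822 S ρ q with hZ
  have hZS : Z * S = S * Z := zOp822_comm_S S ρ q hSq
  have hZρ : Z * ρ = ρ * Z := zOp822_comm_rho S ρ q hz
  have hZz : ∀ v : V, Z (ρ (ρ v)) = ρ (ρ (Z v)) := fun v => by
    have e1 : ∀ w : V, Z (ρ w) = ρ (Z w) := fun w => by
      have := congrArg (fun f : Module.End ℂ V => f w) hZρ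
      simpa using this
    rw [e1, e1]
  have hZU : ∀ v : V, Z (S (ρ v)) = S (ρ (Z v)) := fun v => by
    have e1 : ∀ w : V, Z (ρ w) = ρ (Z w) := fun w => by
      have := congrArg (fun f : Module.End ℂ V => f w) hZρ
      simpa using this
    have e2 : ∀ w : V, Z (S w) = S (Z w) := fun w => by
      have := congrArg (fun f : Module.End ℂ V => f w) hZS
      simpa using this
    rw [e2, e1]
  let W : Submodule ℂ V :=
    { carrier := {v | ρ (ρ v) = b • v ∧ S (ρ v) = μ • v}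
      add_mem' := by
        rintro u v ⟨hu1, hu2⟩ ⟨hv1, hv2⟩
        refine ⟨?_, ?_⟩
        · rw [map_add, map_add, hu1, hv1, smul_add]
        · rw [map_add, map_add, hu2, hv2, smul_add]
      zero_mem' := by
        refine ⟨?_, ?_⟩ <;> simp
      smul_mem' := by
        rintro c v ⟨hv1, hv2⟩
        refine ⟨?_, ?_⟩
        · rw [map_smul, map_smul, hv1, smul_comm]
        · rw [map_smul, map_smul, hv2, smul_comm] }
  have hxW : x ∈ W := ⟨by simpa using hb, by simpa using hμ⟩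
  have hZW : ∀ v ∈ W, Z v ∈ W := by
    rintro v ⟨hv1, hv2⟩
    refine ⟨?_, ?_⟩
    · rw [← hZz, hv1, map_smul]
    · rw [← hZU, hv2, map_smul]
  have : Nontrivial W := ⟨⟨⟨x, hxW⟩, 0, fun h => hx (by simpa using congrArg Subtype.val h)⟩⟩
  obtain ⟨t₀, ht₀⟩ := Module.End.exists_eigenvalue (Z.restrict hZW)
  obtain ⟨w, hw⟩ := ht₀.exists_hasEigenvector
  have hw0 : (w : V) ≠ 0 := fun h => hw.2 (Subtype.ext h)
  have hwZ : Z (w : V) = t₀ • (w : V) := by
    have := congrArg Subtype.val hw.apply_eq_smul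
    simpa using this
  obtain ⟨hw1, hw2⟩ : ρ (ρ (w : V)) = b • (w : V) ∧ S (ρ (w : V)) = μ • (w : V) := w.2
  -- (d) the quadratic equation
  have hquad : μ ^ 2 + (q : ℂ) * b = t₀ * μ := by
    have h1 := congrArg (fun f : Module.End ℂ V => f (w : V)) (U_sq822 S ρ q hSq)
    simp only [Module.End.mul_apply, LinearMap.sub_apply, LinearMap.smul_apply] at h1
    rw [hw2, map_smul, map_smul, hw2, hw1, ← hZ, map_smul, hwZ, smul_smul, smul_smul,
      smul_smul, ← sub_smul] at h1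
    have h2 := smul_left_injective ℂ hw0 h1
    linear_combination h2
  -- (e) the unitarity relation
  have hconj : conj t₀ * b = t₀ := by
    have h1 := inner_zOp822 S ρ q hS hρ hz (w : V) (w : V)
    rw [← hZ, hwZ, Module.End.mul_apply, hw1, inner_smul_left, inner_smul_right,
      inner_smul_right] at h1
    have h0 : ⟪(w : V), (w : V)⟫_ℂ ≠ 0 := inner_self_ne_zero.2 hw0
    have h2 : (conj t₀ * b) * ⟪(w : V), (w : V)⟫_ℂ = t₀ * ⟪(w : V), (w : V)⟫_ℂ := by
      rw [← h1]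
      ring
    exact mul_right_cancel₀ h0 h2
  -- (f) conclusion
  refine ⟨hbn, ?_, ?_⟩
  · rw [norm_div, Complex.norm_real, Real.norm_of_nonneg hs0.le, div_le_iff₀ hs0,
      ← sq, Real.sq_sqrt hq0.le]
    exact hμn
  · refine root_dichotomy822 (a := t₀ / (Real.sqrt q : ℂ)) hbn ?_ ?_
    · rw [map_div₀, Complex.conj_ofReal, div_mul_eq_mul_div, hconj]
    · field_simp
      rw [hss]
      linear_combination hquad


/-- **The parameters at the regular place** (`U = ρ S`). -/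
theorem regParam_of_eigen'822 [FiniteDimensional ℂ V] (S ρ : Module.End ℂ V) (q : ℝ)
    (hq1 : 1 ≤ q)
    (hS : ∀ x y : V, ⟪S x, y⟫_ℂ = ⟪x, S y⟫_ℂ)
    (hSq : S * S = ((q : ℂ) - 1) • S + (q : ℂ) • (1 : Module.End ℂ V))
    (hρ : ∀ x y : V, ⟪ρ x, ρ y⟫_ℂ = ⟪x, y⟫_ℂ)
    (hz : (ρ * ρ) * S = S * (ρ * ρ))
    {b μ : ℂ} {x : V} (hx : x ≠ 0) (hb : (ρ * ρ) x = b • x) (hμ : (ρ * S) x = μ • x) :
    ‖b‖ = 1 ∧ ‖μ / (Real.sqrt q : ℂ)‖ ≤ Real.sqrt q ∧
      (‖μ / (Real.sqrt q : ℂ)‖ = 1 ∨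
        ∃ t : ℝ, 0 < t ∧ (μ / (Real.sqrt q : ℂ)) ^ 2 = (t : ℂ) * b) := by
  have hq0 : (q : ℂ) ≠ 0 := by
    have : 0 < q := by linarith
    exact_mod_cast this.ne'
  have hSS : S (S x) = ((q : ℂ) - 1) • S x + (q : ℂ) • x := by
    have := congrArg (fun f : Module.End ℂ V => f x) hSq
    simpa using this
  have hSx : S x ≠ 0 := by
    intro h
    rw [h, map_zero, smul_zero, zero_add] at hSS
    exact hx ((smul_eq_zero.1 hSS.symm).resolve_left hq0)
  have hz' : ∀ v : V, S (ρ (ρ v)) = ρ (ρ (S v)) := fun v => by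
    have := congrArg (fun f : Module.End ℂ V => f v) hz
    simpa using this.symm
  refine regParam_of_eigen822 S ρ q hq1 hS hSq hρ hz hSx ?_ ?_
  · rw [Module.End.mul_apply, ← hz']
    have : ρ (ρ x) = b • x := by simpa using hb
    rw [this, map_smul]
  · rw [Module.End.mul_apply]
    have : ρ (S x) = μ • x := by simpa using hμ
    rw [this, map_smul]

end Fermat.Agent.LT.T7.H822

end
-- ===== PACK-END LT/T7/H822/RegParam.lean

-- ===== PACK-BEGIN LT/T7/H729/MovedPlaceCore.lean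
section


/-!
# Row LT, tower T7, leaf T7.L2.1.C0.a `MovedPlaceC644` (helper729): core, OFF-MAIN.  Mathlib only.

`movedPlace_core729`: a ring automorphism `σ ≠ 1` of a number field moves a prime ideal outside
any given finite set `T`.

Proof.  Let `α ∈ 𝒪` with `σ α ≠ α`, `M = ∏_{w ∈ T} N(w)`, `δ = M (σ α - α) ≠ 0` and
`β = M (α + t) + 1` with `t ∈ ℕ` large.  No `w ∈ T` contains `β`.  If `σ` fixes every prime
outside `T`, it fixes the ideal `(β)`, so `β ∣ σ β - β = δ` and `|N β| ≤ |N δ|`; but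
`|N β| = ∏_w |β|_w^{e_w}` and `|β|_w ≥ M t - |M α + 1|_w > |N δ|` for every infinite place `w`.
-/

set_option autoImplicit false

open IsDedekindDomain NumberField

noncomputable section

namespace Fermat.Agent.LT.T7.H729

/-- An automorphism `σ ≠ 1` moves an algebraic integer. -/
theorem exists_int_moved729 (K' : Type) [Field K'] [NumberField K'] (σ : K' ≃+* K')
    (hσ : ∃ x : K', σ x ≠ x) :
    ∃ α : 𝓞 K', NumberField.RingOfIntegers.mapRingEquiv σ α ≠ α := by
  by_contra hall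
  have hall' : ∀ a : 𝓞 K', NumberField.RingOfIntegers.mapRingEquiv σ a = a := fun a =>
    by_contra fun h => hall ⟨a, h⟩
  have hall'' : ∀ a : 𝓞 K', σ (a : K') = (a : K') := fun a =>
    congrArg (fun z : 𝓞 K' => (z : K')) (hall' a)
  obtain ⟨x, hx⟩ := hσ
  obtain ⟨a, b, _, rfl⟩ := IsFractionRing.div_surjective (A := 𝓞 K') x
  apply hx
  rw [map_div₀]
  exact congrArg₂ (· / ·) (hall'' a) (hall'' b)

/-- The lower bound at an infinite place. -/
theorem place_lower729 (K' : Type) [Field K'] [NumberField K'] (w : InfinitePlace K')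
    (γ : K') (n : ℕ) : (n : ℝ) - w γ ≤ w (γ + (n : K')) := by
  rw [← InfinitePlace.norm_embedding_eq w γ, ← InfinitePlace.norm_embedding_eq w (γ + (n : K')),
    map_add, map_natCast]
  have h1 : ‖((n : ℕ) : ℂ)‖ = (n : ℝ) := Complex.norm_natCast n
  have h2 : ‖((n : ℕ) : ℂ)‖ ≤ ‖w.embedding γ + (n : ℂ)‖ + ‖w.embedding γ‖ := by
    have e : ((n : ℕ) : ℂ) = (w.embedding γ + (n : ℂ)) - w.embedding γ := by ring
    calc ‖((n : ℕ) : ℂ)‖ = ‖(w.embedding γ + (n : ℂ)) - w.embedding γ‖ := by rw [← e]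
      _ ≤ ‖w.embedding γ + (n : ℂ)‖ + ‖w.embedding γ‖ := norm_sub_le _ _
  linarith

/-- If every infinite absolute value of `x` is at least `C ≥ 1`, then `|N x| ≥ C`. -/
theorem abs_norm_ge729 (K' : Type) [Field K'] [NumberField K'] (x : K') (C : ℝ) (hC : 1 ≤ C)
    (h : ∀ w : InfinitePlace K', C ≤ w x) : C ≤ ((|Algebra.norm ℚ x| : ℚ) : ℝ) := by
  classical
  rw [← InfinitePlace.prod_eq_abs_norm x]
  obtain ⟨w₀⟩ := (inferInstance : Nonempty (InfinitePlace K'))
  have h1 : ∏ w : InfinitePlace K', (if w = w₀ then C else 1)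
      ≤ ∏ w : InfinitePlace K', w x ^ InfinitePlace.mult w := by
    refine Finset.prod_le_prod (fun w _ => ?_) (fun w _ => ?_)
    · split_ifs
      · linarith
      · exact zero_le_one
    · have hw1 : 1 ≤ w x := hC.trans (h w)
      have hpow : w x ≤ w x ^ InfinitePlace.mult w :=
        le_self_pow₀ hw1 InfinitePlace.mult_ne_zero
      split_ifs
      · exact (h w).trans hpow
      · exact hw1.trans hpow
  rw [Finset.prod_ite_eq' Finset.univ w₀ (fun _ => C), if_pos (Finset.mem_univ _)] at h1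
  exact h1

/-- **Core of `MovedPlaceC644`.** -/
theorem movedPlace_core729 (K' : Type) [Field K'] [NumberField K'] (σ : K' ≃+* K')
    (hσ : ∃ x : K', σ x ≠ x) (T : Finset (HeightOneSpectrum (𝓞 K'))) :
    ∃ w : HeightOneSpectrum (𝓞 K'), w ∉ T ∧
      Ideal.map (NumberField.RingOfIntegers.mapRingEquiv σ) w.asIdeal ≠ w.asIdeal := by
  classical
  by_contra hcon
  have hfixT : ∀ w : HeightOneSpectrum (𝓞 K'), w ∉ T →
      Ideal.map (NumberField.RingOfIntegers.mapRingEquiv σ) w.asIdeal = w.asIdeal :=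
    fun w hw => by_contra fun h => hcon ⟨w, hw, h⟩
  set σ' := NumberField.RingOfIntegers.mapRingEquiv σ with hσ'
  obtain ⟨α, hα⟩ := exists_int_moved729 K' σ hσ
  -- the integer `M`
  set M : ℕ := ∏ w ∈ T, Ideal.absNorm w.asIdeal with hM
  have hM0 : M ≠ 0 :=
    Finset.prod_ne_zero_iff.2 fun w _ => fun h0 => w.ne_bot (Ideal.absNorm_eq_zero_iff.1 h0)
  have hM1 : (1 : ℝ) ≤ (M : ℝ) := by exact_mod_cast Nat.one_le_iff_ne_zero.2 hM0
  have hMw : ∀ w ∈ T, (M : 𝓞 K') ∈ w.asIdeal := by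
    intro w hw
    obtain ⟨k, hk⟩ : Ideal.absNorm w.asIdeal ∣ M := Finset.dvd_prod_of_mem _ hw
    rw [hk, Nat.cast_mul]
    exact w.asIdeal.mul_mem_right _ (Ideal.absNorm_mem _)
  -- `δ`
  set δ : 𝓞 K' := (M : 𝓞 K') * (σ' α - α) with hδ
  have hδ0 : δ ≠ 0 := mul_ne_zero (Nat.cast_ne_zero.2 hM0) (sub_ne_zero.2 hα)
  have hNδ0 : Algebra.norm ℤ δ ≠ 0 := (Algebra.norm_ne_zero_iff).2 hδ0
  -- the choice of `t`
  set γ : 𝓞 K' := (M : 𝓞 K') * α + 1 with hγ
  set B : ℝ := ∑ w : InfinitePlace K', w (γ : K') with hB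
  set C : ℝ := |((Algebra.norm ℤ δ : ℤ) : ℝ)| + 1 with hC
  have hC1 : 1 ≤ C := by
    have := abs_nonneg ((Algebra.norm ℤ δ : ℤ) : ℝ)
    linarith
  obtain ⟨t, ht⟩ := exists_nat_ge (B + C)
  set β : 𝓞 K' := (M : 𝓞 K') * (α + (t : 𝓞 K')) + 1 with hβ
  have hβγ : (β : K') = (γ : K') + ((M * t : ℕ) : K') := by
    rw [hβ, hγ]
    push_cast
    ring
  -- the lower bound
  have hlow : ∀ w : InfinitePlace K', C ≤ w (β : K') := by
    intro w
    rw [hβγ]
    refine le_trans ?_ (place_lower729 K' w (γ : K') (M * t))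
    have hwB : w (γ : K') ≤ B :=
      Finset.single_le_sum (f := fun w : InfinitePlace K' => w (γ : K'))
        (fun w' _ => apply_nonneg w' _) (Finset.mem_univ w)
    have hMt : (t : ℝ) ≤ ((M * t : ℕ) : ℝ) := by
      rw [Nat.cast_mul]
      have ht0 : (0 : ℝ) ≤ (t : ℝ) := Nat.cast_nonneg t
      nlinarith
    linarith
  have hNβ : C ≤ ((|Algebra.norm ℚ (β : K')| : ℚ) : ℝ) := abs_norm_ge729 K' _ C hC1 hlow
  have hβ0 : β ≠ 0 := by
    intro h0
    obtain ⟨w₀⟩ := (inferInstance : Nonempty (InfinitePlace K'))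
    have := hlow w₀
    rw [h0] at this
    simp only [map_zero] at this
    linarith
  -- no `w ∈ T` contains `β`
  have hβw : ∀ w ∈ T, β ∉ w.asIdeal := by
    intro w hw hmem
    have h1 : (1 : 𝓞 K') ∈ w.asIdeal := by
      have h2 : (M : 𝓞 K') * (α + (t : 𝓞 K')) ∈ w.asIdeal :=
        w.asIdeal.mul_mem_right _ (hMw w hw)
      have h3 := w.asIdeal.sub_mem hmem h2
      rwa [hβ, add_sub_cancel_left] at h3
    exact w.isPrime.ne_top ((Ideal.eq_top_iff_one _).2 h1)
  -- `σ` fixes the ideal `(β)`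
  set I : Ideal (𝓞 K') := Ideal.span {β} with hI
  have hI0 : I ≠ ⊥ := by
    rw [hI, Ne, Ideal.span_singleton_eq_bot]
    exact hβ0
  have hfix : ∀ P ∈ UniqueFactorizationMonoid.normalizedFactors I, Ideal.map σ' P = P := by
    intro P hP
    have hprime : Prime P := UniqueFactorizationMonoid.prime_of_normalized_factor P hP
    have hle : I ≤ P :=
      Ideal.le_of_dvd (UniqueFactorizationMonoid.dvd_of_mem_normalizedFactors hP)
    set w : HeightOneSpectrum (𝓞 K') := ⟨P, Ideal.isPrime_of_prime hprime, hprime.ne_zero⟩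
      with hw
    have hwT : w ∉ T := fun hwT => hβw w hwT (hle (Ideal.mem_span_singleton_self β))
    exact hfixT w hwT
  have hmapI : Ideal.map σ' I = I := by
    have h1 : Ideal.map σ' I
        = ((UniqueFactorizationMonoid.normalizedFactors I).map (Ideal.mapHom σ')).prod := by
      rw [← map_multiset_prod (Ideal.mapHom σ'), Ideal.prod_normalizedFactors_eq_self hI0]
      rfl
    have h2 : (UniqueFactorizationMonoid.normalizedFactors I).map (Ideal.mapHom σ')
        = (UniqueFactorizationMonoid.normalizedFactors I).map id :=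
      Multiset.map_congr rfl fun P hP => hfix P hP
    rw [h1, h2, Multiset.map_id, Ideal.prod_normalizedFactors_eq_self hI0]
  -- `β ∣ δ`
  have hσβ : σ' β ∈ I := by
    have := Ideal.mem_map_of_mem σ' (Ideal.mem_span_singleton_self β)
    rwa [← hI, hmapI] at this
  have hdvd1 : β ∣ σ' β := Ideal.mem_span_singleton.1 hσβ
  have hδβ : σ' β - β = δ := by
    rw [hβ, hδ, map_add, map_mul, map_add, map_natCast, map_natCast, map_one]
    ring
  have hdvd : β ∣ δ := by
    rw [← hδβ]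
    exact dvd_sub hdvd1 (dvd_refl β)
  -- norms
  have hNdvd : Algebra.norm ℤ β ∣ Algebra.norm ℤ δ := map_dvd (Algebra.norm ℤ) hdvd
  have hle : |Algebra.norm ℤ β| ≤ |Algebra.norm ℤ δ| := by
    have h1 : (Algebra.norm ℤ β).natAbs ≤ (Algebra.norm ℤ δ).natAbs :=
      Nat.le_of_dvd (Int.natAbs_pos.2 hNδ0) (Int.natAbs_dvd_natAbs.2 hNdvd)
    rw [Int.abs_eq_natAbs, Int.abs_eq_natAbs]
    exact_mod_cast h1
  have hleR : |((Algebra.norm ℤ β : ℤ) : ℝ)| ≤ |((Algebra.norm ℤ δ : ℤ) : ℝ)| := by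
    have : ((|Algebra.norm ℤ β| : ℤ) : ℝ) ≤ ((|Algebra.norm ℤ δ| : ℤ) : ℝ) := by
      exact_mod_cast hle
    rwa [Int.cast_abs, Int.cast_abs] at this
  have hcoe : ((|Algebra.norm ℚ (β : K')| : ℚ) : ℝ) = |((Algebra.norm ℤ β : ℤ) : ℝ)| := by
    rw [← Algebra.coe_norm_int β, Rat.cast_abs]
    simp
  rw [hcoe] at hNβ
  linarith

end Fermat.Agent.LT.T7.H729

end

end
-- ===== PACK-END LT/T7/H729/MovedPlaceCore.lean

-- ===== PACK-BEGIN LT/T7/H78/ClassFinAbs.lean
section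


/-!
# Row LT, tower T7, node `SimpleC` (helper963), leaf `ClassFinC`: abstract part (helper78)

OFF-MAIN.  Mathlib only.  Complete proofs, nothing assumed.

* `finiteDimensional_of_orthonormal_le78`: a complex inner product space in which every finite
  orthonormal family has at most `N` members is finite-dimensional.
* `exists_ray_pow78`: for a non-zero ideal `𝔫` of the ring of integers of a number field and a
  prime `v₀` not dividing `𝔫`, some power `v₀ ^ n`, `n > 0`, is generated by an element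
  `a₀ ≡ 1 mod 𝔫` (finiteness of the class group and of `(𝒪/𝔫)ˣ`).
-/

set_option autoImplicit false
set_option linter.style.haveILetI false

open IsDedekindDomain NumberField
open scoped InnerProductSpace

namespace Fermat.Agent.LT.T7.H78

/-- A complex inner product space in which every finite orthonormal family has at most `N`
members is finite-dimensional. -/
theorem finiteDimensional_of_orthonormal_le78 {E : Type*} [NormedAddCommGroup E]
    [InnerProductSpace ℂ E] (N : ℕ)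
    (h : ∀ (n : ℕ) (e : Fin n → E), Orthonormal ℂ e → n ≤ N) : FiniteDimensional ℂ E := by
  have hr : Module.rank ℂ E ≤ (N : Cardinal) := by
    refine rank_le fun s hs => ?_
    let U : Submodule ℂ E := Submodule.span ℂ (s : Set E)
    haveI : FiniteDimensional ℂ U := FiniteDimensional.span_finset ℂ s
    have hfr : Module.finrank ℂ U = s.card := finrank_span_finset_eq_card hs
    let b := stdOrthonormalBasis ℂ U
    have ho : Orthonormal ℂ (fun i => ((b i : U) : E)) :=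
      b.orthonormal.comp_linearIsometry U.subtypeₗᵢ
    have := h _ _ ho
    omega
  exact Module.rank_lt_aleph0_iff.mp (lt_of_le_of_lt hr (Cardinal.natCast_lt_aleph0 (n := N)))

/-- A power of a prime outside the level is generated by an element `≡ 1` modulo the level
(finiteness of the class group and of `(𝒪/𝔫)ˣ`). -/
theorem exists_ray_pow78 (K : Type) [Field K] [NumberField K] (𝔫 : Ideal (𝓞 K)) (h𝔫 : 𝔫 ≠ ⊥)
    (v₀ : HeightOneSpectrum (𝓞 K)) (hv₀ : ¬ v₀.asIdeal ∣ 𝔫) :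
    ∃ (a₀ : 𝓞 K) (n : ℕ), 0 < n ∧ Ideal.span {a₀} = v₀.asIdeal ^ n ∧ a₀ - 1 ∈ 𝔫 := by
  classical
  -- 1. a power of `v₀` is principal
  have hI0 : v₀.asIdeal ∈ nonZeroDivisors (Ideal (𝓞 K)) :=
    mem_nonZeroDivisors_of_ne_zero v₀.ne_bot
  obtain ⟨h, hh, hpow⟩ :=
    (isOfFinOrder_of_finite (ClassGroup.mk0 ⟨v₀.asIdeal, hI0⟩)).exists_pow_eq_one
  have hprin : (v₀.asIdeal ^ h).IsPrincipal := by
    have hI0h : v₀.asIdeal ^ h ∈ nonZeroDivisors (Ideal (𝓞 K)) :=
      mem_nonZeroDivisors_of_ne_zero (pow_ne_zero _ v₀.ne_bot)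
    have h1 : ClassGroup.mk0 ⟨v₀.asIdeal ^ h, hI0h⟩ = 1 := by
      have h2 : (⟨v₀.asIdeal ^ h, hI0h⟩ : nonZeroDivisors (Ideal (𝓞 K))) =
          ⟨v₀.asIdeal, hI0⟩ ^ h := Subtype.ext rfl
      rw [h2, map_pow]
      exact hpow
    exact (ClassGroup.mk0_eq_one_iff hI0h).1 h1
  obtain ⟨a, ha⟩ := hprin.principal
  have ha' : Ideal.span {a} = v₀.asIdeal ^ h := ha.symm
  -- 2. `a` is invertible modulo `𝔫`
  have hle : ¬ 𝔫 ≤ v₀.asIdeal := fun hle => hv₀ (Ideal.dvd_iff_le.2 hle)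
  have hsup : v₀.asIdeal ⊔ 𝔫 = ⊤ := by
    by_contra hne
    have := v₀.isMaximal.eq_of_le hne le_sup_left
    exact hle (this ▸ le_sup_right)
  have hcop : IsCoprime (v₀.asIdeal ^ h) 𝔫 :=
    IsCoprime.pow_left (Ideal.isCoprime_iff_sup_eq.2 hsup)
  obtain ⟨b, hb⟩ : ∃ b : 𝓞 K, a * b - 1 ∈ 𝔫 := by
    have h1 : (1 : 𝓞 K) ∈ Ideal.span {a} ⊔ 𝔫 := by
      rw [ha', Ideal.isCoprime_iff_sup_eq.1 hcop]; trivial
    obtain ⟨x, hx, y, hy, hxy⟩ := Submodule.mem_sup.1 h1
    obtain ⟨c, rfl⟩ := Ideal.mem_span_singleton'.1 hx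
    refine ⟨c, ?_⟩
    have : a * c - 1 = -y := by rw [← hxy]; ring
    rw [this]
    exact 𝔫.neg_mem hy
  -- 3. a power of `a` is `≡ 1`
  haveI : Finite (𝓞 K ⧸ 𝔫) := Ideal.finiteQuotientOfFreeOfNeBot 𝔫 h𝔫
  let q := Ideal.Quotient.mk 𝔫
  have hu : q a * q b = 1 := by
    rw [← map_mul, ← sub_eq_zero, ← map_one q, ← map_sub]
    exact Ideal.Quotient.eq_zero_iff_mem.2 hb
  let u : (𝓞 K ⧸ 𝔫)ˣ := ⟨q a, q b, hu, by rw [mul_comm]; exact hu⟩
  obtain ⟨k, hk, hku⟩ := (isOfFinOrder_of_finite u).exists_pow_eq_one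
  refine ⟨a ^ k, h * k, Nat.mul_pos hh hk, ?_, ?_⟩
  · rw [← Ideal.span_singleton_pow, ha', ← pow_mul]
  · rw [← Ideal.Quotient.eq_zero_iff_mem, map_sub, map_pow, map_one, sub_eq_zero]
    have := congrArg (fun x : (𝓞 K ⧸ 𝔫)ˣ => (x : 𝓞 K ⧸ 𝔫)) hku
    simpa [u] using this

end Fermat.Agent.LT.T7.H78

end
-- ===== PACK-END LT/T7/H78/ClassFinAbs.lean

-- ===== PACK-BEGIN LT/T7/H190/SubSeqCore.lean
section


/-!
# Row LT, tower T7, leaf T7.L2.3.5.7 `SD534.SubSeqC` -- the abstract core (helper190)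

OFF-MAIN.  MATHLIB ONLY, no definitions, nothing assumed.

* `hasSum_of_mem_closure190` : Parseval for an orthonormal family on the closure of its span
  (in a Hilbert space).
* `exists_seq_parseval190`   : every linear subspace `T` of a second countable Hilbert space has
  a sequence `e : ℕ → E` of members of `T`, pairwise orthogonal, every member of norm `1` or
  zero, with Parseval's identity for every member of `T` (Gram--Schmidt on a dense sequence).
-/

set_option autoImplicit false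

namespace Fermat.Agent.LT.T7.H190

open scoped InnerProductSpace
open Submodule Set InnerProductSpace

variable {E : Type*} [NormedAddCommGroup E] [InnerProductSpace ℂ E] [CompleteSpace E]

theorem conj_mul_re190 (z : ℂ) : ((starRingEnd ℂ) z * z).re = ‖z‖ ^ 2 := by
  rw [Complex.conj_mul']
  norm_cast

/-- Parseval for an orthonormal family on the closure of its span. -/
theorem hasSum_of_mem_closure190 {ι : Type*} {v : ι → E} (hv : Orthonormal ℂ v) {x : E}
    (hx : x ∈ (span ℂ (range v)).topologicalClosure) :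
    HasSum (fun i => ‖⟪v i, x⟫_ℂ‖ ^ 2) (‖x‖ ^ 2) := by
  classical
  obtain ⟨w, b, hsw, hb⟩ := hv.toSubtypeRange.exists_hilbertBasis_extension
  have hbi : ∀ i : w, b i = (i : E) := fun i => congrFun hb i
  have hP := b.hasSum_inner_mul_inner x x
  have hP' : HasSum (fun i : w => ‖⟪(i : E), x⟫_ℂ‖ ^ 2) (‖x‖ ^ 2) := by
    have h1 := (Complex.reCLM).hasSum hP
    have h2 : (fun i : w => ‖⟪(i : E), x⟫_ℂ‖ ^ 2)
        = fun i : w => Complex.reCLM (⟪x, b i⟫_ℂ * ⟪b i, x⟫_ℂ) := by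
      funext i
      rw [hbi i, ← inner_conj_symm x (i : E), Complex.reCLM_apply, conj_mul_re190]
    have h3 : Complex.reCLM ⟪x, x⟫_ℂ = ‖x‖ ^ 2 := by
      rw [Complex.reCLM_apply, inner_self_eq_norm_sq_to_K]
      norm_cast
    rw [h2, ← h3]
    exact h1
  -- the members of the family inside the basis
  let g : ι → w := fun i => ⟨v i, hsw ⟨i, rfl⟩⟩
  have hg : Function.Injective g := fun i j h =>
    hv.linearIndependent.injective (congrArg Subtype.val h)
  have hzero : ∀ y : w, y ∉ range g → ‖⟪(y : E), x⟫_ℂ‖ ^ 2 = 0 := by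
    intro y hy
    have hperp : ∀ i : ι, ⟪(y : E), v i⟫_ℂ = 0 := by
      intro i
      have hne : y ≠ g i := fun h => hy ⟨i, h.symm⟩
      have h0 : ⟪b y, b (g i)⟫_ℂ = 0 := b.orthonormal.2 hne
      rw [hbi y, hbi (g i)] at h0
      exact h0
    have hle : span ℂ (range v) ≤ (ℂ ∙ (y : E))ᗮ := by
      rw [span_le]
      rintro _ ⟨i, rfl⟩
      exact mem_orthogonal_singleton_iff_inner_right.2 (hperp i)
    have hcl : (span ℂ (range v)).topologicalClosure ≤ (ℂ ∙ (y : E))ᗮ :=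
      topologicalClosure_minimal _ hle (isClosed_orthogonal _)
    have := mem_orthogonal_singleton_iff_inner_right.1 (hcl hx)
    rw [this, norm_zero]
    norm_num
  exact (hg.hasSum_iff hzero).2 hP'

/-- Every linear subspace of a second countable Hilbert space has a sequence of members,
pairwise orthogonal, of norm `1` or zero, with Parseval's identity on the subspace. -/
theorem exists_seq_parseval190 [SecondCountableTopology E] (T : Submodule ℂ E) :
    ∃ e : ℕ → E, (∀ n, e n ∈ T) ∧ (∀ n m, n ≠ m → ⟪e n, e m⟫_ℂ = 0) ∧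
      (∀ n, e n ≠ 0 → ‖e n‖ = 1) ∧
      ∀ x ∈ T, HasSum (fun n => ‖⟪e n, x⟫_ℂ‖ ^ 2) (‖x‖ ^ 2) := by
  classical
  let d : ℕ → T := TopologicalSpace.denseSeq T
  have hd : DenseRange d := TopologicalSpace.denseRange_denseSeq T
  let f : ℕ → E := fun n => (d n : E)
  let e : ℕ → E := gramSchmidtNormed ℂ f
  have hspan : span ℂ (range e) = span ℂ (range f) := by
    rw [span_gramSchmidtNormed_range, span_gramSchmidt]
  have hfT : span ℂ (range f) ≤ T := by
    rw [span_le]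
    rintro _ ⟨n, rfl⟩
    exact (d n).2
  have heT : ∀ n, e n ∈ T := fun n => hfT (hspan ▸ subset_span ⟨n, rfl⟩)
  have horth : ∀ n m, n ≠ m → ⟪e n, e m⟫_ℂ = 0 := by
    intro n m hnm
    show ⟪gramSchmidtNormed ℂ f n, gramSchmidtNormed ℂ f m⟫_ℂ = 0
    unfold gramSchmidtNormed
    rw [inner_smul_left, inner_smul_right, gramSchmidt_orthogonal ℂ f hnm, mul_zero, mul_zero]
  have hnorm : ∀ n, e n ≠ 0 → ‖e n‖ = 1 := fun n hn => gramSchmidtNormed_unit_length' hn
  refine ⟨e, heT, horth, hnorm, ?_⟩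
  intro x hx
  -- `x` is in the closure of the range of `f`
  have hxcl : x ∈ closure (range f) := by
    have h1 : (⟨x, hx⟩ : T) ∈ closure (range d) := hd ⟨x, hx⟩
    have h2 := (closure_subtype (x := (⟨x, hx⟩ : T)) (s := range d)).1 h1
    have h3 : ((↑) : T → E) '' range d = range f := by
      rw [← range_comp]
      rfl
    rw [h3] at h2
    exact h2
  -- the orthonormal family of the nonzero members
  let v : {n : ℕ | e n ≠ 0} → E := fun n => e n
  have hv : Orthonormal ℂ v := gramSchmidtNormed_orthonormal' f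
  have hsv : span ℂ (range e) ≤ span ℂ (range v) := by
    rw [span_le]
    rintro _ ⟨n, rfl⟩
    by_cases hn : e n = 0
    · rw [hn]
      exact zero_mem _
    · exact subset_span ⟨⟨n, hn⟩, rfl⟩
  have hxv : x ∈ (span ℂ (range v)).topologicalClosure := by
    have h1 : range f ⊆ (span ℂ (range v) : Set E) := fun y hy =>
      hsv (hspan ▸ subset_span hy)
    have h2 := closure_mono h1 hxcl
    rw [← topologicalClosure_coe] at h2
    exact h2
  have hsum := hasSum_of_mem_closure190 hv hxv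
  have hsupp : Function.support (fun n => ‖⟪e n, x⟫_ℂ‖ ^ 2) ⊆ {n : ℕ | e n ≠ 0} := by
    intro n hn
    by_contra h0
    apply hn
    have h0' : e n = 0 := by
      by_contra h1
      exact h0 h1
    show ‖⟪e n, x⟫_ℂ‖ ^ 2 = 0
    rw [h0', inner_zero_left, norm_zero]
    norm_num
  exact (hasSum_subtype_iff_of_support_subset hsupp).1 hsum

end Fermat.Agent.LT.T7.H190

end
-- ===== PACK-END LT/T7/H190/SubSeqCore.lean

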