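import Mathlib
import Fermat.Agent.Pack.LT3.E0L1

set_option linter.all false

-- ===== PACK-BEGIN LT/T6/H196/GenLvlAbs.lean
section


/-!
# Row LT, tower T6, leaf T6.18g2-D2 `GenLvlC783` (helper196) -- part 1: counting cosets

OFF-MAIN.  Mathlib only.  Abstract group theory with subgroups given by predicates.

* `count196` : for subgroups `U ⊂ Γ` and `A` of a group `G`, and representatives `γ j`, `j ∈ J`,
  of the double cosets `(A ∩ Γ) \ Γ / U`:
  `∑_j #{t γ_j U : t ∈ A} = #{g U : g ∈ Γ} · #{t Γ : t ∈ A}` (cardinalities as `Set.ncard`, so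
  that both sides vanish when `A Γ / Γ` is infinite).
-/

set_option autoImplicit false

namespace Fermat.Agent.LT.T6.H196

variable {G : Type} [Group G]

/-- The left coset `x P`. -/
def lc196 (P : G → Prop) (x : G) : Set G := {g | ∃ u, P u ∧ g = x * u}

/-- `P` is (the predicate of) a subgroup. -/
structure IsSub196 (P : G → Prop) : Prop where
  one : P 1
  mul : ∀ a b, P a → P b → P (a * b)
  inv : ∀ a, P a → P a⁻¹

theorem mem_lc196 {P : G → Prop} (hP : IsSub196 P) (x : G) : x ∈ lc196 P x :=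
  ⟨1, hP.one, (mul_one x).symm⟩

theorem lc196_eq_of {P : G → Prop} (hP : IsSub196 P) {x y : G} (h : P (x⁻¹ * y)) :
    lc196 P x = lc196 P y := by
  ext g
  constructor
  · rintro ⟨u, hu, rfl⟩
    refine ⟨(x⁻¹ * y)⁻¹ * u, hP.mul _ _ (hP.inv _ h) hu, ?_⟩
    group
  · rintro ⟨u, hu, rfl⟩
    refine ⟨(x⁻¹ * y) * u, hP.mul _ _ h hu, ?_⟩
    group

theorem rel_of_mem_lc196 {P : G → Prop} (hP : IsSub196 P) {x y z : G} (hx : z ∈ lc196 P x)
    (hy : z ∈ lc196 P y) : P (x⁻¹ * y) := by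
  obtain ⟨u, hu, rfl⟩ := hx
  obtain ⟨u', hu', h⟩ := hy
  have : x⁻¹ * y = u * u'⁻¹ := by
    rw [eq_mul_inv_iff_mul_eq, mul_assoc, ← h, inv_mul_cancel_left]
  rw [this]
  exact hP.mul _ _ hu (hP.inv _ hu')

theorem rel_of_lc196_eq {P : G → Prop} (hP : IsSub196 P) {x y : G}
    (h : lc196 P x = lc196 P y) : P (x⁻¹ * y) :=
  rel_of_mem_lc196 hP (h ▸ mem_lc196 hP y) (mem_lc196 hP y)

/-- Left translation of a subset. -/
def ltr196 (a : G) (c : Set G) : Set G := (fun g => a * g) '' c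

theorem ltr196_injective (a : G) : Function.Injective (ltr196 (G := G) a) :=
  Set.image_injective.mpr (mul_right_injective a)

theorem ltr196_lc (P : G → Prop) (a x : G) : ltr196 a (lc196 P x) = lc196 P (a * x) := by
  ext g
  constructor
  · rintro ⟨_, ⟨u, hu, rfl⟩, rfl⟩
    exact ⟨u, hu, (mul_assoc a x u).symm⟩
  · rintro ⟨u, hu, rfl⟩
    exact ⟨x * u, ⟨u, hu, rfl⟩, (mul_assoc a x u).symm⟩

/-- The saturation `c P` of a subset. -/
def sat196 (P : G → Prop) (c : Set G) : Set G := {x | ∃ z ∈ c, ∃ u, P u ∧ x = z * u}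

theorem sat196_lc {U Γ : G → Prop} (hU : IsSub196 U) (hΓ : IsSub196 Γ)
    (hUΓ : ∀ g, U g → Γ g) (t g : G) (hg : Γ g) :
    sat196 Γ (lc196 U (t * g)) = lc196 Γ t := by
  ext x
  constructor
  · rintro ⟨_, ⟨u, hu, rfl⟩, w, hw, rfl⟩
    refine ⟨g * u * w, hΓ.mul _ _ (hΓ.mul _ _ hg (hUΓ u hu)) hw, ?_⟩
    group
  · rintro ⟨w, hw, rfl⟩
    refine ⟨t * g, mem_lc196 hU _, g⁻¹ * w, hΓ.mul _ _ (hΓ.inv _ hg) hw, ?_⟩
    group

/-- **Counting cosets.** -/
theorem count196 (U Γ A : G → Prop) (hU : IsSub196 U) (hΓ : IsSub196 Γ) (hA : IsSub196 A)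
    (hUΓ : ∀ g, U g → Γ g)
    (hfin : {c : Set G | ∃ g, Γ g ∧ c = lc196 U g}.Finite)
    (J : Finset G) (γ : G → G) (hγ : ∀ j ∈ J, Γ (γ j))
    (hdisj : ∀ j ∈ J, ∀ j' ∈ J, (∃ a u, A a ∧ U u ∧ γ j' = a * γ j * u) → j = j')
    (hcov : ∀ g, Γ g → ∃ j ∈ J, ∃ a u, A a ∧ U u ∧ g = a * γ j * u) :
    ∑ j ∈ J, Set.ncard {c : Set G | ∃ t, A t ∧ c = lc196 U (t * γ j)}
      = Set.ncard {c : Set G | ∃ g, Γ g ∧ c = lc196 U g}
        * Set.ncard {c : Set G | ∃ t, A t ∧ c = lc196 Γ t} := by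
  classical
  set 𝒦 : Set (Set G) := {c | ∃ g, Γ g ∧ c = lc196 U g} with h𝒦
  set 𝒬 : Set (Set G) := {c | ∃ t, A t ∧ c = lc196 Γ t} with h𝒬
  set 𝒵j : G → Set (Set G) := fun j => {c | ∃ t, A t ∧ c = lc196 U (t * γ j)} with h𝒵j
  set 𝒵 : Set (Set G) := {c | ∃ t g, A t ∧ Γ g ∧ c = lc196 U (t * g)} with h𝒵
  -- Step 1: the union
  have hunion : 𝒵 = ⋃ j ∈ (J : Set G), 𝒵j j := by
    ext c
    rw [Set.mem_iUnion₂]
    constructor
    · rintro ⟨t, g, ht, hg, rfl⟩
      obtain ⟨j, hj, a, u, ha, hu, rfl⟩ := hcov g hg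
      refine ⟨j, hj, t * a, hA.mul _ _ ht ha, ?_⟩
      apply lc196_eq_of hU
      have : (t * (a * γ j * u))⁻¹ * (t * a * γ j) = u⁻¹ := by group
      rw [this]
      exact hU.inv _ hu
    · rintro ⟨j, hj, t, ht, rfl⟩
      exact ⟨t, γ j, ht, hγ j hj, rfl⟩
  -- Step 2: disjointness
  have hpd : (J : Set G).PairwiseDisjoint 𝒵j := by
    intro j hj j' hj' hne
    rw [Function.onFun, Set.disjoint_left]
    rintro c ⟨t, ht, rfl⟩ ⟨t', ht', h⟩
    apply hne
    apply hdisj j hj j' hj'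
    have hu := rel_of_lc196_eq hU h
    refine ⟨t'⁻¹ * t, (t * γ j)⁻¹ * (t' * γ j'), hA.mul _ _ (hA.inv _ ht') ht, hu, ?_⟩
    group
  -- Step 3: `𝒵 ≃ 𝒬 × 𝒦`
  have hτ : ∀ q : Set G, ∃ t, q ∈ 𝒬 → (A t ∧ q = lc196 Γ t) := fun q => by
    by_cases h : q ∈ 𝒬
    · obtain ⟨t, ht, hq⟩ := h
      exact ⟨t, fun _ => ⟨ht, hq⟩⟩
    · exact ⟨1, fun h' => absurd h' h⟩
  choose τ hτ using hτ
  set Φ : Set G × Set G → Set G := fun p => ltr196 (τ p.1) p.2 with hΦ
  have himg : 𝒵 = Φ '' (𝒬 ×ˢ 𝒦) := by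
    ext c
    constructor
    · rintro ⟨t, g, ht, hg, rfl⟩
      have hq : lc196 Γ t ∈ 𝒬 := ⟨t, ht, rfl⟩
      obtain ⟨hτA, hτq⟩ := hτ _ hq
      have hrel : Γ ((τ (lc196 Γ t))⁻¹ * t) := rel_of_lc196_eq hΓ hτq.symm
      refine ⟨(lc196 Γ t, lc196 U ((τ (lc196 Γ t))⁻¹ * t * g)),
        ⟨hq, ⟨_, hΓ.mul _ _ hrel hg, rfl⟩⟩, ?_⟩
      change ltr196 (τ _) (lc196 U _) = _
      rw [ltr196_lc]
      congr 1
      group
    · rintro ⟨⟨q, c₀⟩, ⟨hq, ⟨g, hg, rfl⟩⟩, rfl⟩
      obtain ⟨hτA, hτq⟩ := hτ _ hq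
      change ltr196 (τ q) (lc196 U g) ∈ 𝒵
      rw [ltr196_lc]
      exact ⟨τ q, g, hτA, hg, rfl⟩
  have hinj : Set.InjOn Φ (𝒬 ×ˢ 𝒦) := by
    rintro ⟨q, c₀⟩ ⟨hq, ⟨g, hg, rfl⟩⟩ ⟨q', c₀'⟩ ⟨hq', ⟨g', hg', rfl⟩⟩ h
    change ltr196 (τ q) (lc196 U g) = ltr196 (τ q') (lc196 U g') at h
    obtain ⟨hτA, hτq⟩ := hτ _ hq
    obtain ⟨hτA', hτq'⟩ := hτ _ hq'
    have hqq : q = q' := by
      have h' := h
      rw [ltr196_lc, ltr196_lc] at h'
      have h2 := congrArg (sat196 Γ) h'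
      rw [sat196_lc hU hΓ hUΓ _ _ hg, sat196_lc hU hΓ hUΓ _ _ hg'] at h2
      calc q = lc196 Γ (τ q) := hτq
        _ = lc196 Γ (τ q') := h2
        _ = q' := hτq'.symm
    subst hqq
    have h3 := ltr196_injective _ h
    rw [h3]
  have hZ : 𝒵.ncard = 𝒬.ncard * 𝒦.ncard := by
    rw [himg, hinj.ncard_image, Set.ncard_prod]
  -- Step 4: the dichotomy
  rcases Set.finite_or_infinite 𝒬 with hQ | hQ
  · have hZfin : 𝒵.Finite := by
      rw [himg]
      exact (hQ.prod hfin).image _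
    have hjfin : ∀ j ∈ (J : Set G), (𝒵j j).Finite := fun j hj =>
      hZfin.subset (by rw [hunion]; exact Set.subset_biUnion_of_mem hj)
    have hsum := Set.Finite.ncard_biUnion (Finset.finite_toSet J) hjfin hpd
    rw [← hunion, finsum_mem_coe_finset] at hsum
    rw [← hsum, hZ, mul_comm]
  · have hzero : ∀ j ∈ J, (𝒵j j).ncard = 0 := by
      intro j hj
      apply Set.Infinite.ncard
      intro hfinj
      apply hQ
      have : 𝒬 = sat196 Γ '' (𝒵j j) := by
        ext q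
        constructor
        · rintro ⟨t, ht, rfl⟩
          exact ⟨lc196 U (t * γ j), ⟨t, ht, rfl⟩, sat196_lc hU hΓ hUΓ t _ (hγ j hj)⟩
        · rintro ⟨_, ⟨t, ht, rfl⟩, rfl⟩
          exact ⟨t, ht, sat196_lc hU hΓ hUΓ t _ (hγ j hj)⟩
      rw [this]
      exact hfinj.image _
    rw [Finset.sum_eq_zero hzero, hQ.ncard, mul_zero]

end Fermat.Agent.LT.T6.H196

end
-- ===== PACK-END LT/T6/H196/GenLvlAbs.lean

-- ===== PACK-BEGIN LT/T6/H313/FinNorm.lean
section


/-!
# Row LT, tower T6, sub-leaf T6.15c3 (helper313): norm and trace of a finite field, automorphism form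

OFF-MAIN.  Mathlib only.  `F` a finite field, `σ` a ring automorphism of prime order `l`
(`σ ^ l = 1`, `σ ≠ 1`).  Then every `σ`-fixed element is `∏_{j < l} σ^j y` for some `y`
(`exists_prod_pow_eq313`) and `∑_{j < l} σ^j w` for some `w` (`exists_sum_pow_eq313`).
Proof: `F` is Galois over the fixed field of `⟨σ⟩` with group `⟨σ⟩`
(`IsGaloisGroup.fixedPoints`), the norm of finite fields is surjective
(`FiniteField.norm_surjective`), the trace of a separable extension is surjective.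
-/

set_option autoImplicit false
set_option linter.style.haveILetI false
set_option linter.unusedSectionVars false
set_option linter.unusedVariables false

namespace Fermat.Agent.LT.T6.H313

section FinNorm

variable {F : Type} [Field F] [Finite F]

theorem finite_ringAut313 : Finite (F ≃+* F) :=
  Finite.of_injective (fun e : F ≃+* F => (e : F → F)) DFunLike.coe_injective

theorem orderOf_eq313 (σ : F ≃+* F) (l : ℕ) (hl : l.Prime) (hσl : ∀ y : F, (σ ^ l) y = y)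
    (hσ1 : ∃ y : F, σ y ≠ y) : orderOf σ = l := by
  haveI : Fact l.Prime := ⟨hl⟩
  refine orderOf_eq_prime (RingEquiv.ext hσl) ?_
  rintro rfl
  obtain ⟨y, hy⟩ := hσ1
  exact hy rfl

/-- Products and sums over the cyclic group `⟨σ⟩`, as products and sums over `range l`. -/
theorem prod_zpowers313 (σ : F ≃+* F) (l : ℕ) (hord : orderOf σ = l) (hl0 : 0 < l)
    [Fintype (Subgroup.zpowers σ)]
    {M : Type} [CommMonoid M] (f : (F ≃+* F) → M) :
    ∏ g : Subgroup.zpowers σ, f (g : F ≃+* F) = ∏ j ∈ Finset.range l, f (σ ^ j) := by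
  haveI : Finite (F ≃+* F) := finite_ringAut313
  have hfin : IsOfFinOrder σ := isOfFinOrder_of_finite σ
  subst hord
  rw [← Fin.prod_univ_eq_prod_range (α := M) (fun j => f (σ ^ j)) (orderOf σ)]
  refine (Fintype.prod_equiv (finEquivZPowers hfin) _ _ ?_).symm
  intro n
  rw [finEquivZPowers_apply]

theorem exists_prod_pow_eq313 (σ : F ≃+* F) (l : ℕ) (hl : l.Prime)
    (hσl : ∀ y : F, (σ ^ l) y = y) (hσ1 : ∃ y : F, σ y ≠ y) (c : F) (hc : σ c = c) :
    ∃ y : F, ∏ j ∈ Finset.range l, (σ ^ j) y = c := by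
  classical
  haveI : Finite (F ≃+* F) := finite_ringAut313
  have hord := orderOf_eq313 σ l hl hσl hσ1
  let G : Subgroup (F ≃+* F) := Subgroup.zpowers σ
  haveI : Fintype G := Fintype.ofFinite _
  let K := FixedPoints.subfield G F
  haveI : IsGaloisGroup G K F := IsGaloisGroup.fixedPoints G F
  haveI : IsGalois K F := IsGaloisGroup.isGalois G K F
  haveI : FiniteDimensional K F := IsGaloisGroup.finiteDimensional G K F
  have hcK : c ∈ K := by
    intro g
    obtain ⟨g, hg⟩ := g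
    obtain ⟨n, rfl⟩ := Subgroup.mem_zpowers_iff.1 hg
    change (σ ^ n) c = c
    have h1 : ∀ m : ℕ, (σ ^ m) c = c := by
      intro m
      induction m with
      | zero => simp
      | succ m ih => rw [pow_succ, RingAut.mul_apply, hc, ih]
    have h2 : ∀ m : ℕ, (σ ^ m)⁻¹ c = c := by
      intro m
      have := h1 m
      calc (σ ^ m)⁻¹ c = (σ ^ m)⁻¹ ((σ ^ m) c) := by rw [this]
        _ = c := by rw [← RingAut.mul_apply, inv_mul_cancel, RingAut.one_apply]
    rcases Int.eq_nat_or_neg n with ⟨m, rfl | rfl⟩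
    · simpa using h1 m
    · simpa using h2 m
  obtain ⟨y, hy⟩ := FiniteField.norm_surjective K F ⟨c, hcK⟩
  refine ⟨y, ?_⟩
  have h3 := Algebra.norm_eq_prod_automorphisms K y
  rw [hy] at h3
  have h4 : ∏ τ : F ≃ₐ[K] F, τ y = ∏ g : G, (g : F ≃+* F) y := by
    refine (Fintype.prod_equiv (IsGaloisGroup.mulEquivAlgEquiv G K F) _ _ ?_).symm
    intro g
    rfl
  rw [h4, prod_zpowers313 σ l hord hl.pos (fun τ => τ y)] at h3
  exact h3.symm

theorem exists_sum_pow_eq313 (σ : F ≃+* F) (l : ℕ) (hl : l.Prime)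
    (hσl : ∀ y : F, (σ ^ l) y = y) (hσ1 : ∃ y : F, σ y ≠ y) (c : F) (hc : σ c = c) :
    ∃ w : F, ∑ j ∈ Finset.range l, (σ ^ j) w = c := by
  classical
  haveI : Finite (F ≃+* F) := finite_ringAut313
  have hord := orderOf_eq313 σ l hl hσl hσ1
  let G : Subgroup (F ≃+* F) := Subgroup.zpowers σ
  haveI : Fintype G := Fintype.ofFinite _
  let K := FixedPoints.subfield G F
  haveI : IsGaloisGroup G K F := IsGaloisGroup.fixedPoints G F
  haveI : IsGalois K F := IsGaloisGroup.isGalois G K F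
  haveI : FiniteDimensional K F := IsGaloisGroup.finiteDimensional G K F
  have hcK : c ∈ K := by
    intro g
    obtain ⟨g, hg⟩ := g
    obtain ⟨n, rfl⟩ := Subgroup.mem_zpowers_iff.1 hg
    change (σ ^ n) c = c
    have h1 : ∀ m : ℕ, (σ ^ m) c = c := by
      intro m
      induction m with
      | zero => simp
      | succ m ih => rw [pow_succ, RingAut.mul_apply, hc, ih]
    have h2 : ∀ m : ℕ, (σ ^ m)⁻¹ c = c := by
      intro m
      have := h1 m
      calc (σ ^ m)⁻¹ c = (σ ^ m)⁻¹ ((σ ^ m) c) := by rw [this]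
        _ = c := by rw [← RingAut.mul_apply, inv_mul_cancel, RingAut.one_apply]
    rcases Int.eq_nat_or_neg n with ⟨m, rfl | rfl⟩
    · simpa using h1 m
    · simpa using h2 m
  obtain ⟨w, hw⟩ := Algebra.trace_surjective K F ⟨c, hcK⟩
  refine ⟨w, ?_⟩
  have h3 := trace_eq_sum_automorphisms (K := K) w
  rw [hw] at h3
  have h4 : ∑ τ : F ≃ₐ[K] F, τ w = ∑ g : G, (g : F ≃+* F) w := by
    refine (Fintype.sum_equiv (IsGaloisGroup.mulEquivAlgEquiv G K F) _ _ ?_).symm
    intro g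
    rfl
  have h5 := prod_zpowers313 σ l hord hl.pos (M := Multiplicative F)
    (fun τ => Multiplicative.ofAdd (τ w))
  have h6 : ∑ g : G, (g : F ≃+* F) w = ∑ j ∈ Finset.range l, (σ ^ j) w := by
    have := congrArg Multiplicative.toAdd h5
    simpa [toAdd_prod] using this
  rw [h4, h6] at h3
  exact h3.symm

end FinNorm

end Fermat.Agent.LT.T6.H313

end
-- ===== PACK-END LT/T6/H313/FinNorm.lean

-- ===== PACK-BEGIN LT/T6/Inf/H439/PsOdeCore.lean
section


/-!
# Row LT, sub-tower T6inf, leaf T6inf.03e `PsOdeC59`: the calculus core (helper439, OFF-MAIN)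

Mathlib only.  For `ν ∈ ℂ` put `h(t,u) = cosh t + sinh t cos u > 0` and
`L_ν(t) = ∫₀^{2π} h(t,u)^ν du`.  Then `L_ν` is twice differentiable on `ℝ`,
`L_ν' = ∫ ν h_t h^{ν-1}`, `L_ν'' = ∫ ν (h h^{ν-1} + (ν-1) h_t² h^{ν-2})`, and for `sinh t ≠ 0`

  `L_ν'' + coth t · L_ν' = ν (ν + 1) L_ν`,

because `sinh t · (integrand) = ν · ∂_u (h^{ν-1} sin u)` (`h_tt = h`, `h² - h_t² = sin² u`,
`h_u = - sinh t sin u`, `cosh t · h_t - sinh t · h = cos u`).
-/

set_option autoImplicit false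

open MeasureTheory Set Filter Topology
open scoped Interval

noncomputable section

namespace Fermat.Agent.LT.T6.Inf.H439

/-! ## Differentiation under the integral sign -/

/-- Differentiation under the integral sign for an integrand with jointly continuous partial
derivative. -/
theorem hasDerivAt_param439 {F F' : ℝ → ℝ → ℂ}
    (hF : Continuous (fun p : ℝ × ℝ => F p.1 p.2))
    (hF' : Continuous (fun p : ℝ × ℝ => F' p.1 p.2))
    (hd : ∀ x u : ℝ, HasDerivAt (fun x => F x u) (F' x u) x) (a b x₀ : ℝ) :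
    HasDerivAt (fun x => ∫ u in a..b, F x u) (∫ u in a..b, F' x₀ u) x₀ := by
  have hK : IsCompact (Metric.closedBall x₀ 1 ×ˢ Set.uIcc a b) :=
    (isCompact_closedBall x₀ 1).prod isCompact_uIcc
  obtain ⟨C, hC⟩ := hK.exists_bound_of_continuousOn hF'.continuousOn
  have hcont : ∀ x, Continuous (F x) := fun x =>
    hF.comp (Continuous.prodMk_right x)
  have hcont' : ∀ x, Continuous (F' x) := fun x =>
    hF'.comp (Continuous.prodMk_right x)
  exact (intervalIntegral.hasDerivAt_integral_of_dominated_loc_of_deriv_le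
    (s := Metric.closedBall x₀ 1) (bound := fun _ => C)
    (Metric.closedBall_mem_nhds x₀ one_pos)
    (Eventually.of_forall fun x => (hcont x).aestronglyMeasurable)
    ((hcont x₀).intervalIntegrable a b)
    (hcont' x₀).aestronglyMeasurable
    (Eventually.of_forall fun u hu x hx => hC (x, u) ⟨hx, uIoc_subset_uIcc hu⟩)
    intervalIntegrable_const
    (Eventually.of_forall fun u _ x _ => hd x u)).2

/-! ## The functions `h`, `h_t` and the powers of `h` -/

/-- `h(t,u) = cosh t + sinh t cos u`. -/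
def hh439 (t u : ℝ) : ℝ := Real.cosh t + Real.sinh t * Real.cos u

/-- `h_t(t,u) = sinh t + cosh t cos u`. -/
def ht439 (t u : ℝ) : ℝ := Real.sinh t + Real.cosh t * Real.cos u

theorem hh_pos439 (t u : ℝ) : 0 < hh439 t u := by
  have h1 : |Real.sinh t| < Real.cosh t := by
    rw [abs_lt]
    constructor
    · have := Real.cosh_add_sinh t
      have h2 := Real.exp_pos t
      linarith
    · exact Real.sinh_lt_cosh t
  have h2 : |Real.sinh t * Real.cos u| ≤ |Real.sinh t| := by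
    rw [abs_mul]
    exact mul_le_of_le_one_right (abs_nonneg _) (Real.abs_cos_le_one u)
  have h3 := neg_abs_le (Real.sinh t * Real.cos u)
  unfold hh439
  linarith

theorem hh_ne439 (t u : ℝ) : hh439 t u ≠ 0 := (hh_pos439 t u).ne'

theorem hh_zero439 (u : ℝ) : hh439 0 u = 1 := by
  simp [hh439]

/-- `h² - h_t² = sin² u`. -/
theorem hh_sq439 (t u : ℝ) : ht439 t u ^ 2 + Real.sin u ^ 2 - hh439 t u ^ 2 = 0 := by
  unfold ht439 hh439
  have h1 := Real.cosh_sq t
  have h2 := Real.sin_sq_add_cos_sq u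
  linear_combination (Real.cos u ^ 2 - 1) * h1 + h2

/-- `cosh t · h_t - sinh t · h = cos u`. -/
theorem hh_cross439 (t u : ℝ) :
    Real.cosh t * ht439 t u - Real.sinh t * hh439 t u - Real.cos u = 0 := by
  unfold ht439 hh439
  have h1 := Real.cosh_sq t
  linear_combination (Real.cos u) * h1

theorem continuous_hh439 : Continuous (fun p : ℝ × ℝ => hh439 p.1 p.2) := by
  unfold hh439
  fun_prop

theorem continuous_ht439 : Continuous (fun p : ℝ × ℝ => ht439 p.1 p.2) := by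
  unfold ht439
  fun_prop

theorem hasDerivAt_hh439 (t u : ℝ) : HasDerivAt (fun t => hh439 t u) (ht439 t u) t :=
  (Real.hasDerivAt_cosh t).add ((Real.hasDerivAt_sinh t).mul_const (Real.cos u))

theorem hasDerivAt_ht439 (t u : ℝ) : HasDerivAt (fun t => ht439 t u) (hh439 t u) t :=
  (Real.hasDerivAt_sinh t).add ((Real.hasDerivAt_cosh t).mul_const (Real.cos u))

theorem hasDerivAt_hh_u439 (t u : ℝ) :
    HasDerivAt (fun u => hh439 t u) (-(Real.sinh t * Real.sin u)) u := by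
  have h := ((Real.hasDerivAt_cos u).const_mul (Real.sinh t)).const_add (Real.cosh t)
  have e : Real.sinh t * -Real.sin u = -(Real.sinh t * Real.sin u) := by ring
  rw [e] at h
  exact h

/-- `h(t,u)^a` for a complex exponent `a`. -/
def pw439 (a : ℂ) (t u : ℝ) : ℂ := Complex.exp (a * ((Real.log (hh439 t u) : ℝ) : ℂ))

theorem pw_eq_cpow439 (a : ℂ) (t u : ℝ) : ((hh439 t u : ℝ) : ℂ) ^ a = pw439 a t u := by
  have h0 : ((hh439 t u : ℝ) : ℂ) ≠ 0 := Complex.ofReal_ne_zero.2 (hh_ne439 t u)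
  rw [Complex.cpow_def_of_ne_zero h0, pw439, Complex.ofReal_log (hh_pos439 t u).le, mul_comm]

theorem pw_zero439 (a : ℂ) (u : ℝ) : pw439 a 0 u = 1 := by
  simp [pw439, hh_zero439]

/-- `h^a = h · h^{a-1}`. -/
theorem pw_succ439 (a : ℂ) (t u : ℝ) :
    pw439 a t u = ((hh439 t u : ℝ) : ℂ) * pw439 (a - 1) t u := by
  have h1 : Complex.exp (((Real.log (hh439 t u) : ℝ) : ℂ)) = ((hh439 t u : ℝ) : ℂ) := by
    rw [← Complex.ofReal_exp, Real.exp_log (hh_pos439 t u)]
  have e : a * ((Real.log (hh439 t u) : ℝ) : ℂ)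
      = ((Real.log (hh439 t u) : ℝ) : ℂ) + (a - 1) * ((Real.log (hh439 t u) : ℝ) : ℂ) := by
    ring
  rw [pw439, pw439, e, Complex.exp_add, h1]

theorem continuous_pw439 (a : ℂ) : Continuous (fun p : ℝ × ℝ => pw439 a p.1 p.2) := by
  unfold pw439
  have h : Continuous (fun p : ℝ × ℝ => Real.log (hh439 p.1 p.2)) :=
    continuous_hh439.log (fun p => hh_ne439 p.1 p.2)
  fun_prop

theorem continuous_slice439 {F : ℝ → ℝ → ℂ} (hF : Continuous (fun p : ℝ × ℝ => F p.1 p.2))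
    (t : ℝ) : Continuous (fun u : ℝ => F t u) := by
  have h : Continuous (fun u : ℝ => ((t, u) : ℝ × ℝ)) := by fun_prop
  exact hF.comp h

theorem continuous_pw_u439 (a : ℂ) (t : ℝ) : Continuous (fun u : ℝ => pw439 a t u) :=
  continuous_slice439 (F := fun t u => pw439 a t u) (continuous_pw439 a) t

/-- `∂_t h^a = a h_t h^{a-1}`. -/
theorem hasDerivAt_pw439 (a : ℂ) (t u : ℝ) :
    HasDerivAt (fun t => pw439 a t u) (a * ((ht439 t u : ℝ) : ℂ) * pw439 (a - 1) t u) t := by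
  have h1 : HasDerivAt (fun t => Real.log (hh439 t u)) (ht439 t u / hh439 t u) t :=
    (hasDerivAt_hh439 t u).log (hh_ne439 t u)
  have h2 := ((h1.ofReal_comp).const_mul a).cexp
  have h0 : ((hh439 t u : ℝ) : ℂ) ≠ 0 := Complex.ofReal_ne_zero.2 (hh_ne439 t u)
  have e : Complex.exp (a * ((Real.log (hh439 t u) : ℝ) : ℂ))
        * (a * ((ht439 t u / hh439 t u : ℝ) : ℂ))
      = a * ((ht439 t u : ℝ) : ℂ) * pw439 (a - 1) t u := by
    have e1 := pw_succ439 a t u
    unfold pw439 at e1 ⊢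
    rw [e1, Complex.ofReal_div]
    field_simp
  rw [e] at h2
  exact h2

/-- `∂_u h^a = a h_u h^{a-1}`. -/
theorem hasDerivAt_pw_u439 (a : ℂ) (t u : ℝ) :
    HasDerivAt (fun u => pw439 a t u)
      (a * ((-(Real.sinh t * Real.sin u) : ℝ) : ℂ) * pw439 (a - 1) t u) u := by
  have h1 : HasDerivAt (fun u => Real.log (hh439 t u))
      (-(Real.sinh t * Real.sin u) / hh439 t u) u :=
    (hasDerivAt_hh_u439 t u).log (hh_ne439 t u)
  have h2 := ((h1.ofReal_comp).const_mul a).cexp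
  have h0 : ((hh439 t u : ℝ) : ℂ) ≠ 0 := Complex.ofReal_ne_zero.2 (hh_ne439 t u)
  have e : Complex.exp (a * ((Real.log (hh439 t u) : ℝ) : ℂ))
        * (a * ((-(Real.sinh t * Real.sin u) / hh439 t u : ℝ) : ℂ))
      = a * ((-(Real.sinh t * Real.sin u) : ℝ) : ℂ) * pw439 (a - 1) t u := by
    have e1 := pw_succ439 a t u
    unfold pw439 at e1 ⊢
    rw [e1, Complex.ofReal_div]
    field_simp
  rw [e] at h2
  exact h2

/-! ## The integrals -/

/-- `L_ν(t) = ∫₀^{2π} h^ν du`. -/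
def leg0_439 (ν : ℂ) (t : ℝ) : ℂ := ∫ u in (0 : ℝ)..(2 * Real.pi), pw439 ν t u

/-- `L_ν'(t) = ∫₀^{2π} ν h_t h^{ν-1} du`. -/
def leg1_439 (ν : ℂ) (t : ℝ) : ℂ :=
  ∫ u in (0 : ℝ)..(2 * Real.pi), ν * ((ht439 t u : ℝ) : ℂ) * pw439 (ν - 1) t u

/-- `L_ν''(t) = ∫₀^{2π} ν (h h^{ν-1} + (ν-1) h_t² h^{ν-2}) du`. -/
def leg2_439 (ν : ℂ) (t : ℝ) : ℂ :=
  ∫ u in (0 : ℝ)..(2 * Real.pi),
    (ν * ((hh439 t u : ℝ) : ℂ) * pw439 (ν - 1) t u
      + ν * ((ht439 t u : ℝ) : ℂ)
        * ((ν - 1) * ((ht439 t u : ℝ) : ℂ) * pw439 (ν - 1 - 1) t u))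

theorem leg0_zero439 (ν : ℂ) : leg0_439 ν 0 = ((2 * Real.pi : ℝ) : ℂ) := by
  unfold leg0_439
  simp only [pw_zero439]
  rw [intervalIntegral.integral_const]
  simp

theorem continuous_int1_439 (ν : ℂ) :
    Continuous (fun p : ℝ × ℝ => ν * ((ht439 p.1 p.2 : ℝ) : ℂ) * pw439 (ν - 1) p.1 p.2) := by
  have h1 := continuous_ht439
  have h2 := continuous_pw439 (ν - 1)
  fun_prop

theorem continuous_int2_439 (ν : ℂ) :
    Continuous (fun p : ℝ × ℝ =>
      ν * ((hh439 p.1 p.2 : ℝ) : ℂ) * pw439 (ν - 1) p.1 p.2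
        + ν * ((ht439 p.1 p.2 : ℝ) : ℂ)
          * ((ν - 1) * ((ht439 p.1 p.2 : ℝ) : ℂ) * pw439 (ν - 1 - 1) p.1 p.2)) := by
  have h0 := continuous_hh439
  have h1 := continuous_ht439
  have h2 := continuous_pw439 (ν - 1)
  have h3 := continuous_pw439 (ν - 1 - 1)
  fun_prop

theorem hasDerivAt_leg0_439 (ν : ℂ) (t : ℝ) :
    HasDerivAt (leg0_439 ν) (leg1_439 ν t) t :=
  hasDerivAt_param439 (F := fun t u => pw439 ν t u)
    (F' := fun t u => ν * ((ht439 t u : ℝ) : ℂ) * pw439 (ν - 1) t u)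
    (continuous_pw439 ν) (continuous_int1_439 ν) (fun x u => hasDerivAt_pw439 ν x u) 0 _ t

theorem hasDerivAt_leg1_439 (ν : ℂ) (t : ℝ) :
    HasDerivAt (leg1_439 ν) (leg2_439 ν t) t := by
  refine hasDerivAt_param439 (F := fun t u => ν * ((ht439 t u : ℝ) : ℂ) * pw439 (ν - 1) t u)
    (F' := fun t u => ν * ((hh439 t u : ℝ) : ℂ) * pw439 (ν - 1) t u
      + ν * ((ht439 t u : ℝ) : ℂ)
        * ((ν - 1) * ((ht439 t u : ℝ) : ℂ) * pw439 (ν - 1 - 1) t u))
    (continuous_int1_439 ν) (continuous_int2_439 ν) (fun x u => ?_) 0 _ t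
  exact (((hasDerivAt_ht439 x u).ofReal_comp).const_mul ν).mul (hasDerivAt_pw439 (ν - 1) x u)

/-- The boundary term: `∫₀^{2π} ∂_u (h^{ν-1} sin u) du = 0`. -/
theorem integral_bdry439 (ν : ℂ) (t : ℝ) :
    ∫ u in (0 : ℝ)..(2 * Real.pi),
      ((ν - 1) * ((-(Real.sinh t * Real.sin u) : ℝ) : ℂ) * pw439 (ν - 1 - 1) t u
          * ((Real.sin u : ℝ) : ℂ)
        + pw439 (ν - 1) t u * ((Real.cos u : ℝ) : ℂ)) = 0 := by
  have hd : ∀ u ∈ Set.uIcc (0 : ℝ) (2 * Real.pi),
      HasDerivAt (fun u => pw439 (ν - 1) t u * ((Real.sin u : ℝ) : ℂ))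
        ((ν - 1) * ((-(Real.sinh t * Real.sin u) : ℝ) : ℂ) * pw439 (ν - 1 - 1) t u
            * ((Real.sin u : ℝ) : ℂ)
          + pw439 (ν - 1) t u * ((Real.cos u : ℝ) : ℂ)) u := fun u _ =>
    (hasDerivAt_pw_u439 (ν - 1) t u).mul ((Real.hasDerivAt_sin u).ofReal_comp)
  have hc : Continuous (fun u : ℝ =>
      (ν - 1) * ((-(Real.sinh t * Real.sin u) : ℝ) : ℂ) * pw439 (ν - 1 - 1) t u
          * ((Real.sin u : ℝ) : ℂ)
        + pw439 (ν - 1) t u * ((Real.cos u : ℝ) : ℂ)) := by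
    have h2 : Continuous (fun u : ℝ => pw439 (ν - 1) t u) := continuous_pw_u439 (ν - 1) t
    have h3 : Continuous (fun u : ℝ => pw439 (ν - 1 - 1) t u) :=
      continuous_pw_u439 (ν - 1 - 1) t
    fun_prop
  rw [intervalIntegral.integral_eq_sub_of_hasDerivAt hd (hc.intervalIntegrable _ _)]
  simp

/-- **The radial equation**, multiplied by `sinh t`. -/
theorem leg_ode_mul439 (ν : ℂ) (t : ℝ) :
    ((Real.sinh t : ℝ) : ℂ) * leg2_439 ν t - ((Real.sinh t : ℝ) : ℂ) * (ν * (ν + 1)) * leg0_439 ν t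
      + ((Real.cosh t : ℝ) : ℂ) * leg1_439 ν t = 0 := by
  have c0 : Continuous (fun u : ℝ => pw439 ν t u) := continuous_pw_u439 ν t
  have c1 : Continuous (fun u : ℝ => ν * ((ht439 t u : ℝ) : ℂ) * pw439 (ν - 1) t u) :=
    continuous_slice439 (F := fun t u => ν * ((ht439 t u : ℝ) : ℂ) * pw439 (ν - 1) t u)
      (continuous_int1_439 ν) t
  have c2 : Continuous (fun u : ℝ => ν * ((hh439 t u : ℝ) : ℂ) * pw439 (ν - 1) t u
      + ν * ((ht439 t u : ℝ) : ℂ)
        * ((ν - 1) * ((ht439 t u : ℝ) : ℂ) * pw439 (ν - 1 - 1) t u)) :=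
    continuous_slice439 (F := fun t u => ν * ((hh439 t u : ℝ) : ℂ) * pw439 (ν - 1) t u
      + ν * ((ht439 t u : ℝ) : ℂ)
        * ((ν - 1) * ((ht439 t u : ℝ) : ℂ) * pw439 (ν - 1 - 1) t u))
      (continuous_int2_439 ν) t
  have i0 := c0.intervalIntegrable (μ := volume) (0 : ℝ) (2 * Real.pi)
  have i1 := c1.intervalIntegrable (μ := volume) (0 : ℝ) (2 * Real.pi)
  have i2 := c2.intervalIntegrable (μ := volume) (0 : ℝ) (2 * Real.pi)
  have key : ∀ u : ℝ,
      ((Real.sinh t : ℝ) : ℂ) * (ν * ((hh439 t u : ℝ) : ℂ) * pw439 (ν - 1) t u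
        + ν * ((ht439 t u : ℝ) : ℂ)
          * ((ν - 1) * ((ht439 t u : ℝ) : ℂ) * pw439 (ν - 1 - 1) t u))
      - ((Real.sinh t : ℝ) : ℂ) * (ν * (ν + 1)) * pw439 ν t u
      + ((Real.cosh t : ℝ) : ℂ) * (ν * ((ht439 t u : ℝ) : ℂ) * pw439 (ν - 1) t u)
      = ν * ((ν - 1) * ((-(Real.sinh t * Real.sin u) : ℝ) : ℂ) * pw439 (ν - 1 - 1) t u
          * ((Real.sin u : ℝ) : ℂ)
        + pw439 (ν - 1) t u * ((Real.cos u : ℝ) : ℂ)) := by
    intro u
    have e1 : pw439 ν t u = ((hh439 t u : ℝ) : ℂ) * pw439 (ν - 1) t u := pw_succ439 ν t u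
    have e2 : pw439 (ν - 1) t u = ((hh439 t u : ℝ) : ℂ) * pw439 (ν - 1 - 1) t u :=
      pw_succ439 (ν - 1) t u
    have E1 : (((ht439 t u : ℝ) : ℂ)) ^ 2 + ((Real.sin u : ℝ) : ℂ) ^ 2
        - ((hh439 t u : ℝ) : ℂ) ^ 2 = 0 := by
      exact_mod_cast hh_sq439 t u
    have E2 : ((Real.cosh t : ℝ) : ℂ) * ((ht439 t u : ℝ) : ℂ)
        - ((Real.sinh t : ℝ) : ℂ) * ((hh439 t u : ℝ) : ℂ) - ((Real.cos u : ℝ) : ℂ) = 0 := by
      exact_mod_cast hh_cross439 t u
    rw [e1, e2]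
    simp only [Complex.ofReal_neg, Complex.ofReal_mul]
    linear_combination (ν * pw439 (ν - 1 - 1) t u * (ν - 1) * ((Real.sinh t : ℝ) : ℂ)) * E1
      + (ν * pw439 (ν - 1 - 1) t u * ((hh439 t u : ℝ) : ℂ)) * E2
  have hint : (∫ u in (0 : ℝ)..(2 * Real.pi),
      (((Real.sinh t : ℝ) : ℂ) * (ν * ((hh439 t u : ℝ) : ℂ) * pw439 (ν - 1) t u
        + ν * ((ht439 t u : ℝ) : ℂ)
          * ((ν - 1) * ((ht439 t u : ℝ) : ℂ) * pw439 (ν - 1 - 1) t u))
      - ((Real.sinh t : ℝ) : ℂ) * (ν * (ν + 1)) * pw439 ν t u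
      + ((Real.cosh t : ℝ) : ℂ) * (ν * ((ht439 t u : ℝ) : ℂ) * pw439 (ν - 1) t u))) = 0 := by
    simp only [key]
    rw [intervalIntegral.integral_const_mul, integral_bdry439, mul_zero]
  rw [intervalIntegral.integral_add ((i2.const_mul _).sub (i0.const_mul _)) (i1.const_mul _),
    intervalIntegral.integral_sub (i2.const_mul _) (i0.const_mul _),
    intervalIntegral.integral_const_mul, intervalIntegral.integral_const_mul,
    intervalIntegral.integral_const_mul] at hint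
  exact hint

/-- **The radial equation** `L'' = ν (ν + 1) L - coth t · L'` at `sinh t ≠ 0`. -/
theorem leg_ode439 (ν : ℂ) {t : ℝ} (ht : Real.sinh t ≠ 0) :
    leg2_439 ν t
      = ν * (ν + 1) * leg0_439 ν t - ((Real.cosh t / Real.sinh t : ℝ) : ℂ) * leg1_439 ν t := by
  have h := leg_ode_mul439 ν t
  have h0 : ((Real.sinh t : ℝ) : ℂ) ≠ 0 := Complex.ofReal_ne_zero.2 ht
  rw [Complex.ofReal_div]
  field_simp
  linear_combination h

end Fermat.Agent.LT.T6.Inf.H439

end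

end
-- ===== PACK-END LT/T6/Inf/H439/PsOdeCore.lean

-- ===== PACK-BEGIN LT/T6/Inf/H502/UpCore.lean
section


/-!
# Row LT, sub-tower T6inf, leaf T6inf.05 (helper502): the calculus core

OFF-MAIN.  Mathlib only.

`P_s(t) = (1/2π) ∫₀^{2π} (cosh t + sinh t cos u)^{s - 1/2} du`.

* `sphP_expand502`: `‖P_s(t) - 1 - (s² - 1/4) sinh² t / 4‖ ≤ C sinh³ t` for `sinh t` small.
* `param_of_bounded502`: if `P_s` is real and bounded by `1` on `(0, ∞)` then `s² - 1/4` is real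
  and `≤ 0`.
* `sphR_bounded502`: then `R_{2s}(d) = sinh (2 s d) / (2 s sinh d)` is real and bounded by `1`.
-/

set_option autoImplicit false

open Real MeasureTheory

noncomputable section

namespace Fermat.Agent.LT.T6.Inf.H502

/-! ## A. The pointwise expansion of `(1 + x) ^ a` -/

theorem log_expand502 (x : ℝ) (hx : |x| ≤ 1 / 2) :
    |Real.log (1 + x) - (x - x ^ 2 / 2)| ≤ 2 * |x| ^ 3 := by
  have h1 : |(-x)| < 1 := by rw [abs_neg]; linarith
  have h := Real.abs_log_sub_add_sum_range_le h1 2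
  simp only [Finset.sum_range_succ, Finset.sum_range_zero, abs_neg] at h
  have h2 : (0 + (-x) ^ (0 + 1) / ((0 : ℕ) + 1 : ℝ) + (-x) ^ (1 + 1) / ((1 : ℕ) + 1 : ℝ))
      + Real.log (1 - -x) = Real.log (1 + x) - (x - x ^ 2 / 2) := by
    rw [sub_neg_eq_add]
    push_cast
    ring
  rw [h2] at h
  refine h.trans ?_
  have h3 : 0 < 1 - |x| := by linarith
  rw [div_le_iff₀ h3]
  have h4 : 0 ≤ |x| ^ 3 := by positivity
  have h5 : |x| ^ (2 + 1) = |x| ^ 3 := by norm_num
  rw [h5]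
  nlinarith [mul_nonneg h4 (by linarith : (0 : ℝ) ≤ 1 / 2 - |x|)]

theorem exp_expand502 (z : ℂ) (hz : ‖z‖ ≤ 1) :
    ‖Complex.exp z - (1 + z + z ^ 2 / 2)‖ ≤ ‖z‖ ^ 3 := by
  have h := Complex.exp_bound hz (n := 3) (by norm_num)
  simp only [Finset.sum_range_succ, Finset.sum_range_zero] at h
  have h2 : (0 + z ^ 0 / ((Nat.factorial 0 : ℕ) : ℂ) + z ^ 1 / ((Nat.factorial 1 : ℕ) : ℂ)
      + z ^ 2 / ((Nat.factorial 2 : ℕ) : ℂ)) = 1 + z + z ^ 2 / 2 := by
    simp [Nat.factorial]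
  rw [h2] at h
  refine h.trans ?_
  have h3 : ((Nat.succ 3 : ℕ) : ℝ) * (((Nat.factorial 3 : ℕ) : ℝ) * ((3 : ℕ) : ℝ))⁻¹ ≤ 1 := by
    simp [Nat.factorial]
    norm_num
  have h4 : 0 ≤ ‖z‖ ^ 3 := by positivity
  calc ‖z‖ ^ 3 * (((Nat.succ 3 : ℕ) : ℝ) * (((Nat.factorial 3 : ℕ) : ℝ) * ((3 : ℕ) : ℝ))⁻¹)
      ≤ ‖z‖ ^ 3 * 1 := mul_le_mul_of_nonneg_left h3 h4
    _ = ‖z‖ ^ 3 := mul_one _

/-- The constant of the pointwise expansion. -/
def kA502 (a : ℂ) : ℝ := 2 * ‖a‖ + 9 / 4 * ‖a‖ ^ 2 + 8 * ‖a‖ ^ 3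

theorem kA_nonneg502 (a : ℂ) : 0 ≤ kA502 a := by
  unfold kA502
  positivity

theorem cpow_expand502 (a : ℂ) (x : ℝ) (hx : |x| ≤ 1 / 2) (hxa : 2 * ‖a‖ * |x| ≤ 1) :
    ‖(((1 + x : ℝ) : ℂ)) ^ a - (1 + a * x + (a ^ 2 - a) * (x : ℂ) ^ 2 / 2)‖
      ≤ kA502 a * |x| ^ 3 := by
  have hx0 : 0 ≤ |x| := abs_nonneg x
  have hpos : 0 < 1 + x := by
    have := neg_abs_le x
    linarith
  have hne : ((1 + x : ℝ) : ℂ) ≠ 0 := by
    exact_mod_cast hpos.ne'
  set L : ℝ := Real.log (1 + x) with hL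
  have hcp : (((1 + x : ℝ) : ℂ)) ^ a = Complex.exp (a * (L : ℂ)) := by
    rw [Complex.cpow_def_of_ne_zero hne, ← Complex.ofReal_log hpos.le, mul_comm]
  have hr := log_expand502 x hx
  set r : ℝ := L - (x - x ^ 2 / 2) with hrdef
  have hx2 : x ^ 2 = |x| ^ 2 := (sq_abs x).symm
  have hx3 : |x| ^ 3 ≤ |x| ^ 2 / 2 := by
    have : |x| ^ 3 = |x| ^ 2 * |x| := by ring
    rw [this]
    nlinarith [sq_nonneg |x|]
  have hx21 : |x| ^ 2 ≤ |x| / 2 := by
    have : |x| ^ 2 = |x| * |x| := by ring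
    rw [this]
    nlinarith
  -- `|L - x| ≤ 3/2 x²`, `|L| ≤ 2 |x|`, `|L + x| ≤ 3 |x|`
  have hLx : |L - x| ≤ 3 / 2 * |x| ^ 2 := by
    have e : L - x = r - x ^ 2 / 2 := by rw [hrdef]; ring
    rw [e]
    calc |r - x ^ 2 / 2| ≤ |r| + |x ^ 2 / 2| := abs_sub _ _
      _ ≤ 2 * |x| ^ 3 + |x| ^ 2 / 2 := by
          have : |x ^ 2 / 2| = |x| ^ 2 / 2 := by
            rw [abs_div, abs_pow, abs_of_pos (by norm_num : (0 : ℝ) < 2)]
          rw [this]
          linarith
      _ ≤ 3 / 2 * |x| ^ 2 := by linarith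
  have hLabs : |L| ≤ 2 * |x| := by
    have e : L = (L - x) + x := by ring
    calc |L| = |(L - x) + x| := by rw [← e]
      _ ≤ |L - x| + |x| := abs_add_le _ _
      _ ≤ 3 / 2 * |x| ^ 2 + |x| := by linarith
      _ ≤ 2 * |x| := by linarith
  have hLpx : |L + x| ≤ 3 * |x| := by
    calc |L + x| ≤ |L| + |x| := abs_add_le _ _
      _ ≤ 3 * |x| := by linarith
  have hL2 : |L ^ 2 - x ^ 2| ≤ 9 / 2 * |x| ^ 3 := by
    have e : L ^ 2 - x ^ 2 = (L - x) * (L + x) := by ring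
    rw [e, abs_mul]
    calc |L - x| * |L + x| ≤ (3 / 2 * |x| ^ 2) * (3 * |x|) :=
          mul_le_mul hLx hLpx (abs_nonneg _) (by positivity)
      _ = 9 / 2 * |x| ^ 3 := by ring
  -- the exponential
  have hz : ‖a * (L : ℂ)‖ ≤ 1 := by
    rw [norm_mul, Complex.norm_real, Real.norm_eq_abs]
    calc ‖a‖ * |L| ≤ ‖a‖ * (2 * |x|) := mul_le_mul_of_nonneg_left hLabs (norm_nonneg _)
      _ = 2 * ‖a‖ * |x| := by ring
      _ ≤ 1 := hxa
  have hz3 : ‖a * (L : ℂ)‖ ^ 3 ≤ 8 * ‖a‖ ^ 3 * |x| ^ 3 := by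
    rw [norm_mul, Complex.norm_real, Real.norm_eq_abs]
    have h1 : ‖a‖ * |L| ≤ ‖a‖ * (2 * |x|) :=
      mul_le_mul_of_nonneg_left hLabs (norm_nonneg _)
    calc (‖a‖ * |L|) ^ 3 ≤ (‖a‖ * (2 * |x|)) ^ 3 :=
          pow_le_pow_left₀ (by positivity) h1 3
      _ = 8 * ‖a‖ ^ 3 * |x| ^ 3 := by ring
  have he := exp_expand502 (a * (L : ℂ)) hz
  have hsplit : Complex.exp (a * (L : ℂ)) - (1 + a * x + (a ^ 2 - a) * (x : ℂ) ^ 2 / 2)
      = (Complex.exp (a * (L : ℂ)) - (1 + a * (L : ℂ) + (a * (L : ℂ)) ^ 2 / 2))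
        + (a * ((r : ℝ) : ℂ) + a ^ 2 * (((L ^ 2 - x ^ 2 : ℝ)) : ℂ) / 2) := by
    rw [hrdef]
    push_cast
    ring
  rw [hcp, hsplit]
  have hn1 : ‖a * ((r : ℝ) : ℂ)‖ ≤ 2 * ‖a‖ * |x| ^ 3 := by
    rw [norm_mul, Complex.norm_real, Real.norm_eq_abs]
    calc ‖a‖ * |r| ≤ ‖a‖ * (2 * |x| ^ 3) := mul_le_mul_of_nonneg_left hr (norm_nonneg _)
      _ = 2 * ‖a‖ * |x| ^ 3 := by ring
  have hn2 : ‖a ^ 2 * (((L ^ 2 - x ^ 2 : ℝ)) : ℂ) / 2‖ ≤ 9 / 4 * ‖a‖ ^ 2 * |x| ^ 3 := by
    rw [norm_div, norm_mul, norm_pow, Complex.norm_real, Real.norm_eq_abs]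
    have : ‖(2 : ℂ)‖ = 2 := by simp
    rw [this]
    calc ‖a‖ ^ 2 * |L ^ 2 - x ^ 2| / 2 ≤ ‖a‖ ^ 2 * (9 / 2 * |x| ^ 3) / 2 := by
          apply div_le_div_of_nonneg_right _ (by norm_num : (0 : ℝ) ≤ 2)
          exact mul_le_mul_of_nonneg_left hL2 (by positivity)
      _ = 9 / 4 * ‖a‖ ^ 2 * |x| ^ 3 := by ring
  calc ‖(Complex.exp (a * (L : ℂ)) - (1 + a * (L : ℂ) + (a * (L : ℂ)) ^ 2 / 2))
        + (a * ((r : ℝ) : ℂ) + a ^ 2 * (((L ^ 2 - x ^ 2 : ℝ)) : ℂ) / 2)‖
      ≤ ‖Complex.exp (a * (L : ℂ)) - (1 + a * (L : ℂ) + (a * (L : ℂ)) ^ 2 / 2)‖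
        + (‖a * ((r : ℝ) : ℂ)‖ + ‖a ^ 2 * (((L ^ 2 - x ^ 2 : ℝ)) : ℂ) / 2‖) :=
        (norm_add_le _ _).trans (add_le_add_right (norm_add_le _ _) _)
    _ ≤ 8 * ‖a‖ ^ 3 * |x| ^ 3 + (2 * ‖a‖ * |x| ^ 3 + 9 / 4 * ‖a‖ ^ 2 * |x| ^ 3) := by
        have := he.trans hz3
        linarith
    _ = kA502 a * |x| ^ 3 := by unfold kA502; ring

/-! ## B. The expansion of `P_s(t)` at `t = 0` -/

/-- `P_s(t)` (the body of `T6.Inf.sphP`). -/
def sphP502 (s : ℂ) (t : ℝ) : ℂ :=
  (1 / (2 * Real.pi) : ℝ) *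
    ∫ u in (0 : ℝ)..(2 * Real.pi),
      (((Real.cosh t + Real.sinh t * Real.cos u : ℝ) : ℂ)) ^ (s - 1 / 2)

theorem integral_poly_cos502 (c₀ c₁ c₂ : ℂ) :
    ∫ u in (0 : ℝ)..(2 * Real.pi),
        (c₀ + c₁ * ((Real.cos u : ℝ) : ℂ) + c₂ * ((Real.cos u : ℝ) : ℂ) ^ 2)
      = 2 * Real.pi * c₀ + Real.pi * c₂ := by
  have h1 : IntervalIntegrable (fun _ : ℝ => (c₀ : ℂ)) volume 0 (2 * Real.pi) :=
    continuous_const.intervalIntegrable _ _
  have h2 : IntervalIntegrable (fun u : ℝ => c₁ * ((Real.cos u : ℝ) : ℂ)) volume 0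
      (2 * Real.pi) :=
    Continuous.intervalIntegrable (by fun_prop) _ _
  have h3 : IntervalIntegrable (fun u : ℝ => c₂ * ((Real.cos u : ℝ) : ℂ) ^ 2) volume 0
      (2 * Real.pi) :=
    Continuous.intervalIntegrable (by fun_prop) _ _
  have e1 : ∫ u in (0 : ℝ)..(2 * Real.pi), ((Real.cos u : ℝ) : ℂ) = 0 := by
    rw [intervalIntegral.integral_ofReal, integral_cos]
    simp
  have e2 : ∫ u in (0 : ℝ)..(2 * Real.pi), ((Real.cos u : ℝ) : ℂ) ^ 2 = Real.pi := by
    have : (fun u : ℝ => ((Real.cos u : ℝ) : ℂ) ^ 2)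
        = fun u => (((Real.cos u) ^ 2 : ℝ) : ℂ) := by
      ext u
      push_cast
      rfl
    rw [this, intervalIntegral.integral_ofReal, integral_cos_sq]
    simp
  rw [intervalIntegral.integral_add (h1.add h2) h3, intervalIntegral.integral_add h1 h2,
    intervalIntegral.integral_const, intervalIntegral.integral_const_mul,
    intervalIntegral.integral_const_mul, e1, e2]
  simp
  ring

theorem continuous_integrand502 (a : ℂ) (t : ℝ) :
    Continuous fun u : ℝ => (((Real.cosh t + Real.sinh t * Real.cos u : ℝ) : ℂ)) ^ a := by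
  have hpos : ∀ u : ℝ, 0 < Real.cosh t + Real.sinh t * Real.cos u := by
    intro u
    have h1 : |Real.sinh t * Real.cos u| ≤ |Real.sinh t| := by
      rw [abs_mul]
      calc |Real.sinh t| * |Real.cos u| ≤ |Real.sinh t| * 1 :=
            mul_le_mul_of_nonneg_left (Real.abs_cos_le_one u) (abs_nonneg _)
        _ = |Real.sinh t| := mul_one _
    have h2 : |Real.sinh t| < Real.cosh t := by
      rw [abs_lt]
      constructor
      · have := Real.cosh_add_sinh t
        have := Real.exp_pos t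
        linarith
      · exact Real.sinh_lt_cosh t
    have h3 := neg_abs_le (Real.sinh t * Real.cos u)
    linarith
  have hc : Continuous fun u : ℝ => ((Real.cosh t + Real.sinh t * Real.cos u : ℝ) : ℂ) := by
    fun_prop
  refine Continuous.cpow hc continuous_const ?_
  intro u
  exact Complex.ofReal_mem_slitPlane.2 (hpos u)

/-- The constant of the expansion of `P_s`. -/
def kP502 (s : ℂ) : ℝ := 8 * kA502 (s - 1 / 2) + ‖(s - 1 / 2) ^ 2 - 2 * (s - 1 / 2)‖

theorem kP_nonneg502 (s : ℂ) : 0 ≤ kP502 s := by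
  unfold kP502
  have := kA_nonneg502 (s - 1 / 2)
  positivity

/-- The radius of the expansion of `P_s`. -/
def bP502 (s : ℂ) : ℝ := min (1 / 4) (1 / (4 * ‖s - 1 / 2‖ + 1))

theorem bP_pos502 (s : ℂ) : 0 < bP502 s := by
  unfold bP502
  apply lt_min (by norm_num)
  positivity

/-- **The expansion of `P_s` at `t = 0`**: `P_s(t) = 1 + (s² - 1/4) sinh² t / 4 + O(sinh³ t)`. -/
theorem sphP_expand502 (s : ℂ) (t : ℝ) (ht : 0 < t) (hB : Real.sinh t ≤ bP502 s) :
    ‖sphP502 s t - 1 - (s ^ 2 - 1 / 4) * ((Real.sinh t : ℝ) : ℂ) ^ 2 / 4‖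
      ≤ kP502 s * Real.sinh t ^ 3 := by
  set a : ℂ := s - 1 / 2 with ha
  set A : ℝ := Real.cosh t - 1 with hA
  set B : ℝ := Real.sinh t with hBdef
  have hBpos : 0 < B := Real.sinh_pos_iff.2 ht
  have hA0 : 0 ≤ A := by
    have := Real.one_le_cosh t
    rw [hA]; linarith
  have hB4 : B ≤ 1 / 4 := hB.trans (min_le_left _ _)
  have hBa : B ≤ 1 / (4 * ‖a‖ + 1) := hB.trans (min_le_right _ _)
  have hcs : Real.cosh t ^ 2 = B ^ 2 + 1 := Real.cosh_sq t
  -- `B² = A (A + 2)`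
  have hAB : B ^ 2 = A * (A + 2) := by
    have : Real.cosh t = A + 1 := by rw [hA]; ring
    rw [this] at hcs
    nlinarith
  have hA2 : A ≤ B ^ 2 / 2 := by nlinarith
  have hAB8 : A ≤ B / 8 := by nlinarith
  -- the pointwise bound
  have hpt : ∀ u : ℝ, ‖(((Real.cosh t + Real.sinh t * Real.cos u : ℝ) : ℂ)) ^ a
      - ((1 + a * A + (a ^ 2 - a) * (A : ℂ) ^ 2 / 2)
          + (a * B + (a ^ 2 - a) * A * B) * ((Real.cos u : ℝ) : ℂ)
          + ((a ^ 2 - a) * (B : ℂ) ^ 2 / 2) * ((Real.cos u : ℝ) : ℂ) ^ 2)‖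
      ≤ 8 * kA502 a * B ^ 3 := by
    intro u
    set x : ℝ := A + B * Real.cos u with hx
    have hxabs : |x| ≤ 2 * B := by
      have h1 : |B * Real.cos u| ≤ B := by
        rw [abs_mul, abs_of_pos hBpos]
        calc B * |Real.cos u| ≤ B * 1 :=
              mul_le_mul_of_nonneg_left (Real.abs_cos_le_one u) hBpos.le
          _ = B := mul_one _
      calc |x| ≤ |A| + |B * Real.cos u| := abs_add_le _ _
        _ ≤ A + B := by rw [abs_of_nonneg hA0]; linarith
        _ ≤ 2 * B := by linarith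
    have hx12 : |x| ≤ 1 / 2 := by linarith
    have hxa : 2 * ‖a‖ * |x| ≤ 1 := by
      have h1 : 2 * ‖a‖ * |x| ≤ 2 * ‖a‖ * (2 * B) :=
        mul_le_mul_of_nonneg_left hxabs (by positivity)
      have h2 : (4 * ‖a‖ + 1) * B ≤ 1 := by
        have h3 : 0 < 4 * ‖a‖ + 1 := by positivity
        calc (4 * ‖a‖ + 1) * B ≤ (4 * ‖a‖ + 1) * (1 / (4 * ‖a‖ + 1)) :=
              mul_le_mul_of_nonneg_left hBa h3.le
          _ = 1 := by field_simp
      nlinarith
    have h := cpow_expand502 a x hx12 hxa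
    have e1 : ((1 + x : ℝ) : ℂ) = ((Real.cosh t + Real.sinh t * Real.cos u : ℝ) : ℂ) := by
      congr 1
      rw [hx, hA]
      ring
    have e2 : (1 + a * x + (a ^ 2 - a) * (x : ℂ) ^ 2 / 2)
        = ((1 + a * A + (a ^ 2 - a) * (A : ℂ) ^ 2 / 2)
          + (a * B + (a ^ 2 - a) * A * B) * ((Real.cos u : ℝ) : ℂ)
          + ((a ^ 2 - a) * (B : ℂ) ^ 2 / 2) * ((Real.cos u : ℝ) : ℂ) ^ 2) := by
      rw [hx]
      push_cast
      ring
    rw [e1, e2] at h
    refine h.trans ?_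
    have h3 : |x| ^ 3 ≤ (2 * B) ^ 3 := pow_le_pow_left₀ (abs_nonneg _) hxabs 3
    calc kA502 a * |x| ^ 3 ≤ kA502 a * (2 * B) ^ 3 :=
          mul_le_mul_of_nonneg_left h3 (kA_nonneg502 a)
      _ = 8 * kA502 a * B ^ 3 := by ring
  -- integrate
  have hcont := continuous_integrand502 a t
  have hI1 : IntervalIntegrable
      (fun u : ℝ => (((Real.cosh t + Real.sinh t * Real.cos u : ℝ) : ℂ)) ^ a) volume 0
      (2 * Real.pi) := hcont.intervalIntegrable _ _
  have hI2 : IntervalIntegrable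
      (fun u : ℝ => ((1 + a * A + (a ^ 2 - a) * (A : ℂ) ^ 2 / 2)
          + (a * B + (a ^ 2 - a) * A * B) * ((Real.cos u : ℝ) : ℂ)
          + ((a ^ 2 - a) * (B : ℂ) ^ 2 / 2) * ((Real.cos u : ℝ) : ℂ) ^ 2)) volume 0
      (2 * Real.pi) :=
    Continuous.intervalIntegrable (by fun_prop) _ _
  have hint := intervalIntegral.norm_integral_le_of_norm_le_const
    (a := (0 : ℝ)) (b := 2 * Real.pi) (fun u _ => hpt u)
  rw [intervalIntegral.integral_sub hI1 hI2, integral_poly_cos502] at hint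
  have hpi : 0 < Real.pi := Real.pi_pos
  have habs : |2 * Real.pi - 0| = 2 * Real.pi := by
    rw [sub_zero, abs_of_pos (by positivity)]
  rw [habs] at hint
  -- assemble
  have hAexact : (A : ℂ) = (B : ℂ) ^ 2 / 2 - (A : ℂ) ^ 2 / 2 := by
    have : A = B ^ 2 / 2 - A ^ 2 / 2 := by rw [hAB]; ring
    exact_mod_cast this
  have hpiC : ((Real.pi : ℝ) : ℂ) ≠ 0 := by exact_mod_cast hpi.ne'
  have hsplit : sphP502 s t - 1 - (s ^ 2 - 1 / 4) * ((B : ℝ) : ℂ) ^ 2 / 4
      = ((1 / (2 * Real.pi) : ℝ) : ℂ) *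
          ((∫ u in (0 : ℝ)..(2 * Real.pi),
            (((Real.cosh t + Real.sinh t * Real.cos u : ℝ) : ℂ)) ^ a)
          - (2 * Real.pi * (1 + a * A + (a ^ 2 - a) * (A : ℂ) ^ 2 / 2)
            + Real.pi * ((a ^ 2 - a) * (B : ℂ) ^ 2 / 2)))
        + (a ^ 2 - 2 * a) * (A : ℂ) ^ 2 / 2 := by
    unfold sphP502
    rw [← ha]
    have hs : s = a + 1 / 2 := by rw [ha]; ring
    have hc : ((1 / (2 * Real.pi) : ℝ) : ℂ) * (2 * (Real.pi : ℂ)) = 1 := by
      push_cast
      field_simp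
    generalize (∫ u in (0 : ℝ)..(2 * Real.pi),
      (((Real.cosh t + Real.sinh t * Real.cos u : ℝ) : ℂ)) ^ a) = I
    generalize ((1 / (2 * Real.pi) : ℝ) : ℂ) = c at hc ⊢
    rw [hs]
    linear_combination ((1 + a * A + (a ^ 2 - a) * (A : ℂ) ^ 2 / 2)
      + ((a ^ 2 - a) * (B : ℂ) ^ 2 / 2) / 2) * hc + a * hAexact
  rw [hsplit]
  have hn1 : ‖((1 / (2 * Real.pi) : ℝ) : ℂ) *
          ((∫ u in (0 : ℝ)..(2 * Real.pi),
            (((Real.cosh t + Real.sinh t * Real.cos u : ℝ) : ℂ)) ^ a)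
          - (2 * Real.pi * (1 + a * A + (a ^ 2 - a) * (A : ℂ) ^ 2 / 2)
            + Real.pi * ((a ^ 2 - a) * (B : ℂ) ^ 2 / 2)))‖ ≤ 8 * kA502 a * B ^ 3 := by
    rw [norm_mul, Complex.norm_real, Real.norm_eq_abs, abs_of_pos (by positivity)]
    calc 1 / (2 * Real.pi) * ‖(∫ u in (0 : ℝ)..(2 * Real.pi),
            (((Real.cosh t + Real.sinh t * Real.cos u : ℝ) : ℂ)) ^ a)
          - (2 * Real.pi * (1 + a * A + (a ^ 2 - a) * (A : ℂ) ^ 2 / 2)
            + Real.pi * ((a ^ 2 - a) * (B : ℂ) ^ 2 / 2))‖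
        ≤ 1 / (2 * Real.pi) * (8 * kA502 a * B ^ 3 * (2 * Real.pi)) :=
          mul_le_mul_of_nonneg_left hint (by positivity)
      _ = 8 * kA502 a * B ^ 3 := by field_simp
  have hn2 : ‖(a ^ 2 - 2 * a) * (A : ℂ) ^ 2 / 2‖ ≤ ‖a ^ 2 - 2 * a‖ * B ^ 3 := by
    rw [norm_div, norm_mul, norm_pow, Complex.norm_real, Real.norm_eq_abs, abs_of_nonneg hA0]
    have : ‖(2 : ℂ)‖ = 2 := by simp
    rw [this]
    have h1 : A ^ 2 ≤ B ^ 3 := by
      have h2 : A ^ 2 ≤ (B ^ 2 / 2) ^ 2 := pow_le_pow_left₀ hA0 hA2 2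
      have h3 : (B ^ 2 / 2) ^ 2 = B ^ 3 * (B / 4) := by ring
      have h4 : B ^ 3 * (B / 4) ≤ B ^ 3 * 1 :=
        mul_le_mul_of_nonneg_left (by linarith) (by positivity)
      linarith
    calc ‖a ^ 2 - 2 * a‖ * A ^ 2 / 2 ≤ ‖a ^ 2 - 2 * a‖ * A ^ 2 := by
          have : 0 ≤ ‖a ^ 2 - 2 * a‖ * A ^ 2 := by positivity
          linarith
      _ ≤ ‖a ^ 2 - 2 * a‖ * B ^ 3 := mul_le_mul_of_nonneg_left h1 (norm_nonneg _)
  calc ‖((1 / (2 * Real.pi) : ℝ) : ℂ) *
          ((∫ u in (0 : ℝ)..(2 * Real.pi),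
            (((Real.cosh t + Real.sinh t * Real.cos u : ℝ) : ℂ)) ^ a)
          - (2 * Real.pi * (1 + a * A + (a ^ 2 - a) * (A : ℂ) ^ 2 / 2)
            + Real.pi * ((a ^ 2 - a) * (B : ℂ) ^ 2 / 2)))
        + (a ^ 2 - 2 * a) * (A : ℂ) ^ 2 / 2‖
      ≤ 8 * kA502 a * B ^ 3 + ‖a ^ 2 - 2 * a‖ * B ^ 3 :=
        (norm_add_le _ _).trans (add_le_add hn1 hn2)
    _ = kP502 s * B ^ 3 := by unfold kP502; rw [← ha]; ring

/-! ## C. The parameter of a real bounded `P_s` -/

theorem param_key502 (s : ℂ)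
    (h : ∀ t : ℝ, 0 < t → (sphP502 s t).im = 0 ∧ ‖sphP502 s t‖ ≤ 1)
    (B : ℝ) (hB : 0 < B) (hBle : B ≤ bP502 s) :
    |(s ^ 2 - 1 / 4).im| ≤ 4 * kP502 s * B ∧ (s ^ 2 - 1 / 4).re ≤ 4 * kP502 s * B := by
  have ht : 0 < Real.arsinh B := Real.arsinh_pos_iff.2 hB
  have hsinh : Real.sinh (Real.arsinh B) = B := Real.sinh_arsinh B
  have hexp := sphP_expand502 s (Real.arsinh B) ht (by rw [hsinh]; exact hBle)
  rw [hsinh] at hexp
  obtain ⟨him, hnorm⟩ := h (Real.arsinh B) ht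
  generalize sphP502 s (Real.arsinh B) = P at hexp him hnorm
  generalize s ^ 2 - 1 / 4 = κ at hexp ⊢
  have e : κ * ((B : ℝ) : ℂ) ^ 2 / 4 = ((B ^ 2 / 4 : ℝ) : ℂ) * κ := by
    push_cast
    ring
  rw [e] at hexp
  have hDim : (P - 1 - ((B ^ 2 / 4 : ℝ) : ℂ) * κ).im = -(B ^ 2 / 4 * κ.im) := by
    rw [Complex.sub_im, Complex.sub_im, Complex.im_ofReal_mul, him, Complex.one_im]
    ring
  have hDre : (P - 1 - ((B ^ 2 / 4 : ℝ) : ℂ) * κ).re = P.re - 1 - B ^ 2 / 4 * κ.re := by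
    rw [Complex.sub_re, Complex.sub_re, Complex.re_ofReal_mul, Complex.one_re]
  have h1 := (Complex.abs_im_le_norm _).trans hexp
  have h2 := (Complex.abs_re_le_norm _).trans hexp
  rw [hDim, abs_neg, abs_mul, abs_of_pos (by positivity : (0 : ℝ) < B ^ 2 / 4)] at h1
  rw [hDre] at h2
  have hPre : P.re ≤ 1 := (Complex.re_le_norm P).trans hnorm
  have hB2 : 0 < B ^ 2 := by positivity
  constructor
  · have h3 : |κ.im| * B ^ 2 ≤ (4 * kP502 s * B) * B ^ 2 := by nlinarith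
    exact le_of_mul_le_mul_right h3 hB2
  · have h4 := (abs_le.1 h2).1
    have h3 : κ.re * B ^ 2 ≤ (4 * kP502 s * B) * B ^ 2 := by nlinarith
    exact le_of_mul_le_mul_right h3 hB2

theorem small_of_forall502 (x C B₀ : ℝ) (hC : 0 ≤ C) (hB₀ : 0 < B₀)
    (h : ∀ B : ℝ, 0 < B → B ≤ B₀ → x ≤ 4 * C * B) : x ≤ 0 := by
  by_contra hx
  rw [not_le] at hx
  have h1 : 0 < x / (8 * C + 1) := by positivity
  have h2 := h (min B₀ (x / (8 * C + 1))) (lt_min hB₀ h1) (min_le_left _ _)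
  have h3 : 4 * C * min B₀ (x / (8 * C + 1)) ≤ 4 * C * (x / (8 * C + 1)) :=
    mul_le_mul_of_nonneg_left (min_le_right _ _) (by positivity)
  have h4 : 4 * C * (x / (8 * C + 1)) < x := by
    rw [mul_div_assoc', div_lt_iff₀ (by positivity)]
    nlinarith
  linarith

/-- If `P_s` is real and bounded by `1` on `(0, ∞)`, then `s² - 1/4` is real and `≤ 0`. -/
theorem param_of_bounded502 (s : ℂ)
    (h : ∀ t : ℝ, 0 < t → (sphP502 s t).im = 0 ∧ ‖sphP502 s t‖ ≤ 1) :
    (s ^ 2 - 1 / 4).im = 0 ∧ (s ^ 2 - 1 / 4).re ≤ 0 := by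
  constructor
  · have h1 := small_of_forall502 |(s ^ 2 - 1 / 4).im| (kP502 s) (bP502 s) (kP_nonneg502 s)
      (bP_pos502 s) (fun B hB hBle => (param_key502 s h B hB hBle).1)
    exact abs_eq_zero.1 (le_antisymm h1 (abs_nonneg _))
  · exact small_of_forall502 _ (kP502 s) (bP502 s) (kP_nonneg502 s)
      (bP_pos502 s) (fun B hB hBle => (param_key502 s h B hB hBle).2)

/-! ## D. `R_ν` for `ν = 2 s`, `s ∈ iℝ ∪ [-1/2, 1/2]` -/

/-- `R_ν(d)` (the body of `T6.Inf.sphR`). -/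
def sphR502 (ν : ℂ) (d : ℝ) : ℂ :=
  if d = 0 then 1
  else if ν = 0 then ((d / Real.sinh d : ℝ) : ℂ)
  else Complex.sinh (ν * (d : ℂ)) / (ν * ((Real.sinh d : ℝ) : ℂ))

theorem sinh_mul_le502 (ν d : ℝ) (hν0 : 0 ≤ ν) (hν1 : ν ≤ 1) (hd : 0 ≤ d) :
    Real.sinh (ν * d) ≤ ν * Real.sinh d := by
  have hmono : MonotoneOn (fun x : ℝ => ν * Real.sinh x - Real.sinh (ν * x)) (Set.Ici 0) := by
    apply monotoneOn_of_deriv_nonneg (convex_Ici 0)
    · exact Continuous.continuousOn (by fun_prop)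
    · exact Differentiable.differentiableOn (by fun_prop)
    · intro x hx
      have hderiv : deriv (fun x : ℝ => ν * Real.sinh x - Real.sinh (ν * x)) x
          = ν * Real.cosh x - Real.cosh (ν * x) * ν := by
        have h1 : HasDerivAt (fun x : ℝ => ν * Real.sinh x) (ν * Real.cosh x) x :=
          (Real.hasDerivAt_sinh x).const_mul ν
        have h2 : HasDerivAt (fun x : ℝ => Real.sinh (ν * x)) (Real.cosh (ν * x) * ν) x := by
          have h3 : HasDerivAt (fun x : ℝ => ν * x) ν x := by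
            simpa using (hasDerivAt_id x).const_mul ν
          exact (Real.hasDerivAt_sinh (ν * x)).comp x h3
        exact (h1.sub h2).deriv
      rw [hderiv]
      have hc : Real.cosh (ν * x) ≤ Real.cosh x := by
        rw [Real.cosh_le_cosh, abs_mul, abs_of_nonneg hν0]
        have : 0 ≤ |x| := abs_nonneg x
        nlinarith
      nlinarith
  have h := hmono (Set.mem_Ici.2 le_rfl) (Set.mem_Ici.2 hd) hd
  simp only [Real.sinh_zero, mul_zero, sub_zero] at h
  linarith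

theorem abs_sinh_mul_le502 (ν d : ℝ) (hν : |ν| ≤ 1) (hd : 0 ≤ d) :
    |Real.sinh (ν * d)| ≤ |ν| * Real.sinh d := by
  rw [Real.abs_sinh, abs_mul, abs_of_nonneg hd]
  exact sinh_mul_le502 |ν| d (abs_nonneg _) hν hd

/-- `R_{2s}` is real and bounded by `1` when `s² - 1/4` is real and `≤ 0`. -/
theorem sphR_bounded502 (s : ℂ) (h1 : (s ^ 2 - 1 / 4).im = 0) (h2 : (s ^ 2 - 1 / 4).re ≤ 0)
    (d : ℝ) (hd : 0 < d) :
    (sphR502 (2 * s) d).im = 0 ∧ ‖sphR502 (2 * s) d‖ ≤ 1 := by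
  have hsd : 0 < Real.sinh d := Real.sinh_pos_iff.2 hd
  have hdle : d ≤ Real.sinh d := Real.self_le_sinh_iff.2 hd.le
  have him : s.re * s.im = 0 := by
    have : (s ^ 2 - 1 / 4).im = 2 * (s.re * s.im) := by
      simp [pow_two, Complex.sub_im, Complex.mul_im]
      ring
    rw [this] at h1
    linarith
  have hre : s.re ^ 2 - s.im ^ 2 ≤ 1 / 4 := by
    have : (s ^ 2 - 1 / 4).re = s.re ^ 2 - s.im ^ 2 - 1 / 4 := by
      simp [pow_two, Complex.sub_re, Complex.mul_re]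
    rw [this] at h2
    linarith
  unfold sphR502
  rw [if_neg hd.ne']
  by_cases hs : s = 0
  · rw [if_pos (by rw [hs, mul_zero])]
    refine ⟨Complex.ofReal_im _, ?_⟩
    rw [Complex.norm_real, Real.norm_eq_abs, abs_of_pos (div_pos hd hsd), div_le_one hsd]
    exact hdle
  · have h2s : (2 : ℂ) * s ≠ 0 := mul_ne_zero two_ne_zero hs
    rw [if_neg h2s]
    rcases mul_eq_zero.1 him with hσ | hτ
    · -- `s = i τ`
      have hsI : s = ((s.im : ℝ) : ℂ) * Complex.I := by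
        apply Complex.ext <;> simp [hσ]
      have hτ0 : s.im ≠ 0 := by
        intro h0
        apply hs
        rw [hsI, h0]
        simp
      set τ : ℝ := s.im with hτdef
      have e1 : (2 : ℂ) * s * (d : ℂ) = (((2 * τ * d : ℝ)) : ℂ) * Complex.I := by
        rw [hsI]
        push_cast
        ring
      have e2 : Complex.sinh ((2 : ℂ) * s * (d : ℂ)) / ((2 : ℂ) * s * ((Real.sinh d : ℝ) : ℂ))
          = ((Real.sin (2 * τ * d) / (2 * τ * Real.sinh d) : ℝ) : ℂ) := by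
        rw [e1, Complex.sinh_mul_I, ← Complex.ofReal_sin]
        rw [hsI]
        have hI : Complex.I ≠ 0 := Complex.I_ne_zero
        have hτC : ((τ : ℝ) : ℂ) ≠ 0 := by exact_mod_cast hτ0
        have hsC : ((Real.sinh d : ℝ) : ℂ) ≠ 0 := by exact_mod_cast hsd.ne'
        push_cast
        field_simp
      rw [e2]
      refine ⟨Complex.ofReal_im _, ?_⟩
      rw [Complex.norm_real, Real.norm_eq_abs, abs_div, abs_mul, abs_mul, abs_of_pos hsd,
        div_le_one (by positivity)]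
      calc |Real.sin (2 * τ * d)| ≤ |2 * τ * d| := Real.abs_sin_le_abs
        _ = |2| * |τ| * d := by rw [abs_mul, abs_mul, abs_of_pos hd]
        _ ≤ |2| * |τ| * Real.sinh d := mul_le_mul_of_nonneg_left hdle (by positivity)
    · -- `s = σ` real
      have hsR : s = ((s.re : ℝ) : ℂ) := by
        apply Complex.ext <;> simp [hτ]
      have hσ0 : s.re ≠ 0 := by
        intro h0
        apply hs
        rw [hsR, h0]
        simp
      set σ : ℝ := s.re with hσdef
      have hσ2 : σ ^ 2 ≤ 1 / 4 := by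
        rw [hτ] at hre
        simpa using hre
      have hσ1 : |2 * σ| ≤ 1 := by
        rw [abs_le]
        constructor <;> nlinarith
      have e1 : (2 : ℂ) * s * (d : ℂ) = (((2 * σ * d : ℝ)) : ℂ) := by
        rw [hsR]
        push_cast
        ring
      have e2 : Complex.sinh ((2 : ℂ) * s * (d : ℂ)) / ((2 : ℂ) * s * ((Real.sinh d : ℝ) : ℂ))
          = ((Real.sinh (2 * σ * d) / (2 * σ * Real.sinh d) : ℝ) : ℂ) := by
        rw [e1, ← Complex.ofReal_sinh]
        rw [hsR]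
        push_cast
        ring
      rw [e2]
      refine ⟨Complex.ofReal_im _, ?_⟩
      rw [Complex.norm_real, Real.norm_eq_abs, abs_div, abs_mul (2 * σ), abs_of_pos hsd,
        div_le_one (by positivity)]
      exact abs_sinh_mul_le502 (2 * σ) d hσ1 hd.le

/-- **T6inf.05, core.** -/
theorem upUnitary0_core502 (s : ℂ)
    (h : ∀ t : ℝ, 0 < t → (sphP502 s t).im = 0 ∧ ‖sphP502 s t‖ ≤ 1) (d : ℝ) (hd : 0 < d) :
    (sphR502 (2 * s) d).im = 0 ∧ ‖sphR502 (2 * s) d‖ ≤ 1 := by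
  obtain ⟨h1, h2⟩ := param_of_bounded502 s h
  exact sphR_bounded502 s h1 h2 d hd

end Fermat.Agent.LT.T6.Inf.H502

end

end
-- ===== PACK-END LT/T6/Inf/H502/UpCore.lean

-- ===== PACK-BEGIN LT/T7/H126/DirichletCore.lean
section


/-!
# Row LT, tower T7, node T7.L2.1 `SupplyC`, sub-station PROJ, leaf PROJ.7 `DirichletC`: the core
# (helper126, OFF-MAIN, Mathlib only)

For a nonzero ideal `𝔑` of `𝓞 K` and `c ≠ 0` the space `ℝ^{places at ∞}` has a basis made of the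
constant vector `c` and of vectors `(log |ε|_w)_w`, `ε` a unit `≡ 1 mod 𝔑`
(Dirichlet's unit theorem: `NumberField.Units.basisUnitLattice`, `Basis.ofZLatticeBasis`).
-/

set_option autoImplicit false
set_option linter.style.haveILetI false
set_option linter.unusedSectionVars false

noncomputable section

namespace Fermat.Agent.LT.T7.H126

open NumberField NumberField.Units NumberField.Units.dirichletUnitTheorem
open NumberField.InfinitePlace Module

variable (K : Type) [Field K] [NumberField K]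

/-- A uniform exponent `m ≥ 1` with `ε ^ m ≡ 1 mod 𝔑` for every unit `ε`. -/
theorem exists_exp_units126 (𝔑 : Ideal (𝓞 K)) (h𝔑 : 𝔑 ≠ ⊥) :
    ∃ m : ℕ, 0 < m ∧ ∀ ε : (𝓞 K)ˣ, (((ε ^ m : (𝓞 K)ˣ) : 𝓞 K) - 1 ∈ 𝔑) := by
  haveI : Finite (𝓞 K ⧸ 𝔑) := Ideal.finiteQuotientOfFreeOfNeBot 𝔑 h𝔑
  haveI : Fintype ((𝓞 K ⧸ 𝔑)ˣ) := Fintype.ofFinite _
  refine ⟨Fintype.card ((𝓞 K ⧸ 𝔑)ˣ), Fintype.card_pos, fun ε => ?_⟩
  have h := pow_card_eq_one (x := Units.map (Ideal.Quotient.mk 𝔑).toMonoidHom ε)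
  have h2 : (Ideal.Quotient.mk 𝔑) (((ε ^ Fintype.card ((𝓞 K ⧸ 𝔑)ˣ) : (𝓞 K)ˣ) : 𝓞 K)) =
      (Ideal.Quotient.mk 𝔑) 1 := by
    have h3 := congrArg (fun x : (𝓞 K ⧸ 𝔑)ˣ => (x : 𝓞 K ⧸ 𝔑)) h
    simp only [Units.val_pow_eq_pow_val, Units.coe_map, Units.val_one] at h3
    rw [Units.val_pow_eq_pow_val, map_pow, map_one]
    exact h3
  exact Ideal.Quotient.eq.mp h2

/-- The log vector of a power. -/
theorem log_place_pow126 (w : InfinitePlace K) (ε : (𝓞 K)ˣ) (m : ℕ) :
    Real.log (w ((((ε ^ m : (𝓞 K)ˣ)) : 𝓞 K) : K)) = m * Real.log (w (((ε : 𝓞 K)) : K)) := by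
  have h : ((((ε ^ m : (𝓞 K)ˣ)) : 𝓞 K) : K) = (((ε : 𝓞 K)) : K) ^ m := by
    push_cast
    rfl
  rw [h, map_pow, Real.log_pow]

/-- **The core of the leaf `DirichletC`.** -/
theorem dirichlet_core126 (𝔑 : Ideal (𝓞 K)) (h𝔑 : 𝔑 ≠ ⊥) (c : ℝ) (hc : c ≠ 0) :
    ∃ b : Module.Basis (InfinitePlace K) ℝ (InfinitePlace K → ℝ),
      ∀ i : InfinitePlace K, (b i = fun _ => c) ∨
        ∃ ε : (𝓞 K)ˣ, ((ε : 𝓞 K) - 1 ∈ 𝔑) ∧
          b i = fun w => Real.log (w (((ε : 𝓞 K)) : K)) := by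
  classical
  obtain ⟨m, hm, hmem⟩ := exists_exp_units126 K 𝔑 h𝔑
  have hm0 : (m : ℝ) ≠ 0 := by exact_mod_cast hm.ne'
  -- the real basis of the log space given by a fundamental system of units
  set B : Basis (Fin (rank K)) ℝ (logSpace K) :=
    (basisUnitLattice K).ofZLatticeBasis ℝ (unitLattice K) with hB
  have hBapp : ∀ j, B j = logEmbedding K (Additive.ofMul (fundSystem K j)) := by
    intro j
    rw [hB, Basis.ofZLatticeBasis_apply, logEmbedding_fundSystem]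
  have hcard : Fintype.card {w : InfinitePlace K // w ≠ w₀} = Fintype.card (Fin (rank K)) := by
    rw [Fintype.card_fin, ← Units.finrank_eq_rank K, finrank_fintype_fun_eq_card]
  let e : {w : InfinitePlace K // w ≠ w₀} ≃ Fin (rank K) := Fintype.equivOfCardEq hcard
  let u : {w : InfinitePlace K // w ≠ w₀} → (𝓞 K)ˣ := fun i => (fundSystem K (e i)) ^ m
  let v : InfinitePlace K → (InfinitePlace K → ℝ) := fun i =>
    if h : i = w₀ then (fun _ => c)
    else (fun w => Real.log (w ((((u ⟨i, h⟩ : (𝓞 K)ˣ)) : 𝓞 K) : K)))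
  have hv0 : v w₀ = fun _ => c := dif_pos rfl
  have hv1 : ∀ i : {w : InfinitePlace K // w ≠ w₀},
      v i.1 = fun w => Real.log (w ((((u i : (𝓞 K)ˣ)) : 𝓞 K) : K)) := by
    intro i
    simp only [v]
    rw [dif_neg i.2]
  have hlin : LinearIndependent ℝ v := by
    rw [Fintype.linearIndependent_iff]
    intro g hg
    -- the relation, coordinate by coordinate
    have hsum : ∀ w : InfinitePlace K, g w₀ * c +
        ∑ i : {w : InfinitePlace K // w ≠ w₀},
          g i.1 * Real.log (w ((((u i : (𝓞 K)ˣ)) : 𝓞 K) : K)) = 0 := by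
      intro w
      have h1 := congrFun hg w
      rw [Finset.sum_apply, Fintype.sum_eq_add_sum_subtype_ne _ w₀] at h1
      simp only [Pi.smul_apply, smul_eq_mul, Pi.zero_apply] at h1
      rw [hv0] at h1
      have h2 : ∑ i : {w : InfinitePlace K // w ≠ w₀}, g i.1 * v i.1 w =
          ∑ i : {w : InfinitePlace K // w ≠ w₀},
            g i.1 * Real.log (w ((((u i : (𝓞 K)ˣ)) : 𝓞 K) : K)) :=
        Finset.sum_congr rfl fun i _ => by rw [hv1 i]
      rw [h2] at h1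
      exact h1
    -- apply the functional `x ↦ ∑ mult w · x w`
    have hg0 : g w₀ = 0 := by
      have h1 : ∑ w : InfinitePlace K, (mult w : ℝ) * (g w₀ * c +
          ∑ i : {w : InfinitePlace K // w ≠ w₀},
            g i.1 * Real.log (w ((((u i : (𝓞 K)ˣ)) : 𝓞 K) : K))) = 0 :=
        Finset.sum_eq_zero fun w _ => by rw [hsum w, mul_zero]
      simp only [mul_add, Finset.sum_add_distrib, Finset.mul_sum] at h1
      rw [Finset.sum_comm] at h1
      have h2 : ∑ i : {w : InfinitePlace K // w ≠ w₀}, ∑ w : InfinitePlace K,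
          (mult w : ℝ) * (g i.1 * Real.log (w ((((u i : (𝓞 K)ˣ)) : 𝓞 K) : K))) = 0 := by
        refine Finset.sum_eq_zero fun i _ => ?_
        have h3 := sum_mult_mul_log (u i)
        have h4 : ∑ w : InfinitePlace K,
            (mult w : ℝ) * (g i.1 * Real.log (w ((((u i : (𝓞 K)ˣ)) : 𝓞 K) : K))) =
            g i.1 * ∑ w : InfinitePlace K,
              (mult w : ℝ) * Real.log (w ((((u i : (𝓞 K)ˣ)) : 𝓞 K) : K)) := by
          rw [Finset.mul_sum]
          exact Finset.sum_congr rfl fun w _ => by ring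
        rw [h4]
        have h5 : ∑ w : InfinitePlace K,
            (mult w : ℝ) * Real.log (w ((((u i : (𝓞 K)ˣ)) : 𝓞 K) : K)) = 0 := h3
        rw [h5, mul_zero]
      rw [h2, add_zero, ← Finset.sum_mul] at h1
      have h6 : (∑ w : InfinitePlace K, (mult w : ℝ)) ≠ 0 := by
        have h7 : (∑ w : InfinitePlace K, (mult w : ℝ)) = (Module.finrank ℚ K : ℝ) := by
          have := InfinitePlace.sum_mult_eq (K := K)
          exact_mod_cast this
        rw [h7]
        exact_mod_cast (Module.finrank_pos (R := ℚ) (M := K)).ne'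
      rcases mul_eq_zero.1 h1 with h8 | h8
      · exact absurd h8 h6
      · rcases mul_eq_zero.1 h8 with h9 | h9
        · exact h9
        · exact absurd h9 hc
    -- the relation in the log space
    have hB0 : ∑ j : Fin (rank K), (g (e.symm j).1 * m) • B j = 0 := by
      funext w'
      rw [Finset.sum_apply]
      simp only [Pi.smul_apply, smul_eq_mul, Pi.zero_apply]
      have h1 := hsum w'.1
      rw [hg0, zero_mul, zero_add] at h1
      have h2 : ∑ j : Fin (rank K), g (e.symm j).1 * m * B j w' =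
          (mult w'.1 : ℝ) * ∑ i : {w : InfinitePlace K // w ≠ w₀},
            g i.1 * Real.log (w'.1 ((((u i : (𝓞 K)ˣ)) : 𝓞 K) : K)) := by
        rw [Finset.mul_sum, ← Equiv.sum_comp e]
        refine Finset.sum_congr rfl fun i _ => ?_
        rw [Equiv.symm_apply_apply, hBapp, logEmbedding_component]
        show _ = (mult w'.1 : ℝ) * (g i.1 *
          Real.log (w'.1 (((((fundSystem K (e i)) ^ m : (𝓞 K)ˣ)) : 𝓞 K) : K)))
        rw [log_place_pow126]
        ring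
      rw [h2, h1, mul_zero]
    have hB1 := Fintype.linearIndependent_iff.1 B.linearIndependent _ hB0
    intro i
    by_cases hi : i = w₀
    · rw [hi]
      exact hg0
    · have h1 := hB1 (e ⟨i, hi⟩)
      rw [Equiv.symm_apply_apply] at h1
      rcases mul_eq_zero.1 h1 with h2 | h2
      · exact h2
      · exact absurd h2 hm0
  have hcardV : Fintype.card (InfinitePlace K) = finrank ℝ (InfinitePlace K → ℝ) :=
    (finrank_fintype_fun_eq_card ℝ).symm
  refine ⟨basisOfLinearIndependentOfCardEqFinrank hlin hcardV, fun i => ?_⟩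
  rw [coe_basisOfLinearIndependentOfCardEqFinrank]
  by_cases hi : i = w₀
  · left
    rw [hi]
    exact hv0
  · right
    exact ⟨u ⟨i, hi⟩, hmem _, hv1 ⟨i, hi⟩⟩

end Fermat.Agent.LT.T7.H126

end

end
-- ===== PACK-END LT/T7/H126/DirichletCore.lean

-- ===== PACK-BEGIN LT/T7/H563/TorusMeanCore.lean
section


/-!
# Row LT, tower T7, node T7.L2.1, leaf PROJ.8 = TORUS-MEAN (registry row 2145) — Mathlib core

Seat helper563, OFF-MAIN.  Mathlib only.  For a basis `b` of `ℝ^ι` the fundamental parallelepiped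
`ZSpan.fundamentalDomain b` is measurable, bounded, of positive volume, and the integral over it
of every function with the periods `b i` is invariant under translation (no hypothesis on the
function besides the periodicity: both sides are Bochner integrals over two fundamental domains
of the lattice `span ℤ (range b)`).
-/

set_option autoImplicit false

open MeasureTheory

namespace Fermat.Agent.LT.T7.H563

/-- Periodicity under a basis gives invariance under the lattice spanned by it. -/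
theorem periodic_span563 {ι : Type} (b : Module.Basis ι ℝ (ι → ℝ)) (f : (ι → ℝ) → ℂ)
    (hf : ∀ (i : ι) (t : ι → ℝ), f (t + b i) = f t) :
    ∀ g ∈ Submodule.span ℤ (Set.range b), ∀ x : ι → ℝ, f (g + x) = f x := by
  intro g hg
  induction hg using Submodule.span_induction with
  | mem y hy =>
    obtain ⟨i, rfl⟩ := hy
    intro x
    rw [add_comm]
    exact hf i x
  | zero =>
    intro x
    rw [zero_add]
  | add y z _ _ hy hz =>
    intro x
    rw [add_assoc, hy, hz]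
  | smul n y _ hy =>
    have hneg : ∀ x : ι → ℝ, f (-y + x) = f x := by
      intro x
      have h := hy (-y + x)
      rw [add_neg_cancel_left] at h
      exact h.symm
    have hnat : ∀ (k : ℕ) (x : ι → ℝ), f ((k : ℤ) • y + x) = f x := by
      intro k
      induction k with
      | zero => intro x; simp
      | succ k ih =>
        intro x
        have e : ((k + 1 : ℕ) : ℤ) • y + x = (k : ℤ) • y + (y + x) := by
          push_cast
          rw [add_smul, one_smul, add_assoc]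
        rw [e, ih, hy]
    have hnatneg : ∀ (k : ℕ) (x : ι → ℝ), f ((-(k : ℤ)) • y + x) = f x := by
      intro k
      induction k with
      | zero => intro x; simp
      | succ k ih =>
        intro x
        have e : (-((k + 1 : ℕ) : ℤ)) • y + x = (-(k : ℤ)) • y + (-y + x) := by
          push_cast
          rw [neg_add, add_smul, neg_one_smul, add_assoc]
        rw [e, ih, hneg]
    intro x
    obtain ⟨k, rfl | rfl⟩ := Int.eq_nat_or_neg n
    · exact hnat k x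
    · exact hnatneg k x

/-- **TORUS-MEAN, Mathlib form.** -/
theorem torusMean_core563 (ι : Type) [Fintype ι] (b : Module.Basis ι ℝ (ι → ℝ)) :
    ∃ D : Set (ι → ℝ), MeasurableSet D ∧ Bornology.IsBounded D ∧ 0 < volume D ∧
      ∀ f : (ι → ℝ) → ℂ, (∀ (i : ι) (t : ι → ℝ), f (t + b i) = f t) →
        ∀ s : ι → ℝ, ∫ t in D, f (t + s) = ∫ t in D, f t := by
  classical
  refine ⟨ZSpan.fundamentalDomain b, ZSpan.fundamentalDomain_measurableSet b,
    ZSpan.fundamentalDomain_isBounded b, ?_, ?_⟩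
  · exact pos_iff_ne_zero.2 (ZSpan.measure_fundamentalDomain_ne_zero b)
  · intro f hf s
    have hD := ZSpan.isAddFundamentalDomain' b (volume : Measure (ι → ℝ))
    have : Countable (Submodule.span ℤ (Set.range b)).toAddSubgroup := by
      change Countable (Submodule.span ℤ (Set.range b))
      infer_instance
    have hL : ∀ (g : (Submodule.span ℤ (Set.range b)).toAddSubgroup) (x : ι → ℝ),
        f (g +ᵥ x) = f x := by
      intro g x
      exact periodic_span563 b f hf (g : ι → ℝ) g.2 x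
    -- the translated fundamental domain
    have hmp : MeasurePreserving (fun u : ι → ℝ => u + (-s)) volume volume :=
      measurePreserving_add_right volume (-s)
    have hD' : IsAddFundamentalDomain (Submodule.span ℤ (Set.range b)).toAddSubgroup
        ((fun u : ι → ℝ => u + (-s)) ⁻¹' ZSpan.fundamentalDomain b) volume := by
      refine hD.preimage_of_equiv hmp.quasiMeasurePreserving (e := id) Function.bijective_id ?_
      intro g x
      change ((g : ι → ℝ) + x) + (-s) = (g : ι → ℝ) + (x + (-s))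
      rw [add_assoc]
    have hmp2 : MeasurePreserving (fun t : ι → ℝ => t + s) volume volume :=
      measurePreserving_add_right volume s
    have hemb : MeasurableEmbedding (fun t : ι → ℝ => t + s) :=
      measurableEmbedding_addRight s
    have hpre : (fun t : ι → ℝ => t + s) ⁻¹'
        ((fun u : ι → ℝ => u + (-s)) ⁻¹' ZSpan.fundamentalDomain b)
        = ZSpan.fundamentalDomain b := by
      ext t
      simp only [Set.mem_preimage]
      rw [add_neg_cancel_right]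
    have h1 := hmp2.setIntegral_preimage_emb hemb f
      ((fun u : ι → ℝ => u + (-s)) ⁻¹' ZSpan.fundamentalDomain b)
    rw [hpre] at h1
    rw [h1]
    exact hD'.setIntegral_eq hD hL

end Fermat.Agent.LT.T7.H563

end
-- ===== PACK-END LT/T7/H563/TorusMeanCore.lean

-- ===== PACK-BEGIN LT/T7/H228/HeckeMul.lean
section


/-!
# Row LT, tower T7: the product of two double coset operators (ABSTRACT, Mathlib only; helper228)

OFF-MAIN.  Asset for `CM616.MulGC616` / its core form (`T7.L2.2.N.1.10`): in a group `G` with a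
subgroup `U`, for systems of representatives `Hg` of `U g U / U` and `Hg'` of `U g' U / U`,

    ∑_{h ∈ Hg} ∑_{h' ∈ Hg'} ψ(x h h') = ∑_i c_i ∑_{z ∈ H''_i} ψ(x z)

for every right `U`-invariant `ψ`, with `H''_i` a system of representatives of `U y_i U / U`,
`y_i = g u_i g'`, `u_i ∈ U` (`hecke_mul228`).
-/

set_option autoImplicit false
set_option linter.unusedSectionVars false
set_option linter.unusedVariables false

noncomputable section

namespace Fermat.Agent.LT.T7.H228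

open Classical

variable {G : Type} [Group G]

/-- `H` is a full system of representatives of `U g U / U` (the shape of `T7.IsDblCosetSystem`). -/
def IsSysA228 (U : Subgroup G) (g : G) (H : Finset G) : Prop :=
  (∀ h ∈ H, ∃ u₁ u₂ : G, u₁ ∈ U ∧ u₂ ∈ U ∧ h = u₁ * g * u₂) ∧
    (∀ h ∈ H, ∀ h' ∈ H, h ≠ h' → ¬ (h⁻¹ * h') ∈ U) ∧
    ∀ u : G, u ∈ U → ∃ h ∈ H, h⁻¹ * (u * g) ∈ U

/-- Every element of `U g U` is represented. -/
theorem IsSysA228.rep {U : Subgroup G} {g : G} {H : Finset G} (hH : IsSysA228 U g H)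
    {u₁ u₂ : G} (h₁ : u₁ ∈ U) (h₂ : u₂ ∈ U) : ∃ h ∈ H, h⁻¹ * (u₁ * g * u₂) ∈ U := by
  obtain ⟨h, hh, hu⟩ := hH.2.2 u₁ h₁
  refine ⟨h, hh, ?_⟩
  have : h⁻¹ * (u₁ * g * u₂) = h⁻¹ * (u₁ * g) * u₂ := by group
  rw [this]
  exact U.mul_mem hu h₂

/-- Left multiplication by `u ∈ U` permutes the representatives modulo `U`. -/
theorem IsSysA228.move {U : Subgroup G} {g : G} {H : Finset G} (hH : IsSysA228 U g H)
    {u h : G} (hu : u ∈ U) (hh : h ∈ H) : ∃ h₁ ∈ H, h₁⁻¹ * (u * h) ∈ U := by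
  obtain ⟨u₁, u₂, hu₁, hu₂, rfl⟩ := hH.1 h hh
  obtain ⟨h₁, hh₁, hmem⟩ := hH.rep (U.mul_mem hu hu₁) hu₂
  refine ⟨h₁, hh₁, ?_⟩
  have : u * (u₁ * g * u₂) = u * u₁ * g * u₂ := by group
  rw [this]
  exact hmem

/-- The representative is unique. -/
theorem IsSysA228.uniq {U : Subgroup G} {g : G} {H : Finset G} (hH : IsSysA228 U g H)
    {h h' a : G} (hh : h ∈ H) (hh' : h' ∈ H) (h1 : h⁻¹ * a ∈ U) (h2 : h'⁻¹ * a ∈ U) :
    h = h' := by
  by_contra hne
  apply hH.2.1 h hh h' hh' hne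
  have : h⁻¹ * h' = h⁻¹ * a * (h'⁻¹ * a)⁻¹ := by group
  rw [this]
  exact U.mul_mem h1 (U.inv_mem h2)

/-- The double coset relation. -/
def dblSetoid228 (U : Subgroup G) : Setoid G where
  r a b := ∃ u₁ u₂ : G, u₁ ∈ U ∧ u₂ ∈ U ∧ b = u₁ * a * u₂
  iseqv :=
    { refl := fun a => ⟨1, 1, U.one_mem, U.one_mem, by group⟩
      symm := by
        rintro a b ⟨u₁, u₂, h₁, h₂, rfl⟩
        exact ⟨u₁⁻¹, u₂⁻¹, U.inv_mem h₁, U.inv_mem h₂, by group⟩
      trans := by
        rintro a b c ⟨u₁, u₂, h₁, h₂, rfl⟩ ⟨v₁, v₂, k₁, k₂, rfl⟩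
        exact ⟨v₁ * u₁, u₂ * v₂, U.mul_mem k₁ h₁, U.mul_mem h₂ k₂, by group⟩ }

/-- The multiplicity of the coset `a U` among the products `h h' U`. -/
def mult228 (U : Subgroup G) (Hg Hg' : Finset G) (a : G) : ℕ :=
  ((Hg ×ˢ Hg').filter fun p => (p.1 * p.2)⁻¹ * a ∈ U).card

theorem mult228_right {U : Subgroup G} (Hg Hg' : Finset G) {a u : G} (hu : u ∈ U) :
    mult228 U Hg Hg' (a * u) = mult228 U Hg Hg' a := by
  unfold mult228
  congr 1
  ext p
  simp only [Finset.mem_filter]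
  constructor
  · rintro ⟨hp, h⟩
    refine ⟨hp, ?_⟩
    have : (p.1 * p.2)⁻¹ * a = (p.1 * p.2)⁻¹ * (a * u) * u⁻¹ := by group
    rw [this]
    exact U.mul_mem h (U.inv_mem hu)
  · rintro ⟨hp, h⟩
    refine ⟨hp, ?_⟩
    have : (p.1 * p.2)⁻¹ * (a * u) = (p.1 * p.2)⁻¹ * a * u := by group
    rw [this]
    exact U.mul_mem h hu

/-- The multiplicity does not decrease under left multiplication by `u⁻¹`, `u ∈ U`. -/
theorem mult228_left_le {U : Subgroup G} {g g' : G} {Hg Hg' : Finset G}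
    (hg : IsSysA228 U g Hg) (hg' : IsSysA228 U g' Hg') {a u : G} (hu : u ∈ U) :
    mult228 U Hg Hg' (u * a) ≤ mult228 U Hg Hg' a := by
  unfold mult228
  -- the map on pairs
  have hmove : ∀ h ∈ Hg, ∃ h₁ ∈ Hg, h₁⁻¹ * (u⁻¹ * h) ∈ U := fun h hh =>
    hg.move (U.inv_mem hu) hh
  choose! σ hσ hσU using hmove
  have hmove' : ∀ h ∈ Hg, ∀ h' ∈ Hg', ∃ h₁' ∈ Hg', h₁'⁻¹ * ((σ h)⁻¹ * (u⁻¹ * h) * h') ∈ U :=
    fun h hh h' hh' => hg'.move (hσU h hh) hh'
  choose! τ hτ hτU using hmove'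
  refine Finset.card_le_card_of_injOn (fun p => (σ p.1, τ p.1 p.2)) ?_ ?_
  · intro p hp
    simp only [Finset.coe_filter, Finset.mem_product, Set.mem_ofPred_eq] at hp ⊢
    obtain ⟨⟨h1, h2⟩, h3⟩ := hp
    refine ⟨⟨hσ _ h1, hτ _ h1 _ h2⟩, ?_⟩
    have key : (σ p.1 * τ p.1 p.2)⁻¹ * a
        = ((τ p.1 p.2)⁻¹ * ((σ p.1)⁻¹ * (u⁻¹ * p.1) * p.2))
          * ((p.1 * p.2)⁻¹ * (u * a)) := by group
    rw [key]
    exact U.mul_mem (hτU _ h1 _ h2) h3
  · intro p hp p' hp'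
    simp only [Finset.coe_filter, Finset.mem_product, Set.mem_ofPred_eq] at hp hp'
    obtain ⟨⟨h1, h2⟩, -⟩ := hp
    obtain ⟨⟨h1', h2'⟩, -⟩ := hp'
    intro heq
    simp only [Prod.mk.injEq] at heq
    obtain ⟨e1, e2⟩ := heq
    -- first components
    have hfirst : p.1 = p'.1 := by
      by_contra hne
      apply hg.2.1 p.1 h1 p'.1 h1' hne
      have : p.1⁻¹ * p'.1
          = ((σ p.1)⁻¹ * (u⁻¹ * p.1))⁻¹ * ((σ p'.1)⁻¹ * (u⁻¹ * p'.1)) := by
        rw [e1]
        group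
      rw [this]
      exact U.mul_mem (U.inv_mem (hσU _ h1)) (hσU _ h1')
    have hsecond : p.2 = p'.2 := by
      by_contra hne
      apply hg'.2.1 p.2 h2 p'.2 h2' hne
      have : p.2⁻¹ * p'.2
          = ((τ p.1 p.2)⁻¹ * ((σ p.1)⁻¹ * (u⁻¹ * p.1) * p.2))⁻¹
            * ((τ p'.1 p'.2)⁻¹ * ((σ p'.1)⁻¹ * (u⁻¹ * p'.1) * p'.2)) := by
        rw [e2, ← hfirst]
        group
      rw [this]
      exact U.mul_mem (U.inv_mem (hτU _ h1 _ h2)) (hτU _ h1' _ h2')
    exact Prod.ext hfirst hsecond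

theorem mult228_left {U : Subgroup G} {g g' : G} {Hg Hg' : Finset G}
    (hg : IsSysA228 U g Hg) (hg' : IsSysA228 U g' Hg') {a u : G} (hu : u ∈ U) :
    mult228 U Hg Hg' (u * a) = mult228 U Hg Hg' a := by
  refine le_antisymm (mult228_left_le hg hg' hu) ?_
  have := mult228_left_le hg hg' (a := u * a) (U.inv_mem hu)
  rwa [inv_mul_cancel_left] at this

/-- The multiplicity is constant on double cosets. -/
theorem mult228_dbl {U : Subgroup G} {g g' : G} {Hg Hg' : Finset G}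
    (hg : IsSysA228 U g Hg) (hg' : IsSysA228 U g' Hg') {a u₁ u₂ : G} (h₁ : u₁ ∈ U)
    (h₂ : u₂ ∈ U) : mult228 U Hg Hg' (u₁ * a * u₂) = mult228 U Hg Hg' a := by
  rw [mult228_right Hg Hg' h₂, mult228_left hg hg' h₁]

/-! ## The canonical representative of a right coset -/

/-- The canonical representative of the coset `a U`. -/
def outR228 (U : Subgroup G) (a : G) : G := (QuotientGroup.mk a : G ⧸ U).out

theorem outR228_mem (U : Subgroup G) (a : G) : (outR228 U a)⁻¹ * a ∈ U := by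
  rw [← QuotientGroup.eq]
  exact QuotientGroup.out_eq' _

theorem outR228_mem' (U : Subgroup G) (a : G) : a⁻¹ * outR228 U a ∈ U := by
  have := U.inv_mem (outR228_mem U a)
  rwa [mul_inv_rev, inv_inv] at this

theorem outR228_eq (U : Subgroup G) {a b : G} (h : a⁻¹ * b ∈ U) : outR228 U a = outR228 U b := by
  unfold outR228
  rw [QuotientGroup.eq.2 h]

theorem outR228_idem (U : Subgroup G) (a : G) : outR228 U (outR228 U a) = outR228 U a :=
  outR228_eq U (outR228_mem U a)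

/-- **The product of two double coset operators** (abstract form). -/
theorem hecke_mul228 (U : Subgroup G) (g g' : G) (Hg Hg' : Finset G)
    (hg : IsSysA228 U g Hg) (hg' : IsSysA228 U g' Hg') :
    ∃ (n : ℕ) (c : Fin n → ℂ) (y : Fin n → G) (H'' : Fin n → Finset G),
      (∀ i, (∃ u ∈ U, y i = g * u * g') ∧ IsSysA228 U (y i) (H'' i)) ∧
      ∀ ψ : G → ℂ, (∀ u ∈ U, ∀ x, ψ (x * u) = ψ x) →
        ∀ x, ∑ h ∈ Hg, ∑ h' ∈ Hg', ψ (x * h * h') = ∑ i, c i * ∑ z ∈ H'' i, ψ (x * z) := by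
  classical
  set P := Hg ×ˢ Hg' with hP
  set Y : Finset G := P.image (fun p => outR228 U (p.1 * p.2)) with hY
  let δ : G → Quotient (dblSetoid228 U) := Quotient.mk (dblSetoid228 U)
  have hδ : ∀ a b : G, δ a = δ b ↔ ∃ u₁ u₂ : G, u₁ ∈ U ∧ u₂ ∈ U ∧ b = u₁ * a * u₂ := by
    intro a b
    constructor
    · intro h
      exact Quotient.exact h
    · intro h
      exact Quotient.sound h
  set I : Finset (Quotient (dblSetoid228 U)) := Y.image δ with hI
  -- members of `Y`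
  have hYmem : ∀ z ∈ Y, outR228 U z = z := by
    intro z hz
    obtain ⟨p, -, rfl⟩ := Finset.mem_image.1 hz
    exact outR228_idem U _
  -- the products `g u g'` are represented in `Y`
  have hYrep : ∀ u ∈ U, ∀ v ∈ U, outR228 U (v * (g * u * g')) ∈ Y := by
    intro u hu v hv
    obtain ⟨h, hh, hmem⟩ := hg.rep hv hu
    obtain ⟨h', hh', hmem'⟩ := hg'.rep hmem U.one_mem
    refine Finset.mem_image.2 ⟨(h, h'), Finset.mem_product.2 ⟨hh, hh'⟩, ?_⟩
    refine outR228_eq U ?_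
    have : (h * h')⁻¹ * (v * (g * u * g')) = h'⁻¹ * (h⁻¹ * (v * g * u) * g' * 1) := by group
    show (h * h')⁻¹ * (v * (g * u * g')) ∈ U
    rw [this]
    exact hmem'
  -- representatives of the double cosets
  have hrep : ∀ ω ∈ I, ∃ u ∈ U, δ (g * u * g') = ω := by
    intro ω hω
    obtain ⟨z, hz, rfl⟩ := Finset.mem_image.1 hω
    obtain ⟨p, hp, rfl⟩ := Finset.mem_image.1 hz
    obtain ⟨hp1, hp2⟩ := Finset.mem_product.1 hp
    obtain ⟨u₁, u₂, hu₁, hu₂, e1⟩ := hg.1 p.1 hp1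
    obtain ⟨v₁, v₂, hv₁, hv₂, e2⟩ := hg'.1 p.2 hp2
    refine ⟨u₂ * v₁, U.mul_mem hu₂ hv₁, ?_⟩
    rw [hδ]
    refine ⟨u₁, v₂ * ((p.1 * p.2)⁻¹ * outR228 U (p.1 * p.2)), hu₁,
      U.mul_mem hv₂ (outR228_mem' U _), ?_⟩
    have : outR228 U (p.1 * p.2) = p.1 * p.2 * ((p.1 * p.2)⁻¹ * outR228 U (p.1 * p.2)) := by
      group
    rw [this, e1, e2]
    group
  choose! uω huω hδω using hrep
  set rep : Quotient (dblSetoid228 U) → G := fun ω => g * uω ω * g' with hrepdef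
  -- the systems
  have hsys : ∀ ω ∈ I, IsSysA228 U (rep ω) (Y.filter fun z => δ z = ω) := by
    intro ω hω
    refine ⟨?_, ?_, ?_⟩
    · intro z hz
      obtain ⟨-, hzω⟩ := Finset.mem_filter.1 hz
      have : δ (rep ω) = δ z := by rw [hzω]; exact hδω ω hω
      exact (hδ _ _).1 this
    · intro z hz z' hz' hne hmem
      obtain ⟨hzY, -⟩ := Finset.mem_filter.1 hz
      obtain ⟨hz'Y, -⟩ := Finset.mem_filter.1 hz'
      apply hne
      rw [← hYmem z hzY, ← hYmem z' hz'Y]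
      exact outR228_eq U hmem
    · intro u hu
      have hcl : δ (rep ω) = δ (outR228 U (u * rep ω)) :=
        (hδ _ _).2 ⟨u, (u * rep ω)⁻¹ * outR228 U (u * rep ω), hu, outR228_mem' U _, by group⟩
      exact ⟨outR228 U (u * rep ω),
        Finset.mem_filter.2 ⟨hYrep _ (huω ω hω) u hu, hcl.symm.trans (hδω ω hω)⟩,
        outR228_mem U _⟩
  -- the index
  set n := I.card with hn
  let e : Fin n ≃ I := (I.equivFin).symm
  refine ⟨n, fun i => (mult228 U Hg Hg' (rep (e i).1) : ℂ), fun i => rep (e i).1,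
    fun i => Y.filter fun z => δ z = (e i).1, ?_, ?_⟩
  · intro i
    exact ⟨⟨uω (e i).1, huω _ (e i).2, rfl⟩, hsys _ (e i).2⟩
  · intro ψ hψ x
    have h1 : ∑ h ∈ Hg, ∑ h' ∈ Hg', ψ (x * h * h')
        = ∑ p ∈ P, ψ (x * outR228 U (p.1 * p.2)) := by
      rw [hP, Finset.sum_product]
      refine Finset.sum_congr rfl fun h _ => Finset.sum_congr rfl fun h' _ => ?_
      have : x * outR228 U (h * h') = x * h * h' * ((h * h')⁻¹ * outR228 U (h * h')) := by
        group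
      rw [this, hψ _ (outR228_mem' U _)]
    have h2 : ∑ p ∈ P, ψ (x * outR228 U (p.1 * p.2))
        = ∑ z ∈ Y, (mult228 U Hg Hg' z : ℂ) * ψ (x * z) := by
      rw [Finset.sum_comp (fun z => ψ (x * z)) (fun p : G × G => outR228 U (p.1 * p.2))]
      refine Finset.sum_congr rfl fun z hz => ?_
      rw [nsmul_eq_mul]
      congr 2
      unfold mult228
      congr 1
      ext p
      simp only [Finset.mem_filter]
      constructor
      · rintro ⟨hp, rfl⟩
        exact ⟨hp, outR228_mem' U _⟩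
      · rintro ⟨hp, hmem⟩
        refine ⟨hp, ?_⟩
        rw [outR228_eq U hmem, hYmem z hz]
    have h3 : ∑ z ∈ Y, (mult228 U Hg Hg' z : ℂ) * ψ (x * z)
        = ∑ ω ∈ I, ∑ z ∈ Y with δ z = ω, (mult228 U Hg Hg' z : ℂ) * ψ (x * z) :=
      (Finset.sum_fiberwise_of_maps_to (fun z hz => Finset.mem_image_of_mem δ hz) _).symm
    have h4 : ∀ ω ∈ I, ∑ z ∈ Y with δ z = ω, (mult228 U Hg Hg' z : ℂ) * ψ (x * z)
        = (mult228 U Hg Hg' (rep ω) : ℂ) * ∑ z ∈ Y with δ z = ω, ψ (x * z) := by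
      intro ω hω
      rw [Finset.mul_sum]
      refine Finset.sum_congr rfl fun z hz => ?_
      obtain ⟨-, hzω⟩ := Finset.mem_filter.1 hz
      have : δ (rep ω) = δ z := by rw [hzω]; exact hδω ω hω
      obtain ⟨u₁, u₂, hu₁, hu₂, rfl⟩ := (hδ _ _).1 this
      rw [mult228_dbl hg hg' hu₁ hu₂]
    rw [h1, h2, h3, Finset.sum_congr rfl h4, ← Finset.sum_coe_sort I, ← Equiv.sum_comp e]

end Fermat.Agent.LT.T7.H228

end
end
-- ===== PACK-END LT/T7/H228/HeckeMul.lean

-- ===== PACK-BEGIN LT/T7/H270/MulCore.lean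
section


/-!
# Row LT, tower T7, leaf CM.10 `MulGC616` (helper270): the abstract core

OFF-MAIN.  Mathlib only.  `G` a group, `U` a subgroup, `Hg`, `Hg'` full systems of
representatives of `U g U / U`, `U g' U / U`.  On the right `U`-invariant functions the product
of the two double coset operators is a linear combination of double coset operators
`[U y U]`, where `y` may be taken in any class `Pb` which meets every double coset in
`U g U g' U`.

* `IsSys270 U g H` -- `H` is a full system of representatives of `U g U / U`;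
* `RInv270 U ψ`    -- `ψ` is right invariant under `U`;
* `mul_core270`    -- the product formula.
-/

set_option autoImplicit false

namespace Fermat.Agent.LT.T7.H270

open scoped Classical

section Core

variable {G : Type} [Group G] (U : Subgroup G)

/-- `H` is a full system of representatives of `U g U / U`. -/
def IsSys270 (g : G) (H : Finset G) : Prop :=
  (∀ h ∈ H, ∃ u₁ u₂ : G, u₁ ∈ U ∧ u₂ ∈ U ∧ h = u₁ * g * u₂) ∧
    (∀ h ∈ H, ∀ h' ∈ H, h ≠ h' → ¬ (h⁻¹ * h' ∈ U)) ∧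
    ∀ u : G, u ∈ U → ∃ h ∈ H, h⁻¹ * (u * g) ∈ U

/-- `ψ` is right invariant under `U`. -/
def RInv270 (ψ : G → ℂ) : Prop := ∀ u : G, u ∈ U → ∀ x : G, ψ (x * u) = ψ x

variable {U}

theorem rinv_congr270 {ψ : G → ℂ} (hψ : RInv270 U ψ) {y y' : G}
    (h : (y : G ⧸ U) = (y' : G ⧸ U)) : ψ y = ψ y' := by
  have hu : y⁻¹ * y' ∈ U := QuotientGroup.eq.1 h
  have := hψ _ hu y
  rw [mul_inv_cancel_left] at this
  exact this.symm

theorem rinv_out270 {ψ : G → ℂ} (hψ : RInv270 U ψ) (y : G) :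
    ψ ((y : G ⧸ U).out) = ψ y :=
  rinv_congr270 hψ (QuotientGroup.out_eq' _)

theorem rinv_translate270 {ψ : G → ℂ} (hψ : RInv270 U ψ) (x : G) :
    RInv270 U (fun y => ψ (x * y)) := by
  intro u hu y
  show ψ (x * (y * u)) = ψ (x * y)
  rw [← mul_assoc]
  exact hψ u hu _

/-- Left multiplication is well defined on the cosets. -/
theorem mk_mul_congr270 (a : G) {y y' : G} (h : (y : G ⧸ U) = (y' : G ⧸ U)) :
    ((a * y : G) : G ⧸ U) = ((a * y' : G) : G ⧸ U) := by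
  rw [QuotientGroup.eq] at h ⊢
  have : (a * y)⁻¹ * (a * y') = y⁻¹ * y' := by group
  rw [this]
  exact h

theorem mk_mul_cancel270 (a : G) {y y' : G}
    (h : ((a * y : G) : G ⧸ U) = ((a * y' : G) : G ⧸ U)) : (y : G ⧸ U) = (y' : G ⧸ U) := by
  have := mk_mul_congr270 (U := U) a⁻¹ h
  simpa using this

theorem mk_mul_right270 (y : G) {u : G} (hu : u ∈ U) :
    ((y * u : G) : G ⧸ U) = (y : G ⧸ U) := by
  rw [QuotientGroup.eq]
  have : (y * u)⁻¹ * y = u⁻¹ := by group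
  rw [this]
  exact U.inv_mem hu

/-! ## Systems of representatives -/

/-- Every element of `U g U` is equivalent to a representative. -/
theorem IsSys270.exists_rep {g : G} {H : Finset G} (hH : IsSys270 U g H) {z : G}
    (hz : ∃ a b : G, a ∈ U ∧ b ∈ U ∧ z = a * g * b) :
    ∃ h ∈ H, (h : G ⧸ U) = (z : G ⧸ U) := by
  obtain ⟨a, b, ha, hb, rfl⟩ := hz
  obtain ⟨h, hh, hu⟩ := hH.2.2 a ha
  refine ⟨h, hh, ?_⟩
  rw [mk_mul_right270 (a * g) hb]
  exact QuotientGroup.eq.2 hu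

theorem IsSys270.mul_mem_dbl {g : G} {H : Finset G} (hH : IsSys270 U g H) {a h : G}
    (ha : a ∈ U) (hh : h ∈ H) : ∃ a' b : G, a' ∈ U ∧ b ∈ U ∧ a * h = a' * g * b := by
  obtain ⟨u₁, u₂, h1, h2, rfl⟩ := hH.1 h hh
  exact ⟨a * u₁, u₂, U.mul_mem ha h1, h2, by group⟩

theorem IsSys270.injOn_mk {g : G} {H : Finset G} (hH : IsSys270 U g H) (a : G) :
    Set.InjOn (fun h : G => ((a * h : G) : G ⧸ U)) (H : Set G) := by
  intro h hh h' hh' e
  by_contra hne
  have e' : (h : G ⧸ U) = (h' : G ⧸ U) := mk_mul_cancel270 a e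
  exact hH.2.1 h hh h' hh' hne (QuotientGroup.eq.1 e')

theorem IsSys270.image_translate {g : G} {H : Finset G} (hH : IsSys270 U g H) {a : G}
    (ha : a ∈ U) :
    H.image (fun h : G => ((a * h : G) : G ⧸ U)) = H.image (fun h : G => (h : G ⧸ U)) := by
  ext q
  simp only [Finset.mem_image]
  constructor
  · rintro ⟨h, hh, rfl⟩
    obtain ⟨h₁, hh₁, e⟩ := hH.exists_rep (hH.mul_mem_dbl ha hh)
    exact ⟨h₁, hh₁, e⟩
  · rintro ⟨h, hh, rfl⟩
    obtain ⟨h₁, hh₁, e⟩ := hH.exists_rep (hH.mul_mem_dbl (U.inv_mem ha) hh)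
    refine ⟨h₁, hh₁, ?_⟩
    have := mk_mul_congr270 (U := U) a e
    rw [this]
    congr 1
    group

/-- **Fact 1**: the sum over a system of representatives of a right invariant function is
invariant under left translation by `U`. -/
theorem IsSys270.sum_translate {g : G} {H : Finset G} (hH : IsSys270 U g H) {f : G → ℂ}
    (hf : RInv270 U f) {a : G} (ha : a ∈ U) :
    ∑ h ∈ H, f (a * h) = ∑ h ∈ H, f h := by
  have e1 : ∑ h ∈ H, f (a * h)
      = ∑ q ∈ H.image (fun h : G => ((a * h : G) : G ⧸ U)), f q.out := by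
    rw [Finset.sum_image (hH.injOn_mk a)]
    exact Finset.sum_congr rfl fun h _ => (rinv_out270 hf _).symm
  have e2 : ∑ h ∈ H, f h = ∑ q ∈ H.image (fun h : G => (h : G ⧸ U)), f q.out := by
    have hinj : Set.InjOn (fun h : G => (h : G ⧸ U)) (H : Set G) := by
      have := hH.injOn_mk (1 : G)
      simpa using this
    rw [Finset.sum_image hinj]
    exact Finset.sum_congr rfl fun h _ => (rinv_out270 hf _).symm
  rw [e1, e2, hH.image_translate ha]

/-- The inner sum is right invariant. -/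
theorem IsSys270.rinv_sum {g : G} {H : Finset G} (hH : IsSys270 U g H) {f : G → ℂ}
    (hf : RInv270 U f) : RInv270 U (fun z => ∑ h ∈ H, f (z * h)) := by
  intro u hu z
  show ∑ h ∈ H, f (z * u * h) = ∑ h ∈ H, f (z * h)
  have := hH.sum_translate (rinv_translate270 hf z) hu
  simpa [mul_assoc] using this

/-- **Invariance of the double sum** under left translation by `U`. -/
theorem sum_sum_translate270 {g g' : G} {Hg Hg' : Finset G} (hg : IsSys270 U g Hg)
    (hg' : IsSys270 U g' Hg') {f : G → ℂ} (hf : RInv270 U f) {a : G} (ha : a ∈ U) :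
    ∑ h ∈ Hg, ∑ h' ∈ Hg', f (a * (h * h')) = ∑ h ∈ Hg, ∑ h' ∈ Hg', f (h * h') := by
  have := hg.sum_translate (hg'.rinv_sum hf) ha
  simpa [mul_assoc] using this

/-! ## The orbit relation on the cosets -/

variable (U)

/-- `q'` lies in the `U`-orbit of the coset `q`. -/
def Orb270 (q q' : G ⧸ U) : Prop := ∃ a : G, a ∈ U ∧ ((a * q.out : G) : G ⧸ U) = q'

variable {U}

theorem orb_mk270 {a y : G} (ha : a ∈ U) : Orb270 U (y : G ⧸ U) ((a * y : G) : G ⧸ U) :=
  ⟨a, ha, mk_mul_congr270 a (QuotientGroup.out_eq' _)⟩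

theorem orb_iff270 {y : G} {q' : G ⧸ U} :
    Orb270 U (y : G ⧸ U) q' ↔ ∃ a : G, a ∈ U ∧ ((a * y : G) : G ⧸ U) = q' := by
  constructor
  · rintro ⟨a, ha, rfl⟩
    exact ⟨a, ha, (mk_mul_congr270 a (QuotientGroup.out_eq' _)).symm⟩
  · rintro ⟨a, ha, rfl⟩
    exact orb_mk270 ha

theorem orb_refl270 (q : G ⧸ U) : Orb270 U q q :=
  ⟨1, U.one_mem, by rw [one_mul]; exact QuotientGroup.out_eq' q⟩

theorem orb_symm270 {q q' : G ⧸ U} (h : Orb270 U q q') : Orb270 U q' q := by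
  obtain ⟨a, ha, rfl⟩ := h
  refine ⟨a⁻¹, U.inv_mem ha, ?_⟩
  have e : (((a * q.out : G) : G ⧸ U).out : G ⧸ U) = ((a * q.out : G) : G ⧸ U) :=
    QuotientGroup.out_eq' _
  have := mk_mul_congr270 (U := U) a⁻¹ e
  rw [this, inv_mul_cancel_left]
  exact QuotientGroup.out_eq' q

theorem orb_trans270 {q q' q'' : G ⧸ U} (h : Orb270 U q q') (h' : Orb270 U q' q'') :
    Orb270 U q q'' := by
  obtain ⟨a, ha, rfl⟩ := h
  obtain ⟨b, hb, rfl⟩ := h'
  refine ⟨b * a, U.mul_mem hb ha, ?_⟩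
  have e : (((a * q.out : G) : G ⧸ U).out : G ⧸ U) = ((a * q.out : G) : G ⧸ U) :=
    QuotientGroup.out_eq' _
  have := mk_mul_congr270 (U := U) b e
  rw [this, mul_assoc]

/-! ## Averaging over the classes of an equivalence relation on a finite set -/

/-- Orbit averaging: if `N` is constant on the classes of an equivalence relation `R`, then the
`N`-weighted sum over `F` is the sum over the points `q₀` of `F` of the averages over the class of
`q₀`, weighted by `N q₀`. -/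
theorem sum_class_avg270 {α : Type} (F : Finset α) (R : α → α → Prop)
    (hrefl : ∀ q, R q q) (hsymm : ∀ q q', R q q' → R q' q)
    (htrans : ∀ q q' q'', R q q' → R q' q'' → R q q'') (N : α → ℂ)
    (hN : ∀ q q', R q q' → N q = N q') (f : α → ℂ) :
    ∑ q₀ ∈ F, (N q₀ / ((F.filter (R q₀)).card : ℂ)) * ∑ q ∈ F.filter (R q₀), f q
      = ∑ q ∈ F, N q * f q := by
  have hfilt : ∀ q₀ q, R q₀ q → F.filter (R q₀) = F.filter (R q) := by
    intro q₀ q h
    refine Finset.filter_congr fun z _ => ?_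
    exact ⟨fun hz => htrans _ _ _ (hsymm _ _ h) hz, fun hz => htrans _ _ _ h hz⟩
  calc ∑ q₀ ∈ F, (N q₀ / ((F.filter (R q₀)).card : ℂ)) * ∑ q ∈ F.filter (R q₀), f q
      = ∑ q₀ ∈ F, ∑ q ∈ F,
          if R q₀ q then (N q₀ / ((F.filter (R q₀)).card : ℂ)) * f q else 0 := by
        refine Finset.sum_congr rfl fun q₀ _ => ?_
        rw [Finset.mul_sum, Finset.sum_filter]
    _ = ∑ q ∈ F, ∑ q₀ ∈ F,
          if R q₀ q then (N q₀ / ((F.filter (R q₀)).card : ℂ)) * f q else 0 :=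
        Finset.sum_comm
    _ = ∑ q ∈ F, ∑ q₀ ∈ F,
          if R q q₀ then (N q / ((F.filter (R q)).card : ℂ)) * f q else 0 := by
        refine Finset.sum_congr rfl fun q _ => ?_
        refine Finset.sum_congr rfl fun q₀ _ => ?_
        by_cases h : R q₀ q
        · rw [if_pos h, if_pos (hsymm _ _ h), hN _ _ h, hfilt _ _ h]
        · have h' : ¬ R q q₀ := fun h' => h (hsymm _ _ h')
          rw [if_neg h, if_neg h']
    _ = ∑ q ∈ F, N q * f q := by
        refine Finset.sum_congr rfl fun q hq => ?_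
        rw [← Finset.sum_filter, Finset.sum_const, nsmul_eq_mul]
        have hpos : ((F.filter (R q)).card : ℂ) ≠ 0 := by
          have : 0 < (F.filter (R q)).card :=
            Finset.card_pos.2 ⟨q, Finset.mem_filter.2 ⟨hq, hrefl q⟩⟩
          exact_mod_cast this.ne'
        field_simp

/-! ## The cosets in `U g U g' U` and their multiplicities -/

variable (U)

/-- The cosets `h h' U`, `h ∈ Hg`, `h' ∈ Hg'`. -/
noncomputable def prodSet270 (Hg Hg' : Finset G) : Finset (G ⧸ U) :=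
  (Hg ×ˢ Hg').image (fun p : G × G => ((p.1 * p.2 : G) : G ⧸ U))

/-- The multiplicity of the coset `q` among the cosets `h h' U`. -/
noncomputable def cnt270 (Hg Hg' : Finset G) (q : G ⧸ U) : ℂ :=
  ∑ h ∈ Hg, ∑ h' ∈ Hg', if ((h * h' : G) : G ⧸ U) = q then 1 else 0

variable {U}

theorem mem_prodSet270 {Hg Hg' : Finset G} {q : G ⧸ U} :
    q ∈ prodSet270 U Hg Hg' ↔ ∃ h ∈ Hg, ∃ h' ∈ Hg', ((h * h' : G) : G ⧸ U) = q := by
  unfold prodSet270
  simp only [Finset.mem_image, Finset.mem_product, Prod.exists]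
  constructor
  · rintro ⟨h, h', ⟨hh, hh'⟩, e⟩
    exact ⟨h, hh, h', hh', e⟩
  · rintro ⟨h, hh, h', hh', e⟩
    exact ⟨h, h', ⟨hh, hh'⟩, e⟩

/-- The set of the cosets `h h' U` is stable under `U`. -/
theorem prodSet_stable270 {g g' : G} {Hg Hg' : Finset G} (hg : IsSys270 U g Hg)
    (hg' : IsSys270 U g' Hg') {q q' : G ⧸ U} (hq : q ∈ prodSet270 U Hg Hg')
    (h : Orb270 U q q') : q' ∈ prodSet270 U Hg Hg' := by
  obtain ⟨h₀, hh₀, h₀', hh₀', rfl⟩ := mem_prodSet270.1 hq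
  obtain ⟨a, ha, rfl⟩ := orb_iff270.1 h
  obtain ⟨h₁, hh₁, e₁⟩ := hg.exists_rep (hg.mul_mem_dbl ha hh₀)
  have ha' : h₁⁻¹ * (a * h₀) ∈ U := QuotientGroup.eq.1 e₁
  obtain ⟨h₁', hh₁', e₁'⟩ := hg'.exists_rep (hg'.mul_mem_dbl ha' hh₀')
  refine mem_prodSet270.2 ⟨h₁, hh₁, h₁', hh₁', ?_⟩
  have := mk_mul_congr270 (U := U) h₁ e₁'
  rw [this]
  congr 1
  group

/-- The multiplicity is constant on the `U`-orbits. -/
theorem cnt_orb270 {g g' : G} {Hg Hg' : Finset G} (hg : IsSys270 U g Hg)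
    (hg' : IsSys270 U g' Hg') {q q' : G ⧸ U} (h : Orb270 U q q') :
    cnt270 U Hg Hg' q = cnt270 U Hg Hg' q' := by
  obtain ⟨a, ha, e⟩ := h
  have hf : RInv270 U (fun y : G => if (y : G ⧸ U) = q' then (1 : ℂ) else 0) := by
    intro u hu y
    show (if ((y * u : G) : G ⧸ U) = q' then (1 : ℂ) else 0) = _
    rw [mk_mul_right270 y hu]
  have key := sum_sum_translate270 hg hg' hf ha
  unfold cnt270
  rw [← key]
  refine Finset.sum_congr rfl fun h₀ _ => Finset.sum_congr rfl fun h₀' _ => ?_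
  have hiff : ((h₀ * h₀' : G) : G ⧸ U) = q ↔ ((a * (h₀ * h₀') : G) : G ⧸ U) = q' := by
    constructor
    · intro e'
      rw [← e]
      exact mk_mul_congr270 a (e'.trans (QuotientGroup.out_eq' q).symm)
    · intro e'
      rw [← e] at e'
      exact (mk_mul_cancel270 a e').trans (QuotientGroup.out_eq' q)
  by_cases hq : ((h₀ * h₀' : G) : G ⧸ U) = q
  · rw [if_pos hq, if_pos (hiff.1 hq)]
  · rw [if_neg hq, if_neg (fun h' => hq (hiff.2 h'))]

/-- The double sum as a sum over the cosets with multiplicities. -/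
theorem sum_sum_eq_cnt270 {Hg Hg' : Finset G} {ψ : G → ℂ} (hψ : RInv270 U ψ) (x : G) :
    ∑ h ∈ Hg, ∑ h' ∈ Hg', ψ (x * h * h')
      = ∑ q ∈ prodSet270 U Hg Hg', cnt270 U Hg Hg' q * ψ (x * q.out) := by
  have hx : RInv270 U (fun y => ψ (x * y)) := rinv_translate270 hψ x
  have e1 : ∀ h ∈ Hg, ∀ h' ∈ Hg', ψ (x * h * h')
      = ∑ q ∈ prodSet270 U Hg Hg',
          (if ((h * h' : G) : G ⧸ U) = q then (1 : ℂ) else 0) * ψ (x * q.out) := by
    intro h hh h' hh'
    have hmem : ((h * h' : G) : G ⧸ U) ∈ prodSet270 U Hg Hg' :=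
      mem_prodSet270.2 ⟨h, hh, h', hh', rfl⟩
    have : ∀ q ∈ prodSet270 U Hg Hg',
        (if ((h * h' : G) : G ⧸ U) = q then (1 : ℂ) else 0) * ψ (x * q.out)
          = if ((h * h' : G) : G ⧸ U) = q then ψ (x * q.out) else 0 := by
      intro q _
      split_ifs <;> simp
    rw [Finset.sum_congr rfl this, Finset.sum_ite_eq, if_pos hmem, mul_assoc]
    exact (rinv_out270 hx (h * h')).symm
  calc ∑ h ∈ Hg, ∑ h' ∈ Hg', ψ (x * h * h')
      = ∑ h ∈ Hg, ∑ h' ∈ Hg', ∑ q ∈ prodSet270 U Hg Hg',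
          (if ((h * h' : G) : G ⧸ U) = q then (1 : ℂ) else 0) * ψ (x * q.out) :=
        Finset.sum_congr rfl fun h hh => Finset.sum_congr rfl fun h' hh' => e1 h hh h' hh'
    _ = ∑ h ∈ Hg, ∑ q ∈ prodSet270 U Hg Hg', ∑ h' ∈ Hg',
          (if ((h * h' : G) : G ⧸ U) = q then (1 : ℂ) else 0) * ψ (x * q.out) :=
        Finset.sum_congr rfl fun h _ => Finset.sum_comm
    _ = ∑ q ∈ prodSet270 U Hg Hg', ∑ h ∈ Hg, ∑ h' ∈ Hg',
          (if ((h * h' : G) : G ⧸ U) = q then (1 : ℂ) else 0) * ψ (x * q.out) :=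
        Finset.sum_comm
    _ = ∑ q ∈ prodSet270 U Hg Hg', cnt270 U Hg Hg' q * ψ (x * q.out) := by
        refine Finset.sum_congr rfl fun q _ => ?_
        unfold cnt270
        rw [Finset.sum_mul]
        exact Finset.sum_congr rfl fun h _ => (Finset.sum_mul _ _ _).symm

/-! ## The system of representatives of an orbit -/

/-- The representatives `q.out` of the cosets `q` of the orbit of `q₀` form a full system of
representatives of `U y U / U`, for every `y` with `y U` in the orbit. -/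
theorem isSys_orbit270 (F : Finset (G ⧸ U))
    (hF : ∀ q q', q ∈ F → Orb270 U q q' → q' ∈ F) {q₀ : G ⧸ U} (hq₀ : q₀ ∈ F) {y : G}
    (hy : Orb270 U q₀ (y : G ⧸ U)) :
    IsSys270 U y ((F.filter (Orb270 U q₀)).image Quotient.out) := by
  refine ⟨?_, ?_, ?_⟩
  · intro h hh
    obtain ⟨q, hq, rfl⟩ := Finset.mem_image.1 hh
    have hq' : Orb270 U q₀ q := (Finset.mem_filter.1 hq).2
    have hyq : Orb270 U (y : G ⧸ U) q := orb_trans270 (orb_symm270 hy) hq'
    obtain ⟨a, ha, e⟩ := orb_iff270.1 hyq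
    have e' : ((a * y : G) : G ⧸ U) = ((q.out : G) : G ⧸ U) :=
      e.trans (QuotientGroup.out_eq' q).symm
    refine ⟨a, (a * y)⁻¹ * q.out, ha, QuotientGroup.eq.1 e', ?_⟩
    group
  · intro h hh h' hh' hne hmem
    obtain ⟨q, -, rfl⟩ := Finset.mem_image.1 hh
    obtain ⟨q', -, rfl⟩ := Finset.mem_image.1 hh'
    have e : ((q.out : G) : G ⧸ U) = ((q'.out : G) : G ⧸ U) := QuotientGroup.eq.2 hmem
    rw [QuotientGroup.out_eq', QuotientGroup.out_eq'] at e
    exact hne (by rw [e])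
  · intro u hu
    have h1 : Orb270 U q₀ ((u * y : G) : G ⧸ U) := orb_trans270 hy (orb_mk270 hu)
    have h2 : ((u * y : G) : G ⧸ U) ∈ F := hF _ _ hq₀ h1
    refine ⟨(((u * y : G) : G ⧸ U)).out,
      Finset.mem_image.2 ⟨_, Finset.mem_filter.2 ⟨h2, h1⟩, rfl⟩, ?_⟩
    exact QuotientGroup.eq.1 (QuotientGroup.out_eq' _)

theorem sum_image_out270 (O : Finset (G ⧸ U)) (f : G → ℂ) :
    ∑ h ∈ O.image Quotient.out, f h = ∑ q ∈ O, f q.out :=
  Finset.sum_image fun _ _ _ _ e => Quotient.out_injective e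

/-! ## The product formula -/

/-- **The product formula.**  On the right `U`-invariant functions the product of the double
coset operators `[U g U]`, `[U g' U]` is a linear combination of double coset operators
`[U y U]` with `y` in the class `Pb`, provided every product `h h'` of representatives lies in
`U y U` for some `y` in `Pb`. -/
theorem mul_core270 {g g' : G} {Hg Hg' : Finset G} (hg : IsSys270 U g Hg)
    (hg' : IsSys270 U g' Hg') (Pb : G → Prop)
    (hbad : ∀ h ∈ Hg, ∀ h' ∈ Hg', ∃ y : G, Pb y ∧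
      ∃ u₁ u₂ : G, u₁ ∈ U ∧ u₂ ∈ U ∧ h * h' = u₁ * y * u₂) :
    ∃ (n : ℕ) (c : Fin n → ℂ) (y : Fin n → G) (H'' : Fin n → Finset G),
      (∀ i, Pb (y i) ∧ IsSys270 U (y i) (H'' i)) ∧
      ∀ ψ : G → ℂ, RInv270 U ψ → ∀ x : G,
        ∑ h ∈ Hg, ∑ h' ∈ Hg', ψ (x * h * h') = ∑ i, c i * ∑ h'' ∈ H'' i, ψ (x * h'') := by
  set F : Finset (G ⧸ U) := prodSet270 U Hg Hg' with hFdef
  have hF : ∀ q q', q ∈ F → Orb270 U q q' → q' ∈ F :=
    fun q q' hq h => prodSet_stable270 hg hg' hq h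
  -- a representative in `Pb` of the double coset of every point of `F`
  have hrep : ∀ q : F, ∃ y : G, Pb y ∧ Orb270 U (q : G ⧸ U) (y : G ⧸ U) := by
    rintro ⟨q, hq⟩
    obtain ⟨h, hh, h', hh', rfl⟩ := mem_prodSet270.1 hq
    obtain ⟨y, hy, u₁, u₂, h1, h2, e⟩ := hbad h hh h' hh'
    refine ⟨y, hy, ?_⟩
    show Orb270 U ((h * h' : G) : G ⧸ U) (y : G ⧸ U)
    refine orb_iff270.2 ⟨u₁⁻¹, U.inv_mem h1, ?_⟩
    rw [e]
    have : u₁⁻¹ * (u₁ * y * u₂) = y * u₂ := by group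
    rw [this]
    exact mk_mul_right270 y h2
  choose yF hyF using hrep
  let e : F ≃ Fin F.card := F.equivFin
  refine ⟨F.card,
    fun i => cnt270 U Hg Hg' (e.symm i : G ⧸ U)
      / ((F.filter (Orb270 U (e.symm i : G ⧸ U))).card : ℂ),
    fun i => yF (e.symm i),
    fun i => (F.filter (Orb270 U (e.symm i : G ⧸ U))).image Quotient.out, ?_, ?_⟩
  · intro i
    exact ⟨(hyF (e.symm i)).1, isSys_orbit270 F hF (e.symm i).2 (hyF (e.symm i)).2⟩
  · intro ψ hψ x
    rw [sum_sum_eq_cnt270 hψ x]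
    have h1 : ∀ i : Fin F.card,
        cnt270 U Hg Hg' (e.symm i : G ⧸ U)
            / ((F.filter (Orb270 U (e.symm i : G ⧸ U))).card : ℂ)
          * ∑ h'' ∈ (F.filter (Orb270 U (e.symm i : G ⧸ U))).image Quotient.out, ψ (x * h'')
        = (fun q : F => cnt270 U Hg Hg' (q : G ⧸ U)
            / ((F.filter (Orb270 U (q : G ⧸ U))).card : ℂ)
          * ∑ q' ∈ F.filter (Orb270 U (q : G ⧸ U)), ψ (x * q'.out)) (e.symm i) := by
      intro i
      show _ = cnt270 U Hg Hg' (e.symm i : G ⧸ U)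
            / ((F.filter (Orb270 U (e.symm i : G ⧸ U))).card : ℂ)
          * ∑ q' ∈ F.filter (Orb270 U (e.symm i : G ⧸ U)), ψ (x * q'.out)
      rw [sum_image_out270 _ (fun h => ψ (x * h))]
    rw [Finset.sum_congr rfl fun i _ => h1 i, Equiv.sum_comp e.symm
      (fun q : F => cnt270 U Hg Hg' (q : G ⧸ U)
            / ((F.filter (Orb270 U (q : G ⧸ U))).card : ℂ)
          * ∑ q' ∈ F.filter (Orb270 U (q : G ⧸ U)), ψ (x * q'.out)),
      Finset.sum_coe_sort F (fun q => cnt270 U Hg Hg' q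
            / ((F.filter (Orb270 U q)).card : ℂ)
          * ∑ q' ∈ F.filter (Orb270 U q), ψ (x * q'.out))]
    exact (sum_class_avg270 F (Orb270 U) orb_refl270 (fun _ _ => orb_symm270)
      (fun _ _ _ => orb_trans270) (cnt270 U Hg Hg') (fun _ _ h => cnt_orb270 hg hg' h)
      (fun q => ψ (x * q.out))).symm

end Core

end Fermat.Agent.LT.T7.H270

end
-- ===== PACK-END LT/T7/H270/MulCore.lean

-- ===== PACK-BEGIN LT/T7/H584/UnfoldAbs.lean
section


/-!
# Row LT, tower T7, geometric half of the comparison (helper584): the UNFOLDING lemma, abstract form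

OFF-MAIN.  Mathlib only.

`G` a measurable group with a left invariant `σ`-finite measure `μ`; `j : T →* G` a measurable
homomorphism from a measurable group with a right invariant `σ`-finite measure `μT`; `Γ ≤ T` a
countable subgroup; `F ⊆ G` a strict measurable fundamental domain for `Γ` acting on `G` on the
left (through `j`); `D ⊆ T` a strict measurable fundamental domain for `Γ` acting on `T` on the
right; `β ≥ 0` a CUT-OFF function: `∫_T β(j(t) x) dμT(t) = 1` for every `x`.  Then for every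
measurable `Φ` with `Φ(j(t) x) = Φ(x)`:

    ∫_F Φ dμ  =  μT(D) · ∫_G Φ β dμ.

(`∫_{Γ \ G} Φ = vol(Γ \ T) ∫_{T \ G} Φ`, without quotient measures: the right side is the
integral over `T \ G` in the normalisation of `T6.OrbSumIntC`.)

* `lintegral_unfold_cut584` : the statement for `Φ ≥ 0` (`ℝ≥0∞`-valued), no integrability.
* `integral_unfold_cut584`  : the statement for complex `Φ` with `Φ β` integrable, together with
  the integrability of `Φ` on `F`.
-/

set_option autoImplicit false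
set_option linter.style.haveILetI false

open MeasureTheory Set
open scoped ENNReal

noncomputable section

namespace Fermat.Agent.LT.T7.H584

section Abs

variable {G : Type*} [Group G] [MeasurableSpace G] [MeasurableMul₂ G]
  {T : Type*} [Group T] [MeasurableSpace T] [MeasurableMul₂ T]

/-- Unfolding over a strict fundamental domain for the RIGHT action of `Γ` on `T`. -/
theorem lintegral_unfold_right584 (μT : Measure T) [μT.IsMulRightInvariant] (Γ : Subgroup T)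
    [Countable Γ] (D : Set T) (hDm : MeasurableSet D) (hD : ∀ t : T, ∃! γ : Γ, t * (γ : T) ∈ D)
    (h : T → ℝ≥0∞) (hh : Measurable h) :
    ∫⁻ t, h t ∂μT = ∑' γ : Γ, ∫⁻ t in D, h (t * (γ : T)⁻¹) ∂μT := by
  have hcov : (⋃ γ : Γ, (fun t : T => t * (γ : T)) ⁻¹' D) = univ := by
    ext t
    simp only [mem_iUnion, mem_preimage, mem_univ, iff_true]
    obtain ⟨γ, hγ, -⟩ := hD t
    exact ⟨γ, hγ⟩
  have hdisj : Pairwise (Function.onFun Disjoint fun γ : Γ => (fun t : T => t * (γ : T)) ⁻¹' D) := by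
    intro γ γ' hne
    rw [Function.onFun, Set.disjoint_left]
    intro t ht ht'
    exact hne ((hD t).unique ht ht')
  have hmeas : ∀ γ : Γ, MeasurableSet ((fun t : T => t * (γ : T)) ⁻¹' D) := fun γ =>
    (measurable_mul_const (γ : T)) hDm
  calc ∫⁻ t, h t ∂μT = ∫⁻ t in ⋃ γ : Γ, (fun t : T => t * (γ : T)) ⁻¹' D, h t ∂μT := by
        rw [hcov, Measure.restrict_univ]
    _ = ∑' γ : Γ, ∫⁻ t in (fun t : T => t * (γ : T)) ⁻¹' D, h t ∂μT :=
        lintegral_iUnion hmeas hdisj h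
    _ = ∑' γ : Γ, ∫⁻ t in D, h (t * (γ : T)⁻¹) ∂μT := by
        congr 1
        ext γ
        have hmp : MeasurePreserving (fun t : T => t * (γ : T)⁻¹) μT μT :=
          measurePreserving_mul_right μT _
        have hpre : (fun t : T => t * (γ : T)⁻¹) ⁻¹' ((fun t : T => t * (γ : T)) ⁻¹' D) = D := by
          ext t
          simp [mul_assoc]
        have := hmp.setLIntegral_comp_preimage (hmeas γ) hh
        rw [hpre] at this
        exact this.symm

omit [MeasurableSpace T] [MeasurableMul₂ T] in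
/-- Unfolding over a strict fundamental domain for the LEFT action of `Γ` on `G`. -/
theorem lintegral_unfold_left584 (μ : Measure G) [μ.IsMulLeftInvariant] (j : T →* G)
    (Γ : Subgroup T) [Countable Γ] (F : Set G) (hFm : MeasurableSet F)
    (hF : ∀ x : G, ∃! γ : Γ, j (γ : T) * x ∈ F) (h : G → ℝ≥0∞) (hh : Measurable h) :
    ∫⁻ x, h x ∂μ = ∑' γ : Γ, ∫⁻ x in F, h ((j (γ : T))⁻¹ * x) ∂μ := by
  have hcov : (⋃ γ : Γ, (fun x : G => j (γ : T) * x) ⁻¹' F) = univ := by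
    ext x
    simp only [mem_iUnion, mem_preimage, mem_univ, iff_true]
    obtain ⟨γ, hγ, -⟩ := hF x
    exact ⟨γ, hγ⟩
  have hdisj : Pairwise (Function.onFun Disjoint fun γ : Γ => (fun x : G => j (γ : T) * x) ⁻¹' F) := by
    intro γ γ' hne
    rw [Function.onFun, Set.disjoint_left]
    intro x hx hx'
    exact hne ((hF x).unique hx hx')
  have hmeas : ∀ γ : Γ, MeasurableSet ((fun x : G => j (γ : T) * x) ⁻¹' F) := fun γ =>
    (measurable_const_mul (j (γ : T))) hFm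
  calc ∫⁻ x, h x ∂μ = ∫⁻ x in ⋃ γ : Γ, (fun x : G => j (γ : T) * x) ⁻¹' F, h x ∂μ := by
        rw [hcov, Measure.restrict_univ]
    _ = ∑' γ : Γ, ∫⁻ x in (fun x : G => j (γ : T) * x) ⁻¹' F, h x ∂μ :=
        lintegral_iUnion hmeas hdisj h
    _ = ∑' γ : Γ, ∫⁻ x in F, h ((j (γ : T))⁻¹ * x) ∂μ := by
        congr 1
        ext γ
        have hmp : MeasurePreserving (fun x : G => (j (γ : T))⁻¹ * x) μ μ :=
          measurePreserving_mul_left μ _
        have hpre : (fun x : G => (j (γ : T))⁻¹ * x) ⁻¹' ((fun x : G => j (γ : T) * x) ⁻¹' F)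
            = F := by
          ext x
          simp [← mul_assoc]
        have := hmp.setLIntegral_comp_preimage (hmeas γ) hh
        rw [hpre] at this
        exact this.symm

/-- **The unfolding lemma, non-negative form.** -/
theorem lintegral_unfold_cut584 (μ : Measure G) [μ.IsMulLeftInvariant] [SigmaFinite μ]
    (μT : Measure T) [μT.IsMulRightInvariant] [SigmaFinite μT]
    (j : T →* G) (hj : Measurable j) (Γ : Subgroup T) [Countable Γ]
    (F : Set G) (hFm : MeasurableSet F) (hF : ∀ x : G, ∃! γ : Γ, j (γ : T) * x ∈ F)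
    (D : Set T) (hDm : MeasurableSet D) (hD : ∀ t : T, ∃! γ : Γ, t * (γ : T) ∈ D)
    (Ψ : G → ℝ≥0∞) (hΨ : Measurable Ψ) (hΨT : ∀ (t : T) (x : G), Ψ (j t * x) = Ψ x)
    (β : G → ℝ≥0∞) (hβ : Measurable β) (hβ1 : ∀ x : G, ∫⁻ t, β (j t * x) ∂μT = 1) :
    ∫⁻ x in F, Ψ x ∂μ = μT D * ∫⁻ x, Ψ x * β x ∂μ := by
  set H : G → ℝ≥0∞ := fun x => Ψ x * β x with hHdef
  have hH : Measurable H := hΨ.mul hβ
  -- joint measurability
  have hjm : Measurable fun p : G × T => j p.2 * p.1 :=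
    (hj.comp measurable_snd).mul measurable_fst
  have hHm : ∀ c : G, Measurable fun p : G × T => H (j p.2 * (c * p.1)) := by
    intro c
    have : Measurable fun p : G × T => j p.2 * (c * p.1) :=
      (hj.comp measurable_snd).mul (measurable_const.mul measurable_fst)
    exact hH.comp this
  -- Step 1: `Ψ x = ∫ H (j t x) dt`
  have h1 : ∀ x : G, Ψ x = ∫⁻ t, H (j t * x) ∂μT := by
    intro x
    have hm : Measurable fun t : T => β (j t * x) :=
      hβ.comp (hj.mul measurable_const)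
    calc Ψ x = Ψ x * ∫⁻ t, β (j t * x) ∂μT := by rw [hβ1 x, mul_one]
      _ = ∫⁻ t, Ψ x * β (j t * x) ∂μT := (lintegral_const_mul _ hm).symm
      _ = ∫⁻ t, H (j t * x) ∂μT := by
          refine lintegral_congr fun t => ?_
          simp only [hHdef, hΨT]
  -- Step 2: unfold the inner integral over `T`
  have h2 : ∀ x : G, Ψ x = ∑' γ : Γ, ∫⁻ t in D, H (j t * ((j (γ : T))⁻¹ * x)) ∂μT := by
    intro x
    rw [h1 x]
    have hm : Measurable fun t : T => H (j t * x) := hH.comp (hj.mul measurable_const)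
    rw [lintegral_unfold_right584 μT Γ D hDm hD (fun t => H (j t * x)) hm]
    refine tsum_congr fun γ => ?_
    refine lintegral_congr fun t => ?_
    simp only [map_mul, map_inv, mul_assoc]
  -- measurability of the partial integrals
  have hmx : ∀ γ : Γ, Measurable fun x : G =>
      ∫⁻ t in D, H (j t * ((j (γ : T))⁻¹ * x)) ∂μT := by
    intro γ
    exact Measurable.lintegral_prod_right' (ν := μT.restrict D) (hHm ((j (γ : T))⁻¹))
  have hmt : ∀ γ : Γ, Measurable fun t : T =>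
      ∫⁻ x in F, H (j t * ((j (γ : T))⁻¹ * x)) ∂μ := by
    intro γ
    exact Measurable.lintegral_prod_left' (μ := μ.restrict F) (hHm ((j (γ : T))⁻¹))
  calc ∫⁻ x in F, Ψ x ∂μ
      = ∫⁻ x in F, ∑' γ : Γ, ∫⁻ t in D, H (j t * ((j (γ : T))⁻¹ * x)) ∂μT ∂μ := by
        refine lintegral_congr fun x => h2 x
    _ = ∑' γ : Γ, ∫⁻ x in F, ∫⁻ t in D, H (j t * ((j (γ : T))⁻¹ * x)) ∂μT ∂μ :=
        lintegral_tsum fun γ => (hmx γ).aemeasurable
    _ = ∑' γ : Γ, ∫⁻ t in D, ∫⁻ x in F, H (j t * ((j (γ : T))⁻¹ * x)) ∂μ ∂μT := by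
        refine tsum_congr fun γ => ?_
        exact lintegral_lintegral_swap (hHm ((j (γ : T))⁻¹)).aemeasurable
    _ = ∫⁻ t in D, ∑' γ : Γ, ∫⁻ x in F, H (j t * ((j (γ : T))⁻¹ * x)) ∂μ ∂μT :=
        (lintegral_tsum fun γ => (hmt γ).aemeasurable).symm
    _ = ∫⁻ t in D, ∫⁻ x, H x ∂μ ∂μT := by
        refine lintegral_congr fun t => ?_
        have hm : Measurable fun x : G => H (j t * x) := hH.comp (measurable_const.mul measurable_id)
        rw [← lintegral_unfold_left584 μ j Γ F hFm hF (fun x => H (j t * x)) hm]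
        exact lintegral_mul_left_eq_self H (j t)
    _ = μT D * ∫⁻ x, Ψ x * β x ∂μ := by
        rw [lintegral_const, Measure.restrict_apply MeasurableSet.univ, univ_inter, mul_comm]

/-- The unfolding lemma for real functions. -/
theorem integral_unfold_cut_real584 (μ : Measure G) [μ.IsMulLeftInvariant] [SigmaFinite μ]
    (μT : Measure T) [μT.IsMulRightInvariant] [SigmaFinite μT]
    (j : T →* G) (hj : Measurable j) (Γ : Subgroup T) [Countable Γ]
    (F : Set G) (hFm : MeasurableSet F) (hF : ∀ x : G, ∃! γ : Γ, j (γ : T) * x ∈ F)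
    (D : Set T) (hDm : MeasurableSet D) (hD : ∀ t : T, ∃! γ : Γ, t * (γ : T) ∈ D)
    (f : G → ℝ) (hf : Measurable f) (hfT : ∀ (t : T) (x : G), f (j t * x) = f x)
    (β : G → ℝ) (hβ : Measurable β) (hβ0 : ∀ x, 0 ≤ β x)
    (hβ1 : ∀ x : G, ∫⁻ t, ENNReal.ofReal (β (j t * x)) ∂μT = 1)
    (hint : Integrable (fun x => f x * β x) μ) (hfF : IntegrableOn f F μ) :
    ∫ x in F, f x ∂μ = (μT D).toReal * ∫ x, f x * β x ∂μ := by
  have hβm : Measurable fun x => ENNReal.ofReal (β x) := ENNReal.measurable_ofReal.comp hβ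
  have key : ∀ g : G → ℝ, Measurable g → (∀ (t : T) (x : G), g (j t * x) = g x) →
      ∫⁻ x in F, ENNReal.ofReal (g x) ∂μ = μT D * ∫⁻ x, ENNReal.ofReal (g x * β x) ∂μ := by
    intro g hg hgT
    rw [lintegral_unfold_cut584 μ μT j hj Γ F hFm hF D hDm hD (fun x => ENNReal.ofReal (g x))
      (ENNReal.measurable_ofReal.comp hg) (fun t x => by simp only [hgT])
      (fun x => ENNReal.ofReal (β x)) hβm hβ1]
    congr 1
    refine lintegral_congr fun x => ?_
    rw [ENNReal.ofReal_mul' (hβ0 x)]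
  rw [integral_eq_lintegral_pos_part_sub_lintegral_neg_part hfF,
    integral_eq_lintegral_pos_part_sub_lintegral_neg_part hint,
    key f hf hfT, key (fun x => -f x) hf.neg (fun t x => by simp only [hfT])]
  have e : ∀ x, -f x * β x = -(f x * β x) := fun x => by ring
  simp only [e, ENNReal.toReal_mul]
  ring

/-- **The unfolding lemma** (complex form): `∫_F Φ dμ = μT(D) · ∫_G Φ β dμ`, and `Φ` is integrable
on `F`. -/
theorem integral_unfold_cut584 (μ : Measure G) [μ.IsMulLeftInvariant] [SigmaFinite μ]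
    (μT : Measure T) [μT.IsMulRightInvariant] [SigmaFinite μT]
    (j : T →* G) (hj : Measurable j) (Γ : Subgroup T) [Countable Γ]
    (F : Set G) (hFm : MeasurableSet F) (hF : ∀ x : G, ∃! γ : Γ, j (γ : T) * x ∈ F)
    (D : Set T) (hDm : MeasurableSet D) (hD : ∀ t : T, ∃! γ : Γ, t * (γ : T) ∈ D)
    (hDfin : μT D ≠ ⊤)
    (Φ : G → ℂ) (hΦ : Measurable Φ) (hΦT : ∀ (t : T) (x : G), Φ (j t * x) = Φ x)
    (β : G → ℝ) (hβ : Measurable β) (hβ0 : ∀ x, 0 ≤ β x)
    (hβ1 : ∀ x : G, ∫⁻ t, ENNReal.ofReal (β (j t * x)) ∂μT = 1)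
    (hint : Integrable (fun x => Φ x * (β x : ℂ)) μ) :
    IntegrableOn Φ F μ ∧
      ∫ x in F, Φ x ∂μ = ((μT D).toReal : ℂ) * ∫ x, Φ x * (β x : ℂ) ∂μ := by
  have hβm : Measurable fun x => ENNReal.ofReal (β x) := ENNReal.measurable_ofReal.comp hβ
  -- integrability on `F`
  have hI : IntegrableOn Φ F μ := by
    refine ⟨hΦ.aestronglyMeasurable, ?_⟩
    rw [hasFiniteIntegral_iff_enorm]
    rw [lintegral_unfold_cut584 μ μT j hj Γ F hFm hF D hDm hD (fun x => ‖Φ x‖ₑ)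
      hΦ.enorm (fun t x => by simp only [hΦT])
      (fun x => ENNReal.ofReal (β x)) hβm hβ1]
    have h2 : ∫⁻ x, ‖Φ x‖ₑ * ENNReal.ofReal (β x) ∂μ = ∫⁻ x, ‖Φ x * (β x : ℂ)‖ₑ ∂μ := by
      refine lintegral_congr fun x => ?_
      have e1 : ‖(β x : ℂ)‖ₑ = ENNReal.ofReal (β x) := by
        rw [← ofReal_norm, Complex.norm_real, Real.norm_of_nonneg (hβ0 x)]
      rw [enorm_mul, e1]
    rw [h2]
    exact ENNReal.mul_lt_top hDfin.lt_top hint.hasFiniteIntegral
  refine ⟨hI, ?_⟩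
  -- real and imaginary parts
  have hre : Integrable (fun x => (Φ x).re * β x) μ := by
    have := hint.re
    refine this.congr (Filter.Eventually.of_forall fun x => ?_)
    simp
  have him : Integrable (fun x => (Φ x).im * β x) μ := by
    have := hint.im
    refine this.congr (Filter.Eventually.of_forall fun x => ?_)
    simp
  have hIre : IntegrableOn (fun x => (Φ x).re) F μ := hI.re
  have hIim : IntegrableOn (fun x => (Φ x).im) F μ := hI.im
  have eqre := integral_unfold_cut_real584 μ μT j hj Γ F hFm hF D hDm hD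
    (fun x => (Φ x).re) (Complex.measurable_re.comp hΦ) (fun t x => by simp only [hΦT])
    β hβ hβ0 hβ1 hre hIre
  have eqim := integral_unfold_cut_real584 μ μT j hj Γ F hFm hF D hDm hD
    (fun x => (Φ x).im) (Complex.measurable_im.comp hΦ) (fun t x => by simp only [hΦT])
    β hβ hβ0 hβ1 him hIim
  have r1 : (∫ x in F, Φ x ∂μ).re = ∫ x in F, (Φ x).re ∂μ :=
    (ContinuousLinearMap.integral_comp_comm Complex.reCLM hI).symm
  have i1 : (∫ x in F, Φ x ∂μ).im = ∫ x in F, (Φ x).im ∂μ :=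
    (ContinuousLinearMap.integral_comp_comm Complex.imCLM hI).symm
  have r2 : (∫ x, Φ x * (β x : ℂ) ∂μ).re = ∫ x, (Φ x).re * β x ∂μ := by
    refine (ContinuousLinearMap.integral_comp_comm Complex.reCLM hint).symm.trans ?_
    refine integral_congr_ae (Filter.Eventually.of_forall fun x => ?_)
    simp
  have i2 : (∫ x, Φ x * (β x : ℂ) ∂μ).im = ∫ x, (Φ x).im * β x ∂μ := by
    refine (ContinuousLinearMap.integral_comp_comm Complex.imCLM hint).symm.trans ?_
    refine integral_congr_ae (Filter.Eventually.of_forall fun x => ?_)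
    simp
  apply Complex.ext
  · rw [r1, eqre, Complex.re_ofReal_mul, r2]
  · rw [i1, eqim, Complex.im_ofReal_mul, i2]

/-- **The unfolding lemma, converse integrability**: if `Φ` is integrable on `F` and
`0 < μT(D) < ∞`, then `Φ β` is integrable and `∫_F Φ dμ = μT(D) · ∫_G Φ β dμ`.
(The hypothesis is what `T5.GeomUnfold` delivers.) -/
theorem integral_unfold_cut_of_integrableOn584 (μ : Measure G) [μ.IsMulLeftInvariant]
    [SigmaFinite μ] (μT : Measure T) [μT.IsMulRightInvariant] [SigmaFinite μT]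
    (j : T →* G) (hj : Measurable j) (Γ : Subgroup T) [Countable Γ]
    (F : Set G) (hFm : MeasurableSet F) (hF : ∀ x : G, ∃! γ : Γ, j (γ : T) * x ∈ F)
    (D : Set T) (hDm : MeasurableSet D) (hD : ∀ t : T, ∃! γ : Γ, t * (γ : T) ∈ D)
    (hDfin : μT D ≠ ⊤) (hDpos : μT D ≠ 0)
    (Φ : G → ℂ) (hΦ : Measurable Φ) (hΦT : ∀ (t : T) (x : G), Φ (j t * x) = Φ x)
    (β : G → ℝ) (hβ : Measurable β) (hβ0 : ∀ x, 0 ≤ β x)
    (hβ1 : ∀ x : G, ∫⁻ t, ENNReal.ofReal (β (j t * x)) ∂μT = 1)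
    (hIF : IntegrableOn Φ F μ) :
    Integrable (fun x => Φ x * (β x : ℂ)) μ ∧
      ∫ x in F, Φ x ∂μ = ((μT D).toReal : ℂ) * ∫ x, Φ x * (β x : ℂ) ∂μ := by
  have hβm : Measurable fun x => ENNReal.ofReal (β x) := ENNReal.measurable_ofReal.comp hβ
  have hint : Integrable (fun x => Φ x * (β x : ℂ)) μ := by
    refine ⟨(hΦ.mul (Complex.measurable_ofReal.comp hβ)).aestronglyMeasurable, ?_⟩
    rw [hasFiniteIntegral_iff_enorm]
    have h1 := lintegral_unfold_cut584 μ μT j hj Γ F hFm hF D hDm hD (fun x => ‖Φ x‖ₑ)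
      hΦ.enorm (fun t x => by simp only [hΦT])
      (fun x => ENNReal.ofReal (β x)) hβm hβ1
    have h2 : ∫⁻ x, ‖Φ x‖ₑ * ENNReal.ofReal (β x) ∂μ = ∫⁻ x, ‖Φ x * (β x : ℂ)‖ₑ ∂μ := by
      refine lintegral_congr fun x => ?_
      have e1 : ‖(β x : ℂ)‖ₑ = ENNReal.ofReal (β x) := by
        rw [← ofReal_norm, Complex.norm_real, Real.norm_of_nonneg (hβ0 x)]
      rw [enorm_mul, e1]
    rw [h2] at h1
    have h3 : ∫⁻ x in F, ‖Φ x‖ₑ ∂μ < ⊤ := hIF.hasFiniteIntegral
    rw [h1] at h3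
    by_contra hcon
    rw [not_lt, top_le_iff] at hcon
    rw [hcon, ENNReal.mul_top hDpos] at h3
    exact lt_irrefl _ h3
  exact ⟨hint, (integral_unfold_cut584 μ μT j hj Γ F hFm hF D hDm hD hDfin Φ hΦ hΦT β hβ hβ0
    hβ1 hint).2⟩

end Abs

end Fermat.Agent.LT.T7.H584

end

end
-- ===== PACK-END LT/T7/H584/UnfoldAbs.lean

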