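import Mathlib
import Fermat.Agent.Pack.LT3.E0L0
import Fermat.Agent.Pack.LT3.E1L1

set_option linter.all false

-- ===== PACK-BEGIN LT/CFT/H131/QsymMul.lean
section



/-
LT tower CFT, leaf CFT.16.E1.C.2 `QsymMulC` (registry id 1945) -- helper131, OFF-MAIN.

Spec: helper476@a36ad8b7e `Fermat/Agent/LT/CFT/H476/EQSpec.lean` (sha256 9f9ec67ebaf2cee9...),
Mathlib only.

Result: `qsymMulC_h131 : Fermat.Agent.LT.CFT.EQ.QsymMulC`.

Outline: for `d` outside `v` the Legendre symbol `qsym d v` is the quadratic character of the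
finite residue field `O_K / v` at the class of `d` (`quadraticChar_one_iff_isSquare`,
`quadraticChar_neg_one_iff_not_isSquare`), which is multiplicative.
-/

set_option autoImplicit false
set_option linter.style.haveILetI false

open IsDedekindDomain NumberField

noncomputable section

namespace Fermat.Agent.LT.CFT.H131

open Fermat.Agent.LT.CFT.EQ

variable {K : Type} [Field K] [NumberField K]

omit [NumberField K] in
/-- `d` is a square modulo `v` iff its class in the residue field is a square. -/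
theorem isSqMod_iff_isSquare_h131 (v : HeightOneSpectrum (𝓞 K)) (d : 𝓞 K) :
    IsSqMod v d ↔ IsSquare (Ideal.Quotient.mk v.asIdeal d) := by
  constructor
  · rintro ⟨x, hx⟩
    refine ⟨Ideal.Quotient.mk v.asIdeal x, ?_⟩
    have h := Ideal.Quotient.eq_zero_iff_mem.2 hx
    rw [map_sub, map_pow, sub_eq_zero] at h
    rw [← h, sq]
  · rintro ⟨z, hz⟩
    obtain ⟨x, rfl⟩ := Ideal.Quotient.mk_surjective z
    refine ⟨x, ?_⟩
    rw [← Ideal.Quotient.eq_zero_iff_mem, map_sub, map_pow, hz, sq, sub_self]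

/-- The Legendre symbol as the quadratic character of the residue field. -/
theorem qsym_eq_quadraticChar_h131 (v : HeightOneSpectrum (𝓞 K)) (d : 𝓞 K)
    (hd : d ∉ v.asIdeal) :
    letI : Field (𝓞 K ⧸ v.asIdeal) := Ideal.Quotient.field v.asIdeal
    haveI : Finite (𝓞 K ⧸ v.asIdeal) := Ideal.finiteQuotientOfFreeOfNeBot v.asIdeal v.ne_bot
    letI : Fintype (𝓞 K ⧸ v.asIdeal) := Fintype.ofFinite _
    letI : DecidableEq (𝓞 K ⧸ v.asIdeal) := Classical.decEq _
    ((qsym d v : ℤˣ) : ℤ) = quadraticChar (𝓞 K ⧸ v.asIdeal) (Ideal.Quotient.mk v.asIdeal d) := by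
  classical
  letI : Field (𝓞 K ⧸ v.asIdeal) := Ideal.Quotient.field v.asIdeal
  haveI : Finite (𝓞 K ⧸ v.asIdeal) := Ideal.finiteQuotientOfFreeOfNeBot v.asIdeal v.ne_bot
  letI : Fintype (𝓞 K ⧸ v.asIdeal) := Fintype.ofFinite _
  have hne : Ideal.Quotient.mk v.asIdeal d ≠ 0 := by
    rw [Ne, Ideal.Quotient.eq_zero_iff_mem]
    exact hd
  unfold qsym
  by_cases h : IsSqMod v d
  · rw [if_pos h]
    have h2 := (quadraticChar_one_iff_isSquare hne).2 ((isSqMod_iff_isSquare_h131 v d).1 h)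
    simp only [Units.val_one]
    convert h2.symm
  · rw [if_neg h]
    have h2 := (quadraticChar_neg_one_iff_not_isSquare (a := Ideal.Quotient.mk v.asIdeal d)).2
      (fun hs => h ((isSqMod_iff_isSquare_h131 v d).2 hs))
    simp only [Units.val_neg, Units.val_one]
    convert h2.symm

/-- **E1.C.2** multiplicativity of the Legendre symbol. -/
theorem qsymMulC_h131 : QsymMulC := by
  intro K _ _ u u' v hu hu'
  classical
  letI : Field (𝓞 K ⧸ v.asIdeal) := Ideal.Quotient.field v.asIdeal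
  haveI : Finite (𝓞 K ⧸ v.asIdeal) := Ideal.finiteQuotientOfFreeOfNeBot v.asIdeal v.ne_bot
  letI : Fintype (𝓞 K ⧸ v.asIdeal) := Fintype.ofFinite _
  have huu : u * u' ∉ v.asIdeal := by
    intro h
    rcases v.isPrime.mem_or_mem h with h | h
    · exact hu h
    · exact hu' h
  apply Units.ext
  rw [Units.val_mul]
  have h1 := qsym_eq_quadraticChar_h131 v u hu
  have h2 := qsym_eq_quadraticChar_h131 v u' hu'
  have h3 := qsym_eq_quadraticChar_h131 v (u * u') huu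
  rw [map_mul, map_mul] at h3
  rw [h3]
  have e1 : ((qsym u v : ℤˣ) : ℤ) = quadraticChar (𝓞 K ⧸ v.asIdeal) (Ideal.Quotient.mk v.asIdeal u) := by
    convert h1
  have e2 : ((qsym u' v : ℤˣ) : ℤ) = quadraticChar (𝓞 K ⧸ v.asIdeal) (Ideal.Quotient.mk v.asIdeal u') := by
    convert h2
  rw [e1, e2]

end Fermat.Agent.LT.CFT.H131

end
end
-- ===== PACK-END LT/CFT/H131/QsymMul.lean

-- ===== PACK-BEGIN LT/CFT/H137/SqGlobal.lean
section


/-!
# Row LT, tower CFT, sub-tower EX, leaf E1 (EXIST-QUAD), COUNT assets (helper137, OFF-MAIN)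

GLOBAL COUNT of the square roots of `1` modulo `𝔪 = ∏_{v ∈ T} v ^ (k v)`:

* `card_sq_eq_one_prod_le137` : `#{x ∈ 𝓞 K ⧸ 𝔪 | x ^ 2 = 1} ≤ ∏_{v ∈ T} 2 * N(v) ^ (c v)` if
  `2 ∉ v ^ (c v + 1)` for `v ∈ T`.
* `card_sq_eq_one_le_two_pow137` : `#{x ∈ 𝓞 K ⧸ 𝔪 | x ^ 2 = 1} ≤ 2 ^ #T * 2 ^ [K : ℚ]`.
* `index_sq_units_le137` : `[(𝓞 K ⧸ 𝔪)ˣ : squares] ≤ 2 ^ #T * 2 ^ [K : ℚ]`.
* `index_sq_eq_card_ker137` : for a finite commutative group `[G : G²] = #G[2]`.
-/

set_option autoImplicit false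

open IsDedekindDomain NumberField

namespace Fermat.Agent.LT.CFT.H137

section Abstract

/-- Square roots of one in a product ring. -/
theorem card_sq_prod137 (A B : Type*) [CommRing A] [CommRing B] :
    Nat.card {x : A × B // x ^ 2 = 1} =
      Nat.card {x : A // x ^ 2 = 1} * Nat.card {x : B // x ^ 2 = 1} := by
  rw [← Nat.card_prod]
  refine Nat.card_congr
    { toFun := fun x => (⟨x.1.1, congrArg Prod.fst x.2⟩, ⟨x.1.2, congrArg Prod.snd x.2⟩)
      invFun := fun y => ⟨(y.1.1, y.2.1), Prod.ext y.1.2 y.2.2⟩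
      left_inv := fun x => rfl
      right_inv := fun y => rfl }

/-- Square roots of one are transported by ring isomorphisms. -/
theorem card_sq_congr137 {A B : Type*} [CommRing A] [CommRing B] (e : A ≃+* B) :
    Nat.card {x : A // x ^ 2 = 1} = Nat.card {x : B // x ^ 2 = 1} := by
  refine Nat.card_congr (e.toEquiv.subtypeEquiv fun a => ?_)
  constructor
  · intro h
    show e a ^ 2 = 1
    rw [← map_pow, h, map_one]
  · intro h
    have h' : e (a ^ 2) = e 1 := by rw [map_pow, map_one]; exact h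
    exact e.injective h'

/-- For a finite commutative group the index of the squares is the number of elements of order
dividing `2`. -/
theorem index_sq_eq_card_ker137 (G : Type*) [CommGroup G] [Finite G] :
    (powMonoidHom 2 : G →* G).range.index = Nat.card (powMonoidHom 2 : G →* G).ker := by
  set f : G →* G := powMonoidHom 2
  have h1 : f.ker.index = Nat.card f.range := Subgroup.index_ker f
  have h2 := Subgroup.card_mul_index f.ker
  have h3 := Subgroup.card_mul_index f.range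
  have hpos : 0 < Nat.card f.range := Nat.card_pos
  rw [h1] at h2
  have : Nat.card f.range * f.range.index = Nat.card f.range * Nat.card f.ker := by
    rw [h3, mul_comm, h2]
  exact Nat.eq_of_mul_eq_mul_left hpos this

end Abstract

variable (K : Type*) [Field K] [NumberField K]

/-- Distinct primes have coprime powers. -/
theorem isCoprime_pow_of_ne137 {v w : HeightOneSpectrum (𝓞 K)} (h : v ≠ w) (m n : ℕ) :
    IsCoprime (v.asIdeal ^ m) (w.asIdeal ^ n) := by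
  apply IsCoprime.pow
  rw [Ideal.isCoprime_iff_sup_eq]
  apply Ideal.IsMaximal.coprime_of_ne v.isMaximal w.isMaximal
  intro hvw
  exact h (HeightOneSpectrum.ext hvw)

/-- **GLOBAL COUNT, product form.** -/
theorem card_sq_eq_one_prod_le137 (T : Finset (HeightOneSpectrum (𝓞 K)))
    (k c : HeightOneSpectrum (𝓞 K) → ℕ)
    (h2 : ∀ v ∈ T, (2 : 𝓞 K) ∉ v.asIdeal ^ (c v + 1)) :
    Nat.card {x : 𝓞 K ⧸ ∏ v ∈ T, v.asIdeal ^ k v // x ^ 2 = 1} ≤
      ∏ v ∈ T, 2 * Ideal.absNorm v.asIdeal ^ c v := by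
  classical
  induction T using Finset.induction_on with
  | empty =>
    rw [Finset.prod_empty, Finset.prod_empty]
    have hsub : Subsingleton (𝓞 K ⧸ (1 : Ideal (𝓞 K))) := by
      rw [Ideal.one_eq_top]
      exact Ideal.Quotient.subsingleton_iff.2 rfl
    have : Subsingleton {x : 𝓞 K ⧸ (1 : Ideal (𝓞 K)) // x ^ 2 = 1} :=
      ⟨fun a b => Subtype.ext (Subsingleton.elim _ _)⟩
    exact Finite.card_le_one_iff_subsingleton.2 this
  | insert v T hv ih =>
    have hcop : IsCoprime (v.asIdeal ^ k v) (∏ w ∈ T, w.asIdeal ^ k w) := by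
      refine IsCoprime.prod_right fun w hw => ?_
      exact isCoprime_pow_of_ne137 K (by rintro rfl; exact hv hw) _ _
    have e1 : (𝓞 K ⧸ ∏ w ∈ insert v T, w.asIdeal ^ k w) ≃+*
        (𝓞 K ⧸ v.asIdeal ^ k v) × (𝓞 K ⧸ ∏ w ∈ T, w.asIdeal ^ k w) :=
      (Ideal.quotEquivOfEq (Finset.prod_insert hv)).trans
        (Ideal.quotientMulEquivQuotientProd _ _ hcop)
    rw [card_sq_congr137 e1, card_sq_prod137, Finset.prod_insert hv]
    exact Nat.mul_le_mul
      (card_sq_eq_one_le137 K v (c v) (k v) (h2 v (Finset.mem_insert_self _ _)))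
      (ih fun w hw => h2 w (Finset.mem_insert_of_mem hw))

/-- For every prime `v` some power of `v` does not contain `2`. -/
theorem exists_two_notMem_pow137 (v : HeightOneSpectrum (𝓞 K)) :
    ∃ n : ℕ, (2 : 𝓞 K) ∉ v.asIdeal ^ (n + 1) := by
  by_contra hcon
  have hall : ∀ n : ℕ, (2 : 𝓞 K) ∈ v.asIdeal ^ (n + 1) := by
    intro n
    by_contra h
    exact hcon ⟨n, h⟩
  have h20 : (2 : 𝓞 K) ≠ 0 := two_ne_zero
  have hv0 : v.intValuation (2 : 𝓞 K) ≠ 0 := v.intValuation_ne_zero _ h20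
  -- the valuation of `2` is `exp (log ..)`, a contradiction for large `n`
  set a : ℤ := WithZero.log (v.intValuation (2 : 𝓞 K)) with ha
  have ea : v.intValuation (2 : 𝓞 K) = WithZero.exp a := (WithZero.exp_log hv0).symm
  have hle : ∀ n : ℕ, a ≤ -((n + 1 : ℕ) : ℤ) := by
    intro n
    have h := (v.intValuation_le_pow_iff_mem (2 : 𝓞 K) (n + 1)).2 (hall n)
    rw [ea] at h
    exact WithZero.exp_le_exp.1 h
  have h := hle ((-a).toNat)
  push_cast at h
  omega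

open Classical in
/-- The exponent of `v` in `(2)`. -/
noncomputable def ordTwo137 (v : HeightOneSpectrum (𝓞 K)) : ℕ :=
  Nat.find (exists_two_notMem_pow137 K v)

theorem two_notMem_pow_ordTwo137 (v : HeightOneSpectrum (𝓞 K)) :
    (2 : 𝓞 K) ∉ v.asIdeal ^ (ordTwo137 K v + 1) := by
  classical
  exact Nat.find_spec (exists_two_notMem_pow137 K v)

theorem two_mem_pow_ordTwo137 (v : HeightOneSpectrum (𝓞 K)) :
    (2 : 𝓞 K) ∈ v.asIdeal ^ ordTwo137 K v := by
  classical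
  rcases Nat.eq_zero_or_pos (ordTwo137 K v) with h | h
  · rw [h, pow_zero, Ideal.one_eq_top]
    exact Submodule.mem_top
  · have hlt : ordTwo137 K v - 1 < ordTwo137 K v := Nat.sub_lt h Nat.one_pos
    have := Nat.find_min (exists_two_notMem_pow137 K v) hlt
    rw [not_not, Nat.sub_add_cancel h] at this
    exact this

/-- `∏_{v ∈ T} N(v) ^ ord_v(2)` divides `2 ^ [K : ℚ]`. -/
theorem prod_absNorm_ordTwo_dvd137 (T : Finset (HeightOneSpectrum (𝓞 K))) :
    (∏ v ∈ T, Ideal.absNorm v.asIdeal ^ ordTwo137 K v) ∣ 2 ^ Module.finrank ℚ K := by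
  classical
  have hdvd : (∏ v ∈ T, v.asIdeal ^ ordTwo137 K v) ∣ Ideal.span {(2 : 𝓞 K)} := by
    refine Finset.prod_dvd_of_coprime ?_ ?_
    · intro v _ w _ hvw
      exact isCoprime_pow_of_ne137 K hvw _ _
    · intro v _
      rw [Ideal.dvd_iff_le, Ideal.span_singleton_le_iff_mem]
      exact two_mem_pow_ordTwo137 K v
  have h1 : Ideal.absNorm (∏ v ∈ T, v.asIdeal ^ ordTwo137 K v) ∣
      Ideal.absNorm (Ideal.span {(2 : 𝓞 K)}) :=
    Ideal.absNorm_dvd_absNorm_of_le (Ideal.le_of_dvd hdvd)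
  have h2 : Ideal.absNorm (Ideal.span {(2 : 𝓞 K)}) = 2 ^ Module.finrank ℚ K := by
    have := Ideal.absNorm_span_natCast (S := 𝓞 K) 2
    rw [RingOfIntegers.rank] at this
    exact_mod_cast this
  rw [h2, map_prod] at h1
  simpa [map_pow] using h1

/-- **GLOBAL COUNT.**  `#{x ∈ 𝓞 K ⧸ ∏_{v ∈ T} v ^ (k v) | x ^ 2 = 1} ≤ 2 ^ #T * 2 ^ [K : ℚ]`. -/
theorem card_sq_eq_one_le_two_pow137 (T : Finset (HeightOneSpectrum (𝓞 K)))
    (k : HeightOneSpectrum (𝓞 K) → ℕ) :
    Nat.card {x : 𝓞 K ⧸ ∏ v ∈ T, v.asIdeal ^ k v // x ^ 2 = 1} ≤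
      2 ^ T.card * 2 ^ Module.finrank ℚ K := by
  classical
  refine le_trans (card_sq_eq_one_prod_le137 K T k (ordTwo137 K)
    fun v _ => two_notMem_pow_ordTwo137 K v) ?_
  rw [Finset.prod_mul_distrib, Finset.prod_const]
  exact Nat.mul_le_mul_left _ (Nat.le_of_dvd (by positivity) (prod_absNorm_ordTwo_dvd137 K T))

/-- **GLOBAL COUNT, unit form.**  The index of the squares in `(𝓞 K ⧸ 𝔪)ˣ`. -/
theorem index_sq_units_le137 (T : Finset (HeightOneSpectrum (𝓞 K)))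
    (k : HeightOneSpectrum (𝓞 K) → ℕ) :
    (powMonoidHom 2 : (𝓞 K ⧸ ∏ v ∈ T, v.asIdeal ^ k v)ˣ →*
        (𝓞 K ⧸ ∏ v ∈ T, v.asIdeal ^ k v)ˣ).range.index ≤
      2 ^ T.card * 2 ^ Module.finrank ℚ K := by
  classical
  have hne : (∏ v ∈ T, v.asIdeal ^ k v) ≠ ⊥ := by
    rw [Ne, ← Ideal.zero_eq_bot, Finset.prod_eq_zero_iff]
    rintro ⟨v, -, hv⟩
    exact pow_ne_zero _ v.ne_bot hv
  have hfin : Finite (𝓞 K ⧸ ∏ v ∈ T, v.asIdeal ^ k v) :=
    Ideal.finiteQuotientOfFreeOfNeBot _ hne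
  rw [index_sq_eq_card_ker137]
  refine le_trans ?_ (card_sq_eq_one_le_two_pow137 K T k)
  refine Nat.card_le_card_of_injective
    (fun u => (⟨(u.1 : (𝓞 K ⧸ ∏ v ∈ T, v.asIdeal ^ k v)ˣ), ?_⟩ :
      {x : 𝓞 K ⧸ ∏ v ∈ T, v.asIdeal ^ k v // x ^ 2 = 1})) ?_
  · have h := u.2
    rw [MonoidHom.mem_ker, powMonoidHom_apply] at h
    have h' := congrArg Units.val h
    simpa using h'
  · intro u w huw
    have h := congrArg Subtype.val huw
    exact Subtype.ext (Units.ext h)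

end Fermat.Agent.LT.CFT.H137

end
-- ===== PACK-END LT/CFT/H137/SqGlobal.lean

-- ===== PACK-BEGIN LT/CFT/H758/GenClExists.lean
section



/-!
# Row LT, tower CFT, sub-tower EX, row E1.C (owner helper476): leaves E1.C.3 and E1.C.4

OFF-MAIN (helper758).  MATHLIB ONLY (+ the frozen `H476/EQSpec.lean`, byte-identical copy).

* `genClExistsC758 : EQ.GenClExistsC` (E1.C.3, registry 1946): finiteness of the class group.
* `fsLeC758 : EQ.FsLeC` (E1.C.4, spare): an ideal all of whose prime divisors lie in `S` contains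
  `fS S k` for some `k`.

Proof of E1.C.3.  Choose an integral representative `J_c` of every ideal class `c`, put
`𝔍 = ∏_c J_c`, `T = T₀ ∪ {prime factors of N(𝔍)}`, `S` = the primes of `K` above `T`.  Every prime
dividing `𝔍` contains `N(𝔍)`, hence a prime factor of `N(𝔍)`: it lies in `S`.  So
`fS S m ≤ 𝔍 ≤ J_c` for `m` = the number of prime factors of `𝔍`, and for `I ≠ 0` the ideal
`I * J_c`, `c = [I]⁻¹`, is principal.
-/

set_option autoImplicit false

open IsDedekindDomain NumberField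

noncomputable section

namespace Fermat.Agent.LT.CFT.H758

open Fermat.Agent.LT.CFT.EQ

variable {K : Type} [Field K] [NumberField K]

/-- The primes containing a nonzero element form a finite set. -/
theorem finite_mem_primes758 (x : 𝓞 K) (hx : x ≠ 0) :
    {v : HeightOneSpectrum (𝓞 K) | x ∈ v.asIdeal}.Finite := by
  have h0 : Ideal.span {x} ≠ (0 : Ideal (𝓞 K)) := by
    rw [Ne, Ideal.zero_eq_bot, Ideal.span_singleton_eq_bot]
    exact hx
  refine (Ideal.finite_factors h0).subset ?_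
  intro v hv
  simp only [Set.mem_ofPred_eq] at hv ⊢
  rw [Ideal.dvd_iff_le, Ideal.span_singleton_le_iff_mem]
  exact hv

/-- The primes above a finite set of rational primes form a finite set. -/
theorem finite_aboveT758 (T : Finset ℕ) (hT : ∀ q ∈ T, q.Prime) :
    {P : HeightOneSpectrum (𝓞 K) | AboveT T P}.Finite := by
  have h : {P : HeightOneSpectrum (𝓞 K) | AboveT T P}
      = ⋃ q ∈ (T : Set ℕ), {P : HeightOneSpectrum (𝓞 K) | ((q : ℕ) : 𝓞 K) ∈ P.asIdeal} := by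
    ext P
    simp only [AboveT, Set.mem_ofPred_eq, Set.mem_iUnion, Finset.mem_coe, exists_prop]
  rw [h]
  refine Set.Finite.biUnion T.finite_toSet ?_
  intro q hq
  refine finite_mem_primes758 _ ?_
  have hq0 : q ≠ 0 := (hT q hq).ne_zero
  exact_mod_cast hq0

omit [NumberField K] in
/-- A product of primes of `S` divides `fS S k`, `k` = the number of factors. -/
theorem multiset_prod_dvd_fS758 (S : Finset (HeightOneSpectrum (𝓞 K)))
    (M : Multiset (Ideal (𝓞 K)))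
    (hM : ∀ P ∈ M, ∃ v ∈ S, (v : HeightOneSpectrum (𝓞 K)).asIdeal = P) :
    M.prod ∣ fS S (Multiset.card M) := by
  classical
  induction M using Multiset.induction_on with
  | empty =>
    rw [Multiset.prod_zero]
    exact one_dvd _
  | cons P M ih =>
    have ih' := ih fun Q hQ => hM Q (Multiset.mem_cons_of_mem hQ)
    obtain ⟨v, hv, rfl⟩ := hM P (Multiset.mem_cons_self _ _)
    have h1 : v.asIdeal ∣ ∏ w ∈ S, w.asIdeal :=
      ⟨∏ w ∈ S.erase v, w.asIdeal, (Finset.mul_prod_erase S (fun w => w.asIdeal) hv).symm⟩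
    have h2 : fS S (Multiset.card (v.asIdeal ::ₘ M))
        = (∏ w ∈ S, w.asIdeal) * fS S (Multiset.card M) := by
      unfold fS
      rw [Multiset.card_cons, ← Finset.prod_mul_distrib]
      refine Finset.prod_congr rfl fun w _ => ?_
      rw [pow_succ, mul_comm]
    rw [Multiset.prod_cons, h2]
    exact mul_dvd_mul h1 ih'

/-- An ideal all of whose prime divisors lie in `S` contains `fS S k` for some `k`. -/
theorem exists_fS_le758 (S : Finset (HeightOneSpectrum (𝓞 K))) (𝔪 : Ideal (𝓞 K)) (h𝔪 : 𝔪 ≠ ⊥)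
    (hS : ∀ v : HeightOneSpectrum (𝓞 K), 𝔪 ≤ v.asIdeal → v ∈ S) : ∃ k : ℕ, fS S k ≤ 𝔪 := by
  classical
  refine ⟨Multiset.card (UniqueFactorizationMonoid.normalizedFactors 𝔪), ?_⟩
  have hprod := Ideal.prod_normalizedFactors_eq_self h𝔪
  have hdvd := multiset_prod_dvd_fS758 S (UniqueFactorizationMonoid.normalizedFactors 𝔪) ?_
  · rw [hprod] at hdvd
    exact Ideal.le_of_dvd hdvd
  · intro P hP
    have hprime : Prime P := UniqueFactorizationMonoid.prime_of_normalized_factor P hP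
    have hPdvd : P ∣ 𝔪 := UniqueFactorizationMonoid.dvd_of_mem_normalizedFactors hP
    have hne : P ≠ ⊥ := hprime.ne_zero
    refine ⟨⟨P, Ideal.isPrime_of_prime hprime, hne⟩, hS _ (Ideal.le_of_dvd hPdvd), rfl⟩

/-- **E1.C.4** (spare). -/
theorem fsLeC758 : FsLeC := fun _ _ _ S 𝔪 h𝔪 hS => exists_fS_le758 S 𝔪 h𝔪 hS

omit [NumberField K] in
/-- A prime ideal containing the natural number `n ≠ 0` contains a prime factor of `n`. -/
theorem exists_primeFactor_mem758 (P : Ideal (𝓞 K)) (hP : P.IsPrime) (n : ℕ) (hn : n ≠ 0)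
    (h : ((n : ℕ) : 𝓞 K) ∈ P) : ∃ q ∈ n.primeFactors, ((q : ℕ) : 𝓞 K) ∈ P := by
  have h1 : ((n.primeFactorsList.map fun q : ℕ => ((q : ℕ) : 𝓞 K)) : Multiset (𝓞 K)).prod ∈ P := by
    have h2 : ((n.primeFactorsList.map fun q : ℕ => ((q : ℕ) : 𝓞 K)) : Multiset (𝓞 K)).prod
        = ((n : ℕ) : 𝓞 K) := by
      rw [Multiset.prod_coe]
      have h3 := Nat.prod_primeFactorsList hn
      conv_rhs => rw [← h3]
      rw [Nat.cast_list_prod]
    rw [h2]
    exact h
  obtain ⟨x, hx, hxP⟩ := (hP.multiset_prod_mem_iff_exists_mem _).1 h1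
  rw [Multiset.mem_coe, List.mem_map] at hx
  obtain ⟨q, hq, rfl⟩ := hx
  exact ⟨q, Nat.mem_primeFactors.2 ⟨Nat.prime_of_mem_primeFactorsList hq,
    Nat.dvd_of_mem_primeFactorsList hq, hn⟩, hxP⟩

/-- **E1.C.3 `S` EXISTS** (registry 1946). -/
theorem genClExistsC758 : GenClExistsC := by
  classical
  intro K _ _ T₀ hT₀
  -- integral representatives of the ideal classes
  have hsurj : Function.Surjective (ClassGroup.mk0 (R := 𝓞 K)) := ClassGroup.mk0_surjective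
  choose rep hrep using hsurj
  -- their product
  set 𝔍 : Ideal (𝓞 K) := ∏ c : ClassGroup (𝓞 K), (rep c : Ideal (𝓞 K)) with h𝔍def
  have hrep0 : ∀ c, (rep c : Ideal (𝓞 K)) ≠ ⊥ := fun c =>
    mem_nonZeroDivisors_iff_ne_zero.1 (rep c).2
  have h𝔍 : 𝔍 ≠ ⊥ := by
    rw [h𝔍def, ← Ideal.zero_eq_bot, Finset.prod_ne_zero_iff]
    intro c _
    exact hrep0 c
  have hle : ∀ c, 𝔍 ≤ (rep c : Ideal (𝓞 K)) := fun c =>
    Ideal.le_of_dvd (Finset.dvd_prod_of_mem (fun c => (rep c : Ideal (𝓞 K))) (Finset.mem_univ c))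
  have hN : Ideal.absNorm 𝔍 ≠ 0 := by
    rw [Ne, Ideal.absNorm_eq_zero_iff]
    exact h𝔍
  -- the sets `T` and `S`
  have hTprime : ∀ q ∈ T₀ ∪ (Ideal.absNorm 𝔍).primeFactors, q.Prime := by
    intro q hq
    rcases Finset.mem_union.1 hq with h | h
    · exact hT₀ q h
    · exact Nat.prime_of_mem_primeFactors h
  have hfin := finite_aboveT758 (K := K) (T₀ ∪ (Ideal.absNorm 𝔍).primeFactors) hTprime
  have hS : ∀ P : HeightOneSpectrum (𝓞 K),
      P ∈ hfin.toFinset ↔ AboveT (T₀ ∪ (Ideal.absNorm 𝔍).primeFactors) P := by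
    intro P
    rw [Set.Finite.mem_toFinset, Set.mem_ofPred_eq]
  -- every prime dividing `𝔍` lies in `S`
  have hkey : ∀ v : HeightOneSpectrum (𝓞 K), 𝔍 ≤ v.asIdeal → v ∈ hfin.toFinset := by
    intro v hv
    rw [hS]
    obtain ⟨q, hq, hqv⟩ := exists_primeFactor_mem758 v.asIdeal v.isPrime _ hN
      (hv (Ideal.absNorm_mem 𝔍))
    exact ⟨q, Finset.mem_union_right _ hq, hqv⟩
  obtain ⟨m, hm⟩ := exists_fS_le758 hfin.toFinset 𝔍 h𝔍 hkey
  refine ⟨T₀ ∪ (Ideal.absNorm 𝔍).primeFactors, hfin.toFinset, m, Finset.subset_union_left,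
    hTprime, hS, ?_⟩
  intro I hI
  have hI0 : I ∈ nonZeroDivisors (Ideal (𝓞 K)) := mem_nonZeroDivisors_iff_ne_zero.2 hI
  set c : ClassGroup (𝓞 K) := (ClassGroup.mk0 ⟨I, hI0⟩)⁻¹ with hc
  have hmem : I * (rep c : Ideal (𝓞 K)) ∈ nonZeroDivisors (Ideal (𝓞 K)) := mul_mem hI0 (rep c).2
  have hone : ClassGroup.mk0 ⟨I * (rep c : Ideal (𝓞 K)), hmem⟩ = 1 := by
    have h1 : (⟨I * (rep c : Ideal (𝓞 K)), hmem⟩ : nonZeroDivisors (Ideal (𝓞 K))) = ⟨I, hI0⟩ * rep c := rfl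
    rw [h1, map_mul, hrep, hc, mul_inv_cancel]
  have hprinc : (I * (rep c : Ideal (𝓞 K))).IsPrincipal := (ClassGroup.mk0_eq_one_iff hmem).1 hone
  obtain ⟨x, hx⟩ := hprinc.principal
  have hx' : I * (rep c : Ideal (𝓞 K)) = Ideal.span {x} := hx
  refine ⟨x, (rep c : Ideal (𝓞 K)), ?_, hm.trans (hle c), hx'⟩
  rintro rfl
  have hbot : I * (rep c : Ideal (𝓞 K)) = ⊥ := by
    rw [hx', Ideal.span_singleton_eq_bot]
  have h0 : I * (rep c : Ideal (𝓞 K)) = 0 := by
    rw [Ideal.zero_eq_bot]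
    exact hbot
  rcases mul_eq_zero.1 h0 with h | h
  · exact hI (by rw [← Ideal.zero_eq_bot]; exact h)
  · exact hrep0 c (by rw [← Ideal.zero_eq_bot]; exact h)

end Fermat.Agent.LT.CFT.H758

end

end
-- ===== PACK-END LT/CFT/H758/GenClExists.lean

-- ===== PACK-BEGIN LT/T7/H751/FactAbs.lean
section


/-!
# Row LT, tower T7, nodes `FactDown` (helper751): the ABSTRACT Fubini step

OFF-MAIN.  MATHLIB ONLY.  No hole, nothing assumed.  ADDITIVE (new names only, suffix `751`).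

`integral_split751`: if the image of `μ|_{Out}` under `comp : X → (∏_i Y_i) × Z` is
`c · (∏_i ν_i) × ρ`, then for functions `a_i` on `Y_i` (measurable) and `b_j` on `Z`
(measurable, integrable; `j` in a finite set):

    ∫_{Out} ∏_i a_i((comp x)_i) · ∑_j b_j((comp x)_Z) dμ = c · ∏_i ∫ a_i dν_i · ∑_j ∫ b_j dρ.

NO integrability of the `a_i` is needed (`integral_prod_mul`, `integral_fintype_prod_eq_prod`).
-/

set_option autoImplicit false

open MeasureTheory

namespace Fermat.Agent.LT.T7.H751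

theorem integral_split751 {X Z ι J : Type*} [Fintype ι] {Y : ι → Type*}
    [MeasurableSpace X] [∀ i, MeasurableSpace (Y i)] [MeasurableSpace Z]
    (μ : Measure X) (ν : ∀ i, Measure (Y i)) [∀ i, SigmaFinite (ν i)] (ρ : Measure Z)
    [SFinite ρ] (Out : Set X) (comp : X → (∀ i, Y i) × Z) (hcomp : Measurable comp)
    (c : ℝ) (hc : 0 ≤ c)
    (hsp : Measure.map comp (μ.restrict Out) = ENNReal.ofReal c • ((Measure.pi ν).prod ρ))
    (a : ∀ i, Y i → ℂ) (ha : ∀ i, Measurable (a i))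
    (s : Finset J) (b : J → Z → ℂ) (hbm : ∀ j ∈ s, Measurable (b j))
    (hb : ∀ j ∈ s, Integrable (b j) ρ) :
    ∫ x in Out, (∏ i, a i ((comp x).1 i)) * (∑ j ∈ s, b j (comp x).2) ∂μ
      = (c : ℂ) * ((∏ i, ∫ y, a i y ∂(ν i)) * ∑ j ∈ s, ∫ z, b j z ∂ρ) := by
  have hA : Measurable fun p : (∀ i, Y i) × Z => ∏ i, a i (p.1 i) :=
    Finset.measurable_prod _ fun i _ => (ha i).comp ((measurable_pi_apply i).comp measurable_fst)
  have hB : Measurable fun p : (∀ i, Y i) × Z => ∑ j ∈ s, b j p.2 :=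
    Finset.measurable_sum _ fun j hj => (hbm j hj).comp measurable_snd
  have hH : Measurable fun p : (∀ i, Y i) × Z => (∏ i, a i (p.1 i)) * (∑ j ∈ s, b j p.2) :=
    hA.mul hB
  have h1 : ∫ x in Out, (∏ i, a i ((comp x).1 i)) * (∑ j ∈ s, b j (comp x).2) ∂μ
      = ∫ p, (∏ i, a i (p.1 i)) * (∑ j ∈ s, b j p.2)
          ∂(Measure.map comp (μ.restrict Out)) :=
    (integral_map hcomp.aemeasurable hH.aestronglyMeasurable).symm
  rw [h1, hsp, integral_smul_measure, ENNReal.toReal_ofReal hc]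
  have h2 : ∫ p, (∏ i, a i (p.1 i)) * (∑ j ∈ s, b j p.2) ∂((Measure.pi ν).prod ρ)
      = (∫ y, ∏ i, a i (y i) ∂(Measure.pi ν)) * ∫ z, ∑ j ∈ s, b j z ∂ρ :=
    integral_prod_mul (fun y : ∀ i, Y i => ∏ i, a i (y i)) (fun z : Z => ∑ j ∈ s, b j z)
  rw [h2, integral_fintype_prod_eq_prod, integral_finsetSum s hb]
  rw [Complex.real_smul]

end Fermat.Agent.LT.T7.H751

end
-- ===== PACK-END LT/T7/H751/FactAbs.lean

-- ===== PACK-BEGIN LT/T7/H194/Orb/CycAlg.lean
section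


/-!
# Row LT, tower T7, station C2.7 (cut-off integrals): ASSET, closed orbits of regular elements of
`GL₂` -- the algebra (helper194)

OFF-MAIN.  Mathlib only.  No hole, nothing assumed.

For a `2 × 2` matrix `A` and `u ∈ {e₁, e₂, e₁ + e₂}` the matrix `N_u(A) = [u, A u]` satisfies
`A N_u(A) = N_u(A) C(A)`, `C(A)` the companion matrix of the characteristic polynomial
(Cayley--Hamilton), and one of the three determinants is not `0` if `A` is not a scalar matrix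
(e.g. if the discriminant of `A` is not `0`).  So two elements `A`, `B` of `GL₂` over a field with
the same trace and determinant, not scalar, are conjugate by `c = n_u(A) n_{u'}(B)⁻¹`, EXPLICIT in
the entries.
-/

set_option autoImplicit false

noncomputable section

namespace Fermat.Agent.LT.T7.H194

open Matrix

section Ring

variable {R : Type*} [CommRing R]

/-- `N_i(A) = [u, A u]` for `u = e₁` (`i = 0`), `e₂` (`i = 1`), `e₁ + e₂` (`i = 2`). -/
def cycMat194 (i : Fin 3) (A : Matrix (Fin 2) (Fin 2) R) : Matrix (Fin 2) (Fin 2) R :=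
  match i with
  | 0 => !![1, A 0 0; 0, A 1 0]
  | 1 => !![0, A 0 1; 1, A 1 1]
  | 2 => !![1, A 0 0 + A 0 1; 1, A 1 0 + A 1 1]

/-- The determinant of `N_i(A)`. -/
def cycDet194 (i : Fin 3) (A : Matrix (Fin 2) (Fin 2) R) : R :=
  match i with
  | 0 => A 1 0
  | 1 => -A 0 1
  | 2 => A 1 0 + A 1 1 - A 0 0 - A 0 1

/-- The adjugate of `N_i(A)`. -/
def cycAdj194 (i : Fin 3) (A : Matrix (Fin 2) (Fin 2) R) : Matrix (Fin 2) (Fin 2) R :=
  match i with
  | 0 => !![A 1 0, -A 0 0; 0, 1]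
  | 1 => !![A 1 1, -A 0 1; -1, 0]
  | 2 => !![A 1 0 + A 1 1, -(A 0 0 + A 0 1); -1, 1]

/-- The companion matrix of the characteristic polynomial of `A`. -/
def compMat194 (A : Matrix (Fin 2) (Fin 2) R) : Matrix (Fin 2) (Fin 2) R :=
  !![0, -A.det; 1, A.trace]

set_option linter.unnecessarySeqFocus false in
theorem det_cycMat194 (i : Fin 3) (A : Matrix (Fin 2) (Fin 2) R) :
    (cycMat194 i A).det = cycDet194 i A := by
  fin_cases i <;> simp [cycMat194, cycDet194, Matrix.det_fin_two] <;> ring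

theorem cycMat_mul_adj194 (i : Fin 3) (A : Matrix (Fin 2) (Fin 2) R) :
    cycMat194 i A * cycAdj194 i A = cycDet194 i A • (1 : Matrix (Fin 2) (Fin 2) R) := by
  fin_cases i <;> ext a b <;> fin_cases a <;> fin_cases b <;>
    simp [cycMat194, cycDet194, cycAdj194, Matrix.mul_apply, Fin.sum_univ_two] <;> ring

theorem adj_mul_cycMat194 (i : Fin 3) (A : Matrix (Fin 2) (Fin 2) R) :
    cycAdj194 i A * cycMat194 i A = cycDet194 i A • (1 : Matrix (Fin 2) (Fin 2) R) := by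
  fin_cases i <;> ext a b <;> fin_cases a <;> fin_cases b <;>
    simp [cycMat194, cycDet194, cycAdj194, Matrix.mul_apply, Fin.sum_univ_two] <;> ring

/-- Cayley--Hamilton: `A [u, A u] = [u, A u] C(A)`. -/
theorem mul_cycMat194 (i : Fin 3) (A : Matrix (Fin 2) (Fin 2) R) :
    A * cycMat194 i A = cycMat194 i A * compMat194 A := by
  fin_cases i <;> ext a b <;> fin_cases a <;> fin_cases b <;>
    simp [cycMat194, compMat194, Matrix.mul_apply, Fin.sum_univ_two, Matrix.det_fin_two,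
      Matrix.trace_fin_two] <;> ring

/-- If the three determinants vanish, `A` is a scalar matrix and its discriminant vanishes. -/
theorem disc_eq_zero_of_cycDet194 (A : Matrix (Fin 2) (Fin 2) R)
    (h : ∀ i : Fin 3, cycDet194 i A = 0) : A.trace ^ 2 - 4 * A.det = 0 := by
  have h0 : A 1 0 = 0 := h 0
  have h1 : -A 0 1 = 0 := h 1
  have h2 : A 1 0 + A 1 1 - A 0 0 - A 0 1 = 0 := h 2
  have h1' : A 0 1 = 0 := neg_eq_zero.mp h1
  have h3 : A 1 1 = A 0 0 := by
    have := h2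
    rw [h0, h1'] at this
    linear_combination this
  rw [Matrix.trace_fin_two, Matrix.det_fin_two, h0, h1', h3]
  ring

end Ring

section Field

variable {k : Type*} [Field k]

/-- `n_i(A) ∈ GL₂(k)` if `det N_i(A) ≠ 0`. -/
def cycGL194 (i : Fin 3) (A : Matrix (Fin 2) (Fin 2) k) (h : cycDet194 i A ≠ 0) :
    GL (Fin 2) k where
  val := cycMat194 i A
  inv := (cycDet194 i A)⁻¹ • cycAdj194 i A
  val_inv := by
    rw [Matrix.mul_smul, cycMat_mul_adj194, smul_smul, inv_mul_cancel₀ h, one_smul]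
  inv_val := by
    rw [Matrix.smul_mul, adj_mul_cycMat194, smul_smul, inv_mul_cancel₀ h, one_smul]

theorem coe_cycGL194 (i : Fin 3) (A : Matrix (Fin 2) (Fin 2) k) (h : cycDet194 i A ≠ 0) :
    ((cycGL194 i A h : GL (Fin 2) k) : Matrix (Fin 2) (Fin 2) k) = cycMat194 i A := rfl

theorem coe_inv_cycGL194 (i : Fin 3) (A : Matrix (Fin 2) (Fin 2) k) (h : cycDet194 i A ≠ 0) :
    (((cycGL194 i A h)⁻¹ : GL (Fin 2) k) : Matrix (Fin 2) (Fin 2) k)
      = (cycDet194 i A)⁻¹ • cycAdj194 i A := rfl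

/-- `n⁻¹ A n = C(A)`. -/
theorem cycGL_conj194 (i : Fin 3) (A : GL (Fin 2) k)
    (h : cycDet194 i (A : Matrix (Fin 2) (Fin 2) k) ≠ 0) :
    (((cycGL194 i (A : Matrix (Fin 2) (Fin 2) k) h)⁻¹ * A
        * cycGL194 i (A : Matrix (Fin 2) (Fin 2) k) h : GL (Fin 2) k) :
        Matrix (Fin 2) (Fin 2) k)
      = compMat194 (A : Matrix (Fin 2) (Fin 2) k) := by
  have e := mul_cycMat194 i (A : Matrix (Fin 2) (Fin 2) k)
  have hinv : (((cycGL194 i (A : Matrix (Fin 2) (Fin 2) k) h)⁻¹ : GL (Fin 2) k) :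
      Matrix (Fin 2) (Fin 2) k) * cycMat194 i (A : Matrix (Fin 2) (Fin 2) k) = 1 := by
    have := (cycGL194 i (A : Matrix (Fin 2) (Fin 2) k) h).inv_val
    exact this
  rw [Units.val_mul, Units.val_mul, coe_cycGL194, Matrix.mul_assoc, e, ← Matrix.mul_assoc, hinv,
    Matrix.one_mul]

/-- **Explicit conjugation.**  Two elements of `GL₂(k)` with the same trace and determinant and
invertible `N_i(A)`, `N_j(B)` are conjugate by `c = n_i(A) n_j(B)⁻¹`: `c⁻¹ A c = B`. -/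
theorem conj_cycGL194 (i j : Fin 3) (A B : GL (Fin 2) k)
    (htr : (A : Matrix (Fin 2) (Fin 2) k).trace = (B : Matrix (Fin 2) (Fin 2) k).trace)
    (hdet : (A : Matrix (Fin 2) (Fin 2) k).det = (B : Matrix (Fin 2) (Fin 2) k).det)
    (hA : cycDet194 i (A : Matrix (Fin 2) (Fin 2) k) ≠ 0)
    (hB : cycDet194 j (B : Matrix (Fin 2) (Fin 2) k) ≠ 0) :
    (cycGL194 i (A : Matrix (Fin 2) (Fin 2) k) hA
        * (cycGL194 j (B : Matrix (Fin 2) (Fin 2) k) hB)⁻¹)⁻¹ * A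
      * (cycGL194 i (A : Matrix (Fin 2) (Fin 2) k) hA
        * (cycGL194 j (B : Matrix (Fin 2) (Fin 2) k) hB)⁻¹) = B := by
  have h1 : (cycGL194 i (A : Matrix (Fin 2) (Fin 2) k) hA)⁻¹ * A
        * cycGL194 i (A : Matrix (Fin 2) (Fin 2) k) hA
      = (cycGL194 j (B : Matrix (Fin 2) (Fin 2) k) hB)⁻¹ * B
        * cycGL194 j (B : Matrix (Fin 2) (Fin 2) k) hB := by
    apply Units.ext
    rw [cycGL_conj194, cycGL_conj194]
    unfold compMat194
    rw [htr, hdet]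
  set nA := cycGL194 i (A : Matrix (Fin 2) (Fin 2) k) hA
  set nB := cycGL194 j (B : Matrix (Fin 2) (Fin 2) k) hB
  calc (nA * nB⁻¹)⁻¹ * A * (nA * nB⁻¹)
      = nB * (nA⁻¹ * A * nA) * nB⁻¹ := by group
    _ = nB * (nB⁻¹ * B * nB) * nB⁻¹ := by rw [h1]
    _ = B := by group

end Field

end Fermat.Agent.LT.T7.H194

end

end
-- ===== PACK-END LT/T7/H194/Orb/CycAlg.lean

-- ===== PACK-BEGIN LT/T7/H582/ArchOrbit.lean
section


/-!
# Row LT, tower T7, leaf C2.7.13.4 `LocEqArchC340` (helper582, registry row 2623), OFF-MAIN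

PART 3 (Mathlib only): **the orbit of a regular element of `GL₂(ℂ)` is closed, in the form
needed for the cut-off integrals**: if `g ∈ GL₂(ℂ)` has non-zero discriminant and `C` is compact,
there is a compact set `Ω` such that every `z` with `z⁻¹ g z ∈ C` is of the form `t ω` with `t`
in the centraliser of `g` and `ω ∈ Ω`.

Proof (cyclic vectors).  For a row vector `ρ` and a matrix `Y` let `B(ρ, Y)` be the matrix with
the rows `ρ`, `ρ Y`; then `B(ρ, Y) Y = c(Y) B(ρ, Y)` with the companion matrix `c(Y)` of the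
characteristic polynomial (Cayley-Hamilton).  If `Y` is regular, `B(ρ, Y)` is invertible for one
of the three vectors `(1,0)`, `(0,1)`, `(1,1)`.  If `X = z⁻¹ g z` then `c(X) = c(g)` and
`z₀ = B(u, g)⁻¹ B(ρ, X)` satisfies `g z₀ = z₀ X`, so `t = z z₀⁻¹` centralises `g`; `z₀` depends
continuously on `X` where `B(ρ, X)` is invertible, and a compact set covered by three open sets
is the union of three compact sets contained in them.
-/

set_option autoImplicit false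

open scoped Topology

noncomputable section

namespace Fermat.Agent.LT.T7.H582

/-- The matrix with the rows `ρ`, `ρ Y`. -/
def bmat582 (ρ : Fin 2 → ℂ) (Y : Matrix (Fin 2) (Fin 2) ℂ) : Matrix (Fin 2) (Fin 2) ℂ :=
  !![ρ 0, ρ 1; ρ 0 * Y 0 0 + ρ 1 * Y 1 0, ρ 0 * Y 0 1 + ρ 1 * Y 1 1]

/-- The companion matrix of the characteristic polynomial of `Y`. -/
def cmat582 (Y : Matrix (Fin 2) (Fin 2) ℂ) : Matrix (Fin 2) (Fin 2) ℂ :=
  !![0, 1; - Y.det, Y.trace]

/-- The three test vectors. -/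
def rho582 : Fin 3 → Fin 2 → ℂ := ![![1, 0], ![0, 1], ![1, 1]]

theorem orbit_eqns_realised582 : True := by
  have _a1 := @bmat582.eq_1
  have _a2 := @bmat582.eq_def
  have _a3 := @bmat582.eq_unfold
  have _b1 := @cmat582.eq_1
  have _b2 := @cmat582.eq_def
  have _b3 := @cmat582.eq_unfold
  have _c1 := @rho582.eq_1
  have _c2 := @rho582.eq_def
  have _c3 := @rho582.eq_unfold
  trivial

theorem bmat_mul582 (ρ : Fin 2 → ℂ) (Y : Matrix (Fin 2) (Fin 2) ℂ) :
    bmat582 ρ Y * Y = cmat582 Y * bmat582 ρ Y := by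
  ext i j
  fin_cases i <;> fin_cases j <;>
    simp [bmat582, cmat582, Matrix.mul_apply, Fin.sum_univ_two, Matrix.det_fin_two,
      Matrix.trace_fin_two] <;> ring

theorem det_bmat582 (ρ : Fin 2 → ℂ) (Y : Matrix (Fin 2) (Fin 2) ℂ) :
    (bmat582 ρ Y).det
      = Y 0 1 * ρ 0 ^ 2 + (Y 1 1 - Y 0 0) * ρ 0 * ρ 1 - Y 1 0 * ρ 1 ^ 2 := by
  simp [bmat582, Matrix.det_fin_two]
  ring

theorem exists_cyclic582 (Y : Matrix (Fin 2) (Fin 2) ℂ) (hY : Y.trace ^ 2 - 4 * Y.det ≠ 0) :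
    ∃ i : Fin 3, (bmat582 (rho582 i) Y).det ≠ 0 := by
  by_contra h
  simp only [not_exists, ne_eq, not_not] at h
  have h0 := h 0
  have h1 := h 1
  have h2 := h 2
  rw [det_bmat582] at h0 h1 h2
  simp [rho582] at h0 h1 h2
  apply hY
  rw [Matrix.trace_fin_two, Matrix.det_fin_two]
  rw [h0, h1] at h2
  have h3 : Y 1 1 = Y 0 0 := by linear_combination h2
  rw [h0, h1, h3]
  ring

theorem continuous_bmat582 (ρ : Fin 2 → ℂ) :
    Continuous (fun Y : Matrix (Fin 2) (Fin 2) ℂ => bmat582 ρ Y) := by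
  refine continuous_matrix fun i j => ?_
  fin_cases i <;> fin_cases j <;> simp [bmat582] <;> fun_prop

/-- The map `X ↦ B(ρ, X)` into `GL₂(ℂ)` on the set where the determinant does not vanish is
continuous. -/
theorem continuous_mkB582 (ρ : Fin 2 → ℂ) :
    Continuous (fun X : {X : GL (Fin 2) ℂ // (bmat582 ρ (X : Matrix (Fin 2) (Fin 2) ℂ)).det ≠ 0} =>
      Matrix.GeneralLinearGroup.mkOfDetNeZero (bmat582 ρ ((X : GL (Fin 2) ℂ) :
        Matrix (Fin 2) (Fin 2) ℂ)) X.2) := by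
  have hval : Continuous (fun X : {X : GL (Fin 2) ℂ //
      (bmat582 ρ (X : Matrix (Fin 2) (Fin 2) ℂ)).det ≠ 0} =>
      bmat582 ρ ((X : GL (Fin 2) ℂ) : Matrix (Fin 2) (Fin 2) ℂ)) :=
    (continuous_bmat582 ρ).comp (Units.continuous_val.comp continuous_subtype_val)
  rw [Units.continuous_iff]
  refine ⟨hval, ?_⟩
  have hinv : (fun X : {X : GL (Fin 2) ℂ //
      (bmat582 ρ (X : Matrix (Fin 2) (Fin 2) ℂ)).det ≠ 0} =>
      (((Matrix.GeneralLinearGroup.mkOfDetNeZero (bmat582 ρ ((X : GL (Fin 2) ℂ) :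
        Matrix (Fin 2) (Fin 2) ℂ)) X.2)⁻¹ : GL (Fin 2) ℂ) : Matrix (Fin 2) (Fin 2) ℂ))
      = fun X : {X : GL (Fin 2) ℂ //
          (bmat582 ρ (X : Matrix (Fin 2) (Fin 2) ℂ)).det ≠ 0} =>
        ((bmat582 ρ ((X : GL (Fin 2) ℂ) : Matrix (Fin 2) (Fin 2) ℂ)).det)⁻¹
          • (bmat582 ρ ((X : GL (Fin 2) ℂ) : Matrix (Fin 2) (Fin 2) ℂ)).adjugate := by
    funext X
    rw [Matrix.coe_units_inv]
    show (bmat582 ρ ((X : GL (Fin 2) ℂ) : Matrix (Fin 2) (Fin 2) ℂ))⁻¹ = _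
    rw [Matrix.inv_def, Ring.inverse_eq_inv']
  rw [hinv]
  exact ((Continuous.matrix_det hval).inv₀ fun X => X.2).smul (Continuous.matrix_adjugate hval)

/-- **THE ORBIT OF A REGULAR ELEMENT IS CLOSED** (form for the cut-off integrals). -/
theorem orbit_cover582 (g : GL (Fin 2) ℂ)
    (hg : (g : Matrix (Fin 2) (Fin 2) ℂ).trace ^ 2
      - 4 * (g : Matrix (Fin 2) (Fin 2) ℂ).det ≠ 0)
    (C : Set (GL (Fin 2) ℂ)) (hC : IsCompact C) :
    ∃ Ω : Set (GL (Fin 2) ℂ), IsCompact Ω ∧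
      ∀ z : GL (Fin 2) ℂ, z⁻¹ * g * z ∈ C →
        ∃ t : GL (Fin 2) ℂ, t⁻¹ * g * t = g ∧ t⁻¹ * z ∈ Ω := by
  obtain ⟨i₀, hi₀⟩ := exists_cyclic582 _ hg
  set Bg : GL (Fin 2) ℂ := Matrix.GeneralLinearGroup.mkOfDetNeZero _ hi₀ with hBg
  -- the closed condition `c(X) = c(g)`
  set C' : Set (GL (Fin 2) ℂ) := C ∩ {X | (X : Matrix (Fin 2) (Fin 2) ℂ).trace
      = (g : Matrix (Fin 2) (Fin 2) ℂ).trace ∧ (X : Matrix (Fin 2) (Fin 2) ℂ).det
      = (g : Matrix (Fin 2) (Fin 2) ℂ).det} with hC'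
  have hcl : IsClosed {X : GL (Fin 2) ℂ | (X : Matrix (Fin 2) (Fin 2) ℂ).trace
      = (g : Matrix (Fin 2) (Fin 2) ℂ).trace ∧ (X : Matrix (Fin 2) (Fin 2) ℂ).det
      = (g : Matrix (Fin 2) (Fin 2) ℂ).det} := by
    have h1 : Continuous (fun X : GL (Fin 2) ℂ => (X : Matrix (Fin 2) (Fin 2) ℂ).trace) :=
      Continuous.matrix_trace Units.continuous_val
    have h2 : Continuous (fun X : GL (Fin 2) ℂ => (X : Matrix (Fin 2) (Fin 2) ℂ).det) :=
      Continuous.matrix_det Units.continuous_val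
    exact (isClosed_eq h1 continuous_const).inter (isClosed_eq h2 continuous_const)
  have hC'c : IsCompact C' := hC.inter_right hcl
  -- the open cover
  set U : Fin 3 → Set (GL (Fin 2) ℂ) :=
    fun i => {X | (bmat582 (rho582 i) (X : Matrix (Fin 2) (Fin 2) ℂ)).det ≠ 0} with hU
  have hUo : ∀ i ∈ (Finset.univ : Finset (Fin 3)), IsOpen (U i) := by
    intro i _
    have h1 : Continuous (fun X : GL (Fin 2) ℂ =>
        (bmat582 (rho582 i) (X : Matrix (Fin 2) (Fin 2) ℂ)).det) :=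
      Continuous.matrix_det ((continuous_bmat582 _).comp Units.continuous_val)
    exact isOpen_ne_fun h1 continuous_const
  have hcov : C' ⊆ ⋃ i ∈ (Finset.univ : Finset (Fin 3)), U i := by
    intro X hX
    have hXd : (X : Matrix (Fin 2) (Fin 2) ℂ).trace ^ 2
        - 4 * (X : Matrix (Fin 2) (Fin 2) ℂ).det ≠ 0 := by
      rw [hX.2.1, hX.2.2]
      exact hg
    obtain ⟨i, hi⟩ := exists_cyclic582 _ hXd
    exact Set.mem_biUnion (Finset.mem_univ i) hi
  obtain ⟨Kc, hKc, hKU, hKeq⟩ := hC'c.finite_compact_cover Finset.univ U hUo hcov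
  -- the compact set
  set f : ∀ i : Fin 3, {X : GL (Fin 2) ℂ //
      (bmat582 (rho582 i) (X : Matrix (Fin 2) (Fin 2) ℂ)).det ≠ 0} → GL (Fin 2) ℂ :=
    fun i X => Bg⁻¹ * Matrix.GeneralLinearGroup.mkOfDetNeZero
      (bmat582 (rho582 i) ((X : GL (Fin 2) ℂ) : Matrix (Fin 2) (Fin 2) ℂ)) X.2 with hf
  have hfc : ∀ i, Continuous (f i) := fun i =>
    continuous_const.mul (continuous_mkB582 (rho582 i))
  set Ω : Set (GL (Fin 2) ℂ) := ⋃ i : Fin 3, f i '' (Subtype.val ⁻¹' Kc i) with hΩ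
  have hΩc : IsCompact Ω := by
    refine isCompact_iUnion fun i => ?_
    refine IsCompact.image ?_ (hfc i)
    refine (Topology.IsInducing.subtypeVal.isCompact_preimage_iff ?_).2 (hKc i)
    intro X hX
    exact ⟨⟨X, hKU i hX⟩, rfl⟩
  refine ⟨Ω, hΩc, fun z hz => ?_⟩
  set X : GL (Fin 2) ℂ := z⁻¹ * g * z with hX
  have hXtr : (X : Matrix (Fin 2) (Fin 2) ℂ).trace = (g : Matrix (Fin 2) (Fin 2) ℂ).trace := by
    have h1 : (X : Matrix (Fin 2) (Fin 2) ℂ)
        = ((z⁻¹ : GL (Fin 2) ℂ) : Matrix (Fin 2) (Fin 2) ℂ) * (g : Matrix (Fin 2) (Fin 2) ℂ)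
          * (z : Matrix (Fin 2) (Fin 2) ℂ) := by
      simp [hX]
    rw [h1, Matrix.trace_mul_cycle, ← Units.val_mul, mul_inv_cancel, Units.val_one, one_mul]
  have hXdet : (X : Matrix (Fin 2) (Fin 2) ℂ).det = (g : Matrix (Fin 2) (Fin 2) ℂ).det := by
    have h1 : (X : Matrix (Fin 2) (Fin 2) ℂ)
        = ((z⁻¹ : GL (Fin 2) ℂ) : Matrix (Fin 2) (Fin 2) ℂ) * (g : Matrix (Fin 2) (Fin 2) ℂ)
          * (z : Matrix (Fin 2) (Fin 2) ℂ) := by
      simp [hX]
    rw [h1, Matrix.det_mul, Matrix.det_mul, mul_comm, ← mul_assoc, ← Matrix.det_mul,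
      ← Units.val_mul, mul_inv_cancel, Units.val_one, Matrix.det_one, one_mul]
  have hXC' : X ∈ C' := ⟨hz, hXtr, hXdet⟩
  rw [hKeq] at hXC'
  obtain ⟨i, hi⟩ := Set.mem_iUnion.1 hXC'
  obtain ⟨-, hXi⟩ := Set.mem_iUnion.1 hi
  have hXU : (bmat582 (rho582 i) (X : Matrix (Fin 2) (Fin 2) ℂ)).det ≠ 0 := hKU i hXi
  set BX : GL (Fin 2) ℂ := Matrix.GeneralLinearGroup.mkOfDetNeZero _ hXU with hBX
  set z₀ : GL (Fin 2) ℂ := Bg⁻¹ * BX with hz₀
  have hz₀Ω : z₀ ∈ Ω := by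
    refine Set.mem_iUnion.2 ⟨i, ⟨⟨X, hXU⟩, hXi, rfl⟩⟩
  -- `g z₀ = z₀ X`
  have hcm : cmat582 (X : Matrix (Fin 2) (Fin 2) ℂ) = cmat582 (g : Matrix (Fin 2) (Fin 2) ℂ) := by
    simp [cmat582, hXtr, hXdet]
  have hBgg : Bg * g = (Bg * g * Bg⁻¹) * Bg := by group
  have hkey : Bg * g * Bg⁻¹ = BX * X * BX⁻¹ := by
    have e1 : (Bg : Matrix (Fin 2) (Fin 2) ℂ) * (g : Matrix (Fin 2) (Fin 2) ℂ)
        = cmat582 (g : Matrix (Fin 2) (Fin 2) ℂ) * (Bg : Matrix (Fin 2) (Fin 2) ℂ) :=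
      bmat_mul582 _ _
    have e2 : (BX : Matrix (Fin 2) (Fin 2) ℂ) * (X : Matrix (Fin 2) (Fin 2) ℂ)
        = cmat582 (g : Matrix (Fin 2) (Fin 2) ℂ) * (BX : Matrix (Fin 2) (Fin 2) ℂ) := by
      rw [← hcm]
      exact bmat_mul582 _ _
    apply Units.ext
    have e3 : ((Bg * g * Bg⁻¹ : GL (Fin 2) ℂ) : Matrix (Fin 2) (Fin 2) ℂ)
        = cmat582 (g : Matrix (Fin 2) (Fin 2) ℂ) := by
      rw [Units.val_mul, Units.val_mul, e1, Matrix.mul_assoc, ← Units.val_mul,
        mul_inv_cancel, Units.val_one, Matrix.mul_one]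
    have e4 : ((BX * X * BX⁻¹ : GL (Fin 2) ℂ) : Matrix (Fin 2) (Fin 2) ℂ)
        = cmat582 (g : Matrix (Fin 2) (Fin 2) ℂ) := by
      rw [Units.val_mul, Units.val_mul, e2, Matrix.mul_assoc, ← Units.val_mul,
        mul_inv_cancel, Units.val_one, Matrix.mul_one]
    rw [e3, e4]
  have hgz : z₀ * X * z₀⁻¹ = g := by
    have : z₀ * X * z₀⁻¹ = Bg⁻¹ * (BX * X * BX⁻¹) * Bg := by
      rw [hz₀]; group
    rw [this, ← hkey]
    group
  refine ⟨z * z₀⁻¹, ?_, ?_⟩
  · have : (z * z₀⁻¹)⁻¹ * g * (z * z₀⁻¹) = z₀ * (z⁻¹ * g * z) * z₀⁻¹ := by group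
    rw [this, ← hX, hgz]
  · have : (z * z₀⁻¹)⁻¹ * z = z₀ := by group
    rw [this]
    exact hz₀Ω

end Fermat.Agent.LT.T7.H582

end

end
-- ===== PACK-END LT/T7/H582/ArchOrbit.lean

-- ===== PACK-BEGIN LT/T7/H176/FD/OrbitC.lean
section


/-!
# Row LT, tower T7, node C2.7.7 `FactDownC305`, leaf FD.8 `ArchIntblC558`: the closed orbit
# (helper176, OFF-MAIN, MATHLIB ONLY)

`exists_compact_orbit176`: for `γ₀ ∈ GL₂(ℂ)` with non-zero discriminant and a compact set `Ω`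
there is a compact set `C` with `{y : y⁻¹ γ₀ y ∈ Ω} ⊆ T C`, `T` the centraliser of `γ₀`.

Proof.  `g₀ γ₀ = D g₀`, `D = diag(a, b)`, `a ≠ b` (left eigenvectors).  For `ω = y⁻¹ γ₀ y ∈ Ω`
and `u = g₀ y`: `D u = u ω`.  Normalise the rows of `u` in the `ℓ¹`-norm: `u = d u₁`,
`d = diag(n₀, n₁)`; `t = g₀⁻¹ d g₀` commutes with `γ₀`, `y = t (g₀⁻¹ u₁)`.  From `D u₁ = u₁ ω`:
`det u₁ · (ω - a) = (b - a) · (± u₁_{0i} u₁_{1j})_{ij}`; summing the norms of the entries,
`|det u₁| · ∑ |(ω - a)_{ij}| = |b - a|`, so `|det u₁| ≥ ε > 0` on `Ω`: the entries of `u₁` and of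
`u₁⁻¹ = adj(u₁) / det(u₁)` are bounded, a compact subset of `GL₂(ℂ)`.
-/

set_option autoImplicit false

open Topology Matrix

noncomputable section

namespace Fermat.Agent.LT.T7.H176

/-! ## Algebra of `2 × 2` matrices -/

/-- The four entries of `D U = U W`. -/
theorem entries_of_diag_mul176 {a b : ℂ} {U W : Matrix (Fin 2) (Fin 2) ℂ}
    (h : !![a, 0; 0, b] * U = U * W) :
    a * U 0 0 = U 0 0 * W 0 0 + U 0 1 * W 1 0 ∧ a * U 0 1 = U 0 0 * W 0 1 + U 0 1 * W 1 1 ∧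
    b * U 1 0 = U 1 0 * W 0 0 + U 1 1 * W 1 0 ∧ b * U 1 1 = U 1 0 * W 0 1 + U 1 1 * W 1 1 := by
  have h00 := congrFun (congrFun h 0) 0
  have h01 := congrFun (congrFun h 0) 1
  have h10 := congrFun (congrFun h 1) 0
  have h11 := congrFun (congrFun h 1) 1
  simp only [Matrix.mul_apply, Fin.sum_univ_two, Matrix.of_apply, Matrix.cons_val_zero,
    Matrix.cons_val_one, Matrix.cons_val', Matrix.cons_val_fin_one, zero_mul, add_zero,
    zero_add] at h00 h01 h10 h11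
  exact ⟨h00, h01, h10, h11⟩

/-- **The determinant identity.** -/
theorem det_mul_entries176 {a b : ℂ} {U W : Matrix (Fin 2) (Fin 2) ℂ}
    (h : !![a, 0; 0, b] * U = U * W) :
    U.det * (W 0 0 - a) = (b - a) * (-(U 0 1 * U 1 0)) ∧
    U.det * W 0 1 = (b - a) * (-(U 0 1 * U 1 1)) ∧
    U.det * W 1 0 = (b - a) * (U 0 0 * U 1 0) ∧
    U.det * (W 1 1 - a) = (b - a) * (U 0 0 * U 1 1) := by
  obtain ⟨e00, e01, e10, e11⟩ := entries_of_diag_mul176 h
  rw [Matrix.det_fin_two]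
  refine ⟨?_, ?_, ?_, ?_⟩
  · linear_combination (-U 1 1) * e00 + U 0 1 * e10
  · linear_combination (-U 1 1) * e01 + U 0 1 * e11
  · linear_combination U 1 0 * e00 - U 0 0 * e10
  · linear_combination U 1 0 * e01 - U 0 0 * e11

/-- **The lower bound for the determinant** of a matrix with `ℓ¹`-normalised rows which
conjugates `W` to `diag(a, b)`. -/
theorem det_lower_bound176 {a b : ℂ} {U W : Matrix (Fin 2) (Fin 2) ℂ}
    (h : !![a, 0; 0, b] * U = U * W)
    (h0 : ‖U 0 0‖ + ‖U 0 1‖ = 1) (h1 : ‖U 1 0‖ + ‖U 1 1‖ = 1)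
    {M : ℝ} (hM : ∀ i j, ‖W i j‖ ≤ M) :
    ‖b - a‖ ≤ ‖U.det‖ * (4 * M + 2 * ‖a‖) := by
  obtain ⟨d00, d01, d10, d11⟩ := det_mul_entries176 h
  have n00 := congrArg norm d00
  have n01 := congrArg norm d01
  have n10 := congrArg norm d10
  have n11 := congrArg norm d11
  simp only [norm_mul, norm_neg] at n00 n01 n10 n11
  have hsum : ‖U.det‖ * (‖W 0 0 - a‖ + ‖W 0 1‖ + ‖W 1 0‖ + ‖W 1 1 - a‖) = ‖b - a‖ := by
    have : ‖U.det‖ * (‖W 0 0 - a‖ + ‖W 0 1‖ + ‖W 1 0‖ + ‖W 1 1 - a‖)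
        = ‖b - a‖ * ((‖U 0 0‖ + ‖U 0 1‖) * (‖U 1 0‖ + ‖U 1 1‖)) := by
      linear_combination n00 + n01 + n10 + n11
    rw [this, h0, h1]; ring
  rw [← hsum]
  refine mul_le_mul_of_nonneg_left ?_ (norm_nonneg _)
  have e1 : ‖W 0 0 - a‖ ≤ M + ‖a‖ := (norm_sub_le _ _).trans (by linarith [hM 0 0])
  have e2 : ‖W 1 1 - a‖ ≤ M + ‖a‖ := (norm_sub_le _ _).trans (by linarith [hM 1 1])
  linarith [hM 0 1, hM 1 0]

/-- **Diagonalisation** (left eigenvectors) of a `2 × 2` matrix with non-zero discriminant. -/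
theorem exists_diag176 (A : Matrix (Fin 2) (Fin 2) ℂ) (hA : A.trace ^ 2 - 4 * A.det ≠ 0) :
    ∃ (P : Matrix (Fin 2) (Fin 2) ℂ) (a b : ℂ), P.det ≠ 0 ∧ a ≠ b ∧
      P * A = !![a, 0; 0, b] * P := by
  rw [Matrix.trace_fin_two, Matrix.det_fin_two] at hA
  by_cases hr : A 1 0 = 0
  · refine ⟨!![A 0 0 - A 1 1, A 0 1; 0, 1], A 0 0, A 1 1, ?_, ?_, ?_⟩
    · rw [Matrix.det_fin_two_of]
      intro h
      apply hA
      have : A 0 0 = A 1 1 := by linear_combination h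
      rw [hr, this]; ring
    · intro h
      apply hA
      rw [hr, h]; ring
    · conv_lhs => rw [Matrix.eta_fin_two A]
      rw [Matrix.mul_fin_two, Matrix.mul_fin_two, hr]
      congr 1
      ext i j
      fin_cases i <;> fin_cases j <;> simp <;> ring
  · obtain ⟨w, hw⟩ := IsAlgClosed.exists_pow_nat_eq
      ((A 0 0 + A 1 1) ^ 2 - 4 * (A 0 0 * A 1 1 - A 0 1 * A 1 0)) (n := 2) (by norm_num)
    have hw0 : w ≠ 0 := by
      intro h
      apply hA
      rw [← hw, h]; ring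
    refine ⟨!![A 1 0, (A 0 0 + A 1 1 + w) / 2 - A 0 0; A 1 0, (A 0 0 + A 1 1 - w) / 2 - A 0 0],
      (A 0 0 + A 1 1 + w) / 2, (A 0 0 + A 1 1 - w) / 2, ?_, ?_, ?_⟩
    · rw [Matrix.det_fin_two_of]
      intro h
      have : A 1 0 * w = 0 := by linear_combination -h
      rcases mul_eq_zero.mp this with h' | h'
      · exact hr h'
      · exact hw0 h'
    · intro h
      apply hw0
      linear_combination h
    · conv_lhs => rw [Matrix.eta_fin_two A]
      rw [Matrix.mul_fin_two, Matrix.mul_fin_two]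
      congr 1
      ext i j
      fin_cases i <;> fin_cases j <;> simp <;>
        first
        | linear_combination (-1 / 4 : ℂ) * hw
        | linear_combination (1 / 4 : ℂ) * hw
        | ring1

/-! ## Compact subsets of `GL₂(ℂ)` -/

/-- Bounded sets of matrices are compact. -/
theorem isCompact_matBdd176 (r : ℝ) :
    IsCompact {A : Matrix (Fin 2) (Fin 2) ℂ | ∀ i j, ‖A i j‖ ≤ r} := by
  have h : {A : Matrix (Fin 2) (Fin 2) ℂ | ∀ i j, ‖A i j‖ ≤ r}
      = Set.pi Set.univ (fun _ : Fin 2 =>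
          Set.pi Set.univ (fun _ : Fin 2 => Metric.closedBall (0 : ℂ) r)) := by
    ext A
    constructor
    · intro h i _ j _
      rw [Metric.mem_closedBall, dist_zero_right]
      exact h i j
    · intro h i j
      have := h i (Set.mem_univ i) j (Set.mem_univ j)
      rw [Metric.mem_closedBall, dist_zero_right] at this
      exact this
  rw [h]
  exact isCompact_univ_pi (fun _ => isCompact_univ_pi (fun _ => isCompact_closedBall 0 r))

/-- The elements of `GL₂(ℂ)` with entries bounded by `1` and entries of the inverse bounded by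
`R` form a compact set. -/
theorem isCompact_glBdd176 (R : ℝ) :
    IsCompact {u : GL (Fin 2) ℂ | (∀ i j, ‖(u : Matrix (Fin 2) (Fin 2) ℂ) i j‖ ≤ 1) ∧
      ∀ i j, ‖((u⁻¹ : GL (Fin 2) ℂ) : Matrix (Fin 2) (Fin 2) ℂ) i j‖ ≤ R} := by
  have h1 := isCompact_matBdd176 1
  have h2 : IsCompact (MulOpposite.op '' {A : Matrix (Fin 2) (Fin 2) ℂ | ∀ i j, ‖A i j‖ ≤ R}) :=
    (isCompact_matBdd176 R).image MulOpposite.continuous_op
  have h3 := (Units.isClosedEmbedding_embedProduct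
    (α := Matrix (Fin 2) (Fin 2) ℂ)).isCompact_preimage (h1.prod h2)
  convert h3 using 1
  ext u
  simp only [Set.mem_ofPred_eq, Set.mem_preimage, Set.mem_prod, Units.embedProduct_apply,
    Set.mem_image, MulOpposite.op_inj, exists_eq_right]

/-! ## The closed orbit -/

/-- **The closed orbit of a regular element of `GL₂(ℂ)`.** -/
theorem exists_compact_orbit176 (γ₀ : GL (Fin 2) ℂ)
    (hreg : (γ₀ : Matrix (Fin 2) (Fin 2) ℂ).trace ^ 2
      - 4 * (γ₀ : Matrix (Fin 2) (Fin 2) ℂ).det ≠ 0)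
    (Ω : Set (GL (Fin 2) ℂ)) (hΩ : IsCompact Ω) :
    ∃ C : Set (GL (Fin 2) ℂ), IsCompact C ∧
      ∀ y : GL (Fin 2) ℂ, y⁻¹ * γ₀ * y ∈ Ω →
        ∃ t c : GL (Fin 2) ℂ, t⁻¹ * γ₀ * t = γ₀ ∧ c ∈ C ∧ y = t * c := by
  obtain ⟨P, a, b, hP, hab, hPA⟩ := exists_diag176 _ hreg
  obtain ⟨g₀, hg₀c⟩ : ∃ g₀ : GL (Fin 2) ℂ, (g₀ : Matrix (Fin 2) (Fin 2) ℂ) = P :=
    ⟨Matrix.GeneralLinearGroup.mkOfDetNeZero P hP, rfl⟩
  -- the conjugate of `γ₀` is diagonal
  have hDg : ((g₀ * γ₀ * g₀⁻¹ : GL (Fin 2) ℂ) : Matrix (Fin 2) (Fin 2) ℂ) = !![a, 0; 0, b] := by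
    have h1 : ((g₀ * γ₀ * g₀⁻¹ : GL (Fin 2) ℂ) : Matrix (Fin 2) (Fin 2) ℂ)
        = (g₀ : Matrix (Fin 2) (Fin 2) ℂ) * (γ₀ : Matrix (Fin 2) (Fin 2) ℂ)
          * ((g₀⁻¹ : GL (Fin 2) ℂ) : Matrix (Fin 2) (Fin 2) ℂ) := by
      simp only [Units.val_mul]
    rw [h1, hg₀c, hPA, Matrix.mul_assoc, ← hg₀c, ← Units.val_mul, mul_inv_cancel, Units.val_one,
      Matrix.mul_one]
  -- a bound for the entries on `Ω`
  obtain ⟨M, hM0, hM⟩ : ∃ M : ℝ, 0 ≤ M ∧
      ∀ ω ∈ Ω, ∀ i j, ‖(ω : Matrix (Fin 2) (Fin 2) ℂ) i j‖ ≤ M := by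
    have hc : ∀ i j : Fin 2,
        Continuous (fun ω : GL (Fin 2) ℂ => (ω : Matrix (Fin 2) (Fin 2) ℂ) i j) := by
      intro i j
      have hval : Continuous (fun ω : GL (Fin 2) ℂ => (ω : Matrix (Fin 2) (Fin 2) ℂ)) :=
        Units.continuous_val
      exact hval.matrix_elem i j
    choose B hB using fun i j => hΩ.exists_bound_of_continuousOn (hc i j).continuousOn
    refine ⟨∑ i, ∑ j, |B i j|, Finset.sum_nonneg fun i _ => Finset.sum_nonneg fun j _ =>
      abs_nonneg _, fun ω hω i j => ?_⟩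
    calc ‖(ω : Matrix (Fin 2) (Fin 2) ℂ) i j‖ ≤ B i j := hB i j ω hω
      _ ≤ |B i j| := le_abs_self _
      _ ≤ ∑ j', |B i j'| :=
          Finset.single_le_sum (f := fun j' => |B i j'|) (fun _ _ => abs_nonneg _)
            (Finset.mem_univ j)
      _ ≤ ∑ i', ∑ j', |B i' j'| :=
          Finset.single_le_sum (f := fun i' => ∑ j', |B i' j'|)
            (fun _ _ => Finset.sum_nonneg fun _ _ => abs_nonneg _) (Finset.mem_univ i)
  have hba : 0 < ‖b - a‖ := norm_pos_iff.mpr (sub_ne_zero.mpr (Ne.symm hab))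
  have hden : 0 < 4 * M + 2 * ‖a‖ + 1 := by positivity
  refine ⟨(fun c => g₀⁻¹ * c) '' {u : GL (Fin 2) ℂ |
      (∀ i j, ‖(u : Matrix (Fin 2) (Fin 2) ℂ) i j‖ ≤ 1) ∧
      ∀ i j, ‖((u⁻¹ : GL (Fin 2) ℂ) : Matrix (Fin 2) (Fin 2) ℂ) i j‖
        ≤ (4 * M + 2 * ‖a‖ + 1) / ‖b - a‖},
    (isCompact_glBdd176 _).image (continuous_const.mul continuous_id), ?_⟩
  intro y hy
  -- `u = g₀ y` and its matrix
  set U : Matrix (Fin 2) (Fin 2) ℂ := ((g₀ * y : GL (Fin 2) ℂ) : Matrix (Fin 2) (Fin 2) ℂ)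
    with hUdef
  have hU : !![a, 0; 0, b] * U
      = U * ((y⁻¹ * γ₀ * y : GL (Fin 2) ℂ) : Matrix (Fin 2) (Fin 2) ℂ) := by
    have h1 : U * ((y⁻¹ * γ₀ * y : GL (Fin 2) ℂ) : Matrix (Fin 2) (Fin 2) ℂ)
        = ((g₀ * γ₀ * g₀⁻¹ * (g₀ * y) : GL (Fin 2) ℂ) : Matrix (Fin 2) (Fin 2) ℂ) := by
      rw [hUdef, ← Units.val_mul]
      congr 1
      group
    rw [h1, Units.val_mul, hDg]
  have hUdet : U.det ≠ 0 := by
    have := (Matrix.isUnit_iff_isUnit_det _).mp (g₀ * y).isUnit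
    exact this.ne_zero
  rw [Matrix.det_fin_two] at hUdet
  -- the norms of the rows
  have hn0 : 0 < ‖U 0 0‖ + ‖U 0 1‖ := by
    rcases (add_nonneg (norm_nonneg (U 0 0)) (norm_nonneg (U 0 1))).lt_or_eq with h | h
    · exact h
    · exfalso
      have h00 : U 0 0 = 0 := norm_eq_zero.mp
        (by linarith [norm_nonneg (U 0 0), norm_nonneg (U 0 1)])
      have h01 : U 0 1 = 0 := norm_eq_zero.mp
        (by linarith [norm_nonneg (U 0 0), norm_nonneg (U 0 1)])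
      apply hUdet
      rw [h00, h01]; ring
  have hn1 : 0 < ‖U 1 0‖ + ‖U 1 1‖ := by
    rcases (add_nonneg (norm_nonneg (U 1 0)) (norm_nonneg (U 1 1))).lt_or_eq with h | h
    · exact h
    · exfalso
      have h10 : U 1 0 = 0 := norm_eq_zero.mp
        (by linarith [norm_nonneg (U 1 0), norm_nonneg (U 1 1)])
      have h11 : U 1 1 = 0 := norm_eq_zero.mp
        (by linarith [norm_nonneg (U 1 0), norm_nonneg (U 1 1)])
      apply hUdet
      rw [h10, h11]; ring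
  set n₀ : ℝ := ‖U 0 0‖ + ‖U 0 1‖ with hn₀
  set n₁ : ℝ := ‖U 1 0‖ + ‖U 1 1‖ with hn₁
  have hn0c : (n₀ : ℂ) ≠ 0 := by exact_mod_cast hn0.ne'
  have hn1c : (n₁ : ℂ) ≠ 0 := by exact_mod_cast hn1.ne'
  -- the diagonal matrices
  obtain ⟨d, hd⟩ : ∃ d : GL (Fin 2) ℂ,
      (d : Matrix (Fin 2) (Fin 2) ℂ) = !![(n₀ : ℂ), 0; 0, (n₁ : ℂ)] :=
    ⟨Matrix.GeneralLinearGroup.mkOfDetNeZero !![(n₀ : ℂ), 0; 0, (n₁ : ℂ)] (by
      rw [Matrix.det_fin_two_of]; simp [hn0c, hn1c]), rfl⟩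
  obtain ⟨e, he⟩ : ∃ e : GL (Fin 2) ℂ,
      (e : Matrix (Fin 2) (Fin 2) ℂ) = !![(n₀ : ℂ)⁻¹, 0; 0, (n₁ : ℂ)⁻¹] :=
    ⟨Matrix.GeneralLinearGroup.mkOfDetNeZero !![(n₀ : ℂ)⁻¹, 0; 0, (n₁ : ℂ)⁻¹] (by
      rw [Matrix.det_fin_two_of]; simp [hn0c, hn1c]), rfl⟩
  have hde : d * e = 1 := by
    apply Units.ext
    rw [Units.val_mul, hd, he, Units.val_one, Matrix.mul_fin_two, Matrix.one_fin_two]
    simp [hn0c, hn1c]
  have hdD : d * (g₀ * γ₀ * g₀⁻¹) = (g₀ * γ₀ * g₀⁻¹) * d := by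
    apply Units.ext
    rw [Units.val_mul, hDg, Units.val_mul, hDg, hd, Matrix.mul_fin_two, Matrix.mul_fin_two]
    simp [mul_comm]
  -- the normalised matrix
  set U₁ : Matrix (Fin 2) (Fin 2) ℂ := ((e * (g₀ * y) : GL (Fin 2) ℂ) : Matrix (Fin 2) (Fin 2) ℂ)
    with hU₁def
  have hU₁ : U₁ = !![(n₀ : ℂ)⁻¹ * U 0 0, (n₀ : ℂ)⁻¹ * U 0 1;
      (n₁ : ℂ)⁻¹ * U 1 0, (n₁ : ℂ)⁻¹ * U 1 1] := by
    rw [hU₁def, Units.val_mul, he, ← hUdef]
    conv_lhs => rw [Matrix.eta_fin_two U]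
    rw [Matrix.mul_fin_two]
    simp
  have hU₁D : !![a, 0; 0, b] * U₁
      = U₁ * ((y⁻¹ * γ₀ * y : GL (Fin 2) ℂ) : Matrix (Fin 2) (Fin 2) ℂ) := by
    have h1 : U₁ * ((y⁻¹ * γ₀ * y : GL (Fin 2) ℂ) : Matrix (Fin 2) (Fin 2) ℂ)
        = (e : Matrix (Fin 2) (Fin 2) ℂ) * (!![a, 0; 0, b] * U) := by
      rw [hU, hU₁def, Units.val_mul, ← hUdef, Matrix.mul_assoc]
    have h2 : !![a, 0; 0, b] * U₁ = (e : Matrix (Fin 2) (Fin 2) ℂ) * (!![a, 0; 0, b] * U) := by
      rw [hU₁def, Units.val_mul, ← hUdef, ← Matrix.mul_assoc, ← Matrix.mul_assoc, he,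
        Matrix.mul_fin_two, Matrix.mul_fin_two]
      simp [mul_comm]
    rw [h1, h2]
  have e00 : U₁ 0 0 = (n₀ : ℂ)⁻¹ * U 0 0 := by rw [hU₁]; rfl
  have e01 : U₁ 0 1 = (n₀ : ℂ)⁻¹ * U 0 1 := by rw [hU₁]; rfl
  have e10 : U₁ 1 0 = (n₁ : ℂ)⁻¹ * U 1 0 := by rw [hU₁]; rfl
  have e11 : U₁ 1 1 = (n₁ : ℂ)⁻¹ * U 1 1 := by rw [hU₁]; rfl
  have hninv0 : ‖((n₀ : ℂ))⁻¹‖ = n₀⁻¹ := by
    rw [norm_inv, Complex.norm_real, Real.norm_of_nonneg hn0.le]
  have hninv1 : ‖((n₁ : ℂ))⁻¹‖ = n₁⁻¹ := by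
    rw [norm_inv, Complex.norm_real, Real.norm_of_nonneg hn1.le]
  have hrow0 : ‖U₁ 0 0‖ + ‖U₁ 0 1‖ = 1 := by
    rw [e00, e01, norm_mul, norm_mul, hninv0, ← mul_add, ← hn₀]
    exact inv_mul_cancel₀ hn0.ne'
  have hrow1 : ‖U₁ 1 0‖ + ‖U₁ 1 1‖ = 1 := by
    rw [e10, e11, norm_mul, norm_mul, hninv1, ← mul_add, ← hn₁]
    exact inv_mul_cancel₀ hn1.ne'
  have hent : ∀ i j, ‖U₁ i j‖ ≤ 1 := by
    intro i j
    fin_cases i <;> fin_cases j <;> simp only [Fin.zero_eta, Fin.mk_one, Fin.isValue] <;>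
      linarith [norm_nonneg (U₁ 0 0), norm_nonneg (U₁ 0 1), norm_nonneg (U₁ 1 0),
        norm_nonneg (U₁ 1 1)]
  have hdetlow : ‖b - a‖ ≤ ‖U₁.det‖ * (4 * M + 2 * ‖a‖ + 1) := by
    have h := det_lower_bound176 hU₁D hrow0 hrow1 (hM _ hy)
    nlinarith [norm_nonneg U₁.det]
  have hdetpos : 0 < ‖U₁.det‖ := by
    by_contra h
    have h0 : ‖U₁.det‖ = 0 := le_antisymm (not_lt.mp h) (norm_nonneg _)
    rw [h0, zero_mul] at hdetlow
    linarith
  have hdetinv : ‖U₁.det‖⁻¹ ≤ (4 * M + 2 * ‖a‖ + 1) / ‖b - a‖ := by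
    rw [inv_le_iff_one_le_mul₀ hdetpos, div_mul_eq_mul_div, le_div_iff₀ hba, one_mul, mul_comm]
    exact hdetlow
  -- the inverse
  have hinv : ((((e * (g₀ * y))⁻¹ : GL (Fin 2) ℂ)) : Matrix (Fin 2) (Fin 2) ℂ)
      = U₁.det⁻¹ • !![U₁ 1 1, -U₁ 0 1; -U₁ 1 0, U₁ 0 0] := by
    rw [Matrix.coe_units_inv, ← hU₁def, Matrix.inv_def, Ring.inverse_eq_inv',
      Matrix.adjugate_fin_two]
  have hentinv : ∀ i j, ‖((((e * (g₀ * y))⁻¹ : GL (Fin 2) ℂ)) : Matrix (Fin 2) (Fin 2) ℂ) i j‖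
      ≤ (4 * M + 2 * ‖a‖ + 1) / ‖b - a‖ := by
    intro i j
    rw [hinv]
    have key : ∀ x : ℂ, ‖x‖ ≤ 1 → ‖U₁.det⁻¹ * x‖ ≤ (4 * M + 2 * ‖a‖ + 1) / ‖b - a‖ := by
      intro x hx
      rw [norm_mul, norm_inv]
      calc ‖U₁.det‖⁻¹ * ‖x‖ ≤ ‖U₁.det‖⁻¹ * 1 :=
            mul_le_mul_of_nonneg_left hx (inv_nonneg.mpr (norm_nonneg _))
        _ = ‖U₁.det‖⁻¹ := mul_one _
        _ ≤ _ := hdetinv
    fin_cases i <;> fin_cases j <;>
      simp only [Fin.zero_eta, Fin.mk_one, Fin.isValue, Matrix.smul_apply, Matrix.of_apply,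
        Matrix.cons_val_zero, Matrix.cons_val_one, Matrix.cons_val', Matrix.cons_val_fin_one,
        smul_eq_mul]
    · exact key _ (hent 1 1)
    · exact key _ (by rw [norm_neg]; exact hent 0 1)
    · exact key _ (by rw [norm_neg]; exact hent 1 0)
    · exact key _ (hent 0 0)
  -- the decomposition
  refine ⟨g₀⁻¹ * d * g₀, g₀⁻¹ * (e * (g₀ * y)), ?_, ⟨e * (g₀ * y), ⟨hent, hentinv⟩, rfl⟩, ?_⟩
  · have h1 : γ₀ * (g₀⁻¹ * d * g₀) = (g₀⁻¹ * d * g₀) * γ₀ := by
      calc γ₀ * (g₀⁻¹ * d * g₀) = g₀⁻¹ * (g₀ * γ₀ * g₀⁻¹ * d) * g₀ := by group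
        _ = g₀⁻¹ * (d * (g₀ * γ₀ * g₀⁻¹)) * g₀ := by rw [hdD]
        _ = (g₀⁻¹ * d * g₀) * γ₀ := by group
    rw [mul_assoc, h1, ← mul_assoc, inv_mul_cancel, one_mul]
  · calc y = g₀⁻¹ * (d * e) * g₀ * y := by rw [hde]; group
      _ = (g₀⁻¹ * d * g₀) * (g₀⁻¹ * (e * (g₀ * y))) := by group

end Fermat.Agent.LT.T7.H176

end

end
-- ===== PACK-END LT/T7/H176/FD/OrbitC.lean

-- ===== PACK-BEGIN LT/T7/H416/SetupNT.lean
section


/-!
# Row LT, tower T7, leaf T7.L2.1.C0 `SetupC` (helper416): number theory, Mathlib only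

OFF-MAIN.  No `sorry`, nothing assumed.

* `exists_prime_dvd_eval416` (Schur): a non-constant integer polynomial has a root modulo some
  prime not dividing a given `M`;
* `exists_prime_moved416`: for a ring automorphism `e` of the ring of integers of a number field
  which moves `theta`, and `M` not zero, there are a prime number `p` not dividing `M` and a prime
  ideal `w` over `p` which is NOT stable under `e`.  (Values of the characteristic polynomial of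
  `theta`: `p` divides the norm of `m - theta`, Cauchy gives a prime `w` containing `p` and
  `m - theta`; if `e w = w` then `e theta - theta` lies in `w`, so `p` divides its norm.)
-/

set_option autoImplicit false
set_option linter.style.haveILetI false

open Polynomial NumberField

namespace Fermat.Agent.LT.T7.H416

/-- **Schur**: a non-constant integer polynomial has a root modulo some prime outside any given
finite set. -/
theorem exists_prime_dvd_eval416 (g : ℤ[X]) (hg : 0 < g.natDegree) (M : ℕ) (hM : M ≠ 0) :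
    ∃ (p : ℕ) (m : ℤ), p.Prime ∧ ¬ p ∣ M ∧ (p : ℤ) ∣ g.eval m := by
  classical
  set c : ℤ := g.eval 0 with hc
  by_cases hc0 : c = 0
  · obtain ⟨p, hpM, hp⟩ := Nat.exists_infinite_primes (M + 1)
    refine ⟨p, p, hp, ?_, ?_⟩
    · intro h
      have := Nat.le_of_dvd (Nat.pos_of_ne_zero hM) h
      omega
    · have h := Polynomial.sub_dvd_eval_sub (p : ℤ) 0 g
      rw [← hc, hc0, sub_zero, sub_zero] at h
      exact h
  · -- the polynomial `t ↦ g (c M t)`
    have hcM : (c * M : ℤ) ≠ 0 := mul_ne_zero hc0 (by exact_mod_cast hM)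
    set h : ℤ[X] := g.comp (C (c * M) * X) with hh
    have hdeg : h.natDegree = g.natDegree := by
      rw [hh, Polynomial.natDegree_comp, Polynomial.natDegree_C_mul_X _ hcM, mul_one]
    -- the bad values
    have hfin : ({t : ℤ | h.eval t = c ∨ h.eval t = -c ∨ h.eval t = 0} : Set ℤ).Finite := by
      have h1 : ∀ a : ℤ, ({t : ℤ | h.eval t = a} : Set ℤ).Finite := by
        intro a
        have hne : h - C a ≠ 0 := by
          intro h0
          have : (h - C a).natDegree = 0 := by rw [h0]; simp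
          rw [Polynomial.natDegree_sub_C, hdeg] at this
          omega
        refine ((h - C a).roots.toFinset.finite_toSet).subset ?_
        intro t ht
        simp only [Set.mem_ofPred_eq] at ht
        simp only [Finset.mem_coe, Multiset.mem_toFinset, Polynomial.mem_roots hne,
          Polynomial.IsRoot.def, Polynomial.eval_sub, Polynomial.eval_C, ht, sub_self]
      exact ((h1 c).union ((h1 (-c)).union (h1 0))).subset (fun t ht => ht)
    obtain ⟨t, ht⟩ := (Set.infinite_univ (α := ℤ)).exists_notMem_finite hfin |>.imp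
      (fun t ht => ht.2)
    simp only [Set.mem_ofPred_eq, not_or] at ht
    obtain ⟨h1, h2, h3⟩ := ht
    -- `g (c M t) = c (1 + M t s)`
    have hval : h.eval t = g.eval (c * M * t) := by
      rw [hh, Polynomial.eval_comp, Polynomial.eval_mul, Polynomial.eval_C, Polynomial.eval_X]
    obtain ⟨s, hs⟩ := Polynomial.sub_dvd_eval_sub (c * M * t) 0 g
    rw [sub_zero, ← hc] at hs
    have hv : h.eval t = c * (1 + M * t * s) := by rw [hval]; linear_combination hs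
    set v : ℤ := 1 + M * t * s with hvdef
    have hv1 : v.natAbs ≠ 1 := by
      intro h'
      rcases Int.natAbs_eq v with e | e
      · rw [h'] at e
        apply h1
        rw [hv, e]; simp
      · rw [h'] at e
        apply h2
        rw [hv, e]; simp
    obtain ⟨p, hp, hpv⟩ := Nat.exists_prime_and_dvd hv1
    have hpv' : (p : ℤ) ∣ v := Int.natCast_dvd.mpr hpv
    refine ⟨p, c * M * t, hp, ?_, ?_⟩
    · intro hpM
      have h4 : (p : ℤ) ∣ (M : ℤ) := Int.natCast_dvd_natCast.mpr hpM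
      have h5 : (p : ℤ) ∣ 1 := by
        have h6 : (p : ℤ) ∣ v - M * (t * s) := dvd_sub hpv' (Dvd.dvd.mul_right h4 _)
        have e : v - M * (t * s) = 1 := by rw [hvdef]; ring
        rwa [e] at h6
      have := Int.eq_one_of_dvd_one (by positivity) h5
      have : p = 1 := by exact_mod_cast this
      exact hp.one_lt.ne' this
    · rw [← hval, hv]
      exact Dvd.dvd.mul_left hpv' _

/-- **A prime moved by an automorphism.**  For a ring automorphism `e ≠ 1` of the ring of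
integers of a number field and `M ≠ 0` there are a prime number `p ∤ M` and a prime ideal `w`
over `p` with `e w ≠ w`. -/
theorem exists_prime_moved416 (L : Type) [Field L] [NumberField L] (e : 𝓞 L ≃+* 𝓞 L)
    (θ : 𝓞 L) (hθ : e θ ≠ θ) (M : ℕ) (hM : M ≠ 0) :
    ∃ (p : ℕ) (w : Ideal (𝓞 L)), p.Prime ∧ ¬ p ∣ M ∧ w.IsPrime ∧ (p : 𝓞 L) ∈ w ∧
      Ideal.map (e : 𝓞 L →+* 𝓞 L) w ≠ w := by
  classical
  -- the norm of `e θ - θ`
  set N₀ : ℕ := Ideal.absNorm (Ideal.span {e θ - θ}) with hN₀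
  have hN₀ne : N₀ ≠ 0 := by
    rw [hN₀, Ne, Ideal.absNorm_eq_zero_iff, Ideal.span_singleton_eq_bot]
    exact sub_ne_zero.mpr hθ
  -- the characteristic polynomial of the multiplication by `θ`
  set f : 𝓞 L →ₗ[ℤ] 𝓞 L := Algebra.lmul ℤ (𝓞 L) θ with hf
  have hdeg : 0 < f.charpoly.natDegree := by
    rw [LinearMap.charpoly_natDegree]
    exact Module.finrank_pos
  obtain ⟨p, m, hp, hpM, hpm⟩ :=
    exists_prime_dvd_eval416 f.charpoly hdeg (M * N₀) (mul_ne_zero hM hN₀ne)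
  have hpM' : ¬ p ∣ M := fun h => hpM (Dvd.dvd.mul_right h _)
  have hpN : ¬ p ∣ N₀ := fun h => hpM (Dvd.dvd.mul_left h _)
  haveI : Fact p.Prime := ⟨hp⟩
  -- the value is the norm of `m - θ`
  have hnorm : f.charpoly.eval m = Algebra.norm ℤ ((m : 𝓞 L) - θ) := by
    rw [LinearMap.eval_charpoly, Algebra.norm_apply, hf]
    congr 1
    have e1 : ((m : 𝓞 L)) = algebraMap ℤ (𝓞 L) m := (eq_intCast (algebraMap ℤ (𝓞 L)) m).symm
    rw [map_sub (Algebra.lmul ℤ (𝓞 L)), e1, AlgHom.commutes]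
  set J : Ideal (𝓞 L) := Ideal.span {(m : 𝓞 L) - θ} with hJ
  have hJne : J ≠ ⊥ := by
    rw [hJ, Ne, Ideal.span_singleton_eq_bot, sub_eq_zero]
    intro h
    apply hθ
    rw [← h, map_intCast]
  have hcard : p ∣ Nat.card (𝓞 L ⧸ J) := by
    have h1 : Ideal.absNorm J = (Algebra.norm ℤ ((m : 𝓞 L) - θ)).natAbs :=
      Ideal.absNorm_span_singleton _
    have h2 : Ideal.absNorm J = Nat.card (𝓞 L ⧸ J) := rfl
    rw [← h2, h1, ← hnorm]
    exact Int.natCast_dvd.mp hpm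
  haveI : Finite (𝓞 L ⧸ J) := by
    rw [← Ideal.absNorm_ne_zero_iff, Ne, Ideal.absNorm_eq_zero_iff]
    exact hJne
  obtain ⟨x, hx⟩ := exists_prime_addOrderOf_dvd_card' (G := 𝓞 L ⧸ J) p hcard
  have hx0 : x ≠ 0 := by
    intro h
    rw [h, addOrderOf_zero] at hx
    exact hp.one_lt.ne' hx.symm
  have hpx : (p : 𝓞 L ⧸ J) * x = 0 := by
    have h := addOrderOf_nsmul_eq_zero x
    rw [hx, nsmul_eq_mul] at h
    exact h
  -- the ideal `J + (p)` is proper
  have hI : J ⊔ Ideal.span {(p : 𝓞 L)} ≠ ⊤ := by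
    intro htop
    have h1 : (1 : 𝓞 L) ∈ J ⊔ Ideal.span {(p : 𝓞 L)} := by rw [htop]; trivial
    obtain ⟨j, hj, q, hq, hjq⟩ := Submodule.mem_sup.mp h1
    obtain ⟨b, rfl⟩ := Ideal.mem_span_singleton'.mp hq
    apply hx0
    have h2 : (Ideal.Quotient.mk J) (j + b * p) = 1 := by rw [hjq, map_one]
    have h3 : (Ideal.Quotient.mk J) j = 0 := Ideal.Quotient.eq_zero_iff_mem.mpr hj
    rw [map_add, h3, zero_add, map_mul, map_natCast] at h2
    calc x = 1 * x := (one_mul x).symm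
      _ = (Ideal.Quotient.mk J) b * ((p : 𝓞 L ⧸ J) * x) := by rw [← h2]; ring
      _ = 0 := by rw [hpx, mul_zero]
  obtain ⟨w, hw, hle⟩ := Ideal.exists_le_maximal _ hI
  have hpw : (p : 𝓞 L) ∈ w := hle (Ideal.mem_sup_right (Ideal.mem_span_singleton_self _))
  have hmw : (m : 𝓞 L) - θ ∈ w := hle (Ideal.mem_sup_left (Ideal.mem_span_singleton_self _))
  refine ⟨p, w, hp, hpM', hw.isPrime, hpw, ?_⟩
  intro hew
  have h1 : e ((m : 𝓞 L) - θ) ∈ w := by
    rw [← hew]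
    exact Ideal.mem_map_of_mem (e : 𝓞 L →+* 𝓞 L) hmw
  rw [map_sub, map_intCast] at h1
  have h2 : e θ - θ ∈ w := by
    have := w.sub_mem hmw h1
    have e1 : (m : 𝓞 L) - θ - ((m : 𝓞 L) - e θ) = e θ - θ := by ring
    rwa [e1] at this
  have h3 : (N₀ : 𝓞 L) ∈ w := by
    have h4 : Ideal.span {e θ - θ} ≤ w := (Ideal.span_singleton_le_iff_mem _).mpr h2
    exact h4 (Ideal.absNorm_mem _)
  have hcop : Nat.Coprime p N₀ := (Nat.Prime.coprime_iff_not_dvd hp).mpr hpN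
  have h5 : (1 : 𝓞 L) ∈ w := by
    have h6 := Nat.Coprime.gcd_eq_one hcop
    have h7 : ((Nat.gcd p N₀ : ℤ) : 𝓞 L) = (p : 𝓞 L) * ((Nat.gcdA p N₀ : ℤ) : 𝓞 L)
        + (N₀ : 𝓞 L) * ((Nat.gcdB p N₀ : ℤ) : 𝓞 L) := by
      rw [Nat.gcd_eq_gcd_ab]
      push_cast
      ring
    rw [h6] at h7
    have h8 : (1 : 𝓞 L) = (p : 𝓞 L) * ((Nat.gcdA p N₀ : ℤ) : 𝓞 L)
        + (N₀ : 𝓞 L) * ((Nat.gcdB p N₀ : ℤ) : 𝓞 L) := by
      rw [← h7]; simp
    rw [h8]
    exact w.add_mem (w.mul_mem_right _ hpw) (w.mul_mem_right _ h3)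
  exact hw.isPrime.ne_top ((Ideal.eq_top_iff_one _).mpr h5)

end Fermat.Agent.LT.T7.H416

end
-- ===== PACK-END LT/T7/H416/SetupNT.lean

-- ===== PACK-BEGIN LT/T7/H431/AsmAbs.lean
section


/-!
# Row LT, tower T7, leaf T7.L2.2.Z (`AsmC561`) -- abstract bookkeeping (helper431)

OFF-MAIN.  Mathlib only.  Complete proofs, nothing assumed.

* `trace_conj_unitary431`   : `tr (Qᴴ M Q) = tr M` for `Q` unitary;
* `conj_diag_apply431`      : `(Qᴴ M Q)_{aa} = ∑_b ∑_c conj Q_{ca} M_{cb} Q_{ba}`;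
* `sum_atoms_eq_zero431`    : if all the totals of `t` over the fibres of `a ↦ (b a, l a)` vanish,
                              then `∑_a t_a b_a^k l_a^m = 0`;
* `tsum_nested_subtype431`  : a `tsum` over a nested subtype as a `tsum` of an indicator;
* `tsum_sigma_fibre431`     : a `tsum` over `Σ i, Fin (n i)` of a function supported in ONE fibre;
* `tsum_blocks431`          : a summable `f : ℕ → ℂ` which vanishes outside disjoint finite blocks
                              `idx i a` is summed block by block;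
* `tsum_sigma_fin431`       : a summable family on `Σ i, Fin (n i)` is summed fibre by fibre.
-/

set_option autoImplicit false

open scoped ComplexConjugate Matrix

noncomputable section

namespace Fermat.Agent.LT.T7.H431

theorem trace_conj_unitary431 {n : ℕ} (Q M : Matrix (Fin n) (Fin n) ℂ)
    (hQ : Q ∈ Matrix.unitaryGroup (Fin n) ℂ) :
    Matrix.trace (Qᴴ * M * Q) = Matrix.trace M := by
  have h1 : Q * Qᴴ = 1 := by
    have := Matrix.mem_unitaryGroup_iff.1 hQ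
    simpa [Matrix.star_eq_conjTranspose] using this
  rw [Matrix.trace_mul_comm, ← Matrix.mul_assoc, h1, Matrix.one_mul]

theorem conj_diag_apply431 {n : ℕ} (Q M : Matrix (Fin n) (Fin n) ℂ) (a : Fin n) :
    (Qᴴ * M * Q) a a = ∑ b, ∑ c, conj (Q c a) * M c b * Q b a := by
  rw [Matrix.mul_apply]
  refine Finset.sum_congr rfl fun b _ => ?_
  rw [Matrix.mul_apply, Finset.sum_mul]
  refine Finset.sum_congr rfl fun c _ => ?_
  rw [Matrix.conjTranspose_apply]
  rfl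

theorem sum_atoms_eq_zero431 {n : ℕ} (t b l : Fin n → ℂ) (k : ℤ) (m : ℕ)
    (h : ∀ b₀ l₀ : ℂ, (∑ a, if b a = b₀ ∧ l a = l₀ then t a else 0) = 0) :
    (∑ a, t a * b a ^ k * l a ^ m) = 0 := by
  classical
  have key : ∀ a : Fin n, t a * b a ^ k * l a ^ m
      = ∑ p ∈ (Finset.univ.image fun a : Fin n => (b a, l a)),
          (if b a = p.1 ∧ l a = p.2 then t a else 0) * p.1 ^ k * p.2 ^ m := by
    intro a
    rw [Finset.sum_eq_single (b a, l a)]
    · simp
    · intro p _ hp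
      have : ¬ (b a = p.1 ∧ l a = p.2) := by
        rintro ⟨h1, h2⟩
        exact hp (Prod.ext h1.symm h2.symm)
      simp [this]
    · intro hn
      exact absurd (Finset.mem_image_of_mem _ (Finset.mem_univ a)) hn
  calc (∑ a, t a * b a ^ k * l a ^ m)
      = ∑ a, ∑ p ∈ (Finset.univ.image fun a : Fin n => (b a, l a)),
          (if b a = p.1 ∧ l a = p.2 then t a else 0) * p.1 ^ k * p.2 ^ m :=
        Finset.sum_congr rfl fun a _ => key a
    _ = ∑ p ∈ (Finset.univ.image fun a : Fin n => (b a, l a)),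
          ∑ a, (if b a = p.1 ∧ l a = p.2 then t a else 0) * p.1 ^ k * p.2 ^ m :=
        Finset.sum_comm
    _ = ∑ p ∈ (Finset.univ.image fun a : Fin n => (b a, l a)),
          (∑ a, if b a = p.1 ∧ l a = p.2 then t a else 0) * p.1 ^ k * p.2 ^ m := by
        refine Finset.sum_congr rfl fun p _ => ?_
        rw [Finset.sum_mul, Finset.sum_mul]
    _ = 0 := by
        refine Finset.sum_eq_zero fun p _ => ?_
        rw [h p.1 p.2, zero_mul, zero_mul]

theorem tsum_nested_subtype431 {ι : Type} (y : ι → ℂ) (P Q : ι → Prop) :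
    (∑' j : {j : {j : ι // P j} // Q j.1}, y j.1.1)
      = ∑' j : ι, Set.indicator {j | P j ∧ Q j} y j := by
  have e : {j : {j : ι // P j} // Q j.1} ≃ {j : ι // P j ∧ Q j} :=
    Equiv.subtypeSubtypeEquivSubtypeInter P Q
  have h1 : (∑' j : {j : {j : ι // P j} // Q j.1}, y j.1.1)
      = ∑' x : {j : ι // P j ∧ Q j}, y x.1 := by
    rw [← Equiv.tsum_eq (Equiv.subtypeSubtypeEquivSubtypeInter P Q)
      (fun x : {j : ι // P j ∧ Q j} => y x.1)]
    rfl
  rw [h1]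
  exact tsum_subtype {j | P j ∧ Q j} y

theorem tsum_sigma_fibre431 {ι : Type} (n : ι → ℕ) (f : (Σ i, Fin (n i)) → ℂ) (i₀ : ι)
    (hf : ∀ p : Σ i, Fin (n i), p.1 ≠ i₀ → f p = 0) :
    (∑' p, f p) = ∑ a : Fin (n i₀), f ⟨i₀, a⟩ := by
  classical
  have hinj : Function.Injective (fun a : Fin (n i₀) => (⟨i₀, a⟩ : Σ i, Fin (n i))) := by
    intro a a' h
    exact eq_of_heq (Sigma.mk.inj h).2
  rw [← tsum_fintype (L := SummationFilter.unconditional _)
    (fun a : Fin (n i₀) => f ⟨i₀, a⟩)]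
  refine (Function.Injective.tsum_eq hinj ?_).symm
  intro p hp
  by_contra hne
  have h1 : p.1 ≠ i₀ := by
    intro h
    apply hne
    obtain ⟨i, a⟩ := p
    simp only at h
    subst h
    exact ⟨a, rfl⟩
  exact hp (hf p h1)

theorem tsum_sigma_fin431 {ι : Type} (n : ι → ℕ) (F : (Σ i, Fin (n i)) → ℂ)
    (hF : Summable F) : (∑' p, F p) = ∑' i, ∑ a, F ⟨i, a⟩ := by
  rw [hF.tsum_sigma]
  refine tsum_congr fun i => ?_
  exact tsum_fintype _

theorem tsum_blocks431 {ι : Type} (n : ι → ℕ) (idx : (i : ι) → Fin (n i) → ℕ)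
    (hinj : ∀ (i : ι) (a : Fin (n i)) (i' : ι) (a' : Fin (n i')), idx i a = idx i' a' →
      (⟨i, a⟩ : Σ i, Fin (n i)) = ⟨i', a'⟩)
    (f : ℕ → ℂ) (hf : Summable f)
    (hoff : ∀ j : ℕ, (∀ (i : ι) (a : Fin (n i)), idx i a ≠ j) → f j = 0) :
    Summable (fun p : Σ i, Fin (n i) => f (idx p.1 p.2)) ∧
      (∑' j, f j) = ∑' i, ∑ a, f (idx i a) := by
  have hinj' : Function.Injective (fun p : Σ i, Fin (n i) => idx p.1 p.2) := by
    rintro ⟨i, a⟩ ⟨i', a'⟩ h
    exact hinj i a i' a' h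
  have hs : Summable (fun p : Σ i, Fin (n i) => f (idx p.1 p.2)) :=
    hf.comp_injective hinj'
  refine ⟨hs, ?_⟩
  have h1 : (∑' p : Σ i, Fin (n i), f (idx p.1 p.2)) = ∑' j, f j := by
    refine Function.Injective.tsum_eq hinj' ?_
    intro j hj
    by_contra hne
    apply hj
    apply hoff
    intro i a h
    exact hne ⟨⟨i, a⟩, h⟩
  rw [← h1]
  exact tsum_sigma_fin431 n (fun p : Σ i, Fin (n i) => f (idx p.1 p.2)) hs

end Fermat.Agent.LT.T7.H431

end

end
-- ===== PACK-END LT/T7/H431/AsmAbs.lean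

-- ===== PACK-BEGIN LT/T7/H313/OffWCore.lean
section


/-!
# Row LT, tower T7, leaf T7.L2.2.B6 = OFF-W (helper313): the abstract core (Mathlib only)

OFF-MAIN.  No new notion.  Every name ends in `313`.

* `inner_eq_zero_of_parseval313` (Hilbert space form): if `V` is an orthonormal family, the
  Parseval identity `∑_p |⟨V_p, x⟩|² = ‖x‖²` holds for ONE vector `x`, and `h` is orthogonal to
  every `V_p`, then `h` is orthogonal to `x`.
* `ip_eq_zero_of_parseval313` (function form): the same for square integrable functions on a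
  measure space with the pairing `∫ u · conj w`.
-/

set_option autoImplicit false

open MeasureTheory Filter Topology
open scoped ComplexConjugate InnerProductSpace

noncomputable section

namespace Fermat.Agent.LT.T7.H313

/-- The norm of the remainder of the partial Fourier sum. -/
theorem norm_sub_partial313 {H : Type*} [NormedAddCommGroup H] [InnerProductSpace ℂ H]
    {P : Type*} (V : P → H) (hV : Orthonormal ℂ V) (x : H) (s : Finset P) :
    ‖x - ∑ p ∈ s, ⟪V p, x⟫_ℂ • V p‖ ^ 2 = ‖x‖ ^ 2 - ∑ p ∈ s, ‖⟪V p, x⟫_ℂ‖ ^ 2 := by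
  classical
  have h₂ : (∑ i ∈ s, ∑ j ∈ s, ⟪V i, x⟫_ℂ * ⟪x, V j⟫_ℂ * ⟪V j, V i⟫_ℂ)
      = (∑ k ∈ s, ⟪V k, x⟫_ℂ * ⟪x, V k⟫_ℂ : ℂ) := hV.inner_left_right_finset
  have h₃ : ∀ z : ℂ, RCLike.re (z * conj z) = ‖z‖ ^ 2 := by
    intro z
    simp only [RCLike.mul_conj]
    norm_cast
  rw [@norm_sub_sq ℂ, sub_add]
  simp only [@InnerProductSpace.norm_sq_eq_re_inner ℂ H, inner_sum, sum_inner]
  simp only [inner_smul_right, two_mul, inner_smul_left, inner_conj_symm, ← mul_assoc, h₂,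
    add_sub_cancel_right, sub_right_inj]
  simp only [map_sum, ← inner_conj_symm x, ← h₃]

/-- **Hilbert space form.** -/
theorem inner_eq_zero_of_parseval313 {H : Type*} [NormedAddCommGroup H] [InnerProductSpace ℂ H]
    {P : Type*} (V : P → H) (hV : Orthonormal ℂ V) (x h : H)
    (hpars : HasSum (fun p => ‖⟪V p, x⟫_ℂ‖ ^ 2) (‖x‖ ^ 2))
    (hz : ∀ p, ⟪h, V p⟫_ℂ = 0) : ⟪h, x⟫_ℂ = 0 := by
  classical
  have hin : ∀ s : Finset P, ⟪h, x⟫_ℂ = ⟪h, x - ∑ p ∈ s, ⟪V p, x⟫_ℂ • V p⟫_ℂ := by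
    intro s
    rw [inner_sub_right, inner_sum]
    simp only [inner_smul_right, hz, mul_zero, Finset.sum_const_zero, sub_zero]
  have hbound : ∀ s : Finset P,
      ‖⟪h, x⟫_ℂ‖ ^ 2 ≤ ‖h‖ ^ 2 * (‖x‖ ^ 2 - ∑ p ∈ s, ‖⟪V p, x⟫_ℂ‖ ^ 2) := by
    intro s
    rw [← norm_sub_partial313 V hV x s]
    have h1 := norm_inner_le_norm (𝕜 := ℂ) h (x - ∑ p ∈ s, ⟪V p, x⟫_ℂ • V p)
    rw [← hin s] at h1
    calc ‖⟪h, x⟫_ℂ‖ ^ 2 ≤ (‖h‖ * ‖x - ∑ p ∈ s, ⟪V p, x⟫_ℂ • V p‖) ^ 2 :=
          pow_le_pow_left₀ (norm_nonneg _) h1 2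
      _ = ‖h‖ ^ 2 * ‖x - ∑ p ∈ s, ⟪V p, x⟫_ℂ • V p‖ ^ 2 := by ring
  have hlim : Tendsto (fun s : Finset P => ‖h‖ ^ 2 * (‖x‖ ^ 2 - ∑ p ∈ s, ‖⟪V p, x⟫_ℂ‖ ^ 2))
      atTop (𝓝 (‖h‖ ^ 2 * (‖x‖ ^ 2 - ‖x‖ ^ 2))) :=
    (tendsto_const_nhds.sub hpars).const_mul _
  have h0 : ‖⟪h, x⟫_ℂ‖ ^ 2 ≤ ‖h‖ ^ 2 * (‖x‖ ^ 2 - ‖x‖ ^ 2) := ge_of_tendsto' hlim hbound
  rw [sub_self, mul_zero] at h0
  have h1 : ‖⟪h, x⟫_ℂ‖ ^ 2 = 0 := le_antisymm h0 (pow_nonneg (norm_nonneg _) 2)
  exact norm_eq_zero.1 ((pow_eq_zero_iff two_ne_zero).1 h1)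

/-- The pairing `∫ u · conj w` of two square integrable functions is the inner product of
`L²`. -/
theorem ip_eq_inner313 {X : Type*} [MeasurableSpace X] (ν : Measure X) {u w : X → ℂ}
    (hu : MemLp u 2 ν) (hw : MemLp w 2 ν) :
    ∫ a, u a * conj (w a) ∂ν = ⟪hw.toLp w, hu.toLp u⟫_ℂ := by
  rw [MeasureTheory.L2.inner_def]
  refine integral_congr_ae ?_
  filter_upwards [hu.coeFn_toLp, hw.coeFn_toLp] with a h1 h2
  rw [h1, h2, RCLike.inner_apply]

/-- **Function form.**  `v` an orthonormal family of square integrable functions, Parseval for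
`x`, `h` square integrable with `∫ v_p · conj h = 0` for every `p`: then `∫ x · conj h = 0`. -/
theorem ip_eq_zero_of_parseval313 {X : Type*} [MeasurableSpace X] (ν : Measure X)
    {P : Type*} [DecidableEq P] (v : P → X → ℂ) (x h : X → ℂ)
    (hv : ∀ p, MemLp (v p) 2 ν) (hx : MemLp x 2 ν) (hh : MemLp h 2 ν)
    (orth : ∀ p q, ∫ a, v p a * conj (v q a) ∂ν = if p = q then 1 else 0)
    (pars : HasSum (fun p => ‖∫ a, x a * conj (v p a) ∂ν‖ ^ 2)
      (∫ a, x a * conj (x a) ∂ν).re)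
    (hz : ∀ p, ∫ a, v p a * conj (h a) ∂ν = 0) :
    ∫ a, x a * conj (h a) ∂ν = 0 := by
  set V : P → Lp ℂ 2 ν := fun p => (hv p).toLp (v p) with hVdef
  have hV : Orthonormal ℂ V := by
    rw [orthonormal_iff_ite]
    intro p q
    have e1 : ⟪V p, V q⟫_ℂ = ∫ a, v q a * conj (v p a) ∂ν :=
      (ip_eq_inner313 ν (hv q) (hv p)).symm
    rw [e1, orth q p]
    by_cases hpq : p = q
    · rw [if_pos hpq, if_pos hpq.symm]
    · rw [if_neg hpq, if_neg (fun h' : q = p => hpq h'.symm)]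
  have hnorm : ‖hx.toLp x‖ ^ 2 = (∫ a, x a * conj (x a) ∂ν).re := by
    rw [ip_eq_inner313 ν hx hx]
    exact (inner_self_eq_norm_sq (𝕜 := ℂ) (hx.toLp x)).symm
  have hpars : HasSum (fun p => ‖⟪V p, hx.toLp x⟫_ℂ‖ ^ 2) (‖hx.toLp x‖ ^ 2) := by
    rw [hnorm]
    have e2 : (fun p => ‖⟪V p, hx.toLp x⟫_ℂ‖ ^ 2)
        = fun p => ‖∫ a, x a * conj (v p a) ∂ν‖ ^ 2 := by
      funext p
      have e1 : ⟪V p, hx.toLp x⟫_ℂ = ∫ a, x a * conj (v p a) ∂ν :=
        (ip_eq_inner313 ν hx (hv p)).symm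
      rw [e1]
    rw [e2]
    exact pars
  have hz' : ∀ p, ⟪hh.toLp h, V p⟫_ℂ = 0 := by
    intro p
    have e1 : ⟪hh.toLp h, V p⟫_ℂ = ∫ a, v p a * conj (h a) ∂ν :=
      (ip_eq_inner313 ν (hv p) hh).symm
    rw [e1]
    exact hz p
  rw [ip_eq_inner313 ν hx hh]
  exact inner_eq_zero_of_parseval313 V hV (hx.toLp x) (hh.toLp h) hpars hz'

end Fermat.Agent.LT.T7.H313

end

end
-- ===== PACK-END LT/T7/H313/OffWCore.lean

-- ===== PACK-BEGIN LT/T7/H497/SubSeqCore.lean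
section


/-!
# Row LT, tower T7, leaf T7.L2.3.5.7 `SD534.SubSeqC` (helper497, spare): MATHLIB-ONLY CORE

OFF-MAIN.  Every linear subspace `R` of a separable Hilbert space has a sequence `g` of members
of `R`, pairwise orthogonal, each of norm `1` or `0`, which is complete in `R` (Parseval):
Gram--Schmidt on a dense sequence of `R`.  Then the same for a space of bounded measurable
functions on a finite measure space with countably generated `σ`-algebra.
-/

set_option autoImplicit false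

open MeasureTheory
open scoped ComplexConjugate InnerProductSpace
open InnerProductSpace

noncomputable section

namespace Fermat.Agent.LT.T7.H497

section Hilbert

variable {E : Type*} [NormedAddCommGroup E] [InnerProductSpace ℂ E] [CompleteSpace E]

/-- Parseval for an orthonormal family and a vector of the closed span. -/
theorem parseval_of_mem_closure497 {ι : Type*} (v : ι → E) (hv : Orthonormal ℂ v) (x : E)
    (hx : x ∈ (Submodule.span ℂ (Set.range v)).topologicalClosure) :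
    HasSum (fun i => ‖⟪v i, x⟫_ℂ‖ ^ 2) (‖x‖ ^ 2) := by
  classical
  set Kc : Submodule ℂ E := (Submodule.span ℂ (Set.range v)).topologicalClosure with hKc
  have hmem : ∀ i, v i ∈ Kc := fun i =>
    Submodule.le_topologicalClosure _ (Submodule.subset_span ⟨i, rfl⟩)
  have hclosed : IsClosed (Kc : Set E) := Submodule.isClosed_topologicalClosure _
  have : CompleteSpace Kc := hclosed.completeSpace_coe
  set w : ι → Kc := fun i => ⟨v i, hmem i⟩ with hw
  have hwo : Orthonormal ℂ w := by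
    constructor
    · intro i
      show ‖(⟨v i, hmem i⟩ : Kc)‖ = 1
      rw [Submodule.coe_norm]
      exact hv.1 i
    · intro i j hij
      show ⟪(⟨v i, hmem i⟩ : Kc), (⟨v j, hmem j⟩ : Kc)⟫_ℂ = 0
      rw [Submodule.coe_inner]
      exact hv.2 hij
  have hsp : ⊤ ≤ (Submodule.span ℂ (Set.range w)).topologicalClosure := by
    intro y _
    rw [← SetLike.mem_coe, Submodule.topologicalClosure_coe, closure_subtype]
    have himg : ((↑) : Kc → E) '' ((Submodule.span ℂ (Set.range w) : Submodule ℂ Kc) : Set Kc)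
        = (Submodule.span ℂ (Set.range v) : Set E) := by
      have h1 : Submodule.map Kc.subtype (Submodule.span ℂ (Set.range w))
          = Submodule.span ℂ (Set.range v) := by
        rw [Submodule.map_span]
        congr 1
        ext z
        constructor
        · rintro ⟨_, ⟨i, rfl⟩, rfl⟩
          exact ⟨i, rfl⟩
        · rintro ⟨i, rfl⟩
          exact ⟨w i, ⟨i, rfl⟩, rfl⟩
      rw [← h1]
      rfl
    rw [himg]
    exact y.2
  let b : HilbertBasis ι ℂ Kc := HilbertBasis.mk hwo hsp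
  have hb : ∀ i, ((b i : Kc) : E) = v i := by
    intro i
    have : (b : ι → Kc) = w := HilbertBasis.coe_mk hwo hsp
    rw [this]
  have h1 := b.hasSum_inner_mul_inner (⟨x, hx⟩ : Kc) (⟨x, hx⟩ : Kc)
  have h2 := (Complex.reCLM.hasSum h1)
  have h3 : (fun i => Complex.reCLM (⟪(⟨x, hx⟩ : Kc), b i⟫_ℂ * ⟪b i, (⟨x, hx⟩ : Kc)⟫_ℂ))
      = fun i => ‖⟪v i, x⟫_ℂ‖ ^ 2 := by
    funext i
    rw [Submodule.coe_inner, Submodule.coe_inner, hb i]
    show (⟪x, v i⟫_ℂ * ⟪v i, x⟫_ℂ).re = _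
    rw [← inner_conj_symm x (v i), Complex.conj_mul', ← Complex.ofReal_pow, Complex.ofReal_re]
  have h4 : Complex.reCLM (⟪(⟨x, hx⟩ : Kc), (⟨x, hx⟩ : Kc)⟫_ℂ) = ‖x‖ ^ 2 := by
    rw [Submodule.coe_inner]
    exact inner_self_eq_norm_sq (𝕜 := ℂ) x
  rw [h3, h4] at h2
  exact h2

/-- **Gram--Schmidt in a subspace of a separable Hilbert space.** -/
theorem exists_orthoSeq_hilbert497 [TopologicalSpace.SeparableSpace E] (R : Submodule ℂ E) :
    ∃ g : ℕ → E, (∀ n, g n ∈ R) ∧ (∀ n m, n ≠ m → ⟪g n, g m⟫_ℂ = 0) ∧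
      (∀ n, ‖g n‖ = 1 ∨ g n = 0) ∧
      ∀ x ∈ R, HasSum (fun n => ‖⟪g n, x⟫_ℂ‖ ^ 2) (‖x‖ ^ 2) := by
  classical
  have : SecondCountableTopology E := UniformSpace.secondCountable_of_separable E
  obtain ⟨u, hu⟩ := TopologicalSpace.exists_dense_seq R
  set u' : ℕ → E := fun n => (u n : E) with hu'
  set g : ℕ → E := gramSchmidtNormed ℂ u' with hg
  have hu'R : ∀ n, u' n ∈ R := fun n => (u n).2
  have hgs : ∀ n, gramSchmidt ℂ u' n ∈ R := by
    intro n
    have h1 := gramSchmidt_mem_span ℂ u' (le_refl n)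
    refine (Submodule.span_le.2 ?_) h1
    rintro _ ⟨k, _, rfl⟩
    exact hu'R k
  have hgR : ∀ n, g n ∈ R := fun n => R.smul_mem _ (hgs n)
  refine ⟨g, hgR, ?_, ?_, ?_⟩
  · intro n m hnm
    show ⟪gramSchmidtNormed ℂ u' n, gramSchmidtNormed ℂ u' m⟫_ℂ = 0
    unfold gramSchmidtNormed
    rw [inner_smul_left, inner_smul_right, gramSchmidt_orthogonal ℂ u' hnm, mul_zero, mul_zero]
  · intro n
    by_cases h0 : g n = 0
    · exact Or.inr h0
    · exact Or.inl (gramSchmidtNormed_unit_length' h0)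
  · intro x hx
    -- the orthonormal family of the nonzero members
    set I : Set ℕ := {i | gramSchmidtNormed ℂ u' i ≠ 0} with hI
    have hv : Orthonormal ℂ (fun i : I => gramSchmidtNormed ℂ u' i) :=
      gramSchmidtNormed_orthonormal' u'
    -- `x` is in the closed span
    have hspan : Submodule.span ℂ (Set.range (fun i : I => gramSchmidtNormed ℂ u' i))
        = Submodule.span ℂ (Set.range u') := by
      rw [← span_gramSchmidt ℂ u', ← span_gramSchmidtNormed_range]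
      apply le_antisymm
      · apply Submodule.span_mono
        rintro _ ⟨i, rfl⟩
        exact ⟨i.1, rfl⟩
      · apply Submodule.span_le.2
        rintro _ ⟨n, rfl⟩
        by_cases h0 : gramSchmidtNormed ℂ u' n = 0
        · rw [h0]
          exact Submodule.zero_mem _
        · exact Submodule.subset_span ⟨⟨n, h0⟩, rfl⟩
    have hxcl : x ∈ (Submodule.span ℂ
        (Set.range (fun i : I => gramSchmidtNormed ℂ u' i))).topologicalClosure := by
      rw [hspan, ← SetLike.mem_coe, Submodule.topologicalClosure_coe]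
      have h1 : (⟨x, hx⟩ : R) ∈ closure (Set.range u) := hu.closure_range ▸ Set.mem_univ _
      rw [closure_subtype] at h1
      refine closure_mono ?_ h1
      rintro _ ⟨_, ⟨n, rfl⟩, rfl⟩
      exact Submodule.subset_span ⟨n, rfl⟩
    have h2 := parseval_of_mem_closure497 _ hv x hxcl
    have hsupp : Function.support (fun n => ‖⟪g n, x⟫_ℂ‖ ^ 2) ⊆ I := by
      intro n hn
      by_contra h0
      apply hn
      have : g n = 0 := by
        by_contra h1
        exact h0 h1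
      show ‖⟪g n, x⟫_ℂ‖ ^ 2 = 0
      rw [this, inner_zero_left, norm_zero]
      norm_num
    exact (hasSum_subtype_iff_of_support_subset hsupp).1 h2

end Hilbert

section L2

variable {X : Type*} [MeasurableSpace X] [MeasurableSpace.CountablyGenerated X]

omit [MeasurableSpace.CountablyGenerated X] in
/-- The `L²` inner product of the classes of two square integrable functions. -/
theorem inner_toLp497 (ν : Measure X) (f g : X → ℂ) (hf : MemLp f 2 ν) (hg : MemLp g 2 ν) :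
    ⟪hg.toLp g, hf.toLp f⟫_ℂ = ∫ x, f x * conj (g x) ∂ν := by
  rw [MeasureTheory.L2.inner_def]
  apply integral_congr_ae
  filter_upwards [hf.coeFn_toLp, hg.coeFn_toLp] with x hx1 hx2
  rw [hx1, hx2]
  simp

/-- **Gram--Schmidt in a space of bounded measurable functions** on a finite measure space with
countably generated `σ`-algebra. -/
theorem exists_orthoSeq_fn497 (ν : Measure X) [IsFiniteMeasure ν] (S : Submodule ℂ (X → ℂ))
    (hmeas : ∀ f ∈ S, AEStronglyMeasurable f ν) (hbdd : ∀ f ∈ S, ∃ C : ℝ, ∀ x, ‖f x‖ ≤ C) :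
    ∃ p : ℕ → X → ℂ, (∀ n, p n ∈ S) ∧
      (∀ n m, n ≠ m → ∫ x, p n x * conj (p m x) ∂ν = 0) ∧
      (∀ n, ∫ x, p n x * conj (p n x) ∂ν = 1 ∨ p n = 0) ∧
      ∀ f ∈ S, HasSum (fun n => ‖∫ x, f x * conj (p n x) ∂ν‖ ^ 2)
        (∫ x, f x * conj (f x) ∂ν).re := by
  classical
  have hL : ∀ f ∈ S, MemLp f 2 ν := by
    intro f hf
    obtain ⟨C, hC⟩ := hbdd f hf
    exact MemLp.of_bound (hmeas f hf) C (Filter.Eventually.of_forall hC)
  let T : S →ₗ[ℂ] Lp ℂ 2 ν :=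
    { toFun := fun f => (hL f.1 f.2).toLp f.1
      map_add' := fun f g => MemLp.toLp_add (hL f.1 f.2) (hL g.1 g.2)
      map_smul' := fun c f => MemLp.toLp_const_smul c (hL f.1 f.2) }
  have hT : ∀ (f : X → ℂ) (hf : f ∈ S), T ⟨f, hf⟩ = (hL f hf).toLp f := fun f hf => rfl
  have : Fact ((2 : ENNReal) ≠ ⊤) := ⟨ENNReal.ofNat_ne_top⟩
  have : SecondCountableTopology (Lp ℂ 2 ν) := MeasureTheory.Lp.SecondCountableTopology
  have : TopologicalSpace.SeparableSpace (Lp ℂ 2 ν) := inferInstance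
  obtain ⟨g, hgR, hgo, hgn, hgp⟩ := exists_orthoSeq_hilbert497 (LinearMap.range T)
  have hex : ∀ n, ∃ f : X → ℂ, ∃ hf : f ∈ S, (g n = 0 → f = 0) ∧ T ⟨f, hf⟩ = g n := by
    intro n
    by_cases h0 : g n = 0
    · refine ⟨0, S.zero_mem, fun _ => rfl, ?_⟩
      rw [h0]
      exact map_zero T
    · obtain ⟨f, hf⟩ := hgR n
      exact ⟨f.1, f.2, fun h => absurd h h0, hf⟩
  choose p hpS hp0 hpT using hex
  have hin : ∀ (f f' : X → ℂ) (hf : f ∈ S) (hf' : f' ∈ S),
      ∫ x, f x * conj (f' x) ∂ν = ⟪T ⟨f', hf'⟩, T ⟨f, hf⟩⟫_ℂ := by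
    intro f f' hf hf'
    rw [hT, hT, inner_toLp497]
  refine ⟨p, hpS, ?_, ?_, ?_⟩
  · intro n m hnm
    rw [hin _ _ (hpS n) (hpS m), hpT, hpT]
    exact hgo m n (Ne.symm hnm)
  · intro n
    rcases hgn n with h1 | h0
    · left
      rw [hin _ _ (hpS n) (hpS n), hpT, inner_self_eq_norm_sq_to_K, h1]
      simp
    · right
      exact hp0 n h0
  · intro f hf
    have h1 := hgp (T ⟨f, hf⟩) ⟨⟨f, hf⟩, rfl⟩
    have h2 : (fun n => ‖∫ x, f x * conj (p n x) ∂ν‖ ^ 2)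
        = fun n => ‖⟪g n, T ⟨f, hf⟩⟫_ℂ‖ ^ 2 := by
      funext n
      rw [hin _ _ hf (hpS n), hpT]
    have h3 : (∫ x, f x * conj (f x) ∂ν).re = ‖T ⟨f, hf⟩‖ ^ 2 := by
      rw [hin _ _ hf hf]
      exact inner_self_eq_norm_sq (𝕜 := ℂ) _
    rw [h2, h3]
    exact h1

end L2

end Fermat.Agent.LT.T7.H497

end

end
-- ===== PACK-END LT/T7/H497/SubSeqCore.lean

-- ===== PACK-BEGIN LT/T7/H919/UnitPeriodsCore.lean
section


/-!
# Row LT, tower T7, node T7.L2.1 `SupplyC`, part PROJ, leaf `UnitPeriodsC` -- CORE (helper919)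

OFF-MAIN.  Mathlib only.  Dirichlet's unit theorem: for a non-zero ideal `𝔑` of `𝓞 K` and a real
`c ≠ 0` there is a linearly independent family `b : ι → (ι → ℝ)`, `ι = InfinitePlace K`, each
`b i` being the constant vector `c` or the vector `(log |ε|_w)_w` of a unit `ε ≡ 1 mod 𝔑`.

Proof.  `N = |(𝓞 K / 𝔑)ˣ|`; the units `ε_i ^ N` (`ε_i` a fundamental system) are `≡ 1 mod 𝔑`
and their logarithmic vectors are linearly independent (their images in the `logSpace` are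
`N •` a basis of the unit lattice, which is a basis over `ℝ`); they lie in the hyperplane
`∑ mult w * x_w = 0`, the constant vector `c` does not.
-/

set_option autoImplicit false

open NumberField NumberField.Units NumberField.InfinitePlace NumberField.Units.dirichletUnitTheorem

noncomputable section

namespace Fermat.Agent.LT.T7.H919

variable (K : Type) [Field K] [NumberField K]

/-- The logarithmic vector of a unit. -/
def logVec919 (ε : (𝓞 K)ˣ) : InfinitePlace K → ℝ :=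
  fun w => Real.log (w (((ε : 𝓞 K) : K)))

/-- The weighted sum `x ↦ ∑ mult w * x_w`. -/
def wSum919 : (InfinitePlace K → ℝ) →ₗ[ℝ] ℝ where
  toFun x := ∑ w : InfinitePlace K, (mult w : ℝ) * x w
  map_add' x y := by simp [mul_add, Finset.sum_add_distrib]
  map_smul' a x := by simp [Finset.mul_sum, mul_left_comm]

/-- The weighted restriction to the `logSpace`. -/
def wRes919 : (InfinitePlace K → ℝ) →ₗ[ℝ] logSpace K where
  toFun x := fun w => (mult w.val : ℝ) * x w.val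
  map_add' x y := by funext w; simp [mul_add]
  map_smul' a x := by funext w; simp [mul_left_comm]

theorem wSum_logVec919 (ε : (𝓞 K)ˣ) : wSum919 K (logVec919 K ε) = 0 :=
  sum_mult_mul_log ε

theorem wSum_const919 (c : ℝ) : wSum919 K (fun _ => c) = (Module.finrank ℚ K : ℝ) * c := by
  show ∑ w : InfinitePlace K, (mult w : ℝ) * c = _
  rw [← Finset.sum_mul, ← Nat.cast_sum, sum_mult_eq]

theorem wRes_logVec919 (ε : (𝓞 K)ˣ) :
    wRes919 K (logVec919 K ε) = logEmbedding K (Additive.ofMul ε) := rfl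

/-- The logarithmic embeddings of a fundamental system are linearly independent over `ℝ`. -/
theorem linIndep_fund919 :
    LinearIndependent ℝ (fun i : Fin (rank K) => logEmbedding K (Additive.ofMul (fundSystem K i))) := by
  classical
  have h := ((basisUnitLattice K).ofZLatticeBasis ℝ (unitLattice K)).linearIndependent
  have heq : (fun i : Fin (rank K) => logEmbedding K (Additive.ofMul (fundSystem K i)))
      = ⇑((basisUnitLattice K).ofZLatticeBasis ℝ (unitLattice K)) := by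
    funext i
    rw [Module.Basis.ofZLatticeBasis_apply, logEmbedding_fundSystem]
  rw [heq]
  exact h

/-- A power of every unit is `≡ 1 mod 𝔑`. -/
theorem exists_pow_cong919 (𝔑 : Ideal (𝓞 K)) (h𝔑 : 𝔑 ≠ ⊥) :
    ∃ N : ℕ, 0 < N ∧ ∀ ε : (𝓞 K)ˣ, (((ε ^ N : (𝓞 K)ˣ) : 𝓞 K) - 1 ∈ 𝔑) := by
  classical
  have hfin : Finite (𝓞 K ⧸ 𝔑) := Ideal.finiteQuotientOfFreeOfNeBot 𝔑 h𝔑
  have hfinU : Finite (𝓞 K ⧸ 𝔑)ˣ := inferInstance
  refine ⟨Nat.card (𝓞 K ⧸ 𝔑)ˣ, Nat.card_pos, fun ε => ?_⟩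
  have h1 : (Units.map (Ideal.Quotient.mk 𝔑 : 𝓞 K →* 𝓞 K ⧸ 𝔑) ε) ^ Nat.card (𝓞 K ⧸ 𝔑)ˣ = 1 :=
    pow_card_eq_one'
  have h2 : (Ideal.Quotient.mk 𝔑) (((ε ^ Nat.card (𝓞 K ⧸ 𝔑)ˣ : (𝓞 K)ˣ) : 𝓞 K)) = 1 := by
    have h3 : ((Units.map (Ideal.Quotient.mk 𝔑 : 𝓞 K →* 𝓞 K ⧸ 𝔑) ε ^ Nat.card (𝓞 K ⧸ 𝔑)ˣ :
        (𝓞 K ⧸ 𝔑)ˣ) : 𝓞 K ⧸ 𝔑) = 1 := by
      rw [h1]
      rfl
    rw [Units.val_pow_eq_pow_val, Units.coe_map] at h3
    rw [Units.val_pow_eq_pow_val, map_pow]
    exact h3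
  rw [← Ideal.Quotient.eq_zero_iff_mem, map_sub, h2, map_one, sub_self]

/-- **UNIT-PERIODS, core form.** -/
theorem unitPeriods919 (𝔑 : Ideal (𝓞 K)) (h𝔑 : 𝔑 ≠ ⊥) (c : ℝ) (hc : c ≠ 0) :
    ∃ b : InfinitePlace K → (InfinitePlace K → ℝ), LinearIndependent ℝ b ∧
      ∀ i : InfinitePlace K, (b i = fun _ => c) ∨
        ∃ ε : (𝓞 K)ˣ, ((ε : 𝓞 K) - 1 ∈ 𝔑) ∧
          b i = fun w : InfinitePlace K => Real.log (w (((ε : 𝓞 K) : K))) := by
  classical
  obtain ⟨N, hN, hcong⟩ := exists_pow_cong919 K 𝔑 h𝔑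
  -- the family indexed by `Option (Fin (rank K))`
  set v : Fin (rank K) → (InfinitePlace K → ℝ) := fun i => logVec919 K (fundSystem K i ^ N)
    with hv
  have hvres : ∀ i, wRes919 K (v i) = (N : ℝ) • logEmbedding K (Additive.ofMul (fundSystem K i)) := by
    intro i
    rw [hv, wRes_logVec919, ofMul_pow, map_nsmul, Nat.cast_smul_eq_nsmul]
  have hvli : LinearIndependent ℝ v := by
    refine LinearIndependent.of_comp (wRes919 K) ?_
    have h := (linIndep_fund919 K).units_smul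
      (fun _ => Units.mk0 (N : ℝ) (Nat.cast_ne_zero.2 hN.ne'))
    convert h using 1
    funext i
    simp only [Function.comp_apply, hvres, Pi.smul_apply']
    rfl
  have hnot : (fun _ : InfinitePlace K => c) ∉ Submodule.span ℝ (Set.range v) := by
    intro hmem
    have hle : Submodule.span ℝ (Set.range v) ≤ LinearMap.ker (wSum919 K) := by
      rw [Submodule.span_le]
      rintro _ ⟨i, rfl⟩
      exact wSum_logVec919 K _
    have h0 := hle hmem
    rw [LinearMap.mem_ker, wSum_const919] at h0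
    have hfr : (Module.finrank ℚ K : ℝ) ≠ 0 :=
      Nat.cast_ne_zero.2 (Module.finrank_pos (R := ℚ) (M := K)).ne'
    exact (mul_ne_zero hfr hc) h0
  have hli : LinearIndependent ℝ
      (fun o : Option (Fin (rank K)) => Option.casesOn' o (fun _ : InfinitePlace K => c) v) :=
    hvli.option hnot
  -- reindex by the infinite places
  have hcard : Fintype.card (InfinitePlace K) = Fintype.card (Option (Fin (rank K))) := by
    rw [Fintype.card_option, Fintype.card_fin, rank]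
    have : 0 < Fintype.card (InfinitePlace K) := Fintype.card_pos
    omega
  let e : InfinitePlace K ≃ Option (Fin (rank K)) := Fintype.equivOfCardEq hcard
  refine ⟨fun w => Option.casesOn' (e w) (fun _ : InfinitePlace K => c) v,
    hli.comp e e.injective, fun w => ?_⟩
  rcases h : e w with _ | i
  · left
    simp [h]
  · right
    refine ⟨fundSystem K i ^ N, hcong _, ?_⟩
    simp only [h, Option.casesOn'_some]
    rfl

end Fermat.Agent.LT.T7.H919

end

end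
-- ===== PACK-END LT/T7/H919/UnitPeriodsCore.lean

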