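import Mathlib
import Fermat.Prelude.Def_AutomorphicForm_HeckeEigensystem
import Fermat.Agent.Pack.LT3.E0L0
import Fermat.Agent.Pack.LT3.E0L2
import Fermat.Agent.Pack.LT3.E0L3
import Fermat.Agent.Pack.LT3.E0L1
import Fermat.Agent.Pack.LT3.E1L3

set_option linter.all false

-- ===== PACK-BEGIN LT/CFT/H141/ShaOrd.lean
section


/-!
# Row LT, tower CFT, sub-tower EX, row E1.C.10 `ShaC` (SPARE, helper141), OFF-MAIN

Part 1: the order function `EQ.ord` and the products `EQ.outProd` (Mathlib + `EQSpec` only).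
-/

set_option autoImplicit false

open IsDedekindDomain NumberField

noncomputable section

namespace Fermat.Agent.LT.CFT.H141

open Fermat.Agent.LT.CFT.EQ

variable {K : Type} [Field K] [NumberField K]

/-- The exponent of the prime `v` in the ideal `I`. -/
def cnt141 (v : HeightOneSpectrum (𝓞 K)) (I : Ideal (𝓞 K)) : ℕ :=
  (Associates.mk v.asIdeal).count (Associates.mk I).factors

lemma ord_eq_cnt141 (v : HeightOneSpectrum (𝓞 K)) (α : 𝓞 K) :
    ord v α = cnt141 v (Ideal.span {α}) := rfl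

lemma cnt_mul141 (v : HeightOneSpectrum (𝓞 K)) {I J : Ideal (𝓞 K)} (hI : I ≠ ⊥) (hJ : J ≠ ⊥) :
    cnt141 v (I * J) = cnt141 v I + cnt141 v J := by
  unfold cnt141
  rw [← Associates.mk_mul_mk]
  exact Associates.count_mul (Associates.mk_ne_zero.mpr hI) (Associates.mk_ne_zero.mpr hJ)
    v.associates_irreducible

lemma le_cnt_iff141 (v : HeightOneSpectrum (𝓞 K)) {I : Ideal (𝓞 K)} (hI : I ≠ ⊥) (k : ℕ) :
    k ≤ cnt141 v I ↔ I ≤ v.asIdeal ^ k := by
  unfold cnt141
  rw [← Associates.prime_pow_dvd_iff_le (Associates.mk_ne_zero.mpr hI) v.associates_irreducible,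
    ← Associates.mk_pow, Associates.mk_le_mk_iff_dvd, Ideal.dvd_iff_le]

lemma le_ord_iff141 (v : HeightOneSpectrum (𝓞 K)) {α : 𝓞 K} (hα : α ≠ 0) (k : ℕ) :
    k ≤ ord v α ↔ α ∈ v.asIdeal ^ k := by
  rw [ord_eq_cnt141, le_cnt_iff141 v (by simpa using hα), Ideal.span_singleton_le_iff_mem]

lemma mem_pow_ord141 (v : HeightOneSpectrum (𝓞 K)) {α : 𝓞 K} (hα : α ≠ 0) :
    α ∈ v.asIdeal ^ ord v α := (le_ord_iff141 v hα _).mp le_rfl

lemma not_mem_pow_succ_ord141 (v : HeightOneSpectrum (𝓞 K)) {α : 𝓞 K} (hα : α ≠ 0) :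
    α ∉ v.asIdeal ^ (ord v α + 1) := fun h =>
  absurd ((le_ord_iff141 v hα _).mpr h) (by omega)

lemma ord_eq_zero_iff141 (v : HeightOneSpectrum (𝓞 K)) {α : 𝓞 K} (hα : α ≠ 0) :
    ord v α = 0 ↔ α ∉ v.asIdeal := by
  have h := le_ord_iff141 v hα 1
  rw [pow_one] at h
  constructor
  · intro h0 hmem
    have := h.mpr hmem
    omega
  · intro hn
    by_contra h0
    exact hn (h.mp (by omega))

lemma ord_mul141 (v : HeightOneSpectrum (𝓞 K)) {α β : 𝓞 K} (hα : α ≠ 0) (hβ : β ≠ 0) :
    ord v (α * β) = ord v α + ord v β := by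
  rw [ord_eq_cnt141, ord_eq_cnt141, ord_eq_cnt141, ← Ideal.span_singleton_mul_span_singleton]
  exact cnt_mul141 v (by simpa using hα) (by simpa using hβ)

lemma ord_finite141 {α : 𝓞 K} (hα : α ≠ 0) :
    {v : HeightOneSpectrum (𝓞 K) | ord v α ≠ 0}.Finite := by
  have hI : Ideal.span {α} ≠ (0 : Ideal (𝓞 K)) := by simpa using hα
  refine (Ideal.finite_factors hI).subset ?_
  intro v hv
  simp only [Set.mem_ofPred_eq] at hv ⊢
  rw [Ideal.dvd_span_singleton]
  by_contra hmem
  exact hv ((ord_eq_zero_iff141 v hα).mpr hmem)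

section OutProd

variable (S : Finset (HeightOneSpectrum (𝓞 K)))
  (ψ : {v : HeightOneSpectrum (𝓞 K) // v ∉ S} → ℤˣ)

lemma outProd_support141 {α : 𝓞 K} (hα : α ≠ 0) :
    (Function.mulSupport fun v : {v : HeightOneSpectrum (𝓞 K) // v ∉ S} =>
      ψ v ^ ord v.1 α).Finite := by
  have h := (ord_finite141 hα).preimage (f := fun v : {v : HeightOneSpectrum (𝓞 K) // v ∉ S} =>
    (v : HeightOneSpectrum (𝓞 K))) (Subtype.val_injective.injOn)
  refine h.subset ?_
  intro v hv
  simp only [Function.mem_mulSupport, ne_eq] at hv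
  simp only [Set.mem_preimage, Set.mem_ofPred_eq]
  intro h0
  exact hv (by rw [h0, pow_zero])

lemma outProd_mul141 {α β : 𝓞 K} (hα : α ≠ 0) (hβ : β ≠ 0) :
    outProd S ψ (α * β) = outProd S ψ α * outProd S ψ β := by
  unfold outProd
  rw [← finprod_mul_distrib (outProd_support141 S ψ hα) (outProd_support141 S ψ hβ)]
  refine finprod_congr fun v => ?_
  rw [ord_mul141 v.1 hα hβ, pow_add]

lemma outProd_eq_one141 {α : 𝓞 K}
    (h : ∀ v : {v : HeightOneSpectrum (𝓞 K) // v ∉ S}, ψ v ^ ord v.1 α = 1) :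
    outProd S ψ α = 1 := by
  unfold outProd
  exact finprod_eq_one_of_forall_eq_one h

lemma outProd_sq141 {c : 𝓞 K} (hc : c ≠ 0) : outProd S ψ (c ^ 2) = 1 := by
  rw [pow_two, outProd_mul141 S ψ hc hc]
  exact Int.units_mul_self _

lemma outProd_single141 {α : 𝓞 K} (w : {v : HeightOneSpectrum (𝓞 K) // v ∉ S})
    (hw : ord w.1 α = 1)
    (h : ∀ v : {v : HeightOneSpectrum (𝓞 K) // v ∉ S}, v ≠ w → ord v.1 α = 0) :
    outProd S ψ α = ψ w := by
  unfold outProd
  rw [finprod_eq_single _ w (fun v hv => by rw [h v hv, pow_zero]), hw, pow_one]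

end OutProd

end Fermat.Agent.LT.CFT.H141

end

end
-- ===== PACK-END LT/CFT/H141/ShaOrd.lean

-- ===== PACK-BEGIN LT/CFT/H233/EQPigeon.lean
section



/-!
# Row LT, tower CFT, sub-tower EX, row CFT.16.E1.C.0 (spare TOP, helper233), part T3:
# the PIGEONHOLE

OFF-MAIN, Mathlib + `H476/EQSpec.lean` only.

* `qsymOut_injOn233` : the Legendre symbols of integral `S`-units which are pairwise distinct
  modulo squares are pairwise distinct functions on the primes outside `S`
  (`InertC` + `QsymMulC`).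
* `exists_qsymOut_eq233` : if `RayN S n` has at most `#U` elements and contains the Legendre
  symbols of the elements of `U`, every element of `RayN S n` is such a Legendre symbol.
-/

set_option autoImplicit false
set_option linter.style.haveILetI false
set_option linter.unusedSectionVars false

open IsDedekindDomain NumberField

noncomputable section

namespace Fermat.Agent.LT.CFT.H233

open Fermat.Agent.LT.CFT

/-- `qsym` is `1` or `-1`, and `1` exactly at the squares. -/
theorem qsym_eq_one_iff233 {K : Type} [Field K] [NumberField K] (d : 𝓞 K)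
    (v : HeightOneSpectrum (𝓞 K)) : EQ.qsym d v = 1 ↔ EQ.IsSqMod v d := by
  classical
  unfold EQ.qsym
  by_cases h : EQ.IsSqMod v d
  · simp [h]
  · simp only [h, if_false, iff_false]
    decide

/-- The square of a sign is `1`. -/
theorem sign_mul_self233 (x : ℤˣ) : x * x = 1 := by
  rcases Int.units_eq_one_or x with h | h <;> rw [h] <;> decide

/-- **Injectivity of `u ↦ (u / ·)`** on a set of integral `S`-units pairwise distinct modulo
squares. -/
theorem qsymOut_injOn233 (hinert : EQ.InertC) (hmul : EQ.QsymMulC)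
    {K : Type} [Field K] [NumberField K] (S : Finset (HeightOneSpectrum (𝓞 K)))
    (U : Finset (𝓞 K))
    (hdist : ∀ u ∈ U, ∀ u' ∈ U, u ≠ u' →
      ¬ ∃ x : K, x ^ 2 = algebraMap (𝓞 K) K u * algebraMap (𝓞 K) K u') :
    Set.InjOn (EQ.qsymOut S) (U : Set (𝓞 K)) := by
  classical
  intro u hu u' hu' heq
  by_contra hne
  have hnsq : ¬ ∃ x : K, x ^ 2 = algebraMap (𝓞 K) K (u * u') := by
    rw [map_mul]
    exact hdist u hu u' hu' hne
  obtain ⟨v, hvS, hvu, hvsq⟩ := hinert K (u * u') hnsq S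
  have hu1 : u ∉ v.asIdeal := fun h => hvu (v.asIdeal.mul_mem_right u' h)
  have hu2 : u' ∉ v.asIdeal := fun h => hvu (v.asIdeal.mul_mem_left u h)
  have h1 := hmul K u u' v hu1 hu2
  have h2 : EQ.qsym u v = EQ.qsym u' v := congrFun heq ⟨v, hvS⟩
  rw [h2, sign_mul_self233] at h1
  exact hvsq ((qsym_eq_one_iff233 _ _).mp h1)

/-- **THE PIGEONHOLE.** -/
theorem exists_qsymOut_eq233 (hinert : EQ.InertC) (hmul : EQ.QsymMulC)
    {K : Type} [Field K] [NumberField K] (S : Finset (HeightOneSpectrum (𝓞 K))) (n : ℕ)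
    (U : Finset (𝓞 K))
    (hdist : ∀ u ∈ U, ∀ u' ∈ U, u ≠ u' →
      ¬ ∃ x : K, x ^ 2 = algebraMap (𝓞 K) K u * algebraMap (𝓞 K) K u')
    (hmem : ∀ u ∈ U, EQ.qsymOut S u ∈ EQ.RayN S n)
    (hfin : (EQ.RayN S n).Finite) (hcard : (EQ.RayN S n).ncard ≤ U.card)
    (ψ : {v : HeightOneSpectrum (𝓞 K) // v ∉ S} → ℤˣ) (hψ : ψ ∈ EQ.RayN S n) :
    ∃ u ∈ U, ψ = EQ.qsymOut S u := by
  classical
  have hinj := qsymOut_injOn233 hinert hmul S U hdist
  have hsub : (EQ.qsymOut S) '' (U : Set (𝓞 K)) ⊆ EQ.RayN S n := by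
    rintro _ ⟨u, hu, rfl⟩
    exact hmem u hu
  have hcardimg : ((EQ.qsymOut S) '' (U : Set (𝓞 K))).ncard = U.card := by
    rw [Set.InjOn.ncard_image hinj, Set.ncard_coe_finset]
  have heq : (EQ.qsymOut S) '' (U : Set (𝓞 K)) = EQ.RayN S n :=
    Set.eq_of_subset_of_ncard_le hsub (by rw [hcardimg]; exact hcard) hfin
  rw [← heq] at hψ
  obtain ⟨u, hu, rfl⟩ := hψ
  exact ⟨u, hu, rfl⟩

end Fermat.Agent.LT.CFT.H233

end

end
-- ===== PACK-END LT/CFT/H233/EQPigeon.lean

-- ===== PACK-BEGIN LT/CFT/H266/SqProd.lean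
section


/-!
# Row LT, tower CFT, sub-tower EX (existence at `2`), helper266, OFF-MAIN

Global form of the finite-level square class count for a number field `K`:
with `ord266 v = ord_v(2)`,
* `two_notMem_pow266` : `2 ∉ v ^ (ord_v 2 + 1)`;
* `prod_absNorm_pow_ord266` : `∏_{v ∈ S} N(v) ^ ord_v(2) = 2 ^ [K : ℚ]` for every finite set `S`
  of primes containing the primes above `2`;
* `prod_index_sq_le266` : `∏_{v ∈ S} [(𝓞/v^{k_v})ˣ : squares] ≤ 2 ^ (|S| + [K : ℚ])`.
-/

set_option autoImplicit false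

open IsDedekindDomain NumberField

namespace Fermat.Agent.LT.CFT.H266

variable (K : Type*) [Field K] [NumberField K]

/-- `ord_v(2)`. -/
noncomputable def ord266 (v : HeightOneSpectrum (𝓞 K)) : ℕ :=
  (Associates.mk v.asIdeal).count (Associates.mk (Ideal.span {(2 : 𝓞 K)})).factors

variable {K}

theorem two_ne_zero266 : (2 : 𝓞 K) ≠ 0 := by
  intro h
  have h2 : ((2 : 𝓞 K) : K) = 0 := by rw [h]; simp
  simp at h2

theorem span_two_ne_zero266 : (Ideal.span {(2 : 𝓞 K)}) ≠ 0 := by
  rw [Ne, Ideal.zero_eq_bot, Ideal.span_singleton_eq_bot]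
  exact two_ne_zero266

theorem mem_pow_iff_le_ord266 (v : HeightOneSpectrum (𝓞 K)) (n : ℕ) :
    (2 : 𝓞 K) ∈ v.asIdeal ^ n ↔ n ≤ ord266 K v := by
  rw [← Ideal.dvd_span_singleton, ord266, ← Associates.mk_le_mk_iff_dvd, Associates.mk_pow,
    Associates.prime_pow_dvd_iff_le (Associates.mk_ne_zero.mpr span_two_ne_zero266)
      v.associates_irreducible]

theorem two_notMem_pow266 (v : HeightOneSpectrum (𝓞 K)) :
    (2 : 𝓞 K) ∉ v.asIdeal ^ (ord266 K v + 1) := by
  rw [mem_pow_iff_le_ord266]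
  omega

theorem ord_eq_zero_of_notMem266 (v : HeightOneSpectrum (𝓞 K)) (h : (2 : 𝓞 K) ∉ v.asIdeal) :
    ord266 K v = 0 := by
  by_contra h0
  apply h
  have := (mem_pow_iff_le_ord266 v 1).mpr (by omega)
  simpa using this

/-- `∏_{v ∈ S} N(v) ^ ord_v(2) = 2 ^ [K : ℚ]` when `S` contains the primes above `2`. -/
theorem prod_absNorm_pow_ord266 (S : Finset (HeightOneSpectrum (𝓞 K)))
    (hS : ∀ v : HeightOneSpectrum (𝓞 K), (2 : 𝓞 K) ∈ v.asIdeal → v ∈ S) :
    ∏ v ∈ S, Ideal.absNorm v.asIdeal ^ ord266 K v = 2 ^ Module.finrank ℚ K := by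
  classical
  have h1 := Ideal.finprod_heightOneSpectrum_factorization
    (I := Ideal.span {(2 : 𝓞 K)}) span_two_ne_zero266
  have hsupp : (Function.mulSupport fun v : HeightOneSpectrum (𝓞 K) =>
      v.maxPowDividing (Ideal.span {(2 : 𝓞 K)})) ⊆ (S : Set _) := by
    intro v hv
    by_contra hvS
    apply hv
    have : ord266 K v = 0 := ord_eq_zero_of_notMem266 v (fun h => hvS (hS v h))
    show v.asIdeal ^ _ = 1
    change v.asIdeal ^ ord266 K v = 1
    rw [this, pow_zero]
  rw [finprod_eq_prod_of_mulSupport_subset _ hsupp] at h1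
  have h2 := congrArg Ideal.absNorm h1
  rw [map_prod] at h2
  have h3 : (Ideal.absNorm (Ideal.span {(2 : 𝓞 K)})) = 2 ^ Module.finrank ℚ K := by
    have := Ideal.absNorm_span_natCast (S := 𝓞 K) 2
    rw [RingOfIntegers.rank] at this
    simpa using this
  rw [h3] at h2
  rw [← h2]
  refine Finset.prod_congr rfl (fun v _ => ?_)
  show _ = Ideal.absNorm (v.asIdeal ^ ord266 K v)
  rw [map_pow]

instance finite_quot266 (v : HeightOneSpectrum (𝓞 K)) : Finite (𝓞 K ⧸ v.asIdeal) :=
  Ideal.finiteQuotientOfFreeOfNeBot v.asIdeal v.ne_bot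

theorem card_quot_eq_absNorm266 (v : HeightOneSpectrum (𝓞 K)) :
    Nat.card (𝓞 K ⧸ v.asIdeal) = Ideal.absNorm v.asIdeal := by
  rw [Ideal.absNorm_apply]; rfl

/-- Local count, number field form. -/
theorem index_sq_le266 (v : HeightOneSpectrum (𝓞 K)) (k : ℕ) :
    (powMonoidHom 2 : (𝓞 K ⧸ v.asIdeal ^ k)ˣ →* (𝓞 K ⧸ v.asIdeal ^ k)ˣ).range.index ≤
      2 * Ideal.absNorm v.asIdeal ^ ord266 K v := by
  have := index_sq_units_le266 v.asIdeal v.ne_bot k (ord266 K v) (two_notMem_pow266 v)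
  rwa [card_quot_eq_absNorm266] at this

theorem card_sq_one_le266 (v : HeightOneSpectrum (𝓞 K)) (k : ℕ) :
    Nat.card {x : (𝓞 K ⧸ v.asIdeal ^ k)ˣ // x ^ 2 = 1} ≤
      2 * Ideal.absNorm v.asIdeal ^ ord266 K v := by
  have := card_units_sq_eq_one_le266 v.asIdeal v.ne_bot k (ord266 K v) (two_notMem_pow266 v)
  rwa [card_quot_eq_absNorm266] at this

/-- **Global count**: `∏_{v ∈ S} [(𝓞/v^{k_v})ˣ : squares] ≤ 2 ^ (|S| + [K : ℚ])`. -/
theorem prod_index_sq_le266 (S : Finset (HeightOneSpectrum (𝓞 K)))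
    (hS : ∀ v : HeightOneSpectrum (𝓞 K), (2 : 𝓞 K) ∈ v.asIdeal → v ∈ S)
    (k : HeightOneSpectrum (𝓞 K) → ℕ) :
    ∏ v ∈ S, (powMonoidHom 2 :
        (𝓞 K ⧸ v.asIdeal ^ k v)ˣ →* (𝓞 K ⧸ v.asIdeal ^ k v)ˣ).range.index ≤
      2 ^ (S.card + Module.finrank ℚ K) := by
  calc ∏ v ∈ S, (powMonoidHom 2 :
        (𝓞 K ⧸ v.asIdeal ^ k v)ˣ →* (𝓞 K ⧸ v.asIdeal ^ k v)ˣ).range.index
      ≤ ∏ v ∈ S, 2 * Ideal.absNorm v.asIdeal ^ ord266 K v :=
        Finset.prod_le_prod' (fun v _ => index_sq_le266 v (k v))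
    _ = 2 ^ (S.card + Module.finrank ℚ K) := by
        rw [Finset.prod_mul_distrib, Finset.prod_const, prod_absNorm_pow_ord266 S hS, pow_add]

end Fermat.Agent.LT.CFT.H266

end
-- ===== PACK-END LT/CFT/H266/SqProd.lean

-- ===== PACK-BEGIN LT/CFT/H544/EvenOrd.lean
section


/-!
# Row LT, tower CFT, sub-tower EX, row E1.C (cut of helper476): leaf `E1.C.9 EvenOrdC`
# (helper544, OFF-MAIN)

`evenOrdC544 : EQ.EvenOrdC` VERBATIM, unconditional, Mathlib only.

If `u` is not a square modulo the prime `v`, the norm form `A² - u B²` has even `v`-adic order: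
in terms of the multiplicative valuation `w = v.intValuation`,
`w (A² - u B²) = max (w A) (w B) ^ 2`.

* `w B < w A` : the term `A²` dominates.
* `w A ≤ w B` : by approximation (`exists_approx544`: `(B) + v^(b+1) = v^b` for `b = ord_v B`)
  there is `x ∈ 𝓞_K` with `w (x B - A) < w B`; if `w (A² - u B²) < (w B)²` then
  `w (x² - u) < 1`, i.e. `u` is a square modulo `v`.
-/

set_option autoImplicit false

open IsDedekindDomain NumberField

noncomputable section

namespace Fermat.Agent.LT.CFT.H544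

open Fermat.Agent.LT.CFT

section General

variable {R : Type*} [CommRing R] [IsDedekindDomain R] (v : HeightOneSpectrum R)

/-- The multiplicative valuation of a nonzero element in terms of the exponent of `v`. -/
lemma intVal_eq_exp544 {α : R} (hα : α ≠ 0) :
    v.intValuation α = WithZero.exp
      (-(((Associates.mk v.asIdeal).count (Associates.mk (Ideal.span {α})).factors : ℕ) : ℤ)) :=
  v.intValuation_if_neg hα

/-- **Approximation**: if `w A ≤ w B`, `B ≠ 0`, there is `x` with `w (x B - A) < w B`. -/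
lemma exists_approx544 {A B : R} (hB : B ≠ 0) (hAB : v.intValuation A ≤ v.intValuation B) :
    ∃ x : R, v.intValuation (x * B - A) < v.intValuation B := by
  classical
  set b : ℕ := (Associates.mk v.asIdeal).count (Associates.mk (Ideal.span {B})).factors with hb
  have hwB : v.intValuation B = WithZero.exp (-(b : ℤ)) := intVal_eq_exp544 v hB
  -- `B ∈ v ^ b`, `B ∉ v ^ (b + 1)`, `A ∈ v ^ b`
  have hBmem : B ∈ v.asIdeal ^ b := (v.intValuation_le_pow_iff_mem B b).1 hwB.le
  have hBnot : B ∉ v.asIdeal ^ (b + 1) := by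
    intro h
    have h1 := (v.intValuation_le_pow_iff_mem B (b + 1)).2 h
    rw [hwB, WithZero.exp_le_exp] at h1
    push_cast at h1
    omega
  have hAmem : A ∈ v.asIdeal ^ b :=
    (v.intValuation_le_pow_iff_mem A b).1 (hAB.trans hwB.le)
  -- the ideal `J = (B) + v ^ (b + 1)` equals `v ^ b`
  set J : Ideal R := Ideal.span {B} ⊔ v.asIdeal ^ (b + 1) with hJ
  have hvprime : Prime v.asIdeal := v.prime
  have hJdvd : J ∣ v.asIdeal ^ (b + 1) := Ideal.dvd_iff_le.2 le_sup_right
  obtain ⟨i, hi, hassoc⟩ := (dvd_prime_pow hvprime (b + 1)).1 hJdvd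
  have hJeq : J = v.asIdeal ^ i := associated_iff_eq.1 hassoc
  have hBJ : B ∈ J := Ideal.mem_sup_left (Ideal.subset_span rfl)
  have hib : i ≤ b := by
    by_contra hcon
    have hi' : i = b + 1 := by omega
    rw [hJeq, hi'] at hBJ
    exact hBnot hBJ
  have hJle : v.asIdeal ^ b ≤ J := by
    rw [hJeq]
    exact Ideal.pow_le_pow_right hib
  have hAJ : A ∈ J := hJle hAmem
  obtain ⟨y, hy, z, hz, hyz⟩ := Submodule.mem_sup.1 hAJ
  obtain ⟨x, rfl⟩ := Ideal.mem_span_singleton'.1 hy
  refine ⟨x, ?_⟩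
  have hxz : x * B - A = -z := by rw [← hyz]; ring
  rw [hxz, Valuation.map_neg]
  have h1 := (v.intValuation_le_pow_iff_mem z (b + 1)).2 hz
  refine lt_of_le_of_lt h1 ?_
  rw [hwB, WithZero.exp_lt_exp]
  push_cast
  omega

/-- **The valuation of the norm form** at a prime where `u` is not a square. -/
lemma intVal_normForm544 {u A B : R} (hu : ¬ ∃ x : R, x ^ 2 - u ∈ v.asIdeal)
    (hAB : ¬ (A = 0 ∧ B = 0)) :
    v.intValuation (A ^ 2 - u * B ^ 2) = max (v.intValuation A) (v.intValuation B) ^ 2 := by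
  set w := v.intValuation with hw
  have hu1 : w u ≤ 1 := v.intValuation_le_one u
  rcases lt_or_ge (w B) (w A) with hlt | hle
  · -- `A²` dominates
    rw [max_eq_left hlt.le]
    have hA0 : w A ≠ 0 := fun h => by rw [h] at hlt; exact not_lt_zero hlt
    have h1 : w (u * B ^ 2) < w (A ^ 2) := by
      rw [map_mul, map_pow, map_pow]
      calc w u * w B ^ 2 ≤ 1 * w B ^ 2 := mul_le_mul_left hu1 _
        _ = w B ^ 2 := one_mul _
        _ < w A ^ 2 := pow_lt_pow_left₀ hlt zero_le two_ne_zero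
    rw [Valuation.map_sub_eq_of_lt_left _ h1, map_pow]
  · rw [max_eq_right hle]
    have hB : B ≠ 0 := by
      intro hB0
      apply hAB
      refine ⟨?_, hB0⟩
      have h0 : w A ≤ 0 := by rw [hB0, map_zero] at hle; exact hle
      have h1 : w A = 0 := le_antisymm h0 zero_le
      by_contra hA0
      exact v.intValuation_ne_zero A hA0 h1
    have hwB0 : w B ≠ 0 := v.intValuation_ne_zero B hB
    have hwBpos : 0 < w B := zero_lt_iff.2 hwB0
    have hup : w (A ^ 2 - u * B ^ 2) ≤ w B ^ 2 := by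
      refine (Valuation.map_sub w _ _).trans (max_le ?_ ?_)
      · rw [map_pow]
        exact pow_le_pow_left₀ zero_le hle 2
      · rw [map_mul, map_pow]
        calc w u * w B ^ 2 ≤ 1 * w B ^ 2 := mul_le_mul_left hu1 _
          _ = w B ^ 2 := one_mul _
    refine le_antisymm hup ?_
    by_contra hcon
    have hlt : w (A ^ 2 - u * B ^ 2) < w B ^ 2 := lt_of_not_ge hcon
    obtain ⟨x, hx⟩ := exists_approx544 v hB hle
    apply hu
    refine ⟨x, ?_⟩
    rw [← v.intValuation_lt_one_iff_mem]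
    have hid : B ^ 2 * (x ^ 2 - u) = (x * B - A) * (x * B + A) + (A ^ 2 - u * B ^ 2) := by ring
    have hxB : w (x * B) ≤ w B := by
      rw [map_mul]
      calc w x * w B ≤ 1 * w B := mul_le_mul_left (v.intValuation_le_one x) _
        _ = w B := one_mul _
    have h2 : w (x * B + A) ≤ w B := (Valuation.map_add w _ _).trans (max_le hxB hle)
    have h3 : w ((x * B - A) * (x * B + A)) < w B ^ 2 := by
      rw [map_mul, pow_two]
      calc w (x * B - A) * w (x * B + A) ≤ w (x * B - A) * w B := mul_le_mul_right h2 _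
        _ < w B * w B := (mul_lt_mul_iff_left₀ hwBpos).2 hx
    have h4 : w (B ^ 2 * (x ^ 2 - u)) < w B ^ 2 := by
      rw [hid]
      exact lt_of_le_of_lt (Valuation.map_add w _ _) (max_lt h3 hlt)
    rw [map_mul, map_pow] at h4
    have hpos : 0 < w B ^ 2 := pow_pos hwBpos 2
    by_contra h5
    have h6 : 1 ≤ w (x ^ 2 - u) := not_lt.1 h5
    have h7 : w B ^ 2 ≤ w B ^ 2 * w (x ^ 2 - u) := by
      calc w B ^ 2 = w B ^ 2 * 1 := (mul_one _).symm
        _ ≤ w B ^ 2 * w (x ^ 2 - u) := mul_le_mul_right h6 _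
    exact absurd h4 (not_lt.2 h7)

end General

/-- **Leaf E1.C.9 `EvenOrdC`** (cut of helper476, `LT/CFT/H476/EQSpec.lean`), unconditional. -/
theorem evenOrdC544 : EQ.EvenOrdC := by
  classical
  intro K _ _ v u A B hu hne
  have hAB : ¬ (A = 0 ∧ B = 0) := by
    rintro ⟨rfl, rfl⟩
    exact hne (by ring)
  have hmain := intVal_normForm544 v (u := u) (A := A) (B := B) hu hAB
  rw [intVal_eq_exp544 v hne] at hmain
  show Even ((Associates.mk v.asIdeal).count
    (Associates.mk (Ideal.span {A ^ 2 - u * B ^ 2})).factors)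
  set n : ℕ := (Associates.mk v.asIdeal).count
    (Associates.mk (Ideal.span {A ^ 2 - u * B ^ 2})).factors with hn
  -- the maximum is the valuation of a nonzero element
  obtain ⟨C, hC0, hC⟩ : ∃ C : 𝓞 K, C ≠ 0 ∧
      max (v.intValuation A) (v.intValuation B) = v.intValuation C := by
    rcases le_total (v.intValuation A) (v.intValuation B) with h | h
    · refine ⟨B, ?_, max_eq_right h⟩
      intro hB0
      apply hAB
      refine ⟨?_, hB0⟩
      rw [hB0, map_zero] at h
      by_contra hA0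
      exact v.intValuation_ne_zero A hA0 (le_antisymm h zero_le)
    · refine ⟨A, ?_, max_eq_left h⟩
      intro hA0
      apply hAB
      refine ⟨hA0, ?_⟩
      rw [hA0, map_zero] at h
      by_contra hB0
      exact v.intValuation_ne_zero B hB0 (le_antisymm h zero_le)
  rw [hC, intVal_eq_exp544 v hC0, ← WithZero.exp_nsmul] at hmain
  have h := WithZero.exp_injective hmain
  set c : ℕ := (Associates.mk v.asIdeal).count (Associates.mk (Ideal.span {C})).factors with hc
  refine ⟨c, ?_⟩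
  have h' : -(n : ℤ) = 2 • (-(c : ℤ)) := h
  rw [nsmul_eq_mul] at h'
  push_cast at h'
  omega

end Fermat.Agent.LT.CFT.H544

end

end
-- ===== PACK-END LT/CFT/H544/EvenOrd.lean

-- ===== PACK-BEGIN LT/T6/H8/RightInvCC.lean
section




/-!
# Row LT, tower T6, leaf T6.23.02 `RightInvCC` (`GL₂(ℂ)` is unimodular) — helper8, OFF-MAIN

`rightInvCC_h8 : Fermat.Agent.LT.T6.H189.RightInvCC`, VERBATIM the Prop of
`LT/T6/H189/ArchIntSpec.lean` (helper189@45580d1ec, sha256 4ac6c090).  The proof is in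
`Unimod.lean` (Mathlib only): the modular character of `GL₂(ℂ)` is trivial.
-/

set_option autoImplicit false
set_option linter.style.haveILetI false

open MeasureTheory

namespace Fermat.Agent.LT.T6.H8

/-- **T6.23.02.**  Every Haar measure of `GL₂(ℂ)` is right invariant and inversion invariant. -/
theorem rightInvCC_h8 : Fermat.Agent.LT.T6.H189.RightInvCC := by
  letI : MeasurableSpace (GL (Fin 2) ℂ) := borel _
  haveI : BorelSpace (GL (Fin 2) ℂ) := ⟨rfl⟩
  intro μ hμ
  haveI := hμ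
  exact rightInv_GL2C8 μ

end Fermat.Agent.LT.T6.H8

end
-- ===== PACK-END LT/T6/H8/RightInvCC.lean

-- ===== PACK-BEGIN LT/T6/H964/AbelInv.lean
section


/-!
# Row LT, tower T6, leaf T6.24 (part 2): inversion of the Abel transform
(helper964, OFF-MAIN, Mathlib only)

* `abelT_abelT964`      : `A (A h) (ρ) = π ∫_{s > 0} h(ρ + s) ds` (polar coordinates);
* `abelT_abelT_deriv964`: `A (A g') = - π g`;
* `abel_inversion964`   : `g(ρ) = -(1/π) ∫ (A g)'(ρ + v²) dv`;
* `abelInv964 H = -(1/π) A (H')`, `abelT_abelInv964 : A (abelInv H) = H`,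
  `abelInv_abelT964 : abelInv (A g) = g`, smoothness and support of `abelInv H`.
-/

set_option autoImplicit false

open MeasureTheory Set Filter Topology Real
open scoped ContDiff

noncomputable section

namespace Fermat.Agent.LT.T6.H964

theorem integrable_prod_integrand964 {R : ℝ} {h : ℝ → ℂ} (hc : Continuous h)
    (hv : VanishesAbove964 R h) (ρ : ℝ) :
    Integrable (fun p : ℝ × ℝ => h (ρ + p.1 ^ 2 + p.2 ^ 2)) (volume.prod volume) := by
  have hcont : Continuous (fun p : ℝ × ℝ => h (ρ + p.1 ^ 2 + p.2 ^ 2)) := by fun_prop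
  have hsupp : HasCompactSupport (fun p : ℝ × ℝ => h (ρ + p.1 ^ 2 + p.2 ^ 2)) := by
    refine HasCompactSupport.intro
      ((isCompact_Icc (a := -rad964 R ρ) (b := rad964 R ρ)).prod
        (isCompact_Icc (a := -rad964 R ρ) (b := rad964 R ρ))) (fun p hp => ?_)
    rw [Set.mem_prod, not_and_or] at hp
    rcases hp with hp | hp
    · have h1 := integrand_eq_zero_of_rad964 (g := h) hv (a := ρ) (r := ρ + p.2 ^ 2)
        (by have := sq_nonneg p.2; linarith) hp
      rw [← h1]
      ring_nf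
    · exact integrand_eq_zero_of_rad964 (g := h) hv (a := ρ) (r := ρ + p.1 ^ 2)
        (by have := sq_nonneg p.1; linarith) hp
  have := hcont.integrable_of_hasCompactSupport (μ := (volume : Measure (ℝ × ℝ))) hsupp
  rwa [Measure.volume_eq_prod] at this

theorem abelT_abelT_eq_integral_prod964 {R : ℝ} {h : ℝ → ℂ} (hc : Continuous h)
    (hv : VanishesAbove964 R h) (ρ : ℝ) :
    abelT964 (abelT964 h) ρ = ∫ p : ℝ × ℝ, h (ρ + p.1 ^ 2 + p.2 ^ 2) := by
  rw [Measure.volume_eq_prod, integral_prod _ (integrable_prod_integrand964 hc hv ρ)]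
  rfl

theorem integral_polar964 (h : ℝ → ℂ) (ρ : ℝ) :
    ∫ p : ℝ × ℝ, h (ρ + p.1 ^ 2 + p.2 ^ 2) =
      (∫ r in Ioi (0 : ℝ), (r : ℂ) * h (ρ + r ^ 2)) * (2 * π : ℝ) := by
  calc ∫ p : ℝ × ℝ, h (ρ + p.1 ^ 2 + p.2 ^ 2)
      = ∫ p in polarCoord.target, p.1 • h (ρ + (p.1 * Real.cos p.2) ^ 2
          + (p.1 * Real.sin p.2) ^ 2) := by
        rw [← integral_comp_polarCoord_symm]
        simp only [polarCoord_symm_apply]
    _ = ∫ p in polarCoord.target, ((p.1 : ℂ) * h (ρ + p.1 ^ 2)) * (1 : ℂ) := by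
        congr with p : 1
        have e : ρ + (p.1 * Real.cos p.2) ^ 2 + (p.1 * Real.sin p.2) ^ 2 = ρ + p.1 ^ 2 := by
          have := Real.cos_sq_add_sin_sq p.2
          nlinarith [this]
        rw [e, mul_one, Complex.real_smul]
    _ = (∫ r in Ioi (0 : ℝ), (r : ℂ) * h (ρ + r ^ 2)) * ∫ _θ in Ioo (-π) π, (1 : ℂ) := by
        rw [polarCoord_target]
        exact setIntegral_prod_mul (fun r : ℝ => (r : ℂ) * h (ρ + r ^ 2)) (fun _ : ℝ => (1 : ℂ))
          (Ioi 0) (Ioo (-π) π)
    _ = (∫ r in Ioi (0 : ℝ), (r : ℂ) * h (ρ + r ^ 2)) * (2 * π : ℝ) := by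
        congr 1
        rw [setIntegral_const, measureReal_def, Real.volume_Ioo,
          ENNReal.toReal_ofReal (by linarith [Real.pi_pos])]
        simp
        ring

theorem integral_sq_subst964 (h : ℝ → ℂ) (ρ : ℝ) :
    ∫ r in Ioi (0 : ℝ), (r : ℂ) * h (ρ + r ^ 2) = (1 / 2 : ℂ) * ∫ s in Ioi (0 : ℝ), h (ρ + s) := by
  have key := integral_comp_rpow_Ioi (fun s : ℝ => h (ρ + s)) (p := 2) two_ne_zero
  rw [← key, ← integral_const_mul]
  refine setIntegral_congr_fun measurableSet_Ioi (fun r hr => ?_)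
  have hr0 : (0 : ℝ) < r := hr
  have e1 : r ^ ((2 : ℝ) - 1) = r := by
    norm_num
  have e2 : r ^ (2 : ℝ) = r ^ 2 := by
    rw [← Real.rpow_natCast]; norm_num
  simp only [e1, e2, abs_two, Complex.real_smul]
  push_cast
  ring

/-- **`A (A h) (ρ) = π ∫_{s > 0} h(ρ + s) ds`.** -/
theorem abelT_abelT964 {R : ℝ} {h : ℝ → ℂ} (hc : Continuous h)
    (hv : VanishesAbove964 R h) (ρ : ℝ) :
    abelT964 (abelT964 h) ρ = (π : ℂ) * ∫ s in Ioi (0 : ℝ), h (ρ + s) := by
  rw [abelT_abelT_eq_integral_prod964 hc hv, integral_polar964, integral_sq_subst964]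
  push_cast
  ring

theorem integrableOn_shift964 {R : ℝ} {f : ℝ → ℂ} (hc : Continuous f)
    (hv : VanishesAbove964 R f) (ρ : ℝ) : IntegrableOn (fun s : ℝ => f (ρ + s)) (Ioi 0) := by
  set c : ℝ := max (R - ρ) 0 with hc_def
  have h1 : IntegrableOn (fun s : ℝ => f (ρ + s)) (Icc 0 c) :=
    (by fun_prop : Continuous (fun s : ℝ => f (ρ + s))).integrableOn_Icc
  have h2 : Integrable ((Icc 0 c).indicator (fun s : ℝ => f (ρ + s))) :=
    (integrable_indicator_iff measurableSet_Icc).mpr h1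
  refine h2.integrableOn.congr_fun (fun s hs => ?_) measurableSet_Ioi
  have hs0 : (0 : ℝ) < s := hs
  by_cases hsc : s ≤ c
  · rw [indicator_of_mem (show s ∈ Icc 0 c from ⟨hs0.le, hsc⟩)]
  · rw [indicator_of_notMem (fun hmem => hsc hmem.2)]
    rw [not_le] at hsc
    symm
    apply hv
    have := le_max_left (R - ρ) 0
    linarith

/-- **`A (A g') = - π g`.** -/
theorem abelT_abelT_deriv964 {R : ℝ} {g : ℝ → ℂ} (hg : ContDiff ℝ 1 g)
    (hv : VanishesAbove964 R g) (ρ : ℝ) :
    abelT964 (abelT964 (deriv g)) ρ = -(π : ℂ) * g ρ := by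
  have hg' : Continuous (deriv g) := hg.continuous_deriv le_rfl
  rw [abelT_abelT964 hg' hv.deriv]
  have hderiv : ∀ s ∈ Ici (0 : ℝ), HasDerivAt (fun s : ℝ => g (ρ + s)) (deriv g (ρ + s)) s := by
    intro s _
    have h1 : HasDerivAt g (deriv g (ρ + s)) (ρ + s) :=
      (hg.differentiable one_ne_zero (ρ + s)).hasDerivAt
    have h2 : HasDerivAt (fun s : ℝ => ρ + s) 1 s := (hasDerivAt_id s).const_add _
    have h3 := h1.scomp s h2
    rw [one_smul] at h3
    exact h3
  have htend : Tendsto (fun s : ℝ => g (ρ + s)) atTop (𝓝 0) := by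
    apply tendsto_const_nhds.congr'
    filter_upwards [Ioi_mem_atTop (R - ρ)] with s hs
    symm
    apply hv
    have : R - ρ < s := hs
    linarith
  rw [integral_Ioi_of_hasDerivAt_of_tendsto' hderiv (integrableOn_shift964 hg' hv.deriv ρ) htend]
  simp

/-- **Abel inversion**: `g(ρ) = -(1/π) ∫ (A g)'(ρ + v²) dv`. -/
theorem abel_inversion964 {R : ℝ} {g : ℝ → ℂ} (hg : ContDiff ℝ 1 g)
    (hv : VanishesAbove964 R g) (ρ : ℝ) :
    g ρ = -(1 / (π : ℂ)) * ∫ v : ℝ, deriv (abelT964 g) (ρ + v ^ 2) := by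
  have h1 := abelT_abelT_deriv964 hg hv ρ
  rw [← deriv_abelT964 hg hv] at h1
  have hπ : (π : ℂ) ≠ 0 := by exact_mod_cast Real.pi_ne_zero
  change (∫ v : ℝ, deriv (abelT964 g) (ρ + v ^ 2)) = _ at h1
  rw [h1]
  field_simp

/-- The inverse Abel transform `H ↦ -(1/π) A (H')`. -/
def abelInv964 (H : ℝ → ℂ) (ρ : ℝ) : ℂ := -(1 / (π : ℂ)) * abelT964 (deriv H) ρ

theorem abelInv_vanishesAbove964 {R : ℝ} {H : ℝ → ℂ} (hv : VanishesAbove964 R H) :
    VanishesAbove964 R (abelInv964 H) := by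
  intro x hx
  unfold abelInv964
  rw [abelT_vanishesAbove964 hv.deriv x hx, mul_zero]

theorem contDiff_abelInv_nat964 (n : ℕ) {R : ℝ} {H : ℝ → ℂ} (hH : ContDiff ℝ (n + 1 : ℕ) H)
    (hv : VanishesAbove964 R H) : ContDiff ℝ n (abelInv964 H) := by
  have h1 : ContDiff ℝ n (deriv H) := by
    rw [Nat.cast_succ, contDiff_succ_iff_deriv] at hH
    exact hH.2.2
  exact contDiff_const.mul (contDiff_abelT_nat964 n h1 hv.deriv)

theorem contDiff_abelInv964 {R : ℝ} {H : ℝ → ℂ} (hH : ContDiff ℝ ∞ H)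
    (hv : VanishesAbove964 R H) : ContDiff ℝ ∞ (abelInv964 H) :=
  contDiff_infty.mpr fun n =>
    contDiff_abelInv_nat964 n (hH.of_le (by exact_mod_cast le_top)) hv

/-- `A (A⁻¹ H) = H` for `H` of class `C²` vanishing above `R`. -/
theorem abelT_abelInv964 {R : ℝ} {H : ℝ → ℂ} (hH : ContDiff ℝ 2 H)
    (hv : VanishesAbove964 R H) (r : ℝ) : abelT964 (abelInv964 H) r = H r := by
  have h1 : ContDiff ℝ 1 H := hH.of_le (by norm_num)
  have e : abelInv964 H = fun x => -(1 / (π : ℂ)) * abelT964 (deriv H) x := rfl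
  rw [e, abelT_smul964, abelT_abelT_deriv964 h1 hv]
  have hπ : (π : ℂ) ≠ 0 := by exact_mod_cast Real.pi_ne_zero
  field_simp

/-- `A⁻¹ (A g) = g` for `g` of class `C¹` vanishing above `R`. -/
theorem abelInv_abelT964 {R : ℝ} {g : ℝ → ℂ} (hg : ContDiff ℝ 1 g)
    (hv : VanishesAbove964 R g) (ρ : ℝ) : abelInv964 (abelT964 g) ρ = g ρ := by
  unfold abelInv964
  rw [deriv_abelT964 hg hv, abelT_abelT_deriv964 hg hv]
  have hπ : (π : ℂ) ≠ 0 := by exact_mod_cast Real.pi_ne_zero
  field_simp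

/-- **The Abel transform is a bijection of the smooth functions vanishing above `R`.** -/
theorem abel_bijection964 (R : ℝ) (H : ℝ → ℂ) (hH : ContDiff ℝ ∞ H)
    (hv : VanishesAbove964 R H) :
    ∃ g : ℝ → ℂ, ContDiff ℝ ∞ g ∧ VanishesAbove964 R g ∧ abelT964 g = H ∧
      ∀ g' : ℝ → ℂ, ContDiff ℝ 1 g' → (∃ R', VanishesAbove964 R' g') → abelT964 g' = H →
        g' = g := by
  have h2 : ContDiff ℝ 2 H := by exact_mod_cast contDiff_infty.mp hH 2
  refine ⟨abelInv964 H, contDiff_abelInv964 hH hv, abelInv_vanishesAbove964 hv,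
    funext fun r => abelT_abelInv964 h2 hv r, ?_⟩
  rintro g' hg' ⟨R', hv'⟩ rfl
  funext ρ
  exact (abelInv_abelT964 hg' hv' ρ).symm

end Fermat.Agent.LT.T6.H964

end
end
-- ===== PACK-END LT/T6/H964/AbelInv.lean

-- ===== PACK-BEGIN LT/T7/H159/HaarSplit.lean
section


/-!
# Row LT, tower T7, field `matched`, core node CutIntC305 -- ASSET "HAAR-SPLIT" (helper159)

OFF-MAIN.  MATHLIB ONLY, abstract.  No hole, nothing assumed.  ADDITIVE (suffix `159`).

THE SPLITTING OF THE HAAR MEASURE OF A RESTRICTED PRODUCT, IN INTEGRAL FORM.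

* `isHaarMeasure_map_restrict159`: `G` a topological group with a Haar measure `μ`, `E ⊆ G` an
  open subgroup, `p : G →* H` a continuous homomorphism which maps `E` ONTO `H`, properly
  (`E ∩ p⁻¹(C)` lies in a compact set for every compact `C`): the image of `μ|_E` under `p` is
  a Haar measure of `H`.
* `integral_map_restrict159`: `∫_E F(p g) dμ(g) = ∫_H F d(p_* μ|_E)`.
* `IsRestrProd159 μ p K S₀`: the abstract form of "`G` is the restricted product of the `X i`
  with respect to the subgroups `K i` (`i ∉ S₀`)": for every finite `S ⊇ S₀` the set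
  `E_S = {g : p_i(g) ∈ K_i for i ∉ S}` is open and `(p_i)_{i ∈ S}` maps it onto
  `∏_{i ∈ S} X i`, properly on boxes.
* **`integral_restr159`** (`restrMeas_eq159`, `exists_const159`): if `μ_i` are Haar measures
  of the `X i` with `μ_i(K_i) = 1` for `i ∉ S₀`, there is ONE constant `0 < c < ∞`
  (`restrConst159 μ p K μ' S₀`, `restrConst_pos159`) such that for EVERY finite `S ⊇ S₀` and
  every `F` on `∏_{i ∈ S} X i` (a.e. strongly measurable)

      ∫_{E_S} F((p_i g)_{i ∈ S}) dμ(g) = c · ∫ F d(⊗_{i ∈ S} μ_i).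

* **`integral_restr_prod159`**: the same for a product `F = ∏_{i ∈ S} f_i(x_i)` of measurable
  functions: `∫_{E_S} ∏_{i ∈ S} f_i(p_i g) dμ(g) = c · ∏_{i ∈ S} ∫ f_i dμ_i`.
* `const_unique159`: the constants at two levels `S ⊆ S'` agree (boxes of compact
  neighbourhoods of one, `K_i` at the new places).

USE (CutIntC305): `G = GL₂(𝔸_K)`, `ι` = the places of `K` (for the field upstairs: group the
places over `v`, `X v = ∏_{w ∣ v} GL₂(K'_w)`), `p` = the components (`finGL305`, `infGL305`),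
`K v = GL₂(𝒪_v)`, `S₀ ⊇` the infinite places; the integrand of the cut-off integral with a
product cut-off `β = 1_{E_S} ∏_{v ∈ S} β_v` is `1_{E_S}(y) ∏_{v ∈ S} F_v(y_v)` for
`S = T_δ ∪ S_∞` (good units outside: `GoodUnit*.lean`), and the constant does not depend on
`S`, hence not on `δ`.
-/

set_option autoImplicit false

open MeasureTheory MeasureTheory.Measure Set Filter

noncomputable section

namespace Fermat.Agent.LT.T7.H159

section Push

variable {G H : Type*} [Group G] [TopologicalSpace G] [IsTopologicalGroup G]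
  [MeasurableSpace G] [BorelSpace G]
  [Group H] [TopologicalSpace H] [IsTopologicalGroup H] [MeasurableSpace H] [BorelSpace H]

omit [IsTopologicalGroup G] [IsTopologicalGroup H] in
theorem map_restrict_apply159 (μ : Measure G) (E : Subgroup G)
    (p : G →* H) (hp : Continuous p) {A : Set H} (hA : MeasurableSet A) :
    Measure.map p (μ.restrict (E : Set G)) A = μ (p ⁻¹' A ∩ (E : Set G)) := by
  rw [Measure.map_apply hp.measurable hA, Measure.restrict_apply (hp.measurable hA)]

/-- The image of the restriction of a Haar measure to an open subgroup under a continuous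
homomorphism which is onto and proper on the subgroup is a Haar measure. -/
theorem isHaarMeasure_map_restrict159 (μ : Measure G) [μ.IsHaarMeasure] (E : Subgroup G)
    (hE : IsOpen (E : Set G)) (p : G →* H) (hp : Continuous p)
    (hsurj : ∀ h : H, ∃ e ∈ E, p e = h)
    (hproper : ∀ C : Set H, IsCompact C → IsClosed C →
      ∃ C' : Set G, IsCompact C' ∧ p ⁻¹' C ∩ (E : Set G) ⊆ C') :
    (Measure.map p (μ.restrict (E : Set G))).IsHaarMeasure := by
  have hinv : (Measure.map p (μ.restrict (E : Set G))).IsMulLeftInvariant := by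
    refine ⟨fun h => ?_⟩
    obtain ⟨e, he, rfl⟩ := hsurj h
    refine Measure.ext fun A hA => ?_
    have hm : Measurable fun x : H => p e * x := measurable_const_mul _
    rw [Measure.map_apply hm hA, map_restrict_apply159 μ E p hp (hm hA),
      map_restrict_apply159 μ E p hp hA]
    have hset : p ⁻¹' ((fun x : H => p e * x) ⁻¹' A) ∩ (E : Set G)
        = (fun g : G => e * g) ⁻¹' (p ⁻¹' A ∩ (E : Set G)) := by
      ext g
      simp only [mem_inter_iff, mem_preimage, map_mul, SetLike.mem_coe]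
      constructor
      · rintro ⟨h1, h2⟩
        exact ⟨h1, E.mul_mem he h2⟩
      · rintro ⟨h1, h2⟩
        refine ⟨h1, ?_⟩
        have := E.mul_mem (E.inv_mem he) h2
        simpa using this
    rw [hset]
    exact measure_preimage_mul μ e _
  refine { toIsMulLeftInvariant := hinv, lt_top_of_isCompact := ?_, toIsOpenPosMeasure := ?_ }
  · intro C hC
    have hcl : IsCompact (closure C) := hC.closure
    obtain ⟨C', hC', hsub⟩ := hproper (closure C) hcl isClosed_closure
    calc Measure.map p (μ.restrict (E : Set G)) C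
        ≤ Measure.map p (μ.restrict (E : Set G)) (closure C) := measure_mono subset_closure
      _ = μ (p ⁻¹' closure C ∩ (E : Set G)) :=
          map_restrict_apply159 μ E p hp isClosed_closure.measurableSet
      _ ≤ μ C' := measure_mono hsub
      _ < ⊤ := hC'.measure_lt_top
  · refine ⟨fun U hU hne => ?_⟩
    rw [map_restrict_apply159 μ E p hp hU.measurableSet]
    obtain ⟨h, hh⟩ := hne
    obtain ⟨e, he, rfl⟩ := hsurj h
    exact ((hU.preimage hp).inter hE).measure_pos μ ⟨e, hh, he⟩ |>.ne'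

omit [IsTopologicalGroup G] [IsTopologicalGroup H] in
/-- `∫_E F(p g) dμ(g) = ∫ F d(p_* μ|_E)`. -/
theorem integral_map_restrict159 {X : Type*} [NormedAddCommGroup X] [NormedSpace ℝ X]
    (μ : Measure G) (E : Subgroup G) (p : G →* H) (hp : Continuous p)
    (F : H → X) (hF : AEStronglyMeasurable F (Measure.map p (μ.restrict (E : Set G)))) :
    ∫ g in (E : Set G), F (p g) ∂μ = ∫ h, F h ∂(Measure.map p (μ.restrict (E : Set G))) :=
  (integral_map hp.measurable.aemeasurable hF).symm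

end Push

section Restr

variable {G : Type*} [Group G] [TopologicalSpace G] [IsTopologicalGroup G]
  [MeasurableSpace G] [BorelSpace G]
  {ι : Type*} {X : ι → Type*} [∀ i, Group (X i)] [∀ i, TopologicalSpace (X i)]
  [∀ i, IsTopologicalGroup (X i)] [∀ i, MeasurableSpace (X i)] [∀ i, BorelSpace (X i)]
  [∀ i, LocallyCompactSpace (X i)] [∀ i, SecondCountableTopology (X i)]

/-- The subgroup `E_S = {g : p_i(g) ∈ K_i for all i ∉ S}`. -/
def restrSub159 (p : ∀ i, G →* X i) (K : ∀ i, Subgroup (X i)) (S : Finset ι) : Subgroup G where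
  carrier := {g | ∀ i, i ∉ S → p i g ∈ K i}
  one_mem' := fun i _ => by simp only [map_one]; exact (K i).one_mem
  mul_mem' := fun {a b} ha hb i hi => by
    simp only [map_mul]; exact (K i).mul_mem (ha i hi) (hb i hi)
  inv_mem' := fun {a} ha i hi => by simp only [map_inv]; exact (K i).inv_mem (ha i hi)

omit [TopologicalSpace G] [IsTopologicalGroup G] [MeasurableSpace G] [BorelSpace G]
  [∀ i, TopologicalSpace (X i)] [∀ i, IsTopologicalGroup (X i)] [∀ i, MeasurableSpace (X i)]
  [∀ i, BorelSpace (X i)] [∀ i, LocallyCompactSpace (X i)]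
  [∀ i, SecondCountableTopology (X i)] in
theorem mem_restrSub159 (p : ∀ i, G →* X i) (K : ∀ i, Subgroup (X i)) (S : Finset ι) (g : G) :
    g ∈ restrSub159 p K S ↔ ∀ i, i ∉ S → p i g ∈ K i := Iff.rfl

/-- The projection `g ↦ (p_i g)_{i ∈ S}`. -/
def restrProj159 (p : ∀ i, G →* X i) (S : Finset ι) : G →* (∀ i : S, X i) :=
  MonoidHom.pi fun i : S => p i

omit [TopologicalSpace G] [IsTopologicalGroup G] [MeasurableSpace G] [BorelSpace G]
  [∀ i, TopologicalSpace (X i)] [∀ i, IsTopologicalGroup (X i)] [∀ i, MeasurableSpace (X i)]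
  [∀ i, BorelSpace (X i)] [∀ i, LocallyCompactSpace (X i)]
  [∀ i, SecondCountableTopology (X i)] in
@[simp] theorem restrProj_apply159 (p : ∀ i, G →* X i) (S : Finset ι) (g : G) (i : S) :
    restrProj159 p S g i = p i g := rfl

/-- The image of `μ|_{E_S}` in `∏_{i ∈ S} X i`. -/
def restrMeas159 (μ : Measure G) (p : ∀ i, G →* X i) (K : ∀ i, Subgroup (X i))
    (S : Finset ι) : Measure (∀ i : S, X i) :=
  Measure.map (restrProj159 p S) (μ.restrict (restrSub159 p K S : Set G))

/-- **`G` IS THE RESTRICTED PRODUCT** of the `X i` with respect to the subgroups `K i`, `i ∉ S₀`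
(abstract form). -/
structure IsRestrProd159 (p : ∀ i, G →* X i) (K : ∀ i, Subgroup (X i)) (S₀ : Finset ι) :
    Prop where
  cont : ∀ i, Continuous (p i)
  isOpenK : ∀ i, i ∉ S₀ → IsOpen (K i : Set (X i))
  isOpen : ∀ S : Finset ι, S₀ ⊆ S → IsOpen (restrSub159 p K S : Set G)
  surj : ∀ S : Finset ι, S₀ ⊆ S → ∀ x : (∀ i : S, X i),
    ∃ g ∈ restrSub159 p K S, restrProj159 p S g = x
  proper : ∀ S : Finset ι, S₀ ⊆ S → ∀ C : ∀ i : ι, Set (X i), (∀ i ∈ S, IsCompact (C i)) →
    ∃ C' : Set G, IsCompact C' ∧ {g | g ∈ restrSub159 p K S ∧ ∀ i ∈ S, p i g ∈ C i} ⊆ C'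

variable {p : ∀ i, G →* X i} {K : ∀ i, Subgroup (X i)} {S₀ : Finset ι}

omit [IsTopologicalGroup G] [MeasurableSpace G] [BorelSpace G]
  [∀ i, IsTopologicalGroup (X i)] [∀ i, MeasurableSpace (X i)]
  [∀ i, BorelSpace (X i)] [∀ i, LocallyCompactSpace (X i)]
  [∀ i, SecondCountableTopology (X i)] in
theorem continuous_restrProj159 (h : IsRestrProd159 p K S₀) (S : Finset ι) :
    Continuous (restrProj159 p S) :=
  continuous_pi fun i => h.cont i

omit [∀ i, LocallyCompactSpace (X i)] in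
/-- The image measure is a Haar measure. -/
theorem isHaarMeasure_restrMeas159 (μ : Measure G) [μ.IsHaarMeasure]
    (h : IsRestrProd159 p K S₀) (S : Finset ι) (hS : S₀ ⊆ S) :
    (restrMeas159 μ p K S).IsHaarMeasure := by
  refine isHaarMeasure_map_restrict159 μ (restrSub159 p K S) (h.isOpen S hS) (restrProj159 p S)
    (continuous_restrProj159 h S) (h.surj S hS) ?_
  intro C hC _
  classical
  obtain ⟨C', hC', hsub⟩ := h.proper S hS
    (fun i => if hi : i ∈ S then (fun x : ∀ i : S, X i => x ⟨i, hi⟩) '' C else ∅)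
    (fun i hi => by
      rw [dif_pos hi]
      exact hC.image (continuous_apply (⟨i, hi⟩ : S)))
  refine ⟨C', hC', fun g hg => hsub ⟨hg.2, fun i hi => ?_⟩⟩
  rw [dif_pos hi]
  exact ⟨restrProj159 p S g, hg.1, rfl⟩

omit [IsTopologicalGroup G] [∀ i, IsTopologicalGroup (X i)]
  [∀ i, LocallyCompactSpace (X i)] in
/-- The measure of a box. -/
theorem restrMeas_box159 (μ : Measure G) (h : IsRestrProd159 p K S₀) (S : Finset ι)
    (C : ∀ i : ι, Set (X i)) (hC : ∀ i ∈ S, MeasurableSet (C i)) :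
    restrMeas159 μ p K S (Set.pi univ fun i : S => C i)
      = μ {g | g ∈ restrSub159 p K S ∧ ∀ i ∈ S, p i g ∈ C i} := by
  have hm : MeasurableSet (Set.pi univ fun i : S => C i) :=
    MeasurableSet.univ_pi fun i => hC i i.2
  rw [restrMeas159, map_restrict_apply159 μ _ _ (continuous_restrProj159 h S) hm]
  congr 1
  ext g
  constructor
  · rintro ⟨h1, h2⟩
    exact ⟨h2, fun i hi => h1 ⟨i, hi⟩ (Set.mem_univ _)⟩
  · rintro ⟨h1, h2⟩
    exact ⟨fun i _ => h2 i.1 i.2, h1⟩

omit [∀ i, SecondCountableTopology (X i)] in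
/-- A compact measurable neighbourhood of `1` (positive finite Haar measure). -/
theorem exists_nice_nhds159 (i : ι) (μ' : Measure (X i)) [μ'.IsHaarMeasure] :
    ∃ C : Set (X i), IsCompact C ∧ MeasurableSet C ∧ μ' C ≠ 0 ∧ μ' C ≠ ⊤ := by
  obtain ⟨C, hC, hC1⟩ := exists_compact_mem_nhds (1 : X i)
  refine ⟨closure C, hC.closure, isClosed_closure.measurableSet, ?_, hC.closure.measure_lt_top.ne⟩
  exact (measure_pos_of_mem_nhds μ' (Filter.mem_of_superset hC1 subset_closure)).ne'

/-- At every level `S ⊇ S₀` the image measure is a positive multiple of the product measure. -/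
theorem exists_smul159 (μ : Measure G) [μ.IsHaarMeasure] (h : IsRestrProd159 p K S₀)
    (μ' : ∀ i, Measure (X i)) [∀ i, (μ' i).IsHaarMeasure] (S : Finset ι) (hS : S₀ ⊆ S) :
    ∃ c : NNReal, 0 < c ∧ restrMeas159 μ p K S = c • Measure.pi fun i : S => μ' i := by
  have hH := isHaarMeasure_restrMeas159 μ h S hS
  exact ⟨haarScalarFactor (restrMeas159 μ p K S) (Measure.pi fun i : S => μ' i),
    haarScalarFactor_pos_of_isHaarMeasure _ _, isMulLeftInvariant_eq_smul _ _⟩

omit [IsTopologicalGroup G] in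
/-- THE CONSTANT DOES NOT DEPEND ON `S` (if `μ_i(K_i) = 1` outside `S₀`). -/
theorem const_unique159 (μ : Measure G) (h : IsRestrProd159 p K S₀)
    (μ' : ∀ i, Measure (X i)) [∀ i, (μ' i).IsHaarMeasure]
    (hK : ∀ i, i ∉ S₀ → μ' i (K i : Set (X i)) = 1)
    (S S' : Finset ι) (hS : S₀ ⊆ S) (hSS' : S ⊆ S') (c c' : NNReal)
    (hc : restrMeas159 μ p K S = c • Measure.pi fun i : S => μ' i)
    (hc' : restrMeas159 μ p K S' = c' • Measure.pi fun i : S' => μ' i) :
    c' = c := by
  classical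
  choose C hCc hCm hC0 hCt using fun i => exists_nice_nhds159 i (μ' i)
  set C' : ∀ i, Set (X i) := fun i => if i ∈ S then C i else (K i : Set (X i)) with hC'
  have hC'm : ∀ i ∈ S', MeasurableSet (C' i) := by
    intro i _
    by_cases hi : i ∈ S
    · simp only [hC', if_pos hi]; exact hCm i
    · simp only [hC', if_neg hi]
      exact (h.isOpenK i fun h0 => hi (hS h0)).measurableSet
  have hset : {g | g ∈ restrSub159 p K S' ∧ ∀ i ∈ S', p i g ∈ C' i}
      = {g | g ∈ restrSub159 p K S ∧ ∀ i ∈ S, p i g ∈ C i} := by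
    ext g
    constructor
    · rintro ⟨h1, h2⟩
      refine ⟨fun i hi => ?_, fun i hi => ?_⟩
      · by_cases hi' : i ∈ S'
        · have := h2 i hi'
          simpa only [hC', if_neg hi, SetLike.mem_coe] using this
        · exact h1 i hi'
      · have := h2 i (hSS' hi)
        simpa only [hC', if_pos hi] using this
    · rintro ⟨h1, h2⟩
      refine ⟨fun i hi => h1 i fun hiS => hi (hSS' hiS), fun i _ => ?_⟩
      by_cases hi : i ∈ S
      · simp only [hC', if_pos hi]; exact h2 i hi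
      · simp only [hC', if_neg hi]; exact h1 i hi
  have e1 := restrMeas_box159 μ h S C fun i _ => hCm i
  have e2 := restrMeas_box159 μ h S' C' hC'm
  rw [hset, ← e1, hc, hc'] at e2
  simp only [Measure.smul_apply, Measure.pi_pi] at e2
  have hprod : ∏ i : S', μ' i (C' i) = ∏ i : S, μ' i (C i) := by
    rw [Finset.prod_coe_sort S' fun i => μ' i (C' i), Finset.prod_coe_sort S fun i => μ' i (C i),
      ← Finset.prod_sdiff hSS']
    have h1 : ∏ i ∈ S' \ S, μ' i (C' i) = 1 := by
      refine Finset.prod_eq_one fun i hi => ?_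
      have hi' := (Finset.mem_sdiff.mp hi).2
      simp only [hC', if_neg hi']
      exact hK i fun h0 => hi' (hS h0)
    have h2 : ∏ i ∈ S, μ' i (C' i) = ∏ i ∈ S, μ' i (C i) := by
      refine Finset.prod_congr rfl fun i hi => ?_
      simp only [hC', if_pos hi]
    rw [h1, h2, one_mul]
  rw [hprod] at e2
  have hP0 : ∏ i : S, μ' i (C i) ≠ 0 := Finset.prod_ne_zero_iff.mpr fun i _ => hC0 i
  have hPt : ∏ i : S, μ' i (C i) ≠ ⊤ := ENNReal.prod_ne_top fun i _ => hCt i
  simp only [ENNReal.smul_def, smul_eq_mul] at e2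
  have := (ENNReal.mul_left_inj hP0 hPt).mp e2
  exact_mod_cast this

/-- **THE SPLITTING OF THE HAAR MEASURE (measure form).**  ONE constant for all `S ⊇ S₀`. -/
theorem exists_const159 (μ : Measure G) [μ.IsHaarMeasure] (h : IsRestrProd159 p K S₀)
    (μ' : ∀ i, Measure (X i)) [∀ i, (μ' i).IsHaarMeasure]
    (hK : ∀ i, i ∉ S₀ → μ' i (K i : Set (X i)) = 1) :
    ∃ c : NNReal, 0 < c ∧ ∀ S : Finset ι, S₀ ⊆ S →
      restrMeas159 μ p K S = c • Measure.pi fun i : S => μ' i := by
  obtain ⟨c, hc0, hc⟩ := exists_smul159 μ h μ' S₀ (Finset.Subset.refl _)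
  refine ⟨c, hc0, fun S hS => ?_⟩
  obtain ⟨c', -, hc'⟩ := exists_smul159 μ h μ' S hS
  rw [hc', const_unique159 μ h μ' hK S₀ S (Finset.Subset.refl _) hS c c' hc hc']

open Classical in
/-- THE CONSTANT of `μ` against the product of the local measures. -/
def restrConst159 (μ : Measure G) (p : ∀ i, G →* X i) (K : ∀ i, Subgroup (X i))
    (μ' : ∀ i, Measure (X i)) (S₀ : Finset ι) : NNReal :=
  if h : ∃ c : NNReal, 0 < c ∧ ∀ S : Finset ι, S₀ ⊆ S →
      restrMeas159 μ p K S = c • Measure.pi fun i : S => μ' i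
  then Classical.choose h else 1

omit [IsTopologicalGroup G] [BorelSpace G] [∀ i, IsTopologicalGroup (X i)]
  [∀ i, BorelSpace (X i)] [∀ i, LocallyCompactSpace (X i)]
  [∀ i, SecondCountableTopology (X i)] [TopologicalSpace G] [∀ i, TopologicalSpace (X i)] in
/-- The constant is positive (always). -/
theorem restrConst_pos159 (μ : Measure G) (p : ∀ i, G →* X i) (K : ∀ i, Subgroup (X i))
    (μ' : ∀ i, Measure (X i)) (S₀ : Finset ι) :
    (0 : ℝ) < (restrConst159 μ p K μ' S₀ : ℝ) := by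
  classical
  unfold restrConst159
  split_ifs with h
  · exact_mod_cast (Classical.choose_spec h).1
  · simp

/-- **THE SPLITTING OF THE HAAR MEASURE (measure form).** -/
theorem restrMeas_eq159 (μ : Measure G) [μ.IsHaarMeasure] (h : IsRestrProd159 p K S₀)
    (μ' : ∀ i, Measure (X i)) [∀ i, (μ' i).IsHaarMeasure]
    (hK : ∀ i, i ∉ S₀ → μ' i (K i : Set (X i)) = 1) (S : Finset ι) (hS : S₀ ⊆ S) :
    restrMeas159 μ p K S = restrConst159 μ p K μ' S₀ • Measure.pi fun i : S => μ' i := by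
  classical
  have hex := exists_const159 μ h μ' hK
  unfold restrConst159
  rw [dif_pos hex]
  exact (Classical.choose_spec hex).2 S hS

/-- **THE SPLITTING OF THE HAAR MEASURE (integral form).** -/
theorem integral_restr159 (μ : Measure G) [μ.IsHaarMeasure] (h : IsRestrProd159 p K S₀)
    (μ' : ∀ i, Measure (X i)) [∀ i, (μ' i).IsHaarMeasure]
    (hK : ∀ i, i ∉ S₀ → μ' i (K i : Set (X i)) = 1) (S : Finset ι) (hS : S₀ ⊆ S)
    (F : (∀ i : S, X i) → ℂ) (hF : AEStronglyMeasurable F (Measure.pi fun i : S => μ' i)) :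
    ∫ g in (restrSub159 p K S : Set G), F (restrProj159 p S g) ∂μ
      = ((restrConst159 μ p K μ' S₀ : ℝ) : ℂ) * ∫ x, F x ∂(Measure.pi fun i : S => μ' i) := by
  have e : Measure.map (restrProj159 p S) (μ.restrict (restrSub159 p K S : Set G))
      = restrConst159 μ p K μ' S₀ • Measure.pi fun i : S => μ' i :=
    restrMeas_eq159 μ h μ' hK S hS
  have hF' : AEStronglyMeasurable F
      (Measure.map (restrProj159 p S) (μ.restrict (restrSub159 p K S : Set G))) := by
    rw [e]
    exact hF.smul_measure _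
  rw [integral_map_restrict159 μ _ _ (continuous_restrProj159 h S) F hF', e,
    integral_smul_nnreal_measure, NNReal.smul_def, Complex.real_smul]

/-- **THE SPLITTING OF THE HAAR MEASURE (integral form, products).** -/
theorem integral_restr_prod159 (μ : Measure G) [μ.IsHaarMeasure] (h : IsRestrProd159 p K S₀)
    (μ' : ∀ i, Measure (X i)) [∀ i, (μ' i).IsHaarMeasure]
    (hK : ∀ i, i ∉ S₀ → μ' i (K i : Set (X i)) = 1) (S : Finset ι) (hS : S₀ ⊆ S)
    (f : ∀ i, X i → ℂ) (hf : ∀ i ∈ S, Measurable (f i)) :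
    ∫ g in (restrSub159 p K S : Set G), ∏ i ∈ S, f i (p i g) ∂μ
      = ((restrConst159 μ p K μ' S₀ : ℝ) : ℂ) * ∏ i ∈ S, ∫ x, f i x ∂(μ' i) := by
  have hF : Measurable fun x : (∀ i : S, X i) => ∏ i : S, f i (x i) :=
    Finset.measurable_prod _ fun i _ => (hf i i.2).comp (measurable_pi_apply i)
  have e := integral_restr159 μ h μ' hK S hS _ hF.aestronglyMeasurable
  rw [integral_fintype_prod_eq_prod (fun i : S => f i)] at e
  rw [Finset.prod_coe_sort S fun i => ∫ x, f i x ∂(μ' i)] at e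
  rw [← e]
  refine integral_congr_ae (Filter.Eventually.of_forall fun g => ?_)
  simp only [restrProj_apply159]
  exact (Finset.prod_coe_sort S fun i => f i (p i g)).symm

end Restr

end Fermat.Agent.LT.T7.H159

end

end
-- ===== PACK-END LT/T7/H159/HaarSplit.lean

-- ===== PACK-BEGIN LT/T7/H194/Orb/IntegAbs.lean
section


/-!
# Row LT, tower T7, station C2.7 (cut-off integrals): ASSET, integrability of cut-off orbital
integrands -- the abstract form (helper194)

OFF-MAIN.  Mathlib only.  No hole, nothing assumed.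

`G` a locally compact, second countable, Hausdorff group with a left invariant measure `μ` which
is finite on compact sets, `T` a subgroup with a left invariant measure `μT` which is positive on
the non-empty open sets, `β ≥ 0` a cut-off function (`∫_T β(t y) dμT(t) = 1` for all `y`).

    lintegral_le_of_supp194 : for `C` compact there is `c < ∞` with `∫⁻ f dμ ≤ c` for all
        `0 ≤ f ≤ β` which vanish outside `T C`
    integrable_mul_cut194 : a bounded measurable `Ψ` which vanishes outside `T C`: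
        `Ψ β` is integrable

NO commutativity, NO unimodularity: with `Θ(y) = μT{t : t⁻¹ y ∈ V C}` (`V` a compact
neighbourhood of `1`): `Θ ≥ μT{s : s⁻¹ ∈ V°} > 0` on `T C` (left invariance of `μT`) and
`∫ Θ β dμ = ∫_{V C} ∫_T β(t y) dμT(t) dμ(y) = μ(V C)` (Tonelli, left invariance of `μ`).
-/

set_option autoImplicit false
set_option linter.unusedSectionVars false
set_option linter.style.haveILetI false

noncomputable section

namespace Fermat.Agent.LT.T7.H194

open MeasureTheory Set Topology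
open scoped ENNReal Pointwise

section IntegAbs

variable {G : Type*} [Group G] [TopologicalSpace G] [IsTopologicalGroup G]
  [MeasurableSpace G] [BorelSpace G] [SecondCountableTopology G] [T2Space G]
  [LocallyCompactSpace G]
  (T : Subgroup G) [MeasurableSpace T] [BorelSpace T]
  (μ : Measure G) [SFinite μ] [μ.IsMulLeftInvariant] [IsFiniteMeasureOnCompacts μ]
  (μT : Measure T) [SFinite μT] [μT.IsMulLeftInvariant] [μT.IsOpenPosMeasure]

/-- **The bound.** -/
theorem lintegral_le_of_supp194 {b : G → ℝ≥0∞} (hb : Measurable b)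
    (hcut : ∀ y, ∫⁻ t : T, b ((t : G) * y) ∂μT ≤ 1) {C : Set G} (hC : IsCompact C) :
    ∃ c : ℝ≥0∞, c ≠ ∞ ∧ ∀ f : G → ℝ≥0∞,
      (∀ y, f y ≠ 0 → ∃ t ∈ T, ∃ x ∈ C, y = t * x) → (∀ y, f y ≤ b y) →
        ∫⁻ y, f y ∂μ ≤ c := by
  obtain ⟨V, hVc, hV1⟩ := exists_compact_mem_nhds (1 : G)
  set C' : Set G := V * C with hC'
  have hC'c : IsCompact C' := hVc.mul hC
  have hC'm : MeasurableSet C' := hC'c.isClosed.measurableSet
  -- the open set `W₀`
  set W₀ : Set T := {s : T | ((s : G))⁻¹ ∈ interior V} with hW₀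
  have hc0 : Continuous (fun s : T => ((s : G))⁻¹) := continuous_subtype_val.inv
  have hW₀o : IsOpen W₀ := isOpen_interior.preimage hc0
  have hW₀n : W₀.Nonempty := ⟨1, by
    show (((1 : T) : G))⁻¹ ∈ interior V
    rw [Subgroup.coe_one, inv_one]
    exact mem_interior_iff_mem_nhds.2 hV1⟩
  have hm0 : μT W₀ ≠ 0 := (hW₀o.measure_pos μT hW₀n).ne'
  set m : ℝ≥0∞ := min (μT W₀) 1 with hm
  have hm_ne0 : m ≠ 0 := by
    rw [hm]
    intro h
    rcases min_eq_iff.1 h with h1 | h1
    · exact hm0 h1.1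
    · exact one_ne_zero h1.1
  have hm_top : m ≠ ∞ := ne_top_of_le_ne_top ENNReal.one_ne_top (min_le_right _ _)
  -- the slices
  set I : G → ℝ≥0∞ := C'.indicator (fun _ => (1 : ℝ≥0∞)) with hI
  have hIm : Measurable I := measurable_const.indicator hC'm
  set Θ : G → ℝ≥0∞ := fun y => ∫⁻ t : T, I (((t : G))⁻¹ * y) ∂μT with hΘ
  have hinvc : Continuous (fun p : G × T => ((p.2 : G))⁻¹ * p.1) :=
    ((continuous_subtype_val.comp continuous_snd).inv).mul continuous_fst
  have hmulc : Continuous (fun p : G × T => (p.2 : G) * p.1) :=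
    (continuous_subtype_val.comp continuous_snd).mul continuous_fst
  -- the lower bound of `Θ` on `T C`
  have hlow : ∀ y : G, (∃ t ∈ T, ∃ x ∈ C, y = t * x) → m ≤ Θ y := by
    rintro y ⟨t₀, ht₀, x, hx, rfl⟩
    have hsub : (fun t : T => (⟨t₀, ht₀⟩ : T)⁻¹ * t) ⁻¹' W₀
        ⊆ {t : T | ((t : G))⁻¹ * (t₀ * x) ∈ C'} := by
      intro t ht
      have h1 : ((((⟨t₀, ht₀⟩ : T)⁻¹ * t : T) : G))⁻¹ ∈ V := interior_subset ht
      have h2 : ((((⟨t₀, ht₀⟩ : T)⁻¹ * t : T) : G))⁻¹ = ((t : G))⁻¹ * t₀ := by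
        rw [Subgroup.coe_mul, Subgroup.coe_inv, mul_inv_rev, inv_inv]
      rw [h2] at h1
      show ((t : G))⁻¹ * (t₀ * x) ∈ V * C
      rw [← mul_assoc]
      exact Set.mul_mem_mul h1 hx
    have hc1 : Continuous (fun t : T => ((t : G))⁻¹ * (t₀ * x)) :=
      (continuous_subtype_val.inv).mul continuous_const
    have hmeas : MeasurableSet {t : T | ((t : G))⁻¹ * (t₀ * x) ∈ C'} :=
      hC'm.preimage hc1.measurable
    calc m ≤ μT W₀ := min_le_left _ _
      _ = μT ((fun t : T => (⟨t₀, ht₀⟩ : T)⁻¹ * t) ⁻¹' W₀) :=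
          (measure_preimage_mul μT _ W₀).symm
      _ ≤ μT {t : T | ((t : G))⁻¹ * (t₀ * x) ∈ C'} := measure_mono hsub
      _ = ∫⁻ t : T, I (((t : G))⁻¹ * (t₀ * x)) ∂μT := by
          rw [← lintegral_indicator_one hmeas]
          refine lintegral_congr fun t => ?_
          by_cases h : ((t : G))⁻¹ * (t₀ * x) ∈ C'
          · rw [indicator_of_mem (show t ∈ {t : T | ((t : G))⁻¹ * (t₀ * x) ∈ C'} from h),
              hI, indicator_of_mem h]
            rfl
          · rw [indicator_of_notMem (show t ∉ {t : T | ((t : G))⁻¹ * (t₀ * x) ∈ C'} from h),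
              hI, indicator_of_notMem h]
  -- Tonelli
  have hA : ∀ y, Θ y * b y = ∫⁻ t : T, I (((t : G))⁻¹ * y) * b y ∂μT := by
    intro y
    have hc1 : Continuous (fun t : T => ((t : G))⁻¹ * y) :=
      (continuous_subtype_val.inv).mul continuous_const
    have hm0' : Measurable (fun t : T => I (((t : G))⁻¹ * y)) := hIm.comp hc1.measurable
    rw [lintegral_mul_const _ hm0']
  have hm1 : Measurable (fun p : G × T => I (((p.2 : G))⁻¹ * p.1) * b p.1) :=
    (hIm.comp hinvc.measurable).mul (hb.comp measurable_fst)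
  have hB : ∫⁻ y, ∫⁻ t : T, I (((t : G))⁻¹ * y) * b y ∂μT ∂μ
      = ∫⁻ t : T, ∫⁻ y, I (((t : G))⁻¹ * y) * b y ∂μ ∂μT :=
    lintegral_lintegral_swap (f := fun y (t : T) => I (((t : G))⁻¹ * y) * b y)
      hm1.aemeasurable
  have hCt : ∀ t : T, ∫⁻ y, I (((t : G))⁻¹ * y) * b y ∂μ
      = ∫⁻ y, I y * b ((t : G) * y) ∂μ := by
    intro t
    rw [← lintegral_mul_left_eq_self (fun y => I (((t : G))⁻¹ * y) * b y) (t : G)]
    refine lintegral_congr fun y => ?_
    rw [inv_mul_cancel_left]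
  have hm2 : Measurable (fun p : G × T => I p.1 * b ((p.2 : G) * p.1)) :=
    (hIm.comp measurable_fst).mul (hb.comp hmulc.measurable)
  have hD : ∫⁻ t : T, ∫⁻ y, I y * b ((t : G) * y) ∂μ ∂μT
      = ∫⁻ y, ∫⁻ t : T, I y * b ((t : G) * y) ∂μT ∂μ :=
    (lintegral_lintegral_swap (f := fun y (t : T) => I y * b ((t : G) * y))
      hm2.aemeasurable).symm
  have hE : ∀ y, ∫⁻ t : T, I y * b ((t : G) * y) ∂μT ≤ I y := by
    intro y
    have hc1 : Continuous (fun t : T => (t : G) * y) :=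
      continuous_subtype_val.mul continuous_const
    have hm0' : Measurable (fun t : T => b ((t : G) * y)) := hb.comp hc1.measurable
    rw [lintegral_const_mul _ hm0']
    calc I y * ∫⁻ t : T, b ((t : G) * y) ∂μT ≤ I y * 1 := by gcongr; exact hcut y
      _ = I y := mul_one _
  have hTon : ∫⁻ y, Θ y * b y ∂μ ≤ μ C' := by
    calc ∫⁻ y, Θ y * b y ∂μ = ∫⁻ y, ∫⁻ t : T, I (((t : G))⁻¹ * y) * b y ∂μT ∂μ :=
          lintegral_congr hA
      _ = ∫⁻ t : T, ∫⁻ y, I (((t : G))⁻¹ * y) * b y ∂μ ∂μT := hB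
      _ = ∫⁻ t : T, ∫⁻ y, I y * b ((t : G) * y) ∂μ ∂μT := lintegral_congr hCt
      _ = ∫⁻ y, ∫⁻ t : T, I y * b ((t : G) * y) ∂μT ∂μ := hD
      _ ≤ ∫⁻ y, I y ∂μ := lintegral_mono hE
      _ = μ C' := by
          rw [hI]
          exact lintegral_indicator_one hC'm
  -- conclusion
  refine ⟨m⁻¹ * μ C', ENNReal.mul_ne_top (ENNReal.inv_ne_top.2 hm_ne0) hC'c.measure_lt_top.ne,
    ?_⟩
  intro f hfs hfb
  have hpt : ∀ y, f y ≤ m⁻¹ * (Θ y * b y) := by
    intro y
    by_cases hy : f y = 0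
    · rw [hy]
      exact zero_le
    · have h1 : m ≤ Θ y := hlow y (hfs y hy)
      have h2 : 1 ≤ m⁻¹ * Θ y := by
        calc (1 : ℝ≥0∞) = m⁻¹ * m := (ENNReal.inv_mul_cancel hm_ne0 hm_top).symm
          _ ≤ m⁻¹ * Θ y := by gcongr
      calc f y ≤ b y := hfb y
        _ = 1 * b y := (one_mul _).symm
        _ ≤ m⁻¹ * Θ y * b y := by gcongr
        _ = m⁻¹ * (Θ y * b y) := mul_assoc _ _ _
  calc ∫⁻ y, f y ∂μ ≤ ∫⁻ y, m⁻¹ * (Θ y * b y) ∂μ := lintegral_mono hpt
    _ = m⁻¹ * ∫⁻ y, Θ y * b y ∂μ := lintegral_const_mul' _ _ (ENNReal.inv_ne_top.2 hm_ne0)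
    _ ≤ m⁻¹ * μ C' := by gcongr

/-- **Integrability of the cut-off integrand.** -/
theorem integrable_mul_cut194 {β : G → ℝ} (hβm : Measurable β) (hβ0 : ∀ x, 0 ≤ β x)
    (hcut : ∀ x : G, ∫ t : T, β ((t : G) * x) ∂μT = 1) {C : Set G} (hC : IsCompact C)
    {Ψ : G → ℂ} (hΨm : Measurable Ψ) {M : ℝ} (hΨb : ∀ y, ‖Ψ y‖ ≤ M)
    (hΨs : ∀ y, Ψ y ≠ 0 → ∃ t ∈ T, ∃ x ∈ C, y = t * x) :
    Integrable (fun y => Ψ y * ((β y : ℝ) : ℂ)) μ := by
  have hcut' : ∀ y, ∫⁻ t : T, ENNReal.ofReal (β ((t : G) * y)) ∂μT ≤ 1 := by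
    intro y
    have h1 := hcut y
    have hint : Integrable (fun t : T => β ((t : G) * y)) μT := by
      by_contra hni
      rw [integral_undef hni] at h1
      exact zero_ne_one h1
    rw [← ofReal_integral_eq_lintegral_ofReal hint
      (Filter.Eventually.of_forall fun t => hβ0 _), h1, ENNReal.ofReal_one]
  obtain ⟨c, hc, H⟩ := lintegral_le_of_supp194 T μ μT
    (b := fun y => ENNReal.ofReal (β y)) (ENNReal.measurable_ofReal.comp hβm) hcut' hC
  refine ⟨(hΨm.mul (Complex.measurable_ofReal.comp hβm)).aestronglyMeasurable, ?_⟩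
  classical
  set f : G → ℝ≥0∞ := fun y => if Ψ y = 0 then 0 else ENNReal.ofReal (β y) with hf
  have hfs : ∀ y, f y ≠ 0 → ∃ t ∈ T, ∃ x ∈ C, y = t * x := by
    intro y hy
    refine hΨs y fun h0 => hy ?_
    rw [hf]
    simp only [h0, if_true]
  have hfb : ∀ y, f y ≤ ENNReal.ofReal (β y) := by
    intro y
    rw [hf]
    by_cases h0 : Ψ y = 0
    · simp only [h0, if_true]
      exact zero_le
    · simp only [h0, if_false]
      exact le_rfl
  have hpt : ∀ y, ‖Ψ y * ((β y : ℝ) : ℂ)‖ₑ ≤ ENNReal.ofReal M * f y := by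
    intro y
    by_cases h0 : Ψ y = 0
    · rw [h0, zero_mul, enorm_zero]
      exact zero_le
    · have hfy : f y = ENNReal.ofReal (β y) := by
        rw [hf]
        simp only [h0, if_false]
      rw [hfy, ← ofReal_norm, norm_mul, Complex.norm_real, Real.norm_of_nonneg (hβ0 y),
        ENNReal.ofReal_mul (norm_nonneg _)]
      gcongr
      exact hΨb y
  show ∫⁻ y, ‖Ψ y * ((β y : ℝ) : ℂ)‖ₑ ∂μ < ∞
  calc ∫⁻ y, ‖Ψ y * ((β y : ℝ) : ℂ)‖ₑ ∂μ ≤ ∫⁻ y, ENNReal.ofReal M * f y ∂μ := lintegral_mono hpt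
    _ = ENNReal.ofReal M * ∫⁻ y, f y ∂μ := lintegral_const_mul' _ _ ENNReal.ofReal_ne_top
    _ ≤ ENNReal.ofReal M * c := by gcongr; exact H f hfs hfb
    _ < ∞ := ENNReal.mul_lt_top ENNReal.ofReal_lt_top (lt_top_iff_ne_top.2 hc)

end IntegAbs

end Fermat.Agent.LT.T7.H194

end

end
-- ===== PACK-END LT/T7/H194/Orb/IntegAbs.lean

-- ===== PACK-BEGIN LT/T6/H584/WeilCoset.lean
section


/-!
# Row LT, tower T6, leaf T6.19 `OrbSumIntC` (helper584): the coset form of Weil's formula

OFF-MAIN.  Mathlib only.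

`G` a second countable group with a left invariant measure `μ`, `U` an open subgroup,
`j : T →* G` a continuous homomorphism from a second countable group with a left invariant
`σ`-finite measure `μT`, `x₀ : G`, `β ≥ 0` measurable with `∫ β(j t · x) dμT(t) = 1` on `x₀ U`.
With `V = j⁻¹(x₀ U x₀⁻¹)` and `D = j(T) x₀ U`:

    μT(V) · ∫_D β dμ = μ(U)                                      (`weil_coset584`).

No quotient measure, no unimodularity: Tonelli on `U × T`, left invariance of both measures and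
the decompositions `T = ⊔ τ V`, `D = ⊔ j(τ) x₀ U` over the countable discrete set `T ⧸ V`.
-/

set_option autoImplicit false
set_option linter.style.haveILetI false
set_option linter.deprecated false

open MeasureTheory Set
open scoped ENNReal Pointwise

noncomputable section

namespace Fermat.Agent.LT.T6.H584

section Weil

variable {G : Type*} [Group G] {T : Type*} [Group T]

/-- The subgroup `V = j⁻¹(x₀ U x₀⁻¹)` of `T`. -/
def stabV584 (j : T →* G) (U : Subgroup G) (x₀ : G) : Subgroup T where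
  carrier := {t | x₀⁻¹ * j t * x₀ ∈ U}
  one_mem' := by simp
  mul_mem' := by
    intro a b ha hb
    have : x₀⁻¹ * j (a * b) * x₀ = (x₀⁻¹ * j a * x₀) * (x₀⁻¹ * j b * x₀) := by
      rw [map_mul]; group
    show x₀⁻¹ * j (a * b) * x₀ ∈ U
    rw [this]
    exact U.mul_mem ha hb
  inv_mem' := by
    intro a ha
    have : x₀⁻¹ * j a⁻¹ * x₀ = (x₀⁻¹ * j a * x₀)⁻¹ := by
      rw [map_inv]; group
    show x₀⁻¹ * j a⁻¹ * x₀ ∈ U
    rw [this]
    exact U.inv_mem ha

theorem mem_stabV584 (j : T →* G) (U : Subgroup G) (x₀ : G) (t : T) :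
    t ∈ stabV584 j U x₀ ↔ x₀⁻¹ * j t * x₀ ∈ U := Iff.rfl

theorem isOpen_stabV584 [TopologicalSpace G] [ContinuousMul G] [TopologicalSpace T]
    (j : T →* G) (hj : Continuous j) (U : Subgroup G)
    (hU : IsOpen (U : Set G)) (x₀ : G) : IsOpen (stabV584 j U x₀ : Set T) := by
  have hc : Continuous fun t : T => x₀⁻¹ * j t * x₀ := by fun_prop
  exact hU.preimage hc

/-- The coset `g U`. -/
def cosetU584 (U : Subgroup G) (g : G) : Set G := {x | g⁻¹ * x ∈ U}

theorem isOpen_cosetU584 [TopologicalSpace G] [ContinuousMul G] (U : Subgroup G)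
    (hU : IsOpen (U : Set G)) (g : G) :
    IsOpen (cosetU584 U g) := by
  have hc : Continuous fun x : G => g⁻¹ * x := by fun_prop
  exact hU.preimage hc

theorem cosetU_eq_of584 (U : Subgroup G) {g g' : G} (h : g⁻¹ * g' ∈ U) :
    cosetU584 U g' = cosetU584 U g := by
  ext x
  simp only [cosetU584, mem_setOf_eq]
  constructor
  · intro hx
    have : g⁻¹ * x = (g⁻¹ * g') * (g'⁻¹ * x) := by group
    rw [this]
    exact U.mul_mem h hx
  · intro hx
    have : g'⁻¹ * x = (g⁻¹ * g')⁻¹ * (g⁻¹ * x) := by group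
    rw [this]
    exact U.mul_mem (U.inv_mem h) hx

theorem cosetU_disjoint584 (U : Subgroup G) {g g' : G} (h : g⁻¹ * g' ∉ U) :
    Disjoint (cosetU584 U g) (cosetU584 U g') := by
  rw [Set.disjoint_left]
  intro x hx hx'
  apply h
  have : g⁻¹ * g' = (g⁻¹ * x) * (g'⁻¹ * x)⁻¹ := by group
  rw [this]
  exact U.mul_mem hx (U.inv_mem hx')

/-- Left invariance: `∫_{gU} β dμ = ∫_U β(g u) dμ(u)`. -/
theorem lintegral_cosetU584 [TopologicalSpace G] [IsTopologicalGroup G]
    [MeasurableSpace G] [BorelSpace G] (μ : Measure G) [μ.IsMulLeftInvariant] (U : Subgroup G)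
    (hU : IsOpen (U : Set G)) (g : G) (β : G → ℝ≥0∞) :
    ∫⁻ x in cosetU584 U g, β x ∂μ = ∫⁻ u in (U : Set G), β (g * u) ∂μ := by
  rw [← lintegral_indicator (isOpen_cosetU584 U hU g).measurableSet,
    ← lintegral_indicator hU.measurableSet,
    ← lintegral_mul_left_eq_self (fun x => (cosetU584 U g).indicator β x) g]
  refine lintegral_congr fun x => ?_
  by_cases hx : x ∈ (U : Set G)
  · have : g * x ∈ cosetU584 U g := by
      show g⁻¹ * (g * x) ∈ U
      rw [inv_mul_cancel_left]; exact hx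
    rw [indicator_of_mem this, indicator_of_mem hx]
  · have : g * x ∉ cosetU584 U g := by
      intro h
      apply hx
      have h' : g⁻¹ * (g * x) ∈ U := h
      rwa [inv_mul_cancel_left] at h'
    rw [indicator_of_notMem this, indicator_of_notMem hx]

/-- `T ⧸ V` is countable for an open subgroup `V` of a second countable group. -/
theorem countable_quot584 [TopologicalSpace T] [IsTopologicalGroup T]
    [SecondCountableTopology T] (V : Subgroup T) (hV : IsOpen (V : Set T)) :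
    Countable (T ⧸ V) := by
  haveI : DiscreteTopology (T ⧸ V) := QuotientGroup.discreteTopology hV
  haveI : TopologicalSpace.SeparableSpace (T ⧸ V) :=
    (QuotientGroup.mk_surjective (s := V)).denseRange.separableSpace QuotientGroup.continuous_mk
  exact TopologicalSpace.separableSpace_iff_countable.1 inferInstance

theorem out_inv_mul_mem584 (V : Subgroup T) (t : T) :
    ((QuotientGroup.mk t : T ⧸ V).out)⁻¹ * t ∈ V := by
  rw [← QuotientGroup.eq]
  exact Quotient.out_eq _

/-- The double coset `j(T) x₀ U`. -/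
def dcoset584 (j : T →* G) (U : Subgroup G) (x₀ : G) : Set G :=
  {x | ∃ t : T, ∃ u ∈ U, x = j t * x₀ * u}

theorem conj_mem_of_mem_stabV584 (j : T →* G) (U : Subgroup G) (x₀ : G) {a b : T}
    (h : a⁻¹ * b ∈ stabV584 j U x₀) : (j a * x₀)⁻¹ * (j b * x₀) ∈ U := by
  have : (j a * x₀)⁻¹ * (j b * x₀) = x₀⁻¹ * j (a⁻¹ * b) * x₀ := by
    rw [map_mul, map_inv]; group
  rw [this]
  exact h

theorem dcoset_eq_iUnion584 (j : T →* G) (U : Subgroup G) (x₀ : G) :
    dcoset584 j U x₀
      = ⋃ q : T ⧸ stabV584 j U x₀, cosetU584 U (j q.out * x₀) := by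
  ext x
  simp only [dcoset584, mem_setOf_eq, mem_iUnion, cosetU584]
  constructor
  · rintro ⟨t, u, hu, rfl⟩
    refine ⟨QuotientGroup.mk t, ?_⟩
    have h1 := conj_mem_of_mem_stabV584 j U x₀ (out_inv_mul_mem584 (stabV584 j U x₀) t)
    have : (j (QuotientGroup.mk t : T ⧸ stabV584 j U x₀).out * x₀)⁻¹ * (j t * x₀ * u)
        = ((j (QuotientGroup.mk t : T ⧸ stabV584 j U x₀).out * x₀)⁻¹ * (j t * x₀)) * u := by
      group
    rw [this]
    exact U.mul_mem h1 hu
  · rintro ⟨q, hq⟩
    exact ⟨q.out, _, hq, by group⟩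

theorem cosetU_pairwise_disjoint584 (j : T →* G) (U : Subgroup G) (x₀ : G) :
    Pairwise (Function.onFun Disjoint
      fun q : T ⧸ stabV584 j U x₀ => cosetU584 U (j q.out * x₀)) := by
  intro q q' hqq'
  apply cosetU_disjoint584
  intro h
  apply hqq'
  have h2 : (q.out)⁻¹ * q'.out ∈ stabV584 j U x₀ := by
    rw [mem_stabV584]
    have : x₀⁻¹ * j ((q.out)⁻¹ * q'.out) * x₀ = (j q.out * x₀)⁻¹ * (j q'.out * x₀) := by
      rw [map_mul, map_inv]; group
    rw [this]
    exact h
  have h3 : (QuotientGroup.mk q.out : T ⧸ stabV584 j U x₀) = QuotientGroup.mk q'.out :=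
    QuotientGroup.eq.2 h2
  rw [QuotientGroup.out_eq', QuotientGroup.out_eq'] at h3
  exact h3

/-- **Weil's formula for a double coset**, coset form. -/
theorem weil_coset584 [TopologicalSpace G] [IsTopologicalGroup G]
    [MeasurableSpace G] [BorelSpace G] [SecondCountableTopology G]
    [TopologicalSpace T] [IsTopologicalGroup T]
    [MeasurableSpace T] [BorelSpace T] [SecondCountableTopology T]
    (μ : Measure G) [μ.IsMulLeftInvariant] (μT : Measure T)
    [μT.IsMulLeftInvariant] [SigmaFinite μT] (j : T →* G) (hj : Continuous j)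
    (U : Subgroup G) (hU : IsOpen (U : Set G)) (hμU : μ (U : Set G) ≠ ⊤) (x₀ : G)
    (β : G → ℝ≥0∞) (hβ : Measurable β)
    (hint : ∀ u ∈ U, ∫⁻ t, β (j t * (x₀ * u)) ∂μT = 1) :
    μT (stabV584 j U x₀ : Set T) * ∫⁻ x in dcoset584 j U x₀, β x ∂μ = μ (U : Set G) := by
  set V := stabV584 j U x₀ with hVdef
  have hV : IsOpen (V : Set T) := isOpen_stabV584 j hj U hU x₀
  haveI : Countable (T ⧸ V) := countable_quot584 V hV
  haveI : DiscreteTopology (T ⧸ V) := QuotientGroup.discreteTopology hV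
  haveI : IsFiniteMeasure (μ.restrict (U : Set G)) :=
    ⟨by rw [Measure.restrict_apply_univ]; exact lt_top_iff_ne_top.2 hμU⟩
  -- the function `h`
  set h : T → ℝ≥0∞ := fun t => ∫⁻ x in cosetU584 U (j t * x₀), β x ∂μ with hh
  have hh' : ∀ t, h t = ∫⁻ u in (U : Set G), β (j t * (x₀ * u)) ∂μ := by
    intro t
    rw [hh]
    simp only
    rw [lintegral_cosetU584 μ U hU (j t * x₀) β]
    simp only [mul_assoc]
  -- Step A: Tonelli
  have hmeas : Measurable fun p : G × T => β (j p.2 * (x₀ * p.1)) := by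
    apply hβ.comp
    have hc : Continuous fun p : G × T => j p.2 * (x₀ * p.1) := by fun_prop
    exact hc.measurable
  have stepA : μ (U : Set G) = ∫⁻ t, h t ∂μT := by
    calc μ (U : Set G) = ∫⁻ _u in (U : Set G), 1 ∂μ := by simp
      _ = ∫⁻ u in (U : Set G), ∫⁻ t, β (j t * (x₀ * u)) ∂μT ∂μ :=
          setLIntegral_congr_fun hU.measurableSet (fun u hu => (hint u hu).symm)
      _ = ∫⁻ t, ∫⁻ u in (U : Set G), β (j t * (x₀ * u)) ∂μ ∂μT :=
          lintegral_lintegral_swap hmeas.aemeasurable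
      _ = ∫⁻ t, h t ∂μT := lintegral_congr fun t => (hh' t).symm
  -- the fibres of `T → T ⧸ V`
  set F : T ⧸ V → Set T := fun q => (QuotientGroup.mk : T → T ⧸ V) ⁻¹' {q} with hF
  have hFmeas : ∀ q, MeasurableSet (F q) := fun q =>
    ((isOpen_discrete ({q} : Set (T ⧸ V))).preimage QuotientGroup.continuous_mk).measurableSet
  have hFdisj : Pairwise (Function.onFun Disjoint F) := by
    intro q q' hqq'
    rw [Function.onFun, Set.disjoint_left]
    intro t ht ht'
    apply hqq'
    have h1 : (QuotientGroup.mk t : T ⧸ V) = q := ht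
    have h2 : (QuotientGroup.mk t : T ⧸ V) = q' := ht'
    rw [← h1, ← h2]
  have hFuniv : ⋃ q, F q = univ := by
    ext t
    simp only [mem_iUnion, mem_univ, iff_true]
    exact ⟨QuotientGroup.mk t, rfl⟩
  have hconst : ∀ q, ∀ t ∈ F q, h t = h q.out := by
    intro q t ht
    have h1 : (QuotientGroup.mk t : T ⧸ V) = q := ht
    have h2 : (q.out)⁻¹ * t ∈ V := by
      rw [← h1]
      exact out_inv_mul_mem584 V t
    rw [hh]
    simp only
    rw [cosetU_eq_of584 U (conj_mem_of_mem_stabV584 j U x₀ h2)]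
  have hFmeasure : ∀ q, μT (F q) = μT (V : Set T) := by
    intro q
    have : F q = (fun t => (q.out)⁻¹ * t) ⁻¹' (V : Set T) := by
      ext t
      simp only [hF, mem_preimage, mem_singleton_iff, SetLike.mem_coe]
      constructor
      · intro ht
        rw [← ht]
        exact out_inv_mul_mem584 V t
      · intro ht
        have h3 : (QuotientGroup.mk q.out : T ⧸ V) = QuotientGroup.mk t := QuotientGroup.eq.2 ht
        rw [QuotientGroup.out_eq'] at h3
        exact h3.symm
    rw [this, measure_preimage_mul]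
  have stepD : ∫⁻ t, h t ∂μT = ∑' q : T ⧸ V, h q.out * μT (V : Set T) := by
    have e1 : ∫⁻ t, h t ∂μT = ∫⁻ t in ⋃ q, F q, h t ∂μT := by
      rw [hFuniv, Measure.restrict_univ]
    rw [e1, lintegral_iUnion hFmeas hFdisj]
    refine tsum_congr fun q => ?_
    rw [setLIntegral_congr_fun (hFmeas q) (hconst q), setLIntegral_const, hFmeasure]
  -- Step E
  have stepE : ∫⁻ x in dcoset584 j U x₀, β x ∂μ = ∑' q : T ⧸ V, h q.out := by
    rw [dcoset_eq_iUnion584, lintegral_iUnion (fun q => (isOpen_cosetU584 U hU _).measurableSet)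
      (cosetU_pairwise_disjoint584 j U x₀)]
  rw [stepA, stepD, stepE, ENNReal.tsum_mul_right, mul_comm]

end Weil

end Fermat.Agent.LT.T6.H584

end

end
-- ===== PACK-END LT/T6/H584/WeilCoset.lean

-- ===== PACK-BEGIN LT/T7/H176/FD/CutAbsHom.lean
section


/-!
# Row LT, tower T7, node C2.7.13.1 `UpFactC340`, leaf UF.B4 `ArchIntblUpC340`: abstract part
# (helper176, OFF-MAIN, MATHLIB ONLY)

`integrable_of_cut_hom176`: the form of `integrable_of_cut176` (`FD/CutAbs.lean`) for a locally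
compact group `T` acting on `G` through a continuous homomorphism `j : T → G` (not necessarily a
closed subgroup): `G` second countable with a left invariant σ-finite measure `μ` which is
finite on compact sets, `μT` a Haar measure of `T` (σ-compact), `β ≥ 0` continuous with
`∫_T β(j(t) x) dμT(t) = 1` for all `x`, `f` continuous and bounded with `{f ≠ 0} ⊆ j(T) · C`, `C`
compact.  Then `f · β` is integrable.
-/

set_option autoImplicit false

open MeasureTheory Topology
open scoped ENNReal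

noncomputable section

namespace Fermat.Agent.LT.T7.H176

section AbstractHom

variable {G : Type*} [Group G] [TopologicalSpace G] [IsTopologicalGroup G]
  [SecondCountableTopology G] [MeasurableSpace G] [BorelSpace G]
  {T : Type*} [Group T] [TopologicalSpace T] [IsTopologicalGroup T]
  [MeasurableSpace T] [BorelSpace T]

omit [IsTopologicalGroup T] in
/-- **Tonelli for a cut-off function** (homomorphism form). -/
theorem lintegral_cut_hom_eq176 (μ : Measure G) [SFinite μ] [μ.IsMulLeftInvariant]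
    (j : T →* G) (hj : Continuous j) (μT : Measure T) [SFinite μT]
    (b : G → ℝ≥0∞) (hb : Measurable b)
    (hcut : ∀ x : G, ∫⁻ t : T, b (j t * x) ∂μT = 1)
    (C₂ : Set G) (hC₂ : MeasurableSet C₂) :
    ∫⁻ y, (∫⁻ t : T, C₂.indicator (fun _ => (1 : ℝ≥0∞)) ((j t)⁻¹ * y) ∂μT) * b y ∂μ
      = μ C₂ := by
  have hval : Measurable (fun t : T => j t) := hj.measurable
  have hind : Measurable (C₂.indicator (fun _ : G => (1 : ℝ≥0∞))) :=
    measurable_const.indicator hC₂
  have hm1 : Measurable (fun p : G × T => C₂.indicator (fun _ => (1 : ℝ≥0∞)) ((j p.2)⁻¹ * p.1)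
      * b p.1) := by
    refine Measurable.mul ?_ (hb.comp measurable_fst)
    refine hind.comp ?_
    have hc : Continuous (fun p : G × T => (j p.2)⁻¹ * p.1) :=
      ((hj.comp continuous_snd).inv).mul continuous_fst
    exact hc.measurable
  have hm2 : Measurable (fun p : T × G => C₂.indicator (fun _ => (1 : ℝ≥0∞)) p.2
      * b (j p.1 * p.2)) := by
    refine Measurable.mul (hind.comp measurable_snd) (hb.comp ?_)
    have hc : Continuous (fun p : T × G => j p.1 * p.2) :=
      (hj.comp continuous_fst).mul continuous_snd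
    exact hc.measurable
  calc ∫⁻ y, (∫⁻ t : T, C₂.indicator (fun _ => (1 : ℝ≥0∞)) ((j t)⁻¹ * y) ∂μT) * b y ∂μ
      = ∫⁻ y, ∫⁻ t : T, C₂.indicator (fun _ => (1 : ℝ≥0∞)) ((j t)⁻¹ * y) * b y ∂μT ∂μ := by
        refine lintegral_congr fun y => ?_
        rw [lintegral_mul_const]
        exact hind.comp ((hval.inv).mul_const y)
    _ = ∫⁻ t : T, ∫⁻ y, C₂.indicator (fun _ => (1 : ℝ≥0∞)) ((j t)⁻¹ * y) * b y ∂μ ∂μT :=
        lintegral_lintegral_swap hm1.aemeasurable
    _ = ∫⁻ t : T, ∫⁻ y, C₂.indicator (fun _ => (1 : ℝ≥0∞)) y * b (j t * y) ∂μ ∂μT := by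
        refine lintegral_congr fun t => ?_
        have h := lintegral_mul_left_eq_self (μ := μ)
          (fun y => C₂.indicator (fun _ => (1 : ℝ≥0∞)) ((j t)⁻¹ * y) * b y) (j t)
        rw [← h]
        refine lintegral_congr fun y => ?_
        simp only [inv_mul_cancel_left]
    _ = ∫⁻ y, ∫⁻ t : T, C₂.indicator (fun _ => (1 : ℝ≥0∞)) y * b (j t * y) ∂μT ∂μ :=
        lintegral_lintegral_swap hm2.aemeasurable
    _ = ∫⁻ y, C₂.indicator (fun _ => (1 : ℝ≥0∞)) y ∂μ := by
        refine lintegral_congr fun y => ?_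
        rw [lintegral_const_mul, hcut y, mul_one]
        exact hb.comp (hval.mul_const y)
    _ = μ C₂ := by
        rw [lintegral_indicator hC₂]
        simp

/-- **Integrability of a cut-off orbital integrand** (homomorphism form). -/
theorem integrable_of_cut_hom176 [T2Space G] [LocallyCompactSpace T] [SigmaCompactSpace T]
    (μ : Measure G) [SigmaFinite μ] [μ.IsMulLeftInvariant] [IsFiniteMeasureOnCompacts μ]
    (j : T →* G) (hj : Continuous j) (μT : Measure T) [μT.IsHaarMeasure]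
    (β : G → ℝ) (hβc : Continuous β) (hβ0 : ∀ x, 0 ≤ β x)
    (hcut : ∀ x : G, ∫ t : T, β (j t * x) ∂μT = 1)
    (f : G → ℂ) (hf : Continuous f) (M : ℝ) (hM : ∀ y, ‖f y‖ ≤ M)
    (C : Set G) (hC : IsCompact C)
    (hsupp : ∀ y, f y ≠ 0 → ∃ t : T, ∃ c ∈ C, y = j t * c) :
    Integrable (fun y => f y * ((β y : ℝ) : ℂ)) μ := by
  have : SigmaFinite μT := inferInstance
  obtain ⟨N, hNc, hN1⟩ := exists_compact_mem_nhds (1 : T)
  have hNpos : 0 < μT N := Measure.measure_pos_of_mem_nhds μT hN1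
  have hNfin : μT N < ⊤ := hNc.measure_lt_top
  obtain ⟨C₂, hC₂c, hC₂⟩ : ∃ C₂ : Set G, IsCompact C₂ ∧
      ∀ n ∈ N, ∀ c ∈ C, (j n)⁻¹ * c ∈ C₂ :=
    ⟨(fun p : T × G => (j p.1)⁻¹ * p.2) '' (N ×ˢ C),
      (hNc.prod hC).image (((hj.comp continuous_fst).inv).mul continuous_snd),
      fun n hn c hc => ⟨(n, c), ⟨hn, hc⟩, rfl⟩⟩
  have hC₂m : MeasurableSet C₂ := hC₂c.isClosed.measurableSet
  set b : G → ℝ≥0∞ := fun y => ENNReal.ofReal (β y) with hb
  have hbm : Measurable b := ENNReal.measurable_ofReal.comp hβc.measurable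
  have hcut' : ∀ x : G, ∫⁻ t : T, b (j t * x) ∂μT = 1 := by
    intro x
    have hint : Integrable (fun t : T => β (j t * x)) μT :=
      integrable_of_integral_eq_one (hcut x)
    have h := ofReal_integral_eq_lintegral_ofReal hint
      (Filter.Eventually.of_forall fun t => hβ0 _)
    rw [hcut x] at h
    simpa using h.symm
  have hkey := lintegral_cut_hom_eq176 μ j hj μT b hbm hcut' C₂ hC₂m
  have hg : ∀ y, f y ≠ 0 →
      μT N ≤ ∫⁻ t : T, C₂.indicator (fun _ => (1 : ℝ≥0∞)) ((j t)⁻¹ * y) ∂μT := by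
    intro y hy
    obtain ⟨t₀, c, hc, rfl⟩ := hsupp y hy
    have hSm : MeasurableSet {t : T | (j t)⁻¹ * (j t₀ * c) ∈ C₂} := by
      have hcont : Continuous (fun t : T => (j t)⁻¹ * (j t₀ * c)) :=
        (hj.inv).mul continuous_const
      exact hC₂m.preimage hcont.measurable
    have h1 : (fun t : T => C₂.indicator (fun _ => (1 : ℝ≥0∞)) ((j t)⁻¹ * (j t₀ * c)))
        = {t : T | (j t)⁻¹ * (j t₀ * c) ∈ C₂}.indicator (fun _ => (1 : ℝ≥0∞)) := by
      funext t
      by_cases h : (j t)⁻¹ * (j t₀ * c) ∈ C₂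
      · rw [Set.indicator_of_mem h]
        exact (Set.indicator_of_mem (s := {t : T | (j t)⁻¹ * (j t₀ * c) ∈ C₂}) h
          (fun _ => (1 : ℝ≥0∞))).symm
      · rw [Set.indicator_of_notMem h]
        exact (Set.indicator_of_notMem (s := {t : T | (j t)⁻¹ * (j t₀ * c) ∈ C₂}) h
          (fun _ => (1 : ℝ≥0∞))).symm
    rw [h1, lintegral_indicator hSm]
    simp only [lintegral_const, MeasurableSet.univ, Measure.restrict_apply, Set.univ_inter,
      one_mul]
    have h2 : μT ((fun t : T => t₀⁻¹ * t) ⁻¹' N) = μT N := measure_preimage_mul μT _ N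
    rw [← h2]
    refine measure_mono ?_
    intro t ht
    simp only [Set.mem_preimage] at ht
    have h3 := hC₂ _ ht c hc
    have h4 : (j (t₀⁻¹ * t))⁻¹ * c = (j t)⁻¹ * (j t₀ * c) := by
      simp [mul_assoc]
    rw [h4] at h3
    exact h3
  refine ⟨(hf.mul (Complex.continuous_ofReal.comp hβc)).aestronglyMeasurable, ?_⟩
  have hM0 : ENNReal.ofReal M * (μT N)⁻¹ ≠ ⊤ :=
    ENNReal.mul_ne_top ENNReal.ofReal_ne_top (ENNReal.inv_ne_top.mpr hNpos.ne')
  calc ∫⁻ y, ‖f y * ((β y : ℝ) : ℂ)‖ₑ ∂μ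
      ≤ ∫⁻ y, ENNReal.ofReal M * (μT N)⁻¹ *
          ((∫⁻ t : T, C₂.indicator (fun _ => (1 : ℝ≥0∞)) ((j t)⁻¹ * y) ∂μT) * b y) ∂μ := by
        refine lintegral_mono fun y => ?_
        by_cases hy : f y = 0
        · simp [hy]
        · have h1 : ‖f y * ((β y : ℝ) : ℂ)‖ₑ = ‖f y‖ₑ * b y := by
            rw [enorm_mul]
            congr 1
            rw [← ofReal_norm]
            simp [hb, abs_of_nonneg (hβ0 y)]
          have h2 : ‖f y‖ₑ ≤ ENNReal.ofReal M := by
            rw [← ofReal_norm]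
            exact ENNReal.ofReal_le_ofReal (hM y)
          have h3 : (1 : ℝ≥0∞)
              ≤ (μT N)⁻¹ * ∫⁻ t : T, C₂.indicator (fun _ => (1 : ℝ≥0∞)) ((j t)⁻¹ * y) ∂μT := by
            calc (1 : ℝ≥0∞) = (μT N)⁻¹ * μT N :=
                  (ENNReal.inv_mul_cancel hNpos.ne' hNfin.ne).symm
              _ ≤ _ := by gcongr; exact hg y hy
          rw [h1]
          calc ‖f y‖ₑ * b y ≤ ENNReal.ofReal M * (1 * b y) := by
                rw [one_mul]; gcongr
            _ ≤ ENNReal.ofReal M * (((μT N)⁻¹ *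
                  ∫⁻ t : T, C₂.indicator (fun _ => (1 : ℝ≥0∞)) ((j t)⁻¹ * y) ∂μT) * b y) := by
                gcongr
            _ = _ := by ring
    _ = ENNReal.ofReal M * (μT N)⁻¹ * μ C₂ := by
        rw [lintegral_const_mul' _ _ hM0, hkey]
    _ < ⊤ := ENNReal.mul_lt_top hM0.lt_top hC₂c.measure_lt_top

end AbstractHom

end Fermat.Agent.LT.T7.H176

end

end
-- ===== PACK-END LT/T7/H176/FD/CutAbsHom.lean

-- ===== PACK-BEGIN LT/T7/H644/SetupSpec.lean
section


/-!
# Row LT, tower T7, leaf T7.L2.1.C0 `SetupC` (owner helper644): the two number-theoretic leaves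

OFF-MAIN.  Frozen Props only, MATHLIB ONLY (no vocabulary of the tower).  ADDITIVE (new names).
The proved top is `Setup.lean` (same directory):

    setupC_of644 : MovedPlaceC644 → GalTransC644 → H893.SetupC K K'

* `MovedPlaceC644` (leaf C0.a): a ring automorphism `σ ≠ 1` of a number field moves a prime
  ideal outside any given finite set.
  Proof (elementary).  Let `α ∈ 𝒪` with `σ α ≠ α` and `M = ∏_{w ∈ T} N(w)` (`M ∈ w` for `w ∈ T`:
  `Ideal.absNorm_mem`).  For `t ∈ ℤ` put `β_t = M (α + t) + 1`: no `w ∈ T` contains `β_t`.  If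
  `σ` fixes every prime outside `T`, it fixes every prime factor of `(β_t)`, hence the ideal
  `(β_t)` (`Ideal.prod_normalizedFactors_eq_self`, `Ideal.mapHom`), so `β_t ∣ σ β_t - β_t
  = M (σ α - α) = δ ≠ 0` and `N(β_t) ∣ N(δ) ≠ 0` for ALL `t ∈ ℤ`; but `t ↦ N(β_t)`
  (`Algebra.norm ℤ`) is a polynomial in `t` of degree `[K' : ℚ] ≥ 1` (the characteristic
  polynomial of the matrix of the multiplication, `Algebra.norm_eq_matrix_det`), which takes
  every value finitely often, and `N(δ)` has finitely many divisors.  Contradiction.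
  (Or: Chebotarev.)
* `GalTransC644` (leaf C0.b): the Galois group acts transitively on the primes over a prime,
  in the form of `T7.PlaceOver` (written out).
  Proof.  `Algebra.IsInvariant.exists_smul_of_under_eq (𝓞 K) (𝓞 K') Gal(K'/K)` (Mathlib:
  `IsGaloisGroup G (𝓞 K) (𝓞 L)`, `Mathlib/FieldTheory/Galois/IsGaloisGroup.lean`), then the
  pointwise action on ideals is `Ideal.map` of the restriction.
-/

set_option autoImplicit false

open IsDedekindDomain NumberField

noncomputable section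

namespace Fermat.Agent.LT.T7.H644

/-- **LEAF T7.L2.1.C0.a = MOVED PLACE.**  A ring automorphism `σ ≠ 1` of a number field `K'`
moves a prime ideal of `𝒪_{K'}` outside any given finite set `T`. -/
def MovedPlaceC644 : Prop :=
  ∀ (K' : Type) [Field K'] [NumberField K'] (σ : K' ≃+* K'), (∃ x : K', σ x ≠ x) →
    ∀ T : Finset (HeightOneSpectrum (𝓞 K')),
      ∃ w : HeightOneSpectrum (𝓞 K'), w ∉ T ∧
        Ideal.map (NumberField.RingOfIntegers.mapRingEquiv σ) w.asIdeal ≠ w.asIdeal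

/-- **LEAF T7.L2.1.C0.b = TRANSITIVITY.**  For a Galois extension `K'/K` of number fields the
Galois group acts transitively on the primes of `K'` over a prime `v` of `K` (the relation
"`w` lies over `v`" is `T7.PlaceOver`, written out). -/
def GalTransC644 : Prop :=
  ∀ (K K' : Type) [Field K] [NumberField K] [Field K'] [NumberField K'] [Algebra K K'],
    IsGalois K K' →
    ∀ (v : HeightOneSpectrum (𝓞 K)) (w w' : HeightOneSpectrum (𝓞 K')),
      (∀ (x : 𝓞 K) (y : 𝓞 K'), (y : K') = algebraMap K K' (x : K) →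
        (x ∈ v.asIdeal ↔ y ∈ w.asIdeal)) →
      (∀ (x : 𝓞 K) (y : 𝓞 K'), (y : K') = algebraMap K K' (x : K) →
        (x ∈ v.asIdeal ↔ y ∈ w'.asIdeal)) →
      ∃ τ : K' ≃ₐ[K] K',
        w'.asIdeal = Ideal.map (NumberField.RingOfIntegers.mapRingEquiv τ.toRingEquiv) w.asIdeal

end Fermat.Agent.LT.T7.H644

end

end
-- ===== PACK-END LT/T7/H644/SetupSpec.lean

-- ===== PACK-BEGIN LT/T7/H706/BCUnitCore.lean
section



/-!
# Row LT, tower T7, leaf SD.4 `BCUnitC` of helper534's cut of `SpecDownC` (helper706): the core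

OFF-MAIN.  Mathlib + the Prelude definition `AutomorphicForm.satakePow` only.

For `a, b ∈ ℂ` with `|b| = 1`, `conj a = a conj b` and `|a| √q ≤ q + 1` (`q ≥ 1`):
`conj (P_f) = P_f conj (b^f)` and `|P_f| √(q^f) ≤ q^f + 1` for `P_f = satakePow f a b`.

Proof: `a = α + β`, `b = α β`, `P_f = α^f + β^f`; `conj a = a conj b` and `|b| = 1` give
`{1 / conj α, 1 / conj β} = {α, β}`, so `|α| = |β| = 1` or `β = 1 / conj α`; in both cases
`max (|α|, |β|) =: t ≥ 1`, `min = 1 / t`, `t ≤ √q`, and `x ↦ x + 1/x` increases on `[1, ∞)`.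
-/

set_option autoImplicit false

open AutomorphicForm
open scoped ComplexConjugate

noncomputable section

namespace Fermat.Agent.LT.T7.H706

theorem satakePow_eq706 (α β : ℂ) (n : ℕ) :
    satakePow n (α + β) (α * β) = α ^ n + β ^ n := by
  induction n using Nat.strong_induction_on with
  | _ n ih =>
    match n with
    | 0 => rw [satakePow_zero]; norm_num
    | 1 => rw [satakePow_one]; ring
    | (k + 2) =>
      rw [satakePow_add_two, ih (k + 1) (by omega), ih k (by omega)]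
      ring

theorem conj_satakePow706 (a b : ℂ) (hb : ‖b‖ = 1) (ha : conj a = a * conj b) (n : ℕ) :
    conj (satakePow n a b) = satakePow n a b * conj (b ^ n) := by
  have hbb : b * conj b = 1 := by
    rw [Complex.mul_conj, Complex.normSq_eq_norm_sq, hb]
    norm_num
  induction n using Nat.strong_induction_on with
  | _ n ih =>
    match n with
    | 0 =>
      rw [satakePow_zero, pow_zero, map_one, mul_one]
      exact Complex.conj_ofNat 2
    | 1 => rw [satakePow_one, pow_one]; exact ha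
    | (k + 2) =>
      rw [satakePow_add_two, map_sub, map_mul, map_mul, ih (k + 1) (by omega), ih k (by omega), ha,
        map_pow, map_pow, map_pow]
      have : satakePow k a b * conj b ^ k
          = (b * conj b) * (satakePow k a b * conj b ^ k) := by rw [hbb, one_mul]
      rw [this]
      ring

/-- `x + 1/x` increases on `[1, ∞)`. -/
theorem add_inv_mono706 {x y : ℝ} (hx : 1 ≤ x) (hxy : x ≤ y) : x + x⁻¹ ≤ y + y⁻¹ := by
  have hx0 : 0 < x := lt_of_lt_of_le one_pos hx
  have hy0 : 0 < y := lt_of_lt_of_le hx0 hxy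
  have hy1 : 1 ≤ y := hx.trans hxy
  have h : y + y⁻¹ - (x + x⁻¹) = (y - x) * (1 - (x * y)⁻¹) := by
    field_simp
    ring
  have h2 : (x * y)⁻¹ ≤ 1 := inv_le_one_of_one_le₀ (by nlinarith)
  have h3 : 0 ≤ (y - x) * (1 - (x * y)⁻¹) :=
    mul_nonneg (sub_nonneg.2 hxy) (sub_nonneg.2 h2)
  linarith

/-- The bound for a pair `(α, β)` with `|α| = t`, `|β| = t⁻¹`, `1 ≤ t ≤ s`. -/
theorem norm_pow_add_pow_le706 (α β : ℂ) (t s : ℝ) (ht : 1 ≤ t) (hts : t ≤ s)
    (hα : ‖α‖ = t) (hβ : ‖β‖ = t⁻¹) (f : ℕ) :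
    ‖α ^ f + β ^ f‖ ≤ s ^ f + (s ^ f)⁻¹ := by
  have ht0 : 0 < t := lt_of_lt_of_le one_pos ht
  calc ‖α ^ f + β ^ f‖ ≤ ‖α ^ f‖ + ‖β ^ f‖ := norm_add_le _ _
    _ = t ^ f + (t ^ f)⁻¹ := by rw [norm_pow, norm_pow, hα, hβ, inv_pow]
    _ ≤ s ^ f + (s ^ f)⁻¹ :=
        add_inv_mono706 (one_le_pow₀ ht) (pow_le_pow_left₀ ht0.le hts f)

theorem norm_satakePow_le706 (a b : ℂ) (hb : ‖b‖ = 1) (ha : conj a = a * conj b)
    (q : ℝ) (hq : 1 ≤ q) (hbound : ‖a‖ * Real.sqrt q ≤ q + 1) (f : ℕ) :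
    ‖satakePow f a b‖ * Real.sqrt (q ^ f) ≤ q ^ f + 1 := by
  have hq0 : 0 ≤ q := zero_le_one.trans hq
  set s : ℝ := Real.sqrt q with hs
  have hs1 : 1 ≤ s := by
    rw [hs, ← Real.sqrt_one]
    exact Real.sqrt_le_sqrt hq
  have hs0 : 0 < s := lt_of_lt_of_le one_pos hs1
  have hss : s * s = q := Real.mul_self_sqrt hq0
  have hsf : Real.sqrt (q ^ f) = s ^ f := by
    rw [← hss, ← sq, ← pow_mul, mul_comm, pow_mul, Real.sqrt_sq (pow_nonneg hs0.le f)]
  have hqf : q ^ f = s ^ f * s ^ f := by rw [← mul_pow, hss]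
  -- the roots
  obtain ⟨z, hz⟩ := IsAlgClosed.exists_eq_mul_self (a ^ 2 - 4 * b)
  set α : ℂ := (a + z) / 2 with hαdef
  set β : ℂ := (a - z) / 2 with hβdef
  have hsum : α + β = a := by rw [hαdef, hβdef]; ring
  have hprod : α * β = b := by
    rw [hαdef, hβdef]
    have : (a + z) / 2 * ((a - z) / 2) = (a ^ 2 - z * z) / 4 := by ring
    rw [this, ← hz]
    ring
  have hP : satakePow f a b = α ^ f + β ^ f := by
    rw [← hsum, ← hprod]
    exact satakePow_eq706 α β f
  have hnprod : ‖α‖ * ‖β‖ = 1 := by rw [← norm_mul, hprod, hb]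
  have hα0 : α ≠ 0 := by
    intro h
    rw [h, norm_zero, zero_mul] at hnprod
    exact zero_ne_one hnprod
  have hβ0 : β ≠ 0 := by
    intro h
    rw [h, norm_zero, mul_zero] at hnprod
    exact zero_ne_one hnprod
  have hnα : 0 < ‖α‖ := norm_pos_iff.2 hα0
  have hnβ : 0 < ‖β‖ := norm_pos_iff.2 hβ0
  have hβinv : ‖β‖ = ‖α‖⁻¹ := eq_inv_of_mul_eq_one_right hnprod
  have hαinv : ‖α‖ = ‖β‖⁻¹ := eq_inv_of_mul_eq_one_left hnprod
  -- the dichotomy
  have hcα : conj α ≠ 0 := (map_ne_zero (starRingEnd ℂ)).2 hα0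
  have hcβ : conj β ≠ 0 := (map_ne_zero (starRingEnd ℂ)).2 hβ0
  have hkey : (α * conj α - 1) * (β * conj α - 1) = 0 := by
    have h1 : conj α + conj β = (α + β) * (conj α * conj β) := by
      rw [← map_add, hsum, ← map_mul, hprod]
      exact ha
    have h2 : (α * β) * (conj α * conj β) = 1 := by
      rw [← map_mul, hprod, Complex.mul_conj, Complex.normSq_eq_norm_sq, hb]
      norm_num
    have h3 : (α * conj α - 1) * (β * conj α - 1) * conj β
        = conj α * ((α * β) * (conj α * conj β)) - (α + β) * (conj α * conj β)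
          + conj β := by ring
    have h4 : (α * conj α - 1) * (β * conj α - 1) * conj β = 0 := by
      rw [h3, h2, ← h1]
      ring
    rcases mul_eq_zero.1 h4 with h | h
    · exact h
    · exact absurd h hcβ
  -- in both cases: the larger of the two norms is at most `s`
  have hle : ∀ (α' β' : ℂ), ‖α'‖ * ‖β'‖ = 1 → 1 ≤ ‖α'‖ →
      (‖α'‖ = 1 ∨ ‖a‖ = ‖α'‖ + ‖α'‖⁻¹) → ‖α'‖ ≤ s := by
    intro α' β' _ h1 hcase
    rcases hcase with h | h
    · rw [h]; exact hs1
    · set t := ‖α'‖ with ht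
      have ht0 : 0 < t := lt_of_lt_of_le one_pos h1
      rw [h, ← hss] at hbound
      have h5 : (t + t⁻¹) * s * t = (t * t + 1) * s := by
        field_simp
      have h6 : (t * t + 1) * s ≤ (s * s + 1) * t := by
        rw [← h5]
        exact mul_le_mul_of_nonneg_right hbound ht0.le
      by_contra hcon
      rw [not_le] at hcon
      have h7 : 0 < (t - s) * (t * s - 1) :=
        mul_pos (sub_pos.2 hcon) (by nlinarith)
      nlinarith
  -- norm of `a` in the second case
  have hcase : (‖α‖ = 1 ∧ ‖β‖ = 1) ∨ ‖a‖ = ‖α‖ + ‖α‖⁻¹ := by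
    rcases mul_eq_zero.1 hkey with h | h
    · left
      have h1 : α * conj α = 1 := sub_eq_zero.1 h
      rw [Complex.mul_conj, Complex.normSq_eq_norm_sq] at h1
      have h2 : ‖α‖ ^ 2 = 1 := by exact_mod_cast h1
      have h3 : ‖α‖ = 1 := by nlinarith [norm_nonneg α]
      refine ⟨h3, ?_⟩
      rw [hβinv, h3, inv_one]
    · right
      have h1 : β * conj α = 1 := sub_eq_zero.1 h
      have h2 : β = α * ((‖α‖ ^ 2 : ℝ) : ℂ)⁻¹ := by
        have h3 : α * conj α = ((‖α‖ ^ 2 : ℝ) : ℂ) := by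
          rw [Complex.mul_conj, Complex.normSq_eq_norm_sq]
        have h4 : ((‖α‖ ^ 2 : ℝ) : ℂ) ≠ 0 := by
          rw [← h3]
          exact mul_ne_zero hα0 hcα
        field_simp
        rw [← h3, ← mul_assoc, mul_comm β α, mul_assoc, h1, mul_one] 
      have h5 : a = α * (((1 + (‖α‖ ^ 2)⁻¹ : ℝ)) : ℂ) := by
        rw [← hsum, h2]
        push_cast
        ring
      rw [h5, norm_mul, Complex.norm_real, Real.norm_of_nonneg (by positivity)]
      field_simp
  -- conclusion
  have hfinal : ‖α ^ f + β ^ f‖ ≤ s ^ f + (s ^ f)⁻¹ := by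
    rcases le_total 1 ‖α‖ with h1 | h1
    · have hcase' : ‖α‖ = 1 ∨ ‖a‖ = ‖α‖ + ‖α‖⁻¹ := by
        rcases hcase with h | h
        · exact Or.inl h.1
        · exact Or.inr h
      exact norm_pow_add_pow_le706 α β ‖α‖ s h1 (hle α β hnprod h1 hcase') rfl hβinv f
    · have h1' : 1 ≤ ‖β‖ := by
        rw [hβinv]
        exact (one_le_inv₀ hnα).2 h1
      have hcase' : ‖β‖ = 1 ∨ ‖a‖ = ‖β‖ + ‖β‖⁻¹ := by
        rcases hcase with h | h
        · exact Or.inl h.2
        · right
          rw [h, hβinv, inv_inv, add_comm]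
      have := norm_pow_add_pow_le706 β α ‖β‖ s h1'
        (hle β α (by rw [mul_comm]; exact hnprod) h1' hcase') rfl hαinv f
      rwa [add_comm] at this
  rw [hP, hsf, hqf]
  have hsf0 : 0 < s ^ f := pow_pos hs0 f
  calc ‖α ^ f + β ^ f‖ * s ^ f ≤ (s ^ f + (s ^ f)⁻¹) * s ^ f :=
        mul_le_mul_of_nonneg_right hfinal hsf0.le
    _ = s ^ f * s ^ f + 1 := by
        field_simp

end Fermat.Agent.LT.T7.H706

end

end
-- ===== PACK-END LT/T7/H706/BCUnitCore.lean

-- ===== PACK-BEGIN LT/T7/H128/SubSeqCore.lean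
section


/-!
# Row LT, tower T7, leaf T7.L2.3.5.7 `SD534.SubSeqC` — Mathlib-only core (helper128, SPARE)

OFF-MAIN.  Mathlib only.

* `parseval_of_mem_closure128` : Parseval for an orthogonal sequence (zero vectors allowed) and
  a vector in the closure of its span (elementary: best approximation by the partial sums).
* `exists_orthoSeq128` : a subspace `T` of a separable inner product space has an orthogonal
  sequence of members of `T` (unit vectors or `0`) with `T ⊆ closure (span)` (Gram--Schmidt on a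
  dense sequence of `T`).
* `exists_l2_seq128` : the form used by the leaf: a linear space `S` of square integrable
  functions on a finite separable measure space.
-/

set_option autoImplicit false

open MeasureTheory Filter Topology InnerProductSpace
open scoped InnerProductSpace ComplexConjugate ENNReal

noncomputable section

namespace Fermat.Agent.LT.T7.H128

section Hilbert

variable {E : Type*} [NormedAddCommGroup E] [InnerProductSpace ℂ E]

/-- The span of the first `N` vectors. -/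
def spanLt128 (g : ℕ → E) (N : ℕ) : Submodule ℂ E :=
  Submodule.span ℂ (g '' {n | n < N})

theorem spanLt_mono128 (g : ℕ → E) {N M : ℕ} (h : N ≤ M) : spanLt128 g N ≤ spanLt128 g M :=
  Submodule.span_mono (Set.image_mono fun _ hn => lt_of_lt_of_le hn h)

theorem exists_mem_spanLt128 (g : ℕ → E) {y : E} (hy : y ∈ Submodule.span ℂ (Set.range g)) :
    ∃ N, y ∈ spanLt128 g N := by
  induction hy using Submodule.span_induction with
  | mem y hy =>
    obtain ⟨n, rfl⟩ := hy
    exact ⟨n + 1, Submodule.subset_span ⟨n, Nat.lt_succ_self n, rfl⟩⟩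
  | zero => exact ⟨0, Submodule.zero_mem _⟩
  | add y z _ _ hy hz =>
    obtain ⟨N, hN⟩ := hy
    obtain ⟨M, hM⟩ := hz
    exact ⟨max N M, Submodule.add_mem _ (spanLt_mono128 g (le_max_left N M) hN)
      (spanLt_mono128 g (le_max_right N M) hM)⟩
  | smul a y _ hy =>
    obtain ⟨N, hN⟩ := hy
    exact ⟨N, Submodule.smul_mem _ a hN⟩

/-- The partial sums of the expansion. -/
def partSum128 (g : ℕ → E) (x : E) (N : ℕ) : E :=
  ∑ n ∈ Finset.range N, ⟪g n, x⟫_ℂ • g n

theorem partSum_mem128 (g : ℕ → E) (x : E) (N : ℕ) : partSum128 g x N ∈ spanLt128 g N := by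
  unfold partSum128
  refine Submodule.sum_mem _ fun n hn => Submodule.smul_mem _ _ ?_
  exact Submodule.subset_span ⟨n, Finset.mem_range.1 hn, rfl⟩

theorem inner_self_cases128 (g : ℕ → E) (hnorm : ∀ n, ‖g n‖ = 1 ∨ g n = 0) (x : E) (n : ℕ) :
    ⟪g n, x⟫_ℂ * ⟪g n, g n⟫_ℂ = ⟪g n, x⟫_ℂ := by
  rcases hnorm n with h | h
  · rw [inner_self_eq_norm_sq_to_K, h]
    simp
  · rw [h]
    simp

theorem inner_partSum128 (g : ℕ → E) (horth : ∀ n m, n ≠ m → ⟪g n, g m⟫_ℂ = 0)
    (hnorm : ∀ n, ‖g n‖ = 1 ∨ g n = 0) (x : E) {m N : ℕ} (hm : m < N) :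
    ⟪g m, partSum128 g x N⟫_ℂ = ⟪g m, x⟫_ℂ := by
  unfold partSum128
  rw [inner_sum]
  rw [Finset.sum_eq_single m]
  · rw [inner_smul_right]
    exact inner_self_cases128 g hnorm x m
  · intro n _ hnm
    rw [inner_smul_right, horth m n (Ne.symm hnm), mul_zero]
  · intro h
    exact absurd (Finset.mem_range.2 hm) h

theorem inner_sub_partSum128 (g : ℕ → E) (horth : ∀ n m, n ≠ m → ⟪g n, g m⟫_ℂ = 0)
    (hnorm : ∀ n, ‖g n‖ = 1 ∨ g n = 0) (x : E) (N : ℕ) {y : E} (hy : y ∈ spanLt128 g N) :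
    ⟪y, x - partSum128 g x N⟫_ℂ = 0 := by
  unfold spanLt128 at hy
  induction hy using Submodule.span_induction with
  | mem y hy =>
    obtain ⟨m, hm, rfl⟩ := hy
    rw [inner_sub_right, inner_partSum128 g horth hnorm x hm, sub_self]
  | zero => simp
  | add y z _ _ hy hz => rw [inner_add_left, hy, hz, add_zero]
  | smul a y _ hy => rw [inner_smul_left, hy, mul_zero]

/-- Best approximation. -/
theorem norm_sub_partSum_le128 (g : ℕ → E) (horth : ∀ n m, n ≠ m → ⟪g n, g m⟫_ℂ = 0)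
    (hnorm : ∀ n, ‖g n‖ = 1 ∨ g n = 0) (x : E) (N : ℕ) {y : E} (hy : y ∈ spanLt128 g N) :
    ‖x - partSum128 g x N‖ ≤ ‖x - y‖ := by
  have hz : partSum128 g x N - y ∈ spanLt128 g N :=
    Submodule.sub_mem _ (partSum_mem128 g x N) hy
  have h0 : ⟪x - partSum128 g x N, partSum128 g x N - y⟫_ℂ = 0 := by
    rw [← inner_conj_symm, inner_sub_partSum128 g horth hnorm x N hz, map_zero]
  have h1 := norm_add_sq_eq_norm_sq_add_norm_sq_of_inner_eq_zero _ _ h0
  have h2 : x - partSum128 g x N + (partSum128 g x N - y) = x - y := by abel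
  rw [h2] at h1
  have h3 : ‖x - partSum128 g x N‖ * ‖x - partSum128 g x N‖ ≤ ‖x - y‖ * ‖x - y‖ := by
    rw [h1]
    nlinarith [mul_self_nonneg ‖partSum128 g x N - y‖]
  exact (mul_self_le_mul_self_iff (norm_nonneg _) (norm_nonneg _)).2 h3

/-- Pythagoras for the partial sums. -/
theorem norm_sq_eq_partSum128 (g : ℕ → E) (horth : ∀ n m, n ≠ m → ⟪g n, g m⟫_ℂ = 0)
    (hnorm : ∀ n, ‖g n‖ = 1 ∨ g n = 0) (x : E) (N : ℕ) :
    ‖x‖ ^ 2 = ‖x - partSum128 g x N‖ ^ 2 + ∑ n ∈ Finset.range N, ‖⟪g n, x⟫_ℂ‖ ^ 2 := by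
  have h0 : ⟪x - partSum128 g x N, partSum128 g x N⟫_ℂ = 0 := by
    rw [← inner_conj_symm, inner_sub_partSum128 g horth hnorm x N (partSum_mem128 g x N),
      map_zero]
  have h1 := norm_add_sq_eq_norm_sq_add_norm_sq_of_inner_eq_zero _ _ h0
  rw [sub_add_cancel] at h1
  have h2 : ‖partSum128 g x N‖ ^ 2 = ∑ n ∈ Finset.range N, ‖⟪g n, x⟫_ℂ‖ ^ 2 := by
    have h3 : ⟪partSum128 g x N, partSum128 g x N⟫_ℂ
        = ∑ n ∈ Finset.range N, ((‖⟪g n, x⟫_ℂ‖ : ℝ) : ℂ) ^ 2 := by
      have e : ⟪partSum128 g x N, partSum128 g x N⟫_ℂ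
          = ∑ n ∈ Finset.range N, ⟪⟪g n, x⟫_ℂ • g n, partSum128 g x N⟫_ℂ := by
        rw [← sum_inner]
        rfl
      rw [e]
      refine Finset.sum_congr rfl fun n hn => ?_
      rw [inner_smul_left, inner_partSum128 g horth hnorm x (Finset.mem_range.1 hn)]
      exact RCLike.conj_mul _
    have h4 := inner_self_eq_norm_sq_to_K (𝕜 := ℂ) (partSum128 g x N)
    rw [h3] at h4
    have h5 : ((∑ n ∈ Finset.range N, ‖⟪g n, x⟫_ℂ‖ ^ 2 : ℝ) : ℂ)
        = ((‖partSum128 g x N‖ ^ 2 : ℝ) : ℂ) := by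
      push_cast
      exact h4
    exact (Complex.ofReal_injective h5).symm
  rw [sq, h1, ← sq, ← sq, h2]

/-- **Parseval** for an orthogonal sequence (zero vectors allowed) and a vector in the closure
of its span. -/
theorem parseval_of_mem_closure128 (g : ℕ → E) (horth : ∀ n m, n ≠ m → ⟪g n, g m⟫_ℂ = 0)
    (hnorm : ∀ n, ‖g n‖ = 1 ∨ g n = 0) (x : E)
    (hx : x ∈ closure (Submodule.span ℂ (Set.range g) : Set E)) :
    HasSum (fun n => ‖⟪g n, x⟫_ℂ‖ ^ 2) (‖x‖ ^ 2) := by
  rw [hasSum_iff_tendsto_nat_of_nonneg (fun n => by positivity)]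
  have hlim : Tendsto (fun N => ‖x - partSum128 g x N‖) atTop (𝓝 0) := by
    rw [Metric.tendsto_atTop]
    intro ε hε
    obtain ⟨y, hy, hxy⟩ := Metric.mem_closure_iff.1 hx ε hε
    obtain ⟨N₀, hN₀⟩ := exists_mem_spanLt128 g hy
    refine ⟨N₀, fun N hN => ?_⟩
    rw [Real.dist_eq, sub_zero, abs_of_nonneg (norm_nonneg _)]
    have h1 := norm_sub_partSum_le128 g horth hnorm x N (spanLt_mono128 g hN hN₀)
    rw [dist_eq_norm] at hxy
    exact lt_of_le_of_lt h1 hxy
  have hlim2 : Tendsto (fun N => ‖x‖ ^ 2 - ‖x - partSum128 g x N‖ ^ 2) atTop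
      (𝓝 (‖x‖ ^ 2 - 0 ^ 2)) := tendsto_const_nhds.sub (hlim.pow 2)
  have e : (fun N => ∑ n ∈ Finset.range N, ‖⟪g n, x⟫_ℂ‖ ^ 2)
      = fun N => ‖x‖ ^ 2 - ‖x - partSum128 g x N‖ ^ 2 := by
    funext N
    have := norm_sq_eq_partSum128 g horth hnorm x N
    linarith
  rw [e]
  simpa using hlim2

/-- **Gram--Schmidt on a dense sequence**: a subspace of a separable inner product space has an
orthogonal sequence of its members (unit vectors or zero) whose span is dense in it. -/
theorem exists_orthoSeq128 [TopologicalSpace.SeparableSpace E] (T : Submodule ℂ E) :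
    ∃ g : ℕ → E, (∀ n, g n ∈ T) ∧ (∀ n m, n ≠ m → ⟪g n, g m⟫_ℂ = 0) ∧
      (∀ n, ‖g n‖ = 1 ∨ g n = 0) ∧
      (T : Set E) ⊆ closure (Submodule.span ℂ (Set.range g) : Set E) := by
  have hsep : TopologicalSpace.IsSeparable (T : Set E) :=
    (TopologicalSpace.isSeparable_univ_iff.2 inferInstance).mono (Set.subset_univ _)
  obtain ⟨D, hDT, hDc, hTD⟩ := hsep.exists_countable_dense_subset
  have hD' : (insert (0 : E) D).Countable := hDc.insert 0
  obtain ⟨d, hd⟩ := hD'.exists_eq_range (Set.insert_nonempty 0 D)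
  have hdT : ∀ n, d n ∈ T := by
    intro n
    have : d n ∈ insert (0 : E) D := by rw [hd]; exact Set.mem_range_self n
    rcases this with h | h
    · rw [h]; exact T.zero_mem
    · exact hDT h
  have hspan : Submodule.span ℂ (Set.range (gramSchmidtNormed ℂ d))
      = Submodule.span ℂ (Set.range d) := by
    rw [span_gramSchmidtNormed_range, span_gramSchmidt]
  refine ⟨gramSchmidtNormed ℂ d, ?_, ?_, ?_, ?_⟩
  · intro n
    have h1 : gramSchmidtNormed ℂ d n ∈ Submodule.span ℂ (Set.range (gramSchmidtNormed ℂ d)) :=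
      Submodule.subset_span (Set.mem_range_self n)
    rw [hspan] at h1
    exact (Submodule.span_le.2 (by rintro _ ⟨n, rfl⟩; exact hdT n)) h1
  · intro n m hnm
    have h := gramSchmidt_orthogonal ℂ d hnm
    show ⟪(‖gramSchmidt ℂ d n‖ : ℂ)⁻¹ • gramSchmidt ℂ d n,
      (‖gramSchmidt ℂ d m‖ : ℂ)⁻¹ • gramSchmidt ℂ d m⟫_ℂ = 0
    rw [inner_smul_left, inner_smul_right, h, mul_zero, mul_zero]
  · intro n
    by_cases h : gramSchmidtNormed ℂ d n = 0
    · exact Or.inr h
    · exact Or.inl (gramSchmidtNormed_unit_length' h)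
  · rw [hspan]
    refine hTD.trans (closure_mono ?_)
    intro y hy
    have : y ∈ Set.range d := by rw [← hd]; exact Set.mem_insert_of_mem 0 hy
    exact Submodule.subset_span this

end Hilbert

/-! ## The `L²` form -/

section L2

variable {X : Type*} [MeasurableSpace X] (ν : Measure X)

/-- The inner product of the classes in `L²` is the integral of `f · conj h`. -/
theorem inner_toLp128 {f h : X → ℂ} (hf : MemLp f 2 ν) (hh : MemLp h 2 ν) :
    ⟪hh.toLp h, hf.toLp f⟫_ℂ = ∫ x, f x * conj (h x) ∂ν := by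
  rw [L2.inner_def]
  refine integral_congr_ae ?_
  filter_upwards [hf.coeFn_toLp, hh.coeFn_toLp] with x hx1 hx2
  rw [hx1, hx2]
  simp

/-- **The core of `SubSeqC`**: a linear space `S` of square integrable functions on a measure
space with separable `L²` has an orthogonal sequence of its members (norm one or the zero
function) which is complete in `S`. -/
theorem exists_l2_seq128 [TopologicalSpace.SeparableSpace (Lp ℂ 2 ν)]
    (S : (X → ℂ) → Prop) (hmem : ∀ f, S f → MemLp f 2 ν) (h0 : S 0)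
    (hadd : ∀ f f', S f → S f' → S (f + f')) (hsmul : ∀ (a : ℂ) (f : X → ℂ), S f → S (a • f)) :
    ∃ p : ℕ → X → ℂ, (∀ n, S (p n)) ∧
      (∀ n m, n ≠ m → ∫ x, p n x * conj (p m x) ∂ν = 0) ∧
      (∀ n, ∫ x, p n x * conj (p n x) ∂ν = 1 ∨ p n = 0) ∧
      ∀ f : X → ℂ, S f →
        HasSum (fun n => ‖∫ x, f x * conj (p n x) ∂ν‖ ^ 2) (∫ x, f x * conj (f x) ∂ν).re := by
  -- the image of `S` in `L²`
  let T : Submodule ℂ (Lp ℂ 2 ν) :=
    { carrier := {y | ∃ (f : X → ℂ) (hS : S f), (hmem f hS).toLp f = y}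
      zero_mem' := ⟨0, h0, MemLp.toLp_zero _⟩
      add_mem' := by
        rintro _ _ ⟨f, hf, rfl⟩ ⟨f', hf', rfl⟩
        exact ⟨f + f', hadd f f' hf hf', MemLp.toLp_add (hmem f hf) (hmem f' hf')⟩
      smul_mem' := by
        rintro a _ ⟨f, hf, rfl⟩
        exact ⟨a • f, hsmul a f hf, MemLp.toLp_const_smul a (hmem f hf)⟩ }
  obtain ⟨g, hgT, horth, hnorm, hdense⟩ := exists_orthoSeq128 T
  have hch : ∀ n, ∃ (f : X → ℂ) (hS : S f), (hmem f hS).toLp f = g n := fun n => hgT n
  choose p₀ hp₀S hp₀ using hch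
  classical
  let p : ℕ → X → ℂ := fun n => if g n = 0 then 0 else p₀ n
  have hpS : ∀ n, S (p n) := by
    intro n
    by_cases h : g n = 0
    · simp only [p, h, if_true]; exact h0
    · simp only [p, h, if_false]; exact hp₀S n
  have hp : ∀ n, (hmem (p n) (hpS n)).toLp (p n) = g n := by
    intro n
    by_cases h : g n = 0
    · have e : p n = 0 := by simp only [p, h, if_true]
      rw [h]
      have := MemLp.toLp_zero (hmem 0 h0)
      simp only [e]
      exact this
    · have e : p n = p₀ n := by simp only [p, h, if_false]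
      simp only [e]
      exact hp₀ n
  have hint : ∀ (f : X → ℂ) (hf : S f) (n : ℕ),
      ∫ x, f x * conj (p n x) ∂ν = ⟪g n, (hmem f hf).toLp f⟫_ℂ := by
    intro f hf n
    rw [← hp n, inner_toLp128]
  refine ⟨p, hpS, ?_, ?_, ?_⟩
  · intro n m hnm
    rw [hint (p n) (hpS n) m, hp n]
    exact horth m n (Ne.symm hnm)
  · intro n
    by_cases h : g n = 0
    · right
      simp only [p, h, if_true]
    · left
      rw [hint (p n) (hpS n) n, hp n, inner_self_eq_norm_sq_to_K]
      rcases hnorm n with h1 | h1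
      · rw [h1]; simp
      · exact absurd h1 h
  · intro f hf
    have hx : (hmem f hf).toLp f ∈ closure (Submodule.span ℂ (Set.range g) : Set (Lp ℂ 2 ν)) :=
      hdense ⟨f, hf, rfl⟩
    have hP := parseval_of_mem_closure128 g horth hnorm _ hx
    have e1 : (fun n => ‖∫ x, f x * conj (p n x) ∂ν‖ ^ 2)
        = fun n => ‖⟪g n, (hmem f hf).toLp f⟫_ℂ‖ ^ 2 := by
      funext n
      rw [hint f hf n]
    have e2 : (∫ x, f x * conj (f x) ∂ν).re = ‖(hmem f hf).toLp f‖ ^ 2 := by
      rw [← inner_toLp128 ν (hmem f hf) (hmem f hf), inner_self_eq_norm_sq_to_K]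
      norm_cast
    rw [e1, e2]
    exact hP

end L2

end Fermat.Agent.LT.T7.H128

end
end
-- ===== PACK-END LT/T7/H128/SubSeqCore.lean

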