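import Mathlib
import Fermat.Prelude.Def_LanglandsTunnell_RealizationDictionary
import Fermat.Prelude.Def_ModularForm_HeckeOperatorForms
import Fermat.Prelude.Thm_ModularFormClass_qCoeff_heckeU
import Fermat.Agent.Pack.LT2.E0L2
import Fermat.Agent.Pack.LT2.E0L3
import Fermat.Agent.Pack.LT2.E0L1
import Fermat.Agent.Pack.LT3.E0L0
import Fermat.Agent.Pack.LT3.E2L3

set_option linter.all false

-- ===== PACK-BEGIN LT/H670/QOut/Api.lean
section




/-!
# Row LT, tower T7, sub-tower QOUT (helper670): API of local elements of `GL₂(𝔸_ℚ)`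

OFF-MAIN.  Definitions and proved lemmas only.

* `locInf : GL₂(ℝ) →* GL₂(𝔸_ℚ)` -- the element supported at the real place;
* `locFin v : GL₂(ℚ_v) →* GL₂(𝔸_ℚ)` -- the element supported at the finite place `v`;
* `diagQ : GL₂(ℚ) →* GL₂(𝔸_ℚ)` -- the diagonal embedding (the one of `A0.IsSph0CuspFormFor.left_inv`);
* `finPart γ = (γ_∞)⁻¹ γ` -- the finite part of a rational matrix.
-/

set_option autoImplicit false

open IsDedekindDomain NumberField AutomorphicForm
open scoped MatrixGroups

noncomputable section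

namespace Fermat.Agent.LT.H670.QOut

open Fermat.Agent.LT.H556

/-- the finite adeles of `ℚ` -/
abbrev Afin : Type := FiniteAdeleRing (𝓞 ℚ) ℚ

/-- the infinite adeles of `ℚ` -/
abbrev Ainf : Type := InfiniteAdeleRing ℚ

theorem isReal_place (w : InfinitePlace ℚ) : w.IsReal := by
  rw [Subsingleton.elim w Rat.infinitePlace]
  exact Rat.isReal_infinitePlace

/-- `ℝ → ℚ_∞` -/
def realToInf : ℝ →+* Ainf :=
  RingHom.pi fun w =>
    ((InfinitePlace.Completion.ringEquivRealOfIsReal (isReal_place w)).symm : ℝ →+* w.Completion)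

/-- the ring isomorphism `𝔸_ℚ = ℚ_∞ × 𝔸_f` (definitional) -/
def adlEquiv : A0.Adl ℚ ≃+* Ainf × Afin := RingEquiv.refl _

/-- pairing of matrices -/
def pairMat (a : Matrix (Fin 2) (Fin 2) Ainf) (b : Matrix (Fin 2) (Fin 2) Afin) :
    Matrix (Fin 2) (Fin 2) (A0.Adl ℚ) := fun i j => adlEquiv.symm (a i j, b i j)

theorem pairMat_one : pairMat 1 1 = 1 := by
  ext i j
  by_cases h : i = j <;> simp [pairMat, Matrix.one_apply, h]

theorem pairMat_mul (a a' : Matrix (Fin 2) (Fin 2) Ainf) (b b' : Matrix (Fin 2) (Fin 2) Afin) :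
    pairMat (a * a') (b * b') = pairMat a b * pairMat a' b' := by
  ext i j
  simp only [pairMat, Matrix.mul_apply, Fin.sum_univ_two]
  rw [← map_mul, ← map_mul, ← map_add]
  rfl

theorem pairMat_fst (a : Matrix (Fin 2) (Fin 2) Ainf) (b : Matrix (Fin 2) (Fin 2) Afin)
    (i j : Fin 2) : (pairMat a b i j).1 = a i j := rfl

theorem pairMat_snd (a : Matrix (Fin 2) (Fin 2) Ainf) (b : Matrix (Fin 2) (Fin 2) Afin)
    (i j : Fin 2) : (pairMat a b i j).2 = b i j := rfl

/-- the matrix over `𝔸_ℚ` with real component `m` and finite components `1` -/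
def matInf : Matrix (Fin 2) (Fin 2) ℝ →* Matrix (Fin 2) (Fin 2) (A0.Adl ℚ) where
  toFun m := pairMat (m.map realToInf) (1 : Matrix (Fin 2) (Fin 2) Afin)
  map_one' := by
    rw [Matrix.map_one _ (map_zero _) (map_one _)]; exact pairMat_one
  map_mul' m m' := by
    rw [Matrix.map_mul, ← pairMat_mul, one_mul]

/-- `GL₂(ℝ) → GL₂(𝔸_ℚ)`: the element supported at the real place -/
def locInf : GL (Fin 2) ℝ →* A0.G ℚ := Units.map matInf

open Classical in
/-- the finite adele with component `x` at `v` and the integer `c` elsewhere -/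
def updFin (v : HeightOneSpectrum (𝓞 ℚ)) (c : ℤ) (x : v.adicCompletion ℚ) : Afin :=
  RestrictedProduct.mk (Function.update (fun v' => ((c : ℤ) : v'.adicCompletion ℚ)) v x) (by
    filter_upwards [show {v}ᶜ ∈ Filter.cofinite by simp] with v' hv'
    rw [Function.update_of_ne (by simpa using hv')]
    exact intCast_mem _ c)

theorem updFin_same (v : HeightOneSpectrum (𝓞 ℚ)) (c : ℤ) (x : v.adicCompletion ℚ) :
    updFin v c x v = x := by
  classical
  exact Function.update_self (f := fun v' : HeightOneSpectrum (𝓞 ℚ) =>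
    ((c : ℤ) : v'.adicCompletion ℚ)) v x

theorem updFin_ne (v v' : HeightOneSpectrum (𝓞 ℚ)) (h : v' ≠ v) (c : ℤ) (x : v.adicCompletion ℚ) :
    updFin v c x v' = (c : v'.adicCompletion ℚ) := by
  classical
  exact Function.update_of_ne (f := fun v' : HeightOneSpectrum (𝓞 ℚ) =>
    ((c : ℤ) : v'.adicCompletion ℚ)) h x

/-- the finite adelic matrix with component `m` at `v`, `1` elsewhere -/
def finMat (v : HeightOneSpectrum (𝓞 ℚ)) (m : Matrix (Fin 2) (Fin 2) (v.adicCompletion ℚ)) :
    Matrix (Fin 2) (Fin 2) Afin :=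
  fun i j => updFin v (if i = j then 1 else 0) (m i j)

theorem finMat_apply_same (v : HeightOneSpectrum (𝓞 ℚ))
    (m : Matrix (Fin 2) (Fin 2) (v.adicCompletion ℚ)) (i j : Fin 2) :
    finMat v m i j v = m i j := updFin_same _ _ _

theorem finMat_apply_ne (v v' : HeightOneSpectrum (𝓞 ℚ)) (h : v' ≠ v)
    (m : Matrix (Fin 2) (Fin 2) (v.adicCompletion ℚ)) (i j : Fin 2) :
    finMat v m i j v' = (1 : Matrix (Fin 2) (Fin 2) (v'.adicCompletion ℚ)) i j := by
  rw [finMat, updFin_ne _ _ h, Matrix.one_apply]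
  split_ifs <;> simp

theorem afin_one_apply (v : HeightOneSpectrum (𝓞 ℚ)) : (1 : Afin) v = 1 := rfl
theorem afin_zero_apply (v : HeightOneSpectrum (𝓞 ℚ)) : (0 : Afin) v = 0 := rfl
theorem afin_mul_apply (x y : Afin) (v : HeightOneSpectrum (𝓞 ℚ)) : (x * y) v = x v * y v := rfl
theorem afin_add_apply (x y : Afin) (v : HeightOneSpectrum (𝓞 ℚ)) : (x + y) v = x v + y v := rfl

theorem finMat_one (v : HeightOneSpectrum (𝓞 ℚ)) : finMat v 1 = 1 := by
  refine Matrix.ext fun i j => FiniteAdeleRing.ext ℚ (fun v' => ?_)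
  by_cases h : v' = v
  · subst h
    rw [finMat_apply_same]
    by_cases hij : i = j <;> simp [Matrix.one_apply, hij, afin_one_apply, afin_zero_apply]
  · rw [finMat_apply_ne _ _ h]
    by_cases hij : i = j <;> simp [Matrix.one_apply, hij, afin_one_apply, afin_zero_apply]

theorem finMat_mul (v : HeightOneSpectrum (𝓞 ℚ))
    (m m' : Matrix (Fin 2) (Fin 2) (v.adicCompletion ℚ)) :
    finMat v (m * m') = finMat v m * finMat v m' := by
  refine Matrix.ext fun i j => FiniteAdeleRing.ext ℚ (fun v' => ?_)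
  simp only [Matrix.mul_apply, Fin.sum_univ_two, afin_add_apply, afin_mul_apply]
  by_cases h : v' = v
  · subst h
    simp [finMat_apply_same, Matrix.mul_apply, Fin.sum_univ_two]
  · simp only [finMat_apply_ne _ _ h]
    have := congrFun (congrFun (one_mul (1 : Matrix (Fin 2) (Fin 2) (v'.adicCompletion ℚ))) i) j
    rw [Matrix.mul_apply, Fin.sum_univ_two] at this
    exact this.symm

/-- the matrix over `𝔸_ℚ` with component `m` at `v` and `1` elsewhere -/
def matFin (v : HeightOneSpectrum (𝓞 ℚ)) :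
    Matrix (Fin 2) (Fin 2) (v.adicCompletion ℚ) →* Matrix (Fin 2) (Fin 2) (A0.Adl ℚ) where
  toFun m := pairMat 1 (finMat v m)
  map_one' := by rw [finMat_one]; exact pairMat_one
  map_mul' m m' := by rw [finMat_mul, ← pairMat_mul, one_mul]

/-- `GL₂(ℚ_v) → GL₂(𝔸_ℚ)` -/
def locFin (v : HeightOneSpectrum (𝓞 ℚ)) : GL (Fin 2) (v.adicCompletion ℚ) →* A0.G ℚ :=
  Units.map (matFin v)

/-- the diagonal embedding -/
def diagQ : GL (Fin 2) ℚ →* A0.G ℚ :=
  Matrix.GeneralLinearGroup.map (algebraMap ℚ (A0.Adl ℚ))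

/-- `GL₂(ℚ) → GL₂(ℝ)` -/
def toReal : GL (Fin 2) ℚ →* GL (Fin 2) ℝ :=
  Matrix.GeneralLinearGroup.map (algebraMap ℚ ℝ)

/-- the finite part of a rational matrix -/
def finPart (γ : GL (Fin 2) ℚ) : A0.G ℚ := (locInf (toReal γ))⁻¹ * diagQ γ

/-! ## Components -/

theorem locInf_val (m : GL (Fin 2) ℝ) (i j : Fin 2) :
    ((locInf m : A0.G ℚ) : Matrix (Fin 2) (Fin 2) (A0.Adl ℚ)) i j
      = adlEquiv.symm (realToInf (m i j), (1 : Matrix (Fin 2) (Fin 2) Afin) i j) := rfl

theorem locFin_val (v : HeightOneSpectrum (𝓞 ℚ)) (m : GL (Fin 2) (v.adicCompletion ℚ))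
    (i j : Fin 2) :
    ((locFin v m : A0.G ℚ) : Matrix (Fin 2) (Fin 2) (A0.Adl ℚ)) i j
      = adlEquiv.symm ((1 : Matrix (Fin 2) (Fin 2) Ainf) i j, finMat v m i j) := rfl

theorem finComp_locInf (v : HeightOneSpectrum (𝓞 ℚ)) (m : GL (Fin 2) ℝ) :
    A0.finComp v (locInf m) = 1 := by
  refine Matrix.ext fun i j => ?_
  show ((1 : Matrix (Fin 2) (Fin 2) Afin) i j) v = _
  by_cases hij : i = j <;> simp [Matrix.one_apply, hij, afin_one_apply, afin_zero_apply]

theorem trivAtFin_locInf (v : HeightOneSpectrum (𝓞 ℚ)) (m : GL (Fin 2) ℝ) :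
    A0.TrivAtFin v (locInf m) := finComp_locInf v m

theorem finComp_locFin_same (v : HeightOneSpectrum (𝓞 ℚ)) (m : GL (Fin 2) (v.adicCompletion ℚ)) :
    A0.finComp v (locFin v m) = m := by
  refine Matrix.ext fun i j => ?_
  exact finMat_apply_same v _ i j

theorem finComp_locFin_ne (v v' : HeightOneSpectrum (𝓞 ℚ)) (h : v' ≠ v)
    (m : GL (Fin 2) (v.adicCompletion ℚ)) :
    A0.finComp v' (locFin v m) = 1 := by
  refine Matrix.ext fun i j => ?_
  exact finMat_apply_ne v v' h _ i j

theorem trivAtInf_locFin (v : HeightOneSpectrum (𝓞 ℚ)) (m : GL (Fin 2) (v.adicCompletion ℚ))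
    (w : InfinitePlace ℚ) : A0.TrivAtInf w (locFin v m) := by
  intro i j
  show ((1 : Matrix (Fin 2) (Fin 2) Ainf) i j) w = _
  by_cases hij : i = j <;> simp [Matrix.one_apply, hij] <;> rfl

theorem isLocalAtFin_locFin (v : HeightOneSpectrum (𝓞 ℚ)) (m : GL (Fin 2) (v.adicCompletion ℚ)) :
    A0.IsLocalAtFin v (locFin v m) :=
  ⟨trivAtInf_locFin v m, fun v' h => finComp_locFin_ne v v' h m⟩

theorem isLocalAtInf_locInf (w : InfinitePlace ℚ) (m : GL (Fin 2) ℝ) :
    A0.IsLocalAtInf w (locInf m) :=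
  ⟨fun w' h => absurd (Subsingleton.elim w' w) h, fun v => trivAtFin_locInf v m⟩


theorem extEmb_realToInf (w : InfinitePlace ℚ) (r : ℝ) :
    InfinitePlace.Completion.extensionEmbedding w ((realToInf r : InfiniteAdeleRing ℚ) w)
      = (r : ℂ) := by
  have h := InfinitePlace.Completion.extensionEmbeddingOfIsReal_apply (isReal_place w)
    ((InfinitePlace.Completion.ringEquivRealOfIsReal (isReal_place w)).symm r)
  have h2 : InfinitePlace.Completion.extensionEmbeddingOfIsReal (isReal_place w)
      ((InfinitePlace.Completion.ringEquivRealOfIsReal (isReal_place w)).symm r) = r :=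
    (InfinitePlace.Completion.ringEquivRealOfIsReal (isReal_place w)).apply_symm_apply r
  rw [h2] at h
  exact h.symm

/-- the real component of `locInf m` is `m` -/
theorem infComp_locInf (w : InfinitePlace ℚ) (m : GL (Fin 2) ℝ) :
    A0.infComp w (locInf m)
      = (m : Matrix (Fin 2) (Fin 2) ℝ).map (fun r : ℝ => (r : ℂ)) := by
  refine Matrix.ext fun i j => ?_
  exact extEmb_realToInf w (m i j)

/-- elements at the real place commute with elements trivial at the real place -/
theorem locInf_comm_locFin (m : GL (Fin 2) ℝ) (v : HeightOneSpectrum (𝓞 ℚ))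
    (m' : GL (Fin 2) (v.adicCompletion ℚ)) :
    locInf m * locFin v m' = locFin v m' * locInf m := by
  apply Units.ext
  show matInf m * matFin v m' = matFin v m' * matInf m
  show pairMat _ _ * pairMat _ _ = pairMat _ _ * pairMat _ _
  rw [← pairMat_mul, ← pairMat_mul, one_mul, mul_one, one_mul, mul_one]

/-! ## The finite places of `ℚ` (same content as `H556/DictHol.lean`) -/

theorem natGenerator_ratPrime (p : Nat.Primes) :
    Rat.HeightOneSpectrum.natGenerator (ratPrime p) = (p : ℕ) :=
  congrArg Subtype.val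
    (Equiv.apply_symm_apply (Rat.HeightOneSpectrum.primesEquiv (R := 𝓞 ℚ)) p)

theorem mem_ratPrime_iff (p : Nat.Primes) (x : 𝓞 ℚ) :
    x ∈ (ratPrime p).asIdeal ↔ ((p : ℕ) : 𝓞 ℚ) ∣ x := by
  have h1 : x ∈ (ratPrime p).asIdeal ↔
      Rat.IsIntegralClosure.intEquiv (𝓞 ℚ) x ∈
        (ratPrime p).asIdeal.map (Rat.IsIntegralClosure.intEquiv (𝓞 ℚ)) :=
    (Ideal.apply_mem_of_equiv_iff (f := Rat.IsIntegralClosure.intEquiv (𝓞 ℚ))).symm
  rw [h1, ← Rat.HeightOneSpectrum.span_natGenerator, natGenerator_ratPrime,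
    Ideal.mem_span_singleton]
  constructor
  · intro h
    have h2 := map_dvd (Rat.IsIntegralClosure.intEquiv (𝓞 ℚ)).symm h
    rw [RingEquiv.symm_apply_apply, map_natCast] at h2
    exact h2
  · intro h
    have h2 := map_dvd (Rat.IsIntegralClosure.intEquiv (𝓞 ℚ)) h
    rw [map_natCast] at h2
    exact h2

theorem ratPrime_asIdeal (p : Nat.Primes) :
    (ratPrime p).asIdeal = Ideal.span {((p : ℕ) : 𝓞 ℚ)} := by
  ext x
  rw [mem_ratPrime_iff, Ideal.mem_span_singleton]

theorem natCast_mem_ratPrime_iff (p : Nat.Primes) (n : ℕ) :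
    (n : 𝓞 ℚ) ∈ (ratPrime p).asIdeal ↔ (p : ℕ) ∣ n := by
  have h1 : (n : 𝓞 ℚ) ∈ (ratPrime p).asIdeal ↔
      Rat.IsIntegralClosure.intEquiv (𝓞 ℚ) (n : 𝓞 ℚ) ∈
        (ratPrime p).asIdeal.map (Rat.IsIntegralClosure.intEquiv (𝓞 ℚ)) :=
    (Ideal.apply_mem_of_equiv_iff (f := Rat.IsIntegralClosure.intEquiv (𝓞 ℚ))).symm
  rw [h1, map_natCast, ← Rat.HeightOneSpectrum.natGenerator_dvd_iff, natGenerator_ratPrime]

theorem absNorm_ratPrime (p : Nat.Primes) :
    Ideal.absNorm (ratPrime p).asIdeal = (p : ℕ) := by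
  rw [ratPrime_asIdeal, Ideal.absNorm_span_singleton, Algebra.norm_natCast,
    NumberField.RingOfIntegers.rank, Module.finrank_self]
  simp

/-- every finite place of `ℚ` is `ratPrime p` -/
theorem exists_eq_ratPrime (v : HeightOneSpectrum (𝓞 ℚ)) : ∃ p : Nat.Primes, v = ratPrime p :=
  ⟨Rat.HeightOneSpectrum.primesEquiv (R := 𝓞 ℚ) v,
    ((Rat.HeightOneSpectrum.primesEquiv (R := 𝓞 ℚ)).symm_apply_apply v).symm⟩

end Fermat.Agent.LT.H670.QOut

end

end
-- ===== PACK-END LT/H670/QOut/Api.lean

-- ===== PACK-BEGIN LT/H670/QOut/ClassU.lean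
section




/-!
# Row LT, T7.QOUT (helper670): the operator `U_m` on `S_k(Γ₁(M))` for `m ∣ M^∞`

`exists_U_Gamma1`: for `G ∈ S_k(Γ₁(M))` and `m` all of whose prime factors divide `M` there is
`G' ∈ S_k(Γ₁(M))` with `a_n(G') = a_{n m}(G)`.  OFF-MAIN.
-/

set_option autoImplicit false

open UpperHalfPlane ModularForm CongruenceSubgroup Matrix.SpecialLinearGroup ModularFormClass
open scoped MatrixGroups ModularForm Manifold

namespace Fermat.Agent.LT.H670.QOut

noncomputable section

open P2MW.S_ModularForm_heckeU_slash_eq_self_of_mem_Gamma0.ModularForm.HeckeSlashInvariance in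
/-- `U_p` preserves invariance under `Γ₁(N)` when `p ∣ N`. -/
theorem heckeU_slash_Gamma1 {N p : ℕ} [NeZero p] (k : ℤ) (hpN : p ∣ N) (f : ℍ → ℂ)
    (hf : ∀ γ ∈ (Gamma1 N : Subgroup (GL (Fin 2) ℝ)), f ∣[k] γ = f)
    (g : SL(2, ℤ)) (hg : g ∈ Gamma1 N) :
    heckeU k p f ∣[k] (mapGL ℝ g) = heckeU k p f := by
  have hp : p ≠ 0 := NeZero.ne p
  have hg3 := (Gamma1_mem N g).mp hg
  have hcN : (N : ℤ) ∣ g 1 0 := (ZMod.intCast_zmod_eq_zero_iff_dvd _ _).mp hg3.2.2
  have hc : (p : ℤ) ∣ g 1 0 := (Int.natCast_dvd_natCast.mpr hpN).trans hcN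
  rw [heckeU_eq_sum_zmod k f, SlashAction.sum_slash]
  calc ∑ x : ZMod p, (f ∣[k] heckeMatrix p x.val) ∣[k] mapGL ℝ g
      = ∑ x : ZMod p, f ∣[k] heckeMatrix p
          (affinePerm g ((ZMod.intCast_zmod_eq_zero_iff_dvd _ _).mpr hc) x).val := by
        refine Finset.sum_congr rfl fun x _ ↦ ?_
        obtain ⟨g', hg'10, hmul⟩ := heckeMatrix_mul_of_dvd g hc x
        set x' := (affinePerm g ((ZMod.intCast_zmod_eq_zero_iff_dvd _ _).mpr hc) x).val with hx'
        have h00 := congrArg (fun m : GL (Fin 2) ℝ => (m : Matrix (Fin 2) (Fin 2) ℝ) 0 0) hmul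
        have h11 := congrArg (fun m : GL (Fin 2) ℝ => (m : Matrix (Fin 2) (Fin 2) ℝ) 1 1) hmul
        simp only [Units.val_mul, Matrix.mul_apply, Fin.sum_univ_two, val_heckeMatrix hp,
          Matrix.of_apply, Matrix.cons_val', Matrix.cons_val_zero, Matrix.cons_val_one,
          Matrix.cons_val_fin_one, mapGL_real_apply] at h00 h11
        have e00 : g' 0 0 = g 0 0 + (x.val : ℤ) * g 1 0 := by
          have : ((g' 0 0 : ℤ) : ℝ) = ((g 0 0 + (x.val : ℤ) * g 1 0 : ℤ) : ℝ) := by
            push_cast; linarith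
          exact_mod_cast this
        have e11 : g' 1 1 = g 1 1 - g 1 0 * (x' : ℤ) := by
          have hpR : (p : ℝ) ≠ 0 := by exact_mod_cast hp
          have h10 : ((g' 1 0 : ℤ) : ℝ) = (p : ℝ) * ((g 1 0 : ℤ) : ℝ) := by
            rw [hg'10]; push_cast; ring
          have : ((g' 1 1 : ℤ) : ℝ) = ((g 1 1 - g 1 0 * (x' : ℤ) : ℤ) : ℝ) := by
            push_cast
            have h := h11
            rw [h10] at h
            have h2 : (p : ℝ) * ((g' 1 1 : ℤ) : ℝ)
                = (p : ℝ) * (((g 1 1 : ℤ) : ℝ) - ((g 1 0 : ℤ) : ℝ) * (x' : ℝ)) := by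
              linarith
            exact mul_left_cancel₀ hpR h2
          exact_mod_cast this
        have hg'N : g' ∈ Gamma1 N := by
          rw [Gamma1_mem]
          refine ⟨?_, ?_, ?_⟩
          · rw [e00]; push_cast; rw [hg3.1, hg3.2.2]; ring
          · rw [e11]; push_cast; rw [hg3.2.1, hg3.2.2]; ring
          · rw [hg'10]; push_cast; rw [hg3.2.2]; ring
        rw [← SlashAction.slash_mul, hmul, SlashAction.slash_mul,
          hf _ (Subgroup.mem_map_of_mem (mapGL ℝ) hg'N)]
    _ = ∑ x : ZMod p, f ∣[k] heckeMatrix p x.val :=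
        Equiv.sum_comp (affinePerm g _) (fun x ↦ f ∣[k] heckeMatrix p x.val)

/-- `U_p` on `S_k(Γ₁(M))` for `p ∣ M`. -/
def heckeUGamma1 {M p : ℕ} [NeZero M] (k : ℤ) (hpM : p ∣ M) (G : CuspForm (Gamma1 M) k) :
    CuspForm (Gamma1 M) k where
  toFun := heckeU k p ⇑G
  slash_action_eq' := fun γ hγ => by
    have hp : p ≠ 0 := fun h => NeZero.ne M (by rw [h] at hpM; exact Nat.eq_zero_of_zero_dvd hpM)
    have : NeZero p := ⟨hp⟩
    obtain ⟨g, hg, rfl⟩ := hγ
    exact heckeU_slash_Gamma1 k hpM G
      (fun γ hγ => SlashInvariantFormClass.slash_action_eq G γ hγ) g hg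
  holo' := mdifferentiable_heckeU (CuspFormClass.holo G) k p
  zero_at_cusps' := fun hc => CuspFormClass.isZeroAt_heckeU G p hc

theorem qCoeff_heckeUGamma1 {M p : ℕ} [NeZero M] (k : ℤ) (hpM : p ∣ M)
    (G : CuspForm (Gamma1 M) k) (n : ℕ) :
    qCoeff (heckeUGamma1 k hpM G) n = qCoeff G (n * p) := by
  have hp : p ≠ 0 := fun h => NeZero.ne M (by rw [h] at hpM; exact Nat.eq_zero_of_zero_dvd hpM)
  have h := ModularFormClass.qCoeff_heckeU G
    (Fermat.Agent.LT.H670.one_mem_strictPeriods_Gamma1_map M) hp n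
  rw [coeffHeckeU_apply] at h
  exact h

/-- **`U_m`** for `m` with all prime factors dividing `M`. -/
theorem exists_U_Gamma1 (M : ℕ) [NeZero M] (k : ℤ) (G : CuspForm (Gamma1 M) k) :
    ∀ m : ℕ, m ≠ 0 → (∀ q : ℕ, q.Prime → q ∣ m → q ∣ M) →
      ∃ G' : CuspForm (Gamma1 M) k, ∀ n : ℕ, qCoeff G' n = qCoeff G (n * m) := by
  intro m
  induction m using Nat.strong_induction_on with
  | _ m ih =>
    intro hm hq
    by_cases h1 : m = 1
    · subst h1
      exact ⟨G, fun n => by rw [mul_one]⟩
    · have hp := Nat.minFac_prime h1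
      obtain ⟨m', hm'⟩ := Nat.minFac_dvd m
      have hm'0 : m' ≠ 0 := by
        rintro rfl
        rw [mul_zero] at hm'
        exact hm hm'
      have hlt : m' < m := by
        calc m' = 1 * m' := (one_mul _).symm
          _ < m.minFac * m' := Nat.mul_lt_mul_of_pos_right hp.one_lt (Nat.pos_of_ne_zero hm'0)
          _ = m := hm'.symm
      have hq' : ∀ q : ℕ, q.Prime → q ∣ m' → q ∣ M := fun q hqp hqm =>
        hq q hqp (hm' ▸ Dvd.dvd.mul_left hqm _)
      obtain ⟨G'', hG''⟩ := ih m' hlt hm'0 hq'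
      have hpM : m.minFac ∣ M := hq _ hp (Nat.minFac_dvd m)
      refine ⟨heckeUGamma1 k hpM G'', fun n => ?_⟩
      rw [qCoeff_heckeUGamma1, hG'']
      congr 1
      rw [mul_assoc]
      exact congrArg _ hm'.symm

end

end Fermat.Agent.LT.H670.QOut

end
-- ===== PACK-END LT/H670/QOut/ClassU.lean

-- ===== PACK-BEGIN LT/T2/H314/CommCore.lean
section



/-!
# Row LT, tower T2, sub-leaf T2.07.17 (helper314): core lemmas in the vocabulary of A0

OFF-MAIN.  Imports Mathlib and `LT/H556/A0.lean` (byte-identical copy) only.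

* `commute_inf_fin314`: an element supported at an infinite place commutes with an element
  supported at a finite place.
* `continuous_of_localAtInf314`: a family of elements supported at the infinite place `w` with
  continuous components is continuous.
* `sphere_sum_comm314`, `circle_sum_comm314`: the sphere (circle) mean of a finite sum of right
  translates by elements supported at a finite place is the sum of the translated means.
-/

set_option autoImplicit false

open IsDedekindDomain NumberField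
open Fermat.Agent.LT.H556.A0

noncomputable section

namespace Fermat.Agent.LT.T2.H314

variable {K : Type} [Field K] [NumberField K]

/-! ## 1. Components of products -/

/-- Extensionality for adeles. -/
theorem adl_ext314 {x y : Adl K} (h1 : ∀ w : InfinitePlace K, x.1 w = y.1 w)
    (h2 : ∀ v : HeightOneSpectrum (𝓞 K), x.2 v = y.2 v) : x = y :=
  Prod.ext (funext h1) (RestrictedProduct.ext _ _ h2)

theorem add_fst314 (x y : Adl K) (w : InfinitePlace K) : (x + y).1 w = x.1 w + y.1 w := rfl

theorem mul_fst314 (x y : Adl K) (w : InfinitePlace K) : (x * y).1 w = x.1 w * y.1 w := rfl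

theorem add_snd314 (x y : Adl K) (v : HeightOneSpectrum (𝓞 K)) :
    (x + y).2 v = x.2 v + y.2 v := rfl

theorem mul_snd314 (x y : Adl K) (v : HeightOneSpectrum (𝓞 K)) :
    (x * y).2 v = x.2 v * y.2 v := rfl

/-- The infinite component of a product of matrices. -/
theorem mul_inf314 (a b : Matrix (Fin 2) (Fin 2) (Adl K)) (w : InfinitePlace K) (i j : Fin 2) :
    ((a * b) i j).1 w = ∑ k : Fin 2, (a i k).1 w * (b k j).1 w := by
  rw [Matrix.mul_apply]
  simp only [Fin.sum_univ_two, add_fst314, mul_fst314]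

/-- The finite component of a product of matrices. -/
theorem mul_fin314 (a b : Matrix (Fin 2) (Fin 2) (Adl K)) (v : HeightOneSpectrum (𝓞 K))
    (i j : Fin 2) :
    ((a * b) i j).2 v = ∑ k : Fin 2, (a i k).2 v * (b k j).2 v := by
  rw [Matrix.mul_apply]
  simp only [Fin.sum_univ_two, add_snd314, mul_snd314]

/-- An element supported at an infinite place commutes with an element supported at a finite
place. -/
theorem commute_inf_fin314 {w : InfinitePlace K} {v : HeightOneSpectrum (𝓞 K)} {y h : G K}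
    (hy : IsLocalAtInf w y) (hh : IsLocalAtFin v h) : y * h = h * y := by
  apply Units.ext
  rw [Units.val_mul, Units.val_mul]
  ext i j : 2
  apply adl_ext314
  · intro w'
    rw [mul_inf314, mul_inf314]
    have h1 : ∀ a b : Fin 2, ((h : Matrix (Fin 2) (Fin 2) (Adl K)) a b).1 w'
        = (1 : Matrix (Fin 2) (Fin 2) w'.Completion) a b := hh.1 w'
    simp only [h1, Matrix.one_apply, mul_ite, mul_one, mul_zero, ite_mul, one_mul, zero_mul,
      Finset.sum_ite_eq, Finset.sum_ite_eq', Finset.mem_univ, if_true]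
  · intro v'
    rw [mul_fin314, mul_fin314]
    have h1 : ∀ a b : Fin 2, ((y : Matrix (Fin 2) (Fin 2) (Adl K)) a b).2 v'
        = (1 : Matrix (Fin 2) (Fin 2) (v'.adicCompletion K)) a b := fun a b =>
      congrFun (congrFun (hy.2 v') a) b
    simp only [h1, Matrix.one_apply, mul_ite, mul_one, mul_zero, ite_mul, one_mul, zero_mul,
      Finset.sum_ite_eq, Finset.sum_ite_eq', Finset.mem_univ, if_true]

/-! ## 2. Evaluation homomorphisms -/

/-- Evaluation of an adele at the infinite place `w`. -/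
def evInf314 (w : InfinitePlace K) : Adl K →+* w.Completion where
  toFun x := x.1 w
  map_one' := rfl
  map_mul' _ _ := rfl
  map_zero' := rfl
  map_add' _ _ := rfl

/-- Evaluation of an adele at the finite place `v`. -/
def evFin314 (v : HeightOneSpectrum (𝓞 K)) : Adl K →+* v.adicCompletion K where
  toFun x := x.2 v
  map_one' := rfl
  map_mul' _ _ := rfl
  map_zero' := rfl
  map_add' _ _ := rfl

/-- The component at `w`, transported to `ℂ`. -/
def infHom314 (w : InfinitePlace K) : Adl K →+* ℂ :=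
  (InfinitePlace.Completion.extensionEmbedding w).comp (evInf314 w)

theorem infComp_eq314 (w : InfinitePlace K) (g : G K) :
    infComp w g = ((Matrix.GeneralLinearGroup.map (infHom314 w) g : GL (Fin 2) ℂ) :
      Matrix (Fin 2) (Fin 2) ℂ) := by
  ext i j
  rfl

theorem trivAtInf_iff314 (w : InfinitePlace K) (g : G K) :
    TrivAtInf w g ↔ Matrix.GeneralLinearGroup.map (evInf314 w) g = 1 := by
  constructor
  · intro h
    exact Units.ext (Matrix.ext fun i j => h i j)
  · intro h i j
    have := congrArg (fun u : GL (Fin 2) w.Completion =>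
      (u : Matrix (Fin 2) (Fin 2) w.Completion) i j) h
    exact this

theorem trivAtFin_iff314 (v : HeightOneSpectrum (𝓞 K)) (g : G K) :
    TrivAtFin v g ↔ Matrix.GeneralLinearGroup.map (evFin314 v) g = 1 := by
  constructor
  · intro h
    exact Units.ext (Matrix.ext fun i j => congrFun (congrFun h i) j)
  · intro h
    refine Matrix.ext fun i j => ?_
    have := congrArg (fun u : GL (Fin 2) (v.adicCompletion K) =>
      (u : Matrix (Fin 2) (Fin 2) (v.adicCompletion K)) i j) h
    exact this

theorem trivAtInf_inv314 {w : InfinitePlace K} {g : G K} (h : TrivAtInf w g) :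
    TrivAtInf w g⁻¹ := by
  rw [trivAtInf_iff314] at h ⊢
  rw [map_inv, h, inv_one]

theorem trivAtFin_inv314 {v : HeightOneSpectrum (𝓞 K)} {g : G K} (h : TrivAtFin v g) :
    TrivAtFin v g⁻¹ := by
  rw [trivAtFin_iff314] at h ⊢
  rw [map_inv, h, inv_one]

theorem isLocalAtInf_inv314 {w : InfinitePlace K} {g : G K} (h : IsLocalAtInf w g) :
    IsLocalAtInf w g⁻¹ :=
  ⟨fun w' hw' => trivAtInf_inv314 (h.1 w' hw'), fun v => trivAtFin_inv314 (h.2 v)⟩

theorem infComp_inv314 (w : InfinitePlace K) (g : G K) :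
    infComp w g⁻¹ = (infComp w g)⁻¹ := by
  rw [infComp_eq314, infComp_eq314, map_inv, Matrix.coe_units_inv]

theorem infComp_det_ne_zero314 (w : InfinitePlace K) (g : G K) : (infComp w g).det ≠ 0 := by
  rw [infComp_eq314]
  exact (Matrix.GeneralLinearGroup.det_ne_zero _)

/-! ## 3. Continuity of local families -/

/-- A matrix-valued family which is the identity outside the infinite place `w` and has
continuous components at `w` is continuous. -/
theorem continuous_matrix_of_local314 (w : InfinitePlace K) {X : Type*} [TopologicalSpace X]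
    (m : X → Matrix (Fin 2) (Fin 2) (Adl K))
    (h1 : ∀ x, ∀ w' : InfinitePlace K, w' ≠ w → ∀ i j,
      (m x i j).1 w' = (1 : Matrix (Fin 2) (Fin 2) w'.Completion) i j)
    (h2 : ∀ x, ∀ v : HeightOneSpectrum (𝓞 K), ∀ i j,
      (m x i j).2 v = (1 : Matrix (Fin 2) (Fin 2) (v.adicCompletion K)) i j)
    (hc : ∀ i j, Continuous fun x =>
      InfinitePlace.Completion.extensionEmbedding w ((m x i j).1 w)) :
    Continuous m := by
  refine continuous_matrix fun i j => ?_
  have hfst : Continuous fun x => (m x i j).1 := by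
    refine continuous_pi fun w' => ?_
    by_cases hw : w' = w
    · subst hw
      exact (InfinitePlace.Completion.isometry_extensionEmbedding w').isEmbedding.isInducing.continuous_iff.2
        (hc i j)
    · have : (fun x => (m x i j).1 w') =
          fun _ => (1 : Matrix (Fin 2) (Fin 2) w'.Completion) i j := funext fun x => h1 x w' hw i j
      rw [this]
      exact continuous_const
  have hsnd : Continuous fun x => (m x i j).2 := by
    have : (fun x => (m x i j).2) =
        fun _ => ((1 : Matrix (Fin 2) (Fin 2) (Adl K)) i j).2 := by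
      funext x
      apply RestrictedProduct.ext
      intro v
      refine (h2 x v i j).trans ?_
      by_cases hij : i = j
      · subst hij
        rw [Matrix.one_apply_eq, Matrix.one_apply_eq]
        rfl
      · rw [Matrix.one_apply_ne hij, Matrix.one_apply_ne hij]
        rfl
    rw [this]
    exact continuous_const
  exact hfst.prodMk hsnd

/-- **Continuity of local families** (the statement of T2.07.30 in the vocabulary of A0):
a family of elements supported at the infinite place `w` with continuous components is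
continuous. -/
theorem continuous_of_localAtInf314 (w : InfinitePlace K) {X : Type*} [TopologicalSpace X]
    (h : X → G K) (hloc : ∀ x, IsLocalAtInf w (h x))
    (hc : ∀ i j : Fin 2, Continuous fun x => infComp w (h x) i j) : Continuous h := by
  refine Units.continuous_iff.2 ⟨?_, ?_⟩
  · exact continuous_matrix_of_local314 w (fun x => ((h x : G K) : Matrix (Fin 2) (Fin 2) (Adl K)))
      (fun x w' hw' i j => (hloc x).1 w' hw' i j)
      (fun x v i j => congrFun (congrFun ((hloc x).2 v) i) j) hc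
  · refine continuous_matrix_of_local314 w
      (fun x => (((h x)⁻¹ : G K) : Matrix (Fin 2) (Fin 2) (Adl K)))
      (fun x w' hw' i j => (isLocalAtInf_inv314 (hloc x)).1 w' hw' i j)
      (fun x v i j => congrFun (congrFun ((isLocalAtInf_inv314 (hloc x)).2 v) i) j) ?_
    intro i j
    have hM : Continuous fun x => infComp w (h x) := continuous_matrix hc
    have hinv : Continuous fun x => (infComp w (h x))⁻¹ := by
      rw [continuous_iff_continuousAt]
      intro x
      have hdet : (infComp w (h x)).det ≠ 0 := infComp_det_ne_zero314 w (h x)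
      have h1 : ContinuousAt Ring.inverse (infComp w (h x)).det := by
        have := NormedRing.inverse_continuousAt (Units.mk0 _ hdet)
        simpa using this
      have h2 : ContinuousAt (fun A : Matrix (Fin 2) (Fin 2) ℂ => A⁻¹) (infComp w (h x)) :=
        continuousAt_matrix_inv _ h1
      exact ContinuousAt.comp (g := fun A : Matrix (Fin 2) (Fin 2) ℂ => A⁻¹)
        (f := fun x => infComp w (h x)) h2 hM.continuousAt
    have : (fun x => infComp w (h x)⁻¹ i j) = fun x => (infComp w (h x))⁻¹ i j := by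
      funext x
      rw [infComp_inv314]
    exact this ▸ (continuous_apply_apply i j).comp hinv

/-! ## 4. Continuity of the sphere and circle parametrisations -/

theorem continuous_rotZ314 : Continuous rotZ := by
  refine continuous_matrix fun i j => ?_
  fin_cases i <;> fin_cases j <;> simp [rotZ] <;> fun_prop

theorem continuous_rotY314 : Continuous rotY := by
  refine continuous_matrix fun i j => ?_
  fin_cases i <;> fin_cases j <;> simp [rotY] <;> fun_prop

/-- The parametrisation of a sphere at `w` is jointly continuous. -/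
theorem continuous_sphere314 {w : InfinitePlace K} {d : ℝ} {Y : ℝ → ℝ → G K}
    (hY : ∀ α β : ℝ, IsLocalAtInf w (Y α β) ∧ infComp w (Y α β) = rotZ α * rotY β * torus d) :
    Continuous fun p : ℝ × ℝ => Y p.1 p.2 := by
  refine continuous_of_localAtInf314 w _ (fun p => (hY p.1 p.2).1) fun i j => ?_
  have hm : Continuous fun p : ℝ × ℝ => rotZ p.1 * rotY p.2 * torus d :=
    ((continuous_rotZ314.comp continuous_fst).matrix_mul
      (continuous_rotY314.comp continuous_snd)).matrix_mul continuous_const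
  have : (fun p : ℝ × ℝ => infComp w (Y p.1 p.2) i j)
      = fun p : ℝ × ℝ => (rotZ p.1 * rotY p.2 * torus d) i j := by
    funext p
    rw [(hY p.1 p.2).2]
  rw [this]
  exact (continuous_apply_apply i j).comp hm

/-- The parametrisation of a circle at `w` is continuous. -/
theorem continuous_circle314 {w : InfinitePlace K} {t : ℝ} {Y : ℝ → G K}
    (hY : ∀ θ : ℝ, IsLocalAtInf w (Y θ) ∧ infComp w (Y θ) = rotY θ * torus t) :
    Continuous Y := by
  refine continuous_of_localAtInf314 w _ (fun θ => (hY θ).1) fun i j => ?_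
  have hm : Continuous fun θ : ℝ => rotY θ * torus t :=
    continuous_rotY314.matrix_mul continuous_const
  have : (fun θ : ℝ => infComp w (Y θ) i j) = fun θ : ℝ => (rotY θ * torus t) i j := by
    funext θ
    rw [(hY θ).2]
  rw [this]
  exact (continuous_apply_apply i j).comp hm

/-! ## 5. Means of finite sums of translates -/

/-- **Sphere means commute with finite sums of right translations by elements supported at a
finite place**: for `φ` continuous,
`∫∫ (∑_h φ(g Y h)) sin β = ∑_h ∫∫ φ(g h Y) sin β`. -/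
theorem sphere_sum_comm314 {w : InfinitePlace K} {d : ℝ} {Y : ℝ → ℝ → G K}
    (hY : ∀ α β : ℝ, IsLocalAtInf w (Y α β) ∧ infComp w (Y α β) = rotZ α * rotY β * torus d)
    {v : HeightOneSpectrum (𝓞 K)} (H : Finset (G K)) (hH : ∀ h ∈ H, IsLocalAtFin v h)
    {φ : G K → ℂ} (hφ : Continuous φ) (g : G K) :
    (∫ α in (0 : ℝ)..(2 * Real.pi), ∫ β in (0 : ℝ)..Real.pi,
        (∑ h ∈ H, φ (g * Y α β * h)) * ((Real.sin β : ℝ) : ℂ))
      = ∑ h ∈ H, ∫ α in (0 : ℝ)..(2 * Real.pi), ∫ β in (0 : ℝ)..Real.pi,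
          φ (g * h * Y α β) * ((Real.sin β : ℝ) : ℂ) := by
  have hYc := continuous_sphere314 hY
  have e1 : ∀ α β : ℝ, (∑ h ∈ H, φ (g * Y α β * h)) * ((Real.sin β : ℝ) : ℂ)
      = ∑ h ∈ H, φ (g * h * Y α β) * ((Real.sin β : ℝ) : ℂ) := by
    intro α β
    rw [Finset.sum_mul]
    refine Finset.sum_congr rfl fun h hh => ?_
    rw [mul_assoc g, commute_inf_fin314 (hY α β).1 (hH h hh), ← mul_assoc]
  have hYα : ∀ α : ℝ, Continuous fun β : ℝ => Y α β := fun α =>
    hYc.comp (Continuous.prodMk_right α)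
  have hFp : ∀ h : G K, Continuous fun p : ℝ × ℝ =>
      φ (g * h * Y p.1 p.2) * ((Real.sin p.2 : ℝ) : ℂ) := by
    intro h
    have h1 : Continuous fun p : ℝ × ℝ => φ (g * h * Y p.1 p.2) :=
      hφ.comp (continuous_const.mul hYc)
    have h2 : Continuous fun p : ℝ × ℝ => ((Real.sin p.2 : ℝ) : ℂ) :=
      Complex.continuous_ofReal.comp (Real.continuous_sin.comp continuous_snd)
    exact h1.mul h2
  have hin : ∀ (h : G K) (α : ℝ), Continuous fun β : ℝ =>
      φ (g * h * Y α β) * ((Real.sin β : ℝ) : ℂ) := by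
    intro h α
    have h1 : Continuous fun β : ℝ => φ (g * h * Y α β) :=
      hφ.comp (continuous_const.mul (hYα α))
    have h2 : Continuous fun β : ℝ => ((Real.sin β : ℝ) : ℂ) :=
      Complex.continuous_ofReal.comp Real.continuous_sin
    exact h1.mul h2
  have hout : ∀ h : G K, Continuous fun α : ℝ => ∫ β in (0 : ℝ)..Real.pi,
      φ (g * h * Y α β) * ((Real.sin β : ℝ) : ℂ) := by
    intro h
    have hu : Continuous (Function.uncurry fun α β : ℝ =>
        φ (g * h * Y α β) * ((Real.sin β : ℝ) : ℂ)) := hFp h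
    exact intervalIntegral.continuous_parametric_intervalIntegral_of_continuous' hu 0 Real.pi
  simp only [e1]
  have e2 : ∀ α : ℝ, (∫ β in (0 : ℝ)..Real.pi,
      ∑ h ∈ H, φ (g * h * Y α β) * ((Real.sin β : ℝ) : ℂ))
      = ∑ h ∈ H, ∫ β in (0 : ℝ)..Real.pi, φ (g * h * Y α β) * ((Real.sin β : ℝ) : ℂ) := by
    intro α
    exact intervalIntegral.integral_finsetSum fun h _ => (hin h α).intervalIntegrable _ _
  simp only [e2]
  exact intervalIntegral.integral_finsetSum fun h _ => (hout h).intervalIntegrable _ _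

/-- **Circle means commute with finite sums of right translations by elements supported at a
finite place.** -/
theorem circle_sum_comm314 {w : InfinitePlace K} {t : ℝ} {Y : ℝ → G K}
    (hY : ∀ θ : ℝ, IsLocalAtInf w (Y θ) ∧ infComp w (Y θ) = rotY θ * torus t)
    {v : HeightOneSpectrum (𝓞 K)} (H : Finset (G K)) (hH : ∀ h ∈ H, IsLocalAtFin v h)
    {φ : G K → ℂ} (hφ : Continuous φ) (g : G K) :
    (∫ θ in (0 : ℝ)..(2 * Real.pi), ∑ h ∈ H, φ (g * Y θ * h))
      = ∑ h ∈ H, ∫ θ in (0 : ℝ)..(2 * Real.pi), φ (g * h * Y θ) := by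
  have hYc := continuous_circle314 hY
  have e1 : ∀ θ : ℝ, (∑ h ∈ H, φ (g * Y θ * h)) = ∑ h ∈ H, φ (g * h * Y θ) := by
    intro θ
    refine Finset.sum_congr rfl fun h hh => ?_
    rw [mul_assoc g, commute_inf_fin314 (hY θ).1 (hH h hh), ← mul_assoc]
  simp only [e1]
  refine intervalIntegral.integral_finsetSum fun h _ => ?_
  exact (hφ.comp (continuous_const.mul hYc)).intervalIntegrable _ _

end Fermat.Agent.LT.T2.H314

end

end
-- ===== PACK-END LT/T2/H314/CommCore.lean

-- ===== PACK-BEGIN LT/T2/H841/Local.lean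
section



/-!
# Row LT, tower T2, leaf T2.07.18 (helper841): elements supported at a complex place

OFF-MAIN.  Vocabulary of `LT/H556/A0.lean`.  For a complex place `w`, `iota841 w hw m` is THE
element of `GL₂(𝔸_K)` supported at `w` with component `m` (junk value `1` when `det m = 0`).
-/

set_option autoImplicit false
set_option linter.unusedSectionVars false

open IsDedekindDomain NumberField
open Fermat.Agent.LT.H556.A0

noncomputable section

namespace Fermat.Agent.LT.T2.H841

variable {K : Type} [Field K] [NumberField K]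

/-- The projection of the adele ring to the completion at the infinite place `w`. -/
def projInf841 (w : InfinitePlace K) : Adl K →+* w.Completion where
  toFun x := x.1 w
  map_one' := rfl
  map_mul' _ _ := rfl
  map_zero' := rfl
  map_add' _ _ := rfl

/-- The projection of the adele ring to the completion at the finite place `v`. -/
def projFin841 (v : HeightOneSpectrum (𝓞 K)) : Adl K →+* v.adicCompletion K where
  toFun x := x.2 v
  map_one' := rfl
  map_mul' _ _ := rfl
  map_zero' := rfl
  map_add' _ _ := rfl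

/-- The projection of the finite adele ring to the completion at `v`. -/
def projFinA841 (v : HeightOneSpectrum (𝓞 K)) :
    FiniteAdeleRing (𝓞 K) K →+* v.adicCompletion K where
  toFun x := x v
  map_one' := rfl
  map_mul' _ _ := rfl
  map_zero' := rfl
  map_add' _ _ := rfl

lemma adl_ext841 {x y : Adl K} (h1 : ∀ w : InfinitePlace K, x.1 w = y.1 w)
    (h2 : ∀ v : HeightOneSpectrum (𝓞 K), x.2 v = y.2 v) : x = y := by
  refine Prod.ext (funext h1) ?_
  exact FiniteAdeleRing.ext (K := K) h2

/-- A matrix over the adeles is determined by its components. -/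
lemma adlMatrix_ext841 {M N : Matrix (Fin 2) (Fin 2) (Adl K)}
    (h1 : ∀ w : InfinitePlace K, M.map (projInf841 w) = N.map (projInf841 w))
    (h2 : ∀ v : HeightOneSpectrum (𝓞 K), M.map (projFin841 v) = N.map (projFin841 v)) :
    M = N := by
  ext i j
  refine adl_ext841 (fun w => ?_) (fun v => ?_)
  · exact congrFun (congrFun (h1 w) i) j
  · exact congrFun (congrFun (h2 v) i) j

open Classical in
/-- The matrix over the adeles with component `x` at `w` and `1` at all other places. -/
def locMat841 (w : InfinitePlace K) (x : Matrix (Fin 2) (Fin 2) w.Completion) :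
    Matrix (Fin 2) (Fin 2) (Adl K) :=
  Matrix.of fun i j =>
    ((fun w' => (Function.update
        (fun w'' : InfinitePlace K => (1 : Matrix (Fin 2) (Fin 2) w''.Completion)) w x) w' i j),
      (1 : Matrix (Fin 2) (Fin 2) (FiniteAdeleRing (𝓞 K) K)) i j)

open Classical in
lemma locMat841_mapInf_self (w : InfinitePlace K) (x : Matrix (Fin 2) (Fin 2) w.Completion) :
    (locMat841 w x).map (projInf841 w) = x := by
  refine Matrix.ext fun i j => ?_
  show (Function.update
        (fun w'' : InfinitePlace K => (1 : Matrix (Fin 2) (Fin 2) w''.Completion)) w x) w i j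
      = x i j
  rw [Function.update_self]

open Classical in
lemma locMat841_mapInf_ne (w : InfinitePlace K) (x : Matrix (Fin 2) (Fin 2) w.Completion)
    {w' : InfinitePlace K} (h : w' ≠ w) :
    (locMat841 w x).map (projInf841 w') = 1 := by
  refine Matrix.ext fun i j => ?_
  show (Function.update
        (fun w'' : InfinitePlace K => (1 : Matrix (Fin 2) (Fin 2) w''.Completion)) w x) w' i j
      = (1 : Matrix (Fin 2) (Fin 2) w'.Completion) i j
  rw [Function.update_of_ne h]

lemma locMat841_mapFin (w : InfinitePlace K) (x : Matrix (Fin 2) (Fin 2) w.Completion)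
    (v : HeightOneSpectrum (𝓞 K)) :
    (locMat841 w x).map (projFin841 v) = 1 := by
  have h : (locMat841 w x).map (projFin841 v)
      = (1 : Matrix (Fin 2) (Fin 2) (FiniteAdeleRing (𝓞 K) K)).map (projFinA841 v) := rfl
  rw [h, Matrix.map_one _ (map_zero _) (map_one _)]

lemma locMat841_mul (w : InfinitePlace K) (x y : Matrix (Fin 2) (Fin 2) w.Completion) :
    locMat841 w (x * y) = locMat841 w x * locMat841 w y := by
  refine adlMatrix_ext841 (fun w' => ?_) (fun v => ?_)
  · rw [Matrix.map_mul]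
    by_cases h : w' = w
    · subst h
      simp only [locMat841_mapInf_self]
    · simp only [locMat841_mapInf_ne w _ h, mul_one]
  · rw [Matrix.map_mul]
    simp only [locMat841_mapFin, mul_one]

lemma locMat841_one (w : InfinitePlace K) : locMat841 w 1 = 1 := by
  refine adlMatrix_ext841 (fun w' => ?_) (fun v => ?_)
  · rw [Matrix.map_one _ (map_zero _) (map_one _)]
    by_cases h : w' = w
    · subst h
      rw [locMat841_mapInf_self]
    · rw [locMat841_mapInf_ne w _ h]
  · rw [Matrix.map_one _ (map_zero _) (map_one _), locMat841_mapFin]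

/-- The element of `GL₂(𝔸_K)` with component `x` at `w` and `1` at all other places. -/
def locG841 (w : InfinitePlace K) (x : GL (Fin 2) w.Completion) : G K where
  val := locMat841 w (x : Matrix (Fin 2) (Fin 2) w.Completion)
  inv := locMat841 w ((x⁻¹ : GL (Fin 2) w.Completion) : Matrix (Fin 2) (Fin 2) w.Completion)
  val_inv := by
    rw [← locMat841_mul, ← Units.val_mul, mul_inv_cancel, Units.val_one, locMat841_one]
  inv_val := by
    rw [← locMat841_mul, ← Units.val_mul, inv_mul_cancel, Units.val_one, locMat841_one]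

lemma locG841_val (w : InfinitePlace K) (x : GL (Fin 2) w.Completion) :
    ((locG841 w x : G K) : Matrix (Fin 2) (Fin 2) (Adl K))
      = locMat841 w (x : Matrix (Fin 2) (Fin 2) w.Completion) := rfl

lemma locG841_mul (w : InfinitePlace K) (x y : GL (Fin 2) w.Completion) :
    locG841 w (x * y) = locG841 w x * locG841 w y := by
  apply Units.ext
  rw [Units.val_mul, locG841_val, locG841_val, locG841_val, Units.val_mul, locMat841_mul]

/-- `g` is trivial at `w'` iff its component matrix is `1`. -/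
lemma trivAtInf_iff841 (w' : InfinitePlace K) (g : G K) :
    TrivAtInf w' g ↔ (g : Matrix (Fin 2) (Fin 2) (Adl K)).map (projInf841 w') = 1 := by
  constructor
  · intro h
    exact Matrix.ext fun i j => h i j
  · intro h i j
    exact congrFun (congrFun h i) j

lemma trivAtFin_iff841 (v : HeightOneSpectrum (𝓞 K)) (g : G K) :
    TrivAtFin v g ↔ (g : Matrix (Fin 2) (Fin 2) (Adl K)).map (projFin841 v) = 1 :=
  Iff.rfl

lemma isLocalAtInf_locG841 (w : InfinitePlace K) (x : GL (Fin 2) w.Completion) :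
    IsLocalAtInf w (locG841 w x) := by
  refine ⟨fun w' h => ?_, fun v => ?_⟩
  · rw [trivAtInf_iff841, locG841_val]
    exact locMat841_mapInf_ne w _ h
  · rw [trivAtFin_iff841, locG841_val]
    exact locMat841_mapFin w _ v

/-- An element supported at `w` is determined by its component at `w`. -/
lemma eq_locG841_of_local (w : InfinitePlace K) (x : GL (Fin 2) w.Completion) (h : G K)
    (hl : IsLocalAtInf w h)
    (hc : (h : Matrix (Fin 2) (Fin 2) (Adl K)).map (projInf841 w)
      = (x : Matrix (Fin 2) (Fin 2) w.Completion)) : h = locG841 w x := by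
  apply Units.ext
  rw [locG841_val]
  refine adlMatrix_ext841 (fun w' => ?_) (fun v => ?_)
  · by_cases hw : w' = w
    · subst hw
      rw [locMat841_mapInf_self]
      exact hc
    · rw [locMat841_mapInf_ne w _ hw]
      exact (trivAtInf_iff841 w' h).mp (hl.1 w' hw)
  · rw [locMat841_mapFin]
    exact (trivAtFin_iff841 v h).mp (hl.2 v)

lemma isLocalAtInf_one841 (w : InfinitePlace K) : IsLocalAtInf w (1 : G K) := by
  refine ⟨fun w' _ => ?_, fun v => ?_⟩
  · rw [trivAtInf_iff841, Units.val_one, Matrix.map_one _ (map_zero _) (map_one _)]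
  · rw [trivAtFin_iff841, Units.val_one, Matrix.map_one _ (map_zero _) (map_one _)]

/-- Elements supported at two different infinite places commute. -/
lemma commute_of_local841 {w w' : InfinitePlace K} (hww : w ≠ w') {h h' : G K}
    (hl : IsLocalAtInf w h) (hl' : IsLocalAtInf w' h') : h * h' = h' * h := by
  apply Units.ext
  rw [Units.val_mul, Units.val_mul]
  refine adlMatrix_ext841 (fun u => ?_) (fun v => ?_)
  · rw [Matrix.map_mul, Matrix.map_mul]
    by_cases hu : u = w
    · subst hu
      rw [(trivAtInf_iff841 u h').mp (hl'.1 u hww), mul_one, one_mul]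
    · rw [(trivAtInf_iff841 u h).mp (hl.1 u hu), mul_one, one_mul]
  · rw [Matrix.map_mul, Matrix.map_mul, (trivAtFin_iff841 v h).mp (hl.2 v),
      (trivAtFin_iff841 v h').mp (hl'.2 v)]

section Complex

variable (w : InfinitePlace K) (hw : w.IsComplex)

/-- The matrix `m` over `ℂ`, transported to the completion at the complex place `w`. -/
def toCompl841 (m : Matrix (Fin 2) (Fin 2) ℂ) : Matrix (Fin 2) (Fin 2) w.Completion :=
  m.map (InfinitePlace.Completion.ringEquivComplexOfIsComplex hw).symm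

lemma ext_toCompl841 (m : Matrix (Fin 2) (Fin 2) ℂ) (i j : Fin 2) :
    InfinitePlace.Completion.extensionEmbedding w (toCompl841 w hw m i j) = m i j := by
  show InfinitePlace.Completion.extensionEmbedding w
    ((InfinitePlace.Completion.ringEquivComplexOfIsComplex hw).symm (m i j)) = m i j
  rw [← InfinitePlace.Completion.ringEquivComplexOfIsComplex_apply hw]
  exact (InfinitePlace.Completion.ringEquivComplexOfIsComplex hw).apply_symm_apply (m i j)

lemma toCompl841_mul (m m' : Matrix (Fin 2) (Fin 2) ℂ) :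
    toCompl841 w hw (m * m') = toCompl841 w hw m * toCompl841 w hw m' := by
  unfold toCompl841
  exact Matrix.map_mul (f := (InfinitePlace.Completion.ringEquivComplexOfIsComplex hw).symm)

lemma toCompl841_one : toCompl841 w hw 1 = 1 := by
  unfold toCompl841
  exact Matrix.map_one _ (map_zero _) (map_one _)

/-- The element of `GL₂` of the completion at `w` attached to an invertible complex matrix. -/
def toGL841 (m : Matrix (Fin 2) (Fin 2) ℂ) (hm : m.det ≠ 0) : GL (Fin 2) w.Completion where
  val := toCompl841 w hw m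
  inv := toCompl841 w hw m⁻¹
  val_inv := by
    rw [← toCompl841_mul, Matrix.mul_nonsing_inv _ (isUnit_iff_ne_zero.mpr hm), toCompl841_one]
  inv_val := by
    rw [← toCompl841_mul, Matrix.nonsing_inv_mul _ (isUnit_iff_ne_zero.mpr hm), toCompl841_one]

open Classical in
/-- THE element supported at the complex place `w` with component `m` (`1` if `det m = 0`). -/
def iota841 (m : Matrix (Fin 2) (Fin 2) ℂ) : G K :=
  if hm : m.det ≠ 0 then locG841 w (toGL841 w hw m hm) else 1

lemma iota841_of_det {m : Matrix (Fin 2) (Fin 2) ℂ} (hm : m.det ≠ 0) :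
    iota841 w hw m = locG841 w (toGL841 w hw m hm) := by
  simp [iota841, hm]

lemma isLocalAtInf_iota841 (m : Matrix (Fin 2) (Fin 2) ℂ) : IsLocalAtInf w (iota841 w hw m) := by
  unfold iota841
  split_ifs with hm
  · exact isLocalAtInf_locG841 w _
  · exact isLocalAtInf_one841 w

lemma infComp_iota841 {m : Matrix (Fin 2) (Fin 2) ℂ} (hm : m.det ≠ 0) :
    infComp w (iota841 w hw m) = m := by
  rw [iota841_of_det w hw hm]
  refine Matrix.ext fun i j => ?_
  have h1 : ((locG841 w (toGL841 w hw m hm) : G K) : Matrix (Fin 2) (Fin 2) (Adl K)).map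
      (projInf841 w) = toCompl841 w hw m := by
    rw [locG841_val]
    exact locMat841_mapInf_self w _
  have h2 := congrFun (congrFun h1 i) j
  show InfinitePlace.Completion.extensionEmbedding w
    ((((locG841 w (toGL841 w hw m hm) : G K) : Matrix (Fin 2) (Fin 2) (Adl K)) i j).1 w) = m i j
  have h3 : (((locG841 w (toGL841 w hw m hm) : G K) : Matrix (Fin 2) (Fin 2) (Adl K)) i j).1 w
      = toCompl841 w hw m i j := h2
  rw [h3]
  exact ext_toCompl841 w hw m i j

lemma iota841_mul {m m' : Matrix (Fin 2) (Fin 2) ℂ} (hm : m.det ≠ 0) (hm' : m'.det ≠ 0) :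
    iota841 w hw (m * m') = iota841 w hw m * iota841 w hw m' := by
  have hmm : (m * m').det ≠ 0 := by
    rw [Matrix.det_mul]; exact mul_ne_zero hm hm'
  rw [iota841_of_det w hw hm, iota841_of_det w hw hm', iota841_of_det w hw hmm, ← locG841_mul]
  congr 1
  apply Units.ext
  exact toCompl841_mul w hw m m'

/-- Uniqueness: an element supported at `w` with component `m` is `iota841 m`. -/
lemma eq_iota841 {m : Matrix (Fin 2) (Fin 2) ℂ} (hm : m.det ≠ 0) (h : G K)
    (hl : IsLocalAtInf w h) (hc : infComp w h = m) : h = iota841 w hw m := by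
  rw [iota841_of_det w hw hm]
  refine eq_locG841_of_local w _ h hl ?_
  refine Matrix.ext fun i j => ?_
  have hinj := (InfinitePlace.Completion.bijective_extensionEmbedding_of_isComplex hw).1
  apply hinj
  have h1 : InfinitePlace.Completion.extensionEmbedding w
      (((h : Matrix (Fin 2) (Fin 2) (Adl K)) i j).1 w) = m i j :=
    congrFun (congrFun hc i) j
  have h2 : InfinitePlace.Completion.extensionEmbedding w
      (((h : Matrix (Fin 2) (Fin 2) (Adl K)).map (projInf841 w)) i j) = m i j := h1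
  rw [h2]
  exact (ext_toCompl841 w hw m i j).symm

lemma det_ne_zero_of_unitary841 {k : Matrix (Fin 2) (Fin 2) ℂ}
    (hk : k * k.conjTranspose = 1) : k.det ≠ 0 := by
  intro h0
  have := congrArg Matrix.det hk
  rw [Matrix.det_mul, h0, zero_mul, Matrix.det_one] at this
  exact zero_ne_one this

lemma isArchCompact_iota841 {k : Matrix (Fin 2) (Fin 2) ℂ} (hk : k * k.conjTranspose = 1) :
    IsArchCompact w (iota841 w hw k) := by
  refine ⟨isLocalAtInf_iota841 w hw k, ?_, fun hr => ?_⟩
  · rw [infComp_iota841 w hw (det_ne_zero_of_unitary841 hk)]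
    exact hk
  · exact absurd hr (InfinitePlace.not_isReal_iff_isComplex.mpr hw)

lemma isArchPosScalar_iota841 {r : ℝ} (hr : 0 < r) :
    IsArchPosScalar w (iota841 w hw (Matrix.diagonal (fun _ => (r : ℂ)))) := by
  have hdet : (Matrix.diagonal (fun _ : Fin 2 => (r : ℂ))).det ≠ 0 := by
    rw [Matrix.det_diagonal]
    simp [hr.ne']
  exact ⟨isLocalAtInf_iota841 w hw _, r, hr, infComp_iota841 w hw hdet⟩

end Complex

end Fermat.Agent.LT.T2.H841

end

end
-- ===== PACK-END LT/T2/H841/Local.lean

-- ===== PACK-BEGIN LT/T2/H323/Count/Compact.lean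
section



/-!
# Row LT, tower T2, sub-leaf T2.03c.1 `LeafCount` (helper323), OFF-MAIN : COMPACT SETS OF ADELES

`exists_bound_of_isCompact323` : a compact set `E` of adeles has a common denominator `d ∈ 𝓞 K`,
`d ≠ 0` (`d y_v ∈ 𝒪_v` for all `y ∈ E` and all finite places `v`) and a common bound `S` at the
infinite places.

Proof: the sets `denomSet323 d` of the adeles with denominator `d` are open and cover (every finite
adele has a denominator: the argument of helper767, `LT/H767/StrongApprox.lean`, repeated here so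
that the file depends on Mathlib and `A0` only), a finite subcover has the product as a common
denominator.  At the infinite places: a continuous function is bounded on a compact set.
-/

set_option autoImplicit false
set_option linter.style.haveILetI false
set_option linter.unusedSectionVars false

open IsDedekindDomain NumberField IsDedekindDomain.HeightOneSpectrum
open Fermat.Agent.LT.H556.A0

noncomputable section

namespace Fermat.Agent.LT.T2.H323

variable (K : Type) [Field K] [NumberField K]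

/-- The valuation of the image of `k : K` in `K_v`. -/
theorem valued_algebraMap323 (v : HeightOneSpectrum (𝓞 K)) (k : K) :
    Valued.v (algebraMap K (v.adicCompletion K) k) = v.valuation K k :=
  valuedAdicCompletion_eq_valuation' v k

/-- The valuation of the image of `a : 𝓞 K` in `K_v` is at most one. -/
theorem valued_int_le_one323 (v : HeightOneSpectrum (𝓞 K)) (a : 𝓞 K) :
    Valued.v (algebraMap K (v.adicCompletion K) (algebraMap (𝓞 K) K a)) ≤ 1 := by
  rw [valued_algebraMap323]
  exact valuation_le_one v a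

/-- Local denominators: every element of `K_v` becomes integral after multiplication by a
non-zero element of `𝓞 K`. -/
theorem exists_int_mul_le_one323 (v : HeightOneSpectrum (𝓞 K)) (x : v.adicCompletion K) :
    ∃ d : 𝓞 K, d ≠ 0 ∧
      Valued.v (algebraMap K (v.adicCompletion K) (algebraMap (𝓞 K) K d) * x) ≤ 1 := by
  obtain ⟨π, hπ, hπ0⟩ := Submodule.exists_mem_ne_zero_of_ne_bot v.ne_bot
  set P0 : v.adicCompletion K := algebraMap K (v.adicCompletion K) (algebraMap (𝓞 K) K π) with hP0
  have hP1 : ‖P0‖ < 1 := by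
    rw [Valued.toNormedField.norm_lt_one_iff, hP0, valued_algebraMap323]
    exact (valuation_lt_one_iff_mem v π).mpr hπ
  obtain ⟨n, hn⟩ := exists_pow_lt_of_lt_one (show (0 : ℝ) < 1 / (‖x‖ + 1) by positivity) hP1
  refine ⟨π ^ n, pow_ne_zero _ hπ0, ?_⟩
  rw [← Valued.toNormedField.norm_le_one_iff, map_pow, map_pow, norm_mul, norm_pow]
  have h1 : ‖P0‖ ^ n * ‖x‖ ≤ 1 / (‖x‖ + 1) * (‖x‖ + 1) := by
    apply mul_le_mul hn.le (by linarith) (norm_nonneg _) (by positivity)
  have h2 : 1 / (‖x‖ + 1) * (‖x‖ + 1) = 1 := by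
    field_simp
  linarith

/-- Global denominators: every finite adele becomes integral after multiplication by a non-zero
element of `𝓞 K`. -/
theorem exists_denominator323 (a : FiniteAdeleRing (𝓞 K) K) :
    ∃ d : 𝓞 K, d ≠ 0 ∧ ∀ v : HeightOneSpectrum (𝓞 K),
      Valued.v (algebraMap K (v.adicCompletion K) (algebraMap (𝓞 K) K d) * a v) ≤ 1 := by
  classical
  have hfin : {v : HeightOneSpectrum (𝓞 K) | ¬ a v ∈ v.adicCompletionIntegers K}.Finite :=
    Filter.eventually_cofinite.mp a.2
  choose δ hδ0 hδ using fun v : HeightOneSpectrum (𝓞 K) => exists_int_mul_le_one323 K v (a v)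
  refine ⟨∏ v ∈ hfin.toFinset, δ v, Finset.prod_ne_zero_iff.mpr fun v _ => hδ0 v, fun v => ?_⟩
  by_cases hv : v ∈ hfin.toFinset
  · rw [← Finset.mul_prod_erase _ _ hv]
    have key : algebraMap K (v.adicCompletion K)
          (algebraMap (𝓞 K) K (δ v * ∏ x ∈ hfin.toFinset.erase v, δ x)) * a v
        = (algebraMap K (v.adicCompletion K) (algebraMap (𝓞 K) K (δ v)) * a v) *
          algebraMap K (v.adicCompletion K)
            (algebraMap (𝓞 K) K (∏ x ∈ hfin.toFinset.erase v, δ x)) := by
      rw [map_mul, map_mul]; ring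
    rw [key, map_mul]
    calc _ ≤ 1 * 1 := mul_le_mul' (hδ v) (valued_int_le_one323 K v _)
      _ = 1 := one_mul 1
  · have hav : Valued.v (a v) ≤ 1 := by
      by_contra h
      exact hv (hfin.mem_toFinset.mpr h)
    rw [map_mul]
    calc _ ≤ 1 * 1 := mul_le_mul' (valued_int_le_one323 K v _) hav
      _ = 1 := one_mul 1

/-- The adeles with denominator `d`. -/
def denomSet323 (d : 𝓞 K) : Set (Adl K) :=
  {y | ∀ v : HeightOneSpectrum (𝓞 K),
    Valued.v (algebraMap K (v.adicCompletion K) (algebraMap (𝓞 K) K d) * y.2 v) ≤ 1}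

theorem isOpen_denomSet323 (d : 𝓞 K) : IsOpen (denomSet323 K d) := by
  have h2 : IsOpen {f : FiniteAdeleRing (𝓞 K) K |
      ∀ v : HeightOneSpectrum (𝓞 K), f v ∈ v.adicCompletionIntegers K} :=
    RestrictedProduct.isOpen_forall_mem (fun v => Valued.isOpen_valuationSubring _)
  have h3 : Continuous fun y : Adl K =>
      (algebraMap K (Adl K) (algebraMap (𝓞 K) K d) * y).2 :=
    continuous_snd.comp (continuous_const.mul continuous_id)
  have : denomSet323 K d
      = (fun y : Adl K => (algebraMap K (Adl K) (algebraMap (𝓞 K) K d) * y).2) ⁻¹'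
        {f | ∀ v : HeightOneSpectrum (𝓞 K), f v ∈ v.adicCompletionIntegers K} := by
    ext y
    simp only [denomSet323, Set.mem_ofPred_eq, Set.mem_preimage]
    refine forall_congr' fun v => ?_
    rw [mem_adicCompletionIntegers]
    rfl
  rw [this]
  exact h2.preimage h3

/-- **A compact set of adeles is bounded**: common denominator at the finite places, common bound
at the infinite places. -/
theorem exists_bound_of_isCompact323 (E : Set (Adl K)) (hE : IsCompact E) :
    ∃ (d : 𝓞 K) (S : ℝ), d ≠ 0 ∧ 0 ≤ S ∧ ∀ y ∈ E,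
      (∀ w : InfinitePlace K, ‖y.1 w‖ ≤ S) ∧ y ∈ denomSet323 K d := by
  classical
  have hinf : ∀ w : InfinitePlace K, ∃ C : ℝ, ∀ y ∈ E, ‖y.1 w‖ ≤ C := fun w =>
    hE.exists_bound_of_continuousOn (f := fun y : Adl K => y.1 w)
      ((continuous_apply w).comp continuous_fst).continuousOn
  choose Cw hCw using hinf
  have hcov : E ⊆ ⋃ d : {d : 𝓞 K // d ≠ 0}, denomSet323 K d.1 := by
    intro y _
    obtain ⟨d, hd0, hd⟩ := exists_denominator323 K y.2
    exact Set.mem_iUnion.mpr ⟨⟨d, hd0⟩, hd⟩
  obtain ⟨t, ht⟩ := hE.elim_finite_subcover (fun d : {d : 𝓞 K // d ≠ 0} => denomSet323 K d.1)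
    (fun d => isOpen_denomSet323 K d.1) hcov
  refine ⟨∏ d ∈ t, d.1, ∑ w, |Cw w|, Finset.prod_ne_zero_iff.mpr fun d _ => d.2,
    Finset.sum_nonneg fun w _ => abs_nonneg _, fun y hy => ⟨fun w => ?_, fun v => ?_⟩⟩
  · calc ‖y.1 w‖ ≤ Cw w := hCw w y hy
      _ ≤ |Cw w| := le_abs_self _
      _ ≤ ∑ w, |Cw w| :=
        Finset.single_le_sum (f := fun w => |Cw w|) (fun w _ => abs_nonneg _) (Finset.mem_univ w)
  · obtain ⟨d, hdt, hd⟩ : ∃ d ∈ t, y ∈ denomSet323 K d.1 := by
      have := ht hy
      simpa [Set.mem_iUnion] using this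
    rw [← Finset.mul_prod_erase _ _ hdt]
    have key : algebraMap K (v.adicCompletion K)
          (algebraMap (𝓞 K) K (d.1 * ∏ x ∈ t.erase d, x.1)) * y.2 v
        = (algebraMap K (v.adicCompletion K) (algebraMap (𝓞 K) K d.1) * y.2 v) *
          algebraMap K (v.adicCompletion K)
            (algebraMap (𝓞 K) K (∏ x ∈ t.erase d, x.1)) := by
      rw [map_mul, map_mul]; ring
    rw [key, map_mul]
    calc _ ≤ 1 * 1 := mul_le_mul' (hd v) (valued_int_le_one323 K v _)
      _ = 1 := one_mul 1

end Fermat.Agent.LT.T2.H323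

end

end
-- ===== PACK-END LT/T2/H323/Count/Compact.lean

-- ===== PACK-BEGIN LT/T6/H137/LocalKit.lean
section



/-!
# Row LT, tower T6, leaf T6.00b `HasseNormQC`: LOCAL KIT (helper137, OFF-MAIN)

Shared tools for the local leaves `LocalAC438`, `LocalCC438`, `LocMulC438` of the cut of helper438
(all PROVED here, Mathlib only apart from the two vendored Spec files):

* K1 `tensor_norm_form137`, `locNorm_form_fin137`, `locNorm_form_inf137`: a local norm from
  `L_u ⊗_L M` (`M = L(√-3)`) is `α² + 3 β²` with `α β : L_u`;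
* K2 `parity_of_local_form137`, `locNorm_parity137`: at a finite place `u` whose residue field has
  `≡ 2 mod 3` elements, a local norm `x ∈ L^×` has EVEN valuation (density of `L` in `L_u` +
  `X² - XY + Y²` anisotropic over the residue field; `p = 2` included);
* K3 `real_pos137`, `locNorm_pos137`: at a real place, a local norm `x ≠ 0` is positive.
-/

set_option autoImplicit false

namespace Fermat.Agent.LT.T6.H137

open scoped TensorProduct
open IsDedekindDomain IsDedekindDomain.HeightOneSpectrum WithZero NumberField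
  NumberField.InfinitePlace NumberField.InfinitePlace.Completion

/-! ## K1: the tensor norm form -/



theorem linInd_one_r137 (L M : Type) [Field L] [Field M] [Algebra L M] (r : M) (hr : r ^ 2 = -3)
    (hno : ∀ s : L, s ^ 2 ≠ -3) : LinearIndependent L ![(1 : M), r] := by
  rw [LinearIndependent.pair_iff]
  intro a b hab
  by_cases hb : b = 0
  · subst hb
    simp only [zero_smul, add_zero] at hab
    have ha : a = 0 := by
      have h1 : algebraMap L M a = 0 := by rw [Algebra.algebraMap_eq_smul_one]; exact hab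
      exact (map_eq_zero (algebraMap L M)).mp h1
    exact ⟨ha, rfl⟩
  · exfalso
    have h1 : r = algebraMap L M (-a / b) := by
      have h2 : algebraMap L M a + algebraMap L M b * r = 0 := by
        rw [Algebra.algebraMap_eq_smul_one, ← Algebra.smul_def]; exact hab
      have hb' : algebraMap L M b ≠ 0 := (map_ne_zero (algebraMap L M)).mpr hb
      rw [map_div₀, map_neg]
      field_simp
      linear_combination h2
    apply hno (-a / b)
    apply (algebraMap L M).injective
    rw [map_pow, ← h1, hr, map_neg, map_ofNat]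

/-- The basis `{1, r}` of `M` over `L`. -/
noncomputable def basisOneR137 (L M : Type) [Field L] [Field M] [Algebra L M] (r : M)
    (hr : r ^ 2 = -3) (hno : ∀ s : L, s ^ 2 ≠ -3) (h2 : Module.finrank L M = 2) :
    Module.Basis (Fin 2) L M :=
  basisOfLinearIndependentOfCardEqFinrank (linInd_one_r137 L M r hr hno) (by simp [h2])

theorem basisOneR137_zero (L M : Type) [Field L] [Field M] [Algebra L M] (r : M)
    (hr : r ^ 2 = -3) (hno : ∀ s : L, s ^ 2 ≠ -3) (h2 : Module.finrank L M = 2) :
    basisOneR137 L M r hr hno h2 0 = 1 := by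
  simp [basisOneR137]

theorem basisOneR137_one (L M : Type) [Field L] [Field M] [Algebra L M] (r : M)
    (hr : r ^ 2 = -3) (hno : ∀ s : L, s ^ 2 ≠ -3) (h2 : Module.finrank L M = 2) :
    basisOneR137 L M r hr hno h2 1 = r := by
  simp [basisOneR137]

/-- **K1, TENSOR FORM.**  Every norm from `k ⊗_L M` to `k` is `α² + 3 β²`. -/
theorem tensor_norm_form137 (L M : Type) [Field L] [Field M] [Algebra L M] (r : M)
    (hr : r ^ 2 = -3) (hno : ∀ s : L, s ^ 2 ≠ -3) (h2 : Module.finrank L M = 2)
    (k : Type) [Field k] [Algebra L k] (y : k ⊗[L] M) :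
    ∃ α β : k, Algebra.norm k y = α ^ 2 + 3 * β ^ 2 := by
  classical
  set b := basisOneR137 L M r hr hno h2 with hb
  set B : Module.Basis (Fin 2) k (k ⊗[L] M) := Algebra.TensorProduct.basis k b with hB
  have hB0 : B 0 = 1 := by
    rw [hB, Algebra.TensorProduct.basis_apply, hb, basisOneR137_zero]; rfl
  have hB1 : B 1 = (1 : k) ⊗ₜ[L] r := by
    rw [hB, Algebra.TensorProduct.basis_apply, hb, basisOneR137_one]
  have hrr : ((1 : k) ⊗ₜ[L] r) * ((1 : k) ⊗ₜ[L] r) = -3 := by
    rw [Algebra.TensorProduct.tmul_mul_tmul, one_mul, ← sq, hr]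
    have : ((1 : k) ⊗ₜ[L] (-3 : M)) = -3 * ((1 : k) ⊗ₜ[L] (1 : M)) := by
      rw [show (-3 : M) = (-3 : ℤ) • (1 : M) by simp, TensorProduct.tmul_smul]
      simp
    rw [this, ← Algebra.TensorProduct.one_def, mul_one]
  refine ⟨B.repr y 0, B.repr y 1, ?_⟩
  have hy : y = B.repr y 0 • (1 : k ⊗[L] M) + B.repr y 1 • ((1 : k) ⊗ₜ[L] r) := by
    conv_lhs => rw [← B.sum_repr y]
    rw [Fin.sum_univ_two, hB0, hB1]
  rw [Algebra.norm_eq_matrix_det B, Matrix.det_fin_two]
  have e00 : Algebra.leftMulMatrix B y 0 0 = B.repr y 0 := by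
    rw [Algebra.leftMulMatrix_eq_repr_mul, hB0, mul_one]
  have e10 : Algebra.leftMulMatrix B y 1 0 = B.repr y 1 := by
    rw [Algebra.leftMulMatrix_eq_repr_mul, hB0, mul_one]
  have hmul : y * B 1 = (-3 * B.repr y 1) • B 0 + B.repr y 0 • B 1 := by
    rw [hB0, hB1]
    conv_lhs => rw [hy]
    rw [add_mul, smul_mul_assoc, smul_mul_assoc, one_mul, hrr]
    rw [add_comm]
    congr 1
    rw [Algebra.smul_def, Algebra.smul_def, mul_one, map_mul, map_neg, map_ofNat]
    ring
  have e01 : Algebra.leftMulMatrix B y 0 1 = -3 * B.repr y 1 := by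
    rw [Algebra.leftMulMatrix_eq_repr_mul, hmul]
    simp
  have e11 : Algebra.leftMulMatrix B y 1 1 = B.repr y 0 := by
    rw [Algebra.leftMulMatrix_eq_repr_mul, hmul]
    simp
  rw [e00, e10, e01, e11]; ring

/-! ## K2: parity at the finite places with `#κ ≡ 2 mod 3` -/



/-- In a finite field with `q ≡ 2 mod 3` elements, `T² - T + 1` has no root. -/
theorem no_root_of_card137 (κ : Type*) [Field κ] [Finite κ] (h : Nat.card κ % 3 = 2) (s : κ) :
    s ^ 2 - s + 1 ≠ 0 := by
  classical
  have : Fintype κ := Fintype.ofFinite κ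
  intro hs
  have hq : Fintype.card κ % 3 = 2 := by rwa [Nat.card_eq_fintype_card] at h
  have hs3 : (-s) ^ 3 = 1 := by linear_combination (-(s + 1)) * hs
  have hs0 : -s ≠ 0 := by
    intro h0
    rw [h0] at hs3
    simp at hs3
  have h1 := FiniteField.pow_card_sub_one_eq_one (-s) hs0
  obtain ⟨m, hm⟩ : ∃ m, Fintype.card κ - 1 = 3 * m + 1 := ⟨Fintype.card κ / 3, by omega⟩
  rw [hm, pow_succ, pow_mul, hs3, one_pow, one_mul] at h1
  have h3 : (3 : κ) = 0 := by
    have : s = -1 := by linear_combination -h1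
    rw [this] at hs
    linear_combination hs
  have hc : ((Fintype.card κ : ℕ) : κ) = 0 := FiniteField.cast_card_eq_zero κ
  have hq' : Fintype.card κ = 3 * (Fintype.card κ / 3) + 2 := by omega
  rw [hq'] at hc
  push_cast at hc
  rw [h3, zero_mul, zero_add] at hc
  have : (1 : κ) = 0 := by linear_combination h3 - hc
  exact one_ne_zero this

section Dedekind

variable {R : Type*} [CommRing R] [IsDedekindDomain R] {K : Type*} [Field K] [Algebra R K]
  [IsFractionRing R K] (v : HeightOneSpectrum R)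

/-- If `T² - T + 1` has no root in the residue field, it is a unit at every `v`-integer. -/
theorem val_quad_eq_one137 (hκ : ∀ s : R ⧸ v.asIdeal, s ^ 2 - s + 1 ≠ 0) (t : K)
    (ht : v.valuation K t ≤ 1) : v.valuation K (t ^ 2 - t + 1) = 1 := by
  obtain ⟨n, ⟨d, hd⟩, hnd⟩ := exists_primeCompl_mul_eq_of_integer v t ht
  have hd' : d ∉ v.asIdeal := hd
  have hvd : v.valuation K (algebraMap R K d) = 1 := (valuation_eq_one_iff_notMem v).mpr hd'
  have key : (t ^ 2 - t + 1) * (algebraMap R K d) ^ 2 = algebraMap R K (n ^ 2 - n * d + d ^ 2) := by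
    simp only [map_add, map_sub, map_mul, map_pow]
    simp only at hnd
    rw [← hnd]; ring
  have h1 : v.valuation K (t ^ 2 - t + 1) = v.valuation K (algebraMap R K (n ^ 2 - n * d + d ^ 2)) := by
    rw [← key, map_mul, map_pow, hvd, one_pow, mul_one]
  rw [h1, valuation_eq_one_iff_notMem]
  intro hmem
  have := v.isMaximal
  let _ : Field (R ⧸ v.asIdeal) := Ideal.Quotient.field v.asIdeal
  have hq : (Ideal.Quotient.mk v.asIdeal) (n ^ 2 - n * d + d ^ 2) = 0 :=
    Ideal.Quotient.eq_zero_iff_mem.mpr hmem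
  have hdq : (Ideal.Quotient.mk v.asIdeal) d ≠ 0 := fun h0 =>
    hd' (Ideal.Quotient.eq_zero_iff_mem.mp h0)
  simp only [map_add, map_sub, map_mul, map_pow] at hq
  apply hκ ((Ideal.Quotient.mk v.asIdeal) n / (Ideal.Quotient.mk v.asIdeal) d)
  field_simp
  linear_combination hq

/-- Parity of the valuation of the norm form `X² - XY + Y²`. -/
theorem val_form_even137 (hκ : ∀ s : R ⧸ v.asIdeal, s ^ 2 - s + 1 ≠ 0) (X Y : K)
    (h : X ^ 2 - X * Y + Y ^ 2 ≠ 0) :
    ∃ k : ℤ, v.valuation K (X ^ 2 - X * Y + Y ^ 2) = exp (2 * k) := by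
  have aux : ∀ X Y : K, X ^ 2 - X * Y + Y ^ 2 ≠ 0 → v.valuation K Y ≤ v.valuation K X →
      ∃ k : ℤ, v.valuation K (X ^ 2 - X * Y + Y ^ 2) = exp (2 * k) := by
    intro X Y h hle
    have hX : X ≠ 0 := by
      rintro rfl
      rw [map_zero, le_zero_iff, map_eq_zero] at hle
      subst hle
      simp at h
    have hvX : v.valuation K X ≠ 0 := (map_ne_zero _).mpr hX
    have ht : v.valuation K (Y / X) ≤ 1 := by
      rw [map_div₀]
      exact div_le_one_of_le₀ hle zero_le
    have h1 := val_quad_eq_one137 v hκ (Y / X) ht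
    have h2 : X ^ 2 - X * Y + Y ^ 2 = X ^ 2 * ((Y / X) ^ 2 - Y / X + 1) := by
      field_simp
      ring
    refine ⟨log (v.valuation K X), ?_⟩
    rw [h2, map_mul, h1, mul_one, map_pow, two_mul, exp_add, exp_log hvX, sq]
  rcases le_total (v.valuation K Y) (v.valuation K X) with hle | hle
  · exact aux X Y h hle
  · have h' : Y ^ 2 - Y * X + X ^ 2 ≠ 0 := by
      intro h0; apply h; linear_combination h0
    obtain ⟨k, hk⟩ := aux Y X h' hle
    exact ⟨k, by rw [← hk]; congr 1; ring⟩

/-- Parity of the valuation of `a² + 3 b²` in `K`. -/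
theorem val_sq_add_three_sq_even137 (hκ : ∀ s : R ⧸ v.asIdeal, s ^ 2 - s + 1 ≠ 0) (a b : K)
    (h : a ^ 2 + 3 * b ^ 2 ≠ 0) :
    ∃ k : ℤ, v.valuation K (a ^ 2 + 3 * b ^ 2) = exp (2 * k) := by
  have e : a ^ 2 + 3 * b ^ 2 = (a + b) ^ 2 - (a + b) * (2 * b) + (2 * b) ^ 2 := by ring
  rw [e] at h ⊢
  exact val_form_even137 v hκ _ _ h

/-- DENSITY BRIDGE: a value `α² + 3 β²` of the form on the completion, equal to `x ∈ K^×`,
has the valuation of a value of the form on `K`. -/
theorem exists_form_val_eq137 (x : K) (hx : x ≠ 0) (α β : v.adicCompletion K)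
    (h : α ^ 2 + 3 * β ^ 2 = algebraMap K (v.adicCompletion K) x) :
    ∃ a b : K, a ^ 2 + 3 * b ^ 2 ≠ 0 ∧
      v.valuation K (a ^ 2 + 3 * b ^ 2) = v.valuation K x := by
  have hvx : v.valuation K x ≠ 0 := (map_ne_zero _).mpr hx
  have hvx' : Valued.v (algebraMap K (v.adicCompletion K) x) ≠ 0 := by
    rw [algebraMap_adicCompletion, Function.comp_apply, Algebra.algebraMap_self_apply,
      valuedAdicCompletion_eq_valuation']
    exact hvx
  let f : v.adicCompletion K × v.adicCompletion K → v.adicCompletion K :=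
    fun p => p.1 ^ 2 + 3 * p.2 ^ 2
  have hf : Continuous f := by fun_prop
  let S : Set (v.adicCompletion K) :=
    {z | Valued.v z = Valued.v (algebraMap K (v.adicCompletion K) x)}
  have hS : S ∈ nhds (algebraMap K (v.adicCompletion K) x) := Valued.locally_const hvx'
  have hpre : f ⁻¹' S ∈ nhds (α, β) := by
    apply hf.continuousAt.preimage_mem_nhds
    show S ∈ nhds (α ^ 2 + 3 * β ^ 2)
    rw [h]; exact hS
  have hd : DenseRange (Prod.map (algebraMap K (v.adicCompletion K))
      (algebraMap K (v.adicCompletion K))) :=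
    (denseRange_algebraMap (K := K) v).prodMap (denseRange_algebraMap (K := K) v)
  obtain ⟨⟨a, b⟩, hab⟩ := hd.exists_mem_open isOpen_interior
    ⟨(α, β), mem_interior_iff_mem_nhds.mpr hpre⟩
  have hab' : (algebraMap K (v.adicCompletion K) a) ^ 2 +
      3 * (algebraMap K (v.adicCompletion K) b) ^ 2 ∈ S := by
    have := interior_subset hab
    exact this
  have e : (algebraMap K (v.adicCompletion K) a) ^ 2 +
      3 * (algebraMap K (v.adicCompletion K) b) ^ 2 =
      algebraMap K (v.adicCompletion K) (a ^ 2 + 3 * b ^ 2) := by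
    rw [map_add, map_mul, map_pow, map_pow, map_ofNat]
  have h2 : v.valuation K (a ^ 2 + 3 * b ^ 2) = v.valuation K x := by
    have h3 : Valued.v (algebraMap K (v.adicCompletion K) (a ^ 2 + 3 * b ^ 2)) =
        Valued.v (algebraMap K (v.adicCompletion K) x) := by
      rw [← e]; exact hab'
    rwa [algebraMap_adicCompletion, Function.comp_apply, Function.comp_apply,
      Algebra.algebraMap_self_apply, Algebra.algebraMap_self_apply,
      valuedAdicCompletion_eq_valuation', valuedAdicCompletion_eq_valuation'] at h3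
  refine ⟨a, b, ?_, h2⟩
  intro h0
  rw [h0, map_zero] at h2
  exact hvx h2.symm

/-- **K2, PARITY.**  At a place `v` whose residue field has no root of `T² - T + 1`, the local
norms from `K_v(√-3)` have even valuation. -/
theorem parity_of_local_form137 (hκ : ∀ s : R ⧸ v.asIdeal, s ^ 2 - s + 1 ≠ 0) (x : K)
    (hx : x ≠ 0) (α β : v.adicCompletion K)
    (h : α ^ 2 + 3 * β ^ 2 = algebraMap K (v.adicCompletion K) x) :
    ∃ k : ℤ, v.valuation K x = exp (2 * k) := by
  obtain ⟨a, b, h0, hv⟩ := exists_form_val_eq137 v x hx α β h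
  obtain ⟨k, hk⟩ := val_sq_add_three_sq_even137 v hκ a b h0
  exact ⟨k, by rw [← hv, hk]⟩

end Dedekind

/-! ## K3: real places -/



/-- **K3, REAL PLACE.**  A value of `α² + 3 β²` on the completion at a real place is positive. -/
theorem real_pos137 {L : Type*} [Field L] (w : InfinitePlace L) (hw : w.IsReal) (x : L)
    (hx : x ≠ 0) (α β : w.Completion)
    (h : α ^ 2 + 3 * β ^ 2 = algebraMap L w.Completion x) :
    0 < w.embedding_of_isReal hw x := by
  have h1 := congrArg (extensionEmbeddingOfIsReal hw) h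
  rw [map_add, map_mul, map_pow, map_pow, map_ofNat] at h1
  have h2 : extensionEmbeddingOfIsReal hw (algebraMap L w.Completion x) =
      w.embedding_of_isReal hw x := by
    simp
  rw [h2] at h1
  have h3 : w.embedding_of_isReal hw x ≠ 0 := (map_ne_zero _).mpr hx
  have h4 : 0 ≤ w.embedding_of_isReal hw x := by rw [← h1]; positivity
  exact lt_of_le_of_ne h4 (Ne.symm h3)

/-! ## The interface in the shape of the hypotheses of `T6.HasseNormQC` -/

/-- K1 at a finite place. -/
theorem locNorm_form_fin137 (L M : Type) [Field L] [NumberField L] [Field M] [NumberField M]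
    [Algebra L M] (hp : H438.IsQ3Pair438 L M)
    (u : IsDedekindDomain.HeightOneSpectrum (NumberField.RingOfIntegers L)) (x : L)
    (h : ∃ y : TensorProduct L (u.adicCompletion L) M,
      Algebra.norm (u.adicCompletion L) (S := TensorProduct L (u.adicCompletion L) M) y
        = algebraMap L (u.adicCompletion L) x) :
    ∃ α β : u.adicCompletion L, α ^ 2 + 3 * β ^ 2 = algebraMap L (u.adicCompletion L) x := by
  obtain ⟨r, hr⟩ := hp.root
  obtain ⟨y, hy⟩ := h
  obtain ⟨α, β, hαβ⟩ := tensor_norm_form137 L M r hr hp.noRoot hp.degM (u.adicCompletion L) y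
  exact ⟨α, β, by rw [← hαβ, hy]⟩

/-- K1 at an infinite place. -/
theorem locNorm_form_inf137 (L M : Type) [Field L] [NumberField L] [Field M] [NumberField M]
    [Algebra L M] (hp : H438.IsQ3Pair438 L M) (w : NumberField.InfinitePlace L) (x : L)
    (h : ∃ y : TensorProduct L w.Completion M,
      Algebra.norm w.Completion (S := TensorProduct L w.Completion M) y
        = algebraMap L w.Completion x) :
    ∃ α β : w.Completion, α ^ 2 + 3 * β ^ 2 = algebraMap L w.Completion x := by
  obtain ⟨r, hr⟩ := hp.root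
  obtain ⟨y, hy⟩ := h
  obtain ⟨α, β, hαβ⟩ := tensor_norm_form137 L M r hr hp.noRoot hp.degM w.Completion y
  exact ⟨α, β, by rw [← hαβ, hy]⟩

/-- **K2 in the shape of `IsLocNormFin438`.**  If the residue field of `u` has `≡ 2 mod 3`
elements, every `x ∈ L^×` which is a local norm at `u` has even `u`-adic valuation. -/
theorem locNorm_parity137 (L M : Type) [Field L] [NumberField L] [Field M] [NumberField M]
    [Algebra L M] (hp : H438.IsQ3Pair438 L M)
    (u : IsDedekindDomain.HeightOneSpectrum (NumberField.RingOfIntegers L))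
    (hu : Nat.card (NumberField.RingOfIntegers L ⧸ u.asIdeal) % 3 = 2) (x : L) (hx : x ≠ 0)
    (h : ∃ y : TensorProduct L (u.adicCompletion L) M,
      Algebra.norm (u.adicCompletion L) (S := TensorProduct L (u.adicCompletion L) M) y
        = algebraMap L (u.adicCompletion L) x) :
    ∃ k : ℤ, u.valuation L x = WithZero.exp (2 * k) := by
  obtain ⟨α, β, hαβ⟩ := locNorm_form_fin137 L M hp u x h
  have := u.isMaximal
  let _ : Field (NumberField.RingOfIntegers L ⧸ u.asIdeal) := Ideal.Quotient.field u.asIdeal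
  have hfin : Finite (NumberField.RingOfIntegers L ⧸ u.asIdeal) :=
    Nat.finite_of_card_ne_zero (by omega)
  exact parity_of_local_form137 u (no_root_of_card137 _ hu) x hx α β hαβ

/-- **K3 in the shape of `IsLocNormInf438`.** -/
theorem locNorm_pos137 (L M : Type) [Field L] [NumberField L] [Field M] [NumberField M]
    [Algebra L M] (hp : H438.IsQ3Pair438 L M) (w : NumberField.InfinitePlace L)
    (hw : w.IsReal) (x : L) (hx : x ≠ 0)
    (h : ∃ y : TensorProduct L w.Completion M,
      Algebra.norm w.Completion (S := TensorProduct L w.Completion M) y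
        = algebraMap L w.Completion x) :
    0 < w.embedding_of_isReal hw x := by
  obtain ⟨α, β, hαβ⟩ := locNorm_form_inf137 L M hp w x h
  exact real_pos137 w hw x hx α β hαβ

end Fermat.Agent.LT.T6.H137

end
-- ===== PACK-END LT/T6/H137/LocalKit.lean

-- ===== PACK-BEGIN LT/T6/H219/Lam3.lean
section


/-!
# T6.00q.6 `LocalCC438` (cut of helper438): from "unit part `≡ 1 mod 3`" to the product-formula
form `Lam3_438` (helper219).  Elementary, Mathlib only.
-/

set_option autoImplicit false

namespace Fermat.Agent.LT.T6.H219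

open Fermat.Agent.LT.T6.H438

/-- `S n = ∑_{p ≡ 2 mod 3} v_p(n)`. -/
noncomputable def sTwo219 (n : ℕ) : ℕ :=
  n.factorization.sum (fun p k => if p % 3 = 2 then k else 0)

theorem sTwo219_mul {a b : ℕ} (ha : a ≠ 0) (hb : b ≠ 0) :
    sTwo219 (a * b) = sTwo219 a + sTwo219 b := by
  unfold sTwo219
  rw [Nat.factorization_mul ha hb]
  apply Finsupp.sum_add_index'
  · intro p; split_ifs <;> rfl
  · intro p k₁ k₂; split_ifs <;> simp

theorem sTwo219_prime {p : ℕ} (hp : p.Prime) : sTwo219 p = if p % 3 = 2 then 1 else 0 := by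
  unfold sTwo219
  rw [hp.factorization, Finsupp.sum_single_index]
  split_ifs <;> rfl

theorem sTwo219_one : sTwo219 1 = 0 := by
  simp [sTwo219]

/-- Product formula at `3`: `n ≡ (-1)^{S n} mod 3` for `n` prime to `3`. -/
theorem natCast_zmod3_eq219 : ∀ n : ℕ, n ≠ 0 → ¬ 3 ∣ n → (n : ZMod 3) = (-1) ^ sTwo219 n := by
  intro n
  induction n using induction_on_primes with
  | zero => intro h; exact absurd rfl h
  | one => intro _ _; simp [sTwo219_one]
  | prime_mul p a hp ih =>
    intro hn h3
    have hp0 : p ≠ 0 := hp.ne_zero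
    have ha0 : a ≠ 0 := fun h => hn (by rw [h, mul_zero])
    have h3a : ¬ 3 ∣ a := fun h => h3 (dvd_mul_of_dvd_right h p)
    have h3p : ¬ 3 ∣ p := fun h => h3 (dvd_mul_of_dvd_left h a)
    rw [Nat.cast_mul, ih ha0 h3a, sTwo219_mul hp0 ha0, sTwo219_prime hp, pow_add]
    congr 1
    have hpm : p % 3 = 1 ∨ p % 3 = 2 := by omega
    rcases hpm with h | h
    · have : (p : ZMod 3) = ((1 : ℕ) : ZMod 3) := by
        rw [ZMod.natCast_eq_natCast_iff]; exact h
      rw [this, if_neg (by omega)]
      simp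
    · have : (p : ZMod 3) = ((2 : ℕ) : ZMod 3) := by
        rw [ZMod.natCast_eq_natCast_iff]; exact h
      rw [this, if_pos h]
      decide

theorem neg_one_pow_zmod3_219 (k : ℕ) : ((-1 : ZMod 3) ^ k = 1 ↔ Even k) := by
  rcases Nat.even_or_odd k with h | h
  · simp [h, h.neg_one_pow]
  · rw [h.neg_one_pow]
    constructor
    · intro h'; exact absurd h' (by decide)
    · intro h'; exact absurd h (Nat.not_odd_iff_even.mpr h')

/-- Parity of `S n` and the number of primes `≡ 2 mod 3` with odd exponent. -/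
theorem even_sTwo219_iff (n : ℕ) :
    Even (sTwo219 n) ↔
      Even (Finset.card (n.primeFactors.filter
        (fun p => p % 3 = 2 ∧ Odd (n.factorization p)))) := by
  unfold sTwo219
  rw [Finsupp.sum, Nat.support_factorization, Finset.even_sum_iff_even_card_odd]
  have : (n.primeFactors.filter fun p => Odd (if p % 3 = 2 then n.factorization p else 0))
      = n.primeFactors.filter (fun p => p % 3 = 2 ∧ Odd (n.factorization p)) := by
    apply Finset.filter_congr
    intro p _
    split_ifs with h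
    · simp [h]
    · simp [h]
  rw [this]

/-- **From the unit part to `Lam3_438`.** -/
theorem lam3_of_unit219 (c : ℚ) (hc : c ≠ 0) (t : ℚ) (ht : t ≠ 0) (k : ℕ) (z₀ : ℤ)
    (h : c * t ^ 2 = (3 : ℚ) ^ k * (z₀ : ℚ)) (hz : z₀ % 3 = 1) : Lam3_438 c := by
  have hz0 : z₀ ≠ 0 := by rintro rfl; simp at hz
  have h3z : ¬ (3 : ℤ) ∣ z₀ := by omega
  set n := z₀.natAbs with hn
  have hn0 : n ≠ 0 := Int.natAbs_ne_zero.mpr hz0
  have h3n : ¬ 3 ∣ n := by
    intro h3
    apply h3z
    exact Int.natCast_dvd.mpr h3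
  -- valuations
  have hval : ∀ p : ℕ, p.Prime → p % 3 = 2 →
      (Odd (padicValRat p c) ↔ Odd (n.factorization p)) := by
    intro p hp hp3
    have : Fact p.Prime := ⟨hp⟩
    have e1 : padicValRat p (c * t ^ 2) = padicValRat p c + 2 * padicValRat p t := by
      rw [padicValRat.mul hc (pow_ne_zero _ ht), padicValRat.pow t]
      push_cast; ring
    have e2 : padicValRat p ((3 : ℚ) ^ k * (z₀ : ℚ)) = padicValInt p z₀ := by
      rw [padicValRat.mul (by positivity) (by exact_mod_cast hz0), padicValRat.pow (3 : ℚ)]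
      have h3 : padicValRat p (3 : ℚ) = 0 := by
        have : padicValRat p ((3 : ℕ) : ℚ) = padicValNat p 3 := padicValRat.of_nat
        have h0 : padicValNat p 3 = 0 := by
          apply padicValNat.eq_zero_of_not_dvd
          intro hd
          have := (Nat.prime_dvd_prime_iff_eq hp Nat.prime_three).mp hd
          omega
        rw [h0] at this
        simpa using this
      rw [h3, padicValRat.of_int]
      simp
    have e3 : (padicValInt p z₀ : ℤ) = (n.factorization p : ℤ) := by
      rw [Nat.factorization_def n hp]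
      rfl
    rw [h, e2, e3] at e1
    constructor
    · intro ho
      have : Odd ((n.factorization p : ℤ)) := by
        rw [e1]
        exact ho.add_even (even_two_mul _)
      exact_mod_cast this
    · intro ho
      have ho' : Odd ((n.factorization p : ℤ)) := by exact_mod_cast ho
      rw [e1] at ho'
      rcases Int.even_or_odd (padicValRat p c) with he | ho2
      · exact absurd (he.add (even_two_mul _)) (Int.not_even_iff_odd.mpr ho')
      · exact ho2
  refine ⟨n.primeFactors.filter (fun p => p % 3 = 2 ∧ Odd (n.factorization p)), ?_, ?_⟩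
  · intro p
    rw [Finset.mem_filter, Nat.mem_primeFactors]
    constructor
    · rintro ⟨⟨hp, -, -⟩, hp3, ho⟩
      exact ⟨hp, hp3, (hval p hp hp3).mpr ho⟩
    · rintro ⟨hp, hp3, ho⟩
      have ho' := (hval p hp hp3).mp ho
      refine ⟨⟨hp, ?_, hn0⟩, hp3, ho'⟩
      by_contra hnd
      rw [Nat.factorization_eq_zero_of_not_dvd hnd] at ho'
      exact absurd ho' (by decide)
  · rw [← even_sTwo219_iff, ← neg_one_pow_zmod3_219, ← natCast_zmod3_eq219 n hn0 h3n]
    have hsign : (0 < c ↔ 0 < z₀) := by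
      have ht2 : (0 : ℚ) < t ^ 2 := by positivity
      have h3k : (0 : ℚ) < (3 : ℚ) ^ k := by positivity
      constructor
      · intro hcpos
        have : (0 : ℚ) < (3 : ℚ) ^ k * (z₀ : ℚ) := by rw [← h]; positivity
        have := (mul_pos_iff_of_pos_left h3k).mp this
        exact_mod_cast this
      · intro hzpos
        have hz' : (0 : ℚ) < (z₀ : ℚ) := by exact_mod_cast hzpos
        have : 0 < c * t ^ 2 := by rw [h]; positivity
        exact (mul_pos_iff_of_pos_right ht2).mp this
    rw [hsign]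
    have hz1 : ((z₀ : ℤ) : ZMod 3) = 1 := by
      have : ((z₀ : ℤ) : ZMod 3) = ((1 : ℤ) : ZMod 3) := by
        rw [ZMod.intCast_eq_intCast_iff]
        unfold Int.ModEq
        omega
      simpa using this
    constructor
    · intro hpos
      have : (n : ℤ) = z₀ := by rw [hn]; exact Int.natAbs_of_nonneg hpos.le
      have h2 : ((n : ℤ) : ZMod 3) = 1 := by rw [this, hz1]
      simpa using h2
    · intro h1
      by_contra hneg
      have hneg' : z₀ < 0 := lt_of_le_of_ne (not_lt.mp hneg) hz0
      have : (n : ℤ) = -z₀ := by rw [hn]; exact Int.ofNat_natAbs_of_nonpos hneg'.le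
      have h2 : ((n : ℤ) : ZMod 3) = -1 := by rw [this]; push_cast; rw [hz1]
      have h3 : ((n : ℕ) : ZMod 3) = -1 := by simpa using h2
      rw [h1] at h3
      exact absurd h3 (by decide)

end Fermat.Agent.LT.T6.H219

end
-- ===== PACK-END LT/T6/H219/Lam3.lean

-- ===== PACK-BEGIN LT/T6/H227/Unfold.lean
section



/-!
# Row LT, tower T6: abstract UNFOLDING of orbit sums (helper227) -- shared lemma, OFF-MAIN

`IsOrbSumGen s U C φ δ c` (T6/Spec) says that `c` is the weighted sum
`∑ φ(y) [T_y^c : T_y^c ∩ U]` over representatives `y` of the `U`-twisted-conjugacy classes in the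
twisted conjugacy class of `δ`.  This file proves, by pure group theory, that such a `c` is the
UNWEIGHTED sum of `φ (x⁻¹ δ s(x))` over any system `X` of representatives of the double cosets
`Λ \ Γ / U`, where `Λ` is a complement of the compact part `T_δ^c` in the twisted centraliser
`T_δ` (`T_δ = Λ · T_δ^c`, `Λ ∩ T_δ^c = 1`).

For `GL₂` over a local field: hyperbolic `δ = diag(d₁, d₂)`: `Λ = {diag(ϖ^a, ϖ^b)}`,
`X = {n(x) : x ∈ k'/𝒪'}` (Iwasawa); elliptic unramified: `Λ = ⟨ϖ⟩`, `X` = representatives of the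
vertices of the tree; elliptic ramified: `Λ = ⟨ϖ_L⟩`.

Main statements: `orbSum_unfold` (Finset form) and `orbSum_unfold_finsum`.
-/

set_option autoImplicit false

open scoped Classical

noncomputable section

namespace Fermat.Agent.LT.T6.H227

open Fermat.Agent.LT.T6

variable {Γ : Type} [Group Γ]

/-- The twisted conjugate `x⁻¹ δ s(x)` (a right action of `Γ` on itself). -/
def twc (s : Γ →* Γ) (δ x : Γ) : Γ := x⁻¹ * δ * s x

theorem twc_def (s : Γ →* Γ) (δ x : Γ) : twc s δ x = x⁻¹ * δ * s x := rfl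

@[simp] theorem twc_one (s : Γ →* Γ) (δ : Γ) : twc s δ 1 = δ := by simp [twc]

theorem twc_twc (s : Γ →* Γ) (δ a b : Γ) : twc s (twc s δ a) b = twc s δ (a * b) := by
  simp [twc, mul_assoc]

theorem twc_eq_iff (s : Γ →* Γ) (δ a b : Γ) :
    twc s δ a = twc s δ b ↔ twc s δ (a * b⁻¹) = δ := by
  constructor
  · intro h
    have := congrArg (fun y => twc s y b⁻¹) h
    simp only [twc_twc] at this
    rw [this]; simp
  · intro h
    have := congrArg (fun y => twc s y b) h
    simp only [twc_twc] at this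
    simpa [mul_assoc] using this

/-- The hypotheses of the unfolding: `U` is a subgroup (as a predicate), `C δ` is a subgroup of
the twisted centraliser of `δ` ("compact part"), `C` is equivariant along the twisted class of
`δ`, the part of the twisted centraliser of a point of the class which lies in `U` lies in the
compact part, `Lam` is a subgroup of the twisted centraliser of `δ` which is a complement of the
compact part, and `X` is a system of representatives of `Lam \ Γ / U`. -/
structure UnfoldData (s : Γ →* Γ) (U : Γ → Prop) (C : Γ → Γ → Prop) (δ : Γ)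
    (Lam : Γ → Prop) (X : Set Γ) : Prop where
  U_one : U 1
  U_mul : ∀ a b : Γ, U a → U b → U (a * b)
  U_inv : ∀ a : Γ, U a → U a⁻¹
  C_cent : ∀ t : Γ, C δ t → twc s δ t = δ
  C_mul : ∀ a b : Γ, C δ a → C δ b → C δ (a * b)
  C_inv : ∀ a : Γ, C δ a → C δ a⁻¹
  C_conj : ∀ x t : Γ, C (twc s δ x) t ↔ C δ (x * t * x⁻¹)
  U_C : ∀ x u : Γ, U u → twc s (twc s δ x) u = twc s δ x → C (twc s δ x) u
  Lam_mul : ∀ a b : Γ, Lam a → Lam b → Lam (a * b)
  Lam_inv : ∀ a : Γ, Lam a → Lam a⁻¹
  Lam_cent : ∀ l : Γ, Lam l → twc s δ l = δ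
  Lam_C : ∀ l : Γ, Lam l → C δ l → l = 1
  decomp : ∀ t : Γ, twc s δ t = δ → ∃ l κ : Γ, Lam l ∧ C δ κ ∧ t = l * κ
  cover : ∀ g : Γ, ∃ x ∈ X, ∃ l u : Γ, Lam l ∧ U u ∧ g = l * x * u
  uniq : ∀ x ∈ X, ∀ x' ∈ X, (∃ l u : Γ, Lam l ∧ U u ∧ x' = l * x * u) → x = x'

section

variable {s : Γ →* Γ} {U : Γ → Prop} {C : Γ → Γ → Prop} {δ : Γ} {Lam : Γ → Prop} {X : Set Γ}

/-- The representative in `X` of the double coset of `g`. -/
def UnfoldData.rep (D : UnfoldData s U C δ Lam X) (g : Γ) : Γ := (D.cover g).choose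

theorem UnfoldData.rep_mem (D : UnfoldData s U C δ Lam X) (g : Γ) : D.rep g ∈ X :=
  (D.cover g).choose_spec.1

theorem UnfoldData.rep_spec (D : UnfoldData s U C δ Lam X) (g : Γ) :
    ∃ l u : Γ, Lam l ∧ U u ∧ g = l * D.rep g * u :=
  (D.cover g).choose_spec.2

theorem UnfoldData.cent_mul (_D : UnfoldData s U C δ Lam X) {a b : Γ} (ha : twc s δ a = δ)
    (hb : twc s δ b = δ) : twc s δ (a * b) = δ := by
  rw [← twc_twc, ha, hb]

theorem UnfoldData.cent_inv (_D : UnfoldData s U C δ Lam X) {a : Γ} (ha : twc s δ a = δ) :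
    twc s δ a⁻¹ = δ := by
  have := (twc_eq_iff s δ 1 a).1 (by rw [twc_one, ha])
  simpa using this


/-- The coset `t U`. -/
def coset (U : Γ → Prop) (t : Γ) : Set Γ := {g : Γ | ∃ u : Γ, U u ∧ g = t * u}

theorem UnfoldData.self_mem_coset (D : UnfoldData s U C δ Lam X) (t : Γ) : t ∈ coset U t :=
  ⟨1, D.U_one, by simp⟩

theorem UnfoldData.coset_eq_of (D : UnfoldData s U C δ Lam X) {t w : Γ} (hw : U w) :
    coset U (t * w) = coset U t := by
  ext g
  constructor
  · rintro ⟨u, hu, rfl⟩
    exact ⟨w * u, D.U_mul _ _ hw hu, by simp [mul_assoc]⟩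
  · rintro ⟨u, hu, rfl⟩
    exact ⟨w⁻¹ * u, D.U_mul _ _ (D.U_inv _ hw) hu, by simp [mul_assoc]⟩

/-- The fibre of the class of `twc s δ g`: the representatives `x ∈ X` whose twisted conjugate
of `δ` is `U`-twisted-conjugate to `twc s δ g`. -/
def fib (s : Γ →* Γ) (U : Γ → Prop) (δ : Γ) (X : Set Γ) (g : Γ) : Set Γ :=
  {x | x ∈ X ∧ ∃ u : Γ, U u ∧ twc s δ x = twc s (twc s δ g) u}

theorem UnfoldData.fib_iff (_D : UnfoldData s U C δ Lam X) (g x : Γ) :
    (∃ u : Γ, U u ∧ twc s δ x = twc s (twc s δ g) u) ↔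
      ∃ τ u : Γ, twc s δ τ = δ ∧ U u ∧ x = τ * g * u := by
  constructor
  · rintro ⟨u, hu, h⟩
    rw [twc_twc, twc_eq_iff] at h
    exact ⟨x * (g * u)⁻¹, u, h, hu, by simp [mul_assoc]⟩
  · rintro ⟨τ, u, hτ, hu, rfl⟩
    refine ⟨u, hu, ?_⟩
    rw [twc_twc, mul_assoc, ← twc_twc, hτ]

theorem UnfoldData.C_sub (D : UnfoldData s U C δ Lam X) (g : Γ) {t : Γ}
    (ht : C (twc s δ g) t) : C δ (g * t * g⁻¹) := (D.C_conj g t).1 ht

/-- **Fibre count.**  The number of representatives in the fibre of the class of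
`y = twc s δ g` is the index `[T_y^c : T_y^c ∩ U]`. -/
theorem UnfoldData.fib_ncard (D : UnfoldData s U C δ Lam X) (g : Γ) :
    (fib s U δ X g).ncard = cIndex U C (twc s δ g) := by
  unfold cIndex
  symm
  refine Set.ncard_congr (fun c hc => D.rep (g * hc.choose)) ?_ ?_ ?_
  · -- lands in the fibre
    intro c hc
    obtain ⟨ht, -⟩ := hc.choose_spec
    set t := hc.choose with htdef
    refine ⟨D.rep_mem _, ?_⟩
    obtain ⟨l, u, hl, hu, hglu⟩ := D.rep_spec (g * t)
    rw [D.fib_iff]
    refine ⟨l⁻¹ * (g * t * g⁻¹), u⁻¹, ?_, D.U_inv _ hu, ?_⟩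
    · exact D.cent_mul (D.cent_inv (D.Lam_cent _ hl)) (D.C_cent _ (D.C_sub g ht))
    · show D.rep (g * t) = l⁻¹ * (g * t * g⁻¹) * g * u⁻¹
      generalize D.rep (g * t) = r at hglu ⊢
      have h2 : g * t * g⁻¹ * g = g * t := by simp [mul_assoc]
      rw [mul_assoc l⁻¹, h2, hglu]; simp [mul_assoc]
  · -- injective
    intro c c' hc hc' hEq
    obtain ⟨ht, hct⟩ := hc.choose_spec
    obtain ⟨ht', hct'⟩ := hc'.choose_spec
    set t := hc.choose with htdef
    set t' := hc'.choose with htdef'
    have hEq' : D.rep (g * t) = D.rep (g * t') := hEq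
    obtain ⟨l, u, hl, hu, hglu⟩ := D.rep_spec (g * t)
    obtain ⟨l', u', hl', hu', hglu'⟩ := D.rep_spec (g * t')
    rw [← hEq'] at hglu'
    -- g t' = l' l⁻¹ (g t) u⁻¹ u'
    set m := l' * l⁻¹ with hm
    set w := u⁻¹ * u' with hw
    have hmL : Lam m := D.Lam_mul _ _ hl' (D.Lam_inv _ hl)
    have hwU : U w := D.U_mul _ _ (D.U_inv _ hu) hu'
    have key : g * t' = m * (g * t) * w := by
      generalize D.rep (g * t) = r at hglu hglu'
      rw [hglu', hglu]; simp [hm, hw, mul_assoc]
    -- κ, κ'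
    have hκ : C δ (g * t * g⁻¹) := D.C_sub g ht
    have hκ' : C δ (g * t' * g⁻¹) := D.C_sub g ht'
    -- g w g⁻¹ = κ⁻¹ m⁻¹ κ'
    have hgw : g * w * g⁻¹ = (g * t * g⁻¹)⁻¹ * m⁻¹ * (g * t' * g⁻¹) := by
      rw [key]; simp [mul_assoc]
    have hgwT : twc s δ (g * w * g⁻¹) = δ := by
      rw [hgw]
      exact D.cent_mul (D.cent_mul (D.cent_inv (D.C_cent _ hκ))
        (D.cent_inv (D.Lam_cent _ hmL))) (D.C_cent _ hκ')
    have hwstab : twc s (twc s δ g) w = twc s δ g := by
      rw [twc_twc]
      have : g * w = (g * w * g⁻¹) * g := by simp [mul_assoc]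
      rw [this, ← twc_twc, hgwT]
    have hwC : C δ (g * w * g⁻¹) := D.C_sub g (D.U_C g w hwU hwstab)
    -- m⁻¹ = κ (g w g⁻¹) κ'⁻¹
    have hminv : m⁻¹ = (g * t * g⁻¹) * (g * w * g⁻¹) * (g * t' * g⁻¹)⁻¹ := by
      rw [hgw]; simp [mul_assoc]
    have hmC : C δ m⁻¹ := by
      rw [hminv]
      exact D.C_mul _ _ (D.C_mul _ _ hκ hwC) (D.C_inv _ hκ')
    have hm1 : m⁻¹ = 1 := D.Lam_C _ (D.Lam_inv _ hmL) hmC
    have hm1' : m = 1 := by simpa using hm1
    have ht't : t' = t * w := by
      have := key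
      rw [hm1', one_mul, mul_assoc] at this
      exact mul_left_cancel this
    rw [hct, hct', ht't]
    exact (D.coset_eq_of (t := t) hwU).symm
  · -- surjective
    rintro x ⟨hxX, hx⟩
    rw [D.fib_iff] at hx
    obtain ⟨τ, u, hτ, hu, rfl⟩ := hx
    obtain ⟨l, κ, hl, hκ, rfl⟩ := D.decomp τ hτ
    have htC : C (twc s δ g) (g⁻¹ * κ * g) := by
      rw [D.C_conj]
      have : g * (g⁻¹ * κ * g) * g⁻¹ = κ := by simp [mul_assoc]
      rw [this]; exact hκ
    have hc : ∃ t : Γ, C (twc s δ g) t ∧ coset U (g⁻¹ * κ * g) = {g' : Γ | ∃ u : Γ, U u ∧ g' = t * u} :=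
      ⟨g⁻¹ * κ * g, htC, rfl⟩
    refine ⟨coset U (g⁻¹ * κ * g), hc, ?_⟩
    obtain ⟨ht₁, hct₁⟩ := hc.choose_spec
    set t₁ := hc.choose with ht₁def
    show D.rep (g * t₁) = l * κ * g * u
    -- t₁ ∈ coset t
    have hmem : t₁ ∈ coset U (g⁻¹ * κ * g) := by
      rw [hct₁]; exact D.self_mem_coset t₁
    obtain ⟨w, hw, ht₁w⟩ := hmem
    obtain ⟨l₁, u₁, hl₁, hu₁, hg⟩ := D.rep_spec (g * t₁)
    refine D.uniq _ (D.rep_mem _) _ hxX ⟨l * l₁, u₁ * w⁻¹ * u, D.Lam_mul _ _ hl hl₁,
      D.U_mul _ _ (D.U_mul _ _ hu₁ (D.U_inv _ hw)) hu, ?_⟩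
    have h1 : l₁ * D.rep (g * t₁) * u₁ = g * t₁ := hg.symm
    calc l * κ * g * u = l * (g * (g⁻¹ * κ * g) * w) * w⁻¹ * u := by simp [mul_assoc]
      _ = l * (g * t₁) * w⁻¹ * u := by rw [ht₁w]; simp [mul_assoc]
      _ = l * (l₁ * D.rep (g * t₁) * u₁) * w⁻¹ * u := by rw [h1]
      _ = l * l₁ * D.rep (g * t₁) * (u₁ * w⁻¹ * u) := by simp [mul_assoc]


/-- **UNFOLDING (Finset form).**  If `c` is the orbit sum of `φ` at `δ` (weights
`[T_y^c : T_y^c ∩ U]`), then `c` is the unweighted sum of `φ (x⁻¹ δ s(x))` over any finite set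
`S` of representatives `x ∈ X` of `Lam \ Γ / U` which contains all those with
`φ (x⁻¹ δ s(x)) ≠ 0`. -/
theorem orbSum_unfold (D : UnfoldData s U C δ Lam X) (φ : Γ → ℂ)
    (hφ : ∀ u y : Γ, U u → φ (u⁻¹ * y * s u) = φ y) (c : ℂ)
    (h : IsOrbSumGen s U C φ δ c) (S : Finset Γ) (hSX : ∀ x ∈ S, x ∈ X)
    (hS : ∀ x ∈ X, φ (x⁻¹ * δ * s x) ≠ 0 → x ∈ S) :
    c = ∑ x ∈ S, φ (x⁻¹ * δ * s x) := by
  obtain ⟨R, h1, h2, h3, rfl⟩ := h
  -- the relation "the twisted conjugate by `x` lies in the `U`-class of `y`"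
  set P : Γ → Γ → Prop := fun y x => ∃ u : Γ, U u ∧ x⁻¹ * δ * s x = u⁻¹ * y * s u with hP
  have hA : ∀ x ∈ S, φ (x⁻¹ * δ * s x) = ∑ y ∈ R, if P y x then φ y else 0 := by
    intro x _
    by_cases hx0 : φ (x⁻¹ * δ * s x) = 0
    · rw [hx0]
      symm
      apply Finset.sum_eq_zero
      intro y _
      split_ifs with hy
      · obtain ⟨u, hu, he⟩ := hy
        rw [← hφ u y hu, ← he, hx0]
      · rfl
    · obtain ⟨y', hy'R, u', hu', he'⟩ := h3 _ ⟨x, rfl⟩ hx0
      rw [Finset.sum_eq_single y']
      · rw [if_pos ⟨u', hu', he'⟩, ← hφ u' y' hu', ← he']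
      · intro y hyR hne
        rw [if_neg]
        rintro ⟨u, hu, he⟩
        apply hne
        symm
        apply h2 y' hy'R y hyR
        refine ⟨u' * u⁻¹, D.U_mul _ _ hu' (D.U_inv _ hu), ?_⟩
        have : y = u * (x⁻¹ * δ * s x) * (s u)⁻¹ := by rw [he]; simp [mul_assoc]
        rw [this, he']; simp [mul_assoc]
      · intro hn; exact absurd hy'R hn
  rw [Finset.sum_congr rfl hA, Finset.sum_comm]
  apply Finset.sum_congr rfl
  intro y hyR
  rw [Finset.sum_ite, Finset.sum_const, Finset.sum_const_zero, add_zero, nsmul_eq_mul, mul_comm]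
  by_cases hy0 : φ y = 0
  · rw [hy0, mul_zero, mul_zero]
  · congr 1
    obtain ⟨g, rfl⟩ := h1 y hyR
    have hfib : (↑(S.filter fun x => P (g⁻¹ * δ * s g) x) : Set Γ) = fib s U δ X g := by
      ext x
      simp only [Finset.coe_filter, Set.mem_ofPred_eq, fib, twc]
      constructor
      · rintro ⟨hxS, hx⟩
        exact ⟨hSX x hxS, hx⟩
      · rintro ⟨hxX, hx⟩
        refine ⟨hS x hxX ?_, hx⟩
        obtain ⟨u, hu, he⟩ := hx
        rw [he, hφ u _ hu]; exact hy0
    have := D.fib_ncard g
    rw [← hfib, Set.ncard_coe_finset] at this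
    have this' : (S.filter fun x => P (g⁻¹ * δ * s g) x).card = cIndex U C (g⁻¹ * δ * s g) := this
    exact_mod_cast this'.symm

/-- **UNFOLDING (finsum form).** -/
theorem orbSum_unfold_finsum (D : UnfoldData s U C δ Lam X) (φ : Γ → ℂ)
    (hφ : ∀ u y : Γ, U u → φ (u⁻¹ * y * s u) = φ y) (c : ℂ)
    (h : IsOrbSumGen s U C φ δ c)
    (hfin : {x | x ∈ X ∧ φ (x⁻¹ * δ * s x) ≠ 0}.Finite) :
    c = ∑ᶠ x ∈ X, φ (x⁻¹ * δ * s x) := by
  have h0 := orbSum_unfold D φ hφ c h hfin.toFinset
    (fun x hx => ((Set.Finite.mem_toFinset hfin).1 hx).1)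
    (fun x hxX hx => (Set.Finite.mem_toFinset hfin).2 ⟨hxX, hx⟩)
  rw [h0]
  symm
  apply finsum_mem_eq_sum_of_subset
  · rintro x ⟨hxX, hx⟩
    exact (Set.Finite.mem_toFinset hfin).2 ⟨hxX, hx⟩
  · intro x hx
    exact ((Set.Finite.mem_toFinset hfin).1 hx).1

end

end Fermat.Agent.LT.T6.H227

end

end
-- ===== PACK-END LT/T6/H227/Unfold.lean

-- ===== PACK-BEGIN LT/T6/H166/NormF.lean
section



/-!
# Row LT, tower T6, leaf T6.00q.3 `NormFC438` (helper166) -- OFF-MAIN

`normFC166 : Fermat.Agent.LT.T6.H438.NormFC438`, VERBATIM against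
`LT/T6/H438/HasseQ3.lean` (origin/helper438@9c79cc886, sha256 7b061f61b47b31e2): a positive
rational number with even valuation at every prime `p ≡ 2 mod 3` is `a² + 3 b²`, `a, b ∈ ℚ`.

Elementary proof (no ring of Eisenstein integers, no lemma of Thue):
* the rational numbers `a² + 3 b²` are closed under products and inverses and contain the
  squares and `3` (`IsNormF166`);
* for a prime `p ≡ 1 mod 3` there is `x < p` with `p ∣ x² + 3` (`x = 2 ω + 1`, `ω` of order `3` in
  `(ℤ/p)ˣ`);
* an odd prime `q ≡ 2 mod 3` never divides `x² + 3` (else `(x - 1)/2` has order `3` in `(ℤ/q)ˣ`),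
  and `v₂(x² + 3) ∈ {0, 2}`;
* so `p = (x² + 3) / m` with `m < p` and `v_q(m)` even for `q ≡ 2 mod 3`: descent (strong
  induction on `p`).
-/

set_option autoImplicit false

namespace Fermat.Agent.LT.T6.H166

open Fermat.Agent.LT.T6.H438

/-! ## 1. The group of norms -/

/-- `n = a² + 3 b²` with `a, b` rational. -/
def IsNormF166 (n : ℚ) : Prop := ∃ a b : ℚ, n = a ^ 2 + 3 * b ^ 2

theorem isNormF_mul166 {m n : ℚ} (hm : IsNormF166 m) (hn : IsNormF166 n) :
    IsNormF166 (m * n) := by
  obtain ⟨a, b, rfl⟩ := hm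
  obtain ⟨c, d, rfl⟩ := hn
  exact ⟨a * c - 3 * b * d, a * d + b * c, by ring⟩

theorem isNormF_sq166 (a : ℚ) : IsNormF166 (a ^ 2) := ⟨a, 0, by ring⟩

theorem isNormF_three166 : IsNormF166 3 := ⟨0, 1, by ring⟩

theorem isNormF_one166 : IsNormF166 1 := ⟨1, 0, by ring⟩

theorem isNormF_inv166 {n : ℚ} (hn : IsNormF166 n) : IsNormF166 n⁻¹ := by
  have h : n⁻¹ = n * (n⁻¹) ^ 2 := by
    by_cases h0 : n = 0
    · simp [h0]
    · field_simp
  rw [h]
  exact isNormF_mul166 hn (isNormF_sq166 _)

theorem isNormF_div166 {m n : ℚ} (hm : IsNormF166 m) (hn : IsNormF166 n) :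
    IsNormF166 (m / n) := by
  rw [div_eq_mul_inv]
  exact isNormF_mul166 hm (isNormF_inv166 hn)

/-! ## 2. Cube roots of unity modulo a prime -/

/-- For a prime `p ≡ 1 mod 3` there is `x < p` with `p ∣ x² + 3`. -/
theorem exists_sq_add_three166 (p : ℕ) [hp : Fact p.Prime] (h3 : p % 3 = 1) :
    ∃ x : ℕ, x < p ∧ p ∣ x ^ 2 + 3 := by
  have : Fact (Nat.Prime 3) := ⟨Nat.prime_three⟩
  have hcard : 3 ∣ Fintype.card (ZMod p)ˣ := by
    rw [ZMod.card_units]
    have := hp.out.two_le
    omega
  obtain ⟨ω, hω⟩ := exists_prime_orderOf_dvd_card 3 hcard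
  have hω3 : (ω : ZMod p) ^ 3 = 1 := by
    have h1 : ω ^ 3 = 1 := by
      rw [← hω]
      exact pow_orderOf_eq_one ω
    have h2 := congrArg Units.val h1
    simpa using h2
  have hω1 : (ω : ZMod p) ≠ 1 := by
    intro h
    have h1 : ω = 1 := Units.ext h
    rw [h1, orderOf_one] at hω
    norm_num at hω
  have hquad : (ω : ZMod p) ^ 2 + ω + 1 = 0 := by
    have h : ((ω : ZMod p) - 1) * ((ω : ZMod p) ^ 2 + ω + 1) = 0 := by
      linear_combination hω3
    rcases mul_eq_zero.mp h with h | h
    · exact absurd (sub_eq_zero.mp h) hω1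
    · exact h
  refine ⟨(2 * (ω : ZMod p) + 1).val, ZMod.val_lt _, ?_⟩
  rw [← ZMod.natCast_eq_zero_iff]
  push_cast
  rw [ZMod.natCast_zmod_val]
  linear_combination 4 * hquad

/-- An odd prime `q ≡ 2 mod 3` does not divide `x² + 3`. -/
theorem not_dvd_sq_add_three166 (x q : ℕ) (hq : q.Prime) (hq3 : q % 3 = 2) (hq2 : q ≠ 2) :
    ¬ q ∣ x ^ 2 + 3 := by
  intro hdvd
  have : Fact q.Prime := ⟨hq⟩
  have : Fact (Nat.Prime 3) := ⟨Nat.prime_three⟩
  have hx : (x : ZMod q) ^ 2 + 3 = 0 := by
    have h := (ZMod.natCast_eq_zero_iff (x ^ 2 + 3) q).mpr hdvd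
    push_cast at h
    exact h
  have h2 : (2 : ZMod q) ≠ 0 := by
    intro h
    have h' : ((2 : ℕ) : ZMod q) = 0 := by exact_mod_cast h
    have hd := (ZMod.natCast_eq_zero_iff 2 q).mp h'
    exact hq2 ((Nat.prime_dvd_prime_iff_eq hq Nat.prime_two).mp hd)
  have h3 : (3 : ZMod q) ≠ 0 := by
    intro h
    have h' : ((3 : ℕ) : ZMod q) = 0 := by exact_mod_cast h
    have hd := (ZMod.natCast_eq_zero_iff 3 q).mp h'
    have := (Nat.prime_dvd_prime_iff_eq hq Nat.prime_three).mp hd
    omega
  set ω : ZMod q := ((x : ZMod q) - 1) / 2 with hωdef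
  have h2ω : 2 * ω = (x : ZMod q) - 1 := by
    rw [hωdef]
    field_simp
  have hquad : ω ^ 2 + ω + 1 = 0 := by
    have h4 : (4 : ZMod q) * (ω ^ 2 + ω + 1) = 0 := by
      have e : (4 : ZMod q) * (ω ^ 2 + ω + 1) = (2 * ω) ^ 2 + 2 * (2 * ω) + 4 := by ring
      rw [e, h2ω]
      linear_combination hx
    have h4' : (4 : ZMod q) ≠ 0 := by
      have e : (4 : ZMod q) = 2 * 2 := by norm_num
      rw [e]
      exact mul_ne_zero h2 h2
    exact (mul_eq_zero.mp h4).resolve_left h4'
  have hω3 : ω ^ 3 = 1 := by linear_combination (ω - 1) * hquad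
  have hω1 : ω ≠ 1 := by
    intro h
    rw [h] at hquad
    apply h3
    linear_combination hquad
  have hω0 : ω ≠ 0 := by
    intro h
    rw [h] at hω3
    norm_num at hω3
  have hord : orderOf ω = 3 := orderOf_eq_prime hω3 hω1
  have hfermat : ω ^ (q - 1) = 1 := ZMod.pow_card_sub_one_eq_one hω0
  have hdiv : 3 ∣ q - 1 := by
    rw [← hord]
    exact orderOf_dvd_of_pow_eq_one hfermat
  have := hq.two_le
  omega

/-- `v₂(x² + 3)` is even. -/
theorem even_padicValNat_two166 (x : ℕ) : Even (padicValNat 2 (x ^ 2 + 3)) := by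
  have : Fact (Nat.Prime 2) := ⟨Nat.prime_two⟩
  rcases Nat.even_or_odd x with hx | hx
  · -- `x² + 3` is odd
    have hnd : ¬ 2 ∣ x ^ 2 + 3 := by
      obtain ⟨j, rfl⟩ := hx
      intro h
      have e : (j + j) ^ 2 + 3 = 2 * (2 * j ^ 2 + 1) + 1 := by ring
      rw [e] at h
      omega
    rw [padicValNat.eq_zero_of_not_dvd hnd]
    exact Even.zero
  · -- `x² + 3 = 4 (j² + j + 1)` with `j² + j + 1` odd
    obtain ⟨j, rfl⟩ := hx
    have e : (2 * j + 1) ^ 2 + 3 = 2 ^ 2 * (j ^ 2 + j + 1) := by ring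
    have hodd : ¬ 2 ∣ j ^ 2 + j + 1 := by
      intro h
      have h1 : 2 ∣ j * (j + 1) := (Nat.even_mul_succ_self j).two_dvd
      have e1 : j ^ 2 + j + 1 = j * (j + 1) + 1 := by ring
      rw [e1] at h
      omega
    rw [e, padicValNat.mul (by norm_num) (by positivity), padicValNat.prime_pow,
      padicValNat.eq_zero_of_not_dvd hodd]
    exact ⟨1, rfl⟩

/-- `v_q(x² + 3)` is even for every prime `q ≡ 2 mod 3`. -/
theorem even_padicValNat_sq_add_three166 (x q : ℕ) (hq : q.Prime) (hq3 : q % 3 = 2) :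
    Even (padicValNat q (x ^ 2 + 3)) := by
  by_cases hq2 : q = 2
  · subst hq2
    exact even_padicValNat_two166 x
  · rw [padicValNat.eq_zero_of_not_dvd (not_dvd_sq_add_three166 x q hq hq3 hq2)]
    exact Even.zero

/-! ## 3. Natural numbers -/

/-- A positive natural number with even valuation at the primes `≡ 2 mod 3`, all of whose prime
factors `≡ 1 mod 3` are norms, is a norm. -/
theorem natCast_isNormF166 (m : ℕ) : 0 < m →
    (∀ q : ℕ, q.Prime → q % 3 = 2 → Even (padicValNat q m)) →
    (∀ q : ℕ, q.Prime → q ∣ m → q % 3 = 1 → IsNormF166 (q : ℚ)) → IsNormF166 (m : ℚ) := by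
  induction m using Nat.strong_induction_on with
  | _ m ih =>
    intro hm hpar hN
    by_cases h1 : m = 1
    · subst h1
      simpa using isNormF_one166
    obtain ⟨p, hp, k, rfl⟩ := Nat.exists_prime_and_dvd h1
    have : Fact p.Prime := ⟨hp⟩
    have hk : 0 < k := Nat.pos_of_mul_pos_left hm |> fun _ => by
      rcases Nat.eq_zero_or_pos k with h | h
      · subst h; simp at hm
      · exact h
    have hp0 : p ≠ 0 := hp.ne_zero
    have hk0 : k ≠ 0 := hk.ne'
    have hklt : k < p * k := by
      have := hp.two_le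
      nlinarith
    by_cases h2 : p % 3 = 2
    · -- `p ≡ 2 mod 3`: `p² ∣ m`
      have hev := hpar p hp h2
      rw [padicValNat.mul hp0 hk0, padicValNat_self] at hev
      have hodd : 1 ≤ padicValNat p k := by
        rcases Nat.eq_zero_or_pos (padicValNat p k) with h | h
        · rw [h] at hev
          exact absurd hev (by decide)
        · exact h
      obtain ⟨k', rfl⟩ := dvd_of_one_le_padicValNat hodd
      have hk' : 0 < k' := by
        rcases Nat.eq_zero_or_pos k' with h | h
        · subst h; simp at hk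
        · exact h
      have hk'0 : k' ≠ 0 := hk'.ne'
      have hk'lt : k' < p * (p * k') := by
        have := hp.two_le
        nlinarith
      have hk'N : IsNormF166 (k' : ℚ) := by
        apply ih k' hk'lt hk'
        · intro q hq hq3
          have : Fact q.Prime := ⟨hq⟩
          have h := hpar q hq hq3
          rw [padicValNat.mul hp0 (Nat.mul_ne_zero hp0 hk'0), padicValNat.mul hp0 hk'0] at h
          have h' : Even (2 * padicValNat q p + padicValNat q k') := by
            have e : 2 * padicValNat q p + padicValNat q k'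
                = padicValNat q p + (padicValNat q p + padicValNat q k') := by ring
            rw [e]
            exact h
          exact (Nat.even_add.mp h').mp (even_two_mul _)
        · intro q hq hqk hq1
          exact hN q hq (Dvd.dvd.mul_left (Dvd.dvd.mul_left hqk p) p) hq1
      have e : ((p * (p * k') : ℕ) : ℚ) = (p : ℚ) ^ 2 * (k' : ℚ) := by
        push_cast
        ring
      rw [e]
      exact isNormF_mul166 (isNormF_sq166 _) hk'N
    · -- `p = 3` or `p ≡ 1 mod 3`: `p` is a norm
      have hpN : IsNormF166 (p : ℚ) := by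
        by_cases h0 : p % 3 = 0
        · have hd : 3 ∣ p := Nat.dvd_of_mod_eq_zero h0
          have : 3 = p := (Nat.prime_dvd_prime_iff_eq Nat.prime_three hp).mp hd
          rw [← this]
          exact_mod_cast isNormF_three166
        · have h1' : p % 3 = 1 := by omega
          exact hN p hp (Dvd.intro k rfl) h1'
      have hkN : IsNormF166 (k : ℚ) := by
        apply ih k hklt hk
        · intro q hq hq3
          have : Fact q.Prime := ⟨hq⟩
          have h := hpar q hq hq3
          have hne : q ≠ p := by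
            intro hqp
            rw [hqp] at hq3
            exact h2 hq3
          rw [padicValNat.mul hp0 hk0, padicValNat_primes hne, zero_add] at h
          exact h
        · intro q hq hqk hq1
          exact hN q hq (Dvd.dvd.mul_left hqk p) hq1
      have e : ((p * k : ℕ) : ℚ) = (p : ℚ) * (k : ℚ) := by push_cast; ring
      rw [e]
      exact isNormF_mul166 hpN hkN

/-! ## 4. Primes `≡ 1 mod 3` -/

/-- Every prime `p ≡ 1 mod 3` is `a² + 3 b²` with `a, b` rational (descent). -/
theorem prime_isNormF166 (p : ℕ) : p.Prime → p % 3 = 1 → IsNormF166 (p : ℚ) := by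
  induction p using Nat.strong_induction_on with
  | _ p ih =>
    intro hp h3
    have : Fact p.Prime := ⟨hp⟩
    obtain ⟨x, hxp, m, hm⟩ := exists_sq_add_three166 p h3
    have hp2 := hp.two_le
    have hmpos : 0 < m := by
      rcases Nat.eq_zero_or_pos m with h | h
      · subst h
        simp at hm
      · exact h
    have hmlt : m < p := by
      by_contra hcon
      push Not at hcon
      have h1 : p * p ≤ p * m := Nat.mul_le_mul_left p hcon
      have h2 : x + 1 ≤ p := hxp
      have h4 : 4 ≤ p := by omega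
      have h5 : (x + 1) * (x + 1) ≤ p * p := Nat.mul_le_mul h2 h2
      have h6 : p * p ≤ x ^ 2 + 3 := by rw [hm]; exact h1
      have h7 : 16 ≤ p * p := Nat.mul_le_mul h4 h4
      have hx1 : x ≤ 1 := by nlinarith
      have hx2 : x ^ 2 ≤ 1 := by
        interval_cases x <;> norm_num
      omega
    have hp0 : p ≠ 0 := hp.ne_zero
    have hm0 : m ≠ 0 := hmpos.ne'
    have hmN : IsNormF166 (m : ℚ) := by
      apply natCast_isNormF166 m hmpos
      · intro q hq hq3
        have : Fact q.Prime := ⟨hq⟩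
        have h := even_padicValNat_sq_add_three166 x q hq hq3
        have hne : q ≠ p := by
          intro hqp
          rw [hqp] at hq3
          omega
        rw [hm, padicValNat.mul hp0 hm0, padicValNat_primes hne, zero_add] at h
        exact h
      · intro q hq hqm hq1
        exact ih q (lt_of_le_of_lt (Nat.le_of_dvd hmpos hqm) hmlt) hq hq1
    have hmq : (m : ℚ) ≠ 0 := by exact_mod_cast hm0
    have e : (p : ℚ) = ((x : ℚ) ^ 2 + 3 * 1 ^ 2) / (m : ℚ) := by
      rw [eq_div_iff hmq]
      have h : ((x ^ 2 + 3 : ℕ) : ℚ) = ((p * m : ℕ) : ℚ) := by rw [hm]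
      push_cast at h
      linear_combination (-1 : ℚ) * h
    rw [e]
    exact isNormF_div166 ⟨x, 1, rfl⟩ hmN

/-! ## 5. The leaf -/

/-- **T6.00q.3 `NormFC438`.** -/
theorem normFC166 : NormFC438 := by
  intro n hn
  obtain ⟨hpos, hpar⟩ := hn
  have hnum : 0 < n.num := Rat.num_pos.mpr hpos
  have hden : 0 < n.den := n.den_pos
  set N : ℕ := n.num.natAbs with hNdef
  have hN0 : N ≠ 0 := by
    rw [hNdef]
    exact Int.natAbs_ne_zero.mpr hnum.ne'
  have hD0 : n.den ≠ 0 := hden.ne'
  have hNcast : (N : ℤ) = n.num := by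
    rw [hNdef]
    exact Int.natAbs_of_nonneg hnum.le
  have hprod : IsNormF166 ((N * n.den : ℕ) : ℚ) := by
    apply natCast_isNormF166 (N * n.den) (Nat.mul_pos (Nat.pos_of_ne_zero hN0) hden)
    · intro q hq hq3
      have : Fact q.Prime := ⟨hq⟩
      have h := hpar q hq hq3
      have e : padicValRat q n = (padicValNat q N : ℤ) - (padicValNat q n.den : ℤ) := rfl
      rw [e] at h
      rw [padicValNat.mul hN0 hD0]
      have h' : Even ((padicValNat q N : ℤ) + (padicValNat q n.den : ℤ)) := by
        rw [Int.even_add]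
        rw [Int.even_sub] at h
        exact h
      exact_mod_cast h'
    · intro q hq _ hq1
      exact prime_isNormF166 q hq hq1
  have hDq : (n.den : ℚ) ≠ 0 := by exact_mod_cast hD0
  have e : n = ((N * n.den : ℕ) : ℚ) / (n.den : ℚ) ^ 2 := by
    rw [eq_div_iff (pow_ne_zero 2 hDq)]
    have h1 : n * (n.den : ℚ) = (n.num : ℚ) := Rat.mul_den_eq_num n
    have h2 : ((N : ℤ) : ℚ) = (n.num : ℚ) := by rw [hNcast]
    push_cast
    have h3 : ((N : ℕ) : ℚ) = (n.num : ℚ) := by exact_mod_cast h2
    rw [h3]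
    linear_combination (n.den : ℚ) * h1
  have hfin : IsNormF166 n := by
    rw [e]
    exact isNormF_div166 hprod (isNormF_sq166 _)
  exact hfin

end Fermat.Agent.LT.T6.H166

end
-- ===== PACK-END LT/T6/H166/NormF.lean

-- ===== PACK-BEGIN LT/T6/H781/EllTools.lean
section



/-!
# Row LT, tower T6, leaf T6.28 (helper781): tools

OFF-MAIN.  Mathlib only.  One-dimensional substitutions (all by
`integral_image_eq_integral_abs_deriv_smul`, no integrability hypothesis), the polar coordinates
in iterated form, integrability of continuous compactly supported functions on restricted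
products, and the extension of a profile to a continuous function on `ℝ`.
-/

set_option autoImplicit false

open MeasureTheory Set

noncomputable section

namespace Fermat.Agent.LT.T6.H781

/-! ## Substitutions -/

theorem image_sinh_Ioi781 {a b : ℝ} (ha : 0 < a) (hb : 0 < b) :
    (fun τ : ℝ => a * Real.sinh (b * τ)) '' Ioi 0 = Ioi 0 := by
  ext y
  constructor
  · rintro ⟨τ, hτ, rfl⟩
    have h1 : 0 < Real.sinh (b * τ) := Real.sinh_pos_iff.2 (mul_pos hb hτ)
    exact mul_pos ha h1
  · intro hy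
    have hy' : (0 : ℝ) < y := hy
    refine ⟨Real.arsinh (y / a) / b, ?_, ?_⟩
    · have h1 : 0 < Real.arsinh (y / a) := Real.arsinh_pos_iff.2 (div_pos hy' ha)
      exact div_pos h1 hb
    · simp only
      rw [mul_div_cancel₀ _ hb.ne', Real.sinh_arsinh, mul_div_cancel₀ _ ha.ne']

/-- The substitution `r = a sinh (b τ)` on `(0, ∞)`. -/
theorem integral_subst_sinh781 {a b : ℝ} (ha : 0 < a) (hb : 0 < b) (g : ℝ → ℂ) :
    ∫ r in Ioi (0 : ℝ), g r =
      ∫ τ in Ioi (0 : ℝ), ((a * b * Real.cosh (b * τ) : ℝ) : ℂ) * g (a * Real.sinh (b * τ)) := by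
  have hd : ∀ x ∈ Ioi (0 : ℝ), HasDerivWithinAt (fun τ : ℝ => a * Real.sinh (b * τ))
      (a * (Real.cosh (b * x) * b)) (Ioi 0) x := by
    intro x _
    have h1 : HasDerivAt (fun τ : ℝ => b * τ) b x := by
      simpa using (hasDerivAt_id x).const_mul b
    exact (((Real.hasDerivAt_sinh (b * x)).comp x h1).const_mul a).hasDerivWithinAt
  have hinj : InjOn (fun τ : ℝ => a * Real.sinh (b * τ)) (Ioi 0) := by
    intro x _ y _ h
    have h1 : Real.sinh (b * x) = Real.sinh (b * y) := mul_left_cancel₀ ha.ne' h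
    exact mul_left_cancel₀ hb.ne' (Real.sinh_injective h1)
  have h := integral_image_eq_integral_abs_deriv_smul measurableSet_Ioi hd hinj g
  rw [image_sinh_Ioi781 ha hb] at h
  rw [h]
  refine setIntegral_congr_fun measurableSet_Ioi fun τ _ => ?_
  have hpos : 0 < a * (Real.cosh (b * τ) * b) :=
    mul_pos ha (mul_pos (Real.cosh_pos _) hb)
  simp only [abs_of_pos hpos, Complex.real_smul]
  congr 2
  ring

/-- The substitution `S = sinh β` on `ℝ`. -/
theorem integral_subst_sinh_univ781 (g : ℝ → ℂ) :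
    ∫ S : ℝ, g S = ∫ β : ℝ, ((Real.cosh β : ℝ) : ℂ) * g (Real.sinh β) := by
  have hd : ∀ x ∈ (univ : Set ℝ), HasDerivWithinAt Real.sinh (Real.cosh x) univ x :=
    fun x _ => (Real.hasDerivAt_sinh x).hasDerivWithinAt
  have hinj : InjOn Real.sinh (univ : Set ℝ) := Real.sinh_injective.injOn
  have h := integral_image_eq_integral_abs_deriv_smul MeasurableSet.univ hd hinj g
  rw [image_univ, Real.sinh_surjective.range_eq, setIntegral_univ, setIntegral_univ] at h
  rw [h]
  refine integral_congr_ae (Filter.Eventually.of_forall fun β => ?_)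
  simp only [abs_of_pos (Real.cosh_pos β), Complex.real_smul]

theorem image_affine_sq_Ioi781 (c : ℝ) :
    (fun r : ℝ => c + 2 * r ^ 2) '' Ioi 0 = Ioi c := by
  ext y
  constructor
  · rintro ⟨r, hr, rfl⟩
    have hr' : (0 : ℝ) < r := hr
    have : 0 < 2 * r ^ 2 := by positivity
    simpa using this
  · intro hy
    have hy' : c < y := hy
    have h1 : 0 < (y - c) / 2 := by linarith
    refine ⟨Real.sqrt ((y - c) / 2), Real.sqrt_pos.2 h1, ?_⟩
    simp only
    rw [Real.sq_sqrt h1.le]
    ring

/-- The substitution `t = c + 2 r²` on `(0, ∞)`. -/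
theorem integral_subst_sq781 (c : ℝ) (g : ℝ → ℂ) :
    ∫ t in Ioi c, g t = ∫ r in Ioi (0 : ℝ), ((4 * r : ℝ) : ℂ) * g (c + 2 * r ^ 2) := by
  have hd : ∀ x ∈ Ioi (0 : ℝ), HasDerivWithinAt (fun r : ℝ => c + 2 * r ^ 2)
      (4 * x) (Ioi 0) x := by
    intro x _
    have h1 : HasDerivAt (fun r : ℝ => r ^ 2) (2 * x) x := by
      simpa using hasDerivAt_pow 2 x
    have h2 := (h1.const_mul 2).const_add c
    have h3 : 2 * (2 * x) = 4 * x := by ring
    rw [h3] at h2
    exact h2.hasDerivWithinAt
  have hinj : InjOn (fun r : ℝ => c + 2 * r ^ 2) (Ioi 0) := by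
    intro x hx y hy h
    have hx' : (0 : ℝ) < x := hx
    have hy' : (0 : ℝ) < y := hy
    have h1 : x ^ 2 = y ^ 2 := by
      have : c + 2 * x ^ 2 = c + 2 * y ^ 2 := h
      linarith
    nlinarith [sq_nonneg (x - y), sq_nonneg (x + y)]
  have h := integral_image_eq_integral_abs_deriv_smul measurableSet_Ioi hd hinj g
  rw [image_affine_sq_Ioi781 c] at h
  rw [h]
  refine setIntegral_congr_fun measurableSet_Ioi fun r hr => ?_
  have hr' : (0 : ℝ) < r := hr
  have hpos : 0 < 4 * r := by linarith
  simp only [abs_of_pos hpos, Complex.real_smul]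

/-- The angular integral: `∫_{-π/2}^{π/2} dψ / (m² + r² cos²ψ) = π / (m √(m² + r²))`. -/
theorem integral_angular781 {m : ℝ} (hm : 0 < m) (r : ℝ) :
    ∫ ψ in Ioo (-(Real.pi / 2)) (Real.pi / 2), (m ^ 2 + r ^ 2 * Real.cos ψ ^ 2)⁻¹
      = Real.pi / (m * Real.sqrt (m ^ 2 + r ^ 2)) := by
  set n : ℝ := Real.sqrt (m ^ 2 + r ^ 2) with hn
  have hn2 : n ^ 2 = m ^ 2 + r ^ 2 := Real.sq_sqrt (by positivity)
  have hnpos : 0 < n := Real.sqrt_pos.2 (by positivity)
  have hd : ∀ x ∈ Ioo (-(Real.pi / 2)) (Real.pi / 2),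
      HasDerivWithinAt (fun ψ : ℝ => m / n * Real.tan ψ)
        (m / n * (1 / Real.cos x ^ 2)) (Ioo (-(Real.pi / 2)) (Real.pi / 2)) x := by
    intro x hx
    have hc : Real.cos x ≠ 0 := (Real.cos_pos_of_mem_Ioo hx).ne'
    exact ((Real.hasDerivAt_tan hc).const_mul (m / n)).hasDerivWithinAt
  have hinj : InjOn (fun ψ : ℝ => m / n * Real.tan ψ) (Ioo (-(Real.pi / 2)) (Real.pi / 2)) := by
    intro x hx y hy h
    have h1 : Real.tan x = Real.tan y := mul_left_cancel₀ (div_pos hm hnpos).ne' h
    exact Real.injOn_tan hx hy h1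
  have himg : (fun ψ : ℝ => m / n * Real.tan ψ) '' Ioo (-(Real.pi / 2)) (Real.pi / 2) = univ := by
    have h1 : (fun ψ : ℝ => m / n * Real.tan ψ) = (fun y : ℝ => m / n * y) ∘ Real.tan := rfl
    rw [h1, image_comp, Real.image_tan_Ioo, image_univ]
    exact (mul_left_surjective₀ (div_pos hm hnpos).ne').range_eq
  have h := integral_image_eq_integral_abs_deriv_smul measurableSet_Ioo hd hinj
    (fun x : ℝ => (1 + x ^ 2)⁻¹)
  rw [himg, setIntegral_univ, integral_univ_inv_one_add_sq] at h
  have hcongr : ∫ ψ in Ioo (-(Real.pi / 2)) (Real.pi / 2),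
      |m / n * (1 / Real.cos ψ ^ 2)| • (1 + (m / n * Real.tan ψ) ^ 2)⁻¹
      = ∫ ψ in Ioo (-(Real.pi / 2)) (Real.pi / 2),
        (m * n) * (m ^ 2 + r ^ 2 * Real.cos ψ ^ 2)⁻¹ := by
    refine setIntegral_congr_fun measurableSet_Ioo fun ψ hψ => ?_
    have hc : 0 < Real.cos ψ := Real.cos_pos_of_mem_Ioo hψ
    have hpos : 0 < m / n * (1 / Real.cos ψ ^ 2) := by positivity
    have hs : Real.sin ψ ^ 2 = 1 - Real.cos ψ ^ 2 := by
      have := Real.sin_sq_add_cos_sq ψ
      linarith
    have hD : 0 < m ^ 2 + r ^ 2 * Real.cos ψ ^ 2 := by positivity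
    simp only [abs_of_pos hpos, smul_eq_mul, Real.tan_eq_sin_div_cos]
    have key : 1 + (m / n * (Real.sin ψ / Real.cos ψ)) ^ 2
        = (m ^ 2 + r ^ 2 * Real.cos ψ ^ 2) / (n ^ 2 * Real.cos ψ ^ 2) := by
      field_simp
      rw [hs, hn2]
      ring
    rw [key]
    field_simp
  rw [hcongr, integral_const_mul] at h
  have hmn : m * n ≠ 0 := (mul_pos hm hnpos).ne'
  rw [eq_div_iff hmn, mul_comm]
  exact h.symm

end Fermat.Agent.LT.T6.H781

end

end
-- ===== PACK-END LT/T6/H781/EllTools.lean

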