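import Mathlib
import Fermat.Agent.Pack.LT2.E0L1
import Fermat.Agent.Pack.LT3.E1L3
import Fermat.Agent.Pack.LT3.E0L0
import Fermat.Agent.Pack.LT3.E2L1
import Fermat.Agent.Pack.LT3.E3L3

set_option linter.all false

-- ===== PACK-BEGIN LT/T6/H420/Conj2.lean
section



/-!
# Row LT, tower T6, leaf T6.08 (helper420): regular `2 × 2` matrices with the same
characteristic polynomial are conjugate; conjugation formula for the twisted norm

Mathlib + T6 Spec only.
-/

set_option autoImplicit false

noncomputable section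

namespace Fermat.Agent.LT.T6.H420

open Matrix

section Conj

variable {K : Type} [Field K]

/-- The companion matrix of `X² - t X + d`. -/
def comp2 (t d : K) : Matrix (Fin 2) (Fin 2) K := !![0, -d; 1, t]

/-- A `2 × 2` matrix with nonzero discriminant is conjugate to the companion matrix of its
characteristic polynomial. -/
theorem exists_conj_comp2 (A : Matrix (Fin 2) (Fin 2) K)
    (hA : A.trace ^ 2 - 4 * A.det ≠ 0) :
    ∃ P : GL (Fin 2) K, A * (P : Matrix (Fin 2) (Fin 2) K)
      = (P : Matrix (Fin 2) (Fin 2) K) * comp2 A.trace A.det := by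
  have hAeta : A = !![A 0 0, A 0 1; A 1 0, A 1 1] := Matrix.eta_fin_two A
  have htr : A.trace = A 0 0 + A 1 1 := Matrix.trace_fin_two A
  have hdet : A.det = A 0 0 * A 1 1 - A 0 1 * A 1 0 := Matrix.det_fin_two A
  by_cases hc : A 1 0 = 0
  · by_cases hb : A 0 1 = 0
    · have had : A 1 1 - A 0 0 ≠ 0 := by
        intro h
        apply hA
        have h' : A 1 1 = A 0 0 := sub_eq_zero.1 h
        rw [htr, hdet, hb, hc, h']
        ring
      have hP : (!![1, A 0 0; 1, A 1 1] : Matrix (Fin 2) (Fin 2) K).det ≠ 0 := by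
        rw [Matrix.det_fin_two_of]
        simpa using had
      refine ⟨Matrix.GeneralLinearGroup.mkOfDetNeZero _ hP, ?_⟩
      show A * !![1, A 0 0; 1, A 1 1] = !![1, A 0 0; 1, A 1 1] * comp2 A.trace A.det
      rw [htr, hdet, comp2]
      conv_lhs => rw [hAeta]
      rw [Matrix.mul_fin_two, Matrix.mul_fin_two, hb, hc]
      congr 1
      ext i j
      fin_cases i <;> fin_cases j <;> simp <;> ring
    · have hP : (!![0, A 0 1; 1, A 1 1] : Matrix (Fin 2) (Fin 2) K).det ≠ 0 := by
        rw [Matrix.det_fin_two_of]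
        simpa using hb
      refine ⟨Matrix.GeneralLinearGroup.mkOfDetNeZero _ hP, ?_⟩
      show A * !![0, A 0 1; 1, A 1 1] = !![0, A 0 1; 1, A 1 1] * comp2 A.trace A.det
      rw [htr, hdet, comp2]
      conv_lhs => rw [hAeta]
      rw [Matrix.mul_fin_two, Matrix.mul_fin_two]
      ext i j
      fin_cases i <;> fin_cases j <;> simp <;> ring
  · have hP : (!![1, A 0 0; 0, A 1 0] : Matrix (Fin 2) (Fin 2) K).det ≠ 0 := by
      rw [Matrix.det_fin_two_of]
      simpa using hc
    refine ⟨Matrix.GeneralLinearGroup.mkOfDetNeZero _ hP, ?_⟩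
    show A * !![1, A 0 0; 0, A 1 0] = !![1, A 0 0; 0, A 1 0] * comp2 A.trace A.det
    rw [htr, hdet, comp2]
    conv_lhs => rw [hAeta]
    rw [Matrix.mul_fin_two, Matrix.mul_fin_two]
    ext i j
    fin_cases i <;> fin_cases j <;> simp <;> ring

/-- Two elements of `GL₂(K)` with the same trace and determinant, of nonzero discriminant, are
conjugate in `GL₂(K)`. -/
theorem isConj_of_trace_det_eq (A B : GL (Fin 2) K)
    (htr : (A : Matrix (Fin 2) (Fin 2) K).trace = (B : Matrix (Fin 2) (Fin 2) K).trace)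
    (hdet : (A : Matrix (Fin 2) (Fin 2) K).det = (B : Matrix (Fin 2) (Fin 2) K).det)
    (hA : IsReg A) : IsConj A B := by
  have hA0 : (A : Matrix (Fin 2) (Fin 2) K).trace ^ 2
      - 4 * (A : Matrix (Fin 2) (Fin 2) K).det ≠ 0 := hA.ne_zero
  have hB0 : (B : Matrix (Fin 2) (Fin 2) K).trace ^ 2
      - 4 * (B : Matrix (Fin 2) (Fin 2) K).det ≠ 0 := by
    rw [← htr, ← hdet]
    exact hA0
  obtain ⟨P, hP⟩ := exists_conj_comp2 _ hA0
  obtain ⟨Q, hQ⟩ := exists_conj_comp2 _ hB0
  rw [← htr, ← hdet] at hQ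
  rw [isConj_iff]
  refine ⟨Q * P⁻¹, ?_⟩
  -- `A P = P C`, `B Q = Q C`
  have h1 : (P⁻¹ : GL (Fin 2) K) * A * P = Q⁻¹ * B * Q := by
    apply Units.ext
    have hPi : ((P⁻¹ : GL (Fin 2) K) : Matrix (Fin 2) (Fin 2) K) * (P : Matrix (Fin 2) (Fin 2) K)
        = 1 := by
      rw [← Units.val_mul, inv_mul_cancel, Units.val_one]
    have hQi : ((Q⁻¹ : GL (Fin 2) K) : Matrix (Fin 2) (Fin 2) K) * (Q : Matrix (Fin 2) (Fin 2) K)
        = 1 := by
      rw [← Units.val_mul, inv_mul_cancel, Units.val_one]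
    rw [Units.val_mul, Units.val_mul, Units.val_mul, Units.val_mul, mul_assoc, hP, mul_assoc,
      hQ, ← mul_assoc, ← mul_assoc, hPi, hQi]
  calc Q * P⁻¹ * A * (Q * P⁻¹)⁻¹ = Q * (P⁻¹ * A * P) * Q⁻¹ := by group
    _ = Q * (Q⁻¹ * B * Q) * Q⁻¹ := by rw [h1]
    _ = B := by group

end Conj

section TwNorm

variable {Γ : Type} [Group Γ]

/-- The twisted norm of a twisted conjugate. -/
theorem twN_twConj (s : Γ →* Γ) (n : ℕ) (δ x : Γ) :
    twN s n (x⁻¹ * δ * s x) = x⁻¹ * twN s n δ * (s^[n]) x := by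
  induction n with
  | zero => simp [twN]
  | succ n ih =>
    rw [twN, ih, twN, Function.iterate_succ_apply', map_mul, map_mul, map_inv]
    group

end TwNorm

section GlAutIter

variable {R : Type} [CommRing R]

theorem glAut_iterate_apply (s : R ≃+* R) (n : ℕ) (x : GL (Fin 2) R) (i j : Fin 2) :
    (((glAut s)^[n] x : GL (Fin 2) R) : Matrix (Fin 2) (Fin 2) R) i j
      = (s ^ n) ((x : Matrix (Fin 2) (Fin 2) R) i j) := by
  induction n with
  | zero => simp
  | succ n ih =>
    rw [Function.iterate_succ_apply', pow_succ', RingAut.mul_apply, ← ih]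
    rfl

theorem glAut_iterate_eq_self (s : R ≃+* R) (l : ℕ) (hl : ∀ y : R, (s ^ l) y = y)
    (x : GL (Fin 2) R) : (glAut s)^[l] x = x := by
  apply Units.ext
  ext i j
  rw [glAut_iterate_apply, hl]

/-- The twisted norm of a twisted conjugate is a conjugate of the twisted norm. -/
theorem twNorm_twConj (s : R ≃+* R) (l : ℕ) (hl : ∀ y : R, (s ^ l) y = y)
    (δ x : GL (Fin 2) R) :
    twNorm s l (x⁻¹ * δ * glAut s x) = x⁻¹ * twNorm s l δ * x := by
  unfold twNorm
  rw [twN_twConj, glAut_iterate_eq_self s l hl]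

theorem trace_conj_GL (g x : GL (Fin 2) R) :
    ((x⁻¹ * g * x : GL (Fin 2) R) : Matrix (Fin 2) (Fin 2) R).trace
      = (g : Matrix (Fin 2) (Fin 2) R).trace := by
  rw [Units.val_mul, Units.val_mul, Matrix.trace_mul_comm, ← mul_assoc, ← Units.val_mul,
    mul_inv_cancel, Units.val_one, one_mul]

theorem det_conj_GL (g x : GL (Fin 2) R) :
    ((x⁻¹ * g * x : GL (Fin 2) R) : Matrix (Fin 2) (Fin 2) R).det
      = (g : Matrix (Fin 2) (Fin 2) R).det := by
  rw [Units.val_mul, Units.val_mul, Matrix.det_mul, Matrix.det_mul, mul_comm, ← mul_assoc,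
    ← Matrix.det_mul, ← Units.val_mul, mul_inv_cancel, Units.val_one, Matrix.det_one, one_mul]

end GlAutIter

end Fermat.Agent.LT.T6.H420

end
end
-- ===== PACK-END LT/T6/H420/Conj2.lean

-- ===== PACK-BEGIN LT/T6/H863/Tw.lean
section



/-!
# Row LT, tower T6, leaf T6.16 (`SplitMatchC`) -- helper863, OFF-MAIN

Part 2: the twisted norm on `G^l` with the cyclic shift.

* `twN_conj_863`  : `N_n (x⁻¹ δ s(x)) = x⁻¹ (N_n δ) sⁿ(x)`;
* `twN_succ_right_863` : `N_{n+1} δ = N_n δ · sⁿ(δ)`;
* `pq863 y j = y_0 y_1 ⋯ y_{j-1}` (partial products), `nm863 y = y_0 ⋯ y_{l-1}` (the norm);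
* `tw_unique_863` : `y' = x⁻¹ y s(x)` determines `x` from `x 0`;
* `tw_exists_863` : `N y' = g⁻¹ (N y) g` gives `x` with `x 0 = g`, `y' = x⁻¹ y s(x)`.

Mathlib + `T6/Spec.lean` (frozen) only; every proof is complete.
-/

set_option autoImplicit false

noncomputable section

namespace Fermat.Agent.LT.T6.H863

open Fermat.Agent.LT.T6

section General

variable {Γ : Type} [Group Γ]

theorem twN_zero_863 (s : Γ →* Γ) (δ : Γ) : twN s 0 δ = 1 := rfl

theorem twN_succ_863 (s : Γ →* Γ) (n : ℕ) (δ : Γ) : twN s (n + 1) δ = δ * s (twN s n δ) := rfl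

theorem twN_one_863 (s : Γ →* Γ) (δ : Γ) : twN s 1 δ = δ := by
  rw [twN_succ_863, twN_zero_863, map_one, mul_one]

/-- `N_n (x⁻¹ δ s(x)) = x⁻¹ (N_n δ) sⁿ(x)`. -/
theorem twN_conj_863 (s : Γ →* Γ) (n : ℕ) (x δ : Γ) :
    twN s n (x⁻¹ * δ * s x) = x⁻¹ * twN s n δ * (s^[n]) x := by
  induction n with
  | zero => simp [twN_zero_863]
  | succ n ih =>
    rw [twN_succ_863, ih, twN_succ_863, Function.iterate_succ_apply']
    simp only [map_mul, map_inv]
    group

/-- `N_{n+1} δ = N_n δ · sⁿ(δ)`. -/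
theorem twN_succ_right_863 (s : Γ →* Γ) (n : ℕ) (δ : Γ) :
    twN s (n + 1) δ = twN s n δ * (s^[n]) δ := by
  induction n with
  | zero => simp [twN_succ_863, twN_zero_863]
  | succ n ih =>
    have h1 : twN s (n + 1 + 1) δ = δ * s (twN s (n + 1) δ) := rfl
    have h2 : twN s (n + 1) δ = δ * s (twN s n δ) := rfl
    rw [h1, ih, map_mul, ← mul_assoc, ← h2, Function.iterate_succ_apply', ih]

end General

section Shift

variable {G : Type} [Group G]

/-- The cyclic shift of `G^l`: `(s x)_j = x_{j+1}`. -/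
def shift863 (l : ℕ) [NeZero l] : (Fin l → G) →* (Fin l → G) where
  toFun x := fun j => x (j + 1)
  map_one' := rfl
  map_mul' _ _ := rfl

theorem shift863_apply (l : ℕ) [NeZero l] (x : Fin l → G) (j : Fin l) :
    shift863 l x j = x (j + 1) := rfl

theorem shift863_iterate (l : ℕ) [NeZero l] (n : ℕ) (x : Fin l → G) (j : Fin l) :
    ((shift863 l)^[n]) x j = x (j + Fin.ofNat l n) := by
  induction n generalizing j with
  | zero =>
    have : Fin.ofNat l 0 = 0 := rfl
    simp
  | succ n ih =>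
    rw [Function.iterate_succ_apply', shift863_apply, ih]
    congr 1
    rw [add_assoc]
    congr 1
    apply Fin.ext
    rw [Fin.val_add]
    simp [Fin.ofNat, Nat.add_comm]

theorem shift863_iterate_self (l : ℕ) [NeZero l] (x : Fin l → G) :
    ((shift863 l)^[l]) x = x := by
  funext j
  rw [shift863_iterate]
  congr 1
  have : Fin.ofNat l l = 0 := by
    apply Fin.ext
    simp [Fin.ofNat]
  rw [this, add_zero]

/-- The partial product `y_0 y_1 ⋯ y_{j-1}`. -/
def pq863 {l : ℕ} [NeZero l] (y : Fin l → G) (j : ℕ) : G := twN (shift863 l) j y 0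

/-- The norm `y_0 y_1 ⋯ y_{l-1}`. -/
def nm863 {l : ℕ} [NeZero l] (y : Fin l → G) : G := pq863 y l

theorem pq863_zero {l : ℕ} [NeZero l] (y : Fin l → G) : pq863 y 0 = 1 := rfl

theorem pq863_succ {l : ℕ} [NeZero l] (y : Fin l → G) (j : ℕ) :
    pq863 y (j + 1) = pq863 y j * y (Fin.ofNat l j) := by
  unfold pq863
  rw [twN_succ_right_863, Pi.mul_apply, shift863_iterate, zero_add]

/-- `q_j (x⁻¹ y s(x)) = x_0⁻¹ q_j(y) x_j`. -/
theorem pq863_conj {l : ℕ} [NeZero l] (x y : Fin l → G) (j : ℕ) :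
    pq863 (x⁻¹ * y * shift863 l x) j = (x 0)⁻¹ * pq863 y j * x (Fin.ofNat l j) := by
  unfold pq863
  rw [twN_conj_863, Pi.mul_apply, Pi.mul_apply, Pi.inv_apply, shift863_iterate, zero_add]

/-- `N (x⁻¹ y s(x)) = x_0⁻¹ N(y) x_0`. -/
theorem nm863_conj {l : ℕ} [NeZero l] (x y : Fin l → G) :
    nm863 (x⁻¹ * y * shift863 l x) = (x 0)⁻¹ * nm863 y * x 0 := by
  unfold nm863
  rw [pq863_conj]
  congr 2
  apply Fin.ext
  simp [Fin.ofNat]

/-- A twisted conjugator is determined by its component at `0`. -/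
theorem tw_unique_863 {l : ℕ} [NeZero l] (x y y' : Fin l → G)
    (h : y' = x⁻¹ * y * shift863 l x) (j : ℕ) :
    x (Fin.ofNat l j) = (pq863 y j)⁻¹ * x 0 * pq863 y' j := by
  rw [h, pq863_conj]
  group

theorem tw_unique_fin_863 {l : ℕ} [NeZero l] (x y y' : Fin l → G)
    (h : y' = x⁻¹ * y * shift863 l x) (j : Fin l) :
    x j = (pq863 y (j : ℕ))⁻¹ * x 0 * pq863 y' (j : ℕ) := by
  have := tw_unique_863 x y y' h (j : ℕ)
  have hj : Fin.ofNat l (j : ℕ) = j := by
    apply Fin.ext
    simp [Fin.ofNat, Nat.mod_eq_of_lt j.2]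
  rw [hj] at this
  exact this

omit [Group G] in
/-- For a sequence `X` with `X l = X 0`: `X ((j + 1 : Fin l) : ℕ) = X (j + 1)`. -/
theorem wrap863 {l : ℕ} [NeZero l] (X : ℕ → G) (hX : X l = X 0) (j : Fin l) :
    X ((j + 1 : Fin l) : ℕ) = X ((j : ℕ) + 1) := by
  have hl : 0 < l := Nat.pos_of_ne_zero (NeZero.ne l)
  have hj : (j : ℕ) < l := j.2
  have hval : ((j + 1 : Fin l) : ℕ) = ((j : ℕ) + 1) % l := by
    rw [Fin.val_add]
    by_cases h1 : l = 1
    · subst h1
      simp
    · have : ((1 : Fin l) : ℕ) = 1 := by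
        rw [Fin.val_one']
        exact Nat.mod_eq_of_lt (by omega)
      rw [this]
  rw [hval]
  by_cases hlt : (j : ℕ) + 1 < l
  · rw [Nat.mod_eq_of_lt hlt]
  · have : (j : ℕ) + 1 = l := by omega
    rw [this, Nat.mod_self, hX]

/-- **Existence of the twisted conjugator.** -/
theorem tw_exists_863 {l : ℕ} [NeZero l] (y y' : Fin l → G) (g : G)
    (h : nm863 y' = g⁻¹ * nm863 y * g) :
    ∃ x : Fin l → G, x 0 = g ∧ y' = x⁻¹ * y * shift863 l x := by
  set X : ℕ → G := fun i => (pq863 y i)⁻¹ * g * pq863 y' i with hXdef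
  have hX0 : X 0 = g := by simp [hXdef, pq863_zero]
  have hXl : X l = X 0 := by
    rw [hX0]
    show (nm863 y)⁻¹ * g * nm863 y' = g
    rw [h]
    group
  refine ⟨fun j => X (j : ℕ), ?_, ?_⟩
  · show X ((0 : Fin l) : ℕ) = g
    have h0 : ((0 : Fin l) : ℕ) = 0 := by simp
    rw [h0, hX0]
  · funext j
    rw [Pi.mul_apply, Pi.mul_apply, Pi.inv_apply, shift863_apply]
    show y' j = (X (j : ℕ))⁻¹ * y j * X ((j + 1 : Fin l) : ℕ)
    rw [wrap863 X hXl j]
    have hj : Fin.ofNat l (j : ℕ) = j := by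
      apply Fin.ext
      simp [Fin.ofNat, Nat.mod_eq_of_lt j.2]
    have e1 : pq863 y ((j : ℕ) + 1) = pq863 y (j : ℕ) * y j := by
      rw [pq863_succ, hj]
    have e2 : pq863 y' ((j : ℕ) + 1) = pq863 y' (j : ℕ) * y' j := by
      rw [pq863_succ, hj]
    simp only [hXdef, e1, e2]
    group

end Shift

end Fermat.Agent.LT.T6.H863

end

end
-- ===== PACK-END LT/T6/H863/Tw.lean

-- ===== PACK-BEGIN LT/T6/H98/ResidueAbs.lean
section



/-!
# Row LT, tower T6, sub-leaf T6.15c4 (helper98): residue fields and the lifting of a root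

* `exists_simple_root_finite98`: a quadratic polynomial without a root over a finite field `κ`
  has a simple root in every field with `(#κ)²` elements receiving `κ`.
* `card_residue98`, `exists_resMap98`: the residue field of a valued field given by a finite
  system of representatives; the map of residue fields of a valuation preserving embedding.
* `exists_approx_root98`: an approximate simple root in `k'`.
* `exists_root_of_approx98`: Hensel (by `exists_root_quadratic98`).
Mathlib only.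
-/

set_option autoImplicit false
set_option linter.style.haveILetI false

noncomputable section

namespace Fermat.Agent.LT.T6.H98

open Polynomial

/-- Finite fields: a quadratic polynomial over `κ` without a root in `κ` has a simple root in
every field `κ'` with `(#κ)²` elements which receives `κ`. -/
theorem exists_simple_root_finite98 {κ κ' : Type} [Field κ] [Field κ'] [Finite κ] [Finite κ']
    (φ : κ →+* κ') (hcard : Nat.card κ' = Nat.card κ ^ 2) (t d : κ)
    (hno : ∀ x : κ, x ^ 2 - t * x + d ≠ 0) :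
    ∃ y : κ', y ^ 2 - φ t * y + φ d = 0 ∧ 2 * y - φ t ≠ 0 := by
  classical
  letI : Fintype κ := Fintype.ofFinite κ
  letI : Fintype κ' := Fintype.ofFinite κ'
  set p : κ[X] := X ^ 2 - C t * X + C d with hp
  have hdeg : p.natDegree = 2 := by
    rw [hp]
    compute_degree!
  have hmonic : p.Monic := by
    rw [hp]
    monicity!
  have hroots : p.roots = 0 := by
    rw [Multiset.eq_zero_iff_forall_notMem]
    intro x hx
    rw [mem_roots hmonic.ne_zero, IsRoot.def] at hx
    apply hno x
    simpa [hp] using hx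
  have hirr : Irreducible p :=
    (hmonic.irreducible_iff_roots_eq_zero_of_degree_le_three (by omega) (by omega)).mpr hroots
  have hdvd : p ∣ X ^ (Nat.card κ) ^ 2 - X :=
    (hirr.natDegree_dvd_iff_dvd_X_pow_card_pow_sub_X (n := 2)).mp (by rw [hdeg])
  have hdvd' : p.map φ ∣ X ^ (Fintype.card κ') - X := by
    have h1 := Polynomial.map_dvd φ hdvd
    rw [Fintype.card_eq_nat_card, hcard]
    simpa using h1
  have hne0 : (X ^ (Fintype.card κ') - X : κ'[X]) ≠ 0 :=
    FiniteField.X_pow_card_sub_X_ne_zero _ Fintype.one_lt_card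
  have hsplit : (X ^ (Fintype.card κ') - X : κ'[X]).Splits := by
    rw [splits_iff_card_roots, FiniteField.roots_X_pow_card_sub_X,
      FiniteField.X_pow_card_sub_X_natDegree_eq _ Fintype.one_lt_card]
    simp
  have hsp : (p.map φ).Splits := hsplit.of_dvd hne0 hdvd'
  have hdeg' : (p.map φ).degree ≠ 0 := by
    rw [degree_map, degree_eq_natDegree hmonic.ne_zero, hdeg]
    norm_num
  obtain ⟨y, hy⟩ := hsp.exists_eval_eq_zero hdeg'
  have hsep : p.Separable := PerfectField.separable_of_irreducible hirr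
  have hder := hsep.eval₂_derivative_ne_zero φ (x := y) (by rwa [eval₂_eq_eval_map])
  refine ⟨y, ?_, ?_⟩
  · simpa [hp] using hy
  · intro h0
    apply hder
    rw [hp]
    simp only [derivative_add, derivative_sub, derivative_X_pow, derivative_mul, derivative_C,
      derivative_X, eval₂_add, eval₂_sub, eval₂_mul, eval₂_C, eval₂_X, eval₂_pow]
    simp
    have h2 : φ 2 = 2 := map_ofNat φ 2
    rw [h2]
    linear_combination h0

section Residue

variable {k : Type} [Field k] [Valued k (WithZero (Multiplicative ℤ))]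

/-- The valuation ring of `k`. -/
abbrev vring98 (k : Type) [Field k] [Valued k (WithZero (Multiplicative ℤ))] :
    ValuationSubring k :=
  (Valued.v : Valuation k (WithZero (Multiplicative ℤ))).valuationSubring

/-- The residue field of `k`. -/
abbrev resField98 (k : Type) [Field k] [Valued k (WithZero (Multiplicative ℤ))] : Type :=
  IsLocalRing.ResidueField (vring98 k)

theorem residue_eq_zero_iff98 (x : vring98 k) :
    IsLocalRing.residue (vring98 k) x = 0 ↔ Valued.v (x : k) < 1 := by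
  rw [IsLocalRing.residue_eq_zero_iff]
  exact Valuation.mem_maximalIdeal_iff k (Valued.v : Valuation k (WithZero (Multiplicative ℤ)))

theorem residue_eq_iff98 (x y : vring98 k) :
    IsLocalRing.residue (vring98 k) x = IsLocalRing.residue (vring98 k) y
      ↔ Valued.v ((x : k) - (y : k)) < 1 := by
  rw [← sub_eq_zero, ← map_sub, residue_eq_zero_iff98]
  rfl

/-- A full system of representatives with `q` elements: the residue field has `q` elements. -/
theorem card_residue98 {q : ℕ} (T : Finset k) (hcard : T.card = q)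
    (h1 : ∀ x ∈ T, Valued.v x ≤ 1)
    (h2 : ∀ x ∈ T, ∀ y ∈ T, x ≠ y → Valued.v (x - y) = 1)
    (h3 : ∀ z : k, Valued.v z ≤ 1 → ∃ x ∈ T, Valued.v (z - x) < 1) :
    Finite (resField98 k) ∧ Nat.card (resField98 k) = q := by
  let g : T → resField98 k := fun x => IsLocalRing.residue (vring98 k) ⟨x.1, h1 x.1 x.2⟩
  have hinj : Function.Injective g := by
    intro x y hxy
    by_contra hne
    have hv := h2 x.1 x.2 y.1 y.2 (fun h => hne (Subtype.ext h))
    have hlt : Valued.v (x.1 - y.1) < 1 := (residue_eq_iff98 _ _).mp hxy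
    rw [hv] at hlt
    exact lt_irrefl _ hlt
  have hsurj : Function.Surjective g := by
    intro z
    obtain ⟨w, rfl⟩ := IsLocalRing.residue_surjective z
    obtain ⟨x, hx, hlt⟩ := h3 w.1 w.2
    refine ⟨⟨x, hx⟩, ?_⟩
    rw [residue_eq_iff98]
    show Valued.v (x - (w : k)) < 1
    rw [← Valuation.map_neg, neg_sub]
    exact hlt
  have hfin : Finite (resField98 k) := Finite.of_surjective g hsurj
  refine ⟨hfin, ?_⟩
  rw [← Nat.card_eq_of_bijective g ⟨hinj, hsurj⟩]
  simp [hcard]

end Residue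

section ResMap

variable {k k' : Type} [Field k] [Field k'] [Valued k (WithZero (Multiplicative ℤ))]
  [Valued k' (WithZero (Multiplicative ℤ))]

/-- A valuation preserving embedding induces a homomorphism of the residue fields. -/
theorem exists_resMap98 (i : k →+* k') (hi : ∀ x : k, Valued.v (i x) = Valued.v x) :
    ∃ φ : resField98 k →+* resField98 k', ∀ (x : k) (hx : Valued.v x ≤ 1),
      φ (IsLocalRing.residue (vring98 k) ⟨x, hx⟩)
        = IsLocalRing.residue (vring98 k') ⟨i x, by
            show Valued.v (i x) ≤ 1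
            rw [hi]
            exact hx⟩ := by
  let iO : vring98 k →+* vring98 k' :=
    (i.comp (vring98 k).subtype).codRestrict (vring98 k') (fun x => by
      show Valued.v (i (x : k)) ≤ 1
      rw [hi]
      exact x.2)
  let f : vring98 k →+* resField98 k' := (IsLocalRing.residue (vring98 k')).comp iO
  have hf : ∀ a ∈ IsLocalRing.maximalIdeal (vring98 k), f a = 0 := by
    intro a ha
    have ha' : Valued.v (a : k) < 1 :=
      (Valuation.mem_maximalIdeal_iff k
        (Valued.v : Valuation k (WithZero (Multiplicative ℤ)))).mp ha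
    show IsLocalRing.residue (vring98 k') (iO a) = 0
    rw [residue_eq_zero_iff98]
    show Valued.v (i (a : k)) < 1
    rw [hi]
    exact ha'
  refine ⟨Ideal.Quotient.lift (IsLocalRing.maximalIdeal (vring98 k)) f hf, ?_⟩
  intro x hx
  rfl

/-- **The reduction has a simple root in the residue field of `k'`.**  `k'` receives `k`
with the same valuation, the residue fields have `q` and `q²` elements, and the integral
polynomial `X² - τ X + δ` over `k` has no root modulo the maximal ideal. -/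
theorem exists_approx_root98 (q : ℕ) (i : k →+* k')
    (hi : ∀ x : k, Valued.v (i x) = Valued.v x)
    (T : Finset k) (hT0 : T.card = q) (hT1 : ∀ x ∈ T, Valued.v x ≤ 1)
    (hT2 : ∀ x ∈ T, ∀ y ∈ T, x ≠ y → Valued.v (x - y) = 1)
    (hT3 : ∀ z : k, Valued.v z ≤ 1 → ∃ x ∈ T, Valued.v (z - x) < 1)
    (T' : Finset k') (hT0' : T'.card = q ^ 2) (hT1' : ∀ x ∈ T', Valued.v x ≤ 1)
    (hT2' : ∀ x ∈ T', ∀ y ∈ T', x ≠ y → Valued.v (x - y) = 1)
    (hT3' : ∀ z : k', Valued.v z ≤ 1 → ∃ x ∈ T', Valued.v (z - x) < 1)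
    (τ δ : k) (hτ : Valued.v τ ≤ 1) (hδ : Valued.v δ ≤ 1)
    (hc : ∀ x : k, Valued.v x ≤ 1 → Valued.v (x ^ 2 - τ * x + δ) = 1) :
    ∃ y : k', Valued.v y ≤ 1 ∧ Valued.v (y ^ 2 - i τ * y + i δ) < 1
      ∧ Valued.v (2 * y - i τ) = 1 := by
  obtain ⟨hfin, hcard⟩ := card_residue98 T hT0 hT1 hT2 hT3
  obtain ⟨hfin', hcard'⟩ := card_residue98 T' hT0' hT1' hT2' hT3'
  obtain ⟨φ, hφ⟩ := exists_resMap98 i hi
  have hno : ∀ x : resField98 k,
      x ^ 2 - IsLocalRing.residue (vring98 k) ⟨τ, hτ⟩ * x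
        + IsLocalRing.residue (vring98 k) ⟨δ, hδ⟩ ≠ 0 := by
    intro x
    obtain ⟨w, rfl⟩ := IsLocalRing.residue_surjective x
    rw [← map_pow, ← map_mul, ← map_sub, ← map_add]
    intro h0
    rw [residue_eq_zero_iff98] at h0
    have h1 := hc w.1 w.2
    have h2 : Valued.v ((w : k) ^ 2 - τ * (w : k) + δ) < 1 := h0
    rw [h1] at h2
    exact lt_irrefl _ h2
  obtain ⟨y, hy1, hy2⟩ := exists_simple_root_finite98 φ (by rw [hcard', hcard]) _ _ hno
  obtain ⟨w, rfl⟩ := IsLocalRing.residue_surjective y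
  rw [hφ τ hτ] at hy1 hy2
  rw [hφ δ hδ] at hy1
  refine ⟨w.1, w.2, ?_, ?_⟩
  · rw [← map_pow, ← map_mul, ← map_sub, ← map_add, residue_eq_zero_iff98] at hy1
    exact hy1
  · have h2 : (2 : resField98 k') = IsLocalRing.residue (vring98 k') 2 := (map_ofNat _ 2).symm
    rw [h2, ← map_mul, ← map_sub] at hy2
    have h3 : ¬ Valued.v (2 * (w : k') - i τ) < 1 := by
      intro hlt
      apply hy2
      rw [residue_eq_zero_iff98]
      exact hlt
    have h4 : Valued.v (2 * (w : k') - i τ) ≤ 1 :=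
      (2 * w - (⟨i τ, by
        show Valued.v (i τ) ≤ 1
        rw [hi]
        exact hτ⟩ : vring98 k')).2
    exact le_antisymm h4 (not_lt.mp h3)

end ResMap

section Hensel

variable {k' : Type} [Field k'] [Valued k' (WithZero (Multiplicative ℤ))]

/-- **Hensel's lemma for a quadratic polynomial**, simple approximate root. -/
theorem exists_root_of_approx98 [CompleteSpace k'] (t d y : k')
    (h1 : Valued.v (y ^ 2 - t * y + d) < 1) (h2 : Valued.v (2 * y - t) = 1) :
    ∃ x : k', x ^ 2 - t * x + d = 0 := by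
  obtain ⟨z, hz⟩ := exists_root_quadratic98 (2 * y - t) (y ^ 2 - t * y + d) (by
    rw [h2, one_pow]
    exact h1)
  refine ⟨y + z, ?_⟩
  linear_combination hz

end Hensel

end Fermat.Agent.LT.T6.H98

end

end
-- ===== PACK-END LT/T6/H98/ResidueAbs.lean

-- ===== PACK-BEGIN LT/T6/H793/AlgC.lean
section



/-!
# Row LT, tower T6, leaf T6.00q.8 `AlgCC438` (helper793, OFF-MAIN)

Pure field theory: for `M/L` of degree `2`, `r ∈ M` with `r² = -3` and `√-3 ∉ L`:
`N_{M/L}(u + v r) = u² + 3 v²`; hence `c (e² + 3 d f²) = a² + 3 b²` gives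
`c = N_{M/L}((a + b r)/(e + f δ r))`.

VERBATIM against `Fermat/Agent/LT/T6/H438/HasseQ3.lean` (helper438@9c79cc886, sha256 7b061f61).
-/

set_option autoImplicit false

noncomputable section

namespace Fermat.Agent.LT.T6.H793

open Fermat.Agent.LT.T6.H438

/-- `1, r` are linearly independent over `L` when `r² = -3` and `-3` is not a square in `L`. -/
theorem linearIndependent_one_root793 {L M : Type} [Field L] [Field M] [Algebra L M]
    (r : M) (hr : r ^ 2 = -3) (hnot : ∀ s : L, s ^ 2 ≠ -3) :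
    LinearIndependent L ![(1 : M), r] := by
  rw [LinearIndependent.pair_iff]
  intro s t hst
  have hinj : Function.Injective (algebraMap L M) := (algebraMap L M).injective
  by_cases ht : t = 0
  · subst ht
    refine ⟨?_, rfl⟩
    have h1 : algebraMap L M s = 0 := by
      simpa [Algebra.smul_def] using hst
    exact (map_eq_zero (algebraMap L M)).1 h1
  · exfalso
    have h1 : algebraMap L M s + algebraMap L M t * r = 0 := by
      simpa [Algebra.smul_def] using hst
    have ht' : algebraMap L M t ≠ 0 := fun h => ht ((map_eq_zero (algebraMap L M)).1 h)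
    have h2 : r = algebraMap L M (-(s / t)) := by
      have h3 : algebraMap L M t * r = -algebraMap L M s := by
        linear_combination h1
      have h4 : r = -algebraMap L M s / algebraMap L M t := by
        field_simp
        linear_combination h3
      rw [h4, map_neg, map_div₀]
      ring
    apply hnot (-(s / t))
    apply hinj
    rw [map_pow, ← h2, hr, map_neg, map_ofNat]

/-- The norm form of `M = L(√-3)` over `L`. -/
theorem norm_add_mul_root793 {L M : Type} [Field L] [Field M] [Algebra L M]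
    (hdeg : Module.finrank L M = 2) (r : M) (hr : r ^ 2 = -3)
    (hnot : ∀ s : L, s ^ 2 ≠ -3) (u v : L) :
    Algebra.norm L (algebraMap L M u + algebraMap L M v * r) = u ^ 2 + 3 * v ^ 2 := by
  have hli := linearIndependent_one_root793 (L := L) r hr hnot
  have hcard : Fintype.card (Fin 2) = Module.finrank L M := by simp [hdeg]
  set b : Module.Basis (Fin 2) L M := basisOfLinearIndependentOfCardEqFinrank hli hcard with hb
  have hb0 : b 0 = 1 := by simp [hb]
  have hb1 : b 1 = r := by simp [hb]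
  have hr2 : r * r = -3 := by rw [← hr]; ring
  -- the two columns
  have hc0 : (algebraMap L M u + algebraMap L M v * r) * b 0 = u • b 0 + v • b 1 := by
    rw [hb0, hb1, Algebra.smul_def, Algebra.smul_def]
    ring
  have hc1 : (algebraMap L M u + algebraMap L M v * r) * b 1 = (-3 * v) • b 0 + u • b 1 := by
    rw [hb0, hb1, Algebra.smul_def, Algebra.smul_def, map_mul, map_neg]
    have h3 : algebraMap L M 3 = 3 := map_ofNat _ 3
    rw [h3]
    linear_combination (algebraMap L M v) * hr2
  rw [Algebra.norm_eq_matrix_det b, Matrix.det_fin_two]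
  simp only [Algebra.leftMulMatrix_eq_repr_mul, hc0, hc1, map_add, map_smul,
    Module.Basis.repr_self, Finsupp.add_apply, Finsupp.smul_apply, Finsupp.single_apply]
  simp
  ring

/-- **T6.00q.8 = ALG-C**, verbatim. -/
theorem algCC793 : AlgCC438 := by
  intro L M _ _ _ _ _ hp d δ hdsf hδ c hc ⟨a, b, e, f, hef, hceq⟩
  obtain ⟨r, hr⟩ := hp.root
  have hd0 : d ≠ 0 := fun h => by
    rw [h] at hdsf
    exact not_squarefree_zero hdsf
  have hδ0 : δ ≠ 0 := by
    intro h
    rw [h] at hδ
    have : (d : L) = 0 := by rw [← hδ]; simp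
    exact hd0 (by exact_mod_cast this)
  -- the denominator is not zero
  have hden : e ^ 2 + 3 * (d : ℚ) * f ^ 2 ≠ 0 := by
    intro h0
    by_cases hf : f = 0
    · subst hf
      have : e = 0 := by
        have : e ^ 2 = 0 := by linear_combination h0
        exact pow_eq_zero_iff (two_ne_zero) |>.1 this
      rcases hef with h | h
      · exact h this
      · exact h rfl
    · apply hp.noRoot (algebraMap ℚ L (e / f) / δ)
      have h1 : (e / f) ^ 2 = -3 * (d : ℚ) := by
        field_simp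
        linear_combination h0
      have h2 : (algebraMap ℚ L (e / f)) ^ 2 = -3 * (d : L) := by
        rw [← map_pow, h1]
        simp
      rw [div_pow, h2, hδ]
      have hdL : (d : L) ≠ 0 := by exact_mod_cast hd0
      field_simp
  have hNnum := norm_add_mul_root793 (L := L) (M := M) hp.degM r hr hp.noRoot
    (algebraMap ℚ L a) (algebraMap ℚ L b)
  have hNden := norm_add_mul_root793 (L := L) (M := M) hp.degM r hr hp.noRoot
    (algebraMap ℚ L e) (algebraMap ℚ L f * δ)
  have hden' : (algebraMap ℚ L e) ^ 2 + 3 * (algebraMap ℚ L f * δ) ^ 2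
      = algebraMap ℚ L (e ^ 2 + 3 * (d : ℚ) * f ^ 2) := by
    rw [mul_pow, hδ]
    simp
    ring
  have hnum' : (algebraMap ℚ L a) ^ 2 + 3 * (algebraMap ℚ L b) ^ 2
      = algebraMap ℚ L (a ^ 2 + 3 * b ^ 2) := by
    simp
  have hdenL : algebraMap ℚ L (e ^ 2 + 3 * (d : ℚ) * f ^ 2) ≠ 0 :=
    fun h => hden ((map_eq_zero (algebraMap ℚ L)).1 h)
  have hfin : Module.Finite L M := Module.finite_of_finrank_pos (by rw [hp.degM]; norm_num)
  set Nm : M := algebraMap L M (algebraMap ℚ L a) + algebraMap L M (algebraMap ℚ L b) * r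
    with hNm
  set Dn : M := algebraMap L M (algebraMap ℚ L e) + algebraMap L M (algebraMap ℚ L f * δ) * r
    with hDn
  have hDn0 : Dn ≠ 0 := by
    intro h
    rw [h, Algebra.norm_zero, hden'] at hNden
    exact hdenL hNden.symm
  refine ⟨Nm / Dn, ?_⟩
  have hmul : Algebra.norm L (Nm / Dn) * Algebra.norm L Dn = Algebra.norm L Nm := by
    rw [← map_mul, div_mul_cancel₀ _ hDn0]
  rw [hNnum, hNden, hden', hnum', ← hceq, map_mul] at hmul
  exact mul_right_cancel₀ hdenL hmul

end Fermat.Agent.LT.T6.H793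

end

end
-- ===== PACK-END LT/T6/H793/AlgC.lean

-- ===== PACK-BEGIN LT/T6/H857/AlgB.lean
section



/-!
# Row LT, tower T6, leaf T6.00q.4 `AlgBC438` (helper857, OFF-MAIN)

Registry row 1043.  Statement: `Fermat.Agent.LT.T6.H438.AlgBC438` of
`Fermat/Agent/LT/T6/H438/HasseQ3.lean` (helper438@9c79cc886, sha256 7b061f61..., byte-identical
copy).  Mathlib only.

Pure field theory.  `L` a quadratic field, `M = L(r)`, `r² = -3`, `r ∉ L`.  If
`N_{L/ℚ}(x) = a² + 3 b²` then `N_{M/L}(x ± (a + b r)) = x · (Tr_{L/ℚ} x ± 2 a)`; if both factors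
`Tr x ± 2a` vanish then `a = 0`, `Tr x = 0`, `x² = - N x = - 3 b²`, so `(x / b)² = -3` in `L`.

* `quad_cayley857`: Cayley--Hamilton in a free algebra of rank `2`:
  `y² - Tr(y) y + N(y) = 0`.
* `trace_root857`, `norm_add_mul_root857`: `Tr_{M/L}(r) = 0`, `N_{M/L}(u + v r) = u² + 3 v²`.
* `algBC857 : AlgBC438`.
-/

set_option autoImplicit false

noncomputable section

namespace Fermat.Agent.LT.T6.H857

open Fermat.Agent.LT.T6.H438

/-- Cayley--Hamilton in a field extension of degree `2`: `y² - Tr(y) y + N(y) = 0`. -/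
theorem quad_cayley857 {R S : Type*} [Field R] [Field S] [Algebra R S]
    (h : Module.finrank R S = 2) (y : S) :
    y * y - algebraMap R S (Algebra.trace R S y) * y + algebraMap R S (Algebra.norm R y) = 0 := by
  have : Module.Finite R S := Module.finite_of_finrank_pos (by omega)
  let b : Module.Basis (Fin 2) R S := Module.finBasisOfFinrankEq R S h
  have hinj := Algebra.leftMulMatrix_injective b
  apply hinj
  have hch := Matrix.aeval_self_charpoly (Algebra.leftMulMatrix b y)
  rw [Matrix.charpoly_fin_two] at hch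
  simp only [map_add, map_sub, map_mul, Polynomial.aeval_X, Polynomial.aeval_C, map_pow] at hch
  rw [map_zero, map_add, map_sub, map_mul, map_mul, AlgHom.commutes, AlgHom.commutes,
    Algebra.trace_eq_matrix_trace b, Algebra.norm_eq_matrix_det b]
  rw [← hch, pow_two]

/-- In an extension `M / L` of degree `2` with `r² = -3`, `r ∉ L`: `Tr_{M/L}(r) = 0`. -/
theorem trace_root857 {L M : Type*} [Field L] [Field M] [Algebra L M]
    (h : Module.finrank L M = 2) (hno : ∀ s : L, s ^ 2 ≠ -3) (r : M) (hr : r ^ 2 = -3) :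
    Algebra.trace L M r = 0 := by
  by_contra ht
  have hch := quad_cayley857 h r
  -- `Tr(r) r = N(r) - 3`
  have h1 : algebraMap L M (Algebra.trace L M r) * r
      = algebraMap L M (Algebra.norm L r - 3) := by
    have : r * r = -3 := by rw [← pow_two]; exact hr
    rw [this] at hch
    rw [map_sub, map_ofNat]
    linear_combination -hch
  have h2 : r = algebraMap L M ((Algebra.norm L r - 3) / Algebra.trace L M r) := by
    rw [map_div₀, ← h1]
    field_simp [show algebraMap L M (Algebra.trace L M r) ≠ 0 from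
      fun h0 => ht ((map_eq_zero _).1 h0)]
  apply hno ((Algebra.norm L r - 3) / Algebra.trace L M r)
  apply (algebraMap L M).injective
  rw [map_pow, ← h2, hr, map_neg, map_ofNat]

/-- In an extension `M / L` of degree `2` with `r² = -3`, `r ∉ L`:
`N_{M/L}(u + v r) = u² + 3 v²`. -/
theorem norm_add_mul_root857 {L M : Type*} [Field L] [Field M] [Algebra L M]
    (h : Module.finrank L M = 2) (hno : ∀ s : L, s ^ 2 ≠ -3) (r : M) (hr : r ^ 2 = -3)
    (u v : L) :
    Algebra.norm L (algebraMap L M u + algebraMap L M v * r) = u ^ 2 + 3 * v ^ 2 := by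
  have : Module.Finite L M := Module.finite_of_finrank_pos (by omega)
  set y : M := algebraMap L M u + algebraMap L M v * r with hy
  have htr : Algebra.trace L M y = 2 * u := by
    rw [hy, map_add, Algebra.trace_algebraMap, h, ← Algebra.smul_def, map_smul,
      trace_root857 h hno r hr, smul_zero, add_zero, nsmul_eq_mul]
    norm_num
  have hch := quad_cayley857 h y
  rw [htr] at hch
  apply (algebraMap L M).injective
  have hrr : r * r = -3 := by rw [← pow_two]; exact hr
  have : algebraMap L M (Algebra.norm L y)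
      = algebraMap L M u ^ 2 + 3 * algebraMap L M v ^ 2 := by
    have e : algebraMap L M (Algebra.norm L y)
        = algebraMap L M (2 * u) * y - y * y := by linear_combination hch
    rw [e, hy, map_mul, map_ofNat]
    linear_combination (-(algebraMap L M v) ^ 2) * hrr
  rw [this, map_add, map_mul, map_pow, map_pow, map_ofNat]

/-- The key identity: `N_{M/L}(x + ε (a + b r)) = x (Tr_{L/ℚ} x + 2 ε a)` for `ε = ± 1`, when
`N_{L/ℚ} x = a² + 3 b²`. -/
theorem norm_shift857 {L M : Type*} [Field L] [Field M] [Algebra ℚ L] [Algebra L M]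
    (hL : Module.finrank ℚ L = 2) (hM : Module.finrank L M = 2) (hno : ∀ s : L, s ^ 2 ≠ -3)
    (r : M) (hr : r ^ 2 = -3) (x : L) (a b : ℚ)
    (hN : Algebra.norm ℚ x = a ^ 2 + 3 * b ^ 2) (ε : ℚ) (hε : ε ^ 2 = 1) :
    Algebra.norm L (algebraMap L M (x + algebraMap ℚ L (ε * a))
        + algebraMap L M (algebraMap ℚ L (ε * b)) * r)
      = x * algebraMap ℚ L (Algebra.trace ℚ L x + 2 * ε * a) := by
  rw [norm_add_mul_root857 hM hno r hr]
  have hchx := quad_cayley857 hL x
  have hN' : algebraMap ℚ L (Algebra.norm ℚ x)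
      = algebraMap ℚ L a ^ 2 + 3 * algebraMap ℚ L b ^ 2 := by
    rw [hN, map_add, map_mul, map_pow, map_pow, map_ofNat]
  have hε' : algebraMap ℚ L ε ^ 2 = 1 := by rw [← map_pow, hε, map_one]
  simp only [map_add, map_mul, map_ofNat]
  linear_combination hchx + (algebraMap ℚ L a ^ 2 + 3 * algebraMap ℚ L b ^ 2) * hε' - hN'

/-- **Leaf T6.00q.4 (ALG-B)**: `Fermat.Agent.LT.T6.H438.AlgBC438`. -/
theorem algBC857 : AlgBC438 := by
  intro L M _ _ _ _ _ hp x hx hab
  obtain ⟨a, b, hN⟩ := hab
  obtain ⟨r, hr⟩ := hp.root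
  have hfinM : Module.Finite L M := Module.finite_of_finrank_pos (by rw [hp.degM]; norm_num)
  have hkey := norm_shift857 hp.degL hp.degM hp.noRoot r hr x a b hN
  -- the conclusion from a non-vanishing factor
  have hconcl : ∀ ε : ℚ, ε ^ 2 = 1 → Algebra.trace ℚ L x + 2 * ε * a ≠ 0 →
      ∃ (c : ℚ) (y : M), c ≠ 0 ∧ y ≠ 0 ∧ x = algebraMap ℚ L c * Algebra.norm L y := by
    intro ε hε hne
    have hne' : algebraMap ℚ L (Algebra.trace ℚ L x + 2 * ε * a) ≠ 0 :=
      fun h0 => hne ((map_eq_zero _).1 h0)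
    refine ⟨(Algebra.trace ℚ L x + 2 * ε * a)⁻¹,
      algebraMap L M (x + algebraMap ℚ L (ε * a))
        + algebraMap L M (algebraMap ℚ L (ε * b)) * r, inv_ne_zero hne, ?_, ?_⟩
    · intro h0
      have h1 := hkey ε hε
      rw [h0, Algebra.norm_zero] at h1
      exact mul_ne_zero hx hne' h1.symm
    · rw [hkey ε hε, map_inv₀]
      field_simp
  by_cases h1 : Algebra.trace ℚ L x + 2 * 1 * a = 0
  swap
  · exact hconcl 1 (by norm_num) h1
  by_cases h2 : Algebra.trace ℚ L x + 2 * (-1) * a = 0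
  swap
  · exact hconcl (-1) (by norm_num) h2
  -- both factors vanish: `a = 0`, `Tr x = 0`, `x² = -3 b²`
  exfalso
  have ha : a = 0 := by linarith
  have ht : Algebra.trace ℚ L x = 0 := by linarith
  have hchx := quad_cayley857 hp.degL x
  rw [ht, hN, ha] at hchx
  have hx2 : x * x = -(3 * algebraMap ℚ L b ^ 2) := by
    have e : algebraMap ℚ L ((0 : ℚ) ^ 2 + 3 * b ^ 2) = 3 * algebraMap ℚ L b ^ 2 := by
      rw [map_add, map_mul, map_pow, map_pow, map_zero, map_ofNat]
      ring
    rw [e, map_zero] at hchx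
    linear_combination hchx
  have hb : algebraMap ℚ L b ≠ 0 := by
    intro hb0
    rw [hb0] at hx2
    have : x * x = 0 := by rw [hx2]; ring
    exact hx (mul_self_eq_zero.1 this)
  apply hp.noRoot (x / algebraMap ℚ L b)
  rw [div_pow, pow_two x, hx2]
  field_simp

end Fermat.Agent.LT.T6.H857

end

end
-- ===== PACK-END LT/T6/H857/AlgB.lean

-- ===== PACK-BEGIN LT/T6/H220/UnrRes.lean
section



/-!
# Row LT, tower T6: UNRAMIFIED CORE, part 1 (residue fields) -- helper220, OFF-MAIN

Tool for the owners of the fundamental-lemma leaves T6.12 - T6.15, in the vocabulary of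
`T6/Spec.lean` (`IsLocalField`, `IsLocalExt ... l 1 i s`, `l` prime).  Mathlib + Spec only.

* `resIntMk220`, `residue_eq_iff220`, `card_residue220`;
* `sRes220` (the automorphism of the residue field of `k'` induced by `s`),
  `iRes220` (the embedding of residue fields induced by `i`);
* `resFix_res220`: the fixed field of `sRes220` is the image of `iRes220`;
* `sRes_pow_ne_one220`: `sRes220` has exact order `l`;
* `exists_resSum_ne_zero220`: Dedekind independence of the powers of `sRes220`.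
-/

set_option autoImplicit false

open scoped Valued
open Fermat.Agent.LT.T6

noncomputable section

namespace Fermat.Agent.LT.T6.H220

section Basic

variable {K : Type} [Field K] [Valued K Γ₀]

theorem mem_max_iff220 (x : 𝒪[K]) : x ∈ 𝓂[K] ↔ Valued.v (x : K) < 1 := by
  rw [Valued.maximalIdeal, IsLocalRing.mem_maximalIdeal, mem_nonunits_iff]
  exact Valuation.Integer.not_isUnit_iff_valuation_lt_one

theorem residue_eq_zero_iff220 (x : 𝒪[K]) :
    IsLocalRing.residue 𝒪[K] x = 0 ↔ Valued.v (x : K) < 1 := by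
  rw [IsLocalRing.residue_eq_zero_iff]
  exact mem_max_iff220 x

theorem residue_eq_iff220 (x y : 𝒪[K]) :
    IsLocalRing.residue 𝒪[K] x = IsLocalRing.residue 𝒪[K] y ↔
      Valued.v ((x : K) - (y : K)) < 1 := by
  rw [← sub_eq_zero, ← map_sub, residue_eq_zero_iff220]
  rfl

/-- An element of valuation `≤ 1` as an element of the ring of integers. -/
def intMk220 (x : K) (hx : Valued.v x ≤ 1) : 𝒪[K] :=
  ⟨x, (Valuation.mem_integer_iff _ _).2 hx⟩

@[simp] theorem coe_intMk220 (x : K) (hx : Valued.v x ≤ 1) : ((intMk220 x hx : 𝒪[K]) : K) = x :=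
  rfl

theorem int_val_le220 (x : 𝒪[K]) : Valued.v (x : K) ≤ 1 :=
  (Valuation.mem_integer_iff _ _).1 x.2

theorem residue_ne_zero_iff220 (x : 𝒪[K]) :
    IsLocalRing.residue 𝒪[K] x ≠ 0 ↔ Valued.v (x : K) = 1 := by
  rw [Ne, residue_eq_zero_iff220, not_lt]
  exact ⟨fun h => le_antisymm (int_val_le220 x) h, fun h => h.ge⟩

theorem card_residue220 {q : ℕ} (h : IsLocalField K q) : Nat.card 𝓀[K] = q := by
  obtain ⟨T, hcard, hint, hsep, hcov⟩ := h.residue
  let f : T → 𝓀[K] := fun t => IsLocalRing.residue 𝒪[K] (intMk220 t.1 (hint t.1 t.2))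
  have hinj : Function.Injective f := by
    intro a b hab
    have h1 := (residue_eq_iff220 _ _).1 hab
    simp only [coe_intMk220] at h1
    by_contra hne
    have hne' : (a : K) ≠ b := fun e => hne (Subtype.ext e)
    have := hsep a.1 a.2 b.1 b.2 hne'
    rw [this] at h1
    exact lt_irrefl _ h1
  have hsurj : Function.Surjective f := by
    intro y
    obtain ⟨z, rfl⟩ := IsLocalRing.residue_surjective (R := 𝒪[K]) y
    obtain ⟨x, hx, hzx⟩ := hcov z (int_val_le220 z)
    exact ⟨⟨x, hx⟩, ((residue_eq_iff220 _ _).2 (by simpa using hzx)).symm⟩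
  rw [← Nat.card_eq_of_bijective f ⟨hinj, hsurj⟩]
  simp [hcard]

theorem finite_residue220 {q : ℕ} (h : IsLocalField K q) : Finite 𝓀[K] := by
  obtain ⟨T, hcard, hint, hsep, hcov⟩ := h.residue
  let f : T → 𝓀[K] := fun t => IsLocalRing.residue 𝒪[K] (intMk220 t.1 (hint t.1 t.2))
  have hsurj : Function.Surjective f := by
    intro y
    obtain ⟨z, rfl⟩ := IsLocalRing.residue_surjective (R := 𝒪[K]) y
    obtain ⟨x, hx, hzx⟩ := hcov z (int_val_le220 z)
    exact ⟨⟨x, hx⟩, ((residue_eq_iff220 _ _).2 (by simpa using hzx)).symm⟩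
  exact Finite.of_surjective f hsurj

theorem two_le_q220 {q : ℕ} (h : IsLocalField K q) : 2 ≤ q := by
  have := finite_residue220 h
  rw [← card_residue220 h]
  exact Finite.one_lt_card (α := 𝓀[K])

end Basic

section Maps

variable {k k' : Type} [Field k] [Field k'] [Valued k Γ₀] [Valued k' Γ₀]

/-- The restriction of a valuation preserving automorphism to the ring of integers. -/
def sInt220 (s : k' ≃+* k') (hs : ∀ y : k', Valued.v (s y) = Valued.v y) : 𝒪[k'] ≃+* 𝒪[k'] where
  toFun x := intMk220 (s x) (by rw [hs]; exact int_val_le220 x)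
  invFun x := intMk220 (s.symm x) (by
    have := hs (s.symm x); rw [s.apply_symm_apply] at this; rw [← this]; exact int_val_le220 x)
  left_inv x := by ext; simp
  right_inv x := by ext; simp
  map_mul' x y := by ext; simp
  map_add' x y := by ext; simp

@[simp] theorem coe_sInt220 (s : k' ≃+* k') (hs : ∀ y : k', Valued.v (s y) = Valued.v y)
    (x : 𝒪[k']) : ((sInt220 s hs x : 𝒪[k']) : k') = s x := rfl

/-- The automorphism of the residue field induced by `s`. -/
def sRes220 (s : k' ≃+* k') (hs : ∀ y : k', Valued.v (s y) = Valued.v y) : 𝓀[k'] ≃+* 𝓀[k'] :=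
  IsLocalRing.ResidueField.mapEquiv (sInt220 s hs)

theorem sRes_residue220 (s : k' ≃+* k') (hs : ∀ y : k', Valued.v (s y) = Valued.v y)
    (x : 𝒪[k']) :
    sRes220 s hs (IsLocalRing.residue 𝒪[k'] x) = IsLocalRing.residue 𝒪[k'] (sInt220 s hs x) :=
  rfl

theorem val_pow_s220 (s : k' ≃+* k') (hs : ∀ y : k', Valued.v (s y) = Valued.v y) (j : ℕ)
    (y : k') : Valued.v ((s ^ j) y) = Valued.v y := by
  induction j with
  | zero => simp
  | succ n ih => rw [pow_succ', RingAut.mul_apply, hs, ih]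

theorem sRes_pow_residue220 (s : k' ≃+* k') (hs : ∀ y : k', Valued.v (s y) = Valued.v y)
    (j : ℕ) (x : 𝒪[k']) :
    (sRes220 s hs ^ j) (IsLocalRing.residue 𝒪[k'] x)
      = IsLocalRing.residue 𝒪[k']
          (intMk220 ((s ^ j) (x : k')) (by rw [val_pow_s220 s hs]; exact int_val_le220 x)) := by
  induction j with
  | zero => simp [intMk220]
  | succ n ih =>
    rw [pow_succ', RingAut.mul_apply, ih, sRes_residue220]
    congr 1
    ext
    simp [pow_succ', RingAut.mul_apply]

/-- The restriction of a valuation preserving ring homomorphism to the rings of integers. -/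
def iInt220 (i : k →+* k') (hi : ∀ x : k, Valued.v (i x) = Valued.v x) : 𝒪[k] →+* 𝒪[k'] where
  toFun x := intMk220 (i x) (by rw [hi]; exact int_val_le220 x)
  map_one' := by ext; simp
  map_mul' x y := by ext; simp
  map_zero' := by ext; simp
  map_add' x y := by ext; simp

@[simp] theorem coe_iInt220 (i : k →+* k') (hi : ∀ x : k, Valued.v (i x) = Valued.v x)
    (x : 𝒪[k]) : ((iInt220 i hi x : 𝒪[k']) : k') = i x := rfl

instance isLocalHom_iInt220 (i : k →+* k') (hi : ∀ x : k, Valued.v (i x) = Valued.v x) :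
    IsLocalHom (iInt220 i hi) where
  map_nonunit x hx := by
    by_contra h
    have h1 : Valued.v (x : k) < 1 := Valuation.Integer.not_isUnit_iff_valuation_lt_one.1 h
    have h2 : ¬ IsUnit (iInt220 i hi x) := by
      rw [Valuation.Integer.not_isUnit_iff_valuation_lt_one, coe_iInt220, hi]
      exact h1
    exact h2 hx

/-- The embedding of residue fields induced by `i`. -/
def iRes220 (i : k →+* k') (hi : ∀ x : k, Valued.v (i x) = Valued.v x) : 𝓀[k] →+* 𝓀[k'] :=
  IsLocalRing.ResidueField.map (iInt220 i hi)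

theorem iRes_residue220 (i : k →+* k') (hi : ∀ x : k, Valued.v (i x) = Valued.v x)
    (x : 𝒪[k]) :
    iRes220 i hi (IsLocalRing.residue 𝒪[k] x) = IsLocalRing.residue 𝒪[k'] (iInt220 i hi x) :=
  rfl

end Maps

section Cyclic

variable {k' : Type} [Field k']

/-- The trace `∑_{j<l} s^j y` of the cyclic datum. -/
def tr220 (s : k' ≃+* k') (l : ℕ) (y : k') : k' := ∑ j ∈ Finset.range l, (s ^ j) y

/-- The norm `∏_{j<l} s^j y` of the cyclic datum. -/
def nm220 (s : k' ≃+* k') (l : ℕ) (y : k') : k' := ∏ j ∈ Finset.range l, (s ^ j) y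

theorem s_tr220 (s : k' ≃+* k') (l : ℕ) (y : k') (h : (s ^ l) y = y) :
    s (tr220 s l y) = tr220 s l y := by
  unfold tr220
  rw [map_sum]
  have h1 : ∀ j ∈ Finset.range l, s ((s ^ j) y) = (s ^ (j + 1)) y := by
    intro j _; rw [pow_succ', RingAut.mul_apply]
  rw [Finset.sum_congr rfl h1]
  have h2 := Finset.sum_range_succ' (fun j => (s ^ j) y) l
  have h3 := Finset.sum_range_succ (fun j => (s ^ j) y) l
  simp only [pow_zero, RingAut.one_apply] at h2
  rw [h] at h3
  have h4 : ∑ j ∈ Finset.range l, (s ^ (j + 1)) y + y = ∑ j ∈ Finset.range l, (s ^ j) y + y := by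
    rw [← h2, h3]
  exact add_right_cancel h4

theorem s_nm220 (s : k' ≃+* k') (l : ℕ) (y : k') (h : (s ^ l) y = y) :
    s (nm220 s l y) = nm220 s l y := by
  unfold nm220
  rw [map_prod]
  have h1 : ∀ j ∈ Finset.range l, s ((s ^ j) y) = (s ^ (j + 1)) y := by
    intro j _; rw [pow_succ', RingAut.mul_apply]
  rw [Finset.prod_congr rfl h1]
  by_cases hy : y = 0
  · subst hy; simp
  have h2 := Finset.prod_range_succ' (fun j => (s ^ j) y) l
  have h3 := Finset.prod_range_succ (fun j => (s ^ j) y) l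
  simp only [pow_zero, RingAut.one_apply] at h2
  rw [h] at h3
  have h4 : (∏ j ∈ Finset.range l, (s ^ (j + 1)) y) * y = (∏ j ∈ Finset.range l, (s ^ j) y) * y := by
    rw [← h2, h3]
  exact mul_right_cancel₀ hy h4

theorem nm_mul220 (s : k' ≃+* k') (l : ℕ) (x y : k') :
    nm220 s l (x * y) = nm220 s l x * nm220 s l y := by
  unfold nm220
  rw [← Finset.prod_mul_distrib]
  exact Finset.prod_congr rfl fun j _ => map_mul _ _ _

theorem nm_one220 (s : k' ≃+* k') (l : ℕ) : nm220 s l 1 = 1 := by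
  unfold nm220
  exact Finset.prod_eq_one fun j _ => map_one _

theorem nm_inv220 (s : k' ≃+* k') (l : ℕ) (x : k') : nm220 s l x⁻¹ = (nm220 s l x)⁻¹ := by
  unfold nm220
  rw [← Finset.prod_inv_distrib]
  exact Finset.prod_congr rfl fun j _ => map_inv₀ _ _

theorem tr_add220 (s : k' ≃+* k') (l : ℕ) (x y : k') :
    tr220 s l (x + y) = tr220 s l x + tr220 s l y := by
  unfold tr220
  rw [← Finset.sum_add_distrib]
  exact Finset.sum_congr rfl fun j _ => map_add _ _ _

end Cyclic

section Unr

variable {k k' : Type} [Field k] [Field k'] [Valued k Γ₀] [Valued k' Γ₀]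
  {q l : ℕ} {i : k →+* k'} {s : k' ≃+* k'}

theorem val_i220 (hext : IsLocalExt k k' l 1 i s) (x : k) : Valued.v (i x) = Valued.v x := by
  simpa using hext.val_i x

theorem val_tr_le220 (hext : IsLocalExt k k' l 1 i s) (y : k') (hy : Valued.v y ≤ 1) :
    Valued.v (tr220 s l y) ≤ 1 := by
  unfold tr220
  refine Valuation.map_sum_le _ fun j _ => ?_
  rw [val_pow_s220 s hext.val_s]; exact hy

theorem val_nm220 (hext : IsLocalExt k k' l 1 i s) (y : k') :
    Valued.v (nm220 s l y) = Valued.v y ^ l := by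
  unfold nm220
  rw [map_prod]
  rw [Finset.prod_congr rfl fun j _ => val_pow_s220 s hext.val_s j y]
  simp

theorem exists_of_fixed220 (hext : IsLocalExt k k' l 1 i s) (y : k') (hy : Valued.v y ≤ 1)
    (hfix : s y = y) : ∃ x : 𝒪[k], i (x : k) = y := by
  obtain ⟨x, hx⟩ := hext.cyc.fixed y hfix
  exact ⟨intMk220 x (by rw [← val_i220 hext, hx]; exact hy), hx⟩

theorem iRes_injective220 (hext : IsLocalExt k k' l 1 i s) :
    Function.Injective (iRes220 i (val_i220 hext)) :=
  (iRes220 i (val_i220 hext)).injective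

theorem sRes_pow_fixed220 (hext : IsLocalExt k k' l 1 i s) (yb : 𝓀[k'])
    (h : sRes220 s hext.val_s yb = yb) (j : ℕ) : (sRes220 s hext.val_s ^ j) yb = yb := by
  induction j with
  | zero => simp
  | succ n ih => rw [pow_succ', RingAut.mul_apply, ih, h]

theorem residue_tr220 (hext : IsLocalExt k k' l 1 i s) (y : 𝒪[k']) :
    IsLocalRing.residue 𝒪[k'] (intMk220 (tr220 s l y) (val_tr_le220 hext y (int_val_le220 y)))
      = ∑ j ∈ Finset.range l, (sRes220 s hext.val_s ^ j) (IsLocalRing.residue 𝒪[k'] y) := by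
  have h1 : intMk220 (tr220 s l y) (val_tr_le220 hext y (int_val_le220 y))
      = ∑ j ∈ Finset.range l, intMk220 ((s ^ j) (y : k'))
          (by rw [val_pow_s220 s hext.val_s]; exact int_val_le220 y) := by
    ext
    simp [tr220]
  rw [h1, map_sum]
  exact Finset.sum_congr rfl fun j _ => (sRes_pow_residue220 s hext.val_s j y).symm

theorem val_nm_le220 (hext : IsLocalExt k k' l 1 i s) (y : k') (hy : Valued.v y ≤ 1) :
    Valued.v (nm220 s l y) ≤ 1 := by
  rw [val_nm220 hext]; exact pow_le_one₀ zero_le hy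

theorem residue_nm220 (hext : IsLocalExt k k' l 1 i s) (y : 𝒪[k']) :
    IsLocalRing.residue 𝒪[k'] (intMk220 (nm220 s l y) (val_nm_le220 hext y (int_val_le220 y)))
      = ∏ j ∈ Finset.range l, (sRes220 s hext.val_s ^ j) (IsLocalRing.residue 𝒪[k'] y) := by
  have h1 : intMk220 (nm220 s l y) (val_nm_le220 hext y (int_val_le220 y))
      = ∏ j ∈ Finset.range l, intMk220 ((s ^ j) (y : k'))
          (by rw [val_pow_s220 s hext.val_s]; exact int_val_le220 y) := by
    ext
    simp [nm220]
  rw [h1, map_prod]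
  exact Finset.prod_congr rfl fun j _ => (sRes_pow_residue220 s hext.val_s j y).symm

/-- **The fixed field of the residue automorphism is the residue field of `k`.** -/
theorem resFix_res220 (hk : IsLocalField k q) (hext : IsLocalExt k k' l 1 i s) (hl : l.Prime)
    (yb : 𝓀[k']) (h : sRes220 s hext.val_s yb = yb) :
    ∃ xb : 𝓀[k], iRes220 i (val_i220 hext) xb = yb := by
  obtain ⟨y, rfl⟩ := IsLocalRing.residue_surjective (R := 𝒪[k']) yb
  by_cases hchar : ((l : ℕ) : 𝓀[k']) = 0
  · -- characteristic `l`: use the norm and the perfectness of the finite residue field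
    have : Fact l.Prime := ⟨hl⟩
    have : CharP 𝓀[k'] l := (CharP.charP_iff_prime_eq_zero hl).2 hchar
    have hchar0 : ((l : ℕ) : 𝓀[k]) = 0 := by
      apply iRes_injective220 hext
      rw [map_natCast, hchar, map_zero]
    have : CharP 𝓀[k] l := (CharP.charP_iff_prime_eq_zero hl).2 hchar0
    have : Finite 𝓀[k] := finite_residue220 hk
    obtain ⟨n₀, hn₀⟩ := exists_of_fixed220 hext (nm220 s l y)
      (val_nm_le220 hext y (int_val_le220 y)) (s_nm220 s l y (hext.cyc.order y))
    obtain ⟨xb, hxb⟩ := surjective_frobenius 𝓀[k] l (IsLocalRing.residue 𝒪[k] n₀)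
    refine ⟨xb, ?_⟩
    have h1 : (IsLocalRing.residue 𝒪[k'] y) ^ l
        = iRes220 i (val_i220 hext) (IsLocalRing.residue 𝒪[k] n₀) := by
      have := residue_nm220 hext y
      rw [Finset.prod_congr rfl fun j _ => sRes_pow_fixed220 hext _ h j] at this
      simp only [Finset.prod_const, Finset.card_range] at this
      rw [← this, iRes_residue220]
      congr 1
      ext
      simp [hn₀]
    have h2 : (IsLocalRing.residue 𝒪[k'] y - iRes220 i (val_i220 hext) xb) ^ l = 0 := by
      rw [sub_pow_char, h1, ← map_pow, ← hxb, frobenius_def, sub_self]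
    exact (sub_eq_zero.1 (pow_eq_zero_iff hl.ne_zero |>.1 h2)).symm
  · -- `l` invertible: use the trace
    obtain ⟨t₀, ht₀⟩ := exists_of_fixed220 hext (tr220 s l y)
      (val_tr_le220 hext y (int_val_le220 y)) (s_tr220 s l y (hext.cyc.order y))
    refine ⟨((l : ℕ) : 𝓀[k])⁻¹ * IsLocalRing.residue 𝒪[k] t₀, ?_⟩
    have h1 : ((l : ℕ) : 𝓀[k']) * IsLocalRing.residue 𝒪[k'] y
        = iRes220 i (val_i220 hext) (IsLocalRing.residue 𝒪[k] t₀) := by
      have := residue_tr220 hext y
      rw [Finset.sum_congr rfl fun j _ => sRes_pow_fixed220 hext _ h j] at this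
      simp only [Finset.sum_const, Finset.card_range, nsmul_eq_mul] at this
      rw [← this, iRes_residue220]
      congr 1
      ext
      simp [ht₀]
    rw [map_mul, map_inv₀, map_natCast, ← h1, inv_mul_cancel_left₀ hchar]

theorem sRes_pow_l220 (hext : IsLocalExt k k' l 1 i s) : sRes220 s hext.val_s ^ l = 1 := by
  ext yb
  obtain ⟨y, rfl⟩ := IsLocalRing.residue_surjective (R := 𝒪[k']) yb
  rw [sRes_pow_residue220, RingAut.one_apply]
  congr 1
  ext
  simp [hext.cyc.order]

theorem sRes_ne_one220 (hk : IsLocalField k q) (hk' : IsLocalField k' (q ^ l))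
    (hext : IsLocalExt k k' l 1 i s) (hl : l.Prime) : sRes220 s hext.val_s ≠ 1 := by
  intro h1
  have hsurj : Function.Surjective (iRes220 i (val_i220 hext)) := by
    intro yb
    exact resFix_res220 hk hext hl yb (by rw [h1]; rfl)
  have hfin : Finite 𝓀[k] := finite_residue220 hk
  have hle : Nat.card 𝓀[k'] ≤ Nat.card 𝓀[k] := Nat.card_le_card_of_surjective _ hsurj
  rw [card_residue220 hk, card_residue220 hk'] at hle
  have h2 : 2 ≤ q := two_le_q220 hk
  have h3 : q ^ 2 ≤ q ^ l := Nat.pow_le_pow_right (by omega) hl.two_le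
  nlinarith

theorem orderOf_sRes220 (hk : IsLocalField k q) (hk' : IsLocalField k' (q ^ l))
    (hext : IsLocalExt k k' l 1 i s) (hl : l.Prime) : orderOf (sRes220 s hext.val_s) = l := by
  have : Fact l.Prime := ⟨hl⟩
  exact orderOf_eq_prime (sRes_pow_l220 hext) (sRes_ne_one220 hk hk' hext hl)

/-- **Dedekind independence** of the powers `sRes^j`, `j < l`. -/
theorem exists_resSum_ne_zero220 (hk : IsLocalField k q) (hk' : IsLocalField k' (q ^ l))
    (hext : IsLocalExt k k' l 1 i s) (hl : l.Prime) (a : Fin l → 𝓀[k']) (j₀ : Fin l)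
    (ha : a j₀ ≠ 0) :
    ∃ θ : 𝓀[k'], ∑ j : Fin l, a j * (sRes220 s hext.val_s ^ (j : ℕ)) θ ≠ 0 := by
  let g : Fin l → (𝓀[k'] →* 𝓀[k']) := fun j =>
    ((sRes220 s hext.val_s ^ (j : ℕ) : 𝓀[k'] ≃+* 𝓀[k']) : 𝓀[k'] →+* 𝓀[k']).toMonoidHom
  have hg : Function.Injective g := by
    intro a b hab
    have h1 : sRes220 s hext.val_s ^ (a : ℕ) = sRes220 s hext.val_s ^ (b : ℕ) := by
      ext x
      exact DFunLike.congr_fun hab x
    have h2 := pow_injOn_Iio_orderOf (x := sRes220 s hext.val_s)
    rw [orderOf_sRes220 hk hk' hext hl] at h2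
    exact Fin.ext (h2 (Set.mem_Iio.2 a.2) (Set.mem_Iio.2 b.2) h1)
  have hli := (linearIndependent_monoidHom 𝓀[k'] 𝓀[k']).comp g hg
  by_contra hcon
  simp only [not_exists, not_not] at hcon
  have hzero : ∑ j : Fin l, a j • ((fun f : 𝓀[k'] →* 𝓀[k'] => (f : 𝓀[k'] → 𝓀[k'])) ∘ g) j = 0 := by
    funext θ
    simp only [Finset.sum_apply, Pi.smul_apply, smul_eq_mul, Pi.zero_apply, Function.comp_apply]
    exact hcon θ
  exact ha (Fintype.linearIndependent_iff.1 hli a hzero j₀)

end Unr

end Fermat.Agent.LT.T6.H220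

end

end
-- ===== PACK-END LT/T6/H220/UnrRes.lean

-- ===== PACK-BEGIN LT/T6/H999/BCExists.lean
section


/-!
# Row LT, tower T6, sub-leaf T6.11 `BCExistsC` (helper999), OFF-MAIN

Existence of the base change `f = b(φ)` of a spherical function `φ` (given by its values on the
Cartan invariants): the Satake polynomials `satake q (a, b)`, `a ≥ b`, span the symmetric Laurent
polynomials (they are triangular with respect to the Schur functions `(x y)^b h_{a-b}(x, y)`),
and `φ^∨(x^l, y^l)` is a symmetric Laurent polynomial which is homogeneous of degree divisible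
by `l` in each term.

Route (all statements are about functions on `{x ≠ 0, y ≠ 0}`):

* `hS n x y = ∑_{i ≤ n} x^i y^(n-i)` (complete homogeneous), `hS (n+2) = (x+y) hS (n+1) - x y hS n`,
  `hS (n+2) = x^(n+2) + y^(n+2) + x y hS n`;
* `satPoly q x y (n+2) = r^(n+2) hS (n+2) - r^n x y hS n`, `r = √q` (closed form of the recursion);
* `Rep l q g` : `g` is the Satake transform of a dominant finitely supported `f` with support on
  `l ∣ a + b`; `Rep` is closed under sums and scalar multiples;
* Schur functions are `Rep` (two-step induction), hence the monomial symmetric functions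
  `x^α y^β + x^β y^α`, `l ∣ α + β`, hence `(x^l y^l)^d hS n (x^l) (y^l)`, hence
  `satake (q^l) lam (x^l) (y^l)`.
-/

set_option autoImplicit false

noncomputable section

namespace Fermat.Agent.LT.T6.H999

open Fermat.Agent.LT.T6

/-! ## The complete homogeneous polynomials in two variables -/

/-- `h_n(x, y) = ∑_{i ≤ n} x^i y^(n-i)`. -/
def hS (n : ℕ) (x y : ℂ) : ℂ := ∑ i ∈ Finset.range (n + 1), x ^ i * y ^ (n - i)

theorem hS_zero (x y : ℂ) : hS 0 x y = 1 := by simp [hS]

theorem hS_succ_left (n : ℕ) (x y : ℂ) : hS (n + 1) x y = x * hS n x y + y ^ (n + 1) := by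
  unfold hS
  rw [Finset.sum_range_succ', Finset.mul_sum]
  congr 1
  · apply Finset.sum_congr rfl
    intro i _
    have h : n + 1 - (i + 1) = n - i := by omega
    rw [h]; ring
  · simp

theorem hS_succ_right (n : ℕ) (x y : ℂ) : hS (n + 1) x y = y * hS n x y + x ^ (n + 1) := by
  unfold hS
  rw [Finset.sum_range_succ, Finset.mul_sum]
  congr 1
  · apply Finset.sum_congr rfl
    intro i hi
    have hi' : i ≤ n := Nat.lt_succ_iff.mp (Finset.mem_range.mp hi)
    have h : n + 1 - i = (n - i) + 1 := by omega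
    rw [h]; ring
  · simp

theorem hS_one (x y : ℂ) : hS 1 x y = x + y := by
  rw [hS_succ_left, hS_zero]; ring

theorem hS_add_two (n : ℕ) (x y : ℂ) :
    hS (n + 2) x y = x ^ (n + 2) + y ^ (n + 2) + x * y * hS n x y := by
  rw [hS_succ_left (n + 1), hS_succ_right n]; ring

theorem hS_rec (n : ℕ) (x y : ℂ) :
    hS (n + 2) x y = (x + y) * hS (n + 1) x y - x * y * hS n x y := by
  rw [hS_succ_left (n + 1)]
  have h := hS_succ_left n x y
  linear_combination (-y) * h

/-! ## The closed form of the Satake polynomials -/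

/-- `√q` as a complex number. -/
def rt (q : ℕ) : ℂ := ((Real.sqrt q : ℝ) : ℂ)

theorem rt_sq (q : ℕ) : rt q ^ 2 = (q : ℂ) := by
  unfold rt
  rw [← Complex.ofReal_pow, Real.sq_sqrt (Nat.cast_nonneg q)]
  simp

theorem rt_ne_zero {q : ℕ} (hq : 0 < q) : rt q ≠ 0 := by
  intro h
  have h2 := rt_sq q
  rw [h] at h2
  have h3 : (q : ℂ) = 0 := by rw [← h2]; simp
  have h4 : q = 0 := by exact_mod_cast h3
  omega

theorem satPoly_zero (q : ℕ) (x y : ℂ) : satPoly q x y 0 = 1 := rfl

theorem satPoly_one (q : ℕ) (x y : ℂ) : satPoly q x y 1 = rt q * (x + y) := rfl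

theorem satPoly_two (q : ℕ) (x y : ℂ) :
    satPoly q x y 2 = (rt q * (x + y)) ^ 2 - ((q : ℂ) + 1) * (x * y) := rfl

theorem satPoly_add_three (q : ℕ) (x y : ℂ) (n : ℕ) :
    satPoly q x y (n + 3)
      = rt q * (x + y) * satPoly q x y (n + 2) - (q : ℂ) * (x * y) * satPoly q x y (n + 1) := rfl

theorem satPoly_closed_aux (q : ℕ) (x y : ℂ) (n : ℕ) :
    (satPoly q x y (n + 2) = rt q ^ (n + 2) * hS (n + 2) x y - rt q ^ n * (x * y) * hS n x y) ∧
    (satPoly q x y (n + 3)
      = rt q ^ (n + 3) * hS (n + 3) x y - rt q ^ (n + 1) * (x * y) * hS (n + 1) x y) := by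
  have hr := rt_sq q
  induction n with
  | zero =>
    have h2 : satPoly q x y 2 = rt q ^ 2 * hS 2 x y - rt q ^ 0 * (x * y) * hS 0 x y := by
      rw [satPoly_two, hS_rec 0, hS_one, hS_zero, ← hr]; ring
    refine ⟨h2, ?_⟩
    rw [satPoly_add_three, h2, satPoly_one, hS_rec 1, hS_rec 0, hS_one, hS_zero, ← hr]; ring
  | succ n ih =>
    refine ⟨ih.2, ?_⟩
    rw [satPoly_add_three, ih.2, ih.1, hS_rec (n + 2), hS_rec (n + 1), hS_rec n, ← hr]
    ring

theorem satPoly_closed (q : ℕ) (x y : ℂ) (n : ℕ) :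
    satPoly q x y (n + 2) = rt q ^ (n + 2) * hS (n + 2) x y - rt q ^ n * (x * y) * hS n x y :=
  (satPoly_closed_aux q x y n).1

/-! ## Satake transforms of dominant functions supported on `l ∣ a + b` -/

/-- `g` is, on `{x ≠ 0, y ≠ 0}`, the Satake transform (at level `q`) of a dominant finitely
supported function whose support lies in `{(a, b) : l ∣ a + b}`. -/
def Rep (l q : ℕ) (g : ℂ → ℂ → ℂ) : Prop :=
  ∃ f : (ℤ × ℤ) →₀ ℂ, IsDominant f ∧ (∀ lam ∈ f.support, (l : ℤ) ∣ lam.1 + lam.2) ∧
    ∀ x y : ℂ, x ≠ 0 → y ≠ 0 → (f.sum fun lam c => c * satake q lam x y) = g x y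

variable {l q : ℕ}

theorem Rep.congr {g g' : ℂ → ℂ → ℂ} (h : Rep l q g)
    (hg : ∀ x y : ℂ, x ≠ 0 → y ≠ 0 → g x y = g' x y) : Rep l q g' := by
  obtain ⟨f, hd, hl, hf⟩ := h
  exact ⟨f, hd, hl, fun x y hx hy => (hf x y hx hy).trans (hg x y hx hy)⟩

theorem Rep.zero : Rep l q (fun _ _ => 0) := by
  refine ⟨0, ?_, ?_, ?_⟩
  · intro lam h; simp at h
  · intro lam h; simp at h
  · intro x y _ _; simp

theorem Rep.add {g₁ g₂ : ℂ → ℂ → ℂ} (h₁ : Rep l q g₁) (h₂ : Rep l q g₂) :
    Rep l q (fun x y => g₁ x y + g₂ x y) := by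
  classical
  obtain ⟨f₁, hd₁, hl₁, hf₁⟩ := h₁
  obtain ⟨f₂, hd₂, hl₂, hf₂⟩ := h₂
  refine ⟨f₁ + f₂, ?_, ?_, ?_⟩
  · intro lam h
    rcases Finset.mem_union.mp (Finsupp.support_add h) with h | h
    · exact hd₁ lam h
    · exact hd₂ lam h
  · intro lam h
    rcases Finset.mem_union.mp (Finsupp.support_add h) with h | h
    · exact hl₁ lam h
    · exact hl₂ lam h
  · intro x y hx hy
    rw [Finsupp.sum_add_index' (fun _ => zero_mul _) (fun _ _ _ => add_mul _ _ _),
      hf₁ x y hx hy, hf₂ x y hx hy]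

theorem Rep.smul {g : ℂ → ℂ → ℂ} (c : ℂ) (h : Rep l q g) :
    Rep l q (fun x y => c * g x y) := by
  classical
  obtain ⟨f, hd, hl, hf⟩ := h
  refine ⟨c • f, ?_, ?_, ?_⟩
  · intro lam h
    exact hd lam (Finsupp.support_smul h)
  · intro lam h
    exact hl lam (Finsupp.support_smul h)
  · intro x y hx hy
    show ((c • f).sum fun lam c => c * satake q lam x y) = c * g x y
    rw [Finsupp.sum_smul_index' (fun _ => zero_mul _), ← hf x y hx hy, Finsupp.mul_sum]
    apply Finsupp.sum_congr
    intro lam _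
    rw [smul_eq_mul, mul_assoc]

theorem Rep.single (lam : ℤ × ℤ) (hd : lam.2 ≤ lam.1) (hl : (l : ℤ) ∣ lam.1 + lam.2) :
    Rep l q (fun x y => satake q lam x y) := by
  classical
  refine ⟨Finsupp.single lam 1, ?_, ?_, ?_⟩
  · intro mu h
    have := Finset.mem_singleton.mp (Finsupp.support_single_subset h)
    rw [this]; exact hd
  · intro mu h
    have := Finset.mem_singleton.mp (Finsupp.support_single_subset h)
    rw [this]; exact hl
  · intro x y _ _
    rw [Finsupp.sum_single_index (zero_mul _), one_mul]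

theorem Rep.finset_sum {ι : Type} (s : Finset ι) (g : ι → ℂ → ℂ → ℂ)
    (h : ∀ i ∈ s, Rep l q (g i)) : Rep l q (fun x y => ∑ i ∈ s, g i x y) := by
  classical
  induction s using Finset.induction_on with
  | empty => simpa using (Rep.zero : Rep l q (fun _ _ => 0))
  | insert a s ha ih =>
    have h1 : Rep l q (g a) := h a (Finset.mem_insert_self a s)
    have h2 : Rep l q (fun x y => ∑ i ∈ s, g i x y) :=
      ih (fun i hi => h i (Finset.mem_insert_of_mem hi))
    refine (h1.add h2).congr ?_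
    intro x y _ _
    rw [Finset.sum_insert ha]

/-! ## Schur functions are Satake transforms -/

theorem satake_shift (q : ℕ) (d : ℤ) (m : ℕ) (x y : ℂ) :
    satake q (d + (m : ℤ), d) x y = (x * y) ^ d * satPoly q x y m := by
  unfold satake
  simp

theorem rep_satake_shift (d : ℤ) (m : ℕ) (h : (l : ℤ) ∣ 2 * d + (m : ℤ)) :
    Rep l q (fun x y => (x * y) ^ d * satPoly q x y m) := by
  refine (Rep.single (l := l) (q := q) (d + (m : ℤ), d) ?_ ?_).congr ?_
  · show d ≤ d + (m : ℤ)
    omega
  · show (l : ℤ) ∣ d + (m : ℤ) + d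
    have e : d + (m : ℤ) + d = 2 * d + (m : ℤ) := by ring
    rw [e]; exact h
  · intro x y _ _
    exact satake_shift q d m x y

/-- The Schur function `(x y)^d h_m(x, y)` is a Satake transform at level `q`. -/
theorem rep_schur (hq : 0 < q) (m : ℕ) :
    ∀ d : ℤ, (l : ℤ) ∣ 2 * d + (m : ℤ) → Rep l q (fun x y => (x * y) ^ d * hS m x y) := by
  have hr : rt q ≠ 0 := rt_ne_zero hq
  induction m using Nat.twoStepInduction with
  | zero =>
    intro d hd
    refine (rep_satake_shift (l := l) (q := q) d 0 hd).congr ?_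
    intro x y _ _
    rw [satPoly_zero, hS_zero]
  | one =>
    intro d hd
    refine ((rep_satake_shift (l := l) (q := q) d 1 hd).smul (rt q)⁻¹).congr ?_
    intro x y _ _
    rw [satPoly_one, hS_one]
    field_simp
  | more m ih0 _ =>
    intro d hd
    have h1 : Rep l q (fun x y => (x * y) ^ d * satPoly q x y (m + 2)) :=
      rep_satake_shift d (m + 2) hd
    have h2 : Rep l q (fun x y => (x * y) ^ (d + 1) * hS m x y) := by
      refine ih0 (d + 1) ?_
      have e : 2 * (d + 1) + (m : ℤ) = 2 * d + ((m + 2 : ℕ) : ℤ) := by push_cast; ring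
      rw [e]; exact hd
    refine ((h1.add (h2.smul (rt q ^ m))).smul (rt q ^ (m + 2))⁻¹).congr ?_
    intro x y hx hy
    have hxy : x * y ≠ 0 := mul_ne_zero hx hy
    have hrm : rt q ^ (m + 2) ≠ 0 := pow_ne_zero _ hr
    show (rt q ^ (m + 2))⁻¹ * ((x * y) ^ d * satPoly q x y (m + 2)
        + rt q ^ m * ((x * y) ^ (d + 1) * hS m x y)) = (x * y) ^ d * hS (m + 2) x y
    rw [satPoly_closed, zpow_add_one₀ hxy]
    field_simp
    ring

/-- The power sums `(x y)^d (x^m + y^m)` are Satake transforms at level `q`. -/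
theorem rep_powsum (hq : 0 < q) (m : ℕ) (d : ℤ) (h : (l : ℤ) ∣ 2 * d + (m : ℤ)) :
    Rep l q (fun x y => (x * y) ^ d * (x ^ m + y ^ m)) := by
  match m, h with
  | 0, h =>
    refine ((rep_schur hq 0 d h).smul 2).congr ?_
    intro x y _ _
    show 2 * ((x * y) ^ d * hS 0 x y) = (x * y) ^ d * (x ^ 0 + y ^ 0)
    rw [hS_zero, pow_zero, pow_zero]; ring
  | 1, h =>
    refine (rep_schur hq 1 d h).congr ?_
    intro x y _ _
    show (x * y) ^ d * hS 1 x y = (x * y) ^ d * (x ^ 1 + y ^ 1)
    rw [hS_one, pow_one, pow_one]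
  | m + 2, h =>
    have h1 := rep_schur (l := l) hq (m + 2) d h
    have h2 : Rep l q (fun x y => (x * y) ^ (d + 1) * hS m x y) := by
      refine rep_schur hq m (d + 1) ?_
      have e : 2 * (d + 1) + (m : ℤ) = 2 * d + ((m + 2 : ℕ) : ℤ) := by push_cast; ring
      rw [e]; exact h
    refine (h1.add (h2.smul (-1))).congr ?_
    intro x y hx hy
    have hxy : x * y ≠ 0 := mul_ne_zero hx hy
    show (x * y) ^ d * hS (m + 2) x y + -1 * ((x * y) ^ (d + 1) * hS m x y)
      = (x * y) ^ d * (x ^ (m + 2) + y ^ (m + 2))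
    rw [hS_add_two, zpow_add_one₀ hxy]
    ring

/-! ## The base-changed functions -/

theorem zpow_pow_mul (l : ℕ) (d : ℤ) (x y : ℂ) :
    (x ^ l * y ^ l) ^ d = (x * y) ^ ((l : ℤ) * d) := by
  rw [zpow_mul, zpow_natCast, mul_pow]

/-- `(x^l y^l)^d h_n(x^l, y^l)` is a Satake transform at level `q` of a function supported on
`l ∣ a + b`. -/
theorem rep_target_schur (hq : 0 < q) (n : ℕ) :
    ∀ d : ℤ, Rep l q (fun x y => (x ^ l * y ^ l) ^ d * hS n (x ^ l) (y ^ l)) := by
  induction n using Nat.twoStepInduction with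
  | zero =>
    intro d
    have h0 : (l : ℤ) ∣ 2 * ((l : ℤ) * d) + ((0 : ℕ) : ℤ) :=
      ⟨2 * d, by push_cast; ring⟩
    refine ((rep_powsum hq 0 ((l : ℤ) * d) h0).smul (1 / 2)).congr ?_
    intro x y _ _
    show 1 / 2 * ((x * y) ^ ((l : ℤ) * d) * (x ^ 0 + y ^ 0))
      = (x ^ l * y ^ l) ^ d * hS 0 (x ^ l) (y ^ l)
    rw [hS_zero, zpow_pow_mul, pow_zero, pow_zero]; ring
  | one =>
    intro d
    have h0 : (l : ℤ) ∣ 2 * ((l : ℤ) * d) + (l : ℤ) :=
      ⟨2 * d + 1, by ring⟩
    refine (rep_powsum hq l ((l : ℤ) * d) h0).congr ?_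
    intro x y _ _
    show (x * y) ^ ((l : ℤ) * d) * (x ^ l + y ^ l)
      = (x ^ l * y ^ l) ^ d * hS 1 (x ^ l) (y ^ l)
    rw [hS_one, zpow_pow_mul]
  | more n ih0 _ =>
    intro d
    have h0 : (l : ℤ) ∣ 2 * ((l : ℤ) * d) + ((l * (n + 2) : ℕ) : ℤ) :=
      ⟨2 * d + ((n : ℤ) + 2), by push_cast; ring⟩
    have h1 := rep_powsum (l := l) hq (l * (n + 2)) ((l : ℤ) * d) h0
    have h2 := ih0 (d + 1)
    refine (h1.add h2).congr ?_
    intro x y hx hy
    have hxy : x ^ l * y ^ l ≠ 0 := mul_ne_zero (pow_ne_zero _ hx) (pow_ne_zero _ hy)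
    show (x * y) ^ ((l : ℤ) * d) * (x ^ (l * (n + 2)) + y ^ (l * (n + 2)))
        + (x ^ l * y ^ l) ^ (d + 1) * hS n (x ^ l) (y ^ l)
      = (x ^ l * y ^ l) ^ d * hS (n + 2) (x ^ l) (y ^ l)
    rw [hS_add_two, zpow_add_one₀ hxy, ← zpow_pow_mul, pow_mul, pow_mul]
    ring

/-- `φ ↦ satake (q^l) lam (x^l) (y^l)` is a Satake transform at level `q` of a dominant function
supported on `l ∣ a + b`. -/
theorem rep_target (hq : 0 < q) (lam : ℤ × ℤ) :
    Rep l q (fun x y => satake (q ^ l) lam (x ^ l) (y ^ l)) := by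
  show Rep l q (fun x y =>
    (x ^ l * y ^ l) ^ lam.2 * satPoly (q ^ l) (x ^ l) (y ^ l) (lam.1 - lam.2).toNat)
  generalize (lam.1 - lam.2).toNat = n
  match n with
  | 0 =>
    refine (rep_target_schur hq 0 lam.2).congr ?_
    intro x y _ _
    rw [satPoly_zero, hS_zero]
  | 1 =>
    refine ((rep_target_schur hq 1 lam.2).smul (rt (q ^ l))).congr ?_
    intro x y _ _
    show rt (q ^ l) * ((x ^ l * y ^ l) ^ lam.2 * hS 1 (x ^ l) (y ^ l))
      = (x ^ l * y ^ l) ^ lam.2 * satPoly (q ^ l) (x ^ l) (y ^ l) 1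
    rw [satPoly_one, hS_one]; ring
  | n + 2 =>
    have h1 := rep_target_schur (l := l) hq (n + 2) lam.2
    have h2 := rep_target_schur (l := l) hq n (lam.2 + 1)
    refine ((h1.smul (rt (q ^ l) ^ (n + 2))).add (h2.smul (-(rt (q ^ l) ^ n)))).congr ?_
    intro x y hx hy
    have hxy : x ^ l * y ^ l ≠ 0 := mul_ne_zero (pow_ne_zero _ hx) (pow_ne_zero _ hy)
    show rt (q ^ l) ^ (n + 2) * ((x ^ l * y ^ l) ^ lam.2 * hS (n + 2) (x ^ l) (y ^ l))
        + -(rt (q ^ l) ^ n) * ((x ^ l * y ^ l) ^ (lam.2 + 1) * hS n (x ^ l) (y ^ l))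
      = (x ^ l * y ^ l) ^ lam.2 * satPoly (q ^ l) (x ^ l) (y ^ l) (n + 2)
    rw [satPoly_closed, zpow_add_one₀ hxy]
    ring

/-! ## The leaf -/

/-- **T6.11 / T6.B4** (`BCExistsC`): every spherical function `φ` for the unramified extension of
degree `l` has a base change `f = b(φ)`, which is dominant and supported on `l ∣ a + b`. -/
theorem bcExistsC999 : BCExistsC := by
  intro l q _ hq φ _
  have hq0 : 0 < q := by omega
  obtain ⟨f, hd, hl, hf⟩ := Rep.finset_sum (l := l) (q := q) φ.support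
    (fun lam x y => φ lam * satake (q ^ l) lam (x ^ l) (y ^ l))
    (fun lam _ => (rep_target hq0 lam).smul (φ lam))
  exact ⟨f, hd, fun x y hx hy => hf x y hx hy, hl⟩

end Fermat.Agent.LT.T6.H999

end
end
-- ===== PACK-END LT/T6/H999/BCExists.lean

-- ===== PACK-BEGIN LT/T6/Inf/H434/SmoothShear.lean
section



/-!
# Row LT, sub-tower T6inf, leaf T6inf.04.2 `SmoothC811` -- SPARE (helper434), part 2: THE SHEAR

OFF-MAIN.  Mathlib only.  The shear `τ_{θ,t}` of `ℝ²` preserves Lebesgue measure, its inverse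
`σ_{θ,t}`, the value of a function of weight `n` along `P(y) k_θ a_t`, continuity of `y ↦ P(y)`.
-/

set_option autoImplicit false

open MeasureTheory
open scoped Matrix

noncomputable section

namespace Fermat.Agent.LT.T6.Inf.H434

/-- The character `k_θ ↦ e^{i n θ}` of `SO(2)`. -/
def wtf434 (n : ℤ) (θ : ℝ) : ℂ := Complex.exp (((n : ℤ) : ℂ) * ((θ : ℝ) : ℂ) * Complex.I)

/-- The inverse shear `σ_{θ,t}(η, ξ) = (η + log D, ξ - e^η s c (e^{-t} - e^{t}))`. -/
def sig434 (θ t : ℝ) (y : ℝ × ℝ) : ℝ × ℝ :=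
  (y.1 + Real.log (dd434 θ t),
    y.2 - Real.exp y.1 * (Real.sin θ * Real.cos θ * (Real.exp (-t) - Real.exp t)))

theorem sig_tau434 (θ t : ℝ) (y : ℝ × ℝ) : sig434 θ t (tau434 θ t y) = y := by
  obtain ⟨η, ξ⟩ := y
  have hD := dd_pos434 θ t
  unfold sig434 tau434
  simp only
  have h1 : Real.exp (η - Real.log (dd434 θ t)) = Real.exp η / dd434 θ t := by
    rw [Real.exp_sub, Real.exp_log hD]
  rw [h1]
  ext
  · simp
  · simp only
    field_simp
    ring

theorem tau_sig434 (θ t : ℝ) (y : ℝ × ℝ) : tau434 θ t (sig434 θ t y) = y := by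
  obtain ⟨η, ξ⟩ := y
  have hD := dd_pos434 θ t
  unfold sig434 tau434
  simp only
  have h1 : Real.exp (η + Real.log (dd434 θ t)) = Real.exp η * dd434 θ t := by
    rw [Real.exp_add, Real.exp_log hD]
  rw [h1]
  ext
  · simp
  · simp only
    field_simp
    ring

theorem measurePreserving_tau434 (θ t : ℝ) :
    MeasurePreserving (tau434 θ t) (volume : Measure (ℝ × ℝ)) volume := by
  have h1 : MeasurePreserving (fun η : ℝ => η + -Real.log (dd434 θ t)) volume volume :=
    measurePreserving_add_right volume _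
  have h2 : Measurable (Function.uncurry fun (η : ℝ) (ξ : ℝ) =>
      ξ + Real.exp η * (Real.sin θ * Real.cos θ * (Real.exp (-t) - Real.exp t) / dd434 θ t)) := by
    apply Continuous.measurable
    unfold Function.uncurry
    fun_prop
  have h3 := h1.skew_product (μc := (volume : Measure ℝ)) (μd := (volume : Measure ℝ)) h2
    (Filter.Eventually.of_forall fun η => map_add_right_eq_self volume _)
  have h4 : tau434 θ t = fun p : ℝ × ℝ => (p.1 + -Real.log (dd434 θ t),
      p.2 + Real.exp p.1 * (Real.sin θ * Real.cos θ * (Real.exp (-t) - Real.exp t)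
        / dd434 θ t)) := by
    funext p
    unfold tau434
    rw [sub_eq_add_neg]
  rw [h4, Measure.volume_eq_prod]
  exact h3

/-- Change of variables along the shear. -/
theorem integral_comp_tau434 (θ t : ℝ) (h : ℝ × ℝ → ℂ) (hh : Continuous h) :
    ∫ y, h (tau434 θ t y) = ∫ y, h y := by
  have hmp := measurePreserving_tau434 θ t
  have := integral_map (μ := (volume : Measure (ℝ × ℝ))) (φ := tau434 θ t)
    hmp.measurable.aemeasurable (f := h) hh.aestronglyMeasurable
  rw [hmp.map_eq] at this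
  exact this.symm

theorem continuous_bor434 : Continuous bor434 := by
  rw [Units.continuous_iff]
  constructor
  · show Continuous fun y : ℝ × ℝ => ((bor434 y : GL (Fin 2) ℝ) : Matrix (Fin 2) (Fin 2) ℝ)
    simp only [coe_bor434]
    apply continuous_matrix
    intro i j
    fin_cases i <;> fin_cases j <;> simp <;> fun_prop
  · show Continuous fun y : ℝ × ℝ => (((bor434 y)⁻¹ : GL (Fin 2) ℝ) : Matrix (Fin 2) (Fin 2) ℝ)
    simp only [coe_inv_bor434]
    apply continuous_matrix
    intro i j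
    fin_cases i <;> fin_cases j <;> simp <;> fun_prop

/-- The value of a function of weight `n` along `P(y) k_θ a_t`. -/
theorem eval_shift434 {n : ℤ} {e : GL (Fin 2) ℝ → ℂ}
    (hw : ∀ (θ : ℝ) (k g : GL (Fin 2) ℝ), (k : Matrix (Fin 2) (Fin 2) ℝ) = rotM434 θ →
      e (g * k) = wtf434 n θ * e g)
    (θ t : ℝ) (y : ℝ × ℝ) (K A : GL (Fin 2) ℝ)
    (hK : (K : Matrix (Fin 2) (Fin 2) ℝ) = rotM434 θ)
    (hA : (A : Matrix (Fin 2) (Fin 2) ℝ) = torM434 t) :
    e (bor434 y * (K * A)) = ww434 θ t ^ n * e (bor434 (tau434 θ t y)) := by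
  rw [bor_mul_rot_tor434 θ t y K A hK hA,
    hw (beta434 θ t) (rotU434 (beta434 θ t)) _ (coe_rotU434 _)]
  congr 1
  unfold wtf434
  rw [mul_assoc, Complex.exp_int_mul, exp_beta434]

end Fermat.Agent.LT.T6.Inf.H434

end

end
-- ===== PACK-END LT/T6/Inf/H434/SmoothShear.lean

-- ===== PACK-BEGIN LT/T7/H194/Orb/SuppTop.lean
section



/-!
# Row LT, tower T7, station C2.7 (cut-off integrals): ASSET, closed orbits of regular elements of
`GL₂` -- the topology (helper194)

OFF-MAIN.  Mathlib only.  No hole, nothing assumed.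

    exists_compact_conj194 : γ ∈ GL₂(k) with discriminant ≠ 0, `Kc ⊆ GL₂(k)` compact:
        there is a compact `C` with `{y : y⁻¹ γ y ∈ Kc} ⊆ Z(γ) C`

for EVERY Hausdorff topological field `k` (`ℂ`, `ℝ`, the completions `K_v`): the orbit map
`Z(γ) \ GL₂(k) → GL₂(k)` of a regular element is proper.  Proof: the elements of `Kc` with the
trace and determinant of `γ` form a compact set `D`; it is covered by the three open sets
`det N_i ≠ 0` (`CycAlg.lean`), hence by three compact sets `v_i` inside them (shrinking lemma);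
`κ ↦ n_{i₀}(γ) n_i(κ)⁻¹` is continuous on `v_i` and conjugates `γ` to `κ`.
-/

set_option autoImplicit false
set_option linter.unusedSectionVars false
set_option linter.style.haveILetI false

noncomputable section

namespace Fermat.Agent.LT.T7.H194

open Matrix Set Topology

variable {k : Type*} [Field k] [TopologicalSpace k] [IsTopologicalDivisionRing k] [T2Space k]

theorem continuous_entryGL194 (a b : Fin 2) :
    Continuous (fun g : GL (Fin 2) k => (g : Matrix (Fin 2) (Fin 2) k) a b) :=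
  (Units.continuous_val (M := Matrix (Fin 2) (Fin 2) k)).matrix_elem a b

theorem continuous_traceGL194 :
    Continuous (fun g : GL (Fin 2) k => (g : Matrix (Fin 2) (Fin 2) k).trace) := by
  simp only [Matrix.trace_fin_two]
  exact (continuous_entryGL194 0 0).add (continuous_entryGL194 1 1)

theorem continuous_detGL194 :
    Continuous (fun g : GL (Fin 2) k => (g : Matrix (Fin 2) (Fin 2) k).det) := by
  simp only [Matrix.det_fin_two]
  exact ((continuous_entryGL194 0 0).mul (continuous_entryGL194 1 1)).sub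
    ((continuous_entryGL194 0 1).mul (continuous_entryGL194 1 0))

theorem continuous_cycDet194 (i : Fin 3) :
    Continuous (fun g : GL (Fin 2) k => cycDet194 i (g : Matrix (Fin 2) (Fin 2) k)) := by
  fin_cases i
  · exact continuous_entryGL194 1 0
  · exact (continuous_entryGL194 0 1).neg
  · exact (((continuous_entryGL194 1 0).add (continuous_entryGL194 1 1)).sub
      (continuous_entryGL194 0 0)).sub (continuous_entryGL194 0 1)

theorem continuous_cycMat194 (i : Fin 3) :
    Continuous (fun g : GL (Fin 2) k => cycMat194 i (g : Matrix (Fin 2) (Fin 2) k)) := by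
  have h := fun a b => continuous_entryGL194 (k := k) a b
  refine continuous_matrix fun a b => ?_
  fin_cases i <;> fin_cases a <;> fin_cases b <;> simp [cycMat194] <;>
    first
      | exact continuous_const
      | exact h _ _
      | exact (h _ _).add (h _ _)

theorem continuous_cycAdj194 (i : Fin 3) :
    Continuous (fun g : GL (Fin 2) k => cycAdj194 i (g : Matrix (Fin 2) (Fin 2) k)) := by
  have h := fun a b => continuous_entryGL194 (k := k) a b
  refine continuous_matrix fun a b => ?_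
  fin_cases i <;> fin_cases a <;> fin_cases b <;> simp [cycAdj194] <;>
    first
      | exact continuous_const
      | exact h _ _
      | exact (h _ _).neg
      | exact (h _ _).add (h _ _)
      | exact ((h _ _).add (h _ _)).neg
      | exact ((h _ _).neg).sub (h _ _)
      | exact ((h _ _).neg).add ((h _ _).neg)

/-- Trace and determinant are invariant under conjugation. -/
theorem trace_conjGL194 (γ y : GL (Fin 2) k) :
    ((y⁻¹ * γ * y : GL (Fin 2) k) : Matrix (Fin 2) (Fin 2) k).trace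
      = (γ : Matrix (Fin 2) (Fin 2) k).trace := by
  rw [Units.val_mul, Units.val_mul, Matrix.trace_mul_cycle, ← Units.val_mul, mul_inv_cancel,
    Units.val_one, Matrix.one_mul]

theorem det_conjGL194 (γ y : GL (Fin 2) k) :
    ((y⁻¹ * γ * y : GL (Fin 2) k) : Matrix (Fin 2) (Fin 2) k).det
      = (γ : Matrix (Fin 2) (Fin 2) k).det := by
  have h1 : ((y⁻¹ : GL (Fin 2) k) : Matrix (Fin 2) (Fin 2) k).det
      * (y : Matrix (Fin 2) (Fin 2) k).det = 1 := by
    rw [← Matrix.det_mul, ← Units.val_mul, inv_mul_cancel, Units.val_one, Matrix.det_one]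
  rw [Units.val_mul, Units.val_mul, Matrix.det_mul, Matrix.det_mul]
  calc ((y⁻¹ : GL (Fin 2) k) : Matrix (Fin 2) (Fin 2) k).det
        * (γ : Matrix (Fin 2) (Fin 2) k).det * (y : Matrix (Fin 2) (Fin 2) k).det
      = (γ : Matrix (Fin 2) (Fin 2) k).det
        * (((y⁻¹ : GL (Fin 2) k) : Matrix (Fin 2) (Fin 2) k).det
          * (y : Matrix (Fin 2) (Fin 2) k).det) := by ring
    _ = (γ : Matrix (Fin 2) (Fin 2) k).det := by rw [h1, mul_one]

/-- **Closed orbits of regular elements: the orbit map is proper.** -/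
theorem exists_compact_conj194 (γ : GL (Fin 2) k)
    (hγ : (γ : Matrix (Fin 2) (Fin 2) k).trace ^ 2 - 4 * (γ : Matrix (Fin 2) (Fin 2) k).det ≠ 0)
    {Kc : Set (GL (Fin 2) k)} (hK : IsCompact Kc) :
    ∃ C : Set (GL (Fin 2) k), IsCompact C ∧
      ∀ y : GL (Fin 2) k, y⁻¹ * γ * y ∈ Kc →
        ∃ t : GL (Fin 2) k, t⁻¹ * γ * t = γ ∧ ∃ c ∈ C, y = t * c := by
  -- the base point
  obtain ⟨i₀, hi₀⟩ : ∃ i : Fin 3, cycDet194 i (γ : Matrix (Fin 2) (Fin 2) k) ≠ 0 := by
    by_contra hcon
    exact hγ (disc_eq_zero_of_cycDet194 _ fun i => by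
      by_contra h
      exact hcon ⟨i, h⟩)
  -- the compact set `D`
  set D : Set (GL (Fin 2) k) := Kc ∩ {κ | (κ : Matrix (Fin 2) (Fin 2) k).trace
      = (γ : Matrix (Fin 2) (Fin 2) k).trace ∧ (κ : Matrix (Fin 2) (Fin 2) k).det
      = (γ : Matrix (Fin 2) (Fin 2) k).det} with hD
  have hDc : IsCompact D := by
    refine hK.inter_right ?_
    exact (isClosed_eq continuous_traceGL194 continuous_const).inter
      (isClosed_eq continuous_detGL194 continuous_const)
  haveI : CompactSpace D := isCompact_iff_compactSpace.mp hDc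
  -- the open cover
  set u : Fin 3 → Set D := fun i => {x | cycDet194 i ((x : GL (Fin 2) k) :
    Matrix (Fin 2) (Fin 2) k) ≠ 0} with hu
  have huo : ∀ i, IsOpen (u i) := fun i =>
    isOpen_ne_fun ((continuous_cycDet194 i).comp continuous_subtype_val) continuous_const
  have huU : ⋃ i, u i = univ := by
    refine eq_univ_of_forall fun x => ?_
    have hx : ∃ i : Fin 3, cycDet194 i ((x : GL (Fin 2) k) : Matrix (Fin 2) (Fin 2) k) ≠ 0 := by
      by_contra hcon
      have h0 := disc_eq_zero_of_cycDet194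
        (((x : GL (Fin 2) k) : Matrix (Fin 2) (Fin 2) k)) fun i => by
          by_contra h
          exact hcon ⟨i, h⟩
      rw [x.2.2.1, x.2.2.2] at h0
      exact hγ h0
    obtain ⟨i, hi⟩ := hx
    exact mem_iUnion.2 ⟨i, hi⟩
  obtain ⟨v, hvU, hvc, hvu⟩ := exists_iUnion_eq_closed_subset huo
    (fun x => Set.toFinite _) huU
  haveI : ∀ i, CompactSpace (v i) := fun i => isCompact_iff_compactSpace.mp (hvc i).isCompact
  -- the continuous sections
  set Φ : ∀ i, v i → GL (Fin 2) k := fun i x =>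
    cycGL194 i (((x : D) : GL (Fin 2) k) : Matrix (Fin 2) (Fin 2) k) (hvu i x.2) with hΦ
  have hΦc : ∀ i, Continuous (Φ i) := by
    intro i
    rw [Units.continuous_iff]
    constructor
    · exact (continuous_cycMat194 i).comp (continuous_subtype_val.comp continuous_subtype_val)
    · have h1 : Continuous (fun x : v i =>
          (cycDet194 i (((x : D) : GL (Fin 2) k) : Matrix (Fin 2) (Fin 2) k))⁻¹) :=
        ((continuous_cycDet194 i).comp
          (continuous_subtype_val.comp continuous_subtype_val)).inv₀ (fun x => hvu i x.2)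
      have h2 : Continuous (fun x : v i =>
          cycAdj194 i (((x : D) : GL (Fin 2) k) : Matrix (Fin 2) (Fin 2) k)) :=
        (continuous_cycAdj194 i).comp (continuous_subtype_val.comp continuous_subtype_val)
      exact h1.smul h2
  set nγ : GL (Fin 2) k := cycGL194 i₀ (γ : Matrix (Fin 2) (Fin 2) k) hi₀ with hnγ
  refine ⟨⋃ i, range (fun x : v i => nγ * (Φ i x)⁻¹), ?_, ?_⟩
  · exact isCompact_iUnion fun i =>
      isCompact_range (continuous_const.mul (hΦc i).inv)
  · intro y hy
    have hyD : y⁻¹ * γ * y ∈ D := ⟨hy, trace_conjGL194 γ y, det_conjGL194 γ y⟩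
    obtain ⟨i, hi⟩ : ∃ i, (⟨y⁻¹ * γ * y, hyD⟩ : D) ∈ v i := by
      have : (⟨y⁻¹ * γ * y, hyD⟩ : D) ∈ ⋃ i, v i := by
        rw [hvU]
        exact mem_univ _
      exact mem_iUnion.1 this
    set c : GL (Fin 2) k := nγ * (Φ i ⟨⟨y⁻¹ * γ * y, hyD⟩, hi⟩)⁻¹ with hc
    have hconj : c⁻¹ * γ * c = y⁻¹ * γ * y :=
      conj_cycGL194 i₀ i γ (y⁻¹ * γ * y) (trace_conjGL194 γ y).symm (det_conjGL194 γ y).symm
        hi₀ (hvu i hi)
    refine ⟨y * c⁻¹, ?_, c, mem_iUnion.2 ⟨i, ⟨⟨⟨y⁻¹ * γ * y, hyD⟩, hi⟩, rfl⟩⟩, ?_⟩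
    · calc (y * c⁻¹)⁻¹ * γ * (y * c⁻¹) = c * (y⁻¹ * γ * y) * c⁻¹ := by group
        _ = c * (c⁻¹ * γ * c) * c⁻¹ := by rw [hconj]
        _ = γ := by group
    · group

end Fermat.Agent.LT.T7.H194

end

end
-- ===== PACK-END LT/T7/H194/Orb/SuppTop.lean

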