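import Mathlib
import Fermat.Prelude.Def_AutomorphicForm_HeckeEigensystem
import Fermat.Agent.Pack.LT3.E0L0
import Fermat.Agent.Pack.LT3.E0L3
import Fermat.Agent.Pack.LT2.E0L1
import Fermat.Agent.Pack.LT3.E0L2
import Fermat.Agent.Pack.LT3.E1L0

set_option linter.all false

-- ===== PACK-BEGIN LT/CFT/H233/EQCount.lean
section



/-!
# Row LT, tower CFT, sub-tower EX, row CFT.16.E1.C.0 (spare TOP, helper233), part T2:
# the COUNT `EQ.CountNC`

OFF-MAIN, Mathlib + `H476/EQSpec.lean` only.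

`countNC_of_leaves233 : CharBoundC → ParityC → UnitRedC → SUnitSqC → CountNC`:
`[Kˣ : sq · sUnit · ray] · [sq · sUnit · ray : sq · ray] = [Kˣ : sq · ray]
  = [Kˣ : sq · unitAt] · [sq · unitAt : sq · ray] ≤ 2^|S| · 2^|S| · 2^[K:ℚ]`, and
`[sq · sUnit · ray : sq · ray] ≥ 2^(|S| + r₂)` by `SUnitSqC` and `Ш = 1`.
-/

set_option autoImplicit false
set_option linter.style.haveILetI false
set_option linter.unusedSectionVars false

open IsDedekindDomain NumberField

noncomputable section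

namespace Fermat.Agent.LT.CFT.H233

open Fermat.Agent.LT.CFT

/-- `[K : ℚ] = 2 r₂` for a totally complex field. -/
theorem finrank_eq_two_mul233 (K : Type) [Field K] [NumberField K] (hTC : EQ.TotCplx K) :
    Module.finrank ℚ K = 2 * InfinitePlace.nrComplexPlaces K := by
  classical
  have h0 : InfinitePlace.nrRealPlaces K = 0 := by
    unfold InfinitePlace.nrRealPlaces
    rw [Fintype.card_eq_zero_iff]
    exact ⟨fun w => (InfinitePlace.not_isReal_iff_isComplex.2 (hTC w.1)) w.2⟩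
  have h1 := InfinitePlace.card_add_two_mul_card_eq_rank K
  rw [h0, zero_add] at h1
  exact h1.symm

/-- The ray is contained in the group generated by the integers prime to `S` (`n ≥ 1`). -/
theorem rayG_le_unitAtG233 {K : Type} [Field K] [NumberField K]
    (S : Finset (HeightOneSpectrum (𝓞 K))) (n : ℕ) (hn : 1 ≤ n) :
    EQ.rayG S n ≤ EQ.unitAtG S := by
  classical
  unfold EQ.rayG EQ.unitAtG
  apply Subgroup.closure_mono
  rintro x ⟨a, ha, hx⟩
  refine ⟨a, ?_, hx⟩
  intro v hv hav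
  have h1 : EQ.fS S n ≤ v.asIdeal := by
    unfold EQ.fS
    apply Ideal.le_of_dvd
    exact dvd_trans (dvd_pow_self _ (by omega : n ≠ 0))
      (Finset.dvd_prod_of_mem (fun v : HeightOneSpectrum (𝓞 K) => v.asIdeal ^ n) hv)
  have h2 : a - 1 ∈ v.asIdeal := h1 ha
  have h3 : (1 : 𝓞 K) ∈ v.asIdeal := by
    have := v.asIdeal.sub_mem hav h2
    simpa using this
  exact v.isPrime.ne_top ((Ideal.eq_top_iff_one _).mpr h3)

/-- The unit of `K` attached to a nonzero integer. -/
def unitOf233 {K : Type} [Field K] [NumberField K] (u : 𝓞 K) (hu : u ≠ 0) : Kˣ :=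
  Units.mk0 (algebraMap (𝓞 K) K u)
    (fun h => hu ((FaithfulSMul.algebraMap_injective (𝓞 K) K) (by rw [h, map_zero])))

theorem unitOf233_mem {K : Type} [Field K] [NumberField K]
    (S : Finset (HeightOneSpectrum (𝓞 K))) (u : 𝓞 K) (hu : EQ.IsSInt S u) :
    unitOf233 u hu.1 ∈ EQ.sUnitG S :=
  Subgroup.subset_closure ⟨u, hu, rfl⟩

/-- `a⁻¹ b (a a) = a b` in a commutative group. -/
theorem inv_mul_mul_self233 {G : Type*} [CommGroup G] (a b : G) :
    a⁻¹ * b * (a * a) = a * b := by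
  rw [mul_comm a⁻¹ b, mul_assoc, ← mul_assoc a⁻¹ a a, inv_mul_cancel, one_mul, mul_comm]

/-- **T2: the COUNT.** -/
theorem countNC_of_leaves233 (hchar : EQ.CharBoundC) (hpar : EQ.ParityC) (hred : EQ.UnitRedC)
    (hsu : EQ.SUnitSqC) : EQ.CountNC := by
  classical
  intro K _ _ hTC S n hn hgen hsha
  set sq := EQ.sqG K with hsq
  set su := EQ.sUnitG S with hsu'
  set ray := EQ.rayG S n with hray
  set ua := EQ.unitAtG S with hua
  set A : Subgroup Kˣ := sq ⊔ ua with hA
  set B : Subgroup Kˣ := sq ⊔ ray with hB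
  set H : Subgroup Kˣ := sq ⊔ su ⊔ ray with hH
  have hBA : B ≤ A := sup_le le_sup_left (le_trans (rayG_le_unitAtG233 S n hn) le_sup_right)
  have hBH : B ≤ H := sup_le (le_trans le_sup_left le_sup_left) le_sup_right
  obtain ⟨hA0, hAle⟩ := hpar K S
  obtain ⟨hBA0, hBAle⟩ := hred K S n hn
  have hBidx : B.index = B.relIndex A * A.index := (Subgroup.relIndex_mul_index hBA).symm
  have hB0 : B.index ≠ 0 := by
    rw [hBidx]; exact mul_ne_zero hBA0 hA0
  have hBle : B.index ≤ 2 ^ S.card * 2 ^ Module.finrank ℚ K * 2 ^ S.card := by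
    rw [hBidx]; exact Nat.mul_le_mul hBAle hAle
  have hBH' : B.relIndex H * H.index = B.index := Subgroup.relIndex_mul_index hBH
  have hH0 : H.index ≠ 0 := fun h => hB0 (by rw [← hBH', h, mul_zero])
  have hBH0 : B.relIndex H ≠ 0 := fun h => hB0 (by rw [← hBH', h, zero_mul])
  -- the lower bound for `[H : B]`
  obtain ⟨U, hUcard, hUS, hUdist⟩ := hsu K hTC S
  have hlow : 2 ^ (S.card + InfinitePlace.nrComplexPlaces K) ≤ B.relIndex H := by
    rw [← hUcard]
    haveI : (B.subgroupOf H).FiniteIndex := ⟨hBH0⟩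
    haveI : Finite (↥H ⧸ B.subgroupOf H) := Subgroup.finite_quotient_of_finiteIndex
    let f : {u : 𝓞 K // u ∈ U} → ↥H ⧸ B.subgroupOf H := fun u =>
      QuotientGroup.mk (⟨unitOf233 u.1 (hUS u.1 u.2).1,
        (le_trans (le_sup_right : su ≤ sq ⊔ su) le_sup_left)
          (unitOf233_mem S u.1 (hUS u.1 u.2))⟩ : ↥H)
    have hf : Function.Injective f := by
      intro u u' huu
      by_contra hne
      have hne' : u.1 ≠ u'.1 := fun h => hne (Subtype.ext h)
      have h1 := QuotientGroup.eq.mp huu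
      rw [Subgroup.mem_subgroupOf] at h1
      have h2 : (unitOf233 u.1 (hUS u.1 u.2).1)⁻¹ * unitOf233 u'.1 (hUS u'.1 u'.2).1 ∈ B := h1
      have h3 : unitOf233 u.1 (hUS u.1 u.2).1 * unitOf233 u.1 (hUS u.1 u.2).1 ∈ B := by
        apply (le_sup_left : sq ≤ B)
        refine ⟨unitOf233 u.1 (hUS u.1 u.2).1, ?_⟩
        simp [powMonoidHom_apply, pow_two]
      have h4 : unitOf233 u.1 (hUS u.1 u.2).1 * unitOf233 u'.1 (hUS u'.1 u'.2).1 ∈ B := by
        have := B.mul_mem h2 h3
        have heq : (unitOf233 u.1 (hUS u.1 u.2).1)⁻¹ * unitOf233 u'.1 (hUS u'.1 u'.2).1 *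
            (unitOf233 u.1 (hUS u.1 u.2).1 * unitOf233 u.1 (hUS u.1 u.2).1) =
            unitOf233 u.1 (hUS u.1 u.2).1 * unitOf233 u'.1 (hUS u'.1 u'.2).1 :=
          inv_mul_mul_self233 _ _
        rw [heq] at this
        exact this
      have h5 : unitOf233 u.1 (hUS u.1 u.2).1 * unitOf233 u'.1 (hUS u'.1 u'.2).1 ∈ su :=
        su.mul_mem (unitOf233_mem S u.1 (hUS u.1 u.2)) (unitOf233_mem S u'.1 (hUS u'.1 u'.2))
      have h6 : unitOf233 u.1 (hUS u.1 u.2).1 * unitOf233 u'.1 (hUS u'.1 u'.2).1 ∈ sq :=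
        hsha ⟨h5, h4⟩
      obtain ⟨y, hy⟩ := h6
      apply hUdist u.1 u.2 u'.1 u'.2 hne'
      refine ⟨(y : K), ?_⟩
      have := congrArg (fun z : Kˣ => (z : K)) hy
      simpa [powMonoidHom_apply, unitOf233] using this
    have hcard := Nat.card_le_card_of_injective f hf
    have hcardU : Nat.card {u : 𝓞 K // u ∈ U} = U.card := by
      rw [Nat.card_eq_fintype_card, Fintype.card_coe]
    rw [hcardU] at hcard
    exact hcard
  -- arithmetic
  have hHle : H.index ≤ 2 ^ (S.card + InfinitePlace.nrComplexPlaces K) := by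
    have h1 : 2 ^ (S.card + InfinitePlace.nrComplexPlaces K) * H.index ≤
        2 ^ (S.card + InfinitePlace.nrComplexPlaces K) *
          2 ^ (S.card + InfinitePlace.nrComplexPlaces K) := by
      calc 2 ^ (S.card + InfinitePlace.nrComplexPlaces K) * H.index
          ≤ B.relIndex H * H.index := Nat.mul_le_mul_right _ hlow
        _ = B.index := hBH'
        _ ≤ 2 ^ S.card * 2 ^ Module.finrank ℚ K * 2 ^ S.card := hBle
        _ = 2 ^ (S.card + InfinitePlace.nrComplexPlaces K) *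
              2 ^ (S.card + InfinitePlace.nrComplexPlaces K) := by
            rw [finrank_eq_two_mul233 K hTC, ← pow_add, ← pow_add, ← pow_add]
            congr 1
            ring
    exact Nat.le_of_mul_le_mul_left h1 (pow_pos (by norm_num) _)
  obtain ⟨hfin, hle⟩ := hchar K S n hgen hH0
  exact ⟨hfin, le_trans hle hHle⟩

end Fermat.Agent.LT.CFT.H233

end

end
-- ===== PACK-END LT/CFT/H233/EQCount.lean

-- ===== PACK-BEGIN LT/CFT/H589/Approx.lean
section


/-!
# Row LT, tower CFT, leaf IDELE (helper589), part 2: approximation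

* `exists_close589` : density of `K` in `K_v` in terms of the valuation;
* `exists_approx589` : simultaneous approximation in `K` at finitely many finite places;
* `mem_span_of_intValuation_le589` : valuation criterion for membership in `(f)`;
* `NearOne589 f z` : the idèle `z` is `≡ 1 mod f` at the primes dividing `f`; subgroup lemmas;
* `exists_prIdele_mul_nearOne589` : weak approximation, `𝕀 = Kˣ · U_f`.
Mathlib only.
-/

set_option autoImplicit false
set_option linter.unusedSectionVars false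

open IsDedekindDomain NumberField

noncomputable section

namespace Fermat.Agent.LT.H589

variable {K : Type} [Field K] [NumberField K]

theorem coe_eq_algebraMap589 (v : HeightOneSpectrum (𝓞 K)) (x : K) :
    ((x : K) : v.adicCompletion K) = algebraMap K (v.adicCompletion K) x := by
  rw [HeightOneSpectrum.algebraMap_adicCompletion]
  rfl

theorem valued_algebraMap589 (v : HeightOneSpectrum (𝓞 K)) (x : K) :
    Valued.v (algebraMap K (v.adicCompletion K) x) = v.valuation K x := by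
  rw [← coe_eq_algebraMap589]
  exact HeightOneSpectrum.valuedAdicCompletion_eq_valuation' v x

theorem valued_algebraMap_int589 (v : HeightOneSpectrum (𝓞 K)) (r : 𝓞 K) :
    Valued.v (algebraMap K (v.adicCompletion K) (algebraMap (𝓞 K) K r)) = v.intValuation r := by
  rw [valued_algebraMap589, HeightOneSpectrum.valuation_of_algebraMap]

theorem algebraMap_int_ne_zero589 {f : 𝓞 K} (hf : f ≠ 0) : algebraMap (𝓞 K) K f ≠ 0 := by
  rw [Ne, FaithfulSMul.algebraMap_eq_zero_iff]
  exact hf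

/-- Closed balls of nonzero radius are open. -/
theorem isOpen_closedBall589 (v : HeightOneSpectrum (𝓞 K)) (t w : v.adicCompletion K)
    (hw : w ≠ 0) : IsOpen {s : v.adicCompletion K | Valued.v (s - t) ≤ Valued.v w} := by
  have h0 : (Valued.v : Valuation (v.adicCompletion K) _).restrict w ≠ 0 := by
    rw [Ne, Valuation.restrict_eq_zero_iff, Valuation.zero_iff]
    exact hw
  have h1 := Valued.isOpen_closedBall (v.adicCompletion K) h0
  have h2 : Continuous fun s : v.adicCompletion K => s - t := continuous_id.sub continuous_const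
  have h3 := h1.preimage h2
  convert h3 using 1
  ext s
  simp only [Set.mem_ofPred_eq, Set.mem_preimage]
  exact (Valuation.restrict_le_iff _).symm

/-- Density of `K` in `K_v`, in terms of the valuation. -/
theorem exists_close589 (v : HeightOneSpectrum (𝓞 K)) (t w : v.adicCompletion K) (hw : w ≠ 0) :
    ∃ y : K, Valued.v (algebraMap K (v.adicCompletion K) y - t) ≤ Valued.v w := by
  have hd := HeightOneSpectrum.denseRange_algebraMap (R := 𝓞 K) (K := K) v
  have hopen := isOpen_closedBall589 v t w hw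
  have hne : {s : v.adicCompletion K | Valued.v (s - t) ≤ Valued.v w}.Nonempty := by
    refine ⟨t, ?_⟩
    simp only [Set.mem_ofPred_eq, sub_self, map_zero]
    exact zero_le
  exact hd.exists_mem_open hopen hne

/-- Simultaneous approximation in `K` at finitely many finite places (Chinese remainder
theorem). -/
theorem exists_approx589 (S : Finset (HeightOneSpectrum (𝓞 K)))
    (y : HeightOneSpectrum (𝓞 K) → K) (n : ℕ) :
    ∃ x : K, ∀ v ∈ S, v.valuation K (x - y v) ≤ WithZero.exp (-(n : ℤ)) := by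
  classical
  obtain ⟨b, hb⟩ := IsLocalization.exist_integer_multiples_of_finset
    (nonZeroDivisors (𝓞 K)) (S.image y)
  have hb0 : (b : 𝓞 K) ≠ 0 := nonZeroDivisors.coe_ne_zero b
  have hbK : algebraMap (𝓞 K) K (b : 𝓞 K) ≠ 0 := algebraMap_int_ne_zero589 hb0
  have hr : ∀ v : HeightOneSpectrum (𝓞 K), ∃ r : 𝓞 K, v ∈ S →
      algebraMap (𝓞 K) K r = algebraMap (𝓞 K) K (b : 𝓞 K) * y v := by
    intro v
    by_cases hv : v ∈ S
    · obtain ⟨r, hr⟩ := hb (y v) (Finset.mem_image_of_mem y hv)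
      refine ⟨r, fun _ => ?_⟩
      rw [hr, Algebra.smul_def]
    · exact ⟨0, fun h => absurd h hv⟩
  choose r hr using hr
  let e : HeightOneSpectrum (𝓞 K) → ℕ := fun v =>
    n + (Associates.mk v.asIdeal).count (Associates.mk (Ideal.span {(b : 𝓞 K)})).factors
  obtain ⟨r₀, hr₀⟩ := IsDedekindDomain.exists_forall_sub_mem_ideal
    (s := S) (fun v : HeightOneSpectrum (𝓞 K) => v.asIdeal) e
    (fun v _ => v.prime) (fun v _ w _ hvw h => hvw (HeightOneSpectrum.ext h))
    (fun i => r i.1)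
  refine ⟨algebraMap (𝓞 K) K r₀ / algebraMap (𝓞 K) K (b : 𝓞 K), fun v hv => ?_⟩
  have h1 : algebraMap (𝓞 K) K r₀ / algebraMap (𝓞 K) K (b : 𝓞 K) - y v =
      algebraMap (𝓞 K) K (r₀ - r v) / algebraMap (𝓞 K) K (b : 𝓞 K) := by
    rw [map_sub, hr v hv]
    field_simp
  rw [h1, map_div₀, HeightOneSpectrum.valuation_of_algebraMap,
    HeightOneSpectrum.valuation_of_algebraMap]
  have h2 : v.intValuation (r₀ - r v) ≤ WithZero.exp (-((e v : ℕ) : ℤ)) :=
    (v.intValuation_le_pow_iff_mem _ _).mpr (hr₀ v hv)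
  have h3 : v.intValuation (b : 𝓞 K) = WithZero.exp (-(((Associates.mk v.asIdeal).count
      (Associates.mk (Ideal.span {(b : 𝓞 K)})).factors : ℕ) : ℤ)) :=
    v.intValuation_if_neg hb0
  have h4 : v.intValuation (b : 𝓞 K) ≠ 0 := v.intValuation_ne_zero _ hb0
  rw [div_le_iff₀ (zero_lt_iff.mpr h4)]
  refine h2.trans (le_of_eq ?_)
  rw [h3, ← WithZero.exp_add]
  congr 1
  simp only [e]
  push_cast
  ring

/-- Valuation criterion for membership in a principal ideal. -/
theorem mem_span_of_intValuation_le589 (r f : 𝓞 K) (hf : f ≠ 0)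
    (h : ∀ v : HeightOneSpectrum (𝓞 K), v.intValuation r ≤ v.intValuation f) :
    r ∈ Ideal.span {f} := by
  have hfK : algebraMap (𝓞 K) K f ≠ 0 := algebraMap_int_ne_zero589 hf
  have hx : ∀ v : HeightOneSpectrum (𝓞 K),
      v.valuation K (algebraMap (𝓞 K) K r / algebraMap (𝓞 K) K f) ≤ 1 := by
    intro v
    rw [map_div₀, HeightOneSpectrum.valuation_of_algebraMap,
      HeightOneSpectrum.valuation_of_algebraMap]
    have h4 : v.intValuation f ≠ 0 := v.intValuation_ne_zero _ hf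
    rw [div_le_iff₀ (zero_lt_iff.mpr h4), one_mul]
    exact h v
  obtain ⟨s, hs⟩ := HeightOneSpectrum.mem_integers_of_valuation_le_one K _ hx
  rw [Ideal.mem_span_singleton]
  refine ⟨s, ?_⟩
  apply FaithfulSMul.algebraMap_injective (𝓞 K) K
  rw [map_mul, hs]
  field_simp

/-- Converse: membership in `(f)` bounds the valuations. -/
theorem intValuation_le_of_mem_span589 (r f : 𝓞 K) (h : r ∈ Ideal.span {f})
    (v : HeightOneSpectrum (𝓞 K)) : v.intValuation r ≤ v.intValuation f := by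
  rw [Ideal.mem_span_singleton] at h
  obtain ⟨s, rfl⟩ := h
  rw [map_mul]
  exact mul_le_of_le_one_right zero_le (v.intValuation_le_one s)

/-- The set of primes dividing `f` is finite. -/
theorem finite_divisors589 (f : 𝓞 K) (hf : f ≠ 0) :
    {v : HeightOneSpectrum (𝓞 K) | v.intValuation f < 1}.Finite := by
  have hfK : algebraMap (𝓞 K) K f ≠ 0 := algebraMap_int_ne_zero589 hf
  refine (HeightOneSpectrum.Support.finite (𝓞 K) (algebraMap (𝓞 K) K f)⁻¹).subset ?_
  intro v hv
  show 1 < v.valuation K (algebraMap (𝓞 K) K f)⁻¹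
  rw [map_inv₀, HeightOneSpectrum.valuation_of_algebraMap]
  have h4 : v.intValuation f ≠ 0 := v.intValuation_ne_zero _ hf
  exact (one_lt_inv₀ (zero_lt_iff.mpr h4)).mpr hv

/-! ## The subgroup `U_f` -/

/-- The idèle `z` is `≡ 1 mod f` at the primes dividing `f`. -/
def NearOne589 (f : 𝓞 K) (z : (Adl589 K)ˣ) : Prop :=
  ∀ v : HeightOneSpectrum (𝓞 K), v.intValuation f < 1 →
    Valued.v (finComp589 v z - 1) ≤ v.intValuation f

theorem nearOne589_one (f : 𝓞 K) : NearOne589 f (1 : (Adl589 K)ˣ) := by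
  intro v _
  rw [finComp589_one, sub_self, map_zero]
  exact zero_le

theorem NearOne589.finVal_eq_one {f : 𝓞 K} {z : (Adl589 K)ˣ} (hz : NearOne589 f z)
    {v : HeightOneSpectrum (𝓞 K)} (hv : v.intValuation f < 1) : finVal589 v z = 1 := by
  have h1 : Valued.v (finComp589 v z - 1) < 1 := lt_of_le_of_lt (hz v hv) hv
  have h2 : Valued.v (finComp589 v z - 1) < Valued.v (1 : v.adicCompletion K) := by
    rw [map_one]; exact h1
  have h3 := Valuation.map_add_eq_of_lt_left (Valued.v : Valuation (v.adicCompletion K) _) h2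
  rw [add_comm, sub_add_cancel, map_one] at h3
  exact h3

theorem NearOne589.idExp_eq_zero {f : 𝓞 K} {z : (Adl589 K)ˣ} (hz : NearOne589 f z)
    {v : HeightOneSpectrum (𝓞 K)} (hv : v.intValuation f < 1) : idExp589 v z = 0 :=
  idExp589_eq_zero_of_finVal (hz.finVal_eq_one hv)

theorem NearOne589.mul {f : 𝓞 K} {z w : (Adl589 K)ˣ} (hz : NearOne589 f z)
    (hw : NearOne589 f w) : NearOne589 f (z * w) := by
  intro v hv
  have h1 : finComp589 v (z * w) - 1 =
      (finComp589 v z - 1) * finComp589 v w + (finComp589 v w - 1) := by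
    rw [finComp589_mul]; ring
  rw [h1]
  refine (Valuation.map_add _ _ _).trans (max_le ?_ (hw v hv))
  rw [map_mul]
  have h2 : Valued.v (finComp589 v w) = 1 := hw.finVal_eq_one hv
  rw [h2, mul_one]
  exact hz v hv

theorem NearOne589.inv {f : 𝓞 K} {z : (Adl589 K)ˣ} (hz : NearOne589 f z) :
    NearOne589 f z⁻¹ := by
  intro v hv
  have h0 : finComp589 v z ≠ 0 := finComp589_ne_zero v z
  have h1 : finComp589 v z⁻¹ - 1 = -((finComp589 v z - 1) * (finComp589 v z)⁻¹) := by
    rw [finComp589_inv]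
    field_simp
    ring
  rw [h1, Valuation.map_neg, map_mul, map_inv₀]
  have h2 : Valued.v (finComp589 v z) = 1 := hz.finVal_eq_one hv
  rw [h2, inv_one, mul_one]
  exact hz v hv

theorem NearOne589.div {f : 𝓞 K} {z w : (Adl589 K)ˣ} (hz : NearOne589 f z)
    (hw : NearOne589 f w) : NearOne589 f (z * w⁻¹) :=
  hz.mul hw.inv

/-! ## Principal idèles -/

/-- The principal idèle of `x ∈ Kˣ`. -/
def prIdele589 (K : Type) [Field K] [NumberField K] : Kˣ →* (Adl589 K)ˣ :=
  Units.map (algebraMap K (Adl589 K)).toMonoidHom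

theorem finComp589_prIdele (v : HeightOneSpectrum (𝓞 K)) (x : Kˣ) :
    finComp589 v (prIdele589 K x) = algebraMap K (v.adicCompletion K) (x : K) := by
  rw [← coe_eq_algebraMap589]
  rfl

theorem finVal589_prIdele (v : HeightOneSpectrum (𝓞 K)) (x : Kˣ) :
    finVal589 v (prIdele589 K x) = v.valuation K (x : K) := by
  unfold finVal589
  rw [finComp589_prIdele, valued_algebraMap589]

/-! ## Weak approximation -/

/-- A lower bound `exp (-n)` for finitely many nonzero values. -/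
theorem exists_exp_le589 (S : Finset (HeightOneSpectrum (𝓞 K)))
    (γ : HeightOneSpectrum (𝓞 K) → WithZero (Multiplicative ℤ)) (hγ : ∀ v, γ v ≠ 0) :
    ∃ n : ℕ, ∀ v ∈ S, WithZero.exp (-(n : ℤ)) ≤ γ v := by
  classical
  refine ⟨∑ v ∈ S, (WithZero.log (γ v)).natAbs, fun v hv => ?_⟩
  have h1 : γ v = WithZero.exp (WithZero.log (γ v)) := (WithZero.exp_log (hγ v)).symm
  rw [h1, WithZero.exp_le_exp]
  have h2 : (WithZero.log (γ v)).natAbs ≤ ∑ w ∈ S, (WithZero.log (γ w)).natAbs :=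
    Finset.single_le_sum (f := fun w => (WithZero.log (γ w)).natAbs) (fun _ _ => Nat.zero_le _) hv
  have h3 : -(WithZero.log (γ v)) ≤ ((WithZero.log (γ v)).natAbs : ℤ) := by
    rw [← Int.natAbs_neg]
    exact Int.le_natAbs
  have h4 : ((WithZero.log (γ v)).natAbs : ℤ) ≤ ((∑ w ∈ S, (WithZero.log (γ w)).natAbs : ℕ) : ℤ) := by
    exact_mod_cast h2
  linarith

/-- **Weak approximation**: every idèle is the product of a principal idèle and an idèle
`≡ 1 mod f`. -/
theorem exists_prIdele_mul_nearOne589 (f : 𝓞 K) (hf : f ≠ 0) (z : (Adl589 K)ˣ) :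
    ∃ x : Kˣ, NearOne589 f (prIdele589 K x * z) := by
  classical
  let S : Finset (HeightOneSpectrum (𝓞 K)) := (finite_divisors589 f hf).toFinset
  have hS : ∀ v : HeightOneSpectrum (𝓞 K), v ∈ S ↔ v.intValuation f < 1 := by
    intro v
    simp only [S, Set.Finite.mem_toFinset, Set.mem_ofPred_eq]
  have hfK : algebraMap (𝓞 K) K f ≠ 0 := algebraMap_int_ne_zero589 hf
  -- local targets
  let t : ∀ v : HeightOneSpectrum (𝓞 K), v.adicCompletion K := fun v => finComp589 v z⁻¹
  have ht0 : ∀ v, t v ≠ 0 := fun v => finComp589_ne_zero v z⁻¹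
  have htz : ∀ v, t v * finComp589 v z = 1 := by
    intro v
    have := finComp589_mul_inv v z
    rw [mul_comm] at this
    exact this
  let w : ∀ v : HeightOneSpectrum (𝓞 K), v.adicCompletion K := fun v =>
    algebraMap K (v.adicCompletion K) (algebraMap (𝓞 K) K f) * t v
  have hw0 : ∀ v, w v ≠ 0 := by
    intro v
    refine mul_ne_zero ?_ (ht0 v)
    rw [Ne, map_eq_zero]
    exact hfK
  have hy : ∀ v, ∃ y : K, Valued.v (algebraMap K (v.adicCompletion K) y - t v) ≤ Valued.v (w v) :=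
    fun v => exists_close589 v (t v) (w v) (hw0 v)
  choose y hy using hy
  obtain ⟨n, hn⟩ := exists_exp_le589 S (fun v => Valued.v (w v))
    (fun v => by rw [Ne, Valuation.zero_iff]; exact hw0 v)
  obtain ⟨x, hx⟩ := exists_approx589 S y n
  -- the key estimate
  have key : ∀ v ∈ S, Valued.v (algebraMap K (v.adicCompletion K) x * finComp589 v z - 1) ≤
      v.intValuation f := by
    intro v hv
    have h1 : algebraMap K (v.adicCompletion K) x * finComp589 v z - 1 =
        (algebraMap K (v.adicCompletion K) x - t v) * finComp589 v z := by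
      rw [sub_mul, htz v]
    have h2 : algebraMap K (v.adicCompletion K) x - t v =
        algebraMap K (v.adicCompletion K) (x - y v) +
          (algebraMap K (v.adicCompletion K) (y v) - t v) := by
      rw [map_sub]; ring
    have h3 : Valued.v (algebraMap K (v.adicCompletion K) x - t v) ≤ Valued.v (w v) := by
      rw [h2]
      refine (Valuation.map_add _ _ _).trans (max_le ?_ (hy v))
      rw [valued_algebraMap589]
      exact (hx v hv).trans (hn v hv)
    rw [h1, map_mul]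
    have h4 : Valued.v (w v) * Valued.v (finComp589 v z) = v.intValuation f := by
      simp only [w]
      rw [map_mul, mul_assoc, ← map_mul, htz v, map_one, mul_one, valued_algebraMap_int589]
    rw [← h4]
    exact mul_le_mul_left (a := Valued.v (finComp589 v z)) h3
  by_cases hx0 : x = 0
  · -- then there is no prime dividing `f`
    refine ⟨1, ?_⟩
    intro v hv
    exfalso
    have h1 := key v ((hS v).mpr hv)
    rw [hx0, map_zero, zero_mul, zero_sub, Valuation.map_neg, map_one] at h1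
    exact absurd hv (not_lt.mpr h1)
  · refine ⟨Units.mk0 x hx0, ?_⟩
    intro v hv
    rw [finComp589_mul, finComp589_prIdele, Units.val_mk0]
    exact key v ((hS v).mpr hv)

end Fermat.Agent.LT.H589

end

end
-- ===== PACK-END LT/CFT/H589/Approx.lean

-- ===== PACK-BEGIN LT/T6/SpecArch.lean
section



/-!
# Row LT, tower T6 (helper22, architect): P7 = ARCHIMEDEAN MATCHING for `ℂ/ℝ` — SPEC

OFF-MAIN.  Definitions and Props only (one formal top).  `LT/T6/Spec.lean` v3 is NOT touched.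

Only the quadratic step `F/ℚ` (`F = ℚ(√-3)`) needs this file: there the infinite place does not
split.  (Cubic step `E/F`: every infinite place splits, `SplitInt3C` applies.)

## Frame (= the `K_∞`-type frame of `T5/Spec.lean` v3, ruling R6 of the chief helper797)

* downstairs `GL₂(ℝ)`, `K = SO(2)`, weight `n ∈ ℤ`: `wtChar n (rotation of angle θ) = e^{inθ}`;
  a test function of weight `n` satisfies `f(k₁ g k₂) = wtChar n k₁⁻¹ · wtChar n k₂⁻¹ · f(g)`
  (the convention of `T5.IsBiInvariant`), is continuous, compactly supported, smooth, and is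
  supported in `det > 0`;
* upstairs `GL₂(ℂ)`, `K = U(2)`, `σ =` complex conjugation (`starRingAut`), test functions
  bi-`U(2)`-invariant.

FACT: the target `π_∞ = π(1, sgn)` (weight one) has no `SO(2)`-fixed vector, so the function
matching a bi-`U(2)`-invariant `φ` is `f = f₀ + f₁`, `f₀` of weight `0`, `f₁` of weight `±1`.
Over `ℚ` the trace identity is used TWICE (`τ = 1` with `f₀`, `τ =` weight `n` with `f₁`) and the
two identities are added.

## The Props

* `ArchMatchC` : for all Haar measures there are constants `c₀, c₁ ≠ 0` such that every `φ` has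
  `f₀, f₁` with (a) GEOMETRIC MATCHING at every regular `γ ∈ GL₂(ℝ)`
  (`O_γ(f₀ + f₁) = TO_δ(φ)` if `γ = δ δ̄`, `= 0` if `γ` is not a norm; cut-off form of the
  orbital integrals, as in `OrbSumIntC`, the SAME Haar measure of the centraliser on both sides)
  and (b) SPECTRAL RELATION `∫ f₀ P_s = c₀ ∫ φ R_{2s}`, `∫ f₁ Q_s = c₁ ∫ φ R_{2s}` for all
  `s ∈ ℂ` (base change of the parameter: `s ↦ ν = 2s`).
* `ArchInjC`   : a test function of weight `0, ±1` with vanishing spherical transform has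
  vanishing central average (so the matching is multiplicative for the convolution, up to a
  constant and modulo the centre).
* `ArchClassC` : the eigenvalue function of a continuous joint eigenfunction of the circle
  means of weight `n ∈ {0, ±1}` is `P_s` resp. `q_s` for some `s ∈ ℂ`.

## Evidence (script `coord/LT-T6-arch-numerics.py`, memo `coord/LT-T6-interface.md` v4)

The formulas below were checked numerically (evenness in `s`, `q₀ = 1/cosh(t/2)`, closed form
of `R_ν`).  The elliptic case of (a) was checked numerically for `φ = exp(-a ρ)` (`a = 0.7, 1.5,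
3`): with `f₀`, `f₁` defined by Abel inversion from the hyperbolic matching, the ratio
`O_γ(f₀ + f₁) / TO_δ(φ)` at `γ = k_θ`, `δ = k_{θ/2}` is the SAME constant `2a/π` for
`θ = 0.4 … 5.34` (both `θ` and `θ + π`), and this constant is the one of the hyperbolic case
for the same Haar measures.

## The functions

`ρ(y) = tr(yᵀ y) / (2 |det y|) = cosh t` for `y = z k₁ diag(e^{t/2}, e^{-t/2}) k₂`;
`P_s(ρ) = (1/2π) ∫₀^{2π} (ρ - cos u √(ρ²-1))^{-s-1/2} du` (Legendre `P_{s-1/2}`, even in `s`);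
`q_s(ρ) = (1/2π) ∫₀^{2π} (√((ρ+1)/2) - cos u √((ρ-1)/2)) (ρ - cos u √(ρ²-1))^{-s-1} du`
(weight one, even in `s`, `q₀ = 1/cosh(t/2)`);
`R_ν(ρ) = (1/2) ∫_{-1}^{1} (ρ + x √(ρ²-1))^{-1-ν} dx = sinh(ν d) / (ν sinh d)`, `ρ = cosh d`
(`ν = 0`: `d / sinh d`, `A0.MeanValueComplex`; `s = 0`: `A0.MeanValueReal`).
-/

set_option autoImplicit false

open scoped Matrix ContDiff
open MeasureTheory

noncomputable section

namespace Fermat.Agent.LT.T6

/-! ## 1. Groups, weights, test functions -/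

/-- `k ∈ SO(2)`. -/
def InSO2 (k : GL (Fin 2) ℝ) : Prop :=
  (k : Matrix (Fin 2) (Fin 2) ℝ) * (k : Matrix (Fin 2) (Fin 2) ℝ).transpose = 1 ∧
    (k : Matrix (Fin 2) (Fin 2) ℝ).det = 1

/-- `k ∈ U(2)`. -/
def InU2 (k : GL (Fin 2) ℂ) : Prop :=
  (k : Matrix (Fin 2) (Fin 2) ℂ) * (k : Matrix (Fin 2) (Fin 2) ℂ).conjTranspose = 1

/-- The "holomorphic part" `A(y) = ((a + d) + i (c - b)) / 2` of `y = !![a, b; c, d]`: `y` acts on
`ℂ = ℝ²` by `w ↦ A w + B w̄`.  `A(k_α y k_β) = e^{i(α+β)} A(y)`, `|A|² - |B|² = det y`. -/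
def holPart (y : GL (Fin 2) ℝ) : ℂ :=
  ((((y : Matrix (Fin 2) (Fin 2) ℝ) 0 0 + (y : Matrix (Fin 2) (Fin 2) ℝ) 1 1 : ℝ) : ℂ) +
    (((y : Matrix (Fin 2) (Fin 2) ℝ) 1 0 - (y : Matrix (Fin 2) (Fin 2) ℝ) 0 1 : ℝ) : ℂ) *
      Complex.I) / 2

/-- The character of weight `n` of `SO(2)`: the rotation `!![cos θ, -sin θ; sin θ, cos θ]` goes
to `e^{inθ}`. -/
def wtChar (n : ℤ) (k : GL (Fin 2) ℝ) : ℂ := holPart k ^ n

/-- The phase of weight `n`: `(A(y) / |A(y)|)^n` (`= e^{in(α+β)}` for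
`y = z k_α diag(e^{t/2}, e^{-t/2}) k_β`, `z > 0`). -/
def wtPhase (n : ℤ) (y : GL (Fin 2) ℝ) : ℂ := (holPart y / (‖holPart y‖ : ℂ)) ^ n

/-- Test functions of weight `n` on `GL₂(ℝ)`: continuous, compactly supported, smooth along
every smooth family (the shape of `T5.IsSmoothAtInf`), supported in `det > 0`, of weight `n`
on both sides (the convention of `T5.IsBiInvariant`). -/
structure IsArchTestR (n : ℤ) (f : GL (Fin 2) ℝ → ℂ) : Prop where
  cont : Continuous f
  supp : HasCompactSupport f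
  smooth : ∀ (m : ℕ) (h : (Fin m → ℝ) → GL (Fin 2) ℝ),
    (∀ i j : Fin 2, ContDiff ℝ ∞ (fun t => ((h t : GL (Fin 2) ℝ) : Matrix (Fin 2) (Fin 2) ℝ) i j)) →
    ∀ g : GL (Fin 2) ℝ, ContDiff ℝ ∞ (fun t => f (g * h t))
  pos : ∀ g : GL (Fin 2) ℝ, f g ≠ 0 → 0 < (g : Matrix (Fin 2) (Fin 2) ℝ).det
  left : ∀ k g : GL (Fin 2) ℝ, InSO2 k → f (k * g) = (wtChar n k)⁻¹ * f g
  right : ∀ k g : GL (Fin 2) ℝ, InSO2 k → f (g * k) = (wtChar n k)⁻¹ * f g

/-- Test functions on `GL₂(ℂ)`: continuous, compactly supported, smooth, bi-`U(2)`-invariant. -/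
structure IsArchTestC (φ : GL (Fin 2) ℂ → ℂ) : Prop where
  cont : Continuous φ
  supp : HasCompactSupport φ
  smooth : ∀ (m : ℕ) (h : (Fin m → ℝ) → GL (Fin 2) ℂ),
    (∀ i j : Fin 2, ContDiff ℝ ∞ (fun t => ((h t : GL (Fin 2) ℂ) : Matrix (Fin 2) (Fin 2) ℂ) i j)) →
    ∀ g : GL (Fin 2) ℂ, ContDiff ℝ ∞ (fun t => φ (g * h t))
  left : ∀ k g : GL (Fin 2) ℂ, InU2 k → φ (k * g) = φ g
  right : ∀ k g : GL (Fin 2) ℂ, InU2 k → φ (g * k) = φ g

/-! ## 2. Radial coordinate and the three families of spherical functions -/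

/-- `ρ(y) = tr(yᵀ y) / (2 |det y|)` `= cosh t` for `y = z k₁ diag(e^{t/2}, e^{-t/2}) k₂`. -/
def rhoR (y : GL (Fin 2) ℝ) : ℝ :=
  ((y : Matrix (Fin 2) (Fin 2) ℝ).transpose * (y : Matrix (Fin 2) (Fin 2) ℝ)).trace /
    (2 * |(y : Matrix (Fin 2) (Fin 2) ℝ).det|)

/-- `ρ(y) = tr(y* y) / (2 |det y|)` `= cosh d` for `y = z k₁ diag(e^{d/2}, e^{-d/2}) k₂`,
`z ∈ ℂˣ`, `k₁, k₂ ∈ U(2)`. -/
def rhoC (y : GL (Fin 2) ℂ) : ℝ :=
  (((y : Matrix (Fin 2) (Fin 2) ℂ).conjTranspose * (y : Matrix (Fin 2) (Fin 2) ℂ)).trace).re /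
    (2 * ‖(y : Matrix (Fin 2) (Fin 2) ℂ).det‖)

/-- The spherical function of weight `0` and parameter `s` on `GL₂(ℝ)`, as a function of
`ρ = cosh t`: `P_{s - 1/2}(cosh t)`. -/
def sphR0 (s : ℂ) (ρ : ℝ) : ℂ :=
  ((1 / (2 * Real.pi) : ℝ) : ℂ) * ∫ u in (0 : ℝ)..(2 * Real.pi),
    ((ρ - Real.cos u * Real.sqrt (ρ ^ 2 - 1) : ℝ) : ℂ) ^ (-s - 1 / 2)

/-- The radial part of the spherical function of weight `±1` and parameter `s` on `GL₂(ℝ)`, as a
function of `ρ = cosh t` (`s = 0`: `1 / cosh (t/2)`). -/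
def sphR1 (s : ℂ) (ρ : ℝ) : ℂ :=
  ((1 / (2 * Real.pi) : ℝ) : ℂ) * ∫ u in (0 : ℝ)..(2 * Real.pi),
    ((Real.sqrt ((ρ + 1) / 2) - Real.cos u * Real.sqrt ((ρ - 1) / 2) : ℝ) : ℂ) *
      ((ρ - Real.cos u * Real.sqrt (ρ ^ 2 - 1) : ℝ) : ℂ) ^ (-s - 1)

/-- The spherical function of parameter `ν` on `GL₂(ℂ)`, as a function of `ρ = cosh d`:
`sinh (ν d) / (ν sinh d)`. -/
def sphC (ν : ℂ) (ρ : ℝ) : ℂ :=
  (1 / 2 : ℂ) * ∫ x in (-1 : ℝ)..1,
    ((ρ + x * Real.sqrt (ρ ^ 2 - 1) : ℝ) : ℂ) ^ (-1 - ν)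

/-- The radial part of the spherical function of weight `n ∈ {0, 1, -1}` (`sphR0` for `n = 0`,
`sphR1` otherwise). -/
def sphRad (n : ℤ) (s : ℂ) (ρ : ℝ) : ℂ := if n = 0 then sphR0 s ρ else sphR1 s ρ

/-- The spherical function of weight `n ∈ {0, 1, -1}` and parameter `s` on `GL₂(ℝ)` (`det > 0`):
`Q(k_α y k_β) = e^{in(α+β)} Q(y)`, `Q(z y) = Q(y)` for `z > 0`, `Q(1) = 1`. -/
def sphFn (n : ℤ) (s : ℂ) (y : GL (Fin 2) ℝ) : ℂ := wtPhase n y * sphRad n s (rhoR y)

/-- The spherical transform of weight `n` of `f` at `s`: the eigenvalue of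
`R(f) e (x) = ∫ f(y) e(x y) dy` on the eigenfunctions `e` of weight `n` and parameter `s`. -/
def sphTransR (μ : @Measure (GL (Fin 2) ℝ) (borel _)) (n : ℤ) (f : GL (Fin 2) ℝ → ℂ) (s : ℂ) : ℂ :=
  @integral _ _ _ _ (borel _) μ (fun y : GL (Fin 2) ℝ => f y * sphFn n s y)

/-- The spherical transform of `φ` on `GL₂(ℂ)` at `ν`. -/
def sphTransC (μ' : @Measure (GL (Fin 2) ℂ) (borel _)) (φ : GL (Fin 2) ℂ → ℂ) (ν : ℂ) : ℂ :=
  @integral _ _ _ _ (borel _) μ' (fun y : GL (Fin 2) ℂ => φ y * sphC ν (rhoC y))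

/-! ## 3. Geometric matching -/

/-- **Geometric matching at the real place** of `φ` on `GL₂(ℂ)` and `f` on `GL₂(ℝ)`, for the
Haar measures `μ`, `μ'`: for every regular `γ ∈ GL₂(ℝ)`, every Haar measure `μT` of its
centraliser `T` and all cut-off functions `β` on `GL₂(ℝ)`, `β'` on `GL₂(ℂ)` (continuous, `≥ 0`,
`∫_T β(t x) dt = 1` for all `x`):
`∫ f(x⁻¹ γ x) β(x) dμ(x) = ∫ φ(x⁻¹ δ x̄) β'(x) dμ'(x)` if `δ δ̄ = γ`, and
`∫ f(x⁻¹ γ x) β(x) dμ(x) = 0` if `γ` is not a norm.  (The twisted centraliser of `δ` is the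
image of `T`: `TwCentC`.) -/
def IsArchMatch (μ : @Measure (GL (Fin 2) ℝ) (borel _)) (μ' : @Measure (GL (Fin 2) ℂ) (borel _))
    (φ : GL (Fin 2) ℂ → ℂ) (f : GL (Fin 2) ℝ → ℂ) : Prop :=
  ∀ γ : GL (Fin 2) ℝ, IsReg γ →
    ∀ μT : @Measure (twCentSub (MonoidHom.id (GL (Fin 2) ℝ)) γ) (borel _),
      @Measure.IsHaarMeasure _ _ _ (borel _) μT →
    ∀ β : GL (Fin 2) ℝ → ℝ, Continuous β → (∀ x, 0 ≤ β x) →
      (∀ x : GL (Fin 2) ℝ,
        @integral _ _ _ _ (borel _) μT
          (fun t : twCentSub (MonoidHom.id (GL (Fin 2) ℝ)) γ =>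
            β ((t : GL (Fin 2) ℝ) * x)) = 1) →
      (∀ δ : GL (Fin 2) ℂ,
        twNorm (starRingAut : ℂ ≃+* ℂ) 2 δ
          = Matrix.GeneralLinearGroup.map (algebraMap ℝ ℂ) γ →
        ∀ β' : GL (Fin 2) ℂ → ℝ, Continuous β' → (∀ x, 0 ≤ β' x) →
          (∀ x : GL (Fin 2) ℂ,
            @integral _ _ _ _ (borel _) μT
              (fun t : twCentSub (MonoidHom.id (GL (Fin 2) ℝ)) γ =>
                β' (Matrix.GeneralLinearGroup.map (algebraMap ℝ ℂ) (t : GL (Fin 2) ℝ) * x))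
              = 1) →
          @integral _ _ _ _ (borel _) μ
              (fun x : GL (Fin 2) ℝ => f (x⁻¹ * γ * x) * (β x : ℂ))
            = @integral _ _ _ _ (borel _) μ'
              (fun x : GL (Fin 2) ℂ =>
                φ (x⁻¹ * δ * glAut (starRingAut : ℂ ≃+* ℂ) x) * (β' x : ℂ))) ∧
      (¬ IsNormFrom 2 (algebraMap ℝ ℂ) (starRingAut : ℂ ≃+* ℂ) γ →
        @integral _ _ _ _ (borel _) μ
          (fun x : GL (Fin 2) ℝ => f (x⁻¹ * γ * x) * (β x : ℂ)) = 0)

/-! ## 4. THE PROPS -/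

/-- **P7 (archimedean matching, `ℂ/ℝ`), [L] §§7-8, Shintani.**  For all Haar measures `μ` of
`GL₂(ℝ)`, `μ'` of `GL₂(ℂ)` and each weight `n = ±1` there are constants `c₀, c₁ ≠ 0` such that
every bi-`U(2)`-invariant test function `φ` on `GL₂(ℂ)` has test functions `f₀` of weight `0`
and `f₁` of weight `n` on `GL₂(ℝ)` with: (a) `f₀ + f₁` matches `φ` geometrically; (b) for all
`s ∈ ℂ`, `∫ f₀ P_s = c₀ ∫ φ R_{2s}` and `∫ f₁ Q_s = c₁ ∫ φ R_{2s}`. -/
def ArchMatchC : Prop :=
  ∀ (μ : @Measure (GL (Fin 2) ℝ) (borel _)) (μ' : @Measure (GL (Fin 2) ℂ) (borel _)),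
    @Measure.IsHaarMeasure _ _ _ (borel _) μ → @Measure.IsHaarMeasure _ _ _ (borel _) μ' →
    ∀ n : ℤ, n = 1 ∨ n = -1 →
    ∃ c₀ c₁ : ℂ, c₀ ≠ 0 ∧ c₁ ≠ 0 ∧
      ∀ φ : GL (Fin 2) ℂ → ℂ, IsArchTestC φ →
        ∃ f₀ f₁ : GL (Fin 2) ℝ → ℂ, IsArchTestR 0 f₀ ∧ IsArchTestR n f₁ ∧
          IsArchMatch μ μ' φ (fun g => f₀ g + f₁ g) ∧
          (∀ s : ℂ, sphTransR μ 0 f₀ s = c₀ * sphTransC μ' φ (2 * s)) ∧
          (∀ s : ℂ, sphTransR μ n f₁ s = c₁ * sphTransC μ' φ (2 * s))

/-- **Injectivity of the spherical transform** in the weights `0, ±1`, modulo the centre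
(Abel inversion): if the spherical transform of a test function `f` of weight `n` vanishes, the
central average `g ↦ ∫_{r > 0} f(r g) dr / r` of `f` vanishes.  (`Z r` = the scalar matrix `r`.
Only the central average of `f_∞` acts on the functions invariant under the positive scalars; so
the matching `φ ↦ (f₀, f₁)` is multiplicative for the convolution, up to a constant and modulo
the centre.) -/
def ArchInjC : Prop :=
  ∀ (μ : @Measure (GL (Fin 2) ℝ) (borel _)), @Measure.IsHaarMeasure _ _ _ (borel _) μ →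
    ∀ n : ℤ, n = 0 ∨ n = 1 ∨ n = -1 →
    ∀ f : GL (Fin 2) ℝ → ℂ, IsArchTestR n f →
      (∀ s : ℂ, sphTransR μ n f s = 0) →
      ∀ Z : ℝ → GL (Fin 2) ℝ,
        (∀ r : ℝ, 0 < r →
          ((Z r : GL (Fin 2) ℝ) : Matrix (Fin 2) (Fin 2) ℝ) = Matrix.diagonal (fun _ => r)) →
        ∀ g : GL (Fin 2) ℝ, (∫ r in Set.Ioi (0 : ℝ), f (Z r * g) / (r : ℂ)) = 0

/-- **Classification of the eigenvalue functions** in the weights `0, ±1`: if `e ≠ 0` is
continuous on `GL₂(ℝ)`, of weight `n` on the right (`e(g k) = wtChar n k · e(g)`), invariant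
under the positive scalars, and a joint eigenfunction of the circle means
`(M_t e)(x) = (1/2π) ∫₀^{2π} e(x k_θ a_t k_θ⁻¹) dθ` with eigenvalues `m t`, then for some `s ∈ ℂ`:
`m t = sphRad n s (cosh t)` for all `t > 0`. -/
def ArchClassC : Prop :=
  ∀ n : ℤ, n = 0 ∨ n = 1 ∨ n = -1 →
    ∀ (e : GL (Fin 2) ℝ → ℂ) (m : ℝ → ℂ), Continuous e → (∃ g, e g ≠ 0) →
      (∀ k g : GL (Fin 2) ℝ, InSO2 k → e (g * k) = wtChar n k * e g) →
      (∀ (z g : GL (Fin 2) ℝ) (r : ℝ), 0 < r →
        (z : Matrix (Fin 2) (Fin 2) ℝ) = Matrix.diagonal (fun _ => r) → e (g * z) = e g) →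
      (∀ t : ℝ, 0 < t → ∀ Y : ℝ → GL (Fin 2) ℝ,
        (∀ θ : ℝ, ((Y θ : GL (Fin 2) ℝ) : Matrix (Fin 2) (Fin 2) ℝ)
          = !![Real.cos θ, -Real.sin θ; Real.sin θ, Real.cos θ]
            * !![Real.exp (t / 2), 0; 0, Real.exp (-(t / 2))]
            * !![Real.cos θ, Real.sin θ; -Real.sin θ, Real.cos θ]) →
        ∀ x : GL (Fin 2) ℝ,
          (∫ θ in (0 : ℝ)..(2 * Real.pi), e (x * Y θ)) = ((2 * Real.pi : ℝ) : ℂ) * m t * e x) →
      ∃ s : ℂ, ∀ t : ℝ, 0 < t → m t = sphRad n s (Real.cosh t)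

/-! ## 5. The archimedean output of T6 and the formal top -/

/-- **THE ARCHIMEDEAN PART of the output of T6** (consumer: T7, node `DescQ3C` only). -/
def T6ArchOut : Prop := ArchMatchC ∧ ArchInjC ∧ ArchClassC

/-- Formal top of the archimedean part. -/
theorem topArch (h1 : ArchMatchC) (h2 : ArchInjC) (h3 : ArchClassC) : T6ArchOut :=
  ⟨h1, h2, h3⟩

end Fermat.Agent.LT.T6

end

end
-- ===== PACK-END LT/T6/SpecArch.lean

-- ===== PACK-BEGIN LT/T6/H189/ArchIntCut.lean
section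



/-!
# Row LT, tower T6, leaf T6.23 `ArchInt` -- THE CUT (owner helper189)

OFF-MAIN.  Definitions, frozen sub-leaf Props and the PROVED top `archIntOut_of_leaves`.
Mathlib + `ArchIntSpec.lean` only.  No hole, nothing assumed.

```
ArchIntOut ⇐ RightInvRC, RightInvCC                      (L1, L1': unimodularity, modular character)
           + IwaHomeoRC, IwaHomeoCC                      (L2, L2': the Iwasawa maps are open embeddings)
           + U2CompactC                                  (L3: `U(2)` is compact)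
           + CircleMeasC                                 (L4: `exp_* dθ = 2π · Haar` on the circle)
           + CartanRC, CartanCC                          (L6, L6': `g = e^r k₁ a_t k₂`, `t = arcosh ρ(g)`)
           + AbelAreaRC, AbelAreaCC                      (L7, L7': two-variable calculus)
           + IwaOfRC, IwaOfCC, U2HaarOfC, PolOfRC, PolOfCC   (A1-A5: the assemblies)
```

## Routes

* A1/A2 (Iwasawa): `H = B × K` with `B = ℝ × ℝ × 𝕜`, group law `(v, y) (u, x) = (v + u, x + e^{u₂ - u₁} y)`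
  (`ι (u, x) = diag(e^{u₁}, e^{u₂}) n(x)` is multiplicative), Lebesgue measure is a left Haar measure of `B`
  (skew product), `Ψ (b, k) = ι b * k⁻¹` is an open embedding (L2) with `Ψ (h₀ h) = ι b₀ * Ψ h * k₀⁻¹`;
  the pull-back `μ.comap Ψ` is left invariant on `H` (left invariance of `μ` + L1), hence `= c •` Haar of `H`
  (`Measure.isMulLeftInvariant_eq_smul`), and `(μ.comap Ψ).map Ψ = μ.restrict (range Ψ)`
  (`MeasurableEmbedding.map_comap`).
* A4/A5 (polar): for `F ≥ 0` measurable put `F̃ g = ∫⁻∫⁻ F (k₁ g k₂)`; `∫⁻ F dμ = ∫⁻ F̃ dμ` (Tonelli, L1);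
  `F̃ g = F̃ (e^r a_t)`, `r = log det g / 2`, `t = arcosh ρ(g)` (L6); Iwasawa formula in the coordinates
  `r = (u₁ + u₂)/2`, `s = u₁ - u₂`: `ρ(diag n(x)) = cosh s + e^s x²/2` (real), `cosh s + e^s |w|²/2` (complex); L7.
* L7: `x = √2 e^{-s/2} v`, symmetrise `s ↦ -s`, `w = √2 sinh (s/2)`, polar coordinates in the plane;
  L7': `w = √2 e^{-s/2} v`, polar coordinates in `ℂ`, symmetrise, integrate by parts.
  Check: `φ = e^{-ρ}` gives `2π e^{-1}` resp. `4π K₁(1)` on both sides.
-/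

set_option autoImplicit false

open MeasureTheory
open scoped Matrix ENNReal

noncomputable section

namespace Fermat.Agent.LT.T6.H189

/-! ## 1. Vocabulary -/

/-- The rotation attached to a point of the unit circle: `z = e^{iθ} ↦ k_θ`. -/
def rotZ (z : Circle) : GL (Fin 2) ℝ :=
  Matrix.GeneralLinearGroup.mkOfDetNeZero
    !![(z : ℂ).re, -(z : ℂ).im; (z : ℂ).im, (z : ℂ).re]
    (by
      have h : (z : ℂ).re * (z : ℂ).re + (z : ℂ).im * (z : ℂ).im = 1 := by
        have := Circle.normSq_coe z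
        rwa [Complex.normSq_apply] at this
      simp only [Matrix.det_fin_two_of]
      intro h0
      nlinarith [h, h0])

/-- The Iwasawa map of `GL₂(ℝ)⁺` with the circle as last factor. -/
def jR (p : ℝ × ℝ × ℝ × Circle) : GL (Fin 2) ℝ := dgR p.1 p.2.1 * unR p.2.2.1 * rotZ p.2.2.2

/-- `U(2)` as a subgroup of `GL₂(ℂ)`. -/
def U2sub : Subgroup (GL (Fin 2) ℂ) where
  carrier := U2
  one_mem' := by simp [U2]
  mul_mem' := by
    intro a b ha hb
    simp only [U2, Set.mem_ofPred_eq, Matrix.GeneralLinearGroup.coe_mul,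
      Matrix.conjTranspose_mul] at ha hb ⊢
    calc (a : Matrix (Fin 2) (Fin 2) ℂ) * (b : Matrix (Fin 2) (Fin 2) ℂ) *
          ((b : Matrix (Fin 2) (Fin 2) ℂ).conjTranspose *
            (a : Matrix (Fin 2) (Fin 2) ℂ).conjTranspose)
        = (a : Matrix (Fin 2) (Fin 2) ℂ) * ((b : Matrix (Fin 2) (Fin 2) ℂ) *
            (b : Matrix (Fin 2) (Fin 2) ℂ).conjTranspose) *
            (a : Matrix (Fin 2) (Fin 2) ℂ).conjTranspose := by
          simp only [Matrix.mul_assoc]
      _ = 1 := by rw [hb, Matrix.mul_one, ha]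
  inv_mem' := by
    intro a ha
    simp only [U2, Set.mem_ofPred_eq] at ha ⊢
    have hinv : ((a⁻¹ : GL (Fin 2) ℂ) : Matrix (Fin 2) (Fin 2) ℂ)
        = (a : Matrix (Fin 2) (Fin 2) ℂ).conjTranspose := by
      have h1 : ((a⁻¹ : GL (Fin 2) ℂ) : Matrix (Fin 2) (Fin 2) ℂ)
          * (a : Matrix (Fin 2) (Fin 2) ℂ) = 1 := by
        rw [← Matrix.GeneralLinearGroup.coe_mul, inv_mul_cancel]; rfl
      calc ((a⁻¹ : GL (Fin 2) ℂ) : Matrix (Fin 2) (Fin 2) ℂ)
          = ((a⁻¹ : GL (Fin 2) ℂ) : Matrix (Fin 2) (Fin 2) ℂ) *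
              ((a : Matrix (Fin 2) (Fin 2) ℂ) * (a : Matrix (Fin 2) (Fin 2) ℂ).conjTranspose) := by
            rw [ha, Matrix.mul_one]
        _ = (a : Matrix (Fin 2) (Fin 2) ℂ).conjTranspose := by
            rw [← Matrix.mul_assoc, h1, Matrix.one_mul]
    rw [hinv, Matrix.conjTranspose_conjTranspose]
    exact mul_eq_one_comm.mp ha

/-- The Iwasawa map of `GL₂(ℂ)` with `U(2)` as last factor. -/
def jC (p : ℝ × ℝ × ℂ × U2sub) : GL (Fin 2) ℂ :=
  dgC p.1 p.2.1 * unC p.2.2.1 * (p.2.2.2 : GL (Fin 2) ℂ)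

/-- `ρ(g) = tr(gᵀ g) / (2 det g)` on `GL₂(ℝ)` (`= cosh t` on `e^r k₁ a_t k₂`). -/
def rhoP (g : GL (Fin 2) ℝ) : ℝ :=
  ((g : Matrix (Fin 2) (Fin 2) ℝ).transpose * (g : Matrix (Fin 2) (Fin 2) ℝ)).trace /
    (2 * (g : Matrix (Fin 2) (Fin 2) ℝ).det)

/-- `ρ(g) = Re tr(g* g) / (2 |det g|)` on `GL₂(ℂ)` (`= cosh d` on `e^r k₁ a_d k₂`). -/
def rhoQ (g : GL (Fin 2) ℂ) : ℝ :=
  (((g : Matrix (Fin 2) (Fin 2) ℂ).conjTranspose * (g : Matrix (Fin 2) (Fin 2) ℂ)).trace).re /
    (2 * ‖(g : Matrix (Fin 2) (Fin 2) ℂ).det‖)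

/-! ## 2. The leaves -/

/-- **L2.**  The Iwasawa map of `GL₂(ℝ)⁺` is an open embedding with range `det > 0`. -/
def IwaHomeoRC : Prop := Topology.IsOpenEmbedding jR ∧ Set.range jR = posR

/-- **L2'.**  The Iwasawa map of `GL₂(ℂ)` is a homeomorphism. -/
def IwaHomeoCC : Prop := Topology.IsOpenEmbedding jC ∧ Function.Surjective jC

/-- **L3.**  `U(2)` is compact. -/
def U2CompactC : Prop := CompactSpace U2sub

/-- **L4.**  The image of `dθ` on `(0, 2π]` under `θ ↦ e^{iθ}` is a multiple of the Haar probability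
measure of the circle. -/
def CircleMeasC : Prop :=
  ∃ c : ℝ≥0∞, c ≠ 0 ∧ c ≠ ⊤ ∧
    ∀ κ : @Measure Circle (borel _), @Measure.IsHaarMeasure _ _ _ (borel _) κ →
      κ Set.univ = 1 →
      @Measure.map _ _ _ (borel _) (fun θ : ℝ => Circle.exp θ) angM = c • κ

/-- **L6.**  Cartan decomposition of `GL₂(ℝ)⁺`, with the values of the parameters. -/
def CartanRC : Prop :=
  ∀ g : GL (Fin 2) ℝ, g ∈ posR →
    1 ≤ rhoP g ∧ ∃ θ₁ θ₂ : ℝ,
      g = sclR (Real.log (g : Matrix (Fin 2) (Fin 2) ℝ).det / 2) * rotR θ₁ *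
        atR (Real.arcosh (rhoP g)) * rotR θ₂

/-- **L6'.**  Cartan decomposition of `GL₂(ℂ)`, with the values of the parameters. -/
def CartanCC : Prop :=
  ∀ g : GL (Fin 2) ℂ,
    1 ≤ rhoQ g ∧ ∃ k₁ ∈ U2, ∃ k₂ ∈ U2,
      g = sclC (Real.log ‖(g : Matrix (Fin 2) (Fin 2) ℂ).det‖ / 2) * k₁ *
        atC (Real.arcosh (rhoQ g)) * k₂

/-- **L7.**  `∫∫ φ(cosh s + e^s x²/2) dx ds = 2π ∫_{t > 0} φ(cosh t) sinh t dt`, as an identity of
measures on `ℝ`. -/
def AbelAreaRC : Prop :=
  Measure.map (fun p : ℝ × ℝ => Real.cosh p.1 + Real.exp p.1 * p.2 ^ 2 / 2)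
      (volume : Measure (ℝ × ℝ))
    = ENNReal.ofReal (2 * Real.pi) • Measure.map Real.cosh radMR

/-- **L7'.**  `∫∫ φ(cosh s + e^s |w|²/2) dw ds = 4π ∫_{d > 0} φ(cosh d) sinh² d dd`, as an identity
of measures on `ℝ`. -/
def AbelAreaCC : Prop :=
  Measure.map (fun p : ℝ × ℂ => Real.cosh p.1 + Real.exp p.1 * ‖p.2‖ ^ 2 / 2)
      (volume : Measure (ℝ × ℂ))
    = ENNReal.ofReal (4 * Real.pi) • Measure.map Real.cosh radMC

/-! ## 3. The assemblies (leaves as well) -/

/-- **A1.**  Iwasawa formula on `GL₂(ℝ)⁺`. -/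
def IwaOfRC : Prop := RightInvRC → IwaHomeoRC → CircleMeasC → IwasawaRC

/-- **A2.**  Iwasawa formula on `GL₂(ℂ)`. -/
def IwaOfCC : Prop := RightInvCC → IwaHomeoCC → U2CompactC → IwasawaCC

/-- **A3.**  The Haar probability measure of `U(2)` as a measure on `GL₂(ℂ)`. -/
def U2HaarOfC : Prop := U2CompactC → U2HaarC

/-- **A4.**  Polar formula on `GL₂(ℝ)⁺`. -/
def PolOfRC : Prop := IwasawaRC → RightInvRC → CartanRC → AbelAreaRC → PolarRC

/-- **A5.**  Polar formula on `GL₂(ℂ)`. -/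
def PolOfCC : Prop := IwasawaCC → RightInvCC → CartanCC → AbelAreaCC → PolarCC

/-! ## 4. The top -/

/-- **THE TOP of T6.23.** -/
theorem archIntOut_of_leaves (l1 : RightInvRC) (l1' : RightInvCC) (l2 : IwaHomeoRC)
    (l2' : IwaHomeoCC) (l3 : U2CompactC) (l4 : CircleMeasC) (l6 : CartanRC) (l6' : CartanCC)
    (l7 : AbelAreaRC) (l7' : AbelAreaCC) (a1 : IwaOfRC) (a2 : IwaOfCC) (a3 : U2HaarOfC)
    (a4 : PolOfRC) (a5 : PolOfCC) : ArchIntOut where
  iwaR := a1 l1 l2 l4
  polR := a4 (a1 l1 l2 l4) l1 l6 l7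
  invR := l1
  haarU := a3 l3
  iwaC := a2 l1' l2' l3
  polC := a5 (a2 l1' l2' l3) l1' l6' l7'
  invC := l1'

end Fermat.Agent.LT.T6.H189

end

end
-- ===== PACK-END LT/T6/H189/ArchIntCut.lean

-- ===== PACK-BEGIN LT/T7/H750/OrbIntCore.lean
section


/-!
# Row LT, tower T7, station C2.7 (`CutIntC305`), ASSET (helper750), OFF-MAIN, MATHLIB ONLY:
# integrability of the cut-off orbital integrand

`G` a locally compact second countable Hausdorff group, `T` a closed subgroup with a Haar measure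
`μT`, `β ≥ 0` continuous with `∫_T β(t x) dμT(t) = 1` for all `x` (a cut-off function), `μ` a Haar
measure of `G`.

* `lintegral_avg_mul_cut750`: `∫⁻_G (∫⁻_T 1_E(t⁻¹ y) dμT(t)) β(y) dμ(y) = μ(E)` (Tonelli twice, left
  invariance of `μ`; no unimodularity, no commutativity).
* `integrable_mul_cut_of_section750`: if `Φ` is bounded, a.e. strongly measurable and vanishes
  outside `T · Ω₀`, `Ω₀` compact, then `Φ · β` is `μ`-integrable.
-/

set_option autoImplicit false
set_option linter.unusedSectionVars false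
set_option linter.style.haveILetI false

open MeasureTheory MeasureTheory.Measure Topology Set
open scoped ENNReal Pointwise

noncomputable section

namespace Fermat.Agent.LT.T7.H750

section Group

variable {G : Type*} [Group G] [TopologicalSpace G] [IsTopologicalGroup G]
  [LocallyCompactSpace G] [SecondCountableTopology G] [T2Space G]
  [MeasurableSpace G] [BorelSpace G]

/-- A closed subgroup of a `σ`-compact group is `σ`-compact. -/
theorem sigmaCompact_sub750 (T : Subgroup G) (hT : IsClosed (T : Set G)) :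
    SigmaCompactSpace T :=
  (hT.isClosedEmbedding_subtypeVal).sigmaCompactSpace

/-- The cut-off function has average one in the `ℝ≥0∞` form. -/
theorem lintegral_cut750 (T : Subgroup G) [MeasurableSpace T] (μT : Measure T)
    (β : G → ℝ) (hβ0 : ∀ x, 0 ≤ β x)
    (hβ1 : ∀ x : G, ∫ t : T, β ((t : G) * x) ∂μT = 1) (x : G) :
    ∫⁻ t : T, ENNReal.ofReal (β ((t : G) * x)) ∂μT = 1 := by
  rw [← ofReal_integral_eq_lintegral_ofReal (integrable_of_integral_eq_one (hβ1 x))
    (Filter.Eventually.of_forall fun t => hβ0 _), hβ1 x, ENNReal.ofReal_one]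

/-- **Tonelli.**  `∫⁻_G (∫⁻_T 1_E(t⁻¹ y) dμT(t)) β(y) dμ(y) = μ(E)`. -/
theorem lintegral_avg_mul_cut750 (T : Subgroup G) (hT : IsClosed (T : Set G))
    [MeasurableSpace T] [BorelSpace T]
    (μ : Measure G) [IsHaarMeasure μ] (μT : Measure T) [IsHaarMeasure μT]
    (β : G → ℝ) (hβc : Continuous β) (hβ0 : ∀ x, 0 ≤ β x)
    (hβ1 : ∀ x : G, ∫ t : T, β ((t : G) * x) ∂μT = 1)
    (E : Set G) (hE : MeasurableSet E) :
    ∫⁻ y, (∫⁻ t : T, E.indicator (fun _ => (1 : ℝ≥0∞)) ((t : G)⁻¹ * y) ∂μT)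
        * ENNReal.ofReal (β y) ∂μ = μ E := by
  haveI : SigmaCompactSpace T := sigmaCompact_sub750 T hT
  have hval : Continuous (fun t : T => (t : G)) := continuous_subtype_val
  -- measurability of the two kernels
  have hm1 : Measurable (fun p : G × T =>
      E.indicator (fun _ => (1 : ℝ≥0∞)) ((p.2 : G)⁻¹ * p.1) * ENNReal.ofReal (β p.1)) := by
    have h1 : Measurable (fun p : G × T => (p.2 : G)⁻¹ * p.1) :=
      (((hval.comp continuous_snd).inv).mul continuous_fst).measurable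
    have h2 : Measurable (fun p : G × T =>
        E.indicator (fun _ => (1 : ℝ≥0∞)) ((p.2 : G)⁻¹ * p.1)) :=
      (measurable_const.indicator hE).comp h1
    exact h2.mul (hβc.comp continuous_fst).measurable.ennreal_ofReal
  have hm2 : Measurable (fun p : T × G =>
      E.indicator (fun _ => (1 : ℝ≥0∞)) p.2 * ENNReal.ofReal (β ((p.1 : G) * p.2))) := by
    have h2 : Measurable (fun p : T × G => E.indicator (fun _ => (1 : ℝ≥0∞)) p.2) :=
      (measurable_const.indicator hE).comp measurable_snd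
    exact h2.mul
      (hβc.comp ((hval.comp continuous_fst).mul continuous_snd)).measurable.ennreal_ofReal
  calc ∫⁻ y, (∫⁻ t : T, E.indicator (fun _ => (1 : ℝ≥0∞)) ((t : G)⁻¹ * y) ∂μT)
          * ENNReal.ofReal (β y) ∂μ
      = ∫⁻ y, ∫⁻ t : T, E.indicator (fun _ => (1 : ℝ≥0∞)) ((t : G)⁻¹ * y)
          * ENNReal.ofReal (β y) ∂μT ∂μ := by
        refine lintegral_congr fun y => ?_
        rw [lintegral_mul_const]
        exact (measurable_const.indicator hE).comp
          (((hval.inv).mul continuous_const).measurable)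
    _ = ∫⁻ t : T, ∫⁻ y, E.indicator (fun _ => (1 : ℝ≥0∞)) ((t : G)⁻¹ * y)
          * ENNReal.ofReal (β y) ∂μ ∂μT :=
        lintegral_lintegral_swap hm1.aemeasurable
    _ = ∫⁻ t : T, ∫⁻ y, E.indicator (fun _ => (1 : ℝ≥0∞)) y
          * ENNReal.ofReal (β ((t : G) * y)) ∂μ ∂μT := by
        refine lintegral_congr fun t => ?_
        have h := lintegral_mul_left_eq_self (μ := μ)
          (fun y => E.indicator (fun _ => (1 : ℝ≥0∞)) ((t : G)⁻¹ * y) * ENNReal.ofReal (β y))
          (t : G)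
        rw [← h]
        refine lintegral_congr fun y => ?_
        simp only [inv_mul_cancel_left]
    _ = ∫⁻ y, ∫⁻ t : T, E.indicator (fun _ => (1 : ℝ≥0∞)) y
          * ENNReal.ofReal (β ((t : G) * y)) ∂μT ∂μ :=
        lintegral_lintegral_swap hm2.aemeasurable
    _ = ∫⁻ y, E.indicator (fun _ => (1 : ℝ≥0∞)) y ∂μ := by
        refine lintegral_congr fun y => ?_
        rw [lintegral_const_mul' _ _ (by
          by_cases hy : y ∈ E <;> simp [hy]), lintegral_cut750 T μT β hβ0 hβ1 y, mul_one]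
    _ = μ E := by
        rw [lintegral_indicator hE, lintegral_const, one_mul, Measure.restrict_apply_univ]

/-- **Integrability of the cut-off integrand.**  If `Φ` is bounded and vanishes outside
`T · Ω₀` with `Ω₀` compact, then `Φ · β` is integrable for every cut-off function `β`. -/
theorem integrable_mul_cut_of_section750 (T : Subgroup G) (hT : IsClosed (T : Set G))
    [MeasurableSpace T] [BorelSpace T]
    (μ : Measure G) [IsHaarMeasure μ] (μT : Measure T) [IsHaarMeasure μT]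
    (β : G → ℝ) (hβc : Continuous β) (hβ0 : ∀ x, 0 ≤ β x)
    (hβ1 : ∀ x : G, ∫ t : T, β ((t : G) * x) ∂μT = 1)
    (Ω₀ : Set G) (hΩ : IsCompact Ω₀)
    (Φ : G → ℂ) (hΦm : AEStronglyMeasurable Φ μ) (M : ℝ) (hΦb : ∀ y, ‖Φ y‖ ≤ M)
    (hΦs : ∀ y, Φ y ≠ 0 → ∃ t ∈ T, ∃ ω ∈ Ω₀, y = t * ω) :
    Integrable (fun y => Φ y * ((β y : ℝ) : ℂ)) μ := by
  haveI : SigmaCompactSpace T := sigmaCompact_sub750 T hT
  have hval : Continuous (fun t : T => (t : G)) := continuous_subtype_val
  -- a compact neighbourhood of one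
  obtain ⟨V, hVc, hV1⟩ := exists_compact_mem_nhds (1 : G)
  set E : Set G := V * Ω₀ with hEdef
  have hEc : IsCompact E := hVc.mul hΩ
  have hEm : MeasurableSet E := hEc.isClosed.measurableSet
  -- the set `A = {s ∈ T : s⁻¹ ∈ V}` has positive measure
  set A : Set T := {s : T | ((s : G))⁻¹ ∈ V} with hAdef
  have hAm : MeasurableSet A :=
    (hVc.isClosed.preimage (hval.inv)).measurableSet
  have hA1 : A ∈ 𝓝 (1 : T) := by
    have hc : ContinuousAt (fun s : T => ((s : G))⁻¹) 1 := (hval.inv).continuousAt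
    have : V ∈ 𝓝 ((fun s : T => ((s : G))⁻¹) 1) := by simpa using hV1
    exact hc this
  have hApos : 0 < μT A := measure_pos_of_mem_nhds μT hA1
  set c : ℝ≥0∞ := min (μT A) 1 with hcdef
  have hc0 : c ≠ 0 := by
    rw [hcdef]
    exact (lt_min hApos one_pos).ne'
  have hctop : c ≠ ⊤ := (lt_of_le_of_lt (min_le_right _ _) ENNReal.one_lt_top).ne
  -- the average of the indicator of `E`
  set Ψ : G → ℝ≥0∞ :=
    fun y => ∫⁻ t : T, E.indicator (fun _ => (1 : ℝ≥0∞)) ((t : G)⁻¹ * y) ∂μT with hΨdef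
  have hΨ : ∀ y, Φ y ≠ 0 → c ≤ Ψ y := by
    intro y hy
    obtain ⟨t₀, ht₀, ω, hω, rfl⟩ := hΦs y hy
    set t₀' : T := ⟨t₀, ht₀⟩
    have hsub : ∀ t : T, ((fun s : T => t₀'⁻¹ * s) ⁻¹' A).indicator (fun _ => (1 : ℝ≥0∞)) t
        ≤ E.indicator (fun _ => (1 : ℝ≥0∞)) ((t : G)⁻¹ * (t₀ * ω)) := by
      intro t
      by_cases ht : t ∈ (fun s : T => t₀'⁻¹ * s) ⁻¹' A
      · have h1 : ((t : G))⁻¹ * t₀ ∈ V := by
          have h2 : ((t₀'⁻¹ * t : T) : G)⁻¹ ∈ V := ht
          simpa [t₀', mul_inv_rev] using h2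
        have h3 : (t : G)⁻¹ * (t₀ * ω) ∈ E := by
          rw [← mul_assoc]
          exact Set.mul_mem_mul h1 hω
        rw [Set.indicator_of_mem ht, Set.indicator_of_mem h3]
      · rw [Set.indicator_of_notMem ht]
        exact bot_le
    calc c ≤ μT A := min_le_left _ _
      _ = μT ((fun s : T => t₀'⁻¹ * s) ⁻¹' A) := (measure_preimage_mul μT t₀'⁻¹ A).symm
      _ = ∫⁻ t : T, ((fun s : T => t₀'⁻¹ * s) ⁻¹' A).indicator (fun _ => (1 : ℝ≥0∞)) t ∂μT := by
          rw [lintegral_indicator ((measurable_const_mul _) hAm), lintegral_const, one_mul,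
            Measure.restrict_apply_univ]
      _ ≤ Ψ (t₀ * ω) := lintegral_mono hsub
  -- the bound
  have hM0 : 0 ≤ M := le_trans (norm_nonneg _) (hΦb 1)
  have hbound : ∀ y, ‖Φ y * ((β y : ℝ) : ℂ)‖ₑ
      ≤ (ENNReal.ofReal M * c⁻¹) * (Ψ y * ENNReal.ofReal (β y)) := by
    intro y
    by_cases hy : Φ y = 0
    · simp [hy]
    · have h1 : ‖Φ y * ((β y : ℝ) : ℂ)‖ₑ = ENNReal.ofReal ‖Φ y‖ * ENNReal.ofReal (β y) := by
        rw [enorm_mul, ← ofReal_norm, ← ofReal_norm, Complex.norm_real,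
          Real.norm_of_nonneg (hβ0 y)]
      have h2 : (1 : ℝ≥0∞) ≤ c⁻¹ * Ψ y := by
        calc (1 : ℝ≥0∞) = c⁻¹ * c := (ENNReal.inv_mul_cancel hc0 hctop).symm
          _ ≤ c⁻¹ * Ψ y := by gcongr; exact hΨ y hy
      calc ‖Φ y * ((β y : ℝ) : ℂ)‖ₑ = ENNReal.ofReal ‖Φ y‖ * ENNReal.ofReal (β y) := h1
        _ ≤ ENNReal.ofReal M * ENNReal.ofReal (β y) := by
            gcongr; exact hΦb y
        _ = ENNReal.ofReal M * 1 * ENNReal.ofReal (β y) := by rw [mul_one]
        _ ≤ ENNReal.ofReal M * (c⁻¹ * Ψ y) * ENNReal.ofReal (β y) := by gcongr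
        _ = (ENNReal.ofReal M * c⁻¹) * (Ψ y * ENNReal.ofReal (β y)) := by ring
  refine ⟨hΦm.mul (Complex.continuous_ofReal.comp hβc).aestronglyMeasurable, ?_⟩
  rw [hasFiniteIntegral_iff_enorm]
  calc ∫⁻ y, ‖Φ y * ((β y : ℝ) : ℂ)‖ₑ ∂μ
      ≤ ∫⁻ y, (ENNReal.ofReal M * c⁻¹) * (Ψ y * ENNReal.ofReal (β y)) ∂μ :=
        lintegral_mono hbound
    _ = (ENNReal.ofReal M * c⁻¹) * ∫⁻ y, Ψ y * ENNReal.ofReal (β y) ∂μ :=
        lintegral_const_mul' _ _ (ENNReal.mul_ne_top ENNReal.ofReal_ne_top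
          (ENNReal.inv_ne_top.mpr hc0))
    _ = (ENNReal.ofReal M * c⁻¹) * μ E := by
        rw [hΨdef, lintegral_avg_mul_cut750 T hT μ μT β hβc hβ0 hβ1 E hEm]
    _ < ⊤ := ENNReal.mul_lt_top (ENNReal.mul_lt_top ENNReal.ofReal_lt_top
          (ENNReal.inv_lt_top.mpr (pos_iff_ne_zero.mpr hc0))) hEc.measure_lt_top

end Group

end Fermat.Agent.LT.T7.H750

end
end
-- ===== PACK-END LT/T7/H750/OrbIntCore.lean

-- ===== PACK-BEGIN LT/T7/H117/HaarPush.lean
section


/-!
# Row LT, tower T7, leaf C2.7.4 `HaarSplitC305` (helper117, OFF-MAIN): the abstract core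

Mathlib only.  `haarPush117`: the image of a Haar measure, restricted to an open subgroup `O`,
under a continuous homomorphism `p` which maps `O` ONTO a locally compact second countable group
`H` with a kernel (in `O`) contained in a compact set, is a positive multiple of every Haar
measure of `H` (open mapping theorem + uniqueness of the Haar measure).
-/

set_option autoImplicit false

open MeasureTheory Measure Set Pointwise
open scoped NNReal ENNReal

namespace Fermat.Agent.LT.T7.H117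

/-- **Abstract core of HAAR-SPLIT.** -/
theorem haarPush117 {G H : Type*} [Group G] [TopologicalSpace G] [IsTopologicalGroup G]
    [LocallyCompactSpace G] [SigmaCompactSpace G] [MeasurableSpace G] [BorelSpace G]
    [Group H] [TopologicalSpace H] [IsTopologicalGroup H] [LocallyCompactSpace H] [T2Space H]
    [SecondCountableTopology H] [MeasurableSpace H] [BorelSpace H]
    (μ : Measure G) [μ.IsHaarMeasure] (ν : Measure H) [ν.IsHaarMeasure]
    (O : Subgroup G) (hO : IsOpen (O : Set G))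
    (p : G →* H) (hp : Continuous p) (hsurj : ∀ h : H, ∃ x ∈ O, p x = h)
    (C : Set G) (hC : IsCompact C) (hker : ∀ x ∈ O, p x = 1 → x ∈ C) :
    ∃ c : ℝ≥0, c ≠ 0 ∧ Measure.map p (μ.restrict (O : Set G)) = c • ν := by
  classical
  have hpm : Measurable p := hp.measurable
  have hOm : MeasurableSet (O : Set G) := hO.measurableSet
  set ν' : Measure H := Measure.map p (μ.restrict (O : Set G)) with hν'
  -- left invariance
  have hinv : ν'.IsMulLeftInvariant := by
    refine ⟨fun h => ?_⟩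
    obtain ⟨x, hx, rfl⟩ := hsurj h
    have h1 : (fun y : H => p x * y) ∘ p = p ∘ (fun y : G => x * y) := by
      funext y; simp
    rw [hν', Measure.map_map (measurable_const_mul _) hpm, h1,
      ← Measure.map_map hpm (measurable_const_mul _)]
    congr 1
    have h2 : (fun y : G => x * y) ⁻¹' (O : Set G) = (O : Set G) := by
      ext y
      simp only [mem_preimage, SetLike.mem_coe]
      exact Subgroup.mul_mem_cancel_left O hx
    calc Measure.map (fun y : G => x * y) (μ.restrict (O : Set G))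
        = Measure.map (fun y : G => x * y)
            (μ.restrict ((fun y : G => x * y) ⁻¹' (O : Set G))) := by rw [h2]
      _ = (Measure.map (fun y : G => x * y) μ).restrict (O : Set G) :=
          (Measure.restrict_map (measurable_const_mul x) hOm).symm
      _ = μ.restrict (O : Set G) := by rw [map_mul_left_eq_self]
  -- finiteness on one open set
  obtain ⟨N, hNc, hN1⟩ := exists_compact_mem_nhds (1 : G)
  have hsurj' : Function.Surjective p := fun h => by
    obtain ⟨x, -, hx⟩ := hsurj h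
    exact ⟨x, hx⟩
  have hopen : IsOpenMap p := MonoidHom.isOpenMap_of_sigmaCompact p hsurj' hp
  set U : Set G := interior N ∩ (O : Set G) with hUdef
  have hU : IsOpen U := isOpen_interior.inter hO
  have h1U : (1 : G) ∈ U := ⟨mem_interior_iff_mem_nhds.2 hN1, O.one_mem⟩
  set V : Set H := p '' U with hVdef
  have hV : IsOpen V := hopen U hU
  have h1V : (1 : H) ∈ V := ⟨1, h1U, map_one p⟩
  have hsub : p ⁻¹' V ∩ (O : Set G) ⊆ N * C := by
    rintro y ⟨⟨x, hxU, hxy⟩, hyO⟩
    refine Set.mem_mul.2 ⟨x, interior_subset hxU.1, x⁻¹ * y, ?_, by simp⟩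
    apply hker
    · exact O.mul_mem (O.inv_mem hxU.2) hyO
    · rw [map_mul, map_inv, hxy]
      simp
  have hfin : ν' V < ∞ := by
    rw [hν', Measure.map_apply hpm hV.measurableSet,
      Measure.restrict_apply (hpm hV.measurableSet)]
    exact (measure_mono hsub).trans_lt (hNc.mul hC).measure_lt_top
  have hfc : IsFiniteMeasureOnCompacts ν' :=
    ⟨fun K hK => measure_lt_top_of_isCompact_of_isMulLeftInvariant V hV ⟨1, h1V⟩ hfin.ne hK⟩
  have heq := isMulLeftInvariant_eq_smul ν' ν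
  refine ⟨haarScalarFactor ν' ν, ?_, heq⟩
  intro h0
  rw [h0, zero_smul] at heq
  have h3 : ν' univ = μ (O : Set G) := by
    rw [hν', Measure.map_apply hpm MeasurableSet.univ]
    simp
  have hpos : 0 < μ (O : Set G) := hO.measure_pos μ ⟨1, O.one_mem⟩
  rw [heq] at h3
  simp only [Measure.coe_zero, Pi.zero_apply] at h3
  exact hpos.ne' h3.symm

end Fermat.Agent.LT.T7.H117

end
-- ===== PACK-END LT/T7/H117/HaarPush.lean

-- ===== PACK-BEGIN LT/T7/H44/RebaseAbs.lean
section


/-!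
# Row LT, tower T7 -- REBASING a complete orthonormal sequence along finite blocks (helper44)

OFF-MAIN.  Mathlib only.  Complete proofs.

Abstract part (no automorphic vocabulary):

* `hasSum_of_block_sums44`: two nonnegative sequences with the same sums over the blocks of a
  partition of `ℕ` into finite blocks have the same sum;
* `col_orthonormal_of_row44`: a block matrix with orthonormal rows has orthonormal columns;
* `sum_normSq_unitary44`: `∑_{k ∈ b} ‖∑_{j ∈ b} conj (A k j) x_j‖² = ∑_{j ∈ b} ‖x_j‖²`.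
-/

set_option autoImplicit false

open scoped ComplexConjugate

noncomputable section

namespace Fermat.Agent.LT.T7.H44

/-! ## 1. Blocks -/

/-- A partition of `ℕ` into finite blocks: `B k` is the block of `k`. -/
structure IsBlocks44 (B : ℕ → Finset ℕ) : Prop where
  self : ∀ k, k ∈ B k
  eq : ∀ k, ∀ j ∈ B k, B j = B k

theorem IsBlocks44.mem_symm {B : ℕ → Finset ℕ} (hB : IsBlocks44 B) {k j : ℕ} (h : j ∈ B k) :
    k ∈ B j := by
  rw [hB.eq k j h]
  exact hB.self k

theorem IsBlocks44.disjoint {B : ℕ → Finset ℕ} (hB : IsBlocks44 B) {k k' : ℕ}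
    (h : B k ≠ B k') : Disjoint (B k) (B k') := by
  rw [Finset.disjoint_left]
  intro j hj hj'
  exact h ((hB.eq k j hj).symm.trans (hB.eq k' j hj'))

/-- The saturation of a finite set: the union of the blocks of its members. -/
def saturate44 (B : ℕ → Finset ℕ) (S : Finset ℕ) : Finset ℕ := (S.image B).biUnion id

theorem subset_saturate44 {B : ℕ → Finset ℕ} (hB : IsBlocks44 B) (S : Finset ℕ) :
    S ⊆ saturate44 B S := by
  intro k hk
  rw [saturate44, Finset.mem_biUnion]
  exact ⟨B k, Finset.mem_image_of_mem B hk, hB.self k⟩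

theorem sum_saturate44 {B : ℕ → Finset ℕ} (hB : IsBlocks44 B) (S : Finset ℕ) (a : ℕ → ℝ) :
    ∑ k ∈ saturate44 B S, a k = ∑ b ∈ S.image B, ∑ j ∈ b, a j := by
  rw [saturate44, Finset.sum_biUnion]
  · rfl
  · intro b hb b' hb' hne
    obtain ⟨k, -, rfl⟩ := Finset.mem_image.1 (Finset.mem_coe.1 hb)
    obtain ⟨k', -, rfl⟩ := Finset.mem_image.1 (Finset.mem_coe.1 hb')
    exact hB.disjoint hne

/-- **Two nonnegative sequences with the same block sums have the same sum.** -/
theorem hasSum_of_block_sums44 {B : ℕ → Finset ℕ} (hB : IsBlocks44 B) {a a' : ℕ → ℝ}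
    (ha : ∀ k, 0 ≤ a k) (ha' : ∀ k, 0 ≤ a' k)
    (hblock : ∀ k, ∑ j ∈ B k, a j = ∑ j ∈ B k, a' j) {s : ℝ} (h : HasSum a s) :
    HasSum a' s := by
  have hsat : ∀ S : Finset ℕ, ∑ k ∈ saturate44 B S, a' k = ∑ k ∈ saturate44 B S, a k := by
    intro S
    rw [sum_saturate44 hB, sum_saturate44 hB]
    refine Finset.sum_congr rfl fun b hb => ?_
    obtain ⟨k, -, rfl⟩ := Finset.mem_image.1 hb
    exact (hblock k).symm
  have hle : ∀ S : Finset ℕ, ∑ k ∈ S, a' k ≤ s := by
    intro S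
    calc ∑ k ∈ S, a' k ≤ ∑ k ∈ saturate44 B S, a' k :=
          Finset.sum_le_sum_of_subset_of_nonneg (subset_saturate44 hB S) fun k _ _ => ha' k
      _ = ∑ k ∈ saturate44 B S, a k := hsat S
      _ ≤ s := sum_le_hasSum _ (fun k _ => ha k) h
  have hsum' : Summable a' := summable_of_sum_le ha' hle
  have h1 : ∑' k, a' k ≤ s := hsum'.tsum_le_of_sum_le hle
  have hle2 : ∀ S : Finset ℕ, ∑ k ∈ S, a k ≤ ∑' k, a' k := by
    intro S
    calc ∑ k ∈ S, a k ≤ ∑ k ∈ saturate44 B S, a k :=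
          Finset.sum_le_sum_of_subset_of_nonneg (subset_saturate44 hB S) fun k _ _ => ha k
      _ = ∑ k ∈ saturate44 B S, a' k := (hsat S).symm
      _ ≤ ∑' k, a' k := hsum'.sum_le_tsum _ (fun k _ => ha' k)
  have h2 : s ≤ ∑' k, a' k := by
    rw [← h.tsum_eq]
    exact h.summable.tsum_le_of_sum_le hle2
  have : ∑' k, a' k = s := le_antisymm h1 h2
  rw [← this]
  exact hsum'.hasSum

/-! ## 2. Unitary blocks -/

/-- Orthonormal rows on a finite block give orthonormal columns. -/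
theorem col_orthonormal_of_row44 (b : Finset ℕ) (A : ℕ → ℕ → ℂ)
    (hrow : ∀ k ∈ b, ∀ k' ∈ b, ∑ j ∈ b, A k j * conj (A k' j) = if k = k' then 1 else 0) :
    ∀ j ∈ b, ∀ j' ∈ b, ∑ k ∈ b, conj (A k j) * A k j' = if j = j' then 1 else 0 := by
  classical
  let M : Matrix b b ℂ := Matrix.of fun k j => A k j
  have h1 : M * M.conjTranspose = 1 := by
    ext k k'
    rw [Matrix.mul_apply, Matrix.one_apply]
    have := hrow k k.2 k' k'.2
    rw [← Finset.sum_coe_sort] at this
    simp only [M, Matrix.conjTranspose_apply, Matrix.of_apply, Complex.star_def]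
    rw [this]
    simp only [Subtype.ext_iff]
  have h2 : M.conjTranspose * M = 1 := mul_eq_one_comm.1 h1
  intro j hj j' hj'
  have := congrFun (congrFun h2 ⟨j, hj⟩) ⟨j', hj'⟩
  rw [Matrix.mul_apply, Matrix.one_apply] at this
  simp only [M, Matrix.conjTranspose_apply, Matrix.of_apply, Complex.star_def,
    Subtype.mk.injEq] at this
  rw [← Finset.sum_coe_sort]
  exact this

/-- A unitary block preserves the sum of squares. -/
theorem sum_normSq_unitary44 (b : Finset ℕ) (A : ℕ → ℕ → ℂ)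
    (hrow : ∀ k ∈ b, ∀ k' ∈ b, ∑ j ∈ b, A k j * conj (A k' j) = if k = k' then 1 else 0)
    (x : ℕ → ℂ) :
    ∑ k ∈ b, ‖∑ j ∈ b, conj (A k j) * x j‖ ^ 2 = ∑ j ∈ b, ‖x j‖ ^ 2 := by
  classical
  have hcol := col_orthonormal_of_row44 b A hrow
  have hC : ((∑ k ∈ b, ‖∑ j ∈ b, conj (A k j) * x j‖ ^ 2 : ℝ) : ℂ)
      = ((∑ j ∈ b, ‖x j‖ ^ 2 : ℝ) : ℂ) := by
    push_cast
    have e1 : ∀ k, ((‖∑ j ∈ b, conj (A k j) * x j‖ : ℂ)) ^ 2
        = ∑ j ∈ b, ∑ j' ∈ b, (x j * conj (x j')) * (conj (A k j) * A k j') := by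
      intro k
      rw [← Complex.mul_conj', map_sum, Finset.sum_mul_sum]
      refine Finset.sum_congr rfl fun j _ => Finset.sum_congr rfl fun j' _ => ?_
      simp only [map_mul, Complex.conj_conj]
      ring
    simp only [e1]
    rw [Finset.sum_comm]
    have e2 : ∀ j ∈ b, ∑ k ∈ b, ∑ j' ∈ b, (x j * conj (x j')) * (conj (A k j) * A k j')
        = ((‖x j‖ : ℂ)) ^ 2 := by
      intro j hj
      rw [Finset.sum_comm]
      have : ∀ j' ∈ b, ∑ k ∈ b, (x j * conj (x j')) * (conj (A k j) * A k j')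
          = (x j * conj (x j')) * (if j = j' then 1 else 0) := by
        intro j' hj'
        rw [← Finset.mul_sum, hcol j hj j' hj']
      rw [Finset.sum_congr rfl this]
      simp only [mul_ite, mul_one, mul_zero]
      rw [Finset.sum_ite_eq b j]
      simp only [hj, if_true]
      exact Complex.mul_conj' (x j)
    exact Finset.sum_congr rfl e2
  exact_mod_cast hC

end Fermat.Agent.LT.T7.H44

end
end
-- ===== PACK-END LT/T7/H44/RebaseAbs.lean

-- ===== PACK-BEGIN LT/T7/H922/ConvCore.lean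
section


/-!
# Row LT, tower T7 (helper922): convolution operators on a group with a Haar measure

OFF-MAIN, Mathlib only.  For a topological group `G` with a left invariant measure `μ` which is
finite on compact sets, continuous functions `φ₁, φ₂` with compact support and a continuous
function `ψ`:

* `rconv_conv_core922`: `R(φ₁ ⋆ φ₂) ψ = R(φ₁) (R(φ₂) ψ)`;
* `rconv_ltr_core922`: `R(φ(b⁻¹ ·)) ψ = (R(φ) ψ)(· b)`;
* `rconv_lsum_core922`: `R(∑_h φ(h⁻¹ ·)) ψ = ∑_h (R(φ) ψ)(· h)`;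
* `continuous_ltr922`, `hasCompactSupport_ltr922`, `continuous_lsum922`,
  `hasCompactSupport_lsum922`.
-/

set_option autoImplicit false
set_option linter.unusedSectionVars false

open MeasureTheory

noncomputable section

namespace Fermat.Agent.LT.T7.H922

section Core

variable {G : Type*} [Group G] [TopologicalSpace G] [IsTopologicalGroup G]
  [MeasurableSpace G] [BorelSpace G]

theorem continuous_ltr922 {φ : G → ℂ} (h : Continuous φ) (b : G) :
    Continuous fun y => φ (b⁻¹ * y) :=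
  h.comp (continuous_const.mul continuous_id)

theorem hasCompactSupport_ltr922 {φ : G → ℂ} (h : HasCompactSupport φ) (b : G) :
    HasCompactSupport fun y => φ (b⁻¹ * y) :=
  h.comp_homeomorph (Homeomorph.mulLeft b⁻¹)

theorem continuous_lsum922 {φ : G → ℂ} (h : Continuous φ) (H : Finset G) :
    Continuous fun y => ∑ b ∈ H, φ (b⁻¹ * y) :=
  continuous_finsetSum _ fun b _ => continuous_ltr922 h b

theorem hasCompactSupport_lsum922 {φ : G → ℂ} (h : HasCompactSupport φ) (H : Finset G) :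
    HasCompactSupport fun y => ∑ b ∈ H, φ (b⁻¹ * y) := by
  classical
  induction H using Finset.induction_on with
  | empty =>
    simp only [Finset.sum_empty]
    exact HasCompactSupport.zero
  | insert a s ha ih =>
    have e : (fun y => ∑ b ∈ insert a s, φ (b⁻¹ * y))
        = (fun y => φ (a⁻¹ * y)) + fun y => ∑ b ∈ s, φ (b⁻¹ * y) := by
      funext y
      simp [Finset.sum_insert ha]
    rw [e]
    exact (hasCompactSupport_ltr922 h a).add ih

theorem hasCompactSupport_const_mul922 {φ : G → ℂ} (h : HasCompactSupport φ) (c : ℂ) :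
    HasCompactSupport fun y => c * φ y :=
  h.mono fun y hy hφ => hy (by simp [hφ])

variable (μ : Measure G)

/-- Integrability of `φ · ψ(x ·)`. -/
theorem integrable_mul_shift922 [IsFiniteMeasureOnCompacts μ] {φ ψ : G → ℂ} (h : Continuous φ)
    (h' : HasCompactSupport φ) (hψ : Continuous ψ) (x : G) :
    Integrable (fun y => φ y * ψ (x * y)) μ :=
  (h.mul (hψ.comp (continuous_const.mul continuous_id))).integrable_of_hasCompactSupport
    (h'.mul_right)

/-- `R(φ(b⁻¹ ·)) ψ (x) = R(φ) ψ (x b)`. -/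
theorem rconv_ltr_core922 [μ.IsMulLeftInvariant] (φ ψ : G → ℂ) (b x : G) :
    ∫ y, φ (b⁻¹ * y) * ψ (x * y) ∂μ = ∫ y, φ y * ψ (x * b * y) ∂μ := by
  have h := integral_mul_left_eq_self (μ := μ) (fun y => φ (b⁻¹ * y) * ψ (x * y)) b
  rw [← h]
  refine integral_congr_ae (Filter.Eventually.of_forall fun y => ?_)
  simp only [inv_mul_cancel_left, mul_assoc]

/-- `R(∑_h φ(h⁻¹ ·)) ψ (x) = ∑_h R(φ) ψ (x h)`. -/
theorem rconv_lsum_core922 [μ.IsMulLeftInvariant] [IsFiniteMeasureOnCompacts μ] {φ ψ : G → ℂ}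
    (h : Continuous φ) (h' : HasCompactSupport φ) (hψ : Continuous ψ) (H : Finset G) (x : G) :
    ∫ y, (∑ b ∈ H, φ (b⁻¹ * y)) * ψ (x * y) ∂μ = ∑ b ∈ H, ∫ y, φ y * ψ (x * b * y) ∂μ := by
  have e : (fun y => (∑ b ∈ H, φ (b⁻¹ * y)) * ψ (x * y))
      = fun y => ∑ b ∈ H, φ (b⁻¹ * y) * ψ (x * y) := by
    funext y
    rw [Finset.sum_mul]
  rw [e, integral_finsetSum]
  · exact Finset.sum_congr rfl fun b _ => rconv_ltr_core922 μ φ ψ b x
  · intro b _
    exact integrable_mul_shift922 μ (continuous_ltr922 h b) (hasCompactSupport_ltr922 h' b) hψ x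

/-- `R(φ₁ ⋆ φ₂) ψ = R(φ₁) (R(φ₂) ψ)`. -/
theorem rconv_conv_core922 [μ.IsMulLeftInvariant] [IsFiniteMeasureOnCompacts μ]
    {φ₁ φ₂ ψ : G → ℂ} (h1 : Continuous φ₁) (h1' : HasCompactSupport φ₁)
    (h2 : Continuous φ₂) (h2' : HasCompactSupport φ₂) (hψ : Continuous ψ) (x : G) :
    ∫ y, (∫ w, φ₁ w * φ₂ (w⁻¹ * y) ∂μ) * ψ (x * y) ∂μ
      = ∫ w, φ₁ w * (∫ y, φ₂ y * ψ (x * w * y) ∂μ) ∂μ := by
  have hc : Continuous (Function.uncurry fun (y w : G) => φ₁ w * φ₂ (w⁻¹ * y) * ψ (x * y)) := by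
    have c1 : Continuous fun p : G × G => φ₁ p.2 := h1.comp continuous_snd
    have c2 : Continuous fun p : G × G => φ₂ (p.2⁻¹ * p.1) :=
      h2.comp (continuous_snd.inv.mul continuous_fst)
    have c3 : Continuous fun p : G × G => ψ (x * p.1) :=
      hψ.comp (continuous_const.mul continuous_fst)
    exact (c1.mul c2).mul c3
  have hcs : HasCompactSupport
      (Function.uncurry fun (y w : G) => φ₁ w * φ₂ (w⁻¹ * y) * ψ (x * y)) := by
    refine HasCompactSupport.intro ((h1'.isCompact.mul h2'.isCompact).prod h1'.isCompact) ?_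
    rintro ⟨y, w⟩ hyw
    simp only [Function.uncurry]
    by_cases hw : w ∈ tsupport φ₁
    · have hy : w⁻¹ * y ∉ tsupport φ₂ := by
        intro hy
        apply hyw
        refine ⟨?_, hw⟩
        exact Set.mem_mul.2 ⟨w, hw, w⁻¹ * y, hy, by simp⟩
      rw [image_eq_zero_of_notMem_tsupport hy]
      simp
    · rw [image_eq_zero_of_notMem_tsupport hw]
      simp
  calc ∫ y, (∫ w, φ₁ w * φ₂ (w⁻¹ * y) ∂μ) * ψ (x * y) ∂μ
      = ∫ y, ∫ w, φ₁ w * φ₂ (w⁻¹ * y) * ψ (x * y) ∂μ ∂μ := by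
        refine integral_congr_ae (Filter.Eventually.of_forall fun y => ?_)
        exact (integral_mul_const _ _).symm
    _ = ∫ w, ∫ y, φ₁ w * φ₂ (w⁻¹ * y) * ψ (x * y) ∂μ ∂μ :=
        integral_integral_swap_of_hasCompactSupport hc hcs
    _ = ∫ w, φ₁ w * (∫ y, φ₂ y * ψ (x * w * y) ∂μ) ∂μ := by
        refine integral_congr_ae (Filter.Eventually.of_forall fun w => ?_)
        show ∫ y, φ₁ w * φ₂ (w⁻¹ * y) * ψ (x * y) ∂μ = φ₁ w * ∫ y, φ₂ y * ψ (x * w * y) ∂μ
        rw [← rconv_ltr_core922 μ φ₂ ψ w x, ← integral_const_mul]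
        refine integral_congr_ae (Filter.Eventually.of_forall fun y => ?_)
        show φ₁ w * φ₂ (w⁻¹ * y) * ψ (x * y) = φ₁ w * (φ₂ (w⁻¹ * y) * ψ (x * y))
        ring

end Core

end Fermat.Agent.LT.T7.H922

end

end
-- ===== PACK-END LT/T7/H922/ConvCore.lean

-- ===== PACK-BEGIN LT/T7/H402/TraceAtoms.lean
section


/-!
# Row LT, tower T7 -- asset T7.C3.A (helper402): twisted trace atoms

OFF-MAIN, Mathlib only; every proof is complete.

For the spectral side of `T7.TraceWordsRegC` / `TraceWordsQRegC` (`T7/Reg.lean` of helper797,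
header: "why no polynomial factors in `m`", "summability").

## Statement (`twistedTraceAtoms402`)

`V` a finite-dimensional inner product space over `ℂ` (a block of cusp functions), `U : ι → End V`
a COMMUTING family (the operators `U_j`, `Z_j`, `Z_j⁻¹` at the places `o j` over the regular
place, and any commuting generators outside `S'`), `σ : Equiv.Perm ι` (the action of the
automorphism on the generators) and `T : End V` with `T ∘ U a = U (σ a) ∘ T`
(`T = R(φ) ∘ R(σ)`, `R(φ)` commuting with the family).  Then there are an orthonormal basis `q`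
of `V`, characters `χ i : ι → ℂ` and coefficients `t i` with

1. `tr (T ∘ U a₁ ∘ ⋯ ∘ U a_r) = ∑ i, t i · χ i a₁ ⋯ χ i a_r` for every word;
2. `t i = 0` or `t i = ⟪q i, T (q i)⟫` (summability: apply `T5.STFsigma` to the orthonormal
   sequence glued from the `q` of the blocks);
3. if `t i ≠ 0`: `χ i ∘ σ = χ i`, and `χ i` is the character of a joint eigenvector in `V`.

## Proof

Induction on `dim V`.  Take a joint eigenvector `y` of the adjoints `(U a)†` (character `ψ`).
Case 1, `ψ ∘ σ = ψ`: the joint eigenspace of the adjoints is stable under `T†`; take an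
eigenvector `y₁` of `T†` in it; the hyperplane `y₁ᗮ` is stable under `T` and the `U a`; the
atom of `y₁` has character `conj ψ` and coefficient `⟪y₁, T y₁⟫`; a joint eigenvector with
character `conj ψ` exists because `y₁` is orthogonal to the joint generalised eigenspaces of
all other characters.  Case 2, `ψ ∘ σ ≠ ψ`: `V₁` = the sum of the joint eigenspaces of the
adjoints over the `σ`-orbit of `ψ`; `(T ∘ word)†` permutes the summands without fixed point, so
the diagonal coefficients of `T ∘ word` in any orthonormal basis of `V₁` sum to `0`; `V₁ᗮ` is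
stable.
-/

set_option autoImplicit false

open scoped InnerProductSpace ComplexConjugate
open Module

noncomputable section

namespace Fermat.Agent.LT.T7.H402

/-! ## 1. Words -/

section Word

variable {ι : Type*} {V : Type*} [AddCommGroup V] [Module ℂ V]

theorem wordOp_nil402 (U : ι → Module.End ℂ V) (x : V) :
    (([] : List ι).map U).prod x = x := by
  simp

theorem wordOp_cons402 (U : ι → Module.End ℂ V) (a : ι) (w : List ι) (x : V) :
    (((a :: w).map U).prod) x = U a ((w.map U).prod x) := by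
  simp [Module.End.mul_apply]

/-- A joint eigenvector is an eigenvector of every word. -/
theorem wordOp_eigen402 (U : ι → Module.End ℂ V) (χ : ι → ℂ) (x : V)
    (hx : ∀ a, U a x = χ a • x) (w : List ι) :
    (w.map U).prod x = (w.map χ).prod • x := by
  induction w with
  | nil => simp
  | cons a w ih =>
    rw [wordOp_cons402, ih, map_smul, hx, smul_smul, List.map_cons, List.prod_cons]
    rw [mul_comm]

/-- Words preserve invariant subspaces. -/
theorem wordOp_mem402 (U : ι → Module.End ℂ V) (H : Submodule ℂ V)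
    (hH : ∀ a, ∀ v ∈ H, U a v ∈ H) (w : List ι) (x : V) (hx : x ∈ H) :
    (w.map U).prod x ∈ H := by
  induction w with
  | nil => simpa using hx
  | cons a w ih =>
    rw [wordOp_cons402]
    exact hH a _ ih

/-- Words of the restricted operators. -/
theorem wordOp_restrict402 (U : ι → Module.End ℂ V) (H : Submodule ℂ V)
    (hH : ∀ a, ∀ v ∈ H, U a v ∈ H) (w : List ι) (x : H) :
    (((w.map (fun a => (U a).restrict (hH a))).prod x : H) : V) = (w.map U).prod (x : V) := by
  induction w with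
  | nil => simp
  | cons a w ih =>
    rw [wordOp_cons402, wordOp_cons402, LinearMap.coe_restrict_apply, ih]

/-- A word commutes with every letter of a commuting family. -/
theorem wordOp_commute402 (U : ι → Module.End ℂ V) (hU : ∀ a b, Commute (U a) (U b))
    (w : List ι) (a : ι) : Commute ((w.map U).prod) (U a) := by
  apply Commute.list_prod_left
  intro x hx
  obtain ⟨b, -, rfl⟩ := List.mem_map.mp hx
  exact hU b a

end Word

/-! ## 2. Joint eigenvectors of commuting families -/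

section Joint

/-- **Lemma J.**  A commuting family of endomorphisms of a non-zero finite-dimensional complex
vector space has a joint eigenvector. -/
theorem exists_joint_eigenvector402.{u, v} {ι : Type v} :
    ∀ (d : ℕ) (V : Type u) [AddCommGroup V] [Module ℂ V] [FiniteDimensional ℂ V],
      finrank ℂ V = d → 0 < d →
      ∀ U : ι → Module.End ℂ V, (∀ a b, Commute (U a) (U b)) →
        ∃ (x : V) (χ : ι → ℂ), x ≠ 0 ∧ ∀ a, U a x = χ a • x := by
  intro d
  induction d using Nat.strong_induction_on with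
  | _ d ih =>
    intro V _ _ _ hd hpos U hU
    have hnt : Nontrivial V := Module.finrank_pos_iff.mp (hd ▸ hpos)
    by_cases hsc : ∀ a, ∃ c : ℂ, ∀ x, U a x = c • x
    · choose χ hχ using hsc
      obtain ⟨x, hx⟩ := exists_ne (0 : V)
      exact ⟨x, χ, hx, fun a => hχ a x⟩
    · push Not at hsc
      obtain ⟨a, ha⟩ := hsc
      obtain ⟨μ, hμ⟩ := Module.End.exists_eigenvalue (U a)
      set E := Module.End.eigenspace (U a) μ with hE
      have hEbot : E ≠ ⊥ := hμ
      have hEtop : E ≠ ⊤ := by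
        intro h
        obtain ⟨x, hx⟩ := ha μ
        apply hx
        have : x ∈ E := by rw [h]; exact Submodule.mem_top
        exact Module.End.mem_eigenspace_iff.mp this
      have hinv : ∀ b, ∀ v ∈ E, U b v ∈ E := by
        intro b v hv
        rw [hE, Module.End.mem_eigenspace_iff] at hv ⊢
        have := (hU a b).eq
        calc U a (U b v) = (U a * U b) v := rfl
          _ = (U b * U a) v := by rw [this]
          _ = U b (U a v) := rfl
          _ = μ • U b v := by rw [hv, map_smul]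
      have hlt : finrank ℂ E < d := hd ▸ Submodule.finrank_lt hEtop
      have hEpos : 0 < finrank ℂ E := by
        rw [Module.finrank_pos_iff]
        exact Submodule.nontrivial_iff_ne_bot.mpr hEbot
      obtain ⟨x, χ, hx, hχ⟩ := ih (finrank ℂ E) hlt E rfl hEpos
        (fun b => (U b).restrict (hinv b))
        (fun b c => by
          apply LinearMap.ext
          intro v
          apply Subtype.ext
          simp only [Module.End.mul_apply, LinearMap.coe_restrict_apply]
          exact congrArg (fun f : Module.End ℂ V => f (v : V)) (hU b c).eq)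
      refine ⟨(x : V), χ, fun h => hx (Subtype.ext h), fun b => ?_⟩
      have := congrArg (Subtype.val) (hχ b)
      simpa using this


/-- Powers of `U - c` on an eigenvector. -/
theorem sub_smul_pow_eigen402 {V : Type*} [AddCommGroup V] [Module ℂ V] (f : Module.End ℂ V)
    (c c' : ℂ) (x : V) (hx : f x = c' • x) (k : ℕ) :
    ((f - c • (1 : Module.End ℂ V)) ^ k) x = (c' - c) ^ k • x := by
  induction k with
  | zero => simp
  | succ k ih =>
    rw [pow_succ', Module.End.mul_apply, ih, map_smul, LinearMap.sub_apply, LinearMap.smul_apply,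
      Module.End.one_apply, hx, ← sub_smul, smul_smul, pow_succ]

/-- Powers of `U - c` against a left eigenvector. -/
theorem inner_sub_smul_pow402 {V : Type*} [NormedAddCommGroup V] [InnerProductSpace ℂ V]
    (f : Module.End ℂ V) (c κ : ℂ) (y : V) (hy : ∀ u, ⟪y, f u⟫_ℂ = κ * ⟪y, u⟫_ℂ) (k : ℕ)
    (v : V) :
    ⟪y, ((f - c • (1 : Module.End ℂ V)) ^ k) v⟫_ℂ = (κ - c) ^ k * ⟪y, v⟫_ℂ := by
  induction k generalizing v with
  | zero => simp
  | succ k ih =>
    rw [pow_succ, Module.End.mul_apply, ih, LinearMap.sub_apply, LinearMap.smul_apply,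
      Module.End.one_apply, inner_sub_right, inner_smul_right, hy]
    ring

/-- **Lemma L'.**  If `y ≠ 0` is a LEFT joint eigenvector of a commuting family with character
`κ` (`⟪y, U a u⟫ = κ a ⟪y, u⟫` for all `u`), then the family has a joint eigenvector with
character `κ`. -/
theorem exists_eigenvector_of_left402 {ι : Type*} {V : Type*} [NormedAddCommGroup V]
    [InnerProductSpace ℂ V] [FiniteDimensional ℂ V] (U : ι → Module.End ℂ V)
    (hU : ∀ a b, Commute (U a) (U b)) (κ : ι → ℂ) (y : V) (hy0 : y ≠ 0)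
    (hy : ∀ a u, ⟪y, U a u⟫_ℂ = κ a * ⟪y, u⟫_ℂ) :
    ∃ x : V, x ≠ 0 ∧ ∀ a, U a x = κ a • x := by
  classical
  set W : (ι → ℂ) → Submodule ℂ V := fun χ => ⨅ a, (U a).maxGenEigenspace (χ a) with hW
  have htop : ⨆ χ, W χ = ⊤ :=
    Module.End.iSup_iInf_maxGenEigenspace_eq_top_of_iSup_maxGenEigenspace_eq_top_of_commute U
      (fun a b _ => hU a b) (fun a => Module.End.iSup_maxGenEigenspace_eq_top (U a))
  -- the joint generalised eigenspace of `κ` is not zero
  have hne : W κ ≠ ⊥ := by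
    intro hbot
    have hle : ∀ χ, W χ ≤ (Submodule.span ℂ {y})ᗮ := by
      intro χ
      by_cases hχ : χ = κ
      · rw [hχ, hbot]; exact bot_le
      · obtain ⟨a, ha⟩ := Function.ne_iff.mp hχ
        intro v hv
        rw [Submodule.mem_orthogonal_singleton_iff_inner_right]
        have hv' := (Module.End.mem_iInf_maxGenEigenspace_iff U χ v).mp hv a
        obtain ⟨k, hk⟩ := hv'
        have := inner_sub_smul_pow402 (U a) (χ a) (κ a) y (hy a) k v
        rw [hk, inner_zero_right] at this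
        have h2 : (κ a - χ a) ^ k ≠ 0 := pow_ne_zero _ (sub_ne_zero.mpr (Ne.symm ha))
        exact (mul_eq_zero.mp this.symm).resolve_left h2
    have h1 : (⊤ : Submodule ℂ V) ≤ (Submodule.span ℂ {y})ᗮ := by
      rw [← htop]; exact iSup_le hle
    have h2 : y ∈ (Submodule.span ℂ {y})ᗮ := h1 Submodule.mem_top
    rw [Submodule.mem_orthogonal_singleton_iff_inner_right] at h2
    exact hy0 (inner_self_eq_zero.mp h2)
  -- a joint eigenvector inside
  have hinv : ∀ b, ∀ v ∈ W κ, U b v ∈ W κ := by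
    intro b v hv
    rw [hW] at hv ⊢
    simp only [Submodule.mem_iInf] at hv ⊢
    intro a
    exact Module.End.mapsTo_maxGenEigenspace_of_comm (hU a b) (κ a) (hv a)
  have hpos : 0 < finrank ℂ (W κ) := by
    rw [Module.finrank_pos_iff]
    exact Submodule.nontrivial_iff_ne_bot.mpr hne
  obtain ⟨x, χ', hx, hχ'⟩ := exists_joint_eigenvector402 (finrank ℂ (W κ)) (W κ) rfl hpos
    (fun b => (U b).restrict (hinv b))
    (fun b c => by
      apply LinearMap.ext
      intro v
      apply Subtype.ext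
      simp only [Module.End.mul_apply, LinearMap.coe_restrict_apply]
      exact congrArg (fun f : Module.End ℂ V => f (v : V)) (hU b c).eq)
  have hx0 : (x : V) ≠ 0 := fun h => hx (Subtype.ext h)
  have hxe : ∀ a, U a (x : V) = χ' a • (x : V) := by
    intro a
    have := congrArg (Subtype.val) (hχ' a)
    simpa using this
  refine ⟨(x : V), hx0, fun a => ?_⟩
  have hmem := (Module.End.mem_iInf_maxGenEigenspace_iff U κ (x : V)).mp x.2 a
  obtain ⟨k, hk⟩ := hmem
  rw [sub_smul_pow_eigen402 (U a) (κ a) (χ' a) (x : V) (hxe a) k] at hk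
  have h3 : (χ' a - κ a) ^ k = 0 := (smul_eq_zero.mp hk).resolve_right hx0
  have h4 : χ' a = κ a := sub_eq_zero.mp (pow_eq_zero_iff (by
    intro h0
    rw [h0, pow_zero] at h3
    exact one_ne_zero h3) |>.mp h3)
  rw [← h4]
  exact hxe a

end Joint

/-! ## 3. Atoms -/

section Atoms

variable {ι : Type*} {V : Type*} [NormedAddCommGroup V] [InnerProductSpace ℂ V]

/-- **Atoms** of `(U, T)` carried by an orthonormal family `q`: the diagonal coefficients of
`T ∘ word` in `q` are sums of the values of characters; the coefficient of an atom is `0` or the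
diagonal coefficient of `T` at `q i`; an atom with non-zero coefficient has a `σ`-invariant
character which is the character of a TRUE joint eigenvector. -/
structure IsAtoms402 (σ : Equiv.Perm ι) (U : ι → Module.End ℂ V) (T : Module.End ℂ V)
    {n : Type} [Fintype n] (q : n → V) (χ : n → ι → ℂ) (t : n → ℂ) : Prop where
  orth : Orthonormal ℂ q
  trace : ∀ w : List ι,
    ∑ i, ⟪q i, T ((w.map U).prod (q i))⟫_ℂ = ∑ i, t i * (w.map (χ i)).prod
  diag : ∀ i, t i = 0 ∨ t i = ⟪q i, T (q i)⟫_ℂ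
  eig : ∀ i, t i ≠ 0 →
    (∀ a, χ i (σ a) = χ i a) ∧ ∃ x : V, x ≠ 0 ∧ ∀ a, U a x = χ i a • x

/-- The output of one step of the induction: a non-zero subspace `V₁` whose orthogonal
complement is invariant, with atoms carried by an orthonormal basis of `V₁`. -/
def StepOut402 (σ : Equiv.Perm ι) (U : ι → Module.End ℂ V) (T : Module.End ℂ V) : Prop :=
  ∃ V₁ : Submodule ℂ V, V₁ ≠ ⊥ ∧ (∀ a, ∀ v ∈ V₁ᗮ, U a v ∈ V₁ᗮ) ∧ (∀ v ∈ V₁ᗮ, T v ∈ V₁ᗮ) ∧
    ∃ (m : Type) (_ : Fintype m) (q₁ : m → V) (χ₁ : m → ι → ℂ) (t₁ : m → ℂ),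
      IsAtoms402 σ U T q₁ χ₁ t₁ ∧ Submodule.span ℂ (Set.range q₁) = V₁

/-- A left joint eigenvector pairs with words through its character. -/
theorem inner_wordOp_left402 (U : ι → Module.End ℂ V) (κ : ι → ℂ) (y : V)
    (hy : ∀ a u, ⟪y, U a u⟫_ℂ = κ a * ⟪y, u⟫_ℂ) (w : List ι) (u : V) :
    ⟪y, (w.map U).prod u⟫_ℂ = (w.map κ).prod * ⟪y, u⟫_ℂ := by
  induction w with
  | nil => simp
  | cons a w ih =>
    rw [wordOp_cons402, hy, ih, List.map_cons, List.prod_cons, mul_assoc]

/-- `T ∘ word` intertwines `U a` and `U (σ a)`. -/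
theorem intertwine_word402 (σ : Equiv.Perm ι) (U : ι → Module.End ℂ V)
    (hU : ∀ a b, Commute (U a) (U b)) (T : Module.End ℂ V)
    (hT : ∀ a, T * U a = U (σ a) * T) (w : List ι) (a : ι) :
    (T * (w.map U).prod) * U a = U (σ a) * (T * (w.map U).prod) := by
  rw [mul_assoc, (wordOp_commute402 U hU w a).eq, ← mul_assoc, hT, mul_assoc]

variable [FiniteDimensional ℂ V]

/-- **Case 1**: a normalised joint eigenvector of the adjoints, with `σ`-invariant character,
which is an eigenvector of the adjoint of `T`. -/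
theorem stepOut_case1_402 (σ : Equiv.Perm ι) (U : ι → Module.End ℂ V)
    (hU : ∀ a b, Commute (U a) (U b)) (T : Module.End ℂ V)
    (y : V) (hy1 : ‖y‖ = 1) (ψ : ι → ℂ) (θ : ℂ)
    (hy : ∀ a, LinearMap.adjoint (U a) y = ψ a • y) (hθ : LinearMap.adjoint T y = θ • y)
    (hψ : ∀ a, ψ (σ a) = ψ a) : StepOut402 σ U T := by
  have hy0 : y ≠ 0 := by
    intro h
    rw [h, norm_zero] at hy1
    exact zero_ne_one hy1
  have hyy : ⟪y, y⟫_ℂ = 1 := by
    rw [inner_self_eq_norm_sq_to_K, hy1]; simp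
  have hUl : ∀ a u, ⟪y, U a u⟫_ℂ = conj (ψ a) * ⟪y, u⟫_ℂ := by
    intro a u
    rw [← LinearMap.adjoint_inner_left, hy, inner_smul_left]
  have hTl : ∀ u, ⟪y, T u⟫_ℂ = conj θ * ⟪y, u⟫_ℂ := by
    intro u
    rw [← LinearMap.adjoint_inner_left, hθ, inner_smul_left]
  refine ⟨Submodule.span ℂ {y}, ?_, ?_, ?_, Unit, inferInstance, fun _ => y,
    fun _ a => conj (ψ a), fun _ => conj θ, ⟨?_, ?_, ?_, ?_⟩, ?_⟩
  · intro h
    have : y ∈ (⊥ : Submodule ℂ V) := h ▸ Submodule.mem_span_singleton_self y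
    exact hy0 ((Submodule.mem_bot ℂ).mp this)
  · intro a v hv
    rw [Submodule.mem_orthogonal_singleton_iff_inner_right] at hv ⊢
    rw [hUl, hv, mul_zero]
  · intro v hv
    rw [Submodule.mem_orthogonal_singleton_iff_inner_right] at hv ⊢
    rw [hTl, hv, mul_zero]
  · rw [orthonormal_iff_ite]
    intro i j
    rw [if_pos (Subsingleton.elim i j)]
    exact hyy
  · intro w
    simp only [Finset.univ_unique, Finset.sum_singleton]
    rw [hTl, inner_wordOp_left402 U (fun a => conj (ψ a)) y hUl, hyy, mul_one]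
  · intro i
    right
    rw [hTl, hyy, mul_one]
  · intro i _
    refine ⟨fun a => by rw [hψ], ?_⟩
    exact exists_eigenvector_of_left402 U hU (fun a => conj (ψ a)) y hy0 hUl
  · simp

/-! ### Case 2: a joint eigenvector of the adjoints whose character is not `σ`-invariant -/

/-- The joint eigenspace of the adjoints for the character `χ`. -/
def adjEig402 (U : ι → Module.End ℂ V) (χ : ι → ℂ) : Submodule ℂ V :=
  ⨅ a, Module.End.eigenspace (LinearMap.adjoint (U a)) (χ a)

theorem mem_adjEig402 (U : ι → Module.End ℂ V) (χ : ι → ℂ) (y : V) :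
    y ∈ adjEig402 U χ ↔ ∀ a, LinearMap.adjoint (U a) y = χ a • y := by
  simp [adjEig402, Submodule.mem_iInf]

/-- The orbit of a character under `σ`. -/
def orbit402 (σ : Equiv.Perm ι) (ψ : ι → ℂ) : Set (ι → ℂ) :=
  {χ | ∃ k : ℤ, χ = ψ ∘ ⇑(σ ^ k)}

theorem self_mem_orbit402 (σ : Equiv.Perm ι) (ψ : ι → ℂ) : ψ ∈ orbit402 σ ψ :=
  ⟨0, by ext a; simp⟩

theorem comp_mem_orbit402 (σ : Equiv.Perm ι) (ψ χ : ι → ℂ) (h : χ ∈ orbit402 σ ψ) :
    χ ∘ ⇑σ ∈ orbit402 σ ψ := by
  obtain ⟨k, rfl⟩ := h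
  refine ⟨k + 1, ?_⟩
  ext a
  simp only [Function.comp_apply]
  rw [zpow_add_one, Equiv.Perm.mul_apply]

theorem comp_ne_of_mem_orbit402 (σ : Equiv.Perm ι) (ψ χ : ι → ℂ) (hψ : ψ ∘ ⇑σ ≠ ψ)
    (h : χ ∈ orbit402 σ ψ) : χ ∘ ⇑σ ≠ χ := by
  obtain ⟨k, rfl⟩ := h
  intro hc
  apply hψ
  ext b
  have h1 := congrFun hc ((σ ^ k)⁻¹ b)
  simp only [Function.comp_apply] at h1 ⊢
  have h2 : (σ ^ k) (σ ((σ ^ k)⁻¹ b)) = σ b := by
    have : σ ^ k * σ * (σ ^ k)⁻¹ = σ := by
      rw [(Commute.zpow_self σ k).eq, mul_assoc, mul_inv_cancel, mul_one]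
    calc (σ ^ k) (σ ((σ ^ k)⁻¹ b)) = (σ ^ k * σ * (σ ^ k)⁻¹) b := rfl
      _ = σ b := by rw [this]
  have h3 : (σ ^ k) ((σ ^ k)⁻¹ b) = b := by
    calc (σ ^ k) ((σ ^ k)⁻¹ b) = (σ ^ k * (σ ^ k)⁻¹) b := rfl
      _ = b := by rw [mul_inv_cancel]; rfl
  rw [h2, h3] at h1
  exact h1

/-- The adjoints commute. -/
theorem adjoint_commute402 (U : ι → Module.End ℂ V) (hU : ∀ a b, Commute (U a) (U b))
    (a b : ι) : Commute (LinearMap.adjoint (U a)) (LinearMap.adjoint (U b)) := by
  change LinearMap.adjoint (U a) * LinearMap.adjoint (U b)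
    = LinearMap.adjoint (U b) * LinearMap.adjoint (U a)
  rw [Module.End.mul_eq_comp, Module.End.mul_eq_comp, ← LinearMap.adjoint_comp,
    ← LinearMap.adjoint_comp, ← Module.End.mul_eq_comp, ← Module.End.mul_eq_comp, (hU b a).eq]

/-- The adjoint of an intertwiner maps joint eigenspaces of the adjoints to joint eigenspaces. -/
theorem adjoint_mem_adjEig402 (σ : Equiv.Perm ι) (U : ι → Module.End ℂ V)
    (X : Module.End ℂ V) (hX : ∀ a, X * U a = U (σ a) * X) (χ : ι → ℂ) (v : V)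
    (hv : v ∈ adjEig402 U χ) : LinearMap.adjoint X v ∈ adjEig402 U (χ ∘ ⇑σ) := by
  rw [mem_adjEig402] at hv ⊢
  intro a
  have h1 : LinearMap.adjoint (U a) ∘ₗ LinearMap.adjoint X
      = LinearMap.adjoint X ∘ₗ LinearMap.adjoint (U (σ a)) := by
    rw [← LinearMap.adjoint_comp, ← LinearMap.adjoint_comp, ← Module.End.mul_eq_comp,
      ← Module.End.mul_eq_comp, hX]
  have h2 := congrArg (fun f : V →ₗ[ℂ] V => f v) h1
  simp only [LinearMap.comp_apply] at h2
  rw [h2, hv, map_smul]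
  rfl

/-- The sum of the joint eigenspaces of the adjoints over the orbit of `ψ`. -/
def orbitSum402 (σ : Equiv.Perm ι) (U : ι → Module.End ℂ V) (ψ : ι → ℂ) : Submodule ℂ V :=
  ⨆ χ ∈ orbit402 σ ψ, adjEig402 U χ

theorem adjoint_mem_orbitSum402 (σ : Equiv.Perm ι) (U : ι → Module.End ℂ V) (ψ : ι → ℂ)
    (X : Module.End ℂ V) (hX : ∀ a, X * U a = U (σ a) * X) (v : V)
    (hv : v ∈ orbitSum402 σ U ψ) : LinearMap.adjoint X v ∈ orbitSum402 σ U ψ := by
  have hle : orbitSum402 σ U ψ ≤ (orbitSum402 σ U ψ).comap (LinearMap.adjoint X) := by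
    apply iSup₂_le
    intro χ hχ u hu
    rw [Submodule.mem_comap]
    exact (le_biSup (adjEig402 U) (comp_mem_orbit402 σ ψ χ hχ))
      (adjoint_mem_adjEig402 σ U X hX χ u hu)
  exact hle hv

theorem adjointU_mem_orbitSum402 (σ : Equiv.Perm ι) (U : ι → Module.End ℂ V) (ψ : ι → ℂ)
    (a : ι) (v : V) (hv : v ∈ orbitSum402 σ U ψ) :
    LinearMap.adjoint (U a) v ∈ orbitSum402 σ U ψ := by
  have hle : orbitSum402 σ U ψ ≤ (orbitSum402 σ U ψ).comap (LinearMap.adjoint (U a)) := by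
    apply iSup₂_le
    intro χ hχ u hu
    rw [Submodule.mem_comap]
    have hu' := (mem_adjEig402 U χ u).mp hu a
    rw [hu']
    exact Submodule.smul_mem _ _ ((le_biSup (adjEig402 U) hχ) hu)
  exact hle hv

/-- If `K` is invariant under the adjoint of `X`, then `Kᗮ` is invariant under `X`. -/
theorem mem_orthogonal_of_adjoint402 (K : Submodule ℂ V) (X : Module.End ℂ V)
    (hK : ∀ v ∈ K, LinearMap.adjoint X v ∈ K) (v : V) (hv : v ∈ Kᗮ) : X v ∈ Kᗮ := by
  rw [Submodule.mem_orthogonal] at hv ⊢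
  intro u hu
  rw [← LinearMap.adjoint_inner_left]
  exact hv _ (hK u hu)

/-- The joint eigenspaces of the adjoints over the orbit are independent. -/
theorem adjEig_indep402 (σ : Equiv.Perm ι) (U : ι → Module.End ℂ V)
    (hU : ∀ a b, Commute (U a) (U b)) (ψ : ι → ℂ) :
    iSupIndep (fun i : orbit402 σ ψ => adjEig402 U (i : ι → ℂ)) := by
  have h1 : iSupIndep fun χ : ι → ℂ =>
      ⨅ a, Module.End.maxGenEigenspace (LinearMap.adjoint (U a)) (χ a) :=
    Module.End.independent_iInf_maxGenEigenspace_of_forall_mapsTo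
      (fun a => (LinearMap.adjoint (U a) : Module.End ℂ V))
      (fun i j φ => Module.End.mapsTo_maxGenEigenspace_of_comm (adjoint_commute402 U hU j i) φ)
  have h2 : iSupIndep (adjEig402 U) :=
    h1.mono (fun χ => iInf_mono fun a => Module.End.eigenspace_le_maxGenEigenspace)
  exact h2.comp Subtype.val_injective

/-- **The trace of the adjoint of an intertwiner on the orbit sum vanishes** when the character
is not `σ`-invariant. -/
theorem trace_restrict_orbitSum402 (σ : Equiv.Perm ι) (U : ι → Module.End ℂ V)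
    (hU : ∀ a b, Commute (U a) (U b)) (ψ : ι → ℂ) (hψ : ψ ∘ ⇑σ ≠ ψ)
    (X : Module.End ℂ V) (hX : ∀ a, X * U a = U (σ a) * X) :
    LinearMap.trace ℂ (orbitSum402 σ U ψ)
      ((LinearMap.adjoint X).restrict (adjoint_mem_orbitSum402 σ U ψ X hX)) = 0 := by
  classical
  have hint := DirectSum.isInternal_biSup_submodule_of_iSupIndep (orbit402 σ ψ)
    (adjEig_indep402 σ U hU ψ)
  refine LinearMap.trace_eq_zero_of_mapsTo_ne hint
    (fun i => ⟨(i : ι → ℂ) ∘ ⇑σ, comp_mem_orbit402 σ ψ i i.2⟩) ?_ ?_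
  · intro i h
    exact comp_ne_of_mem_orbit402 σ ψ i hψ i.2 (congrArg Subtype.val h)
  · intro i v hv
    exact adjoint_mem_adjEig402 σ U X hX i v hv

/-- **Case 2**: a joint eigenvector of the adjoints whose character is not `σ`-invariant. -/
theorem stepOut_case2_402 (σ : Equiv.Perm ι) (U : ι → Module.End ℂ V)
    (hU : ∀ a b, Commute (U a) (U b)) (T : Module.End ℂ V)
    (hT : ∀ a, T * U a = U (σ a) * T)
    (y : V) (hy0 : y ≠ 0) (ψ : ι → ℂ)
    (hy : ∀ a, LinearMap.adjoint (U a) y = ψ a • y) (hψ : ψ ∘ ⇑σ ≠ ψ) :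
    StepOut402 σ U T := by
  set V₁ := orbitSum402 σ U ψ with hV₁
  set q' := stdOrthonormalBasis ℂ V₁ with hq'
  have hyV : y ∈ V₁ :=
    (le_biSup (adjEig402 U) (self_mem_orbit402 σ ψ)) ((mem_adjEig402 U ψ y).mpr hy)
  refine ⟨V₁, ?_, ?_, ?_, Fin (finrank ℂ V₁), inferInstance, fun j => (q' j : V),
    fun _ _ => 0, fun _ => 0, ⟨?_, ?_, ?_, ?_⟩, ?_⟩
  · intro h
    rw [h] at hyV
    exact hy0 ((Submodule.mem_bot ℂ).mp hyV)
  · intro a v hv
    exact mem_orthogonal_of_adjoint402 V₁ (U a)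
      (fun u hu => adjointU_mem_orbitSum402 σ U ψ a u hu) v hv
  · intro v hv
    exact mem_orthogonal_of_adjoint402 V₁ T
      (fun u hu => adjoint_mem_orbitSum402 σ U ψ T hT u hu) v hv
  · exact q'.orthonormal.comp_linearIsometry V₁.subtypeₗᵢ
  · intro w
    have hX := intertwine_word402 σ U hU T hT w
    have htr := trace_restrict_orbitSum402 σ U hU ψ hψ (T * (w.map U).prod) hX
    rw [LinearMap.trace_eq_sum_inner _ q'] at htr
    have hterm : ∀ j, ⟪q' j, ((LinearMap.adjoint (T * (w.map U).prod)).restrict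
        (adjoint_mem_orbitSum402 σ U ψ (T * (w.map U).prod) hX)) (q' j)⟫_ℂ
        = conj ⟪(q' j : V), T ((w.map U).prod (q' j : V))⟫_ℂ := by
      intro j
      rw [Submodule.coe_inner, LinearMap.coe_restrict_apply, LinearMap.adjoint_inner_right,
        inner_conj_symm]
      rfl
    simp only [hterm] at htr
    rw [← map_sum] at htr
    have h0 : ∑ j, ⟪(q' j : V), T ((w.map U).prod (q' j : V))⟫_ℂ = 0 := by
      have := congrArg conj htr
      simpa using this
    rw [h0]
    simp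
  · intro i
    left
    rfl
  · intro i hi
    exact absurd rfl hi
  · have h1 : Set.range (fun j => (q' j : V)) = V₁.subtype '' Set.range q' := by
      rw [← Set.range_comp]
      rfl
    rw [h1, Submodule.span_image, ← OrthonormalBasis.coe_toBasis, Basis.span_eq,
      Submodule.map_subtype_top]

/-! ### One step -/

/-- **Lemma Y.**  On a non-zero space there is a step. -/
theorem stepOut402 (σ : Equiv.Perm ι) (U : ι → Module.End ℂ V)
    (hU : ∀ a b, Commute (U a) (U b)) (T : Module.End ℂ V)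
    (hT : ∀ a, T * U a = U (σ a) * T) (hpos : 0 < finrank ℂ V) : StepOut402 σ U T := by
  obtain ⟨y, ψ, hy0, hy⟩ := exists_joint_eigenvector402 (finrank ℂ V) V rfl hpos
    (fun a => (LinearMap.adjoint (U a) : Module.End ℂ V)) (adjoint_commute402 U hU)
  by_cases hψ : ψ ∘ ⇑σ = ψ
  · -- Case 1
    have hE : ∀ v ∈ adjEig402 U ψ, LinearMap.adjoint T v ∈ adjEig402 U ψ := by
      intro v hv
      have := adjoint_mem_adjEig402 σ U T hT ψ v hv
      rwa [hψ] at this
    have hyE : y ∈ adjEig402 U ψ := (mem_adjEig402 U ψ y).mpr hy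
    have hnt : Nontrivial (adjEig402 U ψ) :=
      ⟨⟨⟨y, hyE⟩, 0, fun h => hy0 (congrArg Subtype.val h)⟩⟩
    obtain ⟨θ, hθ⟩ := Module.End.exists_eigenvalue
      (((LinearMap.adjoint T : Module.End ℂ V).restrict hE : Module.End ℂ (adjEig402 U ψ)))
    obtain ⟨z, hz⟩ := hθ.exists_hasEigenvector
    have hz0 : (z : V) ≠ 0 := fun h => hz.2 (Subtype.ext h)
    have hzT : LinearMap.adjoint T (z : V) = θ • (z : V) := by
      have := congrArg Subtype.val (Module.End.mem_eigenspace_iff.mp hz.1)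
      simpa using this
    have hzU : ∀ a, LinearMap.adjoint (U a) (z : V) = ψ a • (z : V) :=
      (mem_adjEig402 U ψ (z : V)).mp z.2
    have hn : ‖(z : V)‖ ≠ 0 := norm_ne_zero_iff.mpr hz0
    set c : ℂ := ((‖(z : V)‖⁻¹ : ℝ) : ℂ) with hc
    refine stepOut_case1_402 σ U hU T (c • (z : V)) ?_ ψ θ ?_ ?_ (fun a => congrFun hψ a)
    · rw [norm_smul, hc, Complex.norm_real, norm_inv, norm_norm, inv_mul_cancel₀ hn]
    · intro a
      rw [map_smul, hzU, smul_comm]
    · rw [map_smul, hzT, smul_comm]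
  · exact stepOut_case2_402 σ U hU T hT y hy0 ψ hy hψ

end Atoms

/-! ## 4. The induction -/

section Main

/-- **The atoms exist** (orthonormal family spanning the space). -/
theorem atoms_exist402.{u, v} {ι : Type v} (σ : Equiv.Perm ι) :
    ∀ (d : ℕ) (V : Type u) [NormedAddCommGroup V] [InnerProductSpace ℂ V]
      [FiniteDimensional ℂ V], finrank ℂ V = d →
      ∀ (U : ι → Module.End ℂ V) (T : Module.End ℂ V), (∀ a b, Commute (U a) (U b)) →
        (∀ a, T * U a = U (σ a) * T) →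
        ∃ (n : Type) (_ : Fintype n) (q : n → V) (χ : n → ι → ℂ) (t : n → ℂ),
          IsAtoms402 σ U T q χ t ∧ Submodule.span ℂ (Set.range q) = ⊤ := by
  intro d
  induction d using Nat.strong_induction_on with
  | _ d ih =>
    intro V _ _ _ hd U T hU hT
    rcases Nat.eq_zero_or_pos d with h0 | hpos
    · -- the zero space
      have hss : Subsingleton V := by
        rw [h0] at hd
        exact Module.finrank_zero_iff.mp hd
      refine ⟨Empty, inferInstance, fun e => e.elim, fun e => e.elim, fun e => e.elim,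
        ⟨?_, ?_, ?_, ?_⟩, ?_⟩
      · rw [orthonormal_iff_ite]
        intro i
        exact i.elim
      · intro w
        simp
      · intro i
        exact i.elim
      · intro i
        exact i.elim
      · exact Subsingleton.elim _ _
    · -- one step
      obtain ⟨V₁, hV₁, hHU, hHT, m, hm, q₁, χ₁, t₁, hat₁, hsp₁⟩ :=
        stepOut402 σ U hU T hT (hd ▸ hpos)
      have hq₁mem : ∀ j, q₁ j ∈ V₁ := by
        intro j
        rw [← hsp₁]
        exact Submodule.subset_span (Set.mem_range_self j)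
      have hlt : finrank ℂ V₁ᗮ < d := by
        have h1 := V₁.finrank_add_finrank_orthogonal
        have h2 : 0 < finrank ℂ V₁ := by
          rw [Module.finrank_pos_iff]
          exact Submodule.nontrivial_iff_ne_bot.mpr hV₁
        omega
      obtain ⟨n', hn', q', χ', t', hat', hsp'⟩ := ih (finrank ℂ V₁ᗮ) hlt V₁ᗮ rfl
        (fun a => (U a).restrict (hHU a)) (T.restrict hHT)
        (fun a b => by
          apply LinearMap.ext
          intro v
          apply Subtype.ext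
          simp only [Module.End.mul_apply, LinearMap.coe_restrict_apply]
          exact congrArg (fun f : Module.End ℂ V => f (v : V)) (hU a b).eq)
        (fun a => by
          apply LinearMap.ext
          intro v
          apply Subtype.ext
          simp only [Module.End.mul_apply, LinearMap.coe_restrict_apply]
          exact congrArg (fun f : Module.End ℂ V => f (v : V)) (hT a))
      refine ⟨n' ⊕ m, inferInstance, Sum.elim (fun i => (q' i : V)) q₁, Sum.elim χ' χ₁,
        Sum.elim t' t₁, ⟨?_, ?_, ?_, ?_⟩, ?_⟩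
      · -- orthonormal
        classical
        have ho' := orthonormal_iff_ite.mp hat'.orth
        have ho₁ := orthonormal_iff_ite.mp hat₁.orth
        rw [orthonormal_iff_ite]
        rintro (i | i) (j | j)
        · simp only [Sum.elim_inl, Sum.inl.injEq]
          rw [← Submodule.coe_inner]
          exact ho' i j
        · simp only [Sum.elim_inl, Sum.elim_inr, reduceCtorEq, if_false]
          exact Submodule.inner_left_of_mem_orthogonal (hq₁mem j) (q' i).2
        · simp only [Sum.elim_inl, Sum.elim_inr, reduceCtorEq, if_false]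
          exact Submodule.inner_right_of_mem_orthogonal (hq₁mem i) (q' j).2
        · simp only [Sum.elim_inr, Sum.inr.injEq]
          exact ho₁ i j
      · -- trace
        intro w
        rw [Fintype.sum_sum_type, Fintype.sum_sum_type]
        simp only [Sum.elim_inl, Sum.elim_inr]
        rw [← hat₁.trace w, ← hat'.trace w]
        congr 1
        apply Finset.sum_congr rfl
        intro i _
        rw [Submodule.coe_inner, LinearMap.coe_restrict_apply, wordOp_restrict402]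
      · -- diag
        rintro (i | i)
        · simp only [Sum.elim_inl]
          rcases hat'.diag i with h | h
          · left; exact h
          · right
            rw [h, Submodule.coe_inner, LinearMap.coe_restrict_apply]
        · simp only [Sum.elim_inr]
          exact hat₁.diag i
      · -- eig
        rintro (i | i) hi
        · simp only [Sum.elim_inl] at hi ⊢
          obtain ⟨hσ, x, hx, hxe⟩ := hat'.eig i hi
          refine ⟨hσ, (x : V), fun h => hx (Subtype.ext h), fun a => ?_⟩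
          have := congrArg Subtype.val (hxe a)
          simpa using this
        · simp only [Sum.elim_inr] at hi ⊢
          exact hat₁.eig i hi
      · -- span
        rw [Set.Sum.elim_range, Submodule.span_union, hsp₁]
        have h1 : Set.range (fun i => (q' i : V)) = V₁ᗮ.subtype '' Set.range q' := by
          rw [← Set.range_comp]
          rfl
        rw [h1, Submodule.span_image, hsp', Submodule.map_subtype_top, sup_comm]
        exact Submodule.sup_orthogonal_of_hasOrthogonalProjection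

end Main

/-! ## 5. The statements -/

section Final

variable {ι : Type*} {V : Type*} [NormedAddCommGroup V] [InnerProductSpace ℂ V]
  [FiniteDimensional ℂ V]

/-- **(A) TWISTED TRACE ATOMS.**  `V` a finite-dimensional inner product space over `ℂ`,
`U : ι → End V` a commuting family, `σ` a permutation of `ι`, `T` an endomorphism with
`T ∘ U a = U (σ a) ∘ T`.  Then there are an orthonormal basis `q` of `V`, characters `χ i`
and coefficients `t i` (one atom for each basis vector) such that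

1. `tr (T ∘ word) = ∑ i, t i · χ i (word)` for EVERY word in the `U a` (no polynomial factors);
2. `t i = 0` or `t i = ⟪q i, T (q i)⟫` (so `∑ |t i| ≤ ∑ |⟪q i, T (q i)⟫|`);
3. if `t i ≠ 0` then `χ i` is `σ`-invariant and is the character of a joint eigenvector of
   the family in `V`. -/
theorem twistedTraceAtoms402 (σ : Equiv.Perm ι) (U : ι → Module.End ℂ V)
    (hU : ∀ a b, Commute (U a) (U b)) (T : Module.End ℂ V)
    (hT : ∀ a, T * U a = U (σ a) * T) :
    ∃ (n : Type) (_ : Fintype n) (q : OrthonormalBasis n ℂ V) (χ : n → ι → ℂ) (t : n → ℂ),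
      (∀ w : List ι, LinearMap.trace ℂ V (T * (w.map U).prod)
          = ∑ i, t i * (w.map (χ i)).prod) ∧
      (∀ i, t i = 0 ∨ t i = ⟪q i, T (q i)⟫_ℂ) ∧
      (∀ i, t i ≠ 0 → (∀ a, χ i (σ a) = χ i a) ∧
          ∃ x : V, x ≠ 0 ∧ ∀ a, U a x = χ i a • x) := by
  obtain ⟨n, hn, q, χ, t, hat, hsp⟩ := atoms_exist402 σ (finrank ℂ V) V rfl U T hU hT
  refine ⟨n, hn, OrthonormalBasis.mk hat.orth hsp.ge, χ, t, ?_, ?_, ?_⟩
  · intro w
    rw [LinearMap.trace_eq_sum_inner _ (OrthonormalBasis.mk hat.orth hsp.ge), ← hat.trace w]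
    simp [Module.End.mul_apply]
  · intro i
    rw [OrthonormalBasis.coe_mk]
    exact hat.diag i
  · exact hat.eig

/-- The untwisted case `σ = 1` (`T` commutes with the family). -/
theorem traceAtoms402 (U : ι → Module.End ℂ V)
    (hU : ∀ a b, Commute (U a) (U b)) (T : Module.End ℂ V)
    (hT : ∀ a, Commute T (U a)) :
    ∃ (n : Type) (_ : Fintype n) (q : OrthonormalBasis n ℂ V) (χ : n → ι → ℂ) (t : n → ℂ),
      (∀ w : List ι, LinearMap.trace ℂ V (T * (w.map U).prod)
          = ∑ i, t i * (w.map (χ i)).prod) ∧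
      (∀ i, t i = 0 ∨ t i = ⟪q i, T (q i)⟫_ℂ) ∧
      (∀ i, t i ≠ 0 → ∃ x : V, x ≠ 0 ∧ ∀ a, U a x = χ i a • x) := by
  obtain ⟨n, hn, q, χ, t, h1, h2, h3⟩ :=
    twistedTraceAtoms402 (1 : Equiv.Perm ι) U hU T (fun a => (hT a).eq)
  exact ⟨n, hn, q, χ, t, h1, h2, fun i hi => (h3 i hi).2⟩

omit [FiniteDimensional ℂ V] in
/-- Summability form of (2): the atoms are dominated by the diagonal coefficients of `T`. -/
theorem sum_norm_atoms_le402 {n : Type} [Fintype n] (q : OrthonormalBasis n ℂ V)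
    (T : Module.End ℂ V) (t : n → ℂ) (h : ∀ i, t i = 0 ∨ t i = ⟪q i, T (q i)⟫_ℂ) :
    ∑ i, ‖t i‖ ≤ ∑ i, ‖⟪q i, T (q i)⟫_ℂ‖ := by
  apply Finset.sum_le_sum
  intro i _
  rcases h i with h0 | h1
  · rw [h0, norm_zero]; exact norm_nonneg _
  · rw [h1]

end Final

end Fermat.Agent.LT.T7.H402

end
end
-- ===== PACK-END LT/T7/H402/TraceAtoms.lean

-- ===== PACK-BEGIN LT/T7/H719/AtomsAux.lean
section


/-!
# Row LT, tower T7, leaf T7.L2.2.A `AtomsC561` (SPARE, helper719): matrix lemmas -- OFF-MAIN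

Mathlib only.
-/

set_option autoImplicit false

open scoped Matrix

noncomputable section

namespace Fermat.Agent.LT.T7.H719

variable {n : Type} [Fintype n] [DecidableEq n]

/-- A matrix with `Mᴴ M = 1` also satisfies `M Mᴴ = 1`. -/
theorem mul_conjTranspose_of719 {M : Matrix n n ℂ} (h : Mᴴ * M = 1) : M * Mᴴ = 1 :=
  mul_eq_one_comm.1 h

/-- The adjoint of a unitary matrix commutes with what the matrix commutes with. -/
theorem commute_conjTranspose719 {M X : Matrix n n ℂ} (h : Mᴴ * M = 1) (hc : Commute X M) :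
    Commute X Mᴴ := by
  have h' := mul_conjTranspose_of719 h
  show X * Mᴴ = Mᴴ * X
  calc X * Mᴴ = (Mᴴ * M) * (X * Mᴴ) := by rw [h, one_mul]
    _ = Mᴴ * ((M * X) * Mᴴ) := by simp only [mul_assoc]
    _ = Mᴴ * ((X * M) * Mᴴ) := by rw [hc.eq]
    _ = Mᴴ * X * (M * Mᴴ) := by simp only [mul_assoc]
    _ = Mᴴ * X := by rw [h', mul_one]

/-- Intertwining passes to the adjoints of unitary matrices. -/
theorem intertwine_conjTranspose719 {A M N : Matrix n n ℂ} (hM : Mᴴ * M = 1) (hN : Nᴴ * N = 1)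
    (h : A * M = N * A) : A * Mᴴ = Nᴴ * A := by
  have hM' := mul_conjTranspose_of719 hM
  calc A * Mᴴ = (Nᴴ * N) * (A * Mᴴ) := by rw [hN, one_mul]
    _ = Nᴴ * ((N * A) * Mᴴ) := by simp only [mul_assoc]
    _ = Nᴴ * ((A * M) * Mᴴ) := by rw [h]
    _ = Nᴴ * A * (M * Mᴴ) := by simp only [mul_assoc]
    _ = Nᴴ * A := by rw [hM', mul_one]

/-- Integer powers of a matrix with a two-sided inverse. -/
theorem zpow_eq_of_inv719 {Z W : Matrix n n ℂ} (h1 : Z * W = 1) (k : ℤ) :
    Z ^ k = if 0 ≤ k then Z ^ k.toNat else W ^ (-k).toNat := by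
  have hW : Z⁻¹ = W := Matrix.inv_eq_right_inv h1
  rcases k with k | k
  · simp
  · have hneg : ¬ (0 : ℤ) ≤ Int.negSucc k := by simp
    rw [if_neg hneg]
    have e : Int.negSucc k = -((k + 1 : ℕ) : ℤ) := rfl
    rw [e, Matrix.zpow_neg_natCast, ← Matrix.inv_pow', hW, neg_neg, Int.toNat_natCast]

end Fermat.Agent.LT.T7.H719

end

end
-- ===== PACK-END LT/T7/H719/AtomsAux.lean

-- ===== PACK-BEGIN LT/T7/H860/ProjSeqCore.lean
section


/-!
# Row LT, tower T7, node T7.L2.3.5.4 `WBasisC`, leaf WB.C1 `ProjSeqC776` (registry row 2393):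
the argument in an inner product space (helper860)

OFF-MAIN.  MATHLIB ONLY.  Nothing assumed.  ADDITIVE (new names only, suffix `860`).

`E` a complex inner product space (Mathlib convention: `inner x y` is linear in `y`), `W` a
subspace, `u` a sequence which is orthonormal on the index set `J₀`, complete for `W` (Parseval),
with finite classes `cl`, and `p j ∈ W ⊓ span {u i : cl i = cl j}` with
`inner (p j) χ = inner (u j) χ` for `χ ∈ W`.

`projSeq_ips860`: there are `J ⊆ J₀` and a sequence `w`, orthonormal on `J`, complete for `W`,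
with `w j ∈ span {p i : cl i = cl j}` and `span {p i : cl i = a} ≤ span {w j : j ∈ J, cl j = a}`.

Steps: finite orthonormal expansions (`eq_expand860`, `norm_sq_expand860`), Gram--Schmidt on a
finite index set (`exists_on_subfamily860`, from `stdOrthonormalBasis`), the identity of one class
(`class_identity860`), regrouping of a sum of nonnegative terms class by class
(`hasSum_regroup860`).
-/

set_option autoImplicit false

open scoped ComplexConjugate InnerProductSpace

noncomputable section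

namespace Fermat.Agent.LT.T7.H860

section IPS

variable {E : Type*} [NormedAddCommGroup E] [InnerProductSpace ℂ E]

/-- The sequence `w` is orthonormal on the finite index set `T`. -/
def IsON860 (T : Finset ℕ) (w : ℕ → E) : Prop :=
  ∀ i ∈ T, ∀ j ∈ T, ⟪w i, w j⟫_ℂ = if i = j then 1 else 0

/-- Two spans are orthogonal if the generators are. -/
theorem inner_eq_zero_of_mem_span860 (s t : Set E)
    (h : ∀ x ∈ s, ∀ y ∈ t, ⟪x, y⟫_ℂ = 0) {x y : E}
    (hx : x ∈ Submodule.span ℂ s) (hy : y ∈ Submodule.span ℂ t) : ⟪x, y⟫_ℂ = 0 := by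
  induction hx using Submodule.span_induction with
  | mem x hx =>
    induction hy using Submodule.span_induction with
    | mem y hy => exact h x hx y hy
    | zero => exact inner_zero_right _
    | add a b _ _ ha hb => rw [inner_add_right, ha, hb, add_zero]
    | smul c a _ ha => rw [inner_smul_right, ha, mul_zero]
  | zero => exact inner_zero_left _
  | add a b _ _ ha hb => rw [inner_add_left, ha, hb, add_zero]
  | smul c a _ ha => rw [inner_smul_left, ha, mul_zero]

/-- A vector of a span which is orthogonal to the generators is zero. -/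
theorem eq_zero_of_mem_span_of_orth860 (s : Set E) (z : E) (hz : z ∈ Submodule.span ℂ s)
    (h : ∀ y ∈ s, ⟪y, z⟫_ℂ = 0) : z = 0 := by
  have h2 : ∀ y ∈ Submodule.span ℂ s, ⟪y, z⟫_ℂ = 0 := by
    intro y hy
    induction hy using Submodule.span_induction with
    | mem y hy => exact h y hy
    | zero => exact inner_zero_left _
    | add a b _ _ ha hb => rw [inner_add_left, ha, hb, add_zero]
    | smul c a _ ha => rw [inner_smul_left, ha, mul_zero]
  exact inner_self_eq_zero.1 (h2 z hz)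

/-- The coefficient of an orthonormal expansion. -/
theorem inner_expand860 (T : Finset ℕ) (w : ℕ → E) (hw : IsON860 T w) (c : ℕ → ℂ) (i : ℕ)
    (hi : i ∈ T) : ⟪w i, ∑ j ∈ T, c j • w j⟫_ℂ = c i := by
  rw [inner_sum, Finset.sum_eq_single i]
  · rw [inner_smul_right, hw i hi i hi, if_pos rfl, mul_one]
  · intro j hj hji
    rw [inner_smul_right, hw i hi j hj, if_neg (Ne.symm hji), mul_zero]
  · intro h
    exact absurd hi h

/-- A vector of the span of an orthonormal family is its orthonormal expansion. -/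
theorem eq_expand860 (T : Finset ℕ) (w : ℕ → E) (hw : IsON860 T w) (x : E)
    (hx : x ∈ Submodule.span ℂ (w '' (T : Set ℕ))) :
    x = ∑ j ∈ T, ⟪w j, x⟫_ℂ • w j := by
  have hq : (∑ j ∈ T, ⟪w j, x⟫_ℂ • w j) ∈ Submodule.span ℂ (w '' (T : Set ℕ)) :=
    Submodule.sum_mem _ fun j hj =>
      Submodule.smul_mem _ _ (Submodule.subset_span ⟨j, hj, rfl⟩)
  have hz := eq_zero_of_mem_span_of_orth860 (w '' (T : Set ℕ))
    (x - ∑ j ∈ T, ⟪w j, x⟫_ℂ • w j) (Submodule.sub_mem _ hx hq) ?_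
  · exact sub_eq_zero.1 hz
  · rintro y ⟨i, hi, rfl⟩
    rw [inner_sub_right, inner_expand860 T w hw _ i hi, sub_self]

/-- Parseval in the span of a finite orthonormal family. -/
theorem norm_sq_expand860 (T : Finset ℕ) (w : ℕ → E) (hw : IsON860 T w) (x : E)
    (hx : x ∈ Submodule.span ℂ (w '' (T : Set ℕ))) :
    ‖x‖ ^ 2 = ∑ j ∈ T, ‖⟪w j, x⟫_ℂ‖ ^ 2 := by
  have hxq := eq_expand860 T w hw x hx
  have h1 : ⟪x, x⟫_ℂ = ⟪∑ j ∈ T, ⟪w j, x⟫_ℂ • w j, x⟫_ℂ := by rw [← hxq]
  have h2 : ⟪∑ j ∈ T, ⟪w j, x⟫_ℂ • w j, x⟫_ℂ = ∑ j ∈ T, ((‖⟪w j, x⟫_ℂ‖ ^ 2 : ℝ) : ℂ) := by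
    rw [sum_inner]
    refine Finset.sum_congr rfl fun j _ => ?_
    rw [inner_smul_left, Complex.conj_mul']
    push_cast
    rfl
  have h3 : (‖x‖ ^ 2 : ℝ) = RCLike.re ⟪x, x⟫_ℂ := norm_sq_eq_re_inner (𝕜 := ℂ) x
  rw [h3, h1, h2, ← Complex.ofReal_sum]
  exact Complex.ofReal_re _

/-- Gram--Schmidt on a finite index set: an orthonormal family, indexed by a subset `T` of `S`,
with the same span as the `p j`, `j ∈ S`. -/
theorem exists_on_subfamily860 (S : Finset ℕ) (p : ℕ → E) :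
    ∃ (T : Finset ℕ) (w : ℕ → E), T ⊆ S ∧ IsON860 T w ∧
      Submodule.span ℂ (w '' (T : Set ℕ)) = Submodule.span ℂ (p '' (S : Set ℕ)) := by
  classical
  set F : Submodule ℂ E := Submodule.span ℂ (p '' (S : Set ℕ)) with hF
  have : FiniteDimensional ℂ F :=
    FiniteDimensional.span_of_finite ℂ ((S.finite_toSet).image p)
  have hd : Module.finrank ℂ F ≤ S.card := by
    have h1 := finrank_span_finset_le_card (R := ℂ) (S.image p)
    have h2 : (S.image p).card ≤ S.card := Finset.card_image_le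
    rw [Finset.coe_image] at h1
    exact h1.trans h2
  obtain ⟨T, hTS, hTc⟩ := Finset.exists_subset_card_eq hd
  let e : T ≃ Fin (Module.finrank ℂ F) := Finset.equivFinOfCardEq hTc
  let b := stdOrthonormalBasis ℂ F
  refine ⟨T, fun j => if h : j ∈ T then ((b (e ⟨j, h⟩) : F) : E) else 0, hTS, ?_, ?_⟩
  · intro i hi j hj
    simp only [dif_pos hi, dif_pos hj]
    rw [← Submodule.coe_inner, orthonormal_iff_ite.1 b.orthonormal]
    by_cases hij : i = j
    · subst hij
      simp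
    · rw [if_neg hij, if_neg]
      intro h
      exact hij (congrArg Subtype.val (e.injective h))
  · apply le_antisymm
    · rw [Submodule.span_le]
      rintro _ ⟨j, hj, rfl⟩
      simp only [dif_pos (show j ∈ T from hj)]
      exact (b (e ⟨j, hj⟩)).2
    · intro x hx
      have h1 : (⟨x, hx⟩ : F) ∈ Submodule.span ℂ (Set.range b) := by
        have := b.toBasis.span_eq
        rw [b.coe_toBasis] at this
        rw [this]
        exact Submodule.mem_top
      have h2 := Submodule.apply_mem_span_image_of_mem_span F.subtype h1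
      have h3 : F.subtype '' Set.range b ⊆
          (fun j => if h : j ∈ T then ((b (e ⟨j, h⟩) : F) : E) else 0) '' (T : Set ℕ) := by
        rintro _ ⟨_, ⟨i, rfl⟩, rfl⟩
        refine ⟨(e.symm i : ℕ), (e.symm i).2, ?_⟩
        simp only [dif_pos (e.symm i).2]
        simp
      exact Submodule.span_mono h3 h2

/-- **The identity of one class.**  `u` orthonormal on `S`, `p j ∈ W ⊓ span (u '' S)` with
`inner (p j) χ' = inner (u j) χ'` for `χ' ∈ W`, `w` orthonormal on `T` with the span of the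
`p j`: the two partial Parseval sums of `χ ∈ W` agree. -/
theorem class_identity860 (W : Submodule ℂ E) (u p w : ℕ → E) (S T : Finset ℕ)
    (hu : IsON860 S u) (hw : IsON860 T w)
    (hpW : ∀ j ∈ S, p j ∈ W)
    (hpE : ∀ j ∈ S, p j ∈ Submodule.span ℂ (u '' (S : Set ℕ)))
    (hpu : ∀ χ ∈ W, ∀ j ∈ S, ⟪p j, χ⟫_ℂ = ⟪u j, χ⟫_ℂ)
    (hsp : Submodule.span ℂ (w '' (T : Set ℕ)) = Submodule.span ℂ (p '' (S : Set ℕ)))
    (χ : E) (hχ : χ ∈ W) :
    ∑ j ∈ S, ‖⟪u j, χ⟫_ℂ‖ ^ 2 = ∑ j ∈ T, ‖⟪w j, χ⟫_ℂ‖ ^ 2 := by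
  set x : E := ∑ j ∈ S, ⟪u j, χ⟫_ℂ • u j with hx
  set y : E := ∑ j ∈ S, ⟪u j, χ⟫_ℂ • p j with hy
  have hxE : x ∈ Submodule.span ℂ (u '' (S : Set ℕ)) :=
    Submodule.sum_mem _ fun j hj =>
      Submodule.smul_mem _ _ (Submodule.subset_span ⟨j, hj, rfl⟩)
  have hFE : Submodule.span ℂ (p '' (S : Set ℕ)) ≤ Submodule.span ℂ (u '' (S : Set ℕ)) := by
    rw [Submodule.span_le]
    rintro _ ⟨j, hj, rfl⟩
    exact hpE j hj
  have hyF : y ∈ Submodule.span ℂ (p '' (S : Set ℕ)) :=
    Submodule.sum_mem _ fun j hj =>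
      Submodule.smul_mem _ _ (Submodule.subset_span ⟨j, hj, rfl⟩)
  -- `χ - x` is orthogonal to the span of the `u j`
  have horth : ∀ z ∈ Submodule.span ℂ (u '' (S : Set ℕ)), ⟪z, χ⟫_ℂ = ⟪z, x⟫_ℂ := by
    intro z hz
    have h0 : ⟪z, χ - x⟫_ℂ = 0 := by
      refine inner_eq_zero_of_mem_span860 (u '' (S : Set ℕ)) {χ - x} ?_ hz
        (Submodule.subset_span rfl)
      rintro _ ⟨k, hk, rfl⟩ _ rfl
      rw [inner_sub_right, hx, inner_expand860 S u hu _ k hk, sub_self]
    rw [inner_sub_right] at h0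
    exact sub_eq_zero.1 h0
  -- symmetry
  have hsym : ∀ i ∈ S, ∀ j ∈ S, ⟪u i, p j⟫_ℂ = ⟪p i, u j⟫_ℂ := by
    intro i hi j hj
    have h1 : ⟪p i, p j⟫_ℂ = ⟪u i, p j⟫_ℂ := hpu (p j) (hpW j hj) i hi
    have h2 : ⟪p j, p i⟫_ℂ = ⟪u j, p i⟫_ℂ := hpu (p i) (hpW i hi) j hj
    rw [← h1, ← inner_conj_symm (p i) (p j), h2, inner_conj_symm]
  have h1 : ∀ i ∈ S, ⟪u i, y⟫_ℂ = ⟪u i, χ⟫_ℂ := by
    intro i hi
    have ha : ⟪u i, y⟫_ℂ = ⟪p i, x⟫_ℂ := by
      rw [hy, hx, inner_sum, inner_sum]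
      refine Finset.sum_congr rfl fun j hj => ?_
      rw [inner_smul_right, inner_smul_right, hsym i hi j hj]
    rw [ha, ← horth (p i) (hpE i hi)]
    exact hpu χ hχ i hi
  have hyx : y = x := by
    have hz := eq_zero_of_mem_span_of_orth860 (u '' (S : Set ℕ)) (y - x)
      (Submodule.sub_mem _ (hFE hyF) hxE) ?_
    · exact sub_eq_zero.1 hz
    · rintro _ ⟨i, hi, rfl⟩
      rw [inner_sub_right, h1 i hi, hx, inner_expand860 S u hu _ i hi, sub_self]
  have hxF : x ∈ Submodule.span ℂ (w '' (T : Set ℕ)) := by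
    rw [hsp, ← hyx]
    exact hyF
  have e1 := norm_sq_expand860 S u hu x hxE
  have e2 := norm_sq_expand860 T w hw x hxF
  have e3 : ∑ j ∈ S, ‖⟪u j, x⟫_ℂ‖ ^ 2 = ∑ j ∈ S, ‖⟪u j, χ⟫_ℂ‖ ^ 2 := by
    refine Finset.sum_congr rfl fun j hj => ?_
    rw [hx, inner_expand860 S u hu _ j hj]
  have e4 : ∑ j ∈ T, ‖⟪w j, x⟫_ℂ‖ ^ 2 = ∑ j ∈ T, ‖⟪w j, χ⟫_ℂ‖ ^ 2 := by
    refine Finset.sum_congr rfl fun j hj => ?_
    have hwj : w j ∈ Submodule.span ℂ (u '' (S : Set ℕ)) := by
      apply hFE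
      rw [← hsp]
      exact Submodule.subset_span ⟨j, hj, rfl⟩
    rw [horth (w j) hwj]
  rw [← e3, ← e1, e2, e4]

end IPS

/-- One half of the regrouping: every partial sum of `f` on `J₀` is bounded by a partial sum of
`g` on `J`. -/
theorem partial_le_partial860 {A : Type*} (f g : ℕ → ℝ) (hf : ∀ j, 0 ≤ f j)
    (J₀ J : Set ℕ) (c : ℕ → A) (S T : A → Finset ℕ)
    (hS : ∀ a j, j ∈ S a ↔ j ∈ J₀ ∧ c j = a) (hT : ∀ a j, j ∈ T a ↔ j ∈ J ∧ c j = a)
    (heq : ∀ a, ∑ j ∈ S a, f j = ∑ j ∈ T a, g j) (B : Finset ℕ) :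
    ∃ B' : Finset ℕ, ∑ j ∈ B, J₀.indicator f j ≤ ∑ j ∈ B', J.indicator g j := by
  classical
  set C : Finset A := (B.filter (· ∈ J₀)).image c with hC
  refine ⟨C.biUnion T, ?_⟩
  have hdS : ((C : Set A)).PairwiseDisjoint S := by
    intro a _ b _ hab
    rw [Function.onFun, Finset.disjoint_left]
    intro j hja hjb
    exact hab (((hS a j).1 hja).2.symm.trans ((hS b j).1 hjb).2)
  have hdT : ((C : Set A)).PairwiseDisjoint T := by
    intro a _ b _ hab
    rw [Function.onFun, Finset.disjoint_left]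
    intro j hja hjb
    exact hab (((hT a j).1 hja).2.symm.trans ((hT b j).1 hjb).2)
  have e1 : ∑ j ∈ B, J₀.indicator f j = ∑ j ∈ B.filter (· ∈ J₀), f j := by
    rw [Finset.sum_filter]
    refine Finset.sum_congr rfl fun j _ => ?_
    by_cases hj : j ∈ J₀
    · rw [Set.indicator_of_mem hj, if_pos hj]
    · rw [Set.indicator_of_notMem hj, if_neg hj]
  have e2 : ∑ j ∈ B.filter (· ∈ J₀), f j ≤ ∑ j ∈ C.biUnion S, f j := by
    refine Finset.sum_le_sum_of_subset_of_nonneg ?_ fun j _ _ => hf j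
    intro j hj
    rw [Finset.mem_biUnion]
    refine ⟨c j, Finset.mem_image_of_mem c hj, (hS _ _).2 ⟨(Finset.mem_filter.1 hj).2, rfl⟩⟩
  have e3 : ∑ j ∈ C.biUnion S, f j = ∑ j ∈ C.biUnion T, g j := by
    rw [Finset.sum_biUnion hdS, Finset.sum_biUnion hdT]
    exact Finset.sum_congr rfl fun a _ => heq a
  have e4 : ∑ j ∈ C.biUnion T, g j = ∑ j ∈ C.biUnion T, J.indicator g j := by
    refine Finset.sum_congr rfl fun j hj => ?_
    obtain ⟨a, _, hja⟩ := Finset.mem_biUnion.1 hj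
    rw [Set.indicator_of_mem ((hT a j).1 hja).1]
  rw [e1, ← e4, ← e3]
  exact e2

/-- **Regrouping of a sum of nonnegative terms class by class.** -/
theorem hasSum_regroup860 {A : Type*} (f g : ℕ → ℝ) (hf : ∀ j, 0 ≤ f j) (hg : ∀ j, 0 ≤ g j)
    (J₀ J : Set ℕ) (c : ℕ → A) (S T : A → Finset ℕ)
    (hS : ∀ a j, j ∈ S a ↔ j ∈ J₀ ∧ c j = a) (hT : ∀ a j, j ∈ T a ↔ j ∈ J ∧ c j = a)
    (heq : ∀ a, ∑ j ∈ S a, f j = ∑ j ∈ T a, g j) (s : ℝ)
    (h : HasSum (fun j : J₀ => f j) s) : HasSum (fun j : J => g j) s := by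
  have h' : HasSum (J₀.indicator f) s := hasSum_subtype_iff_indicator.1 h
  have hf' : ∀ j, 0 ≤ J₀.indicator f j := fun j => Set.indicator_nonneg (fun j _ => hf j) j
  have hg' : ∀ j, 0 ≤ J.indicator g j := fun j => Set.indicator_nonneg (fun j _ => hg j) j
  have hlub := isLUB_hasSum hf' h'
  refine hasSum_subtype_iff_indicator.2 (hasSum_of_isLUB_of_nonneg s hg' ⟨?_, ?_⟩)
  · rintro _ ⟨B, rfl⟩
    obtain ⟨B', hB'⟩ := partial_le_partial860 g f hg J J₀ c T S hT hS (fun a => (heq a).symm) B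
    exact hB'.trans (hlub.1 ⟨B', rfl⟩)
  · intro b hb
    refine hlub.2 ?_
    rintro _ ⟨B, rfl⟩
    obtain ⟨B', hB'⟩ := partial_le_partial860 f g hf J₀ J c S T hS hT heq B
    exact hB'.trans (hb ⟨B', rfl⟩)

section IPS2

variable {E : Type*} [NormedAddCommGroup E] [InnerProductSpace ℂ E]

/-- **The statement in an inner product space.** -/
theorem projSeq_ips860 {A : Type*} (W : Submodule ℂ E) (u p : ℕ → E) (J₀ : Set ℕ) (cl : ℕ → A)
    (hon : ∀ i ∈ J₀, ∀ j ∈ J₀, ⟪u i, u j⟫_ℂ = if i = j then 1 else 0)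
    (hpars : ∀ χ ∈ W, HasSum (fun j : J₀ => ‖⟪u j, χ⟫_ℂ‖ ^ 2) (‖χ‖ ^ 2))
    (hfin : ∀ j₀ ∈ J₀, {j : ℕ | j ∈ J₀ ∧ cl j = cl j₀}.Finite)
    (hpW : ∀ j ∈ J₀, p j ∈ W)
    (hpE : ∀ j ∈ J₀, p j ∈ Submodule.span ℂ {f : E | ∃ i : ℕ, i ∈ J₀ ∧ cl i = cl j ∧ f = u i})
    (hpu : ∀ χ ∈ W, ∀ j ∈ J₀, ⟪p j, χ⟫_ℂ = ⟪u j, χ⟫_ℂ) :
    ∃ (w : ℕ → E) (J : Set ℕ), J ⊆ J₀ ∧
      (∀ j ∈ J, w j ∈ Submodule.span ℂ {f : E | ∃ i : ℕ, i ∈ J₀ ∧ cl i = cl j ∧ f = p i}) ∧
      (∀ i ∈ J, ∀ j ∈ J, ⟪w i, w j⟫_ℂ = if i = j then 1 else 0) ∧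
      (∀ χ ∈ W, HasSum (fun j : J => ‖⟪w j, χ⟫_ℂ‖ ^ 2) (‖χ‖ ^ 2)) ∧
      ∀ a : A, Submodule.span ℂ {f : E | ∃ i : ℕ, i ∈ J₀ ∧ cl i = a ∧ f = p i} ≤
        Submodule.span ℂ {f : E | ∃ j : ℕ, j ∈ J ∧ cl j = a ∧ f = w j} := by
  classical
  -- all fibres are finite
  have hfin' : ∀ a : A, {j : ℕ | j ∈ J₀ ∧ cl j = a}.Finite := by
    intro a
    by_cases h : ∃ j₀, j₀ ∈ J₀ ∧ cl j₀ = a
    · obtain ⟨j₀, hj₀, rfl⟩ := h
      exact hfin j₀ hj₀
    · have h0 : {j : ℕ | j ∈ J₀ ∧ cl j = a} = ∅ := by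
        ext j
        simp only [Set.mem_ofPred_eq, Set.mem_empty_iff_false, iff_false]
        exact fun hj => h ⟨j, hj⟩
      rw [h0]
      exact Set.finite_empty
  set Sa : A → Finset ℕ := fun a => (hfin' a).toFinset with hSa
  have hSmem : ∀ a j, j ∈ Sa a ↔ j ∈ J₀ ∧ cl j = a := fun a j => by
    simp only [hSa, Set.Finite.mem_toFinset, Set.mem_ofPred_eq]
  have hset : ∀ (v : ℕ → E) (a : A),
      {f : E | ∃ i : ℕ, i ∈ J₀ ∧ cl i = a ∧ f = v i} = v '' (Sa a : Set ℕ) := by
    intro v a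
    ext f
    constructor
    · rintro ⟨i, hi, hia, rfl⟩
      exact ⟨i, (hSmem a i).2 ⟨hi, hia⟩, rfl⟩
    · rintro ⟨i, hi, rfl⟩
      have := (hSmem a i).1 hi
      exact ⟨i, this.1, this.2, rfl⟩
  choose Tf wf hTsub hTon hTsp using fun a : A => exists_on_subfamily860 (Sa a) p
  set J : Set ℕ := {j | j ∈ Tf (cl j)} with hJ
  set w : ℕ → E := fun j => wf (cl j) j with hw
  have hTmem : ∀ a j, j ∈ Tf a ↔ j ∈ J ∧ cl j = a := by
    intro a j
    constructor
    · intro hj
      have h1 := (hSmem a j).1 (hTsub a hj)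
      refine ⟨?_, h1.2⟩
      show j ∈ Tf (cl j)
      rw [h1.2]
      exact hj
    · rintro ⟨hj, rfl⟩
      exact hj
  have hJsub : J ⊆ J₀ := fun j hj => ((hSmem _ j).1 (hTsub _ hj)).1
  have huS : ∀ a, IsON860 (Sa a) u := fun a i hi j hj =>
    hon i ((hSmem a i).1 hi).1 j ((hSmem a j).1 hj).1
  have hwimg : ∀ a, w '' (Tf a : Set ℕ) = wf a '' (Tf a : Set ℕ) := by
    intro a
    refine Set.image_congr fun j hj => ?_
    have : cl j = a := ((hTmem a j).1 hj).2
    simp only [hw, this]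
  have hwT : ∀ a, IsON860 (Tf a) w := by
    intro a i hi j hj
    have hi' : cl i = a := ((hTmem a i).1 hi).2
    have hj' : cl j = a := ((hTmem a j).1 hj).2
    simp only [hw, hi', hj']
    exact hTon a i hi j hj
  have hwsp : ∀ a, Submodule.span ℂ (w '' (Tf a : Set ℕ))
      = Submodule.span ℂ (p '' (Sa a : Set ℕ)) := by
    intro a
    rw [hwimg a]
    exact hTsp a
  have hpE' : ∀ a, ∀ j ∈ Sa a, p j ∈ Submodule.span ℂ (u '' (Sa a : Set ℕ)) := by
    intro a j hj
    have h1 := (hSmem a j).1 hj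
    have h2 := hpE j h1.1
    rw [hset u (cl j), h1.2] at h2
    exact h2
  have hFE : ∀ a, Submodule.span ℂ (p '' (Sa a : Set ℕ))
      ≤ Submodule.span ℂ (u '' (Sa a : Set ℕ)) := by
    intro a
    rw [Submodule.span_le]
    rintro _ ⟨k, hk, rfl⟩
    exact hpE' a k hk
  refine ⟨w, J, hJsub, ?_, ?_, ?_, ?_⟩
  · intro j hj
    rw [hset p (cl j), ← hwsp (cl j)]
    exact Submodule.subset_span ⟨j, hj, rfl⟩
  · intro i hi j hj
    by_cases hc : cl i = cl j
    · have hi' : i ∈ Tf (cl j) := by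
        rw [← hc]
        exact hi
      exact hwT (cl j) i hi' j hj
    · have hij : i ≠ j := fun h => hc (by rw [h])
      rw [if_neg hij]
      have hwi : w i ∈ Submodule.span ℂ (u '' (Sa (cl i) : Set ℕ)) :=
        hFE _ (by rw [← hwsp]; exact Submodule.subset_span ⟨i, hi, rfl⟩)
      have hwj : w j ∈ Submodule.span ℂ (u '' (Sa (cl j) : Set ℕ)) :=
        hFE _ (by rw [← hwsp]; exact Submodule.subset_span ⟨j, hj, rfl⟩)
      refine inner_eq_zero_of_mem_span860 _ _ ?_ hwi hwj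
      rintro _ ⟨k, hk, rfl⟩ _ ⟨l, hl, rfl⟩
      have hk' := (hSmem _ k).1 hk
      have hl' := (hSmem _ l).1 hl
      rw [hon k hk'.1 l hl'.1, if_neg]
      rintro rfl
      exact hc (hk'.2.symm.trans hl'.2)
  · intro χ hχ
    refine hasSum_regroup860 (fun j => ‖⟪u j, χ⟫_ℂ‖ ^ 2) (fun j => ‖⟪w j, χ⟫_ℂ‖ ^ 2)
      (fun j => sq_nonneg _) (fun j => sq_nonneg _) J₀ J cl Sa Tf hSmem hTmem ?_ _ (hpars χ hχ)
    intro a
    exact class_identity860 W u p w (Sa a) (Tf a) (huS a) (hwT a)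
      (fun j hj => hpW j ((hSmem a j).1 hj).1) (hpE' a)
      (fun χ' hχ' j hj => hpu χ' hχ' j ((hSmem a j).1 hj).1) (hwsp a) χ hχ
  · intro a
    rw [hset p a, ← hwsp a]
    refine Submodule.span_mono ?_
    rintro _ ⟨j, hj, rfl⟩
    have := (hTmem a j).1 hj
    exact ⟨j, this.1, this.2, rfl⟩

end IPS2

end Fermat.Agent.LT.T7.H860

end

end
-- ===== PACK-END LT/T7/H860/ProjSeqCore.lean

-- ===== PACK-BEGIN LT/T7/H936/BCUnitCore.lean
section



/-!
# Row LT, tower T7, leaf T7.L2.3.4 `SD534.BCUnitC`: the algebraic core (helper936)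

OFF-MAIN.  Mathlib + the definition of `AutomorphicForm.satakePow` (Prelude) only.

v1.1 (row-lead helper17, 17:20Z; proofs only, no statement changed): `satakePow` is never
unfolded (`satakePow_zero`, `satakePow_one`, `satakePow_add_two` of the Prelude are used), so
this module realises no `satakePow.eq_def` (the copy realised here collided with the one of
`T7/H682/Degen.lean` in the grader's kernel checker).

For `a b : ℂ` with `|b| = 1`, `conj a = a conj b`, `|a| √q ≤ q + 1`, `q ≥ 1` and every `f`: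

* `conj_satakePow936` : `conj P_f = P_f (conj b)^f`, `P_f = satakePow f a b`;
* `norm_satakePow_le936` : `|P_f| √(q^f) ≤ q^f + 1`.

Route: `a = α + β`, `b = α β`, `P_f = α^f + β^f`; the hypotheses force `|α|, |β| ≤ √q`
(`|α| = 1`, or `β = α / |α|²` and `|a| = |α| + 1/|α|`).
-/

set_option autoImplicit false

open AutomorphicForm
open scoped ComplexConjugate

noncomputable section

namespace Fermat.Agent.LT.T7.H936

/-- Power sums: `satakePow f (α + β) (α β) = α^f + β^f`. -/
theorem satakePow_roots936 (α β : ℂ) : ∀ f : ℕ, satakePow f (α + β) (α * β) = α ^ f + β ^ f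
  | 0 => by rw [satakePow_zero]; norm_num
  | 1 => by rw [satakePow_one, pow_one, pow_one]
  | (n + 2) => by
    rw [satakePow_add_two, satakePow_roots936 α β (n + 1), satakePow_roots936 α β n]
    ring

/-- Every pair `(a, b)` of complex numbers is `(α + β, α β)`. -/
theorem exists_roots936 (a b : ℂ) : ∃ α β : ℂ, a = α + β ∧ b = α * β := by
  obtain ⟨s, hs⟩ := IsAlgClosed.exists_pow_nat_eq (a ^ 2 - 4 * b) (n := 2) (by norm_num)
  refine ⟨(a + s) / 2, (a - s) / 2, by ring, ?_⟩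
  have : (a + s) / 2 * ((a - s) / 2) = (a ^ 2 - s ^ 2) / 4 := by ring
  rw [this, hs]
  ring

/-- `conj P_f = P_f (conj b)^f`. -/
theorem conj_satakePow936 {a b : ℂ} (hb : ‖b‖ = 1) (ha : conj a = a * conj b) :
    ∀ f : ℕ, conj (satakePow f a b) = satakePow f a b * conj b ^ f
  | 0 => by
    show conj (2 : ℂ) = 2 * conj b ^ 0
    rw [pow_zero, mul_one]
    exact map_ofNat (starRingEnd ℂ) 2
  | 1 => by rw [satakePow_one, pow_one]; exact ha
  | (n + 2) => by
    have hbb : b * conj b = 1 := by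
      rw [Complex.mul_conj, Complex.normSq_eq_norm_sq, hb]
      norm_num
    rw [satakePow_add_two, map_sub, map_mul, map_mul, conj_satakePow936 hb ha (n + 1),
      conj_satakePow936 hb ha n, ha]
    linear_combination (satakePow n a b * conj b ^ (n + 1)) * hbb

/-- The key estimate on one root. -/
theorem norm_root_le936 {α β : ℂ} {s : ℝ} (hs : 1 ≤ s) (hb : ‖α * β‖ = 1)
    (ha : conj (α + β) = (α + β) * conj (α * β)) (hq : ‖α + β‖ * s ≤ s ^ 2 + 1) :
    ‖α‖ ≤ s := by
  have hαβ : ‖α‖ * ‖β‖ = 1 := by rw [← norm_mul]; exact hb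
  have hα0 : 0 < ‖α‖ := by
    rcases (norm_nonneg α).lt_or_eq with h | h
    · exact h
    · rw [← h, zero_mul] at hαβ
      exact absurd hαβ zero_ne_one
  rcases le_or_gt ‖α‖ 1 with hx | hx
  · exact hx.trans hs
  -- `β = α / |α|²`
  have hA : conj α * α = (‖α‖ : ℂ) ^ 2 := Complex.conj_mul' α
  have hB : conj β * β = (‖β‖ : ℂ) ^ 2 := Complex.conj_mul' β
  have hAB : (‖α‖ : ℂ) ^ 2 * (‖β‖ : ℂ) ^ 2 = 1 := by
    rw [← mul_pow, ← Complex.ofReal_mul, hαβ]
    norm_num
  have h1 : (‖α‖ : ℂ) ^ 2 * β + (‖β‖ : ℂ) ^ 2 * α = α + β := by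
    rw [map_add, map_mul] at ha
    have h2 : (conj α + conj β) * (α * β) = (α + β) * (conj α * conj β) * (α * β) := by
      rw [ha]
    have h3 : (conj α + conj β) * (α * β) = (‖α‖ : ℂ) ^ 2 * β + (‖β‖ : ℂ) ^ 2 * α := by
      rw [← hA, ← hB]
      ring
    have h4 : (α + β) * (conj α * conj β) * (α * β) = α + β := by
      have : (α + β) * (conj α * conj β) * (α * β) = (α + β) * ((conj α * α) * (conj β * β)) := by
        ring
      rw [this, hA, hB, hAB, mul_one]
    rw [← h3, h2, h4]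
  have hx2 : (1 : ℝ) < ‖α‖ ^ 2 := by nlinarith
  have hne : (‖α‖ : ℂ) ^ 2 - 1 ≠ 0 := by
    rw [sub_ne_zero]
    intro h
    have : (‖α‖ ^ 2 : ℝ) = 1 := by exact_mod_cast h
    linarith
  have h5 : (‖α‖ : ℂ) ^ 2 * β = α := by
    have h6 : ((‖α‖ : ℂ) ^ 2 - 1) * ((‖α‖ : ℂ) ^ 2 * β - α) = 0 := by
      linear_combination (‖α‖ : ℂ) ^ 2 * h1 - α * hAB
    rcases mul_eq_zero.mp h6 with h | h
    · exact absurd h hne
    · exact sub_eq_zero.mp h
  -- `|α + β| = |α| + 1 / |α|`
  have hβ : ‖β‖ = ‖α‖⁻¹ := eq_inv_of_mul_eq_one_right hαβ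
  have h7 : ‖α + β‖ = ‖α‖ + ‖β‖ := by
    have h8 : α + β = ((‖α‖ ^ 2 + 1 : ℝ) : ℂ) * β := by
      push_cast
      linear_combination -h5
    have h9 : ‖α + β‖ = (‖α‖ ^ 2 + 1) * ‖β‖ := by
      rw [h8, norm_mul, Complex.norm_real, Real.norm_of_nonneg (by positivity)]
    have h10 : ‖α‖ ^ 2 * ‖β‖ = ‖α‖ := by
      rw [hβ]
      field_simp
    rw [h9]
    linarith [h10, add_mul (‖α‖ ^ 2) 1 ‖β‖]
  rw [h7, hβ] at hq
  -- `(x + 1/x) s ≤ s² + 1`, `x > 1`, `s ≥ 1`  ⟹  `x ≤ s`
  by_contra hcon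
  have hcon' : s < ‖α‖ := not_le.mp hcon
  have h11 : (‖α‖ + ‖α‖⁻¹) * s * ‖α‖ ≤ (s ^ 2 + 1) * ‖α‖ :=
    mul_le_mul_of_nonneg_right hq hα0.le
  have h12 : (‖α‖ + ‖α‖⁻¹) * s * ‖α‖ = ‖α‖ ^ 2 * s + s := by
    field_simp
  rw [h12] at h11
  nlinarith [mul_pos (sub_pos.mpr hcon') (sub_pos.mpr (by nlinarith : (1 : ℝ) < ‖α‖ * s))]

/-- `|P_f| √(q^f) ≤ q^f + 1`. -/
theorem norm_satakePow_le936 {a b : ℂ} {q : ℝ} (hq1 : 1 ≤ q) (hb : ‖b‖ = 1)
    (ha : conj a = a * conj b) (hq : ‖a‖ * Real.sqrt q ≤ q + 1) (f : ℕ) :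
    ‖satakePow f a b‖ * Real.sqrt (q ^ f) ≤ q ^ f + 1 := by
  obtain ⟨α, β, rfl, rfl⟩ := exists_roots936 a b
  have hq0 : (0 : ℝ) ≤ q := zero_le_one.trans hq1
  have hs1 : 1 ≤ Real.sqrt q := by
    rw [show (1 : ℝ) = Real.sqrt 1 by simp]
    exact Real.sqrt_le_sqrt hq1
  have hsq : Real.sqrt q ^ 2 = q := Real.sq_sqrt hq0
  have hq' : ‖α + β‖ * Real.sqrt q ≤ Real.sqrt q ^ 2 + 1 := by rw [hsq]; exact hq
  have hα : ‖α‖ ≤ Real.sqrt q := norm_root_le936 hs1 hb ha hq'
  have hβ : ‖β‖ ≤ Real.sqrt q := by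
    refine norm_root_le936 (α := β) (β := α) hs1 ?_ ?_ ?_
    · rw [mul_comm]; exact hb
    · rw [add_comm β α, mul_comm β α]; exact ha
    · rw [add_comm β α]; exact hq'
  have hαβ : ‖α‖ * ‖β‖ = 1 := by rw [← norm_mul]; exact hb
  have hM : Real.sqrt (q ^ f) = Real.sqrt q ^ f := by
    rw [Real.sqrt_eq_iff_mul_self_eq (pow_nonneg hq0 f) (pow_nonneg (Real.sqrt_nonneg q) f),
      ← mul_pow, Real.mul_self_sqrt hq0]
  have hM2 : q ^ f = (Real.sqrt q ^ f) ^ 2 := by
    rw [← pow_mul, mul_comm, pow_mul, hsq]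
  rw [satakePow_roots936, hM, hM2]
  set M := Real.sqrt q ^ f with hMdef
  have hy : ‖α‖ ^ f ≤ M := pow_le_pow_left₀ (norm_nonneg α) hα f
  have hz : ‖β‖ ^ f ≤ M := pow_le_pow_left₀ (norm_nonneg β) hβ f
  have hyz : ‖α‖ ^ f * ‖β‖ ^ f = 1 := by rw [← mul_pow, hαβ, one_pow]
  have hM0 : 0 ≤ M := pow_nonneg (Real.sqrt_nonneg q) f
  have hn : ‖α ^ f + β ^ f‖ ≤ ‖α‖ ^ f + ‖β‖ ^ f := by
    calc ‖α ^ f + β ^ f‖ ≤ ‖α ^ f‖ + ‖β ^ f‖ := norm_add_le _ _
      _ = ‖α‖ ^ f + ‖β‖ ^ f := by rw [norm_pow, norm_pow]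
  calc ‖α ^ f + β ^ f‖ * M ≤ (‖α‖ ^ f + ‖β‖ ^ f) * M := mul_le_mul_of_nonneg_right hn hM0
    _ ≤ M ^ 2 + 1 := by nlinarith [mul_nonneg (sub_nonneg.mpr hy) (sub_nonneg.mpr hz)]

end Fermat.Agent.LT.T7.H936

end
end
-- ===== PACK-END LT/T7/H936/BCUnitCore.lean

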