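import Mathlib
import Fermat.Agent.Pack.LT2.E1L3
import Fermat.Agent.Pack.LT2.E0L2
import Fermat.Agent.Pack.LT3.E0L3
import Fermat.Agent.Pack.LT3.E0L0
import Fermat.Agent.Pack.LT3.E0L1
import Fermat.Agent.Pack.LT2.E0L1
import Fermat.Agent.Pack.LT3.E0L2
import Fermat.Agent.Pack.LT2.E1L2
import Fermat.Agent.Pack.LT3.E2L1

set_option linter.all false

-- ===== PACK-BEGIN LT/T1/H930/AdeleAutGL.lean
section



/-!
# Row LT, tower T1 (pre-leaf T1.AUT part 2, helper930): the automorphism on `GL₂(𝔸_K)`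

OFF-MAIN.  Imports Mathlib, `AdeleAut.lean` (part 1) and helper556's frozen `A0.lean` only.

For `e : K ≃+* L` (in particular `σ : K ≃+* K`):

* `glAdeleEquiv930 e : A0.G K ≃* A0.G L`, continuous both ways (`glAdeleHomeo930`), compatible with
  the rational points (`glAdeleEquiv930_map_algebraMap`);
* finite places: `finComp_glAdeleEquiv930`, `trivAtFin_…`, `isLocalAtFin_…`, `isIntegralAt_…`,
  `image_idealClosure930`, and the level group
  `inLevelGroup_glAdeleEquiv930 : InLevelGroup (𝔫.map e) (glAdeleEquiv930 e u) ↔ InLevelGroup 𝔫 u`;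
* infinite places: `trivAtInf_…`, `isLocalAtInf_…`;
* the bijections of places `finPullEquiv930`, `infPullEquiv930`.
-/

set_option autoImplicit false

open IsDedekindDomain NumberField InfinitePlace
open scoped MatrixGroups

noncomputable section

namespace Fermat.Agent.LT.T1.H930

open Fermat.Agent.LT.H556

variable {K L : Type} [Field K] [NumberField K] [Field L] [NumberField L]

/-- The isomorphism `GL₂(𝔸_K) ≃* GL₂(𝔸_L)` induced by `e : K ≃+* L`. -/
def glAdeleEquiv930 (e : K ≃+* L) : A0.G K ≃* A0.G L :=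
  Units.mapEquiv (RingEquiv.mapMatrix (adeleEquiv930 e)).toMulEquiv

theorem glAdeleEquiv930_val (e : K ≃+* L) (g : A0.G K) (i j : Fin 2) :
    ((glAdeleEquiv930 e g : A0.G L) : Matrix (Fin 2) (Fin 2) (A0.Adl L)) i j
      = adeleEquiv930 e ((g : Matrix (Fin 2) (Fin 2) (A0.Adl K)) i j) := rfl

theorem glAdeleEquiv930_symm (e : K ≃+* L) :
    (glAdeleEquiv930 e).symm = glAdeleEquiv930 e.symm := rfl

theorem glAdeleEquiv930_symm_apply_apply (e : K ≃+* L) (g : A0.G K) :
    glAdeleEquiv930 e.symm (glAdeleEquiv930 e g) = g :=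
  (glAdeleEquiv930 e).symm_apply_apply g

theorem glAdeleEquiv930_apply_symm_apply (e : K ≃+* L) (g : A0.G L) :
    glAdeleEquiv930 e (glAdeleEquiv930 e.symm g) = g :=
  (glAdeleEquiv930 e).apply_symm_apply g

theorem glAdeleEquiv930_inv_val (e : K ≃+* L) (g : A0.G K) (i j : Fin 2) :
    (((glAdeleEquiv930 e g)⁻¹ : A0.G L) : Matrix (Fin 2) (Fin 2) (A0.Adl L)) i j
      = adeleEquiv930 e (((g⁻¹ : A0.G K) : Matrix (Fin 2) (Fin 2) (A0.Adl K)) i j) := by
  rw [← map_inv]
  rfl

theorem continuous_glAdeleEquiv930 (e : K ≃+* L) : Continuous (glAdeleEquiv930 e) := by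
  rw [Units.continuous_iff]
  constructor
  · refine continuous_matrix fun i j => ?_
    exact (continuous_adeleEquiv930 e).comp
      ((Continuous.matrix_elem continuous_id i j).comp Units.continuous_val)
  · refine continuous_matrix fun i j => ?_
    have h : (fun g : A0.G K =>
        (((glAdeleEquiv930 e g)⁻¹ : A0.G L) : Matrix (Fin 2) (Fin 2) (A0.Adl L)) i j)
        = fun g => adeleEquiv930 e (((g⁻¹ : A0.G K) : Matrix (Fin 2) (Fin 2) (A0.Adl K)) i j) :=
      funext fun g => glAdeleEquiv930_inv_val e g i j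
    rw [h]
    exact (continuous_adeleEquiv930 e).comp
      ((Continuous.matrix_elem continuous_id i j).comp Units.continuous_coe_inv)

/-- `glAdeleEquiv930 e` as a homeomorphism. -/
def glAdeleHomeo930 (e : K ≃+* L) : A0.G K ≃ₜ A0.G L where
  toEquiv := (glAdeleEquiv930 e).toEquiv
  continuous_toFun := continuous_glAdeleEquiv930 e
  continuous_invFun := continuous_glAdeleEquiv930 e.symm

theorem glAdeleEquiv930_map_algebraMap (e : K ≃+* L) (γ : GL (Fin 2) K) :
    glAdeleEquiv930 e (Matrix.GeneralLinearGroup.map (algebraMap K (A0.Adl K)) γ)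
      = Matrix.GeneralLinearGroup.map (algebraMap L (A0.Adl L))
          (Matrix.GeneralLinearGroup.map (e : K →+* L) γ) := by
  apply Units.ext
  ext i j
  rw [glAdeleEquiv930_val]
  exact adeleEquiv930_algebraMap e _

theorem finComp_glAdeleEquiv930 (e : K ≃+* L) (w : HeightOneSpectrum (𝓞 L)) (g : A0.G K) :
    A0.finComp w (glAdeleEquiv930 e g)
      = (A0.finComp (finPull930 e w) g).map (finMapEquiv930 e w) := rfl


/-! ## Places -/

omit [NumberField K] [NumberField L] in
theorem finPull930_symm (e : K ≃+* L) (v : HeightOneSpectrum (𝓞 K)) :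
    finPull930 e (finPull930 e.symm v) = v :=
  (HeightOneSpectrum.equivOfRingEquiv (RingOfIntegers.mapRingEquiv e)).symm_apply_apply v

omit [NumberField K] [NumberField L] in
theorem finPull930_symm' (e : K ≃+* L) (w : HeightOneSpectrum (𝓞 L)) :
    finPull930 e.symm (finPull930 e w) = w :=
  finPull930_symm e.symm w

omit [NumberField K] [NumberField L] in
theorem infPull930_symm' (e : K ≃+* L) (w : InfinitePlace L) :
    infPull930 e.symm (infPull930 e w) = w :=
  infPull930_symm e.symm w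

/-- Pulling back finite places along `e` is a bijection. -/
def finPullEquiv930 (e : K ≃+* L) : HeightOneSpectrum (𝓞 L) ≃ HeightOneSpectrum (𝓞 K) where
  toFun := finPull930 e
  invFun := finPull930 e.symm
  left_inv := finPull930_symm' e
  right_inv := finPull930_symm e

/-- Pulling back infinite places along `e` is a bijection. -/
def infPullEquiv930 (e : K ≃+* L) : InfinitePlace L ≃ InfinitePlace K where
  toFun := infPull930 e
  invFun := infPull930 e.symm
  left_inv := infPull930_symm' e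
  right_inv := infPull930_symm e

/-! ## Local triviality, integrality -/

omit [NumberField K] [NumberField L] in
theorem infMapHom930_injective (e : K ≃+* L) (w : InfinitePlace L) :
    Function.Injective (infMapHom930 e w) :=
  (isometry_infMapHom930 e w).injective

theorem trivAtFin_glAdeleEquiv930 (e : K ≃+* L) (w : HeightOneSpectrum (𝓞 L)) (g : A0.G K) :
    A0.TrivAtFin w (glAdeleEquiv930 e g) ↔ A0.TrivAtFin (finPull930 e w) g := by
  unfold A0.TrivAtFin
  rw [finComp_glAdeleEquiv930]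
  constructor
  · intro h
    refine Matrix.ext fun i j => ?_
    have := congrFun (congrFun h i) j
    rw [Matrix.map_apply] at this
    apply (finMapEquiv930 e w).injective
    rw [this, Matrix.one_apply, Matrix.one_apply]
    split_ifs <;> simp
  · intro h
    rw [h]
    refine Matrix.ext fun i j => ?_
    rw [Matrix.map_apply, Matrix.one_apply, Matrix.one_apply]
    split_ifs <;> simp

theorem trivAtInf_glAdeleEquiv930 (e : K ≃+* L) (w : InfinitePlace L) (g : A0.G K) :
    A0.TrivAtInf w (glAdeleEquiv930 e g) ↔ A0.TrivAtInf (infPull930 e w) g := by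
  unfold A0.TrivAtInf
  refine forall_congr' fun i => forall_congr' fun j => ?_
  rw [glAdeleEquiv930_val, adeleEquiv930_fst]
  constructor
  · intro h
    apply infMapHom930_injective e w
    rw [h, Matrix.one_apply, Matrix.one_apply]
    split_ifs <;> simp
  · intro h
    rw [h, Matrix.one_apply, Matrix.one_apply]
    split_ifs <;> simp

theorem isLocalAtFin_glAdeleEquiv930 (e : K ≃+* L) (w : HeightOneSpectrum (𝓞 L)) (g : A0.G K) :
    A0.IsLocalAtFin w (glAdeleEquiv930 e g) ↔ A0.IsLocalAtFin (finPull930 e w) g := by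
  unfold A0.IsLocalAtFin
  constructor
  · rintro ⟨h1, h2⟩
    refine ⟨fun v => ?_, fun v hv => ?_⟩
    · have := (trivAtInf_glAdeleEquiv930 e (infPull930 e.symm v) g).1 (h1 _)
      rwa [infPull930_symm] at this
    · have := (trivAtFin_glAdeleEquiv930 e (finPull930 e.symm v) g).1
        (h2 _ fun h => hv (by rw [← h, finPull930_symm]))
      rwa [finPull930_symm] at this
  · rintro ⟨h1, h2⟩
    refine ⟨fun v => (trivAtInf_glAdeleEquiv930 e v g).2 (h1 _), fun v hv =>
      (trivAtFin_glAdeleEquiv930 e v g).2 (h2 _ fun h => hv ?_)⟩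
    exact (finPull930_injective e) h

theorem isLocalAtInf_glAdeleEquiv930 (e : K ≃+* L) (w : InfinitePlace L) (g : A0.G K) :
    A0.IsLocalAtInf w (glAdeleEquiv930 e g) ↔ A0.IsLocalAtInf (infPull930 e w) g := by
  unfold A0.IsLocalAtInf
  constructor
  · rintro ⟨h1, h2⟩
    refine ⟨fun v hv => ?_, fun v => ?_⟩
    · have := (trivAtInf_glAdeleEquiv930 e (infPull930 e.symm v) g).1
        (h1 _ fun h => hv (by rw [← h, infPull930_symm]))
      rwa [infPull930_symm] at this
    · have := (trivAtFin_glAdeleEquiv930 e (finPull930 e.symm v) g).1 (h2 _)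
      rwa [finPull930_symm] at this
  · rintro ⟨h1, h2⟩
    refine ⟨fun v hv => (trivAtInf_glAdeleEquiv930 e v g).2 (h1 _ fun h => hv ?_), fun v =>
      (trivAtFin_glAdeleEquiv930 e v g).2 (h2 _)⟩
    exact (infPullEquiv930 e).injective h

theorem isIntegralAt_glAdeleEquiv930 (e : K ≃+* L) (w : HeightOneSpectrum (𝓞 L)) (g : A0.G K) :
    A0.IsIntegralAt w (glAdeleEquiv930 e g) ↔ A0.IsIntegralAt (finPull930 e w) g := by
  unfold A0.IsIntegralAt
  refine forall_congr' fun i => forall_congr' fun j => ?_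
  rw [finComp_glAdeleEquiv930, Matrix.map_apply]
  exact finMapEquiv930_mem_integers e w _


/-! ## The level group -/

theorem continuous_finMapEquiv930_symm (e : K ≃+* L) (w : HeightOneSpectrum (𝓞 L)) :
    Continuous (finMapEquiv930 e w).symm :=
  (HeightOneSpectrum.adicCompletion.continuous_ofCompletion K (finPull930 e w)).comp
    (UniformSpace.Completion.continuous_map.comp
      (HeightOneSpectrum.adicCompletion.continuous_toCompletion L w))

/-- `finMapEquiv930 e w` as a homeomorphism. -/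
def finMapHomeo930 (e : K ≃+* L) (w : HeightOneSpectrum (𝓞 L)) :
    (finPull930 e w).adicCompletion K ≃ₜ w.adicCompletion L where
  toEquiv := (finMapEquiv930 e w).toEquiv
  continuous_toFun := continuous_finMapEquiv930 e w
  continuous_invFun := continuous_finMapEquiv930_symm e w

theorem finMapEquiv930_algebraMap (e : K ≃+* L) (w : HeightOneSpectrum (𝓞 L)) (k : K) :
    finMapEquiv930 e w (algebraMap K ((finPull930 e w).adicCompletion K) k)
      = algebraMap L (w.adicCompletion L) (e k) :=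
  finMapEquiv930_coe e w k

theorem image_idealGen930 (e : K ≃+* L) (𝔫 : Ideal (𝓞 K)) (w : HeightOneSpectrum (𝓞 L)) :
    finMapEquiv930 e w ''
        ((fun x : 𝓞 K => algebraMap K ((finPull930 e w).adicCompletion K)
          (algebraMap (𝓞 K) K x)) '' (𝔫 : Set (𝓞 K)))
      = (fun y : 𝓞 L => algebraMap L (w.adicCompletion L) (algebraMap (𝓞 L) L y)) ''
          ((𝔫.map (RingOfIntegers.mapRingEquiv e) : Ideal (𝓞 L)) : Set (𝓞 L)) := by
  ext z
  constructor
  · rintro ⟨_, ⟨x, hx, rfl⟩, rfl⟩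
    refine ⟨RingOfIntegers.mapRingEquiv e x, ?_, ?_⟩
    · exact Ideal.mem_map_of_mem _ hx
    · rw [finMapEquiv930_algebraMap]
      rfl
  · rintro ⟨y, hy, rfl⟩
    obtain ⟨x, hx, rfl⟩ := (Ideal.mem_map_of_equiv (RingOfIntegers.mapRingEquiv e) y).1 hy
    refine ⟨_, ⟨x, hx, rfl⟩, ?_⟩
    rw [finMapEquiv930_algebraMap]
    rfl

theorem image_idealClosure930 (e : K ≃+* L) (𝔫 : Ideal (𝓞 K)) (w : HeightOneSpectrum (𝓞 L)) :
    finMapEquiv930 e w '' A0.idealClosure 𝔫 (finPull930 e w)
      = A0.idealClosure (𝔫.map (RingOfIntegers.mapRingEquiv e)) w := by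
  unfold A0.idealClosure
  rw [← image_idealGen930 e 𝔫 w]
  exact (finMapHomeo930 e w).image_closure _

theorem mem_idealClosure_map930 (e : K ≃+* L) (𝔫 : Ideal (𝓞 K)) (w : HeightOneSpectrum (𝓞 L))
    (x : (finPull930 e w).adicCompletion K) :
    finMapEquiv930 e w x ∈ A0.idealClosure (𝔫.map (RingOfIntegers.mapRingEquiv e)) w ↔
      x ∈ A0.idealClosure 𝔫 (finPull930 e w) := by
  rw [← image_idealClosure930 e 𝔫 w]
  exact (finMapEquiv930 e w).injective.mem_set_image

theorem finComp_inv_glAdeleEquiv930 (e : K ≃+* L) (w : HeightOneSpectrum (𝓞 L)) (g : A0.G K) :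
    A0.finComp w (glAdeleEquiv930 e g)⁻¹
      = (A0.finComp (finPull930 e w) g⁻¹).map (finMapEquiv930 e w) := by
  rw [← map_inv]
  rfl

/-- `glAdeleEquiv930 e` carries the principal congruence subgroup `U(𝔫)` onto `U(e 𝔫)`. -/
theorem inLevelGroup_glAdeleEquiv930 (e : K ≃+* L) (𝔫 : Ideal (𝓞 K)) (u : A0.G K) :
    A0.InLevelGroup (𝔫.map (RingOfIntegers.mapRingEquiv e)) (glAdeleEquiv930 e u) ↔
      A0.InLevelGroup 𝔫 u := by
  have key : ∀ (w : HeightOneSpectrum (𝓞 L)) (g : A0.G K) (i j : Fin 2),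
      (A0.finComp w (glAdeleEquiv930 e g) - 1) i j
          ∈ A0.idealClosure (𝔫.map (RingOfIntegers.mapRingEquiv e)) w ↔
        (A0.finComp (finPull930 e w) g - 1) i j ∈ A0.idealClosure 𝔫 (finPull930 e w) := by
    intro w g i j
    rw [← mem_idealClosure_map930 e 𝔫 w, finComp_glAdeleEquiv930, Matrix.sub_apply,
      Matrix.sub_apply, Matrix.map_apply, map_sub, Matrix.one_apply, Matrix.one_apply]
    split_ifs <;> simp
  have key' : ∀ (w : HeightOneSpectrum (𝓞 L)) (g : A0.G K) (i j : Fin 2),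
      (A0.finComp w (glAdeleEquiv930 e g)⁻¹ - 1) i j
          ∈ A0.idealClosure (𝔫.map (RingOfIntegers.mapRingEquiv e)) w ↔
        (A0.finComp (finPull930 e w) g⁻¹ - 1) i j ∈ A0.idealClosure 𝔫 (finPull930 e w) := by
    intro w g i j
    rw [← map_inv]
    exact key w g⁻¹ i j
  unfold A0.InLevelGroup
  constructor
  · rintro ⟨h1, h2⟩
    refine ⟨fun v => ?_, fun v i j => ?_⟩
    · have := (trivAtInf_glAdeleEquiv930 e (infPull930 e.symm v) u).1 (h1 _)
      rwa [infPull930_symm] at this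
    · have h := h2 (finPull930 e.symm v) i j
      rw [key, key'] at h
      rwa [finPull930_symm] at h
  · rintro ⟨h1, h2⟩
    refine ⟨fun v => (trivAtInf_glAdeleEquiv930 e v u).2 (h1 _), fun v i j => ?_⟩
    rw [key, key']
    exact h2 _ i j

end Fermat.Agent.LT.T1.H930

end
end
-- ===== PACK-END LT/T1/H930/AdeleAutGL.lean

-- ===== PACK-BEGIN LT/T2/H354/Unitary2.lean
section



/-!
# Row LT, tower T2, leaf T2.26 (helper354): characters of `U(2)`

A function `T` on the `2 × 2` complex matrices which is multiplicative, of absolute value one and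
continuous on the unitary matrices is `M ↦ (det M) ^ n` there, for an integer `n`.

Proof: `T` is trivial on `SU(2)` (every element of `SU(2)` is conjugate to its inverse by a unitary
matrix, and is a square in `SU(2)`), and `θ ↦ T (diag (e^{iθ}, 1))` is a continuous character of
`ℝ / 2πℤ`.

Mathlib only.
-/

open Matrix

noncomputable section

namespace Fermat.Agent.LT.T2.H354

local notation "conj" => starRingEnd ℂ

/-- Unitary `2 × 2` matrices. -/
def IsU354 (M : Matrix (Fin 2) (Fin 2) ℂ) : Prop := M * Mᴴ = 1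

/-- The matrix `[[a, -b̄], [b, ā]]`. -/
def suM354 (a b : ℂ) : Matrix (Fin 2) (Fin 2) ℂ := !![a, -(conj b); b, conj a]

/-- The matrix `diag (z, 1)`. -/
def dgM354 (z : ℂ) : Matrix (Fin 2) (Fin 2) ℂ := !![z, 0; 0, 1]

/-- The matrix `[[0, u], [-1, 0]]`. -/
def cjM354 (u : ℂ) : Matrix (Fin 2) (Fin 2) ℂ := !![0, u; -1, 0]

theorem isU354_one : IsU354 1 := by
  unfold IsU354
  simp

theorem IsU354.mul {M N : Matrix (Fin 2) (Fin 2) ℂ} (hM : IsU354 M) (hN : IsU354 N) :
    IsU354 (M * N) := by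
  unfold IsU354 at *
  rw [Matrix.conjTranspose_mul, Matrix.mul_assoc, ← Matrix.mul_assoc N, hN, Matrix.one_mul, hM]

theorem IsU354.conjTranspose {M : Matrix (Fin 2) (Fin 2) ℂ} (hM : IsU354 M) : IsU354 Mᴴ := by
  unfold IsU354 at *
  rw [Matrix.conjTranspose_conjTranspose]
  exact mul_eq_one_comm.mp hM

theorem IsU354.conjTranspose_mul {M : Matrix (Fin 2) (Fin 2) ℂ} (hM : IsU354 M) : Mᴴ * M = 1 :=
  mul_eq_one_comm.mp hM

theorem mat_ext354 {M N : Matrix (Fin 2) (Fin 2) ℂ} (h00 : M 0 0 = N 0 0) (h01 : M 0 1 = N 0 1)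
    (h10 : M 1 0 = N 1 0) (h11 : M 1 1 = N 1 1) : M = N := by
  ext i j
  fin_cases i <;> fin_cases j
  · exact h00
  · exact h01
  · exact h10
  · exact h11

theorem mul_apply354 (M N : Matrix (Fin 2) (Fin 2) ℂ) (i j : Fin 2) :
    (M * N) i j = M i 0 * N 0 j + M i 1 * N 1 j := by
  rw [Matrix.mul_apply, Fin.sum_univ_two]

theorem isU354_suM {a b : ℂ} (h : a * conj a + b * conj b = 1) : IsU354 (suM354 a b) := by
  unfold IsU354
  refine mat_ext354 ?_ ?_ ?_ ?_ <;>
    simp only [mul_apply354, suM354, Matrix.conjTranspose_apply, Matrix.of_apply,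
      Matrix.cons_val', Matrix.cons_val_zero, Matrix.cons_val_one, Matrix.cons_val_fin_one,
      RCLike.star_def, map_neg, Complex.conj_conj, Matrix.one_apply_eq, Matrix.one_apply_ne,
      ne_eq, zero_ne_one, one_ne_zero, not_false_eq_true]
  · linear_combination h
  · ring
  · ring
  · linear_combination h

theorem det_suM354 (a b : ℂ) : (suM354 a b).det = a * conj a + b * conj b := by
  rw [Matrix.det_fin_two]
  simp only [suM354, Matrix.of_apply, Matrix.cons_val', Matrix.cons_val_zero, Matrix.cons_val_one,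
    Matrix.cons_val_fin_one]
  ring

theorem isU354_dgM {z : ℂ} (h : z * conj z = 1) : IsU354 (dgM354 z) := by
  unfold IsU354
  refine mat_ext354 ?_ ?_ ?_ ?_ <;>
    simp only [mul_apply354, dgM354, Matrix.conjTranspose_apply, Matrix.of_apply,
      Matrix.cons_val', Matrix.cons_val_zero, Matrix.cons_val_one, Matrix.cons_val_fin_one,
      RCLike.star_def, map_zero, map_one, Matrix.one_apply_eq, Matrix.one_apply_ne,
      ne_eq, zero_ne_one, one_ne_zero, not_false_eq_true]
  · linear_combination h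
  · ring
  · ring
  · ring

theorem det_dgM354 (z : ℂ) : (dgM354 z).det = z := by
  rw [Matrix.det_fin_two]
  simp [dgM354]

theorem isU354_cjM {u : ℂ} (h : u * conj u = 1) : IsU354 (cjM354 u) := by
  unfold IsU354
  refine mat_ext354 ?_ ?_ ?_ ?_ <;>
    simp only [mul_apply354, cjM354, Matrix.conjTranspose_apply, Matrix.of_apply,
      Matrix.cons_val', Matrix.cons_val_zero, Matrix.cons_val_one, Matrix.cons_val_fin_one,
      RCLike.star_def, map_zero, map_one, map_neg, Matrix.one_apply_eq, Matrix.one_apply_ne,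
      ne_eq, zero_ne_one, one_ne_zero, not_false_eq_true]
  · linear_combination h
  · ring
  · ring
  · ring

/-- A unitary matrix of determinant one is `[[a, -b̄], [b, ā]]`. -/
theorem eq_suM354_of_isU {M : Matrix (Fin 2) (Fin 2) ℂ} (hU : IsU354 M) (hd : M.det = 1) :
    M = suM354 (M 0 0) (M 1 0) ∧ M 0 0 * conj (M 0 0) + M 1 0 * conj (M 1 0) = 1 := by
  have hadj : Mᴴ = Matrix.adjugate M := by
    have h1 : Matrix.adjugate M * M = 1 := by rw [Matrix.adjugate_mul, hd, one_smul]
    calc Mᴴ = (Matrix.adjugate M * M) * Mᴴ := by rw [h1, Matrix.one_mul]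
      _ = Matrix.adjugate M * (M * Mᴴ) := by rw [Matrix.mul_assoc]
      _ = Matrix.adjugate M := by rw [hU, Matrix.mul_one]
  have h00 := congrFun (congrFun hadj 0) 0
  have h01 := congrFun (congrFun hadj 0) 1
  have h11 := congrFun (congrFun hadj 1) 1
  rw [Matrix.adjugate_fin_two] at h00 h01 h11
  simp only [Matrix.conjTranspose_apply, Matrix.of_apply, Matrix.cons_val', Matrix.cons_val_zero,
    Matrix.cons_val_one, Matrix.cons_val_fin_one, RCLike.star_def] at h00 h01 h11
  have e11 : M 1 1 = conj (M 0 0) := h00.symm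
  have e01 : M 0 1 = -(conj (M 1 0)) := by rw [h01]; ring
  refine ⟨?_, ?_⟩
  · refine mat_ext354 ?_ ?_ ?_ ?_ <;>
      simp only [suM354, Matrix.of_apply, Matrix.cons_val', Matrix.cons_val_zero,
        Matrix.cons_val_one, Matrix.cons_val_fin_one]
    · exact e01
    · exact e11
  · have := hd
    rw [Matrix.det_fin_two, e11, e01] at this
    linear_combination this

section Char

variable (T : Matrix (Fin 2) (Fin 2) ℂ → ℂ)
  (hmul : ∀ M N, IsU354 M → IsU354 N → T (M * N) = T M * T N)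
  (hnorm : ∀ M, IsU354 M → ‖T M‖ = 1)

include hnorm in
theorem T_ne_zero354 {M : Matrix (Fin 2) (Fin 2) ℂ} (hM : IsU354 M) : T M ≠ 0 := by
  intro h
  have := hnorm M hM
  rw [h, norm_zero] at this
  exact zero_ne_one this

include hmul hnorm

theorem T_one354 : T 1 = 1 := by
  have h := hmul 1 1 isU354_one isU354_one
  rw [Matrix.mul_one] at h
  have h0 := T_ne_zero354 T hnorm isU354_one
  have : T 1 * (T 1 - 1) = 0 := by linear_combination -h
  rcases mul_eq_zero.1 this with h1 | h1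
  · exact absurd h1 h0
  · linear_combination h1

theorem T_conjTranspose354 {M : Matrix (Fin 2) (Fin 2) ℂ} (hM : IsU354 M) :
    T M * T Mᴴ = 1 := by
  rw [← hmul M Mᴴ hM hM.conjTranspose, hM, T_one354 T hmul hnorm]

/-- `T` is `±1` on `SU(2)`. -/
theorem T_suM_sq354 {a b : ℂ} (h : a * conj a + b * conj b = 1) :
    T (suM354 a b) * T (suM354 a b) = 1 := by
  have hs := isU354_suM h
  -- the conjugating matrix
  set u : ℂ := if b = 0 then 1 else -(conj b) / b with hu
  have hub : u * b = -(conj b) := by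
    rw [hu]
    split_ifs with hb
    · rw [hb]; simp
    · field_simp
  have huu : u * conj u = 1 := by
    rw [hu]
    split_ifs with hb
    · simp
    · have hb' : conj b ≠ 0 := by
        rw [Ne, map_eq_zero]; exact hb
      rw [map_div₀, map_neg, Complex.conj_conj]
      field_simp
  have hg := isU354_cjM huu
  have hrel : cjM354 u * suM354 a b = (suM354 a b)ᴴ * cjM354 u := by
    refine mat_ext354 ?_ ?_ ?_ ?_ <;>
      simp only [mul_apply354, suM354, cjM354, Matrix.conjTranspose_apply, Matrix.of_apply,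
        Matrix.cons_val', Matrix.cons_val_zero, Matrix.cons_val_one, Matrix.cons_val_fin_one,
        RCLike.star_def, map_neg, Complex.conj_conj]
    · linear_combination hub
    · ring
    · ring
    · have : conj u * conj b = -b := by
        have := congrArg conj hub
        rw [map_mul, map_neg, Complex.conj_conj] at this
        exact this
      have h2 : b * u = -(conj b) := by rw [mul_comm]; exact hub
      linear_combination h2
  have h1 := hmul _ _ hg hs
  have h2 := hmul _ _ hs.conjTranspose hg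
  rw [hrel, h2] at h1
  have hg0 := T_ne_zero354 T hnorm hg
  have h3 : T (suM354 a b)ᴴ = T (suM354 a b) := by
    have : T (cjM354 u) * (T (suM354 a b)ᴴ - T (suM354 a b)) = 0 := by linear_combination h1
    rcases mul_eq_zero.1 this with h | h
    · exact absurd h hg0
    · linear_combination h
  have h4 := T_conjTranspose354 T hmul hnorm hs
  rw [h3] at h4
  exact h4

/-- `T` is trivial on `SU(2)`. -/
theorem T_suM354 {a b : ℂ} (h : a * conj a + b * conj b = 1) : T (suM354 a b) = 1 := by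
  by_cases ha : a = -1
  · -- `b = 0`, the matrix is `-1 = diag(i, -i)²`
    have hb : b = 0 := by
      have h1 : b * conj b = 0 := by
        rw [ha] at h
        simp only [map_neg, map_one] at h
        linear_combination h
      rcases mul_eq_zero.1 h1 with h2 | h2
      · exact h2
      · exact (map_eq_zero _).1 h2
    have hq : (Complex.I) * conj Complex.I + (0 : ℂ) * conj 0 = 1 := by
      simp [Complex.conj_I]
    have hsq : suM354 a b = suM354 Complex.I 0 * suM354 Complex.I 0 := by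
      rw [ha, hb]
      refine mat_ext354 ?_ ?_ ?_ ?_ <;>
        simp [mul_apply354, suM354, Complex.conj_I]
    rw [hsq, hmul _ _ (isU354_suM hq) (isU354_suM hq)]
    exact T_suM_sq354 T hmul hnorm hq
  · -- the square root `(1 + s) / r`
    have hre : (0 : ℝ) < 2 + 2 * a.re := by
      have h1 : Complex.normSq a + Complex.normSq b = 1 := by
        have := congrArg Complex.re h
        simpa [Complex.mul_conj] using this
      have h2 : Complex.normSq a ≤ 1 := by
        have := Complex.normSq_nonneg b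
        linarith
      have h3 : a.re ^ 2 ≤ 1 := by
        have : a.re * a.re + a.im * a.im ≤ 1 := by
          rw [Complex.normSq_apply] at h2
          exact h2
        nlinarith [mul_self_nonneg a.im]
      have h4 : -1 ≤ a.re := by nlinarith
      rcases eq_or_lt_of_le h4 with h5 | h5
      · exfalso
        apply ha
        have him : a.im = 0 := by
          have : a.re * a.re + a.im * a.im ≤ 1 := by
            rw [Complex.normSq_apply] at h2
            exact h2
          rw [← h5] at this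
          have : a.im * a.im ≤ 0 := by linarith
          exact mul_self_eq_zero.1 (le_antisymm this (mul_self_nonneg _))
        exact Complex.ext (by simpa using h5.symm) (by simpa using him)
      · linarith
    set r : ℝ := Real.sqrt (2 + 2 * a.re) with hr
    have hr0 : 0 < r := Real.sqrt_pos.2 hre
    have hr2 : ((r : ℂ)) ^ 2 = 2 + a + conj a := by
      have h1 : r ^ 2 = 2 + 2 * a.re := Real.sq_sqrt hre.le
      have h2 : a + conj a = ((2 * a.re : ℝ) : ℂ) := Complex.add_conj a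
      rw [add_assoc, h2, ← Complex.ofReal_pow, h1]
      push_cast
      ring
    have hrc : (r : ℂ) ≠ 0 := by
      rw [Ne, Complex.ofReal_eq_zero]
      exact hr0.ne'
    have hcr : conj (r : ℂ) = r := Complex.conj_ofReal r
    set a' : ℂ := (1 + a) / r with ha'
    set b' : ℂ := b / r with hb'
    have hq : a' * conj a' + b' * conj b' = 1 := by
      rw [ha', hb', map_div₀, map_div₀, hcr, map_add, map_one]
      field_simp
      rw [hr2]
      linear_combination h
    have hsq : suM354 a b = suM354 a' b' * suM354 a' b' := by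
      refine mat_ext354 ?_ ?_ ?_ ?_ <;>
        simp only [mul_apply354, suM354, Matrix.of_apply, Matrix.cons_val', Matrix.cons_val_zero,
          Matrix.cons_val_one, Matrix.cons_val_fin_one, ha', hb', map_div₀, hcr, map_add,
          map_one]
      · field_simp
        rw [hr2]
        linear_combination h
      · field_simp
        rw [hr2]
        ring
      · field_simp
        rw [hr2]
        ring
      · field_simp
        rw [hr2]
        linear_combination h
    rw [hsq, hmul _ _ (isU354_suM hq) (isU354_suM hq)]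
    exact T_suM_sq354 T hmul hnorm hq

/-- **Characters of `U(2)`.** -/
theorem u2_char354 (hcont : ContinuousOn T {M | IsU354 M}) :
    ∃ n : ℤ, ∀ M, IsU354 M → T M = M.det ^ n := by
  -- the character of the circle
  have hexp : ∀ θ : ℝ, Complex.exp (θ * Complex.I) * conj (Complex.exp (θ * Complex.I)) = 1 := by
    intro θ
    rw [← Complex.exp_conj, ← Complex.exp_add]
    simp [Complex.conj_I]
  set χ : ℝ → ℂ := fun θ => T (dgM354 (Complex.exp (θ * Complex.I))) with hχ
  have hχc : Continuous χ := by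
    have h1 : Continuous fun θ : ℝ => dgM354 (Complex.exp (θ * Complex.I)) := by
      unfold dgM354
      refine continuous_matrix fun i j => ?_
      fin_cases i <;> fin_cases j
      · simp only [Fin.zero_eta, Fin.isValue, Matrix.of_apply, Matrix.cons_val', Matrix.cons_val_zero,
          Matrix.cons_val_fin_one]
        exact Complex.continuous_exp.comp
          ((Complex.continuous_ofReal.comp continuous_id).mul continuous_const)
      · simpa using continuous_const
      · simpa using continuous_const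
      · simpa using continuous_const
    exact hcont.comp_continuous h1 fun θ => isU354_dgM (hexp θ)
  have hχ0 : χ 0 = 1 := by
    have : dgM354 (Complex.exp (((0 : ℝ) : ℂ) * Complex.I)) = 1 := by
      refine mat_ext354 ?_ ?_ ?_ ?_ <;> simp [dgM354]
    rw [hχ]
    simp only
    rw [this, T_one354 T hmul hnorm]
  have hχm : ∀ s t, χ (s + t) = χ s * χ t := by
    intro s t
    rw [hχ]
    simp only
    rw [← hmul _ _ (isU354_dgM (hexp s)) (isU354_dgM (hexp t))]
    congr 1
    refine mat_ext354 ?_ ?_ ?_ ?_ <;>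
      simp [mul_apply354, dgM354, ← Complex.exp_add, add_mul]
  have hχp : χ (2 * Real.pi) = 1 := by
    have : dgM354 (Complex.exp (((2 * Real.pi : ℝ) : ℂ) * Complex.I)) = 1 := by
      have h1 : Complex.exp (((2 * Real.pi : ℝ) : ℂ) * Complex.I) = 1 := by
        push_cast
        exact Complex.exp_two_pi_mul_I
      rw [h1]
      refine mat_ext354 ?_ ?_ ?_ ?_ <;> simp [dgM354]
    rw [hχ]
    simp only
    rw [this, T_one354 T hmul hnorm]
  obtain ⟨n, hn⟩ := char_periodic354 χ hχc hχ0 hχm hχp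
  refine ⟨n, fun M hM => ?_⟩
  -- `det M` has absolute value one
  have hdet : M.det * conj M.det = 1 := by
    have h := congrArg Matrix.det hM
    rw [Matrix.det_mul, Matrix.det_conjTranspose, Matrix.det_one] at h
    exact h
  have hnd : ‖M.det‖ = 1 := by
    have h1 : Complex.normSq M.det = 1 := by
      have := congrArg Complex.re hdet
      simpa [Complex.mul_conj] using this
    rw [Complex.normSq_eq_norm_sq] at h1
    have h3 : ‖M.det‖ ^ 2 = 1 ^ 2 := by rw [h1]; norm_num
    exact (sq_eq_sq₀ (norm_nonneg _) zero_le_one).mp h3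
  set θ : ℝ := Complex.arg M.det with hθ
  have hz : Complex.exp (θ * Complex.I) = M.det := by
    have := Complex.norm_mul_exp_arg_mul_I M.det
    rw [hnd, Complex.ofReal_one, one_mul] at this
    exact this
  -- `M = diag(det M, 1) * s`, `s ∈ SU(2)`
  have hdU : IsU354 (dgM354 M.det) := isU354_dgM hdet
  set s : Matrix (Fin 2) (Fin 2) ℂ := (dgM354 M.det)ᴴ * M with hs
  have hsU : IsU354 s := hdU.conjTranspose.mul hM
  have hsd : s.det = 1 := by
    rw [hs, Matrix.det_mul, Matrix.det_conjTranspose, det_dgM354, RCLike.star_def, mul_comm]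
    exact hdet
  have hMs : M = dgM354 M.det * s := by
    rw [hs, ← Matrix.mul_assoc, hdU, Matrix.one_mul]
  obtain ⟨hform, hone⟩ := eq_suM354_of_isU hsU hsd
  have hTs : T s = 1 := by
    rw [hform]
    exact T_suM354 T hmul hnorm hone
  calc T M = T (dgM354 M.det * s) := by rw [← hMs]
    _ = T (dgM354 M.det) * T s := hmul _ _ hdU hsU
    _ = χ θ := by rw [hTs, mul_one, hχ]; simp only; rw [hz]
    _ = M.det ^ n := by rw [hn θ, hz]

end Char

end Fermat.Agent.LT.T2.H354

end

end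
-- ===== PACK-END LT/T2/H354/Unitary2.lean

-- ===== PACK-BEGIN LT/T6/H157/QuadGen.lean
section



/-!
# Row LT, tower T6, leaf T6.00q.1 `QuadGenC438` (helper157, OFF-MAIN)

A quadratic number field is `ℚ(√d)` with `d ≠ 1` a squarefree integer
(Spec: `Fermat/Agent/LT/T6/H438/HasseQ3.lean` of helper438, byte copy).
-/

set_option autoImplicit false

namespace Fermat.Agent.LT.T6.H157

/-- In a quadratic extension `L/ℚ` there is an element outside `ℚ`. -/
theorem exists_not_mem_range_quad157 (L : Type) [Field L] [NumberField L]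
    (hL : Module.finrank ℚ L = 2) : ∃ x : L, x ∉ (algebraMap ℚ L).range := by
  by_contra h0
  have h : ∀ x : L, x ∈ (algebraMap ℚ L).range := fun x =>
    Classical.byContradiction (fun hx => h0 ⟨x, hx⟩)
  have hbt : (⊥ : Subalgebra ℚ L) = ⊤ := by
    refine eq_top_iff.2 (fun x _ => ?_)
    obtain ⟨q, hq⟩ := h x
    exact Algebra.mem_bot.2 ⟨q, hq⟩
  have h1 : Module.finrank ℚ L = 1 := Subalgebra.bot_eq_top_iff_finrank_eq_one.1 hbt
  omega

/-- An element `x` of a quadratic extension `L/ℚ` outside `ℚ` satisfies a monic quadratic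
equation over `ℚ`. -/
theorem exists_quad_relation157 (L : Type) [Field L] [NumberField L]
    (hL : Module.finrank ℚ L = 2) (x : L) (hx : x ∉ (algebraMap ℚ L).range) :
    ∃ b c : ℚ, x ^ 2 + (b : L) * x + (c : L) = 0 := by
  have hint : IsIntegral ℚ x := Algebra.IsIntegral.isIntegral x
  have h2 : 2 ≤ (minpoly ℚ x).natDegree := (minpoly.two_le_natDegree_iff hint).2 hx
  have hle : (minpoly ℚ x).natDegree ≤ 2 := hL ▸ minpoly.natDegree_le x
  have hdeg : (minpoly ℚ x).natDegree = 2 := le_antisymm hle h2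
  have hmonic : (minpoly ℚ x).Monic := minpoly.monic hint
  have hc2 : (minpoly ℚ x).coeff 2 = 1 := by
    have := hmonic.coeff_natDegree
    rwa [hdeg] at this
  have hev : Polynomial.aeval x (minpoly ℚ x) = 0 := minpoly.aeval ℚ x
  rw [Polynomial.aeval_eq_sum_range, hdeg] at hev
  simp only [Finset.sum_range_succ, Finset.sum_range_zero, zero_add, pow_zero, pow_one, hc2,
    one_smul] at hev
  refine ⟨(minpoly ℚ x).coeff 1, (minpoly ℚ x).coeff 0, ?_⟩
  rw [Algebra.smul_def, Algebra.smul_def, eq_ratCast, eq_ratCast, mul_one] at hev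
  linear_combination hev

/-- **T6.00q.1 `QuadGenC438`.**  A quadratic field is `ℚ(√d)`, `d ≠ 1` a squarefree integer. -/
theorem quadGenC157 : Fermat.Agent.LT.T6.H438.QuadGenC438 := by
  intro L _ _ hL
  obtain ⟨x, hx⟩ := exists_not_mem_range_quad157 L hL
  obtain ⟨b, c, hbc⟩ := exists_quad_relation157 L hL x hx
  -- a rational multiple of an element of `ℚ` plus ... : `x ∈ ℚ` as soon as `2x + b ∈ ℚ`
  have hxq : ∀ r : ℚ, 2 * x + (b : L) ≠ (r : L) := by
    intro r hr
    apply hx
    refine ⟨(r - b) / 2, ?_⟩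
    rw [eq_ratCast]
    push_cast
    linear_combination (-1 / 2 : L) * hr
  set y : L := 2 * x + (b : L) with hy
  set D : ℚ := b ^ 2 - 4 * c with hD
  have hyD : y ^ 2 = (D : L) := by
    rw [hy, hD]
    push_cast
    linear_combination 4 * hbc
  have hD0 : D ≠ 0 := by
    intro h0
    rw [h0, Rat.cast_zero] at hyD
    have : y = 0 := by simpa using hyD
    exact hxq 0 (by rw [this, Rat.cast_zero])
  -- the integer `N = num * den`
  set N : ℤ := D.num * (D.den : ℤ) with hN
  have hden0 : (D.den : ℤ) ≠ 0 := by exact_mod_cast D.den_nz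
  have hnum0 : D.num ≠ 0 := Rat.num_ne_zero.2 hD0
  have hN0 : N ≠ 0 := mul_ne_zero hnum0 hden0
  have hdenL : ((D.den : ℤ) : L) ≠ 0 := by exact_mod_cast D.den_nz
  have hDL : (D : L) = ((D.num : ℤ) : L) / ((D.den : ℤ) : L) := by
    conv_lhs => rw [← Rat.num_div_den D]
    push_cast
    rfl
  have hyN : (((D.den : ℤ) : L) * y) ^ 2 = ((N : ℤ) : L) := by
    rw [mul_pow, hyD, hDL, hN]
    push_cast
    field_simp
  -- squarefree part
  obtain ⟨a, s, hsa, hasf⟩ := Nat.sq_mul_squarefree N.natAbs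
  have hs0 : s ≠ 0 := by
    rintro rfl
    have : N.natAbs = 0 := by rw [← hsa]; simp
    exact hN0 (Int.natAbs_eq_zero.1 this)
  have hsL : ((s : ℕ) : L) ≠ 0 := by exact_mod_cast hs0
  refine ⟨N.sign * (a : ℤ), ?_, ?_, ((D.den : ℤ) : L) * y / (s : L), ?_⟩
  · -- squarefree
    rw [← Int.squarefree_natAbs, Int.natAbs_mul, Int.natAbs_sign_of_ne_zero hN0, one_mul,
      Int.natAbs_natCast]
    exact hasf
  · -- `d ≠ 1`
    intro h1
    have hNeq : N = (s : ℤ) ^ 2 := by
      have h2 : N = N.sign * (N.natAbs : ℤ) := (Int.sign_mul_natAbs N).symm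
      rw [h2, ← hsa]
      push_cast
      linear_combination ((s : ℤ) ^ 2) * h1
    have hsq : (((D.den : ℤ) : L) * y) ^ 2 = ((s : ℕ) : L) ^ 2 := by
      rw [hyN, hNeq]
      push_cast
      rfl
    rcases sq_eq_sq_iff_eq_or_eq_neg.1 hsq with h | h
    · refine hxq ((s : ℚ) / (D.den : ℚ)) ?_
      push_cast
      have hdq : ((D.den : ℕ) : L) ≠ 0 := by exact_mod_cast D.den_nz
      field_simp
      have : ((D.den : ℤ) : L) = ((D.den : ℕ) : L) := by push_cast; rfl
      rw [this] at h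
      linear_combination h
    · refine hxq (-(s : ℚ) / (D.den : ℚ)) ?_
      push_cast
      have hdq : ((D.den : ℕ) : L) ≠ 0 := by exact_mod_cast D.den_nz
      field_simp
      have : ((D.den : ℤ) : L) = ((D.den : ℕ) : L) := by push_cast; rfl
      rw [this] at h
      linear_combination h
  · -- `δ ^ 2 = d`
    rw [div_pow, hyN]
    have h2 : N = N.sign * (N.natAbs : ℤ) := (Int.sign_mul_natAbs N).symm
    have h3 : ((N : ℤ) : L) = ((N.sign * (a : ℤ) : ℤ) : L) * ((s : ℕ) : L) ^ 2 := by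
      conv_lhs => rw [h2, ← hsa]
      push_cast
      ring
    rw [h3]
    field_simp

end Fermat.Agent.LT.T6.H157

end
-- ===== PACK-END LT/T6/H157/QuadGen.lean

-- ===== PACK-BEGIN LT/T6/H219/SplitVal.lean
section



/-!
# T6.00b (HasseNormQ3, cut of helper438): valuations of rational numbers at a split place and
the parity statement at `p ≡ 2 mod 3` (helper219).  Mathlib only.
-/

set_option autoImplicit false

namespace Fermat.Agent.LT.T6.H219

open IsDedekindDomain HeightOneSpectrum WithZero NumberField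

section place

variable {L : Type} [Field L] [NumberField L] {p : ℕ} [Fact p.Prime] (ψ : L →+* ℚ_[p])

theorem valuation_natCast219 (n : ℕ) (hn : n ≠ 0) :
    (placeOf219 ψ).valuation L (n : L) = exp (-(padicValNat p n : ℤ)) := by
  have hp : Nat.Prime p := Fact.out
  induction n using Nat.recOnMul with
  | zero => exact absurd rfl hn
  | one => simp
  | prime q hq =>
    have e : ((q : ℕ) : L) = algebraMap (𝓞 L) L ((q : ℕ) : 𝓞 L) := by simp
    rw [e, valuation_of_algebraMap]
    by_cases hqp : q = p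
    · subst hqp
      rw [intValuation_p219, padicValNat_self]
      rfl
    · have hnd : ¬ (p : ℤ) ∣ (q : ℤ) := by
        intro h
        have : p ∣ q := by exact_mod_cast h
        exact hqp ((Nat.prime_dvd_prime_iff_eq hp hq).mp this).symm
      have h1 : ((q : ℕ) : 𝓞 L) ∉ (placeOf219 ψ).asIdeal := by
        have := intCast_notMem_placeOf219 ψ (q : ℤ) hnd
        simpa using this
      rw [(intValuation_eq_one_iff_mem_primeCompl _ _).mpr h1]
      have : padicValNat p q = 0 := by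
        apply padicValNat.eq_zero_of_not_dvd
        intro h
        exact hqp ((Nat.prime_dvd_prime_iff_eq hp hq).mp h).symm
      rw [this]
      simp
  | mul a b ha hb =>
    have ha0 : a ≠ 0 := fun h => hn (by rw [h, zero_mul])
    have hb0 : b ≠ 0 := fun h => hn (by rw [h, mul_zero])
    rw [Nat.cast_mul, map_mul, ha ha0, hb hb0, padicValNat.mul ha0 hb0, ← exp_add]
    congr 1
    push_cast
    ring

theorem valuation_intCast219 (z : ℤ) (hz : z ≠ 0) :
    (placeOf219 ψ).valuation L (z : L) = exp (-(padicValInt p z : ℤ)) := by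
  have h := valuation_natCast219 ψ z.natAbs (Int.natAbs_ne_zero.mpr hz)
  have e : (placeOf219 ψ).valuation L (z : L) = (placeOf219 ψ).valuation L ((z.natAbs : ℕ) : L) := by
    rcases Int.natAbs_eq z with h1 | h1
    · conv_lhs => rw [h1]
      simp
    · conv_lhs => rw [h1]
      rw [Int.cast_neg, Valuation.map_neg]
      simp
  rw [e, h]
  rfl

theorem valuation_ratCast219 (c : ℚ) (hc : c ≠ 0) :
    (placeOf219 ψ).valuation L (algebraMap ℚ L c) = exp (-(padicValRat p c)) := by
  have hnum : c.num ≠ 0 := Rat.num_ne_zero.mpr hc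
  have hden : c.den ≠ 0 := c.den_nz
  have e : algebraMap ℚ L c = (c.num : L) / (c.den : L) := by
    conv_lhs => rw [← Rat.num_div_den c]
    simp
  rw [e, map_div₀, valuation_intCast219 ψ _ hnum, valuation_natCast219 ψ _ hden,
    padicValRat_def, ← exp_sub]
  congr 1
  ring

end place

/-! ### `X² - X + 1` has no root modulo a prime `p ≡ 2 mod 3` -/

theorem zmod_no_root219 (p : ℕ) [Fact p.Prime] (hp3 : p % 3 = 2) (t : ZMod p) :
    t ^ 2 - t + 1 ≠ 0 := by
  intro h
  have hp : Nat.Prime p := Fact.out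
  have h3 : (-t) ^ 3 = 1 := by
    have : (-t) ^ 3 - 1 = -(t + 1) * (t ^ 2 - t + 1) := by ring
    rw [h, mul_zero] at this
    exact sub_eq_zero.mp this
  have h1 : -t ≠ 1 := by
    intro h1
    have ht : t = -1 := by rw [← h1]; ring
    rw [ht] at h
    have h30 : ((3 : ℕ) : ZMod p) = 0 := by
      have : ((-1 : ZMod p)) ^ 2 - (-1) + 1 = 3 := by ring
      rw [this] at h
      exact_mod_cast h
    rw [ZMod.natCast_eq_zero_iff] at h30
    have := (Nat.prime_dvd_prime_iff_eq hp Nat.prime_three).mp h30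
    omega
  have ht0 : -t ≠ 0 := by
    intro h0
    rw [h0] at h3
    norm_num at h3
  have : Fact (Nat.Prime 3) := ⟨Nat.prime_three⟩
  have ho : orderOf (-t) = 3 := orderOf_eq_prime h3 h1
  have hd : orderOf (-t) ∣ p - 1 := orderOf_dvd_of_pow_eq_one (ZMod.pow_card_sub_one_eq_one ht0)
  rw [ho] at hd
  have hp1 : 1 ≤ p := hp.one_lt.le
  omega

/-- **Parity at a split place over `p ≡ 2 mod 3`.** -/
theorem even_padicValRat_of_n3_219 {L : Type} [Field L] [NumberField L] {p : ℕ} [Fact p.Prime]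
    (hp3 : p % 3 = 2) (ψ : L →+* ℚ_[p]) (c : ℚ) (hc : c ≠ 0)
    (a b : (placeOf219 ψ).adicCompletion L)
    (h : a ^ 2 + 3 * b ^ 2 = algebraMap L ((placeOf219 ψ).adicCompletion L) (algebraMap ℚ L c)) :
    Even (padicValRat p c) := by
  have hroot : ∀ r : 𝓞 L, r ^ 2 - r + 1 ∉ (placeOf219 ψ).asIdeal := by
    intro r hr
    rw [mem_placeOf219] at hr
    apply zmod_no_root219 p hp3 (toZModP219 ψ r)
    rw [← hr]
    simp
  obtain ⟨γ, hγ⟩ := val_sq_of_n3_219 (placeOf219 ψ) hroot (algebraMap ℚ L c) a b h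
  rw [valuation_ratCast219 ψ c hc] at hγ
  have hγ0 : γ ≠ 0 := by
    rintro rfl
    simp at hγ
  obtain ⟨j, rfl⟩ : ∃ j : ℤ, γ = exp j := ⟨_, (exp_log hγ0).symm⟩
  rw [← exp_nsmul, exp_inj] at hγ
  refine ⟨-j, ?_⟩
  simp at hγ
  omega

end Fermat.Agent.LT.T6.H219

end
-- ===== PACK-END LT/T6/H219/SplitVal.lean

-- ===== PACK-BEGIN LT/H338/TreeCount.lean
section


/-!
# Row LT, tower T6 — the count of vertices of given displacement, fixed-vertex case (helper338)

`ncard_disp_even338` : in a `(q + 1)`-regular tree distance, a distance-preserving map `g` with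
exactly `n₀ ≥ 1` fixed points has exactly `(q n₀ + 2 - n₀) q ^ r` points of displacement `2 (r + 1)`.
-/

namespace Fermat.Agent.LT.H338

open Finset Classical

section Count

variable {V : Type*} {d : V → V → ℕ} (hd : IsTreeDist338 d) (o : V)
  (q : ℕ) (hreg : ∀ v, {w | d v w = 1}.ncard = q + 1)

include hreg in
theorem nb_finite338 (v : V) : {w | d v w = 1}.Finite :=
  Set.finite_of_ncard_ne_zero (by rw [hreg v]; omega)

/-- The finset of neighbours. -/
noncomputable def nb338 (v : V) : Finset V := (nb_finite338 q hreg v).toFinset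

theorem mem_nb338 {v w : V} : w ∈ nb338 q hreg v ↔ d v w = 1 := by
  simp [nb338]

theorem card_nb338 (v : V) : (nb338 q hreg v).card = q + 1 := by
  rw [nb338, ← Set.ncard_eq_toFinset_card _ (nb_finite338 q hreg v), hreg v]

/-- The finset of children of `v` with respect to the root `o`. -/
noncomputable def ch338 (v : V) : Finset V :=
  open Classical in (nb338 q hreg v).filter (fun z => d o z = d o v + 1)

theorem mem_ch338 {v z : V} : z ∈ ch338 o q hreg v ↔ d v z = 1 ∧ d o z = d o v + 1 := by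
  simp [ch338, mem_nb338]

include hd in
theorem par_of_mem_ch338 {v z : V} (h : z ∈ ch338 o q hreg v) : o ≠ z ∧ par338 hd o z = v := by
  rw [mem_ch338] at h
  have hoz : o ≠ z := root_ne_of_depth338 hd o h.2
  refine ⟨hoz, (par338_unique hd o hoz ?_ h.2.symm).symm⟩
  rw [hd.symm]; exact h.1

theorem mem_ch_par338 {x : V} (h : o ≠ x) : x ∈ ch338 o q hreg (par338 hd o x) := by
  rw [mem_ch338]
  refine ⟨?_, (par338_depth hd o h).symm⟩
  rw [hd.symm]; exact par338_adj hd o h

include hd in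
theorem card_ch_root338 : (ch338 o q hreg o).card = q + 1 := by
  classical
  have : ch338 o q hreg o = nb338 q hreg o := by
    ext z
    rw [mem_ch338, mem_nb338]
    constructor
    · exact fun h => h.1
    · intro h
      refine ⟨h, ?_⟩
      rw [(hd.eq_zero o o).2 rfl, h]
  rw [this, card_nb338]

include hd in
theorem card_ch338 {v : V} (h : o ≠ v) : (ch338 o q hreg v).card = q := by
  classical
  have hins : nb338 q hreg v = insert (par338 hd o v) (ch338 o q hreg v) := by
    ext z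
    rw [mem_insert, mem_ch338, mem_nb338]
    constructor
    · intro hz
      rcases hd.step o v z hz with h1 | h1
      · left; exact par338_unique hd o h hz h1.symm
      · right; exact ⟨hz, h1⟩
    · rintro (rfl | hz)
      · exact par338_adj hd o h
      · exact hz.1
  have hnot : par338 hd o v ∉ ch338 o q hreg v := by
    intro hm
    rw [mem_ch338] at hm
    have := par338_depth hd o h
    omega
  have := card_nb338 q hreg v
  rw [hins, card_insert_of_notMem hnot] at this
  omega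

/-- The children of the elements of `T`. -/
noncomputable def childF338 (T : Finset V) : Finset V :=
  open Classical in T.biUnion (ch338 o q hreg)

include hd in
theorem mem_childF338 {T : Finset V} {x : V} :
    x ∈ childF338 o q hreg T ↔ o ≠ x ∧ par338 hd o x ∈ T := by
  classical
  rw [childF338, mem_biUnion]
  constructor
  · rintro ⟨y, hy, hx⟩
    obtain ⟨h1, h2⟩ := par_of_mem_ch338 hd o q hreg hx
    exact ⟨h1, h2 ▸ hy⟩
  · rintro ⟨h1, h2⟩
    exact ⟨_, h2, mem_ch_par338 hd o q hreg h1⟩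

include hd in
theorem card_childF338 (T : Finset V) :
    (childF338 o q hreg T).card = q * T.card + (if o ∈ T then 1 else 0) := by
  classical
  rw [childF338, card_biUnion]
  · have hsum : ∀ y ∈ T, (ch338 o q hreg y).card = q + (if y = o then 1 else 0) := by
      intro y _
      by_cases hy : y = o
      · subst hy; rw [card_ch_root338 hd y q hreg, if_pos rfl]
      · rw [card_ch338 hd o q hreg (Ne.symm hy), if_neg hy, Nat.add_zero]
    rw [sum_congr rfl hsum, sum_add_distrib, sum_const, smul_eq_mul, mul_comm, sum_ite_eq' T o]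
  · intro y _ y' _ hne
    rw [Function.onFun, Finset.disjoint_left]
    intro z hz hz'
    exact hne ((par_of_mem_ch338 hd o q hreg hz).2.symm.trans (par_of_mem_ch338 hd o q hreg hz').2)

end Count

section Main

variable {V : Type*} {d : V → V → ℕ} (hd : IsTreeDist338 d)
  (q : ℕ) (hreg : ∀ v, {w | d v w = 1}.ncard = q + 1)
  (g : V → V) (hg : ∀ x y, d (g x) (g y) = d x y) (o : V) (ho : g o = o)
  (hfix : {x | g x = x}.Finite)

/-- The finset of points of displacement `2 r`. -/
noncomputable def sf338 : ℕ → Finset V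
  | 0 => hfix.toFinset
  | 1 => childF338 o q hreg hfix.toFinset \ hfix.toFinset
  | (r + 2) => childF338 o q hreg (sf338 (r + 1))

include hd hg ho in
theorem mem_sf338 : ∀ (r : ℕ) (x : V), x ∈ sf338 q hreg g o hfix r ↔ d x (g x) = 2 * r
  | 0, x => by
    rw [sf338, Set.Finite.mem_toFinset, Set.mem_ofPred_eq, Nat.mul_zero, hd.eq_zero]
    exact eq_comm
  | 1, x => by
    rw [sf338, mem_sdiff, mem_childF338 hd, Set.Finite.mem_toFinset, Set.Finite.mem_toFinset,
      Set.mem_ofPred_eq, Set.mem_ofPred_eq]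
    constructor
    · rintro ⟨⟨_, h2⟩, h3⟩
      rw [disp_step338 hd g hg o ho h3, h2, (hd.eq_zero _ _).2 rfl]
    · intro h
      have hne : g x ≠ x := by
        intro e
        rw [e, (hd.eq_zero x x).2 rfl] at h
        omega
      have hox : o ≠ x := by
        intro e; subst e; exact hne ho
      refine ⟨⟨hox, ?_⟩, hne⟩
      have := disp_step338 hd g hg o ho hne
      have h0 : d (par338 hd o x) (g (par338 hd o x)) = 0 := by omega
      exact ((hd.eq_zero _ _).1 h0).symm
  | (r + 2), x => by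
    rw [sf338, mem_childF338 hd, mem_sf338 (r + 1)]
    constructor
    · rintro ⟨_, h2⟩
      have hne : g x ≠ x := by
        intro e
        have := fixed_par338 hd g hg o ho e
        rw [this, (hd.eq_zero _ _).2 rfl] at h2
        omega
      rw [disp_step338 hd g hg o ho hne, h2]; ring
    · intro h
      have hne : g x ≠ x := by
        intro e
        rw [e, (hd.eq_zero x x).2 rfl] at h
        omega
      have hox : o ≠ x := by
        intro e; subst e; exact hne ho
      refine ⟨hox, ?_⟩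
      have := disp_step338 hd g hg o ho hne
      omega

include hd hg ho in
theorem card_sf_one338 :
    (sf338 q hreg g o hfix 1).card = q * hfix.toFinset.card + 2 - hfix.toFinset.card := by
  classical
  have hoF : o ∈ hfix.toFinset := by
    rw [Set.Finite.mem_toFinset]; exact ho
  have hpos : 1 ≤ hfix.toFinset.card := card_pos.2 ⟨o, hoF⟩
  have hsub : hfix.toFinset.erase o ⊆ childF338 o q hreg hfix.toFinset := by
    intro x hx
    rw [mem_erase] at hx
    rw [mem_childF338 hd]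
    refine ⟨Ne.symm hx.1, ?_⟩
    rw [Set.Finite.mem_toFinset] at hx ⊢
    exact fixed_par338 hd g hg o ho hx.2
  have heq : sf338 q hreg g o hfix 1 = childF338 o q hreg hfix.toFinset \ hfix.toFinset.erase o := by
    rw [sf338]
    ext x
    rw [mem_sdiff, mem_sdiff, mem_erase, mem_childF338 hd]
    constructor
    · rintro ⟨h1, h2⟩
      exact ⟨h1, fun h => h2 h.2⟩
    · rintro ⟨h1, h2⟩
      exact ⟨h1, fun h => h2 ⟨Ne.symm h1.1, h⟩⟩
  rw [heq, card_sdiff_of_subset hsub, card_childF338 hd, if_pos hoF, card_erase_of_mem hoF]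
  omega

include hd hg ho in
theorem card_sf_succ338 (r : ℕ) :
    (sf338 q hreg g o hfix (r + 2)).card = q * (sf338 q hreg g o hfix (r + 1)).card := by
  have hnot : o ∉ sf338 q hreg g o hfix (r + 1) := by
    rw [mem_sf338 hd q hreg g hg o ho hfix, ho, (hd.eq_zero o o).2 rfl]
    omega
  rw [sf338, card_childF338 hd, if_neg hnot, Nat.add_zero]

include hd hg ho in
theorem card_sf338 (r : ℕ) :
    (sf338 q hreg g o hfix (r + 1)).card
      = (q * hfix.toFinset.card + 2 - hfix.toFinset.card) * q ^ r := by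
  induction r with
  | zero => rw [card_sf_one338 hd q hreg g hg o ho hfix, pow_zero, mul_one]
  | succ r ih => rw [card_sf_succ338 hd q hreg g hg o ho hfix, ih]; ring

include hd hreg hg ho hfix in
/-- **Displacement count, fixed-vertex case.** -/
theorem ncard_disp_even338 (r : ℕ) :
    {x | d x (g x) = 2 * (r + 1)}.ncard
      = (q * {x | g x = x}.ncard + 2 - {x | g x = x}.ncard) * q ^ r := by
  have h1 : {x | d x (g x) = 2 * (r + 1)} = ↑(sf338 q hreg g o hfix (r + 1)) := by
    ext x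
    rw [Set.mem_ofPred_eq, mem_coe, mem_sf338 hd q hreg g hg o ho hfix]
  rw [h1, Set.ncard_coe_finset, card_sf338 hd q hreg g hg o ho hfix,
    Set.ncard_eq_toFinset_card _ hfix]

include hd hg ho in
theorem disp_even338 (x : V) : Even (d x (g x)) :=
  even_disp338 hd g hg o ho (d o x) x rfl

end Main

end Fermat.Agent.LT.H338

end
-- ===== PACK-END LT/H338/TreeCount.lean

-- ===== PACK-BEGIN LT/H338/TreeQuot.lean
section


/-!
# Row LT, tower T6 — from a pre-tree-distance to a tree distance on the quotient (helper338)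

Mathlib only.  `IsPreTreeDist338 D` : the properties of `D g g' = (a - b of the Cartan invariant of
g⁻¹ g')` on a group, where `D = 0` is the coset relation.  `isTreeDist_quot338` : the induced
function on the quotient by `D = 0` is a tree distance; `ncard_nb_quot338` : neighbour count from
a finite system of representatives.
-/

namespace Fermat.Agent.LT.H338

/-- The properties of a function `D : G → G → ℕ` whose quotient by `D = 0` is a tree distance. -/
structure IsPreTreeDist338 {G : Type*} (D : G → G → ℕ) : Prop where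
  self : ∀ x, D x x = 0
  symm : ∀ x y, D x y = D y x
  congr : ∀ x y, D x y = 0 → ∀ z, D z x = D z y
  step : ∀ u v w, D v w = 1 → D u v = D u w + 1 ∨ D u w = D u v + 1
  toward_ex : ∀ u v, D u v ≠ 0 → ∃ w, D v w = 1 ∧ D u w + 1 = D u v
  toward_uniq : ∀ u v w w', D v w = 1 → D v w' = 1 → D u w + 1 = D u v → D u w' + 1 = D u v →
    D w w' = 0

section

variable {G : Type*} {D : G → G → ℕ} (hD : IsPreTreeDist338 D)

/-- The equivalence relation `D = 0`. -/
def preSetoid338 : Setoid G where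
  r x y := D x y = 0
  iseqv := by
    refine ⟨hD.self, fun {x y} h => by rw [hD.symm]; exact h, fun {x y z} h1 h2 => ?_⟩
    rw [← hD.congr y z h2 x]; exact h1

/-- The quotient by `D = 0`. -/
def PreQuot338 : Type _ := Quotient (preSetoid338 hD)

/-- The class of an element. -/
def preMk338 (x : G) : PreQuot338 hD := Quotient.mk (preSetoid338 hD) x

theorem preMk338_eq_iff (x y : G) : preMk338 hD x = preMk338 hD y ↔ D x y = 0 :=
  Quotient.eq (r := preSetoid338 hD)

theorem preMk338_surj (w : PreQuot338 hD) : ∃ x, preMk338 hD x = w :=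
  Quotient.exists_rep w

/-- The induced distance on the quotient. -/
def quotDist338 : PreQuot338 hD → PreQuot338 hD → ℕ :=
  Quotient.lift₂ (s₁ := preSetoid338 hD) (s₂ := preSetoid338 hD) D (by
    intro x y x' y' hx hy
    have h1 : D x y = D x y' := hD.congr y y' hy x
    have h2 : D y' x = D y' x' := hD.congr x x' hx y'
    rw [h1, hD.symm x y', h2, hD.symm y' x'])

@[simp] theorem quotDist338_mk (x y : G) :
    quotDist338 hD (preMk338 hD x) (preMk338 hD y) = D x y := rfl

/-- **The quotient of a pre-tree-distance is a tree distance.** -/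
theorem isTreeDist_quot338 : IsTreeDist338 (quotDist338 hD) := by
  refine ⟨?_, ?_, ?_, ?_⟩
  · intro x y
    obtain ⟨x, rfl⟩ := preMk338_surj hD x
    obtain ⟨y, rfl⟩ := preMk338_surj hD y
    rw [quotDist338_mk, preMk338_eq_iff]
  · intro x y
    obtain ⟨x, rfl⟩ := preMk338_surj hD x
    obtain ⟨y, rfl⟩ := preMk338_surj hD y
    exact hD.symm x y
  · intro u v w
    obtain ⟨u, rfl⟩ := preMk338_surj hD u
    obtain ⟨v, rfl⟩ := preMk338_surj hD v
    obtain ⟨w, rfl⟩ := preMk338_surj hD w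
    exact hD.step u v w
  · intro u v huv
    obtain ⟨u, rfl⟩ := preMk338_surj hD u
    obtain ⟨v, rfl⟩ := preMk338_surj hD v
    have hne : D u v ≠ 0 := fun e => huv ((preMk338_eq_iff hD u v).2 e)
    obtain ⟨w, hw1, hw2⟩ := hD.toward_ex u v hne
    refine ⟨preMk338 hD w, ⟨hw1, hw2⟩, ?_⟩
    intro w' hw'
    obtain ⟨w', rfl⟩ := preMk338_surj hD w'
    rw [preMk338_eq_iff]
    exact hD.toward_uniq u v w' w hw'.1 hw1 hw'.2 hw2

/-- **Neighbour count** from a finite system of representatives. -/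
theorem ncard_nb_quot338 (v : G) (R : Finset G) (h1 : ∀ r ∈ R, D v r = 1)
    (h2 : ∀ r ∈ R, ∀ r' ∈ R, D r r' = 0 → r = r')
    (h3 : ∀ w, D v w = 1 → ∃ r ∈ R, D r w = 0) :
    {w : PreQuot338 hD | quotDist338 hD (preMk338 hD v) w = 1}.ncard = R.card := by
  have himg : {w : PreQuot338 hD | quotDist338 hD (preMk338 hD v) w = 1}
      = (preMk338 hD) '' (R : Set G) := by
    ext w
    obtain ⟨w, rfl⟩ := preMk338_surj hD w
    constructor
    · intro hw
      obtain ⟨r, hr, hrw⟩ := h3 w hw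
      exact ⟨r, hr, (preMk338_eq_iff hD r w).2 hrw⟩
    · rintro ⟨r, hr, hrw⟩
      have : D r w = 0 := (preMk338_eq_iff hD r w).1 hrw
      show D v w = 1
      rw [← hD.congr r w this v]
      exact h1 r hr
  have hinj : Set.InjOn (preMk338 hD) (R : Set G) := by
    intro r hr r' hr' e
    exact h2 r hr r' hr' ((preMk338_eq_iff hD r r').1 e)
  rw [himg, hinj.ncard_image, Set.ncard_coe_finset]

end

end Fermat.Agent.LT.H338

end
-- ===== PACK-END LT/H338/TreeQuot.lean

-- ===== PACK-BEGIN LT/T6/H288/HypSpec.lean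
section


/-!
# Row LT, tower T6, leaf T6.12 `FLHypC` (fundamental lemma, `γ` hyperbolic): SUB-SPEC (helper288)

OFF-MAIN.  Definitions + frozen sub-leaf Props + the PROVED top `flHyp_of_leaves`
(file `HypTop.lean`).  Mathlib + `T6/Spec.lean` (helper22, sha256 `89f8f8b8…`) only.

## The computation ([L] §5, hyperbolic case; unramified `k'/k` of degree `l`, `Q = q ^ l`)

* `γ` regular with an eigenvalue in `k`, `N δ ∼ γ`: after (`s`-)conjugation `γ = diag(t₁, t₂)`,
  `δ = diag(d₁, d₂)`, `N d_j = t_j`, `t₁ ≠ t₂` (`DiagReduceC`).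
* Iwasawa decomposition + the twisted centraliser `T(k)` of `δ`: the classes of the `s`-conjugacy
  class of `δ` modulo `s`-conjugation by `U = GL₂(𝒪')` are the `y_b = n(b)⁻¹ δ s(n(b))
  = [[d₁, d₁ s(b) - d₂ b], [0, d₂]]`, `b ∈ k'/𝒪'` modulo multiplication by `𝒪^×`, and the weight
  `[T_y^c : T_y^c ∩ U]` is the length of the orbit: the orbit sum is the plain sum over
  `b ∈ k'/𝒪'` (`OrbitParamC`).
* `cartan [[d₁, u], [0, d₂]] = (m₁ + m₂ - j, j)`, `j = min(m₁, m₂, ord u)` (`CartanUpperC`).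
* THE JACOBIAN: `#{b ∈ k'/𝒪' : d₁ s(b) - d₂ b ∈ ϖ^j 𝒪'} = q ^ (ord(t₁ - t₂) - l j)` for
  `j ≤ min(m₁, m₂)` (`IndexC`; this is `[𝒪' : (s - c)𝒪'] = [𝒪 : (1 - N c)𝒪]`).
* hence `TO_δ(φ) = q ^ ord(t₁ - t₂) · constTerm Q φ m₁ m₂` (`LayerCountC`), where
  `constTerm Q φ m = ∑_λ φ(λ) · ctWeight Q λ m` is (up to `Q^{(m₁+m₂)/2}`) the coefficient of
  `x^{m₁} y^{m₂}` in the Satake transform of `φ` (`SatClosedC`: Macdonald's formula for `GL₂`).
* `IsBC` + comparison of the coefficients of Laurent polynomials: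
  `constTerm q f (l m₁) (l m₂) = constTerm Q φ m₁ m₂` (`CoeffCompareC`).
* the untwisted side is the instance `k' = k`, `l = 1`, `s = id` of the same statements.
-/

set_option autoImplicit false

open scoped Matrix

noncomputable section

namespace Fermat.Agent.LT.T6.H288

open Fermat.Agent.LT.T6

/-! ## Definitions -/

/-- The additive valuation `ord x = - log v(x)` (`ord 0 = 0` by the convention of
`WithZero.log`). -/
def ordv {k : Type} [Field k] [Valued k Γ₀] (x : k) : ℤ := - WithZero.log (Valued.v x)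

/-- The norm `d · s(d) ⋯ s^{n-1}(d)` in a field with an automorphism (`fNorm s 0 d = 1`). -/
def fNorm {k' : Type} [Field k'] (s : k' ≃+* k') : ℕ → k' → k'
  | 0, _ => 1
  | (n + 1), d => d * s (fNorm s n d)

/-- The weight of `λ` in the constant term at `(m₁, m₂)` (residue field of `Q` elements):
`Q^{-λ₂}` if `min(m₁, m₂) = λ₂`, `Q^{-λ₂} (1 - Q⁻¹)` if `min(m₁, m₂) > λ₂`, and `0` unless
`λ₁ + λ₂ = m₁ + m₂` and `λ₂ ≤ min(m₁, m₂)`. -/
def ctWeight (Q : ℕ) (lam : ℤ × ℤ) (m₁ m₂ : ℤ) : ℂ :=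
  if lam.1 + lam.2 = m₁ + m₂ ∧ lam.2 ≤ min m₁ m₂ then
    (Q : ℂ) ^ (-lam.2) * (if lam.2 = min m₁ m₂ then 1 else 1 - (Q : ℂ)⁻¹)
  else 0

/-- The (normalised) constant term of the spherical function `φ` at `diag(ϖ^{m₁}, ϖ^{m₂})`:
`Q^{-m₁} ∫_N φ(diag(ϖ^{m₁}, ϖ^{m₂}) n) dn`. -/
def constTerm (Q : ℕ) (φ : (ℤ × ℤ) →₀ ℂ) (m₁ m₂ : ℤ) : ℂ :=
  φ.sum fun lam c => c * ctWeight Q lam m₁ m₂

/-- `B` is a full system of representatives of `k / 𝒪`. -/
def IsReprSet {k : Type} [Field k] [Valued k Γ₀] (B : Set k) : Prop :=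
  ∀ x : k, ∃! b : k, b ∈ B ∧ Valued.v (x - b) ≤ 1

open Classical in
/-- The layer of `u` relative to `(m₁, m₂)`: `min(m₁, m₂, ord u)` (`ord 0 = ∞`). -/
def layerOf {k : Type} [Field k] [Valued k Γ₀] (m₁ m₂ : ℤ) (u : k) : ℤ :=
  if u = 0 then min m₁ m₂ else min (min m₁ m₂) (ordv u)

/-! ## The sub-leaves -/

/-- **T6.12a (Macdonald's formula for `GL₂`; pure algebra).**  Closed form of the Satake
polynomial of `λ = (λ₁, λ₂)`, `n = λ₁ - λ₂`:
`satake q λ x y = q^{(λ₁+λ₂)/2} ∑_{j=0}^{n} ctWeight q λ (λ₂ + j, λ₁ - j) x^{λ₂+j} y^{λ₁-j}`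
(`= (xy)^{λ₂} q^{n/2} (xⁿ + yⁿ + (1 - q⁻¹) ∑_{0<j<n} x^j y^{n-j})`).  Induction on `n` along the
recursion of `satPoly`. -/
def SatClosedC : Prop :=
  ∀ q : ℕ, 1 < q → ∀ lam : ℤ × ℤ, lam.2 ≤ lam.1 → ∀ x y : ℂ, x ≠ 0 → y ≠ 0 →
    satake q lam x y =
      ∑ j ∈ Finset.range ((lam.1 - lam.2).toNat + 1),
        ((Real.sqrt q : ℝ) : ℂ) ^ (lam.1 + lam.2) *
          ctWeight q lam (lam.2 + (j : ℤ)) (lam.1 - (j : ℤ)) *
          x ^ (lam.2 + (j : ℤ)) * y ^ (lam.1 - (j : ℤ))

/-- **T6.12b (comparison of coefficients; pure algebra).**  If `f = b(φ)` then the constant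
term of `f` at `(l m₁, l m₂)` is the constant term of `φ` at `(m₁, m₂)`.  (`SatClosedC` for `q`
and `q ^ l`, `√(q^l) = (√q)^l`, linear independence of the monomials `x^a y^b` on `(ℂ^×)²`.) -/
def CoeffCompareC : Prop :=
  ∀ l q : ℕ, 0 < l → 1 < q → ∀ φ f : (ℤ × ℤ) →₀ ℂ, IsDominant φ → IsDominant f →
    IsBC l q φ f →
    ∀ m₁ m₂ : ℤ, constTerm q f ((l : ℤ) * m₁) ((l : ℤ) * m₂) = constTerm (q ^ l) φ m₁ m₂

/-- **T6.12c (reduction to the diagonal; algebra over fields).**  `γ` regular with an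
eigenvalue in `K`, `N δ` conjugate to `γ`: then `γ` is conjugate to `diag(t₁, t₂)`, `t₁ ≠ t₂`,
and `δ` is `s`-conjugate to `diag(d₁, d₂)` with `N d_j = t_j`.  (Diagonalise `γ`; move `N δ` to
`diag(t₁, t₂)` by `N(x⁻¹ δ s(x)) = x⁻¹ N(δ) x`; `δ` commutes with `N δ`, hence is diagonal.) -/
def DiagReduceC : Prop :=
  ∀ (K K' : Type) [Field K] [Field K'] (l : ℕ) (i : K →+* K') (s : K' ≃+* K'),
    IsCyclicData K K' l i s →
    ∀ (δ : GL (Fin 2) K') (γ : GL (Fin 2) K), IsReg γ →
      (∃ x : K, x ^ 2 - (γ : Matrix (Fin 2) (Fin 2) K).trace * x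
        + (γ : Matrix (Fin 2) (Fin 2) K).det = 0) →
      IsConj (twNorm s l δ) (Matrix.GeneralLinearGroup.map i γ) →
      ∃ (d₁ d₂ : K') (t₁ t₂ : K) (δ₀ : GL (Fin 2) K') (γ₀ : GL (Fin 2) K),
        t₁ ≠ t₂ ∧ d₁ ≠ 0 ∧ d₂ ≠ 0 ∧
        (δ₀ : Matrix (Fin 2) (Fin 2) K') = !![d₁, 0; 0, d₂] ∧
        (γ₀ : Matrix (Fin 2) (Fin 2) K) = !![t₁, 0; 0, t₂] ∧
        fNorm s l d₁ = i t₁ ∧ fNorm s l d₂ = i t₂ ∧
        IsTwConj s δ δ₀ ∧ IsConj γ γ₀

/-- **T6.12d (Iwasawa decomposition).**  `GL₂(k) = B(k) GL₂(𝒪)`. -/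
def IwasawaC : Prop :=
  ∀ (k : Type) [Field k] [Valued k Γ₀] (q : ℕ), IsLocalField k q →
    ∀ g : GL (Fin 2) k, ∃ (p κ : GL (Fin 2) k) (a b u : k),
      (p : Matrix (Fin 2) (Fin 2) k) = !![a, u; 0, b] ∧ InU 0 κ ∧ g = p * κ

/-- **T6.12e (parametrisation of the orbit sum).**  For `δ₀ = diag(d₁, d₂)` with
`N d₁ ≠ N d₂` and a function `Φ` which is bi-invariant under `U = GL₂(𝒪')`: the twisted orbit sum
of `Φ` at `δ₀` is the sum of `Φ` over the `y_b = [[d₁, d₁ s(b) - d₂ b], [0, d₂]]`, `b` in a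
full system of representatives of `k'/𝒪'` (in particular only finitely many terms are not zero).
(Iwasawa; the twisted centraliser of `δ₀` is the diagonal torus of `GL₂(k)`; the `U`-`s`-classes
are the orbits of `𝒪^×` on `k'/𝒪'`; the weight `cIndex` is the length of the orbit.) -/
def OrbitParamC : Prop :=
  ∀ (k k' : Type) [Field k] [Field k'] [Valued k Γ₀] [Valued k' Γ₀] (q l : ℕ)
    (i : k →+* k') (s : k' ≃+* k'),
    IsLocalField k q → IsLocalField k' (q ^ l) → IsLocalExt k k' l 1 i s →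
    ∀ (Φ : GL (Fin 2) k' → ℂ), IsBiInv (InU 0) Φ →
    ∀ (d₁ d₂ : k') (δ₀ : GL (Fin 2) k'),
      (δ₀ : Matrix (Fin 2) (Fin 2) k') = !![d₁, 0; 0, d₂] →
      fNorm s l d₁ ≠ fNorm s l d₂ →
      ∀ c : ℂ, IsTwOrbSum s 0 Φ δ₀ c →
      ∀ (B : Set k') (Y : k' → GL (Fin 2) k'), IsReprSet B →
        (∀ b : k', (Y b : Matrix (Fin 2) (Fin 2) k') = !![d₁, d₁ * s b - d₂ * b; 0, d₂]) →
        c = ∑ᶠ b ∈ B, Φ (Y b)

/-- **T6.12f (Cartan invariant of an upper triangular matrix).** -/
def CartanUpperC : Prop :=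
  ∀ (k : Type) [Field k] [Valued k Γ₀] (g : GL (Fin 2) k) (a b u : k),
    (g : Matrix (Fin 2) (Fin 2) k) = !![a, u; 0, b] →
    cartan g = (ordv a + ordv b - layerOf (ordv a) (ordv b) u, layerOf (ordv a) (ordv b) u)

/-- **T6.12g (THE JACOBIAN of `b ↦ d₁ s(b) - d₂ b`).**  For `j ≤ min(ord d₁, ord d₂)` the number
of classes `b ∈ k'/𝒪'` with `d₁ s(b) - d₂ b ∈ ϖ^j 𝒪'` is `q ^ (ord(t₁ - t₂) - l j)`, where
`t_j = N d_j`.  (Equivalent to `[𝒪' : (s - c)𝒪'] = [𝒪 : (1 - N c)𝒪]` for `c ∈ 𝒪'`, `N c ≠ 1`;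
e.g. `P ∘ (s - c) = 1 - N c` with `P = ∑_j e_j s^j`, `e_{l-1} = 1`, `e_{j-1} = e_j s^j(c)`, or
`det_k (s - c) = ± (1 - N c)`.) -/
def IndexC : Prop :=
  ∀ (k k' : Type) [Field k] [Field k'] [Valued k Γ₀] [Valued k' Γ₀] (q l : ℕ)
    (i : k →+* k') (s : k' ≃+* k'),
    IsLocalField k q → IsLocalField k' (q ^ l) → IsLocalExt k k' l 1 i s →
    ∀ (d₁ d₂ : k') (t₁ t₂ : k), d₁ ≠ 0 → d₂ ≠ 0 → t₁ ≠ t₂ →
      fNorm s l d₁ = i t₁ → fNorm s l d₂ = i t₂ →
      ∀ B : Set k', IsReprSet B →
      ∀ j : ℤ, j ≤ min (ordv d₁) (ordv d₂) →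
        {b : k' | b ∈ B ∧ (d₁ * s b - d₂ * b = 0 ∨ j ≤ ordv (d₁ * s b - d₂ * b))}.Finite ∧
        (Set.ncard {b : k' | b ∈ B ∧
            (d₁ * s b - d₂ * b = 0 ∨ j ≤ ordv (d₁ * s b - d₂ * b))} : ℂ)
          = (q : ℂ) ^ (ordv (t₁ - t₂) - (l : ℤ) * j)

/-- **T6.12h (summation over the layers).**  From `IndexC` and `CartanUpperC`:
`∑_{b ∈ k'/𝒪'} φ(cartan y_b) = q ^ ord(t₁ - t₂) · constTerm (q ^ l) φ (ord d₁) (ord d₂)`. -/
def LayerCountC : Prop :=
  ∀ (k k' : Type) [Field k] [Field k'] [Valued k Γ₀] [Valued k' Γ₀] (q l : ℕ)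
    (i : k →+* k') (s : k' ≃+* k'),
    IsLocalField k q → IsLocalField k' (q ^ l) → IsLocalExt k k' l 1 i s →
    ∀ φ : (ℤ × ℤ) →₀ ℂ,
    ∀ (d₁ d₂ : k') (t₁ t₂ : k), d₁ ≠ 0 → d₂ ≠ 0 → t₁ ≠ t₂ →
      fNorm s l d₁ = i t₁ → fNorm s l d₂ = i t₂ →
      ∀ (B : Set k') (Y : k' → GL (Fin 2) k'), IsReprSet B →
        (∀ b : k', (Y b : Matrix (Fin 2) (Fin 2) k') = !![d₁, d₁ * s b - d₂ * b; 0, d₂]) →
        ∑ᶠ b ∈ B, φ (cartan (Y b))
          = (q : ℂ) ^ (ordv (t₁ - t₂)) * constTerm (q ^ l) φ (ordv d₁) (ordv d₂)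

/-- **The twisted orbit sum at a diagonal element** (= T6.12e + T6.12h). -/
def OrbSumDiagC : Prop :=
  ∀ (k k' : Type) [Field k] [Field k'] [Valued k Γ₀] [Valued k' Γ₀] (q l : ℕ)
    (i : k →+* k') (s : k' ≃+* k'),
    IsLocalField k q → IsLocalField k' (q ^ l) → IsLocalExt k k' l 1 i s →
    ∀ φ : (ℤ × ℤ) →₀ ℂ,
    ∀ (d₁ d₂ : k') (t₁ t₂ : k) (δ₀ : GL (Fin 2) k'),
      (δ₀ : Matrix (Fin 2) (Fin 2) k') = !![d₁, 0; 0, d₂] → d₁ ≠ 0 → d₂ ≠ 0 → t₁ ≠ t₂ →
      fNorm s l d₁ = i t₁ → fNorm s l d₂ = i t₂ →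
      ∀ c : ℂ, IsTwOrbSum s 0 (fun g => φ (cartan g)) δ₀ c →
        c = (q : ℂ) ^ (ordv (t₁ - t₂)) * constTerm (q ^ l) φ (ordv d₁) (ordv d₂)

/-- **T6.12i (the spherical functions are bi-invariant).**  `cartan (u g u') = cartan g` for
`u, u' ∈ GL₂(𝒪)`. -/
def CartanInvC : Prop :=
  ∀ (k : Type) [Field k] [Valued k Γ₀] (u u' g : GL (Fin 2) k), InU 0 u → InU 0 u' →
    cartan (u * g * u') = cartan g

/-! ## Equation lemmas of `fNorm`, REALISED ONCE (ADDITIVE, row-lead helper17, 15:45Z; see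
`coord/LT-collision-helper8.md`).  Nothing above this line is changed. -/

theorem fNorm_eqns_realised : True := by
  have _h1 := @fNorm.eq_def
  have _h2 := @fNorm.eq_1
  have _h3 := @fNorm.eq_2
  trivial

end Fermat.Agent.LT.T6.H288

end

end
-- ===== PACK-END LT/T6/H288/HypSpec.lean

-- ===== PACK-BEGIN LT/T6/H423/SatFun.lean
section



/-!
# Row LT, tower T6 -- the SATAKE FUNCTIONAL (helper423), OFF-MAIN helper lemmas

Spectral half of the fundamental lemma (leaves T6.12 FLHypC, T6.13 FLEllUnrC, T6.14 FLEllRamC,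
T6.15 FLVanishC).  Mathlib + `T6/Spec.lean` only; nothing assumed.

Every orbital integral of a spherical function `f = sum f(a,b) 1_{K (a,b) K}` at a regular `gamma`
has the shape `sum_{a + b = e} f(a, b) V(a - b)` where the sequence `V` is the transform
`W[w]` (`wT` below) of a weight `w` on the monomials `x^a y^b |-> [a + b = e] w(a - b)`:

* `gamma` hyperbolic, eigenvalues of valuations `m1 != m2`, `t0 = |m1 - m2|`:
  `V(t0) = 1`, `V(t0 + 2i) = (q - 1) q^(i-1)`; this is `WH q t0` (after division by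
  `(sqrt q)^t0`, see `wH`);
* `gamma` hyperbolic, `m1 = m2`, `r = v(1 - t2/t1)`: `V(0) = q^r`, `V(2j) = (q-1) q^(r+j-1)`;
  this is `WE q (q^r) 0`;
* `gamma` elliptic, `k[gamma]` unramified, depth `r`: `V(0) = N0 = 1 + (q+1)(q^r - 1)/(q-1)`,
  `V(2j) = (q+1) q^(r+j-1)`; this is `WE q N0 1` (note `(q-1) N0 + 2 = (q+1) q^r`);
* `gamma` elliptic, `k[gamma]` ramified: `V(0) = N0 = (q^(rho+1) - 1)/(q-1)`,
  `V(2j) = q^(rho+j)`, `V(2i+1) = q^i`; this is `WE q N0 (1/2)`.

The twisted orbital integrals over the unramified extension of degree `l` have the same shape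
with `q^l` in place of `q`, the SAME `N0` and `c`, and `t0/l`, `e/l` in place of `t0`, `e`.
The theorems `fl_functional_E`, `fl_functional_H`, `fl_vanish_E`, `fl_vanish_H`, `support_dvd`
then give the equality of the two sides from `IsBC` alone.  What is left for the leaf owners is
the two COUNTS (tree / lattice counts) identifying the orbit sums with these shapes.

Main statements: `satPoly_closed`, `ev_eq_zero`, `cf_of_isBC`, `bc_functional`, `bc_graded`,
`bc_graded_not_dvd`, `wT_wE`, `wT_wH`, `fl_functional_E`, `fl_functional_H`, `fl_vanish_E`,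
`fl_vanish_H`, `support_dvd`.
-/

set_option autoImplicit false

noncomputable section

namespace Fermat.Agent.LT.T6.H423

open Fermat.Agent.LT.T6 Finset

/-! ## 1. The constant `√q` -/

/-- `√q` as a complex number (the constant occurring in `satPoly`). -/
def sq (q : ℕ) : ℂ := ((Real.sqrt q : ℝ) : ℂ)

theorem sq_mul_self (q : ℕ) : sq q * sq q = (q : ℂ) := by
  unfold sq
  rw [← Complex.ofReal_mul, Real.mul_self_sqrt (Nat.cast_nonneg q)]
  simp

theorem sq_sq (q : ℕ) : sq q ^ 2 = (q : ℂ) := by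
  rw [pow_two, sq_mul_self]

theorem sq_pow (q l : ℕ) : sq (q ^ l) = sq q ^ l := by
  unfold sq
  rw [← Complex.ofReal_pow]
  congr 1
  rw [Real.sqrt_eq_iff_mul_self_eq (by positivity) (by positivity), ← mul_pow,
    Real.mul_self_sqrt (Nat.cast_nonneg q)]
  push_cast
  rfl

theorem sq_ne_zero {q : ℕ} (hq : 0 < q) : sq q ≠ 0 := by
  intro h
  have := sq_mul_self q
  rw [h, mul_zero] at this
  have h2 : (q : ℂ) ≠ 0 := by exact_mod_cast hq.ne'
  exact h2 this.symm

theorem sq_pow_two_mul (q j : ℕ) : sq q ^ (2 * j) = (q : ℂ) ^ j := by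
  rw [pow_mul, sq_sq]

/-! ## 2. Closed form of `satPoly` -/

/-- The complete homogeneous polynomial `h_n(x, y) = ∑_{i ≤ n} x^i y^(n-i)`. -/
def hh (x y : ℂ) (n : ℕ) : ℂ := ∑ i ∈ range (n + 1), x ^ i * y ^ (n - i)

theorem hh_zero (x y : ℂ) : hh x y 0 = 1 := by simp [hh]

theorem hh_one (x y : ℂ) : hh x y 1 = x + y := by
  simp [hh, Finset.sum_range_succ, add_comm]

theorem hh_succ (x y : ℂ) (n : ℕ) : hh x y (n + 1) = x * hh x y n + y ^ (n + 1) := by
  unfold hh
  rw [Finset.sum_range_succ' _ (n + 1), Finset.mul_sum]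
  simp only [pow_zero, one_mul, Nat.sub_zero, Nat.add_sub_add_right]
  congr 1
  apply Finset.sum_congr rfl
  intro i _
  ring

theorem hh_mul (x y : ℂ) (n : ℕ) :
    (x + y) * hh x y (n + 1) = hh x y (n + 2) + x * y * hh x y n := by
  rw [hh_succ x y (n + 1)]
  have h := hh_succ x y n
  rw [add_mul, h]
  ring

/-- Closed form of the Satake polynomial:
`Σ_{n+2} = (√q)^(n+2) h_{n+2} - (√q)^n · xy · h_n`. -/
theorem satPoly_closed (q : ℕ) (x y : ℂ) :
    ∀ n : ℕ, satPoly q x y (n + 2)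
      = sq q ^ (n + 2) * hh x y (n + 2) - sq q ^ n * (x * y) * hh x y n
  | 0 => by
      have h2 : hh x y 2 = x ^ 2 + x * y + y ^ 2 := by
        rw [hh_succ, hh_one]; ring
      have hs := sq_sq q
      show (sq q * (x + y)) ^ 2 - ((q : ℂ) + 1) * (x * y) = _
      rw [h2, hh_zero, ← hs]
      ring
  | 1 => by
      have h0 := satPoly_closed q x y 0
      have hm := hh_mul x y 1
      have hm0 := hh_mul x y 0
      have hs := sq_sq q
      show sq q * (x + y) * satPoly q x y 2 - (q : ℂ) * (x * y) * (sq q * (x + y)) = _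
      rw [h0, ← hs]
      rw [hh_one] at hm0 hm ⊢
      rw [hh_zero] at hm0 ⊢
      have e3 : hh x y 3 = (x + y) * hh x y 2 - x * y * (x + y) := by
        rw [hm]; ring
      rw [e3]
      ring
  | (n + 2) => by
      have h0 := satPoly_closed q x y n
      have h1 := satPoly_closed q x y (n + 1)
      have hs := sq_sq q
      show sq q * (x + y) * satPoly q x y (n + 1 + 2)
          - (q : ℂ) * (x * y) * satPoly q x y (n + 2) = _
      rw [h0, h1, ← hs]
      have hm1 := hh_mul x y (n + 2)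
      have hm2 := hh_mul x y n
      have e4 : hh x y (n + 2 + 2) = (x + y) * hh x y (n + 1 + 2) - x * y * hh x y (n + 2) := by
        rw [show n + 1 + 2 = n + 2 + 1 from rfl, hm1]; ring
      have e2 : hh x y (n + 2) = (x + y) * hh x y (n + 1) - x * y * hh x y n := by
        rw [hm2]; ring
      rw [e4]
      have e2' : sq q ^ (n + 2) * (x * y) * hh x y (n + 2)
          = sq q ^ (n + 2) * (x * y) * ((x + y) * hh x y (n + 1) - x * y * hh x y n) := by
        rw [← e2]
      rw [e2']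
      ring


/-! ## 3. Laurent polynomials in `x, y` as coefficient vectors; linear functionals -/

/-- The linear functional on Laurent polynomials (coefficient vectors) with value `Ω p` on the
monomial `x^p.1 y^p.2`. -/
def fn (Ω : ℤ × ℤ → ℂ) (c : (ℤ × ℤ) →₀ ℂ) : ℂ := c.sum fun p v => v * Ω p

theorem fn_add (Ω : ℤ × ℤ → ℂ) (c c' : (ℤ × ℤ) →₀ ℂ) : fn Ω (c + c') = fn Ω c + fn Ω c' := by
  unfold fn
  rw [Finsupp.sum_add_index'] <;> intros <;> ring

theorem fn_smul (Ω : ℤ × ℤ → ℂ) (a : ℂ) (c : (ℤ × ℤ) →₀ ℂ) : fn Ω (a • c) = a * fn Ω c := by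
  unfold fn
  rw [Finsupp.sum_smul_index' (by intros; ring), Finsupp.mul_sum]
  apply Finsupp.sum_congr
  intro p _
  simp only [smul_eq_mul]
  ring

theorem fn_neg (Ω : ℤ × ℤ → ℂ) (c : (ℤ × ℤ) →₀ ℂ) : fn Ω (-c) = - fn Ω c := by
  have := fn_smul Ω (-1) c
  simpa using this

theorem fn_sub (Ω : ℤ × ℤ → ℂ) (c c' : (ℤ × ℤ) →₀ ℂ) : fn Ω (c - c') = fn Ω c - fn Ω c' := by
  rw [sub_eq_add_neg, fn_add, fn_neg, sub_eq_add_neg]

theorem fn_zero (Ω : ℤ × ℤ → ℂ) : fn Ω 0 = 0 := by
  simp [fn]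

theorem fn_single (Ω : ℤ × ℤ → ℂ) (p : ℤ × ℤ) (v : ℂ) : fn Ω (Finsupp.single p v) = v * Ω p := by
  unfold fn
  rw [Finsupp.sum_single_index]
  ring

theorem fn_finset_sum (Ω : ℤ × ℤ → ℂ) {ι : Type} (s : Finset ι) (g : ι → (ℤ × ℤ) →₀ ℂ) :
    fn Ω (∑ i ∈ s, g i) = ∑ i ∈ s, fn Ω (g i) := by
  classical
  induction s using Finset.induction_on with
  | empty => simp [fn_zero]
  | insert a s ha ih => rw [Finset.sum_insert ha, Finset.sum_insert ha, fn_add, ih]

theorem fn_finsupp_sum (Ω : ℤ × ℤ → ℂ) (F : (ℤ × ℤ) →₀ ℂ) (g : ℤ × ℤ → ℂ → (ℤ × ℤ) →₀ ℂ) :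
    fn Ω (F.sum g) = F.sum fun lam c => fn Ω (g lam c) := by
  unfold Finsupp.sum
  exact fn_finset_sum Ω _ _

theorem fn_mapDomain (Ω : ℤ × ℤ → ℂ) (g : ℤ × ℤ → ℤ × ℤ) (c : (ℤ × ℤ) →₀ ℂ) :
    fn Ω (Finsupp.mapDomain g c) = fn (fun p => Ω (g p)) c := by
  unfold fn
  rw [Finsupp.sum_mapDomain_index] <;> intros <;> ring

theorem fn_zero_fun (c : (ℤ × ℤ) →₀ ℂ) : fn (fun _ => 0) c = 0 := by
  simp [fn]

/-- The monomial `x^a y^b` (integer exponents). -/
def mono (x y : ℂ) (p : ℤ × ℤ) : ℂ := x ^ p.1 * y ^ p.2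

/-- The value at `(x, y)` of the Laurent polynomial with coefficient vector `c`. -/
def ev (c : (ℤ × ℤ) →₀ ℂ) (x y : ℂ) : ℂ := fn (mono x y) c

/-- The substitution `(x, y) ↦ (x^l, y^l)` on coefficient vectors. -/
def dil (l : ℕ) (c : (ℤ × ℤ) →₀ ℂ) : (ℤ × ℤ) →₀ ℂ :=
  Finsupp.mapDomain (fun p : ℤ × ℤ => ((l : ℤ) * p.1, (l : ℤ) * p.2)) c

theorem fn_dil (Ω : ℤ × ℤ → ℂ) (l : ℕ) (c : (ℤ × ℤ) →₀ ℂ) :
    fn Ω (dil l c) = fn (fun p => Ω ((l : ℤ) * p.1, (l : ℤ) * p.2)) c :=
  fn_mapDomain Ω _ c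

theorem ev_dil (l : ℕ) (c : (ℤ × ℤ) →₀ ℂ) (x y : ℂ) : ev (dil l c) x y = ev c (x ^ l) (y ^ l) := by
  unfold ev
  rw [fn_dil]
  congr 1
  funext p
  simp only [mono]
  rw [zpow_mul, zpow_mul, zpow_natCast, zpow_natCast]

/-- The character `(x, y) ↦ x^a y^b` of `ℂˣ × ℂˣ`. -/
def chr (p : ℤ × ℤ) : (ℂˣ × ℂˣ) →* ℂ where
  toFun g := ((g.1 ^ p.1 * g.2 ^ p.2 : ℂˣ) : ℂ)
  map_one' := by simp
  map_mul' g g' := by
    simp only [Prod.fst_mul, Prod.snd_mul, mul_zpow, Units.val_mul]
    ring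

theorem chr_apply (p : ℤ × ℤ) (x y : ℂ) (hx : x ≠ 0) (hy : y ≠ 0) :
    chr p (Units.mk0 x hx, Units.mk0 y hy) = mono x y p := by
  simp [chr, mono]

theorem two_zpow_inj {a b : ℤ} (h : (2 : ℂ) ^ a = (2 : ℂ) ^ b) : a = b := by
  have h' : ((2 : ℝ) ^ a : ℝ) = (2 : ℝ) ^ b := by
    have : (((2 : ℝ) ^ a : ℝ) : ℂ) = (((2 : ℝ) ^ b : ℝ) : ℂ) := by
      push_cast
      exact h
    exact_mod_cast this
  exact zpow_right_injective₀ (by norm_num : (0 : ℝ) < 2) (by norm_num) h'

theorem chr_injective : Function.Injective chr := by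
  intro p p' h
  have h1 := DFunLike.congr_fun h (Units.mk0 (2 : ℂ) two_ne_zero, Units.mk0 (1 : ℂ) one_ne_zero)
  have h2 := DFunLike.congr_fun h (Units.mk0 (1 : ℂ) one_ne_zero, Units.mk0 (2 : ℂ) two_ne_zero)
  rw [chr_apply, chr_apply] at h1 h2
  simp only [mono, one_zpow, mul_one, one_mul] at h1 h2
  exact Prod.ext (two_zpow_inj h1) (two_zpow_inj h2)

/-- **Coefficient comparison.**  A Laurent polynomial vanishing on `ℂˣ × ℂˣ` is zero
(Dedekind's independence of characters). -/
theorem ev_eq_zero (c : (ℤ × ℤ) →₀ ℂ) (h : ∀ x y : ℂ, x ≠ 0 → y ≠ 0 → ev c x y = 0) : c = 0 := by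
  have hli : LinearIndependent ℂ (fun p : ℤ × ℤ => (chr p : (ℂˣ × ℂˣ) → ℂ)) :=
    (linearIndependent_monoidHom (ℂˣ × ℂˣ) ℂ).comp chr chr_injective
  rw [linearIndependent_iff] at hli
  apply hli c
  funext g
  rw [Finsupp.linearCombination_apply]
  have hg := h (g.1 : ℂ) (g.2 : ℂ) g.1.ne_zero g.2.ne_zero
  unfold ev fn at hg
  unfold Finsupp.sum at hg ⊢
  rw [Finset.sum_apply]
  simp only [Pi.zero_apply, Pi.smul_apply, smul_eq_mul]
  rw [← hg]
  apply Finset.sum_congr rfl
  intro p _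
  congr 1
  have := chr_apply p (g.1 : ℂ) (g.2 : ℂ) g.1.ne_zero g.2.ne_zero
  rw [← this]
  congr 1
  exact Prod.ext (Units.ext rfl) (Units.ext rfl)

theorem ev_ext (c c' : (ℤ × ℤ) →₀ ℂ)
    (h : ∀ x y : ℂ, x ≠ 0 → y ≠ 0 → ev c x y = ev c' x y) : c = c' := by
  rw [← sub_eq_zero]
  apply ev_eq_zero
  intro x y hx hy
  unfold ev at h ⊢
  rw [fn_sub, h x y hx hy, sub_self]

/-! ## 4. The coefficient vector of the Satake transform -/

/-- The coefficient vector of `(xy)^b h_n(x, y)`. -/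
def hC (b : ℤ) (n : ℕ) : (ℤ × ℤ) →₀ ℂ :=
  ∑ i ∈ range (n + 1), Finsupp.single (b + (i : ℤ), b + ((n - i : ℕ) : ℤ)) 1

theorem fn_hC (Ω : ℤ × ℤ → ℂ) (b : ℤ) (n : ℕ) :
    fn Ω (hC b n) = ∑ i ∈ range (n + 1), Ω (b + (i : ℤ), b + ((n - i : ℕ) : ℤ)) := by
  unfold hC
  rw [fn_finset_sum]
  apply Finset.sum_congr rfl
  intro i _
  rw [fn_single, one_mul]

theorem ev_hC (b : ℤ) (n : ℕ) (x y : ℂ) (hx : x ≠ 0) (hy : y ≠ 0) :
    ev (hC b n) x y = (x * y) ^ b * hh x y n := by
  unfold ev
  rw [fn_hC]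
  unfold hh
  rw [Finset.mul_sum]
  apply Finset.sum_congr rfl
  intro i _
  simp only [mono]
  rw [zpow_add₀ hx, zpow_add₀ hy, mul_zpow, zpow_natCast, zpow_natCast]
  ring

/-- The coefficient vector of the Satake transform of `1_{K λ K}`, `λ = (a, b)`, `n = a - b`:
`(xy)^b ((√q)^n h_n - (√q)^(n-2) xy h_(n-2))` (second term only for `n ≥ 2`). -/
def satC (q : ℕ) (lam : ℤ × ℤ) : (ℤ × ℤ) →₀ ℂ :=
  sq q ^ (lam.1 - lam.2).toNat • hC lam.2 (lam.1 - lam.2).toNat
    - (if 2 ≤ (lam.1 - lam.2).toNat then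
        sq q ^ ((lam.1 - lam.2).toNat - 2) • hC (lam.2 + 1) ((lam.1 - lam.2).toNat - 2)
      else 0)

theorem ev_satC (q : ℕ) (lam : ℤ × ℤ) (x y : ℂ) (hx : x ≠ 0) (hy : y ≠ 0) :
    ev (satC q lam) x y = satake q lam x y := by
  have hxy : x * y ≠ 0 := mul_ne_zero hx hy
  unfold satC satake
  generalize (lam.1 - lam.2).toNat = n
  have key : ∀ c c' : (ℤ × ℤ) →₀ ℂ, ev (c - c') x y = ev c x y - ev c' x y :=
    fun c c' => fn_sub _ c c'
  have keys : ∀ (a : ℂ) (c : (ℤ × ℤ) →₀ ℂ), ev (a • c) x y = a * ev c x y :=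
    fun a c => fn_smul _ a c
  rw [key, keys, ev_hC _ _ _ _ hx hy]
  rcases n with _ | _ | n
  · have h0 : ev (0 : (ℤ × ℤ) →₀ ℂ) x y = 0 := fn_zero _
    simp [hh_zero, satPoly, h0]
  · have h0 : ev (0 : (ℤ × ℤ) →₀ ℂ) x y = 0 := fn_zero _
    simp only [zero_add, pow_one, hh_one, show ¬ (2 ≤ 1) by norm_num, if_false, h0, sub_zero]
    show _ = (x * y) ^ lam.2 * (sq q * (x + y))
    ring
  · rw [if_pos (by omega), keys, ev_hC _ _ _ _ hx hy, satPoly_closed, zpow_add_one₀ hxy]
    have e : n + 1 + 1 - 2 = n := by omega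
    rw [e]
    ring

/-- The coefficient vector of the Satake transform of the spherical function `F`. -/
def cf (q : ℕ) (F : (ℤ × ℤ) →₀ ℂ) : (ℤ × ℤ) →₀ ℂ := F.sum fun lam c => c • satC q lam

theorem fn_cf (Ω : ℤ × ℤ → ℂ) (q : ℕ) (F : (ℤ × ℤ) →₀ ℂ) :
    fn Ω (cf q F) = F.sum fun lam c => c * fn Ω (satC q lam) := by
  unfold cf
  rw [fn_finsupp_sum]
  apply Finsupp.sum_congr
  intro lam _
  rw [fn_smul]

theorem ev_cf (q : ℕ) (F : (ℤ × ℤ) →₀ ℂ) (x y : ℂ) (hx : x ≠ 0) (hy : y ≠ 0) :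
    ev (cf q F) x y = F.sum fun lam c => c * satake q lam x y := by
  unfold ev
  rw [fn_cf]
  apply Finsupp.sum_congr
  intro lam _
  have := ev_satC q lam x y hx hy
  unfold ev at this
  rw [this]

/-- **Base change as an identity of Laurent polynomials.** -/
theorem cf_of_isBC {l q : ℕ} {φ f : (ℤ × ℤ) →₀ ℂ} (h : IsBC l q φ f) :
    cf q f = dil l (cf (q ^ l) φ) := by
  apply ev_ext
  intro x y hx hy
  rw [ev_dil, ev_cf q f x y hx hy, ev_cf (q ^ l) φ _ _ (pow_ne_zero l hx) (pow_ne_zero l hy)]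
  exact h x y hx hy

/-! ## 5. The general functional identity -/

/-- The value of the functional `Ω` on the Satake transform of `1_{K λ K}`. -/
def satW (q : ℕ) (Ω : ℤ × ℤ → ℂ) (lam : ℤ × ℤ) : ℂ := fn Ω (satC q lam)

/-- **General functional identity.**  If `f = b(φ)` then for EVERY function `Ω` on the
monomials: `∑ f(λ) Ω(Sat_q λ) = ∑ φ(λ') Ω_l(Sat_{q^l} λ')`, `Ω_l(x^a y^b) = Ω(x^{la} y^{lb})`. -/
theorem bc_functional {l q : ℕ} {φ f : (ℤ × ℤ) →₀ ℂ} (h : IsBC l q φ f) (Ω : ℤ × ℤ → ℂ) :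
    (f.sum fun lam c => c * satW q Ω lam)
      = φ.sum fun lam c => c * satW (q ^ l) (fun p => Ω ((l : ℤ) * p.1, (l : ℤ) * p.2)) lam := by
  have h1 := fn_cf Ω q f
  have h2 := fn_cf (fun p => Ω ((l : ℤ) * p.1, (l : ℤ) * p.2)) (q ^ l) φ
  unfold satW
  rw [← h1, ← h2, cf_of_isBC h, fn_dil]

/-- Explicit form of `satW`. -/
theorem satW_eq (q : ℕ) (Ω : ℤ × ℤ → ℂ) (lam : ℤ × ℤ) :
    satW q Ω lam
      = sq q ^ (lam.1 - lam.2).toNat
          * ∑ i ∈ range ((lam.1 - lam.2).toNat + 1),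
              Ω (lam.2 + (i : ℤ), lam.2 + (((lam.1 - lam.2).toNat - i : ℕ) : ℤ))
        - (if 2 ≤ (lam.1 - lam.2).toNat then
            sq q ^ ((lam.1 - lam.2).toNat - 2)
              * ∑ i ∈ range ((lam.1 - lam.2).toNat - 2 + 1),
                  Ω (lam.2 + 1 + (i : ℤ), lam.2 + 1 + (((lam.1 - lam.2).toNat - 2 - i : ℕ) : ℤ))
          else 0) := by
  unfold satW satC
  rw [fn_sub, fn_smul, fn_hC]
  congr 1
  split_ifs
  · rw [fn_smul, fn_hC]
  · exact fn_zero Ω


/-! ## 6. Graded functionals `x^a y^b ↦ [a + b = e] · w(a - b)` -/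

/-- The graded functional: `x^a y^b ↦ w(a - b)` if `a + b = e`, and `0` otherwise. -/
def gr (e : ℤ) (w : ℤ → ℂ) (p : ℤ × ℤ) : ℂ := if p.1 + p.2 = e then w (p.1 - p.2) else 0

/-- `A_n = (√q)^n ∑_{i ≤ n} w(2i - n)`: the value of `w` on `(√q)^n h_n`. -/
def aSum (q : ℕ) (w : ℤ → ℂ) (n : ℕ) : ℂ :=
  sq q ^ n * ∑ i ∈ range (n + 1), w (2 * (i : ℤ) - (n : ℤ))

/-- `W_n = A_n - A_{n-2}` (`W_n = A_n` for `n ≤ 1`): the value of `w` on the Satake polynomial
of the sphere of radius `n`. -/
def wT (q : ℕ) (w : ℤ → ℂ) (n : ℕ) : ℂ := aSum q w n - (if 2 ≤ n then aSum q w (n - 2) else 0)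

theorem satW_gr (q : ℕ) (e : ℤ) (w : ℤ → ℂ) (lam : ℤ × ℤ) (hlam : lam.2 ≤ lam.1) :
    satW q (gr e w) lam = if lam.1 + lam.2 = e then wT q w (lam.1 - lam.2).toNat else 0 := by
  rw [satW_eq]
  have hn : (((lam.1 - lam.2).toNat : ℕ) : ℤ) = lam.1 - lam.2 := Int.toNat_of_nonneg (by omega)
  generalize (lam.1 - lam.2).toNat = n at hn
  have e1 : ∀ i ∈ range (n + 1),
      gr e w (lam.2 + (i : ℤ), lam.2 + ((n - i : ℕ) : ℤ))
        = if lam.1 + lam.2 = e then w (2 * (i : ℤ) - (n : ℤ)) else 0 := by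
    intro i hi
    have hi' : i ≤ n := by
      have := Finset.mem_range.mp hi
      omega
    have hc : ((n - i : ℕ) : ℤ) = (n : ℤ) - (i : ℤ) := by omega
    unfold gr
    simp only
    rw [hc]
    have ha : lam.2 + (i : ℤ) + (lam.2 + ((n : ℤ) - (i : ℤ))) = lam.1 + lam.2 := by omega
    have hb : lam.2 + (i : ℤ) - (lam.2 + ((n : ℤ) - (i : ℤ))) = 2 * (i : ℤ) - (n : ℤ) := by omega
    rw [ha, hb]
  have e2 : 2 ≤ n → ∀ i ∈ range (n - 2 + 1),
      gr e w (lam.2 + 1 + (i : ℤ), lam.2 + 1 + ((n - 2 - i : ℕ) : ℤ))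
        = if lam.1 + lam.2 = e then w (2 * (i : ℤ) - ((n - 2 : ℕ) : ℤ)) else 0 := by
    intro h2 i hi
    have hi' : i ≤ n - 2 := by
      have := Finset.mem_range.mp hi
      omega
    have hc : ((n - 2 - i : ℕ) : ℤ) = (n : ℤ) - 2 - (i : ℤ) := by omega
    have hc2 : ((n - 2 : ℕ) : ℤ) = (n : ℤ) - 2 := by omega
    unfold gr
    simp only
    rw [hc, hc2]
    have ha : lam.2 + 1 + (i : ℤ) + (lam.2 + 1 + ((n : ℤ) - 2 - (i : ℤ))) = lam.1 + lam.2 := by
      omega
    have hb : lam.2 + 1 + (i : ℤ) - (lam.2 + 1 + ((n : ℤ) - 2 - (i : ℤ)))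
        = 2 * (i : ℤ) - ((n : ℤ) - 2) := by omega
    rw [ha, hb]
  rw [Finset.sum_congr rfl e1]
  by_cases he : lam.1 + lam.2 = e
  · simp only [he, if_true]
    unfold wT aSum
    congr 1
    split_ifs with h2
    · rw [Finset.sum_congr rfl (e2 h2)]
      simp only [he, if_true]
    · rfl
  · simp only [he, if_false, Finset.sum_const_zero, mul_zero, zero_sub, neg_eq_zero]
    split_ifs with h2
    · rw [Finset.sum_congr rfl (e2 h2)]
      simp [he]
    · rfl

/-- **Graded functional identity, degree divisible by `l`.**  For `f = b(φ)` (`φ`, `f` dominant),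
every weight `w` and every degree `d`:
`∑_{a + b = l d} f(a, b) W_q[w](a - b) = ∑_{a' + b' = d} φ(a', b') W_{q^l}[w(l ·)](a' - b')`. -/
theorem bc_graded {l q : ℕ} (hl : 0 < l) {φ f : (ℤ × ℤ) →₀ ℂ} (h : IsBC l q φ f)
    (hφ : IsDominant φ) (hf : IsDominant f) (d : ℤ) (w : ℤ → ℂ) :
    (f.sum fun lam c =>
        if lam.1 + lam.2 = (l : ℤ) * d then c * wT q w (lam.1 - lam.2).toNat else 0)
      = φ.sum fun lam c =>
        if lam.1 + lam.2 = d then
          c * wT (q ^ l) (fun t => w ((l : ℤ) * t)) (lam.1 - lam.2).toNat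
        else 0 := by
  have hmain := bc_functional h (gr ((l : ℤ) * d) w)
  have hl' : ((l : ℤ)) ≠ 0 := by exact_mod_cast hl.ne'
  have hgr : (fun p : ℤ × ℤ => gr ((l : ℤ) * d) w ((l : ℤ) * p.1, (l : ℤ) * p.2))
      = gr d (fun t => w ((l : ℤ) * t)) := by
    funext p
    unfold gr
    simp only
    have e1 : ((l : ℤ) * p.1 + (l : ℤ) * p.2 = (l : ℤ) * d) ↔ (p.1 + p.2 = d) := by
      rw [← mul_add]
      exact ⟨fun hh => mul_left_cancel₀ hl' hh, fun hh => by rw [hh]⟩
    have e2 : (l : ℤ) * p.1 - (l : ℤ) * p.2 = (l : ℤ) * (p.1 - p.2) := by ring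
    rw [e2]
    by_cases hp : p.1 + p.2 = d
    · rw [if_pos (e1.mpr hp), if_pos hp]
    · rw [if_neg (fun hh => hp (e1.mp hh)), if_neg hp]
  rw [hgr] at hmain
  have lhs : (f.sum fun lam c =>
        if lam.1 + lam.2 = (l : ℤ) * d then c * wT q w (lam.1 - lam.2).toNat else 0)
      = f.sum fun lam c => c * satW q (gr ((l : ℤ) * d) w) lam := by
    apply Finsupp.sum_congr
    intro lam hlam
    rw [satW_gr q _ w lam (hf lam hlam)]
    split_ifs <;> simp
  have rhs : (φ.sum fun lam c =>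
        if lam.1 + lam.2 = d then
          c * wT (q ^ l) (fun t => w ((l : ℤ) * t)) (lam.1 - lam.2).toNat
        else 0)
      = φ.sum fun lam c => c * satW (q ^ l) (gr d (fun t => w ((l : ℤ) * t))) lam := by
    apply Finsupp.sum_congr
    intro lam hlam
    rw [satW_gr (q ^ l) _ _ lam (hφ lam hlam)]
    split_ifs <;> simp
  rw [lhs, rhs]
  exact hmain

/-- **Graded functional identity, degree NOT divisible by `l`**: the left side vanishes. -/
theorem bc_graded_not_dvd {l q : ℕ} {φ f : (ℤ × ℤ) →₀ ℂ} (h : IsBC l q φ f)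
    (hf : IsDominant f) (e : ℤ) (he : ¬ (l : ℤ) ∣ e) (w : ℤ → ℂ) :
    (f.sum fun lam c =>
        if lam.1 + lam.2 = e then c * wT q w (lam.1 - lam.2).toNat else 0) = 0 := by
  have hmain := bc_functional h (gr e w)
  have hgr : (fun p : ℤ × ℤ => gr e w ((l : ℤ) * p.1, (l : ℤ) * p.2)) = fun _ => 0 := by
    funext p
    unfold gr
    simp only
    rw [if_neg]
    intro hh
    apply he
    rw [← hh, ← mul_add]
    exact dvd_mul_right _ _
  rw [hgr] at hmain
  have lhs : (f.sum fun lam c =>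
        if lam.1 + lam.2 = e then c * wT q w (lam.1 - lam.2).toNat else 0)
      = f.sum fun lam c => c * satW q (gr e w) lam := by
    apply Finsupp.sum_congr
    intro lam hlam
    rw [satW_gr q _ w lam (hf lam hlam)]
    split_ifs <;> simp
  rw [lhs, hmain]
  unfold satW
  simp [fn_zero_fun, Finsupp.sum]

/-- Recursion for `A_n`: `A_{n+2} = q A_n + (√q)^(n+2) (w(-(n+2)) + w(n+2))`. -/
theorem aSum_succ_succ (q : ℕ) (w : ℤ → ℂ) (n : ℕ) :
    aSum q w (n + 2)
      = (q : ℂ) * aSum q w n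
        + sq q ^ (n + 2) * (w (-((n : ℤ) + 2)) + w ((n : ℤ) + 2)) := by
  unfold aSum
  rw [Finset.sum_range_succ, Finset.sum_range_succ']
  have e1 : ∀ i ∈ range (n + 1),
      w (2 * ((i + 1 : ℕ) : ℤ) - ((n + 2 : ℕ) : ℤ)) = w (2 * (i : ℤ) - (n : ℤ)) := by
    intro i _
    congr 1
    push_cast
    ring
  rw [Finset.sum_congr rfl e1]
  have e2 : (2 * ((0 : ℕ) : ℤ) - ((n + 2 : ℕ) : ℤ)) = -((n : ℤ) + 2) := by
    push_cast; ring
  have e3 : (2 * ((n + 2 : ℕ) : ℤ) - ((n + 2 : ℕ) : ℤ)) = (n : ℤ) + 2 := by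
    push_cast; ring
  rw [e2, e3, ← sq_sq q]
  ring

theorem aSum_zero (q : ℕ) (w : ℤ → ℂ) : aSum q w 0 = w 0 := by
  simp [aSum]

theorem aSum_one (q : ℕ) (w : ℤ → ℂ) : aSum q w 1 = sq q * (w (-1) + w 1) := by
  unfold aSum
  rw [Finset.sum_range_succ, Finset.sum_range_succ, Finset.sum_range_zero]
  norm_num

theorem wT_zero (q : ℕ) (w : ℤ → ℂ) : wT q w 0 = w 0 := by
  simp [wT, aSum_zero]

theorem wT_one (q : ℕ) (w : ℤ → ℂ) : wT q w 1 = sq q * (w (-1) + w 1) := by
  simp [wT, aSum_one]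

theorem wT_succ_succ (q : ℕ) (w : ℤ → ℂ) (n : ℕ) :
    wT q w (n + 2) = aSum q w (n + 2) - aSum q w n := by
  unfold wT
  rw [if_pos (by omega)]
  rfl


theorem wT_zero_fun (q : ℕ) (n : ℕ) : wT q (fun _ => 0) n = 0 := by
  simp [wT, aSum]

/-! ## 7. The elliptic family of weights

`w(0) = N₀`, `w(t) = c (√q)^{-|t|}` (`t ≠ 0`).
* `c = 1`, `N₀ = 1 + (q + 1)(q^r - 1)/(q - 1)`: `γ` elliptic, `k[γ]` unramified, depth `r`;
* `c = 1/2`, `N₀ = (q^(ρ+1) - 1)/(q - 1)`: `γ` elliptic, `k[γ]` ramified;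
* `c = 0`, `N₀ = q^r`: `γ` hyperbolic with eigenvalues of the same valuation. -/

/-- The elliptic weight. -/
def wE (q : ℕ) (N0 c : ℂ) (t : ℤ) : ℂ := if t = 0 then N0 else c * (sq q ^ t.natAbs)⁻¹

/-- The values of the elliptic weight on the Satake polynomials:
`W_0 = N₀`, `W_{2j} = q^{j-1} ((q - 1) N₀ + 2c)` (`j ≥ 1`), `W_{2j+1} = 2 c q^j`. -/
def WE (q : ℕ) (N0 c : ℂ) (n : ℕ) : ℂ :=
  if n = 0 then N0
  else if n % 2 = 0 then (q : ℂ) ^ (n / 2 - 1) * (((q : ℂ) - 1) * N0 + 2 * c)
  else 2 * c * (q : ℂ) ^ (n / 2)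

theorem wE_dil (q l : ℕ) (hl : 0 < l) (N0 c : ℂ) :
    (fun t : ℤ => wE q N0 c ((l : ℤ) * t)) = wE (q ^ l) N0 c := by
  funext t
  unfold wE
  by_cases ht : t = 0
  · simp [ht]
  · have hl' : (l : ℤ) ≠ 0 := by exact_mod_cast hl.ne'
    have : (l : ℤ) * t ≠ 0 := mul_ne_zero hl' ht
    rw [if_neg this, if_neg ht, sq_pow, Int.natAbs_mul, Int.natAbs_natCast, pow_mul]

theorem aSum_wE_succ_succ {q : ℕ} (hq : 0 < q) (N0 c : ℂ) (n : ℕ) :
    aSum q (wE q N0 c) (n + 2) = (q : ℂ) * aSum q (wE q N0 c) n + 2 * c := by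
  rw [aSum_succ_succ]
  have h1 : (-((n : ℤ) + 2)) ≠ 0 := by omega
  have h2 : ((n : ℤ) + 2) ≠ 0 := by omega
  have a1 : (-((n : ℤ) + 2)).natAbs = n + 2 := by omega
  have a2 : ((n : ℤ) + 2).natAbs = n + 2 := by omega
  unfold wE
  rw [if_neg h1, if_neg h2, a1, a2]
  have hs : sq q ^ (n + 2) ≠ 0 := pow_ne_zero _ (sq_ne_zero hq)
  field_simp
  ring

theorem wT_wE_zero (q : ℕ) (N0 c : ℂ) : wT q (wE q N0 c) 0 = N0 := by
  rw [wT_zero]
  simp [wE]

theorem wT_wE_one {q : ℕ} (hq : 0 < q) (N0 c : ℂ) : wT q (wE q N0 c) 1 = 2 * c := by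
  rw [wT_one]
  have hs : sq q ≠ 0 := sq_ne_zero hq
  simp only [wE]
  norm_num
  field_simp
  ring

theorem wT_wE_two {q : ℕ} (hq : 0 < q) (N0 c : ℂ) :
    wT q (wE q N0 c) 2 = ((q : ℂ) - 1) * N0 + 2 * c := by
  rw [wT_succ_succ, aSum_wE_succ_succ hq, aSum_zero]
  simp only [wE, if_true]
  ring

theorem wT_wE_three {q : ℕ} (hq : 0 < q) (N0 c : ℂ) :
    wT q (wE q N0 c) 3 = 2 * c * (q : ℂ) := by
  have h1 := wT_wE_one hq N0 c
  rw [wT_one] at h1
  rw [wT_succ_succ, aSum_wE_succ_succ hq, aSum_one, h1]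
  ring

theorem wT_wE_add_four {q : ℕ} (hq : 0 < q) (N0 c : ℂ) (n : ℕ) :
    wT q (wE q N0 c) (n + 4) = (q : ℂ) * wT q (wE q N0 c) (n + 2) := by
  rw [wT_succ_succ q _ (n + 2), wT_succ_succ, aSum_wE_succ_succ hq N0 c (n + 2),
    aSum_wE_succ_succ hq N0 c n]
  ring

theorem wT_wE_even {q : ℕ} (hq : 0 < q) (N0 c : ℂ) (j : ℕ) :
    wT q (wE q N0 c) (2 * j + 2) = (q : ℂ) ^ j * (((q : ℂ) - 1) * N0 + 2 * c) := by
  induction j with
  | zero => simp [wT_wE_two hq]
  | succ j ih =>
      rw [show 2 * (j + 1) + 2 = (2 * j) + 4 by ring, wT_wE_add_four hq, ih]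
      ring

theorem wT_wE_odd {q : ℕ} (hq : 0 < q) (N0 c : ℂ) (j : ℕ) :
    wT q (wE q N0 c) (2 * j + 1) = 2 * c * (q : ℂ) ^ j := by
  rcases j with _ | j
  · simp [wT_wE_one hq]
  · induction j with
    | zero => simp [wT_wE_three hq]
    | succ j ih =>
        rw [show 2 * (j + 1 + 1) + 1 = (2 * j + 1) + 4 by ring, wT_wE_add_four hq,
          show 2 * j + 1 + 2 = 2 * (j + 1) + 1 by ring, ih]
        ring

theorem wT_wE {q : ℕ} (hq : 0 < q) (N0 c : ℂ) (n : ℕ) : wT q (wE q N0 c) n = WE q N0 c n := by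
  unfold WE
  by_cases h0 : n = 0
  · rw [if_pos h0, h0, wT_wE_zero]
  · rw [if_neg h0]
    by_cases h2 : n % 2 = 0
    · rw [if_pos h2]
      obtain ⟨j, rfl⟩ : ∃ j, n = 2 * j + 2 := ⟨n / 2 - 1, by omega⟩
      rw [wT_wE_even hq]
      congr 2
      omega
    · rw [if_neg h2]
      obtain ⟨j, rfl⟩ : ∃ j, n = 2 * j + 1 := ⟨n / 2, by omega⟩
      rw [wT_wE_odd hq]
      congr 2
      omega

/-- **Functional identity, elliptic family.**  `f = b(φ)`, `φ`, `f` dominant, `N₀`, `c`
arbitrary complex numbers, `d` any degree: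
`∑_{a + b = l d} f(a, b) WE_q(a - b) = ∑_{a' + b' = d} φ(a', b') WE_{q^l}(a' - b')`. -/
theorem fl_functional_E {l q : ℕ} (hl : 0 < l) (hq : 0 < q) {φ f : (ℤ × ℤ) →₀ ℂ}
    (h : IsBC l q φ f) (hφ : IsDominant φ) (hf : IsDominant f) (d : ℤ) (N0 c : ℂ) :
    (f.sum fun lam v =>
        if lam.1 + lam.2 = (l : ℤ) * d then v * WE q N0 c (lam.1 - lam.2).toNat else 0)
      = φ.sum fun lam v =>
        if lam.1 + lam.2 = d then v * WE (q ^ l) N0 c (lam.1 - lam.2).toNat else 0 := by
  have hmain := bc_graded hl h hφ hf d (wE q N0 c)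
  rw [wE_dil q l hl] at hmain
  have hql : 0 < q ^ l := pow_pos hq l
  simp only [wT_wE hq, wT_wE hql] at hmain
  exact hmain

/-! ## 8. The hyperbolic family of weights

`w(t) = (2 (√q)^{t₀})⁻¹` if `|t| = t₀`, `0` otherwise (`t₀ ≥ 1`): `γ` hyperbolic with eigenvalues
of valuations `m₁ ≠ m₂`, `t₀ = |m₁ - m₂|`. -/

/-- The hyperbolic weight. -/
def wH (q t0 : ℕ) (t : ℤ) : ℂ := if t.natAbs = t0 then (2 * sq q ^ t0)⁻¹ else 0

/-- `B_n = q^{(n - t₀)/2}` if `n ≥ t₀`, `n ≡ t₀ mod 2`, and `0` otherwise. -/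
def BH (q t0 n : ℕ) : ℂ := if t0 ≤ n ∧ (n - t0) % 2 = 0 then (q : ℂ) ^ ((n - t0) / 2) else 0

/-- The values of the hyperbolic weight on the Satake polynomials: `W_n = 0` unless `n ≥ t₀`,
`n ≡ t₀ mod 2`; `W_{t₀} = 1`; `W_{t₀ + 2i} = (q - 1) q^{i-1}` (`i ≥ 1`). -/
def WH (q t0 n : ℕ) : ℂ :=
  if t0 ≤ n ∧ (n - t0) % 2 = 0 then
    (if n = t0 then 1 else ((q : ℂ) - 1) * (q : ℂ) ^ ((n - t0) / 2 - 1))
  else 0

theorem aSum_wH_succ_succ {q : ℕ} (hq : 0 < q) (t0 n : ℕ) :
    aSum q (wH q t0) (n + 2) = (q : ℂ) * aSum q (wH q t0) n + (if n + 2 = t0 then 1 else 0) := by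
  rw [aSum_succ_succ]
  have a1 : (-((n : ℤ) + 2)).natAbs = n + 2 := by omega
  have a2 : ((n : ℤ) + 2).natAbs = n + 2 := by omega
  unfold wH
  rw [a1, a2]
  by_cases h : n + 2 = t0
  · rw [if_pos h, if_pos h, ← h]
    have hs : sq q ^ (n + 2) ≠ 0 := pow_ne_zero _ (sq_ne_zero hq)
    field_simp
    ring
  · rw [if_neg h, if_neg h]
    ring

theorem aSum_wH {q : ℕ} (hq : 0 < q) {t0 : ℕ} (ht0 : 0 < t0) :
    ∀ n : ℕ, aSum q (wH q t0) n = BH q t0 n
  | 0 => by
      rw [aSum_zero]
      unfold wH BH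
      rw [if_neg (by simpa using ht0.ne), if_neg (by omega)]
  | 1 => by
      rw [aSum_one]
      unfold wH BH
      by_cases h : t0 = 1
      · subst h
        have hs : sq q ≠ 0 := sq_ne_zero hq
        simp only [Int.reduceNeg, Int.natAbs_neg, Int.natAbs_one, if_true, pow_one, le_refl,
          Nat.sub_self, Nat.zero_mod, and_self, Nat.zero_div, pow_zero]
        field_simp
        ring
      · have h1 : ¬ ((-1 : ℤ).natAbs = t0) := by simpa using Ne.symm h
        have h2 : ¬ ((1 : ℤ).natAbs = t0) := by simpa using Ne.symm h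
        rw [if_neg h1, if_neg h2, if_neg (by omega)]
        ring
  | (n + 2) => by
      rw [aSum_wH_succ_succ hq, aSum_wH hq ht0 n]
      unfold BH
      by_cases h1 : t0 ≤ n ∧ (n - t0) % 2 = 0
      · rw [if_pos h1, if_neg (by omega), if_pos (by omega)]
        have e : (n + 2 - t0) / 2 = (n - t0) / 2 + 1 := by omega
        rw [e, pow_succ]
        ring
      · rw [if_neg h1]
        by_cases h2 : n + 2 = t0
        · rw [if_pos h2, if_pos (by omega)]
          have e : (n + 2 - t0) / 2 = 0 := by omega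
          rw [e]
          simp
        · rw [if_neg h2, if_neg (by omega)]
          ring

theorem wT_wH {q : ℕ} (hq : 0 < q) {t0 : ℕ} (ht0 : 0 < t0) (n : ℕ) :
    wT q (wH q t0) n = WH q t0 n := by
  unfold wT
  rw [aSum_wH hq ht0]
  unfold WH BH
  by_cases h1 : t0 ≤ n ∧ (n - t0) % 2 = 0
  · rw [if_pos h1, if_pos h1]
    by_cases h2 : n = t0
    · rw [if_pos h2]
      subst h2
      split_ifs with h3
      · rw [aSum_wH hq ht0]
        unfold BH
        rw [if_neg (by omega)]
        simp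
      · simp
    · rw [if_neg h2]
      have h3 : 2 ≤ n := by omega
      rw [if_pos h3, aSum_wH hq ht0]
      unfold BH
      rw [if_pos (by omega)]
      have e : (n - t0) / 2 = ((n - t0) / 2 - 1) + 1 := by omega
      have e' : (n - 2 - t0) / 2 = (n - t0) / 2 - 1 := by omega
      rw [e', e, pow_succ]
      simp only [Nat.add_sub_cancel]
      ring
  · rw [if_neg h1, if_neg h1]
    split_ifs with h3
    · rw [aSum_wH hq ht0]
      unfold BH
      rw [if_neg (by omega)]
      simp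
    · simp

theorem wH_dil (q l : ℕ) (hl : 0 < l) (t0 : ℕ) :
    (fun t : ℤ => wH q (l * t0) ((l : ℤ) * t)) = wH (q ^ l) t0 := by
  funext t
  unfold wH
  rw [Int.natAbs_mul, Int.natAbs_natCast, sq_pow, ← pow_mul]
  by_cases h : t.natAbs = t0
  · rw [if_pos h, if_pos (by rw [h])]
  · rw [if_neg h, if_neg]
    intro hh
    exact h (Nat.eq_of_mul_eq_mul_left hl hh)

theorem wH_dil_not_dvd (q l : ℕ) (t0 : ℕ) (h : ¬ l ∣ t0) :
    (fun t : ℤ => wH q t0 ((l : ℤ) * t)) = fun _ => 0 := by
  funext t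
  unfold wH
  rw [if_neg]
  intro hh
  apply h
  rw [← hh, Int.natAbs_mul, Int.natAbs_natCast]
  exact dvd_mul_right _ _

/-- **Functional identity, hyperbolic family** (norm case: `t₀ = l t₀'`, degree `l d`). -/
theorem fl_functional_H {l q : ℕ} (hl : 0 < l) (hq : 0 < q) {φ f : (ℤ × ℤ) →₀ ℂ}
    (h : IsBC l q φ f) (hφ : IsDominant φ) (hf : IsDominant f) (d : ℤ) {t0 : ℕ} (ht0 : 0 < t0) :
    (f.sum fun lam v =>
        if lam.1 + lam.2 = (l : ℤ) * d then v * WH q (l * t0) (lam.1 - lam.2).toNat else 0)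
      = φ.sum fun lam v =>
        if lam.1 + lam.2 = d then v * WH (q ^ l) t0 (lam.1 - lam.2).toNat else 0 := by
  have hmain := bc_graded hl h hφ hf d (wH q (l * t0))
  rw [wH_dil q l hl] at hmain
  have hql : 0 < q ^ l := pow_pos hq l
  simp only [wT_wH hq (Nat.mul_pos hl ht0), wT_wH hql ht0] at hmain
  exact hmain

/-- **Vanishing, hyperbolic family**: if `l ∤ e` or `l ∤ t₀` the sum for `f = b(φ)` vanishes. -/
theorem fl_vanish_H {l q : ℕ} (hl : 0 < l) (hq : 0 < q) {φ f : (ℤ × ℤ) →₀ ℂ}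
    (h : IsBC l q φ f) (hφ : IsDominant φ) (hf : IsDominant f) (e : ℤ) {t0 : ℕ} (ht0 : 0 < t0)
    (hnd : ¬ ((l : ℤ) ∣ e ∧ l ∣ t0)) :
    (f.sum fun lam v =>
        if lam.1 + lam.2 = e then v * WH q t0 (lam.1 - lam.2).toNat else 0) = 0 := by
  by_cases he : (l : ℤ) ∣ e
  · have ht : ¬ l ∣ t0 := fun ht => hnd ⟨he, ht⟩
    obtain ⟨d, rfl⟩ := he
    have hmain := bc_graded hl h hφ hf d (wH q t0)
    rw [wH_dil_not_dvd q l t0 ht] at hmain
    simp only [wT_wH hq ht0, wT_zero_fun, mul_zero, ite_self] at hmain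
    rw [hmain]
    simp [Finsupp.sum]
  · have hmain := bc_graded_not_dvd h hf e he (wH q t0)
    simp only [wT_wH hq ht0] at hmain
    exact hmain

/-- **Vanishing, elliptic family**: if `l ∤ e` the sum for `f = b(φ)` vanishes. -/
theorem fl_vanish_E {l q : ℕ} (hq : 0 < q) {φ f : (ℤ × ℤ) →₀ ℂ}
    (h : IsBC l q φ f) (hf : IsDominant f) (e : ℤ) (he : ¬ (l : ℤ) ∣ e) (N0 c : ℂ) :
    (f.sum fun lam v =>
        if lam.1 + lam.2 = e then v * WE q N0 c (lam.1 - lam.2).toNat else 0) = 0 := by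
  have hmain := bc_graded_not_dvd h hf e he (wE q N0 c)
  simp only [wT_wE hq] at hmain
  exact hmain


/-! ## 9. The support of a base change -/

/-- For every `n₀` there is a weight `w` with `W_{n₀}[w] = 1` and `W_n[w] = 0` for `n < n₀`. -/
theorem exists_weight {q : ℕ} (hq : 0 < q) (n0 : ℕ) :
    ∃ w : ℤ → ℂ, wT q w n0 = 1 ∧ ∀ n, n < n0 → wT q w n = 0 := by
  by_cases h0 : n0 = 0
  · refine ⟨wE q 1 0, ?_, ?_⟩
    · rw [h0, wT_wE_zero]
    · intro n hn
      omega
  · refine ⟨wH q n0, ?_, ?_⟩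
    · rw [wT_wH hq (Nat.pos_of_ne_zero h0)]
      unfold WH
      simp
    · intro n hn
      rw [wT_wH hq (Nat.pos_of_ne_zero h0)]
      unfold WH
      rw [if_neg (by omega)]

/-- **Support of a base change.**  If `f = b(φ)` with `f` dominant (and `q ≥ 1`), then `f` is
supported on the `(a, b)` with `l ∣ a + b`. -/
theorem support_dvd {l q : ℕ} (hq : 0 < q) {φ f : (ℤ × ℤ) →₀ ℂ} (h : IsBC l q φ f)
    (hf : IsDominant f) : ∀ lam ∈ f.support, (l : ℤ) ∣ lam.1 + lam.2 := by
  classical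
  intro lam hlam
  by_contra hnd
  have hS : (f.support.filter (fun mu : ℤ × ℤ => mu.1 + mu.2 = lam.1 + lam.2)).Nonempty :=
    ⟨lam, Finset.mem_filter.mpr ⟨hlam, rfl⟩⟩
  obtain ⟨mu, hmu, hmax⟩ :=
    Finset.exists_max_image _ (fun mu : ℤ × ℤ => (mu.1 - mu.2).toNat) hS
  have hmuS := Finset.mem_filter.mp hmu
  obtain ⟨w, hw1, hw0⟩ := exists_weight hq (mu.1 - mu.2).toNat
  have hmain := bc_graded_not_dvd h hf (lam.1 + lam.2) hnd w
  rw [Finsupp.sum, Finset.sum_eq_single mu] at hmain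
  · rw [if_pos hmuS.2, hw1, mul_one] at hmain
    exact (Finsupp.mem_support_iff.mp hmuS.1) hmain
  · intro nu hnu hne
    by_cases hd : nu.1 + nu.2 = lam.1 + lam.2
    · rw [if_pos hd]
      have hnuS : nu ∈ f.support.filter (fun mu : ℤ × ℤ => mu.1 + mu.2 = lam.1 + lam.2) :=
        Finset.mem_filter.mpr ⟨hnu, hd⟩
      have hle := hmax nu hnuS
      have hlt : (nu.1 - nu.2).toNat < (mu.1 - mu.2).toNat := by
        rcases Nat.lt_or_ge (nu.1 - nu.2).toNat (mu.1 - mu.2).toNat with h1 | h1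
        · exact h1
        · exfalso
          have d1 := hf nu hnu
          have d2 := hf mu hmuS.1
          have hd2 := hmuS.2
          apply hne
          apply Prod.ext <;> omega
      rw [hw0 _ hlt, mul_zero]
    · rw [if_neg hd]
  · intro hmu'
    exact absurd hmuS.1 hmu'

end Fermat.Agent.LT.T6.H423

end

end
-- ===== PACK-END LT/T6/H423/SatFun.lean

-- ===== PACK-BEGIN LT/H338/TreeSub.lean
section


/-!
# Row LT, tower T6 — the count of a "ball-like" subset of a tree (helper338, OFF-MAIN)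

Mathlib only.  `ncard_subball338` : let `d` be a tree distance on `V`, `T ⊆ V`, `c ∈ T`, such that
* `T` contains with `v ≠ c` the neighbour of `v` towards `c`,
* every `v ∈ T` has `d c v ≤ r`,
* every `v ∈ T` with `d c v < r` has exactly `q + 1` neighbours in `T`.
Then `T` has exactly `1 + (q + 1) (1 + q + ⋯ + q^(r-1))` elements (the cardinality of a ball of
radius `r` in a `(q+1)`-regular tree).

Use: the fixed points of `δ σ` on the tree of `k'` (`T` = the fixed points, `q + 1` = the number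
of fixed neighbours of an interior fixed vertex, by descent on the link), leaf T6.13.3b.
-/

namespace Fermat.Agent.LT.H338

open Finset Classical

section SubBall

variable {V : Type*} {d : V → V → ℕ} (hd : IsTreeDist338 d) (c : V) (q r : ℕ) (T : Set V)

/-- The finset of the neighbours of `v` in `T` (empty if there are infinitely many). -/
noncomputable def nbT338 (d : V → V → ℕ) (T : Set V) (v : V) : Finset V :=
  if h : {w | w ∈ T ∧ d v w = 1}.Finite then h.toFinset else ∅

theorem mem_nbT338 {v w : V} (h : {w | w ∈ T ∧ d v w = 1}.ncard = q + 1) :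
    w ∈ nbT338 d T v ↔ w ∈ T ∧ d v w = 1 := by
  have hfin : {w | w ∈ T ∧ d v w = 1}.Finite :=
    Set.finite_of_ncard_ne_zero (by rw [h]; omega)
  rw [nbT338, dif_pos hfin, Set.Finite.mem_toFinset]
  rfl

theorem card_nbT338 {v : V} (h : {w | w ∈ T ∧ d v w = 1}.ncard = q + 1) :
    (nbT338 d T v).card = q + 1 := by
  have hfin : {w | w ∈ T ∧ d v w = 1}.Finite :=
    Set.finite_of_ncard_ne_zero (by rw [h]; omega)
  rw [nbT338, dif_pos hfin, ← Set.ncard_eq_toFinset_card _ hfin, h]

/-- The children in `T` of `v` with respect to the root `c`. -/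
noncomputable def chT338 (d : V → V → ℕ) (c : V) (T : Set V) (v : V) : Finset V :=
  (nbT338 d T v).filter (fun z => d c z = d c v + 1)

/-- The levels of `T`. -/
noncomputable def lvT338 (d : V → V → ℕ) (c : V) (T : Set V) : ℕ → Finset V
  | 0 => {c}
  | (n + 1) => (lvT338 d c T n).biUnion (chT338 d c T)

variable (hc : c ∈ T) (hpar : ∀ v ∈ T, c ≠ v → par338 hd c v ∈ T)
  (hint : ∀ v ∈ T, d c v < r → {w | w ∈ T ∧ d v w = 1}.ncard = q + 1)

include hd hc hpar hint in
theorem mem_lvT338 : ∀ n : ℕ, n ≤ r → ∀ x : V, x ∈ lvT338 d c T n ↔ x ∈ T ∧ d c x = n := by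
  intro n
  induction n with
  | zero =>
    intro _ x
    rw [lvT338, mem_singleton]
    constructor
    · rintro rfl
      exact ⟨hc, (hd.eq_zero x x).2 rfl⟩
    · rintro ⟨_, h⟩
      exact ((hd.eq_zero c x).1 h).symm
  | succ n ih =>
    intro hn x
    rw [lvT338, mem_biUnion]
    constructor
    · rintro ⟨v, hv, hx⟩
      rw [ih (by omega)] at hv
      rw [chT338, mem_filter, mem_nbT338 q T (hint v hv.1 (by omega))] at hx
      exact ⟨hx.1.1, by rw [hx.2, hv.2]⟩
    · rintro ⟨hxT, hx⟩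
      have hcx : c ≠ x := root_ne_of_depth338 hd c hx
      have hp := par338_depth hd c hcx
      have hpT := hpar x hxT hcx
      have hdp : d c (par338 hd c x) = n := by omega
      refine ⟨par338 hd c x, (ih (by omega) _).2 ⟨hpT, hdp⟩, ?_⟩
      rw [chT338, mem_filter, mem_nbT338 q T (hint _ hpT (by omega))]
      refine ⟨⟨hxT, ?_⟩, by omega⟩
      rw [hd.symm]; exact par338_adj hd c hcx

include hd in
theorem par_of_mem_chT338 {v z : V} (hv : {w | w ∈ T ∧ d v w = 1}.ncard = q + 1)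
    (h : z ∈ chT338 d c T v) : c ≠ z ∧ par338 hd c z = v := by
  rw [chT338, mem_filter, mem_nbT338 q T hv] at h
  have hcz : c ≠ z := root_ne_of_depth338 hd c h.2
  refine ⟨hcz, (par338_unique hd c hcz ?_ h.2.symm).symm⟩
  rw [hd.symm]; exact h.1.2

include hd in
theorem card_chT_root338 (hv : {w | w ∈ T ∧ d c w = 1}.ncard = q + 1) :
    (chT338 d c T c).card = q + 1 := by
  have : chT338 d c T c = nbT338 d T c := by
    ext z
    rw [chT338, mem_filter, mem_nbT338 q T hv]
    constructor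
    · exact fun h => h.1
    · intro h
      refine ⟨h, ?_⟩
      rw [(hd.eq_zero c c).2 rfl, h.2]
  rw [this, card_nbT338 q T hv]

include hd in
theorem card_chT338 {v : V} (hcv : c ≠ v) (hpT : par338 hd c v ∈ T)
    (hv : {w | w ∈ T ∧ d v w = 1}.ncard = q + 1) : (chT338 d c T v).card = q := by
  have hins : nbT338 d T v = insert (par338 hd c v) (chT338 d c T v) := by
    ext z
    rw [mem_insert, chT338, mem_filter, mem_nbT338 q T hv]
    constructor
    · intro hz
      rcases hd.step c v z hz.2 with h1 | h1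
      · left; exact par338_unique hd c hcv hz.2 h1.symm
      · right; exact ⟨hz, h1⟩
    · rintro (rfl | hz)
      · exact ⟨hpT, par338_adj hd c hcv⟩
      · exact hz.1
  have hnot : par338 hd c v ∉ chT338 d c T v := by
    intro hm
    rw [chT338, mem_filter] at hm
    have := par338_depth hd c hcv
    omega
  have := card_nbT338 q T hv
  rw [hins, card_insert_of_notMem hnot] at this
  omega

include hd hc hpar hint in
theorem card_lvT_succ338 (n : ℕ) (hn : n + 1 ≤ r) :
    (lvT338 d c T (n + 1)).card = (q + 1) * q ^ n := by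
  induction n with
  | zero =>
    have h0 : {w | w ∈ T ∧ d c w = 1}.ncard = q + 1 :=
      hint c hc (by rw [(hd.eq_zero c c).2 rfl]; omega)
    rw [lvT338, lvT338, singleton_biUnion, card_chT_root338 hd c q T h0, pow_zero, mul_one]
  | succ n ih =>
    have hmem := mem_lvT338 hd c q r T hc hpar hint (n + 1) (by omega)
    rw [lvT338, card_biUnion]
    · have hsum : ∀ v ∈ lvT338 d c T (n + 1), (chT338 d c T v).card = q := by
        intro v hv
        rw [hmem] at hv
        have hcv : c ≠ v := root_ne_of_depth338 hd c hv.2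
        exact card_chT338 hd c q T hcv (hpar v hv.1 hcv) (hint v hv.1 (by omega))
      rw [sum_congr rfl hsum, sum_const, smul_eq_mul, ih (by omega)]
      ring
    · intro v hv v' hv' hne
      rw [Function.onFun, Finset.disjoint_left]
      intro z hz hz'
      rw [mem_coe, hmem] at hv hv'
      exact hne ((par_of_mem_chT338 hd c q T (hint v hv.1 (by omega)) hz).2.symm.trans
        (par_of_mem_chT338 hd c q T (hint v' hv'.1 (by omega)) hz').2)

include hd hc hpar hint in
/-- **The count of a ball-like subset of a tree.** -/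
theorem ncard_subball338 (hrad : ∀ v ∈ T, d c v ≤ r) :
    T.ncard = 1 + (q + 1) * ∑ i ∈ Finset.range r, q ^ i := by
  have hmem := mem_lvT338 hd c q r T hc hpar hint
  have hT : T = ↑((Finset.range (r + 1)).biUnion (lvT338 d c T)) := by
    ext x
    rw [mem_coe, mem_biUnion]
    constructor
    · intro hx
      exact ⟨d c x, mem_range.2 (by have := hrad x hx; omega),
        (hmem _ (hrad x hx) x).2 ⟨hx, rfl⟩⟩
    · rintro ⟨n, hn, hx⟩
      rw [mem_range] at hn
      exact ((hmem n (by omega) x).1 hx).1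
  rw [hT, Set.ncard_coe_finset, card_biUnion]
  · have h0 : (lvT338 d c T 0).card = 1 := by rw [lvT338, card_singleton]
    have hs : ∑ n ∈ Finset.range r, (lvT338 d c T (n + 1)).card
        = ∑ i ∈ Finset.range r, (q + 1) * q ^ i := by
      apply Finset.sum_congr rfl
      intro n hn
      rw [mem_range] at hn
      exact card_lvT_succ338 hd c q r T hc hpar hint n (by omega)
    rw [Finset.sum_range_succ', h0, hs, Finset.mul_sum, add_comm]
  · intro n hn n' hn' hne
    rw [Function.onFun, Finset.disjoint_left]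
    intro z hz hz'
    rw [mem_coe, mem_range] at hn hn'
    have h1 := ((hmem n (by omega) z).1 hz).2
    have h2 := ((hmem n' (by omega) z).1 hz').2
    exact hne (h1.symm.trans h2)

end SubBall

end Fermat.Agent.LT.H338

end
-- ===== PACK-END LT/H338/TreeSub.lean

-- ===== PACK-BEGIN LT/T6/H972/RightInvR.lean
section




/-!
# Row LT, tower T6, sub-leaf T6.23.01 `RightInvRC` (helper972): `GL₂(ℝ)` is unimodular

OFF-MAIN.  On `LT/T6/H189/ArchIntSpec.lean` (helper189@45580d1ec, sha256 4ac6c090) and the asset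
`LT/T1/H849/Unimod.lean` of helper849 (Mathlib only), byte-identical copies.

`rightInvRC972 : H189.RightInvRC` VERBATIM: every Haar measure of `GL (Fin 2) ℝ` (Borel) is right
invariant and inversion invariant.

Proof.  The modular character of `GL₂(ℝ)` is a homomorphism to `ℝ≥0`, trivial on the centre, hence
trivial (`modularCharacter_GL2_eq_one849`: Gauss elimination over a ring of stable range one).
`GL₂(ℝ)` is locally compact (open in the matrices) and second countable, so every Haar measure is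
regular and `map_mul_right_eq_self_of_regular849` applies.  Inversion: `map inv μ` is a left Haar
measure, `= c • μ`, and `c * c = 1` because inversion is an involution.  (Same argument as
`map_inv_eq_self_of_rightInv286` of helper286, re-proved here over Mathlib.)
-/

set_option autoImplicit false
set_option linter.style.haveILetI false

open MeasureTheory MeasureTheory.Measure
open scoped NNReal ENNReal

noncomputable section

namespace Fermat.Agent.LT.T6.H972

section Abstract

variable {G : Type*} [Group G] [TopologicalSpace G] [IsTopologicalGroup G]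
  [MeasurableSpace G] [BorelSpace G] [LocallyCompactSpace G] [SecondCountableTopology G]

/-- In a locally compact second countable group, a Haar measure which is also right invariant
is invariant under inversion. -/
theorem map_inv_eq_self_of_rightInv972 (μ : Measure G) [IsHaarMeasure μ]
    [IsMulRightInvariant μ] : map Inv.inv μ = μ := by
  have : IsHaarMeasure μ.inv :=
    { toIsFiniteMeasureOnCompacts := inferInstance
      toIsMulLeftInvariant := inferInstance
      toIsOpenPosMeasure := inferInstance }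
  let c : ℝ≥0 := haarScalarFactor μ.inv μ
  have hc : μ.inv = c • μ := isMulLeftInvariant_eq_smul μ.inv μ
  have h2 : map Inv.inv (map Inv.inv μ) = (c * c) • μ := by
    rw [← inv_def μ, hc, Measure.map_smul, ← inv_def μ, hc, smul_smul]
  have μeq : μ = (c * c) • μ := by
    rw [map_map continuous_inv.measurable continuous_inv.measurable] at h2
    simpa only [inv_involutive, Function.Involutive.comp_self, Measure.map_id] using h2
  have Kc : TopologicalSpace.PositiveCompacts G := Classical.arbitrary _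
  have h3 : ((c * c : ℝ≥0) : ℝ≥0∞) * μ Kc = 1 * μ Kc := by
    conv_rhs => rw [μeq]
    simp [Measure.smul_apply, ENNReal.smul_def]
  have h4 : ((c * c : ℝ≥0) : ℝ≥0∞) = 1 :=
    (ENNReal.mul_left_inj (measure_pos_of_nonempty_interior _ Kc.interior_nonempty).ne'
      Kc.isCompact.measure_lt_top.ne).1 h3
  have h5 : c * c = 1 := by exact_mod_cast h4
  have h6 : c = 1 := Fermat.Agent.LT.T1.H849.nnreal_no_two_torsion849 c h5
  rw [← inv_def μ, hc, h6, one_smul]

end Abstract

/-- `GL₂(ℝ)` is locally compact. -/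
theorem locallyCompactSpace_GL2R972 : LocallyCompactSpace (GL (Fin 2) ℝ) := by
  have : LocallyCompactSpace (Matrix (Fin 2) (Fin 2) ℝ) :=
    inferInstanceAs (LocallyCompactSpace (Fin 2 → Fin 2 → ℝ))
  have : T2Space (Matrix (Fin 2) (Fin 2) ℝ) := inferInstanceAs (T2Space (Fin 2 → Fin 2 → ℝ))
  infer_instance

/-- `GL₂(ℝ)` is second countable. -/
theorem secondCountable_GL2R972 : SecondCountableTopology (GL (Fin 2) ℝ) := by
  have : SecondCountableTopology (Matrix (Fin 2) (Fin 2) ℝ) :=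
    inferInstanceAs (SecondCountableTopology (Fin 2 → Fin 2 → ℝ))
  have : SecondCountableTopology (Matrix (Fin 2) (Fin 2) ℝ)ᵐᵒᵖ :=
    (MulOpposite.opHomeomorph (M := Matrix (Fin 2) (Fin 2) ℝ)).symm.secondCountableTopology
  exact Units.isEmbedding_embedProduct.secondCountableTopology

/-- The modular character of `GL₂(ℝ)` is trivial. -/
theorem modularCharacter_GL2R972 (g : GL (Fin 2) ℝ) :
    haveI := locallyCompactSpace_GL2R972
    modularCharacter g = 1 := by
  haveI := locallyCompactSpace_GL2R972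
  exact Fermat.Agent.LT.T1.H849.modularCharacter_GL2_eq_one849
    (Fermat.Agent.LT.T1.H849.stableRangeOne_field849 ℝ) g

/-- **T6.23.01 `RightInvRC`**, verbatim: `GL₂(ℝ)` is unimodular. -/
theorem rightInvRC972 : Fermat.Agent.LT.T6.H189.RightInvRC := by
  intro μ hμ
  letI : MeasurableSpace (GL (Fin 2) ℝ) := borel _
  haveI : BorelSpace (GL (Fin 2) ℝ) := ⟨rfl⟩
  haveI := locallyCompactSpace_GL2R972
  haveI := secondCountable_GL2R972
  haveI : IsHaarMeasure μ := hμ
  haveI : Regular μ := inferInstance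
  have hr : ∀ g : GL (Fin 2) ℝ, map (fun x => x * g) μ = μ := fun g =>
    Fermat.Agent.LT.T1.H849.map_mul_right_eq_self_of_regular849 modularCharacter_GL2R972 μ g
  haveI : IsMulRightInvariant μ := ⟨hr⟩
  exact ⟨hr, map_inv_eq_self_of_rightInv972 μ⟩

end Fermat.Agent.LT.T6.H972

end

end
-- ===== PACK-END LT/T6/H972/RightInvR.lean

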