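import Mathlib
import Fermat.Agent.Pack.LT2.E0L2
import Fermat.Agent.Pack.LT3.E0L2
import Fermat.Agent.Pack.LT3.E0L1
import Fermat.Agent.Pack.LT3.E0L0
import Fermat.Agent.Pack.LT2.E0L1
import Fermat.Agent.Pack.LT3.E2L2

set_option linter.all false

-- ===== PACK-BEGIN LT/H556/T0/Closure.lean
section


/-!
# Row LT, tower T0 (helper556): API of `A0.lean` -- the level group

`A0.idealClosure 𝔫 v` is the closure of the ideal `𝔫` in `K_v`.  Here: it contains `x * k` for
`x ∈ 𝔫` and `k ∈ K` integral at `v` (density of `𝓞 K` in the `v`-integers of `K`,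
`exists_valuation_sub_lt_of_integer`).  OFF-MAIN.
-/

set_option autoImplicit false

open IsDedekindDomain NumberField AutomorphicForm

noncomputable section

namespace Fermat.Agent.LT.H556.T0

open Fermat.Agent.LT.H556.A0

variable {K : Type} [Field K] [NumberField K]

/-- Elements of `𝔫` lie in the closure of `𝔫`. -/
theorem mem_idealClosure_of_mem (𝔫 : Ideal (𝓞 K)) (v : HeightOneSpectrum (𝓞 K)) {x : 𝓞 K}
    (hx : x ∈ 𝔫) :
    algebraMap K (v.adicCompletion K) (algebraMap (𝓞 K) K x) ∈ idealClosure 𝔫 v :=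
  subset_closure ⟨x, hx, rfl⟩

/-- `0` lies in the closure of `𝔫`. -/
theorem zero_mem_idealClosure (𝔫 : Ideal (𝓞 K)) (v : HeightOneSpectrum (𝓞 K)) :
    (0 : v.adicCompletion K) ∈ idealClosure 𝔫 v := by
  have h := mem_idealClosure_of_mem 𝔫 v (x := 0) 𝔫.zero_mem
  simpa using h

/-- `𝔫 · (K ∩ 𝒪_v) ⊆ closure 𝔫`. -/
theorem mul_mem_idealClosure (𝔫 : Ideal (𝓞 K)) (v : HeightOneSpectrum (𝓞 K)) {x : 𝓞 K}
    (hx : x ∈ 𝔫) {k : K} (hk : v.valuation K k ≤ 1) :
    algebraMap K (v.adicCompletion K) (algebraMap (𝓞 K) K x * k) ∈ idealClosure 𝔫 v := by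
  rw [idealClosure, mem_closure_iff_nhds]
  intro t ht
  obtain ⟨γ, hγ⟩ := (Valued.mem_nhds (R := v.adicCompletion K)).1 ht
  have hne : MonoidWithZeroHom.ValueGroup₀.embedding γ.1 ≠ 0 := by
    intro h0
    exact γ.ne_zero (by simp at h0)
  obtain ⟨a, ha⟩ := HeightOneSpectrum.exists_valuation_sub_lt_of_integer v hk (Units.mk0 _ hne)
  rw [Units.val_mk0] at ha
  refine ⟨algebraMap K (v.adicCompletion K) (algebraMap (𝓞 K) K (x * a)), hγ ?_,
    ⟨x * a, 𝔫.mul_mem_right a hx, rfl⟩⟩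
  show Valued.v.restrict (algebraMap K (v.adicCompletion K) (algebraMap (𝓞 K) K (x * a)) -
    algebraMap K (v.adicCompletion K) (algebraMap (𝓞 K) K x * k)) < γ.1
  rw [Valuation.restrict_lt_iff_lt_embedding]
  rw [← map_sub, map_mul (algebraMap (𝓞 K) K), ← mul_sub]
  have h1 : Valued.v (algebraMap K (v.adicCompletion K)
      (algebraMap (𝓞 K) K x * (algebraMap (𝓞 K) K a - k)))
      = v.valuation K (algebraMap (𝓞 K) K x * (algebraMap (𝓞 K) K a - k)) :=
    HeightOneSpectrum.valuedAdicCompletion_eq_valuation' v _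
  rw [h1, map_mul]
  have h2 : v.valuation K (algebraMap (𝓞 K) K x) ≤ 1 := by
    rw [HeightOneSpectrum.valuation_of_algebraMap]
    exact HeightOneSpectrum.intValuation_le_one v x
  calc v.valuation K (algebraMap (𝓞 K) K x) * v.valuation K (algebraMap (𝓞 K) K a - k)
      ≤ 1 * v.valuation K (algebraMap (𝓞 K) K a - k) := by gcongr
    _ = v.valuation K (algebraMap (𝓞 K) K a - k) := one_mul _
    _ < MonoidWithZeroHom.ValueGroup₀.embedding γ.1 := ha

end Fermat.Agent.LT.H556.T0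

end

end
-- ===== PACK-END LT/H556/T0/Closure.lean

-- ===== PACK-BEGIN LT/T2/H197/S2Rot.lean
section



/-!
# Row LT, tower T2, sub-leaf T2.07.31 (helper197): the matrix part

Imports: `S2Core` (Mathlib only) and the vocabulary `LT/H556/A0.lean` (byte-identical copy).

* `mz197 d z` : the representative `(1 + |z|²)^{-1/2} [[1, -z̄], [z, 1]] · torus d` of the point
  `z` of `ℂP¹ = U(2) / (U(1) × U(1))`;
* `euler_factor197` : `rotZ α * rotY β * torus d = mz197 d (e^{-iα} tan (β/2)) * rotZ α`;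
* `coset_factor197` : `k * mz197 d z = mz197 d ((r + s z) / (p + q z)) * D` with `D` unitary
  diagonal, for `k = [[p, q], [r, s]]` unitary;
* `subS2Rot_stmt197` : the statement of `T2.H429.SubS2Rot429`, spelled out.
-/

set_option autoImplicit false

open MeasureTheory Complex Set
open Fermat.Agent.LT.H556.A0
open scoped ComplexConjugate Matrix

noncomputable section

namespace Fermat.Agent.LT.T2.H197

/-- The normalising factor `1 / √(1 + |z|²)`. -/
def cz197 (z : ℂ) : ℝ := (Real.sqrt (1 + Complex.normSq z))⁻¹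

theorem cz_pos197 (z : ℂ) : 0 < cz197 z :=
  inv_pos.mpr (Real.sqrt_pos.mpr (one_add_normSq_pos197 z))

theorem cz_sq197 (z : ℂ) : cz197 z ^ 2 * (1 + Complex.normSq z) = 1 := by
  have h := one_add_normSq_pos197 z
  rw [cz197, inv_pow, Real.sq_sqrt h.le]
  exact inv_mul_cancel₀ h.ne'

theorem continuous_cz197 : Continuous cz197 := by
  unfold cz197
  refine Continuous.inv₀ ?_ fun z => ?_
  · exact Real.continuous_sqrt.comp (continuous_const.add Complex.continuous_normSq)
  · exact (Real.sqrt_pos.mpr (one_add_normSq_pos197 z)).ne'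

/-- `cz197` is characterised by positivity and its square. -/
theorem cz_eq197 (z : ℂ) (c : ℝ) (hc : 0 < c) (h : c ^ 2 * (1 + Complex.normSq z) = 1) :
    cz197 z = c := by
  have h1 := cz_sq197 z
  have h2 := cz_pos197 z
  have h3 := one_add_normSq_pos197 z
  have h4 : cz197 z ^ 2 = c ^ 2 := by
    have : (cz197 z ^ 2 - c ^ 2) * (1 + Complex.normSq z) = 0 := by linarith
    rcases mul_eq_zero.mp this with h5 | h5
    · linarith
    · exact absurd h5 h3.ne'
  exact (pow_left_inj₀ h2.le hc.le two_ne_zero).mp h4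

/-- The coset representative of the point `z` of the Riemann sphere, moved by `torus d`. -/
def mz197 (d : ℝ) (z : ℂ) : Matrix (Fin 2) (Fin 2) ℂ :=
  !![(cz197 z : ℂ) * ((Real.exp (d / 2) : ℝ) : ℂ),
      -((cz197 z : ℂ) * conj z * ((Real.exp (-(d / 2)) : ℝ) : ℂ));
     (cz197 z : ℂ) * z * ((Real.exp (d / 2) : ℝ) : ℂ),
      (cz197 z : ℂ) * ((Real.exp (-(d / 2)) : ℝ) : ℂ)]

theorem exp_half_mul197 (d : ℝ) :
    ((Real.exp (d / 2) : ℝ) : ℂ) * ((Real.exp (-(d / 2)) : ℝ) : ℂ) = 1 := by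
  rw [← Complex.ofReal_mul, ← Real.exp_add, add_neg_cancel, Real.exp_zero, Complex.ofReal_one]

theorem cz_sq_c197 (z : ℂ) : (cz197 z : ℂ) ^ 2 * (1 + z * conj z) = 1 := by
  rw [Complex.mul_conj]
  exact_mod_cast cz_sq197 z

theorem det_mz197 (d : ℝ) (z : ℂ) : (mz197 d z).det = 1 := by
  rw [mz197, Matrix.det_fin_two_of]
  linear_combination (1 + z * conj z) * (cz197 z : ℂ) ^ 2 * exp_half_mul197 d + cz_sq_c197 z

theorem continuous_mz197 (d : ℝ) : Continuous (mz197 d) := by
  have hc : Continuous fun z : ℂ => (cz197 z : ℂ) :=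
    Complex.continuous_ofReal.comp continuous_cz197
  refine continuous_matrix fun i j => ?_
  fin_cases i <;> fin_cases j
  · show Continuous fun z : ℂ => (cz197 z : ℂ) * ((Real.exp (d / 2) : ℝ) : ℂ)
    exact hc.mul continuous_const
  · show Continuous fun z : ℂ => -((cz197 z : ℂ) * conj z * ((Real.exp (-(d / 2)) : ℝ) : ℂ))
    exact ((hc.mul Complex.continuous_conj).mul continuous_const).neg
  · show Continuous fun z : ℂ => (cz197 z : ℂ) * z * ((Real.exp (d / 2) : ℝ) : ℂ)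
    exact (hc.mul continuous_id).mul continuous_const
  · show Continuous fun z : ℂ => (cz197 z : ℂ) * ((Real.exp (-(d / 2)) : ℝ) : ℂ)
    exact hc.mul continuous_const

/-! ## Euler angles -/

theorem rotZ_exp_mul197 (α : ℝ) :
    Complex.exp (Complex.I * ((α / 2 : ℝ) : ℂ)) * Complex.exp (-(Complex.I * ((α / 2 : ℝ) : ℂ)))
      = 1 := by
  rw [← Complex.exp_add, add_neg_cancel, Complex.exp_zero]

theorem exp_neg_I197 (α : ℝ) :
    Complex.exp (-(Complex.I * (α : ℂ)))
      = Complex.exp (-(Complex.I * ((α / 2 : ℝ) : ℂ)))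
        * Complex.exp (-(Complex.I * ((α / 2 : ℝ) : ℂ))) := by
  rw [← Complex.exp_add]
  congr 1
  push_cast
  ring

theorem conj_exp_neg_I197 (α : ℝ) :
    conj (Complex.exp (-(Complex.I * (α : ℂ))))
      = Complex.exp (Complex.I * ((α / 2 : ℝ) : ℂ))
        * Complex.exp (Complex.I * ((α / 2 : ℝ) : ℂ)) := by
  rw [← Complex.exp_conj, ← Complex.exp_add]
  congr 1
  simp only [map_neg, map_mul, Complex.conj_I, Complex.conj_ofReal]
  push_cast
  ring

theorem normSq_exp_neg_I197 (α : ℝ) : Complex.normSq (Complex.exp (-(Complex.I * (α : ℂ)))) = 1 := by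
  rw [Complex.normSq_eq_norm_sq, Complex.norm_exp]
  simp

theorem cz_euler197 (α β : ℝ) (hβ : 0 < Real.cos (β / 2)) :
    cz197 (Complex.exp (-(Complex.I * (α : ℂ))) * ((Real.tan (β / 2) : ℝ) : ℂ))
      = Real.cos (β / 2) := by
  refine cz_eq197 _ _ hβ ?_
  rw [Complex.normSq_mul, normSq_exp_neg_I197, Complex.normSq_ofReal, Real.tan_eq_sin_div_cos]
  have h := Real.sin_sq_add_cos_sq (β / 2)
  field_simp
  linarith

theorem mat_ext197 {a b c d a' b' c' d' : ℂ} (h1 : a = a') (h2 : b = b') (h3 : c = c')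
    (h4 : d = d') : (!![a, b; c, d] : Matrix (Fin 2) (Fin 2) ℂ) = !![a', b'; c', d'] := by
  subst h1 h2 h3 h4
  rfl

theorem conjTranspose_fin_two197 (a b c d : ℂ) :
    (!![a, b; c, d] : Matrix (Fin 2) (Fin 2) ℂ).conjTranspose = !![conj a, conj c; conj b, conj d] := by
  ext i j
  fin_cases i <;> fin_cases j <;> rfl

theorem rotZ_unitary197 (α : ℝ) : rotZ α * (rotZ α).conjTranspose = 1 := by
  have h1 : conj (Complex.exp (Complex.I * ((α / 2 : ℝ) : ℂ)))
      = Complex.exp (-(Complex.I * ((α / 2 : ℝ) : ℂ))) := by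
    rw [← Complex.exp_conj]
    congr 1
    simp only [map_mul, Complex.conj_I, Complex.conj_ofReal]
    ring
  have h2 : conj (Complex.exp (-(Complex.I * ((α / 2 : ℝ) : ℂ))))
      = Complex.exp (Complex.I * ((α / 2 : ℝ) : ℂ)) := by
    rw [← h1, Complex.conj_conj]
  have h3 := rotZ_exp_mul197 α
  rw [rotZ, conjTranspose_fin_two197, Matrix.mul_fin_two, Matrix.one_fin_two, h1, h2]
  refine mat_ext197 ?_ ?_ ?_ ?_
  · linear_combination h3
  · simp
  · simp
  · linear_combination h3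

theorem euler_factor197 (d α β : ℝ) (hβ : 0 < Real.cos (β / 2)) :
    rotZ α * rotY β * torus d
      = mz197 d (Complex.exp (-(Complex.I * (α : ℂ))) * ((Real.tan (β / 2) : ℝ) : ℂ))
          * rotZ α := by
  have hab := rotZ_exp_mul197 α
  have hz := exp_neg_I197 α
  have hzc := conj_exp_neg_I197 α
  have hcz := cz_euler197 α β hβ
  have ht : ((Real.tan (β / 2) : ℝ) : ℂ) * ((Real.cos (β / 2) : ℝ) : ℂ)
      = ((Real.sin (β / 2) : ℝ) : ℂ) := by
    rw [← Complex.ofReal_mul, Real.tan_mul_cos hβ.ne']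
  have hconj : conj (Complex.exp (-(Complex.I * (α : ℂ))) * ((Real.tan (β / 2) : ℝ) : ℂ))
      = Complex.exp (Complex.I * ((α / 2 : ℝ) : ℂ)) * Complex.exp (Complex.I * ((α / 2 : ℝ) : ℂ))
        * ((Real.tan (β / 2) : ℝ) : ℂ) := by
    rw [map_mul, hzc, Complex.conj_ofReal]
  rw [rotZ, rotY, torus, mz197, Matrix.mul_fin_two, Matrix.mul_fin_two, Matrix.mul_fin_two,
    hcz, hconj, hz]
  refine mat_ext197 ?_ ?_ ?_ ?_
  · ring
  · linear_combination
      (Complex.exp (Complex.I * ((α / 2 : ℝ) : ℂ)) * ((Real.exp (-(d / 2)) : ℝ) : ℂ)) * ht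
      + (Complex.exp (Complex.I * ((α / 2 : ℝ) : ℂ)) * ((Real.tan (β / 2) : ℝ) : ℂ)
        * ((Real.cos (β / 2) : ℝ) : ℂ) * ((Real.exp (-(d / 2)) : ℝ) : ℂ)) * hab
  · linear_combination
      (-(Complex.exp (-(Complex.I * ((α / 2 : ℝ) : ℂ))) * ((Real.exp (d / 2) : ℝ) : ℂ))) * ht
      - (Complex.exp (-(Complex.I * ((α / 2 : ℝ) : ℂ))) * ((Real.tan (β / 2) : ℝ) : ℂ)
        * ((Real.cos (β / 2) : ℝ) : ℂ) * ((Real.exp (d / 2) : ℝ) : ℂ)) * hab
  · ring

/-! ## Unitary `2 × 2` matrices -/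

theorem unitary_rows197 (k : Matrix (Fin 2) (Fin 2) ℂ) (hk : k * k.conjTranspose = 1) :
    k 0 0 * conj (k 0 0) + k 0 1 * conj (k 0 1) = 1 ∧
    k 0 0 * conj (k 1 0) + k 0 1 * conj (k 1 1) = 0 ∧
    k 1 0 * conj (k 0 0) + k 1 1 * conj (k 0 1) = 0 ∧
    k 1 0 * conj (k 1 0) + k 1 1 * conj (k 1 1) = 1 := by
  have h00 := congrFun (congrFun hk 0) 0
  have h01 := congrFun (congrFun hk 0) 1
  have h10 := congrFun (congrFun hk 1) 0
  have h11 := congrFun (congrFun hk 1) 1
  simp only [Matrix.mul_apply, Fin.sum_univ_two, Matrix.conjTranspose_apply, Complex.star_def,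
    Matrix.one_apply_eq, Matrix.one_apply_ne, ne_eq, zero_ne_one, one_ne_zero,
    not_false_eq_true] at h00 h01 h10 h11
  exact ⟨h00, h01, h10, h11⟩

theorem unitary_cols197 (k : Matrix (Fin 2) (Fin 2) ℂ) (hk : k * k.conjTranspose = 1) :
    conj (k 0 0) * k 0 0 + conj (k 1 0) * k 1 0 = 1 ∧
    conj (k 0 0) * k 0 1 + conj (k 1 0) * k 1 1 = 0 ∧
    conj (k 0 1) * k 0 0 + conj (k 1 1) * k 1 0 = 0 ∧
    conj (k 0 1) * k 0 1 + conj (k 1 1) * k 1 1 = 1 := by
  have hk' : k.conjTranspose * k = 1 := mul_eq_one_comm.mp hk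
  have h00 := congrFun (congrFun hk' 0) 0
  have h01 := congrFun (congrFun hk' 0) 1
  have h10 := congrFun (congrFun hk' 1) 0
  have h11 := congrFun (congrFun hk' 1) 1
  simp only [Matrix.mul_apply, Fin.sum_univ_two, Matrix.conjTranspose_apply, Complex.star_def,
    Matrix.one_apply_eq, Matrix.one_apply_ne, ne_eq, zero_ne_one, one_ne_zero,
    not_false_eq_true] at h00 h01 h10 h11
  exact ⟨h00, h01, h10, h11⟩

/-- The relations `s = δ p̄`, `r = -δ q̄`, `q = -δ r̄`, `p = δ s̄` of a unitary matrix. -/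
theorem unitary_adj197 (k : Matrix (Fin 2) (Fin 2) ℂ) (hk : k * k.conjTranspose = 1) :
    (k 0 0 * k 1 1 - k 0 1 * k 1 0) * conj (k 0 0) = k 1 1 ∧
    (k 0 0 * k 1 1 - k 0 1 * k 1 0) * conj (k 0 1) = -k 1 0 ∧
    (k 0 0 * k 1 1 - k 0 1 * k 1 0) * conj (k 1 0) = -k 0 1 ∧
    (k 0 0 * k 1 1 - k 0 1 * k 1 0) * conj (k 1 1) = k 0 0 := by
  obtain ⟨h1, h2, h3, h4⟩ := unitary_rows197 k hk
  refine ⟨?_, ?_, ?_, ?_⟩
  · linear_combination (k 1 1) * h1 - (k 0 1) * h3
  · linear_combination (-(k 1 0)) * h1 + (k 0 0) * h3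
  · linear_combination (k 1 1) * h2 - (k 0 1) * h4
  · linear_combination (-(k 1 0)) * h2 + (k 0 0) * h4

theorem unitary_det197 (k : Matrix (Fin 2) (Fin 2) ℂ) (hk : k * k.conjTranspose = 1) :
    (k 0 0 * k 1 1 - k 0 1 * k 1 0) * conj (k 0 0 * k 1 1 - k 0 1 * k 1 0) = 1 := by
  obtain ⟨h1, h2, h3, h4⟩ := unitary_adj197 k hk
  obtain ⟨g1, g2, g3, g4⟩ := unitary_rows197 k hk
  simp only [map_sub, map_mul]
  linear_combination (conj (k 1 1)) * h1 - (conj (k 1 0)) * h2 + g4

theorem unitary_normSq197 (k : Matrix (Fin 2) (Fin 2) ℂ) (hk : k * k.conjTranspose = 1) (z : ℂ) :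
    Complex.normSq (k 0 0 + k 0 1 * z) + Complex.normSq (k 1 0 + k 1 1 * z)
      = 1 + Complex.normSq z := by
  obtain ⟨c1, c2, c3, c4⟩ := unitary_cols197 k hk
  apply Complex.ofReal_injective
  push_cast
  rw [← Complex.mul_conj, ← Complex.mul_conj, ← Complex.mul_conj]
  simp only [map_add, map_mul]
  linear_combination c1 + (z * conj z) * c4 + z * c2 + conj z * c3

theorem unitary_det_normSq197 (k : Matrix (Fin 2) (Fin 2) ℂ) (hk : k * k.conjTranspose = 1) :
    Complex.normSq (k 0 0 * k 1 1 - k 0 1 * k 1 0) = 1 := by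
  apply Complex.ofReal_injective
  rw [← Complex.mul_conj]
  push_cast
  exact unitary_det197 k hk

theorem diag_unitary197 (x y : ℂ) (hx : x * conj x = 1) (hy : y * conj y = 1) :
    (!![x, 0; 0, y] : Matrix (Fin 2) (Fin 2) ℂ) * (!![x, 0; 0, y]).conjTranspose = 1 := by
  rw [conjTranspose_fin_two197, Matrix.mul_fin_two, Matrix.one_fin_two]
  refine mat_ext197 ?_ ?_ ?_ ?_
  · simpa using hx
  · simp
  · simp
  · simpa using hy

theorem unitary_mul197 (k l : Matrix (Fin 2) (Fin 2) ℂ) (hk : k * k.conjTranspose = 1)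
    (hl : l * l.conjTranspose = 1) : (k * l) * (k * l).conjTranspose = 1 := by
  rw [Matrix.conjTranspose_mul, Matrix.mul_assoc, ← Matrix.mul_assoc l, hl, Matrix.one_mul, hk]

theorem cz_moebius197 (k : Matrix (Fin 2) (Fin 2) ℂ) (hk : k * k.conjTranspose = 1) (z : ℂ)
    (hu : k 0 0 + k 0 1 * z ≠ 0) :
    cz197 ((k 1 0 + k 1 1 * z) / (k 0 0 + k 0 1 * z)) = ‖k 0 0 + k 0 1 * z‖ * cz197 z := by
  have hn := unitary_normSq197 k hk z
  have hN : 0 < Complex.normSq (k 0 0 + k 0 1 * z) := Complex.normSq_pos.mpr hu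
  refine cz_eq197 _ _ (mul_pos (norm_pos_iff.mpr hu) (cz_pos197 z)) ?_
  rw [map_div₀, mul_pow, ← Complex.normSq_eq_norm_sq]
  have h1 := cz_sq197 z
  generalize Complex.normSq (k 0 0 + k 0 1 * z) = A at hn hN ⊢
  generalize Complex.normSq (k 1 0 + k 1 1 * z) = B at hn ⊢
  field_simp
  linear_combination (cz197 z ^ 2) * hn + h1

/-- The matrix identity behind `k · [z] = [(r + s z) / (p + q z)]`, in coordinates. -/
theorem coset_factor_aux197 (d : ℝ) (p q r s z : ℂ)
    (h1 : (p * s - q * r) * conj p = s) (h2 : (p * s - q * r) * conj q = -r)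
    (h3 : (p * s - q * r) * conj r = -q) (h4 : (p * s - q * r) * conj s = p)
    (hu : p + q * z ≠ 0)
    (hcw : cz197 ((r + s * z) / (p + q * z)) = ‖p + q * z‖ * cz197 z) :
    (!![p, q; r, s] : Matrix (Fin 2) (Fin 2) ℂ) * mz197 d z
      = mz197 d ((r + s * z) / (p + q * z))
        * !![(p + q * z) * ((‖p + q * z‖⁻¹ : ℝ) : ℂ), 0;
             0, (p * s - q * r) * (conj p + conj q * conj z) * ((‖p + q * z‖⁻¹ : ℝ) : ℂ)] := by
  have hnu0 : (‖p + q * z‖ : ℝ) ≠ 0 := norm_ne_zero_iff.mpr hu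
  have hni : ((‖p + q * z‖ : ℝ) : ℂ) * ((‖p + q * z‖⁻¹ : ℝ) : ℂ) = 1 := by
    rw [← Complex.ofReal_mul, mul_inv_cancel₀ hnu0, Complex.ofReal_one]
  have hw : (r + s * z) / (p + q * z) * (p + q * z) = r + s * z := div_mul_cancel₀ _ hu
  have hwc : conj ((r + s * z) / (p + q * z)) * (conj p + conj q * conj z)
      = conj r + conj s * conj z := by
    have := congrArg conj hw
    simpa only [map_mul, map_add] using this
  rw [mz197, mz197, Matrix.mul_fin_two, Matrix.mul_fin_two, hcw, Complex.ofReal_mul]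
  generalize ((‖p + q * z‖ : ℝ) : ℂ) = nu at hni ⊢
  generalize ((‖p + q * z‖⁻¹ : ℝ) : ℂ) = ni at hni ⊢
  generalize conj ((r + s * z) / (p + q * z)) = X at hwc ⊢
  generalize (r + s * z) / (p + q * z) = w at hw ⊢
  generalize ((cz197 z : ℝ) : ℂ) = c
  generalize ((Real.exp (d / 2) : ℝ) : ℂ) = e₁
  generalize ((Real.exp (-(d / 2)) : ℝ) : ℂ) = e₂
  refine mat_ext197 ?_ ?_ ?_ ?_
  · linear_combination (-(c * e₁ * (p + q * z))) * hni
  · linear_combination (c * e₂ * (p * s - q * r) * X * (conj p + conj q * conj z)) * hni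
      + (c * e₂ * (p * s - q * r)) * hwc + (c * e₂) * h3 + (c * e₂ * conj z) * h4
  · linear_combination (-(c * e₁ * w * (p + q * z))) * hni - (c * e₁) * hw
  · linear_combination (-(c * e₂ * (p * s - q * r) * (conj p + conj q * conj z))) * hni
      - (c * e₂) * h1 - (c * e₂ * conj z) * h2

theorem unit_aux197 (u : ℂ) (hu : u ≠ 0) :
    (u * ((‖u‖⁻¹ : ℝ) : ℂ)) * conj (u * ((‖u‖⁻¹ : ℝ) : ℂ)) = 1 := by
  have h0 : ‖u‖ ≠ 0 := norm_ne_zero_iff.mpr hu
  rw [Complex.mul_conj, Complex.normSq_mul, Complex.normSq_ofReal, Complex.normSq_eq_norm_sq]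
  norm_cast
  field_simp

theorem coset_factor197 (d : ℝ) (k : Matrix (Fin 2) (Fin 2) ℂ) (hk : k * k.conjTranspose = 1)
    (z : ℂ) (hu : k 0 0 + k 0 1 * z ≠ 0) :
    ∃ D : Matrix (Fin 2) (Fin 2) ℂ, D * D.conjTranspose = 1 ∧
      k * mz197 d z = mz197 d ((k 1 0 + k 1 1 * z) / (k 0 0 + k 0 1 * z)) * D := by
  obtain ⟨h1, h2, h3, h4⟩ := unitary_adj197 k hk
  have hδ := unitary_det197 k hk
  have hcw := cz_moebius197 k hk z hu
  have haux := coset_factor_aux197 d (k 0 0) (k 0 1) (k 1 0) (k 1 1) z h1 h2 h3 h4 hu hcw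
  rw [← Matrix.eta_fin_two k] at haux
  refine ⟨_, ?_, haux⟩
  have hx := unit_aux197 _ hu
  apply diag_unitary197
  · exact hx
  · have hy : (k 0 0 * k 1 1 - k 0 1 * k 1 0) * (conj (k 0 0) + conj (k 0 1) * conj z)
          * ((‖k 0 0 + k 0 1 * z‖⁻¹ : ℝ) : ℂ)
        = (k 0 0 * k 1 1 - k 0 1 * k 1 0)
          * conj ((k 0 0 + k 0 1 * z) * ((‖k 0 0 + k 0 1 * z‖⁻¹ : ℝ) : ℂ)) := by
      simp only [map_mul, map_add, Complex.conj_ofReal]
      ring
    rw [hy]
    generalize (k 0 0 + k 0 1 * z) * ((‖k 0 0 + k 0 1 * z‖⁻¹ : ℝ) : ℂ) = X at hx ⊢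
    rw [map_mul (starRingEnd ℂ) (k 0 0 * k 1 1 - k 0 1 * k 1 0) (conj X), Complex.conj_conj]
    linear_combination (conj X * X) * hδ + hx

/-! ## Compactness of `U(2)` and boundedness -/

theorem isCompact_unitary197 :
    IsCompact {u : Matrix (Fin 2) (Fin 2) ℂ | u * u.conjTranspose = 1} := by
  have hcl : IsClosed {u : Matrix (Fin 2) (Fin 2) ℂ | u * u.conjTranspose = 1} :=
    isClosed_eq (continuous_id.matrix_mul continuous_id.matrix_conjTranspose) continuous_const
  have hbox : IsCompact (Set.univ.pi fun _ : Fin 2 => Set.univ.pi fun _ : Fin 2 =>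
      Metric.closedBall (0 : ℂ) 1) :=
    isCompact_univ_pi fun _ => isCompact_univ_pi fun _ => isCompact_closedBall _ _
  refine IsCompact.of_isClosed_subset hbox hcl ?_
  intro u hu
  have hu' : u ∈ Matrix.unitaryGroup (Fin 2) ℂ := Matrix.mem_unitaryGroup_iff.mpr hu
  intro i _ j _
  simpa using entry_norm_bound_of_unitary hu' i j

theorem det_torus197 (d : ℝ) : (torus d).det = 1 := by
  rw [torus, Matrix.det_fin_two_of]
  linear_combination exp_half_mul197 d

theorem det_ne_zero_of_unitary197 (k : Matrix (Fin 2) (Fin 2) ℂ) (hk : k * k.conjTranspose = 1) :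
    k.det ≠ 0 := by
  intro h
  have := congrArg Matrix.det hk
  rw [Matrix.det_mul, h, zero_mul, Matrix.det_one] at this
  exact zero_ne_one this

/-- The unitary coset representative of the point `z`. -/
def nz197 (z : ℂ) : Matrix (Fin 2) (Fin 2) ℂ :=
  !![(cz197 z : ℂ), -((cz197 z : ℂ) * conj z); (cz197 z : ℂ) * z, (cz197 z : ℂ)]

theorem nz_mul_torus197 (d : ℝ) (z : ℂ) : nz197 z * torus d = mz197 d z := by
  rw [nz197, torus, mz197, Matrix.mul_fin_two]
  refine mat_ext197 ?_ ?_ ?_ ?_ <;> ring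

theorem nz_unitary197 (z : ℂ) : nz197 z * (nz197 z).conjTranspose = 1 := by
  have h := cz_sq_c197 z
  rw [nz197, conjTranspose_fin_two197, Matrix.mul_fin_two, Matrix.one_fin_two]
  simp only [map_neg, map_mul, Complex.conj_ofReal, Complex.conj_conj]
  refine mat_ext197 ?_ ?_ ?_ ?_
  · linear_combination h
  · ring
  · ring
  · linear_combination h

theorem bounded_aux197 (ψ : Matrix (Fin 2) (Fin 2) ℂ → ℂ)
    (hψ : ContinuousOn ψ {m | m.det ≠ 0}) (d : ℝ) :
    ∃ C : ℝ, ∀ u : Matrix (Fin 2) (Fin 2) ℂ, u * u.conjTranspose = 1 →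
      ‖ψ (u * torus d)‖ ≤ C := by
  have hc : ContinuousOn (fun u : Matrix (Fin 2) (Fin 2) ℂ => ψ (u * torus d))
      {u : Matrix (Fin 2) (Fin 2) ℂ | u * u.conjTranspose = 1} := by
    refine hψ.comp (continuous_id.matrix_mul continuous_const).continuousOn ?_
    intro u hu
    show (u * torus d).det ≠ 0
    rw [Matrix.det_mul, det_torus197, mul_one]
    exact det_ne_zero_of_unitary197 u hu
  obtain ⟨C, hC⟩ := isCompact_unitary197.exists_bound_of_continuousOn hc
  exact ⟨C, fun u hu => hC u hu⟩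

/-! ## The Euler-angle integral of a right `U(2)`-invariant function -/

theorem euler_to_plane197 (ψ : Matrix (Fin 2) (Fin 2) ℂ → ℂ)
    (hψ : ContinuousOn ψ {m | m.det ≠ 0})
    (hinv : ∀ m k : Matrix (Fin 2) (Fin 2) ℂ, k * k.conjTranspose = 1 → ψ (m * k) = ψ m)
    (k₀ : Matrix (Fin 2) (Fin 2) ℂ) (hk₀ : k₀ * k₀.conjTranspose = 1) (d : ℝ) :
    (∫ α in (0 : ℝ)..(2 * Real.pi), ∫ β in (0 : ℝ)..Real.pi,
        ψ (k₀ * (rotZ α * rotY β * torus d)) * ((Real.sin β : ℝ) : ℂ))
      = ∫ z, ψ (k₀ * mz197 d z) * (rho197 z : ℂ) := by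
  have hFc : Continuous fun z : ℂ => ψ (k₀ * mz197 d z) := by
    refine hψ.comp_continuous (continuous_const.matrix_mul (continuous_mz197 d)) fun z => ?_
    show (k₀ * mz197 d z).det ≠ 0
    rw [Matrix.det_mul, det_mz197, mul_one]
    exact det_ne_zero_of_unitary197 k₀ hk₀
  obtain ⟨C, hC⟩ := bounded_aux197 ψ hψ d
  have hFb : ∀ z : ℂ, ‖ψ (k₀ * mz197 d z)‖ ≤ C := by
    intro z
    have := hC (k₀ * nz197 z) (unitary_mul197 k₀ (nz197 z) hk₀ (nz_unitary197 z))
    rwa [Matrix.mul_assoc, nz_mul_torus197] at this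
  rw [← euler_eq_plane197 (fun z : ℂ => ψ (k₀ * mz197 d z)) hFc C hFb]
  refine intervalIntegral.integral_congr fun α _ => ?_
  refine intervalIntegral.integral_congr fun β hβ => ?_
  rw [Set.uIcc_of_le Real.pi_pos.le] at hβ
  show ψ (k₀ * (rotZ α * rotY β * torus d)) * ((Real.sin β : ℝ) : ℂ)
    = ψ (k₀ * mz197 d (Complex.exp (-(Complex.I * (α : ℂ))) * ((Real.tan (β / 2) : ℝ) : ℂ)))
      * ((Real.sin β : ℝ) : ℂ)
  rcases eq_or_lt_of_le hβ.2 with h | h
  · rw [h, Real.sin_pi, Complex.ofReal_zero, mul_zero, mul_zero]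
  · have hcos : 0 < Real.cos (β / 2) :=
      Real.cos_pos_of_mem_Ioo ⟨by linarith [hβ.1, Real.pi_pos], by linarith⟩
    rw [euler_factor197 d α β hcos, ← Matrix.mul_assoc, hinv _ _ (rotZ_unitary197 α)]

theorem plane_invariant197 (ψ : Matrix (Fin 2) (Fin 2) ℂ → ℂ)
    (hinv : ∀ m k : Matrix (Fin 2) (Fin 2) ℂ, k * k.conjTranspose = 1 → ψ (m * k) = ψ m)
    (k₀ : Matrix (Fin 2) (Fin 2) ℂ) (hk₀ : k₀ * k₀.conjTranspose = 1) (d : ℝ) :
    ∫ z, ψ (k₀ * mz197 d z) * (rho197 z : ℂ) = ∫ z, ψ (mz197 d z) * (rho197 z : ℂ) := by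
  rw [← moebius197 (fun w => ψ (mz197 d w)) (k₀ 0 0) (k₀ 0 1) (k₀ 1 0) (k₀ 1 1)
    (unitary_det_normSq197 k₀ hk₀) (unitary_normSq197 k₀ hk₀)]
  refine integral_congr_ae ?_
  have hS : ({z : ℂ | k₀ 0 0 + k₀ 0 1 * z = 0} : Set ℂ).Subsingleton := by
    intro z₁ h₁ z₂ h₂
    by_contra hne
    have h₁' : k₀ 0 0 + k₀ 0 1 * z₁ = 0 := h₁
    have h₂' : k₀ 0 0 + k₀ 0 1 * z₂ = 0 := h₂
    have hq : k₀ 0 1 * (z₁ - z₂) = 0 := by linear_combination h₁' - h₂'
    have hq0 : k₀ 0 1 = 0 := by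
      rcases mul_eq_zero.mp hq with h | h
      · exact h
      · exact absurd (sub_eq_zero.mp h) hne
    have hp0 : k₀ 0 0 = 0 := by rw [hq0, zero_mul, add_zero] at h₁'; exact h₁'
    have := (unitary_rows197 k₀ hk₀).1
    rw [hp0, hq0] at this
    simp at this
  have h0 : volume ({z : ℂ | k₀ 0 0 + k₀ 0 1 * z = 0} : Set ℂ) = 0 := hS.measure_zero volume
  filter_upwards [measure_eq_zero_iff_ae_notMem.mp h0] with z hz
  obtain ⟨D, hD, hfac⟩ := coset_factor197 d k₀ hk₀ z hz
  show ψ (k₀ * mz197 d z) * (rho197 z : ℂ)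
    = ψ (mz197 d ((k₀ 1 0 + k₀ 1 1 * z) / (k₀ 0 0 + k₀ 0 1 * z))) * (rho197 z : ℂ)
  rw [hfac, hinv _ _ hD]

/-- **T2.07.31, explicit statement**: invariance of `sin β dβ dα` under the rotations. -/
theorem subS2Rot_stmt197 (ψ : Matrix (Fin 2) (Fin 2) ℂ → ℂ)
    (hψ : ContinuousOn ψ {m | m.det ≠ 0})
    (hinv : ∀ m k : Matrix (Fin 2) (Fin 2) ℂ, k * k.conjTranspose = 1 → ψ (m * k) = ψ m)
    (k₀ : Matrix (Fin 2) (Fin 2) ℂ) (hk₀ : k₀ * k₀.conjTranspose = 1) (d : ℝ) :
    (∫ α in (0 : ℝ)..(2 * Real.pi), ∫ β in (0 : ℝ)..Real.pi,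
        ψ (k₀ * (rotZ α * rotY β * torus d)) * ((Real.sin β : ℝ) : ℂ))
      = ∫ α in (0 : ℝ)..(2 * Real.pi), ∫ β in (0 : ℝ)..Real.pi,
        ψ (rotZ α * rotY β * torus d) * ((Real.sin β : ℝ) : ℂ) := by
  rw [euler_to_plane197 ψ hψ hinv k₀ hk₀ d, plane_invariant197 ψ hinv k₀ hk₀ d]
  have h1 := euler_to_plane197 ψ hψ hinv 1 (by simp) d
  simp only [Matrix.one_mul] at h1
  exact h1.symm

end Fermat.Agent.LT.T2.H197

end
end
-- ===== PACK-END LT/T2/H197/S2Rot.lean

-- ===== PACK-BEGIN LT/T2/H841/MatFacts.lean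
section




/-!
# Row LT, tower T2, leaf T2.07.18 (helper841): facts on the matrices of A0

OFF-MAIN.  `rotZ`, `rotY` are of the form `suMat`; determinants; the shape of `SU(2)`;
the polar form of `qmat q`; the transposition of `torus d * rotY β * torus d'`.
-/

set_option autoImplicit false

open Fermat.Agent.LT.H556.A0

noncomputable section

namespace Fermat.Agent.LT.T2.H841

theorem continuous_rotZ841 : Continuous rotZ := by
  unfold rotZ
  refine continuous_matrix fun i j => ?_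
  fin_cases i <;> fin_cases j <;> simp <;> fun_prop

theorem continuous_rotY841 : Continuous rotY := by
  unfold rotY
  refine continuous_matrix fun i j => ?_
  fin_cases i <;> fin_cases j <;> simp <;> fun_prop

theorem rotZ_eq_suMat841 (α : ℝ) :
    rotZ α = suMat (Complex.exp (Complex.I * ((α / 2 : ℝ) : ℂ))) 0 := by
  unfold rotZ suMat
  have h : (starRingEnd ℂ) (Complex.exp (Complex.I * ((α / 2 : ℝ) : ℂ)))
      = Complex.exp (-(Complex.I * ((α / 2 : ℝ) : ℂ))) := by
    rw [← Complex.exp_conj]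
    congr 1
    rw [map_mul, Complex.conj_I, Complex.conj_ofReal]
    ring
  rw [h]
  simp only [map_zero, neg_zero]

theorem normSq_rotZ841 (α : ℝ) :
    Complex.normSq (Complex.exp (Complex.I * ((α / 2 : ℝ) : ℂ))) + Complex.normSq 0 = 1 := by
  have h : ‖Complex.exp (Complex.I * ((α / 2 : ℝ) : ℂ))‖ = 1 := by
    rw [mul_comm]
    exact Complex.norm_exp_ofReal_mul_I (α / 2)
  rw [Complex.normSq_eq_norm_sq, h]
  simp

theorem rotY_eq_suMat841 (β : ℝ) :
    rotY β = suMat ((Real.cos (β / 2) : ℝ) : ℂ) ((Real.sin (β / 2) : ℝ) : ℂ) := by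
  unfold rotY suMat
  simp only [Complex.conj_ofReal]

theorem normSq_rotY841 (β : ℝ) :
    Complex.normSq ((Real.cos (β / 2) : ℝ) : ℂ) + Complex.normSq ((Real.sin (β / 2) : ℝ) : ℂ)
      = 1 := by
  rw [Complex.normSq_ofReal, Complex.normSq_ofReal]
  have := Real.cos_sq_add_sin_sq (β / 2)
  nlinarith

theorem det_suMat841 (a c : ℂ) (h : Complex.normSq a + Complex.normSq c = 1) :
    (suMat a c).det = 1 := by
  have h' : ((Complex.normSq a + Complex.normSq c : ℝ) : ℂ) = 1 := by rw [h]; simp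
  simp only [suMat, Matrix.det_fin_two_of]
  rw [← h']
  simp only [Complex.ofReal_add, Complex.normSq_eq_conj_mul_self]
  ring

theorem det_rotZ841 (α : ℝ) : (rotZ α).det = 1 := by
  rw [rotZ_eq_suMat841]
  exact det_suMat841 _ _ (normSq_rotZ841 α)

theorem det_rotY841 (β : ℝ) : (rotY β).det = 1 := by
  rw [rotY_eq_suMat841]
  exact det_suMat841 _ _ (normSq_rotY841 β)

theorem det_torus841 (d : ℝ) : (torus d).det = 1 := by
  unfold torus
  rw [Matrix.det_fin_two_of]
  simp only [mul_zero, sub_zero]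
  rw [← Complex.ofReal_mul, ← Real.exp_add]
  simp

/-- The matrix of the sphere of radius `d`. -/
def sphM841 (d α β : ℝ) : Matrix (Fin 2) (Fin 2) ℂ := rotZ α * rotY β * torus d

theorem det_sphM841 (d α β : ℝ) : (sphM841 d α β).det = 1 := by
  unfold sphM841
  rw [Matrix.det_mul, Matrix.det_mul, det_rotZ841, det_rotY841, det_torus841]
  simp

theorem det_sphM841_ne (d α β : ℝ) : (sphM841 d α β).det ≠ 0 := by
  rw [det_sphM841]; exact one_ne_zero

theorem continuous_sphM841 (d : ℝ) : Continuous fun p : ℝ × ℝ => sphM841 d p.1 p.2 := by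
  unfold sphM841
  exact ((continuous_rotZ841.comp continuous_fst).matrix_mul
    (continuous_rotY841.comp continuous_snd)).matrix_mul continuous_const

theorem rotZ_mul_torus841 (α d : ℝ) : rotZ α * torus d = torus d * rotZ α := by
  unfold rotZ torus
  ext i j
  fin_cases i <;> fin_cases j <;> simp [Matrix.mul_apply, Fin.sum_univ_two, mul_comm]

/-- The shape of `SU(2)`. -/
theorem su_shape841 {k : Matrix (Fin 2) (Fin 2) ℂ} (hk : k * k.conjTranspose = 1)
    (hd : k.det = 1) :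
    k = suMat (k 0 0) (k 1 0) ∧ Complex.normSq (k 0 0) + Complex.normSq (k 1 0) = 1 := by
  have hinv : k⁻¹ = k.conjTranspose := Matrix.inv_eq_right_inv hk
  have hadj : k⁻¹ = k.adjugate := by
    rw [Matrix.inv_def, hd]
    simp
  have h1 : k.conjTranspose = k.adjugate := by rw [← hinv, hadj]
  rw [Matrix.adjugate_fin_two] at h1
  have e00 := congrFun (congrFun h1 0) 0
  have e10 := congrFun (congrFun h1 0) 1
  simp only [Matrix.conjTranspose_apply, Matrix.of_apply, Matrix.cons_val', Matrix.cons_val_zero,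
    Matrix.cons_val_one, Matrix.cons_val_fin_one] at e00 e10
  have h11 : k 1 1 = (starRingEnd ℂ) (k 0 0) := by
    rw [← e00]; rfl
  have h01 : k 0 1 = -(starRingEnd ℂ) (k 1 0) := by
    have : (starRingEnd ℂ) (k 1 0) = -k 0 1 := by
      rw [← e10]; rfl
    rw [this, neg_neg]
  have hshape : k = suMat (k 0 0) (k 1 0) := by
    unfold suMat
    ext i j
    fin_cases i <;> fin_cases j
    · rfl
    · exact h01
    · rfl
    · exact h11
  refine ⟨hshape, ?_⟩
  have hdet : k.det = ((Complex.normSq (k 0 0) + Complex.normSq (k 1 0) : ℝ) : ℂ) := by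
    rw [Matrix.det_fin_two, h11, h01]
    simp only [Complex.ofReal_add, Complex.normSq_eq_conj_mul_self]
    ring
  rw [hd] at hdet
  exact_mod_cast hdet.symm

theorem conjTranspose_transpose_unitary841 {k : Matrix (Fin 2) (Fin 2) ℂ}
    (hk : k * k.conjTranspose = 1) : k.transpose * k.transpose.conjTranspose = 1 := by
  have h2 : k.conjTranspose * k = 1 := mul_eq_one_comm.mp hk
  have h3 := congrArg Matrix.transpose h2
  rw [Matrix.transpose_mul, Matrix.transpose_one] at h3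
  rw [← h3]
  congr 1

/-- Polar form: `qmat q = k · diag(r, r)` with `k` unitary and `r > 0`, for `q ≠ 0`. -/
theorem qmat_polar841 {q : ℂ × ℂ} (hq : 0 < qN q) :
    ∃ (k : Matrix (Fin 2) (Fin 2) ℂ) (r : ℝ), 0 < r ∧ k * k.conjTranspose = 1 ∧
      qmat q = k * Matrix.diagonal (fun _ => (r : ℂ)) := by
  set r : ℝ := Real.sqrt (qN q) with hr
  have hr0 : 0 < r := Real.sqrt_pos.mpr hq
  have hr2 : r * r = qN q := Real.mul_self_sqrt hq.le
  have hrc : (r : ℂ) ≠ 0 := by exact_mod_cast hr0.ne'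
  have hN : ((qN q : ℝ) : ℂ) = q.1 * (starRingEnd ℂ) q.1 + q.2 * (starRingEnd ℂ) q.2 := by
    simp only [qN, Complex.ofReal_add, Complex.normSq_eq_conj_mul_self]
    ring
  have hr2c : (r : ℂ) * (r : ℂ) = q.1 * (starRingEnd ℂ) q.1 + q.2 * (starRingEnd ℂ) q.2 := by
    rw [← hN, ← hr2]; push_cast; ring
  refine ⟨((r : ℂ)⁻¹) • qmat q, r, hr0, ?_, ?_⟩
  · have hconj : (starRingEnd ℂ) ((r : ℂ)⁻¹) = (r : ℂ)⁻¹ := by
      rw [map_inv₀, Complex.conj_ofReal]
    unfold qmat
    ext i j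
    fin_cases i <;> fin_cases j <;>
    simp [Matrix.mul_apply, Fin.sum_univ_two, Matrix.conjTranspose_apply, Matrix.one_apply] <;>
    field_simp <;> first | linear_combination hr2c | linear_combination -hr2c | ring
  · ext i j
    fin_cases i <;> fin_cases j <;>
    simp [qmat, Matrix.mul_apply, Fin.sum_univ_two, Matrix.diagonal_apply] <;> field_simp

/-- `diag(i, -i)`. -/
def dmat841 : Matrix (Fin 2) (Fin 2) ℂ := suMat Complex.I 0

/-- `diag(-i, i)`. -/
def dmatInv841 : Matrix (Fin 2) (Fin 2) ℂ := !![-Complex.I, 0; 0, Complex.I]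

theorem normSq_dmat841 : Complex.normSq Complex.I + Complex.normSq 0 = 1 := by simp

theorem dmatInv841_unitary : dmatInv841 * dmatInv841.conjTranspose = 1 := by
  unfold dmatInv841
  ext i j
  fin_cases i <;> fin_cases j <;>
  simp [Matrix.mul_apply, Fin.sum_univ_two, Matrix.conjTranspose_apply, Matrix.one_apply]

/-- The middle matrix `torus d * rotY β * torus d'`. -/
def midM841 (d β d' : ℝ) : Matrix (Fin 2) (Fin 2) ℂ := torus d * rotY β * torus d'

theorem det_midM841 (d β d' : ℝ) : (midM841 d β d').det = 1 := by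
  unfold midM841
  rw [Matrix.det_mul, Matrix.det_mul, det_torus841, det_rotY841, det_torus841]
  simp

theorem midM841_eq (d β d' : ℝ) :
    midM841 d β d' = !![((Real.exp (d / 2) * Real.cos (β / 2) * Real.exp (d' / 2) : ℝ) : ℂ),
        ((-(Real.exp (d / 2) * Real.sin (β / 2) * Real.exp (-(d' / 2))) : ℝ) : ℂ);
      ((Real.exp (-(d / 2)) * Real.sin (β / 2) * Real.exp (d' / 2) : ℝ) : ℂ),
        ((Real.exp (-(d / 2)) * Real.cos (β / 2) * Real.exp (-(d' / 2)) : ℝ) : ℂ)] := by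
  unfold midM841 torus rotY
  ext i j
  fin_cases i <;> fin_cases j <;>
  simp [Matrix.mul_apply, Fin.sum_univ_two]

theorem midM841_real (d β d' : ℝ) (i j : Fin 2) : (midM841 d β d' i j).im = 0 := by
  rw [midM841_eq]
  fin_cases i <;> fin_cases j
  · exact Complex.ofReal_im _
  · exact Complex.ofReal_im _
  · exact Complex.ofReal_im _
  · exact Complex.ofReal_im _

/-- Transposition exchanges `d` and `d'`, up to conjugation by `diag(i, -i)`. -/
theorem midM841_transpose (d β d' : ℝ) :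
    (midM841 d β d').transpose = dmat841 * midM841 d' β d * dmatInv841 := by
  unfold midM841 dmat841 dmatInv841 suMat torus rotY
  ext i j
  fin_cases i <;> fin_cases j <;>
  simp [Matrix.mul_apply, Fin.sum_univ_two, Matrix.transpose_apply] <;> ring_nf <;>
  simp [Complex.I_sq]

end Fermat.Agent.LT.T2.H841

end

end
-- ===== PACK-END LT/T2/H841/MatFacts.lean

-- ===== PACK-BEGIN LT/T2/H781/AbsSpec.lean
section



/-!
# Row LT, tower T2, leaf T2.08 (registry 872): the abstract spectral theorem (helper781)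

OFF-MAIN.  Mathlib + the pre-freeze asset `Fermat/Agent/LT/H751/JointSpec.lean` (helper751,
byte-identical copy, sha256 edd7ffca...).  No definitions beyond the auxiliary operators below.

`abstractSpectral781` is the statement of `Fermat.Agent.LT.T2.AbstractSpectral` (helper130,
`LT/T2/Spec.lean`) written out; `LT/T2/H781/Leaf08.lean` instantiates `T2.Leaf08` with it.

Proof.  `H` = the completion of the pre-Hilbert space `V`.
* every operator of the family extends to `H` (`ext781`); the extensions commute and the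
  extension of an adjoint is the adjoint (`ext781_mul`, `ext781_adjoint`);
* the Hilbert--Schmidt bound on the finite orthonormal families OF `V` gives, for every `ε > 0`,
  a finite orthonormal family of `V` off which the operator has norm `≤ ε`
  (`exists_orthonormal_small781`: otherwise an orthonormal sequence with `‖A x_i‖ > ε`); hence
  the extension is a norm limit of finite-rank operators, so it is compact
  (`isCompactOperator_ext781`);
* the common kernel in `H` of the compact operators is `0`: they are normal, so the kernel is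
  orthogonal to the ranges, and the ranges approximate every vector of `V`;
* `exists_hilbertBasis_joint_eigen751` (helper751) gives a Hilbert basis of joint eigenvectors
  of `H`; each of them is `c⁻¹ A b` with `A` compact of the family, `c ≠ 0`, hence lies in `V`
  by regularity; Parseval in `H` restricts to `V`.
-/

set_option autoImplicit false

namespace Fermat.Agent.LT.T2.H781

open UniformSpace ContinuousLinearMap

noncomputable section

variable {V : Type*} [NormedAddCommGroup V] [InnerProductSpace ℂ V]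

/-- The embedding of `V` into its completion. -/
def emb781 (V : Type*) [NormedAddCommGroup V] [InnerProductSpace ℂ V] :
    V →L[ℂ] Completion V := Completion.toComplL

theorem emb781_apply (x : V) : emb781 V x = (x : Completion V) := rfl

theorem emb781_dense : DenseRange (emb781 V) := Completion.denseRange_coe

theorem emb781_unif : IsUniformInducing (emb781 V) := Completion.isUniformInducing_coe V

/-- The extension of a bounded operator of `V` to the completion. -/
def ext781 (A : V →L[ℂ] V) : Completion V →L[ℂ] Completion V :=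
  ((emb781 V).comp A).extend (emb781 V)

theorem ext781_coe (A : V →L[ℂ] V) (x : V) :
    ext781 A (x : Completion V) = ((A x : V) : Completion V) := by
  have h := ContinuousLinearMap.extend_eq ((emb781 V).comp A) emb781_dense emb781_unif x
  simpa [emb781_apply, ext781] using h

theorem ext781_mul (A B : V →L[ℂ] V) (h : ∀ x, A (B x) = B (A x)) :
    ext781 A * ext781 B = ext781 B * ext781 A := by
  ext x
  induction x using Completion.induction_on with
  | hp => exact isClosed_eq (by fun_prop) (by fun_prop)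
  | ih a => simp [ext781_coe, h]

theorem ext781_inner (A B : V →L[ℂ] V) (h : ∀ x y, inner ℂ (A x) y = inner ℂ x (B y))
    (x y : Completion V) : inner ℂ (ext781 A x) y = inner ℂ x (ext781 B y) := by
  induction x, y using Completion.induction_on₂ with
  | hp =>
    exact isClosed_eq
      (Completion.Continuous.inner ((ext781 A).continuous.comp continuous_fst) continuous_snd)
      (Completion.Continuous.inner continuous_fst ((ext781 B).continuous.comp continuous_snd))
  | ih a b => simp [ext781_coe, Completion.inner_coe, h]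

theorem ext781_adjoint (A B : V →L[ℂ] V) (h : ∀ x y, inner ℂ (A x) y = inner ℂ x (B y)) :
    adjoint (ext781 A) = ext781 B := by
  symm
  rw [ContinuousLinearMap.eq_adjoint_iff]
  intro x y
  have := ext781_inner A B h y x
  rw [← inner_conj_symm, ← this, inner_conj_symm]

/-! ## Compactness from the Hilbert--Schmidt bound on `V` -/

/-- Adding a unit vector orthogonal to an orthonormal family. -/
theorem orthonormal_cons781 {n : ℕ} {x : Fin n → V} (hx : Orthonormal ℂ x) {u : V}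
    (hu : ‖u‖ = 1) (hux : ∀ i, inner ℂ (x i) u = 0) :
    Orthonormal ℂ (Fin.cons u x : Fin (n + 1) → V) := by
  rw [orthonormal_iff_ite] at hx ⊢
  intro i j
  refine Fin.cases ?_ (fun i' => ?_) i <;> refine Fin.cases ?_ (fun j' => ?_) j
  · simp [inner_self_eq_norm_sq_to_K, hu]
  · have h0 : (0 : Fin (n + 1)) ≠ j'.succ := (Fin.succ_ne_zero j').symm
    rw [if_neg h0, Fin.cons_zero, Fin.cons_succ, ← inner_conj_symm, hux j', map_zero]
  · rw [if_neg (Fin.succ_ne_zero i'), Fin.cons_zero, Fin.cons_succ, hux i']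
  · rw [Fin.cons_succ, Fin.cons_succ, hx i' j']
    simp [Fin.succ_inj]

/-- Off a suitable finite orthonormal family, a Hilbert--Schmidt operator is small. -/
theorem exists_orthonormal_small781 (A : V →ₗ[ℂ] V) (C : ℝ)
    (hHS : ∀ (n : ℕ) (x : Fin n → V), Orthonormal ℂ x → ∑ i, ‖A (x i)‖ ^ 2 ≤ C)
    {ε : ℝ} (hε : 0 < ε) :
    ∃ (n : ℕ) (x : Fin n → V), Orthonormal ℂ x ∧
      ∀ y : V, (∀ i, inner ℂ (x i) y = 0) → ‖A y‖ ≤ ε * ‖y‖ := by
  by_contra hcon
  push Not at hcon
  have key : ∀ n : ℕ, ∃ x : Fin n → V, Orthonormal ℂ x ∧ ∀ i, ε < ‖A (x i)‖ := by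
    intro n
    induction n with
    | zero =>
      refine ⟨Fin.elim0, ?_, fun i => i.elim0⟩
      rw [orthonormal_iff_ite]
      exact fun i => i.elim0
    | succ n ih =>
      obtain ⟨x, hx, hxε⟩ := ih
      obtain ⟨y, hy, hyε⟩ := hcon n x hx
      have hy0 : y ≠ 0 := by
        rintro rfl
        simp at hyε
      have hypos : 0 < ‖y‖ := norm_pos_iff.2 hy0
      set u : V := ((‖y‖ : ℂ)⁻¹) • y with hu
      have hun : ‖u‖ = 1 := by
        rw [hu, norm_smul, norm_inv, Complex.norm_real, norm_norm, inv_mul_cancel₀ hypos.ne']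
      have hux : ∀ i, inner ℂ (x i) u = 0 := by
        intro i
        rw [hu, inner_smul_right, hy i, mul_zero]
      have huε : ε < ‖A u‖ := by
        rw [hu, map_smul, norm_smul, norm_inv, Complex.norm_real, norm_norm,
          lt_inv_mul_iff₀ hypos]
        linarith [mul_comm ε ‖y‖]
      refine ⟨Fin.cons u x, orthonormal_cons781 hx hun hux, fun i => ?_⟩
      refine Fin.cases ?_ (fun i' => ?_) i
      · simpa using huε
      · simpa using hxε i'
  obtain ⟨n, hn⟩ := exists_nat_gt (C / ε ^ 2)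
  obtain ⟨x, hx, hxε⟩ := key n
  have h1 := hHS n x hx
  have h2 : (n : ℝ) * ε ^ 2 ≤ ∑ i, ‖A (x i)‖ ^ 2 := by
    calc (n : ℝ) * ε ^ 2 = ∑ _i : Fin n, ε ^ 2 := by simp
      _ ≤ ∑ i, ‖A (x i)‖ ^ 2 := Finset.sum_le_sum fun i _ =>
          pow_le_pow_left₀ hε.le (hxε i).le 2
  have h3 : C < n * ε ^ 2 := by
    rwa [div_lt_iff₀ (by positivity)] at hn
  linarith

/-- The component of `v` orthogonal to a finite orthonormal family. -/
theorem orth_part781 {n : ℕ} {x : Fin n → V} (hx : Orthonormal ℂ x) (v : V) :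
    (∀ j, inner ℂ (x j) (v - ∑ i, inner ℂ (x i) v • x i) = 0) ∧
      ‖v - ∑ i, inner ℂ (x i) v • x i‖ ≤ ‖v‖ := by
  classical
  set p : V := ∑ i, inner ℂ (x i) v • x i with hp
  have h1 : ∀ j, inner ℂ (x j) (v - p) = 0 := by
    intro j
    rw [inner_sub_right, hp, hx.inner_right_fintype, sub_self]
  refine ⟨h1, ?_⟩
  have h2 : inner ℂ (v - p) p = 0 := by
    have key : ∀ w : V, (∀ j, inner ℂ (x j) w = 0) →
        inner ℂ w (∑ i, inner ℂ (x i) v • x i) = 0 := by
      intro w hw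
      rw [inner_sum]
      refine Finset.sum_eq_zero fun i _ => ?_
      have h0 : inner ℂ w (x i) = 0 := by
        rw [← inner_conj_symm, hw i, map_zero]
      rw [inner_smul_right, h0, mul_zero]
    exact key _ h1
  have h3 : ‖v‖ * ‖v‖ = ‖v - p‖ * ‖v - p‖ + ‖p‖ * ‖p‖ := by
    have := norm_add_sq_eq_norm_sq_add_norm_sq_of_inner_eq_zero (v - p) p h2
    rwa [sub_add_cancel] at this
  nlinarith [norm_nonneg v, norm_nonneg (v - p), norm_nonneg p]

/-- A rank-one operator is compact. -/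
theorem isCompactOperator_rankOne781 {H : Type*} [NormedAddCommGroup H] [InnerProductSpace ℂ H]
    (v w : H) : IsCompactOperator ((innerSL ℂ v).smulRight w : H →L[ℂ] H) := by
  have h1 : IsCompactOperator (innerSL ℂ v : H →L[ℂ] ℂ) :=
    isCompactOperator_of_locallyCompactSpace_dom (innerSL ℂ v)
  have h2 := h1.clm_comp ((ContinuousLinearMap.id ℂ ℂ).smulRight w : ℂ →L[ℂ] H)
  have h3 : (((ContinuousLinearMap.id ℂ ℂ).smulRight w : ℂ →L[ℂ] H) ∘ (innerSL ℂ v : H →L[ℂ] ℂ))
      = ((innerSL ℂ v).smulRight w : H →L[ℂ] H) := by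
    funext x
    simp
  rw [← h3]
  exact h2

/-- The finite-rank operator `z ↦ ∑ i, ⟪x i, z⟫ • w i`. -/
def finRank781 {H : Type*} [NormedAddCommGroup H] [InnerProductSpace ℂ H] {n : ℕ}
    (x w : Fin n → H) : H →L[ℂ] H :=
  ∑ i, (innerSL ℂ (x i)).smulRight (w i)

theorem finRank781_apply {H : Type*} [NormedAddCommGroup H] [InnerProductSpace ℂ H] {n : ℕ}
    (x w : Fin n → H) (z : H) : finRank781 x w z = ∑ i, inner ℂ (x i) z • w i := by
  simp [finRank781]

theorem isCompactOperator_finRank781 {H : Type*} [NormedAddCommGroup H] [InnerProductSpace ℂ H]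
    {n : ℕ} (x w : Fin n → H) : IsCompactOperator (finRank781 x w) := by
  classical
  have key : ∀ s : Finset (Fin n),
      IsCompactOperator (∑ i ∈ s, (innerSL ℂ (x i)).smulRight (w i) : H →L[ℂ] H) := by
    intro s
    induction s using Finset.induction_on with
    | empty =>
      rw [Finset.sum_empty]
      exact isCompactOperator_zero
    | insert a s ha ih =>
      rw [Finset.sum_insert ha]
      have := (isCompactOperator_rankOne781 (x a) (w a)).add ih
      simpa using this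
  exact key Finset.univ

/-- **Compactness.**  The extension to the completion of an operator of `V` which satisfies the
Hilbert--Schmidt bound on the finite orthonormal families OF `V` is compact. -/
theorem isCompactOperator_ext781 (A : V →L[ℂ] V) (C : ℝ)
    (hHS : ∀ (n : ℕ) (x : Fin n → V), Orthonormal ℂ x → ∑ i, ‖A (x i)‖ ^ 2 ≤ C) :
    IsCompactOperator (ext781 A) := by
  have hcl : IsClosed {f : Completion V →L[ℂ] Completion V | IsCompactOperator f} :=
    isClosed_setOfPred_isCompactOperator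
  have hmem : ext781 A ∈ closure {f : Completion V →L[ℂ] Completion V | IsCompactOperator f} := by
    rw [Metric.mem_closure_iff]
    intro ε hε
    obtain ⟨n, x, hx, hsmall⟩ :=
      exists_orthonormal_small781 (A : V →ₗ[ℂ] V) C hHS (half_pos hε)
    refine ⟨finRank781 (fun i => ((x i : V) : Completion V))
      (fun i => ((A (x i) : V) : Completion V)), isCompactOperator_finRank781 _ _, ?_⟩
    rw [dist_eq_norm]
    refine lt_of_le_of_lt (ContinuousLinearMap.opNorm_le_bound _ (half_pos hε).le ?_)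
      (half_lt_self hε)
    intro z
    induction z using Completion.induction_on with
    | hp =>
      exact isClosed_le (by fun_prop) (by fun_prop)
    | ih v =>
      obtain ⟨h1, h2⟩ := orth_part781 hx v
      have h3 : (ext781 A - finRank781 (fun i => ((x i : V) : Completion V))
          (fun i => ((A (x i) : V) : Completion V))) (v : Completion V)
          = ((A (v - ∑ i, inner ℂ (x i) v • x i) : V) : Completion V) := by
        have hsum : ((∑ i, A (inner ℂ (x i) v • x i) : V) : Completion V)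
            = ∑ i, ((A (inner ℂ (x i) v • x i) : V) : Completion V) :=
          map_sum (emb781 V) _ _
        rw [sub_apply, ext781_coe, finRank781_apply, map_sub, map_sum,
          Completion.coe_sub, hsum]
        congr 1
        refine Finset.sum_congr rfl fun i _ => ?_
        rw [Completion.inner_coe, map_smul, Completion.coe_smul]
      rw [h3, Completion.norm_coe, Completion.norm_coe]
      calc ‖A (v - ∑ i, inner ℂ (x i) v • x i)‖
          ≤ ε / 2 * ‖v - ∑ i, inner ℂ (x i) v • x i‖ := hsmall _ h1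
        _ ≤ ε / 2 * ‖v‖ := by gcongr
  exact hcl.closure_subset hmem

/-! ## From linear maps with a bound to bounded operators -/

open Classical in
/-- The bounded operator of a linear map which has a bound (and `0` otherwise). -/
def toC781 (A : V →ₗ[ℂ] V) : V →L[ℂ] V :=
  if h : ∃ C : ℝ, ∀ x : V, ‖A x‖ ≤ C * ‖x‖ then A.mkContinuous h.choose h.choose_spec else 0

theorem toC781_apply {A : V →ₗ[ℂ] V} (h : ∃ C : ℝ, ∀ x : V, ‖A x‖ ≤ C * ‖x‖) (x : V) :
    toC781 A x = A x := by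
  rw [toC781, dif_pos h]
  rfl

/-- The operator of the completion attached to a linear map of `V`. -/
def op781 (A : V →ₗ[ℂ] V) : Completion V →L[ℂ] Completion V := ext781 (toC781 A)

theorem op781_coe {A : V →ₗ[ℂ] V} (h : ∃ C : ℝ, ∀ x : V, ‖A x‖ ≤ C * ‖x‖) (x : V) :
    op781 A (x : Completion V) = ((A x : V) : Completion V) := by
  rw [op781, ext781_coe, toC781_apply h]

/-- A vector of the completion which is orthogonal to `V` is zero. -/
theorem eq_zero_of_orth781 (z : Completion V)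
    (h : ∀ v : V, inner ℂ z (v : Completion V) = 0) : z = 0 := by
  have h1 : ∀ w : Completion V, inner ℂ z w = 0 := by
    intro w
    induction w using Completion.induction_on with
    | hp =>
      have hc : Continuous fun w : Completion V => inner ℂ z w :=
        Completion.Continuous.inner continuous_const continuous_id
      exact isClosed_eq hc continuous_const
    | ih v => exact h v
  exact inner_self_eq_zero.1 (h1 z)

omit [InnerProductSpace ℂ V] in
/-- Every vector of the completion is the limit of a Cauchy sequence of `V`. -/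
theorem exists_seq781 (z : Completion V) :
    ∃ v : ℕ → V, CauchySeq v ∧
      Filter.Tendsto (fun k => ((v k : V) : Completion V)) Filter.atTop (nhds z) := by
  have hz : z ∈ closure (Set.range ((↑) : V → Completion V)) := by
    rw [(Completion.denseRange_coe (α := V)).closure_range]
    exact Set.mem_univ z
  obtain ⟨u, hu, hlim⟩ := mem_closure_iff_seq_limit.1 hz
  choose v hv using hu
  have huv : (fun k => ((v k : V) : Completion V)) = u := funext hv
  refine ⟨v, ?_, huv ▸ hlim⟩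
  have hc : CauchySeq (fun k => ((v k : V) : Completion V)) := by
    rw [huv]
    exact hlim.cauchySeq
  have h1 : Cauchy (Filter.map ((↑) : V → Completion V) (Filter.map v Filter.atTop)) := by
    rw [Filter.map_map]
    exact hc
  exact (Completion.isUniformInducing_coe V).cauchy_map_iff.1 h1

/-! ## The abstract spectral theorem -/

/-- **Abstract spectral theorem** on a pre-Hilbert space (the statement of
`Fermat.Agent.LT.T2.AbstractSpectral`, written out). -/
theorem abstractSpectral781 (V : Type) [NormedAddCommGroup V] [InnerProductSpace ℂ V]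
    (𝒜 𝒞 : Set (V →ₗ[ℂ] V))
    (hCA : 𝒞 ⊆ 𝒜)
    (hcomm : ∀ A ∈ 𝒜, ∀ B ∈ 𝒜, A ∘ₗ B = B ∘ₗ A)
    (hadj : ∀ A ∈ 𝒜, ∃ B ∈ 𝒜, ∀ x y : V, inner ℂ (A x) y = inner ℂ x (B y))
    (hbdd : ∀ A ∈ 𝒜, ∃ C : ℝ, ∀ x : V, ‖A x‖ ≤ C * ‖x‖)
    (hHS : ∀ A ∈ 𝒞, ∃ C : ℝ, ∀ (n : ℕ) (x : Fin n → V), Orthonormal ℂ x →
      ∑ i, ‖A (x i)‖ ^ 2 ≤ C)
    (hreg : ∀ A ∈ 𝒞, ∀ x : ℕ → V, CauchySeq x →
      ∃ y : V, Filter.Tendsto (fun k => A (x k)) Filter.atTop (nhds y))
    (hnd : ∀ x : V, ∀ ε : ℝ, 0 < ε → ∃ A ∈ 𝒞, ‖A x - x‖ < ε) :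
    ∃ (ι : Type) (e : ι → V), Orthonormal ℂ e ∧
      (∀ A ∈ 𝒜, ∀ i, ∃ c : ℂ, A (e i) = c • e i) ∧
      ∀ x : V, HasSum (fun i => ‖inner ℂ (e i) x‖ ^ 2) (‖x‖ ^ 2) := by
  classical
  -- the families of operators of the completion
  set 𝒯 : Set (Completion V →L[ℂ] Completion V) := op781 '' 𝒜 with h𝒯
  set Kc : Set (Completion V →L[ℂ] Completion V) := op781 '' 𝒞 with hKc
  have hcoe : ∀ A ∈ 𝒜, ∀ x : V, op781 A (x : Completion V) = ((A x : V) : Completion V) :=
    fun A hA x => op781_coe (hbdd A hA) x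
  have hcomm' : ∀ S ∈ 𝒯, ∀ T ∈ 𝒯, S * T = T * S := by
    rintro _ ⟨A, hA, rfl⟩ _ ⟨B, hB, rfl⟩
    refine ext781_mul _ _ fun x => ?_
    rw [toC781_apply (hbdd A hA), toC781_apply (hbdd B hB), toC781_apply (hbdd A hA),
      toC781_apply (hbdd B hB)]
    exact congrArg (fun f : V →ₗ[ℂ] V => f x) (hcomm A hA B hB)
  have hadj' : ∀ A ∈ 𝒜, ∀ B ∈ 𝒜, (∀ x y : V, inner ℂ (A x) y = inner ℂ x (B y)) →
      adjoint (op781 A) = op781 B := by
    intro A hA B hB h
    refine ext781_adjoint _ _ fun x y => ?_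
    rw [toC781_apply (hbdd A hA), toC781_apply (hbdd B hB)]
    exact h x y
  have hstar : ∀ T ∈ 𝒯, adjoint T ∈ 𝒯 := by
    rintro _ ⟨A, hA, rfl⟩
    obtain ⟨B, hB, h⟩ := hadj A hA
    exact ⟨B, hB, (hadj' A hA B hB h).symm⟩
  have hK : Kc ⊆ 𝒯 := Set.image_mono hCA
  have hcpt : ∀ k ∈ Kc, IsCompactOperator k := by
    rintro _ ⟨A, hA, rfl⟩
    obtain ⟨C, hC⟩ := hHS A hA
    refine isCompactOperator_ext781 (toC781 A) C fun n x hx => ?_
    simpa only [toC781_apply (hbdd A (hCA hA))] using hC n x hx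
  have hnd' : ∀ z : Completion V, (∀ k ∈ Kc, k z = 0) → z = 0 := by
    intro z hz
    refine eq_zero_of_orth781 z fun v => ?_
    -- `z` is orthogonal to the range of every operator of `𝒞`
    have h1 : ∀ A ∈ 𝒞, inner ℂ z (((A v : V)) : Completion V) = 0 := by
      intro A hA
      have hT : op781 A ∈ 𝒯 := ⟨A, hCA hA, rfl⟩
      have hn : adjoint (op781 A) * op781 A = op781 A * adjoint (op781 A) :=
        hcomm' _ (hstar _ hT) _ hT
      have h0 : adjoint (op781 A) z = 0 := by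
        have := Fermat.Agent.LT.H751.adjoint_apply_of_eigen751 (op781 A) hn z 0
          (by rw [hz _ ⟨A, hA, rfl⟩, zero_smul])
        simpa using this
      rw [← hcoe A (hCA hA) v, ← adjoint_inner_left, h0, inner_zero_left]
    have h2 : ∀ δ : ℝ, 0 < δ → ‖inner ℂ z (v : Completion V)‖ ≤ 0 + δ := by
      intro δ hδ
      have hpos : 0 < δ / (‖z‖ + 1) := div_pos hδ (by positivity)
      obtain ⟨A, hA, hAv⟩ := hnd v _ hpos
      have h3 : inner ℂ z (v : Completion V)
          = inner ℂ z (((v - A v : V)) : Completion V) := by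
        rw [Completion.coe_sub, inner_sub_right, h1 A hA, sub_zero]
      rw [h3, zero_add]
      calc ‖inner ℂ z (((v - A v : V)) : Completion V)‖
          ≤ ‖z‖ * ‖(((v - A v : V)) : Completion V)‖ := norm_inner_le_norm _ _
        _ = ‖z‖ * ‖A v - v‖ := by rw [Completion.norm_coe, norm_sub_rev]
        _ ≤ ‖z‖ * (δ / (‖z‖ + 1)) := by gcongr
        _ ≤ δ := by
            rw [mul_div_assoc']
            rw [div_le_iff₀ (by positivity)]
            nlinarith [norm_nonneg z]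
    exact norm_le_zero_iff.1 (le_of_forall_pos_le_add h2)
  -- the joint eigenbasis of the completion
  obtain ⟨ι, b, hb⟩ :=
    Fermat.Agent.LT.H751.exists_hilbertBasis_joint_eigen751 𝒯 Kc hcomm' hstar hK hcpt hnd'
  -- the eigenvectors lie in `V`
  have hV : ∀ i : ι, ∃ y : V, ((y : V) : Completion V) = b i := by
    intro i
    have hbi : b i ≠ 0 := b.orthonormal.ne_zero i
    obtain ⟨k, hk, hkb⟩ : ∃ k ∈ Kc, k (b i) ≠ 0 := by
      by_contra h
      push Not at h
      exact hbi (hnd' _ h)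
    obtain ⟨A, hA, rfl⟩ := hk
    obtain ⟨c, hc⟩ := hb i _ (hK ⟨A, hA, rfl⟩)
    have hc0 : c ≠ 0 := by
      rintro rfl
      exact hkb (by rw [hc, zero_smul])
    obtain ⟨v, hvC, hvlim⟩ := exists_seq781 (b i)
    obtain ⟨y, hy⟩ := hreg A hA v hvC
    have h1 : Filter.Tendsto (fun k => ((A (v k) : V) : Completion V)) Filter.atTop
        (nhds ((y : V) : Completion V)) :=
      ((Completion.continuous_coe V).tendsto y).comp hy
    have h2 : Filter.Tendsto (fun k => ((A (v k) : V) : Completion V)) Filter.atTop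
        (nhds (op781 A (b i))) := by
      have := ((op781 A).continuous.tendsto (b i)).comp hvlim
      refine this.congr fun k => ?_
      exact hcoe A (hCA hA) (v k)
    have h3 : ((y : V) : Completion V) = c • b i := by
      rw [← hc]
      exact tendsto_nhds_unique h1 h2
    refine ⟨c⁻¹ • y, ?_⟩
    rw [Completion.coe_smul, h3, smul_smul, inv_mul_cancel₀ hc0, one_smul]
  choose e he using hV
  have hinner : ∀ i (x : V), inner ℂ (e i) x = inner ℂ (b i) (x : Completion V) := by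
    intro i x
    rw [← he i, Completion.inner_coe]
  refine ⟨ι, e, ?_, ?_, ?_⟩
  · rw [orthonormal_iff_ite]
    intro i j
    rw [hinner, he j]
    exact orthonormal_iff_ite.1 b.orthonormal i j
  · intro A hA i
    obtain ⟨c, hc⟩ := hb i _ ⟨A, hA, rfl⟩
    refine ⟨c, Completion.coe_injective V ?_⟩
    rw [← hcoe A hA, he i, hc, Completion.coe_smul, he i]
  · intro x
    have h1 := b.hasSum_inner_mul_inner (x : Completion V) (x : Completion V)
    have h2 : (fun i => inner ℂ (x : Completion V) (b i) * inner ℂ (b i) (x : Completion V))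
        = fun i => (((‖inner ℂ (e i) x‖ ^ 2 : ℝ)) : ℂ) := by
      funext i
      rw [hinner, ← inner_conj_symm (x : Completion V) (b i), Complex.conj_mul']
      push_cast
      rfl
    have h3 : inner ℂ (x : Completion V) (x : Completion V) = (((‖x‖ ^ 2 : ℝ)) : ℂ) := by
      rw [Completion.inner_coe, inner_self_eq_norm_sq_to_K]
      push_cast
      rfl
    rw [h2, h3] at h1
    exact Complex.hasSum_ofReal.1 h1

end

end Fermat.Agent.LT.T2.H781

end
-- ===== PACK-END LT/T2/H781/AbsSpec.lean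

-- ===== PACK-BEGIN LT/T6/H60/EllUnrSpec.lean
section



/-!
# Row LT, tower T6, leaf T6.13 (`FLEllUnrC`) -- sub-spec (helper60), OFF-MAIN

The fundamental lemma for `GL₂` at a regular elliptic `γ` with `k[γ]/k` UNRAMIFIED
([L] = Langlands, *Base change for GL(2)*, §5) is cut into three leaves:

* `BCGeoC` (T6.13.1, pure algebra): the base-change relation `IsBC` turns the weighted count
  `wGeo` on the tree of `k` into the weighted count `wTw` on the tree of `k'`;
* `OrbEllUnrC` (T6.13.2): the orbital integral of a spherical function at `γ` is the sum over the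
  vertices `p` of the tree of `k` of `f (inv (p, γ p))`, i.e. `∑ f(λ) · wGeo q r j λ`, where
  `ord det γ = 2 j`, `ord disc γ = 2 j + 2 r` (`γ = ϖ^j u`, the fixed points of `u` are the ball of
  radius `r` around the vertex of `𝒪_{k[γ]}`);
* `TwOrbEllUnrC` (T6.13.3): the twisted orbital integral at `δ` (`N δ ∼ γ`) is the sum over the
  vertices `p` of the tree of `k'` of `φ (inv (p, δ σ p))`, i.e. `∑ φ(λ) · wTw q l r j λ`.

`flEllUnr_of_leaves : BCGeoC → OrbEllUnrC → TwOrbEllUnrC → FLEllUnrC` is PROVED here.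

Counts (tree of valency `q + 1`, `V = ballCard q r` = number of vertices of a ball of radius `r`):
`#{p : inv (p, γ p) = (j, j)} = V`, `#{p : inv (p, γ p) = (j + d, j - d)} = (q + 1) q^(r + d - 1)`
(`d ≥ 1`).  Twisted, `Q = q ^ l`, `F = δ σ`, `F ^ l = γ`: if `l ∣ j` then `F` fixes a vertex, its
fixed points are `V` in number (the ball of radius `r` of the tree of `k`), and
`#{p : inv (p, F p) = (j/l + d, j/l - d)} = ((Q - 1) V + 2) Q^(d - 1)`; if `l ∤ j` then `l = 2`,
`k' ≅ k[γ]`, `F` inverts an edge and `#{p : inv (p, F p) = (a, b)} = 2 Q^e` for `a + b = j`,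
`a - b = 2 e + 1`.
-/

set_option autoImplicit false

open scoped Matrix

noncomputable section

namespace Fermat.Agent.LT.T6.H60

open Fermat.Agent.LT.T6

/-- The (additive) valuation of `det γ`. -/
def ordDet {k : Type} [Field k] [Valued k Γ₀] (γ : GL (Fin 2) k) : ℤ :=
  - WithZero.log (Valued.v (γ : Matrix (Fin 2) (Fin 2) k).det)

/-- The (additive) valuation of the discriminant of `γ`. -/
def ordDisc {k : Type} [Field k] [Valued k Γ₀] (γ : GL (Fin 2) k) : ℤ :=
  - WithZero.log (Valued.v (disc γ))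

/-- The number of vertices of a ball of radius `r` in a tree of valency `q + 1`. -/
def ballCard (q r : ℕ) : ℕ := 1 + (q + 1) * ∑ i ∈ Finset.range r, q ^ i

/-- The generic weight: `V` at `(j, j)`, `((q - 1) V + 2) q^(d - 1)` at `(j + d, j - d)`, `d ≥ 1`,
`0` elsewhere: the number of vertices `p` with `inv (p, g p) = lam` for an automorphism `g` of a
tree of valency `q + 1` with exactly `V ≥ 1` fixed vertices, acting on lattices with
`ord det = 2 j`. -/
def wFix (q : ℂ) (V : ℂ) (j : ℤ) (lam : ℤ × ℤ) : ℂ :=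
  if lam.1 + lam.2 = 2 * j then
    if lam.1 = lam.2 then V
    else if lam.2 < lam.1 then ((q - 1) * V + 2) * q ^ ((lam.1 - j).toNat - 1)
    else 0
  else 0

/-- The weight of `lam` on the tree of `k` (`γ = ϖ^j u`, `u` fixes the ball of radius `r`). -/
def wGeo (q r : ℕ) (j : ℤ) (lam : ℤ × ℤ) : ℂ :=
  wFix (q : ℂ) (ballCard q r : ℂ) j lam

/-- The twisted weight of `lam` on the tree of `k'` (valency `q ^ l + 1`) when `δ σ` fixes a
vertex (`ord det δ = 2 j'`). -/
def wTwEven (q l r : ℕ) (j' : ℤ) (lam : ℤ × ℤ) : ℂ :=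
  wFix ((q : ℂ) ^ l) (ballCard q r : ℂ) j' lam

/-- The twisted weight of `lam` on the tree of `k'` (`l = 2`, valency `q ^ 2 + 1`) when `δ σ`
inverts an edge (`ord det δ = j` odd): `2 (q²)^e` at `lam = (a, b)`, `a + b = j`,
`a - b = 2 e + 1`. -/
def wTwOdd (q : ℕ) (j : ℤ) (lam : ℤ × ℤ) : ℂ :=
  if lam.1 + lam.2 = j ∧ lam.2 < lam.1 then
    2 * ((q : ℂ) ^ 2) ^ ((lam.1 - lam.2 - 1) / 2).toNat
  else 0

/-- The twisted weight. -/
def wTw (q l r : ℕ) (j : ℤ) (lam : ℤ × ℤ) : ℂ :=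
  if (l : ℤ) ∣ j then wTwEven q l r (j / (l : ℤ)) lam else wTwOdd q j lam

/-- **T6.13.1 (BCGeo), pure algebra.**  If `f = b(φ)` then the weighted counts agree. -/
def BCGeoC : Prop :=
  ∀ (q l r : ℕ) (j : ℤ), 1 < q → l.Prime → ((l : ℤ) ∣ j ∨ l = 2) →
    ∀ φ f : (ℤ × ℤ) →₀ ℂ, IsDominant φ → IsDominant f → IsBC l q φ f →
      (f.sum fun lam c => c * wGeo q r j lam) = φ.sum fun lam c => c * wTw q l r j lam

/-- **T6.13.2 (OrbEllUnr).**  The orbital integral at a regular elliptic `γ` with `k[γ]/k`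
unramified, as a weighted count on the tree of `k`. -/
def OrbEllUnrC : Prop :=
  ∀ (k : Type) [Field k] [Valued k Γ₀] (q : ℕ), IsLocalField k q →
    ∀ γ : GL (Fin 2) k, IsReg γ → ¬ HasEigen k γ → ¬ HasRamUnif k γ →
      ∃ (j : ℤ) (r : ℕ), ordDet γ = 2 * j ∧ ordDisc γ = 2 * j + 2 * (r : ℤ) ∧
        ∀ (f : (ℤ × ℤ) →₀ ℂ) (c' : ℂ), IsOrbSum 0 (fun g => f (cartan g)) γ c' →
          c' = f.sum fun lam c => c * wGeo q r j lam

/-- **T6.13.3 (TwOrbEllUnr).**  The twisted orbital integral at `δ`, `N δ ∼ γ` regular elliptic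
with `k[γ]/k` unramified, as a weighted count on the tree of `k'`. -/
def TwOrbEllUnrC : Prop :=
  ∀ (k k' : Type) [Field k] [Field k'] [Valued k Γ₀] [Valued k' Γ₀] (q l : ℕ)
    (i : k →+* k') (s : k' ≃+* k'),
    IsLocalField k q → IsLocalField k' (q ^ l) → IsLocalExt k k' l 1 i s → l.Prime →
    ∀ (δ : GL (Fin 2) k') (γ : GL (Fin 2) k), IsReg γ → ¬ HasEigen k γ → ¬ HasRamUnif k γ →
      IsConj (twNorm s l δ) (Matrix.GeneralLinearGroup.map i γ) →
      ∀ (j : ℤ) (r : ℕ), ordDet γ = 2 * j → ordDisc γ = 2 * j + 2 * (r : ℤ) →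
        ((l : ℤ) ∣ j ∨ l = 2) ∧
        ∀ (φ : (ℤ × ℤ) →₀ ℂ) (c : ℂ), IsTwOrbSum s 0 (fun g => φ (cartan g)) δ c →
          c = φ.sum fun lam a => a * wTw q l r j lam

/-- The residue field of a local field has at least two elements. -/
theorem one_lt_of_isLocalField {k : Type} [Field k] [Valued k Γ₀] {q : ℕ}
    (h : IsLocalField k q) : 1 < q := by
  obtain ⟨T, hT, -, -, hrep⟩ := h.residue
  obtain ⟨x0, hx0, h0⟩ := hrep 0 (by simp)
  obtain ⟨x1, hx1, h1⟩ := hrep 1 (by simp)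
  have hne : x0 ≠ x1 := by
    rintro rfl
    have e : (1 : k) = (1 - x0) - (0 - x0) := by ring
    have h2 : Valued.v (1 : k) < 1 := by
      rw [e]
      exact lt_of_le_of_lt (Valuation.map_sub _ _ _) (max_lt h1 h0)
    simp at h2
  rw [← hT]
  exact Finset.one_lt_card.2 ⟨x0, hx0, x1, hx1, hne⟩

/-- **T6.13 from its three leaves.** -/
theorem flEllUnr_of_leaves (hA : BCGeoC) (hG : OrbEllUnrC) (hT : TwOrbEllUnrC) : FLEllUnrC := by
  intro k k' _ _ _ _ q l i s hk hk' hext hl φ f hφ hf hbc δ γ c c' hreg hP hconj hc hc'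
  obtain ⟨j, r, hj, hr, hgeo⟩ := hG k q hk γ hreg hP.1 hP.2
  obtain ⟨hdvd, htw⟩ := hT k k' q l i s hk hk' hext hl δ γ hreg hP.1 hP.2 hconj j r hj hr
  rw [htw φ c hc, hgeo f c' hc']
  exact (hA q l r j (one_lt_of_isLocalField hk) hl hdvd φ f hφ hf hbc).symm

end Fermat.Agent.LT.T6.H60

end
end
-- ===== PACK-END LT/T6/H60/EllUnrSpec.lean

-- ===== PACK-BEGIN LT/T6/H944/OrbSumUniq.lean
section


/-!
# Row LT, tower T6, leaf T6.09 `OrbSumUniqC` (helper944) -- OFF-MAIN

`orbSumUniqC944 : Fermat.Agent.LT.T6.OrbSumUniqC` (unconditional), VERBATIM against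
`Fermat/Agent/LT/T6/Spec.lean` of helper22.

The orbit sum does not depend on the set of representatives.

* `orbSumGen_unique944` : the abstract statement, for ANY group `Γ` with an endomorphism `s`, any
  predicate `U` closed under products and inverses and stable under `s`, any bi-`U`-invariant
  `φ`, and any predicate `C` ("compact part of the twisted centraliser") which is compatible
  with `s`-conjugation by `U`.  Two systems of representatives are in bijection on the support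
  of `φ`, the bijection preserves `φ` and the index `cIndex`.
* `inU_mul944`, `inU_inv944`, `inU_glAut944` : `U(n)` is closed under products and inverses and is
  stable under an automorphism of the field which preserves the valuation.
* `inTwCentC_conj944` : the compact part of the twisted centraliser of `u⁻¹ y s(u)` is the
  conjugate of the one of `y` (trace and determinant are invariant under conjugation).

The abstract statement also applies verbatim to `IsSplitOrbSum` (it is an `IsOrbSumGen`).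
-/

set_option autoImplicit false

open scoped Matrix

noncomputable section

namespace Fermat.Agent.LT.T6.H944

open Fermat.Agent.LT.T6

/-! ## 1. The abstract statement -/

section Abstract

variable {Γ : Type} [Group Γ]

/-- The index `cIndex` is invariant under `s`-conjugation by an element of `U`. -/
theorem cIndex_conj944 (s : Γ →* Γ) (U : Γ → Prop) (C : Γ → Γ → Prop)
    (hmul : ∀ u v : Γ, U u → U v → U (u * v)) (hinv : ∀ u : Γ, U u → U u⁻¹)
    (hC : ∀ y u t : Γ, U u → (C (u⁻¹ * y * s u) t ↔ C y (u * t * u⁻¹)))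
    (y u : Γ) (hu : U u) :
    cIndex U C (u⁻¹ * y * s u) = cIndex U C y := by
  unfold cIndex
  have himg : {c : Set Γ | ∃ t : Γ, C (u⁻¹ * y * s u) t ∧
        c = {g : Γ | ∃ v : Γ, U v ∧ g = t * v}}
      = (fun c : Set Γ => (fun g : Γ => u⁻¹ * g) '' c) ''
        {c : Set Γ | ∃ t : Γ, C y t ∧ c = {g : Γ | ∃ v : Γ, U v ∧ g = t * v}} := by
    ext c
    constructor
    · rintro ⟨t, ht, rfl⟩
      refine ⟨{g : Γ | ∃ v : Γ, U v ∧ g = (u * t * u⁻¹) * v},
        ⟨u * t * u⁻¹, (hC y u t hu).1 ht, rfl⟩, ?_⟩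
      ext g
      constructor
      · rintro ⟨g', ⟨v, hv, rfl⟩, rfl⟩
        exact ⟨u⁻¹ * v, hmul _ _ (hinv _ hu) hv, by group⟩
      · rintro ⟨v, hv, rfl⟩
        exact ⟨u * t * u⁻¹ * (u * v), ⟨u * v, hmul _ _ hu hv, rfl⟩, by group⟩
    · rintro ⟨c', ⟨t', ht', rfl⟩, rfl⟩
      refine ⟨u⁻¹ * t' * u, ?_, ?_⟩
      · rw [hC y u _ hu]
        have h1 : u * (u⁻¹ * t' * u) * u⁻¹ = t' := by group
        rw [h1]
        exact ht'
      · ext g
        constructor
        · rintro ⟨g', ⟨v, hv, rfl⟩, rfl⟩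
          exact ⟨u⁻¹ * v, hmul _ _ (hinv _ hu) hv, by group⟩
        · rintro ⟨v, hv, rfl⟩
          exact ⟨t' * (u * v), ⟨u * v, hmul _ _ hu hv, rfl⟩, by group⟩
  rw [himg]
  exact Set.ncard_image_of_injective _ (Set.image_injective.mpr (mul_right_injective u⁻¹))

/-- **Uniqueness of the orbit sum, abstract form.** -/
theorem orbSumGen_unique944 (s : Γ →* Γ) (U : Γ → Prop) (C : Γ → Γ → Prop) (φ : Γ → ℂ) (δ : Γ)
    (hmul : ∀ u v : Γ, U u → U v → U (u * v)) (hinv : ∀ u : Γ, U u → U u⁻¹)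
    (hs : ∀ u : Γ, U u → U (s u)) (hφ : IsBiInv U φ)
    (hC : ∀ y u t : Γ, U u → (C (u⁻¹ * y * s u) t ↔ C y (u * t * u⁻¹)))
    {c c' : ℂ} (h : IsOrbSumGen s U C φ δ c) (h' : IsOrbSumGen s U C φ δ c') : c = c' := by
  classical
  obtain ⟨R, hR1, hR2, hR3, rfl⟩ := h
  obtain ⟨R', hR1', hR2', hR3', rfl⟩ := h'
  -- the term is invariant under `s`-conjugation by `U`
  have hterm : ∀ (y u : Γ), U u →
      φ (u⁻¹ * y * s u) * (cIndex U C (u⁻¹ * y * s u) : ℂ) = φ y * (cIndex U C y : ℂ) := by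
    intro y u hu
    rw [cIndex_conj944 s U C hmul hinv hC y u hu, hφ u⁻¹ (s u) y (hinv u hu) (hs u hu)]
  have hφne : ∀ y : Γ, φ y * (cIndex U C y : ℂ) ≠ 0 → φ y ≠ 0 := fun y hy h0 =>
    hy (by rw [h0, zero_mul])
  -- the choice of the representative in `R'`
  have hex : ∀ y ∈ R, φ y * (cIndex U C y : ℂ) ≠ 0 →
      ∃ y' ∈ R', ∃ u : Γ, U u ∧ y = u⁻¹ * y' * s u := fun y hy hne =>
    hR3' y (hR1 y hy) (hφne y hne)
  refine Finset.sum_bij_ne_zero (fun y hy hne => Classical.choose (hex y hy hne))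
    (fun y hy hne => (Classical.choose_spec (hex y hy hne)).1) ?_ ?_ ?_
  · -- injectivity
    intro y₁ hy₁ hne₁ y₂ hy₂ hne₂ heq
    have hspec₁ := Classical.choose_spec (hex y₁ hy₁ hne₁)
    have hspec₂ := Classical.choose_spec (hex y₂ hy₂ hne₂)
    rw [← heq] at hspec₂
    generalize Classical.choose (hex y₁ hy₁ hne₁) = z at hspec₁ hspec₂
    obtain ⟨-, u₁, hu₁, e₁⟩ := hspec₁
    obtain ⟨-, u₂, hu₂, e₂⟩ := hspec₂
    refine hR2 y₁ hy₁ y₂ hy₂ ⟨u₁⁻¹ * u₂, hmul _ _ (hinv _ hu₁) hu₂, ?_⟩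
    rw [e₂, e₁, map_mul, map_inv]
    group
  · -- surjectivity
    intro b hb hne
    obtain ⟨y, hy, u, hu, e⟩ := hR3 b (hR1' b hb) (hφne b hne)
    have hney : φ y * (cIndex U C y : ℂ) ≠ 0 := by
      rw [← hterm y u hu, ← e]
      exact hne
    refine ⟨y, hy, hney, ?_⟩
    have hspec := Classical.choose_spec (hex y hy hney)
    generalize Classical.choose (hex y hy hney) = y'' at hspec ⊢
    obtain ⟨hmem, w, hw, e'⟩ := hspec
    refine hR2' _ hmem b hb ⟨w * u, hmul _ _ hw hu, ?_⟩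
    rw [e, e', map_mul]
    group
  · -- the terms agree
    intro y hy hne
    have hspec := Classical.choose_spec (hex y hy hne)
    generalize Classical.choose (hex y hy hne) = z at hspec ⊢
    obtain ⟨-, u, hu, e⟩ := hspec
    rw [e]
    exact hterm _ u hu

end Abstract

/-! ## 2. The congruence subgroups `U(n)` -/

section Local

variable {k : Type} [Field k] [Valued k Γ₀]

/-- `exp (-n) ≤ 1`. -/
theorem exp_neg_le_one944 (n : ℕ) : (WithZero.exp (-(n : ℤ)) : Γ₀) ≤ 1 := by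
  rw [← WithZero.exp_zero]
  exact WithZero.exp_le_exp.mpr (by omega)

/-- The entries of `M - 1` have valuation at most `exp (-n)`. -/
def Near944 (n : ℕ) (M : Matrix (Fin 2) (Fin 2) k) : Prop :=
  ∀ i j : Fin 2, Valued.v (M i j - (1 : Matrix (Fin 2) (Fin 2) k) i j) ≤ WithZero.exp (-(n : ℤ))

theorem inU_iff944 (n : ℕ) (g : GL (Fin 2) k) :
    InU n g ↔ Near944 n (g : Matrix (Fin 2) (Fin 2) k) ∧
      Near944 n ((g⁻¹ : GL (Fin 2) k) : Matrix (Fin 2) (Fin 2) k) :=
  ⟨fun h => ⟨fun i j => (h i j).1, fun i j => (h i j).2⟩, fun h i j => ⟨h.1 i j, h.2 i j⟩⟩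

theorem near_mul944 (n : ℕ) {A B : Matrix (Fin 2) (Fin 2) k} (hA : Near944 n A)
    (hB : Near944 n B) : Near944 n (A * B) := by
  intro i j
  have e : A * B - 1 = (A - 1) * (B - 1) + (A - 1) + (B - 1) := by noncomm_ring
  have e' : (A * B) i j - (1 : Matrix (Fin 2) (Fin 2) k) i j
      = ((A - 1) * (B - 1)) i j + (A i j - (1 : Matrix (Fin 2) (Fin 2) k) i j)
        + (B i j - (1 : Matrix (Fin 2) (Fin 2) k) i j) := by
    have := congrFun (congrFun e i) j
    simpa [Matrix.sub_apply, Matrix.add_apply] using this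
  rw [e']
  refine Valuation.map_add_le _ (Valuation.map_add_le _ ?_ (hA i j)) (hB i j)
  rw [Matrix.mul_apply]
  refine Valuation.map_sum_le _ (fun l _ => ?_)
  rw [Valuation.map_mul]
  calc Valued.v ((A - 1) i l) * Valued.v ((B - 1) l j)
      ≤ WithZero.exp (-(n : ℤ)) * 1 :=
        mul_le_mul' (by simpa [Matrix.sub_apply] using hA i l)
          (le_trans (by simpa [Matrix.sub_apply] using hB l j) (exp_neg_le_one944 n))
    _ = WithZero.exp (-(n : ℤ)) := mul_one _

/-- `U(n)` is closed under products. -/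
theorem inU_mul944 (n : ℕ) (g h : GL (Fin 2) k) (hg : InU n g) (hh : InU n h) :
    InU n (g * h) := by
  rw [inU_iff944] at hg hh ⊢
  refine ⟨?_, ?_⟩
  · rw [Units.val_mul]
    exact near_mul944 n hg.1 hh.1
  · rw [mul_inv_rev, Units.val_mul]
    exact near_mul944 n hh.2 hg.2

/-- `U(n)` is closed under inverses. -/
theorem inU_inv944 (n : ℕ) (g : GL (Fin 2) k) (hg : InU n g) : InU n g⁻¹ := by
  rw [inU_iff944] at hg ⊢
  rw [inv_inv]
  exact ⟨hg.2, hg.1⟩

theorem near_map944 (s : k ≃+* k) (hv : ∀ y : k, Valued.v (s y) = Valued.v y) (n : ℕ)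
    {A : Matrix (Fin 2) (Fin 2) k} (hA : Near944 n A) :
    Near944 n (A.map (s : k →+* k)) := by
  intro i j
  have h1 : s ((1 : Matrix (Fin 2) (Fin 2) k) i j) = (1 : Matrix (Fin 2) (Fin 2) k) i j := by
    by_cases hij : i = j
    · subst hij
      rw [Matrix.one_apply_eq, map_one]
    · rw [Matrix.one_apply_ne hij, map_zero]
  have e : (A.map (s : k →+* k)) i j - (1 : Matrix (Fin 2) (Fin 2) k) i j
      = s (A i j - (1 : Matrix (Fin 2) (Fin 2) k) i j) := by
    rw [map_sub, h1]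
    rfl
  rw [e, hv]
  exact hA i j

/-- `U(n)` is stable under an automorphism of the field which preserves the valuation. -/
theorem inU_glAut944 (s : k ≃+* k) (hv : ∀ y : k, Valued.v (s y) = Valued.v y) (n : ℕ)
    (g : GL (Fin 2) k) (hg : InU n g) : InU n (glAut s g) := by
  rw [inU_iff944] at hg ⊢
  refine ⟨?_, ?_⟩
  · exact near_map944 s hv n hg.1
  · rw [← map_inv]
    exact near_map944 s hv n hg.2

/-- The compact part of the twisted centraliser of `u⁻¹ y s(u)` is the conjugate by `u` of the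
compact part of the twisted centraliser of `y`. -/
theorem inTwCentC_conj944 (s : k ≃+* k) (y u t : GL (Fin 2) k) :
    InTwCentC s (u⁻¹ * y * glAut s u) t ↔ InTwCentC s y (u * t * u⁻¹) := by
  have htr : ((u * t * u⁻¹ : GL (Fin 2) k) : Matrix (Fin 2) (Fin 2) k).trace
      = (t : Matrix (Fin 2) (Fin 2) k).trace := by
    rw [Units.val_mul, Matrix.trace_mul_comm, ← Units.val_mul]
    congr 2
    group
  have hdet : ((u * t * u⁻¹ : GL (Fin 2) k) : Matrix (Fin 2) (Fin 2) k).det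
      = (t : Matrix (Fin 2) (Fin 2) k).det := by
    rw [Units.val_mul, Matrix.det_mul_comm, ← Units.val_mul]
    congr 2
    group
  have hcent : InTwCent s (u⁻¹ * y * glAut s u) t ↔ InTwCent s y (u * t * u⁻¹) := by
    unfold InTwCent
    rw [map_mul, map_mul, map_inv]
    constructor
    · intro h
      have : (u * t * u⁻¹)⁻¹ * y * (glAut s u * glAut s t * (glAut s u)⁻¹)
          = u * (t⁻¹ * (u⁻¹ * y * glAut s u) * glAut s t) * (glAut s u)⁻¹ := by group
      rw [this, h]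
      group
    · intro h
      have : t⁻¹ * (u⁻¹ * y * glAut s u) * glAut s t
          = u⁻¹ * ((u * t * u⁻¹)⁻¹ * y * (glAut s u * glAut s t * (glAut s u)⁻¹))
            * glAut s u := by group
      rw [this, h]
  unfold InTwCentC
  rw [hcent, htr, hdet]

end Local

/-! ## 3. The leaf -/

/-- **T6.09 `OrbSumUniqC`**: the orbit sum does not depend on the representatives. -/
theorem orbSumUniqC944 : OrbSumUniqC := by
  intro k _ _ s hv n φ hφ δ c c' h h'
  exact orbSumGen_unique944 (glAut s) (InU n) (InTwCentC s) φ δ (inU_mul944 n) (inU_inv944 n)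
    (inU_glAut944 s hv n) hφ (fun y u t _ => inTwCentC_conj944 s y u t) h h'

end Fermat.Agent.LT.T6.H944

end

end
-- ===== PACK-END LT/T6/H944/OrbSumUniq.lean

-- ===== PACK-BEGIN LT/T6/H296/CutoffPsi.lean
section



/-!
# Row LT, tower T6, sub-tower T6inf, leaf T6inf.09 `CutoffExC` (helper296): the function `Ψ`

For a subgroup `T` of `GL₂(ℝ)` which is the centraliser of a regular `γ` we construct a
continuous `Ψ ≥ 0` on `GL₂(ℂ)` whose restriction to every orbit `T y` is a translate of ONE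
compactly supported function on `T`:

* elliptic case (`D < 0`): `Ψ y = φ(|det y|)²`;
* split case (`D > 0`): `Ψ y = φ(N₊ y) φ(N₋ y)`, `N_± y = ‖(±r + A') y‖² / ‖±r + A'‖²`,
  `r = √D`.

OFF-MAIN.  Mathlib only.
-/

set_option autoImplicit false

open Matrix

noncomputable section

namespace Fermat.Agent.LT.T6.H296

/-- The inclusion `GL₂(ℝ) → GL₂(ℂ)`. -/
abbrev inclC296 : GL (Fin 2) ℝ →* GL (Fin 2) ℂ :=
  Matrix.GeneralLinearGroup.map (algebraMap ℝ ℂ)

theorem inclC296_continuous : Continuous inclC296 := by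
  apply Continuous.units_map
  show Continuous (fun M : Matrix (Fin 2) (Fin 2) ℝ => M.map (algebraMap ℝ ℂ))
  exact continuous_id.matrix_map (continuous_algebraMap ℝ ℂ)

theorem inclC296_val (t : GL (Fin 2) ℝ) :
    ((inclC296 t : GL (Fin 2) ℂ) : Matrix (Fin 2) (Fin 2) ℂ) =
      (t : Matrix (Fin 2) (Fin 2) ℝ).map (algebraMap ℝ ℂ) := rfl

theorem inclC296_mul_val (t : GL (Fin 2) ℝ) (y : GL (Fin 2) ℂ) :
    ((inclC296 t * y : GL (Fin 2) ℂ) : Matrix (Fin 2) (Fin 2) ℂ) =
      (t : Matrix (Fin 2) (Fin 2) ℝ).map (algebraMap ℝ ℂ) * (y : Matrix (Fin 2) (Fin 2) ℂ) :=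
  rfl

/-- **From semi-invariants to `Ψ`.** -/
theorem psi_of_semiinv296 (T : Subgroup (GL (Fin 2) ℝ)) (N₁ N₂ : GL (Fin 2) ℂ → ℝ)
    (hN₁c : Continuous N₁) (hN₂c : Continuous N₂) (h1 : N₁ 1 = 1) (h2 : N₂ 1 = 1)
    (hm₁ : ∀ t ∈ T, ∀ y, N₁ (inclC296 t * y) = N₁ (inclC296 t) * N₁ y)
    (hm₂ : ∀ t ∈ T, ∀ y, N₂ (inclC296 t * y) = N₂ (inclC296 t) * N₂ y)
    (hs : ∀ y, ∃ s ∈ T, N₁ (inclC296 s) = N₁ y ∧ N₂ (inclC296 s) = N₂ y)
    (C : ℝ)
    (hC : ∀ t ∈ T, (1 / 4 < N₁ (inclC296 t) ∧ N₁ (inclC296 t) < 4) →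
      (1 / 4 < N₂ (inclC296 t) ∧ N₂ (inclC296 t) < 4) →
      ∀ i j, |(t : Matrix (Fin 2) (Fin 2) ℝ) i j| ≤ C) :
    ∃ Ψ : GL (Fin 2) ℂ → ℝ, Continuous Ψ ∧ (∀ y, 0 ≤ Ψ y) ∧
      (∀ t ∈ T, Ψ (inclC296 t) ≠ 0 → t ∈ glBox296 C) ∧ Ψ 1 ≠ 0 ∧
      ∀ y, ∃ s ∈ T, ∀ t ∈ T, Ψ (inclC296 t * y) = Ψ (inclC296 (t * s)) := by
  refine ⟨fun y => tent296 (N₁ y) * tent296 (N₂ y),
    (tent296_continuous.comp hN₁c).mul (tent296_continuous.comp hN₂c),
    fun y => mul_nonneg (tent296_nonneg _) (tent296_nonneg _), ?_, ?_, ?_⟩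
  · intro t ht hΨ
    obtain ⟨k1, k2⟩ := mul_ne_zero_iff.1 hΨ
    have k1' := (tent296_ne_zero_iff _).1 k1
    have k2' := (tent296_ne_zero_iff _).1 k2
    have hinv : ∀ N : GL (Fin 2) ℂ → ℝ, N 1 = 1 →
        (∀ t ∈ T, ∀ y, N (inclC296 t * y) = N (inclC296 t) * N y) →
        N (inclC296 t⁻¹) = (N (inclC296 t))⁻¹ := by
      intro N hN1 hNm
      have e1 := hNm t⁻¹ (T.inv_mem ht) (inclC296 t)
      rw [← map_mul, inv_mul_cancel, map_one, hN1] at e1
      exact eq_inv_of_mul_eq_one_left e1.symm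
    refine ⟨hC t ht k1' k2', hC t⁻¹ (T.inv_mem ht) ?_ ?_⟩
    · rw [hinv N₁ h1 hm₁]
      exact inv_mem_quarter_four296 k1'
    · rw [hinv N₂ h2 hm₂]
      exact inv_mem_quarter_four296 k2'
  · show tent296 (N₁ 1) * tent296 (N₂ 1) ≠ 0
    rw [h1, h2]
    exact mul_ne_zero tent296_one_ne_zero tent296_one_ne_zero
  · intro y
    obtain ⟨s, hsT, e1, e2⟩ := hs y
    refine ⟨s, hsT, fun t ht => ?_⟩
    show tent296 (N₁ (inclC296 t * y)) * tent296 (N₂ (inclC296 t * y)) =
      tent296 (N₁ (inclC296 (t * s))) * tent296 (N₂ (inclC296 (t * s)))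
    rw [map_mul, hm₁ t ht y, hm₂ t ht y, hm₁ t ht (inclC296 s), hm₂ t ht (inclC296 s), e1, e2]

/-! ### The semi-invariants `N_r` (split case) -/

/-- `N_r y = ‖(r + A') y‖² / ‖r + A'‖²`. -/
def Nfr296 (A : Matrix (Fin 2) (Fin 2) ℝ) (r : ℝ) (y : GL (Fin 2) ℂ) : ℝ :=
  frob296 (ab296 A r 1) (y : Matrix (Fin 2) (Fin 2) ℂ) / frob296 (ab296 A r 1) 1

theorem Nfr296_continuous (A : Matrix (Fin 2) (Fin 2) ℝ) (r : ℝ) :
    Continuous (Nfr296 A r) := by
  unfold Nfr296 frob296
  fun_prop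

theorem Nfr296_one (A : Matrix (Fin 2) (Fin 2) ℝ) (r : ℝ) (hr : r ≠ 0) :
    Nfr296 A r 1 = 1 := by
  unfold Nfr296
  exact div_self (frob296_one_pos _ (E296_ne_zero A r hr)).ne'

theorem Nfr296_pos (A : Matrix (Fin 2) (Fin 2) ℝ) (r : ℝ) (hr : r ≠ 0) (y : GL (Fin 2) ℂ) :
    0 < Nfr296 A r y := by
  unfold Nfr296
  exact div_pos (frob296_pos_of_isUnit _ (E296_ne_zero A r hr) _ y.isUnit)
    (frob296_one_pos _ (E296_ne_zero A r hr))

theorem Nfr296_ab (A : Matrix (Fin 2) (Fin 2) ℝ) (r : ℝ) (hr : r * r = qd296 A)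
    (t : GL (Fin 2) ℝ) (a b : ℝ) (ht : (t : Matrix (Fin 2) (Fin 2) ℝ) = ab296 A a b)
    (y : GL (Fin 2) ℂ) :
    Nfr296 A r (inclC296 t * y) = (a + b * r) ^ 2 * Nfr296 A r y := by
  unfold Nfr296
  rw [inclC296_mul_val, ht, frob296_E_ab A r hr, mul_div_assoc]

theorem Nfr296_incl (A : Matrix (Fin 2) (Fin 2) ℝ) (r : ℝ) (hr : r * r = qd296 A)
    (hr0 : r ≠ 0) (t : GL (Fin 2) ℝ) (a b : ℝ)
    (ht : (t : Matrix (Fin 2) (Fin 2) ℝ) = ab296 A a b) :
    Nfr296 A r (inclC296 t) = (a + b * r) ^ 2 := by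
  have h := Nfr296_ab A r hr t a b ht 1
  rwa [mul_one, Nfr296_one A r hr0, mul_one] at h

/-! ### The semi-invariant `|det|` (elliptic case) -/

/-- `|det y|`. -/
def Ndet296 (y : GL (Fin 2) ℂ) : ℝ := ‖(y : Matrix (Fin 2) (Fin 2) ℂ).det‖

theorem Ndet296_continuous : Continuous Ndet296 := by
  unfold Ndet296
  fun_prop

theorem Ndet296_one : Ndet296 1 = 1 := by
  simp [Ndet296]

theorem Ndet296_mul (x y : GL (Fin 2) ℂ) : Ndet296 (x * y) = Ndet296 x * Ndet296 y := by
  simp [Ndet296, Matrix.det_mul]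

theorem Ndet296_pos (y : GL (Fin 2) ℂ) : 0 < Ndet296 y := by
  unfold Ndet296
  rw [norm_pos_iff]
  exact (Matrix.isUnits_det_units y).ne_zero

theorem Ndet296_incl (t : GL (Fin 2) ℝ) :
    Ndet296 (inclC296 t) = |(t : Matrix (Fin 2) (Fin 2) ℝ).det| := by
  unfold Ndet296
  rw [inclC296_val]
  have h := RingHom.map_det (algebraMap ℝ ℂ) (t : Matrix (Fin 2) (Fin 2) ℝ)
  rw [RingHom.mapMatrix_apply] at h
  rw [← h]
  simp

/-! ### The two cases -/

/-- **Split case** `D > 0`. -/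
theorem psi_exists_split296 (A : Matrix (Fin 2) (Fin 2) ℝ) (hD : 0 < qd296 A)
    (T : Subgroup (GL (Fin 2) ℝ))
    (hT : ∀ t : GL (Fin 2) ℝ, t ∈ T ↔
      (t : Matrix (Fin 2) (Fin 2) ℝ) * A = A * (t : Matrix (Fin 2) (Fin 2) ℝ)) :
    ∃ (C : ℝ) (Ψ : GL (Fin 2) ℂ → ℝ), Continuous Ψ ∧ (∀ y, 0 ≤ Ψ y) ∧
      (∀ t ∈ T, Ψ (inclC296 t) ≠ 0 → t ∈ glBox296 C) ∧ Ψ 1 ≠ 0 ∧
      ∀ y, ∃ s ∈ T, ∀ t ∈ T, Ψ (inclC296 t * y) = Ψ (inclC296 (t * s)) := by
  obtain ⟨r, hr0, hrr⟩ : ∃ r : ℝ, 0 < r ∧ r * r = qd296 A :=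
    ⟨Real.sqrt (qd296 A), Real.sqrt_pos.2 hD, Real.mul_self_sqrt hD.le⟩
  have hrr' : (-r) * (-r) = qd296 A := by rw [neg_mul_neg]; exact hrr
  have hnr : -r ≠ 0 := neg_ne_zero.2 hr0.ne'
  have hstruct : ∀ t ∈ T, ∃ a b : ℝ, (t : Matrix (Fin 2) (Fin 2) ℝ) = ab296 A a b :=
    fun t ht => cent_struct296 A hD.ne' _ ((hT t).1 ht)
  refine ⟨2 + 2 / r * M296 A, psi_of_semiinv296 T (Nfr296 A r) (Nfr296 A (-r))
    (Nfr296_continuous A r) (Nfr296_continuous A (-r)) (Nfr296_one A r hr0.ne')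
    (Nfr296_one A (-r) hnr) ?_ ?_ ?_ _ ?_⟩
  · intro t ht y
    obtain ⟨a, b, hab⟩ := hstruct t ht
    rw [Nfr296_ab A r hrr t a b hab, Nfr296_incl A r hrr hr0.ne' t a b hab]
  · intro t ht y
    obtain ⟨a, b, hab⟩ := hstruct t ht
    rw [Nfr296_ab A (-r) hrr' t a b hab, Nfr296_incl A (-r) hrr' hnr t a b hab]
  · intro y
    have p1 := Nfr296_pos A r hr0.ne' y
    have p2 := Nfr296_pos A (-r) hnr y
    obtain ⟨σ₁, q1, s1⟩ : ∃ σ : ℝ, 0 < σ ∧ σ ^ 2 = Nfr296 A r y :=
      ⟨Real.sqrt _, Real.sqrt_pos.2 p1, Real.sq_sqrt p1.le⟩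
    obtain ⟨σ₂, q2, s2⟩ : ∃ σ : ℝ, 0 < σ ∧ σ ^ 2 = Nfr296 A (-r) y :=
      ⟨Real.sqrt _, Real.sqrt_pos.2 p2, Real.sq_sqrt p2.le⟩
    have hdet : (ab296 A ((σ₁ + σ₂) / 2) ((σ₁ - σ₂) / (2 * r))).det ≠ 0 := by
      rw [det_ab296, ← hrr]
      have e : ((σ₁ + σ₂) / 2) ^ 2 - r * r * ((σ₁ - σ₂) / (2 * r)) ^ 2 = σ₁ * σ₂ := by
        field_simp
        ring
      rw [e]
      exact (mul_pos q1 q2).ne'
    refine ⟨Matrix.GeneralLinearGroup.mkOfDetNeZero _ hdet, ?_, ?_, ?_⟩
    · rw [hT]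
      exact ab296_comm_self A _ _
    · rw [Nfr296_incl A r hrr hr0.ne' _ ((σ₁ + σ₂) / 2) ((σ₁ - σ₂) / (2 * r)) rfl, ← s1]
      congr 1
      field_simp
      ring
    · rw [Nfr296_incl A (-r) hrr' hnr _ ((σ₁ + σ₂) / 2) ((σ₁ - σ₂) / (2 * r)) rfl, ← s2]
      congr 1
      field_simp
      ring
  · intro t ht k1 k2 i j
    obtain ⟨a, b, hab⟩ := hstruct t ht
    rw [Nfr296_incl A r hrr hr0.ne' t a b hab] at k1
    rw [Nfr296_incl A (-r) hrr' hnr t a b hab] at k2
    rw [hab]
    have c1 : |a + b * r| < 2 := abs_lt.2 ⟨by nlinarith [k1.2], by nlinarith [k1.2]⟩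
    have c2 : |a + b * (-r)| < 2 := abs_lt.2 ⟨by nlinarith [k2.2], by nlinarith [k2.2]⟩
    rw [abs_lt] at c1 c2
    apply entry_bound2_296 A a b r hr0
    · rw [abs_le]
      constructor <;> linarith [c1.1, c1.2, c2.1, c2.2]
    · have e : |b| * r = |b * r| := by rw [abs_mul, abs_of_pos hr0]
      rw [e, abs_le]
      constructor <;> linarith [c1.1, c1.2, c2.1, c2.2]

/-- **Elliptic case** `D < 0`. -/
theorem psi_exists_ell296 (A : Matrix (Fin 2) (Fin 2) ℝ) (hD : qd296 A < 0)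
    (T : Subgroup (GL (Fin 2) ℝ))
    (hT : ∀ t : GL (Fin 2) ℝ, t ∈ T ↔
      (t : Matrix (Fin 2) (Fin 2) ℝ) * A = A * (t : Matrix (Fin 2) (Fin 2) ℝ)) :
    ∃ (C : ℝ) (Ψ : GL (Fin 2) ℂ → ℝ), Continuous Ψ ∧ (∀ y, 0 ≤ Ψ y) ∧
      (∀ t ∈ T, Ψ (inclC296 t) ≠ 0 → t ∈ glBox296 C) ∧ Ψ 1 ≠ 0 ∧
      ∀ y, ∃ s ∈ T, ∀ t ∈ T, Ψ (inclC296 t * y) = Ψ (inclC296 (t * s)) := by
  obtain ⟨ρ, hρ0, hρρ⟩ : ∃ ρ : ℝ, 0 < ρ ∧ ρ * ρ = -qd296 A :=
    ⟨Real.sqrt (-qd296 A), Real.sqrt_pos.2 (neg_pos.2 hD),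
      Real.mul_self_sqrt (neg_pos.2 hD).le⟩
  refine ⟨2 + 2 / ρ * M296 A, psi_of_semiinv296 T Ndet296 Ndet296 Ndet296_continuous
    Ndet296_continuous Ndet296_one Ndet296_one (fun t _ y => Ndet296_mul _ _)
    (fun t _ y => Ndet296_mul _ _) ?_ _ ?_⟩
  · intro y
    have p := Ndet296_pos y
    obtain ⟨σ, q, s1⟩ : ∃ σ : ℝ, 0 < σ ∧ σ ^ 2 = Ndet296 y :=
      ⟨Real.sqrt _, Real.sqrt_pos.2 p, Real.sq_sqrt p.le⟩
    have hdet : (ab296 A σ 0).det ≠ 0 := by
      rw [det_ab296]
      have e : σ ^ 2 - qd296 A * 0 ^ 2 = σ ^ 2 := by ring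
      rw [e]
      exact (pow_pos q 2).ne'
    have hval : Ndet296 (inclC296 (Matrix.GeneralLinearGroup.mkOfDetNeZero _ hdet)) =
        Ndet296 y := by
      rw [Ndet296_incl]
      show |(ab296 A σ 0).det| = _
      rw [det_ab296, ← s1]
      have e : σ ^ 2 - qd296 A * 0 ^ 2 = σ ^ 2 := by ring
      rw [e, abs_of_pos (pow_pos q 2)]
    exact ⟨Matrix.GeneralLinearGroup.mkOfDetNeZero _ hdet,
      (hT _).2 (ab296_comm_self A _ _), hval, hval⟩
  · intro t ht k1 _ i j
    obtain ⟨a, b, hab⟩ := cent_struct296 A hD.ne _ ((hT t).1 ht)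
    rw [Ndet296_incl, hab, det_ab296] at k1
    have e : a ^ 2 - qd296 A * b ^ 2 = a ^ 2 + (b * ρ) ^ 2 := by
      rw [mul_pow, sq ρ, hρρ]
      ring
    rw [e, abs_of_nonneg (by positivity)] at k1
    rw [hab]
    apply entry_bound2_296 A a b ρ hρ0
    · rw [abs_le]
      constructor <;> nlinarith [k1.2, sq_nonneg (b * ρ), sq_nonneg a]
    · have e2 : |b| * ρ = |b * ρ| := by rw [abs_mul, abs_of_pos hρ0]
      rw [e2, abs_le]
      constructor <;> nlinarith [k1.2, sq_nonneg (b * ρ), sq_nonneg a]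

/-- **The function `Ψ` exists** for the centraliser of a regular element. -/
theorem psi_exists296 (A : Matrix (Fin 2) (Fin 2) ℝ) (hD : qd296 A ≠ 0)
    (T : Subgroup (GL (Fin 2) ℝ))
    (hT : ∀ t : GL (Fin 2) ℝ, t ∈ T ↔
      (t : Matrix (Fin 2) (Fin 2) ℝ) * A = A * (t : Matrix (Fin 2) (Fin 2) ℝ)) :
    ∃ (C : ℝ) (Ψ : GL (Fin 2) ℂ → ℝ), Continuous Ψ ∧ (∀ y, 0 ≤ Ψ y) ∧
      (∀ t ∈ T, Ψ (inclC296 t) ≠ 0 → t ∈ glBox296 C) ∧ Ψ 1 ≠ 0 ∧
      ∀ y, ∃ s ∈ T, ∀ t ∈ T, Ψ (inclC296 t * y) = Ψ (inclC296 (t * s)) := by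
  rcases lt_or_gt_of_ne hD with h | h
  · exact psi_exists_ell296 A h T hT
  · exact psi_exists_split296 A h T hT

/-- The centraliser of a regular element is commutative. -/
theorem cent_comm296 (A : Matrix (Fin 2) (Fin 2) ℝ) (hD : qd296 A ≠ 0)
    (s t : GL (Fin 2) ℝ)
    (hs : (s : Matrix (Fin 2) (Fin 2) ℝ) * A = A * (s : Matrix (Fin 2) (Fin 2) ℝ))
    (ht : (t : Matrix (Fin 2) (Fin 2) ℝ) * A = A * (t : Matrix (Fin 2) (Fin 2) ℝ)) :
    s * t = t * s := by
  obtain ⟨a, b, hab⟩ := cent_struct296 A hD _ hs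
  obtain ⟨a', b', hab'⟩ := cent_struct296 A hD _ ht
  apply Units.ext
  rw [Units.val_mul, Units.val_mul, hab, hab']
  exact ab296_comm A a b a' b'

end Fermat.Agent.LT.T6.H296

end

end
-- ===== PACK-END LT/T6/H296/CutoffPsi.lean

-- ===== PACK-BEGIN LT/T6/H847/EllRamSpec.lean
section


/-!
# Row LT, tower T6, leaf T6.14 `FLEllRamC` (fundamental lemma, `γ` elliptic, `k[γ]` RAMIFIED):
# SUB-SPEC (helper847), OFF-MAIN

Definitions + frozen sub-leaf Props.  The PROVED tops are in `EllRamTop.lean`: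
`flEllRam_of_leaves : EllReduceC → EllOrbC → EllAlgC → T6.FLEllRamC` and
`ellOrb_of : CartanInvC → EllParamC → EllCountC → EllOrbC`.
Mathlib + `T6/Spec.lean` (helper22, sha256 `89f8f8b8…`) only.

## The computation ([L] §5, elliptic ramified case; `k'/k` unramified of degree `l`, `Q = q ^ l`)

* `E = k[γ]` is a ramified quadratic extension: `E = k[Π]`, `Π² = τ Π - ν`, `ord ν = 1`,
  `ord τ ≥ 1`.  In the basis `(1, Π)` the element `a + b Π` is the matrix
  `embMat τ ν a b = [[a, -ν b], [b, a + τ b]]`; after conjugation `γ = γ₀ = α + β Π`, `β ≠ 0`, and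
  after `s`-conjugation `δ = δ₀ = d₀ + d₁ Π ∈ E' = k'[Π]`, `N δ₀ = γ₀` (`EllReduceC`).
* LATTICES.  `GL₂(k') = ⊔_n E'^× g_n GL₂(𝒪')`, `g_n = diag(1, νⁿ)` (the lattices of `E'` are the
  `x (𝒪' + νⁿ Π 𝒪')`); the twisted centraliser of `δ₀` is `E^×` (`T6.TwCentC`), its maximal compact
  subgroup is `𝒪_E^×`, the stabiliser of a lattice of level `n` in `𝒪_E^×` has index `qⁿ`.  Hence
  the weighted orbit sum is the PLAIN SUM over the lattices modulo `Π^ℤ`, i.e. over the
  `(n, ξ)`, `ξ ∈ 𝒪'/νⁿ𝒪'`, lattice `x_ξ g_n 𝒪'²`, `x_ξ = 1 + ξ Π` (`EllParamC`):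
  `TO_δ₀(Φ) = ∑_n ∑_{ξ mod νⁿ} Φ((x_ξ g_n)⁻¹ δ₀ s(x_ξ g_n))`.
* CARTAN INVARIANT.  For `z = a + b Π`: `cartan (g_n⁻¹ z g_n) = (ord N z - m, m)`,
  `m = min(ord a, ord b - n)`.
* COUNT (`EllCountC`).  `j = ord det δ₀`.  `j` odd: every lattice of level `n` has invariant
  `m = (j - 1)/2 - n`, and there are `Qⁿ` of them.  `j` even, `J = j/2`: for `z = x⁻¹ δ₀ s(x)`,
  `m = J - (n - c(ξ))⁺`, `c(ξ) = ord b_z - ord a_z`, and
  `#{ξ mod νⁿ : c(ξ) ≥ c} = Q^{n-c} q^c` for `c ≤ min(n, c_γ)`, `= 0` for `c_γ < c ≤ n`, where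
  `c_γ = ord β - ord α` (lifting `ν^c → ν^{c+1}`: additive Hilbert 90 in the residue field
  extension, and `N(1 + ν^c ζ Π) ≡ 1 + ν^c Tr(ζ) Π`).  Summing:
  `TO_δ₀(1_λ) = ellWeight Q λ j Θ`, `Θ = 1 + q + ⋯ + q^{c_γ}`.
* ALGEBRA (`EllAlgC`).  In terms of the coefficients `p_{a,b}` of `x^a y^b` in the Satake
  transform: `∑_λ f(λ) ellWeight q λ j Θ = ∑_{a > b, a + b = j} q^{-(a-b)/2} p_{a,b} + Θ p_{j/2,j/2}`;
  base change `x ↦ x^l` maps monomials to monomials, whence
  `∑_λ f(λ) ellWeight q λ (l j) Θ = ∑_λ φ(λ) ellWeight (q^l) λ j Θ` for `f = b(φ)`.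
* the untwisted side is the instance `k' = k`, `l = 1`, `s = id`, `δ₀ = γ₀` of `EllOrbC`.

The formulas of `EllCountC` and `EllAlgC` were checked numerically (brute force over
`ℚ₃(i)/ℚ₃`, `l = 2`, and exact Laurent polynomial arithmetic, `l ∈ {1,2,3,5}`).
-/

set_option autoImplicit false

open scoped Matrix

noncomputable section

namespace Fermat.Agent.LT.T6.H847

open Fermat.Agent.LT.T6

/-! ## Definitions -/

/-- The additive valuation `ord x = - log v(x)` (`ord 0 = 0` by the convention of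
`WithZero.log`). -/
def ord847 {k : Type} [Field k] [Valued k Γ₀] (x : k) : ℤ := - WithZero.log (Valued.v x)

/-- The matrix of the multiplication by `a + b Π` in the basis `(1, Π)` of `k[Π]`,
`Π² = τ Π - ν`. -/
def embMat {k : Type} [Field k] (τ ν a b : k) : Matrix (Fin 2) (Fin 2) k :=
  !![a, -(ν * b); b, a + τ * b]

/-- The matrix `x_ξ g_n`, `x_ξ = 1 + ξ Π`, `g_n = diag(1, νⁿ)`: its columns `(1, ξ)` and
`νⁿ Π (1 + ξ Π)` span the lattice `(1 + ξ Π)(𝒪 + νⁿ Π 𝒪)`. -/
def latMat {k : Type} [Field k] (τ ν : k) (n : ℕ) (ξ : k) : Matrix (Fin 2) (Fin 2) k :=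
  !![1, -(ν ^ (n + 1) * ξ); ξ, (1 + τ * ξ) * ν ^ n]

open Classical in
/-- `latMat` as an element of `GL₂` (`1` if the determinant `νⁿ (1 + τ ξ + ν ξ²)` vanishes, which
does not happen for `ξ` integral). -/
def latGL {k : Type} [Field k] (τ ν : k) (n : ℕ) (ξ : k) : GL (Fin 2) k :=
  if h : (latMat τ ν n ξ).det ≠ 0 then Matrix.GeneralLinearGroup.mkOfDetNeZero _ h else 1

/-- `B` is a full system of representatives of `𝒪 / ϖⁿ 𝒪`. -/
def IsReprMod {k : Type} [Field k] [Valued k Γ₀] (n : ℕ) (B : Set k) : Prop :=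
  (∀ b ∈ B, Valued.v b ≤ 1) ∧
    ∀ x : k, Valued.v x ≤ 1 → ∃! b : k, b ∈ B ∧ Valued.v (x - b) ≤ WithZero.exp (-(n : ℤ))

/-- `Θ = 1 + q + ⋯ + q^c` (`c ≥ 0`): the number of lattices fixed by `γ₀` modulo `Π^ℤ`, i.e. the
volume of `E^× \ {x : x⁻¹ γ₀ x ∈ GL₂(𝒪)}`. -/
def theta (q : ℕ) (c : ℤ) : ℂ := ∑ n ∈ Finset.range (c.toNat + 1), (q : ℂ) ^ n

/-- The value at an elliptic ramified element (`ord det = j`, fixed lattices counted by `Θ`) of
the orbital integral of `1_{K λ K}`, residue field of `Q` elements: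
`0` unless `λ₁ + λ₂ = j` and `λ₁ ≥ λ₂`; `j` odd: `Q^{(λ₁ - λ₂ - 1)/2}`; `j` even: `Θ` if
`λ₁ = λ₂`, and `Q^{(λ₁ - λ₂)/2 - 1} (1 + (Q - 1) Θ)` if `λ₁ > λ₂`. -/
def ellWeight (Q : ℕ) (lam : ℤ × ℤ) (j : ℤ) (Θ : ℂ) : ℂ :=
  if lam.1 + lam.2 = j ∧ lam.2 ≤ lam.1 then
    if j % 2 = 1 then (Q : ℂ) ^ ((lam.1 - lam.2 - 1) / 2)
    else if lam.1 = lam.2 then Θ
    else (Q : ℂ) ^ ((lam.1 - lam.2) / 2 - 1) * (1 + ((Q : ℂ) - 1) * Θ)
  else 0

/-- THE NORMAL FORM.  `Π² = τ Π - ν` Eisenstein over `k` (`ord ν = 1`, `ord τ ≥ 1`),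
`γ₀ = α + β Π ∈ GL₂(k)` with `β ≠ 0` (regular), `δ₀ = d₀ + d₁ Π ∈ GL₂(k')`, `N δ₀ = γ₀`. -/
structure EllData (k k' : Type) [Field k] [Field k'] [Valued k Γ₀] [Valued k' Γ₀] (l : ℕ)
    (i : k →+* k') (s : k' ≃+* k') (τ ν α β : k) (d₀ d₁ : k') (γ₀ : GL (Fin 2) k)
    (δ₀ : GL (Fin 2) k') : Prop where
  val_ν : Valued.v ν = WithZero.exp (-1 : ℤ)
  val_τ : Valued.v τ < 1
  β_ne : β ≠ 0
  γ₀_eq : (γ₀ : Matrix (Fin 2) (Fin 2) k) = embMat τ ν α β
  δ₀_eq : (δ₀ : Matrix (Fin 2) (Fin 2) k') = embMat (i τ) (i ν) d₀ d₁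
  norm_eq : twNorm s l δ₀ = Matrix.GeneralLinearGroup.map i γ₀

/-! ## The sub-leaves -/

/-- **T6.14a (reduction to the normal form; algebra over fields + ONE use of completeness).**
`γ` regular, without eigenvalue in `k`, centralised by some `t` with `ord det t = 1`, and
`N δ ∼ γ`: then `γ` is conjugate to `γ₀ = α + β Π` and `δ` is `s`-conjugate to
`δ₀ = d₀ + d₁ Π` with `N δ₀ = γ₀`, where `Π² = τ Π - ν`, `τ = tr t`, `ν = det t`.
(`t` is not scalar (`ord det t` is odd), so `k[γ] = k[t]`, `γ = α + β t`, `β ≠ 0`; `t` has no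
eigenvalue in `k`, so `e₁, t e₁` is a basis, in which `t` is the companion matrix; `ord τ ≥ 1`:
otherwise `X² - τ X + ν` has a root in `k` (put `X = τ Y`, `Y = Y² + ν/τ²` is a contraction of
the maximal ideal); move `N δ` to `γ₀` by `N(x⁻¹ δ s(x)) = x⁻¹ N(δ) x`; then `δ` commutes with
`N δ = γ₀` (as `δ s(N δ) = N(δ) s^l(δ)`), and the centraliser of `γ₀` is `k' + k' Π`.) -/
def EllReduceC : Prop :=
  ∀ (k k' : Type) [Field k] [Field k'] [Valued k Γ₀] [Valued k' Γ₀] (q l : ℕ)
    (i : k →+* k') (s : k' ≃+* k'),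
    IsLocalField k q → IsLocalField k' (q ^ l) → IsLocalExt k k' l 1 i s →
    ∀ (δ : GL (Fin 2) k') (γ : GL (Fin 2) k), IsReg γ → ¬ HasEigen k γ → HasRamUnif k γ →
      IsConj (twNorm s l δ) (Matrix.GeneralLinearGroup.map i γ) →
      ∃ (τ ν α β : k) (d₀ d₁ : k') (γ₀ : GL (Fin 2) k) (δ₀ : GL (Fin 2) k'),
        EllData k k' l i s τ ν α β d₀ d₁ γ₀ δ₀ ∧ IsConj γ γ₀ ∧ IsTwConj s δ δ₀

/-- **T6.14b (parametrisation of the orbit sum by the lattices modulo `Π^ℤ`).**  For `δ₀` in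
normal form and `Φ` bi-invariant under `U = GL₂(𝒪')`: the twisted orbit sum of `Φ` at `δ₀` is
the plain sum of `Φ((x_ξ g_n)⁻¹ δ₀ s(x_ξ g_n))` over `n ≥ 0` and `ξ` in a system of
representatives of `𝒪'/νⁿ𝒪'` (only finitely many terms are not zero).
(`GL₂(k') = ⊔_n E'^× g_n U`; twisted centraliser of `δ₀` = `E^×`; `E^× = Π^ℤ × 𝒪_E^×`; the
`U`-`s`-classes in the `s`-conjugacy class of `δ₀` are the `E^×`-orbits of lattices; the weight
`cIndex = [𝒪_E^× : (𝒪 + νⁿ 𝒪_E)^×] = qⁿ` is the length of the `𝒪_E^×`-orbit in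
`𝒪_{E'}^× / (𝒪' + νⁿ 𝒪_{E'})^× = {1 + ξ Π : ξ mod νⁿ}`.) -/
def EllParamC : Prop :=
  ∀ (k k' : Type) [Field k] [Field k'] [Valued k Γ₀] [Valued k' Γ₀] (q l : ℕ)
    (i : k →+* k') (s : k' ≃+* k'),
    IsLocalField k q → IsLocalField k' (q ^ l) → IsLocalExt k k' l 1 i s →
    ∀ (τ ν α β : k) (d₀ d₁ : k') (γ₀ : GL (Fin 2) k) (δ₀ : GL (Fin 2) k'),
      EllData k k' l i s τ ν α β d₀ d₁ γ₀ δ₀ →
    ∀ (Φ : GL (Fin 2) k' → ℂ), IsBiInv (InU 0) Φ →
    ∀ c : ℂ, IsTwOrbSum s 0 Φ δ₀ c →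
    ∀ B : ℕ → Set k', (∀ n, IsReprMod n (B n)) →
      c = ∑ᶠ n : ℕ, ∑ᶠ ξ ∈ B n,
        Φ ((latGL (i τ) (i ν) n ξ)⁻¹ * δ₀ * glAut s (latGL (i τ) (i ν) n ξ))

/-- **T6.14c (the count).**  For `δ₀` in normal form:
`∑_n ∑_{ξ mod νⁿ} φ(cartan((x_ξ g_n)⁻¹ δ₀ s(x_ξ g_n))) = ∑_λ φ(λ) ellWeight Q λ (ord det δ₀) Θ`,
`Q = q ^ l`, `Θ = 1 + q + ⋯ + q^{ord β - ord α}`. -/
def EllCountC : Prop :=
  ∀ (k k' : Type) [Field k] [Field k'] [Valued k Γ₀] [Valued k' Γ₀] (q l : ℕ)
    (i : k →+* k') (s : k' ≃+* k'),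
    IsLocalField k q → IsLocalField k' (q ^ l) → IsLocalExt k k' l 1 i s →
    ∀ (τ ν α β : k) (d₀ d₁ : k') (γ₀ : GL (Fin 2) k) (δ₀ : GL (Fin 2) k'),
      EllData k k' l i s τ ν α β d₀ d₁ γ₀ δ₀ →
    ∀ (φ : (ℤ × ℤ) →₀ ℂ) (B : ℕ → Set k'), (∀ n, IsReprMod n (B n)) →
      (∑ᶠ n : ℕ, ∑ᶠ ξ ∈ B n,
        φ (cartan ((latGL (i τ) (i ν) n ξ)⁻¹ * δ₀ * glAut s (latGL (i τ) (i ν) n ξ))))
        = φ.sum fun lam a => a * ellWeight (q ^ l) lam
            (ord847 (δ₀ : Matrix (Fin 2) (Fin 2) k').det) (theta q (ord847 β - ord847 α))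

/-- **NODE: the twisted orbit sum of a spherical function at an element in normal form**
(= T6.14b + T6.14c + bi-invariance of `cartan`). -/
def EllOrbC : Prop :=
  ∀ (k k' : Type) [Field k] [Field k'] [Valued k Γ₀] [Valued k' Γ₀] (q l : ℕ)
    (i : k →+* k') (s : k' ≃+* k'),
    IsLocalField k q → IsLocalField k' (q ^ l) → IsLocalExt k k' l 1 i s →
    ∀ (τ ν α β : k) (d₀ d₁ : k') (γ₀ : GL (Fin 2) k) (δ₀ : GL (Fin 2) k'),
      EllData k k' l i s τ ν α β d₀ d₁ γ₀ δ₀ →
    ∀ (φ : (ℤ × ℤ) →₀ ℂ) (c : ℂ), IsTwOrbSum s 0 (fun g => φ (cartan g)) δ₀ c →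
      c = φ.sum fun lam a => a * ellWeight (q ^ l) lam
            (ord847 (δ₀ : Matrix (Fin 2) (Fin 2) k').det) (theta q (ord847 β - ord847 α))

/-- **T6.14d (comparison of the Satake coefficients; pure algebra).**  If `f = b(φ)` then for
every `j` and `Θ`: `∑_λ f(λ) ellWeight q λ (l j) Θ = ∑_λ φ(λ) ellWeight (q^l) λ j Θ`.
(Closed form of `satake` (Macdonald), linear independence of the monomials `x^a y^b` on
`(ℂ^×)²`, e.g. `linearIndependent_monoidHom`; with `p_{a,b}` the coefficient of `x^a y^b` in the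
Satake transform of `f`, `∑_λ f(λ) ellWeight q λ j Θ
  = ∑_{a > b, a + b = j} q^{-(a-b)/2} p_{a,b} + [2 ∣ j] Θ p_{j/2,j/2}`.) -/
def EllAlgC : Prop :=
  ∀ l q : ℕ, 0 < l → 1 < q → ∀ φ f : (ℤ × ℤ) →₀ ℂ, IsDominant φ → IsDominant f →
    IsBC l q φ f →
    ∀ (j : ℤ) (Θ : ℂ),
      (f.sum fun lam a => a * ellWeight q lam ((l : ℤ) * j) Θ)
        = φ.sum fun lam a => a * ellWeight (q ^ l) lam j Θ

/-- **T6.14e (= helper288's T6.12i; proved by helper129 as `cartan_mul129`).**
`cartan (u g u') = cartan g` for `u, u' ∈ GL₂(𝒪)`. -/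
def CartanInvC : Prop :=
  ∀ (k : Type) [Field k] [Valued k Γ₀] (u u' g : GL (Fin 2) k), InU 0 u → InU 0 u' →
    cartan (u * g * u') = cartan g

end Fermat.Agent.LT.T6.H847

end

end
-- ===== PACK-END LT/T6/H847/EllRamSpec.lean

-- ===== PACK-BEGIN LT/H338/TreeTri.lean
section


/-!
# Row LT, tower T6 — trichotomy for distance-preserving maps of a tree distance (helper338)

Mathlib only.  For a distance-preserving map `g` of a tree distance and a point `x` of MINIMAL
displacement `t = d x (g x) ≥ 1`: either `t = 1` and `g (g x) = x` (`g` inverts the edge `{x, g x}`),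
or `d x (g^[n] x) = n * t` for every `n` (`g` is hyperbolic).  Consequently a map one of whose
powers has a fixed point has a fixed point or inverts an edge (`fixed_or_inv338`).
-/

namespace Fermat.Agent.LT.H338

section Between

variable {V : Type*} {d : V → V → ℕ} (hd : IsTreeDist338 d)

include hd in
/-- The triangle inequality follows from the four properties. -/
theorem tri338 (u v : V) : ∀ w : V, d u w ≤ d u v + d v w := by
  suffices h : ∀ (n : ℕ) (w : V), d v w = n → d u w ≤ d u v + d v w from fun w => h _ w rfl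
  intro n
  induction n with
  | zero =>
    intro w hw
    have : v = w := (hd.eq_zero v w).1 hw
    subst this
    omega
  | succ n ih =>
    intro w hw
    have hvw : v ≠ w := root_ne_of_depth338 hd v hw
    have h1 := par338_adj hd v hvw
    have h2 := par338_depth hd v hvw
    have h3 := ih (par338 hd v w) (by omega)
    rcases hd.step u w (par338 hd v w) h1 with h | h <;> omega

/-- Concatenation of geodesics without backtracking: if the neighbours of `y` towards `x` and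
towards `z` are different, then `d x z = d x y + d y z`, and the neighbour of `z` towards `x` is the
neighbour of `z` towards `y`. -/
theorem concat338 : ∀ (n : ℕ) (x y z : V), d y z = n → x ≠ y → y ≠ z →
    par338 hd x y ≠ par338 hd z y →
    d x z = d x y + d y z ∧ par338 hd x z = par338 hd y z := by
  intro n
  induction n using Nat.strong_induction_on with
  | _ n ih =>
    intro x y z hn hxy hyz hne
    -- `q` = neighbour of `y` towards `z`
    have hq1 := par338_adj hd z (Ne.symm hyz)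
    have hq2 := par338_depth hd z (Ne.symm hyz)
    set q := par338 hd z y with hq
    -- `q` is further from `x` than `y`
    have hxq : d x q = d x y + 1 := by
      rcases hd.step x y q hq1 with h | h
      · exfalso
        exact hne (par338_unique hd x hxy hq1 h.symm).symm
      · exact h
    have hxq' : x ≠ q := root_ne_of_depth338 hd x hxq
    have hpq : par338 hd x q = y :=
      (par338_unique hd x hxq' (by rw [hd.symm]; exact hq1) hxq.symm).symm
    by_cases hqz : q = z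
    · -- `z` is the neighbour
      have hyz1 : d y z = 1 := by rw [← hqz]; exact hq1
      have hyz' : y ≠ z := hyz
      refine ⟨by rw [← hqz] at hyz1 ⊢; omega, ?_⟩
      rw [← hqz, hpq]
      exact par338_unique hd y (by rw [← hqz] at hyz'; exact hyz')
        (by rw [hd.symm]; exact hq1) (by rw [(hd.eq_zero y y).2 rfl]; exact hq1.symm ▸ rfl)
    · -- induction on the pair `(q, z)`
      have hzq : d z q = d z y - 1 := by omega
      have hqzn : d q z < n := by
        rw [hd.symm q z, hzq, hd.symm z y, hn]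
        have : d y z ≠ 0 := fun e => hyz ((hd.eq_zero y z).1 e)
        omega
      have hne' : par338 hd x q ≠ par338 hd z q := by
        rw [hpq]
        intro e
        have h1 := par338_depth hd z (Ne.symm hqz)
        rw [← e] at h1
        omega
      obtain ⟨h1, h2⟩ := ih (d q z) hqzn x q z rfl hxq' hqz hne'
      have hyq : d y z = d q z + 1 := by
        rw [hd.symm y z, hd.symm q z]; omega
      refine ⟨by omega, ?_⟩
      rw [h2]
      -- the neighbour of `z` towards `q` is the neighbour of `z` towards `y`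
      have h3 := par338_adj hd q hqz
      have h4 := par338_depth hd q hqz
      refine par338_unique hd y hyz h3 ?_
      rcases hd.step y z (par338 hd q z) h3 with h | h
      · exact h.symm
      · exfalso
        have h5 := tri338 hd y q (par338 hd q z)
        omega

end Between

section Tri

variable {V : Type*} {d : V → V → ℕ} (hd : IsTreeDist338 d)
  (g : V → V) (hg : ∀ x y, d (g x) (g y) = d x y)

include hd hg in
theorem map_injective338 : Function.Injective g := by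
  intro x y h
  have := hg x y
  rw [h, (hd.eq_zero (g y) (g y)).2 rfl] at this
  exact (hd.eq_zero x y).1 this.symm

include hg in
theorem iterate_dist338 (n : ℕ) (x y : V) : d (g^[n] x) (g^[n] y) = d x y := by
  induction n generalizing x y with
  | zero => rfl
  | succ n ih => rw [Function.iterate_succ_apply, Function.iterate_succ_apply, ih, hg]

include hg in
/-- `par` is equivariant (arbitrary root). -/
theorem map_par_gen338 {u v : V} (h : u ≠ v) :
    g (par338 hd u v) = par338 hd (g u) (g v) := by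
  have h' : g u ≠ g v := fun e => h (map_injective338 hd g hg e)
  refine par338_unique hd (g u) h' ?_ ?_
  · rw [hg]; exact par338_adj hd u h
  · rw [hg, hg]; exact par338_depth hd u h

include hg in
theorem iterate_par338 (n : ℕ) {u v : V} (h : u ≠ v) :
    g^[n] (par338 hd u v) = par338 hd (g^[n] u) (g^[n] v) := by
  induction n generalizing u v with
  | zero => rfl
  | succ n ih =>
    rw [Function.iterate_succ_apply, Function.iterate_succ_apply, Function.iterate_succ_apply,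
      map_par_gen338 hd g hg h]
    exact ih (fun e => h (map_injective338 hd g hg e))

include hd hg in
/-- **Trichotomy** at a point of minimal displacement `≥ 1`: inversion or hyperbolic. -/
theorem inv_or_hyp338 (x : V) (hmin : ∀ y, d x (g x) ≤ d y (g y)) (hpos : 1 ≤ d x (g x)) :
    (d x (g x) = 1 ∧ g (g x) = x) ∨ ∀ n : ℕ, d x (g^[n] x) = n * d x (g x) := by
  have hxy : x ≠ g x := by
    intro e
    have := (hd.eq_zero x (g x)).2 e
    omega
  have hyz : g x ≠ g (g x) := fun e => hxy (map_injective338 hd g hg e)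
  have hdyz : d (g x) (g (g x)) = d x (g x) := hg x (g x)
  by_cases hp : par338 hd x (g x) = par338 hd (g (g x)) (g x)
  · left
    -- `u` = neighbour of `x` towards `g x`
    have hu1 := par338_adj hd (g x) (Ne.symm hxy)
    have hu2 := par338_depth hd (g x) (Ne.symm hxy)
    have hgu : g (par338 hd (g x) x) = par338 hd x (g x) := by
      rw [map_par_gen338 hd g hg (Ne.symm hxy), hp]
    by_cases ht : d x (g x) = 1
    · refine ⟨ht, ?_⟩
      -- `u = g x` and `p = x`
      have hux : par338 hd (g x) x = g x := by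
        have : d (g x) (par338 hd (g x) x) = 0 := by
          rw [hd.symm (g x) x] at hu2; omega
        exact ((hd.eq_zero _ _).1 this).symm
      have hpx : par338 hd x (g x) = x := by
        have h2 := par338_depth hd x hxy
        have : d x (par338 hd x (g x)) = 0 := by omega
        exact ((hd.eq_zero _ _).1 this).symm
      rw [hux, hpx] at hgu
      exact hgu
    · exfalso
      have huy : g x ≠ par338 hd (g x) x := by
        intro e
        rw [← e, (hd.eq_zero (g x) (g x)).2 rfl, hd.symm (g x) x] at hu2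
        omega
      have h3 := star338 hd x (d (g x) (par338 hd (g x) x)) (g x) (par338 hd (g x) x) rfl huy
        (by rw [hu1]; omega)
      have h4 := hmin (par338 hd (g x) x)
      rw [hgu] at h4
      rw [hd.symm (g x) x] at hu2
      rw [hd.symm (par338 hd (g x) x) (g x)] at h3
      omega
  · right
    -- hyperbolic: induction with the direction of the last step
    have key : ∀ n : ℕ, d x (g^[n + 1] x) = (n + 1) * d x (g x) ∧
        par338 hd x (g^[n + 1] x) = par338 hd (g^[n] x) (g^[n + 1] x) := by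
      intro n
      induction n with
      | zero => exact ⟨by simp, rfl⟩
      | succ n ih =>
        obtain ⟨h1, h2⟩ := ih
        have hY : x ≠ g^[n + 1] x := by
          intro e
          have := (hd.eq_zero x (g^[n + 1] x)).2 e
          rw [h1] at this
          have : 0 < (n + 1) * d x (g x) := Nat.mul_pos (Nat.succ_pos n) hpos
          omega
        have hYZ : d (g^[n + 1] x) (g^[n + 1 + 1] x) = d x (g x) := by
          have := iterate_dist338 g hg (n + 1) x (g x)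
          rw [← Function.iterate_succ_apply] at this
          exact this
        have hYZne : g^[n + 1] x ≠ g^[n + 1 + 1] x := by
          intro e
          have := (hd.eq_zero _ _).2 e
          omega
        have hdir : par338 hd x (g^[n + 1] x) ≠ par338 hd (g^[n + 1 + 1] x) (g^[n + 1] x) := by
          rw [h2]
          have e1 : par338 hd (g^[n] x) (g^[n + 1] x) = g^[n] (par338 hd x (g x)) := by
            rw [iterate_par338 hd g hg n hxy, ← Function.iterate_succ_apply]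
          have e2 : par338 hd (g^[n + 1 + 1] x) (g^[n + 1] x)
              = g^[n] (par338 hd (g (g x)) (g x)) := by
            rw [iterate_par338 hd g hg n (Ne.symm hyz), ← Function.iterate_succ_apply,
              ← Function.iterate_succ_apply, ← Function.iterate_succ_apply]
          rw [e1, e2]
          exact fun e => hp ((map_injective338 hd g hg).iterate n e)
        obtain ⟨h3, h4⟩ := concat338 hd _ x (g^[n + 1] x) (g^[n + 1 + 1] x) rfl hY hYZne hdir
        refine ⟨?_, h4⟩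
        rw [h3, h1, hYZ]; ring
    intro n
    cases n with
    | zero => simp [(hd.eq_zero x x).2 rfl]
    | succ n => exact (key n).1

/-- A point of minimal displacement exists. -/
theorem exists_min_disp338 [Nonempty V] : ∃ x, ∀ y, d x (g x) ≤ d y (g y) := by
  classical
  have hex : ∃ n, ∃ x, d x (g x) = n := ⟨_, Classical.arbitrary V, rfl⟩
  obtain ⟨x, hx⟩ := Nat.find_spec hex
  refine ⟨x, fun y => ?_⟩
  rw [hx]
  exact Nat.find_min' hex ⟨y, rfl⟩

include hd hg in
/-- **A map one of whose powers has a fixed point has a fixed point or inverts an edge.** -/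
theorem fixed_or_inv338 (N : ℕ) (hN : 1 ≤ N) (y₀ : V) (hy₀ : g^[N] y₀ = y₀) :
    (∃ x, g x = x) ∨ ∃ a b, d a b = 1 ∧ g a = b ∧ g b = a := by
  have : Nonempty V := ⟨y₀⟩
  obtain ⟨x, hmin⟩ := exists_min_disp338 (d := d) g
  by_cases h0 : d x (g x) = 0
  · left; exact ⟨x, ((hd.eq_zero _ _).1 h0).symm⟩
  · rcases inv_or_hyp338 hd g hg x hmin (by omega) with ⟨h1, h2⟩ | h
    · right; exact ⟨x, g x, h1, rfl, h2⟩
    · exfalso
      -- bounded orbit
      have hfix : ∀ m : ℕ, g^[N * m] y₀ = y₀ := by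
        intro m
        induction m with
        | zero => rfl
        | succ m ih => rw [Nat.mul_succ, Function.iterate_add_apply, hy₀, ih]
      set m := 2 * d x y₀ + 1 with hm
      have h1 := h (N * m)
      have h2 := tri338 hd x y₀ (g^[N * m] x)
      have h3 := iterate_dist338 g hg (N * m) y₀ x
      rw [hfix m] at h3
      rw [h3, hd.symm y₀ x] at h2
      have h4 : N * m * d x (g x) ≥ m := by
        calc N * m * d x (g x) ≥ 1 * m * 1 :=
              Nat.mul_le_mul (Nat.mul_le_mul hN le_rfl) (by omega)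
          _ = m := by ring
      omega

end Tri

end Fermat.Agent.LT.H338

end
-- ===== PACK-END LT/H338/TreeTri.lean

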