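import Mathlib
import Fermat.Agent.Pack.LT3.E0L0
import Fermat.Agent.Pack.LT2.E0L2
import Fermat.Agent.Pack.LT2.E0L1
import Fermat.Agent.Pack.LT3.E0L1
import Fermat.Agent.Pack.LT3.E0L2
import Fermat.Agent.Pack.LT3.E1L0
import Fermat.Agent.Pack.LT3.E1L2
import Fermat.Agent.Pack.LT3.E2L0

set_option linter.all false

-- ===== PACK-BEGIN LT/H963/SimpleAbs.lean
section


/-!
# Row LT (helper963, OFF-MAIN): abstract core of SIMPLICITY (multiplicity one in module form)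

Mathlib only.  `ρ` a unitary representation of a group `G` on a pre-Hilbert space `H`, `V` a
finite-dimensional subspace, `A ≤ V` a subspace, `e ∈ H`, `P` a set of elements of `G`.

* MATCH: for every non-zero `e₂ ∈ V` there are finite combinations `∑ cᵢ ρ(gᵢ) e = ∑ c'ⱼ ρ(g'ⱼ) e₂`,
  not zero, with `g'ⱼ⁻¹ gᵢ ∈ P`;
* COMPRESS: if `e₂ ∈ V` is orthogonal to `A` then `e₂` is orthogonal to `ρ(g) e` for `g ∈ P`.

Then `A = V` (`simple_of_match963`): a vector of `V` orthogonal to `A` is orthogonal to the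
translates of `e`, so the common vector of MATCH has norm `0`.
-/

set_option autoImplicit false

open scoped InnerProductSpace ComplexConjugate

namespace Fermat.Agent.LT.H963

variable {H : Type*} [NormedAddCommGroup H] [InnerProductSpace ℂ H]
variable {G : Type*} [Group G]

/-- The inner product of two finite combinations of translates. -/
theorem inner_comb963 (ρ : G →* (H ≃ₗᵢ[ℂ] H)) (e e₂ : H) {n n' : ℕ} (c : Fin n → ℂ)
    (g : Fin n → G) (c' : Fin n' → ℂ) (g' : Fin n' → G)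
    (h : ∀ i j, ⟪e₂, ρ ((g' j)⁻¹ * g i) e⟫_ℂ = 0) :
    ⟪∑ j, c' j • ρ (g' j) e₂, ∑ i, c i • ρ (g i) e⟫_ℂ = 0 := by
  rw [sum_inner]
  refine Finset.sum_eq_zero fun j _ => ?_
  rw [inner_sum]
  refine Finset.sum_eq_zero fun i _ => ?_
  rw [inner_smul_left, inner_smul_right, inner_translate963, h i j, mul_zero, mul_zero]

/-- **SIMPLICITY, abstract core.** -/
theorem simple_of_match963 (ρ : G →* (H ≃ₗᵢ[ℂ] H)) (P : G → Prop) (V A : Submodule ℂ H)
    [FiniteDimensional ℂ V] (hAV : A ≤ V) (e : H)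
    (hmatch : ∀ e₂ ∈ V, e₂ ≠ 0 →
      ∃ (n n' : ℕ) (c : Fin n → ℂ) (g : Fin n → G) (c' : Fin n' → ℂ) (g' : Fin n' → G),
        (∀ i j, P ((g' j)⁻¹ * g i)) ∧
        ∑ i, c i • ρ (g i) e = ∑ j, c' j • ρ (g' j) e₂ ∧ ∑ i, c i • ρ (g i) e ≠ 0)
    (hcomp : ∀ e₂ ∈ V, (∀ a ∈ A, ⟪e₂, a⟫_ℂ = 0) → ∀ g : G, P g → ⟪e₂, ρ g e⟫_ℂ = 0) :
    A = V := by
  classical
  by_contra hne
  have hlt : A < V := lt_of_le_of_ne hAV hne
  have hfd : FiniteDimensional ℂ A := Submodule.finiteDimensional_of_le hAV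
  obtain ⟨e₂, he₂V, he₂0, he₂A⟩ : ∃ e₂ ∈ V, e₂ ≠ 0 ∧ ∀ a ∈ A, ⟪e₂, a⟫_ℂ = 0 := by
    obtain ⟨v, hvV, hvA⟩ := SetLike.exists_of_lt hlt
    refine ⟨v - A.starProjection v, ?_, ?_, ?_⟩
    · exact V.sub_mem hvV (hAV (Submodule.starProjection_apply_mem A v))
    · intro h0
      apply hvA
      have : v = A.starProjection v := sub_eq_zero.mp h0
      rw [this]
      exact Submodule.starProjection_apply_mem A v
    · intro a ha
      exact Submodule.starProjection_inner_eq_zero v a ha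
  obtain ⟨n, n', c, g, c', g', hP, heq, hx0⟩ := hmatch e₂ he₂V he₂0
  have h0 : ⟪∑ j, c' j • ρ (g' j) e₂, ∑ i, c i • ρ (g i) e⟫_ℂ = 0 :=
    inner_comb963 ρ e e₂ c g c' g' fun i j => hcomp e₂ he₂V he₂A _ (hP i j)
  rw [← heq] at h0
  exact hx0 (inner_self_eq_zero.mp h0)

end Fermat.Agent.LT.H963

end
-- ===== PACK-END LT/H963/SimpleAbs.lean

-- ===== PACK-BEGIN LT/T2/H878/RotMat.lean
section



/-!
# Row LT, tower T2, sub-leaf T2.07.21 (helper878), part 0: the matrices `rotZ`, `rotY`, `torus`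

OFF-MAIN.  Elementary identities for the matrices of `LT/H556/A0.lean`.
-/

set_option autoImplicit false

open scoped Matrix

noncomputable section

namespace Fermat.Agent.LT.T2.H878

open Fermat.Agent.LT.H556.A0

theorem rotZ_zero878 : rotZ 0 = 1 := by
  ext i j
  fin_cases i <;> fin_cases j <;> simp [rotZ]

theorem rotY_zero878 : rotY 0 = 1 := by
  ext i j
  fin_cases i <;> fin_cases j <;> simp [rotY]

/-- A real diagonal matrix. -/
def diagR878 (x y : ℝ) : Matrix (Fin 2) (Fin 2) ℂ := !![(x : ℂ), 0; 0, (y : ℂ)]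

theorem diagR_herm878 (x y : ℝ) : (diagR878 x y)ᴴ = diagR878 x y := by
  ext i j
  fin_cases i <;> fin_cases j <;> simp [diagR878, Matrix.conjTranspose_apply]

theorem diagR_mul878 (x y x' y' : ℝ) (h1 : x * x' = 1) (h2 : y * y' = 1) :
    diagR878 x y * diagR878 x' y' = 1 := by
  have h1' : (x : ℂ) * (x' : ℂ) = 1 := by exact_mod_cast h1
  have h2' : (y : ℂ) * (y' : ℂ) = 1 := by exact_mod_cast h2
  ext i j
  fin_cases i <;> fin_cases j <;>
    simp [diagR878, Matrix.mul_apply, Fin.sum_univ_two, h1', h2']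

theorem torus_eq878 (d : ℝ) : torus d = diagR878 (Real.exp (d / 2)) (Real.exp (-(d / 2))) := rfl

theorem torus_herm878 (d : ℝ) : (torus d)ᴴ = torus d := by
  rw [torus_eq878, diagR_herm878]

theorem torus_mul_neg878 (d : ℝ) : torus d * torus (-d) = 1 := by
  rw [torus_eq878, torus_eq878]
  apply diagR_mul878
  · rw [← Real.exp_add]
    have : d / 2 + -d / 2 = 0 := by ring
    rw [this, Real.exp_zero]
  · rw [← Real.exp_add]
    have : -(d / 2) + -(-d / 2) = 0 := by ring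
    rw [this, Real.exp_zero]

theorem torus_inv878 (d : ℝ) : (torus d)⁻¹ = torus (-d) :=
  Matrix.inv_eq_right_inv (torus_mul_neg878 d)

theorem det_torus878 (d : ℝ) : (torus d).det ≠ 0 := by
  have h := congrArg Matrix.det (torus_mul_neg878 d)
  rw [Matrix.det_mul, Matrix.det_one] at h
  exact left_ne_zero_of_mul_eq_one h

/-- A unitary diagonal matrix. -/
theorem diagU_unitary878 (z z' : ℂ) (h1 : (starRingEnd ℂ) z = z') (h2 : z * z' = 1) :
    (!![z, 0; 0, z'] : Matrix (Fin 2) (Fin 2) ℂ) * (!![z, 0; 0, z'] : Matrix (Fin 2) (Fin 2) ℂ)ᴴ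
      = 1 := by
  have h3 : (starRingEnd ℂ) z' = z := by rw [← h1, Complex.conj_conj]
  have h4 : z' * z = 1 := by rw [mul_comm]; exact h2
  ext i j
  fin_cases i <;> fin_cases j <;>
    simp [Matrix.mul_apply, Fin.sum_univ_two, Matrix.conjTranspose_apply, h1, h2, h3, h4]

theorem rotZ_unitary878 (α : ℝ) : rotZ α * (rotZ α)ᴴ = 1 := by
  unfold rotZ
  apply diagU_unitary878
  · rw [← Complex.exp_conj]
    congr 1
    rw [map_mul, Complex.conj_I, Complex.conj_ofReal]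
    ring
  · rw [← Complex.exp_add]
    simp

/-- A real rotation matrix. -/
def rotGen878 (c s : ℝ) : Matrix (Fin 2) (Fin 2) ℂ := !![(c : ℂ), -(s : ℂ); (s : ℂ), (c : ℂ)]

theorem rotY_eq878 (β : ℝ) : rotY β = rotGen878 (Real.cos (β / 2)) (Real.sin (β / 2)) := rfl

theorem rotGen_unitary878 (c s : ℝ) (h : c ^ 2 + s ^ 2 = 1) :
    rotGen878 c s * (rotGen878 c s)ᴴ = 1 := by
  have h' : (c : ℂ) ^ 2 + (s : ℂ) ^ 2 = 1 := by exact_mod_cast h
  ext i j
  fin_cases i <;> fin_cases j <;>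
    simp [rotGen878, Matrix.mul_apply, Fin.sum_univ_two, Matrix.conjTranspose_apply] <;>
    first | ring1 | linear_combination h'

theorem rotGen_det878 (c s : ℝ) (h : c ^ 2 + s ^ 2 = 1) : (rotGen878 c s).det = 1 := by
  have h' : (c : ℂ) ^ 2 + (s : ℂ) ^ 2 = 1 := by exact_mod_cast h
  rw [Matrix.det_fin_two]
  simp [rotGen878]
  linear_combination h'

theorem rotGen_real878 (c s : ℝ) (i j : Fin 2) : (rotGen878 c s i j).im = 0 := by
  fin_cases i <;> fin_cases j <;> simp [rotGen878]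

theorem rotY_unitary878 (β : ℝ) : rotY β * (rotY β)ᴴ = 1 := by
  rw [rotY_eq878]
  exact rotGen_unitary878 _ _ (Real.cos_sq_add_sin_sq _)

theorem rotY_det878 (β : ℝ) : (rotY β).det = 1 := by
  rw [rotY_eq878]
  exact rotGen_det878 _ _ (Real.cos_sq_add_sin_sq _)

theorem rotY_real878 (β : ℝ) (i j : Fin 2) : (rotY β i j).im = 0 := by
  rw [rotY_eq878]
  exact rotGen_real878 _ _ i j

theorem rotY_add878 (θ₀ θ : ℝ) : rotY θ₀ * rotY θ = rotY (θ₀ + θ) := by
  have e : (θ₀ + θ) / 2 = θ₀ / 2 + θ / 2 := by ring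
  ext i j
  fin_cases i <;> fin_cases j <;>
    simp [rotY, Matrix.mul_apply, Fin.sum_univ_two, e, Real.cos_add, Real.sin_add] <;> ring

theorem rotY_two_pi878 : rotY (2 * Real.pi) = -1 := by
  have e : 2 * Real.pi / 2 = Real.pi := by ring
  ext i j
  fin_cases i <;> fin_cases j <;> simp [rotY, e]

theorem rotY_add_two_pi878 (θ : ℝ) : rotY (θ + 2 * Real.pi) = rotY θ * rotY (2 * Real.pi) :=
  (rotY_add878 θ (2 * Real.pi)).symm

theorem continuous_rotZ_entry878 (i j : Fin 2) : Continuous fun α : ℝ => rotZ α i j := by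
  fin_cases i <;> fin_cases j <;> simp [rotZ] <;> fun_prop

theorem continuous_rotY_entry878 (i j : Fin 2) : Continuous fun β : ℝ => rotY β i j := by
  fin_cases i <;> fin_cases j <;> simp [rotY] <;> fun_prop

theorem continuous_rotZ878 : Continuous rotZ := continuous_matrix continuous_rotZ_entry878

theorem continuous_rotY878 : Continuous rotY := continuous_matrix continuous_rotY_entry878

/-- A real unitary matrix of determinant one is a rotation `rotY θ₀`. -/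
theorem so2_eq_rotY878 (κ : Matrix (Fin 2) (Fin 2) ℂ) (hu : κ * κᴴ = 1)
    (hre : ∀ i j, (κ i j).im = 0) (hdet : κ.det = 1) : ∃ θ₀ : ℝ, κ = rotY θ₀ := by
  have hc : ∀ i j, (starRingEnd ℂ) (κ i j) = κ i j := fun i j =>
    Complex.conj_eq_iff_im.2 (hre i j)
  have h00 := congrFun (congrFun hu 0) 0
  have h01 := congrFun (congrFun hu 0) 1
  have h11 := congrFun (congrFun hu 1) 1
  simp only [Matrix.mul_apply, Fin.sum_univ_two, Matrix.conjTranspose_apply, Complex.star_def,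
    hc, Matrix.one_apply_eq, Matrix.one_apply_ne, ne_eq, zero_ne_one, not_false_eq_true,
    Fin.isValue] at h00 h01 h11
  rw [Matrix.det_fin_two] at hdet
  -- `d = a`, `b = -c`
  have hd : κ 1 1 = κ 0 0 := by
    linear_combination (-(κ 1 1)) * h00 + (κ 0 0) * hdet + (κ 0 1) * h01
  have hb : κ 0 1 = -κ 1 0 := by
    linear_combination (-(κ 1 0)) * h00 - (κ 0 1) * hdet + (κ 0 0) * h01
  -- the angle
  set z : ℂ := ⟨(κ 0 0).re, (κ 1 0).re⟩ with hz
  have ha : κ 0 0 = ((κ 0 0).re : ℂ) := Complex.ext rfl (by simp [hre 0 0])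
  have hcc : κ 1 0 = ((κ 1 0).re : ℂ) := Complex.ext rfl (by simp [hre 1 0])
  have hsq : (κ 0 0).re ^ 2 + (κ 1 0).re ^ 2 = 1 := by
    have h := h00
    rw [hb, ha, hcc] at h
    have h2 : (((κ 0 0).re * (κ 0 0).re + (κ 1 0).re * (κ 1 0).re : ℝ) : ℂ) = ((1 : ℝ) : ℂ) := by
      push_cast
      linear_combination h
    have h3 := Complex.ofReal_injective h2
    nlinarith [h3]
  have hnorm : ‖z‖ = 1 := by
    rw [Complex.norm_eq_sqrt_sq_add_sq]
    simp only [hz]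
    rw [hsq, Real.sqrt_one]
  have hz0 : z ≠ 0 := by
    intro h0
    rw [h0, norm_zero] at hnorm
    exact zero_ne_one hnorm
  have hcos : Real.cos (Complex.arg z) = (κ 0 0).re := by
    rw [Complex.cos_arg hz0, hnorm, div_one]
  have hsin : Real.sin (Complex.arg z) = (κ 1 0).re := by
    rw [Complex.sin_arg, hnorm, div_one]
  refine ⟨2 * Complex.arg z, ?_⟩
  have e : 2 * Complex.arg z / 2 = Complex.arg z := by ring
  ext i j
  fin_cases i <;> fin_cases j
  · simp only [rotY, e, hcos]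
    simpa using ha
  · simp only [rotY, e, hsin]
    simpa using hb.trans (by rw [← hcc])
  · simp only [rotY, e, hsin]
    simpa using hcc
  · simp only [rotY, e, hcos]
    simpa using hd.trans ha

end Fermat.Agent.LT.T2.H878

end

end
-- ===== PACK-END LT/T2/H878/RotMat.lean

-- ===== PACK-BEGIN LT/T6/H137/HasseQ.lean
section



/-!
# Row LT, tower T6, leaf T6.00b `HasseNormQC` (owner helper137, OFF-MAIN): the top

`T6.HasseNormQC` VERBATIM (Spec v3 of helper22, sha256 8c5f2ae7) from the cut of helper438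
(`H438.HasseNormQ3C438`, file `H438/HasseQ3.lean`, sha256 7b061f61, vendored byte-identical):

    T6.HasseNormQC  ⟸  H438.HasseNormQ3C438  ⟸  the eight elementary leaves of helper438.

The only difference of the two statements is the shape of the hypothesis `√-3 ∉ L`
(`∀ x : L, algebraMap L M x ≠ z` versus `∀ s : L, s ^ 2 ≠ -3`); `IsGalois L M` is not used.
-/

set_option autoImplicit false

namespace Fermat.Agent.LT.T6.H137

open Fermat.Agent.LT.T6

/-- The hypotheses of `T6.HasseNormQC` give a pair of the quadratic step in the sense of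
helper438. -/
theorem isQ3Pair_of137 (L M : Type) [Field L] [NumberField L] [Field M] [NumberField M]
    [Algebra L M] (h1 : Module.finrank ℚ L = 2) (h2 : Module.finrank L M = 2)
    (h3 : ∃ z : M, z ^ 2 = -3 ∧ ∀ x : L, algebraMap L M x ≠ z) : H438.IsQ3Pair438 L M := by
  obtain ⟨z, hz, hzL⟩ := h3
  refine ⟨h1, h2, ⟨z, hz⟩, ?_⟩
  intro s hs
  have h : (algebraMap L M s) ^ 2 = z ^ 2 := by
    rw [← map_pow, hs, hz, map_neg, map_ofNat]
  rcases sq_eq_sq_iff_eq_or_eq_neg.mp h with h | h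
  · exact hzL s h
  · exact hzL (-s) (by rw [map_neg, h, neg_neg])

/-- **T6.00b, reduction to the statement of helper438.** -/
theorem hasseNormQC_of_Q3_137 (h : H438.HasseNormQ3C438) : HasseNormQC := by
  intro L M _ _ _ _ _ _ h1 h2 h3 x hx hfin hinf
  exact h L M (isQ3Pair_of137 L M h1 h2 h3) x hx hfin hinf

/-- **T6.00b from the eight elementary leaves** (registry rows 1040 -- 1047). -/
theorem hasseNormQC_of_leaves137 (hgen : H438.QuadGenC438) (hA : H438.LocalAC438)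
    (hF : H438.NormFC438) (hB : H438.AlgBC438) (hmul : H438.LocMulC438)
    (hC : H438.LocalCC438) (hcore : H438.CoreC438) (hAC : H438.AlgCC438) : HasseNormQC :=
  hasseNormQC_of_Q3_137 (H438.hasseNormQ3_of_leaves438 hgen hA hF hB hmul hC hcore hAC)

end Fermat.Agent.LT.T6.H137

end
-- ===== PACK-END LT/T6/H137/HasseQ.lean

-- ===== PACK-BEGIN LT/T6/H219/RealPlace.lean
section


/-!
# T6.00b (HasseNormQ3, cut of helper438): tool Q3, the sign at a real place (helper219)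

`L = ℚ(δ)`, `δ² = d > 0`: there is a real place `u` of `L`; if `c ∈ ℚ`, `c ≠ 0`, is of the
form `a² + 3 b²` in `u.Completion` then `c > 0`.  Mathlib only.
-/

set_option autoImplicit false

namespace Fermat.Agent.LT.T6.H219

open NumberField

/-- If `x ∈ ℚ` is `a² + 3b²` in the completion at a real place then `x ≥ 0`. -/
theorem nonneg_of_n3_real219 {L : Type} [Field L] [NumberField L] (u : InfinitePlace L)
    (hu : u.IsReal) (c : ℚ) (a b : u.Completion)
    (h : a ^ 2 + 3 * b ^ 2 = algebraMap L u.Completion (algebraMap ℚ L c)) : 0 ≤ c := by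
  let e : u.Completion →+* ℝ := InfinitePlace.Completion.extensionEmbeddingOfIsReal hu
  have h1 : e (algebraMap L u.Completion (algebraMap ℚ L c)) = (c : ℝ) :=
    eq_ratCast ((e.comp (algebraMap L u.Completion)).comp (algebraMap ℚ L)) c
  have h2 := congrArg e h
  rw [h1, map_add, map_mul, map_pow, map_pow, map_ofNat] at h2
  have : (0 : ℝ) ≤ (c : ℝ) := by
    rw [← h2]; positivity
  exact_mod_cast this

/-- A real quadratic field has a real place. -/
theorem exists_real_place219 {L : Type} [Field L] [NumberField L]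
    (hdeg : Module.finrank ℚ L = 2) (d : ℤ) (hd : Squarefree d) (hd1 : d ≠ 1) (δ : L)
    (hδ : δ ^ 2 = (d : L)) (hpos : 0 < d) : ∃ u : InfinitePlace L, u.IsReal := by
  have hρ : (Real.sqrt (d : ℝ)) ^ 2 = ((d : ℤ) : ℝ) :=
    Real.sq_sqrt (by exact_mod_cast hpos.le)
  obtain ⟨ψ⟩ := exists_algHom_of_sqrt219 hdeg d hd hd1 δ hδ ℝ (Real.sqrt (d : ℝ)) hρ
  let φ : L →+* ℂ := Complex.ofRealHom.comp (ψ : L →+* ℝ)
  refine ⟨InfinitePlace.mk φ, ?_⟩
  rw [InfinitePlace.isReal_mk_iff, ComplexEmbedding.isReal_iff]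
  ext x
  simp [φ, ComplexEmbedding.conjugate]

end Fermat.Agent.LT.T6.H219

end
-- ===== PACK-END LT/T6/H219/RealPlace.lean

-- ===== PACK-BEGIN LT/T6/H439/LocMul.lean
section



/-!
# Row LT, tower T6, leaf T6.00q.5 `LocMulC438` (helper439, OFF-MAIN)

Vocabulary: `Fermat/Agent/LT/T6/H438/HasseQ3.lean` (helper438@9c79cc886, sha256 7b061f61b47b31e2),
byte-identical copy.

`locMulC_h439 : LocMulC438` : the local norm conditions are stable under division by a global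
norm.  The norm of `A ⊗_L M` over `A` sends `1 ⊗ y` to the image of `N_{M/L}(y)`
(`norm_one_tmul_h439`, valid for every finite free `L`-algebra `M` and every `L`-algebra `A`),
and the norm is multiplicative.
-/

set_option autoImplicit false

open scoped TensorProduct

noncomputable section

namespace Fermat.Agent.LT.T6.H439

open Fermat.Agent.LT.T6.H438

/-- The norm commutes with base change on the elements `1 ⊗ y`. -/
theorem norm_one_tmul_h439 (L : Type*) [CommRing L] (A : Type*) [CommRing A] [Algebra L A]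
    (M : Type*) [CommRing M] [Algebra L M] [Module.Free L M] [Module.Finite L M] (y : M) :
    Algebra.norm A ((1 : A) ⊗ₜ[L] y) = algebraMap L A (Algebra.norm L y) := by
  rw [Algebra.norm_apply, Algebra.norm_apply, ← Algebra.baseChange_lmul,
    LinearMap.det_baseChange]

/-- Division of a local norm by a global norm: the abstract step. -/
theorem locNorm_div_h439 (L : Type*) [Field L] (A : Type*) [CommRing A] [Algebra L A]
    (M : Type*) [Field M] [Algebra L M] [FiniteDimensional L M] (x c : L) (y : M) (hy : y ≠ 0)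
    (hx : x = c * Algebra.norm L y)
    (h : ∃ z : A ⊗[L] M, Algebra.norm A z = algebraMap L A x) :
    ∃ z : A ⊗[L] M, Algebra.norm A z = algebraMap L A c := by
  obtain ⟨z, hz⟩ := h
  have hN : Algebra.norm L y ≠ 0 := Algebra.norm_ne_zero_iff.mpr hy
  have h1 : Algebra.norm L y * Algebra.norm L y⁻¹ = 1 := by
    rw [← map_mul, mul_inv_cancel₀ hy, map_one]
  refine ⟨z * ((1 : A) ⊗ₜ[L] y⁻¹), ?_⟩
  rw [map_mul, hz, norm_one_tmul_h439, ← map_mul, hx, mul_assoc, h1, mul_one]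

/-- **T6.00q.5 `LocMulC438`.** -/
theorem locMulC_h439 : LocMulC438 := by
  intro L M _ _ _ _ _ _ x c y hy hx hfin hinf
  exact ⟨fun u => locNorm_div_h439 L (u.adicCompletion L) M x c y hy hx (hfin u),
    fun u => locNorm_div_h439 L u.Completion M x c y hy hx (hinf u)⟩

end Fermat.Agent.LT.T6.H439

end

end
-- ===== PACK-END LT/T6/H439/LocMul.lean

-- ===== PACK-BEGIN LT/T6/H502/TwBasic.lean
section



/-!
# Row LT, tower T6, sub-leaf T6.07 (helper502): basic algebra of the twisted norm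

OFF-MAIN.  Pure algebra (Mathlib only + `T6/Spec.lean`).

* `twN_conj502`, `map_twN502`: the twisted norm under `s`-conjugation and under `s`.
* `exists_eq_smul_add502`: the centraliser of a regular `2 × 2` matrix `γ` over ANY commutative
  ring is `R + R γ`; `smul_add_eq_zero502`: `1, γ` are linearly independent.
* `cayley502`: `γ² - tr γ · γ + det γ = 0`.
-/

set_option autoImplicit false

open scoped Matrix

noncomputable section

namespace Fermat.Agent.LT.T6.H502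

open Fermat.Agent.LT.T6

section Group

variable {Γ : Type} [Group Γ] (s : Γ →* Γ)

theorem twN_zero502 (δ : Γ) : twN s 0 δ = 1 := rfl

theorem twN_succ502 (n : ℕ) (δ : Γ) : twN s (n + 1) δ = δ * s (twN s n δ) := rfl

/-- The twisted norm of an `s`-conjugate. -/
theorem twN_conj502 (x δ : Γ) (n : ℕ) :
    twN s n (x⁻¹ * δ * s x) = x⁻¹ * twN s n δ * (s^[n] x) := by
  induction n with
  | zero => simp [twN_zero502]
  | succ n ih =>
    rw [twN_succ502, twN_succ502, ih, Function.iterate_succ_apply', map_mul, map_mul, map_inv]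
    group

/-- `s (N δ) = δ⁻¹ (N δ) sⁿ(δ)`. -/
theorem map_twN502 (δ : Γ) (n : ℕ) :
    s (twN s n δ) = δ⁻¹ * twN s n δ * (s^[n] δ) := by
  induction n with
  | zero => simp [twN_zero502]
  | succ n ih =>
    rw [twN_succ502, Function.iterate_succ_apply', map_mul, ih, map_mul, map_mul, map_inv, ih]
    group

end Group

section Mat

variable {R : Type} [CommRing R]

/-- Cayley--Hamilton for `2 × 2` matrices, written out. -/
theorem cayley502 (γ : Matrix (Fin 2) (Fin 2) R) :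
    γ * γ - γ.trace • γ + γ.det • (1 : Matrix (Fin 2) (Fin 2) R) = 0 := by
  ext i j
  fin_cases i <;> fin_cases j <;>
    simp [Matrix.mul_apply, Fin.sum_univ_two, Matrix.trace_fin_two, Matrix.det_fin_two] <;> ring

/-- The discriminant in coordinates. -/
theorem disc_eq502 (γ : Matrix (Fin 2) (Fin 2) R) :
    γ.trace ^ 2 - 4 * γ.det = (γ 0 0 - γ 1 1) ^ 2 + 4 * γ 0 1 * γ 1 0 := by
  rw [Matrix.trace_fin_two, Matrix.det_fin_two]; ring

/-- `1` and a regular `γ` are linearly independent. -/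
theorem smul_add_eq_zero502 (γ : Matrix (Fin 2) (Fin 2) R)
    (hγ : IsUnit (γ.trace ^ 2 - 4 * γ.det)) (a b : R)
    (h : a • (1 : Matrix (Fin 2) (Fin 2) R) + b • γ = 0) : a = 0 ∧ b = 0 := by
  obtain ⟨u, hu⟩ := hγ.exists_left_inv
  rw [disc_eq502] at hu
  have h00 := congrFun (congrFun h 0) 0
  have h01 := congrFun (congrFun h 0) 1
  have h10 := congrFun (congrFun h 1) 0
  have h11 := congrFun (congrFun h 1) 1
  simp at h00 h01 h10 h11
  have hb : b = 0 := by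
    have : b = b * (u * ((γ 0 0 - γ 1 1) ^ 2 + 4 * γ 0 1 * γ 1 0)) := by rw [hu, mul_one]
    rw [this]
    linear_combination (u * (γ 0 0 - γ 1 1)) * (h00 - h11) + (4 * u * γ 1 0) * h01
  refine ⟨?_, hb⟩
  rw [hb] at h00
  simpa using h00

/-- The centraliser of a regular `2 × 2` matrix over a commutative ring is `R + R γ`. -/
theorem exists_eq_smul_add502 (γ X : Matrix (Fin 2) (Fin 2) R)
    (hγ : IsUnit (γ.trace ^ 2 - 4 * γ.det)) (hX : X * γ = γ * X) :
    ∃ a b : R, X = a • (1 : Matrix (Fin 2) (Fin 2) R) + b • γ := by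
  obtain ⟨u, hu⟩ := hγ.exists_left_inv
  rw [disc_eq502] at hu
  have h00 := congrFun (congrFun hX 0) 0
  have h01 := congrFun (congrFun hX 0) 1
  have h10 := congrFun (congrFun hX 1) 0
  simp [Matrix.mul_apply, Fin.sum_univ_two] at h00 h01 h10
  -- β = r₁ (x00 - x11) + r₂ x01, r₁ = u (g00 - g11), r₂ = 4 u g10
  set β : R := u * (γ 0 0 - γ 1 1) * (X 0 0 - X 1 1) + 4 * u * γ 1 0 * X 0 1 with hβ
  have e01 : β * γ 0 1 = X 0 1 := by
    have : X 0 1 = X 0 1 * (u * ((γ 0 0 - γ 1 1) ^ 2 + 4 * γ 0 1 * γ 1 0)) := by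
      rw [hu, mul_one]
    rw [this, hβ]
    linear_combination (u * (γ 0 0 - γ 1 1)) * h01
  have e10 : β * γ 1 0 = X 1 0 := by
    have : X 1 0 = X 1 0 * (u * ((γ 0 0 - γ 1 1) ^ 2 + 4 * γ 0 1 * γ 1 0)) := by
      rw [hu, mul_one]
    rw [this, hβ]
    linear_combination (-(u * (γ 0 0 - γ 1 1))) * h10 + (4 * u * γ 1 0) * h00
  have ed : β * (γ 0 0 - γ 1 1) = X 0 0 - X 1 1 := by
    have : X 0 0 - X 1 1 = (X 0 0 - X 1 1) * (u * ((γ 0 0 - γ 1 1) ^ 2 + 4 * γ 0 1 * γ 1 0)) := by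
      rw [hu, mul_one]
    rw [this, hβ]
    linear_combination (-(4 * u * γ 1 0)) * h01
  refine ⟨X 0 0 - β * γ 0 0, β, ?_⟩
  ext i j
  fin_cases i <;> fin_cases j <;> simp
  · exact e01.symm
  · exact e10.symm
  · linear_combination ed

end Mat

end Fermat.Agent.LT.T6.H502

end

end
-- ===== PACK-END LT/T6/H502/TwBasic.lean

-- ===== PACK-BEGIN LT/T6/H967/TorAlg.lean
section



/-!
# Row LT, tower T6, leaf T6.20e.2e.2 `H75.TorNormC75` (helper967), part 1: ALGEBRA + TOPOLOGY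

OFF-MAIN.  The centraliser `T` of an elliptic `γ ∈ GL₂(ℝ)` (`disc γ < 0`):

* `det_pos967` : `0 < det t` for `t ∈ T`  (`4 q² det t = q² (tr t)² + t₀₁² (-disc γ)`, `q = γ₀₁ ≠ 0`);
* `isCompact_detBand967` : `{t ∈ T | c ≤ det t ≤ C}` is compact for `0 < c`
  (closed and entrywise bounded in `M₂(ℝ)`; `GL₂(ℝ) → M₂(ℝ)` is an embedding).
-/

set_option autoImplicit false
set_option linter.style.haveILetI false

open scoped Matrix
open Topology

noncomputable section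

namespace Fermat.Agent.LT.T6.H967

open Fermat.Agent.LT.T6

/-- Membership in the centraliser, in matrix form. -/
theorem mem_twCent_iff967 (γ x : GL (Fin 2) ℝ) :
    x ∈ twCentSub (MonoidHom.id (GL (Fin 2) ℝ)) γ ↔
      (γ : Matrix (Fin 2) (Fin 2) ℝ) * (x : Matrix (Fin 2) (Fin 2) ℝ)
        = (x : Matrix (Fin 2) (Fin 2) ℝ) * (γ : Matrix (Fin 2) (Fin 2) ℝ) := by
  have h1 : x ∈ twCentSub (MonoidHom.id (GL (Fin 2) ℝ)) γ ↔ x⁻¹ * γ * x = γ := Iff.rfl
  rw [h1]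
  constructor
  · intro h
    have h2 : γ * x = x * γ := by
      calc γ * x = x * (x⁻¹ * γ * x) := by group
        _ = x * γ := by rw [h]
    have := congrArg (fun g : GL (Fin 2) ℝ => (g : Matrix (Fin 2) (Fin 2) ℝ)) h2
    simpa using this
  · intro h
    have h2 : γ * x = x * γ := by
      apply Units.ext
      simpa using h
    calc x⁻¹ * γ * x = x⁻¹ * (γ * x) := by group
      _ = x⁻¹ * (x * γ) := by rw [h2]
      _ = γ := by group

/-- The entrywise form of the commutation relation. -/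
theorem comm_entries967 (Γ X : Matrix (Fin 2) (Fin 2) ℝ) (h : Γ * X = X * Γ) :
    Γ 0 1 * X 1 0 = X 0 1 * Γ 1 0 ∧
      Γ 0 1 * X 1 1 = Γ 0 1 * X 0 0 + X 0 1 * (Γ 1 1 - Γ 0 0) := by
  have h00 := congrFun (congrFun h 0) 0
  have h01 := congrFun (congrFun h 0) 1
  simp only [Matrix.mul_apply, Fin.sum_univ_two] at h00 h01
  constructor
  · linarith
  · linarith

/-- `disc < 0` forces `γ₀₁ ≠ 0`. -/
theorem q_ne_zero967 (Γ : Matrix (Fin 2) (Fin 2) ℝ) (hd : Γ.trace ^ 2 - 4 * Γ.det < 0) :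
    Γ 0 1 ≠ 0 := by
  intro h0
  rw [Matrix.trace_fin_two, Matrix.det_fin_two, h0] at hd
  nlinarith [sq_nonneg (Γ 0 0 - Γ 1 1)]

/-- **The key identity**: `4 q² det X = q² (tr X)² + X₀₁² (-disc Γ)` for `X` commuting with `Γ`. -/
theorem key967 (Γ X : Matrix (Fin 2) (Fin 2) ℝ) (h : Γ * X = X * Γ) :
    4 * Γ 0 1 ^ 2 * X.det
      = Γ 0 1 ^ 2 * (X 0 0 + X 1 1) ^ 2 + X 0 1 ^ 2 * (-(Γ.trace ^ 2 - 4 * Γ.det)) := by
  obtain ⟨h1, h2⟩ := comm_entries967 Γ X h
  rw [Matrix.trace_fin_two, Matrix.det_fin_two, Matrix.det_fin_two]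
  have e1 : Γ 0 1 ^ 2 * (X 0 0 * X 1 1) = Γ 0 1 * X 0 0 * (Γ 0 1 * X 1 1) := by ring
  have e2 : Γ 0 1 ^ 2 * (X 0 1 * X 1 0) = Γ 0 1 * X 0 1 * (Γ 0 1 * X 1 0) := by ring
  have e3 : Γ 0 1 ^ 2 * (X 0 0 + X 1 1) ^ 2 = (Γ 0 1 * X 0 0 + Γ 0 1 * X 1 1) ^ 2 := by ring
  have : 4 * Γ 0 1 ^ 2 * (X 0 0 * X 1 1 - X 0 1 * X 1 0)
      = 4 * (Γ 0 1 ^ 2 * (X 0 0 * X 1 1)) - 4 * (Γ 0 1 ^ 2 * (X 0 1 * X 1 0)) := by ring
  rw [this, e1, e2, e3, h1, h2]
  ring

/-- `0 < det X` for an invertible `X` commuting with an elliptic `Γ`. -/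
theorem det_pos_of_comm967 (Γ X : Matrix (Fin 2) (Fin 2) ℝ)
    (hd : Γ.trace ^ 2 - 4 * Γ.det < 0) (h : Γ * X = X * Γ) (hX : X.det ≠ 0) : 0 < X.det := by
  have hq := q_ne_zero967 Γ hd
  have hq2 : 0 < Γ 0 1 ^ 2 := by positivity
  have hk := key967 Γ X h
  have h0 : 0 ≤ 4 * Γ 0 1 ^ 2 * X.det := by
    rw [hk]
    have : 0 ≤ -(Γ.trace ^ 2 - 4 * Γ.det) := by linarith
    positivity
  have h1 : 0 ≤ X.det := by
    by_contra hneg0
    have hneg : X.det < 0 := lt_of_not_ge hneg0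
    have : 4 * Γ 0 1 ^ 2 * X.det < 0 := by
      have : 0 < 4 * Γ 0 1 ^ 2 := by positivity
      exact mul_neg_of_pos_of_neg this hneg
    linarith
  exact lt_of_le_of_ne h1 (Ne.symm hX)

/-- `0 < det t` on the centraliser of an elliptic `γ`. -/
theorem det_pos967 (γ : GL (Fin 2) ℝ) (hγ : disc γ < 0)
    (t : twCentSub (MonoidHom.id (GL (Fin 2) ℝ)) γ) :
    0 < ((t : GL (Fin 2) ℝ) : Matrix (Fin 2) (Fin 2) ℝ).det := by
  have hm := (mem_twCent_iff967 γ t).1 t.2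
  refine det_pos_of_comm967 _ _ hγ hm ?_
  exact ((Matrix.isUnit_iff_isUnit_det _).1 (t : GL (Fin 2) ℝ).isUnit).ne_zero

/-! ## Compactness of the determinant bands -/

/-- `GL₂(ℝ) → M₂(ℝ)` is a topological embedding. -/
theorem isEmbedding_val967 :
    IsEmbedding (Units.val : GL (Fin 2) ℝ → Matrix (Fin 2) (Fin 2) ℝ) := by
  letI : NormedRing (Matrix (Fin 2) (Fin 2) ℝ) := Matrix.linftyOpNormedRing
  letI : NormedAlgebra ℝ (Matrix (Fin 2) (Fin 2) ℝ) := Matrix.linftyOpNormedAlgebra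
  exact Units.isOpenEmbedding_val.isEmbedding

/-- The boxes of `M₂(ℝ)` are compact. -/
theorem isCompact_box967 (R : ℝ) :
    IsCompact {X : Matrix (Fin 2) (Fin 2) ℝ | ∀ i j, X i j ∈ Set.Icc (-R) R} := by
  have h : IsCompact (Set.pi Set.univ fun _ : Fin 2 =>
      Set.pi Set.univ fun _ : Fin 2 => Set.Icc (-R) R) :=
    isCompact_univ_pi fun _ => isCompact_univ_pi fun _ => isCompact_Icc
  have e : {X : Matrix (Fin 2) (Fin 2) ℝ | ∀ i j, X i j ∈ Set.Icc (-R) R}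
      = (Set.pi Set.univ fun _ : Fin 2 => Set.pi Set.univ fun _ : Fin 2 => Set.Icc (-R) R) := by
    ext X
    exact ⟨fun hX i _ j _ => hX i j, fun hX i j => hX i (Set.mem_univ i) j (Set.mem_univ j)⟩
  rw [e]
  exact h

/-- `|x| ≤ 1 + b` if `x² ≤ b`. -/
theorem abs_le_of_sq_le967 {x b : ℝ} (h : x ^ 2 ≤ b) : x ∈ Set.Icc (-(1 + b)) (1 + b) := by
  constructor
  · nlinarith [sq_nonneg (x + 1)]
  · nlinarith [sq_nonneg (x - 1)]

/-- The band `{X | Γ X = X Γ, c ≤ det X ≤ C}` of `M₂(ℝ)`. -/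
def band967 (Γ : Matrix (Fin 2) (Fin 2) ℝ) (c C : ℝ) : Set (Matrix (Fin 2) (Fin 2) ℝ) :=
  {X | Γ * X = X * Γ ∧ c ≤ X.det ∧ X.det ≤ C}

theorem isClosed_band967 (Γ : Matrix (Fin 2) (Fin 2) ℝ) (c C : ℝ) : IsClosed (band967 Γ c C) := by
  have h1 : IsClosed {X : Matrix (Fin 2) (Fin 2) ℝ | Γ * X = X * Γ} :=
    isClosed_eq (continuous_const.matrix_mul continuous_id)
      (continuous_id.matrix_mul continuous_const)
  have h2 : IsClosed {X : Matrix (Fin 2) (Fin 2) ℝ | c ≤ X.det} :=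
    isClosed_le continuous_const continuous_id.matrix_det
  have h3 : IsClosed {X : Matrix (Fin 2) (Fin 2) ℝ | X.det ≤ C} :=
    isClosed_le continuous_id.matrix_det continuous_const
  have e : band967 Γ c C = {X : Matrix (Fin 2) (Fin 2) ℝ | Γ * X = X * Γ} ∩
      ({X | c ≤ X.det} ∩ {X | X.det ≤ C}) := by
    ext X
    exact ⟨fun hX => ⟨hX.1, hX.2.1, hX.2.2⟩, fun hX => ⟨hX.1, hX.2.1, hX.2.2⟩⟩
  rw [e]
  exact h1.inter (h2.inter h3)

/-- The entries of the band are bounded. -/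
theorem band_bounded967 (Γ : Matrix (Fin 2) (Fin 2) ℝ) (hd : Γ.trace ^ 2 - 4 * Γ.det < 0)
    (c C : ℝ) : ∃ R : ℝ, band967 Γ c C ⊆ {X | ∀ i j, X i j ∈ Set.Icc (-R) R} := by
  have hq := q_ne_zero967 Γ hd
  have hq2 : 0 < Γ 0 1 ^ 2 := by positivity
  set δ : ℝ := -(Γ.trace ^ 2 - 4 * Γ.det) with hδ
  have hδ0 : 0 < δ := by rw [hδ]; linarith
  -- the bound of the squares of the entries
  set B : ℝ := 2 * |C| + 2 * |C| * (Γ 1 1 - Γ 0 0) ^ 2 / δ + 4 * Γ 0 1 ^ 2 * |C| / δ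
      + 4 * Γ 1 0 ^ 2 * |C| / δ with hB
  refine ⟨1 + B, ?_⟩
  rintro X ⟨hX, -, hC⟩
  obtain ⟨h1, h2⟩ := comm_entries967 Γ X hX
  have hk := key967 Γ X hX
  rw [← hδ] at hk
  have hCa : X.det ≤ |C| := hC.trans (le_abs_self C)
  have hC0 : 0 ≤ |C| := abs_nonneg C
  -- `(tr X)² ≤ 4 |C|`
  have ht : (X 0 0 + X 1 1) ^ 2 ≤ 4 * |C| := by
    have h3 : Γ 0 1 ^ 2 * (X 0 0 + X 1 1) ^ 2 ≤ Γ 0 1 ^ 2 * (4 * |C|) := by
      have : 0 ≤ X 0 1 ^ 2 * δ := by positivity
      nlinarith [mul_le_mul_of_nonneg_left hCa (by positivity : (0:ℝ) ≤ 4 * Γ 0 1 ^ 2)]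
    exact le_of_mul_le_mul_left h3 hq2
  -- `X₀₁² ≤ 4 q² |C| / δ`
  have hx2 : X 0 1 ^ 2 ≤ 4 * Γ 0 1 ^ 2 * |C| / δ := by
    rw [le_div_iff₀ hδ0]
    have : 0 ≤ Γ 0 1 ^ 2 * (X 0 0 + X 1 1) ^ 2 := by positivity
    nlinarith [mul_le_mul_of_nonneg_left hCa (by positivity : (0:ℝ) ≤ 4 * Γ 0 1 ^ 2)]
  -- `X₁₀² ≤ 4 r² |C| / δ`
  have hx3 : X 1 0 ^ 2 ≤ 4 * Γ 1 0 ^ 2 * |C| / δ := by
    have e : X 1 0 = X 0 1 * Γ 1 0 / Γ 0 1 := by
      field_simp
      linarith
    have e2 : X 1 0 ^ 2 = X 0 1 ^ 2 * (Γ 1 0 ^ 2 / Γ 0 1 ^ 2) := by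
      rw [e]; ring
    rw [e2]
    have hr : 0 ≤ Γ 1 0 ^ 2 / Γ 0 1 ^ 2 := by positivity
    calc X 0 1 ^ 2 * (Γ 1 0 ^ 2 / Γ 0 1 ^ 2)
        ≤ 4 * Γ 0 1 ^ 2 * |C| / δ * (Γ 1 0 ^ 2 / Γ 0 1 ^ 2) :=
          mul_le_mul_of_nonneg_right hx2 hr
      _ = 4 * Γ 1 0 ^ 2 * |C| / δ := by
          field_simp
  -- `(X₀₀ - X₁₁)² ≤ 4 |C| (s - p)² / δ`
  have hdiff : (X 0 0 - X 1 1) ^ 2 ≤ 4 * |C| * (Γ 1 1 - Γ 0 0) ^ 2 / δ := by
    have e : X 0 0 - X 1 1 = -(X 0 1 * (Γ 1 1 - Γ 0 0) / Γ 0 1) := by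
      field_simp
      linarith
    have e2 : (X 0 0 - X 1 1) ^ 2 = X 0 1 ^ 2 * ((Γ 1 1 - Γ 0 0) ^ 2 / Γ 0 1 ^ 2) := by
      rw [e]; ring
    rw [e2]
    have hr : 0 ≤ (Γ 1 1 - Γ 0 0) ^ 2 / Γ 0 1 ^ 2 := by positivity
    calc X 0 1 ^ 2 * ((Γ 1 1 - Γ 0 0) ^ 2 / Γ 0 1 ^ 2)
        ≤ 4 * Γ 0 1 ^ 2 * |C| / δ * ((Γ 1 1 - Γ 0 0) ^ 2 / Γ 0 1 ^ 2) :=
          mul_le_mul_of_nonneg_right hx2 hr
      _ = 4 * |C| * (Γ 1 1 - Γ 0 0) ^ 2 / δ := by
          field_simp
  have n1 : 0 ≤ 2 * |C| * (Γ 1 1 - Γ 0 0) ^ 2 / δ := by positivity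
  have n2 : 0 ≤ 4 * Γ 0 1 ^ 2 * |C| / δ := by positivity
  have n3 : 0 ≤ 4 * Γ 1 0 ^ 2 * |C| / δ := by positivity
  have n0 : 0 ≤ 2 * |C| := by positivity
  have hhalf : 4 * |C| * (Γ 1 1 - Γ 0 0) ^ 2 / δ = 2 * (2 * |C| * (Γ 1 1 - Γ 0 0) ^ 2 / δ) := by
    ring
  have hx1 : X 0 0 ^ 2 ≤ B := by
    have : X 0 0 ^ 2 ≤ ((X 0 0 + X 1 1) ^ 2 + (X 0 0 - X 1 1) ^ 2) / 2 := by
      nlinarith [sq_nonneg (X 1 1)]
    rw [hB]
    linarith
  have hx4 : X 1 1 ^ 2 ≤ B := by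
    have : X 1 1 ^ 2 ≤ ((X 0 0 + X 1 1) ^ 2 + (X 0 0 - X 1 1) ^ 2) / 2 := by
      nlinarith [sq_nonneg (X 0 0)]
    rw [hB]
    linarith
  have hx2' : X 0 1 ^ 2 ≤ B := by rw [hB]; linarith
  have hx3' : X 1 0 ^ 2 ≤ B := by rw [hB]; linarith
  intro i j
  fin_cases i <;> fin_cases j
  · exact abs_le_of_sq_le967 hx1
  · exact abs_le_of_sq_le967 hx2'
  · exact abs_le_of_sq_le967 hx3'
  · exact abs_le_of_sq_le967 hx4

/-- The band is compact. -/
theorem isCompact_band967 (Γ : Matrix (Fin 2) (Fin 2) ℝ) (hd : Γ.trace ^ 2 - 4 * Γ.det < 0)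
    (c C : ℝ) : IsCompact (band967 Γ c C) := by
  obtain ⟨R, hR⟩ := band_bounded967 Γ hd c C
  exact (isCompact_box967 R).of_isClosed_subset (isClosed_band967 Γ c C) hR

/-- **The determinant bands of the centraliser of an elliptic `γ` are compact.** -/
theorem isCompact_detBand967 (γ : GL (Fin 2) ℝ) (hγ : disc γ < 0) (c C : ℝ) (hc : 0 < c) :
    IsCompact {t : twCentSub (MonoidHom.id (GL (Fin 2) ℝ)) γ |
      c ≤ ((t : GL (Fin 2) ℝ) : Matrix (Fin 2) (Fin 2) ℝ).det ∧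
        ((t : GL (Fin 2) ℝ) : Matrix (Fin 2) (Fin 2) ℝ).det ≤ C} := by
  rw [Subtype.isCompact_iff, isEmbedding_val967.isCompact_iff]
  have e : (Units.val : GL (Fin 2) ℝ → Matrix (Fin 2) (Fin 2) ℝ) ''
      (Subtype.val '' {t : twCentSub (MonoidHom.id (GL (Fin 2) ℝ)) γ |
        c ≤ ((t : GL (Fin 2) ℝ) : Matrix (Fin 2) (Fin 2) ℝ).det ∧
          ((t : GL (Fin 2) ℝ) : Matrix (Fin 2) (Fin 2) ℝ).det ≤ C})
      = band967 (γ : Matrix (Fin 2) (Fin 2) ℝ) c C := by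
    ext X
    constructor
    · rintro ⟨g, ⟨t, ⟨h1, h2⟩, rfl⟩, rfl⟩
      exact ⟨(mem_twCent_iff967 γ t).1 t.2, h1, h2⟩
    · rintro ⟨hX, h1, h2⟩
      have hdet : X.det ≠ 0 := (lt_of_lt_of_le hc h1).ne'
      refine ⟨Matrix.GeneralLinearGroup.mkOfDetNeZero X hdet,
        ⟨⟨Matrix.GeneralLinearGroup.mkOfDetNeZero X hdet, ?_⟩, ⟨?_, ?_⟩, rfl⟩, rfl⟩
      · exact (mem_twCent_iff967 γ _).2 hX
      · exact h1
      · exact h2
  rw [e]
  exact isCompact_band967 _ hγ c C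

end Fermat.Agent.LT.T6.H967

end

end
-- ===== PACK-END LT/T6/H967/TorAlg.lean

-- ===== PACK-BEGIN LT/T6/H559/EllDown.lean
section


/-!
# Row LT, tower T6, leaf T6.28 (ArchEllId) — the DOWNSTAIRS side (helper559, OFF-MAIN)

For a profile `V` (continuous, zero beyond `R`) and `g_V(ρ) = ∫_ℝ V(X_v)/X_v dv`,
`X_v = √((ρ+1+v²)/2)`:
`∫_0^∞ g_V(1 + 2 sin²θ sinh²τ) sinh τ dτ = ∫_ℝ √2 cosh x · (∫_{cosh x}^∞ V) / (cosh²x - cos²θ) dx`.
-/

set_option autoImplicit false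

open MeasureTheory Set Real Filter Topology

noncomputable section

namespace Fermat.Agent.LT.T6.H559

/-- `X_v(ρ) = √((ρ + 1 + v²)/2)`. -/
def xv559 (ρ v : ℝ) : ℝ := Real.sqrt ((ρ + 1 + v ^ 2) / 2)

/-- The profile transform `g_V(ρ) = ∫_ℝ V(X_v)/X_v dv`. -/
def gOf559 (V : ℝ → ℂ) (ρ : ℝ) : ℂ := ∫ v : ℝ, V (xv559 ρ v) / (xv559 ρ v : ℂ)

/-- The elliptic integral downstairs, `∫_0^∞ g_V(1 + 2 sin²θ sinh²τ) sinh τ dτ`. -/
def ellDown559 (V : ℝ → ℂ) (θ : ℝ) : ℂ :=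
  ∫ τ in Ioi (0 : ℝ), gOf559 V (1 + 2 * sin θ ^ 2 * sinh τ ^ 2) * (sinh τ : ℂ)

/-- `√(cos²θ + u² (cosh²x - cos²θ))`. -/
def xd559 (θ u x : ℝ) : ℝ := Real.sqrt (cos θ ^ 2 + u ^ 2 * (cosh x ^ 2 - cos θ ^ 2))

theorem cosh_image_Ioi559 : cosh '' Ioi (0 : ℝ) = Ioi 1 := by
  ext y
  constructor
  · rintro ⟨x, hx, rfl⟩
    exact one_lt_cosh.2 (ne_of_gt hx)
  · intro hy
    exact ⟨arcosh y, arcosh_pos hy, cosh_arcosh (le_of_lt hy)⟩

theorem cosh_injOn_Ioi559 : InjOn cosh (Ioi (0 : ℝ)) :=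
  (cosh_strictMonoOn.mono Ioi_subset_Ici_self).injOn

/-- Substitution `u = cosh τ`. -/
theorem subst_cosh559 (g : ℝ → ℂ) :
    ∫ u in Ioi (1 : ℝ), g u = ∫ τ in Ioi (0 : ℝ), g (cosh τ) * (sinh τ : ℂ) := by
  have key := integral_image_eq_integral_abs_deriv_smul measurableSet_Ioi
    (fun x _ => (hasDerivAt_cosh x).hasDerivWithinAt) cosh_injOn_Ioi559 g
  rw [cosh_image_Ioi559] at key
  rw [key]
  apply setIntegral_congr_fun measurableSet_Ioi
  intro τ hτ
  have h : 0 < sinh τ := sinh_pos_iff.2 hτ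
  simp only [abs_of_pos h, Complex.real_smul]
  ring

theorem amin559 (θ x : ℝ) : sin θ ^ 2 ≤ cosh x ^ 2 - cos θ ^ 2 := by
  have h1 : 1 ≤ cosh x := one_le_cosh x
  have h2 := sin_sq_add_cos_sq θ
  nlinarith

theorem apos559 (θ x : ℝ) (hθ : sin θ ≠ 0) : 0 < cosh x ^ 2 - cos θ ^ 2 :=
  lt_of_lt_of_le (by positivity) (amin559 θ x)

theorem xd_sq559 (θ u x : ℝ) :
    xd559 θ u x ^ 2 = cos θ ^ 2 + u ^ 2 * (cosh x ^ 2 - cos θ ^ 2) := by
  unfold xd559
  apply Real.sq_sqrt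
  have := amin559 θ x
  have h3 : 0 ≤ u ^ 2 * (cosh x ^ 2 - cos θ ^ 2) :=
    mul_nonneg (sq_nonneg u) (le_trans (sq_nonneg _) this)
  nlinarith [sq_nonneg (cos θ)]

theorem xd_nonneg559 (θ u x : ℝ) : 0 ≤ xd559 θ u x := Real.sqrt_nonneg _

theorem xd_ge_cosh559 (θ u x : ℝ) (hu : 1 ≤ u) : cosh x ≤ xd559 θ u x := by
  unfold xd559
  apply Real.le_sqrt_of_sq_le
  have := amin559 θ x
  have ha : 0 ≤ cosh x ^ 2 - cos θ ^ 2 := le_trans (sq_nonneg _) this
  have hu2 : 1 ≤ u ^ 2 := by nlinarith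
  nlinarith [mul_nonneg (sub_nonneg.2 hu2) ha]

theorem xd_pos559 (θ u x : ℝ) (hu : 1 ≤ u) : 0 < xd559 θ u x :=
  lt_of_lt_of_le (cosh_pos x) (xd_ge_cosh559 θ u x hu)

theorem xd_ge_sin559 (θ u x : ℝ) (_hu : 0 ≤ u) : u * |sin θ| ≤ xd559 θ u x := by
  unfold xd559
  apply Real.le_sqrt_of_sq_le
  have := amin559 θ x
  have h1 : (u * |sin θ|) ^ 2 = u ^ 2 * sin θ ^ 2 := by rw [mul_pow, sq_abs]
  rw [h1]
  nlinarith [sq_nonneg (cos θ), mul_le_mul_of_nonneg_left this (sq_nonneg u)]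

theorem xd_one559 (θ x : ℝ) : xd559 θ 1 x = cosh x := by
  unfold xd559
  rw [show cos θ ^ 2 + 1 ^ 2 * (cosh x ^ 2 - cos θ ^ 2) = cosh x ^ 2 by ring]
  exact Real.sqrt_sq (cosh_pos x).le

theorem xd_continuous559 (θ : ℝ) : Continuous (fun p : ℝ × ℝ => xd559 θ p.1 p.2) := by
  unfold xd559
  fun_prop

theorem abs_lt_cosh559 (x : ℝ) : |x| < cosh x := by
  have h1 : |x| ≤ sinh |x| := self_le_sinh_iff.2 (abs_nonneg x)
  have h2 : sinh |x| < cosh |x| := sinh_lt_cosh _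
  rw [cosh_abs] at h2
  exact lt_of_le_of_lt h1 h2

/-- The ray substitution `v = √2 u sinh x` in `g_V`. -/
theorem gOf_ray559 (V : ℝ → ℂ) (θ u : ℝ) (hu : 0 < u) :
    gOf559 V (1 + 2 * sin θ ^ 2 * (u ^ 2 - 1))
      = ∫ x : ℝ, ((Real.sqrt 2 * u * cosh x : ℝ) : ℂ)
          * (V (xd559 θ u x) / (xd559 θ u x : ℂ)) := by
  have hc : 0 < Real.sqrt 2 * u := by positivity
  have hinj : InjOn (fun x : ℝ => Real.sqrt 2 * u * sinh x) univ := by
    intro x _ y _ hxy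
    exact sinh_injective (mul_left_cancel₀ hc.ne' hxy)
  have himg : (fun x : ℝ => Real.sqrt 2 * u * sinh x) '' univ = univ := by
    rw [image_univ]
    apply Function.Surjective.range_eq
    intro y
    obtain ⟨x, hx⟩ := sinh_surjective (y / (Real.sqrt 2 * u))
    refine ⟨x, ?_⟩
    show Real.sqrt 2 * u * sinh x = y
    rw [hx]
    field_simp
  have key := integral_image_eq_integral_abs_deriv_smul MeasurableSet.univ
    (fun x _ => ((hasDerivAt_sinh x).const_mul (Real.sqrt 2 * u)).hasDerivWithinAt) hinj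
    (fun v => V (xv559 (1 + 2 * sin θ ^ 2 * (u ^ 2 - 1)) v)
      / (xv559 (1 + 2 * sin θ ^ 2 * (u ^ 2 - 1)) v : ℂ))
  rw [himg] at key
  simp only [Measure.restrict_univ] at key
  unfold gOf559
  rw [key]
  apply integral_congr_ae
  filter_upwards with x
  have hxv : xv559 (1 + 2 * sin θ ^ 2 * (u ^ 2 - 1)) (Real.sqrt 2 * u * sinh x) = xd559 θ u x := by
    unfold xv559 xd559
    congr 1
    have h2 : Real.sqrt 2 ^ 2 = 2 := Real.sq_sqrt (by norm_num)
    have h3 := sin_sq_add_cos_sq θ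
    have h4 := cosh_sq x
    have h5 : (Real.sqrt 2 * u * sinh x) ^ 2 = 2 * u ^ 2 * sinh x ^ 2 := by
      rw [mul_pow, mul_pow, h2]
    rw [h5]
    have h6 : sin θ ^ 2 = 1 - cos θ ^ 2 := by linarith
    have h7 : sinh x ^ 2 = cosh x ^ 2 - 1 := by linarith
    rw [h6, h7]
    ring
  rw [hxv]
  have habs : |Real.sqrt 2 * u * cosh x| = Real.sqrt 2 * u * cosh x :=
    abs_of_pos (mul_pos hc (cosh_pos x))
  simp only [habs, Complex.real_smul]

/-- The inner integral along a ray is exact. -/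
theorem inner_down559 (V : ℝ → ℂ) (θ x : ℝ) (hθ : sin θ ≠ 0) :
    ∫ u in Ioi (1 : ℝ), ((Real.sqrt 2 * u * cosh x : ℝ) : ℂ)
        * (V (xd559 θ u x) / (xd559 θ u x : ℂ))
      = ((Real.sqrt 2 * cosh x / (cosh x ^ 2 - cos θ ^ 2) : ℝ) : ℂ) * tail559 V (cosh x) := by
  set a : ℝ := cosh x ^ 2 - cos θ ^ 2 with ha_def
  have ha : 0 < a := apos559 θ x hθ
  have hder : ∀ u ∈ Ioi (1 : ℝ),
      HasDerivWithinAt (fun u => xd559 θ u x) (a * u / xd559 θ u x) (Ioi 1) u := by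
    intro u hu
    have hu1 : (1 : ℝ) ≤ u := le_of_lt hu
    have hpos : 0 < xd559 θ u x := xd_pos559 θ u x hu1
    have hne : cos θ ^ 2 + u ^ 2 * a ≠ 0 := by
      have := xd_sq559 θ u x
      rw [← ha_def] at this
      rw [← this]
      positivity
    have h1 : HasDerivAt (fun u : ℝ => cos θ ^ 2 + u ^ 2 * a) (2 * u * a) u := by
      have := ((hasDerivAt_id u).pow 2 |>.mul_const a).const_add (cos θ ^ 2)
      simpa using this
    have h2 := h1.sqrt hne
    have h3 : 2 * u * a / (2 * Real.sqrt (cos θ ^ 2 + u ^ 2 * a)) = a * u / xd559 θ u x := by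
      unfold xd559
      rw [← ha_def]
      field_simp
    rw [h3] at h2
    exact h2.hasDerivWithinAt
  have hinj : InjOn (fun u => xd559 θ u x) (Ioi (1 : ℝ)) := by
    intro u hu v hv huv
    have hu1 : (1 : ℝ) < u := hu
    have hv1 : (1 : ℝ) < v := hv
    have h1 : xd559 θ u x ^ 2 = xd559 θ v x ^ 2 := by
      simp only at huv
      rw [huv]
    rw [xd_sq559, xd_sq559, ← ha_def] at h1
    have h2 : u ^ 2 = v ^ 2 := by
      have : u ^ 2 * a = v ^ 2 * a := by linarith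
      exact mul_right_cancel₀ ha.ne' this
    exact (sq_eq_sq₀ (by linarith) (by linarith)).1 h2
  have himg : (fun u => xd559 θ u x) '' Ioi (1 : ℝ) = Ioi (cosh x) := by
    ext y
    constructor
    · rintro ⟨u, hu, rfl⟩
      have hu1 : (1 : ℝ) < u := hu
      show cosh x < xd559 θ u x
      have h1 : cosh x ^ 2 < xd559 θ u x ^ 2 := by
        rw [xd_sq559, ← ha_def]
        have : 1 < u ^ 2 := by nlinarith
        nlinarith
      exact lt_of_pow_lt_pow_left₀ 2 (xd_nonneg559 θ u x) h1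
    · intro hy
      have hy' : cosh x < y := hy
      have hy0 : 0 < y := lt_trans (cosh_pos x) hy'
      have hyy : cosh x ^ 2 < y ^ 2 := by
        have := cosh_pos x
        nlinarith
      have hq : 1 < (y ^ 2 - cos θ ^ 2) / a := by
        rw [lt_div_iff₀ ha]
        linarith
      refine ⟨Real.sqrt ((y ^ 2 - cos θ ^ 2) / a), ?_, ?_⟩
      · show 1 < Real.sqrt ((y ^ 2 - cos θ ^ 2) / a)
        apply Real.lt_sqrt_of_sq_lt
        simpa using hq
      · show xd559 θ (Real.sqrt ((y ^ 2 - cos θ ^ 2) / a)) x = y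
        unfold xd559
        rw [← ha_def, Real.sq_sqrt (by linarith)]
        have : cos θ ^ 2 + (y ^ 2 - cos θ ^ 2) / a * a = y ^ 2 := by
          field_simp
          ring
        rw [this]
        exact Real.sqrt_sq hy0.le
  have key := integral_image_eq_integral_abs_deriv_smul measurableSet_Ioi hder hinj V
  rw [himg] at key
  unfold tail559
  rw [key, ← integral_const_mul]
  apply setIntegral_congr_fun measurableSet_Ioi
  intro u hu
  have hu1 : (1 : ℝ) < u := hu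
  have hpos : 0 < xd559 θ u x := xd_pos559 θ u x hu1.le
  have habs : |a * u / xd559 θ u x| = a * u / xd559 θ u x :=
    abs_of_pos (div_pos (mul_pos ha (by linarith)) hpos)
  simp only [habs, Complex.real_smul]
  have hX : (xd559 θ u x : ℂ) ≠ 0 := by exact_mod_cast hpos.ne'
  have ha' : (a : ℂ) ≠ 0 := by exact_mod_cast ha.ne'
  push_cast
  field_simp

/-- Integrability of the integrand of the downstairs side on `(1, ∞) × ℝ`. -/
theorem integrable_down559 {V : ℝ → ℂ} {R : ℝ} (hV : IsProfile559 V R) (θ : ℝ) (hθ : sin θ ≠ 0) :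
    Integrable (Function.uncurry fun u x : ℝ => ((Real.sqrt 2 * u * cosh x : ℝ) : ℂ)
        * (V (xd559 θ u x) / (xd559 θ u x : ℂ)))
      ((volume.restrict (Ioi (1 : ℝ))).prod (volume : Measure ℝ)) := by
  have hm : (volume.restrict (Ioi (1 : ℝ))).prod (volume : Measure ℝ)
      = (volume : Measure (ℝ × ℝ)).restrict (Ioi (1 : ℝ) ×ˢ (univ : Set ℝ)) := by
    rw [Measure.volume_eq_prod, ← Measure.prod_restrict, Measure.restrict_univ]
  rw [hm]
  set R' : ℝ := max R 1 with hR'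
  have hs : 0 < |sin θ| := abs_pos.2 hθ
  have hS : IsClosed (Ici (1 : ℝ) ×ˢ (univ : Set ℝ)) := isClosed_Ici.prod isClosed_univ
  have hK : IsCompact (Icc (1 : ℝ) (R' / |sin θ|) ×ˢ Icc (-R') R') :=
    isCompact_Icc.prod isCompact_Icc
  have hcont : ContinuousOn (Function.uncurry fun u x : ℝ => ((Real.sqrt 2 * u * cosh x : ℝ) : ℂ)
        * (V (xd559 θ u x) / (xd559 θ u x : ℂ))) (Ici (1 : ℝ) ×ˢ (univ : Set ℝ)) := by
    have hxc := xd_continuous559 θ
    apply ContinuousOn.mul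
    · apply Continuous.continuousOn
      fun_prop
    · apply ContinuousOn.div
      · exact (hV.cont.comp hxc).continuousOn
      · exact (Complex.continuous_ofReal.comp hxc).continuousOn
      · rintro ⟨u, x⟩ hp
        have hu : (1 : ℝ) ≤ u := hp.1
        have := xd_pos559 θ u x hu
        exact_mod_cast this.ne'
  have h0 : ∀ p ∈ Ici (1 : ℝ) ×ˢ (univ : Set ℝ), p ∉ Icc (1 : ℝ) (R' / |sin θ|) ×ˢ Icc (-R') R' →
      (Function.uncurry fun u x : ℝ => ((Real.sqrt 2 * u * cosh x : ℝ) : ℂ)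
        * (V (xd559 θ u x) / (xd559 θ u x : ℂ))) p = 0 := by
    rintro ⟨u, x⟩ hp hpK
    have hu : (1 : ℝ) ≤ u := hp.1
    have hbig : R ≤ xd559 θ u x := by
      by_contra hlt
      rw [not_le] at hlt
      apply hpK
      have hR'lt : xd559 θ u x < R' ∨ xd559 θ u x < 1 := by
        left; exact lt_of_lt_of_le hlt (le_max_left _ _)
      have hxR' : xd559 θ u x < R' := by
        rcases hR'lt with h | h
        · exact h
        · exact lt_of_lt_of_le h (le_max_right _ _)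
      refine ⟨⟨hu, ?_⟩, ?_⟩
      · rw [le_div_iff₀ hs]
        exact le_trans (xd_ge_sin559 θ u x (by linarith)) hxR'.le
      · have h1 : |x| < R' :=
          lt_trans (abs_lt_cosh559 x) (lt_of_le_of_lt (xd_ge_cosh559 θ u x hu) hxR')
        exact ⟨(abs_lt.1 h1).1.le, (abs_lt.1 h1).2.le⟩
    simp only [Function.uncurry, hV.zero _ hbig, zero_div, mul_zero]
  exact (integrableOn_prod559 hS hK hcont h0).mono_set
    (prod_mono Ioi_subset_Ici_self (subset_refl _))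

/-- **The downstairs side.** -/
theorem ellDown_eq559 {V : ℝ → ℂ} {R : ℝ} (hV : IsProfile559 V R) (θ : ℝ) (hθ : sin θ ≠ 0) :
    ellDown559 V θ
      = ∫ x : ℝ, ((Real.sqrt 2 * cosh x / (cosh x ^ 2 - cos θ ^ 2) : ℝ) : ℂ)
          * tail559 V (cosh x) := by
  unfold ellDown559
  have h1 : ∫ τ in Ioi (0 : ℝ), gOf559 V (1 + 2 * sin θ ^ 2 * sinh τ ^ 2) * (sinh τ : ℂ)
      = ∫ u in Ioi (1 : ℝ), gOf559 V (1 + 2 * sin θ ^ 2 * (u ^ 2 - 1)) := by
    rw [subst_cosh559]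
    apply setIntegral_congr_fun measurableSet_Ioi
    intro τ _
    simp only
    rw [show cosh τ ^ 2 - 1 = sinh τ ^ 2 by rw [cosh_sq]; ring]
  rw [h1]
  have h2 : ∫ u in Ioi (1 : ℝ), gOf559 V (1 + 2 * sin θ ^ 2 * (u ^ 2 - 1))
      = ∫ u in Ioi (1 : ℝ), ∫ x : ℝ, ((Real.sqrt 2 * u * cosh x : ℝ) : ℂ)
          * (V (xd559 θ u x) / (xd559 θ u x : ℂ)) := by
    apply setIntegral_congr_fun measurableSet_Ioi
    intro u hu
    have hu1 : (1 : ℝ) < u := hu
    exact gOf_ray559 V θ u (by linarith)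
  rw [h2, integral_integral_swap (integrable_down559 hV θ hθ)]
  apply integral_congr_ae
  filter_upwards with x
  exact inner_down559 V θ x hθ

end Fermat.Agent.LT.T6.H559

end
end
-- ===== PACK-END LT/T6/H559/EllDown.lean

-- ===== PACK-BEGIN LT/T6/H769/CoreLeg.lean
section



/-!
# Row LT, T6.00q.7 `CoreC438` (helper769, OFF-MAIN): Legendre's theorem with signs, CRT

* `crt769`: the Chinese remainder theorem over `ℤ`;
* `sq_crt769`: a number which is a square modulo every odd prime divisor of a squarefree `N` is a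
  square modulo `N`;
* `glegendre769`: Legendre's theorem `g x² = m₁ y² + n₁ z²` for `g > 0` and `m₁, n₁` of any signs,
  not both negative;
* `odd_decomp769`: `x = ± 2^i · odd`.
-/

set_option autoImplicit false

namespace Fermat.Agent.LT.T6.H769

open Fermat.Agent.LT.HM.H769

theorem crt769 (M₁ M₂ : ℤ) (h : IsCoprime M₁ M₂) (r₁ r₂ : ℤ) :
    ∃ r : ℤ, M₁ ∣ r - r₁ ∧ M₂ ∣ r - r₂ := by
  obtain ⟨u, v, huv⟩ := h
  refine ⟨r₁ * v * M₂ + r₂ * u * M₁, ⟨u * (r₂ - r₁), ?_⟩, ⟨v * (r₁ - r₂), ?_⟩⟩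
  · linear_combination r₁ * huv
  · linear_combination r₂ * huv

theorem two_dvd_sq_sub769 (x : ℤ) : (2 : ℤ) ∣ x ^ 2 - x := by
  have h : x ^ 2 - x = x * (x - 1) := by ring
  rw [h]
  exact (Int.even_mul_pred_self x).two_dvd

theorem sq_crt769 (x : ℤ) (N : ℕ) (hN : Squarefree N)
    (h : ∀ p : ℕ, p.Prime → p ≠ 2 → p ∣ N → ∃ t : ℤ, (p : ℤ) ∣ t ^ 2 - x) :
    ∃ t : ℤ, (N : ℤ) ∣ t ^ 2 - x := by
  induction N using Nat.recOnPrimeCoprime with
  | zero => exact absurd hN not_squarefree_zero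
  | prime_pow p n hp =>
    rcases hN.eq_zero_or_one_of_pow_of_not_isUnit hp.prime.not_isUnit with rfl | rfl
    · exact ⟨0, by simp⟩
    · rw [pow_one]
      by_cases hp2 : p = 2
      · subst hp2
        exact ⟨x, by exact_mod_cast two_dvd_sq_sub769 x⟩
      · exact h p hp hp2 (by simp)
  | coprime a b ha hb hab iha ihb =>
    obtain ⟨ta, hta⟩ := iha (hN.of_mul_left) (fun p hp hp2 hpa => h p hp hp2 (hpa.mul_right b))
    obtain ⟨tb, htb⟩ := ihb (hN.of_mul_right) (fun p hp hp2 hpb => h p hp hp2 (hpb.mul_left a))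
    have hcop : IsCoprime (a : ℤ) (b : ℤ) := Nat.isCoprime_iff_coprime.mpr hab
    obtain ⟨t, h1, h2⟩ := crt769 a b hcop ta tb
    refine ⟨t, ?_⟩
    push_cast
    apply hcop.mul_dvd
    · have : t ^ 2 - x = (t - ta) * (t + ta) + (ta ^ 2 - x) := by ring
      rw [this]
      exact dvd_add (h1.mul_right _) hta
    · have : t ^ 2 - x = (t - tb) * (t + tb) + (tb ^ 2 - x) := by ring
      rw [this]
      exact dvd_add (h2.mul_right _) htb

/-- **Legendre's theorem with signs.** -/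
theorem glegendre769 (g : ℕ) (hg : 0 < g) (m₁ n₁ : ℤ) (hm : m₁ ≠ 0) (hn : n₁ ≠ 0)
    (hsq : Squarefree (g * m₁.natAbs * n₁.natAbs)) (hsign : ¬ (m₁ < 0 ∧ n₁ < 0))
    (h1 : ∃ t : ℤ, (g : ℤ) ∣ t ^ 2 + m₁ * n₁)
    (h2 : ∃ s : ℤ, m₁ ∣ s ^ 2 - g * n₁)
    (h3 : ∃ r : ℤ, n₁ ∣ r ^ 2 - g * m₁) :
    ∃ x y z : ℤ, (x ≠ 0 ∨ y ≠ 0 ∨ z ≠ 0) ∧ (g : ℤ) * x ^ 2 = m₁ * y ^ 2 + n₁ * z ^ 2 := by
  have hmp : 0 < m₁.natAbs := Int.natAbs_pos.mpr hm
  have hnp : 0 < n₁.natAbs := Int.natAbs_pos.mpr hn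
  obtain ⟨t, ht⟩ := h1
  obtain ⟨s, hs⟩ := h2
  obtain ⟨r, hr⟩ := h3
  rcases lt_or_gt_of_ne hm with hm0 | hm0
  · -- `m₁ < 0`, so `n₁ > 0`
    have hn0 : 0 < n₁ := by
      rcases lt_or_gt_of_ne hn with h | h
      · exact absurd ⟨hm0, h⟩ hsign
      · exact h
    have em : ((m₁.natAbs : ℕ) : ℤ) = -m₁ := by
      rw [Int.natCast_natAbs, abs_of_neg hm0]
    have en : ((n₁.natAbs : ℕ) : ℤ) = n₁ := by
      rw [Int.natCast_natAbs, abs_of_pos hn0]
    have hsq' : Squarefree (n₁.natAbs * g * m₁.natAbs) := by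
      have : n₁.natAbs * g * m₁.natAbs = g * m₁.natAbs * n₁.natAbs := by ring
      rw [this]
      exact hsq
    obtain ⟨x, y, z, hne, he⟩ := legendre769 n₁.natAbs g m₁.natAbs hnp hg hmp hsq'
      ⟨r, by rw [en, em]; convert hr using 1; ring⟩
      ⟨t, by rw [en, em]; convert ht using 1; ring⟩
      ⟨s, by rw [en, em]; exact (Int.neg_dvd).mpr (by convert hs using 1; ring)⟩
    rw [en, em] at he
    refine ⟨y, z, x, ?_, ?_⟩
    · tauto
    · linear_combination -he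
  · rcases lt_or_gt_of_ne hn with hn0 | hn0
    · -- `m₁ > 0`, `n₁ < 0`
      have em : ((m₁.natAbs : ℕ) : ℤ) = m₁ := by
        rw [Int.natCast_natAbs, abs_of_pos hm0]
      have en : ((n₁.natAbs : ℕ) : ℤ) = -n₁ := by
        rw [Int.natCast_natAbs, abs_of_neg hn0]
      have hsq' : Squarefree (m₁.natAbs * g * n₁.natAbs) := by
        have : m₁.natAbs * g * n₁.natAbs = g * m₁.natAbs * n₁.natAbs := by ring
        rw [this]
        exact hsq
      obtain ⟨x, y, z, hne, he⟩ := legendre769 m₁.natAbs g n₁.natAbs hmp hg hnp hsq'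
        ⟨s, by rw [en, em]; convert hs using 1; ring⟩
        ⟨t, by rw [en, em]; convert ht using 1; ring⟩
        ⟨r, by rw [en, em]; exact (Int.neg_dvd).mpr (by convert hr using 1; ring)⟩
      rw [en, em] at he
      refine ⟨y, x, z, ?_, ?_⟩
      · tauto
      · linear_combination -he
    · -- both positive
      have em : ((m₁.natAbs : ℕ) : ℤ) = m₁ := by
        rw [Int.natCast_natAbs, abs_of_pos hm0]
      have en : ((n₁.natAbs : ℕ) : ℤ) = n₁ := by
        rw [Int.natCast_natAbs, abs_of_pos hn0]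
      obtain ⟨x, y, z, hne, he⟩ := legendre769 g m₁.natAbs n₁.natAbs hg hmp hnp hsq
        ⟨t, by rw [en, em]; exact ht⟩
        ⟨s, by rw [em, en]; exact hs⟩
        ⟨r, by rw [en, em]; exact hr⟩
      rw [en, em] at he
      exact ⟨x, y, z, hne, he⟩

/-- `x = ± 2^i · odd`. -/
theorem odd_decomp769 (x : ℤ) (hx : x ≠ 0) :
    ∃ (t : Bool) (i o : ℕ), o % 2 = 1 ∧ x = sgn769 t * 2 ^ i * o ∧ (t = true ↔ 0 < x) := by
  obtain ⟨i, o, ho, he⟩ := Nat.exists_eq_two_pow_mul_odd (Int.natAbs_ne_zero.mpr hx)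
  rcases lt_or_gt_of_ne hx with h | h
  · refine ⟨false, i, o, Nat.odd_iff.mp ho, ?_, by simp; omega⟩
    have : (x.natAbs : ℤ) = -x := by rw [Int.natCast_natAbs, abs_of_neg h]
    have h2 : ((x.natAbs : ℕ) : ℤ) = 2 ^ i * o := by rw [he]; push_cast; ring
    simp only [sgn769]
    rw [this] at h2
    simp
    linarith
  · refine ⟨true, i, o, Nat.odd_iff.mp ho, ?_, by simp; omega⟩
    have : (x.natAbs : ℤ) = x := by rw [Int.natCast_natAbs, abs_of_pos h]
    have h2 : ((x.natAbs : ℕ) : ℤ) = 2 ^ i * o := by rw [he]; push_cast; ring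
    simp only [sgn769]
    rw [this] at h2
    simp
    linarith

/-- The exponent of `2` in a squarefree integer is at most `1`. -/
theorem exp_le_one769 {x e : ℤ} {i o : ℕ} (hx : Squarefree x) (he : x = e * 2 ^ i * o) :
    i = 0 ∨ i = 1 := by
  by_contra hcon
  have hi : 2 ≤ i := by omega
  have h1 : (2 : ℤ) * 2 ∣ x := by
    rw [he]
    obtain ⟨j, rfl⟩ := Nat.exists_eq_add_of_le hi
    exact ⟨e * 2 ^ j * o, by ring⟩
  have := hx 2 h1
  rw [Int.isUnit_iff] at this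
  omega

/-- A squarefree integer `≠ 1` is not a rational square. -/
theorem not_sq769 {m : ℤ} (hm : Squarefree m) (hm1 : m ≠ 1) {X y : ℤ} (h : X ^ 2 = m * y ^ 2) :
    y = 0 := by
  by_contra hy
  have h1 : y ^ 2 ∣ X ^ 2 := ⟨m, by rw [h]; ring⟩
  have h2 : y ∣ X := (Int.pow_dvd_pow_iff (by norm_num)).mp h1
  obtain ⟨w, rfl⟩ := h2
  have h3 : m = w ^ 2 := by
    have hy2 : y ^ 2 ≠ 0 := pow_ne_zero 2 hy
    apply mul_right_cancel₀ hy2
    rw [← h]
    ring
  have h4 : m.natAbs = 1 := by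
    apply eq_one_of_squarefree_sq769 (Int.squarefree_natAbs.mpr hm) (w := w)
    rw [Int.natCast_natAbs, h3, abs_of_nonneg (sq_nonneg w)]
  have h5 : 0 ≤ m := by rw [h3]; exact sq_nonneg w
  apply hm1
  have : (m.natAbs : ℤ) = m := by rw [Int.natCast_natAbs, abs_of_nonneg h5]
  rw [← this, h4]
  rfl

end Fermat.Agent.LT.T6.H769

end
-- ===== PACK-END LT/T6/H769/CoreLeg.lean

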