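import Mathlib
import Fermat.Agent.Pack.LT3.E2L3
import Fermat.Agent.Pack.LT3.E2L0
import Fermat.Agent.Pack.LT2.E0L1
import Fermat.Agent.Pack.LT3.E3L2
import Fermat.Agent.Pack.LT3.E0L1
import Fermat.Agent.Pack.LT3.E3L1
import Fermat.Agent.Pack.LT3.E2L2
import Fermat.Agent.Pack.LT3.E4L0

set_option linter.all false

-- ===== PACK-BEGIN LT/CFT/H141/ShaRay.lean
section


/-!
# Row LT, tower CFT, sub-tower EX, row E1.C.10 `ShaC` (SPARE, helper141), OFF-MAIN

Part 2: the RAY COMPARISON lemma.  A quadratic ray class character modulo `fS S N` (an element of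
`EQ.RayN S N`) takes the same value on two nonzero integers `y`, `y'` with
`y' ≡ y mod v ^ (ord_v y + N)` for all `v ∈ S` (`y` need not be prime to `S`).
Mathlib + `EQSpec` only.
-/

set_option autoImplicit false
set_option linter.unusedSectionVars false

open IsDedekindDomain NumberField

noncomputable section

namespace Fermat.Agent.LT.CFT.H141

open Fermat.Agent.LT.CFT.EQ

variable {K : Type} [Field K] [NumberField K]

lemma asIdeal_ne141 {v w : HeightOneSpectrum (𝓞 K)} (h : v ≠ w) : v.asIdeal ≠ w.asIdeal :=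
  fun h' => h (HeightOneSpectrum.ext h')

/-- `∏_{v ∈ S} v ^ e v` is the intersection of the `v ^ e v`. -/
lemma prod_pow_eq_inf141 (S : Finset (HeightOneSpectrum (𝓞 K)))
    (e : HeightOneSpectrum (𝓞 K) → ℕ) :
    ∏ v ∈ S, v.asIdeal ^ e v = S.inf fun v => v.asIdeal ^ e v :=
  (IsDedekindDomain.inf_pow_eq_prod_of_prime S (fun v => v.asIdeal) e
    (fun v _ => v.prime) (fun _ _ _ _ h => asIdeal_ne141 h)).symm

lemma le_prod_pow_iff141 (S : Finset (HeightOneSpectrum (𝓞 K)))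
    (e : HeightOneSpectrum (𝓞 K) → ℕ) (I : Ideal (𝓞 K)) :
    I ≤ ∏ v ∈ S, v.asIdeal ^ e v ↔ ∀ v ∈ S, I ≤ v.asIdeal ^ e v := by
  rw [prod_pow_eq_inf141, Finset.le_inf_iff]

lemma mem_prod_pow_iff141 (S : Finset (HeightOneSpectrum (𝓞 K)))
    (e : HeightOneSpectrum (𝓞 K) → ℕ) (x : 𝓞 K) :
    x ∈ ∏ v ∈ S, v.asIdeal ^ e v ↔ ∀ v ∈ S, x ∈ v.asIdeal ^ e v := by
  rw [← Ideal.span_singleton_le_iff_mem, le_prod_pow_iff141]
  simp only [Ideal.span_singleton_le_iff_mem]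

lemma mem_fS_iff141 (S : Finset (HeightOneSpectrum (𝓞 K))) (n : ℕ) (x : 𝓞 K) :
    x ∈ fS S n ↔ ∀ v ∈ S, x ∈ v.asIdeal ^ n :=
  mem_prod_pow_iff141 S (fun _ => n) x

lemma fS_le_fS141 (S : Finset (HeightOneSpectrum (𝓞 K))) {n N : ℕ} (h : N ≤ n) :
    fS S n ≤ fS S N := by
  intro x hx
  rw [mem_fS_iff141] at hx ⊢
  exact fun v hv => Ideal.pow_le_pow_right h (hx v hv)

lemma sup_eq_top_of_not_le141 (v : HeightOneSpectrum (𝓞 K)) {I : Ideal (𝓞 K)}
    (h : ¬ I ≤ v.asIdeal) : I ⊔ v.asIdeal = ⊤ := by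
  by_contra hne
  have h1 : v.asIdeal = I ⊔ v.asIdeal := v.isMaximal.eq_of_le hne le_sup_right
  exact h (h1 ▸ le_sup_left)

/-- **RAY COMPARISON.** -/
theorem outProd_congr141 (S : Finset (HeightOneSpectrum (𝓞 K))) (N : ℕ)
    (hN : 1 ≤ N) (ψ : {v : HeightOneSpectrum (𝓞 K) // v ∉ S} → ℤˣ) (hψ : ψ ∈ RayN S N)
    {y y' : 𝓞 K} (hy : y ≠ 0) (hy' : y' ≠ 0)
    (h : ∀ v ∈ S, y' - y ∈ v.asIdeal ^ (ord v y + N)) :
    outProd S ψ y = outProd S ψ y' := by
  classical
  rcases S.eq_empty_or_nonempty with hS | hS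
  · have htop : ∀ z : 𝓞 K, z ∈ fS S N := by
      intro z
      rw [mem_fS_iff141, hS]
      intro v hv
      exact absurd hv (Finset.notMem_empty v)
    rw [hψ y hy (htop _), hψ y' hy' (htop _)]
  -- the `S`-part of `(y)`
  set g : Ideal (𝓞 K) := ∏ v ∈ S, v.asIdeal ^ ord v y with hg
  have hyg : Ideal.span {y} ≤ g := by
    rw [hg, le_prod_pow_iff141]
    intro v _
    rw [Ideal.span_singleton_le_iff_mem]
    exact mem_pow_ord141 v hy
  obtain ⟨I, hI⟩ := Ideal.dvd_iff_le.mpr hyg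
  have hgv : ∀ v ∈ S, g ≤ v.asIdeal ^ ord v y := fun v hv =>
    (le_prod_pow_iff141 S (fun v => ord v y) g).mp le_rfl v hv
  -- `I` is prime to `S`
  have hIv : ∀ v ∈ S, ¬ I ≤ v.asIdeal := by
    intro v hv hle
    have h1 : Ideal.span {y} ≤ v.asIdeal ^ (ord v y + 1) := by
      rw [hI, pow_succ]
      exact Ideal.mul_mono (hgv v hv) hle
    exact not_mem_pow_succ_ord141 v hy ((Ideal.span_singleton_le_iff_mem _).mp h1)
  have hcop : I ⊔ fS S N = ⊤ := by
    unfold fS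
    exact Ideal.sup_prod_eq_top fun v hv =>
      Ideal.sup_pow_eq_top (sup_eq_top_of_not_le141 v (hIv v hv))
  obtain ⟨p₁, hp₁I, f, hf, hpf⟩ := Submodule.mem_sup.mp (hcop ▸ (Submodule.mem_top : (1 : 𝓞 K) ∈ ⊤))
  -- `y' - y` lies in `g`
  have hδg : y' - y ∈ g := by
    rw [hg, mem_prod_pow_iff141]
    exact fun v hv => Ideal.pow_le_pow_right (Nat.le_add_right _ _) (h v hv)
  have hmem : p₁ * y' ∈ Ideal.span {y} := by
    have e1 : p₁ * y' = p₁ * y + (y' - y) * p₁ := by ring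
    rw [e1]
    refine Ideal.add_mem _ (Ideal.mem_span_singleton'.mpr ⟨p₁, rfl⟩) ?_
    rw [hI]
    exact Ideal.mul_mem_mul hδg hp₁I
  obtain ⟨p₂, hp₂⟩ := Ideal.mem_span_singleton'.mp hmem
  -- `p₁ ≠ 0`
  obtain ⟨v₀, hv₀⟩ := hS
  have hp₁0 : p₁ ≠ 0 := by
    rintro rfl
    rw [zero_add] at hpf
    have h1 : (1 : 𝓞 K) ∈ v₀.asIdeal ^ N := (mem_fS_iff141 S N 1).mp (hpf ▸ hf) v₀ hv₀
    have h2 : (1 : 𝓞 K) ∈ v₀.asIdeal := Ideal.pow_le_self (by omega) h1
    exact v₀.isMaximal.ne_top ((Ideal.eq_top_iff_one _).mpr h2)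
  have hp₂0 : p₂ ≠ 0 := by
    rintro rfl
    rw [zero_mul] at hp₂
    exact mul_ne_zero hp₁0 hy' hp₂.symm
  -- congruences
  have hp₁1 : p₁ - 1 ∈ fS S N := by
    have : p₁ - 1 = -f := by rw [← hpf]; ring
    rw [this]
    exact Ideal.neg_mem_iff _ |>.mpr hf
  have hdiff : p₂ - p₁ ∈ fS S N := by
    rw [mem_fS_iff141]
    intro v hv
    by_cases hz : p₂ - p₁ = 0
    · rw [hz]; exact Ideal.zero_mem _
    have e1 : y * (p₂ - p₁) = (y' - y) * p₁ := by
      have : y * (p₂ - p₁) = p₂ * y - p₁ * y := by ring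
      rw [this, hp₂]; ring
    have h1 : y * (p₂ - p₁) ∈ v.asIdeal ^ (ord v y + N) := by
      rw [e1]
      exact Ideal.mul_mem_right _ _ (h v hv)
    have h2 := (le_ord_iff141 v (mul_ne_zero hy hz) _).mpr h1
    rw [ord_mul141 v hy hz] at h2
    exact (le_ord_iff141 v hz N).mp (by omega)
  have hp₂1 : p₂ - 1 ∈ fS S N := by
    have : p₂ - 1 = (p₂ - p₁) + (p₁ - 1) := by ring
    rw [this]
    exact Ideal.add_mem _ hdiff hp₁1
  have e1 : outProd S ψ p₁ = 1 := hψ p₁ hp₁0 hp₁1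
  have e2 : outProd S ψ p₂ = 1 := hψ p₂ hp₂0 hp₂1
  have e3 : outProd S ψ (p₁ * y') = outProd S ψ (p₂ * y) := by rw [hp₂]
  rw [outProd_mul141 S ψ hp₁0 hy', outProd_mul141 S ψ hp₂0 hy, e1, e2, one_mul, one_mul] at e3
  exact e3.symm

end Fermat.Agent.LT.CFT.H141

end

end
-- ===== PACK-END LT/CFT/H141/ShaRay.lean

-- ===== PACK-BEGIN LT/CFT/H589/Extend.lean
section


/-!
# Row LT, tower CFT, leaf IDELE (helper589), part 3: the idèle class character of a ray class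
character

`exists_heckeChar589`: let `f ≠ 0` be a non-unit of `𝓞 K` and `c` a family of units of `ℂ`,
`c v = 1` for `v ∣ f`, such that `∏_v c_v ^ ord_v(a) = 1` for all `a ∈ 𝓞 K`, `a ≠ 0`,
`a ≡ 1 mod f`.  Then there is a continuous character `θ` of the idèle group, trivial on the
principal idèles, with `θ z = ∏_v c_v ^ ord_v(z_v)` for every idèle `z ≡ 1 mod f`.
Mathlib only.
-/

set_option autoImplicit false
set_option linter.unusedSectionVars false

open IsDedekindDomain NumberField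

noncomputable section

namespace Fermat.Agent.LT.H589

variable {K : Type} [Field K] [NumberField K]

/-- The exponent of `v` in the principal ideal `(a)`. -/
def ord589 (v : HeightOneSpectrum (𝓞 K)) (a : 𝓞 K) : ℕ :=
  (Associates.mk v.asIdeal).count (Associates.mk (Ideal.span {a})).factors

theorem intValuation_eq_exp_ord589 (v : HeightOneSpectrum (𝓞 K)) {a : 𝓞 K} (ha : a ≠ 0) :
    v.intValuation a = WithZero.exp (-((ord589 v a : ℕ) : ℤ)) :=
  v.intValuation_if_neg ha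

/-- The unit of `K` attached to a nonzero integer. -/
def intUnit589 (a : 𝓞 K) (ha : a ≠ 0) : Kˣ :=
  Units.mk0 (algebraMap (𝓞 K) K a) (algebraMap_int_ne_zero589 ha)

theorem idExp589_prIdele_int (v : HeightOneSpectrum (𝓞 K)) (a : 𝓞 K) (ha : a ≠ 0) :
    idExp589 v (prIdele589 K (intUnit589 a ha)) = (ord589 v a : ℤ) := by
  apply idExp589_eq_of_finVal
  rw [finVal589_prIdele, intUnit589, Units.val_mk0, HeightOneSpectrum.valuation_of_algebraMap,
    intValuation_eq_exp_ord589 v ha]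

theorem idChar589_prIdele_int (c : HeightOneSpectrum (𝓞 K) → ℂˣ) (a : 𝓞 K) (ha : a ≠ 0) :
    idChar589 c (prIdele589 K (intUnit589 a ha)) =
      ∏ᶠ v : HeightOneSpectrum (𝓞 K), c v ^ ord589 v a := by
  rw [idChar589_apply]
  simp only [idExp589_prIdele_int, zpow_natCast]

/-- The hypothesis on `(f, c)`: the ray statement. -/
def RayHyp589 (f : 𝓞 K) (c : HeightOneSpectrum (𝓞 K) → ℂˣ) : Prop :=
  ∀ a : 𝓞 K, a ≠ 0 → a - 1 ∈ Ideal.span {f} →
    ∏ᶠ v : HeightOneSpectrum (𝓞 K), c v ^ ord589 v a = 1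

theorem exp_neg_natAbs_le589 {γ : WithZero (Multiplicative ℤ)} (hγ : γ ≠ 0) :
    WithZero.exp (-((WithZero.log γ).natAbs : ℤ)) ≤ γ := by
  conv_rhs => rw [← WithZero.exp_log hγ]
  rw [WithZero.exp_le_exp]
  have h3 : -(WithZero.log γ) ≤ ((WithZero.log γ).natAbs : ℤ) := by
    rw [← Int.natAbs_neg]
    exact Int.le_natAbs
  linarith

theorem exp_neg_natAbs_le_inv589 {γ : WithZero (Multiplicative ℤ)} (hγ : γ ≠ 0) :
    WithZero.exp (-((WithZero.log γ).natAbs : ℤ)) ≤ γ⁻¹ := by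
  have h := exp_neg_natAbs_le589 (inv_ne_zero hγ)
  rw [WithZero.log_inv, Int.natAbs_neg] at h
  exact h

/-- A denominator `≡ 1 mod f`. -/
theorem exists_denominator589 (f : 𝓞 K) (hf : f ≠ 0)
    (hS : ∃ v₀ : HeightOneSpectrum (𝓞 K), v₀.intValuation f < 1) (x : Kˣ)
    (hx : NearOne589 f (prIdele589 K x)) :
    ∃ a b : 𝓞 K, a ≠ 0 ∧ b ≠ 0 ∧ a - 1 ∈ Ideal.span {f} ∧ b - 1 ∈ Ideal.span {f} ∧
      algebraMap (𝓞 K) K a = algebraMap (𝓞 K) K b * (x : K) := by
  classical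
  have hx0 : (x : K) ≠ 0 := x.ne_zero
  let S : Finset (HeightOneSpectrum (𝓞 K)) := (finite_divisors589 f hf).toFinset
  have hSmem : ∀ v : HeightOneSpectrum (𝓞 K), v ∈ S ↔ v.intValuation f < 1 := by
    intro v
    simp only [S, Set.Finite.mem_toFinset, Set.mem_ofPred_eq]
  let T : Finset (HeightOneSpectrum (𝓞 K)) :=
    (HeightOneSpectrum.Support.finite (𝓞 K) (x : K)).toFinset
  have hTmem : ∀ v : HeightOneSpectrum (𝓞 K), v ∈ T ↔ 1 < v.valuation K (x : K) := by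
    intro v
    simp only [T, Set.Finite.mem_toFinset]
    rfl
  have hvalx : ∀ v : HeightOneSpectrum (𝓞 K), v.intValuation f < 1 →
      v.valuation K (x : K) = 1 := by
    intro v hv
    have := hx.finVal_eq_one hv
    rw [finVal589_prIdele] at this
    exact this
  have hvalx1 : ∀ v : HeightOneSpectrum (𝓞 K), v.intValuation f < 1 →
      v.valuation K ((x : K) - 1) ≤ v.intValuation f := by
    intro v hv
    have := hx v hv
    rw [finComp589_prIdele, ← map_one (algebraMap K (v.adicCompletion K)), ← map_sub,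
      valued_algebraMap589] at this
    exact this
  let e : HeightOneSpectrum (𝓞 K) → ℕ := fun v =>
    (WithZero.log (v.intValuation f)).natAbs + (WithZero.log (v.valuation K (x : K))).natAbs
  obtain ⟨b, hb⟩ := IsDedekindDomain.exists_forall_sub_mem_ideal
    (s := S ∪ T) (fun v : HeightOneSpectrum (𝓞 K) => v.asIdeal) e
    (fun v _ => v.prime) (fun v _ w _ hvw h => hvw (HeightOneSpectrum.ext h))
    (fun i => if i.1 ∈ S then 1 else 0)
  have hfv0 : ∀ v : HeightOneSpectrum (𝓞 K), v.intValuation f ≠ 0 :=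
    fun v => v.intValuation_ne_zero _ hf
  have hxv0 : ∀ v : HeightOneSpectrum (𝓞 K), v.valuation K (x : K) ≠ 0 := by
    intro v
    rw [Ne, Valuation.zero_iff]
    exact hx0
  -- (i)
  have hb1 : ∀ v : HeightOneSpectrum (𝓞 K), v.intValuation (b - 1) ≤ v.intValuation f := by
    intro v
    by_cases hv : v ∈ S
    · have h1 := hb v (Finset.mem_union_left T hv)
      simp only [hv, if_true] at h1
      have h2 := (v.intValuation_le_pow_iff_mem _ _).mpr h1
      refine h2.trans (le_trans ?_ (exp_neg_natAbs_le589 (hfv0 v)))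
      rw [WithZero.exp_le_exp]
      have he : ((e v : ℕ) : ℤ) = ((WithZero.log (v.intValuation f)).natAbs : ℤ) +
          ((WithZero.log (v.valuation K (x : K))).natAbs : ℤ) := by
        simp only [e, Nat.cast_add]
      have : (0 : ℤ) ≤ ((WithZero.log (v.valuation K (x : K))).natAbs : ℤ) := Int.natCast_nonneg _
      rw [he]
      linarith
    · have h1 : v.intValuation f = 1 :=
        le_antisymm (v.intValuation_le_one f) (not_lt.mp (fun h => hv ((hSmem v).mpr h)))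
      rw [h1]
      exact v.intValuation_le_one _
  -- (ii)
  have hb0 : b ≠ 0 := by
    obtain ⟨v₀, hv₀⟩ := hS
    intro h
    have h1 := hb1 v₀
    rw [h, zero_sub, Valuation.map_neg, map_one] at h1
    exact absurd hv₀ (not_lt.mpr h1)
  -- (iii)
  have hbx : ∀ v : HeightOneSpectrum (𝓞 K),
      v.valuation K (algebraMap (𝓞 K) K b * (x : K)) ≤ 1 := by
    intro v
    rw [map_mul, HeightOneSpectrum.valuation_of_algebraMap]
    by_cases hv : v ∈ S
    · rw [hvalx v ((hSmem v).mp hv), mul_one]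
      exact v.intValuation_le_one b
    · by_cases hvT : v ∈ T
      · have h1 := hb v (Finset.mem_union_right S hvT)
        simp only [hv, if_false, sub_zero] at h1
        have h2 := (v.intValuation_le_pow_iff_mem _ _).mpr h1
        have h3 : v.intValuation b ≤ (v.valuation K (x : K))⁻¹ := by
          refine h2.trans (le_trans ?_ (exp_neg_natAbs_le_inv589 (hxv0 v)))
          rw [WithZero.exp_le_exp]
          have he : ((e v : ℕ) : ℤ) = ((WithZero.log (v.intValuation f)).natAbs : ℤ) +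
              ((WithZero.log (v.valuation K (x : K))).natAbs : ℤ) := by
            simp only [e, Nat.cast_add]
          have : (0 : ℤ) ≤ ((WithZero.log (v.intValuation f)).natAbs : ℤ) := Int.natCast_nonneg _
          rw [he]
          linarith
        calc v.intValuation b * v.valuation K (x : K)
            ≤ (v.valuation K (x : K))⁻¹ * v.valuation K (x : K) :=
              mul_le_mul_left (a := v.valuation K (x : K)) h3
          _ = 1 := inv_mul_cancel₀ (hxv0 v)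
      · have h1 : v.valuation K (x : K) ≤ 1 := not_lt.mp (fun h => hvT ((hTmem v).mpr h))
        exact mul_le_one' (v.intValuation_le_one b) h1
  obtain ⟨a, ha⟩ := HeightOneSpectrum.mem_integers_of_valuation_le_one K _ hbx
  have ha0 : a ≠ 0 := by
    intro h
    rw [h, map_zero] at ha
    exact mul_ne_zero (algebraMap_int_ne_zero589 hb0) hx0 ha.symm
  -- (iv)
  have ha1 : ∀ v : HeightOneSpectrum (𝓞 K), v.intValuation (a - 1) ≤ v.intValuation f := by
    intro v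
    by_cases hv : v ∈ S
    · have h1 : algebraMap (𝓞 K) K (a - 1) =
          algebraMap (𝓞 K) K b * ((x : K) - 1) + algebraMap (𝓞 K) K (b - 1) := by
        rw [map_sub, map_sub, ha, map_one]; ring
      rw [← HeightOneSpectrum.valuation_of_algebraMap (K := K)]
      change v.valuation K (algebraMap (𝓞 K) K (a - 1)) ≤ _
      rw [h1]
      refine (Valuation.map_add _ _ _).trans (max_le ?_ ?_)
      · rw [map_mul, HeightOneSpectrum.valuation_of_algebraMap]
        calc v.intValuation b * v.valuation K ((x : K) - 1)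
            ≤ 1 * v.valuation K ((x : K) - 1) :=
              mul_le_mul_left (a := v.valuation K ((x : K) - 1)) (v.intValuation_le_one b)
          _ = v.valuation K ((x : K) - 1) := one_mul _
          _ ≤ v.intValuation f := hvalx1 v ((hSmem v).mp hv)
      · rw [HeightOneSpectrum.valuation_of_algebraMap]
        exact hb1 v
    · have h1 : v.intValuation f = 1 :=
        le_antisymm (v.intValuation_le_one f) (not_lt.mp (fun h => hv ((hSmem v).mpr h)))
      rw [h1]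
      exact v.intValuation_le_one _
  exact ⟨a, b, ha0, hb0, mem_span_of_intValuation_le589 _ f hf ha1,
    mem_span_of_intValuation_le589 _ f hf hb1, ha⟩

/-- The character `idChar589 c` is trivial on the principal idèles `≡ 1 mod f`. -/
theorem idChar589_prIdele_eq_one (f : 𝓞 K) (hf : f ≠ 0)
    (hS : ∃ v₀ : HeightOneSpectrum (𝓞 K), v₀.intValuation f < 1)
    (c : HeightOneSpectrum (𝓞 K) → ℂˣ) (hray : RayHyp589 f c) (x : Kˣ)
    (hx : NearOne589 f (prIdele589 K x)) : idChar589 c (prIdele589 K x) = 1 := by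
  obtain ⟨a, b, ha0, hb0, ha1, hb1, hab⟩ := exists_denominator589 f hf hS x hx
  have h1 : intUnit589 a ha0 = intUnit589 b hb0 * x := by
    apply Units.ext
    rw [Units.val_mul, intUnit589, intUnit589, Units.val_mk0, Units.val_mk0]
    exact hab
  have h2 : idChar589 c (prIdele589 K (intUnit589 a ha0)) = 1 := by
    rw [idChar589_prIdele_int]; exact hray a ha0 ha1
  have h3 : idChar589 c (prIdele589 K (intUnit589 b hb0)) = 1 := by
    rw [idChar589_prIdele_int]; exact hray b hb0 hb1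
  rw [h1, map_mul, map_mul, h3, one_mul] at h2
  exact h2

/-! ## The extension -/

/-- A unit `x` of `K` with `x z ≡ 1 mod f`. -/
def approxUnit589 (f : 𝓞 K) (hf : f ≠ 0) (z : (Adl589 K)ˣ) : Kˣ :=
  (exists_prIdele_mul_nearOne589 f hf z).choose

theorem approxUnit589_spec (f : 𝓞 K) (hf : f ≠ 0) (z : (Adl589 K)ˣ) :
    NearOne589 f (prIdele589 K (approxUnit589 f hf z) * z) :=
  (exists_prIdele_mul_nearOne589 f hf z).choose_spec

/-- The underlying function of the Hecke character. -/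
def heckeFun589 (f : 𝓞 K) (hf : f ≠ 0) (c : HeightOneSpectrum (𝓞 K) → ℂˣ)
    (z : (Adl589 K)ˣ) : ℂˣ :=
  idChar589 c (prIdele589 K (approxUnit589 f hf z) * z)

theorem heckeFun589_eq (f : 𝓞 K) (hf : f ≠ 0)
    (hS : ∃ v₀ : HeightOneSpectrum (𝓞 K), v₀.intValuation f < 1)
    (c : HeightOneSpectrum (𝓞 K) → ℂˣ) (hray : RayHyp589 f c) (z : (Adl589 K)ˣ) (x : Kˣ)
    (hx : NearOne589 f (prIdele589 K x * z)) :
    heckeFun589 f hf c z = idChar589 c (prIdele589 K x * z) := by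
  unfold heckeFun589
  have h1 : prIdele589 K (approxUnit589 f hf z) * z =
      prIdele589 K (approxUnit589 f hf z * x⁻¹) * (prIdele589 K x * z) := by
    rw [map_mul, map_inv]
    group
  have h2 : NearOne589 f (prIdele589 K (approxUnit589 f hf z * x⁻¹)) := by
    have h3 : prIdele589 K (approxUnit589 f hf z * x⁻¹) =
        (prIdele589 K (approxUnit589 f hf z) * z) * (prIdele589 K x * z)⁻¹ := by
      rw [map_mul, map_inv]
      group
    rw [h3]
    exact (approxUnit589_spec f hf z).div hx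
  rw [h1, map_mul, idChar589_prIdele_eq_one f hf hS c hray _ h2, one_mul]

/-- The Hecke character attached to `(f, c)`. -/
def heckeHom589 (f : 𝓞 K) (hf : f ≠ 0)
    (hS : ∃ v₀ : HeightOneSpectrum (𝓞 K), v₀.intValuation f < 1)
    (c : HeightOneSpectrum (𝓞 K) → ℂˣ) (hray : RayHyp589 f c) : (Adl589 K)ˣ →* ℂˣ where
  toFun := heckeFun589 f hf c
  map_one' := by
    rw [heckeFun589_eq f hf hS c hray 1 1 (by rw [map_one, one_mul]; exact nearOne589_one f),
      map_one, one_mul, map_one]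
  map_mul' z w := by
    have hz := approxUnit589_spec f hf z
    have hw := approxUnit589_spec f hf w
    have h1 : prIdele589 K (approxUnit589 f hf z * approxUnit589 f hf w) * (z * w) =
        (prIdele589 K (approxUnit589 f hf z) * z) * (prIdele589 K (approxUnit589 f hf w) * w) := by
      rw [map_mul]
      exact mul_mul_mul_comm _ _ _ _
    rw [heckeFun589_eq f hf hS c hray (z * w) (approxUnit589 f hf z * approxUnit589 f hf w)
      (by rw [h1]; exact hz.mul hw), h1, map_mul]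
    rfl

theorem heckeHom589_apply_of_nearOne (f : 𝓞 K) (hf : f ≠ 0)
    (hS : ∃ v₀ : HeightOneSpectrum (𝓞 K), v₀.intValuation f < 1)
    (c : HeightOneSpectrum (𝓞 K) → ℂˣ) (hray : RayHyp589 f c) (z : (Adl589 K)ˣ)
    (hz : NearOne589 f z) : heckeHom589 f hf hS c hray z = idChar589 c z := by
  show heckeFun589 f hf c z = _
  rw [heckeFun589_eq f hf hS c hray z 1 (by rw [map_one, one_mul]; exact hz), map_one, one_mul]

theorem heckeHom589_prIdele (f : 𝓞 K) (hf : f ≠ 0)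
    (hS : ∃ v₀ : HeightOneSpectrum (𝓞 K), v₀.intValuation f < 1)
    (c : HeightOneSpectrum (𝓞 K) → ℂˣ) (hray : RayHyp589 f c) (y : Kˣ) :
    heckeHom589 f hf hS c hray (prIdele589 K y) = 1 := by
  show heckeFun589 f hf c _ = _
  have h1 : prIdele589 K y⁻¹ * prIdele589 K y = 1 := by
    rw [← map_mul, inv_mul_cancel, map_one]
  rw [heckeFun589_eq f hf hS c hray _ y⁻¹ (by rw [h1]; exact nearOne589_one f), h1, map_one]

/-! ## Continuity -/

/-- The finite part of an idèle. -/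
def finPart589 (z : (Adl589 K)ˣ) : FiniteAdeleRing (𝓞 K) K := (z : Adl589 K).2

theorem continuous_finPart589 : Continuous (finPart589 (K := K)) :=
  continuous_snd.comp Units.continuous_val

theorem continuous_finPart589_inv : Continuous fun z : (Adl589 K)ˣ => finPart589 z⁻¹ :=
  continuous_snd.comp Units.continuous_coe_inv

theorem isOpen_integral589 :
    IsOpen {g : FiniteAdeleRing (𝓞 K) K | ∀ v, g v ∈ v.adicCompletionIntegers K} :=
  RestrictedProduct.isOpen_forall_mem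
    (R := fun v : HeightOneSpectrum (𝓞 K) => v.adicCompletion K)
    (A := fun v : HeightOneSpectrum (𝓞 K) => (v.adicCompletionIntegers K : Set (v.adicCompletion K)))
    (fun _ => Valued.isOpen_valuationSubring _)

theorem isOpen_ball589 (f : 𝓞 K) (hf : f ≠ 0) (v : HeightOneSpectrum (𝓞 K)) :
    IsOpen {g : FiniteAdeleRing (𝓞 K) K | Valued.v (g v - 1) ≤ v.intValuation f} := by
  have h1 := isOpen_closedBall589 v 1 (algebraMap K (v.adicCompletion K) (algebraMap (𝓞 K) K f))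
    (by rw [Ne, map_eq_zero]; exact algebraMap_int_ne_zero589 hf)
  rw [valued_algebraMap_int589] at h1
  exact h1.preimage (RestrictedProduct.continuous_eval v)

/-- The open neighbourhood of `1` on which the Hecke character is trivial. -/
def nbhd589 (f : 𝓞 K) : Set (Adl589 K)ˣ :=
  {z | (∀ v, finPart589 z v ∈ v.adicCompletionIntegers K) ∧
    (∀ v, finPart589 z⁻¹ v ∈ v.adicCompletionIntegers K) ∧
    ∀ v : HeightOneSpectrum (𝓞 K), v.intValuation f < 1 →
      Valued.v (finPart589 z v - 1) ≤ v.intValuation f}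

theorem isOpen_nbhd589 (f : 𝓞 K) (hf : f ≠ 0) : IsOpen (nbhd589 f) := by
  have h1 : IsOpen {z : (Adl589 K)ˣ | ∀ v, finPart589 z v ∈ v.adicCompletionIntegers K} :=
    isOpen_integral589.preimage continuous_finPart589
  have h2 : IsOpen {z : (Adl589 K)ˣ | ∀ v, finPart589 z⁻¹ v ∈ v.adicCompletionIntegers K} :=
    isOpen_integral589.preimage continuous_finPart589_inv
  have h3 : IsOpen {z : (Adl589 K)ˣ | ∀ v : HeightOneSpectrum (𝓞 K), v.intValuation f < 1 →
      Valued.v (finPart589 z v - 1) ≤ v.intValuation f} := by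
    have h4 : IsOpen (⋂ v ∈ {v : HeightOneSpectrum (𝓞 K) | v.intValuation f < 1},
        {g : FiniteAdeleRing (𝓞 K) K | Valued.v (g v - 1) ≤ v.intValuation f}) :=
      (finite_divisors589 f hf).isOpen_biInter (fun v _ => isOpen_ball589 f hf v)
    have h5 := h4.preimage continuous_finPart589
    convert h5 using 1
    ext z
    simp only [Set.mem_ofPred_eq, Set.mem_preimage, Set.mem_iInter]
  exact h1.inter (h2.inter h3)

theorem one_mem_nbhd589 (f : 𝓞 K) : (1 : (Adl589 K)ˣ) ∈ nbhd589 f := by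
  refine ⟨fun v => ?_, fun v => ?_, fun v _ => ?_⟩
  · exact (v.adicCompletionIntegers K).one_mem
  · rw [inv_one]
    exact (v.adicCompletionIntegers K).one_mem
  · have : finPart589 (1 : (Adl589 K)ˣ) v = 1 := rfl
    rw [this, sub_self, map_zero]
    exact zero_le

theorem nearOne589_of_mem_nbhd {f : 𝓞 K} {z : (Adl589 K)ˣ} (hz : z ∈ nbhd589 f) :
    NearOne589 f z := hz.2.2

theorem finVal589_eq_one_of_mem_nbhd {f : 𝓞 K} {z : (Adl589 K)ˣ} (hz : z ∈ nbhd589 f)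
    (v : HeightOneSpectrum (𝓞 K)) : finVal589 v z = 1 := by
  have h1 : Valued.v (finComp589 v z) ≤ 1 :=
    (HeightOneSpectrum.mem_adicCompletionIntegers (𝓞 K) K v).mp (hz.1 v)
  have h2 : Valued.v (finComp589 v z⁻¹) ≤ 1 :=
    (HeightOneSpectrum.mem_adicCompletionIntegers (𝓞 K) K v).mp (hz.2.1 v)
  rw [finComp589_inv, map_inv₀] at h2
  have h0 : Valued.v (finComp589 v z) ≠ 0 := finVal589_ne_zero v z
  have h3 : 1 ≤ Valued.v (finComp589 v z) := (inv_le_one₀ (zero_lt_iff.mpr h0)).mp h2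
  exact le_antisymm h1 h3

/-- The Hecke character is trivial on the open neighbourhood `nbhd589 f` of `1`. -/
theorem heckeHom589_eq_one_of_mem_nbhd (f : 𝓞 K) (hf : f ≠ 0)
    (hS : ∃ v₀ : HeightOneSpectrum (𝓞 K), v₀.intValuation f < 1)
    (c : HeightOneSpectrum (𝓞 K) → ℂˣ) (hray : RayHyp589 f c) (z : (Adl589 K)ˣ)
    (hz : z ∈ nbhd589 f) : heckeHom589 f hf hS c hray z = 1 := by
  rw [heckeHom589_apply_of_nearOne f hf hS c hray z (nearOne589_of_mem_nbhd hz)]
  exact idChar589_eq_one_of c z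
    (fun v => Or.inr (idExp589_eq_zero_of_finVal (finVal589_eq_one_of_mem_nbhd hz v)))

/-- The Hecke character is continuous. -/
theorem continuous_heckeHom589 (f : 𝓞 K) (hf : f ≠ 0)
    (hS : ∃ v₀ : HeightOneSpectrum (𝓞 K), v₀.intValuation f < 1)
    (c : HeightOneSpectrum (𝓞 K) → ℂˣ) (hray : RayHyp589 f c) :
    Continuous (heckeHom589 f hf hS c hray) := by
  apply continuous_of_continuousAt_one
  have h1 : nbhd589 f ∈ nhds (1 : (Adl589 K)ˣ) :=
    (isOpen_nbhd589 f hf).mem_nhds (one_mem_nbhd589 f)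
  have h2 : (fun _ : (Adl589 K)ˣ => (1 : ℂˣ)) =ᶠ[nhds (1 : (Adl589 K)ˣ)]
      (heckeHom589 f hf hS c hray) := by
    filter_upwards [h1] with z hz
    exact (heckeHom589_eq_one_of_mem_nbhd f hf hS c hray z hz).symm
  exact (continuousAt_const.congr h2)

/-- **The idèle class character of a ray class character.** -/
theorem exists_heckeChar589 (f : 𝓞 K) (hf : f ≠ 0)
    (hS : ∃ v₀ : HeightOneSpectrum (𝓞 K), v₀.intValuation f < 1)
    (c : HeightOneSpectrum (𝓞 K) → ℂˣ) (hray : RayHyp589 f c) :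
    ∃ θ : (Adl589 K)ˣ →* ℂˣ, Continuous θ ∧ (∀ x : Kˣ, θ (prIdele589 K x) = 1) ∧
      ∀ z : (Adl589 K)ˣ, NearOne589 f z → θ z = idChar589 c z :=
  ⟨heckeHom589 f hf hS c hray, continuous_heckeHom589 f hf hS c hray,
    heckeHom589_prIdele f hf hS c hray, heckeHom589_apply_of_nearOne f hf hS c hray⟩

end Fermat.Agent.LT.H589

end

end
-- ===== PACK-END LT/CFT/H589/Extend.lean

-- ===== PACK-BEGIN LT/T6/H626/ArchCut.lean
section




/-!
# Row LT, tower T6, station T6.20 (`ArchMatchC`): THE CUT, level 1 (helper626, sub-architect)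

OFF-MAIN.  Vocabulary: `LT/T6/Spec.lean` v3 (sha256 8c5f2ae7) and `LT/T6/SpecArch.lean`
(sha256 003240b2) of helper22, byte-identical copies.  Definitions and Props only, plus the
PROVED tops `geoMatch_of_parts626` and `archMatchC_of_cut626`; nothing is assumed.

## The hinge: the Abel relation on the positive diagonal torus

For `a, b > 0` put `F_f(a, b) = ∫_ℝ f(diag(a,b) n(x)) dx` on `GL₂(ℝ)` and
`F_φ(α, β) = ∫_ℂ φ(diag(α,β) n(w)) dw` on `GL₂(ℂ)` (Lebesgue measures of `ℝ` and of `ℂ`).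
`IsAbelRel626 c φ f₀ f₁` :  `F_{f₀}(a, b) = F_{f₁}(a, b) = c · F_φ(√a, √b)` for all `a, b > 0`.

In radial coordinates (`t = log (a / b)`, `D = a b`, `f₀ = g₀(det, ρ)`,
`f₁ = (wtPhase n)⁻¹ · g₁(det, ρ)`, `φ = Φ(|det|, ρ)`, `(A g)(r) = ∫_ℝ g(r + u²) du`,
`Ψ(D, x) = ∫_x^∞ Φ(D, v) dv`):
* `F_{f₀}(a, b) = √2 e^{-t/2} (A g₀(D, ·))(cosh t)`,
* `F_{f₁}(a, b) = √2 e^{-t/2} cosh(t/2) (A G₁(D, ·))(cosh t)`, `G₁ = g₁ / √((ρ + 1) / 2)`
  (the imaginary part of the phase is odd in `x`),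
* `F_φ(√a, √b) = 2π e^{-t/2} Ψ(√D, cosh (t/2))`,
so the relation is `√2 (A g₀(D,·))(r) = 2π c Ψ(√D, √((r+1)/2))` and the same with
`cosh(t/2) · A G₁`; Abel inversion `g(ρ) = -(1/π) ∫ (A g)'(ρ + v²) dv` gives the CLOSED FORMS
(`x_v = √((ρ + 1 + v²) / 2)`, no derivative of `Φ` occurs):
`g₀(D, ρ) = (√2 c / 4) ∫_ℝ Φ(√D, x_v) / x_v dv`,
`g₁(D, ρ) = (√2 c / 4) √((ρ+1)/2) ∫_ℝ (Φ(√D, x_v) / x_v² + Ψ(√D, x_v) / x_v³) dv`.

## Level 1 (registry rows `T6.20a`, `T6.20b`, `T6.20c`)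

* `AbelExistC626` (T6.20a, = the group form of T6.24): for EVERY constant `c`, every test function
  `φ` has test functions `f₀` (weight `0`), `f₁` (weight `n = ±1`) in the Abel relation.
* `GeoMatchC626` (T6.20b): for all Haar measures there is ONE constant `c > 0` such that the
  Abel relation with constant `c` implies the geometric matching of `f₀ + f₁` with `φ`.
* `SpecRelC626` (T6.20c, = T6.29): for all Haar measures and EVERY `c ≠ 0` there are
  `c₀, c₁ ≠ 0` such that the Abel relation with constant `c` implies the two spectral relations.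

`archMatchC_of_cut626 : AbelExistC626 → GeoMatchC626 → SpecRelC626 → ArchMatchC` (PROVED).

## Level 2 for `GeoMatchC626` (rows `T6.20d`, `T6.20e`)

A regular `γ ∈ GL₂(ℝ)` has `disc γ > 0` (real eigenvalues) or `disc γ < 0` (elliptic).
* `HypMatchC626` (T6.20d, = T6.25 incl. the non-norms): ONE constant `c > 0` works on
  `{disc > 0}` (matching at the norms `= det > 0` and both eigenvalues `> 0`; vanishing when
  `det < 0` [support] and when both eigenvalues are `< 0` [`F_{f₀} = F_{f₁}`,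
  `f₀(-g) = f₀(g)`, `f₁(-g) = -f₁(g)`]).
* `EllMatchC626` (T6.20e, = T6.26 + T6.27 + T6.28): EVERY constant `c > 0` which works on
  `{disc > 0}` works on `{disc < 0}`.  (Such a constant is unique: test it on one `φ ≥ 0`,
  `φ ≠ 0`; `AbelExistC626` is a hypothesis of the leaf for that purpose.  So the owner proves the
  elliptic identity for the constant of the Iwasawa decompositions.)

`geoMatch_of_parts626 : AbelExistC626 → HypMatchC626 → EllMatchC626 → GeoMatchC626` (PROVED).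
-/

set_option autoImplicit false

open scoped Matrix ContDiff
open MeasureTheory

noncomputable section

namespace Fermat.Agent.LT.T6.H626

open Fermat.Agent.LT.T6

/-! ## 1. The hinge -/

/-- **The Abel relation** with constant `c` between `φ` on `GL₂(ℂ)` and `f₀`, `f₁` on `GL₂(ℝ)`:
for all `a, b > 0`,
`∫_ℝ f₀(!![a, a x; 0, b]) dx = ∫_ℝ f₁(!![a, a x; 0, b]) dx = c ∫_ℂ φ(!![√a, √a w; 0, √b]) dw`.
(The elements are given by arbitrary sections `u`, `u'` with the prescribed matrices.) -/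
def IsAbelRel626 (c : ℂ) (φ : GL (Fin 2) ℂ → ℂ) (f₀ f₁ : GL (Fin 2) ℝ → ℂ) : Prop :=
  ∀ a b : ℝ, 0 < a → 0 < b →
    ∀ (u : ℝ → GL (Fin 2) ℝ) (u' : ℂ → GL (Fin 2) ℂ),
      (∀ x : ℝ, ((u x : GL (Fin 2) ℝ) : Matrix (Fin 2) (Fin 2) ℝ) = !![a, a * x; 0, b]) →
      (∀ w : ℂ, ((u' w : GL (Fin 2) ℂ) : Matrix (Fin 2) (Fin 2) ℂ)
        = !![((Real.sqrt a : ℝ) : ℂ), ((Real.sqrt a : ℝ) : ℂ) * w; 0, ((Real.sqrt b : ℝ) : ℂ)]) →
      (∫ x : ℝ, f₀ (u x)) = c * ∫ w : ℂ, φ (u' w) ∧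
      (∫ x : ℝ, f₁ (u x)) = c * ∫ w : ℂ, φ (u' w)

/-- Geometric matching (`SpecArch.IsArchMatch`) restricted to the regular `γ` with `P γ`. -/
def IsArchMatchOn626 (P : GL (Fin 2) ℝ → Prop)
    (μ : @Measure (GL (Fin 2) ℝ) (borel _)) (μ' : @Measure (GL (Fin 2) ℂ) (borel _))
    (φ : GL (Fin 2) ℂ → ℂ) (f : GL (Fin 2) ℝ → ℂ) : Prop :=
  ∀ γ : GL (Fin 2) ℝ, IsReg γ → P γ →
    ∀ μT : @Measure (twCentSub (MonoidHom.id (GL (Fin 2) ℝ)) γ) (borel _),
      @Measure.IsHaarMeasure _ _ _ (borel _) μT →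
    ∀ β : GL (Fin 2) ℝ → ℝ, Continuous β → (∀ x, 0 ≤ β x) →
      (∀ x : GL (Fin 2) ℝ,
        @integral _ _ _ _ (borel _) μT
          (fun t : twCentSub (MonoidHom.id (GL (Fin 2) ℝ)) γ =>
            β ((t : GL (Fin 2) ℝ) * x)) = 1) →
      (∀ δ : GL (Fin 2) ℂ,
        twNorm (starRingAut : ℂ ≃+* ℂ) 2 δ
          = Matrix.GeneralLinearGroup.map (algebraMap ℝ ℂ) γ →
        ∀ β' : GL (Fin 2) ℂ → ℝ, Continuous β' → (∀ x, 0 ≤ β' x) →
          (∀ x : GL (Fin 2) ℂ,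
            @integral _ _ _ _ (borel _) μT
              (fun t : twCentSub (MonoidHom.id (GL (Fin 2) ℝ)) γ =>
                β' (Matrix.GeneralLinearGroup.map (algebraMap ℝ ℂ) (t : GL (Fin 2) ℝ) * x))
              = 1) →
          @integral _ _ _ _ (borel _) μ
              (fun x : GL (Fin 2) ℝ => f (x⁻¹ * γ * x) * (β x : ℂ))
            = @integral _ _ _ _ (borel _) μ'
              (fun x : GL (Fin 2) ℂ =>
                φ (x⁻¹ * δ * glAut (starRingAut : ℂ ≃+* ℂ) x) * (β' x : ℂ))) ∧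
      (¬ IsNormFrom 2 (algebraMap ℝ ℂ) (starRingAut : ℂ ≃+* ℂ) γ →
        @integral _ _ _ _ (borel _) μ
          (fun x : GL (Fin 2) ℝ => f (x⁻¹ * γ * x) * (β x : ℂ)) = 0)

/-- The matching on all regular elements is the matching of `SpecArch`. -/
theorem isArchMatch_iff_on626 (μ : @Measure (GL (Fin 2) ℝ) (borel _))
    (μ' : @Measure (GL (Fin 2) ℂ) (borel _)) (φ : GL (Fin 2) ℂ → ℂ) (f : GL (Fin 2) ℝ → ℂ) :
    IsArchMatch μ μ' φ f ↔ IsArchMatchOn626 (fun _ => True) μ μ' φ f :=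
  ⟨fun h γ hγ _ => h γ hγ, fun h γ hγ => h γ hγ trivial⟩

/-- A regular element of `GL₂(ℝ)` has positive or negative discriminant. -/
theorem disc_pos_or_neg626 (γ : GL (Fin 2) ℝ) (h : IsReg γ) : 0 < disc γ ∨ disc γ < 0 := by
  have h0 : disc γ ≠ 0 := h.ne_zero
  rcases lt_trichotomy (disc γ) 0 with h1 | h1 | h1
  · exact Or.inr h1
  · exact absurd h1 h0
  · exact Or.inl h1

/-- The matching from the matching on `{disc > 0}` and on `{disc < 0}`. -/
theorem isArchMatch_of_hyp_ell626 (μ : @Measure (GL (Fin 2) ℝ) (borel _))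
    (μ' : @Measure (GL (Fin 2) ℂ) (borel _)) (φ : GL (Fin 2) ℂ → ℂ) (f : GL (Fin 2) ℝ → ℂ)
    (hh : IsArchMatchOn626 (fun γ => 0 < disc γ) μ μ' φ f)
    (he : IsArchMatchOn626 (fun γ => disc γ < 0) μ μ' φ f) : IsArchMatch μ μ' φ f := by
  intro γ hγ
  rcases disc_pos_or_neg626 γ hγ with h | h
  · exact hh γ hγ h
  · exact he γ hγ h

/-! ## 2. Level 1 -/

/-- **T6.20a (existence, group form of the Abel inversion T6.24).**  For every constant `c`,
every weight `n = ±1` and every test function `φ` on `GL₂(ℂ)` there are test functions `f₀` of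
weight `0` and `f₁` of weight `n` on `GL₂(ℝ)` in the Abel relation with constant `c`.
(Closed forms of the profiles: header.  Smoothness at `ρ = 1`: either the even function theorem
for the profile of `φ`, or the closed forms as integrals of `φ` over smooth families of
matrices.) -/
def AbelExistC626 : Prop :=
  ∀ (c : ℂ) (n : ℤ), n = 1 ∨ n = -1 →
    ∀ φ : GL (Fin 2) ℂ → ℂ, IsArchTestC φ →
      ∃ f₀ f₁ : GL (Fin 2) ℝ → ℂ, IsArchTestR 0 f₀ ∧ IsArchTestR n f₁ ∧ IsAbelRel626 c φ f₀ f₁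

/-- `c` is a matching constant of `μ`, `μ'` on the regular elements with `P`: the Abel relation
with constant `c` implies the geometric matching of `f₀ + f₁` with `φ` there. -/
def IsMatchConstOn626 (P : GL (Fin 2) ℝ → Prop)
    (μ : @Measure (GL (Fin 2) ℝ) (borel _)) (μ' : @Measure (GL (Fin 2) ℂ) (borel _))
    (c : ℝ) : Prop :=
  ∀ n : ℤ, n = 1 ∨ n = -1 →
    ∀ (φ : GL (Fin 2) ℂ → ℂ) (f₀ f₁ : GL (Fin 2) ℝ → ℂ),
      IsArchTestC φ → IsArchTestR 0 f₀ → IsArchTestR n f₁ → IsAbelRel626 (c : ℂ) φ f₀ f₁ →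
      IsArchMatchOn626 P μ μ' φ (fun g => f₀ g + f₁ g)

/-- **T6.20b (geometric matching from the Abel relation).**  For all Haar measures there is a
constant `c > 0` such that the Abel relation with constant `c` implies the geometric matching at
every regular `γ`. -/
def GeoMatchC626 : Prop :=
  ∀ (μ : @Measure (GL (Fin 2) ℝ) (borel _)) (μ' : @Measure (GL (Fin 2) ℂ) (borel _)),
    @Measure.IsHaarMeasure _ _ _ (borel _) μ → @Measure.IsHaarMeasure _ _ _ (borel _) μ' →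
    ∃ c : ℝ, 0 < c ∧ IsMatchConstOn626 (fun _ => True) μ μ' c

/-- **T6.20c (spectral relation from the Abel relation, = T6.29).**  For all Haar measures, every
constant `c ≠ 0` and every weight `n = ±1` there are constants `c₀, c₁ ≠ 0` such that the Abel
relation with constant `c` implies `sphTransR f₀ s = c₀ sphTransC φ (2 s)` and
`sphTransR f₁ s = c₁ sphTransC φ (2 s)` for all `s ∈ ℂ`.
(`∫ f Q_s dμ = const ∫_{a,b>0} F_f(a,b) (a/b)^{s+1/2} d^×a d^×b`,
`∫ φ R_ν dμ' = const ∫_{α,β>0} F_φ(α,β) (α/β)^{ν+1} d^×α d^×β`, `(a, b) = (α², β²)`.) -/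
def SpecRelC626 : Prop :=
  ∀ (μ : @Measure (GL (Fin 2) ℝ) (borel _)) (μ' : @Measure (GL (Fin 2) ℂ) (borel _)),
    @Measure.IsHaarMeasure _ _ _ (borel _) μ → @Measure.IsHaarMeasure _ _ _ (borel _) μ' →
    ∀ c : ℂ, c ≠ 0 → ∀ n : ℤ, n = 1 ∨ n = -1 →
    ∃ c₀ c₁ : ℂ, c₀ ≠ 0 ∧ c₁ ≠ 0 ∧
      ∀ (φ : GL (Fin 2) ℂ → ℂ) (f₀ f₁ : GL (Fin 2) ℝ → ℂ),
        IsArchTestC φ → IsArchTestR 0 f₀ → IsArchTestR n f₁ → IsAbelRel626 c φ f₀ f₁ →
        (∀ s : ℂ, sphTransR μ 0 f₀ s = c₀ * sphTransC μ' φ (2 * s)) ∧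
        (∀ s : ℂ, sphTransR μ n f₁ s = c₁ * sphTransC μ' φ (2 * s))

/-- **TOP of the station T6.20**: `ArchMatchC` from the three parts. -/
theorem archMatchC_of_cut626 (hE : AbelExistC626) (hG : GeoMatchC626) (hS : SpecRelC626) :
    ArchMatchC := by
  intro μ μ' hμ hμ' n hn
  obtain ⟨c, hc, hM⟩ := hG μ μ' hμ hμ'
  have hc' : (c : ℂ) ≠ 0 := by exact_mod_cast hc.ne'
  obtain ⟨c₀, c₁, h0, h1, hSp⟩ := hS μ μ' hμ hμ' (c : ℂ) hc' n hn
  refine ⟨c₀, c₁, h0, h1, fun φ hφ => ?_⟩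
  obtain ⟨f₀, f₁, hf₀, hf₁, hA⟩ := hE (c : ℂ) n hn φ hφ
  have hm := hM n hn φ f₀ f₁ hφ hf₀ hf₁ hA
  have hs := hSp φ f₀ f₁ hφ hf₀ hf₁ hA
  exact ⟨f₀, f₁, hf₀, hf₁, (isArchMatch_iff_on626 μ μ' φ _).2 hm, hs.1, hs.2⟩

/-! ## 3. Level 2 for `GeoMatchC626` -/

/-- **T6.20d (hyperbolic part, = T6.25 with the non-norms).**  For all Haar measures there is a
constant `c > 0` which is a matching constant on `{disc > 0}`.
(`O_γ(f) = (κ π / λ) |1 - b/a|⁻¹ F_f(a, b)` for `γ ∼ diag(a, b)` and `f` invariant under the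
conjugation by `SO(2)`; `TO_δ(φ) = (κ' · const / λ) |1 - b/a|⁻¹ F_φ(√a, √b)`; `κ`, `κ'` the
constants of the Iwasawa decompositions of `μ`, `μ'`, `λ` the one of `μT`.) -/
def HypMatchC626 : Prop :=
  ∀ (μ : @Measure (GL (Fin 2) ℝ) (borel _)) (μ' : @Measure (GL (Fin 2) ℂ) (borel _)),
    @Measure.IsHaarMeasure _ _ _ (borel _) μ → @Measure.IsHaarMeasure _ _ _ (borel _) μ' →
    ∃ c : ℝ, 0 < c ∧ IsMatchConstOn626 (fun γ => 0 < disc γ) μ μ' c

/-- **T6.20e (elliptic part, = T6.26 + T6.27 + T6.28).**  Every constant `c > 0` which is a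
matching constant on `{disc > 0}` is a matching constant on `{disc < 0}`.  (`AbelExistC626` is
available as a hypothesis: the matching constant on `{disc > 0}` is unique.) -/
def EllMatchC626 : Prop :=
  AbelExistC626 →
  ∀ (μ : @Measure (GL (Fin 2) ℝ) (borel _)) (μ' : @Measure (GL (Fin 2) ℂ) (borel _)),
    @Measure.IsHaarMeasure _ _ _ (borel _) μ → @Measure.IsHaarMeasure _ _ _ (borel _) μ' →
    ∀ c : ℝ, 0 < c → IsMatchConstOn626 (fun γ => 0 < disc γ) μ μ' c →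
      IsMatchConstOn626 (fun γ => disc γ < 0) μ μ' c

/-- `GeoMatchC626` from its two parts. -/
theorem geoMatch_of_parts626 (hE : AbelExistC626) (hH : HypMatchC626) (hL : EllMatchC626) :
    GeoMatchC626 := by
  intro μ μ' hμ hμ'
  obtain ⟨c, hc, hM⟩ := hH μ μ' hμ hμ'
  have hM' := hL hE μ μ' hμ hμ' c hc hM
  refine ⟨c, hc, fun n hn φ f₀ f₁ hφ hf₀ hf₁ hA => ?_⟩
  exact (isArchMatch_iff_on626 μ μ' φ _).1
    (isArchMatch_of_hyp_ell626 μ μ' φ _ (hM n hn φ f₀ f₁ hφ hf₀ hf₁ hA)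
      (hM' n hn φ f₀ f₁ hφ hf₀ hf₁ hA))

/-- **TOP of the station T6.20, level 2.** -/
theorem archMatchC_of_cut2_626 (hE : AbelExistC626) (hH : HypMatchC626) (hL : EllMatchC626)
    (hS : SpecRelC626) : ArchMatchC :=
  archMatchC_of_cut626 hE (geoMatch_of_parts626 hE hH hL) hS

end Fermat.Agent.LT.T6.H626

end

end
-- ===== PACK-END LT/T6/H626/ArchCut.lean

-- ===== PACK-BEGIN LT/T6/H905/IwaHomeoC.lean
section



/-!
# Row LT, tower T6, leaf T6.23.04 `H189.IwaHomeoCC` (registry row 1466) -- helper905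

OFF-MAIN.  `iwaHomeoCC905 : H189.IwaHomeoCC`, VERBATIM against `LT/T6/H189/ArchIntCut.lean`
(helper189@45580d1ec, sha256 db591abe06d241ac): the Iwasawa map
`jC (u₁, u₂, w, k) = diag(e^{u₁}, e^{u₂}) n(w) k : ℝ × ℝ × ℂ × U(2) → GL₂(ℂ)` is an open
embedding and surjective.  Mathlib + the two files of helper189 only.

Route: the explicit inverse.  With the Gram matrix `G = g g*` (Hermitian, `det G = |det g|²`,
`G₁₁ = |c|² + |d|² > 0`):

    u₂ = log G₁₁ / 2,   u₁ = log |det g| - u₂,   w = G₀₁ / |det g|,   k = b⁻¹ g,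
    b = diag(e^{u₁}, e^{u₂}) n(w).

`k ∈ U(2)` because `b b* = G` (four entries; the entry `(0,0)` is `det G = |det g|²`).
For `g = b k`: `G = b b*`, so the formulas return `(u₁, u₂, w)`.  Continuity: the coercion
`GL₂(ℂ) → M₂(ℂ)` is an embedding (`isEmbedding_valGL905`), all formulas are continuous in the
entries.  The map `jC` is the `toFun` of the homeomorphism `iwaHomeo905`.
-/

set_option autoImplicit false

open MeasureTheory
open scoped Matrix ENNReal ComplexConjugate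

noncomputable section

namespace Fermat.Agent.LT.T6.H905

open Fermat.Agent.LT.T6.H189

/-! ## 1. The topology of `GL₂(ℂ)` -/

/-- The coercion `GL₂(ℂ) → M₂(ℂ)` is a topological embedding. -/
theorem isEmbedding_valGL905 :
    Topology.IsEmbedding (Units.val : GL (Fin 2) ℂ → Matrix (Fin 2) (Fin 2) ℂ) := by
  refine Units.isEmbedding_val_mk' (f := fun A : Matrix (Fin 2) (Fin 2) ℂ => A⁻¹) ?_ ?_
  · intro A hA
    have hdet : A.det ≠ 0 := by
      have := (Matrix.isUnit_iff_isUnit_det A).mp hA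
      exact this.ne_zero
    refine ContinuousAt.continuousWithinAt (continuousAt_matrix_inv A ?_)
    have : (Ring.inverse : ℂ → ℂ) = fun x => x⁻¹ := by
      funext x
      exact Ring.inverse_eq_inv x
    rw [this]
    exact continuousAt_inv₀ hdet
  · intro u
    exact (Matrix.coe_units_inv u).symm

/-- A map into `GL₂(ℂ)` is continuous as soon as its matrix is. -/
theorem continuous_toGL905 {X : Type*} [TopologicalSpace X] {f : X → GL (Fin 2) ℂ}
    (h : Continuous fun x => (f x : Matrix (Fin 2) (Fin 2) ℂ)) : Continuous f :=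
  isEmbedding_valGL905.continuous_iff.mpr h

/-! ## 2. The Borel part and the Gram matrix -/

/-- The Borel element `diag(e^{u₁}, e^{u₂}) n(w)`. -/
def bor905 (p : ℝ × ℝ × ℂ) : GL (Fin 2) ℂ := dgC p.1 p.2.1 * unC p.2.2

theorem coe_bor905 (p : ℝ × ℝ × ℂ) :
    ((bor905 p : GL (Fin 2) ℂ) : Matrix (Fin 2) (Fin 2) ℂ)
      = !![(Real.exp p.1 : ℂ), (Real.exp p.1 : ℂ) * p.2.2; 0, (Real.exp p.2.1 : ℂ)] := by
  unfold bor905 dgC unC
  rw [Matrix.GeneralLinearGroup.coe_mul]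
  ext i j
  fin_cases i <;> fin_cases j <;>
    simp [Matrix.GeneralLinearGroup.mkOfDetNeZero, Matrix.mul_apply, Fin.sum_univ_two]

theorem continuous_bor905 : Continuous bor905 := by
  refine continuous_toGL905 ?_
  simp_rw [coe_bor905]
  refine continuous_matrix fun i j => ?_
  fin_cases i <;> fin_cases j
  · show Continuous fun p : ℝ × ℝ × ℂ => ((Real.exp p.1 : ℝ) : ℂ)
    exact Complex.continuous_ofReal.comp (Real.continuous_exp.comp continuous_fst)
  · show Continuous fun p : ℝ × ℝ × ℂ => ((Real.exp p.1 : ℝ) : ℂ) * p.2.2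
    exact (Complex.continuous_ofReal.comp (Real.continuous_exp.comp continuous_fst)).mul
      (continuous_snd.comp continuous_snd)
  · show Continuous fun _ : ℝ × ℝ × ℂ => (0 : ℂ)
    exact continuous_const
  · show Continuous fun p : ℝ × ℝ × ℂ => ((Real.exp p.2.1 : ℝ) : ℂ)
    exact Complex.continuous_ofReal.comp
      (Real.continuous_exp.comp (continuous_fst.comp continuous_snd))

/-- The Gram matrix `g g*`. -/
def gram905 (g : GL (Fin 2) ℂ) : Matrix (Fin 2) (Fin 2) ℂ :=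
  (g : Matrix (Fin 2) (Fin 2) ℂ) * (g : Matrix (Fin 2) (Fin 2) ℂ)ᴴ

theorem gram_apply905 (g : GL (Fin 2) ℂ) (i j : Fin 2) :
    gram905 g i j = (g : Matrix (Fin 2) (Fin 2) ℂ) i 0 * conj ((g : Matrix (Fin 2) (Fin 2) ℂ) j 0)
      + (g : Matrix (Fin 2) (Fin 2) ℂ) i 1 * conj ((g : Matrix (Fin 2) (Fin 2) ℂ) j 1) := by
  unfold gram905
  rw [Matrix.mul_apply, Fin.sum_univ_two]
  rfl

theorem continuous_gram905 : Continuous gram905 :=
  Units.continuous_val.matrix_mul Units.continuous_val.matrix_conjTranspose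

theorem det_ne_zero905 (g : GL (Fin 2) ℂ) : (g : Matrix (Fin 2) (Fin 2) ℂ).det ≠ 0 := by
  have h := (Matrix.isUnit_iff_isUnit_det (g : Matrix (Fin 2) (Fin 2) ℂ)).mp g.isUnit
  exact h.ne_zero

/-- `G₁₁ = |c|² + |d|²`. -/
def n2_905 (g : GL (Fin 2) ℂ) : ℝ :=
  Complex.normSq ((g : Matrix (Fin 2) (Fin 2) ℂ) 1 0)
    + Complex.normSq ((g : Matrix (Fin 2) (Fin 2) ℂ) 1 1)

theorem gram_one_one905 (g : GL (Fin 2) ℂ) : gram905 g 1 1 = ((n2_905 g : ℝ) : ℂ) := by
  rw [gram_apply905, Complex.mul_conj, Complex.mul_conj]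
  unfold n2_905
  push_cast
  rfl

theorem n2_pos905 (g : GL (Fin 2) ℂ) : 0 < n2_905 g := by
  unfold n2_905
  have h0 := Complex.normSq_nonneg ((g : Matrix (Fin 2) (Fin 2) ℂ) 1 0)
  have h1 := Complex.normSq_nonneg ((g : Matrix (Fin 2) (Fin 2) ℂ) 1 1)
  rcases (add_nonneg h0 h1).lt_or_eq with h | h
  · exact h
  · exfalso
    have hc : (g : Matrix (Fin 2) (Fin 2) ℂ) 1 0 = 0 :=
      Complex.normSq_eq_zero.mp (by linarith)
    have hd : (g : Matrix (Fin 2) (Fin 2) ℂ) 1 1 = 0 :=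
      Complex.normSq_eq_zero.mp (by linarith)
    apply det_ne_zero905 g
    rw [Matrix.det_fin_two, hc, hd]
    ring

theorem continuous_n2_905 : Continuous n2_905 := by
  unfold n2_905
  exact (Complex.continuous_normSq.comp ((Units.continuous_val).matrix_elem 1 0)).add
    (Complex.continuous_normSq.comp ((Units.continuous_val).matrix_elem 1 1))

/-- `G₁₀ = conj G₀₁`. -/
theorem gram_one_zero905 (g : GL (Fin 2) ℂ) : gram905 g 1 0 = conj (gram905 g 0 1) := by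
  rw [gram_apply905, gram_apply905]
  simp only [map_add, map_mul, Complex.conj_conj]
  ring

/-- `det G = det g · conj (det g)`. -/
theorem gram_det905 (g : GL (Fin 2) ℂ) :
    gram905 g 0 0 * gram905 g 1 1 - gram905 g 0 1 * gram905 g 1 0
      = (g : Matrix (Fin 2) (Fin 2) ℂ).det * conj ((g : Matrix (Fin 2) (Fin 2) ℂ).det) := by
  rw [gram_apply905, gram_apply905, gram_apply905, gram_apply905, Matrix.det_fin_two]
  simp only [map_sub, map_mul]
  ring

/-- `|det g|`. -/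
def dd905 (g : GL (Fin 2) ℂ) : ℝ := ‖(g : Matrix (Fin 2) (Fin 2) ℂ).det‖

theorem dd_pos905 (g : GL (Fin 2) ℂ) : 0 < dd905 g := norm_pos_iff.mpr (det_ne_zero905 g)

theorem dd_sq905 (g : GL (Fin 2) ℂ) :
    ((dd905 g : ℝ) : ℂ) ^ 2
      = (g : Matrix (Fin 2) (Fin 2) ℂ).det * conj ((g : Matrix (Fin 2) (Fin 2) ℂ).det) := by
  rw [Complex.mul_conj, Complex.normSq_eq_norm_sq]
  unfold dd905
  push_cast
  rfl

theorem continuous_dd905 : Continuous dd905 :=
  continuous_norm.comp (Units.continuous_val).matrix_det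

/-! ## 3. The inverse map -/

/-- `u₂ = log G₁₁ / 2`. -/
def iwU2_905 (g : GL (Fin 2) ℂ) : ℝ := Real.log (n2_905 g) / 2

/-- `u₁ = log |det g| - u₂`. -/
def iwU1_905 (g : GL (Fin 2) ℂ) : ℝ := Real.log (dd905 g) - iwU2_905 g

/-- `w = G₀₁ / |det g|`. -/
def iwW905 (g : GL (Fin 2) ℂ) : ℂ := gram905 g 0 1 / ((dd905 g : ℝ) : ℂ)

/-- The Borel part of `g`. -/
def iwB905 (g : GL (Fin 2) ℂ) : GL (Fin 2) ℂ := bor905 (iwU1_905 g, iwU2_905 g, iwW905 g)

/-- The unitary part of `g`. -/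
def iwK905 (g : GL (Fin 2) ℂ) : GL (Fin 2) ℂ := (iwB905 g)⁻¹ * g

theorem continuous_iwU2_905 : Continuous iwU2_905 :=
  (continuous_n2_905.log fun g => (n2_pos905 g).ne').div_const 2

theorem continuous_iwU1_905 : Continuous iwU1_905 :=
  (continuous_dd905.log fun g => (dd_pos905 g).ne').sub continuous_iwU2_905

theorem continuous_iwW905 : Continuous iwW905 := by
  unfold iwW905
  refine (continuous_gram905.matrix_elem 0 1).div
    (Complex.continuous_ofReal.comp continuous_dd905) fun g => ?_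
  exact Complex.ofReal_ne_zero.mpr (dd_pos905 g).ne'

theorem continuous_iwB905 : Continuous iwB905 :=
  continuous_bor905.comp
    (continuous_iwU1_905.prodMk (continuous_iwU2_905.prodMk continuous_iwW905))

theorem continuous_iwK905 : Continuous iwK905 :=
  continuous_iwB905.inv.mul continuous_id

theorem exp_iwU2_sq905 (g : GL (Fin 2) ℂ) : Real.exp (iwU2_905 g) ^ 2 = n2_905 g := by
  unfold iwU2_905
  rw [← Real.exp_nat_mul]
  have : ((2 : ℕ) : ℝ) * (Real.log (n2_905 g) / 2) = Real.log (n2_905 g) := by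
    push_cast
    ring
  rw [this, Real.exp_log (n2_pos905 g)]

theorem exp_iwU1_mul905 (g : GL (Fin 2) ℂ) :
    Real.exp (iwU1_905 g) * Real.exp (iwU2_905 g) = dd905 g := by
  unfold iwU1_905
  rw [← Real.exp_add, sub_add_cancel, Real.exp_log (dd_pos905 g)]

/-- Pure algebra: the entry `(0,0)` of `b b* = G`. -/
theorem alg00_905 (E1 E2 D w wc A N X Xc Δ : ℂ) (hE2 : E2 ≠ 0) (hs : E2 ^ 2 = N)
    (hE : E1 * E2 = D) (hD : D ^ 2 = Δ) (hw : D * w = X) (hwc : D * wc = Xc)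
    (hL : A * N - X * Xc = Δ) : E1 * E1 + E1 * w * (E1 * wc) = A := by
  have h : (E1 * E1 + E1 * w * (E1 * wc)) * E2 ^ 2 = A * E2 ^ 2 := by
    calc (E1 * E1 + E1 * w * (E1 * wc)) * E2 ^ 2
        = (E1 * E2) ^ 2 + (E1 * E2 * w) * (E1 * E2 * wc) := by ring
      _ = D ^ 2 + (D * w) * (D * wc) := by rw [hE]
      _ = Δ + X * Xc := by rw [hD, hw, hwc]
      _ = A * E2 ^ 2 := by rw [hs, ← hL]; ring
  exact mul_right_cancel₀ (pow_ne_zero 2 hE2) h

/-- The Gram matrix of a Borel element. -/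
theorem bor_mul_conjTranspose905 (p : ℝ × ℝ × ℂ) :
    ((bor905 p : GL (Fin 2) ℂ) : Matrix (Fin 2) (Fin 2) ℂ)
        * ((bor905 p : GL (Fin 2) ℂ) : Matrix (Fin 2) (Fin 2) ℂ)ᴴ
      = !![(Real.exp p.1 : ℂ) * (Real.exp p.1 : ℂ)
            + (Real.exp p.1 : ℂ) * p.2.2 * ((Real.exp p.1 : ℂ) * conj p.2.2),
          (Real.exp p.1 : ℂ) * p.2.2 * (Real.exp p.2.1 : ℂ);
          (Real.exp p.2.1 : ℂ) * ((Real.exp p.1 : ℂ) * conj p.2.2),
          (Real.exp p.2.1 : ℂ) * (Real.exp p.2.1 : ℂ)] := by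
  rw [coe_bor905]
  ext i j
  fin_cases i <;> fin_cases j <;>
    simp [-Complex.ofReal_exp, Matrix.mul_apply, Fin.sum_univ_two, Matrix.conjTranspose_apply,
      Complex.conj_ofReal]

/-- `b b* = g g*` for the Borel part `b` of `g`. -/
theorem iwB_gram905 (g : GL (Fin 2) ℂ) :
    ((iwB905 g : GL (Fin 2) ℂ) : Matrix (Fin 2) (Fin 2) ℂ)
        * ((iwB905 g : GL (Fin 2) ℂ) : Matrix (Fin 2) (Fin 2) ℂ)ᴴ = gram905 g := by
  unfold iwB905
  rw [bor_mul_conjTranspose905]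
  have hD0 : ((dd905 g : ℝ) : ℂ) ≠ 0 := Complex.ofReal_ne_zero.mpr (dd_pos905 g).ne'
  have hE2 : ((Real.exp (iwU2_905 g) : ℝ) : ℂ) ≠ 0 :=
    Complex.ofReal_ne_zero.mpr (Real.exp_ne_zero _)
  have hs : ((Real.exp (iwU2_905 g) : ℝ) : ℂ) ^ 2 = gram905 g 1 1 := by
    rw [gram_one_one905, ← exp_iwU2_sq905]
    push_cast
    rfl
  have hE : ((Real.exp (iwU1_905 g) : ℝ) : ℂ) * ((Real.exp (iwU2_905 g) : ℝ) : ℂ)
      = ((dd905 g : ℝ) : ℂ) := by
    rw [← exp_iwU1_mul905]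
    push_cast
    rfl
  have hw : ((dd905 g : ℝ) : ℂ) * iwW905 g = gram905 g 0 1 := by
    unfold iwW905
    field_simp
  have hwc : ((dd905 g : ℝ) : ℂ) * conj (iwW905 g) = gram905 g 1 0 := by
    rw [gram_one_zero905, ← hw, map_mul, Complex.conj_ofReal]
  have hL : gram905 g 0 0 * gram905 g 1 1 - gram905 g 0 1 * gram905 g 1 0
      = ((dd905 g : ℝ) : ℂ) ^ 2 := by
    rw [gram_det905, dd_sq905]
  ext i j
  fin_cases i <;> fin_cases j
  · show ((Real.exp (iwU1_905 g) : ℝ) : ℂ) * ((Real.exp (iwU1_905 g) : ℝ) : ℂ)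
        + ((Real.exp (iwU1_905 g) : ℝ) : ℂ) * iwW905 g
          * (((Real.exp (iwU1_905 g) : ℝ) : ℂ) * conj (iwW905 g)) = gram905 g 0 0
    exact alg00_905 _ _ _ _ _ _ _ _ _ _ hE2 hs hE rfl hw hwc hL
  · show ((Real.exp (iwU1_905 g) : ℝ) : ℂ) * iwW905 g * ((Real.exp (iwU2_905 g) : ℝ) : ℂ)
        = gram905 g 0 1
    rw [← hw, ← hE]
    ring
  · show ((Real.exp (iwU2_905 g) : ℝ) : ℂ)
        * (((Real.exp (iwU1_905 g) : ℝ) : ℂ) * conj (iwW905 g)) = gram905 g 1 0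
    rw [← hwc, ← hE]
    ring
  · show ((Real.exp (iwU2_905 g) : ℝ) : ℂ) * ((Real.exp (iwU2_905 g) : ℝ) : ℂ)
        = gram905 g 1 1
    rw [← hs]
    ring

/-- The unitary part is unitary. -/
theorem iwK_mem905 (g : GL (Fin 2) ℂ) : iwK905 g ∈ U2sub := by
  show ((iwK905 g : GL (Fin 2) ℂ) : Matrix (Fin 2) (Fin 2) ℂ)
      * ((iwK905 g : GL (Fin 2) ℂ) : Matrix (Fin 2) (Fin 2) ℂ)ᴴ = 1
  unfold iwK905
  rw [Matrix.GeneralLinearGroup.coe_mul, Matrix.conjTranspose_mul]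
  have hG : (g : Matrix (Fin 2) (Fin 2) ℂ) * (g : Matrix (Fin 2) (Fin 2) ℂ)ᴴ
      = ((iwB905 g : GL (Fin 2) ℂ) : Matrix (Fin 2) (Fin 2) ℂ)
        * ((iwB905 g : GL (Fin 2) ℂ) : Matrix (Fin 2) (Fin 2) ℂ)ᴴ := (iwB_gram905 g).symm
  have hinv : (((iwB905 g)⁻¹ : GL (Fin 2) ℂ) : Matrix (Fin 2) (Fin 2) ℂ)
      * ((iwB905 g : GL (Fin 2) ℂ) : Matrix (Fin 2) (Fin 2) ℂ) = 1 := by
    rw [← Matrix.GeneralLinearGroup.coe_mul, inv_mul_cancel]
    rfl
  calc (((iwB905 g)⁻¹ : GL (Fin 2) ℂ) : Matrix (Fin 2) (Fin 2) ℂ)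
        * (g : Matrix (Fin 2) (Fin 2) ℂ)
        * ((g : Matrix (Fin 2) (Fin 2) ℂ)ᴴ
          * (((iwB905 g)⁻¹ : GL (Fin 2) ℂ) : Matrix (Fin 2) (Fin 2) ℂ)ᴴ)
      = (((iwB905 g)⁻¹ : GL (Fin 2) ℂ) : Matrix (Fin 2) (Fin 2) ℂ)
        * ((g : Matrix (Fin 2) (Fin 2) ℂ) * (g : Matrix (Fin 2) (Fin 2) ℂ)ᴴ)
        * (((iwB905 g)⁻¹ : GL (Fin 2) ℂ) : Matrix (Fin 2) (Fin 2) ℂ)ᴴ := by
        simp only [Matrix.mul_assoc]
    _ = ((((iwB905 g)⁻¹ : GL (Fin 2) ℂ) : Matrix (Fin 2) (Fin 2) ℂ)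
          * ((iwB905 g : GL (Fin 2) ℂ) : Matrix (Fin 2) (Fin 2) ℂ))
        * ((((iwB905 g)⁻¹ : GL (Fin 2) ℂ) : Matrix (Fin 2) (Fin 2) ℂ)
          * ((iwB905 g : GL (Fin 2) ℂ) : Matrix (Fin 2) (Fin 2) ℂ))ᴴ := by
        rw [hG, Matrix.conjTranspose_mul]
        simp only [Matrix.mul_assoc]
    _ = 1 := by rw [hinv, Matrix.conjTranspose_one, Matrix.mul_one]

/-! ## 4. The formulas on `b k` -/

theorem norm_det_of_mem905 {k : GL (Fin 2) ℂ} (hk : k ∈ U2sub) :
    ‖(k : Matrix (Fin 2) (Fin 2) ℂ).det‖ = 1 := by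
  have h1 : (k : Matrix (Fin 2) (Fin 2) ℂ) * (k : Matrix (Fin 2) (Fin 2) ℂ)ᴴ = 1 := hk
  have h2 := congrArg Matrix.det h1
  rw [Matrix.det_mul, Matrix.det_conjTranspose, Matrix.det_one] at h2
  have h3 : Complex.normSq (k : Matrix (Fin 2) (Fin 2) ℂ).det = 1 := by
    have h4 : ((Complex.normSq (k : Matrix (Fin 2) (Fin 2) ℂ).det : ℝ) : ℂ) = 1 := by
      rw [← Complex.mul_conj]
      exact h2
    exact_mod_cast h4
  rw [Complex.normSq_eq_norm_sq] at h3
  have h5 : (0 : ℝ) ≤ ‖(k : Matrix (Fin 2) (Fin 2) ℂ).det‖ := norm_nonneg _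
  nlinarith [h3, h5]

theorem gram_bor_mul905 (p : ℝ × ℝ × ℂ) {k : GL (Fin 2) ℂ} (hk : k ∈ U2sub) :
    gram905 (bor905 p * k)
      = ((bor905 p : GL (Fin 2) ℂ) : Matrix (Fin 2) (Fin 2) ℂ)
        * ((bor905 p : GL (Fin 2) ℂ) : Matrix (Fin 2) (Fin 2) ℂ)ᴴ := by
  have h1 : (k : Matrix (Fin 2) (Fin 2) ℂ) * (k : Matrix (Fin 2) (Fin 2) ℂ)ᴴ = 1 := hk
  unfold gram905
  rw [Matrix.GeneralLinearGroup.coe_mul, Matrix.conjTranspose_mul]
  calc ((bor905 p : GL (Fin 2) ℂ) : Matrix (Fin 2) (Fin 2) ℂ) * (k : Matrix (Fin 2) (Fin 2) ℂ)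
        * ((k : Matrix (Fin 2) (Fin 2) ℂ)ᴴ
          * ((bor905 p : GL (Fin 2) ℂ) : Matrix (Fin 2) (Fin 2) ℂ)ᴴ)
      = ((bor905 p : GL (Fin 2) ℂ) : Matrix (Fin 2) (Fin 2) ℂ)
        * ((k : Matrix (Fin 2) (Fin 2) ℂ) * (k : Matrix (Fin 2) (Fin 2) ℂ)ᴴ)
        * ((bor905 p : GL (Fin 2) ℂ) : Matrix (Fin 2) (Fin 2) ℂ)ᴴ := by
        simp only [Matrix.mul_assoc]
    _ = _ := by rw [h1, Matrix.mul_one]

theorem n2_bor_mul905 (p : ℝ × ℝ × ℂ) {k : GL (Fin 2) ℂ} (hk : k ∈ U2sub) :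
    n2_905 (bor905 p * k) = Real.exp p.2.1 ^ 2 := by
  have h := gram_one_one905 (bor905 p * k)
  rw [gram_bor_mul905 p hk, bor_mul_conjTranspose905] at h
  have h2 : (((Real.exp p.2.1 : ℝ) : ℂ) * ((Real.exp p.2.1 : ℝ) : ℂ))
      = ((n2_905 (bor905 p * k) : ℝ) : ℂ) := h
  have h3 : ((Real.exp p.2.1 * Real.exp p.2.1 : ℝ) : ℂ) = ((n2_905 (bor905 p * k) : ℝ) : ℂ) := by
    rw [← h2]
    push_cast
    rfl
  have h4 := Complex.ofReal_injective h3
  rw [← h4]
  ring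

theorem dd_bor_mul905 (p : ℝ × ℝ × ℂ) {k : GL (Fin 2) ℂ} (hk : k ∈ U2sub) :
    dd905 (bor905 p * k) = Real.exp p.1 * Real.exp p.2.1 := by
  unfold dd905
  rw [Matrix.GeneralLinearGroup.coe_mul, Matrix.det_mul, norm_mul, norm_det_of_mem905 hk,
    mul_one, coe_bor905, Matrix.det_fin_two_of]
  have : ((Real.exp p.1 : ℝ) : ℂ) * ((Real.exp p.2.1 : ℝ) : ℂ)
      - ((Real.exp p.1 : ℝ) : ℂ) * p.2.2 * 0
      = ((Real.exp p.1 * Real.exp p.2.1 : ℝ) : ℂ) := by
    push_cast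
    ring
  rw [this, Complex.norm_real, Real.norm_eq_abs,
    abs_of_pos (mul_pos (Real.exp_pos _) (Real.exp_pos _))]

theorem iwU2_bor_mul905 (p : ℝ × ℝ × ℂ) {k : GL (Fin 2) ℂ} (hk : k ∈ U2sub) :
    iwU2_905 (bor905 p * k) = p.2.1 := by
  unfold iwU2_905
  rw [n2_bor_mul905 p hk, Real.log_pow, Real.log_exp]
  push_cast
  ring

theorem iwU1_bor_mul905 (p : ℝ × ℝ × ℂ) {k : GL (Fin 2) ℂ} (hk : k ∈ U2sub) :
    iwU1_905 (bor905 p * k) = p.1 := by
  unfold iwU1_905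
  rw [iwU2_bor_mul905 p hk, dd_bor_mul905 p hk, ← Real.exp_add, Real.log_exp]
  ring

theorem iwW_bor_mul905 (p : ℝ × ℝ × ℂ) {k : GL (Fin 2) ℂ} (hk : k ∈ U2sub) :
    iwW905 (bor905 p * k) = p.2.2 := by
  unfold iwW905
  rw [dd_bor_mul905 p hk, gram_bor_mul905 p hk, bor_mul_conjTranspose905]
  show ((Real.exp p.1 : ℝ) : ℂ) * p.2.2 * ((Real.exp p.2.1 : ℝ) : ℂ)
      / ((Real.exp p.1 * Real.exp p.2.1 : ℝ) : ℂ) = p.2.2
  have h1 : ((Real.exp p.1 : ℝ) : ℂ) ≠ 0 := Complex.ofReal_ne_zero.mpr (Real.exp_ne_zero _)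
  have h2 : ((Real.exp p.2.1 : ℝ) : ℂ) ≠ 0 := Complex.ofReal_ne_zero.mpr (Real.exp_ne_zero _)
  push_cast
  field_simp

theorem iwB_bor_mul905 (p : ℝ × ℝ × ℂ) {k : GL (Fin 2) ℂ} (hk : k ∈ U2sub) :
    iwB905 (bor905 p * k) = bor905 p := by
  unfold iwB905
  rw [iwU1_bor_mul905 p hk, iwU2_bor_mul905 p hk, iwW_bor_mul905 p hk]

theorem iwK_bor_mul905 (p : ℝ × ℝ × ℂ) {k : GL (Fin 2) ℂ} (hk : k ∈ U2sub) :
    iwK905 (bor905 p * k) = k := by
  unfold iwK905
  rw [iwB_bor_mul905 p hk, inv_mul_cancel_left]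

/-! ## 5. The homeomorphism and the leaf -/

theorem jC_eq905 (p : ℝ × ℝ × ℂ × U2sub) :
    jC p = bor905 (p.1, p.2.1, p.2.2.1) * (p.2.2.2 : GL (Fin 2) ℂ) := rfl

/-- The Iwasawa homeomorphism `ℝ × ℝ × ℂ × U(2) ≃ GL₂(ℂ)`. -/
def iwaHomeo905 : (ℝ × ℝ × ℂ × U2sub) ≃ₜ GL (Fin 2) ℂ where
  toFun := jC
  invFun g := (iwU1_905 g, iwU2_905 g, iwW905 g, ⟨iwK905 g, iwK_mem905 g⟩)
  left_inv := by
    rintro ⟨u₁, u₂, w, k, hk⟩
    rw [jC_eq905]
    refine Prod.ext ?_ (Prod.ext ?_ (Prod.ext ?_ (Subtype.ext ?_)))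
    · exact iwU1_bor_mul905 (u₁, u₂, w) hk
    · exact iwU2_bor_mul905 (u₁, u₂, w) hk
    · exact iwW_bor_mul905 (u₁, u₂, w) hk
    · exact iwK_bor_mul905 (u₁, u₂, w) hk
  right_inv := by
    intro g
    rw [jC_eq905]
    show bor905 (iwU1_905 g, iwU2_905 g, iwW905 g) * ((iwB905 g)⁻¹ * g) = g
    exact mul_inv_cancel_left (iwB905 g) g
  continuous_toFun := by
    have h : Continuous fun p : ℝ × ℝ × ℂ × U2sub =>
        bor905 (p.1, p.2.1, p.2.2.1) * (p.2.2.2 : GL (Fin 2) ℂ) := by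
      refine (continuous_bor905.comp ?_).mul ?_
      · exact continuous_fst.prodMk ((continuous_fst.comp continuous_snd).prodMk
          (continuous_fst.comp (continuous_snd.comp continuous_snd)))
      · exact continuous_subtype_val.comp
          (continuous_snd.comp (continuous_snd.comp continuous_snd))
    exact h
  continuous_invFun :=
    continuous_iwU1_905.prodMk (continuous_iwU2_905.prodMk
      (continuous_iwW905.prodMk (continuous_iwK905.subtype_mk iwK_mem905)))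

/-- **LEAF T6.23.04 `IwaHomeoCC`** (L2'): the Iwasawa map of `GL₂(ℂ)` is a homeomorphism. -/
theorem iwaHomeoCC905 : IwaHomeoCC :=
  ⟨iwaHomeo905.isOpenEmbedding, iwaHomeo905.surjective⟩

end Fermat.Agent.LT.T6.H905

end
end
-- ===== PACK-END LT/T6/H905/IwaHomeoC.lean

-- ===== PACK-BEGIN LT/T6/H277/OrbEllSpec.lean
section





/-!
# Row LT, tower T6, leaf T6.13.2 (`OrbEllUnrC`) -- sub-spec (helper277), OFF-MAIN

Definitions + frozen Props of the sub-leaves of T6.13.2 (helper60 `T6/H60/EllUnrSpec.lean`,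
sha256 18915887949ad7fb, on `T6/Spec.lean` 89f8f8b8).  Nothing is assumed; the assembly
`orbEllUnr_of_leaves` is in `T6/H277/OrbEllTop.lean`.

`γ ∈ GL₂(k)` regular, without eigenvalue in `k`, without centraliser element of determinant a
uniformiser.  NORMAL FORM: `γ` is conjugate to `y = ϖ^j u`, `u = a + ϖ^r w`, `a ∈ 𝒪`,
`u, w ∈ GL₂(𝒪)`, and the characteristic polynomial of `w` has NO ROOT MODULO `ϖ`
(`χ_w(b) ∈ 𝒪ˣ` for every `b ∈ 𝒪`: `𝒪[w]` is the maximal order of the unramified quadratic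
extension, `𝒪[u]` has conductor `ϖ^r`).

Sub-leaves:
* `PolyNFC`    (T6.13.2.1) the normal form on the level of `(tr γ, det γ)` (Newton + Hensel);
* `DiscUnitC`  (T6.13.2.2) no root modulo `ϖ` ⇒ the discriminant is a unit (finite residue field);
* `CompanionC` (T6.13.2.3) a non-scalar `2 × 2` matrix is conjugate to its companion matrix;
* `FixBallC`   (T6.13.2.4) `x⁻¹ y x ∈ k^× GL₂(𝒪)` ⇔ `x` has Cartan distance `≤ r` from `1`;
* `TorusC`     (T6.13.2.5) the centraliser of `y` is `ϖ^ℤ × T^c`, `T^c` is a group;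
* `BTTreeC`    (T6.13.2.6) INTERFACE to the tree of `GL₂(k)` (helper340 / helper338);
* `BallCountC` (T6.13.2.7) the ball of radius `r` of a `(q+1)`-regular tree has `ballCard q r`
  elements.
-/

set_option autoImplicit false

open scoped Matrix

noncomputable section

namespace Fermat.Agent.LT.T6.H277

open Fermat.Agent.LT.T6 Fermat.Agent.LT.T6.H60 Fermat.Agent.LT.H338

/-- The quadratic polynomial `b² - t b + n` (the characteristic polynomial of a `2 × 2` matrix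
with trace `t` and determinant `n`). -/
def chi277 {k : Type} [Field k] (t n b : k) : k := b ^ 2 - t * b + n

section Defs

variable {k : Type} [Field k] [Valued k Γ₀]

/-- The Cartan distance `a - b` of `g` (`cartan g = (a, b)`): the distance of the vertices
`[1]` and `[g]` of the tree. -/
def gd277 (g : GL (Fin 2) k) : ℤ := (cartan g).1 - (cartan g).2

/-- **The normal form.**  `y = ϖ^j u`, `u = a + ϖ^r w`, `a ∈ 𝒪`, `u, w ∈ GL₂(𝒪)`, the
characteristic polynomial of `w` has no root modulo `ϖ`. -/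
structure IsNF277 (ϖ : k) (j : ℤ) (r : ℕ) (a : k) (w u y : GL (Fin 2) k) : Prop where
  unif : Valued.v ϖ = WithZero.exp (-1 : ℤ)
  a_int : Valued.v a ≤ 1
  w_int : InU 0 w
  u_int : InU 0 u
  w_irr : ∀ b : k, Valued.v b ≤ 1 →
    Valued.v (chi277 (w : Matrix (Fin 2) (Fin 2) k).trace (w : Matrix (Fin 2) (Fin 2) k).det b) = 1
  u_eq : (u : Matrix (Fin 2) (Fin 2) k)
    = a • (1 : Matrix (Fin 2) (Fin 2) k) + ϖ ^ r • (w : Matrix (Fin 2) (Fin 2) k)
  y_eq : (y : Matrix (Fin 2) (Fin 2) k) = ϖ ^ j • (u : Matrix (Fin 2) (Fin 2) k)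

end Defs

/-- **T6.13.2.1 (PolyNF), Newton + Hensel.**  `X² - tX + n` without root in `k` whose norm form
`x² + t x y + n y²` never has the valuation of a uniformiser: then `t = ϖ^j (2a + ϖ^r t')`,
`n = ϖ^{2j} (a² + a ϖ^r t' + ϖ^{2r} n')` with `a, t' ∈ 𝒪`, `n' ∈ 𝒪ˣ`,
`a² + a ϖ^r t' + ϖ^{2r} n' ∈ 𝒪ˣ` and `X² - t'X + n'` without root modulo `ϖ`. -/
def PolyNFC : Prop :=
  ∀ (k : Type) [Field k] [Valued k Γ₀] (q : ℕ), IsLocalField k q →
    ∀ t n : k, n ≠ 0 → (∀ x : k, x ^ 2 - t * x + n ≠ 0) →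
      (∀ x y : k, Valued.v (x ^ 2 + t * x * y + n * y ^ 2) ≠ WithZero.exp (-1 : ℤ)) →
      ∃ (ϖ : k) (j : ℤ) (r : ℕ) (a t' n' : k),
        Valued.v ϖ = WithZero.exp (-1 : ℤ) ∧ Valued.v a ≤ 1 ∧ Valued.v t' ≤ 1 ∧
        Valued.v n' = 1 ∧ (∀ b : k, Valued.v b ≤ 1 → Valued.v (chi277 t' n' b) = 1) ∧
        Valued.v (a ^ 2 + a * ϖ ^ r * t' + ϖ ^ (2 * r) * n') = 1 ∧
        t = ϖ ^ j * (2 * a + ϖ ^ r * t') ∧
        n = ϖ ^ (2 * j) * (a ^ 2 + a * ϖ ^ r * t' + ϖ ^ (2 * r) * n')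

/-- **T6.13.2.2 (DiscUnit).**  An integral quadratic polynomial without root modulo `ϖ` has a
unit discriminant (residue characteristic `≠ 2`: evaluate at `t/2`; residue characteristic `2`:
squaring is bijective on the finite residue field, so `t` is a unit). -/
def DiscUnitC : Prop :=
  ∀ (k : Type) [Field k] [Valued k Γ₀] (q : ℕ), IsLocalField k q →
    ∀ t n : k, Valued.v t ≤ 1 → Valued.v n ≤ 1 →
      (∀ b : k, Valued.v b ≤ 1 → Valued.v (chi277 t n b) = 1) →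
      Valued.v (t ^ 2 - 4 * n : k) = (1 : Γ₀)

/-- **T6.13.2.3 (Companion), linear algebra.**  A `2 × 2` matrix over a field which is not a
scalar is conjugate to its companion matrix. -/
def CompanionC : Prop :=
  ∀ (k : Type) [Field k] (M : Matrix (Fin 2) (Fin 2) k),
    (∀ c : k, M ≠ c • (1 : Matrix (Fin 2) (Fin 2) k)) →
    ∃ x : GL (Fin 2) k,
      ((x⁻¹ : GL (Fin 2) k) : Matrix (Fin 2) (Fin 2) k) * M * (x : Matrix (Fin 2) (Fin 2) k)
        = !![0, - M.det; 1, M.trace]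

/-- **T6.13.2.4 (FixBall).**  For `y` in normal form the vertex `[x]` is fixed by `y` iff it has
distance `≤ r` from `[1]`. -/
def FixBallC : Prop :=
  ∀ (k : Type) [Field k] [Valued k Γ₀] (ϖ : k) (j : ℤ) (r : ℕ) (a : k) (w u y : GL (Fin 2) k),
    IsNF277 ϖ j r a w u y →
    ∀ x : GL (Fin 2) k, gd277 (x⁻¹ * y * x) = 0 ↔ gd277 x ≤ (r : ℤ)

/-- **T6.13.2.5 (Torus).**  For `y` in normal form: every element of the centraliser of `y` is
`ϖ^n κ` with `κ` in the maximal compact subgroup `T^c` (integral trace, unit determinant), and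
`T^c` is closed under multiplication. -/
def TorusC : Prop :=
  ∀ (k : Type) [Field k] [Valued k Γ₀] (ϖ : k) (j : ℤ) (r : ℕ) (a : k) (w u y : GL (Fin 2) k),
    IsNF277 ϖ j r a w u y →
    (∀ t : GL (Fin 2) k, t * y = y * t →
      ∃ (n : ℤ) (κ : GL (Fin 2) k), InTwCentC (RingEquiv.refl k) y κ ∧
        (t : Matrix (Fin 2) (Fin 2) k) = ϖ ^ n • (κ : Matrix (Fin 2) (Fin 2) k)) ∧
    (∀ t t' : GL (Fin 2) k, InTwCentC (RingEquiv.refl k) y t → InTwCentC (RingEquiv.refl k) y t' →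
      InTwCentC (RingEquiv.refl k) y (t * t'))

/-- **T6.13.2.6 (BTTree), INTERFACE.**  The tree of `GL₂(k)`: a set `V` with a surjection
`π : GL₂(k) → V` whose fibres are the cosets `g k^× GL₂(𝒪)`, and a tree distance `d` on `V`,
`(q+1)`-regular, with `d (π g) (π h) = gd277 (g⁻¹ h)`. -/
def BTTreeC : Prop :=
  ∀ (k : Type) [Field k] [Valued k Γ₀] (q : ℕ), IsLocalField k q →
    ∃ (V : Type) (π : GL (Fin 2) k → V) (d : V → V → ℕ),
      Function.Surjective π ∧
      (∀ g h : GL (Fin 2) k, π g = π h ↔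
        ∃ (z : k) (u : GL (Fin 2) k), InU 0 u ∧
          (h : Matrix (Fin 2) (Fin 2) k) = z • ((g * u : GL (Fin 2) k) : Matrix (Fin 2) (Fin 2) k)) ∧
      (∀ g h : GL (Fin 2) k, (d (π g) (π h) : ℤ) = gd277 (g⁻¹ * h)) ∧
      IsTreeDist338 d ∧ ∀ v : V, {w | d v w = 1}.ncard = q + 1

/-- **T6.13.2.7 (BallCount), Mathlib + helper338 only.**  The ball of radius `r` of a
`(q+1)`-regular tree has `ballCard q r` elements. -/
def BallCountC : Prop :=
  ∀ (V : Type) (d : V → V → ℕ) (q : ℕ), IsTreeDist338 d →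
    (∀ v : V, {w | d v w = 1}.ncard = q + 1) →
    ∀ (o : V) (r : ℕ), {x | d o x ≤ r}.ncard = ballCard q r

end Fermat.Agent.LT.T6.H277

end
end
-- ===== PACK-END LT/T6/H277/OrbEllSpec.lean

-- ===== PACK-BEGIN LT/T6/H288/IndexSpec.lean
section


/-!
# Row LT, tower T6, leaf T6.12g `IndexC` (the Jacobian): SUB-SPEC (helper288)

OFF-MAIN.  Definitions + frozen sub-leaf Props; the tops are in `IndexTop.lean`.
Setting: `k'/k` unramified cyclic of degree `l` with generator `s` (`IsLocalExt k k' l 1 i s`),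
residue fields `F ⊂ F'` of `q` and `Q = q ^ l` elements, `ϖ` a uniformiser of `k` (and of `k'`).

Route for `[𝒪' : (s - c)𝒪'] = [𝒪 : (1 - N c)𝒪]`, `c ∈ 𝒪'^×`, `r = ord(1 - N c)`:
* `{x : s x - c x ∈ 𝒪'} = ϖ^{-r} Z`, `Z = {y ∈ 𝒪' : s y ≡ c y mod ϖ^r}` (norm argument);
* Hilbert 90 modulo `ϖ^r`: there is a unit `β` with `s β ≡ c β mod ϖ^r` (`Hilbert90ModC`), so
  `Z = β Z₁`, `Z₁ = {y ∈ 𝒪' : s y ≡ y mod ϖ^r}`;
* `Z₁ = i(𝒪) + ϖ^r 𝒪'` (`FixedModC`), so `[Z : ϖ^r 𝒪'] = [𝒪 : ϖ^r 𝒪] = q^r` (`BallIndexC`).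
Both `Hilbert90ModC` and `FixedModC` rest on RESIDUAL FAITHFULNESS (`ResFaithfulC`): `s^m` is not
the identity on the residue field for `0 < m < l` (if `τ` preserves `v`, fixes `ϖ` and is trivial
on `F'`, then `D = (τ - 1)/ϖ^r` induces a derivation of the finite field `F'`, which is zero).
-/

set_option autoImplicit false

noncomputable section

namespace Fermat.Agent.LT.T6.H288

open Fermat.Agent.LT.T6

/-- The ball `{x : v x ≤ exp n}` (`= ϖ^{-n} 𝒪`) as an additive subgroup. -/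
def ball (k : Type) [Field k] [Valued k Γ₀] (n : ℤ) : AddSubgroup k where
  carrier := {x | Valued.v x ≤ WithZero.exp n}
  zero_mem' := by simp
  add_mem' := fun {x y} hx hy => by
    change Valued.v (x + y) ≤ WithZero.exp n
    exact le_trans (Valuation.map_add _ x y) (max_le hx hy)
  neg_mem' := fun {x} hx => by
    change Valued.v (-x) ≤ WithZero.exp n
    rw [Valuation.map_neg]
    exact hx

/-- **T6.12g.1 (cardinality of `ϖ^{-n}𝒪 / ϖ^{-n'}𝒪`).** -/
def BallIndexC : Prop :=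
  ∀ (k : Type) [Field k] [Valued k Γ₀] (q : ℕ), IsLocalField k q →
    ∀ n n' : ℤ, n' ≤ n → (ball k n').relIndex (ball k n) = q ^ (n - n').toNat

/-- **T6.12g.2 (counting with a system of representatives).**  For an additive subgroup
`A ⊇ 𝒪` the number of representatives in `A` is the index `[A : 𝒪]`. -/
def ReprCardC : Prop :=
  ∀ (k : Type) [Field k] [Valued k Γ₀] (B : Set k), IsReprSet B →
    ∀ A : AddSubgroup k, ball k 0 ≤ A → (ball k 0).relIndex A ≠ 0 →
      {b : k | b ∈ B ∧ b ∈ A}.Finite ∧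
        Set.ncard {b : k | b ∈ B ∧ b ∈ A} = (ball k 0).relIndex A

/-- **T6.12g.3 (residual faithfulness).**  For `0 < m < l` the automorphism `s^m` is not the
identity on the residue field of `k'`. -/
def ResFaithfulC : Prop :=
  ∀ (k k' : Type) [Field k] [Field k'] [Valued k Γ₀] [Valued k' Γ₀] (q l : ℕ)
    (i : k →+* k') (s : k' ≃+* k'),
    IsLocalField k q → IsLocalField k' (q ^ l) → IsLocalExt k k' l 1 i s →
    ∀ m : ℕ, 0 < m → m < l → ∃ x : k', Valued.v x ≤ 1 ∧ Valued.v ((s ^ m) x - x) = 1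

/-- **T6.12g.4 (the fixed field of `s` on the residue field is the residue field of `k`).**
(`ResFaithfulC` + Galois theory of the finite field `F'`, `#F' = (#F)^l`.) -/
def ResFixedC : Prop :=
  ∀ (k k' : Type) [Field k] [Field k'] [Valued k Γ₀] [Valued k' Γ₀] (q l : ℕ)
    (i : k →+* k') (s : k' ≃+* k'),
    IsLocalField k q → IsLocalField k' (q ^ l) → IsLocalExt k k' l 1 i s →
    ∀ x : k', Valued.v x ≤ 1 → Valued.v (s x - x) < 1 →
      ∃ a : k, Valued.v a ≤ 1 ∧ Valued.v (x - i a) < 1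

/-- **T6.12g.5 (fixed points modulo `ϖ^r`).**  `{y ∈ 𝒪' : s y ≡ y mod ϖ^r} = i(𝒪) + ϖ^r 𝒪'`.
(Induction on `r` from `ResFixedC`.) -/
def FixedModC : Prop :=
  ∀ (k k' : Type) [Field k] [Field k'] [Valued k Γ₀] [Valued k' Γ₀] (q l : ℕ)
    (i : k →+* k') (s : k' ≃+* k'),
    IsLocalField k q → IsLocalField k' (q ^ l) → IsLocalExt k k' l 1 i s →
    ∀ (r : ℕ) (x : k'), Valued.v x ≤ 1 → Valued.v (s x - x) ≤ WithZero.exp (-(r : ℤ)) →
      ∃ a : k, Valued.v a ≤ 1 ∧ Valued.v (x - i a) ≤ WithZero.exp (-(r : ℤ))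

/-- **T6.12g.6 (Hilbert 90 modulo `ϖ^r`).**  A unit `c` with `N c ≡ 1 mod ϖ^r` is
`≡ s(β)/β mod ϖ^r` for a unit `β`.  (`β = ∑_{j<l} a_j s^j(θ)`, `a_0 = 1`,
`a_j = (c · s(c) ⋯ s^{j-1}(c))⁻¹`; then `s β = c β + c (N(c)⁻¹ - 1) θ`; `β` is a unit for a
suitable `θ` by Dedekind's independence of `1, s̄, …, s̄^{l-1}` on `F'`, `ResFaithfulC`.) -/
def Hilbert90ModC : Prop :=
  ∀ (k k' : Type) [Field k] [Field k'] [Valued k Γ₀] [Valued k' Γ₀] (q l : ℕ)
    (i : k →+* k') (s : k' ≃+* k'),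
    IsLocalField k q → IsLocalField k' (q ^ l) → IsLocalExt k k' l 1 i s →
    ∀ (c : k') (r : ℕ), Valued.v c = 1 →
      Valued.v (fNorm s l c - 1) ≤ WithZero.exp (-(r : ℤ)) →
      ∃ β : k', Valued.v β = 1 ∧ Valued.v (s β - c * β) ≤ WithZero.exp (-(r : ℤ))

/-- The additive subgroup `{x : v(s x - c x) ≤ exp n}` of `k'`. -/
def twistBall {k' : Type} [Field k'] [Valued k' Γ₀] (s : k' ≃+* k') (c : k') (n : ℤ) :
    AddSubgroup k' where
  carrier := {x | Valued.v (s x - c * x) ≤ WithZero.exp n}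
  zero_mem' := by simp
  add_mem' := fun {x y} hx hy => by
    have : s (x + y) - c * (x + y) = (s x - c * x) + (s y - c * y) := by
      rw [map_add]; ring
    change Valued.v (s (x + y) - c * (x + y)) ≤ WithZero.exp n
    rw [this]
    exact le_trans (Valuation.map_add _ _ _) (max_le hx hy)
  neg_mem' := fun {x} hx => by
    have : s (-x) - c * (-x) = -(s x - c * x) := by
      rw [map_neg]; ring
    change Valued.v (s (-x) - c * (-x)) ≤ WithZero.exp n
    rw [this, Valuation.map_neg]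
    exact hx

/-- **T6.12g.7 (the core).**  `[{x : s x - c x ∈ 𝒪'} : 𝒪'] = q ^ ord(1 - ν)` for a unit `c` of
`𝒪'` with `N c = i ν`, `ν ≠ 1`. -/
def TwistKerC : Prop :=
  ∀ (k k' : Type) [Field k] [Field k'] [Valued k Γ₀] [Valued k' Γ₀] (q l : ℕ)
    (i : k →+* k') (s : k' ≃+* k'),
    IsLocalField k q → IsLocalField k' (q ^ l) → IsLocalExt k k' l 1 i s →
    ∀ (c : k') (ν : k), Valued.v c = 1 → fNorm s l c = i ν → ν ≠ 1 →
      (ball k' 0).relIndex (twistBall s c 0) = q ^ (ordv (1 - ν)).toNat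

end Fermat.Agent.LT.T6.H288

end

end
-- ===== PACK-END LT/T6/H288/IndexSpec.lean

-- ===== PACK-BEGIN LT/T7/H750/OrbSection.lean
section



/-!
# Row LT, tower T7, station C2.7 (`CutIntC305`), ASSET (helper750), OFF-MAIN, MATHLIB ONLY:
# the orbit of a regular element of `GL₂(k)` is closed, in the form of a COMPACT SECTION

`k` a Hausdorff topological field, `γ ∈ GL₂(k)` regular (`tr² - 4 det ≠ 0`), `T` its centraliser.

* `rowMat_mul750`: for a row vector `w` the matrix `R(w, A)` with rows `w`, `w A` satisfies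
  `R(w, A) A = N R(w, A)`, `N` the companion matrix of `(tr A, det A)` (Cayley-Hamilton).
* `exists_det_rowMat_ne750`: if `A` is regular, one of `w = (1,0), (0,1), (1,1)` has
  `det R(w, A) ≠ 0`.
* `exists_compact_section750`: for every compact `C ⊆ GL₂(k)` there is a compact `Ω₀` with
  `{y : y⁻¹ γ y ∈ C} ⊆ T Ω₀` (`ω = R(e, γ)⁻¹ R(w, c)` conjugates `c = y⁻¹ γ y` to `γ`; finite open
  cover of the compact set of the `c` by the sets `det R(w, c) ≠ 0`).
* `integrable_orbit_cut750`: for `F` continuous of compact support, every Haar measure `μ` of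
  `GL₂(k)` (locally compact, second countable), every Haar measure `μT` of the centraliser and
  every cut-off function `β` (continuous, `≥ 0`, `∫_T β(t x) dμT(t) = 1`):
  `y ↦ F(y⁻¹ γ y z) β(y)` is `μ`-integrable (`z` any element).
-/

set_option autoImplicit false
set_option linter.unusedSectionVars false
set_option linter.style.haveILetI false

open MeasureTheory MeasureTheory.Measure Topology Set
open scoped ENNReal Pointwise

noncomputable section

namespace Fermat.Agent.LT.T7.H750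

/-! ## 1. Algebra -/

section Algebra

variable {R : Type*} [CommRing R]

/-- The matrix with rows `w`, `w A`. -/
def rowMat750 (w : Fin 2 → R) (A : Matrix (Fin 2) (Fin 2) R) : Matrix (Fin 2) (Fin 2) R :=
  !![w 0, w 1; w 0 * A 0 0 + w 1 * A 1 0, w 0 * A 0 1 + w 1 * A 1 1]

/-- The companion matrix of trace `τ` and determinant `Δ`. -/
def comp750 (τ Δ : R) : Matrix (Fin 2) (Fin 2) R := !![0, 1; -Δ, τ]

/-- The three test vectors `(1,0)`, `(0,1)`, `(1,1)`. -/
def wv750 (i : Fin 3) : Fin 2 → R := ![![1, 0], ![0, 1], ![1, 1]] i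

theorem rowMat_mul750 (w : Fin 2 → R) (A : Matrix (Fin 2) (Fin 2) R) :
    rowMat750 w A * A = comp750 A.trace A.det * rowMat750 w A := by
  ext i j
  fin_cases i <;> fin_cases j <;>
    simp [rowMat750, comp750, Matrix.mul_apply, Fin.sum_univ_two, Matrix.trace_fin_two,
      Matrix.det_fin_two] <;> ring

theorem det_rowMat750 (w : Fin 2 → R) (A : Matrix (Fin 2) (Fin 2) R) :
    (rowMat750 w A).det
      = w 0 * (w 0 * A 0 1 + w 1 * A 1 1) - w 1 * (w 0 * A 0 0 + w 1 * A 1 0) := by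
  simp [rowMat750, Matrix.det_fin_two]

theorem exists_det_rowMat_ne750 (A : Matrix (Fin 2) (Fin 2) R)
    (h : A.trace ^ 2 - 4 * A.det ≠ 0) : ∃ i : Fin 3, (rowMat750 (wv750 i) A).det ≠ 0 := by
  by_contra hcon
  push Not at hcon
  have h0 := hcon 0
  have h1 := hcon 1
  have h2 := hcon 2
  rw [det_rowMat750] at h0 h1 h2
  simp [wv750] at h0 h1 h2
  apply h
  rw [Matrix.trace_fin_two, Matrix.det_fin_two]
  have e1 : A 0 1 = 0 := h0
  have e2 : A 1 0 = 0 := h1
  have e3 : A 1 1 = A 0 0 := by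
    have := h2
    rw [e1, e2] at this
    linear_combination this
  rw [e1, e2, e3]
  ring

end Algebra

/-! ## 2. The compact section -/

section GL2

variable {k : Type*} [Field k] [TopologicalSpace k] [IsTopologicalDivisionRing k] [T2Space k]

theorem continuous_rowMat750 (i : Fin 3) :
    Continuous fun c : GL (Fin 2) k =>
      rowMat750 (wv750 i) (c : Matrix (Fin 2) (Fin 2) k) := by
  have hv : Continuous fun c : GL (Fin 2) k => (c : Matrix (Fin 2) (Fin 2) k) :=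
    Units.continuous_val
  have he : ∀ a b : Fin 2, Continuous fun c : GL (Fin 2) k =>
      (c : Matrix (Fin 2) (Fin 2) k) a b := fun a b => hv.matrix_elem a b
  refine continuous_matrix fun a b => ?_
  fin_cases a <;> fin_cases b <;> simp only [rowMat750] <;>
    simp <;> fun_prop

theorem continuous_det_rowMat750 (i : Fin 3) :
    Continuous fun c : GL (Fin 2) k =>
      (rowMat750 (wv750 i) (c : Matrix (Fin 2) (Fin 2) k)).det :=
  (continuous_rowMat750 i).matrix_det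

/-- Conjugation preserves trace and determinant. -/
theorem trace_det_conj750 (γ y : GL (Fin 2) k) :
    ((y⁻¹ * γ * y : GL (Fin 2) k) : Matrix (Fin 2) (Fin 2) k).trace
        = (γ : Matrix (Fin 2) (Fin 2) k).trace ∧
      ((y⁻¹ * γ * y : GL (Fin 2) k) : Matrix (Fin 2) (Fin 2) k).det
        = (γ : Matrix (Fin 2) (Fin 2) k).det := by
  have hy : (y : Matrix (Fin 2) (Fin 2) k) * ((y⁻¹ : GL (Fin 2) k) : Matrix (Fin 2) (Fin 2) k)
      = 1 := by
    rw [← Units.val_mul, mul_inv_cancel, Units.val_one]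
  constructor
  · rw [Units.val_mul, Units.val_mul, Matrix.trace_mul_comm, ← Matrix.mul_assoc, hy,
      Matrix.one_mul]
  · rw [Units.val_mul, Units.val_mul, Matrix.det_mul, Matrix.det_mul]
    have h1 : ((y⁻¹ : GL (Fin 2) k) : Matrix (Fin 2) (Fin 2) k).det
        * (y : Matrix (Fin 2) (Fin 2) k).det = 1 := by
      rw [mul_comm, ← Matrix.det_mul, hy, Matrix.det_one]
    calc ((y⁻¹ : GL (Fin 2) k) : Matrix (Fin 2) (Fin 2) k).det
          * (γ : Matrix (Fin 2) (Fin 2) k).det * (y : Matrix (Fin 2) (Fin 2) k).det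
        = (γ : Matrix (Fin 2) (Fin 2) k).det
          * (((y⁻¹ : GL (Fin 2) k) : Matrix (Fin 2) (Fin 2) k).det
            * (y : Matrix (Fin 2) (Fin 2) k).det) := by ring
      _ = (γ : Matrix (Fin 2) (Fin 2) k).det := by rw [h1, mul_one]

/-- The conjugating element: `γ ω = ω c` for `ω = R(e, γ)⁻¹ R(w, c)`. -/
theorem conj_section750 (γ c Bu Mu : GL (Fin 2) k) (e w : Fin 2 → k)
    (hB : (Bu : Matrix (Fin 2) (Fin 2) k) = rowMat750 e (γ : Matrix (Fin 2) (Fin 2) k))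
    (hM : (Mu : Matrix (Fin 2) (Fin 2) k) = rowMat750 w (c : Matrix (Fin 2) (Fin 2) k))
    (htr : (c : Matrix (Fin 2) (Fin 2) k).trace = (γ : Matrix (Fin 2) (Fin 2) k).trace)
    (hdet : (c : Matrix (Fin 2) (Fin 2) k).det = (γ : Matrix (Fin 2) (Fin 2) k).det) :
    γ * (Bu⁻¹ * Mu) = (Bu⁻¹ * Mu) * c := by
  have h1 : Bu * γ * Bu⁻¹ * Mu = Mu * c := by
    apply Units.ext
    have hBi : (Bu : Matrix (Fin 2) (Fin 2) k)
        * ((Bu⁻¹ : GL (Fin 2) k) : Matrix (Fin 2) (Fin 2) k) = 1 := by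
      rw [← Units.val_mul, mul_inv_cancel, Units.val_one]
    have e1 : (Bu : Matrix (Fin 2) (Fin 2) k) * (γ : Matrix (Fin 2) (Fin 2) k)
        = comp750 (γ : Matrix (Fin 2) (Fin 2) k).trace (γ : Matrix (Fin 2) (Fin 2) k).det
          * (Bu : Matrix (Fin 2) (Fin 2) k) := by
      rw [hB]; exact rowMat_mul750 e _
    have e2 : (Mu : Matrix (Fin 2) (Fin 2) k) * (c : Matrix (Fin 2) (Fin 2) k)
        = comp750 (γ : Matrix (Fin 2) (Fin 2) k).trace (γ : Matrix (Fin 2) (Fin 2) k).det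
          * (Mu : Matrix (Fin 2) (Fin 2) k) := by
      rw [hM, ← htr, ← hdet]; exact rowMat_mul750 w _
    rw [Units.val_mul, Units.val_mul, Units.val_mul, Units.val_mul, e1, e2,
      Matrix.mul_assoc (comp750 _ _), hBi, Matrix.mul_one]
  calc γ * (Bu⁻¹ * Mu) = Bu⁻¹ * (Bu * γ * Bu⁻¹ * Mu) := by group
    _ = Bu⁻¹ * (Mu * c) := by rw [h1]
    _ = (Bu⁻¹ * Mu) * c := by group

/-- **THE COMPACT SECTION.**  For `γ` regular and `C` compact there is a compact `Ω₀` such that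
every `y` with `y⁻¹ γ y ∈ C` is `t ω` with `t` in the centraliser of `γ` and `ω ∈ Ω₀`. -/
theorem exists_compact_section750 (γ : GL (Fin 2) k)
    (hreg : (γ : Matrix (Fin 2) (Fin 2) k).trace ^ 2
      - 4 * (γ : Matrix (Fin 2) (Fin 2) k).det ≠ 0)
    (C : Set (GL (Fin 2) k)) (hC : IsCompact C) :
    ∃ Ω₀ : Set (GL (Fin 2) k), IsCompact Ω₀ ∧
      ∀ y : GL (Fin 2) k, y⁻¹ * γ * y ∈ C →
        ∃ t ω : GL (Fin 2) k, t⁻¹ * γ * t = γ ∧ ω ∈ Ω₀ ∧ y = t * ω := by
  classical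
  obtain ⟨i₀, hB⟩ := exists_det_rowMat_ne750 (γ : Matrix (Fin 2) (Fin 2) k) hreg
  set Bu : GL (Fin 2) k := Matrix.GeneralLinearGroup.mkOfDetNeZero _ hB with hBu
  have hv : Continuous fun c : GL (Fin 2) k => (c : Matrix (Fin 2) (Fin 2) k) :=
    Units.continuous_val
  -- the compact set of the `c`
  set C' : Set (GL (Fin 2) k) := C ∩ {c | (c : Matrix (Fin 2) (Fin 2) k).trace
      = (γ : Matrix (Fin 2) (Fin 2) k).trace ∧
    (c : Matrix (Fin 2) (Fin 2) k).det = (γ : Matrix (Fin 2) (Fin 2) k).det} with hC'def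
  have hcl : IsClosed {c : GL (Fin 2) k | (c : Matrix (Fin 2) (Fin 2) k).trace
      = (γ : Matrix (Fin 2) (Fin 2) k).trace ∧
    (c : Matrix (Fin 2) (Fin 2) k).det = (γ : Matrix (Fin 2) (Fin 2) k).det} :=
    (isClosed_eq hv.matrix_trace continuous_const).inter
      (isClosed_eq hv.matrix_det continuous_const)
  have hC' : IsCompact C' := hC.inter_right hcl
  -- the open cover
  set U : Fin 3 → Set (GL (Fin 2) k) :=
    fun i => {c | (rowMat750 (wv750 i) (c : Matrix (Fin 2) (Fin 2) k)).det ≠ 0} with hUdef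
  have hUo : ∀ i, IsOpen (U i) := fun i =>
    isOpen_ne_fun (continuous_det_rowMat750 i) continuous_const
  have hcov : C' ⊆ ⋃ i ∈ (Finset.univ : Finset (Fin 3)), U i := by
    intro c hc
    have hregc : (c : Matrix (Fin 2) (Fin 2) k).trace ^ 2
        - 4 * (c : Matrix (Fin 2) (Fin 2) k).det ≠ 0 := by
      rw [hc.2.1, hc.2.2]; exact hreg
    obtain ⟨i, hi⟩ := exists_det_rowMat_ne750 _ hregc
    exact Set.mem_biUnion (Finset.mem_univ i) hi
  obtain ⟨K, hKc, hKU, hKeq⟩ :=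
    hC'.finite_compact_cover Finset.univ U (fun i _ => hUo i) hcov
  -- the sections
  let f : ∀ i : Fin 3, K i → GL (Fin 2) k := fun i c =>
    Bu⁻¹ * Matrix.GeneralLinearGroup.mkOfDetNeZero
      (rowMat750 (wv750 i) ((c : GL (Fin 2) k) : Matrix (Fin 2) (Fin 2) k)) (hKU i c.2)
  have hf : ∀ i, Continuous (f i) := by
    intro i
    refine continuous_const.mul ?_
    rw [Units.continuous_iff]
    have hr : Continuous fun c : K i =>
        rowMat750 (wv750 i) ((c : GL (Fin 2) k) : Matrix (Fin 2) (Fin 2) k) :=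
      (continuous_rowMat750 i).comp continuous_subtype_val
    refine ⟨hr, ?_⟩
    have hinv : (fun c : K i => ((Matrix.GeneralLinearGroup.mkOfDetNeZero
        (rowMat750 (wv750 i) ((c : GL (Fin 2) k) : Matrix (Fin 2) (Fin 2) k))
          (hKU i c.2))⁻¹ : GL (Fin 2) k).val)
        = fun c : K i =>
          ((rowMat750 (wv750 i) ((c : GL (Fin 2) k) : Matrix (Fin 2) (Fin 2) k)).det)⁻¹ •
            (rowMat750 (wv750 i)
              ((c : GL (Fin 2) k) : Matrix (Fin 2) (Fin 2) k)).adjugate := by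
      funext c
      rw [Matrix.coe_units_inv]
      change (rowMat750 (wv750 i) ((c : GL (Fin 2) k) : Matrix (Fin 2) (Fin 2) k))⁻¹ = _
      rw [Matrix.inv_def, Ring.inverse_eq_inv']
    rw [hinv]
    exact (hr.matrix_det.inv₀ fun c => hKU i c.2).smul hr.matrix_adjugate
  refine ⟨⋃ i, Set.range (f i), ?_, ?_⟩
  · refine isCompact_iUnion fun i => ?_
    haveI : CompactSpace (K i) := isCompact_iff_compactSpace.mp (hKc i)
    exact isCompact_range (hf i)
  · intro y hy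
    obtain ⟨htr, hdet⟩ := trace_det_conj750 γ y
    have hcC' : y⁻¹ * γ * y ∈ C' := ⟨hy, htr, hdet⟩
    rw [hKeq] at hcC'
    obtain ⟨i, -, hi⟩ := Set.mem_iUnion₂.mp hcC'
    set ω : GL (Fin 2) k := f i ⟨y⁻¹ * γ * y, hi⟩ with hω
    have hconj : γ * ω = ω * (y⁻¹ * γ * y) :=
      conj_section750 γ (y⁻¹ * γ * y) Bu _ (wv750 i₀) (wv750 i) rfl rfl htr hdet
    refine ⟨y * ω⁻¹, ω, ?_, Set.mem_iUnion.mpr ⟨i, ⟨_, rfl⟩⟩, by group⟩
    calc (y * ω⁻¹)⁻¹ * γ * (y * ω⁻¹) = ω * (y⁻¹ * γ * y) * ω⁻¹ := by group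
      _ = γ * ω * ω⁻¹ := by rw [hconj]
      _ = γ := by group

end GL2

/-! ## 3. Integrability -/

section Integrable

variable {k : Type*} [Field k] [TopologicalSpace k] [IsTopologicalDivisionRing k] [T2Space k]
  [LocallyCompactSpace (GL (Fin 2) k)] [SecondCountableTopology (GL (Fin 2) k)]

/-- **INTEGRABILITY OF THE CUT-OFF ORBITAL INTEGRAND** (general subgroup form).  `γ` regular,
`T` the centraliser of `γ`, `z` any element, `F` continuous of compact support, `β` a cut-off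
function of `T`: `y ↦ F(y⁻¹ γ y z) β(y)` is integrable for every Haar measure of `GL₂(k)`. -/
theorem integrable_orbit_cut750 [MeasurableSpace (GL (Fin 2) k)] [BorelSpace (GL (Fin 2) k)]
    (γ : GL (Fin 2) k)
    (hreg : (γ : Matrix (Fin 2) (Fin 2) k).trace ^ 2
      - 4 * (γ : Matrix (Fin 2) (Fin 2) k).det ≠ 0)
    (T : Subgroup (GL (Fin 2) k)) (hT : ∀ x : GL (Fin 2) k, x ∈ T ↔ x⁻¹ * γ * x = γ)
    [MeasurableSpace T] [BorelSpace T]
    (μ : Measure (GL (Fin 2) k)) [IsHaarMeasure μ] (μT : Measure T) [IsHaarMeasure μT]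
    (β : GL (Fin 2) k → ℝ) (hβc : Continuous β) (hβ0 : ∀ x, 0 ≤ β x)
    (hβ1 : ∀ x : GL (Fin 2) k, ∫ t : T, β ((t : GL (Fin 2) k) * x) ∂μT = 1)
    (F : GL (Fin 2) k → ℂ) (hF : Continuous F) (hFc : HasCompactSupport F)
    (z : GL (Fin 2) k) :
    Integrable (fun y : GL (Fin 2) k => F (y⁻¹ * γ * y * z) * ((β y : ℝ) : ℂ)) μ := by
  -- `T` is closed
  have hTcl : IsClosed (T : Set (GL (Fin 2) k)) := by
    have h : (T : Set (GL (Fin 2) k)) = {x | x⁻¹ * γ * x = γ} := by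
      ext x; exact hT x
    rw [h]
    exact isClosed_eq ((continuous_inv.mul continuous_const).mul continuous_id) continuous_const
  -- the compact set `C = (supp F) z⁻¹`
  have hCc : IsCompact ((fun g : GL (Fin 2) k => g * z⁻¹) '' tsupport F) :=
    hFc.isCompact.image (continuous_id.mul continuous_const)
  obtain ⟨Ω₀, hΩ, hsec⟩ := exists_compact_section750 γ hreg _ hCc
  obtain ⟨M, hM⟩ := hF.bounded_above_of_compact_support hFc
  have hΦc : Continuous fun y : GL (Fin 2) k => F (y⁻¹ * γ * y * z) :=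
    hF.comp ((((continuous_inv.mul continuous_const).mul continuous_id)).mul continuous_const)
  refine integrable_mul_cut_of_section750 T hTcl μ μT β hβc hβ0 hβ1 Ω₀ hΩ
    (fun y => F (y⁻¹ * γ * y * z)) hΦc.aestronglyMeasurable M (fun y => hM _) ?_
  intro y hy
  have hmem : y⁻¹ * γ * y ∈ (fun g : GL (Fin 2) k => g * z⁻¹) '' tsupport F :=
    ⟨y⁻¹ * γ * y * z, subset_tsupport F hy, by group⟩
  obtain ⟨t, ω, ht, hω, rfl⟩ := hsec y hmem
  exact ⟨t, (hT t).mpr ht, ω, hω, rfl⟩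

end Integrable

end Fermat.Agent.LT.T7.H750

end
end
-- ===== PACK-END LT/T7/H750/OrbSection.lean

-- ===== PACK-BEGIN LT/T6/H846/OrbIndex.lean
section




/-!
# Row LT, tower T6, leaf T6.19 `OrbSumIntC` (helper846) -- the index, abstract form, OFF-MAIN

`cIndex846_mul_stab` : the number of cosets `t U`, `t` in the "compact part" `C y` of the twisted
centraliser of `y = x⁻¹ δ s(x)`, times the measure of the stabiliser of `x U`, is the measure of
the compact part of the twisted centraliser of `δ` (normalised to `1`).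
-/

set_option autoImplicit false
set_option linter.unusedSectionVars false

open MeasureTheory
open scoped ENNReal

noncomputable section

namespace Fermat.Agent.LT.T6.H846

open Fermat.Agent.LT.T6

/-- The hypotheses on the abstract frame: `ι : H → G` parametrises the twisted centraliser of
`δ`, `U` is a subgroup (with predicate `Up`), `C y` is the "compact part" of the twisted
centraliser of `y`. -/
structure Frame846 {G H : Type} [Group G] [Group H] (s : G →* G) (δ : G) (ι : H →* G)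
    (U : Subgroup G) (Up : G → Prop) (C : G → G → Prop) : Prop where
  up : ∀ g, Up g ↔ g ∈ U
  range : ∀ g : G, (∃ t : H, ι t = g) ↔ g⁻¹ * δ * s g = δ
  sU : ∀ u ∈ U, s u ∈ U
  c1 : ∀ y t, C y t → t⁻¹ * y * s t = y
  c2 : ∀ x t, C (x⁻¹ * δ * s x) (x⁻¹ * t * x) ↔ C δ t
  c3 : ∀ y u, u ∈ U → u⁻¹ * y * s u = y → C y u
  c4 : ∀ t t', C δ t → C δ t' → C δ (t * t')

section Alg

variable {G H : Type} [Group G] [Group H] {s : G →* G} {δ : G} {ι : H →* G}
  {U : Subgroup G} {Up : G → Prop} {C : G → G → Prop}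

/-- twisted conjugation is an action -/
theorem twconj_mul846 (s : G →* G) (δ a b : G) :
    (a * b)⁻¹ * δ * s (a * b) = b⁻¹ * (a⁻¹ * δ * s a) * s b := by
  simp [mul_assoc]

theorem Frame846.conj_mem (F : Frame846 s δ ι U Up C) (x t' : G)
    (h : t'⁻¹ * (x⁻¹ * δ * s x) * s t' = x⁻¹ * δ * s x) :
    ∃ t₀ : H, ι t₀ = x * t' * x⁻¹ := by
  rw [F.range]
  have e : (x * t' * x⁻¹)⁻¹ * δ * s (x * t' * x⁻¹)
      = x * (t'⁻¹ * (x⁻¹ * δ * s x) * s t') * (s x)⁻¹ := by
    simp only [map_mul, map_inv, mul_inv_rev, inv_inv, mul_assoc]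
  rw [e, h]
  group

theorem Frame846.conj_fix (F : Frame846 s δ ι U Up C) (x : G) (t : H) :
    (x⁻¹ * ι t * x)⁻¹ * (x⁻¹ * δ * s x) * s (x⁻¹ * ι t * x) = x⁻¹ * δ * s x := by
  have h := (F.range (ι t)).1 ⟨t, rfl⟩
  have e : (x⁻¹ * ι t * x)⁻¹ * (x⁻¹ * δ * s x) * s (x⁻¹ * ι t * x)
      = x⁻¹ * ((ι t)⁻¹ * δ * s (ι t)) * s x := by
    simp only [map_mul, map_inv, mul_inv_rev, inv_inv, mul_assoc]
    simp
  rw [e, h]

/-- The set of cosets counted by `cIndex`. -/
def cosets846 (Up : G → Prop) (C : G → G → Prop) (y : G) : Set (Set G) :=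
  {c : Set G | ∃ t : G, C y t ∧ c = {g : G | ∃ u : G, Up u ∧ g = t * u}}

theorem cIndex_eq846 (Up : G → Prop) (C : G → G → Prop) (y : G) :
    cIndex Up C y = Set.ncard (cosets846 Up C y) := rfl

/-- The part of `H` over the coset `c`. -/
def over846 (ι : H →* G) (x : G) (c : Set G) : Set H := {t | x⁻¹ * ι t * x ∈ c}

theorem Frame846.over_eq (F : Frame846 s δ ι U Up C) (x t' : G) (t₀ : H)
    (h₀ : ι t₀ = x * t' * x⁻¹) :
    over846 ι x {g : G | ∃ u : G, Up u ∧ g = t' * u}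
      = (fun t => t₀⁻¹ * t) ⁻¹' stab846 ι U x := by
  ext t
  change (∃ u : G, Up u ∧ x⁻¹ * ι t * x = t' * u) ↔ x⁻¹ * ι (t₀⁻¹ * t) * x ∈ U
  rw [map_mul, map_inv, h₀]
  have e : x⁻¹ * ((x * t' * x⁻¹)⁻¹ * ι t) * x = t'⁻¹ * (x⁻¹ * ι t * x) := by group
  rw [e]
  constructor
  · rintro ⟨u, hu, hx⟩
    rw [hx]
    have : t'⁻¹ * (t' * u) = u := by group
    rw [this]
    exact (F.up u).1 hu
  · intro h
    exact ⟨_, (F.up _).2 h, by group⟩

theorem Frame846.over_subset (F : Frame846 s δ ι U Up C) (x : G) (c : Set G)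
    (hc : c ∈ cosets846 Up C (x⁻¹ * δ * s x)) :
    over846 ι x c ⊆ {t : H | C δ (ι t)} := by
  obtain ⟨t', ht', rfl⟩ := hc
  intro t ht
  obtain ⟨u, hu, hx⟩ := ht
  have hu' : u ∈ U := (F.up u).1 hu
  -- `u = t'⁻¹ (x⁻¹ ι t x)` lies in the twisted centraliser of `y`
  have hfix1 := F.c1 _ _ ht'
  have hfix2 := F.conj_fix x t
  have hu_eq : u = t'⁻¹ * (x⁻¹ * ι t * x) := by rw [hx]; group
  have hfixu : u⁻¹ * (x⁻¹ * δ * s x) * s u = x⁻¹ * δ * s x := by
    set y := x⁻¹ * δ * s x with hy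
    set g := x⁻¹ * ι t * x with hg
    -- `t' u = g`, so `u⁻¹ y s u = u⁻¹ (t'⁻¹ y s t') s u = g⁻¹ y s g = y`
    have e1 : u⁻¹ * y * s u = u⁻¹ * (t'⁻¹ * y * s t') * s u := by rw [hfix1]
    have e2 : u⁻¹ * (t'⁻¹ * y * s t') * s u = (t' * u)⁻¹ * y * s (t' * u) := by
      simp only [map_mul, mul_inv_rev, mul_assoc]
    rw [e1, e2, ← hx, hfix2]
  have hCu := F.c3 _ u hu' hfixu
  -- transport to `δ`, multiply there, transport back
  have e1 : x⁻¹ * (x * t' * x⁻¹) * x = t' := by group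
  have e2 : x⁻¹ * (x * u * x⁻¹) * x = u := by group
  have hδ1 : C δ (x * t' * x⁻¹) := (F.c2 x _).1 (by rw [e1]; exact ht')
  have hδ2 : C δ (x * u * x⁻¹) := (F.c2 x _).1 (by rw [e2]; exact hCu)
  have hδ3 := F.c4 _ _ hδ1 hδ2
  have e3 : x * t' * x⁻¹ * (x * u * x⁻¹) = ι t := by
    have : ι t = x * (x⁻¹ * ι t * x) * x⁻¹ := by group
    rw [this, hx]
    group
  rw [e3] at hδ3
  exact hδ3

theorem Frame846.subset_iUnion_over (F : Frame846 s δ ι U Up C) (x : G) :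
    {t : H | C δ (ι t)} ⊆ ⋃ c ∈ cosets846 Up C (x⁻¹ * δ * s x), over846 ι x c := by
  intro t ht
  have hC : C (x⁻¹ * δ * s x) (x⁻¹ * ι t * x) := (F.c2 x (ι t)).2 ht
  simp only [Set.mem_iUnion]
  refine ⟨{g : G | ∃ u : G, Up u ∧ g = (x⁻¹ * ι t * x) * u}, ⟨_, hC, rfl⟩, ?_⟩
  exact ⟨1, (F.up 1).2 U.one_mem, by simp⟩

theorem Frame846.over_disjoint (F : Frame846 s δ ι U Up C) (x y : G) (c c' : Set G)
    (hc : c ∈ cosets846 Up C y) (hc' : c' ∈ cosets846 Up C y) (hne : c ≠ c') :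
    Disjoint (over846 ι x c) (over846 ι x c') := by
  rw [Set.disjoint_left]
  intro t ht ht'
  apply hne
  obtain ⟨t₁, -, rfl⟩ := hc
  obtain ⟨t₂, -, rfl⟩ := hc'
  obtain ⟨u₁, hu₁, h₁⟩ := ht
  obtain ⟨u₂, hu₂, h₂⟩ := ht'
  have hu₁' := (F.up _).1 hu₁
  have hu₂' := (F.up _).1 hu₂
  have e : t₂ = t₁ * (u₁ * u₂⁻¹) := by
    have : t₁ * u₁ = t₂ * u₂ := by rw [← h₁, ← h₂]
    calc t₂ = (t₂ * u₂) * u₂⁻¹ := by group
      _ = (t₁ * u₁) * u₂⁻¹ := by rw [this]
      _ = t₁ * (u₁ * u₂⁻¹) := by group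
  ext g
  constructor
  · rintro ⟨u, hu, rfl⟩
    refine ⟨(u₁ * u₂⁻¹)⁻¹ * u, (F.up _).2 (U.mul_mem (U.inv_mem (U.mul_mem hu₁' (U.inv_mem hu₂')))
      ((F.up _).1 hu)), ?_⟩
    rw [e]; group
  · rintro ⟨u, hu, rfl⟩
    refine ⟨(u₁ * u₂⁻¹) * u, (F.up _).2 (U.mul_mem (U.mul_mem hu₁' (U.inv_mem hu₂'))
      ((F.up _).1 hu)), ?_⟩
    rw [e]; group

end Alg

section Meas

variable {G H : Type} [Group G] [Group H] {s : G →* G} {δ : G} {ι : H →* G}
  {U : Subgroup G} {Up : G → Prop} {C : G → G → Prop}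
  [TopologicalSpace G] [IsTopologicalGroup G]
  [TopologicalSpace H] [IsTopologicalGroup H]
  [MeasurableSpace H] [BorelSpace H]
  (ν : Measure H) [ν.IsMulLeftInvariant] [ν.IsOpenPosMeasure]

theorem Frame846.measure_over (F : Frame846 s δ ι U Up C) (x : G) (c : Set G)
    (hc : c ∈ cosets846 Up C (x⁻¹ * δ * s x)) :
    ν (over846 ι x c) = ν (stab846 ι U x) := by
  obtain ⟨t', ht', rfl⟩ := hc
  obtain ⟨t₀, h₀⟩ := F.conj_mem x t' (F.c1 _ _ ht')
  rw [F.over_eq x t' t₀ h₀, measure_preimage_mul]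

theorem Frame846.measurable_over (F : Frame846 s δ ι U Up C) (hι : Continuous ι)
    (hU : IsOpen (U : Set G)) (x : G) (c : Set G)
    (hc : c ∈ cosets846 Up C (x⁻¹ * δ * s x)) :
    MeasurableSet (over846 ι x c) := by
  obtain ⟨t', ht', rfl⟩ := hc
  obtain ⟨t₀, h₀⟩ := F.conj_mem x t' (F.c1 _ _ ht')
  rw [F.over_eq x t' t₀ h₀]
  exact ((isOpen_stab846 ι hι U hU x).preimage (continuous_const.mul continuous_id)).measurableSet

theorem stab_pos846 (hι : Continuous ι) (hU : IsOpen (U : Set G)) (x : G) :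
    0 < ν (stab846 ι U x) := by
  refine (isOpen_stab846 ι hι U hU x).measure_pos ν ⟨1, ?_⟩
  change x⁻¹ * ι 1 * x ∈ U
  simp [U.one_mem]

/-- **The index.** -/
theorem Frame846.cIndex_mul_stab (F : Frame846 s δ ι U Up C) (hι : Continuous ι)
    (hU : IsOpen (U : Set G)) (hT : ν {t : H | C δ (ι t)} = 1) (x : G) :
    (cIndex Up C (x⁻¹ * δ * s x) : ℝ≥0∞) * ν (stab846 ι U x) = 1 := by
  classical
  set y := x⁻¹ * δ * s x with hy
  set S := cosets846 Up C y with hS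
  have hpos := stab_pos846 (U := U) ν hι hU x
  -- finite subfamilies
  have hfin : ∀ A : Finset (Set G), (∀ c ∈ A, c ∈ S) →
      ν (⋃ c ∈ A, over846 ι x c) = (A.card : ℝ≥0∞) * ν (stab846 ι U x) := by
    intro A hA
    rw [measure_biUnion_finset]
    · rw [Finset.sum_congr rfl (fun c hc => F.measure_over ν x c (hA c hc))]
      simp
    · intro c hc c' hc' hne
      exact F.over_disjoint x y c c' (hA c hc) (hA c' hc') hne
    · intro c hc
      exact F.measurable_over hι hU x c (hA c hc)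
  have hle : ∀ A : Finset (Set G), (∀ c ∈ A, c ∈ S) →
      (A.card : ℝ≥0∞) * ν (stab846 ι U x) ≤ 1 := by
    intro A hA
    rw [← hfin A hA, ← hT]
    refine measure_mono ?_
    intro t ht
    simp only [Set.mem_iUnion] at ht
    obtain ⟨c, hc, htc⟩ := ht
    exact F.over_subset x c (hA c hc) htc
  have hSfin : S.Finite := by
    by_contra hinf
    have hinf' : S.Infinite := hinf
    obtain ⟨n, hn⟩ := ENNReal.exists_nat_mul_gt hpos.ne' (ENNReal.one_ne_top)
    obtain ⟨A, hAS, hAc⟩ := hinf'.exists_subset_card_eq n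
    have := hle A (fun c hc => hAS hc)
    rw [hAc] at this
    exact absurd hn (not_lt.2 this)
  have hcard : cIndex Up C y = hSfin.toFinset.card := by
    rw [cIndex_eq846]
    exact Set.ncard_eq_toFinset_card S hSfin
  rw [hcard, ← hfin hSfin.toFinset (fun c hc => (hSfin.mem_toFinset).1 hc), ← hT]
  congr 1
  apply Set.Subset.antisymm
  · intro t ht
    simp only [Set.mem_iUnion] at ht
    obtain ⟨c, hc, htc⟩ := ht
    exact F.over_subset x c ((hSfin.mem_toFinset).1 hc) htc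
  · intro t ht
    have := F.subset_iUnion_over x ht
    simp only [Set.mem_iUnion] at this ⊢
    obtain ⟨c, hc, htc⟩ := this
    exact ⟨c, (hSfin.mem_toFinset).2 hc, htc⟩

end Meas

end Fermat.Agent.LT.T6.H846

end

end
-- ===== PACK-END LT/T6/H846/OrbIndex.lean

-- ===== PACK-BEGIN LT/T7/H176/FD/CycChain.lean
section



/-!
# Row LT, tower T7, node C2.7.13.1 `UpFactC340`, leaf UF.B4 `ArchIntblUpC340`: the cyclic chain
# (helper176, OFF-MAIN, MATHLIB ONLY)

`integrable_cyc176`: for a locally compact second countable group `H` with a Haar measure `μ`,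
`l > 0`, elements `δ_0, …, δ_{l-1}` with `δ_0 ⋯ δ_{l-1} = γ₀ z` (`z` central, the conjugation
orbit of `γ₀` closed in the quantitative form `horb`), a continuous cut-off function `β` for the
centraliser `T` of `γ₀`, and a continuous bounded function `f` on `H^l` with
`f(y) ≠ 0 ⟹ y_a⁻¹ δ_a y_{a+1} ∈ Ω_a` (indices modulo `l`, `Ω_a` compact):
`y ↦ f(y) β(y_0)` is integrable on `H^l`.

Proof.  `y_a = P_a⁻¹ y_0 W_a`, `W_a ∈ Ω_0 ⋯ Ω_{a-1}`, `P_a = δ_0 ⋯ δ_{a-1}`, and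
`y_0⁻¹ P_l y_0 ∈ Ω_0 ⋯ Ω_{l-1}`; so `y_0 = t c_0` (`horb`) and `y = j(t) c`,
`j(t)_a = P_a⁻¹ t P_a`, `c` in a compact set; `integrable_of_cut_hom176`.
-/

set_option autoImplicit false

open MeasureTheory Topology
open scoped ENNReal Pointwise

noncomputable section

namespace Fermat.Agent.LT.T7.H176

section Cyc

variable {H : Type*} [Group H]

/-- The chain: `f y ≠ 0` forces `y_a = P_a⁻¹ y_0 W_a` and `y_0⁻¹ P_l y_0 = W_l`. -/
theorem chain_of_cyc176 (n : ℕ) (δ : ℕ → H) (P : ℕ → H) (hP0 : P 0 = 1)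
    (hPs : ∀ k, P (k + 1) = P k * δ k) (Ω : ℕ → Set H) (ΩP : ℕ → Set H)
    (hΩP0 : ΩP 0 = {1}) (hΩPs : ∀ k, ΩP (k + 1) = ΩP k * Ω k)
    (y : Fin (n + 1) → H)
    (hy : ∀ a : Fin (n + 1),
      (y a)⁻¹ * δ a * y ⟨(a.1 + 1) % (n + 1), Nat.mod_lt _ (Nat.succ_pos n)⟩ ∈ Ω a) :
    (∀ k (hk : k < n + 1), ∃ W ∈ ΩP k, y ⟨k, hk⟩ = (P k)⁻¹ * y 0 * W) ∧
      (y 0)⁻¹ * P (n + 1) * y 0 ∈ ΩP (n + 1) := by
  have hA : ∀ k (hk : k < n + 1), ∃ W ∈ ΩP k, y ⟨k, hk⟩ = (P k)⁻¹ * y 0 * W := by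
    intro k
    induction k with
    | zero =>
      intro hk
      refine ⟨1, by rw [hΩP0]; exact Set.mem_singleton _, ?_⟩
      rw [hP0]
      simp
    | succ k ih =>
      intro hk
      obtain ⟨W, hW, hyW⟩ := ih (by omega)
      have h1 := hy ⟨k, by omega⟩
      have hmod : (k + 1) % (n + 1) = k + 1 := Nat.mod_eq_of_lt hk
      have h2 : (⟨((⟨k, by omega⟩ : Fin (n + 1)).1 + 1) % (n + 1),
          Nat.mod_lt _ (Nat.succ_pos n)⟩ : Fin (n + 1)) = ⟨k + 1, hk⟩ := by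
        apply Fin.ext
        exact hmod
      rw [h2] at h1
      refine ⟨W * ((y ⟨k, by omega⟩)⁻¹ * δ k * y ⟨k + 1, hk⟩), ?_, ?_⟩
      · rw [hΩPs]
        exact Set.mul_mem_mul hW h1
      · rw [hPs, hyW]
        group
  refine ⟨hA, ?_⟩
  obtain ⟨W, hW, hyW⟩ := hA n (by omega)
  have h1 := hy ⟨n, by omega⟩
  have h2 : (⟨((⟨n, by omega⟩ : Fin (n + 1)).1 + 1) % (n + 1),
      Nat.mod_lt _ (Nat.succ_pos n)⟩ : Fin (n + 1)) = 0 := by
    apply Fin.ext
    simp
  rw [h2] at h1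
  have h3 : (y 0)⁻¹ * P (n + 1) * y 0 = W * ((y ⟨n, by omega⟩)⁻¹ * δ n * y 0) := by
    rw [hPs, hyW]
    group
  rw [h3, hΩPs]
  exact Set.mul_mem_mul hW h1

variable [TopologicalSpace H] [IsTopologicalGroup H]

/-- Compactness of the iterated products. -/
theorem isCompact_chain176 (Ω : ℕ → Set H) (hΩ : ∀ a, IsCompact (Ω a)) (ΩP : ℕ → Set H)
    (hΩP0 : ΩP 0 = {1}) (hΩPs : ∀ k, ΩP (k + 1) = ΩP k * Ω k) (k : ℕ) : IsCompact (ΩP k) := by
  induction k with
  | zero => rw [hΩP0]; exact isCompact_singleton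
  | succ k ih => rw [hΩPs]; exact ih.mul (hΩ k)

/-- **Integrability of the cyclic cut-off integrand.** -/
theorem integrable_cyc176 [T2Space H] [SecondCountableTopology H] [LocallyCompactSpace H]
    [MeasurableSpace H] [BorelSpace H] (μ : Measure H) [μ.IsHaarMeasure]
    (l : ℕ) (hl : 0 < l) (γ₀ z : H) (hz : ∀ g : H, z * g = g * z)
    (T : Subgroup H) (hT : ∀ t : H, t ∈ T ↔ t⁻¹ * γ₀ * t = γ₀)
    [MeasurableSpace T] [BorelSpace T] (μT : Measure T) [μT.IsHaarMeasure]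
    (horb : ∀ Ω : Set H, IsCompact Ω → ∃ C : Set H, IsCompact C ∧
      ∀ y : H, y⁻¹ * γ₀ * y ∈ Ω → ∃ t c : H, t⁻¹ * γ₀ * t = γ₀ ∧ c ∈ C ∧ y = t * c)
    (β : H → ℝ) (hβc : Continuous β) (hβ0 : ∀ x, 0 ≤ β x)
    (hcut : ∀ x : H, ∫ t : T, β ((t : H) * x) ∂μT = 1)
    (δ : ℕ → H) (P : ℕ → H) (hP0 : P 0 = 1) (hPs : ∀ k, P (k + 1) = P k * δ k)
    (hPl : P l = γ₀ * z)
    (Ω : ℕ → Set H) (hΩ : ∀ a, IsCompact (Ω a))
    (f : (Fin l → H) → ℂ) (hf : Continuous f) (M : ℝ) (hM : ∀ y, ‖f y‖ ≤ M)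
    (hsupp : ∀ y : Fin l → H, f y ≠ 0 →
      ∀ a : Fin l, (y a)⁻¹ * δ a * y ⟨(a.1 + 1) % l, Nat.mod_lt _ hl⟩ ∈ Ω a) :
    Integrable (fun y : Fin l → H => f y * ((β (y ⟨0, hl⟩) : ℝ) : ℂ))
      (Measure.pi fun _ : Fin l => μ) := by
  obtain ⟨n, rfl⟩ : ∃ n, l = n + 1 := ⟨l - 1, by omega⟩
  -- the topology of `T`
  have hTcl : IsClosed (T : Set H) := by
    have h : (T : Set H) = {x : H | x⁻¹ * γ₀ * x = γ₀} := by
      ext x
      exact hT x
    rw [h]
    exact isClosed_eq ((continuous_inv.mul continuous_const).mul continuous_id) continuous_const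
  have : LocallyCompactSpace T := hTcl.isClosedEmbedding_subtypeVal.locallyCompactSpace
  have : SigmaCompactSpace T := hTcl.isClosedEmbedding_subtypeVal.sigmaCompactSpace
  -- the iterated products of the supports
  obtain ⟨ΩP, hΩP0, hΩPs⟩ : ∃ ΩP : ℕ → Set H, ΩP 0 = {1} ∧ ∀ k, ΩP (k + 1) = ΩP k * Ω k :=
    ⟨fun k => Nat.rec {1} (fun k S => S * Ω k) k, rfl, fun k => rfl⟩
  have hΩPc := isCompact_chain176 Ω hΩ ΩP hΩP0 hΩPs
  have hΩ' : IsCompact ((fun x : H => x * z⁻¹) '' ΩP (n + 1)) :=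
    (hΩPc (n + 1)).image (continuous_id.mul continuous_const)
  obtain ⟨C₀, hC₀, hC₀y⟩ := horb _ hΩ'
  -- the homomorphism
  let j : T →* (Fin (n + 1) → H) :=
    { toFun := fun t a => (P a.1)⁻¹ * (t : H) * P a.1
      map_one' := by
        funext a
        simp
      map_mul' := by
        intro s t
        funext a
        simp only [Subgroup.coe_mul, Pi.mul_apply]
        group }
  have hj : Continuous j :=
    continuous_pi fun a => (continuous_const.mul continuous_subtype_val).mul continuous_const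
  -- the compact set
  let Cs : Fin (n + 1) → Set H := fun a =>
    (fun p : H × H => (P a.1)⁻¹ * p.1 * p.2) '' (C₀ ×ˢ ΩP a.1)
  have hCs : ∀ a, IsCompact (Cs a) := fun a =>
    (hC₀.prod (hΩPc a.1)).image
      ((continuous_const.mul continuous_fst).mul continuous_snd)
  have hC : IsCompact (Set.pi Set.univ Cs) := isCompact_univ_pi hCs
  refine integrable_of_cut_hom176 (Measure.pi fun _ : Fin (n + 1) => μ) j hj μT
    (fun y => β (y ⟨0, hl⟩)) (hβc.comp (continuous_apply _)) (fun y => hβ0 _) ?_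
    f hf M hM (Set.pi Set.univ Cs) hC ?_
  · intro x
    have h : ∀ t : T, (j t * x) ⟨0, hl⟩ = (t : H) * x ⟨0, hl⟩ := by
      intro t
      change (P 0)⁻¹ * (t : H) * P 0 * x ⟨0, hl⟩ = _
      rw [hP0]
      simp
    simp only [h]
    exact hcut _
  · intro y hy
    obtain ⟨hA, hB⟩ := chain_of_cyc176 n δ P hP0 hPs Ω ΩP hΩP0 hΩPs y (hsupp y hy)
    choose W hW hyW using hA
    have h1 : (y 0)⁻¹ * γ₀ * y 0 = (y 0)⁻¹ * P (n + 1) * y 0 * z⁻¹ := by
      rw [hPl]
      have hzy : z * y 0 = y 0 * z := hz _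
      calc (y 0)⁻¹ * γ₀ * y 0 = (y 0)⁻¹ * γ₀ * (y 0 * z) * z⁻¹ := by group
        _ = (y 0)⁻¹ * γ₀ * (z * y 0) * z⁻¹ := by rw [hzy]
        _ = (y 0)⁻¹ * (γ₀ * z) * y 0 * z⁻¹ := by group
    obtain ⟨t, c, ht, hc, hyc⟩ := hC₀y (y 0) ⟨_, hB, h1.symm⟩
    refine ⟨⟨t, (hT t).2 ht⟩, fun a => (P a.1)⁻¹ * c * W a.1 a.2, ?_, ?_⟩
    · intro a _
      exact ⟨(c, W a.1 a.2), ⟨hc, hW a.1 a.2⟩, rfl⟩
    · funext a
      change y a = (P a.1)⁻¹ * t * P a.1 * ((P a.1)⁻¹ * c * W a.1 a.2)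
      have h2 : y a = (P a.1)⁻¹ * y 0 * W a.1 a.2 := hyW a.1 a.2
      rw [h2, hyc]
      group

end Cyc

end Fermat.Agent.LT.T7.H176

end

end
-- ===== PACK-END LT/T7/H176/FD/CycChain.lean

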