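import Mathlib
import Fermat.Agent.Pack.LT2.E0L1
import Fermat.Agent.Pack.LT3.E1L2
import Fermat.Agent.Pack.LT3.E1L3
import Fermat.Agent.Pack.LT3.E1L1
import Fermat.Agent.Pack.LT3.E3L2

set_option linter.all false

-- ===== PACK-BEGIN LT/T6/H846/OrbAlg.lean
section



/-!
# Row LT, tower T6, leaf T6.19 `OrbSumIntC` (helper846) -- algebra of `GL₂(k)`, OFF-MAIN

* `subU846 n` : the congruence subgroup `U(n)` as a subgroup;
* `inU_glAut846` : a valuation preserving automorphism preserves `U(n)`;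
* `comm_of_comm_reg846` : the centraliser of a regular element of `M₂(F)` is commutative;
* `trace_quadratic846` : for commuting `t, u ∈ M₂(R)`, `X = tr(t u)` is a root of
  `X² - tr(t) tr(u) X + det(u)(tr(t)² - 2 det t) + det(t)(tr(u)² - 2 det u)`;
* `inTwCentC_mul846` : the compact part of the twisted centraliser of `δ` (with `N δ` regular)
  is closed under products.
-/

set_option autoImplicit false
set_option linter.unusedSectionVars false
set_option linter.style.haveILetI false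

open scoped Matrix
open WithZero

noncomputable section

namespace Fermat.Agent.LT.T6.H846

open Fermat.Agent.LT.T6

/-! ### Two polynomial identities -/

section Cert

theorem comm_cert846 {F : Type} [Field F] (p q r w a1 a2 a3 a4 b1 b2 b3 b4 : F)
    (ha00 : a1 * p + a2 * r = p * a1 + q * a3) (ha01 : a1 * q + a2 * w = p * a2 + q * a4)
    (ha10 : a3 * p + a4 * r = r * a1 + w * a3)
    (hb00 : b1 * p + b2 * r = p * b1 + q * b3) (hb01 : b1 * q + b2 * w = p * b2 + q * b4)
    (hb10 : b3 * p + b4 * r = r * b1 + w * b3)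
    (hD : (p + w) ^ 2 - 4 * (p * w - q * r) ≠ 0) :
    a1 * b1 + a2 * b3 = b1 * a1 + b2 * a3 ∧ a1 * b2 + a2 * b4 = b1 * a2 + b2 * a4 ∧
      a3 * b1 + a4 * b3 = b3 * a1 + b4 * a3 ∧ a3 * b2 + a4 * b4 = b3 * a2 + b4 * a4 := by
  have e00 : ((p + w) ^ 2 - 4 * (p * w - q * r)) * ((a1 * b1 + a2 * b3) - (b1 * a1 + b2 * a3))
      = 0 := by
    linear_combination (4 * q * b3) * ha00 + (-p * b3 + w * b3) * ha01
      + (-p * b2 + w * b2) * ha10
      + (-p * a1 + p * a4 - 4 * q * a3 + w * a1 - w * a4) * hb00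
  have e01 : ((p + w) ^ 2 - 4 * (p * w - q * r)) * ((a1 * b2 + a2 * b4) - (b1 * a2 + b2 * a4))
      = 0 := by
    linear_combination (4 * p * b2 - 4 * q * b1 + 4 * q * b4 - 4 * w * b2) * ha00
      + (p * b1 - p * b4 + 4 * r * b2 - w * b1 + w * b4) * ha01
      + (-p * a1 + p * a4 - 4 * q * a3 + w * a1 - w * a4) * hb01
  have e10 : ((p + w) ^ 2 - 4 * (p * w - q * r)) * ((a3 * b1 + a4 * b3) - (b3 * a1 + b4 * a3))
      = 0 := by
    linear_combination (p * b1 - p * b4 + 4 * r * b2 - w * b1 + w * b4) * ha10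
      + (4 * r * a1 - 4 * r * a4) * hb00 + (4 * r * a3) * hb01
      + (-p * a1 + p * a4 + w * a1 - w * a4) * hb10
  have e11 : ((p + w) ^ 2 - 4 * (p * w - q * r)) * ((a3 * b2 + a4 * b4) - (b3 * a2 + b4 * a4))
      = 0 := by
    linear_combination (-4 * q * b3) * ha00 + (p * b3 - w * b3) * ha01
      + (p * b2 - w * b2) * ha10
      + (p * a1 - p * a4 + 4 * q * a3 - w * a1 + w * a4) * hb00
  refine ⟨?_, ?_, ?_, ?_⟩
  · exact sub_eq_zero.1 ((mul_eq_zero.1 e00).resolve_left hD)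
  · exact sub_eq_zero.1 ((mul_eq_zero.1 e01).resolve_left hD)
  · exact sub_eq_zero.1 ((mul_eq_zero.1 e10).resolve_left hD)
  · exact sub_eq_zero.1 ((mul_eq_zero.1 e11).resolve_left hD)

/-- The centraliser of a regular element of `M₂(F)` is commutative. -/
theorem comm_of_comm_reg846 {F : Type} [Field F] (γ a b : Matrix (Fin 2) (Fin 2) F)
    (hγ : γ.trace ^ 2 - 4 * γ.det ≠ 0) (ha : a * γ = γ * a) (hb : b * γ = γ * b) :
    a * b = b * a := by
  have ha00 := congrFun (congrFun ha 0) 0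
  have ha01 := congrFun (congrFun ha 0) 1
  have ha10 := congrFun (congrFun ha 1) 0
  have hb00 := congrFun (congrFun hb 0) 0
  have hb01 := congrFun (congrFun hb 0) 1
  have hb10 := congrFun (congrFun hb 1) 0
  simp only [Matrix.mul_apply, Fin.sum_univ_two] at ha00 ha01 ha10 hb00 hb01 hb10
  rw [Matrix.trace_fin_two, Matrix.det_fin_two] at hγ
  obtain ⟨h1, h2, h3, h4⟩ := comm_cert846 (γ 0 0) (γ 0 1) (γ 1 0) (γ 1 1)
    (a 0 0) (a 0 1) (a 1 0) (a 1 1) (b 0 0) (b 0 1) (b 1 0) (b 1 1)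
    ha00 ha01 ha10 hb00 hb01 hb10 hγ
  rw [Matrix.eta_fin_two (a * b), Matrix.eta_fin_two (b * a)]
  simp only [Matrix.mul_apply, Fin.sum_univ_two]
  rw [h1, h2, h3, h4]

theorem trace_cert846 {R : Type} [CommRing R] (t1 t2 t3 t4 u1 u2 u3 u4 : R)
    (h00 : t1 * u1 + t2 * u3 = u1 * t1 + u2 * t3)
    (h01 : t1 * u2 + t2 * u4 = u1 * t2 + u2 * t4) :
    (t1 * u1 + t2 * u3 + (t3 * u2 + t4 * u4)) ^ 2
      - (t1 + t4) * (u1 + u4) * (t1 * u1 + t2 * u3 + (t3 * u2 + t4 * u4))
      + ((u1 * u4 - u2 * u3) * ((t1 + t4) ^ 2 - 2 * (t1 * t4 - t2 * t3))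
        + (t1 * t4 - t2 * t3) * ((u1 + u4) ^ 2 - 2 * (u1 * u4 - u2 * u3))) = 0 := by
  linear_combination (t2 * u3 - t3 * u2) * h00
    + (-t1 * u3 + t3 * u1 - t3 * u4 + t4 * u3) * h01

/-- For commuting `2 × 2` matrices, `tr (t u)` is a root of a monic quadratic polynomial whose
coefficients are polynomials in the traces and determinants of `t` and `u`. -/
theorem trace_quadratic846 {R : Type} [CommRing R] (t u : Matrix (Fin 2) (Fin 2) R)
    (h : t * u = u * t) :
    (t * u).trace ^ 2 - t.trace * u.trace * (t * u).trace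
      + (u.det * (t.trace ^ 2 - 2 * t.det) + t.det * (u.trace ^ 2 - 2 * u.det)) = 0 := by
  have h00 := congrFun (congrFun h 0) 0
  have h01 := congrFun (congrFun h 0) 1
  simp only [Matrix.mul_apply, Fin.sum_univ_two] at h00 h01
  have := trace_cert846 (t 0 0) (t 0 1) (t 1 0) (t 1 1) (u 0 0) (u 0 1) (u 1 0) (u 1 1) h00 h01
  simp only [Matrix.trace_fin_two, Matrix.det_fin_two, Matrix.mul_apply, Fin.sum_univ_two]
  exact this

end Cert

/-! ### Valuations of entries -/

section Ent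

variable {k : Type} [Field k] [Valued k Γ₀]

/-- All entries have valuation `≤ r`. -/
def EntLe846 (r : Γ₀) (A : Matrix (Fin 2) (Fin 2) k) : Prop := ∀ i j, Valued.v (A i j) ≤ r

theorem EntLe846.add {r : Γ₀} {A B : Matrix (Fin 2) (Fin 2) k} (hA : EntLe846 r A)
    (hB : EntLe846 r B) : EntLe846 r (A + B) := fun i j => by
  rw [Matrix.add_apply]
  exact Valuation.map_add_le _ (hA i j) (hB i j)

theorem EntLe846.mul {r r' : Γ₀} {A B : Matrix (Fin 2) (Fin 2) k} (hA : EntLe846 r A)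
    (hB : EntLe846 r' B) : EntLe846 (r * r') (A * B) := fun i j => by
  rw [Matrix.mul_apply]
  refine Valuation.map_sum_le _ (fun l _ => ?_)
  rw [map_mul]
  exact mul_le_mul' (hA i l) (hB l j)

theorem EntLe846.mono {r r' : Γ₀} (h : r ≤ r') {A : Matrix (Fin 2) (Fin 2) k}
    (hA : EntLe846 r A) : EntLe846 r' A := fun i j => (hA i j).trans h

theorem entLe_one846 : EntLe846 (1 : Γ₀) (1 : Matrix (Fin 2) (Fin 2) k) := fun i j => by
  rw [Matrix.one_apply]
  split_ifs
  · simp
  · simp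

theorem exp_neg_le_one846 (n : ℕ) : exp (-(n : ℤ)) ≤ (1 : Γ₀) := by
  rw [← exp_zero, exp_le_exp]
  omega

theorem inU_iff846 (n : ℕ) (g : GL (Fin 2) k) :
    InU n g ↔ EntLe846 (exp (-(n : ℤ))) ((g : Matrix (Fin 2) (Fin 2) k) - 1) ∧
      EntLe846 (exp (-(n : ℤ))) (((g⁻¹ : GL (Fin 2) k) : Matrix (Fin 2) (Fin 2) k) - 1) := by
  constructor
  · intro h
    exact ⟨fun i j => (h i j).1, fun i j => (h i j).2⟩
  · intro h i j
    exact ⟨h.1 i j, h.2 i j⟩

theorem entLe_sub_one_mul846 (n : ℕ) (A B : Matrix (Fin 2) (Fin 2) k)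
    (hA : EntLe846 (exp (-(n : ℤ))) (A - 1)) (hB : EntLe846 (exp (-(n : ℤ))) (B - 1)) :
    EntLe846 (exp (-(n : ℤ))) (A * B - 1) := by
  have e : A * B - 1 = (A - 1) * (B - 1) + (A - 1) + (B - 1) := by noncomm_ring
  rw [e]
  refine ((EntLe846.mono ?_ (hA.mul hB)).add hA).add hB
  calc exp (-(n : ℤ)) * exp (-(n : ℤ)) ≤ exp (-(n : ℤ)) * 1 := by
        gcongr
        exact exp_neg_le_one846 n
    _ = exp (-(n : ℤ)) := mul_one _

theorem inU_one846 (n : ℕ) : InU n (1 : GL (Fin 2) k) := by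
  intro i j
  simp

theorem inU_mul846 (n : ℕ) (g h : GL (Fin 2) k) (hg : InU n g) (hh : InU n h) :
    InU n (g * h) := by
  rw [inU_iff846] at hg hh ⊢
  refine ⟨?_, ?_⟩
  · rw [Units.val_mul]
    exact entLe_sub_one_mul846 n _ _ hg.1 hh.1
  · rw [mul_inv_rev, Units.val_mul]
    exact entLe_sub_one_mul846 n _ _ hh.2 hg.2

theorem inU_inv846 (n : ℕ) (g : GL (Fin 2) k) (hg : InU n g) : InU n g⁻¹ := by
  rw [inU_iff846] at hg ⊢
  refine ⟨hg.2, ?_⟩
  rw [inv_inv]
  exact hg.1

/-- The congruence subgroup `U(n)`. -/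
def subU846 (k : Type) [Field k] [Valued k Γ₀] (n : ℕ) : Subgroup (GL (Fin 2) k) where
  carrier := {g | InU n g}
  one_mem' := inU_one846 n
  mul_mem' := fun {a b} ha hb => inU_mul846 n a b ha hb
  inv_mem' := fun {a} ha => inU_inv846 n a ha

theorem mem_subU846 (n : ℕ) (g : GL (Fin 2) k) : g ∈ subU846 k n ↔ InU n g := Iff.rfl

/-- the entries of an element of `U(n)` are integral -/
theorem entLe_of_inU846 (n : ℕ) (g : GL (Fin 2) k) (hg : InU n g) :
    EntLe846 (1 : Γ₀) (g : Matrix (Fin 2) (Fin 2) k) := by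
  have h := ((inU_iff846 n g).1 hg).1
  have e : (g : Matrix (Fin 2) (Fin 2) k) = ((g : Matrix (Fin 2) (Fin 2) k) - 1) + 1 := by
    simp
  rw [e]
  exact (EntLe846.mono (exp_neg_le_one846 n) h).add entLe_one846

theorem trace_le_of_entLe846 (A : Matrix (Fin 2) (Fin 2) k) (hA : EntLe846 (1 : Γ₀) A) :
    Valued.v A.trace ≤ 1 := by
  rw [Matrix.trace_fin_two]
  exact Valuation.map_add_le _ (hA 0 0) (hA 1 1)

theorem det_le_of_entLe846 (A : Matrix (Fin 2) (Fin 2) k) (hA : EntLe846 (1 : Γ₀) A) :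
    Valued.v A.det ≤ 1 := by
  rw [Matrix.det_fin_two]
  refine Valuation.map_sub_le _ ?_ ?_
  · rw [map_mul]
    exact mul_le_one' (hA 0 0) (hA 1 1)
  · rw [map_mul]
    exact mul_le_one' (hA 0 1) (hA 1 0)

theorem det_eq_one_of_inU846 (n : ℕ) (g : GL (Fin 2) k) (hg : InU n g) :
    Valued.v (g : Matrix (Fin 2) (Fin 2) k).det = 1 := by
  have h1 := det_le_of_entLe846 _ (entLe_of_inU846 n g hg)
  have h2 := det_le_of_entLe846 _ (entLe_of_inU846 n g⁻¹ (inU_inv846 n g hg))
  have h3 : (g : Matrix (Fin 2) (Fin 2) k).det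
      * ((g⁻¹ : GL (Fin 2) k) : Matrix (Fin 2) (Fin 2) k).det = 1 := by
    rw [← Matrix.det_mul, ← Units.val_mul, mul_inv_cancel]
    simp
  have h4 : Valued.v (g : Matrix (Fin 2) (Fin 2) k).det
      * Valued.v ((g⁻¹ : GL (Fin 2) k) : Matrix (Fin 2) (Fin 2) k).det = 1 := by
    rw [← map_mul, h3, map_one]
  refine le_antisymm h1 ?_
  calc (1 : Γ₀) = Valued.v (g : Matrix (Fin 2) (Fin 2) k).det
        * Valued.v ((g⁻¹ : GL (Fin 2) k) : Matrix (Fin 2) (Fin 2) k).det := h4.symm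
    _ ≤ Valued.v (g : Matrix (Fin 2) (Fin 2) k).det * 1 := by gcongr
    _ = _ := mul_one _

/-- a root of a monic quadratic polynomial with integral coefficients is integral -/
theorem le_one_of_quadratic846 (X a b : k) (ha : Valued.v a ≤ 1) (hb : Valued.v b ≤ 1)
    (h : X ^ 2 - a * X + b = 0) : Valued.v X ≤ 1 := by
  by_contra hX
  rw [not_le] at hX
  have e : X ^ 2 = a * X - b := by linear_combination h
  have h1 : Valued.v (X ^ 2) = Valued.v X * Valued.v X := by rw [pow_two, map_mul]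
  have hpos : (0 : Γ₀) < Valued.v X := lt_trans zero_lt_one hX
  have h2 : Valued.v (a * X - b) ≤ Valued.v X := by
    refine Valuation.map_sub_le _ ?_ (hb.trans hX.le)
    rw [map_mul]
    calc Valued.v a * Valued.v X ≤ 1 * Valued.v X := by gcongr
      _ = Valued.v X := one_mul _
  have h3 : Valued.v X < Valued.v X * Valued.v X := by
    calc Valued.v X = Valued.v X * 1 := (mul_one _).symm
      _ < Valued.v X * Valued.v X := by
          exact mul_lt_mul_of_pos_left hX hpos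
  rw [← h1, e] at h3
  exact absurd h2 (not_le.2 h3)

end Ent

/-! ### The automorphism -/

section Aut

variable {k : Type} [Field k] [Valued k Γ₀]

theorem glAut_apply846 (s : k ≃+* k) (g : GL (Fin 2) k) (i j : Fin 2) :
    (glAut s g : Matrix (Fin 2) (Fin 2) k) i j = s ((g : Matrix (Fin 2) (Fin 2) k) i j) :=
  Matrix.GeneralLinearGroup.map_apply _ i j g

theorem glAut_mul846 (s s' : k ≃+* k) (g : GL (Fin 2) k) :
    glAut (s * s') g = glAut s (glAut s' g) := by
  apply Units.ext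
  ext i j
  rw [glAut_apply846, glAut_apply846, glAut_apply846]
  rfl

theorem glAut_one846 (g : GL (Fin 2) k) : glAut (1 : k ≃+* k) g = g := by
  apply Units.ext
  ext i j
  rw [glAut_apply846]
  rfl

theorem glAut_eq_self846 (s : k ≃+* k) (hs : ∀ y : k, s y = y) (g : GL (Fin 2) k) :
    glAut s g = g := by
  apply Units.ext
  ext i j
  rw [glAut_apply846, hs]

theorem inU_glAut846 (s : k ≃+* k) (hs : ∀ y : k, Valued.v (s y) = Valued.v y) (n : ℕ)
    (u : GL (Fin 2) k) (hu : InU n u) : InU n (glAut s u) := by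
  have key : ∀ (g : GL (Fin 2) k) (i j : Fin 2),
      Valued.v ((glAut s g : Matrix (Fin 2) (Fin 2) k) i j - (1 : Matrix (Fin 2) (Fin 2) k) i j)
        = Valued.v ((g : Matrix (Fin 2) (Fin 2) k) i j - (1 : Matrix (Fin 2) (Fin 2) k) i j) := by
    intro g i j
    have h1 : (1 : Matrix (Fin 2) (Fin 2) k) i j = s ((1 : Matrix (Fin 2) (Fin 2) k) i j) := by
      rw [Matrix.one_apply]
      split_ifs <;> simp
    rw [glAut_apply846]
    conv_lhs => rw [h1]
    rw [← map_sub, hs]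
  intro i j
  refine ⟨?_, ?_⟩
  · rw [key]
    exact (hu i j).1
  · have : (glAut s u)⁻¹ = glAut s u⁻¹ := (map_inv (glAut s) u).symm
    rw [this, key]
    exact (hu i j).2

/-- An element of the twisted centraliser of `δ` commutes with the norms of `δ`. -/
theorem twCent_conj_pow846 (s : k ≃+* k) (δ t : GL (Fin 2) k)
    (ht : t⁻¹ * δ * glAut s t = δ) (m : ℕ) :
    glAut (s ^ m) t = (twNorm s m δ)⁻¹ * t * twNorm s m δ := by
  have hst : glAut s t = δ⁻¹ * t * δ := by
    have : glAut s t = δ⁻¹ * t * (t⁻¹ * δ * glAut s t) := by group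
    rw [this, ht]
  induction m with
  | zero =>
    rw [pow_zero, glAut_one846]
    simp [twNorm, twN]
  | succ m ih =>
    rw [pow_succ', glAut_mul846, ih]
    have e : twNorm s (m + 1) δ = δ * glAut s (twNorm s m δ) := rfl
    rw [e, map_mul, map_mul, map_inv, hst]
    group

theorem twCent_comm_norm846 (s : k ≃+* k) (l : ℕ) (hl : ∀ y : k, (s ^ l) y = y)
    (δ t : GL (Fin 2) k) (ht : t⁻¹ * δ * glAut s t = δ) :
    t * twNorm s l δ = twNorm s l δ * t := by
  have h := twCent_conj_pow846 s δ t ht l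
  rw [glAut_eq_self846 (s ^ l) hl] at h
  calc t * twNorm s l δ = twNorm s l δ * ((twNorm s l δ)⁻¹ * t * twNorm s l δ) := by group
    _ = twNorm s l δ * t := by rw [← h]

end Aut

/-! ### The compact part of the twisted centraliser -/

section Cent

variable {k : Type} [Field k] [Valued k Γ₀]

theorem inTwCentC_conj846 (s : k ≃+* k) (δ x t : GL (Fin 2) k) :
    InTwCentC s (x⁻¹ * δ * glAut s x) (x⁻¹ * t * x) ↔ InTwCentC s δ t := by
  have e1 : (x⁻¹ * t * x)⁻¹ * (x⁻¹ * δ * glAut s x) * glAut s (x⁻¹ * t * x)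
      = x⁻¹ * (t⁻¹ * δ * glAut s t) * glAut s x := by
    simp only [map_mul, map_inv, mul_inv_rev, inv_inv, mul_assoc]
    simp
  have e2 : ((x⁻¹ * t * x : GL (Fin 2) k) : Matrix (Fin 2) (Fin 2) k).trace
      = (t : Matrix (Fin 2) (Fin 2) k).trace := by
    rw [Units.val_mul, Units.val_mul, Matrix.trace_mul_cycle, ← Units.val_mul, mul_inv_cancel]
    simp
  have e3 : ((x⁻¹ * t * x : GL (Fin 2) k) : Matrix (Fin 2) (Fin 2) k).det
      = (t : Matrix (Fin 2) (Fin 2) k).det := by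
    rw [Units.val_mul, Units.val_mul, Matrix.det_mul, Matrix.det_mul, mul_comm, ← mul_assoc,
      ← Matrix.det_mul, ← Units.val_mul, mul_inv_cancel]
    simp
  unfold InTwCentC InTwCent
  rw [e1, e2, e3]
  constructor
  · rintro ⟨h1, h2, h3⟩
    refine ⟨?_, h2, h3⟩
    have := congrArg (fun g => x * g * (glAut s x)⁻¹) h1
    simpa [mul_assoc] using this
  · rintro ⟨h1, h2, h3⟩
    exact ⟨by rw [h1], h2, h3⟩

theorem inTwCentC_of_inU846 (s : k ≃+* k) (n : ℕ) (y u : GL (Fin 2) k) (hu : InU n u)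
    (h : u⁻¹ * y * glAut s u = y) : InTwCentC s y u :=
  ⟨h, trace_le_of_entLe846 _ (entLe_of_inU846 n u hu), det_eq_one_of_inU846 n u hu⟩

theorem inTwCentC_mul846 (s : k ≃+* k) (l : ℕ) (hl : ∀ y : k, (s ^ l) y = y)
    (δ : GL (Fin 2) k) (hreg : IsReg (twNorm s l δ)) (t t' : GL (Fin 2) k)
    (ht : InTwCentC s δ t) (ht' : InTwCentC s δ t') : InTwCentC s δ (t * t') := by
  obtain ⟨h1, h2, h3⟩ := ht
  obtain ⟨h1', h2', h3'⟩ := ht'
  have hc1 := twCent_comm_norm846 s l hl δ t h1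
  have hc2 := twCent_comm_norm846 s l hl δ t' h1'
  have hc1' : (t : Matrix (Fin 2) (Fin 2) k) * (twNorm s l δ : Matrix (Fin 2) (Fin 2) k)
      = (twNorm s l δ : Matrix (Fin 2) (Fin 2) k) * (t : Matrix (Fin 2) (Fin 2) k) := by
    rw [← Units.val_mul, hc1, Units.val_mul]
  have hc2' : (t' : Matrix (Fin 2) (Fin 2) k) * (twNorm s l δ : Matrix (Fin 2) (Fin 2) k)
      = (twNorm s l δ : Matrix (Fin 2) (Fin 2) k) * (t' : Matrix (Fin 2) (Fin 2) k) := by
    rw [← Units.val_mul, hc2, Units.val_mul]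
  have hD : (twNorm s l δ : Matrix (Fin 2) (Fin 2) k).trace ^ 2
      - 4 * (twNorm s l δ : Matrix (Fin 2) (Fin 2) k).det ≠ 0 := hreg.ne_zero
  have hcomm := comm_of_comm_reg846 _ _ _ hD hc1' hc2'
  have hquad := trace_quadratic846 _ _ hcomm
  refine ⟨?_, ?_, ?_⟩
  · change (t * t')⁻¹ * δ * glAut s (t * t') = δ
    calc (t * t')⁻¹ * δ * glAut s (t * t') = t'⁻¹ * (t⁻¹ * δ * glAut s t) * glAut s t' := by
          simp only [map_mul, mul_inv_rev, mul_assoc]
      _ = δ := by rw [h1, h1']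
  · rw [Units.val_mul]
    refine le_one_of_quadratic846 _ ((t : Matrix (Fin 2) (Fin 2) k).trace
      * (t' : Matrix (Fin 2) (Fin 2) k).trace)
      ((t' : Matrix (Fin 2) (Fin 2) k).det * ((t : Matrix (Fin 2) (Fin 2) k).trace ^ 2
          - 2 * (t : Matrix (Fin 2) (Fin 2) k).det)
        + (t : Matrix (Fin 2) (Fin 2) k).det * ((t' : Matrix (Fin 2) (Fin 2) k).trace ^ 2
          - 2 * (t' : Matrix (Fin 2) (Fin 2) k).det)) ?_ ?_ hquad
    · rw [map_mul]
      exact mul_le_one' h2 h2'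
    · have h2le : Valued.v (2 : k) ≤ 1 := by
        have : (2 : k) = 1 + 1 := by norm_num
        rw [this]
        exact Valuation.map_add_le _ (by simp) (by simp)
      have aux : ∀ (τ d : k), Valued.v τ ≤ 1 → Valued.v d = 1 →
          Valued.v (τ ^ 2 - 2 * d) ≤ 1 := by
        intro τ d hτ hd
        refine Valuation.map_sub_le _ ?_ ?_
        · rw [map_pow]
          exact pow_le_one' hτ 2
        · rw [map_mul, hd, mul_one]
          exact h2le
      refine Valuation.map_add_le _ ?_ ?_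
      · rw [map_mul, h3', one_mul]
        exact aux _ _ h2 h3
      · rw [map_mul, h3, one_mul]
        exact aux _ _ h2' h3'
  · rw [Units.val_mul, Matrix.det_mul, map_mul, h3, h3', one_mul]

end Cent

end Fermat.Agent.LT.T6.H846

end

end
-- ===== PACK-END LT/T6/H846/OrbAlg.lean

-- ===== PACK-BEGIN LT/T6/H846/OrbTop.lean
section



/-!
# Row LT, tower T6, leaf T6.19 `OrbSumIntC` (helper846) -- topology of a local field, OFF-MAIN

From the structure `T6.IsLocalField k q` (only the uniformiser and the finite system of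
representatives of the residue field are used): `k` is second countable, hence so is `GL₂(k)`;
the congruence subgroups `U(n)` are open.
-/

set_option autoImplicit false
set_option linter.unusedSectionVars false
set_option linter.style.haveILetI false

open scoped Matrix
open WithZero

noncomputable section

namespace Fermat.Agent.LT.T6.H846

open Fermat.Agent.LT.T6

section Field

variable {k : Type} [Field k] [Valued k Γ₀]

theorem le_exp_neg_one_of_lt_one846 {x : Γ₀} (h : x < 1) : x ≤ exp (-1 : ℤ) := by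
  have h1 : (1 : Γ₀) = exp (-1 : ℤ) * exp (1 : ℤ) := by
    rw [← exp_add]; simp
  rw [h1] at h
  exact (lt_mul_exp_iff_le exp_ne_zero).1 h

/-- The finite set of the truncated `ϖ`-adic expansions with digits in `T`. -/
def digits846 (T : Finset k) (ϖ : k) : ℕ → Finset k
  | 0 => {0}
  | (N + 1) => by
      classical
      exact Finset.image₂ (fun t d => t + ϖ * d) T (digits846 T ϖ N)

theorem exists_digit846 (T : Finset k) (ϖ : k) (hϖ : Valued.v ϖ = exp (-1 : ℤ))
    (hT : ∀ z : k, Valued.v z ≤ 1 → ∃ x ∈ T, Valued.v (z - x) < 1) :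
    ∀ (N : ℕ) (z : k), Valued.v z ≤ 1 →
      ∃ d ∈ digits846 T ϖ N, Valued.v (z - d) ≤ exp (-(N : ℤ)) := by
  classical
  intro N
  induction N with
  | zero =>
    intro z hz
    exact ⟨0, by simp [digits846], by simpa using hz⟩
  | succ N ih =>
    intro z hz
    obtain ⟨t, ht, hzt⟩ := hT z hz
    have hϖ0 : ϖ ≠ 0 := by
      intro h0
      rw [h0, map_zero] at hϖ
      exact exp_ne_zero hϖ.symm
    have h1 : Valued.v ((z - t) / ϖ) ≤ 1 := by
      rw [map_div₀, hϖ]
      have := le_exp_neg_one_of_lt_one846 hzt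
      rw [div_le_iff₀ (exp_pos), one_mul]
      exact this
    obtain ⟨d', hd', hzd'⟩ := ih ((z - t) / ϖ) h1
    refine ⟨t + ϖ * d', ?_, ?_⟩
    · simp only [digits846]
      exact Finset.mem_image₂.2 ⟨t, ht, d', hd', rfl⟩
    · have e : z - (t + ϖ * d') = ϖ * ((z - t) / ϖ - d') := by
        field_simp
        ring
      rw [e, map_mul, hϖ]
      calc exp (-1 : ℤ) * Valued.v ((z - t) / ϖ - d')
          ≤ exp (-1 : ℤ) * exp (-(N : ℤ)) := by gcongr
        _ = exp (-((N + 1 : ℕ) : ℤ)) := by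
            rw [← exp_add]
            congr 1
            push_cast
            ring

theorem isOpen_ball_le846 (a c : k) (hc : c ≠ 0) :
    IsOpen {x : k | Valued.v (x - a) ≤ Valued.v c} := by
  have h0 : (Valued.v : Valuation k Γ₀).restrict c ≠ 0 := by
    rw [Ne, Valuation.restrict_eq_zero_iff]
    simpa using hc
  have h := Valued.isOpen_closedBall k (r := (Valued.v : Valuation k Γ₀).restrict c) h0
  have hc' : Continuous fun x : k => x - a := continuous_id.sub continuous_const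
  have := h.preimage hc'
  convert this using 1
  ext x
  simp only [Set.mem_preimage]
  exact (Valuation.restrict_le_iff (v := (Valued.v : Valuation k Γ₀))).symm

theorem isOpen_ball_exp846 {q : ℕ} (hk : IsLocalField k q) (a : k) (n : ℕ) :
    IsOpen {x : k | Valued.v (x - a) ≤ exp (-(n : ℤ))} := by
  obtain ⟨ϖ, hϖ⟩ := hk.unif
  have hϖ0 : ϖ ≠ 0 := by
    intro h0
    rw [h0, map_zero] at hϖ
    exact exp_ne_zero hϖ.symm
  have h := isOpen_ball_le846 a (ϖ ^ n) (pow_ne_zero n hϖ0)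
  have e : Valued.v (ϖ ^ n) = exp (-(n : ℤ)) := by
    rw [map_pow, hϖ, ← exp_nsmul]
    congr 1
    simp
  rwa [e] at h

theorem separableSpace846 {q : ℕ} (hk : IsLocalField k q) : TopologicalSpace.SeparableSpace k := by
  classical
  obtain ⟨ϖ, hϖ⟩ := hk.unif
  obtain ⟨T, -, -, -, hT⟩ := hk.residue
  have hϖ0 : ϖ ≠ 0 := by
    intro h0
    rw [h0, map_zero] at hϖ
    exact exp_ne_zero hϖ.symm
  refine ⟨⟨⋃ (M : ℕ) (N : ℕ), (fun d => (ϖ⁻¹) ^ M * d) '' (digits846 T ϖ N : Set k), ?_, ?_⟩⟩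
  · refine Set.countable_iUnion fun M => Set.countable_iUnion fun N => ?_
    exact ((digits846 T ϖ N).finite_toSet.image _).countable
  · intro x
    rw [mem_closure_iff_nhds]
    intro t ht
    rw [Valued.mem_nhds] at ht
    obtain ⟨γ, hγ⟩ := ht
    set g : Γ₀ := MonoidWithZeroHom.ValueGroup₀.embedding γ.1 with hg
    have hg0 : g ≠ 0 := MonoidWithZeroHom.ValueGroup₀.embedding_unit_ne_zero γ
    obtain ⟨K, hK⟩ := exists_exp_neg_natCast_lt hg0
    set M : ℕ := (log (Valued.v x)).toNat with hM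
    have hxM : Valued.v x ≤ exp (M : ℤ) := by
      refine le_trans le_exp_log ?_
      rw [exp_le_exp]
      exact Int.self_le_toNat _
    have hz : Valued.v (ϖ ^ M * x) ≤ 1 := by
      rw [map_mul, map_pow, hϖ]
      calc exp (-1 : ℤ) ^ M * Valued.v x ≤ exp (-1 : ℤ) ^ M * exp (M : ℤ) := by gcongr
        _ = 1 := by
            rw [← exp_nsmul, ← exp_add]
            simp
    obtain ⟨d', hd', hzd'⟩ := exists_digit846 T ϖ hϖ hT (K + M) (ϖ ^ M * x) hz
    refine ⟨(ϖ⁻¹) ^ M * d', hγ ?_, ?_⟩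
    · change (Valued.v : Valuation k Γ₀).restrict ((ϖ⁻¹) ^ M * d' - x) < γ.1
      rw [Valuation.restrict_lt_iff_lt_embedding]
      refine lt_of_le_of_lt ?_ hK
      have e : (ϖ⁻¹) ^ M * d' - x = (ϖ⁻¹) ^ M * (d' - ϖ ^ M * x) := by
        have : ϖ ^ M ≠ 0 := pow_ne_zero M hϖ0
        rw [mul_sub, ← mul_assoc, inv_pow, inv_mul_cancel₀ this, one_mul]
      rw [e, map_mul, map_pow, map_inv₀, hϖ, Valuation.map_sub_swap]
      calc (exp (-1 : ℤ))⁻¹ ^ M * Valued.v (ϖ ^ M * x - d')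
          ≤ (exp (-1 : ℤ))⁻¹ ^ M * exp (-((K + M : ℕ) : ℤ)) := by gcongr
        _ = exp (-(K : ℤ)) := by
            rw [← exp_neg, ← exp_nsmul, ← exp_add]
            congr 1
            push_cast
            simp
    · simp only [Set.mem_iUnion]
      exact ⟨M, K + M, d', hd', rfl⟩

theorem countablyGenerated846 : (uniformity k).IsCountablyGenerated := by
  haveI : Countable (MonoidWithZeroHom.ValueGroup₀
      (MonoidWithZeroHom.ofClass (Valued.v : Valuation k Γ₀)))ˣ := by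
    have hinj : Function.Injective
        (fun γ : (MonoidWithZeroHom.ValueGroup₀
          (MonoidWithZeroHom.ofClass (Valued.v : Valuation k Γ₀)))ˣ =>
          MonoidWithZeroHom.ValueGroup₀.embedding γ.1) := by
      intro a b hab
      exact Units.ext (MonoidWithZeroHom.ValueGroup₀.embedding_injective hab)
    haveI : Countable Γ₀ := inferInstanceAs (Countable (Option (Multiplicative ℤ)))
    exact hinj.countable
  exact (Valued.hasBasis_uniformity k Γ₀).isCountablyGenerated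

theorem secondCountable846 {q : ℕ} (hk : IsLocalField k q) : SecondCountableTopology k := by
  haveI := separableSpace846 hk
  haveI := countablyGenerated846 (k := k)
  exact UniformSpace.secondCountable_of_separable k

end Field

section GLTop

variable {k : Type} [Field k] [Valued k Γ₀]

theorem secondCountable_GL846 {q : ℕ} (hk : IsLocalField k q) :
    SecondCountableTopology (GL (Fin 2) k) := by
  haveI := secondCountable846 hk
  haveI : SecondCountableTopology (Matrix (Fin 2) (Fin 2) k) :=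
    inferInstanceAs (SecondCountableTopology (Fin 2 → Fin 2 → k))
  haveI : SecondCountableTopology (Matrix (Fin 2) (Fin 2) k)ᵐᵒᵖ :=
    MulOpposite.opHomeomorph.symm.isInducing.secondCountableTopology
  exact (Units.isInducing_embedProduct (M := Matrix (Fin 2) (Fin 2) k)).secondCountableTopology

theorem continuous_entry846 (i j : Fin 2) :
    Continuous fun g : GL (Fin 2) k => (g : Matrix (Fin 2) (Fin 2) k) i j :=
  (Units.continuous_val (M := Matrix (Fin 2) (Fin 2) k)).matrix_elem i j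

theorem continuous_inv_entry846 (i j : Fin 2) :
    Continuous fun g : GL (Fin 2) k => ((g⁻¹ : GL (Fin 2) k) : Matrix (Fin 2) (Fin 2) k) i j :=
  (continuous_entry846 i j).comp continuous_inv

theorem isOpen_InU846 {q : ℕ} (hk : IsLocalField k q) (n : ℕ) :
    IsOpen {g : GL (Fin 2) k | InU n g} := by
  have e : {g : GL (Fin 2) k | InU n g}
      = ⋂ (i : Fin 2), ⋂ (j : Fin 2),
        ((fun g : GL (Fin 2) k => (g : Matrix (Fin 2) (Fin 2) k) i j) ⁻¹'
            {x : k | Valued.v (x - (1 : Matrix (Fin 2) (Fin 2) k) i j) ≤ exp (-(n : ℤ))}) ∩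
          ((fun g : GL (Fin 2) k => ((g⁻¹ : GL (Fin 2) k) : Matrix (Fin 2) (Fin 2) k) i j) ⁻¹'
            {x : k | Valued.v (x - (1 : Matrix (Fin 2) (Fin 2) k) i j) ≤ exp (-(n : ℤ))}) := by
    ext g
    simp only [Set.mem_iInter, Set.mem_inter_iff, Set.mem_preimage]
    rfl
  rw [e]
  refine isOpen_iInter_of_finite fun i => isOpen_iInter_of_finite fun j => IsOpen.inter ?_ ?_
  · exact (isOpen_ball_exp846 hk _ n).preimage (continuous_entry846 i j)
  · exact (isOpen_ball_exp846 hk _ n).preimage (continuous_inv_entry846 i j)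

end GLTop

end Fermat.Agent.LT.T6.H846

end

end
-- ===== PACK-END LT/T6/H846/OrbTop.lean

-- ===== PACK-BEGIN LT/T6/H333/Newton.lean
section



/-!
# Row LT, tower T6, leaf T6.18g3.1a `H820.RootFnC820` (helper333) -- part 3: the `l`-th root

OFF-MAIN.  Mathlib only.  `k` complete with a valuation in `ℤᵐ⁰`, `A = QuadraticAlgebra k α β`,
`|α|, |β| ≤ 1`, `l ≠ 0` in `k`, `λ = |l|`, `ε = exp (-s)`, `s ≥ 1`, `ρ = λ ε`.

* `exists_root333`: every `x₀` with `‖x₀ - 1‖ ≤ λ² ε` is `z ^ l` with `‖z - 1‖ ≤ λ ε`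
  (simplified Newton iteration `z ↦ z - (z ^ l - x₀) / l`, a contraction of ratio `ε`).
* `root_near333`: two such roots, of two elements with the same coordinates in two quadratic
  algebras, have coordinates which differ by at most `λ⁻¹ max |α - α'| |β - β'|`.
-/

set_option autoImplicit false

noncomputable section

namespace Fermat.Agent.LT.T6.H333

variable {k : Type} [Field k] [Valued k (WithZero (Multiplicative ℤ))]

local notation "Γ" => WithZero (Multiplicative ℤ)

theorem val_natCast_le_one333 (n : ℕ) : Valued.v (n : k) ≤ 1 := by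
  induction n with
  | zero => rw [Nat.cast_zero, map_zero]; exact zero_le
  | succ n ih =>
    rw [Nat.cast_succ]
    exact Valuation.map_add_le _ ih (le_of_eq (Valuation.map_one _))

section Newton

variable {α β : k}

theorem qle_natCast333 (n : ℕ) : QLe333 ((n : QuadraticAlgebra k α β)) 1 := by
  rw [← QuadraticAlgebra.C_natCast]
  exact qle_mono333 (qle_C333 _) (val_natCast_le_one333 n)

/-- The simplified Newton map for `z ^ l = x₀`. -/
def newtonMap333 (l : ℕ) (x₀ z : QuadraticAlgebra k α β) : QuadraticAlgebra k α β :=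
  z - QuadraticAlgebra.C ((l : k)⁻¹) * (z ^ l - x₀)

omit [Valued k (WithZero (Multiplicative ℤ))] in
theorem C_inv_mul_natCast333 {l : ℕ} (hl : (l : k) ≠ 0) :
    (QuadraticAlgebra.C ((l : k)⁻¹) : QuadraticAlgebra k α β) * (l : QuadraticAlgebra k α β)
      = 1 := by
  rw [← QuadraticAlgebra.C_natCast, ← QuadraticAlgebra.C_mul, inv_mul_cancel₀ hl,
    QuadraticAlgebra.C_one]

/-- The Newton map is a contraction of ratio `ε` on the ball `1 + {‖·‖ ≤ λ ε}`. -/
theorem newtonMap_contr333 (hα : Valued.v α ≤ 1) (hβ : Valued.v β ≤ 1) {l : ℕ}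
    (hl : (l : k) ≠ 0) {ε : Γ} (hε : ε ≤ 1) (x₀ : QuadraticAlgebra k α β)
    {z z' : QuadraticAlgebra k α β} (h : QLe333 (z - 1) (Valued.v (l : k) * ε))
    (h' : QLe333 (z' - 1) (Valued.v (l : k) * ε)) {r : Γ} (hr : QLe333 (z - z') r) :
    QLe333 (newtonMap333 l x₀ z - newtonMap333 l x₀ z') (ε * r) := by
  have hlam : Valued.v (l : k) ≠ 0 := (Valuation.ne_zero_iff _).mpr hl
  have hρ : Valued.v (l : k) * ε ≤ 1 := by
    calc Valued.v (l : k) * ε ≤ 1 * 1 := mul_le_mul' (val_natCast_le_one333 l) hε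
      _ = 1 := one_mul _
  obtain ⟨e, he, hfac⟩ := qkey333 hα hβ hρ h h' l
  have e1 : newtonMap333 l x₀ z - newtonMap333 l x₀ z'
      = -(QuadraticAlgebra.C ((l : k)⁻¹) * ((z - z') * e)) := by
    unfold newtonMap333
    have : z - QuadraticAlgebra.C ((l : k)⁻¹) * (z ^ l - x₀)
          - (z' - QuadraticAlgebra.C ((l : k)⁻¹) * (z' ^ l - x₀))
        = (z - z') - QuadraticAlgebra.C ((l : k)⁻¹) * (z ^ l - z' ^ l) := by ring
    rw [this, hfac]
    have h1 := C_inv_mul_natCast333 (α := α) (β := β) hl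
    calc z - z' - QuadraticAlgebra.C ((l : k)⁻¹) * ((z - z') * ((l : QuadraticAlgebra k α β) + e))
        = (z - z') - (QuadraticAlgebra.C ((l : k)⁻¹) * (l : QuadraticAlgebra k α β)) * (z - z')
            - QuadraticAlgebra.C ((l : k)⁻¹) * ((z - z') * e) := by ring
      _ = -(QuadraticAlgebra.C ((l : k)⁻¹) * ((z - z') * e)) := by rw [h1]; ring
  rw [e1]
  refine qle_neg333 ?_
  have h2 := qle_mul333 hα hβ (qle_C333 (α := α) (β := β) ((l : k)⁻¹)) (qle_mul333 hα hβ hr he)
  refine qle_mono333 h2 (le_of_eq ?_)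
  rw [Valuation.map_inv]
  calc (Valued.v (l : k))⁻¹ * (r * (Valued.v (l : k) * ε))
      = ((Valued.v (l : k))⁻¹ * Valued.v (l : k)) * (ε * r) := by
        simp only [mul_comm, mul_left_comm, mul_assoc]
    _ = ε * r := by rw [inv_mul_cancel₀ hlam, one_mul]

/-- The Newton sequence. -/
def newtonSeq333 (l : ℕ) (x₀ : QuadraticAlgebra k α β) : ℕ → QuadraticAlgebra k α β
  | 0 => 1
  | n + 1 => newtonMap333 l x₀ (newtonSeq333 l x₀ n)

theorem newtonSeq_bound333 (hα : Valued.v α ≤ 1) (hβ : Valued.v β ≤ 1) {l : ℕ}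
    (hl : (l : k) ≠ 0) {ε : Γ} (hε : ε ≤ 1) (x₀ : QuadraticAlgebra k α β)
    (hx₀ : QLe333 (x₀ - 1) (Valued.v (l : k) * (Valued.v (l : k) * ε))) (n : ℕ) :
    QLe333 (newtonSeq333 l x₀ n - 1) (Valued.v (l : k) * ε) ∧
      QLe333 (newtonSeq333 l x₀ (n + 1) - newtonSeq333 l x₀ n)
        (Valued.v (l : k) * ε * ε ^ n) := by
  have hlam : Valued.v (l : k) ≠ 0 := (Valuation.ne_zero_iff _).mpr hl
  induction n with
  | zero =>
    refine ⟨qball_one333 _, ?_⟩
    show QLe333 (newtonMap333 l x₀ 1 - 1) _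
    have e1 : newtonMap333 l x₀ 1 - 1 = QuadraticAlgebra.C ((l : k)⁻¹) * (x₀ - 1) := by
      unfold newtonMap333
      rw [one_pow]
      ring
    rw [e1, pow_zero, mul_one]
    have h2 := qle_mul333 hα hβ (qle_C333 (α := α) (β := β) ((l : k)⁻¹)) hx₀
    refine qle_mono333 h2 (le_of_eq ?_)
    rw [Valuation.map_inv, ← mul_assoc, inv_mul_cancel₀ hlam, one_mul]
  | succ n ih =>
    obtain ⟨ha, hb⟩ := ih
    have hεn : ε ^ n ≤ 1 := pow_le_one' hε n
    have ha' : QLe333 (newtonSeq333 l x₀ (n + 1) - 1) (Valued.v (l : k) * ε) := by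
      have e : newtonSeq333 l x₀ (n + 1) - 1
          = (newtonSeq333 l x₀ (n + 1) - newtonSeq333 l x₀ n) + (newtonSeq333 l x₀ n - 1) := by
        ring
      rw [e]
      refine qle_add333 (qle_mono333 hb ?_) ha
      calc Valued.v (l : k) * ε * ε ^ n ≤ Valued.v (l : k) * ε * 1 := mul_le_mul' le_rfl hεn
        _ = Valued.v (l : k) * ε := mul_one _
    refine ⟨ha', ?_⟩
    have hc := newtonMap_contr333 hα hβ hl hε x₀ ha' ha hb
    refine qle_mono333 hc (le_of_eq ?_)
    rw [pow_succ]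
    simp only [mul_comm, mul_left_comm, mul_assoc]

theorem exp_pow_le333 {ε : Γ} (hε : ε ≤ WithZero.exp (-1 : ℤ)) (n : ℕ) :
    ε ^ n ≤ WithZero.exp (-(n : ℤ)) := by
  induction n with
  | zero => simp
  | succ n ih =>
    rw [pow_succ]
    calc ε ^ n * ε ≤ WithZero.exp (-(n : ℤ)) * WithZero.exp (-1 : ℤ) := mul_le_mul' ih hε
      _ = WithZero.exp (-((n + 1 : ℕ) : ℤ)) := by
        rw [← WithZero.exp_add]
        congr 1
        push_cast
        ring

/-- **Existence of the `l`-th root** near `1` in the quadratic algebra. -/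
theorem exists_root333 [CompleteSpace k] (hα : Valued.v α ≤ 1) (hβ : Valued.v β ≤ 1) {l : ℕ}
    (hl : (l : k) ≠ 0) {ε : Γ} (hε : ε ≤ WithZero.exp (-1 : ℤ)) (hε0 : ε ≠ 0)
    (x₀ : QuadraticAlgebra k α β)
    (hx₀ : QLe333 (x₀ - 1) (Valued.v (l : k) * (Valued.v (l : k) * ε))) :
    ∃ z : QuadraticAlgebra k α β, QLe333 (z - 1) (Valued.v (l : k) * ε) ∧ z ^ l = x₀ := by
  have hlam : Valued.v (l : k) ≠ 0 := (Valuation.ne_zero_iff _).mpr hl
  have hlam1 : Valued.v (l : k) ≤ 1 := val_natCast_le_one333 l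
  have hε1 : ε ≤ 1 := hε.trans (by rw [← WithZero.exp_zero, WithZero.exp_le_exp]; omega)
  have hρ : Valued.v (l : k) * ε ≤ 1 := by
    calc Valued.v (l : k) * ε ≤ 1 * 1 := mul_le_mul' hlam1 hε1
      _ = 1 := one_mul _
  have hρ0 : Valued.v (l : k) * ε ≠ 0 := mul_ne_zero hlam hε0
  have hb := newtonSeq_bound333 hα hβ hl hε1 x₀ hx₀
  -- the steps are `≤ exp (-n)`
  have hstep : ∀ n, QLe333 (newtonSeq333 l x₀ (n + 1) - newtonSeq333 l x₀ n)
      (WithZero.exp (-(n : ℤ))) := by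
    intro n
    refine qle_mono333 (hb n).2 ?_
    calc Valued.v (l : k) * ε * ε ^ n ≤ 1 * WithZero.exp (-(n : ℤ)) :=
          mul_le_mul' hρ (exp_pow_le333 hε n)
      _ = WithZero.exp (-(n : ℤ)) := one_mul _
  obtain ⟨Lr, hLr⟩ := exists_lim333 (fun n => (newtonSeq333 l x₀ n).re) (fun n => by
    have := (hstep n).1
    rwa [QuadraticAlgebra.re_sub] at this)
  obtain ⟨Li, hLi⟩ := exists_lim333 (fun n => (newtonSeq333 l x₀ n).im) (fun n => by
    have := (hstep n).2
    rwa [QuadraticAlgebra.im_sub] at this)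
  have hlim : ∀ n, QLe333 ((⟨Lr, Li⟩ : QuadraticAlgebra k α β) - newtonSeq333 l x₀ n)
      (WithZero.exp (-(n : ℤ))) := fun n => ⟨hLr n, hLi n⟩
  -- the limit is in the ball
  have hball : QLe333 ((⟨Lr, Li⟩ : QuadraticAlgebra k α β) - 1) (Valued.v (l : k) * ε) := by
    set n₀ : ℕ := (-WithZero.log (Valued.v (l : k) * ε)).toNat with hn₀
    have e : (⟨Lr, Li⟩ : QuadraticAlgebra k α β) - 1
        = ((⟨Lr, Li⟩ : QuadraticAlgebra k α β) - newtonSeq333 l x₀ n₀)
          + (newtonSeq333 l x₀ n₀ - 1) := by ring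
    rw [e]
    refine qle_add333 (qle_mono333 (hlim n₀) ?_) (hb n₀).1
    rw [← WithZero.le_log_iff_exp_le hρ0]
    omega
  refine ⟨⟨Lr, Li⟩, hball, ?_⟩
  -- `z ^ l - x₀` is arbitrarily small
  have hsmall : ∀ n : ℕ, QLe333 ((⟨Lr, Li⟩ : QuadraticAlgebra k α β) ^ l - x₀)
      (WithZero.exp (-(n : ℤ))) := by
    intro n
    obtain ⟨e, he, hfac⟩ := qkey333 hα hβ hρ hball (hb n).1 l
    have e1 : (⟨Lr, Li⟩ : QuadraticAlgebra k α β) ^ l - x₀
        = ((⟨Lr, Li⟩ : QuadraticAlgebra k α β) ^ l - newtonSeq333 l x₀ n ^ l)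
          + (newtonSeq333 l x₀ n ^ l - x₀) := by ring
    rw [e1, hfac]
    refine qle_add333 ?_ ?_
    · have h1 : QLe333 ((l : QuadraticAlgebra k α β) + e) 1 :=
        qle_add333 (qle_natCast333 l) (qle_mono333 he hρ)
      have h2 := qle_mul333 hα hβ (hlim n) h1
      rwa [mul_one] at h2
    · have e2 : newtonSeq333 l x₀ n ^ l - x₀
          = -((l : QuadraticAlgebra k α β)
              * (newtonSeq333 l x₀ (n + 1) - newtonSeq333 l x₀ n)) := by
        show _ = -((l : QuadraticAlgebra k α β)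
              * (newtonMap333 l x₀ (newtonSeq333 l x₀ n) - newtonSeq333 l x₀ n))
        unfold newtonMap333
        have h1 := C_inv_mul_natCast333 (α := α) (β := β) hl
        calc newtonSeq333 l x₀ n ^ l - x₀
            = (QuadraticAlgebra.C ((l : k)⁻¹) * (l : QuadraticAlgebra k α β))
                * (newtonSeq333 l x₀ n ^ l - x₀) := by rw [h1, one_mul]
          _ = _ := by ring
      rw [e2]
      refine qle_neg333 ?_
      have h2 := qle_mul333 hα hβ (qle_natCast333 (α := α) (β := β) l) (hstep n)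
      rwa [one_mul] at h2
  have hre := eq_zero_of_forall_le333 _ (fun n => (hsmall n).1)
  have him := eq_zero_of_forall_le333 _ (fun n => (hsmall n).2)
  have : (⟨Lr, Li⟩ : QuadraticAlgebra k α β) ^ l - x₀ = 0 := QuadraticAlgebra.ext hre him
  exact sub_eq_zero.mp this

end Newton

/-! ## Dependence on the parameters -/

section Lip

variable {α β α' β' : k}

/-- **Lipschitz dependence of the root on the parameters.** -/
theorem root_near333 (hα : Valued.v α ≤ 1) (hβ : Valued.v β ≤ 1)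
    (hα' : Valued.v α' ≤ 1) (hβ' : Valued.v β' ≤ 1) {η : Γ}
    (hαη : Valued.v (α - α') ≤ η) (hβη : Valued.v (β - β') ≤ η) {l : ℕ}
    (hl : (l : k) ≠ 0) {ε : Γ} (hε : ε ≤ WithZero.exp (-1 : ℤ))
    {z : QuadraticAlgebra k α β} {z' : QuadraticAlgebra k α' β'}
    (hz : QLe333 (z - 1) (Valued.v (l : k) * ε)) (hz' : QLe333 (z' - 1) (Valued.v (l : k) * ε))
    (hpow : qcopy333 α' β' (z ^ l) = z' ^ l) :
    QNear333 z z' ((Valued.v (l : k))⁻¹ * η) := by
  have hlam : Valued.v (l : k) ≠ 0 := (Valuation.ne_zero_iff _).mpr hl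
  have hlam1 : Valued.v (l : k) ≤ 1 := val_natCast_le_one333 l
  have hεlt : ε < 1 := lt_of_le_of_lt hε (by
    rw [← WithZero.exp_zero, WithZero.exp_lt_exp]; omega)
  have hρ : Valued.v (l : k) * ε ≤ 1 := by
    calc Valued.v (l : k) * ε ≤ 1 * 1 := mul_le_mul' hlam1 hεlt.le
      _ = 1 := one_mul _
  -- the copy of `z`
  have hzt : QLe333 (qcopy333 α' β' z - 1) (Valued.v (l : k) * ε) := hz
  have hz1 : QLe333 z 1 := qle_of_ball333 hρ hz
  have hnear := qnear_pow333 hα hβ hα' hβ' hαη hβη hz1 l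
  -- `Δ = z̃ ^ l - z' ^ l` is small
  have hΔ : QLe333 ((qcopy333 α' β' z) ^ l - z' ^ l) η := by
    rw [← hpow]
    refine ⟨?_, ?_⟩
    · have := hnear.1
      rw [← Valuation.map_neg] at this
      rw [QuadraticAlgebra.re_sub]
      show Valued.v (((qcopy333 α' β' z) ^ l).re - (z ^ l).re) ≤ η
      rwa [neg_sub] at this
    · have := hnear.2
      rw [← Valuation.map_neg] at this
      rw [QuadraticAlgebra.im_sub]
      show Valued.v (((qcopy333 α' β' z) ^ l).im - (z ^ l).im) ≤ η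
      rwa [neg_sub] at this
  obtain ⟨e, he, hfac⟩ := qkey333 hα' hβ' hρ hzt hz' l
  set u : QuadraticAlgebra k α' β' := qcopy333 α' β' z - z' with hu
  set r : Γ := max (Valued.v u.re) (Valued.v u.im) with hr
  have hur : QLe333 u r := ⟨le_max_left _ _, le_max_right _ _⟩
  have hlu : (l : QuadraticAlgebra k α' β') * u = ((qcopy333 α' β' z) ^ l - z' ^ l) - u * e := by
    rw [hfac]; ring
  have hlu_le : QLe333 ((l : QuadraticAlgebra k α' β') * u)
      (max η (r * (Valued.v (l : k) * ε))) := by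
    rw [hlu]
    exact qle_sub333 (qle_mono333 hΔ (le_max_left _ _))
      (qle_mono333 (qle_mul333 hα' hβ' hur he) (le_max_right _ _))
  have hre : ((l : QuadraticAlgebra k α' β') * u).re = (l : k) * u.re := by
    rw [← QuadraticAlgebra.C_natCast, QuadraticAlgebra.C_mul_eq_smul, QuadraticAlgebra.re_smul,
      smul_eq_mul]
  have him : ((l : QuadraticAlgebra k α' β') * u).im = (l : k) * u.im := by
    rw [← QuadraticAlgebra.C_natCast, QuadraticAlgebra.C_mul_eq_smul, QuadraticAlgebra.im_smul,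
      smul_eq_mul]
  have hmain : Valued.v (l : k) * r ≤ max η (r * (Valued.v (l : k) * ε)) := by
    have h1 := hlu_le.1
    have h2 := hlu_le.2
    rw [hre, Valuation.map_mul] at h1
    rw [him, Valuation.map_mul] at h2
    rw [hr, mul_max]
    exact max_le h1 h2
  have hr_le : r ≤ (Valued.v (l : k))⁻¹ * η := by
    rcases le_max_iff.mp hmain with h | h
    · calc r = (Valued.v (l : k))⁻¹ * (Valued.v (l : k) * r) := by
            rw [← mul_assoc, inv_mul_cancel₀ hlam, one_mul]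
        _ ≤ (Valued.v (l : k))⁻¹ * η := mul_le_mul' le_rfl h
    · by_cases hr0 : r = 0
      · rw [hr0]; exact zero_le
      · exfalso
        have h3 : Valued.v (l : k) * r * 1 ≤ Valued.v (l : k) * r * ε := by
          rw [mul_one]
          calc Valued.v (l : k) * r ≤ r * (Valued.v (l : k) * ε) := h
            _ = Valued.v (l : k) * r * ε := by
              simp only [mul_comm, mul_assoc]
        have h4 : (1 : Γ) ≤ ε :=
          le_of_mul_le_mul_left h3 (zero_lt_iff.mpr (mul_ne_zero hlam hr0))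
        exact absurd hεlt (not_lt.mpr h4)
  refine ⟨?_, ?_⟩
  · have : Valued.v (z.re - z'.re) = Valued.v u.re := by
      rw [hu, QuadraticAlgebra.re_sub]; rfl
    rw [this]
    exact (le_max_left _ _).trans hr_le
  · have : Valued.v (z.im - z'.im) = Valued.v u.im := by
      rw [hu, QuadraticAlgebra.im_sub]; rfl
    rw [this]
    exact (le_max_right _ _).trans hr_le

end Lip

end Fermat.Agent.LT.T6.H333

end

end
-- ===== PACK-END LT/T6/H333/Newton.lean

-- ===== PACK-BEGIN LT/T6/H162/CptGCore.lean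
section



/-!
# Row LT, tower T6, leaf T6.18g.e `CptGC305` (helper162): the core -- OFF-MAIN

Mathlib + `LT/T6/Spec.lean` (helper22, byte-identical copy) only.

`k` a field with a valuation in `ℤᵐ⁰`, `IsLocalField k q` (Spec: a uniformiser of valuation
`exp (-1)` and a finite full system of representatives of the residue field; completeness and
characteristic zero are NOT used).

* `exists_finset_approx_int162`: a finite set approximating every integer modulo `exp (-N)`;
* `exists_finset_approx162`: the same for the ball of radius `exp B`;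
* `exists_finset_approx_mat162`: the same for `2 × 2` matrices with entries in the ball;
* `val_inv_entry_le162`: entries of `g⁻¹` are bounded by `exp (2 B)` on the bounded set;
* `cptG_core162`: the bounded set `{g : entries ≤ exp B, |det g| ≥ exp (-B)}` of `GL₂(k)` is
  covered by finitely many cosets `x U(m)`.

No topology: a point of the bounded set which is close to a chosen point `x` of the same
set in all entries (distance `≤ exp (-(m + 2 B))`) lies in `x U(m)`, because the entries of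
`x⁻¹` and of `g⁻¹` are bounded by `exp (2 B)`.
-/

set_option autoImplicit false

open scoped Matrix

noncomputable section

namespace Fermat.Agent.LT.T6.H162

open Fermat.Agent.LT.T6

variable {k : Type} [Field k] [Valued k Γ₀]

/-! ## 1. Arithmetic in `ℤᵐ⁰` -/

/-- In `ℤᵐ⁰`: `x < 1` iff `x ≤ exp (-1)`. -/
theorem lt_one_iff_le_exp162 (x : Γ₀) : x < 1 ↔ x ≤ WithZero.exp (-1 : ℤ) := by
  rcases eq_or_ne x 0 with rfl | hx
  · simp
  · rw [← WithZero.exp_log hx, ← WithZero.exp_zero, WithZero.exp_lt_exp, WithZero.exp_le_exp]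
    omega

/-- The valuation of a power of a uniformiser. -/
theorem val_unif_pow162 {ϖ : k} (hϖ : Valued.v ϖ = WithZero.exp (-1 : ℤ)) (N : ℕ) :
    Valued.v (ϖ ^ N) = WithZero.exp (-(N : ℤ)) := by
  rw [map_pow, hϖ, ← WithZero.exp_nsmul]
  simp

/-- The valuation of an integral power of a uniformiser. -/
theorem val_unif_zpow162 {ϖ : k} (hϖ : Valued.v ϖ = WithZero.exp (-1 : ℤ)) (n : ℤ) :
    Valued.v (ϖ ^ n) = WithZero.exp (-n) := by
  rw [map_zpow₀, hϖ, ← WithZero.exp_zsmul]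
  simp

/-! ## 2. Finite approximation -/

/-- Every integer of `k` is approximated modulo `exp (-N)` by an element of a finite set. -/
theorem exists_finset_approx_int162 {q : ℕ} (hk : IsLocalField k q) (N : ℕ) :
    ∃ R : Finset k, ∀ z : k, Valued.v z ≤ 1 →
      ∃ r ∈ R, Valued.v (z - r) ≤ WithZero.exp (-(N : ℤ)) := by
  classical
  obtain ⟨ϖ, hϖ⟩ := hk.unif
  obtain ⟨T, -, -, -, hT⟩ := hk.residue
  induction N with
  | zero =>
    refine ⟨{0}, fun z hz => ⟨0, by simp, ?_⟩⟩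
    simpa using hz
  | succ N ih =>
    obtain ⟨R, hR⟩ := ih
    refine ⟨(R ×ˢ T).image (fun p => p.1 + ϖ ^ N * p.2), fun z hz => ?_⟩
    obtain ⟨r, hr, hzr⟩ := hR z hz
    have hϖN : Valued.v (ϖ ^ N) = WithZero.exp (-(N : ℤ)) := val_unif_pow162 hϖ N
    have hϖ0 : ϖ ^ N ≠ 0 := by
      intro h0
      rw [h0, map_zero] at hϖN
      exact WithZero.exp_ne_zero hϖN.symm
    have hw : Valued.v ((z - r) / ϖ ^ N) ≤ 1 := by
      rw [map_div₀, hϖN]
      exact div_le_one_of_le₀ hzr zero_le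
    obtain ⟨t, ht, hwt⟩ := hT _ hw
    refine ⟨r + ϖ ^ N * t,
      Finset.mem_image.mpr ⟨(r, t), Finset.mem_product.mpr ⟨hr, ht⟩, rfl⟩, ?_⟩
    have hEq : z - (r + ϖ ^ N * t) = ϖ ^ N * ((z - r) / ϖ ^ N - t) := by
      field_simp
      ring
    rw [hEq, map_mul, hϖN]
    have h1 : Valued.v ((z - r) / ϖ ^ N - t) ≤ WithZero.exp (-1 : ℤ) :=
      (lt_one_iff_le_exp162 _).mp hwt
    calc WithZero.exp (-(N : ℤ)) * Valued.v ((z - r) / ϖ ^ N - t)
        ≤ WithZero.exp (-(N : ℤ)) * WithZero.exp (-1 : ℤ) := mul_le_mul' le_rfl h1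
      _ = WithZero.exp (-((N + 1 : ℕ) : ℤ)) := by
          rw [← WithZero.exp_add]
          congr 1
          push_cast
          ring

/-- Every element of the ball of radius `exp B` is approximated modulo `exp (-N)` by an element
of a finite set. -/
theorem exists_finset_approx162 {q : ℕ} (hk : IsLocalField k q) (B N : ℤ) :
    ∃ R : Finset k, ∀ z : k, Valued.v z ≤ WithZero.exp B →
      ∃ r ∈ R, Valued.v (z - r) ≤ WithZero.exp (-N) := by
  classical
  obtain ⟨ϖ, hϖ⟩ := hk.unif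
  obtain ⟨R, hR⟩ := exists_finset_approx_int162 hk (N + B).toNat
  have hϖB : Valued.v (ϖ ^ B) = WithZero.exp (-B) := val_unif_zpow162 hϖ B
  have hϖB' : Valued.v (ϖ ^ (-B)) = WithZero.exp B := by
    simpa using val_unif_zpow162 hϖ (-B)
  have hϖ0 : ϖ ≠ 0 := by
    intro h0
    rw [h0, map_zero] at hϖ
    exact WithZero.exp_ne_zero hϖ.symm
  refine ⟨R.image (fun r => ϖ ^ (-B) * r), fun z hz => ?_⟩
  have hz1 : Valued.v (ϖ ^ B * z) ≤ 1 := by
    rw [map_mul, hϖB]
    calc WithZero.exp (-B) * Valued.v z ≤ WithZero.exp (-B) * WithZero.exp B :=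
          mul_le_mul' le_rfl hz
      _ = 1 := by rw [← WithZero.exp_add]; simp
  obtain ⟨r, hr, hzr⟩ := hR _ hz1
  refine ⟨ϖ ^ (-B) * r, Finset.mem_image.mpr ⟨r, hr, rfl⟩, ?_⟩
  have hEq : z - ϖ ^ (-B) * r = ϖ ^ (-B) * (ϖ ^ B * z - r) := by
    rw [mul_sub, ← mul_assoc, ← zpow_add₀ hϖ0]
    simp
  rw [hEq, map_mul, hϖB']
  calc WithZero.exp B * Valued.v (ϖ ^ B * z - r)
      ≤ WithZero.exp B * WithZero.exp (-(((N + B).toNat : ℕ) : ℤ)) := mul_le_mul' le_rfl hzr
    _ = WithZero.exp (B + -(((N + B).toNat : ℕ) : ℤ)) := by rw [WithZero.exp_add]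
    _ ≤ WithZero.exp (-N) := by
        rw [WithZero.exp_le_exp]
        have := Int.self_le_toNat (N + B)
        omega

/-- Matrices with entries in the ball of radius `exp B` are approximated modulo `exp (-N)`,
entry by entry, by the elements of a finite set of matrices. -/
theorem exists_finset_approx_mat162 {q : ℕ} (hk : IsLocalField k q) (B N : ℤ) :
    ∃ R : Finset (Matrix (Fin 2) (Fin 2) k), ∀ A : Matrix (Fin 2) (Fin 2) k,
      (∀ i j, Valued.v (A i j) ≤ WithZero.exp B) →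
      ∃ r ∈ R, ∀ i j, Valued.v (A i j - r i j) ≤ WithZero.exp (-N) := by
  classical
  obtain ⟨R, hR⟩ := exists_finset_approx162 hk B N
  refine ⟨(Fintype.piFinset (fun _ : Fin 2 => Fintype.piFinset (fun _ : Fin 2 => R))).image
    (fun f => Matrix.of f), fun A hA => ?_⟩
  choose f hfR hf using fun i j => hR (A i j) (hA i j)
  refine ⟨Matrix.of f, Finset.mem_image.mpr ⟨f, ?_, rfl⟩, fun i j => hf i j⟩
  rw [Fintype.mem_piFinset]
  intro i
  rw [Fintype.mem_piFinset]
  exact fun j => hfR i j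

/-! ## 3. Bounds for the inverse -/

/-- The entries of `g` are bounded by `entryMax g`. -/
theorem val_entry_le_entryMax162 (g : GL (Fin 2) k) (i j : Fin 2) :
    Valued.v ((g : Matrix (Fin 2) (Fin 2) k) i j) ≤ entryMax g :=
  Finset.le_sup' (fun p : Fin 2 × Fin 2 => Valued.v ((g : Matrix (Fin 2) (Fin 2) k) p.1 p.2))
    (Finset.mem_univ (i, j))

/-- On the bounded set the entries of the inverse are bounded by `exp (2 B)`. -/
theorem val_inv_entry_le162 {B : ℤ} (g : GL (Fin 2) k) (hg : entryMax g ≤ WithZero.exp B)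
    (hd : WithZero.exp (-B) ≤ Valued.v (g : Matrix (Fin 2) (Fin 2) k).det) (i j : Fin 2) :
    Valued.v (((g⁻¹ : GL (Fin 2) k) : Matrix (Fin 2) (Fin 2) k) i j) ≤ WithZero.exp (2 * B) := by
  have hE : ∀ i j, Valued.v ((g : Matrix (Fin 2) (Fin 2) k) i j) ≤ WithZero.exp B :=
    fun i j => (val_entry_le_entryMax162 g i j).trans hg
  have hdet0 : (g : Matrix (Fin 2) (Fin 2) k).det ≠ 0 := by
    intro h0
    rw [h0, map_zero] at hd
    exact absurd hd (not_le.mpr WithZero.exp_pos)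
  have hdinv : Valued.v ((g : Matrix (Fin 2) (Fin 2) k).det)⁻¹ ≤ WithZero.exp B := by
    rw [map_inv₀]
    have h1 : (Valued.v (g : Matrix (Fin 2) (Fin 2) k).det)⁻¹ ≤ (WithZero.exp (-B))⁻¹ :=
      inv_anti₀ WithZero.exp_pos hd
    simpa using h1
  have hinv : ((g⁻¹ : GL (Fin 2) k) : Matrix (Fin 2) (Fin 2) k)
      = ((g : Matrix (Fin 2) (Fin 2) k).det)⁻¹ • (g : Matrix (Fin 2) (Fin 2) k).adjugate := by
    rw [Matrix.coe_units_inv, Matrix.inv_def, Ring.inverse_eq_inv']
  have hadj : ∀ i j, Valued.v ((g : Matrix (Fin 2) (Fin 2) k).adjugate i j)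
      ≤ WithZero.exp B := by
    intro i j
    rw [Matrix.adjugate_fin_two]
    fin_cases i <;> fin_cases j <;> simp [Valuation.map_neg, hE]
  rw [hinv, Matrix.smul_apply, smul_eq_mul, map_mul, two_mul, WithZero.exp_add]
  exact mul_le_mul' hdinv (hadj i j)

/-- The ultrametric bound for an entry of a product of `2 × 2` matrices. -/
theorem val_mul_entry_le162 (A C : Matrix (Fin 2) (Fin 2) k) {a c : Γ₀}
    (hA : ∀ i j, Valued.v (A i j) ≤ a) (hC : ∀ i j, Valued.v (C i j) ≤ c) (i j : Fin 2) :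
    Valued.v ((A * C) i j) ≤ a * c := by
  rw [Matrix.mul_apply, Fin.sum_univ_two]
  refine (Valuation.map_add _ _ _).trans (max_le ?_ ?_)
  · rw [map_mul]; exact mul_le_mul' (hA _ _) (hC _ _)
  · rw [map_mul]; exact mul_le_mul' (hA _ _) (hC _ _)

/-! ## 4. Close points of the bounded set lie in the same coset of `U(m)` -/

/-- Two points of the bounded set which are close in all entries differ by an element of
`U(m)`. -/
theorem inU_of_close162 {B : ℤ} {m : ℕ} (x g : GL (Fin 2) k)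
    (hx : entryMax x ≤ WithZero.exp B)
    (hxd : WithZero.exp (-B) ≤ Valued.v (x : Matrix (Fin 2) (Fin 2) k).det)
    (hg : entryMax g ≤ WithZero.exp B)
    (hgd : WithZero.exp (-B) ≤ Valued.v (g : Matrix (Fin 2) (Fin 2) k).det)
    (hclose : ∀ i j, Valued.v ((g : Matrix (Fin 2) (Fin 2) k) i j
      - (x : Matrix (Fin 2) (Fin 2) k) i j) ≤ WithZero.exp (-((m : ℤ) + 2 * B))) :
    InU m (x⁻¹ * g) := by
  have hexp : WithZero.exp (2 * B) * WithZero.exp (-((m : ℤ) + 2 * B))
      = WithZero.exp (-(m : ℤ)) := by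
    rw [← WithZero.exp_add]
    congr 1
    ring
  have hclose' : ∀ i j, Valued.v ((x : Matrix (Fin 2) (Fin 2) k) i j
      - (g : Matrix (Fin 2) (Fin 2) k) i j) ≤ WithZero.exp (-((m : ℤ) + 2 * B)) := by
    intro i j
    rw [← Valuation.map_neg, neg_sub]
    exact hclose i j
  intro i j
  constructor
  · -- `x⁻¹ g - 1 = x⁻¹ (g - x)`
    have hEq : ((x⁻¹ * g : GL (Fin 2) k) : Matrix (Fin 2) (Fin 2) k) - 1
        = ((x⁻¹ : GL (Fin 2) k) : Matrix (Fin 2) (Fin 2) k)
          * ((g : Matrix (Fin 2) (Fin 2) k) - (x : Matrix (Fin 2) (Fin 2) k)) := by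
      rw [mul_sub, Units.val_mul]
      congr 1
      rw [← Units.val_mul, inv_mul_cancel, Units.val_one]
    have h1 := val_mul_entry_le162 ((x⁻¹ : GL (Fin 2) k) : Matrix (Fin 2) (Fin 2) k)
      ((g : Matrix (Fin 2) (Fin 2) k) - (x : Matrix (Fin 2) (Fin 2) k))
      (a := WithZero.exp (2 * B)) (c := WithZero.exp (-((m : ℤ) + 2 * B)))
      (fun i j => val_inv_entry_le162 x hx hxd i j)
      (fun i j => by rw [Matrix.sub_apply]; exact hclose i j) i j
    rw [← hEq, hexp, Matrix.sub_apply] at h1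
    exact h1
  · -- `(x⁻¹ g)⁻¹ - 1 = g⁻¹ (x - g)`
    have hEq : (((x⁻¹ * g)⁻¹ : GL (Fin 2) k) : Matrix (Fin 2) (Fin 2) k) - 1
        = ((g⁻¹ : GL (Fin 2) k) : Matrix (Fin 2) (Fin 2) k)
          * ((x : Matrix (Fin 2) (Fin 2) k) - (g : Matrix (Fin 2) (Fin 2) k)) := by
      rw [mul_inv_rev, inv_inv, mul_sub, Units.val_mul]
      congr 1
      rw [← Units.val_mul, inv_mul_cancel, Units.val_one]
    have h1 := val_mul_entry_le162 ((g⁻¹ : GL (Fin 2) k) : Matrix (Fin 2) (Fin 2) k)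
      ((x : Matrix (Fin 2) (Fin 2) k) - (g : Matrix (Fin 2) (Fin 2) k))
      (a := WithZero.exp (2 * B)) (c := WithZero.exp (-((m : ℤ) + 2 * B)))
      (fun i j => val_inv_entry_le162 g hg hgd i j)
      (fun i j => by rw [Matrix.sub_apply]; exact hclose' i j) i j
    rw [← hEq, hexp, Matrix.sub_apply] at h1
    exact h1

/-! ## 5. The covering -/

/-- **The core of `CptGC305`.**  The bounded set `{g : entries ≤ exp B, |det g| ≥ exp (-B)}` of
`GL₂(k)` is covered by finitely many cosets `x U(m)`; the centres `x` can be taken in the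
bounded set. -/
theorem cptG_core162 {q : ℕ} (hk : IsLocalField k q) (B : ℤ) (m : ℕ) :
    ∃ F : Finset (GL (Fin 2) k),
      (∀ x ∈ F, entryMax x ≤ WithZero.exp B ∧
        WithZero.exp (-B) ≤ Valued.v (x : Matrix (Fin 2) (Fin 2) k).det) ∧
      ∀ g : GL (Fin 2) k, entryMax g ≤ WithZero.exp B →
        WithZero.exp (-B) ≤ Valued.v (g : Matrix (Fin 2) (Fin 2) k).det →
        ∃ x ∈ F, ∃ u : GL (Fin 2) k, InU m u ∧ g = x * u := by
  classical
  obtain ⟨R, hR⟩ := exists_finset_approx_mat162 hk B ((m : ℤ) + 2 * B)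
  -- the points of the bounded set near `r`
  let P : Matrix (Fin 2) (Fin 2) k → GL (Fin 2) k → Prop := fun r g =>
    entryMax g ≤ WithZero.exp B ∧
      WithZero.exp (-B) ≤ Valued.v (g : Matrix (Fin 2) (Fin 2) k).det ∧
      ∀ i j, Valued.v ((g : Matrix (Fin 2) (Fin 2) k) i j - r i j)
        ≤ WithZero.exp (-((m : ℤ) + 2 * B))
  let c : Matrix (Fin 2) (Fin 2) k → GL (Fin 2) k := fun r =>
    if h : ∃ g, P r g then h.choose else 1
  have hc : ∀ r, (∃ g, P r g) → P r (c r) := by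
    intro r h
    simp only [c, dif_pos h]
    exact h.choose_spec
  refine ⟨(R.filter (fun r => ∃ g, P r g)).image c, ?_, ?_⟩
  · intro x hx
    obtain ⟨r, hr, rfl⟩ := Finset.mem_image.mp hx
    have := hc r (Finset.mem_filter.mp hr).2
    exact ⟨this.1, this.2.1⟩
  · intro g hg hgd
    obtain ⟨r, hr, hgr⟩ := hR (g : Matrix (Fin 2) (Fin 2) k)
      (fun i j => (val_entry_le_entryMax162 g i j).trans hg)
    have hex : ∃ g, P r g := ⟨g, hg, hgd, hgr⟩
    have hcr := hc r hex
    refine ⟨c r, Finset.mem_image.mpr ⟨r, Finset.mem_filter.mpr ⟨hr, hex⟩, rfl⟩,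
      (c r)⁻¹ * g, ?_, by rw [mul_inv_cancel_left]⟩
    refine inU_of_close162 (c r) g hcr.1 hcr.2.1 hg hgd (fun i j => ?_)
    have h1 : (g : Matrix (Fin 2) (Fin 2) k) i j - ((c r : GL (Fin 2) k) :
        Matrix (Fin 2) (Fin 2) k) i j
        = ((g : Matrix (Fin 2) (Fin 2) k) i j - r i j)
          - (((c r : GL (Fin 2) k) : Matrix (Fin 2) (Fin 2) k) i j - r i j) := by ring
    rw [h1]
    exact (Valuation.map_sub _ _ _).trans (max_le (hgr i j) (hcr.2.2 i j))

end Fermat.Agent.LT.T6.H162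

end

end
-- ===== PACK-END LT/T6/H162/CptGCore.lean

-- ===== PACK-BEGIN LT/T6/H98/Descent.lean
section



/-!
# Row LT, tower T6, sub-leaf T6.15c4 (helper98): the descent on the discriminant

`k` a complete field with a normalised valuation in `ℤᵐ⁰`, `f = X² - τ X + δ` a polynomial all
of whose values on `k` are nonzero of EVEN order (`EvenVal98`).  Then an affine substitution
`X = c X' + e` turns `f` into `c² (X'² - τ' X' + δ')` with `τ', δ'` integral and
`X'² - τ' X' + δ'` without a root modulo the maximal ideal (`normalise98`).  Mathlib only.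
-/

set_option autoImplicit false

noncomputable section

namespace Fermat.Agent.LT.T6.H98

open WithZero

/-! ## The value group `ℤᵐ⁰` -/

theorem lt_one_iff98 (x : WithZero (Multiplicative ℤ)) : x < 1 ↔ x ≤ exp (-1 : ℤ) := by
  by_cases hx : x = 0
  · subst hx
    simp
  · rw [← exp_log hx, ← exp_zero (M := ℤ), exp_lt_exp, exp_le_exp]
    omega

theorem exists_le_exp98 (x : WithZero (Multiplicative ℤ)) : ∃ M : ℕ, x ≤ exp (M : ℤ) := by
  by_cases hx : x = 0
  · subst hx
    exact ⟨0, by simp⟩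
  · refine ⟨(log x).toNat, ?_⟩
    rw [← log_le_iff_le_exp hx]
    exact Int.self_le_toNat _

variable {k : Type} [Field k] [Valued k (WithZero (Multiplicative ℤ))]

theorem val_two_le98 : Valued.v (2 : k) ≤ 1 := by
  have h : (2 : k) = 1 + 1 := by norm_num
  rw [h]
  refine (Valuation.map_add _ _ _).trans ?_
  simp

theorem val_four_le98 : Valued.v (4 : k) ≤ 1 := by
  have h : (4 : k) = 2 * 2 := by norm_num
  rw [h, map_mul]
  exact mul_le_one' val_two_le98 val_two_le98

/-- All values of `X² - τ X + δ` on `k` are nonzero of even order. -/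
def EvenVal98 (τ δ : k) : Prop :=
  ∀ x : k, ∃ m : ℤ, Valued.v (x ^ 2 - τ * x + δ) = exp (2 * m)

theorem EvenVal98.translate {τ δ : k} (h : EvenVal98 τ δ) (x0 : k) :
    EvenVal98 (τ - 2 * x0) (x0 ^ 2 - τ * x0 + δ) := by
  intro x
  obtain ⟨m, hm⟩ := h (x + x0)
  refine ⟨m, ?_⟩
  rw [← hm]
  congr 1
  ring

theorem EvenVal98.scale {τ δ ϖ : k} (h : EvenVal98 τ δ) (hϖ : Valued.v ϖ = exp (-1 : ℤ)) :
    EvenVal98 (τ / ϖ) (δ / ϖ ^ 2) := by
  have hϖ0 : ϖ ≠ 0 := by
    intro h0
    rw [h0, map_zero] at hϖ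
    exact exp_ne_zero hϖ.symm
  intro x
  obtain ⟨m, hm⟩ := h (ϖ * x)
  refine ⟨m + 1, ?_⟩
  have h1 : x ^ 2 - τ / ϖ * x + δ / ϖ ^ 2 = ((ϖ * x) ^ 2 - τ * (ϖ * x) + δ) / ϖ ^ 2 := by
    field_simp
  rw [h1, map_div₀, hm, map_pow, hϖ, ← exp_nsmul, ← exp_sub]
  congr 1
  simp only [nsmul_eq_mul]
  push_cast
  ring

/-- One step of the descent. -/
theorem step98 [CompleteSpace k] (τ δ : k) (hτ : Valued.v τ ≤ 1) (hδ : Valued.v δ ≤ 1)
    (hE : EvenVal98 τ δ) :
    (∀ x : k, Valued.v x ≤ 1 → Valued.v (x ^ 2 - τ * x + δ) = 1) ∨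
    ∃ x0 : k, Valued.v (τ - 2 * x0) < 1 ∧ Valued.v (x0 ^ 2 - τ * x0 + δ) ≤ exp (-2 : ℤ) := by
  by_cases hc : ∀ x : k, Valued.v x ≤ 1 → Valued.v (x ^ 2 - τ * x + δ) = 1
  · exact Or.inl hc
  · right
    push Not at hc
    obtain ⟨x0, hx0, hne⟩ := hc
    have hle : Valued.v (x0 ^ 2 - τ * x0 + δ) ≤ 1 := by
      refine (Valuation.map_add _ _ _).trans (max_le ?_ hδ)
      refine (Valuation.map_sub _ _ _).trans (max_le ?_ ?_)
      · rw [map_pow]
        exact pow_le_one' hx0 2
      · rw [map_mul]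
        exact mul_le_one' hτ hx0
    have hlt : Valued.v (x0 ^ 2 - τ * x0 + δ) < 1 := lt_of_le_of_ne hle hne
    have hτ1 : Valued.v (τ - 2 * x0) ≤ 1 := by
      refine (Valuation.map_sub _ _ _).trans (max_le hτ ?_)
      rw [map_mul]
      exact mul_le_one' val_two_le98 hx0
    refine ⟨x0, ?_, ?_⟩
    · refine lt_of_le_of_ne hτ1 ?_
      intro h1
      obtain ⟨z, hz⟩ := exists_root_quadratic98 (2 * x0 - τ) (x0 ^ 2 - τ * x0 + δ) (by
        have : Valued.v (2 * x0 - τ) = 1 := by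
          rw [← Valuation.map_neg, neg_sub]
          exact h1
        rw [this, one_pow]
        exact hlt)
      obtain ⟨m, hm⟩ := hE (x0 + z)
      have h0 : (x0 + z) ^ 2 - τ * (x0 + z) + δ = 0 := by linear_combination hz
      rw [h0, map_zero] at hm
      exact exp_ne_zero hm.symm
    · obtain ⟨m, hm⟩ := hE x0
      rw [hm] at hlt ⊢
      rw [← exp_zero (M := ℤ), exp_lt_exp] at hlt
      rw [exp_le_exp]
      omega

/-- **The descent.**  Integral `τ, δ`, discriminant of order at most `n`. -/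
theorem descent98 [CompleteSpace k] (ϖ : k) (hϖ : Valued.v ϖ = exp (-1 : ℤ)) :
    ∀ (n : ℕ) (τ δ : k), Valued.v τ ≤ 1 → Valued.v δ ≤ 1 →
      exp (-(n : ℤ)) ≤ Valued.v (τ ^ 2 - 4 * δ) → EvenVal98 τ δ →
      ∃ c e τ' δ' : k, c ≠ 0 ∧ τ' * c = τ - 2 * e ∧ δ' * c ^ 2 = e ^ 2 - τ * e + δ ∧
        Valued.v τ' ≤ 1 ∧ Valued.v δ' ≤ 1 ∧
        ∀ x : k, Valued.v x ≤ 1 → Valued.v (x ^ 2 - τ' * x + δ') = 1 := by
  have hϖ0 : ϖ ≠ 0 := by
    intro h0
    rw [h0, map_zero] at hϖ
    exact exp_ne_zero hϖ.symm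
  intro n
  induction n with
  | zero =>
    intro τ δ hτ hδ hD hE
    rcases step98 τ δ hτ hδ hE with hc | ⟨x0, h1, h2⟩
    · exact ⟨1, 0, τ, δ, one_ne_zero, by ring, by ring, hτ, hδ, hc⟩
    · exfalso
      have hD' : τ ^ 2 - 4 * δ = (τ - 2 * x0) ^ 2 - 4 * (x0 ^ 2 - τ * x0 + δ) := by ring
      have hlt : Valued.v (τ ^ 2 - 4 * δ) < 1 := by
        rw [hD']
        refine lt_of_le_of_lt (Valuation.map_sub _ _ _) (max_lt ?_ ?_)
        · rw [map_pow]
          exact pow_lt_one' h1 (by norm_num)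
        · rw [map_mul]
          refine lt_of_le_of_lt (mul_le_mul' val_four_le98 h2) ?_
          rw [one_mul, ← exp_zero (M := ℤ), exp_lt_exp]
          norm_num
      have : exp (-((0 : ℕ) : ℤ)) = (1 : WithZero (Multiplicative ℤ)) := by simp
      rw [this] at hD
      exact absurd hlt (not_lt.mpr hD)
  | succ n ih =>
    intro τ δ hτ hδ hD hE
    rcases step98 τ δ hτ hδ hE with hc | ⟨x0, h1, h2⟩
    · exact ⟨1, 0, τ, δ, one_ne_zero, by ring, by ring, hτ, hδ, hc⟩
    · have hE1 := (hE.translate x0).scale hϖ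
      have hτ2 : Valued.v ((τ - 2 * x0) / ϖ) ≤ 1 := by
        rw [map_div₀, hϖ]
        rw [lt_one_iff98] at h1
        exact (div_le_one₀ (by simp)).mpr h1
      have hδ2 : Valued.v ((x0 ^ 2 - τ * x0 + δ) / ϖ ^ 2) ≤ 1 := by
        rw [map_div₀, map_pow, hϖ]
        refine (div_le_one₀ (by simp)).mpr ?_
        refine h2.trans (le_of_eq ?_)
        rw [← exp_nsmul]
        congr 1
      have hD2 : exp (-(n : ℤ)) ≤ Valued.v (((τ - 2 * x0) / ϖ) ^ 2
          - 4 * ((x0 ^ 2 - τ * x0 + δ) / ϖ ^ 2)) := by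
        have h3 : ((τ - 2 * x0) / ϖ) ^ 2 - 4 * ((x0 ^ 2 - τ * x0 + δ) / ϖ ^ 2)
            = (τ ^ 2 - 4 * δ) / ϖ ^ 2 := by
          field_simp
          ring
        rw [h3, map_div₀, map_pow, hϖ]
        rw [le_div_iff₀ (by simp)]
        refine le_trans ?_ hD
        rw [← exp_nsmul, ← exp_add, exp_le_exp]
        simp only [nsmul_eq_mul]
        push_cast
        omega
      obtain ⟨c, e, τ', δ', hc, e1, e2, hτ', hδ', hirr⟩ := ih _ _ hτ2 hδ2 hD2 hE1
      refine ⟨ϖ * c, x0 + ϖ * e, τ', δ', mul_ne_zero hϖ0 hc, ?_, ?_, hτ', hδ', hirr⟩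
      · have e1' : τ' * c * ϖ = τ - 2 * x0 - 2 * e * ϖ := by
          rw [e1]
          field_simp
        linear_combination e1'
      · have e2' : δ' * c ^ 2 * ϖ ^ 2
            = (e * ϖ) ^ 2 - (τ - 2 * x0) * (e * ϖ) + (x0 ^ 2 - τ * x0 + δ) := by
          rw [e2]
          field_simp
        linear_combination e2'

/-- **Normalisation.**  `τ, δ` arbitrary, discriminant not zero. -/
theorem normalise98 [CompleteSpace k] (ϖ : k) (hϖ : Valued.v ϖ = exp (-1 : ℤ)) (τ δ : k)
    (hD : τ ^ 2 - 4 * δ ≠ 0) (hE : EvenVal98 τ δ) :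
    ∃ c e τ' δ' : k, c ≠ 0 ∧ τ' * c = τ - 2 * e ∧ δ' * c ^ 2 = e ^ 2 - τ * e + δ ∧
      Valued.v τ' ≤ 1 ∧ Valued.v δ' ≤ 1 ∧
      ∀ x : k, Valued.v x ≤ 1 → Valued.v (x ^ 2 - τ' * x + δ') = 1 := by
  have hϖ0 : ϖ ≠ 0 := by
    intro h0
    rw [h0, map_zero] at hϖ
    exact exp_ne_zero hϖ.symm
  obtain ⟨M1, hM1⟩ := exists_le_exp98 (Valued.v τ)
  obtain ⟨M2, hM2⟩ := exists_le_exp98 (Valued.v δ)
  set M : ℕ := max M1 M2 with hM
  have hvM : Valued.v (ϖ ^ M) = exp (-(M : ℤ)) := by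
    rw [map_pow, hϖ, ← exp_nsmul]
    congr 1
    simp
  have hτ0 : Valued.v (τ * ϖ ^ M) ≤ 1 := by
    rw [map_mul, hvM, exp_neg, ← div_eq_mul_inv]
    refine (div_le_one₀ (by simp)).mpr (hM1.trans ?_)
    rw [exp_le_exp]
    exact_mod_cast le_max_left M1 M2
  have hδ0 : Valued.v (δ * (ϖ ^ M) ^ 2) ≤ 1 := by
    rw [map_mul, map_pow, hvM, ← exp_nsmul]
    have h2 : (2 • (-(M : ℤ))) = -((2 * M : ℕ) : ℤ) := by
      simp only [nsmul_eq_mul]
      push_cast
      ring
    rw [h2, exp_neg, ← div_eq_mul_inv]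
    refine (div_le_one₀ (by simp)).mpr (hM2.trans ?_)
    rw [exp_le_exp]
    have : (M2 : ℤ) ≤ M := by exact_mod_cast le_max_right M1 M2
    push_cast
    omega
  have hE0 : EvenVal98 (τ * ϖ ^ M) (δ * (ϖ ^ M) ^ 2) := by
    intro x
    obtain ⟨m, hm⟩ := hE (x / ϖ ^ M)
    refine ⟨m - M, ?_⟩
    have h1 : x ^ 2 - τ * ϖ ^ M * x + δ * (ϖ ^ M) ^ 2
        = ((x / ϖ ^ M) ^ 2 - τ * (x / ϖ ^ M) + δ) * (ϖ ^ M) ^ 2 := by
      field_simp
    rw [h1, map_mul, hm, map_pow, hvM, ← exp_nsmul, ← exp_add]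
    congr 1
    simp only [nsmul_eq_mul]
    push_cast
    ring
  have hD0 : (τ * ϖ ^ M) ^ 2 - 4 * (δ * (ϖ ^ M) ^ 2) ≠ 0 := by
    have h1 : (τ * ϖ ^ M) ^ 2 - 4 * (δ * (ϖ ^ M) ^ 2) = (τ ^ 2 - 4 * δ) * (ϖ ^ M) ^ 2 := by ring
    rw [h1]
    exact mul_ne_zero hD (pow_ne_zero 2 (pow_ne_zero M hϖ0))
  have hvD0 : Valued.v ((τ * ϖ ^ M) ^ 2 - 4 * (δ * (ϖ ^ M) ^ 2)) ≠ 0 :=
    (Valuation.ne_zero_iff _).mpr hD0
  have hn : exp (-(((-log (Valued.v ((τ * ϖ ^ M) ^ 2 - 4 * (δ * (ϖ ^ M) ^ 2)))).toNat : ℕ) : ℤ))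
      ≤ Valued.v ((τ * ϖ ^ M) ^ 2 - 4 * (δ * (ϖ ^ M) ^ 2)) := by
    rw [← le_log_iff_exp_le hvD0]
    have := Int.self_le_toNat (-log (Valued.v ((τ * ϖ ^ M) ^ 2 - 4 * (δ * (ϖ ^ M) ^ 2))))
    omega
  obtain ⟨c, e, τ', δ', hc, e1, e2, hτ', hδ', hirr⟩ :=
    descent98 ϖ hϖ _ _ _ hτ0 hδ0 hn hE0
  have hpM : ϖ ^ M ≠ 0 := pow_ne_zero M hϖ0
  refine ⟨c / ϖ ^ M, e / ϖ ^ M, τ', δ', div_ne_zero hc hpM, ?_, ?_, hτ', hδ', hirr⟩
  · field_simp
    linear_combination e1
  · field_simp
    linear_combination e2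

end Fermat.Agent.LT.T6.H98

end

end
-- ===== PACK-END LT/T6/H98/Descent.lean

-- ===== PACK-BEGIN LT/T6/H904/SplitInt.lean
section



/-!
# Row LT, tower T6, sub-leaf T6.17 `SplitInt2C` + `SplitInt3C` (helper904)

OFF-MAIN.  Split places in integral form ([L] §8): on any locally compact group with a left Haar
measure, by left invariance of the measure (no hypothesis on the functions).
-/

set_option autoImplicit false

open MeasureTheory

noncomputable section

namespace Fermat.Agent.LT.T6.H904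

open Fermat.Agent.LT.T6

/-- One step: the substitution `h = a * x`. -/
theorem step904 {H : Type} [Group H] [TopologicalSpace H] [IsTopologicalGroup H]
    [MeasurableSpace H] [BorelSpace H] (μ : Measure H) [μ.IsMulLeftInvariant]
    (φ ψ : H → ℂ) (a b : H) :
    ∫ x, φ (a * x) * ψ (x⁻¹ * b) ∂μ = convInt μ φ ψ (a * b) := by
  unfold convInt
  have h := integral_mul_left_eq_self (μ := μ) (fun h : H => φ h * ψ (h⁻¹ * (a * b))) a
  rw [← h]
  refine integral_congr_ae (Filter.Eventually.of_forall fun x => ?_)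
  simp only [mul_inv_rev, mul_assoc, inv_mul_cancel_left]

/-- **T6.17, `l = 2`.** -/
theorem splitInt2 : SplitInt2C := by
  intro H _ _ _ _ _ _ μ _ φ₀ φ₁ δ₀ δ₁ x₀
  have h := step904 μ φ₀ φ₁ (x₀⁻¹ * δ₀) (δ₁ * x₀)
  have e1 : x₀⁻¹ * δ₀ * (δ₁ * x₀) = x₀⁻¹ * (δ₀ * δ₁) * x₀ := by simp only [mul_assoc]
  rw [e1] at h
  rw [← h]
  refine integral_congr_ae (Filter.Eventually.of_forall fun x => ?_)
  simp only [mul_assoc]

/-- **T6.17, `l = 3`.** -/
theorem splitInt3 : SplitInt3C := by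
  intro H _ _ _ _ _ _ μ _ φ₀ φ₁ φ₂ δ₀ δ₁ δ₂ x₀
  have inner : ∀ x₁ : H, ∫ x₂, φ₁ (x₁⁻¹ * δ₁ * x₂) * φ₂ (x₂⁻¹ * δ₂ * x₀) ∂μ
      = convInt μ φ₁ φ₂ (x₁⁻¹ * (δ₁ * δ₂ * x₀)) := by
    intro x₁
    have h := step904 μ φ₁ φ₂ (x₁⁻¹ * δ₁) (δ₂ * x₀)
    have e1 : x₁⁻¹ * δ₁ * (δ₂ * x₀) = x₁⁻¹ * (δ₁ * δ₂ * x₀) := by simp only [mul_assoc]
    rw [e1] at h
    rw [← h]
    refine integral_congr_ae (Filter.Eventually.of_forall fun x => ?_)
    simp only [mul_assoc]
  have h := step904 μ φ₀ (convInt μ φ₁ φ₂) (x₀⁻¹ * δ₀) (δ₁ * δ₂ * x₀)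
  have e2 : x₀⁻¹ * δ₀ * (δ₁ * δ₂ * x₀) = x₀⁻¹ * (δ₀ * δ₁ * δ₂) * x₀ := by simp only [mul_assoc]
  rw [e2] at h
  rw [← h]
  refine integral_congr_ae (Filter.Eventually.of_forall fun x => ?_)
  simp only [inner]

end Fermat.Agent.LT.T6.H904

end

end
-- ===== PACK-END LT/T6/H904/SplitInt.lean

-- ===== PACK-BEGIN LT/T6/Inf/H502/UpShift.lean
section



/-!
# Row LT, sub-tower T6inf, leaf T6inf.05 (helper502): weight `0` in the vocabulary of `SpecArch`

OFF-MAIN.  Mathlib only.

`sphR0 s (cosh t) = (1/2π) ∫₀^{2π} (cosh t - cos u sinh t)^{-s - 1/2} du = P_{-s}(t)` (shift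
`u ↦ u + π`).
-/

set_option autoImplicit false

open Real MeasureTheory

noncomputable section

namespace Fermat.Agent.LT.T6.Inf.H502

theorem sqrt_cosh_sq502 (t : ℝ) (ht : 0 ≤ t) : Real.sqrt (Real.cosh t ^ 2 - 1) = Real.sinh t := by
  have h : Real.cosh t ^ 2 - 1 = Real.sinh t ^ 2 := by rw [Real.cosh_sq]; ring
  rw [h, Real.sqrt_sq (Real.sinh_nonneg_iff.2 ht)]

/-- The body of `T6.sphR0`. -/
def sphR0_502 (s : ℂ) (ρ : ℝ) : ℂ :=
  ((1 / (2 * Real.pi) : ℝ) : ℂ) * ∫ u in (0 : ℝ)..(2 * Real.pi),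
    ((ρ - Real.cos u * Real.sqrt (ρ ^ 2 - 1) : ℝ) : ℂ) ^ (-s - 1 / 2)

theorem integral_neg_cos502 (G : ℝ → ℂ) :
    ∫ u in (0 : ℝ)..(2 * Real.pi), G (-Real.cos u)
      = ∫ u in (0 : ℝ)..(2 * Real.pi), G (Real.cos u) := by
  have h1 : (fun u : ℝ => G (-Real.cos u))
      = fun u => (fun v => G (Real.cos v)) (u + Real.pi) := by
    ext u
    simp [Real.cos_add_pi]
  rw [h1, intervalIntegral.integral_comp_add_right (fun v => G (Real.cos v)) Real.pi]
  have hper : Function.Periodic (fun v : ℝ => G (Real.cos v)) (2 * Real.pi) := by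
    intro v
    simp [Real.cos_add_two_pi]
  have h2 := hper.intervalIntegral_add_eq (0 + Real.pi) 0
  have e1 : (0 : ℝ) + Real.pi + 2 * Real.pi = 2 * Real.pi + Real.pi := by ring
  have e2 : (0 : ℝ) + 2 * Real.pi = 2 * Real.pi := by ring
  rw [e1, e2] at h2
  exact h2

theorem sphR0_eq_sphP502 (s : ℂ) (t : ℝ) (ht : 0 < t) :
    sphR0_502 s (Real.cosh t) = sphP502 (-s) t := by
  unfold sphR0_502 sphP502
  rw [sqrt_cosh_sq502 t ht.le]
  congr 1
  have h := integral_neg_cos502
    (fun k => ((Real.cosh t + Real.sinh t * k : ℝ) : ℂ) ^ (-s - 1 / 2))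
  rw [← h]
  refine intervalIntegral.integral_congr fun u _ => ?_
  show ((Real.cosh t - Real.cos u * Real.sinh t : ℝ) : ℂ) ^ (-s - 1 / 2)
    = ((Real.cosh t + Real.sinh t * (-Real.cos u) : ℝ) : ℂ) ^ (-s - 1 / 2)
  congr 2
  ring

/-- Weight `0`: if `sphR0 s (cosh t)` is real and bounded by `1` on `(0, ∞)`, then `s² - 1/4` is
real and `≤ 0`. -/
theorem param0_of_bounded502 (s : ℂ)
    (h : ∀ t : ℝ, 0 < t →
      (sphR0_502 s (Real.cosh t)).im = 0 ∧ ‖sphR0_502 s (Real.cosh t)‖ ≤ 1) :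
    (s ^ 2 - 1 / 4).im = 0 ∧ (s ^ 2 - 1 / 4).re ≤ 0 := by
  have h' := param_of_bounded502 (-s) (fun t ht => by
    rw [← sphR0_eq_sphP502 s t ht]
    exact h t ht)
  rwa [neg_sq] at h'

end Fermat.Agent.LT.T6.Inf.H502

end

end
-- ===== PACK-END LT/T6/Inf/H502/UpShift.lean

-- ===== PACK-BEGIN LT/T6/SpecTame.lean
section



/-!
# Row LT, tower T6 (helper22, architect): the TAME form of `BadMatchC` — ADDITIVE SPEC

OFF-MAIN.  `LT/T6/Spec.lean` v3 is NOT touched.  Ruling on the requests of helper301 (#16487),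
helper983 (#16520), helper288 (#16533).

`BadMatchC` as typed contains the WILD quadratic ramified case (`l = 2`, `e = 2`, residue
characteristic `2`).  Through the quaternion case at a central non-norm it is equivalent to the
norm index theorem for the quadratic extensions of a DYADIC field.  The wall never meets it:

* cubic step `E/F`: `l = 3` (no quaternion case; `CenOddC`, `CenNormC` are uniform);
* quadratic step `ℚ(√-3)/ℚ`: ramified at `3` only (tame), `2` is inert (`e = 1`).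

So the output of T6 is `T6OutTame` = `T6Out` with `BadMatchC` replaced by `BadMatchTameC`
(extra hypothesis `l = 2 → e = 2 → v(2) = 1`).  `T6Out → T6OutTame` is formal
(`t6OutTame_of_t6Out`), so nothing proved for `T6Out` is lost.  The consumer (T7, node
`DescQ3C`) supplies the hypothesis at its places: at a place `v ∣ p` of `ℚ` ramified in
`ℚ(√-3)`, `p = 3` and `2` is a unit.
-/

set_option autoImplicit false

open scoped Matrix

noncomputable section

namespace Fermat.Agent.LT.T6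

/-- **P6, TAME FORM.**  `BadMatchC` with one more hypothesis, placed after `l.Prime`: in the
quadratic ramified case the residue characteristic is odd (`l = 2 → e = 2 → v(2) = 1`).
Everything else is `BadMatchC` verbatim. -/
def BadMatchTameC : Prop :=
  ∀ (k k' : Type) [Field k] [Field k'] [Valued k Γ₀] [Valued k' Γ₀] (q l e : ℕ)
    (i : k →+* k') (s : k' ≃+* k'),
    IsLocalField k q → IsLocalField k' (q ^ (l / e)) → IsLocalExt k k' l e i s → l.Prime →
    (l = 2 → e = 2 → Valued.v (2 : k) = 1) →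
    ∀ (n : ℕ) (φ : GL (Fin 2) k' → ℂ), IsBiInv (InU n) φ → HasFinSupp (InU n) φ →
    ∃ (m : ℕ) (f : GL (Fin 2) k → ℂ), IsBiInv (InU m) f ∧ HasFinSupp (InU m) f ∧
      (∀ (δ : GL (Fin 2) k') (γ : GL (Fin 2) k) (c c' : ℂ), IsReg γ →
        IsConj (twNorm s l δ) (Matrix.GeneralLinearGroup.map i γ) →
        IsTwOrbSum s n φ δ c → IsOrbSum m f γ c' → c = c') ∧
      ∀ (γ : GL (Fin 2) k) (c' : ℂ), IsReg γ → ¬ IsNormFrom l i s γ →
        IsOrbSum m f γ c' → c' = 0

/-- The full statement implies the tame one. -/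
theorem badMatchTame_of_badMatch (h : BadMatchC) : BadMatchTameC :=
  fun k k' _ _ _ _ q l e i s hk hk' hext hl _ n φ hφ hφ' =>
    h k k' q l e i s hk hk' hext hl n φ hφ hφ'

/-- **THE TOWER PROP of T6, tame form** (what T7 consumes): `T6Out` with `BadMatchTameC` in the
place of `BadMatchC`. -/
def T6OutTame : Prop :=
  NormClassC ∧ NormInjC ∧ TwCentC ∧ NormImageTCC ∧ NormImageQC ∧ InstLocalC ∧ InstExtC ∧
    InstSplitC ∧
    OrbSumExC ∧ OrbSumUniqC ∧ OrbSumIntC ∧ SatakeEigenC ∧ BCExistsC ∧ FundLemmaC ∧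
    SplitMatchC ∧ SplitInt2C ∧ SplitInt3C ∧ BadMatchTameC

/-- `T6Out → T6OutTame`. -/
theorem t6OutTame_of_t6Out (h : T6Out) : T6OutTame := by
  obtain ⟨a1, a2, a2', a3, a3q, i1, i2, i3, b1, b2, b5, b3, b4, c, d1, d2, d3, e1⟩ := h
  exact ⟨a1, a2, a2', a3, a3q, i1, i2, i3, b1, b2, b5, b3, b4, c, d1, d2, d3,
    badMatchTame_of_badMatch e1⟩

/-- **TOP of T6, tame form**: as `top`, with `BadMatchTameC` as last sub-leaf. -/
theorem topTame (hasseTC : HasseNormTCC) (hasseQ : HasseNormQC)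
    (a1 : NormClassC) (a2 : NormInjC) (a2' : TwCentC) (a3 : HasseNormTCC → NormImageTCC)
    (a3q : HasseNormQC → NormImageQC)
    (i1 : InstLocalC) (i2 : InstExtC) (i3 : InstSplitC)
    (b1 : OrbSumExC) (b2 : OrbSumUniqC) (b5 : OrbSumIntC) (b3 : SatakeEigenC) (b4 : BCExistsC)
    (c1 : FLHypC) (c2 : FLEllUnrC) (c3 : FLEllRamC) (c4 : FLVanishC)
    (d1 : SplitMatchC) (d2 : SplitInt2C) (d3 : SplitInt3C) (e1 : BadMatchTameC) : T6OutTame :=
  ⟨a1, a2, a2', a3 hasseTC, a3q hasseQ, i1, i2, i3, b1, b2, b5, b3, b4,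
    fundLemma_of_cases c1 c2 c3 c4, d1, d2, d3, e1⟩

end Fermat.Agent.LT.T6

end

end
-- ===== PACK-END LT/T6/SpecTame.lean

-- ===== PACK-BEGIN LT/T6/H584/Comm2.lean
section



/-!
# Row LT, tower T6, leaf T6.19 `OrbSumIntC` (helper584): the algebra of `2 × 2` matrices

OFF-MAIN.  Mathlib + `LT/T6/Spec.lean` (v3, sha256 `8c5f2ae7`, byte-identical).

* `trace_mul_quad584` : for commuting `t, u` the trace `X = tr(tu)` satisfies
  `X² = tr t · tr u · X - (tr t)² det u - det t (tr u)² + 4 det t det u`;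
* `val_le_one_of_quad584` : a root of `X² = a X + b`, `a, b` integral, is integral;
* `commute_of_reg584` : the centraliser of a regular `2 × 2` matrix over a field is commutative;
* `twCent_mul_twN584` : the twisted centraliser of `δ` commutes with the norm of `δ`.
-/

set_option autoImplicit false
set_option linter.unusedSectionVars false

open Matrix

noncomputable section

namespace Fermat.Agent.LT.T6.H584

open Fermat.Agent.LT.T6

section Ring

variable {R : Type} [CommRing R]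

/-- Cayley--Hamilton for `2 × 2` matrices. -/
theorem sq_eq_ch584 (A : Matrix (Fin 2) (Fin 2) R) :
    A * A = A.trace • A - A.det • (1 : Matrix (Fin 2) (Fin 2) R) := by
  ext i j
  fin_cases i <;> fin_cases j <;>
    simp [Matrix.mul_apply, Fin.sum_univ_two, Matrix.trace_fin_two, Matrix.det_fin_two] <;> ring

theorem trace_sq584 (A : Matrix (Fin 2) (Fin 2) R) :
    (A * A).trace = A.trace ^ 2 - 2 * A.det := by
  rw [sq_eq_ch584]
  simp [Matrix.trace_sub, Matrix.trace_smul, Matrix.trace_one]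
  ring

/-- The quadratic equation of `tr(tu)` for commuting `t, u`. -/
theorem trace_mul_quad584 (t u : Matrix (Fin 2) (Fin 2) R) (h : t * u = u * t) :
    (t * u).trace ^ 2 = t.trace * u.trace * (t * u).trace
      + (-(t.trace ^ 2 * u.det) - t.det * u.trace ^ 2 + 4 * (t.det * u.det)) := by
  have h1 : (t * u) * (t * u) = (t * t) * (u * u) := by
    calc (t * u) * (t * u) = t * (u * t) * u := by simp only [Matrix.mul_assoc]
      _ = t * (t * u) * u := by rw [h]
      _ = (t * t) * (u * u) := by simp only [Matrix.mul_assoc]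
  have h2 := trace_sq584 (t * u)
  rw [h1, sq_eq_ch584 t, sq_eq_ch584 u] at h2
  have h3 : ((t.trace • t - t.det • (1 : Matrix (Fin 2) (Fin 2) R))
        * (u.trace • u - u.det • (1 : Matrix (Fin 2) (Fin 2) R))).trace
      = t.trace * u.trace * (t * u).trace - t.trace * u.det * t.trace
        - t.det * u.trace * u.trace + 2 * (t.det * u.det) := by
    simp only [Matrix.sub_mul, Matrix.mul_sub, Matrix.trace_sub, Matrix.trace_smul,
      Matrix.trace_one, smul_mul_assoc, mul_smul_comm, Matrix.mul_one, Matrix.one_mul,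
      smul_eq_mul, Fintype.card_fin]
    push_cast
    ring
  rw [h3, Matrix.det_mul] at h2
  linear_combination -h2

end Ring

section Val

variable {k : Type} [Field k] [Valued k Γ₀]

/-- A root of `X² = a X + b` with `a`, `b` integral is integral. -/
theorem val_le_one_of_quad584 (X a b : k) (h : X ^ 2 = a * X + b) (ha : Valued.v a ≤ 1)
    (hb : Valued.v b ≤ 1) : Valued.v X ≤ 1 := by
  by_contra hX
  rw [not_le] at hX
  have hpos : (0 : Γ₀) < Valued.v X := lt_trans zero_lt_one hX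
  have h1 : Valued.v (X ^ 2) = Valued.v X * Valued.v X := by rw [sq, map_mul]
  have h3 : Valued.v (a * X) ≤ Valued.v X := by
    rw [map_mul]
    calc Valued.v a * Valued.v X ≤ 1 * Valued.v X := mul_le_mul_left ha _
      _ = Valued.v X := one_mul _
  have h4 : Valued.v X < Valued.v X * Valued.v X := by
    calc Valued.v X = Valued.v X * 1 := (mul_one _).symm
      _ < Valued.v X * Valued.v X := by
        exact (mul_lt_mul_iff_right₀ hpos).2 hX
  rw [h] at h1
  have h5 : Valued.v X * Valued.v X ≤ Valued.v X := by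
    rw [← h1]
    exact (Valued.v.map_add _ _).trans (max_le h3 (hb.trans hX.le))
  exact absurd h5 (not_le.2 h4)

theorem val_two_le_one584 : Valued.v (2 : k) ≤ 1 := by
  have : (2 : k) = 1 + 1 := by norm_num
  rw [this]
  exact (Valued.v.map_add _ _).trans (by simp)

theorem val_four_le_one584 : Valued.v (4 : k) ≤ 1 := by
  have : (4 : k) = 2 * 2 := by norm_num
  rw [this, map_mul]
  calc Valued.v (2 : k) * Valued.v (2 : k) ≤ 1 * 1 :=
        mul_le_mul' val_two_le_one584 val_two_le_one584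
    _ = 1 := one_mul _

/-- For commuting `t`, `u` with integral traces and determinants, `tr(tu)` is integral. -/
theorem val_trace_mul_le_one584 (t u : Matrix (Fin 2) (Fin 2) k) (h : t * u = u * t)
    (ht : Valued.v t.trace ≤ 1) (htd : Valued.v t.det ≤ 1)
    (hu : Valued.v u.trace ≤ 1) (hud : Valued.v u.det ≤ 1) :
    Valued.v (t * u).trace ≤ 1 := by
  refine val_le_one_of_quad584 _ _ _ (trace_mul_quad584 t u h) ?_ ?_
  · rw [map_mul]
    calc Valued.v t.trace * Valued.v u.trace ≤ 1 * 1 := mul_le_mul' ht hu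
      _ = 1 := one_mul _
  · have e1 : Valued.v (t.trace ^ 2 * u.det) ≤ 1 := by
      rw [map_mul, map_pow]
      calc Valued.v t.trace ^ 2 * Valued.v u.det ≤ 1 ^ 2 * 1 :=
            mul_le_mul' (pow_le_pow_left₀ zero_le ht 2) hud
        _ = 1 := by simp
    have e2 : Valued.v (t.det * u.trace ^ 2) ≤ 1 := by
      rw [map_mul, map_pow]
      calc Valued.v t.det * Valued.v u.trace ^ 2 ≤ 1 * 1 ^ 2 :=
            mul_le_mul' htd (pow_le_pow_left₀ zero_le hu 2)
        _ = 1 := by simp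
    have e3 : Valued.v (4 * (t.det * u.det)) ≤ 1 := by
      rw [map_mul, map_mul]
      calc Valued.v (4 : k) * (Valued.v t.det * Valued.v u.det) ≤ 1 * (1 * 1) :=
            mul_le_mul' val_four_le_one584 (mul_le_mul' htd hud)
        _ = 1 := by simp
    have e4 : Valued.v (-(t.trace ^ 2 * u.det) - t.det * u.trace ^ 2) ≤ 1 := by
      refine (Valued.v.map_sub _ _).trans (max_le ?_ e2)
      rw [Valuation.map_neg]
      exact e1
    exact (Valued.v.map_add _ _).trans (max_le e4 e3)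

end Val

section Field

variable {k : Type} [Field k]

/-- `disc(γ) • X` lies in the span of `1` and `γ` if `X` commutes with `γ`. -/
theorem smul_eq_span584 (γ X : Matrix (Fin 2) (Fin 2) k) (hX : X * γ = γ * X) :
    (γ.trace ^ 2 - 4 * γ.det) • X
      = ((γ.trace ^ 2 - 4 * γ.det) * X 0 0
          - ((X 0 0 - X 1 1) * (γ 0 0 - γ 1 1) + 2 * X 0 1 * γ 1 0 + 2 * X 1 0 * γ 0 1) * γ 0 0)
            • (1 : Matrix (Fin 2) (Fin 2) k)
        + ((X 0 0 - X 1 1) * (γ 0 0 - γ 1 1) + 2 * X 0 1 * γ 1 0 + 2 * X 1 0 * γ 0 1) • γ := by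
  have R11 := congrFun (congrFun hX 0) 0
  have R12 := congrFun (congrFun hX 0) 1
  have R21 := congrFun (congrFun hX 1) 0
  have R22 := congrFun (congrFun hX 1) 1
  simp only [Matrix.mul_apply, Fin.sum_univ_two] at R11 R12 R21 R22
  ext i j
  fin_cases i <;> fin_cases j
  · simp [Matrix.trace_fin_two, Matrix.det_fin_two]
  · simp [Matrix.trace_fin_two, Matrix.det_fin_two]
    linear_combination (-(γ 0 0 - γ 1 1)) * R12 + (2 * γ 0 1) * R11
  · simp [Matrix.trace_fin_two, Matrix.det_fin_two]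
    linear_combination (γ 0 0 - γ 1 1) * R21 - (2 * γ 1 0) * R11
  · simp [Matrix.trace_fin_two, Matrix.det_fin_two]
    linear_combination (-(2 * γ 1 0)) * R12 + (2 * γ 0 1) * R21

/-- The centraliser of a regular `2 × 2` matrix over a field is commutative. -/
theorem commute_of_reg584 (γ X Y : Matrix (Fin 2) (Fin 2) k)
    (hγ : γ.trace ^ 2 - 4 * γ.det ≠ 0) (hX : X * γ = γ * X) (hY : Y * γ = γ * Y) :
    X * Y = Y * X := by
  have hX' := smul_eq_span584 γ X hX
  have hY' := smul_eq_span584 γ Y hY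
  have hc : Commute ((γ.trace ^ 2 - 4 * γ.det) • X) ((γ.trace ^ 2 - 4 * γ.det) • Y) := by
    rw [hX', hY']
    apply Commute.add_left <;> apply Commute.add_right <;>
      (apply Commute.smul_left; apply Commute.smul_right) <;>
      first
        | exact Commute.one_left _
        | exact Commute.one_right _
        | exact Commute.refl _
  have hc' := hc.eq
  rw [smul_mul_smul_comm, smul_mul_smul_comm] at hc'
  exact smul_right_injective _ (mul_ne_zero hγ hγ) hc'

end Field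

section Tw

variable {Γ : Type} [Group Γ]

theorem twN_succ584 (s : Γ →* Γ) (n : ℕ) (δ : Γ) : twN s (n + 1) δ = δ * s (twN s n δ) := rfl

theorem twN_zero584 (s : Γ →* Γ) (δ : Γ) : twN s 0 δ = 1 := rfl

/-- The twisted centraliser of `δ` commutes with the norm of `δ`, up to `sⁿ`. -/
theorem twCent_mul_twN584 (s : Γ →* Γ) (δ x : Γ) (hx : x⁻¹ * δ * s x = δ) (n : ℕ) :
    x * twN s n δ = twN s n δ * (s^[n] x) := by
  have hx' : δ * s x = x * δ := by
    calc δ * s x = x * (x⁻¹ * δ * s x) := by group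
      _ = x * δ := by rw [hx]
  induction n with
  | zero => simp [twN_zero584]
  | succ n ih =>
    rw [twN_succ584, Function.iterate_succ_apply']
    calc x * (δ * s (twN s n δ)) = (x * δ) * s (twN s n δ) := by rw [mul_assoc]
      _ = δ * s x * s (twN s n δ) := by rw [hx']
      _ = δ * s (x * twN s n δ) := by rw [map_mul, mul_assoc]
      _ = δ * s (twN s n δ * s^[n] x) := by rw [ih]
      _ = δ * s (twN s n δ) * s (s^[n] x) := by rw [map_mul, mul_assoc]

/-- The norm of an `s`-conjugate. -/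
theorem twN_conj584 (s : Γ →* Γ) (δ x : Γ) (n : ℕ) :
    twN s n (x⁻¹ * δ * s x) = x⁻¹ * twN s n δ * (s^[n] x) := by
  induction n with
  | zero => simp [twN_zero584]
  | succ n ih =>
    rw [twN_succ584, twN_succ584, ih, Function.iterate_succ_apply']
    simp only [map_mul, map_inv, mul_assoc, mul_inv_cancel_left]

end Tw

end Fermat.Agent.LT.T6.H584

end

end
-- ===== PACK-END LT/T6/H584/Comm2.lean

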