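import Mathlib
import Fermat.Agent.Pack.LT3.E2L0
import Fermat.Agent.Pack.LT3.E3L1
import Fermat.Agent.Pack.LT2.E0L1
import Fermat.Agent.Pack.LT3.E3L2
import Fermat.Agent.Pack.LT3.E0L2
import Fermat.Agent.Pack.LT3.E0L1
import Fermat.Agent.Pack.LT3.E0L3
import Fermat.Agent.Pack.LT3.E2L2
import Fermat.Agent.Pack.LT3.E4L2

set_option linter.all false

-- ===== PACK-BEGIN LT/T6/H830/HCSpec.lean
section



/-!
# Row LT, tower T6, leaf T6.29 `ArchSpec` (spectral relation): SUB-SPEC (helper830)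

OFF-MAIN.  Definitions and `Prop`s only (no `sorry`, nothing assumed).  Frozen frame:
`Fermat/Agent/LT/T6/SpecArch.lean` (helper22@7e02b2a11, sha256 `003240b2…`), imported verbatim.

## The statement of T6.29

`ArchSpecC` : for Haar measures `μ` of `GL₂(ℝ)`, `μ'` of `GL₂(ℂ)` there is `C ≠ 0` such that for
every test function `f` of weight `n ∈ {0, ±1}` on `GL₂(ℝ)`, every bi-`U(2)`-invariant test
function `φ` on `GL₂(ℂ)` and every `κ`:  if the Harish-Chandra (Abel) transforms match along the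
norm map of the positive torus,

    ∫_ℝ f(γ n(x)) dx = κ ∫_ℂ φ(δ n(w)) dw,   δ = e^{ζ/2} diag(e^{r/2}, e^{-r/2}),  γ = δ δ̄ = δ²,  r ≠ 0,

then `sphTransR μ n f s = C κ · sphTransC μ' φ (2 s)` for all `s ∈ ℂ`.
(The hypothesis is what the geometric matching at the hyperbolic elements gives, T6.25.)

## Coordinates

`bR ζ r x = e^{ζ/2} [[e^{r/2}, e^{r/2} x], [0, e^{-r/2}]] = e^{ζ/2} a_r n(x)`; the left Haar measure
of the group `B⁺` of these matrices is `dζ dr dx`.  Same for `bC ζ r w`, `w ∈ ℂ`.  The norm map of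
the positive torus is `(ζ, r) ↦ (2ζ, 2r)`.

## The cut

    ArchSpecC  ⟸ HCTransRC + HCTransCC + MelSubstC                         (`archSpec_of_leaves830`)
    HCTransRC  ⟸ EisIntRC (SphAvgRC) + EisIwRC (IwasawaIntRC)              (`hcTransR_of_leaves830`)
    SphAvgRC   ⟸ SphAvgOfC (CartanRC, SphAvgAtC)
    HCTransCC  ⟸ HCTransCOfC (IwasawaIntCC, WIntCC, SphCKernelC, TriFubiniC)
    WIntCC     ⟸ WIntOfC (CartanCC)

`IwasawaIntRC`, `IwasawaIntCC` = the Iwasawa integration formula for right-`K`-invariant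
functions (the part of T6.23 used here).

## Why the Props are true

* R-side.  `E(g) = eisR n s g = (det g / (c² + d²))^{s+1/2} ((d + ic)/√(c²+d²))^n` (`(c, d)` the
  second row) satisfies `E(b g k) = e^{r(s+1/2)} E(g) χ_n(k)` and
  `sphFn n s y = (1/2π) ∫₀^{2π} e^{-inθ} E(k_θ y) dθ` for `det y > 0`: by the Cartan decomposition
  it is enough to take `y = a_t`, `t ≥ 0`, where `c² + d² = cosh t - cos 2θ sinh t` and
  `e^{-iθ}(d + ic) = cosh(t/2) - cos 2θ sinh(t/2) + i sin 2θ sinh(t/2)` (the last term is odd).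
  So `∫ f sphFn dμ = ∫ f E dμ` (Fubini, left invariance of `μ`, `f(k⁻¹ y) = χ_n(k) f(y)`), and
  `f E` is right `SO(2)`-invariant: Iwasawa.
* C-side.  `φ(y)` depends on `|det y|` and `rhoC y` only (Cartan), and
  `rhoC (bC ζ r w) = cosh r + e^r |w|² / 2`; polar coordinates in `w` give
  `∫_ℂ φ(bC ζ r w) Ψ(rhoC) dw = 2π e^{-r} ∫_{u > |r|} φ(bC ζ u 0) Ψ(cosh u) sinh u du`;
  `sphC ν (cosh u) sinh u = (1/2) ∫_{-u}^{u} e^{ρν} dρ`; Fubini on `{|r| < u}` twice.
-/

set_option autoImplicit false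

open scoped Matrix
open MeasureTheory

noncomputable section

namespace Fermat.Agent.LT.T6.H830

open Fermat.Agent.LT.T6

/-! ## 1. Coordinates -/

/-- `e^{ζ/2} [[e^{r/2}, e^{r/2} x], [0, e^{-r/2}]]` in `GL₂(ℝ)`. -/
def bR (ζ r x : ℝ) : GL (Fin 2) ℝ :=
  Matrix.GeneralLinearGroup.mkOfDetNeZero
    !![Real.exp ((ζ + r) / 2), Real.exp ((ζ + r) / 2) * x; 0, Real.exp ((ζ - r) / 2)]
    (by
      rw [Matrix.det_fin_two_of, mul_zero, sub_zero]
      exact mul_ne_zero (Real.exp_ne_zero _) (Real.exp_ne_zero _))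

/-- `e^{ζ/2} [[e^{r/2}, e^{r/2} w], [0, e^{-r/2}]]` in `GL₂(ℂ)`. -/
def bC (ζ r : ℝ) (w : ℂ) : GL (Fin 2) ℂ :=
  Matrix.GeneralLinearGroup.mkOfDetNeZero
    !![((Real.exp ((ζ + r) / 2) : ℝ) : ℂ), ((Real.exp ((ζ + r) / 2) : ℝ) : ℂ) * w;
      0, ((Real.exp ((ζ - r) / 2) : ℝ) : ℂ)]
    (by
      rw [Matrix.det_fin_two_of, mul_zero, sub_zero]
      exact mul_ne_zero (Complex.ofReal_ne_zero.2 (Real.exp_ne_zero _))
        (Complex.ofReal_ne_zero.2 (Real.exp_ne_zero _)))

/-- The rotation `k_θ = [[cos θ, -sin θ], [sin θ, cos θ]]`. -/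
def rotR (θ : ℝ) : GL (Fin 2) ℝ :=
  Matrix.GeneralLinearGroup.mkOfDetNeZero
    !![Real.cos θ, -Real.sin θ; Real.sin θ, Real.cos θ]
    (by
      rw [Matrix.det_fin_two_of]
      have h := Real.cos_sq_add_sin_sq θ
      intro h0
      have h1 : Real.cos θ ^ 2 + Real.sin θ ^ 2 = 0 := by linear_combination h0
      rw [h] at h1
      exact one_ne_zero h1)

theorem coe_bR830 (ζ r x : ℝ) :
    ((bR ζ r x : GL (Fin 2) ℝ) : Matrix (Fin 2) (Fin 2) ℝ)
      = !![Real.exp ((ζ + r) / 2), Real.exp ((ζ + r) / 2) * x; 0, Real.exp ((ζ - r) / 2)] := rfl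

theorem coe_bC830 (ζ r : ℝ) (w : ℂ) :
    ((bC ζ r w : GL (Fin 2) ℂ) : Matrix (Fin 2) (Fin 2) ℂ)
      = !![((Real.exp ((ζ + r) / 2) : ℝ) : ℂ), ((Real.exp ((ζ + r) / 2) : ℝ) : ℂ) * w;
          0, ((Real.exp ((ζ - r) / 2) : ℝ) : ℂ)] := rfl

theorem coe_rotR830 (θ : ℝ) :
    ((rotR θ : GL (Fin 2) ℝ) : Matrix (Fin 2) (Fin 2) ℝ)
      = !![Real.cos θ, -Real.sin θ; Real.sin θ, Real.cos θ] := rfl

/-! ## 2. Harish-Chandra transforms and their Mellin transforms -/

/-- The Harish-Chandra transform `∫_ℝ f(e^{ζ/2} a_r n(x)) dx` on `GL₂(ℝ)`. -/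
def hcR (f : GL (Fin 2) ℝ → ℂ) (ζ r : ℝ) : ℂ := ∫ x : ℝ, f (bR ζ r x)

/-- The Harish-Chandra transform `∫_ℂ φ(e^{ζ/2} a_r n(w)) dw` on `GL₂(ℂ)`. -/
def hcC (φ : GL (Fin 2) ℂ → ℂ) (ζ r : ℝ) : ℂ := ∫ w : ℂ, φ (bC ζ r w)

/-- `∫∫ e^{r (s + 1/2)} hcR f ζ r dr dζ`. -/
def melR (f : GL (Fin 2) ℝ → ℂ) (s : ℂ) : ℂ :=
  ∫ ζ : ℝ, ∫ r : ℝ, Complex.exp ((r : ℂ) * (s + 1 / 2)) * hcR f ζ r

/-- `∫∫ e^{r (ν + 1)} hcC φ ζ r dr dζ`. -/
def melC (φ : GL (Fin 2) ℂ → ℂ) (ν : ℂ) : ℂ :=
  ∫ ζ : ℝ, ∫ r : ℝ, Complex.exp ((r : ℂ) * (ν + 1)) * hcC φ ζ r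

/-- The function `E(g) = (det g / (c² + d²))^{s + 1/2} ((d + i c) / √(c² + d²))^n` of
`g = [[*, *], [c, d]]`: `E(b g k) = e^{r (s + 1/2)} E(g) χ_n(k)` for `b = bR ζ r x`, `k ∈ SO(2)`. -/
def eisR (n : ℤ) (s : ℂ) (g : GL (Fin 2) ℝ) : ℂ :=
  (((g : Matrix (Fin 2) (Fin 2) ℝ).det /
      ((g : Matrix (Fin 2) (Fin 2) ℝ) 1 0 ^ 2 + (g : Matrix (Fin 2) (Fin 2) ℝ) 1 1 ^ 2) : ℝ) : ℂ)
      ^ (s + 1 / 2) *
    (((((g : Matrix (Fin 2) (Fin 2) ℝ) 1 1 : ℝ) : ℂ) +
        (((g : Matrix (Fin 2) (Fin 2) ℝ) 1 0 : ℝ) : ℂ) * Complex.I) /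
      ((Real.sqrt ((g : Matrix (Fin 2) (Fin 2) ℝ) 1 0 ^ 2 +
        (g : Matrix (Fin 2) (Fin 2) ℝ) 1 1 ^ 2) : ℝ) : ℂ)) ^ n

/-! ## 3. The interface with T6.23 (Iwasawa integration formula, right-`K`-invariant form) -/

/-- **Iwasawa integration formula on `GL₂(ℝ)`** (part of T6.23): for a Haar measure `μ` there is
`c > 0` with `∫ F dμ = c ∫∫∫ F(bR ζ r x) dx dr dζ` for all continuous, compactly supported,
right-`SO(2)`-invariant `F` supported in `det > 0`.  (`GL₂(ℝ)⁺ = B⁺ · SO(2)`, `GL₂(ℝ)` is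
unimodular, `dζ dr dx` is the left Haar measure of `B⁺`.) -/
def IwasawaIntRC : Prop :=
  ∀ μ : @Measure (GL (Fin 2) ℝ) (borel _), @Measure.IsHaarMeasure _ _ _ (borel _) μ →
    ∃ c : ℝ, 0 < c ∧ ∀ F : GL (Fin 2) ℝ → ℂ, Continuous F → HasCompactSupport F →
      (∀ g : GL (Fin 2) ℝ, F g ≠ 0 → 0 < (g : Matrix (Fin 2) (Fin 2) ℝ).det) →
      (∀ k g : GL (Fin 2) ℝ, InSO2 k → F (g * k) = F g) →
      @integral _ _ _ _ (borel _) μ F = (c : ℂ) * ∫ ζ : ℝ, ∫ r : ℝ, ∫ x : ℝ, F (bR ζ r x)

/-- **Iwasawa integration formula on `GL₂(ℂ)`** (part of T6.23): for a Haar measure `μ'` there is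
`c > 0` with `∫ F dμ' = c ∫∫∫ F(bC ζ r w) dw dr dζ` for all continuous, compactly supported,
right-`U(2)`-invariant `F`. -/
def IwasawaIntCC : Prop :=
  ∀ μ' : @Measure (GL (Fin 2) ℂ) (borel _), @Measure.IsHaarMeasure _ _ _ (borel _) μ' →
    ∃ c : ℝ, 0 < c ∧ ∀ F : GL (Fin 2) ℂ → ℂ, Continuous F → HasCompactSupport F →
      (∀ k g : GL (Fin 2) ℂ, InU2 k → F (g * k) = F g) →
      @integral _ _ _ _ (borel _) μ' F = (c : ℂ) * ∫ ζ : ℝ, ∫ r : ℝ, ∫ w : ℂ, F (bC ζ r w)

/-! ## 4. The Props of the real side -/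

/-- The weights `0, 1, -1`. -/
def IsWt (n : ℤ) : Prop := n = 0 ∨ n = 1 ∨ n = -1

/-- **T6.29.R1 CARTAN-R** (Mathlib only; singular value decomposition of a real `2 × 2` matrix
of positive determinant): `y = k_α · e^{ζ/2} a_t · k_β` with `t ≥ 0`. -/
def CartanRC : Prop :=
  ∀ y : GL (Fin 2) ℝ, 0 < (y : Matrix (Fin 2) (Fin 2) ℝ).det →
    ∃ ζ α β t : ℝ, 0 ≤ t ∧ y = rotR α * bR ζ t 0 * rotR β

/-- **T6.29.R2 SPH-AVG-AT** (one-variable calculus): the `K`-average of `E` at `a_t`, `t ≥ 0`, is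
the radial spherical function:
`(1/2π) ∫₀^{2π} e^{-inθ} E(k_θ a_t) dθ = sphRad n s (cosh t)`.
(`c² + d² = cosh t - cos 2θ sinh t`,
`e^{-iθ}(d + ic) = cosh(t/2) - cos 2θ sinh(t/2) + i sin 2θ sinh(t/2)`; the odd part integrates to
`0`; `u = 2θ` and periodicity.) -/
def SphAvgAtC : Prop :=
  ∀ n : ℤ, IsWt n → ∀ (s : ℂ) (t : ℝ), 0 ≤ t →
    ((1 / (2 * Real.pi) : ℝ) : ℂ) * (∫ θ in (0 : ℝ)..(2 * Real.pi),
      Complex.exp (-((n : ℂ) * (θ : ℂ) * Complex.I)) * eisR n s (rotR θ * bR 0 t 0))
      = sphRad n s (Real.cosh t)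

/-- **T6.29.R3 SPH-AVG** (middle Prop): `sphFn n s y = (1/2π) ∫₀^{2π} e^{-inθ} E(k_θ y) dθ` for
`det y > 0`. -/
def SphAvgRC : Prop :=
  ∀ n : ℤ, IsWt n → ∀ (s : ℂ) (y : GL (Fin 2) ℝ), 0 < (y : Matrix (Fin 2) (Fin 2) ℝ).det →
    ((1 / (2 * Real.pi) : ℝ) : ℂ) * (∫ θ in (0 : ℝ)..(2 * Real.pi),
      Complex.exp (-((n : ℂ) * (θ : ℂ) * Complex.I)) * eisR n s (rotR θ * y))
      = sphFn n s y

/-- **T6.29.R3' SPH-AVG-OF** (leaf): equivariance of `holPart`, `rhoR`, `eisR` under rotations and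
positive scalars, shift of the periodic integrand by `α`. -/
def SphAvgOfC : Prop := CartanRC → SphAvgAtC → SphAvgRC

/-- **T6.29.R4 EIS-INT** (leaf; Fubini and the left invariance of `μ`): the spherical transform of
a test function of weight `n` is its integral against `E`:
`∫ f sphFn dμ = (1/2π) ∫_θ e^{-inθ} ∫ f(y) E(k_θ y) dμ(y) dθ`, `∫ f(y) E(k_θ y) dμ(y) =
∫ f(k_θ⁻¹ y) E(y) dμ(y) = e^{inθ} ∫ f E dμ`. -/
def EisIntRC : Prop :=
  SphAvgRC →
  ∀ μ : @Measure (GL (Fin 2) ℝ) (borel _), @Measure.IsHaarMeasure _ _ _ (borel _) μ →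
    ∀ n : ℤ, IsWt n → ∀ f : GL (Fin 2) ℝ → ℂ, IsArchTestR n f → ∀ s : ℂ,
      sphTransR μ n f s
        = @integral _ _ _ _ (borel _) μ (fun y : GL (Fin 2) ℝ => f y * eisR n s y)

/-- **T6.29.R5 EIS-IW** (leaf; Iwasawa): `∫ f E dμ = c · melR f s`
(`f E` is continuous, compactly supported, right `SO(2)`-invariant, supported in `det > 0`;
`E(bR ζ r x) = e^{r (s + 1/2)}`). -/
def EisIwRC : Prop :=
  IwasawaIntRC →
  ∀ μ : @Measure (GL (Fin 2) ℝ) (borel _), @Measure.IsHaarMeasure _ _ _ (borel _) μ →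
    ∃ c : ℂ, c ≠ 0 ∧ ∀ n : ℤ, IsWt n → ∀ f : GL (Fin 2) ℝ → ℂ, IsArchTestR n f → ∀ s : ℂ,
      @integral _ _ _ _ (borel _) μ (fun y : GL (Fin 2) ℝ => f y * eisR n s y) = c * melR f s

/-- **HC-TRANS-R** (middle Prop): the spherical transform in the weights `0, ±1` is the Mellin
transform of the Harish-Chandra transform. -/
def HCTransRC : Prop :=
  ∀ μ : @Measure (GL (Fin 2) ℝ) (borel _), @Measure.IsHaarMeasure _ _ _ (borel _) μ →
    ∃ c : ℂ, c ≠ 0 ∧ ∀ n : ℤ, IsWt n → ∀ f : GL (Fin 2) ℝ → ℂ, IsArchTestR n f → ∀ s : ℂ,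
      sphTransR μ n f s = c * melR f s

/-! ## 5. The Props of the complex side -/

/-- **T6.29.C1 CARTAN-C** (Mathlib only; singular values): two elements of `GL₂(ℂ)` with the same
`|det|` and the same `rhoC` lie in the same double coset of `U(2)`. -/
def CartanCC : Prop :=
  ∀ y y' : GL (Fin 2) ℂ,
    ‖(y : Matrix (Fin 2) (Fin 2) ℂ).det‖ = ‖(y' : Matrix (Fin 2) (Fin 2) ℂ).det‖ →
    rhoC y = rhoC y' → ∃ k k' : GL (Fin 2) ℂ, InU2 k ∧ InU2 k' ∧ y' = k * y * k'

/-- **T6.29.C2 SPH-C-KERNEL** (one-variable calculus): for `u ≥ 0`,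
`sphC ν (cosh u) · sinh u = (1/2) ∫_{-u}^{u} e^{ρν} dρ`
(`y = cosh u + x sinh u`, then `y = e^ρ`). -/
def SphCKernelC : Prop :=
  ∀ (ν : ℂ) (u : ℝ), 0 ≤ u →
    sphC ν (Real.cosh u) * ((Real.sinh u : ℝ) : ℂ)
      = (1 / 2 : ℂ) * ∫ ρ in (-u)..u, Complex.exp ((ρ : ℂ) * ν)

/-- **T6.29.C3 W-INT** (middle Prop): the `w`-integral of a radial function along `bC ζ r w`:
`∫_ℂ φ(bC ζ r w) Ψ(rhoC (bC ζ r w)) dw = 2π e^{-r} ∫_{u > |r|} φ(bC ζ u 0) Ψ(cosh u) sinh u du`. -/
def WIntCC : Prop :=
  ∀ φ : GL (Fin 2) ℂ → ℂ, IsArchTestC φ → ∀ Ψ : ℝ → ℂ, ContinuousOn Ψ (Set.Ici 1) →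
    ∀ ζ r : ℝ,
      (∫ w : ℂ, φ (bC ζ r w) * Ψ (rhoC (bC ζ r w)))
        = ((2 * Real.pi * Real.exp (-r) : ℝ) : ℂ) *
          ∫ u in Set.Ioi |r|, φ (bC ζ u 0) * Ψ (Real.cosh u) * ((Real.sinh u : ℝ) : ℂ)

/-- **T6.29.C3' W-INT-OF** (leaf): `rhoC (bC ζ r w) = cosh r + e^r ‖w‖² / 2`, `|det| = e^ζ`,
`φ (bC ζ r w) = φ (bC ζ u 0)` for `cosh u = rhoC` (`CartanCC`), polar coordinates in `ℂ`
(`MeasureTheory.integral_fun_norm_addHaar` or `Complex.polarCoord`), `ρ = cosh r + e^r R²/2`,
`ρ = cosh u`. -/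
def WIntOfC : Prop := CartanCC → WIntCC

/-- **T6.29.C4 TRI-FUBINI** (Mathlib only): Fubini on the region `|r| < u`. -/
def TriFubiniC : Prop :=
  ∀ g h : ℝ → ℂ, Continuous g → Continuous h → HasCompactSupport h →
    (∫ r : ℝ, g r * ∫ u in Set.Ioi |r|, h u) = ∫ u in Set.Ioi (0 : ℝ), h u * ∫ r in (-u)..u, g r

/-- **HC-TRANS-C** (middle Prop): the spherical transform on `GL₂(ℂ)` is the Mellin transform of
the Harish-Chandra transform. -/
def HCTransCC : Prop :=
  ∀ μ' : @Measure (GL (Fin 2) ℂ) (borel _), @Measure.IsHaarMeasure _ _ _ (borel _) μ' →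
    ∃ c : ℂ, c ≠ 0 ∧ ∀ φ : GL (Fin 2) ℂ → ℂ, IsArchTestC φ → ∀ ν : ℂ,
      sphTransC μ' φ ν = c * melC φ ν

/-- **T6.29.C5 HC-TRANS-C-OF** (leaf; assembly of the complex side):
`F = φ · (sphC ν ∘ rhoC)` is continuous, compactly supported, right `U(2)`-invariant; Iwasawa;
`WIntCC` with `Ψ = sphC ν` and with `Ψ = 1`; `SphCKernelC`; `TriFubiniC` twice
(`g = e^{-r}`, `h = φ(bC ζ u 0) · (1/2) ∫_{-u}^{u} e^{ρν} dρ`, and `g = e^{rν}`,
`h = φ(bC ζ u 0) sinh u`). -/
def HCTransCOfC : Prop :=
  IwasawaIntCC → WIntCC → SphCKernelC → TriFubiniC → HCTransCC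

/-! ## 6. The norm map on the Mellin side, and T6.29 -/

/-- **T6.29.M MEL-SUBST** (Mathlib only; `integral_comp_mul_left` twice, `r = 0` is a null set):
no hypothesis on `f`, `φ`. -/
def MelSubstC : Prop :=
  ∀ (f : GL (Fin 2) ℝ → ℂ) (φ : GL (Fin 2) ℂ → ℂ) (κ : ℂ),
    (∀ ζ r : ℝ, r ≠ 0 → hcR f (2 * ζ) (2 * r) = κ * hcC φ ζ r) →
    ∀ s : ℂ, melR f s = 4 * κ * melC φ (2 * s)

/-- **T6.29 ARCH-SPEC** (the spectral relation).  For Haar measures `μ`, `μ'` there is `C ≠ 0`
such that for all test functions `f` of weight `n ∈ {0, ±1}` on `GL₂(ℝ)` and `φ` on `GL₂(ℂ)`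
whose Harish-Chandra transforms match along the norm map of the positive torus with the
constant `κ`:  `sphTransR μ n f s = C κ sphTransC μ' φ (2 s)` for all `s`. -/
def ArchSpecC : Prop :=
  ∀ (μ : @Measure (GL (Fin 2) ℝ) (borel _)) (μ' : @Measure (GL (Fin 2) ℂ) (borel _)),
    @Measure.IsHaarMeasure _ _ _ (borel _) μ → @Measure.IsHaarMeasure _ _ _ (borel _) μ' →
    ∃ C : ℂ, C ≠ 0 ∧ ∀ n : ℤ, IsWt n →
      ∀ (f : GL (Fin 2) ℝ → ℂ) (φ : GL (Fin 2) ℂ → ℂ), IsArchTestR n f → IsArchTestC φ →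
      ∀ κ : ℂ, (∀ ζ r : ℝ, r ≠ 0 → hcR f (2 * ζ) (2 * r) = κ * hcC φ ζ r) →
        ∀ s : ℂ, sphTransR μ n f s = C * κ * sphTransC μ' φ (2 * s)

end Fermat.Agent.LT.T6.H830

end

end
-- ===== PACK-END LT/T6/H830/HCSpec.lean

-- ===== PACK-BEGIN LT/T6/H216/U2HaarOf.lean
section



/-!
# Row LT, tower T6, leaf T6.23.13 `U2HaarOfC` (A3) -- helper216, OFF-MAIN

`u2HaarOf216 : H189.U2HaarOfC`, i.e. `U2CompactC → U2HaarC`: the Haar probability measure of the
compact group `U(2)`, pushed forward to `GL₂(ℂ)` along the inclusion, is a probability measure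
carried by `U(2)`, invariant under left and right translations by `U(2)` and under inversion.

Imports: Mathlib + `LT/T6/H189/ArchIntCut.lean` (sha256 db591abe06d241ac, byte-identical copy of
origin/helper189@45580d1ec) + its import `ArchIntSpec.lean` (sha256 4ac6c0909efd5385).

Route: `exists_haar_of_compact_subgroup216` (any Hausdorff topological group `G`, any compact
subgroup `H`): `μ = haarMeasure ⊤` on `H`; right invariance and inversion invariance of `μ` by the
uniqueness of Haar probability measures (`isHaarMeasure_eq_of_isProbabilityMeasure`,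
`isMulInvariant_eq_smul_of_compactSpace`); `κ = μ.map Subtype.val`.
-/

set_option autoImplicit false

open MeasureTheory
open scoped Matrix ENNReal

noncomputable section

namespace Fermat.Agent.LT.T6.H216

/-- The Haar probability measure of a compact subgroup `H` of a Hausdorff topological group `G`,
as a measure on `G`: total mass one, carried by `H`, invariant under left and right translations
by the elements of `H` and under inversion. -/
theorem exists_haar_of_compact_subgroup216 {G : Type*} [Group G] [TopologicalSpace G]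
    [IsTopologicalGroup G] [T2Space G] [MeasurableSpace G] [BorelSpace G]
    (H : Subgroup G) [CompactSpace H] :
    ∃ κ : Measure G, κ Set.univ = 1 ∧ κ (H : Set G)ᶜ = 0 ∧
      (∀ k ∈ H, Measure.map (fun x => k * x) κ = κ) ∧
      (∀ k ∈ H, Measure.map (fun x => x * k) κ = κ) ∧
      Measure.map (fun x : G => x⁻¹) κ = κ := by
  let _ : MeasurableSpace H := borel H
  have _ : BorelSpace H := ⟨rfl⟩
  let μ : Measure H := Measure.haarMeasure ⊤
  have hμuniv : μ Set.univ = 1 := by
    have h := Measure.haarMeasure_self (K₀ := (⊤ : TopologicalSpace.PositiveCompacts H))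
    simpa [μ] using h
  have hprob : IsProbabilityMeasure μ := ⟨hμuniv⟩
  -- right invariance
  have hright : ∀ h : H, Measure.map (fun x => x * h) μ = μ := by
    intro h
    have : IsProbabilityMeasure (Measure.map (fun x => x * h) μ) :=
      Measure.isProbabilityMeasure_map (measurable_mul_const h).aemeasurable
    exact Measure.isHaarMeasure_eq_of_isProbabilityMeasure _ _
  have hri : μ.IsMulRightInvariant := ⟨hright⟩
  -- inversion invariance
  have hinv : Measure.map (fun x : H => x⁻¹) μ = μ := by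
    have h1 : μ.inv = Measure.haarScalarFactor μ.inv μ • μ :=
      Measure.isMulInvariant_eq_smul_of_compactSpace μ.inv μ
    have h2 : μ.inv Set.univ = 1 := by
      rw [Measure.inv_apply]; simp
    have h3 : (Measure.haarScalarFactor μ.inv μ : ℝ≥0∞) = 1 := by
      have := congrArg (fun ν : Measure H => ν Set.univ) h1
      simp only [h2, Measure.smul_apply, hμuniv] at this
      simpa using this.symm
    have h4 : μ.inv = μ := by
      rw [h1]
      have : Measure.haarScalarFactor μ.inv μ = 1 := by exact_mod_cast h3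
      rw [this, one_smul]
    exact h4
  have hval : Measurable (Subtype.val : H → G) := continuous_subtype_val.measurable
  refine ⟨Measure.map Subtype.val μ, ?_, ?_, ?_, ?_, ?_⟩
  · rw [Measure.map_apply hval MeasurableSet.univ, Set.preimage_univ]; exact hμuniv
  · have hc : IsCompact (H : Set G) := isCompact_iff_compactSpace.mpr inferInstance
    have hm : MeasurableSet (H : Set G)ᶜ := hc.isClosed.measurableSet.compl
    rw [Measure.map_apply hval hm]
    have : (Subtype.val : H → G) ⁻¹' (H : Set G)ᶜ = ∅ := by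
      ext x; simp
    rw [this]; exact measure_empty
  · intro k hk
    rw [Measure.map_map (measurable_const_mul k) hval]
    have : (fun x : G => k * x) ∘ (Subtype.val : H → G)
        = Subtype.val ∘ (fun x : H => (⟨k, hk⟩ : H) * x) := by
      funext x; rfl
    rw [this, ← Measure.map_map hval (measurable_const_mul _), map_mul_left_eq_self]
  · intro k hk
    rw [Measure.map_map (measurable_mul_const k) hval]
    have : (fun x : G => x * k) ∘ (Subtype.val : H → G)
        = Subtype.val ∘ (fun x : H => x * (⟨k, hk⟩ : H)) := by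
      funext x; rfl
    rw [this, ← Measure.map_map hval (measurable_mul_const _), hright]
  · rw [Measure.map_map measurable_inv hval]
    have : (fun x : G => x⁻¹) ∘ (Subtype.val : H → G)
        = Subtype.val ∘ (fun x : H => x⁻¹) := by
      funext x; rfl
    rw [this, ← Measure.map_map hval measurable_inv, hinv]

/-- **T6.23.13 = A3 (`U2HaarOfC`).**  If `U(2)` is compact, its Haar probability measure exists as
a measure on `GL₂(ℂ)`. -/
theorem u2HaarOf216 : H189.U2HaarOfC := by
  intro hc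
  have hcs : CompactSpace H189.U2sub := hc
  let _ : MeasurableSpace (GL (Fin 2) ℂ) := borel _
  have _ : BorelSpace (GL (Fin 2) ℂ) := ⟨rfl⟩
  obtain ⟨κ, h1, h2, h3, h4, h5⟩ := exists_haar_of_compact_subgroup216 H189.U2sub
  exact ⟨κ, ⟨h1, h2, fun k hk => h3 k hk, fun k hk => h4 k hk, h5⟩⟩

end Fermat.Agent.LT.T6.H216

end

end
-- ===== PACK-END LT/T6/H216/U2HaarOf.lean

-- ===== PACK-BEGIN LT/T1/H930/AdeleAutArch.lean
section


/-!
# Row LT, tower T1 (pre-leaf T1.AUT part 3, helper930): archimedean and Hecke transport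

OFF-MAIN.  Imports part 2 (hence Mathlib, part 1 and helper556's frozen `A0.lean`) only.

For `e : K ≃+* L` (in particular `σ : K ≃+* K`) and `gl = glAdeleEquiv930 e`:

* `infConj930 e w : ℂ →+* ℂ` is the identity or the complex conjugation, with
  `extensionEmbedding_infMapHom930 :
     extensionEmbedding w (infMapHom930 e w x) = infConj930 e w (extensionEmbedding (e⁻¹w) x)`
  and `infComp_glAdeleEquiv930 : infComp w (gl g) = (infComp (e⁻¹w) g).map (infConj930 e w)`;
* `isArchCompact_glAdeleEquiv930`, `isArchPosScalar_glAdeleEquiv930`, `isReal_infPull930`;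
* `absNorm_finPull930`, `valued_det_finComp_glAdeleEquiv930`, `isHeckeCosetSystem_map930`,
  `isScalarUniformizerAt_glAdeleEquiv930`;
* `isHeckeEigenAt_comp_glAdeleEquiv930 :
     IsHeckeEigenAt (φ ∘ gl) (e⁻¹ w) a b ↔ IsHeckeEigenAt φ w a b`.
-/

set_option autoImplicit false

open IsDedekindDomain NumberField InfinitePlace
open scoped MatrixGroups ComplexConjugate

noncomputable section

namespace Fermat.Agent.LT.T1.H930

open Fermat.Agent.LT.H556

variable {K L : Type} [Field K] [NumberField K] [Field L] [NumberField L]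

/-! ## The embeddings at the infinite places -/

omit [NumberField K] [NumberField L] in
theorem infPull930_eq_mk (e : K ≃+* L) (w : InfinitePlace L) :
    infPull930 e w = InfinitePlace.mk (w.embedding.comp (e : K →+* L)) := by
  unfold infPull930
  conv_lhs => rw [← mk_embedding w]
  rfl

/-- The identity or the complex conjugation: the discrepancy between the chosen embedding of
the place `e⁻¹ w` and the embedding `w.embedding ∘ e`. -/
def infConj930 (e : K ≃+* L) (w : InfinitePlace L) : ℂ →+* ℂ :=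
  open scoped Classical in
  if (infPull930 e w).embedding = w.embedding.comp (e : K →+* L) then RingHom.id ℂ
  else starRingEnd ℂ

omit [NumberField K] [NumberField L] in
theorem infConj930_eq (e : K ≃+* L) (w : InfinitePlace L) :
    infConj930 e w = RingHom.id ℂ ∨ infConj930 e w = starRingEnd ℂ := by
  unfold infConj930
  split_ifs
  · exact Or.inl rfl
  · exact Or.inr rfl

omit [NumberField K] [NumberField L] in
theorem infConj930_embedding (e : K ≃+* L) (w : InfinitePlace L) (k : K) :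
    infConj930 e w ((infPull930 e w).embedding k) = w.embedding (e k) := by
  unfold infConj930
  split_ifs with h
  · rw [h]; rfl
  · have h2 := embedding_mk_eq (w.embedding.comp (e : K →+* L))
    rw [← infPull930_eq_mk] at h2
    rcases h2 with h2 | h2
    · exact absurd h2 h
    · rw [h2]
      simp [ComplexEmbedding.conjugate_coe_eq]

omit [NumberField K] [NumberField L] in
theorem continuous_infConj930 (e : K ≃+* L) (w : InfinitePlace L) :
    Continuous (infConj930 e w) := by
  rcases infConj930_eq e w with h | h <;> rw [h]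
  · exact continuous_id
  · exact Complex.continuous_conj

omit [NumberField K] [NumberField L] in
theorem infConj930_injective (e : K ≃+* L) (w : InfinitePlace L) :
    Function.Injective (infConj930 e w) :=
  (infConj930 e w).injective

omit [NumberField K] [NumberField L] in
theorem infConj930_ofReal (e : K ≃+* L) (w : InfinitePlace L) (r : ℝ) :
    infConj930 e w (r : ℂ) = (r : ℂ) := by
  rcases infConj930_eq e w with h | h <;> rw [h]
  · rfl
  · exact Complex.conj_ofReal r

omit [NumberField K] [NumberField L] in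
theorem infConj930_conj (e : K ≃+* L) (w : InfinitePlace L) (z : ℂ) :
    infConj930 e w (conj z) = conj (infConj930 e w z) := by
  rcases infConj930_eq e w with h | h
  · rw [h]; rfl
  · rw [h]

omit [NumberField K] [NumberField L] in
theorem extensionEmbedding_infMapHom930 (e : K ≃+* L) (w : InfinitePlace L)
    (x : (infPull930 e w).Completion) :
    Completion.extensionEmbedding w (infMapHom930 e w x)
      = infConj930 e w (Completion.extensionEmbedding (infPull930 e w) x) := by
  have hcl : IsClosed {x : (infPull930 e w).Completion |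
      Completion.extensionEmbedding w (infMapHom930 e w x)
        = infConj930 e w (Completion.extensionEmbedding (infPull930 e w) x)} :=
    isClosed_eq
      ((Completion.isometry_extensionEmbedding w).continuous.comp (continuous_infMapHom930 e w))
      ((continuous_infConj930 e w).comp
        (Completion.isometry_extensionEmbedding (infPull930 e w)).continuous)
  refine Completion.induction_on (infPull930 e w) (p := fun x =>
    Completion.extensionEmbedding w (infMapHom930 e w x)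
      = infConj930 e w (Completion.extensionEmbedding (infPull930 e w) x)) x hcl ?_
  intro a
  have h1 := infMapHom930_coe e w a.ofAbs
  have h2 : Completion.extensionEmbedding w (((e a.ofAbs : L) : w.Completion))
      = w.embedding (e a.ofAbs) := Completion.extensionEmbedding_coe w (WithAbs.toAbs _ (e a.ofAbs))
  have h3 : Completion.extensionEmbedding (infPull930 e w) ((a.ofAbs : K) : (infPull930 e w).Completion)
      = (infPull930 e w).embedding a.ofAbs :=
    Completion.extensionEmbedding_coe (infPull930 e w) (WithAbs.toAbs _ a.ofAbs)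
  show Completion.extensionEmbedding w (infMapHom930 e w ((a.ofAbs : K) : (infPull930 e w).Completion))
    = infConj930 e w (Completion.extensionEmbedding (infPull930 e w)
        ((a.ofAbs : K) : (infPull930 e w).Completion))
  rw [h1, h2, h3, infConj930_embedding]

theorem infComp_glAdeleEquiv930 (e : K ≃+* L) (w : InfinitePlace L) (g : A0.G K) :
    A0.infComp w (glAdeleEquiv930 e g)
      = (A0.infComp (infPull930 e w) g).map (infConj930 e w) := by
  refine Matrix.ext fun i j => ?_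
  rw [Matrix.map_apply]
  unfold A0.infComp
  rw [glAdeleEquiv930_val, adeleEquiv930_fst]
  exact extensionEmbedding_infMapHom930 e w _


/-! ## Archimedean predicates -/

omit [NumberField K] [NumberField L] in
theorem map_infConj930_eq_one_iff (e : K ≃+* L) (w : InfinitePlace L)
    (M : Matrix (Fin 2) (Fin 2) ℂ) : M.map (infConj930 e w) = 1 ↔ M = 1 := by
  constructor
  · intro h
    refine Matrix.ext fun i j => ?_
    have := congrFun (congrFun h i) j
    rw [Matrix.map_apply] at this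
    apply infConj930_injective e w
    rw [this, Matrix.one_apply]
    split_ifs <;> simp
  · intro h
    rw [h]
    refine Matrix.ext fun i j => ?_
    rw [Matrix.map_apply, Matrix.one_apply]
    split_ifs <;> simp

omit [NumberField K] [NumberField L] in
theorem map_infConj930_mul_conjTranspose (e : K ≃+* L) (w : InfinitePlace L)
    (M : Matrix (Fin 2) (Fin 2) ℂ) :
    M.map (infConj930 e w) * (M.map (infConj930 e w)).conjTranspose
      = (M * M.conjTranspose).map (infConj930 e w) := by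
  rw [Matrix.map_mul]
  congr 1
  refine Matrix.ext fun i j => ?_
  simp only [Matrix.conjTranspose_apply, Matrix.map_apply]
  exact (infConj930_conj e w (M j i)).symm

omit [NumberField K] [NumberField L] in
theorem det_map_infConj930 (e : K ≃+* L) (w : InfinitePlace L)
    (M : Matrix (Fin 2) (Fin 2) ℂ) :
    (M.map (infConj930 e w)).det = infConj930 e w M.det :=
  (RingHom.map_det (infConj930 e w) M).symm

omit [NumberField K] [NumberField L] in
theorem isReal_infPull930 (e : K ≃+* L) (w : InfinitePlace L) :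
    (infPull930 e w).IsReal ↔ w.IsReal :=
  isReal_comap_iff e

theorem isArchCompact_glAdeleEquiv930 (e : K ≃+* L) (w : InfinitePlace L) (k : A0.G K) :
    A0.IsArchCompact w (glAdeleEquiv930 e k) ↔ A0.IsArchCompact (infPull930 e w) k := by
  unfold A0.IsArchCompact
  rw [isLocalAtInf_glAdeleEquiv930, infComp_glAdeleEquiv930, map_infConj930_mul_conjTranspose,
    map_infConj930_eq_one_iff, det_map_infConj930, isReal_infPull930]
  have h1 : infConj930 e w (A0.infComp (infPull930 e w) k).det = 1 ↔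
      (A0.infComp (infPull930 e w) k).det = 1 := by
    constructor
    · intro h
      apply infConj930_injective e w
      rw [h, map_one]
    · intro h
      rw [h, map_one]
  rw [h1]

omit [NumberField K] [NumberField L] in
theorem map_infConj930_eq_diagonal_iff (e : K ≃+* L) (w : InfinitePlace L)
    (M : Matrix (Fin 2) (Fin 2) ℂ) (r : ℝ) :
    M.map (infConj930 e w) = Matrix.diagonal (fun _ => (r : ℂ)) ↔
      M = Matrix.diagonal (fun _ => (r : ℂ)) := by
  constructor
  · intro h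
    refine Matrix.ext fun i j => ?_
    have := congrFun (congrFun h i) j
    rw [Matrix.map_apply] at this
    apply infConj930_injective e w
    rw [this, Matrix.diagonal_apply]
    split_ifs
    · exact (infConj930_ofReal e w r).symm
    · simp
  · intro h
    rw [h]
    refine Matrix.ext fun i j => ?_
    rw [Matrix.map_apply, Matrix.diagonal_apply]
    split_ifs
    · exact infConj930_ofReal e w r
    · simp

theorem isArchPosScalar_glAdeleEquiv930 (e : K ≃+* L) (w : InfinitePlace L) (z : A0.G K) :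
    A0.IsArchPosScalar w (glAdeleEquiv930 e z) ↔ A0.IsArchPosScalar (infPull930 e w) z := by
  unfold A0.IsArchPosScalar
  rw [isLocalAtInf_glAdeleEquiv930, infComp_glAdeleEquiv930]
  simp only [map_infConj930_eq_diagonal_iff]


/-! ## Hecke operators -/

theorem absNorm_finPull930 (e : K ≃+* L) (w : HeightOneSpectrum (𝓞 L)) :
    Ideal.absNorm (finPull930 e w).asIdeal = Ideal.absNorm w.asIdeal := by
  have h : w.asIdeal = (finPull930 e w).asIdeal.map (RingOfIntegers.mapRingEquiv e) := by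
    show w.asIdeal = (w.asIdeal.comap (RingOfIntegers.mapRingEquiv e : 𝓞 K →+* 𝓞 L)).map
      (RingOfIntegers.mapRingEquiv e)
    exact (Ideal.map_comap_of_surjective _ (RingOfIntegers.mapRingEquiv e).surjective _).symm
  rw [Ideal.absNorm_apply, Ideal.absNorm_apply, Submodule.cardQuot_apply,
    Submodule.cardQuot_apply]
  exact Nat.card_congr
    (Ideal.quotientEquiv (finPull930 e w).asIdeal w.asIdeal (RingOfIntegers.mapRingEquiv e)
      h).toEquiv

theorem valued_det_finComp_glAdeleEquiv930 (e : K ≃+* L) (w : HeightOneSpectrum (𝓞 L))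
    (g : A0.G K) :
    Valued.v (A0.finComp w (glAdeleEquiv930 e g)).det
      = Valued.v (A0.finComp (finPull930 e w) g).det := by
  rw [finComp_glAdeleEquiv930]
  have : ((A0.finComp (finPull930 e w) g).map (finMapEquiv930 e w)).det
      = finMapEquiv930 e w (A0.finComp (finPull930 e w) g).det :=
    (RingHom.map_det (finMapEquiv930 e w).toRingHom _).symm
  rw [this, valued_finMapEquiv930]

theorem isHeckeCosetSystem_map930 (e : K ≃+* L) (w : HeightOneSpectrum (𝓞 L))
    (H : Finset (A0.G K)) :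
    A0.IsHeckeCosetSystem w (H.map (glAdeleEquiv930 e).toEquiv.toEmbedding) ↔
      A0.IsHeckeCosetSystem (finPull930 e w) H := by
  unfold A0.IsHeckeCosetSystem
  rw [Finset.card_map, absNorm_finPull930]
  refine and_congr Iff.rfl (and_congr ?_ ?_)
  · constructor
    · intro h x hx
      have := h (glAdeleEquiv930 e x) (Finset.mem_map_of_mem _ hx)
      rwa [isLocalAtFin_glAdeleEquiv930, isIntegralAt_glAdeleEquiv930,
        valued_det_finComp_glAdeleEquiv930] at this
    · intro h y hy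
      obtain ⟨x, hx, rfl⟩ := Finset.mem_map.1 hy
      show A0.IsLocalAtFin w (glAdeleEquiv930 e x) ∧ A0.IsIntegralAt w (glAdeleEquiv930 e x) ∧
        Valued.v (A0.finComp w (glAdeleEquiv930 e x)).det = WithZero.exp (-1 : ℤ)
      rw [isLocalAtFin_glAdeleEquiv930, isIntegralAt_glAdeleEquiv930,
        valued_det_finComp_glAdeleEquiv930]
      exact h x hx
  · constructor
    · intro h x hx x' hx' hne hint
      refine h (glAdeleEquiv930 e x) (Finset.mem_map_of_mem _ hx) (glAdeleEquiv930 e x')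
        (Finset.mem_map_of_mem _ hx') (fun hh => hne ((glAdeleEquiv930 e).injective hh)) ?_
      rw [← map_inv, ← map_mul, isIntegralAt_glAdeleEquiv930]
      exact hint
    · intro h y hy y' hy' hne hint
      obtain ⟨x, hx, rfl⟩ := Finset.mem_map.1 hy
      obtain ⟨x', hx', rfl⟩ := Finset.mem_map.1 hy'
      refine h x hx x' hx' (fun hh => hne (by rw [hh])) ?_
      have hint' : A0.IsIntegralAt w ((glAdeleEquiv930 e x)⁻¹ * glAdeleEquiv930 e x') := hint
      rwa [← map_inv, ← map_mul, isIntegralAt_glAdeleEquiv930] at hint'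

theorem isScalarUniformizerAt_glAdeleEquiv930 (e : K ≃+* L) (w : HeightOneSpectrum (𝓞 L))
    (z : A0.G K) :
    A0.IsScalarUniformizerAt w (glAdeleEquiv930 e z) ↔
      A0.IsScalarUniformizerAt (finPull930 e w) z := by
  unfold A0.IsScalarUniformizerAt
  rw [isLocalAtFin_glAdeleEquiv930, finComp_glAdeleEquiv930]
  refine and_congr Iff.rfl ?_
  constructor
  · rintro ⟨c, hc, h⟩
    refine ⟨(finMapEquiv930 e w).symm c, ?_, ?_⟩
    · rw [← valued_finMapEquiv930 e w, RingEquiv.apply_symm_apply]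
      exact hc
    · refine Matrix.ext fun i j => ?_
      have := congrFun (congrFun h i) j
      rw [Matrix.map_apply] at this
      apply (finMapEquiv930 e w).injective
      rw [this, Matrix.diagonal_apply, Matrix.diagonal_apply]
      split_ifs <;> simp
  · rintro ⟨c, hc, h⟩
    refine ⟨finMapEquiv930 e w c, ?_, ?_⟩
    · rw [valued_finMapEquiv930]
      exact hc
    · rw [h]
      refine Matrix.ext fun i j => ?_
      rw [Matrix.map_apply, Matrix.diagonal_apply, Matrix.diagonal_apply]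
      split_ifs <;> simp

/-- Transport of Hecke eigenfunctions: `φ` on `GL₂(𝔸_L)` is a Hecke eigenfunction at `w` iff
`φ ∘ glAdeleEquiv930 e` on `GL₂(𝔸_K)` is one at the place `e⁻¹ w`, with the same eigenvalues. -/
theorem isHeckeEigenAt_comp_glAdeleEquiv930 (e : K ≃+* L) (w : HeightOneSpectrum (𝓞 L))
    (φ : A0.G L → ℂ) (a b : ℂ) :
    A0.IsHeckeEigenAt (fun g => φ (glAdeleEquiv930 e g)) (finPull930 e w) a b ↔
      A0.IsHeckeEigenAt φ w a b := by
  unfold A0.IsHeckeEigenAt
  rw [absNorm_finPull930]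
  refine and_congr ?_ ?_
  · constructor
    · intro h H' hH' g'
      set H : Finset (A0.G K) := H'.map (glAdeleEquiv930 e.symm).toEquiv.toEmbedding with hHdef
      have hmap : H.map (glAdeleEquiv930 e).toEquiv.toEmbedding = H' := by
        rw [hHdef, Finset.map_map]
        have : ((glAdeleEquiv930 e.symm).toEquiv.toEmbedding.trans
            (glAdeleEquiv930 e).toEquiv.toEmbedding) = Function.Embedding.refl _ := by
          ext x
          exact congrArg (fun m : A0.G L => (m : Matrix (Fin 2) (Fin 2) (A0.Adl L)) _ _)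
            (glAdeleEquiv930_apply_symm_apply e x)
        rw [this, Finset.map_refl]
      have hH : A0.IsHeckeCosetSystem (finPull930 e w) H := by
        rw [← isHeckeCosetSystem_map930, hmap]
        exact hH'
      have := h H hH (glAdeleEquiv930 e.symm g')
      beta_reduce at this
      rw [glAdeleEquiv930_apply_symm_apply] at this
      rw [← this]
      conv_lhs => rw [← hmap, Finset.sum_map]
      refine Finset.sum_congr rfl fun x _ => ?_
      show φ (g' * glAdeleEquiv930 e x) = φ (glAdeleEquiv930 e (glAdeleEquiv930 e.symm g' * x))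
      rw [map_mul, glAdeleEquiv930_apply_symm_apply]
    · intro h H hH g
      have hH' : A0.IsHeckeCosetSystem w (H.map (glAdeleEquiv930 e).toEquiv.toEmbedding) :=
        (isHeckeCosetSystem_map930 e w H).2 hH
      have := h _ hH' (glAdeleEquiv930 e g)
      rw [Finset.sum_map] at this
      beta_reduce
      rw [← this]
      refine Finset.sum_congr rfl fun x _ => ?_
      show φ (glAdeleEquiv930 e (g * x)) = φ (glAdeleEquiv930 e g * glAdeleEquiv930 e x)
      rw [map_mul]
  · constructor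
    · intro h z' hz' g'
      have hz : A0.IsScalarUniformizerAt (finPull930 e w) (glAdeleEquiv930 e.symm z') := by
        rw [← isScalarUniformizerAt_glAdeleEquiv930, glAdeleEquiv930_apply_symm_apply]
        exact hz'
      have := h _ hz (glAdeleEquiv930 e.symm g')
      beta_reduce at this
      rw [map_mul, glAdeleEquiv930_apply_symm_apply, glAdeleEquiv930_apply_symm_apply] at this
      exact this
    · intro h z hz g
      have := h _ ((isScalarUniformizerAt_glAdeleEquiv930 e w z).2 hz) (glAdeleEquiv930 e g)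
      beta_reduce
      rw [map_mul]
      exact this

end Fermat.Agent.LT.T1.H930

end
end
-- ===== PACK-END LT/T1/H930/AdeleAutArch.lean

-- ===== PACK-BEGIN LT/T6/H219/ThreeAdic.lean
section


/-!
# T6.00b (HasseNormQ3, cut of helper438): tool Q4, the condition at a split place over `3`
(helper219)

`v` a place of `L` over `3` with residue field `𝔽_3` and `v(3) = exp(-1)`.  If `3^k z₀ = a² + 3 b²` in `L_v` with `z₀ ∈ ℤ` prime to `3`,
then `z₀ ≡ 1 mod 3`.  Mathlib only.
-/

set_option autoImplicit false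

namespace Fermat.Agent.LT.T6.H219

open IsDedekindDomain HeightOneSpectrum WithZero NumberField

section three

variable {L : Type} [Field L] [NumberField L] (v : HeightOneSpectrum (𝓞 L))

theorem valued_intCast219 (z : ℤ) :
    Valued.v ((z : v.adicCompletion L)) = v.valuation L (z : L) := by
  have : ((z : v.adicCompletion L)) = algebraMap L (v.adicCompletion L) (z : L) := by simp
  rw [this]
  exact valuedAdicCompletion_eq_valuation' v (z : L)

theorem valued_three219 (h3 : v.valuation L (3 : L) = exp (-1 : ℤ)) :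
    Valued.v ((3 : v.adicCompletion L)) = exp (-1 : ℤ) := by
  have h := valued_intCast219 v 3
  have e : ((3 : ℤ) : v.adicCompletion L) = 3 := by norm_num
  have e' : ((3 : ℤ) : L) = 3 := by norm_num
  rw [e, e'] at h
  rw [h, h3]

theorem valued_unit219 (z₀ : ℤ) (hz : (z₀ : 𝓞 L) ∉ v.asIdeal) :
    Valued.v ((z₀ : v.adicCompletion L)) = 1 := by
  rw [valued_intCast219]
  have e : ((z₀ : ℤ) : L) = algebraMap (𝓞 L) L (z₀ : 𝓞 L) := by simp
  rw [e]
  exact (valuation_eq_one_iff_notMem _).mpr hz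

theorem val_parity219 (h3 : v.valuation L (3 : L) = exp (-1 : ℤ))
    (a b : v.adicCompletion L) (ha : a ≠ 0) :
    Valued.v (3 * b ^ 2) ≠ Valued.v (a ^ 2) := by
  intro h
  rw [map_mul, map_pow, map_pow, valued_three219 v h3] at h
  have ha0 : Valued.v a ≠ 0 := (Valuation.ne_zero_iff _).mpr ha
  have hb0 : Valued.v b ≠ 0 := by
    intro hb
    rw [hb] at h
    simp at h
    exact ha0 (pow_eq_zero_iff (n := 2) (by norm_num) |>.mp h.symm)
  obtain ⟨i, hi⟩ : ∃ i : ℤ, Valued.v a = exp i := ⟨_, (exp_log ha0).symm⟩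
  obtain ⟨j, hj⟩ : ∃ j : ℤ, Valued.v b = exp j := ⟨_, (exp_log hb0).symm⟩
  rw [hi, hj, ← exp_nsmul, ← exp_nsmul, ← exp_add, exp_inj] at h
  simp at h
  omega

theorem zmod3_sq219 (t : ZMod 3) (ht : t ≠ 0) : t ^ 2 = 1 := by
  revert t; decide

/-- Case `k = 0`. -/
theorem q4_zero219 (h3 : v.valuation L (3 : L) = exp (-1 : ℤ))
    (φ : 𝓞 L →+* ZMod 3) (hker : ∀ α : 𝓞 L, α ∈ v.asIdeal ↔ φ α = 0)
    (a b : v.adicCompletion L) (z₀ : ℤ) (hz : ¬ (3 : ℤ) ∣ z₀)
    (h : a ^ 2 + 3 * b ^ 2 = (z₀ : v.adicCompletion L)) : z₀ % 3 = 1 := by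
  have hz0 : ((z₀ : ℤ) : ZMod 3) ≠ 0 := by
    rw [Ne, ZMod.intCast_zmod_eq_zero_iff_dvd]
    exact_mod_cast hz
  have hzv : (z₀ : 𝓞 L) ∉ v.asIdeal := by
    rw [hker, map_intCast]; exact hz0
  have hz1 := valued_unit219 v z₀ hzv
  -- `v a ≤ 1`
  have ha1 : Valued.v a ≤ 1 := by
    by_contra hgt
    rw [not_le] at hgt
    have ha0 : a ≠ 0 := by
      rintro rfl
      simp at hgt
    have h2 : Valued.v (a ^ 2) > 1 := by
      rw [map_pow]
      exact one_lt_pow₀ hgt (by norm_num)
    have e : 3 * b ^ 2 = (z₀ : v.adicCompletion L) - a ^ 2 := by rw [← h]; ring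
    apply val_parity219 v h3 a b ha0
    rw [e, Valuation.map_sub_swap]
    exact Valuation.map_sub_eq_of_lt_left _ (by rw [hz1]; exact h2)
  have ha2 : Valued.v (a ^ 2) ≤ 1 := by
    rw [map_pow]; exact pow_le_one₀ zero_le ha1
  -- `v (3 b²) < 1`
  have hb1 : Valued.v (3 * b ^ 2) < 1 := by
    have e : 3 * b ^ 2 = (z₀ : v.adicCompletion L) - a ^ 2 := by rw [← h]; ring
    have hle : Valued.v (3 * b ^ 2) ≤ 1 := by
      rw [e]
      exact (Valuation.map_sub _ _ _).trans (max_le hz1.le ha2)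
    rcases lt_or_eq_of_le hle with h1 | h1
    · exact h1
    · exfalso
      have := val_parity219 v h3 (1 : v.adicCompletion L) b one_ne_zero
      apply this
      rw [h1]; simp
  -- approximate `a`
  obtain ⟨r, hr⟩ := exists_int_approx219 v a ha1
  set ρ : v.adicCompletion L := algebraMap (𝓞 L) (v.adicCompletion L) r with hρ
  have hρ1 : Valued.v ρ ≤ 1 := by
    rw [hρ, IsScalarTower.algebraMap_apply (𝓞 L) L (v.adicCompletion L)]
    change Valued.v ((algebraMap (𝓞 L) L r : L) : v.adicCompletion L) ≤ 1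
    rw [valuedAdicCompletion_eq_valuation']
    exact valuation_le_one _ r
  have h3' : Valued.v (a ^ 2 - ρ ^ 2) < 1 := by
    have : a ^ 2 - ρ ^ 2 = (a - ρ) * (a + ρ) := by ring
    rw [this, map_mul]
    calc Valued.v (a - ρ) * Valued.v (a + ρ) ≤ Valued.v (a - ρ) * 1 := by
          gcongr
          exact (Valuation.map_add _ _ _).trans (max_le ha1 hρ1)
      _ = Valued.v (a - ρ) := mul_one _
      _ < 1 := hr
  have h4 : Valued.v ((z₀ : v.adicCompletion L) - ρ ^ 2) < 1 := by
    have : (z₀ : v.adicCompletion L) - ρ ^ 2 = 3 * b ^ 2 + (a ^ 2 - ρ ^ 2) := by rw [← h]; ring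
    rw [this]
    exact Valuation.map_add_lt _ hb1 h3'
  have h5 : ((z₀ : 𝓞 L) - r ^ 2) ∈ v.asIdeal := by
    rw [← valuation_lt_one_iff_mem (K := L), ← valuedAdicCompletion_eq_valuation']
    have : ((algebraMap (𝓞 L) L ((z₀ : 𝓞 L) - r ^ 2) : L) : v.adicCompletion L)
        = (z₀ : v.adicCompletion L) - ρ ^ 2 := by
      rw [hρ, IsScalarTower.algebraMap_apply (𝓞 L) L (v.adicCompletion L)]
      change algebraMap L (v.adicCompletion L) (algebraMap (𝓞 L) L ((z₀ : 𝓞 L) - r ^ 2)) = _
      simp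
    rw [this]
    exact h4
  rw [hker, map_sub, map_intCast, map_pow, sub_eq_zero] at h5
  have hr0 : φ r ≠ 0 := by
    intro h0
    rw [h0] at h5
    simp at h5
    exact hz0 h5
  rw [zmod3_sq219 _ hr0] at h5
  have h6 : ((z₀ : ℤ) : ZMod 3) = ((1 : ℤ) : ZMod 3) := by rw [h5]; simp
  rw [ZMod.intCast_eq_intCast_iff] at h6
  have := h6
  unfold Int.ModEq at this
  omega

/-- **Q4.**  If `3^k z₀ = a² + 3b²` at a split place over `3` and `3 ∤ z₀`, then `z₀ ≡ 1 mod 3`. -/
theorem q4_219 (h3 : v.valuation L (3 : L) = exp (-1 : ℤ))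
    (φ : 𝓞 L →+* ZMod 3) (hker : ∀ α : 𝓞 L, α ∈ v.asIdeal ↔ φ α = 0) (k : ℕ) :
    ∀ (a b : v.adicCompletion L) (z₀ : ℤ), ¬ (3 : ℤ) ∣ z₀ →
    a ^ 2 + 3 * b ^ 2 = (3 : v.adicCompletion L) ^ k * (z₀ : v.adicCompletion L) →
      z₀ % 3 = 1 := by
  induction k with
  | zero =>
    intro a b z₀ hz h
    rw [pow_zero, one_mul] at h
    exact q4_zero219 v h3 φ hker a b z₀ hz h
  | succ k ih =>
    intro a b z₀ hz h
    apply ih b (a / 3) z₀ hz
    have h30 : (3 : v.adicCompletion L) ≠ 0 := by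
      intro h0
      have := valued_three219 v h3
      rw [h0, map_zero] at this
      exact exp_ne_zero this.symm
    have : b ^ 2 + 3 * (a / 3) ^ 2 = (a ^ 2 + 3 * b ^ 2) / 3 := by
      field_simp
      ring
    rw [this, h, pow_succ]
    field_simp

end three

end Fermat.Agent.LT.T6.H219

end
-- ===== PACK-END LT/T6/H219/ThreeAdic.lean

-- ===== PACK-BEGIN LT/T6/H423/EllAlg.lean
section





/-!
# Row LT, tower T6, sub-leaf T6.14d `EllAlgC` (helper423), OFF-MAIN

`ellAlg423 : Fermat.Agent.LT.T6.H847.EllAlgC`, from the Satake functional identity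
`fl_functional_E` of `SatFun.lean` (elliptic family, `N₀ = Θ`, `c = 1/2`).
-/

set_option autoImplicit false

noncomputable section

namespace Fermat.Agent.LT.T6.H423

open Fermat.Agent.LT.T6 Fermat.Agent.LT.T6.H847

/-- The weight `ellWeight` on a dominant `λ` is the elliptic weight `WE` with `c = 1/2`. -/
theorem ellWeight_eq_WE (Q : ℕ) (lam : ℤ × ℤ) (hlam : lam.2 ≤ lam.1) (j : ℤ) (Θ : ℂ) :
    ellWeight Q lam j Θ
      = if lam.1 + lam.2 = j then WE Q Θ (1 / 2) (lam.1 - lam.2).toNat else 0 := by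
  unfold ellWeight
  by_cases hd : lam.1 + lam.2 = j
  · rw [if_pos ⟨hd, hlam⟩, if_pos hd]
    by_cases hodd : j % 2 = 1
    · rw [if_pos hodd]
      unfold WE
      rw [if_neg (by omega), if_neg (by omega)]
      have e1 : (lam.1 - lam.2 - 1) / 2 = (((lam.1 - lam.2).toNat / 2 : ℕ) : ℤ) := by omega
      rw [e1, zpow_natCast]
      ring
    · rw [if_neg hodd]
      by_cases h0 : lam.1 = lam.2
      · rw [if_pos h0]
        unfold WE
        rw [if_pos (by omega)]
      · rw [if_neg h0]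
        unfold WE
        rw [if_neg (by omega), if_pos (by omega)]
        have e1 : (lam.1 - lam.2) / 2 - 1 = (((lam.1 - lam.2).toNat / 2 - 1 : ℕ) : ℤ) := by
          omega
        rw [e1, zpow_natCast]
        ring
  · rw [if_neg (fun hh => hd hh.1), if_neg hd]

/-- **T6.14d (EllAlg).** -/
theorem ellAlg423 : EllAlgC := by
  intro l q hl hq φ f hφ hf hbc j Θ
  have hq0 : 0 < q := by omega
  have hmain := fl_functional_E hl hq0 hbc hφ hf j Θ (1 / 2)
  have lhs : (f.sum fun lam a => a * ellWeight q lam ((l : ℤ) * j) Θ)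
      = f.sum fun lam v =>
        if lam.1 + lam.2 = (l : ℤ) * j then v * WE q Θ (1 / 2) (lam.1 - lam.2).toNat
        else 0 := by
    apply Finsupp.sum_congr
    intro lam hlam
    rw [ellWeight_eq_WE q lam (hf lam hlam)]
    split_ifs <;> simp
  have rhs : (φ.sum fun lam a => a * ellWeight (q ^ l) lam j Θ)
      = φ.sum fun lam v =>
        if lam.1 + lam.2 = j then v * WE (q ^ l) Θ (1 / 2) (lam.1 - lam.2).toNat
        else 0 := by
    apply Finsupp.sum_congr
    intro lam hlam
    rw [ellWeight_eq_WE (q ^ l) lam (hφ lam hlam)]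
    split_ifs <;> simp
  rw [lhs, rhs]
  exact hmain

end Fermat.Agent.LT.T6.H423

end

end
-- ===== PACK-END LT/T6/H423/EllAlg.lean

-- ===== PACK-BEGIN LT/T6/H75/TwEllAlg.lean
section





/-!
# Row LT, tower T6, P7 (archimedean matching `ℂ/ℝ`), leaf T6.26: the twisted elliptic orbit in
Iwasawa coordinates — MATRIX ALGEBRA (helper75), OFF-MAIN

Vocabulary: `LT/T6/Spec.lean` (v3, `glAut`), `LT/T6/SpecArch.lean` (`rhoC`, `InU2`),
`LT/T6/H189/ArchIntSpec.lean` (`dgC`, `unC`, `rotR`), byte-identical copies.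

THE EIGENBASIS TRICK.  `g₀ = (1/√2) !![1, 1; -i, i] ∈ U(2)` diagonalises the rotations:
`k_θ g₀ = g₀ diag(e^{iθ}, e^{-iθ})`, and `conj g₀ = g₀ w₀`, `w₀ = !![0, 1; 1, 0]`.  For
`y = g₀ · diag(e^{u₁}, e^{u₂}) · n(w)` and `δ = k_{a/2}`:

    y⁻¹ δ ȳ = !![-w λ', λ - |w|² λ'; λ', w̄ λ'],   λ = e^{u₂ - u₁} e^{ia/2},  λ' = λ⁻¹,

of determinant `-1`, and
`rhoC (y⁻¹ δ ȳ) = (e^{-2v} + e^{2v} (1 + |w|²)²) / 2 - |w|² cos a`, `v = u₁ - u₂`
(`twEll_rhoC75`).  Together with the unitary invariance of `rhoC` (`rhoC_unitary75`) this gives the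
value of a bi-`U(2)`-invariant function on the twisted orbit of `δ` at
`x = g₀ · diag · n(w) · k`, `k ∈ U(2)` (`twEll_rhoC_full75`).
-/

set_option autoImplicit false
set_option linter.unusedSimpArgs false

open scoped Matrix

noncomputable section

namespace Fermat.Agent.LT.T6.H75

open Fermat.Agent.LT.T6 Fermat.Agent.LT.T6.H189

/-- The radial coordinate of the twisted elliptic orbit in Iwasawa coordinates:
`ρ(v, t) = (e^{-2v} + e^{2v} (1 + t)²) / 2 - t cos a`. -/
def twRho75 (a v t : ℝ) : ℝ :=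
  (Real.exp (-(2 * v)) + Real.exp (2 * v) * (1 + t) ^ 2) / 2 - t * Real.cos a

/-- The rotation `k_θ` as an element of `GL₂(ℂ)`. -/
def rotC75 (θ : ℝ) : GL (Fin 2) ℂ := Matrix.GeneralLinearGroup.map (algebraMap ℝ ℂ) (rotR θ)

theorem coe_rotC75 (θ : ℝ) :
    ((rotC75 θ : GL (Fin 2) ℂ) : Matrix (Fin 2) (Fin 2) ℂ)
      = !![(Real.cos θ : ℂ), -(Real.sin θ : ℂ); (Real.sin θ : ℂ), (Real.cos θ : ℂ)] := by
  ext i j
  fin_cases i <;> fin_cases j <;> simp [rotC75, rotR]

/-- `1/√2` as a complex number. -/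
def isq75 : ℂ := (((Real.sqrt 2)⁻¹ : ℝ) : ℂ)

theorem isq_mul_self75 : isq75 * isq75 = 1 / 2 := by
  unfold isq75
  rw [← Complex.ofReal_mul, ← sq, inv_pow, Real.sq_sqrt (by norm_num : (0 : ℝ) ≤ 2)]
  push_cast
  ring

theorem conj_isq75 : (starRingEnd ℂ) isq75 = isq75 := by
  unfold isq75
  exact Complex.conj_ofReal _

theorem star_isq75 : star isq75 = isq75 := conj_isq75

/-- The matrix `g₀ = (1/√2) !![1, 1; -i, i]`. -/
def g0Mat75 : Matrix (Fin 2) (Fin 2) ℂ :=
  !![isq75, isq75; -(Complex.I * isq75), Complex.I * isq75]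

theorem g0Mat_det75 : g0Mat75.det = Complex.I := by
  unfold g0Mat75
  rw [Matrix.det_fin_two_of]
  have h := isq_mul_self75
  linear_combination (2 * Complex.I) * h

/-- `g₀` as an element of `GL₂(ℂ)`. -/
def g0GL75 : GL (Fin 2) ℂ :=
  Matrix.GeneralLinearGroup.mkOfDetNeZero g0Mat75 (by rw [g0Mat_det75]; exact Complex.I_ne_zero)

theorem coe_g0GL75 : ((g0GL75 : GL (Fin 2) ℂ) : Matrix (Fin 2) (Fin 2) ℂ) = g0Mat75 := rfl

/-- `g₀` is unitary. -/
theorem inU2_g0GL75 : InU2 g0GL75 := by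
  unfold InU2
  rw [coe_g0GL75]
  have h := isq_mul_self75
  have hI := Complex.I_mul_I
  ext i j
  fin_cases i <;> fin_cases j <;>
    simp [g0Mat75, Matrix.mul_apply, Fin.sum_univ_two, Matrix.conjTranspose_apply, conj_isq75]
  · linear_combination (2 : ℂ) * h
  · linear_combination (-2 * isq75 * isq75) * hI + 2 * h

/-! ## The twisted orbit in Iwasawa coordinates -/

theorem coe_dgC75 (u₁ u₂ : ℝ) :
    ((dgC u₁ u₂ : GL (Fin 2) ℂ) : Matrix (Fin 2) (Fin 2) ℂ)
      = !![(Real.exp u₁ : ℂ), 0; 0, (Real.exp u₂ : ℂ)] := rfl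

theorem coe_unC75 (w : ℂ) :
    ((unC w : GL (Fin 2) ℂ) : Matrix (Fin 2) (Fin 2) ℂ) = !![1, w; 0, 1] := rfl

/-- The complex conjugation of `GL₂(ℂ)`. -/
def conjGL75 : GL (Fin 2) ℂ →* GL (Fin 2) ℂ := glAut (starRingAut : ℂ ≃+* ℂ)

theorem coe_conjGL75 (x : GL (Fin 2) ℂ) (i j : Fin 2) :
    ((conjGL75 x : GL (Fin 2) ℂ) : Matrix (Fin 2) (Fin 2) ℂ) i j
      = (starRingEnd ℂ) ((x : Matrix (Fin 2) (Fin 2) ℂ) i j) := rfl

/-- The point `y = g₀ · diag(e^{u₁}, e^{u₂}) · n(w)`. -/
def twPt75 (u₁ u₂ : ℝ) (w : ℂ) : GL (Fin 2) ℂ := g0GL75 * dgC u₁ u₂ * unC w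

theorem coe_twPt75 (u₁ u₂ : ℝ) (w : ℂ) :
    ((twPt75 u₁ u₂ w : GL (Fin 2) ℂ) : Matrix (Fin 2) (Fin 2) ℂ)
      = !![isq75 * (Real.exp u₁ : ℂ), isq75 * ((Real.exp u₁ : ℂ) * w + (Real.exp u₂ : ℂ));
           -(Complex.I * isq75 * (Real.exp u₁ : ℂ)),
           Complex.I * isq75 * ((Real.exp u₂ : ℂ) - (Real.exp u₁ : ℂ) * w)] := by
  unfold twPt75
  rw [Matrix.GeneralLinearGroup.coe_mul, Matrix.GeneralLinearGroup.coe_mul, coe_g0GL75,
    coe_dgC75, coe_unC75]
  ext i j
  fin_cases i <;> fin_cases j <;>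
    simp [g0Mat75, Matrix.mul_apply, Fin.sum_univ_two] <;> ring

/-- The matrix of `y⁻¹ k_{a/2} ȳ`. -/
def twMat75 (a u₁ u₂ : ℝ) (w : ℂ) : Matrix (Fin 2) (Fin 2) ℂ :=
  !![-(w * ((Real.exp (u₁ - u₂) : ℂ) * ((Real.cos (a / 2) : ℂ) - Complex.I * (Real.sin (a / 2) : ℂ)))),
     (Real.exp (u₂ - u₁) : ℂ) * ((Real.cos (a / 2) : ℂ) + Complex.I * (Real.sin (a / 2) : ℂ))
       - w * (starRingEnd ℂ) w * ((Real.exp (u₁ - u₂) : ℂ)
          * ((Real.cos (a / 2) : ℂ) - Complex.I * (Real.sin (a / 2) : ℂ)));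
     (Real.exp (u₁ - u₂) : ℂ) * ((Real.cos (a / 2) : ℂ) - Complex.I * (Real.sin (a / 2) : ℂ)),
     (starRingEnd ℂ) w * ((Real.exp (u₁ - u₂) : ℂ)
          * ((Real.cos (a / 2) : ℂ) - Complex.I * (Real.sin (a / 2) : ℂ)))]

theorem exp_rel75 (u₁ u₂ : ℝ) :
    (Real.exp u₁ : ℂ) * (Real.exp (u₂ - u₁) : ℂ) = (Real.exp u₂ : ℂ) := by
  rw [← Complex.ofReal_mul, ← Real.exp_add]
  congr 2
  ring

/-- The generic matrix identity behind `twPt_mul_twMat75`. -/
theorem twGeneric75 (A₁ A₂ p q cs sn w wb r : ℂ) (hA : A₁ * p = A₂) (hB : A₂ * q = A₁) :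
    !![r * A₁, r * (A₁ * w + A₂); -(Complex.I * r * A₁), Complex.I * r * (A₂ - A₁ * w)]
      * !![-(w * (q * (cs - Complex.I * sn))),
           p * (cs + Complex.I * sn) - w * wb * (q * (cs - Complex.I * sn));
           q * (cs - Complex.I * sn), wb * (q * (cs - Complex.I * sn))]
      = !![cs, -sn; sn, cs]
        * !![r * A₁, r * (A₁ * wb + A₂); Complex.I * r * A₁,
             -(Complex.I * r * (A₂ - A₁ * wb))] := by
  have hI := Complex.I_mul_I
  ext i j
  fin_cases i <;> fin_cases j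
  · simp only [Matrix.mul_apply, Fin.sum_univ_two, Matrix.of_apply, Matrix.cons_val',
      Matrix.cons_val_zero, Matrix.cons_val_one, Matrix.cons_val_fin_one, Fin.zero_eta,
      Fin.mk_one, Fin.isValue]
    linear_combination (r * (cs - Complex.I * sn)) * hB
  · simp only [Matrix.mul_apply, Fin.sum_univ_two, Matrix.of_apply, Matrix.cons_val',
      Matrix.cons_val_zero, Matrix.cons_val_one, Matrix.cons_val_fin_one, Fin.zero_eta,
      Fin.mk_one, Fin.isValue]
    linear_combination (r * (cs + Complex.I * sn)) * hA + (r * wb * (cs - Complex.I * sn)) * hB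
  · simp only [Matrix.mul_apply, Fin.sum_univ_two, Matrix.of_apply, Matrix.cons_val',
      Matrix.cons_val_zero, Matrix.cons_val_one, Matrix.cons_val_fin_one, Fin.zero_eta,
      Fin.mk_one, Fin.isValue]
    linear_combination (Complex.I * r * (cs - Complex.I * sn)) * hB + (-(r * A₁ * sn)) * hI
  · simp only [Matrix.mul_apply, Fin.sum_univ_two, Matrix.of_apply, Matrix.cons_val',
      Matrix.cons_val_zero, Matrix.cons_val_one, Matrix.cons_val_fin_one, Fin.zero_eta,
      Fin.mk_one, Fin.isValue]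
    linear_combination (-(Complex.I * r * (cs + Complex.I * sn))) * hA
      + (Complex.I * r * wb * (cs - Complex.I * sn)) * hB
      + (-(r * A₁ * sn * wb + r * sn * A₂)) * hI

/-- `y · M = k_{a/2} · ȳ`. -/
theorem twPt_mul_twMat75 (a u₁ u₂ : ℝ) (w : ℂ) :
    ((twPt75 u₁ u₂ w : GL (Fin 2) ℂ) : Matrix (Fin 2) (Fin 2) ℂ) * twMat75 a u₁ u₂ w
      = ((rotC75 (a / 2) : GL (Fin 2) ℂ) : Matrix (Fin 2) (Fin 2) ℂ)
        * ((conjGL75 (twPt75 u₁ u₂ w) : GL (Fin 2) ℂ) : Matrix (Fin 2) (Fin 2) ℂ) := by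
  have hA := exp_rel75 u₁ u₂
  have hB := exp_rel75 u₂ u₁
  have hc : ((conjGL75 (twPt75 u₁ u₂ w) : GL (Fin 2) ℂ) : Matrix (Fin 2) (Fin 2) ℂ)
      = !![isq75 * (Real.exp u₁ : ℂ),
           isq75 * ((Real.exp u₁ : ℂ) * (starRingEnd ℂ) w + (Real.exp u₂ : ℂ));
           Complex.I * isq75 * (Real.exp u₁ : ℂ),
           -(Complex.I * isq75 * ((Real.exp u₂ : ℂ) - (Real.exp u₁ : ℂ) * (starRingEnd ℂ) w))] := by
    ext i j
    rw [coe_conjGL75, coe_twPt75]
    fin_cases i <;> fin_cases j <;>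
      simp only [Matrix.of_apply, Matrix.cons_val', Matrix.cons_val_zero, Matrix.cons_val_one,
        Matrix.cons_val_fin_one, Fin.zero_eta, Fin.mk_one, map_mul, map_add, map_sub, map_neg,
        conj_isq75, Complex.conj_ofReal, Complex.conj_I] <;> ring
  rw [hc, coe_twPt75, coe_rotC75]
  exact twGeneric75 _ _ _ _ _ _ _ _ _ hA hB

/-- The matrix of the twisted conjugate `y⁻¹ k_{a/2} ȳ`. -/
theorem coe_twConj75 (a u₁ u₂ : ℝ) (w : ℂ) :
    (((twPt75 u₁ u₂ w)⁻¹ * rotC75 (a / 2) * conjGL75 (twPt75 u₁ u₂ w) : GL (Fin 2) ℂ) :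
      Matrix (Fin 2) (Fin 2) ℂ) = twMat75 a u₁ u₂ w := by
  rw [mul_assoc, Matrix.GeneralLinearGroup.coe_mul, Matrix.GeneralLinearGroup.coe_mul,
    ← twPt_mul_twMat75, ← Matrix.mul_assoc, ← Matrix.GeneralLinearGroup.coe_mul,
    inv_mul_cancel]
  simp

/-! ## The radial coordinate -/

/-- `tr(M* M)` is the sum of the squares of the absolute values of the entries. -/
theorem trace_conjTranspose_mul_self_re75 (M : Matrix (Fin 2) (Fin 2) ℂ) :
    ((M.conjTranspose * M).trace).re
      = Complex.normSq (M 0 0) + Complex.normSq (M 0 1) + Complex.normSq (M 1 0)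
        + Complex.normSq (M 1 1) := by
  simp only [Matrix.trace_fin_two, Matrix.mul_apply, Fin.sum_univ_two,
    Matrix.conjTranspose_apply, Complex.add_re, Complex.star_def, Complex.mul_re,
    Complex.conj_re, Complex.conj_im, Complex.normSq_apply]
  ring

/-- `rhoC` in terms of the matrix. -/
theorem rhoC_eq75 (y : GL (Fin 2) ℂ) {M : Matrix (Fin 2) (Fin 2) ℂ}
    (h : (y : Matrix (Fin 2) (Fin 2) ℂ) = M) :
    rhoC y = (Complex.normSq (M 0 0) + Complex.normSq (M 0 1) + Complex.normSq (M 1 0)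
        + Complex.normSq (M 1 1)) / (2 * ‖M.det‖) := by
  unfold rhoC
  rw [h, trace_conjTranspose_mul_self_re75]

/-- A unitary matrix has a determinant of absolute value `1`. -/
theorem norm_det_of_inU2_75 {k : GL (Fin 2) ℂ} (hk : InU2 k) :
    ‖(k : Matrix (Fin 2) (Fin 2) ℂ).det‖ = 1 := by
  have h := congrArg Matrix.det hk
  rw [Matrix.det_mul, Matrix.det_conjTranspose, Matrix.det_one] at h
  have h2 : ‖(k : Matrix (Fin 2) (Fin 2) ℂ).det‖ * ‖(k : Matrix (Fin 2) (Fin 2) ℂ).det‖ = 1 := by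
    have := congrArg norm h
    rwa [norm_mul, norm_star, norm_one] at this
  have h0 : 0 ≤ ‖(k : Matrix (Fin 2) (Fin 2) ℂ).det‖ := norm_nonneg _
  nlinarith

theorem inU2_iff75 {k : GL (Fin 2) ℂ} :
    InU2 k ↔ (k : Matrix (Fin 2) (Fin 2) ℂ).conjTranspose * (k : Matrix (Fin 2) (Fin 2) ℂ) = 1 :=
  mul_eq_one_comm

theorem inU2_inv75 {k : GL (Fin 2) ℂ} (hk : InU2 k) : InU2 k⁻¹ := by
  unfold InU2 at *
  have h1 : ((k⁻¹ : GL (Fin 2) ℂ) : Matrix (Fin 2) (Fin 2) ℂ)
      = (k : Matrix (Fin 2) (Fin 2) ℂ).conjTranspose := by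
    have h2 : ((k⁻¹ : GL (Fin 2) ℂ) : Matrix (Fin 2) (Fin 2) ℂ)
        * (k : Matrix (Fin 2) (Fin 2) ℂ) = 1 := by
      rw [← Matrix.GeneralLinearGroup.coe_mul, inv_mul_cancel]
      rfl
    calc ((k⁻¹ : GL (Fin 2) ℂ) : Matrix (Fin 2) (Fin 2) ℂ)
        = ((k⁻¹ : GL (Fin 2) ℂ) : Matrix (Fin 2) (Fin 2) ℂ)
          * ((k : Matrix (Fin 2) (Fin 2) ℂ) * (k : Matrix (Fin 2) (Fin 2) ℂ).conjTranspose) := by
          rw [hk, Matrix.mul_one]
      _ = (k : Matrix (Fin 2) (Fin 2) ℂ).conjTranspose := by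
          rw [← Matrix.mul_assoc, h2, Matrix.one_mul]
  rw [h1, Matrix.conjTranspose_conjTranspose]
  exact inU2_iff75.mp hk

theorem inU2_conjGL75 {k : GL (Fin 2) ℂ} (hk : InU2 k) : InU2 (conjGL75 k) := by
  unfold InU2 at *
  have h1 : ((conjGL75 k : GL (Fin 2) ℂ) : Matrix (Fin 2) (Fin 2) ℂ)
      = (k : Matrix (Fin 2) (Fin 2) ℂ).map (starRingEnd ℂ) := by
    ext i j
    rw [coe_conjGL75]
    rfl
  rw [h1]
  have h2 : ((k : Matrix (Fin 2) (Fin 2) ℂ)
      * (k : Matrix (Fin 2) (Fin 2) ℂ).conjTranspose).map (starRingEnd ℂ)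
      = (1 : Matrix (Fin 2) (Fin 2) ℂ).map (starRingEnd ℂ) := by rw [hk]
  rw [Matrix.map_mul] at h2
  have h3 : (1 : Matrix (Fin 2) (Fin 2) ℂ).map (starRingEnd ℂ) = 1 := by
    ext i j
    by_cases hij : i = j
    · subst hij; simp
    · simp [hij]
  have h4 : ((k : Matrix (Fin 2) (Fin 2) ℂ).conjTranspose).map (starRingEnd ℂ)
      = ((k : Matrix (Fin 2) (Fin 2) ℂ).map (starRingEnd ℂ)).conjTranspose := by
    ext i j
    simp [Matrix.conjTranspose_apply]
  rw [h3, h4] at h2
  exact h2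

/-- `rhoC` is invariant under `U(2)` on both sides. -/
theorem rhoC_unitary75 {k k' : GL (Fin 2) ℂ} (hk : InU2 k) (hk' : InU2 k') (y : GL (Fin 2) ℂ) :
    rhoC (k * y * k') = rhoC y := by
  unfold rhoC
  have hd : ‖((k * y * k' : GL (Fin 2) ℂ) : Matrix (Fin 2) (Fin 2) ℂ).det‖
      = ‖(y : Matrix (Fin 2) (Fin 2) ℂ).det‖ := by
    rw [Matrix.GeneralLinearGroup.coe_mul, Matrix.GeneralLinearGroup.coe_mul, Matrix.det_mul,
      Matrix.det_mul, norm_mul, norm_mul, norm_det_of_inU2_75 hk, norm_det_of_inU2_75 hk',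
      one_mul, mul_one]
  have ht : ((((k * y * k' : GL (Fin 2) ℂ) : Matrix (Fin 2) (Fin 2) ℂ)).conjTranspose
      * ((k * y * k' : GL (Fin 2) ℂ) : Matrix (Fin 2) (Fin 2) ℂ)).trace
      = ((y : Matrix (Fin 2) (Fin 2) ℂ).conjTranspose * (y : Matrix (Fin 2) (Fin 2) ℂ)).trace := by
    rw [Matrix.GeneralLinearGroup.coe_mul, Matrix.GeneralLinearGroup.coe_mul,
      Matrix.conjTranspose_mul, Matrix.conjTranspose_mul]
    have e1 : (k' : Matrix (Fin 2) (Fin 2) ℂ).conjTranspose
          * ((y : Matrix (Fin 2) (Fin 2) ℂ).conjTranspose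
            * (k : Matrix (Fin 2) (Fin 2) ℂ).conjTranspose)
          * ((k : Matrix (Fin 2) (Fin 2) ℂ) * (y : Matrix (Fin 2) (Fin 2) ℂ)
            * (k' : Matrix (Fin 2) (Fin 2) ℂ))
        = (k' : Matrix (Fin 2) (Fin 2) ℂ).conjTranspose
          * (((y : Matrix (Fin 2) (Fin 2) ℂ).conjTranspose * (y : Matrix (Fin 2) (Fin 2) ℂ))
            * (k' : Matrix (Fin 2) (Fin 2) ℂ)) := by
      have hkk := inU2_iff75.mp hk
      calc _ = (k' : Matrix (Fin 2) (Fin 2) ℂ).conjTranspose
            * ((y : Matrix (Fin 2) (Fin 2) ℂ).conjTranspose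
              * ((k : Matrix (Fin 2) (Fin 2) ℂ).conjTranspose * (k : Matrix (Fin 2) (Fin 2) ℂ))
              * (y : Matrix (Fin 2) (Fin 2) ℂ) * (k' : Matrix (Fin 2) (Fin 2) ℂ)) := by
            simp only [Matrix.mul_assoc]
        _ = _ := by rw [hkk, Matrix.mul_one]
    rw [e1, Matrix.trace_mul_comm, Matrix.mul_assoc, hk', Matrix.mul_one]
  rw [hd, ht]

/-- The real algebra behind `twEll_rhoC75`. -/
theorem tw_real_algebra75 (p q cs sn T ca E₁ E₂ : ℝ) (hpq : p * q = 1)
    (hcs : cs ^ 2 + sn ^ 2 = 1) (hca : ca = cs ^ 2 - sn ^ 2) (hE1 : E₁ = p * p)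
    (hE2 : E₂ = q * q) :
    T * (q * q * (cs * cs + sn * sn))
        + ((p * cs - T * (q * cs)) * (p * cs - T * (q * cs))
          + (p * sn + T * (q * sn)) * (p * sn + T * (q * sn)))
        + q * q * (cs * cs + sn * sn) + T * (q * q * (cs * cs + sn * sn))
      = 2 * ((E₁ + E₂ * (1 + T) ^ 2) / 2 - T * ca) := by
  linear_combination (p ^ 2 + q ^ 2 * (1 + T) ^ 2) * hcs - (2 * T * (cs ^ 2 - sn ^ 2)) * hpq
    - hE1 - (1 + T) ^ 2 * hE2 + 2 * T * hca

/-- The generic determinant. -/
theorem tw_det_generic75 (p q cs sn : ℝ) (w : ℂ) (hpq : p * q = 1) (hcs : cs ^ 2 + sn ^ 2 = 1) :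
    (!![-(w * ((q : ℂ) * ((cs : ℂ) - Complex.I * (sn : ℂ)))),
        (p : ℂ) * ((cs : ℂ) + Complex.I * (sn : ℂ))
          - w * (starRingEnd ℂ) w * ((q : ℂ) * ((cs : ℂ) - Complex.I * (sn : ℂ)));
        (q : ℂ) * ((cs : ℂ) - Complex.I * (sn : ℂ)),
        (starRingEnd ℂ) w * ((q : ℂ) * ((cs : ℂ) - Complex.I * (sn : ℂ)))] :
      Matrix (Fin 2) (Fin 2) ℂ).det = -1 := by
  rw [Matrix.det_fin_two_of]
  have hI := Complex.I_mul_I
  have h1 : (p : ℂ) * (q : ℂ) = 1 := by exact_mod_cast hpq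
  have h2 : (cs : ℂ) ^ 2 + (sn : ℂ) ^ 2 = 1 := by exact_mod_cast hcs
  linear_combination (-((cs : ℂ) ^ 2 + (sn : ℂ) ^ 2)) * h1 - h2
    + ((p : ℂ) * (q : ℂ) * (sn : ℂ) ^ 2) * hI

/-- The generic sum of squares. -/
theorem tw_normSq_generic75 (p q cs sn : ℝ) (w : ℂ) :
    Complex.normSq (-(w * ((q : ℂ) * ((cs : ℂ) - Complex.I * (sn : ℂ)))))
      + Complex.normSq ((p : ℂ) * ((cs : ℂ) + Complex.I * (sn : ℂ))
          - w * (starRingEnd ℂ) w * ((q : ℂ) * ((cs : ℂ) - Complex.I * (sn : ℂ))))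
      + Complex.normSq ((q : ℂ) * ((cs : ℂ) - Complex.I * (sn : ℂ)))
      + Complex.normSq ((starRingEnd ℂ) w * ((q : ℂ) * ((cs : ℂ) - Complex.I * (sn : ℂ))))
    = Complex.normSq w * (q * q * (cs * cs + sn * sn))
        + ((p * cs - Complex.normSq w * (q * cs)) * (p * cs - Complex.normSq w * (q * cs))
          + (p * sn + Complex.normSq w * (q * sn)) * (p * sn + Complex.normSq w * (q * sn)))
        + q * q * (cs * cs + sn * sn) + Complex.normSq w * (q * q * (cs * cs + sn * sn)) := by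
  have e1 : Complex.normSq ((cs : ℂ) - Complex.I * (sn : ℂ)) = cs * cs + sn * sn := by
    rw [Complex.normSq_apply]
    simp only [Complex.sub_re, Complex.sub_im, Complex.mul_re, Complex.mul_im, Complex.ofReal_re,
      Complex.ofReal_im, Complex.I_re, Complex.I_im]
    ring
  have e2 : w * (starRingEnd ℂ) w = ((Complex.normSq w : ℝ) : ℂ) := Complex.mul_conj w
  have e3 : Complex.normSq ((p : ℂ) * ((cs : ℂ) + Complex.I * (sn : ℂ))
          - ((Complex.normSq w : ℝ) : ℂ) * ((q : ℂ) * ((cs : ℂ) - Complex.I * (sn : ℂ))))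
      = (p * cs - Complex.normSq w * (q * cs)) * (p * cs - Complex.normSq w * (q * cs))
          + (p * sn + Complex.normSq w * (q * sn)) * (p * sn + Complex.normSq w * (q * sn)) := by
    rw [Complex.normSq_apply]
    simp only [Complex.sub_re, Complex.sub_im, Complex.add_re, Complex.add_im, Complex.mul_re,
      Complex.mul_im, Complex.ofReal_re, Complex.ofReal_im, Complex.I_re, Complex.I_im]
    ring
  rw [e2, e3, Complex.normSq_neg, map_mul, map_mul, map_mul, map_mul, Complex.normSq_conj, e1,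
    Complex.normSq_ofReal]

/-- The determinant of the twisted conjugate is `-1`. -/
theorem twMat_det75 (a u₁ u₂ : ℝ) (w : ℂ) : (twMat75 a u₁ u₂ w).det = -1 := by
  unfold twMat75
  apply tw_det_generic75
  · rw [← Real.exp_add]
    simp
  · exact Real.cos_sq_add_sin_sq _

/-- **The radial coordinate of the twisted elliptic orbit**:
`rhoC (y⁻¹ k_{a/2} ȳ) = (e^{-2v} + e^{2v} (1 + |w|²)²) / 2 - |w|² cos a`, `v = u₁ - u₂`,
`y = g₀ · diag(e^{u₁}, e^{u₂}) · n(w)`. -/
theorem twEll_rhoC75 (a u₁ u₂ : ℝ) (w : ℂ) :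
    rhoC ((twPt75 u₁ u₂ w)⁻¹ * rotC75 (a / 2) * conjGL75 (twPt75 u₁ u₂ w))
      = twRho75 a (u₁ - u₂) (Complex.normSq w) := by
  rw [rhoC_eq75 _ (coe_twConj75 a u₁ u₂ w), twMat_det75, norm_neg, norm_one, mul_one]
  have h := tw_normSq_generic75 (Real.exp (u₂ - u₁)) (Real.exp (u₁ - u₂)) (Real.cos (a / 2))
    (Real.sin (a / 2)) w
  have hentries : Complex.normSq (twMat75 a u₁ u₂ w 0 0) + Complex.normSq (twMat75 a u₁ u₂ w 0 1)
      + Complex.normSq (twMat75 a u₁ u₂ w 1 0) + Complex.normSq (twMat75 a u₁ u₂ w 1 1)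
      = 2 * twRho75 a (u₁ - u₂) (Complex.normSq w) := by
    have h0 : twMat75 a u₁ u₂ w 0 0 = -(w * ((Real.exp (u₁ - u₂) : ℂ)
        * ((Real.cos (a / 2) : ℂ) - Complex.I * (Real.sin (a / 2) : ℂ)))) := rfl
    have h1 : twMat75 a u₁ u₂ w 0 1
        = (Real.exp (u₂ - u₁) : ℂ) * ((Real.cos (a / 2) : ℂ) + Complex.I * (Real.sin (a / 2) : ℂ))
          - w * (starRingEnd ℂ) w * ((Real.exp (u₁ - u₂) : ℂ)
            * ((Real.cos (a / 2) : ℂ) - Complex.I * (Real.sin (a / 2) : ℂ))) := rfl
    have h2 : twMat75 a u₁ u₂ w 1 0 = (Real.exp (u₁ - u₂) : ℂ)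
        * ((Real.cos (a / 2) : ℂ) - Complex.I * (Real.sin (a / 2) : ℂ)) := rfl
    have h3 : twMat75 a u₁ u₂ w 1 1 = (starRingEnd ℂ) w * ((Real.exp (u₁ - u₂) : ℂ)
        * ((Real.cos (a / 2) : ℂ) - Complex.I * (Real.sin (a / 2) : ℂ))) := rfl
    rw [h0, h1, h2, h3, h]
    unfold twRho75
    apply tw_real_algebra75
    · rw [← Real.exp_add]
      simp
    · exact Real.cos_sq_add_sin_sq _
    · have := Real.cos_sq_add_sin_sq (a / 2)
      have h2 := Real.cos_two_mul (a / 2)
      rw [show 2 * (a / 2) = a by ring] at h2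
      rw [h2]
      linarith
    · rw [← Real.exp_add]
      congr 1
      ring
    · rw [← Real.exp_add]
      congr 1
      ring
  rw [hentries]
  ring

/-- The absolute value of the determinant of the twisted conjugate is `1`. -/
theorem twEll_norm_det75 (a u₁ u₂ : ℝ) (w : ℂ) :
    ‖(((twPt75 u₁ u₂ w)⁻¹ * rotC75 (a / 2) * conjGL75 (twPt75 u₁ u₂ w) : GL (Fin 2) ℂ) :
      Matrix (Fin 2) (Fin 2) ℂ).det‖ = 1 := by
  rw [coe_twConj75, twMat_det75, norm_neg, norm_one]

/-- The twisted conjugate at `x = y k`. -/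
theorem twConj_mul75 (δ y k : GL (Fin 2) ℂ) :
    (y * k)⁻¹ * δ * conjGL75 (y * k) = k⁻¹ * (y⁻¹ * δ * conjGL75 y) * conjGL75 k := by
  rw [map_mul, mul_inv_rev]
  simp only [mul_assoc]

/-- **The radial coordinate on the whole twisted orbit**, `x = g₀ · diag · n(w) · k`, `k ∈ U(2)`. -/
theorem twEll_rhoC_full75 (a u₁ u₂ : ℝ) (w : ℂ) {k : GL (Fin 2) ℂ} (hk : InU2 k) :
    rhoC ((twPt75 u₁ u₂ w * k)⁻¹ * rotC75 (a / 2) * conjGL75 (twPt75 u₁ u₂ w * k))
      = twRho75 a (u₁ - u₂) (Complex.normSq w) := by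
  rw [twConj_mul75, rhoC_unitary75 (inU2_inv75 hk) (inU2_conjGL75 hk), twEll_rhoC75]

theorem twEll_norm_det_full75 (a u₁ u₂ : ℝ) (w : ℂ) {k : GL (Fin 2) ℂ} (hk : InU2 k) :
    ‖(((twPt75 u₁ u₂ w * k)⁻¹ * rotC75 (a / 2) * conjGL75 (twPt75 u₁ u₂ w * k) :
      GL (Fin 2) ℂ) : Matrix (Fin 2) (Fin 2) ℂ).det‖ = 1 := by
  rw [twConj_mul75, Matrix.GeneralLinearGroup.coe_mul, Matrix.GeneralLinearGroup.coe_mul,
    Matrix.det_mul, Matrix.det_mul, norm_mul, norm_mul, norm_det_of_inU2_75 (inU2_inv75 hk),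
    norm_det_of_inU2_75 (inU2_conjGL75 hk), twEll_norm_det75, one_mul, mul_one]

/-- `|det x| = e^{u₁ + u₂}` at `x = g₀ · diag(e^{u₁}, e^{u₂}) · n(w) · k`. -/
theorem norm_det_twPt75 (u₁ u₂ : ℝ) (w : ℂ) {k : GL (Fin 2) ℂ} (hk : InU2 k) :
    ‖((twPt75 u₁ u₂ w * k : GL (Fin 2) ℂ) : Matrix (Fin 2) (Fin 2) ℂ).det‖
      = Real.exp (u₁ + u₂) := by
  rw [Matrix.GeneralLinearGroup.coe_mul, Matrix.det_mul, norm_mul, norm_det_of_inU2_75 hk,
    mul_one]
  unfold twPt75
  rw [Matrix.GeneralLinearGroup.coe_mul, Matrix.GeneralLinearGroup.coe_mul, Matrix.det_mul,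
    Matrix.det_mul, coe_g0GL75, g0Mat_det75, coe_dgC75, coe_unC75, Matrix.det_fin_two_of,
    Matrix.det_fin_two_of, norm_mul, norm_mul, Complex.norm_I]
  simp only [mul_zero, sub_zero, mul_one, one_mul, norm_one]
  rw [← Complex.ofReal_mul, ← Real.exp_add, Complex.norm_real, Real.norm_eq_abs,
    abs_of_pos (Real.exp_pos _)]

end Fermat.Agent.LT.T6.H75

end

end
-- ===== PACK-END LT/T6/H75/TwEllAlg.lean

-- ===== PACK-BEGIN LT/T6/H189/IwaR.lean
section





/-!
# Row LT, tower T6, leaf T6.23.11 `IwaOfRC` (A1) -- helper189, registry 1477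

OFF-MAIN.  `iwaOfRC189 : IwaOfRC`, i.e. `RightInvRC → IwaHomeoRC → CircleMeasC → IwasawaRC`.

`H = B(ℝ) × Circle`, `Ψ (b, z) = ι b * (rotZ z)⁻¹ = jR (u₁, u₂, x, z⁻¹)` is an equivariant open
embedding with range `det > 0`; `haar_restrict_range_eq_smul_map189` gives
`μ|_{det > 0} = c • Ψ_* (Lebesgue × κ)`, and `Ψ_* (Lebesgue × κ) = jR_* (du₁ du₂ dx dκ)`
(`κ` is inversion invariant), `iwaR_* (du₁ du₂ dx dθ) = jR_* (du₁ du₂ dx (exp_* dθ))`.
-/

set_option autoImplicit false
set_option linter.style.haveILetI false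

open MeasureTheory Set
open scoped Matrix ENNReal

noncomputable section

namespace Fermat.Agent.LT.T6.H189

/-! ## 1. Algebra -/

/-- `ι (u, x) = diag(e^{u₁}, e^{u₂}) n(x)`. -/
def iotaR189 (b : BG189 ℝ) : GL (Fin 2) ℝ :=
  dgR (BG189.val189 b).1.1 (BG189.val189 b).1.2 * unR (BG189.val189 b).2

theorem iotaR_mul189 (a b : BG189 ℝ) : iotaR189 (a * b) = iotaR189 a * iotaR189 b := by
  apply Matrix.GeneralLinearGroup.ext
  intro i j
  simp only [iotaR189, BG189.mul_def189, BG189.val189, BG189.mk189, bmul189, dgR, unR,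
    Matrix.GeneralLinearGroup.coe_mul, Matrix.GeneralLinearGroup.mkOfDetNeZero, smul_eq_mul]
  fin_cases i <;> fin_cases j <;>
    simp [Matrix.mul_apply, Fin.sum_univ_two, Real.exp_add, Real.exp_sub]
  field_simp

theorem rotZ_mul189 (z w : Circle) : rotZ (z * w) = rotZ z * rotZ w := by
  apply Matrix.GeneralLinearGroup.ext
  intro i j
  simp only [rotZ, Matrix.GeneralLinearGroup.coe_mul, Matrix.GeneralLinearGroup.mkOfDetNeZero]
  fin_cases i <;> fin_cases j <;>
    simp [Matrix.mul_apply, Fin.sum_univ_two, Complex.mul_re, Complex.mul_im] <;> ring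

theorem rotZ_one189 : rotZ 1 = 1 := by
  apply Matrix.GeneralLinearGroup.ext
  intro i j
  simp only [rotZ, Matrix.GeneralLinearGroup.mkOfDetNeZero]
  fin_cases i <;> fin_cases j <;> simp

theorem rotZ_inv189 (z : Circle) : rotZ z⁻¹ = (rotZ z)⁻¹ := by
  rw [eq_inv_iff_mul_eq_one, ← rotZ_mul189, inv_mul_cancel, rotZ_one189]

theorem rotZ_exp189 (θ : ℝ) : rotZ (Circle.exp θ) = rotR θ := by
  apply Matrix.GeneralLinearGroup.ext
  intro i j
  simp only [rotZ, rotR, Matrix.GeneralLinearGroup.mkOfDetNeZero, Circle.coe_exp]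
  fin_cases i <;> fin_cases j <;>
    simp [Complex.exp_ofReal_mul_I_re, Complex.exp_ofReal_mul_I_im]

/-- `Ψ (b, z) = ι b * (rotZ z)⁻¹`. -/
def psiR189 (h : BG189 ℝ × Circle) : GL (Fin 2) ℝ := iotaR189 h.1 * (rotZ h.2)⁻¹

theorem psiR_mul189 (h₀ h : BG189 ℝ × Circle) :
    psiR189 (h₀ * h) = iotaR189 h₀.1 * psiR189 h * (rotZ h₀.2)⁻¹ := by
  simp only [psiR189, Prod.fst_mul, Prod.snd_mul, iotaR_mul189, rotZ_mul189, mul_inv_rev,
    mul_assoc]

/-- The change of coordinates `(((u₁, u₂), x), z) ↦ (u₁, u₂, x, z⁻¹)`. -/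
def eR189 (h : BG189 ℝ × Circle) : ℝ × ℝ × ℝ × Circle :=
  ((BG189.val189 h.1).1.1, (BG189.val189 h.1).1.2, (BG189.val189 h.1).2, h.2⁻¹)

theorem psiR_eq189 : psiR189 = jR ∘ eR189 := by
  funext h
  simp only [psiR189, Function.comp_apply, jR, eR189, iotaR189, rotZ_inv189]

theorem iwaR_eq189 :
    iwaR = jR ∘ (Prod.map id (Prod.map id (Prod.map id (fun θ : ℝ => Circle.exp θ)))) := by
  funext p
  obtain ⟨a, b, c, d⟩ := p
  simp only [iwaR, Function.comp_apply, jR, Prod.map_apply, id_eq, rotZ_exp189]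

/-! ## 2. Topology -/

theorem continuous_val189 : Continuous (BG189.val189 : BG189 ℝ → (ℝ × ℝ) × ℝ) := continuous_id

theorem continuous_mk189 : Continuous (BG189.mk189 : (ℝ × ℝ) × ℝ → BG189 ℝ) := continuous_id

/-- `eR189` as a homeomorphism. -/
def eRHomeo189 : BG189 ℝ × Circle ≃ₜ ℝ × ℝ × ℝ × Circle where
  toFun := eR189
  invFun p := (BG189.mk189 ((p.1, p.2.1), p.2.2.1), p.2.2.2⁻¹)
  left_inv h := by
    obtain ⟨⟨⟨a, b⟩, c⟩, z⟩ := h
    simp [eR189, BG189.val189, BG189.mk189]
  right_inv p := by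
    obtain ⟨a, b, c, z⟩ := p
    simp [eR189, BG189.val189, BG189.mk189]
  continuous_toFun := by
    have hv : Continuous (fun h : BG189 ℝ × Circle => BG189.val189 h.1) :=
      continuous_val189.comp continuous_fst
    exact ((continuous_fst.comp continuous_fst).comp hv).prodMk
      (((continuous_snd.comp continuous_fst).comp hv).prodMk
        ((continuous_snd.comp hv).prodMk continuous_snd.inv))
  continuous_invFun := by
    have h1 : Continuous (fun p : ℝ × ℝ × ℝ × Circle => ((p.1, p.2.1), p.2.2.1)) := by fun_prop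
    have h2 : Continuous (fun p : ℝ × ℝ × ℝ × Circle => p.2.2.2⁻¹) :=
      (continuous_snd.comp (continuous_snd.comp continuous_snd)).inv
    exact (continuous_mk189.comp h1).prodMk h2

theorem psiR_isOpenEmbedding189 (h : IwaHomeoRC) : Topology.IsOpenEmbedding psiR189 := by
  rw [psiR_eq189]
  exact h.1.comp eRHomeo189.isOpenEmbedding

theorem range_psiR189 (h : IwaHomeoRC) : Set.range psiR189 = posR := by
  rw [psiR_eq189, Set.range_comp]
  have : Set.range eR189 = Set.univ := eRHomeo189.surjective.range_eq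
  rw [this, Set.image_univ, h.2]

/-! ## 3. Measures -/

/-- Reassociation of a fourfold product measure. -/
theorem map_assoc4_189 {α β γ δ : Type*} [MeasurableSpace α] [MeasurableSpace β]
    [MeasurableSpace γ] [MeasurableSpace δ] (a : Measure α) (b : Measure β) (c : Measure γ)
    (d : Measure δ) [SFinite a] [SFinite b] [SFinite c] [SFinite d] :
    Measure.map (fun p : ((α × β) × γ) × δ => (p.1.1.1, p.1.1.2, p.1.2, p.2))
      (((a.prod b).prod c).prod d) = a.prod (b.prod (c.prod d)) := by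
  have e : (fun p : ((α × β) × γ) × δ => (p.1.1.1, p.1.1.2, p.1.2, p.2))
      = (MeasurableEquiv.prodAssoc : (α × β) × (γ × δ) ≃ᵐ α × (β × (γ × δ))) ∘
        (MeasurableEquiv.prodAssoc : ((α × β) × γ) × δ ≃ᵐ (α × β) × (γ × δ)) := rfl
  rw [e, ← Measure.map_map (MeasurableEquiv.measurable _) (MeasurableEquiv.measurable _),
    Measure.prodAssoc_prod, Measure.prodAssoc_prod]

theorem measurable_val189 : Measurable (BG189.val189 : BG189 ℝ → (ℝ × ℝ) × ℝ) := measurable_id

theorem map_val189 : Measure.map (BG189.val189 : BG189 ℝ → (ℝ × ℝ) × ℝ) (BG189.vol189 ℝ)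
    = (((volume : Measure ℝ).prod (volume : Measure ℝ)).prod (volume : Measure ℝ)) :=
  Measure.map_id

theorem sfinite_angM189 : SFinite angM := by
  unfold angM
  infer_instance

/-- **T6.23.11 (A1): the Iwasawa integration formula on `GL₂(ℝ)⁺`**, from unimodularity, the
Iwasawa homeomorphism and the measure of the circle. -/
theorem iwaOfRC189 : IwaOfRC := by
  intro hinv hhomeo hcirc μ hμ
  letI : MeasurableSpace (GL (Fin 2) ℝ) := borel _
  haveI : BorelSpace (GL (Fin 2) ℝ) := ⟨rfl⟩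
  letI : MeasurableSpace Circle := borel _
  haveI : BorelSpace Circle := ⟨rfl⟩
  haveI := hμ
  obtain ⟨c₄, hc₄0, hc₄t, hc₄⟩ := hcirc
  -- the Haar probability measure of the circle
  let κ : Measure Circle := Measure.haarMeasure ⊤
  have hκ1 : κ Set.univ = 1 := by
    have := Measure.haarMeasure_self (K₀ := (⊤ : TopologicalSpace.PositiveCompacts Circle))
    simpa using this
  haveI : IsProbabilityMeasure κ := ⟨hκ1⟩
  have hκinv : Measure.map Inv.inv κ = κ := by
    haveI : κ.IsInvInvariant := Measure.IsHaarMeasure.isInvInvariant_of_regular κ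
    exact Measure.map_inv_eq_self κ
  have hcirc' : Measure.map (fun θ : ℝ => Circle.exp θ) angM = c₄ • κ :=
    hc₄ κ inferInstance hκ1
  -- the Haar measure of `H`
  let η : Measure (BG189 ℝ × Circle) := (BG189.vol189 ℝ).prod κ
  haveI : η.IsHaarMeasure := Measure.prod.instIsHaarMeasure _ _
  obtain ⟨c, hc0, hct, hc⟩ := haar_restrict_range_eq_smul_map189 μ η psiR189
    (psiR_isOpenEmbedding189 hhomeo)
    (fun h₀ => ⟨iotaR189 h₀.1, (rotZ h₀.2)⁻¹, psiR_mul189 h₀, (hinv μ hμ).1 _⟩)
  rw [range_psiR189 hhomeo] at hc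
  -- the two image measures
  have hjR : Measurable jR := hhomeo.1.continuous.measurable
  have heR : Measurable eR189 := eRHomeo189.continuous.measurable
  have hexp : Measurable (fun θ : ℝ => Circle.exp θ) := Circle.exp.continuous.measurable
  have h1 : Measure.map eR189 η
      = (volume : Measure ℝ).prod ((volume : Measure ℝ).prod ((volume : Measure ℝ).prod κ)) := by
    have hcomp : eR189 = (fun p : ((ℝ × ℝ) × ℝ) × Circle => (p.1.1.1, p.1.1.2, p.1.2, p.2)) ∘
        (Prod.map BG189.val189 Inv.inv) := rfl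
    have hm1 : Measurable (fun p : ((ℝ × ℝ) × ℝ) × Circle => (p.1.1.1, p.1.1.2, p.1.2, p.2)) := by
      fun_prop
    have hm2 : Measurable (Prod.map (BG189.val189 : BG189 ℝ → (ℝ × ℝ) × ℝ)
        (Inv.inv : Circle → Circle)) := measurable_val189.prodMap measurable_inv
    rw [hcomp, ← Measure.map_map hm1 hm2,
      ← Measure.map_prod_map _ _ measurable_val189 measurable_inv, map_val189, hκinv,
      map_assoc4_189]
  have h2 : Measure.map (Prod.map id (Prod.map id (Prod.map id (fun θ : ℝ => Circle.exp θ))))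
      iwaMR
      = c₄ • (volume : Measure ℝ).prod ((volume : Measure ℝ).prod
          ((volume : Measure ℝ).prod κ)) := by
    haveI : SFinite angM := sfinite_angM189
    unfold iwaMR
    rw [← Measure.map_prod_map _ _ measurable_id
        (measurable_id.prodMap (measurable_id.prodMap hexp)),
      ← Measure.map_prod_map _ _ measurable_id (measurable_id.prodMap hexp),
      ← Measure.map_prod_map _ _ measurable_id hexp, Measure.map_id, hcirc',
      Measure.prod_smul_right, Measure.prod_smul_right, Measure.prod_smul_right]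
  have h3 : Measure.map psiR189 η = Measure.map jR
      ((volume : Measure ℝ).prod ((volume : Measure ℝ).prod ((volume : Measure ℝ).prod κ))) := by
    rw [psiR_eq189, ← Measure.map_map hjR heR, h1]
  have h4 : Measure.map iwaR iwaMR = c₄ • Measure.map jR
      ((volume : Measure ℝ).prod ((volume : Measure ℝ).prod ((volume : Measure ℝ).prod κ))) := by
    rw [iwaR_eq189, ← Measure.map_map hjR
      (measurable_id.prodMap (measurable_id.prodMap (measurable_id.prodMap hexp))), h2,
      Measure.map_smul]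
  refine ⟨c / c₄, ENNReal.div_ne_zero.mpr ⟨hc0, hc₄t⟩, ENNReal.div_ne_top hct hc₄0, ?_⟩
  rw [hc, h3, h4, smul_smul, ENNReal.div_mul_cancel hc₄0 hc₄t]

end Fermat.Agent.LT.T6.H189

end

end
-- ===== PACK-END LT/T6/H189/IwaR.lean

-- ===== PACK-BEGIN LT/T7/H159/SplitIntL.lean
section



/-!
# Row LT, tower T7, asset for the field `matched` (helper159), OFF-MAIN

**THE SPLIT PLACE, INTEGRAL FORM, GENERAL `l`** (the general form of `T6.SplitInt2C`,
`T6.SplitInt3C`; any measurable group with a left invariant measure, NO hypothesis on the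
functions: every step is ONE change of variables).

`Φ 0, Φ 1, …` functions on `H`, `δ 0, δ 1, …` elements of `H`.

* left nested: `convL159 μ Φ n = (⋯(Φ 0 * Φ 1) * ⋯) * Φ n` (`T6.convInt`),
  `iterL159 μ Φ δ 0 a b = Φ 0 (a⁻¹ δ_0 b)`,
  `iterL159 μ Φ δ (n+1) a b = ∫ iterL159 μ Φ δ n a x · Φ (n+1) (x⁻¹ δ_{n+1} b) dμ(x)`;
  `iterL_eq159 : iterL159 μ Φ δ n a b = convL159 μ Φ n (a⁻¹ (δ_0 ⋯ δ_n) b)`;
* right nested: `convR159 μ Φ n j = Φ j * (Φ (j+1) * ⋯ * Φ (j+n))`,
  `iterR159 μ Φ δ 0 j a b = Φ j (a⁻¹ δ_j b)`,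
  `iterR159 μ Φ δ (n+1) j a b = ∫ Φ j (a⁻¹ δ_j x) · iterR159 μ Φ δ n (j+1) x b dμ(x)`;
  `iterR_eq159 : iterR159 μ Φ δ n j a b = convR159 μ Φ n j (a⁻¹ (δ_j ⋯ δ_{j+n}) b)`
  (`n = 1`: `T6.SplitInt2C`, `n = 2`: `T6.SplitInt3C`, with `a = b = x₀`).

With `a = b = x₀` the left side is the inner integral of the twisted orbital integral of the
pure tensor `Φ 0 ⊗ ⋯ ⊗ Φ n` on `H^{n+1}` (cyclic shift) at `(δ_0, …, δ_n)`, the right side the
integrand of the orbital integral of the convolution at the norm `δ_0 ⋯ δ_n`.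
-/

set_option autoImplicit false

open MeasureTheory

noncomputable section

namespace Fermat.Agent.LT.T7.H159

open Fermat.Agent.LT.T6

variable {H : Type} [Group H] [MeasurableSpace H] [MeasurableMul H]

/-- The product `δ_j δ_{j+1} ⋯ δ_{j+n-1}`. -/
def prodFrom159 (δ : ℕ → H) : ℕ → ℕ → H
  | 0, _ => 1
  | (n + 1), j => δ j * prodFrom159 δ n (j + 1)

omit [MeasurableSpace H] [MeasurableMul H] in
theorem prodFrom_succ_right159 (δ : ℕ → H) (n j : ℕ) :
    prodFrom159 δ (n + 1) j = prodFrom159 δ n j * δ (j + n) := by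
  induction n generalizing j with
  | zero => simp [prodFrom159]
  | succ n ih =>
    have h1 : prodFrom159 δ (n + 1 + 1) j = δ j * prodFrom159 δ (n + 1) (j + 1) := rfl
    have h2 : prodFrom159 δ (n + 1) j = δ j * prodFrom159 δ n (j + 1) := rfl
    rw [h1, ih (j + 1), h2, mul_assoc]
    congr 2
    ring_nf

/-- Left nested convolution `(⋯(Φ 0 * Φ 1) * ⋯) * Φ n`. -/
def convL159 (μ : Measure H) (Φ : ℕ → H → ℂ) : ℕ → H → ℂ
  | 0 => Φ 0
  | (n + 1) => convInt μ (convL159 μ Φ n) (Φ (n + 1))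

/-- The iterated integral, left nested. -/
def iterL159 (μ : Measure H) (Φ : ℕ → H → ℂ) (δ : ℕ → H) : ℕ → H → H → ℂ
  | 0 => fun a b => Φ 0 (a⁻¹ * δ 0 * b)
  | (n + 1) => fun a b => ∫ x, iterL159 μ Φ δ n a x * Φ (n + 1) (x⁻¹ * δ (n + 1) * b) ∂μ

/-- **The split place, general `l`, left nested.** -/
theorem iterL_eq159 (μ : Measure H) [μ.IsMulLeftInvariant] (Φ : ℕ → H → ℂ) (δ : ℕ → H) (n : ℕ)
    (a b : H) :
    iterL159 μ Φ δ n a b = convL159 μ Φ n (a⁻¹ * prodFrom159 δ (n + 1) 0 * b) := by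
  induction n generalizing a b with
  | zero => simp [iterL159, convL159, prodFrom159]
  | succ n ih =>
    show ∫ x, iterL159 μ Φ δ n a x * Φ (n + 1) (x⁻¹ * δ (n + 1) * b) ∂μ
      = convInt μ (convL159 μ Φ n) (Φ (n + 1)) (a⁻¹ * prodFrom159 δ (n + 1 + 1) 0 * b)
    simp only [ih]
    unfold convInt
    have hP : prodFrom159 δ (n + 1 + 1) 0 = prodFrom159 δ (n + 1) 0 * δ (n + 1) := by
      rw [prodFrom_succ_right159]
      simp
    set p := prodFrom159 δ (n + 1) 0 with hp
    -- change of variables `x = p⁻¹ a h`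
    have h := integral_mul_left_eq_self (μ := μ)
      (fun x => convL159 μ Φ n (a⁻¹ * p * x) * Φ (n + 1) (x⁻¹ * δ (n + 1) * b)) (p⁻¹ * a)
    rw [← h]
    refine integral_congr_ae (ae_of_all _ fun h' => ?_)
    show convL159 μ Φ n (a⁻¹ * p * (p⁻¹ * a * h'))
        * Φ (n + 1) ((p⁻¹ * a * h')⁻¹ * δ (n + 1) * b)
      = convL159 μ Φ n h' * Φ (n + 1) (h'⁻¹ * (a⁻¹ * prodFrom159 δ (n + 1 + 1) 0 * b))
    rw [hP]
    congr 2 <;> group

/-- Right nested convolution `Φ j * (Φ (j+1) * ⋯ * Φ (j+n))`. -/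
def convR159 (μ : Measure H) (Φ : ℕ → H → ℂ) : ℕ → ℕ → H → ℂ
  | 0, j => Φ j
  | (n + 1), j => convInt μ (Φ j) (convR159 μ Φ n (j + 1))

/-- The iterated integral, right nested. -/
def iterR159 (μ : Measure H) (Φ : ℕ → H → ℂ) (δ : ℕ → H) : ℕ → ℕ → H → H → ℂ
  | 0, j => fun a b => Φ j (a⁻¹ * δ j * b)
  | (n + 1), j => fun a b => ∫ x, Φ j (a⁻¹ * δ j * x) * iterR159 μ Φ δ n (j + 1) x b ∂μ

/-- **The split place, general `l`, right nested.** -/
theorem iterR_eq159 (μ : Measure H) [μ.IsMulLeftInvariant] (Φ : ℕ → H → ℂ) (δ : ℕ → H) (n j : ℕ)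
    (a b : H) :
    iterR159 μ Φ δ n j a b = convR159 μ Φ n j (a⁻¹ * prodFrom159 δ (n + 1) j * b) := by
  induction n generalizing j a b with
  | zero => simp [iterR159, convR159, prodFrom159]
  | succ n ih =>
    show ∫ x, Φ j (a⁻¹ * δ j * x) * iterR159 μ Φ δ n (j + 1) x b ∂μ
      = convInt μ (Φ j) (convR159 μ Φ n (j + 1)) (a⁻¹ * prodFrom159 δ (n + 1 + 1) j * b)
    simp only [ih]
    unfold convInt
    have hP : prodFrom159 δ (n + 1 + 1) j = δ j * prodFrom159 δ (n + 1) (j + 1) := rfl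
    set p := prodFrom159 δ (n + 1) (j + 1) with hp
    have h := integral_mul_left_eq_self (μ := μ)
      (fun x => Φ j (a⁻¹ * δ j * x) * convR159 μ Φ n (j + 1) (x⁻¹ * p * b)) ((δ j)⁻¹ * a)
    rw [← h]
    refine integral_congr_ae (ae_of_all _ fun h' => ?_)
    show Φ j (a⁻¹ * δ j * ((δ j)⁻¹ * a * h'))
        * convR159 μ Φ n (j + 1) (((δ j)⁻¹ * a * h')⁻¹ * p * b)
      = Φ j h' * convR159 μ Φ n (j + 1) (h'⁻¹ * (a⁻¹ * prodFrom159 δ (n + 1 + 1) j * b))
    rw [hP]
    congr 2 <;> group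

/-- `T6.SplitInt2C` is the case `n = 1` of `iterR_eq159` (check of the shape). -/
theorem splitInt2_of159 (μ : Measure H) [μ.IsMulLeftInvariant] (φ₀ φ₁ : H → ℂ)
    (δ₀ δ₁ x₀ : H) :
    ∫ x₁, φ₀ (x₀⁻¹ * δ₀ * x₁) * φ₁ (x₁⁻¹ * δ₁ * x₀) ∂μ
      = convInt μ φ₀ φ₁ (x₀⁻¹ * (δ₀ * δ₁) * x₀) := by
  have h := iterR_eq159 μ (fun n => if n = 0 then φ₀ else φ₁) (fun n => if n = 0 then δ₀ else δ₁)
    1 0 x₀ x₀
  simpa [iterR159, convR159, prodFrom159] using h

end Fermat.Agent.LT.T7.H159

end

end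
-- ===== PACK-END LT/T7/H159/SplitIntL.lean

-- ===== PACK-BEGIN LT/T6/H116/InstSplit.lean
section


/-!
# Row LT, tower T6, sub-leaf T6.03 (`InstSplitC`) -- helper116, OFF-MAIN

`InstSplitC`: at a place `w` of `K'` over `v` with the same residue field (`absNorm w = absNorm v`)
and ramification index one (some element of `v` is not in `w ^ 2`), the completions `K_v` and
`K'_w` are isomorphic, compatibly with `K → K'` and with the valuations.

Proof.
1. `e = 1` gives `w (x) = v (x)` for `x ∈ K` (`valuation_liesOver`).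
2. `f = 1`: `𝓞 K / v → 𝓞 K' / w` is injective between finite sets of the same cardinality, hence
   bijective; with a common uniformiser this gives, by successive approximation, that `K` is
   `w`-adically dense in `K'`.
3. Two complete separated valued fields containing `K` densely with the same induced valuation
   are isomorphic (extension by uniform continuity in both directions).
-/

set_option autoImplicit false
set_option linter.unusedSectionVars false

open IsDedekindDomain NumberField WithZero Filter Uniformity Topology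

namespace Fermat.Agent.LT.T6.H116

/-! ### Abstract part -/

section Abstract

/-- The uniformity of a valued field with surjective `ℤᵐ⁰`-valued valuation, in terms of `ℤᵐ⁰`. -/
theorem unif_basis_h116 (A : Type) [Field A] [Valued A ℤᵐ⁰]
    (hs : Function.Surjective (Valued.v : A → ℤᵐ⁰)) :
    (𝓤 A).HasBasis (fun γ : ℤᵐ⁰ => γ ≠ 0)
      (fun γ => {p : A × A | Valued.v (p.2 - p.1) < γ}) := by
  refine (Valued.hasBasis_uniformity A ℤᵐ⁰).to_hasBasis ?_ ?_
  · intro γ' _
    refine ⟨MonoidWithZeroHom.ValueGroup₀.embedding γ'.1, ?_, ?_⟩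
    · simp
    · intro p hp
      exact (Valuation.restrict_lt_iff_lt_embedding _).2 hp
  · intro γ hγ
    obtain ⟨y, hy⟩ := hs γ
    have hy0 : (Valued.v : Valuation A ℤᵐ⁰).restrict y ≠ 0 := by
      have hyne : y ≠ 0 := by
        rintro rfl
        rw [map_zero] at hy
        exact hγ hy.symm
      simpa using hyne
    refine ⟨Units.mk0 _ hy0, trivial, ?_⟩
    intro p hp
    have hp' : (Valued.v : Valuation A ℤᵐ⁰).restrict (p.2 - p.1)
        < (Valued.v : Valuation A ℤᵐ⁰).restrict y := hp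
    rw [Valuation.restrict_lt_iff] at hp'
    rw [hy] at hp'
    exact hp'

/-- Two complete valued fields in which a common field is densely embedded, with the same
induced valuation, are isomorphic (compatibly with the embeddings and the valuations). -/
theorem completion_equiv_h116 {K A B : Type} [Field K] [Field A] [Field B]
    [Valued A ℤᵐ⁰] [Valued B ℤᵐ⁰] [CompleteSpace A] [CompleteSpace B]
    [T2Space A] [T2Space B]
    (hsA : Function.Surjective (Valued.v : A → ℤᵐ⁰))
    (hsB : Function.Surjective (Valued.v : B → ℤᵐ⁰))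
    (a : K →+* A) (b : K →+* B) (ha : DenseRange a) (hb : DenseRange b)
    (hab : ∀ x : K, Valued.v (b x) = Valued.v (a x)) :
    ∃ i : A ≃+* B, (∀ x : K, i (a x) = b x) ∧ ∀ y : A, Valued.v (i y) = Valued.v y := by
  -- the two induced uniformities on `K` agree
  have hU : comap (Prod.map a a) (𝓤 A) = comap (Prod.map b b) (𝓤 B) := by
    refine ((unif_basis_h116 A hsA).comap _).eq_of_same_basis ?_
    have := (unif_basis_h116 B hsB).comap (Prod.map b b)
    convert this using 2
    ext p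
    simp only [Set.mem_preimage, Set.mem_ofPred_eq, Prod.map_snd, Prod.map_fst, ← map_sub, hab]
  let uK : UniformSpace K := UniformSpace.comap a inferInstance
  have uia : IsUniformInducing a := ⟨rfl⟩
  have uib : IsUniformInducing b := ⟨hU.symm⟩
  let i : A →+* B := IsDenseInducing.extendRingHom uia ha uib.uniformContinuous
  let j : B →+* A := IsDenseInducing.extendRingHom uib hb uia.uniformContinuous
  have hi : ∀ x : K, i (a x) = b x := fun x =>
    IsDenseInducing.extend_eq (uia.isDenseInducing ha) uib.uniformContinuous.continuous x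
  have hj : ∀ x : K, j (b x) = a x := fun x =>
    IsDenseInducing.extend_eq (uib.isDenseInducing hb) uia.uniformContinuous.continuous x
  have ci : Continuous i :=
    (uniformContinuous_uniformly_extend uia ha uib.uniformContinuous).continuous
  have cj : Continuous j :=
    (uniformContinuous_uniformly_extend uib hb uia.uniformContinuous).continuous
  have hji : ∀ y : A, j (i y) = y := by
    intro y
    refine DenseRange.induction_on ha y ?_ ?_
    · exact isClosed_eq (cj.comp ci) continuous_id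
    · intro x
      rw [hi, hj]
  have hij : ∀ y : B, i (j y) = y := by
    intro y
    refine DenseRange.induction_on hb y ?_ ?_
    · exact isClosed_eq (ci.comp cj) continuous_id
    · intro x
      rw [hj, hi]
  refine ⟨RingEquiv.ofRingHom i j (RingHom.ext hij) (RingHom.ext hji), hi, ?_⟩
  intro y
  change Valued.v (i y) = Valued.v y
  rcases eq_or_ne y 0 with rfl | hy
  · simp
  have hiy : i y ≠ 0 := by
    intro h
    exact hy ((map_eq_zero i).1 h)
  have h1 : {z : A | Valued.v z = Valued.v y} ∈ 𝓝 y :=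
    Valued.locally_const ((Valuation.ne_zero_iff _).2 hy)
  have h2 : {z : B | Valued.v z = Valued.v (i y)} ∈ 𝓝 (i y) :=
    Valued.locally_const ((Valuation.ne_zero_iff _).2 hiy)
  have h3 : i ⁻¹' {z : B | Valued.v z = Valued.v (i y)} ∈ 𝓝 y := ci.continuousAt h2
  obtain ⟨x, hz1, hz3⟩ := ha.mem_nhds (inter_mem h1 h3)
  have hz1' : Valued.v (a x) = Valued.v y := hz1
  have hz3' : Valued.v (i (a x)) = Valued.v (i y) := hz3
  rw [← hz3', ← hz1', hi, hab]

variable {K K' : Type} [Field K] [Field K'] [Algebra K K']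

/-- Successive approximation of integers: if residues and a uniformiser come from `K`, every
`W`-integer of `K'` is congruent to an element of `K` modulo any power of the uniformiser. -/
theorem approx_int_h116 (W : Valuation K' ℤᵐ⁰) (p : K)
    (hp : W (algebraMap K K' p) = exp (-1 : ℤ))
    (hres : ∀ z : K', W z ≤ 1 → ∃ a : K, W (z - algebraMap K K' a) < 1) (n : ℕ) :
    ∀ z : K', W z ≤ 1 → ∃ x : K, W (z - algebraMap K K' x) ≤ exp (-(n : ℤ)) := by
  induction n with
  | zero =>
    intro z hz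
    exact ⟨0, by simpa using hz⟩
  | succ n ih =>
    intro z hz
    obtain ⟨a, ha⟩ := hres z hz
    have hp0 : algebraMap K K' p ≠ 0 := by
      intro h
      rw [h, map_zero] at hp
      exact exp_ne_zero hp.symm
    have ha' : W (z - algebraMap K K' a) ≤ exp (-1 : ℤ) := by
      have := (lt_mul_exp_iff_le (x := W (z - algebraMap K K' a)) (y := exp (-1 : ℤ))
        exp_ne_zero).1 (by rw [← exp_add]; simpa using ha)
      exact this
    have ht : W ((z - algebraMap K K' a) / algebraMap K K' p) ≤ 1 := by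
      rw [map_div₀, hp]
      exact div_le_one_of_le₀ ha' zero_le
    obtain ⟨x', hx'⟩ := ih _ ht
    refine ⟨a + p * x', ?_⟩
    have e : z - algebraMap K K' (a + p * x')
        = algebraMap K K' p
          * ((z - algebraMap K K' a) / algebraMap K K' p - algebraMap K K' x') := by
      rw [map_add, map_mul]
      field_simp
      ring
    rw [e, map_mul, hp]
    calc exp (-1 : ℤ) * W ((z - algebraMap K K' a) / algebraMap K K' p - algebraMap K K' x')
        ≤ exp (-1 : ℤ) * exp (-(n : ℤ)) := by gcongr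
      _ = exp (-((n + 1 : ℕ) : ℤ)) := by
        rw [← exp_add]
        congr 1
        push_cast
        ring

/-- `K` is `W`-adically dense in `K'`. -/
theorem approx_h116 (W : Valuation K' ℤᵐ⁰) (p : K)
    (hp : W (algebraMap K K' p) = exp (-1 : ℤ))
    (hres : ∀ z : K', W z ≤ 1 → ∃ a : K, W (z - algebraMap K K' a) < 1) (y : K') (γ : ℤᵐ⁰)
    (hγ : γ ≠ 0) :
    ∃ x : K, W (y - algebraMap K K' x) < γ := by
  obtain ⟨n, hn⟩ := exists_exp_neg_natCast_lt hγ
  have hp0 : algebraMap K K' p ≠ 0 := by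
    intro h
    rw [h, map_zero] at hp
    exact exp_ne_zero hp.symm
  -- scale `y` into the integers
  obtain ⟨m, hm⟩ : ∃ m : ℕ, W (y * algebraMap K K' p ^ m) ≤ 1 := by
    rcases eq_or_ne y 0 with rfl | hy
    · exact ⟨0, by simp⟩
    · have hy0 : W y ≠ 0 := (Valuation.ne_zero_iff W).2 hy
      obtain ⟨k, hk⟩ : ∃ k : ℤ, W y = exp k := ⟨log (W y), (exp_log hy0).symm⟩
      refine ⟨k.toNat, ?_⟩
      rw [map_mul, map_pow, hp, hk, ← exp_nsmul, ← exp_add, ← exp_zero, exp_le_exp]
      have := Int.self_le_toNat k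
      simp only [nsmul_eq_mul]
      linarith
  obtain ⟨x, hx⟩ := approx_int_h116 W p hp hres (n + m) _ hm
  refine ⟨x / p ^ m, lt_of_le_of_lt ?_ hn⟩
  have e : y - algebraMap K K' (x / p ^ m)
      = (y * algebraMap K K' p ^ m - algebraMap K K' x) / algebraMap K K' p ^ m := by
    rw [map_div₀, map_pow]
    field_simp
  rw [e, map_div₀, map_pow, hp]
  rw [div_le_iff₀ (pow_pos exp_pos m)]
  calc W (y * algebraMap K K' p ^ m - algebraMap K K' x) ≤ exp (-((n + m : ℕ) : ℤ)) := hx
    _ = exp (-(n : ℤ)) * exp (-1 : ℤ) ^ m := by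
      rw [← exp_nsmul, ← exp_add]
      congr 1
      push_cast
      simp only [nsmul_eq_mul]
      ring

end Abstract

/-! ### Number fields -/

section NumberFields

variable {K K' : Type} [Field K] [NumberField K] [Field K'] [NumberField K'] [Algebra K K']
    (v : HeightOneSpectrum (𝓞 K)) (w : HeightOneSpectrum (𝓞 K'))

/-- `w` lies over `v`. -/
theorem liesOver_h116
    (hvw : ∀ x : 𝓞 K, x ∈ v.asIdeal ↔ algebraMap (𝓞 K) (𝓞 K') x ∈ w.asIdeal) :
    w.asIdeal.LiesOver v.asIdeal := by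
  constructor
  ext x
  rw [Ideal.under, Ideal.mem_comap]
  exact hvw x

/-- Ramification index one. -/
theorem ramIdx_eq_one_h116
    (hvw : ∀ x : 𝓞 K, x ∈ v.asIdeal ↔ algebraMap (𝓞 K) (𝓞 K') x ∈ w.asIdeal)
    (hπ : ∃ x : 𝓞 K, x ∈ v.asIdeal ∧ algebraMap (𝓞 K) (𝓞 K') x ∉ w.asIdeal ^ 2) :
    v.asIdeal.ramificationIdx' w.asIdeal = 1 := by
  by_contra hne
  have hle : Ideal.map (algebraMap (𝓞 K) (𝓞 K')) v.asIdeal ≤ w.asIdeal := by
    rw [Ideal.map_le_iff_le_comap]
    intro x hx
    exact (hvw x).1 hx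
  have h2 := (Ideal.ramificationIdx'_ne_one_iff hle).1 hne
  obtain ⟨x, hx, hx2⟩ := hπ
  exact hx2 (h2 (Ideal.mem_map_of_mem _ hx))

/-- The valuations agree on `K`. -/
theorem val_eq_h116
    (hvw : ∀ x : 𝓞 K, x ∈ v.asIdeal ↔ algebraMap (𝓞 K) (𝓞 K') x ∈ w.asIdeal)
    (hπ : ∃ x : 𝓞 K, x ∈ v.asIdeal ∧ algebraMap (𝓞 K) (𝓞 K') x ∉ w.asIdeal ^ 2) (x : K) :
    w.valuation K' (algebraMap K K' x) = v.valuation K x := by
  have := liesOver_h116 v w hvw
  have h := HeightOneSpectrum.valuation_liesOver (K := K) K' v w x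
  rw [ramIdx_eq_one_h116 v w hvw hπ, pow_one] at h
  exact h.symm

/-- Residue fields agree: every integer of `K'` is congruent mod `w` to an integer of `K`. -/
theorem res_surj_h116
    (hvw : ∀ x : 𝓞 K, x ∈ v.asIdeal ↔ algebraMap (𝓞 K) (𝓞 K') x ∈ w.asIdeal)
    (hN : Ideal.absNorm w.asIdeal = Ideal.absNorm v.asIdeal) (b : 𝓞 K') :
    ∃ a : 𝓞 K, algebraMap (𝓞 K) (𝓞 K') a - b ∈ w.asIdeal := by
  have hle : v.asIdeal ≤ Ideal.comap (algebraMap (𝓞 K) (𝓞 K')) w.asIdeal := fun x hx =>
    (hvw x).1 hx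
  have hinj : Function.Injective (Ideal.quotientMap w.asIdeal (algebraMap (𝓞 K) (𝓞 K')) hle) :=
    Ideal.quotientMap_injective' (fun x hx => (hvw x).2 hx)
  have : Finite (𝓞 K' ⧸ w.asIdeal) := w.asIdeal.finiteQuotientOfFreeOfNeBot w.ne_bot
  have hcard : Nat.card (𝓞 K' ⧸ w.asIdeal) ≤ Nat.card (𝓞 K ⧸ v.asIdeal) := by
    rw [← Submodule.cardQuot_apply, ← Submodule.cardQuot_apply, ← Ideal.absNorm_apply,
      ← Ideal.absNorm_apply, hN]
  obtain ⟨a', ha'⟩ := (hinj.bijective_of_nat_card_le hcard).2 (Ideal.Quotient.mk w.asIdeal b)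
  obtain ⟨a, rfl⟩ := Ideal.Quotient.mk_surjective a'
  refine ⟨a, ?_⟩
  rw [Ideal.quotientMap_mk] at ha'
  exact Ideal.Quotient.eq.1 ha'

/-- Residue approximation in the field. -/
theorem res_approx_h116
    (hvw : ∀ x : 𝓞 K, x ∈ v.asIdeal ↔ algebraMap (𝓞 K) (𝓞 K') x ∈ w.asIdeal)
    (hN : Ideal.absNorm w.asIdeal = Ideal.absNorm v.asIdeal) (z : K')
    (hz : w.valuation K' z ≤ 1) :
    ∃ a : K, w.valuation K' (z - algebraMap K K' a) < 1 := by
  obtain ⟨b, hb⟩ := HeightOneSpectrum.exists_valuation_sub_lt_of_integer w hz 1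
  obtain ⟨a, ha⟩ := res_surj_h116 v w hvw hN b
  refine ⟨algebraMap (𝓞 K) K a, ?_⟩
  have h1 : w.valuation K' (algebraMap (𝓞 K') K' (algebraMap (𝓞 K) (𝓞 K') a - b)) < 1 :=
    (HeightOneSpectrum.valuation_lt_one_iff_mem w _).2 ha
  have e : z - algebraMap K K' (algebraMap (𝓞 K) K a)
      = -((algebraMap (𝓞 K') K' b - z)
          + algebraMap (𝓞 K') K' (algebraMap (𝓞 K) (𝓞 K') a - b)) := by
    rw [map_sub, ← IsScalarTower.algebraMap_apply (𝓞 K) K K',
      ← IsScalarTower.algebraMap_apply (𝓞 K) (𝓞 K') K']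
    ring
  rw [e, Valuation.map_neg]
  exact lt_of_le_of_lt (Valuation.map_add _ _ _) (max_lt (by simpa using hb) h1)

/-- A common uniformiser. -/
theorem unif_h116
    (hvw : ∀ x : 𝓞 K, x ∈ v.asIdeal ↔ algebraMap (𝓞 K) (𝓞 K') x ∈ w.asIdeal)
    (hπ : ∃ x : 𝓞 K, x ∈ v.asIdeal ∧ algebraMap (𝓞 K) (𝓞 K') x ∉ w.asIdeal ^ 2) :
    ∃ p : K, w.valuation K' (algebraMap K K' p) = exp (-1 : ℤ) := by
  obtain ⟨x, hx, hx2⟩ := hπ
  refine ⟨algebraMap (𝓞 K) K x, ?_⟩
  rw [← IsScalarTower.algebraMap_apply (𝓞 K) K K',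
    IsScalarTower.algebraMap_apply (𝓞 K) (𝓞 K') K', HeightOneSpectrum.valuation_of_algebraMap]
  have h1 : w.intValuation (algebraMap (𝓞 K) (𝓞 K') x) ≤ exp (-((1 : ℕ) : ℤ)) := by
    rw [HeightOneSpectrum.intValuation_le_pow_iff_mem, pow_one]
    exact (hvw x).1 hx
  have h2 : ¬ w.intValuation (algebraMap (𝓞 K) (𝓞 K') x) ≤ exp (-((2 : ℕ) : ℤ)) := by
    rw [HeightOneSpectrum.intValuation_le_pow_iff_mem]
    exact hx2
  have h0 : w.intValuation (algebraMap (𝓞 K) (𝓞 K') x) ≠ 0 := by
    intro h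
    rw [h] at h2
    exact h2 zero_le
  rw [← exp_log h0] at h1 h2 ⊢
  rw [exp_le_exp] at h1 h2
  congr 1
  push_cast at h1 h2
  omega

/-- The valuation of the completion on the image of `K`. -/
theorem valued_algebraMap_h116 (k : K) :
    Valued.v (algebraMap K (v.adicCompletion K) k) = v.valuation K k :=
  HeightOneSpectrum.valuedAdicCompletion_eq_valuation' v k

/-- Density of `K` in `K'_w`. -/
theorem dense_h116
    (happ : ∀ (y : K') (γ : ℤᵐ⁰), γ ≠ 0 → ∃ x : K, w.valuation K' (y - algebraMap K K' x) < γ) :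
    DenseRange ((algebraMap K' (w.adicCompletion K')).comp (algebraMap K K')) := by
  intro y'
  rw [mem_closure_iff_nhds]
  intro t ht
  obtain ⟨γ, hγ, hsub⟩ := (nhds_basis_uniformity'
    (unif_basis_h116 (w.adicCompletion K')
      (HeightOneSpectrum.valuedAdicCompletion_surjective K' w))).mem_iff.1 ht
  have hball : UniformSpace.ball y' {p : w.adicCompletion K' × w.adicCompletion K' |
      Valued.v (p.2 - p.1) < γ} ∈ 𝓝 y' :=
    (nhds_basis_uniformity'
    (unif_basis_h116 (w.adicCompletion K')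
      (HeightOneSpectrum.valuedAdicCompletion_surjective K' w))).mem_of_mem hγ
  obtain ⟨y, hy⟩ := (HeightOneSpectrum.denseRange_algebraMap (K := K') w).mem_nhds hball
  have hy' : Valued.v (algebraMap K' (w.adicCompletion K') y - y') < γ := hy
  obtain ⟨x, hx⟩ := happ y γ hγ
  refine ⟨algebraMap K' (w.adicCompletion K') (algebraMap K K' x), hsub ?_, x, rfl⟩
  change Valued.v (algebraMap K' (w.adicCompletion K') (algebraMap K K' x) - y') < γ
  have e : algebraMap K' (w.adicCompletion K') (algebraMap K K' x) - y'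
      = -(algebraMap K' (w.adicCompletion K') (y - algebraMap K K' x))
        + (algebraMap K' (w.adicCompletion K') y - y') := by
    rw [map_sub]
    ring
  rw [e]
  refine lt_of_le_of_lt (Valuation.map_add _ _ _) (max_lt ?_ hy')
  rw [Valuation.map_neg, valued_algebraMap_h116]
  exact hx

end NumberFields

/-- **T6.03 = T6.01c** (`InstSplitC`): completions at a place of residue degree and ramification
index one are isomorphic. -/
theorem instSplitC_h116 : Fermat.Agent.LT.T6.InstSplitC := by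
  intro K K' _ _ _ _ _ v w hvw hN hπ
  obtain ⟨p, hp⟩ := unif_h116 v w hvw hπ
  have happ : ∀ (y : K') (γ : ℤᵐ⁰), γ ≠ 0 →
      ∃ x : K, w.valuation K' (y - algebraMap K K' x) < γ :=
    approx_h116 (w.valuation K') p hp (res_approx_h116 v w hvw hN)
  obtain ⟨i, hi, hiv⟩ := completion_equiv_h116
    (HeightOneSpectrum.valuedAdicCompletion_surjective K v)
    (HeightOneSpectrum.valuedAdicCompletion_surjective K' w)
    (algebraMap K (v.adicCompletion K))
    ((algebraMap K' (w.adicCompletion K')).comp (algebraMap K K'))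
    (HeightOneSpectrum.denseRange_algebraMap (K := K) v)
    (dense_h116 w happ)
    (fun x => by
      rw [RingHom.comp_apply, valued_algebraMap_h116, valued_algebraMap_h116,
        val_eq_h116 v w hvw hπ])
  exact ⟨i, hi, hiv⟩

end Fermat.Agent.LT.T6.H116

end
-- ===== PACK-END LT/T6/H116/InstSplit.lean

-- ===== PACK-BEGIN LT/T6/H267/InstExt.lean
section


/-!
# Row LT, tower T6, sub-leaf T6.02 `InstExtC` (helper267), OFF-MAIN

`K'/K` cyclic of prime degree `l` with generator `s`, `w` the only place of `K'` over the place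
`v` of `K`: the inclusion `K → K'` and `s` extend to the completions `K_v → K'_w`, `K'_w ≃ K'_w`
and give a cyclic extension of local fields in the sense of `T6.IsLocalExt`, with
`e` = the ramification index, and `N w = N v ^ (l / e)`.

Proof.
* `locIncl` : `K_v →+* K'_w` is the completion of `K → K'` (uniformly continuous by Mathlib's
  `uniformContinuous_algebraMap_liesOver`); `|i x|_w = |x|_v ^ e` on `K` (Mathlib's
  `valuation_liesOver`), hence on `K_v` (the valuation is locally constant off `0`).  So `i` is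
  uniform inducing and its range is complete, hence closed.
* `s` fixes `w` (the only place over `v`), hence preserves the `w`-adic valuation, hence is
  uniformly continuous; `locAut` is its completion.
* fixed field: `T = ∑_{j<l} sw^j` is continuous and maps the dense subfield `K'` into `i(K)`
  (Galois theory of `K'/K`), hence `K'_w` into the closed set `i(K_v)`; a fixed point `y` is
  `T y / l`.
* `N w = N v ^ f` and `e f = l` because `w` is the only prime over `v`.
-/

set_option autoImplicit false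
set_option linter.deprecated false
set_option linter.unusedSectionVars false

open IsDedekindDomain NumberField

namespace Fermat.Agent.LT.T6.H267

/-! ## 1. Galois theory of a cyclic extension -/

section Galois

variable {K K' : Type} [Field K] [Field K'] [Algebra K K'] [FiniteDimensional K K']
  [IsGalois K K'] (s : K' ≃ₐ[K] K')

theorem orderOf_gen (hgen : ∀ t : K' ≃ₐ[K] K', t ∈ Subgroup.zpowers s) :
    orderOf s = Module.finrank K K' := by
  rw [orderOf_eq_card_of_forall_mem_zpowers hgen, IsGalois.card_aut_eq_finrank]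

theorem gen_pow_finrank (hgen : ∀ t : K' ≃ₐ[K] K', t ∈ Subgroup.zpowers s) :
    s ^ Module.finrank K K' = 1 := by
  rw [← orderOf_gen s hgen]
  exact pow_orderOf_eq_one s

theorem exists_pow_apply_ne (hgen : ∀ t : K' ≃ₐ[K] K', t ∈ Subgroup.zpowers s)
    (m : ℕ) (hm : 0 < m) (hml : m < Module.finrank K K') : ∃ y : K', (s ^ m) y ≠ y := by
  have h : s ^ m ≠ 1 := pow_ne_one_of_lt_orderOf hm.ne' (by rwa [orderOf_gen s hgen])
  by_contra hcon
  exact h (AlgEquiv.ext fun y => by
    rw [AlgEquiv.one_apply]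
    by_contra hy
    exact hcon ⟨y, hy⟩)

theorem mem_range_of_fixed (hgen : ∀ t : K' ≃ₐ[K] K', t ∈ Subgroup.zpowers s)
    (y : K') (hy : s y = y) : ∃ k : K, algebraMap K K' k = y := by
  have h : ∀ t : K' ≃ₐ[K] K', t y = y := by
    intro t
    have hs : s ∈ MulAction.stabilizer (K' ≃ₐ[K] K') y := by
      rw [MulAction.mem_stabilizer_iff]
      exact hy
    have ht : t ∈ MulAction.stabilizer (K' ≃ₐ[K] K') y :=
      (Subgroup.zpowers_le.mpr hs) (hgen t)
    rw [MulAction.mem_stabilizer_iff] at ht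
    exact ht
  exact (IsGalois.mem_range_algebraMap_iff_fixed (F := K) (E := K') y).mpr h

/-- The sum over the first `n` powers of the generator. -/
noncomputable def powSum (n : ℕ) (y : K') : K' := ∑ j ∈ Finset.range n, (s ^ j) y

theorem powSum_fixed (hgen : ∀ t : K' ≃ₐ[K] K', t ∈ Subgroup.zpowers s) (y : K') :
    s (powSum s (Module.finrank K K') y) = powSum s (Module.finrank K K') y := by
  unfold powSum
  rw [map_sum]
  have h1 : ∀ j, s ((s ^ j) y) = (s ^ (j + 1)) y := by
    intro j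
    rw [pow_succ', AlgEquiv.mul_apply]
  simp only [h1]
  have h2 := Finset.sum_range_succ' (fun j => (s ^ j) y) (Module.finrank K K')
  have h3 := Finset.sum_range_succ (fun j => (s ^ j) y) (Module.finrank K K')
  rw [h3] at h2
  simp only [gen_pow_finrank s hgen, pow_zero] at h2
  exact (add_right_cancel h2).symm

end Galois

variable {K K' : Type} [Field K] [NumberField K] [Field K'] [NumberField K'] [Algebra K K']

theorem liesOver_of_iff (v : HeightOneSpectrum (𝓞 K)) (w : HeightOneSpectrum (𝓞 K'))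
    (h : ∀ x : 𝓞 K, x ∈ v.asIdeal ↔ algebraMap (𝓞 K) (𝓞 K') x ∈ w.asIdeal) :
    w.asIdeal.LiesOver v.asIdeal :=
  ⟨by ext x; exact h x⟩

theorem valued_algebraMap (v : HeightOneSpectrum (𝓞 K)) (k : K) :
    Valued.v (algebraMap K (v.adicCompletion K) k) = v.valuation K k :=
  HeightOneSpectrum.valuedAdicCompletion_eq_valuation' v k

/-! ## 2. The inclusion of the completions -/

section Incl

variable (v : HeightOneSpectrum (𝓞 K)) (w : HeightOneSpectrum (𝓞 K'))
  [w.asIdeal.LiesOver v.asIdeal]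

/-- The inclusion of the completions `K_v →+* K'_w`. -/
noncomputable def locIncl : v.adicCompletion K →+* w.adicCompletion K' :=
  (HeightOneSpectrum.adicCompletion.equiv K' w).symm.toRingHom.comp
    ((UniformSpace.Completion.mapRingHom
        (algebraMap (WithVal (v.valuation K)) (WithVal (w.valuation K')))
        (HeightOneSpectrum.uniformContinuous_algebraMap_liesOver K K' v w).continuous).comp
      (HeightOneSpectrum.adicCompletion.equiv K v).toRingHom)

theorem locIncl_apply (x : v.adicCompletion K) :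
    (locIncl v w x).toCompletion =
      UniformSpace.Completion.map
        (algebraMap (WithVal (v.valuation K)) (WithVal (w.valuation K'))) x.toCompletion := rfl

theorem continuous_locIncl : Continuous (locIncl v w) := by
  have h1 : Continuous (fun x : v.adicCompletion K =>
      UniformSpace.Completion.map
        (algebraMap (WithVal (v.valuation K)) (WithVal (w.valuation K'))) x.toCompletion) :=
    UniformSpace.Completion.continuous_map.comp
      (HeightOneSpectrum.adicCompletion.continuous_toCompletion K v)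
  exact (HeightOneSpectrum.adicCompletion.continuous_ofCompletion K' w).comp h1

theorem locIncl_algebraMap (x : K) :
    locIncl v w (algebraMap K (v.adicCompletion K) x)
      = algebraMap K' (w.adicCompletion K') (algebraMap K K' x) := by
  apply HeightOneSpectrum.adicCompletion.ext
  rw [locIncl_apply]
  rw [HeightOneSpectrum.algebraMap_adicCompletion_toCompletion,
    HeightOneSpectrum.algebraMap_adicCompletion_toCompletion]
  rw [UniformSpace.Completion.algebraMap_def, UniformSpace.Completion.algebraMap_def,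
    UniformSpace.Completion.map_coe
      (HeightOneSpectrum.uniformContinuous_algebraMap_liesOver K K' v w)]
  rfl

/-- The ramification index of `w` over `v`. -/
noncomputable def ramIdx : ℕ := v.asIdeal.ramificationIdx' w.asIdeal

theorem ramIdx_ne_zero : ramIdx v w ≠ 0 :=
  Ideal.IsDedekindDomain.ramificationIdx'_ne_zero_of_liesOver w.asIdeal v.ne_bot

theorem valued_locIncl_algebraMap (k : K) :
    Valued.v (locIncl v w (algebraMap K (v.adicCompletion K) k))
      = Valued.v (algebraMap K (v.adicCompletion K) k) ^ ramIdx v w := by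
  rw [locIncl_algebraMap, valued_algebraMap, valued_algebraMap]
  exact (HeightOneSpectrum.valuation_liesOver K' v w k).symm

theorem locIncl_injective : Function.Injective (locIncl v w) :=
  (locIncl v w).injective

theorem valued_locIncl (x : v.adicCompletion K) :
    Valued.v (locIncl v w x) = Valued.v x ^ ramIdx v w := by
  rcases eq_or_ne x 0 with rfl | hx
  · simp [ramIdx_ne_zero v w]
  have hx' : locIncl v w x ≠ 0 := by
    intro h
    exact hx (locIncl_injective v w (by rw [h, map_zero]))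
  have h1 : {y : v.adicCompletion K | Valued.v y = Valued.v x} ∈ nhds x :=
    Valued.locally_const (by simpa using hx)
  have h2 : {z : w.adicCompletion K' | Valued.v z = Valued.v (locIncl v w x)}
      ∈ nhds (locIncl v w x) :=
    Valued.locally_const (by simpa using hx')
  have h3 : (locIncl v w) ⁻¹' {z : w.adicCompletion K' | Valued.v z = Valued.v (locIncl v w x)}
      ∈ nhds x := (continuous_locIncl v w).continuousAt h2
  obtain ⟨k, hy1, hy2⟩ :=
    (HeightOneSpectrum.denseRange_algebraMap K v).mem_nhds (Filter.inter_mem h1 h3)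
  simp only [Set.mem_ofPred_eq, Set.mem_preimage] at hy1 hy2
  rw [← hy1, ← hy2]
  exact valued_locIncl_algebraMap v w k

theorem uniformContinuous_locIncl : UniformContinuous (locIncl v w) :=
  uniformContinuous_addMonoidHom_of_continuous (continuous_locIncl v w)

theorem isUniformInducing_locIncl : IsUniformInducing (locIncl v w) := by
  rw [isUniformInducing_iff']
  refine ⟨uniformContinuous_locIncl v w, ?_⟩
  rw [((Valued.hasBasis_uniformity (w.adicCompletion K') _).comap _).le_basis_iff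
    (Valued.hasBasis_uniformity (v.adicCompletion K) _)]
  intro γ _
  obtain ⟨z, hz⟩ := HeightOneSpectrum.valuedAdicCompletion_surjective K v
    (MonoidWithZeroHom.ValueGroup₀.embedding γ.val)
  have hz0 : Valued.v z ≠ 0 := by
    rw [hz]
    simp
  have hz' : Valued.v (locIncl v w z) ≠ 0 := by
    rw [valued_locIncl]
    exact pow_ne_zero _ hz0
  refine ⟨Units.mk0 (Valued.v.restrict (locIncl v w z)) ?_, trivial, ?_⟩
  · rw [Ne, ← MonoidWithZeroHom.ValueGroup₀.embedding_inj]
    simpa using hz'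
  rintro ⟨x, y⟩ hxy
  simp only [Set.mem_preimage, Prod.map_apply, Set.mem_ofPred_eq, Units.val_mk0] at hxy ⊢
  rw [Valuation.restrict_lt_iff_lt_embedding] at hxy ⊢
  rw [Valuation.embedding_restrict, ← map_sub, valued_locIncl, valued_locIncl, hz] at hxy
  exact lt_of_pow_lt_pow_left₀ _ zero_le' hxy

theorem isClosed_range_locIncl : IsClosed (Set.range (locIncl v w)) :=
  (isUniformInducing_locIncl v w).isComplete_range.isClosed

end Incl

/-! ## 3. The completion of a valuation-preserving automorphism -/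

section Aut

variable (w : HeightOneSpectrum (𝓞 K')) (σ : K' ≃+* K')

theorem uniformContinuous_congr_of_valuation_eq
    (hσ : ∀ y : K', w.valuation K' (σ y) = w.valuation K' y) :
    UniformContinuous (WithVal.congr (w.valuation K') (w.valuation K') σ) := by
  refine uniformContinuous_of_continuousAt_zero
    (WithVal.congr (w.valuation K') (w.valuation K') σ) ?_
  rw [ContinuousAt, map_zero, (Valued.hasBasis_nhds_zero _ _).tendsto_iff
    (Valued.hasBasis_nhds_zero _ _)]
  intro γ _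
  refine ⟨γ, trivial, fun x hx => ?_⟩
  simp only [Set.mem_ofPred_eq] at hx ⊢
  rw [Valuation.restrict_lt_iff_lt_embedding] at hx ⊢
  have : Valued.v ((WithVal.congr (w.valuation K') (w.valuation K') σ) x) = Valued.v x := by
    rw [← WithVal.apply_ofVal, ← WithVal.apply_ofVal]
    exact hσ _
  rw [this]
  exact hx

theorem valuation_symm_eq (hσ : ∀ y : K', w.valuation K' (σ y) = w.valuation K' y) (y : K') :
    w.valuation K' (σ.symm y) = w.valuation K' y := by
  rw [← hσ (σ.symm y), RingEquiv.apply_symm_apply]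

/-- The automorphism of the completion induced by a valuation-preserving automorphism. -/
noncomputable def locAut (hσ : ∀ y : K', w.valuation K' (σ y) = w.valuation K' y) :
    w.adicCompletion K' ≃+* w.adicCompletion K' :=
  (HeightOneSpectrum.adicCompletion.equiv K' w).trans
    ((UniformSpace.Completion.mapRingEquiv
        (WithVal.congr (w.valuation K') (w.valuation K') σ)
        (uniformContinuous_congr_of_valuation_eq w σ hσ).continuous
        (uniformContinuous_congr_of_valuation_eq w σ.symm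
          (valuation_symm_eq w σ hσ)).continuous).trans
      (HeightOneSpectrum.adicCompletion.equiv K' w).symm)

variable (hσ : ∀ y : K', w.valuation K' (σ y) = w.valuation K' y)

theorem locAut_apply (x : w.adicCompletion K') :
    (locAut w σ hσ x).toCompletion =
      UniformSpace.Completion.map
        (WithVal.congr (w.valuation K') (w.valuation K') σ) x.toCompletion := rfl

theorem continuous_locAut : Continuous (locAut w σ hσ) := by
  have h1 : Continuous (fun x : w.adicCompletion K' =>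
      UniformSpace.Completion.map
        (WithVal.congr (w.valuation K') (w.valuation K') σ) x.toCompletion) :=
    UniformSpace.Completion.continuous_map.comp
      (HeightOneSpectrum.adicCompletion.continuous_toCompletion K' w)
  exact (HeightOneSpectrum.adicCompletion.continuous_ofCompletion K' w).comp h1

theorem locAut_algebraMap (y : K') :
    locAut w σ hσ (algebraMap K' (w.adicCompletion K') y)
      = algebraMap K' (w.adicCompletion K') (σ y) := by
  apply HeightOneSpectrum.adicCompletion.ext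
  rw [locAut_apply]
  rw [HeightOneSpectrum.algebraMap_adicCompletion_toCompletion,
    HeightOneSpectrum.algebraMap_adicCompletion_toCompletion]
  rw [UniformSpace.Completion.algebraMap_def, UniformSpace.Completion.algebraMap_def,
    UniformSpace.Completion.map_coe (uniformContinuous_congr_of_valuation_eq w σ hσ)]
  rfl

theorem valued_locAut (x : w.adicCompletion K') :
    Valued.v (locAut w σ hσ x) = Valued.v x := by
  rcases eq_or_ne x 0 with rfl | hx
  · simp
  have hx' : locAut w σ hσ x ≠ 0 := by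
    intro h
    exact hx ((locAut w σ hσ).injective (by rw [h, map_zero]))
  have h1 : {y : w.adicCompletion K' | Valued.v y = Valued.v x} ∈ nhds x :=
    Valued.locally_const (by simpa using hx)
  have h2 : {z : w.adicCompletion K' | Valued.v z = Valued.v (locAut w σ hσ x)}
      ∈ nhds (locAut w σ hσ x) :=
    Valued.locally_const (by simpa using hx')
  have h3 : (locAut w σ hσ) ⁻¹'
      {z : w.adicCompletion K' | Valued.v z = Valued.v (locAut w σ hσ x)}
      ∈ nhds x := (continuous_locAut w σ hσ).continuousAt h2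
  obtain ⟨k, hy1, hy2⟩ :=
    (HeightOneSpectrum.denseRange_algebraMap K' w).mem_nhds (Filter.inter_mem h1 h3)
  simp only [Set.mem_ofPred_eq, Set.mem_preimage] at hy1 hy2
  rw [← hy1, ← hy2, locAut_algebraMap, valued_algebraMap, valued_algebraMap]
  exact hσ k

theorem continuous_locAut_pow (m : ℕ) : Continuous ⇑((locAut w σ hσ) ^ m) := by
  induction m with
  | zero =>
    have : ⇑((locAut w σ hσ) ^ 0) = id := by
      funext x
      rw [pow_zero, RingAut.one_apply, id]
    rw [this]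
    exact continuous_id
  | succ m ih =>
    have : ⇑((locAut w σ hσ) ^ (m + 1)) = ⇑((locAut w σ hσ) ^ m) ∘ ⇑(locAut w σ hσ) := by
      funext x
      rw [pow_succ, RingAut.mul_apply, Function.comp_apply]
    rw [this]
    exact ih.comp (continuous_locAut w σ hσ)

end Aut

/-! ## 4. An automorphism which fixes the prime preserves the valuation -/

section Stable

variable (w : HeightOneSpectrum (𝓞 K')) (σ : K' ≃+* K')

/-- The restriction of an automorphism to the ring of integers. -/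
noncomputable abbrev intAut : 𝓞 K' ≃+* 𝓞 K' := RingOfIntegers.mapRingEquiv σ

theorem intAut_intAut_symm (y : 𝓞 K') : intAut σ (intAut σ.symm y) = y := by
  apply RingOfIntegers.ext
  simp

theorem intAut_symm_intAut (y : 𝓞 K') : intAut σ.symm (intAut σ y) = y := by
  apply RingOfIntegers.ext
  simp

theorem exists_intValuation_eq_exp (y : 𝓞 K') (hy : y ≠ 0) :
    ∃ n : ℕ, w.intValuation y = WithZero.exp (-(n : ℤ)) :=
  ⟨_, w.intValuation_if_neg hy⟩

theorem map_pow_le_of_comap_eq (hc : Ideal.comap (intAut σ) w.asIdeal = w.asIdeal) (n : ℕ)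
    (y : 𝓞 K') (hy : y ∈ w.asIdeal ^ n) : intAut σ y ∈ w.asIdeal ^ n := by
  have h1 : Ideal.map (intAut σ) w.asIdeal = w.asIdeal := by
    conv_lhs => rw [← hc]
    exact Ideal.map_comap_of_surjective _ (intAut σ).surjective _
  have h2 : Ideal.map (intAut σ) (w.asIdeal ^ n) = w.asIdeal ^ n := by
    rw [Ideal.map_pow, h1]
  rw [← h2]
  exact Ideal.mem_map_of_mem _ hy

theorem intValuation_le_of_comap_eq (hc : Ideal.comap (intAut σ) w.asIdeal = w.asIdeal)
    (y : 𝓞 K') : w.intValuation (intAut σ y) ≤ w.intValuation y := by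
  rcases eq_or_ne y 0 with rfl | hy
  · simp
  obtain ⟨n, hn⟩ := exists_intValuation_eq_exp w y hy
  rw [hn, HeightOneSpectrum.intValuation_le_pow_iff_mem]
  apply map_pow_le_of_comap_eq w σ hc
  rw [← HeightOneSpectrum.intValuation_le_pow_iff_mem, hn]

theorem comap_symm_eq (hc : Ideal.comap (intAut σ) w.asIdeal = w.asIdeal) :
    Ideal.comap (intAut σ.symm) w.asIdeal = w.asIdeal := by
  ext y
  rw [Ideal.mem_comap]
  have hmem : ∀ z, intAut σ z ∈ w.asIdeal ↔ z ∈ w.asIdeal := fun z => by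
    rw [← Ideal.mem_comap, hc]
  rw [← hmem (intAut σ.symm y), intAut_intAut_symm]

theorem intValuation_eq_of_comap_eq (hc : Ideal.comap (intAut σ) w.asIdeal = w.asIdeal)
    (y : 𝓞 K') : w.intValuation (intAut σ y) = w.intValuation y := by
  apply le_antisymm (intValuation_le_of_comap_eq w σ hc y)
  have h := intValuation_le_of_comap_eq w σ.symm (comap_symm_eq w σ hc) (intAut σ y)
  rwa [intAut_symm_intAut] at h

theorem valuation_eq_of_comap_eq (hc : Ideal.comap (intAut σ) w.asIdeal = w.asIdeal)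
    (y : K') : w.valuation K' (σ y) = w.valuation K' y := by
  obtain ⟨a, b, hb, rfl⟩ := IsFractionRing.div_surjective (A := 𝓞 K') y
  have ha : σ (algebraMap (𝓞 K') K' a) = algebraMap (𝓞 K') K' (intAut σ a) := rfl
  have hb' : σ (algebraMap (𝓞 K') K' b) = algebraMap (𝓞 K') K' (intAut σ b) := rfl
  rw [map_div₀, ha, hb', map_div₀, map_div₀, HeightOneSpectrum.valuation_of_algebraMap,
    HeightOneSpectrum.valuation_of_algebraMap, HeightOneSpectrum.valuation_of_algebraMap,
    HeightOneSpectrum.valuation_of_algebraMap, intValuation_eq_of_comap_eq w σ hc,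
    intValuation_eq_of_comap_eq w σ hc]

end Stable

section Unique

variable (v : HeightOneSpectrum (𝓞 K)) (w : HeightOneSpectrum (𝓞 K')) (s : K' ≃ₐ[K] K')

theorem intAut_algebraMap (x : 𝓞 K) :
    intAut (s : K' ≃+* K') (algebraMap (𝓞 K) (𝓞 K') x) = algebraMap (𝓞 K) (𝓞 K') x := by
  apply RingOfIntegers.ext
  show s (algebraMap K K' (x : K)) = algebraMap K K' (x : K)
  exact s.commutes _

theorem comap_eq_of_unique
    (hvw : ∀ x : 𝓞 K, x ∈ v.asIdeal ↔ algebraMap (𝓞 K) (𝓞 K') x ∈ w.asIdeal)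
    (huniq : ∀ w' : HeightOneSpectrum (𝓞 K'),
        (∀ x : 𝓞 K, x ∈ v.asIdeal → algebraMap (𝓞 K) (𝓞 K') x ∈ w'.asIdeal) → w' = w) :
    Ideal.comap (intAut (s : K' ≃+* K')) w.asIdeal = w.asIdeal := by
  have hne : Ideal.comap (intAut (s : K' ≃+* K')) w.asIdeal ≠ ⊥ := by
    intro h
    apply w.ne_bot
    rw [eq_bot_iff]
    intro y hy
    have h1 : intAut (s : K' ≃+* K').symm y
        ∈ Ideal.comap (intAut (s : K' ≃+* K')) w.asIdeal := by
      rw [Ideal.mem_comap, intAut_intAut_symm]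
      exact hy
    rw [h, Ideal.mem_bot] at h1
    have h0 := intAut_intAut_symm (s : K' ≃+* K') y
    rw [h1, map_zero] at h0
    rw [Ideal.mem_bot]
    exact h0.symm
  let w' : HeightOneSpectrum (𝓞 K') :=
    ⟨Ideal.comap (intAut (s : K' ≃+* K')) w.asIdeal, inferInstance, hne⟩
  have h := huniq w' (fun x hx => by
    show intAut (s : K' ≃+* K') (algebraMap (𝓞 K) (𝓞 K') x) ∈ w.asIdeal
    rw [intAut_algebraMap]
    exact (hvw x).1 hx)
  exact congrArg HeightOneSpectrum.asIdeal h

theorem valuation_aut_eq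
    (hvw : ∀ x : 𝓞 K, x ∈ v.asIdeal ↔ algebraMap (𝓞 K) (𝓞 K') x ∈ w.asIdeal)
    (huniq : ∀ w' : HeightOneSpectrum (𝓞 K'),
        (∀ x : 𝓞 K, x ∈ v.asIdeal → algebraMap (𝓞 K) (𝓞 K') x ∈ w'.asIdeal) → w' = w)
    (y : K') : w.valuation K' ((s : K' ≃+* K') y) = w.valuation K' y :=
  valuation_eq_of_comap_eq w (s : K' ≃+* K') (comap_eq_of_unique v w s hvw huniq) y

end Unique

/-! ## 5. The norm of the only prime over `v` -/

section Norm

variable (v : HeightOneSpectrum (𝓞 K)) (w : HeightOneSpectrum (𝓞 K'))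
  [w.asIdeal.LiesOver v.asIdeal]

theorem absNorm_eq_pow_inertia :
    Ideal.absNorm w.asIdeal = Ideal.absNorm v.asIdeal ^ (v.asIdeal.inertiaDeg' w.asIdeal) :=
  Ideal.absNorm_eq_pow_inertiaDeg'_of_liesOver w.asIdeal v.asIdeal v.isPrime v.ne_bot

theorem primesOverFinset_eq
    (huniq : ∀ w' : HeightOneSpectrum (𝓞 K'),
        (∀ x : 𝓞 K, x ∈ v.asIdeal → algebraMap (𝓞 K) (𝓞 K') x ∈ w'.asIdeal) → w' = w) :
    IsDedekindDomain.primesOverFinset v.asIdeal (𝓞 K') = {w.asIdeal} := by
  have : v.asIdeal.IsMaximal := v.isMaximal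
  ext P
  rw [IsDedekindDomain.mem_primesOverFinset_iff v.ne_bot, Finset.mem_singleton]
  constructor
  · rintro ⟨hP, hPo⟩
    have hne : P ≠ ⊥ := by
      rintro rfl
      apply v.ne_bot
      rw [hPo.over]
      rw [eq_bot_iff]
      intro x hx
      rw [Ideal.under_def, Ideal.mem_comap, Ideal.mem_bot] at hx
      rw [Ideal.mem_bot]
      exact FaithfulSMul.algebraMap_injective (𝓞 K) (𝓞 K') (by rw [hx, map_zero])
    have h := huniq ⟨P, hP, hne⟩ (fun x hx => by
      show algebraMap (𝓞 K) (𝓞 K') x ∈ P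
      have := hPo.over
      rw [this] at hx
      exact hx)
    exact congrArg HeightOneSpectrum.asIdeal h
  · rintro rfl
    exact ⟨w.isPrime, inferInstance⟩

theorem ram_mul_inertia
    (huniq : ∀ w' : HeightOneSpectrum (𝓞 K'),
        (∀ x : 𝓞 K, x ∈ v.asIdeal → algebraMap (𝓞 K) (𝓞 K') x ∈ w'.asIdeal) → w' = w) :
    v.asIdeal.ramificationIdx' w.asIdeal * v.asIdeal.inertiaDeg' w.asIdeal
      = Module.finrank K K' := by
  have : v.asIdeal.IsMaximal := v.isMaximal
  have h := Ideal.sum_ramification_inertia (𝓞 K') K K' (p := v.asIdeal) v.ne_bot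
  rw [primesOverFinset_eq v w huniq, Finset.sum_singleton] at h
  exact h

theorem absNorm_eq
    (huniq : ∀ w' : HeightOneSpectrum (𝓞 K'),
        (∀ x : 𝓞 K, x ∈ v.asIdeal → algebraMap (𝓞 K) (𝓞 K') x ∈ w'.asIdeal) → w' = w) :
    Ideal.absNorm w.asIdeal = Ideal.absNorm v.asIdeal ^
      (Module.finrank K K' / ramIdx v w) := by
  unfold ramIdx
  rw [absNorm_eq_pow_inertia v w, ← ram_mul_inertia v w huniq,
    Nat.mul_div_cancel_left _ (Nat.pos_of_ne_zero
      (Ideal.IsDedekindDomain.ramificationIdx'_ne_zero_of_liesOver w.asIdeal v.ne_bot))]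

end Norm

/-! ## 6. The cyclic extension of the completions -/

section Main

variable [IsGalois K K'] (s : K' ≃ₐ[K] K')
  (v : HeightOneSpectrum (𝓞 K)) (w : HeightOneSpectrum (𝓞 K')) [w.asIdeal.LiesOver v.asIdeal]
  (hσ : ∀ y : K', w.valuation K' ((s : K' ≃+* K') y) = w.valuation K' y)

theorem locAut_pow_algebraMap (m : ℕ) (y : K') :
    ((locAut w (s : K' ≃+* K') hσ) ^ m) (algebraMap K' (w.adicCompletion K') y)
      = algebraMap K' (w.adicCompletion K') ((s ^ m) y) := by
  induction m generalizing y with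
  | zero => rw [pow_zero, pow_zero, RingAut.one_apply, AlgEquiv.one_apply]
  | succ m ih =>
    rw [pow_succ, RingAut.mul_apply, locAut_algebraMap, pow_succ, AlgEquiv.mul_apply]
    exact ih _

theorem locAut_locIncl (x : v.adicCompletion K) :
    locAut w (s : K' ≃+* K') hσ (locIncl v w x) = locIncl v w x := by
  have h : (⇑(locAut w (s : K' ≃+* K') hσ) ∘ ⇑(locIncl v w)) = ⇑(locIncl v w) := by
    refine (HeightOneSpectrum.denseRange_algebraMap K v).equalizer
      ((continuous_locAut w _ hσ).comp (continuous_locIncl v w)) (continuous_locIncl v w) ?_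
    funext k
    simp only [Function.comp_apply]
    rw [locIncl_algebraMap, locAut_algebraMap]
    exact congrArg _ (s.commutes k)
  exact congrFun h x

theorem locAut_pow_finrank (hgen : ∀ t : K' ≃ₐ[K] K', t ∈ Subgroup.zpowers s)
    (y : w.adicCompletion K') :
    ((locAut w (s : K' ≃+* K') hσ) ^ Module.finrank K K') y = y := by
  have h : ⇑((locAut w (s : K' ≃+* K') hσ) ^ Module.finrank K K') = id := by
    refine (HeightOneSpectrum.denseRange_algebraMap K' w).equalizer
      (continuous_locAut_pow w _ hσ _) continuous_id ?_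
    funext k
    simp only [Function.comp_apply, id]
    rw [locAut_pow_algebraMap, gen_pow_finrank s hgen, AlgEquiv.one_apply]
  exact congrFun h y

theorem exists_locAut_pow_ne (hgen : ∀ t : K' ≃ₐ[K] K', t ∈ Subgroup.zpowers s)
    (m : ℕ) (hm : 0 < m) (hml : m < Module.finrank K K') :
    ∃ y : w.adicCompletion K', ((locAut w (s : K' ≃+* K') hσ) ^ m) y ≠ y := by
  obtain ⟨y₀, hy₀⟩ := exists_pow_apply_ne s hgen m hm hml
  refine ⟨algebraMap K' (w.adicCompletion K') y₀, ?_⟩
  rw [locAut_pow_algebraMap]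
  exact fun h => hy₀ ((algebraMap K' (w.adicCompletion K')).injective h)

theorem fixed_mem_range (hgen : ∀ t : K' ≃ₐ[K] K', t ∈ Subgroup.zpowers s)
    (y : w.adicCompletion K') (hy : locAut w (s : K' ≃+* K') hσ y = y) :
    ∃ x : v.adicCompletion K, locIncl v w x = y := by
  have hT : Continuous (fun z : w.adicCompletion K' =>
      ∑ j ∈ Finset.range (Module.finrank K K'), ((locAut w (s : K' ≃+* K') hσ) ^ j) z) :=
    continuous_finset_sum _ (fun j _ => continuous_locAut_pow w _ hσ j)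
  have hTalg : ∀ y₀ : K',
      (∑ j ∈ Finset.range (Module.finrank K K'),
        ((locAut w (s : K' ≃+* K') hσ) ^ j) (algebraMap K' (w.adicCompletion K') y₀))
        ∈ Set.range (locIncl v w) := by
    intro y₀
    obtain ⟨k, hk⟩ := mem_range_of_fixed s hgen (powSum s (Module.finrank K K') y₀)
      (powSum_fixed s hgen y₀)
    refine ⟨algebraMap K _ k, ?_⟩
    rw [locIncl_algebraMap, hk]
    simp only [locAut_pow_algebraMap, powSum, map_sum]
  have hall : ∀ z : w.adicCompletion K',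
      (∑ j ∈ Finset.range (Module.finrank K K'), ((locAut w (s : K' ≃+* K') hσ) ^ j) z)
        ∈ Set.range (locIncl v w) := fun z =>
    (HeightOneSpectrum.denseRange_algebraMap K' w).induction_on z
      ((isClosed_range_locIncl v w).preimage hT) hTalg
  have hpow : ∀ j : ℕ, ((locAut w (s : K' ≃+* K') hσ) ^ j) y = y := by
    intro j
    induction j with
    | zero => rw [pow_zero, RingAut.one_apply]
    | succ j ih => rw [pow_succ, RingAut.mul_apply, hy, ih]
  obtain ⟨x, hx⟩ := hall y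
  simp only [hpow, Finset.sum_const, Finset.card_range, nsmul_eq_mul] at hx
  have : CharZero (w.adicCompletion K') :=
    charZero_of_injective_algebraMap (algebraMap K' (w.adicCompletion K')).injective
  have hl : ((Module.finrank K K' : ℕ) : w.adicCompletion K') ≠ 0 :=
    Nat.cast_ne_zero.mpr Module.finrank_pos.ne'
  refine ⟨x / (Module.finrank K K' : v.adicCompletion K), ?_⟩
  rw [map_div₀, map_natCast, hx, mul_div_cancel_left₀ _ hl]

theorem isCyclicData_loc (hgen : ∀ t : K' ≃ₐ[K] K', t ∈ Subgroup.zpowers s) :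
    IsCyclicData (v.adicCompletion K) (w.adicCompletion K') (Module.finrank K K')
      (locIncl v w) (locAut w (s : K' ≃+* K') hσ) where
  pos := Module.finrank_pos
  fix_i := locAut_locIncl s v w hσ
  fixed := fixed_mem_range s v w hσ hgen
  order := locAut_pow_finrank s w hσ hgen
  faithful := exists_locAut_pow_ne s w hσ hgen

theorem isLocalExt_loc (hgen : ∀ t : K' ≃ₐ[K] K', t ∈ Subgroup.zpowers s) :
    IsLocalExt (v.adicCompletion K) (w.adicCompletion K') (Module.finrank K K') (ramIdx v w)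
      (locIncl v w) (locAut w (s : K' ≃+* K') hσ) where
  cyc := isCyclicData_loc s v w hσ hgen
  e_pos := Nat.pos_of_ne_zero (ramIdx_ne_zero v w)
  val_i := valued_locIncl v w
  val_s := valued_locAut w _ hσ

end Main

/-- **T6.02 = T6.01b `InstExtC`** (unconditional). -/
theorem instExtC : Fermat.Agent.LT.T6.InstExtC := by
  intro K K' _ _ _ _ _ _ s hgen _ v w hvw huniq
  have := liesOver_of_iff v w hvw
  have hσ := valuation_aut_eq v w s hvw huniq
  exact ⟨ramIdx v w, locIncl v w, locAut w (s : K' ≃+* K') hσ, locIncl_algebraMap v w,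
    fun y => locAut_algebraMap w _ hσ y, isLocalExt_loc s v w hσ hgen, absNorm_eq v w huniq⟩

end Fermat.Agent.LT.T6.H267

end
-- ===== PACK-END LT/T6/H267/InstExt.lean

-- ===== PACK-BEGIN LT/T7/H566/SchurClass.lean
section


/-!
# The Schur form on a finite dimensional space of functions (Mathlib only; helper566)

Consumer form of `schur_triple566`: `M` a complex vector space, `form` a positive definite
hermitian form on the subspace `E` (linear in the FIRST variable), operators given as maps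
`M → M` which are linear on `E`, preserve `E` and commute on `E`.
-/

set_option autoImplicit false
set_option linter.style.haveILetI false

open Module
open scoped ComplexConjugate

noncomputable section

namespace Fermat.Agent.LT.T7.H566

section Form

variable {M : Type} [AddCommGroup M] [Module ℂ M]

/-- `form` is a positive definite hermitian form on `E`, linear in the first variable. -/
structure IsHermOn566 (form : M → M → ℂ) (E : Submodule ℂ M) : Prop where
  add_left : ∀ x ∈ E, ∀ y ∈ E, ∀ z ∈ E, form (x + y) z = form x z + form y z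
  smul_left : ∀ (a : ℂ), ∀ x ∈ E, ∀ y ∈ E, form (a • x) y = a * form x y
  conj_symm : ∀ x ∈ E, ∀ y ∈ E, form y x = conj (form x y)
  nonneg : ∀ x ∈ E, 0 ≤ (form x x).re
  definite : ∀ x ∈ E, form x x = 0 → x = 0

namespace IsHermOn566

variable {form : M → M → ℂ} {E : Submodule ℂ M} (h : IsHermOn566 form E)

include h

theorem mono {E' : Submodule ℂ M} (hle : E' ≤ E) : IsHermOn566 form E' :=
  ⟨fun x hx y hy z hz => h.add_left x (hle hx) y (hle hy) z (hle hz),
    fun a x hx y hy => h.smul_left a x (hle hx) y (hle hy),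
    fun x hx y hy => h.conj_symm x (hle hx) y (hle hy),
    fun x hx => h.nonneg x (hle hx), fun x hx => h.definite x (hle hx)⟩

theorem add_right {x y z : M} (hx : x ∈ E) (hy : y ∈ E) (hz : z ∈ E) :
    form x (y + z) = form x y + form x z := by
  rw [h.conj_symm (y + z) (E.add_mem hy hz) x hx, h.add_left y hy z hz x hx, map_add,
    ← h.conj_symm y hy x hx, ← h.conj_symm z hz x hx]

theorem smul_right (a : ℂ) {x y : M} (hx : x ∈ E) (hy : y ∈ E) :
    form x (a • y) = conj a * form x y := by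
  rw [h.conj_symm (a • y) (E.smul_mem a hy) x hx, h.smul_left a y hy x hx, map_mul,
    ← h.conj_symm y hy x hx]

theorem zero_left {y : M} (hy : y ∈ E) : form 0 y = 0 := by
  have h1 := h.smul_left 0 0 E.zero_mem y hy
  rw [zero_smul, zero_mul] at h1
  exact h1

theorem zero_right {x : M} (hx : x ∈ E) : form x 0 = 0 := by
  rw [h.conj_symm 0 E.zero_mem x hx, h.zero_left hx, map_zero]

theorem sum_left {ι : Type*} (t : Finset ι) (g : ι → ℂ) (u : ι → M) (hu : ∀ i ∈ t, u i ∈ E)
    {y : M} (hy : y ∈ E) :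
    form (∑ i ∈ t, g i • u i) y = ∑ i ∈ t, g i * form (u i) y := by
  classical
  induction t using Finset.induction_on with
  | empty => simp [h.zero_left hy]
  | insert i t hi ih =>
    rw [Finset.sum_insert hi, Finset.sum_insert hi,
      h.add_left _ (E.smul_mem _ (hu i (Finset.mem_insert_self i t))) _
        (E.sum_mem fun j hj => E.smul_mem _ (hu j (Finset.mem_insert_of_mem hj))) y hy,
      h.smul_left _ _ (hu i (Finset.mem_insert_self i t)) y hy,
      ih (fun j hj => hu j (Finset.mem_insert_of_mem hj))]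

end IsHermOn566

variable (form : M → M → ℂ) (E : Submodule ℂ M)

/-- The inner product core on `E`. -/
@[instance_reducible]
def formCore566 (h : IsHermOn566 form E) : InnerProductSpace.Core ℂ E where
  inner := fun x y => form (y : M) (x : M)
  conj_inner_symm := fun x y => (h.conj_symm x x.2 y y.2).symm
  re_inner_nonneg := fun x => h.nonneg x x.2
  add_left := fun x y z => h.add_right z.2 x.2 y.2
  smul_left := fun x y r => h.smul_right r y.2 x.2
  definite := fun x hx => Subtype.ext (h.definite x x.2 hx)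

/-- The normed group structure on `E`. -/
@[instance_reducible]
def formNormed566 (h : IsHermOn566 form E) : NormedAddCommGroup E :=
  @InnerProductSpace.Core.toNormedAddCommGroup ℂ E _ _ _ (formCore566 form E h)

/-- The inner product space structure on `E`. -/
@[instance_reducible]
def formInner566 (h : IsHermOn566 form E) :
    @InnerProductSpace ℂ E _ (formNormed566 form E h).toSeminormedAddCommGroup :=
  InnerProductSpace.ofCore (formCore566 form E h).toCore

theorem form_inner_eq566 (h : IsHermOn566 form E) (x y : E) :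
    @inner ℂ E (formInner566 form E h).toInner x y = form (y : M) (x : M) := rfl

/-- A map which is linear on `E` and preserves `E`, as an endomorphism of `E`. -/
def restrLin566 (T : M → M) (hadd : ∀ x ∈ E, ∀ y ∈ E, T (x + y) = T x + T y)
    (hsmul : ∀ (t : ℂ), ∀ x ∈ E, T (t • x) = t • T x) (hpres : ∀ x ∈ E, T x ∈ E) :
    E →ₗ[ℂ] E where
  toFun x := ⟨T x, hpres x x.2⟩
  map_add' x y := Subtype.ext (hadd x x.2 y y.2)
  map_smul' t x := Subtype.ext (hsmul t x x.2)

theorem restrLin_coe566 (T : M → M) (hadd : ∀ x ∈ E, ∀ y ∈ E, T (x + y) = T x + T y)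
    (hsmul : ∀ (t : ℂ), ∀ x ∈ E, T (t • x) = t • T x) (hpres : ∀ x ∈ E, T x ∈ E) (x : E) :
    ((restrLin566 E T hadd hsmul hpres x : E) : M) = T x := rfl

theorem restrLin_pow566 (T : M → M) (hadd : ∀ x ∈ E, ∀ y ∈ E, T (x + y) = T x + T y)
    (hsmul : ∀ (t : ℂ), ∀ x ∈ E, T (t • x) = t • T x) (hpres : ∀ x ∈ E, T x ∈ E) (m : ℕ)
    (x : E) : ((((restrLin566 E T hadd hsmul hpres) ^ m) x : E) : M) = T^[m] x := by
  induction m with
  | zero => simp
  | succ m ih =>
    rw [pow_succ', Module.End.mul_apply, restrLin_coe566, ih, Function.iterate_succ_apply']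

end Form

/-! ## The Schur form on a class space -/

section Class

variable {M : Type} [AddCommGroup M] [Module ℂ M] (form : M → M → ℂ) (E : Submodule ℂ M)

/-- **The Schur form on the finite dimensional space `E`.** -/
theorem schur_class566 (h : IsHermOn566 form E) [FiniteDimensional ℂ E]
    (Zk : ℤ → M → M) (U B : M → M)
    (hadd : ∀ x ∈ E, ∀ y ∈ E,
      U (x + y) = U x + U y ∧ B (x + y) = B x + B y ∧ ∀ k : ℤ, Zk k (x + y) = Zk k x + Zk k y)
    (hsmul : ∀ (t : ℂ), ∀ x ∈ E,
      U (t • x) = t • U x ∧ B (t • x) = t • B x ∧ ∀ k : ℤ, Zk k (t • x) = t • Zk k x)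
    (hpres : ∀ x ∈ E, U x ∈ E ∧ B x ∈ E ∧ ∀ k : ℤ, Zk k x ∈ E)
    (hcomm : ∀ x ∈ E, B (U x) = U (B x) ∧ (∀ k : ℤ, B (Zk k x) = Zk k (B x)) ∧
      ∀ k : ℤ, U (Zk k x) = Zk k (U x))
    (hgrp : ∀ x ∈ E, Zk 0 x = x ∧ ∀ k k' : ℤ, Zk (k + k') x = Zk k (Zk k' x))
    {ι : Type} [Fintype ι] (hcard : Fintype.card ι = finrank ℂ E) :
    ∃ (ε : ι → M) (b l x : ι → ℂ),
      (∀ i, ε i ∈ E) ∧ (∀ i, form (ε i) (ε i) = 1) ∧
      (∀ i j, i ≠ j → form (ε i) (ε j) = 0) ∧
      (∀ i (k : ℤ) (m : ℕ), form (B (Zk k (U^[m] (ε i)))) (ε i) = x i * b i ^ k * l i ^ m) ∧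
      (∀ i, ∃ y ∈ E, y ≠ 0 ∧ Zk 1 y = b i • y ∧ U y = l i • y) := by
  letI iN : NormedAddCommGroup E := formNormed566 form E h
  letI iI : InnerProductSpace ℂ E := formInner566 form E h
  have hinner : ∀ x y : E, inner ℂ x y = form (y : M) (x : M) := fun x y => rfl
  obtain ⟨e, x, b, l, he, hdiag, heig⟩ := schur_triple566
    (restrLin566 E B (fun x hx y hy => (hadd x hx y hy).2.1) (fun t x hx => (hsmul t x hx).2.1)
      (fun x hx => (hpres x hx).2.1))
    (restrLin566 E U (fun x hx y hy => (hadd x hx y hy).1) (fun t x hx => (hsmul t x hx).1)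
      (fun x hx => (hpres x hx).1))
    (fun k => restrLin566 E (Zk k) (fun x hx y hy => (hadd x hx y hy).2.2 k)
      (fun t x hx => (hsmul t x hx).2.2 k) (fun x hx => (hpres x hx).2.2 k))
    (fun y => Subtype.ext (hcomm y y.2).1)
    (fun k y => Subtype.ext ((hcomm y y.2).2.1 k))
    (fun k y => Subtype.ext ((hcomm y y.2).2.2 k))
    (fun y => Subtype.ext (hgrp y y.2).1)
    (fun k k' y => Subtype.ext ((hgrp y y.2).2 k k'))
  let σ : ι ≃ Fin (finrank ℂ E) := Fintype.equivFinOfCardEq hcard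
  refine ⟨fun i => (e (σ i) : M), fun i => b (σ i), fun i => l (σ i), fun i => x (σ i),
    fun i => (e (σ i)).2, ?_, ?_, ?_, ?_⟩
  · intro i
    have h1 : inner ℂ (e (σ i)) (e (σ i)) = 1 := by
      rw [inner_self_eq_norm_sq_to_K, he.1 (σ i)]
      simp
    rw [hinner] at h1
    exact h1
  · intro i j hij
    have hσ : σ j ≠ σ i := fun hσ => hij (σ.injective hσ).symm
    have h1 : inner ℂ (e (σ j)) (e (σ i)) = 0 := he.2 hσ
    rw [hinner] at h1
    exact h1
  · intro i k m
    have h1 := hdiag (σ i) k m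
    rw [hinner, restrLin_coe566, restrLin_coe566, restrLin_pow566] at h1
    exact h1
  · intro i
    obtain ⟨v, hv0, h1, h2⟩ := heig (σ i)
    exact ⟨v, v.2, fun hv => hv0 (Subtype.ext hv), congrArg Subtype.val h1,
      congrArg Subtype.val h2⟩

/-- **Parseval** in the finite dimensional space `E`. -/
theorem parseval_class566 (h : IsHermOn566 form E) [FiniteDimensional ℂ E]
    {ι : Type} [Fintype ι] (u : ι → M) (hu : ∀ i, u i ∈ E) (h1 : ∀ i, form (u i) (u i) = 1)
    (h0 : ∀ i j, i ≠ j → form (u i) (u j) = 0) (hcard : Fintype.card ι = finrank ℂ E)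
    (p : M) (hp : p ∈ E) : ∑ i, ‖form p (u i)‖ ^ 2 = (form p p).re := by
  classical
  letI iN : NormedAddCommGroup E := formNormed566 form E h
  letI iI : InnerProductSpace ℂ E := formInner566 form E h
  have hinner : ∀ x y : E, inner ℂ x y = form (y : M) (x : M) := fun x y => rfl
  let u' : ι → E := fun i => ⟨u i, hu i⟩
  have hon : Orthonormal ℂ u' := by
    rw [orthonormal_iff_ite]
    intro i j
    rw [hinner]
    split_ifs with hij
    · subst hij
      exact h1 i
    · exact h0 j i (Ne.symm hij)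
  have hsp : ⊤ ≤ Submodule.span ℂ (Set.range u') :=
    (hon.linearIndependent.span_eq_top_of_card_eq_finrank' hcard).ge
  have h2 := (OrthonormalBasis.mk hon hsp).sum_sq_norm_inner_right ⟨p, hp⟩
  simp only [OrthonormalBasis.coe_mk, hinner] at h2
  rw [@norm_sq_eq_re_inner ℂ _ _ _ _ (⟨p, hp⟩ : E), hinner] at h2
  exact h2

/-- The dimension of the span of an orthonormal family. -/
theorem finrank_span_orth566 {Wm : Submodule ℂ M} (h : IsHermOn566 form Wm)
    {ι : Type} [Fintype ι] (u : ι → M) (hu : ∀ i, u i ∈ Wm) (h1 : ∀ i, form (u i) (u i) = 1)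
    (h0 : ∀ i j, i ≠ j → form (u i) (u j) = 0) :
    finrank ℂ (Submodule.span ℂ (Set.range u)) = Fintype.card ι := by
  classical
  have hli : LinearIndependent ℂ u := by
    rw [linearIndependent_iff']
    intro t g hg k hk
    have h2 := h.sum_left t g u (fun i _ => hu i) (hu k)
    rw [hg, h.zero_left (hu k), Finset.sum_eq_single k] at h2
    · rw [h1 k, mul_one] at h2
      exact h2.symm
    · intro i _ hik
      rw [h0 i k hik, mul_zero]
    · intro hk'
      exact absurd hk hk'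
  exact finrank_span_eq_card hli

/-- The projection on the span of an orthonormal family represents the form. -/
theorem proj_form_eq566 {Wm : Submodule ℂ M} (h : IsHermOn566 form Wm)
    {ι : Type} [Fintype ι] (u : ι → M) (hu : ∀ i, u i ∈ Wm) (h1 : ∀ i, form (u i) (u i) = 1)
    (h0 : ∀ i j, i ≠ j → form (u i) (u j) = 0) (χ : M) (hχ : χ ∈ Wm) :
    ∀ y ∈ Submodule.span ℂ (Set.range u), form χ y = form (∑ i, form χ (u i) • u i) y := by
  classical
  have hp : (∑ i, form χ (u i) • u i) ∈ Wm := Wm.sum_mem fun i _ => Wm.smul_mem _ (hu i)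
  have hle : Submodule.span ℂ (Set.range u) ≤ Wm := by
    rw [Submodule.span_le]
    rintro _ ⟨i, rfl⟩
    exact hu i
  intro y hy
  induction hy using Submodule.span_induction with
  | mem y hy =>
    obtain ⟨k, rfl⟩ := hy
    rw [h.sum_left _ _ _ (fun i _ => hu i) (hu k), Finset.sum_eq_single k]
    · rw [h1 k, mul_one]
    · intro i _ hik
      rw [h0 i k hik, mul_zero]
    · intro hk
      exact absurd (Finset.mem_univ k) hk
  | zero => rw [h.zero_right hχ, h.zero_right hp]
  | add y z hy hz ihy ihz =>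
    rw [h.add_right hχ (hle hy) (hle hz), h.add_right hp (hle hy) (hle hz), ihy, ihz]
  | smul a y hy ih =>
    rw [h.smul_right a hχ (hle hy), h.smul_right a hp (hle hy), ih]

/-- **Parseval is independent of the orthonormal basis**: two orthonormal families of the same
cardinality in the span of the first have the same Parseval sums, for every `χ`. -/
theorem parseval_eq566 {Wm : Submodule ℂ M} (h : IsHermOn566 form Wm)
    {ι ι' : Type} [Fintype ι] [Fintype ι'] (u : ι → M) (hu : ∀ i, u i ∈ Wm)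
    (h1 : ∀ i, form (u i) (u i) = 1) (h0 : ∀ i j, i ≠ j → form (u i) (u j) = 0)
    (ε : ι' → M) (hε : ∀ i, ε i ∈ Submodule.span ℂ (Set.range u))
    (h1' : ∀ i, form (ε i) (ε i) = 1) (h0' : ∀ i j, i ≠ j → form (ε i) (ε j) = 0)
    (hcard : Fintype.card ι' = Fintype.card ι) (χ : M) (hχ : χ ∈ Wm) :
    ∑ i, ‖form χ (ε i)‖ ^ 2 = ∑ i, ‖form χ (u i)‖ ^ 2 := by
  have hle : Submodule.span ℂ (Set.range u) ≤ Wm := by
    rw [Submodule.span_le]
    rintro _ ⟨i, rfl⟩
    exact hu i
  have hE := h.mono hle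
  have hfin : FiniteDimensional ℂ (Submodule.span ℂ (Set.range u)) :=
    FiniteDimensional.span_of_finite ℂ (Set.finite_range u)
  have hfr := finrank_span_orth566 form h u hu h1 h0
  have huE : ∀ i, u i ∈ Submodule.span ℂ (Set.range u) := fun i =>
    Submodule.subset_span ⟨i, rfl⟩
  have hpE : (∑ i, form χ (u i) • u i) ∈ Submodule.span ℂ (Set.range u) :=
    Submodule.sum_mem _ fun i _ => Submodule.smul_mem _ _ (huE i)
  have hproj := proj_form_eq566 form h u hu h1 h0 χ hχ
  have e1 : ∑ i, ‖form χ (ε i)‖ ^ 2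
      = (form (∑ i, form χ (u i) • u i) (∑ i, form χ (u i) • u i)).re := by
    rw [← parseval_class566 form _ hE ε hε h1' h0' (hcard.trans hfr.symm) _ hpE]
    refine Finset.sum_congr rfl fun i _ => ?_
    rw [hproj (ε i) (hε i)]
  have e2 : ∑ i, ‖form χ (u i)‖ ^ 2
      = (form (∑ i, form χ (u i) • u i) (∑ i, form χ (u i) • u i)).re := by
    rw [← parseval_class566 form _ hE u huE h1 h0 hfr.symm _ hpE]
    refine Finset.sum_congr rfl fun i _ => ?_
    rw [hproj (u i) (huE i)]
  rw [e1, e2]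

end Class

end Fermat.Agent.LT.T7.H566

end

end
-- ===== PACK-END LT/T7/H566/SchurClass.lean

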