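import Mathlib
import Fermat.Agent.Pack.LT2.E0L1
import Fermat.Agent.Pack.LT3.E1L1
import Fermat.Agent.Pack.LT3.E1L3
import Fermat.Agent.Pack.LT3.E3L1

set_option linter.all false

-- ===== PACK-BEGIN LT/T6/H783/BadSpec.lean
section


/-!
# Row LT, tower T6, leaf T6.18 `BadMatchC` ([L] §6, regular set): SUB-SPEC (helper783)

OFF-MAIN.  Definitions + frozen sub-leaf Props.  The PROVED tops are in `BadTop.lean`:

* `badMatch_of_leaves783 : OrbSumExC → OrbSumUniqC → CoverC783 → CptC783 → CutC783 →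
    FinSuppLvlC783 → LvlC783 → AddC783 → LocRegC783 → LocCenC783 → BadMatchC`
* `locCen_of_cases783 : CenNormC783 → CenOddC783 → CenQuatC783 → LocCenC783`

Mathlib + `T6/Spec.lean` (helper22) only.

## The proof ([L] §6; Arthur–Clozel, Ch. I, Prop. 3.1), in the orbit-sum normalisation

`χ(γ) = (tr γ, det γ)`; the orbit sums at a regular `γ` only depend on `χ(γ)`.  A `χ`-ball is
`{γ : |tr γ - t₀| ≤ exp(-N), |det γ - d₀| ≤ exp(-N)}`.

1. **PATCHING (top).**  (a) `CptC`: `TO_δ(φ) ≠ 0` forces `χ(N δ)` into a bounded region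
   `|t| ≤ exp B`, `exp(-B) ≤ |d| ≤ exp B`.  (b) LOCAL MATCHING: every point `(t₀, d₀)`, `d₀ ≠ 0`,
   has a `χ`-ball on which some `(m, f)` matches `φ` (`LocRegC` at `t₀² ≠ 4 d₀`, `LocCenC` at
   `(2z, z²)`).  (c) `CoverC`: the region is compact, finitely many of these balls cover it.
   (d) cut the local `f`'s off by the (disjointified) `χ`-balls (`CutC`: the cut-off function is
   bi-invariant at a deeper level), bring everything to one level (`LvlC`:
   `O^{(m)} = [U(m₀) : U(m)] · O^{(m₀)}`, `FinSuppLvlC`) and add (`AddC`).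
2. **REGULAR POINT** (`LocRegC`), `γ₀` regular with `χ(γ₀) = (t₀, d₀)`.  All algebra in the
   2-dimensional algebra `k[γ₀]`:
   * `γ` with `χ(γ)` near `χ(γ₀)` is conjugate to `a + b γ₀`, `(a, b)` near `(0, 1)`
     (`b² = disc γ / disc γ₀` is a square near `1`; rational canonical form).
   * for `Ω = U(m) γ₀ U(m)`: `x⁻¹ (a + b γ₀) x ∈ Ω ↔ x⁻¹ γ₀ x ∈ Ω` for `(a, b)` near `(0, 1)`
     (`Ω + ϖ^M M₂(𝒪) = Ω`), the centralisers agree: `O_γ(1_Ω) = O_{γ₀}(1_Ω) ≠ 0` near `γ₀`.
   * if `γ₀ = N δ₀`: `γ γ₀⁻¹ = t^l` with `t = a' + b' γ₀` near `1` (`l`-th root near `1` in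
     `k[γ₀]`), `N(t δ₀) = t^l γ₀ = γ`, and `y ↦ (a' + b' N(y)) y` is a bijection of the
     `s`-conjugacy class of `δ₀` onto that of `t δ₀`, commuting with `s`-conjugation, with the
     same twisted centralisers, which moves the points of a compact set inside their `U'(n)`-cosets:
     `TO_{t δ₀}(φ) = TO_{δ₀}(φ)`.  So `f = (TO_{δ₀}(φ) / O_{γ₀}(1_Ω)) · 1_Ω`.
   * if `γ₀` is not a norm: no `γ` near `γ₀` is (else `γ₀ = N(t⁻¹ δ)`): `f = 0`.
3. **CENTRAL POINT** `(2z, z²)` (`LocCenC`), three cases: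
   * `z = N ζ`, `ζ ∈ k'^×` (`CenNormC`): translate by `ζ` to `z = 1`; TWISTED DESCENT at `1`:
     for `h ∈ GL₂(k)` near `1` (conjugation-invariantly) with `h^l` regular, the twisted
     centraliser of `h` is the centraliser `T_h` of `h` in `GL₂(k)`, so with
     `G' = ⊔_j G y_j U'(n)`: `TO_h(φ) = ∑_j O^{Γ_j}_h(φ_j)`, `φ_j(g) = φ(y_j⁻¹ g s(y_j))`,
     `Γ_j = G ∩ y_j U'(n) y_j⁻¹`; only finitely many `j` occur for `h` in a `χ`-ball around `1`
     (properness: `d(v, h s(v)) ≤ R` forces `v` into a bounded neighbourhood of the tree of `G`),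
     and `f(h^l) = ∑_j [Γ_j : U(m)]⁻¹ φ_j(h)` (`h ↦ h^l` is a bijection between the conjugation
     invariant neighbourhoods of `1`).
   * `z` not a norm, `l` odd (`CenOddC`): no norm near `z` (`det γ ∈ N k'^×`, `N k'^×` is open
     and `z² , z^l ∈ N k'^× ⇒ z ∈ N k'^×`): `f = 0`.
   * `z` not a norm, `l = 2` (`CenQuatC`): `δ₀ = [[0, z], [1, 0]]`, `N δ₀ = z`, the twisted
     centraliser of `δ₀` is `D^×` (quaternion division algebra); descent to `D^×` gives, for `γ`
     elliptic near `z`, `TO_δ(φ) = c · #(T \ D^× / 𝒪_D^×)` (`= 2c` for `k[γ]` unramified, `c` for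
     `k[γ]` ramified) and there is no norm among the split regular `γ` near `z`; on the other
     side the Euler–Poincaré function `1_{zK} - ((q+1)/2) 1_{zI}` (`I` = Iwahori subgroup) has
     orbital integrals `1` (unramified), `1/2` (ramified), `0` (split) at the regular `γ` fixing
     a vertex or an edge of the tree (`#vertices - #edges` of the fixed tree modulo `T`).
-/

set_option autoImplicit false

open scoped Matrix

noncomputable section

namespace Fermat.Agent.LT.T6.H783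

open Fermat.Agent.LT.T6

/-! ## Definitions -/

/-- The hypotheses of `BadMatchC` on the data `(k, k', q, l, e, i, s, n, φ)`. -/
structure BadData783 (k k' : Type) [Field k] [Field k'] [Valued k Γ₀] [Valued k' Γ₀]
    (q l e : ℕ) (i : k →+* k') (s : k' ≃+* k') (n : ℕ) (φ : GL (Fin 2) k' → ℂ) : Prop where
  hk : IsLocalField k q
  hk' : IsLocalField k' (q ^ (l / e))
  ext : IsLocalExt k k' l e i s
  prime : l.Prime
  inv : IsBiInv (InU n) φ
  supp : HasFinSupp (InU n) φ

/-- The `χ`-ball of radius `exp(-N)` around `(t₀, d₀)`: trace and determinant of `γ` are within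
`exp(-N)` of `t₀` and `d₀`. -/
def InChiBall783 {k : Type} [Field k] [Valued k Γ₀] (t₀ d₀ : k) (N : ℤ) (γ : GL (Fin 2) k) :
    Prop :=
  Valued.v ((γ : Matrix (Fin 2) (Fin 2) k).trace - t₀) ≤ WithZero.exp (-N) ∧
    Valued.v ((γ : Matrix (Fin 2) (Fin 2) k).det - d₀) ≤ WithZero.exp (-N)

/-- `(m, f)` MATCHES `φ` on the regular `γ` satisfying `P`: `O_γ(f) = TO_δ(φ)` if `γ = N δ`,
`O_γ(f) = 0` if `γ` is not a norm. -/
def MatchOn783 {k k' : Type} [Field k] [Field k'] [Valued k Γ₀] [Valued k' Γ₀]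
    (l : ℕ) (i : k →+* k') (s : k' ≃+* k') (n : ℕ) (φ : GL (Fin 2) k' → ℂ)
    (m : ℕ) (f : GL (Fin 2) k → ℂ) (P : GL (Fin 2) k → Prop) : Prop :=
  (∀ (δ : GL (Fin 2) k') (γ : GL (Fin 2) k) (c c' : ℂ), IsReg γ → P γ →
      IsConj (twNorm s l δ) (Matrix.GeneralLinearGroup.map i γ) →
      IsTwOrbSum s n φ δ c → IsOrbSum m f γ c' → c = c') ∧
    ∀ (γ : GL (Fin 2) k) (c' : ℂ), IsReg γ → P γ → ¬ IsNormFrom l i s γ →
      IsOrbSum m f γ c' → c' = 0

/-- `(m, f)` is a local solution on the `χ`-ball `(t₀, d₀, N)`. -/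
def IsLocSol783 {k k' : Type} [Field k] [Field k'] [Valued k Γ₀] [Valued k' Γ₀]
    (l : ℕ) (i : k →+* k') (s : k' ≃+* k') (n : ℕ) (φ : GL (Fin 2) k' → ℂ)
    (t₀ d₀ : k) (N : ℤ) (m : ℕ) (f : GL (Fin 2) k → ℂ) : Prop :=
  IsBiInv (InU m) f ∧ HasFinSupp (InU m) f ∧ MatchOn783 l i s n φ m f (InChiBall783 t₀ d₀ N)

/-- A predicate on `(trace, determinant)` which is constant on the balls of radius `exp(-N)`. -/
def IsSmoothPred783 {k : Type} [Field k] [Valued k Γ₀] (N : ℤ) (P : k → k → Prop) : Prop :=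
  ∀ t d t' d' : k, Valued.v (t - t') ≤ WithZero.exp (-N) →
    Valued.v (d - d') ≤ WithZero.exp (-N) → (P t d ↔ P t' d')

open Classical in
/-- The cut-off of `f` by a predicate on `(trace, determinant)`. -/
def cutOff783 {k : Type} [Field k] [Valued k Γ₀] (P : k → k → Prop)
    (f : GL (Fin 2) k → ℂ) : GL (Fin 2) k → ℂ :=
  fun g => if P (g : Matrix (Fin 2) (Fin 2) k).trace (g : Matrix (Fin 2) (Fin 2) k).det
    then f g else 0

/-- `z ∈ k` is a norm from `k'`: `i z = ζ · s ζ ⋯ s^{l-1} ζ`. -/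
def IsFieldNorm783 {k k' : Type} [Field k] [Field k'] (l : ℕ) (i : k →+* k') (s : k' ≃+* k')
    (z : k) : Prop :=
  ∃ ζ : k', i z = ∏ j ∈ Finset.range l, (s ^ j) ζ

/-! ## Sub-leaves of the patching (first level) -/

/-- **T6.18a (compactness).**  The bounded region `|t| ≤ exp B`, `exp(-B) ≤ |d| ≤ exp B` of
`k × k` is covered by finitely many balls `B(p, exp(-N p))`, `p` in the region, for EVERY
radius function `N`. -/
def CoverC783 : Prop :=
  ∀ (k : Type) [Field k] [Valued k Γ₀] (q : ℕ), IsLocalField k q →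
    ∀ (B : ℤ) (N : k → k → ℤ), ∃ J : Finset (k × k),
      (∀ p ∈ J, WithZero.exp (-B) ≤ Valued.v p.2) ∧
      ∀ t d : k, Valued.v t ≤ WithZero.exp B → WithZero.exp (-B) ≤ Valued.v d →
        Valued.v d ≤ WithZero.exp B →
        ∃ p ∈ J, Valued.v (t - p.1) ≤ WithZero.exp (-(N p.1 p.2)) ∧
          Valued.v (d - p.2) ≤ WithZero.exp (-(N p.1 p.2))

/-- **T6.18b (bounded support).**  A non-zero twisted orbit sum at `δ`, `N δ ∼ γ`, forces
`χ(γ)` into a bounded region (`φ` is supported on finitely many cosets `x U'(n)`; the entries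
of `N y`, `y ∈ x U'(n)`, are bounded, `det N y` has the valuation of `det N x`). -/
def CptC783 : Prop :=
  ∀ (k k' : Type) [Field k] [Field k'] [Valued k Γ₀] [Valued k' Γ₀] (q l e : ℕ)
    (i : k →+* k') (s : k' ≃+* k') (n : ℕ) (φ : GL (Fin 2) k' → ℂ),
    BadData783 k k' q l e i s n φ →
    ∃ B : ℤ, ∀ (δ : GL (Fin 2) k') (γ : GL (Fin 2) k) (c : ℂ),
      IsConj (twNorm s l δ) (Matrix.GeneralLinearGroup.map i γ) →
      IsTwOrbSum s n φ δ c → c ≠ 0 →
      Valued.v (γ : Matrix (Fin 2) (Fin 2) k).trace ≤ WithZero.exp B ∧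
        WithZero.exp (-B) ≤ Valued.v (γ : Matrix (Fin 2) (Fin 2) k).det ∧
        Valued.v (γ : Matrix (Fin 2) (Fin 2) k).det ≤ WithZero.exp B

/-- **T6.18c (cut-off).**  The cut-off of a bi-`U(m)`-invariant function of finite support by a
smooth predicate on `(tr, det)` is bi-`U(m')`-invariant for some `m' ≥ m`
(`tr(u g u') - tr g` and `det(u g u') - det g` are small on the support, uniformly). -/
def CutC783 : Prop :=
  ∀ (k : Type) [Field k] [Valued k Γ₀] (q : ℕ), IsLocalField k q →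
    ∀ (m : ℕ) (f : GL (Fin 2) k → ℂ), IsBiInv (InU m) f → HasFinSupp (InU m) f →
    ∀ (N : ℤ) (P : k → k → Prop), IsSmoothPred783 N P →
      ∃ m' : ℕ, m ≤ m' ∧ IsBiInv (InU m') (cutOff783 P f)

/-- **T6.18c' (finite support at a deeper level).**  `U(m)` is a finite union of cosets of
`U(m')`, `m ≤ m'`. -/
def FinSuppLvlC783 : Prop :=
  ∀ (k : Type) [Field k] [Valued k Γ₀] (q : ℕ), IsLocalField k q →
    ∀ (m m' : ℕ) (f : GL (Fin 2) k → ℂ), m ≤ m' → HasFinSupp (InU m) f →
      HasFinSupp (InU m') f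

/-- **T6.18d (level change).**  `O^{(m)}_γ(f) = κ · O^{(m₀)}_γ(f)`, `κ = [U(m₀) : U(m)]`, for
`f` bi-`U(m₀)`-invariant, `m₀ ≤ m`, `γ` regular (the `U(m₀)`-orbit of `y` is the union of
`[U(m₀) : (T_y ∩ U(m₀)) U(m)]` orbits of `U(m)`, and
`[T_y^c : T_y ∩ U(m)] = [T_y^c : T_y ∩ U(m₀)] [T_y ∩ U(m₀) : T_y ∩ U(m)]`). -/
def LvlC783 : Prop :=
  ∀ (k : Type) [Field k] [Valued k Γ₀] (q : ℕ), IsLocalField k q →
    ∀ m₀ m : ℕ, m₀ ≤ m → ∃ κ : ℕ, κ ≠ 0 ∧
      ∀ f : GL (Fin 2) k → ℂ, IsBiInv (InU m₀) f →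
        ∀ (γ : GL (Fin 2) k) (c c' : ℂ), IsReg γ →
          IsOrbSum m₀ f γ c → IsOrbSum m f γ c' → c' = (κ : ℂ) * c

/-- **T6.18e (additivity).**  Orbit sums are additive in the function (common refinement of the
two systems of representatives; `f`, `g` and the index are constant on the `U(m)`-orbits). -/
def AddC783 : Prop :=
  ∀ (k : Type) [Field k] [Valued k Γ₀] (m : ℕ) (f g : GL (Fin 2) k → ℂ),
    IsBiInv (InU m) f → IsBiInv (InU m) g →
    ∀ (γ : GL (Fin 2) k) (c d : ℂ), IsOrbSum m f γ c → IsOrbSum m g γ d →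
      IsOrbSum m (f + g) γ (c + d)

/-! ## Local matching -/

/-- **T6.18f (local matching at a REGULAR point)**, step 2 of the header. -/
def LocRegC783 : Prop :=
  ∀ (k k' : Type) [Field k] [Field k'] [Valued k Γ₀] [Valued k' Γ₀] (q l e : ℕ)
    (i : k →+* k') (s : k' ≃+* k') (n : ℕ) (φ : GL (Fin 2) k' → ℂ),
    BadData783 k k' q l e i s n φ →
    ∀ t₀ d₀ : k, d₀ ≠ 0 → t₀ ^ 2 - 4 * d₀ ≠ 0 →
      ∃ (N : ℤ) (m : ℕ) (f : GL (Fin 2) k → ℂ), IsLocSol783 l i s n φ t₀ d₀ N m f

/-- **Local matching at a CENTRAL point** `(2z, z²)`, step 3 of the header. -/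
def LocCenC783 : Prop :=
  ∀ (k k' : Type) [Field k] [Field k'] [Valued k Γ₀] [Valued k' Γ₀] (q l e : ℕ)
    (i : k →+* k') (s : k' ≃+* k') (n : ℕ) (φ : GL (Fin 2) k' → ℂ),
    BadData783 k k' q l e i s n φ →
    ∀ z : k, z ≠ 0 →
      ∃ (N : ℤ) (m : ℕ) (f : GL (Fin 2) k → ℂ), IsLocSol783 l i s n φ (2 * z) (z ^ 2) N m f

/-- **T6.18g (central point, `z` a norm): twisted descent at the centre.** -/
def CenNormC783 : Prop :=
  ∀ (k k' : Type) [Field k] [Field k'] [Valued k Γ₀] [Valued k' Γ₀] (q l e : ℕ)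
    (i : k →+* k') (s : k' ≃+* k') (n : ℕ) (φ : GL (Fin 2) k' → ℂ),
    BadData783 k k' q l e i s n φ →
    ∀ z : k, z ≠ 0 → IsFieldNorm783 l i s z →
      ∃ (N : ℤ) (m : ℕ) (f : GL (Fin 2) k → ℂ), IsLocSol783 l i s n φ (2 * z) (z ^ 2) N m f

/-- **T6.18h (central point, `z` not a norm, `l` odd): there is no norm near `z`.** -/
def CenOddC783 : Prop :=
  ∀ (k k' : Type) [Field k] [Field k'] [Valued k Γ₀] [Valued k' Γ₀] (q l e : ℕ)
    (i : k →+* k') (s : k' ≃+* k'),
    IsLocalField k q → IsLocalField k' (q ^ (l / e)) → IsLocalExt k k' l e i s → l.Prime →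
    l ≠ 2 → ∀ z : k, z ≠ 0 → ¬ IsFieldNorm783 l i s z →
      ∃ N : ℤ, ∀ γ : GL (Fin 2) k, InChiBall783 (2 * z) (z ^ 2) N γ → ¬ IsNormFrom l i s γ

/-- **T6.18i (central point, `z` not a norm, `l = 2`): the quaternion case.** -/
def CenQuatC783 : Prop :=
  ∀ (k k' : Type) [Field k] [Field k'] [Valued k Γ₀] [Valued k' Γ₀] (q e : ℕ)
    (i : k →+* k') (s : k' ≃+* k') (n : ℕ) (φ : GL (Fin 2) k' → ℂ),
    BadData783 k k' q 2 e i s n φ →
    ∀ z : k, z ≠ 0 → ¬ IsFieldNorm783 2 i s z →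
      ∃ (N : ℤ) (m : ℕ) (f : GL (Fin 2) k → ℂ), IsLocSol783 2 i s n φ (2 * z) (z ^ 2) N m f

end Fermat.Agent.LT.T6.H783

end

end
-- ===== PACK-END LT/T6/H783/BadSpec.lean

-- ===== PACK-BEGIN LT/T6/H220/UnrLim.lean
section



/-!
# Row LT, tower T6: UNRAMIFIED CORE, part 3 (completeness tools) -- helper220, OFF-MAIN

Mathlib + `T6/Spec.lean` only.  `K` is a field with `Valued K Γ₀`, `Γ₀ = ℤᵐ⁰`.

* `le_exp_pred_of_lt220`  : discreteness of `ℤᵐ⁰`;
* `eq_zero_of_forall_le220` : `v a ≤ exp (-(n+1))` for all `n`  ⟹  `a = 0`;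
* `exists_lim220`         : a sequence with `v (W (n+1) - W n) ≤ exp (-(n+1))` converges, with
                            the same estimate for the limit (complete `K` with a uniformiser);
* `approx220`             : successive approximation (dependent choice + limit).
-/

set_option autoImplicit false

open scoped Valued
open Fermat.Agent.LT.T6 WithZero

noncomputable section

namespace Fermat.Agent.LT.T6.H220

theorem le_exp_pred_of_lt220 (x : Γ₀) (n : ℤ) (h : x < exp n) : x ≤ exp (n - 1) := by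
  rcases eq_or_ne x 0 with rfl | hx
  · exact zero_le
  · rw [← exp_log hx] at h ⊢
    rw [exp_lt_exp] at h
    rw [exp_le_exp]
    omega

theorem le_exp_neg_one_of_lt_one220 (x : Γ₀) (h : x < 1) : x ≤ exp (-1 : ℤ) := by
  have := le_exp_pred_of_lt220 x 0 (by simpa using h)
  simpa using this

theorem exp_neg_succ_lt_one220 (n : ℕ) : (exp (-((n : ℤ) + 1)) : Γ₀) < 1 := by
  rw [← exp_zero, exp_lt_exp]; omega

theorem exp_neg_succ_le220 (n m : ℕ) (h : n ≤ m) :
    (exp (-((m : ℤ) + 1)) : Γ₀) ≤ exp (-((n : ℤ) + 1)) := by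
  rw [exp_le_exp]; omega

section Lim

variable {K : Type} [Field K] [Valued K Γ₀]

theorem eq_zero_of_forall_le220 (a : K) (h : ∀ n : ℕ, Valued.v a ≤ exp (-((n : ℤ) + 1))) :
    a = 0 := by
  by_contra ha
  have hv : Valued.v a ≠ 0 := (Valuation.ne_zero_iff _).2 ha
  have h1 := h (- log (Valued.v a)).toNat
  rw [← exp_log hv, exp_le_exp, log_exp] at h1
  omega

theorem val_sub_le_of_steps220 (W : ℕ → K)
    (h : ∀ n, Valued.v (W (n + 1) - W n) ≤ exp (-((n : ℤ) + 1))) (n m : ℕ) (hnm : n ≤ m) :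
    Valued.v (W m - W n) ≤ exp (-((n : ℤ) + 1)) := by
  induction m, hnm using Nat.le_induction with
  | base => simp
  | succ m hm ih =>
    have : W (m + 1) - W n = (W (m + 1) - W m) + (W m - W n) := by ring
    rw [this]
    exact (Valued.v.map_add _ _).trans (max_le ((h m).trans (exp_neg_succ_le220 n m hm)) ih)

theorem cauchySeq_of_steps220 (W : ℕ → K)
    (h : ∀ n, Valued.v (W (n + 1) - W n) ≤ exp (-((n : ℤ) + 1))) : CauchySeq W := by
  rw [(Valued.hasBasis_uniformity K Γ₀).cauchySeq_iff]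
  intro γ _
  set g : Γ₀ := MonoidWithZeroHom.ValueGroup₀.embedding
    (γ : (MonoidWithZeroHom.ofClass (Valued.v : Valuation K Γ₀)).ValueGroup₀) with hg
  have hγ : g ≠ 0 := by
    intro h0
    have : (γ : (MonoidWithZeroHom.ofClass (Valued.v : Valuation K Γ₀)).ValueGroup₀) = 0 := by
      apply MonoidWithZeroHom.ValueGroup₀.embedding_injective
      rw [← hg, h0, map_zero]
    exact γ.ne_zero this
  refine ⟨(- log g).toNat, fun m hm n hn => ?_⟩
  change Valued.v.restrict (W n - W m) < _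
  rw [Valuation.restrict_lt_iff_lt_embedding, ← hg]
  have key : ∀ a b : ℕ, (- log g).toNat ≤ a → a ≤ b → Valued.v (W b - W a) < g := by
    intro a b ha hab
    refine (val_sub_le_of_steps220 W h a b hab).trans_lt ?_
    rw [← exp_log hγ, exp_lt_exp]
    omega
  rcases le_total m n with hmn | hnm
  · exact key m n hm hmn
  · rw [Valuation.map_sub_swap]
    exact key n m hn hnm

/-- **Limits.**  In a complete valued field with a uniformiser, a sequence with
`v (W (n+1) - W n) ≤ exp (-(n+1))` has a limit `L` with `v (L - W n) ≤ exp (-(n+1))`. -/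
theorem exists_lim220 [CompleteSpace K] (hunif : ∃ ϖ : K, Valued.v ϖ = exp (-1 : ℤ))
    (W : ℕ → K) (h : ∀ n, Valued.v (W (n + 1) - W n) ≤ exp (-((n : ℤ) + 1))) :
    ∃ L : K, ∀ n, Valued.v (L - W n) ≤ exp (-((n : ℤ) + 1)) := by
  obtain ⟨L, hL⟩ := cauchySeq_tendsto_of_complete (cauchySeq_of_steps220 W h)
  obtain ⟨ϖ, hϖ⟩ := hunif
  refine ⟨L, fun n => ?_⟩
  have hne : Valued.v.restrict (ϖ ^ (n + 1)) ≠ 0 := by
    rw [Ne, Valuation.restrict_eq_zero_iff, map_pow, hϖ]
    exact pow_ne_zero _ exp_ne_zero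
  have hmem : {y : K | Valued.v.restrict (y - L) < (Units.mk0 _ hne : _ˣ).1} ∈ nhds L :=
    Valued.mem_nhds.2 ⟨Units.mk0 _ hne, subset_rfl⟩
  obtain ⟨m, hm, hmn⟩ := ((hL.eventually hmem).and (Filter.eventually_ge_atTop n)).exists
  simp only [Units.val_mk0] at hm
  replace hm : Valued.v.restrict (W m - L) < Valued.v.restrict (ϖ ^ (n + 1)) := hm
  rw [Valuation.restrict_lt_iff] at hm
  have h1 : Valued.v (W m - L) ≤ exp (-((n : ℤ) + 1)) := by
    refine hm.le.trans ?_
    rw [map_pow, hϖ, ← exp_nsmul]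
    rw [exp_le_exp]
    simp
  have : L - W n = (W m - W n) - (W m - L) := by ring
  rw [this]
  exact (Valued.v.map_sub _ _).trans (max_le (val_sub_le_of_steps220 W h n m hmn) h1)

/-- **Successive approximation.**  If every `n`-th approximation `w` (`P n w`) can be improved
to an `(n+1)`-st approximation `w'` with `v (w' - w) ≤ exp (-(n+1))`, then there is a limit `L`
which is within `exp (-(n+1))` of an `n`-th approximation for every `n`. -/
theorem approx220 [CompleteSpace K] (hunif : ∃ ϖ : K, Valued.v ϖ = exp (-1 : ℤ))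
    (P : ℕ → K → Prop)
    (step : ∀ n w, P n w → ∃ w', P (n + 1) w' ∧ Valued.v (w' - w) ≤ exp (-((n : ℤ) + 1)))
    (w₀ : K) (h₀ : P 0 w₀) :
    ∃ L : K, Valued.v (L - w₀) ≤ exp (-1 : ℤ) ∧
      ∀ n, ∃ w, P n w ∧ Valued.v (L - w) ≤ exp (-((n : ℤ) + 1)) := by
  let seq : (n : ℕ) → {w : K // P n w} := fun n =>
    Nat.rec (motive := fun n => {w : K // P n w}) ⟨w₀, h₀⟩
      (fun n a => ⟨Classical.choose (step n a.1 a.2), (Classical.choose_spec (step n a.1 a.2)).1⟩)
      n
  have hstep : ∀ n, Valued.v ((seq (n + 1)).1 - (seq n).1) ≤ exp (-((n : ℤ) + 1)) := fun n =>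
    (Classical.choose_spec (step n (seq n).1 (seq n).2)).2
  obtain ⟨L, hL⟩ := exists_lim220 hunif (fun n => (seq n).1) hstep
  refine ⟨L, ?_, fun n => ⟨(seq n).1, (seq n).2, hL n⟩⟩
  have h1 := hL 0
  have h2 : (seq 0).1 = w₀ := rfl
  rw [h2] at h1
  simpa using h1

end Lim

end Fermat.Agent.LT.T6.H220

end

end
-- ===== PACK-END LT/T6/H220/UnrLim.lean

-- ===== PACK-BEGIN LT/T6/H420/ValTop.lean
section



/-!
# Row LT, tower T6, leaf T6.08 (helper420): topology of an abstract local field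

`k` a field with `Valued k ℤᵐ⁰` satisfying `IsLocalField k q` (T6 Spec): the closed unit ball is
compact, `k` is locally compact and sigma-compact, valuation-preserving ring automorphisms are
continuous.  Mathlib + T6 Spec only.
-/

set_option autoImplicit false

noncomputable section

namespace Fermat.Agent.LT.T6.H420

open Topology Filter Set

section ValTop

variable {k : Type} [Field k] [Valued k Γ₀]

/-- In `ℤᵐ⁰`, `x < exp a` iff `x ≤ exp (a - 1)`. -/
theorem lt_exp_iff_le (x : Γ₀) (a : ℤ) : x < WithZero.exp a ↔ x ≤ WithZero.exp (a - 1) := by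
  rcases eq_or_ne x 0 with rfl | hx
  · simp
  · obtain ⟨b, rfl⟩ : ∃ b : ℤ, x = WithZero.exp b := ⟨_, (WithZero.exp_log hx).symm⟩
    rw [WithZero.exp_lt_exp, WithZero.exp_le_exp]
    omega

/-- Every nonzero element of `ℤᵐ⁰` dominates some `exp (-m)`, `m : ℕ`. -/
theorem exists_exp_neg_lt (g : Γ₀) (hg : g ≠ 0) : ∃ m : ℕ, WithZero.exp (-(m : ℤ)) < g := by
  obtain ⟨b, rfl⟩ : ∃ b : ℤ, g = WithZero.exp b := ⟨_, (WithZero.exp_log hg).symm⟩
  refine ⟨(1 - b).toNat, ?_⟩
  rw [WithZero.exp_lt_exp]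
  omega

theorem val_pow_unif {ϖ : k} (hϖ : Valued.v ϖ = WithZero.exp (-1 : ℤ)) (m : ℕ) :
    Valued.v (ϖ ^ m) = WithZero.exp (-(m : ℤ)) := by
  rw [map_pow, hϖ, ← WithZero.exp_nsmul]
  simp

/-- Neighbourhoods in terms of the closed balls of radius `exp (-m)`. -/
theorem mem_nhds_iff_exp {ϖ : k} (hϖ : Valued.v ϖ = WithZero.exp (-1 : ℤ)) {s : Set k} {x : k} :
    s ∈ 𝓝 x ↔ ∃ m : ℕ, {y | Valued.v (y - x) ≤ WithZero.exp (-(m : ℤ))} ⊆ s := by
  rw [Valued.mem_nhds]
  constructor
  · rintro ⟨γ, hγ⟩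
    obtain ⟨m, hm⟩ := exists_exp_neg_lt (MonoidWithZeroHom.ValueGroup₀.embedding γ.1)
      ((map_ne_zero _).2 γ.ne_zero)
    refine ⟨m, fun y hy => hγ ?_⟩
    show Valued.v.restrict (y - x) < γ.1
    rw [Valuation.restrict_lt_iff_lt_embedding]
    exact lt_of_le_of_lt hy hm
  · rintro ⟨m, hm⟩
    have h0 : (Valued.v : Valuation k Γ₀).restrict (ϖ ^ m) ≠ 0 := by
      rw [Ne, Valuation.restrict_eq_zero_iff, val_pow_unif hϖ]
      exact WithZero.exp_ne_zero
    refine ⟨Units.mk0 _ h0, fun y hy => hm ?_⟩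
    have h1 : (Valued.v : Valuation k Γ₀).restrict (y - x)
        < (Valued.v : Valuation k Γ₀).restrict (ϖ ^ m) := hy
    rw [Valuation.restrict_lt_iff, val_pow_unif hϖ] at h1
    exact h1.le

/-- Closed balls are open. -/
theorem isOpen_cball {ϖ : k} (hϖ : Valued.v ϖ = WithZero.exp (-1 : ℤ)) (c : k) (m : ℕ) :
    IsOpen {y : k | Valued.v (y - c) ≤ WithZero.exp (-(m : ℤ))} := by
  rw [isOpen_iff_mem_nhds]
  intro x hx
  rw [mem_nhds_iff_exp hϖ]
  refine ⟨m, fun y hy => ?_⟩
  have : y - c = (y - x) + (x - c) := by ring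
  show Valued.v (y - c) ≤ _
  rw [this]
  exact (Valued.v.map_add _ _).trans (max_le hy hx)

/-- Closed balls are closed. -/
theorem isClosed_cball {ϖ : k} (hϖ : Valued.v ϖ = WithZero.exp (-1 : ℤ)) (c : k) (m : ℕ) :
    IsClosed {y : k | Valued.v (y - c) ≤ WithZero.exp (-(m : ℤ))} := by
  rw [← isOpen_compl_iff, isOpen_iff_mem_nhds]
  intro x hx
  rw [mem_nhds_iff_exp hϖ]
  refine ⟨m, fun y hy hyc => hx ?_⟩
  have : x - c = (y - c) - (y - x) := by ring
  show Valued.v (x - c) ≤ _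
  rw [this]
  exact (Valued.v.map_sub _ _).trans (max_le hyc hy)

/-- Finite `exp (-m)`-nets of the unit ball. -/
theorem exists_finite_approx {q : ℕ} (h : IsLocalField k q) (m : ℕ) :
    ∃ A : Finset k, ∀ z : k, Valued.v z ≤ 1 →
      ∃ a ∈ A, Valued.v (z - a) ≤ WithZero.exp (-(m : ℤ)) := by
  obtain ⟨ϖ, hϖ⟩ := h.unif
  obtain ⟨T, -, -, -, hT⟩ := h.residue
  induction m with
  | zero => exact ⟨{0}, fun z hz => ⟨0, by simp, by simpa using hz⟩⟩
  | succ m ih =>
    obtain ⟨A, hA⟩ := ih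
    classical
    refine ⟨(A ×ˢ T).image (fun p => p.1 + ϖ ^ m * p.2), fun z hz => ?_⟩
    obtain ⟨a, ha, hza⟩ := hA z hz
    have hϖm : Valued.v (ϖ ^ m) = WithZero.exp (-(m : ℤ)) := val_pow_unif hϖ m
    have hϖ0 : ϖ ^ m ≠ 0 := by
      intro h0
      rw [h0, map_zero] at hϖm
      exact WithZero.exp_ne_zero hϖm.symm
    have hw1 : Valued.v ((z - a) / ϖ ^ m) ≤ 1 := by
      rw [map_div₀, hϖm]
      exact div_le_one_of_le₀ hza zero_le
    obtain ⟨t, ht, hwt⟩ := hT _ hw1
    refine ⟨a + ϖ ^ m * t, Finset.mem_image.2 ⟨(a, t), Finset.mem_product.2 ⟨ha, ht⟩, rfl⟩, ?_⟩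
    have hz : z - (a + ϖ ^ m * t) = ϖ ^ m * ((z - a) / ϖ ^ m - t) := by
      field_simp
      ring
    rw [hz, map_mul, hϖm]
    have hwt' : Valued.v ((z - a) / ϖ ^ m - t) ≤ WithZero.exp (-1 : ℤ) := by
      have := (lt_exp_iff_le (Valued.v ((z - a) / ϖ ^ m - t)) 0).1 (by simpa using hwt)
      simpa using this
    calc WithZero.exp (-(m : ℤ)) * Valued.v ((z - a) / ϖ ^ m - t)
        ≤ WithZero.exp (-(m : ℤ)) * WithZero.exp (-1 : ℤ) := by gcongr
      _ = WithZero.exp (-((m + 1 : ℕ) : ℤ)) := by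
          rw [← WithZero.exp_add]
          congr 1
          push_cast
          ring

/-- The closed unit ball of a local field is compact. -/
theorem isCompact_unitBall {q : ℕ} (h : IsLocalField k q) :
    IsCompact {x : k | Valued.v x ≤ 1} := by
  have hc : CompleteSpace k := h.complete
  obtain ⟨ϖ, hϖ⟩ := h.unif
  rw [isCompact_iff_totallyBounded_isComplete]
  refine ⟨?_, IsClosed.isComplete ?_⟩
  · rw [(Valued.hasBasis_uniformity k Γ₀).totallyBounded_iff]
    intro γ _
    obtain ⟨m, hm⟩ := exists_exp_neg_lt (MonoidWithZeroHom.ValueGroup₀.embedding γ.1)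
      ((map_ne_zero _).2 γ.ne_zero)
    obtain ⟨A, hA⟩ := exists_finite_approx h m
    refine ⟨A, A.finite_toSet, fun z hz => ?_⟩
    obtain ⟨a, ha, hza⟩ := hA z hz
    simp only [mem_iUnion]
    refine ⟨a, ha, ?_⟩
    show Valued.v.restrict (a - z) < γ.1
    rw [Valuation.restrict_lt_iff_lt_embedding, Valuation.map_sub_swap]
    exact lt_of_le_of_lt hza hm
  · have := isClosed_cball hϖ (0 : k) 0
    simpa using this

/-- A local field is locally compact. -/
theorem locallyCompactSpace_of_isLocalField {q : ℕ} (h : IsLocalField k q) :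
    LocallyCompactSpace k := by
  obtain ⟨ϖ, hϖ⟩ := h.unif
  refine IsCompact.locallyCompactSpace_of_mem_nhds_of_addGroup (isCompact_unitBall h)
    (x := 0) ?_
  have h0 : (0 : k) ∈ {y : k | Valued.v (y - 0) ≤ WithZero.exp (-((0 : ℕ) : ℤ))} := by
    simp
  have := (isOpen_cball hϖ (0 : k) 0).mem_nhds h0
  simpa using this

/-- A local field is sigma-compact. -/
theorem sigmaCompactSpace_of_isLocalField {q : ℕ} (h : IsLocalField k q) :
    SigmaCompactSpace k := by
  obtain ⟨ϖ, hϖ⟩ := h.unif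
  have hϖ0 : ϖ ≠ 0 := by
    intro h0
    rw [h0, map_zero] at hϖ
    exact WithZero.exp_ne_zero hϖ.symm
  refine SigmaCompactSpace.of_countable (Set.range fun m : ℕ =>
    (fun x : k => x / ϖ ^ m) '' {x : k | Valued.v x ≤ 1}) (Set.countable_range _) ?_ ?_
  · rintro _ ⟨m, rfl⟩
    exact (isCompact_unitBall h).image (by fun_prop)
  · rw [Set.sUnion_range, Set.eq_univ_iff_forall]
    intro x
    rcases eq_or_ne x 0 with rfl | hx
    · exact Set.mem_iUnion.2 ⟨0, 0, by simp, by simp⟩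
    · have hvx : Valued.v x ≠ 0 := (Valuation.ne_zero_iff _).2 hx
      obtain ⟨b, hb⟩ : ∃ b : ℤ, Valued.v x = WithZero.exp b :=
        ⟨_, (WithZero.exp_log hvx).symm⟩
      refine Set.mem_iUnion.2 ⟨b.toNat, x * ϖ ^ b.toNat, ?_, ?_⟩
      · show Valued.v (x * ϖ ^ b.toNat) ≤ 1
        rw [map_mul, val_pow_unif hϖ, hb, ← WithZero.exp_add, ← WithZero.exp_zero,
          WithZero.exp_le_exp]
        omega
      · field_simp

/-- A valuation-preserving ring automorphism is continuous. -/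
theorem continuous_of_val_eq {q : ℕ} (h : IsLocalField k q) (s : k ≃+* k)
    (hs : ∀ y : k, Valued.v (s y) = Valued.v y) : Continuous s := by
  obtain ⟨ϖ, hϖ⟩ := h.unif
  rw [continuous_iff_continuousAt]
  intro x
  rw [ContinuousAt, Filter.tendsto_def]
  intro t ht
  rw [mem_nhds_iff_exp hϖ] at ht ⊢
  obtain ⟨m, hm⟩ := ht
  refine ⟨m, fun y hy => hm ?_⟩
  show Valued.v (s y - s x) ≤ _
  rw [← map_sub, hs]
  exact hy

end ValTop

end Fermat.Agent.LT.T6.H420

end
end
-- ===== PACK-END LT/T6/H420/ValTop.lean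

-- ===== PACK-BEGIN LT/T6/H166/TwCent.lean
section



/-!
# Row LT, tower T6, leaf T6.06 `TwCentC` (helper166) -- OFF-MAIN

`twCentC166 : Fermat.Agent.LT.T6.TwCentC`, VERBATIM against `LT/T6/Spec.lean`
(origin/helper22@823e765ba, sha256 89f8f8b81940fd80), unconditional, Mathlib only.

Statement ([L] par. 4): `K'/K` cyclic of degree `l` with generator `s`, `δ ∈ GL₂(K')` with
`N δ = δ s(δ) ⋯ s^{l-1}(δ) = γ ∈ GL₂(K)` regular.  Then
`{x ∈ GL₂(K') : x⁻¹ δ s(x) = δ}` is the image of the centraliser of `γ` in `GL₂(K)`.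

Proof.
* `comm_of_comm166`: the centraliser of a non-scalar `2 × 2` matrix over a field is commutative
  (the vectors `(x₀₁, x₁₀, x₀₀ - x₁₁)` of the elements of the centraliser are all proportional to
  the one of `γ`).
* `twN_succ_right166`: `N_{n+1} δ = N_n δ · sⁿ(δ)`; with `s^l = 1`, `s(γ) = γ`:
  `δ γ = δ s(N_l δ) = N_{l+1} δ = N_l δ · s^l(δ) = γ δ`.
* `twN_semiconj166`: `x δ = δ s(x)` implies `x N_n δ = N_n δ sⁿ(x)`, so `x γ = γ x`.
* Hence `x` and `δ` commute, `δ s(x) = x δ = δ x`, `s(x) = x`, the entries of `x` lie in `K`.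
* Conversely `t ∈ GL₂(K)` with `t γ = γ t` commutes with `δ` and `s(t) = t`.

Only `fix_i`, `fixed` and `order` of `IsCyclicData` are used.
-/

set_option autoImplicit false

open scoped Matrix

namespace Fermat.Agent.LT.T6.H166

open Fermat.Agent.LT.T6

/-! ## 1. The centraliser of a non-scalar `2 × 2` matrix is commutative -/

section Centraliser

variable {F : Type} [Field F]

/-- A `2 × 2` matrix with non-zero discriminant is not scalar. -/
theorem nonscalar_of_disc166 (M : Matrix (Fin 2) (Fin 2) F)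
    (h : M.trace ^ 2 - 4 * M.det ≠ 0) :
    M 0 1 ≠ 0 ∨ M 1 0 ≠ 0 ∨ M 0 0 - M 1 1 ≠ 0 := by
  by_contra hcon
  rw [not_or, not_or] at hcon
  obtain ⟨h1, h2, h3⟩ := hcon
  apply h
  rw [Matrix.trace_fin_two, Matrix.det_fin_two, not_not.mp h1, not_not.mp h2]
  have h4 : M 0 0 = M 1 1 := sub_eq_zero.mp (not_not.mp h3)
  rw [h4]
  ring

/-- The three relations expressing that `X` commutes with `M`. -/
theorem comm_relations166 (X M : Matrix (Fin 2) (Fin 2) F) (h : X * M = M * X) :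
    X 0 1 * M 1 0 = M 0 1 * X 1 0 ∧
    M 0 1 * (X 0 0 - X 1 1) = X 0 1 * (M 0 0 - M 1 1) ∧
    X 1 0 * (M 0 0 - M 1 1) = M 1 0 * (X 0 0 - X 1 1) := by
  have h00 := congrFun (congrFun h 0) 0
  have h01 := congrFun (congrFun h 0) 1
  have h10 := congrFun (congrFun h 1) 0
  simp only [Matrix.mul_apply, Fin.sum_univ_two] at h00 h01 h10
  refine ⟨?_, ?_, ?_⟩
  · linear_combination h00
  · linear_combination h01
  · linear_combination h10

/-- Two matrices commuting with a non-scalar `2 × 2` matrix commute. -/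
theorem comm_of_comm166 (M X Y : Matrix (Fin 2) (Fin 2) F)
    (hM : M 0 1 ≠ 0 ∨ M 1 0 ≠ 0 ∨ M 0 0 - M 1 1 ≠ 0)
    (hX : X * M = M * X) (hY : Y * M = M * Y) : X * Y = Y * X := by
  obtain ⟨hX1, hX2, hX3⟩ := comm_relations166 X M hX
  obtain ⟨hY1, hY2, hY3⟩ := comm_relations166 Y M hY
  -- the three minors of `(X₀₁, X₁₀, X₀₀ - X₁₁)` and `(Y₀₁, Y₁₀, Y₀₀ - Y₁₁)` vanish
  have key : X 0 1 * Y 1 0 = Y 0 1 * X 1 0 ∧
      Y 0 1 * (X 0 0 - X 1 1) = X 0 1 * (Y 0 0 - Y 1 1) ∧
      X 1 0 * (Y 0 0 - Y 1 1) = Y 1 0 * (X 0 0 - X 1 1) := by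
    rcases hM with hq | hr | hd
    · have G1 : X 0 1 * Y 1 0 = Y 0 1 * X 1 0 := by
        apply mul_left_cancel₀ hq
        linear_combination (-(X 0 1)) * hY1 + Y 0 1 * hX1
      have G2 : Y 0 1 * (X 0 0 - X 1 1) = X 0 1 * (Y 0 0 - Y 1 1) := by
        apply mul_left_cancel₀ hq
        linear_combination Y 0 1 * hX2 - X 0 1 * hY2
      have G3 : X 1 0 * (Y 0 0 - Y 1 1) = Y 1 0 * (X 0 0 - X 1 1) := by
        apply mul_left_cancel₀ hq
        linear_combination (-(Y 0 0 - Y 1 1)) * hX1 + (X 0 0 - X 1 1) * hY1 - M 1 0 * G2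
      exact ⟨G1, G2, G3⟩
    · have G1 : X 0 1 * Y 1 0 = Y 0 1 * X 1 0 := by
        apply mul_left_cancel₀ hr
        linear_combination Y 1 0 * hX1 - X 1 0 * hY1
      have G3 : X 1 0 * (Y 0 0 - Y 1 1) = Y 1 0 * (X 0 0 - X 1 1) := by
        apply mul_left_cancel₀ hr
        linear_combination Y 1 0 * hX3 - X 1 0 * hY3
      have G2 : Y 0 1 * (X 0 0 - X 1 1) = X 0 1 * (Y 0 0 - Y 1 1) := by
        apply mul_left_cancel₀ hr
        linear_combination (X 0 0 - X 1 1) * hY1 - (Y 0 0 - Y 1 1) * hX1 - M 0 1 * G3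
      exact ⟨G1, G2, G3⟩
    · have G2 : Y 0 1 * (X 0 0 - X 1 1) = X 0 1 * (Y 0 0 - Y 1 1) := by
        apply mul_left_cancel₀ hd
        linear_combination (Y 0 0 - Y 1 1) * hX2 - (X 0 0 - X 1 1) * hY2
      have G3 : X 1 0 * (Y 0 0 - Y 1 1) = Y 1 0 * (X 0 0 - X 1 1) := by
        apply mul_left_cancel₀ hd
        linear_combination (Y 0 0 - Y 1 1) * hX3 - (X 0 0 - X 1 1) * hY3
      have G1 : X 0 1 * Y 1 0 = Y 0 1 * X 1 0 := by
        apply mul_left_cancel₀ hd
        linear_combination X 0 1 * hY3 - Y 0 1 * hX3 - M 1 0 * G2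
      exact ⟨G1, G2, G3⟩
  obtain ⟨G1, G2, G3⟩ := key
  ext a b
  fin_cases a <;> fin_cases b <;>
    simp only [Matrix.mul_apply, Fin.sum_univ_two, Fin.zero_eta, Fin.mk_one, Fin.isValue]
  · linear_combination G1
  · linear_combination G2
  · linear_combination G3
  · linear_combination (-1 : F) * G1

end Centraliser

/-! ## 2. The twisted norm in a group -/

section TwistedNorm

variable {Γ : Type} [Group Γ]

theorem twN_zero166 (s : Γ →* Γ) (δ : Γ) : twN s 0 δ = 1 := rfl

theorem twN_succ166 (s : Γ →* Γ) (n : ℕ) (δ : Γ) :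
    twN s (n + 1) δ = δ * s (twN s n δ) := rfl

/-- `N_{n+1} δ = N_n δ · sⁿ(δ)`. -/
theorem twN_succ_right166 (s : Γ →* Γ) (n : ℕ) (δ : Γ) :
    twN s (n + 1) δ = twN s n δ * (s^[n]) δ := by
  induction n with
  | zero => simp [twN_succ166, twN_zero166]
  | succ n ih =>
    calc twN s (n + 1 + 1) δ = δ * s (twN s (n + 1) δ) := rfl
      _ = δ * s (twN s n δ * (s^[n]) δ) := by rw [ih]
      _ = (δ * s (twN s n δ)) * s ((s^[n]) δ) := by rw [map_mul, mul_assoc]
      _ = twN s (n + 1) δ * (s^[n + 1]) δ := by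
        rw [Function.iterate_succ_apply']
        rfl

/-- `x δ = δ s(x)` implies `x · N_n δ = N_n δ · sⁿ(x)`. -/
theorem twN_semiconj166 (s : Γ →* Γ) (δ x : Γ) (h : x * δ = δ * s x) (n : ℕ) :
    x * twN s n δ = twN s n δ * (s^[n]) x := by
  induction n with
  | zero => simp [twN_zero166]
  | succ n ih =>
    calc x * twN s (n + 1) δ = x * (δ * s (twN s n δ)) := rfl
      _ = (x * δ) * s (twN s n δ) := by rw [mul_assoc]
      _ = (δ * s x) * s (twN s n δ) := by rw [h]
      _ = δ * s (x * twN s n δ) := by rw [map_mul, mul_assoc]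
      _ = δ * s (twN s n δ * (s^[n]) x) := by rw [ih]
      _ = (δ * s (twN s n δ)) * s ((s^[n]) x) := by rw [map_mul, mul_assoc]
      _ = twN s (n + 1) δ * (s^[n + 1]) x := by
        rw [Function.iterate_succ_apply']
        rfl

end TwistedNorm

/-! ## 3. The automorphism on `GL₂` -/

section GLAut

variable {R : Type} [CommRing R]

theorem glAut_apply166 (s : R ≃+* R) (g : GL (Fin 2) R) (a b : Fin 2) :
    (glAut s g : Matrix (Fin 2) (Fin 2) R) a b = s ((g : Matrix (Fin 2) (Fin 2) R) a b) := rfl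

theorem glAut_iterate_apply166 (s : R ≃+* R) (n : ℕ) (g : GL (Fin 2) R) (a b : Fin 2) :
    (((glAut s)^[n]) g : Matrix (Fin 2) (Fin 2) R) a b
      = (s ^ n) ((g : Matrix (Fin 2) (Fin 2) R) a b) := by
  induction n with
  | zero => simp
  | succ n ih =>
    rw [Function.iterate_succ_apply', glAut_apply166, ih, pow_succ']
    rfl

theorem glAut_iterate_eq166 (s : R ≃+* R) (l : ℕ) (h : ∀ y : R, (s ^ l) y = y)
    (g : GL (Fin 2) R) : ((glAut s)^[l]) g = g := by
  apply Matrix.GeneralLinearGroup.ext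
  intro a b
  rw [glAut_iterate_apply166, h]

end GLAut

/-! ## 4. The leaf -/

section Leaf

variable {K K' : Type} [Field K] [Field K']

/-- The image of `GL₂(K)` is fixed by `s`. -/
theorem glAut_map166 (i : K →+* K') (s : K' ≃+* K') (hfix : ∀ x : K, s (i x) = i x)
    (t : GL (Fin 2) K) :
    glAut s (Matrix.GeneralLinearGroup.map i t) = Matrix.GeneralLinearGroup.map i t := by
  apply Matrix.GeneralLinearGroup.ext
  intro a b
  rw [glAut_apply166, Matrix.GeneralLinearGroup.map_apply, hfix]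

/-- `GL₂(K) → GL₂(K')` is injective. -/
theorem map_injective166 (i : K →+* K') :
    Function.Injective (Matrix.GeneralLinearGroup.map (n := Fin 2) i) := by
  intro g h hgh
  apply Matrix.GeneralLinearGroup.ext
  intro a b
  have h1 := congrArg (fun z : GL (Fin 2) K' => (z : Matrix (Fin 2) (Fin 2) K') a b) hgh
  simp only [Matrix.GeneralLinearGroup.map_apply] at h1
  exact i.injective h1

/-- An element of `GL₂(K')` fixed by `s` comes from `GL₂(K)`. -/
theorem exists_map_eq166 (i : K →+* K') (s : K' ≃+* K')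
    (hfixed : ∀ y : K', s y = y → ∃ x : K, i x = y)
    (x : GL (Fin 2) K') (hx : glAut s x = x) :
    ∃ t : GL (Fin 2) K, x = Matrix.GeneralLinearGroup.map i t := by
  have hent : ∀ a b : Fin 2, ∃ y : K, i y = (x : Matrix (Fin 2) (Fin 2) K') a b := by
    intro a b
    apply hfixed
    have h1 := congrArg (fun z : GL (Fin 2) K' => (z : Matrix (Fin 2) (Fin 2) K') a b) hx
    simpa only [glAut_apply166] using h1
  choose T hT using hent
  have hmap : (Matrix.of T).map i = (x : Matrix (Fin 2) (Fin 2) K') := by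
    ext a b
    simp [hT]
  have hdet : (Matrix.of T).det ≠ 0 := by
    intro h0
    have h1 : i ((Matrix.of T).det) = (x : Matrix (Fin 2) (Fin 2) K').det := by
      rw [RingHom.map_det, RingHom.mapMatrix_apply, hmap]
    rw [h0, map_zero] at h1
    have h2 : IsUnit (x : Matrix (Fin 2) (Fin 2) K').det :=
      (Matrix.isUnit_iff_isUnit_det _).mp x.isUnit
    exact h2.ne_zero h1.symm
  refine ⟨Matrix.GeneralLinearGroup.mkOfDetNeZero (Matrix.of T) hdet, ?_⟩
  apply Matrix.GeneralLinearGroup.ext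
  intro a b
  rw [Matrix.GeneralLinearGroup.map_apply]
  simp [hT]

/-- Regularity passes to `K'`: the image of a regular element is not scalar. -/
theorem nonscalar_map166 (i : K →+* K') (γ : GL (Fin 2) K) (hreg : IsReg γ) :
    (Matrix.GeneralLinearGroup.map i γ : Matrix (Fin 2) (Fin 2) K') 0 1 ≠ 0 ∨
    (Matrix.GeneralLinearGroup.map i γ : Matrix (Fin 2) (Fin 2) K') 1 0 ≠ 0 ∨
    (Matrix.GeneralLinearGroup.map i γ : Matrix (Fin 2) (Fin 2) K') 0 0
      - (Matrix.GeneralLinearGroup.map i γ : Matrix (Fin 2) (Fin 2) K') 1 1 ≠ 0 := by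
  have h0 : (γ : Matrix (Fin 2) (Fin 2) K).trace ^ 2
      - 4 * (γ : Matrix (Fin 2) (Fin 2) K).det ≠ 0 := hreg.ne_zero
  rcases nonscalar_of_disc166 _ h0 with h | h | h
  · left
    rw [Matrix.GeneralLinearGroup.map_apply]
    exact fun h' => h (i.injective (by rw [h', map_zero]))
  · right; left
    rw [Matrix.GeneralLinearGroup.map_apply]
    exact fun h' => h (i.injective (by rw [h', map_zero]))
  · right; right
    rw [Matrix.GeneralLinearGroup.map_apply, Matrix.GeneralLinearGroup.map_apply, ← map_sub]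
    exact fun h' => h (i.injective (by rw [h', map_zero]))

/-- Commutation in `GL₂` from commutation with a non-scalar element. -/
theorem gl_comm_of_comm166 (g x y : GL (Fin 2) K')
    (hg : (g : Matrix (Fin 2) (Fin 2) K') 0 1 ≠ 0 ∨ (g : Matrix (Fin 2) (Fin 2) K') 1 0 ≠ 0 ∨
      (g : Matrix (Fin 2) (Fin 2) K') 0 0 - (g : Matrix (Fin 2) (Fin 2) K') 1 1 ≠ 0)
    (hx : x * g = g * x) (hy : y * g = g * y) : x * y = y * x := by
  apply Units.ext
  have hx' : (x : Matrix (Fin 2) (Fin 2) K') * g = g * x := by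
    have := congrArg (fun z : GL (Fin 2) K' => (z : Matrix (Fin 2) (Fin 2) K')) hx
    simpa using this
  have hy' : (y : Matrix (Fin 2) (Fin 2) K') * g = g * y := by
    have := congrArg (fun z : GL (Fin 2) K' => (z : Matrix (Fin 2) (Fin 2) K')) hy
    simpa using this
  simpa using comm_of_comm166 (g : Matrix (Fin 2) (Fin 2) K') x y hg hx' hy'

/-- **T6.06 `TwCentC`** ([L] par. 4). -/
theorem twCentC166 : TwCentC := by
  intro K K' _ _ l i s hcyc δ γ hreg hN x
  have hns := nonscalar_map166 i γ hreg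
  have hiter : ∀ g : GL (Fin 2) K', ((glAut s)^[l]) g = g :=
    glAut_iterate_eq166 s l hcyc.order
  have hN' : twN (glAut s) l δ = Matrix.GeneralLinearGroup.map i γ := hN
  have hσγ : glAut s (Matrix.GeneralLinearGroup.map i γ) = Matrix.GeneralLinearGroup.map i γ :=
    glAut_map166 i s hcyc.fix_i γ
  -- `δ` commutes with `γ`
  have hδγ : δ * Matrix.GeneralLinearGroup.map i γ = Matrix.GeneralLinearGroup.map i γ * δ := by
    have h1 : twN (glAut s) (l + 1) δ = δ * Matrix.GeneralLinearGroup.map i γ := by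
      rw [twN_succ166, hN', hσγ]
    have h2 : twN (glAut s) (l + 1) δ = Matrix.GeneralLinearGroup.map i γ * δ := by
      rw [twN_succ_right166, hN', hiter]
    rw [← h1, h2]
  constructor
  · intro hx
    have hx0 : x⁻¹ * δ * glAut s x = δ := hx
    have hx1 : x * δ = δ * glAut s x := by
      rw [← hx0]
      simp only [mul_assoc, mul_inv_cancel_left]
      rw [← mul_assoc, ← mul_assoc, hx0]
    have hxγ : x * Matrix.GeneralLinearGroup.map i γ = Matrix.GeneralLinearGroup.map i γ * x := by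
      have := twN_semiconj166 (glAut s) δ x hx1 l
      rwa [hN', hiter] at this
    have hxδ : x * δ = δ * x := gl_comm_of_comm166 _ x δ hns hxγ hδγ
    have hσx : glAut s x = x := by
      have h3 : δ * glAut s x = δ * x := by rw [← hx1, hxδ]
      exact mul_left_cancel h3
    obtain ⟨t, ht⟩ := exists_map_eq166 i s hcyc.fixed x hσx
    refine ⟨t, ?_, ht⟩
    apply map_injective166 i
    rw [map_mul, map_mul, ← ht, hxγ]
  · rintro ⟨t, ht, rfl⟩
    have htγ : Matrix.GeneralLinearGroup.map i t * Matrix.GeneralLinearGroup.map i γ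
        = Matrix.GeneralLinearGroup.map i γ * Matrix.GeneralLinearGroup.map i t := by
      rw [← map_mul, ← map_mul, ht]
    have htδ : Matrix.GeneralLinearGroup.map i t * δ = δ * Matrix.GeneralLinearGroup.map i t :=
      gl_comm_of_comm166 _ _ δ hns htγ hδγ
    show (Matrix.GeneralLinearGroup.map i t)⁻¹ * δ
      * glAut s (Matrix.GeneralLinearGroup.map i t) = δ
    rw [glAut_map166 i s hcyc.fix_i t, mul_assoc, ← htδ, inv_mul_cancel_left]

end Leaf

end Fermat.Agent.LT.T6.H166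

end
-- ===== PACK-END LT/T6/H166/TwCent.lean

-- ===== PACK-BEGIN LT/T6/H196/GenLvlOrb.lean
section



/-!
# Row LT, tower T6, leaf T6.18g2-D2 `GenLvlC783` (helper196) -- part 2: orbit sums

OFF-MAIN.  Abstract form of the level change: `G` a group, `U ⊂ Γ` subgroups with `Γ / U` finite,
`C y` (the "compact part of the centraliser of `y`") a subgroup of the centraliser of `y`
containing the centraliser of `y` in `Γ`, equivariant under conjugation; `ψ` invariant under
conjugation by `Γ`.  Then an orbit sum of `ψ` at `h` for `U` is `[Γ : U]` times an orbit sum for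
`Γ`.
-/

set_option autoImplicit false

noncomputable section

namespace Fermat.Agent.LT.T6.H196

open Fermat.Agent.LT.T6

variable {G : Type} [Group G]

/-- `cIndex` in terms of `lc196`. -/
theorem cIndex_eq196 (U : G → Prop) (C : G → G → Prop) (y : G) :
    cIndex U C y = Set.ncard {c : Set G | ∃ t, C y t ∧ c = lc196 U t} := rfl

/-- The index at a conjugate `g⁻¹ y g`. -/
theorem cIndex_conj196 (U : G → Prop) (C : G → G → Prop)
    (hCconj : ∀ y x t, C (x⁻¹ * y * x) (x⁻¹ * t * x) ↔ C y t) (y g : G) :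
    cIndex U C (g⁻¹ * y * g) = Set.ncard {c : Set G | ∃ t, C y t ∧ c = lc196 U (t * g)} := by
  rw [cIndex_eq196]
  have : {c : Set G | ∃ t, C (g⁻¹ * y * g) t ∧ c = lc196 U t}
      = ltr196 g⁻¹ '' {c : Set G | ∃ t, C y t ∧ c = lc196 U (t * g)} := by
    ext c
    constructor
    · rintro ⟨t', ht', rfl⟩
      refine ⟨lc196 U (g * t' * g⁻¹ * g), ⟨g * t' * g⁻¹, ?_, rfl⟩, ?_⟩
      · rw [← hCconj y g (g * t' * g⁻¹)]
        have : g⁻¹ * (g * t' * g⁻¹) * g = t' := by group
        rw [this]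
        exact ht'
      · rw [ltr196_lc]
        congr 1
        group
    · rintro ⟨_, ⟨t, ht, rfl⟩, rfl⟩
      refine ⟨g⁻¹ * t * g, (hCconj y g t).mpr ht, ?_⟩
      rw [ltr196_lc]
      congr 1
      group
  rw [this, Set.ncard_image_of_injective _ (ltr196_injective _)]

/-- **Level change, abstract form.** -/
theorem genLvl_abs196 (U Γ : G → Prop) (C : G → G → Prop)
    (hU : IsSub196 U) (hΓ : IsSub196 Γ) (hUΓ : ∀ g, U g → Γ g)
    (hfin : {c : Set G | ∃ g, Γ g ∧ c = lc196 U g}.Finite)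
    (ψ : G → ℂ) (hψ : ∀ g x, Γ g → ψ (g⁻¹ * x * g) = ψ x)
    (h : G)
    (hCsub : ∀ y, (∃ x, y = x⁻¹ * h * x) → IsSub196 (C y))
    (hCcent : ∀ y t, C y t → t⁻¹ * y * t = y)
    (hCconj : ∀ y x t, C (x⁻¹ * y * x) (x⁻¹ * t * x) ↔ C y t)
    (hCΓ : ∀ y g, Γ g → g⁻¹ * y * g = y → C y g)
    (c' : ℂ) (hsum : IsOrbSumGen (MonoidHom.id G) U C ψ h c') :
    ∃ c : ℂ, IsOrbSumGen (MonoidHom.id G) Γ C ψ h c ∧
      c' = ((Set.ncard {c : Set G | ∃ g, Γ g ∧ c = lc196 U g} : ℕ) : ℂ) * c := by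
  classical
  obtain ⟨R', h1, h2, h3, h4⟩ := hsum
  simp only [MonoidHom.id_apply] at h1 h2 h3
  set κ : ℕ := Set.ncard {c : Set G | ∃ g, Γ g ∧ c = lc196 U g} with hκ
  -- conjugation by `Γ`
  set rel : G → G → Prop := fun y y' => ∃ g, Γ g ∧ y' = g⁻¹ * y * g with hrel
  have rel_refl : ∀ y, rel y y := fun y => ⟨1, hΓ.one, by group⟩
  have rel_symm : ∀ y y', rel y y' → rel y' y := by
    rintro y y' ⟨g, hg, rfl⟩
    exact ⟨g⁻¹, hΓ.inv _ hg, by group⟩
  have rel_trans : ∀ y y' y'', rel y y' → rel y' y'' → rel y y'' := by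
    rintro y y' y'' ⟨g, hg, rfl⟩ ⟨g', hg', rfl⟩
    exact ⟨g * g', hΓ.mul _ _ hg hg', by group⟩
  have rel_ψ : ∀ y y', rel y y' → ψ y' = ψ y := by
    rintro y y' ⟨g, hg, rfl⟩
    exact hψ g y hg
  have rel_class : ∀ y y', rel y y' → (∃ x, y = x⁻¹ * h * x) → ∃ x, y' = x⁻¹ * h * x := by
    rintro y y' ⟨g, hg, rfl⟩ ⟨x, rfl⟩
    exact ⟨x * g, by group⟩
  have rel_of_U : ∀ y y' u, U u → y' = u⁻¹ * y * u → rel y y' := fun y y' u hu h =>
    ⟨u, hUΓ u hu, h⟩
  -- the support
  set R'' : Finset G := R'.filter (fun y => ψ y ≠ 0) with hR''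
  have hR''mem : ∀ y, y ∈ R'' ↔ y ∈ R' ∧ ψ y ≠ 0 := fun y => Finset.mem_filter
  -- representatives
  set rep : G → G := fun y => Classical.epsilon (fun y₀ => y₀ ∈ R'' ∧ rel y₀ y) with hrep
  have rep_spec : ∀ y ∈ R'', rep y ∈ R'' ∧ rel (rep y) y := fun y hy =>
    Classical.epsilon_spec (p := fun y₀ => y₀ ∈ R'' ∧ rel y₀ y) ⟨y, hy, rel_refl y⟩
  have rep_congr : ∀ y y', rel y y' → rep y = rep y' := by
    intro y y' hyy'
    have : (fun y₀ => y₀ ∈ R'' ∧ rel y₀ y) = (fun y₀ => y₀ ∈ R'' ∧ rel y₀ y') := by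
      funext y₀
      apply propext
      constructor
      · rintro ⟨ha, hb⟩
        exact ⟨ha, rel_trans _ _ _ hb hyy'⟩
      · rintro ⟨ha, hb⟩
        exact ⟨ha, rel_trans _ _ _ hb (rel_symm _ _ hyy')⟩
    change Classical.epsilon (fun y₀ => y₀ ∈ R'' ∧ rel y₀ y)
      = Classical.epsilon (fun y₀ => y₀ ∈ R'' ∧ rel y₀ y')
    rw [this]
  set R : Finset G := R''.image rep with hR
  have hRmem : ∀ y ∈ R, y ∈ R'' ∧ rep y = y := by
    intro y hy
    obtain ⟨a, ha, rfl⟩ := Finset.mem_image.mp hy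
    exact ⟨(rep_spec a ha).1, rep_congr _ _ (rep_spec a ha).2⟩
  refine ⟨∑ y ∈ R, ψ y * (cIndex Γ C y : ℂ), ⟨R, ?_, ?_, ?_, rfl⟩, ?_⟩
  · intro y hy
    exact h1 y ((hR''mem y).mp (hRmem y hy).1).1
  · rintro y hy y' hy' ⟨g, hg, hgy⟩
    simp only [MonoidHom.id_apply] at hgy
    rw [← (hRmem y hy).2, ← (hRmem y' hy').2]
    exact rep_congr _ _ ⟨g, hg, hgy⟩
  · intro y hy hψy
    simp only [MonoidHom.id_apply]
    obtain ⟨y₁, hy₁, u, hu, hyu⟩ := h3 y hy hψy
    have hrel1 : rel y₁ y := rel_of_U _ _ u hu hyu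
    have hψ1 : ψ y₁ ≠ 0 := by
      rw [← rel_ψ _ _ hrel1]
      exact hψy
    have hy₁'' : y₁ ∈ R'' := (hR''mem y₁).mpr ⟨hy₁, hψ1⟩
    obtain ⟨g, hg, hgy⟩ := rel_trans _ _ _ (rep_spec y₁ hy₁'').2 hrel1
    exact ⟨rep y₁, Finset.mem_image_of_mem _ hy₁'', g, hg, hgy⟩
  · -- the value
    have e1 : c' = ∑ y ∈ R'', ψ y * (cIndex U C y : ℂ) := by
      rw [h4, hR'']
      symm
      apply Finset.sum_filter_of_ne
      intro y _ hne hz
      apply hne
      rw [hz, zero_mul]
    have e2 : ∑ y ∈ R'', ψ y * (cIndex U C y : ℂ)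
        = ∑ y ∈ R, ∑ y' ∈ R'' with rep y' = y, ψ y' * (cIndex U C y' : ℂ) :=
      (Finset.sum_fiberwise_of_maps_to (fun y hy => Finset.mem_image_of_mem rep hy) _).symm
    rw [e1, e2, Finset.mul_sum]
    apply Finset.sum_congr rfl
    intro y hy
    obtain ⟨hy'', hrepy⟩ := hRmem y hy
    have hyclass : ∃ x, y = x⁻¹ * h * x := h1 y ((hR''mem y).mp hy'').1
    have hψy : ψ y ≠ 0 := ((hR''mem y).mp hy'').2
    set J : Finset G := R''.filter (fun y' => rep y' = y) with hJ
    have hJmem : ∀ j, j ∈ J ↔ j ∈ R'' ∧ rep j = y := fun j => Finset.mem_filter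
    have hJrel : ∀ j ∈ J, rel y j := by
      intro j hj
      obtain ⟨hj'', hrj⟩ := (hJmem j).mp hj
      have := (rep_spec j hj'').2
      rw [hrj] at this
      exact this
    -- the elements `γ j`
    have hγex : ∀ j, ∃ g, j ∈ J → (Γ g ∧ j = g⁻¹ * y * g) := by
      intro j
      by_cases hj : j ∈ J
      · obtain ⟨g, hg, hgj⟩ := hJrel j hj
        exact ⟨g, fun _ => ⟨hg, hgj⟩⟩
      · exact ⟨1, fun h' => absurd h' hj⟩
    choose γ hγ using hγex
    have hA : IsSub196 (C y) := hCsub y hyclass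
    have hcount := count196 U Γ (C y) hU hΓ hA hUΓ hfin J γ (fun j hj => (hγ j hj).1)
      (by
        rintro j hj j' hj' ⟨a, u, ha, hu, hγj'⟩
        apply h2 j ((hR''mem j).mp ((hJmem j).mp hj).1).1 j' ((hR''mem j').mp ((hJmem j').mp hj').1).1
        refine ⟨u, hu, ?_⟩
        have ej := (hγ j hj).2
        have ej' := (hγ j' hj').2
        have ea := hCcent y a ha
        calc j' = (γ j')⁻¹ * y * γ j' := ej'
          _ = u⁻¹ * ((γ j)⁻¹ * (a⁻¹ * y * a) * γ j) * u := by rw [hγj']; group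
          _ = u⁻¹ * ((γ j)⁻¹ * y * γ j) * u := by rw [ea]
          _ = u⁻¹ * j * u := by rw [← ej])
      (by
        intro g hg
        have hrel1 : rel y (g⁻¹ * y * g) := ⟨g, hg, rfl⟩
        have hψ1 : ψ (g⁻¹ * y * g) ≠ 0 := by
          rw [rel_ψ _ _ hrel1]
          exact hψy
        obtain ⟨y', hy', u, hu, hyu⟩ := h3 _ (rel_class _ _ hrel1 hyclass) hψ1
        have hrel2 : rel y' (g⁻¹ * y * g) := rel_of_U _ _ u hu hyu
        have hψ2 : ψ y' ≠ 0 := by
          rw [← rel_ψ _ _ hrel2]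
          exact hψ1
        have hy'R : y' ∈ R'' := (hR''mem y').mpr ⟨hy', hψ2⟩
        have hrel3 : rel y y' := rel_trans _ _ _ hrel1 (rel_symm _ _ hrel2)
        have hy'J : y' ∈ J := (hJmem y').mpr ⟨hy'R, by rw [← rep_congr _ _ hrel3, hrepy]⟩
        obtain ⟨hg', ey'⟩ := hγ y' hy'J
        refine ⟨y', hy'J, g * u⁻¹ * (γ y')⁻¹, u, ?_, hu, by group⟩
        apply hCΓ
        · exact hΓ.mul _ _ (hΓ.mul _ _ hg (hΓ.inv _ (hUΓ u hu))) (hΓ.inv _ hg')
        · -- `g' u g⁻¹ y g u⁻¹ g'⁻¹ = y`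
          have e3 : y = γ y' * y' * (γ y')⁻¹ := by
            have e3' : γ y' * y' * (γ y')⁻¹ = γ y' * ((γ y')⁻¹ * y * γ y') * (γ y')⁻¹ :=
              congrArg (fun z => γ y' * z * (γ y')⁻¹) ey'
            rw [e3']
            group
          have e4 : y' = u * (g⁻¹ * y * g) * u⁻¹ := by rw [hyu]; group
          calc (g * u⁻¹ * (γ y')⁻¹)⁻¹ * y * (g * u⁻¹ * (γ y')⁻¹)
              = γ y' * (u * (g⁻¹ * y * g) * u⁻¹) * (γ y')⁻¹ := by group
            _ = γ y' * y' * (γ y')⁻¹ := by rw [← e4]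
            _ = y := e3.symm)
    -- assemble
    have e5 : ∀ j ∈ J, ψ j * (cIndex U C j : ℂ)
        = ψ y * ((Set.ncard {c : Set G | ∃ t, C y t ∧ c = lc196 U (t * γ j)} : ℕ) : ℂ) := by
      intro j hj
      rw [rel_ψ _ _ (hJrel j hj)]
      congr 2
      conv_lhs => rw [(hγ j hj).2]
      exact cIndex_conj196 U C hCconj y (γ j)
    rw [Finset.sum_congr rfl e5, ← Finset.mul_sum, ← Nat.cast_sum, hcount, cIndex_eq196]
    push_cast
    ring

end Fermat.Agent.LT.T6.H196

end
end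
-- ===== PACK-END LT/T6/H196/GenLvlOrb.lean

-- ===== PACK-BEGIN LT/T6/H313/QuadRes.lean
section




/-!
# Row LT, tower T6, sub-leaf T6.15c3 (helper313): the residue level

OFF-MAIN.  `F` a finite field, `σ` an automorphism of prime order `l`, `a, b` fixed by `σ`,
`a ≠ 0`.  In `F[X]/(X² - b X - a)` (with `σ` acting on the coefficients) the class `ω` of `X` is
a twisted norm: `ω = β · σ(β) ⋯ σ^{l-1}(β)` (`exists_nrm_eq_omega313`).

Cases: no root in `F` (the quadratic algebra is a finite field, `FinNorm`), two distinct roots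
fixed by `σ` (two evaluations), a double root (dual numbers), two roots exchanged by `σ`
(`l = 2`, explicit).
-/

set_option autoImplicit false
set_option linter.style.haveILetI false
set_option linter.unusedSectionVars false
set_option linter.unusedVariables false

namespace Fermat.Agent.LT.T6.H313

section QuadRes

variable {F : Type} [Field F]

/-- Two evaluations at distinct roots are jointly injective. -/
theorem qEval313_joint_inj {a b : F} (r r' : F) (hr : r * r = a + b * r)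
    (hr' : r' * r' = a + b * r') (hne : r ≠ r') (z w : QuadraticAlgebra F a b)
    (h1 : qEval313 r hr z = qEval313 r hr w) (h2 : qEval313 r' hr' z = qEval313 r' hr' w) :
    z = w := by
  simp only [qEval313_apply] at h1 h2
  have h3 : (z.im - w.im) * (r - r') = 0 := by linear_combination h1 - h2
  have h4 : z.im = w.im := by
    rcases mul_eq_zero.1 h3 with h | h
    · exact sub_eq_zero.1 h
    · exact absurd (sub_eq_zero.1 h) hne
  have h5 : z.re = w.re := by
    rw [h4] at h1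
    exact add_right_cancel h1
  exact QuadraticAlgebra.ext h5 h4

/-- The twisted norm of `1 + z ε` when `ε² = 0` and `ε` is fixed. -/
theorem nrm313_one_add_eps {a b : F} (σ : F ≃+* F) (ha : σ a = a) (hb : σ b = b)
    (ε : QuadraticAlgebra F a b) (hε : ε * ε = 0) (hσε : qAut313 σ ha hb ε = ε) (z : F)
    (n : ℕ) :
    nrm313 (⇑(qAut313 σ ha hb)) n (1 + QuadraticAlgebra.C z * ε)
      = 1 + QuadraticAlgebra.C (∑ j ∈ Finset.range n, (σ ^ j) z) * ε := by
  induction n with
  | zero => simp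
  | succ n ih =>
    rw [nrm313_succ, ih, map_add, map_one, map_mul, hσε, qAut313_C, Finset.sum_range_succ',
      map_sum]
    have h2 : ∀ j ∈ Finset.range n, σ ((σ ^ j) z) = (σ ^ (j + 1)) z := by
      intro j _
      rw [pow_succ', RingAut.mul_apply]
    rw [Finset.sum_congr rfl h2]
    simp only [pow_zero, RingAut.one_apply]
    set S := ∑ j ∈ Finset.range n, (σ ^ (j + 1)) z with hS
    have h3 : (QuadraticAlgebra.C (S + z) : QuadraticAlgebra F a b)
        = QuadraticAlgebra.C S + QuadraticAlgebra.C z := by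
      ext <;> simp
    rw [h3]
    linear_combination (QuadraticAlgebra.C z * QuadraticAlgebra.C S) * hε

variable [Finite F]

theorem exists_nrm_eq_omega313 (σ : F ≃+* F) (l : ℕ) (hl : l.Prime)
    (hσl : ∀ y : F, (σ ^ l) y = y) (hσ1 : ∃ y : F, σ y ≠ y) (a b : F) (ha : σ a = a)
    (hb : σ b = b) (ha0 : a ≠ 0) :
    ∃ β : QuadraticAlgebra F a b,
      nrm313 (⇑(qAut313 σ ha hb)) l β = QuadraticAlgebra.omega := by
  classical
  by_cases hroot : ∀ r : F, r ^ 2 ≠ a + b * r
  · -- no root: the quadratic algebra is a finite field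
    haveI : Fact (∀ r : F, r ^ 2 ≠ a + b * r) := ⟨hroot⟩
    haveI : Finite (QuadraticAlgebra F a b) :=
      Finite.of_equiv _ (QuadraticAlgebra.equivProd a b).symm
    have h1 : ∀ y : QuadraticAlgebra F a b, (qAut313 σ ha hb ^ l) y = y := by
      intro y
      ext
      · rw [qAut313_pow_re, hσl]
      · rw [qAut313_pow_im, hσl]
    have h2 : ∃ y : QuadraticAlgebra F a b, qAut313 σ ha hb y ≠ y := by
      obtain ⟨y, hy⟩ := hσ1
      refine ⟨QuadraticAlgebra.C y, fun h => hy ?_⟩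
      rw [qAut313_C] at h
      exact QuadraticAlgebra.C_injective h
    obtain ⟨β, hβ⟩ := exists_prod_pow_eq313 (qAut313 σ ha hb) l hl h1 h2
      QuadraticAlgebra.omega (qAut313_omega σ ha hb)
    exact ⟨β, (nrm313_ringEquiv _ l β).trans hβ⟩
  · simp only [not_forall, ne_eq, not_not] at hroot
    obtain ⟨r, hr2⟩ := hroot
    have hr : r * r = a + b * r := by rw [← hr2]; ring
    set r' : F := b - r with hr'def
    have hr' : r' * r' = a + b * r' := by rw [hr'def]; linear_combination hr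
    have hrr' : r * r' = -a := by rw [hr'def]; linear_combination -hr
    have hr0 : r ≠ 0 := by
      rintro rfl
      rw [zero_mul] at hrr'
      exact ha0 (neg_eq_zero.1 hrr'.symm)
    by_cases hfix : σ r = r
    · have hfix' : σ r' = r' := by rw [hr'def, map_sub, hb, hfix]
      have hev : ∀ z : QuadraticAlgebra F a b,
          qEval313 r hr (qAut313 σ ha hb z) = σ (qEval313 r hr z) := by
        intro z
        simp only [qEval313_apply, qAut313_re, qAut313_im, map_add, map_mul, hfix]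
      have hev' : ∀ z : QuadraticAlgebra F a b,
          qEval313 r' hr' (qAut313 σ ha hb z) = σ (qEval313 r' hr' z) := by
        intro z
        simp only [qEval313_apply, qAut313_re, qAut313_im, map_add, map_mul, hfix']
      by_cases hne : r = r'
      · -- double root: dual numbers
        obtain ⟨y, hy⟩ := exists_prod_pow_eq313 σ l hl hσl hσ1 r hfix
        have hfixinv : σ r⁻¹ = r⁻¹ := by rw [map_inv₀, hfix]
        obtain ⟨z, hz⟩ := exists_sum_pow_eq313 σ l hl hσl hσ1 r⁻¹ hfixinv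
        set ε : QuadraticAlgebra F a b := QuadraticAlgebra.omega - QuadraticAlgebra.C r with hε
        have hb2 : b = 2 * r := by
          have : r = b - r := hne
          linear_combination (-1 : F) * this
        have ha2 : a = -(r * r) := by
          have h := hrr'
          rw [← hne] at h
          linear_combination h
        have hεε : ε * ε = 0 := by
          rw [hε]
          ext
          · simp
            rw [ha2]; ring
          · simp
            rw [hb2]; ring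
        have hσε : qAut313 σ ha hb ε = ε := by
          rw [hε, map_sub, qAut313_omega, qAut313_C, hfix]
        refine ⟨QuadraticAlgebra.C y * (1 + QuadraticAlgebra.C z * ε), ?_⟩
        rw [nrm313_mul _ (map_mul (qAut313 σ ha hb)), nrm313_one_add_eps σ ha hb ε hεε hσε z l, hz]
        have h5 : nrm313 (⇑(qAut313 σ ha hb)) l (QuadraticAlgebra.C y : QuadraticAlgebra F a b)
            = QuadraticAlgebra.C (nrm313 (⇑σ) l y) :=
          (nrm313_map (fun x : F => (QuadraticAlgebra.C x : QuadraticAlgebra F a b))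
            QuadraticAlgebra.C_one (fun x y => QuadraticAlgebra.C_mul x y) (⇑σ)
            (⇑(qAut313 σ ha hb)) (fun x => (qAut313_C σ ha hb x).symm) l y).symm
        rw [h5, nrm313_ringEquiv, hy, hε]
        have h6 : (QuadraticAlgebra.C r : QuadraticAlgebra F a b) * QuadraticAlgebra.C r⁻¹ = 1 := by
          rw [← QuadraticAlgebra.C_mul, mul_inv_cancel₀ hr0, QuadraticAlgebra.C_one]
        linear_combination
          ((QuadraticAlgebra.omega : QuadraticAlgebra F a b) - QuadraticAlgebra.C r) * h6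
      · -- two distinct fixed roots
        obtain ⟨y₁, hy₁⟩ := exists_prod_pow_eq313 σ l hl hσl hσ1 r hfix
        obtain ⟨y₂, hy₂⟩ := exists_prod_pow_eq313 σ l hl hσl hσ1 r' hfix'
        have hsub : r - r' ≠ 0 := sub_ne_zero.2 hne
        set bb : F := (y₁ - y₂) / (r - r') with hbb
        refine ⟨⟨y₁ - bb * r, bb⟩, ?_⟩
        refine qEval313_joint_inj r r' hr hr' hne _ _ ?_ ?_
        · rw [nrm313_map (⇑(qEval313 r hr)) (map_one _) (map_mul _) (⇑(qAut313 σ ha hb)) (⇑σ)
            hev l]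
          have : qEval313 r hr (⟨y₁ - bb * r, bb⟩ : QuadraticAlgebra F a b) = y₁ := by
            simp [qEval313_apply]
          rw [this, nrm313_ringEquiv, hy₁]
          simp [qEval313_apply]
        · rw [nrm313_map (⇑(qEval313 r' hr')) (map_one _) (map_mul _) (⇑(qAut313 σ ha hb)) (⇑σ)
            hev' l]
          have : qEval313 r' hr' (⟨y₁ - bb * r, bb⟩ : QuadraticAlgebra F a b) = y₂ := by
            simp only [qEval313_apply]
            rw [hbb]
            field_simp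
            ring
          rw [this, nrm313_ringEquiv, hy₂]
          simp [qEval313_apply]
    · -- two roots exchanged by `σ`, `l = 2`
      have hσr : σ r = r' := by
        have h1 : σ r * σ r = a + b * σ r := by
          have := congrArg σ hr
          rwa [map_mul, map_add, map_mul, ha, hb] at this
        have h2 : (σ r - r) * (σ r - r') = 0 := by
          rw [hr'def]; linear_combination h1 - hr
        rcases mul_eq_zero.1 h2 with h | h
        · exact absurd (sub_eq_zero.1 h) hfix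
        · exact sub_eq_zero.1 h
      have hσr' : σ r' = r := by
        rw [hr'def, map_sub, hb, hσr, hr'def]; ring
      have hne : r ≠ r' := fun h => hfix (hσr.trans h.symm)
      have hl2 : l = 2 := by
        rcases hl.eq_two_or_odd' with h | h
        · exact h
        · exfalso
          obtain ⟨k, rfl⟩ := h
          have h2 : ∀ m : ℕ, (σ ^ (2 * m)) r = r := by
            intro m
            induction m with
            | zero => simp
            | succ m ih =>
              rw [Nat.mul_succ, pow_add, RingAut.mul_apply, pow_two, RingAut.mul_apply, hσr,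
                hσr', ih]
          have h3 := hσl r
          rw [pow_succ', RingAut.mul_apply, h2 k] at h3
          exact hfix h3
      subst hl2
      have hsub : r - r' ≠ 0 := sub_ne_zero.2 hne
      set bb : F := (r - 1) / (r - r') with hbb
      refine ⟨⟨r - bb * r, bb⟩, ?_⟩
      have hnrm : ∀ β : QuadraticAlgebra F a b,
          nrm313 (⇑(qAut313 σ ha hb)) 2 β = β * qAut313 σ ha hb β := by
        intro β
        show β * qAut313 σ ha hb (β * qAut313 σ ha hb 1) = β * qAut313 σ ha hb β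
        rw [map_one, mul_one]
      rw [hnrm]
      have e1 : qEval313 r hr (⟨r - bb * r, bb⟩ : QuadraticAlgebra F a b) = r := by
        simp [qEval313_apply]
      have e2 : qEval313 r' hr' (⟨r - bb * r, bb⟩ : QuadraticAlgebra F a b) = 1 := by
        simp only [qEval313_apply]
        rw [hbb]
        field_simp
        ring
      have hev : ∀ z : QuadraticAlgebra F a b,
          qEval313 r hr (qAut313 σ ha hb z) = σ (qEval313 r' hr' z) := by
        intro z
        simp only [qEval313_apply, qAut313_re, qAut313_im, map_add, map_mul, hσr']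
      have hev' : ∀ z : QuadraticAlgebra F a b,
          qEval313 r' hr' (qAut313 σ ha hb z) = σ (qEval313 r hr z) := by
        intro z
        simp only [qEval313_apply, qAut313_re, qAut313_im, map_add, map_mul, hσr]
      refine qEval313_joint_inj r r' hr hr' hne _ _ ?_ ?_
      · rw [map_mul, hev, e1, e2, map_one, mul_one]
        simp [qEval313_apply]
      · rw [map_mul, hev', e1, e2, one_mul, hσr]
        simp [qEval313_apply]

end QuadRes

end Fermat.Agent.LT.T6.H313

end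
-- ===== PACK-END LT/T6/H313/QuadRes.lean

-- ===== PACK-BEGIN LT/T6/H313/LocalBasic.lean
section





/-!
# Row LT, tower T6, sub-leaf T6.15c3 (helper313): the residue field of an abstract local field

OFF-MAIN.  Vocabulary: `T6/Spec.lean` (`Γ₀`, `IsLocalField`, `IsLocalExt`).

* `sO313`: the automorphism of the valuation ring induced by an automorphism preserving the
  valuation; `sBar313`: the induced automorphism of the residue field;
* `finite_residue313`, `card_residue_ge313`: the residue field of a local field with `q`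
  representatives is finite, with at least `q` elements;
* `exists_limit313`: limits of `ϖ`-adically Cauchy sequences in a complete valued field.
-/

set_option autoImplicit false
set_option linter.style.haveILetI false
set_option linter.unusedSectionVars false
set_option linter.unusedVariables false

open Fermat.Agent.LT.T6

noncomputable section

namespace Fermat.Agent.LT.T6.H313

/-! ## The value group `ℤᵐ⁰` -/

theorem le_exp_of_lt_one313 {x : Γ₀} (h : x < 1) : x ≤ WithZero.exp (-1 : ℤ) := by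
  rcases eq_or_ne x 0 with rfl | hx
  · exact zero_le
  · rw [← WithZero.exp_log hx] at h ⊢
    rw [← WithZero.exp_zero, WithZero.exp_lt_exp] at h
    rw [WithZero.exp_le_exp]
    omega

theorem exp_neg_one_lt_one313 : (WithZero.exp (-1 : ℤ) : Γ₀) < 1 := by
  rw [← WithZero.exp_zero, WithZero.exp_lt_exp]
  omega

theorem exp_neg_nat_le_one313 (n : ℕ) : (WithZero.exp (-(n : ℤ)) : Γ₀) ≤ 1 := by
  rw [← WithZero.exp_zero, WithZero.exp_le_exp]
  omega

theorem exp_neg_mul313 (m n : ℕ) :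
    (WithZero.exp (-(m : ℤ)) : Γ₀) * WithZero.exp (-(n : ℤ)) = WithZero.exp (-((m + n : ℕ) : ℤ)) := by
  rw [← WithZero.exp_add]
  congr 1
  push_cast
  ring

theorem exp_neg_mono313 {m n : ℕ} (h : m ≤ n) :
    (WithZero.exp (-(n : ℤ)) : Γ₀) ≤ WithZero.exp (-(m : ℤ)) := by
  rw [WithZero.exp_le_exp]
  omega

/-! ## The valuation ring and the residue field -/

section Residue

variable {K : Type} [Field K] [Valued K Γ₀]

/-- The residue field. -/
abbrev Res313 (K : Type) [Field K] [Valued K Γ₀] : Type :=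
  IsLocalRing.ResidueField (Valued.integer K)

/-- The residue map. -/
abbrev res313 (K : Type) [Field K] [Valued K Γ₀] : Valued.integer K →+* Res313 K :=
  IsLocalRing.residue (Valued.integer K)

theorem res313_eq_zero_iff (y : Valued.integer K) : res313 K y = 0 ↔ Valued.v (y : K) < 1 := by
  rw [IsLocalRing.residue_eq_zero_iff, IsLocalRing.mem_maximalIdeal, mem_nonunits_iff,
    Valuation.Integer.not_isUnit_iff_valuation_lt_one]

theorem res313_eq_iff (y z : Valued.integer K) :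
    res313 K y = res313 K z ↔ Valued.v ((y : K) - z) < 1 := by
  rw [← sub_eq_zero, ← map_sub, res313_eq_zero_iff]
  rfl

theorem res313_surjective : Function.Surjective (res313 K) :=
  IsLocalRing.residue_surjective

/-- The residue field of a local field is finite. -/
theorem finite_residue313 {q : ℕ} (hK : IsLocalField K q) : Finite (Res313 K) := by
  classical
  obtain ⟨T, -, hint, -, hcov⟩ := hK.residue
  let g : {x // x ∈ T} → Res313 K := fun x => res313 K ⟨x.1, hint x.1 x.2⟩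
  refine Finite.of_surjective g ?_
  intro yb
  obtain ⟨y, rfl⟩ := res313_surjective yb
  obtain ⟨x, hxT, hx⟩ := hcov y.1 y.2
  refine ⟨⟨x, hxT⟩, ?_⟩
  rw [res313_eq_iff]
  have : Valued.v (x - (y : K)) = Valued.v ((y : K) - x) := Valuation.map_sub_swap _ _ _
  rw [this]
  exact hx

/-- The residue field of a local field with `q` representatives has at least `q` elements. -/
theorem card_residue_ge313 {q : ℕ} (hK : IsLocalField K q) : q ≤ Nat.card (Res313 K) := by
  classical
  haveI := finite_residue313 hK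
  obtain ⟨T, hcard, hint, hdiff, -⟩ := hK.residue
  let g : {x // x ∈ T} → Res313 K := fun x => res313 K ⟨x.1, hint x.1 x.2⟩
  have hg : Function.Injective g := by
    intro x y hxy
    by_contra hne
    have h1 : (x : K) ≠ y := fun h => hne (Subtype.ext h)
    have h2 := hdiff x.1 x.2 y.1 y.2 h1
    have h3 : Valued.v ((x : K) - y) < 1 := (res313_eq_iff _ _).1 hxy
    rw [h2] at h3
    exact lt_irrefl _ h3
  have := Nat.card_le_card_of_injective g hg
  rwa [Nat.card_eq_fintype_card, Fintype.card_coe, hcard] at this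

/-- The set of residues of a set of representatives of `k` under a valuation preserving map. -/
theorem exists_residue_image313 {k : Type} [Field k] [Valued k Γ₀] {q : ℕ}
    (hk : IsLocalField k q) (i : k →+* K) (hi : ∀ x : k, Valued.v (i x) = Valued.v x) :
    ∃ S : Finset (Res313 K), S.card ≤ q ∧ (0 : Res313 K) ∈ S ∧
      ∀ (x : k) (hx : Valued.v (i x) ≤ 1), res313 K ⟨i x, hx⟩ ∈ S := by
  classical
  obtain ⟨T, hcard, hint, -, hcov⟩ := hk.residue
  let ρ : k → Res313 K := fun x =>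
    if h : Valued.v (i x) ≤ 1 then res313 K ⟨i x, h⟩ else 0
  have hρ : ∀ (x : k) (hx : Valued.v (i x) ≤ 1), res313 K ⟨i x, hx⟩ ∈ T.image ρ := by
    intro x hx
    have hx1 : Valued.v x ≤ 1 := by rwa [hi] at hx
    obtain ⟨x₀, hx₀T, hx₀⟩ := hcov x hx1
    have hx₀1 : Valued.v (i x₀) ≤ 1 := by rw [hi]; exact hint x₀ hx₀T
    refine Finset.mem_image.2 ⟨x₀, hx₀T, ?_⟩
    have : ρ x₀ = res313 K ⟨i x₀, hx₀1⟩ := dif_pos hx₀1
    rw [this, res313_eq_iff]
    show Valued.v (i x₀ - i x) < 1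
    rw [← map_sub, hi, Valuation.map_sub_swap]
    exact hx₀
  refine ⟨T.image ρ, ?_, ?_, hρ⟩
  · exact Finset.card_image_le.trans hcard.le
  · have h0 : Valued.v (i 0) ≤ 1 := by simp
    have := hρ 0 h0
    have h2 : res313 K ⟨i 0, h0⟩ = 0 := by
      rw [res313_eq_zero_iff]
      simp
    rwa [h2] at this

/-- A local field has at least two residue classes. -/
theorem two_le_card313 {q : ℕ} (hK : IsLocalField K q) : 2 ≤ q := by
  classical
  obtain ⟨T, hcard, hint, hdiff, hcov⟩ := hK.residue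
  obtain ⟨x₀, hx₀T, hx₀⟩ := hcov 0 (by simp)
  obtain ⟨x₁, hx₁T, hx₁⟩ := hcov 1 (by simp)
  have hne : x₀ ≠ x₁ := by
    rintro rfl
    have h1 : Valued.v ((1 : K) - 0) ≤ max (Valued.v ((1 : K) - x₀)) (Valued.v (x₀ - 0)) := by
      have := Valuation.map_add Valued.v ((1 : K) - x₀) (x₀ - 0)
      simpa using this
    have h2 : Valued.v (x₀ - 0) < 1 := by rw [Valuation.map_sub_swap]; exact hx₀
    have h3 : Valued.v ((1 : K) - 0) < 1 := lt_of_le_of_lt h1 (max_lt hx₁ h2)
    simp at h3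
  rw [← hcard]
  exact Finset.one_lt_card.2 ⟨x₀, hx₀T, x₁, hx₁T, hne⟩

end Residue

end Fermat.Agent.LT.T6.H313

end

end
-- ===== PACK-END LT/T6/H313/LocalBasic.lean

-- ===== PACK-BEGIN LT/T7/H228/SchurSeq.lean
section



/-!
# Row LT, tower T7, leaf T7.L2.3.5.5 `SD534.SchurSeqC` (registry 2183): the abstract core, part 2
(helper228)

OFF-MAIN.  Mathlib only (+ `SchurAbs.lean`).  `clsSpan228` and `SchurSeqC228` are copies of
`SD534.clsSpan` and `SD534.SchurSeqC` (helper534@b2ea72787 `DownBasisSpec.lean` b2d5929f);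
`schurSeqC_core228 : SchurSeqC228`.  The one-line VERBATIM transfer is in `SchurSeqTop.lean`.
-/

set_option autoImplicit false
set_option linter.unusedSectionVars false
set_option linter.unusedVariables false
set_option linter.style.haveILetI false

open scoped ComplexConjugate InnerProductSpace
open Module

noncomputable section

namespace Fermat.Agent.LT.T7.H228

/-- Copy of `SD534.clsSpan`. -/
def clsSpan228 {M A : Type} [AddCommGroup M] [Module ℂ M] (w : ℕ → M) (J : Set ℕ) (cl : ℕ → A)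
    (a : A) : Submodule ℂ M :=
  Submodule.span ℂ {f : M | ∃ j : ℕ, j ∈ J ∧ cl j = a ∧ f = w j}

/-- A positive definite hermitian form on the subspace `Wm`, linear in the first variable. -/
structure IsForm228 {M : Type} [AddCommGroup M] [Module ℂ M] (form : M → M → ℂ)
    (Wm : Submodule ℂ M) : Prop where
  hadd : ∀ x ∈ Wm, ∀ y ∈ Wm, ∀ z ∈ Wm, form (x + y) z = form x z + form y z
  hsmul : ∀ (a : ℂ), ∀ x ∈ Wm, ∀ y ∈ Wm, form (a • x) y = a * form x y
  hconj : ∀ x ∈ Wm, ∀ y ∈ Wm, form y x = conj (form x y)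
  hnonneg : ∀ x ∈ Wm, 0 ≤ (form x x).re
  hdefinite : ∀ x ∈ Wm, form x x = 0 → x = 0

section Form

variable {M : Type} [AddCommGroup M] [Module ℂ M] {form : M → M → ℂ} {Wm : Submodule ℂ M}

theorem IsForm228.add_right (h : IsForm228 form Wm) {x y z : M} (hx : x ∈ Wm) (hy : y ∈ Wm)
    (hz : z ∈ Wm) : form x (y + z) = form x y + form x z := by
  rw [h.hconj (y + z) (Wm.add_mem hy hz) x hx, h.hadd y hy z hz x hx, map_add,
    ← h.hconj y hy x hx, ← h.hconj z hz x hx]

theorem IsForm228.smul_right (h : IsForm228 form Wm) (t : ℂ) {x y : M} (hx : x ∈ Wm)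
    (hy : y ∈ Wm) : form x (t • y) = conj t * form x y := by
  rw [h.hconj (t • y) (Wm.smul_mem t hy) x hx, h.hsmul t y hy x hx, map_mul, ← h.hconj y hy x hx]

theorem IsForm228.zero_right (h : IsForm228 form Wm) {x : M} (hx : x ∈ Wm) : form x 0 = 0 := by
  have := h.smul_right 0 hx Wm.zero_mem
  rw [zero_smul, map_zero, zero_mul] at this
  exact this

theorem IsForm228.zero_left (h : IsForm228 form Wm) {x : M} (hx : x ∈ Wm) : form 0 x = 0 := by
  have := h.hsmul 0 0 Wm.zero_mem x hx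
  rw [zero_smul, zero_mul] at this
  exact this

/-- The inner product structure on a subspace of `Wm` (Mathlib convention: linear in the SECOND
variable, so `⟪x, y⟫ = form y x`). -/
@[reducible]
def IsForm228.core (h : IsForm228 form Wm) (N : Submodule ℂ M) (hN : N ≤ Wm) :
    InnerProductSpace.Core ℂ N where
  inner x y := form (y : M) (x : M)
  conj_inner_symm x y := (h.hconj (x : M) (hN x.2) (y : M) (hN y.2)).symm
  re_inner_nonneg x := h.hnonneg (x : M) (hN x.2)
  add_left x y z := h.add_right (hN z.2) (hN x.2) (hN y.2)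
  smul_left x y r := h.smul_right r (hN y.2) (hN x.2)
  definite x hx := Subtype.ext (h.hdefinite (x : M) (hN x.2) hx)

end Form

/-! ## The class spaces -/

section PerClass

variable {M : Type} [AddCommGroup M] [Module ℂ M] {form : M → M → ℂ} {Wm : Submodule ℂ M}

/-- The restriction of a map to a subspace on which it is linear. -/
def mkEnd228 (N : Submodule ℂ M) (T : M → M) (hT : ∀ x ∈ N, T x ∈ N)
    (hadd : ∀ x ∈ N, ∀ y ∈ N, T (x + y) = T x + T y)
    (hsmul : ∀ (t : ℂ), ∀ x ∈ N, T (t • x) = t • T x) : N →ₗ[ℂ] N where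
  toFun x := ⟨T x, hT x x.2⟩
  map_add' x y := Subtype.ext (hadd x x.2 y y.2)
  map_smul' t x := Subtype.ext (hsmul t x x.2)

theorem mkEnd228_apply (N : Submodule ℂ M) (T : M → M) (hT : ∀ x ∈ N, T x ∈ N)
    (hadd : ∀ x ∈ N, ∀ y ∈ N, T (x + y) = T x + T y)
    (hsmul : ∀ (t : ℂ), ∀ x ∈ N, T (t • x) = t • T x) (x : N) :
    ((mkEnd228 N T hT hadd hsmul x : N) : M) = T x := rfl

theorem mkEnd228_pow (N : Submodule ℂ M) (T : M → M) (hT : ∀ x ∈ N, T x ∈ N)
    (hadd : ∀ x ∈ N, ∀ y ∈ N, T (x + y) = T x + T y)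
    (hsmul : ∀ (t : ℂ), ∀ x ∈ N, T (t • x) = t • T x) (m : ℕ) (x : N) :
    ((((mkEnd228 N T hT hadd hsmul) ^ m) x : N) : M) = T^[m] x := by
  induction m generalizing x with
  | zero => rfl
  | succ m ih =>
    rw [pow_succ, Module.End.mul_apply, ih, Function.iterate_succ_apply, mkEnd228_apply]

/-- **One class.**  `N ≤ Wm` spanned by the orthonormal family `w j`, `j ∈ s`; `Zk`, `U`, `B`
linear on `N`, preserving `N`, commuting there, `Zk` a group action. -/
theorem perClass228 (h : IsForm228 form Wm) (N : Submodule ℂ M) (hN : N ≤ Wm)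
    (s : Finset ℕ) (w : ℕ → M) (hwN : ∀ j ∈ s, w j ∈ N)
    (hspan : N ≤ Submodule.span ℂ (w '' (s : Set ℕ)))
    (hw1 : ∀ j ∈ s, form (w j) (w j) = 1)
    (hw0 : ∀ i ∈ s, ∀ j ∈ s, i ≠ j → form (w i) (w j) = 0)
    (Zk : ℤ → M → M) (U B : M → M)
    (hladd : ∀ x ∈ N, ∀ y ∈ N,
      U (x + y) = U x + U y ∧ B (x + y) = B x + B y ∧ ∀ k : ℤ, Zk k (x + y) = Zk k x + Zk k y)
    (hlsmul : ∀ (t : ℂ), ∀ x ∈ N,
      U (t • x) = t • U x ∧ B (t • x) = t • B x ∧ ∀ k : ℤ, Zk k (t • x) = t • Zk k x)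
    (hpres : ∀ x ∈ N, U x ∈ N ∧ B x ∈ N ∧ ∀ k : ℤ, Zk k x ∈ N)
    (hcomm : ∀ x ∈ N,
      B (U x) = U (B x) ∧ (∀ k : ℤ, B (Zk k x) = Zk k (B x)) ∧
        ∀ k : ℤ, U (Zk k x) = Zk k (U x))
    (hgrp : ∀ x ∈ N, Zk 0 x = x ∧ ∀ k k' : ℤ, Zk (k + k') x = Zk k (Zk k' x)) :
    ∃ (e : ℕ → M) (b l x : ℕ → ℂ),
      (∀ j ∈ s, e j ∈ N) ∧
      (∀ j ∈ s, form (e j) (e j) = 1) ∧
      (∀ i ∈ s, ∀ j ∈ s, i ≠ j → form (e i) (e j) = 0) ∧
      (∀ χ ∈ Wm, ∑ j ∈ s, ‖form χ (e j)‖ ^ 2 = ∑ j ∈ s, ‖form χ (w j)‖ ^ 2) ∧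
      (∀ j ∈ s, ∀ (k : ℤ) (m : ℕ),
        form (B (Zk k (U^[m] (e j)))) (e j) = x j * b j ^ k * l j ^ m) ∧
      ∀ j ∈ s, ∃ y ∈ N, y ≠ 0 ∧ Zk 1 y = b j • y ∧ U y = l j • y := by
  classical
  letI : NormedAddCommGroup N :=
    @InnerProductSpace.Core.toNormedAddCommGroup ℂ N _ _ _ (h.core N hN)
  letI : InnerProductSpace ℂ N := InnerProductSpace.ofCore (h.core N hN).toCore
  have hinner : ∀ x y : N, ⟪x, y⟫_ℂ = form (y : M) (x : M) := fun _ _ => rfl
  -- the orthonormal basis `w`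
  set wN : s → N := fun j => ⟨w j, hwN j j.2⟩ with hwNdef
  have hworth : Orthonormal ℂ wN := by
    rw [orthonormal_iff_ite]
    intro i j
    rw [hinner]
    by_cases hij : i = j
    · subst hij
      rw [if_pos rfl]
      exact hw1 i i.2
    · rw [if_neg hij]
      exact hw0 j j.2 i i.2 (fun h' => hij (Subtype.ext h'.symm))
  have hwspan : (⊤ : Submodule ℂ N) ≤ Submodule.span ℂ (Set.range wN) := by
    have himg : (N.subtype '' Set.range wN) = w '' (s : Set ℕ) := by
      ext m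
      constructor
      · rintro ⟨_, ⟨j, rfl⟩, rfl⟩
        exact ⟨j.1, j.2, rfl⟩
      · rintro ⟨j, hj, rfl⟩
        exact ⟨wN ⟨j, hj⟩, ⟨⟨j, hj⟩, rfl⟩, rfl⟩
    have hmap : (Submodule.span ℂ (Set.range wN)).map N.subtype
        = Submodule.span ℂ (w '' (s : Set ℕ)) := by
      rw [Submodule.map_span, himg]
    intro x _
    have hx : (x : M) ∈ (Submodule.span ℂ (Set.range wN)).map N.subtype := by
      rw [hmap]
      exact hspan x.2
    obtain ⟨y, hy, hyx⟩ := hx
    have hyx' : y = x := Subtype.ext hyx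
    rw [← hyx']
    exact hy
  set Wb : OrthonormalBasis s ℂ N := OrthonormalBasis.mk hworth hwspan with hWb
  have hWbc : ∀ j, Wb j = wN j := fun j => by rw [hWb, OrthonormalBasis.coe_mk]
  haveI : FiniteDimensional ℂ N := Module.Finite.of_basis Wb.toBasis
  have hfr : finrank ℂ N = Fintype.card s := Module.finrank_eq_card_basis Wb.toBasis
  -- the operators
  set Ul : N →ₗ[ℂ] N := mkEnd228 N U (fun x hx => (hpres x hx).1)
    (fun x hx y hy => (hladd x hx y hy).1) (fun t x hx => (hlsmul t x hx).1) with hUl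
  set Bl : N →ₗ[ℂ] N := mkEnd228 N B (fun x hx => (hpres x hx).2.1)
    (fun x hx y hy => (hladd x hx y hy).2.1) (fun t x hx => (hlsmul t x hx).2.1) with hBl
  set Zl : N →ₗ[ℂ] N := mkEnd228 N (Zk 1) (fun x hx => (hpres x hx).2.2 1)
    (fun x hx y hy => (hladd x hx y hy).2.2 1) (fun t x hx => (hlsmul t x hx).2.2 1) with hZl
  set Zl' : N →ₗ[ℂ] N := mkEnd228 N (Zk (-1)) (fun x hx => (hpres x hx).2.2 (-1))
    (fun x hx y hy => (hladd x hx y hy).2.2 (-1)) (fun t x hx => (hlsmul t x hx).2.2 (-1))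
    with hZl'
  have hZZ' : ∀ x : N, Zl (Zl' x) = x := by
    intro x
    apply Subtype.ext
    show Zk 1 (Zk (-1) (x : M)) = x
    rw [← (hgrp x x.2).2 1 (-1)]
    simpa using (hgrp x x.2).1
  have hZ'Z : ∀ x : N, Zl' (Zl x) = x := by
    intro x
    apply Subtype.ext
    show Zk (-1) (Zk 1 (x : M)) = x
    rw [← (hgrp x x.2).2 (-1) 1]
    simpa using (hgrp x x.2).1
  obtain ⟨ι, hι, e', b', l', x', hcard, horth, hpars, hb0, hdiag, hdiag', heig⟩ :=
    exists_schur_diag228 N Zl Zl' Ul Bl hZZ' hZ'Z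
      (fun x => Subtype.ext ((hcomm x x.2).2.2 1).symm)
      (fun x => Subtype.ext ((hcomm x x.2).2.1 1).symm)
      (fun x => Subtype.ext ((hcomm x x.2).2.2 (-1)).symm)
      (fun x => Subtype.ext ((hcomm x x.2).2.1 (-1)).symm)
      (fun x => Subtype.ext (hcomm x x.2).1.symm)
  have hcs : Fintype.card s = Fintype.card ι := hfr.symm.trans hcard.symm
  set σ : s ≃ ι := Fintype.equivOfCardEq hcs with hσ
  have he1 : ∀ i, ⟪e' i, e' i⟫_ℂ = 1 := fun i => by
    rw [inner_self_eq_norm_sq_to_K, horth.1 i]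
    simp
  -- powers of the shift
  have hzk : ∀ (n : ℕ) (y : N), Zk (n : ℤ) (y : M) = (((Zl ^ n) y : N) : M) := by
    intro n
    induction n with
    | zero =>
      intro y
      simpa using (hgrp y y.2).1
    | succ n ih =>
      intro y
      rw [pow_succ, Module.End.mul_apply, ← ih (Zl y), Nat.cast_succ, (hgrp y y.2).2 (n : ℤ) 1]
      rfl
  have hzk' : ∀ (n : ℕ) (y : N), Zk (-(n : ℤ)) (y : M) = (((Zl' ^ n) y : N) : M) := by
    intro n
    induction n with
    | zero =>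
      intro y
      simpa using (hgrp y y.2).1
    | succ n ih =>
      intro y
      rw [pow_succ, Module.End.mul_apply, ← ih (Zl' y), Nat.cast_succ, neg_add,
        (hgrp y y.2).2 (-(n : ℤ)) (-1)]
      rfl
  have hum : ∀ (m : ℕ) (y : N), U^[m] (y : M) = (((Ul ^ m) y : N) : M) := fun m y =>
    (mkEnd228_pow N U _ _ _ m y).symm
  refine ⟨fun j => if hj : j ∈ s then ((e' (σ ⟨j, hj⟩) : N) : M) else 0,
    fun j => if hj : j ∈ s then b' (σ ⟨j, hj⟩) else 0,
    fun j => if hj : j ∈ s then l' (σ ⟨j, hj⟩) else 0,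
    fun j => if hj : j ∈ s then x' (σ ⟨j, hj⟩) else 0, ?_, ?_, ?_, ?_, ?_, ?_⟩
  · intro j hj
    simp only [dif_pos hj]
    exact (e' (σ ⟨j, hj⟩)).2
  · intro j hj
    simp only [dif_pos hj]
    exact he1 (σ ⟨j, hj⟩)
  · intro i hi j hj hij
    simp only [dif_pos hi, dif_pos hj]
    have hne : σ ⟨j, hj⟩ ≠ σ ⟨i, hi⟩ := fun h' =>
      hij (congrArg Subtype.val (σ.injective h')).symm
    exact horth.2 hne
  · intro χ hχ
    -- the projection of `χ`
    set p : N := ∑ j : s, form χ (w j) • wN j with hp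
    have hkey : ∀ y : N, form χ (y : M) = ⟪y, p⟫_ℂ := by
      intro y
      have hy : y ∈ Submodule.span ℂ (Set.range wN) := hwspan Submodule.mem_top
      induction hy using Submodule.span_induction with
      | mem y hy =>
        obtain ⟨j, rfl⟩ := hy
        rw [hp, hworth.inner_right_fintype]
      | zero =>
        rw [inner_zero_left]
        exact h.zero_right hχ
      | add y y' _ _ hy hy' =>
        rw [inner_add_left, ← hy, ← hy']
        exact h.add_right hχ (hN y.2) (hN y'.2)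
      | smul t y _ hy =>
        rw [inner_smul_left, ← hy]
        exact h.smul_right t hχ (hN y.2)
    have h1 : ∑ j ∈ s, ‖form χ (if hj : j ∈ s then ((e' (σ ⟨j, hj⟩) : N) : M) else 0)‖ ^ 2
        = ‖p‖ ^ 2 := by
      rw [← hpars p, ← Finset.sum_coe_sort s, ← Equiv.sum_comp σ]
      refine Finset.sum_congr rfl fun j _ => ?_
      rw [dif_pos j.2, hkey]
    have h2 : ∑ j ∈ s, ‖form χ (w j)‖ ^ 2 = ‖p‖ ^ 2 := by
      rw [← Wb.sum_sq_norm_inner_right p, ← Finset.sum_coe_sort s]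
      refine Finset.sum_congr rfl fun j _ => ?_
      rw [hWbc, ← hkey]
    rw [h1, h2]
  · intro j hj k m
    simp only [dif_pos hj]
    set i := σ ⟨j, hj⟩ with hi
    rw [hum m (e' i)]
    obtain ⟨n, rfl | rfl⟩ := Int.eq_nat_or_neg k
    · rw [hzk n, zpow_natCast, ← hdiag i n m]
      rfl
    · rw [hzk' n, zpow_neg, zpow_natCast, ← inv_pow, ← hdiag' i n m]
      rfl
  · intro j hj
    simp only [dif_pos hj]
    obtain ⟨y, hy0, hy1, hy2⟩ := heig (σ ⟨j, hj⟩)
    refine ⟨(y : M), y.2, fun h' => hy0 (Subtype.ext h'), ?_, ?_⟩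
    · exact congrArg Subtype.val hy1
    · exact congrArg Subtype.val hy2

end PerClass

/-! ## Regrouping a series class by class -/

section Regroup

variable {A : Type}

/-- Two nonnegative families on `J` with the same sums on every (finite) class have the same
sum. -/
theorem hasSum_regroup228 (J : Set ℕ) (cl : ℕ → A) (fE fW : ℕ → ℝ) (hE0 : ∀ j, 0 ≤ fE j)
    (hW0 : ∀ j, 0 ≤ fW j) (hfin : ∀ j₀ ∈ J, {j : ℕ | j ∈ J ∧ cl j = cl j₀}.Finite)
    (hcls : ∀ j₀ (hj₀ : j₀ ∈ J),
      ∑ j ∈ (hfin j₀ hj₀).toFinset, fE j = ∑ j ∈ (hfin j₀ hj₀).toFinset, fW j)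
    (S : ℝ) (hW : HasSum (fun j : J => fW j) S) : HasSum (fun j : J => fE j) S := by
  classical
  have hW' : HasSum (J.indicator fW) S := hasSum_subtype_iff_indicator.1 hW
  refine hasSum_subtype_iff_indicator.2 ?_
  set gE := J.indicator fE with hgE
  set gW := J.indicator fW with hgW
  have hgE0 : ∀ j, 0 ≤ gE j := Set.indicator_nonneg fun j _ => hE0 j
  have hgW0 : ∀ j, 0 ≤ gW j := Set.indicator_nonneg fun j _ => hW0 j
  -- saturated finite sets
  have hK : ∀ F : Finset ℕ, ∃ F' : Finset ℕ, F ⊆ F' ∧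
      (∀ i ∈ F', i ∈ J → ∀ i' ∈ J, cl i' = cl i → i' ∈ F') ∧
      ∑ j ∈ F', gE j = ∑ j ∈ F', gW j := by
    intro F
    induction F using Finset.induction_on with
    | empty => exact ⟨∅, Finset.Subset.refl _, fun i hi => absurd hi (Finset.notMem_empty i), rfl⟩
    | insert j F₀ hj ih =>
      obtain ⟨F', hsub, hsat, hsum⟩ := ih
      by_cases hjF : j ∈ F'
      · exact ⟨F', Finset.insert_subset hjF hsub, hsat, hsum⟩
      by_cases hjJ : j ∈ J
      · -- add the class of `j`
        set C := (hfin j hjJ).toFinset with hC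
        have hCmem : ∀ i, i ∈ C ↔ i ∈ J ∧ cl i = cl j := fun i => by
          rw [hC, Set.Finite.mem_toFinset]
          rfl
        have hdisj : Disjoint F' C := by
          rw [Finset.disjoint_left]
          intro i hiF hiC
          obtain ⟨hiJ, hicl⟩ := (hCmem i).1 hiC
          exact hjF (hsat i hiF hiJ j hjJ hicl.symm)
        refine ⟨F' ∪ C, ?_, ?_, ?_⟩
        · intro i hi
          rcases Finset.mem_insert.1 hi with rfl | hi
          · exact Finset.mem_union_right _ ((hCmem _).2 ⟨hjJ, rfl⟩)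
          · exact Finset.mem_union_left _ (hsub hi)
        · intro i hi hiJ i' hi'J hcl
          rcases Finset.mem_union.1 hi with hi | hi
          · exact Finset.mem_union_left _ (hsat i hi hiJ i' hi'J hcl)
          · obtain ⟨_, hicl⟩ := (hCmem i).1 hi
            exact Finset.mem_union_right _ ((hCmem _).2 ⟨hi'J, hcl.trans hicl⟩)
        · rw [Finset.sum_union hdisj, Finset.sum_union hdisj, hsum]
          congr 1
          have h1 : ∑ x ∈ C, gE x = ∑ x ∈ C, fE x :=
            Finset.sum_congr rfl fun i hi => Set.indicator_of_mem ((hCmem i).1 hi).1 fE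
          have h2 : ∑ x ∈ C, gW x = ∑ x ∈ C, fW x :=
            Finset.sum_congr rfl fun i hi => Set.indicator_of_mem ((hCmem i).1 hi).1 fW
          rw [h1, h2]
          exact hcls j hjJ
      · -- `j ∉ J`: both terms vanish
        refine ⟨insert j F', Finset.insert_subset_insert j hsub, ?_, ?_⟩
        · intro i hi hiJ i' hi'J hcl
          rcases Finset.mem_insert.1 hi with rfl | hi
          · exact absurd hiJ hjJ
          · exact Finset.mem_insert_of_mem (hsat i hi hiJ i' hi'J hcl)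
        · rw [Finset.sum_insert hjF, Finset.sum_insert hjF, hsum, hgE, hgW,
            Set.indicator_of_notMem hjJ, Set.indicator_of_notMem hjJ]
  have hbd : ∀ F : Finset ℕ, ∑ j ∈ F, gE j ≤ S := by
    intro F
    obtain ⟨F', hsub, -, hsum⟩ := hK F
    calc ∑ j ∈ F, gE j ≤ ∑ j ∈ F', gE j :=
          Finset.sum_le_sum_of_subset_of_nonneg hsub fun i _ _ => hgE0 i
      _ = ∑ j ∈ F', gW j := hsum
      _ ≤ S := sum_le_hasSum F' (fun i _ => hgW0 i) hW'
  have hsE : Summable gE := summable_of_sum_le hgE0 hbd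
  have hle : ∑' j, gE j ≤ S := hsE.tsum_le_of_sum_le hbd
  have hge : S ≤ ∑' j, gE j := by
    refine hasSum_le_of_sum_le hW' fun F => ?_
    obtain ⟨F', hsub, -, hsum⟩ := hK F
    calc ∑ j ∈ F, gW j ≤ ∑ j ∈ F', gW j :=
          Finset.sum_le_sum_of_subset_of_nonneg hsub fun i _ _ => hgW0 i
      _ = ∑ j ∈ F', gE j := hsum.symm
      _ ≤ ∑' j, gE j := sum_le_hasSum F' (fun i _ => hgE0 i) hsE.hasSum
  have : ∑' j, gE j = S := le_antisymm hle hge
  rw [← this]
  exact hsE.hasSum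

end Regroup

/-! ## The statement and the proof -/

/-- Copy of `SD534.SchurSeqC` (with `clsSpan228`). -/
def SchurSeqC228 : Prop :=
  ∀ (M : Type) [AddCommGroup M] [Module ℂ M] (form : M → M → ℂ) (Wm : Submodule ℂ M)
    (A : Type) (w : ℕ → M) (J : Set ℕ) (cl : ℕ → A) (Zk : ℤ → M → M) (U B : M → M),
    (∀ x ∈ Wm, ∀ y ∈ Wm, ∀ z ∈ Wm, form (x + y) z = form x z + form y z) →
    (∀ (a : ℂ), ∀ x ∈ Wm, ∀ y ∈ Wm, form (a • x) y = a * form x y) →
    (∀ x ∈ Wm, ∀ y ∈ Wm, form y x = conj (form x y)) →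
    (∀ x ∈ Wm, 0 ≤ (form x x).re) →
    (∀ x ∈ Wm, form x x = 0 → x = 0) →
    (∀ j ∈ J, w j ∈ Wm) →
    (∀ j ∈ J, form (w j) (w j) = 1) →
    (∀ i ∈ J, ∀ j ∈ J, i ≠ j → form (w i) (w j) = 0) →
    (∀ χ ∈ Wm, HasSum (fun j : J => ‖form χ (w j)‖ ^ 2) (form χ χ).re) →
    (∀ j₀ ∈ J, {j : ℕ | j ∈ J ∧ cl j = cl j₀}.Finite) →
    (∀ a : A, ∀ x ∈ clsSpan228 w J cl a, ∀ y ∈ clsSpan228 w J cl a,
      U (x + y) = U x + U y ∧ B (x + y) = B x + B y ∧ ∀ k : ℤ, Zk k (x + y) = Zk k x + Zk k y) →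
    (∀ (a : A) (t : ℂ), ∀ x ∈ clsSpan228 w J cl a,
      U (t • x) = t • U x ∧ B (t • x) = t • B x ∧ ∀ k : ℤ, Zk k (t • x) = t • Zk k x) →
    (∀ a : A, ∀ x ∈ clsSpan228 w J cl a,
      U x ∈ clsSpan228 w J cl a ∧ B x ∈ clsSpan228 w J cl a ∧
        ∀ k : ℤ, Zk k x ∈ clsSpan228 w J cl a) →
    (∀ a : A, ∀ x ∈ clsSpan228 w J cl a,
      B (U x) = U (B x) ∧ (∀ k : ℤ, B (Zk k x) = Zk k (B x)) ∧
        ∀ k : ℤ, U (Zk k x) = Zk k (U x)) →
    (∀ a : A, ∀ x ∈ clsSpan228 w J cl a,
      Zk 0 x = x ∧ ∀ k k' : ℤ, Zk (k + k') x = Zk k (Zk k' x)) →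
    ∃ (e : ℕ → M) (b l x : ℕ → ℂ),
      (∀ j ∈ J, e j ∈ clsSpan228 w J cl (cl j)) ∧
      (∀ j ∈ J, form (e j) (e j) = 1) ∧
      (∀ i ∈ J, ∀ j ∈ J, i ≠ j → form (e i) (e j) = 0) ∧
      (∀ χ ∈ Wm, HasSum (fun j : J => ‖form χ (e j)‖ ^ 2) (form χ χ).re) ∧
      (∀ j ∈ J, ∀ (k : ℤ) (m : ℕ),
        form (B (Zk k (U^[m] (e j)))) (e j) = x j * b j ^ k * l j ^ m) ∧
      ∀ j ∈ J, ∃ y ∈ clsSpan228 w J cl (cl j), y ≠ 0 ∧ Zk 1 y = b j • y ∧ U y = l j • y

section Main

variable {M : Type} [AddCommGroup M] [Module ℂ M] {form : M → M → ℂ} {Wm : Submodule ℂ M}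
  {A : Type}

theorem clsSpan_le228 (w : ℕ → M) (J : Set ℕ) (cl : ℕ → A) (hwm : ∀ j ∈ J, w j ∈ Wm) (a : A) :
    clsSpan228 w J cl a ≤ Wm := by
  unfold clsSpan228
  rw [Submodule.span_le]
  rintro _ ⟨j, hj, -, rfl⟩
  exact hwm j hj

/-- Different classes are orthogonal. -/
theorem form_cross228 (h : IsForm228 form Wm) (w : ℕ → M) (J : Set ℕ) (cl : ℕ → A)
    (hwm : ∀ j ∈ J, w j ∈ Wm) (hw0 : ∀ i ∈ J, ∀ j ∈ J, i ≠ j → form (w i) (w j) = 0)
    {a a' : A} (haa' : a ≠ a') {x y : M} (hx : x ∈ clsSpan228 w J cl a)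
    (hy : y ∈ clsSpan228 w J cl a') : form x y = 0 := by
  have hle := clsSpan_le228 (Wm := Wm) w J cl hwm
  have step1 : ∀ j' ∈ J, cl j' = a' → ∀ x ∈ clsSpan228 w J cl a, form x (w j') = 0 := by
    intro j' hj' hcl x hx
    unfold clsSpan228 at hx
    induction hx using Submodule.span_induction with
    | mem x hx =>
      obtain ⟨i, hi, hicl, rfl⟩ := hx
      refine hw0 i hi j' hj' fun hij => haa' ?_
      rw [← hicl, ← hcl, hij]
    | zero => exact h.zero_left (hwm j' hj')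
    | add x x' hx hx' ihx ihx' =>
      rw [h.hadd x (hle a hx) x' (hle a hx') _ (hwm j' hj'), ihx, ihx', add_zero]
    | smul t x hx ihx =>
      rw [h.hsmul t x (hle a hx) _ (hwm j' hj'), ihx, mul_zero]
  have hxW : x ∈ Wm := hle a hx
  unfold clsSpan228 at hy
  induction hy using Submodule.span_induction with
  | mem y hy =>
    obtain ⟨j', hj', hcl, rfl⟩ := hy
    exact step1 j' hj' hcl x hx
  | zero => exact h.zero_right hxW
  | add y y' hy hy' ihy ihy' =>
    rw [h.add_right hxW (hle a' hy) (hle a' hy'), ihy, ihy', add_zero]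
  | smul t y hy ihy =>
    rw [h.smul_right t hxW (hle a' hy), ihy, mul_zero]

end Main

/-- **T7.L2.3.5.5** (abstract, Mathlib only): the copy `SchurSeqC228` of `SD534.SchurSeqC`. -/
theorem schurSeqC_core228 : SchurSeqC228 := by
  intro M _ _ form Wm A w J cl Zk U B hadd hsmul hconj hnn hdef hwm hw1 hw0 hpars hfin hladd
    hlsmul hpres hcomm hgrp
  classical
  have h : IsForm228 form Wm := ⟨hadd, hsmul, hconj, hnn, hdef⟩
  have hle := clsSpan_le228 (Wm := Wm) w J cl hwm
  -- class by class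
  have hper : ∀ a : A, ∃ (e : ℕ → M) (b l x : ℕ → ℂ),
      ∀ hfa : {j : ℕ | j ∈ J ∧ cl j = a}.Finite,
      (∀ j ∈ hfa.toFinset, e j ∈ clsSpan228 w J cl a) ∧
      (∀ j ∈ hfa.toFinset, form (e j) (e j) = 1) ∧
      (∀ i ∈ hfa.toFinset, ∀ j ∈ hfa.toFinset, i ≠ j → form (e i) (e j) = 0) ∧
      (∀ χ ∈ Wm, ∑ j ∈ hfa.toFinset, ‖form χ (e j)‖ ^ 2
        = ∑ j ∈ hfa.toFinset, ‖form χ (w j)‖ ^ 2) ∧
      (∀ j ∈ hfa.toFinset, ∀ (k : ℤ) (m : ℕ),
        form (B (Zk k (U^[m] (e j)))) (e j) = x j * b j ^ k * l j ^ m) ∧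
      ∀ j ∈ hfa.toFinset, ∃ y ∈ clsSpan228 w J cl a, y ≠ 0 ∧ Zk 1 y = b j • y ∧ U y = l j • y := by
    intro a
    by_cases hfa : {j : ℕ | j ∈ J ∧ cl j = a}.Finite
    · have hmem : ∀ j, j ∈ hfa.toFinset ↔ j ∈ J ∧ cl j = a := fun j => by
        rw [Set.Finite.mem_toFinset]
        rfl
      obtain ⟨e, b, l, x, hprops⟩ := perClass228 h (clsSpan228 w J cl a) (hle a) hfa.toFinset w
        (fun j hj => Submodule.subset_span ⟨j, ((hmem j).1 hj).1, ((hmem j).1 hj).2, rfl⟩)
        (by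
          unfold clsSpan228
          refine Submodule.span_mono ?_
          rintro _ ⟨j, hj, hcl, rfl⟩
          exact ⟨j, Finset.mem_coe.2 ((hmem j).2 ⟨hj, hcl⟩), rfl⟩)
        (fun j hj => hw1 j ((hmem j).1 hj).1)
        (fun i hi j hj hij => hw0 i ((hmem i).1 hi).1 j ((hmem j).1 hj).1 hij)
        Zk U B (hladd a) (hlsmul a) (hpres a) (hcomm a) (hgrp a)
      exact ⟨e, b, l, x, fun _ => hprops⟩
    · exact ⟨fun _ => 0, fun _ => 0, fun _ => 0, fun _ => 0, fun hfa' => absurd hfa' hfa⟩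
  choose e b l x hprops using hper
  have hmem : ∀ j₀ (hj₀ : j₀ ∈ J) (j : ℕ), j ∈ (hfin j₀ hj₀).toFinset ↔ j ∈ J ∧ cl j = cl j₀ :=
    fun j₀ hj₀ j => by
      rw [Set.Finite.mem_toFinset]
      rfl
  have hself : ∀ j (hj : j ∈ J), j ∈ (hfin j hj).toFinset := fun j hj =>
    (hmem j hj j).2 ⟨hj, rfl⟩
  refine ⟨fun j => e (cl j) j, fun j => b (cl j) j, fun j => l (cl j) j, fun j => x (cl j) j,
    ?_, ?_, ?_, ?_, ?_, ?_⟩
  · intro j hj
    exact (hprops (cl j) (hfin j hj)).1 j (hself j hj)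
  · intro j hj
    exact (hprops (cl j) (hfin j hj)).2.1 j (hself j hj)
  · intro i hi j hj hij
    by_cases hcl : cl i = cl j
    · have hi' : i ∈ (hfin j hj).toFinset := (hmem j hj i).2 ⟨hi, hcl⟩
      have := (hprops (cl j) (hfin j hj)).2.2.1 i hi' j (hself j hj) hij
      simp only [hcl]
      exact this
    · exact form_cross228 h w J cl hwm hw0 hcl ((hprops (cl i) (hfin i hi)).1 i (hself i hi))
        ((hprops (cl j) (hfin j hj)).1 j (hself j hj))
  · intro χ hχ
    refine hasSum_regroup228 J cl (fun j => ‖form χ (e (cl j) j)‖ ^ 2)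
      (fun j => ‖form χ (w j)‖ ^ 2) (fun j => by positivity) (fun j => by positivity) hfin ?_
      _ (hpars χ hχ)
    intro j₀ hj₀
    rw [← (hprops (cl j₀) (hfin j₀ hj₀)).2.2.2.1 χ hχ]
    refine Finset.sum_congr rfl fun j hj => ?_
    rw [((hmem j₀ hj₀ j).1 hj).2]
  · intro j hj k m
    exact (hprops (cl j) (hfin j hj)).2.2.2.2.1 j (hself j hj) k m
  · intro j hj
    exact (hprops (cl j) (hfin j hj)).2.2.2.2.2 j (hself j hj)

end Fermat.Agent.LT.T7.H228

end
end
-- ===== PACK-END LT/T7/H228/SchurSeq.lean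

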