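import Mathlib
import Fermat.Agent.Pack.LT3.E2L0
import Fermat.Agent.Pack.LT2.E0L1
import Fermat.Agent.Pack.LT3.E4L1
import Fermat.Agent.Pack.LT3.E4L3
import Fermat.Agent.Pack.LT3.E4L2
import Fermat.Agent.Pack.LT3.E3L2
import Fermat.Agent.Pack.LT3.E5L2

set_option linter.all false

-- ===== PACK-BEGIN LT/T6/H569/IwaHomeoR.lean
section



/-!
# Row LT, tower T6, leaf T6.23.03 `IwaHomeoRC` (helper569, registry row 1465)

OFF-MAIN.  `iwaHomeoRC569 : H189.IwaHomeoRC`, VERBATIM against `LT/T6/H189/ArchIntCut.lean`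
(helper189): the Iwasawa map `jR (u₁, u₂, x, z) = diag(e^{u₁}, e^{u₂}) n(x) k_z` of `GL₂(ℝ)⁺` is an
open embedding with range `det > 0`.  Proof: an explicit continuous left inverse defined on the
whole of `GL₂(ℝ)`.  Mathlib only.
-/

set_option autoImplicit false

open MeasureTheory
open scoped Matrix ENNReal

noncomputable section

namespace Fermat.Agent.LT.T6.H569

open Fermat.Agent.LT.T6.H189

/-! ## The entries -/

theorem dgR_val569 (u₁ u₂ : ℝ) :
    (dgR u₁ u₂ : Matrix (Fin 2) (Fin 2) ℝ) = !![Real.exp u₁, 0; 0, Real.exp u₂] := rfl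

theorem unR_val569 (x : ℝ) : (unR x : Matrix (Fin 2) (Fin 2) ℝ) = !![1, x; 0, 1] := rfl

theorem rotZ_val569 (z : Circle) :
    (rotZ z : Matrix (Fin 2) (Fin 2) ℝ)
      = !![(z : ℂ).re, -(z : ℂ).im; (z : ℂ).im, (z : ℂ).re] := rfl

theorem circle_sq569 (z : Circle) : (z : ℂ).re ^ 2 + (z : ℂ).im ^ 2 = 1 := by
  have := Circle.normSq_coe z
  rw [Complex.normSq_apply] at this
  nlinarith [this]

theorem jR_val569 (p : ℝ × ℝ × ℝ × Circle) :
    (jR p : Matrix (Fin 2) (Fin 2) ℝ)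
      = !![Real.exp p.1 * ((p.2.2.2 : ℂ).re + p.2.2.1 * (p.2.2.2 : ℂ).im),
          Real.exp p.1 * (-(p.2.2.2 : ℂ).im + p.2.2.1 * (p.2.2.2 : ℂ).re);
          Real.exp p.2.1 * (p.2.2.2 : ℂ).im, Real.exp p.2.1 * (p.2.2.2 : ℂ).re] := by
  unfold jR
  rw [Matrix.GeneralLinearGroup.coe_mul, Matrix.GeneralLinearGroup.coe_mul, dgR_val569,
    unR_val569, rotZ_val569]
  ext i j
  fin_cases i <;> fin_cases j <;>
    simp [Matrix.mul_apply, Fin.sum_univ_two] <;> ring

theorem jR_det569 (p : ℝ × ℝ × ℝ × Circle) :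
    (jR p : Matrix (Fin 2) (Fin 2) ℝ).det = Real.exp p.1 * Real.exp p.2.1 := by
  rw [jR_val569, Matrix.det_fin_two_of]
  have h := circle_sq569 p.2.2.2
  have e : Real.exp p.1 * ((p.2.2.2 : ℂ).re + p.2.2.1 * (p.2.2.2 : ℂ).im)
        * (Real.exp p.2.1 * (p.2.2.2 : ℂ).re)
      - Real.exp p.1 * (-(p.2.2.2 : ℂ).im + p.2.2.1 * (p.2.2.2 : ℂ).re)
        * (Real.exp p.2.1 * (p.2.2.2 : ℂ).im)
      = Real.exp p.1 * Real.exp p.2.1 * ((p.2.2.2 : ℂ).re ^ 2 + (p.2.2.2 : ℂ).im ^ 2) := by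
    ring
  rw [e, h, mul_one]

/-! ## Continuity of the Iwasawa map -/

theorem dgR_inv569 (u₁ u₂ : ℝ) : (dgR u₁ u₂)⁻¹ = dgR (-u₁) (-u₂) := by
  apply inv_eq_of_mul_eq_one_right
  apply Units.ext
  rw [Matrix.GeneralLinearGroup.coe_mul, dgR_val569, dgR_val569]
  ext i j
  fin_cases i <;> fin_cases j <;>
    simp [Matrix.mul_apply, Fin.sum_univ_two, ← Real.exp_add]

theorem unR_inv569 (x : ℝ) : (unR x)⁻¹ = unR (-x) := by
  apply inv_eq_of_mul_eq_one_right
  apply Units.ext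
  rw [Matrix.GeneralLinearGroup.coe_mul, unR_val569, unR_val569]
  ext i j
  fin_cases i <;> fin_cases j <;> simp [Matrix.mul_apply, Fin.sum_univ_two]

theorem rotZ_inv569 (z : Circle) : (rotZ z)⁻¹ = rotZ z⁻¹ := by
  apply inv_eq_of_mul_eq_one_right
  apply Units.ext
  rw [Matrix.GeneralLinearGroup.coe_mul, rotZ_val569, rotZ_val569, Circle.coe_inv_eq_conj]
  have h := circle_sq569 z
  ext i j
  fin_cases i <;> fin_cases j <;>
    simp [Matrix.mul_apply, Fin.sum_univ_two] <;> nlinarith [h]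

theorem continuous_mat569 {X : Type*} [TopologicalSpace X] {a b c d : X → ℝ}
    (ha : Continuous a) (hb : Continuous b) (hc : Continuous c) (hd : Continuous d) :
    Continuous fun x => (!![a x, b x; c x, d x] : Matrix (Fin 2) (Fin 2) ℝ) := by
  apply continuous_matrix
  intro i j
  fin_cases i <;> fin_cases j
  · exact ha
  · exact hb
  · exact hc
  · exact hd

theorem continuous_dgR569 : Continuous fun p : ℝ × ℝ => dgR p.1 p.2 := by
  rw [Units.continuous_iff]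
  constructor
  · show Continuous fun p : ℝ × ℝ =>
      (!![Real.exp p.1, 0; 0, Real.exp p.2] : Matrix (Fin 2) (Fin 2) ℝ)
    exact continuous_mat569 (Real.continuous_exp.comp continuous_fst) continuous_const
      continuous_const (Real.continuous_exp.comp continuous_snd)
  · have e : (fun p : ℝ × ℝ => (((dgR p.1 p.2)⁻¹ : GL (Fin 2) ℝ) : Matrix (Fin 2) (Fin 2) ℝ))
        = fun p : ℝ × ℝ =>
          (!![Real.exp (-p.1), 0; 0, Real.exp (-p.2)] : Matrix (Fin 2) (Fin 2) ℝ) := by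
      funext p
      rw [dgR_inv569, dgR_val569]
    rw [e]
    exact continuous_mat569 (Real.continuous_exp.comp continuous_fst.neg) continuous_const
      continuous_const (Real.continuous_exp.comp continuous_snd.neg)

theorem continuous_unR569 : Continuous unR := by
  rw [Units.continuous_iff]
  constructor
  · show Continuous fun x : ℝ => (!![1, x; 0, 1] : Matrix (Fin 2) (Fin 2) ℝ)
    exact continuous_mat569 continuous_const continuous_id continuous_const continuous_const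
  · have e : (fun x : ℝ => (((unR x)⁻¹ : GL (Fin 2) ℝ) : Matrix (Fin 2) (Fin 2) ℝ))
        = fun x : ℝ => (!![1, -x; 0, 1] : Matrix (Fin 2) (Fin 2) ℝ) := by
      funext x
      rw [unR_inv569, unR_val569]
    rw [e]
    exact continuous_mat569 continuous_const continuous_neg continuous_const continuous_const

theorem continuous_re569 : Continuous fun z : Circle => (z : ℂ).re :=
  Complex.continuous_re.comp continuous_subtype_val

theorem continuous_im569 : Continuous fun z : Circle => (z : ℂ).im :=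
  Complex.continuous_im.comp continuous_subtype_val

theorem continuous_rotZ569 : Continuous rotZ := by
  rw [Units.continuous_iff]
  constructor
  · show Continuous fun z : Circle =>
      (!![(z : ℂ).re, -(z : ℂ).im; (z : ℂ).im, (z : ℂ).re] : Matrix (Fin 2) (Fin 2) ℝ)
    exact continuous_mat569 continuous_re569 continuous_im569.neg continuous_im569
      continuous_re569
  · have e : (fun z : Circle => (((rotZ z)⁻¹ : GL (Fin 2) ℝ) : Matrix (Fin 2) (Fin 2) ℝ))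
        = fun z : Circle =>
          (!![((z⁻¹ : Circle) : ℂ).re, -((z⁻¹ : Circle) : ℂ).im;
              ((z⁻¹ : Circle) : ℂ).im, ((z⁻¹ : Circle) : ℂ).re] :
            Matrix (Fin 2) (Fin 2) ℝ) := by
      funext z
      rw [rotZ_inv569, rotZ_val569]
    rw [e]
    exact continuous_mat569 (continuous_re569.comp continuous_inv)
      (continuous_im569.comp continuous_inv).neg (continuous_im569.comp continuous_inv)
      (continuous_re569.comp continuous_inv)

theorem continuous_jR569 : Continuous jR := by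
  unfold jR
  have h1 : Continuous fun p : ℝ × ℝ × ℝ × Circle => dgR p.1 p.2.1 :=
    continuous_dgR569.comp (continuous_fst.prodMk (continuous_fst.comp continuous_snd))
  have h2 : Continuous fun p : ℝ × ℝ × ℝ × Circle => unR p.2.2.1 :=
    continuous_unR569.comp (continuous_fst.comp (continuous_snd.comp continuous_snd))
  have h3 : Continuous fun p : ℝ × ℝ × ℝ × Circle => rotZ p.2.2.2 :=
    continuous_rotZ569.comp (continuous_snd.comp (continuous_snd.comp continuous_snd))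
  exact (h1.mul h2).mul h3

/-! ## The inverse map -/

/-- `c² + d²` for the second row `(c, d)` of `g`. -/
def rowSq569 (g : GL (Fin 2) ℝ) : ℝ :=
  (g : Matrix (Fin 2) (Fin 2) ℝ) 1 0 ^ 2 + (g : Matrix (Fin 2) (Fin 2) ℝ) 1 1 ^ 2

theorem rowSq_pos569 (g : GL (Fin 2) ℝ) : 0 < rowSq569 g := by
  have hdet := Matrix.GeneralLinearGroup.det_ne_zero g
  rw [Matrix.det_fin_two] at hdet
  unfold rowSq569
  by_contra hneg
  have h0 : (g : Matrix (Fin 2) (Fin 2) ℝ) 1 0 ^ 2 + (g : Matrix (Fin 2) (Fin 2) ℝ) 1 1 ^ 2 = 0 :=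
    le_antisymm (not_lt.1 hneg) (by positivity)
  have hc : (g : Matrix (Fin 2) (Fin 2) ℝ) 1 0 = 0 := by nlinarith [sq_nonneg ((g : Matrix (Fin 2) (Fin 2) ℝ) 1 0), sq_nonneg ((g : Matrix (Fin 2) (Fin 2) ℝ) 1 1)]
  have hd : (g : Matrix (Fin 2) (Fin 2) ℝ) 1 1 = 0 := by nlinarith [sq_nonneg ((g : Matrix (Fin 2) (Fin 2) ℝ) 1 0), sq_nonneg ((g : Matrix (Fin 2) (Fin 2) ℝ) 1 1)]
  apply hdet
  rw [hc, hd]
  ring

/-- The length of the second row. -/
def rowLen569 (g : GL (Fin 2) ℝ) : ℝ := Real.sqrt (rowSq569 g)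

theorem rowLen_pos569 (g : GL (Fin 2) ℝ) : 0 < rowLen569 g :=
  Real.sqrt_pos.2 (rowSq_pos569 g)

theorem rowLen_sq569 (g : GL (Fin 2) ℝ) : rowLen569 g ^ 2 = rowSq569 g :=
  Real.sq_sqrt (rowSq_pos569 g).le

/-- The point of the circle attached to the second row. -/
def kZ569 (g : GL (Fin 2) ℝ) : Circle :=
  ⟨(((g : Matrix (Fin 2) (Fin 2) ℝ) 1 1 : ℝ) + ((g : Matrix (Fin 2) (Fin 2) ℝ) 1 0 : ℝ)
      * Complex.I) / ((rowLen569 g : ℝ) : ℂ), by
    have hn : ‖(((g : Matrix (Fin 2) (Fin 2) ℝ) 1 1 : ℝ)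
        + ((g : Matrix (Fin 2) (Fin 2) ℝ) 1 0 : ℝ) * Complex.I) / ((rowLen569 g : ℝ) : ℂ)‖
        = 1 := by
      rw [norm_div, Complex.norm_add_mul_I, Complex.norm_real,
        Real.norm_of_nonneg (rowLen_pos569 g).le]
      have e : (g : Matrix (Fin 2) (Fin 2) ℝ) 1 1 ^ 2 + (g : Matrix (Fin 2) (Fin 2) ℝ) 1 0 ^ 2
          = rowSq569 g := by
        unfold rowSq569
        ring
      rw [e]
      exact div_self (rowLen_pos569 g).ne'
    exact mem_sphere_zero_iff_norm.2 hn⟩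

theorem kZ_coe569 (g : GL (Fin 2) ℝ) :
    ((kZ569 g : Circle) : ℂ)
      = (((g : Matrix (Fin 2) (Fin 2) ℝ) 1 1 : ℝ) + ((g : Matrix (Fin 2) (Fin 2) ℝ) 1 0 : ℝ)
          * Complex.I) / ((rowLen569 g : ℝ) : ℂ) := rfl

theorem kZ_re569 (g : GL (Fin 2) ℝ) :
    ((kZ569 g : Circle) : ℂ).re = (g : Matrix (Fin 2) (Fin 2) ℝ) 1 1 / rowLen569 g := by
  rw [kZ_coe569, Complex.div_ofReal_re]
  simp

theorem kZ_im569 (g : GL (Fin 2) ℝ) :
    ((kZ569 g : Circle) : ℂ).im = (g : Matrix (Fin 2) (Fin 2) ℝ) 1 0 / rowLen569 g := by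
  rw [kZ_coe569, Complex.div_ofReal_im]
  simp

/-- The inverse of the Iwasawa map, defined on the whole group. -/
def kR569 (g : GL (Fin 2) ℝ) : ℝ × ℝ × ℝ × Circle :=
  (Real.log (g : Matrix (Fin 2) (Fin 2) ℝ).det - Real.log (rowLen569 g),
    Real.log (rowLen569 g),
    ((g : Matrix (Fin 2) (Fin 2) ℝ) 0 0 * (g : Matrix (Fin 2) (Fin 2) ℝ) 1 0
      + (g : Matrix (Fin 2) (Fin 2) ℝ) 0 1 * (g : Matrix (Fin 2) (Fin 2) ℝ) 1 1)
      / (g : Matrix (Fin 2) (Fin 2) ℝ).det,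
    kZ569 g)

theorem continuous_entry569 (i j : Fin 2) :
    Continuous fun g : GL (Fin 2) ℝ => (g : Matrix (Fin 2) (Fin 2) ℝ) i j :=
  (Units.continuous_val).matrix_elem i j

theorem continuous_det569 :
    Continuous fun g : GL (Fin 2) ℝ => (g : Matrix (Fin 2) (Fin 2) ℝ).det :=
  (Units.continuous_val).matrix_det

theorem continuous_rowLen569 : Continuous rowLen569 := by
  unfold rowLen569 rowSq569
  exact Real.continuous_sqrt.comp
    (((continuous_entry569 1 0).pow 2).add ((continuous_entry569 1 1).pow 2))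

theorem continuous_kZ569 : Continuous kZ569 := by
  unfold kZ569
  apply Continuous.subtype_mk
  apply Continuous.div
  · exact (Complex.continuous_ofReal.comp (continuous_entry569 1 1)).add
      ((Complex.continuous_ofReal.comp (continuous_entry569 1 0)).mul continuous_const)
  · exact Complex.continuous_ofReal.comp continuous_rowLen569
  · intro g
    exact Complex.ofReal_ne_zero.2 (rowLen_pos569 g).ne'

theorem continuous_kR569 : Continuous kR569 := by
  unfold kR569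
  have hlogdet : Continuous fun g : GL (Fin 2) ℝ =>
      Real.log (g : Matrix (Fin 2) (Fin 2) ℝ).det :=
    continuous_det569.log fun g => Matrix.GeneralLinearGroup.det_ne_zero g
  have hloglen : Continuous fun g : GL (Fin 2) ℝ => Real.log (rowLen569 g) :=
    continuous_rowLen569.log fun g => (rowLen_pos569 g).ne'
  have hx : Continuous fun g : GL (Fin 2) ℝ =>
      ((g : Matrix (Fin 2) (Fin 2) ℝ) 0 0 * (g : Matrix (Fin 2) (Fin 2) ℝ) 1 0
        + (g : Matrix (Fin 2) (Fin 2) ℝ) 0 1 * (g : Matrix (Fin 2) (Fin 2) ℝ) 1 1)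
        / (g : Matrix (Fin 2) (Fin 2) ℝ).det :=
    (((continuous_entry569 0 0).mul (continuous_entry569 1 0)).add
      ((continuous_entry569 0 1).mul (continuous_entry569 1 1))).div continuous_det569
      fun g => Matrix.GeneralLinearGroup.det_ne_zero g
  exact (hlogdet.sub hloglen).prodMk (hloglen.prodMk (hx.prodMk continuous_kZ569))

/-! ## The two compositions -/

theorem jR_apply10_569 (p : ℝ × ℝ × ℝ × Circle) :
    (jR p : Matrix (Fin 2) (Fin 2) ℝ) 1 0 = Real.exp p.2.1 * (p.2.2.2 : ℂ).im := by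
  rw [jR_val569]; rfl

theorem jR_apply11_569 (p : ℝ × ℝ × ℝ × Circle) :
    (jR p : Matrix (Fin 2) (Fin 2) ℝ) 1 1 = Real.exp p.2.1 * (p.2.2.2 : ℂ).re := by
  rw [jR_val569]; rfl

theorem jR_apply00_569 (p : ℝ × ℝ × ℝ × Circle) :
    (jR p : Matrix (Fin 2) (Fin 2) ℝ) 0 0
      = Real.exp p.1 * ((p.2.2.2 : ℂ).re + p.2.2.1 * (p.2.2.2 : ℂ).im) := by
  rw [jR_val569]; rfl

theorem jR_apply01_569 (p : ℝ × ℝ × ℝ × Circle) :
    (jR p : Matrix (Fin 2) (Fin 2) ℝ) 0 1
      = Real.exp p.1 * (-(p.2.2.2 : ℂ).im + p.2.2.1 * (p.2.2.2 : ℂ).re) := by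
  rw [jR_val569]; rfl

theorem rowLen_jR569 (p : ℝ × ℝ × ℝ × Circle) : rowLen569 (jR p) = Real.exp p.2.1 := by
  unfold rowLen569 rowSq569
  rw [jR_apply10_569, jR_apply11_569]
  have h := circle_sq569 p.2.2.2
  have e : (Real.exp p.2.1 * (p.2.2.2 : ℂ).im) ^ 2 + (Real.exp p.2.1 * (p.2.2.2 : ℂ).re) ^ 2
      = Real.exp p.2.1 ^ 2 * ((p.2.2.2 : ℂ).re ^ 2 + (p.2.2.2 : ℂ).im ^ 2) := by ring
  rw [e, h, mul_one, Real.sqrt_sq (Real.exp_pos _).le]

theorem kR_jR569 : Function.LeftInverse kR569 jR := by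
  intro p
  obtain ⟨u₁, u₂, x, z⟩ := p
  have hlen := rowLen_jR569 (u₁, u₂, x, z)
  have hdet := jR_det569 (u₁, u₂, x, z)
  have h10 := jR_apply10_569 (u₁, u₂, x, z)
  have h11 := jR_apply11_569 (u₁, u₂, x, z)
  have h00 := jR_apply00_569 (u₁, u₂, x, z)
  have h01 := jR_apply01_569 (u₁, u₂, x, z)
  simp only at hlen hdet h10 h11 h00 h01
  have hz := circle_sq569 z
  have he1 : Real.exp u₁ ≠ 0 := (Real.exp_pos u₁).ne'
  have he2 : Real.exp u₂ ≠ 0 := (Real.exp_pos u₂).ne'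
  unfold kR569
  refine Prod.ext ?_ (Prod.ext ?_ (Prod.ext ?_ ?_))
  · show Real.log (jR (u₁, u₂, x, z) : Matrix (Fin 2) (Fin 2) ℝ).det
      - Real.log (rowLen569 (jR (u₁, u₂, x, z))) = u₁
    rw [hdet, hlen, Real.log_mul he1 he2, Real.log_exp, Real.log_exp]
    ring
  · show Real.log (rowLen569 (jR (u₁, u₂, x, z))) = u₂
    rw [hlen, Real.log_exp]
  · show ((jR (u₁, u₂, x, z) : Matrix (Fin 2) (Fin 2) ℝ) 0 0
        * (jR (u₁, u₂, x, z) : Matrix (Fin 2) (Fin 2) ℝ) 1 0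
      + (jR (u₁, u₂, x, z) : Matrix (Fin 2) (Fin 2) ℝ) 0 1
        * (jR (u₁, u₂, x, z) : Matrix (Fin 2) (Fin 2) ℝ) 1 1)
      / (jR (u₁, u₂, x, z) : Matrix (Fin 2) (Fin 2) ℝ).det = x
    rw [hdet, h00, h01, h10, h11]
    rw [div_eq_iff (mul_ne_zero he1 he2)]
    have e : Real.exp u₁ * ((z : ℂ).re + x * (z : ℂ).im) * (Real.exp u₂ * (z : ℂ).im)
        + Real.exp u₁ * (-(z : ℂ).im + x * (z : ℂ).re) * (Real.exp u₂ * (z : ℂ).re)
        = x * (Real.exp u₁ * Real.exp u₂) * ((z : ℂ).re ^ 2 + (z : ℂ).im ^ 2) := by ring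
    rw [e, hz, mul_one]
  · show kZ569 (jR (u₁, u₂, x, z)) = z
    apply Circle.ext
    rw [kZ_coe569, hlen, h10, h11]
    have hc : ((Real.exp u₂ : ℝ) : ℂ) ≠ 0 := Complex.ofReal_ne_zero.2 he2
    rw [div_eq_iff hc]
    conv_rhs => rw [← Complex.re_add_im (z : ℂ)]
    push_cast
    ring

theorem jR_kR569 (g : GL (Fin 2) ℝ) (hg : g ∈ posR) : jR (kR569 g) = g := by
  have hD : 0 < (g : Matrix (Fin 2) (Fin 2) ℝ).det := hg
  have hr := rowLen_pos569 g
  have hr2 := rowLen_sq569 g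
  unfold rowSq569 at hr2
  have hdet2 := Matrix.det_fin_two (g : Matrix (Fin 2) (Fin 2) ℝ)
  set D := (g : Matrix (Fin 2) (Fin 2) ℝ).det with hDdef
  set r := rowLen569 g with hrdef
  set a := (g : Matrix (Fin 2) (Fin 2) ℝ) 0 0 with hadef
  set b := (g : Matrix (Fin 2) (Fin 2) ℝ) 0 1 with hbdef
  set c := (g : Matrix (Fin 2) (Fin 2) ℝ) 1 0 with hcdef
  set d := (g : Matrix (Fin 2) (Fin 2) ℝ) 1 1 with hddef
  have hre : ((kZ569 g : Circle) : ℂ).re = d / r := kZ_re569 g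
  have him : ((kZ569 g : Circle) : ℂ).im = c / r := kZ_im569 g
  have he1 : Real.exp (Real.log D - Real.log r) = D / r := by
    rw [Real.exp_sub, Real.exp_log hD, Real.exp_log hr]
  have he2 : Real.exp (Real.log r) = r := Real.exp_log hr
  apply Units.ext
  rw [jR_val569]
  show (!![Real.exp (Real.log D - Real.log r)
          * (((kZ569 g : Circle) : ℂ).re + (a * c + b * d) / D * ((kZ569 g : Circle) : ℂ).im),
        Real.exp (Real.log D - Real.log r)
          * (-((kZ569 g : Circle) : ℂ).im + (a * c + b * d) / D * ((kZ569 g : Circle) : ℂ).re);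
        Real.exp (Real.log r) * ((kZ569 g : Circle) : ℂ).im,
        Real.exp (Real.log r) * ((kZ569 g : Circle) : ℂ).re] : Matrix (Fin 2) (Fin 2) ℝ)
      = (g : Matrix (Fin 2) (Fin 2) ℝ)
  rw [he1, he2, hre, him]
  have hrne : r ≠ 0 := hr.ne'
  have hDne : D ≠ 0 := hD.ne'
  ext i j
  fin_cases i <;> fin_cases j
  · show D / r * (d / r + (a * c + b * d) / D * (c / r)) = a
    field_simp
    rw [hr2, hdet2]
    ring
  · show D / r * (-(c / r) + (a * c + b * d) / D * (d / r)) = b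
    field_simp
    rw [hr2, hdet2]
    ring
  · show r * (c / r) = c
    field_simp
  · show r * (d / r) = d
    field_simp

/-! ## The leaf -/

theorem range_jR569 : Set.range jR = posR := by
  ext g
  constructor
  · rintro ⟨p, rfl⟩
    show 0 < (jR p : Matrix (Fin 2) (Fin 2) ℝ).det
    rw [jR_det569]
    exact mul_pos (Real.exp_pos _) (Real.exp_pos _)
  · intro hg
    exact ⟨kR569 g, jR_kR569 g hg⟩

theorem isOpen_posR569 : IsOpen posR :=
  isOpen_lt continuous_const continuous_det569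

/-- **T6.23.03 `IwaHomeoRC`** (registry row 1465), VERBATIM. -/
theorem iwaHomeoRC569 : IwaHomeoRC := by
  refine ⟨?_, range_jR569⟩
  refine Topology.IsOpenEmbedding.mk (kR_jR569.isEmbedding continuous_kR569 continuous_jR569) ?_
  rw [range_jR569]
  exact isOpen_posR569

end Fermat.Agent.LT.T6.H569

end
end
-- ===== PACK-END LT/T6/H569/IwaHomeoR.lean

-- ===== PACK-BEGIN LT/T6/H79/CircleMeas.lean
section



/-!
# Row LT, tower T6, leaf T6.23.06 `CircleMeasC` (L4) -- helper79, registry 1468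

OFF-MAIN.  `circleMeasC_79 : H189.CircleMeasC`, VERBATIM against `LT/T6/H189/ArchIntCut.lean`
(helper189@45580d1ec, sha256 `db591abe…`).

The image of `dθ` on `(0, 2π]` under `θ ↦ e^{iθ}` is `2π` times the Haar probability measure of the
circle: `θ ↦ e^{iθ}` is `AddCircle.toCircle ∘ mk` on `AddCircle (2π)`, `mk` maps `dθ` on `(0, 2π]` to
the volume of `AddCircle (2π)` (`AddCircle.measurePreserving_mk`), which is translation invariant;
so the image measure is invariant and of total mass `2π`, and the Haar measure of a compact group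
is unique up to a scalar (`Measure.isMulInvariant_eq_smul_of_compactSpace`).
-/

set_option autoImplicit false

open MeasureTheory
open scoped Matrix ENNReal

noncomputable section

namespace Fermat.Agent.LT.T6.H79

open Fermat.Agent.LT.T6.H189

/-- `θ ↦ e^{iθ}` factors through `AddCircle (2π)`. -/
theorem exp_eq_toCircle79 (θ : ℝ) :
    Circle.exp θ = AddCircle.toCircle (T := 2 * Real.pi) (θ : AddCircle (2 * Real.pi)) := by
  rw [AddCircle.toCircle_apply_mk, div_self (by positivity), one_mul]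

/-- **T6.23.06 `CircleMeasC`**, VERBATIM. -/
theorem circleMeasC_79 : CircleMeasC := by
  letI : MeasurableSpace Circle := borel Circle
  haveI : BorelSpace Circle := ⟨rfl⟩
  haveI : Fact (0 < 2 * Real.pi) := ⟨Real.two_pi_pos⟩
  refine ⟨ENNReal.ofReal (2 * Real.pi), ?_, ENNReal.ofReal_ne_top, ?_⟩
  · simp [Real.pi_pos]
  intro κ hκ hκ1
  haveI := hκ
  have hmk := AddCircle.measurePreserving_mk (2 * Real.pi) 0
  have hang : angM = volume.restrict (Set.Ioc 0 (0 + 2 * Real.pi)) := by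
    rw [zero_add]; rfl
  have htc : Measurable (AddCircle.toCircle (T := 2 * Real.pi)) :=
    AddCircle.continuous_toCircle.measurable
  -- the image measure is the image of the volume of `AddCircle (2π)`
  have hν : Measure.map (fun θ : ℝ => Circle.exp θ) angM
      = Measure.map (AddCircle.toCircle (T := 2 * Real.pi)) volume := by
    have e : (fun θ : ℝ => Circle.exp θ)
        = (AddCircle.toCircle (T := 2 * Real.pi)) ∘
            (fun θ : ℝ => (θ : AddCircle (2 * Real.pi))) := funext exp_eq_toCircle79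
    rw [e, ← Measure.map_map htc hmk.measurable, hang, hmk.map_eq]
  rw [hν]
  set ν : Measure Circle := Measure.map (AddCircle.toCircle (T := 2 * Real.pi)) volume with hνdef
  have huniv : ν Set.univ = ENNReal.ofReal (2 * Real.pi) := by
    rw [hνdef, Measure.map_apply htc MeasurableSet.univ, Set.preimage_univ, ← hmk.map_eq,
      Measure.map_apply hmk.measurable MeasurableSet.univ, Set.preimage_univ,
      Measure.restrict_apply MeasurableSet.univ, Set.univ_inter, Real.volume_Ioc]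
    simp
  haveI : IsFiniteMeasure ν := ⟨by rw [huniv]; exact ENNReal.ofReal_lt_top⟩
  haveI : ν.IsMulLeftInvariant := by
    refine ⟨fun z => ?_⟩
    have hz : z = AddCircle.toCircle (T := 2 * Real.pi) ((Complex.arg z : ℝ) : AddCircle (2 * Real.pi)) := by
      rw [← exp_eq_toCircle79, Circle.exp_arg]
    have e : (fun x : Circle => z * x) ∘ (AddCircle.toCircle (T := 2 * Real.pi))
        = (AddCircle.toCircle (T := 2 * Real.pi)) ∘
            (fun x : AddCircle (2 * Real.pi) => ((Complex.arg z : ℝ) : AddCircle (2 * Real.pi)) + x) := by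
      funext x
      simp only [Function.comp_apply]
      rw [AddCircle.toCircle_add, ← hz]
    rw [hνdef, Measure.map_map (measurable_const_mul z) htc, e,
      ← Measure.map_map htc (measurable_const_add _), map_add_left_eq_self]
  have h := Measure.isMulInvariant_eq_smul_of_compactSpace ν κ
  have hc : ((ν.haarScalarFactor κ : NNReal) : ℝ≥0∞) = ENNReal.ofReal (2 * Real.pi) := by
    have h' := congrArg (fun m : Measure Circle => m Set.univ) h
    simp only [Measure.smul_apply, hκ1] at h'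
    rw [← huniv, h']
    simp [ENNReal.smul_def]
  calc ν = ν.haarScalarFactor κ • κ := h
    _ = ((ν.haarScalarFactor κ : NNReal) : ℝ≥0∞) • κ := by rw [ENNReal.smul_def]
    _ = ENNReal.ofReal (2 * Real.pi) • κ := by rw [hc]

end Fermat.Agent.LT.T6.H79

end

end
-- ===== PACK-END LT/T6/H79/CircleMeas.lean

-- ===== PACK-BEGIN LT/T6/H915/PolOfR.lean
section


/-!
# Row LT, tower T6, leaf T6.23.14 `H189.PolOfRC` (helper915)

OFF-MAIN.  On `LT/T6/H189/ArchIntCut.lean` (helper189, byte-identical copy, sha256 db591abe...,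
with `ArchIntSpec.lean` 4ac6c090...).  No hole, nothing assumed.

    polOfRC915 : Fermat.Agent.LT.T6.H189.PolOfRC
               = IwasawaRC → RightInvRC → CartanRC → AbelAreaRC → PolarRC

The constant of the polar formula is the constant `c` of the Iwasawa formula.  `RightInvRC` is not
used: the right average is taken in the Iwasawa coordinates.  For `F ≥ 0` measurable:

1. `∫_{det > 0} F dμ = ∫_{det > 0} F(k_φ g) dμ(g) = c ∫ F(k_φ diag n(x) k_θ) du₁ du₂ dx dθ`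
   (left invariance, `IwasawaRC`; `polar_step1_915`);
2. average over `φ ∈ (0, 2π]` and Tonelli: `2π ∫ F dμ = c ∫ J(diag(e^{u₁}, e^{u₂}) n(x)) du₁ du₂ dx`,
   `J(g) = ∫∫ F(k_φ g k_θ) dφ dθ` (`polar_step2_915`);
3. `J(g) = P(log det g / 2, arcosh ρ(g))`, `P(r, t) = ∫∫ F(e^r k_φ a_t k_θ) dφ dθ`, by `CartanRC`
   and the translation invariance of `dθ` on the periodic functions (`avgJ_eq_avgP915`,
   `lintegral_angM_add915`); `ρ(diag n(x)) = cosh s + e^s x²/2`, `s = u₁ - u₂`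
   (`rhoP_dgR_mul_unR915`);
4. `(u₁, u₂) ↦ (r, s) = ((u₁ + u₂)/2, u₁ - u₂)` preserves `du₁ du₂` (`lintegral_rs915`, translations
   and Tonelli only), `AbelAreaRC` (`lintegral_abel915`), `arcosh (cosh t) = t` on `t > 0`;
5. cancel `2π`, Tonelli (`polar_step6_915`), `Measure.ext_of_lintegral`.
-/

set_option autoImplicit false
open MeasureTheory
open scoped ENNReal Matrix

noncomputable section
namespace Fermat.Agent.LT.T6.H915
open Fermat.Agent.LT.T6.H189

/-! ## 1. Matrices -/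

theorem coe_dgR915 (u₁ u₂ : ℝ) :
    ((dgR u₁ u₂ : GL (Fin 2) ℝ) : Matrix (Fin 2) (Fin 2) ℝ) = !![Real.exp u₁, 0; 0, Real.exp u₂] :=
  rfl

theorem coe_unR915 (x : ℝ) :
    ((unR x : GL (Fin 2) ℝ) : Matrix (Fin 2) (Fin 2) ℝ) = !![1, x; 0, 1] := rfl

theorem coe_rotR915 (θ : ℝ) :
    ((rotR θ : GL (Fin 2) ℝ) : Matrix (Fin 2) (Fin 2) ℝ)
      = !![Real.cos θ, -Real.sin θ; Real.sin θ, Real.cos θ] := rfl

theorem rotR_add915 (a b : ℝ) : rotR (a + b) = rotR a * rotR b := by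
  apply Units.ext
  rw [Units.val_mul, coe_rotR915, coe_rotR915, coe_rotR915, Real.cos_add, Real.sin_add]
  ext i j
  fin_cases i <;> fin_cases j <;> simp [Matrix.mul_apply, Fin.sum_univ_two] <;> ring

theorem rotR_zero915 : rotR 0 = 1 := by
  apply Units.ext
  rw [coe_rotR915]
  ext i j
  fin_cases i <;> fin_cases j <;> simp

theorem rotR_periodic915 : Function.Periodic rotR (2 * Real.pi) := by
  intro θ
  apply Units.ext
  rw [coe_rotR915, coe_rotR915, Real.cos_add_two_pi, Real.sin_add_two_pi]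

theorem rotR_inv915 (θ : ℝ) : (rotR θ)⁻¹ = rotR (-θ) := by
  apply inv_eq_of_mul_eq_one_right
  rw [← rotR_add915, add_neg_cancel, rotR_zero915]

theorem dgR_add915 (u₁ u₂ v₁ v₂ : ℝ) : dgR (u₁ + v₁) (u₂ + v₂) = dgR u₁ u₂ * dgR v₁ v₂ := by
  apply Units.ext
  rw [Units.val_mul, coe_dgR915, coe_dgR915, coe_dgR915, Real.exp_add, Real.exp_add]
  ext i j
  fin_cases i <;> fin_cases j <;> simp [Matrix.mul_apply, Fin.sum_univ_two]

theorem dgR_zero915 : dgR 0 0 = 1 := by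
  apply Units.ext
  rw [coe_dgR915]
  ext i j
  fin_cases i <;> fin_cases j <;> simp

theorem dgR_inv915 (u₁ u₂ : ℝ) : (dgR u₁ u₂)⁻¹ = dgR (-u₁) (-u₂) := by
  apply inv_eq_of_mul_eq_one_right
  rw [← dgR_add915, add_neg_cancel, add_neg_cancel, dgR_zero915]

theorem unR_add915 (x y : ℝ) : unR (x + y) = unR x * unR y := by
  apply Units.ext
  rw [Units.val_mul, coe_unR915, coe_unR915, coe_unR915]
  ext i j
  fin_cases i <;> fin_cases j <;> simp [Matrix.mul_apply, Fin.sum_univ_two, add_comm]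

theorem unR_zero915 : unR 0 = 1 := by
  apply Units.ext
  rw [coe_unR915]
  ext i j
  fin_cases i <;> fin_cases j <;> simp

theorem unR_inv915 (x : ℝ) : (unR x)⁻¹ = unR (-x) := by
  apply inv_eq_of_mul_eq_one_right
  rw [← unR_add915, add_neg_cancel, unR_zero915]

/-- The positive scalars are central. -/
theorem sclR_comm915 (r : ℝ) (g : GL (Fin 2) ℝ) : sclR r * g = g * sclR r := by
  apply Units.ext
  rw [Units.val_mul, Units.val_mul]
  show (dgR r r : Matrix (Fin 2) (Fin 2) ℝ) * _ = _ * (dgR r r : Matrix (Fin 2) (Fin 2) ℝ)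
  rw [coe_dgR915]
  ext i j
  fin_cases i <;> fin_cases j <;> simp [Matrix.mul_apply, Fin.sum_univ_two, mul_comm]

theorem det_rotR915 (θ : ℝ) : ((rotR θ : GL (Fin 2) ℝ) : Matrix (Fin 2) (Fin 2) ℝ).det = 1 := by
  rw [coe_rotR915, Matrix.det_fin_two_of]
  have h := Real.cos_sq_add_sin_sq θ
  nlinarith [h]

theorem coe_dgR_mul_unR915 (u₁ u₂ x : ℝ) :
    ((dgR u₁ u₂ * unR x : GL (Fin 2) ℝ) : Matrix (Fin 2) (Fin 2) ℝ)
      = !![Real.exp u₁, Real.exp u₁ * x; 0, Real.exp u₂] := by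
  rw [Units.val_mul, coe_dgR915, coe_unR915]
  ext i j
  fin_cases i <;> fin_cases j <;> simp [Matrix.mul_apply, Fin.sum_univ_two]

theorem det_dgR_mul_unR915 (u₁ u₂ x : ℝ) :
    ((dgR u₁ u₂ * unR x : GL (Fin 2) ℝ) : Matrix (Fin 2) (Fin 2) ℝ).det
      = Real.exp (u₁ + u₂) := by
  rw [coe_dgR_mul_unR915, Matrix.det_fin_two_of, Real.exp_add]
  ring

theorem dgR_mul_unR_mem_posR915 (u₁ u₂ x : ℝ) : dgR u₁ u₂ * unR x ∈ posR := by
  show 0 < ((dgR u₁ u₂ * unR x : GL (Fin 2) ℝ) : Matrix (Fin 2) (Fin 2) ℝ).det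
  rw [det_dgR_mul_unR915]
  exact Real.exp_pos _

theorem rhoP_dgR_mul_unR915 (u₁ u₂ x : ℝ) :
    rhoP (dgR u₁ u₂ * unR x)
      = Real.cosh (u₁ - u₂) + Real.exp (u₁ - u₂) * x ^ 2 / 2 := by
  unfold rhoP
  rw [det_dgR_mul_unR915, coe_dgR_mul_unR915]
  have h1 : (!![Real.exp u₁, Real.exp u₁ * x; 0, Real.exp u₂]ᵀ
      * !![Real.exp u₁, Real.exp u₁ * x; 0, Real.exp u₂]).trace
      = Real.exp u₁ ^ 2 + (Real.exp u₁ * x) ^ 2 + Real.exp u₂ ^ 2 := by
    simp [Matrix.trace_fin_two, Matrix.mul_apply, Fin.sum_univ_two]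
    ring
  rw [h1, Real.cosh_eq, Real.exp_add]
  have e1 : Real.exp (u₁ - u₂) = Real.exp u₁ / Real.exp u₂ := Real.exp_sub _ _
  have e2 : Real.exp (-(u₁ - u₂)) = Real.exp u₂ / Real.exp u₁ := by
    rw [neg_sub]; exact Real.exp_sub _ _
  rw [e1, e2]
  have hp1 : Real.exp u₁ ≠ 0 := Real.exp_ne_zero _
  have hp2 : Real.exp u₂ ≠ 0 := Real.exp_ne_zero _
  field_simp
  ring

/-! ## 2. Continuity -/

theorem continuous_coe_dgR915 :
    Continuous fun p : ℝ × ℝ => ((dgR p.1 p.2 : GL (Fin 2) ℝ) : Matrix (Fin 2) (Fin 2) ℝ) := by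
  apply continuous_matrix
  intro i j
  fin_cases i <;> fin_cases j <;> simp [coe_dgR915] <;> fun_prop

theorem continuous_dgR915 : Continuous fun p : ℝ × ℝ => dgR p.1 p.2 := by
  rw [Units.continuous_iff]
  refine ⟨continuous_coe_dgR915, ?_⟩
  have h : (fun p : ℝ × ℝ => (((dgR p.1 p.2)⁻¹ : GL (Fin 2) ℝ) : Matrix (Fin 2) (Fin 2) ℝ))
      = (fun p : ℝ × ℝ => ((dgR p.1 p.2 : GL (Fin 2) ℝ) : Matrix (Fin 2) (Fin 2) ℝ))
        ∘ fun p : ℝ × ℝ => (-p.1, -p.2) := by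
    funext p
    rw [dgR_inv915]
    rfl
  rw [h]
  exact continuous_coe_dgR915.comp (by fun_prop)

theorem continuous_coe_unR915 :
    Continuous fun x : ℝ => ((unR x : GL (Fin 2) ℝ) : Matrix (Fin 2) (Fin 2) ℝ) := by
  apply continuous_matrix
  intro i j
  fin_cases i <;> fin_cases j <;> simp [coe_unR915] <;> fun_prop

theorem continuous_unR915 : Continuous unR := by
  rw [Units.continuous_iff]
  refine ⟨continuous_coe_unR915, ?_⟩
  have h : (fun x : ℝ => (((unR x)⁻¹ : GL (Fin 2) ℝ) : Matrix (Fin 2) (Fin 2) ℝ))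
      = (fun x : ℝ => ((unR x : GL (Fin 2) ℝ) : Matrix (Fin 2) (Fin 2) ℝ)) ∘ fun x : ℝ => -x := by
    funext x
    rw [unR_inv915]
    rfl
  rw [h]
  exact continuous_coe_unR915.comp continuous_neg

theorem continuous_coe_rotR915 :
    Continuous fun θ : ℝ => ((rotR θ : GL (Fin 2) ℝ) : Matrix (Fin 2) (Fin 2) ℝ) := by
  apply continuous_matrix
  intro i j
  fin_cases i <;> fin_cases j <;> simp [coe_rotR915] <;> fun_prop

theorem continuous_rotR915 : Continuous rotR := by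
  rw [Units.continuous_iff]
  refine ⟨continuous_coe_rotR915, ?_⟩
  have h : (fun θ : ℝ => (((rotR θ)⁻¹ : GL (Fin 2) ℝ) : Matrix (Fin 2) (Fin 2) ℝ))
      = (fun θ : ℝ => ((rotR θ : GL (Fin 2) ℝ) : Matrix (Fin 2) (Fin 2) ℝ)) ∘ fun θ : ℝ => -θ := by
    funext θ
    rw [rotR_inv915]
    rfl
  rw [h]
  exact continuous_coe_rotR915.comp continuous_neg

theorem continuous_sclR915 : Continuous sclR :=
  continuous_dgR915.comp (continuous_id.prodMk continuous_id)

theorem continuous_atR915 : Continuous atR := by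
  have h : atR = (fun p : ℝ × ℝ => dgR p.1 p.2) ∘ fun t : ℝ => (t / 2, -(t / 2)) := rfl
  rw [h]
  exact continuous_dgR915.comp (by fun_prop)

theorem continuous_det915 :
    Continuous fun g : GL (Fin 2) ℝ => (g : Matrix (Fin 2) (Fin 2) ℝ).det :=
  Units.continuous_val.matrix_det

theorem isOpen_posR915 : IsOpen posR :=
  isOpen_Ioi.preimage continuous_det915


/-! ## 3. Measure theory on the real line -/

/-- Translation invariance of `dθ` on `(0, 2π]` on the periodic functions. -/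
theorem lintegral_angM_add915 (f : ℝ → ℝ≥0∞) (hf : Function.Periodic f (2 * Real.pi)) (a : ℝ) :
    ∫⁻ θ, f (θ + a) ∂angM = ∫⁻ θ, f θ ∂angM := by
  have : Fact (0 < 2 * Real.pi) := ⟨by positivity⟩
  have key : ∀ t : ℝ, ∫⁻ θ in Set.Ioc t (t + 2 * Real.pi), f θ
      = ∫⁻ b : AddCircle (2 * Real.pi), hf.lift b := by
    intro t
    rw [← AddCircle.lintegral_preimage (2 * Real.pi) t hf.lift]
    refine lintegral_congr fun θ => ?_
    exact (Function.Periodic.lift_coe hf θ).symm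
  unfold angM
  have h1 : ∫⁻ θ in Set.Ioc 0 (2 * Real.pi), f (θ + a)
      = ∫⁻ θ in Set.Ioc a (a + 2 * Real.pi), f θ := by
    rw [← lintegral_indicator measurableSet_Ioc, ← lintegral_indicator measurableSet_Ioc]
    rw [← lintegral_add_right_eq_self (fun θ => (Set.Ioc a (a + 2 * Real.pi)).indicator f θ) a]
    refine lintegral_congr fun θ => ?_
    have h2 : θ ∈ Set.Ioc 0 (2 * Real.pi) ↔ θ + a ∈ Set.Ioc a (a + 2 * Real.pi) := by
      simp only [Set.mem_Ioc]
      constructor <;> rintro ⟨h1, h2⟩ <;> constructor <;> linarith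
    by_cases h3 : θ ∈ Set.Ioc 0 (2 * Real.pi)
    · rw [Set.indicator_of_mem h3, Set.indicator_of_mem (h2.mp h3)]
    · rw [Set.indicator_of_notMem h3, Set.indicator_of_notMem (fun h => h3 (h2.mpr h))]
  rw [h1, key a]
  have h0 := key 0
  rw [zero_add] at h0
  rw [h0]

theorem angM_univ915 : angM Set.univ = ENNReal.ofReal (2 * Real.pi) := by
  unfold angM
  rw [Measure.restrict_apply_univ, Real.volume_Ioc, sub_zero]

instance instSFiniteAngM915 : SFinite angM := by unfold angM; infer_instance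

instance instSFiniteRadMR915 : SFinite radMR := by unfold radMR; infer_instance

theorem lintegral_prod3_915 {μ₁ μ₂ μ₃ : Measure ℝ} [SFinite μ₂] [SFinite μ₃]
    (f : ℝ × ℝ × ℝ → ℝ≥0∞) (hf : Measurable f) :
    ∫⁻ p, f p ∂(μ₁.prod (μ₂.prod μ₃)) = ∫⁻ a, ∫⁻ b, ∫⁻ c, f (a, b, c) ∂μ₃ ∂μ₂ ∂μ₁ := by
  rw [lintegral_prod _ hf.aemeasurable]
  refine lintegral_congr fun a => ?_
  have h1 : Measurable fun q : ℝ × ℝ => f (a, q) := hf.comp measurable_prodMk_left
  rw [lintegral_prod (fun q : ℝ × ℝ => f (a, q)) h1.aemeasurable]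

theorem lintegral_prod4_915 {μ₁ μ₂ μ₃ μ₄ : Measure ℝ} [SFinite μ₂] [SFinite μ₃] [SFinite μ₄]
    (f : ℝ × ℝ × ℝ × ℝ → ℝ≥0∞) (hf : Measurable f) :
    ∫⁻ p, f p ∂(μ₁.prod (μ₂.prod (μ₃.prod μ₄)))
      = ∫⁻ a, ∫⁻ b, ∫⁻ c, ∫⁻ d, f (a, b, c, d) ∂μ₄ ∂μ₃ ∂μ₂ ∂μ₁ := by
  rw [lintegral_prod _ hf.aemeasurable]
  refine lintegral_congr fun a => ?_
  have h1 : Measurable fun q : ℝ × ℝ × ℝ => f (a, q) := hf.comp measurable_prodMk_left
  rw [lintegral_prod3_915 (fun q : ℝ × ℝ × ℝ => f (a, q)) h1]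

/-- Re-association of a four-fold integral. -/
theorem lintegral_reassoc915 {μ₁ μ₂ μ₃ μ₄ : Measure ℝ} [SFinite μ₂] [SFinite μ₃] [SFinite μ₄]
    (f : ℝ × ℝ × ℝ × ℝ → ℝ≥0∞) (hf : Measurable f) :
    ∫⁻ p, f p ∂(μ₁.prod (μ₂.prod (μ₃.prod μ₄)))
      = ∫⁻ q, ∫⁻ d, f (q.1, q.2.1, q.2.2, d) ∂μ₄ ∂(μ₁.prod (μ₂.prod μ₃)) := by
  have h1 : Measurable fun z : (ℝ × ℝ × ℝ) × ℝ => f (z.1.1, z.1.2.1, z.1.2.2, z.2) :=
    hf.comp (by fun_prop)
  have h2 : Measurable fun q : ℝ × ℝ × ℝ => ∫⁻ d, f (q.1, q.2.1, q.2.2, d) ∂μ₄ :=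
    h1.lintegral_prod_right'
  rw [lintegral_prod4_915 f hf,
    lintegral_prod3_915 (fun q : ℝ × ℝ × ℝ => ∫⁻ d, f (q.1, q.2.1, q.2.2, d) ∂μ₄) h2]

/-- The change of variables `r = (u₁ + u₂)/2`, `s = u₁ - u₂`. -/
theorem lintegral_rs915 (H : ℝ × ℝ → ℝ≥0∞) (hH : Measurable H) :
    ∫⁻ u₁ : ℝ, ∫⁻ u₂ : ℝ, H ((u₁ + u₂) / 2, u₁ - u₂) = ∫⁻ r : ℝ, ∫⁻ s : ℝ, H (r, s) := by
  have h1 : ∀ u₁ : ℝ, ∫⁻ u₂ : ℝ, H ((u₁ + u₂) / 2, u₁ - u₂)
      = ∫⁻ s : ℝ, H (u₁ - s / 2, s) := by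
    intro u₁
    rw [← lintegral_sub_left_eq_self (fun s : ℝ => H (u₁ - s / 2, s)) u₁]
    refine lintegral_congr fun u₂ => ?_
    have : u₁ - (u₁ - u₂) / 2 = (u₁ + u₂) / 2 := by ring
    rw [this]
  simp only [h1]
  have hm1 : Measurable fun z : ℝ × ℝ => H (z.1 - z.2 / 2, z.2) := hH.comp (by fun_prop)
  rw [lintegral_lintegral_swap (f := fun u₁ s : ℝ => H (u₁ - s / 2, s)) hm1.aemeasurable]
  have h2 : ∀ s : ℝ, ∫⁻ u₁ : ℝ, H (u₁ - s / 2, s) = ∫⁻ r : ℝ, H (r, s) := by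
    intro s
    exact lintegral_sub_right_eq_self (fun r : ℝ => H (r, s)) (s / 2)
  simp only [h2]
  exact lintegral_lintegral_swap (f := fun (s r : ℝ) => H (r, s))
    (hH.comp measurable_swap).aemeasurable

theorem measurable_arcosh915 : Measurable Real.arcosh := by
  unfold Real.arcosh
  fun_prop

/-- The consequence of `AbelAreaRC` for the iterated integrals. -/
theorem lintegral_abel915 (hA : AbelAreaRC) (Q : ℝ → ℝ≥0∞) (hQ : Measurable Q) :
    ∫⁻ s : ℝ, ∫⁻ x : ℝ, Q (Real.cosh s + Real.exp s * x ^ 2 / 2)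
      = ENNReal.ofReal (2 * Real.pi) * ∫⁻ t, Q (Real.cosh t) ∂radMR := by
  have hρ : Measurable fun p : ℝ × ℝ => Real.cosh p.1 + Real.exp p.1 * p.2 ^ 2 / 2 := by
    fun_prop
  have h1 : ∫⁻ s : ℝ, ∫⁻ x : ℝ, Q (Real.cosh s + Real.exp s * x ^ 2 / 2)
      = ∫⁻ p : ℝ × ℝ, Q (Real.cosh p.1 + Real.exp p.1 * p.2 ^ 2 / 2)
          ∂((volume : Measure ℝ).prod (volume : Measure ℝ)) :=
    (lintegral_prod (fun p : ℝ × ℝ => Q (Real.cosh p.1 + Real.exp p.1 * p.2 ^ 2 / 2))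
      (hQ.comp hρ).aemeasurable).symm
  have h2 : ((volume : Measure ℝ).prod (volume : Measure ℝ)) = (volume : Measure (ℝ × ℝ)) := rfl
  rw [h1, h2, ← lintegral_map hQ hρ, hA, lintegral_smul_measure,
    lintegral_map hQ Real.measurable_cosh]
  rfl

/-- `arcosh (cosh t) = t` almost everywhere for `sinh t dt` on `(0, ∞)`. -/
theorem lintegral_radMR_arcosh915 (P : ℝ → ℝ≥0∞) :
    ∫⁻ t, P (Real.arcosh (Real.cosh t)) ∂radMR = ∫⁻ t, P t ∂radMR := by
  apply lintegral_congr_ae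
  have h1 : ∀ᵐ t ∂(volume.restrict (Set.Ioi (0 : ℝ))), t ∈ Set.Ioi (0 : ℝ) :=
    ae_restrict_mem measurableSet_Ioi
  have h2 : radMR ≪ volume.restrict (Set.Ioi (0 : ℝ)) := by
    unfold radMR
    exact withDensity_absolutelyContinuous _ _
  filter_upwards [h2.ae_le h1] with t ht
  rw [Real.arcosh_cosh (le_of_lt ht)]

/-! ## 4. Measure theory on the group -/

section Group

local instance instMeasurableSpaceGL915 : MeasurableSpace (GL (Fin 2) ℝ) := borel _

local instance instBorelSpaceGL915 : BorelSpace (GL (Fin 2) ℝ) := ⟨rfl⟩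

theorem measurableSet_posR915 : MeasurableSet posR := isOpen_posR915.measurableSet

theorem continuous_iwaR915 : Continuous iwaR := by
  unfold iwaR
  have h1 : Continuous fun p : ℝ × ℝ × ℝ × ℝ => dgR p.1 p.2.1 :=
    continuous_dgR915.comp (f := fun p : ℝ × ℝ × ℝ × ℝ => (p.1, p.2.1)) (by fun_prop)
  have h2 : Continuous fun p : ℝ × ℝ × ℝ × ℝ => unR p.2.2.1 :=
    continuous_unR915.comp (by fun_prop)
  have h3 : Continuous fun p : ℝ × ℝ × ℝ × ℝ => rotR p.2.2.2 :=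
    continuous_rotR915.comp (by fun_prop)
  exact (h1.mul h2).mul h3

theorem continuous_polR915 : Continuous polR := by
  unfold polR
  have h1 : Continuous fun p : ℝ × ℝ × ℝ × ℝ => sclR p.1 :=
    continuous_sclR915.comp (by fun_prop)
  have h2 : Continuous fun p : ℝ × ℝ × ℝ × ℝ => rotR p.2.1 :=
    continuous_rotR915.comp (by fun_prop)
  have h3 : Continuous fun p : ℝ × ℝ × ℝ × ℝ => atR p.2.2.1 :=
    continuous_atR915.comp (by fun_prop)
  have h4 : Continuous fun p : ℝ × ℝ × ℝ × ℝ => rotR p.2.2.2 :=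
    continuous_rotR915.comp (by fun_prop)
  exact ((h1.mul h2).mul h3).mul h4

theorem measurable_iwaR915 : Measurable iwaR := continuous_iwaR915.measurable

theorem measurable_polR915 : Measurable polR := continuous_polR915.measurable

/-- Left invariance of `μ|_{det > 0}` under the rotations. -/
theorem setLIntegral_rot_mul915 (μ : Measure (GL (Fin 2) ℝ)) [μ.IsMulLeftInvariant]
    (F : GL (Fin 2) ℝ → ℝ≥0∞) (φ : ℝ) :
    ∫⁻ g in posR, F (rotR φ * g) ∂μ = ∫⁻ g in posR, F g ∂μ := by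
  rw [← lintegral_indicator measurableSet_posR915, ← lintegral_indicator measurableSet_posR915]
  rw [← lintegral_mul_left_eq_self (fun g => posR.indicator F g) (rotR φ)]
  refine lintegral_congr fun g => ?_
  have h2 : g ∈ posR ↔ rotR φ * g ∈ posR := by
    unfold posR
    simp only [Set.mem_ofPred_eq]
    rw [Units.val_mul, Matrix.det_mul, det_rotR915, one_mul]
  by_cases h3 : g ∈ posR
  · rw [Set.indicator_of_mem h3, Set.indicator_of_mem (h2.mp h3)]
  · rw [Set.indicator_of_notMem h3, Set.indicator_of_notMem (fun h => h3 (h2.mpr h))]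

/-- The average over `K × K` in the polar coordinates. -/
def avgP915 (F : GL (Fin 2) ℝ → ℝ≥0∞) (r t : ℝ) : ℝ≥0∞ :=
  ∫⁻ φ, ∫⁻ θ, F (sclR r * rotR φ * atR t * rotR θ) ∂angM ∂angM

/-- The average over `K × K`. -/
def avgJ915 (F : GL (Fin 2) ℝ → ℝ≥0∞) (g : GL (Fin 2) ℝ) : ℝ≥0∞ :=
  ∫⁻ φ, ∫⁻ θ, F (rotR φ * g * rotR θ) ∂angM ∂angM

theorem avgP915_def (F : GL (Fin 2) ℝ → ℝ≥0∞) (r t : ℝ) :
    avgP915 F r t = ∫⁻ φ, (∫⁻ θ, F (sclR r * rotR φ * atR t * rotR θ) ∂angM) ∂angM := rfl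

theorem avgJ915_def (F : GL (Fin 2) ℝ → ℝ≥0∞) (g : GL (Fin 2) ℝ) :
    avgJ915 F g = ∫⁻ φ, (∫⁻ θ, F (rotR φ * g * rotR θ) ∂angM) ∂angM := rfl

theorem measurable_avgP915 (F : GL (Fin 2) ℝ → ℝ≥0∞) (hF : Measurable F) :
    Measurable fun z : ℝ × ℝ => avgP915 F z.1 z.2 := by
  unfold avgP915
  have hc : Continuous fun w : ((ℝ × ℝ) × ℝ) × ℝ =>
      sclR w.1.1.1 * rotR w.1.2 * atR w.1.1.2 * rotR w.2 := by
    have h1 : Continuous fun w : ((ℝ × ℝ) × ℝ) × ℝ => sclR w.1.1.1 :=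
      continuous_sclR915.comp (by fun_prop)
    have h2 : Continuous fun w : ((ℝ × ℝ) × ℝ) × ℝ => rotR w.1.2 :=
      continuous_rotR915.comp (by fun_prop)
    have h3 : Continuous fun w : ((ℝ × ℝ) × ℝ) × ℝ => atR w.1.1.2 :=
      continuous_atR915.comp (by fun_prop)
    have h4 : Continuous fun w : ((ℝ × ℝ) × ℝ) × ℝ => rotR w.2 :=
      continuous_rotR915.comp (by fun_prop)
    exact ((h1.mul h2).mul h3).mul h4
  have h5 : Measurable fun w : ((ℝ × ℝ) × ℝ) × ℝ =>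
      F (sclR w.1.1.1 * rotR w.1.2 * atR w.1.1.2 * rotR w.2) := hF.comp hc.measurable
  have h6 : Measurable fun w : (ℝ × ℝ) × ℝ =>
      ∫⁻ θ, F (sclR w.1.1 * rotR w.2 * atR w.1.2 * rotR θ) ∂angM := h5.lintegral_prod_right'
  exact h6.lintegral_prod_right'

/-- `F̃ (g) = F̃ (e^r a_t)` with `r = log det g / 2`, `t = arcosh ρ(g)` (from the Cartan
decomposition). -/
theorem avgJ_eq_avgP915 (hC : CartanRC) (F : GL (Fin 2) ℝ → ℝ≥0∞) (g : GL (Fin 2) ℝ)
    (hg : g ∈ posR) :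
    avgJ915 F g
      = avgP915 F (Real.log (g : Matrix (Fin 2) (Fin 2) ℝ).det / 2) (Real.arcosh (rhoP g)) := by
  obtain ⟨-, θ₁, θ₂, hdec⟩ := hC g hg
  obtain ⟨r, hr⟩ : ∃ r : ℝ, r = Real.log (g : Matrix (Fin 2) (Fin 2) ℝ).det / 2 := ⟨_, rfl⟩
  obtain ⟨t, ht⟩ : ∃ t : ℝ, t = Real.arcosh (rhoP g) := ⟨_, rfl⟩
  rw [← hr, ← ht] at hdec ⊢
  have hmul : ∀ φ θ : ℝ, rotR φ * g * rotR θ
      = sclR r * rotR (φ + θ₁) * atR t * rotR (θ + θ₂) := by
    intro φ θ
    have e1 : rotR (θ + θ₂) = rotR θ₂ * rotR θ := by rw [add_comm, rotR_add915]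
    rw [e1, rotR_add915, ← mul_assoc (sclR r), sclR_comm915 r (rotR φ)]
    conv_lhs => rw [hdec]
    simp only [mul_assoc]
  unfold avgJ915 avgP915
  simp only [hmul]
  have hper : ∀ ψ : ℝ, Function.Periodic
      (fun θ : ℝ => F (sclR r * rotR ψ * atR t * rotR θ)) (2 * Real.pi) := by
    intro ψ θ
    show F (sclR r * rotR ψ * atR t * rotR (θ + 2 * Real.pi)) = _
    rw [rotR_periodic915 θ]
  have h1 : ∀ ψ : ℝ, ∫⁻ θ, F (sclR r * rotR ψ * atR t * rotR (θ + θ₂)) ∂angM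
      = ∫⁻ θ, F (sclR r * rotR ψ * atR t * rotR θ) ∂angM := fun ψ =>
    lintegral_angM_add915 (fun θ : ℝ => F (sclR r * rotR ψ * atR t * rotR θ)) (hper ψ) θ₂
  simp only [h1]
  have hper2 : Function.Periodic
      (fun φ : ℝ => ∫⁻ θ, F (sclR r * rotR φ * atR t * rotR θ) ∂angM) (2 * Real.pi) := by
    intro φ
    show ∫⁻ θ, F (sclR r * rotR (φ + 2 * Real.pi) * atR t * rotR θ) ∂angM = _
    rw [rotR_periodic915 φ]
  exact lintegral_angM_add915
    (fun φ : ℝ => ∫⁻ θ, F (sclR r * rotR φ * atR t * rotR θ) ∂angM) hper2 θ₁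

attribute [local irreducible] avgP915 avgJ915

/-- The Iwasawa formula for the lower integrals. -/
theorem lintegral_iwa915 (μ : Measure (GL (Fin 2) ℝ)) (c : ℝ≥0∞)
    (hI : μ.restrict posR = c • Measure.map iwaR iwaMR)
    (F : GL (Fin 2) ℝ → ℝ≥0∞) (hF : Measurable F) :
    ∫⁻ g in posR, F g ∂μ
      = c * ∫⁻ q : ℝ × ℝ × ℝ, ∫⁻ θ, F (dgR q.1 q.2.1 * unR q.2.2 * rotR θ) ∂angM := by
  rw [hI, lintegral_smul_measure, lintegral_map hF measurable_iwaR915, smul_eq_mul]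
  congr 1
  unfold iwaMR
  rw [lintegral_reassoc915 (fun p => F (iwaR p)) (hF.comp measurable_iwaR915)]
  rfl

theorem ofReal_two_pi_ne_zero915 : ENNReal.ofReal (2 * Real.pi) ≠ 0 := by
  rw [Ne, ENNReal.ofReal_eq_zero, not_le]
  positivity

/-- Step 1: left invariance and the Iwasawa formula. -/
theorem polar_step1_915 (μ : Measure (GL (Fin 2) ℝ)) [μ.IsMulLeftInvariant] (c : ℝ≥0∞)
    (hI : μ.restrict posR = c • Measure.map iwaR iwaMR)
    (F : GL (Fin 2) ℝ → ℝ≥0∞) (hF : Measurable F) (φ : ℝ) :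
    ∫⁻ g in posR, F g ∂μ
      = c * ∫⁻ q : ℝ × ℝ × ℝ,
          (∫⁻ θ, F (rotR φ * (dgR q.1 q.2.1 * unR q.2.2) * rotR θ) ∂angM) ∂volume := by
  rw [← setLIntegral_rot_mul915 μ F φ,
    lintegral_iwa915 μ c hI (fun g => F (rotR φ * g)) (hF.comp (measurable_const_mul _))]
  congr 1
  refine lintegral_congr fun q => lintegral_congr fun θ => ?_
  show F (rotR φ * (dgR q.1 q.2.1 * unR q.2.2 * rotR θ)) = _
  rw [← mul_assoc (rotR φ)]

theorem polar_meas2_915 (F : GL (Fin 2) ℝ → ℝ≥0∞) (hF : Measurable F) :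
    Measurable fun w : ℝ × (ℝ × ℝ × ℝ) =>
      ∫⁻ θ, F (rotR w.1 * (dgR w.2.1 w.2.2.1 * unR w.2.2.2) * rotR θ) ∂angM := by
  have hm2 : Measurable fun w : (ℝ × (ℝ × ℝ × ℝ)) × ℝ =>
      F (rotR w.1.1 * (dgR w.1.2.1 w.1.2.2.1 * unR w.1.2.2.2) * rotR w.2) := by
    refine hF.comp (Continuous.measurable ?_)
    have h1 : Continuous fun w : (ℝ × (ℝ × ℝ × ℝ)) × ℝ => rotR w.1.1 :=
      continuous_rotR915.comp (by fun_prop)
    have h2 : Continuous fun w : (ℝ × (ℝ × ℝ × ℝ)) × ℝ => dgR w.1.2.1 w.1.2.2.1 :=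
      continuous_dgR915.comp (f := fun w : (ℝ × (ℝ × ℝ × ℝ)) × ℝ => (w.1.2.1, w.1.2.2.1))
        (by fun_prop)
    have h3 : Continuous fun w : (ℝ × (ℝ × ℝ × ℝ)) × ℝ => unR w.1.2.2.2 :=
      continuous_unR915.comp (by fun_prop)
    have h4 : Continuous fun w : (ℝ × (ℝ × ℝ × ℝ)) × ℝ => rotR w.2 :=
      continuous_rotR915.comp (by fun_prop)
    exact (h1.mul (h2.mul h3)).mul h4
  exact hm2.lintegral_prod_right'

/-- Step 2: the average over `φ`. -/
theorem polar_step2_915 (μ : Measure (GL (Fin 2) ℝ)) [μ.IsMulLeftInvariant] (c : ℝ≥0∞)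
    (hc : c ≠ ⊤) (hI : μ.restrict posR = c • Measure.map iwaR iwaMR)
    (F : GL (Fin 2) ℝ → ℝ≥0∞) (hF : Measurable F) :
    ENNReal.ofReal (2 * Real.pi) * ∫⁻ g in posR, F g ∂μ
      = c * ∫⁻ q : ℝ × ℝ × ℝ, avgJ915 F (dgR q.1 q.2.1 * unR q.2.2) := by
  have hm3 := polar_meas2_915 F hF
  have e0 : ENNReal.ofReal (2 * Real.pi) * ∫⁻ g in posR, F g ∂μ
      = ∫⁻ _φ, (∫⁻ g in posR, F g ∂μ) ∂angM := by
    rw [lintegral_const, angM_univ915, mul_comm]
  have e1 : ∫⁻ _φ, (∫⁻ g in posR, F g ∂μ) ∂angM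
      = ∫⁻ φ, (c * ∫⁻ q : ℝ × ℝ × ℝ,
          (∫⁻ θ, F (rotR φ * (dgR q.1 q.2.1 * unR q.2.2) * rotR θ) ∂angM) ∂volume) ∂angM :=
    lintegral_congr fun φ => polar_step1_915 μ c hI F hF φ
  have e2 : ∫⁻ φ, (c * ∫⁻ q : ℝ × ℝ × ℝ,
          (∫⁻ θ, F (rotR φ * (dgR q.1 q.2.1 * unR q.2.2) * rotR θ) ∂angM) ∂volume) ∂angM
      = c * ∫⁻ φ, (∫⁻ q : ℝ × ℝ × ℝ,
          (∫⁻ θ, F (rotR φ * (dgR q.1 q.2.1 * unR q.2.2) * rotR θ) ∂angM) ∂volume) ∂angM :=
    lintegral_const_mul' _ _ hc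
  have e3 : ∫⁻ φ, (∫⁻ q : ℝ × ℝ × ℝ,
          (∫⁻ θ, F (rotR φ * (dgR q.1 q.2.1 * unR q.2.2) * rotR θ) ∂angM) ∂volume) ∂angM
      = ∫⁻ q : ℝ × ℝ × ℝ, (∫⁻ φ,
          (∫⁻ θ, F (rotR φ * (dgR q.1 q.2.1 * unR q.2.2) * rotR θ) ∂angM) ∂angM) ∂volume :=
    lintegral_lintegral_swap (f := fun (φ : ℝ) (q : ℝ × ℝ × ℝ) =>
      ∫⁻ θ, F (rotR φ * (dgR q.1 q.2.1 * unR q.2.2) * rotR θ) ∂angM) hm3.aemeasurable
  rw [e0, e1, e2, e3]
  congr 1
  exact lintegral_congr fun q => (avgJ915_def F _).symm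

/-- Step 3: the Cartan decomposition. -/
theorem polar_step3_915 (hC : CartanRC) (F : GL (Fin 2) ℝ → ℝ≥0∞) (q : ℝ × ℝ × ℝ) :
    avgJ915 F (dgR q.1 q.2.1 * unR q.2.2)
      = avgP915 F ((q.1 + q.2.1) / 2)
          (Real.arcosh (Real.cosh (q.1 - q.2.1) + Real.exp (q.1 - q.2.1) * q.2.2 ^ 2 / 2)) := by
  rw [avgJ_eq_avgP915 hC F _ (dgR_mul_unR_mem_posR915 _ _ _), det_dgR_mul_unR915,
    Real.log_exp, rhoP_dgR_mul_unR915]

theorem measurable_avgPt915 (F : GL (Fin 2) ℝ → ℝ≥0∞) (hF : Measurable F) :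
    Measurable fun w : ℝ × ℝ => avgP915 F w.1 (Real.arcosh w.2) :=
  (measurable_avgP915 F hF).comp
    (measurable_fst.prodMk (measurable_arcosh915.comp measurable_snd))

/-- Step 4: the change of variables and `AbelAreaRC`. -/
theorem polar_step4_915 (hC : CartanRC) (hA : AbelAreaRC) (F : GL (Fin 2) ℝ → ℝ≥0∞)
    (hF : Measurable F) :
    ∫⁻ q : ℝ × ℝ × ℝ, avgJ915 F (dgR q.1 q.2.1 * unR q.2.2)
      = ENNReal.ofReal (2 * Real.pi) * ∫⁻ r : ℝ, (∫⁻ t, avgP915 F r t ∂radMR) ∂volume := by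
  have hPt := measurable_avgPt915 F hF
  have hm4 : Measurable fun w : (ℝ × ℝ) × ℝ =>
      avgP915 F w.1.1
        (Real.arcosh (Real.cosh w.1.2 + Real.exp w.1.2 * w.2 ^ 2 / 2)) :=
    hPt.comp (f := fun w : (ℝ × ℝ) × ℝ =>
      (w.1.1, Real.cosh w.1.2 + Real.exp w.1.2 * w.2 ^ 2 / 2)) (by fun_prop)
  have hH : Measurable fun z : ℝ × ℝ => ∫⁻ x : ℝ,
      avgP915 F z.1 (Real.arcosh (Real.cosh z.2 + Real.exp z.2 * x ^ 2 / 2)) :=
    hm4.lintegral_prod_right'
  have hm5 : Measurable fun q : ℝ × ℝ × ℝ => avgP915 F ((q.1 + q.2.1) / 2)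
      (Real.arcosh (Real.cosh (q.1 - q.2.1) + Real.exp (q.1 - q.2.1) * q.2.2 ^ 2 / 2)) :=
    hPt.comp (f := fun q : ℝ × ℝ × ℝ => ((q.1 + q.2.1) / 2,
      Real.cosh (q.1 - q.2.1) + Real.exp (q.1 - q.2.1) * q.2.2 ^ 2 / 2)) (by fun_prop)
  have e0 : ∫⁻ q : ℝ × ℝ × ℝ, avgJ915 F (dgR q.1 q.2.1 * unR q.2.2)
      = ∫⁻ q : ℝ × ℝ × ℝ, avgP915 F ((q.1 + q.2.1) / 2)
          (Real.arcosh (Real.cosh (q.1 - q.2.1) + Real.exp (q.1 - q.2.1) * q.2.2 ^ 2 / 2)) :=
    lintegral_congr fun q => polar_step3_915 hC F q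
  have e1 : ∫⁻ q : ℝ × ℝ × ℝ, avgP915 F ((q.1 + q.2.1) / 2)
        (Real.arcosh (Real.cosh (q.1 - q.2.1) + Real.exp (q.1 - q.2.1) * q.2.2 ^ 2 / 2))
      = ∫⁻ u₁ : ℝ, ∫⁻ u₂ : ℝ, ∫⁻ x : ℝ, avgP915 F ((u₁ + u₂) / 2)
        (Real.arcosh (Real.cosh (u₁ - u₂) + Real.exp (u₁ - u₂) * x ^ 2 / 2)) :=
    lintegral_prod3_915 (μ₁ := volume) (μ₂ := volume) (μ₃ := volume)
      (fun q : ℝ × ℝ × ℝ => avgP915 F ((q.1 + q.2.1) / 2)
        (Real.arcosh (Real.cosh (q.1 - q.2.1) + Real.exp (q.1 - q.2.1) * q.2.2 ^ 2 / 2))) hm5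
  have e2 := lintegral_rs915 (fun z : ℝ × ℝ => ∫⁻ x : ℝ,
      avgP915 F z.1 (Real.arcosh (Real.cosh z.2 + Real.exp z.2 * x ^ 2 / 2))) hH
  have e3 : ∀ r : ℝ, ∫⁻ s : ℝ, ∫⁻ x : ℝ,
        avgP915 F r (Real.arcosh (Real.cosh s + Real.exp s * x ^ 2 / 2))
      = ENNReal.ofReal (2 * Real.pi) * ∫⁻ t, avgP915 F r t ∂radMR := by
    intro r
    have hQ : Measurable fun y : ℝ => avgP915 F r (Real.arcosh y) :=
      hPt.comp measurable_prodMk_left
    rw [lintegral_abel915 hA (fun y : ℝ => avgP915 F r (Real.arcosh y)) hQ,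
      lintegral_radMR_arcosh915 (fun t => avgP915 F r t)]
  rw [e0, e1]
  refine e2.trans ?_
  rw [← lintegral_const_mul' _ _ ENNReal.ofReal_ne_top]
  exact lintegral_congr fun r => e3 r

/-- Step 6: the polar coordinates. -/
theorem polar_step6_915 (F : GL (Fin 2) ℝ → ℝ≥0∞) (hF : Measurable F) :
    ∫⁻ r : ℝ, (∫⁻ t, avgP915 F r t ∂radMR) ∂volume = ∫⁻ p, F (polR p) ∂polMR := by
  unfold polMR
  rw [lintegral_prod4_915 (fun p => F (polR p)) (hF.comp measurable_polR915)]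
  refine lintegral_congr fun r => ?_
  have hm6 : Measurable fun w : (ℝ × ℝ) × ℝ =>
      F (sclR r * rotR w.1.2 * atR w.1.1 * rotR w.2) := by
    refine hF.comp (Continuous.measurable ?_)
    have h2 : Continuous fun w : (ℝ × ℝ) × ℝ => rotR w.1.2 :=
      continuous_rotR915.comp (by fun_prop)
    have h3 : Continuous fun w : (ℝ × ℝ) × ℝ => atR w.1.1 :=
      continuous_atR915.comp (by fun_prop)
    have h4 : Continuous fun w : (ℝ × ℝ) × ℝ => rotR w.2 :=
      continuous_rotR915.comp (by fun_prop)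
    exact ((continuous_const.mul h2).mul h3).mul h4
  have hm7 : Measurable fun w : ℝ × ℝ =>
      ∫⁻ θ, F (sclR r * rotR w.2 * atR w.1 * rotR θ) ∂angM := hm6.lintegral_prod_right'
  simp only [avgP915_def]
  exact lintegral_lintegral_swap (f := fun (t φ : ℝ) =>
    ∫⁻ θ, F (sclR r * rotR φ * atR t * rotR θ) ∂angM) hm7.aemeasurable

/-- The polar formula for the lower integrals. -/
theorem lintegral_polar915 (hC : CartanRC) (hA : AbelAreaRC) (μ : Measure (GL (Fin 2) ℝ))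
    [μ.IsMulLeftInvariant] (c : ℝ≥0∞) (hc : c ≠ ⊤)
    (hI : μ.restrict posR = c • Measure.map iwaR iwaMR)
    (F : GL (Fin 2) ℝ → ℝ≥0∞) (hF : Measurable F) :
    ∫⁻ g in posR, F g ∂μ = c * ∫⁻ p, F (polR p) ∂polMR := by
  have h := polar_step2_915 μ c hc hI F hF
  rw [polar_step4_915 hC hA F hF, ← mul_assoc, mul_comm c, mul_assoc] at h
  rw [← polar_step6_915 F hF]
  exact (ENNReal.mul_right_inj ofReal_two_pi_ne_zero915 ENNReal.ofReal_ne_top).mp h

/-- **T6.23.14 (A4): the polar formula on `GL₂(ℝ)⁺` from the Iwasawa formula.** -/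
theorem polOfRC915 : PolOfRC := by
  intro hIwa _ hC hA μ hμ
  have : @Measure.IsHaarMeasure _ _ _ (borel _) μ := hμ
  obtain ⟨c, hc0, hct, hI⟩ := hIwa μ hμ
  refine ⟨c, hc0, hct, ?_⟩
  refine Measure.ext_of_lintegral _ fun F hF => ?_
  rw [lintegral_smul_measure, lintegral_map hF measurable_polR915, smul_eq_mul]
  exact lintegral_polar915 hC hA μ c hct hI F hF

end Group

end Fermat.Agent.LT.T6.H915
end

end
-- ===== PACK-END LT/T6/H915/PolOfR.lean

-- ===== PACK-BEGIN LT/T6/H420/Cpt.lean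
section





/-!
# Row LT, tower T6, sub-leaf T6.18b (helper420): `CptC783` (bounded support)

A non-zero twisted orbit sum at `δ`, `N δ ∼ i(γ)`, forces `(tr γ, det γ)` into a bounded region.

Proof.  `c ≠ 0` gives `y = x⁻¹ δ s(x)` with `φ y ≠ 0`, so `y = x₀ u`, `x₀ ∈ F` (finite), `u ∈ U'(n)`.
`N y = x⁻¹ (N δ) x` (`s^l = 1`) is conjugate to `i(γ)`, so `i(tr γ) = tr N y`, `i(det γ) = det N y`.
The entries of `N y = y s(y) ⋯ s^{l-1}(y)` are bounded by `M^l`, `M` a bound for the entries of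
`x₀`, and `|det N y| = |det x₀|^l`.  Finally `|i t| = |t|^e`, `e ≥ 1`.

Mathlib + T6 Spec + `H783/BadSpec.lean` (byte-identical) only.
-/

set_option autoImplicit false

noncomputable section

namespace Fermat.Agent.LT.T6.H420

open Matrix Fermat.Agent.LT.T6.H783

section Bounds

variable {k : Type} [Field k] [Valued k Γ₀]

/-- All entries of `A` have valuation `≤ M`. -/
def EntryLe (A : Matrix (Fin 2) (Fin 2) k) (M : Γ₀) : Prop := ∀ i j, Valued.v (A i j) ≤ M

theorem EntryLe.mul {A B : Matrix (Fin 2) (Fin 2) k} {M M' : Γ₀} (hA : EntryLe A M)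
    (hB : EntryLe B M') : EntryLe (A * B) (M * M') := fun i j => by
  rw [Matrix.mul_apply]
  refine Valued.v.map_sum_le fun l _ => ?_
  rw [map_mul]
  exact mul_le_mul' (hA i l) (hB l j)

theorem EntryLe.one : EntryLe (1 : Matrix (Fin 2) (Fin 2) k) 1 := fun i j => by
  by_cases hij : i = j
  · subst hij
    simp
  · simp [Matrix.one_apply_ne hij]

theorem EntryLe.trace {A : Matrix (Fin 2) (Fin 2) k} {M : Γ₀} (hA : EntryLe A M) :
    Valued.v A.trace ≤ M := by
  rw [Matrix.trace_fin_two]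
  exact (Valued.v.map_add _ _).trans (max_le (hA 0 0) (hA 1 1))

theorem EntryLe.map_glAut {s : k ≃+* k} (hs : ∀ y : k, Valued.v (s y) = Valued.v y)
    {g : GL (Fin 2) k} {M : Γ₀} (hg : EntryLe (g : Matrix (Fin 2) (Fin 2) k) M) :
    EntryLe ((glAut s g : GL (Fin 2) k) : Matrix (Fin 2) (Fin 2) k) M := fun i j => by
  have : ((glAut s g : GL (Fin 2) k) : Matrix (Fin 2) (Fin 2) k) i j
      = s ((g : Matrix (Fin 2) (Fin 2) k) i j) := rfl
  rw [this, hs]
  exact hg i j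

omit [Valued k Γ₀] in
theorem det_glAut (s : k ≃+* k) (g : GL (Fin 2) k) :
    ((glAut s g : GL (Fin 2) k) : Matrix (Fin 2) (Fin 2) k).det
      = s (g : Matrix (Fin 2) (Fin 2) k).det := by
  have : ((glAut s g : GL (Fin 2) k) : Matrix (Fin 2) (Fin 2) k)
      = (s : k →+* k).mapMatrix (g : Matrix (Fin 2) (Fin 2) k) := rfl
  rw [this, ← RingHom.map_det]
  rfl

/-- The entries of the twisted norm `N_m y` are bounded by `M ^ m`. -/
theorem entryLe_twNorm {s : k ≃+* k} (hs : ∀ y : k, Valued.v (s y) = Valued.v y)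
    {y : GL (Fin 2) k} {M : Γ₀} (hy : EntryLe (y : Matrix (Fin 2) (Fin 2) k) M) (m : ℕ) :
    EntryLe ((twNorm s m y : GL (Fin 2) k) : Matrix (Fin 2) (Fin 2) k) (M ^ m) := by
  induction m with
  | zero =>
    have : twNorm s 0 y = 1 := rfl
    rw [this, pow_zero, Units.val_one]
    exact EntryLe.one
  | succ m ih =>
    have : twNorm s (m + 1) y = y * glAut s (twNorm s m y) := rfl
    rw [this, Units.val_mul, pow_succ']
    exact hy.mul (EntryLe.map_glAut hs ih)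

/-- `|det N_m y| = |det y| ^ m`. -/
theorem val_det_twNorm {s : k ≃+* k} (hs : ∀ y : k, Valued.v (s y) = Valued.v y)
    (y : GL (Fin 2) k) (m : ℕ) :
    Valued.v ((twNorm s m y : GL (Fin 2) k) : Matrix (Fin 2) (Fin 2) k).det
      = Valued.v (y : Matrix (Fin 2) (Fin 2) k).det ^ m := by
  induction m with
  | zero =>
    have : twNorm s 0 y = 1 := rfl
    rw [this, pow_zero, Units.val_one, Matrix.det_one, map_one]
  | succ m ih =>
    have : twNorm s (m + 1) y = y * glAut s (twNorm s m y) := rfl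
    rw [this, Units.val_mul, Matrix.det_mul, map_mul, det_glAut, hs, ih, pow_succ']

theorem entryLe_of_inU {n : ℕ} {u : GL (Fin 2) k} (hu : InU n u) :
    EntryLe (u : Matrix (Fin 2) (Fin 2) k) 1 := fun i j => by
  have h1 := (hu i j).1
  have h2 : (WithZero.exp (-(n : ℤ)) : Γ₀) ≤ 1 := by
    rw [← WithZero.exp_zero, WithZero.exp_le_exp]
    omega
  have h3 : (u : Matrix (Fin 2) (Fin 2) k) i j
      = ((u : Matrix (Fin 2) (Fin 2) k) i j - (1 : Matrix (Fin 2) (Fin 2) k) i j)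
        + (1 : Matrix (Fin 2) (Fin 2) k) i j := by ring
  rw [h3]
  exact (Valued.v.map_add _ _).trans (max_le (h1.trans h2) (EntryLe.one i j))

theorem entryLe_inv_of_inU {n : ℕ} {u : GL (Fin 2) k} (hu : InU n u) :
    EntryLe ((u⁻¹ : GL (Fin 2) k) : Matrix (Fin 2) (Fin 2) k) 1 := fun i j => by
  have h1 := (hu i j).2
  have h2 : (WithZero.exp (-(n : ℤ)) : Γ₀) ≤ 1 := by
    rw [← WithZero.exp_zero, WithZero.exp_le_exp]
    omega
  have h3 : ((u⁻¹ : GL (Fin 2) k) : Matrix (Fin 2) (Fin 2) k) i j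
      = (((u⁻¹ : GL (Fin 2) k) : Matrix (Fin 2) (Fin 2) k) i j
          - (1 : Matrix (Fin 2) (Fin 2) k) i j)
        + (1 : Matrix (Fin 2) (Fin 2) k) i j := by ring
  rw [h3]
  exact (Valued.v.map_add _ _).trans (max_le (h1.trans h2) (EntryLe.one i j))

theorem EntryLe.det {A : Matrix (Fin 2) (Fin 2) k} (hA : EntryLe A 1) : Valued.v A.det ≤ 1 := by
  rw [Matrix.det_fin_two]
  refine (Valued.v.map_sub _ _).trans (max_le ?_ ?_)
  · rw [map_mul]
    exact mul_le_one' (hA 0 0) (hA 1 1)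
  · rw [map_mul]
    exact mul_le_one' (hA 0 1) (hA 1 0)

/-- The determinant of an element of `U(n)` is a unit. -/
theorem val_det_of_inU {n : ℕ} {u : GL (Fin 2) k} (hu : InU n u) :
    Valued.v (u : Matrix (Fin 2) (Fin 2) k).det = 1 := by
  have h1 := (entryLe_of_inU hu).det
  have h2 := (entryLe_inv_of_inU hu).det
  have h3 : (u : Matrix (Fin 2) (Fin 2) k).det
      * ((u⁻¹ : GL (Fin 2) k) : Matrix (Fin 2) (Fin 2) k).det = 1 := by
    rw [← Matrix.det_mul, ← Units.val_mul, mul_inv_cancel, Units.val_one, Matrix.det_one]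
  have h4 : Valued.v (u : Matrix (Fin 2) (Fin 2) k).det
      * Valued.v ((u⁻¹ : GL (Fin 2) k) : Matrix (Fin 2) (Fin 2) k).det = 1 := by
    rw [← map_mul, h3, map_one]
  refine le_antisymm h1 ?_
  calc (1 : Γ₀) = Valued.v (u : Matrix (Fin 2) (Fin 2) k).det
        * Valued.v ((u⁻¹ : GL (Fin 2) k) : Matrix (Fin 2) (Fin 2) k).det := h4.symm
    _ ≤ Valued.v (u : Matrix (Fin 2) (Fin 2) k).det * 1 := by gcongr
    _ = Valued.v (u : Matrix (Fin 2) (Fin 2) k).det := mul_one _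

theorem entryLe_entryMax (g : GL (Fin 2) k) :
    EntryLe (g : Matrix (Fin 2) (Fin 2) k) (entryMax g) := fun i j =>
  Finset.le_sup' (fun p : Fin 2 × Fin 2 => Valued.v ((g : Matrix (Fin 2) (Fin 2) k) p.1 p.2))
    (Finset.mem_univ (i, j))

/-- Every element of `ℤᵐ⁰` is `≤ exp |log x|`. -/
theorem le_exp_natAbs_log (x : Γ₀) : x ≤ WithZero.exp ((WithZero.log x).natAbs : ℤ) := by
  rcases eq_or_ne x 0 with rfl | hx
  · exact zero_le
  · obtain ⟨b, rfl⟩ : ∃ b : ℤ, x = WithZero.exp b := ⟨_, (WithZero.exp_log hx).symm⟩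
    rw [WithZero.log_exp, WithZero.exp_le_exp]
    omega

/-- Every non-zero element of `ℤᵐ⁰` is `≥ exp (-|log x|)`. -/
theorem exp_neg_natAbs_log_le {x : Γ₀} (hx : x ≠ 0) :
    WithZero.exp (-((WithZero.log x).natAbs : ℤ)) ≤ x := by
  obtain ⟨b, rfl⟩ : ∃ b : ℤ, x = WithZero.exp b := ⟨_, (WithZero.exp_log hx).symm⟩
  rw [WithZero.log_exp, WithZero.exp_le_exp]
  omega

/-- `x ^ e ≤ exp (l b)`, `e ≥ 1`, `b ≥ 0` ⟹ `x ≤ exp (l b)`. -/
theorem le_exp_of_pow_le {x : Γ₀} {e : ℕ} (he : 0 < e) {C : ℤ} (hC : 0 ≤ C)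
    (h : x ^ e ≤ WithZero.exp C) : x ≤ WithZero.exp C := by
  rcases eq_or_ne x 0 with rfl | hx
  · exact zero_le
  · obtain ⟨b, rfl⟩ : ∃ b : ℤ, x = WithZero.exp b := ⟨_, (WithZero.exp_log hx).symm⟩
    rw [← WithZero.exp_nsmul, WithZero.exp_le_exp] at h
    rw [WithZero.exp_le_exp]
    rw [nsmul_eq_mul] at h
    by_contra hcon
    have hcon := not_le.1 hcon
    have hb : 0 < b := lt_of_le_of_lt hC hcon
    have he' : (1 : ℤ) ≤ (e : ℤ) := by exact_mod_cast he
    nlinarith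

/-- `exp (-C) ≤ x ^ e`, `e ≥ 1`, `C ≥ 0` ⟹ `exp (-C) ≤ x`. -/
theorem exp_neg_le_of_le_pow {x : Γ₀} {e : ℕ} (he : 0 < e) {C : ℤ} (hC : 0 ≤ C)
    (h : WithZero.exp (-C) ≤ x ^ e) : WithZero.exp (-C) ≤ x := by
  have hx : x ≠ 0 := by
    rintro rfl
    rw [zero_pow he.ne'] at h
    exact WithZero.exp_ne_zero (le_antisymm h zero_le)
  obtain ⟨b, rfl⟩ : ∃ b : ℤ, x = WithZero.exp b := ⟨_, (WithZero.exp_log hx).symm⟩
  rw [← WithZero.exp_nsmul, WithZero.exp_le_exp] at h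
  rw [WithZero.exp_le_exp]
  rw [nsmul_eq_mul] at h
  by_contra hcon
  have hcon := not_le.1 hcon
  have hb : b < 0 := by omega
  have he' : (1 : ℤ) ≤ (e : ℤ) := by exact_mod_cast he
  nlinarith

end Bounds

section Main

/-- The bound attached to one coset representative. -/
def cptBound {k' : Type} [Field k'] [Valued k' Γ₀] (x : GL (Fin 2) k') : ℕ :=
  (WithZero.log (entryMax x)).natAbs
    + (WithZero.log (Valued.v (x : Matrix (Fin 2) (Fin 2) k').det)).natAbs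

/-- **T6.18b `CptC783`** (bounded support). -/
theorem cptC420 : CptC783 := by
  intro k k' _ _ _ _ q l e i s n φ hd
  obtain ⟨F, hF⟩ := hd.supp
  have hs := hd.ext.val_s
  have he := hd.ext.e_pos
  refine ⟨(l : ℤ) * ((∑ x ∈ F, cptBound x : ℕ) : ℤ), ?_⟩
  intro δ γ c hconj hc hc0
  obtain ⟨R, hR1, -, -, hsum⟩ := hc
  -- a representative with `φ y ≠ 0`
  obtain ⟨y, hyR, hy0⟩ : ∃ y ∈ R, φ y * (cIndex (InU n) (InTwCentC s) y : ℂ) ≠ 0 := by
    apply Finset.exists_ne_zero_of_sum_ne_zero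
    rw [← hsum]
    exact hc0
  have hφy : φ y ≠ 0 := left_ne_zero_of_mul hy0
  obtain ⟨x, rfl⟩ := hR1 y hyR
  obtain ⟨x₀, hx₀, u, hu, hyu⟩ := hF _ hφy
  -- trace and determinant of the norm
  have hN : twNorm s l (x⁻¹ * δ * glAut s x) = x⁻¹ * twNorm s l δ * x :=
    twNorm_twConj s l hd.ext.cyc.order δ x
  obtain ⟨g, hg⟩ := isConj_iff.1 hconj
  have hNδ : twNorm s l δ = g⁻¹ * Matrix.GeneralLinearGroup.map i γ * g := by
    rw [← hg]
    group
  have htr : ((twNorm s l (x⁻¹ * δ * glAut s x) : GL (Fin 2) k') :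
      Matrix (Fin 2) (Fin 2) k').trace = i (γ : Matrix (Fin 2) (Fin 2) k).trace := by
    rw [hN, trace_conj_GL, hNδ, trace_conj_GL]
    have : ((Matrix.GeneralLinearGroup.map i γ : GL (Fin 2) k') : Matrix (Fin 2) (Fin 2) k')
        = i.mapMatrix (γ : Matrix (Fin 2) (Fin 2) k) := rfl
    rw [this]
    exact (AddMonoidHom.map_trace (i : k →+ k') (γ : Matrix (Fin 2) (Fin 2) k)).symm
  have hdet : ((twNorm s l (x⁻¹ * δ * glAut s x) : GL (Fin 2) k') :
      Matrix (Fin 2) (Fin 2) k').det = i (γ : Matrix (Fin 2) (Fin 2) k).det := by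
    rw [hN, det_conj_GL, hNδ, det_conj_GL]
    have : ((Matrix.GeneralLinearGroup.map i γ : GL (Fin 2) k') : Matrix (Fin 2) (Fin 2) k')
        = i.mapMatrix (γ : Matrix (Fin 2) (Fin 2) k) := rfl
    rw [this, ← RingHom.map_det]
  -- bounds for `y = x₀ u`
  have hyE : EntryLe ((x⁻¹ * δ * glAut s x : GL (Fin 2) k') : Matrix (Fin 2) (Fin 2) k')
      (entryMax x₀) := by
    rw [hyu, Units.val_mul]
    have := (entryLe_entryMax x₀).mul (entryLe_of_inU hu)
    rwa [mul_one] at this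
  have hyD : Valued.v ((x⁻¹ * δ * glAut s x : GL (Fin 2) k') : Matrix (Fin 2) (Fin 2) k').det
      = Valued.v (x₀ : Matrix (Fin 2) (Fin 2) k').det := by
    rw [hyu, Units.val_mul, Matrix.det_mul, map_mul, val_det_of_inU hu, mul_one]
  have hB0 : cptBound x₀ ≤ ∑ x ∈ F, cptBound x :=
    Finset.single_le_sum (f := fun x => cptBound x) (fun _ _ => Nat.zero_le _) hx₀
  have hBx : (0 : ℤ) ≤ (l : ℤ) * ((∑ x ∈ F, cptBound x : ℕ) : ℤ) := by positivity
  have hmono : ∀ a : ℕ, a ≤ cptBound x₀ →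
      (WithZero.exp ((a : ℤ)) : Γ₀) ^ l
        ≤ WithZero.exp ((l : ℤ) * ((∑ x ∈ F, cptBound x : ℕ) : ℤ)) := by
    intro a ha
    rw [← WithZero.exp_nsmul, WithZero.exp_le_exp, nsmul_eq_mul]
    have h1 : (a : ℤ) ≤ ((∑ x ∈ F, cptBound x : ℕ) : ℤ) := by exact_mod_cast ha.trans hB0
    have h2 : (0 : ℤ) ≤ (l : ℤ) := by positivity
    nlinarith
  have hx₀det : Valued.v (x₀ : Matrix (Fin 2) (Fin 2) k').det ≠ 0 := by
    rw [Ne, map_eq_zero]
    intro h0
    have h1 : (x₀ : Matrix (Fin 2) (Fin 2) k').det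
        * ((x₀⁻¹ : GL (Fin 2) k') : Matrix (Fin 2) (Fin 2) k').det = 1 := by
      rw [← Matrix.det_mul, ← Units.val_mul, mul_inv_cancel, Units.val_one, Matrix.det_one]
    rw [h0, zero_mul] at h1
    exact zero_ne_one h1
  refine ⟨?_, ?_, ?_⟩
  · -- trace
    apply le_exp_of_pow_le he hBx
    rw [← hd.ext.val_i, ← htr]
    refine ((entryLe_twNorm hs hyE l).trace).trans ?_
    refine le_trans (pow_le_pow_left₀ zero_le (le_exp_natAbs_log (entryMax x₀)) l) ?_
    exact hmono _ (Nat.le_add_right _ _)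
  · -- lower bound for the determinant
    apply exp_neg_le_of_le_pow he hBx
    rw [← hd.ext.val_i, ← hdet, val_det_twNorm hs, hyD]
    have h1 := exp_neg_natAbs_log_le hx₀det
    have h2 := hmono _ (Nat.le_add_left
      (WithZero.log (Valued.v (x₀ : Matrix (Fin 2) (Fin 2) k').det)).natAbs
      (WithZero.log (entryMax x₀)).natAbs)
    -- `exp (-C) ≤ exp (-b)^l ≤ |det x₀|^l`
    refine le_trans ?_ (pow_le_pow_left₀ zero_le h1 l)
    have h3 : (WithZero.exp
        (-((WithZero.log (Valued.v (x₀ : Matrix (Fin 2) (Fin 2) k').det)).natAbs : ℤ)) : Γ₀) ^ l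
        = (WithZero.exp
          (((WithZero.log (Valued.v (x₀ : Matrix (Fin 2) (Fin 2) k').det)).natAbs : ℤ)) ^ l)⁻¹ := by
      rw [WithZero.exp_neg, inv_pow]
    rw [h3, WithZero.exp_neg]
    exact inv_anti₀ (pow_pos WithZero.exp_pos l) h2
  · -- upper bound for the determinant
    apply le_exp_of_pow_le he hBx
    rw [← hd.ext.val_i, ← hdet, val_det_twNorm hs, hyD]
    refine le_trans (pow_le_pow_left₀ zero_le
      (le_exp_natAbs_log (Valued.v (x₀ : Matrix (Fin 2) (Fin 2) k').det)) l) ?_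
    exact hmono _ (Nat.le_add_left _ _)

end Main

end Fermat.Agent.LT.T6.H420

end
end
-- ===== PACK-END LT/T6/H420/Cpt.lean

-- ===== PACK-BEGIN LT/T6/H811/Add.lean
section


/-!
# Row LT, tower T6, sub-leaf T6.18e `AddC783` (additivity of orbit sums) -- helper811, OFF-MAIN

`addC811 : H783.AddC783` (sub-spec `LT/T6/H783/BadSpec.lean` of helper783, on `T6/Spec.lean` v2 of
helper22).  Pure finset bookkeeping, any valued field:

* `InU m` is a subgroup (`inU_subgrp811`);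
* the weight `y ↦ f y * [T_y^c : T_y^c ∩ U]` is constant on the `U`-conjugacy orbits
  (`cIndex_conj811`);
* a weighted sum over a system of pairwise inequivalent representatives only depends on the
  orbits met by the support (`sum_reps_eq811`);
* `R := R_f ∪ {y ∈ R_g : y is not equivalent to an element of R_f}` (`orbSumGen_add811`).
-/

set_option autoImplicit false

open scoped Matrix

noncomputable section

namespace Fermat.Agent.LT.T6.H811

open Fermat.Agent.LT.T6 Fermat.Agent.LT.T6.H783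

/-! ## General groups -/

section General

variable {Γ : Type} [Group Γ]

/-- `y'` is `s`-conjugate to `y` by an element of `U`. -/
def TwEq811 (s : Γ →* Γ) (U : Γ → Prop) (y y' : Γ) : Prop :=
  ∃ u : Γ, U u ∧ y' = u⁻¹ * y * s u

/-- The predicate `U` describes a subgroup. -/
structure IsSubgrp811 (U : Γ → Prop) : Prop where
  one : U 1
  mul : ∀ a b : Γ, U a → U b → U (a * b)
  inv : ∀ a : Γ, U a → U a⁻¹

variable {s : Γ →* Γ} {U : Γ → Prop}

lemma twEq_refl811 (hU : IsSubgrp811 U) (y : Γ) : TwEq811 s U y y :=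
  ⟨1, hU.one, by simp⟩

lemma twEq_symm811 (hU : IsSubgrp811 U) {y y' : Γ} (h : TwEq811 s U y y') : TwEq811 s U y' y := by
  obtain ⟨u, hu, rfl⟩ := h
  refine ⟨u⁻¹, hU.inv u hu, ?_⟩
  simp [mul_assoc]

lemma twEq_trans811 (hU : IsSubgrp811 U) {y y' y'' : Γ} (h : TwEq811 s U y y')
    (h' : TwEq811 s U y' y'') : TwEq811 s U y y'' := by
  obtain ⟨u, hu, rfl⟩ := h
  obtain ⟨v, hv, rfl⟩ := h'
  refine ⟨u * v, hU.mul u v hu hv, ?_⟩
  simp [mul_assoc]

/-- A sum of an orbit-invariant weight over a system of pairwise inequivalent representatives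
only depends on the orbits met by the support of the weight. -/
lemma sum_reps_eq811 (hU : IsSubgrp811 U) (h : Γ → ℂ)
    (hinv : ∀ u y : Γ, U u → h (u⁻¹ * y * s u) = h y)
    (R R' : Finset Γ)
    (hR : ∀ y ∈ R, ∀ y' ∈ R, TwEq811 s U y y' → y = y')
    (hR' : ∀ y ∈ R', ∀ y' ∈ R', TwEq811 s U y y' → y = y')
    (h1 : ∀ y ∈ R, h y ≠ 0 → ∃ y' ∈ R', TwEq811 s U y' y)
    (h2 : ∀ y' ∈ R', h y' ≠ 0 → ∃ y ∈ R, TwEq811 s U y y') :
    ∑ y ∈ R, h y = ∑ y ∈ R', h y := by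
  classical
  have hval : ∀ y y' : Γ, TwEq811 s U y y' → h y' = h y := by
    rintro y y' ⟨u, hu, rfl⟩
    exact hinv u y hu
  refine Finset.sum_bij_ne_zero (fun a ha hne => Classical.choose (h1 a ha hne)) ?_ ?_ ?_ ?_
  · intro a ha hne
    exact (Classical.choose_spec (h1 a ha hne)).1
  · intro a₁ ha₁ hne₁ a₂ ha₂ hne₂ heq
    have e₁ := (Classical.choose_spec (h1 a₁ ha₁ hne₁)).2
    have e₂ := (Classical.choose_spec (h1 a₂ ha₂ hne₂)).2
    rw [heq] at e₁
    exact hR a₁ ha₁ a₂ ha₂ (twEq_trans811 hU (twEq_symm811 hU e₁) e₂)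
  · intro b hb hne
    obtain ⟨a, ha, hab⟩ := h2 b hb hne
    have hane : h a ≠ 0 := by
      rw [← hval a b hab]
      exact hne
    refine ⟨a, ha, hane, ?_⟩
    have e := (Classical.choose_spec (h1 a ha hane)).2
    have m := (Classical.choose_spec (h1 a ha hane)).1
    exact hR' _ m b hb (twEq_trans811 hU e hab)
  · intro a ha hne
    exact hval _ _ (Classical.choose_spec (h1 a ha hne)).2

/-- **Additivity of orbit sums** (general form). -/
theorem orbSumGen_add811 (s : Γ →* Γ) (U : Γ → Prop) (C : Γ → Γ → Prop) (hU : IsSubgrp811 U)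
    (f g : Γ → ℂ)
    (hf : ∀ u y : Γ, U u → f (u⁻¹ * y * s u) = f y)
    (hg : ∀ u y : Γ, U u → g (u⁻¹ * y * s u) = g y)
    (hC : ∀ u y : Γ, U u → cIndex U C (u⁻¹ * y * s u) = cIndex U C y)
    (δ : Γ) (c d : ℂ) (hc : IsOrbSumGen s U C f δ c) (hd : IsOrbSumGen s U C g δ d) :
    IsOrbSumGen s U C (f + g) δ (c + d) := by
  classical
  obtain ⟨Rf, hf1, hf2, hf3, hfc⟩ := hc
  obtain ⟨Rg, hg1, hg2, hg3, hgc⟩ := hd
  set Rg' : Finset Γ := Rg.filter (fun y => ¬ ∃ y' ∈ Rf, TwEq811 s U y' y) with hRg'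
  have memRg' : ∀ y, y ∈ Rg' ↔ y ∈ Rg ∧ ¬ ∃ y' ∈ Rf, TwEq811 s U y' y := by
    intro y
    simp [hRg']
  have hcl : ∀ y ∈ Rf ∪ Rg', ∃ x : Γ, y = x⁻¹ * δ * s x := by
    intro y hy
    rcases Finset.mem_union.1 hy with h | h
    · exact hf1 y h
    · exact hg1 y ((memRg' y).1 h).1
  have hpw : ∀ y ∈ Rf ∪ Rg', ∀ y' ∈ Rf ∪ Rg', TwEq811 s U y y' → y = y' := by
    intro y hy y' hy' hyy'
    rcases Finset.mem_union.1 hy with h | h <;> rcases Finset.mem_union.1 hy' with h' | h'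
    · exact hf2 y h y' h' hyy'
    · exact absurd ⟨y, h, hyy'⟩ ((memRg' y').1 h').2
    · exact absurd ⟨y', h', twEq_symm811 hU hyy'⟩ ((memRg' y).1 h).2
    · exact hg2 y ((memRg' y).1 h).1 y' ((memRg' y').1 h').1 hyy'
  have covf : ∀ y : Γ, (∃ x : Γ, y = x⁻¹ * δ * s x) → f y ≠ 0 →
      ∃ y' ∈ Rf ∪ Rg', TwEq811 s U y' y := by
    intro y hy hne
    obtain ⟨y', hy', hyy'⟩ := hf3 y hy hne
    exact ⟨y', Finset.mem_union_left _ hy', hyy'⟩
  have covg : ∀ y : Γ, (∃ x : Γ, y = x⁻¹ * δ * s x) → g y ≠ 0 →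
      ∃ y' ∈ Rf ∪ Rg', TwEq811 s U y' y := by
    intro y hy hne
    obtain ⟨y', hy', hyy'⟩ := hg3 y hy hne
    by_cases hex : ∃ y'' ∈ Rf, TwEq811 s U y'' y'
    · obtain ⟨y'', hy'', h''⟩ := hex
      exact ⟨y'', Finset.mem_union_left _ hy'', twEq_trans811 hU h'' hyy'⟩
    · exact ⟨y', Finset.mem_union_right _ ((memRg' y').2 ⟨hy', hex⟩), hyy'⟩
  have wf : ∀ u y : Γ, U u →
      (fun y => f y * (cIndex U C y : ℂ)) (u⁻¹ * y * s u) = (fun y => f y * (cIndex U C y : ℂ)) y := by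
    intro u y hu
    simp only [hf u y hu, hC u y hu]
  have wg : ∀ u y : Γ, U u →
      (fun y => g y * (cIndex U C y : ℂ)) (u⁻¹ * y * s u) = (fun y => g y * (cIndex U C y : ℂ)) y := by
    intro u y hu
    simp only [hg u y hu, hC u y hu]
  have sf : ∑ y ∈ Rf ∪ Rg', f y * (cIndex U C y : ℂ) = ∑ y ∈ Rf, f y * (cIndex U C y : ℂ) := by
    refine sum_reps_eq811 hU (fun y => f y * (cIndex U C y : ℂ)) wf (Rf ∪ Rg') Rf hpw hf2 ?_ ?_
    · intro y hy hne
      exact hf3 y (hcl y hy) (left_ne_zero_of_mul hne)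
    · intro y' hy' _
      exact ⟨y', Finset.mem_union_left _ hy', twEq_refl811 hU y'⟩
  have sg : ∑ y ∈ Rf ∪ Rg', g y * (cIndex U C y : ℂ) = ∑ y ∈ Rg, g y * (cIndex U C y : ℂ) := by
    refine sum_reps_eq811 hU (fun y => g y * (cIndex U C y : ℂ)) wg (Rf ∪ Rg') Rg hpw hg2 ?_ ?_
    · intro y hy hne
      exact hg3 y (hcl y hy) (left_ne_zero_of_mul hne)
    · intro y' hy' hne
      exact covg y' (hg1 y' hy') (left_ne_zero_of_mul hne)
  refine ⟨Rf ∪ Rg', hcl, hpw, ?_, ?_⟩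
  · intro y hy hne
    by_cases hfy : f y = 0
    · have hgy : g y ≠ 0 := by
        intro hgy
        apply hne
        simp [hfy, hgy]
      exact covg y hy hgy
    · exact covf y hy hfy
  · rw [hfc, hgc, ← sf, ← sg, ← Finset.sum_add_distrib]
    refine Finset.sum_congr rfl ?_
    intro y _
    simp only [Pi.add_apply]
    ring

end General

/-! ## `GL₂` of a valued field -/

section GL2

variable {k : Type} [Field k] [Valued k Γ₀]

omit [Valued k Γ₀] in
lemma glAut_refl811 (x : GL (Fin 2) k) : glAut (RingEquiv.refl k) x = x := by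
  apply Units.ext
  ext i j
  simp [glAut]

/-- All entries of `M` have valuation `≤ exp (-n)`. -/
def SmallM811 (n : ℕ) (M : Matrix (Fin 2) (Fin 2) k) : Prop :=
  ∀ i j : Fin 2, Valued.v (M i j) ≤ WithZero.exp (-(n : ℤ))

lemma exp_neg_le_one811 (n : ℕ) : (WithZero.exp (-(n : ℤ)) : Γ₀) ≤ 1 := by
  rw [← WithZero.exp_zero]
  exact WithZero.exp_le_exp.2 (by omega)

lemma smallM_add811 {n : ℕ} {A B : Matrix (Fin 2) (Fin 2) k} (hA : SmallM811 n A)
    (hB : SmallM811 n B) : SmallM811 n (A + B) := by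
  intro i j
  rw [Matrix.add_apply]
  exact (Valuation.map_add_le_max' _ _ _).trans (max_le (hA i j) (hB i j))

lemma smallM_mul811 {n : ℕ} {A B : Matrix (Fin 2) (Fin 2) k} (hA : SmallM811 n A)
    (hB : SmallM811 n B) : SmallM811 n (A * B) := by
  intro i j
  rw [Matrix.mul_apply]
  refine Valuation.map_sum_le _ ?_
  intro l _
  rw [Valuation.map_mul]
  calc Valued.v (A i l) * Valued.v (B l j)
      ≤ WithZero.exp (-(n : ℤ)) * 1 :=
        mul_le_mul' (hA i l) ((hB l j).trans (exp_neg_le_one811 n))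
    _ = WithZero.exp (-(n : ℤ)) := mul_one _

lemma inU_iff811 (n : ℕ) (g : GL (Fin 2) k) :
    InU n g ↔ SmallM811 n ((g : Matrix (Fin 2) (Fin 2) k) - 1) ∧
      SmallM811 n (((g⁻¹ : GL (Fin 2) k) : Matrix (Fin 2) (Fin 2) k) - 1) := by
  constructor
  · intro h
    exact ⟨fun i j => (h i j).1, fun i j => (h i j).2⟩
  · intro h i j
    exact ⟨h.1 i j, h.2 i j⟩

lemma smallM_mul_sub_one811 {n : ℕ} {A B : Matrix (Fin 2) (Fin 2) k} (hA : SmallM811 n (A - 1))
    (hB : SmallM811 n (B - 1)) : SmallM811 n (A * B - 1) := by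
  have e : A * B - 1 = (A - 1) + (B - 1) + (A - 1) * (B - 1) := by noncomm_ring
  rw [e]
  exact smallM_add811 (smallM_add811 hA hB) (smallM_mul811 hA hB)

lemma inU_subgrp811 (n : ℕ) : IsSubgrp811 (InU (k := k) n) where
  one := by
    rw [inU_iff811]
    constructor <;> intro i j <;> simp
  mul := by
    intro a b ha hb
    rw [inU_iff811] at ha hb ⊢
    refine ⟨?_, ?_⟩
    · rw [Matrix.GeneralLinearGroup.coe_mul]
      exact smallM_mul_sub_one811 ha.1 hb.1
    · rw [mul_inv_rev, Matrix.GeneralLinearGroup.coe_mul]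
      exact smallM_mul_sub_one811 hb.2 ha.2
  inv := by
    intro a ha
    rw [inU_iff811] at ha ⊢
    rw [inv_inv]
    exact ⟨ha.2, ha.1⟩

omit [Valued k Γ₀] in
lemma trace_conj811 (u t : GL (Fin 2) k) :
    ((u⁻¹ * t * u : GL (Fin 2) k) : Matrix (Fin 2) (Fin 2) k).trace
      = (t : Matrix (Fin 2) (Fin 2) k).trace := by
  rw [Matrix.GeneralLinearGroup.coe_mul, Matrix.GeneralLinearGroup.coe_mul, Matrix.trace_mul_comm,
    ← Matrix.mul_assoc, ← Matrix.GeneralLinearGroup.coe_mul, mul_inv_cancel]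
  simp

omit [Valued k Γ₀] in
lemma det_conj811 (u t : GL (Fin 2) k) :
    ((u⁻¹ * t * u : GL (Fin 2) k) : Matrix (Fin 2) (Fin 2) k).det
      = (t : Matrix (Fin 2) (Fin 2) k).det := by
  have h : (u⁻¹ * t * u : GL (Fin 2) k) = u⁻¹ * (t * u) := mul_assoc _ _ _
  rw [h, Matrix.GeneralLinearGroup.coe_mul, Matrix.det_mul, mul_comm, ← Matrix.det_mul,
    ← Matrix.GeneralLinearGroup.coe_mul, mul_assoc, mul_inv_cancel, mul_one]

lemma inTwCentC_conj811 (u y t : GL (Fin 2) k) (h : InTwCentC (RingEquiv.refl k) y t) :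
    InTwCentC (RingEquiv.refl k) (u⁻¹ * y * u) (u⁻¹ * t * u) := by
  obtain ⟨h1, h2, h3⟩ := h
  refine ⟨?_, ?_, ?_⟩
  · unfold InTwCent at h1 ⊢
    rw [glAut_refl811] at h1 ⊢
    calc (u⁻¹ * t * u)⁻¹ * (u⁻¹ * y * u) * (u⁻¹ * t * u)
        = u⁻¹ * (t⁻¹ * y * t) * u := by group
      _ = u⁻¹ * y * u := by rw [h1]
  · rw [trace_conj811]
    exact h2
  · rw [det_conj811]
    exact h3

/-- The index `[T_y^c : T_y^c ∩ U]` is constant on the `U`-conjugacy orbits. -/
lemma cIndex_conj811 (n : ℕ) (u y : GL (Fin 2) k) (hu : InU n u) :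
    cIndex (InU n) (InTwCentC (RingEquiv.refl k)) (u⁻¹ * y * u)
      = cIndex (InU n) (InTwCentC (RingEquiv.refl k)) y := by
  have hU := inU_subgrp811 (k := k) n
  unfold cIndex
  have hinj : Function.Injective (fun c : Set (GL (Fin 2) k) => (fun g => u⁻¹ * g * u) '' c) := by
    apply Set.image_injective.2
    intro a b hab
    simpa using hab
  have hcos : ∀ t : GL (Fin 2) k,
      (fun g => u⁻¹ * g * u) '' {g : GL (Fin 2) k | ∃ v, InU n v ∧ g = t * v}
        = {g : GL (Fin 2) k | ∃ v, InU n v ∧ g = (u⁻¹ * t * u) * v} := by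
    intro t
    ext g
    constructor
    · rintro ⟨g', ⟨v, hv, rfl⟩, rfl⟩
      refine ⟨u⁻¹ * v * u, hU.mul _ _ (hU.mul _ _ (hU.inv u hu) hv) hu, ?_⟩
      group
    · rintro ⟨v, hv, rfl⟩
      refine ⟨t * (u * v * u⁻¹), ⟨u * v * u⁻¹, hU.mul _ _ (hU.mul _ _ hu hv) (hU.inv u hu), rfl⟩, ?_⟩
      group
  have hset : {c : Set (GL (Fin 2) k) | ∃ t, InTwCentC (RingEquiv.refl k) (u⁻¹ * y * u) t ∧
        c = {g | ∃ v, InU n v ∧ g = t * v}}
      = (fun c : Set (GL (Fin 2) k) => (fun g => u⁻¹ * g * u) '' c) ''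
        {c : Set (GL (Fin 2) k) | ∃ t, InTwCentC (RingEquiv.refl k) y t ∧
          c = {g | ∃ v, InU n v ∧ g = t * v}} := by
    ext c
    constructor
    · rintro ⟨t', ht', rfl⟩
      refine ⟨{g | ∃ v, InU n v ∧ g = (u * t' * u⁻¹) * v}, ⟨u * t' * u⁻¹, ?_, rfl⟩, ?_⟩
      · have := inTwCentC_conj811 u⁻¹ (u⁻¹ * y * u) t' ht'
        have e1 : u⁻¹⁻¹ * (u⁻¹ * y * u) * u⁻¹ = y := by group
        have e2 : u⁻¹⁻¹ * t' * u⁻¹ = u * t' * u⁻¹ := by group
        rw [e1, e2] at this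
        exact this
      · show (fun g => u⁻¹ * g * u) '' _ = _
        rw [hcos]
        have e : u⁻¹ * (u * t' * u⁻¹) * u = t' := by group
        rw [e]
    · rintro ⟨c', ⟨t, ht, rfl⟩, rfl⟩
      refine ⟨u⁻¹ * t * u, inTwCentC_conj811 u y t ht, ?_⟩
      exact hcos t
  rw [hset]
  exact Set.ncard_image_of_injective _ hinj

/-- **T6.18e**: orbit sums are additive in the function. -/
theorem addC811 : AddC783 := by
  intro k _ _ m f g hf hg γ c d hc hd
  have hU := inU_subgrp811 (k := k) m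
  unfold IsOrbSum IsTwOrbSum at hc hd ⊢
  refine orbSumGen_add811 _ _ _ hU f g ?_ ?_ ?_ γ c d hc hd
  · intro u y hu
    rw [glAut_refl811]
    exact hf u⁻¹ u y (hU.inv u hu) hu
  · intro u y hu
    rw [glAut_refl811]
    exact hg u⁻¹ u y (hU.inv u hu) hu
  · intro u y hu
    rw [glAut_refl811]
    exact cIndex_conj811 m u y hu

end GL2

end Fermat.Agent.LT.T6.H811

end

end
-- ===== PACK-END LT/T6/H811/Add.lean

-- ===== PACK-BEGIN LT/T6/H355/ShiftBackAux.lean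
section


/-!
# Row LT, tower T6, leaf T6.18i.6g `ShiftBackC385` (helper355): auxiliary lemmas

OFF-MAIN.  Mathlib + `LT/T6/Spec.lean` (helper22) + `LT/T6/H162/CptGCore.lean` (helper162),
byte-identical copies.  Valuation estimates for `2 × 2` matrices over a field with a valuation
in `ℤᵐ⁰`.
-/

set_option autoImplicit false

open scoped Matrix

noncomputable section

namespace Fermat.Agent.LT.T6.H355

open Fermat.Agent.LT.T6 Fermat.Agent.LT.T6.H162

/-! ## Algebra -/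

/-- Cayley–Hamilton for `2 × 2` matrices. -/
theorem cayley355 {R : Type} [CommRing R] (A : Matrix (Fin 2) (Fin 2) R) :
    A * A = A.trace • A - A.det • (1 : Matrix (Fin 2) (Fin 2) R) := by
  ext i j
  fin_cases i <;> fin_cases j <;>
    simp [Matrix.mul_apply, Fin.sum_univ_two, Matrix.trace_fin_two, Matrix.det_fin_two] <;> ring

variable {k : Type} [Field k] [Valued k Γ₀]

/-! ## Bounds in `ℤᵐ⁰` -/

theorem exists_nat_ge355 (γ : Γ₀) : ∃ A : ℕ, γ ≤ WithZero.exp ((A : ℕ) : ℤ) := by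
  rcases eq_or_ne γ 0 with rfl | hγ
  · exact ⟨0, zero_le⟩
  · refine ⟨(WithZero.log γ).toNat, ?_⟩
    rw [← WithZero.exp_log hγ, WithZero.exp_le_exp, WithZero.log_exp]
    exact Int.self_le_toNat _

theorem exists_nat_le355 {γ : Γ₀} (hγ : γ ≠ 0) : ∃ A : ℕ, WithZero.exp (-((A : ℕ) : ℤ)) ≤ γ := by
  refine ⟨(-WithZero.log γ).toNat, ?_⟩
  rw [← WithZero.exp_log hγ, WithZero.exp_le_exp, WithZero.log_exp]
  have := Int.self_le_toNat (-WithZero.log γ)
  omega

theorem val_det_ne_zero355 (g : GL (Fin 2) k) :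
    Valued.v (g : Matrix (Fin 2) (Fin 2) k).det ≠ 0 := by
  rw [Ne, Valuation.zero_iff]
  intro h0
  have h1 : (g : Matrix (Fin 2) (Fin 2) k).det * ((g⁻¹ : GL (Fin 2) k) :
      Matrix (Fin 2) (Fin 2) k).det = 1 := by
    rw [← Matrix.det_mul, ← Units.val_mul, mul_inv_cancel, Units.val_one, Matrix.det_one]
  rw [h0, zero_mul] at h1
  exact zero_ne_one h1

/-- a finite subset of `GL₂(k)` is bounded -/
theorem exists_bound355 (F : Finset (GL (Fin 2) k)) :
    ∃ B : ℕ, ∀ f ∈ F, entryMax f ≤ WithZero.exp ((B : ℕ) : ℤ) ∧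
      WithZero.exp (-((B : ℕ) : ℤ)) ≤ Valued.v (f : Matrix (Fin 2) (Fin 2) k).det := by
  classical
  induction F using Finset.induction_on with
  | empty => exact ⟨0, fun f hf => absurd hf (Finset.notMem_empty f)⟩
  | insert a F _ ih =>
    obtain ⟨B, hB⟩ := ih
    obtain ⟨A₁, hA₁⟩ := exists_nat_ge355 (entryMax a)
    obtain ⟨A₂, hA₂⟩ := exists_nat_le355 (val_det_ne_zero355 a)
    refine ⟨max B (max A₁ A₂), fun f hf => ?_⟩
    have hmono : ∀ {m n : ℕ}, m ≤ n →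
        WithZero.exp ((m : ℕ) : ℤ) ≤ WithZero.exp ((n : ℕ) : ℤ) := by
      intro m n h
      rw [WithZero.exp_le_exp]
      exact_mod_cast h
    have hanti : ∀ {m n : ℕ}, m ≤ n →
        WithZero.exp (-((n : ℕ) : ℤ)) ≤ WithZero.exp (-((m : ℕ) : ℤ)) := by
      intro m n h
      rw [WithZero.exp_le_exp]
      have : (m : ℤ) ≤ n := by exact_mod_cast h
      omega
    rcases Finset.mem_insert.1 hf with rfl | hf'
    · exact ⟨hA₁.trans (hmono (le_trans (le_max_left _ _) (le_max_right _ _))),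
        (hanti (le_trans (le_max_right _ _) (le_max_right _ _))).trans hA₂⟩
    · exact ⟨(hB f hf').1.trans (hmono (le_max_left _ _)),
        (hanti (le_max_left _ _)).trans (hB f hf').2⟩

theorem entryMax_le355 (g : GL (Fin 2) k) {c : Γ₀}
    (h : ∀ i j, Valued.v ((g : Matrix (Fin 2) (Fin 2) k) i j) ≤ c) : entryMax g ≤ c :=
  Finset.sup'_le _ _ (fun p _ => h p.1 p.2)

/-! ## Elements of `U(n)` -/

theorem val_one_apply_le355 (i j : Fin 2) :
    Valued.v ((1 : Matrix (Fin 2) (Fin 2) k) i j) ≤ 1 := by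
  by_cases hij : i = j
  · rw [hij, Matrix.one_apply_eq, map_one]
  · rw [Matrix.one_apply_ne hij, map_zero]
    exact zero_le_one

theorem exp_neg_nat_le_one355 (n : ℕ) : WithZero.exp (-((n : ℕ) : ℤ)) ≤ (1 : Γ₀) := by
  rw [← WithZero.exp_zero, WithZero.exp_le_exp]
  omega

theorem val_entry_le_one_of_inU355 {n : ℕ} {u : GL (Fin 2) k} (hu : InU n u) (i j : Fin 2) :
    Valued.v ((u : Matrix (Fin 2) (Fin 2) k) i j) ≤ 1 := by
  have h1 := (hu i j).1
  have e : (u : Matrix (Fin 2) (Fin 2) k) i j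
      = ((u : Matrix (Fin 2) (Fin 2) k) i j - (1 : Matrix (Fin 2) (Fin 2) k) i j)
        + (1 : Matrix (Fin 2) (Fin 2) k) i j := by ring
  rw [e]
  exact (Valuation.map_add _ _ _).trans
    (max_le (h1.trans (exp_neg_nat_le_one355 n)) (val_one_apply_le355 i j))

theorem val_inv_entry_le_one_of_inU355 {n : ℕ} {u : GL (Fin 2) k} (hu : InU n u) (i j : Fin 2) :
    Valued.v (((u⁻¹ : GL (Fin 2) k) : Matrix (Fin 2) (Fin 2) k) i j) ≤ 1 := by
  have h1 := (hu i j).2
  have e : ((u⁻¹ : GL (Fin 2) k) : Matrix (Fin 2) (Fin 2) k) i j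
      = (((u⁻¹ : GL (Fin 2) k) : Matrix (Fin 2) (Fin 2) k) i j
          - (1 : Matrix (Fin 2) (Fin 2) k) i j)
        + (1 : Matrix (Fin 2) (Fin 2) k) i j := by ring
  rw [e]
  exact (Valuation.map_add _ _ _).trans
    (max_le (h1.trans (exp_neg_nat_le_one355 n)) (val_one_apply_le355 i j))

theorem val_det_le_one355 (A : Matrix (Fin 2) (Fin 2) k)
    (h : ∀ i j, Valued.v (A i j) ≤ 1) : Valued.v A.det ≤ 1 := by
  rw [Matrix.det_fin_two]
  refine (Valuation.map_sub _ _ _).trans (max_le ?_ ?_)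
  · rw [map_mul]
    exact mul_le_one' (h 0 0) (h 1 1)
  · rw [map_mul]
    exact mul_le_one' (h 0 1) (h 1 0)

theorem val_det_eq_one_of_inU355 {n : ℕ} {u : GL (Fin 2) k} (hu : InU n u) :
    Valued.v (u : Matrix (Fin 2) (Fin 2) k).det = 1 := by
  have h1 : Valued.v (u : Matrix (Fin 2) (Fin 2) k).det ≤ 1 :=
    val_det_le_one355 _ (val_entry_le_one_of_inU355 hu)
  have h2 : Valued.v ((u⁻¹ : GL (Fin 2) k) : Matrix (Fin 2) (Fin 2) k).det ≤ 1 :=
    val_det_le_one355 _ (val_inv_entry_le_one_of_inU355 hu)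
  have h3 : Valued.v (u : Matrix (Fin 2) (Fin 2) k).det *
      Valued.v ((u⁻¹ : GL (Fin 2) k) : Matrix (Fin 2) (Fin 2) k).det = 1 := by
    rw [← map_mul, ← Matrix.det_mul, ← Units.val_mul, mul_inv_cancel, Units.val_one,
      Matrix.det_one, map_one]
  refine le_antisymm h1 ?_
  by_contra hlt
  rw [not_le] at hlt
  have h0 : Valued.v ((u⁻¹ : GL (Fin 2) k) : Matrix (Fin 2) (Fin 2) k).det ≠ 0 :=
    val_det_ne_zero355 u⁻¹
  have h4 : Valued.v (u : Matrix (Fin 2) (Fin 2) k).det *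
      Valued.v ((u⁻¹ : GL (Fin 2) k) : Matrix (Fin 2) (Fin 2) k).det < 1 :=
    calc Valued.v (u : Matrix (Fin 2) (Fin 2) k).det *
          Valued.v ((u⁻¹ : GL (Fin 2) k) : Matrix (Fin 2) (Fin 2) k).det
        < 1 * Valued.v ((u⁻¹ : GL (Fin 2) k) : Matrix (Fin 2) (Fin 2) k).det :=
          mul_lt_mul_of_pos_right hlt (zero_lt_iff.2 h0)
      _ = Valued.v ((u⁻¹ : GL (Fin 2) k) : Matrix (Fin 2) (Fin 2) k).det := one_mul _
      _ ≤ 1 := h2
  rw [h3] at h4
  exact lt_irrefl _ h4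

/-- the trace of an element of `U(M)` is `2` up to `exp (-M)` -/
theorem val_trace_sub_two355 {M : ℕ} {w : GL (Fin 2) k} (hw : InU M w) :
    Valued.v ((w : Matrix (Fin 2) (Fin 2) k).trace - 2) ≤ WithZero.exp (-((M : ℕ) : ℤ)) := by
  have h0 := (hw 0 0).1
  have h1 := (hw 1 1).1
  rw [Matrix.one_apply_eq] at h0 h1
  have e : (w : Matrix (Fin 2) (Fin 2) k).trace - 2
      = ((w : Matrix (Fin 2) (Fin 2) k) 0 0 - 1) + ((w : Matrix (Fin 2) (Fin 2) k) 1 1 - 1) := by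
    rw [Matrix.trace_fin_two]
    ring
  rw [e]
  exact (Valuation.map_add _ _ _).trans (max_le h0 h1)

end Fermat.Agent.LT.T6.H355

end

end
-- ===== PACK-END LT/T6/H355/ShiftBackAux.lean

-- ===== PACK-BEGIN LT/T6/H313/LiftJ.lean
section




/-!
# Row LT, tower T6, sub-leaf T6.15c3 (helper313): the filtration of the quadratic algebra

OFF-MAIN.  `K` a field with a valuation in `ℤᵐ⁰`, `a, b` integral, `Q = K[X]/(X² - bX - a)`.
`InJ313 n z` : both coordinates of `z ∈ Q` have valuation `≤ exp (-n)`.  `J 0` is a subring,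
`J m · J n ⊆ J (m + n)`, the `J n` are stable under a valuation preserving automorphism, and the
twisted norm preserves congruences modulo `J n`.
-/

set_option autoImplicit false
set_option linter.style.haveILetI false
set_option linter.unusedSectionVars false
set_option linter.unusedVariables false

open Fermat.Agent.LT.T6

noncomputable section

namespace Fermat.Agent.LT.T6.H313

section J

variable {K : Type} [Field K] [Valued K Γ₀] {a b : K}

/-- Both coordinates have valuation `≤ exp (-n)`. -/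
def InJ313 (n : ℕ) (z : QuadraticAlgebra K a b) : Prop :=
  Valued.v z.re ≤ WithZero.exp (-(n : ℤ)) ∧ Valued.v z.im ≤ WithZero.exp (-(n : ℤ))

theorem inJ313_zero_iff (z : QuadraticAlgebra K a b) :
    InJ313 0 z ↔ Valued.v z.re ≤ 1 ∧ Valued.v z.im ≤ 1 := by
  unfold InJ313
  simp

theorem InJ313.mono {m n : ℕ} (h : m ≤ n) {z : QuadraticAlgebra K a b} (hz : InJ313 n z) :
    InJ313 m z :=
  ⟨hz.1.trans (exp_neg_mono313 h), hz.2.trans (exp_neg_mono313 h)⟩

theorem InJ313.zero (n : ℕ) : InJ313 n (0 : QuadraticAlgebra K a b) := by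
  constructor
  · show Valued.v (0 : K) ≤ _
    rw [map_zero]; exact zero_le
  · show Valued.v (0 : K) ≤ _
    rw [map_zero]; exact zero_le

theorem InJ313.one : InJ313 0 (1 : QuadraticAlgebra K a b) := by
  rw [inJ313_zero_iff]
  constructor
  · show Valued.v (1 : K) ≤ 1
    rw [map_one]
  · show Valued.v (0 : K) ≤ 1
    rw [map_zero]; exact zero_le

theorem InJ313.omega : InJ313 0 (QuadraticAlgebra.omega : QuadraticAlgebra K a b) := by
  rw [inJ313_zero_iff]
  constructor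
  · show Valued.v (0 : K) ≤ 1
    rw [map_zero]; exact zero_le
  · show Valued.v (1 : K) ≤ 1
    rw [map_one]

theorem InJ313.C {x : K} (hx : Valued.v x ≤ 1) :
    InJ313 0 (QuadraticAlgebra.C x : QuadraticAlgebra K a b) := by
  rw [inJ313_zero_iff]
  constructor
  · exact hx
  · show Valued.v (0 : K) ≤ 1
    rw [map_zero]; exact zero_le

theorem InJ313.add {n : ℕ} {z w : QuadraticAlgebra K a b} (hz : InJ313 n z) (hw : InJ313 n w) :
    InJ313 n (z + w) :=
  ⟨(Valuation.map_add _ _ _).trans (max_le hz.1 hw.1),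
    (Valuation.map_add _ _ _).trans (max_le hz.2 hw.2)⟩

theorem InJ313.neg {n : ℕ} {z : QuadraticAlgebra K a b} (hz : InJ313 n z) : InJ313 n (-z) := by
  constructor
  · show Valued.v (-z.re) ≤ _
    rw [Valuation.map_neg]; exact hz.1
  · show Valued.v (-z.im) ≤ _
    rw [Valuation.map_neg]; exact hz.2

theorem InJ313.sub {n : ℕ} {z w : QuadraticAlgebra K a b} (hz : InJ313 n z) (hw : InJ313 n w) :
    InJ313 n (z - w) := by
  rw [sub_eq_add_neg]
  exact hz.add hw.neg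

theorem InJ313.mul (hav : Valued.v a ≤ 1) (hbv : Valued.v b ≤ 1) {m n : ℕ}
    {z w : QuadraticAlgebra K a b} (hz : InJ313 m z) (hw : InJ313 n w) : InJ313 (m + n) (z * w) := by
  have e : (WithZero.exp (-(m : ℤ)) : Γ₀) * WithZero.exp (-(n : ℤ))
      = WithZero.exp (-((m + n : ℕ) : ℤ)) := exp_neg_mul313 m n
  have key : ∀ x y : K, Valued.v x ≤ WithZero.exp (-(m : ℤ)) →
      Valued.v y ≤ WithZero.exp (-(n : ℤ)) → Valued.v (x * y) ≤ WithZero.exp (-((m + n : ℕ) : ℤ)) := by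
    intro x y hx hy
    rw [map_mul, ← e]
    exact mul_le_mul' hx hy
  have key2 : ∀ c x y : K, Valued.v c ≤ 1 → Valued.v x ≤ WithZero.exp (-(m : ℤ)) →
      Valued.v y ≤ WithZero.exp (-(n : ℤ)) →
      Valued.v (c * x * y) ≤ WithZero.exp (-((m + n : ℕ) : ℤ)) := by
    intro c x y hc hx hy
    rw [mul_assoc, map_mul]
    calc Valued.v c * Valued.v (x * y) ≤ 1 * WithZero.exp (-((m + n : ℕ) : ℤ)) :=
          mul_le_mul' hc (key x y hx hy)
      _ = _ := one_mul _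
  constructor
  · rw [QuadraticAlgebra.re_mul]
    exact (Valuation.map_add _ _ _).trans (max_le (key _ _ hz.1 hw.1) (key2 _ _ _ hav hz.2 hw.2))
  · rw [QuadraticAlgebra.im_mul]
    refine (Valuation.map_add _ _ _).trans (max_le ?_ (key2 _ _ _ hbv hz.2 hw.2))
    refine (Valuation.map_add _ _ _).trans (max_le (key _ _ hz.1 hw.2) ?_)
    have := key _ _ hz.2 hw.1
    exact this

theorem InJ313.mul_left (hav : Valued.v a ≤ 1) (hbv : Valued.v b ≤ 1) {n : ℕ}
    {z w : QuadraticAlgebra K a b} (hz : InJ313 0 z) (hw : InJ313 n w) : InJ313 n (z * w) := by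
  have := InJ313.mul hav hbv hz hw
  rwa [zero_add] at this

theorem InJ313.mul_right (hav : Valued.v a ≤ 1) (hbv : Valued.v b ≤ 1) {n : ℕ}
    {z w : QuadraticAlgebra K a b} (hz : InJ313 n z) (hw : InJ313 0 w) : InJ313 n (z * w) := by
  have := InJ313.mul hav hbv hz hw
  rwa [add_zero] at this

theorem InJ313.aut (s : K ≃+* K) (hs : ∀ y : K, Valued.v (s y) = Valued.v y) (ha : s a = a)
    (hb : s b = b) {n : ℕ} {z : QuadraticAlgebra K a b} (hz : InJ313 n z) :
    InJ313 n (qAut313 s ha hb z) := by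
  constructor
  · rw [qAut313_re, hs]; exact hz.1
  · rw [qAut313_im, hs]; exact hz.2

theorem InJ313.nrm (hav : Valued.v a ≤ 1) (hbv : Valued.v b ≤ 1) (s : K ≃+* K)
    (hs : ∀ y : K, Valued.v (s y) = Valued.v y) (ha : s a = a) (hb : s b = b)
    {z : QuadraticAlgebra K a b} (hz : InJ313 0 z) (m : ℕ) :
    InJ313 0 (nrm313 (⇑(qAut313 s ha hb)) m z) := by
  induction m with
  | zero => exact InJ313.one
  | succ m ih =>
    rw [nrm313_succ]
    exact InJ313.mul_left hav hbv hz (InJ313.aut s hs ha hb ih)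

/-- The twisted norm preserves congruences. -/
theorem InJ313.nrm_sub (hav : Valued.v a ≤ 1) (hbv : Valued.v b ≤ 1) (s : K ≃+* K)
    (hs : ∀ y : K, Valued.v (s y) = Valued.v y) (ha : s a = a) (hb : s b = b) {n : ℕ}
    {z w : QuadraticAlgebra K a b} (hz : InJ313 0 z) (hw : InJ313 0 w) (hzw : InJ313 n (z - w))
    (m : ℕ) :
    InJ313 n (nrm313 (⇑(qAut313 s ha hb)) m z - nrm313 (⇑(qAut313 s ha hb)) m w) := by
  induction m with
  | zero =>
    rw [nrm313_zero, nrm313_zero, sub_self]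
    exact InJ313.zero n
  | succ m ih =>
    rw [nrm313_succ, nrm313_succ]
    set σ := qAut313 s ha hb with hσ
    have h1 : z * σ (nrm313 (⇑σ) m z) - w * σ (nrm313 (⇑σ) m w)
        = (z - w) * σ (nrm313 (⇑σ) m z) + w * σ (nrm313 (⇑σ) m z - nrm313 (⇑σ) m w) := by
      rw [map_sub]; ring
    rw [h1]
    refine InJ313.add ?_ ?_
    · exact InJ313.mul_right hav hbv hzw (InJ313.aut s hs ha hb (InJ313.nrm hav hbv s hs ha hb hz m))
    · exact InJ313.mul_left hav hbv hw (InJ313.aut s hs ha hb ih)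

/-- An element of all the `J n` is zero. -/
theorem eq_zero_of_forall_inJ313 (z : QuadraticAlgebra K a b) (hz : ∀ n : ℕ, InJ313 n z) :
    z = 0 := by
  have key : ∀ x : K, (∀ n : ℕ, Valued.v x ≤ WithZero.exp (-(n : ℤ))) → x = 0 := by
    intro x hx
    by_contra hx0
    have hv0 : Valued.v x ≠ 0 := (Valuation.ne_zero_iff _).2 hx0
    obtain ⟨c, hc⟩ : ∃ c : ℤ, Valued.v x = WithZero.exp c :=
      ⟨_, (WithZero.exp_log hv0).symm⟩
    have h1 := hx (1 - c).toNat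
    rw [hc, WithZero.exp_le_exp] at h1
    omega
  ext
  · exact key _ fun n => (hz n).1
  · exact key _ fun n => (hz n).2

end J

/-- Dependent choice along `ℕ`. -/
theorem exists_seq313 {X : Type*} (P : ℕ → X → Prop) (R : ℕ → X → X → Prop) (x₀ : X)
    (h0 : P 0 x₀) (hstep : ∀ n x, P n x → ∃ y, P (n + 1) y ∧ R n x y) :
    ∃ f : ℕ → X, ∀ n, P n (f n) ∧ R n (f n) (f (n + 1)) := by
  classical
  let F : (n : ℕ) → {x // P n x} := fun n =>
    Nat.rec (motive := fun n => {x // P n x}) ⟨x₀, h0⟩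
      (fun n x => ⟨Classical.choose (hstep n x.1 x.2), (Classical.choose_spec (hstep n x.1 x.2)).1⟩) n
  refine ⟨fun n => (F n).1, fun n => ⟨(F n).2, ?_⟩⟩
  exact (Classical.choose_spec (hstep n (F n).1 (F n).2)).2

end Fermat.Agent.LT.T6.H313

end

end
-- ===== PACK-END LT/T6/H313/LiftJ.lean

-- ===== PACK-BEGIN LT/T6/H847/EllRamTop.lean
section


/-!
# Row LT, tower T6, leaf T6.14 `FLEllRamC`: the PROVED tops (helper847), OFF-MAIN

* `ellOrb_of : CartanInvC → EllParamC → EllCountC → EllOrbC`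
* `flEllRam_of_leaves : EllReduceC → EllOrbC → EllAlgC → T6.FLEllRamC`
-/

set_option autoImplicit false

open scoped Matrix

noncomputable section

namespace Fermat.Agent.LT.T6.H847

open Fermat.Agent.LT.T6

/-! ### Existence of systems of representatives -/

/-- The congruence modulo `ϖⁿ` as a setoid. -/
def congSetoid (k : Type) [Field k] [Valued k Γ₀] (n : ℕ) : Setoid k where
  r x y := Valued.v (x - y) ≤ WithZero.exp (-(n : ℤ))
  iseqv := by
    refine ⟨fun x => by simp, fun {x y} h => ?_, fun {x y z} h1 h2 => ?_⟩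
    · rw [← Valuation.map_neg, neg_sub]; exact h
    · have : x - z = (x - y) + (y - z) := by ring
      rw [this]
      exact le_trans (Valuation.map_add _ _ _) (max_le h1 h2)

theorem exists_isReprMod (k : Type) [Field k] [Valued k Γ₀] (n : ℕ) :
    ∃ B : Set k, IsReprMod n B := by
  classical
  let S := congSetoid k n
  have hle : WithZero.exp (-(n : ℤ)) ≤ (1 : Γ₀) := by
    rw [← WithZero.exp_zero]
    exact WithZero.exp_le_exp.mpr (by omega)
  have hout : ∀ x : k, Valued.v ((Quotient.mk S x).out - x) ≤ WithZero.exp (-(n : ℤ)) := by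
    intro x
    have h := Quotient.mk_out (s := S) x
    exact h
  refine ⟨{b | Valued.v b ≤ 1 ∧ (Quotient.mk S b).out = b}, fun b hb => hb.1, ?_⟩
  intro x hx
  have hx' : Valued.v (x - (Quotient.mk S x).out) ≤ WithZero.exp (-(n : ℤ)) := by
    rw [← Valuation.map_neg, neg_sub]; exact hout x
  refine ⟨(Quotient.mk S x).out, ⟨⟨?_, ?_⟩, hx'⟩, ?_⟩
  · have : (Quotient.mk S x).out = x + ((Quotient.mk S x).out - x) := by ring
    rw [this]
    exact le_trans (Valuation.map_add _ _ _) (max_le hx (le_trans (hout x) hle))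
  · congr 1
    exact Quotient.out_eq _
  · rintro b ⟨⟨_, hb2⟩, hb3⟩
    rw [← hb2]
    congr 1
    exact Quotient.sound (by
      show Valued.v (b - x) ≤ _
      rw [← Valuation.map_neg, neg_sub]; exact hb3)

/-! ### The node `EllOrbC` -/

theorem isBiInv_cartan (hc : CartanInvC) (k : Type) [Field k] [Valued k Γ₀]
    (φ : (ℤ × ℤ) →₀ ℂ) : IsBiInv (InU 0) (fun g : GL (Fin 2) k => φ (cartan g)) := by
  intro u u' g hu hu'
  show φ (cartan (u * g * u')) = φ (cartan g)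
  rw [hc k u u' g hu hu']

/-- **NODE.**  `EllOrbC` from the parametrisation and the count. -/
theorem ellOrb_of (hc : CartanInvC) (hp : EllParamC) (hn : EllCountC) : EllOrbC := by
  intro k k' _ _ _ _ q l i s hk hk' hext τ ν α β d₀ d₁ γ₀ δ₀ hD φ c hsum
  choose B hB using fun n : ℕ => exists_isReprMod k' n
  have h1 := hp k k' q l i s hk hk' hext τ ν α β d₀ d₁ γ₀ δ₀ hD
    (fun g => φ (cartan g)) (isBiInv_cartan hc k' φ) c hsum B hB
  rw [h1]
  exact hn k k' q l i s hk hk' hext τ ν α β d₀ d₁ γ₀ δ₀ hD φ B hB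

/-! ### Small lemmas for the top -/

theorem isOrbSumGen_of_twConj {Γ : Type} [Group Γ] (s : Γ →* Γ) (U : Γ → Prop)
    (C : Γ → Γ → Prop) (φ : Γ → ℂ) (δ δ' : Γ) (c : ℂ) (g : Γ) (hg : δ' = g⁻¹ * δ * s g)
    (h : IsOrbSumGen s U C φ δ c) : IsOrbSumGen s U C φ δ' c := by
  have key : ∀ y : Γ, (∃ x : Γ, y = x⁻¹ * δ' * s x) ↔ (∃ x : Γ, y = x⁻¹ * δ * s x) := by
    intro y
    constructor
    · rintro ⟨x, rfl⟩
      refine ⟨g * x, ?_⟩
      rw [hg, map_mul, mul_inv_rev]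
      simp only [mul_assoc]
    · rintro ⟨x, rfl⟩
      refine ⟨g⁻¹ * x, ?_⟩
      rw [hg, map_mul, mul_inv_rev, inv_inv, map_inv]
      simp only [mul_assoc, mul_inv_cancel_left]
  obtain ⟨R, h1, h2, h3, h4⟩ := h
  exact ⟨R, fun y hy => (key y).mpr (h1 y hy), h2, fun y hy => h3 y ((key y).mp hy), h4⟩

theorem glAut_refl (k : Type) [Field k] (g : GL (Fin 2) k) :
    glAut (RingEquiv.refl k) g = g := by
  apply Matrix.GeneralLinearGroup.ext
  intro a b
  simp [glAut]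

theorem glMap_id (k : Type) [Field k] (g : GL (Fin 2) k) :
    Matrix.GeneralLinearGroup.map (RingHom.id k) g = g := by
  apply Matrix.GeneralLinearGroup.ext
  intro a b
  simp

theorem twNorm_one {R : Type} [CommRing R] (s : R ≃+* R) (δ : GL (Fin 2) R) :
    twNorm s 1 δ = δ := by
  simp [twNorm, twN]

theorem one_lt_of_isLocalField {k : Type} [Field k] [Valued k Γ₀] {q : ℕ}
    (hk : IsLocalField k q) : 1 < q := by
  obtain ⟨T, hcard, -, -, hT⟩ := hk.residue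
  obtain ⟨x₀, hx₀, h0⟩ := hT 0 (by simp)
  obtain ⟨x₁, hx₁, h1⟩ := hT 1 (by simp)
  rw [← hcard]
  refine Finset.one_lt_card.mpr ⟨x₀, hx₀, x₁, hx₁, ?_⟩
  rintro rfl
  have h0' : Valued.v x₀ < 1 := by
    rw [zero_sub, Valuation.map_neg] at h0; exact h0
  have : Valued.v (1 : k) < 1 := by
    have e : (1 : k) = (1 - x₀) + x₀ := by ring
    rw [e]
    exact lt_of_le_of_lt (Valuation.map_add _ _ _) (max_lt h1 h0')
  simp at this

theorem val_det_twN {k' : Type} [Field k'] [Valued k' Γ₀] (s : k' ≃+* k')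
    (hs : ∀ y : k', Valued.v (s y) = Valued.v y) (δ : GL (Fin 2) k') (n : ℕ) :
    Valued.v ((twN (glAut s) n δ : GL (Fin 2) k') : Matrix (Fin 2) (Fin 2) k').det
      = Valued.v ((δ : Matrix (Fin 2) (Fin 2) k').det) ^ n := by
  induction n with
  | zero => simp [twN]
  | succ n ih =>
    have h1 : ((glAut s (twN (glAut s) n δ) : GL (Fin 2) k') : Matrix (Fin 2) (Fin 2) k').det
        = s ((twN (glAut s) n δ : GL (Fin 2) k') : Matrix (Fin 2) (Fin 2) k').det := by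
      simp only [glAut]
      rw [Matrix.det_fin_two, Matrix.det_fin_two]
      simp [Matrix.GeneralLinearGroup.map_apply]
    simp only [twN, Matrix.GeneralLinearGroup.coe_mul, Matrix.det_mul, map_mul, h1, hs, ih]
    rw [pow_succ, mul_comm]

theorem ord_det_of_norm {k k' : Type} [Field k] [Field k'] [Valued k Γ₀] [Valued k' Γ₀]
    {l : ℕ} {i : k →+* k'} {s : k' ≃+* k'} (hext : IsLocalExt k k' l 1 i s)
    {γ₀ : GL (Fin 2) k} {δ₀ : GL (Fin 2) k'}
    (h : twNorm s l δ₀ = Matrix.GeneralLinearGroup.map i γ₀) :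
    ord847 (γ₀ : Matrix (Fin 2) (Fin 2) k).det
      = (l : ℤ) * ord847 (δ₀ : Matrix (Fin 2) (Fin 2) k').det := by
  have h1 := val_det_twN s hext.val_s δ₀ l
  have h2 : ((twN (glAut s) l δ₀ : GL (Fin 2) k') : Matrix (Fin 2) (Fin 2) k').det
      = i (γ₀ : Matrix (Fin 2) (Fin 2) k).det := by
    have : twN (glAut s) l δ₀ = Matrix.GeneralLinearGroup.map i γ₀ := h
    rw [this]
    rw [Matrix.det_fin_two, Matrix.det_fin_two]
    simp [Matrix.GeneralLinearGroup.map_apply]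
  rw [h2, hext.val_i, pow_one] at h1
  unfold ord847
  rw [h1, WithZero.log_pow]
  simp

/-! ### The top -/

/-- **TOP of T6.14.**  The fundamental lemma in the elliptic ramified case from the sub-leaves. -/
theorem flEllRam_of_leaves (h1 : EllReduceC) (h2 : EllOrbC) (h3 : EllAlgC) : FLEllRamC := by
  intro k k' _ _ _ _ q l i s hk hk' hext hl φ f hφ hf hbc δ γ c c' hreg hP hconj hc hc'
  obtain ⟨hne, hram⟩ := hP
  obtain ⟨τ, ν, α, β, d₀, d₁, γ₀, δ₀, hD, hγ, hδ⟩ :=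
    h1 k k' q l i s hk hk' hext δ γ hreg hne hram hconj
  -- the twisted side
  obtain ⟨x, hx⟩ := hδ
  have hc₀ : IsTwOrbSum s 0 (fun g => φ (cartan g)) δ₀ c :=
    isOrbSumGen_of_twConj _ _ _ _ δ δ₀ c x hx hc
  have e1 := h2 k k' q l i s hk hk' hext τ ν α β d₀ d₁ γ₀ δ₀ hD φ c hc₀
  -- the untwisted side: `k' = k`, `l = 1`, `s = id`
  have hk1 : IsLocalField k (q ^ 1) := by rw [pow_one]; exact hk
  have hext1 : IsLocalExt k k 1 1 (RingHom.id k) (RingEquiv.refl k) :=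
    { cyc :=
        { pos := Nat.one_pos
          fix_i := fun _ => rfl
          fixed := fun y _ => ⟨y, rfl⟩
          order := fun _ => rfl
          faithful := fun m h0 h1 => by omega }
      e_pos := Nat.one_pos
      val_i := fun x => by simp
      val_s := fun _ => rfl }
  have hD1 : EllData k k 1 (RingHom.id k) (RingEquiv.refl k) τ ν α β α β γ₀ γ₀ :=
    { val_ν := hD.val_ν
      val_τ := hD.val_τ
      β_ne := hD.β_ne
      γ₀_eq := hD.γ₀_eq
      δ₀_eq := by simpa using hD.γ₀_eq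
      norm_eq := by rw [twNorm_one, glMap_id] }
  obtain ⟨g, hg⟩ := isConj_iff.mp hγ
  have hc'₀ : IsTwOrbSum (RingEquiv.refl k) 0 (fun g => f (cartan g)) γ₀ c' := by
    refine isOrbSumGen_of_twConj _ _ _ _ γ γ₀ c' g⁻¹ ?_ hc'
    rw [glAut_refl, inv_inv]
    exact hg.symm
  have e2 := h2 k k q 1 (RingHom.id k) (RingEquiv.refl k) hk hk1 hext1 τ ν α β α β γ₀ γ₀ hD1
    f c' hc'₀
  rw [pow_one] at e2
  rw [e1, e2, ord_det_of_norm hext hD.norm_eq]
  exact (h3 l q hext.cyc.pos (one_lt_of_isLocalField hk) φ f hφ hf hbc _ _).symm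

end Fermat.Agent.LT.T6.H847

end

end
-- ===== PACK-END LT/T6/H847/EllRamTop.lean

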