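import Mathlib
import Fermat.Agent.Pack.LT3.E3L1
import Fermat.Agent.Pack.LT2.E0L1
import Fermat.Agent.Pack.LT3.E2L0
import Fermat.Agent.Pack.LT2.E0L2
import Fermat.Agent.Pack.LT2.E3L1
import Fermat.Agent.Pack.LT3.E1L1
import Fermat.Agent.Pack.LT3.E5L2
import Fermat.Agent.Pack.LT3.E5L0
import Fermat.Agent.Pack.LT3.E6L2

set_option linter.all false

-- ===== PACK-BEGIN LT/T6/H176/CartanUpper.lean
section



/-!
# Row LT, tower T6, sub-leaf T6.12f `CartanUpperC` (helper176), OFF-MAIN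

`cartan [[a, u], [0, b]] = (ord a + ord b - j, j)`, `j = min (ord a) (ord b) (ord u)`
(`layerOf`).  Mathlib + `T6/Spec.lean` (helper22) + `T6/H288/HypSpec.lean` (helper288,
origin/helper288@945c32373, byte-identical copies) only.
-/

set_option autoImplicit false

open scoped Matrix

noncomputable section

namespace Fermat.Agent.LT.T6.H176

open Fermat.Agent.LT.T6 Fermat.Agent.LT.T6.H288

/-- `log` of a supremum of two nonzero elements. -/
theorem log_sup176 {x y : Γ₀} (hx : x ≠ 0) (hy : y ≠ 0) :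
    WithZero.log (x ⊔ y) = max (WithZero.log x) (WithZero.log y) := by
  rcases le_total x y with h | h
  · rw [sup_eq_right.mpr h, max_eq_right ((WithZero.log_le_log hx hy).mpr h)]
  · rw [sup_eq_left.mpr h, max_eq_left ((WithZero.log_le_log hy hx).mpr h)]

/-- The largest entry of an upper triangular matrix. -/
theorem entryMax_upper176 {k : Type} [Field k] [Valued k Γ₀] (g : GL (Fin 2) k) (a b u : k)
    (hg : (g : Matrix (Fin 2) (Fin 2) k) = !![a, u; 0, b]) :
    entryMax g = (Valued.v a ⊔ Valued.v b) ⊔ Valued.v u := by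
  unfold entryMax
  apply le_antisymm
  · apply Finset.sup'_le
    rintro ⟨i, j⟩ -
    rw [hg]
    fin_cases i <;> fin_cases j
    · exact le_sup_of_le_left le_sup_left
    · exact le_sup_right
    · simp
    · exact le_sup_of_le_left le_sup_right
  · refine sup_le (sup_le ?_ ?_) ?_
    · have h := Finset.le_sup' (fun p : Fin 2 × Fin 2 =>
        Valued.v ((g : Matrix (Fin 2) (Fin 2) k) p.1 p.2)) (Finset.mem_univ ((0 : Fin 2), (0 : Fin 2)))
      simpa [hg] using h
    · have h := Finset.le_sup' (fun p : Fin 2 × Fin 2 =>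
        Valued.v ((g : Matrix (Fin 2) (Fin 2) k) p.1 p.2)) (Finset.mem_univ ((1 : Fin 2), (1 : Fin 2)))
      simpa [hg] using h
    · have h := Finset.le_sup' (fun p : Fin 2 × Fin 2 =>
        Valued.v ((g : Matrix (Fin 2) (Fin 2) k) p.1 p.2)) (Finset.mem_univ ((0 : Fin 2), (1 : Fin 2)))
      simpa [hg] using h

/-- `- log (entryMax g)` is the layer. -/
theorem neg_log_entryMax_upper176 {k : Type} [Field k] [Valued k Γ₀] (g : GL (Fin 2) k)
    (a b u : k) (hg : (g : Matrix (Fin 2) (Fin 2) k) = !![a, u; 0, b])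
    (ha : a ≠ 0) (hb : b ≠ 0) :
    - WithZero.log (entryMax g) = layerOf (ordv a) (ordv b) u := by
  have hva : (Valued.v a : Γ₀) ≠ 0 := (Valuation.ne_zero_iff _).mpr ha
  have hvb : (Valued.v b : Γ₀) ≠ 0 := (Valuation.ne_zero_iff _).mpr hb
  have hab : (Valued.v a ⊔ Valued.v b : Γ₀) ≠ 0 := by
    intro h
    exact hva (le_antisymm (h ▸ le_sup_left) zero_le)
  rw [entryMax_upper176 g a b u hg]
  unfold layerOf ordv
  by_cases hu : u = 0
  · rw [if_pos hu, hu, map_zero]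
    have : ((Valued.v a ⊔ Valued.v b : Γ₀) ⊔ 0) = Valued.v a ⊔ Valued.v b :=
      sup_eq_left.mpr zero_le
    rw [this, log_sup176 hva hvb, ← min_neg_neg]
  · rw [if_neg hu]
    have hvu : (Valued.v u : Γ₀) ≠ 0 := (Valuation.ne_zero_iff _).mpr hu
    rw [log_sup176 hab hvu, log_sup176 hva hvb, ← min_neg_neg, ← min_neg_neg]

/-- **T6.12f `CartanUpperC`.** -/
theorem cartanUpperC176 : CartanUpperC := by
  intro k _ _ g a b u hg
  have hdet : (g : Matrix (Fin 2) (Fin 2) k).det = a * b := by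
    rw [hg, Matrix.det_fin_two_of]; ring
  have hne : a * b ≠ 0 := by
    rw [← hdet]
    exact Matrix.GeneralLinearGroup.det_ne_zero g
  have ha : a ≠ 0 := left_ne_zero_of_mul hne
  have hb : b ≠ 0 := right_ne_zero_of_mul hne
  have hva : (Valued.v a : Γ₀) ≠ 0 := (Valuation.ne_zero_iff _).mpr ha
  have hvb : (Valued.v b : Γ₀) ≠ 0 := (Valuation.ne_zero_iff _).mpr hb
  have hlayer := neg_log_entryMax_upper176 g a b u hg ha hb
  unfold cartan
  rw [hdet, map_mul, WithZero.log_mul hva hvb, hlayer]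
  have h1 : WithZero.log (entryMax g) = - layerOf (ordv a) (ordv b) u := by
    rw [← hlayer, neg_neg]
  rw [h1]
  unfold ordv
  congr 1
  ring

end Fermat.Agent.LT.T6.H176

end

end
-- ===== PACK-END LT/T6/H176/CartanUpper.lean

-- ===== PACK-BEGIN LT/T6/H687/CartanInv.lean
section


/-!
# Row LT, tower T6, sub-leaf T6.12i `CartanInvC` (helper687)

OFF-MAIN.  `cartan (u * g * u') = cartan g` for `u, u' ∈ U(0) = GL₂(𝒪)`:
the largest valuation of an entry and the valuation of the determinant are invariant under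
multiplication by integral invertible matrices with integral inverse.

Imports `LT/T6/H288/HypSpec.lean` (helper288@945c32373, sha256 `46fc5f22…`) and through it
`LT/T6/Spec.lean` (helper22, sha256 `89f8f8b8…`), byte-identical copies.  Mathlib only otherwise.

Main result: `cartanInvC_h687 : Fermat.Agent.LT.T6.H288.CartanInvC`.
-/

set_option autoImplicit false

open scoped Matrix

noncomputable section

namespace Fermat.Agent.LT.T6.H687

open Fermat.Agent.LT.T6

variable {k : Type} [Field k] [Valued k Γ₀]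

/-- The entries of the identity matrix are integral. -/
theorem v_one_apply_le_one_h687 (i j : Fin 2) :
    Valued.v ((1 : Matrix (Fin 2) (Fin 2) k) i j) ≤ (1 : Γ₀) := by
  by_cases hij : i = j
  · subst hij
    simp
  · simp [Matrix.one_apply_ne hij]

/-- The entries of an element of `U(0)` are integral. -/
theorem entry_le_one_of_inU_h687 {u : GL (Fin 2) k} (hu : InU 0 u) (i j : Fin 2) :
    Valued.v ((u : Matrix (Fin 2) (Fin 2) k) i j) ≤ (1 : Γ₀) := by
  have h := (hu i j).1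
  simp only [Nat.cast_zero, neg_zero, WithZero.exp_zero] at h
  have h2 := Valuation.map_add (Valued.v : Valuation k Γ₀)
    ((u : Matrix (Fin 2) (Fin 2) k) i j - (1 : Matrix (Fin 2) (Fin 2) k) i j)
    ((1 : Matrix (Fin 2) (Fin 2) k) i j)
  rw [sub_add_cancel] at h2
  exact h2.trans (max_le h (v_one_apply_le_one_h687 i j))

/-- The entries of the inverse of an element of `U(0)` are integral. -/
theorem entry_inv_le_one_of_inU_h687 {u : GL (Fin 2) k} (hu : InU 0 u) (i j : Fin 2) :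
    Valued.v (((u⁻¹ : GL (Fin 2) k) : Matrix (Fin 2) (Fin 2) k) i j) ≤ (1 : Γ₀) := by
  have h := (hu i j).2
  simp only [Nat.cast_zero, neg_zero, WithZero.exp_zero] at h
  have h2 := Valuation.map_add (Valued.v : Valuation k Γ₀)
    (((u⁻¹ : GL (Fin 2) k) : Matrix (Fin 2) (Fin 2) k) i j - (1 : Matrix (Fin 2) (Fin 2) k) i j)
    ((1 : Matrix (Fin 2) (Fin 2) k) i j)
  rw [sub_add_cancel] at h2
  exact h2.trans (max_le h (v_one_apply_le_one_h687 i j))

/-- Every entry is bounded by `entryMax`. -/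
theorem v_entry_le_entryMax_h687 (g : GL (Fin 2) k) (a b : Fin 2) :
    Valued.v ((g : Matrix (Fin 2) (Fin 2) k) a b) ≤ entryMax g :=
  Finset.le_sup' (fun p : Fin 2 × Fin 2 => Valued.v ((g : Matrix (Fin 2) (Fin 2) k) p.1 p.2))
    (Finset.mem_univ (a, b))

/-- A product `x * y` with `v x ≤ 1` has valuation at most `v y`. -/
theorem v_mul_le_right_h687 {x y : k} (hx : Valued.v x ≤ (1 : Γ₀)) :
    Valued.v (x * y) ≤ Valued.v y := by
  rw [Valuation.map_mul]
  calc Valued.v x * Valued.v y ≤ 1 * Valued.v y := mul_le_mul' hx le_rfl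
    _ = Valued.v y := one_mul _

/-- A product `x * y` with `v y ≤ 1` has valuation at most `v x`. -/
theorem v_mul_le_left_h687 {x y : k} (hy : Valued.v y ≤ (1 : Γ₀)) :
    Valued.v (x * y) ≤ Valued.v x := by
  rw [mul_comm]
  exact v_mul_le_right_h687 hy

/-- Left multiplication by an integral matrix does not increase `entryMax`. -/
theorem entryMax_mul_left_le_h687 {u : GL (Fin 2) k} (g : GL (Fin 2) k)
    (hu : ∀ i j, Valued.v ((u : Matrix (Fin 2) (Fin 2) k) i j) ≤ (1 : Γ₀)) :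
    entryMax (u * g) ≤ entryMax g := by
  unfold entryMax
  apply Finset.sup'_le
  rintro ⟨i, j⟩ -
  simp only [Matrix.GeneralLinearGroup.coe_mul, Matrix.mul_apply, Fin.sum_univ_two]
  refine (Valuation.map_add _ _ _).trans (max_le ?_ ?_)
  · exact (v_mul_le_right_h687 (hu i 0)).trans (v_entry_le_entryMax_h687 g 0 j)
  · exact (v_mul_le_right_h687 (hu i 1)).trans (v_entry_le_entryMax_h687 g 1 j)

/-- Right multiplication by an integral matrix does not increase `entryMax`. -/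
theorem entryMax_mul_right_le_h687 {u : GL (Fin 2) k} (g : GL (Fin 2) k)
    (hu : ∀ i j, Valued.v ((u : Matrix (Fin 2) (Fin 2) k) i j) ≤ (1 : Γ₀)) :
    entryMax (g * u) ≤ entryMax g := by
  unfold entryMax
  apply Finset.sup'_le
  rintro ⟨i, j⟩ -
  simp only [Matrix.GeneralLinearGroup.coe_mul, Matrix.mul_apply, Fin.sum_univ_two]
  refine (Valuation.map_add _ _ _).trans (max_le ?_ ?_)
  · exact (v_mul_le_left_h687 (hu 0 j)).trans (v_entry_le_entryMax_h687 g i 0)
  · exact (v_mul_le_left_h687 (hu 1 j)).trans (v_entry_le_entryMax_h687 g i 1)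

/-- `entryMax` is invariant under left multiplication by `U(0)`. -/
theorem entryMax_mul_left_h687 {u : GL (Fin 2) k} (g : GL (Fin 2) k) (hu : InU 0 u) :
    entryMax (u * g) = entryMax g := by
  apply le_antisymm (entryMax_mul_left_le_h687 g (entry_le_one_of_inU_h687 hu))
  have h := entryMax_mul_left_le_h687 (u := u⁻¹) (u * g) (entry_inv_le_one_of_inU_h687 hu)
  rwa [inv_mul_cancel_left] at h

/-- `entryMax` is invariant under right multiplication by `U(0)`. -/
theorem entryMax_mul_right_h687 {u : GL (Fin 2) k} (g : GL (Fin 2) k) (hu : InU 0 u) :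
    entryMax (g * u) = entryMax g := by
  apply le_antisymm (entryMax_mul_right_le_h687 g (entry_le_one_of_inU_h687 hu))
  have h := entryMax_mul_right_le_h687 (u := u⁻¹) (g * u) (entry_inv_le_one_of_inU_h687 hu)
  rwa [mul_inv_cancel_right] at h

/-- The determinant of an integral `2 × 2` matrix is integral. -/
theorem v_det_le_one_h687 (M : Matrix (Fin 2) (Fin 2) k)
    (hM : ∀ i j, Valued.v (M i j) ≤ (1 : Γ₀)) : Valued.v M.det ≤ (1 : Γ₀) := by
  rw [Matrix.det_fin_two]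
  refine (Valuation.map_sub _ _ _).trans (max_le ?_ ?_)
  · exact (v_mul_le_right_h687 (hM 0 0)).trans (hM 1 1)
  · exact (v_mul_le_right_h687 (hM 0 1)).trans (hM 1 0)

/-- The determinant of an element of `U(0)` is a unit of the valuation ring. -/
theorem v_det_eq_one_of_inU_h687 {u : GL (Fin 2) k} (hu : InU 0 u) :
    Valued.v (u : Matrix (Fin 2) (Fin 2) k).det = (1 : Γ₀) := by
  have h1 := v_det_le_one_h687 (u : Matrix (Fin 2) (Fin 2) k) (entry_le_one_of_inU_h687 hu)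
  have h2 := v_det_le_one_h687 ((u⁻¹ : GL (Fin 2) k) : Matrix (Fin 2) (Fin 2) k)
    (entry_inv_le_one_of_inU_h687 hu)
  have hmul : (u : Matrix (Fin 2) (Fin 2) k).det *
      ((u⁻¹ : GL (Fin 2) k) : Matrix (Fin 2) (Fin 2) k).det = 1 := by
    rw [← Matrix.det_mul, ← Matrix.GeneralLinearGroup.coe_mul, mul_inv_cancel]
    simp
  have hv : Valued.v (u : Matrix (Fin 2) (Fin 2) k).det *
      Valued.v ((u⁻¹ : GL (Fin 2) k) : Matrix (Fin 2) (Fin 2) k).det = (1 : Γ₀) := by
    rw [← Valuation.map_mul, hmul, Valuation.map_one]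
  apply le_antisymm h1
  calc (1 : Γ₀) = Valued.v (u : Matrix (Fin 2) (Fin 2) k).det *
        Valued.v ((u⁻¹ : GL (Fin 2) k) : Matrix (Fin 2) (Fin 2) k).det := hv.symm
    _ ≤ Valued.v (u : Matrix (Fin 2) (Fin 2) k).det * 1 := mul_le_mul' le_rfl h2
    _ = Valued.v (u : Matrix (Fin 2) (Fin 2) k).det := mul_one _

/-- The valuation of the determinant is invariant under `U(0)` on both sides. -/
theorem v_det_mul_mul_h687 {u u' : GL (Fin 2) k} (g : GL (Fin 2) k) (hu : InU 0 u)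
    (hu' : InU 0 u') :
    Valued.v ((u * g * u' : GL (Fin 2) k) : Matrix (Fin 2) (Fin 2) k).det
      = Valued.v (g : Matrix (Fin 2) (Fin 2) k).det := by
  simp only [Matrix.GeneralLinearGroup.coe_mul, Matrix.det_mul, Valuation.map_mul,
    v_det_eq_one_of_inU_h687 hu, v_det_eq_one_of_inU_h687 hu', one_mul, mul_one]

/-- **T6.12i** `cartan (u * g * u') = cartan g` for `u, u' ∈ GL₂(𝒪)`. -/
theorem cartan_mul_mul_h687 {u u' : GL (Fin 2) k} (g : GL (Fin 2) k) (hu : InU 0 u)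
    (hu' : InU 0 u') : cartan (u * g * u') = cartan g := by
  unfold cartan
  rw [v_det_mul_mul_h687 g hu hu', entryMax_mul_right_h687 (u * g) hu',
    entryMax_mul_left_h687 g hu]

/-- **Sub-leaf T6.12i of helper288's cut of `FLHypC`.** -/
theorem cartanInvC_h687 : Fermat.Agent.LT.T6.H288.CartanInvC := by
  intro k _ _ u u' g hu hu'
  exact cartan_mul_mul_h687 g hu hu'

end Fermat.Agent.LT.T6.H687

end

end
-- ===== PACK-END LT/T6/H687/CartanInv.lean

-- ===== PACK-BEGIN LT/T6/H546/Iwasawa.lean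
section


/-!
# Row LT, tower T6, leaf T6.12d `IwasawaC` (helper546), OFF-MAIN

`GL₂(k) = B(k) GL₂(𝒪)` for a field with a valuation in `ℤᵐ⁰`: `g = p * κ`, `p` upper triangular,
`κ ∈ U(0)`.  Mathlib + `T6/Spec.lean` (helper22) + `T6/H288/HypSpec.lean` (helper288) only.
-/

set_option autoImplicit false

open scoped Matrix

noncomputable section

namespace Fermat.Agent.LT.T6.H288.H546

open Fermat.Agent.LT.T6 Fermat.Agent.LT.T6.H288

variable {k : Type} [Field k] [Valued k Γ₀]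

/-- An element of `GL₂(k)` with integral entries and integral inverse lies in `U(0)`. -/
theorem inU_zero_of_integral_h546 (κ : GL (Fin 2) k)
    (h1 : ∀ i j : Fin 2, Valued.v ((κ : Matrix (Fin 2) (Fin 2) k) i j) ≤ 1)
    (h2 : ∀ i j : Fin 2,
      Valued.v (((κ⁻¹ : GL (Fin 2) k) : Matrix (Fin 2) (Fin 2) k) i j) ≤ 1) :
    InU 0 κ := by
  have hone : ∀ i j : Fin 2, Valued.v ((1 : Matrix (Fin 2) (Fin 2) k) i j) ≤ 1 := by
    intro i j
    rw [Matrix.one_apply]
    split_ifs <;> simp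
  intro i j
  have he : WithZero.exp (-((0 : ℕ) : ℤ)) = (1 : Γ₀) := by simp
  rw [he]
  exact ⟨Valuation.map_sub_le _ (h1 i j) (hone i j), Valuation.map_sub_le _ (h2 i j) (hone i j)⟩

/-- The lower unipotent matrix `[[1, 0], [x, 1]]` as an element of `GL₂(k)`. -/
def lowerUnip_h546 (x : k) : GL (Fin 2) k :=
  ⟨!![1, 0; x, 1], !![1, 0; -x, 1],
    by ext i j; fin_cases i <;> fin_cases j <;> simp [Matrix.mul_apply, Fin.sum_univ_two],
    by ext i j; fin_cases i <;> fin_cases j <;> simp [Matrix.mul_apply, Fin.sum_univ_two]⟩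

/-- The matrix `[[0, 1], [1, x]]` as an element of `GL₂(k)`. -/
def weylUnip_h546 (x : k) : GL (Fin 2) k :=
  ⟨!![0, 1; 1, x], !![-x, 1; 1, 0],
    by ext i j; fin_cases i <;> fin_cases j <;> simp [Matrix.mul_apply, Fin.sum_univ_two],
    by ext i j; fin_cases i <;> fin_cases j <;> simp [Matrix.mul_apply, Fin.sum_univ_two]⟩

theorem lowerUnip_inU_h546 (x : k) (hx : Valued.v x ≤ 1) : InU 0 (lowerUnip_h546 x) := by
  apply inU_zero_of_integral_h546
  · intro i j
    fin_cases i <;> fin_cases j <;> simp [lowerUnip_h546, hx]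
  · intro i j
    have : ((lowerUnip_h546 x)⁻¹ : GL (Fin 2) k).val = !![1, 0; -x, 1] := rfl
    rw [this]
    fin_cases i <;> fin_cases j <;> simp [hx]

theorem weylUnip_inU_h546 (x : k) (hx : Valued.v x ≤ 1) : InU 0 (weylUnip_h546 x) := by
  apply inU_zero_of_integral_h546
  · intro i j
    fin_cases i <;> fin_cases j <;> simp [weylUnip_h546, hx]
  · intro i j
    have : ((weylUnip_h546 x)⁻¹ : GL (Fin 2) k).val = !![-x, 1; 1, 0] := rfl
    rw [this]
    fin_cases i <;> fin_cases j <;> simp [hx]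

/-- **T6.12d, the Iwasawa decomposition** for any field with a valuation in `ℤᵐ⁰`
(no hypothesis on the field is used). -/
theorem iwasawa_valued_h546 (g : GL (Fin 2) k) :
    ∃ (p κ : GL (Fin 2) k) (a b u : k),
      (p : Matrix (Fin 2) (Fin 2) k) = !![a, u; 0, b] ∧ InU 0 κ ∧ g = p * κ := by
  obtain ⟨a, ha⟩ : ∃ a, a = (g : Matrix (Fin 2) (Fin 2) k) 0 0 := ⟨_, rfl⟩
  obtain ⟨b, hb⟩ : ∃ b, b = (g : Matrix (Fin 2) (Fin 2) k) 0 1 := ⟨_, rfl⟩
  obtain ⟨c, hc⟩ : ∃ c, c = (g : Matrix (Fin 2) (Fin 2) k) 1 0 := ⟨_, rfl⟩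
  obtain ⟨d, hd⟩ : ∃ d, d = (g : Matrix (Fin 2) (Fin 2) k) 1 1 := ⟨_, rfl⟩
  have hg : (g : Matrix (Fin 2) (Fin 2) k) = !![a, b; c, d] := by
    rw [ha, hb, hc, hd]; exact Matrix.eta_fin_two _
  have hdet : a * d - b * c ≠ 0 := by
    have h := Matrix.GeneralLinearGroup.det_ne_zero g
    rw [hg, Matrix.det_fin_two_of] at h
    exact h
  by_cases hcd : Valued.v c ≤ Valued.v d
  · -- `d ≠ 0`, `κ = [[1, 0], [c / d, 1]]`
    have hd0 : d ≠ 0 := by
      rintro rfl
      have hc0 : c = 0 := by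
        have : Valued.v c ≤ 0 := by simpa using hcd
        simpa using this
      apply hdet
      rw [hc0]; ring
    have hx : Valued.v (c / d) ≤ 1 := by
      rw [map_div₀]
      have hvd : Valued.v d ≠ 0 := by simpa using hd0
      exact (div_le_one₀ (zero_lt_iff.mpr hvd)).mpr hcd
    refine ⟨g * (lowerUnip_h546 (c / d))⁻¹, lowerUnip_h546 (c / d), a - b * (c / d), d, b,
      ?_, lowerUnip_inU_h546 _ hx, by simp⟩
    have : ((lowerUnip_h546 (c / d))⁻¹ : GL (Fin 2) k).val = !![1, 0; -(c / d), 1] := rfl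
    rw [Units.val_mul, this, hg]
    ext i j
    fin_cases i <;> fin_cases j <;> simp [Matrix.mul_apply, Fin.sum_univ_two]
    · ring
    · field_simp
      ring
  · -- `c ≠ 0`, `κ = [[0, 1], [1, d / c]]`
    have hcd' : Valued.v d < Valued.v c := not_le.mp hcd
    have hc0 : c ≠ 0 := by
      rintro rfl
      simp at hcd'
    have hx : Valued.v (d / c) ≤ 1 := by
      rw [map_div₀]
      have hvc : Valued.v c ≠ 0 := by simpa using hc0
      exact (div_le_one₀ (zero_lt_iff.mpr hvc)).mpr hcd'.le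
    refine ⟨g * (weylUnip_h546 (d / c))⁻¹, weylUnip_h546 (d / c), b - a * (d / c), c, a,
      ?_, weylUnip_inU_h546 _ hx, by simp⟩
    have : ((weylUnip_h546 (d / c))⁻¹ : GL (Fin 2) k).val = !![-(d / c), 1; 1, 0] := rfl
    rw [Units.val_mul, this, hg]
    ext i j
    fin_cases i <;> fin_cases j <;> simp [Matrix.mul_apply, Fin.sum_univ_two]
    · ring
    · field_simp
      ring

/-- **T6.12d `IwasawaC`.** -/
theorem iwasawaC_h546 : IwasawaC := by
  intro k _ _ q _ g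
  exact iwasawa_valued_h546 g

end Fermat.Agent.LT.T6.H288.H546

end

end
-- ===== PACK-END LT/T6/H546/Iwasawa.lean

-- ===== PACK-BEGIN LT/T6/H842/EllSpec.lean
section




/-!
# Row LT, tower T6, leaf T6.27 `ArchEllForm` (helper842): SPEC

OFF-MAIN.  Definitions and Props only.  `LT/T6/Spec.lean` v3 and `LT/T6/SpecArch.lean` are
byte-identical copies (helper22) and are NOT touched.

The leaf: for an ELLIPTIC `γ = z_u k_θ ∈ GL₂(ℝ)` (`sin θ ≠ 0`) the orbital integral of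
`IsArchMatch` (cut-off form) is a ONE-dimensional integral, and the twisted orbital integral at
`δ = z_{u/2} k_{θ/2}` is a TWO-dimensional integral:

* `O_γ(f)  = (2π c / m) ∫_{τ>0} (f(Y(u,θ,τ)) + f(Y(u,-θ,τ))) sinh τ dτ`,
  `Y(u,θ,τ) = a_τ⁻¹ z_u k_θ a_τ = e^u [[cos θ, -e^{-τ} sin θ], [e^τ sin θ, cos θ]]`;
* `TO_δ(φ) = (4π C ν(U(2)) / m) ∫_{τ>0} ∫_b φ(X(u,θ,τ,b)) cosh²(2b) sinh τ db dτ`,
  `X(u,θ,τ,b) = a_{-b} Y(u/2,θ/2,τ) a_{-b}`, `a_b = [[cosh b, -i sinh b], [i sinh b, cosh b]]`.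

Here `c` is the constant of the polar decomposition of the Haar measure `μ` of `GL₂(ℝ)`
(`PolarRC μ c`, leaf T6.23), `C` the constant of the decomposition
`GL₂(ℂ) = GL₂(ℝ) A_q U(2)` of the Haar measure `μ'` (`HakPolarC μ' ν C`, from `HakC` (leaf
T6.26) and `PolarRC` with `C = c c'`), and `m` the constant of the Haar measure `μT` of the
centraliser `T = {z_v k_α}` (`IsTorNorm`).  All measures are measures for the BOREL
σ-algebra, as in `IsArchMatch`.

Evaluations (file `EllAlg.lean`): `det Y = e^{2u}`, `rhoR Y = 1 + 2 sin²θ sinh²τ`,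
`holPart Y = e^u (cos θ + i cosh τ sin θ)`,
`rhoC X = cosh(4b) (1 + s² sinh²τ) + s² sinh²τ`, `s = sin(θ/2)`.
-/

set_option autoImplicit false

open scoped Matrix
open MeasureTheory

noncomputable section

namespace Fermat.Agent.LT.T6.H842

/-! ## 1. The standard elements -/

/-- The matrix of `z_u k_θ`: the scalar `e^u` times the rotation of angle `θ`. -/
def zkMat (u θ : ℝ) : Matrix (Fin 2) (Fin 2) ℝ :=
  !![Real.exp u * Real.cos θ, -(Real.exp u * Real.sin θ);
     Real.exp u * Real.sin θ, Real.exp u * Real.cos θ]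

theorem det_zkMat (u θ : ℝ) : (zkMat u θ).det = Real.exp u ^ 2 := by
  rw [zkMat, Matrix.det_fin_two_of]
  have := Real.sin_sq_add_cos_sq θ
  linear_combination (Real.exp u ^ 2) * this

/-- `z_u k_θ ∈ GL₂(ℝ)`. -/
def zk (u θ : ℝ) : GL (Fin 2) ℝ :=
  Matrix.GeneralLinearGroup.mkOfDetNeZero (zkMat u θ)
    (by rw [det_zkMat]; exact pow_ne_zero _ (Real.exp_pos u).ne')

/-- The matrix of `a_τ = diag(e^{τ/2}, e^{-τ/2})`. -/
def aMat (τ : ℝ) : Matrix (Fin 2) (Fin 2) ℝ :=
  !![Real.exp (τ / 2), 0; 0, Real.exp (-(τ / 2))]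

theorem det_aMat (τ : ℝ) : (aMat τ).det = 1 := by
  rw [aMat, Matrix.det_fin_two_of, mul_zero, sub_zero, ← Real.exp_add]
  simp

/-- `a_τ = diag(e^{τ/2}, e^{-τ/2}) ∈ GL₂(ℝ)`. -/
def aR (τ : ℝ) : GL (Fin 2) ℝ :=
  Matrix.GeneralLinearGroup.mkOfDetNeZero (aMat τ) (by rw [det_aMat]; exact one_ne_zero)

/-- The matrix of `w = diag(1, -1)`. -/
def wMat : Matrix (Fin 2) (Fin 2) ℝ := !![1, 0; 0, -1]

theorem det_wMat : wMat.det = -1 := by
  rw [wMat, Matrix.det_fin_two_of]; norm_num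

/-- `w = diag(1, -1) ∈ GL₂(ℝ)`. -/
def wR : GL (Fin 2) ℝ :=
  Matrix.GeneralLinearGroup.mkOfDetNeZero wMat (by rw [det_wMat]; norm_num)

/-- `Y(u, θ, τ) = a_τ⁻¹ z_u k_θ a_τ`. -/
def ellY (u θ τ : ℝ) : GL (Fin 2) ℝ := (aR τ)⁻¹ * zk u θ * aR τ

/-- The inclusion `GL₂(ℝ) → GL₂(ℂ)`. -/
def incl : GL (Fin 2) ℝ →* GL (Fin 2) ℂ := Matrix.GeneralLinearGroup.map (algebraMap ℝ ℂ)

/-- The matrix of `a_b = [[cosh b, -i sinh b], [i sinh b, cosh b]]`. -/
def aqMat (b : ℝ) : Matrix (Fin 2) (Fin 2) ℂ :=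
  !![(Real.cosh b : ℂ), -(Complex.I * (Real.sinh b : ℂ));
     Complex.I * (Real.sinh b : ℂ), (Real.cosh b : ℂ)]

theorem det_aqMat (b : ℝ) : (aqMat b).det = 1 := by
  rw [aqMat, Matrix.det_fin_two_of]
  have h : ((Real.cosh b : ℂ)) ^ 2 - ((Real.sinh b : ℂ)) ^ 2 = 1 := by
    have h0 : Real.cosh b ^ 2 - Real.sinh b ^ 2 = 1 := by rw [Real.cosh_sq]; ring
    exact_mod_cast h0
  linear_combination h + ((Real.sinh b : ℂ)) ^ 2 * Complex.I_sq

/-- `a_b ∈ GL₂(ℂ)` (the geodesic through `1` orthogonal to `H² ⊂ H³`). -/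
def aq (b : ℝ) : GL (Fin 2) ℂ :=
  Matrix.GeneralLinearGroup.mkOfDetNeZero (aqMat b) (by rw [det_aqMat]; exact one_ne_zero)

/-- `X(u, θ, τ, b) = a_{-b} Y(u/2, θ/2, τ) a_{-b}`. -/
def ellX (u θ τ b : ℝ) : GL (Fin 2) ℂ := aq (-b) * incl (ellY (u / 2) (θ / 2) τ) * aq (-b)

/-! ## 2. Parameter spaces and measures -/

/-- The measure `dv ⊗ dα|_{(0, 2π]}` on the parameters `(v, α)` of the torus `T = {z_v k_α}`. -/
def torMeas : Measure (ℝ × ℝ) :=
  (volume : Measure ℝ).prod ((volume : Measure ℝ).restrict (Set.Ioc 0 (2 * Real.pi)))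

/-- The measure `sinh τ dτ|_{τ > 0}` . -/
def sinhMeas : Measure ℝ :=
  ((volume : Measure ℝ).restrict (Set.Ioi 0)).withDensity (fun τ => ENNReal.ofReal (Real.sinh τ))

/-- The measure `sinh τ dτ|_{τ > 0} ⊗ dβ|_{(0, 2π]}` on the parameters `(τ, β)`. -/
def radMeas : Measure (ℝ × ℝ) :=
  sinhMeas.prod ((volume : Measure ℝ).restrict (Set.Ioc 0 (2 * Real.pi)))

/-- The measure `cosh²(2b) db` on `ℝ`. -/
def fermiMeas : Measure ℝ :=
  (volume : Measure ℝ).withDensity (fun b => ENNReal.ofReal (Real.cosh (2 * b) ^ 2))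

/-- Polar coordinates on `GL₂(ℝ)`: `((τ, β), (v, α)) ↦ z_v k_α a_τ k_β ε` (`ε = 1` or `w`). -/
def polarMap (ε : GL (Fin 2) ℝ) (p : (ℝ × ℝ) × (ℝ × ℝ)) : GL (Fin 2) ℝ :=
  zk p.2.1 p.2.2 * aR p.1.1 * zk 0 p.1.2 * ε

/-- The map `(h, b, k) ↦ h a_b k`, `GL₂(ℝ) × ℝ × GL₂(ℂ) → GL₂(ℂ)`. -/
def hakMap (p : GL (Fin 2) ℝ × ℝ × GL (Fin 2) ℂ) : GL (Fin 2) ℂ :=
  incl p.1 * aq p.2.1 * p.2.2

/-- The fused coordinates on `GL₂(ℂ)`:
`(((τ, β), (b, k)), (v, α)) ↦ (z_v k_α a_τ k_β ε) a_b k`. -/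
def hakPolarMap (ε : GL (Fin 2) ℝ) (p : ((ℝ × ℝ) × (ℝ × GL (Fin 2) ℂ)) × (ℝ × ℝ)) :
    GL (Fin 2) ℂ :=
  incl (polarMap ε (p.1.1, p.2)) * aq p.1.2.1 * p.1.2.2

/-! ## 3. The hypotheses (integration formulas, leaves T6.23 and T6.26) -/

/-- **Polar decomposition of the measure `μ` of `GL₂(ℝ)`** with constant `c > 0`:
`∫ H dμ = c ∫_{τ>0} ∫_{β∈(0,2π]} ∫_v ∫_{α∈(0,2π]} (H(z_v k_α a_τ k_β) + H(z_v k_α a_τ k_β w))
  sinh τ`, as an equality of measures. -/
def PolarRC (μ : @Measure (GL (Fin 2) ℝ) (borel _)) (c : ℝ) : Prop :=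
  0 < c ∧
    μ = ENNReal.ofReal c •
      (@Measure.map _ _ _ (borel _) (polarMap 1) (radMeas.prod torMeas) +
        @Measure.map _ _ _ (borel _) (polarMap wR) (radMeas.prod torMeas))

/-- The measure `ν` of `GL₂(ℂ)` is finite and carried by `U(2)`. -/
def IsU2Meas (ν : @Measure (GL (Fin 2) ℂ) (borel _)) : Prop :=
  @IsFiniteMeasure _ (borel _) ν ∧ ν {k | ¬ InU2 k} = 0

/-- **The decomposition `GL₂(ℂ) = GL₂(ℝ) A_q U(2)` of the measure `μ'`** with constant
`c' > 0`: `∫ H dμ' = c' ∫_{GL₂(ℝ)} ∫_b ∫_{U(2)} H(h a_b k) cosh²(2b) dν(k) db dμ(h)`, as an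
equality of measures. -/
def HakC (μ : @Measure (GL (Fin 2) ℝ) (borel _)) (μ' ν : @Measure (GL (Fin 2) ℂ) (borel _))
    (c' : ℝ) : Prop :=
  letI : MeasurableSpace (GL (Fin 2) ℝ) := borel _
  letI : MeasurableSpace (GL (Fin 2) ℂ) := borel _
  0 < c' ∧ IsU2Meas ν ∧
    μ' = ENNReal.ofReal c' • Measure.map hakMap (μ.prod (fermiMeas.prod ν))

/-- **The fused decomposition of the measure `μ'` of `GL₂(ℂ)`** with constant `C > 0`
(`= HakC` composed with `PolarRC`, `C = c c'`). -/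
def HakPolarC (μ' ν : @Measure (GL (Fin 2) ℂ) (borel _)) (C : ℝ) : Prop :=
  letI : MeasurableSpace (GL (Fin 2) ℂ) := borel _
  0 < C ∧ IsU2Meas ν ∧
    μ' = ENNReal.ofReal C •
      (Measure.map (hakPolarMap 1) ((radMeas.prod (fermiMeas.prod ν)).prod torMeas) +
        Measure.map (hakPolarMap wR) ((radMeas.prod (fermiMeas.prod ν)).prod torMeas))

/-! ## 4. The centraliser of `z_u k_θ` -/

/-- `z_v k_α` as an element of the centraliser of `z_u k_θ`. -/
def torIota (u θ : ℝ) (p : ℝ × ℝ) : twCentSub (MonoidHom.id (GL (Fin 2) ℝ)) (zk u θ) :=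
  ⟨zk p.1 p.2, by
    change (zk p.1 p.2)⁻¹ * zk u θ * zk p.1 p.2 = zk u θ
    rw [mul_assoc, inv_mul_eq_iff_eq_mul]
    apply Units.ext
    change zkMat u θ * zkMat p.1 p.2 = zkMat p.1 p.2 * zkMat u θ
    ext i j
    fin_cases i <;> fin_cases j <;> simp [zkMat, Matrix.mul_apply, Fin.sum_univ_two] <;> ring⟩

/-- The Haar measure `μT` of the centraliser of `z_u k_θ` is `m` times the image of
`dv ⊗ dα|_{(0,2π]}` under `(v, α) ↦ z_v k_α`. -/
def IsTorNorm (u θ : ℝ)
    (μT : @Measure (twCentSub (MonoidHom.id (GL (Fin 2) ℝ)) (zk u θ)) (borel _)) (m : ℝ) :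
    Prop :=
  0 < m ∧ μT = ENNReal.ofReal m • @Measure.map _ _ _ (borel _) (torIota u θ) torMeas

/-- **Normalisation of the Haar measures of the elliptic tori**: every Haar measure of the
centraliser of `z_u k_θ` (`sin θ ≠ 0`) is a positive multiple of the image of
`dv ⊗ dα|_{(0,2π]}`. -/
def TorusHaarC : Prop :=
  ∀ u θ : ℝ, Real.sin θ ≠ 0 →
    ∀ μT : @Measure (twCentSub (MonoidHom.id (GL (Fin 2) ℝ)) (zk u θ)) (borel _),
      @Measure.IsHaarMeasure _ _ _ (borel _) μT → ∃ m : ℝ, IsTorNorm u θ μT m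

/-! ## 5. The conclusions -/

/-- `β` is a cut-off function for the image of the centraliser `T` of `γ` under `j`:
continuous, `≥ 0`, `∫_T β(j(t) x) dμT(t) = 1` for all `x` (the shape of `IsArchMatch`). -/
def IsCutoff {Γ : Type} [Group Γ] [TopologicalSpace Γ] (γ : GL (Fin 2) ℝ)
    (μT : @Measure (twCentSub (MonoidHom.id (GL (Fin 2) ℝ)) γ) (borel _))
    (j : GL (Fin 2) ℝ →* Γ) (β : Γ → ℝ) : Prop :=
  Continuous β ∧ (∀ x, 0 ≤ β x) ∧
    ∀ x : Γ, @integral _ _ _ _ (borel _) μT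
      (fun t : twCentSub (MonoidHom.id (GL (Fin 2) ℝ)) γ => β (j (t : GL (Fin 2) ℝ) * x)) = 1

/-- The one-dimensional integral of the real side:
`∫_{τ>0} (f(Y(u,θ,τ)) + f(Y(u,-θ,τ))) sinh τ dτ`. -/
def ellIntR (f : GL (Fin 2) ℝ → ℂ) (u θ : ℝ) : ℂ :=
  ∫ τ in Set.Ioi (0 : ℝ), (f (ellY u θ τ) + f (ellY u (-θ) τ)) * (Real.sinh τ : ℂ)

/-- The two-dimensional integral of the twisted side:
`∫_{τ>0} ∫_b φ(X(u,θ,τ,b)) cosh²(2b) sinh τ db dτ`. -/
def ellIntC (φ : GL (Fin 2) ℂ → ℂ) (u θ : ℝ) : ℂ :=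
  ∫ τ in Set.Ioi (0 : ℝ), ∫ b : ℝ,
    φ (ellX u θ τ b) * ((Real.cosh (2 * b) ^ 2 * Real.sinh τ : ℝ) : ℂ)

/-- **T6.27, real side (standard form).**  `γ = z_u k_θ`, `sin θ ≠ 0`; `f` continuous with
compact support, invariant under conjugation by `SO(2)` (every test function of weight `n`
is); `β` a cut-off function.  Then `x ↦ f(x⁻¹ γ x) β(x)` is integrable and
`∫ f(x⁻¹ γ x) β(x) dμ(x) = (2π c / m) ∫_{τ>0} (f(Y(u,θ,τ)) + f(Y(u,-θ,τ))) sinh τ dτ`. -/
def EllRealC : Prop :=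
  ∀ (μ : @Measure (GL (Fin 2) ℝ) (borel _)) (c : ℝ), PolarRC μ c →
    ∀ u θ : ℝ, Real.sin θ ≠ 0 →
    ∀ (μT : @Measure (twCentSub (MonoidHom.id (GL (Fin 2) ℝ)) (zk u θ)) (borel _)) (m : ℝ),
      IsTorNorm u θ μT m →
    ∀ f : GL (Fin 2) ℝ → ℂ, Continuous f → HasCompactSupport f →
      (∀ k g : GL (Fin 2) ℝ, InSO2 k → f (k⁻¹ * g * k) = f g) →
    ∀ β : GL (Fin 2) ℝ → ℝ, IsCutoff (zk u θ) μT (MonoidHom.id _) β →
      @Integrable _ _ _ _ (borel _) (fun x : GL (Fin 2) ℝ => f (x⁻¹ * zk u θ * x) * (β x : ℂ)) μ ∧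
      @integral _ _ _ _ (borel _) μ (fun x : GL (Fin 2) ℝ => f (x⁻¹ * zk u θ * x) * (β x : ℂ))
        = ((2 * Real.pi * c / m : ℝ) : ℂ) * ellIntR f u θ

/-- **T6.27, twisted side (standard form).**  `γ = z_u k_θ`, `sin θ ≠ 0`,
`δ = z_{u/2} k_{θ/2}`; `φ` continuous with compact support, bi-`U(2)`-invariant; `β'` a
cut-off function for the image of `T` in `GL₂(ℂ)`.  Then `x ↦ φ(x⁻¹ δ x̄) β'(x)` is integrable
and `∫ φ(x⁻¹ δ x̄) β'(x) dμ'(x)
  = (4π C ν(U(2)) / m) ∫_{τ>0} ∫_b φ(X(u,θ,τ,b)) cosh²(2b) sinh τ db dτ`. -/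
def EllTwC : Prop :=
  ∀ (μ' ν : @Measure (GL (Fin 2) ℂ) (borel _)) (C : ℝ), HakPolarC μ' ν C →
    ∀ u θ : ℝ, Real.sin θ ≠ 0 →
    ∀ (μT : @Measure (twCentSub (MonoidHom.id (GL (Fin 2) ℝ)) (zk u θ)) (borel _)) (m : ℝ),
      IsTorNorm u θ μT m →
    ∀ φ : GL (Fin 2) ℂ → ℂ, Continuous φ → HasCompactSupport φ →
      (∀ k g : GL (Fin 2) ℂ, InU2 k → φ (k * g) = φ g) →
      (∀ k g : GL (Fin 2) ℂ, InU2 k → φ (g * k) = φ g) →
    ∀ β' : GL (Fin 2) ℂ → ℝ, IsCutoff (zk u θ) μT incl β' →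
      @Integrable _ _ _ _ (borel _)
        (fun x : GL (Fin 2) ℂ =>
          φ (x⁻¹ * incl (zk (u / 2) (θ / 2)) * glAut (starRingAut : ℂ ≃+* ℂ) x) * (β' x : ℂ))
        μ' ∧
      @integral _ _ _ _ (borel _) μ'
        (fun x : GL (Fin 2) ℂ =>
          φ (x⁻¹ * incl (zk (u / 2) (θ / 2)) * glAut (starRingAut : ℂ ≃+* ℂ) x) * (β' x : ℂ))
        = ((4 * Real.pi * C * (ν Set.univ).toReal / m : ℝ) : ℂ) * ellIntC φ u θ

/-- **The fusion** `PolarRC μ c → HakC μ μ' ν c' → HakPolarC μ' ν (c c')`. -/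
def HakFuseC : Prop :=
  ∀ (μ : @Measure (GL (Fin 2) ℝ) (borel _)) (μ' ν : @Measure (GL (Fin 2) ℂ) (borel _))
    (c c' : ℝ), PolarRC μ c → HakC μ μ' ν c' → HakPolarC μ' ν (c * c')

end Fermat.Agent.LT.T6.H842

end

end
-- ===== PACK-END LT/T6/H842/EllSpec.lean

-- ===== PACK-BEGIN LT/T7/H584/UnfoldT5.lean
section





/-!
# Row LT, tower T7, geometric half of the comparison (helper584): the UNFOLDING lemma for the
# global terms of `T5.GeomUnfold` / `T7.IsGlobMatch`

OFF-MAIN.  Vocabulary: `LT/H556/A0.lean` (66d3374a), `LT/T5/Spec.lean` v4 (f2d97e70), byte-identical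
copies.  Complete proofs, nothing assumed.

The global term of `T5.GeomUnfold` (and of `T7.IsGlobMatch`, both sides) is
`∫_{Fδ} twTerm r s φ δ dμ`, `Fδ` a strict fundamental domain IN THE SLAB for the `σ`-centraliser
`G^σ_δ(K)` (`T5.IsTwDomain`).  Here it is unfolded to an ADELIC orbital integral with a cut-off
function, in the normalisation of `T6.OrbSumIntC`:

    ∫_{Fδ} twTerm r s φ δ dμ  =  μT(D) · ∫_{GL₂(𝔸)} twTerm r s φ δ (x) β(x) dμ(x)

* `twCentA584 s δ`  : the ADELIC twisted centraliser `T_𝔸 = {t : t⁻¹ δ σ(t) = δ}` (a subgroup of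
  `GL₂(𝔸_K)`; for `s = id` the centraliser of `δ`);
* `latT584 s δ r …` : the discrete subgroup `Γ = G^σ_δ(K) · ⟨r⟩` of `T_𝔸`;
* `μT` a right invariant measure on `T_𝔸`, `D` a strict fundamental domain for `Γ` in `T_𝔸`
  (`μT(D) = vol(G^σ_δ(K) ⟨r⟩ \ T_𝔸)`, finite for elliptic regular norm: `T1.EllipticCompactC`);
* `β ≥ 0` a cut-off function for `T_𝔸`: `∫_{T_𝔸} β(t x) dμT(t) = 1` for every `x`.

The hypotheses on the ray and the slab (`hslab_r`, `hslab_q`) are the two consequences of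
`T1.AdNormC` which are used (`‖det r‖ = 2`, product formula).
-/

set_option autoImplicit false
set_option linter.style.haveILetI false

open IsDedekindDomain NumberField MeasureTheory Set
open scoped ENNReal

noncomputable section

namespace Fermat.Agent.LT.T7.H584

open Fermat.Agent.LT.H556.A0

attribute [local instance] Fermat.Agent.LT.T5.instMeasurableSpaceG

variable {K : Type} [Field K] [NumberField K]

/-- The ADELIC twisted centraliser `{t ∈ GL₂(𝔸_K) : t⁻¹ δ σ(t) = δ}`. -/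
def twCentA584 (s : T5.AdelicAut K) (δ : GL (Fin 2) K) : Subgroup (G K) where
  carrier := {t | t⁻¹ * T5.ratG δ * s.onG t = T5.ratG δ}
  one_mem' := by simp
  mul_mem' := by
    intro a b ha hb
    simp only [Set.mem_ofPred_eq] at ha hb ⊢
    calc (a * b)⁻¹ * T5.ratG δ * s.onG (a * b)
        = b⁻¹ * (a⁻¹ * T5.ratG δ * s.onG a) * s.onG b := by simp [mul_assoc]
      _ = T5.ratG δ := by rw [ha, hb]
  inv_mem' := by
    intro a ha
    simp only [Set.mem_ofPred_eq] at ha ⊢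
    calc a⁻¹⁻¹ * T5.ratG δ * s.onG a⁻¹
        = a * (a⁻¹ * T5.ratG δ * s.onG a) * (s.onG a)⁻¹ := by rw [ha]; simp
      _ = T5.ratG δ := by simp [mul_assoc]

theorem mem_twCentA584 (s : T5.AdelicAut K) (δ : GL (Fin 2) K) (t : G K) :
    t ∈ twCentA584 s δ ↔ t⁻¹ * T5.ratG δ * s.onG t = T5.ratG δ := Iff.rfl

/-- The summand of the twisted kernel is left invariant under the adelic twisted centraliser. -/
theorem twTerm_twCentA_mul584 (r : G K) (s : T5.AdelicAut K) (φ : G K → ℂ) (δ : GL (Fin 2) K)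
    (t : twCentA584 s δ) (x : G K) :
    T5.twTerm r s φ δ ((t : G K) * x) = T5.twTerm r s φ δ x := by
  have ht : (t : G K)⁻¹ * T5.ratG δ * s.onG (t : G K) = T5.ratG δ := t.2
  unfold T5.twTerm
  congr 1
  calc ((t : G K) * x)⁻¹ * T5.ratG δ * s.onG ((t : G K) * x)
      = x⁻¹ * ((t : G K)⁻¹ * T5.ratG δ * s.onG (t : G K)) * s.onG x := by
        simp [mul_assoc]
    _ = x⁻¹ * T5.ratG δ * s.onG x := by rw [ht]

/-- The subgroup `G^σ_δ(K) · ⟨r⟩` of `GL₂(𝔸_K)` (`r` central). -/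
def latG584 (s : T5.AdelicAut K) (δ : GL (Fin 2) K) (r : G K) (hrc : ∀ g : G K, r * g = g * r) :
    Subgroup (G K) where
  carrier := {g | ∃ γ : T5.twStab s δ, ∃ k : ℤ, g = T5.ratG (γ : GL (Fin 2) K) * r ^ k}
  one_mem' := ⟨1, 0, by simp⟩
  mul_mem' := by
    rintro a b ⟨γ, k, rfl⟩ ⟨γ', k', rfl⟩
    refine ⟨γ * γ', k + k', ?_⟩
    have hc : ∀ g : G K, r ^ k * g = g * r ^ k := fun g =>
      ((Commute.zpow_left (show Commute r g from hrc g) k).eq)
    rw [Subgroup.coe_mul, map_mul, zpow_add]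
    calc T5.ratG (γ : GL (Fin 2) K) * r ^ k * (T5.ratG (γ' : GL (Fin 2) K) * r ^ k')
        = T5.ratG (γ : GL (Fin 2) K) * (r ^ k * T5.ratG (γ' : GL (Fin 2) K)) * r ^ k' := by
          simp only [mul_assoc]
      _ = T5.ratG (γ : GL (Fin 2) K) * T5.ratG (γ' : GL (Fin 2) K) * (r ^ k * r ^ k') := by
          rw [hc]; simp only [mul_assoc]
  inv_mem' := by
    rintro a ⟨γ, k, rfl⟩
    refine ⟨γ⁻¹, -k, ?_⟩
    have hc : ∀ g : G K, r ^ k * g = g * r ^ k := fun g =>
      ((Commute.zpow_left (show Commute r g from hrc g) k).eq)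
    have hc' : Commute (r ^ k) (T5.ratG (γ : GL (Fin 2) K)) := hc _
    rw [Subgroup.coe_inv, map_inv, zpow_neg, mul_inv_rev]
    exact (hc'.inv_left.inv_right).eq

/-- The discrete subgroup `Γ = G^σ_δ(K) · ⟨r⟩` of the adelic twisted centraliser. -/
def latT584 (s : T5.AdelicAut K) (δ : GL (Fin 2) K) (r : G K) (hrc : ∀ g : G K, r * g = g * r) :
    Subgroup (twCentA584 s δ) :=
  (latG584 s δ r hrc).subgroupOf (twCentA584 s δ)

theorem mem_latT584 (s : T5.AdelicAut K) (δ : GL (Fin 2) K) (r : G K)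
    (hrc : ∀ g : G K, r * g = g * r) (t : twCentA584 s δ) :
    t ∈ latT584 s δ r hrc ↔
      ∃ γ : T5.twStab s δ, ∃ k : ℤ, (t : G K) = T5.ratG (γ : GL (Fin 2) K) * r ^ k :=
  Iff.rfl

theorem countable_GL584 : Countable (GL (Fin 2) K) := by
  have hK : Countable K := (Module.finBasis ℚ K).equivFun.toEquiv.injective.countable
  have hM : Countable (Matrix (Fin 2) (Fin 2) K) :=
    inferInstanceAs (Countable (Fin 2 → Fin 2 → K))
  exact (Units.val_injective (α := Matrix (Fin 2) (Fin 2) K)).countable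

theorem countable_latT584 (s : T5.AdelicAut K) (δ : GL (Fin 2) K) (r : G K)
    (hrc : ∀ g : G K, r * g = g * r) : Countable (latT584 s δ r hrc) := by
  have := countable_GL584 (K := K)
  have hcount : Countable (T5.twStab s δ × ℤ) := inferInstance
  -- every element of `Γ` is of the form `ratG γ · r^k`
  have hsurj : ∀ t : latT584 s δ r hrc, ∃ p : T5.twStab s δ × ℤ,
      ((t : twCentA584 s δ) : G K) = T5.ratG (p.1 : GL (Fin 2) K) * r ^ p.2 := by
    rintro ⟨t, γ, k, h⟩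
    exact ⟨(γ, k), h⟩
  choose f hf using hsurj
  have hinj : Function.Injective f := by
    intro t t' h
    apply Subtype.ext
    apply Subtype.ext
    rw [hf t, hf t', h]
  exact hinj.countable

theorem ratG_injective584 : Function.Injective (T5.ratG : GL (Fin 2) K → G K) := by
  intro a b h
  apply Units.ext
  ext i j
  have h1 : ((T5.ratG a : G K) : Matrix (Fin 2) (Fin 2) (Adl K)) i j
      = ((T5.ratG b : G K) : Matrix (Fin 2) (Fin 2) (Adl K)) i j := by rw [h]
  have h2 : algebraMap K (Adl K) ((a : Matrix (Fin 2) (Fin 2) K) i j)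
      = algebraMap K (Adl K) ((b : Matrix (Fin 2) (Fin 2) K) i j) := h1
  exact NumberField.AdeleRing.algebraMap_injective (𝓞 K) K h2

/-- `Fδ` is a strict fundamental domain for `Γ = G^σ_δ(K) ⟨r⟩` in the whole group. -/
theorem existsUnique_latT584 (s : T5.AdelicAut K) (δ : GL (Fin 2) K) (r : G K)
    (hrc : ∀ g : G K, r * g = g * r) (hrs : s.onG r = r)
    (hrat : ∀ γ : GL (Fin 2) K, s.onG (T5.ratG γ) = T5.ratG (s.onRat γ))
    (hslab_r : ∀ g : G K, ∃! k : ℤ, r ^ k * g ∈ T5.slab K)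
    (hslab_q : ∀ (γ : GL (Fin 2) K) (g : G K), g ∈ T5.slab K → T5.ratG γ * g ∈ T5.slab K)
    (Fδ : Set (G K)) (hFδ : T5.IsTwDomain s δ Fδ) (x : G K) :
    ∃! γ : latT584 s δ r hrc, (((γ : twCentA584 s δ) : G K)) * x ∈ Fδ := by
  have hc : ∀ (k : ℤ) (g : G K), r ^ k * g = g * r ^ k := fun k g =>
    ((Commute.zpow_left (show Commute r g from hrc g) k).eq)
  -- membership of the generators in the adelic twisted centraliser
  have hγmem : ∀ γ : T5.twStab s δ, T5.ratG (γ : GL (Fin 2) K) ∈ twCentA584 s δ := by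
    intro γ
    have h := γ.2
    change (γ : GL (Fin 2) K)⁻¹ * δ * s.onRat (γ : GL (Fin 2) K) = δ at h
    rw [mem_twCentA584, hrat, ← map_inv, ← map_mul, ← map_mul, h]
  have hrmem : ∀ k : ℤ, r ^ k ∈ twCentA584 s δ := by
    intro k
    rw [mem_twCentA584, map_zpow, hrs, ← zpow_neg, mul_assoc, ← hc k (T5.ratG δ),
      ← mul_assoc, ← zpow_add]
    simp
  obtain ⟨k, hk, hkuniq⟩ := hslab_r x
  obtain ⟨γ, hγ, hγuniq⟩ := hFδ.strict (r ^ k * x) hk
  have hmemT : T5.ratG (γ : GL (Fin 2) K) * r ^ k ∈ twCentA584 s δ :=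
    (twCentA584 s δ).mul_mem (hγmem γ) (hrmem k)
  refine ⟨⟨⟨T5.ratG (γ : GL (Fin 2) K) * r ^ k, hmemT⟩, γ, k, rfl⟩, ?_, ?_⟩
  · change T5.ratG (γ : GL (Fin 2) K) * r ^ k * x ∈ Fδ
    rw [mul_assoc]
    exact hγ
  · rintro ⟨⟨g, hgT⟩, γ', k', hg⟩ hmem
    change g * x ∈ Fδ at hmem
    change g = T5.ratG (γ' : GL (Fin 2) K) * r ^ k' at hg
    subst hg
    rw [mul_assoc] at hmem
    -- `r^k' x` lies in the slab
    have h1 : r ^ k' * x ∈ T5.slab K := by
      have := hslab_q ((γ' : GL (Fin 2) K)⁻¹) _ (hFδ.sub hmem)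
      rwa [← mul_assoc, ← map_mul, inv_mul_cancel, map_one, one_mul] at this
    have hk' : k' = k := hkuniq k' h1
    subst hk'
    have hγ' : γ' = γ := hγuniq γ' hmem
    subst hγ'
    rfl

/-- **THE UNFOLDING LEMMA for the global terms.**  See the header. -/
theorem twTerm_unfold584 (s : T5.AdelicAut K) (μ : Measure (G K)) (r : G K)
    (δ : GL (Fin 2) K) (φ : G K → ℂ)
    [SecondCountableTopology (G K)] [μ.IsMulLeftInvariant] [SigmaFinite μ]
    (hrc : ∀ g : G K, r * g = g * r) (hrs : s.onG r = r)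
    (hrat : ∀ γ : GL (Fin 2) K, s.onG (T5.ratG γ) = T5.ratG (s.onRat γ))
    (hslab_r : ∀ g : G K, ∃! k : ℤ, r ^ k * g ∈ T5.slab K)
    (hslab_q : ∀ (γ : GL (Fin 2) K) (g : G K), g ∈ T5.slab K → T5.ratG γ * g ∈ T5.slab K)
    (Fδ : Set (G K)) (hFδ : T5.IsTwDomain s δ Fδ)
    (μT : Measure (twCentA584 s δ)) [μT.IsMulRightInvariant] [SigmaFinite μT]
    (D : Set (twCentA584 s δ)) (hDm : MeasurableSet D)
    (hD : ∀ t : twCentA584 s δ, ∃! γ : latT584 s δ r hrc, t * (γ : twCentA584 s δ) ∈ D)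
    (hDfin : μT D ≠ ⊤)
    (β : G K → ℝ) (hβ : Measurable β) (hβ0 : ∀ x, 0 ≤ β x)
    (hβ1 : ∀ x : G K, ∫⁻ t : twCentA584 s δ, ENNReal.ofReal (β ((t : G K) * x)) ∂μT = 1)
    (hΦ : Measurable (T5.twTerm r s φ δ))
    (hint : Integrable (fun x => T5.twTerm r s φ δ x * (β x : ℂ)) μ) :
    IntegrableOn (T5.twTerm r s φ δ) Fδ μ ∧
      ∫ x in Fδ, T5.twTerm r s φ δ x ∂μ
        = ((μT D).toReal : ℂ) * ∫ x, T5.twTerm r s φ δ x * (β x : ℂ) ∂μ := by
  haveI : BorelSpace (G K) := ⟨rfl⟩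
  haveI : Countable (latT584 s δ r hrc) := countable_latT584 s δ r hrc
  haveI : SecondCountableTopology (twCentA584 s δ) :=
    Topology.IsInducing.subtypeVal.secondCountableTopology
  haveI : BorelSpace (twCentA584 s δ) := Subtype.borelSpace _
  haveI : MeasurableMul₂ (twCentA584 s δ) := inferInstance
  haveI : MeasurableMul₂ (G K) := inferInstance
  exact integral_unfold_cut584 μ μT (twCentA584 s δ).subtype measurable_subtype_coe
    (latT584 s δ r hrc) Fδ hFδ.meas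
    (fun x => existsUnique_latT584 s δ r hrc hrs hrat hslab_r hslab_q Fδ hFδ x)
    D hDm hD hDfin (T5.twTerm r s φ δ) hΦ
    (fun t x => twTerm_twCentA_mul584 r s φ δ t x) β hβ hβ0 hβ1 hint

end Fermat.Agent.LT.T7.H584

end

end
-- ===== PACK-END LT/T7/H584/UnfoldT5.lean

-- ===== PACK-BEGIN LT/T7/H662/Chain.lean
section



/-!
# Row LT, tower T7, leaf C2.7.13.3 `LocEqSplitC340` (helper662): the OPEN CHAIN

OFF-MAIN.  Mathlib + the asset of helper159 (`iterL159`, `convL159`, `prodFrom159`).  Complete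
proofs, nothing assumed.

`chain662 Φ δ n a x b = Φ 0 (a⁻¹ δ_0 x_0) Φ 1 (x_0⁻¹ δ_1 x_1) ⋯ Φ n (x_{n-1}⁻¹ δ_n b)`
for `x : Fin n → H`, defined by peeling the LAST variable (the shape of `iterL159`), and the
cyclic product of `splitInt340` is `chain662 Φ δ n (y 0) (y ∘ succ) (y 0)`.
-/

set_option autoImplicit false

noncomputable section

namespace Fermat.Agent.LT.T7.H662

variable {H : Type} [Group H]

/-- The open chain `Φ 0 (a⁻¹ δ_0 x_0) Φ 1 (x_0⁻¹ δ_1 x_1) ⋯ Φ n (x_{n-1}⁻¹ δ_n b)`. -/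
def chain662 (Φ : ℕ → H → ℂ) (δ : ℕ → H) : (n : ℕ) → H → (Fin n → H) → H → ℂ
  | 0, a, _, b => Φ 0 (a⁻¹ * δ 0 * b)
  | (n + 1), a, x, b =>
      chain662 Φ δ n a (fun j => x ((Fin.last n).succAbove j)) (x (Fin.last n))
        * Φ (n + 1) ((x (Fin.last n))⁻¹ * δ (n + 1) * b)

theorem chain662_zero (Φ : ℕ → H → ℂ) (δ : ℕ → H) (a : H) (x : Fin 0 → H) (b : H) :
    chain662 Φ δ 0 a x b = Φ 0 (a⁻¹ * δ 0 * b) := rfl

theorem chain662_succ (Φ : ℕ → H → ℂ) (δ : ℕ → H) (n : ℕ) (a : H) (x : Fin (n + 1) → H)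
    (b : H) :
    chain662 Φ δ (n + 1) a x b
      = chain662 Φ δ n a (fun j => x ((Fin.last n).succAbove j)) (x (Fin.last n))
        * Φ (n + 1) ((x (Fin.last n))⁻¹ * δ (n + 1) * b) := rfl

/-- The chain of the norms is the norm of the chain. -/
theorem norm_chain662 (Φ : ℕ → H → ℂ) (δ : ℕ → H) (n : ℕ) (a : H) (x : Fin n → H) (b : H) :
    chain662 (fun j g => ((‖Φ j g‖ : ℝ) : ℂ)) δ n a x b = ((‖chain662 Φ δ n a x b‖ : ℝ) : ℂ) := by
  induction n generalizing b with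
  | zero => rfl
  | succ n ih =>
    rw [chain662_succ, chain662_succ, ih, norm_mul, Complex.ofReal_mul]

/-- The open product along `P 0, P 1, …, P (n+1)` is the chain. -/
theorem prod_open662 (Φ : ℕ → H → ℂ) (δ : ℕ → H) (n : ℕ) (P : Fin (n + 2) → H) :
    ∏ j : Fin (n + 1), Φ j.1 ((P j.castSucc)⁻¹ * δ j.1 * P j.succ)
      = chain662 Φ δ n (P 0) (fun j : Fin n => P j.succ.castSucc) (P (Fin.last (n + 1))) := by
  induction n with
  | zero =>
    rw [Fin.prod_univ_one, chain662_zero]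
    rfl
  | succ n ih =>
    rw [Fin.prod_univ_castSucc, chain662_succ]
    have h := ih (fun j : Fin (n + 2) => P j.castSucc)
    have e1 : ∀ j : Fin (n + 1),
        Φ (j.castSucc : Fin (n + 2)).1
            ((P (j.castSucc : Fin (n + 2)).castSucc)⁻¹ * δ (j.castSucc : Fin (n + 2)).1
              * P (j.castSucc : Fin (n + 2)).succ)
          = Φ j.1 ((P (j.castSucc : Fin (n + 2)).castSucc)⁻¹ * δ j.1
              * P (j.succ : Fin (n + 2)).castSucc) := by
      intro j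
      rw [Fin.succ_castSucc]
      rfl
    rw [Finset.prod_congr rfl (fun j _ => e1 j), h]
    have e2 : (fun j : Fin n => P ((j.succ : Fin (n + 1)).castSucc : Fin (n + 2)).castSucc)
        = fun j : Fin n => P (((Fin.last n).succAbove j).succ : Fin (n + 2)).castSucc := by
      funext j
      rw [Fin.succAbove_last, Fin.succ_castSucc]
    have e3 : P ((Fin.last (n + 1) : Fin (n + 2)).castSucc)
        = P ((Fin.last n).succ : Fin (n + 2)).castSucc := by
      rw [Fin.succ_last]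
    have e4 : (Fin.last (n + 1) : Fin (n + 2)).succ = Fin.last (n + 2) := Fin.succ_last _
    rw [e2, e3, e4]
    rfl

/-- The cyclic successor, as in `splitInt340` (same formula). -/
def cyc662 {l : ℕ} (j : Fin l) : Fin l := ⟨(j.1 + 1) % l, Nat.mod_lt _ j.pos⟩

/-- **The cyclic product is the chain with both end points `y 0`.** -/
theorem prod_cyc662 (Φ : ℕ → H → ℂ) (δ : ℕ → H) (n : ℕ) (y : Fin (n + 1) → H) :
    ∏ j : Fin (n + 1), Φ j.1 ((y j)⁻¹ * δ j.1 * y (cyc662 j))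
      = chain662 Φ δ n (y 0) (fun j : Fin n => y ((0 : Fin (n + 1)).succAbove j)) (y 0) := by
  have h := prod_open662 Φ δ n (Fin.snoc y (y 0) : Fin (n + 2) → H)
  have e1 : ∀ j : Fin (n + 1),
      Φ j.1 (((Fin.snoc y (y 0) : Fin (n + 2) → H) j.castSucc)⁻¹ * δ j.1
          * (Fin.snoc y (y 0) : Fin (n + 2) → H) j.succ)
        = Φ j.1 ((y j)⁻¹ * δ j.1 * y (cyc662 j)) := by
    intro j
    have a1 : (Fin.snoc y (y 0) : Fin (n + 2) → H) j.castSucc = y j :=
      Fin.snoc_castSucc (α := fun _ => H) _ _ _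
    have a2 : (Fin.snoc y (y 0) : Fin (n + 2) → H) j.succ = y (cyc662 j) := by
      rcases Fin.eq_castSucc_or_eq_last j with ⟨j', rfl⟩ | rfl
      · have : (j'.castSucc : Fin (n + 1)).succ = (j'.succ : Fin (n + 1)).castSucc :=
          Fin.succ_castSucc j'
        rw [this]
        have a3 : (Fin.snoc y (y 0) : Fin (n + 2) → H) (j'.succ : Fin (n + 1)).castSucc
            = y j'.succ := Fin.snoc_castSucc (α := fun _ => H) _ _ _
        rw [a3]
        congr 1
        apply Fin.ext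
        show j'.1 + 1 = (j'.1 + 1) % (n + 1)
        rw [Nat.mod_eq_of_lt (Nat.succ_lt_succ j'.2)]
      · rw [Fin.succ_last]
        have a3 : (Fin.snoc y (y 0) : Fin (n + 2) → H) (Fin.last (n + 1)) = y 0 :=
          Fin.snoc_last (α := fun _ => H) _ _
        rw [a3]
        congr 1
        apply Fin.ext
        show (0 : ℕ) = (n + 1) % (n + 1)
        rw [Nat.mod_self]
    rw [a1, a2]
  rw [← Finset.prod_congr rfl (fun j _ => e1 j), h]
  have b1 : (Fin.snoc y (y 0) : Fin (n + 2) → H) 0 = y 0 := by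
    have : (0 : Fin (n + 2)) = (0 : Fin (n + 1)).castSucc := rfl
    rw [this]
    exact Fin.snoc_castSucc (α := fun _ => H) _ _ _
  have b2 : (fun j : Fin n => (Fin.snoc y (y 0) : Fin (n + 2) → H) (j.succ : Fin (n + 1)).castSucc)
      = fun j : Fin n => y ((0 : Fin (n + 1)).succAbove j) := by
    funext j
    rw [Fin.succAbove_zero]
    exact Fin.snoc_castSucc (α := fun _ => H) _ _ _
  have b3 : (Fin.snoc y (y 0) : Fin (n + 2) → H) (Fin.last (n + 1)) = y 0 :=
    Fin.snoc_last (α := fun _ => H) _ _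
  rw [b1, b2, b3]

/-! ## Appendix: the equation lemmas of the definitions of this file are realised HERE -/

theorem eqns_realised_chain662 : True := by
  have _a1 := @chain662.eq_1
  have _a2 := @chain662.eq_2
  have _a3 := @chain662.eq_def
  have _a4 := @chain662.eq_unfold
  have _b1 := @cyc662.eq_1
  have _b2 := @cyc662.eq_def
  have _b3 := @cyc662.eq_unfold
  trivial

end Fermat.Agent.LT.T7.H662

end

end
-- ===== PACK-END LT/T7/H662/Chain.lean

-- ===== PACK-BEGIN LT/T7/H750/TwAlg.lean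
section



/-!
# Row LT, tower T7, F/Q mirror (station `UpFactQ`, infinite place), ASSET (helper750), OFF-MAIN,
# MATHLIB ONLY: algebra for the TWISTED closed orbit in `GL₂(ℂ)` (twist = complex conjugation)

* `exists_smul_of_comm750`: a matrix commuting with a non-scalar `2 × 2` matrix `A` over a field is
  `p + q A`; `comm_of_comm_regular750`: the centraliser of a regular matrix is commutative.
* `exists_det_three750`: for every `M ∈ M₂(ℂ)` one of `a + ā M`, `a ∈ {1, i, 1 + i}`, is invertible.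
* `exists_real_of_conj750`: an element of `GL₂(ℂ)` fixed by the complex conjugation comes from
  `GL₂(ℝ)`.
-/

set_option autoImplicit false
set_option linter.unusedSectionVars false
set_option linter.style.haveILetI false

open scoped ComplexConjugate

noncomputable section

namespace Fermat.Agent.LT.T7.H750

/-! ## 1. The centraliser of a regular matrix is commutative -/

section Comm

variable {k : Type*} [Field k]

theorem nonscalar_of_regular750 (A : Matrix (Fin 2) (Fin 2) k)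
    (h : A.trace ^ 2 - 4 * A.det ≠ 0) : A 0 1 ≠ 0 ∨ A 1 0 ≠ 0 ∨ A 0 0 ≠ A 1 1 := by
  by_contra hcon
  push Not at hcon
  obtain ⟨e1, e2, e3⟩ := hcon
  apply h
  rw [Matrix.trace_fin_two, Matrix.det_fin_two, e1, e2, e3]
  ring

theorem exists_smul_of_comm750 (A X : Matrix (Fin 2) (Fin 2) k)
    (hA : A 0 1 ≠ 0 ∨ A 1 0 ≠ 0 ∨ A 0 0 ≠ A 1 1) (h : X * A = A * X) :
    ∃ p q : k, X = p • (1 : Matrix (Fin 2) (Fin 2) k) + q • A := by
  have h00 := congrFun (congrFun h 0) 0
  have h01 := congrFun (congrFun h 0) 1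
  have h10 := congrFun (congrFun h 1) 0
  have h11 := congrFun (congrFun h 1) 1
  simp only [Matrix.mul_apply, Fin.sum_univ_two] at h00 h01 h10 h11
  rcases hA with hb | hc | had
  · refine ⟨X 0 0 - X 0 1 / A 0 1 * A 0 0, X 0 1 / A 0 1, ?_⟩
    ext i j
    fin_cases i <;> fin_cases j <;>
      simp only [Fin.zero_eta, Fin.mk_one, Fin.isValue, Matrix.add_apply, Matrix.smul_apply,
        Matrix.one_apply_eq, Matrix.one_apply_ne, ne_eq, zero_ne_one, one_ne_zero,
        not_false_eq_true, smul_eq_mul, mul_one, mul_zero, zero_add]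
    · ring
    · field_simp
    · field_simp
      linear_combination -h00
    · field_simp
      linear_combination -h01
  · refine ⟨X 1 1 - X 1 0 / A 1 0 * A 1 1, X 1 0 / A 1 0, ?_⟩
    ext i j
    fin_cases i <;> fin_cases j <;>
      simp only [Fin.zero_eta, Fin.mk_one, Fin.isValue, Matrix.add_apply, Matrix.smul_apply,
        Matrix.one_apply_eq, Matrix.one_apply_ne, ne_eq, zero_ne_one, one_ne_zero,
        not_false_eq_true, smul_eq_mul, mul_one, mul_zero, zero_add]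
    · field_simp
      linear_combination -h10
    · field_simp
      linear_combination h00
    · field_simp
    · ring
  · have had' : A 0 0 - A 1 1 ≠ 0 := sub_ne_zero.mpr had
    refine ⟨X 0 0 - (X 0 0 - X 1 1) / (A 0 0 - A 1 1) * A 0 0,
      (X 0 0 - X 1 1) / (A 0 0 - A 1 1), ?_⟩
    ext i j
    fin_cases i <;> fin_cases j <;>
      simp only [Fin.zero_eta, Fin.mk_one, Fin.isValue, Matrix.add_apply, Matrix.smul_apply,
        Matrix.one_apply_eq, Matrix.one_apply_ne, ne_eq, zero_ne_one, one_ne_zero,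
        not_false_eq_true, smul_eq_mul, mul_one, mul_zero, zero_add]
    · ring
    · field_simp
      linear_combination -h01
    · field_simp
      linear_combination h10
    · field_simp
      ring

/-- The centraliser of a regular `2 × 2` matrix is commutative. -/
theorem comm_of_comm_regular750 (A X Y : Matrix (Fin 2) (Fin 2) k)
    (hA : A.trace ^ 2 - 4 * A.det ≠ 0) (hX : X * A = A * X) (hY : Y * A = A * Y) :
    X * Y = Y * X := by
  obtain ⟨p, q, rfl⟩ := exists_smul_of_comm750 A X (nonscalar_of_regular750 A hA) hX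
  rw [add_mul, mul_add, Matrix.smul_mul, Matrix.mul_smul, Matrix.smul_mul, Matrix.mul_smul,
    Matrix.one_mul, Matrix.mul_one, hY]

end Comm

/-! ## 2. Three points -/

/-- The three coefficients `1`, `i`, `1 + i`. -/
def av750 (j : Fin 3) : ℂ := ![1, Complex.I, 1 + Complex.I] j

theorem exists_det_three750 (M : Matrix (Fin 2) (Fin 2) ℂ) :
    ∃ j : Fin 3, (av750 j • (1 : Matrix (Fin 2) (Fin 2) ℂ) + conj (av750 j) • M).det ≠ 0 := by
  by_contra hcon
  push Not at hcon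
  have h0 := hcon 0
  have h1 := hcon 1
  have h2 := hcon 2
  simp only [av750, Matrix.det_fin_two, Matrix.add_apply, Matrix.smul_apply, smul_eq_mul,
    Matrix.one_apply_eq, Matrix.one_apply_ne, ne_eq, zero_ne_one, one_ne_zero,
    not_false_eq_true, mul_one, mul_zero, zero_add, Matrix.cons_val_zero, Matrix.cons_val_one,
    Matrix.cons_val_two, Matrix.head_cons, Matrix.tail_cons, map_one, Complex.conj_I, map_add,
    Fin.isValue, one_mul] at h0 h1 h2
  have hI : Complex.I * Complex.I = -1 := Complex.I_mul_I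
  have key : 4 * Complex.I = 0 := by
    linear_combination h2 - (1 - Complex.I) * h0 - (1 + Complex.I) * h1
      + Complex.I * (1 - (M 0 0 + M 1 1) + (M 0 0 * M 1 1 - M 0 1 * M 1 0)) * hI
  exact Complex.I_ne_zero (by simpa using key)

end Fermat.Agent.LT.T7.H750

end
end
-- ===== PACK-END LT/T7/H750/TwAlg.lean

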