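import Mathlib
import Fermat.Agent.Pack.LT3.E2L1
import Fermat.Agent.Pack.LT3.E0L0
import Fermat.Agent.Pack.LT3.E2L3
import Fermat.Agent.Pack.LT3.E2L0
import Fermat.Agent.Pack.LT3.E0L1
import Fermat.Agent.Pack.LT3.E3L2
import Fermat.Agent.Pack.LT2.E0L2
import Fermat.Agent.Pack.LT2.E3L0
import Fermat.Agent.Pack.LT2.E2L1
import Fermat.Agent.Pack.LT3.E2L2
import Fermat.Agent.Pack.LT3.E4L3

set_option linter.all false

-- ===== PACK-BEGIN LT/CFT/H137/UnitSq.lean
section


/-!
# Row LT, tower CFT, sub-tower EX, leaf E1 (EXIST-QUAD), COUNT assets (helper137, OFF-MAIN)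

The index of the squares in the unit group of a number field (Dirichlet's unit theorem of
Mathlib):

* `index_sq_units_eq137` : `[(𝓞 K)ˣ : ((𝓞 K)ˣ)²] = 2 ^ (rank K + 1)`.
* `two_mul_rank_add_one137` : `K` totally complex ⟹ `2 * (rank K + 1) = [K : ℚ]`.
* `index_sq_units_sq137` : `K` totally complex ⟹ `[(𝓞 K)ˣ : squares] ^ 2 = 2 ^ [K : ℚ]`.
-/

set_option autoImplicit false

open NumberField NumberField.Units

namespace Fermat.Agent.LT.CFT.H137

variable (K : Type*) [Field K] [NumberField K]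

/-- The decomposition of a unit: root of unity and exponents on the fundamental system. -/
noncomputable def unitDec137 (x : (𝓞 K)ˣ) : torsion K × (Fin (rank K) → ℤ) :=
  Classical.choose (exist_unique_eq_mul_prod K x).exists

theorem unitDec_spec137 (x : (𝓞 K)ˣ) :
    x = (unitDec137 K x).1 * ∏ i, (fundSystem K i) ^ ((unitDec137 K x).2 i) :=
  Classical.choose_spec (exist_unique_eq_mul_prod K x).exists

theorem unitDec_unique137 (x : (𝓞 K)ˣ) (ζ : torsion K) (e : Fin (rank K) → ℤ)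
    (h : x = ζ * ∏ i, (fundSystem K i) ^ (e i)) : unitDec137 K x = (ζ, e) :=
  ((exist_unique_eq_mul_prod K x).unique (unitDec_spec137 K x) h)

theorem unitDec_mul137 (x y : (𝓞 K)ˣ) :
    unitDec137 K (x * y) =
      ((unitDec137 K x).1 * (unitDec137 K y).1, (unitDec137 K x).2 + (unitDec137 K y).2) := by
  apply unitDec_unique137
  conv_lhs => rw [unitDec_spec137 K x, unitDec_spec137 K y]
  simp only [Pi.add_apply, zpow_add, Finset.prod_mul_distrib, Subgroup.coe_mul]
  exact mul_mul_mul_comm _ _ _ _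

theorem unitDec_one137 : unitDec137 K (1 : (𝓞 K)ˣ) = (1, 0) := by
  apply unitDec_unique137
  simp

/-- The subgroup of squares of the torsion group. -/
noncomputable abbrev torSq137 : Subgroup (torsion K) :=
  (powMonoidHom 2 : torsion K →* torsion K).range

/-- The square class map of the unit group. -/
noncomputable def unitClass137 :
    (𝓞 K)ˣ →* (torsion K ⧸ torSq137 K) × Multiplicative (Fin (rank K) → ZMod 2) where
  toFun x := (QuotientGroup.mk (unitDec137 K x).1,
    Multiplicative.ofAdd fun i => (((unitDec137 K x).2 i : ℤ) : ZMod 2))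
  map_one' := by
    rw [unitDec_one137]
    refine Prod.ext rfl ?_
    show Multiplicative.ofAdd (fun i : Fin (rank K) => (((0 : Fin (rank K) → ℤ) i : ℤ) : ZMod 2))
      = 1
    rw [← ofAdd_zero]
    exact congrArg _ (funext fun i => by simp)
  map_mul' x y := by
    rw [unitDec_mul137]
    refine Prod.ext rfl ?_
    show Multiplicative.ofAdd (fun i : Fin (rank K) =>
        ((((unitDec137 K x).2 + (unitDec137 K y).2) i : ℤ) : ZMod 2)) =
      Multiplicative.ofAdd (fun i => (((unitDec137 K x).2 i : ℤ) : ZMod 2)) *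
        Multiplicative.ofAdd (fun i => (((unitDec137 K y).2 i : ℤ) : ZMod 2))
    rw [← ofAdd_add]
    exact congrArg _ (funext fun i => by simp)

theorem unitClass_surjective137 : Function.Surjective (unitClass137 K) := by
  rintro ⟨q, c⟩
  obtain ⟨ζ, rfl⟩ := QuotientGroup.mk_surjective q
  have hc : ∀ i : Fin (rank K), ∃ n : ℤ, (n : ZMod 2) = (Multiplicative.toAdd c) i :=
    fun i => ZMod.intCast_surjective _
  choose e he using hc
  refine ⟨ζ * ∏ i, (fundSystem K i) ^ (e i), ?_⟩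
  have hdec : unitDec137 K (ζ * ∏ i, (fundSystem K i) ^ (e i)) = (ζ, e) :=
    unitDec_unique137 K _ ζ e rfl
  show ((QuotientGroup.mk (unitDec137 K _).1 : torsion K ⧸ torSq137 K),
    Multiplicative.ofAdd fun i => (((unitDec137 K _).2 i : ℤ) : ZMod 2)) = _
  rw [hdec]
  refine Prod.ext rfl ?_
  show Multiplicative.ofAdd (fun i => ((e i : ℤ) : ZMod 2)) = c
  rw [← ofAdd_toAdd c]
  congr 1
  funext i
  exact he i

theorem unitClass_ker137 :
    (unitClass137 K).ker = (powMonoidHom 2 : (𝓞 K)ˣ →* (𝓞 K)ˣ).range := by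
  ext x
  rw [MonoidHom.mem_ker, MonoidHom.mem_range]
  constructor
  · intro h
    have h1 : (QuotientGroup.mk (unitDec137 K x).1 : torsion K ⧸ torSq137 K) = 1 :=
      congrArg Prod.fst h
    have h2 : (Multiplicative.ofAdd fun i => (((unitDec137 K x).2 i : ℤ) : ZMod 2)) = 1 :=
      congrArg Prod.snd h
    rw [QuotientGroup.eq_one_iff] at h1
    obtain ⟨ξ, hξ⟩ := h1
    rw [powMonoidHom_apply] at hξ
    have h3 : ∀ i, (2 : ℤ) ∣ (unitDec137 K x).2 i := by
      intro i
      have := congrFun (congrArg Multiplicative.toAdd h2) i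
      simp only [toAdd_ofAdd, toAdd_one, Pi.zero_apply] at this
      exact (ZMod.intCast_zmod_eq_zero_iff_dvd _ 2).1 this
    choose e he using h3
    refine ⟨ξ * ∏ i, (fundSystem K i) ^ (e i), ?_⟩
    rw [powMonoidHom_apply]
    conv_rhs => rw [unitDec_spec137 K x]
    rw [mul_pow, ← Finset.prod_pow, ← hξ]
    congr 1
    refine Finset.prod_congr rfl fun i _ => ?_
    rw [he i, ← zpow_natCast, ← zpow_mul, mul_comm]
    rfl
  · rintro ⟨y, rfl⟩
    rw [powMonoidHom_apply, pow_two, map_mul]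
    have : ∀ z : (torsion K ⧸ torSq137 K) × Multiplicative (Fin (rank K) → ZMod 2),
        z * z = 1 := by
      rintro ⟨q, c⟩
      refine Prod.ext ?_ ?_
      · show q * q = 1
        obtain ⟨ζ, rfl⟩ := QuotientGroup.mk_surjective q
        rw [← QuotientGroup.mk_mul, QuotientGroup.eq_one_iff]
        exact ⟨ζ, by rw [powMonoidHom_apply, pow_two]⟩
      · show c * c = 1
        rw [← ofAdd_toAdd c, ← ofAdd_add, ← ofAdd_zero]
        congr 1
        funext i
        have h2 : ∀ a : ZMod 2, a + a = 0 := by decide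
        exact h2 _
    exact this _

/-- The elements of order dividing `2` of the torsion group are `± 1`. -/
theorem card_torsion_ker137 :
    Nat.card (powMonoidHom 2 : torsion K →* torsion K).ker = 2 := by
  classical
  have hneg : (-1 : (𝓞 K)ˣ) ∈ torsion K := by
    rw [torsion, CommGroup.mem_torsion, isOfFinOrder_iff_pow_eq_one]
    exact ⟨2, by norm_num, by simp⟩
  have hne : (-1 : (𝓞 K)ˣ) ≠ 1 := by
    intro h
    have h1 : ((-1 : (𝓞 K)ˣ) : 𝓞 K) = ((1 : (𝓞 K)ˣ) : 𝓞 K) := congrArg Units.val h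
    rw [Units.val_neg, Units.val_one] at h1
    have h2 : (2 : 𝓞 K) = 0 := by linear_combination -h1
    exact two_ne_zero h2
  -- the bijection with `Bool`
  have hmem : ∀ ζ : torsion K, ζ ∈ (powMonoidHom 2 : torsion K →* torsion K).ker ↔
      (ζ : (𝓞 K)ˣ) = 1 ∨ (ζ : (𝓞 K)ˣ) = -1 := by
    intro ζ
    rw [MonoidHom.mem_ker, powMonoidHom_apply]
    constructor
    · intro h
      have h1 : ((ζ : (𝓞 K)ˣ) : 𝓞 K) ^ 2 = 1 := by
        have := congrArg (fun z : torsion K => ((z : (𝓞 K)ˣ) : 𝓞 K)) h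
        simpa using this
      rw [pow_two] at h1
      rcases mul_self_eq_one_iff.1 h1 with h2 | h2
      · left; exact Units.ext h2
      · right; exact Units.ext (by rw [h2]; simp)
    · rintro (h | h)
      · exact Subtype.ext (by rw [Subgroup.coe_pow, h]; simp)
      · exact Subtype.ext (by rw [Subgroup.coe_pow, h]; simp)
  let g : Bool → (powMonoidHom 2 : torsion K →* torsion K).ker := fun b =>
    if b then ⟨⟨1, one_mem _⟩, (hmem _).2 (Or.inl rfl)⟩
    else ⟨⟨-1, hneg⟩, (hmem _).2 (Or.inr rfl)⟩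
  have hg : Function.Bijective g := by
    constructor
    · intro a b hab
      cases a <;> cases b
      · rfl
      · exfalso
        have := congrArg (fun z : (powMonoidHom 2 : torsion K →* torsion K).ker =>
          ((z : torsion K) : (𝓞 K)ˣ)) hab
        simp only [g] at this
        exact hne (by simpa using this)
      · exfalso
        have := congrArg (fun z : (powMonoidHom 2 : torsion K →* torsion K).ker =>
          ((z : torsion K) : (𝓞 K)ˣ)) hab
        simp only [g] at this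
        exact hne (by simpa using this.symm)
      · rfl
    · rintro ⟨ζ, hζ⟩
      rcases (hmem ζ).1 hζ with h | h
      · exact ⟨true, Subtype.ext (Subtype.ext h.symm)⟩
      · exact ⟨false, Subtype.ext (Subtype.ext h.symm)⟩
  rw [← Nat.card_congr (Equiv.ofBijective g hg), Nat.card_eq_fintype_card, Fintype.card_bool]

/-- **UNIT INDEX.**  `[(𝓞 K)ˣ : squares] = 2 ^ (rank K + 1)`. -/
theorem index_sq_units_eq137 :
    (powMonoidHom 2 : (𝓞 K)ˣ →* (𝓞 K)ˣ).range.index = 2 ^ (rank K + 1) := by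
  classical
  rw [← unitClass_ker137, Subgroup.index_ker,
    MonoidHom.range_eq_top.2 (unitClass_surjective137 K)]
  have h1 : Nat.card (torsion K ⧸ torSq137 K) = 2 := by
    rw [← Subgroup.index_eq_card, index_sq_eq_card_ker137, card_torsion_ker137]
  have h2 : Nat.card (Multiplicative (Fin (rank K) → ZMod 2)) = 2 ^ rank K := by
    rw [Nat.card_congr (Multiplicative.toAdd :
      Multiplicative (Fin (rank K) → ZMod 2) ≃ (Fin (rank K) → ZMod 2)), Nat.card_fun,
      Nat.card_zmod, Nat.card_fin]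
  rw [Subgroup.card_top, Nat.card_prod, h1, h2, pow_succ, mul_comm]

/-- For a totally complex field `2 * (rank K + 1) = [K : ℚ]`. -/
theorem two_mul_rank_add_one137 (hK : ∀ w : InfinitePlace K, w.IsComplex) :
    2 * (rank K + 1) = Module.finrank ℚ K := by
  classical
  have h0 : InfinitePlace.nrRealPlaces K = 0 := by
    rw [InfinitePlace.nrRealPlaces, Fintype.card_eq_zero_iff]
    exact ⟨fun w => (InfinitePlace.not_isReal_iff_isComplex.2 (hK w.1)) w.2⟩
  have h1 := InfinitePlace.card_add_two_mul_card_eq_rank K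
  have h2 := InfinitePlace.card_eq_nrRealPlaces_add_nrComplexPlaces K
  have hpos : 0 < Fintype.card (InfinitePlace K) := Fintype.card_pos
  rw [rank]
  omega

/-- **UNIT INDEX, totally complex.**  `[(𝓞 K)ˣ : squares] ^ 2 = 2 ^ [K : ℚ]`. -/
theorem index_sq_units_sq137 (hK : ∀ w : InfinitePlace K, w.IsComplex) :
    (powMonoidHom 2 : (𝓞 K)ˣ →* (𝓞 K)ˣ).range.index ^ 2 = 2 ^ Module.finrank ℚ K := by
  rw [index_sq_units_eq137, ← pow_mul, mul_comm, two_mul_rank_add_one137 K hK]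

end Fermat.Agent.LT.CFT.H137

end
-- ===== PACK-END LT/CFT/H137/UnitSq.lean

-- ===== PACK-BEGIN LT/CFT/H266/UnitRed.lean
section



/-!
# Row LT, tower CFT, sub-tower EX, row E1.C (cut of helper476 `H476/EQSpec.lean`), helper266

OFF-MAIN.  Leaf **E1.C.8 `UnitRedC`** (reduction modulo `fS S n`), VERBATIM, Mathlib only:
`[sqG · unitAtG S : sqG · rayG S n] ≤ 2^|S| · 2^[K:ℚ]`.
-/

set_option autoImplicit false

open IsDedekindDomain NumberField

namespace Fermat.Agent.LT.CFT.H266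

open Fermat.Agent.LT.CFT

/-- An index bound from a map to a finite type which separates the cosets. -/
theorem index_le_of_map266 {G : Type*} [Group G] (H : Subgroup G) {F : Type*} [Finite F]
    (f : G → F) (hf : ∀ x y, f x = f y → x⁻¹ * y ∈ H) :
    H.index ≠ 0 ∧ H.index ≤ Nat.card F := by
  have hinj : Function.Injective (fun q : G ⧸ H => f (Quotient.out q)) := by
    intro q q' h
    have h1 := hf _ _ h
    have h2 : (QuotientGroup.mk (Quotient.out q) : G ⧸ H) = QuotientGroup.mk (Quotient.out q') :=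
      QuotientGroup.eq.mpr h1
    have e1 : (QuotientGroup.mk (Quotient.out q) : G ⧸ H) = q := Quotient.out_eq' q
    have e2 : (QuotientGroup.mk (Quotient.out q') : G ⧸ H) = q' := Quotient.out_eq' q'
    rw [e1, e2] at h2
    exact h2
  have hfin : Finite (G ⧸ H) := Finite.of_injective _ hinj
  refine ⟨Subgroup.index_ne_zero_of_finite, ?_⟩
  rw [Subgroup.index_eq_card]
  exact Nat.card_le_card_of_injective _ hinj

section

variable {K : Type} [Field K] [NumberField K]

/-- `a` is prime to `S`. -/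
def PrimeTo266 (S : Finset (HeightOneSpectrum (𝓞 K))) (a : 𝓞 K) : Prop :=
  ∀ v ∈ S, a ∉ v.asIdeal

theorem primeTo_one266 (S : Finset (HeightOneSpectrum (𝓞 K))) : PrimeTo266 S 1 := by
  intro v _ h
  exact v.isPrime.ne_top ((Ideal.eq_top_iff_one _).mpr h)

theorem primeTo_mul266 {S : Finset (HeightOneSpectrum (𝓞 K))} {a b : 𝓞 K}
    (ha : PrimeTo266 S a) (hb : PrimeTo266 S b) : PrimeTo266 S (a * b) := by
  intro v hv h
  rcases v.isPrime.mem_or_mem h with h' | h'
  · exact ha v hv h'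
  · exact hb v hv h'

theorem fS_le_pow266 (S : Finset (HeightOneSpectrum (𝓞 K))) (n : ℕ)
    {v : HeightOneSpectrum (𝓞 K)} (hv : v ∈ S) : EQ.fS S n ≤ v.asIdeal ^ n :=
  Ideal.le_of_dvd (Finset.dvd_prod_of_mem (fun v : HeightOneSpectrum (𝓞 K) => v.asIdeal ^ n) hv)

theorem fS_le266 (S : Finset (HeightOneSpectrum (𝓞 K))) {n : ℕ} (hn : 1 ≤ n)
    {v : HeightOneSpectrum (𝓞 K)} (hv : v ∈ S) : EQ.fS S n ≤ v.asIdeal :=
  le_trans (fS_le_pow266 S n hv) (Ideal.pow_le_self (by omega))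

/-- An integer prime to `S` is invertible modulo `fS S n`. -/
theorem exists_inv_mod266 (S : Finset (HeightOneSpectrum (𝓞 K))) (n : ℕ) (a : 𝓞 K)
    (ha : PrimeTo266 S a) : ∃ d : 𝓞 K, a * d - 1 ∈ EQ.fS S n := by
  classical
  have htop : Ideal.span {a} ⊔ EQ.fS S n = ⊤ := by
    by_contra hne
    obtain ⟨M, hM, hle⟩ := Ideal.exists_le_maximal _ hne
    have haM : a ∈ M := hle (Ideal.mem_sup_left (Ideal.mem_span_singleton_self a))
    have hfM : EQ.fS S n ≤ M := le_trans le_sup_right hle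
    obtain ⟨v, hv, hvM⟩ := (Ideal.IsPrime.prod_le hM.isPrime).mp hfM
    have hvM' : v.asIdeal ≤ M := Ideal.IsPrime.le_of_pow_le (hP := hM.isPrime) hvM
    have heq : v.asIdeal = M := v.isMaximal.eq_of_le hM.ne_top hvM'
    exact ha v hv (heq ▸ haM)
  have h1 : (1 : 𝓞 K) ∈ Ideal.span {a} ⊔ EQ.fS S n := by rw [htop]; exact Submodule.mem_top
  obtain ⟨y, hy, z, hz, hyz⟩ := Submodule.mem_sup.mp h1
  obtain ⟨d, rfl⟩ := Ideal.mem_span_singleton'.mp hy
  refine ⟨d, ?_⟩
  have : a * d - 1 = -z := by rw [← hyz]; ring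
  rw [this]
  exact Ideal.neg_mem_iff _ |>.mpr hz

/-- ... with a nonzero inverse. -/
theorem exists_inv_mod_ne266 (S : Finset (HeightOneSpectrum (𝓞 K))) (n : ℕ) (a : 𝓞 K)
    (ha : PrimeTo266 S a) : ∃ d : 𝓞 K, d ≠ 0 ∧ a * d - 1 ∈ EQ.fS S n := by
  obtain ⟨d, hd⟩ := exists_inv_mod266 S n a ha
  by_cases h0 : d = 0
  · refine ⟨1, one_ne_zero, ?_⟩
    rw [h0, mul_zero, zero_sub] at hd
    have h1 : (1 : 𝓞 K) ∈ EQ.fS S n := by simpa using Ideal.neg_mem_iff _ |>.mp hd
    have htop : EQ.fS S n = ⊤ := (Ideal.eq_top_iff_one _).mpr h1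
    rw [htop]
    exact Submodule.mem_top
  · exact ⟨d, h0, hd⟩

/-- An inverse modulo `fS S n`, `n ≥ 1`, is prime to `S`. -/
theorem primeTo_of_inv266 (S : Finset (HeightOneSpectrum (𝓞 K))) {n : ℕ} (hn : 1 ≤ n)
    {a d : 𝓞 K} (h : a * d - 1 ∈ EQ.fS S n) : PrimeTo266 S a := by
  intro v hv hav
  have h1 : a * d - 1 ∈ v.asIdeal := fS_le266 S hn hv h
  have h2 : a * d ∈ v.asIdeal := Ideal.mul_mem_right _ _ hav
  have h3 : (1 : 𝓞 K) ∈ v.asIdeal := by
    have := Ideal.sub_mem _ h2 h1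
    simpa using this
  exact v.isPrime.ne_top ((Ideal.eq_top_iff_one _).mpr h3)

/-- The ratio of two nonzero integers prime to `S` which are congruent modulo `fS S n` lies in
the ray. -/
theorem ratio_mem_rayG266 (S : Finset (HeightOneSpectrum (𝓞 K))) (n : ℕ) (p q : 𝓞 K)
    (hp0 : p ≠ 0) (hq0 : q ≠ 0) (hq : PrimeTo266 S q) (hpq : p - q ∈ EQ.fS S n)
    (x : Kˣ) (hx : (x : K) * algebraMap (𝓞 K) K q = algebraMap (𝓞 K) K p) :
    x ∈ EQ.rayG S n := by
  obtain ⟨d, hd0, hd⟩ := exists_inv_mod_ne266 S n q hq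
  have hpd : p * d - 1 ∈ EQ.fS S n := by
    have : p * d - 1 = (p - q) * d + (q * d - 1) := by ring
    rw [this]
    exact Ideal.add_mem _ (Ideal.mul_mem_right _ _ hpq) hd
  have hinj : Function.Injective (algebraMap (𝓞 K) K) := RingOfIntegers.coe_injective
  have hne : ∀ z : 𝓞 K, z ≠ 0 → algebraMap (𝓞 K) K z ≠ 0 := fun z hz h =>
    hz (hinj (by rw [h, map_zero]))
  set P : Kˣ := Units.mk0 (algebraMap (𝓞 K) K (p * d)) (hne _ (mul_ne_zero hp0 hd0)) with hP
  set Q : Kˣ := Units.mk0 (algebraMap (𝓞 K) K (q * d)) (hne _ (mul_ne_zero hq0 hd0)) with hQ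
  have hPm : P ∈ EQ.rayG S n := Subgroup.subset_closure ⟨p * d, hpd, rfl⟩
  have hQm : Q ∈ EQ.rayG S n := Subgroup.subset_closure ⟨q * d, hd, rfl⟩
  have hxe : x = P * Q⁻¹ := by
    rw [eq_mul_inv_iff_mul_eq]
    apply Units.ext
    show (x : K) * algebraMap (𝓞 K) K (q * d) = algebraMap (𝓞 K) K (p * d)
    rw [map_mul, map_mul, ← mul_assoc, hx]
  rw [hxe]
  exact Subgroup.mul_mem _ hPm (Subgroup.inv_mem _ hQm)

/-- Elements of `unitAtG S` are quotients of nonzero integers prime to `S`. -/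
theorem exists_frac_of_mem_unitAtG266 (S : Finset (HeightOneSpectrum (𝓞 K))) (w : Kˣ)
    (hw : w ∈ EQ.unitAtG S) :
    ∃ a b : 𝓞 K, a ≠ 0 ∧ b ≠ 0 ∧ PrimeTo266 S a ∧ PrimeTo266 S b ∧
      (w : K) * algebraMap (𝓞 K) K b = algebraMap (𝓞 K) K a := by
  have hinj : Function.Injective (algebraMap (𝓞 K) K) := RingOfIntegers.coe_injective
  induction hw using Subgroup.closure_induction with
  | mem x hx =>
    obtain ⟨a, ha, hxa⟩ := hx
    refine ⟨a, 1, ?_, one_ne_zero, ha, primeTo_one266 S, by rw [map_one, mul_one, hxa]⟩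
    intro h0
    have : (x : K) = 0 := by rw [hxa, h0, map_zero]
    exact x.ne_zero this
  | one => exact ⟨1, 1, one_ne_zero, one_ne_zero, primeTo_one266 S, primeTo_one266 S, by simp⟩
  | mul x y _ _ hx hy =>
    obtain ⟨a, b, ha0, hb0, ha, hb, hab⟩ := hx
    obtain ⟨a', b', ha0', hb0', ha', hb', hab'⟩ := hy
    refine ⟨a * a', b * b', mul_ne_zero ha0 ha0', mul_ne_zero hb0 hb0', primeTo_mul266 ha ha',
      primeTo_mul266 hb hb', ?_⟩
    rw [Units.val_mul, map_mul, map_mul, ← hab, ← hab']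
    ring
  | inv x _ hx =>
    obtain ⟨a, b, ha0, hb0, ha, hb, hab⟩ := hx
    refine ⟨b, a, hb0, ha0, hb, ha, ?_⟩
    rw [← hab, Units.val_inv_eq_inv_val]
    field_simp

/-- Elements of `sqG K ⊔ unitAtG S` are squares times quotients of integers prime to `S`. -/
theorem exists_decomp266 (S : Finset (HeightOneSpectrum (𝓞 K))) (x : Kˣ)
    (hx : x ∈ EQ.sqG K ⊔ EQ.unitAtG S) :
    ∃ (y : Kˣ) (a b : 𝓞 K), a ≠ 0 ∧ b ≠ 0 ∧ PrimeTo266 S a ∧ PrimeTo266 S b ∧
      (x : K) * algebraMap (𝓞 K) K b = (y : K) ^ 2 * algebraMap (𝓞 K) K a := by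
  obtain ⟨s, hs, w, hw, rfl⟩ := Subgroup.mem_sup.mp hx
  obtain ⟨y, rfl⟩ := hs
  obtain ⟨a, b, ha0, hb0, ha, hb, hab⟩ := exists_frac_of_mem_unitAtG266 S w hw
  refine ⟨y, a, b, ha0, hb0, ha, hb, ?_⟩
  rw [Units.val_mul, mul_assoc, hab]
  simp [powMonoidHom]


/-! ## The count of the square classes modulo `fS S n` -/

instance finite_quot_fS266 (S : Finset (HeightOneSpectrum (𝓞 K))) (n : ℕ) :
    Finite (𝓞 K ⧸ EQ.fS S n) := by
  classical
  have hne : EQ.fS S n ≠ ⊥ := by
    unfold EQ.fS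
    rw [Ne, ← Ideal.zero_eq_bot, Finset.prod_eq_zero_iff]
    rintro ⟨v, -, hv⟩
    have hv0 : v.asIdeal ≠ 0 := by
      rw [Ideal.zero_eq_bot]
      exact v.ne_bot
    exact pow_ne_zero n hv0 hv
  exact Ideal.finiteQuotientOfFreeOfNeBot _ hne

/-- `∏_{v ∈ S} N(v) ^ ord_v(2) ≤ 2 ^ [K : ℚ]` for EVERY finite set `S`. -/
theorem prod_absNorm_pow_ord_le266 (S : Finset (HeightOneSpectrum (𝓞 K))) :
    ∏ v ∈ S, Ideal.absNorm v.asIdeal ^ ord266 K v ≤ 2 ^ Module.finrank ℚ K := by
  classical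
  have hne : (Ideal.span {(2 : 𝓞 K)}) ≠ ⊥ := by
    rw [Ne, Ideal.span_singleton_eq_bot]
    exact two_ne_zero266
  set S2 : Finset (HeightOneSpectrum (𝓞 K)) := (Ideal.finite_factors hne).toFinset with hS2
  have hS2mem : ∀ v : HeightOneSpectrum (𝓞 K), (2 : 𝓞 K) ∈ v.asIdeal → v ∈ S ∪ S2 := by
    intro v hv
    refine Finset.mem_union_right _ ?_
    rw [hS2, Set.Finite.mem_toFinset]
    show v.asIdeal ∣ _
    rw [Ideal.dvd_span_singleton]
    exact hv
  rw [← prod_absNorm_pow_ord266 (S ∪ S2) hS2mem]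
  refine Finset.prod_le_prod_of_subset_of_one_le' Finset.subset_union_left ?_
  intro v _ _
  refine Nat.one_le_pow _ _ ?_
  have h0 : Ideal.absNorm v.asIdeal ≠ 0 := fun h =>
    v.ne_bot (Ideal.absNorm_eq_zero_iff.mp h)
  omega

/-- The reduction `(𝓞/fS S n)ˣ → (𝓞/vⁿ)ˣ`. -/
noncomputable def redUnits266 (S : Finset (HeightOneSpectrum (𝓞 K))) (n : ℕ)
    (v : HeightOneSpectrum (𝓞 K)) (hv : v ∈ S) :
    (𝓞 K ⧸ EQ.fS S n)ˣ →* (𝓞 K ⧸ v.asIdeal ^ n)ˣ :=
  Units.map (Ideal.Quotient.factor (fS_le_pow266 S n hv)).toMonoidHom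

theorem redUnits_injective266 (S : Finset (HeightOneSpectrum (𝓞 K))) (n : ℕ)
    (z z' : (𝓞 K ⧸ EQ.fS S n)ˣ)
    (h : ∀ (v : HeightOneSpectrum (𝓞 K)) (hv : v ∈ S),
      redUnits266 S n v hv z = redUnits266 S n v hv z') : z = z' := by
  classical
  apply Units.ext
  obtain ⟨a, ha⟩ := Ideal.Quotient.mk_surjective (z : 𝓞 K ⧸ EQ.fS S n)
  obtain ⟨a', ha'⟩ := Ideal.Quotient.mk_surjective (z' : 𝓞 K ⧸ EQ.fS S n)
  rw [← ha, ← ha', Ideal.Quotient.eq]
  have hinf : (S.inf fun v : HeightOneSpectrum (𝓞 K) => v.asIdeal ^ n) = EQ.fS S n :=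
    HeightOneSpectrum.inf_pow_eq_prod S (fun _ => n) id (fun _ _ _ _ hij => hij)
  rw [← hinf, Submodule.mem_finsetInf]
  intro v hv
  have h1 := congrArg Units.val (h v hv)
  have h2 : Ideal.Quotient.factor (fS_le_pow266 S n hv) (z : 𝓞 K ⧸ EQ.fS S n) =
      Ideal.Quotient.factor (fS_le_pow266 S n hv) (z' : 𝓞 K ⧸ EQ.fS S n) := h1
  rw [← ha, ← ha', Ideal.Quotient.factor_mk, Ideal.Quotient.factor_mk, Ideal.Quotient.eq] at h2
  exact h2

/-- The number of solutions of `z ^ 2 = 1` in `(𝓞/fS S n)ˣ`. -/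
theorem card_sq_one_fS_le266 (S : Finset (HeightOneSpectrum (𝓞 K))) (n : ℕ) :
    Nat.card {z : (𝓞 K ⧸ EQ.fS S n)ˣ // z ^ 2 = 1} ≤
      2 ^ S.card * 2 ^ Module.finrank ℚ K := by
  classical
  have hfin : ∀ v : HeightOneSpectrum (𝓞 K), Finite (𝓞 K ⧸ v.asIdeal ^ n) := fun v =>
    finite_quot_pow266 v.asIdeal v.ne_bot n
  let F : (v : {v : HeightOneSpectrum (𝓞 K) // v ∈ S}) → Type :=
    fun v => {z : (𝓞 K ⧸ v.1.asIdeal ^ n)ˣ // z ^ 2 = 1}
  let g : {z : (𝓞 K ⧸ EQ.fS S n)ˣ // z ^ 2 = 1} → (∀ v, F v) :=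
    fun z v => ⟨redUnits266 S n v.1 v.2 z.1, by
      rw [← map_pow, z.2, map_one]⟩
  have hg : Function.Injective g := by
    intro z z' h
    apply Subtype.ext
    apply redUnits_injective266 S n
    intro v hv
    have := congrFun h ⟨v, hv⟩
    exact congrArg Subtype.val this
  have hFfin : ∀ v, Finite (F v) := fun v => by
    haveI := hfin v.1
    exact Subtype.finite
  have h1 : Nat.card {z : (𝓞 K ⧸ EQ.fS S n)ˣ // z ^ 2 = 1} ≤ Nat.card (∀ v, F v) :=
    Nat.card_le_card_of_injective g hg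
  refine le_trans h1 ?_
  rw [Nat.card_pi]
  have h2 : ∀ v : {v : HeightOneSpectrum (𝓞 K) // v ∈ S},
      Nat.card (F v) ≤ 2 * Ideal.absNorm v.1.asIdeal ^ ord266 K v.1 :=
    fun v => card_sq_one_le266 v.1 n
  calc ∏ v : {v : HeightOneSpectrum (𝓞 K) // v ∈ S}, Nat.card (F v)
      ≤ ∏ v : {v : HeightOneSpectrum (𝓞 K) // v ∈ S},
          2 * Ideal.absNorm v.1.asIdeal ^ ord266 K v.1 :=
        Finset.prod_le_prod' (fun v _ => h2 v)
    _ = ∏ v ∈ S, 2 * Ideal.absNorm v.asIdeal ^ ord266 K v :=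
        Finset.prod_coe_sort S (fun v => 2 * Ideal.absNorm v.asIdeal ^ ord266 K v)
    _ = 2 ^ S.card * ∏ v ∈ S, Ideal.absNorm v.asIdeal ^ ord266 K v := by
        rw [Finset.prod_mul_distrib, Finset.prod_const]
    _ ≤ 2 ^ S.card * 2 ^ Module.finrank ℚ K :=
        Nat.mul_le_mul_left _ (prod_absNorm_pow_ord_le266 S)

/-- The index of the squares in `(𝓞/fS S n)ˣ`. -/
theorem index_sq_fS_le266 (S : Finset (HeightOneSpectrum (𝓞 K))) (n : ℕ) :
    (powMonoidHom 2 : (𝓞 K ⧸ EQ.fS S n)ˣ →* (𝓞 K ⧸ EQ.fS S n)ˣ).range.index ≤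
      2 ^ S.card * 2 ^ Module.finrank ℚ K := by
  rw [index_sq_eq_card266]
  exact card_sq_one_fS_le266 S n


/-! ## The class map -/

theorem isUnit_mk_of_primeTo266 (S : Finset (HeightOneSpectrum (𝓞 K))) (n : ℕ) (a : 𝓞 K)
    (ha : PrimeTo266 S a) : IsUnit (Ideal.Quotient.mk (EQ.fS S n) a) := by
  obtain ⟨d, hd⟩ := exists_inv_mod266 S n a ha
  refine IsUnit.of_mul_eq_one (Ideal.Quotient.mk (EQ.fS S n) d) ?_
  rw [← map_mul, ← map_one (Ideal.Quotient.mk (EQ.fS S n)), Ideal.Quotient.eq]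
  exact hd

/-- The unit of `𝓞/fS S n` attached to an integer prime to `S`. -/
noncomputable def unitOf266 (S : Finset (HeightOneSpectrum (𝓞 K))) (n : ℕ) (a : 𝓞 K)
    (ha : PrimeTo266 S a) : (𝓞 K ⧸ EQ.fS S n)ˣ :=
  (isUnit_mk_of_primeTo266 S n a ha).unit

theorem val_unitOf266 (S : Finset (HeightOneSpectrum (𝓞 K))) (n : ℕ) (a : 𝓞 K)
    (ha : PrimeTo266 S a) :
    ((unitOf266 S n a ha : (𝓞 K ⧸ EQ.fS S n)ˣ) : 𝓞 K ⧸ EQ.fS S n) =
      Ideal.Quotient.mk (EQ.fS S n) a := rfl

/-- Every unit of `𝓞/fS S n`, `n ≥ 1`, has a nonzero lift prime to `S`. -/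
theorem exists_lift_unit266 (S : Finset (HeightOneSpectrum (𝓞 K))) {n : ℕ} (hn : 1 ≤ n)
    (z : (𝓞 K ⧸ EQ.fS S n)ˣ) :
    ∃ c : 𝓞 K, c ≠ 0 ∧ PrimeTo266 S c ∧
      Ideal.Quotient.mk (EQ.fS S n) c = (z : 𝓞 K ⧸ EQ.fS S n) := by
  obtain ⟨c, hc⟩ := Ideal.Quotient.mk_surjective (z : 𝓞 K ⧸ EQ.fS S n)
  obtain ⟨c', hc'⟩ := Ideal.Quotient.mk_surjective ((z⁻¹ : (𝓞 K ⧸ EQ.fS S n)ˣ) :
    𝓞 K ⧸ EQ.fS S n)
  have hcc : c * c' - 1 ∈ EQ.fS S n := by
    rw [← Ideal.Quotient.eq, map_mul, map_one, hc, hc']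
    exact z.mul_inv
  by_cases h0 : c = 0
  · have h1 : (1 : 𝓞 K) ∈ EQ.fS S n := by
      rw [h0, zero_mul, zero_sub] at hcc
      simpa using Ideal.neg_mem_iff _ |>.mp hcc
    have htop : EQ.fS S n = ⊤ := (Ideal.eq_top_iff_one _).mpr h1
    refine ⟨1, one_ne_zero, primeTo_one266 S, ?_⟩
    rw [← hc, Ideal.Quotient.eq, htop]
    exact Submodule.mem_top
  · exact ⟨c, h0, primeTo_of_inv266 S hn hcc, hc⟩

/-- `q` is a class of `x` in `(𝓞/fS S n)ˣ / squares`. -/
def IsClass266 (S : Finset (HeightOneSpectrum (𝓞 K))) (n : ℕ) (x : Kˣ)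
    (q : (𝓞 K ⧸ EQ.fS S n)ˣ ⧸
      (powMonoidHom 2 : (𝓞 K ⧸ EQ.fS S n)ˣ →* (𝓞 K ⧸ EQ.fS S n)ˣ).range) : Prop :=
  ∃ (y : Kˣ) (a b : 𝓞 K) (_ : a ≠ 0) (_ : b ≠ 0) (ha : PrimeTo266 S a) (hb : PrimeTo266 S b),
    (x : K) * algebraMap (𝓞 K) K b = (y : K) ^ 2 * algebraMap (𝓞 K) K a ∧
    q = QuotientGroup.mk (unitOf266 S n a ha * (unitOf266 S n b hb)⁻¹)

theorem exists_isClass266 (S : Finset (HeightOneSpectrum (𝓞 K))) (n : ℕ) (x : Kˣ)
    (hx : x ∈ EQ.sqG K ⊔ EQ.unitAtG S) : ∃ q, IsClass266 S n x q := by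
  obtain ⟨y, a, b, ha0, hb0, ha, hb, hab⟩ := exists_decomp266 S x hx
  exact ⟨_, y, a, b, ha0, hb0, ha, hb, hab, rfl⟩

/-- Two elements with the same class differ by a square times an element of the ray. -/
theorem mem_of_isClass266 (S : Finset (HeightOneSpectrum (𝓞 K))) {n : ℕ} (hn : 1 ≤ n)
    (x x' : Kˣ) (q) (hq : IsClass266 S n x q) (hq' : IsClass266 S n x' q) :
    x⁻¹ * x' ∈ EQ.sqG K ⊔ EQ.rayG S n := by
  obtain ⟨y, a, b, ha0, hb0, ha, hb, hab, rfl⟩ := hq
  obtain ⟨y', a', b', ha0', hb0', ha', hb', hab', hqq⟩ := hq'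
  -- the square `z`
  have hz := QuotientGroup.eq.mp hqq
  obtain ⟨z, hz⟩ := hz
  obtain ⟨c, hc0, hc, hcz⟩ := exists_lift_unit266 S hn z
  -- the congruence `a' b ≡ a b' c²`
  have hunits : unitOf266 S n a' ha' * unitOf266 S n b hb =
      unitOf266 S n a ha * unitOf266 S n b' hb' * z ^ 2 := by
    have hz' : z ^ 2 = (unitOf266 S n a ha * (unitOf266 S n b hb)⁻¹)⁻¹ *
        (unitOf266 S n a' ha' * (unitOf266 S n b' hb')⁻¹) := hz
    rw [hz', mul_inv_rev, inv_inv]
    have hac : unitOf266 S n a ha * unitOf266 S n b' hb' *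
        (unitOf266 S n b hb * (unitOf266 S n a ha)⁻¹ *
          (unitOf266 S n a' ha' * (unitOf266 S n b' hb')⁻¹)) =
        (unitOf266 S n a ha * (unitOf266 S n a ha)⁻¹) *
          (unitOf266 S n b' hb' * (unitOf266 S n b' hb')⁻¹) *
          (unitOf266 S n a' ha' * unitOf266 S n b hb) := by ac_rfl
    rw [hac, mul_inv_cancel, mul_inv_cancel, one_mul, one_mul]
  have hcong : a' * b - a * b' * c ^ 2 ∈ EQ.fS S n := by
    rw [← Ideal.Quotient.eq]
    have := congrArg Units.val hunits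
    simp only [Units.val_mul, Units.val_pow_eq_pow_val, val_unitOf266] at this
    rw [map_mul, map_mul, map_mul, map_pow, hcz]
    exact this
  have hinj : Function.Injective (algebraMap (𝓞 K) K) := RingOfIntegers.coe_injective
  have hne : ∀ w : 𝓞 K, w ≠ 0 → algebraMap (𝓞 K) K w ≠ 0 := fun w hw h =>
    hw (hinj (by rw [h, map_zero]))
  have hp0 : a' * b ≠ 0 := mul_ne_zero ha0' hb0
  have hq0 : a * b' * c ^ 2 ≠ 0 := mul_ne_zero (mul_ne_zero ha0 hb0') (pow_ne_zero 2 hc0)
  have hqS : PrimeTo266 S (a * b' * c ^ 2) := by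
    rw [pow_two]
    exact primeTo_mul266 (primeTo_mul266 ha hb') (primeTo_mul266 hc hc)
  -- the ratio
  set r : Kˣ := Units.mk0 (algebraMap (𝓞 K) K (a' * b) / algebraMap (𝓞 K) K (a * b' * c ^ 2))
    (div_ne_zero (hne _ hp0) (hne _ hq0)) with hr
  have hrmem : r ∈ EQ.rayG S n := by
    refine ratio_mem_rayG266 S n (a' * b) (a * b' * c ^ 2) hp0 hq0 hqS hcong r ?_
    rw [hr, Units.val_mk0]
    exact div_mul_cancel₀ _ (hne _ hq0)
  set C : Kˣ := Units.mk0 (algebraMap (𝓞 K) K c) (hne _ hc0) with hC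
  have hsq : (powMonoidHom 2 : Kˣ →* Kˣ) (y' * C * y⁻¹) ∈ EQ.sqG K := ⟨_, rfl⟩
  have heq : x⁻¹ * x' = (powMonoidHom 2 : Kˣ →* Kˣ) (y' * C * y⁻¹) * r := by
    apply Units.ext
    have hb1 := hne b hb0
    have hb2 := hne b' hb0'
    have ha1 := hne a ha0
    have hc1 := hne c hc0
    have hx1 : (x : K) = (y : K) ^ 2 * algebraMap (𝓞 K) K a / algebraMap (𝓞 K) K b := by
      rw [eq_div_iff hb1]; exact hab
    have hx2 : (x' : K) = (y' : K) ^ 2 * algebraMap (𝓞 K) K a' / algebraMap (𝓞 K) K b' := by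
      rw [eq_div_iff hb2]; exact hab'
    have hy : (y : K) ≠ 0 := y.ne_zero
    simp only [Units.val_mul, Units.val_inv_eq_inv_val, powMonoidHom_apply,
      Units.val_pow_eq_pow_val, hr, hC, Units.val_mk0, map_mul, map_pow]
    rw [hx1, hx2]
    field_simp
  rw [heq]
  exact Subgroup.mul_mem _ (Subgroup.mem_sup_left hsq) (Subgroup.mem_sup_right hrmem)

end

/-- **E1.C.8 `UnitRedC`**, VERBATIM. -/
theorem unitRedC266 : EQ.UnitRedC := by
  classical
  intro K _ _ S n hn
  -- the class map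
  have hex : ∀ x : ↥(EQ.sqG K ⊔ EQ.unitAtG S), ∃ q, IsClass266 S n (x : Kˣ) q :=
    fun x => exists_isClass266 S n x.1 x.2
  choose f hf using hex
  have hfin : Finite (𝓞 K ⧸ EQ.fS S n) := finite_quot_fS266 S n
  have hsep : ∀ x x' : ↥(EQ.sqG K ⊔ EQ.unitAtG S), f x = f x' →
      x⁻¹ * x' ∈ (EQ.sqG K ⊔ EQ.rayG S n).subgroupOf (EQ.sqG K ⊔ EQ.unitAtG S) := by
    intro x x' h
    rw [Subgroup.mem_subgroupOf]
    have h1 := hf x
    have h2 := hf x'
    rw [← h] at h2
    exact mem_of_isClass266 S hn x.1 x'.1 (f x) h1 h2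
  have key := index_le_of_map266
    ((EQ.sqG K ⊔ EQ.rayG S n).subgroupOf (EQ.sqG K ⊔ EQ.unitAtG S)) f hsep
  refine ⟨key.1, le_trans key.2 ?_⟩
  rw [← Subgroup.index_eq_card]
  exact index_sq_fS_le266 S n

end Fermat.Agent.LT.CFT.H266

end
-- ===== PACK-END LT/CFT/H266/UnitRed.lean

-- ===== PACK-BEGIN LT/T6/H848/IwaC.lean
section




/-!
# Row LT, tower T6, sub-leaf T6.23.12 `H189.IwaOfCC` (helper848)

OFF-MAIN.  Imports: Mathlib and byte-identical copies of `LT/T6/H189/ArchIntSpec.lean`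
(sha256 4ac6c090), `ArchIntCut.lean` (db591abe), `HaarEmb.lean` (9413aded) of helper189.

`IwaOfCC : RightInvCC → IwaHomeoCC → U2CompactC → IwasawaCC`.

Route (header of `ArchIntCut.lean`): the group `H = ℝ × ℝ × ℂ × U(2)` with the law
`(v₁, v₂, y, k₀) (u₁, u₂, x, k) = (v₁ + u₁, v₂ + u₂, x + e^{u₂ - u₁} y, k₀ k)`;
`Ψ (u₁, u₂, x, k) = diag(e^{u₁}, e^{u₂}) n(x) k⁻¹` is an open embedding onto `GL₂(ℂ)` with
`Ψ (h₀ h) = ι(b₀) Ψ(h) k₀⁻¹`; the product measure `du₁ du₂ dx dκ` is a Haar measure of `H`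
(skew products); the generic lemma of helper189; `κ` is inversion invariant.
-/

set_option autoImplicit false
set_option linter.style.haveILetI false

open MeasureTheory
open scoped Matrix ENNReal

noncomputable section

namespace Fermat.Agent.LT.T6.H848

open Fermat.Agent.LT.T6.H189

/-- The Borel σ-algebra of `GL₂(ℂ)` (local instance of this file). -/
local instance borelGL848 : MeasurableSpace (GL (Fin 2) ℂ) := borel _

local instance borelSpaceGL848 : BorelSpace (GL (Fin 2) ℂ) := ⟨rfl⟩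

/-! ## 1. Topology of `GL₂(ℂ)` -/

theorem sc_matrix848 : SecondCountableTopology (Matrix (Fin 2) (Fin 2) ℂ) :=
  inferInstanceAs (SecondCountableTopology (Fin 2 → Fin 2 → ℂ))

theorem sc_GL848 : SecondCountableTopology (GL (Fin 2) ℂ) := by
  haveI := sc_matrix848
  haveI : SecondCountableTopology (Matrix (Fin 2) (Fin 2) ℂ)ᵐᵒᵖ :=
    MulOpposite.opHomeomorph.symm.secondCountableTopology
  exact (Units.isEmbedding_embedProduct (M := Matrix (Fin 2) (Fin 2) ℂ)).secondCountableTopology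

local instance instSC848 : SecondCountableTopology (GL (Fin 2) ℂ) := sc_GL848

local instance instSCU848 : SecondCountableTopology U2sub :=
  inferInstanceAs (SecondCountableTopology (U2sub : Set (GL (Fin 2) ℂ)))

/-! ## 2. The group `H` -/

/-- `H = ℝ × ℝ × ℂ × U(2)` with the skew group law. -/
def HGrp848 : Type := ℝ × ℝ × ℂ × U2sub

namespace HGrp848

instance : TopologicalSpace HGrp848 := inferInstanceAs (TopologicalSpace (ℝ × ℝ × ℂ × U2sub))

instance : MeasurableSpace HGrp848 := inferInstanceAs (MeasurableSpace (ℝ × ℝ × ℂ × U2sub))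

instance : BorelSpace HGrp848 := inferInstanceAs (BorelSpace (ℝ × ℝ × ℂ × U2sub))

instance : SecondCountableTopology HGrp848 :=
  inferInstanceAs (SecondCountableTopology (ℝ × ℝ × ℂ × U2sub))

/-- The product. -/
def mul (a b : HGrp848) : HGrp848 :=
  ((a.1 + b.1, a.2.1 + b.2.1, b.2.2.1 + ((Real.exp (b.2.1 - b.1) : ℝ) : ℂ) * a.2.2.1,
    a.2.2.2 * b.2.2.2) : ℝ × ℝ × ℂ × U2sub)

/-- The inverse. -/
def inv (a : HGrp848) : HGrp848 :=
  ((-a.1, -a.2.1, -(((Real.exp (a.1 - a.2.1) : ℝ) : ℂ) * a.2.2.1), a.2.2.2⁻¹) :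
    ℝ × ℝ × ℂ × U2sub)

/-- The unit. -/
def one : HGrp848 := ((0, 0, 0, 1) : ℝ × ℝ × ℂ × U2sub)

instance : Group HGrp848 where
  mul := mul
  one := one
  inv := inv
  mul_assoc a b c := by
    refine Prod.ext (add_assoc _ _ _) (Prod.ext (add_assoc _ _ _) (Prod.ext ?_ (mul_assoc _ _ _)))
    show c.2.2.1 + ((Real.exp (c.2.1 - c.1) : ℝ) : ℂ)
          * (b.2.2.1 + ((Real.exp (b.2.1 - b.1) : ℝ) : ℂ) * a.2.2.1)
        = c.2.2.1 + ((Real.exp (c.2.1 - c.1) : ℝ) : ℂ) * b.2.2.1
          + ((Real.exp (b.2.1 + c.2.1 - (b.1 + c.1)) : ℝ) : ℂ) * a.2.2.1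
    have h : b.2.1 + c.2.1 - (b.1 + c.1) = (c.2.1 - c.1) + (b.2.1 - b.1) := by ring
    rw [h, Real.exp_add]
    push_cast
    ring
  one_mul a := by
    refine Prod.ext (zero_add _) (Prod.ext (zero_add _) (Prod.ext ?_ (one_mul _)))
    show a.2.2.1 + ((Real.exp (a.2.1 - a.1) : ℝ) : ℂ) * 0 = a.2.2.1
    simp
  mul_one a := by
    refine Prod.ext (add_zero _) (Prod.ext (add_zero _) (Prod.ext ?_ (mul_one _)))
    show (0 : ℂ) + ((Real.exp ((0 : ℝ) - 0) : ℝ) : ℂ) * a.2.2.1 = a.2.2.1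
    simp
  inv_mul_cancel a := by
    refine Prod.ext (neg_add_cancel _) (Prod.ext (neg_add_cancel _)
      (Prod.ext ?_ (inv_mul_cancel _)))
    show a.2.2.1 + ((Real.exp (a.2.1 - a.1) : ℝ) : ℂ)
        * (-(((Real.exp (a.1 - a.2.1) : ℝ) : ℂ) * a.2.2.1)) = 0
    have h : Real.exp (a.2.1 - a.1) * Real.exp (a.1 - a.2.1) = 1 := by
      rw [← Real.exp_add]
      simp
    have h' : ((Real.exp (a.2.1 - a.1) : ℝ) : ℂ) * ((Real.exp (a.1 - a.2.1) : ℝ) : ℂ) = 1 := by
      exact_mod_cast h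
    linear_combination (-a.2.2.1) * h'

theorem mul_def (a b : HGrp848) : a * b = mul a b := rfl

theorem inv_def (a : HGrp848) : a⁻¹ = inv a := rfl

instance : IsTopologicalGroup HGrp848 where
  continuous_mul := by
    show Continuous fun p : (ℝ × ℝ × ℂ × U2sub) × (ℝ × ℝ × ℂ × U2sub) =>
      ((p.1.1 + p.2.1, p.1.2.1 + p.2.2.1,
        p.2.2.2.1 + ((Real.exp (p.2.2.1 - p.2.1) : ℝ) : ℂ) * p.1.2.2.1,
        p.1.2.2.2 * p.2.2.2.2) : ℝ × ℝ × ℂ × U2sub)
    fun_prop
  continuous_inv := by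
    show Continuous fun a : ℝ × ℝ × ℂ × U2sub =>
      ((-a.1, -a.2.1, -(((Real.exp (a.1 - a.2.1) : ℝ) : ℂ) * a.2.2.1), a.2.2.2⁻¹) :
        ℝ × ℝ × ℂ × U2sub)
    fun_prop

end HGrp848


/-! ## 3. Matrix identities -/

theorem dgC_coe848 (u₁ u₂ : ℝ) :
    ((dgC u₁ u₂ : GL (Fin 2) ℂ) : Matrix (Fin 2) (Fin 2) ℂ)
      = !![(Real.exp u₁ : ℂ), 0; 0, (Real.exp u₂ : ℂ)] := rfl

theorem unC_coe848 (w : ℂ) :
    ((unC w : GL (Fin 2) ℂ) : Matrix (Fin 2) (Fin 2) ℂ) = !![1, w; 0, 1] := rfl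

/-- The multiplicativity of `ι (u₁, u₂, x) = diag(e^{u₁}, e^{u₂}) n(x)` for the skew law. -/
theorem iota_mul848 (v₁ v₂ u₁ u₂ : ℝ) (y x : ℂ) :
    dgC (v₁ + u₁) (v₂ + u₂) * unC (x + ((Real.exp (u₂ - u₁) : ℝ) : ℂ) * y)
      = dgC v₁ v₂ * unC y * (dgC u₁ u₂ * unC x) := by
  apply Units.ext
  simp only [Units.val_mul, dgC_coe848, unC_coe848]
  have e1 : ((Real.exp (v₁ + u₁) : ℝ) : ℂ) = (Real.exp v₁ : ℂ) * (Real.exp u₁ : ℂ) := by
    rw [Real.exp_add]; push_cast; rfl
  have e2 : ((Real.exp (v₂ + u₂) : ℝ) : ℂ) = (Real.exp v₂ : ℂ) * (Real.exp u₂ : ℂ) := by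
    rw [Real.exp_add]; push_cast; rfl
  have e3 : (Real.exp u₁ : ℂ) * ((Real.exp (u₂ - u₁) : ℝ) : ℂ) = (Real.exp u₂ : ℂ) := by
    have : Real.exp u₁ * Real.exp (u₂ - u₁) = Real.exp u₂ := by
      rw [← Real.exp_add]; congr 1; ring
    exact_mod_cast this
  ext i j
  fin_cases i <;> fin_cases j
  · simp [Matrix.mul_apply, Fin.sum_univ_two, e1]
  · simp only [Matrix.mul_apply, Fin.sum_univ_two]
    simp only [Fin.zero_eta, Fin.isValue, Matrix.of_apply, Matrix.cons_val', Matrix.cons_val_zero,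
      Matrix.cons_val_fin_one, Matrix.cons_val_one, Fin.mk_one, mul_one, mul_zero, add_zero,
      e1]
    linear_combination ((Real.exp v₁ : ℂ) * y) * e3
  · simp [Matrix.mul_apply, Fin.sum_univ_two]
  · simp [Matrix.mul_apply, Fin.sum_univ_two, e2]

/-! ## 4. The map `Ψ` -/

/-- The homeomorphism `(u₁, u₂, x, k) ↦ (u₁, u₂, x, k⁻¹)`. -/
def sigma848 : HGrp848 ≃ₜ (ℝ × ℝ × ℂ × U2sub) :=
  (Homeomorph.refl ℝ).prodCongr ((Homeomorph.refl ℝ).prodCongr
    ((Homeomorph.refl ℂ).prodCongr (Homeomorph.inv U2sub)))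

/-- `Ψ (u₁, u₂, x, k) = diag(e^{u₁}, e^{u₂}) n(x) k⁻¹`. -/
def Psi848 (h : HGrp848) : GL (Fin 2) ℂ := jC (sigma848 h)

theorem Psi848_apply (h : HGrp848) :
    Psi848 h = dgC h.1 h.2.1 * unC h.2.2.1 * ((h.2.2.2 : U2sub) : GL (Fin 2) ℂ)⁻¹ := rfl

theorem isOpenEmbedding_Psi848 (hJ : IwaHomeoCC) : Topology.IsOpenEmbedding Psi848 :=
  hJ.1.comp sigma848.isOpenEmbedding

theorem surjective_Psi848 (hJ : IwaHomeoCC) : Function.Surjective Psi848 :=
  hJ.2.comp sigma848.surjective

/-- The equivariance of `Ψ`. -/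
theorem Psi848_mul (h₀ h : HGrp848) :
    Psi848 (h₀ * h)
      = dgC h₀.1 h₀.2.1 * unC h₀.2.2.1 * Psi848 h * ((h₀.2.2.2 : U2sub) : GL (Fin 2) ℂ)⁻¹ := by
  rw [Psi848_apply, Psi848_apply]
  have h1 : (h₀ * h).1 = h₀.1 + h.1 := rfl
  have h2 : (h₀ * h).2.1 = h₀.2.1 + h.2.1 := rfl
  have h3 : (h₀ * h).2.2.1 = h.2.2.1 + ((Real.exp (h.2.1 - h.1) : ℝ) : ℂ) * h₀.2.2.1 := rfl
  have h4 : (h₀ * h).2.2.2 = h₀.2.2.2 * h.2.2.2 := rfl
  rw [h1, h2, h3, h4, iota_mul848, Subgroup.coe_mul, mul_inv_rev]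
  simp only [mul_assoc]


/-! ## 5. The Haar probability measure of `U(2)` -/

theorem isClosed_U2_848 : IsClosed (U2sub : Set (GL (Fin 2) ℂ)) := by
  have h : (U2sub : Set (GL (Fin 2) ℂ)) = {k : GL (Fin 2) ℂ | (k : Matrix (Fin 2) (Fin 2) ℂ)
      * (k : Matrix (Fin 2) (Fin 2) ℂ).conjTranspose = 1} := rfl
  rw [h]
  have hc : Continuous fun k : GL (Fin 2) ℂ => (k : Matrix (Fin 2) (Fin 2) ℂ) :=
    Units.continuous_val
  exact isClosed_eq (hc.mul hc.matrix_conjTranspose) continuous_const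

theorem measurableEmbedding_val848 :
    MeasurableEmbedding (Subtype.val : U2sub → GL (Fin 2) ℂ) :=
  MeasurableEmbedding.subtype_coe isClosed_U2_848.measurableSet

theorem range_val848 : Set.range (Subtype.val : U2sub → GL (Fin 2) ℂ) = U2 :=
  Subtype.range_coe

/-- The measure `κ` on `U(2)`. -/
def kappaK848 (κ : Measure (GL (Fin 2) ℂ)) : Measure U2sub :=
  κ.comap (Subtype.val : U2sub → GL (Fin 2) ℂ)

theorem map_val_kappaK848 {κ : Measure (GL (Fin 2) ℂ)} (hκ : IsU2Haar κ) :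
    Measure.map (Subtype.val : U2sub → GL (Fin 2) ℂ) (kappaK848 κ) = κ := by
  unfold kappaK848
  rw [measurableEmbedding_val848.map_comap, range_val848]
  apply Measure.restrict_eq_self_of_ae_mem
  rw [ae_iff]
  exact hκ.supp

theorem kappaK848_univ {κ : Measure (GL (Fin 2) ℂ)} (hκ : IsU2Haar κ) :
    kappaK848 κ Set.univ = 1 := by
  have h : Measure.map (Subtype.val : U2sub → GL (Fin 2) ℂ) (kappaK848 κ) Set.univ
      = κ Set.univ := by rw [map_val_kappaK848 hκ]
  rw [Measure.map_apply measurableEmbedding_val848.measurable MeasurableSet.univ,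
    Set.preimage_univ, hκ.prob] at h
  exact h

theorem isMulLeftInvariant_kappaK848 {κ : Measure (GL (Fin 2) ℂ)} (hκ : IsU2Haar κ) :
    (kappaK848 κ).IsMulLeftInvariant := by
  refine ⟨fun k₀ => ?_⟩
  have hme := measurableEmbedding_val848
  have hinj : ∀ m₁ m₂ : Measure U2sub,
      Measure.map (Subtype.val : U2sub → GL (Fin 2) ℂ) m₁
        = Measure.map (Subtype.val : U2sub → GL (Fin 2) ℂ) m₂ → m₁ = m₂ := by
    intro m₁ m₂ h
    rw [← hme.comap_map m₁, ← hme.comap_map m₂, h]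
  apply hinj
  rw [Measure.map_map hme.measurable (measurable_const_mul k₀)]
  have hcomp : (Subtype.val : U2sub → GL (Fin 2) ℂ) ∘ (fun k => k₀ * k)
      = (fun g : GL (Fin 2) ℂ => (k₀ : GL (Fin 2) ℂ) * g) ∘ Subtype.val := by
    funext k
    rfl
  rw [hcomp, ← Measure.map_map (measurable_const_mul _) hme.measurable, map_val_kappaK848 hκ]
  exact hκ.left _ k₀.2

theorem isHaarMeasure_kappaK848 [CompactSpace U2sub] {κ : Measure (GL (Fin 2) ℂ)}
    (hκ : IsU2Haar κ) : (kappaK848 κ).IsHaarMeasure := by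
  haveI := isMulLeftInvariant_kappaK848 hκ
  refine Measure.isHaarMeasure_of_isCompact_nonempty_interior (kappaK848 κ) Set.univ
    isCompact_univ ?_ ?_ ?_
  · rw [interior_univ]
    exact Set.univ_nonempty
  · rw [kappaK848_univ hκ]
    exact one_ne_zero
  · rw [kappaK848_univ hκ]
    exact ENNReal.one_ne_top

theorem isFiniteMeasure_kappaK848 {κ : Measure (GL (Fin 2) ℂ)} (hκ : IsU2Haar κ) :
    IsFiniteMeasure (kappaK848 κ) :=
  ⟨by rw [kappaK848_univ hκ]; exact ENNReal.one_lt_top⟩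

/-- The image of `κ_K` under `k ↦ k⁻¹` (in `GL₂(ℂ)`) is `κ`. -/
theorem map_inv_kappaK848 {κ : Measure (GL (Fin 2) ℂ)} (hκ : IsU2Haar κ) :
    Measure.map (fun k : U2sub => ((k : GL (Fin 2) ℂ))⁻¹) (kappaK848 κ) = κ := by
  have hcomp : (fun k : U2sub => ((k : GL (Fin 2) ℂ))⁻¹)
      = (fun g : GL (Fin 2) ℂ => g⁻¹) ∘ Subtype.val := rfl
  rw [hcomp, ← Measure.map_map measurable_inv measurableEmbedding_val848.measurable,
    map_val_kappaK848 hκ]
  exact hκ.inv


/-! ## 6. The Haar measure of `H` -/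

/-- The product measure `du₁ du₂ dx dκ` on `H`. -/
def eta848 (κK : Measure U2sub) : Measure HGrp848 :=
  ((volume : Measure ℝ).prod ((volume : Measure ℝ).prod ((volume : Measure ℂ).prod κK)) :
    Measure (ℝ × ℝ × ℂ × U2sub))

theorem map_mul_left_eta848 (κK : Measure U2sub) [κK.IsMulLeftInvariant] [SFinite κK]
    (a : HGrp848) : Measure.map (fun h : HGrp848 => a * h) (eta848 κK) = eta848 κK := by
  have h3 : ∀ c : ℂ, MeasurePreserving (fun q : ℂ × U2sub => (q.1 + c, a.2.2.2 * q.2))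
      ((volume : Measure ℂ).prod κK) ((volume : Measure ℂ).prod κK) := fun c =>
    (measurePreserving_add_right (volume : Measure ℂ) c).prod
      (measurePreserving_mul_left κK a.2.2.2)
  have h2 : ∀ u₁ : ℝ, MeasurePreserving
      (fun q : ℝ × ℂ × U2sub => ((a.2.1 + q.1,
        q.2.1 + ((Real.exp (q.1 - u₁) : ℝ) : ℂ) * a.2.2.1, a.2.2.2 * q.2.2) : ℝ × ℂ × U2sub))
      ((volume : Measure ℝ).prod ((volume : Measure ℂ).prod κK))
      ((volume : Measure ℝ).prod ((volume : Measure ℂ).prod κK)) := by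
    intro u₁
    have hgm : Measurable (Function.uncurry fun (u₂ : ℝ) (q : ℂ × U2sub) =>
        ((q.1 + ((Real.exp (u₂ - u₁) : ℝ) : ℂ) * a.2.2.1, a.2.2.2 * q.2) : ℂ × U2sub)) := by
      have hc : Continuous (Function.uncurry fun (u₂ : ℝ) (q : ℂ × U2sub) =>
          ((q.1 + ((Real.exp (u₂ - u₁) : ℝ) : ℂ) * a.2.2.1, a.2.2.2 * q.2) : ℂ × U2sub)) := by
        unfold Function.uncurry
        fun_prop
      exact hc.measurable
    exact MeasurePreserving.skew_product (f := fun u₂ : ℝ => a.2.1 + u₂)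
      (measurePreserving_add_left (volume : Measure ℝ) a.2.1) hgm
      (Filter.Eventually.of_forall fun u₂ => (h3 _).map_eq)
  have h1 : MeasurePreserving
      (fun p : ℝ × ℝ × ℂ × U2sub => ((a.1 + p.1, a.2.1 + p.2.1,
        p.2.2.1 + ((Real.exp (p.2.1 - p.1) : ℝ) : ℂ) * a.2.2.1, a.2.2.2 * p.2.2.2) :
          ℝ × ℝ × ℂ × U2sub))
      ((volume : Measure ℝ).prod ((volume : Measure ℝ).prod ((volume : Measure ℂ).prod κK)))
      ((volume : Measure ℝ).prod ((volume : Measure ℝ).prod ((volume : Measure ℂ).prod κK))) := by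
    have hgm : Measurable (Function.uncurry fun (u₁ : ℝ) (q : ℝ × ℂ × U2sub) =>
        ((a.2.1 + q.1, q.2.1 + ((Real.exp (q.1 - u₁) : ℝ) : ℂ) * a.2.2.1, a.2.2.2 * q.2.2) :
          ℝ × ℂ × U2sub)) := by
      have hc : Continuous (Function.uncurry fun (u₁ : ℝ) (q : ℝ × ℂ × U2sub) =>
          ((a.2.1 + q.1, q.2.1 + ((Real.exp (q.1 - u₁) : ℝ) : ℂ) * a.2.2.1, a.2.2.2 * q.2.2) :
            ℝ × ℂ × U2sub)) := by
        unfold Function.uncurry
        fun_prop
      exact hc.measurable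
    exact MeasurePreserving.skew_product (f := fun u₁ : ℝ => a.1 + u₁)
      (measurePreserving_add_left (volume : Measure ℝ) a.1) hgm
      (Filter.Eventually.of_forall fun u₁ => (h2 u₁).map_eq)
  exact h1.map_eq

theorem isHaarMeasure_eta848 (κK : Measure U2sub) [κK.IsHaarMeasure] [IsFiniteMeasure κK] :
    (eta848 κK).IsHaarMeasure := by
  haveI : IsFiniteMeasureOnCompacts (eta848 κK) :=
    inferInstanceAs (IsFiniteMeasureOnCompacts
      ((volume : Measure ℝ).prod ((volume : Measure ℝ).prod ((volume : Measure ℂ).prod κK))))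
  haveI : (eta848 κK).IsOpenPosMeasure :=
    inferInstanceAs (Measure.IsOpenPosMeasure
      ((volume : Measure ℝ).prod ((volume : Measure ℝ).prod ((volume : Measure ℂ).prod κK))))
  haveI : (eta848 κK).IsMulLeftInvariant := ⟨fun a => map_mul_left_eta848 κK a⟩
  exact { }

/-! ## 7. The image measure -/

theorem continuous_iota848 (hJ : IwaHomeoCC) :
    Continuous fun q : ℝ × ℝ × ℂ => dgC q.1 q.2.1 * unC q.2.2 := by
  have h1 : Continuous fun q : ℝ × ℝ × ℂ => ((q.1, q.2.1, q.2.2, 1) : ℝ × ℝ × ℂ × U2sub) := by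
    fun_prop
  have h2 := hJ.1.continuous.comp h1
  have h3 : (jC ∘ fun q : ℝ × ℝ × ℂ => ((q.1, q.2.1, q.2.2, 1) : ℝ × ℝ × ℂ × U2sub))
      = fun q : ℝ × ℝ × ℂ => dgC q.1 q.2.1 * unC q.2.2 := by
    funext q
    show dgC q.1 q.2.1 * unC q.2.2 * ((1 : U2sub) : GL (Fin 2) ℂ) = dgC q.1 q.2.1 * unC q.2.2
    rw [Subgroup.coe_one, mul_one]
  rwa [h3] at h2

theorem continuous_iwaC848 (hJ : IwaHomeoCC) : Continuous iwaC := by
  have h1 : Continuous fun p : ℝ × ℝ × ℂ × GL (Fin 2) ℂ =>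
      ((p.1, p.2.1, p.2.2.1) : ℝ × ℝ × ℂ) := by fun_prop
  have h2 : Continuous fun p : ℝ × ℝ × ℂ × GL (Fin 2) ℂ => p.2.2.2 := by fun_prop
  exact ((continuous_iota848 hJ).comp h1).mul h2

/-- `(u₁, u₂, x, k) ↦ (u₁, u₂, x, k⁻¹)` with values in `ℝ × ℝ × ℂ × GL₂(ℂ)`. -/
def tau848 : HGrp848 → ℝ × ℝ × ℂ × GL (Fin 2) ℂ :=
  Prod.map id (Prod.map id (Prod.map id fun k : U2sub => ((k : GL (Fin 2) ℂ))⁻¹))

theorem measurable_tauK848 : Measurable fun k : U2sub => ((k : GL (Fin 2) ℂ))⁻¹ :=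
  measurable_inv.comp measurableEmbedding_val848.measurable

theorem measurable_tau848 : Measurable tau848 :=
  measurable_id.prodMap (measurable_id.prodMap (measurable_id.prodMap measurable_tauK848))

theorem map_tau_aux848 {κ : Measure (GL (Fin 2) ℂ)} (hκ : IsU2Haar κ) :
    Measure.map
      (Prod.map id (Prod.map id (Prod.map id fun k : U2sub => ((k : GL (Fin 2) ℂ))⁻¹)) :
        ℝ × ℝ × ℂ × U2sub → ℝ × ℝ × ℂ × GL (Fin 2) ℂ)
      ((volume : Measure ℝ).prod ((volume : Measure ℝ).prod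
        ((volume : Measure ℂ).prod (kappaK848 κ))))
    = (volume : Measure ℝ).prod ((volume : Measure ℝ).prod ((volume : Measure ℂ).prod κ)) := by
  haveI := isFiniteMeasure_kappaK848 hκ
  rw [← Measure.map_prod_map _ _ measurable_id
      (measurable_id.prodMap (measurable_id.prodMap measurable_tauK848)),
    ← Measure.map_prod_map _ _ measurable_id (measurable_id.prodMap measurable_tauK848),
    ← Measure.map_prod_map _ _ measurable_id measurable_tauK848,
    Measure.map_id, Measure.map_id, map_inv_kappaK848 hκ]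

theorem map_tau848 {κ : Measure (GL (Fin 2) ℂ)} (hκ : IsU2Haar κ) :
    Measure.map tau848 (eta848 (kappaK848 κ)) = iwaMC κ :=
  map_tau_aux848 hκ

theorem map_Psi848 (hJ : IwaHomeoCC) {κ : Measure (GL (Fin 2) ℂ)} (hκ : IsU2Haar κ) :
    Measure.map Psi848 (eta848 (kappaK848 κ)) = Measure.map iwaC (iwaMC κ) := by
  have h : Psi848 = iwaC ∘ tau848 := rfl
  rw [h, ← Measure.map_map (continuous_iwaC848 hJ).measurable measurable_tau848, map_tau848 hκ]

/-! ## 8. The leaf -/

/-- **T6.23.12** -/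
theorem iwaOfCC848 : IwaOfCC := by
  intro hR hJ hU κ hκ μ hμ
  haveI : CompactSpace U2sub := hU
  haveI : μ.IsHaarMeasure := hμ
  haveI := isHaarMeasure_kappaK848 hκ
  haveI := isFiniteMeasure_kappaK848 hκ
  haveI : LocallyCompactSpace HGrp848 :=
    inferInstanceAs (LocallyCompactSpace (ℝ × ℝ × ℂ × U2sub))
  haveI := isHaarMeasure_eta848 (kappaK848 κ)
  obtain ⟨c, hc0, hctop, hc⟩ := haar_restrict_range_eq_smul_map189 μ (eta848 (kappaK848 κ))
    Psi848 (isOpenEmbedding_Psi848 hJ) (fun h₀ =>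
      ⟨dgC h₀.1 h₀.2.1 * unC h₀.2.2.1, ((h₀.2.2.2 : U2sub) : GL (Fin 2) ℂ)⁻¹,
        fun h => Psi848_mul h₀ h, (hR μ hμ).1 _⟩)
  refine ⟨c, hc0, hctop, ?_⟩
  rw [(surjective_Psi848 hJ).range_eq, Measure.restrict_univ, map_Psi848 hJ hκ] at hc
  exact hc

example : IwaOfCC := iwaOfCC848

end Fermat.Agent.LT.T6.H848

end

end
-- ===== PACK-END LT/T6/H848/IwaC.lean

-- ===== PACK-BEGIN LT/T2/H879/S2RotT.lean
section


/-!
# Row LT, tower T2, sub-leaf T2.27.31 `SubS2RotT291` (helper879): the core, OFF-MAIN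

The `T`-form of T2.07.31: invariance of `sin β dβ dα` under the rotations `k₀ ∈ SU(2)` for a
function `ψ` which is right invariant under the diagonal torus `{rotZ γ}` ONLY.

Imports: the core of T2.07.31 by helper197 (byte-identical copies of `LT/T2/H197/S2Core.lean`,
`LT/T2/H197/S2Rot.lean`, helper197@95fdc5e47): `euler_eq_plane197` (Euler angles = affine
coordinate of the Riemann sphere), `moebius197` (Möbius invariance of `4 dA / (1 + |z|²)²`),
`euler_factor197`, `coset_factor_aux197`.  New here: for `k₀ ∈ SU(2)` the diagonal factor of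
`coset_factor_aux197` is `rotZ γ` (`coset_factorT879`).
-/

set_option autoImplicit false

open MeasureTheory Complex Set
open Fermat.Agent.LT.H556.A0
open Fermat.Agent.LT.T2.H197
open scoped ComplexConjugate Matrix

noncomputable section

namespace Fermat.Agent.LT.T2.H879

theorem torus_zero879 : torus 0 = 1 := by
  rw [torus, Matrix.one_fin_two]
  refine mat_ext197 ?_ rfl rfl ?_ <;> simp

theorem mz_zero879 (z : ℂ) : mz197 0 z = nz197 z := by
  rw [← nz_mul_torus197, torus_zero879, Matrix.mul_one]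

/-- Every complex number of modulus one is `exp (i γ / 2)`. -/
theorem exists_rotZ879 (u : ℂ) (hu : u * conj u = 1) :
    ∃ γ : ℝ, (!![u, 0; 0, conj u] : Matrix (Fin 2) (Fin 2) ℂ) = rotZ γ := by
  have hn : ‖u‖ = 1 := by
    have h1 : Complex.normSq u = 1 := by
      apply Complex.ofReal_injective
      rw [← Complex.mul_conj]
      exact_mod_cast hu
    rw [Complex.normSq_eq_norm_sq] at h1
    have h0 : (0 : ℝ) ≤ ‖u‖ := norm_nonneg u
    nlinarith
  have hexp : Complex.exp (Complex.I * (((2 * Complex.arg u) / 2 : ℝ) : ℂ)) = u := by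
    have h := Complex.norm_mul_exp_arg_mul_I u
    rw [hn, Complex.ofReal_one, one_mul] at h
    have h2 : Complex.I * (((2 * Complex.arg u) / 2 : ℝ) : ℂ) = (Complex.arg u : ℂ) * Complex.I := by
      push_cast
      ring
    rw [h2]
    exact h
  refine ⟨2 * Complex.arg u, ?_⟩
  rw [rotZ]
  refine mat_ext197 hexp.symm rfl rfl ?_
  have hc : conj (Complex.exp (Complex.I * (((2 * Complex.arg u) / 2 : ℝ) : ℂ)))
      = Complex.exp (-(Complex.I * (((2 * Complex.arg u) / 2 : ℝ) : ℂ))) := by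
    rw [← Complex.exp_conj]
    congr 1
    simp only [map_mul, Complex.conj_I, Complex.conj_ofReal]
    ring
  rw [← hc, hexp]

/-- The coset factorisation for `k ∈ SU(2)`: the diagonal factor lies in the torus `{rotZ γ}`. -/
theorem coset_factorT879 (k : Matrix (Fin 2) (Fin 2) ℂ) (hk : k * k.conjTranspose = 1)
    (hdet : k.det = 1) (z : ℂ) (hu : k 0 0 + k 0 1 * z ≠ 0) :
    ∃ γ : ℝ, k * mz197 0 z
      = mz197 0 ((k 1 0 + k 1 1 * z) / (k 0 0 + k 0 1 * z)) * rotZ γ := by
  obtain ⟨h1, h2, h3, h4⟩ := unitary_adj197 k hk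
  have hcw := cz_moebius197 k hk z hu
  have haux := coset_factor_aux197 0 (k 0 0) (k 0 1) (k 1 0) (k 1 1) z h1 h2 h3 h4 hu hcw
  rw [← Matrix.eta_fin_two k] at haux
  have hd : k 0 0 * k 1 1 - k 0 1 * k 1 0 = 1 := by
    rw [← hdet, Matrix.det_fin_two]
  have hx := unit_aux197 _ hu
  obtain ⟨γ, hγ⟩ := exists_rotZ879 _ hx
  refine ⟨γ, ?_⟩
  rw [haux, ← hγ]
  congr 1
  refine mat_ext197 rfl rfl rfl ?_
  rw [hd, one_mul]
  simp only [map_mul, map_add, Complex.conj_ofReal]

theorem boundedT879 (ψ : Matrix (Fin 2) (Fin 2) ℂ → ℂ) (hψ : ContinuousOn ψ {m | m.det ≠ 0}) :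
    ∃ C : ℝ, ∀ u : Matrix (Fin 2) (Fin 2) ℂ, u * u.conjTranspose = 1 → ‖ψ u‖ ≤ C := by
  obtain ⟨C, hC⟩ := bounded_aux197 ψ hψ 0
  refine ⟨C, fun u hu => ?_⟩
  have := hC u hu
  rwa [torus_zero879, Matrix.mul_one] at this

/-- The Euler-angle integral of a right `T`-invariant function, in the affine coordinate. -/
theorem euler_to_planeT879 (ψ : Matrix (Fin 2) (Fin 2) ℂ → ℂ)
    (hψ : ContinuousOn ψ {m | m.det ≠ 0})
    (hinv : ∀ (m : Matrix (Fin 2) (Fin 2) ℂ) (γ : ℝ), ψ (m * rotZ γ) = ψ m)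
    (k₀ : Matrix (Fin 2) (Fin 2) ℂ) (hk₀ : k₀ * k₀.conjTranspose = 1) :
    (∫ α in (0 : ℝ)..(2 * Real.pi), ∫ β in (0 : ℝ)..Real.pi,
        ψ (k₀ * (rotZ α * rotY β)) * ((Real.sin β : ℝ) : ℂ))
      = ∫ z, ψ (k₀ * mz197 0 z) * (rho197 z : ℂ) := by
  have hFc : Continuous fun z : ℂ => ψ (k₀ * mz197 0 z) := by
    refine hψ.comp_continuous (continuous_const.matrix_mul (continuous_mz197 0)) fun z => ?_
    show (k₀ * mz197 0 z).det ≠ 0
    rw [Matrix.det_mul, det_mz197, mul_one]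
    exact det_ne_zero_of_unitary197 k₀ hk₀
  obtain ⟨C, hC⟩ := boundedT879 ψ hψ
  have hFb : ∀ z : ℂ, ‖ψ (k₀ * mz197 0 z)‖ ≤ C := by
    intro z
    have := hC (k₀ * nz197 z) (unitary_mul197 k₀ (nz197 z) hk₀ (nz_unitary197 z))
    rwa [← mz_zero879] at this
  rw [← euler_eq_plane197 (fun z : ℂ => ψ (k₀ * mz197 0 z)) hFc C hFb]
  refine intervalIntegral.integral_congr fun α _ => ?_
  refine intervalIntegral.integral_congr fun β hβ => ?_
  rw [Set.uIcc_of_le Real.pi_pos.le] at hβ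
  show ψ (k₀ * (rotZ α * rotY β)) * ((Real.sin β : ℝ) : ℂ)
    = ψ (k₀ * mz197 0 (Complex.exp (-(Complex.I * (α : ℂ))) * ((Real.tan (β / 2) : ℝ) : ℂ)))
      * ((Real.sin β : ℝ) : ℂ)
  rcases eq_or_lt_of_le hβ.2 with h | h
  · rw [h, Real.sin_pi, Complex.ofReal_zero, mul_zero, mul_zero]
  · have hcos : 0 < Real.cos (β / 2) :=
      Real.cos_pos_of_mem_Ioo ⟨by linarith [hβ.1, Real.pi_pos], by linarith⟩
    have he := euler_factor197 0 α β hcos
    rw [torus_zero879, Matrix.mul_one] at he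
    rw [he, ← Matrix.mul_assoc, hinv]

theorem plane_invariantT879 (ψ : Matrix (Fin 2) (Fin 2) ℂ → ℂ)
    (hinv : ∀ (m : Matrix (Fin 2) (Fin 2) ℂ) (γ : ℝ), ψ (m * rotZ γ) = ψ m)
    (k₀ : Matrix (Fin 2) (Fin 2) ℂ) (hk₀ : k₀ * k₀.conjTranspose = 1) (hdet : k₀.det = 1) :
    ∫ z, ψ (k₀ * mz197 0 z) * (rho197 z : ℂ) = ∫ z, ψ (mz197 0 z) * (rho197 z : ℂ) := by
  rw [← moebius197 (fun w => ψ (mz197 0 w)) (k₀ 0 0) (k₀ 0 1) (k₀ 1 0) (k₀ 1 1)
    (unitary_det_normSq197 k₀ hk₀) (unitary_normSq197 k₀ hk₀)]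
  refine integral_congr_ae ?_
  have hS : ({z : ℂ | k₀ 0 0 + k₀ 0 1 * z = 0} : Set ℂ).Subsingleton := by
    intro z₁ h₁ z₂ h₂
    by_contra hne
    have h₁' : k₀ 0 0 + k₀ 0 1 * z₁ = 0 := h₁
    have h₂' : k₀ 0 0 + k₀ 0 1 * z₂ = 0 := h₂
    have hq : k₀ 0 1 * (z₁ - z₂) = 0 := by linear_combination h₁' - h₂'
    have hq0 : k₀ 0 1 = 0 := by
      rcases mul_eq_zero.mp hq with h | h
      · exact h
      · exact absurd (sub_eq_zero.mp h) hne
    have hp0 : k₀ 0 0 = 0 := by rw [hq0, zero_mul, add_zero] at h₁'; exact h₁'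
    have := (unitary_rows197 k₀ hk₀).1
    rw [hp0, hq0] at this
    simp at this
  have h0 : volume ({z : ℂ | k₀ 0 0 + k₀ 0 1 * z = 0} : Set ℂ) = 0 := hS.measure_zero volume
  filter_upwards [measure_eq_zero_iff_ae_notMem.mp h0] with z hz
  obtain ⟨γ, hfac⟩ := coset_factorT879 k₀ hk₀ hdet z hz
  show ψ (k₀ * mz197 0 z) * (rho197 z : ℂ)
    = ψ (mz197 0 ((k₀ 1 0 + k₀ 1 1 * z) / (k₀ 0 0 + k₀ 0 1 * z))) * (rho197 z : ℂ)
  rw [hfac, hinv]

/-- **T2.27.31, explicit statement**: invariance of `sin β dβ dα` under `SU(2)`, for `ψ` right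
invariant under the diagonal torus. -/
theorem subS2RotT_stmt879 (ψ : Matrix (Fin 2) (Fin 2) ℂ → ℂ)
    (hψ : ContinuousOn ψ {m | m.det ≠ 0})
    (hinv : ∀ (m : Matrix (Fin 2) (Fin 2) ℂ) (γ : ℝ), ψ (m * rotZ γ) = ψ m)
    (k₀ : Matrix (Fin 2) (Fin 2) ℂ) (hk₀ : k₀ * k₀.conjTranspose = 1) (hdet : k₀.det = 1) :
    (∫ α in (0 : ℝ)..(2 * Real.pi), ∫ β in (0 : ℝ)..Real.pi,
        ψ (k₀ * (rotZ α * rotY β)) * ((Real.sin β : ℝ) : ℂ))
      = ∫ α in (0 : ℝ)..(2 * Real.pi), ∫ β in (0 : ℝ)..Real.pi,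
        ψ (rotZ α * rotY β) * ((Real.sin β : ℝ) : ℂ) := by
  rw [euler_to_planeT879 ψ hψ hinv k₀ hk₀, plane_invariantT879 ψ hinv k₀ hk₀ hdet]
  have h1 := euler_to_planeT879 ψ hψ hinv 1 (by simp)
  simp only [Matrix.one_mul] at h1
  exact h1.symm

end Fermat.Agent.LT.T2.H879

end
end
-- ===== PACK-END LT/T2/H879/S2RotT.lean

-- ===== PACK-BEGIN LT/T2/H166/LocalAlg.lean
section




/-!
# Row LT, tower T2 -- tool (helper166, OFF-MAIN): elements supported at one infinite place

VERBATIM COPY (names `…878` renamed `…166`) of sections 1 -- 4 of helper878's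
`LT/T2/H878/LocalAlg.lean` (origin/helper878@1d1d8b1df), which do not use any tower Spec: the
copy imports Mathlib, `A0` and helper472's `LocCont` (A0 only), so it does not depend on the
versions of the Specs.  All credit to helper878.

* `exists_local166`: every invertible complex matrix (real at a real place) is the component at
  `w` of an element of `GL₂(𝔸_K)` supported at `w`;
* `G_ext166`, `ext_of_sameAway166`, `local_unique166`: an element of `GL₂(𝔸_K)` is determined by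
  its components;
* `isArchCompact_inv166`, `isArchCompact_mul166`, `exists_archCompact166`: the compact group at
  `w`.
-/

set_option autoImplicit false

open IsDedekindDomain NumberField
open scoped Matrix

noncomputable section

namespace Fermat.Agent.LT.T2.H166

open Fermat.Agent.LT.H556.A0
open Fermat.Agent.LT.T2.H472

variable {K : Type} [Field K] [NumberField K]

/-! ## 1. Components -/

/-- Two matrices over the adeles with the same components are equal. -/
theorem adlMat_ext166 {A B : Matrix (Fin 2) (Fin 2) (Adl K)}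
    (hinf : ∀ u : InfinitePlace K, (cInf472 u).mapMatrix A = (cInf472 u).mapMatrix B)
    (hfin : ∀ v : HeightOneSpectrum (𝓞 K), (cFin472 v).mapMatrix A = (cFin472 v).mapMatrix B) :
    A = B := by
  funext i j
  refine Prod.ext ?_ ?_
  · funext u
    exact congrFun (congrFun (hinf u) i) j
  · refine FiniteAdeleRing.ext K fun v => ?_
    exact congrFun (congrFun (hfin v) i) j

theorem infComp_eq_map166 (w : InfinitePlace K) (g : G K) :
    infComp w g = (InfinitePlace.Completion.extensionEmbedding w).mapMatrix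
      ((cInf472 w).mapMatrix (g : Matrix (Fin 2) (Fin 2) (Adl K))) := rfl

/-- An element of `GL₂(𝔸_K)` is determined by its components. -/
theorem G_ext166 {g g' : G K} (hinf : ∀ u : InfinitePlace K, infComp u g = infComp u g')
    (hfin : ∀ v : HeightOneSpectrum (𝓞 K), finComp v g = finComp v g') : g = g' := by
  apply Units.ext
  apply adlMat_ext166
  · intro u
    funext i j
    have h := congrFun (congrFun (hinf u) i) j
    exact (InfinitePlace.Completion.extensionEmbedding u).injective h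
  · intro v
    exact hfin v

theorem infComp_mul166 (w : InfinitePlace K) (g h : G K) :
    infComp w (g * h) = infComp w g * infComp w h := by
  rw [infComp_eq472, infComp_eq472, infComp_eq472, Units.val_mul, map_mul]

theorem finComp_mul166 (v : HeightOneSpectrum (𝓞 K)) (g h : G K) :
    finComp v (g * h) = finComp v g * finComp v h := by
  rw [finComp_eq472, finComp_eq472, finComp_eq472, Units.val_mul, map_mul]

theorem infComp_one166 (w : InfinitePlace K) : infComp w (1 : G K) = 1 := by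
  rw [infComp_eq472, Units.val_one, map_one]

theorem finComp_one166 (v : HeightOneSpectrum (𝓞 K)) : finComp v (1 : G K) = 1 := by
  rw [finComp_eq472, Units.val_one, map_one]

theorem infComp_of_triv166 {u : InfinitePlace K} {g : G K} (h : TrivAtInf u g) :
    infComp u g = 1 := by
  rw [infComp_eq_map166, (trivAtInf_iff472 u g).1 h, map_one]

/-- At a real place the components are real. -/
theorem infComp_real166 {w : InfinitePlace K} (hw : w.IsReal) (g : G K) (i j : Fin 2) :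
    (infComp w g i j).im = 0 := by
  show (InfinitePlace.Completion.extensionEmbedding w
    (((g : Matrix (Fin 2) (Fin 2) (Adl K)) i j).1 w)).im = 0
  rw [← InfinitePlace.Completion.extensionEmbeddingOfIsReal_apply hw]
  exact Complex.ofReal_im _

/-! ## 2. Elements with the same components away from `w` -/

/-- `g` and `g'` have the same components at all places different from `w`. -/
def SameAway166 (w : InfinitePlace K) (g g' : G K) : Prop :=
  (∀ u : InfinitePlace K, u ≠ w → infComp u g = infComp u g') ∧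
    ∀ v : HeightOneSpectrum (𝓞 K), finComp v g = finComp v g'

theorem SameAway166.refl (w : InfinitePlace K) (g : G K) : SameAway166 w g g :=
  ⟨fun _ _ => rfl, fun _ => rfl⟩

theorem SameAway166.symm {w : InfinitePlace K} {g g' : G K} (h : SameAway166 w g g') :
    SameAway166 w g' g :=
  ⟨fun u hu => (h.1 u hu).symm, fun v => (h.2 v).symm⟩

theorem SameAway166.trans {w : InfinitePlace K} {g g' g'' : G K} (h : SameAway166 w g g')
    (h' : SameAway166 w g' g'') : SameAway166 w g g'' :=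
  ⟨fun u hu => (h.1 u hu).trans (h'.1 u hu), fun v => (h.2 v).trans (h'.2 v)⟩

theorem SameAway166.mul {w : InfinitePlace K} {a a' b b' : G K} (h : SameAway166 w a a')
    (h' : SameAway166 w b b') : SameAway166 w (a * b) (a' * b') :=
  ⟨fun u hu => by rw [infComp_mul166, infComp_mul166, h.1 u hu, h'.1 u hu],
    fun v => by rw [finComp_mul166, finComp_mul166, h.2 v, h'.2 v]⟩

theorem sameAway_of_local166 {w : InfinitePlace K} {k : G K} (h : IsLocalAtInf w k) :
    SameAway166 w k 1 :=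
  ⟨fun u hu => by rw [infComp_of_triv166 (h.1 u hu), infComp_one166],
    fun v => by rw [finComp_one166]; exact h.2 v⟩

theorem isLocal_of_sameAway166 {w : InfinitePlace K} {k : G K} (h : SameAway166 w k 1) :
    IsLocalAtInf w k := by
  refine ⟨fun u hu => ?_, fun v => ?_⟩
  · rw [trivAtInf_iff472]
    have h1 := h.1 u hu
    rw [infComp_one166, infComp_eq_map166] at h1
    funext i j
    have h2 := congrFun (congrFun h1 i) j
    apply (InfinitePlace.Completion.extensionEmbedding u).injective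
    refine h2.trans ?_
    by_cases hij : i = j
    · subst hij
      simp
    · simp [Matrix.one_apply_ne hij]
  · have h1 := h.2 v
    rw [finComp_one166] at h1
    exact h1

theorem isLocalAtInf_mul166 {w : InfinitePlace K} {g h : G K} (hg : IsLocalAtInf w g)
    (hh : IsLocalAtInf w h) : IsLocalAtInf w (g * h) := by
  apply isLocal_of_sameAway166
  have := (sameAway_of_local166 hg).mul (sameAway_of_local166 hh)
  rwa [mul_one] at this

theorem ext_of_sameAway166 {w : InfinitePlace K} {g g' : G K} (h : SameAway166 w g g')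
    (hw : infComp w g = infComp w g') : g = g' := by
  refine G_ext166 (fun u => ?_) h.2
  by_cases hu : u = w
  · subst hu
    exact hw
  · exact h.1 u hu

/-- Elements supported at `w` with the same component at `w` are equal. -/
theorem local_unique166 {w : InfinitePlace K} {g g' : G K} (hg : IsLocalAtInf w g)
    (hg' : IsLocalAtInf w g') (hw : infComp w g = infComp w g') : g = g' :=
  ext_of_sameAway166 ((sameAway_of_local166 hg).trans (sameAway_of_local166 hg').symm) hw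

/-! ## 3. Construction of the elements supported at `w` -/

open Classical in
/-- The matrix over the adeles with component `M` at `w` and `1` at the other places. -/
def locMat166 (w : InfinitePlace K) (M : Matrix (Fin 2) (Fin 2) w.Completion) :
    Matrix (Fin 2) (Fin 2) (Adl K) :=
  fun i j =>
    ((Function.update (fun u : InfinitePlace K => (1 : Matrix (Fin 2) (Fin 2) u.Completion) i j)
        w (M i j) : InfiniteAdeleRing K),
      (1 : Matrix (Fin 2) (Fin 2) (FiniteAdeleRing (𝓞 K) K)) i j)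

open Classical in
theorem cInf_locMat_self166 (w : InfinitePlace K) (M : Matrix (Fin 2) (Fin 2) w.Completion) :
    (cInf472 w).mapMatrix (locMat166 w M) = M := by
  funext i j
  show Function.update (fun u : InfinitePlace K => (1 : Matrix (Fin 2) (Fin 2) u.Completion) i j)
    w (M i j) w = M i j
  exact Function.update_self ..

open Classical in
theorem cInf_locMat_ne166 (w : InfinitePlace K) (M : Matrix (Fin 2) (Fin 2) w.Completion)
    {u : InfinitePlace K} (hu : u ≠ w) :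
    (cInf472 u).mapMatrix (locMat166 w M) = 1 := by
  funext i j
  show Function.update (fun u : InfinitePlace K => (1 : Matrix (Fin 2) (Fin 2) u.Completion) i j)
    w (M i j) u = (1 : Matrix (Fin 2) (Fin 2) u.Completion) i j
  exact Function.update_of_ne hu ..

theorem cFin_locMat166 (w : InfinitePlace K) (M : Matrix (Fin 2) (Fin 2) w.Completion)
    (v : HeightOneSpectrum (𝓞 K)) :
    (cFin472 v).mapMatrix (locMat166 w M) = 1 := by
  funext i j
  show ((1 : Matrix (Fin 2) (Fin 2) (FiniteAdeleRing (𝓞 K) K)) i j) v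
    = (1 : Matrix (Fin 2) (Fin 2) (v.adicCompletion K)) i j
  exact one_apply_fin472 v i j

theorem locMat_mul166 (w : InfinitePlace K) (M N : Matrix (Fin 2) (Fin 2) w.Completion) :
    locMat166 w (M * N) = locMat166 (K := K) w M * locMat166 w N := by
  apply adlMat_ext166
  · intro u
    rw [map_mul]
    by_cases hu : u = w
    · subst hu
      rw [cInf_locMat_self166, cInf_locMat_self166, cInf_locMat_self166]
    · rw [cInf_locMat_ne166 _ _ hu, cInf_locMat_ne166 _ _ hu, cInf_locMat_ne166 _ _ hu, mul_one]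
  · intro v
    rw [map_mul, cFin_locMat166, cFin_locMat166, cFin_locMat166, mul_one]

theorem locMat_one166 (w : InfinitePlace K) : locMat166 (K := K) w 1 = 1 := by
  apply adlMat_ext166
  · intro u
    rw [map_one]
    by_cases hu : u = w
    · subst hu
      rw [cInf_locMat_self166]
    · rw [cInf_locMat_ne166 _ _ hu]
  · intro v
    rw [map_one, cFin_locMat166]

/-- The element of `GL₂(𝔸_K)` supported at `w` with component `M`. -/
def locG166 (w : InfinitePlace K) (M N : Matrix (Fin 2) (Fin 2) w.Completion) (h1 : M * N = 1)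
    (h2 : N * M = 1) : G K :=
  ⟨locMat166 w M, locMat166 w N, by rw [← locMat_mul166, h1, locMat_one166],
    by rw [← locMat_mul166, h2, locMat_one166]⟩

/-- **Existence of the elements supported at `w`.** -/
theorem exists_local166 (w : InfinitePlace K) (M : Matrix (Fin 2) (Fin 2) ℂ) (hdet : M.det ≠ 0)
    (hreal : w.IsReal → ∀ i j, (M i j).im = 0) :
    ∃ g : G K, IsLocalAtInf w g ∧ infComp w g = M := by
  have hpre : ∀ i j, ∃ x : w.Completion,
      InfinitePlace.Completion.extensionEmbedding w x = M i j := by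
    intro i j
    rcases InfinitePlace.isReal_or_isComplex w with hw | hw
    · refine ⟨(InfinitePlace.Completion.ringEquivRealOfIsReal hw).symm (M i j).re, ?_⟩
      rw [← InfinitePlace.Completion.extensionEmbeddingOfIsReal_apply hw]
      have h1 : InfinitePlace.Completion.extensionEmbeddingOfIsReal hw
          ((InfinitePlace.Completion.ringEquivRealOfIsReal hw).symm (M i j).re) = (M i j).re :=
        (InfinitePlace.Completion.ringEquivRealOfIsReal hw).apply_symm_apply _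
      rw [h1]
      apply Complex.ext
      · simp
      · simp [hreal hw i j]
    · exact InfinitePlace.Completion.surjective_extensionEmbedding_of_isComplex hw (M i j)
  choose M' hM' using hpre
  have hmap : (InfinitePlace.Completion.extensionEmbedding w).mapMatrix (Matrix.of M') = M := by
    funext i j
    exact hM' i j
  have hdet' : (Matrix.of M').det ≠ 0 := by
    intro h0
    apply hdet
    rw [← hmap, ← RingHom.map_det, h0, map_zero]
  have hu : IsUnit (Matrix.of M').det := IsUnit.mk0 _ hdet'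
  refine ⟨locG166 w (Matrix.of M') (Matrix.of M')⁻¹ (Matrix.mul_nonsing_inv _ hu)
    (Matrix.nonsing_inv_mul _ hu), ⟨fun u hu' => ?_, fun v => ?_⟩, ?_⟩
  · rw [trivAtInf_iff472]
    exact cInf_locMat_ne166 w _ hu'
  · show finComp v _ = 1
    rw [finComp_eq472]
    exact cFin_locMat166 w _ v
  · rw [infComp_eq_map166]
    show (InfinitePlace.Completion.extensionEmbedding w).mapMatrix
      ((cInf472 w).mapMatrix (locMat166 w (Matrix.of M'))) = M
    rw [cInf_locMat_self166, hmap]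

/-! ## 4. The compact group at `w` -/

theorem isArchCompact_inv166 {w : InfinitePlace K} {k : G K} (hk : IsArchCompact w k) :
    IsArchCompact w k⁻¹ := by
  obtain ⟨hloc, hu, hd⟩ := hk
  have hinv : (infComp w k)⁻¹ = (infComp w k)ᴴ := Matrix.inv_eq_right_inv hu
  refine ⟨isLocalAtInf_inv472 hloc, ?_, fun hw => ?_⟩
  · rw [infComp_inv472, hinv, Matrix.conjTranspose_conjTranspose]
    exact mul_eq_one_comm.1 hu
  · rw [infComp_inv472, Matrix.det_nonsing_inv, hd hw]
    simp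

theorem isArchCompact_mul166 {w : InfinitePlace K} {k k' : G K} (hk : IsArchCompact w k)
    (hk' : IsArchCompact w k') : IsArchCompact w (k * k') := by
  obtain ⟨hloc, hu, hd⟩ := hk
  obtain ⟨hloc', hu', hd'⟩ := hk'
  refine ⟨isLocalAtInf_mul166 hloc hloc', ?_, fun hw => ?_⟩
  · rw [infComp_mul166, Matrix.conjTranspose_mul]
    calc infComp w k * infComp w k' * ((infComp w k')ᴴ * (infComp w k)ᴴ)
        = infComp w k * (infComp w k' * (infComp w k')ᴴ) * (infComp w k)ᴴ := by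
          simp only [mul_assoc]
      _ = 1 := by rw [hu', mul_one, hu]
  · rw [infComp_mul166, Matrix.det_mul, hd hw, hd' hw, mul_one]

/-- The element supported at `w` with a given unitary component (of determinant one at a real
place) belongs to the compact group. -/
theorem exists_archCompact166 (w : InfinitePlace K) (k : Matrix (Fin 2) (Fin 2) ℂ)
    (hu : k * kᴴ = 1) (hreal : w.IsReal → (∀ i j, (k i j).im = 0) ∧ k.det = 1) :
    ∃ g : G K, IsArchCompact w g ∧ infComp w g = k := by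
  have hdet : k.det ≠ 0 := by
    have h := congrArg Matrix.det hu
    rw [Matrix.det_mul, Matrix.det_one] at h
    exact left_ne_zero_of_mul_eq_one h
  obtain ⟨g, hloc, hg⟩ := exists_local166 w k hdet (fun hw => (hreal hw).1)
  exact ⟨g, ⟨hloc, by rw [hg]; exact hu, fun hw => by rw [hg]; exact (hreal hw).2⟩, hg⟩

end Fermat.Agent.LT.T2.H166

end

end
-- ===== PACK-END LT/T2/H166/LocalAlg.lean

-- ===== PACK-BEGIN LT/T2/H323/Count/Alg.lean
section




/-!
# Row LT, tower T2, sub-leaf T2.03c.1 `LeafCount` (helper323), OFF-MAIN : THE ALGEBRA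

* `conj_ray_eq323` : if `x = β z a ω₀` (`z` central) and `δ x = x ω` then
  `(β⁻¹ δ β) a = a (ω₀ ω ω₀⁻¹)`.
* `entries_of_conj323` : if `a = diag(s, 1)` is in the ray, `γ ∈ GL₂(K)` and `γ a = a ω₁` then
  `ω₁ = γ` at the finite places and, at every infinite place `w`,
  `‖(ω₁)₀₀‖ = |γ₀₀|_w`, `‖(ω₁)₁₁‖ = |γ₁₁|_w`, `s ‖(ω₁)₀₁‖ = |γ₀₁|_w`, `‖(ω₁)₁₀‖ = |γ₁₀|_w s`.
-/

set_option autoImplicit false
set_option linter.style.haveILetI false
set_option linter.unusedSectionVars false

open IsDedekindDomain NumberField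
open Fermat.Agent.LT.H556.A0 Fermat.Agent.LT

noncomputable section

namespace Fermat.Agent.LT.T2.H323

variable (K : Type) [Field K] [NumberField K]

/-- The projection of the adele ring to the completion at the infinite place `w`. -/
def pInf323 (w : InfinitePlace K) : Adl K →+* w.Completion where
  toFun x := x.1 w
  map_one' := rfl
  map_mul' _ _ := rfl
  map_zero' := rfl
  map_add' _ _ := rfl

/-- The projection of the adele ring to the completion at the finite place `v`. -/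
def pFin323 (v : HeightOneSpectrum (𝓞 K)) : Adl K →+* v.adicCompletion K where
  toFun x := x.2 v
  map_one' := rfl
  map_mul' _ _ := rfl
  map_zero' := rfl
  map_add' _ _ := rfl

theorem ratG_val323 (γ : GL (Fin 2) K) (i j : Fin 2) :
    (T1.ratG K γ).val i j = algebraMap K (Adl K) (γ.val i j) := rfl

theorem norm_inf_algebraMap323 (w : InfinitePlace K) (ξ : K) :
    ‖(algebraMap K (Adl K) ξ).1 w‖ = w ξ := by
  change ‖((ξ : K) : w.Completion)‖ = _
  rw [InfinitePlace.Completion.norm_coe]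
  rfl

theorem norm_eq_norm_extEmb323 (w : InfinitePlace K) (x : w.Completion) :
    ‖x‖ = ‖InfinitePlace.Completion.extensionEmbedding w x‖ := by
  have h := (InfinitePlace.Completion.isometry_extensionEmbedding w).norm_map_of_map_zero
    (map_zero _) x
  exact h.symm

/-- Central elements commute with everything. -/
theorem central_comm323 {z : G K} (hz : T1.IsCentral K z) (g : G K) : z * g = g * z := by
  obtain ⟨c, hc⟩ := hz
  apply Units.ext
  rw [Units.val_mul, Units.val_mul, hc]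
  ext i j
  rw [Matrix.diagonal_mul, Matrix.mul_diagonal, mul_comm]

/-- Abstract form of the reduction to the ray. -/
theorem conj_abs323 {H : Type*} [Group H] {b d z a ω₀ ω x : H} (hz : ∀ g : H, z * g = g * z)
    (hx : x = b * z * a * ω₀) (h : d * x = x * ω) :
    b⁻¹ * d * b * a = a * (ω₀ * ω * ω₀⁻¹) := by
  have hx' : x = z * (b * a * ω₀) := by
    rw [hx, ← hz b]
    simp only [mul_assoc]
  rw [hx'] at h
  have h1 : d * (z * (b * a * ω₀)) = z * (d * (b * a * ω₀)) := by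
    rw [← mul_assoc, ← hz d, mul_assoc]
  rw [h1, mul_assoc z (b * a * ω₀) ω] at h
  have h3 : d * (b * a * ω₀) = b * a * ω₀ * ω := mul_left_cancel h
  calc b⁻¹ * d * b * a = b⁻¹ * (d * (b * a * ω₀)) * ω₀⁻¹ := by group
    _ = b⁻¹ * (b * a * ω₀ * ω) * ω₀⁻¹ := by rw [h3]
    _ = a * (ω₀ * ω * ω₀⁻¹) := by group

/-- **Reduction to the ray.** -/
theorem conj_ray_eq323 {x a ω₀ z ω : G K} {β δ : GL (Fin 2) K} (hz : T1.IsCentral K z)
    (hx : x = T1.ratG K β * z * a * ω₀) (h : T1.ratG K δ * x = x * ω) :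
    T1.ratG K (β⁻¹ * δ * β) * a = a * (ω₀ * ω * ω₀⁻¹) := by
  rw [map_mul, map_mul, map_inv]
  exact conj_abs323 (central_comm323 K hz) hx h

/-- **The entries of `a⁻¹ γ a`.** -/
theorem entries_of_conj323 {a ω : G K} {s : ℝ} (hs : 0 < s) (ha : T1.IsRay K a s)
    (γ : GL (Fin 2) K) (h : T1.ratG K γ * a = a * ω) :
    (∀ (v : HeightOneSpectrum (𝓞 K)) (i j : Fin 2),
        (ω.val i j).2 v = algebraMap K (v.adicCompletion K) (γ.val i j)) ∧
    ∀ w : InfinitePlace K,
      ‖(ω.val 0 0).1 w‖ = w (γ.val 0 0) ∧ ‖(ω.val 1 1).1 w‖ = w (γ.val 1 1) ∧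
      s * ‖(ω.val 0 1).1 w‖ = w (γ.val 0 1) ∧ ‖(ω.val 1 0).1 w‖ = w (γ.val 1 0) * s := by
  have hM : (T1.ratG K γ).val * a.val = a.val * ω.val := by
    rw [← Units.val_mul, ← Units.val_mul, h]
  have e : ∀ i j : Fin 2,
      (T1.ratG K γ).val i 0 * a.val 0 j + (T1.ratG K γ).val i 1 * a.val 1 j
        = a.val i 0 * ω.val 0 j + a.val i 1 * ω.val 1 j := by
    intro i j
    have := congrFun (congrFun hM i) j
    simpa [Matrix.mul_apply, Fin.sum_univ_two] using this
  constructor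
  · intro v i j
    have hA : a.val.map (pFin323 K v) = 1 := ha.1 v
    have hmap := congrArg (fun M : Matrix (Fin 2) (Fin 2) (Adl K) => M.map (pFin323 K v)) hM
    simp only [Matrix.map_mul] at hmap
    rw [hA, mul_one, one_mul] at hmap
    have := congrFun (congrFun hmap i) j
    exact this.symm
  · intro w
    have hw : ∀ k l : Fin 2, InfinitePlace.Completion.extensionEmbedding w ((a.val k l).1 w)
        = (!![(s : ℂ), 0; 0, 1] : Matrix (Fin 2) (Fin 2) ℂ) k l :=
      fun k l => congrFun (congrFun (ha.2 w) k) l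
    have hinj := (InfinitePlace.Completion.extensionEmbedding w).injective
    have h01 : (a.val 0 1).1 w = 0 := by
      apply hinj
      rw [hw 0 1, map_zero]
      rfl
    have h10 : (a.val 1 0).1 w = 0 := by
      apply hinj
      rw [hw 1 0, map_zero]
      rfl
    have h11 : (a.val 1 1).1 w = 1 := by
      apply hinj
      rw [hw 1 1, map_one]
      rfl
    have h00 : ‖(a.val 0 0).1 w‖ = s := by
      rw [norm_eq_norm_extEmb323, hw 0 0]
      change ‖(s : ℂ)‖ = s
      rw [Complex.norm_real, Real.norm_eq_abs, abs_of_pos hs]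
    have ew : ∀ i j : Fin 2,
        (algebraMap K (Adl K) (γ.val i 0)).1 w * (a.val 0 j).1 w
          + (algebraMap K (Adl K) (γ.val i 1)).1 w * (a.val 1 j).1 w
        = (a.val i 0).1 w * (ω.val 0 j).1 w + (a.val i 1).1 w * (ω.val 1 j).1 w := by
      intro i j
      have e1 := congrArg (pInf323 K w) (e i j)
      simp only [map_add, map_mul] at e1
      exact e1
    have e00 := ew 0 0
    have e01 := ew 0 1
    have e10 := ew 1 0
    have e11 := ew 1 1
    rw [h10, h01, mul_zero, add_zero, zero_mul, add_zero] at e00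
    rw [h01, h11, mul_zero, zero_add, mul_one, zero_mul, add_zero] at e01
    rw [h10, h11, mul_zero, add_zero, zero_mul, zero_add, one_mul] at e10
    rw [h01, h11, mul_zero, zero_add, mul_one, h10, zero_mul, zero_add, one_mul] at e11
    refine ⟨?_, ?_, ?_, ?_⟩
    · have := congrArg norm e00
      rw [norm_mul, norm_mul, h00, norm_inf_algebraMap323] at this
      have hs' : s ≠ 0 := hs.ne'
      have h2 : s * ‖(ω.val 0 0).1 w‖ = s * w (γ.val 0 0) := by
        rw [← this, mul_comm]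
      exact mul_left_cancel₀ hs' h2
    · have := congrArg norm e11
      rw [norm_inf_algebraMap323] at this
      exact this.symm
    · have := congrArg norm e01
      rw [norm_mul, h00, norm_inf_algebraMap323] at this
      exact this.symm
    · have := congrArg norm e10
      rw [norm_mul, h00, norm_inf_algebraMap323] at this
      exact this.symm

end Fermat.Agent.LT.T2.H323

end

end
-- ===== PACK-END LT/T2/H323/Count/Alg.lean

-- ===== PACK-BEGIN LT/T7/H589/TorSplitAbs.lean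
section



/-!
# Row LT, tower T7, leaf C2.7.5 `TorSplitC305` (helper589): the abstract measure theory

OFF-MAIN.  MATHLIB + the asset `T7/H159/HaarSplit.lean` (helper159, byte-identical copy).

* `exists_smul_prod589`: `μ` a Haar measure of `G`, `E` an open subgroup, `p : G →* ∏ T₁ × ∏ T₂`
  continuous, onto and proper on `E`: the image of `μ|_E` is a positive multiple of the product
  of given Haar measures.
* `smul_prod_box589`: the value of `c • (⊗ μ₁ ⊗ ⊗ μ₂)` on a box `∏ C_i × B` with `μ₁ i (C i) = 1`.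
* `map_prodMap_pi589`: the image of a product measure under a product of maps.
-/

set_option autoImplicit false

open MeasureTheory MeasureTheory.Measure Set

noncomputable section

namespace Fermat.Agent.LT.H589

section Abs

variable {G : Type*} [Group G] [TopologicalSpace G] [IsTopologicalGroup G]
  [MeasurableSpace G] [BorelSpace G]
  {ι₁ ι₂ : Type*} [Fintype ι₁] [Fintype ι₂]
  {T₁ : ι₁ → Type*} {T₂ : ι₂ → Type*}
  [∀ i, Group (T₁ i)] [∀ i, TopologicalSpace (T₁ i)] [∀ i, IsTopologicalGroup (T₁ i)]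
  [∀ i, MeasurableSpace (T₁ i)] [∀ i, BorelSpace (T₁ i)]
  [∀ i, LocallyCompactSpace (T₁ i)] [∀ i, SecondCountableTopology (T₁ i)]
  [∀ j, Group (T₂ j)] [∀ j, TopologicalSpace (T₂ j)] [∀ j, IsTopologicalGroup (T₂ j)]
  [∀ j, MeasurableSpace (T₂ j)] [∀ j, BorelSpace (T₂ j)]
  [∀ j, LocallyCompactSpace (T₂ j)] [∀ j, SecondCountableTopology (T₂ j)]

/-- The image of `μ|_E` is a positive multiple of the product measure. -/
theorem exists_smul_prod589 (μ : Measure G) [μ.IsHaarMeasure] (E : Subgroup G)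
    (hE : IsOpen (E : Set G)) (p : G →* ((∀ i, T₁ i) × (∀ j, T₂ j))) (hp : Continuous p)
    (hsurj : ∀ h : (∀ i, T₁ i) × (∀ j, T₂ j), ∃ e ∈ E, p e = h)
    (hproper : ∀ C : Set ((∀ i, T₁ i) × (∀ j, T₂ j)), IsCompact C → IsClosed C →
      ∃ C' : Set G, IsCompact C' ∧ p ⁻¹' C ∩ (E : Set G) ⊆ C')
    (μ₁ : ∀ i, Measure (T₁ i)) [∀ i, (μ₁ i).IsHaarMeasure]
    (μ₂ : ∀ j, Measure (T₂ j)) [∀ j, (μ₂ j).IsHaarMeasure] :
    ∃ c : NNReal, 0 < c ∧
      Measure.map p (μ.restrict (E : Set G))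
        = c • ((Measure.pi μ₁).prod (Measure.pi μ₂)) := by
  have hH := Fermat.Agent.LT.T7.H159.isHaarMeasure_map_restrict159 μ E hE p hp hsurj hproper
  exact ⟨haarScalarFactor (Measure.map p (μ.restrict (E : Set G)))
      ((Measure.pi μ₁).prod (Measure.pi μ₂)),
    haarScalarFactor_pos_of_isHaarMeasure _ _, isMulLeftInvariant_eq_smul _ _⟩

omit [∀ i, IsTopologicalGroup (T₁ i)] [∀ i, BorelSpace (T₁ i)]
  [∀ i, LocallyCompactSpace (T₁ i)] [∀ i, SecondCountableTopology (T₁ i)]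
  [∀ j, IsTopologicalGroup (T₂ j)] [∀ j, BorelSpace (T₂ j)]
  [∀ j, LocallyCompactSpace (T₂ j)] [∀ j, SecondCountableTopology (T₂ j)]
  [∀ i, Group (T₁ i)] [∀ i, TopologicalSpace (T₁ i)]
  [∀ j, Group (T₂ j)] [∀ j, TopologicalSpace (T₂ j)] in
/-- The value on a box. -/
theorem smul_prod_box589 (μ₁ : ∀ i, Measure (T₁ i)) [∀ i, SigmaFinite (μ₁ i)]
    (μ₂ : ∀ j, Measure (T₂ j)) [∀ j, SigmaFinite (μ₂ j)] (c : NNReal)
    (C : ∀ i, Set (T₁ i)) (hC : ∀ i, μ₁ i (C i) = 1) (B : Set (∀ j, T₂ j)) :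
    (c • ((Measure.pi μ₁).prod (Measure.pi μ₂))) ((Set.pi univ C) ×ˢ B)
      = c * (Measure.pi μ₂) B := by
  rw [Measure.smul_apply, Measure.prod_prod, Measure.pi_pi, Finset.prod_eq_one fun i _ => hC i,
    one_mul]
  rfl

omit [∀ i, IsTopologicalGroup (T₁ i)] [∀ i, BorelSpace (T₁ i)]
  [∀ i, LocallyCompactSpace (T₁ i)] [∀ i, SecondCountableTopology (T₁ i)]
  [∀ j, IsTopologicalGroup (T₂ j)] [∀ j, BorelSpace (T₂ j)]
  [∀ j, LocallyCompactSpace (T₂ j)] [∀ j, SecondCountableTopology (T₂ j)]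
  [∀ i, Group (T₁ i)] [∀ i, TopologicalSpace (T₁ i)]
  [∀ j, Group (T₂ j)] [∀ j, TopologicalSpace (T₂ j)] in
/-- The image of a product measure under a product of maps. -/
theorem map_prodMap_pi589 {X₁ : ι₁ → Type*} {X₂ : ι₂ → Type*}
    [∀ i, MeasurableSpace (X₁ i)] [∀ j, MeasurableSpace (X₂ j)]
    (μ₁ : ∀ i, Measure (T₁ i)) [∀ i, SigmaFinite (μ₁ i)]
    (μ₂ : ∀ j, Measure (T₂ j)) [∀ j, SigmaFinite (μ₂ j)]
    (e₁ : ∀ i, T₁ i → X₁ i) (he₁ : ∀ i, Measurable (e₁ i))
    (e₂ : ∀ j, T₂ j → X₂ j) (he₂ : ∀ j, Measurable (e₂ j))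
    [∀ i, SigmaFinite ((μ₁ i).map (e₁ i))] [∀ j, SigmaFinite ((μ₂ j).map (e₂ j))] :
    Measure.map (Prod.map (fun (x : ∀ i, T₁ i) i => e₁ i (x i))
        (fun (y : ∀ j, T₂ j) j => e₂ j (y j)))
      ((Measure.pi μ₁).prod (Measure.pi μ₂))
      = (Measure.pi fun i => (μ₁ i).map (e₁ i)).prod
          (Measure.pi fun j => (μ₂ j).map (e₂ j)) := by
  have h1 : Measurable (fun (x : ∀ i, T₁ i) i => e₁ i (x i)) :=
    measurable_pi_lambda _ fun i => (he₁ i).comp (measurable_pi_apply i)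
  have h2 : Measurable (fun (y : ∀ j, T₂ j) j => e₂ j (y j)) :=
    measurable_pi_lambda _ fun j => (he₂ j).comp (measurable_pi_apply j)
  rw [← Measure.map_prod_map _ _ h1 h2, Measure.pi_map_pi fun i => (he₁ i).aemeasurable,
    Measure.pi_map_pi fun j => (he₂ j).aemeasurable]

end Abs

end Fermat.Agent.LT.H589

end

end
-- ===== PACK-END LT/T7/H589/TorSplitAbs.lean

-- ===== PACK-BEGIN LT/T7/H648/GalTrans.lean
section



/-!
# Row LT, tower T7, leaf T7.L2.1.C0.b `GalTransC644` (registry 2246; helper648)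

OFF-MAIN.  `galTransC648 : H644.GalTransC644`, VERBATIM the frozen Prop of
`LT/T7/H644/SetupSpec.lean` (helper644@efda7f48e, sha256 c04970e4...), UNCONDITIONAL.
Imports: Mathlib + the spec file only.

Proof.  The Galois group `G = Gal(K'/K)` acts on `𝓞 K'` (Mathlib instance), and
`IsGaloisGroup G (𝓞 K) (𝓞 K')`; `Ideal.exists_smul_eq_of_isGaloisGroup` gives `τ` with
`τ • w = w'` for two primes over `v`.  The pointwise action on ideals is `Ideal.map` of the
action, which is `RingOfIntegers.mapRingEquiv τ` as a function.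
-/

set_option autoImplicit false

open IsDedekindDomain NumberField

noncomputable section

namespace Fermat.Agent.LT.T7.H648

open scoped Pointwise

/-- The pointwise action of an element of the Galois group on an ideal of the ring of integers is
`Ideal.map` of the restriction `RingOfIntegers.mapRingEquiv`. -/
theorem smul_ideal_eq_map648 {K K' : Type} [Field K] [Field K'] [NumberField K']
    [Algebra K K'] (τ : K' ≃ₐ[K] K') (I : Ideal (𝓞 K')) :
    τ • I = Ideal.map (NumberField.RingOfIntegers.mapRingEquiv τ.toRingEquiv) I := by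
  rw [Ideal.pointwise_smul_def]
  show Ideal.span _ = Ideal.span _
  congr 1

/-- The relation "`u` lies over `v`" of `T7.PlaceOver` (written out) gives `Ideal.LiesOver`. -/
theorem liesOver_of_placeOver648 {K K' : Type} [Field K] [NumberField K] [Field K']
    [NumberField K'] [Algebra K K'] (v : HeightOneSpectrum (𝓞 K))
    (u : HeightOneSpectrum (𝓞 K'))
    (hu : ∀ (x : 𝓞 K) (y : 𝓞 K'), (y : K') = algebraMap K K' (x : K) →
      (x ∈ v.asIdeal ↔ y ∈ u.asIdeal)) : u.asIdeal.LiesOver v.asIdeal := by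
  refine ⟨?_⟩
  ext x
  rw [Ideal.under_def, Ideal.mem_comap]
  exact hu x (algebraMap (𝓞 K) (𝓞 K') x) rfl

/-- **LEAF T7.L2.1.C0.b = TRANSITIVITY**, VERBATIM. -/
theorem galTransC648 : Fermat.Agent.LT.T7.H644.GalTransC644 := by
  intro K K' _ _ _ _ _ hG v w w' hw hw'
  have h1 : w.asIdeal.LiesOver v.asIdeal := liesOver_of_placeOver648 v w hw
  have h2 : w'.asIdeal.LiesOver v.asIdeal := liesOver_of_placeOver648 v w' hw'
  have h3 : w.asIdeal.IsPrime := w.isPrime
  have h4 : w'.asIdeal.IsPrime := w'.isPrime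
  obtain ⟨τ, hτ⟩ := Ideal.exists_smul_eq_of_isGaloisGroup v.asIdeal w.asIdeal w'.asIdeal
    (K' ≃ₐ[K] K')
  exact ⟨τ, by rw [← hτ, smul_ideal_eq_map648]⟩

end Fermat.Agent.LT.T7.H648

end

end
-- ===== PACK-END LT/T7/H648/GalTrans.lean

-- ===== PACK-BEGIN LT/T7/H402/TraceAtomsMatrix.lean
section



/-!
# Row LT, tower T7 -- asset T7.C3.A (helper402): twisted trace atoms, MATRIX form

OFF-MAIN, Mathlib + `TraceAtoms.lean`; every proof is complete.

For a consumer who works in coordinates: on a finite-dimensional block with an orthonormal basis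
`u` (for a pairing `⟨ , ⟩` linear in the FIRST variable) let the matrix of an operator `X` be
`M_X i j` = the coefficient of `u i` in `X (u j)` (`= ⟨X (u j), u i⟩`).  For a unitary matrix `Q`
and `q k = ∑ j, Q j k • u j` one has `⟨X (q k), q k⟩ = (Qᴴ * M_X * Q) k k`.
-/

set_option autoImplicit false

open scoped InnerProductSpace ComplexConjugate Matrix
open Module

noncomputable section

namespace Fermat.Agent.LT.T7.H402

section MatrixForm

variable {n : Type} [Fintype n] [DecidableEq n]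

/-- The algebra isomorphism `Matrix n n ℂ ≃ End (EuclideanSpace ℂ n)` (standard basis). -/
def matEnd402 : Matrix n n ℂ ≃ₐ[ℂ] Module.End ℂ (EuclideanSpace ℂ n) :=
  Matrix.toLinAlgEquiv (EuclideanSpace.basisFun n ℂ).toBasis

theorem matEnd_eq402 (A : Matrix n n ℂ) : (matEnd402 A : Module.End ℂ (EuclideanSpace ℂ n))
    = Matrix.toEuclideanLin A := by
  rw [Matrix.toEuclideanLin_eq_toLin_orthonormal]
  rfl

theorem matEnd_apply402 (A : Matrix n n ℂ) (x : EuclideanSpace ℂ n) :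
    WithLp.ofLp (matEnd402 A x) = A *ᵥ WithLp.ofLp x := by
  rw [matEnd_eq402]
  rfl

theorem trace_matEnd402 (A : Matrix n n ℂ) :
    LinearMap.trace ℂ (EuclideanSpace ℂ n) (matEnd402 A) = A.trace :=
  Matrix.trace_toLin_eq A _

/-- **(A), matrix form.** -/
theorem twistedTraceAtomsMatrix402 {ι : Type*} (σ : Equiv.Perm ι) (U : ι → Matrix n n ℂ)
    (hU : ∀ a b, U a * U b = U b * U a) (T : Matrix n n ℂ)
    (hT : ∀ a, T * U a = U (σ a) * T) :
    ∃ (Q : Matrix n n ℂ) (χ : n → ι → ℂ) (t : n → ℂ),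
      Q ∈ Matrix.unitaryGroup n ℂ ∧
      (∀ w : List ι, Matrix.trace (T * (w.map U).prod) = ∑ i, t i * (w.map (χ i)).prod) ∧
      (∀ i, t i = 0 ∨ t i = (Qᴴ * T * Q) i i) ∧
      (∀ i, t i ≠ 0 → (∀ a, χ i (σ a) = χ i a) ∧
          ∃ x : n → ℂ, x ≠ 0 ∧ ∀ a, (U a) *ᵥ x = χ i a • x) := by
  have hU' : ∀ a b, Commute (matEnd402 (U a)) (matEnd402 (U b)) := by
    intro a b
    change matEnd402 (U a) * matEnd402 (U b) = matEnd402 (U b) * matEnd402 (U a)
    rw [← map_mul, ← map_mul, hU]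
  have hT' : ∀ a, matEnd402 T * matEnd402 (U a) = matEnd402 (U (σ a)) * matEnd402 T := by
    intro a
    rw [← map_mul, ← map_mul, hT]
  obtain ⟨n', hn', q, χ, t, h1, h2, h3⟩ :=
    twistedTraceAtoms402 σ (fun a => matEnd402 (U a)) hU' (matEnd402 T) hT'
  have hcard : Fintype.card n = Fintype.card n' := by
    rw [← Module.finrank_eq_card_basis (EuclideanSpace.basisFun n ℂ).toBasis,
      ← Module.finrank_eq_card_basis q.toBasis]
  obtain ⟨e⟩ : Nonempty (n ≃ n') := ⟨Fintype.equivOfCardEq hcard⟩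
  obtain ⟨q', hq'⟩ : ∃ q' : OrthonormalBasis n ℂ (EuclideanSpace ℂ n), ∀ k, q' k = q (e k) :=
    ⟨q.reindex e.symm, fun k => by rw [OrthonormalBasis.reindex_apply]; rfl⟩
  obtain ⟨Q, hQ⟩ : ∃ Q : Matrix n n ℂ,
      Q = (EuclideanSpace.basisFun n ℂ).toBasis.toMatrix ⇑q'.toBasis := ⟨_, rfl⟩
  have hQu : Q ∈ Matrix.unitaryGroup n ℂ := by
    rw [hQ, OrthonormalBasis.coe_toBasis]
    exact (EuclideanSpace.basisFun n ℂ).toMatrix_orthonormalBasis_mem_unitary q'
  have hQ4 : Q * Qᴴ = 1 := by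
    rw [hQ, OrthonormalBasis.coe_toBasis]
    exact (EuclideanSpace.basisFun n ℂ).toMatrix_orthonormalBasis_self_mul_conjTranspose q'
  have hQ2 : q'.toBasis.toMatrix ⇑(EuclideanSpace.basisFun n ℂ).toBasis * Q = 1 := by
    rw [hQ]
    exact Basis.toMatrix_mul_toMatrix_flip q'.toBasis (EuclideanSpace.basisFun n ℂ).toBasis
  have hQ3 : q'.toBasis.toMatrix ⇑(EuclideanSpace.basisFun n ℂ).toBasis = Qᴴ := by
    calc q'.toBasis.toMatrix ⇑(EuclideanSpace.basisFun n ℂ).toBasis
        = q'.toBasis.toMatrix ⇑(EuclideanSpace.basisFun n ℂ).toBasis * (Q * Qᴴ) := by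
          rw [hQ4, mul_one]
      _ = (q'.toBasis.toMatrix ⇑(EuclideanSpace.basisFun n ℂ).toBasis * Q) * Qᴴ := by
          rw [mul_assoc]
      _ = Qᴴ := by rw [hQ2, one_mul]
  have hmat : LinearMap.toMatrix q'.toBasis q'.toBasis (matEnd402 T) = Qᴴ * T * Q := by
    rw [← hQ3, hQ]
    have h5 := basis_toMatrix_mul_linearMap_toMatrix_mul_basis_toMatrix
      q'.toBasis (EuclideanSpace.basisFun n ℂ).toBasis q'.toBasis
      (EuclideanSpace.basisFun n ℂ).toBasis (matEnd402 T)
    have h7 : LinearMap.toMatrix (EuclideanSpace.basisFun n ℂ).toBasis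
        (EuclideanSpace.basisFun n ℂ).toBasis (matEnd402 T) = T :=
      LinearMap.toMatrix_toLin _ _ T
    rw [h7] at h5
    exact h5.symm
  refine ⟨Q, fun k => χ (e k), fun k => t (e k), hQu, ?_, ?_, ?_⟩
  · intro w
    have hw : matEnd402 (T * (w.map U).prod)
        = matEnd402 T * (w.map (fun a => matEnd402 (U a))).prod := by
      rw [map_mul, map_list_prod, List.map_map]
      rfl
    rw [← trace_matEnd402, hw, h1 w]
    exact (Equiv.sum_comp e (fun i => t i * (w.map (χ i)).prod)).symm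
  · intro k
    rcases h2 (e k) with h | h
    · left; exact h
    · right
      show t (e k) = _
      rw [h, ← hq' k]
      have h6 := congrFun (congrFun hmat k) k
      rw [← h6, LinearMap.toMatrix_apply, OrthonormalBasis.coe_toBasis,
        OrthonormalBasis.coe_toBasis_repr_apply, OrthonormalBasis.repr_apply_apply]
  · intro k hk
    obtain ⟨hσ, x, hx, hxe⟩ := h3 (e k) hk
    refine ⟨hσ, WithLp.ofLp x, ?_, ?_⟩
    · intro h
      apply hx
      apply (WithLp.ofLp_injective 2)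
      exact h
    · intro a
      rw [← matEnd_apply402, hxe a]
      rfl

end MatrixForm

end Fermat.Agent.LT.T7.H402

end
end
-- ===== PACK-END LT/T7/H402/TraceAtomsMatrix.lean

-- ===== PACK-BEGIN LT/T7/H729/MovedPlace.lean
section



/-!
# Row LT, tower T7, leaf T7.L2.1.C0.a `MovedPlaceC644` (helper729), OFF-MAIN

`movedPlaceC729 : H644.MovedPlaceC644` VERBATIM (frozen Prop of
`Fermat/Agent/LT/T7/H644/SetupSpec.lean`, sha256 c04970e4, byte-identical copy); the proof is the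
Mathlib-only core `movedPlace_core729` of `H729/MovedPlaceCore.lean` (norm estimate at the
infinite places; no Chebotarev).
-/

set_option autoImplicit false

namespace Fermat.Agent.LT.T7.H729

/-- **LEAF T7.L2.1.C0.a `MovedPlaceC644`.** -/
theorem movedPlaceC729 : Fermat.Agent.LT.T7.H644.MovedPlaceC644 :=
  fun K' _ _ σ hσ T => movedPlace_core729 K' σ hσ T

end Fermat.Agent.LT.T7.H729

end
-- ===== PACK-END LT/T7/H729/MovedPlace.lean

-- ===== PACK-BEGIN LT/T7/H860/ProjSeq.lean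
section




/-!
# Row LT, tower T7, node T7.L2.3.5.4 `WBasisC`, leaf WB.C1 `ProjSeqC776` (registry row 2393)
(helper860)

OFF-MAIN.  MATHLIB ONLY (plus the frozen Spec `LT/T7/H776/AbsSpec.lean`, helper776@c8c37e749,
sha256 9c373ad844fa8253, byte-identical copy).  Nothing assumed.  ADDITIVE.

    projSeqC860 : Fermat.Agent.LT.T7.WB776.ProjSeqC776

Proof: the form makes the subspace `Vm` an inner product space (`InnerProductSpace.Core`, with
`inner x y = form y x`); the members `u j`, `P (u j)` (`j ∈ J₀`) are moved to `Vm`, the statement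
in an inner product space is `projSeq_ips860` (`ProjSeqCore.lean`), and the spans are moved back
along the inclusion of `Vm`.  `P` is used for the exhaustion only (`x = P x` for `x ∈ Wm`).
-/

set_option autoImplicit false
set_option linter.style.haveILetI false

open scoped ComplexConjugate InnerProductSpace

noncomputable section

namespace Fermat.Agent.LT.T7.H860

section Transfer

variable {M : Type} [AddCommGroup M] [Module ℂ M]

/-- A member of a span in a subspace lies in the span of the images. -/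
theorem coe_mem_span860 (Vm : Submodule ℂ M) (s : Set Vm) (t : Set M)
    (hst : ∀ x ∈ s, (x : M) ∈ t) {x : Vm} (hx : x ∈ Submodule.span ℂ s) :
    (x : M) ∈ Submodule.span ℂ t := by
  have h1 := Submodule.apply_mem_span_image_of_mem_span Vm.subtype hx
  refine Submodule.span_mono ?_ h1
  rintro _ ⟨y, hy, rfl⟩
  exact hst y hy

/-- A member of the subspace which lies in the span of the images lies in the span. -/
theorem mem_span_of_coe_mem860 (Vm : Submodule ℂ M) (s : Set Vm) (t : Set M)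
    (hts : ∀ y ∈ t, ∃ x ∈ s, (x : M) = y) {x : Vm} (hx : (x : M) ∈ Submodule.span ℂ t) :
    x ∈ Submodule.span ℂ s := by
  have h1 : Submodule.span ℂ t ≤ Submodule.map Vm.subtype (Submodule.span ℂ s) := by
    rw [Submodule.span_le]
    intro y hy
    obtain ⟨z, hz, rfl⟩ := hts y hy
    exact ⟨z, Submodule.subset_span hz, rfl⟩
  obtain ⟨z, hz, hzx⟩ := h1 hx
  have : z = x := Subtype.ext hzx
  rw [← this]
  exact hz

end Transfer

/-- **LEAF WB.C1 = PROJ-SEQ** (registry row 2393). -/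
theorem projSeqC860 : Fermat.Agent.LT.T7.WB776.ProjSeqC776 := by
  intro M _ _ form Vm Wm A u J₀ cl P hWV hadd hsmul hsymm hpos hdef huV hu1 hu0 hpars hfin
    hPW hPE hPfix hPform
  classical
  -- the inner product space structure on `Vm` (`inner x y = form y x`)
  let cd : InnerProductSpace.Core ℂ Vm :=
    { inner := fun x y => form (y : M) (x : M)
      conj_inner_symm := fun x y => (hsymm (x : M) x.2 (y : M) y.2).symm
      re_inner_nonneg := fun x => hpos (x : M) x.2
      add_left := fun x y z => by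
        show form (z : M) ((x + y : Vm) : M) = form (z : M) (x : M) + form (z : M) (y : M)
        rw [Submodule.coe_add, hsymm _ (Vm.add_mem x.2 y.2) _ z.2, hadd _ x.2 _ y.2 _ z.2,
          map_add, ← hsymm _ x.2 _ z.2, ← hsymm _ y.2 _ z.2]
      smul_left := fun x y r => by
        show form (y : M) ((r • x : Vm) : M) = conj r * form (y : M) (x : M)
        rw [Submodule.coe_smul, hsymm _ (Vm.smul_mem r x.2) _ y.2, hsmul r _ x.2 _ y.2,
          map_mul, ← hsymm _ x.2 _ y.2]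
      definite := fun x hx => Subtype.ext (hdef (x : M) x.2 hx) }
  letI : NormedAddCommGroup Vm := @InnerProductSpace.Core.toNormedAddCommGroup ℂ Vm _ _ _ cd
  letI : InnerProductSpace ℂ Vm := InnerProductSpace.ofCore cd.toCore
  have hinner : ∀ x y : Vm, ⟪x, y⟫_ℂ = form (y : M) (x : M) := fun _ _ => rfl
  have hnorm : ∀ x : Vm, ‖x‖ ^ 2 = (form (x : M) (x : M)).re := fun x => by
    rw [norm_sq_eq_re_inner (𝕜 := ℂ) x, hinner]
    rfl
  -- the data in `Vm`
  set W' : Submodule ℂ Vm := Submodule.comap Vm.subtype Wm with hW'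
  set u' : ℕ → Vm := fun j => if h : j ∈ J₀ then ⟨u j, huV j h⟩ else 0 with hu'
  set p' : ℕ → Vm := fun j => if h : j ∈ J₀ then ⟨P (u j), hWV (hPW j h)⟩ else 0 with hp'
  have hu'c : ∀ j ∈ J₀, ((u' j : Vm) : M) = u j := fun j hj => by
    simp only [hu', dif_pos hj]
  have hp'c : ∀ j ∈ J₀, ((p' j : Vm) : M) = P (u j) := fun j hj => by
    simp only [hp', dif_pos hj]
  have key := projSeq_ips860 (E := Vm) W' u' p' J₀ cl ?_ ?_ hfin ?_ ?_ ?_
  · obtain ⟨w, J, hJ, hwF, hwon, hwpars, hwex⟩ := key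
    refine ⟨fun j => ((w j : Vm) : M), J, hJ, ?_, ?_, ?_, ?_, ?_⟩
    · intro j hj
      refine coe_mem_span860 Vm _ _ ?_ (hwF j hj)
      rintro _ ⟨i, hi, hic, rfl⟩
      exact ⟨i, hi, hic, hp'c i hi⟩
    · intro j hj
      have := hwon j hj j hj
      rw [if_pos rfl, hinner] at this
      exact this
    · intro i hi j hj hij
      have := hwon j hj i hi
      rw [if_neg (Ne.symm hij), hinner] at this
      exact this
    · intro χ hχ
      have h1 := hwpars ⟨χ, hWV hχ⟩ hχ
      rw [hnorm] at h1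
      exact h1
    · intro j₀ hj₀ x hx hxE
      have h1 : P x ∈ Submodule.span ℂ {f : M | ∃ i : ℕ, i ∈ J₀ ∧ cl i = cl j₀ ∧ f = P (u i)} := by
        refine Submodule.span_mono ?_ (Submodule.apply_mem_span_image_of_mem_span P hxE)
        rintro _ ⟨_, ⟨i, hi, hic, rfl⟩, rfl⟩
        exact ⟨i, hi, hic, rfl⟩
      rw [hPfix x hx] at h1
      have h2 : (⟨x, hWV hx⟩ : Vm) ∈
          Submodule.span ℂ {f : Vm | ∃ i : ℕ, i ∈ J₀ ∧ cl i = cl j₀ ∧ f = p' i} := by
        refine mem_span_of_coe_mem860 Vm _ _ ?_ h1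
        rintro _ ⟨i, hi, hic, rfl⟩
        exact ⟨p' i, ⟨i, hi, hic, rfl⟩, hp'c i hi⟩
      have h3 := hwex (cl j₀) h2
      refine coe_mem_span860 Vm _ _ ?_ h3
      rintro _ ⟨j, hj, hjc, rfl⟩
      exact ⟨j, hj, hjc, rfl⟩
  · -- orthonormality of `u'`
    intro i hi j hj
    rw [hinner, hu'c i hi, hu'c j hj]
    by_cases hij : i = j
    · subst hij
      rw [if_pos rfl]
      exact hu1 i hi
    · rw [if_neg hij]
      exact hu0 j hj i hi (Ne.symm hij)
  · -- Parseval
    intro χ hχ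
    have h1 := hpars (χ : M) hχ
    rw [hnorm]
    have h2 : (fun j : J₀ => ‖⟪u' j, χ⟫_ℂ‖ ^ 2) = fun j : J₀ => ‖form (χ : M) (u j)‖ ^ 2 := by
      funext j
      rw [hinner, hu'c j j.2]
    rw [h2]
    exact h1
  · -- `p' j ∈ W'`
    intro j hj
    show ((p' j : Vm) : M) ∈ Wm
    rw [hp'c j hj]
    exact hPW j hj
  · -- `p' j` in the class space
    intro j hj
    refine mem_span_of_coe_mem860 Vm _ _ ?_ (by rw [hp'c j hj]; exact hPE j hj)
    rintro _ ⟨i, hi, hic, rfl⟩
    exact ⟨u' i, ⟨i, hi, hic, rfl⟩, hu'c i hi⟩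
  · -- the form on the `p' j`
    intro χ hχ j hj
    rw [hinner, hinner, hp'c j hj, hu'c j hj]
    exact hPform (χ : M) hχ j hj

end Fermat.Agent.LT.T7.H860

end

end
-- ===== PACK-END LT/T7/H860/ProjSeq.lean

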