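import Mathlib
import Fermat.Agent.Pack.LT3.E3L0
import Fermat.Agent.Pack.LT3.E3L3
import Fermat.Agent.Pack.LT3.E4L1
import Fermat.Agent.Pack.LT2.E0L1
import Fermat.Agent.Pack.LT3.E3L2
import Fermat.Agent.Pack.LT3.E5L3

set_option linter.all false

-- ===== PACK-BEGIN LT/T6/H769/CoreAbs.lean
section


/-!
# Row LT, T6.00q.7 `CoreC438` (helper769, OFF-MAIN): the abstract core

`core_abs769`: for squarefree integers `m ≠ 1`, `n₀`, not both negative, satisfying the local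
conditions at the odd primes dividing `n₀` but not `m`, at `2` and at `3`, there is a prime
`q ≡ 1 mod 3` such that `X² = m Y² + n₀ q Z²` has an integral solution with `Z ≠ 0`.
(Dirichlet's theorem + Jacobi reciprocity + Legendre's theorem.)
-/

set_option autoImplicit false

namespace Fermat.Agent.LT.T6.H769

open scoped NumberTheorySymbols

theorem jac_root769 {p : ℕ} (hp : p.Prime) {x : ℤ} (h : J(x | p) = 1) :
    ∃ t : ℤ, (p : ℤ) ∣ t ^ 2 - x := by
  have : Fact p.Prime := ⟨hp⟩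
  obtain ⟨y, hy⟩ := ZMod.isSquare_of_jacobiSym_eq_one h
  refine ⟨(y.val : ℤ), ?_⟩
  rw [← ZMod.intCast_zmod_eq_zero_iff_dvd]
  push_cast
  rw [ZMod.natCast_zmod_val, hy]
  ring

theorem jac_sq_of_dvd769 {N : ℕ} {x y : ℤ} (h : (N : ℤ) ∣ x - y ^ 2) (hc : IsCoprime y N) :
    J(x | N) = 1 := by
  rw [jacobiSym.mod_left' (a₂ := y ^ 2)]
  · apply jacobiSym.sq_one'
    rw [← Int.isCoprime_iff_gcd_eq_one]
    exact hc
  · exact (Int.modEq_iff_dvd.mpr h).symm

theorem coprime_of_dvd_sub769 {M r r' : ℤ} (h : M ∣ r - r') (hc : IsCoprime r' M) :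
    IsCoprime r M := by
  obtain ⟨k, hk⟩ := h
  have : r = r' + M * k := by linarith
  rw [this]
  exact hc.add_mul_left_left k

/-- Splitting off the gcd of two squarefree integers. -/
theorem gcd_split769 (m n : ℤ) (hm : Squarefree m) (hn : Squarefree n) :
    ∃ (g : ℕ) (m₁ n₁ : ℤ), 0 < g ∧ m = g * m₁ ∧ n = g * n₁ ∧ IsCoprime m₁ n₁ ∧
      IsCoprime (g : ℤ) m₁ ∧ IsCoprime (g : ℤ) n₁ := by
  obtain ⟨m₁, hm₁⟩ := Int.gcd_dvd_left m n
  obtain ⟨n₁, hn₁⟩ := Int.gcd_dvd_right m n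
  have hg : 0 < Int.gcd m n := Int.gcd_pos_of_ne_zero_left n hm.ne_zero
  refine ⟨Int.gcd m n, m₁, n₁, hg, hm₁, hn₁, ?_, ?_, ?_⟩
  · rw [Int.isCoprime_iff_gcd_eq_one]
    have h0 : Int.gcd ((Int.gcd m n : ℤ) * m₁) ((Int.gcd m n : ℤ) * n₁) = Int.gcd m n := by
      rw [← hm₁, ← hn₁]
    have h1 : Int.gcd m n = Int.gcd m n * Int.gcd m₁ n₁ := by
      rw [Int.gcd_mul_left] at h0
      simpa using h0.symm
    have h2 : Int.gcd m n * 1 = Int.gcd m n * Int.gcd m₁ n₁ := by rw [mul_one]; exact h1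
    exact (Nat.eq_of_mul_eq_mul_left hg h2).symm
  · rw [hm₁] at hm
    exact (squarefree_mul_iff.mp hm).1.isCoprime
  · rw [hn₁] at hn
    exact (squarefree_mul_iff.mp hn).1.isCoprime

theorem crt4_769 (M₁ M₂ M₃ M₄ : ℤ) (h12 : IsCoprime M₁ M₂) (h13 : IsCoprime M₁ M₃)
    (h14 : IsCoprime M₁ M₄) (h23 : IsCoprime M₂ M₃) (h24 : IsCoprime M₂ M₄)
    (h34 : IsCoprime M₃ M₄) (r₁ r₂ r₃ r₄ : ℤ) :
    ∃ r : ℤ, M₁ ∣ r - r₁ ∧ M₂ ∣ r - r₂ ∧ M₃ ∣ r - r₃ ∧ M₄ ∣ r - r₄ := by
  obtain ⟨x, hx1, hx2⟩ := crt769 M₁ M₂ h12 r₁ r₂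
  obtain ⟨y, hy1, hy2⟩ := crt769 (M₁ * M₂) M₃ (h13.mul_left h23) x r₃
  obtain ⟨r, hr1, hr2⟩ := crt769 (M₁ * M₂ * M₃) M₄ ((h14.mul_left h24).mul_left h34) y r₄
  have a1 : M₁ ∣ r - y := dvd_trans ⟨M₂ * M₃, by ring⟩ hr1
  have a2 : M₂ ∣ r - y := dvd_trans ⟨M₁ * M₃, by ring⟩ hr1
  have a3 : M₃ ∣ r - y := dvd_trans ⟨M₁ * M₂, by ring⟩ hr1
  have b1 : M₁ ∣ y - x := dvd_trans ⟨M₂, by ring⟩ hy1
  have b2 : M₂ ∣ y - x := dvd_trans ⟨M₁, by ring⟩ hy1
  refine ⟨r, ?_, ?_, ?_, hr2⟩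
  · have : r - r₁ = (r - y) + (y - x) + (x - r₁) := by ring
    rw [this]
    exact dvd_add (dvd_add a1 b1) hx1
  · have : r - r₂ = (r - y) + (y - x) + (x - r₂) := by ring
    rw [this]
    exact dvd_add (dvd_add a2 b2) hx2
  · have : r - r₃ = (r - y) + (y - r₃) := by ring
    rw [this]
    exact dvd_add a3 hy2

theorem sgn_cases769 (t : Bool) : sgn769 t = 1 ∨ sgn769 t = -1 := by
  cases t <;> simp [sgn769]

/-- An odd prime dividing `e · 2^i · o` (`e = ± 1`) divides `o`. -/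
theorem odd_prime_dvd769 {p : ℕ} (hp : p.Prime) (hp2 : p ≠ 2) {t : Bool} {i o : ℕ} {x : ℤ}
    (hx : x = sgn769 t * 2 ^ i * o) (h : (p : ℤ) ∣ x) : (p : ℤ) ∣ o := by
  have hpz : Prime (p : ℤ) := Nat.prime_iff_prime_int.mp hp
  rw [hx] at h
  rcases hpz.dvd_or_dvd h with h1 | h1
  · rcases hpz.dvd_or_dvd h1 with h2 | h2
    · exfalso
      rcases sgn_cases769 t with e | e <;> rw [e] at h2
      · exact hpz.not_dvd_one h2
      · exact hpz.not_dvd_one ((dvd_neg).mp h2)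
    · exfalso
      have h3 := hpz.dvd_of_dvd_pow h2
      have h4 : p ∣ 2 := by exact_mod_cast h3
      exact hp2 ((Nat.prime_dvd_prime_iff_eq hp Nat.prime_two).mp h4)
  · exact h1

end Fermat.Agent.LT.T6.H769

end
-- ===== PACK-END LT/T6/H769/CoreAbs.lean

-- ===== PACK-BEGIN LT/T6/H781/EllDown.lean
section



/-!
# Row LT, tower T6, leaf T6.28 (helper781): part (A), the elliptic orbital integral downstairs

OFF-MAIN.  Mathlib only.  Polar coordinates in iterated form, the extension of a profile to a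
continuous function on `ℝ`, the core identity

`π ∫_{τ>0} g(1 + m² sinh²τ) sinh τ dτ = ∫_{p>0} (∫_ℝ g(1 + p² + u²) du) / (m² + p²) dp`

and `EllDownC`.
-/

set_option autoImplicit false

open MeasureTheory Set

noncomputable section

namespace Fermat.Agent.LT.T6.H781

/-- Polar coordinates in iterated form. -/
theorem integral_polar781 {f : ℝ × ℝ → ℂ} (hf : Integrable f) :
    ∫ z, f z = ∫ r in Ioi (0 : ℝ), ∫ ψ in Ioo (-Real.pi) Real.pi,
      ((r : ℝ) : ℂ) * f (r * Real.cos ψ, r * Real.sin ψ) := by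
  rw [← integral_comp_polarCoord_symm]
  have hint : IntegrableOn (fun p : ℝ × ℝ => p.1 • f (polarCoord.symm p))
      (Ioi (0 : ℝ) ×ˢ Ioo (-Real.pi) Real.pi) := by
    have h1 : IntegrableOn f (polarCoord.symm '' polarCoord.target) := hf.integrableOn
    rw [integrableOn_image_iff_integrableOn_abs_det_fderiv_smul volume
      polarCoord.open_target.measurableSet
      (fun p _ => (hasFDerivAt_polarCoord_symm p).hasFDerivWithinAt)
      polarCoord.symm.injOn] at h1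
    simp_rw [det_fderivPolarCoordSymm] at h1
    refine IntegrableOn.congr_fun h1 (fun x hx => ?_) polarCoord.open_target.measurableSet
    have hx1 : (0 : ℝ) < x.1 := hx.1
    simp only [abs_of_pos hx1]
  have h2 := setIntegral_prod (fun p : ℝ × ℝ => p.1 • f (polarCoord.symm p)) hint
  have h3 : polarCoord.target = Ioi (0 : ℝ) ×ˢ Ioo (-Real.pi) Real.pi := rfl
  rw [h3]
  rw [show (volume : Measure (ℝ × ℝ)) = (volume : Measure ℝ).prod (volume : Measure ℝ) from rfl]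
  rw [h2]
  refine setIntegral_congr_fun measurableSet_Ioi fun r _ => ?_
  refine setIntegral_congr_fun measurableSet_Ioo fun ψ _ => ?_
  simp [polarCoord_symm_apply, Complex.real_smul]

theorem abs_le_of_sq_lt781 {x R : ℝ} (hR : 1 ≤ R) (h : x ^ 2 < R) : x ∈ Icc (-R) R := by
  have h1 : x ^ 2 < R ^ 2 := lt_of_lt_of_le h (by nlinarith)
  have h2 : |x| < R := abs_lt_of_sq_lt_sq h1 (by linarith)
  exact ⟨(abs_lt.1 h2).1.le, (abs_lt.1 h2).2.le⟩

/-- **(A), core form**: `g` continuous on `ℝ`, zero on `[R, ∞)`, `m > 0`. -/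
theorem ellDownCore781 {g : ℝ → ℂ} {R : ℝ} (hg : Continuous g) (hR : 1 ≤ R)
    (h0 : ∀ y, R ≤ y → g y = 0) {m : ℝ} (hm : 0 < m) :
    ((Real.pi : ℝ) : ℂ) *
        ∫ τ in Ioi (0 : ℝ), g (1 + m ^ 2 * Real.sinh τ ^ 2) * ((Real.sinh τ : ℝ) : ℂ)
      = ∫ p in Ioi (0 : ℝ), (∫ u : ℝ, g (1 + p ^ 2 + u ^ 2)) / ((m ^ 2 + p ^ 2 : ℝ) : ℂ) := by
  set F : ℝ × ℝ → ℂ := fun z => g (1 + z.1 ^ 2 + z.2 ^ 2) / ((m ^ 2 + z.1 ^ 2 : ℝ) : ℂ) with hF
  have hden : ∀ x : ℝ, ((m ^ 2 + x ^ 2 : ℝ) : ℂ) ≠ 0 := fun x => by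
    have : (m ^ 2 + x ^ 2 : ℝ) ≠ 0 := by positivity
    exact_mod_cast this
  have hFc : Continuous F := by
    refine Continuous.div (by fun_prop) (by fun_prop) (fun z => hden z.1)
  have hFs : HasCompactSupport F := by
    refine HasCompactSupport.intro
      (isCompact_Icc.prod isCompact_Icc : IsCompact (Icc (-R) R ×ˢ Icc (-R) R)) fun z hz => ?_
    have hz' : R ≤ 1 + z.1 ^ 2 + z.2 ^ 2 := by
      by_contra hlt
      push Not at hlt
      apply hz
      have h1 : z.1 ^ 2 < R := by nlinarith [sq_nonneg z.2]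
      have h2 : z.2 ^ 2 < R := by nlinarith [sq_nonneg z.1]
      exact ⟨abs_le_of_sq_lt781 hR h1, abs_le_of_sq_lt781 hR h2⟩
    simp only [hF, h0 _ hz', zero_div]
  have hFi : Integrable F := hFc.integrable_of_hasCompactSupport hFs
  have hS : MeasurableSet (Ioi (0 : ℝ) ×ˢ (univ : Set ℝ)) :=
    measurableSet_Ioi.prod MeasurableSet.univ
  -- the right-hand side as an integral over the half plane
  have e1 : ∫ p in Ioi (0 : ℝ), (∫ u : ℝ, g (1 + p ^ 2 + u ^ 2)) / ((m ^ 2 + p ^ 2 : ℝ) : ℂ)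
      = ∫ z, (Ioi (0 : ℝ) ×ˢ (univ : Set ℝ)).indicator F z := by
    rw [integral_indicator hS]
    have h1 := setIntegral_prod F (s := Ioi (0 : ℝ)) (t := (univ : Set ℝ)) hFi.integrableOn
    rw [show (volume : Measure (ℝ × ℝ)) = (volume : Measure ℝ).prod (volume : Measure ℝ) from rfl,
      h1]
    refine setIntegral_congr_fun measurableSet_Ioi fun p _ => ?_
    simp only [hF, setIntegral_univ]
    rw [integral_div]
  rw [e1, integral_polar781 (hFi.indicator hS)]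
  -- the angular integral
  have e2 : ∀ r ∈ Ioi (0 : ℝ), ∫ ψ in Ioo (-Real.pi) Real.pi,
      ((r : ℝ) : ℂ) * (Ioi (0 : ℝ) ×ˢ (univ : Set ℝ)).indicator F
        (r * Real.cos ψ, r * Real.sin ψ)
      = ((r * (Real.pi / (m * Real.sqrt (m ^ 2 + r ^ 2))) : ℝ) : ℂ) * g (1 + r ^ 2) := by
    intro r hr
    have hr' : (0 : ℝ) < r := hr
    have hcongr : ∀ ψ ∈ Ioo (-Real.pi) Real.pi,
        ((r : ℝ) : ℂ) * (Ioi (0 : ℝ) ×ˢ (univ : Set ℝ)).indicator F
          (r * Real.cos ψ, r * Real.sin ψ)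
        = (Ioo (-(Real.pi / 2)) (Real.pi / 2)).indicator
          (fun ψ => ((r : ℝ) : ℂ) * g (1 + r ^ 2) *
            (((m ^ 2 + r ^ 2 * Real.cos ψ ^ 2)⁻¹ : ℝ) : ℂ)) ψ := by
      intro ψ hψ
      by_cases hc : ψ ∈ Ioo (-(Real.pi / 2)) (Real.pi / 2)
      · have hcos : 0 < Real.cos ψ := Real.cos_pos_of_mem_Ioo hc
        have hmem : (r * Real.cos ψ, r * Real.sin ψ) ∈ Ioi (0 : ℝ) ×ˢ (univ : Set ℝ) :=
          ⟨mul_pos hr' hcos, mem_univ _⟩
        rw [indicator_of_mem hc, indicator_of_mem hmem]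
        simp only [hF]
        have h1 : 1 + (r * Real.cos ψ) ^ 2 + (r * Real.sin ψ) ^ 2 = 1 + r ^ 2 := by
          have := Real.sin_sq_add_cos_sq ψ
          nlinarith
        rw [h1]
        push_cast
        rw [div_eq_mul_inv]
        ring
      · have hcos : Real.cos ψ ≤ 0 := by
          rcases le_or_gt (Real.pi / 2) ψ with h | h
          · exact Real.cos_nonpos_of_pi_div_two_le_of_le h (by linarith [hψ.2, Real.pi_pos])
          · have h2 : ψ ≤ -(Real.pi / 2) := by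
              by_contra h3
              push Not at h3
              exact hc ⟨h3, h⟩
            rw [← Real.cos_neg]
            exact Real.cos_nonpos_of_pi_div_two_le_of_le (by linarith)
              (by linarith [hψ.1, Real.pi_pos])
        have hmem : (r * Real.cos ψ, r * Real.sin ψ) ∉ Ioi (0 : ℝ) ×ˢ (univ : Set ℝ) := by
          rintro ⟨h1, -⟩
          have h1' : 0 < r * Real.cos ψ := h1
          nlinarith
        rw [indicator_of_notMem hc, indicator_of_notMem hmem, mul_zero]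
    rw [setIntegral_congr_fun measurableSet_Ioo hcongr, setIntegral_indicator measurableSet_Ioo]
    have hsub : Ioo (-Real.pi) Real.pi ∩ Ioo (-(Real.pi / 2)) (Real.pi / 2)
        = Ioo (-(Real.pi / 2)) (Real.pi / 2) := by
      apply inter_eq_right.2
      intro x hx
      exact ⟨by linarith [hx.1, Real.pi_pos], by linarith [hx.2, Real.pi_pos]⟩
    rw [hsub, integral_const_mul, integral_complex_ofReal, integral_angular781 hm r]
    push_cast
    ring
  rw [setIntegral_congr_fun measurableSet_Ioi e2]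
  -- the substitution `r = m sinh τ`
  have e3 := integral_subst_sinh781 hm one_pos
    (fun r : ℝ => ((r * (Real.pi / (m * Real.sqrt (m ^ 2 + r ^ 2))) : ℝ) : ℂ) * g (1 + r ^ 2))
  rw [e3, ← integral_const_mul]
  symm
  refine setIntegral_congr_fun measurableSet_Ioi fun τ _ => ?_
  have hsq : Real.sqrt (m ^ 2 + (m * Real.sinh τ) ^ 2) = m * Real.cosh τ := by
    have h1 : m ^ 2 + (m * Real.sinh τ) ^ 2 = (m * Real.cosh τ) ^ 2 := by
      rw [mul_pow, mul_pow, Real.cosh_sq]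
      ring
    rw [h1, Real.sqrt_sq (by positivity)]
  have hch : Real.cosh τ ≠ 0 := (Real.cosh_pos τ).ne'
  simp only [one_mul, mul_one]
  rw [hsq]
  have h2 : (m * Real.sinh τ) ^ 2 = m ^ 2 * Real.sinh τ ^ 2 := by ring
  rw [h2]
  have h3 : m * Real.cosh τ * (m * Real.sinh τ * (Real.pi / (m * (m * Real.cosh τ))))
      = Real.pi * Real.sinh τ := by
    field_simp
  rw [← mul_assoc, ← Complex.ofReal_mul, h3]
  push_cast
  ring

/-! ## Profiles -/

/-- The extension of a profile to `ℝ`: constant on `(-∞, 1]`. -/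
def profExt781 (g : ℝ → ℂ) : ℝ → ℂ := fun y => g (max y 1)

theorem profExt781_of_le {g : ℝ → ℂ} {y : ℝ} (hy : 1 ≤ y) : profExt781 g y = g y := by
  simp [profExt781, max_eq_left hy]

theorem continuous_profExt781 {g : ℝ → ℂ} (hg : ContinuousOn g (Ici 1)) :
    Continuous (profExt781 g) := by
  have h1 : Continuous fun y : ℝ => max y 1 := by fun_prop
  exact hg.comp_continuous h1 (fun y => le_max_right y 1)

theorem profExt781_zero {g : ℝ → ℂ} {R : ℝ} (h0 : ∀ y, R ≤ y → g y = 0) {y : ℝ}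
    (hy : max R 1 ≤ y) : profExt781 g y = 0 := by
  have h1 : (1 : ℝ) ≤ y := le_trans (le_max_right R 1) hy
  rw [profExt781_of_le h1]
  exact h0 y (le_trans (le_max_left R 1) hy)

/-- **(A) for profiles**, with a general `m > 0`. -/
theorem ellDownProfile781 {g : ℝ → ℂ} (hg : IsProfile g) {m : ℝ} (hm : 0 < m) :
    ((Real.pi : ℝ) : ℂ) *
        ∫ τ in Ioi (0 : ℝ), g (1 + m ^ 2 * Real.sinh τ ^ 2) * ((Real.sinh τ : ℝ) : ℂ)
      = ∫ p in Ioi (0 : ℝ), abelT g (1 + p ^ 2) / ((m ^ 2 + p ^ 2 : ℝ) : ℂ) := by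
  obtain ⟨hc, R, h0⟩ := hg
  have core := ellDownCore781 (continuous_profExt781 hc) (le_max_right R 1)
    (fun y hy => profExt781_zero h0 hy) hm
  have e1 : ∫ τ in Ioi (0 : ℝ), g (1 + m ^ 2 * Real.sinh τ ^ 2) * ((Real.sinh τ : ℝ) : ℂ)
      = ∫ τ in Ioi (0 : ℝ),
          profExt781 g (1 + m ^ 2 * Real.sinh τ ^ 2) * ((Real.sinh τ : ℝ) : ℂ) := by
    refine setIntegral_congr_fun measurableSet_Ioi fun τ _ => ?_
    rw [profExt781_of_le]
    nlinarith [sq_nonneg (m * Real.sinh τ)]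
  rw [e1, core]
  refine setIntegral_congr_fun measurableSet_Ioi fun p _ => ?_
  simp only [abelT]
  congr 1
  refine integral_congr_ae (Filter.Eventually.of_forall fun u => ?_)
  show profExt781 g (1 + p ^ 2 + u ^ 2) = g (1 + p ^ 2 + u ^ 2)
  rw [profExt781_of_le]
  nlinarith [sq_nonneg p, sq_nonneg u]

/-- **T6.28 (A)**. -/
theorem ellDownC781 : EllDownC := by
  intro g hg θ hθ
  have hspos : 0 < |Real.sin θ| := abs_pos.2 hθ
  have hmpos : 0 < Real.sqrt 2 * |Real.sin θ| := mul_pos (Real.sqrt_pos.2 two_pos) hspos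
  have hm2 : (Real.sqrt 2 * |Real.sin θ|) ^ 2 = 2 * Real.sin θ ^ 2 := by
    rw [mul_pow, Real.sq_sqrt (by norm_num), sq_abs]
  have h := ellDownProfile781 hg hmpos
  rw [hm2] at h
  exact h

end Fermat.Agent.LT.T6.H781

end

end
-- ===== PACK-END LT/T6/H781/EllDown.lean

-- ===== PACK-BEGIN LT/T6/H783/BadTop.lean
section


/-!
# Row LT, tower T6, leaf T6.18 `BadMatchC`: the PROVED tops from the sub-leaves (helper783)

* `locCen_of_cases783 : CenNormC783 → CenOddC783 → CenQuatC783 → LocCenC783`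
* `badMatch_of_leaves783 : OrbSumExC → OrbSumUniqC → CoverC783 → CptC783 → CutC783 →
    FinSuppLvlC783 → LvlC783 → AddC783 → LocRegC783 → LocCenC783 → BadMatchC`
-/

set_option autoImplicit false

open scoped Matrix

noncomputable section

namespace Fermat.Agent.LT.T6.H783

open Fermat.Agent.LT.T6

/-! ## Small lemmas -/

theorem glAut_refl783 {R : Type} [CommRing R] (x : GL (Fin 2) R) :
    glAut (RingEquiv.refl R) x = x := by
  apply Units.ext
  ext a b
  simp [glAut]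

section Basic

variable {k : Type} [Field k] [Valued k Γ₀]

theorem inU_mono783 {m m' : ℕ} (h : m ≤ m') {g : GL (Fin 2) k} (hg : InU m' g) : InU m g := by
  intro a b
  have hle : WithZero.exp (-(m' : ℤ)) ≤ WithZero.exp (-(m : ℤ)) := by
    rw [WithZero.exp_le_exp]
    omega
  exact ⟨(hg a b).1.trans hle, (hg a b).2.trans hle⟩

theorem isBiInv_mono783 {m m' : ℕ} (h : m ≤ m') {f : GL (Fin 2) k → ℂ}
    (hf : IsBiInv (InU m) f) : IsBiInv (InU m') f :=
  fun u u' g hu hu' => hf u u' g (inU_mono783 h hu) (inU_mono783 h hu')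

/-- Trace and determinant are constant on the conjugacy class. -/
theorem class_trace783 {γ y : GL (Fin 2) k}
    (hy : ∃ x : GL (Fin 2) k, y = x⁻¹ * γ * glAut (RingEquiv.refl k) x) :
    (y : Matrix (Fin 2) (Fin 2) k).trace = (γ : Matrix (Fin 2) (Fin 2) k).trace ∧
      (y : Matrix (Fin 2) (Fin 2) k).det = (γ : Matrix (Fin 2) (Fin 2) k).det := by
  obtain ⟨x, rfl⟩ := hy
  rw [glAut_refl783]
  constructor
  · have : ((x⁻¹ * γ * x : GL (Fin 2) k) : Matrix (Fin 2) (Fin 2) k)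
        = (x⁻¹ : GL (Fin 2) k).val * (γ.val * x.val) := by
      simp [mul_assoc]
    rw [this, Matrix.trace_mul_comm, mul_assoc]
    have h2 : x.val * (x⁻¹ : GL (Fin 2) k).val = 1 := by
      rw [← Units.val_mul]; simp
    rw [h2, mul_one]
  · have : ((x⁻¹ * γ * x : GL (Fin 2) k) : Matrix (Fin 2) (Fin 2) k)
        = (x⁻¹ : GL (Fin 2) k).val * γ.val * x.val := by
      simp
    rw [this, Matrix.det_mul, Matrix.det_mul]
    have h2 : (x⁻¹ : GL (Fin 2) k).val.det * x.val.det = 1 := by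
      rw [← Matrix.det_mul, ← Units.val_mul]; simp
    calc (x⁻¹ : GL (Fin 2) k).val.det * γ.val.det * x.val.det
        = ((x⁻¹ : GL (Fin 2) k).val.det * x.val.det) * γ.val.det := by ring
      _ = γ.val.det := by rw [h2, one_mul]

/-- Orbit sums only depend on the function on the class. -/
theorem orbSum_congr783 {m : ℕ} {f g : GL (Fin 2) k → ℂ} {γ : GL (Fin 2) k} {c : ℂ}
    (hfg : ∀ y : GL (Fin 2) k, (∃ x : GL (Fin 2) k, y = x⁻¹ * γ * glAut (RingEquiv.refl k) x) →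
      f y = g y)
    (h : IsOrbSum m f γ c) : IsOrbSum m g γ c := by
  obtain ⟨R, h1, h2, h3, h4⟩ := h
  refine ⟨R, h1, h2, ?_, ?_⟩
  · intro y hy hne
    exact h3 y hy (by rwa [hfg y hy])
  · rw [h4]
    exact Finset.sum_congr rfl fun y hy => by rw [hfg y (h1 y hy)]

/-- The orbit sum of a function vanishing on the class is zero. -/
theorem orbSum_eq_zero783 {m : ℕ} {f : GL (Fin 2) k → ℂ} {γ : GL (Fin 2) k} {c : ℂ}
    (hf : ∀ y : GL (Fin 2) k, (∃ x : GL (Fin 2) k, y = x⁻¹ * γ * glAut (RingEquiv.refl k) x) →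
      f y = 0)
    (h : IsOrbSum m f γ c) : c = 0 := by
  obtain ⟨R, h1, -, -, h4⟩ := h
  rw [h4]
  exact Finset.sum_eq_zero fun y hy => by rw [hf y (h1 y hy), zero_mul]

theorem orbSum_zero783 (m : ℕ) {f : GL (Fin 2) k → ℂ} {γ : GL (Fin 2) k}
    (hf : ∀ y : GL (Fin 2) k, (∃ x : GL (Fin 2) k, y = x⁻¹ * γ * glAut (RingEquiv.refl k) x) →
      f y = 0) : IsOrbSum m f γ 0 := by
  refine ⟨∅, by simp, by simp, ?_, by simp⟩
  intro y hy hne
  exact absurd (hf y hy) hne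

theorem orbSum_smul783 {m : ℕ} {f : GL (Fin 2) k → ℂ} {γ : GL (Fin 2) k} {c : ℂ} (a : ℂ)
    (h : IsOrbSum m f γ c) : IsOrbSum m (a • f) γ (a * c) := by
  obtain ⟨R, h1, h2, h3, h4⟩ := h
  refine ⟨R, h1, h2, ?_, ?_⟩
  · intro y hy hne
    refine h3 y hy ?_
    intro h0
    apply hne
    simp [h0]
  · rw [h4, Finset.mul_sum]
    exact Finset.sum_congr rfl fun y _ => by simp [mul_assoc]

theorem isBiInv_smul783 {m : ℕ} {f : GL (Fin 2) k → ℂ} (a : ℂ) (hf : IsBiInv (InU m) f) :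
    IsBiInv (InU m) (a • f) := by
  intro u u' g hu hu'
  simp [hf u u' g hu hu']

theorem isBiInv_add783 {m : ℕ} {f g : GL (Fin 2) k → ℂ} (hf : IsBiInv (InU m) f)
    (hg : IsBiInv (InU m) g) : IsBiInv (InU m) (f + g) := by
  intro u u' x hu hu'
  simp [hf u u' x hu hu', hg u u' x hu hu']

theorem hasFinSupp_smul783 {m : ℕ} {f : GL (Fin 2) k → ℂ} (a : ℂ)
    (hf : HasFinSupp (InU m) f) : HasFinSupp (InU m) (a • f) := by
  obtain ⟨F, hF⟩ := hf
  refine ⟨F, fun g hg => hF g ?_⟩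
  intro h0
  apply hg
  simp [h0]

theorem hasFinSupp_add783 {m : ℕ} {f g : GL (Fin 2) k → ℂ} (hf : HasFinSupp (InU m) f)
    (hg : HasFinSupp (InU m) g) : HasFinSupp (InU m) (f + g) := by
  classical
  obtain ⟨F, hF⟩ := hf
  obtain ⟨G, hG⟩ := hg
  refine ⟨F ∪ G, fun x hx => ?_⟩
  by_cases h0 : f x = 0
  · have : g x ≠ 0 := by
      intro h1
      apply hx
      simp [h0, h1]
    obtain ⟨y, hy, u, hu, rfl⟩ := hG x this
    exact ⟨y, Finset.mem_union_right _ hy, u, hu, rfl⟩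
  · obtain ⟨y, hy, u, hu, rfl⟩ := hF x h0
    exact ⟨y, Finset.mem_union_left _ hy, u, hu, rfl⟩

theorem hasFinSupp_cutOff783 {m : ℕ} {f : GL (Fin 2) k → ℂ} (P : k → k → Prop)
    (hf : HasFinSupp (InU m) f) : HasFinSupp (InU m) (cutOff783 P f) := by
  obtain ⟨F, hF⟩ := hf
  refine ⟨F, fun g hg => hF g ?_⟩
  intro h0
  apply hg
  unfold cutOff783
  split_ifs <;> simp [h0]

end Basic

/-! ## Existence and uniqueness of the ordinary orbit sums -/

section ExUniq

variable {k : Type} [Field k] [Valued k Γ₀]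

theorem isLocalExt_self783 : IsLocalExt k k 1 1 (RingHom.id k) (RingEquiv.refl k) where
  cyc :=
    { pos := Nat.one_pos
      fix_i := fun _ => rfl
      fixed := fun y _ => ⟨y, rfl⟩
      order := fun _ => rfl
      faithful := fun m h0 h1 => by omega }
  e_pos := Nat.one_pos
  val_i := fun x => by simp
  val_s := fun _ => rfl

theorem twNorm_one783 (γ : GL (Fin 2) k) : twNorm (RingEquiv.refl k) 1 γ = γ := by
  simp [twNorm, twN]

theorem orbEx783 (hEx : OrbSumExC) {q : ℕ} (hk : IsLocalField k q) {m : ℕ}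
    {f : GL (Fin 2) k → ℂ} (hb : IsBiInv (InU m) f) (hf : HasFinSupp (InU m) f)
    {γ : GL (Fin 2) k} (hγ : IsReg γ) : ∃ c : ℂ, IsOrbSum m f γ c := by
  have hk' : IsLocalField k (q ^ (1 / 1)) := by simpa using hk
  exact hEx k k q 1 1 (RingHom.id k) (RingEquiv.refl k) hk hk' isLocalExt_self783 m f hb hf γ
    (by rwa [twNorm_one783])

theorem orbUniq783 (hUniq : OrbSumUniqC) {m : ℕ} {f : GL (Fin 2) k → ℂ}
    (hb : IsBiInv (InU m) f) {γ : GL (Fin 2) k} {c c' : ℂ} (h : IsOrbSum m f γ c)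
    (h' : IsOrbSum m f γ c') : c = c' :=
  hUniq k (RingEquiv.refl k) (fun _ => rfl) m f hb γ c c' h h'

/-- Descending the level: an orbit sum of `κ⁻¹ f` at level `M` is an orbit sum of `f` at
level `m`. -/
theorem descend_level783 (hEx : OrbSumExC) {q : ℕ} (hk : IsLocalField k q) {m M : ℕ}
    {κ : ℕ} (hκ : κ ≠ 0)
    (hL : ∀ f : GL (Fin 2) k → ℂ, IsBiInv (InU m) f →
      ∀ (γ : GL (Fin 2) k) (c c' : ℂ), IsReg γ →
        IsOrbSum m f γ c → IsOrbSum M f γ c' → c' = (κ : ℂ) * c)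
    {f : GL (Fin 2) k → ℂ} (hb : IsBiInv (InU m) f) (hf : HasFinSupp (InU m) f)
    {γ : GL (Fin 2) k} (hγ : IsReg γ) {c' : ℂ}
    (h : IsOrbSum M ((κ : ℂ)⁻¹ • f) γ c') : IsOrbSum m f γ c' := by
  have hκ' : (κ : ℂ) ≠ 0 := Nat.cast_ne_zero.mpr hκ
  obtain ⟨c₀, hc₀⟩ := orbEx783 hEx hk hb hf hγ
  have h1 : IsOrbSum M f γ ((κ : ℂ) * c') := by
    have := orbSum_smul783 (κ : ℂ) h
    rwa [smul_smul, mul_inv_cancel₀ hκ', one_smul] at this
  have h2 := hL f hb γ c₀ _ hγ hc₀ h1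
  have h3 : c' = c₀ := mul_left_cancel₀ hκ' h2
  rw [h3]
  exact hc₀

end ExUniq

/-! ## The patching step -/

section Patch

variable {k : Type} [Field k] [Valued k Γ₀]

/-- The ball of radius `exp(-N)` around `(t₀, d₀)` in `k × k`. -/
def ballQ783 (t₀ d₀ : k) (N : ℤ) : k → k → Prop :=
  fun t d => Valued.v (t - t₀) ≤ WithZero.exp (-N) ∧ Valued.v (d - d₀) ≤ WithZero.exp (-N)

/-- A predicate on `(tr, det)` as a predicate on `GL₂(k)`. -/
def QOn783 (Q : k → k → Prop) (γ : GL (Fin 2) k) : Prop :=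
  Q (γ : Matrix (Fin 2) (Fin 2) k).trace (γ : Matrix (Fin 2) (Fin 2) k).det

theorem inChiBall_iff783 (t₀ d₀ : k) (N : ℤ) (γ : GL (Fin 2) k) :
    InChiBall783 t₀ d₀ N γ ↔ QOn783 (ballQ783 t₀ d₀ N) γ := Iff.rfl

theorem qOn_class783 (Q : k → k → Prop) {γ y : GL (Fin 2) k}
    (hy : ∃ x : GL (Fin 2) k, y = x⁻¹ * γ * glAut (RingEquiv.refl k) x) :
    QOn783 Q y ↔ QOn783 Q γ := by
  unfold QOn783
  rw [(class_trace783 hy).1, (class_trace783 hy).2]

theorem ball_smooth783 {N N₀ : ℤ} (h : N ≤ N₀) {t t' a : k}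
    (ht : Valued.v (t - t') ≤ WithZero.exp (-N₀)) :
    Valued.v (t - a) ≤ WithZero.exp (-N) ↔ Valued.v (t' - a) ≤ WithZero.exp (-N) := by
  have hle : WithZero.exp (-N₀) ≤ WithZero.exp (-N) := by
    rw [WithZero.exp_le_exp]
    omega
  have ht' := ht.trans hle
  constructor
  · intro h1
    have : t' - a = (t - a) - (t - t') := by ring
    rw [this]
    exact Valuation.map_sub_le _ h1 ht'
  · intro h1
    have : t - a = (t' - a) + (t - t') := by ring
    rw [this]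
    exact Valuation.map_add_le _ h1 ht'

theorem ballQ_smooth783 (t₀ d₀ : k) {N N₀ : ℤ} (h : N ≤ N₀) :
    IsSmoothPred783 N₀ (ballQ783 t₀ d₀ N) := by
  intro t d t' d' ht hd
  unfold ballQ783
  rw [ball_smooth783 h ht, ball_smooth783 h hd]

theorem smooth_mono783 {Q : k → k → Prop} {N N₀ : ℤ} (h : N ≤ N₀)
    (hQ : IsSmoothPred783 N Q) : IsSmoothPred783 N₀ Q := by
  have hle : WithZero.exp (-N₀) ≤ WithZero.exp (-N) := by
    rw [WithZero.exp_le_exp]
    omega
  exact fun t d t' d' ht hd => hQ t d t' d' (ht.trans hle) (hd.trans hle)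

theorem matchOn_mono783 {k' : Type} [Field k'] [Valued k' Γ₀] {l : ℕ} {i : k →+* k'}
    {s : k' ≃+* k'} {n : ℕ} {φ : GL (Fin 2) k' → ℂ} {m : ℕ} {f : GL (Fin 2) k → ℂ}
    {P P' : GL (Fin 2) k → Prop} (hPP : ∀ γ, P γ → P' γ)
    (h : MatchOn783 l i s n φ m f P') : MatchOn783 l i s n φ m f P :=
  ⟨fun δ γ c c' hr hP hc ht ho => h.1 δ γ c c' hr (hPP γ hP) hc ht ho,
    fun γ c' hr hP hn ho => h.2 γ c' hr (hPP γ hP) hn ho⟩

variable {k' : Type} [Field k'] [Valued k' Γ₀]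

/-- **The patching step**: a solution on `Q` (supported in `Q`) and a local solution on a
`χ`-ball give a solution on the union (supported in the union). -/
theorem step783 (hEx : OrbSumExC) (hUniq : OrbSumUniqC) (hCut : CutC783)
    (hFin : FinSuppLvlC783) (hLvl : LvlC783) (hAdd : AddC783)
    {q : ℕ} (hk : IsLocalField k q)
    {l : ℕ} {i : k →+* k'} {s : k' ≃+* k'} {n : ℕ} {φ : GL (Fin 2) k' → ℂ}
    {Q : k → k → Prop} {NQ : ℤ} (hQ : IsSmoothPred783 NQ Q)
    {m₁ : ℕ} {f₁ : GL (Fin 2) k → ℂ} (h1b : IsBiInv (InU m₁) f₁)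
    (h1f : HasFinSupp (InU m₁) f₁) (h1m : MatchOn783 l i s n φ m₁ f₁ (QOn783 Q))
    (h1s : ∀ g, f₁ g ≠ 0 → QOn783 Q g)
    {t₀ d₀ : k} {N : ℤ} {m₂ : ℕ} {f₂ : GL (Fin 2) k → ℂ}
    (h2 : IsLocSol783 l i s n φ t₀ d₀ N m₂ f₂) :
    ∃ (m : ℕ) (f : GL (Fin 2) k → ℂ), IsBiInv (InU m) f ∧ HasFinSupp (InU m) f ∧
      MatchOn783 l i s n φ m f (fun γ => QOn783 (ballQ783 t₀ d₀ N) γ ∨ QOn783 Q γ) ∧
      ∀ g, f g ≠ 0 → QOn783 (ballQ783 t₀ d₀ N) g ∨ QOn783 Q g := by
  obtain ⟨h2b, h2f, h2m⟩ := h2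
  -- the cut-off predicate
  set P : k → k → Prop := fun t d => ballQ783 t₀ d₀ N t d ∧ ¬ Q t d with hPdef
  have hP : IsSmoothPred783 (max NQ N) P := by
    intro t d t' d' ht hd
    have e1 := ballQ_smooth783 t₀ d₀ (le_max_right NQ N) t d t' d' ht hd
    have e2 := smooth_mono783 (le_max_left NQ N) hQ t d t' d' ht hd
    simp only [hPdef]
    rw [e1, e2]
  obtain ⟨m₂', hm₂', hcb⟩ := hCut k q hk m₂ f₂ h2b h2f (max NQ N) P hP
  set M : ℕ := max m₁ m₂' with hM
  have hm₁M : m₁ ≤ M := le_max_left _ _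
  have hm₂'M : m₂' ≤ M := le_max_right _ _
  have hm₂M : m₂ ≤ M := hm₂'.trans hm₂'M
  obtain ⟨κ₁, hκ₁, hL₁⟩ := hLvl k q hk m₁ M hm₁M
  obtain ⟨κ₂, hκ₂, hL₂⟩ := hLvl k q hk m₂ M hm₂M
  set g₁ : GL (Fin 2) k → ℂ := (κ₁ : ℂ)⁻¹ • f₁ with hg₁
  set g₂ : GL (Fin 2) k → ℂ := (κ₂ : ℂ)⁻¹ • cutOff783 P f₂ with hg₂
  have hg₁b : IsBiInv (InU M) g₁ := isBiInv_smul783 _ (isBiInv_mono783 hm₁M h1b)
  have hg₂b : IsBiInv (InU M) g₂ := isBiInv_smul783 _ (isBiInv_mono783 hm₂'M hcb)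
  have hg₁f : HasFinSupp (InU M) g₁ := hasFinSupp_smul783 _ (hFin k q hk m₁ M f₁ hm₁M h1f)
  have hg₂f : HasFinSupp (InU M) g₂ :=
    hasFinSupp_smul783 _ (hFin k q hk m₂ M _ hm₂M (hasFinSupp_cutOff783 P h2f))
  have hfb : IsBiInv (InU M) (g₁ + g₂) := isBiInv_add783 hg₁b hg₂b
  -- values of `g₁`, `g₂` on the classes
  have hg₁0 : ∀ g, ¬ QOn783 Q g → g₁ g = 0 := by
    intro g hg
    have : f₁ g = 0 := by
      by_contra h0
      exact hg (h1s g h0)
    simp [hg₁, this]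
  have hg₂0 : ∀ g, QOn783 Q g → g₂ g = 0 := by
    intro g hg
    have : cutOff783 P f₂ g = 0 := by
      unfold cutOff783
      rw [if_neg]
      intro hPg
      exact hPg.2 hg
    simp [hg₂, this]
  have hg₂1 : ∀ g, QOn783 (ballQ783 t₀ d₀ N) g → ¬ QOn783 Q g →
      g₂ g = ((κ₂ : ℂ)⁻¹ • f₂) g := by
    intro g hg hQg
    have : cutOff783 P f₂ g = f₂ g := by
      unfold cutOff783
      rw [if_pos]
      exact ⟨hg, hQg⟩
    simp [hg₂, this]
  -- the two key facts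
  have key1 : ∀ (γ : GL (Fin 2) k) (c' : ℂ), IsReg γ → QOn783 Q γ →
      IsOrbSum M (g₁ + g₂) γ c' → IsOrbSum m₁ f₁ γ c' := by
    intro γ c' hγ hQγ hc'
    have h0 : IsOrbSum M g₂ γ 0 :=
      orbSum_zero783 M fun y hy => hg₂0 y ((qOn_class783 Q hy).2 hQγ)
    obtain ⟨d₁, hd₁⟩ := orbEx783 hEx hk hg₁b hg₁f hγ
    have hsum := hAdd k M g₁ g₂ hg₁b hg₂b γ d₁ 0 hd₁ h0
    have : c' = d₁ + 0 := orbUniq783 hUniq hfb hc' hsum
    rw [add_zero] at this
    rw [this]
    exact descend_level783 hEx hk hκ₁ hL₁ h1b h1f hγ hd₁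
  have key2 : ∀ (γ : GL (Fin 2) k) (c' : ℂ), IsReg γ → QOn783 (ballQ783 t₀ d₀ N) γ →
      ¬ QOn783 Q γ → IsOrbSum M (g₁ + g₂) γ c' → IsOrbSum m₂ f₂ γ c' := by
    intro γ c' hγ hBγ hQγ hc'
    have h0 : IsOrbSum M g₁ γ 0 :=
      orbSum_zero783 M fun y hy => hg₁0 y fun hQy => hQγ ((qOn_class783 Q hy).1 hQy)
    obtain ⟨d₂, hd₂⟩ := orbEx783 hEx hk hg₂b hg₂f hγ
    have hsum := hAdd k M g₁ g₂ hg₁b hg₂b γ 0 d₂ h0 hd₂
    have : c' = 0 + d₂ := orbUniq783 hUniq hfb hc' hsum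
    rw [zero_add] at this
    rw [this]
    have hd₂' : IsOrbSum M ((κ₂ : ℂ)⁻¹ • f₂) γ d₂ :=
      orbSum_congr783 (fun y hy => hg₂1 y ((qOn_class783 _ hy).2 hBγ)
        fun hQy => hQγ ((qOn_class783 Q hy).1 hQy)) hd₂
    exact descend_level783 hEx hk hκ₂ hL₂ h2b h2f hγ hd₂'
  refine ⟨M, g₁ + g₂, hfb, hasFinSupp_add783 hg₁f hg₂f, ⟨?_, ?_⟩, ?_⟩
  · intro δ γ c c' hγ hPγ hconj hTO hO
    by_cases hQγ : QOn783 Q γ
    · exact h1m.1 δ γ c c' hγ hQγ hconj hTO (key1 γ c' hγ hQγ hO)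
    · have hBγ : QOn783 (ballQ783 t₀ d₀ N) γ := hPγ.resolve_right hQγ
      exact h2m.1 δ γ c c' hγ hBγ hconj hTO (key2 γ c' hγ hBγ hQγ hO)
  · intro γ c' hγ hPγ hnn hO
    by_cases hQγ : QOn783 Q γ
    · exact h1m.2 γ c' hγ hQγ hnn (key1 γ c' hγ hQγ hO)
    · have hBγ : QOn783 (ballQ783 t₀ d₀ N) γ := hPγ.resolve_right hQγ
      exact h2m.2 γ c' hγ hBγ hnn (key2 γ c' hγ hBγ hQγ hO)
  · intro g hg
    by_cases hQg : QOn783 Q g
    · exact Or.inr hQg
    · left
      have h1 : g₁ g = 0 := hg₁0 g hQg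
      have h2 : g₂ g ≠ 0 := by
        intro h2
        apply hg
        simp [h1, h2]
      by_contra hB
      apply h2
      have : cutOff783 P f₂ g = 0 := by
        unfold cutOff783
        rw [if_neg]
        intro hPg
        exact hB hPg.1
      simp [hg₂, this]

/-- The union of the balls `B(p, exp(-N p))`, `p ∈ J`. -/
def unionQ783 (N : k → k → ℤ) (J : Finset (k × k)) : k → k → Prop :=
  fun t d => ∃ p ∈ J, ballQ783 p.1 p.2 (N p.1 p.2) t d

/-- **Patching**: finitely many local solutions give a solution on the union of their balls,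
supported in the union. -/
theorem patch783 (hEx : OrbSumExC) (hUniq : OrbSumUniqC) (hCut : CutC783)
    (hFin : FinSuppLvlC783) (hLvl : LvlC783) (hAdd : AddC783)
    {q : ℕ} (hk : IsLocalField k q)
    {l : ℕ} {i : k →+* k'} {s : k' ≃+* k'} {n : ℕ} {φ : GL (Fin 2) k' → ℂ}
    (N : k → k → ℤ) (J : Finset (k × k))
    (hJ : ∀ p ∈ J, ∃ (m : ℕ) (f : GL (Fin 2) k → ℂ),
      IsLocSol783 l i s n φ p.1 p.2 (N p.1 p.2) m f) :
    ∃ (NQ : ℤ) (m : ℕ) (f : GL (Fin 2) k → ℂ), IsSmoothPred783 NQ (unionQ783 N J) ∧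
      IsBiInv (InU m) f ∧ HasFinSupp (InU m) f ∧
      MatchOn783 l i s n φ m f (QOn783 (unionQ783 N J)) ∧
      ∀ g, f g ≠ 0 → QOn783 (unionQ783 N J) g := by
  classical
  induction J using Finset.induction_on with
  | empty =>
    refine ⟨0, 0, 0, ?_, ?_, ?_, ⟨?_, ?_⟩, ?_⟩
    · intro t d t' d' _ _
      simp [unionQ783]
    · intro u u' g _ _
      rfl
    · exact ⟨∅, fun g hg => absurd rfl hg⟩
    · intro δ γ c c' _ hP
      obtain ⟨p, hp, -⟩ := hP
      exact absurd hp (Finset.notMem_empty p)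
    · intro γ c' _ hP
      obtain ⟨p, hp, -⟩ := hP
      exact absurd hp (Finset.notMem_empty p)
    · intro g hg
      exact absurd rfl hg
  | insert p J' _ ih =>
    obtain ⟨NQ, m₁, f₁, hQ, h1b, h1f, h1m, h1s⟩ :=
      ih fun p' hp' => hJ p' (Finset.mem_insert_of_mem hp')
    obtain ⟨m₂, f₂, h2⟩ := hJ p (Finset.mem_insert_self p J')
    obtain ⟨m, f, hb, hf, hm, hs⟩ :=
      step783 hEx hUniq hCut hFin hLvl hAdd hk hQ h1b h1f h1m h1s h2
    have hiff : ∀ t d : k, unionQ783 N (insert p J') t d ↔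
        (ballQ783 p.1 p.2 (N p.1 p.2) t d ∨ unionQ783 N J' t d) := by
      intro t d
      unfold unionQ783
      rw [Finset.exists_mem_insert]
    refine ⟨max NQ (N p.1 p.2), m, f, ?_, hb, hf, ?_, ?_⟩
    · intro t d t' d' ht hd
      rw [hiff, hiff]
      have e1 := ballQ_smooth783 p.1 p.2 (le_max_right NQ (N p.1 p.2)) t d t' d' ht hd
      have e2 := smooth_mono783 (le_max_left NQ (N p.1 p.2)) hQ t d t' d' ht hd
      rw [e1, e2]
    · exact matchOn_mono783 (fun γ hγ => (hiff _ _).1 hγ) hm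
    · intro g hg
      exact (hiff _ _).2 (hs g hg)

end Patch

/-! ## The tops -/

/-- Local matching at every point from the regular and the central case. -/
theorem locMatch_of783 (hReg : LocRegC783) (hCen : LocCenC783)
    {k k' : Type} [Field k] [Field k'] [Valued k Γ₀] [Valued k' Γ₀] {q l e : ℕ}
    {i : k →+* k'} {s : k' ≃+* k'} {n : ℕ} {φ : GL (Fin 2) k' → ℂ}
    (hd : BadData783 k k' q l e i s n φ) (t₀ d₀ : k) (hd₀ : d₀ ≠ 0) :
    ∃ (N : ℤ) (m : ℕ) (f : GL (Fin 2) k → ℂ), IsLocSol783 l i s n φ t₀ d₀ N m f := by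
  by_cases h : t₀ ^ 2 - 4 * d₀ = 0
  · have hc0 : CharZero k := hd.hk.char0
    have h2 : (2 : k) ≠ 0 := two_ne_zero
    have ht : 2 * (t₀ / 2) = t₀ := mul_div_cancel₀ t₀ h2
    have hdz : (t₀ / 2) ^ 2 = d₀ := by
      have h4 : (4 : k) ≠ 0 := by
        have : (4 : k) = 2 * 2 := by norm_num
        rw [this]
        exact mul_ne_zero h2 h2
      rw [div_pow]
      have e : (2 : k) ^ 2 = 4 := by norm_num
      rw [e, div_eq_iff h4]
      linear_combination h
    have hz : t₀ / 2 ≠ 0 := by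
      intro h0
      apply hd₀
      rw [← hdz, h0]
      simp
    have := hCen k k' q l e i s n φ hd (t₀ / 2) hz
    rwa [ht, hdz] at this
  · exact hReg k k' q l e i s n φ hd t₀ d₀ hd₀ h

/-- **The central case from its three sub-cases.** -/
theorem locCen_of_cases783 (hN : CenNormC783) (hO : CenOddC783) (hQ : CenQuatC783) :
    LocCenC783 := by
  intro k k' _ _ _ _ q l e i s n φ hd z hz
  by_cases hnorm : IsFieldNorm783 l i s z
  · exact hN k k' q l e i s n φ hd z hz hnorm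
  · by_cases hl2 : l = 2
    · subst hl2
      exact hQ k k' q e i s n φ hd z hz hnorm
    · obtain ⟨N, hNn⟩ := hO k k' q l e i s hd.hk hd.hk' hd.ext hd.prime hl2 z hz hnorm
      refine ⟨N, 0, 0, ?_, ?_, ⟨?_, ?_⟩⟩
      · intro u u' g _ _
        rfl
      · exact ⟨∅, fun g hg => absurd rfl hg⟩
      · intro δ γ c c' _ hP hconj _ _
        exact absurd ⟨δ, hconj⟩ (hNn γ hP)
      · intro γ c' _ _ _ hO'
        exact orbSum_eq_zero783 (fun _ _ => rfl) hO'

/-- **TOP of T6.18**: `BadMatchC` from the sub-leaves. -/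
theorem badMatch_of_leaves783 (hEx : OrbSumExC) (hUniq : OrbSumUniqC) (hCover : CoverC783)
    (hCpt : CptC783) (hCut : CutC783) (hFin : FinSuppLvlC783) (hLvl : LvlC783)
    (hAdd : AddC783) (hReg : LocRegC783) (hCen : LocCenC783) : BadMatchC := by
  intro k k' _ _ _ _ q l e i s hk hk' hext hl n φ hφb hφf
  classical
  have hd : BadData783 k k' q l e i s n φ := ⟨hk, hk', hext, hl, hφb, hφf⟩
  obtain ⟨B, hB⟩ := hCpt k k' q l e i s n φ hd
  have hloc : ∀ t₀ d₀ : k, d₀ ≠ 0 →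
      ∃ (N : ℤ) (m : ℕ) (f : GL (Fin 2) k → ℂ), IsLocSol783 l i s n φ t₀ d₀ N m f :=
    fun t₀ d₀ h => locMatch_of783 hReg hCen hd t₀ d₀ h
  let N : k → k → ℤ := fun t d => if h : d ≠ 0 then (hloc t d h).choose else 0
  obtain ⟨J, hJ1, hJ2⟩ := hCover k q hk B N
  have hJ : ∀ p ∈ J, ∃ (m : ℕ) (f : GL (Fin 2) k → ℂ),
      IsLocSol783 l i s n φ p.1 p.2 (N p.1 p.2) m f := by
    intro p hp
    have hp2 : p.2 ≠ 0 := by
      intro h0
      have := hJ1 p hp
      rw [h0, map_zero] at this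
      exact absurd this (not_le.mpr WithZero.exp_pos)
    have hN : N p.1 p.2 = (hloc p.1 p.2 hp2).choose := dif_pos hp2
    rw [hN]
    exact (hloc p.1 p.2 hp2).choose_spec
  obtain ⟨NQ, m, f, -, hb, hf, hm, hs⟩ := patch783 hEx hUniq hCut hFin hLvl hAdd hk N J hJ
  have hvan : ∀ (γ : GL (Fin 2) k) (c' : ℂ), ¬ QOn783 (unionQ783 N J) γ →
      IsOrbSum m f γ c' → c' = 0 := by
    intro γ c' hQ hO
    refine orbSum_eq_zero783 (fun y hy => ?_) hO
    by_contra h0
    exact hQ ((qOn_class783 _ hy).1 (hs y h0))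
  refine ⟨m, f, hb, hf, ?_, ?_⟩
  · intro δ γ c c' hγ hconj hTO hO
    by_cases hQ : QOn783 (unionQ783 N J) γ
    · exact hm.1 δ γ c c' hγ hQ hconj hTO hO
    · have hc' : c' = 0 := hvan γ c' hQ hO
      rw [hc']
      by_contra hc
      obtain ⟨h1, h2, h3⟩ := hB δ γ c hconj hTO hc
      obtain ⟨p, hp, hp1, hp2⟩ := hJ2 _ _ h1 h2 h3
      exact hQ ⟨p, hp, hp1, hp2⟩
  · intro γ c' hγ hnn hO
    by_cases hQ : QOn783 (unionQ783 N J) γ
    · exact hm.2 γ c' hγ hQ hnn hO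
    · exact hvan γ c' hQ hO

end Fermat.Agent.LT.T6.H783

end

end
-- ===== PACK-END LT/T6/H783/BadTop.lean

-- ===== PACK-BEGIN LT/T6/H962/CenOdd.lean
section




/-!
# Row LT, tower T6, sub-leaf T6.18h `CenOddC783` -- helper962, OFF-MAIN

VERBATIM the Prop `H783.CenOddC783` of `T6/H783/BadSpec.lean` (helper783@5e8793b8d), unconditional.

For `l` odd and `z ∈ kˣ` which is not a field norm from `k'`, no `γ ∈ GL₂(k)` with
`|det γ - z²| ≤ exp (-N)` is a norm from `GL₂(k')`, `N = 2 c + 1 - 2 log |z|`, `|l| = exp (-c)`: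

* `det (N δ) = N_{k'/k} (det δ)`, conjugate matrices have the same determinant, so `det γ` is a
  field norm;
* `det γ / z² = 1 + ε`, `|ε| ≤ exp (-(2 c + 1))`, is an `l`-th power `y ^ l` in `k`
  (Newton iteration, `exists_root962`; limits: `H220.approx220`), and `y ^ l = N (i y)`;
* so `z²` is a field norm, `z ^ l = N (i z)` is one, and `z = z ^ l / (z²) ^ ((l - 1) / 2)`.

The trace condition of the `χ`-ball is not used.
-/

set_option autoImplicit false

open scoped Valued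
open Fermat.Agent.LT.T6 WithZero

noncomputable section

namespace Fermat.Agent.LT.T6.H962

/-! ## 1. `l`-th roots near `1` in a complete valued field -/

section Hensel

variable {k : Type} [Field k] [Valued k Γ₀]

theorem val_natCast_le_one962 (n : ℕ) : Valued.v ((n : k)) ≤ 1 := by
  induction n with
  | zero => simp
  | succ n ih =>
    rw [Nat.cast_succ]
    exact (Valued.v.map_add _ _).trans (max_le ih (by simp))

/-- `(w + h) ^ l = w ^ l + l w ^ (l - 1) h + κ h ^ 2` with `κ` integral. -/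
theorem binom_two962 (w h : k) (hw : Valued.v w ≤ 1) (hh : Valued.v h ≤ 1) (l : ℕ) :
    ∃ κ : k, Valued.v κ ≤ 1 ∧ (w + h) ^ l = w ^ l + (l : k) * w ^ (l - 1) * h + κ * h ^ 2 := by
  induction l with
  | zero => exact ⟨0, by simp, by simp⟩
  | succ l ih =>
    obtain ⟨κ, hκ, e⟩ := ih
    refine ⟨(l : k) * w ^ (l - 1) + κ * (w + h), ?_, ?_⟩
    · refine (Valued.v.map_add _ _).trans (max_le ?_ ?_)
      · rw [map_mul, map_pow]
        exact mul_le_one' (val_natCast_le_one962 l) (pow_le_one' hw _)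
      · rw [map_mul]
        exact mul_le_one' hκ ((Valued.v.map_add _ _).trans (max_le hw hh))
    · rw [Nat.add_sub_cancel]
      rcases Nat.eq_zero_or_pos l with rfl | hl
      · push_cast at e ⊢
        linear_combination (w + h) * e
      · have e2 : w ^ (l - 1) * w = w ^ l := by
          rw [← pow_succ, Nat.sub_add_cancel hl]
        push_cast
        linear_combination (w + h) * e + (l : k) * h * e2

/-- `x ^ l - y ^ l = (x - y) μ` with `μ` integral. -/
theorem pow_sub_pow962 (x y : k) (hx : Valued.v x ≤ 1) (hy : Valued.v y ≤ 1) (l : ℕ) :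
    ∃ μ : k, Valued.v μ ≤ 1 ∧ x ^ l - y ^ l = (x - y) * μ := by
  induction l with
  | zero => exact ⟨0, by simp, by simp⟩
  | succ l ih =>
    obtain ⟨μ, hμ, e⟩ := ih
    refine ⟨x * μ + y ^ l, ?_, ?_⟩
    · refine (Valued.v.map_add _ _).trans (max_le ?_ ?_)
      · rw [map_mul]
        exact mul_le_one' hx hμ
      · rw [map_pow]
        exact pow_le_one' hy _
    · have : x ^ (l + 1) - y ^ (l + 1) = x * (x ^ l - y ^ l) + (x - y) * y ^ l := by ring
      rw [this, e]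
      ring

theorem val_eq_one_of_sub962 (w : k) (c : ℤ) (hc : 0 ≤ c)
    (hw : Valued.v (w - 1) ≤ exp (-(c + 1))) : Valued.v w = 1 := by
  have h1 : Valued.v (w - 1) < 1 := by
    refine hw.trans_lt ?_
    rw [← exp_zero, exp_lt_exp]
    omega
  have : w = 1 + (w - 1) := by ring
  rw [this]
  exact Valuation.map_one_add_of_lt _ h1

/-- One Newton step for `X ^ l - a`. -/
theorem newton_step962 (l : ℕ) (c : ℤ) (hc : 0 ≤ c)
    (hvl : Valued.v ((l : k)) = exp (-c)) (a w : k) (n : ℕ)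
    (hw : Valued.v (w - 1) ≤ exp (-(c + 1)))
    (hwa : Valued.v (w ^ l - a) ≤ exp (-(2 * c + 1 + (n : ℤ)))) :
    ∃ w' : k, (Valued.v (w' - 1) ≤ exp (-(c + 1)) ∧
        Valued.v (w' ^ l - a) ≤ exp (-(2 * c + 1 + ((n + 1 : ℕ) : ℤ)))) ∧
      Valued.v (w' - w) ≤ exp (-((n : ℤ) + 1)) := by
  have hw1 : Valued.v w = 1 := val_eq_one_of_sub962 w c hc hw
  have hl0 : (l : k) ≠ 0 := by
    intro h0
    rw [h0, map_zero] at hvl
    exact exp_ne_zero hvl.symm
  have hw0 : w ≠ 0 := by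
    intro h0
    rw [h0, map_zero] at hw1
    exact zero_ne_one hw1
  set h : k := -(w ^ l - a) / ((l : k) * w ^ (l - 1)) with hh
  have hden : (l : k) * w ^ (l - 1) ≠ 0 := mul_ne_zero hl0 (pow_ne_zero _ hw0)
  have hvh : Valued.v h ≤ exp (-(c + 1 + (n : ℤ))) := by
    rw [hh, map_div₀, Valuation.map_neg, map_mul, map_pow, hw1, one_pow, mul_one, hvl,
      div_le_iff₀ (by exact exp_pos), ← exp_add]
    refine hwa.trans ?_
    rw [exp_le_exp]
    omega
  have hvh1 : Valued.v h ≤ 1 := by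
    refine hvh.trans ?_
    rw [← exp_zero, exp_le_exp]
    omega
  obtain ⟨κ, hκ, e⟩ := binom_two962 w h hw1.le hvh1 l
  refine ⟨w + h, ⟨?_, ?_⟩, ?_⟩
  · have : w + h - 1 = (w - 1) + h := by ring
    rw [this]
    refine (Valued.v.map_add _ _).trans (max_le hw (hvh.trans ?_))
    rw [exp_le_exp]
    omega
  · have e2 : (w + h) ^ l - a = κ * h ^ 2 := by
      rw [e]
      have : (l : k) * w ^ (l - 1) * h = -(w ^ l - a) := by
        rw [hh]
        field_simp
      rw [this]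
      ring
    rw [e2, map_mul, map_pow]
    calc Valued.v κ * Valued.v h ^ 2 ≤ 1 * (exp (-(c + 1 + (n : ℤ)))) ^ 2 :=
          mul_le_mul' hκ (pow_le_pow_left' hvh 2)
      _ = exp (-(c + 1 + (n : ℤ)) + -(c + 1 + (n : ℤ))) := by
          rw [one_mul, pow_two, ← exp_add]
      _ ≤ exp (-(2 * c + 1 + ((n + 1 : ℕ) : ℤ))) := by
          rw [exp_le_exp]
          push_cast
          omega
  · have : w + h - w = h := by ring
    rw [this]
    refine hvh.trans ?_
    rw [exp_le_exp]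
    omega

/-- **Hensel for `X ^ l - a` near `1`**: with `|l| = exp (-c)`, every `a` with
`|a - 1| ≤ exp (-(2 c + 1))` is an `l`-th power. -/
theorem exists_root962 [CompleteSpace k] (hunif : ∃ ϖ : k, Valued.v ϖ = exp (-1 : ℤ)) (l : ℕ)
    (hl0 : (l : k) ≠ 0) :
    ∃ c : ℤ, 0 ≤ c ∧ ∀ a : k, Valued.v (a - 1) ≤ exp (-(2 * c + 1)) → ∃ y : k, y ^ l = a := by
  have hv0 : Valued.v ((l : k)) ≠ 0 := (Valuation.ne_zero_iff _).2 hl0
  set c : ℤ := - log (Valued.v ((l : k))) with hc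
  have hvl : Valued.v ((l : k)) = exp (-c) := by
    rw [hc, neg_neg, exp_log hv0]
  have hc0 : 0 ≤ c := by
    have h1 := val_natCast_le_one962 (k := k) l
    rw [hvl, ← exp_zero, exp_le_exp] at h1
    omega
  refine ⟨c, hc0, fun a ha => ?_⟩
  obtain ⟨L, hL0, hL⟩ := H220.approx220 hunif
    (fun n w => Valued.v (w - 1) ≤ exp (-(c + 1)) ∧
      Valued.v (w ^ l - a) ≤ exp (-(2 * c + 1 + (n : ℤ))))
    (fun n w hP => newton_step962 l c hc0 hvl a w n hP.1 hP.2) 1
    ⟨by simp, by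
      rw [one_pow, Valuation.map_sub_swap]
      simpa using ha⟩
  refine ⟨L, ?_⟩
  rw [← sub_eq_zero]
  apply H220.eq_zero_of_forall_le220
  intro n
  obtain ⟨w, ⟨hw, hwa⟩, hLw⟩ := hL n
  have hw1 : Valued.v w = 1 := val_eq_one_of_sub962 w c hc0 hw
  have hLw1 : Valued.v (L - w) ≤ 1 := by
    refine hLw.trans ?_
    rw [← exp_zero, exp_le_exp]
    omega
  have hL1 : Valued.v L ≤ 1 := by
    have : L = (L - w) + w := by ring
    rw [this]
    exact (Valued.v.map_add _ _).trans (max_le hLw1 hw1.le)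
  obtain ⟨μ, hμ, e⟩ := pow_sub_pow962 L w hL1 hw1.le l
  have : L ^ l - a = (L - w) * μ + (w ^ l - a) := by
    rw [← e]
    ring
  rw [this]
  refine (Valued.v.map_add _ _).trans (max_le ?_ ?_)
  · rw [map_mul]
    calc Valued.v (L - w) * Valued.v μ ≤ exp (-((n : ℤ) + 1)) * 1 := mul_le_mul' hLw hμ
      _ = exp (-((n : ℤ) + 1)) := mul_one _
  · refine hwa.trans ?_
    rw [exp_le_exp]
    omega

end Hensel

/-! ## 2. Field norms and determinants of twisted norms -/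

section Norm

variable {k' : Type} [Field k']

/-- The field norm in the form of `H783.IsFieldNorm783`: `ζ · s ζ ⋯ s^{l-1} ζ`. -/
def nm962 (s : k' ≃+* k') (l : ℕ) (ζ : k') : k' := ∏ j ∈ Finset.range l, (s ^ j) ζ

theorem nm_mul962 (s : k' ≃+* k') (l : ℕ) (ζ η : k') :
    nm962 s l (ζ * η) = nm962 s l ζ * nm962 s l η := by
  unfold nm962
  rw [← Finset.prod_mul_distrib]
  exact Finset.prod_congr rfl (fun j _ => map_mul _ _ _)

theorem nm_inv962 (s : k' ≃+* k') (l : ℕ) (ζ : k') : nm962 s l ζ⁻¹ = (nm962 s l ζ)⁻¹ := by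
  unfold nm962
  rw [← Finset.prod_inv_distrib]
  exact Finset.prod_congr rfl (fun j _ => map_inv₀ _ _)

theorem nm_pow962 (s : k' ≃+* k') (l : ℕ) (ζ : k') (t : ℕ) :
    nm962 s l (ζ ^ t) = nm962 s l ζ ^ t := by
  unfold nm962
  rw [← Finset.prod_pow]
  exact Finset.prod_congr rfl (fun j _ => map_pow _ _ _)

theorem pow_apply_of_fixed962 (s : k' ≃+* k') (ζ : k') (h : s ζ = ζ) (j : ℕ) :
    (s ^ j) ζ = ζ := by
  induction j with
  | zero => rfl
  | succ j ih =>
    rw [pow_succ']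
    show s ((s ^ j) ζ) = ζ
    rw [ih, h]

theorem nm_of_fixed962 (s : k' ≃+* k') (l : ℕ) (ζ : k') (h : s ζ = ζ) :
    nm962 s l ζ = ζ ^ l := by
  unfold nm962
  rw [Finset.prod_congr rfl (fun j _ => pow_apply_of_fixed962 s ζ h j)]
  simp

theorem det_glAut962 (s : k' ≃+* k') (g : GL (Fin 2) k') :
    ((glAut s g : GL (Fin 2) k') : Matrix (Fin 2) (Fin 2) k').det
      = s (g : Matrix (Fin 2) (Fin 2) k').det := by
  have := RingHom.map_det (s : k' →+* k') (g : Matrix (Fin 2) (Fin 2) k')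
  exact this.symm

theorem det_twNorm962 (s : k' ≃+* k') (n : ℕ) (δ : GL (Fin 2) k') :
    ((twNorm s n δ : GL (Fin 2) k') : Matrix (Fin 2) (Fin 2) k').det
      = nm962 s n (δ : Matrix (Fin 2) (Fin 2) k').det := by
  induction n with
  | zero => simp [twNorm, twN, nm962]
  | succ n ih =>
    have e : twNorm s (n + 1) δ = δ * glAut s (twNorm s n δ) := rfl
    rw [e, Units.val_mul, Matrix.det_mul, det_glAut962, ih]
    unfold nm962
    rw [Finset.prod_range_succ', map_prod, mul_comm]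
    congr 1
    exact Finset.prod_congr rfl (fun j _ => by rw [pow_succ']; rfl)

theorem det_eq_of_isConj962 {a b : GL (Fin 2) k'} (h : IsConj a b) :
    (a : Matrix (Fin 2) (Fin 2) k').det = (b : Matrix (Fin 2) (Fin 2) k').det := by
  obtain ⟨c, hc⟩ := isConj_iff.1 h
  have h1 := congrArg (fun g : GL (Fin 2) k' => (g : Matrix (Fin 2) (Fin 2) k').det) hc
  simp only [Units.val_mul, Matrix.det_mul] at h1
  have h2 : (c : Matrix (Fin 2) (Fin 2) k').det
      * ((c⁻¹ : GL (Fin 2) k') : Matrix (Fin 2) (Fin 2) k').det = 1 := by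
    rw [← Matrix.det_mul, ← Units.val_mul, mul_inv_cancel]
    simp
  rw [← h1]
  calc (a : Matrix (Fin 2) (Fin 2) k').det
      = (a : Matrix (Fin 2) (Fin 2) k').det * ((c : Matrix (Fin 2) (Fin 2) k').det
          * ((c⁻¹ : GL (Fin 2) k') : Matrix (Fin 2) (Fin 2) k').det) := by rw [h2, mul_one]
    _ = _ := by ring

end Norm

/-! ## 3. The leaf -/

/-- **T6.18h `CenOddC783`**, unconditional. -/
theorem cenOddC962 : H783.CenOddC783 := by
  intro k k' _ _ _ _ q l e i s hk hk' hext hl hl2 z hz hznorm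
  have := hk.complete
  have := hk.char0
  have hl0 : ((l : ℕ) : k) ≠ 0 := Nat.cast_ne_zero.2 hl.ne_zero
  obtain ⟨c, -, hroot⟩ := exists_root962 hk.unif l hl0
  have hvz : Valued.v z ≠ 0 := (Valuation.ne_zero_iff _).2 hz
  refine ⟨2 * c + 1 - 2 * log (Valued.v z), fun γ hγ hnorm => hznorm ?_⟩
  obtain ⟨δ, hδ⟩ := hnorm
  set D : k := (γ : Matrix (Fin 2) (Fin 2) k).det with hD
  have hD0 : D ≠ 0 := Matrix.GeneralLinearGroup.det_ne_zero γ
  -- `det γ` is a field norm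
  have hdet : nm962 s l (δ : Matrix (Fin 2) (Fin 2) k').det = i D := by
    rw [← det_twNorm962, det_eq_of_isConj962 hδ]
    exact (RingHom.map_det i (γ : Matrix (Fin 2) (Fin 2) k)).symm
  -- `det γ / z ^ 2` is an `l`-th power
  have hval : Valued.v (D / z ^ 2 - 1) ≤ exp (-(2 * c + 1)) := by
    have e1 : D / z ^ 2 - 1 = (D - z ^ 2) / z ^ 2 := by
      field_simp
    have hm : Valued.v z = exp (log (Valued.v z)) := (exp_log hvz).symm
    rw [e1, map_div₀, map_pow, div_le_iff₀ (pow_pos (zero_lt_iff.2 hvz) 2)]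
    refine hγ.2.trans ?_
    rw [hm, pow_two, ← exp_add, ← exp_add, exp_le_exp, log_exp]
    omega
  obtain ⟨y, hy⟩ := hroot _ hval
  have hy0 : y ≠ 0 := by
    rintro rfl
    rw [zero_pow hl.ne_zero] at hy
    exact (div_ne_zero hD0 (pow_ne_zero 2 hz)) hy.symm
  have hDy : D = y ^ l * z ^ 2 := by
    rw [hy]
    field_simp
  obtain ⟨t, ht⟩ : ∃ t : ℕ, l = 2 * t + 1 := by
    rcases hl.eq_two_or_odd' with h2 | hodd
    · exact absurd h2 hl2
    · exact hodd
  have hiz : i z ≠ 0 := (map_ne_zero i).2 hz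
  have hiy : i y ≠ 0 := (map_ne_zero i).2 hy0
  refine ⟨i z * (((δ : Matrix (Fin 2) (Fin 2) k').det * (i y)⁻¹) ^ t)⁻¹, ?_⟩
  show i z = nm962 s l (i z * (((δ : Matrix (Fin 2) (Fin 2) k').det * (i y)⁻¹) ^ t)⁻¹)
  rw [nm_mul962, nm_inv962, nm_pow962, nm_mul962, nm_inv962, hdet,
    nm_of_fixed962 s l (i z) (hext.cyc.fix_i z), nm_of_fixed962 s l (i y) (hext.cyc.fix_i y),
    hDy, map_mul, map_pow, map_pow]
  have e3 : (i y ^ l * i z ^ 2 * (i y ^ l)⁻¹) = i z ^ 2 := by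
    field_simp
  rw [e3, ← pow_mul, ht]
  field_simp
  ring

end Fermat.Agent.LT.T6.H962

end

end
-- ===== PACK-END LT/T6/H962/CenOdd.lean

-- ===== PACK-BEGIN LT/T6/H420/GLTop.lean
section




/-!
# Row LT, tower T6, leaf T6.08 (helper420): topology of `GL₂` of an abstract local field

`GL₂(k)` is a sigma-compact locally compact Hausdorff topological group; the congruence subgroups
`U(n)` (T6 Spec `InU`) are open compact subgroups; `glAut s` is continuous for a
valuation-preserving automorphism `s`.  Mathlib + T6 Spec only.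
-/

set_option autoImplicit false

noncomputable section

namespace Fermat.Agent.LT.T6.H420

open Topology Filter Set Matrix

section GLTop

variable {k : Type} [Field k] [Valued k Γ₀]

/-- Matrices all of whose entries have valuation `≤ exp (-n)`. -/
def matSmall (n : ℕ) : Set (Matrix (Fin 2) (Fin 2) k) :=
  {M | ∀ i j, Valued.v (M i j) ≤ WithZero.exp (-(n : ℤ))}

/-- Matrices congruent to `1` modulo `ϖⁿ`. -/
def matBall (n : ℕ) : Set (Matrix (Fin 2) (Fin 2) k) :=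
  {M | ∀ i j, Valued.v (M i j - (1 : Matrix (Fin 2) (Fin 2) k) i j) ≤ WithZero.exp (-(n : ℤ))}

theorem mem_matBall_iff (n : ℕ) (M : Matrix (Fin 2) (Fin 2) k) :
    M ∈ matBall n ↔ M - 1 ∈ matSmall (k := k) n := Iff.rfl

theorem matSmall_add {n : ℕ} {A B : Matrix (Fin 2) (Fin 2) k} (hA : A ∈ matSmall n)
    (hB : B ∈ matSmall n) : A + B ∈ matSmall n := fun i j => by
  rw [Matrix.add_apply]
  exact (Valued.v.map_add _ _).trans (max_le (hA i j) (hB i j))

theorem exp_neg_nat_le_one (n : ℕ) : (WithZero.exp (-(n : ℤ)) : Γ₀) ≤ 1 := by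
  rw [← WithZero.exp_zero, WithZero.exp_le_exp]
  omega

theorem matSmall_mul {n : ℕ} {A B : Matrix (Fin 2) (Fin 2) k} (hA : A ∈ matSmall n)
    (hB : B ∈ matSmall n) : A * B ∈ matSmall n := fun i j => by
  rw [Matrix.mul_apply]
  refine Valued.v.map_sum_le fun l _ => ?_
  rw [map_mul]
  calc Valued.v (A i l) * Valued.v (B l j) ≤ 1 * WithZero.exp (-(n : ℤ)) :=
        mul_le_mul' ((hA i l).trans (exp_neg_nat_le_one n)) (hB l j)
    _ = WithZero.exp (-(n : ℤ)) := one_mul _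

theorem one_mem_matBall (n : ℕ) : (1 : Matrix (Fin 2) (Fin 2) k) ∈ matBall n := fun i j => by
  simp

theorem matBall_mul {n : ℕ} {A B : Matrix (Fin 2) (Fin 2) k} (hA : A ∈ matBall n)
    (hB : B ∈ matBall n) : A * B ∈ matBall n := by
  rw [mem_matBall_iff] at hA hB ⊢
  have h : A * B - 1 = (A - 1) * (B - 1) + ((A - 1) + (B - 1)) := by noncomm_ring
  rw [h]
  exact matSmall_add (matSmall_mul hA hB) (matSmall_add hA hB)

theorem inU_iff (n : ℕ) (g : GL (Fin 2) k) :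
    InU n g ↔ (g : Matrix (Fin 2) (Fin 2) k) ∈ matBall n ∧
      ((g⁻¹ : GL (Fin 2) k) : Matrix (Fin 2) (Fin 2) k) ∈ matBall n := by
  constructor
  · intro h
    exact ⟨fun i j => (h i j).1, fun i j => (h i j).2⟩
  · rintro ⟨h1, h2⟩ i j
    exact ⟨h1 i j, h2 i j⟩

/-- The congruence subgroup `U(n)` as a subgroup of `GL₂(k)`. -/
def subU (n : ℕ) : Subgroup (GL (Fin 2) k) where
  carrier := {g | InU n g}
  one_mem' := by
    show InU n 1
    rw [inU_iff]
    simpa using one_mem_matBall (k := k) n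
  mul_mem' := by
    intro a b ha hb
    have ha' := (inU_iff n a).1 ha
    have hb' := (inU_iff n b).1 hb
    show InU n (a * b)
    rw [inU_iff]
    refine ⟨?_, ?_⟩
    · rw [Units.val_mul]
      exact matBall_mul ha'.1 hb'.1
    · rw [_root_.mul_inv_rev, Units.val_mul]
      exact matBall_mul hb'.2 ha'.2
  inv_mem' := by
    intro a ha
    have ha' := (inU_iff n a).1 ha
    show InU n a⁻¹
    rw [inU_iff, inv_inv]
    exact ⟨ha'.2, ha'.1⟩

theorem mem_subU_iff (n : ℕ) (g : GL (Fin 2) k) : g ∈ subU n ↔ InU n g := Iff.rfl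

theorem matBall_eq_pi (n : ℕ) :
    (matBall n : Set (Matrix (Fin 2) (Fin 2) k)) =
      Set.pi Set.univ fun i : Fin 2 => Set.pi Set.univ fun j : Fin 2 =>
        {x : k | Valued.v (x - (1 : Matrix (Fin 2) (Fin 2) k) i j) ≤ WithZero.exp (-(n : ℤ))} := by
  ext M
  constructor
  · intro hM i _ j _
    exact hM i j
  · intro hM i j
    exact hM i (Set.mem_univ i) j (Set.mem_univ j)

theorem isOpen_matBall {ϖ : k} (hϖ : Valued.v ϖ = WithZero.exp (-1 : ℤ)) (n : ℕ) :
    IsOpen (matBall n : Set (Matrix (Fin 2) (Fin 2) k)) := by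
  rw [matBall_eq_pi]
  exact isOpen_set_pi Set.finite_univ fun i _ =>
    isOpen_set_pi Set.finite_univ fun j _ => isOpen_cball hϖ _ n

theorem isCompact_cball {q : ℕ} (h : IsLocalField k q) (c : k) (hc : Valued.v c ≤ 1) (n : ℕ) :
    IsCompact {x : k | Valued.v (x - c) ≤ WithZero.exp (-(n : ℤ))} := by
  obtain ⟨ϖ, hϖ⟩ := h.unif
  refine (isCompact_unitBall h).of_isClosed_subset (isClosed_cball hϖ c n) fun x hx => ?_
  have hx' : Valued.v (x - c) ≤ WithZero.exp (-(n : ℤ)) := hx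
  have : x = (x - c) + c := by ring
  show Valued.v x ≤ 1
  rw [this]
  exact (Valued.v.map_add _ _).trans (max_le (hx'.trans (exp_neg_nat_le_one n)) hc)

theorem val_one_apply_le (i j : Fin 2) :
    Valued.v ((1 : Matrix (Fin 2) (Fin 2) k) i j) ≤ 1 := by
  by_cases hij : i = j
  · subst hij
    simp
  · simp [Matrix.one_apply_ne hij]

theorem isCompact_matBall {q : ℕ} (h : IsLocalField k q) (n : ℕ) :
    IsCompact (matBall n : Set (Matrix (Fin 2) (Fin 2) k)) := by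
  rw [matBall_eq_pi]
  exact isCompact_univ_pi fun i => isCompact_univ_pi fun j =>
    isCompact_cball h _ (val_one_apply_le i j) n

theorem subU_eq_preimage (n : ℕ) :
    ((subU n : Subgroup (GL (Fin 2) k)) : Set (GL (Fin 2) k)) =
      Units.embedProduct (Matrix (Fin 2) (Fin 2) k) ⁻¹'
        ((matBall n) ×ˢ (MulOpposite.opHomeomorph.symm ⁻¹' (matBall n))) := by
  ext g
  simp only [SetLike.mem_coe, mem_subU_iff, inU_iff, Set.mem_preimage, Set.mem_prod,
    Units.embedProduct_apply]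
  rfl

theorem isOpen_subU {ϖ : k} (hϖ : Valued.v ϖ = WithZero.exp (-1 : ℤ)) (n : ℕ) :
    IsOpen ((subU n : Subgroup (GL (Fin 2) k)) : Set (GL (Fin 2) k)) := by
  rw [subU_eq_preimage]
  exact ((isOpen_matBall hϖ n).prod
    ((isOpen_matBall hϖ n).preimage MulOpposite.opHomeomorph.symm.continuous)).preimage
    Units.continuous_embedProduct

theorem isCompact_subU {q : ℕ} (h : IsLocalField k q) (n : ℕ) :
    IsCompact ((subU n : Subgroup (GL (Fin 2) k)) : Set (GL (Fin 2) k)) := by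
  rw [subU_eq_preimage]
  refine Units.isClosedEmbedding_embedProduct.isCompact_preimage ?_
  exact (isCompact_matBall h n).prod
    ((MulOpposite.opHomeomorph.symm.isCompact_preimage).2 (isCompact_matBall h n))

theorem locallyCompactSpace_GL {q : ℕ} (h : IsLocalField k q) :
    LocallyCompactSpace (GL (Fin 2) k) := by
  haveI : LocallyCompactSpace k := locallyCompactSpace_of_isLocalField h
  haveI : LocallyCompactSpace (Matrix (Fin 2) (Fin 2) k) :=
    inferInstanceAs (LocallyCompactSpace (Fin 2 → Fin 2 → k))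
  exact Units.isClosedEmbedding_embedProduct.locallyCompactSpace

theorem sigmaCompactSpace_GL {q : ℕ} (h : IsLocalField k q) :
    SigmaCompactSpace (GL (Fin 2) k) := by
  haveI : SigmaCompactSpace k := sigmaCompactSpace_of_isLocalField h
  haveI : SigmaCompactSpace (Matrix (Fin 2) (Fin 2) k) :=
    inferInstanceAs (SigmaCompactSpace (Fin 2 → Fin 2 → k))
  haveI : SigmaCompactSpace (Matrix (Fin 2) (Fin 2) k)ᵐᵒᵖ :=
    MulOpposite.opHomeomorph.symm.isClosedEmbedding.sigmaCompactSpace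
  exact Units.isClosedEmbedding_embedProduct.sigmaCompactSpace

theorem continuous_glAut {q : ℕ} (h : IsLocalField k q) (s : k ≃+* k)
    (hs : ∀ y : k, Valued.v (s y) = Valued.v y) : Continuous (glAut s) := by
  have hc : Continuous (s : k →+* k) := continuous_of_val_eq h s hs
  exact hc.generalLinearGroup_map

end GLTop

end Fermat.Agent.LT.T6.H420

end
end
-- ===== PACK-END LT/T6/H420/GLTop.lean

-- ===== PACK-BEGIN LT/T6/H305/CenNormSpec.lean
section


/-!
# Row LT, tower T6, leaf T6.18g `CenNormC783` (twisted descent at the centre): SUB-SPEC (helper305)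

OFF-MAIN.  Definitions + frozen sub-leaf Props of `CenNormC783` (`BadSpec.lean` of helper783).
Mathlib + `T6/Spec.lean` (helper22) + `T6/H783/BadSpec.lean` (helper783) only.  The tops are in
`CenNormTop.lean`:

* `cenNorm_of_leaves305 : CenOneC305 → TranslC305 → CenNormC783` (PROVED)
* `cenNorm_of_all305` (PROVED): `CenNormC783` from the eleven leaves `a`–`k`, the inputs
  `NormInjC`, `OrbSumExC`, `OrbSumUniqC` (T6 spec), `LvlC783`, `AddC783` (helper783) and the two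
  GLUE leaves
  - `CenOneTopC305 = DescC305 → RootInjC305 → RootSurjC305 → RootSmoothC305 → NormInjC →
      OrbSumExC → LvlC783 → CentPowC305 → RegPowC305 → CptGC305 → CenOneC305`,
  - `DescTopC305 = CompactC305 → FibreC305 → GenLvlC305 → AddC783 → OrbSumUniqC →
      CptGC305 → PhiTwSuppC305 → RegPowC305 → DescC305`.

## Notation

`G = GL₂(k)`, `G' = GL₂(k')`, `ι = Matrix.GeneralLinearGroup.map i : G → G'`, `σ = glAut s`,
`N δ = twNorm s l δ`.  `H_c = {h ∈ G : |tr h - 2| ≤ exp(-c), |det h - 1| ≤ exp(-c)}` (`InH305 c`),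
a conjugation invariant open and closed neighbourhood of `1`.  For `h ∈ G`: `N (ι h) = ι (h ^ l)`.

## The proof (helper783's header step 3a; helper301's memo §4, "Theorem C1")

0. **TRANSLATE** (`TranslC305`).  `z = N ζ`: with `φ_ζ(g) = φ(ζ g)`, `TO_{ζ⁻¹ δ}(φ_ζ) = TO_δ(φ)`,
   `N(ζ⁻¹ δ) = z⁻¹ N δ`; a solution `f₁` for `φ_ζ` at `(2, 1)` gives `f(γ) = f₁(z⁻¹ γ)` at
   `(2 z, z²)`.  So `z = 1` (`CenOneC305`).
1. **DESCENT** (`DescC305`): there are `c`, `m₀` and `Φ` on `G`, bi-`U(m₀)`-invariant of finite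
   support, with `TO_{ι h}(φ) = O_h(Φ)` for all `h ∈ H_c` with `h ^ l` regular.
   * `CompactC305` (Harish-Chandra's compactness lemma at the semisimple element `σ` of
     `G' ⋊ ⟨σ⟩`; on the tree: `d(v, h σ v) ≤ R`, `h ∈ H_c` forces `v` into a bounded
     neighbourhood of the tree of `G`): the `x ∈ G'` with `x⁻¹ ι(h) σ(x) ∈ supp φ` for some
     `h ∈ H_c`, `h ^ l` regular, lie in FINITELY many double cosets `ι(G) y U'(n)`, `y ∈ Y`.
   * `FibreC305` (re-indexing): the twisted centraliser of `ι h` is `ι(T_h)`, `T_h` the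
     centraliser of `h` in `G`; `T_h \ G y U'(n) / U'(n) = T_h \ G / Γ_y`,
     `Γ_y = {g ∈ G : y⁻¹ ι(g) y ∈ U'(n)}` (`InGam305`); so
     `TO_{ι h}(φ) = ∑_{y ∈ Y} O^{Γ_y}_h(φ_y)`, `φ_y(g) = φ(y⁻¹ ι(g) σ(y))` (`phiTw305`), where
     `O^{Γ}` is the orbit sum with respect to `Γ` (classes modulo conjugation by `Γ`, weights
     `[T^c : T^c ∩ Γ]`).
   * `GenLvlC305` (level change `Γ_y ⊇ U(m)`): `O^{U(m)}_h(ψ) = [Γ_y : U(m)] · O^{Γ_y}_h(ψ)` for
     `ψ` invariant under conjugation by `Γ_y`, `h` regular.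
   * `Φ = ∑_{y ∈ Y} [Γ_y : U(m₀)]⁻¹ φ_y` (`AddC783`, `OrbSumUniqC`, `PhiTwSuppC305`).
2. **ROOT**: `h ↦ h ^ l` on `H_c`, `c ≥ c₀(k, l)`: injective (`RootInjC305`), onto a
   neighbourhood `H_N` of `1` (`RootSurjC305`), open with a locally uniformly continuous inverse
   (`RootSmoothC305`).  All three in the commutative algebra `k[h]`:
   `h ^ l = P + Q (h - 1)`, `P`, `Q` polynomials in `a = tr h - 2`, `b = det(h - 1)`,
   `P ≡ 1`, `Q ≡ l` modulo `(a, b)`; binomial series for the inverse (`char k = 0`, complete).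
3. **TOP** (`cenOne_of_leaves305`): `f(h ^ l) = κ⁻¹ Φ(h)` for `h ∈ H_c`, `f = 0` outside `H_c ^ l`
   (`κ = [U(m₀) : U(m)]` of `LvlC783`).  For `γ = h ^ l ∈ H_N` regular: `γ = N(ι h)` IS a norm
   (second clause of `MatchOn783` is void); if `N δ ∼ ι γ` then `δ` is `σ`-conjugate to `ι h`
   (`NormInjC`), `TO_δ(φ) = TO_{ι h}(φ) = O_h(Φ) = O_γ(f)` (transport of the representatives by
   the root; the centralisers of `h` and `h ^ l` agree, `CentPowC305`).
-/

set_option autoImplicit false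

open scoped Matrix

noncomputable section

namespace Fermat.Agent.LT.T6.H305

open Fermat.Agent.LT.T6 Fermat.Agent.LT.T6.H783

/-! ## Definitions -/

/-- The conjugation invariant neighbourhood `H_c` of `1`: the `χ`-ball of radius `exp(-c)`
around `(2, 1)`. -/
def InH305 {k : Type} [Field k] [Valued k Γ₀] (c : ℤ) (h : GL (Fin 2) k) : Prop :=
  InChiBall783 (2 : k) 1 c h

/-- `φ_y(g) = φ(y⁻¹ ι(g) σ(y))`, a function on `GL₂(k)`. -/
def phiTw305 {k k' : Type} [Field k] [Field k'] (i : k →+* k') (s : k' ≃+* k')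
    (φ : GL (Fin 2) k' → ℂ) (y : GL (Fin 2) k') : GL (Fin 2) k → ℂ :=
  fun g => φ (y⁻¹ * Matrix.GeneralLinearGroup.map i g * glAut s y)

/-- The compact open subgroup `Γ_y = {g ∈ GL₂(k) : y⁻¹ ι(g) y ∈ U'(n)}` of `GL₂(k)`, as a
predicate. -/
def InGam305 {k k' : Type} [Field k] [Field k'] [Valued k' Γ₀] (i : k →+* k') (n : ℕ)
    (y : GL (Fin 2) k') (g : GL (Fin 2) k) : Prop :=
  InU n (y⁻¹ * Matrix.GeneralLinearGroup.map i g * y)

/-- The orbit sum on `GL₂(k)` with respect to the subgroup `Γ_y`: classes modulo conjugation by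
`Γ_y`, weights `[T^c : T^c ∩ Γ_y]`. -/
def IsOrbSumGam305 {k k' : Type} [Field k] [Field k'] [Valued k Γ₀] [Valued k' Γ₀]
    (i : k →+* k') (n : ℕ) (y : GL (Fin 2) k') (ψ : GL (Fin 2) k → ℂ) (h : GL (Fin 2) k)
    (c : ℂ) : Prop :=
  IsOrbSumGen (glAut (RingEquiv.refl k)) (InGam305 i n y) (InTwCentC (RingEquiv.refl k)) ψ h c

/-! ## Step 0: translation to `z = 1` -/

/-- **The central point `(2, 1)`** (`z = 1`). -/
def CenOneC305 : Prop :=
  ∀ (k k' : Type) [Field k] [Field k'] [Valued k Γ₀] [Valued k' Γ₀] (q l e : ℕ)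
    (i : k →+* k') (s : k' ≃+* k') (n : ℕ) (φ : GL (Fin 2) k' → ℂ),
    BadData783 k k' q l e i s n φ →
    ∃ (N : ℤ) (m : ℕ) (f : GL (Fin 2) k → ℂ), IsLocSol783 l i s n φ 2 1 N m f

/-- **T6.18g.a (translation).**  `z = N ζ`: a local solution at `(2, 1)` for
`φ_ζ(g) = φ(ζ g)` gives a local solution at `(2 z, z²)` for `φ` (`f(γ) = f₁(z⁻¹ γ)`). -/
def TranslC305 : Prop :=
  ∀ (k k' : Type) [Field k] [Field k'] [Valued k Γ₀] [Valued k' Γ₀] (q l e : ℕ)
    (i : k →+* k') (s : k' ≃+* k') (n : ℕ) (φ : GL (Fin 2) k' → ℂ),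
    BadData783 k k' q l e i s n φ →
    ∀ (z : k) (ζ : k'ˣ), z ≠ 0 → i z = ∏ j ∈ Finset.range l, (s ^ j) (ζ : k') →
    ∀ (N : ℤ) (m : ℕ) (f : GL (Fin 2) k → ℂ),
      IsLocSol783 l i s n (fun g => φ (Matrix.GeneralLinearGroup.scalar (Fin 2) ζ * g))
        2 1 N m f →
      ∃ (N' : ℤ) (m' : ℕ) (f' : GL (Fin 2) k → ℂ),
        IsLocSol783 l i s n φ (2 * z) (z ^ 2) N' m' f'

/-! ## Step 2: the `l`-th root on `H_c` -/

/-- **T6.18g.b (root, injectivity).**  `h ↦ h ^ l` is injective on `H_{c₀}`. -/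
def RootInjC305 : Prop :=
  ∀ (k : Type) [Field k] [Valued k Γ₀] (q : ℕ), IsLocalField k q → ∀ l : ℕ, l.Prime →
    ∃ c₀ : ℤ, ∀ h h' : GL (Fin 2) k, InH305 c₀ h → InH305 c₀ h' → h ^ l = h' ^ l → h = h'

/-- **T6.18g.c (root, existence).**  For every `c` the image of `H_c` under `h ↦ h ^ l` contains
some `H_N`. -/
def RootSurjC305 : Prop :=
  ∀ (k : Type) [Field k] [Valued k Γ₀] (q : ℕ), IsLocalField k q → ∀ l : ℕ, l.Prime →
    ∀ c : ℤ, ∃ N : ℤ, ∀ γ : GL (Fin 2) k, InH305 N γ →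
      ∃ h : GL (Fin 2) k, InH305 c h ∧ h ^ l = γ

/-- **T6.18g.d (root, smoothness).**  For `c ≥ c₀`: the image of `H_c` is open and the inverse is
uniformly continuous on bounded sets: for `h ∈ H_c` with entries bounded by `exp B` and
`u, u' ∈ U(m)`, `m = m(B, m₀)`, there is `h' ∈ H_c ∩ U(m₀) h U(m₀)` with
`h' ^ l = u h ^ l u'`. -/
def RootSmoothC305 : Prop :=
  ∀ (k : Type) [Field k] [Valued k Γ₀] (q : ℕ), IsLocalField k q → ∀ l : ℕ, l.Prime →
    ∃ c₀ : ℤ, ∀ c : ℤ, c₀ ≤ c → ∀ (B : ℤ) (m₀ : ℕ), ∃ m : ℕ,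
      ∀ h : GL (Fin 2) k, InH305 c h → entryMax h ≤ WithZero.exp B →
        ∀ u u' : GL (Fin 2) k, InU m u → InU m u' →
          ∃ h' : GL (Fin 2) k, InH305 c h' ∧ h' ^ l = u * h ^ l * u' ∧
            ∃ v v' : GL (Fin 2) k, InU m₀ v ∧ InU m₀ v' ∧ h' = v * h * v'

/-- **T6.18g.j (regularity of the root).**  If `h ^ l` is regular then `h` is regular. -/
def RegPowC305 : Prop :=
  ∀ (k : Type) [Field k] (h : GL (Fin 2) k) (l : ℕ), IsReg (h ^ l) → IsReg h

/-- **T6.18g.k (centraliser of the root).**  If `g ^ l` is regular, the centraliser of `g ^ l`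
is the centraliser of `g` (`g ^ l = P + Q g` with `Q ≠ 0`). -/
def CentPowC305 : Prop :=
  ∀ (k : Type) [Field k] (g t : GL (Fin 2) k) (l : ℕ), IsReg (g ^ l) →
    t * g ^ l = g ^ l * t → t * g = g * t

/-! ## Compactness in `GL₂(k)` -/

/-- **T6.18g.e (bounded sets are compact).**  The set `{g : entries ≤ exp B, |det g| ≥ exp(-B)}`
is covered by finitely many cosets `x U(m)`. -/
def CptGC305 : Prop :=
  ∀ (k : Type) [Field k] [Valued k Γ₀] (q : ℕ), IsLocalField k q →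
    ∀ (B : ℤ) (m : ℕ), ∃ F : Finset (GL (Fin 2) k),
      ∀ g : GL (Fin 2) k, entryMax g ≤ WithZero.exp B →
        WithZero.exp (-B) ≤ Valued.v (g : Matrix (Fin 2) (Fin 2) k).det →
        ∃ x ∈ F, ∃ u : GL (Fin 2) k, InU m u ∧ g = x * u

/-- **T6.18g.i (support of `φ_y`).**  `φ_y` is supported on finitely many cosets `x U(m)`
(`ι(g) ∈ y (supp φ) σ(y)⁻¹` is bounded, `v(i x) = v(x) ^ e`; then `CptGC305`). -/
def PhiTwSuppC305 : Prop :=
  CptGC305 →
  ∀ (k k' : Type) [Field k] [Field k'] [Valued k Γ₀] [Valued k' Γ₀] (q l e : ℕ)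
    (i : k →+* k') (s : k' ≃+* k') (n : ℕ) (φ : GL (Fin 2) k' → ℂ),
    BadData783 k k' q l e i s n φ →
    ∀ (y : GL (Fin 2) k') (m : ℕ), HasFinSupp (InU m) (phiTw305 i s φ y)

/-! ## Step 1: the descent -/

/-- **Descent at `1`.**  There are `c`, `m₀`, `Φ` with `TO_{ι h}(φ) = O_h(Φ)` for `h ∈ H_c`,
`h ^ l` regular. -/
def DescC305 : Prop :=
  ∀ (k k' : Type) [Field k] [Field k'] [Valued k Γ₀] [Valued k' Γ₀] (q l e : ℕ)
    (i : k →+* k') (s : k' ≃+* k') (n : ℕ) (φ : GL (Fin 2) k' → ℂ),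
    BadData783 k k' q l e i s n φ →
    ∃ (c : ℤ) (m₀ : ℕ) (Φ : GL (Fin 2) k → ℂ), IsBiInv (InU m₀) Φ ∧ HasFinSupp (InU m₀) Φ ∧
      ∀ h : GL (Fin 2) k, InH305 c h → IsReg (h ^ l) →
        ∀ c₁ c₂ : ℂ, IsTwOrbSum s n φ (Matrix.GeneralLinearGroup.map i h) c₁ →
          IsOrbSum m₀ Φ h c₂ → c₁ = c₂

/-- **T6.18g.f (compactness modulo `G`; Harish-Chandra's compactness lemma at `σ`).**  There are
`c` and a finite set `Y ⊂ G'` such that every `x ∈ G'` with `φ(x⁻¹ ι(h) σ(x)) ≠ 0` for some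
`h ∈ H_c`, `h ^ l` regular, lies in `ι(G) y U'(n)` for some `y ∈ Y`. -/
def CompactC305 : Prop :=
  ∀ (k k' : Type) [Field k] [Field k'] [Valued k Γ₀] [Valued k' Γ₀] (q l e : ℕ)
    (i : k →+* k') (s : k' ≃+* k') (n : ℕ) (φ : GL (Fin 2) k' → ℂ),
    BadData783 k k' q l e i s n φ →
    ∃ (c : ℤ) (Y : Finset (GL (Fin 2) k')),
      ∀ (h : GL (Fin 2) k) (x : GL (Fin 2) k'), InH305 c h → IsReg (h ^ l) →
        φ (x⁻¹ * Matrix.GeneralLinearGroup.map i h * glAut s x) ≠ 0 →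
        ∃ g : GL (Fin 2) k, ∃ y ∈ Y, ∃ u : GL (Fin 2) k', InU n u ∧
          x = Matrix.GeneralLinearGroup.map i g * y * u

/-- **T6.18g.g (fibration of the twisted orbit).**  `Y` a finite set of representatives of
pairwise different double cosets `ι(G) y U'(n)` which contain all `x` with
`φ(x⁻¹ ι(h) σ(x)) ≠ 0`, `h ^ l` regular: `TO_{ι h}(φ) = ∑_{y ∈ Y} O^{Γ_y}_h(φ_y)`. -/
def FibreC305 : Prop :=
  ∀ (k k' : Type) [Field k] [Field k'] [Valued k Γ₀] [Valued k' Γ₀] (q l e : ℕ)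
    (i : k →+* k') (s : k' ≃+* k') (n : ℕ) (φ : GL (Fin 2) k' → ℂ),
    BadData783 k k' q l e i s n φ →
    ∀ Y : Finset (GL (Fin 2) k'),
      (∀ y ∈ Y, ∀ y' ∈ Y,
        (∃ (g : GL (Fin 2) k) (u : GL (Fin 2) k'), InU n u ∧
          y' = Matrix.GeneralLinearGroup.map i g * y * u) → y = y') →
      ∀ h : GL (Fin 2) k, IsReg (h ^ l) →
        (∀ x : GL (Fin 2) k', φ (x⁻¹ * Matrix.GeneralLinearGroup.map i h * glAut s x) ≠ 0 →
          ∃ g : GL (Fin 2) k, ∃ y ∈ Y, ∃ u : GL (Fin 2) k', InU n u ∧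
            x = Matrix.GeneralLinearGroup.map i g * y * u) →
        ∀ c₁ : ℂ, IsTwOrbSum s n φ (Matrix.GeneralLinearGroup.map i h) c₁ →
          ∃ a : GL (Fin 2) k' → ℂ,
            (∀ y ∈ Y, IsOrbSumGam305 i n y (phiTw305 i s φ y) h (a y)) ∧ c₁ = ∑ y ∈ Y, a y

/-- **T6.18g.h (level change `Γ_y ⊇ U(m)`).**  For `m ≥ m₁(y)`: `U(m) ⊆ Γ_y` and, with
`κ = [Γ_y : U(m)]`, `O^{U(m)}_h(ψ) = κ · O^{Γ_y}_h(ψ)` for `ψ` invariant under conjugation by
`Γ_y` and `h` regular (the `Γ_y`-class of `g` is the union of the `U(m)`-classes of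
`γ⁻¹ g γ`, `γ ∈ (T_g ∩ Γ_y) \ Γ_y / U(m)`, and
`∑_γ [T_g^c : T_g^c ∩ γ U(m) γ⁻¹] = [T_g^c : T_g^c ∩ Γ_y] · #(Γ_y / U(m))`). -/
def GenLvlC305 : Prop :=
  ∀ (k k' : Type) [Field k] [Field k'] [Valued k Γ₀] [Valued k' Γ₀] (q l e : ℕ)
    (i : k →+* k') (s : k' ≃+* k'),
    IsLocalField k q → IsLocalField k' (q ^ (l / e)) → IsLocalExt k k' l e i s →
    ∀ (n : ℕ) (y : GL (Fin 2) k'), ∃ m₁ : ℕ, ∀ m : ℕ, m₁ ≤ m → ∃ κ : ℕ, κ ≠ 0 ∧
      (∀ u : GL (Fin 2) k, InU m u → InGam305 i n y u) ∧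
      ∀ ψ : GL (Fin 2) k → ℂ,
        (∀ u g : GL (Fin 2) k, InGam305 i n y u → ψ (u⁻¹ * g * u) = ψ g) →
        ∀ (h : GL (Fin 2) k) (c : ℂ), IsReg h → IsOrbSumGam305 i n y ψ h c →
          IsOrbSum m ψ h ((κ : ℂ) * c)

/-! ## The two glue leaves -/

/-- **T6.18g.T1 (glue of the descent)**, step 1 of the header:
`Φ = ∑_{y ∈ Y₀} [Γ_y : U(m₀)]⁻¹ φ_y`, `Y₀ ⊆ Y` representatives of the double cosets. -/
def DescTopC305 : Prop :=
  CompactC305 → FibreC305 → GenLvlC305 → AddC783 → OrbSumUniqC → CptGC305 → PhiTwSuppC305 →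
    RegPowC305 → DescC305

/-- **T6.18g.T2 (glue at the central point `(2, 1)`)**, step 3 of the header:
`f(h ^ l) = κ⁻¹ Φ(h)` on `H_c ^ l`. -/
def CenOneTopC305 : Prop :=
  DescC305 → RootInjC305 → RootSurjC305 → RootSmoothC305 → NormInjC → OrbSumExC → LvlC783 →
    CentPowC305 → RegPowC305 → CptGC305 → CenOneC305

end Fermat.Agent.LT.T6.H305

end

end
-- ===== PACK-END LT/T6/H305/CenNormSpec.lean

-- ===== PACK-BEGIN LT/T6/H313/LocalLim.lean
section




/-!
# Row LT, tower T6, sub-leaf T6.15c3 (helper313): limits in a complete valued field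

OFF-MAIN.  `exists_limit313`: in a complete field with a valuation in `ℤᵐ⁰` and a uniformiser,
a sequence with `v (a (n+1) - a n) ≤ exp (-n)` has a limit `L` with `v (L - a n) ≤ exp (-n)`.
-/

set_option autoImplicit false
set_option linter.style.haveILetI false
set_option linter.unusedSectionVars false
set_option linter.unusedVariables false

open Fermat.Agent.LT.T6 Filter Topology

noncomputable section

namespace Fermat.Agent.LT.T6.H313

section Lim

variable {K : Type} [Field K] [Valued K Γ₀]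

theorem val_pow_unif313 (ϖ : K) (hϖ : Valued.v ϖ = WithZero.exp (-1 : ℤ)) (n : ℕ) :
    Valued.v (ϖ ^ n) = WithZero.exp (-(n : ℤ)) := by
  rw [map_pow, hϖ, ← WithZero.exp_nsmul]
  congr 1
  simp

theorem val_sub_le_of_step313 (a : ℕ → K)
    (ha : ∀ n, Valued.v (a (n + 1) - a n) ≤ WithZero.exp (-(n : ℤ))) (n m : ℕ) (h : n ≤ m) :
    Valued.v (a m - a n) ≤ WithZero.exp (-(n : ℤ)) := by
  induction m, h using Nat.le_induction with
  | base => simp
  | succ m hm ih =>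
    have h1 : a (m + 1) - a n = (a (m + 1) - a m) + (a m - a n) := by ring
    rw [h1]
    refine (Valuation.map_add _ _ _).trans (max_le ?_ ih)
    exact (ha m).trans (exp_neg_mono313 hm)

theorem exists_limit313 [CompleteSpace K] (ϖ : K) (hϖ : Valued.v ϖ = WithZero.exp (-1 : ℤ))
    (a : ℕ → K) (ha : ∀ n, Valued.v (a (n + 1) - a n) ≤ WithZero.exp (-(n : ℤ))) :
    ∃ L : K, ∀ n, Valued.v (L - a n) ≤ WithZero.exp (-(n : ℤ)) := by
  have hc : CauchySeq a := by
    rw [CauchySeq, Valued.cauchy_iff]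
    refine ⟨inferInstance, fun γ => ?_⟩
    set e : Γ₀ := MonoidWithZeroHom.ValueGroup₀.embedding γ.1 with he
    have he0 : e ≠ 0 := by
      intro h
      have h2 : MonoidWithZeroHom.ValueGroup₀.embedding γ.1
          = MonoidWithZeroHom.ValueGroup₀.embedding
            (0 : MonoidWithZeroHom.ValueGroup₀ (MonoidWithZeroHom.ofClass (Valued.v (R := K)))) := by
        rw [map_zero]; exact h
      exact γ.ne_zero (MonoidWithZeroHom.ValueGroup₀.embedding_injective h2)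
    set N : ℕ := (1 - WithZero.log e).toNat with hN
    have hNe : (WithZero.exp (-(N : ℤ)) : Γ₀) < e := by
      rw [← WithZero.exp_log he0, WithZero.exp_lt_exp]
      omega
    refine ⟨a '' {n | N ≤ n}, ?_, ?_⟩
    · refine Filter.mem_map.2 (Filter.mem_atTop_sets.2 ⟨N, fun m hm => ?_⟩)
      exact ⟨m, hm, rfl⟩
    · rintro _ ⟨n, hn, rfl⟩ _ ⟨m, hm, rfl⟩
      rw [Valuation.restrict_lt_iff_lt_embedding]
      refine lt_of_le_of_lt ?_ hNe
      rcases le_total n m with h | h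
      · exact (val_sub_le_of_step313 a ha n m h).trans (exp_neg_mono313 hn)
      · rw [Valuation.map_sub_swap]
        exact (val_sub_le_of_step313 a ha m n h).trans (exp_neg_mono313 hm)
  obtain ⟨L, hL⟩ := cauchySeq_tendsto_of_complete hc
  refine ⟨L, fun n => ?_⟩
  have hcl : IsClosed {y : K | Valued.v (y - a n) ≤ WithZero.exp (-(n : ℤ))} := by
    have h1 := (Valued.isClosed_closedBall K ((Valued.v (R := K)).restrict (ϖ ^ n))).preimage
      (continuous_id.sub (continuous_const (y := a n)))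
    convert h1 using 1
    ext y
    simp only [Set.mem_ofPred_eq, Set.mem_preimage, id_eq, Pi.sub_apply]
    rw [Valuation.restrict_le_iff, val_pow_unif313 ϖ hϖ]
  exact hcl.mem_of_tendsto hL
    (Filter.eventually_atTop.2 ⟨n, fun m hm => val_sub_le_of_step313 a ha n m hm⟩)

end Lim

end Fermat.Agent.LT.T6.H313

end

end
-- ===== PACK-END LT/T6/H313/LocalLim.lean

-- ===== PACK-BEGIN LT/T6/H826/EllReduce.lean
section


/-!
# Row LT, tower T6, sub-leaf T6.14a `EllReduceC` (helper826), OFF-MAIN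

`ellReduceC826 : Fermat.Agent.LT.T6.H847.EllReduceC`, VERBATIM against
`LT/T6/H847/EllRamSpec.lean` (helper847, sha256 `3578c164…`) on `LT/T6/Spec.lean`
(helper22, sha256 `89f8f8b8…`).  Mathlib + these two files only.

Route (as in the doc-comment of the Prop):
* `γ` has no eigenvalue in `k`, so `γ₁₀ ≠ 0` and the centraliser of `γ` is `k + k γ`
  (`comm_entries826`); the `t` of `HasRamUnif` is not scalar since `ord det t = 1` is odd, so
  `t₁₀ ≠ 0` and `γ = α + β t`, `β ≠ 0`;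
* with `P = [e₁ | t e₁]`: `t P = P Π`, `Π = embMat τ ν 0 1` the companion matrix of
  `X² - τ X + ν`, `τ = tr t`, `ν = det t`; hence `γ P = P (embMat τ ν α β)`;
* `v τ < 1`: otherwise `X² - τ X + ν` has a root in `k` (`exists_root826`: the iteration
  `Y ↦ Y² + ν/τ²` converges, the ONLY use of completeness), which gives an eigenvalue of `γ`;
* `N(x⁻¹ δ s(x)) = x⁻¹ N(δ) sˡ(x)` (`twN_twConj826`), `sˡ = 1`, so `δ` may be moved to `δ₀` with
  `N δ₀ = γ₀`; `δ₀ s(N δ₀) = N(δ₀) sˡ(δ₀)` (`twN_succ826`) shows that `δ₀` commutes with `γ₀`,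
  hence `δ₀ = d₀ + d₁ Π` (`comm_entries826` again).
-/

set_option autoImplicit false

open scoped Matrix

noncomputable section

namespace Fermat.Agent.LT.T6.H826

open Fermat.Agent.LT.T6 Fermat.Agent.LT.T6.H847

/-! ## 1. The twisted norm in a group -/

section Group

variable {Γ : Type} [Group Γ]

/-- The other recursion of the twisted norm: `N_{n+1} δ = N_n δ · sⁿ(δ)`. -/
theorem twN_succ826 (s : Γ →* Γ) (n : ℕ) (δ : Γ) :
    twN s (n + 1) δ = twN s n δ * s^[n] δ := by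
  induction n with
  | zero => simp [twN]
  | succ n ih =>
    have h2 : twN s (n + 1) δ = δ * s (twN s n δ) := rfl
    calc twN s (n + 1 + 1) δ = δ * s (twN s (n + 1) δ) := rfl
      _ = δ * s (twN s n δ * s^[n] δ) := by rw [ih]
      _ = δ * s (twN s n δ) * s (s^[n] δ) := by rw [map_mul, mul_assoc]
      _ = twN s (n + 1) δ * s^[n + 1] δ := by rw [← h2, Function.iterate_succ_apply']

/-- `N_n(x⁻¹ δ s(x)) = x⁻¹ N_n(δ) sⁿ(x)`. -/
theorem twN_twConj826 (s : Γ →* Γ) (n : ℕ) (δ x : Γ) :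
    twN s n (x⁻¹ * δ * s x) = x⁻¹ * twN s n δ * s^[n] x := by
  induction n with
  | zero => simp [twN]
  | succ n ih =>
    have h1 : twN s (n + 1) (x⁻¹ * δ * s x) = (x⁻¹ * δ * s x) * s (twN s n (x⁻¹ * δ * s x)) := rfl
    have h2 : twN s (n + 1) δ = δ * s (twN s n δ) := rfl
    rw [h1, ih, h2, Function.iterate_succ_apply']
    simp only [map_mul, map_inv]
    group

end Group

/-! ## 2. The action of a ring automorphism on `GL₂` -/

section GlAut

variable {R : Type} [CommRing R]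

theorem glAut_apply826 (s : R ≃+* R) (g : GL (Fin 2) R) (a b : Fin 2) :
    (glAut s g : Matrix (Fin 2) (Fin 2) R) a b = s ((g : Matrix (Fin 2) (Fin 2) R) a b) := by
  unfold glAut
  rw [Matrix.GeneralLinearGroup.map_apply]
  rfl

theorem glAut_iterate_apply826 (s : R ≃+* R) (n : ℕ) (g : GL (Fin 2) R) (a b : Fin 2) :
    (((glAut s)^[n] g : GL (Fin 2) R) : Matrix (Fin 2) (Fin 2) R) a b
      = (s ^ n) ((g : Matrix (Fin 2) (Fin 2) R) a b) := by
  induction n with
  | zero => simp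
  | succ n ih =>
    rw [Function.iterate_succ_apply', glAut_apply826, ih, pow_succ']
    rfl

theorem glAut_iterate_eq826 (s : R ≃+* R) (l : ℕ) (h : ∀ y : R, (s ^ l) y = y)
    (g : GL (Fin 2) R) : (glAut s)^[l] g = g := by
  apply Matrix.GeneralLinearGroup.ext
  intro a b
  rw [glAut_iterate_apply826, h]

theorem glAut_map826 {k : Type} [CommRing k] (i : k →+* R) (s : R ≃+* R)
    (h : ∀ x : k, s (i x) = i x) (g : GL (Fin 2) k) :
    glAut s (Matrix.GeneralLinearGroup.map i g) = Matrix.GeneralLinearGroup.map i g := by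
  apply Matrix.GeneralLinearGroup.ext
  intro a b
  rw [glAut_apply826, Matrix.GeneralLinearGroup.map_apply, h]

end GlAut

/-! ## 3. Linear algebra of `2 × 2` matrices over a field -/

section Linear

variable {F : Type} [Field F]

/-- The centraliser of a matrix `M` with `M₁₀ ≠ 0` is `F + F M`: entries of a commuting `X`. -/
theorem comm_entries826 (M X : Matrix (Fin 2) (Fin 2) F) (h10 : M 1 0 ≠ 0)
    (hc : X * M = M * X) :
    X 0 1 = X 1 0 / M 1 0 * M 0 1 ∧ X 1 1 = X 0 0 + X 1 0 / M 1 0 * (M 1 1 - M 0 0) := by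
  have e00 := congrFun (congrFun hc 0) 0
  have e10 := congrFun (congrFun hc 1) 0
  simp only [Matrix.mul_apply, Fin.sum_univ_two] at e00 e10
  constructor
  · field_simp
    linear_combination e00
  · field_simp
    linear_combination e10

/-- A matrix commuting with `embMat τ ν α β`, `β ≠ 0`, is `embMat τ ν d₀ d₁`. -/
theorem comm_embMat826 (τ ν α β : F) (hβ : β ≠ 0) (X : Matrix (Fin 2) (Fin 2) F)
    (hc : X * embMat τ ν α β = embMat τ ν α β * X) : X = embMat τ ν (X 0 0) (X 1 0) := by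
  have h10 : (embMat τ ν α β) 1 0 ≠ 0 := by simpa [embMat] using hβ
  obtain ⟨h1, h2⟩ := comm_entries826 _ X h10 hc
  simp only [embMat, Matrix.of_apply, Matrix.cons_val', Matrix.cons_val_zero,
    Matrix.cons_val_one, Matrix.cons_val_fin_one] at h1 h2
  ext a b
  fin_cases a <;> fin_cases b
  · simp [embMat]
  · simp only [embMat, Fin.zero_eta, Fin.mk_one, Matrix.of_apply, Matrix.cons_val', Matrix.cons_val_zero,
      Matrix.cons_val_one, Matrix.cons_val_fin_one]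
    rw [h1]; field_simp
  · simp [embMat]
  · simp only [embMat, Fin.mk_one, Matrix.of_apply, Matrix.cons_val', Matrix.cons_val_one,
      Matrix.cons_val_fin_one]
    rw [h2]; field_simp; ring

end Linear

/-! ## 4. The root lemma (the only use of completeness) -/

section Root

open Filter Topology

/-- In `ℤᵐ⁰`, `x < 1` implies `x ≤ exp (-1)`. -/
theorem le_exp_neg_one826 {x : Γ₀} (h : x < 1) : x ≤ WithZero.exp (-1 : ℤ) := by
  by_cases hx : x = 0
  · rw [hx]; exact zero_le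
  · rw [← WithZero.exp_log hx] at h ⊢
    rw [← WithZero.exp_zero, WithZero.exp_lt_exp] at h
    rw [WithZero.exp_le_exp]
    omega

variable {k : Type} [Field k] [Valued k Γ₀]

/-- The iteration `Y ↦ Y² + c` from `0`. -/
def rootSeq826 (c : k) : ℕ → k
  | 0 => 0
  | (n + 1) => (rootSeq826 c n) ^ 2 + c

theorem rootSeq_val826 (c : k) (hc : Valued.v c < 1) (n : ℕ) :
    Valued.v (rootSeq826 c n) ≤ Valued.v c := by
  induction n with
  | zero => simp [rootSeq826]
  | succ n ih =>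
    show Valued.v ((rootSeq826 c n) ^ 2 + c) ≤ Valued.v c
    refine le_trans (Valuation.map_add _ _ _) (max_le ?_ le_rfl)
    rw [Valuation.map_pow, pow_two]
    calc Valued.v (rootSeq826 c n) * Valued.v (rootSeq826 c n)
        ≤ Valued.v c * 1 := mul_le_mul' ih (le_trans ih hc.le)
      _ = Valued.v c := mul_one _

theorem rootSeq_step826 (c : k) (hc : Valued.v c < 1) (n : ℕ) :
    Valued.v (rootSeq826 c (n + 1) - rootSeq826 c n) ≤ Valued.v c ^ (n + 1) := by
  induction n with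
  | zero => simp [rootSeq826]
  | succ n ih =>
    have h1 : rootSeq826 c (n + 1 + 1) - rootSeq826 c (n + 1)
        = (rootSeq826 c (n + 1) - rootSeq826 c n) * (rootSeq826 c (n + 1) + rootSeq826 c n) := by
      show (rootSeq826 c (n + 1)) ^ 2 + c - ((rootSeq826 c n) ^ 2 + c) = _
      ring
    rw [h1, Valuation.map_mul, pow_succ (Valued.v c) (n + 1)]
    refine mul_le_mul' ih ?_
    exact le_trans (Valuation.map_add _ _ _)
      (max_le (rootSeq_val826 c hc _) (rootSeq_val826 c hc _))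

theorem rootSeq_diff826 (c : k) (hc : Valued.v c < 1) (n m : ℕ) (h : n ≤ m) :
    Valued.v (rootSeq826 c m - rootSeq826 c n) ≤ Valued.v c ^ (n + 1) := by
  induction m, h using Nat.le_induction with
  | base => simp
  | succ m hm ih =>
    have h1 : rootSeq826 c (m + 1) - rootSeq826 c n
        = (rootSeq826 c (m + 1) - rootSeq826 c m) + (rootSeq826 c m - rootSeq826 c n) := by ring
    rw [h1]
    refine le_trans (Valuation.map_add _ _ _) (max_le ?_ ih)
    refine le_trans (rootSeq_step826 c hc m) ?_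
    exact pow_le_pow_right_of_le_one' hc.le (by omega)

theorem rootSeq_cauchy826 (c : k) (hc : Valued.v c < 1) : CauchySeq (rootSeq826 c) := by
  rw [(Valued.hasBasis_uniformity k Γ₀).cauchySeq_iff]
  intro γ _
  set g : Γ₀ := MonoidWithZeroHom.ValueGroup₀.embedding γ.1 with hg
  have hγ : g ≠ 0 := by
    rw [hg]; exact (map_ne_zero _).mpr γ.ne_zero
  set a : ℤ := WithZero.log g with ha
  have hbound : ∀ n : ℕ, (-a).toNat ≤ n → Valued.v c ^ (n + 1) < g := by
    intro n hn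
    have h1 : Valued.v c ^ (n + 1) ≤ WithZero.exp (-1 : ℤ) ^ (n + 1) :=
      pow_le_pow_left' (le_exp_neg_one826 hc) _
    have h2 : WithZero.exp (-1 : ℤ) ^ (n + 1) = WithZero.exp (((n + 1 : ℕ)) • (-1 : ℤ)) :=
      (WithZero.exp_nsmul _ _).symm
    have h3 : WithZero.exp (((n + 1 : ℕ)) • (-1 : ℤ)) < g := by
      rw [← WithZero.exp_log hγ, WithZero.exp_lt_exp]
      have := Int.self_le_toNat (-a)
      simp only [nsmul_eq_mul, Nat.cast_add, Nat.cast_one]
      omega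
    exact lt_of_le_of_lt (h1.trans h2.le) h3
  refine ⟨(-a).toNat, fun m hm n hn => ?_⟩
  show Valued.v.restrict (rootSeq826 c n - rootSeq826 c m) < γ.1
  rw [Valuation.restrict_lt_iff_lt_embedding]
  rcases le_total m n with hmn | hnm
  · exact lt_of_le_of_lt (rootSeq_diff826 c hc m n hmn) (hbound m hm)
  · have h1 : rootSeq826 c n - rootSeq826 c m = -(rootSeq826 c m - rootSeq826 c n) := by ring
    rw [h1, Valuation.map_neg]
    exact lt_of_le_of_lt (rootSeq_diff826 c hc n m hnm) (hbound n hn)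

/-- A fixed point of `Y ↦ Y² + c` for `v c < 1` in a complete valued field. -/
theorem exists_fix826 [CompleteSpace k] (c : k) (hc : Valued.v c < 1) :
    ∃ Y : k, Y = Y ^ 2 + c := by
  obtain ⟨Y, hY⟩ := cauchySeq_tendsto_of_complete (rootSeq_cauchy826 c hc)
  refine ⟨Y, ?_⟩
  have h1 : Tendsto (fun n => rootSeq826 c (n + 1)) atTop (𝓝 Y) :=
    hY.comp (tendsto_add_atTop_nat 1)
  have h2 : Tendsto (fun n => rootSeq826 c (n + 1)) atTop (𝓝 (Y ^ 2 + c)) := by
    have : Tendsto (fun n => (rootSeq826 c n) ^ 2 + c) atTop (𝓝 (Y ^ 2 + c)) :=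
      (hY.pow 2).add tendsto_const_nhds
    exact this
  exact tendsto_nhds_unique h1 h2

/-- **The root lemma.**  In a complete valued field, `X² - τ X + ν` with `v ν < 1 ≤ v τ` has a
root. -/
theorem exists_root826 [CompleteSpace k] (τ ν : k) (hν : Valued.v ν < 1)
    (hτ : 1 ≤ Valued.v τ) : ∃ x : k, x ^ 2 - τ * x + ν = 0 := by
  have hτ0 : τ ≠ 0 := by
    intro h
    rw [h, Valuation.map_zero] at hτ
    exact absurd hτ (by simp)
  have hc : Valued.v (ν / τ ^ 2) < 1 := by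
    rw [map_div₀, Valuation.map_pow]
    have hpos : 0 < Valued.v τ ^ 2 := by
      have : Valued.v τ ≠ 0 := by simpa using hτ0
      exact pow_pos (zero_lt_iff.mpr this) 2
    rw [div_lt_iff₀ hpos, one_mul]
    calc Valued.v ν < 1 := hν
      _ ≤ Valued.v τ ^ 2 := one_le_pow₀ hτ
  obtain ⟨Y, hY⟩ := exists_fix826 (ν / τ ^ 2) hc
  refine ⟨τ * Y, ?_⟩
  have h1 : Y ^ 2 - Y + ν / τ ^ 2 = 0 := by linear_combination -hY
  have h2 : (τ * Y) ^ 2 - τ * (τ * Y) + ν = τ ^ 2 * (Y ^ 2 - Y + ν / τ ^ 2) := by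
    field_simp
  rw [h2, h1, mul_zero]

end Root

/-! ## 5. The companion form -/

section Companion

variable {F : Type} [Field F]

/-- The matrix `P = [e₁ | t e₁]`. -/
def basisMat826 (t : Matrix (Fin 2) (Fin 2) F) : Matrix (Fin 2) (Fin 2) F :=
  !![1, t 0 0; 0, t 1 0]

theorem basisMat_det826 (t : Matrix (Fin 2) (Fin 2) F) : (basisMat826 t).det = t 1 0 := by
  simp [basisMat826, Matrix.det_fin_two]

/-- If `g` commutes with `t` and `t₁₀ ≠ 0` then `g P = P (α + β Π)`, `P = [e₁ | t e₁]`,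
`Π` the companion matrix of the characteristic polynomial of `t`, `β = g₁₀ / t₁₀`,
`α = g₀₀ - β t₀₀`. -/
theorem conj_companion826 (t g : Matrix (Fin 2) (Fin 2) F) (h10 : t 1 0 ≠ 0)
    (hc : g * t = t * g) :
    g * basisMat826 t = basisMat826 t *
      embMat t.trace t.det (g 0 0 - g 1 0 / t 1 0 * t 0 0) (g 1 0 / t 1 0) := by
  obtain ⟨h1, h2⟩ := comm_entries826 t g h10 hc
  ext a b
  fin_cases a <;> fin_cases b
  · simp only [basisMat826, embMat, Matrix.mul_apply, Fin.sum_univ_two, Fin.zero_eta,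
      Matrix.of_apply, Matrix.cons_val', Matrix.cons_val_zero, Matrix.cons_val_one,
      Matrix.cons_val_fin_one]
    ring
  · simp only [basisMat826, embMat, Matrix.mul_apply, Fin.sum_univ_two, Matrix.trace_fin_two,
      Matrix.det_fin_two, Fin.zero_eta, Fin.mk_one, Matrix.of_apply, Matrix.cons_val',
      Matrix.cons_val_zero, Matrix.cons_val_one, Matrix.cons_val_fin_one]
    rw [h1]
    field_simp
    ring
  · simp only [basisMat826, embMat, Matrix.mul_apply, Fin.sum_univ_two, Matrix.trace_fin_two,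
      Matrix.det_fin_two, Fin.zero_eta, Fin.mk_one, Matrix.of_apply, Matrix.cons_val',
      Matrix.cons_val_zero, Matrix.cons_val_one, Matrix.cons_val_fin_one]
    field_simp
    ring
  · simp only [basisMat826, embMat, Matrix.mul_apply, Fin.sum_univ_two, Matrix.trace_fin_two,
      Matrix.det_fin_two, Fin.mk_one, Matrix.of_apply, Matrix.cons_val',
      Matrix.cons_val_zero, Matrix.cons_val_one, Matrix.cons_val_fin_one]
    rw [h2]
    field_simp
    ring

/-- An eigenvalue of `t` gives an eigenvalue of every `g` commuting with `t` (`t₁₀ ≠ 0`). -/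
theorem eigen_transfer826 (t g : Matrix (Fin 2) (Fin 2) F) (h10 : t 1 0 ≠ 0)
    (hc : g * t = t * g) (x : F) (hx : x ^ 2 - t.trace * x + t.det = 0) :
    ∃ y : F, y ^ 2 - g.trace * y + g.det = 0 := by
  obtain ⟨h1, h2⟩ := comm_entries826 t g h10 hc
  refine ⟨g 0 0 - g 1 0 / t 1 0 * t 0 0 + g 1 0 / t 1 0 * x, ?_⟩
  rw [Matrix.trace_fin_two, Matrix.det_fin_two] at hx ⊢
  rw [h1, h2]
  field_simp
  linear_combination (g 1 0) ^ 2 * hx

/-- No eigenvalue: the lower left entry does not vanish. -/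
theorem entry_ne_zero826 (g : Matrix (Fin 2) (Fin 2) F)
    (h : ¬ ∃ x : F, x ^ 2 - g.trace * x + g.det = 0) : g 1 0 ≠ 0 := by
  intro h0
  apply h
  refine ⟨g 0 0, ?_⟩
  rw [Matrix.trace_fin_two, Matrix.det_fin_two, h0]
  ring

end Companion

/-! ## 6. The leaf -/

/-- In `ℤᵐ⁰`, `exp (-1)` is not a square. -/
theorem sq_ne_exp_neg_one826 (x : Γ₀) : x ^ 2 ≠ WithZero.exp (-1 : ℤ) := by
  intro h
  have hx : x ≠ 0 := by
    rintro rfl
    rw [zero_pow two_ne_zero] at h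
    exact WithZero.exp_ne_zero h.symm
  rw [← WithZero.exp_log hx, ← WithZero.exp_nsmul, WithZero.exp_inj] at h
  simp only [nsmul_eq_mul, Nat.cast_ofNat] at h
  omega

/-- **T6.14a `EllReduceC`**, VERBATIM. -/
theorem ellReduceC826 : EllReduceC := by
  intro k k' _ _ _ _ q l i s hk hk' hext δ γ hreg hne hram hconj
  have : CompleteSpace k := hk.complete
  obtain ⟨t, htc, htv⟩ := hram
  have hcomm : (γ : Matrix (Fin 2) (Fin 2) k) * (t : Matrix (Fin 2) (Fin 2) k)
      = (t : Matrix (Fin 2) (Fin 2) k) * (γ : Matrix (Fin 2) (Fin 2) k) := by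
    have := congrArg (fun g : GL (Fin 2) k => (g : Matrix (Fin 2) (Fin 2) k)) htc
    simpa using this.symm
  have hne' : ¬ ∃ x : k, x ^ 2 - (γ : Matrix (Fin 2) (Fin 2) k).trace * x
      + (γ : Matrix (Fin 2) (Fin 2) k).det = 0 := hne
  have hG10 : (γ : Matrix (Fin 2) (Fin 2) k) 1 0 ≠ 0 := entry_ne_zero826 _ hne'
  -- `t` is not scalar
  have hT10 : (t : Matrix (Fin 2) (Fin 2) k) 1 0 ≠ 0 := by
    intro h0
    obtain ⟨h1, h2⟩ := comm_entries826 _ _ hG10 hcomm.symm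
    rw [h0] at h1 h2
    simp only [zero_div, zero_mul, add_zero] at h1 h2
    have hdet : (t : Matrix (Fin 2) (Fin 2) k).det = ((t : Matrix (Fin 2) (Fin 2) k) 0 0) ^ 2 := by
      rw [Matrix.det_fin_two, h1, h2]; ring
    rw [hdet, Valuation.map_pow] at htv
    exact sq_ne_exp_neg_one826 _ htv
  set τ : k := (t : Matrix (Fin 2) (Fin 2) k).trace with hτ
  set ν : k := (t : Matrix (Fin 2) (Fin 2) k).det with hν
  set β : k := (γ : Matrix (Fin 2) (Fin 2) k) 1 0 / (t : Matrix (Fin 2) (Fin 2) k) 1 0 with hβ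
  set α : k := (γ : Matrix (Fin 2) (Fin 2) k) 0 0 - β * (t : Matrix (Fin 2) (Fin 2) k) 0 0 with hα
  have hβ0 : β ≠ 0 := div_ne_zero hG10 hT10
  -- `v τ < 1`
  have hvτ : Valued.v τ < 1 := by
    by_contra hcon
    rw [not_lt] at hcon
    have hν1 : Valued.v ν < 1 := by
      rw [htv, ← WithZero.exp_zero, WithZero.exp_lt_exp]; omega
    obtain ⟨x, hx⟩ := exists_root826 τ ν hν1 hcon
    exact hne' (eigen_transfer826 _ _ hT10 hcomm x hx)
  -- the base change `P`
  have hPdet : (basisMat826 (t : Matrix (Fin 2) (Fin 2) k)).det ≠ 0 := by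
    rw [basisMat_det826]; exact hT10
  set P : GL (Fin 2) k := Matrix.GeneralLinearGroup.mkOfDetNeZero _ hPdet with hP
  have hPval : (P : Matrix (Fin 2) (Fin 2) k) = basisMat826 (t : Matrix (Fin 2) (Fin 2) k) := rfl
  set γ₀ : GL (Fin 2) k := P⁻¹ * γ * P with hγ₀
  have hγ₀eq : (γ₀ : Matrix (Fin 2) (Fin 2) k) = embMat τ ν α β := by
    have key := conj_companion826 (t : Matrix (Fin 2) (Fin 2) k) (γ : Matrix (Fin 2) (Fin 2) k)
      hT10 hcomm
    have h1 : ((P⁻¹ * γ * P : GL (Fin 2) k) : Matrix (Fin 2) (Fin 2) k)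
        = ((P⁻¹ : GL (Fin 2) k) : Matrix (Fin 2) (Fin 2) k)
          * ((γ : Matrix (Fin 2) (Fin 2) k) * (P : Matrix (Fin 2) (Fin 2) k)) := by
      rw [mul_assoc]; rfl
    rw [hγ₀, h1, hPval, key, ← hPval, ← Matrix.mul_assoc]
    have h2 : ((P⁻¹ : GL (Fin 2) k) : Matrix (Fin 2) (Fin 2) k) * (P : Matrix (Fin 2) (Fin 2) k)
        = 1 := by
      simp
    rw [h2, Matrix.one_mul]
  have hconjγ : IsConj γ γ₀ := isConj_iff.mpr ⟨P⁻¹, by rw [hγ₀, inv_inv]⟩
  -- the twisted side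
  obtain ⟨c, hc⟩ := isConj_iff.mp hconj
  set x : GL (Fin 2) k' := c⁻¹ * Matrix.GeneralLinearGroup.map i P with hx
  set δ₀ : GL (Fin 2) k' := x⁻¹ * δ * glAut s x with hδ₀
  have hiter : ∀ g : GL (Fin 2) k', (glAut s)^[l] g = g :=
    fun g => glAut_iterate_eq826 s l hext.cyc.order g
  have hmapγ₀ : Matrix.GeneralLinearGroup.map i γ₀ = x⁻¹ * twNorm s l δ * x := by
    have h1 : twNorm s l δ = c⁻¹ * Matrix.GeneralLinearGroup.map i γ * c := by
      rw [← hc]; group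
    rw [h1, hx, hγ₀]
    simp only [map_mul, map_inv]
    group
  have hnorm : twNorm s l δ₀ = Matrix.GeneralLinearGroup.map i γ₀ := by
    rw [hmapγ₀]
    show twN (glAut s) l (x⁻¹ * δ * glAut s x) = x⁻¹ * twN (glAut s) l δ * x
    rw [twN_twConj826, hiter]
  have hfix : glAut s (Matrix.GeneralLinearGroup.map i γ₀) = Matrix.GeneralLinearGroup.map i γ₀ :=
    glAut_map826 i s hext.cyc.fix_i γ₀
  have hcommδ : δ₀ * Matrix.GeneralLinearGroup.map i γ₀
      = Matrix.GeneralLinearGroup.map i γ₀ * δ₀ := by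
    have h1 : twN (glAut s) (l + 1) δ₀ = δ₀ * glAut s (twN (glAut s) l δ₀) := rfl
    have h2 := twN_succ826 (glAut s) l δ₀
    rw [h1, hiter] at h2
    have h3 : twN (glAut s) l δ₀ = Matrix.GeneralLinearGroup.map i γ₀ := hnorm
    rw [h3, hfix] at h2
    exact h2
  have hmapval : ((Matrix.GeneralLinearGroup.map i γ₀ : GL (Fin 2) k') :
      Matrix (Fin 2) (Fin 2) k') = embMat (i τ) (i ν) (i α) (i β) := by
    ext a b
    rw [Matrix.GeneralLinearGroup.map_apply, hγ₀eq]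
    fin_cases a <;> fin_cases b <;> simp [embMat]
  have hiβ : i β ≠ 0 := by
    rw [Ne, map_eq_zero]; exact hβ0
  have hcommval : (δ₀ : Matrix (Fin 2) (Fin 2) k') * embMat (i τ) (i ν) (i α) (i β)
      = embMat (i τ) (i ν) (i α) (i β) * (δ₀ : Matrix (Fin 2) (Fin 2) k') := by
    rw [← hmapval]
    have := congrArg (fun g : GL (Fin 2) k' => (g : Matrix (Fin 2) (Fin 2) k')) hcommδ
    simpa using this
  have hδ₀eq := comm_embMat826 (i τ) (i ν) (i α) (i β) hiβ _ hcommval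
  exact ⟨τ, ν, α, β, (δ₀ : Matrix (Fin 2) (Fin 2) k') 0 0, (δ₀ : Matrix (Fin 2) (Fin 2) k') 1 0,
    γ₀, δ₀, ⟨htv, hvτ, hβ0, hγ₀eq, hδ₀eq, hnorm⟩, hconjγ, ⟨x, rfl⟩⟩

end Fermat.Agent.LT.T6.H826

end

end
-- ===== PACK-END LT/T6/H826/EllReduce.lean

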