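import Mathlib
import Fermat.Agent.Pack.LT2.E2L1
import Fermat.Agent.Pack.LT3.E3L1
import Fermat.Agent.Pack.LT2.E3L1
import Fermat.Agent.Pack.LT2.E0L1
import Fermat.Agent.Pack.LT3.E2L0
import Fermat.Agent.Pack.LT3.E1L3
import Fermat.Agent.Pack.LT3.E4L3
import Fermat.Agent.Pack.LT3.E4L2
import Fermat.Agent.Pack.LT2.E0L2
import Fermat.Agent.Pack.LT2.E2L2
import Fermat.Agent.Pack.LT3.E2L3
import Fermat.Agent.Pack.LT3.E6L3

set_option linter.all false

-- ===== PACK-BEGIN LT/T6/H848/HypVanish.lean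
section





/-!
# Row LT, tower T6, sub-leaf T6.15b `HypVanishC` (helper848)

OFF-MAIN.  `hypVanish_of848 : H288.SatClosedC → H288.OrbSumDiagC → H159.HypVanishC`, against
`LT/T6/H159/VanishSpec.lean` (helper159, sha256 `35587965…`) and `LT/T6/H288/HypSpec.lean`
(helper288, sha256 `46fc5f22…`), both on `LT/T6/Spec.lean` (helper22, sha256 `89f8f8b8…`).

Proof.  `γ` regular with an eigenvalue in `k` is conjugate to `diag(t₁, t₂)`, `t₁ ≠ t₂`, and the
orbit sum only depends on the conjugacy class; by `OrbSumDiagC` (instance `k' = k`, `l = 1`)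
`O_γ(f) = q^{ord(t₁ - t₂)} · constTerm q f (ord t₁) (ord t₂)`.  By `SatClosedC` the Satake
transform of `f` is the Laurent polynomial `∑_m (√q)^{m₁+m₂} constTerm q f m₁ m₂ x^{m₁} y^{m₂}`;
`IsBC` says that it is a Laurent polynomial in `x^l, y^l`; the monomials are linearly independent
on `(ℂ^×)²` (Dedekind), so `constTerm q f m₁ m₂ = 0` unless `l ∣ m₁` and `l ∣ m₂`.
-/

set_option autoImplicit false

open scoped Matrix

noncomputable section

namespace Fermat.Agent.LT.T6.H848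

open Fermat.Agent.LT.T6

/-! ## 1. Laurent polynomials in two variables as functions on `(ℂ^×)²` -/

/-- The monomial character `(x, y) ↦ x^a y^b` of `ℂˣ × ℂˣ`. -/
def monoChar848 (m : ℤ × ℤ) : ℂˣ × ℂˣ →* ℂ where
  toFun p := ((p.1 : ℂ) ^ m.1) * ((p.2 : ℂ) ^ m.2)
  map_one' := by simp
  map_mul' p p' := by
    simp only [Prod.fst_mul, Prod.snd_mul, Units.val_mul, mul_zpow]
    ring

theorem two_zpow_inj848 {a b : ℤ} (h : (2 : ℂ) ^ a = (2 : ℂ) ^ b) : a = b := by
  have h1 : ((2 : ℝ) ^ a : ℝ) = (2 : ℝ) ^ b := by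
    have : (((2 : ℝ) ^ a : ℝ) : ℂ) = (((2 : ℝ) ^ b : ℝ) : ℂ) := by
      push_cast
      exact h
    exact Complex.ofReal_injective this
  exact zpow_right_injective₀ (by norm_num : (0 : ℝ) < 2) (by norm_num : (2 : ℝ) ≠ 1) h1

theorem monoChar_injective848 : Function.Injective monoChar848 := by
  intro m m' h
  have two_ne : (2 : ℂ) ≠ 0 := by norm_num
  have e1 := DFunLike.congr_fun h (Units.mk0 (2 : ℂ) two_ne, (1 : ℂˣ))
  have e2 := DFunLike.congr_fun h ((1 : ℂˣ), Units.mk0 (2 : ℂ) two_ne)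
  simp only [monoChar848, MonoidHom.coe_mk, OneHom.coe_mk, Units.val_mk0, Units.val_one,
    one_zpow, mul_one, one_mul] at e1 e2
  exact Prod.ext (two_zpow_inj848 e1) (two_zpow_inj848 e2)

theorem linInd_mono848 :
    LinearIndependent ℂ (fun m : ℤ × ℤ => (monoChar848 m : ℂˣ × ℂˣ → ℂ)) :=
  (linearIndependent_monoidHom (ℂˣ × ℂˣ) ℂ).comp monoChar848 monoChar_injective848

/-- Evaluation of a Laurent polynomial. -/
def evalL848 (P : (ℤ × ℤ) →₀ ℂ) (x y : ℂ) : ℂ := P.sum fun m c => c * (x ^ m.1 * y ^ m.2)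

theorem evalL_single848 (m : ℤ × ℤ) (c x y : ℂ) :
    evalL848 (Finsupp.single m c) x y = c * (x ^ m.1 * y ^ m.2) := by
  unfold evalL848
  rw [Finsupp.sum_single_index]
  simp

theorem evalL_add848 (P P' : (ℤ × ℤ) →₀ ℂ) (x y : ℂ) :
    evalL848 (P + P') x y = evalL848 P x y + evalL848 P' x y := by
  unfold evalL848
  rw [Finsupp.sum_add_index']
  · intro m; simp
  · intro m c c'; ring

theorem evalL_zero848 (x y : ℂ) : evalL848 0 x y = 0 := by
  simp [evalL848]

theorem evalL_finset_sum848 {ι : Type} (s : Finset ι) (P : ι → (ℤ × ℤ) →₀ ℂ) (x y : ℂ) :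
    evalL848 (∑ i ∈ s, P i) x y = ∑ i ∈ s, evalL848 (P i) x y := by
  classical
  induction s using Finset.induction_on with
  | empty => simp [evalL_zero848]
  | insert a s ha ih => rw [Finset.sum_insert ha, Finset.sum_insert ha, evalL_add848, ih]

theorem evalL_neg848 (P : (ℤ × ℤ) →₀ ℂ) (x y : ℂ) : evalL848 (-P) x y = - evalL848 P x y := by
  have h := evalL_add848 P (-P) x y
  rw [add_neg_cancel, evalL_zero848] at h
  linear_combination -h

/-- A Laurent polynomial which vanishes on `(ℂ^×)²` is zero. -/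
theorem eq_zero_of_evalL848 (P : (ℤ × ℤ) →₀ ℂ)
    (h : ∀ x y : ℂ, x ≠ 0 → y ≠ 0 → evalL848 P x y = 0) : P = 0 := by
  apply linearIndependent_iff.mp linInd_mono848 P
  funext p
  rw [Finsupp.linearCombination_apply]
  have := h (p.1 : ℂ) (p.2 : ℂ) p.1.ne_zero p.2.ne_zero
  unfold evalL848 at this
  simp only [Finsupp.sum, Finset.sum_apply, Pi.smul_apply, smul_eq_mul, Pi.zero_apply]
  rw [← this]
  rfl

/-! ## 2. The Satake transform as a Laurent polynomial -/

/-- The coefficient of the `j`-th monomial of the Satake polynomial of `λ` (as in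
`H288.SatClosedC`). -/
def satCoeff848 (q : ℕ) (lam : ℤ × ℤ) (j : ℕ) : ℂ :=
  ((Real.sqrt q : ℝ) : ℂ) ^ (lam.1 + lam.2) *
    H288.ctWeight q lam (lam.2 + (j : ℤ)) (lam.1 - (j : ℤ))

/-- The Laurent polynomial of `(x, y) ↦ ∑_λ f(λ) satake q λ (x^l) (y^l)`. -/
def laurentOf848 (q l : ℕ) (f : (ℤ × ℤ) →₀ ℂ) : (ℤ × ℤ) →₀ ℂ :=
  f.sum fun lam c => ∑ j ∈ Finset.range ((lam.1 - lam.2).toNat + 1),
    Finsupp.single ((l : ℤ) * (lam.2 + (j : ℤ)), (l : ℤ) * (lam.1 - (j : ℤ)))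
      (c * satCoeff848 q lam j)

theorem pow_zpow848 (x : ℂ) (l : ℕ) (a : ℤ) : (x ^ l) ^ a = x ^ ((l : ℤ) * a) := by
  rw [← zpow_natCast, ← zpow_mul]

theorem evalL_laurentOf848 (hS : H288.SatClosedC) {q : ℕ} (hq : 1 < q) (l : ℕ)
    (f : (ℤ × ℤ) →₀ ℂ) (hf : IsDominant f) {x y : ℂ} (hx : x ≠ 0) (hy : y ≠ 0) :
    evalL848 (laurentOf848 q l f) x y = f.sum fun lam c => c * satake q lam (x ^ l) (y ^ l) := by
  unfold laurentOf848
  rw [Finsupp.sum, evalL_finset_sum848, Finsupp.sum]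
  refine Finset.sum_congr rfl fun lam hlam => ?_
  rw [evalL_finset_sum848, hS q hq lam (hf lam hlam) (x ^ l) (y ^ l) (pow_ne_zero l hx)
    (pow_ne_zero l hy), Finset.mul_sum]
  refine Finset.sum_congr rfl fun j _ => ?_
  rw [evalL_single848, pow_zpow848, pow_zpow848]
  unfold satCoeff848
  ring

theorem laurentOf_apply848 (q l : ℕ) (f : (ℤ × ℤ) →₀ ℂ) (m : ℤ × ℤ) :
    laurentOf848 q l f m = ∑ lam ∈ f.support,
      ∑ j ∈ Finset.range ((lam.1 - lam.2).toNat + 1),
        if ((l : ℤ) * (lam.2 + (j : ℤ)), (l : ℤ) * (lam.1 - (j : ℤ))) = m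
          then f lam * satCoeff848 q lam j else 0 := by
  unfold laurentOf848
  rw [Finsupp.sum, Finsupp.finsetSum_apply]
  refine Finset.sum_congr rfl fun lam _ => ?_
  rw [Finsupp.finsetSum_apply]
  refine Finset.sum_congr rfl fun j _ => ?_
  rw [Finsupp.single_apply]

/-- The Laurent polynomial of `f^∨(x^l, y^l)` is supported on `l ℤ × l ℤ`. -/
theorem laurentOf_support848 (q l : ℕ) (f : (ℤ × ℤ) →₀ ℂ) (m : ℤ × ℤ)
    (hm : ¬ ((l : ℤ) ∣ m.1 ∧ (l : ℤ) ∣ m.2)) : laurentOf848 q l f m = 0 := by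
  rw [laurentOf_apply848]
  refine Finset.sum_eq_zero fun lam _ => Finset.sum_eq_zero fun j _ => ?_
  rw [if_neg]
  intro h
  apply hm
  rw [← h]
  exact ⟨Dvd.intro _ rfl, Dvd.intro _ rfl⟩

/-- The coefficients of the Satake transform are the constant terms. -/
theorem laurentOf_one_apply848 (q : ℕ) (f : (ℤ × ℤ) →₀ ℂ) (hf : IsDominant f) (m : ℤ × ℤ) :
    laurentOf848 q 1 f m
      = ((Real.sqrt q : ℝ) : ℂ) ^ (m.1 + m.2) * H288.constTerm q f m.1 m.2 := by
  rw [laurentOf_apply848]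
  unfold H288.constTerm
  rw [Finsupp.sum, Finset.mul_sum]
  refine Finset.sum_congr rfl fun lam hlam => ?_
  have hdom : lam.2 ≤ lam.1 := hf lam hlam
  -- the value common to all matching indices
  set V : ℂ := ((Real.sqrt q : ℝ) : ℂ) ^ (m.1 + m.2) * (f lam * H288.ctWeight q lam m.1 m.2)
    with hV
  have hterm : ∀ j ∈ Finset.range ((lam.1 - lam.2).toNat + 1),
      (if (((1 : ℕ) : ℤ) * (lam.2 + (j : ℤ)), ((1 : ℕ) : ℤ) * (lam.1 - (j : ℤ))) = m
        then f lam * satCoeff848 q lam j else 0)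
      = if j = (m.1 - lam.2).toNat then V else 0 := by
    intro j hj
    have hjn : (j : ℤ) ≤ lam.1 - lam.2 := by
      have := Finset.mem_range.mp hj
      omega
    by_cases h : (((1 : ℕ) : ℤ) * (lam.2 + (j : ℤ)), ((1 : ℕ) : ℤ) * (lam.1 - (j : ℤ))) = m
    · have h1 : lam.2 + (j : ℤ) = m.1 := by
        have := congrArg Prod.fst h; simpa using this
      have h2 : lam.1 - (j : ℤ) = m.2 := by
        have := congrArg Prod.snd h; simpa using this
      have hj' : j = (m.1 - lam.2).toNat := by omega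
      rw [if_pos h, if_pos hj', hV]
      unfold satCoeff848
      rw [h1, h2]
      have : lam.1 + lam.2 = m.1 + m.2 := by omega
      rw [this]
      ring
    · rw [if_neg h]
      by_cases hj' : j = (m.1 - lam.2).toNat
      · rw [if_pos hj']
        -- then the weight vanishes
        have hw : H288.ctWeight q lam m.1 m.2 = 0 := by
          unfold H288.ctWeight
          rw [if_neg]
          rintro ⟨hsum, hle⟩
          apply h
          have h1 : lam.2 ≤ m.1 := le_trans hle (min_le_left _ _)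
          have hjz : (j : ℤ) = m.1 - lam.2 := by
            rw [hj']; exact Int.toNat_of_nonneg (by omega)
          ext
          · simp; omega
          · simp; omega
        rw [hV, hw]
        ring
      · rw [if_neg hj']
  rw [Finset.sum_congr rfl hterm, Finset.sum_ite_eq']
  by_cases hmem : (m.1 - lam.2).toNat ∈ Finset.range ((lam.1 - lam.2).toNat + 1)
  · rw [if_pos hmem]
  · rw [if_neg hmem]
    -- outside the range the weight vanishes
    have hw : H288.ctWeight q lam m.1 m.2 = 0 := by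
      unfold H288.ctWeight
      rw [if_neg]
      rintro ⟨hsum, hle⟩
      apply hmem
      have h1 : lam.2 ≤ m.1 := le_trans hle (min_le_left _ _)
      have h2 : lam.2 ≤ m.2 := le_trans hle (min_le_right _ _)
      rw [Finset.mem_range]
      omega
    rw [hV, hw]
    ring

/-- **Vanishing of the constant terms of a base change** outside `l ℤ × l ℤ`. -/
theorem constTerm_eq_zero848 (hS : H288.SatClosedC) {q l : ℕ} (hq : 1 < q) (hl : 0 < l)
    (φ f : (ℤ × ℤ) →₀ ℂ) (hφ : IsDominant φ) (hf : IsDominant f) (hbc : IsBC l q φ f)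
    (m₁ m₂ : ℤ) (hm : ¬ ((l : ℤ) ∣ m₁ ∧ (l : ℤ) ∣ m₂)) : H288.constTerm q f m₁ m₂ = 0 := by
  have hql : 1 < q ^ l := Nat.one_lt_pow (Nat.pos_iff_ne_zero.mp hl) hq
  have hP : laurentOf848 q 1 f + -(laurentOf848 (q ^ l) l φ) = 0 := by
    apply eq_zero_of_evalL848
    intro x y hx hy
    rw [evalL_add848, evalL_neg848, evalL_laurentOf848 hS hq 1 f hf hx hy,
      evalL_laurentOf848 hS hql l φ hφ hx hy]
    have := hbc x y hx hy
    simp only [pow_one]
    rw [this]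
    ring
  have hEq : laurentOf848 q 1 f = laurentOf848 (q ^ l) l φ := by
    have := add_neg_eq_zero.mp hP
    exact this
  have h1 := laurentOf_one_apply848 q f hf (m₁, m₂)
  rw [hEq, laurentOf_support848 (q ^ l) l φ (m₁, m₂) hm] at h1
  have hsq : ((Real.sqrt q : ℝ) : ℂ) ≠ 0 := by
    have : (0 : ℝ) < Real.sqrt q := Real.sqrt_pos.mpr (by exact_mod_cast (by omega : 0 < q))
    exact_mod_cast this.ne'
  have := mul_eq_zero.mp h1.symm
  rcases this with h | h
  · exact absurd h (zpow_ne_zero _ hsq)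
  · exact h

/-! ## 3. Reduction to the diagonal and the leaf -/

section Diag

variable {k : Type} [Field k]

/-- A regular element with an eigenvalue `t` in `k` is conjugate to `diag(t, t₂)`, `t ≠ t₂`. -/
theorem exists_conj_diag848 (γ : GL (Fin 2) k) (hreg : IsReg γ) (t : k)
    (ht : t ^ 2 - (γ : Matrix (Fin 2) (Fin 2) k).trace * t
      + (γ : Matrix (Fin 2) (Fin 2) k).det = 0) :
    ∃ (t₂ : k) (γ₀ : GL (Fin 2) k), t ≠ t₂ ∧ t ≠ 0 ∧ t₂ ≠ 0 ∧
      (γ₀ : Matrix (Fin 2) (Fin 2) k) = !![t, 0; 0, t₂] ∧ IsConj γ γ₀ := by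
  set τ : k := (γ : Matrix (Fin 2) (Fin 2) k).trace with hτ
  set d : k := (γ : Matrix (Fin 2) (Fin 2) k).det with hd
  have hd0 : d ≠ 0 := by
    have := γ.isUnit.map (Matrix.detMonoidHom (n := Fin 2) (R := k))
    exact this.ne_zero
  have hprod : t * (τ - t) = d := by linear_combination -ht
  have hdisc : τ ^ 2 - 4 * d ≠ 0 := by
    have hu : IsUnit (disc γ) := hreg
    exact hu.ne_zero
  have hne : t ≠ τ - t := by
    intro h
    apply hdisc
    have h2 : τ = 2 * t := by linear_combination -h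
    rw [← hprod, h2]
    ring
  have ht0 : t ≠ 0 := by
    intro h
    rw [h, zero_mul] at hprod
    exact hd0 hprod.symm
  have ht20 : τ - t ≠ 0 := by
    intro h
    rw [h, mul_zero] at hprod
    exact hd0 hprod.symm
  obtain ⟨P, c, hcm, hP⟩ := exists_conj_companion848 γ hreg
  have hQdet : (!![-(τ - t), -t; 1, 1] : Matrix (Fin 2) (Fin 2) k).det ≠ 0 := by
    rw [Matrix.det_fin_two]
    simp only [Matrix.of_apply, Matrix.cons_val', Matrix.cons_val_zero, Matrix.cons_val_one,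
      Matrix.cons_val_fin_one]
    intro h
    apply hne
    linear_combination h
  have hDdet : (!![t, 0; 0, τ - t] : Matrix (Fin 2) (Fin 2) k).det ≠ 0 := by
    rw [Matrix.det_fin_two]
    simp only [Matrix.of_apply, Matrix.cons_val', Matrix.cons_val_zero, Matrix.cons_val_one,
      Matrix.cons_val_fin_one]
    simpa using mul_ne_zero ht0 ht20
  let Q : GL (Fin 2) k := Matrix.GeneralLinearGroup.mkOfDetNeZero _ hQdet
  let γ₀ : GL (Fin 2) k := Matrix.GeneralLinearGroup.mkOfDetNeZero _ hDdet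
  have hcQ : c * Q = Q * γ₀ := by
    apply Units.ext
    rw [Units.val_mul, Units.val_mul, hcm]
    change compMat848 τ d * !![-(τ - t), -t; 1, 1] = !![-(τ - t), -t; 1, 1] * !![t, 0; 0, τ - t]
    rw [← hprod]
    ext a b
    fin_cases a <;> fin_cases b <;>
      simp [compMat848, Matrix.mul_apply, Fin.sum_univ_two] <;> ring
  refine ⟨τ - t, γ₀, hne, ht0, ht20, rfl, ?_⟩
  rw [isConj_iff]
  refine ⟨(P * Q)⁻¹, ?_⟩
  have h1 : γ = P * c * P⁻¹ := by rw [← hP]; group
  have h2 : c = Q * γ₀ * Q⁻¹ := by rw [← hcQ]; group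
  rw [h1, h2]
  group

end Diag

section Transfer

theorem glAut_refl848 {R : Type} [CommRing R] (x : GL (Fin 2) R) :
    glAut (RingEquiv.refl R) x = x := by
  apply Units.ext
  ext a b
  rfl

/-- The orbit sum only depends on the conjugacy class. -/
theorem isOrbSum_of_isConj848 {k : Type} [Field k] [Valued k Γ₀] (n : ℕ)
    (Φ : GL (Fin 2) k → ℂ) {γ γ₀ : GL (Fin 2) k} (h : IsConj γ γ₀) {c : ℂ}
    (hc : IsOrbSum n Φ γ c) : IsOrbSum n Φ γ₀ c := by
  obtain ⟨g, hg⟩ := isConj_iff.mp h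
  have hcl : ∀ y : GL (Fin 2) k,
      (∃ x : GL (Fin 2) k, y = x⁻¹ * γ * glAut (RingEquiv.refl k) x)
        ↔ ∃ x : GL (Fin 2) k, y = x⁻¹ * γ₀ * glAut (RingEquiv.refl k) x := by
    intro y
    constructor
    · rintro ⟨x, rfl⟩
      refine ⟨g * x, ?_⟩
      rw [glAut_refl848, glAut_refl848, ← hg]
      group
    · rintro ⟨x, rfl⟩
      refine ⟨g⁻¹ * x, ?_⟩
      rw [glAut_refl848, glAut_refl848, ← hg]
      group
  obtain ⟨R, h1, h2, h3, h4⟩ := hc
  refine ⟨R, ?_, h2, ?_, h4⟩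
  · intro y hy
    exact (hcl y).1 (h1 y hy)
  · intro y hy hne
    exact h3 y ((hcl y).2 hy) hne

theorem isLocalExt_refl848 (k : Type) [Field k] [Valued k Γ₀] :
    IsLocalExt k k 1 1 (RingHom.id k) (RingEquiv.refl k) where
  cyc :=
    { pos := Nat.one_pos
      fix_i := fun _ => rfl
      fixed := fun y _ => ⟨y, rfl⟩
      order := fun _ => rfl
      faithful := fun m h0 h1 => absurd h1 (by omega) }
  e_pos := Nat.one_pos
  val_i := fun x => by simp
  val_s := fun _ => rfl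

theorem fNorm_refl_one848 {k : Type} [Field k] (t : k) :
    H288.fNorm (RingEquiv.refl k) 1 t = t := by
  simp [H288.fNorm]

end Transfer

/-- **T6.15b `HypVanishC`** from the closed form of the Satake polynomials (`T6.12a`) and the
orbit sum at a diagonal element (`T6.12e` + `T6.12h`, instance `k' = k`, `l = 1`). -/
theorem hypVanish_of848 (hS : H288.SatClosedC) (hO : H288.OrbSumDiagC) : H159.HypVanishC := by
  intro k _ _ q l hk hl φ f hφ hf hbc γ c' t hreg ht hlt horb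
  have hq : 1 < q := H159.one_lt_of_isLocalField hk
  obtain ⟨t₂, γ₀, hne, ht0, ht20, hγ₀, hconj⟩ := exists_conj_diag848 γ hreg t ht
  have horb₀ : IsOrbSum 0 (fun g => f (cartan g)) γ₀ c' := isOrbSum_of_isConj848 0 _ hconj horb
  have hk1 : IsLocalField k (q ^ 1) := by rwa [pow_one]
  have key := hO k k q 1 (RingHom.id k) (RingEquiv.refl k) hk hk1 (isLocalExt_refl848 k) f
    t t₂ t t₂ γ₀ hγ₀ ht0 ht20 hne (fNorm_refl_one848 t) (fNorm_refl_one848 t₂) c' horb₀
  rw [key, pow_one]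
  have hzero : H288.constTerm q f (H288.ordv t) (H288.ordv t₂) = 0 := by
    apply constTerm_eq_zero848 hS hq hl φ f hφ hf hbc
    rintro ⟨h1, -⟩
    apply hlt
    unfold H288.ordv at h1
    exact (dvd_neg.mp h1)
  rw [hzero, mul_zero]

end Fermat.Agent.LT.T6.H848

end

end
-- ===== PACK-END LT/T6/H848/HypVanish.lean

-- ===== PACK-BEGIN LT/T6/H623/Fam.lean
section




/-!
# Row LT, tower T6, leaf T6.20a (`AbelExistC626`), SPARE route of helper623: THE FAMILY

OFF-MAIN.  Vocabulary: `LT/T6/Spec.lean` v3 (sha256 8c5f2ae7), `LT/T6/SpecArch.lean` (003240b2),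
byte-identical copies.  No hypothesis, no hole.

For `g ∈ GL₂(ℝ)` put `d = |det g|`, `A = holPart g`, `B = ((g₀₀ - g₁₁) + i (g₁₀ + g₀₁)) / 2`
(`|A|² - |B|² = det g`), `s = |B|² / d`, `x_V = √(1 + s + V²) ≥ 1` and
`y(g, V) = σ · !![x_V + 1 + V, B/√d; conj B/√d, x_V + 1 - V]`, `σ = d^{1/4} / √(2 (x_V + 1))`.
Then `y(g, V)` is hermitian positive, `det y = √d`, `rhoC y = x_V`, and multiplying `B` by a phase
conjugates `y` by `diag(e, 1) ∈ U(2)`.  All entries are smooth functions of the entries of `g` and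
of `V` (square roots only at positive arguments).
-/

set_option autoImplicit false

open scoped Matrix ContDiff
open MeasureTheory

noncomputable section

namespace Fermat.Agent.LT.T6.H623

open Fermat.Agent.LT.T6

/-! ## 1. Scalars attached to a real `2 × 2` matrix -/

/-- `|det M|`. -/
def dM (M : Matrix (Fin 2) (Fin 2) ℝ) : ℝ := |M.det|

/-- The antiholomorphic part `B` of `M`. -/
def bM (M : Matrix (Fin 2) (Fin 2) ℝ) : ℂ := ⟨(M 0 0 - M 1 1) / 2, (M 1 0 + M 0 1) / 2⟩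

/-- The holomorphic part `A` of `M`. -/
def aM (M : Matrix (Fin 2) (Fin 2) ℝ) : ℂ := ⟨(M 0 0 + M 1 1) / 2, (M 1 0 - M 0 1) / 2⟩

theorem normSq_aM_sub (M : Matrix (Fin 2) (Fin 2) ℝ) :
    Complex.normSq (aM M) - Complex.normSq (bM M) = M.det := by
  simp only [Complex.normSq_mk, aM, bM, Matrix.det_fin_two]
  ring

theorem aM_eq_holPart (g : GL (Fin 2) ℝ) : aM (g : Matrix (Fin 2) (Fin 2) ℝ) = holPart g := by
  apply Complex.ext <;> simp [aM, holPart]

/-- `s = |B|² / |det M|`. -/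
def sM (M : Matrix (Fin 2) (Fin 2) ℝ) : ℝ := Complex.normSq (bM M) / dM M

theorem sM_nonneg (M : Matrix (Fin 2) (Fin 2) ℝ) : 0 ≤ sM M :=
  div_nonneg (Complex.normSq_nonneg _) (abs_nonneg _)

/-- `x_V = √(1 + s + V²)`. -/
def xM (M : Matrix (Fin 2) (Fin 2) ℝ) (V : ℝ) : ℝ := Real.sqrt (1 + sM M + V ^ 2)

theorem xM_sq (M : Matrix (Fin 2) (Fin 2) ℝ) (V : ℝ) : xM M V ^ 2 = 1 + sM M + V ^ 2 := by
  unfold xM
  apply Real.sq_sqrt
  have := sM_nonneg M
  nlinarith [sq_nonneg V]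

theorem one_le_xM (M : Matrix (Fin 2) (Fin 2) ℝ) (V : ℝ) : 1 ≤ xM M V := by
  unfold xM
  rw [Real.one_le_sqrt]
  have := sM_nonneg M
  nlinarith [sq_nonneg V]

theorem xM_pos (M : Matrix (Fin 2) (Fin 2) ℝ) (V : ℝ) : 0 < xM M V :=
  lt_of_lt_of_le one_pos (one_le_xM M V)

/-- `σ = |det M|^{1/4} / √(2 (x_V + 1))`. -/
def σM (M : Matrix (Fin 2) (Fin 2) ℝ) (V : ℝ) : ℝ :=
  Real.sqrt (Real.sqrt (dM M)) / Real.sqrt (2 * (xM M V + 1))

theorem σM_sq (M : Matrix (Fin 2) (Fin 2) ℝ) (V : ℝ) :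
    σM M V ^ 2 * (2 * (xM M V + 1)) = Real.sqrt (dM M) := by
  have hx := xM_pos M V
  have h2 : (0 : ℝ) < 2 * (xM M V + 1) := by positivity
  unfold σM
  rw [div_pow, Real.sq_sqrt (Real.sqrt_nonneg _), Real.sq_sqrt h2.le]
  field_simp

theorem σM_pos {M : Matrix (Fin 2) (Fin 2) ℝ} (hM : 0 < dM M) (V : ℝ) : 0 < σM M V := by
  have hx := xM_pos M V
  unfold σM
  have h1 : 0 < Real.sqrt (Real.sqrt (dM M)) := Real.sqrt_pos.2 (Real.sqrt_pos.2 hM)
  have h2 : 0 < Real.sqrt (2 * (xM M V + 1)) := Real.sqrt_pos.2 (by positivity)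
  positivity

/-! ## 2. The matrices -/

/-- The hermitian positive matrix `y(M, V)`. -/
def yM (M : Matrix (Fin 2) (Fin 2) ℝ) (V : ℝ) : Matrix (Fin 2) (Fin 2) ℂ :=
  !![((σM M V * (xM M V + 1 + V) : ℝ) : ℂ), ((σM M V / Real.sqrt (dM M) : ℝ) : ℂ) * bM M;
     ((σM M V / Real.sqrt (dM M) : ℝ) : ℂ) * (starRingEnd ℂ) (bM M),
       ((σM M V * (xM M V + 1 - V) : ℝ) : ℂ)]

theorem sq_div_sqrt_mul (σ s d : ℝ) (hd : 0 < d) :
    σ / Real.sqrt d * (σ / Real.sqrt d) * (s * d) = σ ^ 2 * s := by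
  have hs : Real.sqrt d * Real.sqrt d = d := Real.mul_self_sqrt hd.le
  have hs0 : Real.sqrt d ≠ 0 := (Real.sqrt_pos.2 hd).ne'
  have : σ / Real.sqrt d * (σ / Real.sqrt d) * (s * d)
      = σ ^ 2 * s * (d / (Real.sqrt d * Real.sqrt d)) := by
    field_simp
  rw [this, hs, div_self hd.ne', mul_one]

theorem normSq_bM_eq {M : Matrix (Fin 2) (Fin 2) ℝ} (hM : 0 < dM M) :
    Complex.normSq (bM M) = sM M * dM M := by
  unfold sM
  rw [div_mul_cancel₀ _ hM.ne']

theorem det_yM {M : Matrix (Fin 2) (Fin 2) ℝ} (hM : 0 < dM M) (V : ℝ) :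
    (yM M V).det = ((Real.sqrt (dM M) : ℝ) : ℂ) := by
  have hb : bM M * (starRingEnd ℂ) (bM M) = ((Complex.normSq (bM M) : ℝ) : ℂ) :=
    Complex.mul_conj _
  have hsM := normSq_bM_eq hM
  have key : σM M V * (xM M V + 1 + V) * (σM M V * (xM M V + 1 - V))
      - (σM M V / Real.sqrt (dM M)) * (σM M V / Real.sqrt (dM M)) * Complex.normSq (bM M)
      = Real.sqrt (dM M) := by
    rw [hsM, sq_div_sqrt_mul _ _ _ hM]
    have hx := xM_sq M V
    have hσ := σM_sq M V
    linear_combination (σM M V ^ 2) * hx + hσ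
  unfold yM
  rw [Matrix.det_fin_two_of]
  have e2 : ((σM M V / Real.sqrt (dM M) : ℝ) : ℂ) * bM M *
      (((σM M V / Real.sqrt (dM M) : ℝ) : ℂ) * (starRingEnd ℂ) (bM M))
      = (((σM M V / Real.sqrt (dM M)) * (σM M V / Real.sqrt (dM M)) * Complex.normSq (bM M) : ℝ) : ℂ) := by
    push_cast
    rw [← hb]; ring
  rw [e2, ← Complex.ofReal_mul, ← Complex.ofReal_sub, key]

theorem det_yM_ne_zero {M : Matrix (Fin 2) (Fin 2) ℝ} (hM : 0 < dM M) (V : ℝ) :
    (yM M V).det ≠ 0 := by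
  rw [det_yM hM]
  exact_mod_cast (Real.sqrt_pos.2 hM).ne'

theorem dM_pos (g : GL (Fin 2) ℝ) : 0 < dM (g : Matrix (Fin 2) (Fin 2) ℝ) := by
  unfold dM
  exact abs_pos.2 ((Matrix.isUnit_iff_isUnit_det _).1 g.isUnit).ne_zero

/-- The element `y(g, V)` of `GL₂(ℂ)`. -/
def yG (g : GL (Fin 2) ℝ) (V : ℝ) : GL (Fin 2) ℂ :=
  Matrix.GeneralLinearGroup.mkOfDetNeZero (yM (g : Matrix (Fin 2) (Fin 2) ℝ) V)
    (det_yM_ne_zero (dM_pos g) V)

@[simp] theorem coe_yG (g : GL (Fin 2) ℝ) (V : ℝ) :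
    ((yG g V : GL (Fin 2) ℂ) : Matrix (Fin 2) (Fin 2) ℂ) = yM (g : Matrix (Fin 2) (Fin 2) ℝ) V :=
  rfl

theorem norm_det_yG (g : GL (Fin 2) ℝ) (V : ℝ) :
    ‖((yG g V : GL (Fin 2) ℂ) : Matrix (Fin 2) (Fin 2) ℂ).det‖
      = Real.sqrt (dM (g : Matrix (Fin 2) (Fin 2) ℝ)) := by
  rw [coe_yG, det_yM (dM_pos g), Complex.norm_real, Real.norm_eq_abs,
    abs_of_nonneg (Real.sqrt_nonneg _)]

/-- The Frobenius norm of `y(M, V)`. -/
theorem frob_yM {M : Matrix (Fin 2) (Fin 2) ℝ} (hM : 0 < dM M) (V : ℝ) :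
    (((yM M V).conjTranspose * yM M V).trace).re = 2 * xM M V * Real.sqrt (dM M) := by
  have hsM := normSq_bM_eq hM
  have hx := xM_sq M V
  have hσ := σM_sq M V
  have hn : (bM M).re * (bM M).re + (bM M).im * (bM M).im = Complex.normSq (bM M) := by
    rw [Complex.normSq_apply]
  have e1 := sq_div_sqrt_mul (σM M V) (sM M) (dM M) hM
  simp only [yM, Matrix.trace_fin_two, Matrix.mul_apply, Fin.sum_univ_two,
    Matrix.conjTranspose_apply, Matrix.of_apply, Matrix.cons_val', Matrix.cons_val_zero,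
    Matrix.cons_val_one, Matrix.cons_val_fin_one, Complex.add_re, Complex.mul_re,
    Complex.star_def, Complex.conj_re, Complex.conj_im, Complex.ofReal_re, Complex.ofReal_im,
    Complex.conj_ofReal, Complex.mul_im, map_mul]
  linear_combination (2 * (σM M V / Real.sqrt (dM M) * (σM M V / Real.sqrt (dM M)))) * hn
    + (2 * (σM M V / Real.sqrt (dM M) * (σM M V / Real.sqrt (dM M)))) * hsM + 2 * e1
    + (-2 * σM M V ^ 2) * hx + (2 * xM M V) * hσ

theorem rhoC_yG (g : GL (Fin 2) ℝ) (V : ℝ) :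
    rhoC (yG g V) = xM (g : Matrix (Fin 2) (Fin 2) ℝ) V := by
  unfold rhoC
  rw [norm_det_yG, coe_yG, frob_yM (dM_pos g)]
  have : Real.sqrt (dM (g : Matrix (Fin 2) (Fin 2) ℝ)) ≠ 0 :=
    (Real.sqrt_pos.2 (dM_pos g)).ne'
  field_simp

end Fermat.Agent.LT.T6.H623

end

end
-- ===== PACK-END LT/T6/H623/Fam.lean

-- ===== PACK-BEGIN LT/T6/H863/Count.lean
section




/-!
# Row LT, tower T6, leaf T6.16 (`SplitMatchC`) -- helper863, OFF-MAIN

Part 3: the COUNTING LEMMA.  `G` a group, `U ≤ G`, `Cpt` a conjugation-invariant predicate on `G`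
(for `GL₂(k)`: integral trace and unit determinant) containing `U`; `y₀ ∈ G^l` with norm `z`;
`A = {t | t⁻¹ z t = z, Cpt t}` a subgroup.  For a system `P` of representatives of the classes
modulo `U₁ = {u ∈ U^l | u 0 = 1}` (twisted conjugation) of the elements of norm `z` in the support
of a class function `Φ`, with `Φ y₀ ≠ 0`:

    cIndex(z) * #{y ∈ P | y ∼ y₀ modulo U^l} = cIndex(y₀)            (`count_863`)

(Lagrange for `C ≤ B ≤ A`, `B = U ∩ A`, `C = pr₀ (U^l ∩ T_{y₀})`.)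

Mathlib + `T6/Spec.lean` (frozen) only; every proof is complete.
-/

set_option autoImplicit false

open scoped Classical

noncomputable section

namespace Fermat.Agent.LT.T6.H863

open Fermat.Agent.LT.T6

/-! ## Cosets -/

section Cosets

variable {Γ : Type} [Group Γ]

/-- The number of cosets `t V`, `t ∈ T`, is the relative index of `V` in `T`. -/
theorem ncard_cosets_863 (V T : Subgroup Γ) :
    Set.ncard {c : Set Γ | ∃ t : Γ, t ∈ T ∧ c = {g : Γ | ∃ u : Γ, u ∈ V ∧ g = t * u}}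
      = V.relIndex T := by
  let f₀ : T → Set Γ := fun t => {g : Γ | ∃ u : Γ, u ∈ V ∧ g = (t : Γ) * u}
  have hf₀ : ∀ a b : T, (QuotientGroup.leftRel (V.subgroupOf T)) a b → f₀ a = f₀ b := by
    intro a b hab
    rw [QuotientGroup.leftRel_apply, Subgroup.mem_subgroupOf] at hab
    have hab' : (a : Γ)⁻¹ * (b : Γ) ∈ V := by simpa using hab
    ext g
    constructor
    · rintro ⟨u, hu, rfl⟩
      refine ⟨((a : Γ)⁻¹ * (b : Γ))⁻¹ * u, V.mul_mem (V.inv_mem hab') hu, ?_⟩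
      group
    · rintro ⟨u, hu, rfl⟩
      refine ⟨((a : Γ)⁻¹ * (b : Γ)) * u, V.mul_mem hab' hu, ?_⟩
      group
  let f : T ⧸ V.subgroupOf T → Set Γ := Quotient.lift f₀ hf₀
  have hinj : Function.Injective f := by
    intro q₁ q₂
    refine Quotient.inductionOn₂ q₁ q₂ ?_
    intro a b hab
    apply Quotient.sound
    show (QuotientGroup.leftRel (V.subgroupOf T)) a b
    rw [QuotientGroup.leftRel_apply, Subgroup.mem_subgroupOf]
    have hb : (b : Γ) ∈ f₀ b := ⟨1, V.one_mem, by simp⟩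
    have hb' : (b : Γ) ∈ f₀ a := by
      have : f₀ a = f₀ b := hab
      rw [this]
      exact hb
    obtain ⟨u, hu, hbu⟩ := hb'
    have : (a : Γ)⁻¹ * (b : Γ) = u := by rw [hbu]; group
    simpa [this] using hu
  have hrange : Set.range f
      = {c : Set Γ | ∃ t : Γ, t ∈ T ∧ c = {g : Γ | ∃ u : Γ, u ∈ V ∧ g = t * u}} := by
    ext c
    constructor
    · rintro ⟨q, rfl⟩
      refine Quotient.inductionOn q ?_
      intro a
      exact ⟨(a : Γ), a.2, rfl⟩
    · rintro ⟨t, ht, rfl⟩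
      exact ⟨Quotient.mk _ ⟨t, ht⟩, rfl⟩
  rw [← hrange, ← Set.image_univ, Set.ncard_image_of_injective _ hinj, Set.ncard_univ]
  rfl

/-- `cIndex` as a relative index. -/
theorem cIndex_eq_relIndex_863 (U : Γ → Prop) (C : Γ → Γ → Prop) (y : Γ) (V T : Subgroup Γ)
    (hV : ∀ u, U u ↔ u ∈ V) (hT : ∀ t, C y t ↔ t ∈ T) : cIndex U C y = V.relIndex T := by
  rw [← ncard_cosets_863]
  unfold cIndex
  congr 1
  ext c
  constructor
  · rintro ⟨t, ht, rfl⟩
    refine ⟨t, (hT t).mp ht, ?_⟩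
    ext g
    constructor
    · rintro ⟨u, hu, rfl⟩
      exact ⟨u, (hV u).mp hu, rfl⟩
    · rintro ⟨u, hu, rfl⟩
      exact ⟨u, (hV u).mpr hu, rfl⟩
  · rintro ⟨t, ht, rfl⟩
    refine ⟨t, (hT t).mpr ht, ?_⟩
    ext g
    constructor
    · rintro ⟨u, hu, rfl⟩
      exact ⟨u, (hV u).mpr hu, rfl⟩
    · rintro ⟨u, hu, rfl⟩
      exact ⟨u, (hV u).mp hu, rfl⟩

/-- Twisted conjugation is a right action. -/
theorem tw_mul_863 (s : Γ →* Γ) (u w y : Γ) :
    (u * w)⁻¹ * y * s (u * w) = w⁻¹ * (u⁻¹ * y * s u) * s w := by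
  rw [map_mul]
  group

theorem tw_one_863 (s : Γ →* Γ) (y : Γ) : (1 : Γ)⁻¹ * y * s 1 = y := by
  rw [map_one]
  group

theorem tw_inv_863 (s : Γ →* Γ) (u y y' : Γ) (h : y' = u⁻¹ * y * s u) :
    y = (u⁻¹)⁻¹ * y' * s u⁻¹ := by
  rw [h, map_inv]
  group

end Cosets

/-! ## The split group `G^l` -/

section Split

variable {G : Type} [Group G] {l : ℕ} [NeZero l]

/-- Twisted conjugation on `G^l`: `y ↦ u⁻¹ y s(u)`. -/
def act863 (u y : Fin l → G) : Fin l → G := u⁻¹ * y * shift863 l u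

theorem act863_mul (u w y : Fin l → G) : act863 (u * w) y = act863 w (act863 u y) :=
  tw_mul_863 (shift863 l) u w y

theorem act863_one (y : Fin l → G) : act863 1 y = y := tw_one_863 (shift863 l) y

theorem act863_inv (u y : Fin l → G) : act863 u⁻¹ (act863 u y) = y := by
  rw [← act863_mul, mul_inv_cancel, act863_one]

theorem act863_inv' (u y : Fin l → G) : act863 u (act863 u⁻¹ y) = y := by
  rw [← act863_mul, inv_mul_cancel, act863_one]

theorem nm863_act (u y : Fin l → G) : nm863 (act863 u y) = (u 0)⁻¹ * nm863 y * u 0 :=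
  nm863_conj u y

/-- `U^l` as a subgroup of `G^l`. -/
def ULgrp863 (U : Subgroup G) (l : ℕ) : Subgroup (Fin l → G) where
  carrier := {u | ∀ j, u j ∈ U}
  one_mem' := fun _ => U.one_mem
  mul_mem' := fun ha hb j => U.mul_mem (ha j) (hb j)
  inv_mem' := fun ha j => U.inv_mem (ha j)

omit [NeZero l] in
theorem mem_ULgrp863 (U : Subgroup G) (u : Fin l → G) : u ∈ ULgrp863 U l ↔ ∀ j, u j ∈ U :=
  Iff.rfl

/-- Twisted equivalence modulo `U^l`. -/
def TwEq863 (U : Subgroup G) (y y' : Fin l → G) : Prop :=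
  ∃ u : Fin l → G, (∀ j, u j ∈ U) ∧ y' = act863 u y

/-- Twisted equivalence modulo `U₁ = {u ∈ U^l | u 0 = 1}`. -/
def TwEq1863 (U : Subgroup G) (y y' : Fin l → G) : Prop :=
  ∃ u : Fin l → G, (∀ j, u j ∈ U) ∧ u 0 = 1 ∧ y' = act863 u y

theorem TwEq1863.toTwEq {U : Subgroup G} {y y' : Fin l → G} (h : TwEq1863 U y y') :
    TwEq863 U y y' := by
  obtain ⟨u, hu, -, h⟩ := h
  exact ⟨u, hu, h⟩

theorem twEq863_equiv (U : Subgroup G) : Equivalence (TwEq863 (l := l) U) where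
  refl y := ⟨1, fun _ => U.one_mem, (act863_one y).symm⟩
  symm := by
    rintro y y' ⟨u, hu, rfl⟩
    exact ⟨u⁻¹, fun j => U.inv_mem (hu j), (act863_inv u y).symm⟩
  trans := by
    rintro y y' y'' ⟨u, hu, rfl⟩ ⟨w, hw, rfl⟩
    exact ⟨u * w, fun j => U.mul_mem (hu j) (hw j), (act863_mul u w y).symm⟩

theorem twEq1863_equiv (U : Subgroup G) : Equivalence (TwEq1863 (l := l) U) where
  refl y := ⟨1, fun _ => U.one_mem, rfl, (act863_one y).symm⟩
  symm := by
    rintro y y' ⟨u, hu, hu0, rfl⟩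
    refine ⟨u⁻¹, fun j => U.inv_mem (hu j), ?_, (act863_inv u y).symm⟩
    rw [Pi.inv_apply, hu0, inv_one]
  trans := by
    rintro y y' y'' ⟨u, hu, hu0, rfl⟩ ⟨w, hw, hw0, rfl⟩
    refine ⟨u * w, fun j => U.mul_mem (hu j) (hw j), ?_, (act863_mul u w y).symm⟩
    rw [Pi.mul_apply, hu0, hw0, mul_one]

/-- The hypotheses on the predicate `Cpt` ("compact": integral trace, unit determinant). -/
structure CptData863 (U : Subgroup G) (Cpt : G → Prop) : Prop where
  conj : ∀ g t, Cpt t → Cpt (g⁻¹ * t * g)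
  ofU : ∀ u ∈ U, Cpt u
  inv : ∀ t, Cpt t → Cpt t⁻¹

/-- `Cpt` is closed under multiplication on the centraliser of `z`. -/
def CptMul863 (Cpt : G → Prop) (z : G) : Prop :=
  ∀ t t', t⁻¹ * z * t = z → t'⁻¹ * z * t' = z → Cpt t → Cpt t' → Cpt (t * t')

/-- The compact part `A` of the centraliser of `z`. -/
def Agrp863 {U : Subgroup G} {Cpt : G → Prop} (hC : CptData863 U Cpt) (z : G)
    (hmul : CptMul863 Cpt z) : Subgroup G where
  carrier := {t | t⁻¹ * z * t = z ∧ Cpt t}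
  one_mem' := ⟨by simp, hC.ofU 1 U.one_mem⟩
  mul_mem' := by
    rintro a b ⟨ha, ha'⟩ ⟨hb, hb'⟩
    refine ⟨?_, hmul a b ha hb ha' hb'⟩
    calc (a * b)⁻¹ * z * (a * b) = b⁻¹ * (a⁻¹ * z * a) * b := by group
      _ = z := by rw [ha, hb]
  inv_mem' := by
    rintro a ⟨ha, ha'⟩
    refine ⟨?_, hC.inv a ha'⟩
    calc (a⁻¹)⁻¹ * z * a⁻¹ = (a⁻¹)⁻¹ * (a⁻¹ * z * a) * a⁻¹ := by rw [ha]
      _ = z := by group

theorem mem_Agrp863 {U : Subgroup G} {Cpt : G → Prop} (hC : CptData863 U Cpt) (z : G)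
    (hmul : CptMul863 Cpt z) (t : G) :
    t ∈ Agrp863 hC z hmul ↔ t⁻¹ * z * t = z ∧ Cpt t := Iff.rfl

/-- The compact part of the twisted centraliser of `y₀`, as a subgroup of `G^l`. -/
def Tgrp863 {U : Subgroup G} {Cpt : G → Prop} (hC : CptData863 U Cpt) (y₀ : Fin l → G)
    (hmul : CptMul863 Cpt (nm863 y₀)) : Subgroup (Fin l → G) where
  carrier := {t | act863 t y₀ = y₀ ∧ t 0 ∈ Agrp863 hC (nm863 y₀) hmul}
  one_mem' := ⟨act863_one y₀, (Agrp863 hC (nm863 y₀) hmul).one_mem⟩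
  mul_mem' := by
    rintro a b ⟨ha, ha'⟩ ⟨hb, hb'⟩
    refine ⟨?_, (Agrp863 hC (nm863 y₀) hmul).mul_mem ha' hb'⟩
    rw [act863_mul, ha, hb]
  inv_mem' := by
    rintro a ⟨ha, ha'⟩
    refine ⟨?_, (Agrp863 hC (nm863 y₀) hmul).inv_mem ha'⟩
    have := act863_inv a y₀
    rw [ha] at this
    exact this

/-- The predicate of the split orbit sum is membership in `Tgrp863`. -/
theorem csplit_iff_mem_Tgrp863 {U : Subgroup G} {Cpt : G → Prop} (hC : CptData863 U Cpt)
    (y₀ : Fin l → G) (hmul : CptMul863 Cpt (nm863 y₀)) (t : Fin l → G) :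
    (t⁻¹ * y₀ * shift863 l t = y₀ ∧ ∀ j, Cpt (t j)) ↔ t ∈ Tgrp863 hC y₀ hmul := by
  constructor
  · rintro ⟨h1, h2⟩
    refine ⟨h1, ?_, h2 0⟩
    have := nm863_act t y₀
    rw [show act863 t y₀ = y₀ from h1] at this
    exact this.symm
  · rintro ⟨h1, -, h3⟩
    refine ⟨h1, fun j => ?_⟩
    have := tw_unique_fin_863 t y₀ y₀ h1.symm j
    rw [this]
    have hc := hC.conj (pq863 y₀ (j : ℕ)) (t 0) h3
    exact hc

/-- An element of the twisted centraliser is determined by its component at `0`. -/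
theorem tw_cent_ext_863 (y₀ t t' : Fin l → G) (h : act863 t y₀ = y₀) (h' : act863 t' y₀ = y₀)
    (h0 : t 0 = t' 0) : t = t' := by
  funext j
  rw [tw_unique_fin_863 t y₀ y₀ h.symm j, tw_unique_fin_863 t' y₀ y₀ h'.symm j, h0]

/-- The projection to the component `0`. -/
def pr0863 (G : Type) [Group G] (l : ℕ) [NeZero l] : (Fin l → G) →* G :=
  Pi.evalMonoidHom (fun _ : Fin l => G) 0

theorem pr0863_apply (t : Fin l → G) : pr0863 G l t = t 0 := rfl

/-- The subgroup `C = pr₀ (U^l ∩ T)`. -/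
def Cgrp863 {U : Subgroup G} {Cpt : G → Prop} (hC : CptData863 U Cpt) (y₀ : Fin l → G)
    (hmul : CptMul863 Cpt (nm863 y₀)) : Subgroup G :=
  Subgroup.map (pr0863 G l) (ULgrp863 U l ⊓ Tgrp863 hC y₀ hmul)

theorem map_pr0_Tgrp863 {U : Subgroup G} {Cpt : G → Prop} (hC : CptData863 U Cpt)
    (y₀ : Fin l → G) (hmul : CptMul863 Cpt (nm863 y₀)) :
    Subgroup.map (pr0863 G l) (Tgrp863 hC y₀ hmul) = Agrp863 hC (nm863 y₀) hmul := by
  ext a
  constructor
  · rintro ⟨t, ht, rfl⟩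
    exact ht.2
  · intro ha
    have hcomm : nm863 y₀ = a⁻¹ * nm863 y₀ * a := ha.1.symm
    obtain ⟨t, ht0, ht⟩ := tw_exists_863 y₀ y₀ a hcomm
    refine ⟨t, ⟨ht.symm, ?_⟩, ht0⟩
    rw [ht0]
    exact ha

/-- `cIndex` of the split orbit sum as a relative index in `G`. -/
theorem cIndex_split_863 {U : Subgroup G} {Cpt : G → Prop} (hC : CptData863 U Cpt)
    (y₀ : Fin l → G) (hmul : CptMul863 Cpt (nm863 y₀)) :
    cIndex (fun u : Fin l → G => ∀ j, u j ∈ U)
        (fun y t => t⁻¹ * y * shift863 l t = y ∧ ∀ j, Cpt (t j)) y₀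
      = (Cgrp863 hC y₀ hmul).relIndex (Agrp863 hC (nm863 y₀) hmul) := by
  have h0 := cIndex_eq_relIndex_863 (fun u : Fin l → G => ∀ j, u j ∈ U)
    (fun y t => t⁻¹ * y * shift863 l t = y ∧ ∀ j, Cpt (t j)) y₀ (ULgrp863 U l)
    (Tgrp863 hC y₀ hmul) (fun u => Iff.rfl) (fun t => csplit_iff_mem_Tgrp863 hC y₀ hmul t)
  rw [h0]
  rw [← map_pr0_Tgrp863 hC y₀ hmul, ← Subgroup.relIndex_comap,
    ← Subgroup.inf_relIndex_right (ULgrp863 U l), ← Subgroup.inf_relIndex_right (Subgroup.comap _ _)]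
  congr 1
  ext t
  simp only [Subgroup.mem_inf, Subgroup.mem_comap]
  constructor
  · rintro ⟨h1, h2⟩
    exact ⟨⟨t, ⟨h1, h2⟩, rfl⟩, h2⟩
  · rintro ⟨⟨t', ⟨h1, h2⟩, h0⟩, h3⟩
    have : t' = t := tw_cent_ext_863 y₀ t' t h2.1 h3.1 h0
    rw [← this]
    exact ⟨h1, h2⟩

/-- `cIndex` of the ordinary orbit sum as a relative index. -/
theorem cIndex_ord_863 {U : Subgroup G} {Cpt : G → Prop} (hC : CptData863 U Cpt) (z : G)
    (hmul : CptMul863 Cpt z) :
    cIndex (fun u : G => u ∈ U) (fun z t => t⁻¹ * z * t = z ∧ Cpt t) z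
      = (U ⊓ Agrp863 hC z hmul).relIndex (Agrp863 hC z hmul) := by
  have h0 := cIndex_eq_relIndex_863 (fun u : G => u ∈ U)
    (fun z t => t⁻¹ * z * t = z ∧ Cpt t) z U (Agrp863 hC z hmul) (fun u => Iff.rfl)
    (fun t => Iff.rfl)
  rw [h0, Subgroup.inf_relIndex_right]

theorem Cgrp_le_863 {U : Subgroup G} {Cpt : G → Prop} (hC : CptData863 U Cpt) (y₀ : Fin l → G)
    (hmul : CptMul863 Cpt (nm863 y₀)) :
    Cgrp863 hC y₀ hmul ≤ U ⊓ Agrp863 hC (nm863 y₀) hmul := by
  rintro c ⟨t, ⟨h1, h2⟩, rfl⟩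
  exact ⟨h1 0, h2.2⟩

/-- The number of elements of `P` in the class of `y₀` modulo `U^l` is `[B : C]`. -/
theorem card_Q_863 {U : Subgroup G} {Cpt : G → Prop} (hC : CptData863 U Cpt) (y₀ : Fin l → G)
    (hmul : CptMul863 Cpt (nm863 y₀)) (Φ : (Fin l → G) → ℂ)
    (hΦ : ∀ u y : Fin l → G, (∀ j, u j ∈ U) → Φ (act863 u y) = Φ y) (hΦ0 : Φ y₀ ≠ 0)
    (P : Finset (Fin l → G)) (hPn : ∀ y ∈ P, nm863 y = nm863 y₀)
    (hPi : IsIneq863 (TwEq1863 U) P)
    (hPc : ∀ y, nm863 y = nm863 y₀ → Φ y ≠ 0 → ∃ y' ∈ P, TwEq1863 U y y') :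
    (P.filter (fun y => TwEq863 U y₀ y)).card
      = (Cgrp863 hC y₀ hmul).relIndex (U ⊓ Agrp863 hC (nm863 y₀) hmul) := by
  set A := Agrp863 hC (nm863 y₀) hmul with hA
  set B := U ⊓ A with hB
  set C := Cgrp863 hC y₀ hmul with hCdef
  set Q := P.filter (fun y => TwEq863 U y₀ y) with hQ
  have he1 := twEq1863_equiv (l := l) U
  let ub : G → (Fin l → G) := fun b j => if j = 0 then b⁻¹ else 1
  have hub0 : ∀ b, ub b 0 = b⁻¹ := fun b => if_pos rfl
  have hubU : ∀ b ∈ U, ∀ j, ub b j ∈ U := by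
    intro b hb j
    by_cases hj : j = 0
    · subst hj
      rw [hub0]
      exact U.inv_mem hb
    · show (if j = 0 then b⁻¹ else 1) ∈ U
      rw [if_neg hj]
      exact U.one_mem
  let yb : G → (Fin l → G) := fun b => act863 (ub b) y₀
  have hyb_nm : ∀ b ∈ B, nm863 (yb b) = nm863 y₀ := by
    intro b hb
    show nm863 (act863 (ub b) y₀) = nm863 y₀
    rw [nm863_act, hub0, inv_inv]
    have h1 : b⁻¹ * nm863 y₀ * b = nm863 y₀ := hb.2.1
    calc b * nm863 y₀ * b⁻¹ = b * (b⁻¹ * nm863 y₀ * b) * b⁻¹ := by rw [h1]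
      _ = nm863 y₀ := by group
  have hyb_Φ : ∀ b ∈ B, Φ (yb b) ≠ 0 := by
    intro b hb
    show Φ (act863 (ub b) y₀) ≠ 0
    rw [hΦ _ _ (hubU b hb.1)]
    exact hΦ0
  have hex : ∀ b : B, ∃ y' ∈ P, TwEq1863 U (yb b) y' :=
    fun b => hPc _ (hyb_nm b b.2) (hyb_Φ b b.2)
  let pick : B → (Fin l → G) := fun b => Classical.choose (hex b)
  have hpickP : ∀ b : B, pick b ∈ P := fun b => (Classical.choose_spec (hex b)).1
  have hpick1 : ∀ b : B, TwEq1863 U (yb b) (pick b) :=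
    fun b => (Classical.choose_spec (hex b)).2
  have hpickQ : ∀ b : B, pick b ∈ Q := by
    intro b
    refine Finset.mem_filter.mpr ⟨hpickP b, ?_⟩
    have h1 : TwEq863 U y₀ (yb b) := ⟨ub b, hubU b b.2.1, rfl⟩
    exact (twEq863_equiv U).trans h1 (hpick1 b).toTwEq
  have hkey : ∀ b b' : B, pick b = pick b' ↔ (b : G)⁻¹ * (b' : G) ∈ C := by
    intro b b'
    constructor
    · intro h
      have h1 : TwEq1863 U (yb b) (yb b') := by
        refine he1.trans (hpick1 b) ?_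
        rw [h]
        exact he1.symm (hpick1 b')
      obtain ⟨w, hwU, hw0, hw⟩ := h1
      have hw' : yb b' = act863 (ub b * w) y₀ := by rw [act863_mul]; exact hw
      refine ⟨ub b * w * (ub b')⁻¹, ⟨?_, ?_, ?_⟩, ?_⟩
      · intro j
        exact U.mul_mem (U.mul_mem (hubU b b.2.1 j) (hwU j)) (U.inv_mem (hubU b' b'.2.1 j))
      · show act863 (ub b * w * (ub b')⁻¹) y₀ = y₀
        rw [act863_mul, ← hw']
        exact act863_inv (ub b') y₀
      · show (ub b * w * (ub b')⁻¹) 0 ∈ A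
        rw [Pi.mul_apply, Pi.mul_apply, Pi.inv_apply, hub0, hub0, hw0, mul_one, inv_inv]
        exact A.mul_mem (A.inv_mem b.2.2) b'.2.2
      · show (ub b * w * (ub b')⁻¹) 0 = (b : G)⁻¹ * (b' : G)
        rw [Pi.mul_apply, Pi.mul_apply, Pi.inv_apply, hub0, hub0, hw0, mul_one, inv_inv]
    · rintro ⟨t, ⟨htU, htT⟩, ht0⟩
      have ht0' : t 0 = (b : G)⁻¹ * (b' : G) := ht0
      have h1 : TwEq1863 U (yb b) (yb b') := by
        refine ⟨(ub b)⁻¹ * t * ub b', ?_, ?_, ?_⟩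
        · intro j
          exact U.mul_mem (U.mul_mem (U.inv_mem (hubU b b.2.1 j)) (htU j)) (hubU b' b'.2.1 j)
        · rw [Pi.mul_apply, Pi.mul_apply, Pi.inv_apply, hub0, hub0, ht0']
          group
        · show act863 (ub b') y₀ = act863 ((ub b)⁻¹ * t * ub b') (act863 (ub b) y₀)
          rw [← act863_mul]
          have : ub b * ((ub b)⁻¹ * t * ub b') = t * ub b' := by group
          rw [this, act863_mul, htT.1]
      have h2 : TwEq1863 U (pick b) (pick b') :=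
        he1.trans (he1.symm (hpick1 b)) (he1.trans h1 (hpick1 b'))
      exact hPi _ (hpickP b) _ (hpickP b') h2
  let f₀ : B → {y // y ∈ Q} := fun b => ⟨pick b, hpickQ b⟩
  have hf₀ : ∀ a b : B, (QuotientGroup.leftRel (C.subgroupOf B)) a b → f₀ a = f₀ b := by
    intro a b hab
    rw [QuotientGroup.leftRel_apply, Subgroup.mem_subgroupOf] at hab
    apply Subtype.ext
    show pick a = pick b
    rw [hkey]
    simpa using hab
  let f : B ⧸ C.subgroupOf B → {y // y ∈ Q} := Quotient.lift f₀ hf₀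
  have hinj : Function.Injective f := by
    intro q₁ q₂
    refine Quotient.inductionOn₂ q₁ q₂ ?_
    intro a b hab
    apply Quotient.sound
    show (QuotientGroup.leftRel (C.subgroupOf B)) a b
    rw [QuotientGroup.leftRel_apply, Subgroup.mem_subgroupOf]
    have h1 : pick a = pick b := congrArg Subtype.val hab
    have h2 := (hkey a b).mp h1
    simpa using h2
  have hsurj : Function.Surjective f := by
    rintro ⟨y, hy⟩
    obtain ⟨hyP, u, huU, hyu⟩ := Finset.mem_filter.mp hy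
    have hn : nm863 y = nm863 y₀ := hPn y hyP
    rw [hyu, nm863_act] at hn
    have hbA : (u 0)⁻¹ ∈ A := by
      refine ⟨?_, hC.ofU _ (U.inv_mem (huU 0))⟩
      rw [inv_inv]
      calc u 0 * nm863 y₀ * (u 0)⁻¹
          = u 0 * ((u 0)⁻¹ * nm863 y₀ * u 0) * (u 0)⁻¹ := by rw [hn]
        _ = nm863 y₀ := by group
    let b : B := ⟨(u 0)⁻¹, U.inv_mem (huU 0), hbA⟩
    refine ⟨Quotient.mk _ b, ?_⟩
    apply Subtype.ext
    show pick b = y
    have h1 : TwEq1863 U (yb b) y := by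
      refine ⟨(ub (b : G))⁻¹ * u, ?_, ?_, ?_⟩
      · intro j
        exact U.mul_mem (U.inv_mem (hubU b b.2.1 j)) (huU j)
      · rw [Pi.mul_apply, Pi.inv_apply, hub0]
        show (((u 0)⁻¹)⁻¹)⁻¹ * u 0 = 1
        group
      · show y = act863 ((ub (b : G))⁻¹ * u) (act863 (ub (b : G)) y₀)
        rw [← act863_mul, hyu]
        congr 1
        group
    have h2 : TwEq1863 U (pick b) y := he1.trans (he1.symm (hpick1 b)) h1
    exact hPi _ (hpickP b) _ hyP h2
  have hcard : Nat.card (B ⧸ C.subgroupOf B) = Nat.card {y // y ∈ Q} :=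
    Nat.card_congr (Equiv.ofBijective f ⟨hinj, hsurj⟩)
  have h3 : Nat.card {y // y ∈ Q} = Q.card := Nat.card_eq_finsetCard Q
  rw [← h3, ← hcard]
  rfl

/-- **THE COUNTING LEMMA.** -/
theorem count_863 {U : Subgroup G} {Cpt : G → Prop} (hC : CptData863 U Cpt) (y₀ : Fin l → G)
    (hmul : CptMul863 Cpt (nm863 y₀)) (Φ : (Fin l → G) → ℂ)
    (hΦ : ∀ u y : Fin l → G, (∀ j, u j ∈ U) → Φ (act863 u y) = Φ y) (hΦ0 : Φ y₀ ≠ 0)
    (P : Finset (Fin l → G)) (hPn : ∀ y ∈ P, nm863 y = nm863 y₀)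
    (hPi : IsIneq863 (TwEq1863 U) P)
    (hPc : ∀ y, nm863 y = nm863 y₀ → Φ y ≠ 0 → ∃ y' ∈ P, TwEq1863 U y y') :
    cIndex (fun u : G => u ∈ U) (fun z t => t⁻¹ * z * t = z ∧ Cpt t) (nm863 y₀)
        * (P.filter (fun y => TwEq863 U y₀ y)).card
      = cIndex (fun u : Fin l → G => ∀ j, u j ∈ U)
          (fun y t => t⁻¹ * y * shift863 l t = y ∧ ∀ j, Cpt (t j)) y₀ := by
  rw [cIndex_ord_863 hC (nm863 y₀) hmul, cIndex_split_863 hC y₀ hmul,
    card_Q_863 hC y₀ hmul Φ hΦ hΦ0 P hPn hPi hPc, mul_comm]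
  exact Subgroup.relIndex_mul_relIndex _ _ _ (Cgrp_le_863 hC y₀ hmul) inf_le_right

end Split

end Fermat.Agent.LT.T6.H863

end

end
-- ===== PACK-END LT/T6/H863/Count.lean

-- ===== PACK-BEGIN LT/T6/H220/UnrInt.lean
section




/-!
# Row LT, tower T6: UNRAMIFIED CORE, part 2 (integral statements) -- helper220, OFF-MAIN

In the vocabulary of `T6/Spec.lean` (`IsLocalField`, `IsLocalExt k k' l 1 i s`, `l` prime):

* `resFix220`          : `y` integral, `s y ≡ y mod 𝔪'`  ⟹  `y ≡ i x mod 𝔪'`, `x` integral;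
* `exists_res_move220` : some integral `y` has `s y - y` a unit;
* `exists_tr_unit220`, `exists_tr_eq_one220`, `tr_surj220` : the trace `𝒪' → 𝒪` is onto;
* `add_h90_220`        : integral additive Hilbert 90;
* `poincare220`        : the Poincaré series identity `u · s e = e + (N u - 1) θ`;
* `mul_h90_220`        : integral multiplicative Hilbert 90.
-/

set_option autoImplicit false

open scoped Valued
open Fermat.Agent.LT.T6

noncomputable section

namespace Fermat.Agent.LT.T6.H220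

section Algebra

variable {R : Type} [CommRing R]

/-- The partial norms `a_m = u · s u ⋯ s^{m-1} u`. -/
def pnm220 (s : R ≃+* R) (m : ℕ) (u : R) : R := ∏ j ∈ Finset.range m, (s ^ j) u

theorem pnm_zero220 (s : R ≃+* R) (u : R) : pnm220 s 0 u = 1 := by simp [pnm220]

theorem pnm_succ220 (s : R ≃+* R) (m : ℕ) (u : R) :
    pnm220 s (m + 1) u = u * s (pnm220 s m u) := by
  unfold pnm220
  rw [Finset.prod_range_succ', map_prod]
  simp only [pow_zero, RingAut.one_apply]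
  rw [mul_comm]
  congr 1
  exact Finset.prod_congr rfl fun j _ => by rw [pow_succ', RingAut.mul_apply]

/-- The Poincaré series `e = ∑_{m<l} a_m s^m θ`. -/
def pser220 (s : R ≃+* R) (l : ℕ) (u θ : R) : R :=
  ∑ m ∈ Finset.range l, pnm220 s m u * (s ^ m) θ

/-- **Poincaré series identity**: `u · s(e) = e + (N u - 1) θ` if `s^l θ = θ`. -/
theorem poincare220 (s : R ≃+* R) (l : ℕ) (u θ : R) (hθ : (s ^ l) θ = θ) :
    u * s (pser220 s l u θ) = pser220 s l u θ + (pnm220 s l u - 1) * θ := by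
  unfold pser220
  rw [map_sum, Finset.mul_sum]
  have h1 : ∀ m ∈ Finset.range l, u * s (pnm220 s m u * (s ^ m) θ)
      = pnm220 s (m + 1) u * (s ^ (m + 1)) θ := by
    intro m _
    rw [map_mul, pnm_succ220, pow_succ', RingAut.mul_apply]
    ring
  rw [Finset.sum_congr rfl h1]
  have h2 := Finset.sum_range_succ' (fun m => pnm220 s m u * (s ^ m) θ) l
  have h3 := Finset.sum_range_succ (fun m => pnm220 s m u * (s ^ m) θ) l
  simp only [pow_zero, RingAut.one_apply, pnm_zero220, one_mul] at h2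
  rw [hθ] at h3
  have h4 : ∑ m ∈ Finset.range l, pnm220 s (m + 1) u * (s ^ (m + 1)) θ
      = ∑ m ∈ Finset.range l, pnm220 s m u * (s ^ m) θ + pnm220 s l u * θ - θ := by
    rw [← h3, h2]; ring
  rw [h4]; ring

/-- The additive partial sums `y_m = ∑_{j<m} s^j y`. -/
def psum220 (s : R ≃+* R) (m : ℕ) (y : R) : R := ∑ j ∈ Finset.range m, (s ^ j) y

theorem psum_succ220 (s : R ≃+* R) (m : ℕ) (y : R) :
    psum220 s (m + 1) y = y + s (psum220 s m y) := by
  unfold psum220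
  rw [Finset.sum_range_succ', map_sum]
  simp only [pow_zero, RingAut.one_apply]
  rw [add_comm]
  congr 1
  exact Finset.sum_congr rfl fun j _ => by rw [pow_succ', RingAut.mul_apply]

/-- The additive series `z = ∑_{m<l} y_m s^m θ`. -/
def aser220 (s : R ≃+* R) (l : ℕ) (y θ : R) : R :=
  ∑ m ∈ Finset.range l, psum220 s m y * (s ^ m) θ

/-- **Additive series identity**: `s z = z + (tr y) θ - y · tr θ` if `s^l θ = θ`. -/
theorem aser_identity220 (s : R ≃+* R) (l : ℕ) (y θ : R) (hθ : (s ^ l) θ = θ) :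
    s (aser220 s l y θ) = aser220 s l y θ + psum220 s l y * θ - y * psum220 s l θ := by
  unfold aser220
  rw [map_sum]
  have h1 : ∀ m ∈ Finset.range l, s (psum220 s m y * (s ^ m) θ)
      = psum220 s (m + 1) y * (s ^ (m + 1)) θ - y * (s ^ (m + 1)) θ := by
    intro m _
    rw [map_mul, psum_succ220, pow_succ', RingAut.mul_apply]
    ring
  rw [Finset.sum_congr rfl h1, Finset.sum_sub_distrib, ← Finset.mul_sum]
  have h2 := Finset.sum_range_succ' (fun m => psum220 s m y * (s ^ m) θ) l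
  have h3 := Finset.sum_range_succ (fun m => psum220 s m y * (s ^ m) θ) l
  have h5 := Finset.sum_range_succ' (fun m => (s ^ m) θ) l
  have h6 := Finset.sum_range_succ (fun m => (s ^ m) θ) l
  have h0 : psum220 s 0 y = 0 := by simp [psum220]
  simp only [pow_zero, RingAut.one_apply, h0, zero_mul, add_zero] at h2
  simp only [pow_zero, RingAut.one_apply] at h5
  rw [hθ] at h3 h6
  have h7 : ∑ m ∈ Finset.range l, (s ^ (m + 1)) θ = psum220 s l θ := by
    unfold psum220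
    have : ∑ m ∈ Finset.range l, (s ^ (m + 1)) θ + θ = ∑ m ∈ Finset.range l, (s ^ m) θ + θ := by
      rw [← h5, h6]
    exact add_right_cancel this
  rw [h7, ← h2, h3]

end Algebra

section Fixed

variable {k' : Type} [Field k']

theorem s_pow_fixed220 (s : k' ≃+* k') (c : k') (hc : s c = c) (j : ℕ) : (s ^ j) c = c := by
  induction j with
  | zero => simp
  | succ n ih => rw [pow_succ', RingAut.mul_apply, ih, hc]

theorem tr_mul_fixed220 (s : k' ≃+* k') (l : ℕ) (y c : k') (hc : s c = c) :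
    tr220 s l (y * c) = tr220 s l y * c := by
  unfold tr220
  rw [Finset.sum_mul]
  exact Finset.sum_congr rfl fun j _ => by rw [map_mul, s_pow_fixed220 s c hc]

theorem nm_fixed220 (s : k' ≃+* k') (l : ℕ) (c : k') (hc : s c = c) :
    nm220 s l c = c ^ l := by
  unfold nm220
  rw [Finset.prod_congr rfl fun j _ => s_pow_fixed220 s c hc j]
  simp

end Fixed

section Int

variable {k k' : Type} [Field k] [Field k'] [Valued k Γ₀] [Valued k' Γ₀]
  {q l : ℕ} {i : k →+* k'} {s : k' ≃+* k'}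

theorem sRes_eq_iff220 (hext : IsLocalExt k k' l 1 i s) (y : 𝒪[k']) :
    sRes220 s hext.val_s (IsLocalRing.residue 𝒪[k'] y) = IsLocalRing.residue 𝒪[k'] y ↔
      Valued.v (s (y : k') - y) < 1 := by
  rw [sRes_residue220, residue_eq_iff220]
  rfl

/-- **Residue fixed points.**  An integral `y` with `s y ≡ y` modulo the maximal ideal is
congruent to an integral element of `k`. -/
theorem resFix220 (hk : IsLocalField k q) (hext : IsLocalExt k k' l 1 i s) (hl : l.Prime)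
    (y : k') (hy : Valued.v y ≤ 1) (hs : Valued.v (s y - y) < 1) :
    ∃ x : k, Valued.v x ≤ 1 ∧ Valued.v (y - i x) < 1 := by
  obtain ⟨xb, hxb⟩ := resFix_res220 hk hext hl (IsLocalRing.residue 𝒪[k'] (intMk220 y hy))
    ((sRes_eq_iff220 hext _).2 hs)
  obtain ⟨x, rfl⟩ := IsLocalRing.residue_surjective (R := 𝒪[k]) xb
  refine ⟨x, int_val_le220 x, ?_⟩
  rw [iRes_residue220, residue_eq_iff220] at hxb
  rw [Valuation.map_sub_swap]
  exact hxb

/-- `s` acts non-trivially on the residue field. -/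
theorem exists_res_move220 (hk : IsLocalField k q) (hk' : IsLocalField k' (q ^ l))
    (hext : IsLocalExt k k' l 1 i s) (hl : l.Prime) :
    ∃ y : k', Valued.v y ≤ 1 ∧ Valued.v (s y - y) = 1 := by
  have hne := sRes_ne_one220 hk hk' hext hl
  have : ∃ yb : 𝓀[k'], sRes220 s hext.val_s yb ≠ yb := by
    by_contra hcon
    simp only [not_exists, not_not] at hcon
    exact hne (RingEquiv.ext hcon)
  obtain ⟨yb, hyb⟩ := this
  obtain ⟨y, rfl⟩ := IsLocalRing.residue_surjective (R := 𝒪[k']) yb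
  refine ⟨y, int_val_le220 y, ?_⟩
  rw [Ne, sRes_eq_iff220 hext, not_lt] at hyb
  refine le_antisymm ?_ hyb
  refine (Valued.v.map_sub (s (y : k')) (y : k')).trans (max_le ?_ (int_val_le220 y))
  rw [hext.val_s]; exact int_val_le220 y

/-- There is an integral element whose trace is a unit. -/
theorem exists_tr_unit220 (hk : IsLocalField k q) (hk' : IsLocalField k' (q ^ l))
    (hext : IsLocalExt k k' l 1 i s) (hl : l.Prime) :
    ∃ θ : k', Valued.v θ ≤ 1 ∧ Valued.v (tr220 s l θ) = 1 := by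
  have : NeZero l := ⟨hl.ne_zero⟩
  obtain ⟨θb, hθb⟩ := exists_resSum_ne_zero220 hk hk' hext hl (fun _ => 1) 0 one_ne_zero
  obtain ⟨θ, rfl⟩ := IsLocalRing.residue_surjective (R := 𝒪[k']) θb
  refine ⟨θ, int_val_le220 θ, ?_⟩
  simp only [one_mul] at hθb
  rw [Fin.sum_univ_eq_sum_range
    (fun j => (sRes220 s hext.val_s ^ j) (IsLocalRing.residue 𝒪[k'] θ)) l,
    ← residue_tr220 hext θ, residue_ne_zero_iff220] at hθb
  exact hθb

/-- There is an integral element of trace one. -/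
theorem exists_tr_eq_one220 (hk : IsLocalField k q) (hk' : IsLocalField k' (q ^ l))
    (hext : IsLocalExt k k' l 1 i s) (hl : l.Prime) :
    ∃ θ : k', Valued.v θ ≤ 1 ∧ tr220 s l θ = 1 := by
  obtain ⟨θ, hθ, htr⟩ := exists_tr_unit220 hk hk' hext hl
  have hfix : s (tr220 s l θ) = tr220 s l θ := s_tr220 s l θ (hext.cyc.order θ)
  have hne : tr220 s l θ ≠ 0 := by
    intro h0; rw [h0, map_zero] at htr; exact zero_ne_one htr
  refine ⟨θ * (tr220 s l θ)⁻¹, ?_, ?_⟩
  · rw [map_mul, map_inv₀, htr, inv_one, mul_one]; exact hθ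
  · rw [tr_mul_fixed220 s l θ _ (by rw [map_inv₀, hfix]), mul_inv_cancel₀ hne]

/-- **The trace is onto**, with control of the valuation. -/
theorem tr_surj220 (hk : IsLocalField k q) (hk' : IsLocalField k' (q ^ l))
    (hext : IsLocalExt k k' l 1 i s) (hl : l.Prime) (x : k) :
    ∃ y : k', Valued.v y ≤ Valued.v x ∧ tr220 s l y = i x := by
  obtain ⟨θ, hθ, htr⟩ := exists_tr_eq_one220 hk hk' hext hl
  refine ⟨θ * i x, ?_, ?_⟩
  · rw [map_mul, val_i220 hext]
    calc Valued.v θ * Valued.v x ≤ 1 * Valued.v x := mul_le_mul_left hθ _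
      _ = Valued.v x := one_mul _
  · rw [tr_mul_fixed220 s l θ _ (hext.cyc.fix_i x), htr, one_mul]

theorem val_psum_le220 (hext : IsLocalExt k k' l 1 i s) (m : ℕ) (y : k') :
    Valued.v (psum220 s m y) ≤ Valued.v y := by
  unfold psum220
  refine Valuation.map_sum_le _ fun j _ => ?_
  rw [val_pow_s220 s hext.val_s]

/-- **Integral additive Hilbert 90.** -/
theorem add_h90_220 (hk : IsLocalField k q) (hk' : IsLocalField k' (q ^ l))
    (hext : IsLocalExt k k' l 1 i s) (hl : l.Prime) (y : k') (hy : tr220 s l y = 0) :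
    ∃ z : k', Valued.v z ≤ Valued.v y ∧ s z - z = y := by
  obtain ⟨θ, hθ, htr⟩ := exists_tr_eq_one220 hk hk' hext hl
  refine ⟨- aser220 s l y θ, ?_, ?_⟩
  · rw [Valuation.map_neg]
    unfold aser220
    refine Valuation.map_sum_le _ fun m _ => ?_
    rw [map_mul, val_pow_s220 s hext.val_s]
    calc Valued.v (psum220 s m y) * Valued.v θ ≤ Valued.v y * 1 :=
          mul_le_mul' (val_psum_le220 hext m y) hθ
      _ = Valued.v y := mul_one _
  · have h := aser_identity220 s l y θ (hext.cyc.order θ)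
    have h1 : psum220 s l y = 0 := hy
    have h2 : psum220 s l θ = 1 := htr
    rw [h1, h2] at h
    rw [map_neg, h]; ring

theorem val_pnm220 (hext : IsLocalExt k k' l 1 i s) (m : ℕ) (u : k') :
    Valued.v (pnm220 s m u) = Valued.v u ^ m := by
  unfold pnm220
  rw [map_prod]
  rw [Finset.prod_congr rfl fun j _ => val_pow_s220 s hext.val_s j u]
  simp

theorem val_pser_le220 (hext : IsLocalExt k k' l 1 i s) (u θ : k') (hu : Valued.v u = 1)
    (hθ : Valued.v θ ≤ 1) : Valued.v (pser220 s l u θ) ≤ 1 := by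
  unfold pser220
  refine Valuation.map_sum_le _ fun m _ => ?_
  rw [map_mul, val_pnm220 hext, hu, one_pow, one_mul, val_pow_s220 s hext.val_s]
  exact hθ

theorem residue_pser220 (hext : IsLocalExt k k' l 1 i s) (u : k') (hu : Valued.v u = 1)
    (θ : 𝒪[k']) :
    IsLocalRing.residue 𝒪[k']
        (intMk220 (pser220 s l u θ) (val_pser_le220 hext u θ hu (int_val_le220 θ)))
      = ∑ m ∈ Finset.range l,
          IsLocalRing.residue 𝒪[k']
              (intMk220 (pnm220 s m u) (by rw [val_pnm220 hext, hu, one_pow])) *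
            (sRes220 s hext.val_s ^ m) (IsLocalRing.residue 𝒪[k'] θ) := by
  have h1 : intMk220 (pser220 s l u θ) (val_pser_le220 hext u θ hu (int_val_le220 θ))
      = ∑ m ∈ Finset.range l,
          intMk220 (pnm220 s m u) (by rw [val_pnm220 hext, hu, one_pow]) *
            intMk220 ((s ^ m) (θ : k'))
              (by rw [val_pow_s220 s hext.val_s]; exact int_val_le220 θ) := by
    ext
    simp [pser220]
  rw [h1, map_sum]
  refine Finset.sum_congr rfl fun m _ => ?_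
  rw [map_mul, sRes_pow_residue220 s hext.val_s m θ]

/-- **Integral multiplicative Hilbert 90.**  A unit of norm one is `z / s z` with `z` a unit. -/
theorem mul_h90_220 (hk : IsLocalField k q) (hk' : IsLocalField k' (q ^ l))
    (hext : IsLocalExt k k' l 1 i s) (hl : l.Prime) (u : k') (hu : Valued.v u = 1)
    (hN : nm220 s l u = 1) :
    ∃ z : k', Valued.v z = 1 ∧ u * s z = z := by
  have : NeZero l := ⟨hl.ne_zero⟩
  obtain ⟨θb, hθb⟩ := exists_resSum_ne_zero220 hk hk' hext hl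
    (fun m => IsLocalRing.residue 𝒪[k']
      (intMk220 (pnm220 s (m : ℕ) u) (by rw [val_pnm220 hext, hu, one_pow]))) 0
    (by
      rw [residue_ne_zero_iff220]
      simp [pnm_zero220])
  obtain ⟨θ, rfl⟩ := IsLocalRing.residue_surjective (R := 𝒪[k']) θb
  refine ⟨pser220 s l u θ, ?_, ?_⟩
  · rw [Fin.sum_univ_eq_sum_range
      (fun m => IsLocalRing.residue 𝒪[k']
          (intMk220 (pnm220 s m u) (by rw [val_pnm220 hext, hu, one_pow])) *
        (sRes220 s hext.val_s ^ m) (IsLocalRing.residue 𝒪[k'] θ)) l,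
      ← residue_pser220 hext u hu θ, residue_ne_zero_iff220] at hθb
    exact hθb
  · have h := poincare220 s l u (θ : k') (hext.cyc.order _)
    have h1 : pnm220 s l u = 1 := hN
    rw [h1, sub_self, zero_mul, add_zero] at h
    exact h

end Int

end Fermat.Agent.LT.T6.H220

end

end
-- ===== PACK-END LT/T6/H220/UnrInt.lean

-- ===== PACK-BEGIN LT/T6/H888/ArchClassSpec.lean
section



/-!
# Row LT, tower T6, leaf T6.22 `ArchClassC` (helper888, sub-architect): SPEC of the cut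

OFF-MAIN.  Definitions and Props only.  `LT/T6/SpecArch.lean` (helper22) is NOT touched.

## Route (no smoothing of the eigenfunction, no ODE theory: one-variable calculus only)

Write `A_n(t) = sinh t` (`n = 0`), `sinh t (1 + cosh t)` (`n = ±1`) for the radial weight,
`(G g)(t) = ∫₀ᵗ A(r)⁻¹ ∫₀ʳ A(q) g(q) dq dr` for the Green operator of
`L = ∂² + (A'/A) ∂` with zero initial data, and
`(T f)(t, u) = (1/2π) ∫₀^{2π} K_n(t, u, φ) f(d(t, u, φ)) dφ`,
`cosh d = cosh t cosh u + sinh t sinh u cos φ`, `K₀ = 1`, `K_{±1} = 1 + tanh(t/2) tanh(u/2) cos φ`,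
for the generalised translation.  Then:

* (A1, A2) the normalised eigenvalue function `μ(t) = m(t) / nrm(t)` (`nrm = 1` resp.
  `cosh(t/2)`), `μ(0) = 1`, is continuous on `[0, ∞)` and satisfies the PRODUCT FORMULA
  `T μ (t, u) = μ(t) μ(u)`;
* (B) DARBOUX: `T (G g)(t, u) = (G g)(t) + G (T g (t, ·))(u)` for continuous `g`
  (the translation commutes with `L`);
* (C) hence `w = G μ` satisfies `w(t) + μ(t) w(u) = w(u) + μ(u) w(t)`, and with (Inj)
  `μ = 1 + c · G μ` for a constant `c` (VOLTERRA equation);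
* (D) the normalised spherical function `sphRad n s (cosh t) / nrm(t)` satisfies the same
  Volterra equation with `c = s² - 1/4` resp. `s² - 1`;
* (E) the continuous solution of the Volterra equation is unique.

All identities were checked numerically (weights `0` and `1`, complex `s`).
-/

set_option autoImplicit false

open MeasureTheory

noncomputable section

namespace Fermat.Agent.LT.T6.H888

open Fermat.Agent.LT.T6

/-- The hypotheses of `ArchClassC` on `(n, e, m)`, bundled. -/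
structure IsCircEigen888 (n : ℤ) (e : GL (Fin 2) ℝ → ℂ) (m : ℝ → ℂ) : Prop where
  cont : Continuous e
  ne : ∃ g, e g ≠ 0
  wt : ∀ k g : GL (Fin 2) ℝ, InSO2 k → e (g * k) = wtChar n k * e g
  scal : ∀ (z g : GL (Fin 2) ℝ) (r : ℝ), 0 < r →
    (z : Matrix (Fin 2) (Fin 2) ℝ) = Matrix.diagonal (fun _ => r) → e (g * z) = e g
  eig : ∀ t : ℝ, 0 < t → ∀ Y : ℝ → GL (Fin 2) ℝ,
    (∀ θ : ℝ, ((Y θ : GL (Fin 2) ℝ) : Matrix (Fin 2) (Fin 2) ℝ)
      = !![Real.cos θ, -Real.sin θ; Real.sin θ, Real.cos θ]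
        * !![Real.exp (t / 2), 0; 0, Real.exp (-(t / 2))]
        * !![Real.cos θ, Real.sin θ; -Real.sin θ, Real.cos θ]) →
    ∀ x : GL (Fin 2) ℝ,
      (∫ θ in (0 : ℝ)..(2 * Real.pi), e (x * Y θ)) = ((2 * Real.pi : ℝ) : ℂ) * m t * e x

/-- The radial weight: `sinh t` for `n = 0`, `sinh t (1 + cosh t)` for `n = ±1`. -/
def wtA888 (n : ℤ) (t : ℝ) : ℝ :=
  if n = 0 then Real.sinh t else Real.sinh t * (1 + Real.cosh t)

/-- The normalisation: `1` for `n = 0`, `cosh (t/2)` for `n = ±1`. -/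
def nrm888 (n : ℤ) (t : ℝ) : ℝ := if n = 0 then 1 else Real.cosh (t / 2)

/-- The eigenvalue of `L` on the spherical function of parameter `s`. -/
def lam888 (n : ℤ) (s : ℂ) : ℂ := if n = 0 then s ^ 2 - 1 / 4 else s ^ 2 - 1

/-- `cosh` of the third side: `cosh t cosh u + sinh t sinh u cos φ`. -/
def rho888 (t u φ : ℝ) : ℝ :=
  Real.cosh t * Real.cosh u + Real.sinh t * Real.sinh u * Real.cos φ

/-- The kernel of the product formula. -/
def kerW888 (n : ℤ) (t u φ : ℝ) : ℝ :=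
  if n = 0 then 1 else 1 + Real.tanh (t / 2) * Real.tanh (u / 2) * Real.cos φ

/-- The generalised translation. -/
def gT888 (n : ℤ) (f : ℝ → ℂ) (t u : ℝ) : ℂ :=
  ((1 / (2 * Real.pi) : ℝ) : ℂ) * ∫ φ in (0 : ℝ)..(2 * Real.pi),
    ((kerW888 n t u φ : ℝ) : ℂ) * f (Real.arcosh (rho888 t u φ))

/-- The Green operator of `L = ∂² + (A'/A) ∂` with zero initial data at `0`. -/
def gL888 (n : ℤ) (g : ℝ → ℂ) (t : ℝ) : ℂ :=
  ∫ r in (0 : ℝ)..t, (((wtA888 n r)⁻¹ : ℝ) : ℂ) *
    ∫ q in (0 : ℝ)..r, ((wtA888 n q : ℝ) : ℂ) * g q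

/-- The normalised eigenvalue function, extended by `1` to `t ≤ 0`. -/
def mtOf888 (n : ℤ) (m : ℝ → ℂ) (t : ℝ) : ℂ :=
  if 0 < t then m t / ((nrm888 n t : ℝ) : ℂ) else 1

/-! ## The leaves -/

/-- (A1) The normalised eigenvalue function is continuous on `[0, ∞)`. -/
def MtContC888 : Prop :=
  ∀ n : ℤ, n = 0 ∨ n = 1 ∨ n = -1 →
    ∀ (e : GL (Fin 2) ℝ → ℂ) (m : ℝ → ℂ), IsCircEigen888 n e m →
      ContinuousOn (mtOf888 n m) (Set.Ici 0)

/-- (A2) The product formula of the normalised eigenvalue function. -/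
def ProdFormC888 : Prop :=
  ∀ n : ℤ, n = 0 ∨ n = 1 ∨ n = -1 →
    ∀ (e : GL (Fin 2) ℝ → ℂ) (m : ℝ → ℂ), IsCircEigen888 n e m →
      ∀ t u : ℝ, 0 < t → 0 < u →
        gT888 n (mtOf888 n m) t u = mtOf888 n m t * mtOf888 n m u

/-- (B) Darboux: the generalised translation commutes with the Green operator. -/
def DarbouxC888 : Prop :=
  ∀ n : ℤ, n = 0 ∨ n = 1 ∨ n = -1 →
    ∀ g : ℝ → ℂ, ContinuousOn g (Set.Ici 0) →
      ∀ t u : ℝ, 0 < t → 0 < u →
        gT888 n (gL888 n g) t u = gL888 n g t + gL888 n (fun q => gT888 n g t q) u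

/-- (Inj) The Green operator does not kill a continuous function with `f 0 = 1`. -/
def GLInjC888 : Prop :=
  ∀ n : ℤ, n = 0 ∨ n = 1 ∨ n = -1 →
    ∀ f : ℝ → ℂ, ContinuousOn f (Set.Ici 0) → f 0 = 1 →
      ∃ t : ℝ, 0 < t ∧ gL888 n f t ≠ 0

/-- (D) The normalised spherical functions solve the Volterra equation. -/
def SphVolterraC888 : Prop :=
  ∀ n : ℤ, n = 0 ∨ n = 1 ∨ n = -1 →
    ∀ s : ℂ, ∃ ps : ℝ → ℂ, ContinuousOn ps (Set.Ici 0) ∧
      (∀ t : ℝ, 0 < t → sphRad n s (Real.cosh t) = ((nrm888 n t : ℝ) : ℂ) * ps t) ∧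
      ∀ t : ℝ, 0 ≤ t → ps t = 1 + lam888 n s * gL888 n ps t

/-- (E) Uniqueness of the continuous solution of the Volterra equation. -/
def VolterraUniqC888 : Prop :=
  ∀ n : ℤ, n = 0 ∨ n = 1 ∨ n = -1 →
    ∀ (c : ℂ) (f g : ℝ → ℂ), ContinuousOn f (Set.Ici 0) → ContinuousOn g (Set.Ici 0) →
      (∀ t : ℝ, 0 ≤ t → f t = 1 + c * gL888 n f t) →
      (∀ t : ℝ, 0 ≤ t → g t = 1 + c * gL888 n g t) →
      ∀ t : ℝ, 0 ≤ t → f t = g t

end Fermat.Agent.LT.T6.H888

end

end
-- ===== PACK-END LT/T6/H888/ArchClassSpec.lean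

-- ===== PACK-BEGIN LT/T6/Inf/H502/UpQ.lean
section



/-!
# Row LT, sub-tower T6inf, leaf T6inf.05 (helper502): weight `±1`, expansion at `t = 0`

OFF-MAIN.  Mathlib only.

`q(a, τ) = (1/2π) ∫₀^{2π} (cosh τ - cos u sinh τ) (cosh 2τ - cos u sinh 2τ)^a du`
(`sphR1 s (cosh t) = q(-s-1, t/2)`).

* `sphQ_expand502`: `‖q(a, τ) - 1 - ((a+1)² - 1/2) sinh² τ‖ ≤ C sinh³ τ` for `sinh τ` small.
* `paramQ_im502`: if `sphR1 s (cosh t)` is real for all `t > 0`, then `s²` is real.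
-/

set_option autoImplicit false

open Real MeasureTheory

noncomputable section

namespace Fermat.Agent.LT.T6.Inf.H502

/-- The body of `T6.sphR1`. -/
def sphR1_502 (s : ℂ) (ρ : ℝ) : ℂ :=
  ((1 / (2 * Real.pi) : ℝ) : ℂ) * ∫ u in (0 : ℝ)..(2 * Real.pi),
    ((Real.sqrt ((ρ + 1) / 2) - Real.cos u * Real.sqrt ((ρ - 1) / 2) : ℝ) : ℂ) *
      ((ρ - Real.cos u * Real.sqrt (ρ ^ 2 - 1) : ℝ) : ℂ) ^ (-s - 1)

/-- `q(a, τ)`. -/
def sphQ502 (a : ℂ) (τ : ℝ) : ℂ :=
  ((1 / (2 * Real.pi) : ℝ) : ℂ) * ∫ u in (0 : ℝ)..(2 * Real.pi),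
    ((Real.cosh τ - Real.cos u * Real.sinh τ : ℝ) : ℂ) *
      ((Real.cosh (2 * τ) - Real.cos u * Real.sinh (2 * τ) : ℝ) : ℂ) ^ a

theorem sqrt_half_add502 (τ : ℝ) : Real.sqrt ((Real.cosh (2 * τ) + 1) / 2) = Real.cosh τ := by
  have h : (Real.cosh (2 * τ) + 1) / 2 = Real.cosh τ ^ 2 := by
    rw [Real.cosh_two_mul, Real.cosh_sq τ]
    ring
  rw [h, Real.sqrt_sq (Real.cosh_pos τ).le]

theorem sqrt_half_sub502 (τ : ℝ) (hτ : 0 ≤ τ) :
    Real.sqrt ((Real.cosh (2 * τ) - 1) / 2) = Real.sinh τ := by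
  have h : (Real.cosh (2 * τ) - 1) / 2 = Real.sinh τ ^ 2 := by
    rw [Real.cosh_two_mul, Real.cosh_sq τ]
    ring
  rw [h, Real.sqrt_sq (Real.sinh_nonneg_iff.2 hτ)]

theorem sphR1_eq_sphQ502 (s : ℂ) (τ : ℝ) (hτ : 0 ≤ τ) :
    sphR1_502 s (Real.cosh (2 * τ)) = sphQ502 (-s - 1) τ := by
  unfold sphR1_502 sphQ502
  rw [sqrt_half_add502, sqrt_half_sub502 τ hτ, sqrt_cosh_sq502 (2 * τ) (by linarith)]

theorem integral_poly3_cos502 (c₀ c₁ c₂ c₃ : ℂ) :
    ∫ u in (0 : ℝ)..(2 * Real.pi),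
        (c₀ + c₁ * ((Real.cos u : ℝ) : ℂ) + c₂ * ((Real.cos u : ℝ) : ℂ) ^ 2
          + c₃ * ((Real.cos u : ℝ) : ℂ) ^ 3)
      = 2 * Real.pi * c₀ + Real.pi * c₂ := by
  have h3 : IntervalIntegrable (fun u : ℝ => c₀ + c₁ * ((Real.cos u : ℝ) : ℂ)
      + c₂ * ((Real.cos u : ℝ) : ℂ) ^ 2) volume 0 (2 * Real.pi) :=
    Continuous.intervalIntegrable (by fun_prop) _ _
  have h4 : IntervalIntegrable (fun u : ℝ => c₃ * ((Real.cos u : ℝ) : ℂ) ^ 3) volume 0
      (2 * Real.pi) :=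
    Continuous.intervalIntegrable (by fun_prop) _ _
  have e3 : ∫ u in (0 : ℝ)..(2 * Real.pi), ((Real.cos u : ℝ) : ℂ) ^ 3 = 0 := by
    have : (fun u : ℝ => ((Real.cos u : ℝ) : ℂ) ^ 3)
        = fun u => (((Real.cos u) ^ 3 : ℝ) : ℂ) := by
      ext u
      push_cast
      rfl
    rw [this, intervalIntegral.integral_ofReal, integral_cos_pow_three]
    simp
  rw [intervalIntegral.integral_add h3 h4, integral_poly_cos502,
    intervalIntegral.integral_const_mul, e3, mul_zero, add_zero]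

/-- The constant of the expansion of `q`. -/
def kQ502 (a : ℂ) : ℝ := 54 * kA502 a + 1 + 2 * ‖a‖ + 12 * ‖a ^ 2 - a‖

theorem kQ_nonneg502 (a : ℂ) : 0 ≤ kQ502 a := by
  unfold kQ502
  have := kA_nonneg502 a
  positivity

/-- The radius of the expansion of `q`. -/
def bQ502 (a : ℂ) : ℝ := min (1 / 10) (1 / (6 * ‖a‖ + 1))

theorem bQ_pos502 (a : ℂ) : 0 < bQ502 a := by
  unfold bQ502
  apply lt_min (by norm_num)
  positivity

section Abs

variable (a : ℂ) (c h : ℝ)

/-- The polynomial part of the integrand, as a polynomial in `k = cos u`. -/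
def polyQ502 (k : ℂ) : ℂ :=
  (c : ℂ) * (1 + a * (2 * (h : ℂ) ^ 2) + (a ^ 2 - a) * (2 * (h : ℂ) ^ 2) ^ 2 / 2)
    + ((c : ℂ) * (-(a * (2 * h * c)) - (a ^ 2 - a) * (2 * (h : ℂ) ^ 2) * (2 * h * c))
        - (h : ℂ) * (1 + a * (2 * (h : ℂ) ^ 2) + (a ^ 2 - a) * (2 * (h : ℂ) ^ 2) ^ 2 / 2)) * k
    + ((c : ℂ) * ((a ^ 2 - a) * (2 * (h : ℂ) * c) ^ 2 / 2)
        - (h : ℂ) * (-(a * (2 * h * c)) - (a ^ 2 - a) * (2 * (h : ℂ) ^ 2) * (2 * h * c)))
      * k ^ 2
    + (-((h : ℂ) * ((a ^ 2 - a) * (2 * (h : ℂ) * c) ^ 2 / 2))) * k ^ 3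

theorem polyQ_eq502 (k x : ℝ) (hx : x = 2 * h ^ 2 - k * (2 * h * c)) :
    polyQ502 a c h (k : ℂ)
      = ((c - k * h : ℝ) : ℂ) * (1 + a * x + (a ^ 2 - a) * (x : ℂ) ^ 2 / 2) := by
  unfold polyQ502
  rw [hx]
  push_cast
  ring

theorem base_posQ502 (hc2 : c ^ 2 = h ^ 2 + 1) (hc1 : 1 ≤ c) (hpos : 0 < h) (k : ℝ)
    (hk : |k| ≤ 1) : 0 < 1 + 2 * h ^ 2 - k * (2 * h * c) := by
  have h1 : k * (2 * h * c) ≤ 2 * h * c := by
    have : k ≤ 1 := (abs_le.1 hk).2
    have h2 : 0 ≤ 2 * h * c := by positivity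
    nlinarith
  have h2 : 0 < (c - h) ^ 2 := by
    apply pow_pos
    nlinarith
  nlinarith

theorem pointwiseQ502 (hc2 : c ^ 2 = h ^ 2 + 1) (hc1 : 1 ≤ c) (hpos : 0 < h)
    (hB : h ≤ bQ502 a) (k : ℝ) (hk1 : |k| ≤ 1) :
    ‖((c - k * h : ℝ) : ℂ) * ((1 + 2 * h ^ 2 - k * (2 * h * c) : ℝ) : ℂ) ^ a
      - polyQ502 a c h (k : ℂ)‖ ≤ 54 * kA502 a * h ^ 3 := by
  have hh10 : h ≤ 1 / 10 := hB.trans (min_le_left _ _)
  have hha : h ≤ 1 / (6 * ‖a‖ + 1) := hB.trans (min_le_right _ _)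
  have hcle : c ≤ 1 + h ^ 2 / 2 := by nlinarith
  obtain ⟨x, hx⟩ : ∃ x : ℝ, x = 2 * h ^ 2 - k * (2 * h * c) := ⟨_, rfl⟩
  have hxabs : |x| ≤ 3 * h := by
    have h1 : |k * (2 * h * c)| ≤ 2 * h * c := by
      rw [abs_mul, abs_of_pos (by positivity : (0 : ℝ) < 2 * h * c)]
      calc |k| * (2 * h * c) ≤ 1 * (2 * h * c) :=
            mul_le_mul_of_nonneg_right hk1 (by positivity)
        _ = 2 * h * c := one_mul _
    rw [hx]
    calc |2 * h ^ 2 - k * (2 * h * c)| ≤ |2 * h ^ 2| + |k * (2 * h * c)| := abs_sub _ _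
      _ ≤ 2 * h ^ 2 + 2 * h * c := by
          rw [abs_of_pos (by positivity : (0 : ℝ) < 2 * h ^ 2)]
          linarith
      _ ≤ 3 * h := by nlinarith
  have hx12 : |x| ≤ 1 / 2 := by linarith
  have hxa : 2 * ‖a‖ * |x| ≤ 1 := by
    have h1 : 2 * ‖a‖ * |x| ≤ 2 * ‖a‖ * (3 * h) :=
      mul_le_mul_of_nonneg_left hxabs (by positivity)
    have h2 : (6 * ‖a‖ + 1) * h ≤ 1 := by
      have h3 : 0 < 6 * ‖a‖ + 1 := by positivity
      calc (6 * ‖a‖ + 1) * h ≤ (6 * ‖a‖ + 1) * (1 / (6 * ‖a‖ + 1)) :=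
            mul_le_mul_of_nonneg_left hha h3.le
        _ = 1 := by field_simp
    nlinarith
  have hexp := cpow_expand502 a x hx12 hxa
  have e1 : (1 + 2 * h ^ 2 - k * (2 * h * c) : ℝ) = 1 + x := by rw [hx]; ring
  rw [polyQ_eq502 a c h k x hx, e1, ← mul_sub, norm_mul]
  have hfac : ‖((c - k * h : ℝ) : ℂ)‖ ≤ 2 := by
    rw [Complex.norm_real, Real.norm_eq_abs]
    have h1 : |k * h| ≤ h := by
      rw [abs_mul, abs_of_pos hpos]
      calc |k| * h ≤ 1 * h := mul_le_mul_of_nonneg_right hk1 hpos.le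
        _ = h := one_mul _
    calc |c - k * h| ≤ |c| + |k * h| := abs_sub _ _
      _ ≤ c + h := by rw [abs_of_pos (by linarith)]; linarith
      _ ≤ 2 := by nlinarith
  have h3 : |x| ^ 3 ≤ (3 * h) ^ 3 := pow_le_pow_left₀ (abs_nonneg _) hxabs 3
  calc ‖((c - k * h : ℝ) : ℂ)‖ *
        ‖((1 + x : ℝ) : ℂ) ^ a - (1 + a * x + (a ^ 2 - a) * (x : ℂ) ^ 2 / 2)‖
      ≤ 2 * (kA502 a * |x| ^ 3) :=
        mul_le_mul hfac hexp (norm_nonneg _) (by norm_num)
    _ ≤ 2 * (kA502 a * (3 * h) ^ 3) := by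
        have := mul_le_mul_of_nonneg_left h3 (kA_nonneg502 a)
        linarith
    _ = 54 * kA502 a * h ^ 3 := by ring

theorem continuous_integrandQ502 (hc2 : c ^ 2 = h ^ 2 + 1) (hc1 : 1 ≤ c) (hpos : 0 < h) :
    Continuous fun u : ℝ => ((c - Real.cos u * h : ℝ) : ℂ) *
      ((1 + 2 * h ^ 2 - Real.cos u * (2 * h * c) : ℝ) : ℂ) ^ a := by
  have h1 : Continuous fun u : ℝ => ((c - Real.cos u * h : ℝ) : ℂ) := by fun_prop
  have h2 : Continuous fun u : ℝ => ((1 + 2 * h ^ 2 - Real.cos u * (2 * h * c) : ℝ) : ℂ) := by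
    fun_prop
  refine h1.mul (Continuous.cpow h2 continuous_const ?_)
  intro u
  exact Complex.ofReal_mem_slitPlane.2
    (base_posQ502 c h hc2 hc1 hpos (Real.cos u) (Real.abs_cos_le_one u))

theorem remainderQ502 (hc2 : c ^ 2 = h ^ 2 + 1) (hc1 : 1 ≤ c) (hpos : 0 < h)
    (hh10 : h ≤ 1 / 10) :
    ‖(-(((c - 1 : ℝ) : ℂ) ^ 2 / 2) + 3 * a * (h : ℂ) ^ 2 * ((c - 1 : ℝ) : ℂ)
        + (a ^ 2 - a) * (h : ℂ) ^ 2 * (((c - 1 : ℝ) : ℂ) * ((c : ℂ) ^ 2 + c + 1))
        + 4 * (a ^ 2 - a) * (h : ℂ) ^ 4 * c)‖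
      ≤ (1 + 2 * ‖a‖ + 12 * ‖a ^ 2 - a‖) * h ^ 3 := by
  obtain ⟨e, he⟩ : ∃ e : ℝ, e = c - 1 := ⟨_, rfl⟩
  rw [← he]
  have he0 : 0 ≤ e := by rw [he]; linarith
  have hee : e * (e + 2) = h ^ 2 := by rw [he]; nlinarith
  have heh : e ≤ h ^ 2 / 2 := by nlinarith
  have hcle2 : c ≤ 2 := by nlinarith
  have hh3 : h ^ 4 ≤ h ^ 3 := by
    have : h ^ 4 = h ^ 3 * h := by ring
    rw [this]
    have h3 : 0 ≤ h ^ 3 := by positivity
    nlinarith
  have t1 : ‖-((e : ℂ) ^ 2 / 2)‖ ≤ h ^ 4 := by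
    rw [norm_neg, norm_div, norm_pow, Complex.norm_real, Real.norm_eq_abs, abs_of_nonneg he0]
    have : ‖(2 : ℂ)‖ = 2 := by simp
    rw [this]
    have : e ^ 2 ≤ (h ^ 2 / 2) ^ 2 := pow_le_pow_left₀ he0 heh 2
    nlinarith [sq_nonneg h]
  have t2 : ‖3 * a * (h : ℂ) ^ 2 * e‖ ≤ 2 * ‖a‖ * h ^ 4 := by
    rw [norm_mul, norm_mul, norm_mul, norm_pow, Complex.norm_real, Complex.norm_real,
      Real.norm_eq_abs, Real.norm_eq_abs, abs_of_nonneg he0, abs_of_pos hpos]
    have : ‖(3 : ℂ)‖ = 3 := by simp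
    rw [this]
    have h1 : 0 ≤ ‖a‖ * h ^ 2 := by positivity
    nlinarith [mul_le_mul_of_nonneg_left heh h1]
  have t3 : ‖(a ^ 2 - a) * (h : ℂ) ^ 2 * (e * ((c : ℂ) ^ 2 + c + 1))‖
      ≤ 4 * ‖a ^ 2 - a‖ * h ^ 4 := by
    have e1 : ((e : ℂ) * ((c : ℂ) ^ 2 + c + 1)) = ((e * (c ^ 2 + c + 1) : ℝ) : ℂ) := by
      push_cast
      ring
    rw [e1, norm_mul, norm_mul, norm_pow, Complex.norm_real, Complex.norm_real,
      Real.norm_eq_abs, Real.norm_eq_abs, abs_of_pos hpos,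
      abs_of_nonneg (by positivity : (0 : ℝ) ≤ e * (c ^ 2 + c + 1))]
    have h1 : e * (c ^ 2 + c + 1) ≤ 4 * h ^ 2 := by nlinarith
    have h2 : 0 ≤ ‖a ^ 2 - a‖ * h ^ 2 := by positivity
    nlinarith [mul_le_mul_of_nonneg_left h1 h2]
  have t4 : ‖4 * (a ^ 2 - a) * (h : ℂ) ^ 4 * c‖ ≤ 8 * ‖a ^ 2 - a‖ * h ^ 4 := by
    rw [norm_mul, norm_mul, norm_mul, norm_pow, Complex.norm_real, Complex.norm_real,
      Real.norm_eq_abs, Real.norm_eq_abs, abs_of_pos hpos, abs_of_pos (by linarith : 0 < c)]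
    have : ‖(4 : ℂ)‖ = 4 := by simp
    rw [this]
    have h2 : 0 ≤ ‖a ^ 2 - a‖ * h ^ 4 := by positivity
    nlinarith [mul_le_mul_of_nonneg_left hcle2 h2]
  have hsum : ‖(-((e : ℂ) ^ 2 / 2) + 3 * a * (h : ℂ) ^ 2 * e
          + (a ^ 2 - a) * (h : ℂ) ^ 2 * (e * ((c : ℂ) ^ 2 + c + 1))
          + 4 * (a ^ 2 - a) * (h : ℂ) ^ 4 * c)‖
      ≤ h ^ 4 + 2 * ‖a‖ * h ^ 4 + 4 * ‖a ^ 2 - a‖ * h ^ 4 + 8 * ‖a ^ 2 - a‖ * h ^ 4 := by
    refine (norm_add_le _ _).trans (add_le_add ?_ t4)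
    refine (norm_add_le _ _).trans (add_le_add ?_ t3)
    exact (norm_add_le _ _).trans (add_le_add t1 t2)
  have hk : 0 ≤ 1 + 2 * ‖a‖ + 12 * ‖a ^ 2 - a‖ := by positivity
  calc _ ≤ h ^ 4 + 2 * ‖a‖ * h ^ 4 + 4 * ‖a ^ 2 - a‖ * h ^ 4 + 8 * ‖a ^ 2 - a‖ * h ^ 4 := hsum
    _ = (1 + 2 * ‖a‖ + 12 * ‖a ^ 2 - a‖) * h ^ 4 := by ring
    _ ≤ (1 + 2 * ‖a‖ + 12 * ‖a ^ 2 - a‖) * h ^ 3 := mul_le_mul_of_nonneg_left hh3 hk

/-- The expansion, for abstract `c = cosh τ`, `h = sinh τ`. -/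
theorem sphQ_expand_abs502 (hc2 : c ^ 2 = h ^ 2 + 1) (hc1 : 1 ≤ c) (hpos : 0 < h)
    (hB : h ≤ bQ502 a) :
    ‖((1 / (2 * Real.pi) : ℝ) : ℂ) * (∫ u in (0 : ℝ)..(2 * Real.pi),
        ((c - Real.cos u * h : ℝ) : ℂ) *
          ((1 + 2 * h ^ 2 - Real.cos u * (2 * h * c) : ℝ) : ℂ) ^ a)
      - 1 - ((a + 1) ^ 2 - 1 / 2) * (h : ℂ) ^ 2‖ ≤ kQ502 a * h ^ 3 := by
  have hh10 : h ≤ 1 / 10 := hB.trans (min_le_left _ _)
  have hI1 := (continuous_integrandQ502 a c h hc2 hc1 hpos).intervalIntegrable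
    (μ := volume) 0 (2 * Real.pi)
  have hI2 : IntervalIntegrable (fun u : ℝ => polyQ502 a c h ((Real.cos u : ℝ) : ℂ)) volume 0
      (2 * Real.pi) := by
    unfold polyQ502
    exact Continuous.intervalIntegrable (by fun_prop) _ _
  have hint := intervalIntegral.norm_integral_le_of_norm_le_const
    (a := (0 : ℝ)) (b := 2 * Real.pi)
    (fun u _ => pointwiseQ502 a c h hc2 hc1 hpos hB (Real.cos u) (Real.abs_cos_le_one u))
  rw [intervalIntegral.integral_sub hI1 hI2] at hint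
  have hpoly : ∫ u in (0 : ℝ)..(2 * Real.pi), polyQ502 a c h ((Real.cos u : ℝ) : ℂ)
      = 2 * Real.pi *
          ((c : ℂ) * (1 + a * (2 * (h : ℂ) ^ 2) + (a ^ 2 - a) * (2 * (h : ℂ) ^ 2) ^ 2 / 2))
        + Real.pi * ((c : ℂ) * ((a ^ 2 - a) * (2 * (h : ℂ) * c) ^ 2 / 2)
          - (h : ℂ) * (-(a * (2 * h * c)) - (a ^ 2 - a) * (2 * (h : ℂ) ^ 2) * (2 * h * c))) := by
    unfold polyQ502
    exact integral_poly3_cos502 _ _ _ _
  rw [hpoly] at hint
  have hpi : 0 < Real.pi := Real.pi_pos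
  have habs : |2 * Real.pi - 0| = 2 * Real.pi := by
    rw [sub_zero, abs_of_pos (by positivity)]
  rw [habs] at hint
  have hcπ : ((1 / (2 * Real.pi) : ℝ) : ℂ) * (2 * (Real.pi : ℂ)) = 1 := by
    push_cast
    field_simp
  have hcπn : ‖((1 / (2 * Real.pi) : ℝ) : ℂ)‖ = 1 / (2 * Real.pi) := by
    rw [Complex.norm_real, Real.norm_eq_abs, abs_of_pos (by positivity)]
  have hc2C : (c : ℂ) ^ 2 = (h : ℂ) ^ 2 + 1 := by exact_mod_cast hc2
  have hrem := remainderQ502 a c h hc2 hc1 hpos hh10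
  generalize (∫ u in (0 : ℝ)..(2 * Real.pi),
    ((c - Real.cos u * h : ℝ) : ℂ) *
      ((1 + 2 * h ^ 2 - Real.cos u * (2 * h * c) : ℝ) : ℂ) ^ a) = I at hint ⊢
  generalize ((1 / (2 * Real.pi) : ℝ) : ℂ) = cπ at hcπ hcπn ⊢
  have hsplit : cπ * I - 1 - ((a + 1) ^ 2 - 1 / 2) * (h : ℂ) ^ 2
      = cπ * (I - (2 * Real.pi *
          ((c : ℂ) * (1 + a * (2 * (h : ℂ) ^ 2) + (a ^ 2 - a) * (2 * (h : ℂ) ^ 2) ^ 2 / 2))
        + Real.pi * ((c : ℂ) * ((a ^ 2 - a) * (2 * (h : ℂ) * c) ^ 2 / 2)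
          - (h : ℂ) * (-(a * (2 * h * c)) - (a ^ 2 - a) * (2 * (h : ℂ) ^ 2) * (2 * h * c)))))
        + (-(((c - 1 : ℝ) : ℂ) ^ 2 / 2) + 3 * a * (h : ℂ) ^ 2 * ((c - 1 : ℝ) : ℂ)
          + (a ^ 2 - a) * (h : ℂ) ^ 2 * (((c - 1 : ℝ) : ℂ) * ((c : ℂ) ^ 2 + c + 1))
          + 4 * (a ^ 2 - a) * (h : ℂ) ^ 4 * c) := by
    push_cast
    linear_combination
      ((c : ℂ) * (1 + a * (2 * (h : ℂ) ^ 2) + (a ^ 2 - a) * (2 * (h : ℂ) ^ 2) ^ 2 / 2)
        + ((c : ℂ) * ((a ^ 2 - a) * (2 * (h : ℂ) * c) ^ 2 / 2)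
          - (h : ℂ) * (-(a * (2 * h * c)) - (a ^ 2 - a) * (2 * (h : ℂ) ^ 2) * (2 * h * c)))
          / 2) * hcπ + (1 / 2 : ℂ) * hc2C
  rw [hsplit]
  have hn1 : ‖cπ * (I - (2 * Real.pi *
          ((c : ℂ) * (1 + a * (2 * (h : ℂ) ^ 2) + (a ^ 2 - a) * (2 * (h : ℂ) ^ 2) ^ 2 / 2))
        + Real.pi * ((c : ℂ) * ((a ^ 2 - a) * (2 * (h : ℂ) * c) ^ 2 / 2)
          - (h : ℂ) * (-(a * (2 * h * c)) - (a ^ 2 - a) * (2 * (h : ℂ) ^ 2) * (2 * h * c)))))‖
      ≤ 54 * kA502 a * h ^ 3 := by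
    rw [norm_mul, hcπn]
    calc 1 / (2 * Real.pi) * ‖_‖
        ≤ 1 / (2 * Real.pi) * (54 * kA502 a * h ^ 3 * (2 * Real.pi)) :=
          mul_le_mul_of_nonneg_left hint (by positivity)
      _ = 54 * kA502 a * h ^ 3 := by field_simp
  calc _ ≤ 54 * kA502 a * h ^ 3 + (1 + 2 * ‖a‖ + 12 * ‖a ^ 2 - a‖) * h ^ 3 :=
        (norm_add_le _ _).trans (add_le_add hn1 hrem)
    _ = kQ502 a * h ^ 3 := by unfold kQ502; ring

end Abs

/-- **The expansion of `q` at `τ = 0`.** -/
theorem sphQ_expand502 (a : ℂ) (τ : ℝ) (hτ : 0 < τ) (hB : Real.sinh τ ≤ bQ502 a) :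
    ‖sphQ502 a τ - 1 - ((a + 1) ^ 2 - 1 / 2) * ((Real.sinh τ : ℝ) : ℂ) ^ 2‖
      ≤ kQ502 a * Real.sinh τ ^ 3 := by
  have h := sphQ_expand_abs502 a (Real.cosh τ) (Real.sinh τ) (Real.cosh_sq τ)
    (Real.one_le_cosh τ) (Real.sinh_pos_iff.2 hτ) hB
  have h2c : Real.cosh (2 * τ) = 1 + 2 * Real.sinh τ ^ 2 := by
    rw [Real.cosh_two_mul, Real.cosh_sq τ]
    ring
  have h2s : Real.sinh (2 * τ) = 2 * Real.sinh τ * Real.cosh τ := Real.sinh_two_mul τ
  unfold sphQ502
  rw [h2c, h2s]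
  exact h

/-- Weight `±1`: if `sphR1 s (cosh t)` is real on `(0, ∞)`, then `s²` is real. -/
theorem paramQ_im502 (s : ℂ)
    (h : ∀ t : ℝ, 0 < t → (sphR1_502 s (Real.cosh t)).im = 0) : (s ^ 2).im = 0 := by
  have key : ∀ B : ℝ, 0 < B → B ≤ bQ502 (-s - 1) →
      |(s ^ 2).im| ≤ 4 * (kQ502 (-s - 1) / 4) * B := by
    intro B hB hBle
    have hτ : 0 < Real.arsinh B := Real.arsinh_pos_iff.2 hB
    have hsinh : Real.sinh (Real.arsinh B) = B := Real.sinh_arsinh B
    have hexp := sphQ_expand502 (-s - 1) (Real.arsinh B) hτ (by rw [hsinh]; exact hBle)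
    rw [hsinh, ← sphR1_eq_sphQ502 s (Real.arsinh B) hτ.le] at hexp
    have him := h (2 * Real.arsinh B) (by linarith)
    generalize sphR1_502 s (Real.cosh (2 * Real.arsinh B)) = P at hexp him
    have e : ((-s - 1 + 1) ^ 2 - 1 / 2) * ((B : ℝ) : ℂ) ^ 2
        = ((B ^ 2 : ℝ) : ℂ) * (s ^ 2 - 1 / 2) := by
      push_cast
      ring
    rw [e] at hexp
    have hDim : (P - 1 - ((B ^ 2 : ℝ) : ℂ) * (s ^ 2 - 1 / 2)).im = -(B ^ 2 * (s ^ 2).im) := by
      rw [Complex.sub_im, Complex.sub_im, Complex.im_ofReal_mul, him, Complex.one_im,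
        Complex.sub_im]
      have : ((1 : ℂ) / 2).im = 0 := by simp
      rw [this]
      ring
    have h1 := (Complex.abs_im_le_norm _).trans hexp
    rw [hDim, abs_neg, abs_mul, abs_of_pos (by positivity : (0 : ℝ) < B ^ 2)] at h1
    have hB2 : 0 < B ^ 2 := by positivity
    have h3 : |(s ^ 2).im| * B ^ 2 ≤ (4 * (kQ502 (-s - 1) / 4) * B) * B ^ 2 := by nlinarith
    exact le_of_mul_le_mul_right h3 hB2
  have h1 := small_of_forall502 |(s ^ 2).im| (kQ502 (-s - 1) / 4) (bQ502 (-s - 1))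
    (div_nonneg (kQ_nonneg502 _) (by norm_num)) (bQ_pos502 _) key
  exact abs_eq_zero.1 (le_antisymm h1 (abs_nonneg _))

end Fermat.Agent.LT.T6.Inf.H502

end

end
-- ===== PACK-END LT/T6/Inf/H502/UpQ.lean

-- ===== PACK-BEGIN LT/T7/H949/FinProjLocal.lean
section




/-!
# Row LT, tower T7, leaf T7.L2.1.P2 `FinProjC` -- local algebra (helper949)

OFF-MAIN.  Mathlib + A0 only.  The closure `𝔫 𝒪_v` of an ideal in the completion at `v` is an
`𝒪_v`-submodule of `𝒪_v`; the level group `U(𝔫)` and the group `GL₂(𝒪̂)` (trivial at infinity)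
are subgroups of `GL₂(𝔸_K)`; `U(𝔫)` has finitely many cosets in `GL₂(𝒪̂)` for `𝔫 ≠ 0`.
(The density lemma is a renamed copy of `intRange_dense187` of helper187.)
-/

set_option autoImplicit false

open IsDedekindDomain NumberField Topology
open Fermat.Agent.LT.H556.A0

noncomputable section

namespace Fermat.Agent.LT.T7.H949

variable {K : Type} [Field K] [NumberField K]

/-! ## 1. The closure of an ideal -/

/-- The map `𝓞 K → K_v`. -/
def loc949 (v : HeightOneSpectrum (𝓞 K)) : 𝓞 K →+* v.adicCompletion K :=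
  (algebraMap K (v.adicCompletion K)).comp (algebraMap (𝓞 K) K)

theorem loc949_apply (v : HeightOneSpectrum (𝓞 K)) (a : 𝓞 K) :
    loc949 v a = algebraMap K (v.adicCompletion K) (algebraMap (𝓞 K) K a) := rfl

theorem idealClosure_eq949 (𝔫 : Ideal (𝓞 K)) (v : HeightOneSpectrum (𝓞 K)) :
    idealClosure 𝔫 v = closure ((loc949 v) '' (𝔫 : Set (𝓞 K))) := rfl

theorem loc_mem_idealClosure949 (𝔫 : Ideal (𝓞 K)) (v : HeightOneSpectrum (𝓞 K)) {a : 𝓞 K}
    (ha : a ∈ 𝔫) : loc949 v a ∈ idealClosure 𝔫 v :=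
  subset_closure ⟨a, ha, rfl⟩

theorem zero_mem_idealClosure949 (𝔫 : Ideal (𝓞 K)) (v : HeightOneSpectrum (𝓞 K)) :
    (0 : v.adicCompletion K) ∈ idealClosure 𝔫 v := by
  have := loc_mem_idealClosure949 𝔫 v (zero_mem 𝔫)
  rwa [map_zero] at this

theorem add_mem_idealClosure949 (𝔫 : Ideal (𝓞 K)) (v : HeightOneSpectrum (𝓞 K))
    {x y : v.adicCompletion K} (hx : x ∈ idealClosure 𝔫 v) (hy : y ∈ idealClosure 𝔫 v) :
    x + y ∈ idealClosure 𝔫 v := by
  refine map_mem_closure₂ (f := fun a b : v.adicCompletion K => a + b) continuous_add hx hy ?_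
  rintro _ ⟨a, ha, rfl⟩ _ ⟨b, hb, rfl⟩
  exact ⟨a + b, 𝔫.add_mem ha hb, map_add (loc949 v) a b⟩

theorem neg_mem_idealClosure949 (𝔫 : Ideal (𝓞 K)) (v : HeightOneSpectrum (𝓞 K))
    {x : v.adicCompletion K} (hx : x ∈ idealClosure 𝔫 v) : -x ∈ idealClosure 𝔫 v := by
  refine map_mem_closure (f := fun a : v.adicCompletion K => -a) continuous_neg hx ?_
  rintro _ ⟨a, ha, rfl⟩
  exact ⟨-a, 𝔫.neg_mem ha, map_neg (loc949 v) a⟩

theorem sub_mem_idealClosure949 (𝔫 : Ideal (𝓞 K)) (v : HeightOneSpectrum (𝓞 K))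
    {x y : v.adicCompletion K} (hx : x ∈ idealClosure 𝔫 v) (hy : y ∈ idealClosure 𝔫 v) :
    x - y ∈ idealClosure 𝔫 v := by
  rw [sub_eq_add_neg]
  exact add_mem_idealClosure949 𝔫 v hx (neg_mem_idealClosure949 𝔫 v hy)

/-- `𝓞 K` is dense in `𝒪_v` (copy of `intRange_dense187`, helper187). -/
theorem intRange_dense949 (v : HeightOneSpectrum (𝓞 K)) {y : v.adicCompletion K}
    (hy : Valued.v y ≤ 1) :
    y ∈ closure (Set.range (loc949 v)) := by
  rw [mem_closure_iff_nhds]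
  intro t ht
  obtain ⟨γ, hγ⟩ := Valued.mem_nhds.1 ht
  have hne : MonoidWithZeroHom.ValueGroup₀.embedding γ.1 ≠ 0 := by
    intro h0
    simp at h0
  have hB : {z : v.adicCompletion K | Valued.v.restrict (z - y) < γ.1} ∈ 𝓝 y :=
    Valued.mem_nhds.2 ⟨γ, subset_rfl⟩
  have hO : ((v.adicCompletionIntegers K : Set (v.adicCompletion K))) ∈ 𝓝 y :=
    (Valued.isOpen_valuationSubring _).mem_nhds hy
  obtain ⟨z, ⟨hz1, hz2⟩, k, rfl⟩ :=
    mem_closure_iff_nhds.1 ((HeightOneSpectrum.denseRange_algebraMap K v) y) _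
      (Filter.inter_mem hB hO)
  have hk1 : v.valuation K k ≤ 1 := by
    rw [← HeightOneSpectrum.valuedAdicCompletion_eq_valuation']
    exact hz2
  have hk2 : Valued.v (algebraMap K (v.adicCompletion K) k - y)
      < MonoidWithZeroHom.ValueGroup₀.embedding γ.1 :=
    (Valuation.restrict_lt_iff_lt_embedding _).1 hz1
  obtain ⟨a, ha⟩ := v.exists_valuation_sub_lt_of_integer hk1 (Units.mk0 _ hne)
  refine ⟨algebraMap K (v.adicCompletion K) (algebraMap (𝓞 K) K a), hγ ?_, ⟨a, rfl⟩⟩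
  show Valued.v.restrict (algebraMap K (v.adicCompletion K) (algebraMap (𝓞 K) K a) - y) < γ.1
  rw [Valuation.restrict_lt_iff_lt_embedding]
  have e : algebraMap K (v.adicCompletion K) (algebraMap (𝓞 K) K a) - y
      = algebraMap K (v.adicCompletion K) (algebraMap (𝓞 K) K a - k)
        + (algebraMap K (v.adicCompletion K) k - y) := by
    rw [map_sub]; ring
  rw [e]
  refine lt_of_le_of_lt (Valuation.map_add _ _ _) (max_lt ?_ hk2)
  have := HeightOneSpectrum.valuedAdicCompletion_eq_valuation' v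
    (algebraMap (𝓞 K) K a - k)
  rw [Units.val_mk0] at ha
  exact this ▸ ha

/-- `𝒪_v · 𝔫 𝒪_v ⊆ 𝔫 𝒪_v`. -/
theorem mul_mem_idealClosure949 (𝔫 : Ideal (𝓞 K)) (v : HeightOneSpectrum (𝓞 K))
    {y x : v.adicCompletion K} (hy : Valued.v y ≤ 1) (hx : x ∈ idealClosure 𝔫 v) :
    y * x ∈ idealClosure 𝔫 v := by
  refine map_mem_closure₂ (f := fun a b : v.adicCompletion K => a * b) continuous_mul
    (intRange_dense949 v hy) hx ?_
  rintro _ ⟨a, rfl⟩ _ ⟨b, hb, rfl⟩
  exact ⟨a * b, 𝔫.mul_mem_left a hb, map_mul (loc949 v) a b⟩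

theorem mul_mem_idealClosure_right949 (𝔫 : Ideal (𝓞 K)) (v : HeightOneSpectrum (𝓞 K))
    {y x : v.adicCompletion K} (hx : x ∈ idealClosure 𝔫 v) (hy : Valued.v y ≤ 1) :
    x * y ∈ idealClosure 𝔫 v := by
  rw [mul_comm]
  exact mul_mem_idealClosure949 𝔫 v hy hx

/-- `𝔫 𝒪_v ⊆ 𝒪_v`. -/
theorem idealClosure_le_one949 (𝔫 : Ideal (𝓞 K)) (v : HeightOneSpectrum (𝓞 K))
    {x : v.adicCompletion K} (hx : x ∈ idealClosure 𝔫 v) : Valued.v x ≤ 1 := by
  have hcl : IsClosed ((v.adicCompletionIntegers K : Set (v.adicCompletion K))) :=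
    Valued.isClosed_valuationSubring _
  have hsub : (loc949 v) '' (𝔫 : Set (𝓞 K))
      ⊆ (v.adicCompletionIntegers K : Set (v.adicCompletion K)) := by
    rintro _ ⟨a, -, rfl⟩
    exact HeightOneSpectrum.coe_mem_adicCompletionIntegers v a
  exact closure_minimal hsub hcl hx

/-- At a place which does not divide `𝔫`: `𝔫 𝒪_v = 𝒪_v`. -/
theorem mem_idealClosure_of_not_dvd949 (𝔫 : Ideal (𝓞 K)) (v : HeightOneSpectrum (𝓞 K))
    (hv : ¬ v.asIdeal ∣ 𝔫) {x : v.adicCompletion K} (hx : Valued.v x ≤ 1) :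
    x ∈ idealClosure 𝔫 v := by
  have h1 : ¬ 𝔫 ≤ v.asIdeal := fun h => hv (Ideal.dvd_iff_le.2 h)
  obtain ⟨d, hd, hdv⟩ := Set.not_subset.1 h1
  have hval : Valued.v (loc949 v d) = 1 := by
    have e0 : Valued.v (loc949 v d) = v.valuation K (algebraMap (𝓞 K) K d) :=
      HeightOneSpectrum.valuedAdicCompletion_eq_valuation' v (algebraMap (𝓞 K) K d)
    rw [e0]
    exact (HeightOneSpectrum.valuation_eq_one_iff_notMem (K := K) (v := v)).2 hdv
  have hne : loc949 v d ≠ 0 := by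
    intro h0
    rw [h0, map_zero] at hval
    exact zero_ne_one hval
  have e : x = (x * (loc949 v d)⁻¹) * loc949 v d := by
    rw [mul_assoc, inv_mul_cancel₀ hne, mul_one]
  rw [e]
  refine mul_mem_idealClosure949 𝔫 v ?_ (loc_mem_idealClosure949 𝔫 v hd)
  rw [map_mul, map_inv₀, hval, inv_one, mul_one]
  exact hx

/-- Approximation: every element of `𝒪_v` is congruent to a global integer modulo `𝔫 𝒪_v`. -/
theorem exists_approx949 (𝔫 : Ideal (𝓞 K)) (h𝔫 : 𝔫 ≠ ⊥) (v : HeightOneSpectrum (𝓞 K))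
    {y : v.adicCompletion K} (hy : Valued.v y ≤ 1) :
    ∃ a : 𝓞 K, y - loc949 v a ∈ idealClosure 𝔫 v := by
  obtain ⟨d, hd, hd0⟩ := Submodule.exists_mem_ne_zero_of_ne_bot h𝔫
  have hdK : loc949 v d ≠ 0 := by
    intro h
    apply hd0
    have h1 : (algebraMap (𝓞 K) K d) = 0 := by
      have := (algebraMap K (v.adicCompletion K)).injective (a₁ := algebraMap (𝓞 K) K d)
        (a₂ := 0) (by rw [map_zero]; exact h)
      exact this
    exact (FaithfulSMul.algebraMap_injective (𝓞 K) K) (by rw [h1, map_zero])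
  -- the open set `y + d 𝒪_v`
  have hcont : Continuous (fun z : v.adicCompletion K => (loc949 v d)⁻¹ * (y - z)) :=
    continuous_const.mul (continuous_const.sub continuous_id)
  have hopen : IsOpen ((fun z : v.adicCompletion K => (loc949 v d)⁻¹ * (y - z)) ⁻¹'
      (v.adicCompletionIntegers K : Set (v.adicCompletion K))) :=
    (Valued.isOpen_valuationSubring _).preimage hcont
  have hmem : y ∈ ((fun z : v.adicCompletion K => (loc949 v d)⁻¹ * (y - z)) ⁻¹'
      (v.adicCompletionIntegers K : Set (v.adicCompletion K))) := by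
    show (loc949 v d)⁻¹ * (y - y) ∈ (v.adicCompletionIntegers K : Set (v.adicCompletion K))
    rw [sub_self, mul_zero]
    exact zero_mem _
  obtain ⟨z, hz, a, rfl⟩ := mem_closure_iff_nhds.1 (intRange_dense949 v hy) _
    (hopen.mem_nhds hmem)
  refine ⟨a, ?_⟩
  have e : y - loc949 v a = ((loc949 v d)⁻¹ * (y - loc949 v a)) * loc949 v d := by
    rw [mul_comm, ← mul_assoc, mul_inv_cancel₀ hdK, one_mul]
  rw [e]
  exact mul_mem_idealClosure949 𝔫 v hz (loc_mem_idealClosure949 𝔫 v hd)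

/-! ## 2. Components of products -/

/-- The component at the infinite place `w`, in the completion. -/
def infHomC949 (w : InfinitePlace K) : Adl K →+* w.Completion :=
  (Pi.evalRingHom (fun v : InfinitePlace K => v.Completion) w).comp
    (RingHom.fst (InfiniteAdeleRing K) (FiniteAdeleRing (𝓞 K) K))

/-- The matrix of `g` at the infinite place `w`, in the completion. -/
def infMat949 (w : InfinitePlace K) (g : G K) : Matrix (Fin 2) (Fin 2) w.Completion :=
  (g : Matrix (Fin 2) (Fin 2) (Adl K)).map (infHomC949 w)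

theorem trivAtInf_iff949 (w : InfinitePlace K) (g : G K) :
    TrivAtInf w g ↔ infMat949 w g = 1 := by
  constructor
  · intro h
    exact Matrix.ext fun i j => h i j
  · intro h i j
    exact congrFun (congrFun h i) j

theorem infMat_mul949 (w : InfinitePlace K) (g h : G K) :
    infMat949 w (g * h) = infMat949 w g * infMat949 w h := by
  unfold infMat949
  rw [Units.val_mul, Matrix.map_mul]

theorem infMat_one949 (w : InfinitePlace K) : infMat949 w (1 : G K) = 1 := by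
  unfold infMat949
  rw [Units.val_one, Matrix.map_one _ (map_zero _) (map_one _)]

theorem finComp_mul949 (v : HeightOneSpectrum (𝓞 K)) (g h : G K) :
    finComp v (g * h) = finComp v g * finComp v h := by
  rw [T5.finComp_eq_map, T5.finComp_eq_map, T5.finComp_eq_map, Units.val_mul, Matrix.map_mul]

theorem finComp_one949 (v : HeightOneSpectrum (𝓞 K)) : finComp v (1 : G K) = 1 := by
  rw [T5.finComp_eq_map, Units.val_one, Matrix.map_one _ (map_zero _) (map_one _)]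

theorem finComp_inv_mul949 (v : HeightOneSpectrum (𝓞 K)) (g : G K) :
    finComp v g⁻¹ * finComp v g = 1 := by
  rw [← finComp_mul949, inv_mul_cancel, finComp_one949]

theorem finComp_mul_inv949 (v : HeightOneSpectrum (𝓞 K)) (g : G K) :
    finComp v g * finComp v g⁻¹ = 1 := by
  rw [← finComp_mul949, mul_inv_cancel, finComp_one949]

theorem trivAtInf_mul949 {w : InfinitePlace K} {g h : G K} (hg : TrivAtInf w g)
    (hh : TrivAtInf w h) : TrivAtInf w (g * h) := by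
  rw [trivAtInf_iff949] at hg hh ⊢
  rw [infMat_mul949, hg, hh, one_mul]

theorem trivAtInf_one949 (w : InfinitePlace K) : TrivAtInf w (1 : G K) :=
  (trivAtInf_iff949 w 1).2 (infMat_one949 w)

theorem trivAtInf_inv949 {w : InfinitePlace K} {g : G K} (hg : TrivAtInf w g) :
    TrivAtInf w g⁻¹ := by
  rw [trivAtInf_iff949] at hg ⊢
  have h : infMat949 w g⁻¹ * infMat949 w g = 1 := by
    rw [← infMat_mul949, inv_mul_cancel, infMat_one949]
  rwa [hg, mul_one] at h

theorem trivAtFin_inv949 {v : HeightOneSpectrum (𝓞 K)} {g : G K} (hg : TrivAtFin v g) :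
    TrivAtFin v g⁻¹ := by
  unfold TrivAtFin at hg ⊢
  have h := finComp_inv_mul949 v g
  rwa [hg, mul_one] at h

theorem isIntegralAt_one949 (v : HeightOneSpectrum (𝓞 K)) : IsIntegralAt v (1 : G K) := by
  intro i j
  rw [finComp_one949]
  by_cases h : i = j
  · subst h
    rw [Matrix.one_apply_eq]
    exact one_mem _
  · rw [Matrix.one_apply_ne h]
    exact zero_mem _

theorem isIntegralAt_mul949 {v : HeightOneSpectrum (𝓞 K)} {g h : G K}
    (hg : IsIntegralAt v g) (hh : IsIntegralAt v h) : IsIntegralAt v (g * h) := by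
  intro i j
  rw [finComp_mul949, Matrix.mul_apply]
  exact sum_mem fun k _ => mul_mem (hg i k) (hh k j)

theorem isIntegralAt_of_trivAtFin949 {v : HeightOneSpectrum (𝓞 K)} {g : G K}
    (hg : TrivAtFin v g) : IsIntegralAt v g := by
  intro i j
  have h := isIntegralAt_one949 v i j
  rw [finComp_one949] at h
  unfold TrivAtFin at hg
  rwa [hg]

/-! ## 3. The groups -/

/-- `GL₂(𝒪̂)`, trivial at the infinite places. -/
def K0949 (K : Type) [Field K] [NumberField K] : Subgroup (G K) where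
  carrier := {g | (∀ w : InfinitePlace K, TrivAtInf w g) ∧
    ∀ v : HeightOneSpectrum (𝓞 K), IsIntegralAt v g ∧ IsIntegralAt v g⁻¹}
  mul_mem' := by
    rintro g h ⟨hg1, hg2⟩ ⟨hh1, hh2⟩
    refine ⟨fun w => trivAtInf_mul949 (hg1 w) (hh1 w), fun v => ⟨?_, ?_⟩⟩
    · exact isIntegralAt_mul949 (hg2 v).1 (hh2 v).1
    · rw [mul_inv_rev]
      exact isIntegralAt_mul949 (hh2 v).2 (hg2 v).2
  one_mem' := by
    refine ⟨fun w => trivAtInf_one949 w, fun v => ⟨isIntegralAt_one949 v, ?_⟩⟩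
    rw [inv_one]
    exact isIntegralAt_one949 v
  inv_mem' := by
    rintro g ⟨hg1, hg2⟩
    refine ⟨fun w => trivAtInf_inv949 (hg1 w), fun v => ⟨(hg2 v).2, ?_⟩⟩
    rw [inv_inv]
    exact (hg2 v).1

theorem mem_K0949 {g : G K} : g ∈ K0949 K ↔ (∀ w : InfinitePlace K, TrivAtInf w g) ∧
    ∀ v : HeightOneSpectrum (𝓞 K), IsIntegralAt v g ∧ IsIntegralAt v g⁻¹ := Iff.rfl

/-- The entries of a matrix congruent to `1` modulo `𝔫 𝒪_v` are integral. -/
theorem integral_of_sub_one949 (𝔫 : Ideal (𝓞 K)) (v : HeightOneSpectrum (𝓞 K))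
    {A : Matrix (Fin 2) (Fin 2) (v.adicCompletion K)}
    (hA : ∀ i j, (A - 1) i j ∈ idealClosure 𝔫 v) (i j : Fin 2) : Valued.v (A i j) ≤ 1 := by
  have e : A i j = (A - 1) i j + (1 : Matrix (Fin 2) (Fin 2) (v.adicCompletion K)) i j := by
    rw [Matrix.sub_apply, sub_add_cancel]
  rw [e]
  have h1 : Valued.v ((1 : Matrix (Fin 2) (Fin 2) (v.adicCompletion K)) i j) ≤ 1 := by
    by_cases h : i = j
    · subst h
      rw [Matrix.one_apply_eq, map_one]
    · rw [Matrix.one_apply_ne h, map_zero]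
      exact zero_le_one
  exact (Valuation.map_add _ _ _).trans (max_le (idealClosure_le_one949 𝔫 v (hA i j)) h1)

/-- Products of matrices congruent to `1` modulo `𝔫 𝒪_v`. -/
theorem mul_sub_one949 (𝔫 : Ideal (𝓞 K)) (v : HeightOneSpectrum (𝓞 K))
    {A B : Matrix (Fin 2) (Fin 2) (v.adicCompletion K)}
    (hA : ∀ i j, (A - 1) i j ∈ idealClosure 𝔫 v) (hB : ∀ i j, (B - 1) i j ∈ idealClosure 𝔫 v)
    (i j : Fin 2) : (A * B - 1) i j ∈ idealClosure 𝔫 v := by
  have e : A * B - 1 = A * (B - 1) + (A - 1) := by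
    rw [mul_sub, mul_one]
    abel
  rw [e, Matrix.add_apply, Matrix.mul_apply, Fin.sum_univ_two]
  refine add_mem_idealClosure949 𝔫 v (add_mem_idealClosure949 𝔫 v ?_ ?_) (hA i j)
  · exact mul_mem_idealClosure949 𝔫 v (integral_of_sub_one949 𝔫 v hA i 0) (hB 0 j)
  · exact mul_mem_idealClosure949 𝔫 v (integral_of_sub_one949 𝔫 v hA i 1) (hB 1 j)

/-- The level group `U(𝔫)` as a subgroup. -/
def U949 (𝔫 : Ideal (𝓞 K)) : Subgroup (G K) where
  carrier := {u | InLevelGroup 𝔫 u}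
  mul_mem' := by
    rintro g h ⟨hg1, hg2⟩ ⟨hh1, hh2⟩
    refine ⟨fun w => trivAtInf_mul949 (hg1 w) (hh1 w), fun v i j => ⟨?_, ?_⟩⟩
    · rw [finComp_mul949]
      exact mul_sub_one949 𝔫 v (fun i j => (hg2 v i j).1) (fun i j => (hh2 v i j).1) i j
    · rw [mul_inv_rev, finComp_mul949]
      exact mul_sub_one949 𝔫 v (fun i j => (hh2 v i j).2) (fun i j => (hg2 v i j).2) i j
  one_mem' := by
    refine ⟨fun w => trivAtInf_one949 w, fun v i j => ?_⟩
    rw [inv_one, finComp_one949, sub_self]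
    exact ⟨zero_mem_idealClosure949 𝔫 v, zero_mem_idealClosure949 𝔫 v⟩
  inv_mem' := by
    rintro g ⟨hg1, hg2⟩
    refine ⟨fun w => trivAtInf_inv949 (hg1 w), fun v i j => ⟨(hg2 v i j).2, ?_⟩⟩
    rw [inv_inv]
    exact (hg2 v i j).1

theorem mem_U949 {𝔫 : Ideal (𝓞 K)} {u : G K} : u ∈ U949 𝔫 ↔ InLevelGroup 𝔫 u := Iff.rfl

theorem U_le_K0949 (𝔫 : Ideal (𝓞 K)) : U949 𝔫 ≤ K0949 K := by
  rintro u ⟨hu1, hu2⟩
  refine ⟨hu1, fun v => ⟨fun i j => ?_, fun i j => ?_⟩⟩
  · exact integral_of_sub_one949 𝔫 v (fun i j => (hu2 v i j).1) i j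
  · exact integral_of_sub_one949 𝔫 v (fun i j => (hu2 v i j).2) i j

/-- The Iwahori elements along `o 0, …, o (l-1)` (the elements of `T7.IsIwInv`). -/
def iwSet949 (l : ℕ) (o : ℕ → HeightOneSpectrum (𝓞 K)) : Set (G K) :=
  {h | (∀ w : InfinitePlace K, TrivAtInf w h) ∧
    (∀ v : HeightOneSpectrum (𝓞 K), (∀ j < l, v ≠ o j) → TrivAtFin v h) ∧
    ∀ j < l, T5.InIwahori (o j) h}

theorem iwSet_le_K0949 (l : ℕ) (o : ℕ → HeightOneSpectrum (𝓞 K)) :
    iwSet949 l o ⊆ (K0949 K : Set (G K)) := by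
  rintro h ⟨h1, h2, h3⟩
  refine ⟨h1, fun v => ?_⟩
  by_cases hv : ∃ j < l, v = o j
  · obtain ⟨j, hj, rfl⟩ := hv
    exact ⟨(h3 j hj).1, (h3 j hj).2.1⟩
  · have hv' : ∀ j < l, v ≠ o j := fun j hj hvj => hv ⟨j, hj, hvj⟩
    exact ⟨isIntegralAt_of_trivAtFin949 (h2 v hv'),
      isIntegralAt_of_trivAtFin949 (trivAtFin_inv949 (h2 v hv'))⟩

/-- The group `𝒦 = ⟨U(𝔑₀), I_o⟩`. -/
def KK949 (𝔑₀ : Ideal (𝓞 K)) (l : ℕ) (o : ℕ → HeightOneSpectrum (𝓞 K)) : Subgroup (G K) :=
  U949 𝔑₀ ⊔ Subgroup.closure (iwSet949 l o)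

theorem KK_le_K0949 (𝔑₀ : Ideal (𝓞 K)) (l : ℕ) (o : ℕ → HeightOneSpectrum (𝓞 K)) :
    KK949 𝔑₀ l o ≤ K0949 K :=
  sup_le (U_le_K0949 𝔑₀) ((Subgroup.closure_le _).2 (iwSet_le_K0949 l o))

/-! ## 4. Finiteness of the index -/

/-- A subgroup has finitely many cosets as soon as a map to a finite set separates them. -/
theorem finite_quot_of_map949 {Γ : Type*} [Group Γ] (H : Subgroup Γ) {T : Type*} [Finite T]
    (F : Γ → T) (hF : ∀ a b : Γ, F a = F b → a⁻¹ * b ∈ H) : Finite (Γ ⧸ H) := by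
  classical
  let Gm : T → Γ ⧸ H := fun t =>
    if h : ∃ a, F a = t then (QuotientGroup.mk (Classical.choose h)) else QuotientGroup.mk 1
  refine Finite.of_surjective Gm ?_
  intro q
  obtain ⟨a, rfl⟩ := QuotientGroup.mk_surjective q
  refine ⟨F a, ?_⟩
  have h : ∃ b, F b = F a := ⟨a, rfl⟩
  simp only [Gm, dif_pos h]
  exact QuotientGroup.eq.2 (hF _ _ (Classical.choose_spec h))

open Classical in
/-- The residue of an entry modulo `𝔫`. -/
def resid949 (𝔫 : Ideal (𝓞 K)) (h𝔫 : 𝔫 ≠ ⊥) (v : HeightOneSpectrum (𝓞 K))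
    (y : v.adicCompletion K) : 𝓞 K ⧸ 𝔫 :=
  if h : Valued.v y ≤ 1 then Ideal.Quotient.mk 𝔫 (Classical.choose (exists_approx949 𝔫 h𝔫 v h))
  else 0

theorem sub_mem_of_resid_eq949 (𝔫 : Ideal (𝓞 K)) (h𝔫 : 𝔫 ≠ ⊥) (v : HeightOneSpectrum (𝓞 K))
    {y y' : v.adicCompletion K} (hy : Valued.v y ≤ 1) (hy' : Valued.v y' ≤ 1)
    (h : resid949 𝔫 h𝔫 v y = resid949 𝔫 h𝔫 v y') : y - y' ∈ idealClosure 𝔫 v := by
  unfold resid949 at h
  rw [dif_pos hy, dif_pos hy'] at h
  have h1 := Classical.choose_spec (exists_approx949 𝔫 h𝔫 v hy)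
  have h2 := Classical.choose_spec (exists_approx949 𝔫 h𝔫 v hy')
  set a := Classical.choose (exists_approx949 𝔫 h𝔫 v hy)
  set a' := Classical.choose (exists_approx949 𝔫 h𝔫 v hy')
  have h3 : a - a' ∈ 𝔫 := (Ideal.Quotient.eq).1 h
  have h4 := loc_mem_idealClosure949 𝔫 v h3
  rw [map_sub] at h4
  have e : y - y' = (y - loc949 v a) + (loc949 v a - loc949 v a') - (y' - loc949 v a') := by
    ring
  rw [e]
  exact sub_mem_idealClosure949 𝔫 v (add_mem_idealClosure949 𝔫 v h1 h4) h2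

/-- The residues of the entries of `g` at the places dividing `𝔫`. -/
def residMat949 (𝔫 : Ideal (𝓞 K)) (h𝔫 : 𝔫 ≠ ⊥) (g : G K) :
    {v : HeightOneSpectrum (𝓞 K) // v.asIdeal ∣ 𝔫} → Fin 2 → Fin 2 → 𝓞 K ⧸ 𝔫 :=
  fun v i j => resid949 𝔫 h𝔫 v.1 (finComp v.1 g i j)

theorem finite_target949 (𝔫 : Ideal (𝓞 K)) (h𝔫 : 𝔫 ≠ ⊥) :
    Finite ({v : HeightOneSpectrum (𝓞 K) // v.asIdeal ∣ 𝔫} → Fin 2 → Fin 2 → 𝓞 K ⧸ 𝔫) := by
  have : Finite (𝓞 K ⧸ 𝔫) := Ideal.finiteQuotientOfFreeOfNeBot 𝔫 h𝔫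
  have : Finite {v : HeightOneSpectrum (𝓞 K) // v.asIdeal ∣ 𝔫} :=
    (Ideal.finite_factors h𝔫).to_subtype
  infer_instance

/-- Matrices with the same residues at the places dividing `𝔫`. -/
theorem inv_mul_sub_one949 (𝔫 : Ideal (𝓞 K)) (v : HeightOneSpectrum (𝓞 K))
    {A Ai B : Matrix (Fin 2) (Fin 2) (v.adicCompletion K)} (hAi : Ai * A = 1)
    (hint : ∀ i j, Valued.v (Ai i j) ≤ 1)
    (hd : ∀ i j, B i j - A i j ∈ idealClosure 𝔫 v) (i j : Fin 2) :
    (Ai * B - 1) i j ∈ idealClosure 𝔫 v := by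
  have e : Ai * B - 1 = Ai * (B - A) := by
    rw [mul_sub, hAi]
  rw [e, Matrix.mul_apply, Fin.sum_univ_two]
  refine add_mem_idealClosure949 𝔫 v ?_ ?_
  · exact mul_mem_idealClosure949 𝔫 v (hint i 0) (by rw [Matrix.sub_apply]; exact hd 0 j)
  · exact mul_mem_idealClosure949 𝔫 v (hint i 1) (by rw [Matrix.sub_apply]; exact hd 1 j)

theorem inv_mul_mem_U949 (𝔫 : Ideal (𝓞 K)) (h𝔫 : 𝔫 ≠ ⊥) {g g' : G K} (hg : g ∈ K0949 K)
    (hg' : g' ∈ K0949 K) (h : residMat949 𝔫 h𝔫 g = residMat949 𝔫 h𝔫 g') :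
    g⁻¹ * g' ∈ U949 𝔫 := by
  have hK := (K0949 K).mul_mem ((K0949 K).inv_mem hg) hg'
  have hK' := (K0949 K).inv_mem hK
  refine ⟨hK.1, fun v i j => ?_⟩
  by_cases hv : v.asIdeal ∣ 𝔫
  · have hd : ∀ i j, finComp v g' i j - finComp v g i j ∈ idealClosure 𝔫 v := fun i j =>
      sub_mem_of_resid_eq949 𝔫 h𝔫 v ((hg'.2 v).1 i j) ((hg.2 v).1 i j)
        (congrFun (congrFun (congrFun h ⟨v, hv⟩) i) j).symm
    have hd' : ∀ i j, finComp v g i j - finComp v g' i j ∈ idealClosure 𝔫 v := fun i j =>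
      sub_mem_of_resid_eq949 𝔫 h𝔫 v ((hg.2 v).1 i j) ((hg'.2 v).1 i j)
        (congrFun (congrFun (congrFun h ⟨v, hv⟩) i) j)
    constructor
    · rw [finComp_mul949]
      exact inv_mul_sub_one949 𝔫 v (finComp_inv_mul949 v g) (hg.2 v).2 hd i j
    · rw [mul_inv_rev, inv_inv, finComp_mul949]
      exact inv_mul_sub_one949 𝔫 v (finComp_inv_mul949 v g') (hg'.2 v).2 hd' i j
  · constructor
    · refine mem_idealClosure_of_not_dvd949 𝔫 v hv ?_
      rw [Matrix.sub_apply]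
      refine (Valuation.map_sub _ _ _).trans (max_le ((hK.2 v).1 i j) ?_)
      have := isIntegralAt_one949 v i j
      rwa [finComp_one949] at this
    · refine mem_idealClosure_of_not_dvd949 𝔫 v hv ?_
      rw [Matrix.sub_apply]
      refine (Valuation.map_sub _ _ _).trans (max_le ((hK.2 v).2 i j) ?_)
      have := isIntegralAt_one949 v i j
      rwa [finComp_one949] at this

/-- **Finiteness of the index**: `U(𝔫)` has finitely many cosets in every subgroup of
`GL₂(𝒪̂)`. -/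
theorem finite_quot949 (𝔫 : Ideal (𝓞 K)) (h𝔫 : 𝔫 ≠ ⊥) (𝒦 : Subgroup (G K))
    (h𝒦 : 𝒦 ≤ K0949 K) : Finite (𝒦 ⧸ (U949 𝔫).subgroupOf 𝒦) := by
  have := finite_target949 𝔫 h𝔫
  refine finite_quot_of_map949 _ (fun k : 𝒦 => residMat949 𝔫 h𝔫 (k : G K)) ?_
  intro a b hab
  rw [Subgroup.mem_subgroupOf]
  exact inv_mul_mem_U949 𝔫 h𝔫 (h𝒦 a.2) (h𝒦 b.2) hab

end Fermat.Agent.LT.T7.H949

end

end
-- ===== PACK-END LT/T7/H949/FinProjLocal.lean

-- ===== PACK-BEGIN LT/T7/H159/RestrGL.lean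
section







/-!
# Row LT, tower T7, field `matched`, core node CutIntC305 -- ASSET "RESTR-GL" (helper159)

OFF-MAIN.  No hole, nothing assumed.  ADDITIVE (suffix `159`).

`GL₂(𝔸_K)` IS THE RESTRICTED PRODUCT of the groups `GL₂(ℂ)` (infinite places, `K` totally
complex) and `GL₂(K_v)` (finite places) with respect to the subgroups `GL₂(𝒪_v)`, in the
abstract sense `IsRestrProd159` of `HaarSplit.lean`; so the Haar measure of `GL₂(𝔸_K)` splits
(`integral_restr159`, `integral_restr_prod159`).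

* `isRestrProd_GL159 : TotCplx → IsRestrProd159 (locProj159 K) (locK159 K) (baseSet159 K T₀)`
  (continuity of the components, `GL₂(𝒪_v)` open, `E_S` open (`isOpen_restrSub159`),
  surjectivity (`surj_restr159`, `mkGL159` = the adelic matrix with given components),
  properness (`proper_restr159`, `isCompact_GLBox159`, `isCompact_finBox159`)).
* **`haarSplit_GL159`**: `μ` Haar on `GL₂(𝔸_K)`, `μI w` Haar on `GL₂(ℂ)`, `μF v` Haar on
  `GL₂(K_v)` with `μF v (GL₂(𝒪_v)) = 1` for `v ∉ T₀`: there is ONE `c > 0` such that for every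
  finite `T ⊇ T₀` and all measurable `FF v`, `FI w`

      ∫_{E_T} ∏_{v ∈ T} FF_v(g_v) ∏_w FI_w(g_w) dμ(g) = c ∏_{v ∈ T} ∫ FF_v dμF_v ∏_w ∫ FI_w dμI_w

  with `E_T = {g : ∀ v ∉ T, IsIntegralAt v g ∧ IsIntegralAt v g⁻¹}` (`OutT305 T`), components
  `GL.map (T5.finHom v)`, `GL.map (T5.infHom w)` (`finGL305`, `infGL305`); all measures and
  measurability with respect to `borel _`.
* For functions of several places at once (the places over `v` upstairs): `integral_restr159`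
  with `isRestrProd_GL159` (any a.e. strongly measurable `F` on `∏_{i ∈ S} LocGL159 K i`).

Imports: `H11/LC.lean`, `H11/SC.lean` (helper11, byte-identical copies of the master closure),
`T5/Spec` v4, A0.
-/

set_option autoImplicit false

open IsDedekindDomain NumberField MeasureTheory
open scoped RestrictedProduct

noncomputable section

namespace Fermat.Agent.LT.T7.H159

open Fermat.Agent.LT.H556.A0 Fermat.Agent.LT

variable (K : Type) [Field K] [NumberField K]

/-- The places of `K`: infinite and finite. -/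
abbrev Pl159 : Type := InfinitePlace K ⊕ HeightOneSpectrum (𝓞 K)

/-- The local groups: `GL₂(ℂ)` at the infinite places, `GL₂(K_v)` at the finite places. -/
def LocGL159 : Pl159 K → Type
  | Sum.inl _ => GL (Fin 2) ℂ
  | Sum.inr v => GL (Fin 2) (v.adicCompletion K)

instance instGroupLocGL159 : ∀ i : Pl159 K, Group (LocGL159 K i)
  | Sum.inl _ => inferInstanceAs (Group (GL (Fin 2) ℂ))
  | Sum.inr v => inferInstanceAs (Group (GL (Fin 2) (v.adicCompletion K)))

instance instTopLocGL159 : ∀ i : Pl159 K, TopologicalSpace (LocGL159 K i)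
  | Sum.inl _ => inferInstanceAs (TopologicalSpace (GL (Fin 2) ℂ))
  | Sum.inr v => inferInstanceAs (TopologicalSpace (GL (Fin 2) (v.adicCompletion K)))

instance instTopGroupLocGL159 : ∀ i : Pl159 K, IsTopologicalGroup (LocGL159 K i)
  | Sum.inl _ => inferInstanceAs (IsTopologicalGroup (GL (Fin 2) ℂ))
  | Sum.inr v => inferInstanceAs (IsTopologicalGroup (GL (Fin 2) (v.adicCompletion K)))

instance instMeasLocGL159 : ∀ i : Pl159 K, MeasurableSpace (LocGL159 K i) :=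
  fun i => borel (LocGL159 K i)

instance instBorelLocGL159 : ∀ i : Pl159 K, BorelSpace (LocGL159 K i) :=
  fun _ => ⟨rfl⟩

theorem locallyCompactSpace_GLC159 : LocallyCompactSpace (GL (Fin 2) ℂ) := by
  have := H11.LC.locallyCompactSpace_matrix_h11 (Fin 2) ℂ
  have := H11.LC.t2Space_matrix_h11 (Fin 2) ℂ
  infer_instance

theorem secondCountable_GLC159 : SecondCountableTopology (GL (Fin 2) ℂ) := by
  have := H11.SC.secondCountableTopology_matrix_h11 (Fin 2) ℂ
  exact H11.SC.secondCountableTopology_units_h11 _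

theorem secondCountable_GLv159 (v : HeightOneSpectrum (𝓞 K)) :
    SecondCountableTopology (GL (Fin 2) (v.adicCompletion K)) := by
  have := H11.SC.secondCountableTopology_adicCompletion_h11 K v
  have := H11.SC.secondCountableTopology_matrix_h11 (Fin 2) (v.adicCompletion K)
  exact H11.SC.secondCountableTopology_units_h11 _

instance instLCLocGL159 : ∀ i : Pl159 K, LocallyCompactSpace (LocGL159 K i)
  | Sum.inl _ => locallyCompactSpace_GLC159
  | Sum.inr v => H11.LC.locallyCompactSpace_GL2_adicCompletion_h11 K v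

instance instSCLocGL159 : ∀ i : Pl159 K, SecondCountableTopology (LocGL159 K i)
  | Sum.inl _ => secondCountable_GLC159
  | Sum.inr v => secondCountable_GLv159 K v

/-! ## The components, the subgroups -/

/-- The components `GL₂(𝔸_K) → GL₂(ℂ)`, `GL₂(𝔸_K) → GL₂(K_v)`
(`infGL305`, `finGL305` of helper305). -/
def locProj159 : ∀ i : Pl159 K, G K →* LocGL159 K i
  | Sum.inl w => Matrix.GeneralLinearGroup.map (T5.infHom w)
  | Sum.inr v => Matrix.GeneralLinearGroup.map (T5.finHom v)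

variable {K}

/-- Entries of a product of integral matrices. -/
theorem mul_entry_mem159 {v : HeightOneSpectrum (𝓞 K)}
    {x y : Matrix (Fin 2) (Fin 2) (v.adicCompletion K)}
    (hx : ∀ i j, x i j ∈ v.adicCompletionIntegers K)
    (hy : ∀ i j, y i j ∈ v.adicCompletionIntegers K) (i j : Fin 2) :
    (x * y) i j ∈ v.adicCompletionIntegers K := by
  rw [Matrix.mul_apply]
  exact sum_mem fun k _ => mul_mem (hx i k) (hy k j)

theorem one_entry_mem159 (v : HeightOneSpectrum (𝓞 K)) (i j : Fin 2) :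
    (1 : Matrix (Fin 2) (Fin 2) (v.adicCompletion K)) i j ∈ v.adicCompletionIntegers K := by
  by_cases h : i = j
  · rw [h, Matrix.one_apply_eq]; exact one_mem _
  · rw [Matrix.one_apply_ne h]; exact zero_mem _

variable (K)

/-- `GL₂(𝒪_v)` as a subgroup of `GL₂(K_v)`. -/
def intGL159 (v : HeightOneSpectrum (𝓞 K)) : Subgroup (GL (Fin 2) (v.adicCompletion K)) where
  carrier := {x |
    (∀ i j, (x : Matrix (Fin 2) (Fin 2) (v.adicCompletion K)) i j
        ∈ v.adicCompletionIntegers K) ∧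
      ∀ i j, ((x⁻¹ : GL (Fin 2) (v.adicCompletion K)) :
        Matrix (Fin 2) (Fin 2) (v.adicCompletion K)) i j ∈ v.adicCompletionIntegers K}
  one_mem' := ⟨fun i j => one_entry_mem159 v i j, fun i j => by
    rw [inv_one]; exact one_entry_mem159 v i j⟩
  mul_mem' := by
    rintro a b ⟨ha, ha'⟩ ⟨hb, hb'⟩
    refine ⟨fun i j => ?_, fun i j => ?_⟩
    · rw [Units.val_mul]; exact mul_entry_mem159 ha hb i j
    · rw [mul_inv_rev, Units.val_mul]; exact mul_entry_mem159 hb' ha' i j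
  inv_mem' := by
    rintro a ⟨ha, ha'⟩
    exact ⟨ha', by rw [inv_inv]; exact ha⟩

/-- The subgroups: `GL₂(𝒪_v)` at the finite places (`⊤` at the infinite places: they always
belong to `S`). -/
def locK159 : ∀ i : Pl159 K, Subgroup (LocGL159 K i)
  | Sum.inl _ => ⊤
  | Sum.inr v => intGL159 K v

open Classical in
/-- The base set: all infinite places and the finite places of `T₀`. -/
def baseSet159 (T₀ : Finset (HeightOneSpectrum (𝓞 K))) : Finset (Pl159 K) :=
  (Finset.univ.image Sum.inl) ∪ (T₀.image Sum.inr)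

variable {K}

theorem inl_mem_baseSet159 (T₀ : Finset (HeightOneSpectrum (𝓞 K))) (w : InfinitePlace K) :
    (Sum.inl w : Pl159 K) ∈ baseSet159 K T₀ := by
  classical
  exact Finset.mem_union_left _ (Finset.mem_image_of_mem _ (Finset.mem_univ w))

theorem inr_mem_baseSet159 (T₀ : Finset (HeightOneSpectrum (𝓞 K)))
    (v : HeightOneSpectrum (𝓞 K)) :
    (Sum.inr v : Pl159 K) ∈ baseSet159 K T₀ ↔ v ∈ T₀ := by
  classical
  simp [baseSet159]

/-! ## Continuity -/

theorem continuous_finHom159 (v : HeightOneSpectrum (𝓞 K)) : Continuous (T5.finHom v) :=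
  (RestrictedProduct.continuous_eval v).comp continuous_snd

theorem continuous_infHom159 (w : InfinitePlace K) : Continuous (T5.infHom w) :=
  (InfinitePlace.Completion.isometry_extensionEmbedding w).continuous.comp
    ((continuous_apply w).comp continuous_fst)

theorem continuous_GLmap159 {R S : Type*} [CommRing R] [CommRing S] [TopologicalSpace R]
    [TopologicalSpace S] (f : R →+* S) (hf : Continuous f) :
    Continuous (Matrix.GeneralLinearGroup.map (n := Fin 2) f) :=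
  Continuous.units_map _ (continuous_id.matrix_map hf)

theorem continuous_locProj159 (i : Pl159 K) : Continuous (locProj159 K i) := by
  cases i with
  | inl w => exact continuous_GLmap159 _ (continuous_infHom159 w)
  | inr v => exact continuous_GLmap159 _ (continuous_finHom159 v)

theorem continuous_entryGL159 {R : Type*} [CommRing R] [TopologicalSpace R] (i j : Fin 2) :
    Continuous fun x : GL (Fin 2) R => (x : Matrix (Fin 2) (Fin 2) R) i j :=
  (Units.continuous_val (M := Matrix (Fin 2) (Fin 2) R)).matrix_elem i j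

theorem continuous_entryInvGL159 {R : Type*} [CommRing R] [TopologicalSpace R] (i j : Fin 2) :
    Continuous fun x : GL (Fin 2) R => ((x⁻¹ : GL (Fin 2) R) : Matrix (Fin 2) (Fin 2) R) i j :=
  (Units.continuous_coe_inv (M := Matrix (Fin 2) (Fin 2) R)).matrix_elem i j

/-- `GL₂(𝒪_v)` is open in `GL₂(K_v)`. -/
theorem isOpen_intGL159 (v : HeightOneSpectrum (𝓞 K)) :
    IsOpen (intGL159 K v : Set (GL (Fin 2) (v.adicCompletion K))) := by
  have hO : IsOpen (v.adicCompletionIntegers K : Set (v.adicCompletion K)) :=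
    Valued.isOpen_valuationSubring _
  have h1 : IsOpen {x : GL (Fin 2) (v.adicCompletion K) |
      ∀ i j, (x : Matrix (Fin 2) (Fin 2) (v.adicCompletion K)) i j
        ∈ v.adicCompletionIntegers K} := by
    simp only [Set.ofPred_forall]
    exact isOpen_iInter_of_finite fun i => isOpen_iInter_of_finite fun j =>
      hO.preimage (continuous_entryGL159 i j)
  have h2 : IsOpen {x : GL (Fin 2) (v.adicCompletion K) |
      ∀ i j, ((x⁻¹ : GL (Fin 2) (v.adicCompletion K)) :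
        Matrix (Fin 2) (Fin 2) (v.adicCompletion K)) i j ∈ v.adicCompletionIntegers K} := by
    simp only [Set.ofPred_forall]
    exact isOpen_iInter_of_finite fun i => isOpen_iInter_of_finite fun j =>
      hO.preimage (continuous_entryInvGL159 i j)
  exact h1.inter h2

/-- The adeles which are integral at the places of `q` form an open set. -/
theorem isOpen_intOutside159 (q : HeightOneSpectrum (𝓞 K) → Prop) :
    IsOpen {a : Adl K | ∀ v, q v → a.2 v ∈ v.adicCompletionIntegers K} := by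
  have h : IsOpen {x : FiniteAdeleRing (𝓞 K) K | ∀ v, q v → x v ∈ v.adicCompletionIntegers K} :=
    RestrictedProduct.isOpen_forall_imp_mem (fun v => Valued.isOpen_valuationSubring _)
  exact h.preimage continuous_snd

theorem mem_restrSub_iff159 (S : Finset (Pl159 K)) (g : G K) :
    g ∈ restrSub159 (locProj159 K) (locK159 K) S ↔
      ∀ v : HeightOneSpectrum (𝓞 K), (Sum.inr v : Pl159 K) ∉ S →
        (∀ i j, ((g : Matrix (Fin 2) (Fin 2) (Adl K)) i j).2 v ∈ v.adicCompletionIntegers K) ∧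
          ∀ i j, (((g⁻¹ : G K) : Matrix (Fin 2) (Fin 2) (Adl K)) i j).2 v
            ∈ v.adicCompletionIntegers K := by
  constructor
  · intro h v hv
    have := h (Sum.inr v) hv
    exact this
  · intro h i hi
    cases i with
    | inl w => exact Subgroup.mem_top _
    | inr v => exact h v hi

/-- `E_S` is open. -/
theorem isOpen_restrSub159 (S : Finset (Pl159 K)) :
    IsOpen (restrSub159 (locProj159 K) (locK159 K) S : Set (G K)) := by
  have hset : (restrSub159 (locProj159 K) (locK159 K) S : Set (G K))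
      = (⋂ i : Fin 2, ⋂ j : Fin 2,
          (fun g : G K => (g : Matrix (Fin 2) (Fin 2) (Adl K)) i j) ⁻¹'
            {a : Adl K | ∀ v, (Sum.inr v : Pl159 K) ∉ S → a.2 v ∈ v.adicCompletionIntegers K})
        ∩ (⋂ i : Fin 2, ⋂ j : Fin 2,
          (fun g : G K => ((g⁻¹ : G K) : Matrix (Fin 2) (Fin 2) (Adl K)) i j) ⁻¹'
            {a : Adl K | ∀ v, (Sum.inr v : Pl159 K) ∉ S → a.2 v ∈ v.adicCompletionIntegers K}) := by
    ext g
    simp only [SetLike.mem_coe, mem_restrSub_iff159, Set.mem_inter_iff, Set.mem_iInter,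
      Set.mem_preimage, Set.mem_ofPred_eq]
    constructor
    · intro h
      exact ⟨fun i j v hv => (h v hv).1 i j, fun i j v hv => (h v hv).2 i j⟩
    · rintro ⟨h1, h2⟩ v hv
      exact ⟨fun i j => h1 i j v hv, fun i j => h2 i j v hv⟩
  rw [hset]
  refine IsOpen.inter ?_ ?_
  · exact isOpen_iInter_of_finite fun i => isOpen_iInter_of_finite fun j =>
      (isOpen_intOutside159 _).preimage (continuous_entryGL159 i j)
  · exact isOpen_iInter_of_finite fun i => isOpen_iInter_of_finite fun j =>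
      (isOpen_intOutside159 _).preimage (continuous_entryInvGL159 i j)

/-! ## Adelic matrices from local matrices -/

theorem adele_ext159 {a b : Adl K} (h1 : ∀ w : InfinitePlace K, a.1 w = b.1 w)
    (h2 : ∀ v : HeightOneSpectrum (𝓞 K), a.2 v = b.2 v) : a = b :=
  Prod.ext (funext h1) (FiniteAdeleRing.ext (R := 𝓞 K) (K := K) h2)

/-- The component at the infinite place `w`, in the completion. -/
def evInf159 (w : InfinitePlace K) : Adl K →+* w.Completion :=
  (Pi.evalRingHom (fun w : InfinitePlace K => w.Completion) w).comp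
    (RingHom.fst (InfiniteAdeleRing K) (FiniteAdeleRing (𝓞 K) K))

theorem adMat_ext159 {M N : Matrix (Fin 2) (Fin 2) (Adl K)}
    (h1 : ∀ w : InfinitePlace K, M.map (evInf159 w) = N.map (evInf159 w))
    (h2 : ∀ v : HeightOneSpectrum (𝓞 K), M.map (T5.finHom v) = N.map (T5.finHom v)) :
    M = N := by
  ext i j
  refine adele_ext159 (fun w => ?_) (fun v => ?_)
  · exact congrFun (congrFun (h1 w) i) j
  · exact congrFun (congrFun (h2 v) i) j

/-- The adelic matrix with the components `a w`, `b v`. -/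
def mkMat159 (a : ∀ w : InfinitePlace K, Matrix (Fin 2) (Fin 2) w.Completion)
    (b : ∀ v : HeightOneSpectrum (𝓞 K), Matrix (Fin 2) (Fin 2) (v.adicCompletion K))
    (hb : ∀ᶠ v in Filter.cofinite, ∀ i j, b v i j ∈ v.adicCompletionIntegers K) :
    Matrix (Fin 2) (Fin 2) (Adl K) :=
  fun i j => ((fun w => a w i j : InfiniteAdeleRing K),
    (⟨fun v => b v i j, hb.mono fun _ h => h i j⟩ : FiniteAdeleRing (𝓞 K) K))

theorem mkMat_inf159 (a : ∀ w : InfinitePlace K, Matrix (Fin 2) (Fin 2) w.Completion)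
    (b : ∀ v : HeightOneSpectrum (𝓞 K), Matrix (Fin 2) (Fin 2) (v.adicCompletion K))
    (hb : ∀ᶠ v in Filter.cofinite, ∀ i j, b v i j ∈ v.adicCompletionIntegers K)
    (w : InfinitePlace K) : (mkMat159 a b hb).map (evInf159 w) = a w := rfl

theorem mkMat_fin159 (a : ∀ w : InfinitePlace K, Matrix (Fin 2) (Fin 2) w.Completion)
    (b : ∀ v : HeightOneSpectrum (𝓞 K), Matrix (Fin 2) (Fin 2) (v.adicCompletion K))
    (hb : ∀ᶠ v in Filter.cofinite, ∀ i j, b v i j ∈ v.adicCompletionIntegers K)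
    (v : HeightOneSpectrum (𝓞 K)) : (mkMat159 a b hb).map (T5.finHom v) = b v := rfl

theorem mkMat_mul159 (a a' : ∀ w : InfinitePlace K, Matrix (Fin 2) (Fin 2) w.Completion)
    (b b' : ∀ v : HeightOneSpectrum (𝓞 K), Matrix (Fin 2) (Fin 2) (v.adicCompletion K))
    (hb : ∀ᶠ v in Filter.cofinite, ∀ i j, b v i j ∈ v.adicCompletionIntegers K)
    (hb' : ∀ᶠ v in Filter.cofinite, ∀ i j, b' v i j ∈ v.adicCompletionIntegers K)
    (ha1 : ∀ w, a w * a' w = 1) (hb1 : ∀ v, b v * b' v = 1) :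
    mkMat159 a b hb * mkMat159 a' b' hb' = 1 := by
  refine adMat_ext159 (fun w => ?_) (fun v => ?_)
  · rw [Matrix.map_mul, mkMat_inf159, mkMat_inf159, ha1 w, Matrix.map_one _ (map_zero _)
      (map_one _)]
  · rw [Matrix.map_mul, mkMat_fin159, mkMat_fin159, hb1 v, Matrix.map_one _ (map_zero _)
      (map_one _)]

/-- The element of `GL₂(𝔸_K)` with the components `a w`, `b v`. -/
def mkGL159 (a : ∀ w : InfinitePlace K, GL (Fin 2) w.Completion)
    (b : ∀ v : HeightOneSpectrum (𝓞 K), GL (Fin 2) (v.adicCompletion K))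
    (hb : ∀ᶠ v in Filter.cofinite, b v ∈ intGL159 K v) : G K where
  val := mkMat159 (fun w => (a w : Matrix (Fin 2) (Fin 2) w.Completion))
    (fun v => (b v : Matrix (Fin 2) (Fin 2) (v.adicCompletion K))) (hb.mono fun _ h => h.1)
  inv := mkMat159 (fun w => ((a w)⁻¹ : GL (Fin 2) w.Completion))
    (fun v => ((b v)⁻¹ : GL (Fin 2) (v.adicCompletion K))) (hb.mono fun _ h => h.2)
  val_inv := mkMat_mul159 _ _ _ _ _ _ (fun w => by rw [← Units.val_mul, mul_inv_cancel]; rfl)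
    (fun v => by rw [← Units.val_mul, mul_inv_cancel]; rfl)
  inv_val := mkMat_mul159 _ _ _ _ _ _ (fun w => by rw [← Units.val_mul, inv_mul_cancel]; rfl)
    (fun v => by rw [← Units.val_mul, inv_mul_cancel]; rfl)

theorem mkGL_fin159 (a : ∀ w : InfinitePlace K, GL (Fin 2) w.Completion)
    (b : ∀ v : HeightOneSpectrum (𝓞 K), GL (Fin 2) (v.adicCompletion K))
    (hb : ∀ᶠ v in Filter.cofinite, b v ∈ intGL159 K v) (v : HeightOneSpectrum (𝓞 K)) :
    Matrix.GeneralLinearGroup.map (T5.finHom v) (mkGL159 a b hb) = b v :=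
  Units.ext rfl

theorem mkGL_inf159 (a : ∀ w : InfinitePlace K, GL (Fin 2) w.Completion)
    (b : ∀ v : HeightOneSpectrum (𝓞 K), GL (Fin 2) (v.adicCompletion K))
    (hb : ∀ᶠ v in Filter.cofinite, b v ∈ intGL159 K v) (w : InfinitePlace K) :
    Matrix.GeneralLinearGroup.map (T5.infHom w) (mkGL159 a b hb)
      = Matrix.GeneralLinearGroup.map (InfinitePlace.Completion.extensionEmbedding w) (a w) :=
  Units.ext rfl

/-! ## Surjectivity -/

omit [NumberField K] in
theorem finite_inr_mem159 (S : Finset (Pl159 K)) :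
    {v : HeightOneSpectrum (𝓞 K) | (Sum.inr v : Pl159 K) ∈ S}.Finite :=
  (S.finite_toSet.preimage (Sum.inr_injective.injOn)).subset fun _ h => h

omit [NumberField K] in
theorem eventually_notMem159 (S : Finset (Pl159 K)) :
    ∀ᶠ v : HeightOneSpectrum (𝓞 K) in Filter.cofinite, (Sum.inr v : Pl159 K) ∉ S := by
  rw [Filter.eventually_cofinite]
  refine (finite_inr_mem159 S).subset fun v hv => ?_
  simpa using hv

open Classical in
/-- `(p_i)_{i ∈ S}` maps `E_S` onto the product (`K` totally complex). -/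
theorem surj_restr159 (hK : ∀ w : InfinitePlace K, w.IsComplex)
    (S : Finset (Pl159 K)) (hS : ∀ w : InfinitePlace K, (Sum.inl w : Pl159 K) ∈ S)
    (x : ∀ i : S, LocGL159 K i) :
    ∃ g ∈ restrSub159 (locProj159 K) (locK159 K) S,
      restrProj159 (locProj159 K) S g = x := by
  set a : ∀ w : InfinitePlace K, GL (Fin 2) w.Completion := fun w =>
    Matrix.GeneralLinearGroup.map
      ((InfinitePlace.Completion.ringEquivComplexOfIsComplex (hK w)).symm : ℂ →+* w.Completion)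
      (x ⟨Sum.inl w, hS w⟩ : GL (Fin 2) ℂ) with ha
  set b : ∀ v : HeightOneSpectrum (𝓞 K), GL (Fin 2) (v.adicCompletion K) := fun v =>
    if h : (Sum.inr v : Pl159 K) ∈ S then (x ⟨Sum.inr v, h⟩ : GL (Fin 2) (v.adicCompletion K))
    else 1 with hb
  have hb1 : ∀ v : HeightOneSpectrum (𝓞 K), (Sum.inr v : Pl159 K) ∉ S → b v = 1 := by
    intro v hv
    exact dif_neg hv
  have hbint : ∀ᶠ v in Filter.cofinite, b v ∈ intGL159 K v :=
    (eventually_notMem159 S).mono fun v hv => by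
      rw [hb1 v hv]; exact (intGL159 K v).one_mem
  refine ⟨mkGL159 a b hbint, ?_, ?_⟩
  · intro i hi
    cases i with
    | inl w => exact Subgroup.mem_top _
    | inr v =>
      have e : locProj159 K (Sum.inr v) (mkGL159 a b hbint) = b v := mkGL_fin159 a b hbint v
      rw [e, hb1 v hi]
      exact (intGL159 K v).one_mem
  · funext i
    obtain ⟨i, hi⟩ := i
    cases i with
    | inl w =>
      have e : locProj159 K (Sum.inl w) (mkGL159 a b hbint)
          = Matrix.GeneralLinearGroup.map (InfinitePlace.Completion.extensionEmbedding w) (a w) :=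
        mkGL_inf159 a b hbint w
      rw [restrProj_apply159, e]
      refine Units.ext ?_
      ext k l
      simp only [ha, Matrix.GeneralLinearGroup.map_apply]
      exact (InfinitePlace.Completion.ringEquivComplexOfIsComplex (hK w)).apply_symm_apply _
    | inr v =>
      have e : locProj159 K (Sum.inr v) (mkGL159 a b hbint) = b v := mkGL_fin159 a b hbint v
      rw [restrProj_apply159, e]
      exact dif_pos hi

/-! ## Properness -/

/-- The entries of the elements of `C` and of their inverses. -/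
def entrySet159 {R : Type*} [CommRing R] (C : Set (GL (Fin 2) R)) : Set R :=
  ⋃ i : Fin 2, ⋃ j : Fin 2,
    ((fun x : GL (Fin 2) R => (x : Matrix (Fin 2) (Fin 2) R) i j) '' C) ∪
      ((fun x : GL (Fin 2) R => ((x⁻¹ : GL (Fin 2) R) : Matrix (Fin 2) (Fin 2) R) i j) '' C)

theorem isCompact_entrySet159 {R : Type*} [CommRing R] [TopologicalSpace R]
    {C : Set (GL (Fin 2) R)} (hC : IsCompact C) : IsCompact (entrySet159 C) :=
  isCompact_iUnion fun i => isCompact_iUnion fun j =>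
    (hC.image (continuous_entryGL159 i j)).union (hC.image (continuous_entryInvGL159 i j))

theorem entry_mem159 {R : Type*} [CommRing R] {C : Set (GL (Fin 2) R)} {x : GL (Fin 2) R}
    (hx : x ∈ C) (i j : Fin 2) : (x : Matrix (Fin 2) (Fin 2) R) i j ∈ entrySet159 C :=
  Set.mem_iUnion.2 ⟨i, Set.mem_iUnion.2 ⟨j, Or.inl ⟨x, hx, rfl⟩⟩⟩

theorem entryInv_mem159 {R : Type*} [CommRing R] {C : Set (GL (Fin 2) R)} {x : GL (Fin 2) R}
    (hx : x ∈ C) (i j : Fin 2) :
    ((x⁻¹ : GL (Fin 2) R) : Matrix (Fin 2) (Fin 2) R) i j ∈ entrySet159 C :=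
  Set.mem_iUnion.2 ⟨i, Set.mem_iUnion.2 ⟨j, Or.inr ⟨x, hx, rfl⟩⟩⟩

/-- A box of finite adeles is compact. -/
theorem isCompact_finBox159 (DF : ∀ v : HeightOneSpectrum (𝓞 K), Set (v.adicCompletion K))
    (hc : ∀ v, IsCompact (DF v))
    (hint : ∀ᶠ v in Filter.cofinite,
      DF v ⊆ (v.adicCompletionIntegers K : Set (v.adicCompletion K))) :
    IsCompact {x : FiniteAdeleRing (𝓞 K) K | ∀ v, x v ∈ DF v} := by
  set Sc : Set (HeightOneSpectrum (𝓞 K)) :=
    {v | DF v ⊆ (v.adicCompletionIntegers K : Set (v.adicCompletion K))} with hSc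
  have hle : Filter.cofinite ≤ Filter.principal Sc := Filter.le_principal_iff.2 hint
  have hbox : IsCompact (Set.univ.pi DF) := isCompact_univ_pi hc
  have hsub : Set.univ.pi DF ⊆ Set.range
      ((↑) : Πʳ v : HeightOneSpectrum (𝓞 K),
        [v.adicCompletion K, (v.adicCompletionIntegers K : Set (v.adicCompletion K))]_[
          Filter.principal Sc] → ∀ v : HeightOneSpectrum (𝓞 K), v.adicCompletion K) := by
    rw [RestrictedProduct.range_coe_principal]
    intro x hx v hv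
    exact hv (hx v (Set.mem_univ v))
  have hQ := (RestrictedProduct.isEmbedding_coe_of_principal
    (R := fun v : HeightOneSpectrum (𝓞 K) => v.adicCompletion K)
    (A := fun v : HeightOneSpectrum (𝓞 K) =>
      (v.adicCompletionIntegers K : Set (v.adicCompletion K)))
    (S := Sc)).isInducing.isCompact_preimage_iff hsub |>.mpr hbox
  have himg := hQ.image (RestrictedProduct.continuous_inclusion
    (R := fun v : HeightOneSpectrum (𝓞 K) => v.adicCompletion K)
    (A := fun v : HeightOneSpectrum (𝓞 K) =>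
      (v.adicCompletionIntegers K : Set (v.adicCompletion K))) hle)
  have hset : {x : FiniteAdeleRing (𝓞 K) K | ∀ v, x v ∈ DF v}
      = RestrictedProduct.inclusion (fun v : HeightOneSpectrum (𝓞 K) => v.adicCompletion K)
          (fun v : HeightOneSpectrum (𝓞 K) =>
            (v.adicCompletionIntegers K : Set (v.adicCompletion K))) hle ''
          (DFunLike.coe ⁻¹' Set.univ.pi DF) := by
    ext x
    constructor
    · intro hx
      refine ⟨⟨fun v => x v, ?_⟩, ?_, ?_⟩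
      · exact Filter.eventually_principal.2 fun v hv => hv (hx v)
      · intro v _
        exact hx v
      · rfl
    · rintro ⟨y, hy, rfl⟩ v
      exact hy v (Set.mem_univ v)
  rw [hset]
  exact himg

omit [NumberField K] in
/-- A box of infinite adeles is compact. -/
theorem isCompact_infBox159 (DI : InfinitePlace K → Set ℂ) (hc : ∀ w, IsCompact (DI w)) :
    IsCompact {x : InfiniteAdeleRing K |
      ∀ w, InfinitePlace.Completion.extensionEmbedding w (x w) ∈ DI w} := by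
  have h : IsCompact (Set.univ.pi fun w : InfinitePlace K =>
      (InfinitePlace.Completion.extensionEmbedding w) ⁻¹' DI w) :=
    isCompact_univ_pi fun w =>
      (InfinitePlace.Completion.isometry_extensionEmbedding w).isClosedEmbedding.isCompact_preimage
        (hc w)
  have hset : {x : InfiniteAdeleRing K |
      ∀ w, InfinitePlace.Completion.extensionEmbedding w (x w) ∈ DI w}
      = Set.univ.pi fun w : InfinitePlace K =>
        (InfinitePlace.Completion.extensionEmbedding w) ⁻¹' DI w := by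
    ext x
    exact ⟨fun hx w _ => hx w, fun hx w => hx w (Set.mem_univ w)⟩
  rw [hset]
  exact h

/-- The box of adeles. -/
def adBox159 (DI : InfinitePlace K → Set ℂ)
    (DF : ∀ v : HeightOneSpectrum (𝓞 K), Set (v.adicCompletion K)) : Set (Adl K) :=
  {a | (∀ w, T5.infHom w a ∈ DI w) ∧ ∀ v, a.2 v ∈ DF v}

theorem isCompact_adBox159 (DI : InfinitePlace K → Set ℂ) (hcI : ∀ w, IsCompact (DI w))
    (DF : ∀ v : HeightOneSpectrum (𝓞 K), Set (v.adicCompletion K))
    (hc : ∀ v, IsCompact (DF v))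
    (hint : ∀ᶠ v in Filter.cofinite,
      DF v ⊆ (v.adicCompletionIntegers K : Set (v.adicCompletion K))) :
    IsCompact (adBox159 DI DF) := by
  have h := (isCompact_infBox159 DI hcI).prod (isCompact_finBox159 DF hc hint)
  have hset : adBox159 DI DF
      = ({x : InfiniteAdeleRing K |
            ∀ w, InfinitePlace.Completion.extensionEmbedding w (x w) ∈ DI w} ×ˢ
          {x : FiniteAdeleRing (𝓞 K) K | ∀ v, x v ∈ DF v} :
          Set (InfiniteAdeleRing K × FiniteAdeleRing (𝓞 K) K)) := by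
    ext x
    rfl
  rw [hset]
  exact h

/-- The matrices with entries in the box. -/
def matBox159 (DI : InfinitePlace K → Set ℂ)
    (DF : ∀ v : HeightOneSpectrum (𝓞 K), Set (v.adicCompletion K)) :
    Set (Matrix (Fin 2) (Fin 2) (Adl K)) :=
  {M | ∀ i j, M i j ∈ adBox159 DI DF}

theorem isCompact_matBox159 (DI : InfinitePlace K → Set ℂ) (hcI : ∀ w, IsCompact (DI w))
    (DF : ∀ v : HeightOneSpectrum (𝓞 K), Set (v.adicCompletion K))
    (hc : ∀ v, IsCompact (DF v))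
    (hint : ∀ᶠ v in Filter.cofinite,
      DF v ⊆ (v.adicCompletionIntegers K : Set (v.adicCompletion K))) :
    IsCompact (matBox159 DI DF) := by
  have h : IsCompact (Set.univ.pi fun _ : Fin 2 => Set.univ.pi fun _ : Fin 2 =>
      adBox159 DI DF) :=
    isCompact_univ_pi fun _ => isCompact_univ_pi fun _ => isCompact_adBox159 DI hcI DF hc hint
  have hset : (Set.univ.pi fun _ : Fin 2 => Set.univ.pi fun _ : Fin 2 => adBox159 DI DF)
      = matBox159 DI DF := by
    ext M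
    simp only [Set.mem_pi, Set.mem_univ, true_implies]
    exact Iff.rfl
  rw [← hset]
  exact h

/-- The elements of `GL₂(𝔸_K)` with the entries of `g` and `g⁻¹` in a compact box form a
compact set. -/
theorem isCompact_GLBox159 (DI : InfinitePlace K → Set ℂ) (hcI : ∀ w, IsCompact (DI w))
    (DF : ∀ v : HeightOneSpectrum (𝓞 K), Set (v.adicCompletion K))
    (hc : ∀ v, IsCompact (DF v))
    (hint : ∀ᶠ v in Filter.cofinite,
      DF v ⊆ (v.adicCompletionIntegers K : Set (v.adicCompletion K))) :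
    IsCompact {g : G K | (g : Matrix (Fin 2) (Fin 2) (Adl K)) ∈ matBox159 DI DF ∧
      ((g⁻¹ : G K) : Matrix (Fin 2) (Fin 2) (Adl K)) ∈ matBox159 DI DF} := by
  have : T2Space (Adl K) := H11.LC.t2Space_adeleRing_h11 K
  have : T2Space (Matrix (Fin 2) (Fin 2) (Adl K)) := H11.LC.t2Space_matrix_h11 (Fin 2) (Adl K)
  have hemb : Topology.IsClosedEmbedding (Units.embedProduct (Matrix (Fin 2) (Fin 2) (Adl K))) :=
    Units.isClosedEmbedding_embedProduct
  have hM := isCompact_matBox159 DI hcI DF hc hint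
  have hC : IsCompact ((matBox159 DI DF) ×ˢ (MulOpposite.unop ⁻¹' (matBox159 DI DF)) :
      Set (Matrix (Fin 2) (Fin 2) (Adl K) × (Matrix (Fin 2) (Fin 2) (Adl K))ᵐᵒᵖ)) := by
    refine hM.prod ?_
    have : MulOpposite.unop ⁻¹' (matBox159 DI DF)
        = MulOpposite.opHomeomorph '' (matBox159 DI DF) := by
      ext x
      constructor
      · intro hx
        exact ⟨MulOpposite.unop x, hx, rfl⟩
      · rintro ⟨y, hy, rfl⟩
        exact hy
    rw [this]
    exact hM.image MulOpposite.opHomeomorph.continuous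
  exact hemb.isCompact_preimage hC

open Classical in
/-- `(p_i)_{i ∈ S}` is proper on `E_S` (boxes). -/
theorem proper_restr159 (S : Finset (Pl159 K))
    (hS : ∀ w : InfinitePlace K, (Sum.inl w : Pl159 K) ∈ S)
    (C : ∀ i : Pl159 K, Set (LocGL159 K i)) (hC : ∀ i ∈ S, IsCompact (C i)) :
    ∃ C' : Set (G K), IsCompact C' ∧
      {g | g ∈ restrSub159 (locProj159 K) (locK159 K) S ∧
        ∀ i ∈ S, locProj159 K i g ∈ C i} ⊆ C' := by
  set DI : InfinitePlace K → Set ℂ := fun w =>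
    entrySet159 (R := ℂ) (C (Sum.inl w)) with hDI
  set DF : ∀ v : HeightOneSpectrum (𝓞 K), Set (v.adicCompletion K) := fun v =>
    if (Sum.inr v : Pl159 K) ∈ S then entrySet159 (R := v.adicCompletion K) (C (Sum.inr v))
    else (v.adicCompletionIntegers K : Set (v.adicCompletion K)) with hDF
  have hDF1 : ∀ v, (Sum.inr v : Pl159 K) ∈ S →
      DF v = entrySet159 (R := v.adicCompletion K) (C (Sum.inr v)) := fun v hv => if_pos hv
  have hDF0 : ∀ v, (Sum.inr v : Pl159 K) ∉ S →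
      DF v = (v.adicCompletionIntegers K : Set (v.adicCompletion K)) := fun v hv => if_neg hv
  have hcI : ∀ w, IsCompact (DI w) := fun w =>
    isCompact_entrySet159 (R := ℂ) (hC (Sum.inl w) (hS w))
  have hc : ∀ v, IsCompact (DF v) := by
    intro v
    by_cases hv : (Sum.inr v : Pl159 K) ∈ S
    · rw [hDF1 v hv]
      exact isCompact_entrySet159 (R := v.adicCompletion K) (hC (Sum.inr v) hv)
    · rw [hDF0 v hv]
      exact H11.LC.isCompact_integers_h11 K v
  have hint : ∀ᶠ v in Filter.cofinite,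
      DF v ⊆ (v.adicCompletionIntegers K : Set (v.adicCompletion K)) :=
    (eventually_notMem159 S).mono fun v hv => by rw [hDF0 v hv]
  refine ⟨_, isCompact_GLBox159 DI hcI DF hc hint, ?_⟩
  rintro g ⟨hgE, hgC⟩
  have hE := (mem_restrSub_iff159 S g).1 hgE
  have key : ∀ h : G K, (∀ v, (Sum.inr v : Pl159 K) ∉ S →
        ∀ i j, ((h : Matrix (Fin 2) (Fin 2) (Adl K)) i j).2 v ∈ v.adicCompletionIntegers K) →
      (∀ w i j, T5.infHom w ((h : Matrix (Fin 2) (Fin 2) (Adl K)) i j) ∈ DI w) →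
      (∀ v, (Sum.inr v : Pl159 K) ∈ S → ∀ i j,
        ((h : Matrix (Fin 2) (Fin 2) (Adl K)) i j).2 v
          ∈ entrySet159 (R := v.adicCompletion K) (C (Sum.inr v))) →
      (h : Matrix (Fin 2) (Fin 2) (Adl K)) ∈ matBox159 DI DF := by
    intro h h0 hI h1 i j
    refine ⟨fun w => hI w i j, fun v => ?_⟩
    by_cases hv : (Sum.inr v : Pl159 K) ∈ S
    · rw [hDF1 v hv]; exact h1 v hv i j
    · rw [hDF0 v hv]; exact h0 v hv i j
  refine ⟨key g (fun v hv => (hE v hv).1) ?_ ?_, key g⁻¹ (fun v hv => (hE v hv).2) ?_ ?_⟩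
  · intro w i j
    exact entry_mem159 (R := ℂ) (hgC (Sum.inl w) (hS w)) i j
  · intro v hv i j
    exact entry_mem159 (R := v.adicCompletion K) (hgC (Sum.inr v) hv) i j
  · intro w i j
    have h1 := entryInv_mem159 (R := ℂ) (hgC (Sum.inl w) (hS w)) i j
    have h2 : ((Matrix.GeneralLinearGroup.map (T5.infHom w) g)⁻¹ : GL (Fin 2) ℂ)
        = Matrix.GeneralLinearGroup.map (T5.infHom w) g⁻¹ := (map_inv _ g).symm
    have h3 : (((Matrix.GeneralLinearGroup.map (T5.infHom w) g)⁻¹ : GL (Fin 2) ℂ) :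
        Matrix (Fin 2) (Fin 2) ℂ) i j ∈ entrySet159 (R := ℂ) (C (Sum.inl w)) := h1
    rw [h2] at h3
    exact h3
  · intro v hv i j
    have h1 := entryInv_mem159 (R := v.adicCompletion K) (hgC (Sum.inr v) hv) i j
    have h2 : ((Matrix.GeneralLinearGroup.map (T5.finHom v) g)⁻¹ :
        GL (Fin 2) (v.adicCompletion K))
        = Matrix.GeneralLinearGroup.map (T5.finHom v) g⁻¹ := (map_inv _ g).symm
    have h3 : (((Matrix.GeneralLinearGroup.map (T5.finHom v) g)⁻¹ :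
        GL (Fin 2) (v.adicCompletion K)) :
        Matrix (Fin 2) (Fin 2) (v.adicCompletion K)) i j
          ∈ entrySet159 (R := v.adicCompletion K) (C (Sum.inr v)) := h1
    rw [h2] at h3
    exact h3

/-! ## The theorem -/

/-- **`GL₂(𝔸_K)` IS THE RESTRICTED PRODUCT** of the `GL₂(ℂ)`, `GL₂(K_v)` with respect to the
`GL₂(𝒪_v)` (`K` totally complex), in the sense of `IsRestrProd159`. -/
theorem isRestrProd_GL159 (hK : ∀ w : InfinitePlace K, w.IsComplex)
    (T₀ : Finset (HeightOneSpectrum (𝓞 K))) :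
    IsRestrProd159 (locProj159 K) (locK159 K) (baseSet159 K T₀) where
  cont := continuous_locProj159
  isOpenK := fun i _ => by
    cases i with
    | inl w => exact isOpen_univ
    | inr v => exact isOpen_intGL159 v
  isOpen := fun S _ => isOpen_restrSub159 S
  surj := fun S hS x => surj_restr159 hK S (fun w => hS (inl_mem_baseSet159 T₀ w)) x
  proper := fun S hS C hC => proper_restr159 S (fun w => hS (inl_mem_baseSet159 T₀ w)) C hC

/-! ## The splitting of the Haar measure of `GL₂(𝔸_K)` -/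

attribute [local instance] Fermat.Agent.LT.T5.instMeasurableSpaceG

theorem borelSpace_G159 : BorelSpace (G K) := ⟨rfl⟩

/-- The family of the local measures. -/
def locMeas159 (μI : InfinitePlace K → @Measure (GL (Fin 2) ℂ) (borel _))
    (μF : ∀ v : HeightOneSpectrum (𝓞 K), @Measure (GL (Fin 2) (v.adicCompletion K)) (borel _)) :
    ∀ i : Pl159 K, Measure (LocGL159 K i)
  | Sum.inl w => μI w
  | Sum.inr v => μF v

/-- The family of the local functions. -/
def locFn159 (FI : InfinitePlace K → GL (Fin 2) ℂ → ℂ)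
    (FF : ∀ v : HeightOneSpectrum (𝓞 K), GL (Fin 2) (v.adicCompletion K) → ℂ) :
    ∀ i : Pl159 K, LocGL159 K i → ℂ
  | Sum.inl w => FI w
  | Sum.inr v => FF v

theorem baseSet_mono159 {T₀ T : Finset (HeightOneSpectrum (𝓞 K))} (h : T₀ ⊆ T) :
    baseSet159 K T₀ ⊆ baseSet159 K T := by
  intro i hi
  cases i with
  | inl w => exact inl_mem_baseSet159 T w
  | inr v => exact (inr_mem_baseSet159 T v).2 (h ((inr_mem_baseSet159 T₀ v).1 hi))

theorem prod_baseSet159 {M : Type*} [CommMonoid M] (T : Finset (HeightOneSpectrum (𝓞 K)))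
    (φ : Pl159 K → M) :
    ∏ i ∈ baseSet159 K T, φ i = (∏ v ∈ T, φ (Sum.inr v)) * ∏ w : InfinitePlace K, φ (Sum.inl w) := by
  classical
  unfold baseSet159
  rw [Finset.prod_union, Finset.prod_image (fun _ _ _ _ h => Sum.inl_injective h),
    Finset.prod_image (fun _ _ _ _ h => Sum.inr_injective h), mul_comm]
  rw [Finset.disjoint_left]
  intro i h1 h2
  obtain ⟨w, -, rfl⟩ := Finset.mem_image.1 h1
  obtain ⟨v, -, hv⟩ := Finset.mem_image.1 h2
  exact Sum.inr_ne_inl hv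

/-- `E_T` in the vocabulary of A0 (`OutT305` of helper305). -/
theorem mem_restrSub_base159 (T : Finset (HeightOneSpectrum (𝓞 K))) (g : G K) :
    g ∈ restrSub159 (locProj159 K) (locK159 K) (baseSet159 K T) ↔
      ∀ v : HeightOneSpectrum (𝓞 K), v ∉ T → IsIntegralAt v g ∧ IsIntegralAt v g⁻¹ := by
  rw [mem_restrSub_iff159]
  constructor
  · intro h v hv
    exact h v fun h' => hv ((inr_mem_baseSet159 T v).1 h')
  · intro h v hv
    exact h v fun h' => hv ((inr_mem_baseSet159 T v).2 h')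

/-- **THE SPLITTING OF THE HAAR MEASURE OF `GL₂(𝔸_K)`** (`K` totally complex).  `μ` a Haar
measure of `GL₂(𝔸_K)`, `μI w` Haar measures of `GL₂(ℂ)`, `μF v` Haar measures of `GL₂(K_v)`
with `μF v (GL₂(𝒪_v)) = 1` for `v ∉ T₀`: there is ONE constant `c > 0` such that for every
finite `T ⊇ T₀` and all measurable local functions

    ∫_{E_T} ∏_{v ∈ T} FF_v(g_v) ∏_w FI_w(g_w) dμ(g) = c ∏_{v ∈ T} ∫ FF_v dμF_v ∏_w ∫ FI_w dμI_w,

`E_T = {g : g_v ∈ GL₂(𝒪_v) for all v ∉ T}`. -/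
theorem haarSplit_GL159 (hK : ∀ w : InfinitePlace K, w.IsComplex)
    (μ : Measure (G K)) (hμ : μ.IsHaarMeasure) (T₀ : Finset (HeightOneSpectrum (𝓞 K)))
    (μI : InfinitePlace K → @Measure (GL (Fin 2) ℂ) (borel _))
    (μF : ∀ v : HeightOneSpectrum (𝓞 K), @Measure (GL (Fin 2) (v.adicCompletion K)) (borel _))
    (hI : ∀ w, @Measure.IsHaarMeasure _ _ _ (borel _) (μI w))
    (hF : ∀ v, @Measure.IsHaarMeasure _ _ _ (borel _) (μF v))
    (h1 : ∀ v : HeightOneSpectrum (𝓞 K), v ∉ T₀ →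
      μF v (intGL159 K v : Set (GL (Fin 2) (v.adicCompletion K))) = 1) :
    ∃ c : ℝ, 0 < c ∧ ∀ T : Finset (HeightOneSpectrum (𝓞 K)), T₀ ⊆ T →
      ∀ (FI : InfinitePlace K → GL (Fin 2) ℂ → ℂ)
        (FF : ∀ v : HeightOneSpectrum (𝓞 K), GL (Fin 2) (v.adicCompletion K) → ℂ),
        (∀ w, @Measurable _ _ (borel _) _ (FI w)) →
        (∀ v ∈ T, @Measurable _ _ (borel _) _ (FF v)) →
        ∫ g in {g : G K | ∀ v : HeightOneSpectrum (𝓞 K), v ∉ T →
            IsIntegralAt v g ∧ IsIntegralAt v g⁻¹},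
          (∏ v ∈ T, FF v (Matrix.GeneralLinearGroup.map (T5.finHom v) g)) *
            ∏ w : InfinitePlace K, FI w (Matrix.GeneralLinearGroup.map (T5.infHom w) g) ∂μ
          = (c : ℂ) * ((∏ v ∈ T, @integral _ _ _ _ (borel _) (μF v) (FF v)) *
              ∏ w : InfinitePlace K, @integral _ _ _ _ (borel _) (μI w) (FI w)) := by
  have := hμ
  have : BorelSpace (G K) := borelSpace_G159
  have hH : ∀ i : Pl159 K, (locMeas159 μI μF i).IsHaarMeasure := by
    intro i
    cases i with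
    | inl w => exact hI w
    | inr v => exact hF v
  have hR := isRestrProd_GL159 hK T₀
  have hKm : ∀ i : Pl159 K, i ∉ baseSet159 K T₀ →
      locMeas159 μI μF i (locK159 K i : Set (LocGL159 K i)) = 1 := by
    intro i hi
    cases i with
    | inl w => exact absurd (inl_mem_baseSet159 T₀ w) hi
    | inr v => exact h1 v fun h' => hi ((inr_mem_baseSet159 T₀ v).2 h')
  refine ⟨(restrConst159 μ (locProj159 K) (locK159 K) (locMeas159 μI μF) (baseSet159 K T₀) : ℝ),
    restrConst_pos159 _ _ _ _ _, ?_⟩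
  intro T hT FI FF hFI hFF
  have hf : ∀ i ∈ baseSet159 K T, Measurable (locFn159 FI FF i) := by
    intro i hi
    cases i with
    | inl w => exact hFI w
    | inr v => exact hFF v ((inr_mem_baseSet159 T v).1 hi)
  have e := integral_restr_prod159 μ hR (locMeas159 μI μF) hKm (baseSet159 K T)
    (baseSet_mono159 hT) (locFn159 FI FF) hf
  rw [prod_baseSet159 T fun i => ∫ x, locFn159 FI FF i x ∂(locMeas159 μI μF i)] at e
  have hset : {g : G K | ∀ v : HeightOneSpectrum (𝓞 K), v ∉ T →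
      IsIntegralAt v g ∧ IsIntegralAt v g⁻¹}
      = (restrSub159 (locProj159 K) (locK159 K) (baseSet159 K T) : Set (G K)) := by
    ext g
    exact (mem_restrSub_base159 T g).symm
  rw [hset]
  refine Eq.trans ?_ e
  refine integral_congr_ae (Filter.Eventually.of_forall fun g => ?_)
  exact (prod_baseSet159 T fun i => locFn159 FI FF i (locProj159 K i g)).symm

end Fermat.Agent.LT.T7.H159

end

end
-- ===== PACK-END LT/T7/H159/RestrGL.lean

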