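import Mathlib
import Fermat.Agent.Pack.LT3.E2L0
import Fermat.Agent.Pack.LT3.E2L3
import Fermat.Agent.Pack.LT3.E2L2
import Fermat.Agent.Pack.LT3.E3L3
import Fermat.Agent.Pack.LT3.E0L2
import Fermat.Agent.Pack.LT3.E3L1
import Fermat.Agent.Pack.LT2.E0L1
import Fermat.Agent.Pack.LT3.E3L2
import Fermat.Agent.Pack.LT3.E3L0
import Fermat.Agent.Pack.LT3.E0L1
import Fermat.Agent.Pack.LT3.E4L1

set_option linter.all false

-- ===== PACK-BEGIN LT/T6/H965/U2Compact.lean
section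


/-!
# Row LT, tower T6, leaf T6.23.05 `H189.U2CompactC` (helper965) — OFF-MAIN

`u2CompactC965 : H189.U2CompactC`, i.e. `CompactSpace U2sub`.

The set of the unitary matrices is closed and bounded in `M₂(ℂ)`, hence compact; the inverse of
a unitary matrix is its conjugate transpose, so `A ↦ (A, A*)` is a continuous map from this
compact set onto `U(2) ⊂ GL₂(ℂ)` (units topology).
-/

set_option autoImplicit false

open MeasureTheory
open scoped Matrix ENNReal

noncomputable section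

namespace Fermat.Agent.LT.T6.H965

open Fermat.Agent.LT.T6.H189

/-- The unitary matrices in `M₂(ℂ)`. -/
def uMat965 : Set (Matrix (Fin 2) (Fin 2) ℂ) := {A | A * A.conjTranspose = 1}

theorem isClosed_uMat965 : IsClosed uMat965 := by
  have hc : Continuous (fun A : Matrix (Fin 2) (Fin 2) ℂ => A * A.conjTranspose) :=
    continuous_id.matrix_mul continuous_id.matrix_conjTranspose
  exact isClosed_eq hc continuous_const

theorem uMat_subset965 :
    uMat965 ⊆ (Set.pi Set.univ fun _ : Fin 2 =>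
      Set.pi Set.univ fun _ : Fin 2 => Metric.closedBall (0 : ℂ) 1) := by
  intro A hA i _ j _
  rw [mem_closedBall_zero_iff]
  exact entry_norm_bound_of_unitary (Matrix.mem_unitaryGroup_iff.2 hA) i j

theorem isCompact_uMat965 : IsCompact uMat965 :=
  IsCompact.of_isClosed_subset
    (isCompact_univ_pi fun _ => isCompact_univ_pi fun _ => isCompact_closedBall (0 : ℂ) 1)
    isClosed_uMat965 uMat_subset965

/-- A unitary matrix as an element of `GL₂(ℂ)`, with inverse the conjugate transpose. -/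
def toGL965 (A : uMat965) : GL (Fin 2) ℂ :=
  ⟨A.1, A.1.conjTranspose, A.2, mul_eq_one_comm.1 A.2⟩

theorem continuous_toGL965 : Continuous toGL965 :=
  Units.continuous_iff.2
    ⟨continuous_subtype_val, continuous_subtype_val.matrix_conjTranspose⟩

theorem range_toGL965 : Set.range toGL965 = U2 := by
  ext g
  constructor
  · rintro ⟨A, rfl⟩
    exact A.2
  · intro hg
    exact ⟨⟨(g : Matrix (Fin 2) (Fin 2) ℂ), hg⟩, Units.ext rfl⟩

theorem isCompact_U2965 : IsCompact U2 := by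
  have hcs : CompactSpace uMat965 := isCompact_iff_compactSpace.1 isCompact_uMat965
  rw [← range_toGL965]
  exact isCompact_range continuous_toGL965

/-- **L3** (`H189.U2CompactC`): `U(2)` is compact. -/
theorem u2CompactC965 : U2CompactC :=
  isCompact_iff_compactSpace.1 isCompact_U2965

end Fermat.Agent.LT.T6.H965

end

end
-- ===== PACK-END LT/T6/H965/U2Compact.lean

-- ===== PACK-BEGIN LT/T6/H964/SmoothIci.lean
section



/-!
# Row LT, tower T6, leaf T6.24 (part 5): functions smooth on `[a, ∞)`, the Abel transform on them,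
and the EXISTENCE theorems of weights `0` and `1`
(helper964, OFF-MAIN, Mathlib only)

`SmoothOnIci964 a H` : for every `N`, `H` agrees on `[a, ∞)` with a function of class `C^N` on
`ℝ` (Whitney smoothness on the closed half line; this is what composition needs:
`SmoothOnIci964.comp` — `H ∘ ψ` is `C^∞` for every smooth `ψ : E → ℝ` with values `≥ a`,
e.g. `ψ = rhoR (g * h t)`, `a = 1`).

Main results (memo `coord/LT-T6-interface.md` v4, "Why (2)"):

* `abel_exists964` (weight 0): a smooth even `F` vanishing for `|t| > T` is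
  `F t = (A g)(cosh t)` with `g` smooth on `[1, ∞)` vanishing above `cosh T`;
* `abel_unique964`, `abel_unique_Ici964` : `g` is unique on `[1, ∞)`;
* `abel_forward964` : conversely `t ↦ (A g)(cosh t)` is smooth, even, vanishes if `cosh t > R`;
* `abel_exists_wt1_964` (weight 1, `G₁`), `abel_exists_wt1'_964` (weight 1, `g₁ = √(ρ+1) G₁`):
  `F t = 2 cosh(t/2) (A G₁)(cosh t)`.
-/

set_option autoImplicit false

open MeasureTheory Set Filter Topology
open scoped ContDiff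

noncomputable section

namespace Fermat.Agent.LT.T6.H964

/-- `H` is smooth on `[a, ∞)` in Whitney's sense: for every `N` it agrees on `[a, ∞)` with a
function of class `C^N` on `ℝ`. -/
def SmoothOnIci964 (a : ℝ) (H : ℝ → ℂ) : Prop :=
  ∀ N : ℕ, ∃ h : ℝ → ℂ, ContDiff ℝ N h ∧ ∀ r, a ≤ r → h r = H r

theorem smoothOnIci_of_contDiff964 (a : ℝ) {H : ℝ → ℂ} (hH : ContDiff ℝ ∞ H) :
    SmoothOnIci964 a H :=
  fun _ => ⟨H, hH.of_le (by exact_mod_cast le_top), fun _ _ => rfl⟩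

theorem SmoothOnIci964.congr {a : ℝ} {H H' : ℝ → ℂ} (hH : SmoothOnIci964 a H)
    (heq : ∀ r, a ≤ r → H' r = H r) : SmoothOnIci964 a H' := by
  intro N
  obtain ⟨h, hh, he⟩ := hH N
  exact ⟨h, hh, fun r hr => (he r hr).trans (heq r hr).symm⟩

theorem SmoothOnIci964.mono {a b : ℝ} {H : ℝ → ℂ} (hH : SmoothOnIci964 a H) (hab : a ≤ b) :
    SmoothOnIci964 b H := by
  intro N
  obtain ⟨h, hh, he⟩ := hH N
  exact ⟨h, hh, fun r hr => he r (le_trans hab hr)⟩

/-- **Composition**: `H ∘ ψ` is smooth for every smooth `ψ` with values in `[a, ∞)`. -/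
theorem SmoothOnIci964.comp {E : Type*} [NormedAddCommGroup E] [NormedSpace ℝ E] {a : ℝ}
    {H : ℝ → ℂ} (hH : SmoothOnIci964 a H) {ψ : E → ℝ} (hψ : ContDiff ℝ ∞ ψ)
    (ha : ∀ x, a ≤ ψ x) : ContDiff ℝ ∞ (fun x => H (ψ x)) := by
  rw [contDiff_infty]
  intro N
  obtain ⟨h, hh, heq⟩ := hH N
  have e : (fun x => H (ψ x)) = fun x => h (ψ x) := funext fun x => (heq _ (ha x)).symm
  rw [e]
  exact hh.comp (hψ.of_le (by exact_mod_cast le_top))

theorem SmoothOnIci964.continuousOn {a : ℝ} {H : ℝ → ℂ} (hH : SmoothOnIci964 a H) :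
    ContinuousOn H (Ici a) := by
  obtain ⟨h, hh, heq⟩ := hH 0
  exact hh.continuous.continuousOn.congr (fun r hr => (heq r hr).symm)

theorem SmoothOnIci964.add {a : ℝ} {H K : ℝ → ℂ} (hH : SmoothOnIci964 a H)
    (hK : SmoothOnIci964 a K) : SmoothOnIci964 a (fun r => H r + K r) := by
  intro N
  obtain ⟨h, hh, he⟩ := hH N
  obtain ⟨k, hk, hke⟩ := hK N
  exact ⟨fun r => h r + k r, hh.add hk, fun r hr => by simp only [he r hr, hke r hr]⟩

theorem SmoothOnIci964.mul {a : ℝ} {H K : ℝ → ℂ} (hH : SmoothOnIci964 a H)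
    (hK : SmoothOnIci964 a K) : SmoothOnIci964 a (fun r => H r * K r) := by
  intro N
  obtain ⟨h, hh, he⟩ := hH N
  obtain ⟨k, hk, hke⟩ := hK N
  exact ⟨fun r => h r * k r, hh.mul hk, fun r hr => by simp only [he r hr, hke r hr]⟩

theorem SmoothOnIci964.const_mul {a : ℝ} {H : ℝ → ℂ} (hH : SmoothOnIci964 a H) (c : ℂ) :
    SmoothOnIci964 a (fun r => c * H r) :=
  (smoothOnIci_of_contDiff964 a (contDiff_const (c := c))).mul hH

/-- An extension of a function vanishing above `R` vanishes above `max R a`. -/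
theorem vanishesAbove_ext964 {a R : ℝ} {g h : ℝ → ℂ} (hv : VanishesAbove964 R g)
    (heq : ∀ r, a ≤ r → h r = g r) : VanishesAbove964 (max R a) h := by
  intro x hx
  rw [heq x (le_trans (le_max_right R a) hx.le)]
  exact hv x (lt_of_le_of_lt (le_max_left R a) hx)

/-- The Abel transform preserves smoothness on `[a, ∞)`. -/
theorem SmoothOnIci964.abelT {a R : ℝ} {g : ℝ → ℂ} (hg : SmoothOnIci964 a g)
    (hv : VanishesAbove964 R g) : SmoothOnIci964 a (abelT964 g) := by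
  intro N
  obtain ⟨h, hh, heq⟩ := hg N
  exact ⟨abelT964 h, contDiff_abelT_nat964 N hh (vanishesAbove_ext964 hv heq),
    fun r hr => abelT_congr_Ici964 heq r hr⟩

/-- The derivatives of two differentiable functions which agree on `[a, ∞)` agree on `[a, ∞)`. -/
theorem deriv_eq_of_eqOn_Ici964 {h h' : ℝ → ℂ} {a x : ℝ} (hh : DifferentiableAt ℝ h x)
    (hh' : DifferentiableAt ℝ h' x) (heq : ∀ r, a ≤ r → h r = h' r) (hx : a ≤ x) :
    deriv h x = deriv h' x := by
  have hu : UniqueDiffWithinAt ℝ (Ici a) x := uniqueDiffOn_Ici a x hx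
  rw [← hh.derivWithin hu, ← hh'.derivWithin hu]
  exact derivWithin_congr (fun r hr => heq r hr) (heq x hx)

/-- `abelInv964 H` on `[a, ∞)` depends only on `H` on `[a, ∞)`. -/
theorem abelInv_congr_Ici964 {H H' : ℝ → ℂ} {a : ℝ} (hH : Differentiable ℝ H)
    (hH' : Differentiable ℝ H') (heq : ∀ r, a ≤ r → H r = H' r) (r : ℝ) (hr : a ≤ r) :
    abelInv964 H r = abelInv964 H' r := by
  unfold abelInv964
  congr 1
  exact abelT_congr_Ici964 (fun x hx => deriv_eq_of_eqOn_Ici964 (hH x) (hH' x) heq hx) r hr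

/-- **Forward direction**: for `g` smooth on `[1, ∞)` vanishing above `R`, the function
`t ↦ (A g)(cosh t)` is smooth, even, and vanishes when `cosh t > R`. -/
theorem abel_forward964 {R : ℝ} {g : ℝ → ℂ} (hg : SmoothOnIci964 1 g)
    (hv : VanishesAbove964 R g) :
    ContDiff ℝ ∞ (fun t : ℝ => abelT964 g (Real.cosh t)) ∧
      IsEven964 (fun t : ℝ => abelT964 g (Real.cosh t)) ∧
      ∀ t : ℝ, R < Real.cosh t → abelT964 g (Real.cosh t) = 0 := by
  refine ⟨(hg.abelT hv).comp Real.contDiff_cosh Real.one_le_cosh, fun t => ?_, fun t ht => ?_⟩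
  · change abelT964 g (Real.cosh (-t)) = abelT964 g (Real.cosh t)
    rw [Real.cosh_neg]
  · exact abelT_vanishesAbove964 hv _ ht

/-- **Existence, weight `0`**: a smooth even `F` vanishing for `|t| > T` is `t ↦ (A g)(cosh t)`
for a `g` of class `C¹` on `ℝ`, smooth on `[1, ∞)`, vanishing above `cosh T`. -/
theorem abel_exists964 {F : ℝ → ℂ} (hF : ContDiff ℝ ∞ F) (he : IsEven964 F) {T : ℝ}
    (hT : ∀ t : ℝ, T < |t| → F t = 0) :
    ∃ g : ℝ → ℂ, ContDiff ℝ 1 g ∧ SmoothOnIci964 1 g ∧ VanishesAbove964 (Real.cosh T) g ∧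
      ∀ t : ℝ, F t = abelT964 g (Real.cosh t) := by
  have hW := fun N : ℕ => whitney_cosh964 hF he N
  choose h hh hFh using hW
  have hv : ∀ N, VanishesAbove964 (Real.cosh T) (h N) :=
    fun N x hx => eq_zero_of_cosh_lt964 (hFh N) hT hx
  have hd : ∀ N, Differentiable ℝ (h (N + 1)) :=
    fun N => (hh (N + 1)).differentiable (by exact_mod_cast Nat.succ_ne_zero N)
  have h2 : ContDiff ℝ 2 (h 2) := by exact_mod_cast hh 2
  refine ⟨abelInv964 (h 2), ?_, ?_, abelInv_vanishesAbove964 (hv 2), fun t => ?_⟩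
  · have := contDiff_abelInv_nat964 1 (H := h 2) (hh 2) (hv 2)
    exact_mod_cast this
  · intro N
    refine ⟨abelInv964 (h (N + 1)), contDiff_abelInv_nat964 N (hh (N + 1)) (hv (N + 1)),
      fun r hr => ?_⟩
    exact abelInv_congr_Ici964 (hd N) (hd 1)
      (fun x hx => eq_on_Ici_of_cosh964 (hFh (N + 1)) (hFh 2) x hx) r hr
  · rw [abelT_abelInv964 h2 (hv 2)]
    exact hFh 2 t

/-- **Uniqueness** (functions of class `C¹` on `ℝ`). -/
theorem abel_unique964 {g g' : ℝ → ℂ} {R R' : ℝ} (hg : ContDiff ℝ 1 g)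
    (hg' : ContDiff ℝ 1 g') (hv : VanishesAbove964 R g) (hv' : VanishesAbove964 R' g')
    (h : ∀ t : ℝ, abelT964 g (Real.cosh t) = abelT964 g' (Real.cosh t)) :
    ∀ r : ℝ, 1 ≤ r → g r = g' r := by
  intro r hr
  have hA : ∀ x : ℝ, 1 ≤ x → abelT964 g x = abelT964 g' x := by
    intro x hx
    have := h (Real.arcosh x)
    rwa [Real.cosh_arcosh hx] at this
  rw [← abelInv_abelT964 hg hv r, ← abelInv_abelT964 hg' hv' r]
  exact abelInv_congr_Ici964 (differentiable_abelT964 hg hv) (differentiable_abelT964 hg' hv')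
    hA r hr

/-- **Uniqueness** (functions smooth on `[1, ∞)`). -/
theorem abel_unique_Ici964 {g g' : ℝ → ℂ} {R R' : ℝ} (hg : SmoothOnIci964 1 g)
    (hg' : SmoothOnIci964 1 g') (hv : VanishesAbove964 R g) (hv' : VanishesAbove964 R' g')
    (h : ∀ t : ℝ, abelT964 g (Real.cosh t) = abelT964 g' (Real.cosh t)) :
    ∀ r : ℝ, 1 ≤ r → g r = g' r := by
  obtain ⟨k, hk, hke⟩ := hg 1
  obtain ⟨k', hk', hke'⟩ := hg' 1
  have hk1 : ContDiff ℝ 1 k := by exact_mod_cast hk
  have hk1' : ContDiff ℝ 1 k' := by exact_mod_cast hk'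
  intro r hr
  rw [← hke r hr, ← hke' r hr]
  refine abel_unique964 hk1 hk1' (vanishesAbove_ext964 hv hke) (vanishesAbove_ext964 hv' hke')
    (fun t => ?_) r hr
  rw [abelT_congr_Ici964 hke _ (Real.one_le_cosh t),
    abelT_congr_Ici964 hke' _ (Real.one_le_cosh t)]
  exact h t

/-! ## Weight one -/

theorem two_cosh_ne_zero964 (t : ℝ) : ((2 * Real.cosh (t / 2) : ℝ) : ℂ) ≠ 0 := by
  have : 0 < Real.cosh (t / 2) := Real.cosh_pos _
  exact_mod_cast (by positivity : (2 * Real.cosh (t / 2) : ℝ) ≠ 0)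

/-- **Existence, weight `1`** (in terms of `G₁ = g₁ / √(ρ + 1)`): a smooth even `F` vanishing
for `|t| > T` is `t ↦ 2 cosh(t/2) (A G₁)(cosh t)`. -/
theorem abel_exists_wt1_964 {F : ℝ → ℂ} (hF : ContDiff ℝ ∞ F) (he : IsEven964 F) {T : ℝ}
    (hT : ∀ t : ℝ, T < |t| → F t = 0) :
    ∃ G : ℝ → ℂ, ContDiff ℝ 1 G ∧ SmoothOnIci964 1 G ∧ VanishesAbove964 (Real.cosh T) G ∧
      ∀ t : ℝ, F t = ((2 * Real.cosh (t / 2) : ℝ) : ℂ) * abelT964 G (Real.cosh t) := by
  have hden : ContDiff ℝ ∞ (fun t : ℝ => ((2 * Real.cosh (t / 2) : ℝ) : ℂ)) := by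
    have h1 : ContDiff ℝ ∞ (fun t : ℝ => 2 * Real.cosh (t / 2)) :=
      contDiff_const.mul (Real.contDiff_cosh.comp (contDiff_id.div_const 2))
    exact Complex.ofRealCLM.contDiff.comp h1
  have hsm : ContDiff ℝ ∞ (fun t : ℝ => F t / ((2 * Real.cosh (t / 2) : ℝ) : ℂ)) := by
    simp only [div_eq_mul_inv]
    exact hF.mul (hden.inv two_cosh_ne_zero964)
  have hev : IsEven964 (fun t : ℝ => F t / ((2 * Real.cosh (t / 2) : ℝ) : ℂ)) := by
    intro t
    change F (-t) / ((2 * Real.cosh (-t / 2) : ℝ) : ℂ) = F t / ((2 * Real.cosh (t / 2) : ℝ) : ℂ)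
    rw [he, neg_div, Real.cosh_neg]
  have hz : ∀ t : ℝ, T < |t| → (fun t : ℝ => F t / ((2 * Real.cosh (t / 2) : ℝ) : ℂ)) t = 0 := by
    intro t ht
    change F t / _ = 0
    rw [hT t ht, zero_div]
  obtain ⟨G, hG1, hGs, hGv, hGF⟩ := abel_exists964 hsm hev hz
  refine ⟨G, hG1, hGs, hGv, fun t => ?_⟩
  rw [← hGF t]
  exact (mul_div_cancel₀ (F t) (two_cosh_ne_zero964 t)).symm

/-- A smooth function on `ℝ`, `≥ 1`, equal to `ρ + 1` on `[1, ∞)`. -/
def shiftExt964 (r : ℝ) : ℝ := 1 + Real.smoothTransition r * r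

theorem contDiff_shiftExt964 : ContDiff ℝ ∞ shiftExt964 := by
  unfold shiftExt964
  exact contDiff_const.add (Real.smoothTransition.contDiff.mul contDiff_id)

theorem one_le_shiftExt964 (r : ℝ) : 1 ≤ shiftExt964 r := by
  unfold shiftExt964
  rcases le_or_gt r 0 with h | h
  · rw [Real.smoothTransition.zero_of_nonpos h]
    simp
  · have := mul_nonneg (Real.smoothTransition.nonneg r) h.le
    linarith

theorem shiftExt_of_one_le964 {r : ℝ} (hr : 1 ≤ r) : shiftExt964 r = r + 1 := by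
  unfold shiftExt964
  rw [Real.smoothTransition.one_of_one_le hr]
  ring

/-- `ρ ↦ √(ρ + 1)` is smooth on `[1, ∞)`. -/
theorem smoothOnIci_sqrt964 : SmoothOnIci964 1 (fun r : ℝ => ((Real.sqrt (r + 1) : ℝ) : ℂ)) := by
  have h1 : ContDiff ℝ ∞ (fun r : ℝ => Real.sqrt (shiftExt964 r)) :=
    contDiff_shiftExt964.sqrt (fun r => by linarith [one_le_shiftExt964 r])
  have h2 : ContDiff ℝ ∞ (fun r : ℝ => ((Real.sqrt (shiftExt964 r) : ℝ) : ℂ)) :=
    Complex.ofRealCLM.contDiff.comp h1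
  exact (smoothOnIci_of_contDiff964 1 h2).congr (fun r hr => by rw [shiftExt_of_one_le964 hr])

/-- **Existence, weight `1`** (in terms of `g₁ = √(ρ + 1) G₁`, the radial part of
`f₁ = conj(A)/|A| · g₁(ρ)`): a smooth even `F` vanishing for `|t| > T` is
`t ↦ 2 cosh(t/2) ∫ g₁(cosh t + u²) / √(cosh t + u² + 1) du`. -/
theorem abel_exists_wt1'_964 {F : ℝ → ℂ} (hF : ContDiff ℝ ∞ F) (he : IsEven964 F) {T : ℝ}
    (hT : ∀ t : ℝ, T < |t| → F t = 0) :
    ∃ g : ℝ → ℂ, SmoothOnIci964 1 g ∧ VanishesAbove964 (Real.cosh T) g ∧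
      ∀ t : ℝ, F t = ((2 * Real.cosh (t / 2) : ℝ) : ℂ) *
        ∫ u : ℝ, g (Real.cosh t + u ^ 2) / ((Real.sqrt (Real.cosh t + u ^ 2 + 1) : ℝ) : ℂ) := by
  obtain ⟨G, _, hGs, hGv, hGF⟩ := abel_exists_wt1_964 hF he hT
  refine ⟨fun r => ((Real.sqrt (r + 1) : ℝ) : ℂ) * G r, smoothOnIci_sqrt964.mul hGs,
    fun x hx => by simp [hGv x hx], fun t => ?_⟩
  rw [hGF t]
  congr 1
  unfold abelT964
  congr 1
  funext u
  have hpos : 0 < Real.cosh t + u ^ 2 + 1 := by
    have := Real.cosh_pos t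
    have := sq_nonneg u
    linarith
  have hne : ((Real.sqrt (Real.cosh t + u ^ 2 + 1) : ℝ) : ℂ) ≠ 0 := by
    exact_mod_cast (Real.sqrt_pos.mpr hpos).ne'
  field_simp

end Fermat.Agent.LT.T6.H964

end
end
-- ===== PACK-END LT/T6/H964/SmoothIci.lean

-- ===== PACK-BEGIN LT/H670/QOut/Spec.lean
section


/-!
# Row LT, tower T7, sub-tower QOUT (helper670): SPEC

OFF-MAIN.  Frozen interface + frozen leaf Props + PROVED top.  Nothing is assumed: every leaf is a
`Prop`, the top is a theorem taking the leaves as hypotheses.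

## What QOUT does

Input (`IsHolWtOneFormFor π φ`, vocabulary of `H556/A0.lean` only): a bounded function `φ ≠ 0` on
`GL₂(𝔸_ℚ)`, left `GL₂(ℚ)`-invariant, right `U(π.level)`-invariant, invariant under the positive
real scalars, of WEIGHT ONE under `SO(2)` (`φ(g k_θ) = e^{iθ} φ(g)`), HOLOMORPHIC
(`z ↦ y^{-1/2} φ(g_z g_f)` is holomorphic on `ℍ` for every `g_f` trivial at the real place), and a
Hecke eigenfunction at `v ∤ π.level` with the eigenvalues of `π`
(`A0.IsHeckeEigenAt φ v (π.a v) (π.b v)`).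

Output (`ClassOut π`): `N`, a Dirichlet character `ε` mod `N` and a normalised cuspidal
eigenform `f` of weight one on `Γ₁(N)` (`A0.IsWtOneEigenform N ε f`) with
`a_p(f) = π.a p`, `ε(p) = π.b p` at ALL primes `p ∤ N`; adapter `classOut_isCuspHolQ` to
`A0.IsCuspHolQ`.

No cuspidality hypothesis on `φ` is needed: bounded + weight one + holomorphic gives
`|f(z)| ≤ C y^{-1/2}` for every member of the family, hence vanishing at all cusps.
No strong approximation is needed (only left translation by rational matrices).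

## Leaves

* `QA` -- adelic to classical: a NONZERO cusp form `G` on `Γ₁(M)` with the TWISTED Hecke relations
  `c_{pn} + β(p) c_{n/p} = α(p) a_p c_n`, `β(p) = α(p)² b_p` (`α = ψ₁`, `β = ψ₁/ψ₂` for an
  eigencharacter `(ψ₁,ψ₂)` of the diagonal torus mod the level).
* `QN` -- classical: normalisation (`U_m` to reach `c_1 ≠ 0`) and untwisting by `α⁻¹`.
-/

set_option autoImplicit false

open IsDedekindDomain NumberField AutomorphicForm
open CongruenceSubgroup UpperHalfPlane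
open scoped MatrixGroups Manifold

noncomputable section

namespace Fermat.Agent.LT.H670.QOut

open Fermat.Agent.LT.H556

/-! ## The interface -/

/-- the matrix of `k_θ = [[cos θ, sin θ], [-sin θ, cos θ]]` -/
def rotC (θ : ℝ) : Matrix (Fin 2) (Fin 2) ℂ :=
  !![((Real.cos θ : ℝ) : ℂ), ((Real.sin θ : ℝ) : ℂ);
     -((Real.sin θ : ℝ) : ℂ), ((Real.cos θ : ℝ) : ℂ)]

/-- the matrix of `g_z = [[y, x], [0, 1]]` -/
def gzC (z : ℍ) : Matrix (Fin 2) (Fin 2) ℂ :=
  !![((z.im : ℝ) : ℂ), ((z.re : ℝ) : ℂ); 0, 1]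

/-- **Input of QOUT.**  `φ` is a holomorphic form of weight one on `GL₂(𝔸_ℚ)` of level
`U(π.level)` with the Hecke eigensystem `π` away from the level. -/
structure IsHolWtOneFormFor (π : HeckeEigensystem ℚ ℂ) (φ : A0.G ℚ → ℂ) : Prop where
  bdd : ∃ C : ℝ, ∀ g : A0.G ℚ, ‖φ g‖ ≤ C
  ne_zero : ∃ g : A0.G ℚ, φ g ≠ 0
  left_inv : ∀ (γ : GL (Fin 2) ℚ) (g : A0.G ℚ),
    φ (Matrix.GeneralLinearGroup.map (algebraMap ℚ (A0.Adl ℚ)) γ * g) = φ g
  level_inv : ∀ u : A0.G ℚ, A0.InLevelGroup π.level u → ∀ g : A0.G ℚ, φ (g * u) = φ g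
  arch_scalar : ∀ (w : InfinitePlace ℚ) (z : A0.G ℚ), A0.IsArchPosScalar w z →
    ∀ g : A0.G ℚ, φ (g * z) = φ g
  weight_one : ∀ (w : InfinitePlace ℚ) (θ : ℝ) (k : A0.G ℚ), A0.IsLocalAtInf w k →
    A0.infComp w k = rotC θ →
    ∀ g : A0.G ℚ, φ (g * k) = Complex.exp (Complex.I * ((θ : ℝ) : ℂ)) * φ g
  holo : ∀ (w : InfinitePlace ℚ) (Y : ℍ → A0.G ℚ),
    (∀ z : ℍ, A0.IsLocalAtInf w (Y z) ∧ A0.infComp w (Y z) = gzC z) →
    ∀ g : A0.G ℚ, (∀ w' : InfinitePlace ℚ, A0.TrivAtInf w' g) →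
      MDifferentiable 𝓘(ℂ) 𝓘(ℂ)
        (fun z : ℍ => (((Real.sqrt z.im : ℝ) : ℂ))⁻¹ * φ (Y z * g))
  hecke : ∀ v : HeightOneSpectrum (𝓞 ℚ), ¬ v.asIdeal ∣ π.level →
    A0.IsHeckeEigenAt φ v (π.a v) (π.b v)

/-- **Output of QOUT.**  A classical normalised weight-one cuspidal eigenform with the
eigenvalues of `π` at all primes not dividing its level. -/
def ClassOut (π : HeckeEigensystem ℚ ℂ) : Prop :=
  ∃ (N : ℕ) (_ : NeZero N) (ε : DirichletCharacter ℂ N) (f : CuspForm (Gamma1 N) 1),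
    A0.IsWtOneEigenform N ε f ∧
      ∀ p : Nat.Primes, ¬ (p : ℕ) ∣ N →
        π.a (ratPrime p) = ModularFormClass.qCoeff f (p : ℕ) ∧
        π.b (ratPrime p) = ε (((p : ℕ) : ℕ) : ZMod N)

/-- **THE STATEMENT OF QOUT.** -/
def QOutC : Prop :=
  ∀ (π : HeckeEigensystem ℚ ℂ) (φ : A0.G ℚ → ℂ), IsHolWtOneFormFor π φ → ClassOut π

/-! ## The leaves -/

/-- twisted Hecke relations for the coefficients of `G` -/
def TwistedEigen (M : ℕ) (α β : DirichletCharacter ℂ M) (a b : Nat.Primes → ℂ)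
    (G : CuspForm (Gamma1 M) 1) : Prop :=
  ∀ p : Nat.Primes, ¬ (p : ℕ) ∣ M →
    (∀ n : ℕ,
      ModularFormClass.qCoeff G ((p : ℕ) * n) +
          β (((p : ℕ) : ℕ) : ZMod M) *
            (if (p : ℕ) ∣ n then ModularFormClass.qCoeff G (n / (p : ℕ)) else 0) =
        α (((p : ℕ) : ℕ) : ZMod M) * a p * ModularFormClass.qCoeff G n) ∧
    β (((p : ℕ) : ℕ) : ZMod M) = α (((p : ℕ) : ℕ) : ZMod M) ^ 2 * b p

/-- **Leaf QA (adelic to classical).**  From the adelic form: a nonzero classical cusp form of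
weight one on `Γ₁(M)` with the twisted Hecke relations.
(`M = N₀²` for `π.level = (N₀)`; `G(z) = F(N₀ z)`, `F = y^{-1/2} φ_Ψ(g_z)` for a nonzero
eigen-projection `φ_Ψ` of `φ` under the diagonal torus mod `N₀`; `α = ψ₁`, `β = ψ₁ ψ₂⁻¹`.) -/
def QA : Prop :=
  ∀ (π : HeckeEigensystem ℚ ℂ) (φ : A0.G ℚ → ℂ), IsHolWtOneFormFor π φ →
    ∃ (M : ℕ) (_ : NeZero M) (α β : DirichletCharacter ℂ M) (G : CuspForm (Gamma1 M) 1),
      G ≠ 0 ∧ TwistedEigen M α β (fun p => π.a (ratPrime p)) (fun p => π.b (ratPrime p)) G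

/-- **Leaf QN (classical normalisation and untwisting).**  A nonzero cusp form with twisted
Hecke relations gives a normalised eigenform with the untwisted relations. -/
def QN : Prop :=
  ∀ (M : ℕ) (_ : NeZero M) (α β : DirichletCharacter ℂ M) (a b : Nat.Primes → ℂ)
    (G : CuspForm (Gamma1 M) 1), G ≠ 0 → TwistedEigen M α β a b G →
    ∃ (N : ℕ) (_ : NeZero N) (ε : DirichletCharacter ℂ N) (f : CuspForm (Gamma1 N) 1),
      A0.IsWtOneEigenform N ε f ∧
        ∀ p : Nat.Primes, ¬ (p : ℕ) ∣ N →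
          a p = ModularFormClass.qCoeff f (p : ℕ) ∧ b p = ε (((p : ℕ) : ℕ) : ZMod N)

/-! ## The top -/

/-- **QOUT from its two leaves.** -/
theorem qOut_of_leaves (hA : QA) (hN : QN) : QOutC := by
  intro π φ hφ
  obtain ⟨M, hM, α, β, G, hG, hrel⟩ := hA π φ hφ
  exact hN M hM α β _ _ G hG hrel

/-! ## Adapter to `A0.IsCuspHolQ` -/

/-- the eigensystem `π` with its level replaced by `(N)` -/
def relevel (π : HeckeEigensystem ℚ ℂ) (N : ℕ) [NeZero N] : HeckeEigensystem ℚ ℂ where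
  level := Ideal.span {((N : ℕ) : 𝓞 ℚ)}
  level_ne_bot := by
    rw [Ne, Ideal.span_singleton_eq_bot, Nat.cast_eq_zero]
    exact NeZero.ne N
  a := π.a
  b := π.b

/-- **Adapter.**  The output of QOUT is the second alternative of `A0.notion556`, for an
eigensystem with THE SAME functions `a`, `b` (so every statement about `π.a`, `π.b`, e.g.
`BotData`, transfers by `rfl`). -/
theorem classOut_isCuspHolQ (π : HeckeEigensystem ℚ ℂ) (h : ClassOut π) :
    ∃ π' : HeckeEigensystem ℚ ℂ, π'.a = π.a ∧ π'.b = π.b ∧ A0.IsCuspHolQ ℚ π' := by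
  obtain ⟨N, hN, ε, f, hf, hmatch⟩ := h
  refine ⟨relevel π N, rfl, rfl, Module.finrank_self ℚ, N, hN, ε, f, hf, le_refl _, ?_⟩
  intro v hv
  obtain ⟨p, rfl⟩ := exists_eq_ratPrime v
  rw [natCast_mem_ratPrime_iff] at hv
  rw [absNorm_ratPrime]
  exact hmatch p hv

/-- **QOUT, in the vocabulary of the wall.** -/
theorem qOut_isCuspHolQ (hQ : QOutC) (π : HeckeEigensystem ℚ ℂ) (φ : A0.G ℚ → ℂ)
    (hφ : IsHolWtOneFormFor π φ) :
    ∃ π' : HeckeEigensystem ℚ ℂ, π'.a = π.a ∧ π'.b = π.b ∧ A0.notion556.IsCusp ℚ π' := by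
  obtain ⟨π', ha, hb, h⟩ := classOut_isCuspHolQ π (hQ π φ hφ)
  exact ⟨π', ha, hb, Or.inr h⟩

end Fermat.Agent.LT.H670.QOut

end

end
-- ===== PACK-END LT/H670/QOut/Spec.lean

-- ===== PACK-BEGIN LT/T2/H354/Phase.lean
section




/-!
# Row LT, tower T2, leaf T2.26 (helper354): the local phases

For a `2 × 2` complex matrix `M`:

* `pA354 M = ((M₀₀ + M₁₁) + i (M₁₀ - M₀₁)) / 2`: for a real matrix, the `ℂ`-linear part of the
  `ℝ`-linear map `M` of `ℂ = ℝ²`; it is multiplied by `e^{iθ}` under left and right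
  multiplication by the rotation of angle `θ`;
* `ptR354 M = pA354 M / √(frob M / 2)` (real places), `ptC354 M = det M / (frob M / 2)` (complex
  places): of absolute value `≤ 1`, equivariant under `SO(2)`, resp. `U(2)`, on both sides,
  conjugated by inversion;
* `zp354 z n = z ^ n` for `n ≥ 0`, `(conj z) ^ (-n)` for `n < 0`.

Mathlib only (+ `frob907` of helper907).
-/

open Matrix

noncomputable section

namespace Fermat.Agent.LT.T2.H354

open Fermat.Agent.LT.T2.H907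

local notation "conj" => starRingEnd ℂ

/-! ## `pA` -/

/-- The `ℂ`-linear part. -/
def pA354 (M : Matrix (Fin 2) (Fin 2) ℂ) : ℂ :=
  ((M 0 0 + M 1 1) + Complex.I * (M 1 0 - M 0 1)) / 2

/-- The matrix `[[a, -b], [b, a]]`. -/
def roM354 (a b : ℂ) : Matrix (Fin 2) (Fin 2) ℂ := !![a, -b; b, a]

theorem pA354_roM (a b : ℂ) : pA354 (roM354 a b) = a + Complex.I * b := by
  simp only [pA354, roM354, Matrix.of_apply, Matrix.cons_val', Matrix.cons_val_zero,
    Matrix.cons_val_one, Matrix.cons_val_fin_one]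
  ring

theorem pA354_one : pA354 1 = 1 := by
  simp [pA354]

theorem pA354_mul_roM (M : Matrix (Fin 2) (Fin 2) ℂ) (a b : ℂ) :
    pA354 (M * roM354 a b) = pA354 M * (a + Complex.I * b) := by
  simp only [pA354, mul_apply354, roM354, Matrix.of_apply, Matrix.cons_val', Matrix.cons_val_zero,
    Matrix.cons_val_one, Matrix.cons_val_fin_one]
  linear_combination (-(M 1 0 - M 0 1) * b / 2) * Complex.I_mul_I

theorem pA354_roM_mul (M : Matrix (Fin 2) (Fin 2) ℂ) (a b : ℂ) :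
    pA354 (roM354 a b * M) = (a + Complex.I * b) * pA354 M := by
  simp only [pA354, mul_apply354, roM354, Matrix.of_apply, Matrix.cons_val', Matrix.cons_val_zero,
    Matrix.cons_val_one, Matrix.cons_val_fin_one]
  linear_combination (-(M 1 0 - M 0 1) * b / 2) * Complex.I_mul_I

/-- Real matrices. -/
def IsRe354 (M : Matrix (Fin 2) (Fin 2) ℂ) : Prop := ∀ i j, (M i j).im = 0

theorem IsRe354.conj_eq {M : Matrix (Fin 2) (Fin 2) ℂ} (h : IsRe354 M) (i j : Fin 2) :
    conj (M i j) = M i j :=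
  Complex.conj_eq_iff_im.2 (h i j)

theorem IsRe354.det_im {M : Matrix (Fin 2) (Fin 2) ℂ} (h : IsRe354 M) : M.det.im = 0 := by
  rw [Matrix.det_fin_two]
  simp [h 0 0, h 0 1, h 1 0, h 1 1]

theorem isRe354_one : IsRe354 1 := by
  intro i j
  by_cases h : i = j
  · subst h; simp
  · simp [Matrix.one_apply_ne h]

/-- A real special orthogonal matrix is a rotation. -/
theorem eq_roM354_of_isU {k : Matrix (Fin 2) (Fin 2) ℂ} (hU : IsU354 k) (hd : k.det = 1)
    (hr : IsRe354 k) :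
    k = roM354 (k 0 0) (k 1 0) ∧ ‖k 0 0 + Complex.I * k 1 0‖ = 1 := by
  obtain ⟨h1, h2⟩ := eq_suM354_of_isU hU hd
  rw [hr.conj_eq, hr.conj_eq] at h2
  refine ⟨?_, ?_⟩
  · have : suM354 (k 0 0) (k 1 0) = roM354 (k 0 0) (k 1 0) := by
      unfold suM354 roM354
      rw [hr.conj_eq, hr.conj_eq]
    rw [← this]
    exact h1
  · have h3 : Complex.normSq (k 0 0 + Complex.I * k 1 0) = 1 := by
      have e0 : (k 0 0).im = 0 := hr 0 0
      have e1 : (k 1 0).im = 0 := hr 1 0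
      have h4 := congrArg Complex.re h2
      simp only [Complex.add_re, Complex.mul_re, e0, e1, mul_zero, sub_zero, Complex.one_re] at h4
      rw [Complex.normSq_apply]
      simp only [Complex.add_re, Complex.add_im, Complex.mul_re, Complex.mul_im, Complex.I_re,
        Complex.I_im, e0, e1]
      linarith
    rw [Complex.normSq_eq_norm_sq] at h3
    have h5 : ‖k 0 0 + Complex.I * k 1 0‖ ^ 2 = 1 ^ 2 := by rw [h3]; norm_num
    exact (sq_eq_sq₀ (norm_nonneg _) zero_le_one).mp h5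

theorem norm_pA354_of_isU {k : Matrix (Fin 2) (Fin 2) ℂ} (hU : IsU354 k) (hd : k.det = 1)
    (hr : IsRe354 k) : ‖pA354 k‖ = 1 := by
  obtain ⟨h1, h2⟩ := eq_roM354_of_isU hU hd hr
  rw [h1, pA354_roM]
  simpa [roM354] using h2

theorem pA354_mul_of_isU (M : Matrix (Fin 2) (Fin 2) ℂ) {k : Matrix (Fin 2) (Fin 2) ℂ}
    (hU : IsU354 k) (hd : k.det = 1) (hr : IsRe354 k) : pA354 (M * k) = pA354 M * pA354 k := by
  obtain ⟨h1, -⟩ := eq_roM354_of_isU hU hd hr
  rw [h1, pA354_mul_roM, pA354_roM]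

theorem pA354_of_isU_mul (M : Matrix (Fin 2) (Fin 2) ℂ) {k : Matrix (Fin 2) (Fin 2) ℂ}
    (hU : IsU354 k) (hd : k.det = 1) (hr : IsRe354 k) : pA354 (k * M) = pA354 k * pA354 M := by
  obtain ⟨h1, -⟩ := eq_roM354_of_isU hU hd hr
  rw [h1, pA354_roM_mul, pA354_roM]

/-- `|pA M|² = (frob M + 2 det M) / 4` for a real matrix. -/
theorem normSq_pA354 {M : Matrix (Fin 2) (Fin 2) ℂ} (hr : IsRe354 M) :
    Complex.normSq (pA354 M) = (frob907 M + 2 * M.det.re) / 4 := by
  have e00 : (M 0 0).im = 0 := hr 0 0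
  have e01 : (M 0 1).im = 0 := hr 0 1
  have e10 : (M 1 0).im = 0 := hr 1 0
  have e11 : (M 1 1).im = 0 := hr 1 1
  rw [frob907_eq, Matrix.det_fin_two]
  unfold pA354
  rw [Complex.normSq_div]
  simp only [Complex.normSq_apply, Complex.add_re, Complex.add_im, Complex.sub_re, Complex.sub_im,
    Complex.mul_re, Complex.mul_im, Complex.I_re, Complex.I_im, e00, e01, e10, e11,
    Complex.re_ofNat, Complex.im_ofNat]
  ring

/-- Inversion: `pA (M⁻¹) = conj (pA M) / det M` for a real matrix. -/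
theorem pA354_inv {M N : Matrix (Fin 2) (Fin 2) ℂ} (hr : IsRe354 M) (h : M * N = 1) :
    pA354 N * M.det = conj (pA354 M) := by
  have hdet : M.det * N.det = 1 := by rw [← Matrix.det_mul, h, Matrix.det_one]
  have hM : M.det ≠ 0 := left_ne_zero_of_mul_eq_one hdet
  have hN : N = M⁻¹ := (Matrix.inv_eq_right_inv h).symm
  have hNe : ∀ i j, N i j = M.det⁻¹ * (Matrix.adjugate M) i j := by
    intro i j
    rw [hN, Matrix.inv_def, Matrix.smul_apply, smul_eq_mul, Ring.inverse_eq_inv']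
  unfold pA354
  rw [hNe, hNe, hNe, hNe, Matrix.adjugate_fin_two]
  simp only [Matrix.of_apply, Matrix.cons_val', Matrix.cons_val_zero, Matrix.cons_val_one,
    Matrix.cons_val_fin_one, map_div₀, map_add, map_mul, map_sub, Complex.conj_I, hr.conj_eq]
  have h2 : conj (2 : ℂ) = 2 := map_ofNat _ 2
  rw [h2]
  field_simp
  ring

/-! ## The normalised phases -/

/-- The phase at a real place. -/
def ptR354 (M : Matrix (Fin 2) (Fin 2) ℂ) : ℂ :=
  pA354 M / ((Real.sqrt (frob907 M / 2) : ℝ) : ℂ)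

/-- The phase at a complex place. -/
def ptC354 (M : Matrix (Fin 2) (Fin 2) ℂ) : ℂ :=
  M.det / ((frob907 M / 2 : ℝ) : ℂ)

theorem frob907_pos_of_det {M : Matrix (Fin 2) (Fin 2) ℂ} (h : M.det ≠ 0) : 0 < frob907 M := by
  have h1 := two_norm_det_le_frob907 M
  have h2 : 0 < ‖M.det‖ := norm_pos_iff.2 h
  linarith

theorem frob907_one : frob907 (1 : Matrix (Fin 2) (Fin 2) ℂ) = 2 := by
  rw [frob907_eq]
  simp
  norm_num

theorem ptR354_one : ptR354 1 = 1 := by
  unfold ptR354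
  rw [pA354_one, frob907_one]
  simp

theorem ptC354_one : ptC354 1 = 1 := by
  unfold ptC354
  rw [Matrix.det_one, frob907_one]
  simp

theorem ptR354_mul_of_isU (M : Matrix (Fin 2) (Fin 2) ℂ) {k : Matrix (Fin 2) (Fin 2) ℂ}
    (hU : IsU354 k) (hd : k.det = 1) (hr : IsRe354 k) : ptR354 (M * k) = ptR354 M * pA354 k := by
  unfold ptR354
  rw [pA354_mul_of_isU M hU hd hr, frob907_mul_unitary M hU]
  ring

theorem ptR354_of_isU_mul (M : Matrix (Fin 2) (Fin 2) ℂ) {k : Matrix (Fin 2) (Fin 2) ℂ}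
    (hU : IsU354 k) (hd : k.det = 1) (hr : IsRe354 k) : ptR354 (k * M) = ptR354 M * pA354 k := by
  unfold ptR354
  rw [pA354_of_isU_mul M hU hd hr, frob907_unitary_mul M hU]
  ring

theorem ptC354_mul_of_isU (M : Matrix (Fin 2) (Fin 2) ℂ) {k : Matrix (Fin 2) (Fin 2) ℂ}
    (hU : IsU354 k) : ptC354 (M * k) = ptC354 M * k.det := by
  unfold ptC354
  rw [Matrix.det_mul, frob907_mul_unitary M hU]
  ring

theorem ptC354_of_isU_mul (M : Matrix (Fin 2) (Fin 2) ℂ) {k : Matrix (Fin 2) (Fin 2) ℂ}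
    (hU : IsU354 k) : ptC354 (k * M) = ptC354 M * k.det := by
  unfold ptC354
  rw [Matrix.det_mul, frob907_unitary_mul M hU]
  ring

theorem norm_ptC354_le (M : Matrix (Fin 2) (Fin 2) ℂ) : ‖ptC354 M‖ ≤ 1 := by
  unfold ptC354
  rw [norm_div, Complex.norm_real, Real.norm_eq_abs, abs_of_nonneg (by
    have := frob907_nonneg M; positivity)]
  have h1 := two_norm_det_le_frob907 M
  by_cases h : frob907 M = 0
  · rw [h]; simp
  · have hp : 0 < frob907 M := lt_of_le_of_ne (frob907_nonneg M) (Ne.symm h)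
    rw [div_le_one (by positivity)]
    linarith

theorem norm_ptR354_le {M : Matrix (Fin 2) (Fin 2) ℂ} (hr : IsRe354 M) : ‖ptR354 M‖ ≤ 1 := by
  unfold ptR354
  rw [norm_div, Complex.norm_real, Real.norm_eq_abs, abs_of_nonneg (Real.sqrt_nonneg _)]
  by_cases h : frob907 M = 0
  · rw [h]; simp
  · have hp : 0 < frob907 M := lt_of_le_of_ne (frob907_nonneg M) (Ne.symm h)
    have hs : 0 < Real.sqrt (frob907 M / 2) := Real.sqrt_pos.2 (by positivity)
    rw [div_le_one hs]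
    apply Real.le_sqrt_of_sq_le
    rw [← Complex.normSq_eq_norm_sq, normSq_pA354 hr]
    have h1 := two_norm_det_le_frob907 M
    have h2 : M.det.re ≤ ‖M.det‖ := Complex.re_le_norm _
    linarith

/-- Inversion at a complex place. -/
theorem ptC354_inv {M N : Matrix (Fin 2) (Fin 2) ℂ} (h : M * N = 1) :
    ptC354 N = conj (ptC354 M) := by
  have hdet : M.det * N.det = 1 := by rw [← Matrix.det_mul, h, Matrix.det_one]
  have hM : M.det ≠ 0 := left_ne_zero_of_mul_eq_one hdet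
  have hf := frob907_inv h
  have hfM := frob907_pos_of_det hM
  have hnM : 0 < ‖M.det‖ := norm_pos_iff.2 hM
  have hfN : frob907 N = frob907 M / ‖M.det‖ ^ 2 := by
    rw [← hf]; field_simp
  have hNd : N.det = M.det⁻¹ := eq_inv_of_mul_eq_one_right hdet
  unfold ptC354
  rw [map_div₀, Complex.conj_ofReal, hfN, hNd]
  have hcc : (M.det) * conj M.det = ((‖M.det‖ ^ 2 : ℝ) : ℂ) := by
    rw [Complex.mul_conj, Complex.normSq_eq_norm_sq]
  have hfc : ((frob907 M : ℝ) : ℂ) ≠ 0 := by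
    rw [Ne, Complex.ofReal_eq_zero]; exact hfM.ne'
  have hnc : ((‖M.det‖ : ℝ) : ℂ) ≠ 0 := by
    rw [Ne, Complex.ofReal_eq_zero]; exact hnM.ne'
  push_cast at hcc ⊢
  field_simp
  linear_combination (-1 : ℂ) * hcc

/-- Inversion at a real place, for a matrix of positive determinant. -/
theorem ptR354_inv {M N : Matrix (Fin 2) (Fin 2) ℂ} (hr : IsRe354 M) (h : M * N = 1)
    (hpos : 0 < M.det.re) : ptR354 N = conj (ptR354 M) := by
  have hdet : M.det * N.det = 1 := by rw [← Matrix.det_mul, h, Matrix.det_one]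
  have hM : M.det ≠ 0 := left_ne_zero_of_mul_eq_one hdet
  have hf := frob907_inv h
  have hfM := frob907_pos_of_det hM
  have hdr : M.det = ((M.det.re : ℝ) : ℂ) := Complex.ext (by simp) (by simpa using hr.det_im)
  have hnM : ‖M.det‖ = M.det.re := by
    rw [hdr, Complex.norm_real, Real.norm_eq_abs, abs_of_pos (by simpa using hpos)]
    simp
  have hfN : frob907 N / 2 = frob907 M / 2 / M.det.re ^ 2 := by
    rw [← hf, hnM]; field_simp
  have hsq : Real.sqrt (frob907 N / 2) = Real.sqrt (frob907 M / 2) / M.det.re := by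
    rw [hfN, Real.sqrt_div (by positivity), Real.sqrt_sq hpos.le]
  have hpa := pA354_inv hr h
  unfold ptR354
  rw [map_div₀, Complex.conj_ofReal, hsq, ← hpa]
  have hs : 0 < Real.sqrt (frob907 M / 2) := Real.sqrt_pos.2 (by positivity)
  have hsc : ((Real.sqrt (frob907 M / 2) : ℝ) : ℂ) ≠ 0 := by
    rw [Ne, Complex.ofReal_eq_zero]; exact hs.ne'
  have hdc : ((M.det.re : ℝ) : ℂ) ≠ 0 := by
    rw [Ne, Complex.ofReal_eq_zero]; exact hpos.ne'
  rw [hdr]
  push_cast
  simp only [Complex.ofReal_re]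
  field_simp

/-! ## Powers -/

/-- `z ^ n` for `n ≥ 0`, `(conj z) ^ (-n)` for `n < 0`. -/
def zp354 (z : ℂ) (n : ℤ) : ℂ :=
  if 0 ≤ n then z ^ n.toNat else (conj z) ^ (-n).toNat

theorem zp354_one (n : ℤ) : zp354 1 n = 1 := by
  unfold zp354
  split_ifs <;> simp

theorem zp354_conj (z : ℂ) (n : ℤ) : zp354 (conj z) n = conj (zp354 z n) := by
  unfold zp354
  split_ifs <;> simp

theorem norm_zp354_le {z : ℂ} (hz : ‖z‖ ≤ 1) (n : ℤ) : ‖zp354 z n‖ ≤ 1 := by
  unfold zp354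
  split_ifs
  · rw [norm_pow]; exact pow_le_one₀ (norm_nonneg _) hz
  · rw [norm_pow, RCLike.norm_conj]; exact pow_le_one₀ (norm_nonneg _) hz

/-- For `ζ` of absolute value one, `zp354 ζ n = ζ ^ n`. -/
theorem zp354_of_norm_one {ζ : ℂ} (hζ : ‖ζ‖ = 1) (n : ℤ) : zp354 ζ n = ζ ^ n := by
  have hc : conj ζ = ζ⁻¹ := by
    have h0 : ζ ≠ 0 := by
      intro h; rw [h, norm_zero] at hζ; exact zero_ne_one hζ
    have h1 : ζ * conj ζ = 1 := by
      rw [Complex.mul_conj, Complex.normSq_eq_norm_sq, hζ]; simp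
    exact eq_inv_of_mul_eq_one_right h1
  unfold zp354
  split_ifs with h
  · conv_rhs => rw [← Int.toNat_of_nonneg h]
    rw [zpow_natCast]
  · have h' : 0 ≤ -n := by omega
    have e : n = -((-n).toNat : ℤ) := by rw [Int.toNat_of_nonneg h']; ring
    conv_rhs => rw [e]
    rw [_root_.zpow_neg, zpow_natCast, hc, inv_pow]

theorem zp354_mul (z ζ : ℂ) (n : ℤ) : zp354 (z * ζ) n = zp354 z n * zp354 ζ n := by
  unfold zp354
  split_ifs
  · rw [mul_pow]
  · rw [map_mul, mul_pow]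

end Fermat.Agent.LT.T2.H354

end

end
-- ===== PACK-END LT/T2/H354/Phase.lean

-- ===== PACK-BEGIN LT/T6/H137/LocalA.lean
section


/-!
# Row LT, tower T6, leaf T6.00q.2 `LocalAC438` (helper137, OFF-MAIN): PROVED

`localAC137 : H438.LocalAC438` VERBATIM (cut of helper438, `HasseQ3.lean` 7b061f61):
if `x ∈ L^×` is a local norm from `M = L(√-3)` at every place of `L`, then `N_{L/ℚ}(x) > 0` and
`v_p(N_{L/ℚ} x)` is even for every prime `p ≡ 2 mod 3`.

* positivity (`norm_pos_of_real_pos137`, ANY number field): `N x = ∏_φ φ(x)` over the complex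
  embeddings, grouped by infinite places; a real place contributes `φ(x) > 0` (K3), a complex
  place `|φ(x)|² > 0`;
* parity (`even_padicValRat_norm137`, ANY number field): the finite part of the product formula of
  Mathlib, `∏ᶠ_w |x|_w = |N x|⁻¹` with `|x|_w = (N w)^(-ord_w x)`; a place with `N w ≡ 2 mod 3`
  has `ord_w x` even (K2), every other place has `v_p(N w)` even (`N w` is a prime power).
-/

set_option autoImplicit false

namespace Fermat.Agent.LT.T6.H137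

open NumberField IsDedekindDomain IsDedekindDomain.HeightOneSpectrum WithZero
  NumberField.InfinitePlace NumberField.ComplexEmbedding



/-! ## LOCAL-A, parity part -/

/-- `t` is a nonzero rational with even `p`-adic valuation. -/
def EvenVal137 (p : ℕ) (t : ℝ) : Prop :=
  ∃ q : ℚ, q ≠ 0 ∧ (q : ℝ) = t ∧ Even (padicValRat p q)

theorem evenVal_one137 (p : ℕ) : EvenVal137 p 1 :=
  ⟨1, one_ne_zero, by simp, by simp⟩

theorem evenVal_mul137 (p : ℕ) [Fact p.Prime] (s t : ℝ) (hs : EvenVal137 p s)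
    (ht : EvenVal137 p t) : EvenVal137 p (s * t) := by
  obtain ⟨q, hq, rfl, hqe⟩ := hs
  obtain ⟨r, hr, rfl, hre⟩ := ht
  exact ⟨q * r, mul_ne_zero hq hr, by push_cast; rfl, by
    rw [padicValRat.mul hq hr]; exact hqe.add hre⟩

theorem two_pow_odd_mod_three137 (f : ℕ) (hf : Odd f) : 2 ^ f % 3 = 2 := by
  obtain ⟨j, rfl⟩ := hf
  rw [pow_succ, pow_mul, Nat.mul_mod, Nat.pow_mod]
  norm_num

/-- A prime power `N` with `N % 3 ≠ 2` has even valuation at every prime `p ≡ 2 mod 3`. -/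
theorem even_padicValNat_of_primePow137 (p : ℕ) [hp : Fact p.Prime] (hp3 : p % 3 = 2) (N : ℕ)
    (hN : IsPrimePow N) (hN3 : N % 3 ≠ 2) : Even (padicValNat p N) := by
  obtain ⟨ℓ, f, hℓ, hf, rfl⟩ := hN
  have hℓ' : ℓ.Prime := hℓ.nat_prime
  rw [padicValNat.pow]
  by_cases h : p = ℓ
  · subst h
    rw [padicValNat_self, mul_one]
    by_contra hodd
    rw [Nat.not_even_iff_odd] at hodd
    apply hN3
    rw [Nat.pow_mod, hp3]
    exact two_pow_odd_mod_three137 f hodd
  · have : Fact ℓ.Prime := ⟨hℓ'⟩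
    rw [padicValNat_primes h, mul_zero]
    exact Even.zero

theorem toNNReal_exp137 {e : NNReal} (he : e ≠ 0) (n : ℤ) :
    WithZeroMulInt.toNNReal he (exp n) = e ^ n := by
  rw [WithZeroMulInt.toNNReal_neg_apply he (exp_ne_zero)]
  rfl

/-- The value of a finite place at `x`, when the valuations of `x` at the places with
`#κ ≡ 2 mod 3` are even. -/
theorem finitePlace_evenVal137 (L : Type) [Field L] [NumberField L] (p : ℕ) [Fact p.Prime]
    (hp3 : p % 3 = 2) (x : L) (hx : x ≠ 0)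
    (hpar : ∀ u : HeightOneSpectrum (𝓞 L), Nat.card (𝓞 L ⧸ u.asIdeal) % 3 = 2 →
      ∃ k : ℤ, u.valuation L x = exp (2 * k)) (w : FinitePlace L) :
    EvenVal137 p (w x) := by
  classical
  set v := w.maximalIdeal with hv
  have hw : w = FinitePlace.mk v := (FinitePlace.mk_maximalIdeal w).symm
  have hvx : v.valuation L x ≠ 0 := (map_ne_zero _).mpr hx
  have hwx : w x = ((Ideal.absNorm v.asIdeal : ℕ) : ℝ) ^ (log (v.valuation L x)) := by
    rw [hw, FinitePlace.mk_apply, FinitePlace.norm_embedding']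
    conv_lhs => rw [← exp_log hvx]
    rw [toNNReal_exp137]
    push_cast
    rfl
  have hcard : Ideal.absNorm v.asIdeal = Nat.card (𝓞 L ⧸ v.asIdeal) := rfl
  have hN0 : ((Ideal.absNorm v.asIdeal : ℕ) : ℚ) ≠ 0 := by
    have := NumberField.HeightOneSpectrum.one_lt_absNorm v
    exact_mod_cast (by omega : Ideal.absNorm v.asIdeal ≠ 0)
  refine ⟨((Ideal.absNorm v.asIdeal : ℕ) : ℚ) ^ (log (v.valuation L x)), zpow_ne_zero _ hN0,
    by rw [hwx]; push_cast; rfl, ?_⟩
  rw [padicValRat.zpow, padicValRat.of_nat]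
  by_cases h3 : Ideal.absNorm v.asIdeal % 3 = 2
  · obtain ⟨k, hk⟩ := hpar v (by rw [← hcard]; exact h3)
    rw [hk, log_exp]
    exact (even_two_mul k).mul_right _
  · have := v.isMaximal
    let _ : Field (𝓞 L ⧸ v.asIdeal) := Ideal.Quotient.field v.asIdeal
    have hfin : Finite (𝓞 L ⧸ v.asIdeal) :=
      Nat.finite_of_card_ne_zero (by rw [← hcard]; have := NumberField.HeightOneSpectrum.one_lt_absNorm v; omega)
    have : Fintype (𝓞 L ⧸ v.asIdeal) := Fintype.ofFinite _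
    have hpp : IsPrimePow (Ideal.absNorm v.asIdeal) := by
      rw [hcard, Nat.card_eq_fintype_card]
      exact FiniteField.isPrimePow_card _
    have := even_padicValNat_of_primePow137 p hp3 _ hpp h3
    exact (Int.even_coe_nat _ |>.mpr this).mul_left _

/-- **LOCAL-A, parity.**  If the valuations of `x` at the places with `#κ ≡ 2 mod 3` are even,
then `v_p(N_{L/ℚ} x)` is even for every prime `p ≡ 2 mod 3`. -/
theorem even_padicValRat_norm137 (L : Type) [Field L] [NumberField L] (p : ℕ) (hp : p.Prime)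
    (hp3 : p % 3 = 2) (x : L) (hx : x ≠ 0)
    (hpar : ∀ u : HeightOneSpectrum (𝓞 L), Nat.card (𝓞 L ⧸ u.asIdeal) % 3 = 2 →
      ∃ k : ℤ, u.valuation L x = exp (2 * k)) :
    Even (padicValRat p (Algebra.norm ℚ x)) := by
  have : Fact p.Prime := ⟨hp⟩
  have h1 : EvenVal137 p (∏ᶠ w : FinitePlace L, w x) :=
    finprod_induction (EvenVal137 p) (evenVal_one137 p) (evenVal_mul137 p)
      (finitePlace_evenVal137 L p hp3 x hx hpar)
  rw [FinitePlace.prod_eq_inv_abs_norm hx] at h1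
  obtain ⟨q, hq, hqe, hqeven⟩ := h1
  have h2 : q = |Algebra.norm ℚ x|⁻¹ := by
    have : (q : ℝ) = ((|Algebra.norm ℚ x|⁻¹ : ℚ) : ℝ) := by rw [hqe]
    exact_mod_cast this
  rw [h2, padicValRat.inv, even_neg] at hqeven
  rcases abs_choice (Algebra.norm ℚ x) with h | h
  · rwa [h] at hqeven
  · rwa [h, padicValRat.neg] at hqeven



/-! ## LOCAL-A, positivity part -/

/-- `z` is a positive real number. -/
def PosReal137 (z : ℂ) : Prop := ∃ t : ℝ, 0 < t ∧ (t : ℂ) = z

theorem posReal_one137 : PosReal137 1 := ⟨1, one_pos, by simp⟩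

theorem posReal_mul137 (a b : ℂ) (ha : PosReal137 a) (hb : PosReal137 b) :
    PosReal137 (a * b) := by
  obtain ⟨s, hs, rfl⟩ := ha
  obtain ⟨t, ht, rfl⟩ := hb
  exact ⟨s * t, mul_pos hs ht, by push_cast; rfl⟩

/-- **LOCAL-A, positivity.**  An element of a number field which is positive at every real
place has positive norm. -/
theorem norm_pos_of_real_pos137 (K : Type*) [Field K] [NumberField K] (x : K) (hx : x ≠ 0)
    (h : ∀ (w : InfinitePlace K) (hw : w.IsReal), 0 < w.embedding_of_isReal hw x) :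
    0 < Algebra.norm ℚ x := by
  classical
  have h1 : PosReal137 (∏ φ : K →+* ℂ, φ x) := by
    rw [← Finset.prod_fiberwise Finset.univ InfinitePlace.mk (fun φ => φ x)]
    apply Finset.prod_induction _ PosReal137 posReal_mul137 posReal_one137
    intro w _
    have hfib : (Finset.univ.filter (fun φ : K →+* ℂ => InfinitePlace.mk φ = w)) =
        {w.embedding} ∪ {conjugate w.embedding} := by
      ext φ
      simp only [Finset.mem_filter, Finset.mem_univ, true_and, Finset.mem_union,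
        Finset.mem_singleton]
      constructor
      · intro hφ
        have h2 : InfinitePlace.mk φ = InfinitePlace.mk w.embedding := by
          rw [hφ, mk_embedding]
        rcases mk_eq_iff.mp h2 with h3 | h3
        · exact Or.inl h3
        · right
          rw [← h3, conjugate, star_star]
      · rintro (rfl | rfl)
        · exact mk_embedding w
        · rw [mk_conjugate_eq, mk_embedding]
    by_cases hw : w.IsReal
    · rw [hfib, conjugate_embedding_eq_of_isReal hw, Finset.union_idempotent,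
        Finset.prod_singleton]
      exact ⟨embedding_of_isReal hw x, h w hw, embedding_of_isReal_apply hw x⟩
    · have hne : w.embedding ≠ conjugate w.embedding := by
        intro heq
        apply hw
        rw [InfinitePlace.isReal_iff, ComplexEmbedding.isReal_iff]
        exact heq.symm
      rw [hfib, Finset.prod_union (by simpa using hne), Finset.prod_singleton,
        Finset.prod_singleton]
      refine ⟨Complex.normSq (w.embedding x),
        Complex.normSq_pos.mpr ((map_ne_zero _).mpr hx), ?_⟩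
      rw [conjugate_coe_eq, Complex.mul_conj]
  have h2 : (algebraMap ℚ ℂ (Algebra.norm ℚ x)) = ∏ φ : K →+* ℂ, φ x := by
    rw [Algebra.norm_eq_prod_embeddings ℚ ℂ x]
    exact (Fintype.prod_equiv (RingHom.equivRatAlgHom K ℂ) (fun φ => φ x) (fun f => f x)
      (fun _ => by simp [RingHom.equivRatAlgHom_apply])).symm
  rw [← h2] at h1
  obtain ⟨t, ht, hte⟩ := h1
  have h3 : ((Algebra.norm ℚ x : ℚ) : ℝ) = t := by
    have : ((t : ℝ) : ℂ) = (((Algebra.norm ℚ x : ℚ) : ℝ) : ℂ) := by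
      rw [hte]; simp
    exact_mod_cast this.symm
  have : (0 : ℝ) < ((Algebra.norm ℚ x : ℚ) : ℝ) := by rw [h3]; exact ht
  exact_mod_cast this

/-! ## The leaf -/

/-- **T6.00q.2 `LocalAC438`, VERBATIM.** -/
theorem localAC137 : H438.LocalAC438 := by
  intro L M _ _ _ _ _ hp x hx hfin hinf
  refine ⟨?_, ?_⟩
  · exact norm_pos_of_real_pos137 L x hx
      (fun w hw => locNorm_pos137 L M hp w hw x hx (hinf w))
  · intro p hpp hp3
    exact even_padicValRat_norm137 L p hpp hp3 x hx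
      (fun u hu => locNorm_parity137 L M hp u hu x hx (hfin u))

end Fermat.Agent.LT.T6.H137

end
-- ===== PACK-END LT/T6/H137/LocalA.lean

-- ===== PACK-BEGIN LT/T6/H296/CutoffExC.lean
section



/-!
# Row LT, tower T6, sub-tower T6inf, leaf T6inf.09 `CutoffExC` (helper296)

**Cut-off functions exist**: for every regular `γ ∈ GL₂(ℝ)` and every Haar measure `μT` of its
centraliser `T` there are continuous `β ≥ 0` on `GL₂(ℝ)` and `β' ≥ 0` on `GL₂(ℂ)` with
`∫_T β(t x) dμT(t) = 1` for all `x`.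

Proof (no partition of unity): `T` is commutative and there is an explicit continuous `Ψ ≥ 0`
on `GL₂(ℂ)` which on every orbit `T y` is a translate of ONE compactly supported function on
`T` (`CutoffPsi.lean`); so `∫_T Ψ(t y) dμT(t)` is a constant `c ∈ (0, ∞)` and `β' = Ψ / c`,
`β = β' ∘ (GL₂(ℝ) → GL₂(ℂ))`.

The statement `cutoffExC_unfolded296` is the body of `T6.Inf.CutoffExC` VERBATIM
(`LT/T6/Inf/Spec.lean` v2 of origin/helper19@9f15c6d69); `CutoffTop.lean` states it with the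
name of the Prop.

OFF-MAIN.
-/

set_option autoImplicit false

open MeasureTheory Matrix

noncomputable section

namespace Fermat.Agent.LT.T6.H296

open Fermat.Agent.LT

theorem mem_twCentSub_id296 (γ t : GL (Fin 2) ℝ) :
    t ∈ T6.twCentSub (MonoidHom.id (GL (Fin 2) ℝ)) γ ↔
      (t : Matrix (Fin 2) (Fin 2) ℝ) * (γ : Matrix (Fin 2) (Fin 2) ℝ) =
        (γ : Matrix (Fin 2) (Fin 2) ℝ) * (t : Matrix (Fin 2) (Fin 2) ℝ) := by
  constructor
  · intro h
    have h1 : t⁻¹ * γ * t = γ := h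
    have h2 : t * γ = γ * t := by
      calc t * γ = t * (t⁻¹ * γ * t) := by rw [h1]
        _ = γ * t := by group
    have h3 := congr_arg Units.val h2
    rwa [Units.val_mul, Units.val_mul] at h3
  · intro h
    have h2 : t * γ = γ * t := Units.ext (by rw [Units.val_mul, Units.val_mul]; exact h)
    show t⁻¹ * γ * t = γ
    rw [mul_assoc, ← h2, inv_mul_cancel_left]

theorem isClosed_twCentSub_id296 (γ : GL (Fin 2) ℝ) :
    IsClosed ((T6.twCentSub (MonoidHom.id (GL (Fin 2) ℝ)) γ : Subgroup (GL (Fin 2) ℝ)) :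
      Set (GL (Fin 2) ℝ)) := by
  have h : ((T6.twCentSub (MonoidHom.id (GL (Fin 2) ℝ)) γ : Subgroup (GL (Fin 2) ℝ)) :
      Set (GL (Fin 2) ℝ)) = {t | t⁻¹ * γ * t = γ} := rfl
  rw [h]
  exact isClosed_eq (by fun_prop) continuous_const

theorem qd296_ne_zero_of_isReg (γ : GL (Fin 2) ℝ) (hγ : T6.IsReg γ) :
    qd296 (γ : Matrix (Fin 2) (Fin 2) ℝ) ≠ 0 := by
  have h : T6.disc γ ≠ 0 := IsUnit.ne_zero hγ
  unfold T6.disc at h
  unfold qd296
  exact div_ne_zero h (by norm_num)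

/-- **T6inf.09, unfolded statement.** -/
theorem cutoffExC_unfolded296 :
    ∀ γ : GL (Fin 2) ℝ, T6.IsReg γ →
      ∀ μT : @Measure (T6.twCentSub (MonoidHom.id (GL (Fin 2) ℝ)) γ) (borel _),
        @Measure.IsHaarMeasure _ _ _ (borel _) μT →
        (∃ β : GL (Fin 2) ℝ → ℝ, Continuous β ∧ (∀ x, 0 ≤ β x) ∧
          ∀ x : GL (Fin 2) ℝ,
            @integral _ _ _ _ (borel _) μT
              (fun t : T6.twCentSub (MonoidHom.id (GL (Fin 2) ℝ)) γ =>
                β ((t : GL (Fin 2) ℝ) * x)) = 1) ∧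
        ∃ β' : GL (Fin 2) ℂ → ℝ, Continuous β' ∧ (∀ x, 0 ≤ β' x) ∧
          ∀ x : GL (Fin 2) ℂ,
            @integral _ _ _ _ (borel _) μT
              (fun t : T6.twCentSub (MonoidHom.id (GL (Fin 2) ℝ)) γ =>
                β' (Matrix.GeneralLinearGroup.map (algebraMap ℝ ℂ) (t : GL (Fin 2) ℝ) * x))
              = 1 := by
  intro γ hγ μT hμ
  letI : MeasurableSpace (T6.twCentSub (MonoidHom.id (GL (Fin 2) ℝ)) γ) := borel _
  haveI : BorelSpace (T6.twCentSub (MonoidHom.id (GL (Fin 2) ℝ)) γ) := ⟨rfl⟩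
  haveI : μT.IsHaarMeasure := hμ
  have hD := qd296_ne_zero_of_isReg γ hγ
  have hT := mem_twCentSub_id296 γ
  obtain ⟨C, Ψ, hΨc, hΨ0, hbox, hΨ1, htr⟩ :=
    psi_exists296 (γ : Matrix (Fin 2) (Fin 2) ℝ) hD
      (T6.twCentSub (MonoidHom.id (GL (Fin 2) ℝ)) γ) hT
  have hcomm : ∀ a b : T6.twCentSub (MonoidHom.id (GL (Fin 2) ℝ)) γ, a * b = b * a :=
    fun a b => Subtype.ext
      (cent_comm296 (γ : Matrix (Fin 2) (Fin 2) ℝ) hD a b ((hT a).1 a.2) ((hT b).1 b.2))
  have hFc : Continuous (fun t : T6.twCentSub (MonoidHom.id (GL (Fin 2) ℝ)) γ =>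
      Ψ (inclC296 (t : GL (Fin 2) ℝ))) :=
    hΨc.comp (inclC296_continuous.comp continuous_subtype_val)
  have hFs : HasCompactSupport (fun t : T6.twCentSub (MonoidHom.id (GL (Fin 2) ℝ)) γ =>
      Ψ (inclC296 (t : GL (Fin 2) ℝ))) := by
    apply HasCompactSupport.intro (K := Subtype.val ⁻¹' glBox296 C)
    · exact (isClosed_twCentSub_id296 γ).isClosedEmbedding_subtypeVal.isCompact_preimage
        (isCompact_glBox296 C)
    · intro t ht
      by_contra hne
      exact ht (hbox t.1 t.2 hne)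
  have hFne : ∃ t : T6.twCentSub (MonoidHom.id (GL (Fin 2) ℝ)) γ,
      Ψ (inclC296 (t : GL (Fin 2) ℝ)) ≠ 0 := by
    refine ⟨1, ?_⟩
    rw [OneMemClass.coe_one, map_one]
    exact hΨ1
  constructor
  · refine cutoff_abs296 hcomm μT
      (fun t : T6.twCentSub (MonoidHom.id (GL (Fin 2) ℝ)) γ => (t : GL (Fin 2) ℝ))
      (fun x => Ψ (inclC296 x)) (hΨc.comp inclC296_continuous) (fun x => hΨ0 _)
      _ hFc hFs (fun t => hΨ0 _) hFne ?_
    intro x
    obtain ⟨s, hs, h⟩ := htr (inclC296 x)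
    refine ⟨⟨s, hs⟩, fun t => ?_⟩
    show Ψ (inclC296 ((t : GL (Fin 2) ℝ) * x)) = Ψ (inclC296 ((t : GL (Fin 2) ℝ) * s))
    rw [map_mul]
    exact h t.1 t.2
  · refine cutoff_abs296 hcomm μT
      (fun t : T6.twCentSub (MonoidHom.id (GL (Fin 2) ℝ)) γ =>
        inclC296 (t : GL (Fin 2) ℝ))
      Ψ hΨc hΨ0 _ hFc hFs (fun t => hΨ0 _) hFne ?_
    intro y
    obtain ⟨s, hs, h⟩ := htr y
    exact ⟨⟨s, hs⟩, fun t => h t.1 t.2⟩

end Fermat.Agent.LT.T6.H296

end

end
-- ===== PACK-END LT/T6/H296/CutoffExC.lean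

-- ===== PACK-BEGIN LT/T6/H367/EllBasic.lean
section



/-!
# Row LT, tower T6, leaf T6.14c `EllCountC` (helper367): algebra of `k'[Π]` and the Cartan invariant

OFF-MAIN.  No gaps, nothing assumed.  Mathlib + `T6/Spec.lean` + `T6/H847/EllRamSpec.lean` only.

* `embMat` is multiplicative; the matrix `z = x⁻¹ δ₀ s(x)` in closed form;
* the value group `ℤᵐ⁰`: discreteness;
* `cartan_eq367`: the Cartan invariant from the largest entry and the determinant.
-/

set_option autoImplicit false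

open scoped Matrix

noncomputable section

namespace Fermat.Agent.LT.T6.H367

open Fermat.Agent.LT.T6 Fermat.Agent.LT.T6.H847

/-! ## 1. The value group -/

theorem exp_neg_one_lt_one367 : (WithZero.exp (-1 : ℤ) : Γ₀) < 1 := by
  rw [← WithZero.exp_zero]
  exact WithZero.exp_lt_exp.mpr (by norm_num)

theorem eq_exp_of_ne_zero367 {x : Γ₀} (hx : x ≠ 0) : x = WithZero.exp (WithZero.log x) :=
  (WithZero.exp_log hx).symm

/-- Discreteness of `ℤᵐ⁰`: `x < y` iff `x ≤ exp (-1) * y`. -/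
theorem lt_iff_le_exp_mul367 {x y : Γ₀} (hy : y ≠ 0) :
    x < y ↔ x ≤ WithZero.exp (-1 : ℤ) * y := by
  by_cases hx : x = 0
  · subst hx
    constructor
    · intro _; exact bot_le
    · intro _; exact zero_lt_iff.mpr hy
  · rw [eq_exp_of_ne_zero367 hx, eq_exp_of_ne_zero367 hy, ← WithZero.exp_add,
      WithZero.exp_lt_exp, WithZero.exp_le_exp]
    constructor <;> intro h <;> omega

theorem lt_one_iff367 {x : Γ₀} : x < 1 ↔ x ≤ WithZero.exp (-1 : ℤ) := by
  rw [lt_iff_le_exp_mul367 one_ne_zero, mul_one]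

theorem exp_neg_succ367 (n : ℕ) :
    (WithZero.exp (-((n + 1 : ℕ) : ℤ)) : Γ₀) = WithZero.exp (-1 : ℤ) * WithZero.exp (-(n : ℤ)) := by
  rw [← WithZero.exp_add]
  congr 1
  push_cast
  ring

theorem exp_neg_le_one367 (n : ℕ) : (WithZero.exp (-(n : ℤ)) : Γ₀) ≤ 1 := by
  rw [← WithZero.exp_zero]
  exact WithZero.exp_le_exp.mpr (by omega)

/-! ## 2. The algebra `k[Π]`, `Π² = τ Π - ν`, as matrices -/

section Alg

variable {K : Type} [Field K]

theorem embMat_mul367 (τ ν a b a' b' : K) :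
    embMat τ ν a b * embMat τ ν a' b'
      = embMat τ ν (a * a' - ν * b * b') (a * b' + b * a' + τ * b * b') := by
  unfold embMat
  ext i j
  fin_cases i <;> fin_cases j <;>
    simp [Matrix.mul_apply, Fin.sum_univ_two] <;> ring

theorem embMat_det367 (τ ν a b : K) :
    (embMat τ ν a b).det = a ^ 2 + τ * a * b + ν * b ^ 2 := by
  unfold embMat
  rw [Matrix.det_fin_two_of]
  ring

theorem embMat_map367 {K' : Type} [Field K'] (f : K →+* K') (τ ν a b : K) :
    (embMat τ ν a b).map f = embMat (f τ) (f ν) (f a) (f b) := by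
  unfold embMat
  ext i j
  fin_cases i <;> fin_cases j <;> simp

theorem embMat_one367 (τ ν : K) : embMat τ ν 1 0 = 1 := by
  unfold embMat
  ext i j
  fin_cases i <;> fin_cases j <;> simp

theorem embMat_inj367 {τ ν a b a' b' : K} (h : embMat τ ν a b = embMat τ ν a' b') :
    a = a' ∧ b = b' := by
  unfold embMat at h
  have h1 := congrFun (congrFun h 0) 0
  have h2 := congrFun (congrFun h 1) 0
  simp at h1 h2
  exact ⟨h1, h2⟩

theorem latMat_det367 (τ ν : K) (n : ℕ) (ξ : K) :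
    (latMat τ ν n ξ).det = ν ^ n * (1 + τ * ξ + ν * ξ ^ 2) := by
  unfold latMat
  rw [Matrix.det_fin_two_of]
  ring

/-- The matrix of `g_n⁻¹ (a + b Π) g_n`, `g_n = diag(1, νⁿ)`. -/
def conjMat367 (τ ν : K) (n : ℕ) (a b : K) : Matrix (Fin 2) (Fin 2) K :=
  !![a, -(ν ^ (n + 1) * b); b / ν ^ n, a + τ * b]

/-- The numerator of the `1`-coordinate of `δ₀ s(x) x̄`, `x = 1 + ξ Π`, `s(ξ) = ξ'`. -/
def aNum367 (τ ν d₀ d₁ ξ ξ' : K) : K :=
  d₀ * (1 + τ * ξ + ν * ξ * ξ') - ν * d₁ * (ξ' - ξ)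

/-- The numerator of the `Π`-coordinate of `δ₀ s(x) x̄`: the function `F(ξ)`. -/
def bNum367 (τ ν d₀ d₁ ξ ξ' : K) : K :=
  d₀ * (ξ' - ξ) + d₁ * (1 + τ * ξ + ν * ξ * ξ') + τ * d₁ * (ξ' - ξ)

/-- The norm of `1 + ξ Π`. -/
def nrm367 (τ ν ξ : K) : K := 1 + τ * ξ + ν * ξ ^ 2

/-- **The key matrix identity**: `x_ξ g_n · M = δ₀ · x_{ξ'} g_n` for
`M = g_n⁻¹ (a_z + b_z Π) g_n`, `a_z + b_z Π = δ₀ (1 + ξ' Π) / (1 + ξ Π)`. -/
theorem latMat_mul_conjMat367 (τ ν d₀ d₁ : K) (n : ℕ) (ξ ξ' : K) (hν : ν ≠ 0)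
    (hN : nrm367 τ ν ξ ≠ 0) :
    latMat τ ν n ξ *
        conjMat367 τ ν n (aNum367 τ ν d₀ d₁ ξ ξ' / nrm367 τ ν ξ)
          (bNum367 τ ν d₀ d₁ ξ ξ' / nrm367 τ ν ξ)
      = embMat τ ν d₀ d₁ * latMat τ ν n ξ' := by
  have hνn : ν ^ n ≠ 0 := pow_ne_zero n hν
  generalize hNN : nrm367 τ ν ξ = N at hN ⊢
  unfold nrm367 at hNN
  unfold latMat conjMat367 embMat aNum367 bNum367
  ext i j
  fin_cases i <;> fin_cases j <;>
    simp [Matrix.mul_apply, Fin.sum_univ_two] <;> field_simp <;> rw [← hNN] <;> ring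

end Alg

/-! ## 3. The Cartan invariant -/

section Cartan

variable {K : Type} [Field K] [Valued K Γ₀]

theorem entryMax_le367 (g : GL (Fin 2) K) (c : Γ₀)
    (h : ∀ i j : Fin 2, Valued.v ((g : Matrix (Fin 2) (Fin 2) K) i j) ≤ c) :
    entryMax g ≤ c := by
  unfold entryMax
  exact Finset.sup'_le _ _ fun p _ => h p.1 p.2

theorem le_entryMax367 (g : GL (Fin 2) K) (i j : Fin 2) :
    Valued.v ((g : Matrix (Fin 2) (Fin 2) K) i j) ≤ entryMax g := by
  unfold entryMax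
  exact Finset.le_sup' (fun p : Fin 2 × Fin 2 =>
    Valued.v ((g : Matrix (Fin 2) (Fin 2) K) p.1 p.2)) (Finset.mem_univ (i, j))

/-- The Cartan invariant from the largest entry and the determinant. -/
theorem cartan_eq367 (g : GL (Fin 2) K) (j m : ℤ)
    (hdet : Valued.v (g : Matrix (Fin 2) (Fin 2) K).det = WithZero.exp (-j))
    (hle : ∀ i i' : Fin 2,
      Valued.v ((g : Matrix (Fin 2) (Fin 2) K) i i') ≤ WithZero.exp (-m))
    (hex : ∃ i i' : Fin 2,
      Valued.v ((g : Matrix (Fin 2) (Fin 2) K) i i') = WithZero.exp (-m)) :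
    cartan g = (j - m, m) := by
  have hmax : entryMax g = WithZero.exp (-m) := by
    refine le_antisymm (entryMax_le367 g _ hle) ?_
    obtain ⟨i, i', h⟩ := hex
    rw [← h]
    exact le_entryMax367 g i i'
  unfold cartan
  rw [hmax, hdet, WithZero.log_exp, WithZero.log_exp]
  ext
  · simp; ring
  · simp

end Cartan

/-! ## 4. The conjugate `(x_ξ g_n)⁻¹ δ₀ s(x_ξ g_n)` -/

section Conj

variable {K : Type} [Field K] [Valued K Γ₀]

/-- The standing hypotheses on `(s, τ, ν)` in `k'`. -/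
structure Ctx367 (s : K ≃+* K) (τ ν : K) : Prop where
  val_s : ∀ y : K, Valued.v (s y) = Valued.v y
  sτ : s τ = τ
  sν : s ν = ν
  val_ν : Valued.v ν = WithZero.exp (-1 : ℤ)
  val_τ : Valued.v τ < 1

namespace Ctx367

variable {s : K ≃+* K} {τ ν : K} (C : Ctx367 s τ ν)
include C

theorem ν_ne : ν ≠ 0 := by
  intro h
  have := C.val_ν
  rw [h, Valuation.map_zero] at this
  exact WithZero.exp_ne_zero this.symm

theorem val_τ_le : Valued.v τ ≤ WithZero.exp (-1 : ℤ) := lt_one_iff367.1 C.val_τ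

theorem val_ν_pow (n : ℕ) : Valued.v (ν ^ n) = WithZero.exp (-(n : ℤ)) := by
  rw [Valuation.map_pow, C.val_ν, ← WithZero.exp_nsmul]
  congr 1
  simp

theorem val_small (ξ ξ' : K) (hξ : Valued.v ξ ≤ 1) (hξ' : Valued.v ξ' ≤ 1) :
    Valued.v (τ * ξ + ν * ξ * ξ') ≤ WithZero.exp (-1 : ℤ) := by
  refine Valuation.map_add_le _ ?_ ?_
  · rw [Valuation.map_mul]
    calc Valued.v τ * Valued.v ξ ≤ WithZero.exp (-1 : ℤ) * 1 := mul_le_mul' C.val_τ_le hξ
      _ = _ := mul_one _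
  · rw [Valuation.map_mul, Valuation.map_mul, C.val_ν]
    calc WithZero.exp (-1 : ℤ) * Valued.v ξ * Valued.v ξ'
        ≤ WithZero.exp (-1 : ℤ) * 1 * 1 := mul_le_mul' (mul_le_mul' le_rfl hξ) hξ'
      _ = _ := by rw [mul_one, mul_one]

/-- `A = 1 + τ ξ + ν ξ ξ'` is a unit. -/
theorem val_unit (ξ ξ' : K) (hξ : Valued.v ξ ≤ 1) (hξ' : Valued.v ξ' ≤ 1) :
    Valued.v (1 + τ * ξ + ν * ξ * ξ') = 1 := by
  have h := C.val_small ξ ξ' hξ hξ'
  have h1 : Valued.v (τ * ξ + ν * ξ * ξ') < Valued.v (1 : K) := by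
    rw [Valuation.map_one]
    exact lt_of_le_of_lt h exp_neg_one_lt_one367
  have e : 1 + τ * ξ + ν * ξ * ξ' = 1 + (τ * ξ + ν * ξ * ξ') := by ring
  rw [e, Valuation.map_add_eq_of_lt_left _ h1, Valuation.map_one]

theorem val_nrm (ξ : K) (hξ : Valued.v ξ ≤ 1) : Valued.v (nrm367 τ ν ξ) = 1 := by
  have := C.val_unit ξ ξ hξ hξ
  unfold nrm367
  have e : 1 + τ * ξ + ν * ξ ^ 2 = 1 + τ * ξ + ν * ξ * ξ := by ring
  rw [e]
  exact this

theorem nrm_ne (ξ : K) (hξ : Valued.v ξ ≤ 1) : nrm367 τ ν ξ ≠ 0 := by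
  intro h
  have := C.val_nrm ξ hξ
  rw [h, Valuation.map_zero] at this
  exact zero_ne_one this

theorem val_sub_le (ξ : K) (hξ : Valued.v ξ ≤ 1) : Valued.v (s ξ - ξ) ≤ 1 :=
  Valuation.map_sub_le _ (by rw [C.val_s]; exact hξ) hξ

theorem latMat_det_ne (n : ℕ) (ξ : K) (hξ : Valued.v ξ ≤ 1) : (latMat τ ν n ξ).det ≠ 0 := by
  rw [latMat_det367]
  exact mul_ne_zero (pow_ne_zero n C.ν_ne) (C.nrm_ne ξ hξ)

theorem latGL_val (n : ℕ) (ξ : K) (hξ : Valued.v ξ ≤ 1) :
    ((latGL τ ν n ξ : GL (Fin 2) K) : Matrix (Fin 2) (Fin 2) K) = latMat τ ν n ξ := by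
  unfold latGL
  rw [dif_pos (C.latMat_det_ne n ξ hξ)]
  rfl

theorem glAut_latGL_val (n : ℕ) (ξ : K) (hξ : Valued.v ξ ≤ 1) :
    ((glAut s (latGL τ ν n ξ) : GL (Fin 2) K) : Matrix (Fin 2) (Fin 2) K)
      = latMat τ ν n (s ξ) := by
  have h1 : ((glAut s (latGL τ ν n ξ) : GL (Fin 2) K) : Matrix (Fin 2) (Fin 2) K)
      = ((latGL τ ν n ξ : GL (Fin 2) K) : Matrix (Fin 2) (Fin 2) K).map (s : K →+* K) := rfl
  rw [h1, C.latGL_val n ξ hξ]
  unfold latMat
  ext i j
  fin_cases i <;> fin_cases j <;> simp [C.sτ, C.sν]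

/-- The element `(x_ξ g_n)⁻¹ δ₀ s(x_ξ g_n)`. -/
def conjGL367 (s : K ≃+* K) (τ ν : K) (δ₀ : GL (Fin 2) K) (n : ℕ) (ξ : K) : GL (Fin 2) K :=
  (latGL τ ν n ξ)⁻¹ * δ₀ * glAut s (latGL τ ν n ξ)

omit C [Valued K Γ₀] in
theorem conjGL367_def (s : K ≃+* K) (τ ν : K) (δ₀ : GL (Fin 2) K) (n : ℕ) (ξ : K) :
    conjGL367 s τ ν δ₀ n ξ = (latGL τ ν n ξ)⁻¹ * δ₀ * glAut s (latGL τ ν n ξ) := rfl

/-- The matrix of `(x_ξ g_n)⁻¹ δ₀ s(x_ξ g_n)` in closed form. -/
theorem conjGL_val (d₀ d₁ : K) (δ₀ : GL (Fin 2) K)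
    (hδ : (δ₀ : Matrix (Fin 2) (Fin 2) K) = embMat τ ν d₀ d₁) (n : ℕ) (ξ : K)
    (hξ : Valued.v ξ ≤ 1) :
    ((conjGL367 s τ ν δ₀ n ξ : GL (Fin 2) K) : Matrix (Fin 2) (Fin 2) K)
      = conjMat367 τ ν n (aNum367 τ ν d₀ d₁ ξ (s ξ) / nrm367 τ ν ξ)
          (bNum367 τ ν d₀ d₁ ξ (s ξ) / nrm367 τ ν ξ) := by
  have key := latMat_mul_conjMat367 τ ν d₀ d₁ n ξ (s ξ) C.ν_ne (C.nrm_ne ξ hξ)
  rw [conjGL367_def, Units.val_mul, Units.val_mul, mul_assoc, hδ, C.glAut_latGL_val n ξ hξ,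
    ← key, ← C.latGL_val n ξ hξ, ← mul_assoc, ← Units.val_mul, inv_mul_cancel, Units.val_one,
    one_mul]

/-- The determinant of the conjugate has the valuation of `det δ₀`. -/
theorem val_det_conjGL (δ₀ : GL (Fin 2) K) (n : ℕ) (ξ : K) :
    Valued.v ((conjGL367 s τ ν δ₀ n ξ : GL (Fin 2) K) : Matrix (Fin 2) (Fin 2) K).det
      = Valued.v (δ₀ : Matrix (Fin 2) (Fin 2) K).det := by
  set X := latGL τ ν n ξ with hX
  have h1 : ((glAut s X : GL (Fin 2) K) : Matrix (Fin 2) (Fin 2) K).det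
      = s ((X : Matrix (Fin 2) (Fin 2) K).det) := by
    have : ((glAut s X : GL (Fin 2) K) : Matrix (Fin 2) (Fin 2) K)
        = (s : K →+* K).mapMatrix (X : Matrix (Fin 2) (Fin 2) K) := rfl
    rw [this, ← RingHom.map_det]
    rfl
  have h2 : ((X⁻¹ : GL (Fin 2) K) : Matrix (Fin 2) (Fin 2) K).det
      * (X : Matrix (Fin 2) (Fin 2) K).det = 1 := by
    rw [← Matrix.det_mul, ← Units.val_mul, inv_mul_cancel, Units.val_one, Matrix.det_one]
  have h3 : Valued.v ((X⁻¹ : GL (Fin 2) K) : Matrix (Fin 2) (Fin 2) K).det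
      * Valued.v (X : Matrix (Fin 2) (Fin 2) K).det = 1 := by
    rw [← Valuation.map_mul, h2, Valuation.map_one]
  rw [conjGL367_def, ← hX, Units.val_mul, Units.val_mul, Matrix.det_mul, Matrix.det_mul,
    Valuation.map_mul, Valuation.map_mul, h1, C.val_s]
  calc Valued.v ((X⁻¹ : GL (Fin 2) K) : Matrix (Fin 2) (Fin 2) K).det
        * Valued.v (δ₀ : Matrix (Fin 2) (Fin 2) K).det
        * Valued.v (X : Matrix (Fin 2) (Fin 2) K).det
      = (Valued.v ((X⁻¹ : GL (Fin 2) K) : Matrix (Fin 2) (Fin 2) K).det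
          * Valued.v (X : Matrix (Fin 2) (Fin 2) K).det)
        * Valued.v (δ₀ : Matrix (Fin 2) (Fin 2) K).det := by
        rw [mul_assoc, mul_comm (Valued.v (δ₀ : Matrix (Fin 2) (Fin 2) K).det), ← mul_assoc]
    _ = _ := by rw [h3, one_mul]

end Ctx367

end Conj

end Fermat.Agent.LT.T6.H367

end

end
-- ===== PACK-END LT/T6/H367/EllBasic.lean

-- ===== PACK-BEGIN LT/T6/H502/Core.lean
section




/-!
# Row LT, tower T6, sub-leaf T6.07 (helper502): the abstract core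

OFF-MAIN.  Pure algebra (Mathlib only + `T6/Spec.lean`).

`R` a commutative ring with an automorphism `s`, `γ ∈ GL₂(R)` regular with `s γ = γ`.
The commutative algebra `R[γ] = R[X] / (X² - tr γ X + det γ)` carries the automorphism "`s` on the
coefficients"; the twisted norm of `p(γ)` is `(p · p^s ⋯ p^{s^{n-1}})(γ)` (`coe_twNorm_aeval502`).

* `exists_prod_eq502` (LOCAL): if `γ` is conjugate to a twisted norm, then in every commutative
  ring `B` with a compatible triple `(Ψ : R → B, Θ, T)` the element `Θ` is a `T`-norm.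
* `exists_twNorm_eq502` (GLOBAL): conversely, if `Θ` is a `T`-norm of a unit in a quotient `B` of
  `R[X]` through which evaluation at `γ` factors, then `γ` is a twisted norm.
-/

set_option autoImplicit false

open scoped Matrix
open Polynomial

noncomputable section

namespace Fermat.Agent.LT.T6.H502

open Fermat.Agent.LT.T6

variable {R : Type} [CommRing R]

/-- The characteristic polynomial of a `2 × 2` matrix, written out. -/
def charP502 (γ : Matrix (Fin 2) (Fin 2) R) : R[X] :=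
  X ^ 2 + (C (-γ.trace) * X + C γ.det)

theorem charP_monic502 [Nontrivial R] (γ : Matrix (Fin 2) (Fin 2) R) : (charP502 γ).Monic := by
  apply monic_X_pow_add
  refine lt_of_le_of_lt (degree_add_le _ _) ?_
  refine max_lt ?_ ?_
  · refine lt_of_le_of_lt (degree_C_mul_X_le _) ?_
    norm_num
  · refine lt_of_le_of_lt degree_C_le ?_
    norm_num

theorem charP_degree502 [Nontrivial R] (γ : Matrix (Fin 2) (Fin 2) R) :
    (charP502 γ).degree = 2 := by
  unfold charP502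
  rw [degree_add_eq_left_of_degree_lt]
  · simp
  · rw [degree_X_pow]
    refine lt_of_le_of_lt (degree_add_le _ _) ?_
    refine max_lt ?_ ?_
    · refine lt_of_le_of_lt (degree_C_mul_X_le _) ?_
      norm_num
    · refine lt_of_le_of_lt degree_C_le ?_
      norm_num

theorem aeval_charP502 (γ : Matrix (Fin 2) (Fin 2) R) : aeval γ (charP502 γ) = 0 := by
  have h := cayley502 γ
  simp only [charP502, map_add, map_mul, map_pow, aeval_X, aeval_C, map_neg,
    Algebra.algebraMap_eq_smul_one]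
  rw [← h]
  simp only [pow_two, smul_mul_assoc, one_mul, neg_mul]
  abel

/-- Evaluation of the characteristic polynomial in a commutative ring. -/
theorem eval₂_charP502 {B : Type} [CommRing B] (γ : Matrix (Fin 2) (Fin 2) R) (Ψ : R →+* B)
    (Θ : B) : eval₂ Ψ Θ (charP502 γ) = Θ ^ 2 - Ψ γ.trace * Θ + Ψ γ.det := by
  simp [charP502, eval₂_add, eval₂_mul, eval₂_pow]
  ring

/-- A polynomial killing a regular `γ` is divisible by the characteristic polynomial. -/
theorem charP_dvd502 (γ : Matrix (Fin 2) (Fin 2) R)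
    (hγ : IsUnit (γ.trace ^ 2 - 4 * γ.det)) (q : R[X]) (hq : aeval γ q = 0) :
    charP502 γ ∣ q := by
  rcases subsingleton_or_nontrivial R with h | h
  · exact ⟨0, Subsingleton.elim _ _⟩
  have hm := charP_monic502 γ
  rw [← modByMonic_eq_zero_iff_dvd hm]
  set r := q %ₘ charP502 γ with hr
  have hdeg : r.degree ≤ 1 := by
    have h1 : r.degree < 2 := by
      have := degree_modByMonic_lt q hm
      rwa [charP_degree502] at this
    rw [Polynomial.degree_le_iff_coeff_zero]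
    intro m hm
    refine Polynomial.coeff_eq_zero_of_degree_lt (lt_of_lt_of_le h1 ?_)
    have hm' : 1 < m := by exact_mod_cast hm
    exact_mod_cast hm'
  have hr0 : aeval γ r = 0 := by
    have h1 := modByMonic_add_div q (charP502 γ)
    have h2 : aeval γ (r + charP502 γ * (q /ₘ charP502 γ)) = 0 := by rw [h1, hq]
    rw [map_add, map_mul, aeval_charP502, zero_mul, add_zero] at h2
    exact h2
  rw [eq_X_add_C_of_degree_le_one hdeg] at hr0 ⊢
  simp only [map_add, map_mul, aeval_X, aeval_C, Algebra.algebraMap_eq_smul_one,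
    smul_mul_assoc, one_mul] at hr0
  obtain ⟨h0, h1⟩ := smul_add_eq_zero502 γ hγ (r.coeff 0) (r.coeff 1) (by rw [add_comm]; exact hr0)
  rw [h0, h1]
  simp

/-! ## The twisted product of a polynomial -/

/-- `p · p^s ⋯ p^{s^{n-1}}`. -/
def twPoly502 (s : R ≃+* R) (n : ℕ) (p : R[X]) : R[X] :=
  ∏ i ∈ Finset.range n, p.map ((s ^ i : R ≃+* R) : R →+* R)

theorem twPoly_succ502 (s : R ≃+* R) (n : ℕ) (p : R[X]) :
    twPoly502 s (n + 1) p = p * (twPoly502 s n p).map (s : R →+* R) := by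
  unfold twPoly502
  rw [Finset.prod_range_succ', Polynomial.map_prod, mul_comm]
  congr 1
  · ext n
    simp [Polynomial.coeff_map]
  · refine Finset.prod_congr rfl fun i _ => ?_
    rw [Polynomial.map_map]
    congr 1
    ext x
    simp [pow_succ']

/-- `s` applied entrywise to `q(γ)`. -/
theorem map_aeval502 (s : R →+* R) (γ : Matrix (Fin 2) (Fin 2) R) (q : R[X]) :
    (aeval γ q).map s = aeval (γ.map s) (q.map s) := by
  induction q using Polynomial.induction_on' with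
  | add p q hp hq =>
    rw [map_add, Polynomial.map_add, map_add, Matrix.map_add _ (map_add s), hp, hq]
  | monomial n a =>
    rw [Polynomial.map_monomial, aeval_monomial, aeval_monomial]
    have h1 : (algebraMap R (Matrix (Fin 2) (Fin 2) R) a * γ ^ n).map s
        = s.mapMatrix (algebraMap R (Matrix (Fin 2) (Fin 2) R) a * γ ^ n) := rfl
    rw [h1, map_mul, map_pow]
    congr 1
    ext i j
    simp [Matrix.algebraMap_matrix_apply]
    split_ifs <;> simp

theorem coe_glAut502 (s : R ≃+* R) (g : GL (Fin 2) R) :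
    ((glAut s g : GL (Fin 2) R) : Matrix (Fin 2) (Fin 2) R)
      = (g : Matrix (Fin 2) (Fin 2) R).map (s : R →+* R) := by
  ext i j
  simp [glAut, Matrix.GeneralLinearGroup.map_apply]

/-- **The twisted norm of `p(γ)`.** -/
theorem coe_twNorm_aeval502 (s : R ≃+* R) (γ : GL (Fin 2) R) (hγs : glAut s γ = γ)
    (δ : GL (Fin 2) R) (p : R[X])
    (hδ : (δ : Matrix (Fin 2) (Fin 2) R) = aeval (γ : Matrix (Fin 2) (Fin 2) R) p) (n : ℕ) :
    ((twNorm s n δ : GL (Fin 2) R) : Matrix (Fin 2) (Fin 2) R)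
      = aeval (γ : Matrix (Fin 2) (Fin 2) R) (twPoly502 s n p) := by
  have hγ' : (γ : Matrix (Fin 2) (Fin 2) R).map (s : R →+* R) = γ := by
    rw [← coe_glAut502, hγs]
  induction n with
  | zero => simp [twNorm, twN, twPoly502]
  | succ n ih =>
    have h1 : twNorm s (n + 1) δ = δ * glAut s (twNorm s n δ) := rfl
    rw [h1, Units.val_mul, coe_glAut502, ih, map_aeval502, hγ', hδ, twPoly_succ502, map_mul]

/-- Iterating `glAut s`. -/
theorem glAut_iterate502 (s : R ≃+* R) (n : ℕ) (g : GL (Fin 2) R) :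
    (glAut s)^[n] g = glAut (s ^ n) g := by
  induction n with
  | zero =>
    apply Units.ext
    ext i j
    simp [glAut, Matrix.GeneralLinearGroup.map_apply]
  | succ n ih =>
    rw [Function.iterate_succ_apply', ih]
    apply Units.ext
    ext i j
    simp [glAut, Matrix.GeneralLinearGroup.map_apply, pow_succ']

theorem glAut_one502 (g : GL (Fin 2) R) : glAut (1 : R ≃+* R) g = g := by
  apply Units.ext
  ext i j
  simp [glAut, Matrix.GeneralLinearGroup.map_apply]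

/-! ## The two abstract statements -/

/-- If `γ` is conjugate to a twisted norm, it IS a twisted norm of an element `p(γ)`. -/
theorem exists_poly_of_isConj502 (s : R ≃+* R) (l : ℕ) (hs : s ^ l = 1) (γ : GL (Fin 2) R)
    (hγs : glAut s γ = γ) (hreg : IsReg γ) (δ : GL (Fin 2) R)
    (hconj : IsConj (twNorm s l δ) γ) :
    ∃ p : R[X], aeval (γ : Matrix (Fin 2) (Fin 2) R) (twPoly502 s l p)
      = (γ : Matrix (Fin 2) (Fin 2) R) := by
  obtain ⟨c, hc⟩ := isConj_iff.mp hconj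
  -- δ' = c δ s(c)⁻¹ has norm γ
  set δ' : GL (Fin 2) R := (c⁻¹)⁻¹ * δ * glAut s c⁻¹ with hδ'
  have hN : twNorm s l δ' = γ := by
    have h1 := twN_conj502 (glAut s) c⁻¹ δ l
    have h2 : (glAut s)^[l] c⁻¹ = c⁻¹ := by rw [glAut_iterate502, hs, glAut_one502]
    rw [h2, inv_inv] at h1
    show twN (glAut s) l δ' = γ
    rw [hδ', inv_inv, h1]
    exact hc
  -- δ' commutes with γ
  have hcomm : δ' * γ = γ * δ' := by
    have h1 := map_twN502 (glAut s) δ' l
    have h2 : (glAut s)^[l] δ' = δ' := by rw [glAut_iterate502, hs, glAut_one502]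
    have h3 : twN (glAut s) l δ' = γ := hN
    rw [h2, h3, hγs] at h1
    calc δ' * γ = δ' * (δ'⁻¹ * γ * δ') := by rw [← h1]
      _ = γ * δ' := by group
  have hcomm' : (δ' : Matrix (Fin 2) (Fin 2) R) * (γ : Matrix (Fin 2) (Fin 2) R)
      = (γ : Matrix (Fin 2) (Fin 2) R) * (δ' : Matrix (Fin 2) (Fin 2) R) := by
    rw [← Units.val_mul, hcomm, Units.val_mul]
  obtain ⟨a, b, hab⟩ := exists_eq_smul_add502 _ _ hreg hcomm'
  refine ⟨C a + C b * X, ?_⟩
  rw [← coe_twNorm_aeval502 s γ hγs δ' (C a + C b * X) ?_ l, hN]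
  rw [hab]
  simp [Algebra.algebraMap_eq_smul_one]

/-- Evaluation at `(Ψ, Θ)` intertwines "`s` on the coefficients" and `T`. -/
theorem eval₂_map_pow502 {B : Type} [CommRing B] (s : R ≃+* R) (Ψ : R →+* B) (Θ : B)
    (T : B →+* B) (hTΨ : ∀ r, T (Ψ r) = Ψ (s r)) (hTΘ : T Θ = Θ) (p : R[X]) (i : ℕ) :
    eval₂ Ψ Θ (p.map ((s ^ i : R ≃+* R) : R →+* R)) = T^[i] (eval₂ Ψ Θ p) := by
  induction i with
  | zero =>
    simp only [pow_zero, Function.iterate_zero, id_eq]
    congr 1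
    exact Polynomial.map_id
  | succ i ih =>
    rw [Function.iterate_succ_apply', ← ih, hom_eval₂, eval₂_map, eval₂_map, hTΘ]
    congr 1
    ext r
    simp [hTΨ, pow_succ']

theorem eval₂_twPoly502 {B : Type} [CommRing B] (s : R ≃+* R) (Ψ : R →+* B) (Θ : B)
    (T : B →+* B) (hTΨ : ∀ r, T (Ψ r) = Ψ (s r)) (hTΘ : T Θ = Θ) (p : R[X]) (n : ℕ) :
    eval₂ Ψ Θ (twPoly502 s n p) = ∏ i ∈ Finset.range n, T^[i] (eval₂ Ψ Θ p) := by
  unfold twPoly502
  rw [eval₂_finsetProd]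
  exact Finset.prod_congr rfl fun i _ => eval₂_map_pow502 s Ψ Θ T hTΨ hTΘ p i

/-- **LOCAL.**  If `γ` (regular, `s γ = γ`, `s ^ l = 1`) is conjugate to a twisted norm, then `Θ`
is a `T`-norm in every commutative ring `B` with a compatible triple `(Ψ, Θ, T)`. -/
theorem exists_prod_eq502 {B : Type} [CommRing B] (s : R ≃+* R) (l : ℕ) (hs : s ^ l = 1)
    (γ : GL (Fin 2) R) (hγs : glAut s γ = γ) (hreg : IsReg γ) (δ : GL (Fin 2) R)
    (hconj : IsConj (twNorm s l δ) γ) (Ψ : R →+* B) (Θ : B)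
    (hΘ : Θ ^ 2 - Ψ (γ : Matrix (Fin 2) (Fin 2) R).trace * Θ
      + Ψ (γ : Matrix (Fin 2) (Fin 2) R).det = 0)
    (T : B →+* B) (hTΨ : ∀ r, T (Ψ r) = Ψ (s r)) (hTΘ : T Θ = Θ) :
    ∃ y : B, ∏ i ∈ Finset.range l, T^[i] y = Θ := by
  obtain ⟨p, hp⟩ := exists_poly_of_isConj502 s l hs γ hγs hreg δ hconj
  refine ⟨eval₂ Ψ Θ p, ?_⟩
  rw [← eval₂_twPoly502 s Ψ Θ T hTΨ hTΘ p l]
  have h0 : aeval (γ : Matrix (Fin 2) (Fin 2) R) (twPoly502 s l p - X) = 0 := by
    rw [map_sub, hp, aeval_X, sub_self]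
  obtain ⟨q, hq⟩ := charP_dvd502 _ hreg _ h0
  have h1 : eval₂ Ψ Θ (twPoly502 s l p - X) = 0 := by
    rw [hq, eval₂_mul, eval₂_charP502, hΘ, zero_mul]
  rw [eval₂_sub, eval₂_X, sub_eq_zero] at h1
  exact h1

/-- **GLOBAL.**  If evaluation at `γ` factors through `eval₂ Ψ Θ : R[X] → B` (onto), and `Θ` is
the `T`-norm of a unit `y` of `B`, then `γ` is a twisted norm. -/
theorem exists_twNorm_eq502 {B : Type} [CommRing B] (s : R ≃+* R) (l : ℕ)
    (γ : GL (Fin 2) R) (hγs : glAut s γ = γ) (Ψ : R →+* B) (Θ : B)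
    (T : B →+* B) (hTΨ : ∀ r, T (Ψ r) = Ψ (s r)) (hTΘ : T Θ = Θ)
    (hker : ∀ q : R[X], eval₂ Ψ Θ q = 0 → aeval (γ : Matrix (Fin 2) (Fin 2) R) q = 0)
    (hsurj : ∀ b : B, ∃ p : R[X], eval₂ Ψ Θ p = b)
    (y y' : B) (hy : y * y' = 1) (hN : ∏ i ∈ Finset.range l, T^[i] y = Θ) :
    ∃ δ : GL (Fin 2) R, twNorm s l δ = γ := by
  obtain ⟨p, hp⟩ := hsurj y
  obtain ⟨p', hp'⟩ := hsurj y'
  have h1 : aeval (γ : Matrix (Fin 2) (Fin 2) R) (p * p' - 1) = 0 := by
    apply hker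
    rw [eval₂_sub, eval₂_mul, eval₂_one, hp, hp', hy, sub_self]
  rw [map_sub, map_mul, map_one, sub_eq_zero] at h1
  have h2 : aeval (γ : Matrix (Fin 2) (Fin 2) R) p' * aeval (γ : Matrix (Fin 2) (Fin 2) R) p
      = 1 := by
    rw [← map_mul, mul_comm, map_mul]; exact h1
  let δ : GL (Fin 2) R :=
    ⟨aeval (γ : Matrix (Fin 2) (Fin 2) R) p, aeval (γ : Matrix (Fin 2) (Fin 2) R) p', h1, h2⟩
  refine ⟨δ, Units.ext ?_⟩
  rw [coe_twNorm_aeval502 s γ hγs δ p rfl l]
  have h3 : aeval (γ : Matrix (Fin 2) (Fin 2) R) (twPoly502 s l p - X) = 0 := by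
    apply hker
    rw [eval₂_sub, eval₂_X, eval₂_twPoly502 s Ψ Θ T hTΨ hTΘ, hp, hN, sub_self]
  rw [map_sub, aeval_X, sub_eq_zero] at h3
  exact h3

end Fermat.Agent.LT.T6.H502

end

end
-- ===== PACK-END LT/T6/H502/Core.lean

-- ===== PACK-BEGIN LT/T6/H514/CartanCC.lean
section




/-!
# Row LT, tower T6, leaf T6.23.08 `CartanCC` (registry 1470, helper514)

OFF-MAIN.  `cartanCC514 : H189.CartanCC` VERBATIM (ArchIntCut.lean db591abe, ArchIntSpec.lean
4ac6c090 of helper189@45580d1ec), unconditional.  Imports Mathlib, the two Spec files and the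
asset `T2/H555/CartanInf.lean` (48c6cc47, helper555@8eae4017c: `svd555`), byte-identical copies.

Proof: singular values `a ≥ b > 0` of `g` (`svd555` + a swap), `|det g| = a b`,
`Re tr(g* g) = a² + b²`, `ρ(g) = cosh (log (a/b))`, `e^r e^{± d/2} = a, b` for
`r = log (a b) / 2`, `d = log (a / b)`.
-/

set_option autoImplicit false

open Matrix

noncomputable section

namespace Fermat.Agent.LT.T6.H514

open Fermat.Agent.LT.T6.H189 Fermat.Agent.LT.T2.H555

/-- The real diagonal matrix `diag(a, b)` over `ℂ`. -/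
def dg514 (a b : ℝ) : Matrix (Fin 2) (Fin 2) ℂ := !![(a : ℂ), 0; 0, (b : ℂ)]

/-- The swap matrix. -/
def sw514 : Matrix (Fin 2) (Fin 2) ℂ := !![0, 1; 1, 0]

theorem sw_mul_swH514 : sw514 * sw514ᴴ = 1 := by
  ext i j
  fin_cases i <;> fin_cases j <;>
    simp [sw514, Matrix.mul_apply, Fin.sum_univ_two, Matrix.conjTranspose_apply]

theorem sw_dg_sw514 (a b : ℝ) : sw514 * dg514 b a * sw514 = dg514 a b := by
  ext i j
  fin_cases i <;> fin_cases j <;>
    simp [sw514, dg514, Matrix.mul_apply, Fin.sum_univ_two]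

theorem unitary_mul514 {k k' : Matrix (Fin 2) (Fin 2) ℂ} (h : k * kᴴ = 1) (h' : k' * k'ᴴ = 1) :
    (k * k') * (k * k')ᴴ = 1 := by
  rw [Matrix.conjTranspose_mul]
  calc k * k' * (k'ᴴ * kᴴ) = k * (k' * k'ᴴ) * kᴴ := by simp only [Matrix.mul_assoc]
    _ = 1 := by rw [h', Matrix.mul_one, h]

theorem diagonal_eq_dg514 (d : Fin 2 → ℝ) :
    Matrix.diagonal (fun i => ((d i : ℝ) : ℂ)) = dg514 (d 0) (d 1) := by
  ext i j
  fin_cases i <;> fin_cases j <;> simp [dg514]

/-- Ordered singular value decomposition of an invertible complex `2 × 2` matrix. -/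
theorem svd_ordered514 (g : Matrix (Fin 2) (Fin 2) ℂ) (hg : g.det ≠ 0) :
    ∃ (k₁ k₂ : Matrix (Fin 2) (Fin 2) ℂ) (a b : ℝ),
      k₁ * k₁ᴴ = 1 ∧ k₂ * k₂ᴴ = 1 ∧ 0 < b ∧ b ≤ a ∧ g = k₁ * dg514 a b * k₂ := by
  obtain ⟨k₁, k₂, d, h1, h2, hd, hgd0⟩ := svd555 g hg
  have hdd : Matrix.diagonal (fun i => ((d i : ℝ) : ℂ)) = dg514 (d 0) (d 1) :=
    diagonal_eq_dg514 d
  have hgd : g = k₁ * dg514 (d 0) (d 1) * k₂ := by
    rw [← hdd]
    exact hgd0
  rcases le_total (d 1) (d 0) with h | h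
  · exact ⟨k₁, k₂, d 0, d 1, h1, h2, hd 1, h, hgd⟩
  · refine ⟨k₁ * sw514, sw514 * k₂, d 1, d 0, unitary_mul514 h1 sw_mul_swH514,
      unitary_mul514 sw_mul_swH514 h2, hd 0, h, ?_⟩
    rw [hgd, ← sw_dg_sw514 (d 0) (d 1)]
    simp only [Matrix.mul_assoc]

theorem norm_det_unitary514 {k : Matrix (Fin 2) (Fin 2) ℂ} (h : k * kᴴ = 1) : ‖k.det‖ = 1 := by
  have h1 : k.det * star k.det = 1 := by
    rw [← Matrix.det_conjTranspose, ← Matrix.det_mul, h, Matrix.det_one]
  have h2 : ‖k.det‖ * ‖k.det‖ = 1 := by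
    have := congrArg (fun z : ℂ => ‖z‖) h1
    simpa using this
  have h3 : 0 ≤ ‖k.det‖ := norm_nonneg _
  nlinarith

theorem det_dg514 (a b : ℝ) : (dg514 a b).det = ((a * b : ℝ) : ℂ) := by
  simp [dg514, Matrix.det_fin_two]

theorem dgH514 (a b : ℝ) : (dg514 a b)ᴴ = dg514 a b := by
  ext i j
  fin_cases i <;> fin_cases j <;> simp [dg514, Matrix.conjTranspose_apply]

theorem dg_mul_dg514 (a b : ℝ) : dg514 a b * dg514 a b = dg514 (a * a) (b * b) := by
  ext i j
  fin_cases i <;> fin_cases j <;> simp [dg514, Matrix.mul_apply, Fin.sum_univ_two]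

theorem trace_dg514 (a b : ℝ) : (dg514 a b).trace = ((a + b : ℝ) : ℂ) := by
  simp [dg514, Matrix.trace_fin_two]

/-- `|det g| = a b`. -/
theorem norm_det_svd514 {g k₁ k₂ : Matrix (Fin 2) (Fin 2) ℂ} {a b : ℝ} (h1 : k₁ * k₁ᴴ = 1)
    (h2 : k₂ * k₂ᴴ = 1) (ha : 0 < a) (hb : 0 < b) (hg : g = k₁ * dg514 a b * k₂) :
    ‖g.det‖ = a * b := by
  rw [hg, Matrix.det_mul, Matrix.det_mul, norm_mul, norm_mul, norm_det_unitary514 h1,
    norm_det_unitary514 h2, det_dg514, Complex.norm_real, one_mul, mul_one,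
    Real.norm_of_nonneg (mul_pos ha hb).le]

/-- `tr(g* g) = a² + b²`. -/
theorem trace_svd514 {g k₁ k₂ : Matrix (Fin 2) (Fin 2) ℂ} {a b : ℝ} (h1 : k₁ * k₁ᴴ = 1)
    (h2 : k₂ * k₂ᴴ = 1) (hg : g = k₁ * dg514 a b * k₂) :
    (gᴴ * g).trace = ((a * a + b * b : ℝ) : ℂ) := by
  have h1' : k₁ᴴ * k₁ = 1 := mul_eq_one_comm.mp h1
  have e : gᴴ * g = k₂ᴴ * (dg514 (a * a) (b * b) * k₂) := by
    rw [hg, Matrix.conjTranspose_mul, Matrix.conjTranspose_mul, dgH514]
    calc k₂ᴴ * (dg514 a b * k₁ᴴ) * (k₁ * dg514 a b * k₂)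
        = k₂ᴴ * (dg514 a b * (k₁ᴴ * k₁) * dg514 a b * k₂) := by simp only [Matrix.mul_assoc]
      _ = k₂ᴴ * (dg514 (a * a) (b * b) * k₂) := by
          rw [h1', Matrix.mul_one, dg_mul_dg514]
  rw [e, Matrix.trace_mul_comm, Matrix.mul_assoc, h2, Matrix.mul_one, trace_dg514]

theorem gl_det_ne_zero514 (g : GL (Fin 2) ℂ) : (g : Matrix (Fin 2) (Fin 2) ℂ).det ≠ 0 :=
  (Matrix.isUnits_det_units g).ne_zero

theorem det_ne_zero_of_unitary514 {k : Matrix (Fin 2) (Fin 2) ℂ} (h : k * kᴴ = 1) :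
    k.det ≠ 0 := by
  intro h0
  have := norm_det_unitary514 h
  rw [h0, norm_zero] at this
  exact zero_ne_one this

theorem sclC_coe514 (r : ℝ) :
    ((sclC r : GL (Fin 2) ℂ) : Matrix (Fin 2) (Fin 2) ℂ) = dg514 (Real.exp r) (Real.exp r) := rfl

theorem atC_coe514 (d : ℝ) :
    ((atC d : GL (Fin 2) ℂ) : Matrix (Fin 2) (Fin 2) ℂ)
      = dg514 (Real.exp (d / 2)) (Real.exp (-(d / 2))) := rfl

theorem scl_comm514 (c : ℝ) (k : Matrix (Fin 2) (Fin 2) ℂ) :
    dg514 c c * k = k * dg514 c c := by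
  ext i j
  fin_cases i <;> fin_cases j <;>
    simp [dg514, Matrix.mul_apply, Fin.sum_univ_two, mul_comm]

theorem dg_mul_dg'514 (a b c d : ℝ) : dg514 a b * dg514 c d = dg514 (a * c) (b * d) := by
  ext i j
  fin_cases i <;> fin_cases j <;> simp [dg514, Matrix.mul_apply, Fin.sum_univ_two]

/-- **T6.23.08 `CartanCC`**: the Cartan decomposition of `GL₂(ℂ)` with the values of the
parameters. -/
theorem cartanCC514 : CartanCC := by
  intro g
  obtain ⟨k₁, k₂, a, b, h1, h2, hb, hba, hg⟩ :=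
    svd_ordered514 (g : Matrix (Fin 2) (Fin 2) ℂ) (gl_det_ne_zero514 g)
  have ha : 0 < a := lt_of_lt_of_le hb hba
  have hdet : ‖(g : Matrix (Fin 2) (Fin 2) ℂ).det‖ = a * b := norm_det_svd514 h1 h2 ha hb hg
  have htr := trace_svd514 h1 h2 hg
  have hab : 0 < a * b := mul_pos ha hb
  have hrho : rhoQ g = (a * a + b * b) / (2 * (a * b)) := by
    unfold rhoQ
    rw [htr, hdet, Complex.ofReal_re]
  -- the parameter `d = log (a / b)`
  have hq : 1 ≤ a / b := (one_le_div hb).mpr hba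
  have hd0 : 0 ≤ Real.log (a / b) := Real.log_nonneg hq
  have hcosh : Real.cosh (Real.log (a / b)) = rhoQ g := by
    rw [hrho, Real.cosh_eq, Real.exp_neg, Real.exp_log (div_pos ha hb)]
    field_simp
  have harc : Real.arcosh (rhoQ g) = Real.log (a / b) := by
    rw [← hcosh, Real.arcosh_cosh hd0]
  have hone : 1 ≤ rhoQ g := by
    rw [← hcosh]
    exact Real.one_le_cosh _
  refine ⟨hone, Matrix.GeneralLinearGroup.mkOfDetNeZero k₁ (det_ne_zero_of_unitary514 h1), h1,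
    Matrix.GeneralLinearGroup.mkOfDetNeZero k₂ (det_ne_zero_of_unitary514 h2), h2, ?_⟩
  apply Units.ext
  rw [harc, hdet]
  change (g : Matrix (Fin 2) (Fin 2) ℂ)
    = ((sclC (Real.log (a * b) / 2) : GL (Fin 2) ℂ) : Matrix (Fin 2) (Fin 2) ℂ) * k₁
      * ((atC (Real.log (a / b)) : GL (Fin 2) ℂ) : Matrix (Fin 2) (Fin 2) ℂ) * k₂
  rw [sclC_coe514, atC_coe514, scl_comm514, Matrix.mul_assoc k₁, dg_mul_dg'514, hg]
  have e1 : Real.exp (Real.log (a * b) / 2) * Real.exp (Real.log (a / b) / 2) = a := by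
    rw [← Real.exp_add, Real.log_mul ha.ne' hb.ne', Real.log_div ha.ne' hb.ne']
    have : (Real.log a + Real.log b) / 2 + (Real.log a - Real.log b) / 2 = Real.log a := by ring
    rw [this, Real.exp_log ha]
  have e2 : Real.exp (Real.log (a * b) / 2) * Real.exp (-(Real.log (a / b) / 2)) = b := by
    rw [← Real.exp_add, Real.log_mul ha.ne' hb.ne', Real.log_div ha.ne' hb.ne']
    have : (Real.log a + Real.log b) / 2 + -((Real.log a - Real.log b) / 2) = Real.log b := by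
      ring
    rw [this, Real.exp_log hb]
  rw [e1, e2]

end Fermat.Agent.LT.T6.H514

end
end
-- ===== PACK-END LT/T6/H514/CartanCC.lean

-- ===== PACK-BEGIN LT/T6/H559/EllUp.lean
section


/-!
# Row LT, tower T6, leaf T6.28 (ArchEllId) — the UPSTAIRS side (helper559, OFF-MAIN)

`∫_ℝ ∫_0^∞ Φ(cosh 4b + 2 cosh²(2b) sin²(θ/2) sinh²τ) 2 cosh²(2b) sinh τ dτ db
   = ∫_ℝ Ψ(cosh x) / (4 (cosh x - cos θ)) dx`,  `Ψ = ` tail integral of `Φ`.
-/

set_option autoImplicit false

open MeasureTheory Set Real Filter Topology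

noncomputable section

namespace Fermat.Agent.LT.T6.H559

/-- The upstairs elliptic integral. -/
def ellUp559 (Φ : ℝ → ℂ) (θ : ℝ) : ℂ :=
  ∫ b : ℝ, ∫ τ in Ioi (0 : ℝ),
    Φ (cosh (4 * b) + 2 * cosh (2 * b) ^ 2 * sin (θ / 2) ^ 2 * sinh τ ^ 2)
      * ((2 * cosh (2 * b) ^ 2 * sinh τ : ℝ) : ℂ)

/-- Substitution `y = √(c + a u²)` on `u > 1`. -/
theorem sqrt_subst559 (a c : ℝ) (ha : 0 < a) (hca : 0 < c + a) (g : ℝ → ℂ) :
    ∫ y in Ioi (Real.sqrt (c + a)), g y
      = ∫ u in Ioi (1 : ℝ), ((a * u / Real.sqrt (c + a * u ^ 2) : ℝ) : ℂ)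
          * g (Real.sqrt (c + a * u ^ 2)) := by
  have hposarg : ∀ u : ℝ, 1 ≤ u → 0 < c + a * u ^ 2 := by
    intro u hu
    have : 1 ≤ u ^ 2 := by nlinarith
    nlinarith
  have hder : ∀ u ∈ Ioi (1 : ℝ),
      HasDerivWithinAt (fun u => Real.sqrt (c + a * u ^ 2))
        (a * u / Real.sqrt (c + a * u ^ 2)) (Ioi 1) u := by
    intro u hu
    have hu1 : (1 : ℝ) ≤ u := le_of_lt hu
    have hne : c + a * u ^ 2 ≠ 0 := (hposarg u hu1).ne'
    have hsq : 0 < Real.sqrt (c + a * u ^ 2) := Real.sqrt_pos.2 (hposarg u hu1)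
    have h1 : HasDerivAt (fun u : ℝ => c + a * u ^ 2) (2 * a * u) u := by
      have h0 : HasDerivAt (fun u : ℝ => c + a * u ^ 2) (a * (2 * u ^ 1 * 1)) u :=
        ((hasDerivAt_id u).pow 2 |>.const_mul a).const_add c
      have h2 : a * (2 * u ^ 1 * 1) = 2 * a * u := by ring
      rw [h2] at h0
      exact h0
    have h2 := h1.sqrt hne
    have h3 : 2 * a * u / (2 * Real.sqrt (c + a * u ^ 2)) = a * u / Real.sqrt (c + a * u ^ 2) := by
      field_simp
    rw [h3] at h2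
    exact h2.hasDerivWithinAt
  have hinj : InjOn (fun u => Real.sqrt (c + a * u ^ 2)) (Ioi (1 : ℝ)) := by
    intro u hu v hv huv
    have hu1 : (1 : ℝ) < u := hu
    have hv1 : (1 : ℝ) < v := hv
    have h1 : c + a * u ^ 2 = c + a * v ^ 2 := by
      have := congrArg (fun t => t ^ 2) huv
      simp only at this
      rwa [Real.sq_sqrt (hposarg u hu1.le).le, Real.sq_sqrt (hposarg v hv1.le).le] at this
    have h2 : u ^ 2 = v ^ 2 := by
      have : a * u ^ 2 = a * v ^ 2 := by linarith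
      exact mul_left_cancel₀ ha.ne' this
    exact (sq_eq_sq₀ (by linarith) (by linarith)).1 h2
  have himg : (fun u => Real.sqrt (c + a * u ^ 2)) '' Ioi (1 : ℝ) = Ioi (Real.sqrt (c + a)) := by
    ext y
    constructor
    · rintro ⟨u, hu, rfl⟩
      have hu1 : (1 : ℝ) < u := hu
      show Real.sqrt (c + a) < Real.sqrt (c + a * u ^ 2)
      apply Real.sqrt_lt_sqrt hca.le
      have : 1 < u ^ 2 := by nlinarith
      nlinarith
    · intro hy
      have hy' : Real.sqrt (c + a) < y := hy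
      have hy0 : 0 < y := lt_of_le_of_lt (Real.sqrt_nonneg _) hy'
      have hyy : c + a < y ^ 2 := by
        have h1 := Real.sq_sqrt hca.le
        have h2 : Real.sqrt (c + a) ^ 2 < y ^ 2 := by
          have := Real.sqrt_nonneg (c + a)
          nlinarith
        linarith
      have hq : 1 < (y ^ 2 - c) / a := by
        rw [lt_div_iff₀ ha]
        linarith
      refine ⟨Real.sqrt ((y ^ 2 - c) / a), ?_, ?_⟩
      · show 1 < Real.sqrt ((y ^ 2 - c) / a)
        apply Real.lt_sqrt_of_sq_lt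
        simpa using hq
      · show Real.sqrt (c + a * Real.sqrt ((y ^ 2 - c) / a) ^ 2) = y
        rw [Real.sq_sqrt (by linarith)]
        have : c + a * ((y ^ 2 - c) / a) = y ^ 2 := by
          field_simp
          ring
        rw [this]
        exact Real.sqrt_sq hy0.le
  have key := integral_image_eq_integral_abs_deriv_smul measurableSet_Ioi hder hinj g
  rw [himg] at key
  rw [key]
  apply setIntegral_congr_fun measurableSet_Ioi
  intro u hu
  have hu1 : (1 : ℝ) < u := hu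
  have hsq : 0 < Real.sqrt (c + a * u ^ 2) := Real.sqrt_pos.2 (hposarg u hu1.le)
  have habs : |a * u / Real.sqrt (c + a * u ^ 2)| = a * u / Real.sqrt (c + a * u ^ 2) :=
    abs_of_pos (div_pos (mul_pos ha (by linarith)) hsq)
  simp only [habs, Complex.real_smul]

/-- The flat integrand upstairs. -/
def qUp559 (Φ : ℝ → ℂ) (θ : ℝ) (k r : ℝ) : ℂ :=
  Φ (cos θ + 2 * k ^ 2 + 2 * sin (θ / 2) ^ 2 * r ^ 2) * ((r / Real.sqrt (k ^ 2 + r ^ 2) : ℝ) : ℂ)

theorem cos_eq_half559 (θ : ℝ) : cos θ = 1 - 2 * sin (θ / 2) ^ 2 := by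
  have h := cos_sq' (θ / 2)
  have h2 := cos_two_mul (θ / 2)
  rw [show 2 * (θ / 2) = θ by ring] at h2
  rw [h2, h]
  ring

/-- Step 1: the inner integral in the variable `r`. -/
theorem up_inner559 (Φ : ℝ → ℂ) (θ b : ℝ) :
    ∫ τ in Ioi (0 : ℝ),
        Φ (cosh (4 * b) + 2 * cosh (2 * b) ^ 2 * sin (θ / 2) ^ 2 * sinh τ ^ 2)
          * ((2 * cosh (2 * b) ^ 2 * sinh τ : ℝ) : ℂ)
      = ((2 * cosh (2 * b) : ℝ) : ℂ) * ∫ r in Ioi (1 : ℝ), qUp559 Φ θ (sinh (2 * b)) r := by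
  set m : ℝ := cosh (2 * b) with hm
  set k : ℝ := sinh (2 * b) with hk
  have hm0 : 0 < m := cosh_pos _
  have hmk : m ^ 2 = k ^ 2 + 1 := cosh_sq (2 * b)
  have h4 : cosh (4 * b) = 2 * m ^ 2 - 1 := by
    rw [show (4 : ℝ) * b = 2 * (2 * b) by ring, cosh_two_mul, ← hm, ← hk]
    linarith
  -- first `u = cosh τ`
  have e1 : ∫ τ in Ioi (0 : ℝ),
        Φ (cosh (4 * b) + 2 * m ^ 2 * sin (θ / 2) ^ 2 * sinh τ ^ 2)
          * ((2 * m ^ 2 * sinh τ : ℝ) : ℂ)
      = ∫ u in Ioi (1 : ℝ), Φ (cosh (4 * b) + 2 * m ^ 2 * sin (θ / 2) ^ 2 * (u ^ 2 - 1))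
          * ((2 * m ^ 2 : ℝ) : ℂ) := by
    rw [subst_cosh559]
    apply setIntegral_congr_fun measurableSet_Ioi
    intro τ _
    simp only
    rw [show cosh τ ^ 2 - 1 = sinh τ ^ 2 by rw [cosh_sq]; ring]
    push_cast
    ring
  rw [e1]
  -- then `r = √(1 - m² + m² u²)`
  have e2 := sqrt_subst559 (m ^ 2) (1 - m ^ 2) (by positivity) (by norm_num)
    (fun r => ((2 * m : ℝ) : ℂ) * qUp559 Φ θ k r)
  rw [show (1 - m ^ 2 + m ^ 2 : ℝ) = 1 by ring, Real.sqrt_one] at e2
  rw [← integral_const_mul, e2]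
  apply setIntegral_congr_fun measurableSet_Ioi
  intro u hu
  have hu1 : (1 : ℝ) < u := hu
  have hu0 : 0 < u := by linarith
  have harg : 0 < 1 - m ^ 2 + m ^ 2 * u ^ 2 := by
    have : 1 < u ^ 2 := by nlinarith
    nlinarith [sq_nonneg m]
  beta_reduce
  set ru : ℝ := Real.sqrt (1 - m ^ 2 + m ^ 2 * u ^ 2) with hru
  have hru0 : 0 < ru := Real.sqrt_pos.2 harg
  have hru2 : ru ^ 2 = 1 - m ^ 2 + m ^ 2 * u ^ 2 := Real.sq_sqrt harg.le
  have hkr : Real.sqrt (k ^ 2 + ru ^ 2) = m * u := by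
    have hk2 : k ^ 2 = m ^ 2 - 1 := by linarith
    rw [hru2, show k ^ 2 + (1 - m ^ 2 + m ^ 2 * u ^ 2) = (m * u) ^ 2 by rw [hk2]; ring]
    exact Real.sqrt_sq (by positivity)
  simp only [qUp559]
  rw [hkr]
  have hargeq : cos θ + 2 * k ^ 2 + 2 * sin (θ / 2) ^ 2 * ru ^ 2
      = cosh (4 * b) + 2 * m ^ 2 * sin (θ / 2) ^ 2 * (u ^ 2 - 1) := by
    rw [hru2, h4, cos_eq_half559 θ]
    have : k ^ 2 = m ^ 2 - 1 := by linarith
    rw [this]
    ring
  rw [hargeq]
  have hm' : (m : ℂ) ≠ 0 := by exact_mod_cast hm0.ne'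
  have hu' : (u : ℂ) ≠ 0 := by exact_mod_cast hu0.ne'
  have hr' : (ru : ℂ) ≠ 0 := by exact_mod_cast hru0.ne'
  push_cast
  field_simp

/-- Step 2: the outer substitution `k = sinh 2b`. -/
theorem up_outer559 (H : ℝ → ℂ) :
    ∫ b : ℝ, ((2 * cosh (2 * b) : ℝ) : ℂ) * H (sinh (2 * b)) = ∫ k : ℝ, H k := by
  have hinj : InjOn (fun b : ℝ => sinh (2 * b)) univ := by
    intro x _ y _ hxy
    have := sinh_injective hxy
    linarith
  have himg : (fun b : ℝ => sinh (2 * b)) '' univ = univ := by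
    rw [image_univ]
    apply Function.Surjective.range_eq
    intro y
    obtain ⟨x, hx⟩ := sinh_surjective y
    exact ⟨x / 2, by show sinh (2 * (x / 2)) = y; rw [show 2 * (x / 2) = x by ring]; exact hx⟩
  have hder : ∀ x ∈ (univ : Set ℝ),
      HasDerivWithinAt (fun b : ℝ => sinh (2 * b)) (2 * cosh (2 * x)) univ x := by
    intro x _
    have h1 : HasDerivAt (fun b : ℝ => 2 * b) 2 x := by
      simpa using (hasDerivAt_id x).const_mul (2 : ℝ)
    have h2 := (hasDerivAt_sinh (2 * x)).comp x h1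
    have h3 : cosh (2 * x) * 2 = 2 * cosh (2 * x) := by ring
    rw [h3] at h2
    exact h2.hasDerivWithinAt
  have key := integral_image_eq_integral_abs_deriv_smul MeasurableSet.univ hder hinj H
  rw [himg] at key
  simp only [Measure.restrict_univ] at key
  rw [key]
  apply integral_congr_ae
  filter_upwards with b
  have habs : |2 * cosh (2 * b)| = 2 * cosh (2 * b) :=
    abs_of_pos (mul_pos (by norm_num) (cosh_pos _))
  simp only [habs, Complex.real_smul]

theorem half_sq_le_one559 (θ : ℝ) : sin (θ / 2) ^ 2 ≤ 1 := sin_sq_le_one _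

/-- Integrability of the flat integrand on `ℝ × (1, ∞)`. -/
theorem integrable_up1_559 {Φ : ℝ → ℂ} {R : ℝ} (hΦ : IsProfile559 Φ R) (θ : ℝ)
    (hs : sin (θ / 2) ≠ 0) :
    Integrable (Function.uncurry fun k r : ℝ => qUp559 Φ θ k r)
      ((volume : Measure ℝ).prod (volume.restrict (Ioi (1 : ℝ)))) := by
  have hm : (volume : Measure ℝ).prod (volume.restrict (Ioi (1 : ℝ)))
      = (volume : Measure (ℝ × ℝ)).restrict ((univ : Set ℝ) ×ˢ Ioi (1 : ℝ)) := by
    rw [Measure.volume_eq_prod, ← Measure.prod_restrict, Measure.restrict_univ]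
  rw [hm]
  set B : ℝ := |R| + 1 with hB
  have hB1 : 1 ≤ B := by have := abs_nonneg R; linarith
  have hs2 : 0 < sin (θ / 2) ^ 2 := by positivity
  have hs1 : sin (θ / 2) ^ 2 ≤ 1 := half_sq_le_one559 θ
  have hc1 : -1 ≤ cos θ := neg_one_le_cos θ
  have hS : IsClosed ((univ : Set ℝ) ×ˢ Ici (1 : ℝ)) := isClosed_univ.prod isClosed_Ici
  have hK : IsCompact (Icc (-B) B ×ˢ Icc (1 : ℝ) (B / sin (θ / 2) ^ 2)) :=
    isCompact_Icc.prod isCompact_Icc
  have hcont : ContinuousOn (Function.uncurry fun k r : ℝ => qUp559 Φ θ k r)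
      ((univ : Set ℝ) ×ˢ Ici (1 : ℝ)) := by
    unfold qUp559
    apply ContinuousOn.mul
    · apply Continuous.continuousOn
      exact hΦ.cont.comp (by fun_prop)
    · apply Complex.continuous_ofReal.comp_continuousOn
      apply ContinuousOn.div
      · exact continuous_snd.continuousOn
      · apply Continuous.continuousOn
        fun_prop
      · rintro ⟨k, r⟩ hp
        have hr : (1 : ℝ) ≤ r := hp.2
        have : 0 < k ^ 2 + r ^ 2 := by nlinarith [sq_nonneg k]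
        exact (Real.sqrt_pos.2 this).ne'
  have h0 : ∀ p ∈ (univ : Set ℝ) ×ˢ Ici (1 : ℝ),
      p ∉ Icc (-B) B ×ˢ Icc (1 : ℝ) (B / sin (θ / 2) ^ 2) →
      (Function.uncurry fun k r : ℝ => qUp559 Φ θ k r) p = 0 := by
    rintro ⟨k, r⟩ hp hpK
    have hr : (1 : ℝ) ≤ r := hp.2
    have hbig : R ≤ cos θ + 2 * k ^ 2 + 2 * sin (θ / 2) ^ 2 * r ^ 2 := by
      by_contra hlt
      rw [not_le] at hlt
      apply hpK
      have hRB : R ≤ B - 1 := by have := le_abs_self R; linarith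
      have hk2 : 2 * k ^ 2 < B := by nlinarith [sq_nonneg r, sq_nonneg k]
      have hr2 : 2 * sin (θ / 2) ^ 2 * r ^ 2 < B := by nlinarith [sq_nonneg r, sq_nonneg k]
      have hkB : |k| ≤ B := by
        by_contra h
        rw [not_le] at h
        have : B ^ 2 < k ^ 2 := by
          have := sq_lt_sq' (by linarith [abs_nonneg k] : -|k| < B) h
          rwa [sq_abs] at this
        nlinarith
      refine ⟨⟨(abs_le.1 hkB).1, (abs_le.1 hkB).2⟩, hr, ?_⟩
      rw [le_div_iff₀ hs2]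
      by_contra h
      rw [not_le] at h
      -- B < r s², so 2 s² r² > 2 B r ≥ 2 B ≥ B
      have h1 : B * r < r * sin (θ / 2) ^ 2 * r := by
        have := mul_lt_mul_of_pos_right h (by linarith : (0 : ℝ) < r)
        linarith
      nlinarith
    simp only [Function.uncurry, qUp559, hΦ.zero _ hbig, zero_mul]
  exact (integrableOn_prod559 hS hK hcont h0).mono_set
    (prod_mono (subset_refl _) Ioi_subset_Ici_self)

/-- Step 4: the ray substitution `k = r sinh(x/2)`. -/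
theorem up_ray559 (Φ : ℝ → ℂ) (θ r : ℝ) (hr : 0 < r) :
    ∫ k : ℝ, qUp559 Φ θ k r
      = ∫ x : ℝ, ((r / 2 : ℝ) : ℂ) * Φ (cos θ + (cosh x - cos θ) * r ^ 2) := by
  have hinj : InjOn (fun x : ℝ => r * sinh (x / 2)) univ := by
    intro x _ y _ hxy
    have := sinh_injective (mul_left_cancel₀ hr.ne' hxy)
    linarith
  have himg : (fun x : ℝ => r * sinh (x / 2)) '' univ = univ := by
    rw [image_univ]
    apply Function.Surjective.range_eq
    intro y
    obtain ⟨x, hx⟩ := sinh_surjective (y / r)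
    refine ⟨2 * x, ?_⟩
    show r * sinh (2 * x / 2) = y
    rw [show 2 * x / 2 = x by ring, hx]
    field_simp
  have hder : ∀ x ∈ (univ : Set ℝ),
      HasDerivWithinAt (fun x : ℝ => r * sinh (x / 2)) (r * (cosh (x / 2) / 2)) univ x := by
    intro x _
    have h1 : HasDerivAt (fun b : ℝ => b / 2) (1 / 2) x := by
      simpa using (hasDerivAt_id x).div_const (2 : ℝ)
    have h2 := (hasDerivAt_sinh (x / 2)).comp x h1
    have h3 : cosh (x / 2) * (1 / 2) = cosh (x / 2) / 2 := by ring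
    rw [h3] at h2
    exact (h2.const_mul r).hasDerivWithinAt
  have key := integral_image_eq_integral_abs_deriv_smul MeasurableSet.univ hder hinj
    (fun k => qUp559 Φ θ k r)
  rw [himg] at key
  simp only [Measure.restrict_univ] at key
  rw [key]
  apply integral_congr_ae
  filter_upwards with x
  have hch : 0 < cosh (x / 2) := cosh_pos _
  have habs : |r * (cosh (x / 2) / 2)| = r * (cosh (x / 2) / 2) :=
    abs_of_pos (by positivity)
  simp only [habs, Complex.real_smul, qUp559]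
  have hsq : Real.sqrt ((r * sinh (x / 2)) ^ 2 + r ^ 2) = r * cosh (x / 2) := by
    rw [show (r * sinh (x / 2)) ^ 2 + r ^ 2 = (r * cosh (x / 2)) ^ 2 by
      rw [mul_pow, mul_pow, cosh_sq (x / 2)]; ring]
    exact Real.sqrt_sq (by positivity)
  rw [hsq]
  have hcx : cosh x = 1 + 2 * sinh (x / 2) ^ 2 := by
    have := cosh_two_mul (x / 2)
    rw [show 2 * (x / 2) = x by ring] at this
    rw [this, cosh_sq (x / 2)]
    ring
  have harg : cos θ + 2 * (r * sinh (x / 2)) ^ 2 + 2 * sin (θ / 2) ^ 2 * r ^ 2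
      = cos θ + (cosh x - cos θ) * r ^ 2 := by
    rw [hcx]
    nth_rewrite 3 [cos_eq_half559 θ]
    ring
  rw [harg]
  have hr' : (r : ℂ) ≠ 0 := by exact_mod_cast hr.ne'
  have hc' : ((cosh (x / 2) : ℝ) : ℂ) ≠ 0 := by exact_mod_cast hch.ne'
  push_cast
  push_cast at hc'
  field_simp

theorem cosh_sub_cos_ge559 (θ x : ℝ) : 2 * sin (θ / 2) ^ 2 ≤ cosh x - cos θ := by
  have := one_le_cosh x
  rw [cos_eq_half559 θ]
  linarith

/-- Integrability of the ray integrand on `(1, ∞) × ℝ`. -/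
theorem integrable_up2_559 {Φ : ℝ → ℂ} {R : ℝ} (hΦ : IsProfile559 Φ R) (θ : ℝ)
    (hs : sin (θ / 2) ≠ 0) :
    Integrable (Function.uncurry fun r x : ℝ =>
        ((r / 2 : ℝ) : ℂ) * Φ (cos θ + (cosh x - cos θ) * r ^ 2))
      ((volume.restrict (Ioi (1 : ℝ))).prod (volume : Measure ℝ)) := by
  have hm : (volume.restrict (Ioi (1 : ℝ))).prod (volume : Measure ℝ)
      = (volume : Measure (ℝ × ℝ)).restrict (Ioi (1 : ℝ) ×ˢ (univ : Set ℝ)) := by
    rw [Measure.volume_eq_prod, ← Measure.prod_restrict, Measure.restrict_univ]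
  rw [hm]
  set B : ℝ := |R| + 1 with hB
  have hB1 : 1 ≤ B := by have := abs_nonneg R; linarith
  have hs2 : 0 < sin (θ / 2) ^ 2 := by positivity
  have hc1 : -1 ≤ cos θ := neg_one_le_cos θ
  have hS : IsClosed (Ici (1 : ℝ) ×ˢ (univ : Set ℝ)) := isClosed_Ici.prod isClosed_univ
  have hK : IsCompact (Icc (1 : ℝ) (B / sin (θ / 2) ^ 2) ×ˢ Icc (-B) B) :=
    isCompact_Icc.prod isCompact_Icc
  have hcont : ContinuousOn (Function.uncurry fun r x : ℝ =>
        ((r / 2 : ℝ) : ℂ) * Φ (cos θ + (cosh x - cos θ) * r ^ 2))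
      (Ici (1 : ℝ) ×ˢ (univ : Set ℝ)) := by
    apply Continuous.continuousOn
    apply Continuous.mul
    · fun_prop
    · exact hΦ.cont.comp (by fun_prop)
  have h0 : ∀ p ∈ Ici (1 : ℝ) ×ˢ (univ : Set ℝ),
      p ∉ Icc (1 : ℝ) (B / sin (θ / 2) ^ 2) ×ˢ Icc (-B) B →
      (Function.uncurry fun r x : ℝ =>
        ((r / 2 : ℝ) : ℂ) * Φ (cos θ + (cosh x - cos θ) * r ^ 2)) p = 0 := by
    rintro ⟨r, x⟩ hp hpK
    have hr : (1 : ℝ) ≤ r := hp.1
    have hA := cosh_sub_cos_ge559 θ x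
    have hA0 : 0 ≤ cosh x - cos θ := le_trans (by positivity) hA
    have hbig : R ≤ cos θ + (cosh x - cos θ) * r ^ 2 := by
      by_contra hlt
      rw [not_le] at hlt
      apply hpK
      have hRB : R ≤ B - 1 := by have := le_abs_self R; linarith
      have hr2 : 1 ≤ r ^ 2 := by nlinarith
      -- arg ≥ cosh x
      have h1 : cosh x ≤ cos θ + (cosh x - cos θ) * r ^ 2 := by
        nlinarith [mul_nonneg hA0 (sub_nonneg.2 hr2)]
      -- arg ≥ -1 + 2 s² r²
      have h2 : -1 + 2 * sin (θ / 2) ^ 2 * r ^ 2 ≤ cos θ + (cosh x - cos θ) * r ^ 2 := by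
        nlinarith [mul_le_mul_of_nonneg_right hA (sq_nonneg r)]
      refine ⟨⟨hr, ?_⟩, ?_⟩
      · rw [le_div_iff₀ hs2]
        by_contra h
        rw [not_le] at h
        have h3 : B * r < r * sin (θ / 2) ^ 2 * r := by
          have := mul_lt_mul_of_pos_right h (by linarith : (0 : ℝ) < r)
          linarith
        nlinarith
      · have h3 : |x| < B := by
          have := abs_lt_cosh559 x
          linarith
        exact ⟨(abs_lt.1 h3).1.le, (abs_lt.1 h3).2.le⟩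
    simp only [Function.uncurry, hΦ.zero _ hbig, mul_zero]
  exact (integrableOn_prod559 hS hK hcont h0).mono_set
    (prod_mono Ioi_subset_Ici_self (subset_refl _))

/-- **The upstairs side.** -/
theorem ellUp_eq559 {Φ : ℝ → ℂ} {R : ℝ} (hΦ : IsProfile559 Φ R) (θ : ℝ)
    (hs : sin (θ / 2) ≠ 0) :
    ellUp559 Φ θ = ∫ x : ℝ, ((1 / (4 * (cosh x - cos θ)) : ℝ) : ℂ) * tail559 Φ (cosh x) := by
  unfold ellUp559
  have h1 : ∫ b : ℝ, ∫ τ in Ioi (0 : ℝ),
        Φ (cosh (4 * b) + 2 * cosh (2 * b) ^ 2 * sin (θ / 2) ^ 2 * sinh τ ^ 2)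
          * ((2 * cosh (2 * b) ^ 2 * sinh τ : ℝ) : ℂ)
      = ∫ b : ℝ, ((2 * cosh (2 * b) : ℝ) : ℂ)
          * ∫ r in Ioi (1 : ℝ), qUp559 Φ θ (sinh (2 * b)) r := by
    apply integral_congr_ae
    filter_upwards with b
    exact up_inner559 Φ θ b
  rw [h1, up_outer559 (fun k => ∫ r in Ioi (1 : ℝ), qUp559 Φ θ k r),
    integral_integral_swap (integrable_up1_559 hΦ θ hs)]
  have h2 : ∫ r in Ioi (1 : ℝ), ∫ k : ℝ, qUp559 Φ θ k r
      = ∫ r in Ioi (1 : ℝ), ∫ x : ℝ,
          ((r / 2 : ℝ) : ℂ) * Φ (cos θ + (cosh x - cos θ) * r ^ 2) := by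
    apply setIntegral_congr_fun measurableSet_Ioi
    intro r hr
    have hr1 : (1 : ℝ) < r := hr
    exact up_ray559 Φ θ r (by linarith)
  rw [h2, integral_integral_swap (integrable_up2_559 hΦ θ hs)]
  apply integral_congr_ae
  filter_upwards with x
  have hA : 0 < cosh x - cos θ :=
    lt_of_lt_of_le (by positivity) (cosh_sub_cos_ge559 θ x)
  have hrad := radial559 Φ (A := cosh x - cos θ) (r₀ := 1) (cos θ) hA (by norm_num)
  have e : ∫ r in Ioi (1 : ℝ), ((r / 2 : ℝ) : ℂ) * Φ (cos θ + (cosh x - cos θ) * r ^ 2)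
      = (1 / 2 : ℂ) * ∫ r in Ioi (1 : ℝ), (r : ℂ) * Φ (cos θ + (cosh x - cos θ) * r ^ 2) := by
    rw [← integral_const_mul]
    apply setIntegral_congr_fun measurableSet_Ioi
    intro r _
    push_cast
    ring
  rw [e, hrad]
  rw [show cos θ + (cosh x - cos θ) * 1 ^ 2 = cosh x by ring]
  have hA' : ((cosh x - cos θ : ℝ) : ℂ) ≠ 0 := by exact_mod_cast hA.ne'
  push_cast at hA' ⊢
  field_simp
  ring

end Fermat.Agent.LT.T6.H559

end
end
-- ===== PACK-END LT/T6/H559/EllUp.lean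

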