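import Mathlib
import Fermat.Agent.Pack.LT3.E0L2
import Fermat.Agent.Pack.LT3.E2L0
import Fermat.Agent.Pack.LT3.E4L1
import Fermat.Agent.Pack.LT2.E0L1
import Fermat.Agent.Pack.LT3.E3L2
import Fermat.Agent.Pack.LT3.E5L1

set_option linter.all false

-- ===== PACK-BEGIN LT/T6/H501/AbelAreaC.lean
section




/-!
# Row LT, tower T6, sub-leaf T6.23.10 `AbelAreaCC` (helper501) — OFF-MAIN

`abelAreaCC501 : T6.H189.AbelAreaCC` (bytes of `T6/H189/ArchIntCut.lean`, helper189):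

    ∫∫ φ(cosh s + e^s |w|² / 2) dw ds = 4π ∫_{d > 0} φ(cosh d) sinh² d dd

as an identity of measures on `ℝ`.

Proof (all with `lintegral`, so no integrability is needed).  Polar coordinates in `ℂ`, then the
substitution `ρ = cosh s + e^s r² / 2` in `r`: the inner integral is `2π e^{-s} ∫_{ρ > cosh s} φ`.
Tonelli: the left side is `2π ∫ φ(ρ) m(ρ) dρ` with `m(ρ) = ∫_{cosh s < ρ} e^{-s} ds`, which vanishes
for `ρ ≤ 1`.  Substitution `ρ = cosh d` on `d > 0` and `m(cosh d) = ∫_{-d}^{d} e^{-s} ds = 2 sinh d`.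
-/

set_option autoImplicit false

open MeasureTheory
open scoped ENNReal

noncomputable section

namespace Fermat.Agent.LT.H501.Ab

/-! ## The substitution in `r` -/

/-- `r ↦ cosh s + e^s r² / 2`. -/
def hS (s r : ℝ) : ℝ := Real.cosh s + Real.exp s * r ^ 2 / 2

lemma hS_hasDerivAt (s r : ℝ) : HasDerivAt (hS s) (Real.exp s * r) r := by
  have h1 : HasDerivAt (fun r : ℝ => r ^ 2) (2 * r) r := by
    simpa using hasDerivAt_pow 2 r
  have h2 : HasDerivAt (fun r : ℝ => Real.exp s * r ^ 2 / 2) (Real.exp s * (2 * r) / 2) r :=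
    (h1.const_mul (Real.exp s)).div_const 2
  have h3 := h2.const_add (Real.cosh s)
  have e : Real.exp s * (2 * r) / 2 = Real.exp s * r := by ring
  rw [e] at h3
  exact h3

lemma hS_lt {s r₁ r₂ : ℝ} (h₁ : 0 ≤ r₁) (h : r₁ < r₂) : hS s r₁ < hS s r₂ := by
  unfold hS
  have hsq : r₁ ^ 2 < r₂ ^ 2 := by nlinarith
  have he : 0 < Real.exp s := Real.exp_pos s
  have : Real.exp s * r₁ ^ 2 < Real.exp s * r₂ ^ 2 := mul_lt_mul_of_pos_left hsq he
  linarith

lemma hS_injOn (s : ℝ) : Set.InjOn (hS s) (Set.Ioi 0) := by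
  intro a ha b hb hab
  rcases lt_trichotomy a b with h | h | h
  · exact absurd hab (hS_lt (le_of_lt ha) h).ne
  · exact h
  · exact absurd hab (hS_lt (le_of_lt hb) h).ne'

lemma hS_image (s : ℝ) : hS s '' Set.Ioi 0 = Set.Ioi (Real.cosh s) := by
  ext ρ
  constructor
  · rintro ⟨r, hr, rfl⟩
    have h0 : hS s 0 = Real.cosh s := by simp [hS]
    have := hS_lt (s := s) (le_refl 0) hr
    rw [h0] at this
    exact this
  · intro hρ
    have hρ' : Real.cosh s < ρ := hρ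
    have he : 0 < Real.exp s := Real.exp_pos s
    have hpos : 0 < 2 * (ρ - Real.cosh s) / Real.exp s := by
      apply div_pos _ he
      linarith
    refine ⟨Real.sqrt (2 * (ρ - Real.cosh s) / Real.exp s), Real.sqrt_pos.2 hpos, ?_⟩
    unfold hS
    rw [Real.sq_sqrt hpos.le]
    field_simp
    ring

/-- The substitution `ρ = cosh s + e^s r² / 2`. -/
lemma lintegral_subst_r (φ : ℝ → ℝ≥0∞) (s : ℝ) :
    ∫⁻ r in Set.Ioi (0 : ℝ), ENNReal.ofReal r * φ (hS s r)
      = ENNReal.ofReal (Real.exp (-s)) * ∫⁻ ρ in Set.Ioi (Real.cosh s), φ ρ := by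
  have h := lintegral_image_eq_lintegral_abs_deriv_mul (s := Set.Ioi (0 : ℝ)) (f := hS s)
    (f' := fun r => Real.exp s * r) measurableSet_Ioi
    (fun r _ => (hS_hasDerivAt s r).hasDerivWithinAt) (hS_injOn s) φ
  rw [hS_image] at h
  rw [h, ← lintegral_const_mul' _ _ ENNReal.ofReal_ne_top]
  apply setLIntegral_congr_fun measurableSet_Ioi
  intro r hr
  have hr' : (0 : ℝ) < r := hr
  have he : 0 < Real.exp s := Real.exp_pos s
  show ENNReal.ofReal r * φ (hS s r)
    = ENNReal.ofReal (Real.exp (-s)) * (ENNReal.ofReal |Real.exp s * r| * φ (hS s r))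
  rw [abs_of_pos (mul_pos he hr'), ← mul_assoc, ← ENNReal.ofReal_mul (Real.exp_pos _).le,
    ← mul_assoc, ← Real.exp_add, neg_add_cancel, Real.exp_zero, one_mul]

/-! ## Polar coordinates in `ℂ` -/

lemma continuous_hS (s : ℝ) : Continuous (hS s) := by
  unfold hS
  fun_prop

/-- The inner integral in polar coordinates. -/
lemma lintegral_inner {φ : ℝ → ℝ≥0∞} (hφ : Measurable φ) (s : ℝ) :
    ∫⁻ w : ℂ, φ (hS s ‖w‖)
      = ENNReal.ofReal (2 * Real.pi) * ∫⁻ r in Set.Ioi (0 : ℝ), ENNReal.ofReal r * φ (hS s r) := by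
  rw [← Complex.lintegral_comp_polarCoord_symm]
  have h1 : ∫⁻ p in polarCoord.target,
        ENNReal.ofReal p.1 • φ (hS s ‖Complex.polarCoord.symm p‖)
      = ∫⁻ p in polarCoord.target, ENNReal.ofReal p.1 * φ (hS s p.1) := by
    apply setLIntegral_congr_fun polarCoord.open_target.measurableSet
    intro p hp
    have hp1 : 0 < p.1 := by
      rw [polarCoord_target] at hp
      exact hp.1
    show ENNReal.ofReal p.1 • φ (hS s ‖Complex.polarCoord.symm p‖) = _
    rw [Complex.norm_polarCoord_symm, abs_of_pos hp1, smul_eq_mul]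
  have hmeas : Measurable (fun p : ℝ × ℝ => ENNReal.ofReal p.1 * φ (hS s p.1)) :=
    (ENNReal.measurable_ofReal.comp measurable_fst).mul
      (hφ.comp ((continuous_hS s).measurable.comp measurable_fst))
  rw [h1, polarCoord_target, Measure.volume_eq_prod, ← Measure.prod_restrict,
    lintegral_prod _ hmeas.aemeasurable]
  rw [← lintegral_const_mul' _ _ ENNReal.ofReal_ne_top]
  apply lintegral_congr
  intro r
  show ∫⁻ _ in Set.Ioo (-Real.pi) Real.pi, ENNReal.ofReal r * φ (hS s r)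
    = ENNReal.ofReal (2 * Real.pi) * (ENNReal.ofReal r * φ (hS s r))
  rw [lintegral_const, Measure.restrict_apply MeasurableSet.univ, Set.univ_inter,
    Real.volume_Ioo, mul_comm]
  congr 2
  ring

/-! ## The sections `{s | cosh s < ρ}` -/

/-- `m(ρ) = ∫_{cosh s < ρ} e^{-s} ds`. -/
def mfun (ρ : ℝ) : ℝ≥0∞ :=
  ∫⁻ s : ℝ, ({s : ℝ | Real.cosh s < ρ}).indicator (fun s => ENNReal.ofReal (Real.exp (-s))) s

lemma measurableSet_section (ρ : ℝ) : MeasurableSet {s : ℝ | Real.cosh s < ρ} :=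
  (isOpen_lt Real.continuous_cosh continuous_const).measurableSet

lemma mfun_of_le_one {ρ : ℝ} (hρ : ρ ≤ 1) : mfun ρ = 0 := by
  unfold mfun
  have h : {s : ℝ | Real.cosh s < ρ} = ∅ := by
    ext s
    simp only [Set.mem_ofPred_eq, Set.mem_empty_iff_false, iff_false, not_lt]
    exact le_trans hρ (Real.one_le_cosh s)
  rw [h]
  simp

lemma section_cosh {d : ℝ} (hd : 0 < d) : {s : ℝ | Real.cosh s < Real.cosh d} = Set.Ioo (-d) d := by
  ext s
  simp only [Set.mem_ofPred_eq, Set.mem_Ioo]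
  rw [Real.cosh_lt_cosh, abs_of_pos hd, abs_lt]

lemma mfun_cosh {d : ℝ} (hd : 0 < d) : mfun (Real.cosh d) = ENNReal.ofReal (2 * Real.sinh d) := by
  unfold mfun
  rw [section_cosh hd, lintegral_indicator measurableSet_Ioo]
  have hint : IntegrableOn (fun s : ℝ => Real.exp (-s)) (Set.Ioo (-d) d) := by
    have hc : Continuous (fun s : ℝ => Real.exp (-s)) := Real.continuous_exp.comp continuous_neg
    exact (hc.integrableOn_Icc (a := -d) (b := d)).mono_set Set.Ioo_subset_Icc_self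
  rw [← ofReal_integral_eq_lintegral_ofReal hint
    (Filter.Eventually.of_forall fun s => (Real.exp_pos _).le)]
  congr 1
  have hle : -d ≤ d := by linarith
  rw [← integral_Ioc_eq_integral_Ioo, ← intervalIntegral.integral_of_le hle]
  have h := intervalIntegral.integral_comp_neg (a := -d) (b := d) (f := fun s : ℝ => Real.exp s)
  simp only [neg_neg] at h
  rw [h, integral_exp, Real.sinh_eq]
  ring

/-! ## Tonelli -/

lemma measurableSet_region : MeasurableSet {p : ℝ × ℝ | Real.cosh p.1 < p.2} :=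
  (isOpen_lt (Real.continuous_cosh.comp continuous_fst) continuous_snd).measurableSet

/-- Tonelli: `∫ e^{-s} ∫_{ρ > cosh s} φ(ρ) dρ ds = ∫ φ(ρ) m(ρ) dρ`. -/
lemma lintegral_swap {φ : ℝ → ℝ≥0∞} (hφ : Measurable φ) :
    ∫⁻ s : ℝ, ENNReal.ofReal (Real.exp (-s)) * ∫⁻ ρ in Set.Ioi (Real.cosh s), φ ρ
      = ∫⁻ ρ : ℝ, φ ρ * mfun ρ := by
  obtain ⟨G, hG⟩ : ∃ G : ℝ → ℝ → ℝ≥0∞, G = fun s ρ =>
      ({p : ℝ × ℝ | Real.cosh p.1 < p.2}).indicator
        (fun p : ℝ × ℝ => ENNReal.ofReal (Real.exp (-p.1)) * φ p.2) (s, ρ) := ⟨_, rfl⟩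
  have hGm : Measurable (Function.uncurry G) := by
    have h : Function.uncurry G = ({p : ℝ × ℝ | Real.cosh p.1 < p.2}).indicator
        (fun p : ℝ × ℝ => ENNReal.ofReal (Real.exp (-p.1)) * φ p.2) := by
      funext p
      rw [hG]
      rfl
    rw [h]
    apply Measurable.indicator _ measurableSet_region
    exact (ENNReal.measurable_ofReal.comp
      ((Real.continuous_exp.comp continuous_neg).measurable.comp measurable_fst)).mul
      (hφ.comp measurable_snd)
  have hL : ∀ s : ℝ, ENNReal.ofReal (Real.exp (-s)) * ∫⁻ ρ in Set.Ioi (Real.cosh s), φ ρ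
      = ∫⁻ ρ : ℝ, G s ρ := by
    intro s
    rw [← lintegral_const_mul _ hφ, ← lintegral_indicator measurableSet_Ioi]
    apply lintegral_congr
    intro ρ
    rw [hG]
    by_cases h : Real.cosh s < ρ
    · have h1 : ρ ∈ Set.Ioi (Real.cosh s) := h
      have h2 : (s, ρ) ∈ {p : ℝ × ℝ | Real.cosh p.1 < p.2} := h
      rw [Set.indicator_of_mem h1]
      show _ = ({p : ℝ × ℝ | Real.cosh p.1 < p.2}).indicator _ (s, ρ)
      rw [Set.indicator_of_mem h2]
    · have h1 : ρ ∉ Set.Ioi (Real.cosh s) := h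
      have h2 : (s, ρ) ∉ {p : ℝ × ℝ | Real.cosh p.1 < p.2} := h
      rw [Set.indicator_of_notMem h1]
      show _ = ({p : ℝ × ℝ | Real.cosh p.1 < p.2}).indicator _ (s, ρ)
      rw [Set.indicator_of_notMem h2]
  have hR : ∀ ρ : ℝ, ∫⁻ s : ℝ, G s ρ = φ ρ * mfun ρ := by
    intro ρ
    unfold mfun
    have hm : Measurable (({s : ℝ | Real.cosh s < ρ}).indicator
        (fun s : ℝ => ENNReal.ofReal (Real.exp (-s)))) :=
      Measurable.indicator (ENNReal.measurable_ofReal.comp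
        (Real.continuous_exp.comp continuous_neg).measurable) (measurableSet_section ρ)
    rw [← lintegral_const_mul _ hm]
    apply lintegral_congr
    intro s
    rw [hG]
    by_cases h : Real.cosh s < ρ
    · have h1 : s ∈ {s : ℝ | Real.cosh s < ρ} := h
      have h2 : (s, ρ) ∈ {p : ℝ × ℝ | Real.cosh p.1 < p.2} := h
      show ({p : ℝ × ℝ | Real.cosh p.1 < p.2}).indicator _ (s, ρ) = _
      rw [Set.indicator_of_mem h1, Set.indicator_of_mem h2, mul_comm]
    · have h1 : s ∉ {s : ℝ | Real.cosh s < ρ} := h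
      have h2 : (s, ρ) ∉ {p : ℝ × ℝ | Real.cosh p.1 < p.2} := h
      show ({p : ℝ × ℝ | Real.cosh p.1 < p.2}).indicator _ (s, ρ) = _
      rw [Set.indicator_of_notMem h1, Set.indicator_of_notMem h2, mul_zero]
  simp only [hL]
  rw [lintegral_lintegral_swap hGm.aemeasurable]
  simp only [hR]

/-! ## The substitution `ρ = cosh d` -/

lemma cosh_image_Ioi : Real.cosh '' Set.Ioi 0 = Set.Ioi 1 := by
  ext ρ
  constructor
  · rintro ⟨d, hd, rfl⟩
    have hd' : (0 : ℝ) < d := hd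
    exact Real.one_lt_cosh.2 hd'.ne'
  · intro hρ
    have hρ' : (1 : ℝ) < ρ := hρ
    exact ⟨Real.arcosh ρ, Real.arcosh_pos hρ', Real.cosh_arcosh hρ'.le⟩

lemma cosh_injOn_Ioi : Set.InjOn Real.cosh (Set.Ioi 0) :=
  Real.cosh_injOn.mono Set.Ioi_subset_Ici_self

/-- `∫ φ(ρ) m(ρ) dρ = 2 ∫_{d > 0} φ(cosh d) sinh² d dd`. -/
lemma lintegral_mfun (φ : ℝ → ℝ≥0∞) :
    ∫⁻ ρ : ℝ, φ ρ * mfun ρ
      = ∫⁻ d in Set.Ioi (0 : ℝ), ENNReal.ofReal 2 *
          (ENNReal.ofReal (Real.sinh d ^ 2) * φ (Real.cosh d)) := by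
  have h0 : (fun ρ : ℝ => φ ρ * mfun ρ) = (Set.Ioi (1 : ℝ)).indicator (fun ρ => φ ρ * mfun ρ) := by
    funext ρ
    by_cases h : ρ ∈ Set.Ioi (1 : ℝ)
    · rw [Set.indicator_of_mem h]
    · rw [Set.indicator_of_notMem h]
      have hle : ρ ≤ 1 := not_lt.1 h
      rw [mfun_of_le_one hle, mul_zero]
  rw [h0, lintegral_indicator measurableSet_Ioi, ← cosh_image_Ioi,
    lintegral_image_eq_lintegral_abs_deriv_mul (s := Set.Ioi (0 : ℝ)) (f := Real.cosh)
      (f' := Real.sinh) measurableSet_Ioi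
      (fun d _ => (Real.hasDerivAt_cosh d).hasDerivWithinAt) cosh_injOn_Ioi]
  apply setLIntegral_congr_fun measurableSet_Ioi
  intro d hd
  have hd' : (0 : ℝ) < d := hd
  have hs : 0 < Real.sinh d := Real.sinh_pos_iff.2 hd'
  show ENNReal.ofReal |Real.sinh d| * (φ (Real.cosh d) * mfun (Real.cosh d))
    = ENNReal.ofReal 2 * (ENNReal.ofReal (Real.sinh d ^ 2) * φ (Real.cosh d))
  rw [mfun_cosh hd', abs_of_pos hs, ENNReal.ofReal_mul (by norm_num : (0 : ℝ) ≤ 2), sq,
    ENNReal.ofReal_mul hs.le]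
  ring

/-! ## The sub-leaf -/

/-- **Sub-leaf T6.23.10 `AbelAreaCC`**, verbatim (bytes of `T6/H189/ArchIntCut.lean`). -/
theorem abelAreaCC501 : Fermat.Agent.LT.T6.H189.AbelAreaCC := by
  unfold Fermat.Agent.LT.T6.H189.AbelAreaCC
  refine Measure.ext_of_lintegral _ fun φ hφ => ?_
  have hF : Measurable (fun p : ℝ × ℂ => Real.cosh p.1 + Real.exp p.1 * ‖p.2‖ ^ 2 / 2) := by
    fun_prop
  -- the left side
  have hLeft : ∫⁻ x, φ x ∂(Measure.map
        (fun p : ℝ × ℂ => Real.cosh p.1 + Real.exp p.1 * ‖p.2‖ ^ 2 / 2)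
        (volume : Measure (ℝ × ℂ)))
      = ENNReal.ofReal (2 * Real.pi) * ∫⁻ ρ : ℝ, φ ρ * mfun ρ := by
    have hm : Measurable (fun p : ℝ × ℂ =>
        φ (Real.cosh p.1 + Real.exp p.1 * ‖p.2‖ ^ 2 / 2)) := hφ.comp hF
    rw [lintegral_map hφ hF, Measure.volume_eq_prod, lintegral_prod _ hm.aemeasurable]
    have h1 : ∀ s : ℝ, ∫⁻ w : ℂ, φ (Real.cosh (s, w).1 + Real.exp (s, w).1 * ‖(s, w).2‖ ^ 2 / 2)
        = ENNReal.ofReal (2 * Real.pi) *
          (ENNReal.ofReal (Real.exp (-s)) * ∫⁻ ρ in Set.Ioi (Real.cosh s), φ ρ) := by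
      intro s
      have := lintegral_inner hφ s
      rw [lintegral_subst_r] at this
      exact this
    simp only [h1]
    rw [lintegral_const_mul' _ _ ENNReal.ofReal_ne_top, lintegral_swap hφ]
  -- the right side
  have hRight : ∫⁻ x, φ x ∂(ENNReal.ofReal (4 * Real.pi) •
        Measure.map Real.cosh Fermat.Agent.LT.T6.H189.radMC)
      = ENNReal.ofReal (4 * Real.pi) *
          ∫⁻ d in Set.Ioi (0 : ℝ), ENNReal.ofReal (Real.sinh d ^ 2) * φ (Real.cosh d) := by
    have hm1 : Measurable (fun t : ℝ => ENNReal.ofReal (Real.sinh t ^ 2)) :=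
      ENNReal.measurable_ofReal.comp ((Real.continuous_sinh.pow 2).measurable)
    have hm2 : Measurable (fun a : ℝ => φ (Real.cosh a)) := hφ.comp Real.measurable_cosh
    rw [lintegral_smul_measure, lintegral_map hφ Real.measurable_cosh, smul_eq_mul]
    unfold Fermat.Agent.LT.T6.H189.radMC
    rw [lintegral_withDensity_eq_lintegral_mul _ hm1 hm2]
    rfl
  rw [hLeft, hRight, lintegral_mfun, lintegral_const_mul' _ _ ENNReal.ofReal_ne_top, ← mul_assoc,
    ← ENNReal.ofReal_mul (by positivity)]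
  congr 2
  ring

end Fermat.Agent.LT.H501.Ab

end

end
-- ===== PACK-END LT/T6/H501/AbelAreaC.lean

-- ===== PACK-BEGIN LT/T6/H441/PolCBasic.lean
section



/-!
# Row LT, tower T6, leaf T6.23.15 `PolOfCC` (helper441): algebra and topology of the parametrisations

OFF-MAIN.  Mathlib + `LT/T6/H189/ArchIntSpec.lean`, `ArchIntCut.lean` (helper189, byte-identical).
-/

set_option autoImplicit false

open MeasureTheory
open scoped Matrix ENNReal

noncomputable section

namespace Fermat.Agent.LT.T6.H441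

open Fermat.Agent.LT.T6.H189

/-! ## Second countability -/

theorem secondCountable_mat441 : SecondCountableTopology (Matrix (Fin 2) (Fin 2) ℂ) :=
  inferInstanceAs (SecondCountableTopology (Fin 2 → Fin 2 → ℂ))

theorem secondCountable_matop441 : SecondCountableTopology (Matrix (Fin 2) (Fin 2) ℂ)ᵐᵒᵖ :=
  haveI := secondCountable_mat441
  (MulOpposite.opHomeomorph (M := Matrix (Fin 2) (Fin 2) ℂ)).symm.isEmbedding.secondCountableTopology

theorem secondCountable_GC441 : SecondCountableTopology (GL (Fin 2) ℂ) :=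
  haveI := secondCountable_mat441
  haveI := secondCountable_matop441
  Units.isEmbedding_embedProduct.secondCountableTopology

theorem sfinite_radMC441 : SFinite radMC := by
  unfold radMC; infer_instance

/-! ## The matrices -/

@[simp] theorem dgC_val441 (u₁ u₂ : ℝ) :
    (dgC u₁ u₂ : Matrix (Fin 2) (Fin 2) ℂ) = !![(Real.exp u₁ : ℂ), 0; 0, (Real.exp u₂ : ℂ)] :=
  rfl

@[simp] theorem unC_val441 (w : ℂ) :
    (unC w : Matrix (Fin 2) (Fin 2) ℂ) = !![1, w; 0, 1] :=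
  rfl

theorem dgC_mul441 (u₁ u₂ v₁ v₂ : ℝ) : dgC u₁ u₂ * dgC v₁ v₂ = dgC (u₁ + v₁) (u₂ + v₂) := by
  apply Units.ext
  rw [Units.val_mul, dgC_val441, dgC_val441, dgC_val441]
  simp only [Matrix.mul_fin_two, mul_zero, zero_mul, add_zero, zero_add, Real.exp_add,
    Complex.ofReal_mul]

theorem dgC_zero441 : dgC 0 0 = 1 := by
  apply Units.ext
  rw [dgC_val441]
  simp [Matrix.one_fin_two]

theorem dgC_inv441 (u₁ u₂ : ℝ) : (dgC u₁ u₂)⁻¹ = dgC (-u₁) (-u₂) := by
  rw [inv_eq_iff_mul_eq_one, dgC_mul441, add_neg_cancel, add_neg_cancel, dgC_zero441]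

theorem unC_mul441 (w w' : ℂ) : unC w * unC w' = unC (w' + w) := by
  apply Units.ext
  rw [Units.val_mul, unC_val441, unC_val441, unC_val441]
  simp only [Matrix.mul_fin_two, mul_zero, zero_mul, add_zero, zero_add, one_mul, mul_one]

theorem unC_zero441 : unC 0 = 1 := by
  apply Units.ext
  rw [unC_val441]
  simp [Matrix.one_fin_two]

theorem unC_inv441 (w : ℂ) : (unC w)⁻¹ = unC (-w) := by
  rw [inv_eq_iff_mul_eq_one, unC_mul441, neg_add_cancel, unC_zero441]

/-- The scalar matrices are central. -/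
theorem sclC_comm441 (r : ℝ) (g : GL (Fin 2) ℂ) : g * sclC r = sclC r * g := by
  apply Units.ext
  rw [Units.val_mul, Units.val_mul]
  have h : (sclC r : Matrix (Fin 2) (Fin 2) ℂ) = (Real.exp r : ℂ) • (1 : Matrix (Fin 2) (Fin 2) ℂ) := by
    unfold sclC
    rw [dgC_val441]
    ext i j
    fin_cases i <;> fin_cases j <;> simp
  rw [h, Matrix.mul_smul, Matrix.smul_mul, Matrix.mul_one, Matrix.one_mul]

/-! ## Continuity -/

theorem continuous_dgC441 : Continuous (fun p : ℝ × ℝ => dgC p.1 p.2) := by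
  rw [Units.continuous_iff]
  constructor
  · show Continuous fun p : ℝ × ℝ => (dgC p.1 p.2 : Matrix (Fin 2) (Fin 2) ℂ)
    simp only [dgC_val441]
    refine continuous_pi fun i => continuous_pi fun j => ?_
    fin_cases i <;> fin_cases j <;> simp <;> fun_prop
  · show Continuous fun p : ℝ × ℝ => (((dgC p.1 p.2)⁻¹ : GL (Fin 2) ℂ) : Matrix (Fin 2) (Fin 2) ℂ)
    simp only [dgC_inv441, dgC_val441]
    refine continuous_pi fun i => continuous_pi fun j => ?_
    fin_cases i <;> fin_cases j <;> simp <;> fun_prop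

theorem continuous_unC441 : Continuous unC := by
  rw [Units.continuous_iff]
  constructor
  · show Continuous fun w : ℂ => (unC w : Matrix (Fin 2) (Fin 2) ℂ)
    simp only [unC_val441]
    refine continuous_pi fun i => continuous_pi fun j => ?_
    fin_cases i <;> fin_cases j <;> simp <;> fun_prop
  · show Continuous fun w : ℂ => (((unC w)⁻¹ : GL (Fin 2) ℂ) : Matrix (Fin 2) (Fin 2) ℂ)
    simp only [unC_inv441, unC_val441]
    refine continuous_pi fun i => continuous_pi fun j => ?_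
    fin_cases i <;> fin_cases j <;> simp <;> fun_prop

theorem continuous_sclC441 : Continuous sclC :=
  continuous_dgC441.comp (continuous_id.prodMk continuous_id)

theorem continuous_atC441 : Continuous atC := by
  unfold atC
  exact continuous_dgC441.comp
    ((continuous_id.div_const 2).prodMk (continuous_id.div_const 2).neg)

theorem continuous_polC441 : Continuous polC := by
  unfold polC
  exact (((continuous_sclC441.comp continuous_fst).mul (continuous_fst.comp continuous_snd)).mul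
    (continuous_atC441.comp (continuous_fst.comp (continuous_snd.comp continuous_snd)))).mul
    (continuous_snd.comp (continuous_snd.comp continuous_snd))

theorem continuous_iwaC441 : Continuous iwaC := by
  unfold iwaC
  exact ((continuous_dgC441.comp (continuous_fst.prodMk (continuous_fst.comp continuous_snd))).mul
    (continuous_unC441.comp (continuous_fst.comp (continuous_snd.comp continuous_snd)))).mul
    (continuous_snd.comp (continuous_snd.comp continuous_snd))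

/-! ## Determinant and `ρ` of the Borel elements -/

theorem det_dgC_unC441 (u₁ u₂ : ℝ) (w : ℂ) :
    ((dgC u₁ u₂ * unC w : GL (Fin 2) ℂ) : Matrix (Fin 2) (Fin 2) ℂ).det
      = ((Real.exp (u₁ + u₂) : ℝ) : ℂ) := by
  rw [Units.val_mul, dgC_val441, unC_val441]
  simp only [Matrix.mul_fin_two, Matrix.det_fin_two_of, mul_zero, zero_mul, add_zero, zero_add,
    mul_one, sub_zero, Real.exp_add, Complex.ofReal_mul]

theorem log_det_dgC_unC441 (u₁ u₂ : ℝ) (w : ℂ) :
    Real.log ‖((dgC u₁ u₂ * unC w : GL (Fin 2) ℂ) : Matrix (Fin 2) (Fin 2) ℂ).det‖ / 2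
      = (u₁ + u₂) / 2 := by
  rw [det_dgC_unC441, Complex.norm_real, Real.norm_eq_abs, abs_of_pos (Real.exp_pos _),
    Real.log_exp]

theorem rhoQ_dgC_unC441 (u₁ u₂ : ℝ) (w : ℂ) :
    rhoQ (dgC u₁ u₂ * unC w)
      = Real.cosh (u₁ - u₂) + Real.exp (u₁ - u₂) * ‖w‖ ^ 2 / 2 := by
  unfold rhoQ
  rw [det_dgC_unC441, Complex.norm_real, Real.norm_eq_abs, abs_of_pos (Real.exp_pos _)]
  rw [Units.val_mul, dgC_val441, unC_val441]
  have htr : ((!![(Real.exp u₁ : ℂ), 0; 0, (Real.exp u₂ : ℂ)] * !![1, w; 0, 1]).conjTranspose *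
      (!![(Real.exp u₁ : ℂ), 0; 0, (Real.exp u₂ : ℂ)] * !![1, w; 0, 1])).trace.re
      = Real.exp u₁ ^ 2 * (1 + ‖w‖ ^ 2) + Real.exp u₂ ^ 2 := by
    simp only [Matrix.mul_fin_two, Matrix.conjTranspose_apply, Matrix.trace_fin_two,
      Matrix.mul_apply, Fin.sum_univ_two, Matrix.of_apply, Matrix.cons_val', Matrix.cons_val_zero,
      Matrix.cons_val_one, Matrix.cons_val_fin_one, mul_zero, zero_mul, add_zero, zero_add,
      mul_one, Complex.star_def, Complex.conj_ofReal]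
    rw [Complex.conj_mul', norm_mul, Complex.norm_real, Real.norm_eq_abs,
      abs_of_pos (Real.exp_pos u₁)]
    have e : (↑(Real.exp u₁) * ↑(Real.exp u₁) +
        ((((Real.exp u₁ * ‖w‖ : ℝ) : ℂ)) ^ 2 + ↑(Real.exp u₂) * ↑(Real.exp u₂)) : ℂ)
        = ((Real.exp u₁ ^ 2 * (1 + ‖w‖ ^ 2) + Real.exp u₂ ^ 2 : ℝ) : ℂ) := by
      push_cast; ring
    rw [e, Complex.ofReal_re]
  rw [htr, Real.cosh_eq, Real.exp_add, Real.exp_sub, neg_sub, Real.exp_sub]
  have h1 := Real.exp_pos u₁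
  have h2 := Real.exp_pos u₂
  field_simp
  ring

end Fermat.Agent.LT.T6.H441

end

end
-- ===== PACK-END LT/T6/H441/PolCBasic.lean

-- ===== PACK-BEGIN LT/T6/H783/CenSpec.lean
section


/-!
# Row LT, tower T6, leaf T6.18g `CenNormC783` (twisted descent at the centre): SECOND-LEVEL
SUB-SPEC (helper783) -- HELPER, use or ignore

OFF-MAIN.  Definitions + frozen Props.  PROVED glue in `CenTop.lean`:

* `cenOne_of_leaves783 : NormInjC → DescC783 → PowC783 → CenOneC783`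
* `cenNorm_of_leaves783 : TranslC783 → NormInjC → DescC783 → PowC783 → CenNormC783`

Design memo: `coord/T6.18-design.md` (origin/helper783).

`G = GL₂(k) ⊂ G' = GL₂(k')`; the norm of `h ∈ G` is `h ^ l`.

* `DescC783` (DESCENT `G' ⇝ G` at `δ₀ = 1`): there are `N₀`, `m`, `ψ` on `G` with
  `TO_h(φ) = O_h(ψ)` for every `h ∈ G` in the `χ`-ball of radius `exp(-N₀)` around `(2, 1)`
  with `h ^ l` regular.
* `PowC783` (PUSH-FORWARD under `h ↦ h ^ l`, a statement on `G` alone): for `ψ` and `N₀` there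
  are `N₁`, `m'`, `f` such that every regular `γ` in the `χ`-ball of radius `exp(-N₁)` around
  `(2, 1)` is `h ^ l` with `h` in the ball of radius `exp(-N₀)` and `O_γ(f) = O_h(ψ)`.
* `TranslC783`: translation by the central element `ζ`, `N ζ = z`.
-/

set_option autoImplicit false

open scoped Matrix

noncomputable section

namespace Fermat.Agent.LT.T6.H783

open Fermat.Agent.LT.T6

/-- **Local matching at the identity** `(2, 1)`. -/
def CenOneC783 : Prop :=
  ∀ (k k' : Type) [Field k] [Field k'] [Valued k Γ₀] [Valued k' Γ₀] (q l e : ℕ)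
    (i : k →+* k') (s : k' ≃+* k') (n : ℕ) (φ : GL (Fin 2) k' → ℂ),
    BadData783 k k' q l e i s n φ →
      ∃ (N : ℤ) (m : ℕ) (f : GL (Fin 2) k → ℂ), IsLocSol783 l i s n φ 2 1 N m f

/-- **T6.18g1 (translation by a central element).**  Local matching at the identity (for all
data, in particular for `g ↦ φ(ζ g)`) gives local matching at every central norm `z = N ζ`. -/
def TranslC783 : Prop := CenOneC783 → CenNormC783

/-- **T6.18g2 (twisted descent `G' ⇝ G` at the identity).** -/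
def DescC783 : Prop :=
  ∀ (k k' : Type) [Field k] [Field k'] [Valued k Γ₀] [Valued k' Γ₀] (q l e : ℕ)
    (i : k →+* k') (s : k' ≃+* k') (n : ℕ) (φ : GL (Fin 2) k' → ℂ),
    BadData783 k k' q l e i s n φ →
      ∃ (N₀ : ℤ) (m : ℕ) (ψ : GL (Fin 2) k → ℂ), IsBiInv (InU m) ψ ∧ HasFinSupp (InU m) ψ ∧
        ∀ (h : GL (Fin 2) k) (c c' : ℂ), InChiBall783 2 1 N₀ h → IsReg (h ^ l) →
          IsTwOrbSum s n φ (Matrix.GeneralLinearGroup.map i h) c → IsOrbSum m ψ h c' → c = c'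

/-- **T6.18g3 (push-forward under the `l`-th power map near the identity).** -/
def PowC783 : Prop :=
  ∀ (k : Type) [Field k] [Valued k Γ₀] (q l : ℕ), IsLocalField k q → 0 < l →
    ∀ (N₀ : ℤ) (m : ℕ) (ψ : GL (Fin 2) k → ℂ), IsBiInv (InU m) ψ → HasFinSupp (InU m) ψ →
      ∃ (N₁ : ℤ) (m' : ℕ) (f : GL (Fin 2) k → ℂ), IsBiInv (InU m') f ∧ HasFinSupp (InU m') f ∧
        ∀ γ : GL (Fin 2) k, IsReg γ → InChiBall783 2 1 N₁ γ →
          ∃ h : GL (Fin 2) k, h ^ l = γ ∧ InChiBall783 2 1 N₀ h ∧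
            ∀ c' : ℂ, IsOrbSum m' f γ c' → IsOrbSum m ψ h c'

end Fermat.Agent.LT.T6.H783

end

end
-- ===== PACK-END LT/T6/H783/CenSpec.lean

-- ===== PACK-BEGIN LT/T6/H125/Cut.lean
section


/-!
# Row LT, tower T6, leaves T6.18c `CutC783` and T6.18c' `FinSuppLvlC783` (helper125)

OFF-MAIN.  Both leaves of `LT/T6/H783/BadSpec.lean` (helper783, sha256 c79abacc), VERBATIM:

* `cutC125 : CutC783`: the cut-off of a bi-`U(m)`-invariant function of finite support by a
  smooth predicate on `(tr, det)` is bi-`U(m')`-invariant for some `m' ≥ m`.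
* `finSuppLvlC125 : FinSuppLvlC783`: a function supported on finitely many cosets `x U(m)` is
  supported on finitely many cosets `x U(m')`.

Only the ultrametric inequality is used for the first leaf; the second one uses the finite
residue system and the uniformiser of `IsLocalField`.
-/

set_option autoImplicit false

open scoped Matrix

noncomputable section

namespace Fermat.Agent.LT.T6.H125

open Fermat.Agent.LT.T6 Fermat.Agent.LT.T6.H783

variable {k : Type} [Field k] [Valued k Γ₀]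

/-! ## Ultrametric bookkeeping -/

theorem v_add_le125 {a b : k} {c : Γ₀} (ha : Valued.v a ≤ c) (hb : Valued.v b ≤ c) :
    Valued.v (a + b) ≤ c :=
  (Valued.v.map_add a b).trans (max_le ha hb)

theorem v_sub_le125 {a b : k} {c : Γ₀} (ha : Valued.v a ≤ c) (hb : Valued.v b ≤ c) :
    Valued.v (a - b) ≤ c :=
  (Valued.v.map_sub a b).trans (max_le ha hb)

theorem v_mul_le125 {a b : k} {c d : Γ₀} (ha : Valued.v a ≤ c) (hb : Valued.v b ≤ d) :
    Valued.v (a * b) ≤ c * d := by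
  rw [map_mul]
  exact mul_le_mul' ha hb

theorem exp_neg_le_one125 (n : ℕ) : WithZero.exp (-(n : ℤ)) ≤ (1 : Γ₀) := by
  rw [← WithZero.exp_zero]
  exact WithZero.exp_le_exp.2 (by omega)

theorem exp_neg_anti125 {m m' : ℕ} (h : m ≤ m') :
    WithZero.exp (-(m' : ℤ)) ≤ (WithZero.exp (-(m : ℤ)) : Γ₀) :=
  WithZero.exp_le_exp.2 (by omega)

theorem v_one_entry125 (i j : Fin 2) :
    Valued.v ((1 : Matrix (Fin 2) (Fin 2) k) i j) ≤ (1 : Γ₀) := by
  by_cases h : i = j
  · subst h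
    simp
  · simp [Matrix.one_apply_ne h]

/-- Entries of a product of `2 × 2` matrices. -/
theorem v_mul_entry125 {A B : Matrix (Fin 2) (Fin 2) k} {a b : Γ₀}
    (hA : ∀ i j, Valued.v (A i j) ≤ a) (hB : ∀ i j, Valued.v (B i j) ≤ b) (i j : Fin 2) :
    Valued.v ((A * B) i j) ≤ a * b := by
  rw [Matrix.mul_apply, Fin.sum_univ_two]
  exact v_add_le125 (v_mul_le125 (hA _ _) (hB _ _)) (v_mul_le125 (hA _ _) (hB _ _))

theorem v_trace_le125 {A : Matrix (Fin 2) (Fin 2) k} {a : Γ₀}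
    (hA : ∀ i j, Valued.v (A i j) ≤ a) : Valued.v A.trace ≤ a := by
  rw [Matrix.trace_fin_two]
  exact v_add_le125 (hA _ _) (hA _ _)

/-! ## The groups `U(n)` -/

theorem inU_entry125 {n : ℕ} {g : GL (Fin 2) k} (h : InU n g) (i j : Fin 2) :
    Valued.v ((g : Matrix (Fin 2) (Fin 2) k) i j) ≤ 1 := by
  have h1 := (h i j).1
  have h2 : (g : Matrix (Fin 2) (Fin 2) k) i j
      = ((g : Matrix (Fin 2) (Fin 2) k) i j - (1 : Matrix (Fin 2) (Fin 2) k) i j)
        + (1 : Matrix (Fin 2) (Fin 2) k) i j := by ring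
  rw [h2]
  exact v_add_le125 (h1.trans (exp_neg_le_one125 n)) (v_one_entry125 i j)

theorem inU_inv_entry125 {n : ℕ} {g : GL (Fin 2) k} (h : InU n g) (i j : Fin 2) :
    Valued.v (((g⁻¹ : GL (Fin 2) k) : Matrix (Fin 2) (Fin 2) k) i j) ≤ 1 := by
  have h1 := (h i j).2
  have h2 : ((g⁻¹ : GL (Fin 2) k) : Matrix (Fin 2) (Fin 2) k) i j
      = (((g⁻¹ : GL (Fin 2) k) : Matrix (Fin 2) (Fin 2) k) i j
          - (1 : Matrix (Fin 2) (Fin 2) k) i j)
        + (1 : Matrix (Fin 2) (Fin 2) k) i j := by ring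
  rw [h2]
  exact v_add_le125 (h1.trans (exp_neg_le_one125 n)) (v_one_entry125 i j)

theorem inU_mono125 {m m' : ℕ} (h : m ≤ m') {g : GL (Fin 2) k} (hg : InU m' g) : InU m g :=
  fun i j => ⟨(hg i j).1.trans (exp_neg_anti125 h), (hg i j).2.trans (exp_neg_anti125 h)⟩

/-- `det u ≡ 1` modulo `ϖⁿ` for `u ∈ U(n)`. -/
theorem inU_det_sub_one125 {n : ℕ} {u : GL (Fin 2) k} (h : InU n u) :
    Valued.v ((u : Matrix (Fin 2) (Fin 2) k).det - 1) ≤ WithZero.exp (-(n : ℤ)) := by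
  set ε : Γ₀ := WithZero.exp (-(n : ℤ)) with hε
  have hε1 : ε ≤ 1 := exp_neg_le_one125 n
  have h00 : Valued.v ((u : Matrix (Fin 2) (Fin 2) k) 0 0 - 1) ≤ ε := by
    have := (h 0 0).1
    rwa [Matrix.one_apply_eq] at this
  have h11 : Valued.v ((u : Matrix (Fin 2) (Fin 2) k) 1 1 - 1) ≤ ε := by
    have := (h 1 1).1
    rwa [Matrix.one_apply_eq] at this
  have h01 : Valued.v ((u : Matrix (Fin 2) (Fin 2) k) 0 1) ≤ ε := by
    have := (h 0 1).1
    rwa [Matrix.one_apply_ne (by decide), sub_zero] at this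
  have h10 : Valued.v ((u : Matrix (Fin 2) (Fin 2) k) 1 0) ≤ ε := by
    have := (h 1 0).1
    rwa [Matrix.one_apply_ne (by decide), sub_zero] at this
  have hεε : ε * ε ≤ ε := by
    calc ε * ε ≤ ε * 1 := mul_le_mul' le_rfl hε1
      _ = ε := mul_one ε
  have hd : (u : Matrix (Fin 2) (Fin 2) k).det - 1
      = (((u : Matrix (Fin 2) (Fin 2) k) 0 0 - 1) + ((u : Matrix (Fin 2) (Fin 2) k) 1 1 - 1))
        + (((u : Matrix (Fin 2) (Fin 2) k) 0 0 - 1) * ((u : Matrix (Fin 2) (Fin 2) k) 1 1 - 1)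
          - (u : Matrix (Fin 2) (Fin 2) k) 0 1 * (u : Matrix (Fin 2) (Fin 2) k) 1 0) := by
    rw [Matrix.det_fin_two]
    ring
  rw [hd]
  exact v_add_le125 (v_add_le125 h00 h11)
    (v_sub_le125 ((v_mul_le125 h00 h11).trans hεε) ((v_mul_le125 h01 h10).trans hεε))

theorem inU_det_le_one125 {n : ℕ} {u : GL (Fin 2) k} (h : InU n u) :
    Valued.v (u : Matrix (Fin 2) (Fin 2) k).det ≤ 1 := by
  have h2 : (u : Matrix (Fin 2) (Fin 2) k).det
      = ((u : Matrix (Fin 2) (Fin 2) k).det - 1) + 1 := by ring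
  rw [h2]
  exact v_add_le125 ((inU_det_sub_one125 h).trans (exp_neg_le_one125 n)) (by simp)

/-! ## T6.18c: the cut-off -/

/-- Perturbation of the trace and of the determinant under `g ↦ u g u'`, `u, u' ∈ U(n)`, for `g`
with entries and determinant bounded by `C`. -/
theorem pert125 {n : ℕ} {u u' g : GL (Fin 2) k} {C : Γ₀} (hu : InU n u) (hu' : InU n u')
    (hg : ∀ i j, Valued.v ((g : Matrix (Fin 2) (Fin 2) k) i j) ≤ C)
    (hd : Valued.v (g : Matrix (Fin 2) (Fin 2) k).det ≤ C) :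
    Valued.v (((u * g * u' : GL (Fin 2) k) : Matrix (Fin 2) (Fin 2) k).trace
        - (g : Matrix (Fin 2) (Fin 2) k).trace) ≤ C * WithZero.exp (-(n : ℤ)) ∧
      Valued.v (((u * g * u' : GL (Fin 2) k) : Matrix (Fin 2) (Fin 2) k).det
        - (g : Matrix (Fin 2) (Fin 2) k).det) ≤ C * WithZero.exp (-(n : ℤ)) := by
  have hcoe : ((u * g * u' : GL (Fin 2) k) : Matrix (Fin 2) (Fin 2) k)
      = (u : Matrix (Fin 2) (Fin 2) k) * (g : Matrix (Fin 2) (Fin 2) k)
        * (u' : Matrix (Fin 2) (Fin 2) k) := by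
    simp [Units.val_mul]
  rw [hcoe]
  have hU1 : ∀ i j, Valued.v (((u : Matrix (Fin 2) (Fin 2) k) - 1) i j)
      ≤ WithZero.exp (-(n : ℤ)) := fun i j => (hu i j).1
  have hU'1 : ∀ i j, Valued.v (((u' : Matrix (Fin 2) (Fin 2) k) - 1) i j)
      ≤ WithZero.exp (-(n : ℤ)) := fun i j => (hu' i j).1
  have hU'e := inU_entry125 hu'
  have hdU := inU_det_sub_one125 hu
  have hdU' := inU_det_sub_one125 hu'
  have hdU'1 := inU_det_le_one125 hu'
  generalize (u : Matrix (Fin 2) (Fin 2) k) = U at hU1 hdU ⊢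
  generalize (u' : Matrix (Fin 2) (Fin 2) k) = U' at hU'1 hU'e hdU' hdU'1 ⊢
  generalize (g : Matrix (Fin 2) (Fin 2) k) = G at hg hd ⊢
  generalize (WithZero.exp (-(n : ℤ)) : Γ₀) = ε at *
  constructor
  · have hdiff : U * G * U' - G = (U - 1) * G * U' + G * (U' - 1) := by noncomm_ring
    rw [← Matrix.trace_sub, hdiff]
    apply v_trace_le125
    intro i j
    rw [Matrix.add_apply]
    refine v_add_le125 ?_ ?_
    · have := v_mul_entry125 (v_mul_entry125 hU1 hg) hU'e i j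
      rwa [mul_one, mul_comm] at this
    · exact v_mul_entry125 hg hU'1 i j
  · rw [Matrix.det_mul, Matrix.det_mul]
    have h2 : U.det * G.det * U'.det - G.det
        = G.det * ((U.det - 1) * U'.det + (U'.det - 1)) := by ring
    rw [h2]
    refine v_mul_le125 hd (v_add_le125 ?_ hdU')
    have := v_mul_le125 hdU hdU'1
    rwa [mul_one] at this

/-- **T6.18c** `CutC783`. -/
theorem cutC125 : CutC783 := by
  intro k _ _ q _ m f hinv hsupp N P hP
  obtain ⟨F, hF⟩ := hsupp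
  classical
  set C : Γ₀ := (F.sup fun x : GL (Fin 2) k =>
    max (entryMax x) (Valued.v (x : Matrix (Fin 2) (Fin 2) k).det)) ⊔ 1 with hC
  have hC1 : (1 : Γ₀) ≤ C := le_sup_right
  have hC0 : C ≠ 0 := (lt_of_lt_of_le zero_lt_one hC1).ne'
  have hCx : ∀ x ∈ F, (∀ i j, Valued.v ((x : Matrix (Fin 2) (Fin 2) k) i j) ≤ C) ∧
      Valued.v (x : Matrix (Fin 2) (Fin 2) k).det ≤ C := by
    intro x hx
    have h1 : max (entryMax x) (Valued.v (x : Matrix (Fin 2) (Fin 2) k).det) ≤ C :=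
      (Finset.le_sup (f := fun x : GL (Fin 2) k =>
        max (entryMax x) (Valued.v (x : Matrix (Fin 2) (Fin 2) k).det)) hx).trans le_sup_left
    refine ⟨fun i j => ?_, (le_max_right _ _).trans h1⟩
    refine le_trans ?_ ((le_max_left _ _).trans h1)
    exact Finset.le_sup' (fun p : Fin 2 × Fin 2 =>
      Valued.v ((x : Matrix (Fin 2) (Fin 2) k) p.1 p.2)) (Finset.mem_univ (i, j))
  have hCc : (WithZero.exp (WithZero.log C) : Γ₀) = C := WithZero.exp_log hC0
  refine ⟨max m (N + WithZero.log C).toNat, le_max_left _ _, ?_⟩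
  set m' : ℕ := max m (N + WithZero.log C).toNat with hm'
  have hmm' : m ≤ m' := le_max_left _ _
  have hsmall : C * WithZero.exp (-(m' : ℤ)) ≤ (WithZero.exp (-N) : Γ₀) := by
    rw [← hCc, ← WithZero.exp_add, WithZero.exp_le_exp]
    have h1 : N + WithZero.log C ≤ ((N + WithZero.log C).toNat : ℤ) := Int.self_le_toNat _
    have h2 : ((N + WithZero.log C).toNat : ℤ) ≤ (m' : ℤ) := by
      exact_mod_cast le_max_right m (N + WithZero.log C).toNat
    omega
  intro u u' g hu hu'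
  have hf : f (u * g * u') = f g := hinv u u' g (inU_mono125 hmm' hu) (inU_mono125 hmm' hu')
  unfold cutOff783
  by_cases hfg : f g = 0
  · simp only [hf, hfg, ite_self]
  · obtain ⟨x, hx, w, hw, rfl⟩ := hF g hfg
    have hgC : ∀ i j, Valued.v (((x * w : GL (Fin 2) k) : Matrix (Fin 2) (Fin 2) k) i j) ≤ C := by
      intro i j
      have h1 : ((x * w : GL (Fin 2) k) : Matrix (Fin 2) (Fin 2) k)
          = (x : Matrix (Fin 2) (Fin 2) k) * (w : Matrix (Fin 2) (Fin 2) k) := by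
        simp [Units.val_mul]
      rw [h1]
      have := v_mul_entry125 (hCx x hx).1 (inU_entry125 hw) i j
      rwa [mul_one] at this
    have hdC : Valued.v ((x * w : GL (Fin 2) k) : Matrix (Fin 2) (Fin 2) k).det ≤ C := by
      have h1 : ((x * w : GL (Fin 2) k) : Matrix (Fin 2) (Fin 2) k)
          = (x : Matrix (Fin 2) (Fin 2) k) * (w : Matrix (Fin 2) (Fin 2) k) := by
        simp [Units.val_mul]
      rw [h1, Matrix.det_mul]
      have := v_mul_le125 (hCx x hx).2 (inU_det_le_one125 hw)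
      rwa [mul_one] at this
    obtain ⟨ht, hd⟩ := pert125 hu hu' hgC hdC
    have hiff := hP _ _ _ _ (ht.trans hsmall) (hd.trans hsmall)
    rw [hf]
    exact if_congr hiff rfl rfl

/-! ## T6.18c': finite support at a deeper level -/

theorem lt_one_iff_le125 {x : Γ₀} : x < 1 ↔ x ≤ WithZero.exp (-1 : ℤ) := by
  have h := WithZero.lt_mul_exp_iff_le (x := x) (y := WithZero.exp (-1 : ℤ))
    WithZero.exp_ne_zero
  rw [← WithZero.exp_add] at h
  have h0 : ((-1 : ℤ) + 1) = 0 := by norm_num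
  rw [h0, WithZero.exp_zero] at h
  exact h

/-- Truncated `ϖ`-adic expansions: a finite set which approximates every integer of `k` modulo
`ϖⁿ`. -/
theorem approx125 {q : ℕ} (hk : IsLocalField k q) (n : ℕ) :
    ∃ S : Finset k, ∀ z : k, Valued.v z ≤ 1 →
      ∃ s ∈ S, Valued.v (z - s) ≤ WithZero.exp (-(n : ℤ)) := by
  classical
  obtain ⟨ϖ, hϖ⟩ := hk.unif
  obtain ⟨T, -, -, -, hT⟩ := hk.residue
  have hϖ0 : ϖ ≠ 0 := by
    intro h
    rw [h, map_zero] at hϖ
    exact WithZero.exp_ne_zero hϖ.symm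
  have hpow : ∀ n : ℕ, Valued.v (ϖ ^ n) = WithZero.exp (-(n : ℤ)) := by
    intro n
    rw [map_pow, hϖ, ← WithZero.exp_nsmul]
    congr 1
    simp
  induction n with
  | zero =>
    refine ⟨{0}, fun z hz => ⟨0, Finset.mem_singleton_self 0, ?_⟩⟩
    rw [sub_zero]
    exact hz.trans (by simp)
  | succ n ih =>
    obtain ⟨S, hS⟩ := ih
    refine ⟨(S ×ˢ T).image (fun p => p.1 + p.2 * ϖ ^ n), fun z hz => ?_⟩
    obtain ⟨s, hs, hzs⟩ := hS z hz
    have hy : Valued.v ((z - s) / ϖ ^ n) ≤ 1 := by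
      rw [map_div₀, hpow]
      exact (div_le_one₀ WithZero.exp_pos).2 hzs
    obtain ⟨t, ht, hyt⟩ := hT _ hy
    refine ⟨s + t * ϖ ^ n,
      Finset.mem_image.2 ⟨(s, t), Finset.mem_product.2 ⟨hs, ht⟩, rfl⟩, ?_⟩
    have hϖn : ϖ ^ n ≠ 0 := pow_ne_zero n hϖ0
    have h1 : z - (s + t * ϖ ^ n) = ((z - s) / ϖ ^ n - t) * ϖ ^ n := by
      field_simp
      ring
    rw [h1, map_mul, hpow]
    have h2 := lt_one_iff_le125.1 hyt
    calc Valued.v ((z - s) / ϖ ^ n - t) * WithZero.exp (-(n : ℤ))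
        ≤ WithZero.exp (-1 : ℤ) * WithZero.exp (-(n : ℤ)) := mul_le_mul' h2 le_rfl
      _ = WithZero.exp (-((n + 1 : ℕ) : ℤ)) := by
        rw [← WithZero.exp_add]
        congr 1
        push_cast
        ring

/-- Two elements of `U(m)` which agree modulo `ϖⁿ` differ by an element of `U(n)`. -/
theorem inU_of_close125 {m n : ℕ} {w w' : GL (Fin 2) k} (hw : InU m w) (hw' : InU m w')
    (h : ∀ i j, Valued.v ((w : Matrix (Fin 2) (Fin 2) k) i j
      - (w' : Matrix (Fin 2) (Fin 2) k) i j) ≤ WithZero.exp (-(n : ℤ))) :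
    InU n (w⁻¹ * w') := by
  have key : ∀ a b : GL (Fin 2) k, InU m a →
      (∀ i j, Valued.v ((a : Matrix (Fin 2) (Fin 2) k) i j
        - (b : Matrix (Fin 2) (Fin 2) k) i j) ≤ WithZero.exp (-(n : ℤ))) →
      ∀ i j, Valued.v (((a⁻¹ * b : GL (Fin 2) k) : Matrix (Fin 2) (Fin 2) k) i j
        - (1 : Matrix (Fin 2) (Fin 2) k) i j) ≤ WithZero.exp (-(n : ℤ)) := by
    intro a b ha hab i j
    have h1 : ((a⁻¹ * b : GL (Fin 2) k) : Matrix (Fin 2) (Fin 2) k) - 1
        = ((a⁻¹ : GL (Fin 2) k) : Matrix (Fin 2) (Fin 2) k)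
          * ((b : Matrix (Fin 2) (Fin 2) k) - (a : Matrix (Fin 2) (Fin 2) k)) := by
      rw [mul_sub, ← Units.val_mul, ← Units.val_mul, inv_mul_cancel, Units.val_one]
    have h2 : ∀ i j, Valued.v (((b : Matrix (Fin 2) (Fin 2) k)
        - (a : Matrix (Fin 2) (Fin 2) k)) i j) ≤ WithZero.exp (-(n : ℤ)) := by
      intro i j
      rw [Matrix.sub_apply, Valuation.map_sub_swap]
      exact hab i j
    have h3 := v_mul_entry125 (inU_inv_entry125 ha) h2 i j
    rw [one_mul, ← h1] at h3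
    exact h3
  intro i j
  refine ⟨key w w' hw h i j, ?_⟩
  have h0 : (w⁻¹ * w')⁻¹ = w'⁻¹ * w := by group
  rw [h0]
  refine key w' w hw' (fun i j => ?_) i j
  rw [Valuation.map_sub_swap]
  exact h i j

/-- **T6.18c'** `FinSuppLvlC783`. -/
theorem finSuppLvlC125 : FinSuppLvlC783 := by
  intro k _ _ q hk m m' f _ hsupp
  classical
  obtain ⟨F, hF⟩ := hsupp
  obtain ⟨S, hS⟩ := approx125 hk m'
  let I : Finset (Fin 2 → Fin 2 → k) :=
    Fintype.piFinset (fun _ => Fintype.piFinset (fun _ => S))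
  let ok : (Fin 2 → Fin 2 → k) → GL (Fin 2) k → Prop := fun r w =>
    InU m w ∧ ∀ i j, Valued.v ((w : Matrix (Fin 2) (Fin 2) k) i j - r i j)
      ≤ WithZero.exp (-(m' : ℤ))
  let rep : (Fin 2 → Fin 2 → k) → GL (Fin 2) k := fun r =>
    if h : ∃ w, ok r w then Classical.choose h else 1
  refine ⟨(F ×ˢ I.image rep).image (fun p => p.1 * p.2), fun g hg => ?_⟩
  obtain ⟨x, hx, w, hw, rfl⟩ := hF g hg
  have hex : ∀ i j, ∃ s ∈ S, Valued.v ((w : Matrix (Fin 2) (Fin 2) k) i j - s)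
      ≤ WithZero.exp (-(m' : ℤ)) := fun i j => hS _ (inU_entry125 hw i j)
  choose r hrS hr using hex
  have hrI : r ∈ I := by
    simp only [I, Fintype.mem_piFinset]
    exact fun i j => hrS i j
  have hok : ∃ w₀, ok r w₀ := ⟨w, hw, hr⟩
  have hrep : rep r = Classical.choose hok := dif_pos hok
  obtain ⟨hw₀, hw₀r⟩ := Classical.choose_spec hok
  refine ⟨x * Classical.choose hok, ?_, (Classical.choose hok)⁻¹ * w, ?_, ?_⟩
  · exact Finset.mem_image.2 ⟨(x, Classical.choose hok),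
      Finset.mem_product.2 ⟨hx, Finset.mem_image.2 ⟨r, hrI, hrep⟩⟩, rfl⟩
  · apply inU_of_close125 hw₀ hw
    intro i j
    have h1 : ((Classical.choose hok : GL (Fin 2) k) : Matrix (Fin 2) (Fin 2) k) i j
        - (w : Matrix (Fin 2) (Fin 2) k) i j
        = (((Classical.choose hok : GL (Fin 2) k) : Matrix (Fin 2) (Fin 2) k) i j - r i j)
          - ((w : Matrix (Fin 2) (Fin 2) k) i j - r i j) := by ring
    rw [h1]
    exact v_sub_le125 (hw₀r i j) (hr i j)
  · group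

end Fermat.Agent.LT.T6.H125

end

end
-- ===== PACK-END LT/T6/H125/Cut.lean

-- ===== PACK-BEGIN LT/T6/H777/Lvl.lean
section


/-!
# Row LT, tower T6, sub-leaf T6.18d `LvlC783` (level change of orbit sums), helper777, OFF-MAIN

`lvlC777 : Fermat.Agent.LT.T6.H783.LvlC783` (VERBATIM Prop of `H783/BadSpec.lean`).

`O^{(m)}_γ(f) = κ · O^{(m₀)}_γ(f)` with `κ = [U(m₀) : U(m)]`, for `f` bi-`U(m₀)`-invariant,
`m₀ ≤ m` and `γ` regular.

Proof.  `U(n)` is a subgroup, `U(m)` is normal in `U(m₀)` of finite index (finite residue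
system).  For `y` regular the set `T_y^c` (centraliser, integral characteristic polynomial, unit
determinant) is a subgroup: the centraliser of `y` is `k + k y`, and for commuting `t, t'` the
traces of `t t'` and of `t adj(t')` are the roots of a monic quadratic polynomial with integral
coefficients.  So `cIndex U(n) y = [T_y^c : T_y^c ∩ U(n)]`.  The `U(m₀)`-orbit of `y₀` is the
union of `[U(m₀) : (T ∩ U(m₀)) U(m)]` orbits of `U(m)`, on which `f` and the index are constant,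
and `[U(m₀) : (T ∩ U(m₀)) U(m)] · [T : T ∩ U(m)] = [U(m₀) : U(m)] · [T : T ∩ U(m₀)]`.
-/

set_option autoImplicit false
set_option linter.unusedSectionVars false

open scoped Matrix

noncomputable section

namespace Fermat.Agent.LT.T6.H777

open Fermat.Agent.LT.T6 Fermat.Agent.LT.T6.H783

variable {k : Type} [Field k] [Valued k Γ₀]

/-! ## 1. Small matrices and the congruence subgroups -/

/-- All entries of `A` have valuation at most `exp (-n)`. -/
def Small777 (n : ℕ) (A : Matrix (Fin 2) (Fin 2) k) : Prop :=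
  ∀ i j : Fin 2, Valued.v (A i j) ≤ WithZero.exp (-(n : ℤ))

theorem exp_neg_le_one777 (n : ℕ) : (WithZero.exp (-(n : ℤ)) : Γ₀) ≤ 1 := by
  rw [← WithZero.exp_zero, WithZero.exp_le_exp]
  omega

theorem small_mono777 {n n' : ℕ} (h : n ≤ n') {A : Matrix (Fin 2) (Fin 2) k}
    (hA : Small777 n' A) : Small777 n A := fun i j =>
  (hA i j).trans (WithZero.exp_le_exp.2 (by omega))

theorem small_zero777 (n : ℕ) : Small777 n (0 : Matrix (Fin 2) (Fin 2) k) := fun i j => by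
  simp

theorem small_one777 : Small777 0 (1 : Matrix (Fin 2) (Fin 2) k) := fun i j => by
  rw [Matrix.one_apply]
  split_ifs <;> simp

theorem small_add777 {n : ℕ} {A B : Matrix (Fin 2) (Fin 2) k} (hA : Small777 n A)
    (hB : Small777 n B) : Small777 n (A + B) := fun i j =>
  Valuation.map_add_le _ (hA i j) (hB i j)

theorem small_sub777 {n : ℕ} {A B : Matrix (Fin 2) (Fin 2) k} (hA : Small777 n A)
    (hB : Small777 n B) : Small777 n (A - B) := fun i j =>
  Valuation.map_sub_le _ (hA i j) (hB i j)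

theorem small_neg777 {n : ℕ} {A : Matrix (Fin 2) (Fin 2) k} (hA : Small777 n A) :
    Small777 n (-A) := fun i j => by
  rw [Matrix.neg_apply, Valuation.map_neg]
  exact hA i j

theorem small_mul777 {n n' : ℕ} {A B : Matrix (Fin 2) (Fin 2) k} (hA : Small777 n A)
    (hB : Small777 n' B) : Small777 (n + n') (A * B) := fun i j => by
  rw [Matrix.mul_apply]
  refine Valuation.map_sum_le _ fun l _ => ?_
  rw [map_mul]
  have h : (WithZero.exp (-((n + n' : ℕ) : ℤ)) : Γ₀)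
      = WithZero.exp (-(n : ℤ)) * WithZero.exp (-(n' : ℤ)) := by
    rw [← WithZero.exp_add]
    congr 1
    push_cast
    ring
  rw [h]
  exact mul_le_mul' (hA i l) (hB l j)

theorem small_mul_left777 {n : ℕ} {A B : Matrix (Fin 2) (Fin 2) k} (hA : Small777 0 A)
    (hB : Small777 n B) : Small777 n (A * B) := by
  have := small_mul777 hA hB
  rwa [zero_add] at this

theorem small_mul_right777 {n : ℕ} {A B : Matrix (Fin 2) (Fin 2) k} (hA : Small777 n A)
    (hB : Small777 0 B) : Small777 n (A * B) := by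
  have := small_mul777 hA hB
  rwa [add_zero] at this

theorem inU_iff777 (n : ℕ) (g : GL (Fin 2) k) :
    InU n g ↔ Small777 n ((g : Matrix (Fin 2) (Fin 2) k) - 1) ∧
      Small777 n (((g⁻¹ : GL (Fin 2) k) : Matrix (Fin 2) (Fin 2) k) - 1) := by
  unfold InU Small777
  simp only [Matrix.sub_apply]
  exact ⟨fun h => ⟨fun i j => (h i j).1, fun i j => (h i j).2⟩, fun h i j => ⟨h.1 i j, h.2 i j⟩⟩

/-- The entries of an element of `U(n)` are integral. -/
theorem small_of_inU777 {n : ℕ} {g : GL (Fin 2) k} (hg : InU n g) :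
    Small777 0 (g : Matrix (Fin 2) (Fin 2) k) := by
  have h := small_add777 (small_mono777 (Nat.zero_le n) ((inU_iff777 n g).1 hg).1) small_one777
  simpa using h

theorem small_inv_of_inU777 {n : ℕ} {g : GL (Fin 2) k} (hg : InU n g) :
    Small777 0 ((g⁻¹ : GL (Fin 2) k) : Matrix (Fin 2) (Fin 2) k) := by
  have h := small_add777 (small_mono777 (Nat.zero_le n) ((inU_iff777 n g).1 hg).2) small_one777
  simpa using h

theorem inU_one777 (n : ℕ) : InU n (1 : GL (Fin 2) k) := by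
  rw [inU_iff777]
  simp only [inv_one, Units.val_one, sub_self]
  exact ⟨small_zero777 n, small_zero777 n⟩

theorem inU_inv777 {n : ℕ} {g : GL (Fin 2) k} (hg : InU n g) : InU n g⁻¹ := by
  rw [inU_iff777] at hg ⊢
  rw [inv_inv]
  exact ⟨hg.2, hg.1⟩

theorem small_mul_sub_one777 {n : ℕ} {A B : Matrix (Fin 2) (Fin 2) k}
    (hA : Small777 n (A - 1)) (hB : Small777 n (B - 1)) : Small777 n (A * B - 1) := by
  have h : A * B - 1 = (A - 1) * (B - 1) + (A - 1) + (B - 1) := by noncomm_ring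
  rw [h]
  refine small_add777 (small_add777 ?_ hA) hB
  exact small_mono777 (Nat.le_add_right n n) (small_mul777 hA hB)

theorem inU_mul777 {n : ℕ} {g h : GL (Fin 2) k} (hg : InU n g) (hh : InU n h) :
    InU n (g * h) := by
  rw [inU_iff777] at hg hh ⊢
  refine ⟨?_, ?_⟩
  · rw [Units.val_mul]
    exact small_mul_sub_one777 hg.1 hh.1
  · rw [mul_inv_rev, Units.val_mul]
    exact small_mul_sub_one777 hh.2 hg.2

/-- The principal congruence subgroup `U(n)`. -/
def Usub777 (k : Type) [Field k] [Valued k Γ₀] (n : ℕ) : Subgroup (GL (Fin 2) k) where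
  carrier := {g | InU n g}
  mul_mem' := fun hg hh => inU_mul777 hg hh
  one_mem' := inU_one777 n
  inv_mem' := fun hg => inU_inv777 hg

@[simp] theorem mem_Usub777 {n : ℕ} {g : GL (Fin 2) k} : g ∈ Usub777 k n ↔ InU n g := Iff.rfl

theorem Usub_mono777 {m₀ m : ℕ} (h : m₀ ≤ m) : Usub777 k m ≤ Usub777 k m₀ := by
  intro g hg
  rw [mem_Usub777, inU_iff777] at hg ⊢
  exact ⟨small_mono777 h hg.1, small_mono777 h hg.2⟩

/-- `U(m)` is normalised by `U(0)`. -/
theorem inU_conj777 {m : ℕ} {u g : GL (Fin 2) k} (hu : InU 0 u) (hg : InU m g) :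
    InU m (u * g * u⁻¹) := by
  have key : ∀ h : GL (Fin 2) k, Small777 m ((h : Matrix (Fin 2) (Fin 2) k) - 1) →
      Small777 m (((u * h * u⁻¹ : GL (Fin 2) k) : Matrix (Fin 2) (Fin 2) k) - 1) := by
    intro h hh
    have e : ((u * h * u⁻¹ : GL (Fin 2) k) : Matrix (Fin 2) (Fin 2) k) - 1
        = (u : Matrix (Fin 2) (Fin 2) k) * ((h : Matrix (Fin 2) (Fin 2) k) - 1)
          * ((u⁻¹ : GL (Fin 2) k) : Matrix (Fin 2) (Fin 2) k) := by
      have h1 : (u : Matrix (Fin 2) (Fin 2) k)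
          * ((u⁻¹ : GL (Fin 2) k) : Matrix (Fin 2) (Fin 2) k) = 1 := by
        rw [← Units.val_mul, mul_inv_cancel, Units.val_one]
      rw [Units.val_mul, Units.val_mul, Matrix.mul_sub, Matrix.sub_mul, Matrix.mul_one, h1]
    rw [e]
    exact small_mul_right777 (small_mul_left777 (small_of_inU777 hu) hh)
      (small_inv_of_inU777 hu)
  rw [inU_iff777] at hg ⊢
  refine ⟨key g hg.1, ?_⟩
  have e2 : (u * g * u⁻¹)⁻¹ = u * g⁻¹ * u⁻¹ := by group
  rw [e2]
  exact key g⁻¹ hg.2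

/-! ## 2. `U(m)` has finite index in `U(0)` -/

theorem le_exp_neg_one_of_lt_one777 {γ : Γ₀} (h : γ < 1) : γ ≤ WithZero.exp (-1 : ℤ) := by
  rcases eq_or_ne γ 0 with rfl | h0
  · exact zero_le
  · rw [← WithZero.exp_log h0] at h ⊢
    rw [← WithZero.exp_zero, WithZero.exp_lt_exp] at h
    rw [WithZero.exp_le_exp]
    omega

/-- A finite system of representatives of `𝒪 / ϖ^m 𝒪`. -/
theorem exists_reps777 {q : ℕ} (hk : IsLocalField k q) (m : ℕ) :
    ∃ A : Finset k, ∀ z : k, Valued.v z ≤ 1 →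
      ∃ a ∈ A, Valued.v (z - a) ≤ WithZero.exp (-(m : ℤ)) := by
  classical
  obtain ⟨ϖ, hϖ⟩ := hk.unif
  obtain ⟨T, -, -, -, hT⟩ := hk.residue
  have hϖ0 : ϖ ≠ 0 := by
    intro h
    rw [h, map_zero] at hϖ
    exact WithZero.exp_ne_zero hϖ.symm
  have hpow : ∀ n : ℕ, Valued.v (ϖ ^ n) = WithZero.exp (-(n : ℤ)) := by
    intro n
    rw [map_pow, hϖ, ← WithZero.exp_nsmul]
    congr 1
    simp
  induction m with
  | zero =>
    refine ⟨{0}, fun z hz => ⟨0, Finset.mem_singleton_self 0, ?_⟩⟩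
    simpa using hz
  | succ m ih =>
    obtain ⟨A, hA⟩ := ih
    refine ⟨(A ×ˢ T).image (fun p => p.1 + ϖ ^ m * p.2), fun z hz => ?_⟩
    obtain ⟨a, ha, hza⟩ := hA z hz
    have hz' : Valued.v ((z - a) / ϖ ^ m) ≤ 1 := by
      rw [map_div₀, hpow]
      rw [div_le_iff₀ (WithZero.exp_pos), one_mul]
      exact hza
    obtain ⟨x, hx, hzx⟩ := hT _ hz'
    refine ⟨a + ϖ ^ m * x, Finset.mem_image.2 ⟨(a, x), Finset.mem_product.2 ⟨ha, hx⟩, rfl⟩, ?_⟩
    have e : z - (a + ϖ ^ m * x) = ϖ ^ m * ((z - a) / ϖ ^ m - x) := by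
      field_simp
      ring
    rw [e, map_mul, hpow]
    have h1 : (WithZero.exp (-((m + 1 : ℕ) : ℤ)) : Γ₀)
        = WithZero.exp (-(m : ℤ)) * WithZero.exp (-1 : ℤ) := by
      rw [← WithZero.exp_add]
      congr 1
      push_cast
      ring
    rw [h1]
    exact mul_le_mul' le_rfl (le_exp_neg_one_of_lt_one777 hzx)

/-- Two elements of `U(0)` which are congruent modulo `ϖ^m` lie in the same coset of `U(m)`. -/
theorem inU_inv_mul_of_small777 {m : ℕ} {g g' : GL (Fin 2) k} (hg : InU 0 g) (hg' : InU 0 g')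
    (h : Small777 m ((g : Matrix (Fin 2) (Fin 2) k) - (g' : Matrix (Fin 2) (Fin 2) k))) :
    InU m (g'⁻¹ * g) := by
  rw [inU_iff777]
  constructor
  · have e : ((g'⁻¹ * g : GL (Fin 2) k) : Matrix (Fin 2) (Fin 2) k) - 1
        = ((g'⁻¹ : GL (Fin 2) k) : Matrix (Fin 2) (Fin 2) k)
          * ((g : Matrix (Fin 2) (Fin 2) k) - (g' : Matrix (Fin 2) (Fin 2) k)) := by
      have h1 : ((g'⁻¹ : GL (Fin 2) k) : Matrix (Fin 2) (Fin 2) k)
          * (g' : Matrix (Fin 2) (Fin 2) k) = 1 := by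
        rw [← Units.val_mul, inv_mul_cancel, Units.val_one]
      rw [Units.val_mul, Matrix.mul_sub, h1]
    rw [e]
    exact small_mul_left777 (small_inv_of_inU777 hg') h
  · have e : (((g'⁻¹ * g)⁻¹ : GL (Fin 2) k) : Matrix (Fin 2) (Fin 2) k) - 1
        = ((g⁻¹ : GL (Fin 2) k) : Matrix (Fin 2) (Fin 2) k)
          * -((g : Matrix (Fin 2) (Fin 2) k) - (g' : Matrix (Fin 2) (Fin 2) k)) := by
      have h1 : ((g⁻¹ : GL (Fin 2) k) : Matrix (Fin 2) (Fin 2) k)
          * (g : Matrix (Fin 2) (Fin 2) k) = 1 := by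
        rw [← Units.val_mul, inv_mul_cancel, Units.val_one]
      rw [mul_inv_rev, inv_inv, Units.val_mul, neg_sub, Matrix.mul_sub, h1]
    rw [e]
    exact small_mul_left777 (small_inv_of_inU777 hg) (small_neg777 h)

theorem finite_quot777 {q : ℕ} (hk : IsLocalField k q) (m : ℕ) :
    Finite (↥(Usub777 k 0) ⧸ (Usub777 k m).subgroupOf (Usub777 k 0)) := by
  classical
  obtain ⟨A, hA⟩ := exists_reps777 hk m
  let P : (Fin 2 → Fin 2 → A) → ↥(Usub777 k 0) → Prop := fun c g =>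
    ∀ i j, Valued.v (((g : GL (Fin 2) k) : Matrix (Fin 2) (Fin 2) k) i j - (c i j : k))
      ≤ WithZero.exp (-(m : ℤ))
  let F : (Fin 2 → Fin 2 → A) → ↥(Usub777 k 0) ⧸ (Usub777 k m).subgroupOf (Usub777 k 0) :=
    fun c => if h : ∃ g, P c g then (QuotientGroup.mk h.choose) else QuotientGroup.mk 1
  refine Finite.of_surjective F fun x => ?_
  obtain ⟨g, rfl⟩ := QuotientGroup.mk_surjective x
  have hg0 : InU 0 (g : GL (Fin 2) k) := g.2
  have hint := small_of_inU777 hg0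
  have hch : ∀ i j, ∃ a ∈ A, Valued.v (((g : GL (Fin 2) k) : Matrix (Fin 2) (Fin 2) k) i j - a)
      ≤ WithZero.exp (-(m : ℤ)) := fun i j => hA _ (by simpa using hint i j)
  choose c hcA hc using hch
  refine ⟨fun i j => ⟨c i j, hcA i j⟩, ?_⟩
  have hex : ∃ g', P (fun i j => ⟨c i j, hcA i j⟩) g' := ⟨g, fun i j => hc i j⟩
  simp only [F, dif_pos hex]
  rw [QuotientGroup.eq, Subgroup.mem_subgroupOf]
  have hg' := hex.choose_spec
  set g' := hex.choose
  have hsm : Small777 m (((g : GL (Fin 2) k) : Matrix (Fin 2) (Fin 2) k)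
      - ((g' : GL (Fin 2) k) : Matrix (Fin 2) (Fin 2) k)) := by
    intro i j
    have e : (((g : GL (Fin 2) k) : Matrix (Fin 2) (Fin 2) k)
        - ((g' : GL (Fin 2) k) : Matrix (Fin 2) (Fin 2) k)) i j
        = (((g : GL (Fin 2) k) : Matrix (Fin 2) (Fin 2) k) i j - c i j)
          - (((g' : GL (Fin 2) k) : Matrix (Fin 2) (Fin 2) k) i j - c i j) := by
      rw [Matrix.sub_apply]
      ring
    rw [e]
    exact Valuation.map_sub_le _ (hc i j) (hg' i j)
  exact inU_inv_mul_of_small777 hg0 g'.2 hsm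

theorem relIndex_ne_zero777 {q : ℕ} (hk : IsLocalField k q) {m₀ m : ℕ} (h : m₀ ≤ m) :
    (Usub777 k m).relIndex (Usub777 k m₀) ≠ 0 := by
  have h0 : (Usub777 k m).relIndex (Usub777 k 0) ≠ 0 := by
    have := finite_quot777 hk m
    exact Subgroup.index_ne_zero_iff_finite.2 this
  have hmul := Subgroup.relIndex_mul_relIndex (Usub777 k m) (Usub777 k m₀) (Usub777 k 0)
    (Usub_mono777 h) (Usub_mono777 (Nat.zero_le m₀))
  intro hz
  rw [hz, zero_mul] at hmul
  exact h0 hmul.symm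

/-! ## 3. The centraliser of a regular element -/

theorem glAut_refl777 (x : GL (Fin 2) k) : glAut (RingEquiv.refl k) x = x := by
  unfold glAut
  have h : ((RingEquiv.refl k : k ≃+* k) : k →+* k) = RingHom.id k := rfl
  rw [h, Matrix.GeneralLinearGroup.map_id]
  rfl

theorem inTwCent_refl_iff777 (y t : GL (Fin 2) k) :
    InTwCent (RingEquiv.refl k) y t ↔ t * y = y * t := by
  unfold InTwCent
  rw [glAut_refl777]
  constructor
  · intro h
    calc t * y = t * (t⁻¹ * y * t) := by rw [h]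
      _ = y * t := by group
  · intro h
    calc t⁻¹ * y * t = t⁻¹ * (y * t) := by group
      _ = t⁻¹ * (t * y) := by rw [h]
      _ = y := by group

/-- The centraliser of a regular `2 × 2` matrix `y` is `k + k y`. -/
theorem exists_param777 {y t : Matrix (Fin 2) (Fin 2) k}
    (hy : y.trace ^ 2 - 4 * y.det ≠ 0) (hc : t * y = y * t) :
    ∃ a b : k, t = a • (1 : Matrix (Fin 2) (Fin 2) k) + b • y := by
  have e00 := congrFun (congrFun hc 0) 0
  have e01 := congrFun (congrFun hc 0) 1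
  have e10 := congrFun (congrFun hc 1) 0
  simp only [Matrix.mul_apply, Fin.sum_univ_two] at e00 e01 e10
  rw [Matrix.trace_fin_two, Matrix.det_fin_two] at hy
  by_cases h01 : y 0 1 = 0
  · have hd : y 0 0 - y 1 1 ≠ 0 := by
      intro h
      apply hy
      rw [h01]
      have : y 0 0 = y 1 1 := sub_eq_zero.1 h
      rw [this]
      ring
    have ht01 : t 0 1 = 0 := by
      rw [h01] at e01
      have : t 0 1 * (y 0 0 - y 1 1) = 0 := by linear_combination -e01
      rcases mul_eq_zero.1 this with h | h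
      · exact h
      · exact absurd h hd
    refine ⟨t 0 0 - (t 0 0 - t 1 1) / (y 0 0 - y 1 1) * y 0 0,
      (t 0 0 - t 1 1) / (y 0 0 - y 1 1), ?_⟩
    ext i j
    fin_cases i <;> fin_cases j
    · simp
    · simp [h01, ht01]
    · simp only [Fin.mk_one, Fin.isValue, Fin.zero_eta, Matrix.add_apply, Matrix.smul_apply,
        ne_eq, one_ne_zero, not_false_eq_true, Matrix.one_apply_ne, smul_eq_mul, mul_zero,
        zero_add]
      field_simp
      linear_combination e10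
    · simp only [Fin.mk_one, Fin.isValue, Matrix.add_apply, Matrix.smul_apply,
        Matrix.one_apply_eq, smul_eq_mul, mul_one]
      field_simp
      ring
  · refine ⟨t 0 0 - t 0 1 / y 0 1 * y 0 0, t 0 1 / y 0 1, ?_⟩
    ext i j
    fin_cases i <;> fin_cases j
    · simp
    · simp only [Fin.zero_eta, Fin.isValue, Fin.mk_one, Matrix.add_apply, Matrix.smul_apply,
        ne_eq, zero_ne_one, not_false_eq_true, Matrix.one_apply_ne, smul_eq_mul, mul_zero,
        zero_add]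
      field_simp
    · simp only [Fin.mk_one, Fin.isValue, Fin.zero_eta, Matrix.add_apply, Matrix.smul_apply,
        ne_eq, one_ne_zero, not_false_eq_true, Matrix.one_apply_ne, smul_eq_mul, mul_zero,
        zero_add]
      field_simp
      linear_combination -e00
    · simp only [Fin.mk_one, Fin.isValue, Matrix.add_apply, Matrix.smul_apply,
        Matrix.one_apply_eq, smul_eq_mul, mul_one]
      field_simp
      linear_combination -e01

/-- For `t, t' ∈ k + k y` the trace of `t t'` is a root of a monic quadratic polynomial whose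
coefficients are polynomials in the traces and determinants of `t` and `t'`. -/
theorem trace_mul_quadratic777 (y : Matrix (Fin 2) (Fin 2) k) (a b a' b' : k) :
    ((a • (1 : Matrix (Fin 2) (Fin 2) k) + b • y) * (a' • 1 + b' • y)).trace ^ 2
      - ((a • (1 : Matrix (Fin 2) (Fin 2) k) + b • y).trace * (a' • 1 + b' • y).trace)
        * ((a • (1 : Matrix (Fin 2) (Fin 2) k) + b • y) * (a' • 1 + b' • y)).trace
      + ((a' • (1 : Matrix (Fin 2) (Fin 2) k) + b' • y).det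
            * ((a • (1 : Matrix (Fin 2) (Fin 2) k) + b • y).trace ^ 2
              - 2 * (a • (1 : Matrix (Fin 2) (Fin 2) k) + b • y).det)
          + (a • (1 : Matrix (Fin 2) (Fin 2) k) + b • y).det
            * ((a' • (1 : Matrix (Fin 2) (Fin 2) k) + b' • y).trace ^ 2
              - 2 * (a' • (1 : Matrix (Fin 2) (Fin 2) k) + b' • y).det)) = 0 := by
  simp only [Matrix.trace_fin_two, Matrix.det_fin_two, Matrix.mul_apply, Fin.sum_univ_two,
    Matrix.add_apply, Matrix.smul_apply, Matrix.one_apply_eq, smul_eq_mul, mul_one, ne_eq,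
    zero_ne_one, one_ne_zero, not_false_eq_true, Matrix.one_apply_ne, mul_zero, zero_add]
  ring

theorem val_two_le_one777 : Valued.v (2 : k) ≤ 1 := by
  have h : (2 : k) = 1 + 1 := by norm_num
  rw [h]
  exact Valuation.map_add_le _ (by simp) (by simp)

/-- The valuation ring is integrally closed (quadratic case). -/
theorem val_le_one_of_quadratic777 {x s p : k} (hs : Valued.v s ≤ 1) (hp : Valued.v p ≤ 1)
    (h : x ^ 2 - s * x + p = 0) : Valued.v x ≤ 1 := by
  by_contra hx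
  rw [not_le] at hx
  have hx0 : (0 : Γ₀) < Valued.v x := lt_trans zero_lt_one hx
  have e : x ^ 2 = s * x - p := by linear_combination h
  have h1 : Valued.v (x ^ 2) ≤ Valued.v x := by
    rw [e]
    refine Valuation.map_sub_le _ ?_ (hp.trans hx.le)
    rw [map_mul]
    calc Valued.v s * Valued.v x ≤ 1 * Valued.v x := mul_le_mul' hs le_rfl
      _ = Valued.v x := one_mul _
  have h2 : Valued.v x < Valued.v (x ^ 2) := by
    rw [map_pow, sq]
    calc Valued.v x = 1 * Valued.v x := (one_mul _).symm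
      _ < Valued.v x * Valued.v x := by
        exact mul_lt_mul_of_pos_right hx hx0
  exact absurd h1 (not_le.2 h2)

theorem inTwCentC_iff777 (y t : GL (Fin 2) k) :
    InTwCentC (RingEquiv.refl k) y t ↔ t * y = y * t ∧
      Valued.v (t : Matrix (Fin 2) (Fin 2) k).trace ≤ 1 ∧
      Valued.v (t : Matrix (Fin 2) (Fin 2) k).det = 1 := by
  unfold InTwCentC
  rw [inTwCent_refl_iff777]

/-- Cayley--Hamilton for `2 × 2` matrices. -/
theorem mul_adj777 (M : Matrix (Fin 2) (Fin 2) k) :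
    M * (M.trace • (1 : Matrix (Fin 2) (Fin 2) k) - M) = M.det • (1 : Matrix (Fin 2) (Fin 2) k) := by
  ext i j
  fin_cases i <;> fin_cases j <;>
    simp [Matrix.trace_fin_two, Matrix.det_fin_two, Matrix.mul_apply, Fin.sum_univ_two] <;> ring

theorem trace_inv777 {M N : Matrix (Fin 2) (Fin 2) k} (h : M * N = 1) :
    N.trace * M.det = M.trace := by
  have h' : N * M = 1 := mul_eq_one_comm.1 h
  have e : M.trace • (1 : Matrix (Fin 2) (Fin 2) k) - M = M.det • N := by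
    calc M.trace • (1 : Matrix (Fin 2) (Fin 2) k) - M
        = (N * M) * (M.trace • (1 : Matrix (Fin 2) (Fin 2) k) - M) := by rw [h', Matrix.one_mul]
      _ = N * (M * (M.trace • (1 : Matrix (Fin 2) (Fin 2) k) - M)) := by rw [Matrix.mul_assoc]
      _ = M.det • N := by rw [mul_adj777, Matrix.mul_smul, Matrix.mul_one]
  have e2 := congrArg Matrix.trace e
  rw [Matrix.trace_sub, Matrix.trace_smul, Matrix.trace_smul, Matrix.trace_one] at e2
  simp only [Fintype.card_fin, Nat.cast_ofNat, smul_eq_mul] at e2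
  linear_combination -e2

theorem inTwCentC_one777 (y : GL (Fin 2) k) : InTwCentC (RingEquiv.refl k) y 1 := by
  rw [inTwCentC_iff777]
  refine ⟨by group, ?_, by simp⟩
  rw [Units.val_one, Matrix.trace_one]
  simpa using val_two_le_one777 (k := k)

theorem inTwCentC_inv777 {y t : GL (Fin 2) k} (ht : InTwCentC (RingEquiv.refl k) y t) :
    InTwCentC (RingEquiv.refl k) y t⁻¹ := by
  rw [inTwCentC_iff777] at ht ⊢
  obtain ⟨hc, htr, hdet⟩ := ht
  have hmul : (t : Matrix (Fin 2) (Fin 2) k) * ((t⁻¹ : GL (Fin 2) k) : Matrix (Fin 2) (Fin 2) k)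
      = 1 := by
    rw [← Units.val_mul, mul_inv_cancel, Units.val_one]
  have hd : Valued.v ((t⁻¹ : GL (Fin 2) k) : Matrix (Fin 2) (Fin 2) k).det = 1 := by
    have := congrArg Matrix.det hmul
    rw [Matrix.det_mul, Matrix.det_one] at this
    have h2 := congrArg (Valued.v : k → Γ₀) this
    rw [map_mul, hdet, one_mul, map_one] at h2
    exact h2
  refine ⟨?_, ?_, hd⟩
  · calc t⁻¹ * y = t⁻¹ * (y * t) * t⁻¹ := by group
      _ = t⁻¹ * (t * y) * t⁻¹ := by rw [hc]
      _ = y * t⁻¹ := by group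
  · have h3 := trace_inv777 hmul
    have h4 := congrArg (Valued.v : k → Γ₀) h3
    rw [map_mul, hdet, mul_one] at h4
    rw [h4]
    exact htr

theorem inTwCentC_mul777 {y t t' : GL (Fin 2) k} (hy : disc y ≠ 0)
    (ht : InTwCentC (RingEquiv.refl k) y t) (ht' : InTwCentC (RingEquiv.refl k) y t') :
    InTwCentC (RingEquiv.refl k) y (t * t') := by
  rw [inTwCentC_iff777] at ht ht' ⊢
  obtain ⟨hc, htr, hdet⟩ := ht
  obtain ⟨hc', htr', hdet'⟩ := ht'
  refine ⟨?_, ?_, ?_⟩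
  · calc t * t' * y = t * (t' * y) := by group
      _ = t * (y * t') := by rw [hc']
      _ = (t * y) * t' := by group
      _ = (y * t) * t' := by rw [hc]
      _ = y * (t * t') := by group
  · have hcm : (t : Matrix (Fin 2) (Fin 2) k) * (y : Matrix (Fin 2) (Fin 2) k)
        = (y : Matrix (Fin 2) (Fin 2) k) * (t : Matrix (Fin 2) (Fin 2) k) := by
      rw [← Units.val_mul, hc, Units.val_mul]
    have hcm' : (t' : Matrix (Fin 2) (Fin 2) k) * (y : Matrix (Fin 2) (Fin 2) k)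
        = (y : Matrix (Fin 2) (Fin 2) k) * (t' : Matrix (Fin 2) (Fin 2) k) := by
      rw [← Units.val_mul, hc', Units.val_mul]
    obtain ⟨a, b, hab⟩ := exists_param777 (y := (y : Matrix (Fin 2) (Fin 2) k)) hy hcm
    obtain ⟨a', b', hab'⟩ := exists_param777 (y := (y : Matrix (Fin 2) (Fin 2) k)) hy hcm'
    have hq := trace_mul_quadratic777 (y : Matrix (Fin 2) (Fin 2) k) a b a' b'
    rw [← hab, ← hab'] at hq
    rw [Units.val_mul]
    refine val_le_one_of_quadratic777 (s := (t : Matrix (Fin 2) (Fin 2) k).trace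
        * (t' : Matrix (Fin 2) (Fin 2) k).trace) ?_ ?_ hq
    · rw [map_mul]
      exact mul_le_one' htr htr'
    · have aux : ∀ {τ δ : k}, Valued.v τ ≤ 1 → Valued.v δ = 1 →
          Valued.v (τ ^ 2 - 2 * δ) ≤ 1 := by
        intro τ δ hτ hδ
        refine Valuation.map_sub_le _ ?_ ?_
        · rw [map_pow]
          exact pow_le_one' hτ 2
        · rw [map_mul, hδ, mul_one]
          exact val_two_le_one777
      refine Valuation.map_add_le _ ?_ ?_
      · rw [map_mul, hdet', one_mul]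
        exact aux htr hdet
      · rw [map_mul, hdet, one_mul]
        exact aux htr' hdet'
  · rw [Units.val_mul, Matrix.det_mul, map_mul, hdet, hdet', one_mul]

/-- The maximal compact subgroup `T_y^c` of the centraliser of a regular `y`. -/
def Tsub777 (y : GL (Fin 2) k) (hy : disc y ≠ 0) : Subgroup (GL (Fin 2) k) where
  carrier := {t | InTwCentC (RingEquiv.refl k) y t}
  mul_mem' := fun ht ht' => inTwCentC_mul777 hy ht ht'
  one_mem' := inTwCentC_one777 y
  inv_mem' := fun ht => inTwCentC_inv777 ht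

@[simp] theorem mem_Tsub777 {y : GL (Fin 2) k} {hy : disc y ≠ 0} {t : GL (Fin 2) k} :
    t ∈ Tsub777 y hy ↔ InTwCentC (RingEquiv.refl k) y t := Iff.rfl

/-- An element of `U(n)` has integral trace and unit determinant. -/
theorem trace_det_of_inU777 {n : ℕ} {u : GL (Fin 2) k} (hu : InU n u) :
    Valued.v (u : Matrix (Fin 2) (Fin 2) k).trace ≤ 1 ∧
      Valued.v (u : Matrix (Fin 2) (Fin 2) k).det = 1 := by
  have h1 := small_of_inU777 hu
  have h2 := small_inv_of_inU777 hu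
  have hdet : ∀ M : Matrix (Fin 2) (Fin 2) k, Small777 0 M → Valued.v M.det ≤ 1 := by
    intro M hM
    rw [Matrix.det_fin_two]
    have hM' : ∀ i j, Valued.v (M i j) ≤ 1 := fun i j => by simpa using hM i j
    refine Valuation.map_sub_le _ ?_ ?_ <;>
      · rw [map_mul]
        exact mul_le_one' (hM' _ _) (hM' _ _)
  refine ⟨?_, ?_⟩
  · rw [Matrix.trace_fin_two]
    exact Valuation.map_add_le _ (by simpa using h1 0 0) (by simpa using h1 1 1)
  · have hmul : (u : Matrix (Fin 2) (Fin 2) k) * ((u⁻¹ : GL (Fin 2) k) : Matrix (Fin 2) (Fin 2) k)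
        = 1 := by
      rw [← Units.val_mul, mul_inv_cancel, Units.val_one]
    have h3 := congrArg Matrix.det hmul
    rw [Matrix.det_mul, Matrix.det_one] at h3
    have h4 := congrArg (Valued.v : k → Γ₀) h3
    rw [map_mul, map_one] at h4
    refine le_antisymm (hdet _ h1) ?_
    by_contra hlt
    rw [not_le] at hlt
    have : Valued.v (u : Matrix (Fin 2) (Fin 2) k).det
        * Valued.v ((u⁻¹ : GL (Fin 2) k) : Matrix (Fin 2) (Fin 2) k).det < 1 := by
      calc Valued.v (u : Matrix (Fin 2) (Fin 2) k).det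
            * Valued.v ((u⁻¹ : GL (Fin 2) k) : Matrix (Fin 2) (Fin 2) k).det
          ≤ Valued.v (u : Matrix (Fin 2) (Fin 2) k).det * 1 := mul_le_mul' le_rfl (hdet _ h2)
        _ = Valued.v (u : Matrix (Fin 2) (Fin 2) k).det := mul_one _
        _ < 1 := hlt
    rw [h4] at this
    exact lt_irrefl _ this

/-- `T_y^c ∩ U(n)` is the stabiliser of `y` in `U(n)`. -/
theorem mem_Tsub_of_inU777 {n : ℕ} {y u : GL (Fin 2) k} (hy : disc y ≠ 0) (hu : InU n u)
    (hc : u * y = y * u) : u ∈ Tsub777 y hy := by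
  rw [mem_Tsub777, inTwCentC_iff777]
  exact ⟨hc, (trace_det_of_inU777 hu).1, (trace_det_of_inU777 hu).2⟩

/-! ## 4. The index `cIndex` as a relative index -/

theorem cIndex_eq_relIndex777 (n : ℕ) (y : GL (Fin 2) k) (hy : disc y ≠ 0) :
    cIndex (InU n) (InTwCentC (RingEquiv.refl k)) y
      = (Usub777 k n).relIndex (Tsub777 y hy) := by
  classical
  let F : (↥(Tsub777 y hy) ⧸ (Usub777 k n).subgroupOf (Tsub777 y hy)) → Set (GL (Fin 2) k) :=
    fun x => Quotient.liftOn' x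
      (fun t => {g : GL (Fin 2) k | ∃ u : GL (Fin 2) k, InU n u ∧ g = (t : GL (Fin 2) k) * u})
      (by
        intro t t' h
        rw [QuotientGroup.leftRel_apply, Subgroup.mem_subgroupOf] at h
        have h' : InU n ((t : GL (Fin 2) k)⁻¹ * (t' : GL (Fin 2) k)) := by simpa using h
        ext g
        simp only [Set.mem_ofPred_eq]
        constructor
        · rintro ⟨u, hu, rfl⟩
          refine ⟨((t : GL (Fin 2) k)⁻¹ * (t' : GL (Fin 2) k))⁻¹ * u,
            inU_mul777 (inU_inv777 h') hu, by group⟩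
        · rintro ⟨u, hu, rfl⟩
          exact ⟨((t : GL (Fin 2) k)⁻¹ * (t' : GL (Fin 2) k)) * u, inU_mul777 h' hu, by group⟩)
  have hFmk : ∀ t : ↥(Tsub777 y hy), F (QuotientGroup.mk t)
      = {g : GL (Fin 2) k | ∃ u : GL (Fin 2) k, InU n u ∧ g = (t : GL (Fin 2) k) * u} :=
    fun t => rfl
  have hF : Function.Injective F := by
    intro x x' h
    induction x using QuotientGroup.induction_on with
    | H t =>
    induction x' using QuotientGroup.induction_on with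
    | H t' =>
    rw [hFmk, hFmk] at h
    have hmem : (t' : GL (Fin 2) k) ∈ {g : GL (Fin 2) k | ∃ u : GL (Fin 2) k, InU n u ∧
        g = (t : GL (Fin 2) k) * u} := by
      rw [h]
      exact ⟨1, inU_one777 n, by group⟩
    obtain ⟨u, hu, hu'⟩ := hmem
    rw [QuotientGroup.eq, Subgroup.mem_subgroupOf]
    have : (t : GL (Fin 2) k)⁻¹ * (t' : GL (Fin 2) k) = u := by rw [hu']; group
    simpa [this] using hu
  have hr : Set.range F = {c : Set (GL (Fin 2) k) | ∃ t : GL (Fin 2) k,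
      InTwCentC (RingEquiv.refl k) y t ∧
        c = {g : GL (Fin 2) k | ∃ u : GL (Fin 2) k, InU n u ∧ g = t * u}} := by
    ext c
    constructor
    · rintro ⟨x, rfl⟩
      induction x using QuotientGroup.induction_on with
      | H t => exact ⟨t, t.2, hFmk t⟩
    · rintro ⟨t, ht, rfl⟩
      exact ⟨QuotientGroup.mk ⟨t, ht⟩, hFmk ⟨t, ht⟩⟩
  unfold cIndex
  rw [← hr, Set.ncard_range_of_injective hF]
  rfl

/-! ## 5. Conjugation by `U(0)` -/

theorem disc_conj777 (x y : GL (Fin 2) k) : disc (x * y * x⁻¹) = disc y := by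
  unfold disc
  rw [Units.val_mul, Units.val_mul, Matrix.trace_units_conj, Matrix.det_units_conj]

theorem inTwCentC_conj777 (x y t : GL (Fin 2) k) :
    InTwCentC (RingEquiv.refl k) (x * y * x⁻¹) (x * t * x⁻¹)
      ↔ InTwCentC (RingEquiv.refl k) y t := by
  rw [inTwCentC_iff777, inTwCentC_iff777]
  have h1 : ((x * t * x⁻¹ : GL (Fin 2) k) : Matrix (Fin 2) (Fin 2) k).trace
      = (t : Matrix (Fin 2) (Fin 2) k).trace := by
    rw [Units.val_mul, Units.val_mul, Matrix.trace_units_conj]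
  have h2 : ((x * t * x⁻¹ : GL (Fin 2) k) : Matrix (Fin 2) (Fin 2) k).det
      = (t : Matrix (Fin 2) (Fin 2) k).det := by
    rw [Units.val_mul, Units.val_mul, Matrix.det_units_conj]
  rw [h1, h2]
  have h3 : x * t * x⁻¹ * (x * y * x⁻¹) = x * y * x⁻¹ * (x * t * x⁻¹) ↔ t * y = y * t := by
    constructor
    · intro h
      have e1 : t * y = x⁻¹ * (x * t * x⁻¹ * (x * y * x⁻¹)) * x := by group
      have e2 : y * t = x⁻¹ * (x * y * x⁻¹ * (x * t * x⁻¹)) * x := by group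
      rw [e1, e2, h]
    · intro h
      have e1 : x * t * x⁻¹ * (x * y * x⁻¹) = x * (t * y) * x⁻¹ := by group
      have e2 : x * y * x⁻¹ * (x * t * x⁻¹) = x * (y * t) * x⁻¹ := by group
      rw [e1, e2, h]
  rw [h3]

theorem map_conj_Usub777 {m : ℕ} {x : GL (Fin 2) k} (hx : InU 0 x) :
    (Usub777 k m).map (MulAut.conj x).toMonoidHom = Usub777 k m := by
  ext g
  simp only [Subgroup.mem_map, mem_Usub777, MulEquiv.coe_toMonoidHom, MulAut.conj_apply]
  constructor
  · rintro ⟨w, hw, rfl⟩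
    exact inU_conj777 hx hw
  · intro hg
    refine ⟨x⁻¹ * g * x, ?_, by group⟩
    have := inU_conj777 (inU_inv777 hx) hg
    rwa [inv_inv] at this

theorem map_conj_Tsub777 (x y : GL (Fin 2) k) (hy : disc y ≠ 0)
    (hy' : disc (x * y * x⁻¹) ≠ 0) :
    (Tsub777 y hy).map (MulAut.conj x).toMonoidHom = Tsub777 (x * y * x⁻¹) hy' := by
  ext g
  simp only [Subgroup.mem_map, mem_Tsub777, MulEquiv.coe_toMonoidHom, MulAut.conj_apply]
  constructor
  · rintro ⟨t, ht, rfl⟩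
    exact (inTwCentC_conj777 x y t).2 ht
  · intro hg
    refine ⟨x⁻¹ * g * x, ?_, by group⟩
    have e : g = x * (x⁻¹ * g * x) * x⁻¹ := by group
    rw [e] at hg
    exact (inTwCentC_conj777 x y _).1 hg

/-- The index is invariant under conjugation by `U(0)`. -/
theorem relIndex_conj777 {m : ℕ} {x : GL (Fin 2) k} (hx : InU 0 x) (y : GL (Fin 2) k)
    (hy : disc y ≠ 0) (hy' : disc (x * y * x⁻¹) ≠ 0) :
    (Usub777 k m).relIndex (Tsub777 (x * y * x⁻¹) hy') = (Usub777 k m).relIndex (Tsub777 y hy) := by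
  have h := Subgroup.relIndex_map_map_of_injective (Usub777 k m) (Tsub777 y hy)
    (f := (MulAut.conj x).toMonoidHom) (MulAut.conj x).injective
  rw [map_conj_Usub777 hx, map_conj_Tsub777 x y hy hy'] at h
  exact h

/-! ## 6. The `U(m)`-orbits in a `U(m₀)`-orbit -/

/-- `U(m)` as a subgroup of `U(m₀)`. -/
abbrev Nsub777 (k : Type) [Field k] [Valued k Γ₀] (m₀ m : ℕ) : Subgroup ↥(Usub777 k m₀) :=
  (Usub777 k m).subgroupOf (Usub777 k m₀)

/-- The stabiliser of `y₀` in `U(m₀)`. -/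
abbrev Asub777 (m₀ : ℕ) (y₀ : GL (Fin 2) k) (hy : disc y₀ ≠ 0) : Subgroup ↥(Usub777 k m₀) :=
  (Tsub777 y₀ hy).subgroupOf (Usub777 k m₀)

theorem inU_zero_of_mem777 {m₀ : ℕ} (v : ↥(Usub777 k m₀)) : InU 0 (v : GL (Fin 2) k) :=
  Usub_mono777 (Nat.zero_le m₀) v.2

instance normal_Nsub777 (m₀ m : ℕ) : (Nsub777 k m₀ m).Normal := by
  refine ⟨fun n hn g => ?_⟩
  rw [Subgroup.mem_subgroupOf] at hn ⊢
  have := inU_conj777 (inU_zero_of_mem777 g) hn
  simpa using this

theorem orbit_card777 {m₀ m : ℕ} (y₀ : GL (Fin 2) k) (hy : disc y₀ ≠ 0)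
    (S : Finset (GL (Fin 2) k))
    (ha : ∀ y ∈ S, ∃ v : ↥(Usub777 k m₀),
      y = (v : GL (Fin 2) k) * y₀ * (v : GL (Fin 2) k)⁻¹)
    (hb : ∀ y ∈ S, ∀ y' ∈ S, (∃ w : GL (Fin 2) k, InU m w ∧ y' = w * y * w⁻¹) → y = y')
    (hc : ∀ v : ↥(Usub777 k m₀), ∃ y ∈ S, ∃ w : GL (Fin 2) k, InU m w ∧
      y = w * ((v : GL (Fin 2) k) * y₀ * (v : GL (Fin 2) k)⁻¹) * w⁻¹)
    (hm : m₀ ≤ m) :
    S.card = (Asub777 m₀ y₀ hy ⊔ Nsub777 k m₀ m).index := by
  classical
  let Φ : {y // y ∈ S} → ↥(Usub777 k m₀) ⧸ (Asub777 m₀ y₀ hy ⊔ Nsub777 k m₀ m) :=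
    fun y => QuotientGroup.mk (Classical.choose (ha y.1 y.2))
  have hΦ : ∀ y : {y // y ∈ S}, (y : GL (Fin 2) k)
      = ((Classical.choose (ha y.1 y.2) : ↥(Usub777 k m₀)) : GL (Fin 2) k) * y₀
        * ((Classical.choose (ha y.1 y.2) : ↥(Usub777 k m₀)) : GL (Fin 2) k)⁻¹ :=
    fun y => Classical.choose_spec (ha y.1 y.2)
  have hinj : Function.Injective Φ := by
    intro y y' h
    simp only [Φ] at h
    rw [QuotientGroup.eq] at h
    set v := Classical.choose (ha y.1 y.2) with hv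
    set v' := Classical.choose (ha y'.1 y'.2) with hv'
    have hyv := hΦ y
    have hyv' := hΦ y'
    rw [← hv] at hyv
    rw [← hv'] at hyv'
    have hmem : (v⁻¹ * v' : ↥(Usub777 k m₀)) ∈
        ((Nsub777 k m₀ m ⊔ Asub777 m₀ y₀ hy : Subgroup ↥(Usub777 k m₀)) : Set ↥(Usub777 k m₀)) := by
      rw [sup_comm]
      exact h
    rw [Subgroup.normal_mul, Set.mem_mul] at hmem
    obtain ⟨n, hn, a, ha', hna⟩ := hmem
    have hn' : InU m (n : GL (Fin 2) k) := Subgroup.mem_subgroupOf.1 hn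
    have ha'' : InTwCentC (RingEquiv.refl k) y₀ (a : GL (Fin 2) k) :=
      Subgroup.mem_subgroupOf.1 ha'
    have hcomm : (a : GL (Fin 2) k) * y₀ = y₀ * (a : GL (Fin 2) k) :=
      ((inTwCentC_iff777 y₀ _).1 ha'').1
    have hv'eq : (v' : GL (Fin 2) k) = (v : GL (Fin 2) k) * (n : GL (Fin 2) k)
        * (a : GL (Fin 2) k) := by
      have h1 : v' = v * (n * a) := by rw [hna]; group
      rw [h1]
      simp [mul_assoc]
    apply Subtype.ext
    apply hb y.1 y.2 y'.1 y'.2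
    refine ⟨(v : GL (Fin 2) k) * (n : GL (Fin 2) k) * (v : GL (Fin 2) k)⁻¹, ?_, ?_⟩
    · exact inU_conj777 (inU_zero_of_mem777 v) hn'
    · rw [hyv', hyv, hv'eq]
      have e1 : (v : GL (Fin 2) k) * (n : GL (Fin 2) k) * (a : GL (Fin 2) k) * y₀
          * ((v : GL (Fin 2) k) * (n : GL (Fin 2) k) * (a : GL (Fin 2) k))⁻¹
          = (v : GL (Fin 2) k) * (n : GL (Fin 2) k) * ((a : GL (Fin 2) k) * y₀)
            * (a : GL (Fin 2) k)⁻¹ * (n : GL (Fin 2) k)⁻¹ * (v : GL (Fin 2) k)⁻¹ := by group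
      rw [e1, hcomm]
      group
  have hsurj : Function.Surjective Φ := by
    intro x
    obtain ⟨v, rfl⟩ := QuotientGroup.mk_surjective x
    obtain ⟨y, hyS, w, hw, hyw⟩ := hc v
    refine ⟨⟨y, hyS⟩, ?_⟩
    simp only [Φ]
    rw [QuotientGroup.eq]
    set vy := Classical.choose (ha y hyS) with hvy
    have hyv : y = (vy : GL (Fin 2) k) * y₀ * (vy : GL (Fin 2) k)⁻¹ :=
      Classical.choose_spec (ha y hyS)
    have hwU : w ∈ Usub777 k m₀ := Usub_mono777 hm hw
    -- `a = (w v)⁻¹ v_y` commutes with `y₀`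
    let a : ↥(Usub777 k m₀) := (⟨w, hwU⟩ * v)⁻¹ * vy
    have hacomm : (a : GL (Fin 2) k) * y₀ = y₀ * (a : GL (Fin 2) k) := by
      have ea : (a : GL (Fin 2) k) = (w * (v : GL (Fin 2) k))⁻¹ * (vy : GL (Fin 2) k) := by
        simp [a]
      have h1 : (vy : GL (Fin 2) k) * y₀ * (vy : GL (Fin 2) k)⁻¹
          = w * ((v : GL (Fin 2) k) * y₀ * (v : GL (Fin 2) k)⁻¹) * w⁻¹ := by
        rw [← hyv, ← hyw]
      rw [ea]
      calc (w * (v : GL (Fin 2) k))⁻¹ * (vy : GL (Fin 2) k) * y₀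
          = (w * (v : GL (Fin 2) k))⁻¹
              * ((vy : GL (Fin 2) k) * y₀ * (vy : GL (Fin 2) k)⁻¹) * (vy : GL (Fin 2) k) := by
            group
        _ = (w * (v : GL (Fin 2) k))⁻¹
              * (w * ((v : GL (Fin 2) k) * y₀ * (v : GL (Fin 2) k)⁻¹) * w⁻¹)
              * (vy : GL (Fin 2) k) := by rw [h1]
        _ = y₀ * ((w * (v : GL (Fin 2) k))⁻¹ * (vy : GL (Fin 2) k)) := by group
    have haA : a ∈ Asub777 m₀ y₀ hy := by
      rw [Subgroup.mem_subgroupOf]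
      exact mem_Tsub_of_inU777 hy a.2 hacomm
    have hnN : (v⁻¹ * (⟨w, hwU⟩ : ↥(Usub777 k m₀))⁻¹ * v) ∈ Nsub777 k m₀ m := by
      rw [Subgroup.mem_subgroupOf]
      have := inU_conj777 (inU_inv777 (inU_zero_of_mem777 v)) (inU_inv777 hw)
      simpa using this
    have e : vy⁻¹ * v = a⁻¹ * (v⁻¹ * (⟨w, hwU⟩ : ↥(Usub777 k m₀))⁻¹ * v) := by
      simp only [a]
      group
    rw [e]
    exact Subgroup.mul_mem _ (Subgroup.mem_sup_left (Subgroup.inv_mem _ haA))
      (Subgroup.mem_sup_right hnN)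
  have hcard := Nat.card_congr (Equiv.ofBijective Φ ⟨hinj, hsurj⟩)
  rw [Nat.card_eq_finsetCard] at hcard
  rw [hcard]
  rfl

/-- The counting identity:
`#(U(m)-orbits in the U(m₀)-orbit of y₀) · [T : T ∩ U(m)] = [U(m₀) : U(m)] · [T : T ∩ U(m₀)]`. -/
theorem index_identity777 {m₀ m : ℕ} (hm : m₀ ≤ m) (y₀ : GL (Fin 2) k) (hy : disc y₀ ≠ 0) :
    (Asub777 m₀ y₀ hy ⊔ Nsub777 k m₀ m).index * (Usub777 k m).relIndex (Tsub777 y₀ hy)
      = (Usub777 k m).relIndex (Usub777 k m₀) * (Usub777 k m₀).relIndex (Tsub777 y₀ hy) := by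
  have h1 : (Nsub777 k m₀ m).relIndex (Asub777 m₀ y₀ hy ⊔ Nsub777 k m₀ m)
      * (Asub777 m₀ y₀ hy ⊔ Nsub777 k m₀ m).index = (Nsub777 k m₀ m).index :=
    Subgroup.relIndex_mul_index le_sup_right
  rw [Subgroup.relIndex_sup_right] at h1
  have h2 : (Nsub777 k m₀ m).relIndex (Asub777 m₀ y₀ hy)
      = (Usub777 k m).relIndex (Tsub777 y₀ hy ⊓ Usub777 k m₀) := by
    have := Subgroup.relIndex_subgroupOf (H := Usub777 k m)
      (K := Tsub777 y₀ hy ⊓ Usub777 k m₀) (L := Usub777 k m₀) inf_le_right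
    rw [Subgroup.inf_subgroupOf_right] at this
    exact this
  have h3 : (Usub777 k m).relIndex (Usub777 k m₀ ⊓ Tsub777 y₀ hy)
      * (Usub777 k m₀).relIndex (Tsub777 y₀ hy)
      = (Usub777 k m).relIndex (Tsub777 y₀ hy) := by
    rw [Subgroup.relIndex_inf_mul_relIndex, inf_eq_left.2 (Usub_mono777 hm)]
  have h4 : (Nsub777 k m₀ m).index = (Usub777 k m).relIndex (Usub777 k m₀) := rfl
  rw [← h3, ← h4, ← h1, h2, inf_comm]
  ring

/-! ## 7. The level change -/

/-- The index `[T_y^c : T_y^c ∩ U(n)]` of the Spec. -/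
abbrev cI777 (n : ℕ) (y : GL (Fin 2) k) : ℕ :=
  cIndex (InU n) (InTwCentC (RingEquiv.refl k)) y

theorem cI_conj777 {n : ℕ} {x : GL (Fin 2) k} (hx : InU 0 x) (y : GL (Fin 2) k)
    (hy : disc y ≠ 0) : cI777 n (x * y * x⁻¹) = cI777 n y := by
  have hy' : disc (x * y * x⁻¹) ≠ 0 := by rwa [disc_conj777]
  unfold cI777
  rw [cIndex_eq_relIndex777 n _ hy', cIndex_eq_relIndex777 n _ hy]
  exact relIndex_conj777 hx y hy hy'

theorem card_mul_cI777 {m₀ m : ℕ} (hm : m₀ ≤ m) (y₀ : GL (Fin 2) k) (hy : disc y₀ ≠ 0)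
    (S : Finset (GL (Fin 2) k))
    (ha : ∀ y ∈ S, ∃ v : ↥(Usub777 k m₀),
      y = (v : GL (Fin 2) k) * y₀ * (v : GL (Fin 2) k)⁻¹)
    (hb : ∀ y ∈ S, ∀ y' ∈ S, (∃ w : GL (Fin 2) k, InU m w ∧ y' = w * y * w⁻¹) → y = y')
    (hc : ∀ v : ↥(Usub777 k m₀), ∃ y ∈ S, ∃ w : GL (Fin 2) k, InU m w ∧
      y = w * ((v : GL (Fin 2) k) * y₀ * (v : GL (Fin 2) k)⁻¹) * w⁻¹) :
    S.card * cI777 m y₀ = (Usub777 k m).relIndex (Usub777 k m₀) * cI777 m₀ y₀ := by
  unfold cI777
  rw [cIndex_eq_relIndex777 m _ hy, cIndex_eq_relIndex777 m₀ _ hy,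
    orbit_card777 y₀ hy S ha hb hc hm]
  exact index_identity777 hm y₀ hy

theorem biInv_conj777 {n : ℕ} {f : GL (Fin 2) k → ℂ} (hf : IsBiInv (InU n) f)
    {u : GL (Fin 2) k} (hu : InU n u) (y : GL (Fin 2) k) : f (u * y * u⁻¹) = f y :=
  hf u u⁻¹ y hu (inU_inv777 hu)

/-- **T6.18d (level change)**: `LvlC783`, verbatim. -/
theorem lvlC777 : LvlC783 := by
  classical
  intro k _ _ q hk m₀ m hm
  refine ⟨(Usub777 k m).relIndex (Usub777 k m₀), relIndex_ne_zero777 hk hm, ?_⟩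
  intro f hf γ c c' hγ hc hc'
  have hdisc : disc γ ≠ 0 := hγ.ne_zero
  obtain ⟨R₀, hR₀cls, hR₀irr, hR₀cov, rfl⟩ := hc
  obtain ⟨R, hRcls, hRirr, hRcov, rfl⟩ := hc'
  simp only [glAut_refl777] at hR₀cls hR₀irr hR₀cov hRcls hRirr hRcov
  -- regularity on the class
  have hcls_disc : ∀ y : GL (Fin 2) k, (∃ x : GL (Fin 2) k, y = x⁻¹ * γ * x) → disc y ≠ 0 := by
    rintro y ⟨x, rfl⟩
    have := disc_conj777 x⁻¹ γ
    rw [inv_inv] at this
    rwa [this]
  have hfm : IsBiInv (InU m) f := fun u u' g hu hu' =>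
    hf u u' g (Usub_mono777 hm hu) (Usub_mono777 hm hu')
  -- the summands
  set F : GL (Fin 2) k → ℂ := fun y => f y * (cI777 m y : ℂ) with hF
  set F₀ : GL (Fin 2) k → ℂ := fun y => f y * (cI777 m₀ y : ℂ) with hF₀
  change ∑ y ∈ R, F y = _ * ∑ y ∈ R₀, F₀ y
  -- restrict to the support of `f`
  have hR' : ∑ y ∈ R with f y ≠ 0, F y = ∑ y ∈ R, F y := by
    refine Finset.sum_filter_of_ne fun y _ hy => ?_
    intro h0
    exact hy (by simp [hF, h0])
  have hR₀' : ∑ y ∈ R₀ with f y ≠ 0, F₀ y = ∑ y ∈ R₀, F₀ y := by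
    refine Finset.sum_filter_of_ne fun y _ hy => ?_
    intro h0
    exact hy (by simp [hF₀, h0])
  rw [← hR', ← hR₀']
  -- the map to the representatives at level `m₀`
  let P : GL (Fin 2) k → GL (Fin 2) k → Prop := fun y y₀ =>
    y₀ ∈ R₀ ∧ ∃ u : GL (Fin 2) k, InU m₀ u ∧ y = u⁻¹ * y₀ * u
  have hP : ∀ y ∈ R, f y ≠ 0 → ∃ y₀, P y y₀ := by
    intro y hy hfy
    obtain ⟨y₀, hy₀, u, hu, hyu⟩ := hR₀cov y (hRcls y hy) hfy
    exact ⟨y₀, hy₀, u, hu, hyu⟩
  let g : GL (Fin 2) k → GL (Fin 2) k := fun y =>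
    if h : ∃ y₀, P y y₀ then h.choose else y
  have hg : ∀ y ∈ R, f y ≠ 0 → P y (g y) := by
    intro y hy hfy
    have h := hP y hy hfy
    simp only [g, dif_pos h]
    exact h.choose_spec
  have hfP : ∀ y y₀, P y y₀ → f y = f y₀ := by
    rintro y y₀ ⟨-, u, hu, rfl⟩
    have := biInv_conj777 hf (inU_inv777 hu) y₀
    rwa [inv_inv] at this
  have hcIP : ∀ y y₀, P y y₀ → disc y₀ ≠ 0 → cI777 m y = cI777 m y₀ := by
    rintro y y₀ ⟨-, u, hu, rfl⟩ hd
    have := cI_conj777 (n := m) (inU_inv777 (Usub_mono777 (Nat.zero_le m₀) hu)) y₀ hd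
    rwa [inv_inv] at this
  have hmaps : ∀ y ∈ R.filter (fun y => f y ≠ 0), g y ∈ R₀.filter (fun y => f y ≠ 0) := by
    intro y hy
    rw [Finset.mem_filter] at hy ⊢
    have h := hg y hy.1 hy.2
    exact ⟨h.1, by rw [← hfP y (g y) h]; exact hy.2⟩
  rw [← Finset.sum_fiberwise_of_maps_to hmaps F, Finset.mul_sum]
  refine Finset.sum_congr rfl fun y₀ hy₀ => ?_
  rw [Finset.mem_filter] at hy₀
  obtain ⟨hy₀R, hfy₀⟩ := hy₀
  have hd₀ : disc y₀ ≠ 0 := hcls_disc y₀ (hR₀cls y₀ hy₀R)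
  set S : Finset (GL (Fin 2) k) := (R.filter (fun y => f y ≠ 0)).filter (fun y => g y = y₀)
    with hS
  have hSmem : ∀ y, y ∈ S ↔ y ∈ R ∧ f y ≠ 0 ∧ g y = y₀ := by
    intro y
    simp only [hS, Finset.mem_filter, and_assoc]
  -- the terms are constant on `S`
  have hconst : ∀ y ∈ S, F y = f y₀ * (cI777 m y₀ : ℂ) := by
    intro y hy
    obtain ⟨hyR, hfy, hgy⟩ := (hSmem y).1 hy
    have hPy := hg y hyR hfy
    rw [hgy] at hPy
    simp only [hF]
    rw [hfP y y₀ hPy, hcIP y y₀ hPy hd₀]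
  rw [Finset.sum_congr rfl hconst, Finset.sum_const, nsmul_eq_mul]
  -- the three properties of `S`
  have ha : ∀ y ∈ S, ∃ v : ↥(Usub777 k m₀),
      y = (v : GL (Fin 2) k) * y₀ * (v : GL (Fin 2) k)⁻¹ := by
    intro y hy
    obtain ⟨hyR, hfy, hgy⟩ := (hSmem y).1 hy
    have hPy := hg y hyR hfy
    rw [hgy] at hPy
    obtain ⟨-, u, hu, hyu⟩ := hPy
    refine ⟨⟨u⁻¹, inU_inv777 hu⟩, ?_⟩
    simp only [inv_inv]
    exact hyu
  have hb : ∀ y ∈ S, ∀ y' ∈ S, (∃ w : GL (Fin 2) k, InU m w ∧ y' = w * y * w⁻¹) → y = y' := by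
    rintro y hy y' hy' ⟨w, hw, hyw⟩
    refine hRirr y ((hSmem y).1 hy).1 y' ((hSmem y').1 hy').1 ⟨w⁻¹, inU_inv777 hw, ?_⟩
    rw [inv_inv]
    exact hyw
  have hc : ∀ v : ↥(Usub777 k m₀), ∃ y ∈ S, ∃ w : GL (Fin 2) k, InU m w ∧
      y = w * ((v : GL (Fin 2) k) * y₀ * (v : GL (Fin 2) k)⁻¹) * w⁻¹ := by
    intro v
    have hv : InU m₀ (v : GL (Fin 2) k) := v.2
    set y' := (v : GL (Fin 2) k) * y₀ * (v : GL (Fin 2) k)⁻¹ with hy'
    have hcls' : ∃ x : GL (Fin 2) k, y' = x⁻¹ * γ * x := by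
      obtain ⟨x, hx⟩ := hR₀cls y₀ hy₀R
      refine ⟨x * (v : GL (Fin 2) k)⁻¹, ?_⟩
      rw [hy', hx]
      group
    have hfy' : f y' = f y₀ := biInv_conj777 hf hv y₀
    obtain ⟨y, hyR, u, hu, hyu⟩ := hRcov y' hcls' (by rw [hfy']; exact hfy₀)
    have hyeq : y = u * y' * u⁻¹ := by rw [hyu]; group
    have hfy : f y = f y' := by
      rw [hyeq]
      exact biInv_conj777 hfm hu y'
    have hfy0 : f y ≠ 0 := by rw [hfy, hfy']; exact hfy₀
    refine ⟨y, (hSmem y).2 ⟨hyR, hfy0, ?_⟩, u, hu, hyeq⟩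
    -- `g y = y₀`
    obtain ⟨hgR, u', hu', hyu'⟩ := hg y hyR hfy0
    refine (hR₀irr y₀ hy₀R (g y) hgR ⟨(u' * u * (v : GL (Fin 2) k))⁻¹, ?_, ?_⟩).symm
    · exact inU_inv777 (inU_mul777 (inU_mul777 hu' (Usub_mono777 hm hu)) hv)
    · have e1 : g y = u' * y * u'⁻¹ := by
        calc g y = u' * (u'⁻¹ * g y * u') * u'⁻¹ := by group
          _ = u' * y * u'⁻¹ := by rw [← hyu']
      rw [e1, hyeq, hy']
      group
  have hkey := card_mul_cI777 hm y₀ hd₀ S ha hb hc
  have hkey' : (S.card : ℂ) * (cI777 m y₀ : ℂ)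
      = ((Usub777 k m).relIndex (Usub777 k m₀) : ℂ) * (cI777 m₀ y₀ : ℂ) := by
    exact_mod_cast hkey
  simp only [hF₀]
  calc (S.card : ℂ) * (f y₀ * (cI777 m y₀ : ℂ))
      = f y₀ * ((S.card : ℂ) * (cI777 m y₀ : ℂ)) := by ring
    _ = f y₀ * (((Usub777 k m).relIndex (Usub777 k m₀) : ℂ) * (cI777 m₀ y₀ : ℂ)) := by
        rw [hkey']
    _ = ((Usub777 k m).relIndex (Usub777 k m₀) : ℂ) * (f y₀ * (cI777 m₀ y₀ : ℂ)) := by ring

end Fermat.Agent.LT.T6.H777

end

end
-- ===== PACK-END LT/T6/H777/Lvl.lean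

-- ===== PACK-BEGIN LT/T6/H965/Cover.lean
section


/-!
# Row LT, tower T6, leaf T6.18a `H783.CoverC783` (helper965) — OFF-MAIN

`coverC965 : H783.CoverC783`: in a local field `k` (complete, normalised discrete valuation,
finite residue system) the bounded region `|t| ≤ exp B`, `exp(-B) ≤ |d| ≤ exp B` of `k × k` is
covered by finitely many balls `B(p, exp(-N p))`, `p` in the region, for every radius function.

* finite nets of the closed balls (residue system + uniformiser, induction);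
* the closed balls are totally bounded, closed in a complete space, hence compact;
* the balls `B(p, exp(-N p))` are neighbourhoods of their centres; finite subcover.

Mathlib + `T6/Spec.lean` + `T6/H783/BadSpec.lean` only.
-/

set_option autoImplicit false

open scoped Matrix

noncomputable section

namespace Fermat.Agent.LT.T6.H965

open Fermat.Agent.LT.T6

variable {k : Type} [Field k] [Valued k Γ₀]

/-! ## Values of the valuation -/

theorem le_exp_neg_one_of_lt_one965 {y : Γ₀} (hy : y < 1) : y ≤ WithZero.exp (-1 : ℤ) := by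
  rcases eq_or_ne y 0 with rfl | h0
  · exact zero_le'
  · rw [← WithZero.exp_log h0] at hy ⊢
    rw [← WithZero.exp_zero, WithZero.exp_lt_exp] at hy
    rw [WithZero.exp_le_exp]
    omega

/-- The powers of a uniformiser take every value `exp m`. -/
theorem val_zpow_unif965 {ϖ : k} (hϖ : Valued.v ϖ = WithZero.exp (-1 : ℤ)) (m : ℤ) :
    Valued.v (ϖ ^ (-m)) = WithZero.exp m := by
  rw [map_zpow₀, hϖ, ← WithZero.exp_zsmul, smul_eq_mul, neg_mul_neg, mul_one]

theorem exists_val_eq_exp965 {q : ℕ} (h : IsLocalField k q) (m : ℤ) :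
    ∃ c : k, Valued.v c = WithZero.exp m := by
  obtain ⟨ϖ, hϖ⟩ := h.unif
  exact ⟨ϖ ^ (-m), val_zpow_unif965 hϖ m⟩

/-! ## Finite nets -/

/-- A finite `exp(-n)`-net of the unit ball. -/
theorem net_unit965 {q : ℕ} (h : IsLocalField k q) (n : ℕ) :
    ∃ S : Finset k, ∀ z : k, Valued.v z ≤ 1 →
      ∃ s ∈ S, Valued.v (z - s) ≤ WithZero.exp (-(n : ℤ)) := by
  classical
  obtain ⟨ϖ, hϖ⟩ := h.unif
  obtain ⟨T, -, -, -, hT⟩ := h.residue
  have hϖ0 : ϖ ≠ 0 := by
    intro h0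
    rw [h0, map_zero] at hϖ
    exact WithZero.exp_ne_zero hϖ.symm
  induction n with
  | zero =>
    refine ⟨{0}, fun z hz => ⟨0, Finset.mem_singleton_self 0, ?_⟩⟩
    rw [sub_zero]
    simpa using hz
  | succ n ih =>
    obtain ⟨S, hS⟩ := ih
    refine ⟨(T ×ˢ S).image (fun p => p.1 + ϖ * p.2), fun z hz => ?_⟩
    obtain ⟨x, hxT, hx⟩ := hT z hz
    have hx' : Valued.v (z - x) ≤ WithZero.exp (-1 : ℤ) := le_exp_neg_one_of_lt_one965 hx
    have hz₁ : Valued.v (ϖ⁻¹ * (z - x)) ≤ 1 := by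
      rw [map_mul, map_inv₀, hϖ]
      calc (WithZero.exp (-1 : ℤ))⁻¹ * Valued.v (z - x)
          ≤ (WithZero.exp (-1 : ℤ))⁻¹ * WithZero.exp (-1 : ℤ) := mul_le_mul_right hx' _
        _ = 1 := inv_mul_cancel₀ WithZero.exp_ne_zero
    obtain ⟨s, hsS, hs⟩ := hS _ hz₁
    refine ⟨x + ϖ * s, Finset.mem_image.2 ⟨(x, s), Finset.mem_product.2 ⟨hxT, hsS⟩, rfl⟩, ?_⟩
    have e : z - (x + ϖ * s) = ϖ * (ϖ⁻¹ * (z - x) - s) := by
      field_simp
      ring
    rw [e, map_mul, hϖ]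
    calc WithZero.exp (-1 : ℤ) * Valued.v (ϖ⁻¹ * (z - x) - s)
        ≤ WithZero.exp (-1 : ℤ) * WithZero.exp (-(n : ℤ)) := mul_le_mul_right hs _
      _ = WithZero.exp (-((n + 1 : ℕ) : ℤ)) := by
          rw [← WithZero.exp_add]
          congr 1
          push_cast
          ring

/-- A finite `exp(-M)`-net of the ball of radius `exp B`. -/
theorem net_ball965 {q : ℕ} (h : IsLocalField k q) (B M : ℤ) :
    ∃ S : Finset k, ∀ z : k, Valued.v z ≤ WithZero.exp B →
      ∃ s ∈ S, Valued.v (z - s) ≤ WithZero.exp (-M) := by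
  classical
  obtain ⟨c, hc⟩ := exists_val_eq_exp965 h B
  have hc0 : c ≠ 0 := by
    intro h0
    rw [h0, map_zero] at hc
    exact WithZero.exp_ne_zero hc.symm
  obtain ⟨S, hS⟩ := net_unit965 h (M + B).toNat
  refine ⟨S.image (fun s => c * s), fun z hz => ?_⟩
  have hz' : Valued.v (c⁻¹ * z) ≤ 1 := by
    rw [map_mul, map_inv₀, hc]
    calc (WithZero.exp B)⁻¹ * Valued.v z
        ≤ (WithZero.exp B)⁻¹ * WithZero.exp B := mul_le_mul_right hz _
      _ = 1 := inv_mul_cancel₀ WithZero.exp_ne_zero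
  obtain ⟨s, hsS, hs⟩ := hS _ hz'
  refine ⟨c * s, Finset.mem_image.2 ⟨s, hsS, rfl⟩, ?_⟩
  have e : z - c * s = c * (c⁻¹ * z - s) := by
    field_simp
  rw [e, map_mul, hc]
  calc WithZero.exp B * Valued.v (c⁻¹ * z - s)
      ≤ WithZero.exp B * WithZero.exp (-(((M + B).toNat : ℕ) : ℤ)) := mul_le_mul_right hs _
    _ = WithZero.exp (B - ((M + B).toNat : ℤ)) := by
        rw [← WithZero.exp_add]
        congr 1
    _ ≤ WithZero.exp (-M) := by
        rw [WithZero.exp_le_exp]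
        omega

/-! ## Topology -/

/-- The closed balls around `0` are closed. -/
theorem isClosed_ball965 {q : ℕ} (h : IsLocalField k q) (B : ℤ) :
    IsClosed {x : k | Valued.v x ≤ WithZero.exp B} := by
  obtain ⟨c, hc⟩ := exists_val_eq_exp965 h B
  have := Valued.isClosed_closedBall k ((Valued.v : Valuation k Γ₀).restrict c)
  simp only [Valuation.restrict_le_iff, hc] at this
  exact this

/-- The open balls around `0` are open. -/
theorem isOpen_ball965 {q : ℕ} (h : IsLocalField k q) (B : ℤ) :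
    IsOpen {x : k | Valued.v x < WithZero.exp B} := by
  obtain ⟨c, hc⟩ := exists_val_eq_exp965 h B
  have := Valued.isOpen_ball k ((Valued.v : Valuation k Γ₀).restrict c)
  simp only [Valuation.restrict_lt_iff, hc] at this
  exact this

/-- The closed balls are neighbourhoods of their centres. -/
theorem closedBall_mem_nhds965 {q : ℕ} (h : IsLocalField k q) (p : k) (N : ℤ) :
    {x : k | Valued.v (x - p) ≤ WithZero.exp (-N)} ∈ nhds p := by
  obtain ⟨c, hc⟩ := exists_val_eq_exp965 h (-N)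
  have hc0 : (Valued.v : Valuation k Γ₀).restrict c ≠ 0 := by
    rw [Ne, Valuation.restrict_eq_zero_iff, hc]
    exact WithZero.exp_ne_zero
  rw [Valued.mem_nhds]
  refine ⟨Units.mk0 _ hc0, fun y hy => ?_⟩
  have hy' : (Valued.v : Valuation k Γ₀).restrict (y - p)
      < (Valued.v : Valuation k Γ₀).restrict c := hy
  rw [Valuation.restrict_lt_iff, hc] at hy'
  exact hy'.le

/-- The closed balls around `0` are totally bounded. -/
theorem totallyBounded_ball965 {q : ℕ} (h : IsLocalField k q) (B : ℤ) :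
    TotallyBounded {x : k | Valued.v x ≤ WithZero.exp B} := by
  rw [(Valued.hasBasis_uniformity k Γ₀).totallyBounded_iff]
  intro γ _
  have hγ0 : MonoidWithZeroHom.ValueGroup₀.embedding γ.1 ≠ 0 := by
    intro h0
    have h1 := (MonoidWithZeroHom.ValueGroup₀.embedding_strictMono
      (f := MonoidWithZeroHom.ofClass (Valued.v : Valuation k Γ₀))).injective
      (h0.trans (map_zero _).symm)
    exact γ.ne_zero h1
  obtain ⟨S, hS⟩ := net_ball965 h B
    (1 - WithZero.log (MonoidWithZeroHom.ValueGroup₀.embedding γ.1))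
  refine ⟨(S : Set k), S.finite_toSet, fun z hz => ?_⟩
  obtain ⟨s, hsS, hs⟩ := hS z hz
  refine Set.mem_iUnion₂.2 ⟨s, hsS, ?_⟩
  show (Valued.v : Valuation k Γ₀).restrict (s - z) < γ.1
  rw [Valuation.restrict_lt_iff_lt_embedding, Valuation.map_sub_swap]
  refine lt_of_le_of_lt hs ?_
  conv_rhs => rw [← WithZero.exp_log hγ0]
  rw [WithZero.exp_lt_exp]
  omega

/-- The closed balls around `0` are compact. -/
theorem isCompact_ball965 {q : ℕ} (h : IsLocalField k q) (B : ℤ) :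
    IsCompact {x : k | Valued.v x ≤ WithZero.exp B} := by
  have hcomp : CompleteSpace k := h.complete
  rw [isCompact_iff_totallyBounded_isComplete]
  exact ⟨totallyBounded_ball965 h B, (isClosed_ball965 h B).isComplete⟩

/-- The region is compact. -/
theorem isCompact_region965 {q : ℕ} (h : IsLocalField k q) (B : ℤ) :
    IsCompact {p : k × k | Valued.v p.1 ≤ WithZero.exp B ∧
      WithZero.exp (-B) ≤ Valued.v p.2 ∧ Valued.v p.2 ≤ WithZero.exp B} := by
  have hcl : IsClosed {x : k | WithZero.exp (-B) ≤ Valued.v x} := by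
    have : {x : k | WithZero.exp (-B) ≤ Valued.v x}
        = {x : k | Valued.v x < WithZero.exp (-B)}ᶜ := by
      ext x
      simp only [Set.mem_setOf_eq, Set.mem_compl_iff, not_lt]
    rw [this]
    exact (isOpen_ball965 h (-B)).isClosed_compl
  have h2 : IsCompact ({x : k | WithZero.exp (-B) ≤ Valued.v x}
      ∩ {x : k | Valued.v x ≤ WithZero.exp B}) := (isCompact_ball965 h B).inter_left hcl
  have h3 := (isCompact_ball965 h B).prod h2
  have e : {p : k × k | Valued.v p.1 ≤ WithZero.exp B ∧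
      WithZero.exp (-B) ≤ Valued.v p.2 ∧ Valued.v p.2 ≤ WithZero.exp B}
      = {x : k | Valued.v x ≤ WithZero.exp B}
        ×ˢ ({x : k | WithZero.exp (-B) ≤ Valued.v x} ∩ {x : k | Valued.v x ≤ WithZero.exp B}) := by
    ext p
    exact Iff.rfl
  rw [e]
  exact h3

/-! ## The leaf -/

/-- **T6.18a (compactness)** (`H783.CoverC783`). -/
theorem coverC965 : H783.CoverC783 := by
  intro k _ _ q h B N
  classical
  set R : Set (k × k) := {p : k × k | Valued.v p.1 ≤ WithZero.exp B ∧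
      WithZero.exp (-B) ≤ Valued.v p.2 ∧ Valued.v p.2 ≤ WithZero.exp B} with hR
  have hRc : IsCompact R := isCompact_region965 h B
  set U : k × k → Set (k × k) := fun p =>
    {x : k | Valued.v (x - p.1) ≤ WithZero.exp (-(N p.1 p.2))}
      ×ˢ {x : k | Valued.v (x - p.2) ≤ WithZero.exp (-(N p.1 p.2))} with hU
  have hUn : ∀ p ∈ R, U p ∈ nhds p := fun p _ =>
    prod_mem_nhds (closedBall_mem_nhds965 h p.1 _) (closedBall_mem_nhds965 h p.2 _)
  obtain ⟨J, hJR, hJ⟩ := hRc.elim_nhds_subcover U hUn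
  refine ⟨J, fun p hp => (hJR p hp).2.1, fun t d ht hd hd' => ?_⟩
  have hmem : (t, d) ∈ R := ⟨ht, hd, hd'⟩
  obtain ⟨p, hpJ, hp⟩ := Set.mem_iUnion₂.1 (hJ hmem)
  exact ⟨p, hpJ, hp.1, hp.2⟩

end Fermat.Agent.LT.T6.H965

end

end
-- ===== PACK-END LT/T6/H965/Cover.lean

-- ===== PACK-BEGIN LT/T6/H82/FibreAbs.lean
section




/-!
# Row LT, tower T6, sub-leaf T6.18g2-D1 `FibreC783`: the ABSTRACT fibration (helper82)

OFF-MAIN.  Pure group theory on the relation `IsOrbSumGen` of `T6/Spec.lean` (helper22).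

`G ⊂ G'` (a homomorphism `ι`), `σ` an endomorphism of `G'` fixing `ι G`, `U'` a `σ`-stable
subgroup predicate of `G'`, `h ∈ G` whose twisted centraliser in `G'` is the image of the
centraliser of `h` in `G`, `Y ⊂ G'` a finite set of representatives of DISTINCT double cosets
`ι(G) y U'` which contain every `x` with `φ(x⁻¹ ι(h) σ(x)) ≠ 0`.  Then

  `TO_{ι h}(φ) = ∑_{y ∈ Y} O^{Γ_y}_h(φ_y)`,   `Γ_y = {γ : y⁻¹ ι(γ) y ∈ U'}`, `φ_y(g) = φ(y⁻¹ ι(g) σ(y))`.

* `cIndex_fibre82`: the indices agree, `[T'^c_β : T'^c_β ∩ U'] = [T^c_g : T^c_g ∩ Γ_y]` for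
  `β = y⁻¹ ι(g) σ(y)`, as soon as `T'^c_β = y⁻¹ ι(T^c_g) y`.
* `fibre_abstract82`: the statement.
-/

set_option autoImplicit false

noncomputable section

namespace Fermat.Agent.LT.T6.H82

open Fermat.Agent.LT.T6

variable {G G' : Type} [Group G] [Group G']

/-- The index of `U'` in the compact part of the twisted centraliser of `β = y⁻¹ ι(g) σ(y)` is the
index of `Γ_y` in the compact part of the centraliser of `g`, if the former is the conjugate by
`y` of the image of the latter. -/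
theorem cIndex_fibre82 (ι : G →* G') (U' : G' → Prop)
    (hone : U' 1) (hmul : ∀ u v : G', U' u → U' v → U' (u * v))
    (hinv : ∀ u : G', U' u → U' u⁻¹)
    (C' : G' → G' → Prop) (C : G → G → Prop) (y β : G') (g : G)
    (hchar : ∀ t : G', C' β t ↔ ∃ t₁ : G, C g t₁ ∧ t = y⁻¹ * ι t₁ * y) :
    cIndex U' C' β = cIndex (fun g₀ : G => U' (y⁻¹ * ι g₀ * y)) C g := by
  unfold cIndex
  have hΓone : U' (y⁻¹ * ι (1 : G) * y) := by
    have e : y⁻¹ * ι (1 : G) * y = 1 := by rw [map_one]; group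
    rw [e]; exact hone
  have hΓmul : ∀ a b : G, U' (y⁻¹ * ι a * y) → U' (y⁻¹ * ι b * y) →
      U' (y⁻¹ * ι (a * b) * y) := by
    intro a b ha hb
    have e : y⁻¹ * ι (a * b) * y = (y⁻¹ * ι a * y) * (y⁻¹ * ι b * y) := by
      rw [map_mul]; group
    rw [e]; exact hmul _ _ ha hb
  have hΓinv : ∀ a : G, U' (y⁻¹ * ι a * y) → U' (y⁻¹ * ι a⁻¹ * y) := by
    intro a ha
    have e : y⁻¹ * ι a⁻¹ * y = (y⁻¹ * ι a * y)⁻¹ := by
      rw [map_inv]; group
    rw [e]; exact hinv _ ha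
  -- the map on cosets
  set F : Set G → Set G' :=
    fun c => {x : G' | ∃ g₀ ∈ c, ∃ u : G', U' u ∧ x = y⁻¹ * ι g₀ * y * u} with hF
  have hFcoset : ∀ t₁ : G,
      F {g₀ : G | ∃ γ : G, U' (y⁻¹ * ι γ * y) ∧ g₀ = t₁ * γ}
        = {x : G' | ∃ u : G', U' u ∧ x = (y⁻¹ * ι t₁ * y) * u} := by
    intro t₁
    ext x
    constructor
    · rintro ⟨g₀, ⟨γ, hγ, rfl⟩, u, hu, rfl⟩
      refine ⟨(y⁻¹ * ι γ * y) * u, hmul _ _ hγ hu, ?_⟩
      rw [map_mul]; group
    · rintro ⟨u, hu, rfl⟩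
      exact ⟨t₁, ⟨1, hΓone, (mul_one _).symm⟩, u, hu, rfl⟩
  have himg : {c : Set G' | ∃ t : G', C' β t ∧ c = {x : G' | ∃ u : G', U' u ∧ x = t * u}}
      = F '' {c : Set G | ∃ t₁ : G, C g t₁ ∧
          c = {g₀ : G | ∃ γ : G, U' (y⁻¹ * ι γ * y) ∧ g₀ = t₁ * γ}} := by
    ext c
    constructor
    · rintro ⟨t, ht, rfl⟩
      obtain ⟨t₁, ht₁, rfl⟩ := (hchar t).1 ht
      exact ⟨_, ⟨t₁, ht₁, rfl⟩, hFcoset t₁⟩
    · rintro ⟨c', ⟨t₁, ht₁, rfl⟩, rfl⟩
      exact ⟨y⁻¹ * ι t₁ * y, (hchar _).2 ⟨t₁, ht₁, rfl⟩, hFcoset t₁⟩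
  rw [himg]
  refine Set.InjOn.ncard_image ?_
  rintro c₁ ⟨t₁, -, rfl⟩ c₂ ⟨t₂, -, rfl⟩ heq
  rw [hFcoset, hFcoset] at heq
  -- `y⁻¹ ι(t₁) y ∈ y⁻¹ ι(t₂) y U'`
  have hmem : (y⁻¹ * ι t₁ * y) ∈ {x : G' | ∃ u : G', U' u ∧ x = (y⁻¹ * ι t₂ * y) * u} := by
    rw [← heq]
    exact ⟨1, hone, (mul_one _).symm⟩
  obtain ⟨u, hu, e⟩ := hmem
  have hγ : U' (y⁻¹ * ι (t₂⁻¹ * t₁) * y) := by
    have e' : y⁻¹ * ι (t₂⁻¹ * t₁) * y = u := by
      have : y⁻¹ * ι (t₂⁻¹ * t₁) * y = (y⁻¹ * ι t₂ * y)⁻¹ * (y⁻¹ * ι t₁ * y) := by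
        rw [map_mul, map_inv]; group
      rw [this, e]; group
    rw [e']; exact hu
  have hγ' : U' (y⁻¹ * ι (t₁⁻¹ * t₂) * y) := by
    have := hΓinv _ hγ
    rwa [mul_inv_rev, inv_inv] at this
  ext g₀
  constructor
  · rintro ⟨γ, hγ₀, rfl⟩
    exact ⟨t₂⁻¹ * t₁ * γ, hΓmul _ _ hγ hγ₀, by group⟩
  · rintro ⟨γ, hγ₀, rfl⟩
    exact ⟨t₁⁻¹ * t₂ * γ, hΓmul _ _ hγ' hγ₀, by group⟩

/-- **The abstract fibration of a twisted orbit sum over the double cosets `ι(G) y U'`.** -/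
theorem fibre_abstract82 (ι : G →* G') (σ : G' →* G') (s₀ : G →* G)
    (hs₀ : ∀ g : G, s₀ g = g) (hσι : ∀ g : G, σ (ι g) = ι g)
    (U' : G' → Prop) (hmul : ∀ u v : G', U' u → U' v → U' (u * v))
    (hinv : ∀ u : G', U' u → U' u⁻¹) (hσU : ∀ u : G', U' u → U' (σ u))
    (φ : G' → ℂ) (hφ : IsBiInv U' φ)
    (C' : G' → G' → Prop) (C : G → G → Prop)
    (hC' : ∀ y u t : G', U' u → (C' (u⁻¹ * y * σ u) t ↔ C' y (u * t * u⁻¹)))
    (h : G)
    (hcent : ∀ τ : G', τ⁻¹ * ι h * σ τ = ι h → ∃ t : G, t * h = h * t ∧ τ = ι t)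
    (hidx : ∀ (y : G') (g : G), (∃ x : G, g = x⁻¹ * h * x) →
      cIndex U' C' (y⁻¹ * ι g * σ y) = cIndex (fun g₀ : G => U' (y⁻¹ * ι g₀ * y)) C g)
    (Y : Finset G')
    (hY : ∀ y ∈ Y, ∀ y' ∈ Y, (∃ (g : G) (u : G'), U' u ∧ y' = ι g * y * u) → y = y')
    (hcov : ∀ x : G', φ (x⁻¹ * ι h * σ x) ≠ 0 →
      ∃ y ∈ Y, ∃ (g : G) (u : G'), U' u ∧ x = ι g * y * u)
    (c : ℂ) (cs : G' → ℂ)
    (hc : IsOrbSumGen σ U' C' φ (ι h) c)
    (hcs : ∀ y ∈ Y, IsOrbSumGen s₀ (fun g₀ : G => U' (y⁻¹ * ι g₀ * y)) C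
      (fun g : G => φ (y⁻¹ * ι g * σ y)) h (cs y)) :
    c = ∑ y ∈ Y, cs y := by
  classical
  obtain ⟨R, hR1, hR2, hR3, rfl⟩ := hc
  -- the systems of representatives `R_y`
  have hex : ∀ y : G', ∃ Ry : Finset G, y ∈ Y →
      ((∀ g ∈ Ry, ∃ x : G, g = x⁻¹ * h * x) ∧
        (∀ g ∈ Ry, ∀ g' ∈ Ry,
          (∃ γ : G, U' (y⁻¹ * ι γ * y) ∧ g' = γ⁻¹ * g * γ) → g = g') ∧
        (∀ g : G, (∃ x : G, g = x⁻¹ * h * x) → φ (y⁻¹ * ι g * σ y) ≠ 0 →
          ∃ g' ∈ Ry, ∃ γ : G, U' (y⁻¹ * ι γ * y) ∧ g = γ⁻¹ * g' * γ) ∧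
        cs y = ∑ g ∈ Ry, φ (y⁻¹ * ι g * σ y) *
          (cIndex (fun g₀ : G => U' (y⁻¹ * ι g₀ * y)) C g : ℂ)) := by
    intro y
    by_cases hy : y ∈ Y
    · obtain ⟨Ry, h1, h2, h3, h4⟩ := hcs y hy
      refine ⟨Ry, fun _ => ⟨?_, ?_, ?_, h4⟩⟩
      · intro g hg
        obtain ⟨x, hx⟩ := h1 g hg
        exact ⟨x, by rw [hx, hs₀]⟩
      · intro g hg g' hg' ⟨γ, hγ, e⟩
        exact h2 g hg g' hg' ⟨γ, hγ, by rw [e, hs₀]⟩
      · intro g ⟨x, hx⟩ hne
        obtain ⟨g', hg', γ, hγ, e⟩ := h3 g ⟨x, by rw [hx, hs₀]⟩ hne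
        exact ⟨g', hg', γ, hγ, by rw [e, hs₀]⟩
    · exact ⟨∅, fun h' => absurd h' hy⟩
  choose Rf hRf using hex
  -- the right hand side as ONE sum
  have hsum : ∑ y ∈ Y, cs y
      = ∑ p ∈ Y.sigma Rf, φ (p.1⁻¹ * ι p.2 * σ p.1) *
          (cIndex U' C' (p.1⁻¹ * ι p.2 * σ p.1) : ℂ) := by
    rw [Finset.sum_sigma]
    refine Finset.sum_congr rfl (fun y hy => ?_)
    rw [(hRf y hy).2.2.2]
    refine Finset.sum_congr rfl (fun g hg => ?_)
    rw [hidx y g ((hRf y hy).1 g hg)]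
  rw [hsum]
  symm
  -- the term is invariant under `σ`-conjugation by `U'`
  have hterm : ∀ (y u : G'), U' u →
      φ (u⁻¹ * y * σ u) * (cIndex U' C' (u⁻¹ * y * σ u) : ℂ) = φ y * (cIndex U' C' y : ℂ) := by
    intro y u hu
    rw [H944.cIndex_conj944 σ U' C' hmul hinv hC' y u hu, hφ u⁻¹ (σ u) y (hinv u hu) (hσU u hu)]
  have hφne : ∀ y : G', φ y * (cIndex U' C' y : ℂ) ≠ 0 → φ y ≠ 0 := fun y hy h0 =>
    hy (by rw [h0, zero_mul])
  -- `β(y, g)` lies in the `σ`-class of `ι h`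
  have hβ : ∀ (y : G') (x : G),
      y⁻¹ * ι (x⁻¹ * h * x) * σ y = (ι x * y)⁻¹ * ι h * σ (ι x * y) := by
    intro y x
    rw [map_mul, map_mul, map_mul, map_inv, hσι]
    group
  -- the choice of the representative in `R`
  have hchoice : ∀ p ∈ Y.sigma Rf,
      φ (p.1⁻¹ * ι p.2 * σ p.1) * (cIndex U' C' (p.1⁻¹ * ι p.2 * σ p.1) : ℂ) ≠ 0 →
      ∃ r ∈ R, ∃ u : G', U' u ∧ p.1⁻¹ * ι p.2 * σ p.1 = u⁻¹ * r * σ u := by
    intro p hp hne
    rw [Finset.mem_sigma] at hp
    obtain ⟨x, hx⟩ := (hRf p.1 hp.1).1 p.2 hp.2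
    refine hR3 _ ⟨ι x * p.1, ?_⟩ (hφne _ hne)
    rw [hx, hβ]
  refine Finset.sum_bij_ne_zero (fun p hp hne => Classical.choose (hchoice p hp hne))
    (fun p hp hne => (Classical.choose_spec (hchoice p hp hne)).1) ?_ ?_ ?_
  · -- injectivity
    rintro ⟨y₁, g₁⟩ hp₁ hne₁ ⟨y₂, g₂⟩ hp₂ hne₂ heq
    have hspec₁ := Classical.choose_spec (hchoice ⟨y₁, g₁⟩ hp₁ hne₁)
    have hspec₂ := Classical.choose_spec (hchoice ⟨y₂, g₂⟩ hp₂ hne₂)
    rw [← heq] at hspec₂
    generalize Classical.choose (hchoice ⟨y₁, g₁⟩ hp₁ hne₁) = r at hspec₁ hspec₂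
    obtain ⟨-, u₁, hu₁, e₁⟩ := hspec₁
    obtain ⟨-, u₂, hu₂, e₂⟩ := hspec₂
    simp only at e₁ e₂
    rw [Finset.mem_sigma] at hp₁ hp₂
    simp only at hp₁ hp₂
    obtain ⟨x₁, hx₁⟩ := (hRf y₁ hp₁.1).1 g₁ hp₁.2
    obtain ⟨x₂, hx₂⟩ := (hRf y₂ hp₂.1).1 g₂ hp₂.2
    -- `u = u₁⁻¹ u₂` conjugates `β₁` to `β₂`
    have hu : U' (u₁⁻¹ * u₂) := hmul _ _ (hinv _ hu₁) hu₂
    have e12 : y₂⁻¹ * ι g₂ * σ y₂ = (u₁⁻¹ * u₂)⁻¹ * (y₁⁻¹ * ι g₁ * σ y₁) * σ (u₁⁻¹ * u₂) := by
      rw [e₂, e₁, map_mul, map_inv]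
      group
    -- the element `τ` of the twisted centraliser
    have hτ : ((ι x₁ * y₁ * (u₁⁻¹ * u₂)) * (ι x₂ * y₂)⁻¹)⁻¹ * ι h *
        σ ((ι x₁ * y₁ * (u₁⁻¹ * u₂)) * (ι x₂ * y₂)⁻¹) = ι h := by
      have e1 : (ι x₂ * y₂)⁻¹ * ι h * σ (ι x₂ * y₂)
          = (ι x₁ * y₁ * (u₁⁻¹ * u₂))⁻¹ * ι h * σ (ι x₁ * y₁ * (u₁⁻¹ * u₂)) := by
        rw [← hβ, ← hx₂, e12, hx₁, hβ]
        rw [map_mul (f := σ) (ι x₁ * y₁) (u₁⁻¹ * u₂)]
        group
      have e2 : ((ι x₁ * y₁ * (u₁⁻¹ * u₂)) * (ι x₂ * y₂)⁻¹)⁻¹ * ι h *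
          σ ((ι x₁ * y₁ * (u₁⁻¹ * u₂)) * (ι x₂ * y₂)⁻¹)
          = (ι x₂ * y₂) * ((ι x₁ * y₁ * (u₁⁻¹ * u₂))⁻¹ * ι h * σ (ι x₁ * y₁ * (u₁⁻¹ * u₂)))
            * (σ (ι x₂ * y₂))⁻¹ := by
        rw [map_mul (f := σ) (ι x₁ * y₁ * (u₁⁻¹ * u₂)) (ι x₂ * y₂)⁻¹, map_inv]
        group
      rw [e2, ← e1]
      group
    obtain ⟨t, htc, ht⟩ := hcent _ hτ
    -- `y₂ ∈ ι(G) y₁ U'`
    have hy2 : y₂ = ι (x₂⁻¹ * t⁻¹ * x₁) * y₁ * (u₁⁻¹ * u₂) := by
      have : ι x₁ * y₁ * (u₁⁻¹ * u₂) = ι t * (ι x₂ * y₂) := by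
        rw [← ht]; group
      rw [map_mul, map_mul, map_inv, map_inv]
      calc y₂ = (ι x₂)⁻¹ * (ι t)⁻¹ * (ι t * (ι x₂ * y₂)) := by group
        _ = (ι x₂)⁻¹ * (ι t)⁻¹ * (ι x₁ * y₁ * (u₁⁻¹ * u₂)) := by rw [this]
        _ = (ι x₂)⁻¹ * (ι t)⁻¹ * ι x₁ * y₁ * (u₁⁻¹ * u₂) := by group
    have hyy : y₁ = y₂ := hY y₁ hp₁.1 y₂ hp₂.1 ⟨_, _, hu, hy2⟩
    subst hyy
    -- `γ = x₁⁻¹ t x₂ ∈ Γ_y` conjugates `g₁` to `g₂`
    have hγ : y₁⁻¹ * ι (x₁⁻¹ * t * x₂) * y₁ = u₁⁻¹ * u₂ := by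
      have : ι x₁ * y₁ * (u₁⁻¹ * u₂) = ι t * (ι x₂ * y₁) := by
        rw [← ht]; group
      rw [map_mul, map_mul, map_inv]
      calc y₁⁻¹ * ((ι x₁)⁻¹ * ι t * ι x₂) * y₁
          = y₁⁻¹ * (ι x₁)⁻¹ * (ι t * (ι x₂ * y₁)) := by group
        _ = y₁⁻¹ * (ι x₁)⁻¹ * (ι x₁ * y₁ * (u₁⁻¹ * u₂)) := by rw [this]
        _ = u₁⁻¹ * u₂ := by group
    have hgg : g₁ = g₂ := by
      refine (hRf y₁ hp₁.1).2.1 g₁ hp₁.2 g₂ hp₂.2 ⟨x₁⁻¹ * t * x₂, ?_, ?_⟩
      · rw [hγ]; exact hu
      · rw [hx₂, hx₁]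
        have ht' : t⁻¹ * h * t = h := by rw [mul_assoc, ← htc]; group
        calc x₂⁻¹ * h * x₂ = x₂⁻¹ * (t⁻¹ * h * t) * x₂ := by rw [ht']
          _ = (x₁⁻¹ * t * x₂)⁻¹ * (x₁⁻¹ * h * x₁) * (x₁⁻¹ * t * x₂) := by group
    rw [hgg]
  · -- surjectivity
    intro r hr hne
    obtain ⟨x, hx⟩ := hR1 r hr
    have hφr : φ r ≠ 0 := hφne r hne
    obtain ⟨y, hy, g₀, u, hu, hxe⟩ := hcov x (by rw [← hx]; exact hφr)
    -- `r = u⁻¹ β(y, g₁) σ(u)` with `g₁ = g₀⁻¹ h g₀`
    have hr1 : r = u⁻¹ * (y⁻¹ * ι (g₀⁻¹ * h * g₀) * σ y) * σ u := by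
      rw [hx, hxe, hβ]
      rw [map_mul (f := σ) (ι g₀ * y) u]
      group
    have hφ1 : φ (y⁻¹ * ι (g₀⁻¹ * h * g₀) * σ y) ≠ 0 := by
      have := hφ u⁻¹ (σ u) (y⁻¹ * ι (g₀⁻¹ * h * g₀) * σ y) (hinv u hu) (hσU u hu)
      rw [← this, ← hr1]
      exact hφr
    obtain ⟨g, hg, γ, hγ, e⟩ := (hRf y hy).2.2.1 _ ⟨g₀, rfl⟩ hφ1
    -- `β(y, g₁) = w⁻¹ β(y, g) σ(w)` with `w = y⁻¹ ι(γ) y ∈ U'`
    have hr2 : r = ((y⁻¹ * ι γ * y) * u)⁻¹ * (y⁻¹ * ι g * σ y) * σ ((y⁻¹ * ι γ * y) * u) := by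
      rw [hr1, e]
      rw [map_mul (f := σ) (y⁻¹ * ι γ * y) u, map_mul (f := σ) (y⁻¹ * ι γ) y,
        map_mul (f := σ) y⁻¹ (ι γ), map_inv, hσι, map_mul, map_mul, map_inv]
      group
    have hwu : U' ((y⁻¹ * ι γ * y) * u) := hmul _ _ hγ hu
    have hmem : (⟨y, g⟩ : Σ _ : G', G) ∈ Y.sigma Rf := Finset.mem_sigma.mpr ⟨hy, hg⟩
    have hnep : φ (y⁻¹ * ι g * σ y) * (cIndex U' C' (y⁻¹ * ι g * σ y) : ℂ) ≠ 0 := by
      rw [← hterm _ _ hwu, ← hr2]
      exact hne
    refine ⟨⟨y, g⟩, hmem, hnep, ?_⟩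
    have hspec := Classical.choose_spec (hchoice ⟨y, g⟩ hmem hnep)
    generalize Classical.choose (hchoice ⟨y, g⟩ hmem hnep) = r' at hspec ⊢
    obtain ⟨hr', w, hw, e'⟩ := hspec
    simp only at e'
    refine hR2 r' hr' r hr ⟨w * ((y⁻¹ * ι γ * y) * u), hmul _ _ hw hwu, ?_⟩
    rw [hr2, e', map_mul (f := σ) w ((y⁻¹ * ι γ * y) * u)]
    group
  · -- the terms agree
    intro p hp hne
    have hspec := Classical.choose_spec (hchoice p hp hne)
    generalize Classical.choose (hchoice p hp hne) = r at hspec ⊢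
    obtain ⟨-, u, hu, e⟩ := hspec
    rw [e]
    exact hterm _ u hu

end Fermat.Agent.LT.T6.H82

end

end
-- ===== PACK-END LT/T6/H82/FibreAbs.lean

-- ===== PACK-BEGIN LT/T6/H313/LocalAut.lean
section




/-!
# Row LT, tower T6, sub-leaf T6.15c3 (helper313): the residue automorphism of an unramified
cyclic extension of prime degree

OFF-MAIN.  `k'/k` as in `T6.IsLocalExt k k' l 1 i s`, `l` prime.

* `sO313`, `sBar313`: the automorphisms of the valuation ring and of the residue field induced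
  by `s`;
* `sBar313_ne_one`: the residue automorphism is not the identity (counting: otherwise every
  `l`-th power of the residue field of `k'` would be the residue of an element of `k`);
* `exists_trace_one313`: an integral element of trace `1`.
-/

set_option autoImplicit false
set_option linter.style.haveILetI false
set_option linter.unusedSectionVars false
set_option linter.unusedVariables false

open Fermat.Agent.LT.T6

noncomputable section

namespace Fermat.Agent.LT.T6.H313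

section Aut

variable {K : Type} [Field K] [Valued K Γ₀]

/-- The automorphism of the valuation ring induced by a valuation preserving automorphism. -/
def sO313 (s : K ≃+* K) (hs : ∀ y : K, Valued.v (s y) = Valued.v y) :
    Valued.integer K ≃+* Valued.integer K where
  toFun y := ⟨s y.1, by rw [Valuation.mem_integer_iff, hs]; exact y.2⟩
  invFun y := ⟨s.symm y.1, by
    rw [Valuation.mem_integer_iff, ← hs, s.apply_symm_apply]; exact y.2⟩
  left_inv y := Subtype.ext (s.symm_apply_apply _)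
  right_inv y := Subtype.ext (s.apply_symm_apply _)
  map_mul' x y := Subtype.ext (map_mul s _ _)
  map_add' x y := Subtype.ext (map_add s _ _)

variable (s : K ≃+* K) (hs : ∀ y : K, Valued.v (s y) = Valued.v y)

@[simp] theorem coe_sO313 (y : Valued.integer K) : ((sO313 s hs y : Valued.integer K) : K) = s y :=
  rfl

theorem coe_sO313_pow (n : ℕ) (y : Valued.integer K) :
    ((((sO313 s hs) ^ n) y : Valued.integer K) : K) = (s ^ n) y := by
  induction n generalizing y with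
  | zero => simp
  | succ n ih => rw [pow_succ, pow_succ, RingAut.mul_apply, RingAut.mul_apply, ih]; rfl

/-- The automorphism of the residue field induced by `s`. -/
def sBar313 : Res313 K ≃+* Res313 K :=
  IsLocalRing.ResidueField.mapEquiv (sO313 s hs)

theorem sBar313_res (y : Valued.integer K) :
    sBar313 s hs (res313 K y) = res313 K (sO313 s hs y) :=
  IsLocalRing.ResidueField.map_residue _ y

theorem sBar313_pow_res (n : ℕ) (y : Valued.integer K) :
    ((sBar313 s hs) ^ n) (res313 K y) = res313 K (((sO313 s hs) ^ n) y) := by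
  induction n generalizing y with
  | zero => simp
  | succ n ih =>
    rw [pow_succ, pow_succ, RingAut.mul_apply, RingAut.mul_apply, sBar313_res, ih]

theorem sBar313_pow_eq_one (l : ℕ) (hsl : ∀ y : K, (s ^ l) y = y) (yb : Res313 K) :
    ((sBar313 s hs) ^ l) yb = yb := by
  obtain ⟨y, rfl⟩ := res313_surjective yb
  rw [sBar313_pow_res]
  congr 1
  exact Subtype.ext ((coe_sO313_pow s hs l y).trans (hsl _))

end Aut

/-! ## The residue automorphism is not the identity -/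

theorem nrm313_of_id {M : Type*} [CommMonoid M] (σ : M → M) (hσ : ∀ x, σ x = x) (n : ℕ) (β : M) :
    nrm313 σ n β = β ^ n := by
  induction n with
  | zero => simp
  | succ n ih => rw [nrm313_succ, hσ, ih, pow_succ']

theorem arith313 (q l : ℕ) (hq : 2 ≤ q) (hl : 2 ≤ l) : l * (q - 1) + 1 < q ^ l := by
  obtain ⟨m, rfl⟩ : ∃ m, q = m + 2 := ⟨q - 2, by omega⟩
  have h1 : m + 2 - 1 = m + 1 := by omega
  rw [h1]
  induction l, hl using Nat.le_induction with
  | base => nlinarith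
  | succ l hl ih =>
    have h2 : (m + 2) ^ (l + 1) = (m + 2) * (m + 2) ^ l := by ring
    rw [h2]
    have h3 : (m + 2) * (l * (m + 1) + 1 + 1) ≤ (m + 2) * (m + 2) ^ l :=
      Nat.mul_le_mul_left _ ih
    have h4 : (l + 1) * (m + 1) + 1 < (m + 2) * (l * (m + 1) + 1 + 1) := by
      have e1 : 0 ≤ l * m * m := Nat.zero_le _
      have e2 : 0 ≤ l * m := Nat.zero_le _
      nlinarith
    exact lt_of_lt_of_le h4 h3

section NeOne

variable {k K : Type} [Field k] [Field K] [Valued k Γ₀] [Valued K Γ₀]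

theorem sBar313_ne_one {q l : ℕ} {i : k →+* K} {s : K ≃+* K} (hk : IsLocalField k q)
    (hK : IsLocalField K (q ^ l)) (he : IsLocalExt k K l 1 i s) (hl : l.Prime) :
    ∃ yb : Res313 K, sBar313 s he.val_s yb ≠ yb := by
  classical
  by_contra hcon
  simp only [ne_eq, not_exists, not_not] at hcon
  haveI : Finite (Res313 K) := finite_residue313 hK
  haveI : Fintype (Res313 K) := Fintype.ofFinite _
  have hi : ∀ x : k, Valued.v (i x) = Valued.v x := fun x => by rw [he.val_i, pow_one]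
  obtain ⟨S, hScard, h0S, hS⟩ := exists_residue_image313 hk i hi
  -- every `l`-th power lies in `S`
  have hpow : ∀ yb : Res313 K, yb ^ l ∈ S := by
    intro yb
    obtain ⟨y, rfl⟩ := res313_surjective yb
    set P : Valued.integer K := nrm313 (⇑(sO313 s he.val_s)) l y with hP
    have h1 : res313 K P = (res313 K y) ^ l := by
      rw [hP, nrm313_map (⇑(res313 K)) (map_one _) (map_mul _) (⇑(sO313 s he.val_s))
        (⇑(sBar313 s he.val_s)) (fun x => (sBar313_res s he.val_s x).symm) l y,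
        nrm313_of_id _ hcon]
    have h2 : sO313 s he.val_s P = P := by
      refine nrm313_fixed _ (map_one _) (map_mul _) l y ?_
      rw [iterate_eq_pow313]
      exact Subtype.ext ((coe_sO313_pow s he.val_s l y).trans (he.cyc.order _))
    have h3 : s (P : K) = P := congrArg Subtype.val h2
    obtain ⟨x, hx⟩ := he.cyc.fixed _ h3
    have hx1 : Valued.v (i x) ≤ 1 := by rw [hx]; exact P.2
    have h4 : P = ⟨i x, hx1⟩ := Subtype.ext hx.symm
    rw [← h1, h4]
    exact hS x hx1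
  -- counting
  have hq2 : 2 ≤ q := two_le_card313 hk
  have hcard : q ^ l ≤ Fintype.card (Res313 K) := by
    have := card_residue_ge313 hK
    rwa [Nat.card_eq_fintype_card] at this
  set U : Finset (Res313 K) := Finset.univ.filter (fun y => y ≠ 0) with hU
  have hUcard : Fintype.card (Res313 K) ≤ U.card + 1 := by
    have h1 : (Finset.univ : Finset (Res313 K)) ⊆ insert 0 U := by
      intro y _
      by_cases hy : y = 0
      · simp [hy]
      · exact Finset.mem_insert_of_mem (Finset.mem_filter.2 ⟨Finset.mem_univ _, hy⟩)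
    calc Fintype.card (Res313 K) = (Finset.univ : Finset (Res313 K)).card := rfl
      _ ≤ (insert 0 U).card := Finset.card_le_card h1
      _ ≤ U.card + 1 := Finset.card_insert_le _ _
  have himg : U.image (fun y => y ^ l) ⊆ S.erase 0 := by
    intro c hc
    obtain ⟨y, hy, rfl⟩ := Finset.mem_image.1 hc
    have hy0 : y ≠ 0 := (Finset.mem_filter.1 hy).2
    exact Finset.mem_erase.2 ⟨pow_ne_zero _ hy0, hpow y⟩
  have hfib : ∀ c ∈ U.image (fun y => y ^ l), (U.filter (fun y => y ^ l = c)).card ≤ l := by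
    intro c _
    have h1 : U.filter (fun y => y ^ l = c) ⊆ (Polynomial.nthRoots l c).toFinset := by
      intro y hy
      rw [Multiset.mem_toFinset, Polynomial.mem_nthRoots hl.pos]
      exact (Finset.mem_filter.1 hy).2
    exact (Finset.card_le_card h1).trans
      ((Multiset.toFinset_card_le _).trans (Polynomial.card_nthRoots l c))
  have h5 := Finset.card_le_mul_card_image U l hfib
  have h6 : (U.image (fun y => y ^ l)).card ≤ q - 1 := by
    refine (Finset.card_le_card himg).trans ?_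
    rw [Finset.card_erase_of_mem h0S]
    omega
  have h7 : U.card ≤ l * (q - 1) := h5.trans (Nat.mul_le_mul_left _ h6)
  have h8 := arith313 q l hq2 hl.two_le
  omega

end NeOne

end Fermat.Agent.LT.T6.H313

end

end
-- ===== PACK-END LT/T6/H313/LocalAut.lean

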