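import Mathlib
import Fermat.Agent.Pack.LT3.E3L1
import Fermat.Agent.Pack.LT2.E0L1
import Fermat.Agent.Pack.LT2.E2L1
import Fermat.Agent.Pack.LT3.E3L2
import Fermat.Agent.Pack.LT3.E5L2
import Fermat.Agent.Pack.LT3.E6L1

set_option linter.all false

-- ===== PACK-BEGIN LT/T6/H830/LayerCount.lean
section


/-!
# Row LT, tower T6, sub-leaf T6.12h `LayerCountC` (helper830), OFF-MAIN

`layerCountC_of830 : IndexC → CartanUpperC → LayerCountC`
(frozen Props of `Fermat/Agent/LT/T6/H288/HypSpec.lean`, helper288, sha256 `46fc5f22…`).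

Proof.  By `CartanUpperC` the Cartan invariant of `y_b = [[d₁, u_b], [0, d₂]]`,
`u_b = d₁ s(b) - d₂ b`, is `(m₁ + m₂ - L_b, L_b)` with the layer `L_b = min(m₁, m₂, ord u_b)`.
For `j ≤ M = min(m₁, m₂)` the set `{b ∈ B : j ≤ L_b}` is the set counted by `IndexC`, so the fibre
`{b ∈ B : L_b = j}` has `q^(D - l j)` elements for `j = M` and `q^(D - l j) - q^(D - l (j+1))`
elements for `j < M`, i.e. `q^D · ctWeight (q^l) (m₁ + m₂ - j, j) m₁ m₂` elements in both cases.
Both sides of the identity are additive in `φ`; the case of a point mass is the count.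
-/

set_option autoImplicit false

open scoped Matrix

noncomputable section

namespace Fermat.Agent.LT.T6.H830

open Fermat.Agent.LT.T6 Fermat.Agent.LT.T6.H288

/-- The sum of a point mass over a set is the number of points of the fibre. -/
theorem finsum_mem_single830 {ι β : Type*} (B : Set ι) (g : ι → β) (lam : β) (c : ℂ)
    (hfin : {b | b ∈ B ∧ g b = lam}.Finite) :
    ∑ᶠ b ∈ B, (Finsupp.single lam c) (g b) = (Set.ncard {b | b ∈ B ∧ g b = lam} : ℂ) * c := by
  classical
  have h1 : ∑ᶠ b ∈ B, (Finsupp.single lam c) (g b)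
      = ∑ᶠ b ∈ {b | b ∈ B ∧ g b = lam}, (Finsupp.single lam c) (g b) := by
    apply finsum_mem_inter_support_eq
    ext b
    simp only [Set.mem_inter_iff, Function.mem_support, Set.mem_ofPred_eq]
    constructor
    · rintro ⟨hb, hne⟩
      have hgb : g b = lam := by
        by_contra h
        exact hne (by rw [Finsupp.single_apply, if_neg (fun h' => h h'.symm)])
      exact ⟨⟨hb, hgb⟩, hne⟩
    · rintro ⟨⟨hb, _⟩, hne⟩
      exact ⟨hb, hne⟩
  rw [h1, finsum_mem_eq_finite_toFinset_sum _ hfin]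
  have h2 : ∀ b ∈ hfin.toFinset, (Finsupp.single lam c) (g b) = c := by
    intro b hb
    have hb' := (Set.Finite.mem_toFinset hfin).1 hb
    rw [hb'.2, Finsupp.single_eq_same]
  rw [Finset.sum_congr rfl h2, Finset.sum_const, Set.ncard_eq_toFinset_card _ hfin,
    nsmul_eq_mul]

/-- The layer is at most `min m₁ m₂`. -/
theorem layerOf_le830 {k : Type} [Field k] [Valued k Γ₀] (m₁ m₂ : ℤ) (u : k) :
    layerOf m₁ m₂ u ≤ min m₁ m₂ := by
  unfold layerOf
  split_ifs
  · exact le_refl _
  · exact min_le_left _ _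

/-- `j ≤ L` iff `u = 0` or `j ≤ ord u`, for `j ≤ min m₁ m₂`. -/
theorem le_layerOf_iff830 {k : Type} [Field k] [Valued k Γ₀] (m₁ m₂ : ℤ) (u : k) (j : ℤ)
    (hj : j ≤ min m₁ m₂) :
    j ≤ layerOf m₁ m₂ u ↔ (u = 0 ∨ j ≤ ordv u) := by
  have hj1 : j ≤ m₁ := le_trans hj (min_le_left _ _)
  have hj2 : j ≤ m₂ := le_trans hj (min_le_right _ _)
  unfold layerOf
  split_ifs with h
  · simp [h, hj1, hj2]
  · simp [h, hj1, hj2]

theorem q_ne_zero830 {k : Type} [Field k] [Valued k Γ₀] {q : ℕ} (hk : IsLocalField k q) :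
    (q : ℂ) ≠ 0 := by
  obtain ⟨T, hcard, -, -, hT⟩ := hk.residue
  obtain ⟨x, hx, -⟩ := hT 0 (by simp)
  have : 0 < T.card := Finset.card_pos.2 ⟨x, hx⟩
  rw [hcard] at this
  exact_mod_cast this.ne'

/-- The algebra behind the count of a layer below the top one. -/
theorem ctw_alg830 (x : ℂ) (hx : x ≠ 0) (l : ℕ) (D j : ℤ) :
    x ^ (D - (l : ℤ) * j) - x ^ (D - (l : ℤ) * (j + 1))
      = x ^ D * ((x ^ l) ^ (-j) * (1 - (x ^ l)⁻¹)) := by
  have h1 : x ^ (D - (l : ℤ) * j) = x ^ D * (x ^ l) ^ (-j) := by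
    rw [← zpow_natCast x l, ← zpow_mul, ← zpow_add₀ hx]
    congr 1
    ring
  have h2 : x ^ (D - (l : ℤ) * (j + 1)) = x ^ D * ((x ^ l) ^ (-j) * (x ^ l)⁻¹) := by
    rw [← zpow_natCast x l, ← zpow_neg_one, ← zpow_mul, ← zpow_mul, ← zpow_add₀ hx,
      ← zpow_add₀ hx]
    congr 1
    ring
  rw [h1, h2]
  ring

/-- **T6.12h.**  Summation over the layers. -/
theorem layerCountC_of830 (hI : IndexC) (hC : CartanUpperC) : LayerCountC := by
  intro k k' _ _ _ _ q l i s hk hk' hext φ d₁ d₂ t₁ t₂ hd₁ hd₂ ht h1 h2 B Y hB hY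
  classical
  have hq : (q : ℂ) ≠ 0 := q_ne_zero830 hk
  -- the layer function
  set L : k' → ℤ := fun b => layerOf (ordv d₁) (ordv d₂) (d₁ * s b - d₂ * b) with hL
  have hcart : ∀ b, cartan (Y b) = (ordv d₁ + ordv d₂ - L b, L b) := fun b =>
    hC k' (Y b) d₁ d₂ _ (hY b)
  have hLle : ∀ b, L b ≤ min (ordv d₁) (ordv d₂) := fun b => layerOf_le830 _ _ _
  -- the sets of `IndexC`
  set S : ℤ → Set k' := fun j =>
    {b : k' | b ∈ B ∧ (d₁ * s b - d₂ * b = 0 ∨ j ≤ ordv (d₁ * s b - d₂ * b))} with hS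
  have hSI : ∀ j : ℤ, j ≤ min (ordv d₁) (ordv d₂) →
      (S j).Finite ∧ ((S j).ncard : ℂ) = (q : ℂ) ^ (ordv (t₁ - t₂) - (l : ℤ) * j) := fun j hj =>
    hI k k' q l i s hk hk' hext d₁ d₂ t₁ t₂ hd₁ hd₂ ht h1 h2 B hB j hj
  have hSmem : ∀ j : ℤ, j ≤ min (ordv d₁) (ordv d₂) → ∀ b, b ∈ S j ↔ (b ∈ B ∧ j ≤ L b) := by
    intro j hj b
    simp only [hS, hL, Set.mem_ofPred_eq]
    rw [le_layerOf_iff830 _ _ _ j hj]
  -- the fibres of the Cartan invariant
  have key : ∀ lam : ℤ × ℤ, {b | b ∈ B ∧ cartan (Y b) = lam}.Finite ∧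
      (({b | b ∈ B ∧ cartan (Y b) = lam}.ncard : ℕ) : ℂ)
        = (q : ℂ) ^ (ordv (t₁ - t₂)) * ctWeight (q ^ l) lam (ordv d₁) (ordv d₂) := by
    rintro ⟨a, j⟩
    have hfib : ∀ b, cartan (Y b) = (a, j) ↔ (L b = j ∧ a + j = ordv d₁ + ordv d₂) := by
      intro b
      rw [hcart b, Prod.mk.injEq]
      constructor
      · rintro ⟨h3, h4⟩
        exact ⟨h4, by omega⟩
      · rintro ⟨h3, h4⟩
        exact ⟨by omega, h3⟩
    by_cases hcond : a + j = ordv d₁ + ordv d₂ ∧ j ≤ min (ordv d₁) (ordv d₂)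
    · obtain ⟨hsum, hjM⟩ := hcond
      rcases eq_or_lt_of_le hjM with hjeq | hjlt
      · -- `j = M`
        have hE : {b | b ∈ B ∧ cartan (Y b) = (a, j)} = S j := by
          ext b
          rw [hSmem j hjM b]
          simp only [Set.mem_ofPred_eq, hfib b]
          constructor
          · rintro ⟨hb, h3, _⟩
            exact ⟨hb, h3.ge⟩
          · rintro ⟨hb, h3⟩
            exact ⟨hb, le_antisymm (by rw [hjeq]; exact hLle b) h3, hsum⟩
        rw [hE]
        refine ⟨(hSI j hjM).1, ?_⟩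
        rw [(hSI j hjM).2]
        unfold ctWeight
        rw [if_pos ⟨hsum, hjM⟩, if_pos hjeq, mul_one, Nat.cast_pow, ← zpow_natCast,
          ← zpow_mul, ← zpow_add₀ hq]
        congr 1
        ring
      · -- `j < M`
        have hj1 : j + 1 ≤ min (ordv d₁) (ordv d₂) := hjlt
        have hsub : S (j + 1) ⊆ S j := by
          intro b hb
          rw [hSmem (j + 1) hj1 b] at hb
          rw [hSmem j hjM b]
          exact ⟨hb.1, by omega⟩
        have hE : {b | b ∈ B ∧ cartan (Y b) = (a, j)} = S j \ S (j + 1) := by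
          ext b
          rw [Set.mem_sdiff, hSmem j hjM b, hSmem (j + 1) hj1 b]
          simp only [Set.mem_ofPred_eq, hfib b]
          constructor
          · rintro ⟨hb, h3, _⟩
            exact ⟨⟨hb, h3.ge⟩, fun h => by omega⟩
          · rintro ⟨⟨hb, h3⟩, h4⟩
            refine ⟨hb, ?_, hsum⟩
            by_contra hne
            exact h4 ⟨hb, by omega⟩
        rw [hE]
        refine ⟨(hSI j hjM).1.subset Set.sdiff_subset, ?_⟩
        rw [Set.ncard_sdiff hsub (hSI (j + 1) hj1).1,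
          Nat.cast_sub (Set.ncard_le_ncard hsub (hSI j hjM).1), (hSI j hjM).2,
          (hSI (j + 1) hj1).2]
        unfold ctWeight
        rw [if_pos ⟨hsum, hjM⟩, if_neg hjlt.ne, Nat.cast_pow]
        exact ctw_alg830 (q : ℂ) hq l (ordv (t₁ - t₂)) j
    · have hE : {b | b ∈ B ∧ cartan (Y b) = (a, j)} = ∅ := by
        ext b
        simp only [Set.mem_ofPred_eq, hfib b, Set.mem_empty_iff_false, iff_false]
        rintro ⟨_, h3, h4⟩
        exact hcond ⟨h4, h3 ▸ hLle b⟩
      rw [hE]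
      refine ⟨Set.finite_empty, ?_⟩
      unfold ctWeight
      rw [if_neg hcond, Set.ncard_empty]
      simp
  -- finiteness of the supports
  have hsupp : ∀ ψ : (ℤ × ℤ) →₀ ℂ,
      (B ∩ Function.support (fun b => ψ (cartan (Y b)))).Finite := by
    intro ψ
    have hU : (⋃ lam ∈ ψ.support, {b | b ∈ B ∧ cartan (Y b) = lam}).Finite :=
      Set.Finite.biUnion ψ.support.finite_toSet (fun lam _ => (key lam).1)
    refine hU.subset ?_
    rintro b ⟨hb, hne⟩
    simp only [Set.mem_iUnion, Set.mem_ofPred_eq]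
    exact ⟨cartan (Y b), Finsupp.mem_support_iff.2 hne, hb, rfl⟩
  -- the identity, by linearity
  have main : ∀ ψ : (ℤ × ℤ) →₀ ℂ, ∑ᶠ b ∈ B, ψ (cartan (Y b))
      = (q : ℂ) ^ (ordv (t₁ - t₂)) * constTerm (q ^ l) ψ (ordv d₁) (ordv d₂) := by
    intro ψ
    induction ψ using Finsupp.induction_linear with
    | zero => simp [constTerm]
    | add f g hf hg =>
      have hadd : constTerm (q ^ l) (f + g) (ordv d₁) (ordv d₂)
          = constTerm (q ^ l) f (ordv d₁) (ordv d₂) + constTerm (q ^ l) g (ordv d₁) (ordv d₂) := by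
        unfold constTerm
        exact Finsupp.sum_add_index' (fun _ => zero_mul _) (fun _ _ _ => add_mul _ _ _)
      simp only [Finsupp.add_apply]
      rw [finsum_mem_add_distrib' (hsupp f) (hsupp g), hf, hg, hadd, mul_add]
    | single lam c =>
      have hsing : constTerm (q ^ l) (Finsupp.single lam c) (ordv d₁) (ordv d₂)
          = c * ctWeight (q ^ l) lam (ordv d₁) (ordv d₂) := by
        unfold constTerm
        exact Finsupp.sum_single_index (zero_mul _)
      rw [finsum_mem_single830 B (fun b => cartan (Y b)) lam c (key lam).1, (key lam).2, hsing]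
      ring
  exact main φ

end Fermat.Agent.LT.T6.H830

end

end
-- ===== PACK-END LT/T6/H830/LayerCount.lean

-- ===== PACK-BEGIN LT/T6/H770/CoeffCompare.lean
section


/-!
# Row LT, tower T6, leaf T6.12b `CoeffCompareC` (helper770), OFF-MAIN

`coeffCompare_of_satClosed770 : H288.SatClosedC → H288.CoeffCompareC`.

Proof.  Laurent polynomials in two variables are coded by their coefficient functions
`(ℤ × ℤ) →₀ ℂ`; the evaluation at `(x, y) ∈ (ℂ^×)²` is `ev770 x y`.  The evaluations separate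
the Laurent polynomials (`laurent_unique770`: Dedekind's independence of the characters
`(u, v) ↦ u^a v^b` of `ℂˣ × ℂˣ`).  By `SatClosedC` the Satake transform of a dominant `F` is the
evaluation of `satExpF770 q F`, whose coefficient at `(a, b)` is
`(√q)^(a+b) · constTerm q F a b` (`satExpF_apply770`).  `IsBC` says that the Laurent polynomial of
`f` (for `q`) is the dilation by `l` of the one of `φ` (for `q ^ l`); compare the coefficients at
`(l m₁, l m₂)` and use `√(q^l) = (√q)^l`.

Mathlib + `T6/Spec.lean` (helper22, sha256 `89f8f8b8…`) + `T6/H288/HypSpec.lean`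
(helper288, sha256 `46fc5f22…`), byte-identical copies.
-/

set_option autoImplicit false

noncomputable section

namespace Fermat.Agent.LT.T6.H770

open Fermat.Agent.LT.T6 Fermat.Agent.LT.T6.H288

/-! ## 1. Laurent polynomials in two variables and their evaluations -/

/-- The character `(u, v) ↦ u ^ a · v ^ b` of `ℂˣ × ℂˣ`. -/
def monoChar770 (p : ℤ × ℤ) : (ℂˣ × ℂˣ) →* ℂ where
  toFun g := ((g.1 : ℂ) ^ p.1) * ((g.2 : ℂ) ^ p.2)
  map_one' := by simp
  map_mul' g h := by
    simp only [Prod.fst_mul, Prod.snd_mul, Units.val_mul, mul_zpow]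
    ring

theorem monoChar_apply770 (p : ℤ × ℤ) (g : ℂˣ × ℂˣ) :
    monoChar770 p g = ((g.1 : ℂ) ^ p.1) * ((g.2 : ℂ) ^ p.2) := rfl

theorem two_zpow_inj770 {a b : ℤ} (h : (2 : ℂ) ^ a = (2 : ℂ) ^ b) : a = b := by
  have h3 : (2 : ℝ) ^ a = (2 : ℝ) ^ b := by
    have := congrArg (fun z : ℂ => ‖z‖) h
    simp only [norm_zpow, Complex.norm_ofNat] at this
    exact this
  exact zpow_right_injective₀ (by norm_num : (0 : ℝ) < 2) (by norm_num) h3

theorem monoChar_injective770 : Function.Injective monoChar770 := by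
  intro p p' h
  have two_ne : (2 : ℂ) ≠ 0 := by norm_num
  have h1 := congrArg (fun f : (ℂˣ × ℂˣ) →* ℂ => f (Units.mk0 2 two_ne, 1)) h
  have h2 := congrArg (fun f : (ℂˣ × ℂˣ) →* ℂ => f (1, Units.mk0 2 two_ne)) h
  simp only [monoChar_apply770, Units.val_mk0, Units.val_one, one_zpow, mul_one, one_mul]
    at h1 h2
  exact Prod.ext (two_zpow_inj770 h1) (two_zpow_inj770 h2)

/-- Evaluation of the Laurent polynomial with coefficient function `F` at `(x, y)`. -/
def ev770 (x y : ℂ) : ((ℤ × ℤ) →₀ ℂ) →ₗ[ℂ] ℂ :=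
  Finsupp.linearCombination ℂ (fun p : ℤ × ℤ => x ^ p.1 * y ^ p.2)

theorem ev_apply770 (x y : ℂ) (F : (ℤ × ℤ) →₀ ℂ) :
    ev770 x y F = F.sum fun p c => c * (x ^ p.1 * y ^ p.2) := by
  simp [ev770, Finsupp.linearCombination_apply, smul_eq_mul]

theorem ev_single770 (x y : ℂ) (p : ℤ × ℤ) (c : ℂ) :
    ev770 x y (Finsupp.single p c) = c * (x ^ p.1 * y ^ p.2) := by
  simp [ev770, Finsupp.linearCombination_single, smul_eq_mul]

/-- **Evaluations on `(ℂ^×)²` separate the Laurent polynomials.** -/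
theorem laurent_unique770 (F : (ℤ × ℤ) →₀ ℂ)
    (h : ∀ x y : ℂ, x ≠ 0 → y ≠ 0 → ev770 x y F = 0) : F = 0 := by
  have li : LinearIndependent ℂ (fun f : (ℂˣ × ℂˣ) →* ℂ => (f : ℂˣ × ℂˣ → ℂ)) :=
    linearIndependent_monoidHom (ℂˣ × ℂˣ) ℂ
  have li2 : LinearIndependent ℂ
      ((fun f : (ℂˣ × ℂˣ) →* ℂ => (f : ℂˣ × ℂˣ → ℂ)) ∘ monoChar770) :=
    li.comp monoChar770 monoChar_injective770
  refine (linearIndependent_iff.mp li2) F ?_
  funext g
  have hg := h (g.1 : ℂ) (g.2 : ℂ) g.1.ne_zero g.2.ne_zero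
  rw [ev_apply770] at hg
  rw [Finsupp.linearCombination_apply, Finsupp.sum, Finset.sum_apply]
  simp only [Function.comp_apply, Pi.smul_apply, smul_eq_mul, Pi.zero_apply]
  rw [Finsupp.sum] at hg
  simpa [monoChar_apply770] using hg

theorem laurent_ext770 (F G : (ℤ × ℤ) →₀ ℂ)
    (h : ∀ x y : ℂ, x ≠ 0 → y ≠ 0 → ev770 x y F = ev770 x y G) : F = G := by
  have : F - G = 0 := laurent_unique770 (F - G) (fun x y hx hy => by
    rw [map_sub, h x y hx hy, sub_self])
  exact sub_eq_zero.mp this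

/-! ## 2. The Laurent polynomial of `satake q lam` -/

/-- The Laurent polynomial of `satake q lam` (closed form of `SatClosedC`), as a coefficient
function. -/
def satExp770 (q : ℕ) (lam : ℤ × ℤ) : (ℤ × ℤ) →₀ ℂ :=
  ∑ j ∈ Finset.range ((lam.1 - lam.2).toNat + 1),
    Finsupp.single (lam.2 + (j : ℤ), lam.1 - (j : ℤ))
      (((Real.sqrt q : ℝ) : ℂ) ^ (lam.1 + lam.2) *
        ctWeight q lam (lam.2 + (j : ℤ)) (lam.1 - (j : ℤ)))

theorem ev_satExp770 (hS : SatClosedC) {q : ℕ} (hq : 1 < q) {lam : ℤ × ℤ}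
    (hlam : lam.2 ≤ lam.1) {x y : ℂ} (hx : x ≠ 0) (hy : y ≠ 0) :
    ev770 x y (satExp770 q lam) = satake q lam x y := by
  rw [hS q hq lam hlam x y hx hy, satExp770, map_sum]
  refine Finset.sum_congr rfl (fun j _ => ?_)
  rw [ev_single770]
  ring

/-- The coefficients of the Laurent polynomial of `satake q lam`. -/
theorem satExp_apply770 (q : ℕ) {lam : ℤ × ℤ} (hlam : lam.2 ≤ lam.1) (a b : ℤ) :
    satExp770 q lam (a, b) = ((Real.sqrt q : ℝ) : ℂ) ^ (a + b) * ctWeight q lam a b := by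
  rw [satExp770, Finsupp.finsetSum_apply]
  simp only [Finsupp.single_apply]
  have hn : ((lam.1 - lam.2).toNat : ℤ) = lam.1 - lam.2 :=
    Int.toNat_of_nonneg (by omega)
  by_cases hc : lam.1 + lam.2 = a + b ∧ lam.2 ≤ min a b
  · obtain ⟨hsum, hmin⟩ := hc
    have ha : lam.2 ≤ a := le_trans hmin (min_le_left _ _)
    have hb : lam.2 ≤ b := le_trans hmin (min_le_right _ _)
    have hj0 : ((a - lam.2).toNat : ℤ) = a - lam.2 := Int.toNat_of_nonneg (by omega)
    rw [Finset.sum_eq_single (a - lam.2).toNat]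
    · have e1 : lam.2 + ((a - lam.2).toNat : ℤ) = a := by omega
      have e2 : lam.1 - ((a - lam.2).toNat : ℤ) = b := by omega
      rw [e1, e2, if_pos rfl, hsum]
    · intro j _ hj
      rw [if_neg]
      intro h
      have h1 : lam.2 + (j : ℤ) = a := congrArg Prod.fst h
      apply hj
      have : (j : ℤ) = ((a - lam.2).toNat : ℤ) := by omega
      exact_mod_cast this
    · intro hnot
      exfalso
      apply hnot
      rw [Finset.mem_range]
      have : ((a - lam.2).toNat : ℤ) < (((lam.1 - lam.2).toNat + 1 : ℕ) : ℤ) := by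
        push_cast
        omega
      exact_mod_cast this
  · have hw : ctWeight q lam a b = 0 := by
      unfold ctWeight
      rw [if_neg hc]
    rw [hw, mul_zero]
    refine Finset.sum_eq_zero (fun j hj => ?_)
    rw [if_neg]
    intro h
    apply hc
    have h1 : lam.2 + (j : ℤ) = a := congrArg Prod.fst h
    have h2 : lam.1 - (j : ℤ) = b := congrArg Prod.snd h
    have hj' : (j : ℤ) < (((lam.1 - lam.2).toNat + 1 : ℕ) : ℤ) := by
      exact_mod_cast Finset.mem_range.mp hj
    push_cast at hj'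
    refine ⟨by omega, le_min (by omega) (by omega)⟩

/-- The Laurent polynomial of the Satake transform of a spherical function. -/
def satExpF770 (q : ℕ) : ((ℤ × ℤ) →₀ ℂ) →ₗ[ℂ] ((ℤ × ℤ) →₀ ℂ) :=
  Finsupp.linearCombination ℂ (satExp770 q)

theorem ev_satExpF770 (hS : SatClosedC) {q : ℕ} (hq : 1 < q) {F : (ℤ × ℤ) →₀ ℂ}
    (hF : IsDominant F) {x y : ℂ} (hx : x ≠ 0) (hy : y ≠ 0) :
    ev770 x y (satExpF770 q F) = F.sum fun lam c => c * satake q lam x y := by
  rw [satExpF770, Finsupp.linearCombination_apply, map_finsuppSum]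
  refine Finsupp.sum_congr (fun lam hlam => ?_)
  rw [map_smul, smul_eq_mul, ev_satExp770 hS hq (hF lam hlam) hx hy]

/-- The coefficients of the Satake transform are the constant terms. -/
theorem satExpF_apply770 (q : ℕ) {F : (ℤ × ℤ) →₀ ℂ} (hF : IsDominant F) (a b : ℤ) :
    satExpF770 q F (a, b) = ((Real.sqrt q : ℝ) : ℂ) ^ (a + b) * constTerm q F a b := by
  rw [satExpF770, Finsupp.linearCombination_apply, Finsupp.sum_apply, constTerm,
    Finsupp.mul_sum]
  refine Finsupp.sum_congr (fun lam hlam => ?_)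
  rw [Finsupp.smul_apply, smul_eq_mul, satExp_apply770 q (hF lam hlam)]
  ring

/-! ## 3. Dilation of the exponents -/

/-- The dilation `(a, b) ↦ (l a, l b)` of the exponents. -/
def dil770 (l : ℕ) (p : ℤ × ℤ) : ℤ × ℤ := ((l : ℤ) * p.1, (l : ℤ) * p.2)

theorem dil_injective770 {l : ℕ} (hl : 0 < l) : Function.Injective (dil770 l) := by
  intro p p' h
  have hl' : (l : ℤ) ≠ 0 := by exact_mod_cast hl.ne'
  have h1 : (l : ℤ) * p.1 = (l : ℤ) * p'.1 := congrArg Prod.fst h
  have h2 : (l : ℤ) * p.2 = (l : ℤ) * p'.2 := congrArg Prod.snd h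
  exact Prod.ext (mul_left_cancel₀ hl' h1) (mul_left_cancel₀ hl' h2)

theorem ev_mapDomain770 (l : ℕ) (x y : ℂ) (G : (ℤ × ℤ) →₀ ℂ) :
    ev770 x y (Finsupp.mapDomain (dil770 l) G) = ev770 (x ^ l) (y ^ l) G := by
  rw [ev_apply770, ev_apply770, Finsupp.sum_mapDomain_index]
  · refine Finsupp.sum_congr (fun p _ => ?_)
    simp only [dil770, zpow_mul, zpow_natCast]
  · intro p
    simp
  · intro p c c'
    ring

/-! ## 4. The leaf -/

theorem sqrt_pow770 (q l : ℕ) :
    ((Real.sqrt ((q ^ l : ℕ) : ℝ) : ℝ) : ℂ) = ((Real.sqrt (q : ℝ) : ℝ) : ℂ) ^ l := by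
  have h : Real.sqrt ((q ^ l : ℕ) : ℝ) = Real.sqrt (q : ℝ) ^ l := by
    rw [Nat.cast_pow]
    refine (Real.sqrt_eq_iff_mul_self_eq (by positivity) (by positivity)).mpr ?_
    rw [← mul_pow, Real.mul_self_sqrt (Nat.cast_nonneg q)]
  rw [h, Complex.ofReal_pow]

/-- **T6.12b** `CoeffCompareC` from `SatClosedC` (T6.12a). -/
theorem coeffCompare_of_satClosed770 (hS : SatClosedC) : CoeffCompareC := by
  intro l q hl hq φ f hφ hf hbc m₁ m₂
  have hQ : 1 < q ^ l := Nat.one_lt_pow hl.ne' hq
  have key : satExpF770 q f = Finsupp.mapDomain (dil770 l) (satExpF770 (q ^ l) φ) := by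
    apply laurent_ext770
    intro x y hx hy
    rw [ev_satExpF770 hS hq hf hx hy, ev_mapDomain770,
      ev_satExpF770 hS hQ hφ (pow_ne_zero l hx) (pow_ne_zero l hy)]
    exact hbc x y hx hy
  have h1 : satExpF770 q f (dil770 l (m₁, m₂))
      = Finsupp.mapDomain (dil770 l) (satExpF770 (q ^ l) φ) (dil770 l (m₁, m₂)) := by
    rw [key]
  rw [Finsupp.mapDomain_apply (dil_injective770 hl)] at h1
  have h2 : dil770 l (m₁, m₂) = ((l : ℤ) * m₁, (l : ℤ) * m₂) := rfl
  rw [h2, satExpF_apply770 q hf, satExpF_apply770 (q ^ l) hφ, sqrt_pow770] at h1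
  have hs : ((Real.sqrt (q : ℝ) : ℝ) : ℂ) ≠ 0 := by
    have hpos : (0 : ℝ) < Real.sqrt (q : ℝ) :=
      Real.sqrt_pos.mpr (by exact_mod_cast (lt_trans Nat.zero_lt_one hq))
    exact_mod_cast hpos.ne'
  have h3 : (((Real.sqrt (q : ℝ) : ℝ) : ℂ) ^ l) ^ (m₁ + m₂)
      = ((Real.sqrt (q : ℝ) : ℝ) : ℂ) ^ ((l : ℤ) * m₁ + (l : ℤ) * m₂) := by
    rw [← zpow_natCast, ← zpow_mul, mul_add]
  rw [h3] at h1
  exact mul_left_cancel₀ (zpow_ne_zero _ hs) h1

end Fermat.Agent.LT.T6.H770

end

end
-- ===== PACK-END LT/T6/H770/CoeffCompare.lean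

-- ===== PACK-BEGIN LT/T6/H159/Support.lean
section




/-!
# Row LT, tower T6, sub-leaf T6.15a `SupportC` (helper159)

The base change `f = b(φ)` of a spherical function is supported on the Cartan types `(a, b)`
with `l ∣ a + b`.  Proof: homogeneity of the Satake polynomials, extraction of the homogeneous
components of a Laurent polynomial identity, and linear independence of the Satake polynomials
of a fixed degree (order of vanishing at `x = 0`).
-/

set_option autoImplicit false

noncomputable section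

namespace Fermat.Agent.LT.T6.H159

open Fermat.Agent.LT.T6 Polynomial

/-! ## Homogeneity -/

theorem satPoly_zero' (q : ℕ) (x y : ℂ) : satPoly q x y 0 = 1 := by
  rw [satPoly]

theorem satPoly_one' (q : ℕ) (x y : ℂ) :
    satPoly q x y 1 = ((Real.sqrt q : ℝ) : ℂ) * (x + y) := by
  rw [satPoly]

theorem satPoly_two' (q : ℕ) (x y : ℂ) :
    satPoly q x y 2 = (((Real.sqrt q : ℝ) : ℂ) * (x + y)) ^ 2 - ((q : ℂ) + 1) * (x * y) := by
  rw [satPoly]

theorem satPoly_add_three (q : ℕ) (x y : ℂ) (n : ℕ) :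
    satPoly q x y (n + 3) = ((Real.sqrt q : ℝ) : ℂ) * (x + y) * satPoly q x y (n + 2)
      - (q : ℂ) * (x * y) * satPoly q x y (n + 1) := by
  rw [satPoly]

/-- A three-step induction principle adapted to the recursion of `satPoly`. -/
theorem satPoly_induction (P : ℕ → Prop) (h0 : P 0) (h1 : P 1) (h2 : P 2)
    (h3 : ∀ n, P (n + 1) → P (n + 2) → P (n + 3)) : ∀ n, P n := by
  have key : ∀ n, P n ∧ P (n + 1) ∧ P (n + 2) := by
    intro n
    induction n with
    | zero => exact ⟨h0, h1, h2⟩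
    | succ n ih => exact ⟨ih.2.1, ih.2.2, h3 n ih.2.1 ih.2.2⟩
  exact fun n => (key n).1

/-- `satPoly` is homogeneous of degree `n`. -/
theorem satPoly_homog (q : ℕ) (z x y : ℂ) (n : ℕ) :
    satPoly q (z * x) (z * y) n = z ^ n * satPoly q x y n := by
  induction n using satPoly_induction with
  | h0 => simp [satPoly_zero']
  | h1 => rw [satPoly_one', satPoly_one']; ring
  | h2 => rw [satPoly_two', satPoly_two']; ring
  | h3 n ih1 ih2 =>
    rw [satPoly_add_three, satPoly_add_three, ih1, ih2]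
    ring

/-- `satPoly q 0 1 n = (√q)ⁿ`. -/
theorem satPoly_at_zero (q : ℕ) (n : ℕ) :
    satPoly q 0 1 n = ((Real.sqrt q : ℝ) : ℂ) ^ n := by
  induction n using satPoly_induction with
  | h0 => simp [satPoly_zero']
  | h1 => rw [satPoly_one']; ring
  | h2 => rw [satPoly_two']; ring
  | h3 n ih1 ih2 =>
    rw [satPoly_add_three, ih2]
    ring

/-- `x ↦ satPoly q x 1 n` is continuous. -/
theorem continuous_satPoly (q : ℕ) (n : ℕ) : Continuous fun x : ℂ => satPoly q x 1 n := by
  induction n using satPoly_induction with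
  | h0 => simp only [satPoly_zero']; exact continuous_const
  | h1 => simp only [satPoly_one']; fun_prop
  | h2 => simp only [satPoly_two']; fun_prop
  | h3 n ih1 ih2 =>
    simp only [satPoly_add_three]
    fun_prop

/-- Homogeneity of the Satake transform of a dominant Cartan type. -/
theorem satake_homog (q : ℕ) (lam : ℤ × ℤ) (hlam : lam.2 ≤ lam.1) (z x y : ℂ) (hz : z ≠ 0) :
    satake q lam (z * x) (z * y) = z ^ (lam.1 + lam.2) * satake q lam x y := by
  unfold satake
  rw [satPoly_homog]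
  have h1 : (z * x * (z * y)) ^ lam.2 = z ^ (2 * lam.2) * (x * y) ^ lam.2 := by
    have : z * x * (z * y) = z ^ (2 : ℤ) * (x * y) := by
      rw [zpow_two]; ring
    rw [this, mul_zpow, ← zpow_mul]
  have h2 : (z ^ (lam.1 - lam.2).toNat : ℂ) = z ^ (lam.1 - lam.2) := by
    rw [← zpow_natCast, Int.toNat_of_nonneg (by omega)]
  rw [h1, h2]
  have h3 : z ^ (lam.1 + lam.2) = z ^ (2 * lam.2) * z ^ (lam.1 - lam.2) := by
    rw [← zpow_add₀ hz]
    congr 1
    ring
  rw [h3]
  ring

/-! ## Homogeneous components of a Laurent polynomial identity -/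

/-- If two finite Laurent sums agree at all `z ≠ 0`, their homogeneous components agree. -/
theorem laurent_component {ι κ : Type} (S : Finset ι) (S' : Finset κ) (a : ι → ℂ) (b : κ → ℂ)
    (e : ι → ℤ) (e' : κ → ℤ)
    (h : ∀ z : ℂ, z ≠ 0 → ∑ i ∈ S, a i * z ^ (e i) = ∑ j ∈ S', b j * z ^ (e' j)) (d : ℤ) :
    ∑ i ∈ S.filter (fun i => e i = d), a i = ∑ j ∈ S'.filter (fun j => e' j = d), b j := by
  classical
  -- a common shift making all exponents non-negative
  obtain ⟨M, hM, hM', hMd⟩ : ∃ M : ℤ, (∀ i ∈ S, 0 ≤ e i + M) ∧ (∀ j ∈ S', 0 ≤ e' j + M) ∧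
      0 ≤ d + M := by
    refine ⟨∑ i ∈ S, |e i| + ∑ j ∈ S', |e' j| + |d|, fun i hi => ?_, fun j hj => ?_, ?_⟩
    · have h1 : |e i| ≤ ∑ i ∈ S, |e i| :=
        Finset.single_le_sum (f := fun i => |e i|) (fun _ _ => abs_nonneg _) hi
      have h2 : 0 ≤ ∑ j ∈ S', |e' j| := Finset.sum_nonneg fun _ _ => abs_nonneg _
      have h3 := neg_abs_le (e i)
      have h4 := abs_nonneg d
      linarith
    · have h1 : |e' j| ≤ ∑ j ∈ S', |e' j| :=
        Finset.single_le_sum (f := fun j => |e' j|) (fun _ _ => abs_nonneg _) hj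
      have h2 : 0 ≤ ∑ i ∈ S, |e i| := Finset.sum_nonneg fun _ _ => abs_nonneg _
      have h3 := neg_abs_le (e' j)
      have h4 := abs_nonneg d
      linarith
    · have h2 : 0 ≤ ∑ i ∈ S, |e i| := Finset.sum_nonneg fun _ _ => abs_nonneg _
      have h2' : 0 ≤ ∑ j ∈ S', |e' j| := Finset.sum_nonneg fun _ _ => abs_nonneg _
      have h3 := neg_abs_le d
      linarith
  let P : ℂ[X] := ∑ i ∈ S, C (a i) * X ^ (e i + M).toNat
  let P' : ℂ[X] := ∑ j ∈ S', C (b j) * X ^ (e' j + M).toNat
  have hev : ∀ z : ℂ, z ≠ 0 → P.eval z = P'.eval z := by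
    intro z hz
    have h1 : P.eval z = z ^ M * ∑ i ∈ S, a i * z ^ (e i) := by
      simp only [P, eval_finsetSum, eval_mul, eval_C, eval_pow, eval_X, Finset.mul_sum]
      refine Finset.sum_congr rfl fun i hi => ?_
      rw [← zpow_natCast, Int.toNat_of_nonneg (hM i hi), zpow_add₀ hz]
      ring
    have h2 : P'.eval z = z ^ M * ∑ j ∈ S', b j * z ^ (e' j) := by
      simp only [P', eval_finsetSum, eval_mul, eval_C, eval_pow, eval_X, Finset.mul_sum]
      refine Finset.sum_congr rfl fun j hj => ?_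
      rw [← zpow_natCast, Int.toNat_of_nonneg (hM' j hj), zpow_add₀ hz]
      ring
    rw [h1, h2, h z hz]
  have hPP : P = P' := by
    have hinf : Set.Infinite {z : ℂ | (P - P').IsRoot z} := by
      have hsub : {z : ℂ | z ≠ 0} ⊆ {z : ℂ | (P - P').IsRoot z} := by
        intro z hz
        simp only [Set.mem_ofPred_eq, IsRoot, eval_sub, sub_eq_zero]
        exact hev z hz
      refine Set.Infinite.mono hsub ?_
      have : {z : ℂ | z ≠ 0} = ({0} : Set ℂ)ᶜ := by
        ext z; simp
      rw [this]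
      exact (Set.finite_singleton (0 : ℂ)).infinite_compl
    exact sub_eq_zero.mp (eq_zero_of_infinite_isRoot _ hinf)
  have hc := congrArg (fun R : ℂ[X] => R.coeff (d + M).toNat) hPP
  simp only [P, P', finsetSum_coeff, coeff_C_mul, coeff_X_pow] at hc
  rw [Finset.sum_filter, Finset.sum_filter]
  convert hc using 1
  · refine Finset.sum_congr rfl fun i hi => ?_
    have hiff : ((d + M).toNat = (e i + M).toNat) ↔ e i = d := by
      constructor
      · intro h1
        have h2 : ((d + M).toNat : ℤ) = ((e i + M).toNat : ℤ) := by rw [h1]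
        rw [Int.toNat_of_nonneg hMd, Int.toNat_of_nonneg (hM i hi)] at h2
        omega
      · intro h1
        rw [h1]
    by_cases h1 : e i = d
    · rw [if_pos h1, if_pos (hiff.mpr h1), mul_one]
    · rw [if_neg h1, if_neg (fun h2 => h1 (hiff.mp h2)), mul_zero]
  · refine Finset.sum_congr rfl fun j hj => ?_
    have hiff : ((d + M).toNat = (e' j + M).toNat) ↔ e' j = d := by
      constructor
      · intro h1
        have h2 : ((d + M).toNat : ℤ) = ((e' j + M).toNat : ℤ) := by rw [h1]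
        rw [Int.toNat_of_nonneg hMd, Int.toNat_of_nonneg (hM' j hj)] at h2
        omega
      · intro h1
        rw [h1]
    by_cases h1 : e' j = d
    · rw [if_pos h1, if_pos (hiff.mpr h1), mul_one]
    · rw [if_neg h1, if_neg (fun h2 => h1 (hiff.mp h2)), mul_zero]

/-! ## The homogeneous components of the base change identity -/

/-- The component of degree `d`, `l ∤ d`, of `f^∨` vanishes. -/
theorem bc_component (l q : ℕ) (φ f : (ℤ × ℤ) →₀ ℂ) (hφ : IsDominant φ)
    (hf : IsDominant f) (hbc : IsBC l q φ f) (d : ℤ) (hd : ¬ (l : ℤ) ∣ d) (x y : ℂ)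
    (hx : x ≠ 0) (hy : y ≠ 0) :
    ∑ lam ∈ f.support.filter (fun lam => lam.1 + lam.2 = d), f lam * satake q lam x y = 0 := by
  have h := laurent_component f.support φ.support (fun lam => f lam * satake q lam x y)
    (fun mu => φ mu * satake (q ^ l) mu (x ^ l) (y ^ l)) (fun lam => lam.1 + lam.2)
    (fun mu => (l : ℤ) * (mu.1 + mu.2)) ?_ d
  · rw [h]
    apply Finset.sum_eq_zero
    intro mu hmu
    rw [Finset.mem_filter] at hmu
    exact absurd ⟨_, hmu.2.symm⟩ hd
  · intro z hz
    have hz' := hbc (z * x) (z * y) (mul_ne_zero hz hx) (mul_ne_zero hz hy)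
    simp only [Finsupp.sum] at hz'
    have hL : ∑ lam ∈ f.support, f lam * satake q lam (z * x) (z * y)
        = ∑ lam ∈ f.support, f lam * satake q lam x y * z ^ (lam.1 + lam.2) := by
      refine Finset.sum_congr rfl fun lam hlam => ?_
      rw [satake_homog q lam (hf lam hlam) z x y hz]
      ring
    have hR : ∑ mu ∈ φ.support, φ mu * satake (q ^ l) mu ((z * x) ^ l) ((z * y) ^ l)
        = ∑ mu ∈ φ.support, φ mu * satake (q ^ l) mu (x ^ l) (y ^ l)
            * z ^ ((l : ℤ) * (mu.1 + mu.2)) := by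
      refine Finset.sum_congr rfl fun mu hmu => ?_
      rw [mul_pow, mul_pow, satake_homog (q ^ l) mu (hφ mu hmu) (z ^ l) (x ^ l) (y ^ l)
        (pow_ne_zero _ hz), zpow_mul, zpow_natCast]
      ring
    rw [← hL, ← hR]
    exact hz'

/-! ## The support -/

/-- **T6.15a `SupportC`.** -/
theorem supportC : SupportC := by
  intro l q _ hq φ f hφ hf hbc lam hlam
  by_contra hnd
  classical
  let S : Finset (ℤ × ℤ) := f.support.filter (fun mu => mu.1 + mu.2 = lam.1 + lam.2)
  have hSne : S.Nonempty := ⟨lam, Finset.mem_filter.mpr ⟨hlam, rfl⟩⟩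
  obtain ⟨lam0, hlam0, hmin⟩ := S.exists_min_image (fun mu => mu.2) hSne
  let g : ℂ → ℂ := fun x =>
    ∑ mu ∈ S, f mu * (x ^ (mu.2 - lam0.2).toNat * satPoly q x 1 (mu.1 - mu.2).toNat)
  have hg : Continuous g := by
    apply continuous_finsetSum
    intro mu _
    exact continuous_const.mul ((continuous_pow _).mul (continuous_satPoly q _))
  have hzero : ∀ x : ℂ, x ≠ 0 → g x = 0 := by
    intro x hx
    have h := bc_component l q φ f hφ hf hbc (lam.1 + lam.2) hnd x 1 hx one_ne_zero
    have hgx : g x = x ^ (-lam0.2) * ∑ mu ∈ S, f mu * satake q mu x 1 := by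
      rw [Finset.mul_sum]
      refine Finset.sum_congr rfl fun mu hmu => ?_
      unfold satake
      have h1 : (x ^ (mu.2 - lam0.2).toNat : ℂ) = x ^ (mu.2 - lam0.2) := by
        rw [← zpow_natCast, Int.toNat_of_nonneg (sub_nonneg.mpr (hmin mu hmu))]
      rw [h1, mul_one, sub_eq_add_neg, zpow_add₀ hx]
      ring
    rw [hgx, h, mul_zero]
  have hg0 : g 0 = 0 := by
    have hfun : g = fun _ => (0 : ℂ) :=
      Continuous.ext_on (dense_compl_singleton (0 : ℂ)) hg continuous_const
        (fun x hx => hzero x hx)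
    exact congrFun hfun 0
  have hval : g 0 = f lam0 * ((Real.sqrt q : ℝ) : ℂ) ^ (lam0.1 - lam0.2).toNat := by
    show ∑ mu ∈ S, f mu * ((0 : ℂ) ^ (mu.2 - lam0.2).toNat
      * satPoly q 0 1 (mu.1 - mu.2).toNat) = _
    rw [Finset.sum_eq_single lam0]
    · rw [sub_self, Int.toNat_zero, pow_zero, one_mul, satPoly_at_zero]
    · intro mu hmu hne
      have h3 := (Finset.mem_filter.mp hmu).2
      have h4 := (Finset.mem_filter.mp hlam0).2
      have h2 : mu.2 ≠ lam0.2 := by
        intro h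
        apply hne
        apply Prod.ext
        · omega
        · exact h
      have h5 : (mu.2 - lam0.2).toNat ≠ 0 := by
        have := hmin mu hmu
        omega
      rw [zero_pow h5, zero_mul, mul_zero]
    · intro h
      exact absurd hlam0 h
  have hsq : ((Real.sqrt q : ℝ) : ℂ) ≠ 0 := by
    have h1 : (0 : ℝ) < Real.sqrt q := Real.sqrt_pos.mpr (by exact_mod_cast (by omega : 0 < q))
    exact_mod_cast h1.ne'
  rw [hval] at hg0
  have hf0 : f lam0 = 0 := by
    rcases mul_eq_zero.mp hg0 with h | h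
    · exact h
    · exact absurd (pow_eq_zero_iff'.mp h).1 hsq
  exact (Finsupp.mem_support_iff.mp (Finset.mem_filter.mp hlam0).1) hf0

end Fermat.Agent.LT.T6.H159

end

end
-- ===== PACK-END LT/T6/H159/Support.lean

-- ===== PACK-BEGIN LT/T6/H60/BCGeo.lean
section



/-!
# Row LT, tower T6, sub-leaf T6.13.1 `BCGeoC` (helper60), OFF-MAIN

Pure algebra: if `f = b(φ)` (`IsBC l q φ f`) then the weighted vertex counts on the tree of `k`
and on the tree of `k'` agree.

* `satPoly_closed60` : `satPoly q x y n = (√q)^n (h_n - (x y / q) h_(n-2))`, `h_m` the complete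
  homogeneous sum of degree `m` (Macdonald's formula for `GL₂`).
* `ev60_eq_zero` : the characters `(x, y) ↦ x^a y^b` of `(ℂˣ)²` are linearly independent, so a
  Laurent polynomial vanishing on `(ℂˣ)²` has zero coefficients.
* `phi_even60`, `phi_odd60` : the functionals `V c_0 + 2 ∑_{e ≥ 1} q^(-e) c_e` and
  `2 ∑_{a > b} q^(-(a - b)) c_(a, b)` on the Satake basis.
* `bcGeo60 : BCGeoC`, `flEllUnr_of_orb60 : OrbEllUnrC → TwOrbEllUnrC → FLEllUnrC`.
-/

set_option autoImplicit false

noncomputable section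

namespace Fermat.Agent.LT.T6.H60

open Fermat.Agent.LT.T6

/-- `√q` as a complex number. -/
def sq60 (q : ℕ) : ℂ := ((Real.sqrt q : ℝ) : ℂ)

theorem sq60_sq (q : ℕ) : sq60 q ^ 2 = (q : ℂ) := by
  unfold sq60
  have h : (Real.sqrt q) ^ 2 = (q : ℝ) := Real.sq_sqrt (Nat.cast_nonneg q)
  exact_mod_cast h

theorem sq60_sq_nat (q : ℕ) : sq60 (q ^ 2) = (q : ℂ) := by
  unfold sq60
  have h : Real.sqrt ((q ^ 2 : ℕ) : ℝ) = (q : ℝ) := by
    rw [Nat.cast_pow]
    exact Real.sqrt_sq (Nat.cast_nonneg q)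
  rw [h]
  norm_cast

/-- The complete homogeneous sum `∑_{i < m} x^i y^(m - 1 - i)`. -/
def hSum60 (x y : ℂ) (m : ℕ) : ℂ := ∑ i ∈ Finset.range m, x ^ i * y ^ (m - 1 - i)

theorem hSum60_zero (x y : ℂ) : hSum60 x y 0 = 0 := by simp [hSum60]

theorem hSum60_one (x y : ℂ) : hSum60 x y 1 = 1 := by simp [hSum60]

theorem hSum60_succ (x y : ℂ) (m : ℕ) : hSum60 x y (m + 1) = x ^ m + y * hSum60 x y m := by
  unfold hSum60
  rw [Finset.sum_range_succ, Finset.mul_sum, add_comm]
  congr 1
  · simp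
  · refine Finset.sum_congr rfl fun i hi => ?_
    have hi' : i < m := Finset.mem_range.1 hi
    have e : m + 1 - 1 - i = (m - 1 - i) + 1 := by omega
    rw [e, pow_succ]
    ring

theorem hSum60_succ' (x y : ℂ) (m : ℕ) : hSum60 x y (m + 1) = y ^ m + x * hSum60 x y m := by
  unfold hSum60
  rw [Finset.sum_range_succ', Finset.mul_sum, add_comm]
  congr 1
  · simp
  · refine Finset.sum_congr rfl fun i hi => ?_
    have hi' : i < m := Finset.mem_range.1 hi
    have e : m + 1 - 1 - (i + 1) = m - 1 - i := by omega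
    rw [e, pow_succ]
    ring

theorem hSum60_rec (x y : ℂ) (m : ℕ) :
    hSum60 x y (m + 2) = (x + y) * hSum60 x y (m + 1) - x * y * hSum60 x y m := by
  have ha := hSum60_succ' x y (m + 1)
  have hc := hSum60_succ' x y m
  linear_combination ha - y * hc

theorem sq60_ne_zero (q : ℕ) (hq : 0 < q) : sq60 q ≠ 0 := by
  intro h
  have h2 := sq60_sq q
  rw [h] at h2
  have : (q : ℂ) = 0 := by rw [← h2]; ring
  exact hq.ne' (by exact_mod_cast this)

theorem satPoly_closed60 (q : ℕ) (hq : 0 < q) (x y : ℂ) (n : ℕ) :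
    satPoly q x y n
      = sq60 q ^ n * (hSum60 x y (n + 1) - (q : ℂ)⁻¹ * (x * y) * hSum60 x y (n - 1)) := by
  have hs0 := sq60_ne_zero q hq
  have hs := sq60_sq q
  induction n using Nat.strong_induction_on with
  | _ n ih =>
    match n, ih with
    | 0, _ => simp [satPoly, hSum60_one, hSum60_zero]
    | 1, _ =>
      have e : satPoly q x y 1 = sq60 q * (x + y) := by simp [satPoly, sq60]
      rw [e, show (1 : ℕ) - 1 = 0 from rfl, hSum60_zero, hSum60_succ, hSum60_one]
      ring
    | 2, _ =>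
      have e : satPoly q x y 2 = (sq60 q * (x + y)) ^ 2 - ((q : ℂ) + 1) * (x * y) := by
        simp [satPoly, sq60]
      rw [e, show (2 : ℕ) - 1 = 1 from rfl, hSum60_one, hSum60_rec, hSum60_succ, hSum60_one,
        ← hs]
      field_simp
      ring
    | (m + 3), ih =>
      have h2 := ih (m + 2) (by omega)
      have h1 := ih (m + 1) (by omega)
      have e : satPoly q x y (m + 3) = sq60 q * (x + y) * satPoly q x y (m + 2)
          - (q : ℂ) * (x * y) * satPoly q x y (m + 1) := by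
        simp [satPoly, sq60]
      rw [e, h2, h1]
      rw [show m + 3 + 1 = (m + 2) + 2 from rfl, hSum60_rec x y (m + 2),
        show m + 3 - 1 = m + 2 from rfl, show m + 2 - 1 = m + 1 from rfl,
        show m + 1 - 1 = m from rfl, show m + 2 + 1 = m + 3 from rfl,
        show m + 1 + 1 = m + 2 from rfl]
      have r2 := hSum60_rec x y m
      rw [r2, ← hs]
      field_simp
      ring

/-! ### Laurent polynomials in two variables as coefficient vectors -/

/-- Evaluation of the Laurent polynomial with coefficient vector `P` at `(x, y)`. -/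
def ev60 (x y : ℂ) : ((ℤ × ℤ) →₀ ℂ) →ₗ[ℂ] ℂ :=
  Finsupp.linearCombination ℂ (fun ab : ℤ × ℤ => x ^ ab.1 * y ^ ab.2)

/-- The coefficient vector of `(x y)^b h_m (x, y)`. -/
def seg60 (b : ℤ) (m : ℕ) : (ℤ × ℤ) →₀ ℂ :=
  ∑ i ∈ Finset.range m, Finsupp.single (b + (i : ℤ), b + ((m - 1 - i : ℕ) : ℤ)) (1 : ℂ)

theorem ev60_seg60 (x y : ℂ) (hx : x ≠ 0) (hy : y ≠ 0) (b : ℤ) (m : ℕ) :
    ev60 x y (seg60 b m) = (x * y) ^ b * hSum60 x y m := by
  unfold ev60 seg60 hSum60
  rw [map_sum, Finset.mul_sum]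
  refine Finset.sum_congr rfl fun i _ => ?_
  rw [Finsupp.linearCombination_single, one_smul]
  simp only
  rw [zpow_add₀ hx, zpow_add₀ hy, zpow_natCast, zpow_natCast, mul_zpow]
  ring

/-- The coefficient vector of the Satake transform of `1_{K diag(ϖ^a, ϖ^b) K}`. -/
def satCoef60 (q : ℕ) (lam : ℤ × ℤ) : (ℤ × ℤ) →₀ ℂ :=
  sq60 q ^ (lam.1 - lam.2).toNat •
    (seg60 lam.2 ((lam.1 - lam.2).toNat + 1)
      - (q : ℂ)⁻¹ • seg60 (lam.2 + 1) ((lam.1 - lam.2).toNat - 1))

theorem ev60_satCoef60 (q : ℕ) (hq : 0 < q) (x y : ℂ) (hx : x ≠ 0) (hy : y ≠ 0)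
    (lam : ℤ × ℤ) : ev60 x y (satCoef60 q lam) = satake q lam x y := by
  unfold satCoef60 satake
  rw [map_smul, map_sub, map_smul, ev60_seg60 x y hx hy, ev60_seg60 x y hx hy,
    satPoly_closed60 q hq, zpow_add₀ (mul_ne_zero hx hy), zpow_one]
  simp only [smul_eq_mul]
  ring

/-- The substitution `(x, y) ↦ (x^l, y^l)` on coefficient vectors. -/
def dil60 (l : ℕ) : ((ℤ × ℤ) →₀ ℂ) →ₗ[ℂ] ((ℤ × ℤ) →₀ ℂ) :=
  Finsupp.lmapDomain ℂ ℂ (fun ab : ℤ × ℤ => ((l : ℤ) * ab.1, (l : ℤ) * ab.2))

theorem ev60_dil60 (x y : ℂ) (l : ℕ) (P : (ℤ × ℤ) →₀ ℂ) :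
    ev60 x y (dil60 l P) = ev60 (x ^ l) (y ^ l) P := by
  unfold ev60 dil60
  rw [Finsupp.lmapDomain_apply, Finsupp.linearCombination_mapDomain]
  congr 2
  funext ab
  simp only [Function.comp_apply]
  rw [zpow_mul, zpow_mul, zpow_natCast, zpow_natCast]

theorem lc_dil60 (w : ℤ × ℤ → ℂ) (l : ℕ) (P : (ℤ × ℤ) →₀ ℂ) :
    Finsupp.linearCombination ℂ w (dil60 l P)
      = Finsupp.linearCombination ℂ
          (fun ab : ℤ × ℤ => w ((l : ℤ) * ab.1, (l : ℤ) * ab.2)) P := by
  unfold dil60
  rw [Finsupp.lmapDomain_apply, Finsupp.linearCombination_mapDomain]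
  rfl

/-- Independence of the characters `(x, y) ↦ x^a y^b` of `(ℂˣ)²`. -/
theorem ev60_eq_zero (P : (ℤ × ℤ) →₀ ℂ)
    (h : ∀ x y : ℂ, x ≠ 0 → y ≠ 0 → ev60 x y P = 0) : P = 0 := by
  let χ : ℤ × ℤ → (ℂˣ × ℂˣ →* ℂ) := fun ab =>
    { toFun := fun xy => ((xy.1 : ℂ) ^ ab.1 * (xy.2 : ℂ) ^ ab.2)
      map_one' := by simp
      map_mul' := by
        intro u v
        simp only [Prod.fst_mul, Prod.snd_mul, Units.val_mul, mul_zpow]
        ring }
  have hχ : Function.Injective χ := by
    intro ab ab' hab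
    have two : (2 : ℂ) ≠ 0 := two_ne_zero
    have key : ∀ a a' : ℤ, (2 : ℂ) ^ a = (2 : ℂ) ^ a' → a = a' := by
      intro a a' haa
      have h1 : ‖(2 : ℂ) ^ a‖ = ‖(2 : ℂ) ^ a'‖ := by rw [haa]
      rw [norm_zpow, norm_zpow] at h1
      have h2 : ‖(2 : ℂ)‖ = 2 := by simp
      rw [h2] at h1
      exact zpow_right_injective₀ (by norm_num) (by norm_num) h1
    have e1 := DFunLike.congr_fun hab (Units.mk0 2 two, 1)
    have e2 := DFunLike.congr_fun hab (1, Units.mk0 2 two)
    simp only [χ, MonoidHom.coe_mk, OneHom.coe_mk, Units.val_mk0, Units.val_one, one_zpow,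
      mul_one, one_mul] at e1 e2
    exact Prod.ext (key _ _ e1) (key _ _ e2)
  have hli := (linearIndependent_monoidHom (ℂˣ × ℂˣ) ℂ).comp χ hχ
  rw [linearIndependent_iff] at hli
  apply hli
  funext xy
  have hh := h xy.1 xy.2 (Units.ne_zero _) (Units.ne_zero _)
  rw [ev60, Finsupp.linearCombination_apply] at hh
  rw [Finsupp.linearCombination_apply, Finsupp.sum, Finset.sum_apply]
  simp only [Pi.zero_apply, Pi.smul_apply, Function.comp_apply]
  rw [Finsupp.sum] at hh
  exact hh

/-! ### The weight functionals -/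

/-- The functional `V c_0 + 2 ∑_{e ≥ 1} qi^e c_e` on the part of degree `2 j`. -/
def wt60 (V qi : ℂ) (j : ℤ) (ab : ℤ × ℤ) : ℂ :=
  if ab.1 + ab.2 = 2 * j then
    if ab.1 = ab.2 then V
    else if ab.2 < ab.1 then 2 * qi ^ (ab.1 - j).toNat
    else 0
  else 0

/-- The functional `2 ∑_{a > b} qi^(a - b) c_(a, b)` on the part of degree `j`. -/
def wtOdd60 (qi : ℂ) (j : ℤ) (ab : ℤ × ℤ) : ℂ :=
  if ab.1 + ab.2 = j ∧ ab.2 < ab.1 then 2 * qi ^ (ab.1 - ab.2).toNat else 0

theorem lc_seg60 (w : ℤ × ℤ → ℂ) (b : ℤ) (m : ℕ) :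
    Finsupp.linearCombination ℂ w (seg60 b m)
      = ∑ i ∈ Finset.range m, w (b + (i : ℤ), b + ((m - 1 - i : ℕ) : ℤ)) := by
  unfold seg60
  rw [map_sum]
  refine Finset.sum_congr rfl fun i _ => ?_
  rw [Finsupp.linearCombination_single, one_smul]

theorem lc_satCoef60 (w : ℤ × ℤ → ℂ) (q : ℕ) (lam : ℤ × ℤ) :
    Finsupp.linearCombination ℂ w (satCoef60 q lam)
      = sq60 q ^ (lam.1 - lam.2).toNat *
        (Finsupp.linearCombination ℂ w (seg60 lam.2 ((lam.1 - lam.2).toNat + 1))
          - (q : ℂ)⁻¹ *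
            Finsupp.linearCombination ℂ w (seg60 (lam.2 + 1) ((lam.1 - lam.2).toNat - 1))) := by
  unfold satCoef60
  rw [map_smul, map_sub, map_smul]
  simp only [smul_eq_mul]

/-- A weight vanishing on the antidiagonal `u + v = 2 b + m - 1` kills the segment. -/
theorem lc_seg60_eq_zero (w : ℤ × ℤ → ℂ) (b : ℤ) (m : ℕ)
    (hw : ∀ ab : ℤ × ℤ, ab.1 + ab.2 = 2 * b + m - 1 → w ab = 0) :
    Finsupp.linearCombination ℂ w (seg60 b m) = 0 := by
  rw [lc_seg60]
  refine Finset.sum_eq_zero fun i hi => hw _ ?_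
  have hi' : i < m := Finset.mem_range.1 hi
  simp only
  omega

theorem lc_satCoef60_eq_zero (w : ℤ × ℤ → ℂ) (q : ℕ) (lam : ℤ × ℤ) (hlam : lam.2 ≤ lam.1)
    (hw : ∀ ab : ℤ × ℤ, ab.1 + ab.2 = lam.1 + lam.2 → w ab = 0) :
    Finsupp.linearCombination ℂ w (satCoef60 q lam) = 0 := by
  rw [lc_satCoef60, lc_seg60_eq_zero, lc_seg60]
  · rw [Finset.sum_eq_zero]
    · ring
    · intro i hi
      have hi' : i < (lam.1 - lam.2).toNat - 1 := Finset.mem_range.1 hi
      refine hw _ ?_
      simp only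
      omega
  · intro ab hab
    refine hw ab ?_
    omega

theorem seg_even60 (V qi : ℂ) (j : ℤ) (d : ℕ) :
    Finsupp.linearCombination ℂ (wt60 V qi j) (seg60 (j - d) (2 * d + 1))
      = V + ∑ e ∈ Finset.range d, 2 * qi ^ (e + 1) := by
  rw [lc_seg60, show 2 * d + 1 = d + (d + 1) by ring, Finset.sum_range_add,
    Finset.sum_range_succ']
  rw [Finset.sum_eq_zero, zero_add, add_comm]
  · congr 1
    · unfold wt60
      simp only
      rw [if_pos (by omega), if_pos (by omega)]
    · refine Finset.sum_congr rfl fun i hi => ?_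
      have hi' : i < d := Finset.mem_range.1 hi
      unfold wt60
      simp only
      rw [if_pos (by omega), if_neg (by omega), if_pos (by omega)]
      congr 2
      omega
  · intro i hi
    have hi' : i < d := Finset.mem_range.1 hi
    unfold wt60
    simp only
    rw [if_pos (by omega), if_neg (by omega), if_neg (by omega)]

theorem seg_odd60 (qi : ℂ) (c : ℤ) (e : ℕ) :
    Finsupp.linearCombination ℂ (wtOdd60 qi (2 * c + 1)) (seg60 (c - e) (2 * e + 2))
      = ∑ t ∈ Finset.range (e + 1), 2 * qi ^ (2 * t + 1) := by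
  rw [lc_seg60, show 2 * e + 2 = (e + 1) + (e + 1) by ring, Finset.sum_range_add]
  rw [Finset.sum_eq_zero, zero_add]
  · refine Finset.sum_congr rfl fun i hi => ?_
    have hi' : i < e + 1 := Finset.mem_range.1 hi
    unfold wtOdd60
    simp only
    rw [if_pos ⟨by omega, by omega⟩]
    congr 2
    omega
  · intro i hi
    have hi' : i < e + 1 := Finset.mem_range.1 hi
    unfold wtOdd60
    simp only
    rw [if_neg]
    intro h
    omega

theorem lc_seg60_zero (w : ℤ × ℤ → ℂ) (b : ℤ) :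
    Finsupp.linearCombination ℂ w (seg60 b 0) = 0 := by
  rw [lc_seg60]; simp

/-- The functional `wt60` on the Satake basis: the generic weight `wFix`. -/
theorem phi_even60 (q : ℕ) (hq : 0 < q) (V : ℂ) (j : ℤ) (lam : ℤ × ℤ) (hlam : lam.2 ≤ lam.1) :
    Finsupp.linearCombination ℂ (wt60 V (q : ℂ)⁻¹ j) (satCoef60 q lam)
      = wFix (q : ℂ) V j lam := by
  have hq0 : (q : ℂ) ≠ 0 := by exact_mod_cast hq.ne'
  by_cases hs : lam.1 + lam.2 = 2 * j
  · obtain ⟨a, b⟩ := lam
    simp only at hlam hs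
    obtain ⟨d, hd⟩ : ∃ d : ℕ, a = j + d := ⟨(a - j).toNat, by omega⟩
    have hb : b = j - d := by omega
    subst hd hb
    rw [lc_satCoef60]
    simp only
    have hn : (j + (d : ℤ) - (j - d)).toNat = 2 * d := by omega
    rw [hn]
    unfold wFix
    simp only
    rw [if_pos (by ring)]
    rcases d with _ | d'
    · rw [show 2 * 0 - 1 = 0 from rfl, lc_seg60_zero]
      have := seg_even60 V (q : ℂ)⁻¹ j 0
      simp only [Nat.cast_zero, sub_zero, mul_zero, zero_add, Finset.range_zero,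
        Finset.sum_empty, add_zero] at this ⊢
      rw [this]
      simp
    · rw [show 2 * (d' + 1) - 1 = 2 * d' + 1 by omega,
        show j - ((d' + 1 : ℕ) : ℤ) + 1 = j - (d' : ℤ) by push_cast; ring,
        seg_even60 V (q : ℂ)⁻¹ j (d' + 1), seg_even60 V (q : ℂ)⁻¹ j d',
        Finset.sum_range_succ']
      rw [if_neg (by omega), if_pos (by omega)]
      have he : (j + ((d' + 1 : ℕ) : ℤ) - j).toNat - 1 = d' := by omega
      rw [he]
      have hsum : (q : ℂ)⁻¹ * ∑ e ∈ Finset.range d', 2 * (q : ℂ)⁻¹ ^ (e + 1)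
          = ∑ e ∈ Finset.range d', 2 * (q : ℂ)⁻¹ ^ (e + 1 + 1) := by
        rw [Finset.mul_sum]
        refine Finset.sum_congr rfl fun e _ => ?_
        ring
      have hp : sq60 q ^ (2 * (d' + 1)) = (q : ℂ) ^ (d' + 1) := by
        rw [pow_mul, sq60_sq]
      rw [hp, mul_sub, mul_add ((q : ℂ)⁻¹), hsum]
      have hqi : (q : ℂ) * (q : ℂ)⁻¹ = 1 := mul_inv_cancel₀ hq0
      linear_combination ((q : ℂ) ^ d' * (2 - V)) * hqi
  · rw [lc_satCoef60_eq_zero _ _ _ hlam]
    · unfold wFix
      rw [if_neg hs]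
    · intro ab hab
      unfold wt60
      rw [if_neg (by omega)]

/-- The functional `wtOdd60` on the Satake basis for `q²`: the weight `wTwOdd`. -/
theorem phi_odd60 (q : ℕ) (hq : 0 < q) (j : ℤ) (hj : ¬ (2 : ℤ) ∣ j) (lam : ℤ × ℤ)
    (hlam : lam.2 ≤ lam.1) :
    Finsupp.linearCombination ℂ (wtOdd60 (q : ℂ)⁻¹ j) (satCoef60 (q ^ 2) lam)
      = wTwOdd q j lam := by
  have hq0 : (q : ℂ) ≠ 0 := by exact_mod_cast hq.ne'
  by_cases hs : lam.1 + lam.2 = j
  · obtain ⟨a, b⟩ := lam
    simp only at hlam hs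
    obtain ⟨c, hc⟩ : ∃ c : ℤ, j = 2 * c + 1 := ⟨j / 2, by omega⟩
    obtain ⟨e, he⟩ : ∃ e : ℕ, a = c + e + 1 := ⟨(a - c - 1).toNat, by omega⟩
    have hb : b = c - e := by omega
    subst hc he hb
    rw [lc_satCoef60]
    simp only
    have hn : (c + (e : ℤ) + 1 - (c - e)).toNat = 2 * e + 1 := by omega
    rw [hn, show 2 * e + 1 + 1 = 2 * e + 2 from rfl, seg_odd60, sq60_sq_nat]
    have h2 : Finsupp.linearCombination ℂ (wtOdd60 (q : ℂ)⁻¹ (2 * c + 1))
        (seg60 (c - (e : ℤ) + 1) (2 * e + 1 - 1))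
        = ∑ t ∈ Finset.range e, 2 * (q : ℂ)⁻¹ ^ (2 * t + 1) := by
      rcases e with _ | e'
      · rw [show 2 * 0 + 1 - 1 = 0 from rfl, lc_seg60_zero]
        simp
      · rw [show 2 * (e' + 1) + 1 - 1 = 2 * e' + 2 by omega,
          show c - ((e' + 1 : ℕ) : ℤ) + 1 = c - (e' : ℤ) by push_cast; ring, seg_odd60]
    rw [h2, Finset.sum_range_succ']
    unfold wTwOdd
    simp only
    rw [if_pos ⟨by ring, by omega⟩]
    have hexp : ((c + (e : ℤ) + 1 - (c - e) - 1) / 2).toNat = e := by omega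
    rw [hexp]
    have hsum : (((q ^ 2 : ℕ) : ℂ))⁻¹ * ∑ t ∈ Finset.range e, 2 * (q : ℂ)⁻¹ ^ (2 * t + 1)
        = ∑ t ∈ Finset.range e, 2 * (q : ℂ)⁻¹ ^ (2 * (t + 1) + 1) := by
      rw [Finset.mul_sum]
      refine Finset.sum_congr rfl fun t _ => ?_
      push_cast
      rw [← inv_pow]
      ring
    rw [hsum]
    have hqi : (q : ℂ) * (q : ℂ)⁻¹ = 1 := mul_inv_cancel₀ hq0
    linear_combination (2 * (q : ℂ) ^ (2 * e)) * hqi
  · rw [lc_satCoef60_eq_zero _ _ _ hlam]
    · unfold wTwOdd
      rw [if_neg (fun h => hs h.1)]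
    · intro ab hab
      unfold wtOdd60
      rw [if_neg (fun h => hs (by omega))]

theorem wt60_dil_even (V qi : ℂ) (l : ℕ) (hl : 0 < l) (j' : ℤ) (ab : ℤ × ℤ) :
    wt60 V qi ((l : ℤ) * j') ((l : ℤ) * ab.1, (l : ℤ) * ab.2) = wt60 V (qi ^ l) j' ab := by
  have hl' : (0 : ℤ) < l := by exact_mod_cast hl
  unfold wt60
  simp only
  have h1 : ((l : ℤ) * ab.1 + (l : ℤ) * ab.2 = 2 * ((l : ℤ) * j')) ↔ ab.1 + ab.2 = 2 * j' := by
    constructor
    · intro h
      have : (l : ℤ) * (ab.1 + ab.2) = (l : ℤ) * (2 * j') := by linear_combination h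
      exact mul_left_cancel₀ hl'.ne' this
    · intro h
      linear_combination (l : ℤ) * h
  have h2 : ((l : ℤ) * ab.1 = (l : ℤ) * ab.2) ↔ ab.1 = ab.2 :=
    ⟨fun h => mul_left_cancel₀ hl'.ne' h, fun h => by rw [h]⟩
  have h3 : ((l : ℤ) * ab.2 < (l : ℤ) * ab.1) ↔ ab.2 < ab.1 :=
    ⟨fun h => lt_of_mul_lt_mul_left h hl'.le, fun h => mul_lt_mul_of_pos_left h hl'⟩
  simp only [h1, h2, h3]
  split_ifs with hs he hlt
  · rfl
  · have hm : (0 : ℤ) ≤ ab.1 - j' := by omega
    obtain ⟨m, hm'⟩ := Int.eq_ofNat_of_zero_le hm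
    have e1 : ((l : ℤ) * ab.1 - (l : ℤ) * j').toNat = l * m := by
      rw [← mul_sub, hm']
      exact_mod_cast Int.toNat_natCast (l * m)
    rw [e1, hm', Int.toNat_natCast, pow_mul]
  · rfl
  · rfl

theorem wt60_dil_odd (V qi : ℂ) (j : ℤ) (hj : ¬ (2 : ℤ) ∣ j) (ab : ℤ × ℤ) :
    wt60 V qi j ((2 : ℤ) * ab.1, (2 : ℤ) * ab.2) = wtOdd60 qi j ab := by
  unfold wt60 wtOdd60
  simp only
  by_cases hs : ab.1 + ab.2 = j
  · by_cases hlt : ab.2 < ab.1
    · rw [if_pos (by omega), if_neg (by omega), if_pos (by omega), if_pos ⟨hs, hlt⟩]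
      congr 2
      omega
    · rw [if_pos (by omega), if_neg (by omega), if_neg (by omega), if_neg (fun h => hlt h.2)]
  · rw [if_neg (by omega), if_neg (fun h => hs h.1)]

theorem lin_lc60 (L : ((ℤ × ℤ) →₀ ℂ) →ₗ[ℂ] ℂ) (q : ℕ) (f : (ℤ × ℤ) →₀ ℂ) :
    L (Finsupp.linearCombination ℂ (satCoef60 q) f)
      = f.sum fun lam c => c * L (satCoef60 q lam) := by
  rw [Finsupp.linearCombination_apply, map_finsuppSum]
  simp only [map_smul, smul_eq_mul]

/-- **T6.13.1 (BCGeo).** -/
theorem bcGeo60 : BCGeoC := by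
  intro q l r j hq hl hdvd φ f hφ hf hbc
  have hq0 : 0 < q := by omega
  have hl0 : 0 < l := hl.pos
  have hQ0 : 0 < q ^ l := pow_pos hq0 l
  have hcoef : Finsupp.linearCombination ℂ (satCoef60 q) f
      = dil60 l (Finsupp.linearCombination ℂ (satCoef60 (q ^ l)) φ) := by
    rw [← sub_eq_zero]
    apply ev60_eq_zero
    intro x y hx hy
    rw [map_sub, ev60_dil60, sub_eq_zero, lin_lc60, lin_lc60]
    have := hbc x y hx hy
    simp only [ev60_satCoef60 q hq0 x y hx hy,
      ev60_satCoef60 (q ^ l) hQ0 _ _ (pow_ne_zero l hx) (pow_ne_zero l hy)]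
    exact this
  have hΦ := congrArg (Finsupp.linearCombination ℂ (wt60 (ballCard q r : ℂ) (q : ℂ)⁻¹ j)) hcoef
  rw [lin_lc60, lc_dil60] at hΦ
  have hL : (f.sum fun lam c => c *
      Finsupp.linearCombination ℂ (wt60 (ballCard q r : ℂ) (q : ℂ)⁻¹ j) (satCoef60 q lam))
      = f.sum fun lam c => c * wGeo q r j lam := by
    refine Finsupp.sum_congr fun lam hlam => ?_
    rw [phi_even60 q hq0 _ j lam (hf lam hlam)]
    rfl
  rw [hL] at hΦ
  rw [hΦ]
  by_cases hd : (l : ℤ) ∣ j
  · obtain ⟨j', rfl⟩ := hd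
    have hw : (fun ab : ℤ × ℤ => wt60 (ballCard q r : ℂ) (q : ℂ)⁻¹ ((l : ℤ) * j')
        ((l : ℤ) * ab.1, (l : ℤ) * ab.2)) = wt60 (ballCard q r : ℂ) (((q ^ l : ℕ) : ℂ))⁻¹ j' := by
      funext ab
      rw [wt60_dil_even _ _ l hl0]
      congr 1
      push_cast
      rw [inv_pow]
    rw [hw, lin_lc60]
    refine Finsupp.sum_congr fun lam hlam => ?_
    rw [phi_even60 (q ^ l) hQ0 _ j' lam (hφ lam hlam)]
    unfold wTw
    rw [if_pos (dvd_mul_right _ _)]
    unfold wTwEven
    rw [Int.mul_ediv_cancel_left _ (by exact_mod_cast hl0.ne')]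
    push_cast
    rfl
  · have hl2 : l = 2 := hdvd.resolve_left hd
    subst hl2
    have hj : ¬ (2 : ℤ) ∣ j := by exact_mod_cast hd
    have hw : (fun ab : ℤ × ℤ => wt60 (ballCard q r : ℂ) (q : ℂ)⁻¹ j
        (((2 : ℕ) : ℤ) * ab.1, ((2 : ℕ) : ℤ) * ab.2)) = wtOdd60 (q : ℂ)⁻¹ j := by
      funext ab
      exact wt60_dil_odd _ _ j hj ab
    rw [hw, lin_lc60]
    refine Finsupp.sum_congr fun lam hlam => ?_
    rw [phi_odd60 q hq0 j hj lam (hφ lam hlam)]
    unfold wTw
    rw [if_neg hd]

/-- **T6.13 from the two orbit-sum leaves.** -/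
theorem flEllUnr_of_orb60 (hG : OrbEllUnrC) (hT : TwOrbEllUnrC) : FLEllUnrC :=
  flEllUnr_of_leaves bcGeo60 hG hT

end Fermat.Agent.LT.T6.H60

end
end
-- ===== PACK-END LT/T6/H60/BCGeo.lean

-- ===== PACK-BEGIN LT/H338/TreeInv.lean
section


/-!
# Row LT, tower T6 — displacement counts, inverted-edge case (helper338, OFF-MAIN, Mathlib only)

`g` distance-preserving with `g a = b`, `g b = a` for adjacent `a`, `b` (an inversion):
* `disp_inv338` : `d x (g x) = 2 * min (d a x) (d b x) + 1`;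
* `ncard_disp_odd338` : in a `(q + 1)`-regular tree distance there are exactly `2 q ^ r` points of
  displacement `2 r + 1`.
-/

namespace Fermat.Agent.LT.H338

open Finset Classical

section Side

variable {V : Type*} {d : V → V → ℕ} (hd : IsTreeDist338 d)
  (g : V → V) (hg : ∀ x y, d (g x) (g y) = d x y) (a b : V) (hab : d a b = 1)
  (hga : g a = b) (hgb : g b = a)

include hd hab in
theorem side338 (x : V) : d b x = d a x + 1 ∨ d a x = d b x + 1 := by
  rcases hd.step x a b hab with h | h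
  · right; rw [hd.symm a x, hd.symm b x]; exact h
  · left; rw [hd.symm a x, hd.symm b x]; exact h

include hd hab in
/-- On the side of `a`, the parent with respect to `a` is on the side of `a`. -/
theorem side_par338 {x : V} (hx : d b x = d a x + 1) (hax : a ≠ x) :
    d b (par338 hd a x) = d a (par338 hd a x) + 1 := by
  have hp := par338_depth hd a hax
  have hxb : x ≠ b := by
    intro e
    rw [e, (hd.eq_zero b b).2 rfl] at hx
    omega
  have h1 := star338 hd a (d x b) x b rfl hxb (by rw [hab]; omega)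
  omega

include hd hg hab hga hgb in
theorem disp_side338 : ∀ (n : ℕ) (x : V), d a x = n → d b x = n + 1 → d x (g x) = 2 * n + 1 := by
  intro n
  induction n with
  | zero =>
    intro x h0 _
    have : a = x := (hd.eq_zero a x).1 h0
    subst this
    rw [hga, hab]
  | succ n ih =>
    intro x hax hbx
    have hne : a ≠ x := root_ne_of_depth338 hd a hax
    have hp := par338_depth hd a hne
    have hpadj := par338_adj hd a hne
    have hpside := side_par338 hd a b hab (x := x) (by omega) hne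
    have hrec := ih (par338 hd a x) (by omega) (by omega)
    -- depths of `g x`
    have hbg : d b (g x) = d a x := by rw [← hga]; exact hg a x
    have hag : d a (g x) = d b x := by rw [← hgb]; exact hg b x
    have hbne : b ≠ x := by
      intro e
      have := (hd.eq_zero b x).2 e
      omega
    -- parent of `x` with respect to `b`
    have hpb : par338 hd a x = par338 hd b x :=
      par338_unique hd b hbne hpadj (by omega)
    have hxg : x ≠ g x := by
      intro e
      rw [← e] at hbg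
      omega
    have h1 := star338 hd b (d x (g x)) x (g x) rfl hxg (by omega)
    rw [← hpb] at h1
    -- parent of `g x` with respect to `a`
    have hane : a ≠ g x := by
      intro e
      have := (hd.eq_zero a (g x)).2 e
      omega
    have hgp : g (par338 hd a x) = par338 hd a (g x) := by
      refine par338_unique hd a hane ?_ ?_
      · rw [hg]; exact hpadj
      · have : d a (g (par338 hd a x)) = d b (par338 hd a x) := by
          rw [← hgb]; exact hg b _
        omega
    have hgne : g x ≠ par338 hd a x := by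
      intro e
      rw [← e] at hp
      omega
    have h2 := star338 hd a (d (g x) (par338 hd a x)) (g x) (par338 hd a x) rfl hgne (by omega)
    rw [← hgp, hd.symm (par338 hd a x) (g x)] at h2
    rw [hd.symm (g x) x] at h1
    omega

include hd hg hab hga hgb in
/-- **Displacement of an inversion.** -/
theorem disp_inv338 (x : V) : d x (g x) = 2 * min (d a x) (d b x) + 1 := by
  have hba : d b a = 1 := by rw [hd.symm]; exact hab
  rcases side338 hd a b hab x with h | h
  · rw [disp_side338 hd g hg a b hab hga hgb (d a x) x rfl h, Nat.min_eq_left (by omega)]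
  · rw [disp_side338 hd g hg b a hba hgb hga (d b x) x rfl h, Nat.min_eq_right (by omega)]

end Side

section CountSide

variable {V : Type*} {d : V → V → ℕ} (hd : IsTreeDist338 d)
  (q : ℕ) (hreg : ∀ v, {w | d v w = 1}.ncard = q + 1) (a b : V) (hab : d a b = 1)

/-- The finset of points at depth `n` on the side of `a`. -/
noncomputable def af338 : ℕ → Finset V
  | 0 => {a}
  | (n + 1) => (childF338 a q hreg (af338 n)).erase b

include hd hab in
theorem mem_af338 : ∀ (n : ℕ) (x : V),
    x ∈ af338 q hreg a b n ↔ d a x = n ∧ d b x = n + 1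
  | 0, x => by
    rw [af338, mem_singleton]
    constructor
    · rintro rfl
      refine ⟨(hd.eq_zero x x).2 rfl, ?_⟩
      rw [hd.symm]; exact hab
    · rintro ⟨h, _⟩
      exact ((hd.eq_zero a x).1 h).symm
  | (n + 1), x => by
    rw [af338, mem_erase, mem_childF338 hd, mem_af338 n]
    constructor
    · rintro ⟨hxb, hax, h1, h2⟩
      have hp := par338_depth hd a hax
      have h3 := star338 hd a (d x b) x b rfl hxb (by rw [hab]; omega)
      omega
    · rintro ⟨h1, h2⟩
      have hax : a ≠ x := root_ne_of_depth338 hd a h1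
      have hxb : x ≠ b := by
        intro e
        rw [e, (hd.eq_zero b b).2 rfl] at h2
        omega
      have hp := par338_depth hd a hax
      have h3 := star338 hd a (d x b) x b rfl hxb (by rw [hab]; omega)
      exact ⟨hxb, hax, by omega, by omega⟩

include hd hab in
theorem card_af338 : ∀ n : ℕ, (af338 q hreg a b n).card = q ^ n
  | 0 => by rw [af338, card_singleton, pow_zero]
  | 1 => by
    have hb : b ∈ childF338 a q hreg (af338 q hreg a b 0) := by
      rw [mem_childF338 hd, mem_af338 hd q hreg a b hab 0]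
      have hne : a ≠ b := by
        intro e
        rw [e, (hd.eq_zero b b).2 rfl] at hab
        omega
      have hp := par338_depth hd a hne
      rw [hab] at hp
      have h0 : d a (par338 hd a b) = 0 := by omega
      have hpa : a = par338 hd a b := (hd.eq_zero _ _).1 h0
      refine ⟨hne, h0, ?_⟩
      rw [← hpa, hd.symm]; exact hab
    rw [af338, card_erase_of_mem hb, card_childF338 hd, af338, card_singleton,
      if_pos (mem_singleton_self a), pow_one]
    omega
  | (n + 2) => by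
    have hb : b ∉ childF338 a q hreg (af338 q hreg a b (n + 1)) := by
      rw [mem_childF338 hd, mem_af338 hd q hreg a b hab (n + 1)]
      rintro ⟨hne, h1, _⟩
      have hp := par338_depth hd a hne
      omega
    have ha : a ∉ af338 q hreg a b (n + 1) := by
      rw [mem_af338 hd q hreg a b hab (n + 1), (hd.eq_zero a a).2 rfl]
      omega
    rw [af338, erase_eq_of_notMem hb, card_childF338 hd, if_neg ha, card_af338 (n + 1)]
    ring

end CountSide

section MainInv

variable {V : Type*} {d : V → V → ℕ} (hd : IsTreeDist338 d)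
  (q : ℕ) (hreg : ∀ v, {w | d v w = 1}.ncard = q + 1)
  (g : V → V) (hg : ∀ x y, d (g x) (g y) = d x y) (a b : V) (hab : d a b = 1)
  (hga : g a = b) (hgb : g b = a)

include hd hreg hg hab hga hgb in
/-- **Displacement count, inverted-edge case.** -/
theorem ncard_disp_odd338 (r : ℕ) : {x | d x (g x) = 2 * r + 1}.ncard = 2 * q ^ r := by
  have hba : d b a = 1 := by rw [hd.symm]; exact hab
  have h1 : {x | d x (g x) = 2 * r + 1}
      = ↑(af338 q hreg a b r ∪ af338 q hreg b a r) := by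
    ext x
    rw [Set.mem_ofPred_eq, mem_coe, mem_union, mem_af338 hd q hreg a b hab,
      mem_af338 hd q hreg b a hba, disp_inv338 hd g hg a b hab hga hgb x]
    rcases side338 hd a b hab x with h | h
    · rw [Nat.min_eq_left (by omega)]; omega
    · rw [Nat.min_eq_right (by omega)]; omega
  have hdisj : Disjoint (af338 q hreg a b r) (af338 q hreg b a r) := by
    rw [Finset.disjoint_left]
    intro x hx hx'
    rw [mem_af338 hd q hreg a b hab] at hx
    rw [mem_af338 hd q hreg b a hba] at hx'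
    omega
  rw [h1, Set.ncard_coe_finset, card_union_of_disjoint hdisj, card_af338 hd q hreg a b hab,
    card_af338 hd q hreg b a hba]
  ring

include hd hg hab hga hgb in
theorem disp_odd338 (x : V) : Odd (d x (g x)) := by
  rw [disp_inv338 hd g hg a b hab hga hgb x]
  exact ⟨_, rfl⟩

end MainInv

end Fermat.Agent.LT.H338

end
-- ===== PACK-END LT/H338/TreeInv.lean

-- ===== PACK-BEGIN LT/T7/H584/ConvSumInt.lean
section




/-!
# Row LT, tower T7, node C2.7.13 `FactUpC305` (split places), asset (helper584), OFF-MAIN: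
# THE CONVOLUTION OF T6 (finite sums over cosets) IS THE CONVOLUTION INTEGRAL

`T6.IsConv U φ ψ χ` / `T6.IsConvProd U l φ f` (the hypothesis `LocHyp305.split` of helper305's
`MatchSpec.lean`) are sums over representatives of cosets `h U`; the split integral identity
(`H159.iterL_eq159`, `T6.SplitInt2C/3C`) speaks of `T6.convInt μ`.  For a left invariant measure
with `μ(U) = 1`:

* `integral_eq_sum_of_cosets584`: a right `U`-invariant function supported on the finitely many
  cosets `h U`, `h ∈ R` (pairwise distinct) has integral `∑_{h ∈ R} F h`;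
* `convInt_eq_of_isConv584`: `T6.IsConv U φ ψ χ → χ g = T6.convInt μ φ ψ g`
  (`φ` right invariant, `ψ` left invariant);
* `convL_eq_of_isConvProd584`: `T6.IsConvProd U l φ f → f = H159.convL159 μ φ (l - 1)`
  (all `φ j` bi-invariant, `1 ≤ l`): the left nested convolution integral of `H159.iterL_eq159`.

Vocabulary: `T6/Spec.lean` (version of record `c1b839bc…`), `T7/H159/SplitIntL.lean` (helper159,
sha256 `2fe12f7d…`, byte-identical copy).  Any group with a measurable structure.
-/

set_option autoImplicit false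
set_option linter.unusedSectionVars false

open MeasureTheory

noncomputable section

namespace Fermat.Agent.LT.T7.H584

open Fermat.Agent.LT

variable {H : Type} [Group H] [MeasurableSpace H] [MeasurableMul H]

/-- `U` is (the predicate of) a measurable subgroup of measure one. -/
structure IsUnitVol584 (μ : Measure H) (U : H → Prop) : Prop where
  one : U 1
  mul : ∀ a b : H, U a → U b → U (a * b)
  inv : ∀ a : H, U a → U a⁻¹
  meas : MeasurableSet {g : H | U g}
  vol : μ {g : H | U g} = 1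

/-- The coset `h U`. -/
def coset584 (U : H → Prop) (h : H) : Set H := {g | ∃ u : H, U u ∧ g = h * u}

omit [MeasurableSpace H] [MeasurableMul H] in
theorem coset_eq_preimage584 (U : H → Prop) (h : H) :
    coset584 U h = (fun g => h⁻¹ * g) ⁻¹' {g | U g} := by
  ext g
  constructor
  · rintro ⟨u, hu, rfl⟩
    change U (h⁻¹ * (h * u))
    rw [inv_mul_cancel_left]
    exact hu
  · intro hg
    exact ⟨h⁻¹ * g, hg, by rw [mul_inv_cancel_left]⟩

theorem measurableSet_coset584 {μ : Measure H} {U : H → Prop} (hU : IsUnitVol584 μ U) (h : H) :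
    MeasurableSet (coset584 U h) := by
  rw [coset_eq_preimage584]
  exact (measurable_const_mul h⁻¹) hU.meas

theorem measure_coset584 {μ : Measure H} [μ.IsMulLeftInvariant] {U : H → Prop}
    (hU : IsUnitVol584 μ U) (h : H) : μ (coset584 U h) = 1 := by
  rw [coset_eq_preimage584, measure_preimage_mul, hU.vol]

/-- A right `U`-invariant function supported on finitely many pairwise distinct cosets. -/
theorem integral_eq_sum_of_cosets584 {μ : Measure H} [μ.IsMulLeftInvariant] {U : H → Prop}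
    (hU : IsUnitVol584 μ U) (F : H → ℂ) (hF : ∀ g u : H, U u → F (g * u) = F g)
    (R : Finset H)
    (hdisj : ∀ h ∈ R, ∀ h' ∈ R, (∃ u : H, U u ∧ h' = h * u) → h = h')
    (hcov : ∀ h : H, F h ≠ 0 → ∃ h' ∈ R, ∃ u : H, U u ∧ h = h' * u) :
    ∫ h, F h ∂μ = ∑ h ∈ R, F h := by
  classical
  have hpt : ∀ g : H, F g = ∑ h ∈ R, (coset584 U h).indicator (fun _ => F h) g := by
    intro g
    by_cases hg : ∃ h ∈ R, g ∈ coset584 U h
    · obtain ⟨h₀, hh₀, u₀, hu₀, rfl⟩ := hg
      rw [Finset.sum_eq_single h₀]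
      · rw [Set.indicator_of_mem (show h₀ * u₀ ∈ coset584 U h₀ from ⟨u₀, hu₀, rfl⟩)]
        exact hF h₀ u₀ hu₀
      · intro h hh hne
        rw [Set.indicator_of_notMem]
        rintro ⟨u, hu, he⟩
        apply hne
        refine (hdisj h₀ hh₀ h hh ⟨u₀ * u⁻¹, hU.mul _ _ hu₀ (hU.inv _ hu), ?_⟩).symm
        rw [← mul_assoc, he, mul_inv_cancel_right]
      · intro hn
        exact absurd hh₀ hn
    · have h0 : F g = 0 := by
        by_contra hne
        obtain ⟨h', hh', u, hu, he⟩ := hcov g hne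
        exact hg ⟨h', hh', u, hu, he⟩
      rw [h0]
      symm
      refine Finset.sum_eq_zero fun h hh => ?_
      rw [Set.indicator_of_notMem]
      intro hmem
      exact hg ⟨h, hh, hmem⟩
  have hint : ∀ h ∈ R, Integrable ((coset584 U h).indicator (fun _ => F h)) μ := by
    intro h _
    refine (integrable_indicator_iff (measurableSet_coset584 hU h)).2 ?_
    refine integrableOn_const ?_
    rw [measure_coset584 hU h]
    exact ENNReal.one_ne_top
  calc ∫ h, F h ∂μ
      = ∫ g, ∑ h ∈ R, (coset584 U h).indicator (fun _ => F h) g ∂μ :=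
        integral_congr_ae (ae_of_all _ hpt)
    _ = ∑ h ∈ R, ∫ g, (coset584 U h).indicator (fun _ => F h) g ∂μ :=
        integral_finset_sum R hint
    _ = ∑ h ∈ R, F h := by
        refine Finset.sum_congr rfl fun h _ => ?_
        rw [integral_indicator_const _ (measurableSet_coset584 hU h)]
        simp [Measure.real, measure_coset584 hU h]

/-- **The convolution of T6 is the convolution integral.** -/
theorem convInt_eq_of_isConv584 {μ : Measure H} [μ.IsMulLeftInvariant] {U : H → Prop}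
    (hU : IsUnitVol584 μ U) (φ ψ χ : H → ℂ)
    (hφ : ∀ g u : H, U u → φ (g * u) = φ g) (hψ : ∀ g u : H, U u → ψ (u * g) = ψ g)
    (h : T6.IsConv U φ ψ χ) (g : H) : χ g = T6.convInt μ φ ψ g := by
  obtain ⟨R, hdisj, hcov, hsum⟩ := h g
  rw [hsum]
  symm
  refine integral_eq_sum_of_cosets584 hU (fun h => φ h * ψ (h⁻¹ * g)) ?_ R hdisj hcov
  intro h u hu
  rw [hφ h u hu, mul_inv_rev, mul_assoc, hψ _ _ (hU.inv u hu)]

omit [MeasurableMul H] in
/-- The convolution integral is right invariant if the second factor is. -/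
theorem convInt_right_inv584 (μ : Measure H) (U : H → Prop) (φ ψ : H → ℂ)
    (hψ : ∀ g u : H, U u → ψ (g * u) = ψ g) (g u : H) (hu : U u) :
    T6.convInt μ φ ψ (g * u) = T6.convInt μ φ ψ g := by
  change ∫ h, φ h * ψ (h⁻¹ * (g * u)) ∂μ = ∫ h, φ h * ψ (h⁻¹ * g) ∂μ
  refine integral_congr_ae (ae_of_all _ fun h => ?_)
  change φ h * ψ (h⁻¹ * (g * u)) = φ h * ψ (h⁻¹ * g)
  rw [← mul_assoc, hψ _ u hu]

omit [MeasurableSpace H] [MeasurableMul H] in
theorem biInv_right584 {U : H → Prop} (h1 : U 1) {φ : H → ℂ} (hφ : T6.IsBiInv U φ)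
    (g u : H) (hu : U u) : φ (g * u) = φ g := by
  have := hφ 1 u g h1 hu
  rwa [one_mul] at this

omit [MeasurableSpace H] [MeasurableMul H] in
theorem biInv_left584 {U : H → Prop} (h1 : U 1) {φ : H → ℂ} (hφ : T6.IsBiInv U φ)
    (g u : H) (hu : U u) : φ (u * g) = φ g := by
  have := hφ u 1 g hu h1
  rwa [mul_one] at this

/-- The left nested convolution integrals are right invariant. -/
theorem convL_right_inv584 (μ : Measure H) {U : H → Prop} (h1 : U 1) (φ : ℕ → H → ℂ)
    (hφ : ∀ j : ℕ, T6.IsBiInv U (φ j)) :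
    ∀ (n : ℕ) (g u : H), U u → H159.convL159 μ φ n (g * u) = H159.convL159 μ φ n g
  | 0, g, u, hu => biInv_right584 h1 (hφ 0) g u hu
  | n + 1, g, u, hu =>
      convInt_right_inv584 μ U (H159.convL159 μ φ n) (φ (n + 1))
        (biInv_right584 h1 (hφ (n + 1))) g u hu

/-- **The iterated convolution of T6 is the left nested convolution integral.** -/
theorem convL_eq_of_isConvProd584 {μ : Measure H} [μ.IsMulLeftInvariant] {U : H → Prop}
    (hU : IsUnitVol584 μ U) (l : ℕ) (φ : ℕ → H → ℂ) (f : H → ℂ)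
    (hφ : ∀ j : ℕ, T6.IsBiInv U (φ j)) (h : T6.IsConvProd U l φ f) :
    f = H159.convL159 μ φ (l - 1) := by
  obtain ⟨χ, h0, hstep, hf⟩ := h
  have key : ∀ m : ℕ, m < l ∨ m = 0 → χ m = H159.convL159 μ φ m := by
    intro m
    induction m with
    | zero => intro _; exact h0
    | succ m ih =>
      intro hm
      have hm' : m + 1 < l := by
        rcases hm with hm | hm
        · exact hm
        · exact absurd hm (Nat.succ_ne_zero m)
      have ihm := ih (Or.inl (Nat.lt_of_succ_lt hm'))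
      funext g
      have hc := convInt_eq_of_isConv584 hU (χ m) (φ (m + 1)) (χ (m + 1))
        (by rw [ihm]; exact convL_right_inv584 μ hU.one φ hφ m)
        (biInv_left584 hU.one (hφ (m + 1))) (hstep m hm') g
      rw [hc, ihm]
      rfl
  rw [hf]
  apply key
  rcases Nat.eq_zero_or_pos l with hl | hl
  · right; rw [hl]
  · left; exact Nat.sub_lt hl one_pos

end Fermat.Agent.LT.T7.H584

end

end
-- ===== PACK-END LT/T7/H584/ConvSumInt.lean

-- ===== PACK-BEGIN LT/T7/H582/ChainFubini.lean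
section



/-!
# Row LT, tower T7, leaf C2.7.13.4 `LocEqArchC340` (helper582, registry row 2623), OFF-MAIN

PART 1 (Mathlib + helper159 `SplitIntL.lean` only): **Fubini for the cyclic chain integral**.

`H` a locally compact second countable group, `μ` a Haar measure, `Φ j` continuous with compact
support, `β` continuous and non-negative.  If the cut-off integrals of the indicator functions
of the compact sets along the orbit of `g = δ_0 ⋯ δ_n` are finite, then

    ∫_{H^{n+1}} ∏_{j ≤ n} Φ_j(y_j⁻¹ δ_j y_{j+1}) β(y_0) dy     (indices modulo `n + 1`)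
      = ∫_H convL159 μ Φ n (z⁻¹ g z) β(z) dμ(z).

New names only (suffix `582`); theorems and ONE recursive definition (`chain582`, equation
lemmas realised here).
-/

set_option autoImplicit false

open MeasureTheory
open scoped Pointwise

noncomputable section

namespace Fermat.Agent.LT.T7.H582

open Fermat.Agent.LT.T6 Fermat.Agent.LT.T7.H159

variable {H : Type} [Group H]

/-- The product of the `Φ j` along the path `a → x_0 → ⋯ → x_{n-1} → b` (`n + 1` factors). -/
def chain582 (Φ : ℕ → H → ℂ) (δ : ℕ → H) : (n : ℕ) → H → H → (Fin n → H) → ℂ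
  | 0, a, b, _ => Φ 0 (a⁻¹ * δ 0 * b)
  | (n + 1), a, b, x =>
      chain582 Φ δ n a (x (Fin.last n)) (Fin.init x)
        * Φ (n + 1) ((x (Fin.last n))⁻¹ * δ (n + 1) * b)

theorem chain582_eqns_realised : True := by
  have _h0 := @chain582.eq_def
  have _h1 := @chain582.eq_1
  have _h2 := @chain582.eq_2
  have _h3 := @chain582.eq_unfold
  trivial

theorem chain_zero582 (Φ : ℕ → H → ℂ) (δ : ℕ → H) (a b : H) (x : Fin 0 → H) :
    chain582 Φ δ 0 a b x = Φ 0 (a⁻¹ * δ 0 * b) := rfl

theorem chain_succ582 (Φ : ℕ → H → ℂ) (δ : ℕ → H) (n : ℕ) (a b : H) (x : Fin (n + 1) → H) :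
    chain582 Φ δ (n + 1) a b x
      = chain582 Φ δ n a (x (Fin.last n)) (Fin.init x)
        * Φ (n + 1) ((x (Fin.last n))⁻¹ * δ (n + 1) * b) := rfl

theorem chain_snoc582 (Φ : ℕ → H → ℂ) (δ : ℕ → H) (n : ℕ) (a b c : H) (x : Fin n → H) :
    chain582 Φ δ (n + 1) a b (Fin.snoc x c)
      = chain582 Φ δ n a c x * Φ (n + 1) (c⁻¹ * δ (n + 1) * b) := by
  rw [chain_succ582, Fin.snoc_last, Fin.init_snoc]

section Top

variable [TopologicalSpace H] [IsTopologicalGroup H]

theorem continuous_init582 (n : ℕ) :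
    Continuous (fun x : Fin (n + 1) → H => (Fin.init x : Fin n → H)) :=
  continuous_pi fun _ => continuous_apply _

theorem continuous_chain582 (Φ : ℕ → H → ℂ) (hΦ : ∀ j, Continuous (Φ j)) (δ : ℕ → H) (n : ℕ) :
    Continuous (fun p : H × H × (Fin n → H) => chain582 Φ δ n p.1 p.2.1 p.2.2) := by
  induction n with
  | zero =>
    show Continuous (fun p : H × H × (Fin 0 → H) => Φ 0 (p.1⁻¹ * δ 0 * p.2.1))
    exact (hΦ 0).comp (by fun_prop)
  | succ n ih =>
    show Continuous (fun p : H × H × (Fin (n + 1) → H) =>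
      chain582 Φ δ n p.1 (p.2.2 (Fin.last n)) (Fin.init p.2.2)
        * Φ (n + 1) ((p.2.2 (Fin.last n))⁻¹ * δ (n + 1) * p.2.1))
    have h1 : Continuous (fun p : H × H × (Fin (n + 1) → H) =>
        ((p.1, p.2.2 (Fin.last n), (Fin.init p.2.2 : Fin n → H)) : H × H × (Fin n → H))) := by
      refine continuous_fst.prodMk (Continuous.prodMk ?_ ?_)
      · exact (continuous_apply (Fin.last n)).comp (continuous_snd.comp continuous_snd)
      · exact (continuous_init582 n).comp (continuous_snd.comp continuous_snd)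
    have h2 : Continuous (fun p : H × H × (Fin (n + 1) → H) =>
        (p.2.2 (Fin.last n))⁻¹ * δ (n + 1) * p.2.1) := by
      have h3 : Continuous (fun p : H × H × (Fin (n + 1) → H) => p.2.2 (Fin.last n)) :=
        (continuous_apply (Fin.last n)).comp (continuous_snd.comp continuous_snd)
      exact (h3.inv.mul continuous_const).mul (continuous_fst.comp continuous_snd)
    exact (ih.comp h1).mul ((hΦ (n + 1)).comp h2)

theorem continuous_chain_right582 (Φ : ℕ → H → ℂ) (hΦ : ∀ j, Continuous (Φ j)) (δ : ℕ → H)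
    (n : ℕ) (a b : H) : Continuous (fun x : Fin n → H => chain582 Φ δ n a b x) :=
  (continuous_chain582 Φ hΦ δ n).comp
    (continuous_const.prodMk (continuous_const.prodMk continuous_id))

end Top

/-- The open chain as a product over `Fin (n + 1)`. -/
theorem prod_open582 (Φ : ℕ → H → ℂ) (δ : ℕ → H) (n : ℕ) (y : Fin (n + 1) → H) (b : H) :
    (∏ j : Fin (n + 1), Φ j.1 ((y j)⁻¹ * δ j.1
        * (if h : j.1 + 1 < n + 1 then y ⟨j.1 + 1, h⟩ else b)))
      = chain582 Φ δ n (y 0) b (Fin.tail y) := by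
  induction n generalizing b with
  | zero =>
    rw [Fin.prod_univ_one]
    simp [chain_zero582]
  | succ n ih =>
    rw [Fin.prod_univ_castSucc, chain_succ582]
    have h1 : (Fin.tail y) (Fin.last n) = y (Fin.last (n + 1)) := by
      show y (Fin.succ (Fin.last n)) = _
      rw [Fin.succ_last]
    have h2 : (Fin.init (Fin.tail y) : Fin n → H) = Fin.tail (Fin.init y) := rfl
    have h3 : (Fin.init y : Fin (n + 1) → H) 0 = y 0 := rfl
    rw [h1, h2, ← h3, ← ih (Fin.init y) (y (Fin.last (n + 1)))]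
    congr 1
    · refine Finset.prod_congr rfl fun j _ => ?_
      have hj : (Fin.castSucc j).1 = j.1 := rfl
      have hj2 : (Fin.castSucc j).1 + 1 < n + 1 + 1 := by rw [hj]; omega
      rw [dif_pos hj2]
      congr 2
      by_cases h : j.1 + 1 < n + 1
      · rw [dif_pos h]
        rfl
      · rw [dif_neg h]
        congr 1
        apply Fin.ext
        show j.1 + 1 = n + 1
        have := j.2
        omega
    · have h4 : ¬ ((Fin.last (n + 1)).1 + 1 < n + 1 + 1) := by
        show ¬ (n + 1 + 1 < n + 1 + 1)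
        omega
      rw [dif_neg h4]
      rfl

/-- The closed (cyclic) chain as a product over `Fin (n + 1)`. -/
theorem prod_cyclic582 (Φ : ℕ → H → ℂ) (δ : ℕ → H) (n : ℕ) (y : Fin (n + 1) → H) :
    (∏ j : Fin (n + 1), Φ j.1 ((y j)⁻¹ * δ j.1
        * y ⟨(j.1 + 1) % (n + 1), Nat.mod_lt _ (Nat.succ_pos n)⟩))
      = chain582 Φ δ n (y 0) (y 0) (Fin.tail y) := by
  rw [← prod_open582]
  refine Finset.prod_congr rfl fun j _ => ?_
  congr 2
  by_cases h : j.1 + 1 < n + 1
  · rw [dif_pos h]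
    congr 1
    apply Fin.ext
    exact Nat.mod_eq_of_lt h
  · rw [dif_neg h]
    congr 1
    apply Fin.ext
    show (j.1 + 1) % (n + 1) = 0
    have hj := j.2
    have : j.1 + 1 = n + 1 := by omega
    rw [this, Nat.mod_self]

section Meas

variable [TopologicalSpace H] [IsTopologicalGroup H] [LocallyCompactSpace H] [T2Space H]
  [SecondCountableTopology H] [MeasurableSpace H] [BorelSpace H] (μ : Measure H)
  [μ.IsHaarMeasure]

/-- Peeling the LAST variable of an integral over `H^{n+1}` (`lintegral`). -/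
theorem lintegral_pi_last582 (n : ℕ) (f : (Fin (n + 1) → H) → ENNReal) :
    ∫⁻ y, f y ∂(Measure.pi fun _ : Fin (n + 1) => μ)
      = ∫⁻ p : H × (Fin n → H), f (Fin.snoc p.2 p.1)
          ∂(μ.prod (Measure.pi fun _ : Fin n => μ)) := by
  have hmp : MeasurePreserving (MeasurableEquiv.piFinSuccAbove (fun _ : Fin (n + 1) => H)
      (Fin.last n)) (Measure.pi fun _ : Fin (n + 1) => μ)
      (μ.prod (Measure.pi fun _ : Fin n => μ)) :=
    measurePreserving_piFinSuccAbove (fun _ : Fin (n + 1) => μ) (Fin.last n)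
  have h := hmp.symm.lintegral_comp_emb (MeasurableEquiv.measurableEmbedding _) f
  rw [← h]
  refine lintegral_congr fun p => ?_
  congr 1
  simp only [MeasurableEquiv.piFinSuccAbove_symm_apply, Fin.insertNthEquiv_last]
  rfl

/-- Peeling the LAST variable of an integral over `H^{n+1}` (Bochner integral). -/
theorem integral_pi_last582 (n : ℕ) (f : (Fin (n + 1) → H) → ℂ) :
    ∫ y, f y ∂(Measure.pi fun _ : Fin (n + 1) => μ)
      = ∫ p : H × (Fin n → H), f (Fin.snoc p.2 p.1)
          ∂(μ.prod (Measure.pi fun _ : Fin n => μ)) := by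
  have hmp : MeasurePreserving (MeasurableEquiv.piFinSuccAbove (fun _ : Fin (n + 1) => H)
      (Fin.last n)) (Measure.pi fun _ : Fin (n + 1) => μ)
      (μ.prod (Measure.pi fun _ : Fin n => μ)) :=
    measurePreserving_piFinSuccAbove (fun _ : Fin (n + 1) => μ) (Fin.last n)
  have h := hmp.symm.integral_comp' (g := f)
  rw [← h]
  refine integral_congr_ae (ae_of_all _ fun p => ?_)
  show f _ = f _
  congr 1
  simp only [MeasurableEquiv.piFinSuccAbove_symm_apply, Fin.insertNthEquiv_last]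
  rfl

/-- Peeling the FIRST variable of an integral over `H^{n+1}` (`lintegral`). -/
theorem lintegral_pi_first582 (n : ℕ) (f : (Fin (n + 1) → H) → ENNReal) :
    ∫⁻ y, f y ∂(Measure.pi fun _ : Fin (n + 1) => μ)
      = ∫⁻ p : H × (Fin n → H), f (Fin.cons p.1 p.2)
          ∂(μ.prod (Measure.pi fun _ : Fin n => μ)) := by
  have hmp : MeasurePreserving (MeasurableEquiv.piFinSuccAbove (fun _ : Fin (n + 1) => H)
      0) (Measure.pi fun _ : Fin (n + 1) => μ)
      (μ.prod (Measure.pi fun _ : Fin n => μ)) :=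
    measurePreserving_piFinSuccAbove (fun _ : Fin (n + 1) => μ) 0
  have h := hmp.symm.lintegral_comp_emb (MeasurableEquiv.measurableEmbedding _) f
  rw [← h]
  refine lintegral_congr fun p => ?_
  congr 1
  simp only [MeasurableEquiv.piFinSuccAbove_symm_apply, Fin.insertNthEquiv_zero]
  rfl

/-- Peeling the FIRST variable of an integral over `H^{n+1}` (Bochner integral). -/
theorem integral_pi_first582 (n : ℕ) (f : (Fin (n + 1) → H) → ℂ) :
    ∫ y, f y ∂(Measure.pi fun _ : Fin (n + 1) => μ)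
      = ∫ p : H × (Fin n → H), f (Fin.cons p.1 p.2)
          ∂(μ.prod (Measure.pi fun _ : Fin n => μ)) := by
  have hmp : MeasurePreserving (MeasurableEquiv.piFinSuccAbove (fun _ : Fin (n + 1) => H)
      0) (Measure.pi fun _ : Fin (n + 1) => μ)
      (μ.prod (Measure.pi fun _ : Fin n => μ)) :=
    measurePreserving_piFinSuccAbove (fun _ : Fin (n + 1) => μ) 0
  have h := hmp.symm.integral_comp' (g := f)
  rw [← h]
  refine integral_congr_ae (ae_of_all _ fun p => ?_)
  show f _ = f _
  congr 1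
  simp only [MeasurableEquiv.piFinSuccAbove_symm_apply, Fin.insertNthEquiv_zero]
  rfl

/-- A continuous function with compact support is bounded by a multiple of the indicator
function of its (compact) topological support. -/
theorem enorm_le_indicator582 (φ : H → ℂ) (hc : Continuous φ) (hs : HasCompactSupport φ) :
    ∃ m : ENNReal, m < ⊤ ∧ ∀ h : H, ‖φ h‖ₑ ≤ m * (tsupport φ).indicator 1 h := by
  obtain ⟨C, hC⟩ := hs.exists_bound_of_continuous hc
  refine ⟨ENNReal.ofReal C, ENNReal.ofReal_lt_top, fun h => ?_⟩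
  by_cases hh : h ∈ tsupport φ
  · rw [Set.indicator_of_mem hh, Pi.one_apply, mul_one]
    rw [← ofReal_norm]
    exact ENNReal.ofReal_le_ofReal (hC h)
  · have h0 : φ h = 0 := image_eq_zero_of_notMem_tsupport hh
    simp [h0]

/-- **The bound.**  The integral of the norm of the chain over the inner variables is bounded by
a multiple of the indicator function of a compact set at `a⁻¹ (δ_0 ⋯ δ_n) b`. -/
theorem lintegral_chain_le582 (Φ : ℕ → H → ℂ)
    (hΦ : ∀ j, Continuous (Φ j) ∧ HasCompactSupport (Φ j)) (δ : ℕ → H) (n : ℕ) :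
    ∃ (M : ENNReal) (C : Set H), M < ⊤ ∧ IsCompact C ∧ ∀ a b : H,
      ∫⁻ x, ‖chain582 Φ δ n a b x‖ₑ ∂(Measure.pi fun _ : Fin n => μ)
        ≤ M * C.indicator 1 (a⁻¹ * prodFrom159 δ (n + 1) 0 * b) := by
  induction n with
  | zero =>
    obtain ⟨m, hm, hmb⟩ := enorm_le_indicator582 (Φ 0) (hΦ 0).1 (hΦ 0).2
    refine ⟨m, tsupport (Φ 0), hm, (hΦ 0).2, fun a b => ?_⟩
    have hp : prodFrom159 δ (0 + 1) 0 = δ 0 := by
      show δ 0 * 1 = δ 0
      rw [mul_one]
    rw [hp]
    have hconst : (fun x : Fin 0 → H => ‖chain582 Φ δ 0 a b x‖ₑ)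
        = fun _ => ‖Φ 0 (a⁻¹ * δ 0 * b)‖ₑ := rfl
    rw [hconst, lintegral_const]
    have huniv : (Measure.pi fun _ : Fin 0 => μ) Set.univ = 1 := by
      rw [Measure.pi_of_empty (fun _ : Fin 0 => μ) (fun i => Fin.elim0 i)]
      simp
    rw [huniv, mul_one]
    exact hmb _
  | succ n ih =>
    obtain ⟨M, C, hM, hC, hb⟩ := ih
    obtain ⟨m, hm, hmb⟩ := enorm_le_indicator582 (Φ (n + 1)) (hΦ (n + 1)).1 (hΦ (n + 1)).2
    refine ⟨M * m * μ C, C * tsupport (Φ (n + 1)),
      ENNReal.mul_lt_top (ENNReal.mul_lt_top hM hm) hC.measure_lt_top,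
      hC.mul (hΦ (n + 1)).2, fun a b => ?_⟩
    set g := prodFrom159 δ (n + 1) 0 with hg
    have hgs : prodFrom159 δ (n + 1 + 1) 0 = g * δ (n + 1) := by
      rw [prodFrom_succ_right159]
      simp [hg]
    rw [lintegral_pi_last582]
    have hmeas : Measurable (fun p : H × (Fin n → H) => ‖chain582 Φ δ n a p.1 p.2‖ₑ) := by
      have hcont : Continuous (fun p : H × (Fin n → H) => chain582 Φ δ n a p.1 p.2) :=
        (continuous_chain582 Φ (fun j => (hΦ j).1) δ n).comp
          (continuous_const.prodMk (continuous_fst.prodMk continuous_snd))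
      exact hcont.measurable.enorm
    have hmeas2 : Measurable (fun c : H => ‖Φ (n + 1) (c⁻¹ * δ (n + 1) * b)‖ₑ) := by
      have hcont : Continuous (fun c : H => Φ (n + 1) (c⁻¹ * δ (n + 1) * b)) :=
        (hΦ (n + 1)).1.comp ((continuous_inv.mul continuous_const).mul continuous_const)
      exact hcont.measurable.enorm
    have heq : (fun p : H × (Fin n → H) => ‖chain582 Φ δ (n + 1) a b (Fin.snoc p.2 p.1)‖ₑ)
        = fun p => ‖chain582 Φ δ n a p.1 p.2‖ₑ * ‖Φ (n + 1) (p.1⁻¹ * δ (n + 1) * b)‖ₑ := by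
      funext p
      rw [chain_snoc582, enorm_mul]
    have haem : AEMeasurable (fun p : H × (Fin n → H) =>
        ‖chain582 Φ δ n a p.1 p.2‖ₑ * ‖Φ (n + 1) (p.1⁻¹ * δ (n + 1) * b)‖ₑ)
        (μ.prod (Measure.pi fun _ : Fin n => μ)) :=
      (hmeas.mul (hmeas2.comp measurable_fst)).aemeasurable
    rw [heq, lintegral_prod _ haem]
    calc ∫⁻ c, ∫⁻ x, ‖chain582 Φ δ n a c x‖ₑ * ‖Φ (n + 1) (c⁻¹ * δ (n + 1) * b)‖ₑ
            ∂(Measure.pi fun _ : Fin n => μ) ∂μ
        = ∫⁻ c, (∫⁻ x, ‖chain582 Φ δ n a c x‖ₑ ∂(Measure.pi fun _ : Fin n => μ))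
            * ‖Φ (n + 1) (c⁻¹ * δ (n + 1) * b)‖ₑ ∂μ := by
          refine lintegral_congr fun c => ?_
          rw [lintegral_mul_const]
          exact hmeas.comp (measurable_const.prodMk measurable_id)
      _ ≤ ∫⁻ c, (M * m * (C * tsupport (Φ (n + 1))).indicator 1 (a⁻¹ * (g * δ (n + 1)) * b))
            * ((fun c : H => a⁻¹ * g * c) ⁻¹' C).indicator 1 c ∂μ := by
          refine lintegral_mono fun c => ?_
          refine le_trans (mul_le_mul' (hb a c) (hmb _)) ?_
          by_cases h1 : a⁻¹ * g * c ∈ C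
          · by_cases h2 : c⁻¹ * δ (n + 1) * b ∈ tsupport (Φ (n + 1))
            · have h3 : a⁻¹ * (g * δ (n + 1)) * b ∈ C * tsupport (Φ (n + 1)) := by
                refine ⟨a⁻¹ * g * c, h1, c⁻¹ * δ (n + 1) * b, h2, ?_⟩
                group
              have h4 : c ∈ (fun c : H => a⁻¹ * g * c) ⁻¹' C := h1
              rw [Set.indicator_of_mem h1, Set.indicator_of_mem h2, Set.indicator_of_mem h3,
                Set.indicator_of_mem h4]
              simp
            · rw [Set.indicator_of_notMem h2]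
              simp
          · rw [Set.indicator_of_notMem h1]
            simp
      _ = M * m * (C * tsupport (Φ (n + 1))).indicator 1 (a⁻¹ * (g * δ (n + 1)) * b)
            * μ ((fun c : H => a⁻¹ * g * c) ⁻¹' C) := by
          rw [lintegral_const_mul' _ _ (by
            refine ENNReal.mul_ne_top (ENNReal.mul_ne_top hM.ne hm.ne) ?_
            by_cases h3 : a⁻¹ * (g * δ (n + 1)) * b ∈ C * tsupport (Φ (n + 1))
            · rw [Set.indicator_of_mem h3]; simp
            · rw [Set.indicator_of_notMem h3]; simp)]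
          congr 1
          have hCm : MeasurableSet ((fun c : H => a⁻¹ * g * c) ⁻¹' C) :=
            (continuous_const.mul continuous_id).measurable hC.isClosed.measurableSet
          rw [lintegral_indicator_one hCm]
      _ = M * m * μ C * (C * tsupport (Φ (n + 1))).indicator 1
            (a⁻¹ * prodFrom159 δ (n + 1 + 1) 0 * b) := by
          rw [hgs, measure_preimage_mul]
          ring

/-- The chain is integrable in the inner variables. -/
theorem integrable_chain582 (Φ : ℕ → H → ℂ)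
    (hΦ : ∀ j, Continuous (Φ j) ∧ HasCompactSupport (Φ j)) (δ : ℕ → H) (n : ℕ) (a b : H) :
    Integrable (fun x : Fin n → H => chain582 Φ δ n a b x)
      (Measure.pi fun _ : Fin n => μ) := by
  obtain ⟨M, C, hM, -, hb⟩ := lintegral_chain_le582 μ Φ hΦ δ n
  refine ⟨(continuous_chain_right582 Φ (fun j => (hΦ j).1) δ n a b).aestronglyMeasurable, ?_⟩
  refine lt_of_le_of_lt (hb a b) (ENNReal.mul_lt_top hM ?_)
  by_cases h : a⁻¹ * prodFrom159 δ (n + 1) 0 * b ∈ C
  · rw [Set.indicator_of_mem h]; simp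
  · rw [Set.indicator_of_notMem h]; simp

/-- Transport of integrability, peeling the last variable. -/
theorem integrable_pi_last582 (n : ℕ) (f : (Fin (n + 1) → H) → ℂ)
    (hf : Integrable f (Measure.pi fun _ : Fin (n + 1) => μ)) :
    Integrable (fun p : H × (Fin n → H) => f (Fin.snoc p.2 p.1))
      (μ.prod (Measure.pi fun _ : Fin n => μ)) := by
  have hmp : MeasurePreserving (MeasurableEquiv.piFinSuccAbove (fun _ : Fin (n + 1) => H)
      (Fin.last n)) (Measure.pi fun _ : Fin (n + 1) => μ)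
      (μ.prod (Measure.pi fun _ : Fin n => μ)) :=
    measurePreserving_piFinSuccAbove (fun _ : Fin (n + 1) => μ) (Fin.last n)
  have h := (hmp.symm.integrable_comp_emb (MeasurableEquiv.measurableEmbedding _) (g := f)).2 hf
  refine h.congr (ae_of_all _ fun p => ?_)
  show f _ = f _
  congr 1
  simp only [MeasurableEquiv.piFinSuccAbove_symm_apply, Fin.insertNthEquiv_last]
  rfl

/-- **The inner integral is the iterated integral of helper159.** -/
theorem integral_chain582 (Φ : ℕ → H → ℂ)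
    (hΦ : ∀ j, Continuous (Φ j) ∧ HasCompactSupport (Φ j)) (δ : ℕ → H) (n : ℕ) (a b : H) :
    ∫ x, chain582 Φ δ n a b x ∂(Measure.pi fun _ : Fin n => μ) = iterL159 μ Φ δ n a b := by
  induction n generalizing a b with
  | zero =>
    show ∫ _x : Fin 0 → H, Φ 0 (a⁻¹ * δ 0 * b) ∂(Measure.pi fun _ : Fin 0 => μ)
      = Φ 0 (a⁻¹ * δ 0 * b)
    have huniv : (Measure.pi fun _ : Fin 0 => μ) Set.univ = 1 := by
      rw [Measure.pi_of_empty (fun _ : Fin 0 => μ) (fun i => Fin.elim0 i)]
      simp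
    rw [integral_const]
    simp [Measure.real, huniv]
  | succ n ih =>
    rw [integral_pi_last582]
    have hint := integrable_pi_last582 μ n _ (integrable_chain582 μ Φ hΦ δ (n + 1) a b)
    have heq : (fun p : H × (Fin n → H) => chain582 Φ δ (n + 1) a b (Fin.snoc p.2 p.1))
        = fun p => chain582 Φ δ n a p.1 p.2 * Φ (n + 1) (p.1⁻¹ * δ (n + 1) * b) := by
      funext p
      rw [chain_snoc582]
    rw [heq] at hint ⊢
    rw [integral_prod _ hint]
    show _ = ∫ x, iterL159 μ Φ δ n a x * Φ (n + 1) (x⁻¹ * δ (n + 1) * b) ∂μ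
    refine integral_congr_ae (ae_of_all _ fun c => ?_)
    show ∫ x, chain582 Φ δ n a c x * Φ (n + 1) (c⁻¹ * δ (n + 1) * b)
        ∂(Measure.pi fun _ : Fin n => μ) = _
    rw [integral_mul_const, ih]

/-- Transport of integrability, peeling the first variable. -/
theorem integrable_pi_first582 (n : ℕ) (f : H × (Fin n → H) → ℂ)
    (hf : Integrable f (μ.prod (Measure.pi fun _ : Fin n => μ))) :
    Integrable (fun y : Fin (n + 1) → H => f (y 0, Fin.tail y))
      (Measure.pi fun _ : Fin (n + 1) => μ) := by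
  have hmp : MeasurePreserving (MeasurableEquiv.piFinSuccAbove (fun _ : Fin (n + 1) => H)
      0) (Measure.pi fun _ : Fin (n + 1) => μ)
      (μ.prod (Measure.pi fun _ : Fin n => μ)) :=
    measurePreserving_piFinSuccAbove (fun _ : Fin (n + 1) => μ) 0
  have h := (hmp.integrable_comp_emb (MeasurableEquiv.measurableEmbedding _) (g := f)).2 hf
  refine h.congr (ae_of_all _ fun y => ?_)
  show f _ = f _
  congr 1

/-- **FUBINI FOR THE CYCLIC CHAIN INTEGRAL.**  See the header. -/
theorem cyclic_integral_eq582 (Φ : ℕ → H → ℂ)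
    (hΦ : ∀ j, Continuous (Φ j) ∧ HasCompactSupport (Φ j)) (δ : ℕ → H) (β : H → ℝ)
    (hβc : Continuous β) (hβ0 : ∀ x, 0 ≤ β x) (l : ℕ) (hl : 0 < l)
    (hfin : ∀ C : Set H, IsCompact C →
      ∫⁻ z in {z : H | z⁻¹ * prodFrom159 δ l 0 * z ∈ C}, ENNReal.ofReal (β z) ∂μ < ⊤) :
    ∫ y : Fin l → H,
        (∏ j : Fin l, Φ j.1 ((y j)⁻¹ * δ j.1 * y ⟨(j.1 + 1) % l, Nat.mod_lt _ j.pos⟩))
          * ((β (y ⟨0, hl⟩) : ℝ) : ℂ) ∂(Measure.pi fun _ : Fin l => μ)
      = ∫ z, convL159 μ Φ (l - 1) (z⁻¹ * prodFrom159 δ l 0 * z) * ((β z : ℝ) : ℂ) ∂μ := by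
  obtain ⟨n, rfl⟩ : ∃ n, l = n + 1 := ⟨l - 1, by omega⟩
  have hn : n + 1 - 1 = n := by omega
  rw [hn]
  set g := prodFrom159 δ (n + 1) 0 with hg
  -- the integrand
  have heq : (fun y : Fin (n + 1) → H =>
      (∏ j : Fin (n + 1), Φ j.1 ((y j)⁻¹ * δ j.1
          * y ⟨(j.1 + 1) % (n + 1), Nat.mod_lt _ j.pos⟩)) * ((β (y ⟨0, hl⟩) : ℝ) : ℂ))
      = fun y => chain582 Φ δ n (y 0) (y 0) (Fin.tail y) * ((β (y 0) : ℝ) : ℂ) := by
    funext y
    rw [← prod_cyclic582]
    rfl
  rw [heq, integral_pi_first582]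
  have heq2 : (fun p : H × (Fin n → H) =>
      chain582 Φ δ n ((Fin.cons p.1 p.2 : Fin (n + 1) → H) 0)
        ((Fin.cons p.1 p.2 : Fin (n + 1) → H) 0) (Fin.tail (Fin.cons p.1 p.2 : Fin (n + 1) → H))
        * ((β ((Fin.cons p.1 p.2 : Fin (n + 1) → H) 0) : ℝ) : ℂ))
      = fun p => chain582 Φ δ n p.1 p.1 p.2 * ((β p.1 : ℝ) : ℂ) := by
    funext p
    rw [Fin.cons_zero, Fin.tail_cons]
  rw [heq2]
  -- integrability
  obtain ⟨M, C, hM, hC, hb⟩ := lintegral_chain_le582 μ Φ hΦ δ n
  have hcont : Continuous (fun p : H × (Fin n → H) =>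
      chain582 Φ δ n p.1 p.1 p.2 * ((β p.1 : ℝ) : ℂ)) := by
    have h1 : Continuous (fun p : H × (Fin n → H) => chain582 Φ δ n p.1 p.1 p.2) :=
      (continuous_chain582 Φ (fun j => (hΦ j).1) δ n).comp
        (continuous_fst.prodMk (continuous_fst.prodMk continuous_snd))
    exact h1.mul (Complex.continuous_ofReal.comp (hβc.comp continuous_fst))
  have hmeas : Measurable (fun p : H × (Fin n → H) => ‖chain582 Φ δ n p.1 p.1 p.2‖ₑ) := by
    have h1 : Continuous (fun p : H × (Fin n → H) => chain582 Φ δ n p.1 p.1 p.2) :=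
      (continuous_chain582 Φ (fun j => (hΦ j).1) δ n).comp
        (continuous_fst.prodMk (continuous_fst.prodMk continuous_snd))
    exact h1.measurable.enorm
  have hint : Integrable (fun p : H × (Fin n → H) =>
      chain582 Φ δ n p.1 p.1 p.2 * ((β p.1 : ℝ) : ℂ))
      (μ.prod (Measure.pi fun _ : Fin n => μ)) := by
    refine ⟨hcont.aestronglyMeasurable, ?_⟩
    show ∫⁻ p : H × (Fin n → H), ‖chain582 Φ δ n p.1 p.1 p.2 * ((β p.1 : ℝ) : ℂ)‖ₑ
      ∂(μ.prod (Measure.pi fun _ : Fin n => μ)) < ⊤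
    rw [lintegral_prod _ hcont.measurable.enorm.aemeasurable]
    have hE : MeasurableSet {z : H | z⁻¹ * g * z ∈ C} := by
      have hc : Continuous (fun z : H => z⁻¹ * g * z) :=
        (continuous_inv.mul continuous_const).mul continuous_id
      exact hc.measurable hC.isClosed.measurableSet
    calc ∫⁻ z, ∫⁻ x, ‖chain582 Φ δ n z z x * ((β z : ℝ) : ℂ)‖ₑ
            ∂(Measure.pi fun _ : Fin n => μ) ∂μ
        = ∫⁻ z, (∫⁻ x, ‖chain582 Φ δ n z z x‖ₑ ∂(Measure.pi fun _ : Fin n => μ))
            * ENNReal.ofReal (β z) ∂μ := by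
          refine lintegral_congr fun z => ?_
          have h2 : ∀ x : Fin n → H, ‖chain582 Φ δ n z z x * ((β z : ℝ) : ℂ)‖ₑ
              = ‖chain582 Φ δ n z z x‖ₑ * ENNReal.ofReal (β z) := by
            intro x
            rw [enorm_mul]
            congr 1
            rw [← ofReal_norm, Complex.norm_real, Real.norm_of_nonneg (hβ0 z)]
          simp only [h2]
          rw [lintegral_mul_const]
          exact (continuous_chain_right582 Φ (fun j => (hΦ j).1) δ n z z).measurable.enorm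
      _ ≤ ∫⁻ z, M * ({z : H | z⁻¹ * g * z ∈ C}.indicator
            (fun z => ENNReal.ofReal (β z)) z) ∂μ := by
          refine lintegral_mono fun z => ?_
          refine le_trans (mul_le_mul' (hb z z) le_rfl) ?_
          by_cases h : z⁻¹ * g * z ∈ C
          · have h' : z ∈ {z : H | z⁻¹ * g * z ∈ C} := h
            rw [Set.indicator_of_mem h, Set.indicator_of_mem h']
            simp
          · rw [Set.indicator_of_notMem h]
            simp
      _ = M * ∫⁻ z in {z : H | z⁻¹ * g * z ∈ C}, ENNReal.ofReal (β z) ∂μ := by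
          rw [lintegral_const_mul' _ _ hM.ne, lintegral_indicator hE]
      _ < ⊤ := ENNReal.mul_lt_top hM (hfin C hC)
  rw [integral_prod _ hint]
  refine integral_congr_ae (ae_of_all _ fun z => ?_)
  show ∫ x, chain582 Φ δ n z z x * ((β z : ℝ) : ℂ) ∂(Measure.pi fun _ : Fin n => μ) = _
  rw [integral_mul_const, integral_chain582 μ Φ hΦ, iterL_eq159]

end Meas

end Fermat.Agent.LT.T7.H582

end

end
-- ===== PACK-END LT/T7/H582/ChainFubini.lean

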