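import Mathlib
import Fermat.Prelude.Def_ModularForm_HeckeOperator
import Fermat.Agent.Pack.LT3.E5L3
import Fermat.Agent.Pack.LT3.E0L0
import Fermat.Agent.Pack.LT3.E5L2
import Fermat.Agent.Pack.LT3.E0L2
import Fermat.Agent.Pack.LT3.E5L1
import Fermat.Agent.Pack.LT2.E0L2
import Fermat.Agent.Pack.LT2.E3L1
import Fermat.Agent.Pack.LT2.E6L3
import Fermat.Agent.Pack.LT2.E2L1
import Fermat.Agent.Pack.LT2.E5L3
import Fermat.Agent.Pack.LT3.E5L0
import Fermat.Agent.Pack.LT2.E0L1
import Fermat.Agent.Pack.LT3.E2L2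
import Fermat.Agent.Pack.LT3.E7L1

set_option linter.all false

-- ===== PACK-BEGIN LT/CFT/H137/SUnit.lean
section



/-!
# Row LT, tower CFT, sub-tower EX, leaf E1 (EXIST-QUAD), COUNT assets (helper137, OFF-MAIN)

**Dirichlet's `T`-unit theorem modulo squares** (Mathlib only).  For a number field `K` and a
finite set `T` of primes of `𝓞 K`, with `U_T = T.unit K ≤ Kˣ` the group of `T`-units:

* `index_sq_tUnit137` : `[U_T : U_T²] = 2 ^ #T * 2 ^ (rank K + 1)`.

Route: `ord : U_T → ℤ^T` has kernel `𝓞ˣ` and image `Λ` of finite index (class number), so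
`[U_T : U_T²] = [Λ : 2Λ] * [𝓞ˣ : 𝓞ˣ²]`.
-/

set_option autoImplicit false
set_option linter.unusedSectionVars false

open IsDedekindDomain NumberField

namespace Fermat.Agent.LT.CFT.H137

variable (K : Type*) [Field K] [NumberField K]

/-- The group of `T`-units. -/
noncomputable abbrev tUnit137 (T : Finset (HeightOneSpectrum (𝓞 K))) : Subgroup Kˣ :=
  (T : Set (HeightOneSpectrum (𝓞 K))).unit K

variable {K}

theorem mem_tUnit137 {T : Finset (HeightOneSpectrum (𝓞 K))} {x : Kˣ} :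
    x ∈ tUnit137 K T ↔ ∀ v : HeightOneSpectrum (𝓞 K), v ∉ T → v.valuation K (x : K) = 1 := by
  constructor
  · intro h v hv
    exact Set.unit_valuation_eq_one (T : Set (HeightOneSpectrum (𝓞 K))) K ⟨x, h⟩
      (by simpa using hv)
  · intro h
    show x ∈ (T : Set (HeightOneSpectrum (𝓞 K))).unit K
    rw [Set.unit_eq]
    simp only [Subgroup.mem_iInf]
    intro v hv
    rw [Valuation.mem_unitGroup_iff]
    exact h v (by simpa using hv)

theorem valuationOfNeZero_eq_one_iff137 (v : HeightOneSpectrum (𝓞 K)) (x : Kˣ) :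
    v.valuationOfNeZero x = 1 ↔ v.valuation K (x : K) = 1 := by
  rw [← v.valuationOfNeZero_eq x, ← WithZero.coe_one, WithZero.coe_inj]

variable (K)

/-- The valuation vector of a `T`-unit at the places of `T`. -/
noncomputable def ordT137 (T : Finset (HeightOneSpectrum (𝓞 K))) :
    tUnit137 K T →* (↥T → Multiplicative ℤ) :=
  MonoidHom.pi fun v =>
    (HeightOneSpectrum.valuationOfNeZero (K := K) v.1).comp (Subgroup.subtype _)

theorem ordT_apply137 (T : Finset (HeightOneSpectrum (𝓞 K))) (x : tUnit137 K T) (v : ↥T) :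
    ordT137 K T x v = HeightOneSpectrum.valuationOfNeZero v.1 (x : Kˣ) := rfl

/-- The units of `𝓞 K` as `T`-units. -/
noncomputable def unitsToT137 (T : Finset (HeightOneSpectrum (𝓞 K))) :
    (𝓞 K)ˣ →* tUnit137 K T :=
  (Units.map (algebraMap (𝓞 K) K : 𝓞 K →* K)).codRestrict (tUnit137 K T) fun u => by
    rw [mem_tUnit137]
    intro v _
    rw [← valuationOfNeZero_eq_one_iff137]
    exact v.valuation_of_unit_eq u

theorem unitsToT_injective137 (T : Finset (HeightOneSpectrum (𝓞 K))) :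
    Function.Injective (unitsToT137 K T) := by
  intro a b h
  have h1 : (Units.map (algebraMap (𝓞 K) K : 𝓞 K →* K)) a =
      (Units.map (algebraMap (𝓞 K) K : 𝓞 K →* K)) b := congrArg Subtype.val h
  have h2 : algebraMap (𝓞 K) K (a : 𝓞 K) = algebraMap (𝓞 K) K (b : 𝓞 K) :=
    congrArg Units.val h1
  exact Units.ext (FaithfulSMul.algebraMap_injective (𝓞 K) K h2)

theorem ordT_ker137 (T : Finset (HeightOneSpectrum (𝓞 K))) :
    (ordT137 K T).ker = (unitsToT137 K T).range := by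
  ext x
  rw [MonoidHom.mem_ker, MonoidHom.mem_range]
  constructor
  · intro h
    have hall : ∀ v : HeightOneSpectrum (𝓞 K), v.valuation K ((x : Kˣ) : K) = 1 := by
      intro v
      by_cases hv : v ∈ T
      · rw [← valuationOfNeZero_eq_one_iff137]
        exact congrFun h ⟨v, hv⟩
      · exact mem_tUnit137.1 x.2 v hv
    have hall' : ∀ v : HeightOneSpectrum (𝓞 K), v.valuation K (((x : Kˣ)⁻¹ : Kˣ) : K) = 1 := by
      intro v
      rw [Units.val_inv_eq_inv_val, map_inv₀, hall v, inv_one]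
    obtain ⟨a, ha⟩ := HeightOneSpectrum.mem_integers_of_valuation_le_one K ((x : Kˣ) : K)
      (fun v => (hall v).le)
    obtain ⟨b, hb⟩ := HeightOneSpectrum.mem_integers_of_valuation_le_one K
      (((x : Kˣ)⁻¹ : Kˣ) : K) (fun v => (hall' v).le)
    have hab : a * b = 1 := by
      apply FaithfulSMul.algebraMap_injective (𝓞 K) K
      rw [map_mul, ha, hb, map_one, ← Units.val_mul, mul_inv_cancel, Units.val_one]
    have hba : b * a = 1 := by rw [mul_comm]; exact hab
    refine ⟨⟨a, b, hab, hba⟩, ?_⟩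
    apply Subtype.ext
    apply Units.ext
    exact ha
  · rintro ⟨u, rfl⟩
    funext v
    rw [ordT_apply137]
    exact v.1.valuation_of_unit_eq u

/-- The squares of the `T`-units pull back to the squares of the units. -/
theorem comap_sq_unitsToT137 (T : Finset (HeightOneSpectrum (𝓞 K))) :
    (powMonoidHom 2 : tUnit137 K T →* tUnit137 K T).range.comap (unitsToT137 K T) =
      (powMonoidHom 2 : (𝓞 K)ˣ →* (𝓞 K)ˣ).range := by
  ext u
  rw [Subgroup.mem_comap, MonoidHom.mem_range, MonoidHom.mem_range]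
  constructor
  · rintro ⟨y, hy⟩
    rw [powMonoidHom_apply] at hy
    have h1 : ordT137 K T y ^ 2 = 1 := by
      rw [← map_pow, hy]
      have : unitsToT137 K T u ∈ (ordT137 K T).ker := by
        rw [ordT_ker137]; exact ⟨u, rfl⟩
      exact this
    have h2 : ordT137 K T y = 1 := by
      apply pow_two_injective137 (↥T)
      rw [powMonoidHom_apply, powMonoidHom_apply, h1, one_pow]
    have h3 : y ∈ (unitsToT137 K T).range := by
      rw [← ordT_ker137]; exact h2
    obtain ⟨w, rfl⟩ := h3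
    refine ⟨w, ?_⟩
    apply unitsToT_injective137 K T
    rw [powMonoidHom_apply, map_pow]
    exact hy
  · rintro ⟨w, rfl⟩
    exact ⟨unitsToT137 K T w, by rw [powMonoidHom_apply, powMonoidHom_apply, map_pow]⟩

/-- `[𝓞ˣ : 𝓞ˣ²]` as a relative index inside the `T`-units. -/
theorem relIndex_sq_ker137 (T : Finset (HeightOneSpectrum (𝓞 K))) :
    (powMonoidHom 2 : tUnit137 K T →* tUnit137 K T).range.relIndex (ordT137 K T).ker =
      2 ^ (Units.rank K + 1) := by
  rw [ordT_ker137, ← Subgroup.index_comap, comap_sq_unitsToT137, index_sq_units_eq137]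

/-- A generator of `v ^ h`, `h` the class number. -/
theorem exists_generator_pow137 (v : HeightOneSpectrum (𝓞 K)) :
    ∃ π : 𝓞 K, π ≠ 0 ∧ Ideal.span {π} = v.asIdeal ^ (Fintype.card (ClassGroup (𝓞 K))) := by
  classical
  set h := Fintype.card (ClassGroup (𝓞 K)) with hh
  have hv0 : v.asIdeal ∈ nonZeroDivisors (Ideal (𝓞 K)) :=
    mem_nonZeroDivisors_of_ne_zero v.ne_bot
  have h1 : (ClassGroup.mk0 ⟨v.asIdeal, hv0⟩) ^ h = 1 := pow_card_eq_one
  rw [← map_pow, ClassGroup.mk0_eq_one_iff] at h1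
  obtain ⟨π, hπ⟩ := h1
  have hπ' : v.asIdeal ^ h = Ideal.span {π} := by
    have : ((⟨v.asIdeal, hv0⟩ ^ h : nonZeroDivisors (Ideal (𝓞 K))) : Ideal (𝓞 K)) =
        v.asIdeal ^ h := by
      rw [SubmonoidClass.coe_pow]
    rw [← this, hπ]
  refine ⟨π, ?_, hπ'.symm⟩
  rintro rfl
  rw [Ideal.span_singleton_eq_bot.2 rfl] at hπ'
  exact pow_ne_zero _ v.ne_bot hπ'

open Classical in
/-- The valuations of a generator of `v ^ h`. -/
theorem exists_tUnit_single137 (T : Finset (HeightOneSpectrum (𝓞 K))) (v : ↥T) :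
    ∃ p : tUnit137 K T, ordT137 K T p =
      Pi.mulSingle (M := fun _ : ↥T => Multiplicative ℤ) v
        (Multiplicative.ofAdd (-(Fintype.card (ClassGroup (𝓞 K)) : ℤ))) := by
  classical
  set h := Fintype.card (ClassGroup (𝓞 K)) with hh
  obtain ⟨π, hπ0, hπ⟩ := exists_generator_pow137 K v.1
  have hK0 : algebraMap (𝓞 K) K π ≠ 0 := by
    rw [Ne, map_eq_zero_iff _ (FaithfulSMul.algebraMap_injective (𝓞 K) K)]
    exact hπ0
  -- valuations away from `v`
  have hw : ∀ w : HeightOneSpectrum (𝓞 K), w ≠ v.1 → w.valuation K (algebraMap (𝓞 K) K π) = 1 := by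
    intro w hwv
    rw [HeightOneSpectrum.valuation_of_algebraMap]
    by_contra hne
    have hlt : w.intValuation π < 1 := lt_of_le_of_ne (w.intValuation_le_one π) hne
    rw [HeightOneSpectrum.intValuation_lt_one_iff_mem] at hlt
    have hle : v.1.asIdeal ^ h ≤ w.asIdeal := by
      rw [← hπ, Ideal.span_singleton_le_iff_mem]; exact hlt
    have hle' : v.1.asIdeal ≤ w.asIdeal := Ideal.IsPrime.le_of_pow_le hle
    have : v.1.asIdeal = w.asIdeal := v.1.isMaximal.eq_of_le w.isPrime.ne_top hle'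
    exact hwv (HeightOneSpectrum.ext this.symm)
  -- valuation at `v`
  have hv : v.1.valuation K (algebraMap (𝓞 K) K π) = WithZero.exp (-(h : ℤ)) := by
    rw [HeightOneSpectrum.valuation_of_algebraMap]
    have h1 : v.1.intValuation π ≤ WithZero.exp (-(h : ℤ)) := by
      rw [HeightOneSpectrum.intValuation_le_pow_iff_mem, ← hπ]
      exact Ideal.mem_span_singleton_self π
    have h2 : ¬ v.1.intValuation π ≤ WithZero.exp (-((h + 1 : ℕ) : ℤ)) := by
      rw [HeightOneSpectrum.intValuation_le_pow_iff_mem]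
      intro hmem
      have hle : v.1.asIdeal ^ h ≤ v.1.asIdeal ^ (h + 1) := by
        rw [← hπ, Ideal.span_singleton_le_iff_mem]; exact hmem
      have hlt : v.1.asIdeal ^ (h + 1) < v.1.asIdeal ^ h :=
        haveI := v.1.isPrime
        Ideal.pow_succ_lt_pow v.1.ne_bot h
      exact absurd hle (not_le_of_gt hlt)
    have hne : v.1.intValuation π ≠ 0 := v.1.intValuation_ne_zero _ hπ0
    have ea : v.1.intValuation π = WithZero.exp (WithZero.log (v.1.intValuation π)) :=
      (WithZero.exp_log hne).symm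
    rw [ea] at h1 h2 ⊢
    rw [WithZero.exp_le_exp] at h1 h2
    congr 1
    push_cast at h2
    omega
  have hmem : Units.mk0 (algebraMap (𝓞 K) K π) hK0 ∈ tUnit137 K T := by
    rw [mem_tUnit137]
    intro w hwT
    exact hw w (fun h => hwT (h ▸ v.2))
  refine ⟨⟨Units.mk0 _ hK0, hmem⟩, ?_⟩
  funext w
  rw [ordT_apply137]
  by_cases hwv : w = v
  · subst hwv
    rw [Pi.mulSingle_eq_same, ← WithZero.coe_inj, HeightOneSpectrum.valuationOfNeZero_eq]
    exact hv
  · rw [Pi.mulSingle_eq_of_ne hwv, valuationOfNeZero_eq_one_iff137]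
    exact hw w.1 (fun h => hwv (Subtype.ext h))

/-- The image of `ord` has finite index. -/
theorem index_range_ordT_ne_zero137 (T : Finset (HeightOneSpectrum (𝓞 K))) :
    (ordT137 K T).range.index ≠ 0 := by
  classical
  set h := Fintype.card (ClassGroup (𝓞 K)) with hh
  have hpos : h ≠ 0 := Fintype.card_ne_zero
  have hle : (powMonoidHom h : (↥T → Multiplicative ℤ) →* _).range ≤ (ordT137 K T).range := by
    rintro _ ⟨m, rfl⟩
    choose p hp using exists_tUnit_single137 K T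
    refine ⟨∏ v : ↥T, p v ^ (-(Multiplicative.toAdd (m v))), ?_⟩
    rw [map_prod]
    funext w
    rw [Finset.prod_apply, powMonoidHom_apply, Pi.pow_apply]
    rw [Finset.prod_eq_single w]
    · rw [map_zpow, Pi.pow_apply, hp w, Pi.mulSingle_eq_same, ← ofAdd_zsmul,
        ← ofAdd_toAdd (m w ^ h), toAdd_pow]
      congr 1
      simp only [smul_eq_mul, nsmul_eq_mul]
      ring
    · intro v _ hvw
      rw [map_zpow, Pi.pow_apply, hp v, Pi.mulSingle_eq_of_ne (Ne.symm hvw), one_zpow]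
    · intro hw
      exact absurd (Finset.mem_univ w) hw
  have hidx := index_range_pow137 (↥T) h hpos
  have hdvd := Subgroup.index_dvd_of_le hle
  rw [hidx] at hdvd
  intro h0
  rw [h0, zero_dvd_iff] at hdvd
  exact pow_ne_zero _ hpos hdvd

/-- **`T`-UNIT THEOREM MODULO SQUARES.**  `[U_T : U_T²] = 2 ^ #T * 2 ^ (rank K + 1)`. -/
theorem index_sq_tUnit137 (T : Finset (HeightOneSpectrum (𝓞 K))) :
    (powMonoidHom 2 : tUnit137 K T →* tUnit137 K T).range.index =
      2 ^ T.card * 2 ^ (Units.rank K + 1) := by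
  classical
  set sq : Subgroup (tUnit137 K T) := (powMonoidHom 2 : tUnit137 K T →* tUnit137 K T).range
    with hsq
  set N : Subgroup (tUnit137 K T) := sq ⊔ (ordT137 K T).ker with hN
  have hle : sq ≤ N := le_sup_left
  have h1 := Subgroup.relIndex_mul_index hle
  have h2 : sq.relIndex N = 2 ^ (Units.rank K + 1) := by
    rw [hN, Subgroup.relIndex_sup_left]
    exact relIndex_sq_ker137 K T
  have h3 : N.index = 2 ^ T.card := by
    have e1 : N = (sq.map (ordT137 K T)).comap (ordT137 K T) := by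
      rw [Subgroup.comap_map_eq]
    have e2 : sq.map (ordT137 K T) =
        (ordT137 K T).range.map (powMonoidHom 2 : (↥T → Multiplicative ℤ) →* _) := by
      rw [hsq, MonoidHom.map_range, MonoidHom.map_range]
      congr 1
      ext x : 1
      simp only [MonoidHom.comp_apply, powMonoidHom_apply, map_pow]
    rw [e1, Subgroup.index_comap, e2,
      relIndex_map_pow_two137 (↥T) _ (index_range_ordT_ne_zero137 K T),
      Nat.card_eq_fintype_card, Fintype.card_coe]
  rw [← h1, h2, h3, mul_comm]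

end Fermat.Agent.LT.CFT.H137

end
-- ===== PACK-END LT/CFT/H137/SUnit.lean

-- ===== PACK-BEGIN LT/T6/H543/CartanR.lean
section


/-!
# Row LT, tower T6, leaf T6.29.R1 = CARTAN-R (helper543)

OFF-MAIN.  `cartanRC_h543 : H830.CartanRC`, VERBATIM (`LT/T6/H830/HCSpec.lean`, helper830):
every `y ∈ GL₂(ℝ)` with `det y > 0` is `k_α · e^{ζ/2} a_t · k_β` with `t ≥ 0`.

Proof.  `y = [[a, b], [c, d]]` acts on `ℂ = ℝ²` by `w ↦ A w + B w̄`,
`A = ((a + d) + i (c - b)) / 2`, `B = ((a - d) + i (c + b)) / 2`, `|A|² - |B|² = det y > 0`.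
With `φ = arg A`, `ψ = arg B`: `α = (φ + ψ) / 2`, `β = (φ - ψ) / 2`, `e^{(ζ + t)/2} = |A| + |B|`,
`e^{(ζ - t)/2} = |A| - |B|`.
-/

set_option autoImplicit false

open scoped Matrix

noncomputable section

namespace Fermat.Agent.LT.T6.H543

open Fermat.Agent.LT.T6 Fermat.Agent.LT.T6.H830

/-- The real identity behind the Cartan decomposition. -/
theorem cartan_entries543 (a b c d : ℝ) (hdet : 0 < a * d - b * c) :
    ∃ ζ α β t : ℝ, 0 ≤ t ∧
      a = Real.cos α * Real.exp ((ζ + t) / 2) * Real.cos β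
          - Real.sin α * Real.exp ((ζ - t) / 2) * Real.sin β ∧
      b = -(Real.cos α * Real.exp ((ζ + t) / 2) * Real.sin β)
          - Real.sin α * Real.exp ((ζ - t) / 2) * Real.cos β ∧
      c = Real.sin α * Real.exp ((ζ + t) / 2) * Real.cos β
          + Real.cos α * Real.exp ((ζ - t) / 2) * Real.sin β ∧
      d = -(Real.sin α * Real.exp ((ζ + t) / 2) * Real.sin β)
          + Real.cos α * Real.exp ((ζ - t) / 2) * Real.cos β := by
  set A : ℂ := ⟨(a + d) / 2, (c - b) / 2⟩ with hA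
  set B : ℂ := ⟨(a - d) / 2, (c + b) / 2⟩ with hB
  have hAre : ‖A‖ * Real.cos (Complex.arg A) = (a + d) / 2 := Complex.norm_mul_cos_arg A
  have hAim : ‖A‖ * Real.sin (Complex.arg A) = (c - b) / 2 := Complex.norm_mul_sin_arg A
  have hBre : ‖B‖ * Real.cos (Complex.arg B) = (a - d) / 2 := Complex.norm_mul_cos_arg B
  have hBim : ‖B‖ * Real.sin (Complex.arg B) = (c + b) / 2 := Complex.norm_mul_sin_arg B
  have hsq : ‖B‖ ^ 2 < ‖A‖ ^ 2 := by
    rw [Complex.sq_norm, Complex.sq_norm, Complex.normSq_apply, Complex.normSq_apply]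
    show (a - d) / 2 * ((a - d) / 2) + (c + b) / 2 * ((c + b) / 2)
      < (a + d) / 2 * ((a + d) / 2) + (c - b) / 2 * ((c - b) / 2)
    nlinarith
  have hlt : ‖B‖ < ‖A‖ := lt_of_pow_lt_pow_left₀ 2 (norm_nonneg A) hsq
  have hB0 : 0 ≤ ‖B‖ := norm_nonneg B
  set L₁ : ℝ := ‖A‖ + ‖B‖ with hL₁
  set L₂ : ℝ := ‖A‖ - ‖B‖ with hL₂
  have hL₂pos : 0 < L₂ := sub_pos.mpr hlt
  have hL₁pos : 0 < L₁ := by linarith
  have hle : L₂ ≤ L₁ := by linarith
  set φ := Complex.arg A with hφ
  set ψ := Complex.arg B with hψ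
  refine ⟨Real.log L₁ + Real.log L₂, (φ + ψ) / 2, (φ - ψ) / 2, Real.log L₁ - Real.log L₂,
    sub_nonneg.mpr (Real.log_le_log hL₂pos hle), ?_⟩
  have e1 : Real.exp ((Real.log L₁ + Real.log L₂ + (Real.log L₁ - Real.log L₂)) / 2) = L₁ := by
    rw [show (Real.log L₁ + Real.log L₂ + (Real.log L₁ - Real.log L₂)) / 2 = Real.log L₁ by ring,
      Real.exp_log hL₁pos]
  have e2 : Real.exp ((Real.log L₁ + Real.log L₂ - (Real.log L₁ - Real.log L₂)) / 2) = L₂ := by
    rw [show (Real.log L₁ + Real.log L₂ - (Real.log L₁ - Real.log L₂)) / 2 = Real.log L₂ by ring,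
      Real.exp_log hL₂pos]
  rw [e1, e2]
  have cφ : Real.cos φ = Real.cos ((φ + ψ) / 2) * Real.cos ((φ - ψ) / 2)
      - Real.sin ((φ + ψ) / 2) * Real.sin ((φ - ψ) / 2) := by
    rw [← Real.cos_add]; congr 1; ring
  have sφ : Real.sin φ = Real.sin ((φ + ψ) / 2) * Real.cos ((φ - ψ) / 2)
      + Real.cos ((φ + ψ) / 2) * Real.sin ((φ - ψ) / 2) := by
    rw [← Real.sin_add]; congr 1; ring
  have cψ : Real.cos ψ = Real.cos ((φ + ψ) / 2) * Real.cos ((φ - ψ) / 2)
      + Real.sin ((φ + ψ) / 2) * Real.sin ((φ - ψ) / 2) := by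
    rw [← Real.cos_sub]; congr 1; ring
  have sψ : Real.sin ψ = Real.sin ((φ + ψ) / 2) * Real.cos ((φ - ψ) / 2)
      - Real.cos ((φ + ψ) / 2) * Real.sin ((φ - ψ) / 2) := by
    rw [← Real.sin_sub]; congr 1; ring
  rw [cφ] at hAre
  rw [sφ] at hAim
  rw [cψ] at hBre
  rw [sψ] at hBim
  refine ⟨?_, ?_, ?_, ?_⟩
  · rw [hL₁, hL₂]; linear_combination -hAre - hBre
  · rw [hL₁, hL₂]; linear_combination hAim - hBim
  · rw [hL₁, hL₂]; linear_combination -hAim - hBim
  · rw [hL₁, hL₂]; linear_combination -hAre + hBre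

/-- **T6.29.R1 = CARTAN-R**, verbatim. -/
theorem cartanRC_h543 : CartanRC := by
  intro y hy
  rw [Matrix.det_fin_two] at hy
  obtain ⟨ζ, α, β, t, ht, ha, hb, hc, hd⟩ := cartan_entries543 _ _ _ _ hy
  refine ⟨ζ, α, β, t, ht, ?_⟩
  apply Units.ext
  rw [Units.val_mul, Units.val_mul, coe_rotR830, coe_bR830, coe_rotR830]
  ext i j
  fin_cases i <;> fin_cases j
  · simp only [Fin.zero_eta, Fin.isValue, Matrix.mul_apply, Fin.sum_univ_two, Matrix.of_apply,
      Matrix.cons_val', Matrix.cons_val_zero, Matrix.cons_val_fin_one, Matrix.cons_val_one]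
    rw [ha]; ring
  · simp only [Fin.zero_eta, Fin.isValue, Fin.mk_one, Matrix.mul_apply, Fin.sum_univ_two,
      Matrix.of_apply, Matrix.cons_val', Matrix.cons_val_zero, Matrix.cons_val_fin_one,
      Matrix.cons_val_one]
    rw [hb]; ring
  · simp only [Fin.zero_eta, Fin.isValue, Fin.mk_one, Matrix.mul_apply, Fin.sum_univ_two,
      Matrix.of_apply, Matrix.cons_val', Matrix.cons_val_zero, Matrix.cons_val_fin_one,
      Matrix.cons_val_one]
    rw [hc]; ring
  · simp only [Fin.mk_one, Fin.isValue, Matrix.mul_apply, Fin.sum_univ_two, Matrix.of_apply,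
      Matrix.cons_val', Matrix.cons_val_zero, Matrix.cons_val_fin_one, Matrix.cons_val_one]
    rw [hd]; ring

end Fermat.Agent.LT.T6.H543

end

end
-- ===== PACK-END LT/T6/H543/CartanR.lean

-- ===== PACK-BEGIN LT/T6/H162/SphAvgOf.lean
section



/-!
# Row LT, tower T6, leaf T6.29.R3 `SphAvgOfC` (helper162) -- OFF-MAIN

`sphAvgOfC162 : Fermat.Agent.LT.T6.H830.SphAvgOfC`, VERBATIM the Prop of
`LT/T6/H830/HCSpec.lean` (helper830, sha256 c3e7d846d59fc805; on `T6/SpecArch.lean`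
003240b217cb0def, byte-identical copies): `CartanRC → SphAvgAtC → SphAvgRC`.

Reusable (all for arbitrary `g : GL₂(ℝ)`):
* `rotR_mul_rotR162`, `rotR_add_two_pi162`;
* `holPart_rotR_mul162`, `holPart_mul_rotR162`, `holPart_bR162`;
* `rhoR_eq162` (formula in the entries), `rhoR_rotR_mul162`, `rhoR_mul_rotR162`, `rhoR_bR162`;
* `eisR_mul_rotR162` (`E(g k_β) = e^{inβ} E(g)`), `eisR_of_smul162` (`E(λ g) = E(g)`, `λ > 0`);
* `wtPhase_cartan162`, `rhoR_cartan162`.
-/

set_option autoImplicit false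

open scoped Matrix
open MeasureTheory

noncomputable section

namespace Fermat.Agent.LT.T6.H162

open Fermat.Agent.LT.T6 Fermat.Agent.LT.T6.H830

/-! ## 1. Entries -/

theorem rotR_mul_apply162 (α : ℝ) (g : GL (Fin 2) ℝ) (j : Fin 2) :
    ((rotR α * g : GL (Fin 2) ℝ) : Matrix (Fin 2) (Fin 2) ℝ) 0 j
        = Real.cos α * (g : Matrix (Fin 2) (Fin 2) ℝ) 0 j
          - Real.sin α * (g : Matrix (Fin 2) (Fin 2) ℝ) 1 j ∧
      ((rotR α * g : GL (Fin 2) ℝ) : Matrix (Fin 2) (Fin 2) ℝ) 1 j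
        = Real.sin α * (g : Matrix (Fin 2) (Fin 2) ℝ) 0 j
          + Real.cos α * (g : Matrix (Fin 2) (Fin 2) ℝ) 1 j := by
  rw [Units.val_mul, coe_rotR830]
  constructor
  · rw [Matrix.mul_apply, Fin.sum_univ_two]
    simp
    ring
  · rw [Matrix.mul_apply, Fin.sum_univ_two]
    simp

theorem mul_rotR_apply162 (g : GL (Fin 2) ℝ) (β : ℝ) (i : Fin 2) :
    ((g * rotR β : GL (Fin 2) ℝ) : Matrix (Fin 2) (Fin 2) ℝ) i 0
        = (g : Matrix (Fin 2) (Fin 2) ℝ) i 0 * Real.cos β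
          + (g : Matrix (Fin 2) (Fin 2) ℝ) i 1 * Real.sin β ∧
      ((g * rotR β : GL (Fin 2) ℝ) : Matrix (Fin 2) (Fin 2) ℝ) i 1
        = -((g : Matrix (Fin 2) (Fin 2) ℝ) i 0 * Real.sin β)
          + (g : Matrix (Fin 2) (Fin 2) ℝ) i 1 * Real.cos β := by
  rw [Units.val_mul, coe_rotR830]
  constructor
  · rw [Matrix.mul_apply, Fin.sum_univ_two]
    simp
  · rw [Matrix.mul_apply, Fin.sum_univ_two]
    simp

theorem det_rotR162 (α : ℝ) : ((rotR α : GL (Fin 2) ℝ) : Matrix (Fin 2) (Fin 2) ℝ).det = 1 := by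
  rw [coe_rotR830, Matrix.det_fin_two_of]
  have h := Real.cos_sq_add_sin_sq α
  linear_combination h

theorem det_rotR_mul162 (α : ℝ) (g : GL (Fin 2) ℝ) :
    ((rotR α * g : GL (Fin 2) ℝ) : Matrix (Fin 2) (Fin 2) ℝ).det
      = (g : Matrix (Fin 2) (Fin 2) ℝ).det := by
  rw [Units.val_mul, Matrix.det_mul, det_rotR162, one_mul]

theorem det_mul_rotR162 (g : GL (Fin 2) ℝ) (β : ℝ) :
    ((g * rotR β : GL (Fin 2) ℝ) : Matrix (Fin 2) (Fin 2) ℝ).det
      = (g : Matrix (Fin 2) (Fin 2) ℝ).det := by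
  rw [Units.val_mul, Matrix.det_mul, det_rotR162, mul_one]

theorem rotR_mul_rotR162 (θ α : ℝ) : rotR θ * rotR α = rotR (θ + α) := by
  apply Units.ext
  ext i j
  have h := rotR_mul_apply162 θ (rotR α) j
  fin_cases i
  · show ((rotR θ * rotR α : GL (Fin 2) ℝ) : Matrix (Fin 2) (Fin 2) ℝ) 0 j = _
    rw [h.1, coe_rotR830, coe_rotR830]
    fin_cases j
    · simp [Real.cos_add]
    · simp [Real.sin_add]; ring
  · show ((rotR θ * rotR α : GL (Fin 2) ℝ) : Matrix (Fin 2) (Fin 2) ℝ) 1 j = _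
    rw [h.2, coe_rotR830, coe_rotR830]
    fin_cases j
    · simp [Real.sin_add]
    · simp [Real.cos_add]; ring

theorem rotR_add_two_pi162 (θ : ℝ) : rotR (θ + 2 * Real.pi) = rotR θ := by
  apply Units.ext
  rw [coe_rotR830, coe_rotR830, Real.cos_add_two_pi, Real.sin_add_two_pi]

/-! ## 2. The holomorphic part -/

theorem holPart_rotR_mul162 (α : ℝ) (g : GL (Fin 2) ℝ) :
    holPart (rotR α * g) = Complex.exp ((α : ℂ) * Complex.I) * holPart g := by
  unfold holPart
  rw [(rotR_mul_apply162 α g 0).1, (rotR_mul_apply162 α g 0).2, (rotR_mul_apply162 α g 1).1,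
    (rotR_mul_apply162 α g 1).2, Complex.exp_mul_I, ← Complex.ofReal_cos, ← Complex.ofReal_sin]
  apply Complex.ext
  · simp
    ring
  · simp
    ring

theorem holPart_mul_rotR162 (g : GL (Fin 2) ℝ) (β : ℝ) :
    holPart (g * rotR β) = holPart g * Complex.exp ((β : ℂ) * Complex.I) := by
  unfold holPart
  rw [(mul_rotR_apply162 g β 0).1, (mul_rotR_apply162 g β 0).2, (mul_rotR_apply162 g β 1).1,
    (mul_rotR_apply162 g β 1).2, Complex.exp_mul_I, ← Complex.ofReal_cos, ← Complex.ofReal_sin]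
  apply Complex.ext
  · simp
    ring
  · simp
    ring

theorem holPart_bR162 (ζ t : ℝ) :
    holPart (bR ζ t 0) = ((Real.exp (ζ / 2) * Real.cosh (t / 2) : ℝ) : ℂ) := by
  unfold holPart
  rw [coe_bR830]
  have h1 : Real.exp ((ζ + t) / 2) = Real.exp (ζ / 2) * Real.exp (t / 2) := by
    rw [← Real.exp_add]; congr 1; ring
  have h2 : Real.exp ((ζ - t) / 2) = Real.exp (ζ / 2) * Real.exp (-(t / 2)) := by
    rw [← Real.exp_add]; congr 1; ring
  simp only [Matrix.of_apply, Matrix.cons_val', Matrix.cons_val_zero, Matrix.cons_val_one,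
    Matrix.cons_val_fin_one, mul_zero, sub_zero]
  have h : Real.exp ((ζ + t) / 2) + Real.exp ((ζ - t) / 2)
      = 2 * (Real.exp (ζ / 2) * Real.cosh (t / 2)) := by
    rw [Real.cosh_eq, h1, h2]
    ring
  rw [h]
  push_cast
  ring

/-! ## 3. The radial coordinate -/

theorem rhoR_eq162 (g : GL (Fin 2) ℝ) :
    rhoR g = ((g : Matrix (Fin 2) (Fin 2) ℝ) 0 0 ^ 2 + (g : Matrix (Fin 2) (Fin 2) ℝ) 0 1 ^ 2
        + (g : Matrix (Fin 2) (Fin 2) ℝ) 1 0 ^ 2 + (g : Matrix (Fin 2) (Fin 2) ℝ) 1 1 ^ 2)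
      / (2 * |(g : Matrix (Fin 2) (Fin 2) ℝ).det|) := by
  unfold rhoR
  congr 1
  rw [Matrix.trace_fin_two, Matrix.mul_apply, Matrix.mul_apply, Fin.sum_univ_two,
    Fin.sum_univ_two]
  simp only [Matrix.transpose_apply]
  ring

theorem rhoR_rotR_mul162 (α : ℝ) (g : GL (Fin 2) ℝ) : rhoR (rotR α * g) = rhoR g := by
  rw [rhoR_eq162, rhoR_eq162, det_rotR_mul162, (rotR_mul_apply162 α g 0).1,
    (rotR_mul_apply162 α g 0).2, (rotR_mul_apply162 α g 1).1, (rotR_mul_apply162 α g 1).2]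
  congr 1
  have h := Real.cos_sq_add_sin_sq α
  linear_combination ((g : Matrix (Fin 2) (Fin 2) ℝ) 0 0 ^ 2
    + (g : Matrix (Fin 2) (Fin 2) ℝ) 0 1 ^ 2 + (g : Matrix (Fin 2) (Fin 2) ℝ) 1 0 ^ 2
    + (g : Matrix (Fin 2) (Fin 2) ℝ) 1 1 ^ 2) * h

theorem rhoR_mul_rotR162 (g : GL (Fin 2) ℝ) (β : ℝ) : rhoR (g * rotR β) = rhoR g := by
  rw [rhoR_eq162, rhoR_eq162, det_mul_rotR162, (mul_rotR_apply162 g β 0).1,
    (mul_rotR_apply162 g β 0).2, (mul_rotR_apply162 g β 1).1, (mul_rotR_apply162 g β 1).2]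
  congr 1
  have h := Real.cos_sq_add_sin_sq β
  linear_combination ((g : Matrix (Fin 2) (Fin 2) ℝ) 0 0 ^ 2
    + (g : Matrix (Fin 2) (Fin 2) ℝ) 0 1 ^ 2 + (g : Matrix (Fin 2) (Fin 2) ℝ) 1 0 ^ 2
    + (g : Matrix (Fin 2) (Fin 2) ℝ) 1 1 ^ 2) * h

theorem rhoR_bR162 (ζ t : ℝ) : rhoR (bR ζ t 0) = Real.cosh t := by
  rw [rhoR_eq162, coe_bR830, Matrix.det_fin_two_of]
  simp only [Matrix.of_apply, Matrix.cons_val', Matrix.cons_val_zero, Matrix.cons_val_one,
    Matrix.cons_val_fin_one, mul_zero, sub_zero]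
  have h1 : Real.exp ((ζ + t) / 2) ^ 2 = Real.exp ζ * Real.exp t := by
    rw [← Real.exp_add, sq, ← Real.exp_add]; congr 1; ring
  have h2 : Real.exp ((ζ - t) / 2) ^ 2 = Real.exp ζ * Real.exp (-t) := by
    rw [← Real.exp_add, sq, ← Real.exp_add]; congr 1; ring
  have h3 : Real.exp ((ζ + t) / 2) * Real.exp ((ζ - t) / 2) = Real.exp ζ := by
    rw [← Real.exp_add]; congr 1; ring
  rw [h3, abs_of_pos (Real.exp_pos ζ), Real.cosh_eq]
  have hζ : Real.exp ζ ≠ 0 := Real.exp_ne_zero ζ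
  field_simp
  rw [h1, h2]
  ring

/-! ## 4. The function `E` -/

theorem eisR_mul_rotR162 (n : ℤ) (s : ℂ) (g : GL (Fin 2) ℝ) (β : ℝ) :
    eisR n s (g * rotR β) = Complex.exp ((n : ℂ) * (β : ℂ) * Complex.I) * eisR n s g := by
  unfold eisR
  rw [det_mul_rotR162, (mul_rotR_apply162 g β 1).1, (mul_rotR_apply162 g β 1).2]
  set c := (g : Matrix (Fin 2) (Fin 2) ℝ) 1 0 with hc
  set d := (g : Matrix (Fin 2) (Fin 2) ℝ) 1 1 with hd
  have hsq : (c * Real.cos β + d * Real.sin β) ^ 2 + (-(c * Real.sin β) + d * Real.cos β) ^ 2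
      = c ^ 2 + d ^ 2 := by
    have h := Real.cos_sq_add_sin_sq β
    linear_combination (c ^ 2 + d ^ 2) * h
  rw [hsq]
  have hnum : (((-(c * Real.sin β) + d * Real.cos β : ℝ) : ℂ)
      + ((c * Real.cos β + d * Real.sin β : ℝ) : ℂ) * Complex.I)
      = (((d : ℝ) : ℂ) + ((c : ℝ) : ℂ) * Complex.I) * Complex.exp ((β : ℂ) * Complex.I) := by
    rw [Complex.exp_mul_I, ← Complex.ofReal_cos, ← Complex.ofReal_sin]
    apply Complex.ext
    · simp
      ring
    · simp
      ring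
  rw [hnum, mul_div_right_comm, mul_zpow, ← Complex.exp_int_mul]
  have : ((n : ℂ) * ((β : ℂ) * Complex.I)) = (n : ℂ) * (β : ℂ) * Complex.I := by ring
  rw [this]
  ring

theorem eisR_of_smul162 (n : ℤ) (s : ℂ) (g g' : GL (Fin 2) ℝ) (lam : ℝ) (hlam : 0 < lam)
    (h : ∀ i j, (g' : Matrix (Fin 2) (Fin 2) ℝ) i j = lam * (g : Matrix (Fin 2) (Fin 2) ℝ) i j) :
    eisR n s g' = eisR n s g := by
  unfold eisR
  rw [Matrix.det_fin_two (g' : Matrix (Fin 2) (Fin 2) ℝ),
    Matrix.det_fin_two (g : Matrix (Fin 2) (Fin 2) ℝ), h 0 0, h 0 1, h 1 0, h 1 1]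
  set a := (g : Matrix (Fin 2) (Fin 2) ℝ) 0 0
  set b := (g : Matrix (Fin 2) (Fin 2) ℝ) 0 1
  set c := (g : Matrix (Fin 2) (Fin 2) ℝ) 1 0
  set d := (g : Matrix (Fin 2) (Fin 2) ℝ) 1 1
  have hl2 : lam ^ 2 ≠ 0 := pow_ne_zero 2 hlam.ne'
  have h1 : (lam * a * (lam * d) - lam * b * (lam * c)) / ((lam * c) ^ 2 + (lam * d) ^ 2)
      = (a * d - b * c) / (c ^ 2 + d ^ 2) := by
    have e1 : lam * a * (lam * d) - lam * b * (lam * c) = lam ^ 2 * (a * d - b * c) := by ring
    have e2 : (lam * c) ^ 2 + (lam * d) ^ 2 = lam ^ 2 * (c ^ 2 + d ^ 2) := by ring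
    rw [e1, e2, mul_div_mul_left _ _ hl2]
  have h2 : Real.sqrt ((lam * c) ^ 2 + (lam * d) ^ 2) = lam * Real.sqrt (c ^ 2 + d ^ 2) := by
    have e2 : (lam * c) ^ 2 + (lam * d) ^ 2 = lam ^ 2 * (c ^ 2 + d ^ 2) := by ring
    rw [e2, Real.sqrt_mul (sq_nonneg lam), Real.sqrt_sq hlam.le]
  have hlc : ((lam : ℝ) : ℂ) ≠ 0 := Complex.ofReal_ne_zero.2 hlam.ne'
  have h3 : ((((lam * d : ℝ) : ℂ) + ((lam * c : ℝ) : ℂ) * Complex.I)
      / ((Real.sqrt ((lam * c) ^ 2 + (lam * d) ^ 2) : ℝ) : ℂ))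
      = ((((d : ℝ) : ℂ) + ((c : ℝ) : ℂ) * Complex.I)
        / ((Real.sqrt (c ^ 2 + d ^ 2) : ℝ) : ℂ)) := by
    rw [h2]
    push_cast
    have e3 : ((lam : ℝ) : ℂ) * ((d : ℝ) : ℂ) + ((lam : ℝ) : ℂ) * ((c : ℝ) : ℂ) * Complex.I
        = ((lam : ℝ) : ℂ) * (((d : ℝ) : ℂ) + ((c : ℝ) : ℂ) * Complex.I) := by ring
    rw [e3, mul_div_mul_left _ _ hlc]
  rw [h1, h3]

/-- `bR ζ t 0 = e^{ζ/2} · bR 0 t 0`, after a rotation on the left. -/
theorem eisR_rotR_mul_bR162 (n : ℤ) (s : ℂ) (θ ζ t : ℝ) :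
    eisR n s (rotR θ * bR ζ t 0) = eisR n s (rotR θ * bR 0 t 0) := by
  refine eisR_of_smul162 n s (rotR θ * bR 0 t 0) (rotR θ * bR ζ t 0) (Real.exp (ζ / 2))
    (Real.exp_pos _) (fun i j => ?_)
  have hb : ∀ i j, ((bR ζ t 0 : GL (Fin 2) ℝ) : Matrix (Fin 2) (Fin 2) ℝ) i j
      = Real.exp (ζ / 2) * ((bR 0 t 0 : GL (Fin 2) ℝ) : Matrix (Fin 2) (Fin 2) ℝ) i j := by
    intro i j
    rw [coe_bR830, coe_bR830]
    have h1 : Real.exp ((ζ + t) / 2) = Real.exp (ζ / 2) * Real.exp ((0 + t) / 2) := by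
      rw [← Real.exp_add]; congr 1; ring
    have h2 : Real.exp ((ζ - t) / 2) = Real.exp (ζ / 2) * Real.exp ((0 - t) / 2) := by
      rw [← Real.exp_add]; congr 1; ring
    fin_cases i <;> fin_cases j <;> simp [h1, h2]
  fin_cases i
  · show ((rotR θ * bR ζ t 0 : GL (Fin 2) ℝ) : Matrix (Fin 2) (Fin 2) ℝ) 0 j
      = _ * ((rotR θ * bR 0 t 0 : GL (Fin 2) ℝ) : Matrix (Fin 2) (Fin 2) ℝ) 0 j
    rw [(rotR_mul_apply162 θ _ j).1, (rotR_mul_apply162 θ _ j).1, hb 0 j, hb 1 j]
    ring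
  · show ((rotR θ * bR ζ t 0 : GL (Fin 2) ℝ) : Matrix (Fin 2) (Fin 2) ℝ) 1 j
      = _ * ((rotR θ * bR 0 t 0 : GL (Fin 2) ℝ) : Matrix (Fin 2) (Fin 2) ℝ) 1 j
    rw [(rotR_mul_apply162 θ _ j).2, (rotR_mul_apply162 θ _ j).2, hb 0 j, hb 1 j]
    ring

/-! ## 5. The Cartan coordinates -/

theorem rhoR_cartan162 (α β ζ t : ℝ) : rhoR (rotR α * bR ζ t 0 * rotR β) = Real.cosh t := by
  rw [rhoR_mul_rotR162, rhoR_rotR_mul162, rhoR_bR162]

theorem holPart_cartan162 (α β ζ t : ℝ) :
    holPart (rotR α * bR ζ t 0 * rotR β)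
      = Complex.exp ((α : ℂ) * Complex.I) * ((Real.exp (ζ / 2) * Real.cosh (t / 2) : ℝ) : ℂ)
        * Complex.exp ((β : ℂ) * Complex.I) := by
  rw [holPart_mul_rotR162, holPart_rotR_mul162, holPart_bR162]

theorem wtPhase_cartan162 (n : ℤ) (α β ζ t : ℝ) :
    wtPhase n (rotR α * bR ζ t 0 * rotR β)
      = Complex.exp ((n : ℂ) * ((α : ℂ) + (β : ℂ)) * Complex.I) := by
  unfold wtPhase
  rw [holPart_cartan162]
  have hpos : 0 < Real.exp (ζ / 2) * Real.cosh (t / 2) :=
    mul_pos (Real.exp_pos _) (Real.cosh_pos _)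
  have hnorm : ‖Complex.exp ((α : ℂ) * Complex.I)
      * ((Real.exp (ζ / 2) * Real.cosh (t / 2) : ℝ) : ℂ)
      * Complex.exp ((β : ℂ) * Complex.I)‖ = Real.exp (ζ / 2) * Real.cosh (t / 2) := by
    rw [norm_mul, norm_mul, Complex.norm_exp_ofReal_mul_I, Complex.norm_exp_ofReal_mul_I,
      Complex.norm_real, Real.norm_of_nonneg hpos.le]
    ring
  rw [hnorm]
  have hne : ((Real.exp (ζ / 2) * Real.cosh (t / 2) : ℝ) : ℂ) ≠ 0 :=
    Complex.ofReal_ne_zero.2 hpos.ne'
  have hq : Complex.exp ((α : ℂ) * Complex.I) * ((Real.exp (ζ / 2) * Real.cosh (t / 2) : ℝ) : ℂ)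
      * Complex.exp ((β : ℂ) * Complex.I) / ((Real.exp (ζ / 2) * Real.cosh (t / 2) : ℝ) : ℂ)
      = Complex.exp (((α : ℂ) + (β : ℂ)) * Complex.I) := by
    rw [add_mul, Complex.exp_add]
    field_simp
  rw [hq, ← Complex.exp_int_mul]
  congr 1
  ring

/-! ## 6. The leaf -/

/-- **T6.29.R3' `SphAvgOfC`**, VERBATIM. -/
theorem sphAvgOfC162 : SphAvgOfC := by
  intro hCartan hAt n hn s y hy
  obtain ⟨ζ, α, β, t, ht, rfl⟩ := hCartan y hy
  -- the periodic integrand at `a_t`
  set F : ℝ → ℂ := fun θ =>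
    Complex.exp (-((n : ℂ) * (θ : ℂ) * Complex.I)) * eisR n s (rotR θ * bR 0 t 0) with hF
  have hper : Function.Periodic F (2 * Real.pi) := by
    intro θ
    simp only [hF]
    rw [rotR_add_two_pi162]
    congr 1
    have : -((n : ℂ) * ((θ + 2 * Real.pi : ℝ) : ℂ) * Complex.I)
        = -((n : ℂ) * (θ : ℂ) * Complex.I) + ((-n : ℤ) : ℂ) * (2 * Real.pi * Complex.I) := by
      push_cast
      ring
    rw [this, Complex.exp_add, Complex.exp_int_mul_two_pi_mul_I, mul_one]
  -- the integrand at `y`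
  have hint : ∀ θ : ℝ, Complex.exp (-((n : ℂ) * (θ : ℂ) * Complex.I))
      * eisR n s (rotR θ * (rotR α * bR ζ t 0 * rotR β))
      = Complex.exp ((n : ℂ) * ((α : ℂ) + (β : ℂ)) * Complex.I) * F (θ + α) := by
    intro θ
    have e1 : rotR θ * (rotR α * bR ζ t 0 * rotR β) = rotR (θ + α) * bR ζ t 0 * rotR β := by
      rw [← rotR_mul_rotR162, mul_assoc, mul_assoc, mul_assoc]
    rw [e1, eisR_mul_rotR162, eisR_rotR_mul_bR162]
    simp only [hF]
    rw [← mul_assoc, ← mul_assoc, ← Complex.exp_add, ← Complex.exp_add]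
    congr 2
    push_cast
    ring
  have h1 : (∫ θ in (0 : ℝ)..(2 * Real.pi), Complex.exp (-((n : ℂ) * (θ : ℂ) * Complex.I))
      * eisR n s (rotR θ * (rotR α * bR ζ t 0 * rotR β)))
      = Complex.exp ((n : ℂ) * ((α : ℂ) + (β : ℂ)) * Complex.I)
        * ∫ θ in (0 : ℝ)..(2 * Real.pi), F θ := by
    simp_rw [hint]
    rw [intervalIntegral.integral_const_mul]
    congr 1
    rw [intervalIntegral.integral_comp_add_right (fun θ => F θ) α]
    have := hper.intervalIntegral_add_eq α 0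
    simp only [zero_add] at this ⊢
    rw [add_comm (2 * Real.pi) α]
    exact this
  rw [h1]
  have h2 := hAt n hn s t ht
  simp only [hF]
  unfold sphFn
  rw [wtPhase_cartan162, rhoR_cartan162, ← h2]
  ring

end Fermat.Agent.LT.T6.H162

end

end
-- ===== PACK-END LT/T6/H162/SphAvgOf.lean

-- ===== PACK-BEGIN LT/T6/H309/EisIwR.lean
section



/-!
# Row LT, tower T6, leaf T6.29.R5 `EisIwRC` (helper309)

OFF-MAIN.  `eisIwRC309 : Fermat.Agent.LT.T6.H830.EisIwRC`, VERBATIM the Prop of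
`T6/H830/HCSpec.lean` (helper830@99e12b740, sha256 `c3e7d846…`), unconditional.

`F = f · eisR n s` is continuous (`det > 0` is clopen in `GL₂(ℝ)`, `f` vanishes on `det < 0`, the
base of the complex power is a positive real on `det > 0`), compactly supported, supported in
`det > 0`, right `SO(2)`-invariant (`k = [[p, -q], [q, p]]`, `holPart k = p + i q`,
`d' + i c' = (d + i c)(p + i q)`), and `eisR n s (bR ζ r x) = exp (r (s + 1/2))`.
-/

set_option autoImplicit false
set_option linter.unusedSimpArgs false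

open scoped Matrix
open MeasureTheory

noncomputable section

namespace Fermat.Agent.LT.T6.H309

open Fermat.Agent.LT.T6 Fermat.Agent.LT.T6.H830

/-- The entries are continuous on `GL₂(ℝ)`. -/
theorem continuous_entry309 (i j : Fin 2) :
    Continuous (fun g : GL (Fin 2) ℝ => (g : Matrix (Fin 2) (Fin 2) ℝ) i j) :=
  (Units.continuous_val (M := Matrix (Fin 2) (Fin 2) ℝ)).matrix_elem i j

/-- The determinant is continuous on `GL₂(ℝ)`. -/
theorem continuous_det309 :
    Continuous (fun g : GL (Fin 2) ℝ => (g : Matrix (Fin 2) (Fin 2) ℝ).det) :=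
  (Units.continuous_val (M := Matrix (Fin 2) (Fin 2) ℝ)).matrix_det

theorem det_ne_zero309 (g : GL (Fin 2) ℝ) : (g : Matrix (Fin 2) (Fin 2) ℝ).det ≠ 0 := by
  have h : IsUnit (g : Matrix (Fin 2) (Fin 2) ℝ) := g.isUnit
  exact ((Matrix.isUnit_iff_isUnit_det _).mp h).ne_zero

/-- The second row of an invertible matrix does not vanish. -/
theorem row_pos309 (g : GL (Fin 2) ℝ) :
    0 < (g : Matrix (Fin 2) (Fin 2) ℝ) 1 0 ^ 2 + (g : Matrix (Fin 2) (Fin 2) ℝ) 1 1 ^ 2 := by
  have hdet := det_ne_zero309 g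
  rw [Matrix.det_fin_two] at hdet
  by_contra h
  have h0 : (g : Matrix (Fin 2) (Fin 2) ℝ) 1 0 ^ 2 + (g : Matrix (Fin 2) (Fin 2) ℝ) 1 1 ^ 2 = 0 :=
    le_antisymm (not_lt.mp h) (by positivity)
  have h1 : (g : Matrix (Fin 2) (Fin 2) ℝ) 1 0 = 0 := by
    have := sq_nonneg ((g : Matrix (Fin 2) (Fin 2) ℝ) 1 1)
    have h2 : (g : Matrix (Fin 2) (Fin 2) ℝ) 1 0 ^ 2 = 0 :=
      le_antisymm (by linarith) (sq_nonneg _)
    exact pow_eq_zero_iff (two_ne_zero) |>.mp h2
  have h2 : (g : Matrix (Fin 2) (Fin 2) ℝ) 1 1 = 0 := by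
    have := sq_nonneg ((g : Matrix (Fin 2) (Fin 2) ℝ) 1 0)
    have h2 : (g : Matrix (Fin 2) (Fin 2) ℝ) 1 1 ^ 2 = 0 :=
      le_antisymm (by linarith) (sq_nonneg _)
    exact pow_eq_zero_iff (two_ne_zero) |>.mp h2
  apply hdet
  rw [h1, h2]; ring

/-- `eisR n s` is continuous at the points of positive determinant. -/
theorem continuousAt_eisR309 (n : ℤ) (s : ℂ) (g : GL (Fin 2) ℝ)
    (hg : 0 < (g : Matrix (Fin 2) (Fin 2) ℝ).det) : ContinuousAt (eisR n s) g := by
  have hc := (continuous_entry309 1 0).continuousAt (x := g)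
  have hd := (continuous_entry309 1 1).continuousAt (x := g)
  have hdet := continuous_det309.continuousAt (x := g)
  have hrow := row_pos309 g
  have hsum : ContinuousAt (fun g : GL (Fin 2) ℝ =>
      (g : Matrix (Fin 2) (Fin 2) ℝ) 1 0 ^ 2 + (g : Matrix (Fin 2) (Fin 2) ℝ) 1 1 ^ 2) g :=
    (hc.pow 2).add (hd.pow 2)
  unfold eisR
  apply ContinuousAt.mul
  · apply ContinuousAt.cpow _ continuousAt_const
    · rw [Complex.mem_slitPlane_iff]
      left
      rw [Complex.ofReal_re]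
      exact div_pos hg hrow
    · exact Complex.continuous_ofReal.continuousAt.comp (hdet.div hsum hrow.ne')
  · apply ContinuousAt.zpow₀
    · apply ContinuousAt.div
      · exact (Complex.continuous_ofReal.continuousAt.comp hd).add
          ((Complex.continuous_ofReal.continuousAt.comp hc).mul continuousAt_const)
      · exact Complex.continuous_ofReal.continuousAt.comp (Real.continuous_sqrt.continuousAt.comp hsum)
      · exact Complex.ofReal_ne_zero.mpr (Real.sqrt_pos.mpr hrow).ne'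
    · left
      apply div_ne_zero
      · intro h
        have hre := congrArg Complex.re h
        have him := congrArg Complex.im h
        simp at hre him
        rw [hre, him] at hrow
        simp at hrow
      · exact Complex.ofReal_ne_zero.mpr (Real.sqrt_pos.mpr hrow).ne'

/-- `f · eisR n s` is continuous. -/
theorem continuous_mul_eisR309 (n : ℤ) (s : ℂ) (f : GL (Fin 2) ℝ → ℂ) (hf : Continuous f)
    (hpos : ∀ g : GL (Fin 2) ℝ, f g ≠ 0 → 0 < (g : Matrix (Fin 2) (Fin 2) ℝ).det) :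
    Continuous (fun y : GL (Fin 2) ℝ => f y * eisR n s y) := by
  rw [continuous_iff_continuousAt]
  intro g
  rcases lt_or_gt_of_ne (det_ne_zero309 g) with h | h
  · have hopen : IsOpen {y : GL (Fin 2) ℝ | (y : Matrix (Fin 2) (Fin 2) ℝ).det < 0} :=
      isOpen_lt continuous_det309 continuous_const
    have hev : (fun y : GL (Fin 2) ℝ => f y * eisR n s y) =ᶠ[nhds g] fun _ => 0 := by
      filter_upwards [hopen.mem_nhds h] with y hy
      have h0 : f y = 0 := by
        by_contra h0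
        exact absurd (hpos y h0) (not_lt.mpr (le_of_lt hy))
      simp [h0]
    exact continuousAt_const.congr hev.symm
  · exact hf.continuousAt.mul (continuousAt_eisR309 n s g h)

/-- The shape of the elements of `SO(2)`. -/
theorem so2_form309 (k : GL (Fin 2) ℝ) (hk : InSO2 k) :
    (k : Matrix (Fin 2) (Fin 2) ℝ) 1 1 = (k : Matrix (Fin 2) (Fin 2) ℝ) 0 0 ∧
      (k : Matrix (Fin 2) (Fin 2) ℝ) 0 1 = -(k : Matrix (Fin 2) (Fin 2) ℝ) 1 0 ∧
      (k : Matrix (Fin 2) (Fin 2) ℝ) 0 0 ^ 2 + (k : Matrix (Fin 2) (Fin 2) ℝ) 1 0 ^ 2 = 1 := by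
  obtain ⟨h1, h2⟩ := hk
  rw [Matrix.det_fin_two] at h2
  have e00 := congrFun (congrFun h1 0) 0
  have e11 := congrFun (congrFun h1 1) 1
  simp only [Matrix.mul_apply, Fin.sum_univ_two, Matrix.transpose_apply, Matrix.one_apply_eq]
    at e00 e11
  have hsq : ((k : Matrix (Fin 2) (Fin 2) ℝ) 0 0 - (k : Matrix (Fin 2) (Fin 2) ℝ) 1 1) ^ 2
      + ((k : Matrix (Fin 2) (Fin 2) ℝ) 0 1 + (k : Matrix (Fin 2) (Fin 2) ℝ) 1 0) ^ 2 = 0 := by
    linear_combination e00 + e11 - 2 * h2
  have ha : ((k : Matrix (Fin 2) (Fin 2) ℝ) 0 0 - (k : Matrix (Fin 2) (Fin 2) ℝ) 1 1) ^ 2 = 0 :=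
    le_antisymm (by nlinarith [sq_nonneg ((k : Matrix (Fin 2) (Fin 2) ℝ) 0 1
      + (k : Matrix (Fin 2) (Fin 2) ℝ) 1 0)]) (sq_nonneg _)
  have hb : ((k : Matrix (Fin 2) (Fin 2) ℝ) 0 1 + (k : Matrix (Fin 2) (Fin 2) ℝ) 1 0) ^ 2 = 0 :=
    le_antisymm (by nlinarith [sq_nonneg ((k : Matrix (Fin 2) (Fin 2) ℝ) 0 0
      - (k : Matrix (Fin 2) (Fin 2) ℝ) 1 1)]) (sq_nonneg _)
  have ha' := pow_eq_zero_iff (two_ne_zero) |>.mp ha
  have hb' := pow_eq_zero_iff (two_ne_zero) |>.mp hb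
  have h11 : (k : Matrix (Fin 2) (Fin 2) ℝ) 1 1 = (k : Matrix (Fin 2) (Fin 2) ℝ) 0 0 := by
    linarith
  have h01 : (k : Matrix (Fin 2) (Fin 2) ℝ) 0 1 = -(k : Matrix (Fin 2) (Fin 2) ℝ) 1 0 := by
    linarith
  refine ⟨h11, h01, ?_⟩
  rw [h01] at e00
  linear_combination e00

/-- `holPart k = p + i q` for `k = [[p, -q], [q, p]]`. -/
theorem holPart_so2_309 (k : GL (Fin 2) ℝ) (hk : InSO2 k) :
    holPart k = (((k : Matrix (Fin 2) (Fin 2) ℝ) 0 0 : ℝ) : ℂ)
      + (((k : Matrix (Fin 2) (Fin 2) ℝ) 1 0 : ℝ) : ℂ) * Complex.I := by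
  obtain ⟨h11, h01, -⟩ := so2_form309 k hk
  unfold holPart
  rw [h11, h01]
  push_cast
  ring

theorem holPart_so2_ne_zero309 (k : GL (Fin 2) ℝ) (hk : InSO2 k) : holPart k ≠ 0 := by
  obtain ⟨-, -, h⟩ := so2_form309 k hk
  rw [holPart_so2_309 k hk]
  intro h0
  have hre := congrArg Complex.re h0
  have him := congrArg Complex.im h0
  simp at hre him
  rw [hre, him] at h
  simp at h

/-- `E(g k) = E(g) χ_n(k)` for `k ∈ SO(2)`. -/
theorem eisR_mul_so2_309 (n : ℤ) (s : ℂ) (g k : GL (Fin 2) ℝ) (hk : InSO2 k) :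
    eisR n s (g * k) = eisR n s g * wtChar n k := by
  obtain ⟨h11, h01, hpq⟩ := so2_form309 k hk
  have hdetk : (k : Matrix (Fin 2) (Fin 2) ℝ).det = 1 := hk.2
  have hc : ((g * k : GL (Fin 2) ℝ) : Matrix (Fin 2) (Fin 2) ℝ) 1 0
      = (g : Matrix (Fin 2) (Fin 2) ℝ) 1 0 * (k : Matrix (Fin 2) (Fin 2) ℝ) 0 0
        + (g : Matrix (Fin 2) (Fin 2) ℝ) 1 1 * (k : Matrix (Fin 2) (Fin 2) ℝ) 1 0 := by
    rw [Units.val_mul, Matrix.mul_apply, Fin.sum_univ_two]
  have hd : ((g * k : GL (Fin 2) ℝ) : Matrix (Fin 2) (Fin 2) ℝ) 1 1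
      = (g : Matrix (Fin 2) (Fin 2) ℝ) 1 1 * (k : Matrix (Fin 2) (Fin 2) ℝ) 0 0
        - (g : Matrix (Fin 2) (Fin 2) ℝ) 1 0 * (k : Matrix (Fin 2) (Fin 2) ℝ) 1 0 := by
    rw [Units.val_mul, Matrix.mul_apply, Fin.sum_univ_two, h11, h01]
    ring
  have hdet : ((g * k : GL (Fin 2) ℝ) : Matrix (Fin 2) (Fin 2) ℝ).det
      = (g : Matrix (Fin 2) (Fin 2) ℝ).det := by
    rw [Units.val_mul, Matrix.det_mul, hdetk, mul_one]
  have hsum : ((g * k : GL (Fin 2) ℝ) : Matrix (Fin 2) (Fin 2) ℝ) 1 0 ^ 2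
      + ((g * k : GL (Fin 2) ℝ) : Matrix (Fin 2) (Fin 2) ℝ) 1 1 ^ 2
      = (g : Matrix (Fin 2) (Fin 2) ℝ) 1 0 ^ 2 + (g : Matrix (Fin 2) (Fin 2) ℝ) 1 1 ^ 2 := by
    rw [hc, hd]
    linear_combination ((g : Matrix (Fin 2) (Fin 2) ℝ) 1 0 ^ 2
      + (g : Matrix (Fin 2) (Fin 2) ℝ) 1 1 ^ 2) * hpq
  unfold eisR wtChar
  rw [hdet, hsum, holPart_so2_309 k hk, mul_assoc, ← mul_zpow]
  congr 2
  rw [hc, hd]
  push_cast
  linear_combination (-((((g : Matrix (Fin 2) (Fin 2) ℝ) 1 0 : ℝ) : ℂ)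
    * (((k : Matrix (Fin 2) (Fin 2) ℝ) 1 0 : ℝ) : ℂ)
    * (((Real.sqrt ((g : Matrix (Fin 2) (Fin 2) ℝ) 1 0 ^ 2
      + (g : Matrix (Fin 2) (Fin 2) ℝ) 1 1 ^ 2) : ℝ) : ℂ))⁻¹)) * Complex.I_sq

/-- `E(bR ζ r x) = e^{r (s + 1/2)}`. -/
theorem eisR_bR309 (n : ℤ) (s : ℂ) (ζ r x : ℝ) :
    eisR n s (bR ζ r x) = Complex.exp ((r : ℂ) * (s + 1 / 2)) := by
  have h10 : ((bR ζ r x : GL (Fin 2) ℝ) : Matrix (Fin 2) (Fin 2) ℝ) 1 0 = 0 := by
    rw [coe_bR830]; rfl
  have h11 : ((bR ζ r x : GL (Fin 2) ℝ) : Matrix (Fin 2) (Fin 2) ℝ) 1 1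
      = Real.exp ((ζ - r) / 2) := by
    rw [coe_bR830]; rfl
  have hdet : ((bR ζ r x : GL (Fin 2) ℝ) : Matrix (Fin 2) (Fin 2) ℝ).det
      = Real.exp ((ζ + r) / 2) * Real.exp ((ζ - r) / 2) := by
    rw [coe_bR830, Matrix.det_fin_two_of, mul_zero, sub_zero]
  have hquot : Real.exp ((ζ + r) / 2) * Real.exp ((ζ - r) / 2)
      / ((0 : ℝ) ^ 2 + Real.exp ((ζ - r) / 2) ^ 2) = Real.exp r := by
    have h1 : Real.exp ((ζ + r) / 2) = Real.exp r * Real.exp ((ζ - r) / 2) := by
      rw [← Real.exp_add]; congr 1; ring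
    have h2 : Real.exp ((ζ - r) / 2) ≠ 0 := Real.exp_ne_zero _
    rw [h1]
    field_simp
    ring
  have hsqrt : Real.sqrt ((0 : ℝ) ^ 2 + Real.exp ((ζ - r) / 2) ^ 2) = Real.exp ((ζ - r) / 2) := by
    rw [zero_pow two_ne_zero, zero_add, Real.sqrt_sq (Real.exp_pos _).le]
  unfold eisR
  rw [hdet, h10, h11, hquot, hsqrt]
  have hne : ((Real.exp ((ζ - r) / 2) : ℝ) : ℂ) ≠ 0 :=
    Complex.ofReal_ne_zero.mpr (Real.exp_ne_zero _)
  have hone : ((((Real.exp ((ζ - r) / 2) : ℝ) : ℂ) + ((0 : ℝ) : ℂ) * Complex.I)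
      / ((Real.exp ((ζ - r) / 2) : ℝ) : ℂ)) = 1 := by
    rw [Complex.ofReal_zero, zero_mul, add_zero, div_self hne]
  rw [hone, one_zpow, mul_one]
  have hne' : ((Real.exp r : ℝ) : ℂ) ≠ 0 := Complex.ofReal_ne_zero.mpr (Real.exp_ne_zero _)
  rw [Complex.cpow_def_of_ne_zero hne', ← Complex.ofReal_log (Real.exp_pos r).le, Real.log_exp]

/-- **T6.29.R5 `EisIwRC`**, verbatim. -/
theorem eisIwRC309 : EisIwRC := by
  intro hIw μ hμ
  obtain ⟨c, hc, hF⟩ := hIw μ hμ
  refine ⟨(c : ℂ), Complex.ofReal_ne_zero.mpr hc.ne', ?_⟩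
  intro n _ f hf s
  have hinv : ∀ k g : GL (Fin 2) ℝ, InSO2 k →
      (fun y : GL (Fin 2) ℝ => f y * eisR n s y) (g * k)
        = (fun y : GL (Fin 2) ℝ => f y * eisR n s y) g := by
    intro k g hk
    have hw : wtChar n k ≠ 0 := zpow_ne_zero n (holPart_so2_ne_zero309 k hk)
    show f (g * k) * eisR n s (g * k) = f g * eisR n s g
    rw [hf.right k g hk, eisR_mul_so2_309 n s g k hk]
    field_simp
  have hposF : ∀ g : GL (Fin 2) ℝ, (fun y : GL (Fin 2) ℝ => f y * eisR n s y) g ≠ 0 →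
      0 < (g : Matrix (Fin 2) (Fin 2) ℝ).det := by
    intro g hg
    exact hf.pos g (left_ne_zero_of_mul hg)
  rw [hF (fun y : GL (Fin 2) ℝ => f y * eisR n s y)
    (continuous_mul_eisR309 n s f hf.cont hf.pos) hf.supp.mul_right hposF hinv]
  congr 1
  unfold melR hcR
  refine integral_congr_ae (Filter.Eventually.of_forall fun ζ => ?_)
  refine integral_congr_ae (Filter.Eventually.of_forall fun r => ?_)
  show (∫ x : ℝ, f (bR ζ r x) * eisR n s (bR ζ r x))
    = Complex.exp ((r : ℂ) * (s + 1 / 2)) * ∫ x : ℝ, f (bR ζ r x)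
  rw [← integral_const_mul]
  refine integral_congr_ae (Filter.Eventually.of_forall fun x => ?_)
  show f (bR ζ r x) * eisR n s (bR ζ r x) = Complex.exp ((r : ℂ) * (s + 1 / 2)) * f (bR ζ r x)
  rw [eisR_bR309, mul_comm]

end Fermat.Agent.LT.T6.H309

end

end
-- ===== PACK-END LT/T6/H309/EisIwR.lean

-- ===== PACK-BEGIN LT/T6/H286/TriFubini.lean
section



/-!
# Row LT, tower T6, sub-leaf T6.29.C4 `TriFubiniC` (Fubini on the region `|r| < u`) — helper286

OFF-MAIN.  Registry row 1455.  Spec bytes: `LT/T6/H830/HCSpec.lean` (helper830@99e12b740, sha256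
c3e7d846), `LT/T6/SpecArch.lean` (003240b2), `LT/T6/Spec.lean` (v3, 8c5f2ae7): byte-identical
copies.  The proof `triFubini286` uses Mathlib only.

`triFubiniC286 : H830.TriFubiniC`.

Proof.  `F(r, u) = 1_{|r| < u} g(r) h(u)` is the indicator of a measurable set times a continuous
function, and vanishes outside the compact box `[-R, R]²` (`supp h ⊆ [-R, R]`): integrable on
`ℝ × ℝ`.  `integral_integral_swap`; the inner integrals are `g(r) ∫_{u > |r|} h` and
`1_{u > 0} h(u) ∫_{-u}^{u} g` (`Ioc` versus `Ioo`: `integral_Ioc_eq_integral_Ioo`).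
-/

set_option autoImplicit false

open MeasureTheory Set

noncomputable section

namespace Fermat.Agent.LT.T6.H286

/-- The triangular region `|r| < u`. -/
def triSet286 : Set (ℝ × ℝ) := {p | |p.1| < p.2}

theorem measurableSet_triSet286 : MeasurableSet triSet286 :=
  measurableSet_lt (continuous_fst.abs.measurable) continuous_snd.measurable

/-- Fubini on the region `|r| < u` (Mathlib only). -/
theorem triFubini286 (g h : ℝ → ℂ) (hg : Continuous g) (hh : Continuous h)
    (hc : HasCompactSupport h) :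
    (∫ r : ℝ, g r * ∫ u in Set.Ioi |r|, h u) = ∫ u in Set.Ioi (0 : ℝ), h u * ∫ r in (-u)..u, g r := by
  -- the bound of the support
  obtain ⟨R, hR⟩ : ∃ R : ℝ, ∀ u : ℝ, R < |u| → h u = 0 := by
    obtain ⟨R, hR⟩ := hc.isCompact.isBounded.subset_closedBall (0 : ℝ)
    refine ⟨R, fun u hu => ?_⟩
    apply image_eq_zero_of_notMem_tsupport
    intro hmem
    have := hR hmem
    rw [Metric.mem_closedBall, Real.dist_eq, sub_zero] at this
    exact absurd this (not_le.2 hu)
  set F : ℝ → ℝ → ℂ := fun r u => triSet286.indicator (fun p : ℝ × ℝ => g p.1 * h p.2) (r, u)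
    with hF
  -- integrability
  have hcont : Continuous fun p : ℝ × ℝ => g p.1 * h p.2 :=
    (hg.comp continuous_fst).mul (hh.comp continuous_snd)
  set Kb : Set (ℝ × ℝ) := Icc (-R) R ×ˢ Icc (-R) R with hKb
  have hKc : IsCompact Kb := isCompact_Icc.prod isCompact_Icc
  have hKm : MeasurableSet Kb := hKc.isClosed.measurableSet
  have hint : Integrable (Function.uncurry F) (volume.prod volume) := by
    have h1 : IntegrableOn (fun p : ℝ × ℝ => g p.1 * h p.2) (triSet286 ∩ Kb)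
        (volume.prod volume) :=
      (hcont.continuousOn.integrableOn_compact hKc).mono_set inter_subset_right
    have h2 : Integrable ((triSet286 ∩ Kb).indicator fun p : ℝ × ℝ => g p.1 * h p.2)
        (volume.prod volume) :=
      (integrable_indicator_iff (measurableSet_triSet286.inter hKm)).2 h1
    have h3 : Function.uncurry F = (triSet286 ∩ Kb).indicator fun p : ℝ × ℝ => g p.1 * h p.2 := by
      funext p
      obtain ⟨r, u⟩ := p
      simp only [Function.uncurry_apply_pair, hF]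
      by_cases hS : (r, u) ∈ triSet286
      · by_cases hK : (r, u) ∈ Kb
        · rw [indicator_of_mem hS, indicator_of_mem (show (r, u) ∈ triSet286 ∩ Kb from ⟨hS, hK⟩)]
        · rw [indicator_of_mem hS,
            indicator_of_notMem (show (r, u) ∉ triSet286 ∩ Kb from fun hx => hK hx.2)]
          have hru : |r| < u := hS
          have hu : R < |u| := by
            by_contra hcon
            push Not at hcon
            apply hK
            have hu0 : 0 ≤ u := le_trans (abs_nonneg r) hru.le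
            rw [abs_of_nonneg hu0] at hcon
            have hr := abs_lt.1 (lt_of_lt_of_le hru hcon)
            exact ⟨⟨hr.1.le, hr.2.le⟩, ⟨by linarith, hcon⟩⟩
          show g r * h u = 0
          rw [hR u hu, mul_zero]
      · rw [indicator_of_notMem hS,
          indicator_of_notMem (show (r, u) ∉ triSet286 ∩ Kb from fun hx => hS hx.1)]
    rw [h3]
    exact h2
  have hswap := integral_integral_swap (μ := (volume : Measure ℝ)) (ν := (volume : Measure ℝ))
    (f := F) hint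
  -- the left hand side
  have hL : ∀ r : ℝ, ∫ u, F r u = g r * ∫ u in Ioi |r|, h u := by
    intro r
    have e : (fun u => F r u) = (Ioi |r|).indicator fun u => g r * h u := by
      funext u
      simp only [hF]
      by_cases hu : |r| < u
      · rw [indicator_of_mem (show (r, u) ∈ triSet286 from hu),
          indicator_of_mem (show u ∈ Ioi |r| from hu)]
      · rw [indicator_of_notMem (show (r, u) ∉ triSet286 from hu),
          indicator_of_notMem (show u ∉ Ioi |r| from hu)]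
    rw [e, integral_indicator measurableSet_Ioi, integral_const_mul]
  -- the right hand side
  have hRr : ∀ u : ℝ, ∫ r, F r u = (Ioi (0 : ℝ)).indicator
      (fun u => h u * ∫ r in (-u)..u, g r) u := by
    intro u
    by_cases hu : 0 < u
    · rw [indicator_of_mem (show u ∈ Ioi (0 : ℝ) from hu)]
      have e : (fun r => F r u) = (Ioo (-u) u).indicator fun r => g r * h u := by
        funext r
        simp only [hF]
        by_cases hr : |r| < u
        · rw [indicator_of_mem (show (r, u) ∈ triSet286 from hr),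
            indicator_of_mem (show r ∈ Ioo (-u) u from abs_lt.1 hr)]
        · rw [indicator_of_notMem (show (r, u) ∉ triSet286 from hr),
            indicator_of_notMem (show r ∉ Ioo (-u) u from fun hx => hr (abs_lt.2 hx))]
      rw [e, integral_indicator measurableSet_Ioo, integral_mul_const,
        intervalIntegral.integral_of_le (by linarith : -u ≤ u), integral_Ioc_eq_integral_Ioo,
        mul_comm]
    · rw [indicator_of_notMem (show u ∉ Ioi (0 : ℝ) from hu)]
      have e : (fun r => F r u) = fun _ => 0 := by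
        funext r
        simp only [hF]
        rw [indicator_of_notMem]
        intro hr
        have : |r| < u := hr
        exact hu (lt_of_le_of_lt (abs_nonneg r) this)
      rw [e, integral_zero]
  calc (∫ r : ℝ, g r * ∫ u in Ioi |r|, h u)
      = ∫ r, ∫ u, F r u := by simp_rw [hL]
    _ = ∫ u, ∫ r, F r u := hswap
    _ = ∫ u, (Ioi (0 : ℝ)).indicator (fun u => h u * ∫ r in (-u)..u, g r) u := by simp_rw [hRr]
    _ = ∫ u in Ioi (0 : ℝ), h u * ∫ r in (-u)..u, g r := integral_indicator measurableSet_Ioi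

/-- **T6.29.C4 TRI-FUBINI**, registry row 1455. -/
theorem triFubiniC286 : Fermat.Agent.LT.T6.H830.TriFubiniC :=
  fun g h hg hh hc => triFubini286 g h hg hh hc

end Fermat.Agent.LT.T6.H286

end

end
-- ===== PACK-END LT/T6/H286/TriFubini.lean

-- ===== PACK-BEGIN LT/T6/H673/IwCoord.lean
section




/-!
# Row LT, tower T6, leaf T6.29.I1 `IwasawaIntRC` (helper673), part 2: Iwasawa coordinates

OFF-MAIN.  The embedding `iota673 : B⁺ → GL₂(ℝ)`, `((ζ, r), x) ↦ bR ζ r x`, the Iwasawa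
projection `proj673 : GL₂(ℝ) → B⁺` and the rotation part `kOf673`:

    proj673 (iota673 p) = p,      proj673 (iota673 p * g) = p * proj673 g   (det g > 0),
    g = iota673 (proj673 g) * kOf673 g   (det g > 0),     InSO2 (kOf673 g).
-/

set_option autoImplicit false

open scoped Matrix
open MeasureTheory

noncomputable section

namespace Fermat.Agent.LT.T6.H673

open Fermat.Agent.LT.T6 Fermat.Agent.LT.T6.H830

/-- The embedding of `B⁺` in `GL₂(ℝ)`. -/
def iota673 (p : BP673) : GL (Fin 2) ℝ := bR p.zt p.rr p.xx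

/-- `c² + d²` for `g = [[a, b], [c, d]]`. -/
def nrm673 (g : GL (Fin 2) ℝ) : ℝ :=
  (g : Matrix (Fin 2) (Fin 2) ℝ) 1 0 ^ 2 + (g : Matrix (Fin 2) (Fin 2) ℝ) 1 1 ^ 2

/-- The Iwasawa projection `g = b k ↦ b` in coordinates (for `det g > 0`). -/
def proj673 (g : GL (Fin 2) ℝ) : BP673 :=
  BP673.mk (Real.log (g : Matrix (Fin 2) (Fin 2) ℝ).det)
    (Real.log (g : Matrix (Fin 2) (Fin 2) ℝ).det - Real.log (nrm673 g))
    (((g : Matrix (Fin 2) (Fin 2) ℝ) 0 0 * (g : Matrix (Fin 2) (Fin 2) ℝ) 1 0 +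
        (g : Matrix (Fin 2) (Fin 2) ℝ) 0 1 * (g : Matrix (Fin 2) (Fin 2) ℝ) 1 1) /
      (g : Matrix (Fin 2) (Fin 2) ℝ).det)

theorem det_eq673 (g : GL (Fin 2) ℝ) :
    (g : Matrix (Fin 2) (Fin 2) ℝ).det
      = (g : Matrix (Fin 2) (Fin 2) ℝ) 0 0 * (g : Matrix (Fin 2) (Fin 2) ℝ) 1 1 -
        (g : Matrix (Fin 2) (Fin 2) ℝ) 0 1 * (g : Matrix (Fin 2) (Fin 2) ℝ) 1 0 :=
  Matrix.det_fin_two _

theorem det_ne_zero673 (g : GL (Fin 2) ℝ) : (g : Matrix (Fin 2) (Fin 2) ℝ).det ≠ 0 :=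
  ((Matrix.isUnit_iff_isUnit_det _).1 g.isUnit).ne_zero

theorem nrm_pos673 (g : GL (Fin 2) ℝ) : 0 < nrm673 g := by
  have h := det_ne_zero673 g
  rw [det_eq673] at h
  unfold nrm673
  by_contra hneg
  have h0 : (g : Matrix (Fin 2) (Fin 2) ℝ) 1 0 ^ 2 + (g : Matrix (Fin 2) (Fin 2) ℝ) 1 1 ^ 2 = 0 :=
    le_antisymm (not_lt.1 hneg) (by positivity)
  have hc : (g : Matrix (Fin 2) (Fin 2) ℝ) 1 0 = 0 := by nlinarith [sq_nonneg ((g : Matrix (Fin 2) (Fin 2) ℝ) 1 0), sq_nonneg ((g : Matrix (Fin 2) (Fin 2) ℝ) 1 1)]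
  have hd : (g : Matrix (Fin 2) (Fin 2) ℝ) 1 1 = 0 := by nlinarith [sq_nonneg ((g : Matrix (Fin 2) (Fin 2) ℝ) 1 0), sq_nonneg ((g : Matrix (Fin 2) (Fin 2) ℝ) 1 1)]
  apply h
  rw [hc, hd]
  ring

/-! ## Entries -/

theorem iota_00 (p : BP673) :
    (iota673 p : Matrix (Fin 2) (Fin 2) ℝ) 0 0 = Real.exp ((p.zt + p.rr) / 2) := rfl

theorem iota_01 (p : BP673) :
    (iota673 p : Matrix (Fin 2) (Fin 2) ℝ) 0 1 = Real.exp ((p.zt + p.rr) / 2) * p.xx := rfl

theorem iota_10 (p : BP673) : (iota673 p : Matrix (Fin 2) (Fin 2) ℝ) 1 0 = 0 := rfl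

theorem iota_11 (p : BP673) :
    (iota673 p : Matrix (Fin 2) (Fin 2) ℝ) 1 1 = Real.exp ((p.zt - p.rr) / 2) := rfl

theorem det_iota673 (p : BP673) :
    (iota673 p : Matrix (Fin 2) (Fin 2) ℝ).det = Real.exp p.zt := by
  rw [det_eq673, iota_00, iota_01, iota_10, iota_11, mul_zero, sub_zero, ← Real.exp_add]
  congr 1
  ring

theorem det_iota_pos673 (p : BP673) : 0 < (iota673 p : Matrix (Fin 2) (Fin 2) ℝ).det := by
  rw [det_iota673]
  exact Real.exp_pos _

theorem nrm_iota673 (p : BP673) : nrm673 (iota673 p) = Real.exp (p.zt - p.rr) := by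
  unfold nrm673
  rw [iota_10, iota_11, ← Real.exp_nat_mul]
  simp only [ne_eq, OfNat.ofNat_ne_zero, not_false_eq_true, zero_pow, zero_add, Nat.cast_ofNat]
  congr 1
  ring

/-- `proj673 ∘ iota673 = id`. -/
theorem proj_iota673 (p : BP673) : proj673 (iota673 p) = p := by
  unfold proj673
  rw [det_iota673, nrm_iota673, Real.log_exp, Real.log_exp, iota_00, iota_01, iota_10, iota_11]
  apply BP673.ext
  · simp
  · simp
  · simp only [BP673.xx_mk, mul_zero, zero_add]
    rw [mul_right_comm, ← Real.exp_add]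
    have e : (p.zt + p.rr) / 2 + (p.zt - p.rr) / 2 = p.zt := by ring
    rw [e]
    have h := Real.exp_ne_zero p.zt
    field_simp

theorem mul_00 (g h : GL (Fin 2) ℝ) :
    ((g * h : GL (Fin 2) ℝ) : Matrix (Fin 2) (Fin 2) ℝ) 0 0
      = (g : Matrix (Fin 2) (Fin 2) ℝ) 0 0 * (h : Matrix (Fin 2) (Fin 2) ℝ) 0 0 +
        (g : Matrix (Fin 2) (Fin 2) ℝ) 0 1 * (h : Matrix (Fin 2) (Fin 2) ℝ) 1 0 := by
  rw [Units.val_mul, Matrix.mul_apply, Fin.sum_univ_two]

theorem mul_01 (g h : GL (Fin 2) ℝ) :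
    ((g * h : GL (Fin 2) ℝ) : Matrix (Fin 2) (Fin 2) ℝ) 0 1
      = (g : Matrix (Fin 2) (Fin 2) ℝ) 0 0 * (h : Matrix (Fin 2) (Fin 2) ℝ) 0 1 +
        (g : Matrix (Fin 2) (Fin 2) ℝ) 0 1 * (h : Matrix (Fin 2) (Fin 2) ℝ) 1 1 := by
  rw [Units.val_mul, Matrix.mul_apply, Fin.sum_univ_two]

theorem mul_10 (g h : GL (Fin 2) ℝ) :
    ((g * h : GL (Fin 2) ℝ) : Matrix (Fin 2) (Fin 2) ℝ) 1 0
      = (g : Matrix (Fin 2) (Fin 2) ℝ) 1 0 * (h : Matrix (Fin 2) (Fin 2) ℝ) 0 0 +
        (g : Matrix (Fin 2) (Fin 2) ℝ) 1 1 * (h : Matrix (Fin 2) (Fin 2) ℝ) 1 0 := by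
  rw [Units.val_mul, Matrix.mul_apply, Fin.sum_univ_two]

theorem mul_11 (g h : GL (Fin 2) ℝ) :
    ((g * h : GL (Fin 2) ℝ) : Matrix (Fin 2) (Fin 2) ℝ) 1 1
      = (g : Matrix (Fin 2) (Fin 2) ℝ) 1 0 * (h : Matrix (Fin 2) (Fin 2) ℝ) 0 1 +
        (g : Matrix (Fin 2) (Fin 2) ℝ) 1 1 * (h : Matrix (Fin 2) (Fin 2) ℝ) 1 1 := by
  rw [Units.val_mul, Matrix.mul_apply, Fin.sum_univ_two]

theorem det_mul673 (g h : GL (Fin 2) ℝ) :
    ((g * h : GL (Fin 2) ℝ) : Matrix (Fin 2) (Fin 2) ℝ).det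
      = (g : Matrix (Fin 2) (Fin 2) ℝ).det * (h : Matrix (Fin 2) (Fin 2) ℝ).det := by
  rw [Units.val_mul, Matrix.det_mul]

/-- Equivariance of the Iwasawa projection under `B⁺`. -/
theorem proj_mul673 (p : BP673) (g : GL (Fin 2) ℝ)
    (hg : 0 < (g : Matrix (Fin 2) (Fin 2) ℝ).det) :
    proj673 (iota673 p * g) = p * proj673 g := by
  have hN := nrm_pos673 g
  have hD : Real.exp ((p.zt - p.rr) / 2) ^ 2 = Real.exp (p.zt - p.rr) := by
    rw [← Real.exp_nat_mul]
    congr 1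
    push_cast
    ring
  have hAD : Real.exp ((p.zt + p.rr) / 2) * Real.exp ((p.zt - p.rr) / 2) = Real.exp p.zt := by
    rw [← Real.exp_add]
    congr 1
    ring
  have hnrm : nrm673 (iota673 p * g) = Real.exp (p.zt - p.rr) * nrm673 g := by
    unfold nrm673
    rw [mul_10, mul_11, iota_10, iota_11, ← hD]
    ring
  have hlogdet : Real.log ((iota673 p * g : GL (Fin 2) ℝ) : Matrix (Fin 2) (Fin 2) ℝ).det
      = p.zt + Real.log (g : Matrix (Fin 2) (Fin 2) ℝ).det := by
    rw [det_mul673, det_iota673, Real.log_mul (Real.exp_ne_zero _) hg.ne', Real.log_exp]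
  have hlognrm : Real.log (nrm673 (iota673 p * g)) = p.zt - p.rr + Real.log (nrm673 g) := by
    rw [hnrm, Real.log_mul (Real.exp_ne_zero _) hN.ne', Real.log_exp]
  apply BP673.ext
  · rw [BP673.zt_mul]
    show Real.log _ = p.zt + Real.log _
    exact hlogdet
  · rw [BP673.rr_mul]
    show Real.log _ - Real.log _ = p.rr + (Real.log _ - Real.log _)
    rw [hlogdet, hlognrm]
    ring
  · rw [BP673.xx_mul]
    show _ / _ = Real.exp (-(Real.log _ - Real.log _)) * p.xx + _ / _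
    rw [det_mul673, det_iota673, mul_00, mul_01, mul_10, mul_11, iota_00, iota_01, iota_10,
      iota_11, neg_sub, Real.exp_sub, Real.exp_log hN, Real.exp_log hg, ← hAD]
    unfold nrm673
    have h1 := Real.exp_pos ((p.zt + p.rr) / 2)
    have h2 := Real.exp_pos ((p.zt - p.rr) / 2)
    field_simp
    ring

/-! ## Real identities -/

theorem aux_unit673 {c d s : ℝ} (hs : s ≠ 0) (hss : s * s = c ^ 2 + d ^ 2) :
    d / s * (d / s) + c / s * (c / s) = 1 := by
  have e : d / s * (d / s) + c / s * (c / s) = (c ^ 2 + d ^ 2) / (s * s) := by ring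
  rw [e, hss, div_self]
  rw [← hss]
  exact mul_ne_zero hs hs

theorem aux_a673 {a b c d s D : ℝ} (hs : s ≠ 0) (hss : s * s = c ^ 2 + d ^ 2) (hD : D ≠ 0)
    (hdet : D = a * d - b * c) :
    a = D / s * (d / s) + D / s * ((a * c + b * d) / D) * (c / s) := by
  have hN : c ^ 2 + d ^ 2 ≠ 0 := by
    rw [← hss]
    exact mul_ne_zero hs hs
  have hx : D * ((a * c + b * d) / D) = a * c + b * d := by field_simp
  have e : D / s * (d / s) + D / s * ((a * c + b * d) / D) * (c / s)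
      = (D * d + (D * ((a * c + b * d) / D)) * c) / (s * s) := by ring
  rw [e, hx, hss, eq_div_iff hN, hdet]
  ring

theorem aux_b673 {a b c d s D : ℝ} (hs : s ≠ 0) (hss : s * s = c ^ 2 + d ^ 2) (hD : D ≠ 0)
    (hdet : D = a * d - b * c) :
    b = D / s * (-(c / s)) + D / s * ((a * c + b * d) / D) * (d / s) := by
  have hN : c ^ 2 + d ^ 2 ≠ 0 := by
    rw [← hss]
    exact mul_ne_zero hs hs
  have hx : D * ((a * c + b * d) / D) = a * c + b * d := by field_simp
  have e : D / s * (-(c / s)) + D / s * ((a * c + b * d) / D) * (d / s)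
      = (-(D * c) + (D * ((a * c + b * d) / D)) * d) / (s * s) := by ring
  rw [e, hx, hss, eq_div_iff hN, hdet]
  ring

/-! ## The rotation part -/

/-- The rotation part `k` of `g = b k`: `[[d, -c], [c, d]] / √(c² + d²)`. -/
def kOf673 (g : GL (Fin 2) ℝ) : GL (Fin 2) ℝ :=
  Matrix.GeneralLinearGroup.mkOfDetNeZero
    !![(g : Matrix (Fin 2) (Fin 2) ℝ) 1 1 / Real.sqrt (nrm673 g),
        -((g : Matrix (Fin 2) (Fin 2) ℝ) 1 0 / Real.sqrt (nrm673 g));
      (g : Matrix (Fin 2) (Fin 2) ℝ) 1 0 / Real.sqrt (nrm673 g),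
        (g : Matrix (Fin 2) (Fin 2) ℝ) 1 1 / Real.sqrt (nrm673 g)]
    (by
      rw [Matrix.det_fin_two_of]
      have hN := nrm_pos673 g
      have hs : 0 < Real.sqrt (nrm673 g) := Real.sqrt_pos.2 hN
      have hss : Real.sqrt (nrm673 g) * Real.sqrt (nrm673 g)
          = (g : Matrix (Fin 2) (Fin 2) ℝ) 1 0 ^ 2 + (g : Matrix (Fin 2) (Fin 2) ℝ) 1 1 ^ 2 :=
        Real.mul_self_sqrt hN.le
      have key := aux_unit673 hs.ne' hss
      have e : (g : Matrix (Fin 2) (Fin 2) ℝ) 1 1 / Real.sqrt (nrm673 g) *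
            ((g : Matrix (Fin 2) (Fin 2) ℝ) 1 1 / Real.sqrt (nrm673 g)) -
          -((g : Matrix (Fin 2) (Fin 2) ℝ) 1 0 / Real.sqrt (nrm673 g)) *
            ((g : Matrix (Fin 2) (Fin 2) ℝ) 1 0 / Real.sqrt (nrm673 g)) = 1 := by
        linear_combination key
      rw [e]
      exact one_ne_zero)

theorem kOf_00 (g : GL (Fin 2) ℝ) :
    (kOf673 g : Matrix (Fin 2) (Fin 2) ℝ) 0 0
      = (g : Matrix (Fin 2) (Fin 2) ℝ) 1 1 / Real.sqrt (nrm673 g) := rfl

theorem kOf_01 (g : GL (Fin 2) ℝ) :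
    (kOf673 g : Matrix (Fin 2) (Fin 2) ℝ) 0 1
      = -((g : Matrix (Fin 2) (Fin 2) ℝ) 1 0 / Real.sqrt (nrm673 g)) := rfl

theorem kOf_10 (g : GL (Fin 2) ℝ) :
    (kOf673 g : Matrix (Fin 2) (Fin 2) ℝ) 1 0
      = (g : Matrix (Fin 2) (Fin 2) ℝ) 1 0 / Real.sqrt (nrm673 g) := rfl

theorem kOf_11 (g : GL (Fin 2) ℝ) :
    (kOf673 g : Matrix (Fin 2) (Fin 2) ℝ) 1 1
      = (g : Matrix (Fin 2) (Fin 2) ℝ) 1 1 / Real.sqrt (nrm673 g) := rfl

theorem sqrt_mul_self673 (g : GL (Fin 2) ℝ) :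
    Real.sqrt (nrm673 g) * Real.sqrt (nrm673 g)
      = (g : Matrix (Fin 2) (Fin 2) ℝ) 1 0 ^ 2 + (g : Matrix (Fin 2) (Fin 2) ℝ) 1 1 ^ 2 :=
  Real.mul_self_sqrt (nrm_pos673 g).le

theorem inSO2_kOf673 (g : GL (Fin 2) ℝ) : InSO2 (kOf673 g) := by
  have hN := nrm_pos673 g
  have hs : 0 < Real.sqrt (nrm673 g) := Real.sqrt_pos.2 hN
  have hss := sqrt_mul_self673 g
  have key := aux_unit673 hs.ne' hss
  constructor
  · ext i j
    rw [Matrix.mul_apply, Fin.sum_univ_two]
    simp only [Matrix.transpose_apply]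
    fin_cases i <;> fin_cases j
    · show (kOf673 g : Matrix (Fin 2) (Fin 2) ℝ) 0 0 * (kOf673 g : Matrix (Fin 2) (Fin 2) ℝ) 0 0
        + (kOf673 g : Matrix (Fin 2) (Fin 2) ℝ) 0 1 * (kOf673 g : Matrix (Fin 2) (Fin 2) ℝ) 0 1
        = (1 : Matrix (Fin 2) (Fin 2) ℝ) 0 0
      rw [kOf_00, kOf_01, Matrix.one_apply_eq]
      linear_combination key
    · show (kOf673 g : Matrix (Fin 2) (Fin 2) ℝ) 0 0 * (kOf673 g : Matrix (Fin 2) (Fin 2) ℝ) 1 0
        + (kOf673 g : Matrix (Fin 2) (Fin 2) ℝ) 0 1 * (kOf673 g : Matrix (Fin 2) (Fin 2) ℝ) 1 1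
        = (1 : Matrix (Fin 2) (Fin 2) ℝ) 0 1
      rw [kOf_00, kOf_01, kOf_10, kOf_11, Matrix.one_apply_ne (by decide)]
      ring
    · show (kOf673 g : Matrix (Fin 2) (Fin 2) ℝ) 1 0 * (kOf673 g : Matrix (Fin 2) (Fin 2) ℝ) 0 0
        + (kOf673 g : Matrix (Fin 2) (Fin 2) ℝ) 1 1 * (kOf673 g : Matrix (Fin 2) (Fin 2) ℝ) 0 1
        = (1 : Matrix (Fin 2) (Fin 2) ℝ) 1 0
      rw [kOf_00, kOf_01, kOf_10, kOf_11, Matrix.one_apply_ne (by decide)]
      ring
    · show (kOf673 g : Matrix (Fin 2) (Fin 2) ℝ) 1 0 * (kOf673 g : Matrix (Fin 2) (Fin 2) ℝ) 1 0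
        + (kOf673 g : Matrix (Fin 2) (Fin 2) ℝ) 1 1 * (kOf673 g : Matrix (Fin 2) (Fin 2) ℝ) 1 1
        = (1 : Matrix (Fin 2) (Fin 2) ℝ) 1 1
      rw [kOf_10, kOf_11, Matrix.one_apply_eq]
      linear_combination key
  · rw [det_eq673, kOf_00, kOf_01, kOf_10, kOf_11]
    linear_combination key

/-- **Iwasawa decomposition** of `g` with `det g > 0`. -/
theorem eq_iota_mul_kOf673 (g : GL (Fin 2) ℝ) (hg : 0 < (g : Matrix (Fin 2) (Fin 2) ℝ).det) :
    g = iota673 (proj673 g) * kOf673 g := by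
  have hN := nrm_pos673 g
  have hs : 0 < Real.sqrt (nrm673 g) := Real.sqrt_pos.2 hN
  have hss := sqrt_mul_self673 g
  have hhalf : Real.exp (Real.log (nrm673 g) / 2) = Real.sqrt (nrm673 g) := by
    rw [Real.exp_half, Real.exp_log hN]
  have hA : Real.exp (((proj673 g).zt + (proj673 g).rr) / 2)
      = (g : Matrix (Fin 2) (Fin 2) ℝ).det / Real.sqrt (nrm673 g) := by
    have e : ((proj673 g).zt + (proj673 g).rr) / 2
        = Real.log (g : Matrix (Fin 2) (Fin 2) ℝ).det - Real.log (nrm673 g) / 2 := by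
      show (Real.log _ + (Real.log _ - Real.log _)) / 2 = _
      ring
    rw [e, Real.exp_sub, Real.exp_log hg, hhalf]
  have hD : Real.exp (((proj673 g).zt - (proj673 g).rr) / 2) = Real.sqrt (nrm673 g) := by
    have e : ((proj673 g).zt - (proj673 g).rr) / 2 = Real.log (nrm673 g) / 2 := by
      show (Real.log _ - (Real.log _ - Real.log _)) / 2 = _
      ring
    rw [e, hhalf]
  have hx : (proj673 g).xx
      = ((g : Matrix (Fin 2) (Fin 2) ℝ) 0 0 * (g : Matrix (Fin 2) (Fin 2) ℝ) 1 0 +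
        (g : Matrix (Fin 2) (Fin 2) ℝ) 0 1 * (g : Matrix (Fin 2) (Fin 2) ℝ) 1 1) /
      (g : Matrix (Fin 2) (Fin 2) ℝ).det := rfl
  have hdet := det_eq673 g
  apply Units.ext
  ext i j
  fin_cases i <;> fin_cases j
  · show (g : Matrix (Fin 2) (Fin 2) ℝ) 0 0
      = ((iota673 (proj673 g) * kOf673 g : GL (Fin 2) ℝ) : Matrix (Fin 2) (Fin 2) ℝ) 0 0
    rw [mul_00, iota_00, iota_01, kOf_00, kOf_10, hA, hx]
    exact aux_a673 hs.ne' hss hg.ne' hdet
  · show (g : Matrix (Fin 2) (Fin 2) ℝ) 0 1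
      = ((iota673 (proj673 g) * kOf673 g : GL (Fin 2) ℝ) : Matrix (Fin 2) (Fin 2) ℝ) 0 1
    rw [mul_01, iota_00, iota_01, kOf_01, kOf_11, hA, hx]
    exact aux_b673 hs.ne' hss hg.ne' hdet
  · show (g : Matrix (Fin 2) (Fin 2) ℝ) 1 0
      = ((iota673 (proj673 g) * kOf673 g : GL (Fin 2) ℝ) : Matrix (Fin 2) (Fin 2) ℝ) 1 0
    rw [mul_10, iota_10, iota_11, kOf_00, kOf_10, hD]
    field_simp
    ring
  · show (g : Matrix (Fin 2) (Fin 2) ℝ) 1 1
      = ((iota673 (proj673 g) * kOf673 g : GL (Fin 2) ℝ) : Matrix (Fin 2) (Fin 2) ℝ) 1 1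
    rw [mul_11, iota_10, iota_11, kOf_01, kOf_11, hD]
    field_simp
    ring

end Fermat.Agent.LT.T6.H673

end

end
-- ===== PACK-END LT/T6/H673/IwCoord.lean

-- ===== PACK-BEGIN LT/H670/QOut/SpecA.lean
section



/-!
# Row LT, tower T7, sub-tower QOUT (helper670): SPEC of leaf `QA` (adelic to classical)

OFF-MAIN.  Frozen sub-leaves `QA1 .. QA4` of `QA` and the PROVED assembly
`qa_of_leaves : QA1 → QA2 → QA3 → QA4 → QA`.  Every leaf is hypothesis-parametrised.

* `QA1` (BASE POINT, adelic): from `IsHolWtOneFormFor π φ` to a form `φ₁` of level `U(N)` in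
  CONCRETE shape (`IsLevelForm`, local elements `locInf`), with the same Hecke eigenvalues at all
  `p ∤ N`, and NOT VANISHING at some `g_z` (`based`).  Route: `φ(g_∞ g₀) ≠ 0`; `g_∞ = g_z r k_θ`
  after left translation by `diag(-1,1) ∈ GL₂(ℚ)` if `det g_∞ < 0`; `φ₁(g) = φ(g g₀')` with `g₀'`
  the part of `g₀` at the finitely many places where `g₀` is not in `GL₂(𝒪_v)` or which divide
  the level; `N = N₀ D² ∏ (bad p)` (bounded denominators).  NO strong approximation.
* `QA2` (TORUS, adelic): eigen-projection under the diagonal torus mod `N`: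
  `φ₂(g) = Σ_t ψ₁(t₁)⁻¹ ψ₂(t₂)⁻¹ φ₁(g t̃)`; some `(ψ₁,ψ₂)` keeps the base point.
* `QA3` (CLASSICAL FUNCTION, adelic/analytic): `F(z) = y^{-1/2} φ₂(g_z)` is a nonzero cusp form
  of weight one on `Γ(N)`, with the Hecke identities as identities of functions.
* `QA4` (classical): `G(z) = F(N z)` on `Γ₁(N²)` and the identities of `q`-coefficients.
-/

set_option autoImplicit false

open IsDedekindDomain NumberField AutomorphicForm
open CongruenceSubgroup UpperHalfPlane ModularForm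
open scoped MatrixGroups Manifold ModularForm

noncomputable section

namespace Fermat.Agent.LT.H670.QOut

open Fermat.Agent.LT.H556

/-! ## Concrete local elements at the real place -/

/-- `k_θ = [[cos θ, sin θ], [-sin θ, cos θ]] ∈ SO(2)` -/
def kTheta (θ : ℝ) : GL (Fin 2) ℝ :=
  Matrix.GeneralLinearGroup.mkOfDetNeZero
    !![Real.cos θ, Real.sin θ; -Real.sin θ, Real.cos θ]
    (by
      rw [Matrix.det_fin_two_of]
      have h := Real.sin_sq_add_cos_sq θ
      have h2 : Real.cos θ * Real.cos θ - Real.sin θ * -Real.sin θ = 1 := by nlinarith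
      rw [h2]; exact one_ne_zero)

/-- `g_z = [[y, x], [0, 1]]` -/
def gzMat (z : ℍ) : GL (Fin 2) ℝ :=
  Matrix.GeneralLinearGroup.mkOfDetNeZero !![z.im, z.re; 0, 1]
    (by
      rw [Matrix.det_fin_two_of]
      simpa using z.im_pos.ne')

/-- the positive scalar `r` -/
def scalR (r : ℝ) (hr : 0 < r) : GL (Fin 2) ℝ :=
  Matrix.GeneralLinearGroup.mkOfDetNeZero !![r, 0; 0, r]
    (by
      rw [Matrix.det_fin_two_of]
      simpa using (mul_pos hr hr).ne')

/-- the classical function attached to `φ` and the element `g` (used for `g` trivial at the real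
place): `z ↦ y^{-1/2} φ(g_z g)` -/
def famFn (φ : A0.G ℚ → ℂ) (g : A0.G ℚ) (z : ℍ) : ℂ :=
  (((Real.sqrt z.im : ℝ) : ℂ))⁻¹ * φ (locInf (gzMat z) * g)

/-- the ideal `(N)` of `𝓞 ℚ` -/
def lvl (N : ℕ) : Ideal (𝓞 ℚ) := Ideal.span {((N : ℕ) : 𝓞 ℚ)}

/-- `u` is trivial at the real place, and `u ≡ diag(a, d) mod N` at every finite place
(in particular `u` is integral at every finite place) -/
def DiagMod (N : ℕ) (a d : ℤ) (u : A0.G ℚ) : Prop :=
  (∀ w : InfinitePlace ℚ, A0.TrivAtInf w u) ∧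
    ∀ (v : HeightOneSpectrum (𝓞 ℚ)) (i j : Fin 2),
      (A0.finComp v u -
        Matrix.diagonal ![((a : ℤ) : v.adicCompletion ℚ), ((d : ℤ) : v.adicCompletion ℚ)]) i j
        ∈ A0.idealClosure (lvl N) v

/-- **Form of level `U(N)`, concrete shape**, with eigenvalues `a p`, `b p` at `p ∤ N` and a base
point on the real component. -/
structure IsLevelForm (N : ℕ) (a b : Nat.Primes → ℂ) (φ : A0.G ℚ → ℂ) : Prop where
  bdd : ∃ C : ℝ, ∀ g : A0.G ℚ, ‖φ g‖ ≤ C
  left_inv : ∀ (γ : GL (Fin 2) ℚ) (g : A0.G ℚ), φ (diagQ γ * g) = φ g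
  level_inv : ∀ u : A0.G ℚ, A0.InLevelGroup (lvl N) u → ∀ g : A0.G ℚ, φ (g * u) = φ g
  arch_scalar : ∀ (r : ℝ) (hr : 0 < r) (g : A0.G ℚ), φ (g * locInf (scalR r hr)) = φ g
  weight_one : ∀ (θ : ℝ) (g : A0.G ℚ),
    φ (g * locInf (kTheta θ)) = Complex.exp (Complex.I * ((θ : ℝ) : ℂ)) * φ g
  holo : ∀ g : A0.G ℚ, (∀ w : InfinitePlace ℚ, A0.TrivAtInf w g) →
    MDifferentiable 𝓘(ℂ) 𝓘(ℂ) (famFn φ g)
  hecke : ∀ p : Nat.Primes, ¬ (p : ℕ) ∣ N → A0.IsHeckeEigenAt φ (ratPrime p) (a p) (b p)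
  based : ∃ z : ℍ, φ (locInf (gzMat z)) ≠ 0

/-- equivariance under `{u ∈ GL₂(ẑ) : u ≡ diagonal mod N}` with the character `(ψ₁, ψ₂)` -/
def TorusEquiv (N : ℕ) (ψ₁ ψ₂ : DirichletCharacter ℂ N) (φ : A0.G ℚ → ℂ) : Prop :=
  ∀ (a d a' d' : ℤ) (u : A0.G ℚ), (N : ℤ) ∣ a * a' - 1 → (N : ℤ) ∣ d * d' - 1 →
    DiagMod N a d u → DiagMod N a' d' u⁻¹ →
    ∀ g : A0.G ℚ, φ (g * u) = ψ₁ ((a : ℤ) : ZMod N) * ψ₂ ((d : ℤ) : ZMod N) * φ g

/-- the Hecke identities for the classical function `F` on `Γ(N)`: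
`ψ₁(p)⁻¹ (1/p) Σ_{j<p} F((z + N j)/p) + ψ₂(p)⁻¹ F(p z) = a_p F(z)`, `b_p ψ₁(p) ψ₂(p) = 1`. -/
def FnHecke (N : ℕ) (ψ₁ ψ₂ : DirichletCharacter ℂ N) (a b : Nat.Primes → ℂ) (F : ℍ → ℂ) :
    Prop :=
  ∀ p : Nat.Primes, ¬ (p : ℕ) ∣ N →
    ((ψ₁ (((p : ℕ) : ℕ) : ZMod N))⁻¹ •
          (∑ j ∈ Finset.range (p : ℕ), F ∣[(1 : ℤ)] heckeMatrix (p : ℕ) (N * j)) +
        (ψ₂ (((p : ℕ) : ℕ) : ZMod N))⁻¹ • (F ∣[(1 : ℤ)] heckeDiagMatrix (p : ℕ))
      = a p • F) ∧
    b p * (ψ₁ (((p : ℕ) : ℕ) : ZMod N) * ψ₂ (((p : ℕ) : ℕ) : ZMod N)) = 1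

/-! ## The sub-leaves -/

/-- **QA1 (base point).** -/
def QA1 : Prop :=
  ∀ (π : HeckeEigensystem ℚ ℂ) (φ : A0.G ℚ → ℂ), IsHolWtOneFormFor π φ →
    ∃ (N : ℕ) (_ : NeZero N) (φ₁ : A0.G ℚ → ℂ),
      IsLevelForm N (fun p => π.a (ratPrime p)) (fun p => π.b (ratPrime p)) φ₁

/-- **QA2 (torus eigen-projection).** -/
def QA2 : Prop :=
  ∀ (N : ℕ) (_ : NeZero N) (a b : Nat.Primes → ℂ) (φ₁ : A0.G ℚ → ℂ), IsLevelForm N a b φ₁ →
    ∃ (ψ₁ ψ₂ : DirichletCharacter ℂ N) (φ₂ : A0.G ℚ → ℂ),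
      IsLevelForm N a b φ₂ ∧ TorusEquiv N ψ₁ ψ₂ φ₂

/-- **QA3 (the classical function).** -/
def QA3 : Prop :=
  ∀ (N : ℕ) (_ : NeZero N) (a b : Nat.Primes → ℂ) (ψ₁ ψ₂ : DirichletCharacter ℂ N)
    (φ₂ : A0.G ℚ → ℂ), IsLevelForm N a b φ₂ → TorusEquiv N ψ₁ ψ₂ φ₂ →
    ∃ F : CuspForm (Gamma N) 1, F ≠ 0 ∧ FnHecke N ψ₁ ψ₂ a b F

/-- **QA4 (classical: rescaling and `q`-coefficients).** -/
def QA4 : Prop :=
  ∀ (N : ℕ) (_ : NeZero N) (a b : Nat.Primes → ℂ) (ψ₁ ψ₂ : DirichletCharacter ℂ N)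
    (F : CuspForm (Gamma N) 1), F ≠ 0 → FnHecke N ψ₁ ψ₂ a b F →
    ∃ (M : ℕ) (_ : NeZero M) (α β : DirichletCharacter ℂ M) (G : CuspForm (Gamma1 M) 1),
      G ≠ 0 ∧ TwistedEigen M α β a b G

/-! ## Assembly -/

/-- **QA from its four sub-leaves.** -/
theorem qa_of_leaves (h1 : QA1) (h2 : QA2) (h3 : QA3) (h4 : QA4) : QA := by
  intro π φ hφ
  obtain ⟨N, hN, φ₁, hφ₁⟩ := h1 π φ hφ
  obtain ⟨ψ₁, ψ₂, φ₂, hφ₂, hT⟩ := h2 N hN _ _ φ₁ hφ₁
  obtain ⟨F, hF, hH⟩ := h3 N hN _ _ ψ₁ ψ₂ φ₂ hφ₂ hT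
  exact h4 N hN _ _ ψ₁ ψ₂ F hF hH

/-- **QOUT from the five leaves.** -/
theorem qOut_of_five (h1 : QA1) (h2 : QA2) (h3 : QA3) (h4 : QA4) (hN : QN) : QOutC :=
  qOut_of_leaves (qa_of_leaves h1 h2 h3 h4) hN

end Fermat.Agent.LT.H670.QOut

end

end
-- ===== PACK-END LT/H670/QOut/SpecA.lean

-- ===== PACK-BEGIN LT/T1/H930/RsigCusp.lean
section





/-!
# Row LT, asset RSIG (helper930): the operator `R(σ)` on cusp functions

OFF-MAIN.  Vocabulary: `LT/H556/A0.lean` (byte-identical copy), `LT/T5/Spec.lean` v4 of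
helper32 (byte-identical copy; zero vectors allowed in `IsCuspONB`), and the folded map `tau372`
of helper372
(`LT/T5/H372/LeafHS.lean`, byte-identical copy).  Nothing else is imported: every statement is
for an ARBITRARY `s : T5.AdelicAut K` with `hP : T5.AutPreserves s 𝔫 μ r` as a hypothesis
(`AutPreserves` itself is `autPreserves_all930` of `AdeleAutAll.lean`).

Hypothesis on the `K_∞`-type `τ` (automatic for `trivType`): `τ (s.onGinv k) = τ k` on the
elements of the compact groups `K_w`.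

## Contents

1. `invAut930 s` : the inverse adelic automorphism; `autPreserves_invAut930`.
2. `isCuspidalFn_Rsig930` : `A0.IsCuspidalFn φ → A0.IsCuspidalFn (Rsig s φ)` (transport of the
   Haar measure and of the fundamental domain of `K` in `𝔸_K` along `σ_𝔸`).
3. `isCuspFn_Rsig930` : `IsCuspFn 𝔫 τ r e → IsCuspFn 𝔫 τ r (Rsig s e)`.
4. `innerD_Rsig930` : `R(σ)` is unitary, `⟨R(σ) e, R(σ) f⟩ = ⟨e, f⟩` (continuous
   left-`GL₂(K)`-invariant `e`, `f`); `setIntegral_Rsig_of_aesm930` (measurable form),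
   `innerD_Rsig_right930` (adjunction).
5. `isCuspONB_Rsig930` : `R(σ)` maps a complete orthonormal system of cusp functions to a
   complete orthonormal system of cusp functions.
6. `Rsig_Rconv930` : `R(σ) R(φ) = R(σ φ) R(σ)`; `Rsig_conv930`, `Rsig_adjointFn930`,
   `integral_comp_onG930`, `integral_comp_onGinv930`.
-/

set_option autoImplicit false

open IsDedekindDomain NumberField MeasureTheory
open scoped MatrixGroups ComplexConjugate

noncomputable section

namespace Fermat.Agent.LT.T1.H930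

open Fermat.Agent.LT.H556.A0 Fermat.Agent.LT.T5

variable {K : Type} [Field K] [NumberField K]

attribute [local instance] Fermat.Agent.LT.T5.instMeasurableSpaceG

/-- `GL₂(𝔸_K)` with its Borel σ-algebra is a Borel space (local instance of this file). -/
local instance instBorelSpaceG930 : BorelSpace (G K) := ⟨rfl⟩

/-! ## 1. The inverse automorphism -/

/-- The inverse adelic automorphism. -/
def invAut930 (s : AdelicAut K) : AdelicAut K where
  σ := s.σ.symm
  σA := s.σA.symm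
  continuous_σA := s.continuous_symm
  continuous_symm := s.continuous_σA
  compat := fun x => by
    rw [RingEquiv.symm_apply_eq, s.compat, RingEquiv.apply_symm_apply]

theorem invAut930_onG (s : AdelicAut K) : (invAut930 s).onG = s.onGinv := rfl

theorem invAut930_onGinv (s : AdelicAut K) : (invAut930 s).onGinv = s.onG := rfl

theorem invAut930_invAut930 (s : AdelicAut K) : invAut930 (invAut930 s) = s := rfl

theorem onGinv_onG930 (s : AdelicAut K) (g : G K) : s.onGinv (s.onG g) = g := by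
  apply Units.ext
  ext i j
  simp [AdelicAut.onG, AdelicAut.onGinv, Matrix.GeneralLinearGroup.map_apply]

theorem onG_onGinv930 (s : AdelicAut K) (g : G K) : s.onG (s.onGinv g) = g :=
  onGinv_onG930 (invAut930 s) g

theorem onG_ratG930 (s : AdelicAut K) (γ : GL (Fin 2) K) : s.onG (_root_.Fermat.Agent.LT.T5.ratG γ) = _root_.Fermat.Agent.LT.T5.ratG (s.onRat γ) := by
  apply Units.ext
  ext i j
  simp [AdelicAut.onG, AdelicAut.onRat, _root_.Fermat.Agent.LT.T5.ratG, Matrix.GeneralLinearGroup.map_apply, s.compat]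

theorem onGinv_ratG930 (s : AdelicAut K) (γ : GL (Fin 2) K) :
    s.onGinv (_root_.Fermat.Agent.LT.T5.ratG γ) = _root_.Fermat.Agent.LT.T5.ratG ((invAut930 s).onRat γ) :=
  onG_ratG930 (invAut930 s) γ

theorem continuous_onG930 (s : AdelicAut K) : Continuous (s.onG : G K → G K) :=
  Fermat.Agent.LT.T5.H372.continuous_onGinv372 (invAut930 s)

theorem Rsig_invAut930 (s : AdelicAut K) (e : G K → ℂ) :
    Rsig (invAut930 s) e = fun x => e (s.onG x) := rfl

theorem Rsig_Rsig_invAut930 (s : AdelicAut K) (e : G K → ℂ) :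
    Rsig s (Rsig (invAut930 s) e) = e := by
  funext x
  show e (s.onG (s.onGinv x)) = e x
  rw [onG_onGinv930]

theorem Rsig_invAut_Rsig930 (s : AdelicAut K) (e : G K → ℂ) :
    Rsig (invAut930 s) (Rsig s e) = e :=
  Rsig_Rsig_invAut930 (invAut930 s) e

variable {s : AdelicAut K} {𝔫 : Ideal (𝓞 K)} {μ : Measure (G K)} {F : Set (G K)} {r : G K}

/-- `AutPreserves` passes to the inverse automorphism. -/
theorem autPreserves_invAut930 (hP : AutPreserves s 𝔫 μ r) :
    AutPreserves (invAut930 s) 𝔫 μ r where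
  left_inverse := onG_onGinv930 s
  right_inverse := onGinv_onG930 s
  rat := onGinv_ratG930 s
  cont := Fermat.Agent.LT.T5.H372.continuous_onGinv372 s
  measure := by
    intro A hA
    show μ (s.onGinv ⁻¹' A) = μ A
    have hm : MeasurableSet (s.onGinv ⁻¹' A) :=
      (Fermat.Agent.LT.T5.H372.continuous_onGinv372 s).measurable hA
    have h := hP.measure _ hm
    rw [← h]
    congr 1
    ext g
    simp only [Set.mem_preimage, onGinv_onG930]
  ray := by
    show s.onGinv r = r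
    conv_lhs => rw [← hP.ray]
    exact onGinv_onG930 s r
  slab := by
    intro g
    show g ∈ _root_.Fermat.Agent.LT.T5.slab K ↔ s.onGinv g ∈ _root_.Fermat.Agent.LT.T5.slab K
    have h := hP.slab (s.onGinv g)
    rw [onG_onGinv930] at h
    exact h.symm
  level := by
    intro u
    show InLevelGroup 𝔫 u ↔ InLevelGroup 𝔫 (s.onGinv u)
    have h := hP.level (s.onGinv u)
    rw [onG_onGinv930] at h
    exact h.symm
  arch := by
    intro k
    show (∃ w, IsArchCompact w k) ↔ (∃ w, IsArchCompact w (s.onGinv k))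
    have h := hP.arch (s.onGinv k)
    rw [onG_onGinv930] at h
    exact h.symm


/-! ## 2. Transport of the vanishing of the constant term -/

/-- `σ_𝔸` as a continuous additive equivalence. -/
def autCAE930 (s : AdelicAut K) : Adl K ≃ₜ+ Adl K where
  toAddEquiv := s.σA.toAddEquiv
  continuous_toFun := s.continuous_σA
  continuous_invFun := s.continuous_symm

theorem autCAE930_apply (s : AdelicAut K) (x : Adl K) : autCAE930 s x = s.σA x := rfl

theorem autCAE930_symm_apply (s : AdelicAut K) (y : Adl K) :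
    (autCAE930 s).symm y = s.σA.symm y := rfl

/-- The principal adeles. -/
abbrev princAd930 (K : Type) [Field K] [NumberField K] : AddSubgroup (Adl K) :=
  (algebraMap K (Adl K)).toAddMonoidHom.range

/-- `σ_𝔸` maps the principal adeles onto themselves. -/
def princAut930 (s : AdelicAut K) : princAd930 K ≃ princAd930 K where
  toFun y := ⟨s.σA y.1, by
    obtain ⟨k, hk⟩ := y.2
    refine ⟨s.σ k, ?_⟩
    show algebraMap K (Adl K) (s.σ k) = s.σA y.1
    rw [← s.compat k]
    exact congrArg _ hk⟩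
  invFun x := ⟨s.σA.symm x.1, by
    obtain ⟨k, hk⟩ := x.2
    refine ⟨s.σ.symm k, ?_⟩
    show algebraMap K (Adl K) (s.σ.symm k) = s.σA.symm x.1
    have h1 : s.σA.symm (algebraMap K (Adl K) k) = algebraMap K (Adl K) (s.σ.symm k) :=
      (invAut930 s).compat k
    rw [← h1]
    exact congrArg _ hk⟩
  left_inv y := Subtype.ext (s.σA.symm_apply_apply y.1)
  right_inv x := Subtype.ext (s.σA.apply_symm_apply x.1)

theorem onG_val930 (s : AdelicAut K) (g : G K) :
    ((s.onG g : G K) : Matrix (Fin 2) (Fin 2) (Adl K))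
      = (g : Matrix (Fin 2) (Fin 2) (Adl K)).map s.σA := rfl

theorem onGinv_val930 (s : AdelicAut K) (g : G K) :
    ((s.onGinv g : G K) : Matrix (Fin 2) (Fin 2) (Adl K))
      = (g : Matrix (Fin 2) (Fin 2) (Adl K)).map s.σA.symm := rfl

/-- The vanishing of the constant term is preserved by `φ ↦ φ ∘ σ`. -/
theorem isCuspidalFn_comp_onG930 (s : AdelicAut K) (φ : G K → ℂ)
    (h : IsCuspidalFn φ) : IsCuspidalFn (fun g => φ (s.onG g)) := by
  let _ : MeasurableSpace (Adl K) := borel (Adl K)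
  have : BorelSpace (Adl K) := ⟨rfl⟩
  intro μ hμ D hD n hn g
  have := hμ
  set A : Adl K ≃ₜ+ Adl K := autCAE930 s with hA
  set Am : Adl K ≃ᵐ Adl K := A.toHomeomorph.toMeasurableEquiv with hAm
  have hAm_apply : ∀ x, Am x = s.σA x := fun _ => rfl
  have hAm_symm : ∀ y, Am.symm y = s.σA.symm y := fun _ => rfl
  set ν : Measure (Adl K) := μ.map Am with hν
  have hνH : ν.IsAddHaarMeasure := A.isAddHaarMeasure_map μ
  have hmp : MeasurePreserving Am μ ν := Am.measurable.measurePreserving μ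
  have hmp' : MeasurePreserving Am.symm ν μ := hmp.symm Am
  have hD' : IsAddFundamentalDomain (princAd930 K) (Am '' D) ν := by
    refine hD.image_of_equiv Am.toEquiv hmp'.quasiMeasurePreserving (princAut930 s).symm ?_
    intro y x
    show s.σA (((princAut930 s).symm y : Adl K) + x) = (y : Adl K) + s.σA x
    rw [map_add]
    congr 1
    exact s.σA.apply_symm_apply y.1
  set n' : Adl K → G K := fun y => s.onG (n (s.σA.symm y)) with hn'
  have hn'1 : ∀ y : Adl K,
      (n' y : Matrix (Fin 2) (Fin 2) (Adl K)) = !![1, y; 0, 1] := by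
    intro y
    refine Matrix.ext fun i j => ?_
    rw [hn', onG_val930, hn]
    fin_cases i <;> fin_cases j <;> simp
  have key := h ν hνH (Am '' D) hD' n' hn'1 (s.onG g)
  rw [hmp.setIntegral_image_emb Am.measurableEmbedding] at key
  rw [← key]
  refine setIntegral_congr_fun₀ ?_ ?_
  · exact hD.nullMeasurableSet
  · intro x _
    show φ (s.onG (n x * g)) = φ (s.onG (n (s.σA.symm (Am x))) * s.onG g)
    rw [hAm_apply, RingEquiv.symm_apply_apply, map_mul]

/-- The vanishing of the constant term is preserved by `R(σ)`. -/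
theorem isCuspidalFn_Rsig930 (s : AdelicAut K) (φ : G K → ℂ)
    (h : IsCuspidalFn φ) : IsCuspidalFn (Rsig s φ) :=
  isCuspidalFn_comp_onG930 (invAut930 s) φ h

/-! ## 3. `R(σ)` preserves the cusp functions -/

/-- `R(σ)` preserves the automorphic functions of level `𝔫` and type `τ`, when `σ` preserves the
frame and `τ` is `σ`-invariant on the compact groups at the infinite places. -/
theorem isAutomorphicFn_Rsig930 (hP : AutPreserves s 𝔫 μ r) {τ : G K → ℂ}
    (hτ : ∀ (w : InfinitePlace K) (k : G K), IsArchCompact w k → τ (s.onGinv k) = τ k)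
    {e : G K → ℂ} (he : IsAutomorphicFn 𝔫 τ r e) : IsAutomorphicFn 𝔫 τ r (Rsig s e) where
  left_inv := by
    intro γ g
    show e (s.onGinv (_root_.Fermat.Agent.LT.T5.ratG γ * g)) = e (s.onGinv g)
    rw [map_mul, onGinv_ratG930, he.left_inv]
  level_inv := by
    intro u hu g
    show e (s.onGinv (g * u)) = e (s.onGinv g)
    rw [map_mul]
    exact he.level_inv _ (((autPreserves_invAut930 hP).level u).1 hu) _
  arch_compact := by
    intro w k hk g
    show e (s.onGinv (g * k)) = τ k * e (s.onGinv g)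
    obtain ⟨w', hw'⟩ := ((autPreserves_invAut930 hP).arch k).1 ⟨w, hk⟩
    have hw'' : IsArchCompact w' (s.onGinv k) := hw'
    rw [map_mul, he.arch_compact w' _ hw'', hτ w k hk]
  ray := by
    intro g
    show e (s.onGinv (g * r)) = e (s.onGinv g)
    have hr : s.onGinv r = r := (autPreserves_invAut930 hP).ray
    rw [map_mul, hr, he.ray]

/-- **`R(σ)` preserves the cusp functions** of level `𝔫` and type `τ`. -/
theorem isCuspFn_Rsig930 (hP : AutPreserves s 𝔫 μ r) {τ : G K → ℂ}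
    (hτ : ∀ (w : InfinitePlace K) (k : G K), IsArchCompact w k → τ (s.onGinv k) = τ k)
    {e : G K → ℂ} (he : IsCuspFn 𝔫 τ r e) : IsCuspFn 𝔫 τ r (Rsig s e) where
  cont := he.cont.comp (Fermat.Agent.LT.T5.H372.continuous_onGinv372 s)
  bdd := by
    obtain ⟨C, hC⟩ := he.bdd
    exact ⟨C, fun g => hC _⟩
  aut := isAutomorphicFn_Rsig930 hP hτ he.aut
  cuspidal := isCuspidalFn_Rsig930 s e he.cuspidal

/-- The invariance hypothesis on the type passes to the inverse automorphism. -/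
theorem ktype_invAut930 (hP : AutPreserves s 𝔫 μ r) {τ : G K → ℂ}
    (hτ : ∀ (w : InfinitePlace K) (k : G K), IsArchCompact w k → τ (s.onGinv k) = τ k)
    (w : InfinitePlace K) (k : G K) (hk : IsArchCompact w k) :
    τ ((invAut930 s).onGinv k) = τ k := by
  show τ (s.onG k) = τ k
  obtain ⟨w', hw'⟩ := (hP.arch k).1 ⟨w, hk⟩
  have h := hτ w' _ hw'
  rw [onGinv_onG930] at h
  exact h.symm

/-- `R(σ)⁻¹` preserves the cusp functions. -/
theorem isCuspFn_comp_onG930 (hP : AutPreserves s 𝔫 μ r) {τ : G K → ℂ}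
    (hτ : ∀ (w : InfinitePlace K) (k : G K), IsArchCompact w k → τ (s.onGinv k) = τ k)
    {e : G K → ℂ} (he : IsCuspFn 𝔫 τ r e) : IsCuspFn 𝔫 τ r (fun x => e (s.onG x)) :=
  isCuspFn_Rsig930 (autPreserves_invAut930 hP) (ktype_invAut930 hP hτ) he

/-- The trivial type is invariant. -/
theorem trivType_invariant930 (s : AdelicAut K) (w : InfinitePlace K) (k : G K)
    (_ : IsArchCompact w k) : (trivType : G K → ℂ) (s.onGinv k) = trivType k := rfl

/-! ## 4. `R(σ)` is unitary -/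

open Fermat.Agent.LT.T5.H372 in
/-- On left-`GL₂(K)`-invariant functions, `R(σ)` is the composition with the folded map
`τ(y) = γ(y) σ⁻¹(y)` of helper372. -/
theorem comp_tau_invAut930 (s : AdelicAut K) (F : Set (G K)) {e : G K → ℂ}
    (he : ∀ (γ : GL (Fin 2) K) (g : G K), e (_root_.Fermat.Agent.LT.T5.ratG γ * g) = e g) (y : G K) :
    e (tau372 (invAut930 s) F y) = Rsig s e y := by
  show e (_root_.Fermat.Agent.LT.T5.ratG _ * s.onGinv y) = e (s.onGinv y)
  rw [he]

open Fermat.Agent.LT.T5.H372 in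
/-- Change of variables on the fundamental domain, measurable form: for a left-`GL₂(K)`-invariant
function `h` which is a.e. strongly measurable on `F`, `∫_F h(σ⁻¹ x) dx = ∫_F h(x) dx`. -/
theorem setIntegral_Rsig_of_aesm930 (hF : IsFrame μ F) (hP : AutPreserves s 𝔫 μ r)
    {h : G K → ℂ} (hsm : AEStronglyMeasurable h (μ.restrict F))
    (hinv : ∀ (γ : GL (Fin 2) K) (g : G K), h (_root_.Fermat.Agent.LT.T5.ratG γ * g) = h g) :
    ∫ x in F, Rsig s h x ∂μ = ∫ x in F, h x ∂μ := by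
  have hmp := measurePreserving_tau372 hF (autPreserves_invAut930 hP)
  have hsm' : AEStronglyMeasurable h (Measure.map (tau372 (invAut930 s) F) (μ.restrict F)) := by
    rw [hmp.map_eq]
    exact hsm
  have key := integral_map hmp.measurable.aemeasurable hsm'
  rw [hmp.map_eq] at key
  rw [key]
  refine integral_congr_ae (Filter.Eventually.of_forall fun y => ?_)
  exact (comp_tau_invAut930 s F hinv y).symm

/-- Change of variables on the fundamental domain: for a continuous left-`GL₂(K)`-invariant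
function `h`, `∫_F h(σ⁻¹ x) dx = ∫_F h(x) dx`. -/
theorem setIntegral_Rsig930 (hF : IsFrame μ F) (hP : AutPreserves s 𝔫 μ r) {h : G K → ℂ}
    (hc : Continuous h) (hinv : ∀ (γ : GL (Fin 2) K) (g : G K), h (_root_.Fermat.Agent.LT.T5.ratG γ * g) = h g) :
    ∫ x in F, Rsig s h x ∂μ = ∫ x in F, h x ∂μ :=
  setIntegral_Rsig_of_aesm930 hF hP hc.aestronglyMeasurable hinv

/-- **`R(σ)` is unitary** for the inner product on the fundamental domain (on continuous
left-`GL₂(K)`-invariant functions). -/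
theorem innerD_Rsig930 (hF : IsFrame μ F) (hP : AutPreserves s 𝔫 μ r) {e f : G K → ℂ}
    (hec : Continuous e) (hfc : Continuous f)
    (he : ∀ (γ : GL (Fin 2) K) (g : G K), e (_root_.Fermat.Agent.LT.T5.ratG γ * g) = e g)
    (hf : ∀ (γ : GL (Fin 2) K) (g : G K), f (_root_.Fermat.Agent.LT.T5.ratG γ * g) = f g) :
    innerD μ F (Rsig s e) (Rsig s f) = innerD μ F e f := by
  have hc : Continuous (fun x => e x * conj (f x)) :=
    hec.mul (Complex.continuous_conj.comp hfc)
  have hinv : ∀ (γ : GL (Fin 2) K) (g : G K),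
      (fun x => e x * conj (f x)) (_root_.Fermat.Agent.LT.T5.ratG γ * g) = (fun x => e x * conj (f x)) g := by
    intro γ g
    show e (_root_.Fermat.Agent.LT.T5.ratG γ * g) * conj (f (_root_.Fermat.Agent.LT.T5.ratG γ * g)) = e g * conj (f g)
    rw [he, hf]
  exact setIntegral_Rsig930 hF hP hc hinv

/-- `R(σ)` is unitary on the cusp functions. -/
theorem innerD_Rsig_cusp930 (hF : IsFrame μ F) (hP : AutPreserves s 𝔫 μ r) {τ : G K → ℂ}
    {e f : G K → ℂ} (he : IsCuspFn 𝔫 τ r e) (hf : IsCuspFn 𝔫 τ r f) :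
    innerD μ F (Rsig s e) (Rsig s f) = innerD μ F e f :=
  innerD_Rsig930 hF hP he.cont hf.cont he.aut.left_inv hf.aut.left_inv

/-- Adjunction: `⟨f, R(σ) e⟩ = ⟨R(σ)⁻¹ f, e⟩`. -/
theorem innerD_Rsig_right930 (hF : IsFrame μ F) (hP : AutPreserves s 𝔫 μ r) {e f : G K → ℂ}
    (hec : Continuous e) (hfc : Continuous f)
    (he : ∀ (γ : GL (Fin 2) K) (g : G K), e (_root_.Fermat.Agent.LT.T5.ratG γ * g) = e g)
    (hf : ∀ (γ : GL (Fin 2) K) (g : G K), f (_root_.Fermat.Agent.LT.T5.ratG γ * g) = f g) :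
    innerD μ F f (Rsig s e) = innerD μ F (Rsig (invAut930 s) f) e := by
  have hf' : ∀ (γ : GL (Fin 2) K) (g : G K),
      Rsig (invAut930 s) f (_root_.Fermat.Agent.LT.T5.ratG γ * g) = Rsig (invAut930 s) f g := by
    intro γ g
    show f (s.onG (_root_.Fermat.Agent.LT.T5.ratG γ * g)) = f (s.onG g)
    rw [map_mul, onG_ratG930, hf]
  have hc' : Continuous (Rsig (invAut930 s) f) := hfc.comp (continuous_onG930 s)
  have h := innerD_Rsig930 hF hP hc' hec hf' he
  rw [Rsig_Rsig_invAut930] at h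
  exact h

/-! ## 5. `R(σ)` permutes the complete orthonormal systems of cusp functions -/

/-- **`R(σ)` maps a complete orthonormal system of cusp functions to a complete orthonormal
system of cusp functions.** -/
theorem isCuspONB_Rsig930 (hF : IsFrame μ F) (hP : AutPreserves s 𝔫 μ r) {τ : G K → ℂ}
    (hτ : ∀ (w : InfinitePlace K) (k : G K), IsArchCompact w k → τ (s.onGinv k) = τ k)
    {e : ℕ → G K → ℂ} (he : IsCuspONB 𝔫 τ r μ F e) :
    IsCuspONB 𝔫 τ r μ F (fun i => Rsig s (e i)) where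
  cusp i := isCuspFn_Rsig930 hP hτ (he.cusp i)
  orth i j hij := by
    rw [innerD_Rsig_cusp930 hF hP (he.cusp i) (he.cusp j)]
    exact he.orth i j hij
  norm i := by
    rcases he.norm i with h1 | h0
    · left
      rw [innerD_Rsig_cusp930 hF hP (he.cusp i) (he.cusp i)]
      exact h1
    · right
      intro g
      exact h0 _
  complete f hf := by
    have hf' : IsCuspFn 𝔫 τ r (Rsig (invAut930 s) f) := isCuspFn_comp_onG930 hP hτ hf
    have h := he.complete _ hf'
    have e1 : ∀ i, innerD μ F f (Rsig s (e i)) = innerD μ F (Rsig (invAut930 s) f) (e i) :=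
      fun i => innerD_Rsig_right930 hF hP (he.cusp i).cont hf.cont (he.cusp i).aut.left_inv
        hf.aut.left_inv
    have e2 : innerD μ F f f
        = innerD μ F (Rsig (invAut930 s) f) (Rsig (invAut930 s) f) := by
      have h2 := innerD_Rsig_cusp930 hF hP hf' hf'
      rw [Rsig_Rsig_invAut930] at h2
      exact h2
    simp only [e1, e2]
    exact h

/-- The same for `R(σ)⁻¹`. -/
theorem isCuspONB_comp_onG930 (hF : IsFrame μ F) (hP : AutPreserves s 𝔫 μ r) {τ : G K → ℂ}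
    (hτ : ∀ (w : InfinitePlace K) (k : G K), IsArchCompact w k → τ (s.onGinv k) = τ k)
    {e : ℕ → G K → ℂ} (he : IsCuspONB 𝔫 τ r μ F e) :
    IsCuspONB 𝔫 τ r μ F (fun i x => e i (s.onG x)) :=
  isCuspONB_Rsig930 hF (autPreserves_invAut930 hP) (ktype_invAut930 hP hτ) he

/-! ## 6. `R(σ) R(φ) R(σ)⁻¹ = R(σ φ)` -/

/-- `σ` as a homeomorphism of `GL₂(𝔸_K)`. -/
def onGHomeo930 (s : AdelicAut K) : G K ≃ₜ G K where
  toFun := s.onG
  invFun := s.onGinv
  left_inv := onGinv_onG930 s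
  right_inv := onG_onGinv930 s
  continuous_toFun := continuous_onG930 s
  continuous_invFun := Fermat.Agent.LT.T5.H372.continuous_onGinv372 s

theorem measurePreserving_onG930 (hP : AutPreserves s 𝔫 μ r) :
    MeasurePreserving (onGHomeo930 s).toMeasurableEquiv μ μ := by
  refine ⟨(onGHomeo930 s).toMeasurableEquiv.measurable, Measure.ext fun A hA => ?_⟩
  rw [Measure.map_apply (onGHomeo930 s).toMeasurableEquiv.measurable hA]
  exact hP.measure A hA

theorem measurePreserving_onGinv930 (hP : AutPreserves s 𝔫 μ r) :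
    MeasurePreserving (onGHomeo930 s).symm.toMeasurableEquiv μ μ := by
  refine ⟨(onGHomeo930 s).symm.toMeasurableEquiv.measurable, Measure.ext fun A hA => ?_⟩
  rw [Measure.map_apply (onGHomeo930 s).symm.toMeasurableEquiv.measurable hA]
  exact (autPreserves_invAut930 hP).measure A hA

/-- Change of variables on the whole group: `∫ h(σ⁻¹ y) dy = ∫ h(y) dy` (any `h`). -/
theorem integral_comp_onGinv930 (hP : AutPreserves s 𝔫 μ r) (h : G K → ℂ) :
    ∫ y, h (s.onGinv y) ∂μ = ∫ y, h y ∂μ :=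
  (measurePreserving_onGinv930 hP).integral_comp' h

/-- Change of variables on the whole group: `∫ h(σ y) dy = ∫ h(y) dy` (any `h`). -/
theorem integral_comp_onG930 (hP : AutPreserves s 𝔫 μ r) (h : G K → ℂ) :
    ∫ y, h (s.onG y) ∂μ = ∫ y, h y ∂μ :=
  (measurePreserving_onG930 hP).integral_comp' h

/-- **Intertwining relation** `R(σ) R(φ) = R(σ φ) R(σ)`, where `σ φ = φ ∘ σ⁻¹`
(no hypothesis on `φ`, `e`). -/
theorem Rsig_Rconv930 (hP : AutPreserves s 𝔫 μ r) (φ e : G K → ℂ) :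
    Rsig s (Rconv μ φ e) = Rconv μ (Rsig s φ) (Rsig s e) := by
  funext x
  show ∫ y, φ y * e (s.onGinv x * y) ∂μ = ∫ y, φ (s.onGinv y) * e (s.onGinv (x * y)) ∂μ
  rw [← integral_comp_onGinv930 hP (fun y => φ y * e (s.onGinv x * y))]
  refine integral_congr_ae (Filter.Eventually.of_forall fun y => ?_)
  show φ (s.onGinv y) * e (s.onGinv x * s.onGinv y) = φ (s.onGinv y) * e (s.onGinv (x * y))
  rw [map_mul]

/-- If `φ` is `σ`-invariant, `R(σ)` commutes with `R(φ)`. -/
theorem Rsig_Rconv_of_invariant930 (hP : AutPreserves s 𝔫 μ r) {φ : G K → ℂ}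
    (hφ : ∀ g, φ (s.onGinv g) = φ g) (e : G K → ℂ) :
    Rsig s (Rconv μ φ e) = Rconv μ φ (Rsig s e) := by
  rw [Rsig_Rconv930 hP]
  congr 1
  funext g
  exact hφ g

/-- `R(σ)` of a convolution: `σ(φ₁ ⋆ φ₂) = σ φ₁ ⋆ σ φ₂`. -/
theorem Rsig_conv930 (hP : AutPreserves s 𝔫 μ r) (φ₁ φ₂ : G K → ℂ) :
    Rsig s (conv μ φ₁ φ₂) = conv μ (Rsig s φ₁) (Rsig s φ₂) := by
  funext x
  show ∫ y, φ₁ y * φ₂ (y⁻¹ * s.onGinv x) ∂μ
    = ∫ y, φ₁ (s.onGinv y) * φ₂ (s.onGinv (y⁻¹ * x)) ∂μ
  rw [← integral_comp_onGinv930 hP (fun y => φ₁ y * φ₂ (y⁻¹ * s.onGinv x))]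
  refine integral_congr_ae (Filter.Eventually.of_forall fun y => ?_)
  show φ₁ (s.onGinv y) * φ₂ ((s.onGinv y)⁻¹ * s.onGinv x)
    = φ₁ (s.onGinv y) * φ₂ (s.onGinv (y⁻¹ * x))
  rw [map_mul, map_inv]

/-- `R(σ)` commutes with the adjoint of test functions. -/
theorem Rsig_adjointFn930 (s : AdelicAut K) (φ : G K → ℂ) :
    Rsig s (adjointFn φ) = adjointFn (Rsig s φ) := by
  funext x
  show conj (φ (s.onGinv x)⁻¹) = conj (φ (s.onGinv x⁻¹))
  rw [map_inv]

end Fermat.Agent.LT.T1.H930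

end
end
-- ===== PACK-END LT/T1/H930/RsigCusp.lean

-- ===== PACK-BEGIN LT/T2/H322/MeanBdd.lean
section






/-!
# Row LT, tower T2, sub-leaf T2.07.15 `SubMeanBdd429` (helper322): the sphere and circle means
are bounded in `L²` on the cusp functions

OFF-MAIN.  Vocabulary: `LT/H556/A0.lean`, `LT/T1/Spec.lean`, `LT/T2/Spec.lean` (byte-identical
copies; only `Frame`, `IsCuspFn`, `pair`, `nsq`, `sphereMean`, `circleMean`, `IsSphereAt`,
`IsCircleAt`, `IsDiagPosScalar`, `T1.ratG` are used).  Nothing is assumed, no opaque constant, no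
placeholder proof.

* `diagPos_inv322`: a function which is right invariant under the positive scalars at EVERY
  infinite place (`A0.IsArchPosScalar`) is right invariant under `Z⁺` (`T2.IsDiagPosScalar`).
  (A diagonal positive scalar is the product of its local components, `diagPos_eq_prod322`.)
* `TranslInv322 F` = the statement of T2.07.00 (`SubTransl429`) for the frame `F`;
  `LocCont322 K` = the statement of T2.07.30 (`SubLocCont429`).
* `int_sq_transl322`: `∫_D |φ(g h)|² = ∫_D |φ(g)|²` for a cusp function (from `TranslInv322`).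
* `meanBdd_general322`: for ANY finite measure `ρ` on a second countable space `P`, any continuous
  `Y : P → G K` and any `v` with `|v(g)| ≤ ∫ |φ(g Y(p))| dρ(p)`: `‖v‖² ≤ ρ(P)² ‖φ‖²`.
  (Also usable for the Hecke sums and for the convolutions: T2.07.03, T2.07.09.)
* `sphereBdd322`, `circleBdd322`: the two clauses of `SubMeanBdd429`, constants
  `(2π · π)²`, resp. `(2π)²` (as `ρ.real univ ^ 2`).
-/

set_option autoImplicit false

open IsDedekindDomain NumberField MeasureTheory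
open Fermat.Agent.LT.H556.A0
open Fermat.Agent.LT.T2

noncomputable section

namespace Fermat.Agent.LT.T2.H322

variable {K : Type} [Field K] [NumberField K]

attribute [local instance] Fermat.Agent.LT.T2.borelG
attribute [local instance] Classical.propDecidable

/-! ## 1. Invariance under the diagonal positive scalars -/

/-- The adele which is `a` at the infinite place `w` and `1` at every other place. -/
def locAdele322 (w : InfinitePlace K) (a : w.Completion) : Adl K :=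
  ((Pi.mulSingle w a : InfiniteAdeleRing K), (1 : FiniteAdeleRing (𝓞 K) K))

theorem locAdele322_mul (w : InfinitePlace K) (a b : w.Completion) :
    locAdele322 w a * locAdele322 w b = locAdele322 w (a * b) := by
  apply Prod.ext
  · show (Pi.mulSingle w a : InfiniteAdeleRing K) * Pi.mulSingle w b = Pi.mulSingle w (a * b)
    exact (Pi.mulSingle_mul w a b).symm
  · show (1 : FiniteAdeleRing (𝓞 K) K) * 1 = 1
    exact one_mul 1

theorem locAdele322_one (w : InfinitePlace K) : locAdele322 w (1 : w.Completion) = 1 := by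
  apply Prod.ext
  · show (Pi.mulSingle w (1 : w.Completion) : InfiniteAdeleRing K) = 1
    exact Pi.mulSingle_one w
  · rfl

/-- The local adele as an idele. -/
def locUnit322 (w : InfinitePlace K) (a : w.Completion) (ha : a ≠ 0) : (Adl K)ˣ where
  val := locAdele322 w a
  inv := locAdele322 w a⁻¹
  val_inv := by rw [locAdele322_mul, mul_inv_cancel₀ ha, locAdele322_one]
  inv_val := by rw [locAdele322_mul, inv_mul_cancel₀ ha, locAdele322_one]

/-- The scalar matrix of the local idele. -/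
def zLoc322 (w : InfinitePlace K) (a : w.Completion) (ha : a ≠ 0) : G K :=
  Units.map (Matrix.scalar (Fin 2) : Adl K →+* Matrix (Fin 2) (Fin 2) (Adl K)).toMonoidHom
    (locUnit322 w a ha)

theorem zLoc322_coe (w : InfinitePlace K) (a : w.Completion) (ha : a ≠ 0) :
    ((zLoc322 w a ha : G K) : Matrix (Fin 2) (Fin 2) (Adl K))
      = Matrix.scalar (Fin 2) (locAdele322 w a) := rfl

theorem zLoc322_apply (w : InfinitePlace K) (a : w.Completion) (ha : a ≠ 0) (i j : Fin 2) :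
    ((zLoc322 w a ha : G K) : Matrix (Fin 2) (Fin 2) (Adl K)) i j
      = if i = j then locAdele322 w a else 0 := by
  rw [zLoc322_coe, Matrix.scalar_apply, Matrix.diagonal_apply]

theorem zLoc322_isArchPosScalar (w : InfinitePlace K) (a : w.Completion) (ha : a ≠ 0)
    (r : ℝ) (hr : 0 < r) (har : InfinitePlace.Completion.extensionEmbedding w a = (r : ℂ)) :
    IsArchPosScalar w (zLoc322 w a ha) := by
  refine ⟨⟨?_, ?_⟩, r, hr, ?_⟩
  · intro w' hw' i j
    rw [zLoc322_apply]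
    by_cases hij : i = j
    · subst hij
      simp only [if_true, Matrix.one_apply_eq]
      show (Pi.mulSingle w a : InfiniteAdeleRing K) w' = 1
      exact Pi.mulSingle_eq_of_ne hw' a
    · simp only [if_neg hij, Matrix.one_apply_ne hij]
      rfl
  · intro v
    refine Matrix.ext fun i j => ?_
    show (((zLoc322 w a ha : G K) : Matrix (Fin 2) (Fin 2) (Adl K)) i j).2 v = _
    rw [zLoc322_apply]
    by_cases hij : i = j
    · subst hij
      simp only [if_true, Matrix.one_apply_eq]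
      rfl
    · simp only [if_neg hij, Matrix.one_apply_ne hij]
      rfl
  · refine Matrix.ext fun i j => ?_
    show InfinitePlace.Completion.extensionEmbedding w
      ((((zLoc322 w a ha : G K) : Matrix (Fin 2) (Fin 2) (Adl K)) i j).1 w) = _
    rw [zLoc322_apply, Matrix.diagonal_apply]
    by_cases hij : i = j
    · subst hij
      simp only [if_true]
      show InfinitePlace.Completion.extensionEmbedding w
        ((Pi.mulSingle w a : InfiniteAdeleRing K) w) = _
      rw [Pi.mulSingle_eq_same, har]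
    · simp only [if_neg hij]
      show InfinitePlace.Completion.extensionEmbedding w ((0 : InfiniteAdeleRing K) w) = 0
      exact map_zero _

/-- The entries of a diagonal positive scalar. -/
theorem diagPos_coe322 {z : G K} (hz : IsDiagPosScalar z) :
    (z : Matrix (Fin 2) (Fin 2) (Adl K))
      = Matrix.scalar (Fin 2) ((z : Matrix (Fin 2) (Fin 2) (Adl K)) 0 0) := by
  obtain ⟨hfin, r, hr, hinf⟩ := hz
  have hI : ∀ (w : InfinitePlace K) (i j : Fin 2),
      InfinitePlace.Completion.extensionEmbedding w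
        (((z : Matrix (Fin 2) (Fin 2) (Adl K)) i j).1 w)
        = (Matrix.diagonal (fun _ => (r : ℂ)) : Matrix (Fin 2) (Fin 2) ℂ) i j := fun w i j =>
    congrFun (congrFun (hinf w) i) j
  have hF : ∀ (v : HeightOneSpectrum (𝓞 K)) (i j : Fin 2),
      ((z : Matrix (Fin 2) (Fin 2) (Adl K)) i j).2 v
        = (1 : Matrix (Fin 2) (Fin 2) (v.adicCompletion K)) i j := fun v i j =>
    congrFun (congrFun (hfin v) i) j
  refine Matrix.ext fun i j => ?_
  rw [Matrix.scalar_apply, Matrix.diagonal_apply]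
  by_cases hij : i = j
  · subst hij
    rw [if_pos rfl]
    apply Prod.ext
    · funext w
      apply (InfinitePlace.Completion.extensionEmbedding w).injective
      rw [hI w i i, hI w 0 0, Matrix.diagonal_apply_eq, Matrix.diagonal_apply_eq]
    · apply FiniteAdeleRing.ext
      intro v
      rw [hF v i i, hF v 0 0, Matrix.one_apply_eq, Matrix.one_apply_eq]
  · rw [if_neg hij]
    apply Prod.ext
    · funext w
      apply (InfinitePlace.Completion.extensionEmbedding w).injective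
      rw [hI w i j, Matrix.diagonal_apply_ne _ hij]
      exact (map_zero _).symm
    · apply FiniteAdeleRing.ext
      intro v
      rw [hF v i j, Matrix.one_apply_ne hij]
      rfl

theorem prod_locAdele322 (a : ∀ w : InfinitePlace K, w.Completion)
    (S : Finset (InfinitePlace K)) :
    (∏ w ∈ S, locAdele322 w (a w))
      = (((fun w' => if w' ∈ S then a w' else 1 : InfiniteAdeleRing K),
          (1 : FiniteAdeleRing (𝓞 K) K)) : Adl K) := by
  induction S using Finset.induction_on with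
  | empty =>
    rw [Finset.prod_empty]
    apply Prod.ext
    · funext w'
      show (1 : InfiniteAdeleRing K) w' = if w' ∈ (∅ : Finset (InfinitePlace K)) then a w' else 1
      rw [if_neg (Finset.notMem_empty _)]
      rfl
    · rfl
  | insert w S hw ih =>
    rw [Finset.prod_insert hw, ih]
    apply Prod.ext
    · funext w'
      show (Pi.mulSingle w (a w) : InfiniteAdeleRing K) w' * (if w' ∈ S then a w' else 1)
        = if w' ∈ insert w S then a w' else 1
      by_cases h : w' = w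
      · subst h
        rw [Pi.mulSingle_eq_same, if_neg hw, mul_one, if_pos (Finset.mem_insert_self _ _)]
      · rw [Pi.mulSingle_eq_of_ne h, one_mul]
        by_cases h' : w' ∈ S
        · rw [if_pos h', if_pos (Finset.mem_insert_of_mem h')]
        · rw [if_neg h', if_neg (by simp [h, h'])]
    · show (1 : FiniteAdeleRing (𝓞 K) K) * 1 = 1
      exact one_mul 1

/-- A diagonal positive scalar is the product of its local components. -/
theorem diagPos_eq_prod322 {z : G K} (hz : IsDiagPosScalar z) :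
    ∃ (a : ∀ w : InfinitePlace K, w.Completion) (ha : ∀ w, a w ≠ 0),
      (∀ w, IsArchPosScalar w (zLoc322 w (a w) (ha w))) ∧
        z = Units.map
          (Matrix.scalar (Fin 2) : Adl K →+* Matrix (Fin 2) (Fin 2) (Adl K)).toMonoidHom
          (∏ w : InfinitePlace K, locUnit322 w (a w) (ha w)) := by
  have hcoe := diagPos_coe322 hz
  obtain ⟨hfin, r, hr, hinf⟩ := hz
  set c : Adl K := (z : Matrix (Fin 2) (Fin 2) (Adl K)) 0 0 with hc
  have hemb : ∀ w : InfinitePlace K,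
      InfinitePlace.Completion.extensionEmbedding w (c.1 w) = (r : ℂ) := by
    intro w
    have := congrFun (congrFun (hinf w) 0) 0
    rw [Matrix.diagonal_apply_eq] at this
    exact this
  have hne : ∀ w : InfinitePlace K, c.1 w ≠ 0 := by
    intro w h0
    have := hemb w
    rw [h0, map_zero] at this
    exact (Complex.ofReal_ne_zero.mpr hr.ne') this.symm
  have hc2 : c.2 = 1 := by
    apply FiniteAdeleRing.ext
    intro v
    have := congrFun (congrFun (hfin v) 0) 0
    rw [Matrix.one_apply_eq] at this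
    exact this
  refine ⟨fun w => c.1 w, hne, fun w => zLoc322_isArchPosScalar w _ _ r hr (hemb w), ?_⟩
  apply Units.ext
  rw [hcoe]
  show Matrix.scalar (Fin 2) c
    = Matrix.scalar (Fin 2) (((∏ w : InfinitePlace K, locUnit322 w (c.1 w) (hne w) : (Adl K)ˣ)
        : Adl K))
  congr 1
  rw [Units.coe_prod]
  have h1 : ∀ w : InfinitePlace K, ((locUnit322 w (c.1 w) (hne w) : (Adl K)ˣ) : Adl K)
      = locAdele322 w (c.1 w) := fun w => rfl
  simp only [h1]
  rw [prod_locAdele322 (fun w => c.1 w) Finset.univ]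
  apply Prod.ext
  · funext w'
    show c.1 w' = if w' ∈ (Finset.univ : Finset (InfinitePlace K)) then c.1 w' else 1
    rw [if_pos (Finset.mem_univ _)]
  · exact hc2

/-- **Invariance under `Z⁺`**: a function which is right invariant under the positive scalars at
every infinite place is right invariant under the diagonal positive scalars. -/
theorem diagPos_inv322 {φ : G K → ℂ}
    (h : ∀ (w : InfinitePlace K) (z : G K), IsArchPosScalar w z → ∀ g : G K, φ (g * z) = φ g)
    {z : G K} (hz : IsDiagPosScalar z) (g : G K) : φ (g * z) = φ g := by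
  obtain ⟨a, ha, harch, hprod⟩ := diagPos_eq_prod322 hz
  have key : ∀ (S : Finset (InfinitePlace K)) (g : G K),
      φ (g * Units.map
          (Matrix.scalar (Fin 2) : Adl K →+* Matrix (Fin 2) (Fin 2) (Adl K)).toMonoidHom
          (∏ w ∈ S, locUnit322 w (a w) (ha w))) = φ g := by
    intro S
    induction S using Finset.induction_on with
    | empty => intro g; simp
    | insert w S hw ih =>
      intro g
      rw [Finset.prod_insert hw, map_mul, ← mul_assoc, ih]
      exact h w _ (harch w) g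
  rw [hprod]
  exact key Finset.univ g

/-! ## 2. The Petersson norm as a real integral -/

theorem borelSpaceG322 : @BorelSpace (G K) _ borelG := ⟨rfl⟩

/-- The statement of T2.07.00 (`SubTransl429`) for one frame. -/
def TranslInv322 (F : Frame K) : Prop :=
  ∀ (Φ : G K → ℂ), Continuous Φ → (∃ C : ℝ, ∀ g : G K, ‖Φ g‖ ≤ C) →
    (∀ (γ : GL (Fin 2) K) (g : G K), Φ (T1.ratG K γ * g) = Φ g) →
    (∀ z : G K, IsDiagPosScalar z → ∀ g : G K, Φ (g * z) = Φ g) →
    ∀ h : G K, ∫ g in F.D, Φ (g * h) ∂F.μ = ∫ g in F.D, Φ g ∂F.μ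

theorem isFinite_restrict322 (F : Frame K) : IsFiniteMeasure (F.μ.restrict F.D) :=
  ⟨by rw [Measure.restrict_apply_univ]; exact F.fin⟩

/-- `‖ψ‖² ≤ ∫_D |ψ|²` (equality when the integrand is integrable). -/
theorem nsq_le322 (F : Frame K) (ψ : G K → ℂ) :
    nsq F ψ ≤ ∫ g in F.D, ‖ψ g‖ ^ 2 ∂F.μ := by
  unfold nsq pair
  by_cases hi : Integrable (fun g => ψ g * (starRingEnd ℂ) (ψ g)) (F.μ.restrict F.D)
  · have h1 : (∫ g in F.D, ψ g * (starRingEnd ℂ) (ψ g) ∂F.μ).re
        = ∫ g in F.D, (ψ g * (starRingEnd ℂ) (ψ g)).re ∂F.μ := by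
      have := integral_re (𝕜 := ℂ) hi
      simpa using this.symm
    rw [h1]
    apply le_of_eq
    congr 1
    funext g
    rw [Complex.mul_conj, Complex.ofReal_re, Complex.normSq_eq_norm_sq]
  · rw [integral_undef hi]
    simp only [Complex.zero_re]
    exact integral_nonneg (fun g => by positivity)

/-- For a bounded continuous function, `‖φ‖² = ∫_D |φ|²`. -/
theorem nsq_eq322 (F : Frame K) {φ : G K → ℂ} (hc : Continuous φ)
    (hb : ∃ C : ℝ, ∀ g : G K, ‖φ g‖ ≤ C) :
    nsq F φ = ∫ g in F.D, ‖φ g‖ ^ 2 ∂F.μ := by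
  have := borelSpaceG322 (K := K)
  have := isFinite_restrict322 F
  obtain ⟨B, hB⟩ := hb
  have hi : Integrable (fun g => φ g * (starRingEnd ℂ) (φ g)) (F.μ.restrict F.D) := by
    have hcont : Continuous (fun g => φ g * (starRingEnd ℂ) (φ g)) :=
      hc.mul (Complex.continuous_conj.comp hc)
    refine Integrable.of_bound hcont.aestronglyMeasurable (B ^ 2)
      (Filter.Eventually.of_forall fun g => ?_)
    rw [norm_mul, RCLike.norm_conj, ← pow_two]
    exact pow_le_pow_left₀ (norm_nonneg _) (hB g) 2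
  unfold nsq pair
  have h1 : (∫ g in F.D, φ g * (starRingEnd ℂ) (φ g) ∂F.μ).re
      = ∫ g in F.D, (φ g * (starRingEnd ℂ) (φ g)).re ∂F.μ := by
    have := integral_re (𝕜 := ℂ) hi
    simpa using this.symm
  rw [h1]
  congr 1
  funext g
  rw [Complex.mul_conj, Complex.ofReal_re, Complex.normSq_eq_norm_sq]

/-- The KEY LEMMA for `|φ|²`. -/
theorem int_sq_transl322 {𝔫 : Ideal (𝓞 K)} (F : Frame K) (hTr : TranslInv322 F)
    {φ : G K → ℂ} (hφ : IsCuspFn 𝔫 φ) (h : G K) :
    ∫ g in F.D, ‖φ (g * h)‖ ^ 2 ∂F.μ = ∫ g in F.D, ‖φ g‖ ^ 2 ∂F.μ := by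
  obtain ⟨B, hB⟩ := hφ.bdd
  have key := hTr (fun g => ((‖φ g‖ ^ 2 : ℝ) : ℂ))
    (Complex.continuous_ofReal.comp ((continuous_norm.comp hφ.cont).pow 2))
    ⟨B ^ 2, fun g => by
      rw [Complex.norm_real, Real.norm_eq_abs, abs_of_nonneg (by positivity)]
      exact pow_le_pow_left₀ (norm_nonneg _) (hB g) 2⟩
    (fun γ g => by
      have := hφ.left_inv γ g
      show ((‖φ (T1.ratG K γ * g)‖ ^ 2 : ℝ) : ℂ) = ((‖φ g‖ ^ 2 : ℝ) : ℂ)
      unfold T1.ratG
      rw [this])
    (fun z hz g => by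
      show ((‖φ (g * z)‖ ^ 2 : ℝ) : ℂ) = ((‖φ g‖ ^ 2 : ℝ) : ℂ)
      rw [diagPos_inv322 hφ.arch_scalar hz g]) h
  have e1 : ∫ g in F.D, ((‖φ (g * h)‖ ^ 2 : ℝ) : ℂ) ∂F.μ
      = ((∫ g in F.D, ‖φ (g * h)‖ ^ 2 ∂F.μ : ℝ) : ℂ) := integral_ofReal
  have e2 : ∫ g in F.D, ((‖φ g‖ ^ 2 : ℝ) : ℂ) ∂F.μ
      = ((∫ g in F.D, ‖φ g‖ ^ 2 ∂F.μ : ℝ) : ℂ) := integral_ofReal
  have key' : ∫ g in F.D, ((‖φ (g * h)‖ ^ 2 : ℝ) : ℂ) ∂F.μ
      = ∫ g in F.D, ((‖φ g‖ ^ 2 : ℝ) : ℂ) ∂F.μ := key
  rw [e1, e2] at key'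
  exact Complex.ofReal_injective key'

/-! ## 3. The bound for a general finite parameter space -/

/-- The general bound: `P` a second countable space with a finite measure `ρ`, `Y : P → G K`
continuous, `v` dominated by the `ρ`-mean of `|φ(g Y(p))|`. -/
theorem meanBdd_general322 {𝔫 : Ideal (𝓞 K)} (F : Frame K) (hTr : TranslInv322 F)
    {P : Type} [TopologicalSpace P] [SecondCountableTopology P] [MeasurableSpace P]
    [OpensMeasurableSpace P] (ρ : Measure P) [IsFiniteMeasure ρ]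
    (Y : P → G K) (hY : Continuous Y) {φ : G K → ℂ} (hφ : IsCuspFn 𝔫 φ)
    (v : G K → ℂ) (hv : ∀ g, ‖v g‖ ≤ ∫ p, ‖φ (g * Y p)‖ ∂ρ) :
    nsq F v ≤ ρ.real Set.univ ^ 2 * nsq F φ := by
  have := borelSpaceG322 (K := K)
  have := isFinite_restrict322 F
  obtain ⟨B, hB⟩ := hφ.bdd
  have hcont : Continuous (Function.uncurry fun (g : G K) (p : P) => φ (g * Y p)) :=
    hφ.cont.comp (continuous_fst.mul (hY.comp continuous_snd))
  have hmain := abs_mean_bound322 (F.μ.restrict F.D) ρ (fun g p => φ (g * Y p))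
    hcont.measurable B (fun g p => hB _) (∫ g in F.D, ‖φ g‖ ^ 2 ∂F.μ)
    (fun p => le_of_eq (int_sq_transl322 F hTr hφ (Y p))) v hv
  rw [nsq_eq322 F hφ.cont hφ.bdd]
  exact (nsq_le322 F v).trans hmain

/-! ## 4. Continuity of the parametrisations -/

/-- The statement of T2.07.30 (`SubLocCont429`). -/
def LocCont322 (K : Type) [Field K] [NumberField K] : Prop :=
  ∀ (w : InfinitePlace K) (X : Type) [TopologicalSpace X] (h : X → G K),
    (∀ x, IsLocalAtInf w (h x)) →
    (∀ i j : Fin 2, Continuous fun x => infComp w (h x) i j) → Continuous h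

theorem continuous_rotZ322 : Continuous rotZ := by
  refine continuous_matrix fun i j => ?_
  fin_cases i <;> fin_cases j <;> simp [rotZ] <;> fun_prop

theorem continuous_rotY322 : Continuous rotY := by
  refine continuous_matrix fun i j => ?_
  fin_cases i <;> fin_cases j <;> simp [rotY] <;> fun_prop

theorem continuous_sphere322 (hL : LocCont322 K) (w : InfinitePlace K) (d : ℝ)
    (Y : ℝ → ℝ → G K) (hY : IsSphereAt w d Y) :
    Continuous (fun p : ℝ × ℝ => Y p.1 p.2) := by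
  refine hL w (ℝ × ℝ) _ (fun p => (hY p.1 p.2).1) (fun i j => ?_)
  have h1 : (fun p : ℝ × ℝ => infComp w (Y p.1 p.2) i j)
      = fun p : ℝ × ℝ => (rotZ p.1 * rotY p.2 * torus d) i j := by
    funext p
    rw [(hY p.1 p.2).2]
  rw [h1]
  have h2 : Continuous (fun p : ℝ × ℝ => rotZ p.1 * rotY p.2 * torus d) :=
    ((continuous_rotZ322.comp continuous_fst).matrix_mul
      (continuous_rotY322.comp continuous_snd)).matrix_mul continuous_const
  exact h2.matrix_elem i j

theorem continuous_circle322 (hL : LocCont322 K) (w : InfinitePlace K) (t : ℝ)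
    (Y : ℝ → G K) (hY : IsCircleAt w t Y) : Continuous Y := by
  refine hL w ℝ _ (fun θ => (hY θ).1) (fun i j => ?_)
  have h1 : (fun θ : ℝ => infComp w (Y θ) i j) = fun θ : ℝ => (rotY θ * torus t) i j := by
    funext θ
    rw [(hY θ).2]
  rw [h1]
  have h2 : Continuous (fun θ : ℝ => rotY θ * torus t) :=
    continuous_rotY322.matrix_mul continuous_const
  exact h2.matrix_elem i j

/-! ## 5. The pointwise bounds -/

/-- The parameter measure of the sphere means: Lebesgue measure on `(0, 2π] × (0, π]`. -/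
def rhoS322 : Measure (ℝ × ℝ) :=
  (volume.restrict (Set.Ioc (0 : ℝ) (2 * Real.pi))).prod
    (volume.restrict (Set.Ioc (0 : ℝ) Real.pi))

instance : IsFiniteMeasure rhoS322 := by
  unfold rhoS322
  infer_instance

/-- The parameter measure of the circle means: Lebesgue measure on `(0, 2π]`. -/
def rhoC322 : Measure ℝ := volume.restrict (Set.Ioc (0 : ℝ) (2 * Real.pi))

instance : IsFiniteMeasure rhoC322 := by
  unfold rhoC322
  infer_instance

/-- The sphere mean is dominated by the mean of `|φ|`. -/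
theorem norm_sphereMean_le322 (Y : ℝ → ℝ → G K) (hY : Continuous (fun p : ℝ × ℝ => Y p.1 p.2))
    {φ : G K → ℂ} (hc : Continuous φ) (hb : ∃ C : ℝ, ∀ g : G K, ‖φ g‖ ≤ C) (g : G K) :
    ‖sphereMean Y φ g‖ ≤ ∫ p, ‖φ (g * Y p.1 p.2)‖ ∂rhoS322 := by
  obtain ⟨B, hB⟩ := hb
  have hu : Continuous (fun p : ℝ × ℝ => φ (g * Y p.1 p.2)) :=
    hc.comp (continuous_const.mul hY)
  have hs : Continuous (fun p : ℝ × ℝ => ((Real.sin p.2 : ℝ) : ℂ)) := by fun_prop
  have hsle : ∀ p : ℝ × ℝ, ‖φ (g * Y p.1 p.2) * ((Real.sin p.2 : ℝ) : ℂ)‖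
      ≤ ‖φ (g * Y p.1 p.2)‖ := by
    intro p
    rw [norm_mul, Complex.norm_real, Real.norm_eq_abs]
    exact mul_le_of_le_one_right (norm_nonneg _) (Real.abs_sin_le_one _)
  have hint : Integrable (fun p : ℝ × ℝ => φ (g * Y p.1 p.2) * ((Real.sin p.2 : ℝ) : ℂ))
      rhoS322 :=
    Integrable.of_bound (hu.mul hs).aestronglyMeasurable B
      (Filter.Eventually.of_forall fun p => (hsle p).trans (hB _))
  have hintn : Integrable (fun p : ℝ × ℝ => ‖φ (g * Y p.1 p.2)‖) rhoS322 :=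
    Integrable.of_bound hu.norm.aestronglyMeasurable B
      (Filter.Eventually.of_forall fun p => by
        rw [Real.norm_eq_abs, abs_of_nonneg (norm_nonneg _)]; exact hB _)
  have e1 : sphereMean Y φ g
      = ∫ p, φ (g * Y p.1 p.2) * ((Real.sin p.2 : ℝ) : ℂ) ∂rhoS322 := by
    unfold sphereMean rhoS322
    rw [integral_prod _ hint, intervalIntegral.integral_of_le (by positivity)]
    simp only [intervalIntegral.integral_of_le Real.pi_pos.le]
  rw [e1]
  exact (norm_integral_le_integral_norm _).trans (integral_mono hint.norm hintn hsle)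

/-- The circle mean is dominated by the mean of `|φ|`. -/
theorem norm_circleMean_le322 (Y : ℝ → G K) (φ : G K → ℂ) (g : G K) :
    ‖circleMean Y φ g‖ ≤ ∫ θ, ‖φ (g * Y θ)‖ ∂rhoC322 := by
  have e1 : circleMean Y φ g = ∫ θ, φ (g * Y θ) ∂rhoC322 := by
    unfold circleMean rhoC322
    rw [intervalIntegral.integral_of_le (by positivity)]
  rw [e1]
  exact norm_integral_le_integral_norm _

/-! ## 6. The two clauses of `SubMeanBdd429` -/

/-- **Sphere means are bounded on the cusp functions.** -/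
theorem sphereBdd322 {𝔫 : Ideal (𝓞 K)} (F : Frame K) (hTr : TranslInv322 F)
    (hL : LocCont322 K) (w : InfinitePlace K) (d : ℝ) (Y : ℝ → ℝ → G K)
    (hY : IsSphereAt w d Y) :
    ∃ C : ℝ, ∀ φ : G K → ℂ, IsCuspFn 𝔫 φ → nsq F (sphereMean Y φ) ≤ C * nsq F φ := by
  have hYc := continuous_sphere322 hL w d Y hY
  exact ⟨rhoS322.real Set.univ ^ 2, fun φ hφ =>
    meanBdd_general322 F hTr rhoS322 (fun p : ℝ × ℝ => Y p.1 p.2) hYc hφ _
      (norm_sphereMean_le322 Y hYc hφ.cont hφ.bdd)⟩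

/-- **Circle means are bounded on the cusp functions.** -/
theorem circleBdd322 {𝔫 : Ideal (𝓞 K)} (F : Frame K) (hTr : TranslInv322 F)
    (hL : LocCont322 K) (w : InfinitePlace K) (t : ℝ) (Y : ℝ → G K)
    (hY : IsCircleAt w t Y) :
    ∃ C : ℝ, ∀ φ : G K → ℂ, IsCuspFn 𝔫 φ → nsq F (circleMean Y φ) ≤ C * nsq F φ := by
  have hYc := continuous_circle322 hL w t Y hY
  exact ⟨rhoC322.real Set.univ ^ 2, fun φ hφ =>
    meanBdd_general322 F hTr rhoC322 Y hYc hφ _ (norm_circleMean_le322 Y φ)⟩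

end Fermat.Agent.LT.T2.H322

end

end
-- ===== PACK-END LT/T2/H322/MeanBdd.lean

-- ===== PACK-BEGIN LT/T6/H926/DiscUnit.lean
section


/-!
# Row LT, tower T6, sub-leaf T6.13.2.2 `H277.DiscUnitC` (helper926), OFF-MAIN

`discUnitC_926 : Fermat.Agent.LT.T6.H277.DiscUnitC`, verbatim the Prop of
`LT/T6/H277/OrbEllSpec.lean` (helper277@b9ce39e0d, sha256 7b0956b2baf7cad6, byte-identical copy).

An integral quadratic polynomial `b² - t b + n` over a local field without root modulo the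
maximal ideal has a unit discriminant.
* `v 2 = 1`: `t² - 4n = -4 χ(t/2)`.
* `v 2 < 1`: if `v t = 1` then `v (t² - 4n) = v (t²) = 1`.  If `v t < 1`: on the finite system `T`
  of representatives of the residue field, `x ↦ rep (x²)` is injective
  (`x² - y² = (x - y) (x - y + 2 y)`), hence surjective, so there is `b ∈ T` with
  `v (b² + n) < 1`, and then `v (χ b) < 1`: contradiction.
-/

set_option autoImplicit false

noncomputable section

namespace Fermat.Agent.LT.T6.H926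

open Fermat.Agent.LT.T6 Fermat.Agent.LT.T6.H277

variable {k : Type} [Field k] [Valued k Γ₀]

/-- `v 2 ≤ 1`. -/
lemma v_two_le_one926 : Valued.v (2 : k) ≤ (1 : Γ₀) := by
  have h : (2 : k) = 1 + 1 := by norm_num
  rw [h]
  calc Valued.v ((1 : k) + 1) ≤ max (Valued.v (1 : k)) (Valued.v (1 : k)) :=
        Valuation.map_add _ _ _
    _ = 1 := by simp

/-- The sum of two elements of valuation `< 1` has valuation `< 1`. -/
lemma v_add_lt_one926 {x y : k} (hx : Valued.v x < (1 : Γ₀)) (hy : Valued.v y < (1 : Γ₀)) :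
    Valued.v (x + y) < (1 : Γ₀) :=
  lt_of_le_of_lt (Valuation.map_add _ _ _) (max_lt hx hy)

/-- The difference of two elements of valuation `< 1` has valuation `< 1`. -/
lemma v_sub_lt_one926 {x y : k} (hx : Valued.v x < (1 : Γ₀)) (hy : Valued.v y < (1 : Γ₀)) :
    Valued.v (x - y) < (1 : Γ₀) :=
  lt_of_le_of_lt (Valuation.map_sub _ _ _) (max_lt hx hy)

/-- A product of an element of valuation `< 1` and an integral element has valuation `< 1`. -/
lemma v_mul_lt_one926 {x y : k} (hx : Valued.v x < (1 : Γ₀)) (hy : Valued.v y ≤ (1 : Γ₀)) :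
    Valued.v (x * y) < (1 : Γ₀) := by
  rw [map_mul]
  calc Valued.v x * Valued.v y ≤ Valued.v x * 1 := mul_le_mul' le_rfl hy
    _ = Valued.v x := mul_one _
    _ < 1 := hx

/-- **T6.13.2.2 (DiscUnit)**, verbatim `H277.DiscUnitC`. -/
theorem discUnitC_926 : DiscUnitC := by
  intro k _ _ q hk t n ht hn hirr
  have h2le : Valued.v (2 : k) ≤ (1 : Γ₀) := v_two_le_one926
  rcases lt_or_eq_of_le h2le with h2 | h2
  · -- residue characteristic two
    have h4n : Valued.v (4 * n : k) < (1 : Γ₀) := by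
      have h4 : (4 : k) = 2 * 2 := by norm_num
      rw [h4, mul_assoc]
      exact v_mul_lt_one926 h2 (by
        rw [map_mul]
        calc Valued.v (2 : k) * Valued.v n ≤ 1 * 1 := mul_le_mul' h2le hn
          _ = 1 := mul_one _)
    rcases lt_or_eq_of_le ht with ht1 | ht1
    · -- `v t < 1`: contradiction
      exfalso
      obtain ⟨T, -, hTint, hTdist, hTrep⟩ := hk.residue
      have hsq_int : ∀ x : k, Valued.v x ≤ (1 : Γ₀) → Valued.v (x ^ 2) ≤ (1 : Γ₀) := by
        intro x hx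
        rw [map_pow]
        exact pow_le_one' hx 2
      have hf : ∀ x : T, ∃ r : T, Valued.v ((x : k) ^ 2 - (r : k)) < (1 : Γ₀) := by
        intro x
        obtain ⟨r, hr, h⟩ := hTrep ((x : k) ^ 2) (hsq_int _ (hTint x x.2))
        exact ⟨⟨r, hr⟩, h⟩
      choose f hf using hf
      have hinj : Function.Injective f := by
        intro x y hxy
        by_contra hne
        have hne' : (x : k) ≠ (y : k) := fun h => hne (Subtype.ext h)
        have hd : Valued.v ((x : k) - (y : k)) = (1 : Γ₀) := hTdist x x.2 y y.2 hne'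
        have h1 : Valued.v ((x : k) ^ 2 - (y : k) ^ 2) < (1 : Γ₀) := by
          have e : (x : k) ^ 2 - (y : k) ^ 2
              = ((x : k) ^ 2 - (f x : k)) - ((y : k) ^ 2 - (f y : k)) := by
            rw [hxy]; ring
          rw [e]
          exact v_sub_lt_one926 (hf x) (hf y)
        have h2y : Valued.v ((2 : k) * (y : k)) < (1 : Γ₀) := v_mul_lt_one926 h2 (hTint y y.2)
        have h3 : Valued.v ((x : k) - (y : k) + 2 * (y : k)) = (1 : Γ₀) := by
          rw [Valuation.map_add_eq_of_lt_left _ (by rw [hd]; exact h2y), hd]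
        have e2 : (x : k) ^ 2 - (y : k) ^ 2
            = ((x : k) - (y : k)) * ((x : k) - (y : k) + 2 * (y : k)) := by ring
        rw [e2, map_mul, hd, h3, mul_one] at h1
        exact lt_irrefl _ h1
      have hsurj : Function.Surjective f := Finite.injective_iff_surjective.mp hinj
      obtain ⟨r₀, hr₀, hr₀n⟩ := hTrep (-n) (by rw [Valuation.map_neg]; exact hn)
      obtain ⟨x, hx⟩ := hsurj ⟨r₀, hr₀⟩
      have hxr : Valued.v ((x : k) ^ 2 - r₀) < (1 : Γ₀) := by
        have := hf x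
        rw [hx] at this
        exact this
      have hxn : Valued.v ((x : k) ^ 2 + n) < (1 : Γ₀) := by
        have e : (x : k) ^ 2 + n = ((x : k) ^ 2 - r₀) - (-n - r₀) := by ring
        rw [e]
        exact v_sub_lt_one926 hxr hr₀n
      have hchi : Valued.v (chi277 t n (x : k)) < (1 : Γ₀) := by
        have e : chi277 t n (x : k) = ((x : k) ^ 2 + n) - t * (x : k) := by
          unfold chi277; ring
        rw [e]
        exact v_sub_lt_one926 hxn (v_mul_lt_one926 ht1 (hTint x x.2))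
      rw [hirr (x : k) (hTint x x.2)] at hchi
      exact lt_irrefl _ hchi
    · -- `v t = 1`
      have ht2 : Valued.v (t ^ 2) = (1 : Γ₀) := by rw [map_pow, ht1, one_pow]
      rw [Valuation.map_sub_eq_of_lt_left _ (by rw [ht2]; exact h4n), ht2]
  · -- `v 2 = 1`
    have h2ne : (2 : k) ≠ 0 := by
      intro h
      rw [h, map_zero] at h2
      exact zero_ne_one h2
    have hb : Valued.v (t / 2) ≤ (1 : Γ₀) := by
      rw [map_div₀, h2, div_one]
      exact ht
    have hc := hirr (t / 2) hb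
    have e : t ^ 2 - 4 * n = -(4 * chi277 t n (t / 2)) := by
      unfold chi277
      field_simp
      ring
    have h4 : Valued.v (4 : k) = (1 : Γ₀) := by
      have h4' : (4 : k) = 2 * 2 := by norm_num
      rw [h4', map_mul, h2, mul_one]
    rw [e, Valuation.map_neg, map_mul, h4, hc, mul_one]

end Fermat.Agent.LT.T6.H926

end

end
-- ===== PACK-END LT/T6/H926/DiscUnit.lean

-- ===== PACK-BEGIN LT/T6/H846/OrbAssembly.lean
section





/-!
# Row LT, tower T6, leaf T6.19 `OrbSumIntC` (helper846) -- abstract assembly, OFF-MAIN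

`Frame846.orbSum_eq_integral` : in an abstract frame (second countable topological groups,
left invariant measures, open subgroup `U` of measure `1`, compact part of the twisted centraliser
of measure `1`), the orbit sum of the Spec is the cut-off integral.
-/

set_option autoImplicit false
set_option linter.unusedSectionVars false
set_option linter.style.haveILetI false

open MeasureTheory
open scoped ENNReal

noncomputable section

namespace Fermat.Agent.LT.T6.H846

open Fermat.Agent.LT.T6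

section Alg

variable {G H : Type} [Group G] [Group H] {s : G →* G} {δ : G} {ι : H →* G}
  {U : Subgroup G} {Up : G → Prop} {C : G → G → Prop}

theorem Frame846.twconj_dcoset (F : Frame846 s δ ι U Up C) (x : G) (t : H) (u : G) :
    (ι t * x * u)⁻¹ * δ * s (ι t * x * u) = u⁻¹ * (x⁻¹ * δ * s x) * s u := by
  have ht := (F.range (ι t)).1 ⟨t, rfl⟩
  have e : (ι t * x * u)⁻¹ * δ * s (ι t * x * u)
      = u⁻¹ * (x⁻¹ * ((ι t)⁻¹ * δ * s (ι t)) * s x) * s u := by
    simp only [map_mul, mul_inv_rev, mul_assoc]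
  rw [e, ht]

theorem Frame846.mem_dcoset_of_eq (F : Frame846 s δ ι U Up C) (x z u : G) (hu : u ∈ U)
    (h : z⁻¹ * δ * s z = u⁻¹ * (x⁻¹ * δ * s x) * s u) : z ∈ dcoset846 ι U x := by
  have e1 : z⁻¹ * δ * s z = (x * u)⁻¹ * δ * s (x * u) := by
    rw [h, twconj_mul846]
  have e2 : (z * (x * u)⁻¹)⁻¹ * δ * s (z * (x * u)⁻¹) = δ := by
    have : (z * (x * u)⁻¹)⁻¹ * δ * s (z * (x * u)⁻¹)
        = (x * u) * (z⁻¹ * δ * s z) * (s (x * u))⁻¹ := by
      simp only [map_mul, map_inv, mul_inv_rev, inv_inv, mul_assoc]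
    rw [this, e1]
    group
  obtain ⟨t, ht⟩ := (F.range _).2 e2
  exact ⟨t, u, hu, by rw [ht]; group⟩

end Alg

section Main

variable {G H : Type} [Group G] [Group H] {s : G →* G} {δ : G} {ι : H →* G}
  {U : Subgroup G} {Up : G → Prop} {C : G → G → Prop}
  [TopologicalSpace G] [IsTopologicalGroup G] [SecondCountableTopology G]
  [MeasurableSpace G] [BorelSpace G]
  [TopologicalSpace H] [IsTopologicalGroup H] [SecondCountableTopology H]
  [MeasurableSpace H] [BorelSpace H]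

theorem locallyFinite_G846 (U : Subgroup G) (hU : IsOpen (U : Set G))
    (μ : Measure G) [μ.IsMulLeftInvariant] (hμU : μ (U : Set G) = 1) :
    IsLocallyFiniteMeasure μ := by
  refine ⟨fun x => ⟨{z | x⁻¹ * z ∈ U}, (isOpen_leftCoset846 U hU x).mem_nhds ?_, ?_⟩⟩
  · change x⁻¹ * x ∈ U
    simp [U.one_mem]
  · have : {z | x⁻¹ * z ∈ U} = (fun z => x⁻¹ * z) ⁻¹' (U : Set G) := rfl
    rw [this, measure_preimage_mul, hμU]
    exact ENNReal.one_lt_top

theorem Frame846.locallyFinite_H (F : Frame846 s δ ι U Up C) (hι : Continuous ι)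
    (hU : IsOpen (U : Set G))
    (ν : Measure H) [ν.IsMulLeftInvariant] (hT : ν {t : H | C δ (ι t)} = 1) :
    IsLocallyFiniteMeasure ν := by
  have hW : ν (stab846 ι U 1) < ⊤ := by
    refine lt_of_le_of_lt (measure_mono ?_) (hT.le.trans_lt ENNReal.one_lt_top)
    intro t ht
    have ht' : ι t ∈ U := by
      have : (1 : G)⁻¹ * ι t * 1 ∈ U := ht
      simpa using this
    exact F.c3 δ (ι t) ht' ((F.range (ι t)).1 ⟨t, rfl⟩)
  refine ⟨fun t₀ => ⟨(fun t => t₀⁻¹ * t) ⁻¹' stab846 ι U 1,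
    ((isOpen_stab846 ι hι U hU 1).preimage (continuous_const.mul continuous_id)).mem_nhds ?_, ?_⟩⟩
  · change (1 : G)⁻¹ * ι (t₀⁻¹ * t₀) * 1 ∈ U
    simp [U.one_mem]
  · rw [measure_preimage_mul]
    exact hW

/-- **The abstract bridge.** -/
theorem Frame846.orbSum_eq_integral (F : Frame846 s δ ι U Up C) (hι : Continuous ι)
    (hU : IsOpen (U : Set G))
    (μ : Measure G) [μ.IsMulLeftInvariant] (hμU : μ (U : Set G) = 1)
    (ν : Measure H) [ν.IsMulLeftInvariant] [ν.IsOpenPosMeasure]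
    (hT : ν {t : H | C δ (ι t)} = 1)
    (φ : G → ℂ) (hφ : IsBiInv Up φ) (c : ℂ) (hc : IsOrbSumGen s Up C φ δ c)
    (β : G → ℝ) (hβc : Continuous β) (hβ0 : ∀ x, 0 ≤ β x)
    (hβ1 : ∀ x : G, ∫ t : H, β (ι t * x) ∂ν = 1) :
    ∫ x : G, φ (x⁻¹ * δ * s x) * (β x : ℂ) ∂μ = c := by
  classical
  haveI : IsLocallyFiniteMeasure μ := locallyFinite_G846 U hU μ hμU
  haveI : IsLocallyFiniteMeasure ν := F.locallyFinite_H hι hU ν hT
  obtain ⟨R, hR1, hR2, hR3, hcsum⟩ := hc
  choose! X hXeq using hR1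
  set D : G → Set G := fun y => dcoset846 ι U (X y) with hD
  have hDm : ∀ y, MeasurableSet (D y) := fun y => (isOpen_dcoset846 ι U hU _).measurableSet
  -- the three facts
  have hF1 : ∀ y ∈ R, ∀ z ∈ D y, φ (z⁻¹ * δ * s z) = φ y := by
    intro y hy z hz
    obtain ⟨t, u, hu, rfl⟩ := hz
    rw [F.twconj_dcoset, ← hXeq y hy]
    exact hφ u⁻¹ (s u) y ((F.up _).2 (U.inv_mem hu)) ((F.up _).2 (F.sU u hu))
  have hF2 : ∀ z, φ (z⁻¹ * δ * s z) ≠ 0 → ∃ y ∈ R, z ∈ D y := by
    intro z hz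
    obtain ⟨y', hy', u, hu, he⟩ := hR3 _ ⟨z, rfl⟩ hz
    refine ⟨y', hy', F.mem_dcoset_of_eq (X y') z u ((F.up u).1 hu) ?_⟩
    rw [he, ← hXeq y' hy']
  have hF3 : ∀ y ∈ R, ∀ y' ∈ R, ∀ z, z ∈ D y → z ∈ D y' → y = y' := by
    intro y hy y' hy' z hz hz'
    obtain ⟨t, u, hu, h1⟩ := hz
    obtain ⟨t', u', hu', h2⟩ := hz'
    have a1 : z⁻¹ * δ * s z = u⁻¹ * y * s u := by
      rw [h1, F.twconj_dcoset, ← hXeq y hy]
    have a2 : z⁻¹ * δ * s z = u'⁻¹ * y' * s u' := by
      rw [h2, F.twconj_dcoset, ← hXeq y' hy']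
    apply hR2 y hy y' hy'
    refine ⟨u * u'⁻¹, (F.up _).2 (U.mul_mem hu (U.inv_mem hu')), ?_⟩
    have e : y' = u' * (u'⁻¹ * y' * s u') * (s u')⁻¹ := by group
    rw [e, ← a2, a1]
    simp only [map_mul, map_inv, mul_inv_rev, inv_inv, mul_assoc]
  -- the cut-off as an `ℝ≥0∞`-valued function
  set βe : G → ℝ≥0∞ := fun z => ENNReal.ofReal (β z) with hβe
  have hβem : Measurable βe := ENNReal.measurable_ofReal.comp hβc.measurable
  have hβe1 : ∀ z, ∫⁻ t : H, βe (ι t * z) ∂ν = 1 := by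
    intro z
    have h := integral_eq_lintegral_of_nonneg_ae (μ := ν) (f := fun t : H => β (ι t * z))
      (Filter.Eventually.of_forall fun t => hβ0 _)
      (hβc.comp (hι.mul continuous_const)).aestronglyMeasurable
    rw [hβ1 z] at h
    exact (ENNReal.toReal_eq_one_iff _).1 h.symm
  -- the integral over a double coset
  have hL : ∀ y ∈ R, ∫⁻ z in D y, βe z ∂μ = (cIndex Up C y : ℝ≥0∞) := by
    intro y hy
    have h1 := lintegral_doubleCoset846 μ ν ι hι U hU hμU βe hβem hβe1 (X y)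
    have h2 := F.cIndex_mul_stab ν hι hU hT (X y)
    rw [← hXeq y hy] at h2
    have e1 := ENNReal.eq_inv_of_mul_eq_one_left h2
    have e2 := ENNReal.eq_inv_of_mul_eq_one_left (by rwa [mul_comm] at h1 :
      (∫⁻ z in D y, βe z ∂μ) * ν (stab846 ι U (X y)) = 1)
    rw [e1, e2]
  have hInt : ∀ y ∈ R, IntegrableOn β (D y) μ := by
    intro y hy
    refine ⟨hβc.aestronglyMeasurable, ?_⟩
    rw [hasFiniteIntegral_iff_ofReal (Filter.Eventually.of_forall fun z => hβ0 z)]
    have := hL y hy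
    simp only [hβe] at this
    rw [this]
    exact ENNReal.natCast_lt_top _
  have hVal : ∀ y ∈ R, ∫ z in D y, β z ∂μ = (cIndex Up C y : ℝ) := by
    intro y hy
    rw [integral_eq_lintegral_of_nonneg_ae (Filter.Eventually.of_forall fun z => hβ0 z)
      hβc.aestronglyMeasurable]
    have := hL y hy
    simp only [hβe] at this
    rw [this]
    simp
  -- the pointwise decomposition
  set g : G → G → ℂ := fun y z => φ y * (D y).indicator (fun z => (β z : ℂ)) z with hg
  have hpt : ∀ z, φ (z⁻¹ * δ * s z) * (β z : ℂ) = ∑ y ∈ R, g y z := by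
    intro z
    by_cases h : ∃ y ∈ R, z ∈ D y
    · obtain ⟨y₀, hy₀, hz₀⟩ := h
      rw [Finset.sum_eq_single y₀]
      · simp only [hg, Set.indicator_of_mem hz₀]
        rw [hF1 y₀ hy₀ z hz₀]
      · intro y hy hne
        have : z ∉ D y := fun hz => hne (hF3 y hy y₀ hy₀ z hz hz₀)
        simp only [hg, Set.indicator_of_notMem this, mul_zero]
      · intro h'
        exact absurd hy₀ h'
    · have hz0 : φ (z⁻¹ * δ * s z) = 0 := by
        by_contra hne
        exact h (hF2 z hne)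
      rw [hz0, zero_mul]
      symm
      apply Finset.sum_eq_zero
      intro y hy
      have : z ∉ D y := fun hz => h ⟨y, hy, hz⟩
      simp only [hg, Set.indicator_of_notMem this, mul_zero]
  have hgInt : ∀ y ∈ R, Integrable (g y) μ := by
    intro y hy
    refine Integrable.const_mul ?_ _
    rw [integrable_indicator_iff (hDm y)]
    exact (hInt y hy).ofReal
  have hgVal : ∀ y ∈ R, ∫ z, g y z ∂μ = φ y * (cIndex Up C y : ℂ) := by
    intro y hy
    simp only [hg]
    rw [integral_const_mul, integral_indicator (hDm y), integral_complex_ofReal, hVal y hy]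
    simp
  simp_rw [hpt]
  rw [integral_finsetSum R hgInt, Finset.sum_congr rfl hgVal, hcsum]

end Main

end Fermat.Agent.LT.T6.H846

end

end
-- ===== PACK-END LT/T6/H846/OrbAssembly.lean

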