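import Mathlib
import Fermat.Agent.Pack.LT3.E5L2
import Fermat.Agent.Pack.LT3.E0L3
import Fermat.Agent.Pack.LT2.E0L2
import Fermat.Agent.Pack.LT2.E2L1
import Fermat.Agent.Pack.LT2.E5L3
import Fermat.Agent.Pack.LT2.E3L0
import Fermat.Agent.Pack.LT3.E0L0
import Fermat.Agent.Pack.LT3.E0L2
import Fermat.Agent.Pack.LT3.E3L1
import Fermat.Agent.Pack.LT3.E3L0
import Fermat.Agent.Pack.LT2.E0L1
import Fermat.Agent.Pack.LT2.E2L3
import Fermat.Agent.Pack.LT2.E3L2
import Fermat.Agent.Pack.LT3.E4L3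
import Fermat.Agent.Pack.LT3.E2L3
import Fermat.Agent.Pack.LT3.E7L2

set_option linter.all false

-- ===== PACK-BEGIN LT/T6/H830/HCTop.lean
section


/-!
# Row LT, tower T6, leaf T6.29 `ArchSpec`: the formal tops and the leaf MEL-SUBST (helper830)

OFF-MAIN.  Proved here (no `sorry`):

* `melSubstC830 : MelSubstC` (the norm map on the Mellin side);
* `hcTransR_of_leaves830 : SphAvgRC → EisIntRC → EisIwRC → IwasawaIntRC → HCTransRC`;
* `archSpec_of_mid830 : HCTransRC → HCTransCC → MelSubstC → ArchSpecC`;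
* `archSpec_of_leaves830` : `ArchSpecC` from the leaves of `HCSpec.lean`.
-/

set_option autoImplicit false

open scoped Matrix
open MeasureTheory

noncomputable section

namespace Fermat.Agent.LT.T6.H830

open Fermat.Agent.LT.T6

/-- `∫ g = 2 ∫ g(2 r) dr`. -/
theorem integral_eq_two_mul830 (g : ℝ → ℂ) : (∫ r : ℝ, g r) = 2 * ∫ r : ℝ, g (2 * r) := by
  have h := MeasureTheory.Measure.integral_comp_mul_left g (2 : ℝ)
  rw [h]
  have h2 : |(2 : ℝ)⁻¹| = (2 : ℝ)⁻¹ := abs_of_pos (by norm_num)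
  rw [h2, Complex.real_smul]
  push_cast
  ring

/-- **T6.29.M.**  The norm map on the Mellin side. -/
theorem melSubstC830 : MelSubstC := by
  intro f φ κ hmatch s
  unfold melR melC
  -- substitute `ζ ↦ 2ζ`, `r ↦ 2r`
  have h1 : (∫ ζ : ℝ, ∫ r : ℝ, Complex.exp ((r : ℂ) * (s + 1 / 2)) * hcR f ζ r)
      = 2 * ∫ ζ : ℝ, ∫ r : ℝ, Complex.exp ((r : ℂ) * (s + 1 / 2)) * hcR f (2 * ζ) r :=
    integral_eq_two_mul830
      (fun ζ : ℝ => ∫ r : ℝ, Complex.exp ((r : ℂ) * (s + 1 / 2)) * hcR f ζ r)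
  have h2 : ∀ ζ : ℝ, (∫ r : ℝ, Complex.exp ((r : ℂ) * (s + 1 / 2)) * hcR f (2 * ζ) r)
      = 2 * ∫ r : ℝ, Complex.exp ((((2 * r : ℝ)) : ℂ) * (s + 1 / 2)) * hcR f (2 * ζ) (2 * r) :=
    fun ζ => integral_eq_two_mul830
      (fun r : ℝ => Complex.exp ((r : ℂ) * (s + 1 / 2)) * hcR f (2 * ζ) r)
  have h3 : ∀ ζ : ℝ,
      (∫ r : ℝ, Complex.exp ((((2 * r : ℝ)) : ℂ) * (s + 1 / 2)) * hcR f (2 * ζ) (2 * r))
        = κ * ∫ r : ℝ, Complex.exp ((r : ℂ) * (2 * s + 1)) * hcC φ ζ r := by
    intro ζ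
    rw [← MeasureTheory.integral_const_mul]
    apply MeasureTheory.integral_congr_ae
    have hne : ∀ᵐ r : ℝ, r ≠ 0 := by
      have : ({0}ᶜ : Set ℝ) ∈ MeasureTheory.ae (volume : Measure ℝ) :=
        MeasureTheory.compl_mem_ae_iff.2 (by simp)
      exact this
    filter_upwards [hne] with r hr
    rw [hmatch ζ r hr]
    have hexp : Complex.exp ((((2 * r : ℝ)) : ℂ) * (s + 1 / 2))
        = Complex.exp ((r : ℂ) * (2 * s + 1)) := by
      congr 1
      push_cast
      ring
    rw [hexp]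
    ring
  rw [h1]
  simp only [h2, h3]
  rw [MeasureTheory.integral_const_mul, MeasureTheory.integral_const_mul]
  ring

/-- The real side from its leaves. -/
theorem hcTransR_of_leaves830 (hAvg : SphAvgRC) (hInt : EisIntRC) (hIw : EisIwRC)
    (hI : IwasawaIntRC) : HCTransRC := by
  intro μ hμ
  obtain ⟨c, hc, hform⟩ := hIw hI μ hμ
  refine ⟨c, hc, ?_⟩
  intro n hn f hf s
  rw [hInt hAvg μ hμ n hn f hf s, hform n hn f hf s]

/-- T6.29 from the two middle Props and MEL-SUBST. -/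
theorem archSpec_of_mid830 (hR : HCTransRC) (hC : HCTransCC) (hM : MelSubstC) : ArchSpecC := by
  intro μ μ' hμ hμ'
  obtain ⟨cR, hcR0, hRf⟩ := hR μ hμ
  obtain ⟨cC, hcC0, hCf⟩ := hC μ' hμ'
  refine ⟨4 * cR / cC, ?_, ?_⟩
  · exact div_ne_zero (mul_ne_zero (by norm_num) hcR0) hcC0
  · intro n hn f φ hf hφ κ hmatch s
    rw [hRf n hn f hf s, hCf φ hφ (2 * s), hM f φ κ hmatch s]
    field_simp

/-- **T6.29 from the leaves.** -/
theorem archSpec_of_leaves830 (hIR : IwasawaIntRC) (hIC : IwasawaIntCC)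
    (hCartR : CartanRC) (hAt : SphAvgAtC) (hAvgOf : SphAvgOfC) (hInt : EisIntRC)
    (hIw : EisIwRC) (hCartC : CartanCC) (hWOf : WIntOfC) (hKer : SphCKernelC)
    (hTri : TriFubiniC) (hCOf : HCTransCOfC) : ArchSpecC :=
  archSpec_of_mid830
    (hcTransR_of_leaves830 (hAvgOf hCartR hAt) hInt hIw hIR)
    (hCOf hIC (hWOf hCartC) hKer hTri)
    melSubstC830

end Fermat.Agent.LT.T6.H830

end

end
-- ===== PACK-END LT/T6/H830/HCTop.lean

-- ===== PACK-BEGIN LT/T6/H830/HCTransC.lean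
section


/-!
# Row LT, tower T6, leaf T6.29.C5 `HCTransCOfC` (helper830), OFF-MAIN

`hcTransCOfC830 : HCTransCOfC`, i.e.
`IwasawaIntCC → WIntCC → SphCKernelC → TriFubiniC → HCTransCC`
(frozen Props of `Fermat/Agent/LT/T6/H830/HCSpec.lean`).
-/

set_option autoImplicit false

open scoped Matrix
open MeasureTheory

noncomputable section

namespace Fermat.Agent.LT.T6.H830

open Fermat.Agent.LT.T6

/-! ## Continuity into `GL₂` -/

/-- A map into `GL₂(ℂ)` is continuous if its matrix is. -/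
theorem continuous_toGL830 {X : Type*} [TopologicalSpace X] (f : X → GL (Fin 2) ℂ)
    (hf : Continuous fun x => (f x : Matrix (Fin 2) (Fin 2) ℂ)) : Continuous f := by
  rw [Units.continuous_iff]
  refine ⟨hf, ?_⟩
  have hdet : ∀ x, (f x : Matrix (Fin 2) (Fin 2) ℂ).det ≠ 0 := fun x =>
    ((Matrix.isUnit_iff_isUnit_det _).1 (f x).isUnit).ne_zero
  have h : (fun x => (((f x)⁻¹ : GL (Fin 2) ℂ) : Matrix (Fin 2) (Fin 2) ℂ))
      = fun x => ((f x : Matrix (Fin 2) (Fin 2) ℂ).det)⁻¹ •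
          (f x : Matrix (Fin 2) (Fin 2) ℂ).adjugate := by
    funext x
    rw [Matrix.coe_units_inv, Matrix.inv_def, Ring.inverse_eq_inv']
  rw [h]
  exact (hf.matrix_det.inv₀ hdet).smul hf.matrix_adjugate

theorem continuous_bC_zero830 (ζ : ℝ) : Continuous fun u : ℝ => bC ζ u 0 := by
  apply continuous_toGL830
  simp only [coe_bC830]
  refine continuous_matrix fun i j => ?_
  fin_cases i <;> fin_cases j <;> simp <;> fun_prop

/-! ## The function `rhoC` -/

theorem trace_re830 (M : Matrix (Fin 2) (Fin 2) ℂ) :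
    ((M.conjTranspose * M).trace).re
      = Complex.normSq (M 0 0) + Complex.normSq (M 0 1) + Complex.normSq (M 1 0)
        + Complex.normSq (M 1 1) := by
  simp [Matrix.trace, Matrix.mul_apply, Fin.sum_univ_two, Matrix.conjTranspose_apply,
    Complex.normSq_apply]
  ring

theorem det_ne_zero830 (y : GL (Fin 2) ℂ) : (y : Matrix (Fin 2) (Fin 2) ℂ).det ≠ 0 :=
  ((Matrix.isUnit_iff_isUnit_det _).1 y.isUnit).ne_zero

theorem one_le_rhoC830 (y : GL (Fin 2) ℂ) : 1 ≤ rhoC y := by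
  unfold rhoC
  have hd : 0 < ‖(y : Matrix (Fin 2) (Fin 2) ℂ).det‖ := norm_pos_iff.2 (det_ne_zero830 y)
  rw [le_div_iff₀ (by positivity), trace_re830, Matrix.det_fin_two, one_mul]
  set a := (y : Matrix (Fin 2) (Fin 2) ℂ) 0 0
  set b := (y : Matrix (Fin 2) (Fin 2) ℂ) 0 1
  set c := (y : Matrix (Fin 2) (Fin 2) ℂ) 1 0
  set d := (y : Matrix (Fin 2) (Fin 2) ℂ) 1 1
  have h1 : ‖a * d - b * c‖ ≤ ‖a‖ * ‖d‖ + ‖b‖ * ‖c‖ := by
    calc ‖a * d - b * c‖ ≤ ‖a * d‖ + ‖b * c‖ := norm_sub_le _ _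
      _ = ‖a‖ * ‖d‖ + ‖b‖ * ‖c‖ := by rw [norm_mul, norm_mul]
  simp only [Complex.normSq_eq_norm_sq]
  nlinarith [sq_nonneg (‖a‖ - ‖d‖), sq_nonneg (‖b‖ - ‖c‖), norm_nonneg a, norm_nonneg b,
    norm_nonneg c, norm_nonneg d]

theorem continuous_rhoC830 : Continuous rhoC := by
  unfold rhoC
  have hval : Continuous fun y : GL (Fin 2) ℂ => (y : Matrix (Fin 2) (Fin 2) ℂ) :=
    Units.continuous_val
  have h1 : Continuous fun y : GL (Fin 2) ℂ =>
      (((y : Matrix (Fin 2) (Fin 2) ℂ).conjTranspose * (y : Matrix (Fin 2) (Fin 2) ℂ)).trace).re :=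
    Complex.continuous_re.comp ((hval.matrix_conjTranspose.matrix_mul hval).matrix_trace)
  have h2 : Continuous fun y : GL (Fin 2) ℂ => 2 * ‖(y : Matrix (Fin 2) (Fin 2) ℂ).det‖ :=
    continuous_const.mul hval.matrix_det.norm
  exact h1.div h2 fun y => mul_ne_zero two_ne_zero (norm_ne_zero_iff.2 (det_ne_zero830 y))

theorem rhoC_mul_unitary830 (g k : GL (Fin 2) ℂ) (hk : InU2 k) : rhoC (g * k) = rhoC g := by
  unfold rhoC
  unfold InU2 at hk
  have hdk : ‖(k : Matrix (Fin 2) (Fin 2) ℂ).det‖ = 1 := by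
    have h := congrArg Matrix.det hk
    rw [Matrix.det_mul, Matrix.det_conjTranspose, Matrix.det_one] at h
    have h2 : ‖(k : Matrix (Fin 2) (Fin 2) ℂ).det‖ * ‖(k : Matrix (Fin 2) (Fin 2) ℂ).det‖ = 1 := by
      have h3 := congrArg norm h
      rw [norm_mul, norm_star, norm_one] at h3
      exact h3
    have h4 : 0 ≤ ‖(k : Matrix (Fin 2) (Fin 2) ℂ).det‖ := norm_nonneg _
    nlinarith
  have htr : (((g * k : GL (Fin 2) ℂ) : Matrix (Fin 2) (Fin 2) ℂ).conjTranspose
      * ((g * k : GL (Fin 2) ℂ) : Matrix (Fin 2) (Fin 2) ℂ)).trace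
      = ((g : Matrix (Fin 2) (Fin 2) ℂ).conjTranspose * (g : Matrix (Fin 2) (Fin 2) ℂ)).trace := by
    rw [Matrix.GeneralLinearGroup.coe_mul, Matrix.conjTranspose_mul, Matrix.mul_assoc,
      Matrix.trace_mul_comm, Matrix.mul_assoc, Matrix.mul_assoc, hk, Matrix.mul_one]
  rw [htr, Matrix.GeneralLinearGroup.coe_mul, Matrix.det_mul, norm_mul, hdk, mul_one]

theorem rhoC_bC_zero830 (ζ u : ℝ) : rhoC (bC ζ u 0) = Real.cosh u := by
  unfold rhoC
  rw [trace_re830, coe_bC830, Matrix.det_fin_two_of]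
  simp only [Matrix.of_apply, Matrix.cons_val', Matrix.cons_val_zero, Matrix.cons_val_one,
    Matrix.empty_val', Matrix.cons_val_fin_one, mul_zero, sub_zero, map_zero, add_zero,
    Complex.normSq_ofReal]
  rw [← Complex.ofReal_mul, Complex.norm_real, Real.norm_eq_abs,
    abs_of_pos (mul_pos (Real.exp_pos _) (Real.exp_pos _)), Real.cosh_eq]
  have e1 : Real.exp ((ζ + u) / 2) * Real.exp ((ζ + u) / 2) = Real.exp ζ * Real.exp u := by
    rw [← Real.exp_add, ← Real.exp_add]; congr 1; ring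
  have e2 : Real.exp ((ζ - u) / 2) * Real.exp ((ζ - u) / 2) = Real.exp ζ * Real.exp (-u) := by
    rw [← Real.exp_add, ← Real.exp_add]; congr 1; ring
  have e3 : Real.exp ((ζ + u) / 2) * Real.exp ((ζ - u) / 2) = Real.exp ζ := by
    rw [← Real.exp_add]; congr 1; ring
  rw [e1, e2, e3]
  have hz : Real.exp ζ ≠ 0 := Real.exp_ne_zero _
  field_simp

/-! ## Continuity of `sphC ν` on `[1, ∞)` -/

/-- The base of the power in `sphC`, made positive everywhere. -/
def baseC830 (ρ x : ℝ) : ℝ :=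
  max ρ 1 + max (-1) (min x 1) * Real.sqrt (max ρ 1 ^ 2 - 1)

theorem baseC_pos830 (ρ x : ℝ) : 0 < baseC830 ρ x := by
  unfold baseC830
  set R := max ρ 1 with hR
  have hR1 : 1 ≤ R := le_max_right _ _
  set X := max (-1) (min x 1) with hX
  have hX1 : -1 ≤ X := le_max_left _ _
  have hX2 : X ≤ 1 := max_le (by norm_num) (min_le_right _ _)
  have hs0 : 0 ≤ Real.sqrt (R ^ 2 - 1) := Real.sqrt_nonneg _
  have hs : Real.sqrt (R ^ 2 - 1) < R := by
    rw [Real.sqrt_lt' (by linarith)]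
    linarith
  nlinarith

theorem continuous_baseC830 : Continuous fun p : ℝ × ℝ => baseC830 p.1 p.2 := by
  unfold baseC830
  fun_prop

theorem baseC_eq830 {ρ x : ℝ} (hρ : 1 ≤ ρ) (hx : x ∈ Set.uIcc (-1 : ℝ) 1) :
    baseC830 ρ x = ρ + x * Real.sqrt (ρ ^ 2 - 1) := by
  unfold baseC830
  rw [Set.uIcc_of_le (by norm_num)] at hx
  rw [max_eq_left hρ, min_eq_left hx.2, max_eq_right hx.1]

theorem continuousOn_sphC830 (ν : ℂ) : ContinuousOn (sphC ν) (Set.Ici 1) := by
  have hcont : Continuous fun ρ : ℝ =>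
      (1 / 2 : ℂ) * ∫ x in (-1 : ℝ)..1, ((baseC830 ρ x : ℝ) : ℂ) ^ (-1 - ν) := by
    refine continuous_const.mul ?_
    apply intervalIntegral.continuous_parametric_intervalIntegral_of_continuous'
    have h1 : Continuous fun p : ℝ × ℝ => ((baseC830 p.1 p.2 : ℝ) : ℂ) :=
      Complex.continuous_ofReal.comp continuous_baseC830
    exact h1.cpow continuous_const fun p =>
      Complex.ofReal_mem_slitPlane.2 (baseC_pos830 p.1 p.2)
  refine hcont.continuousOn.congr ?_
  intro ρ hρ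
  unfold sphC
  congr 1
  apply intervalIntegral.integral_congr
  intro x hx
  simp only
  rw [baseC_eq830 hρ hx]

/-! ## The profile `u ↦ φ (bC ζ u 0)` -/

theorem continuous_profile830 {φ : GL (Fin 2) ℂ → ℂ} (hφ : IsArchTestC φ) (ζ : ℝ) :
    Continuous fun u : ℝ => φ (bC ζ u 0) :=
  hφ.cont.comp (continuous_bC_zero830 ζ)

theorem hasCompactSupport_profile830 {φ : GL (Fin 2) ℂ → ℂ} (hφ : IsArchTestC φ) (ζ : ℝ) :
    HasCompactSupport fun u : ℝ => φ (bC ζ u 0) := by
  obtain ⟨M, hM⟩ := (hφ.supp.isCompact.bddAbove_image continuous_rhoC830.continuousOn)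
  have hM' : ∀ g, φ g ≠ 0 → rhoC g ≤ M := fun g hg =>
    hM ⟨g, subset_tsupport _ hg, rfl⟩
  refine HasCompactSupport.intro (isCompact_Icc (a := -Real.log (2 * M)) (b := Real.log (2 * M))) ?_
  intro u hu
  by_contra hne
  have h1 : Real.cosh u ≤ M := by
    rw [← rhoC_bC_zero830 ζ u]
    exact hM' _ hne
  have h2 : Real.exp |u| ≤ 2 * M := by
    have h3 : Real.cosh u = Real.cosh |u| := (Real.cosh_abs u).symm
    rw [h3, Real.cosh_eq] at h1
    have h4 : 0 < Real.exp (-|u|) := Real.exp_pos _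
    linarith
  have h5 : |u| ≤ Real.log (2 * M) := by
    rw [Real.le_log_iff_exp_le (lt_of_lt_of_le (Real.exp_pos _) h2)]
    exact h2
  exact hu ⟨by linarith [neg_abs_le u], by linarith [le_abs_self u]⟩

/-- `∫_{-u}^{u} 2π e^{-r} dr = 4π sinh u`. -/
theorem integral_exp_neg830 (u : ℝ) :
    (∫ r in (-u)..u, ((2 * Real.pi * Real.exp (-r) : ℝ) : ℂ))
      = ((4 * Real.pi * Real.sinh u : ℝ) : ℂ) := by
  rw [intervalIntegral.integral_ofReal]
  congr 1
  rw [intervalIntegral.integral_const_mul, intervalIntegral.integral_comp_neg (fun x => Real.exp x),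
    neg_neg, integral_exp, Real.sinh_eq]
  ring

theorem continuous_expInt830 (ν : ℂ) :
    Continuous fun u : ℝ => ∫ ρ in (-u)..u, Complex.exp ((ρ : ℂ) * ν) := by
  have hf : Continuous fun ρ : ℝ => Complex.exp ((ρ : ℂ) * ν) := by fun_prop
  have h1 : ∀ u : ℝ, (∫ ρ in (-u)..u, Complex.exp ((ρ : ℂ) * ν))
      = (∫ ρ in (0 : ℝ)..u, Complex.exp ((ρ : ℂ) * ν))
        - ∫ ρ in (0 : ℝ)..(-u), Complex.exp ((ρ : ℂ) * ν) := by
    intro u
    rw [intervalIntegral.integral_interval_sub_left (hf.intervalIntegrable _ _)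
      (hf.intervalIntegrable _ _)]
  simp only [h1]
  have h2 : Continuous fun u : ℝ => ∫ ρ in (0 : ℝ)..u, Complex.exp ((ρ : ℂ) * ν) :=
    intervalIntegral.continuous_primitive (fun a b => hf.intervalIntegrable a b) 0
  exact h2.sub (h2.comp continuous_neg)

/-! ## The assembly -/

/-- **T6.29.C5.**  The spherical transform on `GL₂(ℂ)` is the Mellin transform of the
Harish-Chandra transform. -/
theorem hcTransCOfC830 : HCTransCOfC := by
  intro hIw hW hKer hTri μ' hμ'
  obtain ⟨c, hc, hform⟩ := hIw μ' hμ'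
  refine ⟨(c : ℂ), Complex.ofReal_ne_zero.2 hc.ne', ?_⟩
  intro φ hφ ν
  -- the function `F`
  have hFc : Continuous fun y : GL (Fin 2) ℂ => φ y * sphC ν (rhoC y) := by
    refine hφ.cont.mul ?_
    exact (continuousOn_sphC830 ν).comp_continuous continuous_rhoC830 fun y => one_le_rhoC830 y
  have hFs : HasCompactSupport fun y : GL (Fin 2) ℂ => φ y * sphC ν (rhoC y) :=
    hφ.supp.mul_right
  have hFr : ∀ k g : GL (Fin 2) ℂ, InU2 k →
      (fun y : GL (Fin 2) ℂ => φ y * sphC ν (rhoC y)) (g * k)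
        = (fun y : GL (Fin 2) ℂ => φ y * sphC ν (rhoC y)) g := by
    intro k g hk
    simp only
    rw [hφ.right k g hk, rhoC_mul_unitary830 g k hk]
  have hF := hform _ hFc hFs hFr
  unfold sphTransC
  rw [hF]
  congr 1
  unfold melC
  congr 1
  funext ζ
  -- the profile
  set p : ℝ → ℂ := fun u => φ (bC ζ u 0) with hp
  have hpc : Continuous p := continuous_profile830 hφ ζ
  have hps : HasCompactSupport p := hasCompactSupport_profile830 hφ ζ
  set I : ℝ → ℂ := fun u => ∫ ρ in (-u)..u, Complex.exp ((ρ : ℂ) * ν) with hI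
  have hIc : Continuous I := continuous_expInt830 ν
  -- step 1: `WIntCC` with `Ψ = sphC ν`, then `SphCKernelC`
  have s1 : ∀ r : ℝ, (∫ w : ℂ, φ (bC ζ r w) * sphC ν (rhoC (bC ζ r w)))
      = ((2 * Real.pi * Real.exp (-r) : ℝ) : ℂ) * ∫ u in Set.Ioi |r|, p u * ((1 / 2 : ℂ) * I u) := by
    intro r
    rw [hW φ hφ (sphC ν) (continuousOn_sphC830 ν) ζ r]
    congr 1
    apply MeasureTheory.setIntegral_congr_fun measurableSet_Ioi
    intro u hu
    have hu0 : 0 ≤ u := le_trans (abs_nonneg r) (le_of_lt hu)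
    simp only
    rw [mul_assoc, hKer ν u hu0]
  -- step 2: `WIntCC` with `Ψ = 1`
  have s2 : ∀ r : ℝ, hcC φ ζ r
      = ((2 * Real.pi * Real.exp (-r) : ℝ) : ℂ) * ∫ u in Set.Ioi |r|, p u * ((Real.sinh u : ℝ) : ℂ) := by
    intro r
    have h := hW φ hφ (fun _ => (1 : ℂ)) continuousOn_const ζ r
    simp only [mul_one] at h
    unfold hcC
    rw [h]
  -- step 3: Fubini twice
  have f1 := hTri (fun r : ℝ => ((2 * Real.pi * Real.exp (-r) : ℝ) : ℂ))
    (fun u => p u * ((1 / 2 : ℂ) * I u)) (by fun_prop) (hpc.mul (continuous_const.mul hIc))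
    hps.mul_right
  have f2 := hTri (fun r : ℝ => Complex.exp ((r : ℂ) * ν))
    (fun u => ((2 * Real.pi : ℝ) : ℂ) * (p u * ((Real.sinh u : ℝ) : ℂ))) (by fun_prop)
    (continuous_const.mul (hpc.mul (by fun_prop)))
    (hps.mul_right.mul_left)
  calc (∫ r : ℝ, ∫ w : ℂ, φ (bC ζ r w) * sphC ν (rhoC (bC ζ r w)))
      = ∫ r : ℝ, ((2 * Real.pi * Real.exp (-r) : ℝ) : ℂ)
          * ∫ u in Set.Ioi |r|, p u * ((1 / 2 : ℂ) * I u) := by
        congr 1
        funext r
        exact s1 r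
    _ = ∫ u in Set.Ioi (0 : ℝ), p u * ((1 / 2 : ℂ) * I u)
          * ∫ r in (-u)..u, ((2 * Real.pi * Real.exp (-r) : ℝ) : ℂ) := f1
    _ = ∫ u in Set.Ioi (0 : ℝ), ((2 * Real.pi : ℝ) : ℂ) * (p u * ((Real.sinh u : ℝ) : ℂ))
          * ∫ r in (-u)..u, Complex.exp ((r : ℂ) * ν) := by
        apply MeasureTheory.setIntegral_congr_fun measurableSet_Ioi
        intro u _
        simp only
        rw [integral_exp_neg830]
        push_cast
        ring
    _ = ∫ r : ℝ, Complex.exp ((r : ℂ) * ν)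
          * ∫ u in Set.Ioi |r|, ((2 * Real.pi : ℝ) : ℂ) * (p u * ((Real.sinh u : ℝ) : ℂ)) := f2.symm
    _ = ∫ r : ℝ, Complex.exp ((r : ℂ) * (ν + 1)) * hcC φ ζ r := by
        congr 1
        funext r
        rw [s2 r, MeasureTheory.integral_const_mul]
        have he : Complex.exp ((r : ℂ) * (ν + 1))
            = Complex.exp ((r : ℂ) * ν) * ((Real.exp r : ℝ) : ℂ) := by
          rw [mul_add, mul_one, Complex.exp_add, Complex.ofReal_exp]
        have he2 : ((Real.exp r : ℝ) : ℂ) * ((2 * Real.pi * Real.exp (-r) : ℝ) : ℂ)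
            = ((2 * Real.pi : ℝ) : ℂ) := by
          rw [← Complex.ofReal_mul]
          congr 1
          rw [Real.exp_neg]
          field_simp
        rw [he]
        calc Complex.exp ((r : ℂ) * ν) * (((2 * Real.pi : ℝ) : ℂ)
              * ∫ u in Set.Ioi |r|, p u * ((Real.sinh u : ℝ) : ℂ))
            = Complex.exp ((r : ℂ) * ν) * ((((Real.exp r : ℝ) : ℂ)
              * ((2 * Real.pi * Real.exp (-r) : ℝ) : ℂ))
              * ∫ u in Set.Ioi |r|, p u * ((Real.sinh u : ℝ) : ℂ)) := by rw [he2]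
          _ = _ := by ring

end Fermat.Agent.LT.T6.H830

end

end
-- ===== PACK-END LT/T6/H830/HCTransC.lean

-- ===== PACK-BEGIN LT/T6/H283/CartanC.lean
section



/-!
# Row LT, tower T6, leaf T6.29.C1 `CartanCC` (helper283, registry 1452)

OFF-MAIN.  `cartanCC283 : H830.CartanCC`, VERBATIM vs `T6/H830/HCSpec.lean`
(helper830@99e12b740, sha256 `c3e7d846…`), unconditional.  The mathematics is in
`CartanCore.lean` (Mathlib only).
-/

set_option autoImplicit false

open scoped Matrix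

namespace Fermat.Agent.LT.T6.H283

open Fermat.Agent.LT.T6

/-- **T6.29.C1 CARTAN-C**: two elements of `GL₂(ℂ)` with the same `|det|` and the same `rhoC`
lie in the same double coset of `U(2)`. -/
theorem cartanCC283 : H830.CartanCC := by
  intro y y' hdet hrho
  have hY : IsUnit (y : Matrix (Fin 2) (Fin 2) ℂ).det :=
    (Matrix.isUnit_iff_isUnit_det _).1 y.isUnit
  have hn : (2 * ‖(y : Matrix (Fin 2) (Fin 2) ℂ).det‖) ≠ 0 :=
    mul_ne_zero two_ne_zero (norm_ne_zero_iff.2 hY.ne_zero)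
  have htr : ((y : Matrix (Fin 2) (Fin 2) ℂ)ᴴ * (y : Matrix (Fin 2) (Fin 2) ℂ)).trace.re
      = ((y' : Matrix (Fin 2) (Fin 2) ℂ)ᴴ * (y' : Matrix (Fin 2) (Fin 2) ℂ)).trace.re := by
    have h := hrho
    unfold rhoC at h
    rw [← hdet] at h
    exact (div_left_inj' hn).1 h
  obtain ⟨K, V, hK1, hK2, hV1, hV2, hYY⟩ := cartan_core283 _ _ hY hdet htr
  refine ⟨⟨K, Kᴴ, hK1, hK2⟩, ⟨V, Vᴴ, hV1, hV2⟩, hK1, hV1, ?_⟩
  apply Units.ext
  rw [Units.val_mul, Units.val_mul]
  exact hYY

end Fermat.Agent.LT.T6.H283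

end
-- ===== PACK-END LT/T6/H283/CartanC.lean

-- ===== PACK-BEGIN LT/T2/H429/OpsSpec.lean
section





/-!
# Row LT, tower T2, leaf T2.07 (`OpsGood`): SUB-SPEC (helper429, owner of T2.07)

OFF-MAIN.  Vocabulary: `LT/H556/A0.lean`, `LT/T1/Spec.lean` (v1), `LT/T2/Spec.lean` (v2 sha256
43969e81 or v3 sha256 b934629a: this file compiles against both), byte-identical copies.  Nothing is assumed, no opaque constant, no placeholder proof.

`T2.Leaf07 K` is split along the GENERATORS of `T2.IsOp` (`IsGen429`): convolutions by spherical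
test functions, Hecke sums, scalar shifts and their inverses, sphere means, circle means.

* `Pres429`, `Lin429`, `Bdd429`, `Comm429`, `HasAdj429`: the five clauses of `T2.OpsGood` for ONE
  operator (resp. one pair of operators).
* `GenGood429 𝔫 F`: the five clauses for the generators only.
* PROVED: `opsGood_of_genGood429 : (∀ F, GenGood429 𝔫 F) → OpsGood K 𝔫` (induction on `IsOp`; the
  bound of a composite uses `nsq ≥ 0`, the commutation is a double induction which uses the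
  preservation of the cusp functions, the adjoint of `S ∘ T` is `T' ∘ S'`).
* The sub-leaves `Sub…429` (registry rows `T2.07.x`), each under the standing hypotheses
  `Ctx429 K 𝔫` of the leaf, and the PROVED `opsGood_of_sub429 : Sub429 K → … → OpsGood K 𝔫`.
-/

set_option autoImplicit false

open IsDedekindDomain NumberField MeasureTheory
open Fermat.Agent.LT.H556.A0
open Fermat.Agent.LT.T2

noncomputable section

namespace Fermat.Agent.LT.T2.H429

variable {K : Type} [Field K] [NumberField K]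

attribute [local instance] Fermat.Agent.LT.T2.borelG

/-! ## 1. The generators and the five clauses -/

/-- The generators of `T2.IsOp`. -/
inductive IsGen429 (𝔫 : Ideal (𝓞 K)) (F : Frame K) : ((G K → ℂ) → (G K → ℂ)) → Prop
  | conv (f : G K → ℂ) (hf : IsSphTestFn 𝔫 f) : IsGen429 𝔫 F (conv F f)
  | hecke (v : HeightOneSpectrum (𝓞 K)) (hv : ¬ v.asIdeal ∣ 𝔫) (H : Finset (G K))
      (hH : IsHeckeCosetSystem v H) : IsGen429 𝔫 F (heckeSum H)
  | shift (v : HeightOneSpectrum (𝓞 K)) (hv : ¬ v.asIdeal ∣ 𝔫) (z : G K)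
      (hz : IsScalarUniformizerAt v z) : IsGen429 𝔫 F (shift z)
  | shiftInv (v : HeightOneSpectrum (𝓞 K)) (hv : ¬ v.asIdeal ∣ 𝔫) (z : G K)
      (hz : IsScalarUniformizerAt v z) : IsGen429 𝔫 F (shift z⁻¹)
  | sphere (w : InfinitePlace K) (hw : w.IsComplex) (d : ℝ) (hd : 0 < d) (Y : ℝ → ℝ → G K)
      (hY : IsSphereAt w d Y) : IsGen429 𝔫 F (sphereMean Y)
  | circle (w : InfinitePlace K) (hw : w.IsReal) (t : ℝ) (ht : 0 < t) (Y : ℝ → G K)
      (hY : IsCircleAt w t Y) : IsGen429 𝔫 F (circleMean Y)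

theorem IsGen429.isOp {𝔫 : Ideal (𝓞 K)} {F : Frame K} {T : (G K → ℂ) → (G K → ℂ)}
    (h : IsGen429 𝔫 F T) : IsOp 𝔫 F T := by
  cases h with
  | conv f hf => exact IsOp.conv f hf
  | hecke v hv H hH => exact IsOp.hecke v hv H hH
  | shift v hv z hz => exact IsOp.shift v hv z hz
  | shiftInv v hv z hz => exact IsOp.shiftInv v hv z hz
  | sphere w hw d hd Y hY => exact IsOp.sphere w hw d hd Y hY
  | circle w hw t ht Y hY => exact IsOp.circle w hw t ht Y hY

/-- Induction principle: a property of the generators which is stable under composition holds for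
all operators. -/
theorem isOp_induction429 {𝔫 : Ideal (𝓞 K)} {F : Frame K}
    {P : ((G K → ℂ) → (G K → ℂ)) → Prop}
    (hgen : ∀ T, IsGen429 𝔫 F T → P T)
    (hcomp : ∀ S T, IsOp 𝔫 F S → IsOp 𝔫 F T → P S → P T → P (fun φ => S (T φ)))
    {T : (G K → ℂ) → (G K → ℂ)} (hT : IsOp 𝔫 F T) : P T := by
  induction hT with
  | conv f hf => exact hgen _ (IsGen429.conv f hf)
  | hecke v hv H hH => exact hgen _ (IsGen429.hecke v hv H hH)
  | shift v hv z hz => exact hgen _ (IsGen429.shift v hv z hz)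
  | shiftInv v hv z hz => exact hgen _ (IsGen429.shiftInv v hv z hz)
  | sphere w hw d hd Y hY => exact hgen _ (IsGen429.sphere w hw d hd Y hY)
  | circle w hw t ht Y hY => exact hgen _ (IsGen429.circle w hw t ht Y hY)
  | comp S T hS hT ihS ihT => exact hcomp S T hS hT ihS ihT

/-- `T` preserves the cusp functions of level `U(𝔫)`. -/
def Pres429 (𝔫 : Ideal (𝓞 K)) (T : (G K → ℂ) → (G K → ℂ)) : Prop :=
  ∀ φ : G K → ℂ, IsCuspFn 𝔫 φ → IsCuspFn 𝔫 (T φ)

/-- `T` is additive and homogeneous on the cusp functions. -/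
def Lin429 (𝔫 : Ideal (𝓞 K)) (T : (G K → ℂ) → (G K → ℂ)) : Prop :=
  ∀ (φ ψ : G K → ℂ) (c : ℂ), IsCuspFn 𝔫 φ → IsCuspFn 𝔫 ψ →
    T (fun g => φ g + c * ψ g) = fun g => T φ g + c * T ψ g

/-- `T` is bounded in `L²` on the cusp functions. -/
def Bdd429 (𝔫 : Ideal (𝓞 K)) (F : Frame K) (T : (G K → ℂ) → (G K → ℂ)) : Prop :=
  ∃ C : ℝ, ∀ φ : G K → ℂ, IsCuspFn 𝔫 φ → nsq F (T φ) ≤ C * nsq F φ

/-- `S` and `T` commute on the cusp functions. -/
def Comm429 (𝔫 : Ideal (𝓞 K)) (S T : (G K → ℂ) → (G K → ℂ)) : Prop :=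
  ∀ φ : G K → ℂ, IsCuspFn 𝔫 φ → S (T φ) = T (S φ)

/-- `T'` is adjoint to `T` on the cusp functions. -/
def IsAdj429 (𝔫 : Ideal (𝓞 K)) (F : Frame K) (T T' : (G K → ℂ) → (G K → ℂ)) : Prop :=
  ∀ φ ψ : G K → ℂ, IsCuspFn 𝔫 φ → IsCuspFn 𝔫 ψ → pair F (T φ) ψ = pair F φ (T' ψ)

/-- `T` has an adjoint among the operators of the tower. -/
def HasAdj429 (𝔫 : Ideal (𝓞 K)) (F : Frame K) (T : (G K → ℂ) → (G K → ℂ)) : Prop :=
  ∃ T', IsOp 𝔫 F T' ∧ IsAdj429 𝔫 F T T'

/-- The five clauses of `OpsGood` for the generators. -/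
structure GenGood429 (𝔫 : Ideal (𝓞 K)) (F : Frame K) : Prop where
  pres : ∀ T, IsGen429 𝔫 F T → Pres429 𝔫 T
  lin : ∀ T, IsGen429 𝔫 F T → Lin429 𝔫 T
  bdd : ∀ T, IsGen429 𝔫 F T → Bdd429 𝔫 F T
  comm : ∀ S T, IsGen429 𝔫 F S → IsGen429 𝔫 F T → Comm429 𝔫 S T
  adj : ∀ T, IsGen429 𝔫 F T → HasAdj429 𝔫 F T

/-! ## 2. The assembly -/

/-- The square of the `L²`-norm is non-negative (also when the integrand is not integrable: then
the integral is `0`). -/
theorem nsq_nonneg429 (F : Frame K) (φ : G K → ℂ) : 0 ≤ nsq F φ := by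
  unfold nsq pair
  by_cases hi : Integrable (fun g => φ g * (starRingEnd ℂ) (φ g)) (F.μ.restrict F.D)
  · have h1 : (∫ g in F.D, φ g * (starRingEnd ℂ) (φ g) ∂F.μ).re
        = ∫ g in F.D, (φ g * (starRingEnd ℂ) (φ g)).re ∂F.μ := by
      have := integral_re (𝕜 := ℂ) hi
      simpa using this.symm
    rw [h1]
    apply integral_nonneg
    intro g
    simp only [Complex.mul_conj]
    exact_mod_cast Complex.normSq_nonneg (φ g)
  · rw [integral_undef hi]
    simp

theorem pres_isOp429 {𝔫 : Ideal (𝓞 K)} {F : Frame K} (h : GenGood429 𝔫 F)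
    {T : (G K → ℂ) → (G K → ℂ)} (hT : IsOp 𝔫 F T) : Pres429 𝔫 T :=
  isOp_induction429 (P := Pres429 𝔫) h.pres
    (fun _ _ _ _ hS hT φ hφ => hS _ (hT φ hφ)) hT

theorem lin_isOp429 {𝔫 : Ideal (𝓞 K)} {F : Frame K} (h : GenGood429 𝔫 F)
    {T : (G K → ℂ) → (G K → ℂ)} (hT : IsOp 𝔫 F T) : Lin429 𝔫 T := by
  refine isOp_induction429 (P := Lin429 𝔫) h.lin ?_ hT
  intro S T _ hT' hS hT φ ψ c hφ hψ
  have h1 : T (fun g => φ g + c * ψ g) = fun g => T φ g + c * T ψ g := hT φ ψ c hφ hψ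
  have h2 := hS (T φ) (T ψ) c (pres_isOp429 h hT' φ hφ) (pres_isOp429 h hT' ψ hψ)
  show S (T (fun g => φ g + c * ψ g)) = fun g => S (T φ) g + c * S (T ψ) g
  rw [h1, h2]

theorem bdd_isOp429 {𝔫 : Ideal (𝓞 K)} {F : Frame K} (h : GenGood429 𝔫 F)
    {T : (G K → ℂ) → (G K → ℂ)} (hT : IsOp 𝔫 F T) : Bdd429 𝔫 F T := by
  refine isOp_induction429 (P := Bdd429 𝔫 F) h.bdd ?_ hT
  rintro S T _ hT' ⟨C, hC⟩ ⟨C', hC'⟩
  refine ⟨max C 0 * max C' 0, fun φ hφ => ?_⟩
  have h1 : nsq F (S (T φ)) ≤ C * nsq F (T φ) := hC _ (pres_isOp429 h hT' φ hφ)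
  have h2 : nsq F (T φ) ≤ C' * nsq F φ := hC' φ hφ
  have h3 : C * nsq F (T φ) ≤ max C 0 * nsq F (T φ) :=
    mul_le_mul_of_nonneg_right (le_max_left _ _) (nsq_nonneg429 F _)
  have h4 : C' * nsq F φ ≤ max C' 0 * nsq F φ :=
    mul_le_mul_of_nonneg_right (le_max_left _ _) (nsq_nonneg429 F _)
  calc nsq F (S (T φ)) ≤ max C 0 * nsq F (T φ) := h1.trans h3
    _ ≤ max C 0 * (max C' 0 * nsq F φ) :=
        mul_le_mul_of_nonneg_left (h2.trans h4) (le_max_right _ _)
    _ = max C 0 * max C' 0 * nsq F φ := by ring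

/-- A generator commutes with every operator. -/
theorem comm_gen_isOp429 {𝔫 : Ideal (𝓞 K)} {F : Frame K} (h : GenGood429 𝔫 F)
    {S : (G K → ℂ) → (G K → ℂ)} (hS : IsGen429 𝔫 F S)
    {T : (G K → ℂ) → (G K → ℂ)} (hT : IsOp 𝔫 F T) : Comm429 𝔫 S T := by
  refine isOp_induction429 (P := Comm429 𝔫 S) (fun T hT => h.comm S T hS hT) ?_ hT
  intro T₁ T₂ _ hT₂ h₁ h₂ φ hφ
  show S (T₁ (T₂ φ)) = T₁ (T₂ (S φ))
  rw [h₁ _ (pres_isOp429 h hT₂ φ hφ), h₂ φ hφ]

theorem comm_isOp429 {𝔫 : Ideal (𝓞 K)} {F : Frame K} (h : GenGood429 𝔫 F)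
    {S T : (G K → ℂ) → (G K → ℂ)} (hS : IsOp 𝔫 F S) (hT : IsOp 𝔫 F T) : Comm429 𝔫 S T := by
  refine isOp_induction429 (P := fun S => Comm429 𝔫 S T)
    (fun S hS => comm_gen_isOp429 h hS hT) ?_ hS
  intro S₁ S₂ _ hS₂ h₁ h₂ φ hφ
  show S₁ (S₂ (T φ)) = T (S₁ (S₂ φ))
  rw [h₂ φ hφ, h₁ _ (pres_isOp429 h hS₂ φ hφ)]

theorem adj_isOp429 {𝔫 : Ideal (𝓞 K)} {F : Frame K} (h : GenGood429 𝔫 F)
    {T : (G K → ℂ) → (G K → ℂ)} (hT : IsOp 𝔫 F T) : HasAdj429 𝔫 F T := by
  refine isOp_induction429 (P := HasAdj429 𝔫 F) h.adj ?_ hT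
  rintro S T _ hT' ⟨S', hS', hSa⟩ ⟨T', hT'', hTa⟩
  refine ⟨fun ψ => T' (S' ψ), IsOp.comp T' S' hT'' hS', fun φ ψ hφ hψ => ?_⟩
  show pair F (S (T φ)) ψ = pair F φ (T' (S' ψ))
  rw [hSa _ ψ (pres_isOp429 h hT' φ hφ) hψ, hTa φ _ hφ (pres_isOp429 h hS' ψ hψ)]

/-- **ASSEMBLY**: the five clauses for the generators give `OpsGood`. -/
theorem opsGood_of_genGood429 {𝔫 : Ideal (𝓞 K)} (h : ∀ F : Frame K, GenGood429 𝔫 F) :
    OpsGood K 𝔫 := fun F =>
  ⟨fun _ hT => pres_isOp429 (h F) hT, fun _ hT => lin_isOp429 (h F) hT,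
    fun _ hT => bdd_isOp429 (h F) hT, fun _ _ hS hT => comm_isOp429 (h F) hS hT,
    fun _ hT => adj_isOp429 (h F) hT⟩

/-! ## 3. Formal facts (no hypothesis) -/

theorem Comm429.symm {𝔫 : Ideal (𝓞 K)} {S T : (G K → ℂ) → (G K → ℂ)} (h : Comm429 𝔫 S T) :
    Comm429 𝔫 T S := fun φ hφ => (h φ hφ).symm

/-- Hecke sums are additive and homogeneous (on all functions). -/
theorem lin_heckeSum429 (𝔫 : Ideal (𝓞 K)) (H : Finset (G K)) : Lin429 𝔫 (heckeSum H) := by
  intro φ ψ c _ _
  funext g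
  simp only [heckeSum, Finset.sum_add_distrib, Finset.mul_sum]

/-- Shifts are additive and homogeneous (on all functions). -/
theorem lin_shift429 (𝔫 : Ideal (𝓞 K)) (z : G K) : Lin429 𝔫 (shift z) := by
  intro φ ψ c _ _
  rfl

/-- The shift by a central element commutes with every generator (on all functions). -/
theorem comm_shift_gen429 {𝔫 : Ideal (𝓞 K)} {F : Frame K} {z : G K}
    (hz : ∀ g : G K, g * z = z * g) {T : (G K → ℂ) → (G K → ℂ)} (hT : IsGen429 𝔫 F T) :
    Comm429 𝔫 (shift z) T := by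
  intro φ _
  have key : ∀ x h : G K, x * z * h = x * h * z := fun x h => by
    rw [mul_assoc, ← hz h, mul_assoc]
  cases hT with
  | conv f hf =>
    funext x
    simp only [shift, conv, key]
  | hecke v hv H hH =>
    funext x
    simp only [shift, heckeSum, key]
  | shift v hv z' hz' =>
    funext x
    simp only [shift, key]
  | shiftInv v hv z' hz' =>
    funext x
    simp only [shift, key]
  | sphere w hw d hd Y hY =>
    funext x
    simp only [shift, sphereMean, key]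
  | circle w hw t ht Y hY =>
    funext x
    simp only [shift, circleMean, key]

/-- The inverse of a central element is central. -/
theorem central_inv429 {z : G K} (hz : ∀ g : G K, g * z = z * g) (g : G K) :
    g * z⁻¹ = z⁻¹ * g := by
  have h := hz (z⁻¹ * g * z⁻¹)
  have h1 : z⁻¹ * g * z⁻¹ * z = z⁻¹ * g := by group
  have h2 : z * (z⁻¹ * g * z⁻¹) = g * z⁻¹ := by group
  rw [h1, h2] at h
  exact h.symm

/-! ## 4. The standing hypotheses and the sub-leaves (registry rows `T2.07.x`) -/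

/-- The standing hypotheses of `T2.Leaf07`. -/
structure Ctx429 (K : Type) [Field K] [NumberField K] (𝔫 : Ideal (𝓞 K)) : Prop where
  t1 : T1.T1Out K
  ne : 𝔫 ≠ ⊥
  pd : PairDefinite K 𝔫
  cc : ConvCusp K 𝔫

/-- **T2.07.00** (KEY LEMMA, invariance of the Petersson integral under right translations):
for a continuous bounded function `Φ`, left invariant under `GL₂(K)` and right invariant under
`Z⁺`, `∫_D Φ(g h) dμ(g) = ∫_D Φ(g) dμ(g)` for every `h ∈ GL₂(𝔸_K)`.
Proof: `T1.UnimodC` (right invariance of `μ`), `T1.AdNormC` (the slab is `GL₂(K)`-invariant and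
`‖det z‖ = r^{2n}` on `Z⁺`, so `h` may be normalised to `‖det h‖ = 1`), then `D h` and `D` are
two fundamental domains of `GL₂(K)` in the slab (`IsFundamentalDomain.setIntegral_eq` for the
restriction of `μ` to the slab). -/
def SubTransl429 (K : Type) [Field K] [NumberField K] : Prop :=
  T1.T1Out K → ∀ (F : Frame K) (Φ : G K → ℂ), Continuous Φ → (∃ C : ℝ, ∀ g : G K, ‖Φ g‖ ≤ C) →
    (∀ (γ : GL (Fin 2) K) (g : G K), Φ (T1.ratG K γ * g) = Φ g) →
    (∀ z : G K, IsDiagPosScalar z → ∀ g : G K, Φ (g * z) = Φ g) →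
    ∀ h : G K, ∫ g in F.D, Φ (g * h) ∂F.μ = ∫ g in F.D, Φ g ∂F.μ

/-- **T2.07.01** a scalar uniformiser is central. -/
def SubCentral429 (K : Type) [Field K] [NumberField K] : Prop :=
  ∀ (v : HeightOneSpectrum (𝓞 K)) (z : G K), IsScalarUniformizerAt v z →
    ∀ g : G K, g * z = z * g

/-- **T2.07.02** Hecke sums preserve the cusp functions (`T1.HeckeCosetC`: `u h = h' k`;
`T1.AddFundDomC`: the constant term is an integral over a set of finite measure). -/
def SubHeckePres429 (K : Type) [Field K] [NumberField K] : Prop :=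
  ∀ 𝔫 : Ideal (𝓞 K), Ctx429 K 𝔫 → ∀ (v : HeightOneSpectrum (𝓞 K)), ¬ v.asIdeal ∣ 𝔫 →
    ∀ H : Finset (G K), IsHeckeCosetSystem v H → Pres429 𝔫 (heckeSum H)

/-- **T2.07.03** `‖T_H φ‖² ≤ (q_v + 1)² ‖φ‖²` (Cauchy--Schwarz and the KEY LEMMA). -/
def SubHeckeBdd429 (K : Type) [Field K] [NumberField K] : Prop :=
  ∀ 𝔫 : Ideal (𝓞 K), Ctx429 K 𝔫 → ∀ (F : Frame K) (v : HeightOneSpectrum (𝓞 K)),
    ¬ v.asIdeal ∣ 𝔫 → ∀ H : Finset (G K), IsHeckeCosetSystem v H → Bdd429 𝔫 F (heckeSum H)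

/-- **T2.07.04** `T_v* = S_v⁻¹ T_v`: `B(h) = ∫_D φ(g h) ψ̄(g)` is bi-invariant under `GL₂(𝒪_v)`
(KEY LEMMA), and `h`, `h⁻¹ z` lie in the same double coset `GL₂(𝒪_v) diag(ϖ, 1) GL₂(𝒪_v)`. -/
def SubHeckeAdj429 (K : Type) [Field K] [NumberField K] : Prop :=
  ∀ 𝔫 : Ideal (𝓞 K), Ctx429 K 𝔫 → ∀ (F : Frame K) (v : HeightOneSpectrum (𝓞 K)),
    ¬ v.asIdeal ∣ 𝔫 → ∀ H : Finset (G K), IsHeckeCosetSystem v H →
    ∀ z : G K, IsScalarUniformizerAt v z →
      IsAdj429 𝔫 F (heckeSum H) (fun ψ => shift z⁻¹ (heckeSum H ψ))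

/-- **T2.07.05** the shifts by a scalar uniformiser and by its inverse preserve the cusp
functions. -/
def SubShiftPres429 (K : Type) [Field K] [NumberField K] : Prop :=
  ∀ 𝔫 : Ideal (𝓞 K), Ctx429 K 𝔫 → ∀ (v : HeightOneSpectrum (𝓞 K)), ¬ v.asIdeal ∣ 𝔫 →
    ∀ z : G K, IsScalarUniformizerAt v z → Pres429 𝔫 (shift z) ∧ Pres429 𝔫 (shift z⁻¹)

/-- **T2.07.06** the shifts are isometries (KEY LEMMA). -/
def SubShiftBdd429 (K : Type) [Field K] [NumberField K] : Prop :=
  ∀ 𝔫 : Ideal (𝓞 K), Ctx429 K 𝔫 → ∀ (F : Frame K) (v : HeightOneSpectrum (𝓞 K)),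
    ¬ v.asIdeal ∣ 𝔫 → ∀ z : G K, IsScalarUniformizerAt v z →
      Bdd429 𝔫 F (shift z) ∧ Bdd429 𝔫 F (shift z⁻¹)

/-- **T2.07.07** `S_v* = S_v⁻¹` (KEY LEMMA). -/
def SubShiftAdj429 (K : Type) [Field K] [NumberField K] : Prop :=
  ∀ 𝔫 : Ideal (𝓞 K), Ctx429 K 𝔫 → ∀ (F : Frame K) (v : HeightOneSpectrum (𝓞 K)),
    ¬ v.asIdeal ∣ 𝔫 → ∀ z : G K, IsScalarUniformizerAt v z →
      IsAdj429 𝔫 F (shift z) (shift z⁻¹) ∧ IsAdj429 𝔫 F (shift z⁻¹) (shift z)

/-- **T2.07.08** convolutions are additive and homogeneous on the cusp functions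
(integrability: `f` continuous with compact support, `φ` continuous and bounded). -/
def SubConvLin429 (K : Type) [Field K] [NumberField K] : Prop :=
  ∀ 𝔫 : Ideal (𝓞 K), Ctx429 K 𝔫 → ∀ (F : Frame K) (f : G K → ℂ), IsSphTestFn 𝔫 f →
    Lin429 𝔫 (conv F f)

/-- **T2.07.09** `‖R(f) φ‖² ≤ ‖f‖₁² ‖φ‖²` (Cauchy--Schwarz, Tonelli, KEY LEMMA). -/
def SubConvBdd429 (K : Type) [Field K] [NumberField K] : Prop :=
  ∀ 𝔫 : Ideal (𝓞 K), Ctx429 K 𝔫 → ∀ (F : Frame K) (f : G K → ℂ), IsSphTestFn 𝔫 f →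
    Bdd429 𝔫 F (conv F f)

/-- **T2.07.10** two Hecke sums commute on the cusp functions (different places: the elements
commute; same place: independence of the coset system, asset helper129
`heckeSum_indep_level129`). -/
def SubCommHeckeHecke429 (K : Type) [Field K] [NumberField K] : Prop :=
  ∀ 𝔫 : Ideal (𝓞 K), Ctx429 K 𝔫 →
    ∀ (v : HeightOneSpectrum (𝓞 K)), ¬ v.asIdeal ∣ 𝔫 → ∀ H : Finset (G K),
    IsHeckeCosetSystem v H →
    ∀ (v' : HeightOneSpectrum (𝓞 K)), ¬ v'.asIdeal ∣ 𝔫 → ∀ H' : Finset (G K),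
    IsHeckeCosetSystem v' H' → Comm429 𝔫 (heckeSum H) (heckeSum H')

/-- **T2.07.11** a convolution by a spherical test function commutes with a Hecke sum
(commutativity of the spherical Hecke algebra at `v`: Cartan decomposition at `v`, asset
helper129 `cartan129`; a coset system of SYMMETRIC matrices
`[[ϖ + a², a], [a, 1]]`, `[[1, 0], [0, ϖ]]`; `f` is invariant under the transposition at `v`).
[Bump, Thm 4.6.1]. -/
def SubCommConvHecke429 (K : Type) [Field K] [NumberField K] : Prop :=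
  ∀ 𝔫 : Ideal (𝓞 K), Ctx429 K 𝔫 → ∀ (F : Frame K) (f : G K → ℂ), IsSphTestFn 𝔫 f →
    ∀ (v : HeightOneSpectrum (𝓞 K)), ¬ v.asIdeal ∣ 𝔫 → ∀ H : Finset (G K),
    IsHeckeCosetSystem v H → Comm429 𝔫 (conv F f) (heckeSum H)

/-- **T2.07.12** sphere means preserve the cusp functions.  The invariance under `U(2)` at the
place of the mean is the invariance of `sin β dβ dα` under the rotations of `S²`
(`SubS2Rot429`); continuity of `Y` by `SubLocCont429`. -/
def SubSpherePres429 (K : Type) [Field K] [NumberField K] : Prop :=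
  ∀ 𝔫 : Ideal (𝓞 K), Ctx429 K 𝔫 → ∀ (w : InfinitePlace K), w.IsComplex → ∀ d : ℝ, 0 < d →
    ∀ Y : ℝ → ℝ → G K, IsSphereAt w d Y → Pres429 𝔫 (sphereMean Y)

/-- **T2.07.13** circle means preserve the cusp functions (the circle is a one-parameter
group: periodicity). -/
def SubCirclePres429 (K : Type) [Field K] [NumberField K] : Prop :=
  ∀ 𝔫 : Ideal (𝓞 K), Ctx429 K 𝔫 → ∀ (w : InfinitePlace K), w.IsReal → ∀ t : ℝ, 0 < t →
    ∀ Y : ℝ → G K, IsCircleAt w t Y → Pres429 𝔫 (circleMean Y)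

/-- **T2.07.14** sphere and circle means are additive and homogeneous on the cusp functions. -/
def SubMeanLin429 (K : Type) [Field K] [NumberField K] : Prop :=
  ∀ 𝔫 : Ideal (𝓞 K), Ctx429 K 𝔫 →
    (∀ (w : InfinitePlace K), w.IsComplex → ∀ d : ℝ, 0 < d →
      ∀ Y : ℝ → ℝ → G K, IsSphereAt w d Y → Lin429 𝔫 (sphereMean Y)) ∧
    (∀ (w : InfinitePlace K), w.IsReal → ∀ t : ℝ, 0 < t →
      ∀ Y : ℝ → G K, IsCircleAt w t Y → Lin429 𝔫 (circleMean Y))

/-- **T2.07.15** `‖M φ‖² ≤ (4π)² ‖φ‖²`, resp. `(2π)² ‖φ‖²` (Cauchy--Schwarz, Fubini, KEY LEMMA). -/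
def SubMeanBdd429 (K : Type) [Field K] [NumberField K] : Prop :=
  ∀ 𝔫 : Ideal (𝓞 K), Ctx429 K 𝔫 → ∀ F : Frame K,
    (∀ (w : InfinitePlace K), w.IsComplex → ∀ d : ℝ, 0 < d →
      ∀ Y : ℝ → ℝ → G K, IsSphereAt w d Y → Bdd429 𝔫 F (sphereMean Y)) ∧
    (∀ (w : InfinitePlace K), w.IsReal → ∀ t : ℝ, 0 < t →
      ∀ Y : ℝ → G K, IsCircleAt w t Y → Bdd429 𝔫 F (circleMean Y))

/-- **T2.07.16** sphere and circle means are self-adjoint: `B(h) = ∫_D φ(g h) ψ̄(g)` is
bi-invariant under the compact group at `w` and under the positive scalars (KEY LEMMA), and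
`torus(d)⁻¹ = w₀ torus(d) w₀⁻¹` with `w₀ = [[0, 1], [-1, 0]]`. -/
def SubMeanAdj429 (K : Type) [Field K] [NumberField K] : Prop :=
  ∀ 𝔫 : Ideal (𝓞 K), Ctx429 K 𝔫 → ∀ F : Frame K,
    (∀ (w : InfinitePlace K), w.IsComplex → ∀ d : ℝ, 0 < d →
      ∀ Y : ℝ → ℝ → G K, IsSphereAt w d Y → IsAdj429 𝔫 F (sphereMean Y) (sphereMean Y)) ∧
    (∀ (w : InfinitePlace K), w.IsReal → ∀ t : ℝ, 0 < t →
      ∀ Y : ℝ → G K, IsCircleAt w t Y → IsAdj429 𝔫 F (circleMean Y) (circleMean Y))

/-- **T2.07.17** sphere and circle means commute with the Hecke sums (the elements commute;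
the integral of a finite sum). -/
def SubCommMeanHecke429 (K : Type) [Field K] [NumberField K] : Prop :=
  ∀ 𝔫 : Ideal (𝓞 K), Ctx429 K 𝔫 →
    ∀ (v : HeightOneSpectrum (𝓞 K)), ¬ v.asIdeal ∣ 𝔫 → ∀ H : Finset (G K),
    IsHeckeCosetSystem v H →
    (∀ (w : InfinitePlace K), w.IsComplex → ∀ d : ℝ, 0 < d →
      ∀ Y : ℝ → ℝ → G K, IsSphereAt w d Y → Comm429 𝔫 (sphereMean Y) (heckeSum H)) ∧
    (∀ (w : InfinitePlace K), w.IsReal → ∀ t : ℝ, 0 < t →
      ∀ Y : ℝ → G K, IsCircleAt w t Y → Comm429 𝔫 (circleMean Y) (heckeSum H))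

/-- **T2.07.18** two sphere means commute on the cusp functions.  Different places: Fubini.
Same place: `⟨M_d M_d' φ, ψ⟩ = 4π ∫ B(torus d · k_s · torus d') ds` is symmetric in `(d, d')`
because `B` is invariant under the transposition at `w` (Cartan decomposition
`GL₂(ℂ) = U(2) A U(2)`); then `PairDefinite`. [Helgason, GGA IV §2]. -/
def SubCommSphereSphere429 (K : Type) [Field K] [NumberField K] : Prop :=
  ∀ 𝔫 : Ideal (𝓞 K), Ctx429 K 𝔫 →
    ∀ (w : InfinitePlace K), w.IsComplex → ∀ d : ℝ, 0 < d →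
    ∀ Y : ℝ → ℝ → G K, IsSphereAt w d Y →
    ∀ (w' : InfinitePlace K), w'.IsComplex → ∀ d' : ℝ, 0 < d' →
    ∀ Y' : ℝ → ℝ → G K, IsSphereAt w' d' Y' → Comm429 𝔫 (sphereMean Y) (sphereMean Y')

/-- **T2.07.19** a sphere mean and a circle mean commute (different places: Fubini). -/
def SubCommSphereCircle429 (K : Type) [Field K] [NumberField K] : Prop :=
  ∀ 𝔫 : Ideal (𝓞 K), Ctx429 K 𝔫 →
    ∀ (w : InfinitePlace K), w.IsComplex → ∀ d : ℝ, 0 < d →
    ∀ Y : ℝ → ℝ → G K, IsSphereAt w d Y →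
    ∀ (w' : InfinitePlace K), w'.IsReal → ∀ t : ℝ, 0 < t →
    ∀ Y' : ℝ → G K, IsCircleAt w' t Y' → Comm429 𝔫 (sphereMean Y) (circleMean Y')

/-- **T2.07.20** two circle means commute (as T2.07.18, with `GL₂(ℝ) = SO(2) A SO(2)`). -/
def SubCommCircleCircle429 (K : Type) [Field K] [NumberField K] : Prop :=
  ∀ 𝔫 : Ideal (𝓞 K), Ctx429 K 𝔫 →
    ∀ (w : InfinitePlace K), w.IsReal → ∀ t : ℝ, 0 < t →
    ∀ Y : ℝ → G K, IsCircleAt w t Y →
    ∀ (w' : InfinitePlace K), w'.IsReal → ∀ t' : ℝ, 0 < t' →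
    ∀ Y' : ℝ → G K, IsCircleAt w' t' Y' → Comm429 𝔫 (circleMean Y) (circleMean Y')

/-- **T2.07.21** a convolution by a spherical test function commutes with the sphere and the
circle means (Gelfand's trick at `w`: the transposition at `w` preserves the Haar measure of
`GL₂(𝔸_K)`, `f` and `B`; `∫ f(h) B(a h) dh = ∫ f(h) B(h a) dh`; then `PairDefinite`).
[Helgason, GGA IV §3], [Lang, `SL₂(ℝ)`, ch. IV]. -/
def SubCommConvMean429 (K : Type) [Field K] [NumberField K] : Prop :=
  ∀ 𝔫 : Ideal (𝓞 K), Ctx429 K 𝔫 → ∀ (F : Frame K) (f : G K → ℂ), IsSphTestFn 𝔫 f →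
    (∀ (w : InfinitePlace K), w.IsComplex → ∀ d : ℝ, 0 < d →
      ∀ Y : ℝ → ℝ → G K, IsSphereAt w d Y → Comm429 𝔫 (conv F f) (sphereMean Y)) ∧
    (∀ (w : InfinitePlace K), w.IsReal → ∀ t : ℝ, 0 < t →
      ∀ Y : ℝ → G K, IsCircleAt w t Y → Comm429 𝔫 (conv F f) (circleMean Y))

/-! ### Auxiliary sub-leaves (Mathlib only; inputs of T2.07.12 -- T2.07.21) -/

/-- **T2.07.30** a family of elements supported at the infinite place `w` with continuous
components is continuous (so the parametrisations `Y` of `IsSphereAt`, `IsCircleAt` are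
continuous). -/
def SubLocCont429 (K : Type) [Field K] [NumberField K] : Prop :=
  ∀ (w : InfinitePlace K) (X : Type) [TopologicalSpace X] (h : X → G K),
    (∀ x, IsLocalAtInf w (h x)) →
    (∀ i j : Fin 2, Continuous fun x => infComp w (h x) i j) → Continuous h

/-- **T2.07.31** invariance of the measure `sin β dβ dα` of `S² = U(2) / (U(1) × U(1))` under
the rotations, in Euler angles: for `ψ` continuous on `GL₂(ℂ)`, right invariant under `U(2)`. -/
def SubS2Rot429 : Prop :=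
  ∀ ψ : Matrix (Fin 2) (Fin 2) ℂ → ℂ, ContinuousOn ψ {m | m.det ≠ 0} →
    (∀ m k : Matrix (Fin 2) (Fin 2) ℂ, k * k.conjTranspose = 1 → ψ (m * k) = ψ m) →
    ∀ k₀ : Matrix (Fin 2) (Fin 2) ℂ, k₀ * k₀.conjTranspose = 1 → ∀ d : ℝ,
      (∫ α in (0 : ℝ)..(2 * Real.pi), ∫ β in (0 : ℝ)..Real.pi,
          ψ (k₀ * (rotZ α * rotY β * torus d)) * ((Real.sin β : ℝ) : ℂ))
        = ∫ α in (0 : ℝ)..(2 * Real.pi), ∫ β in (0 : ℝ)..Real.pi,
          ψ (rotZ α * rotY β * torus d) * ((Real.sin β : ℝ) : ℂ)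

/-- **T2.07.32** Cartan decomposition at the infinite places: `GL₂(ℂ) = U(2) A U(2)` with `A`
diagonal, and for a real matrix the factors are real and in `SO(2)`. -/
def SubCartanInf429 : Prop :=
  ∀ g : Matrix (Fin 2) (Fin 2) ℂ, g.det ≠ 0 →
    ∃ k₁ k₂ : Matrix (Fin 2) (Fin 2) ℂ, ∃ a b : ℂ,
      k₁ * k₁.conjTranspose = 1 ∧ k₂ * k₂.conjTranspose = 1 ∧
      g = k₁ * Matrix.diagonal ![a, b] * k₂ ∧
      ((∀ i j, (g i j).im = 0) →
        (∀ i j, (k₁ i j).im = 0) ∧ (∀ i j, (k₂ i j).im = 0) ∧ k₁.det = 1 ∧ k₂.det = 1 ∧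
          a.im = 0 ∧ b.im = 0)

/-- ALL SUB-LEAVES of `T2.Leaf07`. -/
structure Sub429 (K : Type) [Field K] [NumberField K] : Prop where
  central : SubCentral429 K
  heckePres : SubHeckePres429 K
  heckeBdd : SubHeckeBdd429 K
  heckeAdj : SubHeckeAdj429 K
  shiftPres : SubShiftPres429 K
  shiftBdd : SubShiftBdd429 K
  shiftAdj : SubShiftAdj429 K
  convLin : SubConvLin429 K
  convBdd : SubConvBdd429 K
  commHeckeHecke : SubCommHeckeHecke429 K
  commConvHecke : SubCommConvHecke429 K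
  spherePres : SubSpherePres429 K
  circlePres : SubCirclePres429 K
  meanLin : SubMeanLin429 K
  meanBdd : SubMeanBdd429 K
  meanAdj : SubMeanAdj429 K
  commMeanHecke : SubCommMeanHecke429 K
  commSphereSphere : SubCommSphereSphere429 K
  commSphereCircle : SubCommSphereCircle429 K
  commCircleCircle : SubCommCircleCircle429 K
  commConvMean : SubCommConvMean429 K

/-! ## 5. The leaf from the sub-leaves -/

theorem genGood_of_sub429 (S : Sub429 K) {𝔫 : Ideal (𝓞 K)} (c : Ctx429 K 𝔫) (F : Frame K) :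
    GenGood429 𝔫 F := by
  have hcen : ∀ (v : HeightOneSpectrum (𝓞 K)) (z : G K), IsScalarUniformizerAt v z →
      ∀ g : G K, g * z = z * g := S.central
  have hcc := c.cc F
  refine ⟨?_, ?_, ?_, ?_, ?_⟩
  · -- preservation
    intro T hT
    cases hT with
    | conv f hf => exact fun φ hφ => hcc.2.2.1 f φ hf.test hφ
    | hecke v hv H hH => exact S.heckePres 𝔫 c v hv H hH
    | shift v hv z hz => exact (S.shiftPres 𝔫 c v hv z hz).1
    | shiftInv v hv z hz => exact (S.shiftPres 𝔫 c v hv z hz).2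
    | sphere w hw d hd Y hY => exact S.spherePres 𝔫 c w hw d hd Y hY
    | circle w hw t ht Y hY => exact S.circlePres 𝔫 c w hw t ht Y hY
  · -- linearity
    intro T hT
    cases hT with
    | conv f hf => exact S.convLin 𝔫 c F f hf
    | hecke v hv H hH => exact lin_heckeSum429 𝔫 H
    | shift v hv z hz => exact lin_shift429 𝔫 z
    | shiftInv v hv z hz => exact lin_shift429 𝔫 z⁻¹
    | sphere w hw d hd Y hY => exact (S.meanLin 𝔫 c).1 w hw d hd Y hY
    | circle w hw t ht Y hY => exact (S.meanLin 𝔫 c).2 w hw t ht Y hY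
  · -- bounds
    intro T hT
    cases hT with
    | conv f hf => exact S.convBdd 𝔫 c F f hf
    | hecke v hv H hH => exact S.heckeBdd 𝔫 c F v hv H hH
    | shift v hv z hz => exact (S.shiftBdd 𝔫 c F v hv z hz).1
    | shiftInv v hv z hz => exact (S.shiftBdd 𝔫 c F v hv z hz).2
    | sphere w hw d hd Y hY => exact (S.meanBdd 𝔫 c F).1 w hw d hd Y hY
    | circle w hw t ht Y hY => exact (S.meanBdd 𝔫 c F).2 w hw t ht Y hY
  · -- commutation
    intro T₁ T₂ h₁ h₂
    cases h₁ with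
    | shift v hv z hz => exact comm_shift_gen429 (hcen v z hz) h₂
    | shiftInv v hv z hz => exact comm_shift_gen429 (central_inv429 (hcen v z hz)) h₂
    | conv f hf =>
      cases h₂ with
      | conv f' hf' => exact fun φ hφ => hcc.2.2.2.2 f f' φ hf hf' hφ
      | hecke v hv H hH => exact S.commConvHecke 𝔫 c F f hf v hv H hH
      | shift v hv z hz =>
        exact (comm_shift_gen429 (hcen v z hz) (IsGen429.conv (F := F) f hf)).symm
      | shiftInv v hv z hz =>
        exact (comm_shift_gen429 (central_inv429 (hcen v z hz))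
          (IsGen429.conv (F := F) f hf)).symm
      | sphere w hw d hd Y hY => exact (S.commConvMean 𝔫 c F f hf).1 w hw d hd Y hY
      | circle w hw t ht Y hY => exact (S.commConvMean 𝔫 c F f hf).2 w hw t ht Y hY
    | hecke v hv H hH =>
      cases h₂ with
      | conv f' hf' => exact (S.commConvHecke 𝔫 c F f' hf' v hv H hH).symm
      | hecke v' hv' H' hH' => exact S.commHeckeHecke 𝔫 c v hv H hH v' hv' H' hH'
      | shift v' hv' z hz =>
        exact (comm_shift_gen429 (hcen v' z hz) (IsGen429.hecke (F := F) v hv H hH)).symm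
      | shiftInv v' hv' z hz =>
        exact (comm_shift_gen429 (central_inv429 (hcen v' z hz))
          (IsGen429.hecke (F := F) v hv H hH)).symm
      | sphere w hw d hd Y hY => exact ((S.commMeanHecke 𝔫 c v hv H hH).1 w hw d hd Y hY).symm
      | circle w hw t ht Y hY => exact ((S.commMeanHecke 𝔫 c v hv H hH).2 w hw t ht Y hY).symm
    | sphere w hw d hd Y hY =>
      cases h₂ with
      | conv f' hf' => exact ((S.commConvMean 𝔫 c F f' hf').1 w hw d hd Y hY).symm
      | hecke v hv H hH => exact (S.commMeanHecke 𝔫 c v hv H hH).1 w hw d hd Y hY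
      | shift v' hv' z hz =>
        exact (comm_shift_gen429 (hcen v' z hz)
          (IsGen429.sphere (𝔫 := 𝔫) (F := F) w hw d hd Y hY)).symm
      | shiftInv v' hv' z hz =>
        exact (comm_shift_gen429 (central_inv429 (hcen v' z hz))
          (IsGen429.sphere (𝔫 := 𝔫) (F := F) w hw d hd Y hY)).symm
      | sphere w' hw' d' hd' Y' hY' =>
        exact S.commSphereSphere 𝔫 c w hw d hd Y hY w' hw' d' hd' Y' hY'
      | circle w' hw' t ht Y' hY' =>
        exact S.commSphereCircle 𝔫 c w hw d hd Y hY w' hw' t ht Y' hY'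
    | circle w hw t ht Y hY =>
      cases h₂ with
      | conv f' hf' => exact ((S.commConvMean 𝔫 c F f' hf').2 w hw t ht Y hY).symm
      | hecke v hv H hH => exact (S.commMeanHecke 𝔫 c v hv H hH).2 w hw t ht Y hY
      | shift v' hv' z hz =>
        exact (comm_shift_gen429 (hcen v' z hz)
          (IsGen429.circle (𝔫 := 𝔫) (F := F) w hw t ht Y hY)).symm
      | shiftInv v' hv' z hz =>
        exact (comm_shift_gen429 (central_inv429 (hcen v' z hz))
          (IsGen429.circle (𝔫 := 𝔫) (F := F) w hw t ht Y hY)).symm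
      | sphere w' hw' d' hd' Y' hY' =>
        exact (S.commSphereCircle 𝔫 c w' hw' d' hd' Y' hY' w hw t ht Y hY).symm
      | circle w' hw' t' ht' Y' hY' =>
        exact S.commCircleCircle 𝔫 c w hw t ht Y hY w' hw' t' ht' Y' hY'
  · -- adjoints
    intro T hT
    cases hT with
    | conv f hf =>
      exact ⟨conv F (adj f), IsOp.conv _ (hcc.2.1 f hf),
        fun φ ψ hφ hψ => hcc.2.2.2.1 f φ ψ hf.test hφ hψ⟩
    | hecke v hv H hH =>
      obtain ⟨z, hz⟩ := (c.t1.heckeCoset v).2.2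
      exact ⟨fun ψ => shift z⁻¹ (heckeSum H ψ),
        IsOp.comp _ _ (IsOp.shiftInv v hv z hz) (IsOp.hecke v hv H hH),
        S.heckeAdj 𝔫 c F v hv H hH z hz⟩
    | shift v hv z hz =>
      exact ⟨shift z⁻¹, IsOp.shiftInv v hv z hz, (S.shiftAdj 𝔫 c F v hv z hz).1⟩
    | shiftInv v hv z hz =>
      exact ⟨shift z, IsOp.shift v hv z hz, (S.shiftAdj 𝔫 c F v hv z hz).2⟩
    | sphere w hw d hd Y hY =>
      exact ⟨sphereMean Y, IsOp.sphere w hw d hd Y hY, (S.meanAdj 𝔫 c F).1 w hw d hd Y hY⟩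
    | circle w hw t ht Y hY =>
      exact ⟨circleMean Y, IsOp.circle w hw t ht Y hY, (S.meanAdj 𝔫 c F).2 w hw t ht Y hY⟩

/-- **`OpsGood` FROM THE SUB-LEAVES** (the first half of `T2.Leaf07` of Spec v3; the second
half `OpsAdj` is `T2.07.04`, `T2.07.16` and the unitarity of the shifts, see `Leaf07.lean`).
v2 of this file: ONLY this theorem was changed (it was `leaf07_of_sub429 : Sub429 K → Leaf07 K`
against Spec v2); every definition and every `Sub…429` Prop above is textually unchanged. -/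
theorem opsGood_of_sub429 (S : Sub429 K) (hT1 : T1.T1Out K) (𝔫 : Ideal (𝓞 K)) (h𝔫 : 𝔫 ≠ ⊥)
    (hP : PairDefinite K 𝔫) (hC : ConvCusp K 𝔫) : OpsGood K 𝔫 :=
  opsGood_of_genGood429 fun F => genGood_of_sub429 S ⟨hT1, h𝔫, hP, hC⟩ F

end Fermat.Agent.LT.T2.H429

end

end
-- ===== PACK-END LT/T2/H429/OpsSpec.lean

-- ===== PACK-BEGIN LT/T2/H566/CuspSub.lean
section



/-!
# Row LT, tower T2, leaf T2.09 (helper566): the cusp functions form a vector space

OFF-MAIN.  Imports: Mathlib, `LT/T2/Spec.lean` (helper130, v1) with its imports.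

* `continuous_unip566`: the unipotent map `x ↦ n(x)` of `A0.IsCuspidalFn` is continuous.
* `measure_fundDom_lt_top566`: every fundamental domain of `K` in `𝔸_K` has finite Haar measure
  (from `T1.AddFundDomC`).
* `isCuspFn_add566`, `isCuspFn_smul566`, `isCuspFn_zero566`: the cusp functions of level `U(𝔫)`
  are a linear subspace (from `T1.LocCompC`, `T1.AddFundDomC`).
* `cuspSub566`: the subspace.
-/

set_option autoImplicit false
set_option linter.unusedSectionVars false
set_option linter.style.haveILetI false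

open IsDedekindDomain NumberField MeasureTheory
open Fermat.Agent.LT.H556.A0 Fermat.Agent.LT

noncomputable section

namespace Fermat.Agent.LT.T2.H566

variable {K : Type} [Field K] [NumberField K]

/-- The matrix of the inverse of `n(x)`. -/
theorem unip_inv_val566 (n : Adl K → G K)
    (hn : ∀ x : Adl K, (n x : Matrix (Fin 2) (Fin 2) (Adl K)) = !![1, x; 0, 1]) (x : Adl K) :
    (((n x)⁻¹ : G K) : Matrix (Fin 2) (Fin 2) (Adl K)) = !![1, -x; 0, 1] := by
  have h : ((n x : G K) : Matrix (Fin 2) (Fin 2) (Adl K)) * !![1, -x; 0, 1] = 1 := by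
    rw [hn x]
    ext i j
    fin_cases i <;> fin_cases j <;> simp [Matrix.mul_apply, Fin.sum_univ_two]
  exact Units.inv_eq_of_mul_eq_one_right h

/-- The unipotent map is continuous. -/
theorem continuous_unip566 (n : Adl K → G K)
    (hn : ∀ x : Adl K, (n x : Matrix (Fin 2) (Fin 2) (Adl K)) = !![1, x; 0, 1]) :
    Continuous n := by
  rw [Units.continuous_iff]
  constructor
  · have : (fun x => ((n x : G K) : Matrix (Fin 2) (Fin 2) (Adl K)))
        = fun x => !![1, x; 0, 1] := funext hn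
    show Continuous (fun x => ((n x : G K) : Matrix (Fin 2) (Fin 2) (Adl K)))
    rw [this]
    refine continuous_matrix (fun i j => ?_)
    fin_cases i <;> fin_cases j <;> simp <;> fun_prop
  · have : (fun x => (((n x)⁻¹ : G K) : Matrix (Fin 2) (Fin 2) (Adl K)))
        = fun x => !![1, -x; 0, 1] := funext (unip_inv_val566 n hn)
    show Continuous (fun x => (((n x)⁻¹ : G K) : Matrix (Fin 2) (Fin 2) (Adl K)))
    rw [this]
    refine continuous_matrix (fun i j => ?_)
    fin_cases i <;> fin_cases j <;> simp <;> fun_prop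

/-- `K` is countable. -/
theorem countable_princ566 : Countable (T1.princ K) := by
  haveI : Countable K :=
    (Module.finBasis ℚ K).equivFun.injective.countable
  unfold T1.princ
  exact (Set.countable_range _).to_subtype

section Borel

attribute [local instance] Fermat.Agent.LT.T2.borelG

/-- Every fundamental domain of `K` in `𝔸_K` has finite measure. -/
theorem measure_fundDom_lt_top566 (hFD : T1.AddFundDomC K) :
    letI : MeasurableSpace (Adl K) := borel (Adl K)
    ∀ μ : Measure (Adl K), μ.IsAddHaarMeasure → ∀ D : Set (Adl K),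
      IsAddFundamentalDomain ((algebraMap K (Adl K)).toAddMonoidHom.range) D μ → μ D < ⊤ := by
  letI : MeasurableSpace (Adl K) := borel (Adl K)
  haveI : BorelSpace (Adl K) := ⟨rfl⟩
  intro μ hμ D hD
  haveI := hμ
  haveI : Countable (T1.princ K) := countable_princ566
  obtain ⟨D₀, -, hD₀, -, -, hfin⟩ := hFD μ hμ
  have hD' : IsAddFundamentalDomain (T1.princ K) D μ := hD
  rw [hD'.measure_eq hD₀]
  exact hfin

/-- The constant term integrand of a bounded continuous function is integrable on every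
fundamental domain. -/
theorem integrable_unip566 (hFD : T1.AddFundDomC K) {φ : G K → ℂ} (hc : Continuous φ)
    (hb : ∃ C : ℝ, ∀ g : G K, ‖φ g‖ ≤ C) :
    letI : MeasurableSpace (Adl K) := borel (Adl K)
    ∀ μ : Measure (Adl K), μ.IsAddHaarMeasure → ∀ D : Set (Adl K),
      IsAddFundamentalDomain ((algebraMap K (Adl K)).toAddMonoidHom.range) D μ →
      ∀ n : Adl K → G K,
        (∀ x : Adl K, (n x : Matrix (Fin 2) (Fin 2) (Adl K)) = !![1, x; 0, 1]) →
        ∀ g : G K, Integrable (fun x => φ (n x * g)) (μ.restrict D) := by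
  letI : MeasurableSpace (Adl K) := borel (Adl K)
  haveI : BorelSpace (Adl K) := ⟨rfl⟩
  intro μ hμ D hD n hn g
  obtain ⟨C, hC⟩ := hb
  haveI : IsFiniteMeasure (μ.restrict D) :=
    isFiniteMeasure_restrict.2 (measure_fundDom_lt_top566 hFD μ hμ D hD).ne
  have hcont : Continuous (fun x => φ (n x * g)) :=
    hc.comp ((continuous_unip566 n hn).mul continuous_const)
  exact Integrable.of_bound hcont.aestronglyMeasurable C (Filter.Eventually.of_forall fun x => hC _)

theorem isCuspidalFn_add_smul566 (hFD : T1.AddFundDomC K) {φ ψ : G K → ℂ}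
    (hφc : Continuous φ) (hφb : ∃ C : ℝ, ∀ g : G K, ‖φ g‖ ≤ C)
    (hψc : Continuous ψ) (hψb : ∃ C : ℝ, ∀ g : G K, ‖ψ g‖ ≤ C)
    (hφ : IsCuspidalFn φ) (hψ : IsCuspidalFn ψ) (c : ℂ) :
    IsCuspidalFn (fun g => φ g + c * ψ g) := by
  letI : MeasurableSpace (Adl K) := borel (Adl K)
  intro μ hμ D hD n hn g
  have h1 := integrable_unip566 hFD hφc hφb μ hμ D hD n hn g
  have h2 := integrable_unip566 hFD hψc hψb μ hμ D hD n hn g
  have e : (fun x => (fun g => φ g + c * ψ g) (n x * g))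
      = (fun x => φ (n x * g)) + fun x => c * ψ (n x * g) := rfl
  rw [e, integral_add' h1 (h2.const_mul c)]
  have e2 : ∫ x in D, c * ψ (n x * g) ∂μ = c * ∫ x in D, ψ (n x * g) ∂μ :=
    integral_const_mul c _
  rw [hφ μ hμ D hD n hn g, e2, hψ μ hμ D hD n hn g]
  simp

end Borel

theorem isCuspFn_add_smul566 (hFD : T1.AddFundDomC K) {𝔫 : Ideal (𝓞 K)} {φ ψ : G K → ℂ}
    (hφ : IsCuspFn 𝔫 φ) (hψ : IsCuspFn 𝔫 ψ) (c : ℂ) :
    IsCuspFn 𝔫 (fun g => φ g + c * ψ g) where
  cont := hφ.cont.add (continuous_const.mul hψ.cont)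
  bdd := by
    obtain ⟨A, hA⟩ := hφ.bdd
    obtain ⟨B, hB⟩ := hψ.bdd
    refine ⟨A + ‖c‖ * B, fun g => ?_⟩
    calc ‖φ g + c * ψ g‖ ≤ ‖φ g‖ + ‖c * ψ g‖ := norm_add_le _ _
      _ = ‖φ g‖ + ‖c‖ * ‖ψ g‖ := by rw [norm_mul]
      _ ≤ A + ‖c‖ * B := add_le_add (hA g) (mul_le_mul_of_nonneg_left (hB g) (norm_nonneg c))
  left_inv := fun γ g => by simp only [hφ.left_inv γ g, hψ.left_inv γ g]
  level_inv := fun u hu g => by simp only [hφ.level_inv u hu g, hψ.level_inv u hu g]
  arch_scalar := fun w z hz g => by simp only [hφ.arch_scalar w z hz g, hψ.arch_scalar w z hz g]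
  arch_compact := fun w k hk g => by
    simp only [hφ.arch_compact w k hk g, hψ.arch_compact w k hk g]
  cuspidal := isCuspidalFn_add_smul566 hFD hφ.cont hφ.bdd hψ.cont hψ.bdd hφ.cuspidal hψ.cuspidal c

theorem isCuspFn_zero566 (𝔫 : Ideal (𝓞 K)) : IsCuspFn 𝔫 (fun _ : G K => (0 : ℂ)) where
  cont := continuous_const
  bdd := ⟨0, fun g => by simp⟩
  left_inv := fun _ _ => rfl
  level_inv := fun _ _ _ => rfl
  arch_scalar := fun _ _ _ _ => rfl
  arch_compact := fun _ _ _ _ => rfl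
  cuspidal := by
    intro μ _ D _ n _ g
    simp

/-- The space of cusp functions of level `U(𝔫)`. -/
def cuspSub566 (hFD : T1.AddFundDomC K) (𝔫 : Ideal (𝓞 K)) : Submodule ℂ (G K → ℂ) where
  carrier := {φ | IsCuspFn 𝔫 φ}
  add_mem' := by
    intro φ ψ hφ hψ
    have := isCuspFn_add_smul566 hFD hφ hψ 1
    have e : (fun g : G K => φ g + 1 * ψ g) = φ + ψ := by
      funext g
      simp
    rw [e] at this
    exact this
  zero_mem' := isCuspFn_zero566 𝔫
  smul_mem' := by
    intro c φ hφ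
    have := isCuspFn_add_smul566 hFD (isCuspFn_zero566 𝔫) hφ c
    have e : (fun g : G K => (0 : ℂ) + c * φ g) = c • φ := by
      funext g
      simp
    rw [e] at this
    exact this

theorem mem_cuspSub566 (hFD : T1.AddFundDomC K) (𝔫 : Ideal (𝓞 K)) (φ : G K → ℂ) :
    φ ∈ cuspSub566 hFD 𝔫 ↔ IsCuspFn 𝔫 φ := Iff.rfl

/-- The space of cusp functions as a TYPE SYNONYM of the subspace, without the topology of
pointwise convergence (it gets the `L²`-norm of a frame). -/
def CuspV566 (hFD : T1.AddFundDomC K) (𝔫 : Ideal (𝓞 K)) : Type := ↥(cuspSub566 hFD 𝔫)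

instance instAddCommGroupCuspV566 (hFD : T1.AddFundDomC K) (𝔫 : Ideal (𝓞 K)) :
    AddCommGroup (CuspV566 hFD 𝔫) :=
  inferInstanceAs (AddCommGroup ↥(cuspSub566 hFD 𝔫))

instance instModuleCuspV566 (hFD : T1.AddFundDomC K) (𝔫 : Ideal (𝓞 K)) :
    Module ℂ (CuspV566 hFD 𝔫) :=
  inferInstanceAs (Module ℂ ↥(cuspSub566 hFD 𝔫))

/-- The underlying function. -/
def CuspV566.fn {hFD : T1.AddFundDomC K} {𝔫 : Ideal (𝓞 K)} (x : CuspV566 hFD 𝔫) : G K → ℂ :=
  Subtype.val x

/-- The element of the space defined by a cusp function. -/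
def CuspV566.mk {hFD : T1.AddFundDomC K} {𝔫 : Ideal (𝓞 K)} (φ : G K → ℂ) (hφ : IsCuspFn 𝔫 φ) :
    CuspV566 hFD 𝔫 :=
  (⟨φ, hφ⟩ : ↥(cuspSub566 hFD 𝔫))

theorem CuspV566.isCuspFn {hFD : T1.AddFundDomC K} {𝔫 : Ideal (𝓞 K)} (x : CuspV566 hFD 𝔫) :
    IsCuspFn 𝔫 x.fn := Subtype.property x

@[simp]
theorem CuspV566.fn_mk {hFD : T1.AddFundDomC K} {𝔫 : Ideal (𝓞 K)} (φ : G K → ℂ)
    (hφ : IsCuspFn 𝔫 φ) : (CuspV566.mk (hFD := hFD) φ hφ).fn = φ := rfl

theorem CuspV566.ext {hFD : T1.AddFundDomC K} {𝔫 : Ideal (𝓞 K)} {x y : CuspV566 hFD 𝔫}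
    (h : x.fn = y.fn) : x = y := Subtype.ext h

theorem CuspV566.fn_add {hFD : T1.AddFundDomC K} {𝔫 : Ideal (𝓞 K)} (x y : CuspV566 hFD 𝔫) :
    (x + y).fn = x.fn + y.fn := rfl

theorem CuspV566.fn_sub {hFD : T1.AddFundDomC K} {𝔫 : Ideal (𝓞 K)} (x y : CuspV566 hFD 𝔫) :
    (x - y).fn = fun g => x.fn g - y.fn g := rfl

theorem CuspV566.fn_smul {hFD : T1.AddFundDomC K} {𝔫 : Ideal (𝓞 K)} (c : ℂ)
    (x : CuspV566 hFD 𝔫) : (c • x).fn = c • x.fn := rfl

end Fermat.Agent.LT.T2.H566

end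

end
-- ===== PACK-END LT/T2/H566/CuspSub.lean

-- ===== PACK-BEGIN LT/T2/H770/Comp.lean
section





/-!
# Row LT, tower T2, sub-leaf T2.07.16 (helper770): component calculus on `GL₂(𝔸_K)` -- OFF-MAIN

Vocabulary: `LT/H556/A0.lean` (helper556), `LT/T2/Spec.lean` (helper130, v2), component ring
homomorphisms `cInf472`, `cFin472`, `cC472` of `LT/T2/H472/LocCont.lean` (helper472); byte-identical
copies.  Nothing is assumed.

* `infComp_mul770`, `finComp_mul770`, `infComp_one770`, `finComp_one770`: the components are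
  multiplicative.
* `ext770`: an element of `GL₂(𝔸_K)` is determined by its components
  (`infComp w`, `finComp v`); `eq_of_local770`: two elements supported at the infinite place `w`
  with the same component at `w` are equal.
* `isLocalAtInf_mul770`, `isLocalAtInf_one770`.
* `exists_archPosScalar770`: the positive real scalar `r` at ONE infinite place exists as an
  element of `GL₂(𝔸_K)` (`extensionEmbedding` is onto `ℝ`, resp. `ℂ`).
* `diagPos_central770`: the elements of `Z⁺` (`T2.IsDiagPosScalar`) are central.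
* `cusp_diagPos_inv770`: a cusp function (in fact any function right invariant under the positive
  scalars at each infinite place) is right invariant under `Z⁺`.
-/

set_option autoImplicit false
set_option linter.unusedSectionVars false

open IsDedekindDomain NumberField

noncomputable section

namespace Fermat.Agent.LT.T2.H770

open Fermat.Agent.LT.H556.A0 Fermat.Agent.LT.T2 Fermat.Agent.LT.T2.H472

variable {K : Type} [Field K] [NumberField K]

attribute [local instance] Classical.propDecidable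

/-! ## 1. Multiplicativity of the components -/

theorem infComp_mul770 (w : InfinitePlace K) (g h : G K) :
    infComp w (g * h) = infComp w g * infComp w h := by
  rw [infComp_eq472, infComp_eq472, infComp_eq472, Units.val_mul, map_mul]

theorem infComp_one770 (w : InfinitePlace K) : infComp w (1 : G K) = 1 := by
  rw [infComp_eq472, Units.val_one, map_one]

theorem finComp_mul770 (v : HeightOneSpectrum (𝓞 K)) (g h : G K) :
    finComp v (g * h) = finComp v g * finComp v h := by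
  rw [finComp_eq472, finComp_eq472, finComp_eq472, Units.val_mul, map_mul]

theorem finComp_one770 (v : HeightOneSpectrum (𝓞 K)) : finComp v (1 : G K) = 1 := by
  rw [finComp_eq472, Units.val_one, map_one]

theorem infComp_mul_inv770 (w : InfinitePlace K) (g : G K) :
    infComp w g * infComp w g⁻¹ = 1 := by
  rw [← infComp_mul770, mul_inv_cancel, infComp_one770]

theorem infComp_inv_mul770 (w : InfinitePlace K) (g : G K) :
    infComp w g⁻¹ * infComp w g = 1 := by
  rw [← infComp_mul770, inv_mul_cancel, infComp_one770]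

/-- The complex component of an element which is trivial at `w`. -/
theorem infComp_of_trivAtInf770 {w : InfinitePlace K} {g : G K} (h : TrivAtInf w g) :
    infComp w g = 1 := by
  rw [infComp_eq472]
  have h1 := (trivAtInf_iff472 w g).1 h
  have h2 : (cC472 w).mapMatrix (g : Matrix (Fin 2) (Fin 2) (Adl K))
      = (InfinitePlace.Completion.extensionEmbedding w).mapMatrix
        ((cInf472 w).mapMatrix (g : Matrix (Fin 2) (Fin 2) (Adl K))) := by
    ext i j
    rfl
  rw [h2, h1, map_one]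

theorem trivAtInf_of_infComp770 {w : InfinitePlace K} {g : G K} (h : infComp w g = 1) :
    TrivAtInf w g := by
  intro i j
  apply (InfinitePlace.Completion.extensionEmbedding w).injective
  have h1 : InfinitePlace.Completion.extensionEmbedding w
      (((g : Matrix (Fin 2) (Fin 2) (Adl K)) i j).1 w) = (1 : Matrix (Fin 2) (Fin 2) ℂ) i j :=
    congrFun (congrFun h i) j
  rw [h1]
  by_cases hij : i = j
  · subst hij
    rw [Matrix.one_apply_eq, Matrix.one_apply_eq, map_one]
  · rw [Matrix.one_apply_ne hij, Matrix.one_apply_ne hij, map_zero]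

/-! ## 2. Extensionality -/

/-- An element of `GL₂(𝔸_K)` is determined by its components. -/
theorem ext770 {g h : G K} (hinf : ∀ w : InfinitePlace K, infComp w g = infComp w h)
    (hfin : ∀ v : HeightOneSpectrum (𝓞 K), finComp v g = finComp v h) : g = h := by
  apply Units.ext
  refine Matrix.ext fun i j => ?_
  apply Prod.ext
  · funext w
    apply (InfinitePlace.Completion.extensionEmbedding w).injective
    exact congrFun (congrFun (hinf w) i) j
  · refine FiniteAdeleRing.ext K fun v => ?_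
    exact congrFun (congrFun (hfin v) i) j

theorem isLocalAtInf_one770 (w : InfinitePlace K) : IsLocalAtInf w (1 : G K) :=
  ⟨fun w' _ => trivAtInf_of_infComp770 (infComp_one770 w'), fun v => finComp_one770 v⟩

theorem isLocalAtInf_mul770 {w : InfinitePlace K} {g h : G K} (hg : IsLocalAtInf w g)
    (hh : IsLocalAtInf w h) : IsLocalAtInf w (g * h) := by
  refine ⟨fun w' hw' => trivAtInf_of_infComp770 ?_, fun v => ?_⟩
  · rw [infComp_mul770, infComp_of_trivAtInf770 (hg.1 w' hw'),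
      infComp_of_trivAtInf770 (hh.1 w' hw'), one_mul]
  · show finComp v (g * h) = 1
    rw [finComp_mul770, show finComp v g = 1 from hg.2 v, show finComp v h = 1 from hh.2 v,
      one_mul]

/-- Two elements supported at `w` with the same component at `w` are equal. -/
theorem eq_of_local770 {w : InfinitePlace K} {g h : G K} (hg : IsLocalAtInf w g)
    (hh : IsLocalAtInf w h) (hc : infComp w g = infComp w h) : g = h := by
  refine ext770 (fun w' => ?_) fun v => ?_
  · by_cases hw' : w' = w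
    · subst hw'
      exact hc
    · rw [infComp_of_trivAtInf770 (hg.1 w' hw'), infComp_of_trivAtInf770 (hh.1 w' hw')]
  · rw [show finComp v g = 1 from hg.2 v, show finComp v h = 1 from hh.2 v]

/-! ## 3. The positive real scalars at one infinite place -/

/-- Every real number is a value of `extensionEmbedding w`. -/
theorem exists_real_completion770 (w : InfinitePlace K) (r : ℝ) :
    ∃ x : w.Completion, InfinitePlace.Completion.extensionEmbedding w x = (r : ℂ) := by
  rcases w.isReal_or_isComplex with hw | hw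
  · obtain ⟨x, hx⟩ := InfinitePlace.Completion.surjective_extensionEmbeddingOfIsReal hw r
    refine ⟨x, ?_⟩
    rw [← InfinitePlace.Completion.extensionEmbeddingOfIsReal_apply hw, hx]
  · exact InfinitePlace.Completion.surjective_extensionEmbedding_of_isComplex hw r

/-- The adele which is `x` at the infinite place `w` and `1` at every other place. -/
def cAd770 (w : InfinitePlace K) (x : w.Completion) : Adl K :=
  ((Pi.mulSingle w x : InfiniteAdeleRing K), (1 : FiniteAdeleRing (𝓞 K) K))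

theorem cAd770_mul (w : InfinitePlace K) (x y : w.Completion) :
    cAd770 w x * cAd770 w y = cAd770 w (x * y) := by
  apply Prod.ext
  · show Pi.mulSingle w x * Pi.mulSingle w y = Pi.mulSingle w (x * y)
    rw [← Pi.mulSingle_mul]
  · show (1 : FiniteAdeleRing (𝓞 K) K) * 1 = 1
    rw [one_mul]

theorem cAd770_one (w : InfinitePlace K) : cAd770 w 1 = 1 := by
  apply Prod.ext
  · show Pi.mulSingle w (1 : w.Completion) = 1
    rw [Pi.mulSingle_one]
  · rfl

/-- The idele which is `x ≠ 0` at the infinite place `w` and `1` at every other place. -/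
def cId770 (w : InfinitePlace K) (x : w.Completion) (hx : x ≠ 0) : (Adl K)ˣ where
  val := cAd770 w x
  inv := cAd770 w x⁻¹
  val_inv := by rw [cAd770_mul, mul_inv_cancel₀ hx, cAd770_one]
  inv_val := by rw [cAd770_mul, inv_mul_cancel₀ hx, cAd770_one]

/-- The scalar matrix `x` at the infinite place `w`, identity elsewhere. -/
def zSc770 (w : InfinitePlace K) (x : w.Completion) (hx : x ≠ 0) : G K :=
  Units.map (Matrix.scalar (Fin 2) : Adl K →+* Matrix (Fin 2) (Fin 2) (Adl K)).toMonoidHom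
    (cId770 w x hx)

theorem zSc770_apply (w : InfinitePlace K) (x : w.Completion) (hx : x ≠ 0) (i j : Fin 2) :
    ((zSc770 w x hx : G K) : Matrix (Fin 2) (Fin 2) (Adl K)) i j
      = if i = j then cAd770 w x else 0 := by
  have h : ((zSc770 w x hx : G K) : Matrix (Fin 2) (Fin 2) (Adl K))
      = Matrix.diagonal (fun _ => cAd770 w x) := rfl
  rw [h, Matrix.diagonal_apply]

theorem isLocalAtInf_zSc770 (w : InfinitePlace K) (x : w.Completion) (hx : x ≠ 0) :
    IsLocalAtInf w (zSc770 w x hx) := by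
  refine ⟨fun w' hw' i j => ?_, fun v => ?_⟩
  · rw [zSc770_apply]
    by_cases hij : i = j
    · rw [if_pos hij, hij, Matrix.one_apply_eq]
      show (Pi.mulSingle w x : InfiniteAdeleRing K) w' = 1
      rw [Pi.mulSingle_eq_of_ne hw']
    · rw [if_neg hij, Matrix.one_apply_ne hij]
      rfl
  · show finComp v (zSc770 w x hx) = 1
    refine Matrix.ext fun i j => ?_
    show (((zSc770 w x hx : G K) : Matrix (Fin 2) (Fin 2) (Adl K)) i j).2 v = _
    rw [zSc770_apply]
    by_cases hij : i = j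
    · rw [if_pos hij, hij, Matrix.one_apply_eq]
      rfl
    · rw [if_neg hij, Matrix.one_apply_ne hij]
      rfl

theorem infComp_zSc770 (w : InfinitePlace K) (x : w.Completion) (hx : x ≠ 0) :
    infComp w (zSc770 w x hx)
      = Matrix.diagonal (fun _ => InfinitePlace.Completion.extensionEmbedding w x) := by
  refine Matrix.ext fun i j => ?_
  show InfinitePlace.Completion.extensionEmbedding w
    ((((zSc770 w x hx : G K) : Matrix (Fin 2) (Fin 2) (Adl K)) i j).1 w) = _
  rw [zSc770_apply, Matrix.diagonal_apply]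
  by_cases hij : i = j
  · rw [if_pos hij, if_pos hij]
    show InfinitePlace.Completion.extensionEmbedding w ((Pi.mulSingle w x : InfiniteAdeleRing K) w)
      = _
    rw [Pi.mulSingle_eq_same]
  · rw [if_neg hij, if_neg hij]
    show InfinitePlace.Completion.extensionEmbedding w (0 : w.Completion) = 0
    exact map_zero _

/-- The positive real scalar `r` at the infinite place `w` exists in `GL₂(𝔸_K)`. -/
theorem exists_archPosScalar770 (w : InfinitePlace K) (r : ℝ) (hr : 0 < r) :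
    ∃ s : G K, IsArchPosScalar w s ∧ infComp w s = Matrix.diagonal (fun _ => (r : ℂ)) := by
  obtain ⟨x, hx⟩ := exists_real_completion770 w r
  have hx0 : x ≠ 0 := by
    rintro rfl
    rw [map_zero] at hx
    have : (r : ℂ) ≠ 0 := by exact_mod_cast hr.ne'
    exact this hx.symm
  have hc : infComp w (zSc770 w x hx0) = Matrix.diagonal (fun _ => (r : ℂ)) := by
    rw [infComp_zSc770, hx]
  exact ⟨zSc770 w x hx0, ⟨isLocalAtInf_zSc770 w x hx0, r, hr, hc⟩, hc⟩

/-! ## 4. The group `Z⁺` -/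

theorem diagonal_const_mul770 (c : ℂ) (M : Matrix (Fin 2) (Fin 2) ℂ) :
    Matrix.diagonal (fun _ => c) * M = M * Matrix.diagonal (fun _ => c) := by
  ext i j
  rw [Matrix.diagonal_mul, Matrix.mul_diagonal, mul_comm]

/-- The elements of `Z⁺` are central. -/
theorem diagPos_central770 {z : G K} (hz : IsDiagPosScalar z) (g : G K) : g * z = z * g := by
  obtain ⟨hfin, r, -, hr⟩ := hz
  refine ext770 (fun w => ?_) fun v => ?_
  · rw [infComp_mul770, infComp_mul770, hr w, diagonal_const_mul770]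
  · rw [finComp_mul770, finComp_mul770, show finComp v z = 1 from hfin v, one_mul, mul_one]

/-- A function which is right invariant under the positive scalars at each infinite place is
right invariant under `Z⁺`. -/
theorem diagPos_inv_of_arch770 {φ : G K → ℂ}
    (hφ : ∀ (w : InfinitePlace K) (z : G K), IsArchPosScalar w z → ∀ g : G K, φ (g * z) = φ g)
    {z : G K} (hz : IsDiagPosScalar z) (g : G K) : φ (g * z) = φ g := by
  classical
  obtain ⟨hfin, r, hr0, hr⟩ := hz
  have key : ∀ S : Finset (InfinitePlace K), ∀ z' : G K,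
      (∀ v : HeightOneSpectrum (𝓞 K), finComp v z' = 1) →
      (∀ w ∈ S, infComp w z' = Matrix.diagonal (fun _ => (r : ℂ))) →
      (∀ w ∉ S, infComp w z' = 1) → ∀ g : G K, φ (g * z') = φ g := by
    intro S
    induction S using Finset.induction_on with
    | empty =>
      intro z' h1 _ h3 g
      have : z' = 1 := by
        refine ext770 (fun w => ?_) fun v => ?_
        · rw [h3 w (Finset.notMem_empty w), infComp_one770]
        · rw [h1 v, finComp_one770]
      rw [this, mul_one]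
    | insert w₀ S hw₀ ih =>
      intro z' h1 h2 h3 g
      obtain ⟨s, hs, hsc⟩ := exists_archPosScalar770 w₀ r hr0
      have hsl : IsLocalAtInf w₀ s := hs.1
      have hsl' : IsLocalAtInf w₀ s⁻¹ := isLocalAtInf_inv472 hsl
      have hz'' : φ (g * (z' * s⁻¹)) = φ g := by
        refine ih (z' * s⁻¹) (fun v => ?_) (fun w hw => ?_) (fun w hw => ?_) g
        · rw [finComp_mul770, h1 v, show finComp v s⁻¹ = 1 from hsl'.2 v, one_mul]
        · have hne : w ≠ w₀ := fun h => hw₀ (h ▸ hw)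
          rw [infComp_mul770, h2 w (Finset.mem_insert_of_mem hw),
            infComp_of_trivAtInf770 (hsl'.1 w hne), mul_one]
        · by_cases hne : w = w₀
          · subst hne
            rw [infComp_mul770, h2 w (Finset.mem_insert_self w S), ← hsc, infComp_mul_inv770]
          · have hw' : w ∉ insert w₀ S := by
              rw [Finset.mem_insert]
              rintro (h | h)
              · exact hne h
              · exact hw h
            rw [infComp_mul770, h3 w hw', infComp_of_trivAtInf770 (hsl'.1 w hne), one_mul]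
      have e : g * z' = g * (z' * s⁻¹) * s := by group
      rw [e, hφ w₀ s hs, hz'']
  exact key Finset.univ z hfin (fun w _ => hr w) (fun w hw => absurd (Finset.mem_univ w) hw) g

/-- A cusp function is right invariant under `Z⁺`. -/
theorem cusp_diagPos_inv770 {𝔫 : Ideal (𝓞 K)} {φ : G K → ℂ} (hφ : IsCuspFn 𝔫 φ) {z : G K}
    (hz : IsDiagPosScalar z) (g : G K) : φ (g * z) = φ g :=
  diagPos_inv_of_arch770 hφ.arch_scalar hz g

end Fermat.Agent.LT.T2.H770

end

end
-- ===== PACK-END LT/T2/H770/Comp.lean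

-- ===== PACK-BEGIN LT/T2/H510/Leaf04.lean
section



/-!
# Row LT, tower T2, leaf T2.04 (`GPS ⇒ HSBound`, `GPSKill ⇒ HSKill`) — helper510, OFF-MAIN

`leaf04_h510 : T2.Leaf04 K`, verbatim against `LT/T2/Spec.lean` v3 (helper130, sha256 b934629a).

Proof (Bessel at a point, then integrate): for an orthonormal family `φ₁, …, φ_n` of cusp
(resp. automorphic) functions and a point `x`, put `a_i = (R(f) φ_i)(x)` and
`ψ = ∑ conj(a_i) φ_i`.  Then `ψ` is a cusp (resp. automorphic) function,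
`(R(f) ψ)(x) = ∑ |a_i|²` and `‖ψ‖² = ∑ |a_i|²`, so the estimate for `ψ` gives `∑ |a_i|² ≤ C²`.
Integrating over the fundamental domain `D` of finite measure: `∑ ‖R(f) φ_i‖² ≤ C² μ(D)`.

Used from `T1.T1Out`: `LocCompC` (`GL₂(𝔸_K)` locally compact, Hausdorff, second countable:
`R(f) φ` is continuous) and `AddFundDomC` (fundamental domains of `K` in `𝔸_K` have finite
measure: the constant term is linear on bounded continuous functions).
-/

set_option autoImplicit false
set_option linter.style.haveILetI false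

open IsDedekindDomain NumberField MeasureTheory AutomorphicForm
open Fermat.Agent.LT.H556.A0

noncomputable section

namespace Fermat.Agent.LT.T2.H510

open Fermat.Agent.LT

attribute [local instance] Fermat.Agent.LT.T2.borelG

variable {K : Type} [Field K] [NumberField K]

/-! ## 1. Bessel at a point -/

/-- If the combination with the conjugate coefficients is bounded by `C` times its `ℓ²` norm,
then the sum of the squares is at most `C²`. -/
theorem sum_sq_le_h510 {n : ℕ} (a : Fin n → ℂ) (C : ℝ) (hC : 0 ≤ C)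
    (h : ‖∑ i, (starRingEnd ℂ) (a i) * a i‖ ≤ C * Real.sqrt (∑ i, ‖a i‖ ^ 2)) :
    ∑ i, ‖a i‖ ^ 2 ≤ C ^ 2 := by
  set S := ∑ i, ‖a i‖ ^ 2 with hS
  have hS0 : 0 ≤ S := Finset.sum_nonneg fun i _ => by positivity
  have h1 : (∑ i, (starRingEnd ℂ) (a i) * a i) = ((S : ℝ) : ℂ) := by
    rw [hS]
    push_cast
    refine Finset.sum_congr rfl fun i _ => ?_
    rw [mul_comm, Complex.mul_conj, Complex.normSq_eq_norm_sq]
    push_cast
    rfl
  rw [h1, Complex.norm_real, Real.norm_of_nonneg hS0] at h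
  by_cases hz : S = 0
  · rw [hz]; positivity
  · have hpos : 0 < S := lt_of_le_of_ne hS0 (Ne.symm hz)
    have hsq : Real.sqrt S * Real.sqrt S = S := Real.mul_self_sqrt hS0
    have hsp : 0 < Real.sqrt S := Real.sqrt_pos.mpr hpos
    have hle : Real.sqrt S ≤ C := by
      refine le_of_not_gt fun hlt => ?_
      have : C * Real.sqrt S < Real.sqrt S * Real.sqrt S := by nlinarith
      linarith
    calc S = Real.sqrt S * Real.sqrt S := hsq.symm
      _ ≤ C * C := by nlinarith
      _ = C ^ 2 := by ring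

/-! ## 2. Topology and measurability on `GL₂(𝔸_K)` -/

/-- `GL₂(𝔸_K)` with its Borel `σ`-algebra is a Borel space. -/
theorem borelSpaceG_h510 : BorelSpace (G K) := ⟨rfl⟩

attribute [local instance] borelSpaceG_h510

/-- The slab is a Borel set. -/
theorem measurableSet_slab_h510 (hN : T1.AdNormC K) : MeasurableSet (T1.slab K) := by
  have hc : Continuous fun g : G K =>
      T1.adNorm K ((Matrix.GeneralLinearGroup.det g : (Adl K)ˣ) : Adl K) :=
    hN.2.2.2.comp Matrix.GeneralLinearGroup.continuous_det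
  have hs : T1.slab K = (fun g : G K =>
      T1.adNorm K ((Matrix.GeneralLinearGroup.det g : (Adl K)ˣ) : Adl K)) ⁻¹' Set.Ico 1 2 := by
    ext g
    exact Iff.rfl
  rw [hs]
  exact hc.measurable measurableSet_Ico

/-- A number field is countable. -/
theorem countable_field_h510 (K : Type) [Field K] [NumberField K] : Countable K :=
  Finsupp.Countable.of_moduleFinite (R := ℚ) (M := K)

/-- The principal adeles are countable. -/
theorem countable_princ_h510 (K : Type) [Field K] [NumberField K] : Countable (T1.princ K) := by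
  have : Countable K := countable_field_h510 K
  have hs : Function.Surjective ((algebraMap K (Adl K)).toAddMonoidHom.rangeRestrict) :=
    AddMonoidHom.rangeRestrict_surjective _
  exact hs.countable

/-- A family of upper unipotent elements `n(x) = [[1, x], [0, 1]]` is continuous in `x`. -/
theorem continuous_unip_h510 (u : Adl K → G K)
    (hu : ∀ x : Adl K, (u x : Matrix (Fin 2) (Fin 2) (Adl K)) = !![1, x; 0, 1]) :
    Continuous u := by
  rw [Units.continuous_iff]
  constructor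
  · have h : (Units.val ∘ u) = fun x : Adl K => !![1, x; 0, 1] := funext hu
    rw [h]
    refine continuous_matrix fun i j => ?_
    fin_cases i <;> fin_cases j <;> simp <;> fun_prop
  · have h : (fun x => ((u x)⁻¹ : G K).val) = fun x : Adl K => !![1, -x; 0, 1] := by
      funext x
      have h1 : (u x : Matrix (Fin 2) (Fin 2) (Adl K)) * !![1, -x; 0, 1] = 1 := by
        rw [hu x]
        ext i j
        fin_cases i <;> fin_cases j <;> simp [Matrix.mul_apply, Fin.sum_univ_two]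
      exact Units.inv_eq_of_mul_eq_one_right h1
    rw [h]
    refine continuous_matrix fun i j => ?_
    fin_cases i <;> fin_cases j <;> simp <;> fun_prop

/-! ## 3. Linear combinations of cusp functions -/

/-- The constant term is linear on bounded continuous functions (the fundamental domains of `K`
in `𝔸_K` have finite measure). -/
theorem isCuspidalFn_sum_h510 (hT1 : T1.T1Out K) {n : ℕ} (c : Fin n → ℂ)
    (φ : Fin n → G K → ℂ) (hcont : ∀ i, Continuous (φ i))
    (hbdd : ∀ i, ∃ C : ℝ, ∀ g : G K, ‖φ i g‖ ≤ C) (hcusp : ∀ i, IsCuspidalFn (φ i)) :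
    IsCuspidalFn (fun g => ∑ i, c i * φ i g) := by
  letI : MeasurableSpace (Adl K) := borel (Adl K)
  haveI : BorelSpace (Adl K) := ⟨rfl⟩
  intro μ hμ D hD u hu g
  haveI := hμ
  obtain ⟨D₀, -, hD₀, -, -, hfin⟩ := hT1.addFundDom μ hμ
  haveI : Countable (T1.princ K) := countable_princ_h510 K
  have hDfin : μ D ≠ ⊤ := by
    have h : μ D = μ D₀ := IsAddFundamentalDomain.measure_eq (G := T1.princ K) hD hD₀
    rw [h]
    exact hfin.ne
  have hucont : Continuous fun x => u x * g :=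
    (continuous_unip_h510 u hu).mul continuous_const
  have hint : ∀ i, IntegrableOn (fun x => φ i (u x * g)) D μ := by
    intro i
    obtain ⟨C, hC⟩ := hbdd i
    exact Measure.integrableOn_of_bounded hDfin
      ((hcont i).comp hucont).aestronglyMeasurable (Filter.Eventually.of_forall fun x => hC _)
  calc ∫ x in D, ∑ i, c i * φ i (u x * g) ∂μ
      = ∑ i, ∫ x in D, c i * φ i (u x * g) ∂μ :=
        integral_finsetSum _ fun i _ => (hint i).const_mul (c i)
    _ = ∑ i, c i * ∫ x in D, φ i (u x * g) ∂μ := by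
        refine Finset.sum_congr rfl fun i _ => ?_
        exact integral_const_mul (c i) _
    _ = 0 := by
        refine Finset.sum_eq_zero fun i _ => ?_
        rw [hcusp i μ hμ D hD u hu g, mul_zero]

/-- A finite linear combination of cusp functions is a cusp function. -/
theorem isCuspFn_sum_h510 (hT1 : T1.T1Out K) (𝔫 : Ideal (𝓞 K)) {n : ℕ} (c : Fin n → ℂ)
    (φ : Fin n → G K → ℂ) (hφ : ∀ i, T2.IsCuspFn 𝔫 (φ i)) :
    T2.IsCuspFn 𝔫 (fun g => ∑ i, c i * φ i g) where
  cont := continuous_finsetSum _ fun i _ => continuous_const.mul (hφ i).cont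
  bdd := by
    choose C hC using fun i => (hφ i).bdd
    refine ⟨∑ i, ‖c i‖ * C i, fun g => ?_⟩
    calc ‖∑ i, c i * φ i g‖ ≤ ∑ i, ‖c i * φ i g‖ := norm_sum_le _ _
      _ ≤ ∑ i, ‖c i‖ * C i := Finset.sum_le_sum fun i _ => by
          rw [norm_mul]
          exact mul_le_mul_of_nonneg_left (hC i g) (norm_nonneg _)
  left_inv := fun γ g =>
    Finset.sum_congr rfl fun i _ => by rw [(hφ i).left_inv γ g]
  level_inv := fun u hu g =>
    Finset.sum_congr rfl fun i _ => by rw [(hφ i).level_inv u hu g]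
  arch_scalar := fun w z hz g =>
    Finset.sum_congr rfl fun i _ => by rw [(hφ i).arch_scalar w z hz g]
  arch_compact := fun w k hk g =>
    Finset.sum_congr rfl fun i _ => by rw [(hφ i).arch_compact w k hk g]
  cuspidal := isCuspidalFn_sum_h510 hT1 c φ (fun i => (hφ i).cont) (fun i => (hφ i).bdd)
    (fun i => (hφ i).cuspidal)

/-- A finite linear combination of automorphic functions is an automorphic function. -/
theorem isAutFn_sum_h510 (𝔫 : Ideal (𝓞 K)) {n : ℕ} (c : Fin n → ℂ)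
    (φ : Fin n → G K → ℂ) (hφ : ∀ i, T2.IsAutFn 𝔫 (φ i)) :
    T2.IsAutFn 𝔫 (fun g => ∑ i, c i * φ i g) where
  cont := continuous_finsetSum _ fun i _ => continuous_const.mul (hφ i).cont
  bdd := by
    choose C hC using fun i => (hφ i).bdd
    refine ⟨∑ i, ‖c i‖ * C i, fun g => ?_⟩
    calc ‖∑ i, c i * φ i g‖ ≤ ∑ i, ‖c i * φ i g‖ := norm_sum_le _ _
      _ ≤ ∑ i, ‖c i‖ * C i := Finset.sum_le_sum fun i _ => by
          rw [norm_mul]
          exact mul_le_mul_of_nonneg_left (hC i g) (norm_nonneg _)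
  left_inv := fun γ g =>
    Finset.sum_congr rfl fun i _ => by rw [(hφ i).left_inv γ g]
  level_inv := fun u hu g =>
    Finset.sum_congr rfl fun i _ => by rw [(hφ i).level_inv u hu g]
  arch_scalar := fun w z hz g =>
    Finset.sum_congr rfl fun i _ => by rw [(hφ i).arch_scalar w z hz g]
  arch_compact := fun w k hk g =>
    Finset.sum_congr rfl fun i _ => by rw [(hφ i).arch_compact w k hk g]

/-! ## 4. Integrability, linearity of the convolution, expansion of the pairing -/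

/-- The integrand of the convolution is integrable. -/
theorem integrable_conv_h510 (F : T2.Frame K) {𝔫 : Ideal (𝓞 K)}
    {f : G K → ℂ} (hf : T2.IsTestFn 𝔫 f) {φ : G K → ℂ} (hφ : Continuous φ) (x : G K) :
    Integrable (fun h => φ (x * h) * f h) F.μ := by
  haveI := F.haar
  have hcont : Continuous fun h => φ (x * h) * f h :=
    (hφ.comp (continuous_const.mul continuous_id)).mul hf.cont
  exact hcont.integrable_of_hasCompactSupport (hf.cpt.mul_left (f := fun h => φ (x * h)))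

/-- The convolution of a continuous function with a test function is continuous. -/
theorem continuous_conv_h510 (hT1 : T1.T1Out K) (F : T2.Frame K) {𝔫 : Ideal (𝓞 K)}
    {f : G K → ℂ} (hf : T2.IsTestFn 𝔫 f) {φ : G K → ℂ} (hφ : Continuous φ) :
    Continuous (T2.conv F f φ) := by
  haveI := F.haar
  haveI : LocallyCompactSpace (G K) := hT1.locComp.2.1
  haveI : T2Space (G K) := hT1.locComp.2.2.1
  haveI : SecondCountableTopology (G K) := hT1.locComp.2.2.2
  have hu : Continuous (Function.uncurry fun (x : G K) (h : G K) => φ (x * h) * f h) :=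
    (hφ.comp (continuous_fst.mul continuous_snd)).mul (hf.cont.comp continuous_snd)
  have h1 : Continuous fun x => ∫ h in tsupport f, φ (x * h) * f h ∂F.μ :=
    continuous_parametric_integral_of_continuous hu hf.cpt
  have h2 : T2.conv F f φ = fun x => ∫ h in tsupport f, φ (x * h) * f h ∂F.μ := by
    funext x
    unfold T2.conv
    refine (setIntegral_eq_integral_of_forall_compl_eq_zero fun h hh => ?_).symm
    rw [image_eq_zero_of_notMem_tsupport hh, mul_zero]
  rw [h2]
  exact h1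

/-- The convolution is linear on finite combinations of continuous functions. -/
theorem conv_sum_h510 (F : T2.Frame K) {𝔫 : Ideal (𝓞 K)}
    {f : G K → ℂ} (hf : T2.IsTestFn 𝔫 f) {n : ℕ} (c : Fin n → ℂ) (φ : Fin n → G K → ℂ)
    (hφ : ∀ i, Continuous (φ i)) (x : G K) :
    T2.conv F f (fun g => ∑ i, c i * φ i g) x = ∑ i, c i * T2.conv F f (φ i) x := by
  unfold T2.conv
  have h0 : (fun h => (∑ i, c i * φ i (x * h)) * f h)
      = fun h => ∑ i, c i * (φ i (x * h) * f h) := by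
    funext h
    rw [Finset.sum_mul]
    exact Finset.sum_congr rfl fun i _ => by ring
  rw [h0, integral_finsetSum _ fun i _ =>
    (integrable_conv_h510 F hf (hφ i) x).const_mul (c i)]
  exact Finset.sum_congr rfl fun i _ => integral_const_mul (c i) _

/-- Products of bounded continuous functions are integrable on the fundamental domain. -/
theorem integrableOn_mul_conj_h510 (F : T2.Frame K) {φ ψ : G K → ℂ} (hφ : Continuous φ)
    (hψ : Continuous ψ) (hφb : ∃ C : ℝ, ∀ g : G K, ‖φ g‖ ≤ C)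
    (hψb : ∃ C : ℝ, ∀ g : G K, ‖ψ g‖ ≤ C) :
    IntegrableOn (fun g => φ g * (starRingEnd ℂ) (ψ g)) F.D F.μ := by
  obtain ⟨C₁, h₁⟩ := hφb
  obtain ⟨C₂, h₂⟩ := hψb
  have hc : Continuous fun g => φ g * (starRingEnd ℂ) (ψ g) :=
    hφ.mul (Complex.continuous_conj.comp hψ)
  refine Measure.integrableOn_of_bounded (M := C₁ * C₂) F.fin.ne hc.aestronglyMeasurable
    (Filter.Eventually.of_forall fun g => ?_)
  rw [norm_mul, RCLike.norm_conj]
  exact mul_le_mul (h₁ g) (h₂ g) (norm_nonneg _) ((norm_nonneg _).trans (h₁ g))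

/-- The square of the norm of a combination of an orthonormal family of bounded continuous
functions. -/
theorem nsq_sum_h510 (F : T2.Frame K) {n : ℕ} (c : Fin n → ℂ) (φ : Fin n → G K → ℂ)
    (hφ : ∀ i, Continuous (φ i)) (hb : ∀ i, ∃ C : ℝ, ∀ g : G K, ‖φ i g‖ ≤ C)
    (horth : ∀ i j, T2.pair F (φ i) (φ j) = if i = j then 1 else 0) :
    T2.nsq F (fun g => ∑ i, c i * φ i g) = ∑ i, ‖c i‖ ^ 2 := by
  have hpair : T2.pair F (fun g => ∑ i, c i * φ i g) (fun g => ∑ i, c i * φ i g)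
      = ∑ i, ∑ j, c i * (starRingEnd ℂ) (c j) * T2.pair F (φ i) (φ j) := by
    unfold T2.pair
    have h0 : (fun g => (∑ i, c i * φ i g) * (starRingEnd ℂ) (∑ i, c i * φ i g))
        = fun g => ∑ i, ∑ j, c i * (starRingEnd ℂ) (c j)
            * (φ i g * (starRingEnd ℂ) (φ j g)) := by
      funext g
      rw [map_sum, Finset.sum_mul_sum]
      refine Finset.sum_congr rfl fun i _ => Finset.sum_congr rfl fun j _ => ?_
      rw [map_mul]
      ring
    rw [h0, integral_finsetSum _ fun i _ => integrable_finsetSum _ fun j _ =>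
      (integrableOn_mul_conj_h510 F (hφ i) (hφ j) (hb i) (hb j)).const_mul _]
    refine Finset.sum_congr rfl fun i _ => ?_
    rw [integral_finsetSum _ fun j _ =>
      (integrableOn_mul_conj_h510 F (hφ i) (hφ j) (hb i) (hb j)).const_mul _]
    exact Finset.sum_congr rfl fun j _ => integral_const_mul _ _
  unfold T2.nsq
  rw [hpair]
  have h1 : (∑ i, ∑ j, c i * (starRingEnd ℂ) (c j) * T2.pair F (φ i) (φ j))
      = ((∑ i, ‖c i‖ ^ 2 : ℝ) : ℂ) := by
    push_cast
    refine Finset.sum_congr rfl fun i _ => ?_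
    rw [Finset.sum_eq_single i]
    · rw [horth i i, if_pos rfl, mul_one, Complex.mul_conj, Complex.normSq_eq_norm_sq]
      push_cast
      rfl
    · intro j _ hj
      rw [horth i j, if_neg (Ne.symm hj), mul_zero]
    · intro h
      exact absurd (Finset.mem_univ i) h
  rw [h1, Complex.ofReal_re]

/-- The square of the norm as a real integral. -/
theorem nsq_eq_integral_h510 (F : T2.Frame K) (ψ : G K → ℂ) :
    T2.nsq F ψ = ∫ g in F.D, ‖ψ g‖ ^ 2 ∂F.μ := by
  unfold T2.nsq T2.pair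
  have h0 : (fun g => ψ g * (starRingEnd ℂ) (ψ g)) = fun g => (((‖ψ g‖ ^ 2 : ℝ)) : ℂ) := by
    funext g
    rw [Complex.mul_conj, Complex.normSq_eq_norm_sq]
  rw [h0, integral_complex_ofReal, Complex.ofReal_re]

/-! ## 5. The leaf -/

/-- **The abstract step**: a pointwise estimate `|R(f)φ(x)| ≤ C₀ ‖φ‖₂` on a class `P` of bounded
continuous functions which is closed under finite linear combinations gives the
Hilbert--Schmidt bound `∑ ‖R(f) φ_i‖² ≤ max(C₀,0)² μ(D)` for orthonormal families in `P`. -/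
theorem hs_of_pointwise_h510 (hT1 : T1.T1Out K) {𝔫 : Ideal (𝓞 K)} (F : T2.Frame K)
    {f : G K → ℂ} (hf : T2.IsTestFn 𝔫 f) (P : (G K → ℂ) → Prop)
    (hPc : ∀ φ, P φ → Continuous φ) (hPb : ∀ φ, P φ → ∃ C : ℝ, ∀ g : G K, ‖φ g‖ ≤ C)
    (hPs : ∀ (n : ℕ) (c : Fin n → ℂ) (φ : Fin n → G K → ℂ), (∀ i, P (φ i)) →
      P (fun g => ∑ i, c i * φ i g))
    (C₀ : ℝ) (hC₀ : ∀ φ : G K → ℂ, P φ →
      ∀ x : G K, ‖T2.conv F f φ x‖ ≤ C₀ * Real.sqrt (T2.nsq F φ))
    (n : ℕ) (φ : Fin n → G K → ℂ) (hφ : ∀ i, P (φ i))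
    (horth : ∀ i j, T2.pair F (φ i) (φ j) = if i = j then 1 else 0) :
    ∑ i, T2.nsq F (T2.conv F f (φ i)) ≤ (max C₀ 0) ^ 2 * (F.μ F.D).toReal := by
  -- Bessel at a point
  have hpt : ∀ x : G K, ∑ i, ‖T2.conv F f (φ i) x‖ ^ 2 ≤ (max C₀ 0) ^ 2 := by
    intro x
    set a : Fin n → ℂ := fun i => T2.conv F f (φ i) x with ha
    refine sum_sq_le_h510 a (max C₀ 0) (le_max_right _ _) ?_
    have h1 := hC₀ _ (hPs n (fun i => (starRingEnd ℂ) (a i)) φ hφ) x
    rw [conv_sum_h510 F hf _ φ (fun i => hPc _ (hφ i)) x,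
      nsq_sum_h510 F _ φ (fun i => hPc _ (hφ i)) (fun i => hPb _ (hφ i)) horth] at h1
    have h2 : (∑ i, ‖(starRingEnd ℂ) (a i)‖ ^ 2) = ∑ i, ‖a i‖ ^ 2 :=
      Finset.sum_congr rfl fun i _ => by rw [RCLike.norm_conj]
    rw [h2] at h1
    exact h1.trans (mul_le_mul_of_nonneg_right (le_max_left _ _) (Real.sqrt_nonneg _))
  -- integrability of the squares
  have hint : ∀ i, IntegrableOn (fun g => ‖T2.conv F f (φ i) g‖ ^ 2) F.D F.μ := by
    intro i
    have hc : Continuous fun g => ‖T2.conv F f (φ i) g‖ ^ 2 :=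
      ((continuous_conv_h510 hT1 F hf (hPc _ (hφ i))).norm).pow 2
    refine Measure.integrableOn_of_bounded
      (M := (C₀ * Real.sqrt (T2.nsq F (φ i))) ^ 2) F.fin.ne hc.aestronglyMeasurable
      (Filter.Eventually.of_forall fun g => ?_)
    rw [Real.norm_of_nonneg (by positivity)]
    exact pow_le_pow_left₀ (norm_nonneg _) (hC₀ _ (hφ i) g) 2
  calc ∑ i, T2.nsq F (T2.conv F f (φ i))
      = ∑ i, ∫ g in F.D, ‖T2.conv F f (φ i) g‖ ^ 2 ∂F.μ :=
        Finset.sum_congr rfl fun i _ => nsq_eq_integral_h510 F _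
    _ = ∫ g in F.D, ∑ i, ‖T2.conv F f (φ i) g‖ ^ 2 ∂F.μ :=
        (integral_finsetSum _ fun i _ => hint i).symm
    _ ≤ ∫ _ in F.D, (max C₀ 0) ^ 2 ∂F.μ :=
        setIntegral_mono (integrable_finsetSum _ fun i _ => hint i)
          (integrableOn_const F.fin.ne) hpt
    _ = (max C₀ 0) ^ 2 * (F.μ F.D).toReal := by
        rw [setIntegral_const, smul_eq_mul, mul_comm]
        rfl

/-- **T2.04**: `GPS ⇒ HSBound` and `GPSKill ⇒ HSKill`. -/
theorem leaf04_h510 (K : Type) [Field K] [NumberField K] : T2.Leaf04 K := by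
  intro hT1 𝔫 _
  refine ⟨fun hG F f hf => ?_, fun hG F f hf hkill => ?_⟩
  · obtain ⟨C₀, hC₀⟩ := hG F f hf
    exact ⟨(max C₀ 0) ^ 2 * (F.μ F.D).toReal, fun n φ hφ horth =>
      hs_of_pointwise_h510 hT1 F hf (T2.IsCuspFn 𝔫) (fun _ h => h.cont) (fun _ h => h.bdd)
        (fun n c φ hφ => isCuspFn_sum_h510 hT1 𝔫 c φ hφ) C₀ hC₀ n φ hφ horth⟩
  · obtain ⟨C₀, hC₀⟩ := hG F f hf hkill
    exact ⟨(max C₀ 0) ^ 2 * (F.μ F.D).toReal, fun n φ hφ horth =>
      hs_of_pointwise_h510 hT1 F hf (T2.IsAutFn 𝔫) (fun _ h => h.cont) (fun _ h => h.bdd)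
        (fun n c φ hφ => isAutFn_sum_h510 𝔫 c φ hφ) C₀ hC₀ n φ hφ horth⟩

end Fermat.Agent.LT.T2.H510

end

end
-- ===== PACK-END LT/T2/H510/Leaf04.lean

-- ===== PACK-BEGIN LT/T6/H219/LocalC1.lean
section






/-!
# T6.00q.6 `LocalCC438` (cut of helper438), part 1: the conditions at infinity and at the primes
`p ≡ 2 mod 3` (helper219, spare prover).
-/

set_option autoImplicit false

namespace Fermat.Agent.LT.T6.H219

open IsDedekindDomain HeightOneSpectrum WithZero NumberField Fermat.Agent.LT.T6.H438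

variable {L M : Type} [Field L] [NumberField L] [Field M] [NumberField M] [Algebra L M]

theorem exists_root219 (hp : IsQ3Pair438 L M) :
    ∃ r : M, r ^ 2 = -3 ∧ ∀ s : L, algebraMap L M s ≠ r := by
  obtain ⟨r, hr⟩ := hp.root
  refine ⟨r, hr, fun s hs => hp.noRoot s ?_⟩
  apply (algebraMap L M).injective
  rw [map_pow, hs, hr, map_neg, map_ofNat]

/-- the local hypothesis at a finite place in the form `a² + 3b²`. -/
theorem n3_of_locNormFin219 (hp : IsQ3Pair438 L M) (x : L) (h : IsLocNormFin438 L M x)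
    (v : HeightOneSpectrum (𝓞 L)) :
    ∃ a b : v.adicCompletion L, a ^ 2 + 3 * b ^ 2 = algebraMap L (v.adicCompletion L) x := by
  obtain ⟨r, hr, hrL⟩ := exists_root219 hp
  obtain ⟨y, hy⟩ := h v
  obtain ⟨a, b, hab⟩ := norm_tensor_eq219 hp.degM r hr hrL (v.adicCompletion L) y
  exact ⟨a, b, by rw [← hab, hy]⟩

/-- the local hypothesis at an infinite place in the form `a² + 3b²`. -/
theorem n3_of_locNormInf219 (hp : IsQ3Pair438 L M) (x : L) (h : IsLocNormInf438 L M x)
    (u : InfinitePlace L) :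
    ∃ a b : u.Completion, a ^ 2 + 3 * b ^ 2 = algebraMap L u.Completion x := by
  obtain ⟨r, hr, hrL⟩ := exists_root219 hp
  obtain ⟨y, hy⟩ := h u
  obtain ⟨a, b, hab⟩ := norm_tensor_eq219 hp.degM r hr hrL u.Completion y
  exact ⟨a, b, by rw [← hab, hy]⟩

/-- **LOCAL-C at infinity.** -/
theorem localC_atInf219 (hp : IsQ3Pair438 L M) (d : ℤ) (δ : L) (hd : Squarefree d) (hd1 : d ≠ 1)
    (hδ : δ ^ 2 = (d : L)) (c : ℚ) (hc : c ≠ 0)
    (hinf : IsLocNormInf438 L M (algebraMap ℚ L c)) (hpos : 0 < d) : 0 < c := by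
  obtain ⟨u, hu⟩ := exists_real_place219 hp.degL d hd hd1 δ hδ hpos
  obtain ⟨a, b, hab⟩ := n3_of_locNormInf219 hp _ hinf u
  exact lt_of_le_of_ne (nonneg_of_n3_real219 u hu c a b hab) (Ne.symm hc)

/-- A split prime gives an embedding into `ℚ_p`. -/
theorem exists_padic_embedding219 (hp : IsQ3Pair438 L M) (d : ℤ) (δ : L) (hd : Squarefree d)
    (hd1 : d ≠ 1) (hδ : δ ^ 2 = (d : L)) (p : ℕ) [Fact p.Prime] (hs : Splits438 d p) :
    Nonempty (L →ₐ[ℚ] ℚ_[p]) := by
  have hz : ∃ z : ℤ_[p], z ^ 2 = (d : ℤ_[p]) := by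
    rcases hs with ⟨h2, h8⟩ | ⟨h2, hnd, hsq⟩
    · subst h2
      exact exists_padic_sqrt_two219 d h8
    · exact exists_padic_sqrt_odd219 p h2 d hnd hsq
  obtain ⟨z, hz⟩ := hz
  apply exists_algHom_of_sqrt219 hp.degL d hd hd1 δ hδ ℚ_[p] (z : ℚ_[p])
  have := congrArg (fun t : ℤ_[p] => (t : ℚ_[p])) hz
  simpa using this

/-- **LOCAL-C at the primes `p ≡ 2 mod 3`.** -/
theorem localC_atInert219 (hp : IsQ3Pair438 L M) (d : ℤ) (δ : L) (hd : Squarefree d)
    (hd1 : d ≠ 1) (hδ : δ ^ 2 = (d : L)) (c : ℚ) (hc : c ≠ 0)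
    (hfin : IsLocNormFin438 L M (algebraMap ℚ L c)) (p : ℕ) (hpp : p.Prime) (hp3 : p % 3 = 2)
    (hodd : Odd (padicValRat p c)) : ¬ Splits438 d p := by
  intro hs
  have : Fact p.Prime := ⟨hpp⟩
  obtain ⟨ψ⟩ := exists_padic_embedding219 hp d δ hd hd1 hδ p hs
  obtain ⟨a, b, hab⟩ := n3_of_locNormFin219 hp _ hfin (placeOf219 (ψ : L →+* ℚ_[p]))
  have := even_padicValRat_of_n3_219 hp3 (ψ : L →+* ℚ_[p]) c hc a b hab
  exact (Int.not_even_iff_odd.mpr hodd) this

end Fermat.Agent.LT.T6.H219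

end
-- ===== PACK-END LT/T6/H219/LocalC1.lean

-- ===== PACK-BEGIN LT/H129/CartanInv.lean
section




/-!
# Row LT, tower T6, helper129: the Cartan invariant of `T6/Spec.lean` classifies double cosets

OFF-MAIN.  Against `LT/T6/Spec.lean` (helper22, byte-identical copy).  `k` a field with
`Valued k ℤᵐ⁰` (no completeness, no discreteness of the residue field needed).

* `inU_zero_iff129` : `T6.InU 0 u ↔ u, u⁻¹` have integral entries;
* `cartan_mul129` : `T6.cartan (u * g * u') = T6.cartan g` for `u, u' ∈ U(0)`;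
* `exists_cartan_diag129` : every `g` is `u * diag(x, y) * u'` with `u, u' ∈ U(0)`,
  `v y ≤ v x` and `T6.cartan g = (- log (v y), - log (v x))`;
* `cartan_eq_iff129` : `T6.cartan g = T6.cartan g' ↔ ∃ u u' ∈ U(0), g' = u * g * u'`.
-/

set_option autoImplicit false

open Matrix

noncomputable section

namespace Fermat.Agent.LT.H129

open Fermat.Agent.LT.T6

variable {k : Type} [Field k] [Valued k Γ₀]

/-- The valuation ring of `k`. -/
abbrev vO129 (k : Type) [Field k] [Valued k Γ₀] : ValuationSubring k :=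
  (Valued.v : Valuation k Γ₀).valuationSubring

theorem mem_vO129 (x : k) : x ∈ vO129 k ↔ Valued.v x ≤ 1 := Iff.rfl

theorem inU_zero_iff129 (u : GL (Fin 2) k) : InU 0 u ↔ IsMaxCpt129 (vO129 k) u := by
  have h1 : ∀ i j : Fin 2, Valued.v ((1 : Matrix (Fin 2) (Fin 2) k) i j) ≤ 1 := by
    intro i j
    by_cases hij : i = j
    · subst hij; simp
    · simp [hij]
  have key : ∀ (x : k) (i j : Fin 2),
      Valued.v (x - (1 : Matrix (Fin 2) (Fin 2) k) i j) ≤ 1 ↔ Valued.v x ≤ 1 := by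
    intro x i j
    constructor
    · intro h
      have : x = (x - (1 : Matrix (Fin 2) (Fin 2) k) i j) + (1 : Matrix (Fin 2) (Fin 2) k) i j := by
        ring
      rw [this]
      exact le_trans (Valuation.map_add _ _ _) (max_le h (h1 i j))
    · intro h
      exact le_trans (Valuation.map_sub _ _ _) (max_le h (h1 i j))
  unfold InU IsMaxCpt129 IsInt129
  simp only [Nat.cast_zero, neg_zero, WithZero.exp_zero, key]
  constructor
  · intro h
    exact ⟨fun i j => (h i j).1, fun i j => (h i j).2⟩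
  · intro h i j
    exact ⟨h.1 i j, h.2 i j⟩

theorem entry_le_entryMax129 (g : GL (Fin 2) k) (i j : Fin 2) :
    Valued.v ((g : Matrix (Fin 2) (Fin 2) k) i j) ≤ entryMax g :=
  Finset.le_sup' (fun p : Fin 2 × Fin 2 => Valued.v ((g : Matrix (Fin 2) (Fin 2) k) p.1 p.2))
    (Finset.mem_univ (i, j))

theorem entryMax_le129 (g : GL (Fin 2) k) {c : Γ₀}
    (h : ∀ i j, Valued.v ((g : Matrix (Fin 2) (Fin 2) k) i j) ≤ c) : entryMax g ≤ c :=
  Finset.sup'_le _ _ (fun p _ => h p.1 p.2)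

theorem entryMax_mul_le_right129 {g u : GL (Fin 2) k} (hu : IsInt129 (vO129 k) u) :
    entryMax (g * u) ≤ entryMax g := by
  apply entryMax_le129
  intro i j
  rw [Matrix.GeneralLinearGroup.coe_mul, Matrix.mul_apply, Fin.sum_univ_two]
  refine le_trans (Valuation.map_add _ _ _) (max_le ?_ ?_)
  · rw [map_mul]
    calc Valued.v ((g : Matrix (Fin 2) (Fin 2) k) i 0) * Valued.v ((u : Matrix (Fin 2) (Fin 2) k) 0 j)
        ≤ entryMax g * 1 := mul_le_mul' (entry_le_entryMax129 g i 0) (hu 0 j)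
      _ = entryMax g := mul_one _
  · rw [map_mul]
    calc Valued.v ((g : Matrix (Fin 2) (Fin 2) k) i 1) * Valued.v ((u : Matrix (Fin 2) (Fin 2) k) 1 j)
        ≤ entryMax g * 1 := mul_le_mul' (entry_le_entryMax129 g i 1) (hu 1 j)
      _ = entryMax g := mul_one _

theorem entryMax_mul_le_left129 {g u : GL (Fin 2) k} (hu : IsInt129 (vO129 k) u) :
    entryMax (u * g) ≤ entryMax g := by
  apply entryMax_le129
  intro i j
  rw [Matrix.GeneralLinearGroup.coe_mul, Matrix.mul_apply, Fin.sum_univ_two]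
  refine le_trans (Valuation.map_add _ _ _) (max_le ?_ ?_)
  · rw [map_mul]
    calc Valued.v ((u : Matrix (Fin 2) (Fin 2) k) i 0) * Valued.v ((g : Matrix (Fin 2) (Fin 2) k) 0 j)
        ≤ 1 * entryMax g := mul_le_mul' (hu i 0) (entry_le_entryMax129 g 0 j)
      _ = entryMax g := one_mul _
  · rw [map_mul]
    calc Valued.v ((u : Matrix (Fin 2) (Fin 2) k) i 1) * Valued.v ((g : Matrix (Fin 2) (Fin 2) k) 1 j)
        ≤ 1 * entryMax g := mul_le_mul' (hu i 1) (entry_le_entryMax129 g 1 j)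
      _ = entryMax g := one_mul _

theorem entryMax_mul_right129 {g u : GL (Fin 2) k} (hu : IsMaxCpt129 (vO129 k) u) :
    entryMax (g * u) = entryMax g := by
  apply le_antisymm (entryMax_mul_le_right129 hu.1)
  have := entryMax_mul_le_right129 (g := g * u) hu.2
  rwa [mul_inv_cancel_right] at this

theorem entryMax_mul_left129 {g u : GL (Fin 2) k} (hu : IsMaxCpt129 (vO129 k) u) :
    entryMax (u * g) = entryMax g := by
  apply le_antisymm (entryMax_mul_le_left129 hu.1)
  have := entryMax_mul_le_left129 (g := u * g) hu.2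
  rwa [inv_mul_cancel_left] at this

theorem valued_det_of_isMaxCpt129 {u : GL (Fin 2) k} (hu : IsMaxCpt129 (vO129 k) u) :
    Valued.v (u : Matrix (Fin 2) (Fin 2) k).det = 1 := by
  have h1 : Valued.v (u : Matrix (Fin 2) (Fin 2) k).det ≤ 1 := det_mem_of_isInt129 hu.1
  have h2 : Valued.v ((u⁻¹ : GL (Fin 2) k) : Matrix (Fin 2) (Fin 2) k).det ≤ 1 :=
    det_mem_of_isInt129 hu.2
  have h3 : (u : Matrix (Fin 2) (Fin 2) k).det
      * ((u⁻¹ : GL (Fin 2) k) : Matrix (Fin 2) (Fin 2) k).det = 1 := by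
    rw [← Matrix.det_mul, ← Matrix.GeneralLinearGroup.coe_mul, mul_inv_cancel]
    simp
  have h4 := congrArg (Valued.v : k → Γ₀) h3
  rw [map_mul, map_one] at h4
  refine le_antisymm h1 ?_
  by_contra hlt
  rw [not_le] at hlt
  have : Valued.v (u : Matrix (Fin 2) (Fin 2) k).det
      * Valued.v ((u⁻¹ : GL (Fin 2) k) : Matrix (Fin 2) (Fin 2) k).det < 1 := by
    calc _ ≤ Valued.v (u : Matrix (Fin 2) (Fin 2) k).det * 1 := mul_le_mul' le_rfl h2
      _ = Valued.v (u : Matrix (Fin 2) (Fin 2) k).det := mul_one _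
      _ < 1 := hlt
  rw [h4] at this
  exact lt_irrefl _ this

/-- The Cartan invariant is bi-invariant under `U(0) = GL₂(𝒪)`. -/
theorem cartan_mul129 {g u u' : GL (Fin 2) k} (hu : InU 0 u) (hu' : InU 0 u') :
    cartan (u * g * u') = cartan g := by
  rw [inU_zero_iff129] at hu hu'
  unfold cartan
  rw [entryMax_mul_right129 hu', entryMax_mul_left129 hu, Matrix.GeneralLinearGroup.coe_mul,
    Matrix.GeneralLinearGroup.coe_mul, Matrix.det_mul, Matrix.det_mul, map_mul, map_mul,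
    valued_det_of_isMaxCpt129 hu, valued_det_of_isMaxCpt129 hu', one_mul, mul_one]

theorem entryMax_diag129 {x y : k} (hx : x ≠ 0) (hy : y ≠ 0) (hxy : Valued.v y ≤ Valued.v x) :
    entryMax (diag129 x y hx hy) = Valued.v x := by
  apply le_antisymm
  · apply entryMax_le129
    intro i j
    fin_cases i <;> fin_cases j <;> simp [diag129, hxy]
  · have := entry_le_entryMax129 (diag129 x y hx hy) 0 0
    simpa [diag129] using this

theorem cartan_diag129 {x y : k} (hx : x ≠ 0) (hy : y ≠ 0) (hxy : Valued.v y ≤ Valued.v x) :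
    cartan (diag129 x y hx hy) = (- WithZero.log (Valued.v y), - WithZero.log (Valued.v x)) := by
  have hvx : Valued.v x ≠ 0 := by rwa [ne_eq, map_eq_zero]
  have hvy : Valued.v y ≠ 0 := by rwa [ne_eq, map_eq_zero]
  unfold cartan
  rw [entryMax_diag129 hx hy hxy]
  have hdet : ((diag129 x y hx hy : GL (Fin 2) k) : Matrix (Fin 2) (Fin 2) k).det = x * y := by
    simp [diag129, Matrix.det_fin_two_of]
  rw [hdet, map_mul, WithZero.log_mul hvx hvy]
  ext
  · simp
  · simp

theorem div_mem_vO_iff129 {x y : k} (hx : x ≠ 0) :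
    y / x ∈ vO129 k ↔ Valued.v y ≤ Valued.v x := by
  have hvx : Valued.v x ≠ 0 := by rwa [ne_eq, map_eq_zero]
  rw [mem_vO129, map_div₀, div_le_one₀ (zero_lt_iff.mpr hvx)]

/-- **Cartan decomposition with the Cartan invariant of `T6/Spec.lean`.** -/
theorem exists_cartan_diag129 (g : GL (Fin 2) k) :
    ∃ (u u' : GL (Fin 2) k) (x y : k) (hx : x ≠ 0) (hy : y ≠ 0),
      InU 0 u ∧ InU 0 u' ∧ Valued.v y ≤ Valued.v x ∧ g = u * diag129 x y hx hy * u' ∧
      cartan g = (- WithZero.log (Valued.v y), - WithZero.log (Valued.v x)) := by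
  obtain ⟨k₁, k₂, x, y, hx, hy, h1, h2, hxy, hg⟩ := cartan129 (vO129 k) g
  have hxy' : Valued.v y ≤ Valued.v x := (div_mem_vO_iff129 hx).mp hxy
  refine ⟨k₁, k₂, x, y, hx, hy, (inU_zero_iff129 _).mpr h1, (inU_zero_iff129 _).mpr h2, hxy',
    hg, ?_⟩
  rw [hg, cartan_mul129 ((inU_zero_iff129 _).mpr h1) ((inU_zero_iff129 _).mpr h2),
    cartan_diag129 hx hy hxy']

theorem inU_zero_mul129 {u u' : GL (Fin 2) k} (hu : InU 0 u) (hu' : InU 0 u') :
    InU 0 (u * u') := by
  rw [inU_zero_iff129] at *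
  exact isMaxCpt129_mul hu hu'

theorem inU_zero_inv129 {u : GL (Fin 2) k} (hu : InU 0 u) : InU 0 u⁻¹ := by
  rw [inU_zero_iff129] at *
  exact isMaxCpt129_inv hu

theorem log_inj129 {a b : Γ₀} (ha : a ≠ 0) (hb : b ≠ 0)
    (h : WithZero.log a = WithZero.log b) : a = b :=
  le_antisymm ((WithZero.log_le_log ha hb).mp h.le) ((WithZero.log_le_log hb ha).mp h.ge)

omit [Valued k Γ₀] in
theorem diag129_mul (x y x' y' : k) (hx : x ≠ 0) (hy : y ≠ 0) (hx' : x' ≠ 0) (hy' : y' ≠ 0) :
    diag129 x y hx hy * diag129 x' y' hx' hy'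
      = diag129 (x * x') (y * y') (mul_ne_zero hx hx') (mul_ne_zero hy hy') := by
  apply ext_mat129
  simp only [diag129, Matrix.GeneralLinearGroup.coe_mul, coe_mkGL129]
  ext i j
  fin_cases i <;> fin_cases j <;> simp [Matrix.mul_apply, Fin.sum_univ_two]

omit [Valued k Γ₀] in
theorem diag129_congr {x y x' y' : k} (hx : x ≠ 0) (hy : y ≠ 0) (hx' : x' ≠ 0) (hy' : y' ≠ 0)
    (ex : x = x') (ey : y = y') : diag129 x y hx hy = diag129 x' y' hx' hy' := by
  subst ex; subst ey; rfl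

theorem isMaxCpt129_diag_unit {x y : k} (hx : x ≠ 0) (hy : y ≠ 0) (hvx : Valued.v x = 1)
    (hvy : Valued.v y = 1) : IsMaxCpt129 (vO129 k) (diag129 x y hx hy) := by
  have h0 : (0 : k) ∈ vO129 k := (vO129 k).zero_mem
  refine ⟨isInt129_mkGL _ ((mem_vO129 x).mpr hvx.le) h0 h0 ((mem_vO129 y).mpr hvy.le), ?_⟩
  apply isInt129_inv_of_det (isInt129_mkGL _ ((mem_vO129 x).mpr hvx.le) h0 h0
    ((mem_vO129 y).mpr hvy.le))
  rw [mem_vO129, map_inv₀]
  have : ((diag129 x y hx hy : GL (Fin 2) k) : Matrix (Fin 2) (Fin 2) k).det = x * y := by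
    simp [diag129, Matrix.det_fin_two_of]
  have hd : Valued.v ((mkGL129 x 0 0 y (by simpa using mul_ne_zero hx hy) : GL (Fin 2) k) :
      Matrix (Fin 2) (Fin 2) k).det = 1 := by
    have h2 : ((mkGL129 x 0 0 y (by simpa using mul_ne_zero hx hy) : GL (Fin 2) k) :
        Matrix (Fin 2) (Fin 2) k).det = x * y := this
    rw [h2, map_mul, hvx, hvy, mul_one]
  rw [hd, inv_one]

/-- **The Cartan invariant classifies the double cosets of `GL₂(𝒪)`.** -/
theorem cartan_eq_iff129 (g g' : GL (Fin 2) k) :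
    cartan g = cartan g' ↔ ∃ u u' : GL (Fin 2) k, InU 0 u ∧ InU 0 u' ∧ g' = u * g * u' := by
  constructor
  · intro h
    obtain ⟨u₁, u₂, x, y, hx, hy, hu₁, hu₂, hxy, hg, hc⟩ := exists_cartan_diag129 g
    obtain ⟨u₁', u₂', x', y', hx', hy', hu₁', hu₂', hxy', hg', hc'⟩ := exists_cartan_diag129 g'
    rw [hc, hc'] at h
    have hvx : Valued.v x ≠ 0 := by rwa [ne_eq, map_eq_zero]
    have hvy : Valued.v y ≠ 0 := by rwa [ne_eq, map_eq_zero]
    have hvx' : Valued.v x' ≠ 0 := by rwa [ne_eq, map_eq_zero]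
    have hvy' : Valued.v y' ≠ 0 := by rwa [ne_eq, map_eq_zero]
    have e1 : Valued.v y = Valued.v y' :=
      log_inj129 hvy hvy' (neg_injective (congrArg Prod.fst h))
    have e2 : Valued.v x = Valued.v x' :=
      log_inj129 hvx hvx' (neg_injective (congrArg Prod.snd h))
    have hux : Valued.v (x' / x) = 1 := by rw [map_div₀, ← e2, div_self hvx]
    have huy : Valued.v (y' / y) = 1 := by rw [map_div₀, ← e1, div_self hvy]
    have hd := isMaxCpt129_diag_unit (div_ne_zero hx' hx) (div_ne_zero hy' hy) hux huy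
    have hdd : diag129 x' y' hx' hy' = diag129 x y hx hy
        * diag129 (x' / x) (y' / y) (div_ne_zero hx' hx) (div_ne_zero hy' hy) := by
      rw [diag129_mul]
      exact diag129_congr _ _ _ _ (by field_simp) (by field_simp)
    refine ⟨u₁' * u₁⁻¹, u₂⁻¹ * (diag129 (x' / x) (y' / y) (div_ne_zero hx' hx)
      (div_ne_zero hy' hy) * u₂'), inU_zero_mul129 hu₁' (inU_zero_inv129 hu₁),
      inU_zero_mul129 (inU_zero_inv129 hu₂)
        (inU_zero_mul129 ((inU_zero_iff129 _).mpr hd) hu₂'), ?_⟩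
    have hg2 : diag129 x y hx hy = u₁⁻¹ * g * u₂⁻¹ := by rw [hg]; group
    rw [hg', hdd, hg2]
    group
  · rintro ⟨u, u', hu, hu', rfl⟩
    exact (cartan_mul129 hu hu').symm

end Fermat.Agent.LT.H129

end

end
-- ===== PACK-END LT/H129/CartanInv.lean

-- ===== PACK-BEGIN LT/T7/H999/IotaLocal.lean
section




/-!
# Row LT, tower T7, leaf T7.L2.1.C2.4 `IotaC305`: LOCAL TOOLS (helper999), OFF-MAIN

Mathlib + `LT/T6/H267/InstExt.lean` (helper267) + `LT/T6/H116/InstSplit.lean` (helper116),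
byte-identical copies.  ADDITIVE (new names only, suffix `999`).  No hole, nothing assumed.

* `continuous_of_valued_pow999`: a ring homomorphism of completions which raises the valuation
  to a positive power is continuous.
* `eq_of_eqOn_rat999`: two continuous maps on `K_v` which agree on `K` are equal.
* `split_ram_inertia999`: in a Galois extension of prime degree a place with two places over
  it is unramified of residue degree one.
* `surjective_of_split999`: at such a place every ring homomorphism `i : K_v → K'_w` over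
  `K → K'` which raises the valuation to a positive power is surjective.
* `mem_range_of_fixed999`: at a place which is fixed by the generator, the fixed points of the
  local automorphism are in the range of `i`.
-/

set_option autoImplicit false
set_option linter.unusedSectionVars false
set_option linter.unusedVariables false
set_option linter.deprecated false

open IsDedekindDomain NumberField

namespace Fermat.Agent.LT.T7.H999

section Cont

variable {K₁ K₂ : Type} [Field K₁] [NumberField K₁] [Field K₂] [NumberField K₂]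
  (v₁ : HeightOneSpectrum (𝓞 K₁)) (v₂ : HeightOneSpectrum (𝓞 K₂))

/-- A ring homomorphism of completions with `|i x| = |x| ^ e`, `e > 0`, is continuous. -/
theorem continuous_of_valued_pow999 (i : v₁.adicCompletion K₁ →+* v₂.adicCompletion K₂)
    (e : ℕ) (he : 0 < e) (h : ∀ x, Valued.v (i x) = Valued.v x ^ e) : Continuous i := by
  refine continuous_of_continuousAt_zero i ?_
  rw [ContinuousAt, map_zero, (Valued.hasBasis_nhds_zero _ _).tendsto_iff
    (Valued.hasBasis_nhds_zero _ _)]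
  intro γ _
  obtain ⟨z, hz⟩ := HeightOneSpectrum.valuedAdicCompletion_surjective K₁ v₁
    (min 1 (MonoidWithZeroHom.ValueGroup₀.embedding γ.val))
  have hγ0 : MonoidWithZeroHom.ValueGroup₀.embedding γ.val ≠ 0 := by
    simp
  have hz0 : Valued.v z ≠ 0 := by
    rw [hz]
    exact (lt_min zero_lt_one (zero_lt_iff.2 hγ0)).ne'
  refine ⟨Units.mk0 (Valued.v.restrict z) ?_, trivial, ?_⟩
  · rw [Ne, ← MonoidWithZeroHom.ValueGroup₀.embedding_inj]
    simpa using hz0
  intro x hx
  simp only [Set.mem_ofPred_eq, Units.val_mk0] at hx ⊢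
  rw [Valuation.restrict_lt_iff_lt_embedding] at hx ⊢
  rw [Valuation.embedding_restrict, hz] at hx
  rw [h x]
  have hx1 : Valued.v x < 1 := lt_of_lt_of_le hx (min_le_left _ _)
  have hx2 : Valued.v x < MonoidWithZeroHom.ValueGroup₀.embedding γ.val :=
    lt_of_lt_of_le hx (min_le_right _ _)
  calc Valued.v x ^ e ≤ Valued.v x ^ 1 := pow_le_pow_of_le_one zero_le' hx1.le he
    _ = Valued.v x := pow_one _
    _ < _ := hx2

/-- Two continuous maps on `K_v` which agree on `K` are equal. -/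
theorem eq_of_eqOn_rat999 {X : Type} [TopologicalSpace X] [T2Space X]
    (f g : v₁.adicCompletion K₁ → X) (hf : Continuous f) (hg : Continuous g)
    (h : ∀ k : K₁, f (algebraMap K₁ (v₁.adicCompletion K₁) k)
      = g (algebraMap K₁ (v₁.adicCompletion K₁) k)) : f = g :=
  (HeightOneSpectrum.denseRange_algebraMap K₁ v₁).equalizer hf hg (funext h)

end Cont

section Split

variable {K K' : Type} [Field K] [NumberField K] [Field K'] [NumberField K'] [Algebra K K']
  [IsGalois K K']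

/-- In a Galois extension of prime degree, a place `v` with two distinct places over it is
unramified of residue degree one at each of them. -/
theorem split_ram_inertia999 (hl : (Module.finrank K K').Prime)
    (v : HeightOneSpectrum (𝓞 K)) (w w' : HeightOneSpectrum (𝓞 K'))
    [hw : w.asIdeal.LiesOver v.asIdeal] [hw' : w'.asIdeal.LiesOver v.asIdeal] (hne : w ≠ w') :
    v.asIdeal.ramificationIdx' w.asIdeal = 1 ∧ v.asIdeal.inertiaDeg' w.asIdeal = 1 := by
  have : v.asIdeal.IsMaximal := v.isMaximal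
  have : w.asIdeal.IsMaximal := w.isMaximal
  have hfund := Ideal.ncard_primesOver_mul_ramificationIdxIn_mul_inertiaDegIn v.asIdeal (𝓞 K')
    (K' ≃ₐ[K] K')
  have hcardG : Nat.card (K' ≃ₐ[K] K') = Module.finrank K K' :=
    IsGalois.card_aut_eq_finrank K K'
  rw [hcardG] at hfund
  have hfin : (Ideal.primesOver v.asIdeal (𝓞 K')).Finite :=
    Set.toFinite _
  have h2 : 1 < (Ideal.primesOver v.asIdeal (𝓞 K')).ncard := by
    rw [Set.one_lt_ncard hfin]
    refine ⟨w.asIdeal, ⟨w.isPrime, hw⟩, w'.asIdeal, ⟨w'.isPrime, hw'⟩, ?_⟩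
    intro h
    exact hne (HeightOneSpectrum.ext h)
  have hdvd : (Ideal.primesOver v.asIdeal (𝓞 K')).ncard ∣ Module.finrank K K' :=
    Dvd.intro _ hfund
  have hcard : (Ideal.primesOver v.asIdeal (𝓞 K')).ncard = Module.finrank K K' := by
    rcases (Nat.dvd_prime hl).1 hdvd with h | h
    · omega
    · exact h
  rw [hcard] at hfund
  have hef : Ideal.ramificationIdxIn v.asIdeal (𝓞 K') * Ideal.inertiaDegIn v.asIdeal (𝓞 K')
      = 1 := by
    have hpos : 0 < Module.finrank K K' := hl.pos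
    exact Nat.eq_of_mul_eq_mul_left hpos (by rw [hfund, mul_one])
  obtain ⟨he, hf⟩ := mul_eq_one.1 hef
  rw [Ideal.ramificationIdxIn_eq_ramificationIdx v.asIdeal w.asIdeal (K' ≃ₐ[K] K')] at he
  rw [Ideal.inertiaDegIn_eq_inertiaDeg v.asIdeal w.asIdeal (K' ≃ₐ[K] K')] at hf
  refine ⟨?_, ?_⟩
  · rw [Ideal.ramificationIdx'_eq_ramificationIdx v.asIdeal w.asIdeal v.ne_bot]
    exact he
  · rw [Ideal.inertiaDeg'_eq_inertiaDeg v.asIdeal w.asIdeal]
    exact hf

theorem mem_iff_of_liesOver999 (v : HeightOneSpectrum (𝓞 K)) (w : HeightOneSpectrum (𝓞 K'))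
    [hw : w.asIdeal.LiesOver v.asIdeal] (x : 𝓞 K) :
    x ∈ v.asIdeal ↔ algebraMap (𝓞 K) (𝓞 K') x ∈ w.asIdeal := by
  rw [hw.over, Ideal.under_def, Ideal.mem_comap]

/-- At a split place every ring homomorphism `K_v → K'_w` over `K → K'` which raises the
valuation to a positive power is surjective. -/
theorem surjective_of_split999 (hl : (Module.finrank K K').Prime)
    (v : HeightOneSpectrum (𝓞 K)) (w w' : HeightOneSpectrum (𝓞 K'))
    [hw : w.asIdeal.LiesOver v.asIdeal] [hw' : w'.asIdeal.LiesOver v.asIdeal] (hne : w ≠ w')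
    (i : v.adicCompletion K →+* w.adicCompletion K') (e : ℕ) (he : 0 < e)
    (hi : ∀ x : K, i (algebraMap K (v.adicCompletion K) x)
      = algebraMap K' (w.adicCompletion K') (algebraMap K K' x))
    (hv : ∀ x : v.adicCompletion K, Valued.v (i x) = Valued.v x ^ e) :
    Function.Surjective i := by
  obtain ⟨h1, h2⟩ := split_ram_inertia999 hl v w w' hne
  have hvw := mem_iff_of_liesOver999 v w
  have hN : Ideal.absNorm w.asIdeal = Ideal.absNorm v.asIdeal := by
    rw [T6.H267.absNorm_eq_pow_inertia v w, h2, pow_one]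
  have hπ : ∃ x : 𝓞 K, x ∈ v.asIdeal ∧ algebraMap (𝓞 K) (𝓞 K') x ∉ w.asIdeal ^ 2 := by
    by_contra hcon
    push Not at hcon
    have hle : Ideal.map (algebraMap (𝓞 K) (𝓞 K')) v.asIdeal ≤ w.asIdeal := by
      rw [Ideal.map_le_iff_le_comap]
      intro x hx
      exact (hvw x).1 hx
    have hle2 : Ideal.map (algebraMap (𝓞 K) (𝓞 K')) v.asIdeal ≤ w.asIdeal ^ 2 := by
      rw [Ideal.map_le_iff_le_comap]
      intro x hx
      exact hcon x hx
    exact (Ideal.ramificationIdx'_ne_one_iff hle).2 hle2 h1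
  obtain ⟨i', hi', hv'⟩ := T6.H116.instSplitC_h116 K K' v w hvw hN hπ
  have hc : Continuous i := continuous_of_valued_pow999 v w i e he hv
  have hc' : Continuous (i' : v.adicCompletion K → w.adicCompletion K') :=
    continuous_of_valued_pow999 v w (i' : v.adicCompletion K →+* w.adicCompletion K') 1
      one_pos (fun x => by rw [pow_one]; exact hv' x)
  have heq : (i : v.adicCompletion K → w.adicCompletion K') = i' :=
    eq_of_eqOn_rat999 v _ _ hc hc' (fun k => by rw [hi k]; exact (hi' k).symm)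
  intro y
  obtain ⟨x, hx⟩ := i'.surjective y
  exact ⟨x, by rw [congrFun heq x]; exact hx⟩

/-- At a place which is fixed by the generator `s` of the Galois group, the fixed points of a
local automorphism `sw` over `s` which preserves the valuation are in the range of `i`. -/
theorem mem_range_of_fixed999 (s : K' ≃ₐ[K] K')
    (hgen : ∀ t : K' ≃ₐ[K] K', t ∈ Subgroup.zpowers s)
    (v : HeightOneSpectrum (𝓞 K)) (w : HeightOneSpectrum (𝓞 K'))
    [hw : w.asIdeal.LiesOver v.asIdeal]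
    (i : v.adicCompletion K →+* w.adicCompletion K') (e : ℕ) (he : 0 < e)
    (hi : ∀ x : K, i (algebraMap K (v.adicCompletion K) x)
      = algebraMap K' (w.adicCompletion K') (algebraMap K K' x))
    (hv : ∀ x : v.adicCompletion K, Valued.v (i x) = Valued.v x ^ e)
    (sw : w.adicCompletion K' ≃+* w.adicCompletion K')
    (hs : ∀ y : K', sw (algebraMap K' (w.adicCompletion K') y)
      = algebraMap K' (w.adicCompletion K') (s y))
    (hsv : ∀ x : w.adicCompletion K', Valued.v (sw x) = Valued.v x)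
    (y : w.adicCompletion K') (hy : sw y = y) : ∃ x : v.adicCompletion K, i x = y := by
  have hσ : ∀ y : K', w.valuation K' ((s : K' ≃+* K') y) = w.valuation K' y := by
    intro y
    have h1 := hsv (algebraMap K' (w.adicCompletion K') y)
    rw [hs y, T6.H267.valued_algebraMap, T6.H267.valued_algebraMap] at h1
    exact h1
  have hcs : Continuous (sw : w.adicCompletion K' → w.adicCompletion K') :=
    continuous_of_valued_pow999 w w (sw : w.adicCompletion K' →+* w.adicCompletion K') 1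
      one_pos (fun x => by rw [pow_one]; exact hsv x)
  have heqs : (T6.H267.locAut w (s : K' ≃+* K') hσ : w.adicCompletion K' → w.adicCompletion K')
      = sw :=
    eq_of_eqOn_rat999 w _ _ (T6.H267.continuous_locAut w _ hσ) hcs (fun k => by
      rw [T6.H267.locAut_algebraMap, hs k]
      rfl)
  have hci : Continuous i := continuous_of_valued_pow999 v w i e he hv
  have heqi : (T6.H267.locIncl v w : v.adicCompletion K → w.adicCompletion K') = i :=
    eq_of_eqOn_rat999 v _ _ (T6.H267.continuous_locIncl v w) hci (fun k => by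
      rw [T6.H267.locIncl_algebraMap, hi k])
  have hy' : T6.H267.locAut w (s : K' ≃+* K') hσ y = y := by
    rw [congrFun heqs y]
    exact hy
  obtain ⟨x, hx⟩ := T6.H267.fixed_mem_range s v w hσ hgen y hy'
  exact ⟨x, by rw [← congrFun heqi x]; exact hx⟩

end Split

end Fermat.Agent.LT.T7.H999

end
-- ===== PACK-END LT/T7/H999/IotaLocal.lean

-- ===== PACK-BEGIN LT/T7/H194/Orb/IndInt.lean
section




/-!
# Row LT, tower T7, stations C2.7 / Q2.7, leaves `LocEqSplitC340`, `LocEqArchC340`,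
`ArchIntblUpC340` and their mirrors: ASSET, CONVERGENCE OF THE ORBITAL INTEGRAL of a regular
element of `GL₂(k)`, in the form of the hypothesis of the Fubini theorems for the split integral
(helper194)

OFF-MAIN.  Mathlib only (with `Orb/CycAlg`, `Orb/SuppTop`, `Orb/IntegAbs`).  No hole, nothing
assumed.

`k` a Hausdorff topological field with `GL₂(k)` locally compact and second countable (`ℂ`, `ℝ`,
the completions `K_v`), `γ ∈ GL₂(k)` with discriminant `≠ 0`, `z` central, `T` a CLOSED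
subgroup which contains the centraliser of `γ`, `μ` a Haar measure of `GL₂(k)`, `μT` a Haar
measure of `T`, `β ≥ 0` measurable with `∫_T β(t x) dμT(t) = 1` for all `x`:

    integrable_indicator_conj194 : for every compact `K`
        `a ↦ 1_K(a⁻¹ (γ z) a) β(a)` is integrable          (real valued)

This is VERBATIM the hypothesis `hint` of `H555.splitInt340_eq555` (helper555, `ChainFubini.lean`)
for `P = γ z`, and gives the hypothesis `hfin` of `H855.integrable_cyc855` (helper855).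
-/

set_option autoImplicit false
set_option linter.unusedSectionVars false
set_option linter.unusedVariables false
set_option linter.style.haveILetI false

open MeasureTheory

noncomputable section

namespace Fermat.Agent.LT.T7.H194

section Generic

variable {k : Type*} [Field k] [TopologicalSpace k] [IsTopologicalDivisionRing k] [T2Space k]
  [SecondCountableTopology (GL (Fin 2) k)] [LocallyCompactSpace (GL (Fin 2) k)]

/-- **Convergence of the orbital integral of a regular element (complex valued form).** -/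
theorem integrable_bdd_conj194 (γ : GL (Fin 2) k)
    (hγ : (γ : Matrix (Fin 2) (Fin 2) k).trace ^ 2 - 4 * (γ : Matrix (Fin 2) (Fin 2) k).det ≠ 0)
    (z : GL (Fin 2) k) (hz : ∀ x : GL (Fin 2) k, z * x = x * z)
    (T : Subgroup (GL (Fin 2) k)) (hT : ∀ t : GL (Fin 2) k, t⁻¹ * γ * t = γ → t ∈ T)
    (hTc : IsClosed (T : Set (GL (Fin 2) k)))
    (μ : @Measure (GL (Fin 2) k) (borel _)) (hμ : @Measure.IsHaarMeasure _ _ _ (borel _) μ)
    (μT : @Measure T (borel _)) (hμT : @Measure.IsHaarMeasure _ _ _ (borel _) μT)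
    (β : GL (Fin 2) k → ℝ) (hβm : @Measurable _ _ (borel _) _ β) (hβ0 : ∀ x, 0 ≤ β x)
    (hβ1 : ∀ x : GL (Fin 2) k,
      @integral _ _ _ _ (borel _) μT (fun t : T => β ((t : GL (Fin 2) k) * x)) = 1)
    (Ψ : GL (Fin 2) k → ℂ) (hΨm : @Measurable _ _ (borel _) _ Ψ) (M : ℝ)
    (hΨb : ∀ y, ‖Ψ y‖ ≤ M) (K : Set (GL (Fin 2) k)) (hK : IsCompact K)
    (hΨs : ∀ y, Ψ y ≠ 0 → y ∈ K) :
    Integrable (fun a : GL (Fin 2) k => Ψ (a⁻¹ * (γ * z) * a) * ((β a : ℝ) : ℂ)) μ := by
  letI : MeasurableSpace (GL (Fin 2) k) := borel _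
  haveI : BorelSpace (GL (Fin 2) k) := ⟨rfl⟩
  letI : MeasurableSpace T := borel _
  haveI : BorelSpace T := ⟨rfl⟩
  haveI : μ.IsHaarMeasure := hμ
  haveI : μT.IsHaarMeasure := hμT
  haveI : SigmaCompactSpace T := hTc.sigmaCompactSpace
  have hKc : IsCompact ((fun h : GL (Fin 2) k => h * z⁻¹) '' K) :=
    hK.image (continuous_id.mul continuous_const)
  obtain ⟨C, hC, hsupp⟩ := exists_compact_conj194 γ hγ hKc
  have hcm : Measurable (fun y : GL (Fin 2) k => y⁻¹ * (γ * z) * y) :=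
    ((continuous_inv.mul continuous_const).mul continuous_id).measurable
  refine integrable_mul_cut194 T μ μT hβm hβ0 hβ1 hC (Ψ := fun y => Ψ (y⁻¹ * (γ * z) * y))
    (hΨm.comp hcm) (M := M) (fun y => hΨb _) ?_
  intro y hy
  have h1 : y⁻¹ * (γ * z) * y ∈ K := hΨs _ hy
  have h2 : y⁻¹ * γ * y ∈ (fun h : GL (Fin 2) k => h * z⁻¹) '' K := by
    refine ⟨y⁻¹ * (γ * z) * y, h1, ?_⟩
    show y⁻¹ * (γ * z) * y * z⁻¹ = y⁻¹ * γ * y
    have e : y⁻¹ * (γ * z) * y = y⁻¹ * γ * y * z := by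
      calc y⁻¹ * (γ * z) * y = y⁻¹ * γ * (z * y) := by simp only [mul_assoc]
        _ = y⁻¹ * γ * (y * z) := by rw [hz y]
        _ = y⁻¹ * γ * y * z := by simp only [mul_assoc]
    rw [e, mul_inv_cancel_right]
  obtain ⟨t, ht, c, hc, hyc⟩ := hsupp y h2
  exact ⟨t, hT t ht, c, hc, hyc⟩

/-- **Convergence of the orbital integral of a regular element**: the hypothesis of the Fubini
theorems for the split integral. -/
theorem integrable_indicator_conj194 (γ : GL (Fin 2) k)
    (hγ : (γ : Matrix (Fin 2) (Fin 2) k).trace ^ 2 - 4 * (γ : Matrix (Fin 2) (Fin 2) k).det ≠ 0)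
    (z : GL (Fin 2) k) (hz : ∀ x : GL (Fin 2) k, z * x = x * z)
    (T : Subgroup (GL (Fin 2) k)) (hT : ∀ t : GL (Fin 2) k, t⁻¹ * γ * t = γ → t ∈ T)
    (hTc : IsClosed (T : Set (GL (Fin 2) k)))
    (μ : @Measure (GL (Fin 2) k) (borel _)) (hμ : @Measure.IsHaarMeasure _ _ _ (borel _) μ)
    (μT : @Measure T (borel _)) (hμT : @Measure.IsHaarMeasure _ _ _ (borel _) μT)
    (β : GL (Fin 2) k → ℝ) (hβm : @Measurable _ _ (borel _) _ β) (hβ0 : ∀ x, 0 ≤ β x)
    (hβ1 : ∀ x : GL (Fin 2) k,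
      @integral _ _ _ _ (borel _) μT (fun t : T => β ((t : GL (Fin 2) k) * x)) = 1)
    (K : Set (GL (Fin 2) k)) (hK : IsCompact K) :
    Integrable (fun a : GL (Fin 2) k =>
      K.indicator (fun _ => (1 : ℝ)) (a⁻¹ * (γ * z) * a) * β a) μ := by
  letI : MeasurableSpace (GL (Fin 2) k) := borel _
  haveI : BorelSpace (GL (Fin 2) k) := ⟨rfl⟩
  have hKm : MeasurableSet K := hK.isClosed.measurableSet
  have hΨm : Measurable (fun y : GL (Fin 2) k => ((K.indicator (fun _ => (1 : ℝ)) y : ℝ) : ℂ)) :=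
    Complex.measurable_ofReal.comp (measurable_const.indicator hKm)
  have hΨb : ∀ y : GL (Fin 2) k, ‖((K.indicator (fun _ => (1 : ℝ)) y : ℝ) : ℂ)‖ ≤ 1 := by
    intro y
    rw [Complex.norm_real]
    by_cases hy : y ∈ K
    · rw [Set.indicator_of_mem hy]
      simp
    · rw [Set.indicator_of_notMem hy]
      simp
  have hΨs : ∀ y : GL (Fin 2) k, ((K.indicator (fun _ => (1 : ℝ)) y : ℝ) : ℂ) ≠ 0 → y ∈ K := by
    intro y hy
    by_contra hn
    apply hy
    rw [Set.indicator_of_notMem hn]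
    simp
  have h := integrable_bdd_conj194 γ hγ z hz T hT hTc μ hμ μT hμT β hβm hβ0 hβ1
    (fun y => ((K.indicator (fun _ => (1 : ℝ)) y : ℝ) : ℂ)) hΨm 1 hΨb K hK hΨs
  have h' := h.re
  refine h'.congr (Filter.Eventually.of_forall fun a => ?_)
  show (((K.indicator (fun _ => (1 : ℝ)) (a⁻¹ * (γ * z) * a) : ℝ) : ℂ) * ((β a : ℝ) : ℂ)).re = _
  rw [← Complex.ofReal_mul, Complex.ofReal_re]

end Generic

end Fermat.Agent.LT.T7.H194

end

end
-- ===== PACK-END LT/T7/H194/Orb/IndInt.lean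

-- ===== PACK-BEGIN LT/T7/H566/SchurGlobal.lean
section


/-!
# The Schur sequence, class by class (Mathlib only; helper566)

`schurSeq_core566` is the statement of the leaf `SD534.SchurSeqC` (helper534,
`LT/T7/H534/DownBasisSpec.lean`) with the class spans written out.
-/

set_option autoImplicit false

open Module
open scoped ComplexConjugate

noncomputable section

namespace Fermat.Agent.LT.T7.H566

/-! ## Regrouping a sum of nonnegative terms by finite classes -/

/-- Two families of nonnegative numbers with the same sums on the classes of a partition into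
finite classes have the same sum. -/
theorem hasSum_regroup566 (g h : ℕ → ℝ) (hg0 : ∀ j, 0 ≤ g j) (hh0 : ∀ j, 0 ≤ h j) (J : Set ℕ)
    (hgJ : ∀ j, j ∉ J → g j = 0) (hhJ : ∀ j, j ∉ J → h j = 0) (cls : ℕ → Finset ℕ)
    (hself : ∀ j ∈ J, j ∈ cls j) (hcls : ∀ j ∈ J, ∀ i ∈ cls j, i ∈ J ∧ cls i = cls j)
    (hsum : ∀ j ∈ J, ∑ i ∈ cls j, g i = ∑ i ∈ cls j, h i) (S : ℝ) (hS : HasSum g S) :
    HasSum h S := by
  classical
  let sat : Finset ℕ → Finset ℕ := fun T => (T.filter (· ∈ J)).biUnion cls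
  have hsat : ∀ T, ∀ i ∈ sat T, i ∈ J ∧ cls i ⊆ sat T := by
    intro T i hi
    obtain ⟨j, hj, hij⟩ := Finset.mem_biUnion.1 hi
    have hjJ : j ∈ J := (Finset.mem_filter.1 hj).2
    obtain ⟨hiJ, hc⟩ := hcls j hjJ i hij
    refine ⟨hiJ, ?_⟩
    rw [hc]
    exact Finset.subset_biUnion_of_mem cls hj
  have hle : ∀ (f : ℕ → ℝ), (∀ j, 0 ≤ f j) → (∀ j, j ∉ J → f j = 0) →
      ∀ T : Finset ℕ, ∑ i ∈ T, f i ≤ ∑ i ∈ sat T, f i := by
    intro f hf0 hfJ T
    have h1 : ∑ i ∈ T with i ∈ J, f i = ∑ i ∈ T, f i :=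
      Finset.sum_filter_of_ne fun i _ hi => by
        by_contra hiJ
        exact hi (hfJ i hiJ)
    rw [← h1]
    refine Finset.sum_le_sum_of_subset_of_nonneg ?_ (fun i _ _ => hf0 i)
    intro i hi
    exact Finset.mem_biUnion.2 ⟨i, hi, hself i (Finset.mem_filter.1 hi).2⟩
  have hfib : ∀ (f : ℕ → ℝ) (T : Finset ℕ),
      ∑ i ∈ sat T, f i = ∑ c ∈ (sat T).image cls, ∑ i ∈ c, f i := by
    intro f T
    rw [← Finset.sum_fiberwise_of_maps_to (g := cls) (t := (sat T).image cls)
      (fun i hi => Finset.mem_image_of_mem cls hi) f]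
    refine Finset.sum_congr rfl fun c hc => ?_
    obtain ⟨j₀, hj₀, rfl⟩ := Finset.mem_image.1 hc
    have hj₀' := hsat T j₀ hj₀
    refine Finset.sum_congr ?_ fun _ _ => rfl
    ext i
    rw [Finset.mem_filter]
    constructor
    · rintro ⟨hi, hci⟩
      rw [← hci]
      exact hself i (hsat T i hi).1
    · intro hi
      exact ⟨hj₀'.2 hi, (hcls j₀ hj₀'.1 i hi).2⟩
  have heq : ∀ T : Finset ℕ, ∑ i ∈ sat T, g i = ∑ i ∈ sat T, h i := by
    intro T
    rw [hfib g T, hfib h T]
    refine Finset.sum_congr rfl fun c hc => ?_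
    obtain ⟨j₀, hj₀, rfl⟩ := Finset.mem_image.1 hc
    exact hsum j₀ (hsat T j₀ hj₀).1
  refine hasSum_of_isLUB_of_nonneg S hh0 ⟨?_, ?_⟩
  · rintro _ ⟨T, rfl⟩
    calc ∑ i ∈ T, h i ≤ ∑ i ∈ sat T, h i := hle h hh0 hhJ T
      _ = ∑ i ∈ sat T, g i := (heq T).symm
      _ ≤ S := sum_le_hasSum _ (fun i _ => hg0 i) hS
  · intro c hc
    refine hasSum_le_of_sum_le hS fun T => ?_
    calc ∑ i ∈ T, g i ≤ ∑ i ∈ sat T, g i := hle g hg0 hgJ T
      _ = ∑ i ∈ sat T, h i := heq T
      _ ≤ c := hc ⟨sat T, rfl⟩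



/-! ## The assembly -/

section Main

variable {M : Type} [AddCommGroup M] [Module ℂ M]

/-- The span of the members of the class `a` (the body of `SD534.clsSpan`). -/
abbrev cSpan566 {A : Type} (w : ℕ → M) (J : Set ℕ) (cl : ℕ → A) (a : A) : Submodule ℂ M :=
  Submodule.span ℂ {f : M | ∃ j : ℕ, j ∈ J ∧ cl j = a ∧ f = w j}

theorem cSpan_le566 {A : Type} (w : ℕ → M) (J : Set ℕ) (cl : ℕ → A) (Wm : Submodule ℂ M)
    (hwW : ∀ j ∈ J, w j ∈ Wm) (a : A) : cSpan566 w J cl a ≤ Wm := by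
  rw [Submodule.span_le]
  rintro _ ⟨j, hj, -, rfl⟩
  exact hwW j hj

theorem form_gen_orth566 {form : M → M → ℂ} {Wm : Submodule ℂ M} (hH : IsHermOn566 form Wm)
    {A : Type} (w : ℕ → M) (J : Set ℕ) (cl : ℕ → A) (hwW : ∀ j ∈ J, w j ∈ Wm)
    (hw0 : ∀ i ∈ J, ∀ j ∈ J, i ≠ j → form (w i) (w j) = 0) {a' : A} {i : ℕ} (hi : i ∈ J)
    (hia : cl i ≠ a') {y : M} (hy : y ∈ cSpan566 w J cl a') : form (w i) y = 0 := by
  have hle := cSpan_le566 w J cl Wm hwW a'
  induction hy using Submodule.span_induction with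
  | mem y hy =>
    obtain ⟨j, hj, hcj, rfl⟩ := hy
    exact hw0 i hi j hj (fun hij => hia (by rw [hij, hcj]))
  | zero => exact hH.zero_right (hwW i hi)
  | add y z hy hz ihy ihz =>
    rw [hH.add_right (hwW i hi) (hle hy) (hle hz), ihy, ihz, add_zero]
  | smul t y hy ih =>
    rw [hH.smul_right t (hwW i hi) (hle hy), ih, mul_zero]

theorem form_class_orth566 {form : M → M → ℂ} {Wm : Submodule ℂ M} (hH : IsHermOn566 form Wm)
    {A : Type} (w : ℕ → M) (J : Set ℕ) (cl : ℕ → A) (hwW : ∀ j ∈ J, w j ∈ Wm)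
    (hw0 : ∀ i ∈ J, ∀ j ∈ J, i ≠ j → form (w i) (w j) = 0) {a a' : A} (haa : a ≠ a')
    {x : M} (hx : x ∈ cSpan566 w J cl a) {y : M} (hy : y ∈ cSpan566 w J cl a') :
    form x y = 0 := by
  have hle := cSpan_le566 w J cl Wm hwW a
  have hyW := cSpan_le566 w J cl Wm hwW a' hy
  induction hx using Submodule.span_induction with
  | mem x hx =>
    obtain ⟨i, hi, hci, rfl⟩ := hx
    exact form_gen_orth566 hH w J cl hwW hw0 hi (by rw [hci]; exact haa) hy
  | zero => exact hH.zero_left hyW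
  | add x z hx hz ihx ihz =>
    rw [hH.add_left x (hle hx) z (hle hz) y hyW, ihx, ihz, add_zero]
  | smul t x hx ih =>
    rw [hH.smul_left t x (hle hx) y hyW, ih, mul_zero]

/-- **The Schur sequence** (the statement of `SD534.SchurSeqC`, class spans written out). -/
theorem schurSeq_core566 (form : M → M → ℂ) (Wm : Submodule ℂ M)
    (A : Type) (w : ℕ → M) (J : Set ℕ) (cl : ℕ → A) (Zk : ℤ → M → M) (U B : M → M)
    (hf1 : ∀ x ∈ Wm, ∀ y ∈ Wm, ∀ z ∈ Wm, form (x + y) z = form x z + form y z)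
    (hf2 : ∀ (a : ℂ), ∀ x ∈ Wm, ∀ y ∈ Wm, form (a • x) y = a * form x y)
    (hf3 : ∀ x ∈ Wm, ∀ y ∈ Wm, form y x = conj (form x y))
    (hf4 : ∀ x ∈ Wm, 0 ≤ (form x x).re)
    (hf5 : ∀ x ∈ Wm, form x x = 0 → x = 0)
    (hwW : ∀ j ∈ J, w j ∈ Wm)
    (hw1 : ∀ j ∈ J, form (w j) (w j) = 1)
    (hw0 : ∀ i ∈ J, ∀ j ∈ J, i ≠ j → form (w i) (w j) = 0)
    (hpars : ∀ χ ∈ Wm, HasSum (fun j : J => ‖form χ (w j)‖ ^ 2) (form χ χ).re)
    (hfin : ∀ j₀ ∈ J, {j : ℕ | j ∈ J ∧ cl j = cl j₀}.Finite)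
    (hadd : ∀ a : A, ∀ x ∈ cSpan566 w J cl a, ∀ y ∈ cSpan566 w J cl a,
      U (x + y) = U x + U y ∧ B (x + y) = B x + B y ∧ ∀ k : ℤ, Zk k (x + y) = Zk k x + Zk k y)
    (hsmul : ∀ (a : A) (t : ℂ), ∀ x ∈ cSpan566 w J cl a,
      U (t • x) = t • U x ∧ B (t • x) = t • B x ∧ ∀ k : ℤ, Zk k (t • x) = t • Zk k x)
    (hpres : ∀ a : A, ∀ x ∈ cSpan566 w J cl a,
      U x ∈ cSpan566 w J cl a ∧ B x ∈ cSpan566 w J cl a ∧ ∀ k : ℤ, Zk k x ∈ cSpan566 w J cl a)
    (hcomm : ∀ a : A, ∀ x ∈ cSpan566 w J cl a,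
      B (U x) = U (B x) ∧ (∀ k : ℤ, B (Zk k x) = Zk k (B x)) ∧
        ∀ k : ℤ, U (Zk k x) = Zk k (U x))
    (hgrp : ∀ a : A, ∀ x ∈ cSpan566 w J cl a,
      Zk 0 x = x ∧ ∀ k k' : ℤ, Zk (k + k') x = Zk k (Zk k' x)) :
    ∃ (e : ℕ → M) (b l x : ℕ → ℂ),
      (∀ j ∈ J, e j ∈ cSpan566 w J cl (cl j)) ∧
      (∀ j ∈ J, form (e j) (e j) = 1) ∧
      (∀ i ∈ J, ∀ j ∈ J, i ≠ j → form (e i) (e j) = 0) ∧
      (∀ χ ∈ Wm, HasSum (fun j : J => ‖form χ (e j)‖ ^ 2) (form χ χ).re) ∧
      (∀ j ∈ J, ∀ (k : ℤ) (m : ℕ),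
        form (B (Zk k (U^[m] (e j)))) (e j) = x j * b j ^ k * l j ^ m) ∧
      ∀ j ∈ J, ∃ y ∈ cSpan566 w J cl (cl j), y ≠ 0 ∧ Zk 1 y = b j • y ∧ U y = l j • y := by
  classical
  have hH : IsHermOn566 form Wm := ⟨hf1, hf2, hf3, hf4, hf5⟩
  -- class by class
  have key : ∀ a : A, ∃ (ε : ℕ → M) (b l x : ℕ → ℂ),
      ∀ hf : {j : ℕ | j ∈ J ∧ cl j = a}.Finite,
        (∀ j ∈ J, cl j = a → ε j ∈ cSpan566 w J cl a) ∧
        (∀ j ∈ J, cl j = a → form (ε j) (ε j) = 1) ∧
        (∀ i ∈ J, cl i = a → ∀ j ∈ J, cl j = a → i ≠ j → form (ε i) (ε j) = 0) ∧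
        (∀ χ ∈ Wm, ∑ j ∈ hf.toFinset, ‖form χ (ε j)‖ ^ 2
          = ∑ j ∈ hf.toFinset, ‖form χ (w j)‖ ^ 2) ∧
        (∀ j ∈ J, cl j = a → ∀ (k : ℤ) (m : ℕ),
          form (B (Zk k (U^[m] (ε j)))) (ε j) = x j * b j ^ k * l j ^ m) ∧
        (∀ j ∈ J, cl j = a →
          ∃ y ∈ cSpan566 w J cl a, y ≠ 0 ∧ Zk 1 y = b j • y ∧ U y = l j • y) := by
    intro a
    by_cases hf : {j : ℕ | j ∈ J ∧ cl j = a}.Finite
    swap
    · exact ⟨fun _ => 0, fun _ => 0, fun _ => 0, fun _ => 0, fun h => absurd h hf⟩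
    have hs : ∀ j, j ∈ hf.toFinset ↔ j ∈ J ∧ cl j = a := fun j => hf.mem_toFinset
    let u : hf.toFinset → M := fun j => w j
    have hrange : {f : M | ∃ j : ℕ, j ∈ J ∧ cl j = a ∧ f = w j} = Set.range u := by
      ext f
      constructor
      · rintro ⟨j, hj, hc, rfl⟩
        exact ⟨⟨j, (hs j).2 ⟨hj, hc⟩⟩, rfl⟩
      · rintro ⟨⟨j, hj⟩, rfl⟩
        exact ⟨j, ((hs j).1 hj).1, ((hs j).1 hj).2, rfl⟩
    have huW : ∀ i, u i ∈ Wm := fun i => hwW i ((hs i).1 i.2).1
    have hu1 : ∀ i, form (u i) (u i) = 1 := fun i => hw1 i ((hs i).1 i.2).1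
    have hu0 : ∀ i j, i ≠ j → form (u i) (u j) = 0 := fun i j hij =>
      hw0 i ((hs i).1 i.2).1 j ((hs j).1 j.2).1 (fun h => hij (Subtype.ext h))
    have hEq : cSpan566 w J cl a = Submodule.span ℂ (Set.range u) := by
      show Submodule.span ℂ _ = _
      rw [hrange]
    have hle : cSpan566 w J cl a ≤ Wm := cSpan_le566 w J cl Wm hwW a
    have hfd : FiniteDimensional ℂ (cSpan566 w J cl a) :=
      FiniteDimensional.span_of_finite ℂ (by rw [hrange]; exact Set.finite_range u)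
    have hfr : finrank ℂ (cSpan566 w J cl a) = Fintype.card hf.toFinset := by
      rw [hEq]
      exact finrank_span_orth566 form hH u huW hu1 hu0
    obtain ⟨ε, b, l, x, hεE, hε1, hε0, hdiag, heig⟩ :=
      schur_class566 form (cSpan566 w J cl a) (hH.mono hle) Zk U B (hadd a) (hsmul a)
        (hpres a) (hcomm a) (hgrp a) (ι := hf.toFinset) hfr.symm
    refine ⟨fun j => if hj : j ∈ hf.toFinset then ε ⟨j, hj⟩ else 0,
      fun j => if hj : j ∈ hf.toFinset then b ⟨j, hj⟩ else 0,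
      fun j => if hj : j ∈ hf.toFinset then l ⟨j, hj⟩ else 0,
      fun j => if hj : j ∈ hf.toFinset then x ⟨j, hj⟩ else 0,
      fun _ => ⟨?_, ?_, ?_, ?_, ?_, ?_⟩⟩
    · intro j hj hc
      have hjs : j ∈ hf.toFinset := (hs j).2 ⟨hj, hc⟩
      simp only [dif_pos hjs]
      exact hεE _
    · intro j hj hc
      have hjs : j ∈ hf.toFinset := (hs j).2 ⟨hj, hc⟩
      simp only [dif_pos hjs]
      exact hε1 _
    · intro i hi hci j hj hcj hij
      have his : i ∈ hf.toFinset := (hs i).2 ⟨hi, hci⟩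
      have hjs : j ∈ hf.toFinset := (hs j).2 ⟨hj, hcj⟩
      simp only [dif_pos his, dif_pos hjs]
      exact hε0 _ _ (fun h => hij (congrArg Subtype.val h))
    · intro χ hχ
      rw [← Finset.sum_coe_sort hf.toFinset (fun j => ‖form χ (w j)‖ ^ 2),
        ← Finset.sum_coe_sort hf.toFinset
          (fun j => ‖form χ (if hj : j ∈ hf.toFinset then ε ⟨j, hj⟩ else 0)‖ ^ 2)]
      have h1 : ∀ i : hf.toFinset,
          (if hj : (i : ℕ) ∈ hf.toFinset then ε ⟨i, hj⟩ else 0) = ε i := fun i => by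
        rw [dif_pos i.2]
      simp only [h1]
      exact parseval_eq566 form hH u huW hu1 hu0 ε (fun i => hEq ▸ hεE i) hε1 hε0 rfl χ hχ
    · intro j hj hc k m
      have hjs : j ∈ hf.toFinset := (hs j).2 ⟨hj, hc⟩
      simp only [dif_pos hjs]
      exact hdiag _ k m
    · intro j hj hc
      have hjs : j ∈ hf.toFinset := (hs j).2 ⟨hj, hc⟩
      simp only [dif_pos hjs]
      exact heig _
  choose ε b l x hkey using key
  refine ⟨fun j => ε (cl j) j, fun j => b (cl j) j, fun j => l (cl j) j, fun j => x (cl j) j,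
    ?_, ?_, ?_, ?_, ?_, ?_⟩
  · intro j hj
    exact (hkey (cl j) (hfin j hj)).1 j hj rfl
  · intro j hj
    exact (hkey (cl j) (hfin j hj)).2.1 j hj rfl
  · intro i hi j hj hij
    by_cases hc : cl i = cl j
    · have h1 := (hkey (cl j) (hfin j hj)).2.2.1 i hi hc j hj rfl hij
      show form (ε (cl i) i) (ε (cl j) j) = 0
      rw [hc]
      exact h1
    · exact form_class_orth566 hH w J cl hwW hw0 hc
        ((hkey (cl i) (hfin i hi)).1 i hi rfl) ((hkey (cl j) (hfin j hj)).1 j hj rfl)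
  · intro χ hχ
    have hS : HasSum ((fun j : ℕ => ‖form χ (w j)‖ ^ 2) ∘ (Subtype.val : J → ℕ))
        (form χ χ).re := hpars χ hχ
    have hgS := hasSum_subtype_iff_indicator.1 hS
    let clsF : A → Finset ℕ := fun a =>
      if hf : {j : ℕ | j ∈ J ∧ cl j = a}.Finite then hf.toFinset else ∅
    have hmem : ∀ j ∈ J, ∀ i, i ∈ clsF (cl j) ↔ i ∈ J ∧ cl i = cl j := by
      intro j hj i
      simp only [clsF, dif_pos (hfin j hj), Set.Finite.mem_toFinset, Set.mem_ofPred_eq]
    have hres := hasSum_regroup566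
      (J.indicator fun j : ℕ => ‖form χ (w j)‖ ^ 2)
      (J.indicator fun j : ℕ => ‖form χ (ε (cl j) j)‖ ^ 2)
      (fun j => Set.indicator_nonneg (fun _ _ => by positivity) j)
      (fun j => Set.indicator_nonneg (fun _ _ => by positivity) j)
      J (fun j hj => Set.indicator_of_notMem hj _) (fun j hj => Set.indicator_of_notMem hj _)
      (fun j => clsF (cl j))
      (fun j hj => (hmem j hj j).2 ⟨hj, rfl⟩)
      (fun j hj i hi => ⟨((hmem j hj i).1 hi).1, by
        show clsF (cl i) = clsF (cl j)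
        rw [((hmem j hj i).1 hi).2]⟩)
      (fun j hj => by
        have hcj : clsF (cl j) = (hfin j hj).toFinset := by
          simp only [clsF, dif_pos (hfin j hj)]
        have h1 := (hkey (cl j) (hfin j hj)).2.2.2.1 χ hχ
        rw [hcj]
        rw [Finset.sum_congr rfl (fun i hi => Set.indicator_of_mem
            (((hfin j hj).mem_toFinset.1 hi).1 : i ∈ J) _),
          Finset.sum_congr rfl (fun i hi => Set.indicator_of_mem
            (((hfin j hj).mem_toFinset.1 hi).1 : i ∈ J) _)]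
        rw [← h1]
        refine Finset.sum_congr rfl fun i hi => ?_
        rw [((hfin j hj).mem_toFinset.1 hi).2])
      (form χ χ).re hgS
    exact hasSum_subtype_iff_indicator.2 hres
  · intro j hj k m
    exact (hkey (cl j) (hfin j hj)).2.2.2.2.1 j hj rfl k m
  · intro j hj
    exact (hkey (cl j) (hfin j hj)).2.2.2.2.2 j hj rfl

end Main

end Fermat.Agent.LT.T7.H566

end

end
-- ===== PACK-END LT/T7/H566/SchurGlobal.lean

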