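import Mathlib
import Fermat.Agent.Pack.LT3.E2L0
import Fermat.Agent.Pack.LT3.E4L1
import Fermat.Agent.Pack.LT3.E3L1
import Fermat.Agent.Pack.LT3.E3L2
import Fermat.Agent.Pack.LT3.E5L0

set_option linter.all false

-- ===== PACK-BEGIN LT/T6/H281/CartanR.lean
section



/-!
# Row LT, tower T6, sub-leaf T6.23.07 `CartanRC` (registry row 1469, helper281)

OFF-MAIN.  Cartan decomposition of `GL₂(ℝ)⁺` with the values of the parameters:
`g = e^r k_{θ₁} a_t k_{θ₂}`, `r = log (det g) / 2`, `t = arcosh ρ(g)`.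

Route: write `g = !![a, b; c, d]`, `D = det g > 0`, `σ = e^{log D / 2}` (`σ² = D`), and
`α = ((a + d) + i (c - b)) / (2σ)`, `β = ((a - d) + i (c + b)) / (2σ)`
(`g / σ` acts on `ℂ = ℝ²` as `z ↦ α z + β z̄`).  Then `|α|² - |β|² = 1`, `|α|² + |β|² = ρ(g)`,
hence `|α| = cosh (t/2)`, `|β| = sinh (t/2)`, and `θ₁ = (arg α + arg β)/2`,
`θ₂ = (arg α - arg β)/2` work.
-/

set_option autoImplicit false

open scoped Matrix

noncomputable section

namespace Fermat.Agent.LT.T6.H281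

open Fermat.Agent.LT.T6.H189

/-- The entries of `e^r k_{θ₁} a_t k_{θ₂}`. -/
theorem polEntries281 (r θ₁ t θ₂ : ℝ) :
    ((sclR r * rotR θ₁ * atR t * rotR θ₂ : GL (Fin 2) ℝ) : Matrix (Fin 2) (Fin 2) ℝ) =
      !![Real.exp r * (Real.cos θ₁ * Real.exp (t / 2) * Real.cos θ₂
            - Real.sin θ₁ * Real.exp (-(t / 2)) * Real.sin θ₂),
         Real.exp r * (-(Real.cos θ₁ * Real.exp (t / 2) * Real.sin θ₂)
            - Real.sin θ₁ * Real.exp (-(t / 2)) * Real.cos θ₂);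
         Real.exp r * (Real.sin θ₁ * Real.exp (t / 2) * Real.cos θ₂
            + Real.cos θ₁ * Real.exp (-(t / 2)) * Real.sin θ₂),
         Real.exp r * (-(Real.sin θ₁ * Real.exp (t / 2) * Real.sin θ₂)
            + Real.cos θ₁ * Real.exp (-(t / 2)) * Real.cos θ₂)] := by
  ext i j
  fin_cases i <;> fin_cases j <;>
    simp [sclR, rotR, atR, dgR, Matrix.GeneralLinearGroup.mkOfDetNeZero, Matrix.mul_apply,
      Fin.sum_univ_two] <;> ring

/-- `ρ(g)` in terms of the entries. -/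
theorem rhoP_entries281 (g : GL (Fin 2) ℝ) :
    rhoP g =
      ((g : Matrix (Fin 2) (Fin 2) ℝ) 0 0 ^ 2 + (g : Matrix (Fin 2) (Fin 2) ℝ) 0 1 ^ 2
        + (g : Matrix (Fin 2) (Fin 2) ℝ) 1 0 ^ 2 + (g : Matrix (Fin 2) (Fin 2) ℝ) 1 1 ^ 2) /
      (2 * ((g : Matrix (Fin 2) (Fin 2) ℝ) 0 0 * (g : Matrix (Fin 2) (Fin 2) ℝ) 1 1
        - (g : Matrix (Fin 2) (Fin 2) ℝ) 0 1 * (g : Matrix (Fin 2) (Fin 2) ℝ) 1 0)) := by
  unfold rhoP
  rw [Matrix.det_fin_two, Matrix.trace_fin_two]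
  simp only [Matrix.mul_apply, Matrix.transpose_apply, Fin.sum_univ_two]
  congr 1
  ring

/-- Scalar core of the Cartan decomposition: the four entries. -/
theorem cartanCore281 (a b c d : ℝ) (hD : 0 < a * d - b * c) (σ : ℝ) (hσ0 : 0 < σ)
    (hσ2 : σ ^ 2 = a * d - b * c) (t : ℝ) (ht0 : 0 ≤ t)
    (hcosh : Real.cosh t = (a ^ 2 + b ^ 2 + c ^ 2 + d ^ 2) / (2 * (a * d - b * c))) :
    ∃ θ₁ θ₂ : ℝ,
      a = σ * (Real.cos θ₁ * Real.exp (t / 2) * Real.cos θ₂
            - Real.sin θ₁ * Real.exp (-(t / 2)) * Real.sin θ₂) ∧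
      b = σ * (-(Real.cos θ₁ * Real.exp (t / 2) * Real.sin θ₂)
            - Real.sin θ₁ * Real.exp (-(t / 2)) * Real.cos θ₂) ∧
      c = σ * (Real.sin θ₁ * Real.exp (t / 2) * Real.cos θ₂
            + Real.cos θ₁ * Real.exp (-(t / 2)) * Real.sin θ₂) ∧
      d = σ * (-(Real.sin θ₁ * Real.exp (t / 2) * Real.sin θ₂)
            + Real.cos θ₁ * Real.exp (-(t / 2)) * Real.cos θ₂) := by
  have hσne : σ ≠ 0 := hσ0.ne'
  have hDne : a * d - b * c ≠ 0 := hD.ne'
  -- hyperbolic data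
  have hCS1 : Real.cosh (t / 2) ^ 2 = Real.sinh (t / 2) ^ 2 + 1 := Real.cosh_sq (t / 2)
  have hCS2 : Real.cosh t = Real.cosh (t / 2) ^ 2 + Real.sinh (t / 2) ^ 2 := by
    have h := Real.cosh_two_mul (t / 2)
    rwa [show 2 * (t / 2) = t by ring] at h
  have hC0 : 0 < Real.cosh (t / 2) := Real.cosh_pos _
  have hS0 : 0 ≤ Real.sinh (t / 2) := Real.sinh_nonneg_iff.mpr (by positivity)
  have e1 : Real.exp (t / 2) = Real.cosh (t / 2) + Real.sinh (t / 2) :=
    (Real.cosh_add_sinh _).symm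
  have e2 : Real.exp (-(t / 2)) = Real.cosh (t / 2) - Real.sinh (t / 2) :=
    (Real.cosh_sub_sinh _).symm
  -- the relation between `ρ`, `σ` and the entries
  have hρ : (Real.cosh (t / 2) ^ 2 + Real.sinh (t / 2) ^ 2) * (2 * σ ^ 2)
      = a ^ 2 + b ^ 2 + c ^ 2 + d ^ 2 := by
    rw [← hCS2, hcosh, hσ2]
    field_simp
  -- the two complex numbers
  obtain ⟨α, hα⟩ : ∃ α : ℂ, α = ⟨(a + d) / (2 * σ), (c - b) / (2 * σ)⟩ := ⟨_, rfl⟩
  obtain ⟨β, hβ⟩ : ∃ β : ℂ, β = ⟨(a - d) / (2 * σ), (c + b) / (2 * σ)⟩ := ⟨_, rfl⟩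
  have hαre : α.re = (a + d) / (2 * σ) := by rw [hα]
  have hαim : α.im = (c - b) / (2 * σ) := by rw [hα]
  have hβre : β.re = (a - d) / (2 * σ) := by rw [hβ]
  have hβim : β.im = (c + b) / (2 * σ) := by rw [hβ]
  have hα2 : ‖α‖ ^ 2 = Real.cosh (t / 2) ^ 2 := by
    rw [Complex.sq_norm, Complex.normSq_apply, hαre, hαim]
    have h4 : (4 : ℝ) * σ ^ 2 ≠ 0 := by positivity
    field_simp
    nlinarith [hρ, hCS1, hσ2]
  have hβ2 : ‖β‖ ^ 2 = Real.sinh (t / 2) ^ 2 := by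
    rw [Complex.sq_norm, Complex.normSq_apply, hβre, hβim]
    have h4 : (4 : ℝ) * σ ^ 2 ≠ 0 := by positivity
    field_simp
    nlinarith [hρ, hCS1, hσ2]
  have hαC : ‖α‖ = Real.cosh (t / 2) := (sq_eq_sq₀ (norm_nonneg _) hC0.le).mp hα2
  have hβS : ‖β‖ = Real.sinh (t / 2) := (sq_eq_sq₀ (norm_nonneg _) hS0).mp hβ2
  have h1 : Real.cosh (t / 2) * Real.cos α.arg = (a + d) / (2 * σ) := by
    rw [← hαC, ← hαre]; exact Complex.norm_mul_cos_arg α
  have h2 : Real.cosh (t / 2) * Real.sin α.arg = (c - b) / (2 * σ) := by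
    rw [← hαC, ← hαim]; exact Complex.norm_mul_sin_arg α
  have h3 : Real.sinh (t / 2) * Real.cos β.arg = (a - d) / (2 * σ) := by
    rw [← hβS, ← hβre]; exact Complex.norm_mul_cos_arg β
  have h4 : Real.sinh (t / 2) * Real.sin β.arg = (c + b) / (2 * σ) := by
    rw [← hβS, ← hβim]; exact Complex.norm_mul_sin_arg β
  -- the angles
  have hφ : α.arg = (α.arg + β.arg) / 2 + (α.arg - β.arg) / 2 := by ring
  have hψ : β.arg = (α.arg + β.arg) / 2 - (α.arg - β.arg) / 2 := by ring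
  have c1 := Real.cos_add ((α.arg + β.arg) / 2) ((α.arg - β.arg) / 2)
  have s1 := Real.sin_add ((α.arg + β.arg) / 2) ((α.arg - β.arg) / 2)
  have c2 := Real.cos_sub ((α.arg + β.arg) / 2) ((α.arg - β.arg) / 2)
  have s2 := Real.sin_sub ((α.arg + β.arg) / 2) ((α.arg - β.arg) / 2)
  rw [← hφ] at c1 s1
  rw [← hψ] at c2 s2
  rw [c1] at h1
  rw [s1] at h2
  rw [c2] at h3
  rw [s2] at h4
  refine ⟨(α.arg + β.arg) / 2, (α.arg - β.arg) / 2, ?_, ?_, ?_, ?_⟩
  · rw [e1, e2]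
    have : a = σ * ((a + d) / (2 * σ) + (a - d) / (2 * σ)) := by field_simp; ring
    rw [this, ← h1, ← h3]; ring
  · rw [e1, e2]
    have : b = σ * ((c + b) / (2 * σ) - (c - b) / (2 * σ)) := by field_simp; ring
    rw [this, ← h2, ← h4]; ring
  · rw [e1, e2]
    have : c = σ * ((c + b) / (2 * σ) + (c - b) / (2 * σ)) := by field_simp; ring
    rw [this, ← h2, ← h4]; ring
  · rw [e1, e2]
    have : d = σ * ((a + d) / (2 * σ) - (a - d) / (2 * σ)) := by field_simp; ring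
    rw [this, ← h1, ← h3]; ring

/-- **T6.23.07 `CartanRC`**: the Cartan decomposition of `GL₂(ℝ)⁺`. -/
theorem cartanRC_h281 : CartanRC := by
  intro g hg
  have hdet : (g : Matrix (Fin 2) (Fin 2) ℝ).det
      = (g : Matrix (Fin 2) (Fin 2) ℝ) 0 0 * (g : Matrix (Fin 2) (Fin 2) ℝ) 1 1
        - (g : Matrix (Fin 2) (Fin 2) ℝ) 0 1 * (g : Matrix (Fin 2) (Fin 2) ℝ) 1 0 :=
    Matrix.det_fin_two _
  have hD : 0 < (g : Matrix (Fin 2) (Fin 2) ℝ) 0 0 * (g : Matrix (Fin 2) (Fin 2) ℝ) 1 1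
        - (g : Matrix (Fin 2) (Fin 2) ℝ) 0 1 * (g : Matrix (Fin 2) (Fin 2) ℝ) 1 0 := by
    rw [← hdet]; exact hg
  have hρ := rhoP_entries281 g
  have hρ1 : 1 ≤ rhoP g := by
    rw [hρ, le_div_iff₀ (by positivity)]
    nlinarith [sq_nonneg ((g : Matrix (Fin 2) (Fin 2) ℝ) 0 0 - (g : Matrix (Fin 2) (Fin 2) ℝ) 1 1),
      sq_nonneg ((g : Matrix (Fin 2) (Fin 2) ℝ) 0 1 + (g : Matrix (Fin 2) (Fin 2) ℝ) 1 0)]
  refine ⟨hρ1, ?_⟩
  have hσ2 : Real.exp (Real.log (g : Matrix (Fin 2) (Fin 2) ℝ).det / 2) ^ 2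
      = (g : Matrix (Fin 2) (Fin 2) ℝ) 0 0 * (g : Matrix (Fin 2) (Fin 2) ℝ) 1 1
        - (g : Matrix (Fin 2) (Fin 2) ℝ) 0 1 * (g : Matrix (Fin 2) (Fin 2) ℝ) 1 0 := by
    rw [← Real.exp_nat_mul]
    have : ((2 : ℕ) : ℝ) * (Real.log (g : Matrix (Fin 2) (Fin 2) ℝ).det / 2)
        = Real.log (g : Matrix (Fin 2) (Fin 2) ℝ).det := by push_cast; ring
    rw [this, Real.exp_log hg, hdet]
  have hcosh : Real.cosh (Real.arcosh (rhoP g)) = _ := (Real.cosh_arcosh hρ1).trans hρ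
  obtain ⟨θ₁, θ₂, ha, hb, hc, hd⟩ := cartanCore281 _ _ _ _ hD _ (Real.exp_pos _) hσ2
    (Real.arcosh (rhoP g)) (Real.arcosh_nonneg hρ1) hcosh
  refine ⟨θ₁, θ₂, ?_⟩
  apply Matrix.GeneralLinearGroup.ext
  intro i j
  rw [polEntries281]
  fin_cases i <;> fin_cases j
  · simpa using ha
  · simpa using hb
  · simpa using hc
  · simpa using hd

end Fermat.Agent.LT.T6.H281

end

end
-- ===== PACK-END LT/T6/H281/CartanR.lean

-- ===== PACK-BEGIN LT/T6/H127/AbelAreaR.lean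
section



/-!
# Row LT, tower T6, leaf T6.23.09 `AbelAreaRC` (helper127)

OFF-MAIN.  Mathlib + `T6/H189/ArchIntSpec.lean`, `ArchIntCut.lean` (vendored byte-identical) only.
No hole, nothing assumed.

`abelAreaRC127 : H189.AbelAreaRC`, i.e.

`(s, x) ↦ cosh s + e^s x² / 2` pushes the Lebesgue measure of the plane to `2π ·` the image of
`sinh t dt` (on `t > 0`) under `cosh`.

Route (for a measurable `φ ≥ 0`): Tonelli; `x = √2 e^{-s/2} v`; symmetrise `s ↦ -s`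
(`e^{-s/2} + e^{s/2} = 2 cosh (s/2)`); `w = √2 sinh (s/2)` (`1 + w² = cosh s`); polar coordinates
in the `(w, v)` plane; `r = √2 sinh (t/2)` on the half line (`2 r dr = sinh t dt`).
-/

set_option autoImplicit false

open MeasureTheory Set
open scoped ENNReal

noncomputable section

namespace Fermat.Agent.LT.T6.H127

/-- The substitution `w = √2 sinh (s / 2)`. -/
def abelW (s : ℝ) : ℝ := Real.sqrt 2 * Real.sinh (s / 2)

theorem hasDerivAt_abelW (s : ℝ) :
    HasDerivAt abelW (Real.sqrt 2 / 2 * Real.cosh (s / 2)) s := by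
  have h1 : HasDerivAt (fun s : ℝ => s / 2) (1 / 2) s := by
    simpa using (hasDerivAt_id s).div_const 2
  have h2 : HasDerivAt (fun s : ℝ => Real.sinh (s / 2)) (Real.cosh (s / 2) * (1 / 2)) s :=
    h1.sinh
  have h3 : HasDerivAt (fun s : ℝ => Real.sqrt 2 * Real.sinh (s / 2))
      (Real.sqrt 2 * (Real.cosh (s / 2) * (1 / 2))) s := h2.const_mul (Real.sqrt 2)
  have e : Real.sqrt 2 / 2 * Real.cosh (s / 2) = Real.sqrt 2 * (Real.cosh (s / 2) * (1 / 2)) := by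
    ring
  rw [e]
  exact h3

theorem abelW_injective : Function.Injective abelW := by
  intro a b hab
  have h2 : (0 : ℝ) < Real.sqrt 2 := Real.sqrt_pos.mpr (by norm_num)
  have h := mul_left_cancel₀ h2.ne' hab
  have := Real.sinh_injective h
  linarith

theorem abelW_surjective : Function.Surjective abelW := by
  intro w
  have h2 : (0 : ℝ) < Real.sqrt 2 := Real.sqrt_pos.mpr (by norm_num)
  obtain ⟨u, hu⟩ := Real.sinh_surjective (w / Real.sqrt 2)
  refine ⟨2 * u, ?_⟩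
  unfold abelW
  rw [show 2 * u / 2 = u by ring, hu]
  field_simp

theorem one_add_abelW_sq (s : ℝ) : 1 + abelW s ^ 2 = Real.cosh s := by
  have h2 : Real.sqrt 2 ^ 2 = 2 := Real.sq_sqrt (by norm_num)
  have h := Real.cosh_two_mul (s / 2)
  have h' := Real.cosh_sq (s / 2)
  rw [show 2 * (s / 2) = s by ring] at h
  unfold abelW
  rw [mul_pow, h2, h, h']
  ring

theorem abelW_pos_iff (s : ℝ) : 0 < abelW s ↔ 0 < s := by
  have h2 : (0 : ℝ) < Real.sqrt 2 := Real.sqrt_pos.mpr (by norm_num)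
  unfold abelW
  rw [mul_pos_iff_of_pos_left h2, Real.sinh_pos_iff]
  constructor <;> intro h <;> linarith

theorem abelW_mul_deriv (s : ℝ) :
    2 * ((Real.sqrt 2 / 2 * Real.cosh (s / 2)) * abelW s) = Real.sinh s := by
  have h2 : Real.sqrt 2 * Real.sqrt 2 = 2 := Real.mul_self_sqrt (by norm_num)
  have h := Real.sinh_two_mul (s / 2)
  rw [show 2 * (s / 2) = s by ring] at h
  unfold abelW
  rw [h]
  linear_combination (Real.cosh (s / 2) * Real.sinh (s / 2)) * h2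

/-- The substitution `w = √2 sinh (s / 2)` on the line. -/
theorem lintegral_comp_abelW (g : ℝ → ℝ≥0∞) :
    ∫⁻ w, g w = ∫⁻ s, ENNReal.ofReal (Real.sqrt 2 / 2 * Real.cosh (s / 2)) * g (abelW s) := by
  have h := lintegral_image_eq_lintegral_abs_deriv_mul (s := univ) (f := abelW)
    (f' := fun s => Real.sqrt 2 / 2 * Real.cosh (s / 2)) MeasurableSet.univ
    (fun x _ => (hasDerivAt_abelW x).hasDerivWithinAt) abelW_injective.injOn g
  rw [image_univ, abelW_surjective.range_eq, Measure.restrict_univ] at h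
  rw [h]
  refine lintegral_congr fun s => ?_
  have h2 : (0 : ℝ) < Real.sqrt 2 := Real.sqrt_pos.mpr (by norm_num)
  rw [abs_of_pos (mul_pos (by positivity) (Real.cosh_pos _))]

/-- The substitution `w = √2 sinh (s / 2)` on the half line. -/
theorem setLIntegral_comp_abelW (g : ℝ → ℝ≥0∞) :
    ∫⁻ w in Ioi 0, g w
      = ∫⁻ s in Ioi 0, ENNReal.ofReal (Real.sqrt 2 / 2 * Real.cosh (s / 2)) * g (abelW s) := by
  rw [← lintegral_indicator measurableSet_Ioi, lintegral_comp_abelW,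
    ← lintegral_indicator measurableSet_Ioi]
  refine lintegral_congr fun s => ?_
  by_cases hs : 0 < s
  · have hw : 0 < abelW s := (abelW_pos_iff s).mpr hs
    rw [indicator_of_mem (show abelW s ∈ Ioi (0 : ℝ) from hw),
      indicator_of_mem (show s ∈ Ioi (0 : ℝ) from hs)]
  · have hw : ¬ 0 < abelW s := fun h => hs ((abelW_pos_iff s).mp h)
    rw [indicator_of_notMem (show abelW s ∉ Ioi (0 : ℝ) from hw),
      indicator_of_notMem (show s ∉ Ioi (0 : ℝ) from hs), mul_zero]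

/-! ## The chain -/

/-- Scaling on the line: `∫ h (a x) dx = a⁻¹ ∫ h`. -/
theorem lintegral_comp_mul_left_pos {a : ℝ} (ha : 0 < a) {h : ℝ → ℝ≥0∞} (hh : Measurable h) :
    ∫⁻ x, h (a * x) = ENNReal.ofReal a⁻¹ * ∫⁻ v, h v := by
  have e := Real.map_volume_mul_left ha.ne'
  have e2 : ∫⁻ y, h y ∂(Measure.map (fun x => a * x) volume) = ∫⁻ x, h (a * x) :=
    lintegral_map hh (measurable_const_mul a)
  rw [← e2, e, lintegral_smul_measure, abs_of_pos (inv_pos.mpr ha)]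
  rfl

/-- The inner integral in `x`. -/
theorem abel_inner {φ : ℝ → ℝ≥0∞} (hφ : Measurable φ) (s : ℝ) :
    ∫⁻ x, φ (Real.cosh s + Real.exp s * x ^ 2 / 2)
      = ENNReal.ofReal (Real.sqrt 2 * Real.exp (-(s / 2))) * ∫⁻ v, φ (Real.cosh s + v ^ 2) := by
  have h2 : (0 : ℝ) < Real.sqrt 2 := Real.sqrt_pos.mpr (by norm_num)
  have h22 : Real.sqrt 2 ^ 2 = 2 := Real.sq_sqrt (by norm_num)
  have ha : 0 < Real.exp (s / 2) / Real.sqrt 2 := div_pos (Real.exp_pos _) h2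
  have hm : Measurable fun v : ℝ => φ (Real.cosh s + v ^ 2) :=
    hφ.comp (measurable_const.add (measurable_id.pow_const 2))
  have key := lintegral_comp_mul_left_pos ha hm
  have e1 : ∀ x : ℝ, Real.cosh s + (Real.exp (s / 2) / Real.sqrt 2 * x) ^ 2
      = Real.cosh s + Real.exp s * x ^ 2 / 2 := by
    intro x
    have he : Real.exp s = Real.exp (s / 2) ^ 2 := by
      rw [← Real.exp_nat_mul]; congr 1; push_cast; ring
    rw [he]
    field_simp
    rw [h22]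
  have e2 : (Real.exp (s / 2) / Real.sqrt 2)⁻¹ = Real.sqrt 2 * Real.exp (-(s / 2)) := by
    rw [Real.exp_neg]
    field_simp
  simp only [e1] at key
  rw [key, e2]

/-- The function `G s = ∫ φ (cosh s + v²) dv`. -/
theorem measurable_abelG {φ : ℝ → ℝ≥0∞} (hφ : Measurable φ) :
    Measurable fun s : ℝ => ∫⁻ v, φ (Real.cosh s + v ^ 2) := by
  have hm : Measurable fun p : ℝ × ℝ => φ (Real.cosh p.1 + p.2 ^ 2) :=
    hφ.comp ((Real.measurable_cosh.comp measurable_fst).add (measurable_snd.pow_const 2))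
  exact hm.lintegral_prod_right'

/-- Step 1: Tonelli and the scaling. -/
theorem abel_step1 {φ : ℝ → ℝ≥0∞} (hφ : Measurable φ) :
    ∫⁻ p : ℝ × ℝ, φ (Real.cosh p.1 + Real.exp p.1 * p.2 ^ 2 / 2)
      = ∫⁻ s, ENNReal.ofReal (Real.sqrt 2 * Real.exp (-(s / 2))) *
          ∫⁻ v, φ (Real.cosh s + v ^ 2) := by
  have hm : Measurable fun p : ℝ × ℝ => φ (Real.cosh p.1 + Real.exp p.1 * p.2 ^ 2 / 2) :=
    hφ.comp ((Real.measurable_cosh.comp measurable_fst).add
      (((Real.measurable_exp.comp measurable_fst).mul (measurable_snd.pow_const 2)).div_const 2))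
  rw [Measure.volume_eq_prod, lintegral_prod _ hm.aemeasurable]
  exact lintegral_congr fun s => abel_inner hφ s

/-- Step 2: the symmetrisation `s ↦ -s`. -/
theorem abel_step2 {φ : ℝ → ℝ≥0∞} (hφ : Measurable φ) :
    (∫⁻ s, ENNReal.ofReal (Real.sqrt 2 * Real.exp (-(s / 2))) * ∫⁻ v, φ (Real.cosh s + v ^ 2))
      + (∫⁻ s, ENNReal.ofReal (Real.sqrt 2 * Real.exp (-(s / 2))) *
          ∫⁻ v, φ (Real.cosh s + v ^ 2))
      = 4 * ∫⁻ w, ∫⁻ v, φ (1 + w ^ 2 + v ^ 2) := by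
  have h2 : (0 : ℝ) < Real.sqrt 2 := Real.sqrt_pos.mpr (by norm_num)
  have hG := measurable_abelG hφ
  have hneg : ∫⁻ s, ENNReal.ofReal (Real.sqrt 2 * Real.exp (-(s / 2))) *
        ∫⁻ v, φ (Real.cosh s + v ^ 2)
      = ∫⁻ s, ENNReal.ofReal (Real.sqrt 2 * Real.exp (s / 2)) *
        ∫⁻ v, φ (Real.cosh s + v ^ 2) := by
    have h := lintegral_neg_eq_self (μ := (volume : Measure ℝ))
      (fun s => ENNReal.ofReal (Real.sqrt 2 * Real.exp (-(s / 2))) *
        ∫⁻ v, φ (Real.cosh s + v ^ 2))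
    rw [← h]
    refine lintegral_congr fun s => ?_
    simp only [Real.cosh_neg, neg_div, neg_neg]
  have hm1 : Measurable fun s : ℝ => ENNReal.ofReal (Real.sqrt 2 * Real.exp (-(s / 2))) *
      ∫⁻ v, φ (Real.cosh s + v ^ 2) := by
    refine Measurable.mul ?_ hG
    exact ENNReal.measurable_ofReal.comp
      (measurable_const.mul (Real.measurable_exp.comp (measurable_id.div_const 2).neg))
  have hsum : (∫⁻ s, ENNReal.ofReal (Real.sqrt 2 * Real.exp (-(s / 2))) *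
        ∫⁻ v, φ (Real.cosh s + v ^ 2))
      + (∫⁻ s, ENNReal.ofReal (Real.sqrt 2 * Real.exp (-(s / 2))) *
          ∫⁻ v, φ (Real.cosh s + v ^ 2))
      = ∫⁻ s, (ENNReal.ofReal (Real.sqrt 2 * Real.exp (-(s / 2))) *
          ∫⁻ v, φ (Real.cosh s + v ^ 2))
        + ENNReal.ofReal (Real.sqrt 2 * Real.exp (s / 2)) *
          ∫⁻ v, φ (Real.cosh s + v ^ 2) := by
    rw [lintegral_add_left hm1, ← hneg]
  rw [hsum]
  rw [lintegral_comp_abelW (fun w => ∫⁻ v, φ (1 + w ^ 2 + v ^ 2)),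
    ← lintegral_const_mul' 4 _ (by norm_num)]
  refine lintegral_congr fun s => ?_
  simp only [one_add_abelW_sq]
  rw [← add_mul, ← mul_assoc]
  congr 1
  have hc : Real.exp (-(s / 2)) + Real.exp (s / 2) = 2 * Real.cosh (s / 2) := by
    rw [Real.cosh_eq]; ring
  rw [← ENNReal.ofReal_add (by positivity) (by positivity),
    show (4 : ℝ≥0∞) = ENNReal.ofReal 4 by norm_num,
    ← ENNReal.ofReal_mul (by norm_num)]
  congr 1
  rw [← mul_add, hc]
  ring

/-- Step 3: polar coordinates in the plane. -/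
theorem abel_step3 {φ : ℝ → ℝ≥0∞} (hφ : Measurable φ) :
    ∫⁻ w, ∫⁻ v, φ (1 + w ^ 2 + v ^ 2)
      = ENNReal.ofReal (2 * Real.pi) * ∫⁻ r in Ioi 0, ENNReal.ofReal r * φ (1 + r ^ 2) := by
  have hm : Measurable fun p : ℝ × ℝ => φ (1 + p.1 ^ 2 + p.2 ^ 2) :=
    hφ.comp ((measurable_const.add (measurable_fst.pow_const 2)).add (measurable_snd.pow_const 2))
  have h1 : ∫⁻ w, ∫⁻ v, φ (1 + w ^ 2 + v ^ 2) = ∫⁻ p : ℝ × ℝ, φ (1 + p.1 ^ 2 + p.2 ^ 2) := by
    rw [Measure.volume_eq_prod, lintegral_prod _ hm.aemeasurable]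
  rw [h1, ← lintegral_comp_polarCoord_symm]
  have h2 : ∀ p : ℝ × ℝ, ENNReal.ofReal p.1 • φ (1 + (polarCoord.symm p).1 ^ 2 +
      (polarCoord.symm p).2 ^ 2) = ENNReal.ofReal p.1 * φ (1 + p.1 ^ 2) := by
    intro p
    rw [smul_eq_mul, polarCoord_symm_apply]
    congr 2
    have := Real.cos_sq_add_sin_sq p.2
    simp only
    linear_combination p.1 ^ 2 * this
  simp only [h2]
  have hm2 : Measurable fun p : ℝ × ℝ => ENNReal.ofReal p.1 * φ (1 + p.1 ^ 2) :=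
    (ENNReal.measurable_ofReal.comp measurable_fst).mul
      (hφ.comp (measurable_const.add (measurable_fst.pow_const 2)))
  rw [polarCoord_target, Measure.volume_eq_prod, ← Measure.prod_restrict,
    lintegral_prod _ hm2.aemeasurable]
  simp only [lintegral_const, Measure.restrict_apply_univ, Real.volume_Ioo]
  rw [show Real.pi - -Real.pi = 2 * Real.pi by ring, ← lintegral_const_mul' _ _ ENNReal.ofReal_ne_top]
  refine lintegral_congr fun r => ?_
  rw [mul_comm]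

/-- Step 4: the substitution `r = √2 sinh (t / 2)` on the half line. -/
theorem abel_step4 (φ : ℝ → ℝ≥0∞) :
    2 * ∫⁻ r in Ioi 0, ENNReal.ofReal r * φ (1 + r ^ 2)
      = ∫⁻ t in Ioi 0, ENNReal.ofReal (Real.sinh t) * φ (Real.cosh t) := by
  rw [setLIntegral_comp_abelW, ← lintegral_const_mul' 2 _ (by norm_num)]
  refine lintegral_congr fun s => ?_
  simp only [one_add_abelW_sq]
  rw [← mul_assoc, ← mul_assoc]
  congr 1
  by_cases hs : 0 ≤ abelW s
  · rw [show (2 : ℝ≥0∞) = ENNReal.ofReal 2 by norm_num,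
      ← ENNReal.ofReal_mul (by norm_num), ← ENNReal.ofReal_mul (by positivity),
      ← abelW_mul_deriv s]
    congr 1
    ring
  · have hneg : abelW s < 0 := not_le.mp hs
    have hd : 0 < Real.sqrt 2 / 2 * Real.cosh (s / 2) :=
      mul_pos (div_pos (Real.sqrt_pos.mpr (by norm_num)) (by norm_num)) (Real.cosh_pos _)
    have h1 : Real.sinh s ≤ 0 := by
      rw [← abelW_mul_deriv s]
      nlinarith [mul_neg_of_pos_of_neg hd hneg]
    rw [ENNReal.ofReal_of_nonpos hneg.le, ENNReal.ofReal_of_nonpos h1, mul_zero]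

/-- The integral form of the Abel area formula:
`∫∫ φ (cosh s + e^s x² / 2) dx ds = 2π ∫_{t > 0} sinh t φ (cosh t) dt`. -/
theorem abel_lintegral {φ : ℝ → ℝ≥0∞} (hφ : Measurable φ) :
    ∫⁻ p : ℝ × ℝ, φ (Real.cosh p.1 + Real.exp p.1 * p.2 ^ 2 / 2)
      = ENNReal.ofReal (2 * Real.pi) *
          ∫⁻ t in Ioi 0, ENNReal.ofReal (Real.sinh t) * φ (Real.cosh t) := by
  rw [abel_step1 hφ]
  have h2 := abel_step2 hφ
  rw [abel_step3 hφ] at h2
  have h4 := abel_step4 φ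
  have h5 : (2 : ℝ≥0∞) * ∫⁻ s, ENNReal.ofReal (Real.sqrt 2 * Real.exp (-(s / 2))) *
        ∫⁻ v, φ (Real.cosh s + v ^ 2)
      = 2 * (ENNReal.ofReal (2 * Real.pi) *
          ∫⁻ t in Ioi 0, ENNReal.ofReal (Real.sinh t) * φ (Real.cosh t)) := by
    rw [two_mul, h2, ← h4]
    have : (4 : ℝ≥0∞) = 2 * 2 := by norm_num
    rw [this]
    ring
  exact (ENNReal.mul_right_inj (by norm_num) (by norm_num)).mp h5

/-- **The Abel area formula** as an identity of measures on `ℝ`. -/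
theorem abelArea_measure :
    Measure.map (fun p : ℝ × ℝ => Real.cosh p.1 + Real.exp p.1 * p.2 ^ 2 / 2)
        (volume : Measure (ℝ × ℝ))
      = ENNReal.ofReal (2 * Real.pi) • Measure.map Real.cosh
          ((volume.restrict (Set.Ioi (0 : ℝ))).withDensity
            fun t => ENNReal.ofReal (Real.sinh t)) := by
  have hmF : Measurable fun p : ℝ × ℝ => Real.cosh p.1 + Real.exp p.1 * p.2 ^ 2 / 2 :=
    (Real.measurable_cosh.comp measurable_fst).add
      (((Real.measurable_exp.comp measurable_fst).mul (measurable_snd.pow_const 2)).div_const 2)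
  have hms : Measurable fun t : ℝ => ENNReal.ofReal (Real.sinh t) :=
    ENNReal.measurable_ofReal.comp Real.measurable_sinh
  refine Measure.ext_of_lintegral _ fun φ hφ => ?_
  have hw : ∫⁻ a, φ (Real.cosh a) ∂((volume.restrict (Set.Ioi (0 : ℝ))).withDensity
        fun t => ENNReal.ofReal (Real.sinh t))
      = ∫⁻ t in Ioi 0, ENNReal.ofReal (Real.sinh t) * φ (Real.cosh t) :=
    lintegral_withDensity_eq_lintegral_mul _ hms (hφ.comp Real.measurable_cosh)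
  rw [lintegral_map hφ hmF, lintegral_smul_measure, lintegral_map hφ Real.measurable_cosh, hw,
    smul_eq_mul]
  exact abel_lintegral hφ

/-- **T6.23.09 `AbelAreaRC`**, verbatim. -/
theorem abelAreaRC127 : H189.AbelAreaRC := abelArea_measure

end Fermat.Agent.LT.T6.H127

end

end
-- ===== PACK-END LT/T6/H127/AbelAreaR.lean

-- ===== PACK-BEGIN LT/T6/H179/LocRegSpec.lean
section


/-!
# Row LT, tower T6, leaf T6.18f `LocRegC783` (local matching at a REGULAR point): SUB-SPEC (helper179)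

OFF-MAIN.  Definitions + frozen sub-leaf Props.  The PROVED top is in `LocRegTop.lean`:

* `locReg_of_leaves179 : NormOpenC179 → OrdC179 → TwC179 → H783.LocRegC783`.

Mathlib + `T6/Spec.lean` (helper22) + `H783/BadSpec.lean` (helper783) only.

## The cut ([L] §6, step 2 of the header of `BadSpec.lean`)

`γ₀ ∈ GL₂(k)` regular, `χ(γ₀) = (tr γ₀, det γ₀)`; `Near179 γ₀ N γ` = `γ` lies in the `χ`-ball of
radius `exp(-N)` around `χ(γ₀)`.

* `NormalFormC179` (algebra + square root): `γ` near `γ₀` is conjugate in `GL₂(k)` to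
  `a + b γ₀`, `(a, b)` near `(0, 1)` (`b² = disc γ / disc γ₀`, `a = (tr γ - b tr γ₀) / 2`; two
  non-scalar matrices with the same characteristic polynomial are conjugate).
* `RootC179` (`l`-th roots near `1` in `k[γ₀]`, characteristic `0`, complete).
* `NearC179` (`⇐ NormalFormC179 + RootC179`): `γ` near `γ₀` is conjugate to `t ^ l γ₀`,
  `t = a + b γ₀`, `(a, b)` near `(1, 0)`, `t ^ l γ₀ = A + B γ₀`, `(A, B)` near `(0, 1)`.
* `NormOpenC179` (`⇐ NearC179`): being a norm is constant near `γ₀`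
  (`N(i(t) δ₀) = i(t ^ l γ₀)` if `N δ₀ = i(γ₀)`).
* `OrdC179` (`⇐ NormalFormC179`): there is a test function `f₀` (e.g. the indicator of
  `U(m) γ₀ U(m)`) whose orbit sums are a non-zero constant near `γ₀`
  (`y ↦ a + b y` maps the class of `γ₀` onto that of `a + b γ₀`, commutes with conjugation,
  preserves centralisers and `Ω`).
* `TwC179` (`⇐ NearC179`, `NormInjC`, `TwCentC`): the twisted orbit sums of `φ` are constant on
  the norms near `γ₀` (`y ↦ (a + b N(y)) y` maps the `s`-class of `δ₀` onto that of `i(t) δ₀`).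
-/

set_option autoImplicit false

open scoped Matrix

noncomputable section

namespace Fermat.Agent.LT.T6.H179

open Fermat.Agent.LT.T6 Fermat.Agent.LT.T6.H783

/-- `γ` lies in the `χ`-ball of radius `exp(-N)` around `χ(γ₀) = (tr γ₀, det γ₀)`. -/
def Near179 {k : Type} [Field k] [Valued k Γ₀] (γ₀ : GL (Fin 2) k) (N : ℤ)
    (γ : GL (Fin 2) k) : Prop :=
  InChiBall783 (γ₀ : Matrix (Fin 2) (Fin 2) k).trace (γ₀ : Matrix (Fin 2) (Fin 2) k).det N γ

/-- **T6.18f.1 (normal form near a regular point).**  `γ` with `χ(γ)` near `χ(γ₀)` is conjugate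
in `GL₂(k)` to `a + b γ₀` with `(a, b)` near `(0, 1)`. -/
def NormalFormC179 : Prop :=
  ∀ (k : Type) [Field k] [Valued k Γ₀] (q : ℕ), IsLocalField k q →
    ∀ γ₀ : GL (Fin 2) k, IsReg γ₀ → ∀ M : ℤ, ∃ N : ℤ, ∀ γ : GL (Fin 2) k, Near179 γ₀ N γ →
      ∃ (g : GL (Fin 2) k) (a b : k),
        Valued.v a ≤ WithZero.exp (-M) ∧ Valued.v (b - 1) ≤ WithZero.exp (-M) ∧
        ((g⁻¹ * γ * g : GL (Fin 2) k) : Matrix (Fin 2) (Fin 2) k)
          = a • (1 : Matrix (Fin 2) (Fin 2) k) + b • (γ₀ : Matrix (Fin 2) (Fin 2) k)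

/-- **T6.18f.2 (`l`-th roots near `1` in `k[γ₀]`).**  Every `a + b γ₀` with `(a, b)` near
`(1, 0)` is `(a' + b' γ₀) ^ l` with `(a', b')` near `(1, 0)` (Hensel / Newton in the
two-dimensional commutative algebra `k[γ₀]`; `k` complete of characteristic `0`). -/
def RootC179 : Prop :=
  ∀ (k : Type) [Field k] [Valued k Γ₀] (q : ℕ), IsLocalField k q → ∀ l : ℕ, 0 < l →
    ∀ γ₀ : GL (Fin 2) k, IsReg γ₀ → ∀ M : ℤ, ∃ N : ℤ, ∀ a b : k,
      Valued.v (a - 1) ≤ WithZero.exp (-N) → Valued.v b ≤ WithZero.exp (-N) →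
      ∃ a' b' : k, Valued.v (a' - 1) ≤ WithZero.exp (-M) ∧ Valued.v b' ≤ WithZero.exp (-M) ∧
        (a' • (1 : Matrix (Fin 2) (Fin 2) k) + b' • (γ₀ : Matrix (Fin 2) (Fin 2) k)) ^ l
          = a • (1 : Matrix (Fin 2) (Fin 2) k) + b • (γ₀ : Matrix (Fin 2) (Fin 2) k)

/-- **T6.18f.3 (the elements near a regular point).**  `γ` with `χ(γ)` near `χ(γ₀)` is conjugate
in `GL₂(k)` to `t ^ l γ₀`, `t = a + b γ₀ ∈ GL₂(k)`, `(a, b)` near `(1, 0)`, and
`t ^ l γ₀ = A + B γ₀` with `(A, B)` near `(0, 1)`. -/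
def NearC179 : Prop :=
  ∀ (k : Type) [Field k] [Valued k Γ₀] (q : ℕ), IsLocalField k q → ∀ l : ℕ, 0 < l →
    ∀ γ₀ : GL (Fin 2) k, IsReg γ₀ → ∀ M : ℤ, ∃ N : ℤ, ∀ γ : GL (Fin 2) k, Near179 γ₀ N γ →
      ∃ (g t : GL (Fin 2) k) (a b A B : k),
        Valued.v (a - 1) ≤ WithZero.exp (-M) ∧ Valued.v b ≤ WithZero.exp (-M) ∧
        Valued.v A ≤ WithZero.exp (-M) ∧ Valued.v (B - 1) ≤ WithZero.exp (-M) ∧
        (t : Matrix (Fin 2) (Fin 2) k)
          = a • (1 : Matrix (Fin 2) (Fin 2) k) + b • (γ₀ : Matrix (Fin 2) (Fin 2) k) ∧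
        ((t ^ l * γ₀ : GL (Fin 2) k) : Matrix (Fin 2) (Fin 2) k)
          = A • (1 : Matrix (Fin 2) (Fin 2) k) + B • (γ₀ : Matrix (Fin 2) (Fin 2) k) ∧
        γ = g * (t ^ l * γ₀) * g⁻¹

/-- **T6.18f.4 (the norms are open and closed in the regular set).**  Near a regular `γ₀` either
every `γ` is a norm or none is. -/
def NormOpenC179 : Prop :=
  ∀ (k k' : Type) [Field k] [Field k'] [Valued k Γ₀] [Valued k' Γ₀] (q l e : ℕ)
    (i : k →+* k') (s : k' ≃+* k'),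
    IsLocalField k q → IsLocalField k' (q ^ (l / e)) → IsLocalExt k k' l e i s →
    ∀ γ₀ : GL (Fin 2) k, IsReg γ₀ → ∃ N : ℤ, ∀ γ : GL (Fin 2) k, Near179 γ₀ N γ →
      (IsNormFrom l i s γ ↔ IsNormFrom l i s γ₀)

/-- **T6.18f.5 (ordinary side).**  There is a test function whose orbit sums are a NON-ZERO
CONSTANT near the regular point `γ₀`. -/
def OrdC179 : Prop :=
  ∀ (k : Type) [Field k] [Valued k Γ₀] (q : ℕ), IsLocalField k q →
    ∀ γ₀ : GL (Fin 2) k, IsReg γ₀ →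
      ∃ (N : ℤ) (m : ℕ) (f₀ : GL (Fin 2) k → ℂ) (κ : ℂ), κ ≠ 0 ∧
        IsBiInv (InU m) f₀ ∧ HasFinSupp (InU m) f₀ ∧
        ∀ (γ : GL (Fin 2) k) (c : ℂ), Near179 γ₀ N γ → IsOrbSum m f₀ γ c → c = κ

/-- **T6.18f.6 (twisted side).**  The twisted orbit sums of `φ` are constant on the norms near
the regular point `γ₀`. -/
def TwC179 : Prop :=
  ∀ (k k' : Type) [Field k] [Field k'] [Valued k Γ₀] [Valued k' Γ₀] (q l e : ℕ)
    (i : k →+* k') (s : k' ≃+* k') (n : ℕ) (φ : GL (Fin 2) k' → ℂ),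
    BadData783 k k' q l e i s n φ →
    ∀ γ₀ : GL (Fin 2) k, IsReg γ₀ → ∃ N : ℤ,
      ∀ (γ γ' : GL (Fin 2) k) (δ δ' : GL (Fin 2) k') (c c' : ℂ),
        Near179 γ₀ N γ → Near179 γ₀ N γ' →
        IsConj (twNorm s l δ) (Matrix.GeneralLinearGroup.map i γ) →
        IsConj (twNorm s l δ') (Matrix.GeneralLinearGroup.map i γ') →
        IsTwOrbSum s n φ δ c → IsTwOrbSum s n φ δ' c' → c = c'

end Fermat.Agent.LT.T6.H179

end

end
-- ===== PACK-END LT/T6/H179/LocRegSpec.lean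

-- ===== PACK-BEGIN LT/T6/H888/DiagReduce.lean
section


/-!
# Row LT, tower T6, leaf T6.12c `DiagReduceC` (helper888), OFF-MAIN

`diagReduceC888 : Fermat.Agent.LT.T6.H288.DiagReduceC`  (sub-spec of helper288, registry row 917).

`γ ∈ GL₂(K)` regular with an eigenvalue in `K`, `N δ` conjugate to `γ` in `GL₂(K')`:
then `γ` is conjugate to `diag(t₁, t₂)`, `t₁ ≠ t₂`, and `δ` is `s`-conjugate to `diag(d₁, d₂)`
with `N d_j = t_j`.

Proof.  (1) explicit diagonalisation of a `2 × 2` matrix with two distinct eigenvalues in `K`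
(three cases: `b ≠ 0`, `c ≠ 0`, diagonal).  (2) `N(x⁻¹ δ s(x)) = x⁻¹ N(δ) sˡ(x)`, so after an
`s`-conjugation `N δ' = D = diag(t₁, t₂)`.  (3) `δ' s(N δ') = N δ' sˡ(δ')`, so `δ'` commutes with `D`
and is diagonal.  (4) the norm of a diagonal matrix is the diagonal matrix of the norms.
Mathlib + `T6/Spec.lean` + `T6/H288/HypSpec.lean` only.
-/

set_option autoImplicit false

open scoped Matrix

noncomputable section

namespace Fermat.Agent.LT.T6.H888

open Fermat.Agent.LT.T6 Fermat.Agent.LT.T6.H288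

/-! ## Twisted norms in a group with an endomorphism -/

section Grp

variable {Γ : Type} [Group Γ] (s : Γ →* Γ)

/-- `N_n(x⁻¹ δ s(x)) = x⁻¹ N_n(δ) sⁿ(x)`. -/
theorem twN_twConj888 (x δ : Γ) (n : ℕ) :
    twN s n (x⁻¹ * δ * s x) = x⁻¹ * twN s n δ * (s^[n]) x := by
  induction n with
  | zero => simp [twN]
  | succ n ih =>
    simp only [twN, ih, map_mul, map_inv, Function.iterate_succ_apply']
    group

/-- `δ s(N_n δ) = N_n(δ) sⁿ(δ)`. -/
theorem twN_mul_iterate888 (δ : Γ) (n : ℕ) :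
    δ * s (twN s n δ) = twN s n δ * (s^[n]) δ := by
  induction n with
  | zero => simp [twN]
  | succ n ih =>
    have h1 : twN s (n + 1) δ = δ * s (twN s n δ) := rfl
    rw [h1, ih, map_mul, Function.iterate_succ_apply', ← mul_assoc, ih]

end Grp

/-! ## Iterates of `glAut` -/

section Aut

variable {R : Type} [CommRing R]

theorem glAut_apply888 (s : R ≃+* R) (g : GL (Fin 2) R) (a b : Fin 2) :
    ((glAut s g : GL (Fin 2) R) : Matrix (Fin 2) (Fin 2) R) a b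
      = s ((g : Matrix (Fin 2) (Fin 2) R) a b) := by
  simp [glAut, Matrix.GeneralLinearGroup.map_apply]

theorem glAut_iterate_apply888 (s : R ≃+* R) (n : ℕ) (g : GL (Fin 2) R) (a b : Fin 2) :
    ((((glAut s)^[n]) g : GL (Fin 2) R) : Matrix (Fin 2) (Fin 2) R) a b
      = (s ^ n) ((g : Matrix (Fin 2) (Fin 2) R) a b) := by
  induction n with
  | zero => simp
  | succ n ih =>
    rw [Function.iterate_succ_apply', glAut_apply888, ih, pow_succ', RingAut.mul_apply]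

theorem glAut_iterate_eq_self888 (s : R ≃+* R) (n : ℕ) (h : ∀ y : R, (s ^ n) y = y)
    (g : GL (Fin 2) R) : ((glAut s)^[n]) g = g := by
  apply Matrix.GeneralLinearGroup.ext
  intro a b
  rw [glAut_iterate_apply888, h]

end Aut

/-! ## The norm of a diagonal matrix -/

section Diag

variable {k' : Type} [Field k']

theorem twNorm_diag888 (s : k' ≃+* k') (d₁ d₂ : k') (δ₀ : GL (Fin 2) k')
    (hδ₀ : (δ₀ : Matrix (Fin 2) (Fin 2) k') = !![d₁, 0; 0, d₂]) (n : ℕ) :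
    ((twNorm s n δ₀ : GL (Fin 2) k') : Matrix (Fin 2) (Fin 2) k')
      = !![fNorm s n d₁, 0; 0, fNorm s n d₂] := by
  induction n with
  | zero =>
    have h0 : twNorm s 0 δ₀ = 1 := rfl
    rw [h0]
    ext a b
    fin_cases a <;> fin_cases b <;> simp [fNorm]
  | succ n ih =>
    have h1 : twNorm s (n + 1) δ₀ = δ₀ * glAut s (twNorm s n δ₀) := rfl
    rw [h1, Matrix.GeneralLinearGroup.coe_mul, hδ₀]
    ext a b
    fin_cases a <;> fin_cases b <;>
      simp [Matrix.mul_apply, Fin.sum_univ_two, glAut_apply888, ih, fNorm]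

end Diag

/-! ## Diagonalisation of a regular `2 × 2` matrix with an eigenvalue in `K` -/

section Diagonalise

variable {K : Type} [Field K]

theorem mul_eig_b888 (a b c d t₁ t₂ : K) (hs : t₁ + t₂ = a + d) (hp : t₁ * t₂ = a * d - b * c) :
    (!![a, b; c, d] : Matrix (Fin 2) (Fin 2) K) * !![b, b; t₁ - a, t₂ - a]
      = !![b, b; t₁ - a, t₂ - a] * !![t₁, 0; 0, t₂] := by
  have e00 : a * b + b * (t₁ - a) = b * t₁ + b * 0 := by ring
  have e01 : a * b + b * (t₂ - a) = b * 0 + b * t₂ := by ring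
  have e10 : c * b + d * (t₁ - a) = (t₁ - a) * t₁ + (t₂ - a) * 0 := by
    linear_combination hp - t₁ * hs
  have e11 : c * b + d * (t₂ - a) = (t₁ - a) * 0 + (t₂ - a) * t₂ := by
    linear_combination hp - t₂ * hs
  rw [Matrix.mul_fin_two, Matrix.mul_fin_two, e00, e01, e10, e11]

theorem mul_eig_c888 (a b c d t₁ t₂ : K) (hs : t₁ + t₂ = a + d) (hp : t₁ * t₂ = a * d - b * c) :
    (!![a, b; c, d] : Matrix (Fin 2) (Fin 2) K) * !![t₁ - d, t₂ - d; c, c]
      = !![t₁ - d, t₂ - d; c, c] * !![t₁, 0; 0, t₂] := by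
  have e00 : a * (t₁ - d) + b * c = (t₁ - d) * t₁ + (t₂ - d) * 0 := by
    linear_combination hp - t₁ * hs
  have e01 : a * (t₂ - d) + b * c = (t₁ - d) * 0 + (t₂ - d) * t₂ := by
    linear_combination hp - t₂ * hs
  have e10 : c * (t₁ - d) + d * c = c * t₁ + c * 0 := by ring
  have e11 : c * (t₂ - d) + d * c = c * 0 + c * t₂ := by ring
  rw [Matrix.mul_fin_two, Matrix.mul_fin_two, e00, e01, e10, e11]

/-- If `γ P = P γ₀` in `GL₂(K)` then `γ` and `γ₀` are conjugate. -/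
theorem isConj_of_mul_eq888 (γ γ₀ P : GL (Fin 2) K) (h : γ * P = P * γ₀) : IsConj γ γ₀ := by
  rw [isConj_iff]
  refine ⟨P⁻¹, ?_⟩
  rw [inv_inv, mul_assoc, h, ← mul_assoc, inv_mul_cancel, one_mul]

theorem det_ne_zero888 (γ : GL (Fin 2) K) : (γ : Matrix (Fin 2) (Fin 2) K).det ≠ 0 :=
  ((Matrix.isUnit_iff_isUnit_det _).mp γ.isUnit).ne_zero

/-- A matrix with the shape `!![a, b; c, d]`, two distinct eigenvalues `t₁, t₂ ∈ K` and an
invertible matrix `P` of eigenvectors. -/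
theorem isConj_diag_of_eig888 (γ : GL (Fin 2) K) (a b c d t₁ t₂ : K)
    (hγ : (γ : Matrix (Fin 2) (Fin 2) K) = !![a, b; c, d])
    (hp : t₁ * t₂ = a * d - b * c)
    (P : Matrix (Fin 2) (Fin 2) K) (hP : P.det ≠ 0)
    (hmul : (!![a, b; c, d] : Matrix (Fin 2) (Fin 2) K) * P = P * !![t₁, 0; 0, t₂]) :
    ∃ γ₀ : GL (Fin 2) K, (γ₀ : Matrix (Fin 2) (Fin 2) K) = !![t₁, 0; 0, t₂] ∧ IsConj γ γ₀ := by
  have hdet : a * d - b * c ≠ 0 := by
    have h := det_ne_zero888 γ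
    rw [hγ, Matrix.det_fin_two] at h
    simpa using h
  have hD : (!![t₁, 0; 0, t₂] : Matrix (Fin 2) (Fin 2) K).det ≠ 0 := by
    rw [Matrix.det_fin_two]
    simpa [hp] using hdet
  refine ⟨Matrix.GeneralLinearGroup.mkOfDetNeZero _ hD, rfl, ?_⟩
  apply isConj_of_mul_eq888 γ _ (Matrix.GeneralLinearGroup.mkOfDetNeZero P hP)
  apply Units.ext
  change (γ : Matrix (Fin 2) (Fin 2) K) * P = P * !![t₁, 0; 0, t₂]
  rw [hγ]
  exact hmul

theorem diag_of_reg888 (γ : GL (Fin 2) K) (hreg : IsReg γ) (x : K)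
    (hx : x ^ 2 - (γ : Matrix (Fin 2) (Fin 2) K).trace * x
      + (γ : Matrix (Fin 2) (Fin 2) K).det = 0) :
    ∃ (t₁ t₂ : K) (γ₀ : GL (Fin 2) K), t₁ ≠ t₂ ∧
      (γ₀ : Matrix (Fin 2) (Fin 2) K) = !![t₁, 0; 0, t₂] ∧ IsConj γ γ₀ := by
  obtain ⟨a, b, c, d, hγ⟩ : ∃ a b c d : K, (γ : Matrix (Fin 2) (Fin 2) K) = !![a, b; c, d] :=
    ⟨_, _, _, _, Matrix.eta_fin_two _⟩
  have hdisc : (a + d) ^ 2 - 4 * (a * d - b * c) ≠ 0 := by
    have h := hreg.ne_zero
    unfold disc at h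
    rw [hγ, Matrix.trace_fin_two, Matrix.det_fin_two] at h
    simpa using h
  have hx' : x ^ 2 - (a + d) * x + (a * d - b * c) = 0 := by
    rw [hγ, Matrix.trace_fin_two, Matrix.det_fin_two] at hx
    simpa using hx
  by_cases hb : b = 0
  · by_cases hc : c = 0
    · -- diagonal case
      refine ⟨a, d, γ, ?_, ?_, IsConj.refl γ⟩
      · intro h
        apply hdisc
        rw [hb, h]
        ring
      · rw [hγ, hb, hc]
    · -- `c ≠ 0`
      have hs : x + (a + d - x) = a + d := by ring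
      have hp : x * (a + d - x) = a * d - b * c := by linear_combination -hx'
      have hne : x ≠ a + d - x := by
        intro h
        apply hdisc
        linear_combination (-4 : K) * hx' + (2 * x - a - d) * h
      have hP : (!![x - d, (a + d - x) - d; c, c] : Matrix (Fin 2) (Fin 2) K).det ≠ 0 := by
        rw [Matrix.det_fin_two]
        have : (x - d) * c - ((a + d - x) - d) * c = c * (x - (a + d - x)) := by ring
        simp only [Matrix.of_apply, Matrix.cons_val', Matrix.cons_val_zero, Matrix.cons_val_one,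
          Matrix.cons_val_fin_one]
        rw [this]
        exact mul_ne_zero hc (sub_ne_zero.mpr hne)
      obtain ⟨γ₀, hγ₀, hconj⟩ := isConj_diag_of_eig888 γ a b c d x (a + d - x) hγ hp _ hP
        (mul_eig_c888 a b c d x (a + d - x) hs hp)
      exact ⟨x, a + d - x, γ₀, hne, hγ₀, hconj⟩
  · -- `b ≠ 0`
    have hs : x + (a + d - x) = a + d := by ring
    have hp : x * (a + d - x) = a * d - b * c := by linear_combination -hx'
    have hne : x ≠ a + d - x := by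
      intro h
      apply hdisc
      linear_combination (-4 : K) * hx' + (2 * x - a - d) * h
    have hP : (!![b, b; x - a, (a + d - x) - a] : Matrix (Fin 2) (Fin 2) K).det ≠ 0 := by
      rw [Matrix.det_fin_two]
      have : b * ((a + d - x) - a) - b * (x - a) = b * ((a + d - x) - x) := by ring
      simp only [Matrix.of_apply, Matrix.cons_val', Matrix.cons_val_zero, Matrix.cons_val_one,
        Matrix.cons_val_fin_one]
      rw [this]
      exact mul_ne_zero hb (sub_ne_zero.mpr hne.symm)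
    obtain ⟨γ₀, hγ₀, hconj⟩ := isConj_diag_of_eig888 γ a b c d x (a + d - x) hγ hp _ hP
      (mul_eig_b888 a b c d x (a + d - x) hs hp)
    exact ⟨x, a + d - x, γ₀, hne, hγ₀, hconj⟩

end Diagonalise

/-! ## The leaf -/

theorem diagReduceC888 : DiagReduceC := by
  intro K K' _ _ l i s hcyc δ γ hreg hroot hconj
  obtain ⟨x, hx⟩ := hroot
  obtain ⟨t₁, t₂, γ₀, hne, hγ₀, hconjγ⟩ := diag_of_reg888 γ hreg x hx
  set D : GL (Fin 2) K' := Matrix.GeneralLinearGroup.map i γ₀ with hD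
  have h1 : IsConj (twNorm s l δ) D :=
    hconj.trans ((Matrix.GeneralLinearGroup.map i).map_isConj hconjγ)
  obtain ⟨c, hc⟩ := isConj_iff.mp h1
  have hDm : (D : Matrix (Fin 2) (Fin 2) K') = !![i t₁, 0; 0, i t₂] := by
    ext a b
    rw [hD, Matrix.GeneralLinearGroup.map_apply, hγ₀]
    fin_cases a <;> fin_cases b <;> simp
  have hsD : glAut s D = D := by
    apply Matrix.GeneralLinearGroup.ext
    intro a b
    rw [glAut_apply888, hDm]
    fin_cases a <;> fin_cases b <;> simp [hcyc.fix_i]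
  set δ' : GL (Fin 2) K' := (c⁻¹)⁻¹ * δ * glAut s c⁻¹ with hδ'
  have hl : ∀ g : GL (Fin 2) K', ((glAut s)^[l]) g = g :=
    glAut_iterate_eq_self888 s l hcyc.order
  have hN : twN (glAut s) l δ' = D := by
    rw [hδ', twN_twConj888, hl, inv_inv]
    exact hc
  have hcomm : δ' * D = D * δ' := by
    have h := twN_mul_iterate888 (glAut s) δ' l
    rw [hl, hN, hsD] at h
    exact h
  have hit : i t₁ ≠ i t₂ := fun h => hne (i.injective h)
  have hcm : (δ' : Matrix (Fin 2) (Fin 2) K') * !![i t₁, 0; 0, i t₂]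
      = !![i t₁, 0; 0, i t₂] * (δ' : Matrix (Fin 2) (Fin 2) K') := by
    rw [← hDm, ← Matrix.GeneralLinearGroup.coe_mul, ← Matrix.GeneralLinearGroup.coe_mul, hcomm]
  have h01 : (δ' : Matrix (Fin 2) (Fin 2) K') 0 1 = 0 := by
    have h := congrFun (congrFun hcm 0) 1
    simp only [Matrix.mul_apply, Fin.sum_univ_two, Matrix.of_apply, Matrix.cons_val',
      Matrix.cons_val_zero, Matrix.cons_val_one, Matrix.cons_val_fin_one, mul_zero, zero_add,
      zero_mul, add_zero] at h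
    have h2 : (δ' : Matrix (Fin 2) (Fin 2) K') 0 1 * (i t₂ - i t₁) = 0 := by
      linear_combination h
    rcases mul_eq_zero.mp h2 with h3 | h3
    · exact h3
    · exact absurd (sub_eq_zero.mp h3).symm hit
  have h10 : (δ' : Matrix (Fin 2) (Fin 2) K') 1 0 = 0 := by
    have h := congrFun (congrFun hcm 1) 0
    simp only [Matrix.mul_apply, Fin.sum_univ_two, Matrix.of_apply, Matrix.cons_val',
      Matrix.cons_val_zero, Matrix.cons_val_one, Matrix.cons_val_fin_one, mul_zero, zero_add,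
      zero_mul, add_zero] at h
    have h2 : (δ' : Matrix (Fin 2) (Fin 2) K') 1 0 * (i t₁ - i t₂) = 0 := by
      linear_combination h
    rcases mul_eq_zero.mp h2 with h3 | h3
    · exact h3
    · exact absurd (sub_eq_zero.mp h3) hit
  have hδm : (δ' : Matrix (Fin 2) (Fin 2) K')
      = !![(δ' : Matrix (Fin 2) (Fin 2) K') 0 0, 0; 0, (δ' : Matrix (Fin 2) (Fin 2) K') 1 1] := by
    conv_lhs => rw [Matrix.eta_fin_two (δ' : Matrix (Fin 2) (Fin 2) K')]
    rw [h01, h10]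
  have hdet : (δ' : Matrix (Fin 2) (Fin 2) K') 0 0 * (δ' : Matrix (Fin 2) (Fin 2) K') 1 1 ≠ 0 := by
    have h := det_ne_zero888 δ'
    rw [Matrix.det_fin_two, h01, h10] at h
    simpa using h
  have hNm := twNorm_diag888 s _ _ δ' hδm l
  have hNm' : (!![fNorm s l ((δ' : Matrix (Fin 2) (Fin 2) K') 0 0), 0;
      0, fNorm s l ((δ' : Matrix (Fin 2) (Fin 2) K') 1 1)] : Matrix (Fin 2) (Fin 2) K')
      = !![i t₁, 0; 0, i t₂] := by
    rw [← hNm, ← hDm]
    exact congrArg _ hN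
  refine ⟨(δ' : Matrix (Fin 2) (Fin 2) K') 0 0, (δ' : Matrix (Fin 2) (Fin 2) K') 1 1, t₁, t₂,
    δ', γ₀, hne, left_ne_zero_of_mul hdet, right_ne_zero_of_mul hdet, hδm, hγ₀, ?_, ?_,
    ⟨c⁻¹, hδ'⟩, hconjγ⟩
  · have h := congrFun (congrFun hNm' 0) 0
    simpa using h
  · have h := congrFun (congrFun hNm' 1) 1
    simpa using h

end Fermat.Agent.LT.T6.H888

end

end
-- ===== PACK-END LT/T6/H888/DiagReduce.lean

-- ===== PACK-BEGIN LT/H129/EllParamSpec.lean
section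


/-!
# Row LT, tower T6, leaf T6.14b `EllParamC` (owner helper129): THE CUT -- OFF-MAIN

Definitions only (frozen sub-leaf Props).  The top

    EllParamC ⟸ LatDecompC129 + LatRigidC129 + LatOrbitExC129 + LatOrbitUniqC129 + ReprFinC129

is proved in `LT/H129/EllParamTop.lean` (with `T6.TwCentC` of helper166, vendored).

## Notation

ONE field `k` valued in `ℤᵐ⁰` (in the application: `k'`), `τ, ν ∈ k` with `|ν| = exp(-1)`,
`|τ| < 1`, `Π² = τ Π - ν`.  `E = k[Π]`; `e(a, b) = embMat τ ν a b = a + b Π` (matrix of the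
multiplication by `a + b Π` in the basis `(1, Π)`).  Formulas:

* `e(a, b) e(c, d) = e(a c - ν b d, a d + b c + τ b d)`, `det e(a, b) = a² + τ a b + ν b²`,
  `|det e(a, b)| = max(|a|², exp(-1) |b|²)` (the two terms have different parities, and
  `|τ a b|` is strictly smaller than the maximum);
* `latMat τ ν n ξ = e(1, ξ) · diag(1, νⁿ)`, `det = νⁿ (1 + τ ξ + ν ξ²) ≠ 0` for `ξ` integral;
* `diag(1, νⁿ)⁻¹ e(A, B) diag(1, νⁿ') = !![A, -ν^(n'+1) B; B / νⁿ, ν^(n'-n) (A + τ B)]`;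
* `U = GL₂(𝒪) = {u : InU 0 u}`: `u` and `u⁻¹` have integral entries
  (`H129.inU_zero_iff129` in `LT/H129/CartanInv.lean`).
-/

set_option autoImplicit false

open scoped Matrix

noncomputable section

namespace Fermat.Agent.LT.H129

open Fermat.Agent.LT.T6 Fermat.Agent.LT.T6.H847

/-- **T6.14b.L1 (lattices of `E`: `GL₂(k) = ⊔ Π^ℤ · x_ξ g_n · GL₂(𝒪)`).**  Every `x ∈ GL₂(k)` is
`t · latGL n ξ · u` with `t = νᵐ` or `t = νᵐ Π` (`m ∈ ℤ`), `n ≥ 0`, `ξ ∈ B n`, `u ∈ GL₂(𝒪)`.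
(Columns `c₁, c₂` of `x` as elements of `E`; after a swap `|N c₁| ≥ |N c₂|`; `e = e(c₁)`:
`e⁻¹ x = !![1, a; 0, b]` with `a, b` integral, `b = νⁿ · unit`, so `x = e g_n u₁`;
`e = t · e(a₁, b₁)` with `|a₁| = 1 ≥ |b₁|`; conclude by `LatOrbitExC129` at `ξ = 0`,
`latGL n 0 = diag(1, νⁿ)`.) -/
def LatDecompC129 : Prop :=
  ∀ (k : Type) [Field k] [Valued k Γ₀] (τ ν : k),
    Valued.v ν = WithZero.exp (-1 : ℤ) → Valued.v τ < 1 →
    ∀ B : ℕ → Set k, (∀ n, IsReprMod n (B n)) →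
    ∀ x : GL (Fin 2) k, ∃ (t : GL (Fin 2) k) (m : ℤ) (n : ℕ) (ξ : k) (u : GL (Fin 2) k),
      ((t : Matrix (Fin 2) (Fin 2) k) = embMat τ ν (ν ^ m) 0 ∨
        (t : Matrix (Fin 2) (Fin 2) k) = embMat τ ν 0 (ν ^ m)) ∧
      ξ ∈ B n ∧ InU 0 u ∧ x = t * latGL τ ν n ξ * u

/-- **T6.14b.L2 (rigidity).**  If `latGL n' ξ' = t · latGL n ξ · u` with `t = e(a, b)` and
`u ∈ GL₂(𝒪)` (`ξ, ξ'` integral), then `n' = n` and `t` is a unit of `𝒪_E`: `|a| = 1`, `|b| ≤ 1`.
(`e(A, B) := e(1, ξ)⁻¹ t⁻¹ e(1, ξ')`, `u = g_n⁻¹ e(A, B) g_n'` integral with unit determinant: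
`|A| ≤ 1`, `|B| ≤ exp(-n)`, `|N(A, B)| = exp(n' - n) ≤ 1`; symmetric; then `|det t| = 1`.) -/
def LatRigidC129 : Prop :=
  ∀ (k : Type) [Field k] [Valued k Γ₀] (τ ν : k),
    Valued.v ν = WithZero.exp (-1 : ℤ) → Valued.v τ < 1 →
    ∀ (n n' : ℕ) (ξ ξ' a b : k) (t u : GL (Fin 2) k),
      Valued.v ξ ≤ 1 → Valued.v ξ' ≤ 1 →
      (t : Matrix (Fin 2) (Fin 2) k) = embMat τ ν a b → InU 0 u →
      latGL τ ν n' ξ' = t * latGL τ ν n ξ * u →
      n' = n ∧ Valued.v a = 1 ∧ Valued.v b ≤ 1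

/-- **T6.14b.L3 (the orbit of `𝒪_E^×`: existence).**  For a unit `t = e(a, b)` of `𝒪_E`
(`|a| = 1`, `|b| ≤ 1`) and `ξ` integral there is `ξ' ∈ B` with
`t · latGL n ξ ∈ latGL n ξ' · GL₂(𝒪)`.
(`t e(1, ξ) = e(a₁, b₁)`, `|a₁| = 1`; `ξ'' = b₁ / a₁`; `ξ' ∈ B` with `|ξ'' - ξ'| ≤ exp(-n)`;
`e(1, ξ')⁻¹ e(1, ξ'') = 1 + (ξ'' - ξ') e(ν ξ', 1) / N(1, ξ') ∈ 𝒪 + νⁿ 𝒪_E`.) -/
def LatOrbitExC129 : Prop :=
  ∀ (k : Type) [Field k] [Valued k Γ₀] (τ ν : k),
    Valued.v ν = WithZero.exp (-1 : ℤ) → Valued.v τ < 1 →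
    ∀ (n : ℕ) (B : Set k), IsReprMod n B →
    ∀ (ξ a b : k) (t : GL (Fin 2) k), Valued.v ξ ≤ 1 → Valued.v a = 1 → Valued.v b ≤ 1 →
      (t : Matrix (Fin 2) (Fin 2) k) = embMat τ ν a b →
      ∃ ξ' ∈ B, ∃ u : GL (Fin 2) k, InU 0 u ∧ t * latGL τ ν n ξ = latGL τ ν n ξ' * u

/-- **T6.14b.L4 (the orbit of `𝒪_E^×`: uniqueness).**  `latGL n ξ' ∈ latGL n ξ · GL₂(𝒪)` implies
`ξ' ≡ ξ mod νⁿ`.
(`u = g_n⁻¹ e(A, B) g_n`, `e(A, B) = e(1, ξ)⁻¹ e(1, ξ') = 1 + (ξ' - ξ) e(ν ξ, 1) / N(1, ξ)`,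
`B = (ξ' - ξ) / N(1, ξ)`, and the entry `(1, 0)` of `u` is `B / νⁿ`.) -/
def LatOrbitUniqC129 : Prop :=
  ∀ (k : Type) [Field k] [Valued k Γ₀] (τ ν : k),
    Valued.v ν = WithZero.exp (-1 : ℤ) → Valued.v τ < 1 →
    ∀ (n : ℕ) (ξ ξ' : k) (u : GL (Fin 2) k), Valued.v ξ ≤ 1 → Valued.v ξ' ≤ 1 → InU 0 u →
      latGL τ ν n ξ' = latGL τ ν n ξ * u → Valued.v (ξ' - ξ) ≤ WithZero.exp (-(n : ℤ))

/-- **T6.14b.L5 (systems of representatives of `𝒪 / ϖⁿ` are finite).**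
(`ϖ` a uniformiser, `T` the finite set of `IsLocalField.residue`: every integral `x` is within
`exp(-n)` of some `∑_{j<n} t_j ϖ^j`, `t_j ∈ T`; the map `B → {digit sums}` is injective by the
uniqueness in `IsReprMod`.) -/
def ReprFinC129 : Prop :=
  ∀ (k : Type) [Field k] [Valued k Γ₀] (q : ℕ), IsLocalField k q →
    ∀ (n : ℕ) (B : Set k), IsReprMod n B → B.Finite

end Fermat.Agent.LT.H129

end

end
-- ===== PACK-END LT/H129/EllParamSpec.lean

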