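import Mathlib
import Fermat.Agent.Pack.LT3.E3L1
import Fermat.Agent.Pack.LT3.E1L3
import Fermat.Agent.Pack.LT3.E4L3
import Fermat.Agent.Pack.LT3.E4L2
import Fermat.Agent.Pack.LT3.E4L0
import Fermat.Agent.Pack.LT3.E6L0

set_option linter.all false

-- ===== PACK-BEGIN LT/T6/H288/HypTop.lean
section


/-!
# Row LT, tower T6, leaf T6.12 `FLHypC`: the PROVED top from the sub-leaves (helper288)

* `orbSumDiag_of : CartanInvC → OrbitParamC → LayerCountC → OrbSumDiagC`
* `flHyp_of_leaves : CoeffCompareC → DiagReduceC → OrbSumDiagC → FLHypC`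
-/

set_option autoImplicit false

open scoped Matrix

noncomputable section

namespace Fermat.Agent.LT.T6.H288

open Fermat.Agent.LT.T6

/-! ## Small lemmas -/

theorem glAut_refl_apply {R : Type} [CommRing R] (x : GL (Fin 2) R) :
    glAut (RingEquiv.refl R) x = x := by
  apply Units.ext
  ext a b
  simp [glAut]

/-- The `s`-conjugacy class only depends on the class. -/
theorem twClass_eq {R : Type} [CommRing R] (s : R ≃+* R) {δ δ₀ : GL (Fin 2) R}
    (h : IsTwConj s δ δ₀) (y : GL (Fin 2) R) :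
    (∃ x : GL (Fin 2) R, y = x⁻¹ * δ * glAut s x)
      ↔ ∃ x : GL (Fin 2) R, y = x⁻¹ * δ₀ * glAut s x := by
  obtain ⟨g, rfl⟩ := h
  constructor
  · rintro ⟨x, rfl⟩
    refine ⟨g⁻¹ * x, ?_⟩
    simp [mul_assoc]
  · rintro ⟨x, rfl⟩
    refine ⟨g * x, ?_⟩
    simp [mul_assoc]

/-- The twisted orbit sum only depends on the `s`-conjugacy class. -/
theorem isTwOrbSum_of_twConj {k : Type} [Field k] [Valued k Γ₀] (s : k ≃+* k) (n : ℕ)
    (Φ : GL (Fin 2) k → ℂ) {δ δ₀ : GL (Fin 2) k} (h : IsTwConj s δ δ₀) {c : ℂ}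
    (hc : IsTwOrbSum s n Φ δ c) : IsTwOrbSum s n Φ δ₀ c := by
  obtain ⟨R, h1, h2, h3, h4⟩ := hc
  refine ⟨R, ?_, h2, ?_, h4⟩
  · intro y hy
    exact (twClass_eq s h y).1 (h1 y hy)
  · intro y hy hne
    exact h3 y ((twClass_eq s h y).2 hy) hne

theorem isTwConj_refl_of_isConj {R : Type} [CommRing R] {γ γ₀ : GL (Fin 2) R}
    (h : IsConj γ γ₀) : IsTwConj (RingEquiv.refl R) γ γ₀ := by
  obtain ⟨g, hg⟩ := isConj_iff.1 h
  refine ⟨g⁻¹, ?_⟩
  rw [glAut_refl_apply, inv_inv, hg]

theorem fNorm_refl_one {k : Type} [Field k] (t : k) : fNorm (RingEquiv.refl k) 1 t = t := by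
  simp [fNorm]

theorem isLocalExt_refl (k : Type) [Field k] [Valued k Γ₀] :
    IsLocalExt k k 1 1 (RingHom.id k) (RingEquiv.refl k) where
  cyc :=
    { pos := Nat.one_pos
      fix_i := fun _ => rfl
      fixed := fun y _ => ⟨y, rfl⟩
      order := fun _ => rfl
      faithful := fun m h0 h1 => absurd h1 (by omega) }
  e_pos := Nat.one_pos
  val_i := fun x => by simp
  val_s := fun _ => rfl

theorem ordv_mul {k : Type} [Field k] [Valued k Γ₀] {x y : k} (hx : x ≠ 0) (hy : y ≠ 0) :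
    ordv (x * y) = ordv x + ordv y := by
  unfold ordv
  rw [map_mul, WithZero.log_mul ((Valuation.ne_zero_iff _).2 hx) ((Valuation.ne_zero_iff _).2 hy)]
  ring

theorem fNorm_ne_zero {k' : Type} [Field k'] (s : k' ≃+* k') {d : k'} (hd : d ≠ 0) (n : ℕ) :
    fNorm s n d ≠ 0 := by
  induction n with
  | zero => simp [fNorm]
  | succ n ih => simpa [fNorm, hd] using ih

theorem ordv_fNorm {k' : Type} [Field k'] [Valued k' Γ₀] (s : k' ≃+* k')
    (hs : ∀ y : k', Valued.v (s y) = Valued.v y) {d : k'} (hd : d ≠ 0) (n : ℕ) :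
    ordv (fNorm s n d) = (n : ℤ) * ordv d := by
  induction n with
  | zero => simp [fNorm, ordv]
  | succ n ih =>
    have h1 : s (fNorm s n d) ≠ 0 := by simpa using fNorm_ne_zero s hd n
    have h2 : ordv (s (fNorm s n d)) = ordv (fNorm s n d) := by
      unfold ordv; rw [hs]
    rw [fNorm, ordv_mul hd h1, h2, ih]
    push_cast
    ring

theorem one_lt_of_isLocalField {k : Type} [Field k] [Valued k Γ₀] {q : ℕ}
    (hk : IsLocalField k q) : 1 < q := by
  obtain ⟨T, hcard, _, hT, hrep⟩ := hk.residue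
  obtain ⟨x, hx, hx0⟩ := hrep 0 (by simp)
  obtain ⟨y, hy, hy1⟩ := hrep 1 (by simp)
  have hxy : x ≠ y := by
    rintro rfl
    have h0 : Valued.v x < 1 := by simpa using hx0
    have h := Valuation.map_add_lt (Valued.v) hy1 h0
    simp at h
  rw [← hcard]
  exact Finset.one_lt_card.2 ⟨x, hx, y, hy, hxy⟩

/-! ## The tops -/

/-- **The twisted orbit sum at a diagonal element** from the parametrisation of the classes and
the summation over the layers. -/
theorem orbSumDiag_of (hinv : CartanInvC) (hpar : OrbitParamC) (hlay : LayerCountC) :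
    OrbSumDiagC := by
  intro k k' _ _ _ _ q l i s hk hk' hext φ d₁ d₂ t₁ t₂ δ₀ hδ₀ hd₁ hd₂ ht hN₁ hN₂ c hc
  have hbi : IsBiInv (InU 0) (fun g : GL (Fin 2) k' => φ (cartan g)) := by
    intro u u' g hu hu'
    simp only [hinv k' u u' g hu hu']
  have hNne : fNorm s l d₁ ≠ fNorm s l d₂ := by
    rw [hN₁, hN₂]
    exact fun h => ht (i.injective h)
  -- a system of representatives and the family `y_b`
  have hB : ∃ B : Set k', IsReprSet B := by
    classical
    let r : Setoid k' :=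
      { r := fun x y => Valued.v (x - y) ≤ 1
        iseqv :=
          { refl := fun x => by simp
            symm := fun {x y} h => by
              have : Valued.v (y - x) = Valued.v (x - y) := by
                rw [← neg_sub, Valuation.map_neg]
              rw [this]; exact h
            trans := fun {x y z} h1 h2 => by
              have : x - z = (x - y) + (y - z) := by ring
              rw [this]
              exact le_trans (Valuation.map_add _ _ _) (max_le h1 h2) } }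
    refine ⟨Set.range fun c : Quotient r => c.out, ?_⟩
    intro x
    refine ⟨(Quotient.mk r x).out, ⟨⟨_, rfl⟩, ?_⟩, ?_⟩
    · have : r.r (Quotient.mk r x).out x := Quotient.exact (Quotient.out_eq _)
      exact r.symm this
    · rintro b ⟨⟨c, rfl⟩, hb⟩
      have h1 : Quotient.mk r x = Quotient.mk r c.out := Quotient.sound hb
      rw [h1, Quotient.out_eq]
  obtain ⟨B, hB⟩ := hB
  have hY : ∀ b : k', ∃ g : GL (Fin 2) k',
      (g : Matrix (Fin 2) (Fin 2) k') = !![d₁, d₁ * s b - d₂ * b; 0, d₂] := by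
    intro b
    refine ⟨Matrix.GeneralLinearGroup.mkOfDetNeZero !![d₁, d₁ * s b - d₂ * b; 0, d₂] ?_, rfl⟩
    simp [Matrix.det_fin_two, hd₁, hd₂]
  choose Y hY using hY
  rw [hpar k k' q l i s hk hk' hext _ hbi d₁ d₂ δ₀ hδ₀ hNne c hc B Y hB hY]
  exact hlay k k' q l i s hk hk' hext φ d₁ d₂ t₁ t₂ hd₁ hd₂ ht hN₁ hN₂ B Y hB hY

/-- **T6.12 `FLHypC` from its sub-leaves.** -/
theorem flHyp_of_leaves (hcmp : CoeffCompareC) (hred : DiagReduceC) (hdiag : OrbSumDiagC) :
    FLHypC := by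
  intro k k' _ _ _ _ q l i s hk hk' hext hl φ f hφ hf hbc δ γ c c' hreg heig hconj hc hc'
  obtain ⟨d₁, d₂, t₁, t₂, δ₀, γ₀, ht, hd₁, hd₂, hδ₀, hγ₀, hN₁, hN₂, htw, hcj⟩ :=
    hred k k' l i s hext.cyc δ γ hreg heig hconj
  have ht₁ : t₁ ≠ 0 := by
    intro h
    have := fNorm_ne_zero s hd₁ l
    rw [hN₁, h, map_zero] at this
    exact this rfl
  have ht₂ : t₂ ≠ 0 := by
    intro h
    have := fNorm_ne_zero s hd₂ l
    rw [hN₂, h, map_zero] at this
    exact this rfl
  -- the twisted side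
  have e1 := hdiag k k' q l i s hk hk' hext φ d₁ d₂ t₁ t₂ δ₀ hδ₀ hd₁ hd₂ ht hN₁ hN₂ c
    (isTwOrbSum_of_twConj s 0 _ htw hc)
  -- the untwisted side
  have hk1 : IsLocalField k (q ^ 1) := by rw [pow_one]; exact hk
  have e2 := hdiag k k q 1 (RingHom.id k) (RingEquiv.refl k) hk hk1 (isLocalExt_refl k) f
    t₁ t₂ t₁ t₂ γ₀ hγ₀ ht₁ ht₂ ht (fNorm_refl_one t₁) (fNorm_refl_one t₂) c'
    (isTwOrbSum_of_twConj (RingEquiv.refl k) 0 _ (isTwConj_refl_of_isConj hcj) hc')
  -- valuations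
  have hv : ∀ x : k, ordv (i x) = ordv x := by
    intro x
    unfold ordv
    rw [hext.val_i, pow_one]
  have o1 : ordv t₁ = (l : ℤ) * ordv d₁ := by
    rw [← hv, ← hN₁, ordv_fNorm s hext.val_s hd₁]
  have o2 : ordv t₂ = (l : ℤ) * ordv d₂ := by
    rw [← hv, ← hN₂, ordv_fNorm s hext.val_s hd₂]
  rw [e1, e2, pow_one, o1, o2,
    hcmp l q hext.cyc.pos (one_lt_of_isLocalField hk) φ f hφ hf hbc (ordv d₁) (ordv d₂)]

end Fermat.Agent.LT.T6.H288

end

end
-- ===== PACK-END LT/T6/H288/HypTop.lean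

-- ===== PACK-BEGIN LT/T6/H569/SatClosed.lean
section


/-!
# Row LT, tower T6, sub-leaf T6.12a `SatClosedC` (helper569)

OFF-MAIN.  Macdonald's closed form of the Satake polynomials of `GL₂`
(`Fermat.Agent.LT.T6.H288.SatClosedC`, frozen in `T6/H288/HypSpec.lean`, helper288):

    satake q λ x y = ∑_{j = 0}^{n} (√q)^(λ₁+λ₂) · ctWeight q λ (λ₂+j) (λ₁-j) · x^(λ₂+j) · y^(λ₁-j),

`n = λ₁ - λ₂`.  Proof: with `h_n = ∑_{j ≤ n} x^j y^(n-j)` and `p_n = x^n + y^n` both sequences
satisfy `u_{n+2} = (x + y) u_{n+1} - x y u_n`, so `satPoly q x y n = (√q)^n (q⁻¹ p_n + (1 - q⁻¹) h_n)`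
for `n ≥ 1` by induction along the recursion of `satPoly`; the weights `ctWeight` are `q^(-λ₂)` at
the two ends `j = 0, n` and `q^(-λ₂) (1 - q⁻¹)` in between.

Mathlib + `T6/Spec.lean` + `T6/H288/HypSpec.lean` only; nothing is assumed.
-/

set_option autoImplicit false

noncomputable section

namespace Fermat.Agent.LT.T6.H569

open Fermat.Agent.LT.T6 Fermat.Agent.LT.T6.H288

/-- The complete homogeneous sum `h_n = ∑_{j ≤ n} x^j y^(n-j)`. -/
def hsum569 (x y : ℂ) (n : ℕ) : ℂ := ∑ j ∈ Finset.range (n + 1), x ^ j * y ^ (n - j)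

theorem hsum569_succ (x y : ℂ) (n : ℕ) :
    hsum569 x y (n + 1) = x * hsum569 x y n + y ^ (n + 1) := by
  unfold hsum569
  rw [Finset.sum_range_succ' _ (n + 1)]
  simp only [pow_zero, one_mul, Nat.sub_zero]
  congr 1
  rw [Finset.mul_sum]
  apply Finset.sum_congr rfl
  intro j _
  rw [Nat.succ_sub_succ, pow_succ]
  ring

theorem hsum569_zero (x y : ℂ) : hsum569 x y 0 = 1 := by
  simp [hsum569]

/-- The closed form of `satPoly q x y n`, `n ≥ 1`. -/
def closed569 (q : ℕ) (x y : ℂ) (n : ℕ) : ℂ :=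
  ((Real.sqrt q : ℝ) : ℂ) ^ n *
    ((q : ℂ)⁻¹ * (x ^ n + y ^ n) + (1 - (q : ℂ)⁻¹) * hsum569 x y n)

theorem sqrt_sq569 (q : ℕ) : ((Real.sqrt q : ℝ) : ℂ) ^ 2 = (q : ℂ) := by
  have h : Real.sqrt (q : ℝ) ^ 2 = (q : ℝ) := Real.sq_sqrt (Nat.cast_nonneg q)
  rw [← Complex.ofReal_pow, h, Complex.ofReal_natCast]

theorem sqrt_ne_zero569 (q : ℕ) (hq : 1 < q) : ((Real.sqrt q : ℝ) : ℂ) ≠ 0 := by
  intro h
  have h2 := sqrt_sq569 q
  rw [h] at h2
  have : (q : ℂ) = 0 := by simpa using h2.symm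
  have hq0 : q = 0 := by exact_mod_cast this
  omega

/-- `satPoly` in closed form, two consecutive values at a time. -/
theorem satPoly_closed_pair569 (q : ℕ) (hq : 1 < q) (x y : ℂ) (n : ℕ) :
    satPoly q x y (n + 1) = closed569 q x y (n + 1) ∧
      satPoly q x y (n + 2) = closed569 q x y (n + 2) := by
  have hq0 : (q : ℂ) ≠ 0 := by
    have : q ≠ 0 := by omega
    exact_mod_cast this
  have hr2 := sqrt_sq569 q
  set r : ℂ := ((Real.sqrt q : ℝ) : ℂ) with hr
  have h1 : hsum569 x y 1 = x + y := by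
    rw [hsum569_succ, hsum569_zero]; ring
  have h2 : hsum569 x y 2 = x * (x + y) + y ^ 2 := by
    rw [hsum569_succ, h1]
  induction n with
  | zero =>
    constructor
    · show r * (x + y) = closed569 q x y 1
      unfold closed569
      rw [← hr, h1]
      ring
    · show (r * (x + y)) ^ 2 - ((q : ℂ) + 1) * (x * y) = closed569 q x y 2
      unfold closed569
      rw [← hr, h2, mul_pow, hr2]
      field_simp
      ring
  | succ n ih =>
    obtain ⟨ih1, ih2⟩ := ih
    refine ⟨ih2, ?_⟩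
    show r * (x + y) * satPoly q x y (n + 2) - (q : ℂ) * (x * y) * satPoly q x y (n + 1)
      = closed569 q x y (n + 1 + 2)
    rw [ih1, ih2]
    unfold closed569
    rw [← hr]
    have e1 := hsum569_succ x y (n + 2)
    have e2 := hsum569_succ x y (n + 1)
    have e3 : n + 1 + 2 = n + 2 + 1 := by omega
    rw [e3, e1]
    rw [e2]
    have hr3 : r ^ (n + 2 + 1) = r ^ (n + 1) * (q : ℂ) := by
      rw [← hr2]; ring
    have hr2' : r * r ^ (n + 2) = r ^ (n + 1) * (q : ℂ) := by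
      rw [← hr2]; ring
    rw [hr3]
    have : r * (x + y) * (r ^ (n + 2) * ((q : ℂ)⁻¹ * (x ^ (n + 2) + y ^ (n + 2))
        + (1 - (q : ℂ)⁻¹) * (x * hsum569 x y (n + 1) + y ^ (n + 1 + 1))))
        = (r * r ^ (n + 2)) * ((x + y) * ((q : ℂ)⁻¹ * (x ^ (n + 2) + y ^ (n + 2))
        + (1 - (q : ℂ)⁻¹) * (x * hsum569 x y (n + 1) + y ^ (n + 1 + 1)))) := by ring
    rw [this, hr2']
    ring

theorem satPoly_closed569 (q : ℕ) (hq : 1 < q) (x y : ℂ) (n : ℕ) (hn : 1 ≤ n) :
    satPoly q x y n = closed569 q x y n := by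
  obtain ⟨m, rfl⟩ : ∃ m, n = m + 1 := ⟨n - 1, by omega⟩
  exact (satPoly_closed_pair569 q hq x y m).1

/-- The weight of the `j`-th monomial. -/
def wt569 (q n j : ℕ) : ℂ := if j = 0 ∨ j = n then 1 else 1 - (q : ℂ)⁻¹

theorem sum_wt569 (q : ℕ) (x y : ℂ) (n : ℕ) (hn : 1 ≤ n) :
    ∑ j ∈ Finset.range (n + 1), wt569 q n j * (x ^ j * y ^ (n - j))
      = (q : ℂ)⁻¹ * (x ^ n + y ^ n) + (1 - (q : ℂ)⁻¹) * hsum569 x y n := by
  have hw : ∀ j ∈ Finset.range (n + 1), wt569 q n j * (x ^ j * y ^ (n - j))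
      = (1 - (q : ℂ)⁻¹) * (x ^ j * y ^ (n - j))
        + ((q : ℂ)⁻¹ * (if j = 0 then x ^ j * y ^ (n - j) else 0)
          + (q : ℂ)⁻¹ * (if j = n then x ^ j * y ^ (n - j) else 0)) := by
    intro j _
    unfold wt569
    by_cases h0 : j = 0
    · have hne : ¬ j = n := by omega
      simp only [h0, true_or, if_true, if_neg (show ¬ (0 : ℕ) = n by omega)]
      ring
    · by_cases h1 : j = n
      · simp only [h1, or_true, if_true, if_neg (show ¬ n = 0 by omega)]
        ring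
      · simp only [h0, h1, or_self, if_false]
        ring
  rw [Finset.sum_congr rfl hw, Finset.sum_add_distrib, Finset.sum_add_distrib,
    ← Finset.mul_sum, ← Finset.mul_sum, ← Finset.mul_sum]
  have s0 : ∑ j ∈ Finset.range (n + 1), (if j = 0 then x ^ j * y ^ (n - j) else 0) = y ^ n := by
    rw [Finset.sum_ite_eq' (Finset.range (n + 1)) 0 (fun j => x ^ j * y ^ (n - j))]
    simp
  have s1 : ∑ j ∈ Finset.range (n + 1), (if j = n then x ^ j * y ^ (n - j) else 0) = x ^ n := by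
    rw [Finset.sum_ite_eq' (Finset.range (n + 1)) n (fun j => x ^ j * y ^ (n - j))]
    simp
  rw [s0, s1]
  unfold hsum569
  ring

/-- The value of `ctWeight` on the anti-diagonal. -/
theorem ctWeight_eq569 (q : ℕ) (lam : ℤ × ℤ) (n j : ℕ) (hn : (n : ℤ) = lam.1 - lam.2)
    (hj : j ≤ n) :
    ctWeight q lam (lam.2 + (j : ℤ)) (lam.1 - (j : ℤ)) = (q : ℂ) ^ (-lam.2) * wt569 q n j := by
  unfold ctWeight wt569
  have hc : lam.1 + lam.2 = lam.2 + (j : ℤ) + (lam.1 - (j : ℤ)) ∧
      lam.2 ≤ min (lam.2 + (j : ℤ)) (lam.1 - (j : ℤ)) := by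
    refine ⟨by ring, le_min (by omega) (by omega)⟩
  rw [if_pos hc]
  congr 1
  have hiff : (lam.2 = min (lam.2 + (j : ℤ)) (lam.1 - (j : ℤ))) ↔ (j = 0 ∨ j = n) := by
    constructor
    · intro h
      rcases min_choice (lam.2 + (j : ℤ)) (lam.1 - (j : ℤ)) with h' | h'
      · rw [h'] at h; left; omega
      · rw [h'] at h; right; omega
    · rintro (h | h)
      · subst h
        rw [min_eq_left (by omega)]; simp
      · subst h
        rw [min_eq_right (by omega)]; omega
  by_cases h : j = 0 ∨ j = n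
  · rw [if_pos h, if_pos (hiff.mpr h)]
  · rw [if_neg h, if_neg (fun h' => h (hiff.mp h'))]

/-- **T6.12a `SatClosedC`** (Macdonald's formula for `GL₂`). -/
theorem satClosed569 : SatClosedC := by
  intro q hq lam hlam x y hx hy
  have hq0 : (q : ℂ) ≠ 0 := by
    have : q ≠ 0 := by omega
    exact_mod_cast this
  have hr2 := sqrt_sq569 q
  have hr0 := sqrt_ne_zero569 q hq
  set r : ℂ := ((Real.sqrt q : ℝ) : ℂ) with hr
  set n : ℕ := (lam.1 - lam.2).toNat with hndef
  have hn : (n : ℤ) = lam.1 - lam.2 := Int.toNat_of_nonneg (by omega)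
  -- every term of the sum
  have hterm : ∀ j ∈ Finset.range (n + 1),
      r ^ (lam.1 + lam.2) * ctWeight q lam (lam.2 + (j : ℤ)) (lam.1 - (j : ℤ)) *
          x ^ (lam.2 + (j : ℤ)) * y ^ (lam.1 - (j : ℤ))
        = (x * y) ^ lam.2 * (r ^ n * (wt569 q n j * (x ^ j * y ^ (n - j)))) := by
    intro j hj
    have hjn : j ≤ n := by
      have := Finset.mem_range.mp hj; omega
    rw [ctWeight_eq569 q lam n j hn hjn]
    have e1 : x ^ (lam.2 + (j : ℤ)) = x ^ lam.2 * x ^ j := by
      rw [zpow_add₀ hx, zpow_natCast]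
    have e2 : y ^ (lam.1 - (j : ℤ)) = y ^ lam.2 * y ^ (n - j) := by
      have : lam.1 - (j : ℤ) = lam.2 + ((n - j : ℕ) : ℤ) := by
        rw [Nat.cast_sub hjn]; omega
      rw [this, zpow_add₀ hy, zpow_natCast]
    have e3 : r ^ (lam.1 + lam.2) * (q : ℂ) ^ (-lam.2) = r ^ n := by
      have hqz : (q : ℂ) ^ (-lam.2) = r ^ (-(2 * lam.2)) := by
        rw [← hr2, ← zpow_natCast (r) 2, ← zpow_mul]
        congr 1
        push_cast
        ring
      rw [hqz, ← zpow_add₀ hr0, ← zpow_natCast r n, hn]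
      congr 1
      ring
    rw [e1, e2, mul_zpow]
    calc r ^ (lam.1 + lam.2) * ((q : ℂ) ^ (-lam.2) * wt569 q n j) * (x ^ lam.2 * x ^ j)
          * (y ^ lam.2 * y ^ (n - j))
        = (r ^ (lam.1 + lam.2) * (q : ℂ) ^ (-lam.2)) * (x ^ lam.2 * y ^ lam.2)
            * (wt569 q n j * (x ^ j * y ^ (n - j))) := by ring
      _ = x ^ lam.2 * y ^ lam.2 * (r ^ n * (wt569 q n j * (x ^ j * y ^ (n - j)))) := by
          rw [e3]; ring
  rw [Finset.sum_congr rfl hterm, ← Finset.mul_sum, ← Finset.mul_sum]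
  unfold satake
  rw [← hndef]
  congr 1
  rcases Nat.eq_zero_or_pos n with h0 | hpos
  · rw [h0]
    simp [satPoly, wt569]
  · rw [satPoly_closed569 q hq x y n hpos, sum_wt569 q x y n hpos]
    rfl

end Fermat.Agent.LT.T6.H569

end

end
-- ===== PACK-END LT/T6/H569/SatClosed.lean

-- ===== PACK-BEGIN LT/T6/H863/Conv.lean
section




/-!
# Row LT, tower T6, leaf T6.16 (`SplitMatchC`) -- helper863, OFF-MAIN

Part 4: unfolding of the iterated convolution `χ_m = φ_0 * φ_1 * ⋯ * φ_m` (relation `IsConv` of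
`T6/Spec.lean`) into a sum over a FULL system of representatives of the factorisations
`g = a_0 a_1 ⋯ a_m` with `∏ φ_j (a_j) ≠ 0`, modulo
`(a_0, …, a_m) ∼ (a_0 u_1, u_1⁻¹ a_1 u_2, …, u_m⁻¹ a_m)`, `u_j ∈ U`.

Factorisations are sequences `a : ℕ → G` (only the first `m + 1` terms matter; the others are
normalised to `1`).

* `chi_rightInv_863` : `χ_m` is right `U`-invariant;
* `exists_factor_reps_863` : the unfolding.

Mathlib + `T6/Spec.lean` (frozen) only; every proof is complete.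
-/

set_option autoImplicit false

open scoped Classical

noncomputable section

namespace Fermat.Agent.LT.T6.H863

open Fermat.Agent.LT.T6

variable {G : Type} [Group G]

/-- Right `U`-equivalence: `h' = h u`. -/
def RU863 (U : Subgroup G) (h h' : G) : Prop := ∃ u : G, u ∈ U ∧ h' = h * u

theorem rU863_equiv (U : Subgroup G) : Equivalence (RU863 U) where
  refl h := ⟨1, U.one_mem, (mul_one h).symm⟩
  symm := by
    rintro h h' ⟨u, hu, rfl⟩
    exact ⟨u⁻¹, U.inv_mem hu, by group⟩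
  trans := by
    rintro h h' h'' ⟨u, hu, rfl⟩ ⟨w, hw, rfl⟩
    exact ⟨u * w, U.mul_mem hu hw, by group⟩

/-- The partial product `a_0 a_1 ⋯ a_{L-1}` of a sequence. -/
def ppS863 : ℕ → (ℕ → G) → G
  | 0, _ => 1
  | (L + 1), a => ppS863 L a * a L

theorem ppS863_zero (a : ℕ → G) : ppS863 0 a = 1 := rfl

theorem ppS863_succ (L : ℕ) (a : ℕ → G) : ppS863 (L + 1) a = ppS863 L a * a L := rfl

theorem ppS863_congr (L : ℕ) (a b : ℕ → G) (h : ∀ j, j < L → a j = b j) :
    ppS863 L a = ppS863 L b := by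
  induction L with
  | zero => rfl
  | succ L ih =>
    rw [ppS863_succ, ppS863_succ, ih (fun j hj => h j (Nat.lt_succ_of_lt hj)),
      h L (Nat.lt_succ_self L)]

/-- The weight `∏_{j < L} φ_j (a_j)` of a sequence. -/
def wtS863 (φ : ℕ → G → ℂ) (L : ℕ) (a : ℕ → G) : ℂ := ∏ j ∈ Finset.range L, φ j (a j)

omit [Group G] in
theorem wtS863_succ (φ : ℕ → G → ℂ) (L : ℕ) (a : ℕ → G) :
    wtS863 φ (L + 1) a = wtS863 φ L a * φ L (a L) := Finset.prod_range_succ _ _

omit [Group G] in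
theorem wtS863_congr (φ : ℕ → G → ℂ) (L : ℕ) (a b : ℕ → G) (h : ∀ j, j < L → a j = b j) :
    wtS863 φ L a = wtS863 φ L b := by
  unfold wtS863
  refine Finset.prod_congr rfl (fun j hj => ?_)
  rw [h j (Finset.mem_range.mp hj)]

/-- The equivalence of factorisations of length `L`. -/
def EqS863 (U : Subgroup G) (L : ℕ) (a a' : ℕ → G) : Prop :=
  ∃ u : ℕ → G, (∀ j, u j ∈ U) ∧ u 0 = 1 ∧ u L = 1 ∧
    ∀ j, j < L → a' j = (u j)⁻¹ * a j * u (j + 1)

/-- `R` is a full system of representatives of the factorisations of `g` of length `L` in the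
support of the weight. -/
structure IsFactorReps863 (U : Subgroup G) (φ : ℕ → G → ℂ) (L : ℕ) (g : G)
    (P : Finset (ℕ → G)) : Prop where
  prod : ∀ a ∈ P, ppS863 L a = g
  wt : ∀ a ∈ P, wtS863 φ L a ≠ 0
  junk : ∀ a ∈ P, ∀ j, L ≤ j → a j = 1
  ineq : ∀ a ∈ P, ∀ b ∈ P, EqS863 U L a b → a = b
  cover : ∀ a : ℕ → G, ppS863 L a = g → wtS863 φ L a ≠ 0 → ∃ b ∈ P, EqS863 U L a b

section Chain

variable (U : Subgroup G) (φ : ℕ → G → ℂ)
  (hbi : ∀ j, IsBiInv (fun g => g ∈ U) (φ j))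
  (hfs : ∀ j, HasFinSupp (fun g => g ∈ U) (φ j))

include hbi in
theorem phi_left_863 (j : ℕ) (u g : G) (hu : u ∈ U) : φ j (u * g) = φ j g := by
  have := hbi j u 1 g hu U.one_mem
  rwa [mul_one] at this

include hbi in
theorem phi_right_863 (j : ℕ) (u g : G) (hu : u ∈ U) : φ j (g * u) = φ j g := by
  have := hbi j 1 u g U.one_mem hu
  rwa [one_mul] at this

include hbi hfs in
/-- The partial products of the sequences in the support of the weight lie in finitely many
cosets `e U`. -/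
theorem exists_finite_pp_863 (L : ℕ) :
    ∃ E : Finset G, ∀ a : ℕ → G, wtS863 φ L a ≠ 0 → ∃ e ∈ E, ∃ u ∈ U, ppS863 L a = e * u := by
  induction L with
  | zero =>
    exact ⟨{1}, fun a _ => ⟨1, Finset.mem_singleton_self 1, 1, U.one_mem, by simp [ppS863_zero]⟩⟩
  | succ L ih =>
    obtain ⟨E, hE⟩ := ih
    obtain ⟨F, hF⟩ := hfs L
    refine ⟨(E ×ˢ F).image (fun p => p.1 * p.2), fun a ha => ?_⟩
    rw [wtS863_succ] at ha
    have ha1 : wtS863 φ L a ≠ 0 := left_ne_zero_of_mul ha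
    have ha2 : φ L (a L) ≠ 0 := right_ne_zero_of_mul ha
    obtain ⟨e, he, u, hu, hpp⟩ := hE a ha1
    have ha3 : φ L (u * a L) ≠ 0 := by rw [phi_left_863 U φ hbi L u _ hu]; exact ha2
    obtain ⟨x, hx, u', hu', hxu⟩ := hF _ ha3
    refine ⟨e * x, Finset.mem_image.mpr ⟨(e, x), Finset.mem_product.mpr ⟨he, hx⟩, rfl⟩, u', hu', ?_⟩
    rw [ppS863_succ, hpp, mul_assoc, hxu, mul_assoc]

variable (l : ℕ) (χ : ℕ → G → ℂ) (hχ0 : χ 0 = φ 0)
  (hχ : ∀ m : ℕ, m + 1 < l → IsConv (fun g => g ∈ U) (χ m) (φ (m + 1)) (χ (m + 1)))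

include hbi hχ0 hχ in
/-- `χ_m` is right `U`-invariant. -/
theorem chi_rightInv_863 (m : ℕ) (hm : m < l) (g u : G) (hu : u ∈ U) :
    χ m (g * u) = χ m g := by
  induction m generalizing g u with
  | zero => rw [hχ0]; exact phi_right_863 U φ hbi 0 u g hu
  | succ m ih =>
    have hm' : m < l := Nat.lt_of_succ_lt hm
    obtain ⟨R₁, hR₁i, hR₁c, hR₁s⟩ := hχ m hm (g * u)
    obtain ⟨R₂, hR₂i, hR₂c, hR₂s⟩ := hχ m hm g
    rw [hR₁s, hR₂s]
    have hF : ∀ h : G, χ m h * φ (m + 1) (h⁻¹ * (g * u)) = χ m h * φ (m + 1) (h⁻¹ * g) := by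
      intro h
      rw [← mul_assoc, phi_right_863 U φ hbi (m + 1) u _ hu]
    rw [Finset.sum_congr rfl (fun h _ => hF h)]
    refine sum_reps_eq_863 (RU863 U) (rU863_equiv U) (fun h => χ m h * φ (m + 1) (h⁻¹ * g)) ?_
      R₁ R₂ ?_ ?_ ?_ ?_
    · rintro a b ⟨w, hw, rfl⟩
      rw [ih hm' a w hw]
      congr 1
      have : (a * w)⁻¹ * g = w⁻¹ * (a⁻¹ * g) := by group
      rw [this, phi_left_863 U φ hbi (m + 1) w⁻¹ _ (U.inv_mem hw)]
    · intro a ha b hb hab
      obtain ⟨w, hw, hbw⟩ := hab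
      exact hR₁i a ha b hb ⟨w, hw, hbw⟩
    · intro a ha b hb hab
      obtain ⟨w, hw, hbw⟩ := hab
      exact hR₂i a ha b hb ⟨w, hw, hbw⟩
    · intro a ha
      have ha' : χ m a * φ (m + 1) (a⁻¹ * (g * u)) ≠ 0 := by
        rw [hF a]
        exact ha
      obtain ⟨b, hb, w, hw, hbw⟩ := hR₁c a ha'
      exact ⟨b, hb, w⁻¹, U.inv_mem hw, by rw [hbw]; group⟩
    · intro a ha
      have ha' : χ m a * φ (m + 1) (a⁻¹ * g) ≠ 0 := ha
      obtain ⟨b, hb, w, hw, hbw⟩ := hR₂c a ha'
      exact ⟨b, hb, w⁻¹, U.inv_mem hw, by rw [hbw]; group⟩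

theorem upd_ppS_863 (m : ℕ) (a : ℕ → G) (x : G) :
    ppS863 (m + 1) (Function.update a (m + 1) x) = ppS863 (m + 1) a :=
  ppS863_congr (m + 1) _ _ (fun _ hj => Function.update_of_ne (Nat.ne_of_lt hj) _ _)

omit [Group G] in
theorem upd_wtS_863 (φ : ℕ → G → ℂ) (m : ℕ) (a : ℕ → G) (x : G) :
    wtS863 φ (m + 1 + 1) (Function.update a (m + 1) x) = wtS863 φ (m + 1) a * φ (m + 1) x := by
  rw [wtS863_succ, Function.update_self]
  congr 1
  exact wtS863_congr φ (m + 1) _ _ (fun _ hj => Function.update_of_ne (Nat.ne_of_lt hj) _ _)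

include hbi hfs hχ0 hχ in
/-- **Unfolding of the iterated convolution.** -/
theorem exists_factor_reps_863 (m : ℕ) (hm : m < l) (g : G) :
    ∃ P : Finset (ℕ → G), IsFactorReps863 U φ (m + 1) g P ∧
      χ m g = ∑ a ∈ P, wtS863 φ (m + 1) a := by
  induction m generalizing g with
  | zero =>
    have hpp : ∀ a : ℕ → G, ppS863 (0 + 1) a = a 0 := fun a => by
      rw [ppS863_succ, ppS863_zero, one_mul]
    have hwt : ∀ a : ℕ → G, wtS863 φ (0 + 1) a = φ 0 (a 0) := fun a => by
      rw [wtS863_succ]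
      simp [wtS863]
    by_cases h0 : φ 0 g = 0
    · refine ⟨∅, ⟨?_, ?_, ?_, ?_, ?_⟩, ?_⟩
      · intro a ha; simp at ha
      · intro a ha; simp at ha
      · intro a ha; simp at ha
      · intro a ha; simp at ha
      · intro a hpa hwa
        exfalso
        rw [hwt, ← hpp a, hpa] at hwa
        exact hwa h0
      · rw [hχ0, h0, Finset.sum_empty]
    · set a₀ : ℕ → G := fun j => if j = 0 then g else 1 with ha₀
      have ha₀0 : a₀ 0 = g := if_pos rfl
      refine ⟨{a₀}, ⟨?_, ?_, ?_, ?_, ?_⟩, ?_⟩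
      · intro a ha
        rw [Finset.mem_singleton.mp ha, hpp, ha₀0]
      · intro a ha
        rw [Finset.mem_singleton.mp ha, hwt, ha₀0]
        exact h0
      · intro a ha j hj
        rw [Finset.mem_singleton.mp ha]
        show (if j = 0 then g else 1) = 1
        rw [if_neg (by omega)]
      · intro a ha b hb _
        rw [Finset.mem_singleton.mp ha, Finset.mem_singleton.mp hb]
      · intro a hpa _
        refine ⟨a₀, Finset.mem_singleton_self _, fun _ => 1, fun _ => U.one_mem, rfl, rfl, ?_⟩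
        intro j hj
        have hj0 : j = 0 := by omega
        subst hj0
        rw [ha₀0, ← hpa, hpp]
        group
      · rw [Finset.sum_singleton, hwt, ha₀0, hχ0]
  | succ m ih =>
    have hm' : m < l := Nat.lt_of_succ_lt hm
    obtain ⟨E, hE⟩ := exists_finite_pp_863 U φ hbi hfs (m + 1)
    obtain ⟨H, -, hHi, hHc⟩ := exists_reps_863 (RU863 U) (rU863_equiv U) E
    obtain ⟨R, hRi, hRc, hRs⟩ := hχ m hm g
    choose Pf hPf hPfs using (fun h : G => ih hm' h)
    set F : G → ℂ := fun h => χ m h * φ (m + 1) (h⁻¹ * g) with hFdef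
    have hFcl : ∀ a b, RU863 U a b → F a = F b := by
      rintro a b ⟨w, hw, rfl⟩
      show χ m a * φ (m + 1) (a⁻¹ * g) = χ m (a * w) * φ (m + 1) ((a * w)⁻¹ * g)
      rw [chi_rightInv_863 U φ hbi l χ hχ0 hχ m hm' a w hw]
      congr 1
      have : (a * w)⁻¹ * g = w⁻¹ * (a⁻¹ * g) := by group
      rw [this, phi_left_863 U φ hbi (m + 1) w⁻¹ _ (U.inv_mem hw)]
    -- every `h` with a factorisation in the support is equivalent to an element of `H`
    have hHcov : ∀ a : ℕ → G, wtS863 φ (m + 1) a ≠ 0 →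
        ∃ h ∈ H, ∃ u ∈ U, ppS863 (m + 1) a = h * u := by
      intro a ha
      obtain ⟨e, he, u, hu, hpp⟩ := hE a ha
      obtain ⟨h, hh, w, hw, hhw⟩ := hHc e he
      refine ⟨h, hh, w⁻¹ * u, U.mul_mem (U.inv_mem hw) hu, ?_⟩
      rw [hpp, hhw]
      group
    have hsum1 : ∑ h ∈ R, F h = ∑ h ∈ H, F h := by
      refine sum_reps_eq_863 (RU863 U) (rU863_equiv U) F hFcl R H ?_ hHi ?_ ?_
      · intro a ha b hb hab
        obtain ⟨w, hw, hbw⟩ := hab
        exact hRi a ha b hb ⟨w, hw, hbw⟩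
      · intro a ha
        have ha' : χ m a * φ (m + 1) (a⁻¹ * g) ≠ 0 := ha
        obtain ⟨b, hb, w, hw, hbw⟩ := hRc a ha'
        exact ⟨b, hb, w⁻¹, U.inv_mem hw, by rw [hbw]; group⟩
      · intro a ha
        have ha' : χ m a ≠ 0 := left_ne_zero_of_mul ha
        rw [hPfs a] at ha'
        obtain ⟨b, hb, -⟩ := Finset.exists_ne_zero_of_sum_ne_zero ha'
        obtain ⟨h, hh, u, hu, hpp⟩ := hHcov b ((hPf a).wt b hb)
        rw [(hPf a).prod b hb] at hpp
        exact ⟨h, hh, u⁻¹, U.inv_mem hu, by rw [hpp]; group⟩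
    set H' : Finset G := H.filter (fun h => φ (m + 1) (h⁻¹ * g) ≠ 0) with hH'
    set upd : G → (ℕ → G) → (ℕ → G) := fun h a => Function.update a (m + 1) (h⁻¹ * g)
      with hupd
    set P : Finset (ℕ → G) := H'.biUnion (fun h => (Pf h).image (upd h)) with hP
    have hmemP : ∀ b, b ∈ P ↔ ∃ h ∈ H, φ (m + 1) (h⁻¹ * g) ≠ 0 ∧ ∃ a ∈ Pf h, upd h a = b := by
      intro b
      rw [hP, Finset.mem_biUnion]
      constructor
      · rintro ⟨h, hh, hb⟩
        obtain ⟨hh1, hh2⟩ := Finset.mem_filter.mp hh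
        obtain ⟨a, ha, hab⟩ := Finset.mem_image.mp hb
        exact ⟨h, hh1, hh2, a, ha, hab⟩
      · rintro ⟨h, hh1, hh2, a, ha, hab⟩
        exact ⟨h, Finset.mem_filter.mpr ⟨hh1, hh2⟩, Finset.mem_image.mpr ⟨a, ha, hab⟩⟩
    have hupd_last : ∀ h a, upd h a (m + 1) = h⁻¹ * g := fun h a => Function.update_self _ _ _
    have hupd_lt : ∀ h a j, j ≠ m + 1 → upd h a j = a j :=
      fun h a j hj => Function.update_of_ne hj _ _
    have hupd_inj : ∀ h, ∀ a ∈ Pf h, ∀ a' ∈ Pf h, upd h a = upd h a' → a = a' := by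
      intro h a ha a' ha' hEq
      funext j
      by_cases hj : j = m + 1
      · rw [hj, (hPf h).junk a ha (m + 1) le_rfl, (hPf h).junk a' ha' (m + 1) le_rfl]
      · have := congrFun hEq j
        rwa [hupd_lt h a j hj, hupd_lt h a' j hj] at this
    refine ⟨P, ⟨?_, ?_, ?_, ?_, ?_⟩, ?_⟩
    · -- prod
      intro b hb
      obtain ⟨h, -, -, a, ha, rfl⟩ := (hmemP b).mp hb
      rw [ppS863_succ, hupd_last, upd_ppS_863, (hPf h).prod a ha]
      group
    · -- wt
      intro b hb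
      obtain ⟨h, -, hφ, a, ha, rfl⟩ := (hmemP b).mp hb
      rw [upd_wtS_863]
      exact mul_ne_zero ((hPf h).wt a ha) hφ
    · -- junk
      intro b hb j hj
      obtain ⟨h, -, -, a, ha, rfl⟩ := (hmemP b).mp hb
      rw [hupd_lt h a j (by omega)]
      exact (hPf h).junk a ha j (by omega)
    · -- ineq
      intro b hb b' hb' hbb'
      obtain ⟨h, hh, -, a, ha, rfl⟩ := (hmemP b).mp hb
      obtain ⟨h', hh', -, a', ha', rfl⟩ := (hmemP b').mp hb'
      obtain ⟨u, huU, hu0, huL, hu⟩ := hbb'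
      have h1 := hu (m + 1) (Nat.lt_succ_self _)
      rw [hupd_last, hupd_last, huL, mul_one] at h1
      have h2 : h' = h * u (m + 1) := by
        have : h'⁻¹ = (u (m + 1))⁻¹ * h⁻¹ := by
          calc h'⁻¹ = (h'⁻¹ * g) * g⁻¹ := by group
            _ = ((u (m + 1))⁻¹ * (h⁻¹ * g)) * g⁻¹ := by rw [h1]
            _ = (u (m + 1))⁻¹ * h⁻¹ := by group
        calc h' = (h'⁻¹)⁻¹ := (inv_inv h').symm
          _ = ((u (m + 1))⁻¹ * h⁻¹)⁻¹ := by rw [this]
          _ = h * u (m + 1) := by group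
      have h3 : h = h' := hHi h hh h' hh' ⟨u (m + 1), huU (m + 1), h2⟩
      subst h3
      have h4 : u (m + 1) = 1 := by
        have : h * u (m + 1) = h * 1 := by rw [← h2, mul_one]
        exact mul_left_cancel this
      have h5 : EqS863 U (m + 1) a a' := by
        refine ⟨u, huU, hu0, h4, fun j hj => ?_⟩
        have := hu j (Nat.lt_succ_of_lt hj)
        rwa [hupd_lt h a' j (Nat.ne_of_lt hj), hupd_lt h a j (Nat.ne_of_lt hj)] at this
      rw [(hPf h).ineq a ha a' ha' h5]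
    · -- cover
      intro a hpa hwa
      rw [wtS863_succ] at hwa
      have hwa1 : wtS863 φ (m + 1) a ≠ 0 := left_ne_zero_of_mul hwa
      have hwa2 : φ (m + 1) (a (m + 1)) ≠ 0 := right_ne_zero_of_mul hwa
      obtain ⟨h, hh, u₀, hu₀, hpp⟩ := hHcov a hwa1
      have hg : g = h * u₀ * a (m + 1) := by rw [← hpa, ppS863_succ, hpp]
      have hφh : φ (m + 1) (h⁻¹ * g) ≠ 0 := by
        have : h⁻¹ * g = u₀ * a (m + 1) := by rw [hg]; group
        rw [this, phi_left_863 U φ hbi (m + 1) u₀ _ hu₀]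
        exact hwa2
      set a' : ℕ → G := fun j => if j < m then a j else if j = m then a m * u₀⁻¹ else 1
        with ha'
      have ha'lt : ∀ j, j < m → a' j = a j := fun j hj => if_pos hj
      have ha'm : a' m = a m * u₀⁻¹ := by
        show (if m < m then a m else if m = m then a m * u₀⁻¹ else 1) = a m * u₀⁻¹
        rw [if_neg (lt_irrefl m), if_pos rfl]
      have hpa' : ppS863 (m + 1) a' = h := by
        rw [ppS863_succ, ha'm, ppS863_congr m a' a ha'lt]
        have : ppS863 m a * a m = h * u₀ := by rw [← ppS863_succ, hpp]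
        calc ppS863 m a * (a m * u₀⁻¹) = (ppS863 m a * a m) * u₀⁻¹ := by group
          _ = h := by rw [this]; group
      have hwa' : wtS863 φ (m + 1) a' ≠ 0 := by
        rw [wtS863_succ, ha'm, wtS863_congr φ m a' a ha'lt,
          phi_right_863 U φ hbi m u₀⁻¹ _ (U.inv_mem hu₀), ← wtS863_succ]
        exact hwa1
      obtain ⟨b, hb, u, huU, hu0, huL, hu⟩ := (hPf h).cover a' hpa' hwa'
      refine ⟨upd h b, (hmemP _).mpr ⟨h, hh, hφh, b, hb, rfl⟩, ?_⟩
      set u' : ℕ → G := fun j => if j ≤ m then u j else if j = m + 1 then u₀⁻¹ else 1 with hu'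
      have hu'le : ∀ j, j ≤ m → u' j = u j := fun j hj => if_pos hj
      have hu'm1 : u' (m + 1) = u₀⁻¹ := by
        show (if m + 1 ≤ m then u (m + 1) else if m + 1 = m + 1 then u₀⁻¹ else 1) = u₀⁻¹
        rw [if_neg (by omega), if_pos rfl]
      have hu'm2 : u' (m + 1 + 1) = 1 := by
        show (if m + 1 + 1 ≤ m then u (m + 1 + 1)
          else if m + 1 + 1 = m + 1 then u₀⁻¹ else 1) = 1
        rw [if_neg (by omega), if_neg (by omega)]
      refine ⟨u', ?_, ?_, hu'm2, ?_⟩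
      · intro j
        show (if j ≤ m then u j else if j = m + 1 then u₀⁻¹ else 1) ∈ U
        split_ifs
        · exact huU j
        · exact U.inv_mem hu₀
        · exact U.one_mem
      · rw [hu'le 0 (Nat.zero_le m), hu0]
      · intro j hj
        rcases Nat.lt_or_ge j m with hjm | hjm
        · rw [hupd_lt h b j (by omega), hu j (by omega), ha'lt j hjm, hu'le j (by omega),
            hu'le (j + 1) (by omega)]
        · rcases Nat.eq_or_lt_of_le hjm with hjm | hjm
          · subst hjm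
            rw [hupd_lt h b m (by omega), hu m (by omega), ha'm, hu'le m le_rfl, hu'm1, huL]
            group
          · have hjm1 : j = m + 1 := by omega
            subst hjm1
            rw [hupd_last, hu'm1, hu'm2, hg]
            group
    · -- the sum
      rw [hRs]
      show ∑ h ∈ R, F h = _
      rw [hsum1]
      have hs1 : ∑ h ∈ H, F h = ∑ h ∈ H', F h := by
        rw [hH']
        refine (Finset.sum_filter_of_ne ?_).symm
        intro h _ hF
        exact right_ne_zero_of_mul hF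
      rw [hs1, hP, Finset.sum_biUnion]
      · refine Finset.sum_congr rfl (fun h _ => ?_)
        rw [Finset.sum_image (fun a ha a' ha' hEq => hupd_inj h a ha a' ha' hEq)]
        show χ m h * φ (m + 1) (h⁻¹ * g) = _
        rw [hPfs h, Finset.sum_mul]
        refine Finset.sum_congr rfl (fun a _ => ?_)
        rw [upd_wtS_863]
      · intro h _ h' _ hne
        rw [Function.onFun, Finset.disjoint_left]
        intro b hb hb'
        obtain ⟨a, -, rfl⟩ := Finset.mem_image.mp hb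
        obtain ⟨a', -, hab⟩ := Finset.mem_image.mp hb'
        have := congrFun hab (m + 1)
        rw [hupd_last, hupd_last] at this
        apply hne
        have h6 : h'⁻¹ = h⁻¹ := mul_right_cancel this
        exact (inv_injective h6).symm

end Chain

end Fermat.Agent.LT.T6.H863

end

end
-- ===== PACK-END LT/T6/H863/Conv.lean

-- ===== PACK-BEGIN LT/T6/Inf/H434/SmoothKernel.lean
section



/-!
# Row LT, sub-tower T6inf, leaf T6inf.04.2 `SmoothC811` -- SPARE (helper434), part 3: THE KERNEL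

OFF-MAIN.  Mathlib only.  Smoothness of `D`, `√D`, `W = e^{iβ}`, `σ_{θ,t}` in all variables, the
smooth kernel `gg434`, its support, and the existence of a bump `Ψ` on `ℝ²` with
`∫ Ψ(y) E(y) dy ≠ 0` for a continuous `E` with `E(0) ≠ 0`.
-/

set_option autoImplicit false

open MeasureTheory
open scoped Matrix ContDiff Convolution

noncomputable section

namespace Fermat.Agent.LT.T6.Inf.H434

theorem contDiff_dd434 {X : Type*} [NormedAddCommGroup X] [NormedSpace ℝ X] {m : WithTop ℕ∞}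
    {θ t : X → ℝ} (hθ : ContDiff ℝ m θ) (ht : ContDiff ℝ m t) :
    ContDiff ℝ m (fun x => dd434 (θ x) (t x)) := by
  unfold dd434
  fun_prop

theorem contDiff_log_dd434 {X : Type*} [NormedAddCommGroup X] [NormedSpace ℝ X] {m : WithTop ℕ∞}
    {θ t : X → ℝ} (hθ : ContDiff ℝ m θ) (ht : ContDiff ℝ m t) :
    ContDiff ℝ m (fun x => Real.log (dd434 (θ x) (t x))) :=
  (contDiff_dd434 hθ ht).log (fun _ => (dd_pos434 _ _).ne')

theorem contDiff_rr434 {X : Type*} [NormedAddCommGroup X] [NormedSpace ℝ X] {m : WithTop ℕ∞}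
    {θ t : X → ℝ} (hθ : ContDiff ℝ m θ) (ht : ContDiff ℝ m t) :
    ContDiff ℝ m (fun x => rr434 (θ x) (t x)) := by
  unfold rr434
  have := contDiff_log_dd434 hθ ht
  fun_prop

theorem contDiff_ww434 {X : Type*} [NormedAddCommGroup X] [NormedSpace ℝ X] {m : WithTop ℕ∞}
    {θ t : X → ℝ} (hθ : ContDiff ℝ m θ) (ht : ContDiff ℝ m t) :
    ContDiff ℝ m (fun x => ww434 (θ x) (t x)) := by
  unfold ww434 cb434 sb434
  have hr := contDiff_rr434 hθ ht
  have hr0 : ∀ x, rr434 (θ x) (t x) ≠ 0 := fun x => (rr_pos434 _ _).ne'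
  have h1 : ContDiff ℝ m
      (fun x => Real.cos (θ x) * Real.exp (-(t x / 2)) / rr434 (θ x) (t x)) :=
    ContDiff.div (by fun_prop) hr hr0
  have h2 : ContDiff ℝ m
      (fun x => Real.sin (θ x) * Real.exp (t x / 2) / rr434 (θ x) (t x)) :=
    ContDiff.div (by fun_prop) hr hr0
  have h1' : ContDiff ℝ m
      (fun x => ((Real.cos (θ x) * Real.exp (-(t x / 2)) / rr434 (θ x) (t x) : ℝ) : ℂ)) :=
    Complex.ofRealCLM.contDiff.comp h1
  have h2' : ContDiff ℝ m
      (fun x => ((Real.sin (θ x) * Real.exp (t x / 2) / rr434 (θ x) (t x) : ℝ) : ℂ)) :=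
    Complex.ofRealCLM.contDiff.comp h2
  exact h1'.add (h2'.mul contDiff_const)

theorem contDiff_ww_zpow434 {X : Type*} [NormedAddCommGroup X] [NormedSpace ℝ X]
    {m : WithTop ℕ∞} (n : ℤ) {θ t : X → ℝ} (hθ : ContDiff ℝ m θ) (ht : ContDiff ℝ m t) :
    ContDiff ℝ m (fun x => ww434 (θ x) (t x) ^ n) := by
  have hw := contDiff_ww434 hθ ht
  obtain ⟨k, rfl | rfl⟩ := n.eq_nat_or_neg
  · simp only [zpow_natCast]
    exact hw.pow k
  · simp only [zpow_neg, zpow_natCast]
    exact (hw.pow k).inv (fun x => pow_ne_zero _ (ww_ne_zero434 _ _))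

theorem contDiff_sig434 {X : Type*} [NormedAddCommGroup X] [NormedSpace ℝ X] {m : WithTop ℕ∞}
    {θ t : X → ℝ} {y : X → ℝ × ℝ} (hθ : ContDiff ℝ m θ) (ht : ContDiff ℝ m t)
    (hy : ContDiff ℝ m y) :
    ContDiff ℝ m (fun x => sig434 (θ x) (t x) (y x)) := by
  unfold sig434
  have := contDiff_log_dd434 hθ ht
  fun_prop

theorem continuous_tau434 {X : Type*} [TopologicalSpace X]
    {θ t : X → ℝ} {y : X → ℝ × ℝ} (hθ : Continuous θ) (ht : Continuous t)
    (hy : Continuous y) :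
    Continuous (fun x => tau434 (θ x) (t x) (y x)) := by
  unfold tau434
  have hd : Continuous (fun x => dd434 (θ x) (t x)) := by unfold dd434; fun_prop
  have hd0 : ∀ x, dd434 (θ x) (t x) ≠ 0 := fun x => (dd_pos434 _ _).ne'
  have hl : Continuous (fun x => Real.log (dd434 (θ x) (t x))) := hd.log hd0
  have h2 : Continuous (fun x => Real.sin (θ x) * Real.cos (θ x)
      * (Real.exp (-(t x)) - Real.exp (t x)) / dd434 (θ x) (t x)) :=
    Continuous.div (by fun_prop) hd hd0
  fun_prop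

theorem continuous_wtf434 (n : ℤ) : Continuous (wtf434 n) := by
  unfold wtf434
  fun_prop

/-- The smooth kernel `gg(t; θ, y) = χ(θ) W(θ,t)ⁿ Ψ(σ_{θ,t} y)`. -/
def gg434 (n : ℤ) (χ : ℝ → ℝ) (Ψ : ℝ × ℝ → ℝ) (t : ℝ) (z : ℝ × (ℝ × ℝ)) : ℂ :=
  ((χ z.1 : ℝ) : ℂ) * ww434 z.1 t ^ n * ((Ψ (sig434 z.1 t z.2) : ℝ) : ℂ)

theorem contDiff_gg434 {X : Type*} [NormedAddCommGroup X] [NormedSpace ℝ X] {m : WithTop ℕ∞}
    (n : ℤ) {χ : ℝ → ℝ} {Ψ : ℝ × ℝ → ℝ} (hχ : ContDiff ℝ m χ) (hΨ : ContDiff ℝ m Ψ)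
    {t : X → ℝ} {z : X → ℝ × (ℝ × ℝ)} (ht : ContDiff ℝ m t) (hz : ContDiff ℝ m z) :
    ContDiff ℝ m (fun x => gg434 n χ Ψ (t x) (z x)) := by
  unfold gg434
  have hθ : ContDiff ℝ m (fun x => (z x).1) := contDiff_fst.comp hz
  have hy : ContDiff ℝ m (fun x => (z x).2) := contDiff_snd.comp hz
  have h1 : ContDiff ℝ m (fun x => ((χ (z x).1 : ℝ) : ℂ)) :=
    Complex.ofRealCLM.contDiff.comp (hχ.comp hθ)
  have h2 := contDiff_ww_zpow434 n hθ ht
  have h3 : ContDiff ℝ m (fun x => ((Ψ (sig434 (z x).1 (t x) (z x).2) : ℝ) : ℂ)) :=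
    Complex.ofRealCLM.contDiff.comp (hΨ.comp (contDiff_sig434 hθ ht hy))
  exact (h1.mul h2).mul h3

/-- The support of the kernel. -/
theorem gg_support434 (n : ℤ) {χ : ℝ → ℝ} {Ψ : ℝ × ℝ → ℝ}
    (hχ0 : ∀ θ, 8 < |θ| → χ θ = 0) (hΨ0 : ∀ y, 1 < ‖y‖ → Ψ y = 0)
    (t : ℝ) (z : ℝ × (ℝ × ℝ)) (hz : gg434 n χ Ψ t z ≠ 0) :
    ∃ y : ℝ × ℝ, ‖y‖ ≤ 1 ∧ |z.1| ≤ 8 ∧ z = (z.1, tau434 z.1 t y) := by
  unfold gg434 at hz
  have h1 : χ z.1 ≠ 0 := by
    intro h
    apply hz
    rw [h]
    simp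
  have h2 : Ψ (sig434 z.1 t z.2) ≠ 0 := by
    intro h
    apply hz
    rw [h]
    simp
  refine ⟨sig434 z.1 t z.2, ?_, ?_, ?_⟩
  · by_contra h
    exact h2 (hΨ0 _ (not_le.1 h))
  · by_contra h
    exact h1 (hχ0 _ (not_le.1 h))
  · rw [tau_sig434]

/-- A bump function `Ψ` on `ℝ²` supported in the unit ball with `∫ Ψ E ≠ 0`. -/
theorem bump_exists434 (E0 : ℝ × ℝ → ℂ) (hE0 : Continuous E0) (h0 : E0 0 ≠ 0) :
    ∃ Ψ : ℝ × ℝ → ℝ, ContDiff ℝ ∞ Ψ ∧ (∀ y, 1 < ‖y‖ → Ψ y = 0) ∧
      (∫ y, ((Ψ y : ℝ) : ℂ) * E0 y) ≠ 0 := by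
  let φ : ℕ → ContDiffBump (0 : ℝ × ℝ) := fun i =>
    ⟨1 / ((i : ℝ) + 2), 1 / ((i : ℝ) + 1), by positivity,
      one_div_lt_one_div_of_lt (by positivity) (by linarith)⟩
  have hφ : Filter.Tendsto (fun i => (φ i).rOut) Filter.atTop (nhds 0) :=
    tendsto_one_div_add_atTop_nhds_zero_nat
  have hg : Continuous (fun z : ℝ × ℝ => E0 (-z)) := hE0.comp continuous_neg
  have hlim := ContDiffBump.convolution_tendsto_right_of_continuous
    (μ := (volume : Measure (ℝ × ℝ))) hφ hg 0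
  have hne : (fun z : ℝ × ℝ => E0 (-z)) 0 ≠ 0 := by simpa using h0
  obtain ⟨i, hi⟩ := (hlim.eventually_ne hne).exists
  refine ⟨(φ i).normed volume, (φ i).contDiff_normed, ?_, ?_⟩
  · intro y hy
    have : y ∉ Function.support ((φ i).normed volume) := by
      rw [ContDiffBump.support_normed_eq, Metric.mem_ball, dist_zero_right, not_lt]
      have h1 : (φ i).rOut ≤ 1 := by
        show 1 / ((i : ℝ) + 1) ≤ 1
        rw [div_le_one (by positivity)]
        have : (0 : ℝ) ≤ i := Nat.cast_nonneg i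
        linarith
      linarith
    exact Function.notMem_support.1 this
  · rw [convolution_def] at hi
    have : (∫ t, ((ContinuousLinearMap.lsmul ℝ ℝ) ((φ i).normed volume t))
        ((fun z : ℝ × ℝ => E0 (-z)) (0 - t)))
        = ∫ y, (((φ i).normed volume y : ℝ) : ℂ) * E0 y := by
      congr 1
      funext y
      simp
    rw [this] at hi
    exact hi

end Fermat.Agent.LT.T6.Inf.H434

end

end
-- ===== PACK-END LT/T6/Inf/H434/SmoothKernel.lean

-- ===== PACK-BEGIN LT/T6/Inf/H502/UpC.lean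
section



/-!
# Row LT, sub-tower T6inf, leaf T6inf.05 (helper502): the closed form of `sphC`

OFF-MAIN.  Mathlib only.

`sphC ν (cosh d) = (1/2) ∫_{-1}^{1} (cosh d + x sinh d)^{-1-ν} dx = sinh (ν d) / (ν sinh d)`
(`= d / sinh d` for `ν = 0`), for `d > 0` (`sphC_eq502`).
-/

set_option autoImplicit false

open Real MeasureTheory

noncomputable section

namespace Fermat.Agent.LT.T6.Inf.H502

/-- The body of `T6.sphC`. -/
def sphC502 (ν : ℂ) (ρ : ℝ) : ℂ :=
  (1 / 2 : ℂ) * ∫ x in (-1 : ℝ)..1, ((ρ + x * Real.sqrt (ρ ^ 2 - 1) : ℝ) : ℂ) ^ (-1 - ν)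

theorem base_pos502 (d : ℝ) (x : ℝ) (hx : x ∈ Set.uIcc (-1 : ℝ) 1) :
    0 < Real.cosh d + x * Real.sinh d := by
  rw [Set.uIcc_of_le (by norm_num : (-1 : ℝ) ≤ 1)] at hx
  have h1 : |x * Real.sinh d| ≤ |Real.sinh d| := by
    rw [abs_mul]
    have : |x| ≤ 1 := abs_le.2 hx
    calc |x| * |Real.sinh d| ≤ 1 * |Real.sinh d| :=
          mul_le_mul_of_nonneg_right this (abs_nonneg _)
      _ = |Real.sinh d| := one_mul _
  have h2 : |Real.sinh d| < Real.cosh d := by
    rw [abs_lt]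
    constructor
    · have := Real.cosh_add_sinh d
      have := Real.exp_pos d
      linarith
    · exact Real.sinh_lt_cosh d
  have h3 := neg_abs_le (x * Real.sinh d)
  linarith

theorem cpow_exp502 (d : ℝ) (c : ℂ) : ((Real.exp d : ℝ) : ℂ) ^ c = Complex.exp (d * c) := by
  have hne : ((Real.exp d : ℝ) : ℂ) ≠ 0 := by
    exact_mod_cast (Real.exp_pos d).ne'
  rw [Complex.cpow_def_of_ne_zero hne, ← Complex.ofReal_log (Real.exp_pos d).le, Real.log_exp]

theorem integral_cpow_affine502 (ν : ℂ) (hν : ν ≠ 0) (d : ℝ) (hd : 0 < d) :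
    ∫ x in (-1 : ℝ)..1, ((Real.cosh d + x * Real.sinh d : ℝ) : ℂ) ^ (-1 - ν)
      = 2 * Complex.sinh (ν * d) / (ν * ((Real.sinh d : ℝ) : ℂ)) := by
  have hS : 0 < Real.sinh d := Real.sinh_pos_iff.2 hd
  have hSC : ((Real.sinh d : ℝ) : ℂ) ≠ 0 := by exact_mod_cast hS.ne'
  have hr : (-1 - ν) ≠ -1 := by
    intro h
    apply hν
    have : ν = -1 - (-1 - ν) := by ring
    rw [this, h]
    ring
  have hderiv : ∀ x ∈ Set.uIcc (-1 : ℝ) 1,
      HasDerivAt (fun y : ℝ => ((Real.cosh d + y * Real.sinh d : ℝ) : ℂ) ^ (-1 - ν + 1)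
          / (-1 - ν + 1) / ((Real.sinh d : ℝ) : ℂ))
        (((Real.cosh d + x * Real.sinh d : ℝ) : ℂ) ^ (-1 - ν)) x := by
    intro x hx
    have hb := base_pos502 d x hx
    have h1 := hasDerivAt_ofReal_cpow_const' hb.ne' hr
    have h2 : HasDerivAt (fun y : ℝ => Real.cosh d + y * Real.sinh d) (Real.sinh d) x := by
      have := ((hasDerivAt_id x).mul_const (Real.sinh d)).const_add (Real.cosh d)
      simpa using this
    have h3 := HasDerivAt.scomp x h1 h2
    have h4 := h3.div_const ((Real.sinh d : ℝ) : ℂ)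
    have e : (Real.sinh d • ((Real.cosh d + x * Real.sinh d : ℝ) : ℂ) ^ (-1 - ν))
        / ((Real.sinh d : ℝ) : ℂ) = ((Real.cosh d + x * Real.sinh d : ℝ) : ℂ) ^ (-1 - ν) := by
      rw [Complex.real_smul]
      field_simp
    rw [e] at h4
    exact h4
  have hcont : ContinuousOn (fun x : ℝ =>
      ((Real.cosh d + x * Real.sinh d : ℝ) : ℂ) ^ (-1 - ν)) (Set.uIcc (-1 : ℝ) 1) := by
    have hc : Continuous fun x : ℝ => ((Real.cosh d + x * Real.sinh d : ℝ) : ℂ) := by
      fun_prop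
    refine ContinuousOn.cpow hc.continuousOn continuousOn_const ?_
    intro x hx
    exact Complex.ofReal_mem_slitPlane.2 (base_pos502 d x hx)
  rw [intervalIntegral.integral_eq_sub_of_hasDerivAt hderiv hcont.intervalIntegrable]
  have e1 : Real.cosh d + 1 * Real.sinh d = Real.exp d := by
    rw [one_mul, Real.cosh_add_sinh]
  have e2 : Real.cosh d + -1 * Real.sinh d = Real.exp (-d) := by
    rw [neg_one_mul, ← sub_eq_add_neg, Real.cosh_sub_sinh]
  have e3 : (-1 - ν + 1) = -ν := by ring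
  simp only [e1, e2, e3, cpow_exp502]
  rw [Complex.sinh]
  have e4 : ((d : ℝ) : ℂ) * -ν = -(ν * d) := by ring
  have e5 : (((-d : ℝ)) : ℂ) * -ν = ν * d := by push_cast; ring
  rw [e4, e5]
  field_simp
  ring

theorem integral_inv_affine502 (d : ℝ) (hd : 0 < d) :
    ∫ x in (-1 : ℝ)..1, (Real.cosh d + x * Real.sinh d)⁻¹ = 2 * d / Real.sinh d := by
  have hS : 0 < Real.sinh d := Real.sinh_pos_iff.2 hd
  have hderiv : ∀ x ∈ Set.uIcc (-1 : ℝ) 1,
      HasDerivAt (fun y : ℝ => Real.log (Real.cosh d + y * Real.sinh d) / Real.sinh d)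
        ((Real.cosh d + x * Real.sinh d)⁻¹) x := by
    intro x hx
    have hb := base_pos502 d x hx
    have h2 : HasDerivAt (fun y : ℝ => Real.cosh d + y * Real.sinh d) (Real.sinh d) x := by
      have := ((hasDerivAt_id x).mul_const (Real.sinh d)).const_add (Real.cosh d)
      simpa using this
    have h3 := (h2.log hb.ne').div_const (Real.sinh d)
    have e : Real.sinh d / (Real.cosh d + x * Real.sinh d) / Real.sinh d
        = (Real.cosh d + x * Real.sinh d)⁻¹ := by
      field_simp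
    rw [e] at h3
    exact h3
  have hcont : ContinuousOn (fun x : ℝ => (Real.cosh d + x * Real.sinh d)⁻¹)
      (Set.uIcc (-1 : ℝ) 1) := by
    have hc : Continuous fun x : ℝ => Real.cosh d + x * Real.sinh d := by fun_prop
    exact hc.continuousOn.inv₀ fun x hx => (base_pos502 d x hx).ne'
  rw [intervalIntegral.integral_eq_sub_of_hasDerivAt hderiv hcont.intervalIntegrable]
  have e1 : Real.cosh d + 1 * Real.sinh d = Real.exp d := by
    rw [one_mul, Real.cosh_add_sinh]
  have e2 : Real.cosh d + -1 * Real.sinh d = Real.exp (-d) := by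
    rw [neg_one_mul, ← sub_eq_add_neg, Real.cosh_sub_sinh]
  rw [e1, e2, Real.log_exp, Real.log_exp]
  field_simp
  ring

/-- **The closed form of `sphC`.** -/
theorem sphC_eq502 (ν : ℂ) (d : ℝ) (hd : 0 < d) : sphC502 ν (Real.cosh d) = sphR502 ν d := by
  have hS : 0 < Real.sinh d := Real.sinh_pos_iff.2 hd
  have hSC : ((Real.sinh d : ℝ) : ℂ) ≠ 0 := by exact_mod_cast hS.ne'
  unfold sphC502 sphR502
  rw [sqrt_cosh_sq502 d hd.le, if_neg hd.ne']
  by_cases hν : ν = 0
  · rw [if_pos hν, hν]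
    have e : (fun x : ℝ => ((Real.cosh d + x * Real.sinh d : ℝ) : ℂ) ^ (-1 - (0 : ℂ)))
        = fun x : ℝ => (((Real.cosh d + x * Real.sinh d)⁻¹ : ℝ) : ℂ) := by
      ext x
      rw [sub_zero, Complex.cpow_neg_one, Complex.ofReal_inv]
    rw [e, intervalIntegral.integral_ofReal, integral_inv_affine502 d hd]
    push_cast
    field_simp
  · rw [if_neg hν, integral_cpow_affine502 ν hν d hd]
    field_simp

end Fermat.Agent.LT.T6.Inf.H502

end

end
-- ===== PACK-END LT/T6/Inf/H502/UpC.lean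

-- ===== PACK-BEGIN LT/T7/H616/RegTrace2.lean
section



/-!
# Row LT, tower T7, step C5: REG-TRACE, second file (helper616, OFF-MAIN asset, ADDITIVE)

`RegTrace.lean` (sha256 90e2b4689a998bfe) is unchanged.  Abstract linear algebra only.

## Why

`RegTrace.lean` is written for the class space at IWAHORI level at the places `o j` over the
regular place `u`.  The test functions of `T5` are bi-invariant under the PRINCIPAL level group
`U(𝔫)` at every place, the regular test function is `ρ_m = 1_{I t^m I}` at `o 0` and the Iwahori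
idempotent `e_I` at `o j`, `0 < j < l`.  On the class space `V` at level `U(𝔫)` the operator
`R(ρ_1)` is NOT injective (it kills the vectors without Iwahori-invariants) and the operators at
the other places of the orbit are idempotents, not `1`.  This file gives the statements in that
form, so that the consumer does not have to construct the subspace of Iwahori-invariants.

## Results (setting of `twisted_trace_formula616`: `A`, `H 0, …, H (l-1)` pairwise commuting
## subalgebras of `End V` generating `End V`, `S⁻¹ (H (j+1)) S ⊆ H j`, `c x = S⁻¹ x S`)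

* `exists_trace_pow_ne_zero_of_not_isNilpotent616`: the power traces of a NON-NILPOTENT operator
  do not all vanish from some exponent on (Fitting decomposition + the injective case).
* `twisted_trace_orbit616` (THE ORBIT FORMULA): for `a ∈ A`, `h j ∈ H j` (`j < l`)

      tr(a (h 0 ⋯ h (l-1)) S) · dim V = tr(a S) · tr(c^{l-1}(h (l-1)) ⋯ c(h 1) h 0).

  (`orbL616 h l = h 0 * ⋯ * h (l-1)`, `orbR616 S Sinv h l` = the product on the right;
  `orbL616_eq_list_prod`, `orbR616_eq_list_prod`, `orbL616_two`, `orbL616_three`.)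
* `twisted_trace_idem616`: if `e j ∈ H j` with `S⁻¹ (e (j+1)) S = e j` (Iwahori idempotents along
  the orbit) and `b ∈ H 0` with `e 0 * b = b`, then for `a ∈ A`, `m ≥ 1`

      tr(a (bᵐ e 1 ⋯ e (l-1)) S) · dim V = tr(a S) · tr(bᵐ).

* `exists_regular_twisted_trace_ne_zero_idem616`: if moreover `b` is not nilpotent, there is
  `a ∈ A` such that for every `m₀` some `m ≥ m₀` has `tr(a (bᵐ e 1 ⋯ e (l-1)) S) ≠ 0`.
* `trace_pow_eq_finsum616`: `tr(bᵐ) = ∑_μ dim(V_μ(b)) μᵐ` (generalised eigenspaces; no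
  polynomial factors in `m`), and `twisted_trace_atoms616`:

      tr(a (bᵐ e 1 ⋯ e (l-1)) S) · dim V = tr(a S) · ∑_μ dim(V_μ(b)) μᵐ.

  So the atoms at the regular place of a SIMPLE class space are the non-zero eigenvalues of `b`
  on `V`, each with coefficient `tr(a S) dim(V_μ(b)) / dim V`: the coefficients of the atoms of
  one class all have the same phase, the total mass of the class at ANY of its points `(b₀, μ)`
  is non-zero as soon as `tr(a S) ≠ 0` (which `twisted_trace_formula616` provides).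
-/

set_option autoImplicit false

open Module

namespace Fermat.Agent.LT.T7.H616

section Fitting

variable {V : Type*} [AddCommGroup V] [Module ℂ V] [FiniteDimensional ℂ V]

/-- The trace on a complemented pair of invariant subspaces. -/
theorem trace_eq_add_of_isCompl616 (K W : Submodule ℂ V) (hc : IsCompl K W)
    (f : Module.End ℂ V) (hK : Set.MapsTo f K K) (hW : Set.MapsTo f W W) :
    LinearMap.trace ℂ V f
      = LinearMap.trace ℂ K (f.restrict hK) + LinearMap.trace ℂ W (f.restrict hW) := by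
  classical
  let N : Bool → Submodule ℂ V := fun i => cond i K W
  have hint : DirectSum.IsInternal N := by
    rw [DirectSum.isInternal_submodule_iff_isCompl N (i := true) (j := false) (by simp)
      (by ext i; cases i <;> simp)]
    exact hc
  have hf : ∀ i, Set.MapsTo f (N i) (N i) := by
    intro i
    cases i
    · exact hW
    · exact hK
  have h1 : ∀ i, Module.Finite ℂ (N i) := fun i => inferInstance
  have h2 : ∀ i, Module.Free ℂ (N i) := fun i => inferInstance
  rw [LinearMap.trace_eq_sum_trace_restrict hint hf, Fintype.sum_bool]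
  rfl

/-- **The power traces of a non-nilpotent operator** do not all vanish from some exponent on. -/
theorem exists_trace_pow_ne_zero_of_not_isNilpotent616 (b : Module.End ℂ V)
    (hb : ¬ IsNilpotent b) (m₀ : ℕ) :
    ∃ m, m₀ ≤ m ∧ LinearMap.trace ℂ V (b ^ m) ≠ 0 := by
  obtain ⟨n₀, hn⟩ := Filter.eventually_atTop.1 b.eventually_isCompl_ker_pow_range_pow
  set n := n₀ + 1 with hn_def
  have hc : IsCompl (LinearMap.ker (b ^ n)) (LinearMap.range (b ^ n)) := hn n (by omega)
  have hcomm : ∀ x : V, (b ^ n) (b x) = b ((b ^ n) x) := by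
    intro x
    rw [← Module.End.mul_apply, ← Module.End.mul_apply, ← pow_succ, ← pow_succ']
  -- invariance under `b`
  have hK1 : ∀ x ∈ LinearMap.ker (b ^ n), b x ∈ LinearMap.ker (b ^ n) := by
    intro x hx
    rw [LinearMap.mem_ker] at hx ⊢
    rw [hcomm, hx, map_zero]
  have hW1 : ∀ x ∈ LinearMap.range (b ^ n), b x ∈ LinearMap.range (b ^ n) := by
    rintro x ⟨y, rfl⟩
    exact ⟨b y, hcomm y⟩
  -- the nilpotent part
  have hbK : (b.restrict hK1) ^ n = 0 := by
    rw [Module.End.pow_restrict]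
    ext ⟨x, hx⟩
    simpa using hx
  -- the injective part
  have hbW : Function.Injective (b.restrict hW1) := by
    rw [injective_iff_map_eq_zero]
    rintro ⟨x, hx⟩ h0
    have hbx : b x = 0 := congrArg Subtype.val h0
    have hxK : x ∈ LinearMap.ker (b ^ n) := by
      rw [LinearMap.mem_ker, hn_def, pow_succ, Module.End.mul_apply, hbx, map_zero]
    have hx0 : x ∈ (LinearMap.ker (b ^ n) ⊓ LinearMap.range (b ^ n) : Submodule ℂ V) :=
      ⟨hxK, hx⟩
    rw [hc.inf_eq_bot, Submodule.mem_bot] at hx0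
    exact Subtype.ext hx0
  have hnt : Nontrivial (LinearMap.range (b ^ n)) := by
    have hne : b ^ n ≠ 0 := fun h => hb ⟨n, h⟩
    obtain ⟨y, hy⟩ : ∃ y, (b ^ n) y ≠ 0 := by
      by_contra hcon
      push Not at hcon
      exact hne (LinearMap.ext hcon)
    exact ⟨⟨⟨(b ^ n) y, ⟨y, rfl⟩⟩, 0, fun h => hy (congrArg Subtype.val h)⟩⟩
  obtain ⟨m, hm, htr⟩ := exists_trace_pow_ne_zero616 (b.restrict hW1) hbW (max m₀ 1)
  refine ⟨m, le_trans (le_max_left _ _) hm, ?_⟩
  have hm1 : 1 ≤ m := le_trans (le_max_right _ _) hm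
  rw [trace_eq_add_of_isCompl616 _ _ hc (b ^ m)
    (fun x hx => Module.End.pow_apply_mem_of_forall_mem m hK1 x hx)
    (fun x hx => Module.End.pow_apply_mem_of_forall_mem m hW1 x hx)]
  rw [← Module.End.pow_restrict m hK1, ← Module.End.pow_restrict m hW1]
  have hnil : IsNilpotent ((b.restrict hK1) ^ m) := by
    refine ⟨n, ?_⟩
    rw [← pow_mul, mul_comm, pow_mul, hbK, zero_pow (by omega)]
  have h0 : LinearMap.trace ℂ _ ((b.restrict hK1) ^ m) = 0 :=
    (LinearMap.isNilpotent_trace_of_isNilpotent hnil).eq_zero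
  rw [h0, zero_add]
  exact htr

end Fitting

section Orbit

variable {V : Type*} [AddCommGroup V] [Module ℂ V]

/-- `h 0 * h 1 * ⋯ * h (n-1)`. -/
def orbL616 (h : ℕ → Module.End ℂ V) : ℕ → Module.End ℂ V
  | 0 => 1
  | n + 1 => orbL616 h n * h n

/-- `c^{n-1}(h (n-1)) * ⋯ * c(h 1) * h 0` with `c x = Sinv * x * S`. -/
def orbR616 (S Sinv : Module.End ℂ V) (h : ℕ → Module.End ℂ V) : ℕ → Module.End ℂ V
  | 0 => 1
  | n + 1 => (Sinv ^ n * h n * S ^ n) * orbR616 S Sinv h n

theorem orbL616_zero (h : ℕ → Module.End ℂ V) : orbL616 h 0 = 1 := rfl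

theorem orbL616_succ (h : ℕ → Module.End ℂ V) (n : ℕ) :
    orbL616 h (n + 1) = orbL616 h n * h n := rfl

theorem orbR616_zero (S Sinv : Module.End ℂ V) (h : ℕ → Module.End ℂ V) :
    orbR616 S Sinv h 0 = 1 := rfl

theorem orbR616_succ (S Sinv : Module.End ℂ V) (h : ℕ → Module.End ℂ V) (n : ℕ) :
    orbR616 S Sinv h (n + 1) = (Sinv ^ n * h n * S ^ n) * orbR616 S Sinv h n := rfl

/-- `orbL616` as a product over a list. -/
theorem orbL616_eq_list_prod (h : ℕ → Module.End ℂ V) (n : ℕ) :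
    orbL616 h n = ((List.range n).map h).prod := by
  induction n with
  | zero => simp [orbL616_zero]
  | succ n ih =>
    rw [orbL616_succ, ih, List.range_succ, List.map_append, List.prod_append]
    simp

/-- `orbR616` as a product over a list. -/
theorem orbR616_eq_list_prod (S Sinv : Module.End ℂ V) (h : ℕ → Module.End ℂ V) (n : ℕ) :
    orbR616 S Sinv h n
      = ((List.range n).reverse.map fun j => Sinv ^ j * h j * S ^ j).prod := by
  induction n with
  | zero => simp [orbR616_zero]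
  | succ n ih =>
    rw [orbR616_succ, ih, List.range_succ, List.reverse_append]
    simp

theorem orbL616_congr {h h' : ℕ → Module.End ℂ V} (n : ℕ) (hh : ∀ j < n, h j = h' j) :
    orbL616 h n = orbL616 h' n := by
  induction n with
  | zero => rfl
  | succ n ih =>
    rw [orbL616_succ, orbL616_succ, ih (fun j hj => hh j (by omega)), hh n (by omega)]

theorem orbR616_congr (S Sinv : Module.End ℂ V) {h h' : ℕ → Module.End ℂ V} (n : ℕ)
    (hh : ∀ j < n, h j = h' j) : orbR616 S Sinv h n = orbR616 S Sinv h' n := by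
  induction n with
  | zero => rfl
  | succ n ih =>
    rw [orbR616_succ, orbR616_succ, ih (fun j hj => hh j (by omega)), hh n (by omega)]

/-- `c^j` maps `H j` into `H 0`. -/
theorem conj_pow_mem616 (l : ℕ) (H : ℕ → Subalgebra ℂ (Module.End ℂ V))
    (S Sinv : Module.End ℂ V)
    (hdown : ∀ j, j + 1 < l → ∀ h ∈ H (j + 1), Sinv * h * S ∈ H j) :
    ∀ j, j < l → ∀ h ∈ H j, Sinv ^ j * h * S ^ j ∈ H 0 := by
  intro j
  induction j with
  | zero =>
    intro _ h hh
    simpa using hh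
  | succ j ih =>
    intro hj h hh
    have e : Sinv ^ (j + 1) * h * S ^ (j + 1) = Sinv ^ j * (Sinv * h * S) * S ^ j := by
      rw [pow_succ, pow_succ']
      simp only [mul_assoc]
    rw [e]
    exact ih (by omega) _ (hdown j hj h hh)

/-- `c^j` is multiplicative. -/
theorem conj_pow_mul616 (S Sinv : Module.End ℂ V) (hS : S * Sinv = 1) (j : ℕ)
    (x y : Module.End ℂ V) :
    Sinv ^ j * (x * y) * S ^ j = (Sinv ^ j * x * S ^ j) * (Sinv ^ j * y * S ^ j) := by
  have h1 : S ^ j * Sinv ^ j = 1 := pow_inv_mul_pow616 Sinv S hS j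
  calc Sinv ^ j * (x * y) * S ^ j = Sinv ^ j * x * 1 * y * S ^ j := by
        simp only [mul_one, mul_assoc]
    _ = (Sinv ^ j * x * S ^ j) * (Sinv ^ j * y * S ^ j) := by
        rw [← h1]
        simp only [mul_assoc]

/-- The product of the first `n` factors commutes with `H n`. -/
theorem orbL616_commute (l : ℕ) (H : ℕ → Subalgebra ℂ (Module.End ℂ V))
    (hHH : ∀ i < l, ∀ j < l, i ≠ j → ∀ h ∈ H i, ∀ h' ∈ H j, h * h' = h' * h)
    (i : ℕ) (hi : i < l) (k : Module.End ℂ V) (hk : k ∈ H i) (h : ℕ → Module.End ℂ V) :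
    ∀ n, n ≤ i → (∀ j < n, h j ∈ H j) → k * orbL616 h n = orbL616 h n * k := by
  intro n
  induction n with
  | zero =>
    intro _ _
    rw [orbL616_zero, mul_one, one_mul]
  | succ n ih =>
    intro hn hh
    have h1 := ih (by omega) (fun j hj => hh j (by omega))
    have h2 : k * h n = h n * k :=
      hHH i hi n (by omega) (by omega) k hk (h n) (hh n (by omega))
    rw [orbL616_succ, ← mul_assoc, h1, mul_assoc, h2, mul_assoc]

/-- The product `orbR616` lies in `H 0`. -/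
theorem orbR616_mem (l : ℕ) (H : ℕ → Subalgebra ℂ (Module.End ℂ V))
    (S Sinv : Module.End ℂ V)
    (hdown : ∀ j, j + 1 < l → ∀ h ∈ H (j + 1), Sinv * h * S ∈ H j)
    (h : ℕ → Module.End ℂ V) :
    ∀ n, n ≤ l → (∀ j < n, h j ∈ H j) → orbR616 S Sinv h n ∈ H 0 := by
  intro n
  induction n with
  | zero =>
    intro _ _
    rw [orbR616_zero]
    exact (H 0).one_mem
  | succ n ih =>
    intro hn hh
    rw [orbR616_succ]
    exact (H 0).mul_mem (conj_pow_mem616 l H S Sinv hdown n (by omega) (h n) (hh n (by omega)))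
      (ih (by omega) (fun j hj => hh j (by omega)))

/-- **Moving the factors of the orbit to the place `o 0`.** -/
theorem twisted_trace_orbit_aux616 (l : ℕ)
    (A : Subalgebra ℂ (Module.End ℂ V)) (H : ℕ → Subalgebra ℂ (Module.End ℂ V))
    (S Sinv : Module.End ℂ V) (hS : S * Sinv = 1)
    (hAH : ∀ j < l, ∀ a ∈ A, ∀ h ∈ H j, a * h = h * a)
    (hHH : ∀ i < l, ∀ j < l, i ≠ j → ∀ h ∈ H i, ∀ h' ∈ H j, h * h' = h' * h)
    (hdown : ∀ j, j + 1 < l → ∀ h ∈ H (j + 1), Sinv * h * S ∈ H j)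
    (a : Module.End ℂ V) (ha : a ∈ A) :
    ∀ n, n + 1 ≤ l → ∀ h : ℕ → Module.End ℂ V, (∀ j ≤ n, h j ∈ H j) →
      LinearMap.trace ℂ V (a * orbL616 h (n + 1) * S)
        = LinearMap.trace ℂ V (a * orbR616 S Sinv h (n + 1) * S) := by
  intro n
  induction n with
  | zero =>
    intro _ h _
    rw [orbL616_succ, orbL616_zero, orbR616_succ, orbR616_zero]
    simp
  | succ n ih =>
    intro hn h hh
    -- the moved factor
    set k : Module.End ℂ V := Sinv * h (n + 1) * S with hk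
    have hkH : k ∈ H n := hdown n (by omega) (h (n + 1)) (hh (n + 1) le_rfl)
    have hka : a * k = k * a := hAH n (by omega) a ha k hkH
    have hkL : k * orbL616 h n = orbL616 h n * k :=
      orbL616_commute l H hHH n (by omega) k hkH h n le_rfl (fun j hj => hh j (by omega))
    -- the new family
    set h' : ℕ → Module.End ℂ V := Function.update h n (k * h n) with hh'
    have hh'n : h' n = k * h n := by rw [hh', Function.update_self]
    have hh'j : ∀ j < n, h' j = h j := by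
      intro j hj
      rw [hh', Function.update_of_ne (by omega)]
    have hh'mem : ∀ j ≤ n, h' j ∈ H j := by
      intro j hj
      rcases Nat.lt_or_ge j n with hjn | hjn
      · rw [hh'j j hjn]
        exact hh j (by omega)
      · have : j = n := by omega
        subst this
        rw [hh'n]
        exact (H j).mul_mem hkH (hh j (by omega))
    have hL : orbL616 h' n = orbL616 h n := orbL616_congr n hh'j
    have hR : orbR616 S Sinv h' n = orbR616 S Sinv h n := orbR616_congr S Sinv n hh'j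
    have e1 : a * orbL616 h (n + 1 + 1) * S = (a * orbL616 h n * h n) * h (n + 1) * S := by
      rw [orbL616_succ, orbL616_succ]
      simp only [mul_assoc]
    have e2 : k * (a * orbL616 h n * h n) * S = a * orbL616 h' (n + 1) * S := by
      rw [orbL616_succ, hL, hh'n]
      calc k * (a * orbL616 h n * h n) * S = (k * a) * orbL616 h n * h n * S := by
            simp only [mul_assoc]
        _ = a * (k * orbL616 h n) * h n * S := by
            rw [← hka]
            simp only [mul_assoc]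
        _ = a * (orbL616 h n * (k * h n)) * S := by
            rw [hkL]
            simp only [mul_assoc]
    have e3 : orbR616 S Sinv h' (n + 1) = orbR616 S Sinv h (n + 1 + 1) := by
      rw [orbR616_succ, orbR616_succ, orbR616_succ, hR, hh'n, conj_pow_mul616 S Sinv hS]
      have e4 : Sinv ^ n * k * S ^ n = Sinv ^ (n + 1) * h (n + 1) * S ^ (n + 1) := by
        rw [hk, pow_succ, pow_succ']
        simp only [mul_assoc]
      rw [e4]
      simp only [mul_assoc]
    rw [e1, trace_move616 S Sinv hS, e2, ih (by omega) h' hh'mem, e3]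

theorem orbL616_one (h : ℕ → Module.End ℂ V) : orbL616 h 1 = h 0 := by
  rw [orbL616_succ, orbL616_zero, one_mul]

theorem orbL616_two (h : ℕ → Module.End ℂ V) : orbL616 h 2 = h 0 * h 1 := by
  rw [orbL616_succ, orbL616_one]

theorem orbL616_three (h : ℕ → Module.End ℂ V) : orbL616 h 3 = h 0 * h 1 * h 2 := by
  rw [orbL616_succ, orbL616_two]

end Orbit

section Main

variable {V : Type*} [AddCommGroup V] [Module ℂ V] [FiniteDimensional ℂ V]

/-- **THE ORBIT FORMULA.**  In the setting of `twisted_trace_formula616`: for `a ∈ A` and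
`h j ∈ H j` (`j < l`),
`tr(a (h 0 ⋯ h (l-1)) S) · dim V = tr(a S) · tr(c^{l-1}(h (l-1)) ⋯ c(h 1) h 0)`,
`c x = S⁻¹ x S`. -/
theorem twisted_trace_orbit616 [Nontrivial V] (l : ℕ) (hl : 0 < l)
    (A : Subalgebra ℂ (Module.End ℂ V)) (H : ℕ → Subalgebra ℂ (Module.End ℂ V))
    (S Sinv : Module.End ℂ V) (hS : S * Sinv = 1) (hS' : Sinv * S = 1)
    (hAH : ∀ j < l, ∀ a ∈ A, ∀ h ∈ H j, a * h = h * a)
    (hHH : ∀ i < l, ∀ j < l, i ≠ j → ∀ h ∈ H i, ∀ h' ∈ H j, h * h' = h' * h)
    (hdown : ∀ j, j + 1 < l → ∀ h ∈ H (j + 1), Sinv * h * S ∈ H j)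
    (hwrap : ∀ h ∈ H 0, Sinv * h * S ∈ H (l - 1))
    (hcent : ∀ h ∈ H 0, S ^ l * h = h * S ^ l)
    (hgen : Algebra.adjoin ℂ ((A : Set (Module.End ℂ V)) ∪
      ⋃ j ∈ Finset.range l, (H j : Set (Module.End ℂ V))) = ⊤)
    (a : Module.End ℂ V) (ha : a ∈ A) (h : ℕ → Module.End ℂ V) (hh : ∀ j < l, h j ∈ H j) :
    LinearMap.trace ℂ V (a * orbL616 h l * S) * (Module.finrank ℂ V : ℂ)
      = LinearMap.trace ℂ V (a * S) * LinearMap.trace ℂ V (orbR616 S Sinv h l) := by
  obtain ⟨n, rfl⟩ : ∃ n, l = n + 1 := ⟨l - 1, by omega⟩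
  rw [twisted_trace_orbit_aux616 (n + 1) A H S Sinv hS hAH hHH hdown a ha n le_rfl h
    (fun j hj => hh j (by omega))]
  exact (twisted_trace_formula616 (n + 1) hl A H S Sinv hS hS' hAH hHH hdown hwrap hcent
    hgen).2 a ha _ (orbR616_mem (n + 1) H S Sinv hdown h (n + 1) le_rfl hh)

/-- **THE REGULAR TEST FUNCTION AT PRINCIPAL LEVEL.**  In the setting of
`twisted_trace_formula616` let `e j ∈ H j` with `S⁻¹ (e (j+1)) S = e j` (the Iwahori idempotents
along the orbit) and `b ∈ H 0` with `e 0 * b = b` (`b = R(1_{I t I})`).  Then for `a ∈ A`, `m ≥ 1`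
`tr(a (bᵐ e 1 ⋯ e (l-1)) S) · dim V = tr(a S) · tr(bᵐ)`. -/
theorem twisted_trace_idem616 [Nontrivial V] (l : ℕ) (hl : 0 < l)
    (A : Subalgebra ℂ (Module.End ℂ V)) (H : ℕ → Subalgebra ℂ (Module.End ℂ V))
    (S Sinv : Module.End ℂ V) (hS : S * Sinv = 1) (hS' : Sinv * S = 1)
    (hAH : ∀ j < l, ∀ a ∈ A, ∀ h ∈ H j, a * h = h * a)
    (hHH : ∀ i < l, ∀ j < l, i ≠ j → ∀ h ∈ H i, ∀ h' ∈ H j, h * h' = h' * h)
    (hdown : ∀ j, j + 1 < l → ∀ h ∈ H (j + 1), Sinv * h * S ∈ H j)
    (hwrap : ∀ h ∈ H 0, Sinv * h * S ∈ H (l - 1))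
    (hcent : ∀ h ∈ H 0, S ^ l * h = h * S ^ l)
    (hgen : Algebra.adjoin ℂ ((A : Set (Module.End ℂ V)) ∪
      ⋃ j ∈ Finset.range l, (H j : Set (Module.End ℂ V))) = ⊤)
    (e : ℕ → Module.End ℂ V) (he : ∀ j < l, e j ∈ H j)
    (hec : ∀ j, j + 1 < l → Sinv * e (j + 1) * S = e j)
    (b : Module.End ℂ V) (hb : b ∈ H 0) (heb : e 0 * b = b)
    (a : Module.End ℂ V) (ha : a ∈ A) (m : ℕ) (hm1 : 1 ≤ m) :
    LinearMap.trace ℂ V (a * orbL616 (Function.update e 0 (b ^ m)) l * S)
        * (Module.finrank ℂ V : ℂ)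
      = LinearMap.trace ℂ V (a * S) * LinearMap.trace ℂ V (b ^ m) := by
  set h : ℕ → Module.End ℂ V := Function.update e 0 (b ^ m) with hh
  have hh0 : h 0 = b ^ m := by rw [hh, Function.update_self]
  have hhj : ∀ j, j ≠ 0 → h j = e j := by
    intro j hj
    rw [hh, Function.update_of_ne hj]
  have hmem : ∀ j < l, h j ∈ H j := by
    intro j hj
    rcases Nat.eq_zero_or_pos j with h0 | h0
    · subst h0
      rw [hh0]
      exact (H 0).pow_mem hb m
    · rw [hhj j (by omega)]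
      exact he j hj
  -- the conjugates of the idempotents
  have hconj : ∀ j, j < l → Sinv ^ j * e j * S ^ j = e 0 := by
    intro j
    induction j with
    | zero =>
      intro _
      simp
    | succ j ih =>
      intro hj
      have e1 : Sinv ^ (j + 1) * e (j + 1) * S ^ (j + 1)
          = Sinv ^ j * (Sinv * e (j + 1) * S) * S ^ j := by
        rw [pow_succ, pow_succ']
        simp only [mul_assoc]
      rw [e1, hec j hj]
      exact ih (by omega)
  have hebm : e 0 * b ^ m = b ^ m := by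
    obtain ⟨m', rfl⟩ : ∃ m', m = m' + 1 := ⟨m - 1, by omega⟩
    rw [pow_succ', ← mul_assoc, heb]
  have hepow : ∀ n : ℕ, e 0 ^ n * b ^ m = b ^ m := by
    intro n
    induction n with
    | zero => simp
    | succ n ih => rw [pow_succ, mul_assoc, hebm, ih]
  have hR : ∀ n, n + 1 ≤ l → orbR616 S Sinv h (n + 1) = e 0 ^ n * b ^ m := by
    intro n
    induction n with
    | zero =>
      intro _
      rw [orbR616_succ, orbR616_zero, hh0]
      simp
    | succ n ih =>
      intro hn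
      rw [orbR616_succ, ih (by omega), hhj (n + 1) (by omega), hconj (n + 1) (by omega),
        ← mul_assoc, ← pow_succ']
  have hRl : orbR616 S Sinv h l = b ^ m := by
    obtain ⟨n, rfl⟩ : ∃ n, l = n + 1 := ⟨l - 1, by omega⟩
    rw [hR n le_rfl, hepow]
  have hformula := twisted_trace_orbit616 l hl A H S Sinv hS hS' hAH hHH hdown hwrap hcent
    hgen a ha h hmem
  rw [hRl] at hformula
  exact hformula

/-- **NON-VANISHING FOR THE REGULAR TEST FUNCTION AT PRINCIPAL LEVEL.**  In the setting of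
`twisted_trace_idem616`, if `b` is NOT NILPOTENT there is `a ∈ A` such that for every `m₀` some
`m ≥ m₀` has `tr(a (bᵐ e 1 ⋯ e (l-1)) S) ≠ 0`. -/
theorem exists_regular_twisted_trace_ne_zero_idem616 [Nontrivial V] (l : ℕ) (hl : 0 < l)
    (A : Subalgebra ℂ (Module.End ℂ V)) (H : ℕ → Subalgebra ℂ (Module.End ℂ V))
    (S Sinv : Module.End ℂ V) (hS : S * Sinv = 1) (hS' : Sinv * S = 1)
    (hAH : ∀ j < l, ∀ a ∈ A, ∀ h ∈ H j, a * h = h * a)
    (hHH : ∀ i < l, ∀ j < l, i ≠ j → ∀ h ∈ H i, ∀ h' ∈ H j, h * h' = h' * h)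
    (hdown : ∀ j, j + 1 < l → ∀ h ∈ H (j + 1), Sinv * h * S ∈ H j)
    (hwrap : ∀ h ∈ H 0, Sinv * h * S ∈ H (l - 1))
    (hcent : ∀ h ∈ H 0, S ^ l * h = h * S ^ l)
    (hgen : Algebra.adjoin ℂ ((A : Set (Module.End ℂ V)) ∪
      ⋃ j ∈ Finset.range l, (H j : Set (Module.End ℂ V))) = ⊤)
    (e : ℕ → Module.End ℂ V) (he : ∀ j < l, e j ∈ H j)
    (hec : ∀ j, j + 1 < l → Sinv * e (j + 1) * S = e j)
    (b : Module.End ℂ V) (hb : b ∈ H 0) (heb : e 0 * b = b) (hbn : ¬ IsNilpotent b) :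
    ∃ a ∈ A, ∀ m₀ : ℕ, ∃ m, m₀ ≤ m ∧
      LinearMap.trace ℂ V (a * orbL616 (Function.update e 0 (b ^ m)) l * S) ≠ 0 := by
  obtain ⟨⟨a, ha, hne⟩, -⟩ :=
    twisted_trace_formula616 l hl A H S Sinv hS hS' hAH hHH hdown hwrap hcent hgen
  refine ⟨a, ha, fun m₀ => ?_⟩
  obtain ⟨m, hm, hbm⟩ := exists_trace_pow_ne_zero_of_not_isNilpotent616 b hbn (max m₀ 1)
  have hm1 : 1 ≤ m := le_trans (le_max_right _ _) hm
  refine ⟨m, le_trans (le_max_left _ _) hm, ?_⟩
  have hformula := twisted_trace_idem616 l hl A H S Sinv hS hS' hAH hHH hdown hwrap hcent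
    hgen e he hec b hb heb a ha m hm1
  intro h0
  rw [h0, zero_mul] at hformula
  rcases mul_eq_zero.1 hformula.symm with h1 | h1
  · exact hne h1
  · exact hbm h1

end Main

section Atoms

variable {V : Type*} [AddCommGroup V] [Module ℂ V] [FiniteDimensional ℂ V]

/-- The trace of `b ^ m` on the generalised eigenspace of `b` for `μ`. -/
theorem trace_pow_restrict_maxGenEigenspace616 (b : Module.End ℂ V) (μ : ℂ) (m : ℕ)
    (h : Set.MapsTo (b ^ m) (b.maxGenEigenspace μ) (b.maxGenEigenspace μ)) :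
    LinearMap.trace ℂ (b.maxGenEigenspace μ) ((b ^ m).restrict h)
      = (Module.finrank ℂ (b.maxGenEigenspace μ) : ℂ) * μ ^ m := by
  have h1 : ∀ x ∈ b.maxGenEigenspace μ, b x ∈ b.maxGenEigenspace μ :=
    Module.End.mapsTo_maxGenEigenspace_of_comm (Commute.refl b) μ
  have e0 : (b ^ m).restrict h = (b.restrict h1) ^ m := (Module.End.pow_restrict m h1).symm
  rw [e0]
  have key : ∀ hx : Set.MapsTo (b - algebraMap ℂ (Module.End ℂ V) μ)
      (b.maxGenEigenspace μ) (b.maxGenEigenspace μ),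
      IsNilpotent ((b - algebraMap ℂ (Module.End ℂ V) μ).restrict hx) →
        IsNilpotent (b.restrict h1 - algebraMap ℂ _ μ) := by
    intro hx hn
    have e1 : b.restrict h1 - algebraMap ℂ (Module.End ℂ (b.maxGenEigenspace μ)) μ
        = (b - algebraMap ℂ (Module.End ℂ V) μ).restrict hx := by
      ext x
      simp only [LinearMap.sub_apply, Submodule.coe_sub, Module.algebraMap_end_apply,
        Submodule.coe_smul]
      rfl
    rw [e1]
    exact hn
  have hnil : IsNilpotent (b.restrict h1 - algebraMap ℂ _ μ) :=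
    key _ (b.isNilpotent_restrict_maxGenEigenspace_sub_algebraMap μ)
  induction m with
  | zero =>
    rw [pow_zero, pow_zero, mul_one, LinearMap.trace_one]
  | succ m ih =>
    have hm : Set.MapsTo (b ^ m) (b.maxGenEigenspace μ) (b.maxGenEigenspace μ) :=
      Module.End.mapsTo_maxGenEigenspace_of_comm (Commute.pow_right (Commute.refl b) m) μ
    have e2 : (b.restrict h1) ^ (m + 1) = ((b.restrict h1) ^ m) ∘ₗ (b.restrict h1) := by
      rw [pow_succ, Module.End.mul_eq_comp]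
    rw [e2, LinearMap.trace_comp_eq_mul_of_commute_of_isNilpotent μ
      (Commute.pow_left (Commute.refl _) m) hnil,
      ih hm (Module.End.pow_restrict m h1).symm, pow_succ]
    ring

/-- **The power traces are sums of exponentials without polynomial factors**:
`tr(b ^ m) = ∑_μ dim(generalised eigenspace of μ) · μ ^ m`. -/
theorem trace_pow_eq_finsum616 (b : Module.End ℂ V) (m : ℕ) :
    LinearMap.trace ℂ V (b ^ m)
      = ∑ᶠ μ : ℂ, (Module.finrank ℂ (b.maxGenEigenspace μ) : ℂ) * μ ^ m := by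
  classical
  have hds := DirectSum.isInternal_submodule_of_iSupIndep_of_iSup_eq_top
    b.independent_maxGenEigenspace b.iSup_maxGenEigenspace_eq_top
  have hfin : {μ | b.maxGenEigenspace μ ≠ ⊥}.Finite :=
    WellFoundedGT.finite_ne_bot_of_iSupIndep b.independent_maxGenEigenspace
  have hf : ∀ μ, Set.MapsTo (b ^ m) (b.maxGenEigenspace μ) (b.maxGenEigenspace μ) :=
    fun μ => Module.End.mapsTo_maxGenEigenspace_of_comm (Commute.pow_right (Commute.refl b) m) μ
  rw [LinearMap.trace_eq_sum_trace_restrict' hds hfin hf]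
  rw [finsum_eq_sum_of_support_subset (s := hfin.toFinset)]
  · exact Finset.sum_congr rfl fun μ _ => trace_pow_restrict_maxGenEigenspace616 b μ m (hf μ)
  · intro μ hμ
    rw [Function.mem_support] at hμ
    rw [Set.Finite.coe_toFinset]
    show b.maxGenEigenspace μ ≠ ⊥
    intro hbot
    apply hμ
    rw [hbot, finrank_bot]
    simp

/-- **THE ATOMS OF THE CLASS SPACE AT THE REGULAR PLACE.**  In the setting of
`twisted_trace_idem616`: for `a ∈ A` and `m ≥ 1`

    tr(a (bᵐ e 1 ⋯ e (l-1)) S) · dim V = tr(a S) · ∑_μ dim(V_μ(b)) · μᵐ,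

`V_μ(b)` the generalised eigenspace of `b` on `V`: the atoms at the regular place of a SIMPLE
class space are the non-zero eigenvalues `μ` of `b`, without polynomial factors in `m`, and all
of them carry the SAME twisted trace `tr(a S)` away from the orbit, weighted by the positive
integers `dim V_μ(b)`; no cancellation between the atoms of one class is possible. -/
theorem twisted_trace_atoms616 [Nontrivial V] (l : ℕ) (hl : 0 < l)
    (A : Subalgebra ℂ (Module.End ℂ V)) (H : ℕ → Subalgebra ℂ (Module.End ℂ V))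
    (S Sinv : Module.End ℂ V) (hS : S * Sinv = 1) (hS' : Sinv * S = 1)
    (hAH : ∀ j < l, ∀ a ∈ A, ∀ h ∈ H j, a * h = h * a)
    (hHH : ∀ i < l, ∀ j < l, i ≠ j → ∀ h ∈ H i, ∀ h' ∈ H j, h * h' = h' * h)
    (hdown : ∀ j, j + 1 < l → ∀ h ∈ H (j + 1), Sinv * h * S ∈ H j)
    (hwrap : ∀ h ∈ H 0, Sinv * h * S ∈ H (l - 1))
    (hcent : ∀ h ∈ H 0, S ^ l * h = h * S ^ l)
    (hgen : Algebra.adjoin ℂ ((A : Set (Module.End ℂ V)) ∪
      ⋃ j ∈ Finset.range l, (H j : Set (Module.End ℂ V))) = ⊤)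
    (e : ℕ → Module.End ℂ V) (he : ∀ j < l, e j ∈ H j)
    (hec : ∀ j, j + 1 < l → Sinv * e (j + 1) * S = e j)
    (b : Module.End ℂ V) (hb : b ∈ H 0) (heb : e 0 * b = b)
    (a : Module.End ℂ V) (ha : a ∈ A) (m : ℕ) (hm1 : 1 ≤ m) :
    LinearMap.trace ℂ V (a * orbL616 (Function.update e 0 (b ^ m)) l * S)
        * (Module.finrank ℂ V : ℂ)
      = LinearMap.trace ℂ V (a * S)
        * ∑ᶠ μ : ℂ, (Module.finrank ℂ (b.maxGenEigenspace μ) : ℂ) * μ ^ m := by
  rw [twisted_trace_idem616 l hl A H S Sinv hS hS' hAH hHH hdown hwrap hcent hgen e he hec b hb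
    heb a ha m hm1, trace_pow_eq_finsum616]

end Atoms

end Fermat.Agent.LT.T7.H616

end
-- ===== PACK-END LT/T7/H616/RegTrace2.lean

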