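import Mathlib
import Fermat.Agent.Pack.LT3.E5L2
import Fermat.Agent.Pack.LT3.E5L0
import Fermat.Agent.Pack.LT2.E0L2
import Fermat.Agent.Pack.LT2.E2L1
import Fermat.Agent.Pack.LT2.E5L3
import Fermat.Agent.Pack.LT2.E0L1
import Fermat.Agent.Pack.LT2.E3L0
import Fermat.Agent.Pack.LT3.E3L2
import Fermat.Agent.Pack.LT3.E2L0
import Fermat.Agent.Pack.LT3.E5L1
import Fermat.Agent.Pack.LT2.E3L1
import Fermat.Agent.Pack.LT3.E7L0

set_option linter.all false

-- ===== PACK-BEGIN LT/T6/H830/InjSpec.lean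
section


/-!
# Row LT, tower T6, leaf T6.21 `ArchInjC`: a CUT on the frame of T6.29 (helper830)

OFF-MAIN.  Definitions and `Prop`s only.  Frame: `SpecArch.lean` (helper22@7e02b2a11) and
`T6/H830/HCSpec.lean` (the Harish-Chandra transform `hcR`, its Mellin transform `melR`, and
`HCTransRC : sphTransR μ n f s = c · melR f s`, closed in `HCClosed.lean` up to the Iwasawa
formula).  The owner of T6.21 (helper952) may adopt or ignore this cut.

## The route

Let `f` be a test function of weight `n ∈ {0, ±1}` with `sphTransR μ n f s = 0` for all `s`.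
* `melR f s = 0` for all `s` (`HCTransRC`, `c ≠ 0`).
* `melR f s = ∫ e^{r (s + 1/2)} hcZ f r dr`, `hcZ f r = ∫_ζ hcR f ζ r dζ` (Fubini, `MelFubiniC`);
  `hcZ f` is continuous with compact support (`HcZRegC`); so its Fourier transform vanishes and
  `hcZ f = 0` (`FourierUniqC`, Fourier inversion).
* `f (bR ζ r x) = wph n r x · f (bR ζ t 0)` for `cosh t = cosh r + e^r x² / 2`, `t ≥ 0`
  (Cartan + weight), so `hcZ f r = ∫_x wph n r x · torT f (t(r, x)) dx`,
  `torT f t = ∫_ζ f (bR ζ t 0) dζ` (`HcZFormC`).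
* Abel inversion in one variable (`AbelInj1C`): `torT f t = 0` for `t ≥ 0`
  (the imaginary part of `wph` is odd in `x`; `∫ G(ρ₀ + v²) dv = 0` for all `ρ₀ ≥ 1` implies
  `G = 0`:  `∫∫ G(ρ + u² + v²) du dv = π ∫_ρ^∞ G`).
* The central average of `f` at `g = k_α e^{ζ₀/2} a_t k_β` is `(1/2) χ · torT f t`
  (`CentAvgOfTorusC`).
-/

set_option autoImplicit false

open scoped Matrix
open MeasureTheory

noncomputable section

namespace Fermat.Agent.LT.T6.H830

open Fermat.Agent.LT.T6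

/-! ## 1. Definitions -/

/-- The Harish-Chandra transform integrated over the centre: `∫_ζ ∫_x f(e^{ζ/2} a_r n(x))`. -/
def hcZ (f : GL (Fin 2) ℝ → ℂ) (r : ℝ) : ℂ := ∫ ζ : ℝ, hcR f ζ r

/-- The central average on the torus: `∫_ζ f(e^{ζ/2} a_t) dζ`. -/
def torT (f : GL (Fin 2) ℝ → ℂ) (t : ℝ) : ℂ := ∫ ζ : ℝ, f (bR ζ t 0)

/-- `rhoR (bR ζ r x) = cosh r + e^r x² / 2`. -/
def rhoRX (r x : ℝ) : ℝ := Real.cosh r + Real.exp r * x ^ 2 / 2

/-- `arcosh ρ = log (ρ + √(ρ² - 1))` for `ρ ≥ 1`. -/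
def arcosh830 (ρ : ℝ) : ℝ := Real.log (ρ + Real.sqrt (ρ ^ 2 - 1))

/-- The phase `(conj A / |A|)^n` of `bR ζ r x`, `A = holPart = e^{ζ/2} (cosh (r/2) - i e^{r/2} x / 2)`,
`|A|² = e^ζ (rhoRX r x + 1) / 2`. -/
def wph (n : ℤ) (r x : ℝ) : ℂ :=
  ((((Real.cosh (r / 2) : ℝ) : ℂ) + ((Real.exp (r / 2) * x / 2 : ℝ) : ℂ) * Complex.I) /
    ((Real.sqrt ((rhoRX r x + 1) / 2) : ℝ) : ℂ)) ^ n

/-! ## 2. The leaves -/

/-- **T6.21.1 MEL-FUBINI** (Fubini; `(ζ, r) ↦ hcR f ζ r` is continuous with compact support). -/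
def MelFubiniC : Prop :=
  ∀ n : ℤ, IsWt n → ∀ f : GL (Fin 2) ℝ → ℂ, IsArchTestR n f → ∀ s : ℂ,
    melR f s = ∫ r : ℝ, Complex.exp ((r : ℂ) * (s + 1 / 2)) * hcZ f r

/-- **T6.21.2 HCZ-REG**: `hcZ f` is continuous with compact support. -/
def HcZRegC : Prop :=
  ∀ n : ℤ, IsWt n → ∀ f : GL (Fin 2) ℝ → ℂ, IsArchTestR n f →
    Continuous (hcZ f) ∧ HasCompactSupport (hcZ f)

/-- **T6.21.3 FOURIER-UNIQ** (Mathlib only; Fourier inversion at `s + 1/2 = -2πiξ`). -/
def FourierUniqC : Prop :=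
  ∀ H : ℝ → ℂ, Continuous H → HasCompactSupport H →
    (∀ s : ℂ, (∫ r : ℝ, Complex.exp ((r : ℂ) * (s + 1 / 2)) * H r) = 0) → ∀ r : ℝ, H r = 0

/-- **T6.21.4 HCZ-FORM** (Cartan decomposition, weight, Fubini):
`hcZ f r = ∫_x wph n r x · torT f (arcosh (rhoRX r x)) dx`. -/
def HcZFormC : Prop :=
  CartanRC →
  ∀ n : ℤ, IsWt n → ∀ f : GL (Fin 2) ℝ → ℂ, IsArchTestR n f → ∀ r : ℝ,
    hcZ f r = ∫ x : ℝ, wph n r x * torT f (arcosh830 (rhoRX r x))

/-- **T6.21.5 TORT-REG**: `torT f` is continuous and vanishes for large `t`. -/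
def TorTRegC : Prop :=
  ∀ n : ℤ, IsWt n → ∀ f : GL (Fin 2) ℝ → ℂ, IsArchTestR n f →
    Continuous (torT f) ∧ ∃ M : ℝ, ∀ t : ℝ, M < t → torT f t = 0

/-- **T6.21.6 ABEL-INJ-1** (Mathlib only; one-variable Abel inversion, weights `0, ±1`):
if `T` is continuous, vanishes for large `t`, and
`∫_x wph n r x · T (arcosh (cosh r + e^r x² / 2)) dx = 0` for all `r`, then `T = 0` on `t ≥ 0`. -/
def AbelInj1C : Prop :=
  ∀ n : ℤ, IsWt n → ∀ T : ℝ → ℂ, Continuous T → (∃ M : ℝ, ∀ t : ℝ, M < t → T t = 0) →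
    (∀ r : ℝ, (∫ x : ℝ, wph n r x * T (arcosh830 (rhoRX r x))) = 0) →
    ∀ t : ℝ, 0 ≤ t → T t = 0

/-- **T6.21.7 CENT-AVG** (Cartan decomposition, weight, `r = e^{ζ/2}`): the central average of
`f` vanishes if `torT f` vanishes on `t ≥ 0`. -/
def CentAvgOfTorusC : Prop :=
  CartanRC →
  ∀ n : ℤ, IsWt n → ∀ f : GL (Fin 2) ℝ → ℂ, IsArchTestR n f →
    (∀ t : ℝ, 0 ≤ t → torT f t = 0) →
    ∀ Z : ℝ → GL (Fin 2) ℝ,
      (∀ r : ℝ, 0 < r →
        ((Z r : GL (Fin 2) ℝ) : Matrix (Fin 2) (Fin 2) ℝ) = Matrix.diagonal (fun _ => r)) →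
      ∀ g : GL (Fin 2) ℝ, (∫ r in Set.Ioi (0 : ℝ), f (Z r * g) / (r : ℂ)) = 0

end Fermat.Agent.LT.T6.H830

end

end
-- ===== PACK-END LT/T6/H830/InjSpec.lean

-- ===== PACK-BEGIN LT/T6/H830/SpecRelAdapter.lean
section



/-!
# Row LT, tower T6: adapter T6.29 → T6.20c (helper830), OFF-MAIN

`specRelC626_of_archSpec830 : H830.ArchSpecC → H626.SpecRelC626`
(`H626.SpecRelC626` of `Fermat/Agent/LT/T6/H626/ArchCut.lean`, helper626@d38e95c4d): the Abel
relation `IsAbelRel626` at `a = e^{ζ+r}`, `b = e^{ζ-r}` with the sections `bR (2ζ) (2r)`,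
`bC ζ r` is the hypothesis of `ArchSpecC`.
-/

set_option autoImplicit false

open scoped Matrix
open MeasureTheory

noncomputable section

namespace Fermat.Agent.LT.T6.H830

open Fermat.Agent.LT.T6 Fermat.Agent.LT.T6.H626

/-- The Abel relation of helper626 gives the matching of the Harish-Chandra transforms. -/
theorem hc_of_abelRel830 {c : ℂ} {φ : GL (Fin 2) ℂ → ℂ} {f₀ f₁ : GL (Fin 2) ℝ → ℂ}
    (h : IsAbelRel626 c φ f₀ f₁) (ζ r : ℝ) :
    hcR f₀ (2 * ζ) (2 * r) = c * hcC φ ζ r ∧ hcR f₁ (2 * ζ) (2 * r) = c * hcC φ ζ r := by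
  have hsq : ∀ t : ℝ, Real.sqrt (Real.exp t) = Real.exp (t / 2) := by
    intro t
    rw [Real.sqrt_eq_iff_mul_self_eq (Real.exp_pos _).le (Real.exp_pos _).le, ← Real.exp_add]
    congr 1
    ring
  have e1 : (2 * ζ + 2 * r) / 2 = ζ + r := by ring
  have e2 : (2 * ζ - 2 * r) / 2 = ζ - r := by ring
  refine h (Real.exp (ζ + r)) (Real.exp (ζ - r)) (Real.exp_pos _) (Real.exp_pos _)
    (fun x => bR (2 * ζ) (2 * r) x) (fun w => bC ζ r w) ?_ ?_
  · intro x
    rw [coe_bR830, e1, e2]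
  · intro w
    rw [coe_bC830, hsq, hsq]

/-- **Adapter**: T6.29 (`ArchSpecC`) gives T6.20c (`SpecRelC626`). -/
theorem specRelC626_of_archSpec830 (hA : ArchSpecC) : SpecRelC626 := by
  intro μ μ' hμ hμ' c hc n hn
  obtain ⟨C, hC, hrel⟩ := hA μ μ' hμ hμ'
  refine ⟨C * c, C * c, mul_ne_zero hC hc, mul_ne_zero hC hc, ?_⟩
  intro φ f₀ f₁ hφ hf₀ hf₁ hab
  have hn' : IsWt n := by
    rcases hn with h | h
    · exact Or.inr (Or.inl h)
    · exact Or.inr (Or.inr h)
  refine ⟨?_, ?_⟩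
  · exact hrel 0 (Or.inl rfl) f₀ φ hf₀ hφ c (fun ζ r _ => (hc_of_abelRel830 hab ζ r).1)
  · exact hrel n hn' f₁ φ hf₁ hφ c (fun ζ r _ => (hc_of_abelRel830 hab ζ r).2)

end Fermat.Agent.LT.T6.H830

end

end
-- ===== PACK-END LT/T6/H830/SpecRelAdapter.lean

-- ===== PACK-BEGIN LT/T6/H841/WInt.lean
section



/-!
# Row LT, tower T6, leaf T6.29.C3' `WIntOfC` (helper841)

OFF-MAIN.  `wIntOf841 : Fermat.Agent.LT.T6.H830.WIntOfC`, i.e. `CartanCC → WIntCC`:

    ∫_ℂ φ(bC ζ r w) Ψ(rhoC (bC ζ r w)) dw = 2π e^{-r} ∫_{u > |r|} φ(bC ζ u 0) Ψ(cosh u) sinh u du.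

Proof.  `rhoC (bC ζ r w) = cosh r + e^r ‖w‖² / 2` and `‖det (bC ζ r w)‖ = e^ζ`, so by `CartanCC`
and the bi-invariance of `φ` the integrand is a function of `‖w‖`;
`MeasureTheory.integral_fun_norm_addHaar` on `ℂ`; then the substitution
`y = √(2 e^{-r} (cosh u - cosh r))`, `u > |r|`
(`MeasureTheory.integral_image_eq_integral_abs_deriv_smul`).  No integrability is needed.
-/

set_option autoImplicit false

open scoped Matrix
open MeasureTheory

noncomputable section

namespace Fermat.Agent.LT.T6.H841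

open Fermat.Agent.LT.T6 Fermat.Agent.LT.T6.H830

/-! ## 1. `det` and `rhoC` along `bC` -/

theorem det_bC841 (ζ r : ℝ) (w : ℂ) :
    ((bC ζ r w : GL (Fin 2) ℂ) : Matrix (Fin 2) (Fin 2) ℂ).det = ((Real.exp ζ : ℝ) : ℂ) := by
  rw [coe_bC830, Matrix.det_fin_two_of, mul_zero, sub_zero, ← Complex.ofReal_mul, ← Real.exp_add]
  congr 2
  ring

theorem norm_det_bC841 (ζ r : ℝ) (w : ℂ) :
    ‖((bC ζ r w : GL (Fin 2) ℂ) : Matrix (Fin 2) (Fin 2) ℂ).det‖ = Real.exp ζ := by
  rw [det_bC841, Complex.norm_real, Real.norm_eq_abs, abs_of_pos (Real.exp_pos _)]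

theorem trace_bC841 (ζ r : ℝ) (w : ℂ) :
    ((((bC ζ r w : GL (Fin 2) ℂ) : Matrix (Fin 2) (Fin 2) ℂ).conjTranspose *
        ((bC ζ r w : GL (Fin 2) ℂ) : Matrix (Fin 2) (Fin 2) ℂ)).trace).re
      = Real.exp (ζ + r) * (1 + ‖w‖ ^ 2) + Real.exp (ζ - r) := by
  have hA : Real.exp (ζ + r) = Real.exp ((ζ + r) / 2) * Real.exp ((ζ + r) / 2) := by
    rw [← Real.exp_add]; congr 1; ring
  have hD : Real.exp (ζ - r) = Real.exp ((ζ - r) / 2) * Real.exp ((ζ - r) / 2) := by
    rw [← Real.exp_add]; congr 1; ring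
  have hw : ‖w‖ ^ 2 = w.re * w.re + w.im * w.im := by
    rw [← Complex.normSq_eq_norm_sq, Complex.normSq_apply]
  rw [coe_bC830, hA, hD, hw]
  simp only [Matrix.trace_fin_two, Matrix.mul_apply, Fin.sum_univ_two, Matrix.conjTranspose_apply,
    Matrix.of_apply, Matrix.cons_val', Matrix.cons_val_zero, Matrix.cons_val_one,
    Matrix.cons_val_fin_one, Matrix.empty_val', zero_mul, add_zero,
    Complex.star_def, map_mul, Complex.conj_ofReal, Complex.add_re, Complex.mul_re,
    Complex.ofReal_re, Complex.ofReal_im, Complex.mul_im, Complex.conj_re, Complex.conj_im,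
    mul_zero, sub_zero]
  ring

theorem rhoC_bC841 (ζ r : ℝ) (w : ℂ) :
    rhoC (bC ζ r w) = Real.cosh r + Real.exp r * ‖w‖ ^ 2 / 2 := by
  unfold rhoC
  rw [trace_bC841, norm_det_bC841, Real.cosh_eq, Real.exp_add, Real.exp_sub, Real.exp_neg]
  have h1 : Real.exp ζ ≠ 0 := Real.exp_ne_zero _
  have h2 : Real.exp r ≠ 0 := Real.exp_ne_zero _
  field_simp
  ring

/-! ## 2. `φ` along `bC` depends on `rhoC` only -/

theorem phi_bC_eq841 (hC : CartanCC) (φ : GL (Fin 2) ℂ → ℂ) (hφ : IsArchTestC φ)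
    (ζ r r' : ℝ) (w w' : ℂ) (h : rhoC (bC ζ r w) = rhoC (bC ζ r' w')) :
    φ (bC ζ r w) = φ (bC ζ r' w') := by
  obtain ⟨k, k', hk, hk', e⟩ := hC (bC ζ r w) (bC ζ r' w')
    (by rw [norm_det_bC841, norm_det_bC841]) h
  rw [e, hφ.right k' _ hk', hφ.left k _ hk]

/-! ## 3. The substitution `y = √(2 e^{-r} (cosh u - cosh r))` -/

/-- `Y r u = √(2 e^{-r} (cosh u - cosh r))`. -/
def ysub841 (r u : ℝ) : ℝ := Real.sqrt (2 * Real.exp (-r) * (Real.cosh u - Real.cosh r))

theorem cosh_lt841 {r u : ℝ} (hu : |r| < u) : Real.cosh r < Real.cosh u := by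
  rw [Real.cosh_lt_cosh]
  exact lt_of_lt_of_le hu (le_abs_self u)

theorem ysub_arg_pos841 {r u : ℝ} (hu : |r| < u) :
    0 < 2 * Real.exp (-r) * (Real.cosh u - Real.cosh r) :=
  mul_pos (mul_pos two_pos (Real.exp_pos _)) (sub_pos.2 (cosh_lt841 hu))

theorem ysub_pos841 {r u : ℝ} (hu : |r| < u) : 0 < ysub841 r u :=
  Real.sqrt_pos.2 (ysub_arg_pos841 hu)

theorem ysub_sq841 {r u : ℝ} (hu : |r| < u) :
    ysub841 r u ^ 2 = 2 * Real.exp (-r) * (Real.cosh u - Real.cosh r) :=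
  Real.sq_sqrt (ysub_arg_pos841 hu).le

theorem cosh_of_ysub841 {r u : ℝ} (hu : |r| < u) :
    Real.cosh r + Real.exp r * ysub841 r u ^ 2 / 2 = Real.cosh u := by
  rw [ysub_sq841 hu, Real.exp_neg]
  have h2 : Real.exp r ≠ 0 := Real.exp_ne_zero _
  field_simp
  ring

theorem ysub_hasDerivAt841 {r u : ℝ} (hu : |r| < u) :
    HasDerivAt (ysub841 r) (Real.exp (-r) * Real.sinh u / ysub841 r u) u := by
  have h1 : HasDerivAt (fun v : ℝ => 2 * Real.exp (-r) * (Real.cosh v - Real.cosh r))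
      (2 * Real.exp (-r) * Real.sinh u) u := by
    have := ((Real.hasDerivAt_cosh u).sub_const (Real.cosh r)).const_mul (2 * Real.exp (-r))
    simpa using this
  have h2 := h1.sqrt (ysub_arg_pos841 hu).ne'
  have e : 2 * Real.exp (-r) * Real.sinh u /
      (2 * Real.sqrt (2 * Real.exp (-r) * (Real.cosh u - Real.cosh r)))
      = Real.exp (-r) * Real.sinh u / ysub841 r u := by
    unfold ysub841
    rw [mul_assoc, mul_div_mul_left _ _ (two_ne_zero)]
  rw [e] at h2
  exact h2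

theorem ysub_injOn841 (r : ℝ) : Set.InjOn (ysub841 r) (Set.Ioi |r|) := by
  intro u hu v hv h
  have hu' : |r| < u := hu
  have hv' : |r| < v := hv
  have h1 : ysub841 r u ^ 2 = ysub841 r v ^ 2 := by rw [h]
  rw [ysub_sq841 hu', ysub_sq841 hv'] at h1
  have h2 : Real.cosh u = Real.cosh v := by
    have h3 := mul_left_cancel₀ (mul_pos two_pos (Real.exp_pos (-r))).ne' h1
    linarith
  exact Real.cosh_injOn (Set.mem_Ici.2 ((abs_nonneg r).trans hu'.le))
    (Set.mem_Ici.2 ((abs_nonneg r).trans hv'.le)) h2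

theorem ysub_image841 (r : ℝ) : ysub841 r '' Set.Ioi |r| = Set.Ioi 0 := by
  ext y
  constructor
  · rintro ⟨u, hu, rfl⟩
    exact ysub_pos841 hu
  · intro hy
    have hy' : 0 < y := hy
    have hc : Real.cosh r < Real.cosh r + Real.exp r * y ^ 2 / 2 := by
      have : 0 < Real.exp r * y ^ 2 / 2 := by positivity
      linarith
    have h1 : 1 ≤ Real.cosh r + Real.exp r * y ^ 2 / 2 := (Real.one_le_cosh r).trans hc.le
    refine ⟨Real.arcosh (Real.cosh r + Real.exp r * y ^ 2 / 2), ?_, ?_⟩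
    · have h2 : Real.cosh |r| < Real.cosh (Real.arcosh (Real.cosh r + Real.exp r * y ^ 2 / 2)) := by
        rw [Real.cosh_arcosh h1, Real.cosh_abs]; exact hc
      rw [Real.cosh_lt_cosh, abs_abs, abs_of_nonneg (Real.arcosh_nonneg h1)] at h2
      exact h2
    · unfold ysub841
      rw [Real.cosh_arcosh h1]
      have e : 2 * Real.exp (-r) * (Real.cosh r + Real.exp r * y ^ 2 / 2 - Real.cosh r) = y ^ 2 := by
        rw [Real.exp_neg]
        have h2 : Real.exp r ≠ 0 := Real.exp_ne_zero _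
        field_simp
        ring
      rw [e, Real.sqrt_sq hy'.le]

/-! ## 4. The leaf -/

theorem volume_real_ball841 : (volume : Measure ℂ).real (Metric.ball (0 : ℂ) 1) = Real.pi := by
  rw [Measure.real, Complex.volume_ball]
  simp

/-- **T6.29.C3' W-INT-OF.** -/
theorem wIntOf841 : WIntOfC := by
  intro hC φ hφ Ψ _ ζ r
  -- the radial profile
  set G : ℝ → ℂ := fun y => φ (bC ζ r (y : ℂ)) * Ψ (Real.cosh r + Real.exp r * y ^ 2 / 2) with hG
  have e1 : ∀ w : ℂ, φ (bC ζ r w) * Ψ (rhoC (bC ζ r w)) = G ‖w‖ := by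
    intro w
    have hρ : rhoC (bC ζ r w) = rhoC (bC ζ r ((‖w‖ : ℝ) : ℂ)) := by
      rw [rhoC_bC841, rhoC_bC841, Complex.norm_real, Real.norm_eq_abs, abs_of_nonneg (norm_nonneg w)]
    rw [hG]
    simp only
    rw [phi_bC_eq841 hC φ hφ ζ r r w _ hρ, rhoC_bC841]
  have e2 : (∫ w : ℂ, φ (bC ζ r w) * Ψ (rhoC (bC ζ r w))) = ∫ w : ℂ, G ‖w‖ :=
    integral_congr_ae (Filter.Eventually.of_forall e1)
  rw [e2, integral_fun_norm_addHaar (volume : Measure ℂ) G, Complex.finrank_real_complex,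
    volume_real_ball841, ← ysub_image841 r,
    integral_image_eq_integral_abs_deriv_smul measurableSet_Ioi
      (fun u hu => (ysub_hasDerivAt841 (r := r) hu).hasDerivWithinAt) (ysub_injOn841 r)]
  have e3 : ∀ u ∈ Set.Ioi |r|,
      |Real.exp (-r) * Real.sinh u / ysub841 r u| • (ysub841 r u ^ (2 - 1) • G (ysub841 r u))
        = ((Real.exp (-r) : ℝ) : ℂ) *
          (φ (bC ζ u 0) * Ψ (Real.cosh u) * ((Real.sinh u : ℝ) : ℂ)) := by
    intro u hu
    have hu' : |r| < u := hu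
    have hy := ysub_pos841 hu'
    have hs : 0 < Real.sinh u := Real.sinh_pos_iff.2 ((abs_nonneg r).trans_lt hu')
    have habs : |Real.exp (-r) * Real.sinh u / ysub841 r u|
        = Real.exp (-r) * Real.sinh u / ysub841 r u :=
      abs_of_pos (div_pos (mul_pos (Real.exp_pos _) hs) hy)
    have hρ : rhoC (bC ζ r ((ysub841 r u : ℝ) : ℂ)) = rhoC (bC ζ u 0) := by
      rw [rhoC_bC841, rhoC_bC841, Complex.norm_real, Real.norm_eq_abs, abs_of_pos hy,
        cosh_of_ysub841 hu']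
      simp
    rw [habs, hG]
    simp only
    rw [phi_bC_eq841 hC φ hφ ζ r u _ 0 hρ, cosh_of_ysub841 hu', smul_smul, Complex.real_smul]
    have : Real.exp (-r) * Real.sinh u / ysub841 r u * ysub841 r u ^ (2 - 1)
        = Real.exp (-r) * Real.sinh u := by
      have hne : ysub841 r u ≠ 0 := hy.ne'
      norm_num
      field_simp
    rw [this]
    push_cast
    ring
  rw [setIntegral_congr_fun measurableSet_Ioi e3, integral_const_mul]
  simp only [nsmul_eq_mul, Complex.real_smul]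
  push_cast
  ring

end Fermat.Agent.LT.T6.H841

end

end
-- ===== PACK-END LT/T6/H841/WInt.lean

-- ===== PACK-BEGIN LT/T6/H510/SphAvgAt.lean
section


/-!
# Row LT, tower T6, leaf T6.29.R2 `SphAvgAtC` (registry 1448) — helper510, OFF-MAIN

    sphAvgAtC_h510 : Fermat.Agent.LT.T6.H830.SphAvgAtC

verbatim against `LT/T6/H830/HCSpec.lean` (helper830@99e12b740, sha256 c3e7d846),
`LT/T6/SpecArch.lean` (003240b2), `LT/T6/Spec.lean` (8c5f2ae7).

For `n ∈ {0, 1, -1}`, `t ≥ 0`:
`(1/2π) ∫₀^{2π} e^{-inθ} E(k_θ a_t) dθ = sphRad n s (cosh t)`.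

With `C = cosh (t/2)`, `S = sinh (t/2)` the second row of `k_θ a_t` is
`(c, d) = (sin θ (C + S), cos θ (C - S))`, the determinant is `1`,
`c² + d² = cosh t - cos 2θ sinh t =: X(2θ)` and
`e^{-iθ} (d + i c) = (C - cos 2θ S) + i sin 2θ S =: A(2θ) + i B(2θ)`.
The integrand is `G(2θ)`, `G` continuous of period `2π`; `∫₀^{2π} G(2θ) dθ = ∫₀^{2π} G`; the
part with `B` is odd and integrates to `0`.
-/

set_option autoImplicit false

open scoped Matrix
open MeasureTheory

noncomputable section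

namespace Fermat.Agent.LT.T6.H510

open Fermat.Agent.LT.T6 Fermat.Agent.LT.T6.H830

/-! ## 1. Hyperbolic functions of the half argument -/

theorem exp_half_h510 (t : ℝ) :
    Real.exp ((0 + t) / 2) = Real.cosh (t / 2) + Real.sinh (t / 2) := by
  rw [zero_add, Real.cosh_add_sinh]

theorem exp_neg_half_h510 (t : ℝ) :
    Real.exp ((0 - t) / 2) = Real.cosh (t / 2) - Real.sinh (t / 2) := by
  rw [zero_sub, neg_div, Real.cosh_sub_sinh]

theorem cosh_eq_half_h510 (t : ℝ) :
    Real.cosh t = Real.cosh (t / 2) ^ 2 + Real.sinh (t / 2) ^ 2 := by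
  have h := Real.cosh_two_mul (t / 2)
  rwa [show 2 * (t / 2) = t by ring] at h

theorem sinh_eq_half_h510 (t : ℝ) :
    Real.sinh t = 2 * Real.sinh (t / 2) * Real.cosh (t / 2) := by
  have h := Real.sinh_two_mul (t / 2)
  rwa [show 2 * (t / 2) = t by ring] at h

theorem sqrt_cosh_sq_sub_one_h510 {t : ℝ} (ht : 0 ≤ t) :
    Real.sqrt (Real.cosh t ^ 2 - 1) = Real.sinh t := by
  have h : Real.cosh t ^ 2 - 1 = Real.sinh t ^ 2 := by
    rw [Real.cosh_sq]; ring
  rw [h, Real.sqrt_sq (Real.sinh_nonneg_iff.mpr ht)]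

theorem sqrt_cosh_add_one_h510 (t : ℝ) :
    Real.sqrt ((Real.cosh t + 1) / 2) = Real.cosh (t / 2) := by
  have h : (Real.cosh t + 1) / 2 = Real.cosh (t / 2) ^ 2 := by
    rw [cosh_eq_half_h510 t]
    have := Real.cosh_sq (t / 2)
    linarith
  rw [h, Real.sqrt_sq (Real.cosh_pos _).le]

theorem sqrt_cosh_sub_one_h510 {t : ℝ} (ht : 0 ≤ t) :
    Real.sqrt ((Real.cosh t - 1) / 2) = Real.sinh (t / 2) := by
  have h : (Real.cosh t - 1) / 2 = Real.sinh (t / 2) ^ 2 := by
    rw [cosh_eq_half_h510 t]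
    have := Real.cosh_sq (t / 2)
    linarith
  rw [h, Real.sqrt_sq (Real.sinh_nonneg_iff.mpr (by positivity))]

/-! ## 2. The three real functions -/

/-- `X(u) = cosh t - cos u sinh t`. -/
def xF_h510 (t u : ℝ) : ℝ := Real.cosh t - Real.cos u * Real.sinh t

/-- `A(u) = cosh (t/2) - cos u sinh (t/2)`. -/
def aF_h510 (t u : ℝ) : ℝ := Real.cosh (t / 2) - Real.cos u * Real.sinh (t / 2)

/-- `B(u) = sin u sinh (t/2)`. -/
def bF_h510 (t u : ℝ) : ℝ := Real.sin u * Real.sinh (t / 2)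

theorem xF_pos_h510 {t : ℝ} (ht : 0 ≤ t) (u : ℝ) : 0 < xF_h510 t u := by
  unfold xF_h510
  have h1 : Real.cos u * Real.sinh t ≤ 1 * Real.sinh t :=
    mul_le_mul_of_nonneg_right (Real.cos_le_one u) (Real.sinh_nonneg_iff.mpr ht)
  have h2 := Real.sinh_lt_cosh t
  linarith

theorem continuous_xF_h510 (t : ℝ) : Continuous (xF_h510 t) := by
  unfold xF_h510; fun_prop

theorem continuous_aF_h510 (t : ℝ) : Continuous (aF_h510 t) := by
  unfold aF_h510; fun_prop

theorem continuous_bF_h510 (t : ℝ) : Continuous (bF_h510 t) := by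
  unfold bF_h510; fun_prop

/-! ## 3. The entries of `k_θ a_t` -/

theorem entry10_h510 (θ t : ℝ) :
    ((rotR θ * bR 0 t 0 : GL (Fin 2) ℝ) : Matrix (Fin 2) (Fin 2) ℝ) 1 0
      = Real.sin θ * (Real.cosh (t / 2) + Real.sinh (t / 2)) := by
  rw [Units.val_mul, coe_rotR830, coe_bR830, exp_half_h510, exp_neg_half_h510]
  simp [Matrix.mul_apply, Fin.sum_univ_two]

theorem entry11_h510 (θ t : ℝ) :
    ((rotR θ * bR 0 t 0 : GL (Fin 2) ℝ) : Matrix (Fin 2) (Fin 2) ℝ) 1 1
      = Real.cos θ * (Real.cosh (t / 2) - Real.sinh (t / 2)) := by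
  rw [Units.val_mul, coe_rotR830, coe_bR830, exp_half_h510, exp_neg_half_h510]
  simp [Matrix.mul_apply, Fin.sum_univ_two]

theorem det_h510 (θ t : ℝ) :
    ((rotR θ * bR 0 t 0 : GL (Fin 2) ℝ) : Matrix (Fin 2) (Fin 2) ℝ).det = 1 := by
  rw [Units.val_mul, Matrix.det_mul, coe_rotR830, coe_bR830, exp_half_h510, exp_neg_half_h510,
    Matrix.det_fin_two_of, Matrix.det_fin_two_of]
  have h1 := Real.cos_sq_add_sin_sq θ
  have h2 := Real.cosh_sq (t / 2)
  have h3 : (Real.cosh (t / 2) + Real.sinh (t / 2)) * (Real.cosh (t / 2) - Real.sinh (t / 2))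
      = 1 := by
    linear_combination h2
  have h4 : Real.cos θ * Real.cos θ - -Real.sin θ * Real.sin θ = 1 := by
    linear_combination h1
  rw [h4, one_mul]
  linear_combination h3

theorem sq_add_sq_h510 (θ t : ℝ) :
    (Real.sin θ * (Real.cosh (t / 2) + Real.sinh (t / 2))) ^ 2
      + (Real.cos θ * (Real.cosh (t / 2) - Real.sinh (t / 2))) ^ 2 = xF_h510 t (2 * θ) := by
  unfold xF_h510
  rw [cosh_eq_half_h510 t, sinh_eq_half_h510 t, Real.cos_two_mul]
  have h1 := Real.cos_sq_add_sin_sq θ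
  linear_combination ((Real.cosh (t / 2)) ^ 2 + (Real.sinh (t / 2)) ^ 2
    + 2 * Real.sinh (t / 2) * Real.cosh (t / 2)) * h1

/-! ## 4. Complex powers of positive reals -/

theorem inv_cpow_h510 {x : ℝ} (hx : 0 < x) (w : ℂ) :
    ((1 / x : ℝ) : ℂ) ^ w = ((x : ℝ) : ℂ) ^ (-w) := by
  rw [one_div, Complex.ofReal_inv, Complex.inv_cpow _ _ (by
    rw [Complex.arg_ofReal_of_nonneg hx.le]; exact Real.pi_ne_zero.symm), Complex.cpow_neg]

theorem sqrt_cpow_h510 {x : ℝ} (hx : 0 < x) :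
    ((Real.sqrt x : ℝ) : ℂ) = ((x : ℝ) : ℂ) ^ (1 / 2 : ℂ) := by
  rw [Real.sqrt_eq_rpow, Complex.ofReal_cpow hx.le]
  norm_num

theorem cpow_div_sqrt_h510 {x : ℝ} (hx : 0 < x) (s : ℂ) :
    ((1 / x : ℝ) : ℂ) ^ (s + 1 / 2) / ((Real.sqrt x : ℝ) : ℂ) = ((x : ℝ) : ℂ) ^ (-s - 1) := by
  have hx0 : ((x : ℝ) : ℂ) ≠ 0 := Complex.ofReal_ne_zero.mpr hx.ne'
  rw [inv_cpow_h510 hx, sqrt_cpow_h510 hx, ← Complex.cpow_sub _ _ hx0]
  congr 1
  ring

theorem continuous_cpow_xF_h510 {t : ℝ} (ht : 0 ≤ t) (w : ℂ) :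
    Continuous fun u : ℝ => ((xF_h510 t u : ℝ) : ℂ) ^ w := by
  refine Continuous.cpow (Complex.continuous_ofReal.comp (continuous_xF_h510 t))
    continuous_const (fun u => ?_)
  exact Complex.ofReal_mem_slitPlane.mpr (xF_pos_h510 ht u)

/-! ## 5. The phase -/

theorem exp_neg_I_h510 (θ : ℝ) :
    Complex.exp (-((θ : ℂ) * Complex.I))
      = ((Real.cos θ : ℝ) : ℂ) - ((Real.sin θ : ℝ) : ℂ) * Complex.I := by
  rw [← neg_mul, Complex.exp_mul_I, Complex.cos_neg, Complex.sin_neg, Complex.ofReal_cos,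
    Complex.ofReal_sin]
  ring

theorem exp_I_h510 (θ : ℝ) :
    Complex.exp ((θ : ℂ) * Complex.I)
      = ((Real.cos θ : ℝ) : ℂ) + ((Real.sin θ : ℝ) : ℂ) * Complex.I := by
  rw [Complex.exp_mul_I, Complex.ofReal_cos, Complex.ofReal_sin]

/-- `e^{-iθ} (d + i c) = A(2θ) + i B(2θ)`. -/
theorem phase_pos_h510 (θ t : ℝ) :
    (((Real.cos θ : ℝ) : ℂ) - ((Real.sin θ : ℝ) : ℂ) * Complex.I) *
      (((Real.cos θ * (Real.cosh (t / 2) - Real.sinh (t / 2)) : ℝ) : ℂ)
        + ((Real.sin θ * (Real.cosh (t / 2) + Real.sinh (t / 2)) : ℝ) : ℂ) * Complex.I)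
      = ((aF_h510 t (2 * θ) : ℝ) : ℂ) + ((bF_h510 t (2 * θ) : ℝ) : ℂ) * Complex.I := by
  unfold aF_h510 bF_h510
  rw [Real.cos_two_mul, Real.sin_two_mul]
  have h1 : ((Real.cos θ : ℝ) : ℂ) ^ 2 + ((Real.sin θ : ℝ) : ℂ) ^ 2 = 1 := by
    have := Real.cos_sq_add_sin_sq θ
    exact_mod_cast this
  have hI : Complex.I ^ 2 = -1 := Complex.I_sq
  simp only [Complex.ofReal_mul, Complex.ofReal_add, Complex.ofReal_sub, Complex.ofReal_ofNat,
    Complex.ofReal_one, Complex.ofReal_pow]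
  linear_combination
    (((Real.cosh (t / 2) : ℝ) : ℂ) + ((Real.sinh (t / 2) : ℝ) : ℂ)) * h1
      - (((Real.cosh (t / 2) : ℝ) : ℂ) + ((Real.sinh (t / 2) : ℝ) : ℂ))
        * ((Real.sin θ : ℝ) : ℂ) ^ 2 * hI

/-- `e^{iθ} (d - i c) = A(2θ) - i B(2θ)`. -/
theorem phase_neg_h510 (θ t : ℝ) :
    (((Real.cos θ : ℝ) : ℂ) + ((Real.sin θ : ℝ) : ℂ) * Complex.I) *
      (((Real.cos θ * (Real.cosh (t / 2) - Real.sinh (t / 2)) : ℝ) : ℂ)
        - ((Real.sin θ * (Real.cosh (t / 2) + Real.sinh (t / 2)) : ℝ) : ℂ) * Complex.I)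
      = ((aF_h510 t (2 * θ) : ℝ) : ℂ) - ((bF_h510 t (2 * θ) : ℝ) : ℂ) * Complex.I := by
  unfold aF_h510 bF_h510
  rw [Real.cos_two_mul, Real.sin_two_mul]
  have h1 : ((Real.cos θ : ℝ) : ℂ) ^ 2 + ((Real.sin θ : ℝ) : ℂ) ^ 2 = 1 := by
    have := Real.cos_sq_add_sin_sq θ
    exact_mod_cast this
  have hI : Complex.I ^ 2 = -1 := Complex.I_sq
  simp only [Complex.ofReal_mul, Complex.ofReal_add, Complex.ofReal_sub, Complex.ofReal_ofNat,
    Complex.ofReal_one, Complex.ofReal_pow]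
  linear_combination
    (((Real.cosh (t / 2) : ℝ) : ℂ) + ((Real.sinh (t / 2) : ℝ) : ℂ)) * h1
      - (((Real.cosh (t / 2) : ℝ) : ℂ) + ((Real.sinh (t / 2) : ℝ) : ℂ))
        * ((Real.sin θ : ℝ) : ℂ) ^ 2 * hI

/-- `(d + i c)(d - i c) = X(2θ)`. -/
theorem norm_sq_h510 (θ t : ℝ) :
    (((Real.cos θ * (Real.cosh (t / 2) - Real.sinh (t / 2)) : ℝ) : ℂ)
        + ((Real.sin θ * (Real.cosh (t / 2) + Real.sinh (t / 2)) : ℝ) : ℂ) * Complex.I) *
      (((Real.cos θ * (Real.cosh (t / 2) - Real.sinh (t / 2)) : ℝ) : ℂ)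
        - ((Real.sin θ * (Real.cosh (t / 2) + Real.sinh (t / 2)) : ℝ) : ℂ) * Complex.I)
      = ((xF_h510 t (2 * θ) : ℝ) : ℂ) := by
  rw [← sq_add_sq_h510]
  have hI : Complex.I ^ 2 = -1 := Complex.I_sq
  simp only [Complex.ofReal_mul, Complex.ofReal_add, Complex.ofReal_sub, Complex.ofReal_pow]
  linear_combination
    -((((Real.sin θ : ℝ) : ℂ) * (((Real.cosh (t / 2) : ℝ) : ℂ) + ((Real.sinh (t / 2) : ℝ) : ℂ)))
      ^ 2) * hI

/-! ## 6. The function `E` at `k_θ a_t` -/

theorem eisR_rot_h510 (n : ℤ) (s : ℂ) (θ t : ℝ) :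
    eisR n s (rotR θ * bR 0 t 0)
      = ((1 / xF_h510 t (2 * θ) : ℝ) : ℂ) ^ (s + 1 / 2) *
        ((((Real.cos θ * (Real.cosh (t / 2) - Real.sinh (t / 2)) : ℝ) : ℂ)
          + ((Real.sin θ * (Real.cosh (t / 2) + Real.sinh (t / 2)) : ℝ) : ℂ) * Complex.I)
          / ((Real.sqrt (xF_h510 t (2 * θ)) : ℝ) : ℂ)) ^ n := by
  unfold eisR
  rw [entry10_h510, entry11_h510, det_h510, sq_add_sq_h510]

/-- The integrand for `n = 0`. -/
theorem integrand_zero_h510 (s : ℂ) {t : ℝ} (ht : 0 ≤ t) (θ : ℝ) :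
    Complex.exp (-(((0 : ℤ) : ℂ) * (θ : ℂ) * Complex.I)) * eisR 0 s (rotR θ * bR 0 t 0)
      = ((xF_h510 t (2 * θ) : ℝ) : ℂ) ^ (-s - 1 / 2) := by
  rw [Int.cast_zero, zero_mul, zero_mul, neg_zero, Complex.exp_zero, one_mul, eisR_rot_h510,
    zpow_zero, mul_one, inv_cpow_h510 (xF_pos_h510 ht _)]
  congr 1
  ring

/-- The integrand for `n = 1`. -/
theorem integrand_one_h510 (s : ℂ) {t : ℝ} (ht : 0 ≤ t) (θ : ℝ) :
    Complex.exp (-(((1 : ℤ) : ℂ) * (θ : ℂ) * Complex.I)) * eisR 1 s (rotR θ * bR 0 t 0)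
      = (((aF_h510 t (2 * θ) : ℝ) : ℂ) + ((bF_h510 t (2 * θ) : ℝ) : ℂ) * Complex.I) *
        ((xF_h510 t (2 * θ) : ℝ) : ℂ) ^ (-s - 1) := by
  rw [Int.cast_one, one_mul, exp_neg_I_h510, eisR_rot_h510, zpow_one,
    ← phase_pos_h510, ← cpow_div_sqrt_h510 (xF_pos_h510 ht _)]
  ring

/-- The integrand for `n = -1`. -/
theorem integrand_neg_one_h510 (s : ℂ) {t : ℝ} (ht : 0 ≤ t) (θ : ℝ) :
    Complex.exp (-(((-1 : ℤ) : ℂ) * (θ : ℂ) * Complex.I)) * eisR (-1) s (rotR θ * bR 0 t 0)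
      = (((aF_h510 t (2 * θ) : ℝ) : ℂ) - ((bF_h510 t (2 * θ) : ℝ) : ℂ) * Complex.I) *
        ((xF_h510 t (2 * θ) : ℝ) : ℂ) ^ (-s - 1) := by
  have hX := xF_pos_h510 ht (2 * θ)
  have hr : ((Real.sqrt (xF_h510 t (2 * θ)) : ℝ) : ℂ) ≠ 0 :=
    Complex.ofReal_ne_zero.mpr (Real.sqrt_pos.mpr hX).ne'
  have hrr : ((Real.sqrt (xF_h510 t (2 * θ)) : ℝ) : ℂ) * ((Real.sqrt (xF_h510 t (2 * θ)) : ℝ) : ℂ)
      = ((xF_h510 t (2 * θ) : ℝ) : ℂ) := by
    rw [← Complex.ofReal_mul, Real.mul_self_sqrt hX.le]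
  have hN := norm_sq_h510 θ t
  have hz : (((Real.cos θ * (Real.cosh (t / 2) - Real.sinh (t / 2)) : ℝ) : ℂ)
        + ((Real.sin θ * (Real.cosh (t / 2) + Real.sinh (t / 2)) : ℝ) : ℂ) * Complex.I) ≠ 0 := by
    intro h0
    rw [h0, zero_mul] at hN
    exact (Complex.ofReal_ne_zero.mpr hX.ne') hN.symm
  have hinv : ((((Real.cos θ * (Real.cosh (t / 2) - Real.sinh (t / 2)) : ℝ) : ℂ)
          + ((Real.sin θ * (Real.cosh (t / 2) + Real.sinh (t / 2)) : ℝ) : ℂ) * Complex.I)
          / ((Real.sqrt (xF_h510 t (2 * θ)) : ℝ) : ℂ)) ^ (-1 : ℤ)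
      = (((Real.cos θ * (Real.cosh (t / 2) - Real.sinh (t / 2)) : ℝ) : ℂ)
          - ((Real.sin θ * (Real.cosh (t / 2) + Real.sinh (t / 2)) : ℝ) : ℂ) * Complex.I)
          / ((Real.sqrt (xF_h510 t (2 * θ)) : ℝ) : ℂ) := by
    rw [zpow_neg_one, inv_div, div_eq_div_iff hz hr, hrr, ← hN]
    ring
  rw [Int.cast_neg, Int.cast_one, neg_mul, neg_mul, neg_neg, one_mul, exp_I_h510, eisR_rot_h510,
    hinv, ← phase_neg_h510, ← cpow_div_sqrt_h510 hX]
  ring

/-! ## 7. Integrals over a period -/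

theorem integral_comp_two_mul_h510 {G : ℝ → ℂ} (hG : Continuous G)
    (hper : Function.Periodic G (2 * Real.pi)) :
    ∫ θ in (0 : ℝ)..(2 * Real.pi), G (2 * θ) = ∫ u in (0 : ℝ)..(2 * Real.pi), G u := by
  have h1 := intervalIntegral.integral_comp_mul_left (a := 0) (b := 2 * Real.pi) G
    (c := 2) two_ne_zero
  rw [h1, mul_zero]
  have h2 : ∫ x in (0 : ℝ)..(2 * (2 * Real.pi)), G x
      = (∫ x in (0 : ℝ)..(2 * Real.pi), G x)
        + ∫ x in (2 * Real.pi)..(2 * (2 * Real.pi)), G x :=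
    (intervalIntegral.integral_add_adjacent_intervals (hG.intervalIntegrable _ _)
      (hG.intervalIntegrable _ _)).symm
  have h3 : ∫ x in (2 * Real.pi)..(2 * (2 * Real.pi)), G x
      = ∫ x in (0 : ℝ)..(2 * Real.pi), G x := by
    have h := hper.intervalIntegral_add_eq (2 * Real.pi) 0
    rw [zero_add] at h
    rw [← h]
    congr 1
    ring
  rw [h2, h3, ← two_smul ℝ, smul_smul, inv_mul_cancel₀ (two_ne_zero' ℝ), one_smul]

theorem integral_odd_h510 {h : ℝ → ℂ} (hper : Function.Periodic h (2 * Real.pi))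
    (hodd : ∀ u, h (-u) = -h u) :
    ∫ u in (0 : ℝ)..(2 * Real.pi), h u = 0 := by
  have h1 : ∫ u in (0 : ℝ)..(2 * Real.pi), h u = ∫ u in (-Real.pi)..Real.pi, h u := by
    have h0 := hper.intervalIntegral_add_eq 0 (-Real.pi)
    rw [zero_add] at h0
    rw [h0]
    congr 1
    ring
  have h2 : ∫ u in (-Real.pi)..Real.pi, h (-u) = ∫ u in (-Real.pi)..Real.pi, h u := by
    have h0 := intervalIntegral.integral_comp_neg (a := -Real.pi) (b := Real.pi) h
    rw [h0, neg_neg]
  have h3 : ∫ u in (-Real.pi)..Real.pi, h (-u) = -∫ u in (-Real.pi)..Real.pi, h u := by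
    rw [← intervalIntegral.integral_neg]
    exact intervalIntegral.integral_congr (fun u _ => hodd u)
  have h4 : ∫ u in (-Real.pi)..Real.pi, h u = -∫ u in (-Real.pi)..Real.pi, h u :=
    h2.symm.trans h3
  have h5 : (2 : ℂ) * ∫ u in (-Real.pi)..Real.pi, h u = 0 := by linear_combination h4
  rw [h1]
  rcases mul_eq_zero.mp h5 with h6 | h6
  · exact absurd h6 two_ne_zero
  · exact h6

theorem periodic_xF_h510 (t : ℝ) : Function.Periodic (xF_h510 t) (2 * Real.pi) := by
  intro u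
  unfold xF_h510
  rw [Real.cos_add_two_pi]

theorem periodic_aF_h510 (t : ℝ) : Function.Periodic (aF_h510 t) (2 * Real.pi) := by
  intro u
  unfold aF_h510
  rw [Real.cos_add_two_pi]

theorem periodic_bF_h510 (t : ℝ) : Function.Periodic (bF_h510 t) (2 * Real.pi) := by
  intro u
  unfold bF_h510
  rw [Real.sin_add_two_pi]

theorem xF_neg_h510 (t u : ℝ) : xF_h510 t (-u) = xF_h510 t u := by
  unfold xF_h510
  rw [Real.cos_neg]

theorem bF_neg_h510 (t u : ℝ) : bF_h510 t (-u) = -bF_h510 t u := by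
  unfold bF_h510
  rw [Real.sin_neg, neg_mul]

/-- The odd part integrates to `0`. -/
theorem integral_bF_h510 (t : ℝ) (w : ℂ) :
    ∫ u in (0 : ℝ)..(2 * Real.pi),
      ((bF_h510 t u : ℝ) : ℂ) * Complex.I * ((xF_h510 t u : ℝ) : ℂ) ^ w = 0 := by
  refine integral_odd_h510 ?_ ?_
  · intro u
    simp only [periodic_xF_h510 t u, periodic_bF_h510 t u]
  · intro u
    simp only [xF_neg_h510, bF_neg_h510, Complex.ofReal_neg, neg_mul]

/-- The integral of `(A ± i B) X^w` over a period is the integral of `A X^w`. -/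
theorem integral_aF_bF_h510 {t : ℝ} (ht : 0 ≤ t) (w : ℂ) (ε : ℂ) :
    ∫ u in (0 : ℝ)..(2 * Real.pi),
      (((aF_h510 t u : ℝ) : ℂ) + ε * (((bF_h510 t u : ℝ) : ℂ) * Complex.I)) *
        ((xF_h510 t u : ℝ) : ℂ) ^ w
      = ∫ u in (0 : ℝ)..(2 * Real.pi), ((aF_h510 t u : ℝ) : ℂ) * ((xF_h510 t u : ℝ) : ℂ) ^ w := by
  have hc1 : Continuous fun u : ℝ => ((aF_h510 t u : ℝ) : ℂ) * ((xF_h510 t u : ℝ) : ℂ) ^ w :=
    (Complex.continuous_ofReal.comp (continuous_aF_h510 t)).mul (continuous_cpow_xF_h510 ht w)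
  have hc2 : Continuous fun u : ℝ =>
      ε * (((bF_h510 t u : ℝ) : ℂ) * Complex.I * ((xF_h510 t u : ℝ) : ℂ) ^ w) :=
    continuous_const.mul
      (((Complex.continuous_ofReal.comp (continuous_bF_h510 t)).mul continuous_const).mul
        (continuous_cpow_xF_h510 ht w))
  have hsplit : ∀ u : ℝ,
      (((aF_h510 t u : ℝ) : ℂ) + ε * (((bF_h510 t u : ℝ) : ℂ) * Complex.I)) *
        ((xF_h510 t u : ℝ) : ℂ) ^ w
      = ((aF_h510 t u : ℝ) : ℂ) * ((xF_h510 t u : ℝ) : ℂ) ^ w
        + ε * (((bF_h510 t u : ℝ) : ℂ) * Complex.I * ((xF_h510 t u : ℝ) : ℂ) ^ w) := by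
    intro u
    ring
  rw [intervalIntegral.integral_congr (fun u _ => hsplit u),
    intervalIntegral.integral_add (hc1.intervalIntegrable _ _) (hc2.intervalIntegrable _ _),
    intervalIntegral.integral_const_mul, integral_bF_h510, mul_zero, add_zero]

/-! ## 8. The leaf -/

/-- **T6.29.R2 SPH-AVG-AT.** -/
theorem sphAvgAtC_h510 : SphAvgAtC := by
  intro n hn s t ht
  rcases hn with rfl | rfl | rfl
  · -- weight `0`
    have hG : Continuous fun u : ℝ => ((xF_h510 t u : ℝ) : ℂ) ^ (-s - 1 / 2) :=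
      continuous_cpow_xF_h510 ht _
    have hper : Function.Periodic (fun u : ℝ => ((xF_h510 t u : ℝ) : ℂ) ^ (-s - 1 / 2))
        (2 * Real.pi) := by
      intro u
      simp only [periodic_xF_h510 t u]
    rw [intervalIntegral.integral_congr (fun θ _ => integrand_zero_h510 s ht θ),
      integral_comp_two_mul_h510 hG hper]
    unfold sphRad sphR0
    rw [if_pos rfl, sqrt_cosh_sq_sub_one_h510 ht]
    rfl
  · -- weight `1`
    have hG : Continuous fun u : ℝ =>
        (((aF_h510 t u : ℝ) : ℂ) + ((bF_h510 t u : ℝ) : ℂ) * Complex.I) *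
          ((xF_h510 t u : ℝ) : ℂ) ^ (-s - 1) :=
      ((Complex.continuous_ofReal.comp (continuous_aF_h510 t)).add
        ((Complex.continuous_ofReal.comp (continuous_bF_h510 t)).mul continuous_const)).mul
        (continuous_cpow_xF_h510 ht _)
    have hper : Function.Periodic (fun u : ℝ =>
        (((aF_h510 t u : ℝ) : ℂ) + ((bF_h510 t u : ℝ) : ℂ) * Complex.I) *
          ((xF_h510 t u : ℝ) : ℂ) ^ (-s - 1)) (2 * Real.pi) := by
      intro u
      simp only [periodic_xF_h510 t u, periodic_aF_h510 t u, periodic_bF_h510 t u]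
    have hε := integral_aF_bF_h510 ht (-s - 1) 1
    simp only [one_mul] at hε
    rw [intervalIntegral.integral_congr (fun θ _ => integrand_one_h510 s ht θ),
      integral_comp_two_mul_h510 hG hper, hε]
    unfold sphRad sphR1
    rw [if_neg one_ne_zero, sqrt_cosh_sq_sub_one_h510 ht, sqrt_cosh_add_one_h510,
      sqrt_cosh_sub_one_h510 ht]
    rfl
  · -- weight `-1`
    have hG : Continuous fun u : ℝ =>
        (((aF_h510 t u : ℝ) : ℂ) - ((bF_h510 t u : ℝ) : ℂ) * Complex.I) *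
          ((xF_h510 t u : ℝ) : ℂ) ^ (-s - 1) :=
      ((Complex.continuous_ofReal.comp (continuous_aF_h510 t)).sub
        ((Complex.continuous_ofReal.comp (continuous_bF_h510 t)).mul continuous_const)).mul
        (continuous_cpow_xF_h510 ht _)
    have hper : Function.Periodic (fun u : ℝ =>
        (((aF_h510 t u : ℝ) : ℂ) - ((bF_h510 t u : ℝ) : ℂ) * Complex.I) *
          ((xF_h510 t u : ℝ) : ℂ) ^ (-s - 1)) (2 * Real.pi) := by
      intro u
      simp only [periodic_xF_h510 t u, periodic_aF_h510 t u, periodic_bF_h510 t u]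
    have hε := integral_aF_bF_h510 ht (-s - 1) (-1)
    simp only [neg_one_mul, ← sub_eq_add_neg] at hε
    rw [intervalIntegral.integral_congr (fun θ _ => integrand_neg_one_h510 s ht θ),
      integral_comp_two_mul_h510 hG hper, hε]
    unfold sphRad sphR1
    rw [if_neg (by decide), sqrt_cosh_sq_sub_one_h510 ht, sqrt_cosh_add_one_h510,
      sqrt_cosh_sub_one_h510 ht]
    rfl

end Fermat.Agent.LT.T6.H510

end

end
-- ===== PACK-END LT/T6/H510/SphAvgAt.lean

-- ===== PACK-BEGIN LT/T6/H131/EisInt.lean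
section



/-
LT tower T6, leaf T6.29.R4 `EisIntRC` (registry id 1450) -- helper131, OFF-MAIN.

Spec: helper830@99e12b740 `Fermat/Agent/LT/T6/H830/HCSpec.lean`
(sha256 c3e7d846d59fc805...), which imports `LT/T6/SpecArch.lean` and
`LT/T6/Spec.lean` v3 (8c5f2ae7...).

Result: `eisIntRC_h131 : Fermat.Agent.LT.T6.H830.EisIntRC`.

Outline: the spherical average is the circle integral of the rotated function
(`SphAvgRC`); restrict the Haar measure to the compact topological support of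
the test function, swap the two integrals (continuity of the integrand on
`Icc 0 (2 pi) x tsupport f`), use left invariance of the Haar measure for each
rotation and the `K`-type equivariance of the test function.
-/

set_option autoImplicit false
set_option linter.style.haveILetI false

open scoped Matrix
open MeasureTheory

noncomputable section

namespace Fermat.Agent.LT.T6.H131

open Fermat.Agent.LT.T6 Fermat.Agent.LT.T6.H830

/-! ## Rotations -/

theorem rotR_neg_mul_rotR_h131 (θ : ℝ) : rotR (-θ) * rotR θ = 1 := by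
  apply Units.ext
  rw [Units.val_mul, coe_rotR830, coe_rotR830, Units.val_one]
  ext i j
  have h := Real.cos_sq_add_sin_sq θ
  fin_cases i <;> fin_cases j <;>
    simp [Matrix.mul_apply, Fin.sum_univ_two, Real.cos_neg, Real.sin_neg] <;> nlinarith

theorem inSO2_rotR_h131 (θ : ℝ) : InSO2 (rotR θ) := by
  constructor
  · rw [coe_rotR830]
    ext i j
    have h := Real.cos_sq_add_sin_sq θ
    fin_cases i <;> fin_cases j <;>
      simp [Matrix.mul_apply, Fin.sum_univ_two, Matrix.transpose_apply] <;> nlinarith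
  · rw [coe_rotR830, Matrix.det_fin_two_of]
    have h := Real.cos_sq_add_sin_sq θ
    nlinarith

theorem holPart_rotR_h131 (θ : ℝ) : holPart (rotR θ) = Complex.exp ((θ : ℂ) * Complex.I) := by
  unfold holPart
  rw [coe_rotR830, Complex.exp_mul_I]
  simp only [Matrix.of_apply, Matrix.cons_val', Matrix.cons_val_zero, Matrix.cons_val_one,
    Matrix.cons_val_fin_one]
  push_cast
  ring

theorem wtChar_rotR_h131 (n : ℤ) (θ : ℝ) :
    wtChar n (rotR θ) = Complex.exp ((n : ℂ) * ((θ : ℂ) * Complex.I)) := by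
  unfold wtChar
  rw [holPart_rotR_h131, Complex.exp_int_mul]

theorem continuous_rotR_h131 : Continuous rotR := by
  rw [Units.continuous_iff]
  constructor
  · have : (Units.val ∘ rotR) = fun θ : ℝ =>
        (!![Real.cos θ, -Real.sin θ; Real.sin θ, Real.cos θ] : Matrix (Fin 2) (Fin 2) ℝ) := by
      funext θ
      rfl
    rw [this]
    refine continuous_matrix fun i j => ?_
    fin_cases i <;> fin_cases j <;> simp <;> fun_prop
  · have : (fun θ : ℝ => (((rotR θ)⁻¹ : GL (Fin 2) ℝ) : Matrix (Fin 2) (Fin 2) ℝ))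
        = fun θ : ℝ =>
          (!![Real.cos θ, Real.sin θ; -Real.sin θ, Real.cos θ] : Matrix (Fin 2) (Fin 2) ℝ) := by
      funext θ
      have h1 : (rotR θ)⁻¹ = rotR (-θ) := inv_eq_of_mul_eq_one_left (rotR_neg_mul_rotR_h131 θ)
      rw [h1, coe_rotR830, Real.cos_neg, Real.sin_neg, neg_neg]
    rw [this]
    refine continuous_matrix fun i j => ?_
    fin_cases i <;> fin_cases j <;> simp <;> fun_prop

/-! ## Continuity of `eisR` on `det > 0` -/

theorem row_sq_pos_h131 (g : GL (Fin 2) ℝ) :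
    0 < (g : Matrix (Fin 2) (Fin 2) ℝ) 1 0 ^ 2 + (g : Matrix (Fin 2) (Fin 2) ℝ) 1 1 ^ 2 := by
  have hdet : (g : Matrix (Fin 2) (Fin 2) ℝ).det ≠ 0 := by
    have := Matrix.GeneralLinearGroup.det_ne_zero g
    exact this
  rw [Matrix.det_fin_two] at hdet
  by_contra h
  have h0 : (g : Matrix (Fin 2) (Fin 2) ℝ) 1 0 ^ 2 + (g : Matrix (Fin 2) (Fin 2) ℝ) 1 1 ^ 2 = 0 :=
    le_antisymm (not_lt.1 h) (by positivity)
  have hc : (g : Matrix (Fin 2) (Fin 2) ℝ) 1 0 = 0 := by nlinarith [sq_nonneg ((g : Matrix (Fin 2) (Fin 2) ℝ) 1 0), sq_nonneg ((g : Matrix (Fin 2) (Fin 2) ℝ) 1 1)]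
  have hd : (g : Matrix (Fin 2) (Fin 2) ℝ) 1 1 = 0 := by nlinarith [sq_nonneg ((g : Matrix (Fin 2) (Fin 2) ℝ) 1 0), sq_nonneg ((g : Matrix (Fin 2) (Fin 2) ℝ) 1 1)]
  apply hdet
  rw [hc, hd]
  ring

theorem continuous_entry_h131 (i j : Fin 2) :
    Continuous fun g : GL (Fin 2) ℝ => (g : Matrix (Fin 2) (Fin 2) ℝ) i j :=
  Continuous.matrix_elem Units.continuous_val i j

theorem continuous_det_h131 :
    Continuous fun g : GL (Fin 2) ℝ => (g : Matrix (Fin 2) (Fin 2) ℝ).det :=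
  Continuous.matrix_det Units.continuous_val

theorem continuousAt_eisR_h131 (n : ℤ) (s : ℂ) (g : GL (Fin 2) ℝ)
    (hg : 0 < (g : Matrix (Fin 2) (Fin 2) ℝ).det) : ContinuousAt (eisR n s) g := by
  have hrow := row_sq_pos_h131 g
  have hc := continuous_entry_h131 1 0
  have hd := continuous_entry_h131 1 1
  have hrc : Continuous fun g : GL (Fin 2) ℝ =>
      (g : Matrix (Fin 2) (Fin 2) ℝ) 1 0 ^ 2 + (g : Matrix (Fin 2) (Fin 2) ℝ) 1 1 ^ 2 :=
    (hc.pow 2).add (hd.pow 2)
  unfold eisR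
  refine ContinuousAt.mul ?_ ?_
  · have h1 : ContinuousAt (fun g : GL (Fin 2) ℝ => (g : Matrix (Fin 2) (Fin 2) ℝ).det /
        ((g : Matrix (Fin 2) (Fin 2) ℝ) 1 0 ^ 2 + (g : Matrix (Fin 2) (Fin 2) ℝ) 1 1 ^ 2)) g :=
      continuous_det_h131.continuousAt.div hrc.continuousAt hrow.ne'
    have h2 := Complex.continuousAt_ofReal_cpow_const
      ((g : Matrix (Fin 2) (Fin 2) ℝ).det /
        ((g : Matrix (Fin 2) (Fin 2) ℝ) 1 0 ^ 2 + (g : Matrix (Fin 2) (Fin 2) ℝ) 1 1 ^ 2))
      (s + 1 / 2) (Or.inr (div_pos hg hrow).ne')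
    exact ContinuousAt.comp (g := fun a : ℝ => (a : ℂ) ^ (s + 1 / 2)) h2 h1
  · refine ContinuousAt.zpow₀ ?_ n (Or.inl ?_)
    · refine ContinuousAt.div ?_ ?_ ?_
      · exact ((Complex.continuous_ofReal.comp hd).add
          ((Complex.continuous_ofReal.comp hc).mul continuous_const)).continuousAt
      · exact (Complex.continuous_ofReal.comp (Real.continuous_sqrt.comp hrc)).continuousAt
      · rw [Ne, Complex.ofReal_eq_zero]
        exact (Real.sqrt_pos.2 hrow).ne'
    · rw [Ne, div_eq_zero_iff, not_or]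
      constructor
      · intro h
        have hre := congrArg Complex.re h
        have him := congrArg Complex.im h
        simp at hre him
        rw [hre, him] at hrow
        simp at hrow
      · rw [Complex.ofReal_eq_zero]
        exact (Real.sqrt_pos.2 hrow).ne'

theorem det_rotR_mul_h131 (θ : ℝ) (y : GL (Fin 2) ℝ) :
    ((rotR θ * y : GL (Fin 2) ℝ) : Matrix (Fin 2) (Fin 2) ℝ).det
      = (y : Matrix (Fin 2) (Fin 2) ℝ).det := by
  rw [Units.val_mul, Matrix.det_mul, (inSO2_rotR_h131 θ).2, one_mul]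

/-- The integrand `(θ, y) ↦ f y * E (k_θ y)` is continuous. -/
theorem continuous_integrand_h131 (n : ℤ) (s : ℂ) {f : GL (Fin 2) ℝ → ℂ}
    (hf : IsArchTestR n f) :
    Continuous fun p : ℝ × GL (Fin 2) ℝ => f p.2 * eisR n s (rotR p.1 * p.2) := by
  rw [continuous_iff_continuousAt]
  rintro ⟨θ₀, y₀⟩
  have hm : Continuous fun p : ℝ × GL (Fin 2) ℝ => rotR p.1 * p.2 :=
    (continuous_rotR_h131.comp continuous_fst).mul continuous_snd
  have hdetc : Continuous fun p : ℝ × GL (Fin 2) ℝ => (p.2 : Matrix (Fin 2) (Fin 2) ℝ).det :=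
    continuous_det_h131.comp continuous_snd
  have hne : (y₀ : Matrix (Fin 2) (Fin 2) ℝ).det ≠ 0 := Matrix.GeneralLinearGroup.det_ne_zero y₀
  rcases lt_or_gt_of_ne hne with hneg | hpos
  · -- `f` vanishes near `y₀`
    have hnhds : ∀ᶠ p : ℝ × GL (Fin 2) ℝ in nhds (θ₀, y₀),
        (p.2 : Matrix (Fin 2) (Fin 2) ℝ).det < 0 :=
      hdetc.continuousAt.eventually (gt_mem_nhds hneg)
    have hev : (fun p : ℝ × GL (Fin 2) ℝ => f p.2 * eisR n s (rotR p.1 * p.2))
        =ᶠ[nhds (θ₀, y₀)] fun _ => 0 := by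
      filter_upwards [hnhds] with p hp
      have : f p.2 = 0 := by
        by_contra h
        exact absurd (hf.pos p.2 h) (not_lt.2 (le_of_lt hp))
      rw [this, zero_mul]
    exact continuousAt_const.congr hev.symm
  · refine ContinuousAt.mul (hf.cont.comp continuous_snd).continuousAt ?_
    have hE : ContinuousAt (eisR n s) (rotR θ₀ * y₀) :=
      continuousAt_eisR_h131 n s _ (by rw [det_rotR_mul_h131]; exact hpos)
    have hcomp : ContinuousAt ((eisR n s) ∘ (fun p : ℝ × GL (Fin 2) ℝ => rotR p.1 * p.2))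
        (θ₀, y₀) :=
      ContinuousAt.comp (x := (θ₀, y₀)) (g := eisR n s)
        (f := fun p : ℝ × GL (Fin 2) ℝ => rotR p.1 * p.2) hE hm.continuousAt
    exact hcomp

local instance borelGLR_h131 : MeasurableSpace (GL (Fin 2) ℝ) := borel _

local instance borelSpaceGLR_h131 : BorelSpace (GL (Fin 2) ℝ) := ⟨rfl⟩

/-- Left invariance: `∫ f(y) E(k_θ y) dμ = e^{inθ} ∫ f E dμ`. -/
theorem integral_rot_h131 (μ : Measure (GL (Fin 2) ℝ)) [μ.IsHaarMeasure] (n : ℤ) (s : ℂ)
    {f : GL (Fin 2) ℝ → ℂ} (hf : IsArchTestR n f) (θ : ℝ) :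
    ∫ y, f y * eisR n s (rotR θ * y) ∂μ
      = Complex.exp ((n : ℂ) * ((θ : ℂ) * Complex.I)) * ∫ y, f y * eisR n s y ∂μ := by
  have h1 := integral_mul_left_eq_self (μ := μ)
    (fun y : GL (Fin 2) ℝ => f (rotR (-θ) * y) * eisR n s y) (rotR θ)
  have h2 : ∀ y : GL (Fin 2) ℝ, f (rotR (-θ) * (rotR θ * y)) = f y := by
    intro y
    rw [← mul_assoc, rotR_neg_mul_rotR_h131, one_mul]
  simp only [h2] at h1
  rw [h1, ← integral_const_mul]
  congr 1
  funext y
  rw [hf.left (rotR (-θ)) y (inSO2_rotR_h131 _), wtChar_rotR_h131, ← Complex.exp_neg]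
  rw [mul_assoc]
  congr 2
  push_cast
  ring

/-- **T6.29.R4 EIS-INT** (`H830.EisIntRC`). -/
theorem eisIntRC_h131 : EisIntRC := by
  intro hSph μ hμ n hn f hf s
  haveI := hμ
  unfold sphTransR
  set c₀ : ℂ := ((1 / (2 * Real.pi) : ℝ) : ℂ) with hc₀
  set F₀ : ℝ × GL (Fin 2) ℝ → ℂ := fun p => f p.2 * eisR n s (rotR p.1 * p.2) with hF₀
  have hF₀c : Continuous F₀ := continuous_integrand_h131 n s hf
  set G : ℝ → GL (Fin 2) ℝ → ℂ := fun θ y =>
    c₀ * (Complex.exp (-((n : ℂ) * (θ : ℂ) * Complex.I)) * F₀ (θ, y)) with hG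
  have hπ : (0 : ℝ) ≤ 2 * Real.pi := by positivity
  have hTc : IsCompact (tsupport f) := hf.supp
  have hzero : ∀ y, y ∉ tsupport f → ∀ θ, G θ y = 0 := by
    intro y hy θ
    have : f y = 0 := image_eq_zero_of_notMem_tsupport hy
    simp [hG, hF₀, this]
  -- Step 1: the spherical function as an average
  have h1 : ∀ y, f y * sphFn n s y = ∫ θ in (0 : ℝ)..(2 * Real.pi), G θ y := by
    intro y
    by_cases hy : f y = 0
    · have : ∀ θ, G θ y = 0 := fun θ => by simp [hG, hF₀, hy]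
      simp [this, hy]
    · have hs := hSph n hn s y (hf.pos y hy)
      have e1 : ∀ θ, G θ y = (f y * c₀) *
          (Complex.exp (-((n : ℂ) * (θ : ℂ) * Complex.I)) * eisR n s (rotR θ * y)) := by
        intro θ
        simp only [hG, hF₀]
        ring
      simp_rw [e1]
      rw [intervalIntegral.integral_const_mul, ← hs, mul_assoc]
  -- Step 2: Fubini
  haveI : IsFiniteMeasure (μ.restrict (tsupport f)) :=
    ⟨by rw [Measure.restrict_apply_univ]; exact hTc.measure_lt_top⟩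
  have hint : Integrable (Function.uncurry fun (y : GL (Fin 2) ℝ) (θ : ℝ) => G θ y)
      ((μ.restrict (tsupport f)).prod (volume.restrict (Set.Ioc (0 : ℝ) (2 * Real.pi)))) := by
    have hcont : Continuous (Function.uncurry fun (y : GL (Fin 2) ℝ) (θ : ℝ) => G θ y) := by
      have : (Function.uncurry fun (y : GL (Fin 2) ℝ) (θ : ℝ) => G θ y)
          = fun p : GL (Fin 2) ℝ × ℝ =>
            c₀ * (Complex.exp (-((n : ℂ) * (p.2 : ℂ) * Complex.I)) * F₀ (p.2, p.1)) := by
        funext p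
        rfl
      rw [this]
      refine continuous_const.mul (Continuous.mul ?_ ?_)
      · fun_prop
      · exact hF₀c.comp (continuous_snd.prodMk continuous_fst)
    obtain ⟨C, hC⟩ := ((isCompact_Icc (a := (0 : ℝ)) (b := 2 * Real.pi)).prod hTc).exists_bound_of_continuousOn
      hF₀c.continuousOn
    have hbound : ∀ p : GL (Fin 2) ℝ × ℝ, p ∈ (Set.univ : Set (GL (Fin 2) ℝ)) ×ˢ
        Set.Ioc (0 : ℝ) (2 * Real.pi) →
        ‖(Function.uncurry fun (y : GL (Fin 2) ℝ) (θ : ℝ) => G θ y) p‖ ≤ ‖c₀‖ * (max C 0) := by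
      rintro ⟨y, θ⟩ ⟨-, hθ⟩
      simp only [Function.uncurry_apply_pair, hG]
      rw [norm_mul, norm_mul]
      have he : ‖Complex.exp (-((n : ℂ) * (θ : ℂ) * Complex.I))‖ = 1 := by
        have : -((n : ℂ) * (θ : ℂ) * Complex.I) = ((-(n * θ) : ℝ) : ℂ) * Complex.I := by
          push_cast
          ring
        rw [this, Complex.norm_exp_ofReal_mul_I]
      rw [he, one_mul]
      refine mul_le_mul_of_nonneg_left ?_ (norm_nonneg _)
      by_cases hy : y ∈ tsupport f
      · exact (hC (θ, y) ⟨⟨hθ.1.le, hθ.2⟩, hy⟩).trans (le_max_left _ _)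
      · have : f y = 0 := image_eq_zero_of_notMem_tsupport hy
        simp only [hF₀, this, zero_mul, norm_zero]
        exact le_max_right _ _
    have hrho : (μ.restrict (tsupport f)).prod (volume.restrict (Set.Ioc (0 : ℝ) (2 * Real.pi)))
        = ((μ.restrict (tsupport f)).prod volume).restrict
          ((Set.univ : Set (GL (Fin 2) ℝ)) ×ˢ Set.Ioc (0 : ℝ) (2 * Real.pi)) := by
      rw [← Measure.prod_restrict, Measure.restrict_univ]
    haveI : IsFiniteMeasure ((μ.restrict (tsupport f)).prod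
        (volume.restrict (Set.Ioc (0 : ℝ) (2 * Real.pi)))) := inferInstance
    refine Integrable.of_bound hcont.aestronglyMeasurable (‖c₀‖ * (max C 0)) ?_
    rw [hrho]
    exact ae_restrict_of_forall_mem (MeasurableSet.univ.prod measurableSet_Ioc) hbound
  have hswap := integral_integral_swap hint
  -- Step 3: the inner integrals
  have h3 : ∀ θ : ℝ, ∫ y in tsupport f, G θ y ∂μ
      = c₀ * ∫ y, f y * eisR n s y ∂μ := by
    intro θ
    rw [setIntegral_eq_integral_of_forall_compl_eq_zero (fun y hy => hzero y hy θ)]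
    simp only [hG, hF₀]
    rw [integral_const_mul, integral_const_mul, integral_rot_h131 μ n s hf θ, ← mul_assoc
      (Complex.exp _), ← Complex.exp_add]
    have : -((n : ℂ) * (θ : ℂ) * Complex.I) + (n : ℂ) * ((θ : ℂ) * Complex.I) = 0 := by ring
    rw [this, Complex.exp_zero, one_mul]
  -- assembly
  calc ∫ y, f y * sphFn n s y ∂μ
      = ∫ y, (∫ θ in (0 : ℝ)..(2 * Real.pi), G θ y) ∂μ := by
        congr 1
        funext y
        exact h1 y
    _ = ∫ y in tsupport f, (∫ θ in (0 : ℝ)..(2 * Real.pi), G θ y) ∂μ := by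
        rw [setIntegral_eq_integral_of_forall_compl_eq_zero]
        intro y hy
        simp [hzero y hy]
    _ = ∫ y in tsupport f, (∫ θ in Set.Ioc (0 : ℝ) (2 * Real.pi), G θ y) ∂μ := by
        congr 1
        funext y
        exact intervalIntegral.integral_of_le hπ
    _ = ∫ θ in Set.Ioc (0 : ℝ) (2 * Real.pi), (∫ y in tsupport f, G θ y ∂μ) := hswap
    _ = ∫ θ in Set.Ioc (0 : ℝ) (2 * Real.pi), (c₀ * ∫ y, f y * eisR n s y ∂μ) := by
        congr 1
        funext θ
        exact h3 θ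
    _ = ∫ y, f y * eisR n s y ∂μ := by
        rw [← intervalIntegral.integral_of_le hπ, intervalIntegral.integral_const, sub_zero,
          hc₀]
        have hpi : (2 * Real.pi : ℝ) ≠ 0 := by positivity
        rw [Complex.real_smul, ← mul_assoc, ← Complex.ofReal_mul]
        rw [show (2 * Real.pi) * (1 / (2 * Real.pi)) = 1 by field_simp]
        simp

end Fermat.Agent.LT.T6.H131

end
end
-- ===== PACK-END LT/T6/H131/EisInt.lean

-- ===== PACK-BEGIN LT/T2/H131/Leaf05.lean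
section





/-!
# Row LT, tower T2, leaf T2.05 (`Leaf05`: `GPS ⇒ ConvRegular`) -- helper131, OFF-MAIN

Spec: `Fermat/Agent/LT/T2/Spec.lean` v3 (helper130@1d269d06f, sha256 b934629a), vocabulary
`LT/H556/A0.lean`, `LT/T1/Spec.lean` (byte-identical copies).  Nothing is assumed, no
placeholder proof.

Proof.  Let `φ k` be an `L²`-Cauchy sequence of cusp functions and `ψs k = R(f) (φ k)`.
* `IsCuspFn` is stable under differences (`isCuspFn_sub_h131`): the constant-term integrand is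
  bounded and continuous, and EVERY fundamental domain of `K` in `𝔸_K` has finite measure
  (`addFundDom_measure_lt_top_h131`: two fundamental domains have the same measure, `T1.AddFundDomC`
  gives one of finite measure; `K` is countable).
* `R(f)` is additive on continuous functions (`conv_sub_h131`): the integrand is continuous with
  compact support, the Haar measure is finite on compact sets.
* By `GPS`, `sup |ψs k - ψs l| ≤ C ‖φ k - φ l‖₂`: the sequence `ψs` is uniformly Cauchy, hence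
  converges uniformly to some `ψ`.
* A uniform limit of cusp functions is a cusp function (`isCuspFn_of_tendstoUniformly_h131`).
* `‖ψs k - ψ‖₂² ≤ sup |ψs k - ψ|² · μ(D) → 0` (`abs_nsq_le_h131`, `Frame.fin`).
Only `T1Out.addFundDom`, `ConvCusp` (third component) and `GPS` are used; `𝔫 ≠ ⊥` and
`PairDefinite` are not.  By-products: `continuous_unip_h131`, `continuous_det_h131`,
`measurableSet_slab_h131` (the slab is Borel, from the continuity of the module in `T1.AdNormC`),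
`countable_numberField_h131`, `isCuspFn_sub_h131`.
-/

set_option autoImplicit false
set_option linter.style.haveILetI false

open IsDedekindDomain NumberField MeasureTheory AutomorphicForm
open Fermat.Agent.LT.H556.A0

noncomputable section

namespace Fermat.Agent.LT.T2.H131

attribute [local instance] Fermat.Agent.LT.T2.borelG

variable {K : Type} [Field K] [NumberField K]

/-- The Borel structure of the adeles (the one of `A0.IsCuspidalFn`, `T1.AddFundDomC`). -/
local instance borelAdl_h131 : MeasurableSpace (Adl K) := borel (Adl K)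

local instance borelSpaceAdl_h131 : BorelSpace (Adl K) := ⟨rfl⟩

local instance borelSpaceG_h131 : BorelSpace (G K) := ⟨rfl⟩

/-- A number field is countable. -/
theorem countable_numberField_h131 (K : Type) [Field K] [NumberField K] : Countable K := by
  have e := (Module.finBasis ℚ K).equivFun
  exact Countable.of_equiv _ e.toEquiv.symm

/-- The unipotent section `x ↦ n(x)` is continuous. -/
theorem continuous_unip_h131 (n : Adl K → G K)
    (hn : ∀ x : Adl K, (n x : Matrix (Fin 2) (Fin 2) (Adl K)) = !![1, x; 0, 1]) :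
    Continuous n := by
  rw [Units.continuous_iff]
  constructor
  · have : (Units.val ∘ n) = fun x : Adl K => (!![1, x; 0, 1] : Matrix (Fin 2) (Fin 2) (Adl K)) := by
      funext x
      exact hn x
    rw [this]
    refine continuous_matrix fun i j => ?_
    fin_cases i <;> fin_cases j <;> simp <;> fun_prop
  · have : (fun x : Adl K => (((n x)⁻¹ : G K) : Matrix (Fin 2) (Fin 2) (Adl K)))
        = fun x : Adl K => (!![1, -x; 0, 1] : Matrix (Fin 2) (Fin 2) (Adl K)) := by
      funext x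
      apply Units.inv_eq_of_mul_eq_one_right
      rw [hn x]
      ext i j
      fin_cases i <;> fin_cases j <;> simp [Matrix.mul_apply, Fin.sum_univ_two]
    rw [this]
    refine continuous_matrix fun i j => ?_
    fin_cases i <;> fin_cases j <;> simp <;> fun_prop

/-- Every fundamental domain of `K` in `𝔸_K` has finite measure. -/
theorem addFundDom_measure_lt_top_h131 (hFD : T1.AddFundDomC K)
    (μ : Measure (Adl K)) (hμ : μ.IsAddHaarMeasure) (D : Set (Adl K))
    (hD : IsAddFundamentalDomain ((algebraMap K (Adl K)).toAddMonoidHom.range) D μ) :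
    μ D < ⊤ := by
  obtain ⟨D₀, -, hD₀, -, -, hfin⟩ := hFD μ hμ
  haveI : Countable K := countable_numberField_h131 K
  haveI : Countable ((algebraMap K (Adl K)).toAddMonoidHom.range) := by
    have : Countable (Set.range (algebraMap K (Adl K)).toAddMonoidHom) :=
      (Set.countable_range _).to_subtype
    exact this
  have hD₀' : IsAddFundamentalDomain ((algebraMap K (Adl K)).toAddMonoidHom.range) D₀ μ := hD₀
  rw [hD.measure_eq hD₀']
  exact hfin

/-- The constant-term integrand of a bounded continuous function is integrable on every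
fundamental domain. -/
theorem integrableOn_constTerm_h131 (hFD : T1.AddFundDomC K) {φ : G K → ℂ}
    (hc : Continuous φ) (hb : ∃ C : ℝ, ∀ g : G K, ‖φ g‖ ≤ C)
    (μ : Measure (Adl K)) (hμ : μ.IsAddHaarMeasure) (D : Set (Adl K))
    (hD : IsAddFundamentalDomain ((algebraMap K (Adl K)).toAddMonoidHom.range) D μ)
    (n : Adl K → G K)
    (hn : ∀ x : Adl K, (n x : Matrix (Fin 2) (Fin 2) (Adl K)) = !![1, x; 0, 1]) (g : G K) :
    IntegrableOn (fun x => φ (n x * g)) D μ := by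
  obtain ⟨C, hC⟩ := hb
  have hfin : μ D < ⊤ := addFundDom_measure_lt_top_h131 hFD μ hμ D hD
  have hcont : Continuous fun x => φ (n x * g) :=
    hc.comp ((continuous_unip_h131 n hn).mul continuous_const)
  haveI : IsFiniteMeasure (μ.restrict D) := ⟨by rwa [Measure.restrict_apply_univ]⟩
  exact Integrable.of_bound hcont.aestronglyMeasurable C (Filter.Eventually.of_forall fun x => hC _)

/-- The cuspidality condition in unfolded form (with the Borel structure as an instance). -/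
theorem isCuspidalFn_iff_h131 (φ : G K → ℂ) :
    IsCuspidalFn φ ↔ ∀ μ : Measure (Adl K), μ.IsAddHaarMeasure →
      ∀ D : Set (Adl K),
        IsAddFundamentalDomain ((algebraMap K (Adl K)).toAddMonoidHom.range) D μ →
        ∀ n : Adl K → G K,
          (∀ x : Adl K, (n x : Matrix (Fin 2) (Fin 2) (Adl K)) = !![1, x; 0, 1]) →
          ∀ g : G K, ∫ x in D, φ (n x * g) ∂μ = 0 :=
  Iff.rfl

/-- The difference of two cusp functions is a cusp function. -/
theorem isCuspFn_sub_h131 (hFD : T1.AddFundDomC K) {𝔫 : Ideal (𝓞 K)} {φ ψ : G K → ℂ}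
    (hφ : IsCuspFn 𝔫 φ) (hψ : IsCuspFn 𝔫 ψ) : IsCuspFn 𝔫 (fun g => φ g - ψ g) := by
  refine ⟨hφ.cont.sub hψ.cont, ?_, ?_, ?_, ?_, ?_, ?_⟩
  · obtain ⟨C₁, h₁⟩ := hφ.bdd
    obtain ⟨C₂, h₂⟩ := hψ.bdd
    exact ⟨C₁ + C₂, fun g => (norm_sub_le _ _).trans (add_le_add (h₁ g) (h₂ g))⟩
  · intro γ g
    simp only [hφ.left_inv γ g, hψ.left_inv γ g]
  · intro u hu g
    simp only [hφ.level_inv u hu g, hψ.level_inv u hu g]
  · intro w z hz g
    simp only [hφ.arch_scalar w z hz g, hψ.arch_scalar w z hz g]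
  · intro w k hk g
    simp only [hφ.arch_compact w k hk g, hψ.arch_compact w k hk g]
  · rw [isCuspidalFn_iff_h131]
    intro μ hμ D hD n hn g
    have h₁ := integrableOn_constTerm_h131 hFD hφ.cont hφ.bdd μ hμ D hD n hn g
    have h₂ := integrableOn_constTerm_h131 hFD hψ.cont hψ.bdd μ hμ D hD n hn g
    rw [integral_sub h₁ h₂, (isCuspidalFn_iff_h131 φ).1 hφ.cuspidal μ hμ D hD n hn g,
      (isCuspidalFn_iff_h131 ψ).1 hψ.cuspidal μ hμ D hD n hn g, sub_zero]

/-- The determinant `GL₂(𝔸_K) → 𝔸_Kˣ` is continuous. -/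
theorem continuous_det_h131 :
    Continuous fun g : G K => (Matrix.GeneralLinearGroup.det g : (Adl K)ˣ) := by
  rw [Units.continuous_iff]
  constructor
  · have : (Units.val ∘ fun g : G K => (Matrix.GeneralLinearGroup.det g : (Adl K)ˣ))
        = fun g : G K => (g : Matrix (Fin 2) (Fin 2) (Adl K)).det := by
      funext g
      exact Matrix.GeneralLinearGroup.val_det_apply g
    rw [this]
    exact Continuous.matrix_det Units.continuous_val
  · have : (fun g : G K => (((Matrix.GeneralLinearGroup.det g)⁻¹ : (Adl K)ˣ) : Adl K))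
        = fun g : G K => ((g⁻¹ : G K) : Matrix (Fin 2) (Fin 2) (Adl K)).det := by
      funext g
      rw [← map_inv, Matrix.GeneralLinearGroup.val_det_apply]
    rw [this]
    exact Continuous.matrix_det Units.continuous_coe_inv

/-- The slab is a Borel set (the module is continuous on the ideles). -/
theorem measurableSet_slab_h131 (hN : T1.AdNormC K) : MeasurableSet (T1.slab K) := by
  have hcont : Continuous fun g : G K =>
      T1.adNorm K ((Matrix.GeneralLinearGroup.det g : (Adl K)ˣ) : Adl K) :=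
    hN.2.2.2.comp continuous_det_h131
  have : T1.slab K = (fun g : G K =>
      T1.adNorm K ((Matrix.GeneralLinearGroup.det g : (Adl K)ˣ) : Adl K)) ⁻¹' Set.Ico 1 2 := by
    ext g
    simp only [T1.slab, Set.mem_ofPred_eq, Set.mem_preimage, Set.mem_Ico,
      Matrix.GeneralLinearGroup.val_det_apply]
  rw [this]
  exact hcont.measurable measurableSet_Ico

/-- The integrand of the convolution is integrable (continuous with compact support). -/
theorem integrable_conv_h131 {𝔫 : Ideal (𝓞 K)} (F : Frame K)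
    {f φ : G K → ℂ} (hf : IsTestFn 𝔫 f) (hc : Continuous φ) (x : G K) :
    Integrable (fun h => φ (x * h) * f h) F.μ := by
  haveI := F.haar
  have hcont : Continuous fun h => φ (x * h) * f h :=
    (hc.comp (continuous_const.mul continuous_id)).mul hf.cont
  have hcs : HasCompactSupport fun h => φ (x * h) * f h :=
    HasCompactSupport.mul_left (f := fun h => φ (x * h)) hf.cpt
  exact hcont.integrable_of_hasCompactSupport hcs

/-- The convolution is additive on continuous functions (difference form). -/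
theorem conv_sub_h131 {𝔫 : Ideal (𝓞 K)} (F : Frame K)
    {f φ ψ : G K → ℂ} (hf : IsTestFn 𝔫 f) (hφ : Continuous φ) (hψ : Continuous ψ) (x : G K) :
    conv F f (fun g => φ g - ψ g) x = conv F f φ x - conv F f ψ x := by
  unfold conv
  rw [← integral_sub (integrable_conv_h131 F hf hφ x) (integrable_conv_h131 F hf hψ x)]
  congr 1
  funext y
  ring

/-- `nsq` of a uniformly small function is small. -/
theorem abs_nsq_le_h131 (F : Frame K) {h : G K → ℂ} {ε : ℝ}
    (hh : ∀ g : G K, ‖h g‖ ≤ ε) : |nsq F h| ≤ ε * ε * F.μ.real F.D := by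
  unfold nsq pair
  refine (Complex.abs_re_le_norm _).trans ?_
  refine norm_setIntegral_le_of_norm_le_const F.fin ?_
  intro g _
  have h0 : 0 ≤ ε := (norm_nonneg _).trans (hh g)
  rw [norm_mul, RCLike.norm_conj]
  exact mul_le_mul (hh g) (hh g) (norm_nonneg _) h0

/-- **Uniform limits of cusp functions are cusp functions.** -/
theorem isCuspFn_of_tendstoUniformly_h131 (hFD : T1.AddFundDomC K) {𝔫 : Ideal (𝓞 K)}
    {ψs : ℕ → G K → ℂ} {ψ : G K → ℂ} (hψs : ∀ k, IsCuspFn 𝔫 (ψs k))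
    (hu : TendstoUniformly ψs ψ Filter.atTop) : IsCuspFn 𝔫 ψ := by
  have hlim : ∀ x : G K, Filter.Tendsto (fun k => ψs k x) Filter.atTop (nhds (ψ x)) :=
    fun x => hu.tendsto_at x
  have hunif : ∀ ε > 0, ∃ N : ℕ, ∀ k ≥ N, ∀ x : G K, ‖ψ x - ψs k x‖ < ε := by
    intro ε hε
    have := (Metric.tendstoUniformly_iff.1 hu) ε hε
    obtain ⟨N, hN⟩ := Filter.eventually_atTop.1 this
    exact ⟨N, fun k hk x => by simpa [dist_eq_norm] using hN k hk x⟩
  have hcont : Continuous ψ :=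
    hu.continuous (Filter.Frequently.of_forall fun k => (hψs k).cont)
  have hbdd : ∃ C : ℝ, ∀ g : G K, ‖ψ g‖ ≤ C := by
    obtain ⟨N, hN⟩ := hunif 1 one_pos
    obtain ⟨C, hC⟩ := (hψs N).bdd
    refine ⟨1 + C, fun g => ?_⟩
    have h1 := (hN N le_rfl g).le
    have h2 := hC g
    calc ‖ψ g‖ = ‖(ψ g - ψs N g) + ψs N g‖ := by rw [sub_add_cancel]
      _ ≤ ‖ψ g - ψs N g‖ + ‖ψs N g‖ := norm_add_le _ _
      _ ≤ 1 + C := add_le_add h1 h2
  refine ⟨hcont, hbdd, ?_, ?_, ?_, ?_, ?_⟩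
  · intro γ g
    refine tendsto_nhds_unique (hlim _) ((hlim g).congr fun k => ?_)
    exact ((hψs k).left_inv γ g).symm
  · intro u hu' g
    refine tendsto_nhds_unique (hlim _) ((hlim g).congr fun k => ?_)
    exact ((hψs k).level_inv u hu' g).symm
  · intro w z hz g
    refine tendsto_nhds_unique (hlim _) ((hlim g).congr fun k => ?_)
    exact ((hψs k).arch_scalar w z hz g).symm
  · intro w k' hk g
    refine tendsto_nhds_unique (hlim _) ((hlim g).congr fun k => ?_)
    exact ((hψs k).arch_compact w k' hk g).symm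
  · rw [isCuspidalFn_iff_h131]
    intro μ hμ D hD n hn g
    have hfin : μ D < ⊤ := addFundDom_measure_lt_top_h131 hFD μ hμ D hD
    have hI : IntegrableOn (fun x => ψ (n x * g)) D μ :=
      integrableOn_constTerm_h131 hFD hcont hbdd μ hμ D hD n hn g
    have hle : ∀ ε > 0, ‖∫ x in D, ψ (n x * g) ∂μ‖ ≤ ε * μ.real D := by
      intro ε hε
      obtain ⟨N, hN⟩ := hunif ε hε
      have hIN : IntegrableOn (fun x => ψs N (n x * g)) D μ :=
        integrableOn_constTerm_h131 hFD (hψs N).cont (hψs N).bdd μ hμ D hD n hn g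
      have h0 : ∫ x in D, ψs N (n x * g) ∂μ = 0 :=
        (isCuspidalFn_iff_h131 _).1 (hψs N).cuspidal μ hμ D hD n hn g
      have hEq : ∫ x in D, ψ (n x * g) ∂μ
          = ∫ x in D, (ψ (n x * g) - ψs N (n x * g)) ∂μ := by
        rw [integral_sub hI hIN, h0, sub_zero]
      rw [hEq]
      exact norm_setIntegral_le_of_norm_le_const hfin fun x _ => (hN N le_rfl _).le
    by_contra hne
    have hpos : 0 < ‖∫ x in D, ψ (n x * g) ∂μ‖ := norm_pos_iff.2 hne
    set I := ‖∫ x in D, ψ (n x * g) ∂μ‖ with hIdef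
    have hreal : 0 ≤ μ.real D := measureReal_nonneg
    have := hle (I / (2 * (μ.real D + 1))) (by positivity)
    have h2 : I / (2 * (μ.real D + 1)) * μ.real D ≤ I / 2 := by
      rw [div_mul_eq_mul_div, div_le_div_iff₀ (by positivity) (by norm_num)]
      nlinarith
    linarith

/-- **Leaf T2.05**: `GPS ⇒ ConvRegular`. -/
theorem leaf05_h131 (K : Type) [Field K] [NumberField K] : Leaf05 K := by
  intro hT1 𝔫 _ _ hC hG F f hf φ hφ hcauchy
  have hFD : T1.AddFundDomC K := hT1.addFundDom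
  obtain ⟨C, hC'⟩ := hG F f hf
  have hψs : ∀ k, IsCuspFn 𝔫 (conv F f (φ k)) := fun k => (hC F).2.2.1 f (φ k) hf (hφ k)
  -- uniform Cauchy
  have key : ∀ ε > 0, ∃ N : ℕ, ∀ k ≥ N, ∀ l ≥ N, ∀ x : G K,
      ‖conv F f (φ k) x - conv F f (φ l) x‖ ≤ ε := by
    intro ε hε
    set M : ℝ := max C 0 + 1 with hM
    have hMpos : 0 < M := by positivity
    obtain ⟨N, hN⟩ := hcauchy ((ε / M) ^ 2) (by positivity)
    refine ⟨N, fun k hk l hl x => ?_⟩
    have hsub : IsCuspFn 𝔫 (fun g => φ k g - φ l g) := isCuspFn_sub_h131 hFD (hφ k) (hφ l)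
    have h1 := hC' _ hsub x
    rw [conv_sub_h131 F hf (hφ k).cont (hφ l).cont x] at h1
    have h2 : Real.sqrt (nsq F fun g => φ k g - φ l g) ≤ ε / M := by
      rw [Real.sqrt_le_left (by positivity)]
      exact (hN k hk l hl).le
    have h3 : 0 ≤ Real.sqrt (nsq F fun g => φ k g - φ l g) := Real.sqrt_nonneg _
    calc ‖conv F f (φ k) x - conv F f (φ l) x‖
        ≤ C * Real.sqrt (nsq F fun g => φ k g - φ l g) := h1
      _ ≤ M * Real.sqrt (nsq F fun g => φ k g - φ l g) :=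
          mul_le_mul_of_nonneg_right (by rw [hM]; linarith [le_max_left C 0]) h3
      _ ≤ M * (ε / M) := mul_le_mul_of_nonneg_left h2 hMpos.le
      _ = ε := by field_simp
  -- pointwise limits
  have hcs : ∀ x : G K, CauchySeq fun k => conv F f (φ k) x := by
    intro x
    rw [Metric.cauchySeq_iff']
    intro ε hε
    obtain ⟨N, hN⟩ := key (ε / 2) (by positivity)
    refine ⟨N, fun k hk => ?_⟩
    rw [dist_eq_norm]
    exact (hN k hk N le_rfl x).trans_lt (by linarith)
  choose ψ hψ using fun x => cauchySeq_tendsto_of_complete (hcs x)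
  have hunif : ∀ ε > 0, ∃ N : ℕ, ∀ k ≥ N, ∀ x : G K, ‖conv F f (φ k) x - ψ x‖ ≤ ε := by
    intro ε hε
    obtain ⟨N, hN⟩ := key ε hε
    refine ⟨N, fun k hk x => ?_⟩
    have ht : Filter.Tendsto (fun l => ‖conv F f (φ k) x - conv F f (φ l) x‖) Filter.atTop
        (nhds ‖conv F f (φ k) x - ψ x‖) :=
      (tendsto_const_nhds.sub (hψ x)).norm
    refine le_of_tendsto ht ?_
    filter_upwards [Filter.eventually_ge_atTop N] with l hl
    exact hN k hk l hl x
  have hTU : TendstoUniformly (fun k => conv F f (φ k)) ψ Filter.atTop := by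
    rw [Metric.tendstoUniformly_iff]
    intro ε hε
    obtain ⟨N, hN⟩ := hunif (ε / 2) (by positivity)
    filter_upwards [Filter.eventually_ge_atTop N] with k hk x
    rw [dist_comm, dist_eq_norm]
    exact (hN k hk x).trans_lt (by linarith)
  refine ⟨ψ, isCuspFn_of_tendstoUniformly_h131 hFD hψs hTU, ?_⟩
  rw [Metric.tendsto_atTop]
  intro η hη
  have hreal : 0 ≤ F.μ.real F.D := measureReal_nonneg
  set ε : ℝ := min 1 (η / (2 * (F.μ.real F.D + 1))) with hε
  have hεpos : 0 < ε := lt_min one_pos (by positivity)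
  obtain ⟨N, hN⟩ := hunif ε hεpos
  refine ⟨N, fun k hk => ?_⟩
  rw [Real.dist_eq, sub_zero]
  refine (abs_nsq_le_h131 F (hN k hk)).trans_lt ?_
  have h1 : ε ≤ 1 := min_le_left _ _
  have h2 : ε ≤ η / (2 * (F.μ.real F.D + 1)) := min_le_right _ _
  have h3 : ε * ε * F.μ.real F.D ≤ ε * F.μ.real F.D := by
    have : ε * ε ≤ ε := by nlinarith
    exact mul_le_mul_of_nonneg_right this hreal
  have h4 : ε * F.μ.real F.D ≤ η / (2 * (F.μ.real F.D + 1)) * F.μ.real F.D :=
    mul_le_mul_of_nonneg_right h2 hreal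
  have h5 : η / (2 * (F.μ.real F.D + 1)) * F.μ.real F.D ≤ η / 2 := by
    rw [div_mul_eq_mul_div, div_le_div_iff₀ (by positivity) (by norm_num)]
    nlinarith
  linarith

end Fermat.Agent.LT.T2.H131

end
end
-- ===== PACK-END LT/T2/H131/Leaf05.lean

-- ===== PACK-BEGIN LT/T2/H228/ConvSpec.lean
section



/-!
# Row LT, tower T2, leaf T2.02 (`ConvCusp`): SPLIT into four sub-leaves (helper228, owner of T2.02)

OFF-MAIN.  Vocabulary: `Fermat/Agent/LT/T2/Spec.lean` v3 (helper130@b73350f76, sha256 b934629a),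
byte-identical copy.  Nothing is re-defined, nothing is assumed.

* `T2.02a` `Leaf02a` : `adj f` is a (spherical) test function when `f` is.
* `T2.02b` `Leaf02b` : `conv F f` preserves the cusp functions.
* `T2.02c` `Leaf02c` : the adjoint of `conv F f` is `conv F (adj f)` (Fubini + unimodularity).
* `T2.02d` `Leaf02d` : convolutions by spherical test functions commute (Gelfand's trick with the
  anti-involution `g ↦ adj g = det g • g⁻¹`, which preserves `U(𝔫)`, `K_∞`, `Z⁺` and every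
  double coset by the elementary divisor theorem at the finite places `v ∤ 𝔫` and the singular
  value decomposition at the infinite places).

PROVED here: `leaf02_of_parts228 : Leaf02a K → Leaf02b K → Leaf02c K → Leaf02d K → T2.Leaf02 K`.
-/

set_option autoImplicit false

open IsDedekindDomain NumberField MeasureTheory AutomorphicForm
open Fermat.Agent.LT.H556.A0

noncomputable section

namespace Fermat.Agent.LT.T2.H228

open Fermat.Agent.LT.T2

variable (K : Type) [Field K] [NumberField K]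

/-- `adj` preserves the test functions and the spherical test functions. -/
def AdjTest228 (𝔫 : Ideal (𝓞 K)) : Prop :=
  (∀ f : G K → ℂ, IsTestFn 𝔫 f → IsTestFn 𝔫 (adj f)) ∧
    (∀ f : G K → ℂ, IsSphTestFn 𝔫 f → IsSphTestFn 𝔫 (adj f))

/-- Convolution by a test function preserves the cusp functions. -/
def ConvStable228 (𝔫 : Ideal (𝓞 K)) : Prop :=
  ∀ (F : Frame K) (f φ : G K → ℂ), IsTestFn 𝔫 f → IsCuspFn 𝔫 φ → IsCuspFn 𝔫 (conv F f φ)

/-- The adjoint of `conv F f` on the cusp functions is `conv F (adj f)`. -/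
def ConvAdj228 (𝔫 : Ideal (𝓞 K)) : Prop :=
  ∀ (F : Frame K) (f φ ψ : G K → ℂ), IsTestFn 𝔫 f → IsCuspFn 𝔫 φ → IsCuspFn 𝔫 ψ →
    pair F (conv F f φ) ψ = pair F φ (conv F (adj f) ψ)

/-- Convolutions by spherical test functions commute on the cusp functions. -/
def ConvComm228 (𝔫 : Ideal (𝓞 K)) : Prop :=
  ∀ (F : Frame K) (f₁ f₂ φ : G K → ℂ), IsSphTestFn 𝔫 f₁ → IsSphTestFn 𝔫 f₂ → IsCuspFn 𝔫 φ →
    conv F f₁ (conv F f₂ φ) = conv F f₂ (conv F f₁ φ)

/-- **T2.02a.** -/
def Leaf02a : Prop := T1.T1Out K → ∀ 𝔫 : Ideal (𝓞 K), 𝔫 ≠ ⊥ → AdjTest228 K 𝔫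

/-- **T2.02b.** -/
def Leaf02b : Prop := T1.T1Out K → ∀ 𝔫 : Ideal (𝓞 K), 𝔫 ≠ ⊥ → ConvStable228 K 𝔫

/-- **T2.02c.**  (May use `T2.02a`, `T2.02b` as hypotheses.) -/
def Leaf02c : Prop :=
  T1.T1Out K → ∀ 𝔫 : Ideal (𝓞 K), 𝔫 ≠ ⊥ → AdjTest228 K 𝔫 → ConvStable228 K 𝔫 → ConvAdj228 K 𝔫

/-- **T2.02d.**  (May use `T2.02a`, `T2.02b` as hypotheses.) -/
def Leaf02d : Prop :=
  T1.T1Out K → ∀ 𝔫 : Ideal (𝓞 K), 𝔫 ≠ ⊥ → AdjTest228 K 𝔫 → ConvStable228 K 𝔫 → ConvComm228 K 𝔫

/-- **TOP of T2.02**: `T2.Leaf02` from its four parts. -/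
theorem leaf02_of_parts228 (ha : Leaf02a K) (hb : Leaf02b K) (hc : Leaf02c K) (hd : Leaf02d K) :
    T2.Leaf02 K := by
  intro hT1 𝔫 h𝔫 F
  have A := ha hT1 𝔫 h𝔫
  have B := hb hT1 𝔫 h𝔫
  exact ⟨A.1, A.2, fun f φ hf hφ => B F f φ hf hφ,
    fun f φ ψ hf hφ hψ => hc hT1 𝔫 h𝔫 A B F f φ ψ hf hφ hψ,
    fun f₁ f₂ φ h₁ h₂ hφ => hd hT1 𝔫 h𝔫 A B F f₁ f₂ φ h₁ h₂ hφ⟩

end Fermat.Agent.LT.T2.H228

end

end
-- ===== PACK-END LT/T2/H228/ConvSpec.lean

-- ===== PACK-BEGIN LT/T1/H886/AddFundDom.lean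
section





/-!
# Row LT, tower T1, leaf `AddFundDomC` (helper886): a fundamental domain for `K` in `𝔸_K`

OFF-MAIN.  Imports: Mathlib, `LT/T1/Spec.lean` (helper54@675fbadd3, v1, byte-identical copy,
sha256 e8ae48d6...; only the vocabulary `Adl`, `princ`, `AddFundDomC`, `LeafAddFundDom` is
used), `LT/H11/LC.lean` (helper11, byte-identical copy, sha256 8ca09ef8...),
`LT/H767/{LocalCompact,StrongApprox,AdeleCocompact}.lean` (helper767@1fe9ed490, byte-identical
copies, sha256 accafb44..., 710a865c..., 9ffa3739...).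

The set
`D = {a | (a_∞ ∈ ZSpan.fundamentalDomain (latticeBasis K)) ∧ ∀ v, a_v ∈ 𝒪_v}`
is a strict Borel fundamental domain of `K` in `𝔸_K`, it is relatively compact, and
`0 < μ D < ∞` for every additive Haar measure `μ`.

* `fundDom886 K`                   : the set `D`,
* `existsUnique_vadd_mem_fundDom886` : strictness (`∀ a, ∃! ξ ∈ K, ξ + a ∈ D`),
* `measurableSet_fundDom886`, `isCompact_closure_fundDom886`, `measure_fundDom886_pos`,
  `measure_fundDom886_lt_top`,
* `addFundDomC886 K : T1.AddFundDomC K` (verbatim the interface Prop of `T1/Spec.lean`),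
* `leafAddFundDom886 K : T1.LeafAddFundDom K` (leaf T1.04 of `structure Leaves`; the hypotheses
  `LocCompC K`, `AdeleLatticeC K` are not used),
* `exists_isAddHaarMeasure886`, `exists_haar_fundDom886` (= EXISTS-FD of the T8 memo of helper106:
  the quantifiers `∀ μ D` of `A0.IsCuspidalFn` are not vacuous).

No Haar-measure construction is needed: the statement is for every additive Haar measure `μ`
(w.r.t. the Borel σ-algebra) and uses only `IsFiniteMeasureOnCompacts`, `IsAddLeftInvariant`,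
`μ ≠ 0`.
-/

set_option autoImplicit false

open IsDedekindDomain NumberField MeasureTheory
open IsDedekindDomain.HeightOneSpectrum
open scoped Classical

noncomputable section

namespace Fermat.Agent.LT.T1.H886

open Fermat.Agent.LT.H556.A0 Fermat.Agent.LT.T1

variable (K : Type) [Field K] [NumberField K]

/-- The infinite component of an adele, in the mixed space `ℝ^{r₁} × ℂ^{r₂}`. -/
def infMap886 (a : Adl K) : mixedEmbedding.mixedSpace K :=
  InfiniteAdeleRing.ringEquiv_mixedSpace K a.1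

/-- The set of adeles that are integral at all finite places. -/
def intAdl886 : Set (Adl K) :=
  {a | ∀ v : HeightOneSpectrum (𝓞 K), a.2 v ∈ v.adicCompletionIntegers K}

/-- The fundamental domain: `ZSpan.fundamentalDomain` at infinity, integral at the finite places. -/
def fundDom886 : Set (Adl K) :=
  {a | infMap886 K a ∈ ZSpan.fundamentalDomain (mixedEmbedding.latticeBasis K)} ∩ intAdl886 K

theorem continuous_infMap886 : Continuous (infMap886 K) := by
  have h : infMap886 K = fun a : Adl K =>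
      ((fun v : {w : InfinitePlace K // w.IsReal} =>
          InfinitePlace.Completion.extensionEmbeddingOfIsReal v.2 (a.1 v.1)),
        (fun v : {w : InfinitePlace K // w.IsComplex} =>
          InfinitePlace.Completion.extensionEmbedding v.1 (a.1 v.1))) := by
    funext a
    exact InfiniteAdeleRing.ringEquiv_mixedSpace_apply K a.1
  rw [h]
  have hfst : Continuous fun a : Adl K => a.1 := continuous_fst
  refine Continuous.prodMk (continuous_pi fun v => ?_) (continuous_pi fun v => ?_)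
  · exact (InfinitePlace.Completion.isometry_extensionEmbeddingOfIsReal v.2).continuous.comp
      ((continuous_apply v.1).comp hfst)
  · exact (InfinitePlace.Completion.isometry_extensionEmbedding v.1).continuous.comp
      ((continuous_apply v.1).comp hfst)

theorem isOpen_intAdl886 : IsOpen (intAdl886 K) := by
  have h2 : IsOpen {f : FiniteAdeleRing (𝓞 K) K |
      ∀ v : HeightOneSpectrum (𝓞 K), f v ∈ v.adicCompletionIntegers K} :=
    RestrictedProduct.isOpen_forall_mem (fun v => Valued.isOpen_valuationSubring _)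
  exact h2.preimage continuous_snd

theorem intAdl886_subset_fundDom886 : fundDom886 K ⊆ intAdl886 K := Set.inter_subset_right

/-- `infMap886` is additive. -/
theorem infMap886_add (a b : Adl K) : infMap886 K (a + b) = infMap886 K a + infMap886 K b := by
  change InfiniteAdeleRing.ringEquiv_mixedSpace K (a.1 + b.1) = _
  exact map_add _ _ _

/-- On principal adeles `infMap886` is the mixed embedding. -/
theorem infMap886_algebraMap (x : K) :
    infMap886 K (algebraMap K (Adl K) x) = mixedEmbedding K x :=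
  (InfiniteAdeleRing.mixedEmbedding_eq_algebraMap_comp K (x := x)).symm

/-- The finite components of a principal adele. -/
theorem snd_algebraMap886 (x : K) (v : HeightOneSpectrum (𝓞 K)) :
    (algebraMap K (Adl K) x).2 v = algebraMap K (v.adicCompletion K) x := rfl

/-- An element of `K` that is integral at all finite places is in `𝓞 K`. -/
theorem mem_range_of_forall_mem886 (k : K)
    (h : ∀ v : HeightOneSpectrum (𝓞 K),
      algebraMap K (v.adicCompletion K) k ∈ v.adicCompletionIntegers K) :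
    k ∈ (algebraMap (𝓞 K) K).range := by
  refine mem_integers_of_valuation_le_one K k fun v => ?_
  have := h v
  rw [mem_adicCompletionIntegers] at this
  rw [← valuedAdicCompletion_eq_valuation' v k]
  exact this

/-- The image of `𝓞 K` in the mixed space is the `ℤ`-span of the lattice basis. -/
theorem mixedEmbedding_mem_span886 (b : 𝓞 K) :
    mixedEmbedding K (algebraMap (𝓞 K) K b) ∈
      Submodule.span ℤ (Set.range (mixedEmbedding.latticeBasis K)) :=
  (mixedEmbedding.mem_span_latticeBasis K).mpr ⟨b, rfl⟩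

/-- **Strictness**: every adele has exactly one `K`-translate in `fundDom886 K`. -/
theorem existsUnique_vadd_mem_fundDom886 (a : Adl K) :
    ∃! g : princ K, g +ᵥ a ∈ fundDom886 K := by
  -- existence
  obtain ⟨k, hk⟩ := Fermat.Agent.LT.H767.exists_sub_mem_integers K a.2
  obtain ⟨m, hm, -⟩ := ZSpan.exist_unique_vadd_mem_fundamentalDomain
    (mixedEmbedding.latticeBasis K) (infMap886 K (a - algebraMap K (Adl K) k))
  obtain ⟨b, hb⟩ := (mixedEmbedding.mem_span_latticeBasis K).mp m.2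
  have hb' : mixedEmbedding K (algebraMap (𝓞 K) K b) = (m : mixedEmbedding.mixedSpace K) := hb
  have hex : (⟨algebraMap K (Adl K) (algebraMap (𝓞 K) K b - k), ⟨_, rfl⟩⟩ : princ K) +ᵥ a
      ∈ fundDom886 K := by
    have hv : (⟨algebraMap K (Adl K) (algebraMap (𝓞 K) K b - k), ⟨_, rfl⟩⟩ : princ K) +ᵥ a
        = algebraMap K (Adl K) (algebraMap (𝓞 K) K b) + (a - algebraMap K (Adl K) k) := by
      change algebraMap K (Adl K) (algebraMap (𝓞 K) K b - k) + a = _
      rw [map_sub]; ring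
    rw [hv]
    refine ⟨?_, fun v => ?_⟩
    · change infMap886 K _ ∈ ZSpan.fundamentalDomain (mixedEmbedding.latticeBasis K)
      rw [infMap886_add, infMap886_algebraMap, hb']
      exact hm
    · change (algebraMap K (Adl K) (algebraMap (𝓞 K) K b)).2 v
        + (a.2 v - (algebraMap K (Adl K) k).2 v) ∈ v.adicCompletionIntegers K
      rw [snd_algebraMap886, snd_algebraMap886]
      exact add_mem (coe_algebraMap_mem (𝓞 K) K v b) (hk v)
  refine ⟨_, hex, ?_⟩
  -- uniqueness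
  have huniq : ∀ g₁ g₂ : princ K, g₁ +ᵥ a ∈ fundDom886 K → g₂ +ᵥ a ∈ fundDom886 K → g₁ = g₂ := by
    rintro ⟨_, k₁, rfl⟩ ⟨_, k₂, rfl⟩ h₁ h₂
    have e₁ : (⟨(algebraMap K (Adl K)).toAddMonoidHom k₁, ⟨k₁, rfl⟩⟩ : princ K) +ᵥ a
        = algebraMap K (Adl K) k₁ + a := rfl
    have e₂ : (⟨(algebraMap K (Adl K)).toAddMonoidHom k₂, ⟨k₂, rfl⟩⟩ : princ K) +ᵥ a
        = algebraMap K (Adl K) k₂ + a := rfl
    rw [e₁] at h₁
    rw [e₂] at h₂
    -- the difference is integral
    have hint : k₁ - k₂ ∈ (algebraMap (𝓞 K) K).range := by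
      refine mem_range_of_forall_mem886 K _ fun v => ?_
      have h1 := h₁.2 v
      have h2 := h₂.2 v
      have : algebraMap K (v.adicCompletion K) (k₁ - k₂)
          = (algebraMap K (Adl K) k₁ + a).2 v - (algebraMap K (Adl K) k₂ + a).2 v := by
        change _ = ((algebraMap K (Adl K) k₁).2 v + a.2 v) - ((algebraMap K (Adl K) k₂).2 v + a.2 v)
        rw [snd_algebraMap886, snd_algebraMap886, map_sub]; ring
      rw [this]
      exact sub_mem h1 h2
    obtain ⟨c, hc⟩ := hint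
    have hspan := mixedEmbedding_mem_span886 K c
    rw [hc] at hspan
    -- uniqueness in the mixed space
    have hu := ZSpan.exist_unique_vadd_mem_fundamentalDomain
      (mixedEmbedding.latticeBasis K) (infMap886 K (algebraMap K (Adl K) k₂ + a))
    have m1 : (⟨mixedEmbedding K (k₁ - k₂), hspan⟩ :
        Submodule.span ℤ (Set.range (mixedEmbedding.latticeBasis K)))
          +ᵥ infMap886 K (algebraMap K (Adl K) k₂ + a)
        ∈ ZSpan.fundamentalDomain (mixedEmbedding.latticeBasis K) := by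
      have : (⟨mixedEmbedding K (k₁ - k₂), hspan⟩ :
          Submodule.span ℤ (Set.range (mixedEmbedding.latticeBasis K)))
            +ᵥ infMap886 K (algebraMap K (Adl K) k₂ + a)
          = infMap886 K (algebraMap K (Adl K) k₁ + a) := by
        change mixedEmbedding K (k₁ - k₂) + infMap886 K (algebraMap K (Adl K) k₂ + a) = _
        rw [infMap886_add, infMap886_add, infMap886_algebraMap, infMap886_algebraMap, map_sub]
        abel
      rw [this]
      exact h₁.1
    have m2 : (0 : Submodule.span ℤ (Set.range (mixedEmbedding.latticeBasis K)))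
          +ᵥ infMap886 K (algebraMap K (Adl K) k₂ + a)
        ∈ ZSpan.fundamentalDomain (mixedEmbedding.latticeBasis K) := by
      rw [zero_vadd]
      exact h₂.1
    have h0 := hu.unique m1 m2
    have h0' : mixedEmbedding K (k₁ - k₂) = 0 := congrArg Subtype.val h0
    have hk : k₁ - k₂ = 0 := by
      have hinj := mixedEmbedding_injective K
      exact hinj (by rw [h0', map_zero])
    have hk' : k₁ = k₂ := sub_eq_zero.mp hk
    subst hk'
    rfl
  intro g hg
  exact huniq _ _ hg hex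

/-- `fundDom886 K` is a Borel set. -/
theorem measurableSet_fundDom886 [MeasurableSpace (Adl K)] [BorelSpace (Adl K)] :
    MeasurableSet (fundDom886 K) := by
  refine MeasurableSet.inter ?_ (isOpen_intAdl886 K).measurableSet
  exact (continuous_infMap886 K).measurable
    (ZSpan.fundamentalDomain_measurableSet (mixedEmbedding.latticeBasis K))

/-- `fundDom886 K` is contained in the compact box of helper767. -/
theorem fundDom886_subset_adeleBox : fundDom886 K ⊆ Fermat.Agent.LT.H767.adeleBox K := by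
  rintro a ⟨h1, h2⟩
  refine ⟨fun v => ?_, h2⟩
  have h1' : infMap886 K a ∈ ZSpan.fundamentalDomain (mixedEmbedding.latticeBasis K) := h1
  have hnorm : ‖InfiniteAdeleRing.ringEquiv_mixedSpace K a.1‖
      ≤ Fermat.Agent.LT.H767.infBound K := by
    have h := ZSpan.norm_fract_le (mixedEmbedding.latticeBasis K) (infMap886 K a)
    rw [ZSpan.fract_eq_self.mpr h1'] at h
    exact h
  by_cases hv : v.IsReal
  · have e1 : ‖a.1 v‖ = ‖(InfiniteAdeleRing.ringEquiv_mixedSpace K a.1).1 ⟨v, hv⟩‖ := by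
      rw [InfiniteAdeleRing.ringEquiv_mixedSpace_apply]
      exact ((InfinitePlace.Completion.isometry_extensionEmbeddingOfIsReal hv).norm_map_of_map_zero
        (map_zero _) (a.1 v)).symm
    rw [e1]
    exact le_trans (norm_le_pi_norm _ _) (le_trans (norm_fst_le _) hnorm)
  · have hc : v.IsComplex := InfinitePlace.not_isReal_iff_isComplex.mp hv
    have e1 : ‖a.1 v‖ = ‖(InfiniteAdeleRing.ringEquiv_mixedSpace K a.1).2 ⟨v, hc⟩‖ := by
      rw [InfiniteAdeleRing.ringEquiv_mixedSpace_apply]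
      exact ((InfinitePlace.Completion.isometry_extensionEmbedding v).norm_map_of_map_zero
        (map_zero _) (a.1 v)).symm
    rw [e1]
    exact le_trans (norm_le_pi_norm _ _) (le_trans (norm_snd_le _) hnorm)

/-- `fundDom886 K` is relatively compact. -/
theorem isCompact_closure_fundDom886 : IsCompact (closure (fundDom886 K)) := by
  have : T2Space (Adl K) := Fermat.Agent.LT.H11.LC.t2Space_adeleRing_h11 K
  have hc := Fermat.Agent.LT.H767.isCompact_adeleBox K
  exact hc.of_isClosed_subset isClosed_closure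
    (closure_minimal (fundDom886_subset_adeleBox K) hc.isClosed)

/-- `fundDom886 K` is a fundamental domain of `K` in `𝔸_K` for every measure. -/
theorem isAddFundamentalDomain_fundDom886 [MeasurableSpace (Adl K)] [BorelSpace (Adl K)]
    (μ : Measure (Adl K)) : IsAddFundamentalDomain (princ K) (fundDom886 K) μ :=
  IsAddFundamentalDomain.mk' (measurableSet_fundDom886 K).nullMeasurableSet
    (existsUnique_vadd_mem_fundDom886 K)

/-- The principal adeles are countable. -/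
theorem countable_princ886 : Countable (princ K) := by
  have hK : Countable K := (Module.finBasis ℚ K).equivFun.injective.countable
  have hs : Function.Surjective
      (fun k : K => (⟨algebraMap K (Adl K) k, ⟨k, rfl⟩⟩ : princ K)) := by
    rintro ⟨_, k, rfl⟩
    exact ⟨k, rfl⟩
  exact hs.countable

/-- The volume of `fundDom886 K` is finite. -/
theorem measure_fundDom886_lt_top [MeasurableSpace (Adl K)] [BorelSpace (Adl K)]
    (μ : Measure (Adl K)) [IsFiniteMeasureOnCompacts μ] : μ (fundDom886 K) < ⊤ :=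
  lt_of_le_of_lt (measure_mono (fundDom886_subset_adeleBox K))
    (Fermat.Agent.LT.H767.isCompact_adeleBox K).measure_lt_top

/-- The volume of `fundDom886 K` is positive. -/
theorem measure_fundDom886_pos [MeasurableSpace (Adl K)] [BorelSpace (Adl K)]
    (μ : Measure (Adl K)) [μ.IsAddHaarMeasure] : 0 < μ (fundDom886 K) := by
  have := countable_princ886 K
  have : VAddInvariantMeasure (princ K) (Adl K) μ := inferInstance
  exact pos_iff_ne_zero.mpr
    ((isAddFundamentalDomain_fundDom886 K μ).measure_ne_zero (NeZero.ne μ))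

/-- **Leaf `T1.AddFundDomC`**, verbatim the interface Prop of `LT/T1/Spec.lean`. -/
theorem addFundDomC886 : AddFundDomC K := by
  let _ : MeasurableSpace (Adl K) := borel (Adl K)
  have : BorelSpace (Adl K) := ⟨rfl⟩
  intro μ hμ
  have := hμ
  exact ⟨fundDom886 K, measurableSet_fundDom886 K, isAddFundamentalDomain_fundDom886 K μ,
    isCompact_closure_fundDom886 K, measure_fundDom886_pos K μ, measure_fundDom886_lt_top K μ⟩

/-- **Leaf T1.04** of `T1.Leaves` (`LT/T1/Spec.lean` v1); the hypotheses are not needed. -/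
theorem leafAddFundDom886 : LeafAddFundDom K := fun _ _ => addFundDomC886 K

/-- **EXISTS-HAAR**: the adele ring carries an additive Haar measure (Borel σ-algebra). -/
theorem exists_isAddHaarMeasure886 [MeasurableSpace (Adl K)] [BorelSpace (Adl K)] :
    ∃ μ : Measure (Adl K), μ.IsAddHaarMeasure := by
  have : LocallyCompactSpace (Adl K) := Fermat.Agent.LT.H11.LC.locallyCompactSpace_adeleRing_h11 K
  exact ⟨Measure.addHaar, inferInstance⟩

/-- **EXISTS-FD** (leaf of T8/L6; non-vacuity of `A0.IsCuspidalFn`): there are an additive Haar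
measure `μ` on `𝔸_K` (Borel σ-algebra) and a Borel fundamental domain `D` of `K` in `𝔸_K`,
relatively compact, with `0 < μ D < ∞`.  The subgroup is written as in `A0.IsCuspidalFn`. -/
theorem exists_haar_fundDom886 :
    letI : MeasurableSpace (Adl K) := borel (Adl K)
    ∃ (μ : Measure (Adl K)) (D : Set (Adl K)), μ.IsAddHaarMeasure ∧ MeasurableSet D ∧
      IsAddFundamentalDomain ((algebraMap K (Adl K)).toAddMonoidHom.range) D μ ∧
      IsCompact (closure D) ∧ 0 < μ D ∧ μ D < ⊤ := by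
  let _ : MeasurableSpace (Adl K) := borel (Adl K)
  have : BorelSpace (Adl K) := ⟨rfl⟩
  obtain ⟨μ, hμ⟩ := exists_isAddHaarMeasure886 K
  exact ⟨μ, fundDom886 K, hμ, measurableSet_fundDom886 K, isAddFundamentalDomain_fundDom886 K μ,
    isCompact_closure_fundDom886 K, measure_fundDom886_pos K μ, measure_fundDom886_lt_top K μ⟩

end Fermat.Agent.LT.T1.H886

end
end
-- ===== PACK-END LT/T1/H886/AddFundDom.lean

-- ===== PACK-BEGIN LT/T2/H781/Leaf08.lean
section



/-!
# Row LT, tower T2, leaf T2.08 (registry 872): `T2.Leaf08` (helper781)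

OFF-MAIN.  `leaf08_781 : Fermat.Agent.LT.T2.Leaf08`, i.e. `T2.AbstractSpectral` of the Spec of
helper130 (`LT/T2/Spec.lean`, sha256 1b305586..., byte-identical copy), from
`abstractSpectral781` (`LT/T2/H781/AbsSpec.lean`, Mathlib + asset helper751).
-/

set_option autoImplicit false

namespace Fermat.Agent.LT.T2.H781

/-- **T2.08**: the abstract spectral theorem of the Spec. -/
theorem abstractSpectral_spec781 : Fermat.Agent.LT.T2.AbstractSpectral :=
  fun V _ _ 𝒜 𝒞 hCA hcomm hadj hbdd hHS hreg hnd =>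
    abstractSpectral781 V 𝒜 𝒞 hCA hcomm hadj hbdd hHS hreg hnd

/-- **T2.08** in the form of the registry. -/
theorem leaf08_781 : Fermat.Agent.LT.T2.Leaf08 := abstractSpectral_spec781

end Fermat.Agent.LT.T2.H781

end
-- ===== PACK-END LT/T2/H781/Leaf08.lean

-- ===== PACK-BEGIN LT/T6/H626/AbelCut.lean
section






/-!
# Row LT, tower T6, station T6.20a (`AbelExistC626`): THE CUT, route H (helper626, sub-architect)

OFF-MAIN.  Vocabulary: `LT/T6/SpecArch.lean` (helper22, sha256 003240b2), `H626/ArchCut.lean`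
(sha256 fac998d4), `H830/HCSpec.lean` (helper830, sha256 c3e7d846), byte-identical copies.
Definitions, Props and the PROVED tops; nothing is assumed.

## Route H: closed forms through a smooth Hermitian family (NO even-function theorem)

For `y ∈ GL₂(ℝ)`, `D = det y > 0`, `ρ = rhoR y`, `v ∈ ℝ` put `x_v = √((ρ + 1 + v²)/2)` and
`M_v(y) = (D^{1/4} / (2 √(x_v + 1))) · [[√2 (x_v + 1) + h₁, h₂ - i v], [h₂ + i v, √2 (x_v + 1) - h₁]]`,
`h₁ = (y₀₀ - y₁₁)/√(2D)`, `h₂ = (y₀₁ + y₁₀)/√(2D)` (`h₁² + h₂² = ρ - 1`).  `M_v(y)` is Hermitian,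
`det M_v(y) = √D`, `rhoC (M_v(y)) = x_v` (`famAlg626`, PROVED in `H626/FamAlg.lean`), and its entries are smooth
functions of `(v, y)` on `det y > 0` (also at `ρ = 1`).  The functions

* `abelF0_626 c φ y = (√2 c / 4) ∫_ℝ φ(M_v(y)) / x_v dv`,
* `abelF1_626 c n φ y = (√2 c / 4) (j_n(y) / (√D (ρ + 1))) ∫_ℝ φ(M_v(y)) dv`,
  `j₁ = 2 conj (holPart y)`, `j₋₁ = 2 holPart y`

(zero on `det y < 0`) are test functions of weight `0`, `n` in the Abel relation with constant `c`.

## Leaves (registry rows `T6.20a.x`)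

* `FamSmoothC626` (Mathlib only): the entries of `(v, t) ↦ M_v(h t)` are smooth.
* `ParamIntC626` (Mathlib only): a parametric integral of a smooth function with uniformly
  compact support in the integration variable is smooth.
* `F0SmoothOfC626`, `F1SmoothOfC626`: the field `smooth` of `IsArchTestR` for the closed forms.
* `F0SoftOfC626`, `F1SoftOfC626`: the fields `cont`, `supp`, `left`, `right`.
* `RadInt0C626`, `RadInt1C626` (Mathlib only): two radial integrals over `ℝ²`.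
* `F0AbelOfC626`, `F1AbelOfC626`: the Abel relation for the closed forms.

`abelExist_of_routeH626` (PROVED): all leaves + `H830.CartanCC` + `H830.WIntCC` (both DONE:
helper283, helper841) give `AbelExistC626`.
-/

set_option autoImplicit false

open scoped Matrix ContDiff
open MeasureTheory

noncomputable section

namespace Fermat.Agent.LT.T6.H626

open Fermat.Agent.LT.T6

/-! ## 1. The Hermitian family -/

/-- The element of `GL₂(ℂ)` with matrix `M` (`1` if `det M = 0`). -/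
def toGLC626 (M : Matrix (Fin 2) (Fin 2) ℂ) : GL (Fin 2) ℂ :=
  if h : M.det ≠ 0 then Matrix.GeneralLinearGroup.mkOfDetNeZero M h else 1

/-- `x_v(ρ) = √((ρ + 1 + v²) / 2)`. -/
def xv626 (ρ v : ℝ) : ℝ := Real.sqrt ((ρ + 1 + v ^ 2) / 2)

/-- `ρ` of a real matrix (`rhoR y = rhoM626 y` for `y ∈ GL₂(ℝ)`). -/
def rhoM626 (y : Matrix (Fin 2) (Fin 2) ℝ) : ℝ :=
  (y.transpose * y).trace / (2 * |y.det|)

/-- `h₁ = (y₀₀ - y₁₁) / √(2 det y)`. -/
def famH1_626 (y : Matrix (Fin 2) (Fin 2) ℝ) : ℝ := (y 0 0 - y 1 1) / Real.sqrt (2 * y.det)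

/-- `h₂ = (y₀₁ + y₁₀) / √(2 det y)`. -/
def famH2_626 (y : Matrix (Fin 2) (Fin 2) ℝ) : ℝ := (y 0 1 + y 1 0) / Real.sqrt (2 * y.det)

/-- The scalar `(det y)^{1/4} / (2 √(x + 1))`. -/
def famScal626 (y : Matrix (Fin 2) (Fin 2) ℝ) (x : ℝ) : ℝ :=
  Real.sqrt (Real.sqrt y.det) / (2 * Real.sqrt (x + 1))

/-- **The Hermitian family** `M_v(y)`. -/
def famMat626 (y : Matrix (Fin 2) (Fin 2) ℝ) (v : ℝ) : Matrix (Fin 2) (Fin 2) ℂ :=
  ((famScal626 y (xv626 (rhoM626 y) v) : ℝ) : ℂ) •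
    !![((Real.sqrt 2 * (xv626 (rhoM626 y) v + 1) + famH1_626 y : ℝ) : ℂ),
        ((famH2_626 y : ℝ) : ℂ) - ((v : ℝ) : ℂ) * Complex.I;
      ((famH2_626 y : ℝ) : ℂ) + ((v : ℝ) : ℂ) * Complex.I,
        ((Real.sqrt 2 * (xv626 (rhoM626 y) v + 1) - famH1_626 y : ℝ) : ℂ)]

/-- `j_n`: `2 conj (holPart y)` for `n = 1`, `2 holPart y` otherwise (`n = -1`). -/
def jn626 (n : ℤ) (y : GL (Fin 2) ℝ) : ℂ :=
  if n = 1 then 2 * (starRingEnd ℂ) (holPart y) else 2 * holPart y

/-- **The closed form of weight `0`.** -/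
def abelF0_626 (c : ℂ) (φ : GL (Fin 2) ℂ → ℂ) (y : GL (Fin 2) ℝ) : ℂ :=
  if 0 < (y : Matrix (Fin 2) (Fin 2) ℝ).det then
    ((Real.sqrt 2 / 4 : ℝ) : ℂ) * c *
      ∫ v : ℝ, φ (toGLC626 (famMat626 (y : Matrix (Fin 2) (Fin 2) ℝ) v)) /
        ((xv626 (rhoR y) v : ℝ) : ℂ)
  else 0

/-- **The closed form of weight `n = ±1`.** -/
def abelF1_626 (c : ℂ) (n : ℤ) (φ : GL (Fin 2) ℂ → ℂ) (y : GL (Fin 2) ℝ) : ℂ :=
  if 0 < (y : Matrix (Fin 2) (Fin 2) ℝ).det then
    ((Real.sqrt 2 / 4 : ℝ) : ℂ) * c *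
      (jn626 n y /
        ((Real.sqrt (y : Matrix (Fin 2) (Fin 2) ℝ).det * (rhoR y + 1) : ℝ) : ℂ)) *
      ∫ v : ℝ, φ (toGLC626 (famMat626 (y : Matrix (Fin 2) (Fin 2) ℝ) v))
  else 0

theorem rhoR_eq_rhoM626 (y : GL (Fin 2) ℝ) : rhoR y = rhoM626 (y : Matrix (Fin 2) (Fin 2) ℝ) :=
  rfl

/-! ## 2. Leaves: smoothness -/

/-- **T6.20a.1 FAM-SMOOTH** (Mathlib only): for a smooth family `h` of real matrices of positive
determinant the entries of `(v, t) ↦ M_v(h t)` are smooth on `ℝ^{m+1}` (`p 0 = v`,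
`Fin.tail p = t`).  (`ρ + 1 ≥ 2`, so `x_v ≥ 1`; all square roots are of positive smooth
functions.) -/
def FamSmoothC626 : Prop :=
  ∀ (m : ℕ) (h : (Fin m → ℝ) → Matrix (Fin 2) (Fin 2) ℝ),
    (∀ i j : Fin 2, ContDiff ℝ ∞ (fun t => h t i j)) → (∀ t, 0 < (h t).det) →
    ∀ i j : Fin 2,
      ContDiff ℝ ∞ (fun p : Fin (m + 1) → ℝ => famMat626 (h (Fin.tail p)) (p 0) i j)

/-- **T6.20a.2 PARAM-INT** (Mathlib only): if `G` is smooth on `ℝ^{m+1}` and vanishes for
`|p 0| > V`, then `t ↦ ∫_ℝ G(v, t) dv` is smooth on `ℝ^m`.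
(E.g. `contDiffOn_convolution_right_with_param` with `f = 1`.) -/
def ParamIntC626 : Prop :=
  ∀ (m : ℕ) (G : (Fin (m + 1) → ℝ) → ℂ), ContDiff ℝ ∞ G →
    (∃ V : ℝ, ∀ p : Fin (m + 1) → ℝ, V < |p 0| → G p = 0) →
    ContDiff ℝ ∞ (fun t : Fin m → ℝ => ∫ v : ℝ, G (Fin.cons v t : Fin (m + 1) → ℝ))

/-- The field `smooth` of `IsArchTestR` for a function `f`. -/
def IsSmoothR626 (f : GL (Fin 2) ℝ → ℂ) : Prop :=
  ∀ (m : ℕ) (h : (Fin m → ℝ) → GL (Fin 2) ℝ),
    (∀ i j : Fin 2, ContDiff ℝ ∞ (fun t => ((h t : GL (Fin 2) ℝ) : Matrix (Fin 2) (Fin 2) ℝ) i j)) →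
    ∀ g : GL (Fin 2) ℝ, ContDiff ℝ ∞ (fun t => f (g * h t))

/-- The fields `cont`, `supp`, `left`, `right` of `IsArchTestR n` for a function `f`. -/
def IsSoftR626 (n : ℤ) (f : GL (Fin 2) ℝ → ℂ) : Prop :=
  Continuous f ∧ HasCompactSupport f ∧
    (∀ k g : GL (Fin 2) ℝ, InSO2 k → f (k * g) = (wtChar n k)⁻¹ * f g) ∧
    (∀ k g : GL (Fin 2) ℝ, InSO2 k → f (g * k) = (wtChar n k)⁻¹ * f g)

/-- **T6.20a.3 F0-SMOOTH**: the closed form of weight `0` is smooth along every smooth family.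
(`det (g h(t))` has a constant sign; if it is positive, apply `IsArchTestC.smooth` to the family
`(v, t) ↦ toGLC626 (M_v(g h(t)))` [`FamSmoothC626`, `famAlg626`] and `ParamIntC626`;
`φ(M_v) ≠ 0` gives `x_v = rhoC (M_v) ≤ R`, so `|v| ≤ √2 R`.) -/
def F0SmoothOfC626 : Prop :=
  FamSmoothC626 → ParamIntC626 →
    ∀ (c : ℂ) (φ : GL (Fin 2) ℂ → ℂ), IsArchTestC φ → IsSmoothR626 (abelF0_626 c φ)

/-- **T6.20a.4 F1-SMOOTH**: the closed form of weight `n = ±1` is smooth along every smooth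
family. -/
def F1SmoothOfC626 : Prop :=
  FamSmoothC626 → ParamIntC626 →
    ∀ (c : ℂ) (n : ℤ), n = 1 ∨ n = -1 →
      ∀ φ : GL (Fin 2) ℂ → ℂ, IsArchTestC φ → IsSmoothR626 (abelF1_626 c n φ)

/-! ## 3. Leaves: the soft fields -/

/-- **T6.20a.5 F0-SOFT**: the closed form of weight `0` is continuous, compactly supported and
bi-`SO(2)`-invariant.  (`φ(M_v(y))` depends on `(det y, rhoR y, v)` only: `famAlg626` and
`H830.CartanCC`; support: `√(det y) = |det M_v(y)|` and `x_v ≥ √((rhoR y + 1)/2)` are bounded on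
the support of `φ`.) -/
def F0SoftOfC626 : Prop :=
  H830.CartanCC →
    ∀ (c : ℂ) (φ : GL (Fin 2) ℂ → ℂ), IsArchTestC φ → IsSoftR626 0 (abelF0_626 c φ)

/-- **T6.20a.6 F1-SOFT**: the closed form of weight `n = ±1` is continuous, compactly supported
and of weight `n` on both sides (`holPart (k y) = holPart k · holPart y = holPart (y k)` and
`‖holPart k‖ = 1` for `k ∈ SO(2)`). -/
def F1SoftOfC626 : Prop :=
  H830.CartanCC →
    ∀ (c : ℂ) (n : ℤ), n = 1 ∨ n = -1 →
      ∀ φ : GL (Fin 2) ℂ → ℂ, IsArchTestC φ → IsSoftR626 n (abelF1_626 c n φ)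

/-! ## 4. Leaves: the Abel relation -/

/-- **T6.20a.7 RAD-INT-0** (Mathlib only; polar coordinates in `ℝ²`, then `X = √(A² + r²)`):
`∫∫ Φ(√(A² + α x² + β v²)) / √(A² + α x² + β v²) dv dx = (2π / √(αβ)) ∫_{X > A} Φ(X) dX`. -/
def RadInt0C626 : Prop :=
  ∀ Φ : ℝ → ℂ, Continuous Φ → (∃ R : ℝ, ∀ X : ℝ, R < X → Φ X = 0) →
    ∀ A α β : ℝ, 0 < A → 0 < α → 0 < β →
      (∫ x : ℝ, ∫ v : ℝ, Φ (Real.sqrt (A ^ 2 + α * x ^ 2 + β * v ^ 2)) /
          ((Real.sqrt (A ^ 2 + α * x ^ 2 + β * v ^ 2) : ℝ) : ℂ))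
        = ((2 * Real.pi / Real.sqrt (α * β) : ℝ) : ℂ) * ∫ X in Set.Ioi A, Φ X

/-- **T6.20a.8 RAD-INT-1** (Mathlib only; for fixed `X`:
`∫_{-L}^{L} dx / ((A² + x²) √(L² - x²)) = π / (A √(A² + L²))`):
`∫∫ Φ(√(A² + α x² + β v²)) / (A² + α x²) dv dx = (2π / (A √(αβ))) ∫_{X > A} Φ(X) dX`. -/
def RadInt1C626 : Prop :=
  ∀ Φ : ℝ → ℂ, Continuous Φ → (∃ R : ℝ, ∀ X : ℝ, R < X → Φ X = 0) →
    ∀ A α β : ℝ, 0 < A → 0 < α → 0 < β →
      (∫ x : ℝ, ∫ v : ℝ, Φ (Real.sqrt (A ^ 2 + α * x ^ 2 + β * v ^ 2)) /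
          ((A ^ 2 + α * x ^ 2 : ℝ) : ℂ))
        = ((2 * Real.pi / (A * Real.sqrt (α * β)) : ℝ) : ℂ) * ∫ X in Set.Ioi A, Φ X

/-- One half of the Abel relation: `∫_ℝ f(!![a, a x; 0, b]) dx = c ∫_ℂ φ(!![√a, √a w; 0, √b]) dw`
for all `a, b > 0`. -/
def IsAbelHalf626 (c : ℂ) (φ : GL (Fin 2) ℂ → ℂ) (f : GL (Fin 2) ℝ → ℂ) : Prop :=
  ∀ a b : ℝ, 0 < a → 0 < b →
    ∀ (u : ℝ → GL (Fin 2) ℝ) (u' : ℂ → GL (Fin 2) ℂ),
      (∀ x : ℝ, ((u x : GL (Fin 2) ℝ) : Matrix (Fin 2) (Fin 2) ℝ) = !![a, a * x; 0, b]) →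
      (∀ w : ℂ, ((u' w : GL (Fin 2) ℂ) : Matrix (Fin 2) (Fin 2) ℂ)
        = !![((Real.sqrt a : ℝ) : ℂ), ((Real.sqrt a : ℝ) : ℂ) * w; 0, ((Real.sqrt b : ℝ) : ℂ)]) →
      (∫ x : ℝ, f (u x)) = c * ∫ w : ℂ, φ (u' w)

/-- **T6.20a.9 F0-ABEL**: the Abel relation for the closed form of weight `0`.
(`y = !![a, a x; 0, b]`: `det = a b`, `x_v² = A² + (a/(4b)) x² + v²/2`, `A = (a+b)/(2√(ab))`;
`φ(M_v(y)) = Φ(x_v)` with the profile `Φ(cosh s) = φ(bC ζ s 0)`, `e^ζ = √(ab)`
[`famAlg626`, `CartanCC`]; `RadInt0C626` with `α = a/(4b)`, `β = 1/2`; the right side is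
`WIntCC` with `Ψ = 1`, `r = log √(a/b)`, and `X = cosh s`.) -/
def F0AbelOfC626 : Prop :=
  H830.CartanCC → H830.WIntCC → RadInt0C626 →
    ∀ (c : ℂ) (φ : GL (Fin 2) ℂ → ℂ), IsArchTestC φ → IsAbelHalf626 c φ (abelF0_626 c φ)

/-- **T6.20a.10 F1-ABEL**: the Abel relation for the closed form of weight `n = ±1`.
(`j_n(y) = (a + b) ± i a x`; the imaginary part is odd in `x`; `ρ + 1 = 2 (A² + (a/(4b)) x²)`;
`RadInt1C626`.) -/
def F1AbelOfC626 : Prop :=
  H830.CartanCC → H830.WIntCC → RadInt1C626 →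
    ∀ (c : ℂ) (n : ℤ), n = 1 ∨ n = -1 →
      ∀ φ : GL (Fin 2) ℂ → ℂ, IsArchTestC φ → IsAbelHalf626 c φ (abelF1_626 c n φ)

/-! ## 5. PROVED: tops -/

theorem abelF0_pos626 (c : ℂ) (φ : GL (Fin 2) ℂ → ℂ) (g : GL (Fin 2) ℝ)
    (h : abelF0_626 c φ g ≠ 0) : 0 < (g : Matrix (Fin 2) (Fin 2) ℝ).det := by
  by_contra h0
  exact h (by rw [abelF0_626, if_neg h0])

theorem abelF1_pos626 (c : ℂ) (n : ℤ) (φ : GL (Fin 2) ℂ → ℂ) (g : GL (Fin 2) ℝ)
    (h : abelF1_626 c n φ g ≠ 0) : 0 < (g : Matrix (Fin 2) (Fin 2) ℝ).det := by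
  by_contra h0
  exact h (by rw [abelF1_626, if_neg h0])

/-- A test function from its soft and smooth fields. -/
theorem isArchTestR_of_fields626 {n : ℤ} {f : GL (Fin 2) ℝ → ℂ} (hs : IsSoftR626 n f)
    (hm : IsSmoothR626 f) (hp : ∀ g : GL (Fin 2) ℝ, f g ≠ 0 → 0 < (g : Matrix (Fin 2) (Fin 2) ℝ).det) :
    IsArchTestR n f :=
  ⟨hs.1, hs.2.1, hm, hp, hs.2.2.1, hs.2.2.2⟩

/-- The Abel relation from its two halves. -/
theorem isAbelRel_of_halves626 {c : ℂ} {φ : GL (Fin 2) ℂ → ℂ} {f₀ f₁ : GL (Fin 2) ℝ → ℂ}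
    (h0 : IsAbelHalf626 c φ f₀) (h1 : IsAbelHalf626 c φ f₁) : IsAbelRel626 c φ f₀ f₁ :=
  fun a b ha hb u u' hu hu' => ⟨h0 a b ha hb u u' hu hu', h1 a b ha hb u u' hu hu'⟩

/-- **TOP of the station T6.20a, route H**: `AbelExistC626` from the ten leaves and the two DONE
Props `H830.CartanCC` (helper283), `H830.WIntCC` (helper841). -/
theorem abelExist_of_routeH626 (hC : H830.CartanCC) (hW : H830.WIntCC)
    (hFam : FamSmoothC626) (hPar : ParamIntC626)
    (hS0 : F0SmoothOfC626) (hS1 : F1SmoothOfC626)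
    (hT0 : F0SoftOfC626) (hT1 : F1SoftOfC626)
    (hR0 : RadInt0C626) (hR1 : RadInt1C626)
    (hA0 : F0AbelOfC626) (hA1 : F1AbelOfC626) : AbelExistC626 := by
  intro c n hn φ hφ
  refine ⟨abelF0_626 c φ, abelF1_626 c n φ, ?_, ?_, ?_⟩
  · exact isArchTestR_of_fields626 (hT0 hC c φ hφ) (hS0 hFam hPar c φ hφ) (abelF0_pos626 c φ)
  · exact isArchTestR_of_fields626 (hT1 hC c n hn φ hφ) (hS1 hFam hPar c n hn φ hφ)
      (abelF1_pos626 c n φ)
  · exact isAbelRel_of_halves626 (hA0 hC hW hR0 c φ hφ) (hA1 hC hW hR1 c n hn φ hφ)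

end Fermat.Agent.LT.T6.H626

end

end
-- ===== PACK-END LT/T6/H626/AbelCut.lean

-- ===== PACK-BEGIN LT/T6/Inf/Spec.lean
section






/-!
# Row LT, tower T6, sub-tower T6inf (sub-architect helper19): ARCHIMEDEAN PLACE OF THE QUADRATIC
# STEP -- SPEC v3 = v2 + the vocabulary of v1 (ADDITIVE)

OFF-MAIN.  Definitions, frozen Props, PROVED top.  No hole, no opaque constant, nothing assumed.

## v3 (one file for everybody)

* PART A is v2 (origin/helper19@9f15c6d69, sha256 3d46cdcb) WITHOUT ANY CHANGE of a statement: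
  `CutoffExC`, `SphValuesC`, `UpUnitaryC`, `Sph0ParamC`, `MeanValueWtOne`, `WtOneHolC`,
  `T6InfOut`, `top` (same text, same elaboration context: Part A comes first).
* PART B restores VERBATIM the vocabulary of v1 (origin/helper19@846d5fb56, sha256 1c79e0f3) on
  which the sub-towers of helper59 (`H59/Class0Spec.lean`), helper811 (`H811/ClassCut.lean`),
  helper176 (`H176/ArchAdapter.lean`), helper157 (`H157/HolSpec.lean`) and their leaves were
  built: `GR, GC, conjC, sig, incl, twNorm_two, cent, instMeasurableSpaceGR,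
  instMeasurableSpaceGC, rotR, torR, IsU2, wt, IsSmoothFn, IsTestC, IsTestR, IsCutoffR, IsCutoffC,
  orbR, orbC, Matches, sphP, sphQ, sphR, chR, chC, jR, PR, QR, RC, ArchMatchC, SpecRelC,
  HasWeight, MeanEig, ClassR0C, ClassR1C, UpUnitary0C, UpUnitary1C` -- same names, same bodies.
  A file written against v1 compiles against v3 when it does not use one of the SIX names which
  v2 redefined: `CutoffExC, Sph0ParamC, MeanValueWtOne, WtOneHolC, T6InfOut, top`; these keep
  their v2 meaning, the v1 forms are `CutoffExCV1, Sph0ParamCV1, MeanValueWtOneV1, WtOneHolCV1`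
  (`MeanValueWtOne` and `WtOneHolC` differ only by the spelling of the phase `e^{-iθ}`:
  `Complex.exp (-(Complex.I * θ))` in v2, `wt (-1) θ` in v1; bridges in `Inf/Bridge.lean`).
* The bridges between the v1 forms and the v2 forms are PROVED in `LT/T6/Inf/Bridge.lean` (not
  here: this file has no proof beyond `twNorm_two` and `top`).

Only the QUADRATIC step `F/ℚ` of the wall needs this file (`F = ℚ(√-3)`, the real place of `ℚ`
does not split).  Texts: `coord/LT-T6-interface.md` §C (helper22, "P7"), `coord/LT-T7-helper797.md`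
R6 + §C (helper797), `coord/LT-P7-calculus-helper517.md` (helper517: explicit matching functions),
`coord/LT-T6inf-D3-helper261.md` (helper261: D3 without Casimir), `coord/LT-T6inf-helper19.md`.

## v2 = ONE statement per fact

P7 (a), (b), (c) ARE the Props of `LT/T6/SpecArch.lean` (helper22, origin/helper22@7e02b2a11,
byte-identical copy, sha256 003240b2): `T6.ArchMatchC` (existence of `f₀ + f₁`, geometric
matching in cut-off form, spectral relation `s ↦ 2s`), `T6.ArchInjC`, `T6.ArchClassC`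
(classification of the eigenvalue functions in the weights `0, ± 1`).  I audited them (memo
§3): TRUE, and they are the statements of my v1 (`ArchMatchC`, `SpecRelC`, `ClassR0C`,
`ClassR1C` of origin/helper19@846d5fb56) in the other orientation.  (v2 withdrew v1 for these
four; since v3 the v1 Props `ClassR0C`, `ClassR1C` are kept as NODES of the sub-towers of helper59
and helper811; the adapters to `T6.ArchClassC` live in `Inf/Bridge.lean` and
`H59/Class0Top.lean`, the adapter `T6.ArchMatchC → Inf.ArchMatchC` in `H176/ArchAdapter.lean`.)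
CONVENTION: `T6.wtChar n` sends the rotation `!![cos θ, -sin θ; sin θ, cos θ]` to `e^{inθ}`;
`QOut.rotC θ` is the rotation of angle `-θ`, so the WEIGHT ONE of QOut (`e (g · rotC θ) =
e^{iθ} e g`) is `n = -1` of `SpecArch`.

This file adds what the consumer (T7, node `TraceWordsQC`) needs beyond `T6.T6ArchOut`:

* `CutoffExC`   : cut-off functions exist (the clauses of `T6.IsArchMatch` are never vacuous);
* `SphValuesC`  : the values of the three families at the parameter `0`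
                  (`sphC 0 = d / sinh d` = `A0.MeanValueComplex`, `2π sphR0 0` = the function of
                  `A0.MeanValueReal`, `sphR1 0 = 1 / cosh (t/2)`);
* `UpUnitaryC`  : if the eigenvalue function downstairs is real and bounded by `1` then
                  `sphC (2 s)` is real and bounded by `1` (`T7.EigData.IsUnitaryOut`);
* `Sph0ParamC`  : `sphC (2 s) = sphC 0` on `(1, ∞)` forces `s = 0`;
* `WtOneHolC`   : **D3** (helper670): a continuous bounded automorphic function on `GL₂(𝔸_ℚ)` of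
                  weight one whose weight-one circle means have the eigenvalue function
                  `2π / cosh (t/2)` is HOLOMORPHIC (field `holo` of `QOut.IsHolWtOneFormFor`,
                  VERBATIM).  GLOBAL statement (finite volume).

## Tower Prop

`T6InfOut = T6.T6ArchOut ∧ CutoffExC ∧ SphValuesC ∧ UpUnitaryC ∧ Sph0ParamC ∧ WtOneHolC`.
-/

set_option autoImplicit false

open IsDedekindDomain NumberField MeasureTheory
open UpperHalfPlane
open scoped ContDiff Manifold Matrix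

noncomputable section

namespace Fermat.Agent.LT.T6.Inf

open Fermat.Agent.LT.H556 Fermat.Agent.LT.H670

/-! ## PART A (= v2)

### A.1. Cut-off functions exist -/

/-- **T6inf.09 (cut-off functions exist).**  For every regular `γ ∈ GL₂(ℝ)` and every Haar
measure `μT` of its centraliser `T` there are cut-off functions `β` on `GL₂(ℝ)` and `β'` on
`GL₂(ℂ)` as in `T6.IsArchMatch`: continuous, `≥ 0`, `∫_T β(t x) dμT(t) = 1` for all `x`
(Bruhat functions: `T` is a closed subgroup of a σ-compact locally compact group; Bourbaki,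
Int. VII §2 no. 4).  So the clauses of `T6.IsArchMatch` are never vacuous. -/
def CutoffExC : Prop :=
  ∀ γ : GL (Fin 2) ℝ, T6.IsReg γ →
    ∀ μT : @Measure (T6.twCentSub (MonoidHom.id (GL (Fin 2) ℝ)) γ) (borel _),
      @Measure.IsHaarMeasure _ _ _ (borel _) μT →
      (∃ β : GL (Fin 2) ℝ → ℝ, Continuous β ∧ (∀ x, 0 ≤ β x) ∧
        ∀ x : GL (Fin 2) ℝ,
          @integral _ _ _ _ (borel _) μT
            (fun t : T6.twCentSub (MonoidHom.id (GL (Fin 2) ℝ)) γ =>
              β ((t : GL (Fin 2) ℝ) * x)) = 1) ∧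
      ∃ β' : GL (Fin 2) ℂ → ℝ, Continuous β' ∧ (∀ x, 0 ≤ β' x) ∧
        ∀ x : GL (Fin 2) ℂ,
          @integral _ _ _ _ (borel _) μT
            (fun t : T6.twCentSub (MonoidHom.id (GL (Fin 2) ℝ)) γ =>
              β' (Matrix.GeneralLinearGroup.map (algebraMap ℝ ℂ) (t : GL (Fin 2) ℝ) * x)) = 1

/-! ### A.2. The parameter `0`, unitarity -/

/-- **T6inf.10 (values at the parameter `0`).**  For `d, t > 0`:
`sphC 0 (cosh d) = d / sinh d` (the constant of `A0.MeanValueComplex` is `4π` times this),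
`2π · sphR0 0 (cosh t) = ∫₀^{2π} (cosh t + sinh t cos θ)^{-1/2} dθ` (the constant of
`A0.MeanValueReal`), `sphR1 0 (cosh t) = 1 / cosh (t/2)` (holomorphic weight one). -/
def SphValuesC : Prop :=
  (∀ d : ℝ, 0 < d → T6.sphC 0 (Real.cosh d) = ((d / Real.sinh d : ℝ) : ℂ)) ∧
  (∀ t : ℝ, 0 < t →
    ((2 * Real.pi : ℝ) : ℂ) * T6.sphR0 0 (Real.cosh t)
      = ((∫ θ in (0 : ℝ)..(2 * Real.pi),
          (Real.cosh t + Real.sinh t * Real.cos θ) ^ (-(1 / 2 : ℝ)) : ℝ) : ℂ)) ∧
  ∀ t : ℝ, 0 < t → T6.sphR1 0 (Real.cosh t) = ((1 / Real.cosh (t / 2) : ℝ) : ℂ)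

/-- **T6inf.05 (unitarity of the base-changed eigen-data).**  `n ∈ {0, 1, -1}`.  If the
eigenvalue function `sphRad n s` downstairs is real and bounded by `1` on `(0, ∞)` (eigenvalue
function of a bounded eigenfunction of the self-adjoint circle means) then the base-changed
eigenvalue function `sphC (2 s)` is real and bounded by `1`.
(`sphR0 s (cosh t) = 1 + (s² - 1/4) t²/4 + o(t²)`, `sphR1 s (cosh t) = 1 + (s² - 1/2) t²/4 +
o(t²)`: `s²` is real; for real `s` with `|s| > 1/2` the function grows like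
`c(s) e^{(|s| - 1/2) t}`, `c(s) ≠ 0`; so `s ∈ iℝ ∪ [-1/2, 1/2]`; then
`sinh (ν d) ≤ ν sinh d` for `0 < ν ≤ 1` and `|sin (r d) / r| ≤ d ≤ sinh d`.) -/
def UpUnitaryC : Prop :=
  ∀ n : ℤ, n = 0 ∨ n = 1 ∨ n = -1 → ∀ s : ℂ,
    (∀ t : ℝ, 0 < t →
      (T6.sphRad n s (Real.cosh t)).im = 0 ∧ ‖T6.sphRad n s (Real.cosh t)‖ ≤ 1) →
    ∀ d : ℝ, 0 < d →
      (T6.sphC (2 * s) (Real.cosh d)).im = 0 ∧ ‖T6.sphC (2 * s) (Real.cosh d)‖ ≤ 1

/-- **T6inf.07.**  If the base change of the parameter `s` is the parameter `0` upstairs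
(`sinh (2 s d) / (2 s sinh d) = d / sinh d` for all `d > 0`), then `s = 0`. -/
def Sph0ParamC : Prop :=
  ∀ s : ℂ, (∀ d : ℝ, 0 < d → T6.sphC (2 * s) (Real.cosh d) = T6.sphC 0 (Real.cosh d)) → s = 0

/-! ### A.3. D3: weight one and parameter `0` give a holomorphic form (GLOBAL) -/

/-- The weight-one circle means of `e` on `GL₂(𝔸_ℚ)` (weight one in the convention of QOut) have
the eigenvalue function `2π / cosh (t/2)` (parameter `0`):
`∫₀^{2π} e^{-iθ} e (g k_θ a_t) dθ = (2π / cosh (t/2)) e(g)`, `k_θ = QOut.rotC θ`,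
`a_t = A0.torus t`.  (For `e` of weight one the integrand is `e (g k_θ a_t k_θ⁻¹)`.) -/
def MeanValueWtOne (e : A0.G ℚ → ℂ) : Prop :=
  ∀ (w : InfinitePlace ℚ) (t : ℝ), 0 < t → ∀ Y : ℝ → A0.G ℚ,
    (∀ θ : ℝ, A0.IsLocalAtInf w (Y θ) ∧ A0.infComp w (Y θ) = QOut.rotC θ * A0.torus t) →
    ∀ g : A0.G ℚ,
      (∫ θ in (0 : ℝ)..(2 * Real.pi),
          Complex.exp (-(Complex.I * ((θ : ℝ) : ℂ))) * e (g * Y θ))
        = ((2 * Real.pi / Real.cosh (t / 2) : ℝ) : ℂ) * e g

/-- **T6inf.08 = D3 (helper670).**  A continuous bounded function on `GL₂(𝔸_ℚ)`, left invariant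
under `GL₂(ℚ)`, right invariant under `U(𝔫)` (`𝔫 ≠ 0`) and under the positive real scalars, of
weight one under `SO(2)`, whose weight-one circle means have the eigenvalue function of
parameter `0`, is holomorphic: `z ↦ y^{-1/2} e(g_z g)` is holomorphic on `ℍ` for every `g`
trivial at the real place (the field `holo` of `QOut.IsHolWtOneFormFor`, VERBATIM).
Proof (memo of helper261, first derivatives only): `Q₀(g) = 2 √(det g) / J(g)`,
`J(g) = (a + d) + i (c - b)`, is the spherical function of weight one and parameter `0`; for a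
smooth compactly supported `f₁` of type `(1,1)` with `χ(f₁) = ∫ f₁ Q₀ ≠ 0`, `e = R(f₁) e / χ(f₁)`
is `C¹` at the real place and `Λ e = R(h) e / χ(f₁)` for the lowering operator
`Λ = D_{σ₃} - i D_{σ₁}`; on the quotient of FINITE VOLUME
`‖R(h) e‖² = χ(h* ⋆ h) ‖e‖² = 0` because `Λ Q₀ = 0`; `Λ e = -4i y^{3/2} ∂F/∂z̄` for
`e(g_z g) = √y F(z)`.  (Cuspidality is not needed; a local solution of the eigen-equation need
not be holomorphic: `√y log y`.) -/
def WtOneHolC : Prop :=
  ∀ (𝔫 : Ideal (𝓞 ℚ)), 𝔫 ≠ ⊥ → ∀ e : A0.G ℚ → ℂ,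
    Continuous e → (∃ C : ℝ, ∀ g : A0.G ℚ, ‖e g‖ ≤ C) →
    (∀ (γ : GL (Fin 2) ℚ) (g : A0.G ℚ),
      e (Matrix.GeneralLinearGroup.map (algebraMap ℚ (A0.Adl ℚ)) γ * g) = e g) →
    (∀ u : A0.G ℚ, A0.InLevelGroup 𝔫 u → ∀ g : A0.G ℚ, e (g * u) = e g) →
    (∀ (w : InfinitePlace ℚ) (z : A0.G ℚ), A0.IsArchPosScalar w z →
      ∀ g : A0.G ℚ, e (g * z) = e g) →
    (∀ (w : InfinitePlace ℚ) (θ : ℝ) (k : A0.G ℚ), A0.IsLocalAtInf w k →
      A0.infComp w k = QOut.rotC θ →
      ∀ g : A0.G ℚ, e (g * k) = Complex.exp (Complex.I * ((θ : ℝ) : ℂ)) * e g) →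
    MeanValueWtOne e →
    ∀ (w : InfinitePlace ℚ) (Y : ℍ → A0.G ℚ),
      (∀ z : ℍ, A0.IsLocalAtInf w (Y z) ∧ A0.infComp w (Y z) = QOut.gzC z) →
      ∀ g : A0.G ℚ, (∀ w' : InfinitePlace ℚ, A0.TrivAtInf w' g) →
        MDifferentiable 𝓘(ℂ) 𝓘(ℂ)
          (fun z : ℍ => (((Real.sqrt z.im : ℝ) : ℂ))⁻¹ * e (Y z * g))

/-! ### A.4. The tower Prop and the top -/

/-- **THE TOWER PROP of T6inf** (consumer: T7, node `TraceWordsQC`). -/
def T6InfOut : Prop :=
  T6.T6ArchOut ∧ CutoffExC ∧ SphValuesC ∧ UpUnitaryC ∧ Sph0ParamC ∧ WtOneHolC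

/-- **TOP of T6inf.** -/
theorem top (hArch : T6.ArchMatchC) (hInj : T6.ArchInjC) (hClass : T6.ArchClassC)
    (hCut : CutoffExC) (hVal : SphValuesC) (hUni : UpUnitaryC) (hPar : Sph0ParamC)
    (hHol : WtOneHolC) : T6InfOut :=
  ⟨T6.topArch hArch hInj hClass, hCut, hVal, hUni, hPar, hHol⟩

/-! ## PART B. The vocabulary of v1 (verbatim)

Conventions of Part B: `rotR θ = !![cos θ, sin θ; -sin θ, cos θ]` (`= QOut.rotC θ`, the rotation of
angle `-θ`); weight `n` of Part B (`e (g k_θ) = e^{inθ} e g`, `k_θ = rotR θ`) is the weight `-n` of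
`T6.wtChar`; `sphP s t = T6.sphR0 (-s) (cosh t)`, `sphQ s t = T6.sphR1 (-s) (cosh t)` (shift
`u ↦ u + π`; all four are even in `s`), `sphR ν d = T6.sphC ν (cosh d)` (`t, d > 0`); the
eigenvalue function `m` of `MeanEig` is `2π` times the one of `T6.ArchClassC`.
To use the measure-theoretic Props of Part B in another file:
`attribute [local instance] Fermat.Agent.LT.T6.Inf.instMeasurableSpaceGR
  Fermat.Agent.LT.T6.Inf.instMeasurableSpaceGC`. -/

/-! ### B.1. The groups, the conjugation, the norm -/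

/-- `GL₂(ℝ)`. -/
abbrev GR : Type := GL (Fin 2) ℝ

/-- `GL₂(ℂ)`. -/
abbrev GC : Type := GL (Fin 2) ℂ

/-- Complex conjugation as a ring automorphism of `ℂ`. -/
def conjC : ℂ ≃+* ℂ := starRingAut

/-- Entrywise complex conjugation on `GL₂(ℂ)`. -/
def sig : GC →* GC := T6.glAut conjC

/-- The inclusion `GL₂(ℝ) → GL₂(ℂ)`. -/
def incl : GR →* GC := Matrix.GeneralLinearGroup.map Complex.ofRealHom

/-- The norm of `T6` for `l = 2` is `δ ↦ δ · sig δ`. -/
theorem twNorm_two (δ : GC) : T6.twNorm conjC 2 δ = δ * sig δ := by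
  show δ * (T6.glAut conjC) (δ * (T6.glAut conjC) 1) = δ * (T6.glAut conjC) δ
  rw [map_one, mul_one]

/-- The centraliser of `γ` in `GL₂(ℝ)` (for `γ` regular: the torus `ℝ[γ]ˣ`). -/
def cent (γ : GR) : Subgroup GR := Subgroup.centralizer {γ}

/-- The Borel σ-algebra of `GL₂(ℝ)` (local instance of this file). -/
local instance instMeasurableSpaceGR : MeasurableSpace (GL (Fin 2) ℝ) := borel _

/-- The Borel σ-algebra of `GL₂(ℂ)` (local instance of this file). -/
local instance instMeasurableSpaceGC : MeasurableSpace (GL (Fin 2) ℂ) := borel _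

/-! ### B.2. Compact subgroups, types, test functions -/

/-- `k_θ = [[cos θ, sin θ], [-sin θ, cos θ]]` (the real form of `QOut.rotC θ`). -/
def rotR (θ : ℝ) : Matrix (Fin 2) (Fin 2) ℝ :=
  !![Real.cos θ, Real.sin θ; -Real.sin θ, Real.cos θ]

/-- `a_t = diag(e^{t/2}, e^{-t/2})` (the real form of `A0.torus t`). -/
def torR (t : ℝ) : Matrix (Fin 2) (Fin 2) ℝ :=
  !![Real.exp (t / 2), 0; 0, Real.exp (-(t / 2))]

/-- `k ∈ U(2)`. -/
def IsU2 (k : GC) : Prop :=
  (k : Matrix (Fin 2) (Fin 2) ℂ) * (k : Matrix (Fin 2) (Fin 2) ℂ)ᴴ = 1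

/-- The character `k_θ ↦ e^{i n θ}` of `SO(2)`. -/
def wt (n : ℤ) (θ : ℝ) : ℂ := Complex.exp (((n : ℤ) : ℂ) * ((θ : ℝ) : ℂ) * Complex.I)

/-- Smoothness on `GL₂(𝕜)`, `𝕜 = ℝ` or `ℂ`: smooth along every smooth finite-dimensional family
(the local form of `T5.IsSmoothAtInf`). -/
def IsSmoothFn {𝕜 : Type} [NormedField 𝕜] [NormedSpace ℝ 𝕜] (φ : GL (Fin 2) 𝕜 → ℂ) : Prop :=
  ∀ (n : ℕ) (h : (Fin n → ℝ) → GL (Fin 2) 𝕜),
    (∀ i j : Fin 2, ContDiff ℝ ∞ (fun t => ((h t : GL (Fin 2) 𝕜) : Matrix (Fin 2) (Fin 2) 𝕜) i j)) →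
    ∀ g : GL (Fin 2) 𝕜, ContDiff ℝ ∞ (fun t => φ (g * h t))

/-- Test functions on `GL₂(ℂ)`: continuous, compactly supported, smooth, bi-`U(2)`-invariant
(the component at the complex place of a test function of `T5` with the trivial type). -/
structure IsTestC (φ : GC → ℂ) : Prop where
  cont : Continuous φ
  supp : HasCompactSupport φ
  smooth : IsSmoothFn φ
  left : ∀ k g : GC, IsU2 k → φ (k * g) = φ g
  right : ∀ k g : GC, IsU2 k → φ (g * k) = φ g

/-- Test functions of weight `n` on `GL₂(ℝ)`: continuous, compactly supported, smooth, supported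
in `det > 0`, and `f (k_θ g) = f (g k_θ) = e^{-i n θ} f g` (the component at the real place of a
test function of `T5` of type `τ (k_θ) = e^{i n θ}`). -/
structure IsTestR (n : ℤ) (f : GR → ℂ) : Prop where
  cont : Continuous f
  supp : HasCompactSupport f
  smooth : IsSmoothFn f
  pos : ∀ g : GR, f g ≠ 0 → 0 < (g : Matrix (Fin 2) (Fin 2) ℝ).det
  left : ∀ (θ : ℝ) (k g : GR), (k : Matrix (Fin 2) (Fin 2) ℝ) = rotR θ →
    f (k * g) = wt (-n) θ * f g
  right : ∀ (θ : ℝ) (k g : GR), (k : Matrix (Fin 2) (Fin 2) ℝ) = rotR θ →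
    f (g * k) = wt (-n) θ * f g

/-! ### B.3. Orbital integrals in cut-off form -/

/-- A cut-off function on `GL₂(ℝ)` for the torus `T = cent γ` with the Haar measure `μT`:
continuous, `≥ 0`, `∫_T β(t x) dμT(t) = 1` for all `x`. -/
structure IsCutoffR (γ : GR) (μT : Measure (cent γ)) (β : GR → ℝ) : Prop where
  cont : Continuous β
  nonneg : ∀ x : GR, 0 ≤ β x
  unit : ∀ x : GR, ∫ t : cent γ, β ((t : GR) * x) ∂μT = 1

/-- A cut-off function on `GL₂(ℂ)` for the SAME torus `T = cent γ ⊂ GL₂(ℝ)` with the SAME Haar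
measure: continuous, `≥ 0`, `∫_T β(incl t · x) dμT(t) = 1` for all `x`. -/
structure IsCutoffC (γ : GR) (μT : Measure (cent γ)) (β : GC → ℝ) : Prop where
  cont : Continuous β
  nonneg : ∀ x : GC, 0 ≤ β x
  unit : ∀ x : GC, ∫ t : cent γ, β (incl (t : GR) * x) ∂μT = 1

/-- The orbital integral `∫ f(x⁻¹ γ x) β(x) dμ(x)` on `GL₂(ℝ)`. -/
def orbR (μR : Measure GR) (f : GR → ℂ) (γ : GR) (β : GR → ℝ) : ℂ :=
  ∫ x : GR, f (x⁻¹ * γ * x) * ((β x : ℝ) : ℂ) ∂μR

/-- The twisted orbital integral `∫ φ(x⁻¹ δ sig(x)) β(x) dμ(x)` on `GL₂(ℂ)`. -/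
def orbC (μC : Measure GC) (φ : GC → ℂ) (δ : GC) (β : GC → ℝ) : ℂ :=
  ∫ x : GC, φ (x⁻¹ * δ * sig x) * ((β x : ℝ) : ℂ) ∂μC

/-- `f` on `GL₂(ℝ)` MATCHES `φ` on `GL₂(ℂ)` (for the Haar measures `μR`, `μC`):
* `norm`: for `γ` regular and `δ · sig δ = incl γ`, for every Haar measure of `cent γ` and all
  cut-off functions, the orbital integral of `f` at `γ` is the twisted orbital integral of `φ` at
  `δ`;
* `vanish`: the orbital integrals of `f` vanish at the regular `γ` which are not norms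
  (`det γ < 0`, or two negative eigenvalues). -/
structure Matches (μR : Measure GR) (μC : Measure GC) (φ : GC → ℂ) (f : GR → ℂ) : Prop where
  norm : ∀ (γ : GR) (δ : GC), T6.IsReg γ → δ * sig δ = incl γ →
    ∀ μT : Measure (cent γ), μT.IsHaarMeasure →
    ∀ (β : GR → ℝ) (β' : GC → ℝ), IsCutoffR γ μT β → IsCutoffC γ μT β' →
      orbR μR f γ β = orbC μC φ δ β'
  vanish : ∀ γ : GR, T6.IsReg γ → (¬ ∃ δ : GC, δ * sig δ = incl γ) →
    ∀ μT : Measure (cent γ), μT.IsHaarMeasure →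
    ∀ β : GR → ℝ, IsCutoffR γ μT β → orbR μR f γ β = 0

/-- **T6inf.09 in the v1 form** (structures `IsCutoffR`, `IsCutoffC`). For every regular `γ` and
every Haar measure of `T = cent γ` there are cut-off functions on `GL₂(ℝ)` and on `GL₂(ℂ)` (Bruhat
functions: `T` is a closed subgroup of a σ-compact locally compact group; Bourbaki, Int. VII §2 no.
4). So the clauses of `Matches` are never vacuous. -/
def CutoffExCV1 : Prop :=
  ∀ γ : GR, T6.IsReg γ → ∀ μT : Measure (cent γ), μT.IsHaarMeasure →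
    (∃ β : GR → ℝ, IsCutoffR γ μT β) ∧ ∃ β' : GC → ℝ, IsCutoffC γ μT β'

/-! ### B.4. The eigenvalue functions -/

/-- Weight `0`, parameter `s`: `P_s(t) = (1/2π) ∫₀^{2π} (cosh t + sinh t cos u)^{s - 1/2} du`
(the Legendre function `P_{s - 1/2}(cosh t)`; even in `s`). -/
def sphP (s : ℂ) (t : ℝ) : ℂ :=
  (1 / (2 * Real.pi) : ℝ) *
    ∫ u in (0 : ℝ)..(2 * Real.pi),
      (((Real.cosh t + Real.sinh t * Real.cos u : ℝ) : ℂ)) ^ (s - 1 / 2)

/-- Weight `1`, parameter `s`:
`q_s(t) = (1/2π) ∫₀^{2π} (cosh t + sinh t cos u)^{s - 1} (cosh (t/2) + sinh (t/2) cos u) du`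
(the matrix coefficient of the vector of weight one of `π(|·|^s, sgn |·|^{-s})`; even in `s`;
`q_0(t) = 1 / cosh (t/2)`). -/
def sphQ (s : ℂ) (t : ℝ) : ℂ :=
  (1 / (2 * Real.pi) : ℝ) *
    ∫ u in (0 : ℝ)..(2 * Real.pi),
      (((Real.cosh t + Real.sinh t * Real.cos u : ℝ) : ℂ)) ^ (s - 1) *
        ((Real.cosh (t / 2) + Real.sinh (t / 2) * Real.cos u : ℝ) : ℂ)

/-- Complex place, parameter `ν`: `R_ν(d) = sinh (ν d) / (ν sinh d)`
(`= d / sinh d` for `ν = 0`, `= 1` for `d = 0`). -/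
def sphR (ν : ℂ) (d : ℝ) : ℂ :=
  if d = 0 then 1
  else if ν = 0 then ((d / Real.sinh d : ℝ) : ℂ)
  else Complex.sinh (ν * (d : ℂ)) / (ν * ((Real.sinh d : ℝ) : ℂ))

/-- `cosh` of the distance of `g · i` to `i` in `ℍ²`: `tr(g gᵀ) / (2 |det g|)`. -/
def chR (g : GR) : ℝ :=
  (∑ i : Fin 2, ∑ j : Fin 2, ((g : Matrix (Fin 2) (Fin 2) ℝ) i j) ^ 2) /
    (2 * |(g : Matrix (Fin 2) (Fin 2) ℝ).det|)

/-- `cosh` of the distance of `g · o` to `o` in `ℍ³`: `tr(g g*) / (2 |det g|)`. -/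
def chC (g : GC) : ℝ :=
  (∑ i : Fin 2, ∑ j : Fin 2, ‖(g : Matrix (Fin 2) (Fin 2) ℂ) i j‖ ^ 2) /
    (2 * ‖(g : Matrix (Fin 2) (Fin 2) ℂ).det‖)

/-- `j(g) = (a + d) + i (b - c)` for `g = [[a, b], [c, d]]`: `j (k_θ g) = j (g k_θ) = e^{iθ} j g`,
`|j g|² = tr(g gᵀ) + 2 det g` (so `j g ≠ 0` for `det g > 0`), `j (a_t) = 2 cosh (t/2)`. -/
def jR (g : GR) : ℂ :=
  (((g : Matrix (Fin 2) (Fin 2) ℝ) 0 0 + (g : Matrix (Fin 2) (Fin 2) ℝ) 1 1 : ℝ) : ℂ) +
    Complex.I *
      (((g : Matrix (Fin 2) (Fin 2) ℝ) 0 1 - (g : Matrix (Fin 2) (Fin 2) ℝ) 1 0 : ℝ) : ℂ)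

/-- The spherical function of weight `0` and parameter `s` on `GL₂(ℝ)`:
`P_s (z k a_t k') = sphP s t`. -/
def PR (s : ℂ) (g : GR) : ℂ := sphP s (Real.arcosh (chR g))

/-- The spherical function of weight `1` and parameter `s` on `GL₂(ℝ)`:
`Q_s (z k_α a_t k_β) = e^{i(α + β)} sphQ s t` (`z > 0`). -/
def QR (s : ℂ) (g : GR) : ℂ := jR g / ((‖jR g‖ : ℝ) : ℂ) * sphQ s (Real.arcosh (chR g))

/-- The spherical function of parameter `ν` on `GL₂(ℂ)`: `R_ν (z k a_d k') = sphR ν d`. -/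
def RC (ν : ℂ) (g : GC) : ℂ := sphR ν (Real.arcosh (chC g))

/-! ### B.5. P7 (a), (b): matching and the spectral relation -/

/-- **T6inf.01 = P7 (a): EXISTENCE OF THE MATCHING FUNCTION** ([L] §§7-8; Shintani 1977).
For every bi-`U(2)`-invariant test function `φ` on `GL₂(ℂ)` there are test functions `f₀`
(weight `0`) and `f₁` (weight `1`) on `GL₂(ℝ)`, supported in `det > 0`, such that `f₀ + f₁`
matches `φ`.
Proof route (memo of helper517): `φ = Φ(|det|, cosh d)`, `Ψ = ∫_y^∞ Φ`,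
`f₀ = F₀(det, cosh t)`, `f₁ = conj(j)/√det · H₁(det, cosh t)` with `F₀`, `H₁` the inverse Abel
transforms of `C Ψ(√D, √((1+v)/2))` and `C Ψ(√D, √((1+v)/2)) / √(2(1+v))`; hyperbolic elements
by the Iwasawa decomposition, elliptic elements by polar coordinates and ONE integral identity. -/
def ArchMatchC : Prop :=
  ∀ (μR : Measure GR) (μC : Measure GC), μR.IsHaarMeasure → μC.IsHaarMeasure →
    ∀ φ : GC → ℂ, IsTestC φ →
      ∃ f₀ f₁ : GR → ℂ, IsTestR 0 f₀ ∧ IsTestR 1 f₁ ∧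
        Matches μR μC φ (fun g => f₀ g + f₁ g)

/-- **T6inf.02 = P7 (b): THE SPECTRAL RELATION** of the three transforms.  There is ONE constant
`c > 0` such that for every matching triple `(φ, f₀, f₁)` and every `s ∈ ℂ`
`∫ f₀ P_s dμR = ∫ f₁ Q_s dμR = c ∫ φ R_{2s} dμC`.
(The vanishing at `-γ`, `γ` hyperbolic with positive eigenvalues, gives
`O_γ(f₀) = O_γ(f₁) = ½ TO_δ(φ)` because `f₀(-g) = f₀(g)`, `f₁(-g) = -f₁(g)`; the three
transforms are the Mellin transforms of the constant terms, i.e. of the hyperbolic orbital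
integrals; `N(z a_{u/2}) = z² a_u` doubles the parameter.  In fact `c = 1`.)
Eigenfunction form: if `e` has weight `n ∈ {0, 1}`, is invariant under the positive scalars and
`MeanEig n e (2π sph s)`, then `∫ f_n(y) e(x y) dμR(y) = (∫ f_n · (P_s resp. Q_s) dμR) · e(x)`. -/
def SpecRelC : Prop :=
  ∃ c : ℝ, 0 < c ∧
    ∀ (μR : Measure GR) (μC : Measure GC), μR.IsHaarMeasure → μC.IsHaarMeasure →
      ∀ (φ : GC → ℂ) (f₀ f₁ : GR → ℂ), IsTestC φ → IsTestR 0 f₀ → IsTestR 1 f₁ →
        Matches μR μC φ (fun g => f₀ g + f₁ g) →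
        ∀ s : ℂ,
          (∫ g : GR, f₀ g * PR s g ∂μR) = (c : ℂ) * ∫ g : GC, φ g * RC (2 * s) g ∂μC ∧
          (∫ g : GR, f₁ g * QR s g ∂μR) = (c : ℂ) * ∫ g : GC, φ g * RC (2 * s) g ∂μC

/-! ### B.6. P7 (c): classification of the eigenvalue functions -/

/-- `e` has weight `n` under `SO(2)` on the right: `e (g k_θ) = e^{i n θ} e g`. -/
def HasWeight (n : ℤ) (e : GR → ℂ) : Prop :=
  ∀ (θ : ℝ) (k g : GR), (k : Matrix (Fin 2) (Fin 2) ℝ) = rotR θ → e (g * k) = wt n θ * e g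

/-- `e` (of weight `n`) is a joint eigenfunction of the circle means of weight `n`, with
eigenvalue function `m`: `∫₀^{2π} e^{-i n θ} e (g k_θ a_t) dθ = m(t) e(g)` for all `t > 0`. -/
def MeanEig (n : ℤ) (e : GR → ℂ) (m : ℝ → ℂ) : Prop :=
  ∀ t : ℝ, 0 < t → ∀ Y : ℝ → GR,
    (∀ θ : ℝ, ((Y θ : GR) : Matrix (Fin 2) (Fin 2) ℝ) = rotR θ * torR t) →
    ∀ g : GR, (∫ θ in (0 : ℝ)..(2 * Real.pi), wt (-n) θ * e (g * Y θ)) = m t * e g

/-- **T6inf.03 = P7 (c), weight `0`.**  A continuous function on `GL₂(ℝ)`, not identically zero,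
right `SO(2)`-invariant, which is a joint eigenfunction of all circle means, has the eigenvalue
function `2π P_s` for some `s ∈ ℂ`.
(Average over `SO(2)` around a point where `e ≠ 0`: a radial joint eigenfunction; regularise by
a radial test function with non-zero eigenvalue: it is smooth, hence an eigenfunction of the
Laplacian, with eigenvalue `1/4 - s²`; the radial eigenfunction with value `1` at the origin is
unique.) -/
def ClassR0C : Prop :=
  ∀ (e : GR → ℂ) (m : ℝ → ℂ), Continuous e → (∃ g : GR, e g ≠ 0) → HasWeight 0 e →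
    MeanEig 0 e m → ∃ s : ℂ, ∀ t : ℝ, 0 < t → m t = (2 * Real.pi : ℝ) * sphP s t

/-- **T6inf.04 = P7 (c), weight `1`.**  The same for weight one: the eigenvalue function is
`2π q_s` for some `s ∈ ℂ`. -/
def ClassR1C : Prop :=
  ∀ (e : GR → ℂ) (m : ℝ → ℂ), Continuous e → (∃ g : GR, e g ≠ 0) → HasWeight 1 e →
    MeanEig 1 e m → ∃ s : ℂ, ∀ t : ℝ, 0 < t → m t = (2 * Real.pi : ℝ) * sphQ s t

/-- **T6inf.05.**  If `P_s` is real and bounded by `1` on `(0, ∞)` (eigenvalue function of a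
bounded eigenfunction of the self-adjoint circle means) then `s ∈ iℝ ∪ [-1/2, 1/2]`, and the
base-changed eigenvalue function `R_{2s}` is real and bounded by `1`.
(`P_s(t) = 1 + (s² - 1/4) t²/4 + O(t⁴)`; `P_s(t) ~ c(s) e^{(|Re s| - 1/2) t}`, `c(s) ≠ 0`.) -/
def UpUnitary0C : Prop :=
  ∀ s : ℂ, (∀ t : ℝ, 0 < t → (sphP s t).im = 0 ∧ ‖sphP s t‖ ≤ 1) →
    ∀ d : ℝ, 0 < d → (sphR (2 * s) d).im = 0 ∧ ‖sphR (2 * s) d‖ ≤ 1

/-- **T6inf.06.**  The same for weight one. -/
def UpUnitary1C : Prop :=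
  ∀ s : ℂ, (∀ t : ℝ, 0 < t → (sphQ s t).im = 0 ∧ ‖sphQ s t‖ ≤ 1) →
    ∀ d : ℝ, 0 < d → (sphR (2 * s) d).im = 0 ∧ ‖sphR (2 * s) d‖ ≤ 1

/-- **T6inf.07 in the v1 form** (function `sphR`). If the base change of the parameter `s` is the
parameter `0` upstairs (`sinh (2 s d) / (2 s sinh d) = d / sinh d` for all `d > 0`), then `s = 0`.
-/
def Sph0ParamCV1 : Prop :=
  ∀ s : ℂ, (∀ d : ℝ, 0 < d → sphR (2 * s) d = sphR 0 d) → s = 0

/-! ### B.7. D3 in the v1 form (phase `wt (-1) θ`) -/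

/-- The weight-one circle means of `e` on `GL₂(𝔸_ℚ)` have the eigenvalue function
`2π / cosh (t/2) = 2π q_0(t)` (parameter `0`, Casimir eigenvalue `1/4`):
`∫₀^{2π} e^{-iθ} e (g k_θ a_t) dθ = (2π / cosh (t/2)) e(g)`. -/
def MeanValueWtOneV1 (e : A0.G ℚ → ℂ) : Prop :=
  ∀ (w : InfinitePlace ℚ) (t : ℝ), 0 < t → ∀ Y : ℝ → A0.G ℚ,
    (∀ θ : ℝ, A0.IsLocalAtInf w (Y θ) ∧ A0.infComp w (Y θ) = QOut.rotC θ * A0.torus t) →
    ∀ g : A0.G ℚ,
      (∫ θ in (0 : ℝ)..(2 * Real.pi), wt (-1) θ * e (g * Y θ))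
        = ((2 * Real.pi / Real.cosh (t / 2) : ℝ) : ℂ) * e g

/-- **T6inf.08 = D3 in the v1 form** (the same text with `MeanValueWtOneV1`). A continuous bounded
function on `GL₂(𝔸_ℚ)`, left invariant under `GL₂(ℚ)`, right invariant under `U(𝔫)` (`𝔫 ≠ 0`) and
under the positive real scalars, of weight one under `SO(2)`, whose weight-one circle means have
the eigenvalue function of parameter `0`, is holomorphic: `z ↦ y^{-1/2} e(g_z g)` is holomorphic on
`ℍ` for every `g` trivial at the real place (the field `holo` of `QOut.IsHolWtOneFormFor`,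
VERBATIM). Proof: `e` is smooth at the real place with bounded derivatives (`e = R(ψ) e / λ` for a
smooth compactly supported `ψ` of weight one); the eigenvalue function gives the Casimir eigenvalue
`1/4`, i.e. `R L e = 0` for the lowering operator `L` and the raising operator `R`; on the quotient
of FINITE VOLUME `‖L e‖² = -⟨R L e, e⟩ = 0`; `L e = 0` is the Cauchy--Riemann equation for
`y^{-1/2} e(g_z g)`. (Cuspidality is not needed.) -/
def WtOneHolCV1 : Prop :=
  ∀ (𝔫 : Ideal (𝓞 ℚ)), 𝔫 ≠ ⊥ → ∀ e : A0.G ℚ → ℂ,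
    Continuous e → (∃ C : ℝ, ∀ g : A0.G ℚ, ‖e g‖ ≤ C) →
    (∀ (γ : GL (Fin 2) ℚ) (g : A0.G ℚ),
      e (Matrix.GeneralLinearGroup.map (algebraMap ℚ (A0.Adl ℚ)) γ * g) = e g) →
    (∀ u : A0.G ℚ, A0.InLevelGroup 𝔫 u → ∀ g : A0.G ℚ, e (g * u) = e g) →
    (∀ (w : InfinitePlace ℚ) (z : A0.G ℚ), A0.IsArchPosScalar w z →
      ∀ g : A0.G ℚ, e (g * z) = e g) →
    (∀ (w : InfinitePlace ℚ) (θ : ℝ) (k : A0.G ℚ), A0.IsLocalAtInf w k →
      A0.infComp w k = QOut.rotC θ →
      ∀ g : A0.G ℚ, e (g * k) = Complex.exp (Complex.I * ((θ : ℝ) : ℂ)) * e g) →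
    MeanValueWtOneV1 e →
    ∀ (w : InfinitePlace ℚ) (Y : ℍ → A0.G ℚ),
      (∀ z : ℍ, A0.IsLocalAtInf w (Y z) ∧ A0.infComp w (Y z) = QOut.gzC z) →
      ∀ g : A0.G ℚ, (∀ w' : InfinitePlace ℚ, A0.TrivAtInf w' g) →
        MDifferentiable 𝓘(ℂ) 𝓘(ℂ)
          (fun z : ℍ => (((Real.sqrt z.im : ℝ) : ℂ))⁻¹ * e (Y z * g))

end Fermat.Agent.LT.T6.Inf

end

end
-- ===== PACK-END LT/T6/Inf/Spec.lean

-- ===== PACK-BEGIN LT/T7/H44/Rebase.lean
section





/-!
# Row LT, tower T7 -- REBASING a complete orthonormal sequence of cusp functions (helper44)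

OFF-MAIN.  Imports Mathlib, A0, `T5/Spec.lean` (byte-identical copies) and `RebaseAbs`.
Complete proofs.

`isCuspONB_rebase44`: let `e` be a complete orthonormal sequence of cusp functions in the sense
of `T5.IsCuspONB` (zero vectors allowed), `B` a partition of `ℕ` into FINITE blocks and `A` a
matrix which is unitary on every block (orthonormal rows), with trivial blocks at the zero
vectors.  Then `e' k = ∑_{j ∈ B k} A k j • e j` is again a complete orthonormal sequence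
(`T5.IsCuspONB`), provided finite linear combinations of the `e j` are cusp functions.

USE (SpecUpC / SpecDownC of `T7/Level2.lean`): `e` = a joint eigenbasis of the tower T2 as a
sequence, blocks = the joint eigen-classes (finite multiplicity), `A` = the orthonormal basis of
the atoms lemma (`twistedTraceAtoms44` / `twistedTraceAtoms402`) in the coordinates of the block.
The diagonal coefficients in the new sequence are absolutely summable by `T5.STFsigma`, which
gives the summability of the atoms.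
-/

set_option autoImplicit false

open IsDedekindDomain NumberField MeasureTheory
open scoped ComplexConjugate

noncomputable section

namespace Fermat.Agent.LT.T7.H44

open Fermat.Agent.LT.H556.A0 Fermat.Agent.LT.T5

attribute [local instance] Fermat.Agent.LT.T5.instMeasurableSpaceG

variable {K : Type} [Field K] [NumberField K]

/-- The rebased sequence `e' k = ∑_{j ∈ B k} A k j • e j`. -/
def rebase44 (B : ℕ → Finset ℕ) (A : ℕ → ℕ → ℂ) (e : ℕ → G K → ℂ) : ℕ → G K → ℂ :=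
  fun k g => ∑ j ∈ B k, A k j * e j g

/-! ## 1. The pairing on continuous bounded functions -/

/-- Continuous bounded functions. -/
def IsNice44 (f : G K → ℂ) : Prop := Continuous f ∧ ∃ C : ℝ, ∀ g : G K, ‖f g‖ ≤ C

theorem nice_of_cusp44 {𝔫 : Ideal (𝓞 K)} {τ : G K → ℂ} {r : G K} {f : G K → ℂ}
    (h : IsCuspFn 𝔫 τ r f) : IsNice44 f := ⟨h.cont, h.bdd⟩

theorem integrableOn_mul_conj44 {μ : Measure (G K)} {F : Set (G K)} (hF : IsFrame μ F)
    {e f : G K → ℂ} (he : IsNice44 e) (hf : IsNice44 f) :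
    IntegrableOn (fun x => e x * conj (f x)) F μ := by
  have : BorelSpace (G K) := ⟨rfl⟩
  obtain ⟨C, hC⟩ := he.2
  obtain ⟨D, hD⟩ := hf.2
  have hcont : Continuous fun x => e x * conj (f x) :=
    he.1.mul (Complex.continuous_conj.comp hf.1)
  refine IntegrableOn.of_bound hF.finite hcont.aestronglyMeasurable (C * D) ?_
  refine Filter.Eventually.of_forall fun x => ?_
  rw [norm_mul, RCLike.norm_conj]
  exact mul_le_mul (hC x) (hD x) (norm_nonneg _) ((norm_nonneg _).trans (hC x))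

theorem isNice44_sum (s : Finset ℕ) (a : ℕ → ℂ) (e : ℕ → G K → ℂ)
    (he : ∀ j ∈ s, IsNice44 (e j)) : IsNice44 fun g => ∑ j ∈ s, a j * e j g := by
  classical
  induction s using Finset.induction_on with
  | empty =>
    refine ⟨by simpa using continuous_const, 0, fun g => by simp⟩
  | insert i s hi ih =>
    have h1 := he i (Finset.mem_insert_self i s)
    have h2 := ih fun j hj => he j (Finset.mem_insert_of_mem hj)
    obtain ⟨C, hC⟩ := h1.2
    obtain ⟨D, hD⟩ := h2.2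
    refine ⟨?_, ‖a i‖ * C + D, fun g => ?_⟩
    · simp only [Finset.sum_insert hi]
      exact (continuous_const.mul h1.1).add h2.1
    · simp only [Finset.sum_insert hi]
      refine (norm_add_le _ _).trans (add_le_add ?_ (hD g))
      rw [norm_mul]
      exact mul_le_mul_of_nonneg_left (hC g) (norm_nonneg _)

theorem innerD_sum_left44 {μ : Measure (G K)} {F : Set (G K)} (hF : IsFrame μ F)
    (s : Finset ℕ) (a : ℕ → ℂ) (e : ℕ → G K → ℂ) (he : ∀ j ∈ s, IsNice44 (e j))
    {f : G K → ℂ} (hf : IsNice44 f) :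
    innerD μ F (fun g => ∑ j ∈ s, a j * e j g) f = ∑ j ∈ s, a j * innerD μ F (e j) f := by
  unfold innerD
  have e1 : (fun x => (∑ j ∈ s, a j * e j x) * conj (f x))
      = fun x => ∑ j ∈ s, a j * (e j x * conj (f x)) := by
    funext x
    rw [Finset.sum_mul]
    exact Finset.sum_congr rfl fun j _ => by ring
  rw [e1, integral_finsetSum]
  · refine Finset.sum_congr rfl fun j _ => ?_
    exact integral_const_mul _ _
  · intro j hj
    exact (integrableOn_mul_conj44 hF (he j hj) hf).const_mul (a j)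

theorem innerD_sum_right44 {μ : Measure (G K)} {F : Set (G K)} (hF : IsFrame μ F)
    (s : Finset ℕ) (a : ℕ → ℂ) (e : ℕ → G K → ℂ) (he : ∀ j ∈ s, IsNice44 (e j))
    {f : G K → ℂ} (hf : IsNice44 f) :
    innerD μ F f (fun g => ∑ j ∈ s, a j * e j g)
      = ∑ j ∈ s, conj (a j) * innerD μ F f (e j) := by
  unfold innerD
  have e1 : (fun x => f x * conj (∑ j ∈ s, a j * e j x))
      = fun x => ∑ j ∈ s, conj (a j) * (f x * conj (e j x)) := by
    funext x
    rw [map_sum, Finset.mul_sum]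
    refine Finset.sum_congr rfl fun j _ => ?_
    rw [map_mul]
    ring
  rw [e1, integral_finsetSum]
  · refine Finset.sum_congr rfl fun j _ => ?_
    exact integral_const_mul _ _
  · intro j hj
    exact (integrableOn_mul_conj44 hF hf (he j hj)).const_mul (conj (a j))

/-! ## 2. The rebased sequence -/

/-- The hypotheses on the blocks and the matrix. -/
structure IsRebase44 (μ : Measure (G K)) (F : Set (G K)) (e : ℕ → G K → ℂ)
    (B : ℕ → Finset ℕ) (A : ℕ → ℕ → ℂ) : Prop where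
  blocks : IsBlocks44 B
  /-- the rows of `A` are orthonormal on every block -/
  row : ∀ k, ∀ k' ∈ B k, ∑ j ∈ B k, A k j * conj (A k' j) = if k = k' then 1 else 0
  /-- the blocks at the zero vectors are trivial -/
  zero : ∀ k, innerD μ F (e k) (e k) ≠ 1 → B k = {k} ∧ A k k = 1

variable {𝔫 : Ideal (𝓞 K)} {τ : G K → ℂ} {r : G K} {μ : Measure (G K)} {F : Set (G K)}
  {e : ℕ → G K → ℂ} {B : ℕ → Finset ℕ} {A : ℕ → ℕ → ℂ}

/-- In a block with a member of norm one every member has norm one. -/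
theorem IsRebase44.norm_one (h : IsRebase44 μ F e B A) {k : ℕ}
    (hk : innerD μ F (e k) (e k) = 1) {j : ℕ} (hj : j ∈ B k) : innerD μ F (e j) (e j) = 1 := by
  by_contra hne
  have h1 := (h.zero j hne).1
  have h2 : k ∈ B j := h.blocks.mem_symm hj
  rw [h1, Finset.mem_singleton] at h2
  rw [h2] at hk
  exact hne hk

/-- In a block with two members every member has norm one. -/
theorem IsRebase44.norm_one_of_ne (h : IsRebase44 μ F e B A) {k k' : ℕ} (hk' : k' ∈ B k)
    (hne : k ≠ k') {j : ℕ} (hj : j ∈ B k) : innerD μ F (e j) (e j) = 1 := by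
  by_contra hj1
  have h1 := (h.zero j hj1).1
  have h2 : k ∈ B j := h.blocks.mem_symm hj
  have h3 : k' ∈ B j := by
    rw [h.blocks.eq k j hj]
    exact hk'
  rw [h1, Finset.mem_singleton] at h2 h3
  exact hne (h2.trans h3.symm)

theorem innerD_rebase44 (hF : IsFrame μ F) (he : IsCuspONB 𝔫 τ r μ F e) (k k' : ℕ) :
    innerD μ F (rebase44 B A e k) (rebase44 B A e k')
      = ∑ j ∈ B k, ∑ j' ∈ B k', A k j * conj (A k' j') * innerD μ F (e j) (e j') := by
  have hn : ∀ j, IsNice44 (e j) := fun j => nice_of_cusp44 (he.cusp j)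
  unfold rebase44
  rw [innerD_sum_left44 hF (B k) (A k) e (fun j _ => hn j)
    (isNice44_sum (B k') (A k') e fun j _ => hn j)]
  refine Finset.sum_congr rfl fun j _ => ?_
  rw [innerD_sum_right44 hF (B k') (A k') e (fun j _ => hn j) (hn j), Finset.mul_sum]
  refine Finset.sum_congr rfl fun j' _ => ?_
  ring

/-- The pairing of two rebased members of the SAME block, all of whose members have norm
one. -/
theorem innerD_rebase_same44 (hF : IsFrame μ F) (he : IsCuspONB 𝔫 τ r μ F e)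
    (h : IsRebase44 μ F e B A) {k k' : ℕ} (hk' : k' ∈ B k)
    (h1 : ∀ j ∈ B k, innerD μ F (e j) (e j) = 1) :
    innerD μ F (rebase44 B A e k) (rebase44 B A e k') = if k = k' then 1 else 0 := by
  classical
  rw [innerD_rebase44 hF he, h.blocks.eq k k' hk', ← h.row k k' hk']
  refine Finset.sum_congr rfl fun j hj => ?_
  have : ∀ j' ∈ B k, A k j * conj (A k' j') * innerD μ F (e j) (e j')
      = if j = j' then A k j * conj (A k' j) else 0 := by
    intro j' _
    by_cases hjj : j = j'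
    · subst hjj
      rw [if_pos rfl, h1 j hj, mul_one]
    · rw [if_neg hjj, he.orth j j' hjj, mul_zero]
  rw [Finset.sum_congr rfl this, Finset.sum_ite_eq (B k) j]
  simp only [hj, if_true]

/-- **REBASING**: the rebased sequence is a complete orthonormal sequence of cusp functions. -/
theorem isCuspONB_rebase44 (hF : IsFrame μ F) (he : IsCuspONB 𝔫 τ r μ F e)
    (h : IsRebase44 μ F e B A)
    (hlin : ∀ (s : Finset ℕ) (a : ℕ → ℂ), IsCuspFn 𝔫 τ r (fun g => ∑ j ∈ s, a j * e j g)) :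
    IsCuspONB 𝔫 τ r μ F (rebase44 B A e) where
  cusp := fun k => hlin (B k) (A k)
  orth := by
    classical
    intro k k' hkk
    by_cases hb : B k = B k'
    · have hk' : k' ∈ B k := hb ▸ h.blocks.self k'
      rw [innerD_rebase_same44 hF he h hk' fun j hj => h.norm_one_of_ne hk' hkk hj, if_neg hkk]
    · rw [innerD_rebase44 hF he]
      refine Finset.sum_eq_zero fun j hj => Finset.sum_eq_zero fun j' hj' => ?_
      have hjj : j ≠ j' := by
        rintro rfl
        exact (Finset.disjoint_left.1 (h.blocks.disjoint hb)) hj hj'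
      rw [he.orth j j' hjj, mul_zero]
  norm := by
    classical
    intro k
    by_cases hk : innerD μ F (e k) (e k) = 1
    · left
      rw [innerD_rebase_same44 hF he h (h.blocks.self k) fun j hj => h.norm_one hk hj,
        if_pos rfl]
    · right
      obtain ⟨hB, hA⟩ := h.zero k hk
      have hz : ∀ g, e k g = 0 := (he.norm k).resolve_left hk
      intro g
      simp only [rebase44, hB, Finset.sum_singleton, hz g, mul_zero]
  complete := by
    classical
    intro f hf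
    have hn : ∀ j, IsNice44 (e j) := fun j => nice_of_cusp44 (he.cusp j)
    have hpair : ∀ k, innerD μ F f (rebase44 B A e k)
        = ∑ j ∈ B k, conj (A k j) * innerD μ F f (e j) := fun k =>
      innerD_sum_right44 hF (B k) (A k) e (fun j _ => hn j) (nice_of_cusp44 hf)
    refine hasSum_of_block_sums44 h.blocks (fun k => by positivity) (fun k => by positivity)
      ?_ (he.complete f hf)
    intro k
    have hrow : ∀ i ∈ B k, ∀ i' ∈ B k,
        ∑ j ∈ B k, A i j * conj (A i' j) = if i = i' then 1 else 0 := by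
      intro i hi i' hi'
      have hi'' : i' ∈ B i := by
        rw [h.blocks.eq k i hi]
        exact hi'
      have := h.row i i' hi''
      rwa [h.blocks.eq k i hi] at this
    rw [← sum_normSq_unitary44 (B k) A hrow fun j => innerD μ F f (e j)]
    refine Finset.sum_congr rfl fun i hi => ?_
    rw [hpair i, h.blocks.eq k i hi]

/-! ## 3. Gluing the blocks, and the diagonal coefficients in the rebased sequence -/

/-- The hypotheses of the rebasing from one matrix for every block. -/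
theorem isRebase44_of_blocks (hB : IsBlocks44 B) (Aof : Finset ℕ → ℕ → ℕ → ℂ)
    (hrow : ∀ k, ∀ i ∈ B k, ∀ i' ∈ B k,
      ∑ j ∈ B k, Aof (B k) i j * conj (Aof (B k) i' j) = if i = i' then 1 else 0)
    (hzero : ∀ k, innerD μ F (e k) (e k) ≠ 1 → B k = {k} ∧ Aof (B k) k k = 1) :
    IsRebase44 μ F e B (fun k j => Aof (B k) k j) where
  blocks := hB
  row := by
    intro k k' hk'
    have := hrow k k (hB.self k) k' hk'
    simp only [hB.eq k k' hk']
    exact this
  zero := hzero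

/-- The extension by zero of a matrix indexed by a finite block. -/
def extMat44 (b : Finset ℕ) (A : b → b → ℂ) : ℕ → ℕ → ℂ :=
  fun k j => if h : k ∈ b ∧ j ∈ b then A ⟨k, h.1⟩ ⟨j, h.2⟩ else 0

theorem extMat44_apply (b : Finset ℕ) (A : b → b → ℂ) (k j : b) :
    extMat44 b A k j = A k j := by
  simp [extMat44, k.2, j.2]

theorem extMat44_row (b : Finset ℕ) (A : b → b → ℂ)
    (hA : ∀ k k' : b, ∑ j, A k j * conj (A k' j) = if k = k' then 1 else 0) :
    ∀ i ∈ b, ∀ i' ∈ b,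
      ∑ j ∈ b, extMat44 b A i j * conj (extMat44 b A i' j) = if i = i' then 1 else 0 := by
  intro i hi i' hi'
  rw [← Finset.sum_coe_sort]
  have := hA ⟨i, hi⟩ ⟨i', hi'⟩
  simp only [Subtype.mk.injEq] at this
  rw [← this]
  refine Finset.sum_congr rfl fun j _ => ?_
  rw [extMat44_apply b A ⟨i, hi⟩ j, extMat44_apply b A ⟨i', hi'⟩ j]

/-- `R(φ)` of a finite linear combination. -/
theorem rconv_sum44 (φ : G K → ℂ) (s : Finset ℕ) (a : ℕ → ℂ) (ψ : ℕ → G K → ℂ) (x : G K)
    (hint : ∀ j ∈ s, Integrable (fun y => φ y * ψ j (x * y)) μ) :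
    Rconv μ φ (fun g => ∑ j ∈ s, a j * ψ j g) x = ∑ j ∈ s, a j * Rconv μ φ (ψ j) x := by
  unfold Rconv
  have e1 : (fun y => φ y * ∑ j ∈ s, a j * ψ j (x * y))
      = fun y => ∑ j ∈ s, a j * (φ y * ψ j (x * y)) := by
    funext y
    rw [Finset.mul_sum]
    exact Finset.sum_congr rfl fun j _ => by ring
  rw [e1, integral_finsetSum]
  · exact Finset.sum_congr rfl fun j _ => integral_const_mul _ _
  · intro j hj
    exact (hint j hj).const_mul (a j)

/-- **The diagonal coefficients in the rebased sequence**: if `M j' j = ⟨R(φ) R(σ) e j, e j'⟩`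
then `⟨R(φ) R(σ) e' k, e' k⟩ = ∑_{j, j' ∈ B k} A k j conj (A k j') M j' j`. -/
theorem diagCoeff_rebase44 (hF : IsFrame μ F) (he : IsCuspONB 𝔫 τ r μ F e)
    (s : AdelicAut K) (φ : G K → ℂ) (k : ℕ)
    (hint : ∀ j ∈ B k, ∀ x, Integrable (fun y => φ y * Rsig s (e j) (x * y)) μ)
    (hR : ∀ j ∈ B k, IsNice44 (Rconv μ φ (Rsig s (e j)))) :
    diagCoeff s μ F φ (rebase44 B A e k)
      = ∑ j ∈ B k, ∑ j' ∈ B k,
          A k j * conj (A k j') * innerD μ F (Rconv μ φ (Rsig s (e j))) (e j') := by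
  have hn : ∀ j, IsNice44 (e j) := fun j => nice_of_cusp44 (he.cusp j)
  unfold diagCoeff
  have e1 : Rsig s (rebase44 B A e k) = fun g => ∑ j ∈ B k, A k j * Rsig s (e j) g := rfl
  have e2 : Rconv μ φ (Rsig s (rebase44 B A e k))
      = fun x => ∑ j ∈ B k, A k j * Rconv μ φ (Rsig s (e j)) x := by
    funext x
    rw [e1]
    exact rconv_sum44 φ (B k) (A k) (fun j => Rsig s (e j)) x fun j hj => hint j hj x
  rw [e2]
  have e3 : rebase44 B A e k = fun g => ∑ j ∈ B k, A k j * e j g := rfl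
  rw [e3]
  rw [innerD_sum_left44 hF (B k) (A k) (fun j => Rconv μ φ (Rsig s (e j))) hR
    (isNice44_sum (B k) (A k) e fun j _ => hn j)]
  refine Finset.sum_congr rfl fun j hj => ?_
  show A k j * innerD μ F (Rconv μ φ (Rsig s (e j))) (fun g => ∑ j' ∈ B k, A k j' * e j' g) = _
  rw [innerD_sum_right44 hF (B k) (A k) e (fun j _ => hn j) (hR j hj), Finset.mul_sum]
  refine Finset.sum_congr rfl fun j' _ => ?_
  ring

end Fermat.Agent.LT.T7.H44

end
end
-- ===== PACK-END LT/T7/H44/Rebase.lean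

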