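import Mathlib
import Fermat.Agent.Pack.LT3.E5L1
import Fermat.Agent.Pack.LT3.E0L1
import Fermat.Agent.Pack.LT3.E5L2
import Fermat.Agent.Pack.LT3.E2L0
import Fermat.Agent.Pack.LT3.E3L1
import Fermat.Agent.Pack.LT3.E2L3
import Fermat.Agent.Pack.LT3.E6L2
import Fermat.Agent.Pack.LT3.E5L0
import Fermat.Agent.Pack.LT3.E6L0
import Fermat.Agent.Pack.LT3.E6L1
import Fermat.Agent.Pack.LT3.E5L3
import Fermat.Agent.Pack.LT3.E4L1
import Fermat.Agent.Pack.LT2.E3L1
import Fermat.Agent.Pack.LT2.E0L1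
import Fermat.Agent.Pack.LT3.E6L3
import Fermat.Agent.Pack.LT3.E3L2
import Fermat.Agent.Pack.LT3.E8L0

set_option linter.all false

-- ===== PACK-BEGIN LT/T6/H367/EllCartan.lean
section



/-!
# Row LT, tower T6, leaf T6.14c `EllCountC` (helper367): the Cartan invariant of the conjugates

OFF-MAIN.  No gaps, nothing assumed.
-/

set_option autoImplicit false

open scoped Matrix

noncomputable section

namespace Fermat.Agent.LT.T6.H367

open Fermat.Agent.LT.T6 Fermat.Agent.LT.T6.H847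

variable {K : Type} [Field K] [Valued K Γ₀]

theorem exp_le_exp_nat367 (n : ℕ) : (1 : Γ₀) ≤ WithZero.exp ((n : ℤ)) := by
  rw [← WithZero.exp_zero]
  exact WithZero.exp_le_exp.mpr (by omega)

theorem le_mul_exp_nat367 (x : Γ₀) (n : ℕ) : x ≤ x * WithZero.exp ((n : ℤ)) := by
  calc x = x * 1 := (mul_one x).symm
    _ ≤ x * WithZero.exp ((n : ℤ)) := mul_le_mul' le_rfl (exp_le_exp_nat367 n)

/-- The Cartan invariant of a matrix `g_n⁻¹ (a + b Π) g_n`. -/
theorem cartan_conjMat367 {s : K ≃+* K} {τ ν : K} (C : Ctx367 s τ ν) (g : GL (Fin 2) K)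
    (n : ℕ) (a b : K) (hg : (g : Matrix (Fin 2) (Fin 2) K) = conjMat367 τ ν n a b) (j m : ℤ)
    (hdet : Valued.v (g : Matrix (Fin 2) (Fin 2) K).det = WithZero.exp (-j))
    (ha : Valued.v a ≤ WithZero.exp (-m))
    (hb : Valued.v b * WithZero.exp ((n : ℤ)) ≤ WithZero.exp (-m))
    (hex : Valued.v a = WithZero.exp (-m) ∨
      Valued.v b * WithZero.exp ((n : ℤ)) = WithZero.exp (-m)) :
    cartan g = (j - m, m) := by
  have hb0 : Valued.v b ≤ WithZero.exp (-m) := le_trans (le_mul_exp_nat367 _ n) hb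
  have h10 : Valued.v (b / ν ^ n) = Valued.v b * WithZero.exp ((n : ℤ)) := by
    rw [map_div₀, C.val_ν_pow, div_eq_mul_inv, ← WithZero.exp_neg, neg_neg]
  refine cartan_eq367 g j m hdet ?_ ?_
  · intro i i'
    rw [hg]
    unfold conjMat367
    fin_cases i <;> fin_cases i'
    · simpa using ha
    · simp only [Fin.zero_eta, Fin.isValue, Fin.mk_one, Matrix.of_apply, Matrix.cons_val',
        Matrix.cons_val_one, Matrix.cons_val_fin_one, Matrix.cons_val_zero, Valuation.map_neg]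
      rw [Valuation.map_mul]
      calc Valued.v (ν ^ (n + 1)) * Valued.v b ≤ 1 * Valued.v b := by
            refine mul_le_mul' ?_ le_rfl
            rw [C.val_ν_pow]
            exact exp_neg_le_one367 _
        _ = Valued.v b := one_mul _
        _ ≤ _ := hb0
    · simp only [Fin.mk_one, Fin.isValue, Fin.zero_eta, Matrix.of_apply, Matrix.cons_val',
        Matrix.cons_val_zero, Matrix.cons_val_fin_one, Matrix.cons_val_one]
      rw [h10]
      exact hb
    · simp only [Fin.mk_one, Fin.isValue, Matrix.of_apply, Matrix.cons_val', Matrix.cons_val_one,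
        Matrix.cons_val_fin_one]
      refine Valuation.map_add_le _ ha ?_
      rw [Valuation.map_mul]
      calc Valued.v τ * Valued.v b ≤ 1 * Valued.v b := mul_le_mul' C.val_τ.le le_rfl
        _ = Valued.v b := one_mul _
        _ ≤ _ := hb0
  · rcases hex with h | h
    · refine ⟨0, 0, ?_⟩
      rw [hg]
      unfold conjMat367
      simpa using h
    · refine ⟨1, 0, ?_⟩
      rw [hg]
      unfold conjMat367
      simp only [Fin.isValue, Matrix.of_apply, Matrix.cons_val', Matrix.cons_val_zero,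
        Matrix.cons_val_fin_one, Matrix.cons_val_one]
      rw [h10]
      exact h

theorem val_eq_exp_ord367 {x : K} (hx : x ≠ 0) :
    Valued.v x = WithZero.exp (-(ord847 x)) := by
  unfold ord847
  rw [neg_neg, WithZero.exp_log]
  exact (Valuation.ne_zero_iff _).2 hx

theorem ord_eq_of_val367 {x : K} {a : ℤ} (h : Valued.v x = WithZero.exp (-a)) :
    ord847 x = a := by
  unfold ord847
  rw [h, WithZero.log_exp, neg_neg]

namespace Ctx367

variable {s : K ≃+* K} {τ ν : K} (C : Ctx367 s τ ν)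
include C

theorem val_div_nrm (x ξ : K) (hξ : Valued.v ξ ≤ 1) :
    Valued.v (x / nrm367 τ ν ξ) = Valued.v x := by
  rw [map_div₀, C.val_nrm ξ hξ, div_one]

/-! ### The odd case `v d₀ < v d₁` -/

theorem val_bNum_odd (d₀ d₁ ξ : K) (hξ : Valued.v ξ ≤ 1) (hO : Valued.v d₀ < Valued.v d₁) :
    Valued.v (bNum367 τ ν d₀ d₁ ξ (s ξ)) = Valued.v d₁ := by
  have hξ' : Valued.v (s ξ) ≤ 1 := by rw [C.val_s]; exact hξ
  have hd₁ : Valued.v d₁ ≠ 0 := ne_of_gt (lt_of_le_of_lt bot_le hO)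
  have hA := C.val_unit ξ (s ξ) hξ hξ'
  have hD := C.val_sub_le ξ hξ
  have e : bNum367 τ ν d₀ d₁ ξ (s ξ)
      = d₁ * (1 + τ * ξ + ν * ξ * s ξ) + (d₀ * (s ξ - ξ) + τ * d₁ * (s ξ - ξ)) := by
    unfold bNum367; ring
  have h1 : Valued.v (d₁ * (1 + τ * ξ + ν * ξ * s ξ)) = Valued.v d₁ := by
    rw [Valuation.map_mul, hA, mul_one]
  have h2 : Valued.v (d₀ * (s ξ - ξ) + τ * d₁ * (s ξ - ξ)) < Valued.v d₁ := by
    refine lt_of_le_of_lt (Valuation.map_add _ _ _) (max_lt ?_ ?_)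
    · rw [Valuation.map_mul]
      calc Valued.v d₀ * Valued.v (s ξ - ξ) ≤ Valued.v d₀ * 1 := mul_le_mul' le_rfl hD
        _ = Valued.v d₀ := mul_one _
        _ < _ := hO
    · rw [Valuation.map_mul, Valuation.map_mul]
      calc Valued.v τ * Valued.v d₁ * Valued.v (s ξ - ξ)
          ≤ WithZero.exp (-1 : ℤ) * Valued.v d₁ * 1 :=
            mul_le_mul' (mul_le_mul' C.val_τ_le le_rfl) hD
        _ = WithZero.exp (-1 : ℤ) * Valued.v d₁ := mul_one _
        _ < Valued.v d₁ := (lt_iff_le_exp_mul367 hd₁).2 le_rfl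
  rw [e, Valuation.map_add_eq_of_lt_left _ (by rw [h1]; exact h2), h1]

theorem val_aNum_odd (d₀ d₁ ξ : K) (hξ : Valued.v ξ ≤ 1) (hO : Valued.v d₀ < Valued.v d₁) :
    Valued.v (aNum367 τ ν d₀ d₁ ξ (s ξ)) ≤ WithZero.exp (-1 : ℤ) * Valued.v d₁ := by
  have hξ' : Valued.v (s ξ) ≤ 1 := by rw [C.val_s]; exact hξ
  have hd₁ : Valued.v d₁ ≠ 0 := ne_of_gt (lt_of_le_of_lt bot_le hO)
  have hA := C.val_unit ξ (s ξ) hξ hξ'
  have hD := C.val_sub_le ξ hξ
  unfold aNum367
  refine Valuation.map_sub_le _ ?_ ?_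
  · rw [Valuation.map_mul, hA, mul_one]
    exact (lt_iff_le_exp_mul367 hd₁).1 hO
  · rw [Valuation.map_mul, Valuation.map_mul, C.val_ν]
    calc WithZero.exp (-1 : ℤ) * Valued.v d₁ * Valued.v (s ξ - ξ)
        ≤ WithZero.exp (-1 : ℤ) * Valued.v d₁ * 1 := mul_le_mul' le_rfl hD
      _ = _ := mul_one _

theorem val_det_odd (d₀ d₁ : K) (hO : Valued.v d₀ < Valued.v d₁) :
    Valued.v ((embMat τ ν d₀ d₁).det) = WithZero.exp (-(2 * ord847 d₁ + 1)) := by
  have hd₁0 : d₁ ≠ 0 := by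
    intro h
    rw [h, Valuation.map_zero] at hO
    exact not_lt_bot hO
  have hv := val_eq_exp_ord367 hd₁0
  have hd₁ : Valued.v d₁ ≠ 0 := (Valuation.ne_zero_iff _).2 hd₁0
  have hd₀ : Valued.v d₀ ≤ WithZero.exp (-(ord847 d₁ + 1)) := by
    have := (lt_iff_le_exp_mul367 hd₁).1 hO
    rw [hv, ← WithZero.exp_add] at this
    have e : (-1 : ℤ) + -ord847 d₁ = -(ord847 d₁ + 1) := by ring
    rw [e] at this
    exact this
  rw [embMat_det367]
  have e : d₀ ^ 2 + τ * d₀ * d₁ + ν * d₁ ^ 2 = ν * d₁ ^ 2 + (d₀ ^ 2 + τ * d₀ * d₁) := by ring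
  have h1 : Valued.v (ν * d₁ ^ 2) = WithZero.exp (-(2 * ord847 d₁ + 1)) := by
    rw [Valuation.map_mul, Valuation.map_pow, C.val_ν, hv, pow_two, ← WithZero.exp_add,
      ← WithZero.exp_add]
    congr 1
    ring
  have h2 : Valued.v (d₀ ^ 2 + τ * d₀ * d₁) ≤ WithZero.exp (-(2 * ord847 d₁ + 2)) := by
    refine Valuation.map_add_le _ ?_ ?_
    · rw [Valuation.map_pow, pow_two]
      calc Valued.v d₀ * Valued.v d₀
          ≤ WithZero.exp (-(ord847 d₁ + 1)) * WithZero.exp (-(ord847 d₁ + 1)) :=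
            mul_le_mul' hd₀ hd₀
        _ = _ := by rw [← WithZero.exp_add]; congr 1; ring
    · rw [Valuation.map_mul, Valuation.map_mul]
      calc Valued.v τ * Valued.v d₀ * Valued.v d₁
          ≤ WithZero.exp (-1 : ℤ) * WithZero.exp (-(ord847 d₁ + 1)) * WithZero.exp (-(ord847 d₁))
            := mul_le_mul' (mul_le_mul' C.val_τ_le hd₀) hv.le
        _ = _ := by rw [← WithZero.exp_add, ← WithZero.exp_add]; congr 1; ring
  have h3 : Valued.v (d₀ ^ 2 + τ * d₀ * d₁) < Valued.v (ν * d₁ ^ 2) := by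
    rw [h1]
    refine lt_of_le_of_lt h2 (WithZero.exp_lt_exp.mpr ?_)
    omega
  rw [e, Valuation.map_add_eq_of_lt_left _ h3, h1]

/-- **The Cartan invariant, odd case**: `(h + n + 1, h - n)`, `h = ord d₁`. -/
theorem cartan_odd (d₀ d₁ : K) (δ₀ : GL (Fin 2) K)
    (hδ : (δ₀ : Matrix (Fin 2) (Fin 2) K) = embMat τ ν d₀ d₁) (hO : Valued.v d₀ < Valued.v d₁)
    (n : ℕ) (ξ : K) (hξ : Valued.v ξ ≤ 1) :
    cartan (conjGL367 s τ ν δ₀ n ξ) = (ord847 d₁ + n + 1, ord847 d₁ - n) := by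
  have hd₁0 : d₁ ≠ 0 := by
    intro h
    rw [h, Valuation.map_zero] at hO
    exact not_lt_bot hO
  have hv := val_eq_exp_ord367 hd₁0
  have hb : Valued.v (bNum367 τ ν d₀ d₁ ξ (s ξ) / nrm367 τ ν ξ) * WithZero.exp ((n : ℤ))
      = WithZero.exp (-(ord847 d₁ - n)) := by
    rw [C.val_div_nrm _ ξ hξ, C.val_bNum_odd d₀ d₁ ξ hξ hO, hv, ← WithZero.exp_add]
    congr 1
    ring
  have ha : Valued.v (aNum367 τ ν d₀ d₁ ξ (s ξ) / nrm367 τ ν ξ)
      ≤ WithZero.exp (-(ord847 d₁ - n)) := by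
    rw [C.val_div_nrm _ ξ hξ]
    refine le_trans (C.val_aNum_odd d₀ d₁ ξ hξ hO) ?_
    rw [hv, ← WithZero.exp_add]
    exact WithZero.exp_le_exp.mpr (by omega)
  have hdet : Valued.v ((conjGL367 s τ ν δ₀ n ξ : GL (Fin 2) K)
      : Matrix (Fin 2) (Fin 2) K).det = WithZero.exp (-(2 * ord847 d₁ + 1)) := by
    rw [C.val_det_conjGL, hδ, C.val_det_odd d₀ d₁ hO]
  have := cartan_conjMat367 C (conjGL367 s τ ν δ₀ n ξ) n _ _
    (C.conjGL_val d₀ d₁ δ₀ hδ n ξ hξ) (2 * ord847 d₁ + 1) (ord847 d₁ - n) hdet ha hb.le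
    (Or.inr hb)
  rw [this]
  ext
  · simp; ring
  · simp

/-! ### The even case `v d₁ ≤ v d₀`, `d₀ ≠ 0` -/

theorem val_aNum_even (d₀ d₁ ξ : K) (hξ : Valued.v ξ ≤ 1) (hE : Valued.v d₁ ≤ Valued.v d₀)
    (hd₀ : d₀ ≠ 0) : Valued.v (aNum367 τ ν d₀ d₁ ξ (s ξ)) = Valued.v d₀ := by
  have hξ' : Valued.v (s ξ) ≤ 1 := by rw [C.val_s]; exact hξ
  have hv₀ : Valued.v d₀ ≠ 0 := (Valuation.ne_zero_iff _).2 hd₀
  have hA := C.val_unit ξ (s ξ) hξ hξ'
  have hD := C.val_sub_le ξ hξ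
  have e : aNum367 τ ν d₀ d₁ ξ (s ξ)
      = d₀ * (1 + τ * ξ + ν * ξ * s ξ) + -(ν * d₁ * (s ξ - ξ)) := by
    unfold aNum367; ring
  have h1 : Valued.v (d₀ * (1 + τ * ξ + ν * ξ * s ξ)) = Valued.v d₀ := by
    rw [Valuation.map_mul, hA, mul_one]
  have h2 : Valued.v (-(ν * d₁ * (s ξ - ξ))) < Valued.v d₀ := by
    rw [Valuation.map_neg, Valuation.map_mul, Valuation.map_mul, C.val_ν]
    calc WithZero.exp (-1 : ℤ) * Valued.v d₁ * Valued.v (s ξ - ξ)
        ≤ WithZero.exp (-1 : ℤ) * Valued.v d₀ * 1 := mul_le_mul' (mul_le_mul' le_rfl hE) hD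
      _ = WithZero.exp (-1 : ℤ) * Valued.v d₀ := mul_one _
      _ < Valued.v d₀ := (lt_iff_le_exp_mul367 hv₀).2 le_rfl
  rw [e, Valuation.map_add_eq_of_lt_left _ (by rw [h1]; exact h2), h1]

theorem val_bNum_even (d₀ d₁ ξ : K) (hξ : Valued.v ξ ≤ 1) (hE : Valued.v d₁ ≤ Valued.v d₀) :
    Valued.v (bNum367 τ ν d₀ d₁ ξ (s ξ)) ≤ Valued.v d₀ := by
  have hξ' : Valued.v (s ξ) ≤ 1 := by rw [C.val_s]; exact hξ
  have hA := C.val_unit ξ (s ξ) hξ hξ'
  have hD := C.val_sub_le ξ hξ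
  unfold bNum367
  refine Valuation.map_add_le _ (Valuation.map_add_le _ ?_ ?_) ?_
  · rw [Valuation.map_mul]
    calc Valued.v d₀ * Valued.v (s ξ - ξ) ≤ Valued.v d₀ * 1 := mul_le_mul' le_rfl hD
      _ = _ := mul_one _
  · rw [Valuation.map_mul, hA, mul_one]
    exact hE
  · rw [Valuation.map_mul, Valuation.map_mul]
    calc Valued.v τ * Valued.v d₁ * Valued.v (s ξ - ξ)
        ≤ 1 * Valued.v d₀ * 1 := mul_le_mul' (mul_le_mul' C.val_τ.le hE) hD
      _ = _ := by rw [one_mul, mul_one]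

theorem val_det_even (d₀ d₁ : K) (hE : Valued.v d₁ ≤ Valued.v d₀) (hd₀ : d₀ ≠ 0) :
    Valued.v ((embMat τ ν d₀ d₁).det) = WithZero.exp (-(2 * ord847 d₀)) := by
  have hv := val_eq_exp_ord367 hd₀
  rw [hv] at hE
  rw [embMat_det367]
  have e : d₀ ^ 2 + τ * d₀ * d₁ + ν * d₁ ^ 2 = d₀ ^ 2 + (τ * d₀ * d₁ + ν * d₁ ^ 2) := by ring
  have h1 : Valued.v (d₀ ^ 2) = WithZero.exp (-(2 * ord847 d₀)) := by
    rw [Valuation.map_pow, hv, pow_two, ← WithZero.exp_add]
    congr 1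
    ring
  have h2 : Valued.v (τ * d₀ * d₁ + ν * d₁ ^ 2) ≤ WithZero.exp (-(2 * ord847 d₀ + 1)) := by
    refine Valuation.map_add_le _ ?_ ?_
    · rw [Valuation.map_mul, Valuation.map_mul]
      calc Valued.v τ * Valued.v d₀ * Valued.v d₁
          ≤ WithZero.exp (-1 : ℤ) * WithZero.exp (-(ord847 d₀)) * WithZero.exp (-(ord847 d₀))
            := mul_le_mul' (mul_le_mul' C.val_τ_le hv.le) hE
        _ = _ := by rw [← WithZero.exp_add, ← WithZero.exp_add]; congr 1; ring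
    · rw [Valuation.map_mul, Valuation.map_pow, C.val_ν, pow_two]
      calc WithZero.exp (-1 : ℤ) * (Valued.v d₁ * Valued.v d₁)
          ≤ WithZero.exp (-1 : ℤ) * (WithZero.exp (-(ord847 d₀)) * WithZero.exp (-(ord847 d₀)))
            := mul_le_mul' le_rfl (mul_le_mul' hE hE)
        _ = _ := by rw [← WithZero.exp_add, ← WithZero.exp_add]; congr 1; ring
  have h3 : Valued.v (τ * d₀ * d₁ + ν * d₁ ^ 2) < Valued.v (d₀ ^ 2) := by
    rw [h1]
    refine lt_of_le_of_lt h2 (WithZero.exp_lt_exp.mpr ?_)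
    omega
  rw [e, Valuation.map_add_eq_of_lt_left _ h3, h1]

/-- **The Cartan invariant, even case, good node**: `(J, J)`, `J = ord d₀`. -/
theorem cartan_even_good (d₀ d₁ : K) (δ₀ : GL (Fin 2) K)
    (hδ : (δ₀ : Matrix (Fin 2) (Fin 2) K) = embMat τ ν d₀ d₁) (hE : Valued.v d₁ ≤ Valued.v d₀)
    (hd₀ : d₀ ≠ 0) (n : ℕ) (ξ : K) (hξ : Valued.v ξ ≤ 1)
    (hgood : Valued.v (bNum367 τ ν d₀ d₁ ξ (s ξ)) * WithZero.exp ((n : ℤ)) ≤ Valued.v d₀) :
    cartan (conjGL367 s τ ν δ₀ n ξ) = (ord847 d₀, ord847 d₀) := by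
  have hv := val_eq_exp_ord367 hd₀
  have ha : Valued.v (aNum367 τ ν d₀ d₁ ξ (s ξ) / nrm367 τ ν ξ)
      = WithZero.exp (-(ord847 d₀)) := by
    rw [C.val_div_nrm _ ξ hξ, C.val_aNum_even d₀ d₁ ξ hξ hE hd₀, hv]
  have hb : Valued.v (bNum367 τ ν d₀ d₁ ξ (s ξ) / nrm367 τ ν ξ) * WithZero.exp ((n : ℤ))
      ≤ WithZero.exp (-(ord847 d₀)) := by
    rw [C.val_div_nrm _ ξ hξ, ← hv]
    exact hgood
  have hdet : Valued.v ((conjGL367 s τ ν δ₀ n ξ : GL (Fin 2) K)
      : Matrix (Fin 2) (Fin 2) K).det = WithZero.exp (-(2 * ord847 d₀)) := by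
    rw [C.val_det_conjGL, hδ, C.val_det_even d₀ d₁ hE hd₀]
  have := cartan_conjMat367 C (conjGL367 s τ ν δ₀ n ξ) n _ _
    (C.conjGL_val d₀ d₁ δ₀ hδ n ξ hξ) (2 * ord847 d₀) (ord847 d₀) hdet ha.le hb (Or.inl ha)
  rw [this]
  ext
  · simp; ring
  · simp

/-- **The Cartan invariant, even case, bad node**: `(2J - m, m)`, `m = ord F(ξ) - n`. -/
theorem cartan_even_bad (d₀ d₁ : K) (δ₀ : GL (Fin 2) K)
    (hδ : (δ₀ : Matrix (Fin 2) (Fin 2) K) = embMat τ ν d₀ d₁) (hE : Valued.v d₁ ≤ Valued.v d₀)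
    (hd₀ : d₀ ≠ 0) (n : ℕ) (ξ : K) (hξ : Valued.v ξ ≤ 1)
    (hbad : Valued.v d₀ < Valued.v (bNum367 τ ν d₀ d₁ ξ (s ξ)) * WithZero.exp ((n : ℤ))) :
    cartan (conjGL367 s τ ν δ₀ n ξ)
      = (2 * ord847 d₀ - (ord847 (bNum367 τ ν d₀ d₁ ξ (s ξ)) - n),
          ord847 (bNum367 τ ν d₀ d₁ ξ (s ξ)) - n) := by
  have hv := val_eq_exp_ord367 hd₀
  have hF0 : bNum367 τ ν d₀ d₁ ξ (s ξ) ≠ 0 := by
    intro h
    rw [h, Valuation.map_zero, zero_mul] at hbad
    exact not_lt_bot hbad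
  have hvF := val_eq_exp_ord367 hF0
  have hb : Valued.v (bNum367 τ ν d₀ d₁ ξ (s ξ) / nrm367 τ ν ξ) * WithZero.exp ((n : ℤ))
      = WithZero.exp (-(ord847 (bNum367 τ ν d₀ d₁ ξ (s ξ)) - n)) := by
    rw [C.val_div_nrm _ ξ hξ, hvF, ← WithZero.exp_add]
    congr 1
    ring
  have ha : Valued.v (aNum367 τ ν d₀ d₁ ξ (s ξ) / nrm367 τ ν ξ)
      ≤ WithZero.exp (-(ord847 (bNum367 τ ν d₀ d₁ ξ (s ξ)) - n)) := by
    rw [C.val_div_nrm _ ξ hξ, C.val_aNum_even d₀ d₁ ξ hξ hE hd₀, ← hb,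
      C.val_div_nrm _ ξ hξ]
    exact hbad.le
  have hdet : Valued.v ((conjGL367 s τ ν δ₀ n ξ : GL (Fin 2) K)
      : Matrix (Fin 2) (Fin 2) K).det = WithZero.exp (-(2 * ord847 d₀)) := by
    rw [C.val_det_conjGL, hδ, C.val_det_even d₀ d₁ hE hd₀]
  exact cartan_conjMat367 C (conjGL367 s τ ν δ₀ n ξ) n _ _
    (C.conjGL_val d₀ d₁ δ₀ hδ n ξ hξ) (2 * ord847 d₀) _ hdet ha hb.le (Or.inr hb)

end Ctx367

end Fermat.Agent.LT.T6.H367

end

end
-- ===== PACK-END LT/T6/H367/EllCartan.lean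

-- ===== PACK-BEGIN LT/T6/H75/TwEllInt.lean
section




/-!
# Row LT, tower T6, P7 (archimedean matching `ℂ/ℝ`), leaf T6.26: the twisted elliptic orbital
integral in Iwasawa coordinates — CALCULUS (helper75), OFF-MAIN

For `Φ` continuous, vanishing on `[M, ∞)`, `h` continuous with compact support, `cos a < 1`:

    ∫_{ℝ × ℝ × ℂ} Φ(ρ(u₁ - u₂, |w|²)) h(u₁ + u₂) du₁ du₂ dw
      = (π / 4) (∫ h) ∫_ℝ (cosh σ - cos a)⁻¹ Ψ(cosh σ) dσ,      Ψ(y) = ∫_y^∞ Φ,

`ρ(v, t) = (e^{-2v} + e^{2v} (1 + t)²) / 2 - t cos a` (`twRho75`), and the integrand is integrable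
(`twEll_integral75`, `twEll_integrable75`).  The right-hand side is the `I(a)` of helper517
(`radialMatch517`).  Mathlib + `LT/T6/H517/Abel.lean` (polar coordinates, byte-identical copy).
-/

set_option autoImplicit false
set_option linter.unusedSimpArgs false

open MeasureTheory Real Set
open scoped Convolution

noncomputable section

namespace Fermat.Agent.LT.T6.H75

open Fermat.Agent.LT.T6.H517

/-! ## Bounds -/

/-- `ρ(v, t) ≥ 1 + t (1 - cos a)` for `t ≥ 0`. -/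
theorem twRho_ge_one75 (a v : ℝ) {t : ℝ} (ht : 0 ≤ t) :
    1 + t * (1 - Real.cos a) ≤ twRho75 a v t := by
  unfold twRho75
  have h1 : Real.exp (-(2 * v)) = Real.exp (-v) ^ 2 := by
    rw [sq, ← Real.exp_add]; congr 1; ring
  have h2 : Real.exp (2 * v) = Real.exp v ^ 2 := by
    rw [sq, ← Real.exp_add]; congr 1; ring
  have h3 : Real.exp (-v) * Real.exp v = 1 := by
    rw [← Real.exp_add]; simp
  rw [h1, h2]
  nlinarith [sq_nonneg (Real.exp (-v) - Real.exp v * (1 + t))]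

/-- `ρ(v, t) ≥ e^{2|v|} / 2 - t` for `t ≥ 0`. -/
theorem twRho_ge_exp75 (a v : ℝ) {t : ℝ} (ht : 0 ≤ t) :
    Real.exp (2 * |v|) / 2 - t ≤ twRho75 a v t := by
  unfold twRho75
  have hc : Real.cos a ≤ 1 := Real.cos_le_one a
  have h1 : 0 < Real.exp (-(2 * v)) := Real.exp_pos _
  have h2 : 0 < Real.exp (2 * v) := Real.exp_pos _
  have h3 : t * Real.cos a ≤ t := by nlinarith
  have h4 : Real.exp (2 * v) ≤ Real.exp (2 * v) * (1 + t) ^ 2 := by
    have : (1 : ℝ) ≤ (1 + t) ^ 2 := by nlinarith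
    nlinarith
  rcases le_total 0 v with hv | hv
  · rw [abs_of_nonneg hv]
    linarith
  · rw [abs_of_nonpos hv]
    have : Real.exp (2 * -v) = Real.exp (-(2 * v)) := by congr 1; ring
    rw [this]
    nlinarith

/-- `|v| ≤ e^{2|v|} / 2`. -/
theorem abs_le_exp_half75 (v : ℝ) : |v| ≤ Real.exp (2 * |v|) / 2 := by
  have h := Real.add_one_le_exp (2 * |v|)
  have h0 := abs_nonneg v
  linarith

/-- The constant bounding `t` on the support. -/
def twT75 (a M : ℝ) : ℝ := (max M 1 - 1) / (1 - Real.cos a)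

theorem twT_nonneg75 {a : ℝ} (ha : Real.cos a < 1) (M : ℝ) : 0 ≤ twT75 a M := by
  unfold twT75
  apply div_nonneg
  · have := le_max_right M 1; linarith
  · linarith

/-- On the support: `t < T`. -/
theorem lt_twT_of_twRho_lt75 {a : ℝ} (ha : Real.cos a < 1) {M v t : ℝ} (ht : 0 ≤ t)
    (h : twRho75 a v t < M) : t ≤ twT75 a M := by
  unfold twT75
  have h1 := twRho_ge_one75 a v ht
  have h2 : 0 < 1 - Real.cos a := by linarith
  rw [le_div_iff₀ h2]
  have := le_max_left M 1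
  linarith

/-- On the support: `|v| ≤ max M 1 + T`. -/
theorem abs_le_of_twRho_lt75 {a : ℝ} (ha : Real.cos a < 1) {M v t : ℝ} (ht : 0 ≤ t)
    (h : twRho75 a v t < M) : |v| ≤ max M 1 + twT75 a M := by
  have h1 := twRho_ge_exp75 a v ht
  have h2 := abs_le_exp_half75 v
  have h3 := lt_twT_of_twRho_lt75 ha ht h
  have := le_max_left M 1
  linarith

theorem continuous_twRho75 (a : ℝ) : Continuous (fun p : ℝ × ℝ => twRho75 a p.1 p.2) := by
  unfold twRho75
  fun_prop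

/-! ## Three elementary integrals -/

/-- Polar coordinates in `ℂ`: `∫_ℂ G(|w|²) dw = π ∫_0^∞ G`. -/
theorem integral_normSq75 {G : ℝ → ℂ} (hGc : Continuous G) {M : ℝ}
    (hG : VanishesAbove517 G M) :
    ∫ w : ℂ, G (Complex.normSq w) = (π : ℂ) * ∫ y in Ioi (0 : ℝ), G y := by
  have h1 : ∫ w : ℂ, G (Complex.normSq w)
      = ∫ p : ℝ × ℝ, G (p.1 ^ 2 + p.2 ^ 2) := by
    rw [← (Complex.volume_preserving_equiv_real_prod.symm).integral_comp
      Complex.measurableEquivRealProd.symm.measurableEmbedding]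
    refine integral_congr_ae (Filter.Eventually.of_forall fun p => ?_)
    simp only [Complex.measurableEquivRealProd_symm_apply, Complex.normSq_mk]
    congr 1
    ring
  have hc : Continuous (fun p : ℝ × ℝ => G (p.1 ^ 2 + p.2 ^ 2)) := hGc.comp (by fun_prop)
  have hcs : HasCompactSupport (fun p : ℝ × ℝ => G (p.1 ^ 2 + p.2 ^ 2)) := by
    have := hasCompactSupport_radial517 hG (fun _ => (1 : ℝ))
    simpa using this
  have hi : Integrable (fun p : ℝ × ℝ => G (p.1 ^ 2 + p.2 ^ 2)) (volume.prod volume) := by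
    rw [← Measure.volume_eq_prod]
    exact hc.integrable_of_hasCompactSupport hcs
  rw [h1, Measure.volume_eq_prod, integral_prod _ hi, integral_radial517 hGc hG]
  rw [Complex.real_smul]

/-- The affine substitution `y = A + t D` on `(0, ∞)`. -/
theorem integral_Ioi_affine75 (Φ : ℝ → ℂ) (A : ℝ) {D : ℝ} (hD : 0 < D) :
    ∫ t in Ioi (0 : ℝ), Φ (A + t * D) = (D : ℂ)⁻¹ * ∫ y in Ioi A, Φ y := by
  have h1 := integral_comp_mul_left_Ioi (fun x => Φ (A + x)) 0 hD
  simp only [mul_zero] at h1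
  have h2 : ∫ x in Ioi (0 : ℝ), Φ (A + x) = ∫ y in Ioi A, Φ y := by
    rw [← integral_indicator measurableSet_Ioi, ← integral_indicator measurableSet_Ioi,
      ← integral_add_left_eq_self (fun y => (Ioi A).indicator Φ y) A]
    refine integral_congr_ae (Filter.Eventually.of_forall fun x => ?_)
    by_cases hx : 0 < x
    · have hx' : A + x ∈ Ioi A := by simp [hx]
      simp [indicator_of_mem, hx, hx']
    · have hx' : A + x ∉ Ioi A := by simp [hx]
      simp [indicator_of_notMem, hx, hx']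
  have h3 : ∫ t in Ioi (0 : ℝ), Φ (A + t * D) = ∫ x in Ioi (0 : ℝ), Φ (A + D * x) := by
    refine integral_congr_ae (Filter.Eventually.of_forall fun x => ?_)
    simp only [mul_comm]
  rw [h3, h1, h2, Complex.real_smul, Complex.ofReal_inv]

/-- The linear substitution `(u₁, u₂) ↦ (u₁ - u₂, u₁ + u₂)`, of determinant `2`. -/
theorem integral_sub_add75 {J h : ℝ → ℂ} (hJ : Integrable J) (hh : Integrable h)
    (hF : Integrable (fun u : ℝ × ℝ => J (u.1 - u.2) * h (u.1 + u.2)) (volume.prod volume)) :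
    ∫ u : ℝ × ℝ, J (u.1 - u.2) * h (u.1 + u.2) = (1 / 2 : ℂ) * ((∫ v, J v) * ∫ y, h y) := by
  rw [Measure.volume_eq_prod, integral_prod _ hF]
  have h1 : ∀ u₁ : ℝ, ∫ u₂ : ℝ, J (u₁ - u₂) * h (u₁ + u₂)
      = (J ⋆[ContinuousLinearMap.mul ℝ ℂ, volume] h) (2 * u₁) := by
    intro u₁
    rw [convolution_def, ← integral_sub_left_eq_self
      (fun t => (ContinuousLinearMap.mul ℝ ℂ) (J t) (h (2 * u₁ - t))) volume u₁]
    refine integral_congr_ae (Filter.Eventually.of_forall fun x => ?_)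
    simp only [ContinuousLinearMap.mul_apply']
    congr 2
    ring
  simp only [h1]
  rw [Measure.integral_comp_mul_left (fun x => (J ⋆[ContinuousLinearMap.mul ℝ ℂ, volume] h) x) 2,
    integral_convolution (ContinuousLinearMap.mul ℝ ℂ) hJ hh]
  simp only [ContinuousLinearMap.mul_apply', Complex.real_smul]
  rw [abs_of_pos (by norm_num : (0 : ℝ) < 2⁻¹)]
  push_cast
  ring

/-! ## The integrand -/

/-- The integrand in the order `(w, (u₁, u₂))`. -/
def twG75 (a : ℝ) (Φ : ℝ → ℂ) (h : ℝ → ℝ) (q : ℂ × (ℝ × ℝ)) : ℂ :=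
  Φ (twRho75 a (q.2.1 - q.2.2) (Complex.normSq q.1)) * (h (q.2.1 + q.2.2) : ℂ)

/-- The second radial coordinate `(1 + t) cosh 2s - t cos a`. -/
def twRhoB75 (a s t : ℝ) : ℝ := (1 + t) * Real.cosh (2 * s) - t * Real.cos a

/-- The integrand after the shift, on `ℂ × ℝ`. -/
def twH75 (a : ℝ) (Φ : ℝ → ℂ) (q : ℂ × ℝ) : ℂ := Φ (twRhoB75 a q.2 (Complex.normSq q.1))

/-- The tail integral `Ψ(y) = ∫_y^∞ Φ`. -/
def twTail75 (Φ : ℝ → ℂ) (y : ℝ) : ℂ := ∫ x in Ioi y, Φ x

/-- `ρ(s - log(1 + t)/2, t) = (1 + t) cosh 2s - t cos a`. -/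
theorem twRho_shift75 (a s : ℝ) {t : ℝ} (ht : 0 ≤ t) :
    twRho75 a (s - Real.log (1 + t) / 2) t = twRhoB75 a s t := by
  unfold twRho75 twRhoB75
  have hpos : 0 < 1 + t := by linarith
  have h1 : Real.exp (-(2 * (s - Real.log (1 + t) / 2))) = Real.exp (-(2 * s)) * (1 + t) := by
    rw [show -(2 * (s - Real.log (1 + t) / 2)) = -(2 * s) + Real.log (1 + t) by ring,
      Real.exp_add, Real.exp_log hpos]
  have h2 : Real.exp (2 * (s - Real.log (1 + t) / 2)) * (1 + t) = Real.exp (2 * s) := by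
    rw [show 2 * (s - Real.log (1 + t) / 2) = 2 * s - Real.log (1 + t) by ring,
      Real.exp_sub, Real.exp_log hpos]
    field_simp
  have h3 : Real.exp (2 * (s - Real.log (1 + t) / 2)) * (1 + t) ^ 2
      = Real.exp (2 * s) * (1 + t) := by
    rw [sq, ← mul_assoc, h2]
  rw [h1, h3, Real.cosh_eq]
  ring

theorem exists_bound75 {h : ℝ → ℝ} (hhc : HasCompactSupport h) :
    ∃ r : ℝ, 0 ≤ r ∧ ∀ x : ℝ, r < |x| → h x = 0 := by
  obtain ⟨r, hr⟩ := hhc.isCompact.isBounded.subset_closedBall (0 : ℝ)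
  refine ⟨max r 0, le_max_right _ _, fun x hx => ?_⟩
  apply image_eq_zero_of_notMem_tsupport
  intro hmem
  have := hr hmem
  rw [Metric.mem_closedBall, dist_zero_right, Real.norm_eq_abs] at this
  have := le_max_left r 0
  linarith

theorem continuous_twG75 (a : ℝ) {Φ : ℝ → ℂ} (hΦc : Continuous Φ) {h : ℝ → ℝ}
    (hh : Continuous h) : Continuous (twG75 a Φ h) := by
  unfold twG75
  apply Continuous.mul
  · apply hΦc.comp
    exact (continuous_twRho75 a).comp
      (Continuous.prodMk (by fun_prop) (Complex.continuous_normSq.comp continuous_fst))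
  · exact Complex.continuous_ofReal.comp (hh.comp (by fun_prop))

theorem norm_le_of_normSq_le75 {w : ℂ} {T : ℝ} (hT : 0 ≤ T) (h : Complex.normSq w ≤ T) :
    ‖w‖ ≤ T + 1 := by
  have h1 : ‖w‖ ^ 2 = Complex.normSq w := by
    rw [Complex.normSq_eq_norm_sq]
  have h0 : 0 ≤ ‖w‖ := norm_nonneg w
  nlinarith

theorem hasCompactSupport_twG75 {a : ℝ} (ha : Real.cos a < 1) {Φ : ℝ → ℂ} {M : ℝ}
    (hΦM : VanishesAbove517 Φ M) {h : ℝ → ℝ} (hhc : HasCompactSupport h) :
    HasCompactSupport (twG75 a Φ h) := by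
  obtain ⟨r, hr0, hr⟩ := exists_bound75 hhc
  have hT := twT_nonneg75 ha M
  set V : ℝ := max M 1 + twT75 a M with hV
  apply HasCompactSupport.intro
    (K := Metric.closedBall (0 : ℂ) (twT75 a M + 1) ×ˢ (Icc (-(r + V)) (r + V) ×ˢ Icc (-(r + V)) (r + V)))
    ((isCompact_closedBall _ _).prod (isCompact_Icc.prod isCompact_Icc))
  rintro ⟨w, u₁, u₂⟩ hq
  by_contra hne
  apply hq
  unfold twG75 at hne
  have hΦ : Φ (twRho75 a (u₁ - u₂) (Complex.normSq w)) ≠ 0 := left_ne_zero_of_mul hne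
  have hh0 : h (u₁ + u₂) ≠ 0 := by
    intro h0
    apply hne
    simp only [h0, Complex.ofReal_zero, mul_zero]
  have hlt : twRho75 a (u₁ - u₂) (Complex.normSq w) < M := by
    by_contra hcon
    exact hΦ (hΦM _ (not_lt.mp hcon))
  have hy : |u₁ + u₂| ≤ r := by
    by_contra hcon
    exact hh0 (hr _ (not_le.mp hcon))
  have ht := lt_twT_of_twRho_lt75 ha (Complex.normSq_nonneg w) hlt
  have hv := abs_le_of_twRho_lt75 ha (Complex.normSq_nonneg w) hlt
  rw [← hV] at hv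
  rw [abs_le] at hy hv
  refine ⟨?_, ⟨?_, ?_⟩, ⟨?_, ?_⟩⟩
  · rw [Metric.mem_closedBall, dist_zero_right]
    exact norm_le_of_normSq_le75 hT ht
  · linarith [hy.1, hv.1]
  · linarith [hy.2, hv.2]
  · linarith [hy.1, hv.2]
  · linarith [hy.2, hv.1]

theorem integrable_twG75 {a : ℝ} (ha : Real.cos a < 1) {Φ : ℝ → ℂ} (hΦc : Continuous Φ) {M : ℝ}
    (hΦM : VanishesAbove517 Φ M) {h : ℝ → ℝ} (hh : Continuous h) (hhc : HasCompactSupport h) :
    Integrable (twG75 a Φ h) (volume.prod volume) := by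
  rw [← Measure.volume_eq_prod]
  exact (continuous_twG75 a hΦc hh).integrable_of_hasCompactSupport
    (hasCompactSupport_twG75 ha hΦM hhc)

theorem continuous_twH75 (a : ℝ) {Φ : ℝ → ℂ} (hΦc : Continuous Φ) : Continuous (twH75 a Φ) := by
  unfold twH75 twRhoB75
  apply hΦc.comp
  have := Complex.continuous_normSq
  fun_prop

theorem hasCompactSupport_twH75 {a : ℝ} (ha : Real.cos a < 1) {Φ : ℝ → ℂ} {M : ℝ}
    (hΦM : VanishesAbove517 Φ M) : HasCompactSupport (twH75 a Φ) := by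
  have hT := twT_nonneg75 ha M
  set V : ℝ := max M 1 + twT75 a M with hV
  apply HasCompactSupport.intro
    (K := Metric.closedBall (0 : ℂ) (twT75 a M + 1) ×ˢ Icc (-(V + twT75 a M)) (V + twT75 a M))
    ((isCompact_closedBall _ _).prod isCompact_Icc)
  rintro ⟨w, s⟩ hq
  by_contra hne
  apply hq
  unfold twH75 at hne
  have hlt : twRhoB75 a s (Complex.normSq w) < M := by
    by_contra hcon
    exact hne (hΦM _ (not_lt.mp hcon))
  rw [← twRho_shift75 a s (Complex.normSq_nonneg w)] at hlt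
  have ht := lt_twT_of_twRho_lt75 ha (Complex.normSq_nonneg w) hlt
  have hv := abs_le_of_twRho_lt75 ha (Complex.normSq_nonneg w) hlt
  rw [← hV] at hv
  have hlog : Real.log (1 + Complex.normSq w) ≤ Complex.normSq w := by
    have := Real.log_le_sub_one_of_pos
      (by linarith [Complex.normSq_nonneg w] : 0 < 1 + Complex.normSq w)
    linarith
  have hlog0 : 0 ≤ Real.log (1 + Complex.normSq w) :=
    Real.log_nonneg (by linarith [Complex.normSq_nonneg w])
  rw [abs_le] at hv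
  refine ⟨?_, ?_, ?_⟩
  · rw [Metric.mem_closedBall, dist_zero_right]
    exact norm_le_of_normSq_le75 hT ht
  · linarith [hv.1]
  · linarith [hv.2]

theorem integrable_twH75 {a : ℝ} (ha : Real.cos a < 1) {Φ : ℝ → ℂ} (hΦc : Continuous Φ) {M : ℝ}
    (hΦM : VanishesAbove517 Φ M) : Integrable (twH75 a Φ) (volume.prod volume) := by
  rw [← Measure.volume_eq_prod]
  exact (continuous_twH75 a hΦc).integrable_of_hasCompactSupport
    (hasCompactSupport_twH75 ha hΦM)

/-! ## The computation -/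

/-- The inner integral over `(u₁, u₂)`. -/
theorem integral_twG_inner75 {a : ℝ} (ha : Real.cos a < 1) {Φ : ℝ → ℂ} (hΦc : Continuous Φ)
    {M : ℝ} (hΦM : VanishesAbove517 Φ M) {h : ℝ → ℝ} (hh : Continuous h)
    (hhc : HasCompactSupport h) (w : ℂ)
    (hw : Integrable (fun u : ℝ × ℝ => twG75 a Φ h (w, u)) (volume.prod volume)) :
    ∫ u : ℝ × ℝ, twG75 a Φ h (w, u)
      = (1 / 2 : ℂ) * ((∫ s : ℝ, twH75 a Φ (w, s)) * ((∫ y, h y : ℝ) : ℂ)) := by
  have ht := Complex.normSq_nonneg w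
  set J : ℝ → ℂ := fun v => Φ (twRho75 a v (Complex.normSq w)) with hJ
  have hJc : Continuous J :=
    hΦc.comp ((continuous_twRho75 a).comp (Continuous.prodMk continuous_id continuous_const))
  have hJs : HasCompactSupport J := by
    apply HasCompactSupport.intro (K := Icc (-(max M 1 + twT75 a M)) (max M 1 + twT75 a M))
      isCompact_Icc
    intro v hv
    by_contra hne
    apply hv
    have hlt : twRho75 a v (Complex.normSq w) < M := by
      by_contra hcon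
      exact hne (hΦM _ (not_lt.mp hcon))
    have := abs_le_of_twRho_lt75 ha ht hlt
    rw [abs_le] at this
    exact ⟨this.1, this.2⟩
  have hJi : Integrable J := hJc.integrable_of_hasCompactSupport hJs
  have hhi : Integrable (fun y : ℝ => ((h y : ℝ) : ℂ)) :=
    (Complex.continuous_ofReal.comp hh).integrable_of_hasCompactSupport
      (hhc.comp_left Complex.ofReal_zero)
  have h1 := integral_sub_add75 hJi hhi hw
  have h2 : (∫ u : ℝ × ℝ, twG75 a Φ h (w, u))
      = ∫ u : ℝ × ℝ, J (u.1 - u.2) * ((h (u.1 + u.2) : ℝ) : ℂ) := rfl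
  have h3 : ∫ v : ℝ, J v = ∫ s : ℝ, twH75 a Φ (w, s) := by
    rw [← integral_sub_right_eq_self J (Real.log (1 + Complex.normSq w) / 2)]
    refine integral_congr_ae (Filter.Eventually.of_forall fun s => ?_)
    simp only [hJ, twH75]
    rw [twRho_shift75 a s ht]
  have h4 : ∫ y : ℝ, ((h y : ℝ) : ℂ) = ((∫ y, h y : ℝ) : ℂ) :=
    integral_ofReal (μ := volume) (𝕜 := ℂ) (f := h)
  rw [h2, h1, h3, h4]

/-- The inner integral over `w`. -/
theorem integral_twH_inner75 {a : ℝ} (ha : Real.cos a < 1) {Φ : ℝ → ℂ} (hΦc : Continuous Φ)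
    {M : ℝ} (hΦM : VanishesAbove517 Φ M) (s : ℝ) :
    ∫ w : ℂ, twH75 a Φ (w, s)
      = (π : ℂ) * (((Real.cosh (2 * s) - Real.cos a)⁻¹ : ℝ) : ℂ)
        * twTail75 Φ (Real.cosh (2 * s)) := by
  have hD : 0 < Real.cosh (2 * s) - Real.cos a := by
    have := Real.one_le_cosh (2 * s)
    linarith
  set G : ℝ → ℂ := fun t => Φ (Real.cosh (2 * s) + t * (Real.cosh (2 * s) - Real.cos a)) with hG
  have hGc : Continuous G := hΦc.comp (by fun_prop)
  have hGv : VanishesAbove517 G ((M - Real.cosh (2 * s)) / (Real.cosh (2 * s) - Real.cos a)) := by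
    intro x hx
    apply hΦM
    rw [div_le_iff₀ hD] at hx
    linarith
  have h1 : ∫ w : ℂ, twH75 a Φ (w, s) = ∫ w : ℂ, G (Complex.normSq w) := by
    refine integral_congr_ae (Filter.Eventually.of_forall fun w => ?_)
    simp only [twH75, twRhoB75, hG]
    congr 1
    ring
  rw [h1, integral_normSq75 hGc hGv, integral_Ioi_affine75 Φ _ hD]
  unfold twTail75
  push_cast
  ring

/-- **The twisted elliptic orbital integral in Iwasawa coordinates**, order `(w, (u₁, u₂))`. -/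
theorem twEll_integral_aux75 {a : ℝ} (ha : Real.cos a < 1) {Φ : ℝ → ℂ} (hΦc : Continuous Φ)
    {M : ℝ} (hΦM : VanishesAbove517 Φ M) {h : ℝ → ℝ} (hh : Continuous h)
    (hhc : HasCompactSupport h) :
    ∫ q : ℂ × (ℝ × ℝ), twG75 a Φ h q
      = ((π / 4 * ∫ y, h y : ℝ) : ℂ)
        * ∫ σ : ℝ, (Real.cosh σ - Real.cos a)⁻¹ • twTail75 Φ (Real.cosh σ) := by
  have hI := integrable_twG75 ha hΦc hΦM hh hhc
  rw [Measure.volume_eq_prod, integral_prod _ hI]
  have h1 : ∫ w : ℂ, ∫ u : ℝ × ℝ, twG75 a Φ h (w, u)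
      = ∫ w : ℂ, (1 / 2 : ℂ) * ((∫ s : ℝ, twH75 a Φ (w, s)) * ((∫ y, h y : ℝ) : ℂ)) := by
    refine integral_congr_ae ?_
    filter_upwards [hI.prod_right_ae] with w hw
    rw [Measure.volume_eq_prod] at hw
    exact integral_twG_inner75 ha hΦc hΦM hh hhc w hw
  rw [h1, integral_const_mul, integral_mul_const]
  have h2 : ∫ w : ℂ, ∫ s : ℝ, twH75 a Φ (w, s)
      = ∫ s : ℝ, ∫ w : ℂ, twH75 a Φ (w, s) :=
    integral_integral_swap (integrable_twH75 ha hΦc hΦM)
  rw [h2]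
  simp only [integral_twH_inner75 ha hΦc hΦM]
  have h3 : ∫ s : ℝ, (π : ℂ) * (((Real.cosh (2 * s) - Real.cos a)⁻¹ : ℝ) : ℂ)
        * twTail75 Φ (Real.cosh (2 * s))
      = (π : ℂ) * ((1 / 2 : ℂ)
        * ∫ σ : ℝ, (Real.cosh σ - Real.cos a)⁻¹ • twTail75 Φ (Real.cosh σ)) := by
    have e := Measure.integral_comp_mul_left
      (fun σ : ℝ => (Real.cosh σ - Real.cos a)⁻¹ • twTail75 Φ (Real.cosh σ)) 2
    simp only [Complex.real_smul] at e ⊢
    rw [abs_of_pos (by norm_num : (0 : ℝ) < 2⁻¹)] at e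
    simp only [mul_assoc]
    rw [integral_const_mul, e]
    push_cast
    ring
  rw [h3]
  push_cast
  ring

/-- **The twisted elliptic orbital integral in Iwasawa coordinates**, order `(u₁, (u₂, w))`
(the order of `H189.iwaMC`). -/
theorem twEll_integral75 {a : ℝ} (ha : Real.cos a < 1) {Φ : ℝ → ℂ} (hΦc : Continuous Φ)
    {M : ℝ} (hΦM : VanishesAbove517 Φ M) {h : ℝ → ℝ} (hh : Continuous h)
    (hhc : HasCompactSupport h) :
    ∫ p : ℝ × ℝ × ℂ, Φ (twRho75 a (p.1 - p.2.1) (Complex.normSq p.2.2)) * (h (p.1 + p.2.1) : ℂ)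
      = ((π / 4 * ∫ y, h y : ℝ) : ℂ)
        * ∫ σ : ℝ, (Real.cosh σ - Real.cos a)⁻¹ • twTail75 Φ (Real.cosh σ) := by
  rw [← twEll_integral_aux75 ha hΦc hΦM hh hhc]
  have e1 : MeasurePreserving (MeasurableEquiv.prodComm : ℂ × (ℝ × ℝ) ≃ᵐ (ℝ × ℝ) × ℂ)
      (volume : Measure (ℂ × (ℝ × ℝ))) (volume : Measure ((ℝ × ℝ) × ℂ)) :=
    Measure.measurePreserving_swap
  have e2 : MeasurePreserving (MeasurableEquiv.prodAssoc : (ℝ × ℝ) × ℂ ≃ᵐ ℝ × (ℝ × ℂ))
      (volume : Measure ((ℝ × ℝ) × ℂ)) (volume : Measure (ℝ × (ℝ × ℂ))) :=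
    measurePreserving_prodAssoc volume volume volume
  have e3 := (e2.comp e1).integral_comp
    ((MeasurableEquiv.prodComm.trans MeasurableEquiv.prodAssoc :
      ℂ × (ℝ × ℝ) ≃ᵐ ℝ × (ℝ × ℂ)).measurableEmbedding)
    (fun p : ℝ × ℝ × ℂ =>
      Φ (twRho75 a (p.1 - p.2.1) (Complex.normSq p.2.2)) * (h (p.1 + p.2.1) : ℂ))
  rw [← e3]
  rfl

end Fermat.Agent.LT.T6.H75

end

end
-- ===== PACK-END LT/T6/H75/TwEllInt.lean

-- ===== PACK-BEGIN LT/T6/H189/ArchIntPartial.lean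
section
















/-!
# Row LT, tower T6, leaf T6.23 `ArchInt` -- the closure so far (owner helper189)

OFF-MAIN.  Everything except the two polar assemblies A4 (`PolOfRC`) and A5 (`PolOfCC`) is closed:
the Iwasawa formulas, unimodularity and the Haar measure of `U(2)` are UNCONDITIONAL.
-/

set_option autoImplicit false

namespace Fermat.Agent.LT.T6.H189

/-- **Unimodularity of `GL₂(ℝ)`**, unconditional. -/
theorem rightInvRC189 : RightInvRC := Fermat.Agent.LT.T6.H972.rightInvRC972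

/-- **Unimodularity of `GL₂(ℂ)`**, unconditional. -/
theorem rightInvCC189 : RightInvCC := Fermat.Agent.LT.T6.H8.rightInvCC_h8

/-- **The Iwasawa integration formula on `GL₂(ℝ)⁺`**, unconditional. -/
theorem iwasawaRC189 : IwasawaRC :=
  iwaOfRC189 rightInvRC189 Fermat.Agent.LT.T6.H569.iwaHomeoRC569
    Fermat.Agent.LT.T6.H79.circleMeasC_79

/-- **The Haar probability measure of `U(2)`**, unconditional. -/
theorem u2HaarC189 : U2HaarC :=
  Fermat.Agent.LT.T6.H216.u2HaarOf216 Fermat.Agent.LT.T6.H965.u2CompactC965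

/-- **The Iwasawa integration formula on `GL₂(ℂ)`**, unconditional. -/
theorem iwasawaCC189 : IwasawaCC :=
  Fermat.Agent.LT.T6.H848.iwaOfCC848 rightInvCC189 Fermat.Agent.LT.T6.H905.iwaHomeoCC905
    Fermat.Agent.LT.T6.H965.u2CompactC965

/-- The Cartan decompositions and the calculus identities, unconditional. -/
theorem cartanRC189 : CartanRC := Fermat.Agent.LT.T6.H281.cartanRC_h281

theorem cartanCC189 : CartanCC := Fermat.Agent.LT.T6.H514.cartanCC514

theorem abelAreaRC189 : AbelAreaRC := Fermat.Agent.LT.T6.H127.abelAreaRC127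

theorem abelAreaCC189 : AbelAreaCC := Fermat.Agent.LT.H501.Ab.abelAreaCC501

/-- **T6.23 from the two polar assemblies.** -/
theorem archIntOut_of_pol189 (a4 : PolOfRC) (a5 : PolOfCC) : ArchIntOut where
  iwaR := iwasawaRC189
  polR := a4 iwasawaRC189 rightInvRC189 cartanRC189 abelAreaRC189
  invR := rightInvRC189
  haarU := u2HaarC189
  iwaC := iwasawaCC189
  polC := a5 iwasawaCC189 rightInvCC189 cartanCC189 abelAreaCC189
  invC := rightInvCC189

end Fermat.Agent.LT.T6.H189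

end
-- ===== PACK-END LT/T6/H189/ArchIntPartial.lean

-- ===== PACK-BEGIN LT/T6/H820/PowSpec.lean
section


/-!
# Row LT, tower T6, leaf T6.18g3 `H783.PowC783`: THIRD-LEVEL SUB-SPEC (seat helper820)

OFF-MAIN.  Definitions + frozen Props (nothing assumed).  The PROVED glue is in
`PowTop.lean`:

    powC_of_leaves820 : T6.OrbSumExC → H783.LvlC783 → PowRootC820 → H783.PowC783
    powC_of_all820 : T6.OrbSumExC → H783.LvlC783 → RootFnC820 → PowRootFromFnC820 → H783.PowC783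

## The cut

`PowC783` = (ALGEBRA of orbit sums, done in `PowTop.lean`) + (ANALYSIS: the `l`-th root near `1`).

* ALGEBRA (`PowTop.lean`).  Let `ρ` be a conjugation-equivariant `l`-th root on the regular
  elements of a `χ`-ball `V(N₁)` around `(2, 1)` and `f₀ = ψ ∘ ρ` there.  Then `ρ` maps the class
  of `γ` bijectively onto the class of `h = ρ γ`, commutes with conjugation by `U(m')`, and
  `T_y = T_{ρ y}` (`t` commutes with `y` iff it commutes with `ρ y`: equivariance and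
  `(ρ y) ^ l = y`), so `O^{(m')}_γ(f₀) = O^{(m')}_h(ψ)`; the level change `LvlC783`
  (`O^{(m')} = κ O^{(m)}`) and the existence of `O^{(m)}_h(ψ)` (`OrbSumExC` for `k' = k`, `l = 1`)
  give `O^{(m')}_γ(κ⁻¹ f₀) = O^{(m)}_h(ψ)`.
* ANALYSIS = `PowRootC820`: the root `ρ` and the function `f₀`.
  Construction: `ρ(y) = a(χ y) · y + b(χ y)` with `(a X + b) ^ l ≡ X mod (X² - t X + d)`,
  `(a, b)(t, d)` near `(1/l, 1 - 1/l)` for `(t, d)` near `(2, 1)`: with `X = 1 + Y`,
  `Y² = τ Y - δ` (`τ = t - 2`, `δ = d - t + 1`), `(1 + Y)^{1/l} = ∑ₙ binom(1/l, n) Yⁿ`,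
  `Yⁿ = αₙ Y + βₙ`, `|αₙ|, |βₙ| ≤ max(|τ|, |δ|^{1/2})^{n-1}`; the series converge for
  `max(|τ|, |δ|^{1/2}) < |l| · |p|^{1/(p-1)}` (`l = p` allowed), and `a`, `b` are Lipschitz.
  (Or: two-variable Newton iteration for `(u, w) ↦ (1 + w + u Y) ^ l - 1 - Y`, Jacobian `≈ l²`.)
  `f₀ = (ψ ∘ ρ) · 1_{V(N₁)}`: finite support because `y = (ρ y) ^ l` and `supp ψ` is compact;
  bi-`U(m')`-invariant for `m'` large by uniform continuity of `ρ` and of `χ` on the support
  (as in `CutC783`).  Equivariance is clear from the shape of `ρ`; `ρ y` is regular because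
  `y = (ρ y) ^ l` is.
-/

set_option autoImplicit false

open scoped Matrix

noncomputable section

namespace Fermat.Agent.LT.T6.H820

open Fermat.Agent.LT.T6 Fermat.Agent.LT.T6.H783

/-- `ρ` is a conjugation-equivariant `l`-th root on the regular elements of the `χ`-ball of
radius `exp(-N₁)` around `(2, 1)`, with values in the `χ`-ball of radius `exp(-N₀)`, and
`f₀ = ψ ∘ ρ` there. -/
def IsRootOn820 {k : Type} [Field k] [Valued k Γ₀] (l : ℕ) (N₀ N₁ : ℤ)
    (ψ : GL (Fin 2) k → ℂ) (ρ : GL (Fin 2) k → GL (Fin 2) k) (f₀ : GL (Fin 2) k → ℂ) : Prop :=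
  ∀ y : GL (Fin 2) k, IsReg y → InChiBall783 2 1 N₁ y →
    (ρ y) ^ l = y ∧ IsReg (ρ y) ∧ InChiBall783 2 1 N₀ (ρ y) ∧
      (∀ x : GL (Fin 2) k, ρ (x⁻¹ * y * x) = x⁻¹ * ρ y * x) ∧ f₀ y = ψ (ρ y)

/-- **T6.18g3.1 (the `l`-th root near the identity; ANALYSIS).**  For `ψ` bi-`U(m)`-invariant of
finite support and `N₀` there are `N₁`, `m' ≥ m`, a conjugation-equivariant `l`-th root `ρ` on the
regular elements of the `χ`-ball `V(N₁)` with values in `V(N₀)`, and a bi-`U(m')`-invariant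
function `f₀` of finite support with `f₀ = ψ ∘ ρ` on the regular elements of `V(N₁)`. -/
def PowRootC820 : Prop :=
  ∀ (k : Type) [Field k] [Valued k Γ₀] (q l : ℕ), IsLocalField k q → 0 < l →
    ∀ (N₀ : ℤ) (m : ℕ) (ψ : GL (Fin 2) k → ℂ), IsBiInv (InU m) ψ → HasFinSupp (InU m) ψ →
      ∃ (N₁ : ℤ) (m' : ℕ) (ρ : GL (Fin 2) k → GL (Fin 2) k) (f₀ : GL (Fin 2) k → ℂ),
        m ≤ m' ∧ IsBiInv (InU m') f₀ ∧ HasFinSupp (InU m') f₀ ∧ IsRootOn820 l N₀ N₁ ψ ρ f₀

/-- **T6.18g3.1a (the root functions; ANALYSIS IN `k` ONLY, no matrices beyond Cayley--Hamilton).**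
There are `N₁`, `C` and functions `a`, `b` on `k × k` such that on the ball
`|t - 2|, |d - 1| ≤ exp(-N₁)`:
* `(a M + b) ^ l = M` for every `2 × 2` matrix `M` with trace `t` and determinant `d`
  (equivalently `(a X + b) ^ l ≡ X mod (X² - t X + d)`; Cayley--Hamilton);
* trace `a t + 2 b` and determinant `a² d + a b t + b²` of `a M + b` are within `exp(-N₀)` of
  `2` and `1`;
* `|a|, |b| ≤ exp C`, and `a`, `b` are Lipschitz with constant `exp C`.
At `(t, d) = (2, 1)`: `a = 1/l`, `b = 1 - 1/l` (`M = 1 + n`, `n² = 0`, `(1 + n/l)^l = 1 + n`).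
Construction: binomial series (header), or Newton iteration / the inverse function theorem for
`(a, b) ↦ (P_l, Q_l)`, `(a X + b)^n ≡ P_n X + Q_n`, `P_{n+1} = (a t + b) P_n + a Q_n`,
`Q_{n+1} = b Q_n - a d P_n`; the Jacobian at `(1/l, 1 - 1/l; 2, 1)` is
`[[2l - 1, l - 1], [1 - l, 1]]` of determinant `l²` (non-zero: `CharZero k`). -/
def RootFnC820 : Prop :=
  ∀ (k : Type) [Field k] [Valued k Γ₀] (q l : ℕ), IsLocalField k q → 0 < l → ∀ N₀ : ℤ,
    ∃ (N₁ C : ℤ) (a b : k → k → k),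
      ∀ t d : k, Valued.v (t - 2 : k) ≤ WithZero.exp (-N₁) →
        Valued.v (d - 1 : k) ≤ WithZero.exp (-N₁) →
        (∀ M : Matrix (Fin 2) (Fin 2) k, M.trace = t → M.det = d →
          (a t d • M + b t d • (1 : Matrix (Fin 2) (Fin 2) k)) ^ l = M) ∧
        Valued.v (a t d * t + 2 * b t d - 2 : k) ≤ WithZero.exp (-N₀) ∧
        Valued.v (a t d ^ 2 * d + a t d * b t d * t + b t d ^ 2 - 1 : k)
          ≤ WithZero.exp (-N₀) ∧
        Valued.v (a t d : k) ≤ WithZero.exp C ∧ Valued.v (b t d : k) ≤ WithZero.exp C ∧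
        ∀ t' d' : k, Valued.v (t' - 2 : k) ≤ WithZero.exp (-N₁) →
          Valued.v (d' - 1 : k) ≤ WithZero.exp (-N₁) →
          Valued.v (a t d - a t' d' : k)
              ≤ WithZero.exp C * max (Valued.v (t - t' : k)) (Valued.v (d - d' : k)) ∧
            Valued.v (b t d - b t' d' : k)
              ≤ WithZero.exp C * max (Valued.v (t - t' : k)) (Valued.v (d - d' : k))

/-- **T6.18g3.1b (from the root functions to the root on `GL₂(k)`; matrix estimates and
compactness).**  `ρ(y) = a(χ y) y + b(χ y)` on the `χ`-ball (invertible because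
`(ρ y)^l = y`; regular because `y` is: if `disc h = 0` then `h = λ + n`, `n² = 0`, and
`disc (h^l) = 0`; equivariant because `χ` is a class function), `f₀ = (ψ ∘ ρ) · 1_{V(N₁)}`.
FINITE SUPPORT: `y = (ρ y)^l ∈ (supp ψ)^l`, a bounded set with `|det|` bounded below, which is
a finite union of cosets `x U(m')` (finite residue system, induction on the digits).
BI-INVARIANCE: outside the bounded set `U(0) (supp f₀) U(0)` both sides vanish; on it
`χ(u y u') - χ(y)` is `≤ exp(c - m')` (so `1_{V(N₁)}` is invariant for `m' ≥ N₁ + c`),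
`ρ(u y u') = u ρ(y u' u) u⁻¹` and `ρ(y u'') ∈ ρ(y) U(m)` for `u'' ∈ U(m')`, `m' ≥ m + c'`
(Lipschitz bound for `a`, `b`, bounded `ρ(y)⁻¹`). -/
def PowRootFromFnC820 : Prop := RootFnC820 → PowRootC820

end Fermat.Agent.LT.T6.H820

end

end
-- ===== PACK-END LT/T6/H820/PowSpec.lean

-- ===== PACK-BEGIN LT/T6/H962/RootQA.lean
section




/-!
# Row LT, tower T6, sub-leaf T6.18f.2 `RootC179` -- helper962, OFF-MAIN

VERBATIM the Prop `H179.RootC179` of `T6/H179/LocRegSpec.lean` (helper179@eb0286de2), unconditional.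

`l`-th roots near `1` in `k[γ₀]`:

* abstract part: a commutative ring `A` with an ultrametric, submultiplicative `N : A → Γ₀`
  (`IsUNorm962`), complete and separated for `N`, and `j` with `l * j = 1`, `N j ≤ exp c`:
  every `u` with `N (u - 1) ≤ exp (-(2 c + 1 + K))` is `L ^ l` with `N (L - 1) ≤ exp (-(c + 1 + K))`
  (iteration `t ↦ t - j (t ^ l - u)`);
* `A = QuadraticAlgebra k a b` (Mathlib) with `|a|, |b| ≤ 1` and the sup norm of `(re, im)`;
* `γ₁ = ϖ ^ m γ₀` has an integral characteristic polynomial, `γ₁ ^ 2 = a + b γ₁` (Cayley-Hamilton),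
  `QuadraticAlgebra.lift` is an algebra morphism to `M₂(k)`.

The regularity of `γ₀` is not used.
-/

set_option autoImplicit false

open scoped Valued
open Fermat.Agent.LT.T6 WithZero

noncomputable section

namespace Fermat.Agent.LT.T6.H962

/-! ## 1. Newton iteration in an ultrametric commutative ring -/

/-- An ultrametric submultiplicative "norm" with values in `Γ₀`. -/
structure IsUNorm962 {A : Type} [CommRing A] (N : A → Γ₀) : Prop where
  map_zero : N 0 = 0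
  map_one : N 1 = 1
  map_add : ∀ x y, N (x + y) ≤ max (N x) (N y)
  map_neg : ∀ x, N (-x) = N x
  map_mul : ∀ x y, N (x * y) ≤ N x * N y

section Abstract

variable {A : Type} [CommRing A] {N : A → Γ₀}

theorem IsUNorm962.map_sub (hN : IsUNorm962 N) (x y : A) : N (x - y) ≤ max (N x) (N y) := by
  rw [sub_eq_add_neg]
  refine (hN.map_add _ _).trans ?_
  rw [hN.map_neg]

theorem IsUNorm962.sub_swap (hN : IsUNorm962 N) (x y : A) : N (x - y) = N (y - x) := by
  rw [← hN.map_neg (x - y), neg_sub]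

theorem IsUNorm962.natCast_le (hN : IsUNorm962 N) (n : ℕ) : N (n : A) ≤ 1 := by
  induction n with
  | zero => simp [hN.map_zero]
  | succ n ih =>
    rw [Nat.cast_succ]
    exact (hN.map_add _ _).trans (max_le ih hN.map_one.le)

theorem IsUNorm962.mul_le_one (hN : IsUNorm962 N) {x y : A} (hx : N x ≤ 1) (hy : N y ≤ 1) :
    N (x * y) ≤ 1 :=
  (hN.map_mul _ _).trans (mul_le_one' hx hy)

theorem IsUNorm962.pow_le_one (hN : IsUNorm962 N) {x : A} (hx : N x ≤ 1) (n : ℕ) :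
    N (x ^ n) ≤ 1 := by
  induction n with
  | zero => simp [hN.map_one]
  | succ n ih =>
    rw [pow_succ]
    exact hN.mul_le_one ih hx

theorem IsUNorm962.add_le_one (hN : IsUNorm962 N) {x y : A} (hx : N x ≤ 1) (hy : N y ≤ 1) :
    N (x + y) ≤ 1 :=
  (hN.map_add _ _).trans (max_le hx hy)

/-- `(w + h) ^ l = w ^ l + l w ^ (l - 1) h + κ h ^ 2` with `N κ ≤ 1`. -/
theorem binomA962 (hN : IsUNorm962 N) (w h : A) (hw : N w ≤ 1) (hh : N h ≤ 1) (l : ℕ) :
    ∃ κ : A, N κ ≤ 1 ∧ (w + h) ^ l = w ^ l + (l : A) * w ^ (l - 1) * h + κ * h ^ 2 := by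
  induction l with
  | zero => exact ⟨0, by simp [hN.map_zero], by simp⟩
  | succ l ih =>
    obtain ⟨κ, hκ, e⟩ := ih
    refine ⟨(l : A) * w ^ (l - 1) + κ * (w + h), ?_, ?_⟩
    · exact hN.add_le_one (hN.mul_le_one (hN.natCast_le l) (hN.pow_le_one hw _))
        (hN.mul_le_one hκ (hN.add_le_one hw hh))
    · rw [Nat.add_sub_cancel]
      rcases Nat.eq_zero_or_pos l with rfl | hl
      · push_cast at e ⊢
        linear_combination (w + h) * e
      · have e2 : w ^ (l - 1) * w = w ^ l := by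
          rw [← pow_succ, Nat.sub_add_cancel hl]
        push_cast
        linear_combination (w + h) * e + (l : A) * h * e2

/-- `x ^ l - y ^ l = (x - y) μ` with `N μ ≤ 1`. -/
theorem pow_sub_powA962 (hN : IsUNorm962 N) (x y : A) (hx : N x ≤ 1) (hy : N y ≤ 1) (l : ℕ) :
    ∃ μ : A, N μ ≤ 1 ∧ x ^ l - y ^ l = (x - y) * μ := by
  induction l with
  | zero => exact ⟨0, by simp [hN.map_zero], by simp⟩
  | succ l ih =>
    obtain ⟨μ, hμ, e⟩ := ih
    refine ⟨x * μ + y ^ l, ?_, ?_⟩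
    · exact hN.add_le_one (hN.mul_le_one hx hμ) (hN.pow_le_one hy _)
    · have : x ^ (l + 1) - y ^ (l + 1) = x * (x ^ l - y ^ l) + (x - y) * y ^ l := by ring
      rw [this, e]
      ring

theorem IsUNorm962.le_one_of_sub (hN : IsUNorm962 N) (w : A) (hw : N (w - 1) ≤ 1) :
    N w ≤ 1 := by
  have : w = (w - 1) + 1 := by ring
  rw [this]
  exact hN.add_le_one hw hN.map_one.le

/-- One step of the iteration `t ↦ t - j (t ^ l - u)`, `l j = 1`. -/
theorem newton_stepA962 (hN : IsUNorm962 N) (l : ℕ) (j : A) (hj : (l : A) * j = 1)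
    (c : ℤ) (hc : 0 ≤ c) (hNj : N j ≤ exp c) (K : ℕ) (u t : A) (n : ℕ)
    (ht : N (t - 1) ≤ exp (-(c + 1 + (K : ℤ))))
    (htu : N (t ^ l - u) ≤ exp (-(2 * c + 1 + (K : ℤ) + (n : ℤ)))) :
    ∃ t' : A, (N (t' - 1) ≤ exp (-(c + 1 + (K : ℤ))) ∧
        N (t' ^ l - u) ≤ exp (-(2 * c + 1 + (K : ℤ) + ((n + 1 : ℕ) : ℤ)))) ∧
      N (t' - t) ≤ exp (-((n : ℤ) + 1)) := by
  have ht1 : N t ≤ 1 := by
    refine hN.le_one_of_sub t (ht.trans ?_)
    rw [← exp_zero, exp_le_exp]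
    omega
  set h : A := -(j * (t ^ l - u)) with hh
  have hvh : N h ≤ exp (-(c + 1 + (K : ℤ) + (n : ℤ))) := by
    rw [hh, hN.map_neg]
    refine (hN.map_mul _ _).trans ?_
    calc N j * N (t ^ l - u) ≤ exp c * exp (-(2 * c + 1 + (K : ℤ) + (n : ℤ))) :=
          mul_le_mul' hNj htu
      _ = exp (-(c + 1 + (K : ℤ) + (n : ℤ))) := by
          rw [← exp_add]
          congr 1
          ring
  have hvh1 : N h ≤ 1 := by
    refine hvh.trans ?_
    rw [← exp_zero, exp_le_exp]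
    omega
  obtain ⟨κ, hκ, e⟩ := binomA962 hN t h ht1 hvh1 l
  obtain ⟨μ, hμ, e'⟩ := pow_sub_powA962 hN 1 t hN.map_one.le ht1 (l - 1)
  rw [one_pow] at e'
  refine ⟨t + h, ⟨?_, ?_⟩, ?_⟩
  · have : t + h - 1 = (t - 1) + h := by ring
    rw [this]
    refine (hN.map_add _ _).trans (max_le ht (hvh.trans ?_))
    rw [exp_le_exp]
    omega
  · have e2 : (t + h) ^ l - u = (t ^ l - u) * ((1 - t) * μ) + κ * h ^ 2 := by
      rw [e, ← e', hh]
      linear_combination (-(t ^ (l - 1) * (t ^ l - u))) * hj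
    rw [e2]
    refine (hN.map_add _ _).trans (max_le ?_ ?_)
    · refine (hN.map_mul _ _).trans ?_
      have h1 : N ((1 - t) * μ) ≤ exp (-(c + 1 + (K : ℤ))) := by
        refine (hN.map_mul _ _).trans ?_
        rw [hN.sub_swap]
        calc N (t - 1) * N μ ≤ exp (-(c + 1 + (K : ℤ))) * 1 := mul_le_mul' ht hμ
          _ = _ := mul_one _
      calc N (t ^ l - u) * N ((1 - t) * μ)
          ≤ exp (-(2 * c + 1 + (K : ℤ) + (n : ℤ))) * exp (-(c + 1 + (K : ℤ))) :=
            mul_le_mul' htu h1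
        _ ≤ exp (-(2 * c + 1 + (K : ℤ) + ((n + 1 : ℕ) : ℤ))) := by
            rw [← exp_add, exp_le_exp]
            push_cast
            omega
    · refine (hN.map_mul _ _).trans ?_
      have h2 : N (h ^ 2) ≤ exp (-(c + 1 + (K : ℤ) + (n : ℤ))) * exp (-(c + 1 + (K : ℤ) + (n : ℤ))) := by
        rw [pow_two]
        exact (hN.map_mul _ _).trans (mul_le_mul' hvh hvh)
      calc N κ * N (h ^ 2)
          ≤ 1 * (exp (-(c + 1 + (K : ℤ) + (n : ℤ))) * exp (-(c + 1 + (K : ℤ) + (n : ℤ)))) :=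
            mul_le_mul' hκ h2
        _ ≤ exp (-(2 * c + 1 + (K : ℤ) + ((n + 1 : ℕ) : ℤ))) := by
            rw [one_mul, ← exp_add, exp_le_exp]
            push_cast
            omega
  · have : t + h - t = h := by ring
    rw [this]
    refine hvh.trans ?_
    rw [exp_le_exp]
    omega

/-- **Roots near `1`**, abstract form. -/
theorem exists_rootA962 (hN : IsUNorm962 N)
    (hlim : ∀ W : ℕ → A, (∀ n, N (W (n + 1) - W n) ≤ exp (-((n : ℤ) + 1))) →
      ∃ L : A, ∀ n, N (L - W n) ≤ exp (-((n : ℤ) + 1)))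
    (hsep : ∀ x : A, (∀ n : ℕ, N x ≤ exp (-((n : ℤ) + 1))) → x = 0)
    (l : ℕ) (j : A) (hj : (l : A) * j = 1) (c : ℤ) (hc : 0 ≤ c) (hNj : N j ≤ exp c)
    (K : ℕ) (u : A) (hu : N (u - 1) ≤ exp (-(2 * c + 1 + (K : ℤ)))) :
    ∃ L : A, N (L - 1) ≤ exp (-(c + 1 + (K : ℤ))) ∧ L ^ l = u := by
  let P : ℕ → A → Prop := fun n t =>
    N (t - 1) ≤ exp (-(c + 1 + (K : ℤ))) ∧ N (t ^ l - u) ≤ exp (-(2 * c + 1 + (K : ℤ) + (n : ℤ)))
  have h₀ : P 0 1 := by
    refine ⟨by simp [hN.map_zero], ?_⟩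
    rw [one_pow, hN.sub_swap]
    simpa using hu
  let seq : (n : ℕ) → {t : A // P n t} := fun n =>
    Nat.rec (motive := fun n => {t : A // P n t}) ⟨1, h₀⟩
      (fun n a => ⟨Classical.choose (newton_stepA962 hN l j hj c hc hNj K u a.1 n a.2.1 a.2.2),
        (Classical.choose_spec (newton_stepA962 hN l j hj c hc hNj K u a.1 n a.2.1 a.2.2)).1⟩)
      n
  have hstep : ∀ n, N ((seq (n + 1)).1 - (seq n).1) ≤ exp (-((n : ℤ) + 1)) := fun n =>
    (Classical.choose_spec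
      (newton_stepA962 hN l j hj c hc hNj K u (seq n).1 n (seq n).2.1 (seq n).2.2)).2
  obtain ⟨L, hL⟩ := hlim (fun n => (seq n).1) hstep
  have hL1 : N (L - 1) ≤ exp (-(c + 1 + (K : ℤ))) := by
    have h1 := hL (c.toNat + K)
    have h2 := (seq (c.toNat + K)).2.1
    have : L - 1 = (L - (seq (c.toNat + K)).1) + ((seq (c.toNat + K)).1 - 1) := by ring
    rw [this]
    refine (hN.map_add _ _).trans (max_le (h1.trans ?_) h2)
    rw [exp_le_exp]
    push_cast
    omega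
  refine ⟨L, hL1, ?_⟩
  rw [← sub_eq_zero]
  apply hsep
  intro n
  have hw := (seq n).2
  have hLw := hL n
  set w : A := (seq n).1 with hwdef
  have hw1 : N w ≤ 1 := by
    refine hN.le_one_of_sub w (hw.1.trans ?_)
    rw [← exp_zero, exp_le_exp]
    omega
  have hLL : N L ≤ 1 := by
    refine hN.le_one_of_sub L (hL1.trans ?_)
    rw [← exp_zero, exp_le_exp]
    omega
  obtain ⟨μ, hμ, e⟩ := pow_sub_powA962 hN L w hLL hw1 l
  have : L ^ l - u = (L - w) * μ + (w ^ l - u) := by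
    rw [← e]
    ring
  rw [this]
  refine (hN.map_add _ _).trans (max_le ?_ ?_)
  · refine (hN.map_mul _ _).trans ?_
    calc N (L - w) * N μ ≤ exp (-((n : ℤ) + 1)) * 1 := mul_le_mul' hLw hμ
      _ = exp (-((n : ℤ) + 1)) := mul_one _
  · refine hw.2.trans ?_
    rw [exp_le_exp]
    omega

end Abstract

/-! ## 2. The quadratic algebra with the sup norm -/

section QA

variable {k : Type} [Field k] [Valued k Γ₀] {a b : k}

/-- The sup norm of the coordinates on `QuadraticAlgebra k a b`. -/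
def qn962 (z : QuadraticAlgebra k a b) : Γ₀ := max (Valued.v z.re) (Valued.v z.im)

theorem re_le_qn962 (z : QuadraticAlgebra k a b) : Valued.v z.re ≤ qn962 z := le_max_left _ _

theorem im_le_qn962 (z : QuadraticAlgebra k a b) : Valued.v z.im ≤ qn962 z := le_max_right _ _

theorem isUNorm_qn962 (ha : Valued.v a ≤ 1) (hb : Valued.v b ≤ 1) :
    IsUNorm962 (qn962 : QuadraticAlgebra k a b → Γ₀) where
  map_zero := by simp [qn962]
  map_one := by
    show max (Valued.v (1 : k)) (Valued.v (0 : k)) = 1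
    simp
  map_add x y := by
    unfold qn962
    rw [QuadraticAlgebra.re_add, QuadraticAlgebra.im_add]
    refine max_le ((Valued.v.map_add _ _).trans ?_) ((Valued.v.map_add _ _).trans ?_)
    · exact max_le_max (le_max_left _ _) (le_max_left _ _)
    · exact max_le_max (le_max_right _ _) (le_max_right _ _)
  map_neg x := by
    unfold qn962
    rw [QuadraticAlgebra.re_neg, QuadraticAlgebra.im_neg, Valuation.map_neg, Valuation.map_neg]
  map_mul x y := by
    have h1 : ∀ p q : k, Valued.v p ≤ qn962 x → Valued.v q ≤ qn962 y →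
        Valued.v (p * q) ≤ qn962 x * qn962 y := fun p q hp hq => by
      rw [map_mul]
      exact mul_le_mul' hp hq
    have h2 : ∀ (r p q : k), Valued.v r ≤ 1 → Valued.v p ≤ qn962 x → Valued.v q ≤ qn962 y →
        Valued.v (r * p * q) ≤ qn962 x * qn962 y := fun r p q hr hp hq => by
      rw [mul_assoc, map_mul]
      calc Valued.v r * Valued.v (p * q) ≤ 1 * (qn962 x * qn962 y) :=
            mul_le_mul' hr (h1 p q hp hq)
        _ = _ := one_mul _
    refine max_le ?_ ?_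
    · rw [QuadraticAlgebra.re_mul]
      exact (Valued.v.map_add _ _).trans (max_le
        (h1 _ _ (re_le_qn962 x) (re_le_qn962 y))
        (h2 _ _ _ ha (im_le_qn962 x) (im_le_qn962 y)))
    · rw [QuadraticAlgebra.im_mul]
      refine (Valued.v.map_add _ _).trans (max_le
        ((Valued.v.map_add _ _).trans (max_le ?_ ?_)) ?_)
      · exact h1 _ _ (re_le_qn962 x) (im_le_qn962 y)
      · exact h1 _ _ (im_le_qn962 x) (re_le_qn962 y)
      · exact h2 _ _ _ hb (im_le_qn962 x) (im_le_qn962 y)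

theorem qn_lim962 [CompleteSpace k] (hunif : ∃ ϖ : k, Valued.v ϖ = exp (-1 : ℤ))
    (W : ℕ → QuadraticAlgebra k a b)
    (h : ∀ n, qn962 (W (n + 1) - W n) ≤ exp (-((n : ℤ) + 1))) :
    ∃ L : QuadraticAlgebra k a b, ∀ n, qn962 (L - W n) ≤ exp (-((n : ℤ) + 1)) := by
  obtain ⟨L₁, hL₁⟩ := H220.exists_lim220 hunif (fun n => (W n).re)
    (fun n => by
      have := (re_le_qn962 (W (n + 1) - W n)).trans (h n)
      rwa [QuadraticAlgebra.re_sub] at this)
  obtain ⟨L₂, hL₂⟩ := H220.exists_lim220 hunif (fun n => (W n).im)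
    (fun n => by
      have := (im_le_qn962 (W (n + 1) - W n)).trans (h n)
      rwa [QuadraticAlgebra.im_sub] at this)
  refine ⟨⟨L₁, L₂⟩, fun n => ?_⟩
  unfold qn962
  rw [QuadraticAlgebra.re_sub, QuadraticAlgebra.im_sub]
  exact max_le (hL₁ n) (hL₂ n)

theorem qn_sep962 (x : QuadraticAlgebra k a b)
    (h : ∀ n : ℕ, qn962 x ≤ exp (-((n : ℤ) + 1))) : x = 0 := by
  ext
  · exact H220.eq_zero_of_forall_le220 _ (fun n => (re_le_qn962 x).trans (h n))
  · exact H220.eq_zero_of_forall_le220 _ (fun n => (im_le_qn962 x).trans (h n))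

end QA

/-! ## 3. The leaf -/

section Leaf

variable {k : Type} [Field k] [Valued k Γ₀]

theorem le_exp_toNat962 (x : Γ₀) (m : ℕ) (h : (log x).toNat ≤ m) : x ≤ exp (m : ℤ) := by
  rcases eq_or_ne x 0 with rfl | hx
  · exact zero_le
  · rw [← exp_log hx, exp_le_exp]
    omega

omit [Valued k Γ₀] in
/-- Cayley-Hamilton for `ϖ ^ m γ₀`. -/
theorem cayley962 (g : Matrix (Fin 2) (Fin 2) k) (p : k) :
    (p • g) * (p • g) = (-(p ^ 2 * g.det)) • (1 : Matrix (Fin 2) (Fin 2) k)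
      + (p * g.trace) • (p • g) := by
  ext i j
  fin_cases i <;> fin_cases j <;>
    simp [Matrix.mul_apply, Fin.sum_univ_two, Matrix.det_fin_two, Matrix.trace_fin_two] <;> ring

/-- **T6.18f.2 `RootC179`**, unconditional. -/
theorem rootC962 : H179.RootC179 := by
  intro k _ _ q hk l hl γ₀ _ M
  have := hk.complete
  have := hk.char0
  obtain ⟨ϖ, hϖ⟩ := hk.unif
  have hϖ0 : ϖ ≠ 0 := by
    intro h0
    rw [h0, map_zero] at hϖ
    exact exp_ne_zero hϖ.symm
  set G : Matrix (Fin 2) (Fin 2) k := (γ₀ : Matrix (Fin 2) (Fin 2) k) with hG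
  -- the scaling exponent
  set m : ℕ := max (log (Valued.v G.trace)).toNat (log (Valued.v G.det)).toNat with hm
  have hτ : Valued.v G.trace ≤ exp (m : ℤ) := le_exp_toNat962 _ m (le_max_left _ _)
  have hδ : Valued.v G.det ≤ exp (m : ℤ) := le_exp_toNat962 _ m (le_max_right _ _)
  have hvp : Valued.v (ϖ ^ m) = exp (-(m : ℤ)) := by
    rw [map_pow, hϖ, ← exp_nsmul]
    simp
  have ha : Valued.v (-(((ϖ ^ m) ^ 2) * G.det)) ≤ 1 := by
    rw [Valuation.map_neg, map_mul, map_pow, hvp]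
    calc exp (-(m : ℤ)) ^ 2 * Valued.v G.det ≤ exp (-(m : ℤ)) ^ 2 * exp (m : ℤ) :=
          mul_le_mul' le_rfl hδ
      _ ≤ 1 := by
          rw [pow_two, ← exp_add, ← exp_add, ← exp_zero, exp_le_exp]
          omega
  have hb : Valued.v ((ϖ ^ m) * G.trace) ≤ 1 := by
    rw [map_mul, hvp]
    calc exp (-(m : ℤ)) * Valued.v G.trace ≤ exp (-(m : ℤ)) * exp (m : ℤ) :=
          mul_le_mul' le_rfl hτ
      _ ≤ 1 := by
          rw [← exp_add, ← exp_zero, exp_le_exp]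
          omega
  -- the algebra and the morphism
  let Φ : QuadraticAlgebra k (-(((ϖ ^ m) ^ 2) * G.det)) ((ϖ ^ m) * G.trace)
      →ₐ[k] Matrix (Fin 2) (Fin 2) k :=
    QuadraticAlgebra.lift ⟨(ϖ ^ m) • G, cayley962 G (ϖ ^ m)⟩
  have hΦ : ∀ z : QuadraticAlgebra k (-(((ϖ ^ m) ^ 2) * G.det)) ((ϖ ^ m) * G.trace),
      Φ z = z.re • (1 : Matrix (Fin 2) (Fin 2) k) + z.im • ((ϖ ^ m) • G) := fun z => rfl
  have hN := isUNorm_qn962 ha hb
  -- the constant of `l`
  have hl0 : ((l : ℕ) : k) ≠ 0 := Nat.cast_ne_zero.2 hl.ne'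
  have hv0 : Valued.v ((l : k)) ≠ 0 := (Valuation.ne_zero_iff _).2 hl0
  set c : ℤ := - log (Valued.v ((l : k))) with hc
  have hvl : Valued.v ((l : k)) = exp (-c) := by
    rw [hc, neg_neg, exp_log hv0]
  have hc0 : 0 ≤ c := by
    have h1 : Valued.v ((l : k)) ≤ 1 := by
      have := hN.natCast_le l
      exact (re_le_qn962 _).trans this
    rw [hvl, ← exp_zero, exp_le_exp] at h1
    omega
  set K : ℕ := M.toNat with hK
  refine ⟨2 * c + 1 + (K : ℤ) + (m : ℤ), fun x y hx hy => ?_⟩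
  -- the target
  set u : QuadraticAlgebra k (-(((ϖ ^ m) ^ 2) * G.det)) ((ϖ ^ m) * G.trace) :=
    ⟨x, y * (ϖ ^ m)⁻¹⟩ with hu
  have hu1 : qn962 (u - 1) ≤ exp (-(2 * c + 1 + (K : ℤ))) := by
    refine max_le ?_ ?_
    · show Valued.v (x - 1) ≤ _
      refine hx.trans ?_
      rw [exp_le_exp]
      omega
    · show Valued.v (y * (ϖ ^ m)⁻¹ - 0) ≤ _
      rw [sub_zero, map_mul, map_inv₀, hvp, ← exp_neg, neg_neg]
      calc Valued.v y * exp (m : ℤ) ≤ exp (-(2 * c + 1 + (K : ℤ) + (m : ℤ))) * exp (m : ℤ) :=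
            mul_le_mul' hy le_rfl
        _ = exp (-(2 * c + 1 + (K : ℤ))) := by
            rw [← exp_add]
            congr 1
            ring
  have hj : ((l : ℕ) : QuadraticAlgebra k (-(((ϖ ^ m) ^ 2) * G.det)) ((ϖ ^ m) * G.trace))
      * ⟨((l : ℕ) : k)⁻¹, 0⟩ = 1 := by
    ext
    · simp [hl0]
      rfl
    · simp
      rfl
  have hNj : qn962 (⟨((l : ℕ) : k)⁻¹, 0⟩ :
      QuadraticAlgebra k (-(((ϖ ^ m) ^ 2) * G.det)) ((ϖ ^ m) * G.trace)) ≤ exp c := by
    refine max_le ?_ ?_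
    · show Valued.v (((l : ℕ) : k)⁻¹) ≤ _
      rw [map_inv₀, hvl, ← exp_neg, neg_neg]
    · show Valued.v (0 : k) ≤ _
      simp
  obtain ⟨L, hL1, hLu⟩ := exists_rootA962 hN (qn_lim962 hk.unif) qn_sep962 l _ hj c hc0 hNj K u hu1
  refine ⟨L.re, L.im * ϖ ^ m, ?_, ?_, ?_⟩
  · have h1 : Valued.v (L.re - 1) ≤ qn962 (L - 1) := le_max_left _ _
    refine (h1.trans hL1).trans ?_
    rw [exp_le_exp]
    omega
  · have h1 : Valued.v (L.im - 0) ≤ qn962 (L - 1) := le_max_right _ _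
    rw [sub_zero] at h1
    rw [map_mul, hvp]
    calc Valued.v L.im * exp (-(m : ℤ)) ≤ exp (-(c + 1 + (K : ℤ))) * exp (-(m : ℤ)) :=
          mul_le_mul' (h1.trans hL1) le_rfl
      _ ≤ exp (-M) := by
          rw [← exp_add, exp_le_exp]
          omega
  · have e1 : L.re • (1 : Matrix (Fin 2) (Fin 2) k) + (L.im * ϖ ^ m) • G = Φ L := by
      rw [hΦ, smul_smul]
    have e2 : x • (1 : Matrix (Fin 2) (Fin 2) k) + y • G = Φ u := by
      rw [hΦ, smul_smul]
      show _ = x • (1 : Matrix (Fin 2) (Fin 2) k) + (y * (ϖ ^ m)⁻¹ * ϖ ^ m) • G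
      rw [inv_mul_cancel_right₀ (pow_ne_zero _ hϖ0)]
    rw [e1, e2, ← map_pow, hLu]

end Leaf

end Fermat.Agent.LT.T6.H962

end

end
-- ===== PACK-END LT/T6/H962/RootQA.lean

-- ===== PACK-BEGIN LT/T6/H179/LocRegTop.lean
section


/-!
# Row LT, tower T6, leaf T6.18f `LocRegC783`: the PROVED top (helper179)

`locReg_of_leaves179 : NormOpenC179 → OrdC179 → TwC179 → H783.LocRegC783`.

OFF-MAIN.  Mathlib + `T6/Spec.lean` + `H783/BadSpec.lean` + `H179/LocRegSpec.lean` only.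
-/

set_option autoImplicit false

open scoped Matrix

noncomputable section

namespace Fermat.Agent.LT.T6.H179

open Fermat.Agent.LT.T6 Fermat.Agent.LT.T6.H783

section Companion

variable {k : Type} [Field k]

/-- The companion matrix of `X² - t X + d`. -/
def compMat179 (t d : k) : Matrix (Fin 2) (Fin 2) k := !![0, -d; 1, t]

theorem compMat179_det (t d : k) : (compMat179 t d).det = d := by
  simp [compMat179, Matrix.det_fin_two]

theorem compMat179_trace (t d : k) : (compMat179 t d).trace = t := by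
  simp [compMat179, Matrix.trace_fin_two]

/-- The companion matrix as an element of `GL₂(k)`. -/
def comp179 (t d : k) (hd : d ≠ 0) : GL (Fin 2) k :=
  Matrix.GeneralLinearGroup.mkOfDetNeZero (compMat179 t d) (by rw [compMat179_det]; exact hd)

theorem comp179_coe (t d : k) (hd : d ≠ 0) :
    ((comp179 t d hd : GL (Fin 2) k) : Matrix (Fin 2) (Fin 2) k) = compMat179 t d := rfl

theorem comp179_isReg (t d : k) (hd : d ≠ 0) (h : t ^ 2 - 4 * d ≠ 0) :
    IsReg (comp179 t d hd) := by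
  unfold IsReg disc
  rw [comp179_coe, compMat179_trace, compMat179_det]
  exact isUnit_iff_ne_zero.mpr h

end Companion

section Ball

variable {k : Type} [Field k] [Valued k Γ₀]

theorem near179_comp_iff (t d : k) (hd : d ≠ 0) (N : ℤ) (γ : GL (Fin 2) k) :
    Near179 (comp179 t d hd) N γ ↔ InChiBall783 t d N γ := by
  unfold Near179
  rw [comp179_coe, compMat179_trace, compMat179_det]

theorem near179_mono {γ₀ γ : GL (Fin 2) k} {N N' : ℤ} (h : N' ≤ N) (hγ : Near179 γ₀ N γ) :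
    Near179 γ₀ N' γ := by
  have he : WithZero.exp (-N) ≤ WithZero.exp (-N') := by
    rw [WithZero.exp_le_exp]; omega
  exact ⟨hγ.1.trans he, hγ.2.trans he⟩

end Ball

section OrbSum

variable {k : Type} [Field k] [Valued k Γ₀]

/-- The orbit sums of the zero function vanish. -/
theorem isOrbSum_zero179 (m : ℕ) (γ : GL (Fin 2) k) (c : ℂ)
    (h : IsOrbSum m (fun _ => (0 : ℂ)) γ c) : c = 0 := by
  obtain ⟨R, -, -, -, hc⟩ := h
  rw [hc]
  simp

/-- Orbit sums are homogeneous: from `λ f` (`λ ≠ 0`) to `f`. -/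
theorem isOrbSum_of_smul179 (m : ℕ) (f : GL (Fin 2) k → ℂ) (γ : GL (Fin 2) k) (lam c : ℂ)
    (hlam : lam ≠ 0) (h : IsOrbSum m (fun g => lam * f g) γ c) : IsOrbSum m f γ (c / lam) := by
  obtain ⟨R, h1, h2, h3, hc⟩ := h
  refine ⟨R, h1, h2, ?_, ?_⟩
  · intro y hy hfy
    exact h3 y hy (mul_ne_zero hlam hfy)
  · rw [hc, Finset.sum_div]
    refine Finset.sum_congr rfl ?_
    intro y _
    field_simp

end OrbSum

/-- **THE LEAF `T6.18f` FROM ITS SUB-LEAVES.** -/
theorem locReg_of_leaves179 (hNO : NormOpenC179) (hOrd : OrdC179) (hTw : TwC179) :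
    LocRegC783 := by
  intro k k' _ _ _ _ q l e i s n φ hB t₀ d₀ hd hdisc
  classical
  set γ₀ : GL (Fin 2) k := comp179 t₀ d₀ hd with hγ₀
  have hreg₀ : IsReg γ₀ := comp179_isReg t₀ d₀ hd hdisc
  obtain ⟨N₃, hN₃⟩ := hNO k k' q l e i s hB.hk hB.hk' hB.ext γ₀ hreg₀
  by_cases hnorm : IsNormFrom l i s γ₀
  · -- `γ₀` is a norm
    obtain ⟨N₁, m, f₀, κ, hκ, hinv, hsupp, hconst⟩ := hOrd k q hB.hk γ₀ hreg₀
    obtain ⟨N₂, hN₂⟩ := hTw k k' q l e i s n φ hB γ₀ hreg₀
    -- the common value of the twisted orbit sums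
    let P : ℂ → Prop := fun c => ∃ (γ : GL (Fin 2) k) (δ : GL (Fin 2) k'),
      Near179 γ₀ N₂ γ ∧ IsConj (twNorm s l δ) (Matrix.GeneralLinearGroup.map i γ) ∧
        IsTwOrbSum s n φ δ c
    let τ : ℂ := if h : ∃ c, P c then h.choose else 0
    have hτ : ∀ (γ : GL (Fin 2) k) (δ : GL (Fin 2) k') (c : ℂ), Near179 γ₀ N₂ γ →
        IsConj (twNorm s l δ) (Matrix.GeneralLinearGroup.map i γ) → IsTwOrbSum s n φ δ c →
        c = τ := by
      intro γ δ c h1 h2 h3
      have hex : ∃ c, P c := ⟨c, γ, δ, h1, h2, h3⟩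
      have hτ' : τ = hex.choose := dif_pos hex
      obtain ⟨γ', δ', h1', h2', h3'⟩ := hex.choose_spec
      rw [hτ']
      exact hN₂ γ γ' δ δ' c hex.choose h1 h1' h2 h2' h3 h3'
    refine ⟨max N₁ (max N₂ N₃), m, fun g => τ / κ * f₀ g, ?_, ?_, ?_, ?_⟩
    · intro u u' g hu hu'
      show τ / κ * f₀ (u * g * u') = τ / κ * f₀ g
      rw [hinv u u' g hu hu']
    · obtain ⟨F, hF⟩ := hsupp
      refine ⟨F, fun g hg => hF g ?_⟩
      intro h0
      apply hg
      show τ / κ * f₀ g = 0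
      rw [h0, mul_zero]
    · intro δ γ c c' _ hball hconj hc hc'
      have hball' : Near179 γ₀ (max N₁ (max N₂ N₃)) γ :=
        (near179_comp_iff t₀ d₀ hd _ γ).mpr hball
      have hb₁ : Near179 γ₀ N₁ γ := near179_mono (le_max_left _ _) hball'
      have hb₂ : Near179 γ₀ N₂ γ :=
        near179_mono ((le_max_left _ _).trans (le_max_right _ _)) hball'
      have hcτ : c = τ := hτ γ δ c hb₂ hconj hc
      by_cases hτ0 : τ = 0
      · have hf0 : (fun g => τ / κ * f₀ g) = fun _ => (0 : ℂ) := by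
          funext g; rw [hτ0]; simp
        rw [hf0] at hc'
        rw [hcτ, hτ0, isOrbSum_zero179 m γ c' hc']
      · have hlam : τ / κ ≠ 0 := div_ne_zero hτ0 hκ
        have h1 := isOrbSum_of_smul179 m f₀ γ (τ / κ) c' hlam hc'
        have h2 := hconst γ _ hb₁ h1
        rw [div_eq_iff hlam] at h2
        rw [hcτ, h2]
        field_simp
    · intro γ c' _ hball hnot _
      exfalso
      have hball' : Near179 γ₀ (max N₁ (max N₂ N₃)) γ :=
        (near179_comp_iff t₀ d₀ hd _ γ).mpr hball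
      have hb₃ : Near179 γ₀ N₃ γ :=
        near179_mono ((le_max_right _ _).trans (le_max_right _ _)) hball'
      exact hnot ((hN₃ γ hb₃).mpr hnorm)
  · -- `γ₀` is not a norm: no norm nearby, `f = 0`
    refine ⟨N₃, 0, fun _ => 0, ?_, ?_, ?_, ?_⟩
    · intro u u' g _ _
      rfl
    · exact ⟨∅, fun g hg => absurd rfl hg⟩
    · intro δ γ c c' _ hball hconj _ _
      exfalso
      have hb₃ : Near179 γ₀ N₃ γ := (near179_comp_iff t₀ d₀ hd _ γ).mpr hball
      exact hnorm ((hN₃ γ hb₃).mp ⟨δ, hconj⟩)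
    · intro γ c' _ _ _ hc'
      exact isOrbSum_zero179 0 γ c' hc'

end Fermat.Agent.LT.T6.H179

end

end
-- ===== PACK-END LT/T6/H179/LocRegTop.lean

-- ===== PACK-BEGIN LT/T6/H385/QuatSpec.lean
section




/-!
# Row LT, tower T6, leaf T6.18i `CenQuatC783` (the QUATERNION case of `BadMatchC`): SUB-SPEC
(helper385), OFF-MAIN

Definitions + frozen sub-leaf Props.  The PROVED tops are in `QuatTop.lean`:

* `cenQuat_of_leaves385 : H288.CartanInvC → SphFinSuppC385 → EPOrbC385 → HypNonNormC385 →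
    EllNormC385 → TwDescC385 → H783.CenQuatC783`
* `ellNorm_of_cases385 : H159.NormCritC → EllNormRamC385 → EllNormC385`
* `ellNormRam_of_core385 : SqrtNearC385 → QuatCoreRamC385 → EllNormRamC385`
* `twDesc_of_leaves385 : TwReduceC385 → TwDescOrbC385 → TwDescC385`

Imports: `T6/Spec.lean` (helper22), `H783/BadSpec.lean`, `H288/HypSpec.lean`,
`H159/NormSpec.lean` (+ `VanishSpec.lean`), byte-identical copies.

## Setting

`k'/k` a QUADRATIC extension of local fields (`l = 2`, `e ∈ {1, 2}`), `σ = s`, `z ∈ k^×` NOT a norm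
from `k'`, `φ` bi-`U'(n)`-invariant of finite support on `G' = GL₂(k')`.  Wanted: `N`, `m`, `f`
with `O_γ(f) = TO_δ(φ)` (`γ ∼ N δ`) and `O_γ(f) = 0` (`γ` not a norm) for the regular `γ` in the
`χ`-ball `|tr γ - 2z| ≤ exp(-N)`, `|det γ - z²| ≤ exp(-N)`.

## The proof ([L] §6, Lemma 6.2 and the discussion of the quaternion algebra; Arthur–Clozel I.3)

`δ₀ = [[0, z], [1, 0]]`, `N δ₀ = δ₀ σ(δ₀) = z`.  `D = {x ∈ M₂(k') : x δ₀ = δ₀ σ(x)}
= {[[a, z σ(b)], [b, σ(a)]]}` is the quaternion algebra `(k'/k, z)`, a DIVISION algebra because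
`Nrd = N a - z N b` and `z` is not a norm.  `D^×` is the twisted centraliser of `δ₀`.

1. **NORMS NEAR `z`** (regular `γ` in a small `χ`-ball around `(2z, z²)`):
   * `γ` hyperbolic ⇒ `γ` is NOT a norm (`HypNonNormC385`): `γ ∼ N δ` gives `δ ∼_σ diag(d₁, d₂)`,
     `N d₁ = t₁` (`H288.DiagReduceC`), and `t₁/z ∈ 1 + 4ϖ𝒪 ⊂ (k^×)² ⊂ N k'^×`.
   * `γ` elliptic ⇒ `γ` IS a norm (`EllNormC385`).  `e = 1`: `H159.NormCritC` (`ord det γ` is
     even).  `e = 2` (`EllNormRamC385`): `γ / z = w²`, `w = a + b γ` (`SqrtNearC385`, Newton) and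
     `z = ζ σ(ζ)` with `ζ ∈ k'[γ]^×` (`QuatCoreRamC385`: if `k[γ] ≅ k'`, `k'[γ] ≅ k' × k'` with
     `σ(p, q) = (σ q, σ p)` and `ζ = (z, 1)`; otherwise `M = k'[γ]` is a biquadratic field and
     `k^× ⊂ N_{M/k[γ]} M^×` -- LOCAL CLASS FIELD THEORY for quadratic extensions); `δ = ζ w`.
2. **THE FUNCTION** (`EPOrbC385`): the SPHERICAL function
   `f₀ = 1_{K ϖ^{(j+1, j-1)} K} - (q - 1) 1_{K ϖ^{(j, j)} K}`, `j = ord z` (the `K`-spherical
   projection of twice the Euler–Poincaré function) has, at the regular `γ` near `z`, the orbital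
   integrals `2` (`k[γ]` unramified field), `1` (ramified field), `0` (hyperbolic): if `V` is
   the number of fixed vertices modulo the torus, the number of vertices at distance `1` from
   the fixed tree is `(q - 1) V + 2`, `+ 1`, `+ 0`.  In the formulas of the fundamental lemma:
   `wFix q V j (j+1, j-1) - (q-1) wFix q V j (j, j) = 2` (H60.OrbEllUnrC),
   `ellWeight q (j+1, j-1) (2j) Θ - (q-1) ellWeight q (j, j) (2j) Θ = 1` (H847.EllOrbC),
   `constTerm q f₀ j j = 0` (H288.OrbSumDiagC).  LEVEL `m = 0`.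
3. **TWISTED DESCENT TO `D^×`** (`TwDescC385`): for `γ` elliptic near `z`, `γ ∼ N δ`:
   `TO_δ(φ) = c₀ · #(k[γ]^× \ D^× / 𝒪_D^×)`, the number of double cosets being `2` for `k[γ]/k`
   unramified and `1` for `k[γ]/k` ramified, with
   `c₀ = ∑_{x ∈ D^× \ G' / U'(n)} φ(x⁻¹ δ₀ σ(x)) [𝒪_D^× : D^× ∩ x U'(n) x⁻¹]`.
   * `TwReduceC385`: `δ ∼_σ w δ₀` with `w ∈ D^×` as close to `1` as we want.  (`N δ = γ` after
     `σ`-conjugation; `u = γ/z = w₁²`, `w₁ = a + b γ` near `1`; `ζ = δ w₁⁻¹` commutes with `γ` and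
     `ζ σ(ζ) = z`; `F = ζ ∘ σ` is `σ`-semilinear on `k'²` with `F² = z`, and `F v ∉ k' v` because
     `z` is not a norm, so `x = [v | F v]` is invertible and `x⁻¹ ζ σ(x) = δ₀`; then
     `δ = x (w δ₀) σ(x)⁻¹` with `w = x⁻¹ w₁ x ∈ D^×`; `Nrd (w - 1) = 1 - tr w₁ + det w₁` is small and
     `Nrd` is anisotropic with `z·(1 + ϖ^{N₀} 𝒪) ∩ N k'^× = ∅`, so the entries of `w - 1` are
     small.)
   * `TwDescOrbC385`: for `w ∈ D^× ∩ U'(M)`, `M` large: the twisted centraliser of `w δ₀` is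
     `k[w]^× ⊂ D^×`; UNIFORM PROPERNESS: `{x : x⁻¹ w δ₀ σ(x) ∈ supp φ} ⊂ D^× C U'(n)` with a finite
     `C` independent of `w` (`w δ₀ σ` has the same fixed point on the tree of `k'` as `δ₀ σ`: the
     midpoint of an edge inverted by `D^×` if `e = 1`, a vertex if `e = 2`); `1 + Π^M 𝒪_D` is normal
     in `D^×`, so `φ(x⁻¹ w δ₀ σ(x)) = φ(x⁻¹ δ₀ σ(x))` for all `x`; count the
     `(k[w]^×, U')`-double cosets in each `(D^×, U')`-double coset with their weights:
     `∑_{d ∈ L^× \ D^× / Γ} [𝒪_L^× : L^× ∩ d Γ d⁻¹] = #(L^× \ D^× / 𝒪_D^×) · [𝒪_D^× : Γ]`.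

All Props are TRUE statements of mathematics.  `QuatCoreRamC385` in the WILD case (`e = 2`,
residue characteristic `2`) is not needed by the wall (`ℚ(√-3)/ℚ` is ramified at `3` only) but
is part of `BadMatchC` as stated.
-/

set_option autoImplicit false

open scoped Matrix

noncomputable section

namespace Fermat.Agent.LT.T6.H385

open Fermat.Agent.LT.T6 Fermat.Agent.LT.T6.H783

/-! ## Definitions -/

/-- The additive valuation `ord x = - log v(x)`. -/
def ord385 {k : Type} [Field k] [Valued k Γ₀] (x : k) : ℤ := - WithZero.log (Valued.v x)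

open Classical in
/-- The multiplicity `#(k[γ]^× \ D^× / 𝒪_D^×)` for elliptic `γ` (`2` if `k[γ]/k` is unramified,
`1` if it is ramified), and `0` for hyperbolic `γ`. -/
def quatMult385 (k : Type) [Field k] [Valued k Γ₀] (γ : GL (Fin 2) k) : ℂ :=
  if HasEigen k γ then 0 else if HasRamUnif k γ then 1 else 2

/-- The spherical function `1_{K ϖ^{(j+1, j-1)} K} - (q - 1) 1_{K ϖ^{(j, j)} K}` as a function of
the Cartan invariant. -/
def epFun385 (q : ℕ) (j : ℤ) : (ℤ × ℤ) →₀ ℂ :=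
  Finsupp.single (j + 1, j - 1) 1 - Finsupp.single (j, j) ((q : ℂ) - 1)

/-- The hypotheses on the fields: `k'/k` quadratic extension of local fields, ramification
index `e`. -/
structure QuadData385 (k k' : Type) [Field k] [Field k'] [Valued k Γ₀] [Valued k' Γ₀]
    (q e : ℕ) (i : k →+* k') (s : k' ≃+* k') : Prop where
  hk : IsLocalField k q
  hk' : IsLocalField k' (q ^ (2 / e))
  ext : IsLocalExt k k' 2 e i s

/-! ## First level: the six leaves of `cenQuat_of_leaves385` -/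

/-- **Q0 (finite support of spherical functions).**  A function of the Cartan invariant with
finite support on `ℤ × ℤ` is supported on finitely many cosets `x GL₂(𝒪)`
(`K ϖ^{(a,b)} K` is a finite union of cosets: Hermite normal form). -/
def SphFinSuppC385 : Prop :=
  ∀ (k : Type) [Field k] [Valued k Γ₀] (q : ℕ), IsLocalField k q →
    ∀ F : (ℤ × ℤ) →₀ ℂ, HasFinSupp (InU 0) (fun g : GL (Fin 2) k => F (cartan g))

/-- **Q3 (the orbital integrals of the spherical Euler–Poincaré function near the centre).** -/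
def EPOrbC385 : Prop :=
  ∀ (k : Type) [Field k] [Valued k Γ₀] (q : ℕ), IsLocalField k q →
    ∀ z : k, z ≠ 0 → ∃ N : ℤ, ∀ γ : GL (Fin 2) k, IsReg γ →
      InChiBall783 (2 * z) (z ^ 2) N γ →
      ∀ c' : ℂ, IsOrbSum 0 (fun g => epFun385 q (ord385 z) (cartan g)) γ c' →
        c' = quatMult385 k γ

/-- **Q1a (near a central non-norm the hyperbolic regular elements are not norms).** -/
def HypNonNormC385 : Prop :=
  ∀ (k k' : Type) [Field k] [Field k'] [Valued k Γ₀] [Valued k' Γ₀] (q e : ℕ)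
    (i : k →+* k') (s : k' ≃+* k'), QuadData385 k k' q e i s →
    ∀ z : k, z ≠ 0 → ¬ IsFieldNorm783 2 i s z →
      ∃ N : ℤ, ∀ γ : GL (Fin 2) k, IsReg γ → InChiBall783 (2 * z) (z ^ 2) N γ →
        HasEigen k γ → ¬ IsNormFrom 2 i s γ

/-- **Q1b (near a central element the elliptic regular elements are norms).** -/
def EllNormC385 : Prop :=
  ∀ (k k' : Type) [Field k] [Field k'] [Valued k Γ₀] [Valued k' Γ₀] (q e : ℕ)
    (i : k →+* k') (s : k' ≃+* k'), QuadData385 k k' q e i s →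
    ∀ z : k, z ≠ 0 →
      ∃ N : ℤ, ∀ γ : GL (Fin 2) k, IsReg γ → InChiBall783 (2 * z) (z ^ 2) N γ →
        ¬ HasEigen k γ → IsNormFrom 2 i s γ

/-- **Q2 (twisted descent to the quaternion algebra).**  The twisted orbit sums of `φ` at the `δ`
with `N δ ∼ γ`, `γ` elliptic regular near the central non-norm `z`, are `c₀` times the number of
double cosets `k[γ]^× \ D^× / 𝒪_D^×`. -/
def TwDescC385 : Prop :=
  ∀ (k k' : Type) [Field k] [Field k'] [Valued k Γ₀] [Valued k' Γ₀] (q e : ℕ)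
    (i : k →+* k') (s : k' ≃+* k') (n : ℕ) (φ : GL (Fin 2) k' → ℂ),
    BadData783 k k' q 2 e i s n φ →
    ∀ z : k, z ≠ 0 → ¬ IsFieldNorm783 2 i s z →
      ∃ (N : ℤ) (c₀ : ℂ), ∀ (δ : GL (Fin 2) k') (γ : GL (Fin 2) k) (c : ℂ), IsReg γ →
        InChiBall783 (2 * z) (z ^ 2) N γ → ¬ HasEigen k γ →
        IsConj (twNorm s 2 δ) (Matrix.GeneralLinearGroup.map i γ) →
        IsTwOrbSum s n φ δ c → c = c₀ * quatMult385 k γ

/-! ## Second level: `EllNormC385` -/

/-- **Q1b, ramified case** (`e = 2`). -/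
def EllNormRamC385 : Prop :=
  ∀ (k k' : Type) [Field k] [Field k'] [Valued k Γ₀] [Valued k' Γ₀] (q : ℕ)
    (i : k →+* k') (s : k' ≃+* k'), QuadData385 k k' q 2 i s →
    ∀ z : k, z ≠ 0 →
      ∃ N : ℤ, ∀ γ : GL (Fin 2) k, IsReg γ → InChiBall783 (2 * z) (z ^ 2) N γ →
        ¬ HasEigen k γ → IsNormFrom 2 i s γ

/-- **Q1b.1 (square root near the centre; Newton iteration in `𝒪[γ/z]`).**  For `γ` in a small
`χ`-ball around `(2z, z²)` there are `a, b ∈ k` with `(a + b γ)² = γ / z`; moreover `a + b γ` is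
as close to `1` as we want in the sense `|tr - 2| ≤ exp(-M)`, `|det - 1| ≤ exp(-M)`. -/
def SqrtNearC385 : Prop :=
  ∀ (k : Type) [Field k] [Valued k Γ₀] (q : ℕ), IsLocalField k q →
    ∀ z : k, z ≠ 0 → ∀ M : ℕ, ∃ N : ℤ, ∀ γ : GL (Fin 2) k,
      InChiBall783 (2 * z) (z ^ 2) N γ →
      ∃ (w : GL (Fin 2) k) (a b : k),
        (w : Matrix (Fin 2) (Fin 2) k) = a • (1 : Matrix (Fin 2) (Fin 2) k)
          + b • (γ : Matrix (Fin 2) (Fin 2) k) ∧
        (w : Matrix (Fin 2) (Fin 2) k) * (w : Matrix (Fin 2) (Fin 2) k)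
          = z⁻¹ • (γ : Matrix (Fin 2) (Fin 2) k) ∧
        InChiBall783 (2 : k) (1 : k) (M : ℤ) w

/-- **Q1b.2 (LOCAL CLASS FIELD THEORY, quadratic case, matrix form).**  `k'/k` RAMIFIED quadratic,
`γ ∈ GL₂(k)` regular ELLIPTIC, `z ∈ k^×`: there is `ζ ∈ k'[γ]^×` with `ζ σ(ζ) = z`.
(`k[γ] ≅ k'`: `ζ = (z, 1)` in `k'[γ] ≅ k' × k'`.  Otherwise `M = k'[γ]` is a field, biquadratic
over `k`, and `k^× ⊂ N_{M/k[γ]}(M^×)`: the norm groups of the two other quadratic subfields are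
two DIFFERENT subgroups of index `2` of `k^×`.) -/
def QuatCoreRamC385 : Prop :=
  ∀ (k k' : Type) [Field k] [Field k'] [Valued k Γ₀] [Valued k' Γ₀] (q : ℕ)
    (i : k →+* k') (s : k' ≃+* k'), QuadData385 k k' q 2 i s →
    ∀ z : k, z ≠ 0 → ∀ γ : GL (Fin 2) k, IsReg γ → ¬ HasEigen k γ →
      ∃ (ζ : GL (Fin 2) k') (a b : k'),
        (ζ : Matrix (Fin 2) (Fin 2) k') = a • (1 : Matrix (Fin 2) (Fin 2) k')
          + b • ((Matrix.GeneralLinearGroup.map i γ : GL (Fin 2) k') :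
              Matrix (Fin 2) (Fin 2) k') ∧
        (ζ : Matrix (Fin 2) (Fin 2) k') * ((glAut s ζ : GL (Fin 2) k') :
            Matrix (Fin 2) (Fin 2) k') = (i z) • (1 : Matrix (Fin 2) (Fin 2) k')

/-! ## Second level: `TwDescC385` -/

/-- `δ₀ = [[0, z], [1, 0]]` (as a predicate on an element of `GL₂`). -/
def IsQuatBase385 {k' : Type} [Field k'] (z : k') (δ₀ : GL (Fin 2) k') : Prop :=
  (δ₀ : Matrix (Fin 2) (Fin 2) k') = !![0, z; 1, 0]

/-- `w` lies in `D^×`, the twisted centraliser of `δ₀`: `w δ₀ = δ₀ σ(w)`. -/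
def InQuat385 {k' : Type} [Field k'] (s : k' ≃+* k') (δ₀ w : GL (Fin 2) k') : Prop :=
  w * δ₀ = δ₀ * glAut s w

/-- **Q2.1 (reduction to `w δ₀`, `w ∈ D^×` near `1`; algebra + Newton).** -/
def TwReduceC385 : Prop :=
  ∀ (k k' : Type) [Field k] [Field k'] [Valued k Γ₀] [Valued k' Γ₀] (q e : ℕ)
    (i : k →+* k') (s : k' ≃+* k'), QuadData385 k k' q e i s →
    ∀ z : k, z ≠ 0 → ¬ IsFieldNorm783 2 i s z → ∀ M : ℕ,
      ∃ N : ℤ, ∀ (δ : GL (Fin 2) k') (γ : GL (Fin 2) k), IsReg γ →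
        InChiBall783 (2 * z) (z ^ 2) N γ →
        IsConj (twNorm s 2 δ) (Matrix.GeneralLinearGroup.map i γ) →
        ∃ w δ₀ : GL (Fin 2) k', IsQuatBase385 (i z) δ₀ ∧ InQuat385 s δ₀ w ∧ InU M w ∧
          IsTwConj s δ (w * δ₀)

/-- **Q2.2 (the descent identity for the orbit sums).** -/
def TwDescOrbC385 : Prop :=
  ∀ (k k' : Type) [Field k] [Field k'] [Valued k Γ₀] [Valued k' Γ₀] (q e : ℕ)
    (i : k →+* k') (s : k' ≃+* k') (n : ℕ) (φ : GL (Fin 2) k' → ℂ),
    BadData783 k k' q 2 e i s n φ →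
    ∀ z : k, z ≠ 0 → ¬ IsFieldNorm783 2 i s z →
      ∃ (M : ℕ) (c₀ : ℂ), ∀ (w δ₀ : GL (Fin 2) k') (γ : GL (Fin 2) k) (c : ℂ),
        IsQuatBase385 (i z) δ₀ → InQuat385 s δ₀ w → InU M w →
        IsReg γ → ¬ HasEigen k γ →
        IsConj (twNorm s 2 (w * δ₀)) (Matrix.GeneralLinearGroup.map i γ) →
        IsTwOrbSum s n φ (w * δ₀) c → c = c₀ * quatMult385 k γ

end Fermat.Agent.LT.T6.H385

end

end
-- ===== PACK-END LT/T6/H385/QuatSpec.lean

-- ===== PACK-BEGIN LT/T6/H313/Lift.lean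
section





/-!
# Row LT, tower T6, sub-leaf T6.15c3 (helper313): successive approximation

OFF-MAIN.  `K` complete with a valuation in `ℤᵐ⁰` and a uniformiser, `s` a valuation preserving
automorphism with `s ^ l = 1`, `a` a unit and `b` integral, both fixed by `s`,
`Q = K[X]/(X² - bX - a)`, `w` integral with `∑_{j<l} s^j w = 1`.  If `β₁ ∈ Q` is integral and
`N β₁ ≡ X` modulo the maximal ideal, then there is `β ∈ Q` with `N β = X`
(`exists_nrm_eq_omega_of_approx313`).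
-/

set_option autoImplicit false
set_option linter.style.haveILetI false
set_option linter.unusedSectionVars false
set_option linter.unusedVariables false

open Fermat.Agent.LT.T6

noncomputable section

namespace Fermat.Agent.LT.T6.H313

section Lift

variable {K : Type} [Field K] [Valued K Γ₀] {a b : K}

/-- The expansion `N (1 + w δ) = 1 + Tr(w) δ + δ² r`, `r` integral, for `δ` integral and fixed. -/
theorem nrm313_one_add (hav : Valued.v a ≤ 1) (hbv : Valued.v b ≤ 1) (s : K ≃+* K)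
    (hs : ∀ y : K, Valued.v (s y) = Valued.v y) (ha : s a = a) (hb : s b = b) (w : K)
    (hw : Valued.v w ≤ 1) (δ : QuadraticAlgebra K a b) (hδ : InJ313 0 δ)
    (hδfix : qAut313 s ha hb δ = δ) (m : ℕ) :
    ∃ r : QuadraticAlgebra K a b, InJ313 0 r ∧
      nrm313 (⇑(qAut313 s ha hb)) m (1 + QuadraticAlgebra.C w * δ)
        = 1 + QuadraticAlgebra.C (∑ j ∈ Finset.range m, (s ^ j) w) * δ + δ * δ * r := by
  induction m with
  | zero =>
    refine ⟨0, InJ313.zero 0, ?_⟩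
    rw [nrm313_zero, Finset.sum_range_zero, QuadraticAlgebra.C_zero]
    ring
  | succ m ih =>
    obtain ⟨r, hr, hrm⟩ := ih
    set σ := qAut313 s ha hb with hσ
    set S : K := ∑ j ∈ Finset.range m, (s ^ j) w with hS
    have hSv : Valued.v S ≤ 1 := by
      refine Valuation.map_sum_le _ (fun j _ => ?_)
      have h1 : ∀ j : ℕ, Valued.v ((s ^ j) w) = Valued.v w := by
        intro j
        induction j with
        | zero => simp
        | succ j ihj => rw [pow_succ', RingAut.mul_apply, hs, ihj]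
      rw [h1]; exact hw
    have hsum : ∑ j ∈ Finset.range (m + 1), (s ^ j) w = w + s S := by
      rw [Finset.sum_range_succ', hS, map_sum, add_comm]
      simp only [pow_zero, RingAut.one_apply]
      congr 1
      refine Finset.sum_congr rfl fun j _ => ?_
      rw [pow_succ', RingAut.mul_apply]
    refine ⟨QuadraticAlgebra.C w * QuadraticAlgebra.C (s S) + σ r
      + QuadraticAlgebra.C w * δ * σ r, ?_, ?_⟩
    · have hCw : InJ313 0 (QuadraticAlgebra.C w : QuadraticAlgebra K a b) := InJ313.C hw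
      have hCS : InJ313 0 (QuadraticAlgebra.C (s S) : QuadraticAlgebra K a b) :=
        InJ313.C (by rw [hs]; exact hSv)
      have hσr : InJ313 0 (σ r) := InJ313.aut s hs ha hb hr
      exact ((InJ313.mul_left hav hbv hCw hCS).add hσr).add
        (InJ313.mul_left hav hbv (InJ313.mul_left hav hbv hCw hδ) hσr)
    · rw [nrm313_succ, hrm, hsum]
      have h1 : σ (1 + QuadraticAlgebra.C S * δ + δ * δ * r)
          = 1 + QuadraticAlgebra.C (s S) * δ + δ * δ * σ r := by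
        rw [map_add, map_add, map_one, map_mul, map_mul, map_mul, hδfix, hσ, qAut313_C]
      rw [h1]
      have h2 : (QuadraticAlgebra.C (w + s S) : QuadraticAlgebra K a b)
          = QuadraticAlgebra.C w + QuadraticAlgebra.C (s S) := by
        ext <;> simp
      rw [h2]
      ring

/-- The inverse of `ω`. -/
def omegaInv313 (a b : K) : QuadraticAlgebra K a b :=
  QuadraticAlgebra.C a⁻¹ * (QuadraticAlgebra.omega - QuadraticAlgebra.C b)

theorem omega_mul_omegaInv313 (ha0 : a ≠ 0) :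
    (QuadraticAlgebra.omega : QuadraticAlgebra K a b) * omegaInv313 a b = 1 := by
  unfold omegaInv313
  ext
  · simp only [QuadraticAlgebra.re_mul, QuadraticAlgebra.im_mul, QuadraticAlgebra.re_sub,
      QuadraticAlgebra.im_sub, QuadraticAlgebra.omega_re, QuadraticAlgebra.omega_im,
      QuadraticAlgebra.re_C, QuadraticAlgebra.im_C, QuadraticAlgebra.re_one]
    field_simp
    ring
  · simp only [QuadraticAlgebra.re_mul, QuadraticAlgebra.im_mul, QuadraticAlgebra.re_sub,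
      QuadraticAlgebra.im_sub, QuadraticAlgebra.omega_re, QuadraticAlgebra.omega_im,
      QuadraticAlgebra.re_C, QuadraticAlgebra.im_C, QuadraticAlgebra.im_one]
    ring

theorem omegaInv313_inJ (hav : Valued.v a = 1) (hbv : Valued.v b ≤ 1) :
    InJ313 0 (omegaInv313 a b) := by
  unfold omegaInv313
  refine InJ313.mul_left hav.le hbv (InJ313.C ?_) (InJ313.omega.sub (InJ313.C hbv))
  rw [map_inv₀, hav, inv_one]

theorem omegaInv313_fixed (s : K ≃+* K) (ha : s a = a) (hb : s b = b) :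
    qAut313 s ha hb (omegaInv313 a b) = omegaInv313 a b := by
  unfold omegaInv313
  rw [map_mul, map_sub, qAut313_omega, qAut313_C, qAut313_C, hb, map_inv₀, ha]

/-- One step of the approximation. -/
theorem lift_step313 (hav : Valued.v a = 1) (hbv : Valued.v b ≤ 1) (s : K ≃+* K)
    (hs : ∀ y : K, Valued.v (s y) = Valued.v y) (ha : s a = a) (hb : s b = b) (l : ℕ)
    (hsl : ∀ y : K, (s ^ l) y = y) (w : K) (hw : Valued.v w ≤ 1)
    (hwtr : ∑ j ∈ Finset.range l, (s ^ j) w = 1) (n : ℕ) (hn : 1 ≤ n)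
    (β : QuadraticAlgebra K a b) (hβ : InJ313 0 β)
    (hE : InJ313 n (omegaInv313 a b * nrm313 (⇑(qAut313 s ha hb)) l β - 1)) :
    ∃ β' : QuadraticAlgebra K a b, (InJ313 0 β' ∧
      InJ313 (n + 1) (omegaInv313 a b * nrm313 (⇑(qAut313 s ha hb)) l β' - 1)) ∧
      InJ313 n (β' - β) := by
  set σ := qAut313 s ha hb with hσ
  set δ := omegaInv313 a b * nrm313 (⇑σ) l β - 1 with hδ
  have hσl : (⇑σ)^[l] β = β := by
    rw [iterate_eq_pow313]
    ext
    · rw [hσ, qAut313_pow_re, hsl]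
    · rw [hσ, qAut313_pow_im, hsl]
  have hfixN : σ (nrm313 (⇑σ) l β) = nrm313 (⇑σ) l β :=
    nrm313_fixed (⇑σ) (map_one σ) (map_mul σ) l β hσl
  have hδfix : σ δ = δ := by
    rw [hδ, map_sub, map_mul, map_one, hfixN, hσ, omegaInv313_fixed s ha hb]
  have hnδ : InJ313 n (-δ) := hE.neg
  have hnδfix : σ (-δ) = -δ := by rw [map_neg, hδfix]
  obtain ⟨r, hr, hrm⟩ := nrm313_one_add hav.le hbv s hs ha hb w hw (-δ) (hnδ.mono (Nat.zero_le n))
    hnδfix l
  rw [hwtr, QuadraticAlgebra.C_one] at hrm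
  refine ⟨β * (1 + QuadraticAlgebra.C w * (-δ)), ⟨?_, ?_⟩, ?_⟩
  · refine InJ313.mul_left hav.le hbv hβ (InJ313.one.add ?_)
    exact InJ313.mul_left hav.le hbv (InJ313.C hw) (hnδ.mono (Nat.zero_le n))
  · rw [nrm313_mul (⇑σ) (map_mul σ), hrm]
    have h1 : omegaInv313 a b * (nrm313 (⇑σ) l β * (1 + 1 * -δ + -δ * -δ * r)) - 1
        = δ * δ * (r - 1 + δ * r) := by
      have h2 : omegaInv313 a b * nrm313 (⇑σ) l β = 1 + δ := by rw [hδ]; ring
      calc omegaInv313 a b * (nrm313 (⇑σ) l β * (1 + 1 * -δ + -δ * -δ * r)) - 1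
          = (omegaInv313 a b * nrm313 (⇑σ) l β) * (1 + 1 * -δ + -δ * -δ * r) - 1 := by ring
        _ = (1 + δ) * (1 + 1 * -δ + -δ * -δ * r) - 1 := by rw [h2]
        _ = δ * δ * (r - 1 + δ * r) := by ring
    rw [h1]
    have h3 : InJ313 (n + n) (δ * δ) := InJ313.mul hav.le hbv hE hE
    have h4 : InJ313 0 (r - 1 + δ * r) :=
      (hr.sub InJ313.one).add (InJ313.mul_left hav.le hbv (hE.mono (Nat.zero_le n)) hr)
    exact (InJ313.mul_right hav.le hbv h3 h4).mono (by omega)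
  · have h1 : β * (1 + QuadraticAlgebra.C w * (-δ)) - β = β * (QuadraticAlgebra.C w * (-δ)) := by
      ring
    rw [h1]
    exact InJ313.mul_left hav.le hbv hβ (InJ313.mul_left hav.le hbv (InJ313.C hw) hnδ)

/-- **Successive approximation**: from a solution modulo the maximal ideal to a solution. -/
theorem exists_nrm_eq_omega_of_approx313 [CompleteSpace K] (ϖ : K)
    (hϖ : Valued.v ϖ = WithZero.exp (-1 : ℤ)) (hav : Valued.v a = 1) (hbv : Valued.v b ≤ 1)
    (s : K ≃+* K) (hs : ∀ y : K, Valued.v (s y) = Valued.v y) (ha : s a = a) (hb : s b = b)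
    (l : ℕ) (hsl : ∀ y : K, (s ^ l) y = y) (w : K) (hw : Valued.v w ≤ 1)
    (hwtr : ∑ j ∈ Finset.range l, (s ^ j) w = 1) (β₁ : QuadraticAlgebra K a b)
    (h1re : Valued.v β₁.re ≤ 1) (h1im : Valued.v β₁.im ≤ 1)
    (hres_re : Valued.v ((nrm313 (⇑(qAut313 s ha hb)) l β₁ - QuadraticAlgebra.omega).re) < 1)
    (hres_im : Valued.v ((nrm313 (⇑(qAut313 s ha hb)) l β₁ - QuadraticAlgebra.omega).im) < 1) :
    ∃ β : QuadraticAlgebra K a b,
      nrm313 (⇑(qAut313 s ha hb)) l β = QuadraticAlgebra.omega := by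
  set σ := qAut313 s ha hb with hσ
  have ha0 : a ≠ 0 := by
    intro h
    rw [h, map_zero] at hav
    exact zero_ne_one hav
  have hωω : (QuadraticAlgebra.omega : QuadraticAlgebra K a b) * omegaInv313 a b = 1 :=
    omega_mul_omegaInv313 ha0
  have hω' : InJ313 0 (omegaInv313 a b) := omegaInv313_inJ hav hbv
  -- the first approximation
  have hβ₁ : InJ313 0 β₁ := (inJ313_zero_iff _).2 ⟨h1re, h1im⟩
  have hE₁ : InJ313 (0 + 1) (omegaInv313 a b * nrm313 (⇑σ) l β₁ - 1) := by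
    have h1 : omegaInv313 a b * nrm313 (⇑σ) l β₁ - 1
        = omegaInv313 a b * (nrm313 (⇑σ) l β₁ - QuadraticAlgebra.omega) := by
      rw [mul_sub, mul_comm (omegaInv313 a b) QuadraticAlgebra.omega, hωω]
    rw [h1]
    refine InJ313.mul_left hav.le hbv hω' ⟨?_, ?_⟩
    · simpa using le_exp_of_lt_one313 hres_re
    · simpa using le_exp_of_lt_one313 hres_im
  -- the sequence
  obtain ⟨f, hf⟩ := exists_seq313
    (fun n (z : QuadraticAlgebra K a b) =>
      InJ313 0 z ∧ InJ313 (n + 1) (omegaInv313 a b * nrm313 (⇑σ) l z - 1))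
    (fun n z z' => InJ313 (n + 1) (z' - z)) β₁ ⟨hβ₁, hE₁⟩
    (fun n z hz => lift_step313 hav hbv s hs ha hb l hsl w hw hwtr (n + 1) (by omega) z hz.1 hz.2)
  -- the limit
  obtain ⟨Lre, hLre⟩ := exists_limit313 ϖ hϖ (fun n => (f n).re)
    (fun n => ((hf n).2.1).trans (exp_neg_mono313 (Nat.le_succ n)))
  obtain ⟨Lim, hLim⟩ := exists_limit313 ϖ hϖ (fun n => (f n).im)
    (fun n => ((hf n).2.2).trans (exp_neg_mono313 (Nat.le_succ n)))
  set β : QuadraticAlgebra K a b := ⟨Lre, Lim⟩ with hβdef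
  have hβf : ∀ n, InJ313 n (β - f n) := fun n => ⟨hLre n, hLim n⟩
  have hβ : InJ313 0 β := by
    have h1 : β = (β - f 0) + f 0 := by ring
    rw [h1]
    exact (hβf 0).add (hf 0).1.1
  have hall : ∀ n, InJ313 n (omegaInv313 a b * nrm313 (⇑σ) l β - 1) := by
    intro n
    have h1 : omegaInv313 a b * nrm313 (⇑σ) l β - 1
        = omegaInv313 a b * (nrm313 (⇑σ) l β - nrm313 (⇑σ) l (f n))
          + (omegaInv313 a b * nrm313 (⇑σ) l (f n) - 1) := by ring
    rw [h1]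
    refine InJ313.add ?_ ((hf n).1.2.mono (Nat.le_succ n))
    exact InJ313.mul_left hav.le hbv hω'
      (InJ313.nrm_sub hav.le hbv s hs ha hb hβ (hf n).1.1 (hβf n) l)
  have hfin := eq_zero_of_forall_inJ313 _ hall
  refine ⟨β, ?_⟩
  have h2 : omegaInv313 a b * nrm313 (⇑σ) l β = 1 := sub_eq_zero.1 hfin
  calc nrm313 (⇑σ) l β
      = (QuadraticAlgebra.omega * omegaInv313 a b) * nrm313 (⇑σ) l β := by rw [hωω, one_mul]
    _ = QuadraticAlgebra.omega * (omegaInv313 a b * nrm313 (⇑σ) l β) := by ring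
    _ = QuadraticAlgebra.omega := by rw [h2, mul_one]

end Lift

end Fermat.Agent.LT.T6.H313

end

end
-- ===== PACK-END LT/T6/H313/Lift.lean

-- ===== PACK-BEGIN LT/T6/H420/LatDecomp.lean
section






/-!
# Row LT, tower T6, sub-leaf T6.14b.L1 (helper420): `LatDecompC129`

`GL₂(k) = ⋃ Π^ℤ · latGL n ξ · GL₂(𝒪)`: every `x ∈ GL₂(k)` is `t · latGL n ξ · u`, `t = νᵐ` or
`νᵐ Π`, `ξ ∈ B n`, `u ∈ GL₂(𝒪)`.  UNCONDITIONAL (the special case `ξ = 0` of `LatOrbitExC129` is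
proved inline).

Proof.  `N(a, b) = a² + τ a b + ν b²`, `|N(a, b)| = max(|a|², exp(-1) |b|²)` (`val_nrm`).
Columns `c₁ = (p, p')`, `c₂ = (r, r')` of `x`; after a swap `|N c₂| ≤ |N c₁|`.
(I1) `x = e(p, p') · !![1, a; 0, b]`, `a + b Π = c₂ / c₁` integral; (I2) `b = νⁿ · unit`;
(I3) `e(p, p') = t · e(a₁, b₁)`, `|a₁| = 1 ≥ |b₁|`; (I4) `e(a₁, b₁) diag(1, νⁿ) = latMat n ξ' · u₂`,
`ξ' ∈ B n` the representative of `b₁ / a₁`.

Mathlib + T6 Spec + the two sub-spec files (byte-identical) + `H420/GLTop` (the subgroup `subU`).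
-/

set_option autoImplicit false

noncomputable section

namespace Fermat.Agent.LT.T6.H420

open Matrix Fermat.Agent.LT.T6.H847 Fermat.Agent.LT.H129

section ValBasics

/-- Discreteness of `ℤᵐ⁰`: `x < y` implies `x ≤ exp (-1) * y`. -/
theorem le_exp_neg_one_mul_of_lt {x y : Γ₀} (h : x < y) : x ≤ WithZero.exp (-1 : ℤ) * y := by
  have hy : y ≠ 0 := ne_of_gt (lt_of_le_of_lt zero_le h)
  rcases eq_or_ne x 0 with rfl | hx
  · exact zero_le
  · obtain ⟨a, rfl⟩ : ∃ a : ℤ, x = WithZero.exp a := ⟨_, (WithZero.exp_log hx).symm⟩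
    obtain ⟨b, rfl⟩ : ∃ b : ℤ, y = WithZero.exp b := ⟨_, (WithZero.exp_log hy).symm⟩
    rw [← WithZero.exp_add, WithZero.exp_le_exp]
    rw [WithZero.exp_lt_exp] at h
    omega

theorem lt_one_iff_le_exp_neg_one {x : Γ₀} : x < 1 ↔ x ≤ WithZero.exp (-1 : ℤ) := by
  have := lt_exp_iff_le x 0
  simpa using this

variable {k : Type} [Field k] [Valued k Γ₀]

theorem val_zpow_unif {ν : k} (hν : Valued.v ν = WithZero.exp (-1 : ℤ)) (m : ℤ) :
    Valued.v (ν ^ m) = WithZero.exp (-m) := by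
  rw [map_zpow₀, hν, ← WithZero.exp_zsmul]
  simp

theorem unif_ne_zero {ν : k} (hν : Valued.v ν = WithZero.exp (-1 : ℤ)) : ν ≠ 0 := by
  intro h0
  rw [h0, map_zero] at hν
  exact WithZero.exp_ne_zero hν.symm

/-- Every non-zero `x` has the valuation of a power of the uniformiser. -/
theorem exists_zpow_val_eq {ν : k} (hν : Valued.v ν = WithZero.exp (-1 : ℤ)) {x : k}
    (hx : x ≠ 0) : ∃ m : ℤ, Valued.v (ν ^ m) = Valued.v x := by
  have hvx : Valued.v x ≠ 0 := (Valuation.ne_zero_iff _).2 hx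
  refine ⟨-WithZero.log (Valued.v x), ?_⟩
  rw [val_zpow_unif hν, neg_neg, WithZero.exp_log hvx]

/-- Every non-zero integral `x` has the valuation of a non-negative power of the uniformiser. -/
theorem exists_pow_val_eq {ν : k} (hν : Valued.v ν = WithZero.exp (-1 : ℤ)) {x : k}
    (hx : x ≠ 0) (hx1 : Valued.v x ≤ 1) : ∃ n : ℕ, Valued.v (ν ^ n) = Valued.v x := by
  have hvx : Valued.v x ≠ 0 := (Valuation.ne_zero_iff _).2 hx
  obtain ⟨b, hb⟩ : ∃ b : ℤ, Valued.v x = WithZero.exp b := ⟨_, (WithZero.exp_log hvx).symm⟩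
  have hb0 : b ≤ 0 := by
    rw [hb, ← WithZero.exp_zero, WithZero.exp_le_exp] at hx1
    exact hx1
  refine ⟨(-b).toNat, ?_⟩
  rw [val_pow_unif hν, hb, WithZero.exp_inj]
  omega

end ValBasics

section Norm

variable {k : Type} [Field k] [Valued k Γ₀]

/-- The norm form `N(a + b Π) = a² + τ a b + ν b²` of `k[Π]`, `Π² = τ Π - ν`. -/
def nrm (τ ν a b : k) : k := a ^ 2 + τ * a * b + ν * b ^ 2

omit [Valued k Γ₀] in
theorem det_embMat (τ ν a b : k) : (embMat τ ν a b).det = nrm τ ν a b := by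
  rw [embMat, Matrix.det_fin_two_of, nrm]
  ring

omit [Valued k Γ₀] in
theorem nrm_mul (τ ν p p' a b : k) :
    nrm τ ν p p' * nrm τ ν a b = nrm τ ν (p * a - ν * p' * b) (p * b + p' * a + τ * p' * b) := by
  unfold nrm
  ring

omit [Valued k Γ₀] in
theorem embMat_mul (τ ν p p' a b : k) :
    embMat τ ν p p' * embMat τ ν a b
      = embMat τ ν (p * a - ν * p' * b) (p * b + p' * a + τ * p' * b) := by
  unfold embMat
  rw [Matrix.mul_fin_two]
  congr 1
  ext i j
  fin_cases i <;> fin_cases j <;> simp <;> ring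

/-- `|N(a, b)| = max(|a|², exp(-1) |b|²)`. -/
theorem val_nrm {τ ν : k} (hν : Valued.v ν = WithZero.exp (-1 : ℤ)) (hτ : Valued.v τ < 1)
    (a b : k) :
    Valued.v (nrm τ ν a b)
      = max (Valued.v a ^ 2) (WithZero.exp (-1 : ℤ) * Valued.v b ^ 2) := by
  have hτ' : Valued.v τ ≤ WithZero.exp (-1 : ℤ) := lt_one_iff_le_exp_neg_one.1 hτ
  rcases eq_or_ne a 0 with rfl | ha
  · have : nrm τ ν 0 b = ν * b ^ 2 := by unfold nrm; ring
    rw [this, map_mul, map_pow, hν, map_zero]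
    simp
  rcases eq_or_ne b 0 with rfl | hb
  · have : nrm τ ν a 0 = a ^ 2 := by unfold nrm; ring
    rw [this, map_pow, map_zero]
    simp
  have hva : Valued.v a ≠ 0 := (Valuation.ne_zero_iff _).2 ha
  have hvb : Valued.v b ≠ 0 := (Valuation.ne_zero_iff _).2 hb
  obtain ⟨x, hx⟩ : ∃ x : ℤ, Valued.v a = WithZero.exp x := ⟨_, (WithZero.exp_log hva).symm⟩
  obtain ⟨y, hy⟩ : ∃ y : ℤ, Valued.v b = WithZero.exp y := ⟨_, (WithZero.exp_log hvb).symm⟩
  have h1 : Valued.v (a ^ 2) = WithZero.exp (2 * x) := by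
    rw [map_pow, hx, ← WithZero.exp_nsmul]
    simp
  have h2 : Valued.v (ν * b ^ 2) = WithZero.exp (2 * y - 1) := by
    rw [map_mul, map_pow, hν, hy, ← WithZero.exp_nsmul, ← WithZero.exp_add]
    congr 1
    simp
    ring
  have h3 : Valued.v (τ * a * b) ≤ WithZero.exp (x + y - 1) := by
    rw [map_mul, map_mul, hx, hy]
    calc Valued.v τ * WithZero.exp x * WithZero.exp y
        ≤ WithZero.exp (-1 : ℤ) * WithZero.exp x * WithZero.exp y := by gcongr
      _ = WithZero.exp (x + y - 1) := by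
          rw [← WithZero.exp_add, ← WithZero.exp_add]
          congr 1
          ring
  have hmax1 : Valued.v a ^ 2 = WithZero.exp (2 * x) := by rw [← map_pow, h1]
  have hmax2 : WithZero.exp (-1 : ℤ) * Valued.v b ^ 2 = WithZero.exp (2 * y - 1) := by
    rw [← hν, ← map_pow, ← map_mul, h2]
  rw [hmax1, hmax2]
  rcases lt_or_ge (2 * y - 1) (2 * x) with hxy | hxy
  · -- `a²` dominates
    have hlt : Valued.v (τ * a * b + ν * b ^ 2) < Valued.v (a ^ 2) := by
      rw [h1]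
      refine Valuation.map_add_lt _ (lt_of_le_of_lt h3 ?_) ?_
      · rw [WithZero.exp_lt_exp]; omega
      · rw [h2, WithZero.exp_lt_exp]; exact hxy
    have : nrm τ ν a b = a ^ 2 + (τ * a * b + ν * b ^ 2) := by unfold nrm; ring
    rw [this, Valuation.map_add_eq_of_lt_left _ hlt, h1, max_eq_left]
    rw [WithZero.exp_le_exp]
    omega
  · -- `ν b²` dominates
    have hxy' : 2 * x < 2 * y - 1 := by omega
    have hlt : Valued.v (a ^ 2 + τ * a * b) < Valued.v (ν * b ^ 2) := by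
      rw [h2]
      refine Valuation.map_add_lt _ ?_ (lt_of_le_of_lt h3 ?_)
      · rw [h1, WithZero.exp_lt_exp]; exact hxy'
      · rw [WithZero.exp_lt_exp]; omega
    have : nrm τ ν a b = (a ^ 2 + τ * a * b) + ν * b ^ 2 := by unfold nrm; ring
    rw [this, Valuation.map_add_eq_of_lt_right _ hlt, h2, max_eq_right]
    rw [WithZero.exp_le_exp]
    omega

theorem nrm_ne_zero {τ ν : k} (hν : Valued.v ν = WithZero.exp (-1 : ℤ)) (hτ : Valued.v τ < 1)
    {a b : k} (h : a ≠ 0 ∨ b ≠ 0) : nrm τ ν a b ≠ 0 := by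
  intro h0
  have := val_nrm hν hτ a b
  rw [h0, map_zero] at this
  have hmax := this.symm
  rcases h with ha | hb
  · have h1 : Valued.v a ^ 2 ≤ 0 := hmax ▸ le_max_left _ _
    have h2 : Valued.v a ^ 2 = 0 := le_antisymm h1 zero_le
    exact ha ((Valuation.zero_iff _).1 ((pow_eq_zero_iff (two_ne_zero)).1 h2))
  · have h1 : WithZero.exp (-1 : ℤ) * Valued.v b ^ 2 ≤ 0 := hmax ▸ le_max_right _ _
    have h2 : WithZero.exp (-1 : ℤ) * Valued.v b ^ 2 = 0 := le_antisymm h1 zero_le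
    rcases mul_eq_zero.1 h2 with h3 | h3
    · exact WithZero.exp_ne_zero h3
    · exact hb ((Valuation.zero_iff _).1 ((pow_eq_zero_iff (two_ne_zero)).1 h3))

/-- `|N(a, b)| ≤ 1` iff `a` and `b` are integral. -/
theorem integral_of_val_nrm_le {τ ν : k} (hν : Valued.v ν = WithZero.exp (-1 : ℤ))
    (hτ : Valued.v τ < 1) {a b : k} (h : Valued.v (nrm τ ν a b) ≤ 1) :
    Valued.v a ≤ 1 ∧ Valued.v b ≤ 1 := by
  rw [val_nrm hν hτ] at h
  have h1 := (le_max_left _ _).trans h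
  have h2 := (le_max_right _ _).trans h
  constructor
  · by_contra hcon
    have hcon := not_le.1 hcon
    have : (1 : Γ₀) < Valued.v a ^ 2 := one_lt_pow₀ hcon two_ne_zero
    exact absurd h1 (not_le.2 this)
  · rcases eq_or_ne (Valued.v b) 0 with hb | hb
    · rw [hb]; exact zero_le
    · obtain ⟨y, hy⟩ : ∃ y : ℤ, Valued.v b = WithZero.exp y := ⟨_, (WithZero.exp_log hb).symm⟩
      rw [hy, ← WithZero.exp_nsmul, ← WithZero.exp_add, ← WithZero.exp_zero,
        WithZero.exp_le_exp] at h2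
      rw [hy, ← WithZero.exp_zero, WithZero.exp_le_exp]
      simp at h2
      omega

/-- A unit of `𝒪_E`: `|a| = 1`, `|b| ≤ 1` gives `|N(a, b)| = 1`. -/
theorem val_nrm_unit {τ ν : k} (hν : Valued.v ν = WithZero.exp (-1 : ℤ)) (hτ : Valued.v τ < 1)
    {a b : k} (ha : Valued.v a = 1) (hb : Valued.v b ≤ 1) : Valued.v (nrm τ ν a b) = 1 := by
  rw [val_nrm hν hτ, ha, one_pow]
  apply max_eq_left
  calc WithZero.exp (-1 : ℤ) * Valued.v b ^ 2 ≤ 1 * 1 := by
        refine mul_le_mul' ?_ (pow_le_one' hb 2)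
        rw [← WithZero.exp_zero, WithZero.exp_le_exp]
        omega
    _ = 1 := one_mul 1

end Norm

section Decomp

variable {k : Type} [Field k] [Valued k Γ₀]

/-- An element of `GL₂(k)` with integral entries and unit determinant lies in `U(0) = GL₂(𝒪)`. -/
theorem inU_zero_of_integral (g : GL (Fin 2) k)
    (h : ∀ i j, Valued.v ((g : Matrix (Fin 2) (Fin 2) k) i j) ≤ 1)
    (hd : Valued.v (g : Matrix (Fin 2) (Fin 2) k).det = 1) : InU 0 g := by
  have hinv : ∀ i j, Valued.v (((g⁻¹ : GL (Fin 2) k) : Matrix (Fin 2) (Fin 2) k) i j) ≤ 1 := by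
    intro i j
    rw [Matrix.coe_units_inv, Matrix.inv_def, Matrix.smul_apply, smul_eq_mul, map_mul,
      Ring.inverse_eq_inv', map_inv₀, hd, inv_one, one_mul, Matrix.adjugate_fin_two]
    fin_cases i <;> fin_cases j <;> simp [h]
  intro i j
  simp only [Nat.cast_zero, neg_zero, WithZero.exp_zero]
  exact ⟨Valuation.map_sub_le _ (h i j) (val_one_apply_le i j),
    Valuation.map_sub_le _ (hinv i j) (val_one_apply_le i j)⟩

/-- (I3) `p + p' Π = t · (a₁ + b₁ Π)` with `t = νᵐ` or `νᵐ Π` and `a₁ + b₁ Π` a unit. -/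
theorem exists_unit_decomp {τ ν : k} (hν : Valued.v ν = WithZero.exp (-1 : ℤ))
    (hτ : Valued.v τ < 1) {p p' : k} (h : p ≠ 0 ∨ p' ≠ 0) :
    ∃ (m : ℤ) (a₁ b₁ : k), Valued.v a₁ = 1 ∧ Valued.v b₁ ≤ 1 ∧
      (embMat τ ν p p' = embMat τ ν (ν ^ m) 0 * embMat τ ν a₁ b₁ ∨
        embMat τ ν p p' = embMat τ ν 0 (ν ^ m) * embMat τ ν a₁ b₁) := by
  have hν0 : ν ≠ 0 := unif_ne_zero hν
  have hτ' : Valued.v τ ≤ WithZero.exp (-1 : ℤ) := lt_one_iff_le_exp_neg_one.1 hτ
  rcases le_or_gt (Valued.v p') (Valued.v p) with hle | hlt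
  · -- `|p'| ≤ |p|`
    have hp : p ≠ 0 := by
      rintro rfl
      rw [map_zero] at hle
      have : p' = 0 := (Valuation.zero_iff _).1 (le_antisymm hle zero_le)
      rcases h with h | h
      · exact h rfl
      · exact h this
    obtain ⟨m, hm⟩ := exists_zpow_val_eq hν hp
    have hνm : ν ^ m ≠ 0 := zpow_ne_zero m hν0
    have hvνm : Valued.v (ν ^ m) ≠ 0 := (Valuation.ne_zero_iff _).2 hνm
    refine ⟨m, p / ν ^ m, p' / ν ^ m, ?_, ?_, Or.inl ?_⟩
    · rw [map_div₀, hm, div_self ((Valuation.ne_zero_iff _).2 hp)]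
    · rw [map_div₀, hm]
      exact div_le_one_of_le₀ hle zero_le
    · rw [embMat_mul]
      congr 1
      · field_simp
        ring
      · field_simp
        ring
  · -- `|p| < |p'|`
    have hp' : p' ≠ 0 := by
      rintro rfl
      rw [map_zero] at hlt
      exact absurd hlt (not_lt.2 zero_le)
    have hvp' : Valued.v p' ≠ 0 := (Valuation.ne_zero_iff _).2 hp'
    have hlt1 : Valued.v (p * τ / ν) < Valued.v p' := by
      rw [map_div₀, map_mul, hν]
      refine lt_of_le_of_lt ?_ hlt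
      rw [div_le_iff₀ WithZero.exp_pos]
      gcongr
    have hp'' : Valued.v (p * τ / ν + p') = Valued.v p' :=
      Valuation.map_add_eq_of_lt_right _ hlt1
    have hp''0 : p * τ / ν + p' ≠ 0 := by
      intro h0
      rw [h0, map_zero] at hp''
      exact hvp' hp''.symm
    obtain ⟨m, hm⟩ := exists_zpow_val_eq hν hp''0
    have hνm : ν ^ m ≠ 0 := zpow_ne_zero m hν0
    refine ⟨m, (p * τ / ν + p') / ν ^ m, (-p / ν) / ν ^ m, ?_, ?_, Or.inr ?_⟩
    · rw [map_div₀, hm, div_self ((Valuation.ne_zero_iff _).2 hp''0)]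
    · rw [map_div₀, hm, hp'', map_div₀, Valuation.map_neg, hν]
      have h1 := le_exp_neg_one_mul_of_lt hlt
      rw [div_le_iff₀ (lt_of_le_of_ne zero_le hvp'.symm), one_mul,
        div_le_iff₀ WithZero.exp_pos, mul_comm]
      exact h1
    · rw [embMat_mul]
      congr 1
      · field_simp
        ring
      · field_simp
        ring

omit [Valued k Γ₀] in
theorem latMat_eq (τ ν : k) (n : ℕ) (ξ : k) :
    latMat τ ν n ξ = embMat τ ν 1 ξ * !![1, 0; 0, ν ^ n] := by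
  unfold latMat embMat
  rw [Matrix.mul_fin_two]
  congr 1
  ext i j
  fin_cases i <;> fin_cases j <;> simp <;> ring

omit [Valued k Γ₀] in
theorem det_latMat (τ ν : k) (n : ℕ) (ξ : k) :
    (latMat τ ν n ξ).det = ν ^ n * nrm τ ν 1 ξ := by
  rw [latMat, Matrix.det_fin_two_of, nrm]
  ring

theorem det_latMat_ne_zero {τ ν : k} (hν : Valued.v ν = WithZero.exp (-1 : ℤ))
    (hτ : Valued.v τ < 1) (n : ℕ) (ξ : k) : (latMat τ ν n ξ).det ≠ 0 := by
  rw [det_latMat]
  exact mul_ne_zero (pow_ne_zero n (unif_ne_zero hν))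
    (nrm_ne_zero hν hτ (Or.inl one_ne_zero))

theorem coe_latGL {τ ν : k} (hν : Valued.v ν = WithZero.exp (-1 : ℤ))
    (hτ : Valued.v τ < 1) (n : ℕ) (ξ : k) :
    ((latGL τ ν n ξ : GL (Fin 2) k) : Matrix (Fin 2) (Fin 2) k) = latMat τ ν n ξ := by
  unfold latGL
  rw [dif_pos (det_latMat_ne_zero hν hτ n ξ)]
  rfl

/-- (I4) `e(a₁, b₁) · diag(1, νⁿ) = latMat n ξ' · u₂` with `ξ' ∈ B` and `u₂ ∈ GL₂(𝒪)`. -/
theorem exists_lat_unit {τ ν : k} (hν : Valued.v ν = WithZero.exp (-1 : ℤ))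
    (hτ : Valued.v τ < 1) (n : ℕ) (B : Set k) (hB : IsReprMod n B) {a₁ b₁ : k}
    (ha₁ : Valued.v a₁ = 1) (hb₁ : Valued.v b₁ ≤ 1) :
    ∃ ξ' ∈ B, ∃ u₂ : GL (Fin 2) k, InU 0 u₂ ∧
      embMat τ ν a₁ b₁ * !![1, 0; 0, ν ^ n]
        = latMat τ ν n ξ' * (u₂ : Matrix (Fin 2) (Fin 2) k) := by
  have hν0 : ν ≠ 0 := unif_ne_zero hν
  have hνn : ν ^ n ≠ 0 := pow_ne_zero n hν0
  have hτ1 : Valued.v τ ≤ 1 := hτ.le
  have hν1 : Valued.v ν ≤ 1 := by
    rw [hν, ← WithZero.exp_zero, WithZero.exp_le_exp]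
    omega
  have ha₁0 : a₁ ≠ 0 := by
    rintro rfl
    rw [map_zero] at ha₁
    exact zero_ne_one ha₁
  have hξ'' : Valued.v (b₁ / a₁) ≤ 1 := by
    rw [map_div₀, ha₁, div_one]
    exact hb₁
  obtain ⟨ξ', ⟨hξ'B, hξ'⟩, -⟩ := hB.2 (b₁ / a₁) hξ''
  have hξ'1 : Valued.v ξ' ≤ 1 := hB.1 ξ' hξ'B
  have hN' : nrm τ ν 1 ξ' ≠ 0 := nrm_ne_zero hν hτ (Or.inl one_ne_zero)
  have hvN' : Valued.v (nrm τ ν 1 ξ') = 1 := val_nrm_unit hν hτ (map_one _) hξ'1
  -- `A + B Π = (a₁ + b₁ Π) / (1 + ξ' Π)`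
  set A : k := (a₁ + τ * a₁ * ξ' + ν * b₁ * ξ') / nrm τ ν 1 ξ' with hA
  set Bc : k := (b₁ - a₁ * ξ') / nrm τ ν 1 ξ' with hBc
  have hE1 : A - ν * ξ' * Bc = a₁ := by
    rw [hA, hBc]
    field_simp
    unfold nrm
    ring
  have hE2 : Bc + ξ' * A + τ * ξ' * Bc = b₁ := by
    rw [hA, hBc]
    field_simp
    unfold nrm
    ring
  have hvA : Valued.v A ≤ 1 := by
    rw [hA, map_div₀, hvN', div_one]
    refine Valuation.map_add_le _ (Valuation.map_add_le _ ha₁.le ?_) ?_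
    · rw [map_mul, map_mul, ha₁, mul_one]
      exact mul_le_one' hτ1 hξ'1
    · rw [map_mul, map_mul]
      exact mul_le_one' (mul_le_one' hν1 hb₁) hξ'1
  have hvB : Valued.v Bc ≤ WithZero.exp (-(n : ℤ)) := by
    rw [hBc, map_div₀, hvN', div_one]
    have : b₁ - a₁ * ξ' = a₁ * (b₁ / a₁ - ξ') := by
      field_simp
    rw [this, map_mul, ha₁, one_mul]
    exact hξ'
  have hvB1 : Valued.v Bc ≤ 1 := hvB.trans (exp_neg_nat_le_one n)
  have hvBn : Valued.v (Bc / ν ^ n) ≤ 1 := by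
    rw [map_div₀, val_pow_unif hν]
    exact div_le_one_of_le₀ hvB zero_le
  have hdetU : (!![A, -(ν ^ (n + 1) * Bc); Bc / ν ^ n, A + τ * Bc] :
      Matrix (Fin 2) (Fin 2) k).det = nrm τ ν A Bc := by
    rw [Matrix.det_fin_two_of, nrm]
    field_simp
    ring
  have hnAB : nrm τ ν 1 ξ' * nrm τ ν A Bc = nrm τ ν a₁ b₁ := by
    rw [nrm_mul]
    congr 1
    · rw [one_mul, ← hE1]
    · rw [one_mul, ← hE2]
  have hvAB : Valued.v (nrm τ ν A Bc) = 1 := by
    have h1 : Valued.v (nrm τ ν 1 ξ') * Valued.v (nrm τ ν A Bc) = Valued.v (nrm τ ν a₁ b₁) := by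
      rw [← map_mul, hnAB]
    rw [hvN', one_mul, val_nrm_unit hν hτ ha₁ hb₁] at h1
    exact h1
  have hdet0 : (!![A, -(ν ^ (n + 1) * Bc); Bc / ν ^ n, A + τ * Bc] :
      Matrix (Fin 2) (Fin 2) k).det ≠ 0 := by
    rw [hdetU]
    intro h0
    rw [h0, map_zero] at hvAB
    exact zero_ne_one hvAB
  refine ⟨ξ', hξ'B, Matrix.GeneralLinearGroup.mkOfDetNeZero _ hdet0, ?_, ?_⟩
  · apply inU_zero_of_integral
    · intro i j
      show Valued.v ((!![A, -(ν ^ (n + 1) * Bc); Bc / ν ^ n, A + τ * Bc] :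
        Matrix (Fin 2) (Fin 2) k) i j) ≤ 1
      fin_cases i <;> fin_cases j
      · simpa using hvA
      · simp only [Fin.zero_eta, Fin.isValue, Fin.mk_one, Matrix.of_apply, Matrix.cons_val',
          Matrix.cons_val_one, Matrix.cons_val_zero, Matrix.cons_val_fin_one]
        rw [Valuation.map_neg, map_mul, map_pow]
        exact mul_le_one' (pow_le_one' hν1 _) hvB1
      · simpa using hvBn
      · simp only [Fin.mk_one, Fin.isValue, Matrix.of_apply, Matrix.cons_val', Matrix.cons_val_one,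
          Matrix.cons_val_fin_one]
        exact Valuation.map_add_le _ hvA (by rw [map_mul]; exact mul_le_one' hτ1 hvB1)
    · show Valued.v (!![A, -(ν ^ (n + 1) * Bc); Bc / ν ^ n, A + τ * Bc] :
        Matrix (Fin 2) (Fin 2) k).det = 1
      rw [hdetU, hvAB]
  · show embMat τ ν a₁ b₁ * !![1, 0; 0, ν ^ n]
      = latMat τ ν n ξ' * !![A, -(ν ^ (n + 1) * Bc); Bc / ν ^ n, A + τ * Bc]
    unfold embMat latMat
    rw [Matrix.mul_fin_two, Matrix.mul_fin_two, ← hE1, ← hE2]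
    congr 1
    ext i j
    fin_cases i <;> fin_cases j <;> simp <;> field_simp <;> ring

end Decomp

section Main

variable {k : Type} [Field k] [Valued k Γ₀]

omit [Valued k Γ₀] in
theorem det_ne_zero_GL (x : GL (Fin 2) k) : (x : Matrix (Fin 2) (Fin 2) k).det ≠ 0 := by
  intro h0
  have h1 : (x : Matrix (Fin 2) (Fin 2) k).det
      * ((x⁻¹ : GL (Fin 2) k) : Matrix (Fin 2) (Fin 2) k).det = 1 := by
    rw [← Matrix.det_mul, ← Units.val_mul, mul_inv_cancel, Units.val_one, Matrix.det_one]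
  rw [h0, zero_mul] at h1
  exact zero_ne_one h1

/-- The decomposition when the first column has the larger norm. -/
theorem latDecomp_aux {τ ν : k} (hν : Valued.v ν = WithZero.exp (-1 : ℤ))
    (hτ : Valued.v τ < 1) (B : ℕ → Set k) (hB : ∀ n, IsReprMod n (B n)) (x : GL (Fin 2) k)
    (hN : Valued.v (nrm τ ν ((x : Matrix (Fin 2) (Fin 2) k) 0 1)
        ((x : Matrix (Fin 2) (Fin 2) k) 1 1))
      ≤ Valued.v (nrm τ ν ((x : Matrix (Fin 2) (Fin 2) k) 0 0)
        ((x : Matrix (Fin 2) (Fin 2) k) 1 0))) :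
    ∃ (t : GL (Fin 2) k) (m : ℤ) (n : ℕ) (ξ : k) (u : GL (Fin 2) k),
      ((t : Matrix (Fin 2) (Fin 2) k) = embMat τ ν (ν ^ m) 0 ∨
        (t : Matrix (Fin 2) (Fin 2) k) = embMat τ ν 0 (ν ^ m)) ∧
      ξ ∈ B n ∧ InU 0 u ∧ x = t * latGL τ ν n ξ * u := by
  have hν0 : ν ≠ 0 := unif_ne_zero hν
  obtain ⟨p, hp⟩ : ∃ p : k, p = (x : Matrix (Fin 2) (Fin 2) k) 0 0 := ⟨_, rfl⟩
  obtain ⟨p', hp'⟩ : ∃ p' : k, p' = (x : Matrix (Fin 2) (Fin 2) k) 1 0 := ⟨_, rfl⟩
  obtain ⟨r, hr⟩ : ∃ r : k, r = (x : Matrix (Fin 2) (Fin 2) k) 0 1 := ⟨_, rfl⟩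
  obtain ⟨r', hr'⟩ : ∃ r' : k, r' = (x : Matrix (Fin 2) (Fin 2) k) 1 1 := ⟨_, rfl⟩
  rw [← hp, ← hp', ← hr, ← hr'] at hN
  have hxeta : (x : Matrix (Fin 2) (Fin 2) k) = !![p, r; p', r'] := by
    rw [hp, hp', hr, hr']
    exact Matrix.eta_fin_two _
  have hdetx : (x : Matrix (Fin 2) (Fin 2) k).det = p * r' - r * p' := by
    rw [hxeta, Matrix.det_fin_two_of]
  have hdet0 : p * r' - r * p' ≠ 0 := hdetx ▸ det_ne_zero_GL x
  have hc1 : p ≠ 0 ∨ p' ≠ 0 := by
    by_contra hcon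
    rw [not_or, not_not, not_not] at hcon
    apply hdet0
    rw [hcon.1, hcon.2]
    ring
  have hN1 : nrm τ ν p p' ≠ 0 := nrm_ne_zero hν hτ hc1
  have hvN1 : Valued.v (nrm τ ν p p') ≠ 0 := (Valuation.ne_zero_iff _).2 hN1
  -- (I1): the second column divided by the first
  obtain ⟨a, ha⟩ : ∃ a : k, a = (r * p + τ * r * p' + ν * r' * p') / nrm τ ν p p' := ⟨_, rfl⟩
  obtain ⟨b, hb⟩ : ∃ b : k, b = (p * r' - r * p') / nrm τ ν p p' := ⟨_, rfl⟩
  have hb0 : b ≠ 0 := hb ▸ div_ne_zero hdet0 hN1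
  have hI1a : p * a - ν * p' * b = r := by
    rw [ha, hb]
    field_simp
    unfold nrm
    ring
  have hI1b : p * b + p' * a + τ * p' * b = r' := by
    rw [ha, hb]
    field_simp
    unfold nrm
    ring
  have hnab : nrm τ ν p p' * nrm τ ν a b = nrm τ ν r r' := by
    rw [nrm_mul, hI1a, hI1b]
  have hvab : Valued.v (nrm τ ν a b) ≤ 1 := by
    have h1 : Valued.v (nrm τ ν p p') * Valued.v (nrm τ ν a b) = Valued.v (nrm τ ν r r') := by
      rw [← map_mul, hnab]
    by_contra hcon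
    have hcon := not_le.1 hcon
    have h2 : Valued.v (nrm τ ν p p') < Valued.v (nrm τ ν p p') * Valued.v (nrm τ ν a b) :=
      lt_mul_of_one_lt_right (lt_of_le_of_ne zero_le hvN1.symm) hcon
    rw [h1] at h2
    exact absurd hN (not_le.2 h2)
  obtain ⟨ha1, hb1⟩ := integral_of_val_nrm_le hν hτ hvab
  -- (I2): `b = νⁿ · unit`
  obtain ⟨n, hn⟩ := exists_pow_val_eq hν hb0 hb1
  have hνn : ν ^ n ≠ 0 := pow_ne_zero n hν0
  have hvbn : Valued.v (b / ν ^ n) = 1 := by
    rw [map_div₀, hn, div_self ((Valuation.ne_zero_iff _).2 hb0)]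
  have hdetU1 : (!![1, a; 0, b / ν ^ n] : Matrix (Fin 2) (Fin 2) k).det = b / ν ^ n := by
    rw [Matrix.det_fin_two_of]
    ring
  have hdetU1' : (!![1, a; 0, b / ν ^ n] : Matrix (Fin 2) (Fin 2) k).det ≠ 0 := by
    rw [hdetU1]
    exact div_ne_zero hb0 hνn
  have hU1 : InU 0 (Matrix.GeneralLinearGroup.mkOfDetNeZero
      (!![1, a; 0, b / ν ^ n] : Matrix (Fin 2) (Fin 2) k) hdetU1') := by
    apply inU_zero_of_integral
    · intro i j
      show Valued.v ((!![1, a; 0, b / ν ^ n] : Matrix (Fin 2) (Fin 2) k) i j) ≤ 1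
      fin_cases i <;> fin_cases j
      · simp
      · simpa using ha1
      · simp
      · simpa using hvbn.le
    · show Valued.v (!![1, a; 0, b / ν ^ n] : Matrix (Fin 2) (Fin 2) k).det = 1
      rw [hdetU1, hvbn]
  -- (I3)
  obtain ⟨m, a₁, b₁, ha₁, hb₁, hI3⟩ := exists_unit_decomp hν hτ hc1
  -- (I4)
  obtain ⟨ξ', hξ'B, u₂, hu₂, hI4⟩ := exists_lat_unit hν hτ n (B n) (hB n) ha₁ hb₁
  -- the element `t`
  obtain ⟨T, hT, hI3'⟩ : ∃ T : Matrix (Fin 2) (Fin 2) k,
      (T = embMat τ ν (ν ^ m) 0 ∨ T = embMat τ ν 0 (ν ^ m)) ∧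
        embMat τ ν p p' = T * embMat τ ν a₁ b₁ := by
    rcases hI3 with h | h
    · exact ⟨_, Or.inl rfl, h⟩
    · exact ⟨_, Or.inr rfl, h⟩
  have hTdet : T.det ≠ 0 := by
    have hνm : ν ^ m ≠ 0 := zpow_ne_zero m hν0
    rcases hT with h | h
    · rw [h, det_embMat]
      exact nrm_ne_zero hν hτ (Or.inl hνm)
    · rw [h, det_embMat]
      exact nrm_ne_zero hν hτ (Or.inr hνm)
  refine ⟨Matrix.GeneralLinearGroup.mkOfDetNeZero T hTdet, m, n, ξ',
    u₂ * Matrix.GeneralLinearGroup.mkOfDetNeZero _ hdetU1', hT, hξ'B, ?_, ?_⟩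
  · exact (subU 0).mul_mem hu₂ hU1
  · apply Units.ext
    rw [Units.val_mul, Units.val_mul, Units.val_mul, coe_latGL hν hτ]
    show (x : Matrix (Fin 2) (Fin 2) k)
      = T * latMat τ ν n ξ' * ((u₂ : Matrix (Fin 2) (Fin 2) k) * !![1, a; 0, b / ν ^ n])
    have hI1 : (x : Matrix (Fin 2) (Fin 2) k) = embMat τ ν p p' * !![1, a; 0, b] := by
      rw [hxeta]
      unfold embMat
      rw [Matrix.mul_fin_two, ← hI1a, ← hI1b]
      congr 1
      ext i j
      fin_cases i <;> fin_cases j <;> simp <;> ring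
    have hI2 : (!![1, a; 0, b] : Matrix (Fin 2) (Fin 2) k)
        = !![1, 0; 0, ν ^ n] * !![1, a; 0, b / ν ^ n] := by
      rw [Matrix.mul_fin_two]
      congr 1
      ext i j
      fin_cases i <;> fin_cases j <;> simp
      field_simp
    rw [hI1, hI2, hI3', Matrix.mul_assoc T, ← Matrix.mul_assoc (embMat τ ν a₁ b₁), hI4,
      Matrix.mul_assoc (latMat τ ν n ξ'), ← Matrix.mul_assoc T]

/-- The Weyl element `!![0, 1; 1, 0]`. -/
def weyl (k : Type) [Field k] : GL (Fin 2) k :=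
  Matrix.GeneralLinearGroup.mkOfDetNeZero (!![0, 1; 1, 0] : Matrix (Fin 2) (Fin 2) k) (by
    rw [Matrix.det_fin_two_of]
    simp)

theorem inU_weyl : InU 0 (weyl k) := by
  apply inU_zero_of_integral
  · intro i j
    show Valued.v ((!![0, 1; 1, 0] : Matrix (Fin 2) (Fin 2) k) i j) ≤ 1
    fin_cases i <;> fin_cases j <;> simp
  · show Valued.v (!![0, 1; 1, 0] : Matrix (Fin 2) (Fin 2) k).det = 1
    rw [Matrix.det_fin_two_of]
    simp

omit [Valued k Γ₀] in
theorem mul_weyl_apply (x : GL (Fin 2) k) :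
    ((x * weyl k : GL (Fin 2) k) : Matrix (Fin 2) (Fin 2) k)
      = !![(x : Matrix (Fin 2) (Fin 2) k) 0 1, (x : Matrix (Fin 2) (Fin 2) k) 0 0;
          (x : Matrix (Fin 2) (Fin 2) k) 1 1, (x : Matrix (Fin 2) (Fin 2) k) 1 0] := by
  rw [Units.val_mul]
  show (x : Matrix (Fin 2) (Fin 2) k) * !![0, 1; 1, 0] = _
  conv_lhs => rw [Matrix.eta_fin_two (x : Matrix (Fin 2) (Fin 2) k)]
  rw [Matrix.mul_fin_two]
  congr 1
  ext i j
  fin_cases i <;> fin_cases j <;> simp

/-- **T6.14b.L1 `LatDecompC129`.** -/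
theorem latDecompC420 : LatDecompC129 := by
  intro k _ _ τ ν hν hτ B hB x
  rcases le_total
    (Valued.v (nrm τ ν ((x : Matrix (Fin 2) (Fin 2) k) 0 1)
      ((x : Matrix (Fin 2) (Fin 2) k) 1 1)))
    (Valued.v (nrm τ ν ((x : Matrix (Fin 2) (Fin 2) k) 0 0)
      ((x : Matrix (Fin 2) (Fin 2) k) 1 0))) with h | h
  · exact latDecomp_aux hν hτ B hB x h
  · have h' : Valued.v (nrm τ ν (((x * weyl k : GL (Fin 2) k) : Matrix (Fin 2) (Fin 2) k) 0 1)
          (((x * weyl k : GL (Fin 2) k) : Matrix (Fin 2) (Fin 2) k) 1 1))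
        ≤ Valued.v (nrm τ ν (((x * weyl k : GL (Fin 2) k) : Matrix (Fin 2) (Fin 2) k) 0 0)
          (((x * weyl k : GL (Fin 2) k) : Matrix (Fin 2) (Fin 2) k) 1 0)) := by
      rw [mul_weyl_apply]
      simpa using h
    obtain ⟨t, m, n, ξ, u, ht, hξ, hu, hx⟩ := latDecomp_aux hν hτ B hB (x * weyl k) h'
    refine ⟨t, m, n, ξ, u * (weyl k)⁻¹, ht, hξ, ?_, ?_⟩
    · exact (subU 0).mul_mem hu ((subU 0).inv_mem inU_weyl)
    · rw [← mul_assoc, ← hx]
      group

end Main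

end Fermat.Agent.LT.T6.H420

end
end
-- ===== PACK-END LT/T6/H420/LatDecomp.lean

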