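import Mathlib
import Fermat.Agent.Pack.S43GC.G0E8L2
import Fermat.Agent.Pack.LT3.E5L2
import Fermat.Agent.Pack.LT3.E8L1
import Fermat.Agent.Pack.LT2.E0L1
import Fermat.Agent.Pack.LT2.E2L1
import Fermat.Agent.Pack.LT2.E3L1
import Fermat.Agent.Pack.LT3.E1L3
import Fermat.Agent.Pack.LT3.E7L2
import Fermat.Agent.Pack.LT3.E5L0
import Fermat.Agent.Pack.LT3.E0L2
import Fermat.Agent.Pack.LT3.E4L3
import Fermat.Agent.Pack.LT3.E7L3
import Fermat.Agent.Pack.LT3.E2L2
import Fermat.Agent.Pack.LT3.E4L2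
import Fermat.Agent.Pack.LT3.E8L2
import Fermat.Agent.Pack.LT3.E9L0

set_option linter.all false

-- ===== PACK-BEGIN S55/G/Rec/CycloFrobH735.lean
section


/-!
# S55 / layer G / block REC : leaf (L4) `CycloFrobSpec`   (helper735)

Roots of unity of order prime to `q` are pairwise incongruent modulo the maximal ideal of
`ℚ̄_q`.  Hence an inertial automorphism fixes `μ_m` (`q ∤ m`) and an automorphism acting as
`x ↦ x ^ (q ^ f)` on the residue field acts as `ζ ↦ ζ ^ (q ^ f)` on `μ_m`.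

* `H735.norm_natCast_eq_one` : `‖(m : ℚ̄_q)‖ = 1` for `q ∤ m`.
* `H735.eq_one_of_pow_eq_one_of_norm_sub_one_lt` : `u ^ m = 1`, `‖u - 1‖ < 1`, `q ∤ m` ⇒ `u = 1`.
* `H735.eq_of_pow_eq_one_of_norm_sub_lt` : `ζ ^ m = ξ ^ m = 1`, `‖ζ - ξ‖ < 1`, `q ∤ m` ⇒ `ζ = ξ`.
* `H735.cycloFrob : CycloFrobSpec`.
-/

set_option autoImplicit false

noncomputable section

namespace Fermat.Agent.S55.G.Rec.H735

open Fermat.Agent.S55.G.Rec

variable {q : ℕ} [Fact q.Prime]

/-- `‖(m : ℚ̄_q)‖ = 1` for `q ∤ m`. -/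
lemma norm_natCast_eq_one {m : ℕ} (hm : ¬ q ∣ m) : ‖(m : PadicAlgCl q)‖ = 1 := by
  have h1 : (m : PadicAlgCl q) = algebraMap ℚ_[q] (PadicAlgCl q) (m : ℚ_[q]) := by
    rw [map_natCast]
  rw [h1, PadicAlgCl.norm_extends, Padic.norm_natCast_eq_one_iff]
  exact (Nat.Prime.coprime_iff_not_dvd (Fact.out : q.Prime)).2 hm

/-- A root of unity has norm `1`. -/
lemma norm_eq_one_of_pow_eq_one {m : ℕ} (hm : m ≠ 0) {ζ : PadicAlgCl q} (hζ : ζ ^ m = 1) :
    ‖ζ‖ = 1 := by
  have h : ‖ζ‖ ^ m = 1 := by rw [← norm_pow, hζ, norm_one]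
  exact (pow_eq_one_iff_of_nonneg (norm_nonneg ζ) hm).1 h

/-- `‖∑_{i<m} u^i - m‖ < 1` if `‖u - 1‖ < 1`. -/
lemma norm_geom_sum_sub_lt {u : PadicAlgCl q} (hu : ‖u - 1‖ < 1) (m : ℕ) :
    ‖(∑ i ∈ Finset.range m, u ^ i) - (m : PadicAlgCl q)‖ ≤ ‖u - 1‖ := by
  have hu1 : ‖u‖ ≤ 1 := by
    have : u = (u - 1) + 1 := by ring
    rw [this]
    refine (IsUltrametricDist.norm_add_le_max _ _).trans ?_
    rw [norm_one]
    exact max_le hu.le le_rfl
  have hpow : ∀ i : ℕ, ‖u ^ i - 1‖ ≤ ‖u - 1‖ := by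
    intro i
    have h : u ^ i - 1 = (u - 1) * ∑ j ∈ Finset.range i, u ^ j := (mul_geom_sum u i).symm
    rw [h, norm_mul]
    have hs : ‖∑ j ∈ Finset.range i, u ^ j‖ ≤ 1 := by
      refine IsUltrametricDist.norm_sum_le_of_forall_le_of_nonneg zero_le_one ?_
      intro j _
      rw [norm_pow]
      exact pow_le_one₀ (norm_nonneg u) hu1
    calc ‖u - 1‖ * ‖∑ j ∈ Finset.range i, u ^ j‖ ≤ ‖u - 1‖ * 1 :=
          mul_le_mul_of_nonneg_left hs (norm_nonneg _)
      _ = ‖u - 1‖ := mul_one _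
  have hsum : (∑ i ∈ Finset.range m, u ^ i) - (m : PadicAlgCl q)
      = ∑ i ∈ Finset.range m, (u ^ i - 1) := by
    rw [Finset.sum_sub_distrib]
    simp
  rw [hsum]
  exact IsUltrametricDist.norm_sum_le_of_forall_le_of_nonneg (norm_nonneg _) fun i _ => hpow i

/-- A root of unity of order prime to `q` which is congruent to `1` is `1`. -/
lemma eq_one_of_pow_eq_one_of_norm_sub_one_lt {m : ℕ} (hm : ¬ q ∣ m) {u : PadicAlgCl q}
    (hum : u ^ m = 1) (hu : ‖u - 1‖ < 1) : u = 1 := by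
  by_contra hne
  have hne' : u - 1 ≠ 0 := sub_ne_zero.2 hne
  have h0 : (u - 1) * ∑ i ∈ Finset.range m, u ^ i = 0 := by
    rw [mul_geom_sum, hum, sub_self]
  have hS : ∑ i ∈ Finset.range m, u ^ i = 0 := (mul_eq_zero.1 h0).resolve_left hne'
  have h1 := norm_geom_sum_sub_lt hu m
  rw [hS, zero_sub, norm_neg, norm_natCast_eq_one hm] at h1
  exact absurd hu (not_lt.2 h1)

/-- Two roots of unity of order prime to `q` which are congruent are equal. -/
lemma eq_of_pow_eq_one_of_norm_sub_lt {m : ℕ} (hm : ¬ q ∣ m) {ζ ξ : PadicAlgCl q}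
    (hζ : ζ ^ m = 1) (hξ : ξ ^ m = 1) (h : ‖ζ - ξ‖ < 1) : ζ = ξ := by
  have hm0 : m ≠ 0 := fun h0 => hm (h0 ▸ dvd_zero q)
  have hξn : ‖ξ‖ = 1 := norm_eq_one_of_pow_eq_one hm0 hξ
  have hξ0 : ξ ≠ 0 := by
    intro h0
    rw [h0, norm_zero] at hξn
    exact zero_ne_one hξn
  have hu : (ζ * ξ⁻¹) ^ m = 1 := by
    rw [mul_pow, inv_pow, hζ, hξ, inv_one, mul_one]
  have hsub : ζ * ξ⁻¹ - 1 = (ζ - ξ) * ξ⁻¹ := by
    field_simp
  have hlt : ‖ζ * ξ⁻¹ - 1‖ < 1 := by
    rw [hsub, norm_mul, norm_inv, hξn, inv_one, mul_one]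
    exact h
  have h1 := eq_one_of_pow_eq_one_of_norm_sub_one_lt hm hu hlt
  have := congrArg (· * ξ) h1
  simpa [inv_mul_cancel_right₀ hξ0] using this

/-- **(L4)**  cyclotomic characters away from `q`. -/
theorem cycloFrob : CycloFrobSpec := by
  intro q _ m hm
  have hm0 : m ≠ 0 := fun h0 => hm (h0 ▸ dvd_zero q)
  refine ⟨fun τ hτ ζ hζ => ?_, fun τ f hτ ζ hζ => ?_⟩
  · have hn : ‖ζ‖ ≤ 1 := (norm_eq_one_of_pow_eq_one hm0 hζ).le
    have hτζ : (τ ζ) ^ m = 1 := by rw [← map_pow, hζ, map_one]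
    exact eq_of_pow_eq_one_of_norm_sub_lt hm hτζ hζ (hτ ζ hn)
  · have hn : ‖ζ‖ ≤ 1 := (norm_eq_one_of_pow_eq_one hm0 hζ).le
    have hτζ : (τ ζ) ^ m = 1 := by rw [← map_pow, hζ, map_one]
    have hpow : (ζ ^ (q ^ f)) ^ m = 1 := by
      rw [← pow_mul, mul_comm, pow_mul, hζ, one_pow]
    exact eq_of_pow_eq_one_of_norm_sub_lt hm hτζ hpow (hτ ζ hn)

end Fermat.Agent.S55.G.Rec.H735

end
end
-- ===== PACK-END S55/G/Rec/CycloFrobH735.lean

-- ===== PACK-BEGIN LT/T6/H673/IwTop.lean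
section




/-!
# Row LT, tower T6, leaf T6.29.I1 `IwasawaIntRC` (helper673), part 3: topology

OFF-MAIN.  Continuity of `iota673`, `proj673`, `rotR`; every element of `SO(2)` of the form
`kOf673 g` is a rotation `rotR θ`, `θ ∈ [-π, π]`; the set `{det > 0} ∩ proj673 ⁻¹' C` is contained
in a compact set for `C` compact.
-/

set_option autoImplicit false

open scoped Matrix
open MeasureTheory

noncomputable section

namespace Fermat.Agent.LT.T6.H673

open Fermat.Agent.LT.T6 Fermat.Agent.LT.T6.H830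

/-! ## Continuity -/

theorem continuous_entry673 (i j : Fin 2) :
    Continuous fun g : GL (Fin 2) ℝ => (g : Matrix (Fin 2) (Fin 2) ℝ) i j := by
  have h1 : Continuous fun g : GL (Fin 2) ℝ => (g : Matrix (Fin 2) (Fin 2) ℝ) :=
    Units.continuous_val
  exact Continuous.matrix_elem h1 i j

theorem continuous_det673 :
    Continuous fun g : GL (Fin 2) ℝ => (g : Matrix (Fin 2) (Fin 2) ℝ).det := by
  have : (fun g : GL (Fin 2) ℝ => (g : Matrix (Fin 2) (Fin 2) ℝ).det)
      = fun g : GL (Fin 2) ℝ => (g : Matrix (Fin 2) (Fin 2) ℝ) 0 0 *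
          (g : Matrix (Fin 2) (Fin 2) ℝ) 1 1 -
        (g : Matrix (Fin 2) (Fin 2) ℝ) 0 1 * (g : Matrix (Fin 2) (Fin 2) ℝ) 1 0 :=
    funext det_eq673
  rw [this]
  exact ((continuous_entry673 0 0).mul (continuous_entry673 1 1)).sub
    ((continuous_entry673 0 1).mul (continuous_entry673 1 0))

theorem continuous_nrm673 : Continuous nrm673 :=
  ((continuous_entry673 1 0).pow 2).add ((continuous_entry673 1 1).pow 2)

/-- The Iwasawa projection is continuous (on all of `GL₂(ℝ)`). -/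
theorem continuous_proj673 : Continuous proj673 := by
  refine BP673.continuous_mk ?_ ?_ ?_
  · exact continuous_det673.log det_ne_zero673
  · exact (continuous_det673.log det_ne_zero673).sub
      (continuous_nrm673.log fun g => (nrm_pos673 g).ne')
  · exact (((continuous_entry673 0 0).mul (continuous_entry673 1 0)).add
      ((continuous_entry673 0 1).mul (continuous_entry673 1 1))).div continuous_det673
      det_ne_zero673

/-- A map to `GL₂(ℝ)` with continuous entries, whose inverse has continuous entries. -/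
theorem continuous_gl_of_entries673 {X : Type*} [TopologicalSpace X] {f f' : X → GL (Fin 2) ℝ}
    (hf : ∀ i j, Continuous fun t => (f t : Matrix (Fin 2) (Fin 2) ℝ) i j)
    (hf' : ∀ i j, Continuous fun t => (f' t : Matrix (Fin 2) (Fin 2) ℝ) i j)
    (h : ∀ t, (f t)⁻¹ = f' t) : Continuous f := by
  rw [Units.continuous_iff]
  constructor
  · exact continuous_matrix hf
  · have : (fun t => (((f t)⁻¹ : GL (Fin 2) ℝ) : Matrix (Fin 2) (Fin 2) ℝ))
        = fun t => (f' t : Matrix (Fin 2) (Fin 2) ℝ) := by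
      funext t
      rw [h t]
    rw [this]
    exact continuous_matrix hf'

theorem iota_one673 : iota673 1 = 1 := by
  apply Units.ext
  ext i j
  fin_cases i <;> fin_cases j
  · show (iota673 1 : Matrix (Fin 2) (Fin 2) ℝ) 0 0 = (1 : Matrix (Fin 2) (Fin 2) ℝ) 0 0
    rw [iota_00, Matrix.one_apply_eq]
    simp
  · show (iota673 1 : Matrix (Fin 2) (Fin 2) ℝ) 0 1 = (1 : Matrix (Fin 2) (Fin 2) ℝ) 0 1
    rw [iota_01, Matrix.one_apply_ne (by decide)]
    simp
  · show (iota673 1 : Matrix (Fin 2) (Fin 2) ℝ) 1 0 = (1 : Matrix (Fin 2) (Fin 2) ℝ) 1 0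
    rw [iota_10, Matrix.one_apply_ne (by decide)]
  · show (iota673 1 : Matrix (Fin 2) (Fin 2) ℝ) 1 1 = (1 : Matrix (Fin 2) (Fin 2) ℝ) 1 1
    rw [iota_11, Matrix.one_apply_eq]
    simp

theorem iota_mul673 (p q : BP673) : iota673 (p * q) = iota673 p * iota673 q := by
  apply Units.ext
  ext i j
  fin_cases i <;> fin_cases j
  · show (iota673 (p * q) : Matrix (Fin 2) (Fin 2) ℝ) 0 0
      = ((iota673 p * iota673 q : GL (Fin 2) ℝ) : Matrix (Fin 2) (Fin 2) ℝ) 0 0
    rw [mul_00, iota_00, iota_00, iota_00, iota_10, mul_zero, add_zero, ← Real.exp_add,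
      BP673.zt_mul, BP673.rr_mul]
    congr 1
    ring
  · show (iota673 (p * q) : Matrix (Fin 2) (Fin 2) ℝ) 0 1
      = ((iota673 p * iota673 q : GL (Fin 2) ℝ) : Matrix (Fin 2) (Fin 2) ℝ) 0 1
    rw [mul_01, iota_01, iota_00, iota_01, iota_01, iota_11, BP673.zt_mul, BP673.rr_mul,
      BP673.xx_mul]
    have e1 : Real.exp ((p.zt + q.zt + (p.rr + q.rr)) / 2)
        = Real.exp ((p.zt + p.rr) / 2) * Real.exp ((q.zt + q.rr) / 2) := by
      rw [← Real.exp_add]
      congr 1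
      ring
    have e2 : Real.exp ((q.zt - q.rr) / 2)
        = Real.exp ((q.zt + q.rr) / 2) * Real.exp (-q.rr) := by
      rw [← Real.exp_add]
      congr 1
      ring
    rw [e1, e2]
    ring
  · show (iota673 (p * q) : Matrix (Fin 2) (Fin 2) ℝ) 1 0
      = ((iota673 p * iota673 q : GL (Fin 2) ℝ) : Matrix (Fin 2) (Fin 2) ℝ) 1 0
    rw [mul_10, iota_10, iota_10, iota_10]
    ring
  · show (iota673 (p * q) : Matrix (Fin 2) (Fin 2) ℝ) 1 1
      = ((iota673 p * iota673 q : GL (Fin 2) ℝ) : Matrix (Fin 2) (Fin 2) ℝ) 1 1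
    rw [mul_11, iota_10, iota_11, iota_11, iota_11, zero_mul, zero_add, ← Real.exp_add,
      BP673.zt_mul, BP673.rr_mul]
    congr 1
    ring

theorem iota_inv673 (p : BP673) : (iota673 p)⁻¹ = iota673 p⁻¹ := by
  rw [inv_eq_iff_eq_inv, eq_inv_iff_mul_eq_one, ← iota_mul673, mul_inv_cancel, iota_one673]

theorem continuous_iota_entry673 (i j : Fin 2) :
    Continuous fun p : BP673 => (iota673 p : Matrix (Fin 2) (Fin 2) ℝ) i j := by
  have hA : Continuous fun p : BP673 => Real.exp ((p.zt + p.rr) / 2) :=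
    Real.continuous_exp.comp ((BP673.continuous_zt.add BP673.continuous_rr).div_const 2)
  have hD : Continuous fun p : BP673 => Real.exp ((p.zt - p.rr) / 2) :=
    Real.continuous_exp.comp ((BP673.continuous_zt.sub BP673.continuous_rr).div_const 2)
  fin_cases i <;> fin_cases j
  · exact hA
  · exact hA.mul BP673.continuous_xx
  · exact continuous_const
  · exact hD

/-- The embedding of `B⁺` is continuous. -/
theorem continuous_iota673 : Continuous iota673 :=
  continuous_gl_of_entries673 (f' := fun p => iota673 p⁻¹) continuous_iota_entry673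
    (fun i j => (continuous_iota_entry673 i j).comp continuous_inv) iota_inv673

/-- The embedding of `B⁺` is a closed embedding. -/
theorem isClosedEmbedding_iota673 : Topology.IsClosedEmbedding iota673 :=
  Function.LeftInverse.isClosedEmbedding proj_iota673 continuous_proj673 continuous_iota673

/-! ## Rotations -/

theorem rotR_00 (θ : ℝ) : (rotR θ : Matrix (Fin 2) (Fin 2) ℝ) 0 0 = Real.cos θ := rfl
theorem rotR_01 (θ : ℝ) : (rotR θ : Matrix (Fin 2) (Fin 2) ℝ) 0 1 = -Real.sin θ := rfl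
theorem rotR_10 (θ : ℝ) : (rotR θ : Matrix (Fin 2) (Fin 2) ℝ) 1 0 = Real.sin θ := rfl
theorem rotR_11 (θ : ℝ) : (rotR θ : Matrix (Fin 2) (Fin 2) ℝ) 1 1 = Real.cos θ := rfl

theorem rotR_mul_neg673 (θ : ℝ) : rotR θ * rotR (-θ) = 1 := by
  have h := Real.cos_sq_add_sin_sq θ
  apply Units.ext
  ext i j
  fin_cases i <;> fin_cases j
  · show ((rotR θ * rotR (-θ) : GL (Fin 2) ℝ) : Matrix (Fin 2) (Fin 2) ℝ) 0 0
      = (1 : Matrix (Fin 2) (Fin 2) ℝ) 0 0
    rw [mul_00, rotR_00, rotR_00, rotR_01, rotR_10, Matrix.one_apply_eq, Real.cos_neg,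
      Real.sin_neg]
    linear_combination h
  · show ((rotR θ * rotR (-θ) : GL (Fin 2) ℝ) : Matrix (Fin 2) (Fin 2) ℝ) 0 1
      = (1 : Matrix (Fin 2) (Fin 2) ℝ) 0 1
    rw [mul_01, rotR_00, rotR_01, rotR_01, rotR_11, Matrix.one_apply_ne (by decide),
      Real.cos_neg, Real.sin_neg]
    ring
  · show ((rotR θ * rotR (-θ) : GL (Fin 2) ℝ) : Matrix (Fin 2) (Fin 2) ℝ) 1 0
      = (1 : Matrix (Fin 2) (Fin 2) ℝ) 1 0
    rw [mul_10, rotR_10, rotR_00, rotR_11, rotR_10, Matrix.one_apply_ne (by decide),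
      Real.cos_neg, Real.sin_neg]
    ring
  · show ((rotR θ * rotR (-θ) : GL (Fin 2) ℝ) : Matrix (Fin 2) (Fin 2) ℝ) 1 1
      = (1 : Matrix (Fin 2) (Fin 2) ℝ) 1 1
    rw [mul_11, rotR_10, rotR_01, rotR_11, rotR_11, Matrix.one_apply_eq, Real.cos_neg,
      Real.sin_neg]
    linear_combination h

theorem rotR_inv673 (θ : ℝ) : (rotR θ)⁻¹ = rotR (-θ) :=
  inv_eq_of_mul_eq_one_right (rotR_mul_neg673 θ)

theorem continuous_rotR_entry673 (i j : Fin 2) :
    Continuous fun θ : ℝ => (rotR θ : Matrix (Fin 2) (Fin 2) ℝ) i j := by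
  fin_cases i <;> fin_cases j
  · exact Real.continuous_cos
  · exact Real.continuous_sin.neg
  · exact Real.continuous_sin
  · exact Real.continuous_cos

theorem continuous_rotR673 : Continuous rotR :=
  continuous_gl_of_entries673 (f' := fun θ => rotR (-θ)) continuous_rotR_entry673
    (fun i j => (continuous_rotR_entry673 i j).comp continuous_neg) rotR_inv673

/-- A point of the unit circle has an angle in `[-π, π]`. -/
theorem exists_angle673 {u v : ℝ} (h : u * u + v * v = 1) :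
    ∃ θ ∈ Set.Icc (-Real.pi) Real.pi, Real.cos θ = u ∧ Real.sin θ = v := by
  have hn : ‖(⟨u, v⟩ : ℂ)‖ = 1 := by
    have h1 : ‖(⟨u, v⟩ : ℂ)‖ ^ 2 = 1 := by
      rw [Complex.sq_norm, Complex.normSq_mk]
      exact h
    have h2 : (0 : ℝ) ≤ ‖(⟨u, v⟩ : ℂ)‖ := norm_nonneg _
    nlinarith [h1, h2]
  have hz : (⟨u, v⟩ : ℂ) ≠ 0 := by
    intro h0
    rw [h0, norm_zero] at hn
    exact zero_ne_one hn
  refine ⟨Complex.arg ⟨u, v⟩, ⟨(Complex.neg_pi_lt_arg _).le, Complex.arg_le_pi _⟩, ?_, ?_⟩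
  · rw [Complex.cos_arg hz, hn, div_one]
  · rw [Complex.sin_arg, hn, div_one]

/-- The rotation part of `g` is a rotation. -/
theorem exists_kOf_eq_rotR673 (g : GL (Fin 2) ℝ) :
    ∃ θ ∈ Set.Icc (-Real.pi) Real.pi, kOf673 g = rotR θ := by
  have hN := nrm_pos673 g
  have hs : 0 < Real.sqrt (nrm673 g) := Real.sqrt_pos.2 hN
  have key := aux_unit673 hs.ne' (sqrt_mul_self673 g)
  obtain ⟨θ, hθ, hc, hsn⟩ := exists_angle673 key
  refine ⟨θ, hθ, ?_⟩
  apply Units.ext
  ext i j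
  fin_cases i <;> fin_cases j
  · show (kOf673 g : Matrix (Fin 2) (Fin 2) ℝ) 0 0 = (rotR θ : Matrix (Fin 2) (Fin 2) ℝ) 0 0
    rw [kOf_00, rotR_00, hc]
  · show (kOf673 g : Matrix (Fin 2) (Fin 2) ℝ) 0 1 = (rotR θ : Matrix (Fin 2) (Fin 2) ℝ) 0 1
    rw [kOf_01, rotR_01, hsn]
  · show (kOf673 g : Matrix (Fin 2) (Fin 2) ℝ) 1 0 = (rotR θ : Matrix (Fin 2) (Fin 2) ℝ) 1 0
    rw [kOf_10, rotR_10, hsn]
  · show (kOf673 g : Matrix (Fin 2) (Fin 2) ℝ) 1 1 = (rotR θ : Matrix (Fin 2) (Fin 2) ℝ) 1 1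
    rw [kOf_11, rotR_11, hc]

/-! ## The positive component -/

/-- `GL₂(ℝ)⁺`. -/
def gPos673 : Set (GL (Fin 2) ℝ) := {g | 0 < (g : Matrix (Fin 2) (Fin 2) ℝ).det}

theorem isOpen_gPos673 : IsOpen gPos673 :=
  isOpen_lt continuous_const continuous_det673

theorem one_mem_gPos673 : (1 : GL (Fin 2) ℝ) ∈ gPos673 := by
  show 0 < ((1 : GL (Fin 2) ℝ) : Matrix (Fin 2) (Fin 2) ℝ).det
  rw [Units.val_one, Matrix.det_one]
  exact one_pos

theorem iota_mul_mem_gPos673 (p : BP673) (g : GL (Fin 2) ℝ) :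
    iota673 p * g ∈ gPos673 ↔ g ∈ gPos673 := by
  show 0 < ((iota673 p * g : GL (Fin 2) ℝ) : Matrix (Fin 2) (Fin 2) ℝ).det ↔
    0 < (g : Matrix (Fin 2) (Fin 2) ℝ).det
  rw [det_mul673, det_iota673]
  exact mul_pos_iff_of_pos_left (Real.exp_pos _)

/-- `{det > 0} ∩ proj673 ⁻¹' C` lies in a compact set if `C` is compact. -/
theorem exists_compact_superset673 {C : Set BP673} (hC : IsCompact C) :
    ∃ T : Set (GL (Fin 2) ℝ), IsCompact T ∧ proj673 ⁻¹' C ∩ gPos673 ⊆ T := by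
  refine ⟨(fun x : BP673 × ℝ => iota673 x.1 * rotR x.2) '' (C ×ˢ Set.Icc (-Real.pi) Real.pi),
    ?_, ?_⟩
  · refine (hC.prod isCompact_Icc).image ?_
    exact (continuous_iota673.comp continuous_fst).mul (continuous_rotR673.comp continuous_snd)
  · rintro g ⟨hgC, hg⟩
    obtain ⟨θ, hθ, hk⟩ := exists_kOf_eq_rotR673 g
    refine ⟨(proj673 g, θ), ⟨hgC, hθ⟩, ?_⟩
    show iota673 (proj673 g) * rotR θ = g
    rw [← hk]
    exact (eq_iota_mul_kOf673 g hg).symm

end Fermat.Agent.LT.T6.H673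

end

end
-- ===== PACK-END LT/T6/H673/IwTop.lean

-- ===== PACK-BEGIN LT/T6/H159/NormLin.lean
section





/-!
# Row LT, tower T6, sub-leaf T6.15c `NormCritC` (helper159): linear algebra for the glue

`normCrit_of : NewtonC → QuadUnitNormC → Unr2C → NormCritC`.

`k'/k` unramified of prime degree `l`, `γ ∈ GL₂(k)` regular, `l ∣ ord (det γ)`, every eigenvalue
of `γ` in `k` of order divisible by `l`.  Three cases:

* (A) `γ` has an eigenvalue in `k`: both eigenvalues `t₁ ≠ t₂` are norms `t_j = N d_j` of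
  elements of `k'` (uniformiser powers and unit norm surjectivity, the scalar case of
  `QuadUnitNormC`), and `N diag(d₁, d₂) = diag(t₁, t₂)` is conjugate to `γ`.
* (B) `γ` elliptic, `k[γ]/k` unramified, `l = 2`: the characteristic polynomial of `γ` has the
  roots `λ ≠ s λ` in `k'` (`Unr2C`), and `N !![0, λ; 1, 0] = diag(λ, s λ)` is conjugate to `γ`.
* (C) `γ` elliptic, `k[γ]/k` ramified or `l` odd: there is `z` in the centraliser of `γ` with
  `l · ord (det z) = ord (det γ)`; `u = γ z⁻ˡ` has unit determinant and (by `NewtonC`) integral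
  trace, `u = N x` with `x ∈ k'[u]` (`QuadUnitNormC`), and `N (z x) = zˡ u = γ`.
-/

set_option autoImplicit false

open scoped Matrix

noncomputable section

namespace Fermat.Agent.LT.T6.H159

open Fermat.Agent.LT.T6

/-! ## The scalar norm -/

section ScalarNorm

variable {R : Type} [CommRing R]

/-- The norm `N_n d = d · s(d) ⋯ s^{n-1}(d)` on scalars. -/
def fNorm (s : R ≃+* R) : ℕ → R → R
  | 0, _ => 1
  | (n + 1), d => d * s (fNorm s n d)

theorem fNorm_zero (s : R ≃+* R) (d : R) : fNorm s 0 d = 1 := rfl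

theorem fNorm_succ (s : R ≃+* R) (n : ℕ) (d : R) :
    fNorm s (n + 1) d = d * s (fNorm s n d) := rfl

theorem fNorm_mul (s : R ≃+* R) (n : ℕ) (c d : R) :
    fNorm s n (c * d) = fNorm s n c * fNorm s n d := by
  induction n with
  | zero => simp [fNorm_zero]
  | succ n ih =>
    rw [fNorm_succ, fNorm_succ, fNorm_succ, ih, map_mul]
    ring

theorem fNorm_fixed (s : R ≃+* R) (n : ℕ) (c : R) (hc : s c = c) :
    fNorm s n c = c ^ n := by
  induction n with
  | zero => simp [fNorm_zero]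
  | succ n ih =>
    rw [fNorm_succ, ih, map_pow, hc, pow_succ]
    ring

/-- Entries of `glAut s δ`. -/
theorem glAut_coe (s : R ≃+* R) (δ : GL (Fin 2) R) (a b : Fin 2) :
    ((glAut s δ : GL (Fin 2) R) : Matrix (Fin 2) (Fin 2) R) a b
      = s ((δ : Matrix (Fin 2) (Fin 2) R) a b) := by
  simp [glAut, Matrix.GeneralLinearGroup.map_apply]

theorem twNorm_zero (s : R ≃+* R) (δ : GL (Fin 2) R) : twNorm s 0 δ = 1 := rfl

theorem twNorm_succ (s : R ≃+* R) (n : ℕ) (δ : GL (Fin 2) R) :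
    twNorm s (n + 1) δ = δ * glAut s (twNorm s n δ) := rfl

/-- The twisted norm of a diagonal matrix. -/
theorem twNorm_diag (s : R ≃+* R) (n : ℕ) (δ : GL (Fin 2) R) (d₁ d₂ : R)
    (h : (δ : Matrix (Fin 2) (Fin 2) R) = !![d₁, 0; 0, d₂]) :
    ((twNorm s n δ : GL (Fin 2) R) : Matrix (Fin 2) (Fin 2) R)
      = !![fNorm s n d₁, 0; 0, fNorm s n d₂] := by
  induction n with
  | zero =>
    rw [twNorm_zero, Matrix.GeneralLinearGroup.coe_one, fNorm_zero, fNorm_zero,
      Matrix.one_fin_two]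
  | succ n ih =>
    rw [twNorm_succ, Matrix.GeneralLinearGroup.coe_mul, h]
    ext a b
    rw [Matrix.mul_apply, Fin.sum_univ_two, glAut_coe, glAut_coe, ih]
    fin_cases a <;> fin_cases b <;> simp [fNorm_succ]

/-- `N (Z x) = Zⁿ N x` if `Z` is fixed by `s` and commutes with `x`. -/
theorem twN_mul_fixed {Γ : Type} [Group Γ] (S : Γ →* Γ) (Z x : Γ) (hZ : S Z = Z)
    (hc : Commute Z x) (n : ℕ) : twN S n (Z * x) = Z ^ n * twN S n x := by
  induction n with
  | zero => simp [twN]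
  | succ n ih =>
    have h1 : twN S (n + 1) (Z * x) = Z * x * S (twN S n (Z * x)) := rfl
    have h2 : twN S (n + 1) x = x * S (twN S n x) := rfl
    rw [h1, h2, ih, map_mul, map_pow, hZ, pow_succ']
    have h3 : x * Z ^ n = Z ^ n * x := ((hc.pow_left n).eq).symm
    calc Z * x * (Z ^ n * S (twN S n x)) = Z * (x * Z ^ n) * S (twN S n x) := by group
      _ = Z * (Z ^ n * x) * S (twN S n x) := by rw [h3]
      _ = Z * Z ^ n * (x * S (twN S n x)) := by group

end ScalarNorm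

/-! ## Linear algebra of `2 × 2` matrices over a field -/

section LinAlg

variable {K : Type} [Field K]

/-- The companion-type matrix `!![0, -D; 1, T]`. -/
def compan (T D : K) (hD : D ≠ 0) : GL (Fin 2) K :=
  Matrix.GeneralLinearGroup.mkOfDetNeZero !![0, -D; 1, T] (by
    rw [Matrix.det_fin_two]; simpa using hD)

theorem compan_coe (T D : K) (hD : D ≠ 0) :
    ((compan T D hD : GL (Fin 2) K) : Matrix (Fin 2) (Fin 2) K) = !![0, -D; 1, T] := rfl

theorem isConj_of_mul_eq {G : Type} [Group G] {N P C : G} (h : N * P = P * C) :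
    IsConj N C := by
  rw [isConj_iff]
  refine ⟨P⁻¹, ?_⟩
  rw [inv_inv, mul_assoc, h, inv_mul_cancel_left]

/-- A non-scalar matrix is conjugate to the companion matrix of its characteristic polynomial. -/
theorem isConj_compan (N : GL (Fin 2) K) (T D : K) (hD : D ≠ 0)
    (hT : T = (N : Matrix (Fin 2) (Fin 2) K) 0 0 + (N : Matrix (Fin 2) (Fin 2) K) 1 1)
    (hDet : D = (N : Matrix (Fin 2) (Fin 2) K) 0 0 * (N : Matrix (Fin 2) (Fin 2) K) 1 1
      - (N : Matrix (Fin 2) (Fin 2) K) 0 1 * (N : Matrix (Fin 2) (Fin 2) K) 1 0)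
    (hns : ¬ ((N : Matrix (Fin 2) (Fin 2) K) 0 1 = 0 ∧ (N : Matrix (Fin 2) (Fin 2) K) 1 0 = 0 ∧
      (N : Matrix (Fin 2) (Fin 2) K) 0 0 = (N : Matrix (Fin 2) (Fin 2) K) 1 1)) :
    IsConj N (compan T D hD) := by
  set a := (N : Matrix (Fin 2) (Fin 2) K) 0 0 with ha
  set b := (N : Matrix (Fin 2) (Fin 2) K) 0 1 with hb
  set c := (N : Matrix (Fin 2) (Fin 2) K) 1 0 with hc
  set d := (N : Matrix (Fin 2) (Fin 2) K) 1 1 with hd
  have hNeta : (N : Matrix (Fin 2) (Fin 2) K) = !![a, b; c, d] := Matrix.eta_fin_two _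
  have hC : ((compan T D hD : GL (Fin 2) K) : Matrix (Fin 2) (Fin 2) K)
      = !![0, -(a * d - b * c); 1, a + d] := by
    rw [compan_coe, hT, hDet]
  have key : ∀ (x y : K), c * x ^ 2 + (d - a) * x * y - b * y ^ 2 ≠ 0 →
      IsConj N (compan T D hD) := by
    intro x y hxy
    have hdet : (!![x, a * x + b * y; y, c * x + d * y] : Matrix (Fin 2) (Fin 2) K).det ≠ 0 := by
      rw [Matrix.det_fin_two]
      simp only [Matrix.of_apply, Matrix.cons_val', Matrix.cons_val_zero, Matrix.cons_val_one,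
        Matrix.cons_val_fin_one]
      intro h0
      apply hxy
      linear_combination h0
    let P : GL (Fin 2) K := Matrix.GeneralLinearGroup.mkOfDetNeZero _ hdet
    have hP : (P : Matrix (Fin 2) (Fin 2) K) = !![x, a * x + b * y; y, c * x + d * y] := rfl
    apply isConj_of_mul_eq (P := P)
    apply Matrix.GeneralLinearGroup.ext
    intro r k
    rw [Matrix.GeneralLinearGroup.coe_mul, Matrix.GeneralLinearGroup.coe_mul, hC, hP, hNeta]
    fin_cases r <;> fin_cases k <;>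
      simp [Matrix.mul_apply, Fin.sum_univ_two] <;> ring
  by_cases hc0 : c = 0
  · by_cases hb0 : b = 0
    · have had : a ≠ d := fun h => hns ⟨hb0, hc0, h⟩
      apply key 1 1
      rw [hc0, hb0]
      simpa [sub_eq_zero] using fun h : d = a => had h.symm
    · apply key 0 1
      simpa using hb0
  · apply key 1 0
    simpa using hc0

/-- A matrix with non-zero discriminant is not scalar. -/
theorem not_scalar_of_disc (N : Matrix (Fin 2) (Fin 2) K)
    (h : N.trace ^ 2 - 4 * N.det ≠ 0) :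
    ¬ (N 0 1 = 0 ∧ N 1 0 = 0 ∧ N 0 0 = N 1 1) := by
  rintro ⟨h1, h2, h3⟩
  apply h
  rw [Matrix.trace_fin_two, Matrix.det_fin_two, h1, h2, h3]
  ring

/-- Two regular elements of `GL₂(K)` with the same trace and determinant are conjugate. -/
theorem isConj_of_trace_det (A B : GL (Fin 2) K)
    (htr : (A : Matrix (Fin 2) (Fin 2) K).trace = (B : Matrix (Fin 2) (Fin 2) K).trace)
    (hdet : (A : Matrix (Fin 2) (Fin 2) K).det = (B : Matrix (Fin 2) (Fin 2) K).det)
    (hreg : (A : Matrix (Fin 2) (Fin 2) K).trace ^ 2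
      - 4 * (A : Matrix (Fin 2) (Fin 2) K).det ≠ 0) : IsConj A B := by
  have hD : (A : Matrix (Fin 2) (Fin 2) K).det ≠ 0 := by
    have := (Matrix.isUnit_iff_isUnit_det _).mp A.isUnit
    exact this.ne_zero
  have hA := isConj_compan A _ _ hD (Matrix.trace_fin_two _) (Matrix.det_fin_two _)
    (not_scalar_of_disc _ hreg)
  have hB := isConj_compan B _ _ hD (htr.trans (Matrix.trace_fin_two _))
    (hdet.trans (Matrix.det_fin_two _)) (not_scalar_of_disc _ (by rw [← htr, ← hdet]; exact hreg))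
  exact hA.trans hB.symm

/-- The centraliser of a non-scalar `2 × 2` matrix `γ` is `K + K γ`. -/
theorem exists_eq_add_smul_of_comm (γ u : Matrix (Fin 2) (Fin 2) K)
    (hns : ¬ (γ 0 1 = 0 ∧ γ 1 0 = 0 ∧ γ 0 0 = γ 1 1)) (hcomm : u * γ = γ * u) :
    ∃ α β : K, u = α • (1 : Matrix (Fin 2) (Fin 2) K) + β • γ := by
  set a := γ 0 0 with ha
  set b := γ 0 1 with hb
  set c := γ 1 0 with hc
  set d := γ 1 1 with hd
  set p := u 0 0 with hp
  set q := u 0 1 with hq
  set r := u 1 0 with hr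
  set s := u 1 1 with hs
  have hγ : γ = !![a, b; c, d] := Matrix.eta_fin_two _
  have hu : u = !![p, q; r, s] := Matrix.eta_fin_two _
  have e00 : p * a + q * c = a * p + b * r := by
    have := congrFun (congrFun hcomm 0) 0
    rw [hγ, hu] at this
    simpa [Matrix.mul_apply, Fin.sum_univ_two] using this
  have e01 : p * b + q * d = a * q + b * s := by
    have := congrFun (congrFun hcomm 0) 1
    rw [hγ, hu] at this
    simpa [Matrix.mul_apply, Fin.sum_univ_two] using this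
  have e10 : r * a + s * c = c * p + d * r := by
    have := congrFun (congrFun hcomm 1) 0
    rw [hγ, hu] at this
    simpa [Matrix.mul_apply, Fin.sum_univ_two] using this
  have e11 : r * b + s * d = c * q + d * s := by
    have := congrFun (congrFun hcomm 1) 1
    rw [hγ, hu] at this
    simpa [Matrix.mul_apply, Fin.sum_univ_two] using this
  have fin : ∀ α β : K, p = α + β * a → q = β * b → r = β * c → s = α + β * d →
      ∃ α β : K, u = α • (1 : Matrix (Fin 2) (Fin 2) K) + β • γ := by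
    intro α β h1 h2 h3 h4
    refine ⟨α, β, ?_⟩
    rw [hγ, hu, Matrix.one_fin_two]
    ext i j
    fin_cases i <;> fin_cases j <;> simp [h1, h2, h3, h4]
  by_cases hb0 : b = 0
  · by_cases hc0 : c = 0
    · have had : a - d ≠ 0 := fun h => hns ⟨hb0, hc0, sub_eq_zero.mp h⟩
      have hq0 : q = 0 := by
        have : q * (a - d) = 0 := by rw [hb0] at e01; linear_combination -e01
        rcases mul_eq_zero.mp this with h | h
        · exact h
        · exact absurd h had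
      have hr0 : r = 0 := by
        have : r * (a - d) = 0 := by rw [hc0] at e10; linear_combination e10
        rcases mul_eq_zero.mp this with h | h
        · exact h
        · exact absurd h had
      refine fin (p - (p - s) / (a - d) * a) ((p - s) / (a - d)) (by ring) (by rw [hq0, hb0]; ring)
        (by rw [hr0, hc0]; ring) ?_
      field_simp
      ring
    · refine fin (p - r / c * a) (r / c) (by ring) ?_ (by field_simp) ?_
      · field_simp
        linear_combination -e11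
      · field_simp
        linear_combination e10
  · refine fin (p - q / b * a) (q / b) (by ring) (by field_simp) ?_ ?_
    · field_simp
      linear_combination -e00
    · field_simp
      linear_combination -e01

end LinAlg

end Fermat.Agent.LT.T6.H159

end

end
-- ===== PACK-END LT/T6/H159/NormLin.lean

-- ===== PACK-BEGIN LT/T6/H98/NewtonC.lean
section






/-!
# Row LT, tower T6, sub-leaf T6.15c2 `NewtonC` (spare copy, helper98)

Corollary of `exists_root_quadratic98`: `X² - τ X + d` with `|d| = 1 < |τ|` has a root.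
-/

set_option autoImplicit false

noncomputable section

namespace Fermat.Agent.LT.T6.H98

open Fermat.Agent.LT.T6

/-- **T6.15c2 `NewtonC`.** -/
theorem newtonC98 : H159.NewtonC := by
  intro k _ _ q hk τ d hd hτ
  haveI : CompleteSpace k := hk.complete
  obtain ⟨x, hx⟩ := exists_root_quadratic98 (-τ) d (by
    rw [Valuation.map_neg, hd]
    exact one_lt_pow₀ hτ (by norm_num))
  exact ⟨x, by linear_combination hx⟩

end Fermat.Agent.LT.T6.H98

end

end
-- ===== PACK-END LT/T6/H98/NewtonC.lean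

-- ===== PACK-BEGIN LT/T6/H842/EllAlg.lean
section



/-!
# Row LT, tower T6, leaf T6.27 (helper842): the algebra of the standard elements

OFF-MAIN.  Group identities between `z_u k_θ`, `a_τ`, `w`, `a_b`, and the evaluations of
`det`, `rhoR`, `holPart`, `rhoC` on `Y(u,θ,τ)` and `X(u,θ,τ,b)`.
-/

set_option autoImplicit false

open scoped Matrix
open MeasureTheory

noncomputable section

namespace Fermat.Agent.LT.T6.H842

/-! ## 1. Coercions -/

@[simp] theorem coe_zk842 (u θ : ℝ) : ((zk u θ : GL (Fin 2) ℝ) : Matrix (Fin 2) (Fin 2) ℝ)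
    = zkMat u θ := rfl

@[simp] theorem coe_aR842 (τ : ℝ) : ((aR τ : GL (Fin 2) ℝ) : Matrix (Fin 2) (Fin 2) ℝ)
    = aMat τ := rfl

@[simp] theorem coe_wR842 : ((wR : GL (Fin 2) ℝ) : Matrix (Fin 2) (Fin 2) ℝ) = wMat := rfl

@[simp] theorem coe_aq842 (b : ℝ) : ((aq b : GL (Fin 2) ℂ) : Matrix (Fin 2) (Fin 2) ℂ)
    = aqMat b := rfl

theorem coe_incl842 (g : GL (Fin 2) ℝ) :
    ((incl g : GL (Fin 2) ℂ) : Matrix (Fin 2) (Fin 2) ℂ)
      = (g : Matrix (Fin 2) (Fin 2) ℝ).map (algebraMap ℝ ℂ) := rfl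

theorem coe_incl_apply842 (g : GL (Fin 2) ℝ) (i j : Fin 2) :
    ((incl g : GL (Fin 2) ℂ) : Matrix (Fin 2) (Fin 2) ℂ) i j
      = (((g : Matrix (Fin 2) (Fin 2) ℝ) i j : ℝ) : ℂ) := rfl

/-! ## 2. The torus `{z_u k_θ}` -/

theorem zkMat_mul842 (u θ v α : ℝ) : zkMat u θ * zkMat v α = zkMat (u + v) (θ + α) := by
  ext i j
  fin_cases i <;> fin_cases j <;>
    simp [zkMat, Matrix.mul_apply, Fin.sum_univ_two, Real.exp_add, Real.cos_add, Real.sin_add] <;>
    ring

theorem zk_mul842 (u θ v α : ℝ) : zk u θ * zk v α = zk (u + v) (θ + α) :=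
  Units.ext (zkMat_mul842 u θ v α)

theorem zkMat_zero842 : zkMat 0 0 = 1 := by
  ext i j
  fin_cases i <;> fin_cases j <;> simp [zkMat]

theorem zk_zero842 : zk 0 0 = 1 := Units.ext zkMat_zero842

theorem zk_inv842 (u θ : ℝ) : (zk u θ)⁻¹ = zk (-u) (-θ) := by
  rw [inv_eq_iff_mul_eq_one, zk_mul842]
  simp [zk_zero842]

theorem zk_comm842 (u θ v α : ℝ) : zk u θ * zk v α = zk v α * zk u θ := by
  rw [zk_mul842, zk_mul842, add_comm u v, add_comm θ α]

theorem zk_add_two_pi842 (u θ : ℝ) : zk u (θ + 2 * Real.pi) = zk u θ := by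
  apply Units.ext
  simp [zkMat]

theorem zk_add_int_mul_two_pi842 (u θ : ℝ) (n : ℤ) :
    zk u (θ + n * (2 * Real.pi)) = zk u θ := by
  apply Units.ext
  simp [zkMat]

theorem inSO2_zk842 (β : ℝ) : InSO2 (zk 0 β) := by
  constructor
  · ext i j
    have := Real.sin_sq_add_cos_sq β
    fin_cases i <;> fin_cases j <;>
      simp [zkMat, Matrix.mul_apply, Fin.sum_univ_two] <;> nlinarith
  · rw [coe_zk842, det_zkMat]; simp

/-! ## 3. `w` and `a_τ` -/

theorem wR_mul_self842 : wR * wR = 1 := by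
  apply Units.ext
  ext i j
  fin_cases i <;> fin_cases j <;> simp [wMat, Matrix.mul_apply, Fin.sum_univ_two]

theorem wR_inv842 : wR⁻¹ = wR := inv_eq_of_mul_eq_one_left wR_mul_self842

theorem wR_zk_wR842 (u θ : ℝ) : wR * zk u θ * wR = zk u (-θ) := by
  apply Units.ext
  ext i j
  fin_cases i <;> fin_cases j <;> simp [wMat, zkMat, Matrix.mul_apply, Fin.sum_univ_two]

theorem wR_aR842 (τ : ℝ) : wR * aR τ = aR τ * wR := by
  apply Units.ext
  ext i j
  fin_cases i <;> fin_cases j <;> simp [wMat, aMat, Matrix.mul_apply, Fin.sum_univ_two]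

theorem aMat_mul842 (τ σ : ℝ) : aMat τ * aMat σ = aMat (τ + σ) := by
  ext i j
  fin_cases i <;> fin_cases j <;>
    simp [aMat, Matrix.mul_apply, Fin.sum_univ_two, ← Real.exp_add] <;> ring_nf

theorem aR_mul842 (τ σ : ℝ) : aR τ * aR σ = aR (τ + σ) := Units.ext (aMat_mul842 τ σ)

theorem aR_zero842 : aR 0 = 1 := by
  apply Units.ext
  ext i j
  fin_cases i <;> fin_cases j <;> simp [aMat]

theorem aR_inv842 (τ : ℝ) : (aR τ)⁻¹ = aR (-τ) := by
  rw [inv_eq_iff_mul_eq_one, aR_mul842]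
  simp [aR_zero842]

/-! ## 4. `Y(u,θ,τ)` -/

/-- The matrix of `Y(u,θ,τ)`. -/
theorem coe_ellY842 (u θ τ : ℝ) :
    ((ellY u θ τ : GL (Fin 2) ℝ) : Matrix (Fin 2) (Fin 2) ℝ)
      = !![Real.exp u * Real.cos θ, -(Real.exp u * (Real.exp (-τ) * Real.sin θ));
           Real.exp u * (Real.exp τ * Real.sin θ), Real.exp u * Real.cos θ] := by
  have h1 : Real.exp (-(τ / 2)) * Real.exp (-(τ / 2)) = Real.exp (-τ) := by
    rw [← Real.exp_add]; ring_nf
  have h2 : Real.exp (τ / 2) * Real.exp (τ / 2) = Real.exp τ := by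
    rw [← Real.exp_add]; ring_nf
  have h3 : Real.exp (-(τ / 2)) * Real.exp (τ / 2) = 1 := by
    rw [← Real.exp_add]; simp
  have ha : aMat (-τ) = !![Real.exp (-(τ / 2)), 0; 0, Real.exp (τ / 2)] := by
    simp [aMat, neg_div]
  rw [ellY, aR_inv842]
  change aMat (-τ) * zkMat u θ * aMat τ = _
  rw [ha]
  ext i j
  fin_cases i <;> fin_cases j <;>
    simp [aMat, zkMat, Matrix.mul_apply, Fin.sum_univ_two]
  · linear_combination (Real.exp u * Real.cos θ) * h3
  · linear_combination (Real.exp u * Real.sin θ) * h1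
  · linear_combination (Real.exp u * Real.sin θ) * h2
  · linear_combination (Real.exp u * Real.cos θ) * h3

theorem ellY_wR842 (u θ τ : ℝ) : wR * ellY u θ τ * wR = ellY u (-θ) τ := by
  have h : wR * (aR τ)⁻¹ = (aR τ)⁻¹ * wR := by
    rw [aR_inv842, wR_aR842]
  rw [ellY, ellY, ← wR_zk_wR842]
  calc wR * ((aR τ)⁻¹ * zk u θ * aR τ) * wR
      = (wR * (aR τ)⁻¹) * zk u θ * (aR τ * wR) := by simp only [mul_assoc]
    _ = ((aR τ)⁻¹ * wR) * zk u θ * (wR * aR τ) := by rw [h, wR_aR842]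
    _ = (aR τ)⁻¹ * (wR * zk u θ * wR) * aR τ := by simp only [mul_assoc]

theorem det_ellY842 (u θ τ : ℝ) :
    ((ellY u θ τ : GL (Fin 2) ℝ) : Matrix (Fin 2) (Fin 2) ℝ).det = Real.exp u ^ 2 := by
  rw [coe_ellY842, Matrix.det_fin_two_of]
  have h1 : Real.exp (-τ) * Real.exp τ = 1 := by rw [← Real.exp_add]; simp
  have := Real.sin_sq_add_cos_sq θ
  linear_combination (Real.exp u ^ 2) * this + (Real.exp u ^ 2 * Real.sin θ ^ 2) * h1

/-- `rhoR (Y(u,θ,τ)) = 1 + 2 sin²θ sinh²τ`. -/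
theorem rhoR_ellY842 (u θ τ : ℝ) :
    rhoR (ellY u θ τ) = 1 + 2 * Real.sin θ ^ 2 * Real.sinh τ ^ 2 := by
  have hu : (0 : ℝ) < Real.exp u ^ 2 := pow_pos (Real.exp_pos u) 2
  rw [rhoR, det_ellY842, abs_of_pos hu, div_eq_iff (by positivity)]
  rw [coe_ellY842]
  have h1 : Real.exp (-τ) * Real.exp τ = 1 := by rw [← Real.exp_add]; simp
  have hs : Real.sinh τ = (Real.exp τ - Real.exp (-τ)) / 2 := Real.sinh_eq τ
  have := Real.sin_sq_add_cos_sq θ
  simp only [Matrix.trace_fin_two, Matrix.mul_apply, Fin.sum_univ_two, Matrix.transpose_apply,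
    Matrix.of_apply, Matrix.cons_val', Matrix.cons_val_zero, Matrix.cons_val_one,
    Matrix.empty_val', Matrix.cons_val_fin_one]
  rw [hs]
  linear_combination (2 * Real.exp u ^ 2) * this + (2 * Real.exp u ^ 2 * Real.sin θ ^ 2) * h1

/-- `holPart (Y(u,θ,τ)) = e^u (cos θ + i cosh τ sin θ)`. -/
theorem holPart_ellY842 (u θ τ : ℝ) :
    holPart (ellY u θ τ)
      = (Real.exp u : ℂ) * ((Real.cos θ : ℂ) + Complex.I * ((Real.cosh τ * Real.sin θ : ℝ) : ℂ)) := by
  rw [holPart, coe_ellY842]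
  have hc : Real.cosh τ = (Real.exp τ + Real.exp (-τ)) / 2 := Real.cosh_eq τ
  simp only [Matrix.of_apply, Matrix.cons_val', Matrix.cons_val_zero, Matrix.cons_val_one,
    Matrix.empty_val', Matrix.cons_val_fin_one]
  rw [hc]
  push_cast
  ring

end Fermat.Agent.LT.T6.H842

end

end
-- ===== PACK-END LT/T6/H842/EllAlg.lean

-- ===== PACK-BEGIN LT/T6/H855/HypAlg.lean
section




/-!
# Row LT, tower T6, registry row 1260 = T6.25 `ArchHyp` (helper855): ALGEBRA

OFF-MAIN.  Vocabulary (byte-identical copies): `LT/T6/Spec.lean` v3 (8c5f2ae7), `LT/T6/SpecArch.lean`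
(003240b2) of helper22, `LT/T6/H626/ArchCut.lean` (fac998d4) of helper626,
`LT/T6/H189/ArchIntSpec.lean` (4ac6c090) of helper189.

Elementary matrix identities for the hyperbolic orbital integrals:
`n(u)⁻¹ diag(a,b) n(u) = diag(a,b) n((1 - b/a) u)`, the twisted analogue
`n(w)⁻¹ diag(d₁,d₂) n(w̄) = diag(d₁,d₂) n(w̄ - (d₂/d₁) w)`, `δ δ̄ = diag(a,b)` forces `δ` diagonal,
diagonalisation of the elements of positive discriminant, `SO(2)` and `U(2)`.
-/

set_option autoImplicit false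

open scoped Matrix
open MeasureTheory

noncomputable section

namespace Fermat.Agent.LT.T6.H855

open Fermat.Agent.LT.T6

/-! ## 1. Elements -/

/-- The upper unipotent element `n(x) = !![1, x; 0, 1]`. -/
def nU855 {R : Type} [CommRing R] (x : R) : GL (Fin 2) R :=
  ⟨!![1, x; 0, 1], !![1, -x; 0, 1],
    by ext i j; fin_cases i <;> fin_cases j <;> simp [Matrix.mul_apply, Fin.sum_univ_two],
    by ext i j; fin_cases i <;> fin_cases j <;> simp [Matrix.mul_apply, Fin.sum_univ_two]⟩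

/-- The diagonal element `diag(a, b)`. -/
def dgU855 {R : Type} [CommRing R] (a b : Rˣ) : GL (Fin 2) R :=
  ⟨!![(a : R), 0; 0, (b : R)], !![((a⁻¹ : Rˣ) : R), 0; 0, ((b⁻¹ : Rˣ) : R)],
    by ext i j; fin_cases i <;> fin_cases j <;> simp [Matrix.mul_apply, Fin.sum_univ_two],
    by ext i j; fin_cases i <;> fin_cases j <;> simp [Matrix.mul_apply, Fin.sum_univ_two]⟩

/-- The embedding `GL₂(ℝ) → GL₂(ℂ)`. -/
abbrev iotaC855 : GL (Fin 2) ℝ →* GL (Fin 2) ℂ :=
  Matrix.GeneralLinearGroup.map (algebraMap ℝ ℂ)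

section Ring

variable {R : Type} [CommRing R]

@[simp] theorem nU_coe855 (x : R) :
    ((nU855 x : GL (Fin 2) R) : Matrix (Fin 2) (Fin 2) R) = !![1, x; 0, 1] := rfl

@[simp] theorem dgU_coe855 (a b : Rˣ) :
    ((dgU855 a b : GL (Fin 2) R) : Matrix (Fin 2) (Fin 2) R) = !![(a : R), 0; 0, (b : R)] := rfl

theorem nU_inv_coe855 (x : R) :
    (((nU855 x)⁻¹ : GL (Fin 2) R) : Matrix (Fin 2) (Fin 2) R) = !![1, -x; 0, 1] := rfl

theorem dgU_inv_coe855 (a b : Rˣ) :
    (((dgU855 a b)⁻¹ : GL (Fin 2) R) : Matrix (Fin 2) (Fin 2) R)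
      = !![((a⁻¹ : Rˣ) : R), 0; 0, ((b⁻¹ : Rˣ) : R)] := rfl

theorem nU_mul855 (x y : R) : nU855 x * nU855 y = nU855 (x + y) := by
  apply Units.ext
  ext i j
  fin_cases i <;> fin_cases j <;> simp [Matrix.mul_apply, Fin.sum_univ_two, add_comm]

theorem nU_inv855 (x : R) : (nU855 x)⁻¹ = nU855 (-x) := by
  apply Units.ext
  rfl

theorem nU_zero855 : nU855 (0 : R) = 1 := by
  apply Units.ext
  ext i j
  fin_cases i <;> fin_cases j <;> simp

theorem dgU_mul855 (a b a' b' : Rˣ) :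
    dgU855 a b * dgU855 a' b' = dgU855 (a * a') (b * b') := by
  apply Units.ext
  ext i j
  fin_cases i <;> fin_cases j <;> simp [Matrix.mul_apply, Fin.sum_univ_two]

theorem dgU_inv855 (a b : Rˣ) : (dgU855 a b)⁻¹ = dgU855 a⁻¹ b⁻¹ := by
  apply Units.ext
  rfl

theorem dgU_one855 : dgU855 (1 : Rˣ) 1 = 1 := by
  apply Units.ext
  ext i j
  fin_cases i <;> fin_cases j <;> simp

theorem dgU_comm855 (a b a' b' : Rˣ) :
    dgU855 a b * dgU855 a' b' = dgU855 a' b' * dgU855 a b := by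
  rw [dgU_mul855, dgU_mul855, mul_comm a, mul_comm b]

/-- `n(u)⁻¹ diag(a, b) n(u) = diag(a, b) n(u - a⁻¹ b u)`. -/
theorem nU_conj_dgU855 (a b : Rˣ) (u : R) :
    (nU855 u)⁻¹ * dgU855 a b * nU855 u
      = dgU855 a b * nU855 (u - ((a⁻¹ : Rˣ) : R) * (b : R) * u) := by
  apply Units.ext
  rw [Units.val_mul, Units.val_mul, Units.val_mul, nU_inv_coe855, dgU_coe855, nU_coe855, nU_coe855]
  ext i j
  fin_cases i <;> fin_cases j <;> simp [Matrix.mul_apply, Fin.sum_univ_two]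
  · have h : (a : R) * ((a⁻¹ : Rˣ) : R) = 1 := by simp
    linear_combination ((b:R) * u) * h

/-- `diag(c, d) n(z) = n(c d⁻¹ z) diag(c, d)`. -/
theorem dgU_mul_nU855 (c d : Rˣ) (z : R) :
    dgU855 c d * nU855 z = nU855 ((c : R) * ((d⁻¹ : Rˣ) : R) * z) * dgU855 c d := by
  apply Units.ext
  rw [Units.val_mul, Units.val_mul, dgU_coe855, nU_coe855, nU_coe855]
  ext i j
  fin_cases i <;> fin_cases j <;> simp [Matrix.mul_apply, Fin.sum_univ_two]
  · have h : ((d⁻¹ : Rˣ) : R) * (d : R) = 1 := by simp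
    linear_combination (-(c:R) * z) * h

/-! ## 2. The twisted norm -/

theorem twNorm_two855 (s : R ≃+* R) (δ : GL (Fin 2) R) :
    twNorm s 2 δ = δ * glAut s δ := by
  simp [twNorm, twN]

theorem glAut_coe855 (s : R ≃+* R) (x : GL (Fin 2) R) (i j : Fin 2) :
    ((glAut s x : GL (Fin 2) R) : Matrix (Fin 2) (Fin 2) R) i j
      = s ((x : Matrix (Fin 2) (Fin 2) R) i j) := by
  simp [glAut]

theorem glAut_nU855 (s : R ≃+* R) (w : R) :
    glAut s (nU855 w) = nU855 (s w) := by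
  apply Matrix.GeneralLinearGroup.ext
  intro i j
  rw [glAut_coe855]
  fin_cases i <;> fin_cases j <;> simp

theorem glAut_dgU855 (s : R ≃+* R) (a b : Rˣ) :
    glAut s (dgU855 a b) = dgU855 (Units.map (s : R →* R) a) (Units.map (s : R →* R) b) := by
  apply Matrix.GeneralLinearGroup.ext
  intro i j
  rw [glAut_coe855]
  fin_cases i <;> fin_cases j <;> simp

end Ring

theorem glAut_iota855 (g : GL (Fin 2) ℝ) :
    glAut (starRingAut : ℂ ≃+* ℂ) (iotaC855 g) = iotaC855 g := by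
  apply Matrix.GeneralLinearGroup.ext
  intro i j
  rw [glAut_coe855]
  simp [iotaC855]

theorem glAut_glAut855 (x : GL (Fin 2) ℂ) :
    glAut (starRingAut : ℂ ≃+* ℂ) (glAut (starRingAut : ℂ ≃+* ℂ) x) = x := by
  apply Matrix.GeneralLinearGroup.ext
  intro i j
  rw [glAut_coe855, glAut_coe855]
  simp

theorem iota_coe855 (g : GL (Fin 2) ℝ) (i j : Fin 2) :
    ((iotaC855 g : GL (Fin 2) ℂ) : Matrix (Fin 2) (Fin 2) ℂ) i j
      = (((g : Matrix (Fin 2) (Fin 2) ℝ) i j : ℝ) : ℂ) := by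
  simp [iotaC855]

/-- The unit of `ℂ` of a real unit. -/
abbrev cU855 (a : ℝˣ) : ℂˣ := Units.map (algebraMap ℝ ℂ).toMonoidHom a

@[simp] theorem cU_coe855 (a : ℝˣ) : ((cU855 a : ℂˣ) : ℂ) = ((a : ℝ) : ℂ) := rfl

theorem iota_dgU855 (a b : ℝˣ) : iotaC855 (dgU855 a b) = dgU855 (cU855 a) (cU855 b) := by
  apply Matrix.GeneralLinearGroup.ext
  intro i j
  rw [iota_coe855]
  fin_cases i <;> fin_cases j <;> simp

theorem iota_nU855 (x : ℝ) : iotaC855 (nU855 x) = nU855 ((x : ℝ) : ℂ) := by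
  apply Matrix.GeneralLinearGroup.ext
  intro i j
  rw [iota_coe855]
  fin_cases i <;> fin_cases j <;> simp

/-- If `δ δ̄ = γ` is real then `δ` commutes with `γ`. -/
theorem comm_of_twNorm855 (γ : GL (Fin 2) ℝ) (δ : GL (Fin 2) ℂ)
    (h : twNorm (starRingAut : ℂ ≃+* ℂ) 2 δ = iotaC855 γ) :
    δ * iotaC855 γ = iotaC855 γ * δ := by
  rw [twNorm_two855] at h
  have h2 : glAut (starRingAut : ℂ ≃+* ℂ) δ * δ = iotaC855 γ := by
    have := congrArg (glAut (starRingAut : ℂ ≃+* ℂ)) h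
    rwa [map_mul, glAut_glAut855, glAut_iota855] at this
  calc δ * iotaC855 γ = δ * (glAut (starRingAut : ℂ ≃+* ℂ) δ * δ) := by rw [h2]
    _ = (δ * glAut (starRingAut : ℂ ≃+* ℂ) δ) * δ := by rw [mul_assoc]
    _ = iotaC855 γ * δ := by rw [h]

/-- If `δ δ̄ = diag(a, b)`, `a ≠ b`, then `δ = diag(d₁, d₂)` with `|d₁|² = a`, `|d₂|² = b`. -/
theorem delta_diag855 (a b : ℝˣ) (hab : a ≠ b) (δ : GL (Fin 2) ℂ)
    (h : twNorm (starRingAut : ℂ ≃+* ℂ) 2 δ = iotaC855 (dgU855 a b)) :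
    ∃ d₁ d₂ : ℂˣ, δ = dgU855 d₁ d₂ ∧ Complex.normSq (d₁ : ℂ) = (a : ℝ) ∧
      Complex.normSq (d₂ : ℂ) = (b : ℝ) := by
  have hab' : (a : ℝ) ≠ (b : ℝ) := fun hh => hab (Units.ext hh)
  have hc := comm_of_twNorm855 _ δ h
  have hcM := congrArg (fun x : GL (Fin 2) ℂ => (x : Matrix (Fin 2) (Fin 2) ℂ)) hc
  simp only [Units.val_mul] at hcM
  have e01 := congrFun (congrFun hcM 0) 1
  have e10 := congrFun (congrFun hcM 1) 0
  simp only [Matrix.mul_apply, Fin.sum_univ_two, iota_coe855, dgU_coe855] at e01 e10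
  simp only [Matrix.of_apply, Matrix.cons_val', Matrix.cons_val_zero, Matrix.cons_val_one,
    Matrix.cons_val_fin_one, Complex.ofReal_zero, mul_zero, zero_mul, zero_add, add_zero]
    at e01 e10
  have hq : (δ : Matrix (Fin 2) (Fin 2) ℂ) 0 1 = 0 := by
    have h1 : (δ : Matrix (Fin 2) (Fin 2) ℂ) 0 1 * (((b : ℝ) : ℂ) - ((a : ℝ) : ℂ)) = 0 := by
      linear_combination e01
    rcases mul_eq_zero.mp h1 with h2 | h2
    · exact h2
    · exfalso; apply hab'; have := sub_eq_zero.mp h2; exact_mod_cast this.symm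
  have hr : (δ : Matrix (Fin 2) (Fin 2) ℂ) 1 0 = 0 := by
    have h1 : (δ : Matrix (Fin 2) (Fin 2) ℂ) 1 0 * (((a : ℝ) : ℂ) - ((b : ℝ) : ℂ)) = 0 := by
      linear_combination e10
    rcases mul_eq_zero.mp h1 with h2 | h2
    · exact h2
    · exfalso; apply hab'; have := sub_eq_zero.mp h2; exact_mod_cast this
  rw [twNorm_two855] at h
  have hM := congrArg (fun x : GL (Fin 2) ℂ => (x : Matrix (Fin 2) (Fin 2) ℂ)) h
  simp only [Units.val_mul] at hM
  have e00 := congrFun (congrFun hM 0) 0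
  have e11 := congrFun (congrFun hM 1) 1
  simp only [Matrix.mul_apply, Fin.sum_univ_two, iota_coe855, dgU_coe855, glAut_coe855, hq, hr]
    at e00 e11
  simp at e00 e11
  rw [Complex.mul_conj] at e00 e11
  have ha : Complex.normSq ((δ : Matrix (Fin 2) (Fin 2) ℂ) 0 0) = (a : ℝ) := by exact_mod_cast e00
  have hb : Complex.normSq ((δ : Matrix (Fin 2) (Fin 2) ℂ) 1 1) = (b : ℝ) := by exact_mod_cast e11
  have hd1 : (δ : Matrix (Fin 2) (Fin 2) ℂ) 0 0 ≠ 0 := by
    intro h0; rw [h0, Complex.normSq_zero] at ha; exact a.ne_zero ha.symm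
  have hd2 : (δ : Matrix (Fin 2) (Fin 2) ℂ) 1 1 ≠ 0 := by
    intro h0; rw [h0, Complex.normSq_zero] at hb; exact b.ne_zero hb.symm
  refine ⟨Units.mk0 _ hd1, Units.mk0 _ hd2, ?_, ha, hb⟩
  apply Matrix.GeneralLinearGroup.ext
  intro i j
  fin_cases i <;> fin_cases j <;> simp [hq, hr]

/-- The twisted conjugation by `n(w)`:
`n(w)⁻¹ diag(d₁, d₂) n(w̄) = diag(d₁, d₂) n(w̄ - d₁⁻¹ d₂ w)`. -/
theorem nU_twconj_dgU855 (d₁ d₂ : ℂˣ) (w : ℂ) :
    (nU855 w)⁻¹ * dgU855 d₁ d₂ * glAut (starRingAut : ℂ ≃+* ℂ) (nU855 w)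
      = dgU855 d₁ d₂ * nU855 ((starRingEnd ℂ) w - ((d₁⁻¹ : ℂˣ) : ℂ) * (d₂ : ℂ) * w) := by
  rw [glAut_nU855]
  apply Units.ext
  rw [Units.val_mul, Units.val_mul, Units.val_mul, nU_inv_coe855, dgU_coe855, nU_coe855, nU_coe855]
  ext i j
  fin_cases i <;> fin_cases j <;> simp [Matrix.mul_apply, Fin.sum_univ_two]
  · have h : (d₁ : ℂ) ≠ 0 := d₁.ne_zero
    field_simp
    ring

/-! ## 3. Diagonalisation of the elements of positive discriminant -/

theorem disc_eq855 (γ : GL (Fin 2) ℝ) :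
    disc γ = ((γ : Matrix (Fin 2) (Fin 2) ℝ) 0 0 - (γ : Matrix (Fin 2) (Fin 2) ℝ) 1 1) ^ 2
      + 4 * (γ : Matrix (Fin 2) (Fin 2) ℝ) 0 1 * (γ : Matrix (Fin 2) (Fin 2) ℝ) 1 0 := by
  unfold disc
  rw [Matrix.trace_fin_two, Matrix.det_fin_two]
  ring

theorem det_ne_zero855 (γ : GL (Fin 2) ℝ) :
    (γ : Matrix (Fin 2) (Fin 2) ℝ) 0 0 * (γ : Matrix (Fin 2) (Fin 2) ℝ) 1 1
      - (γ : Matrix (Fin 2) (Fin 2) ℝ) 0 1 * (γ : Matrix (Fin 2) (Fin 2) ℝ) 1 0 ≠ 0 := by
  have h := Matrix.GeneralLinearGroup.det_ne_zero γ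
  rwa [Matrix.det_fin_two] at h

/-- A conjugating element from an intertwining matrix of nonzero determinant. -/
theorem conj_of_intertwine855 (γ : GL (Fin 2) ℝ) (a b : ℝˣ) (M : Matrix (Fin 2) (Fin 2) ℝ)
    (hdet : M.det ≠ 0)
    (h : (γ : Matrix (Fin 2) (Fin 2) ℝ) * M = M * !![(a : ℝ), 0; 0, (b : ℝ)]) :
    ∃ g : GL (Fin 2) ℝ, γ = g * dgU855 a b * g⁻¹ := by
  refine ⟨Matrix.GeneralLinearGroup.mkOfDetNeZero M hdet, ?_⟩
  rw [eq_mul_inv_iff_mul_eq]
  apply Units.ext
  rw [Units.val_mul, Units.val_mul, dgU_coe855]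
  exact h

/-- An element of positive discriminant is conjugate to `diag(a, b)`, `a ≠ b`. -/
theorem exists_diag855 (γ : GL (Fin 2) ℝ) (h : 0 < disc γ) :
    ∃ (g : GL (Fin 2) ℝ) (a b : ℝˣ), a ≠ b ∧ γ = g * dgU855 a b * g⁻¹ := by
  set p := (γ : Matrix (Fin 2) (Fin 2) ℝ) 0 0 with hp
  set q := (γ : Matrix (Fin 2) (Fin 2) ℝ) 0 1 with hq
  set r := (γ : Matrix (Fin 2) (Fin 2) ℝ) 1 0 with hr
  set s := (γ : Matrix (Fin 2) (Fin 2) ℝ) 1 1 with hs
  have hγ : (γ : Matrix (Fin 2) (Fin 2) ℝ) = !![p, q; r, s] := by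
    ext i j; fin_cases i <;> fin_cases j <;> rfl
  have hdisc : disc γ = (p - s) ^ 2 + 4 * q * r := disc_eq855 γ
  have hdet : p * s - q * r ≠ 0 := det_ne_zero855 γ
  by_cases hq0 : q = 0
  · have hps : p ≠ s := by
      intro hps
      rw [hdisc, hq0, hps] at h
      simp at h
    have hp0 : p ≠ 0 := by
      intro h0; apply hdet; rw [h0, hq0]; ring
    have hs0 : s ≠ 0 := by
      intro h0; apply hdet; rw [h0, hq0]; ring
    obtain ⟨g, hg⟩ := conj_of_intertwine855 γ (Units.mk0 p hp0) (Units.mk0 s hs0)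
      !![p - s, 0; r, 1] (by rw [Matrix.det_fin_two_of]; simpa [sub_eq_zero] using hps)
      (by
        rw [hγ, hq0]
        ext i j
        fin_cases i <;> fin_cases j <;>
          simp [Matrix.mul_apply, Fin.sum_univ_two] <;> ring)
    refine ⟨g, Units.mk0 p hp0, Units.mk0 s hs0, ?_, hg⟩
    intro hcontra
    apply hps
    have := congrArg (fun u : ℝˣ => (u : ℝ)) hcontra
    simpa using this
  · set D := Real.sqrt (disc γ) with hD
    have hDpos : 0 < D := Real.sqrt_pos.mpr h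
    have hD2 : D ^ 2 = (p - s) ^ 2 + 4 * q * r := by
      rw [hD, Real.sq_sqrt h.le, hdisc]
    have h1 : (p + s + D) / 2 ≠ 0 := by
      intro h0
      apply hdet
      have : D = -(p + s) := by linarith
      rw [this] at hD2
      nlinarith
    have h2 : (p + s - D) / 2 ≠ 0 := by
      intro h0
      apply hdet
      have : D = p + s := by linarith
      rw [this] at hD2
      nlinarith
    obtain ⟨g, hg⟩ := conj_of_intertwine855 γ (Units.mk0 _ h1) (Units.mk0 _ h2)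
      !![q, q; (p + s + D) / 2 - p, (p + s - D) / 2 - p]
      (by
        rw [Matrix.det_fin_two_of]
        have : q * ((p + s - D) / 2 - p) - q * ((p + s + D) / 2 - p) = -(q * D) := by ring
        rw [this]
        exact neg_ne_zero.mpr (mul_ne_zero hq0 hDpos.ne'))
      (by
        rw [hγ]
        ext i j
        fin_cases i <;> fin_cases j <;>
          simp [Matrix.mul_apply, Fin.sum_univ_two] <;> nlinarith [hD2])
    refine ⟨g, Units.mk0 _ h1, Units.mk0 _ h2, ?_, hg⟩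
    intro hcontra
    have := congrArg (fun u : ℝˣ => (u : ℝ)) hcontra
    simp at this
    linarith

end Fermat.Agent.LT.T6.H855

end

end
-- ===== PACK-END LT/T6/H855/HypAlg.lean

-- ===== PACK-BEGIN LT/T6/H220/UnrNormRes.lean
section





/-!
# Row LT, tower T6: UNRAMIFIED CORE, part 4 (norm on the residue field) -- helper220, OFF-MAIN

`resNorm_surj220`: in the setting of `T6/Spec.lean` (`IsLocalExt k k' l 1 i s`, `l` prime) every
non-zero element of the residue field of `k` is the norm `∏_{j<l} sRes^j u` of an element of the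
residue field of `k'`.  Proof: Hilbert 90 on the residue field (Poincaré series + Dedekind) and
counting in the finite group of units.
-/

set_option autoImplicit false

open scoped Valued
open Fermat.Agent.LT.T6

noncomputable section

namespace Fermat.Agent.LT.T6.H220

section Gen

variable {F : Type} [Field F]

/-- The norm map on units attached to an automorphism `σ` and a length `l`. -/
def uNm220 (σ : F ≃+* F) (l : ℕ) : Fˣ →* Fˣ :=
  MonoidHom.mk' (fun u => ∏ j ∈ Finset.range l, Units.map ((σ ^ j : F ≃+* F) : F →* F) u)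
    (fun a b => by simp [Finset.prod_mul_distrib])

/-- The map `z ↦ z / σ z` on units. -/
def uPhi220 (σ : F ≃+* F) : Fˣ →* Fˣ :=
  MonoidHom.mk' (fun z => z * (Units.map (σ : F →* F) z)⁻¹)
    (fun a b => by simp [mul_mul_mul_comm, mul_comm])

theorem coe_uNm220 (σ : F ≃+* F) (l : ℕ) (u : Fˣ) :
    ((uNm220 σ l u : Fˣ) : F) = pnm220 σ l (u : F) := by
  simp [uNm220, pnm220]

theorem coe_uPhi220 (σ : F ≃+* F) (z : Fˣ) :
    ((uPhi220 σ z : Fˣ) : F) = (z : F) * (σ (z : F))⁻¹ := by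
  simp [uPhi220]

theorem pnm_sigma220 (σ : F ≃+* F) (l : ℕ) (hσ : σ ^ l = 1) (u : F) :
    pnm220 σ l (σ u) = pnm220 σ l u := by
  have h := s_nm220 σ l u (by rw [hσ]; rfl)
  unfold nm220 at h
  unfold pnm220
  rw [← h, map_prod]
  refine Finset.prod_congr rfl fun j _ => ?_
  rw [← RingAut.mul_apply, ← RingAut.mul_apply, ← pow_succ, ← pow_succ']

theorem sigma_pnm220 (σ : F ≃+* F) (l : ℕ) (hσ : σ ^ l = 1) (u : F) :
    σ (pnm220 σ l u) = pnm220 σ l u :=
  s_nm220 σ l u (by rw [hσ]; rfl)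

theorem range_uPhi_le_ker220 (σ : F ≃+* F) (l : ℕ) (hσ : σ ^ l = 1) :
    (uPhi220 σ).range ≤ (uNm220 σ l).ker := by
  rintro _ ⟨z, rfl⟩
  rw [MonoidHom.mem_ker]
  ext
  rw [coe_uNm220, coe_uPhi220, Units.val_one]
  have h1 : pnm220 σ l ((z : F) * (σ (z : F))⁻¹)
      = pnm220 σ l (z : F) * (pnm220 σ l (σ (z : F)))⁻¹ := by
    unfold pnm220
    rw [← Finset.prod_inv_distrib, ← Finset.prod_mul_distrib]
    exact Finset.prod_congr rfl fun j _ => by rw [map_mul, map_inv₀]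
  rw [h1, pnm_sigma220 σ l hσ]
  have hne : pnm220 σ l (z : F) ≠ 0 := by
    unfold pnm220
    exact Finset.prod_ne_zero_iff.2 fun j _ => (map_ne_zero _).2 z.ne_zero
  exact mul_inv_cancel₀ hne

theorem range_uNm_le_ker220 (σ : F ≃+* F) (l : ℕ) (hσ : σ ^ l = 1) :
    (uNm220 σ l).range ≤ (uPhi220 σ).ker := by
  rintro _ ⟨u, rfl⟩
  rw [MonoidHom.mem_ker]
  ext
  rw [coe_uPhi220, coe_uNm220, Units.val_one, sigma_pnm220 σ l hσ]
  have hne : pnm220 σ l (u : F) ≠ 0 := by
    unfold pnm220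
    exact Finset.prod_ne_zero_iff.2 fun j _ => (map_ne_zero _).2 u.ne_zero
  exact mul_inv_cancel₀ hne

/-- Counting: if `ker N = range φ` in a finite group of units then every `σ`-fixed unit is a
norm. -/
theorem range_uNm_eq_ker220 [Finite F] (σ : F ≃+* F) (l : ℕ) (hσ : σ ^ l = 1)
    (h90 : (uNm220 σ l).ker ≤ (uPhi220 σ).range) :
    (uNm220 σ l).range = (uPhi220 σ).ker := by
  have hker : (uNm220 σ l).ker = (uPhi220 σ).range :=
    le_antisymm h90 (range_uPhi_le_ker220 σ l hσ)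
  have e1 := Subgroup.card_mul_index (uNm220 σ l).ker
  have e2 := Subgroup.card_mul_index (uPhi220 σ).ker
  have e3 : (uNm220 σ l).ker.index = Nat.card (uNm220 σ l).range := Subgroup.index_ker _
  have e4 : (uPhi220 σ).ker.index = Nat.card (uPhi220 σ).range := Subgroup.index_ker _
  have e5 : Nat.card (uNm220 σ l).ker = Nat.card (uPhi220 σ).range := by rw [hker]
  have hpos : 0 < Nat.card (uNm220 σ l).ker := Nat.card_pos
  have e6 : Nat.card (uNm220 σ l).range = Nat.card (uPhi220 σ).ker := by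
    rw [e3] at e1
    rw [e4, ← e5] at e2
    have : Nat.card (uNm220 σ l).ker * Nat.card (uNm220 σ l).range
        = Nat.card (uNm220 σ l).ker * Nat.card (uPhi220 σ).ker := by
      rw [e1, mul_comm, e2]
    exact Nat.eq_of_mul_eq_mul_left hpos this
  exact Subgroup.eq_of_le_of_card_ge (range_uNm_le_ker220 σ l hσ) e6.ge

end Gen

section Unr

variable {k k' : Type} [Field k] [Field k'] [Valued k Γ₀] [Valued k' Γ₀]
  {q l : ℕ} {i : k →+* k'} {s : k' ≃+* k'}

/-- **Hilbert 90 on the residue field.** -/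
theorem res_h90_220 (hk : IsLocalField k q) (hk' : IsLocalField k' (q ^ l))
    (hext : IsLocalExt k k' l 1 i s) (hl : l.Prime) :
    (uNm220 (sRes220 s hext.val_s) l).ker ≤ (uPhi220 (sRes220 s hext.val_s)).range := by
  intro u hu
  rw [MonoidHom.mem_ker] at hu
  have hu' : pnm220 (sRes220 s hext.val_s) l (u : 𝓀[k']) = 1 := by
    rw [← coe_uNm220, hu, Units.val_one]
  have : NeZero l := ⟨hl.ne_zero⟩
  obtain ⟨θ, hθ⟩ := exists_resSum_ne_zero220 hk hk' hext hl
    (fun m => pnm220 (sRes220 s hext.val_s) (m : ℕ) (u : 𝓀[k'])) 0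
    (by simp [pnm_zero220])
  rw [Fin.sum_univ_eq_sum_range
    (fun m => pnm220 (sRes220 s hext.val_s) m (u : 𝓀[k']) * (sRes220 s hext.val_s ^ m) θ) l]
    at hθ
  have hP := poincare220 (sRes220 s hext.val_s) l (u : 𝓀[k']) θ
    (by rw [sRes_pow_l220 hext]; rfl)
  rw [hu', sub_self, zero_mul, add_zero] at hP
  change (u : 𝓀[k']) * sRes220 s hext.val_s (pser220 (sRes220 s hext.val_s) l u θ)
    = pser220 (sRes220 s hext.val_s) l u θ at hP
  have he : pser220 (sRes220 s hext.val_s) l (u : 𝓀[k']) θ ≠ 0 := hθ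
  refine ⟨Units.mk0 _ he, ?_⟩
  ext
  rw [coe_uPhi220, Units.val_mk0]
  have hse : sRes220 s hext.val_s (pser220 (sRes220 s hext.val_s) l (u : 𝓀[k']) θ) ≠ 0 :=
    (map_ne_zero _).2 he
  rw [mul_inv_eq_iff_eq_mul₀ hse]
  exact hP.symm

theorem sRes_iRes220 (hext : IsLocalExt k k' l 1 i s) (xb : 𝓀[k]) :
    sRes220 s hext.val_s (iRes220 i (val_i220 hext) xb) = iRes220 i (val_i220 hext) xb := by
  obtain ⟨x, rfl⟩ := IsLocalRing.residue_surjective (R := 𝒪[k]) xb
  rw [iRes_residue220, sRes_residue220]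
  congr 1
  ext
  simp [hext.cyc.fix_i]

/-- **The norm of the residue fields is onto** (on non-zero elements). -/
theorem resNorm_surj220 (hk : IsLocalField k q) (hk' : IsLocalField k' (q ^ l))
    (hext : IsLocalExt k k' l 1 i s) (hl : l.Prime) (xb : 𝓀[k]) (hxb : xb ≠ 0) :
    ∃ ub : 𝓀[k'], ub ≠ 0 ∧
      pnm220 (sRes220 s hext.val_s) l ub = iRes220 i (val_i220 hext) xb := by
  have : Finite 𝓀[k'] := finite_residue220 hk'
  have hrange := range_uNm_eq_ker220 (sRes220 s hext.val_s) l (sRes_pow_l220 hext)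
    (res_h90_220 hk hk' hext hl)
  have hne : iRes220 i (val_i220 hext) xb ≠ 0 := (map_ne_zero _).2 hxb
  have hmem : Units.mk0 _ hne ∈ (uPhi220 (sRes220 s hext.val_s)).ker := by
    rw [MonoidHom.mem_ker]
    ext
    rw [coe_uPhi220, Units.val_mk0, Units.val_one, sRes_iRes220 hext]
    exact mul_inv_cancel₀ hne
  rw [← hrange] at hmem
  obtain ⟨u, hu⟩ := hmem
  refine ⟨(u : 𝓀[k']), u.ne_zero, ?_⟩
  rw [← coe_uNm220, hu, Units.val_mk0]

end Unr

end Fermat.Agent.LT.T6.H220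

end

end
-- ===== PACK-END LT/T6/H220/UnrNormRes.lean

-- ===== PACK-BEGIN LT/T6/H683/DarbouxSpec.lean
section



/-!
# Row LT, tower T6, leaf T6.22.B `DarbouxC888` (helper683): THE CUT

OFF-MAIN.  Definitions, five frozen Props and the PROVED top `darbouxC_of_leaves683`.
No hole, nothing assumed.  Spec: `LT/T6/H888/ArchClassSpec.lean` (helper888, sha256 9a3f1734),
byte-identical copy, not touched.

Notation of the Spec: `A = wtA888 n`, `K = kerW888 n`, `ρ = rho888`, `T = gT888 n` (generalised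
translation), `G = gL888 n` (Green operator).  `DarbouxAt683 n g` is the identity
`T (G g)(t, u) = (G g)(t) + G (T g (t, ·))(u)` for all `t, u > 0`.

    DarbouxC888  ⟸  DbSmoothC683 + DbLinC683 + DbLimC683 + DbMonoC683 + DbDenseC683

* `DbSmoothC683` (THE ANALYTIC CORE): the identity for `g = (L F) ∘ cosh`, `F` of class `C²` on
  `(0, ∞)`, `L F = (ρ² - 1) F'' + 2 ρ F'` (`n = 0`), `(ρ² - 1) F'' + (3 ρ - 1) F'` (`n = ±1`).
  Proof: (i) `G g = F ∘ cosh - F 1` (`(A · (F ∘ cosh)')' = A · g`, twice the fundamental theorem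
  of calculus); (ii) with `H(q, φ) = K(t, q, φ) F(ρ(t, q, φ))` the POINTWISE identity
  `∂_q (A(q) ∂_q H) = A(q) K (L F)(ρ) + ∂_φ Ψ`, `Ψ = F'(ρ) sinh t sin φ` (`n = 0`),
  `Ψ = (1 + cosh q) K F'(ρ) sinh t sin φ + tanh(t/2) cosh q sin φ F(ρ)` (`n = ±1`), `Ψ` is
  `2π`-periodic in `φ`; integrate in `q` over `[0, r]`, in `φ` over `[0, 2π]` (Fubini on a
  rectangle), divide by `A(r)`, integrate in `r` over `[0, u]`.  Both pointwise identities and
  the final identity were checked numerically.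
* `DbLinC683`: the identity is linear in `g` (all integrands are continuous:
  `r ↦ A(r)⁻¹ ∫₀ʳ A g` is continuous on `[0, ∞)` with value `0` at `0`, because `A` is
  increasing, `|∫₀ʳ A g| ≤ r A(r) sup |g|`).
* `DbLimC683`: the identity passes to uniform limits on `[0, R]`, `R = t + u`
  (`arcosh ρ(t, q, φ) ≤ t + q`; `|K| ≤ 2`; `|G h (d)| ≤ d² sup_{[0, d]} |h|`).
* `DbMonoC683`: the monomials `cosh^k`, by strong induction on `k` from `DbSmoothC683` and
  `DbLinC683`: `L(ρ^k) = k(k+1) ρ^k - k(k-1) ρ^{k-2}` (`n = 0`),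
  `L(ρ^k) = k(k+2) ρ^k - k ρ^{k-1} - k(k-1) ρ^{k-2}` (`n = ±1`), and `1 = L F₀` with
  `F₀ = log(1 + ρ)` (`n = 0`), `F₀ = log(1 + ρ)/2 - 1/(1 + ρ)` (`n = ±1`).
* `DbDenseC683`: Weierstrass (`exists_polynomial_near_of_continuousOn` for the real and the
  imaginary part of `g ∘ arcosh` on `[1, cosh R]`).
-/

set_option autoImplicit false

open MeasureTheory

noncomputable section

namespace Fermat.Agent.LT.T6.H683

open Fermat.Agent.LT.T6 Fermat.Agent.LT.T6.H888

/-- The Darboux identity for the function `g`. -/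
def DarbouxAt683 (n : ℤ) (g : ℝ → ℂ) : Prop :=
  ∀ t u : ℝ, 0 < t → 0 < u →
    gT888 n (gL888 n g) t u = gL888 n g t + gL888 n (fun q => gT888 n g t q) u

/-- The radial operator in the variable `ρ = cosh t`, on the jet `(F', F'')`:
`(ρ² - 1) F'' + 2 ρ F'` for `n = 0`, `(ρ² - 1) F'' + (3 ρ - 1) F'` for `n = ±1`. -/
def lop683 (n : ℤ) (F' F'' : ℝ → ℝ) (x : ℝ) : ℝ :=
  (x ^ 2 - 1) * F'' x + (if n = 0 then 2 * x else 3 * x - 1) * F' x

/-- **Leaf D.1 (SMOOTH, the analytic core).**  The Darboux identity for `g = (L F) ∘ cosh`,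
`F` of class `C²` on `(0, ∞)`. -/
def DbSmoothC683 : Prop :=
  ∀ n : ℤ, n = 0 ∨ n = 1 ∨ n = -1 →
    ∀ F F' F'' : ℝ → ℝ, (∀ x : ℝ, 0 < x → HasDerivAt F (F' x) x) →
      (∀ x : ℝ, 0 < x → HasDerivAt F' (F'' x) x) → ContinuousOn F'' (Set.Ioi 0) →
      DarbouxAt683 n (fun q => ((lop683 n F' F'' (Real.cosh q) : ℝ) : ℂ))

/-- **Leaf D.2 (LINEAR).**  The Darboux identity is linear in `g`. -/
def DbLinC683 : Prop :=
  ∀ n : ℤ, n = 0 ∨ n = 1 ∨ n = -1 →
    ∀ g h : ℝ → ℂ, ContinuousOn g (Set.Ici 0) → ContinuousOn h (Set.Ici 0) →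
      ∀ a b : ℂ, DarbouxAt683 n g → DarbouxAt683 n h →
        DarbouxAt683 n (fun q => a * g q + b * h q)

/-- **Leaf D.3 (LIMIT).**  The Darboux identity passes to uniform limits on compact sets. -/
def DbLimC683 : Prop :=
  ∀ n : ℤ, n = 0 ∨ n = 1 ∨ n = -1 →
    ∀ g : ℝ → ℂ, ContinuousOn g (Set.Ici 0) →
      (∀ R ε : ℝ, 0 < R → 0 < ε → ∃ h : ℝ → ℂ, ContinuousOn h (Set.Ici 0) ∧
        DarbouxAt683 n h ∧ ∀ q ∈ Set.Icc (0 : ℝ) R, ‖g q - h q‖ ≤ ε) →
      DarbouxAt683 n g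

/-- **Leaf D.4 (MONOMIALS).**  The Darboux identity for the monomials `cosh ^ k`, from the
smooth case and linearity. -/
def DbMonoC683 : Prop :=
  DbSmoothC683 → DbLinC683 →
    ∀ n : ℤ, n = 0 ∨ n = 1 ∨ n = -1 → ∀ k : ℕ,
      DarbouxAt683 n (fun q => ((Real.cosh q ^ k : ℝ) : ℂ))

/-- **Leaf D.5 (DENSE).**  Polynomials in `cosh` are uniformly dense on `[0, R]`. -/
def DbDenseC683 : Prop :=
  ∀ g : ℝ → ℂ, ContinuousOn g (Set.Ici 0) → ∀ R ε : ℝ, 0 < R → 0 < ε →
    ∃ (N : ℕ) (c : ℕ → ℂ), ∀ q ∈ Set.Icc (0 : ℝ) R,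
      ‖g q - ∑ i ∈ Finset.range N, c i * ((Real.cosh q ^ i : ℝ) : ℂ)‖ ≤ ε

/-! ## The top (PROVED) -/

theorem gL_zero683 (n : ℤ) : gL888 n (fun _ => (0 : ℂ)) = fun _ => 0 := by
  funext t
  simp [gL888]

theorem gT_zero683 (n : ℤ) (t : ℝ) : (fun q => gT888 n (fun _ => (0 : ℂ)) t q) = fun _ => 0 := by
  funext q
  simp [gT888]

theorem darbouxAt_zero683 (n : ℤ) : DarbouxAt683 n (fun _ => (0 : ℂ)) := by
  intro t u _ _
  have h1 : gT888 n (fun _ => (0 : ℂ)) t u = 0 := congrFun (gT_zero683 n t) u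
  have h2 : ∀ x : ℝ, gL888 n (fun _ => (0 : ℂ)) x = 0 := congrFun (gL_zero683 n)
  rw [gL_zero683, gT_zero683, h1, h2 u]
  simp

theorem continuous_mono683 (k : ℕ) :
    Continuous (fun q : ℝ => ((Real.cosh q ^ k : ℝ) : ℂ)) :=
  Complex.continuous_ofReal.comp (Real.continuous_cosh.pow k)

theorem darbouxAt_sum683 (hLin : DbLinC683) (n : ℤ) (hn : n = 0 ∨ n = 1 ∨ n = -1)
    (hMono : ∀ k : ℕ, DarbouxAt683 n (fun q => ((Real.cosh q ^ k : ℝ) : ℂ)))
    (c : ℕ → ℂ) (N : ℕ) :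
    DarbouxAt683 n (fun q => ∑ i ∈ Finset.range N, c i * ((Real.cosh q ^ i : ℝ) : ℂ)) := by
  induction N with
  | zero => simpa using darbouxAt_zero683 n
  | succ N ih =>
    have hc : Continuous
        (fun q : ℝ => ∑ i ∈ Finset.range N, c i * ((Real.cosh q ^ i : ℝ) : ℂ)) :=
      continuous_finsetSum _ (fun i _ => continuous_const.mul (continuous_mono683 i))
    have h := hLin n hn _ _ hc.continuousOn (continuous_mono683 N).continuousOn 1 (c N) ih
      (hMono N)
    have he : (fun q : ℝ => ∑ i ∈ Finset.range (N + 1), c i * ((Real.cosh q ^ i : ℝ) : ℂ))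
        = fun q => 1 * (∑ i ∈ Finset.range N, c i * ((Real.cosh q ^ i : ℝ) : ℂ))
            + c N * ((Real.cosh q ^ N : ℝ) : ℂ) := by
      funext q
      rw [Finset.sum_range_succ, one_mul]
    rw [he]
    exact h

/-- **THE TOP**: `DarbouxC888` from the five leaves. -/
theorem darbouxC_of_leaves683 (hS : DbSmoothC683) (hLin : DbLinC683) (hLim : DbLimC683)
    (hMono : DbMonoC683) (hDense : DbDenseC683) : DarbouxC888 := by
  intro n hn g hg
  have hM := hMono hS hLin n hn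
  have key : DarbouxAt683 n g := by
    refine hLim n hn g hg (fun R ε hR hε => ?_)
    obtain ⟨N, c, hc⟩ := hDense g hg R ε hR hε
    refine ⟨fun q => ∑ i ∈ Finset.range N, c i * ((Real.cosh q ^ i : ℝ) : ℂ), ?_, ?_, hc⟩
    · exact (continuous_finsetSum _
        (fun i _ => continuous_const.mul (continuous_mono683 i))).continuousOn
    · exact darbouxAt_sum683 hLin n hn hM c N
  exact key

end Fermat.Agent.LT.T6.H683

end

end
-- ===== PACK-END LT/T6/H683/DarbouxSpec.lean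

-- ===== PACK-BEGIN LT/T6/H846/OrbSumInt.lean
section








/-!
# Row LT, tower T6, leaf T6.19 `OrbSumIntC` (helper846), OFF-MAIN

`orbSumIntC846 : Fermat.Agent.LT.T6.OrbSumIntC` VERBATIM (Spec v2 of helper22, sha256 be86e12a):
the orbit sum of the Spec IS the cut-off orbital integral.

Proof: `GL₂(k)` is second countable (`OrbTop`), `U(n)` is an open subgroup of measure `1`, the
compact part of the twisted centraliser is closed under products because the twisted centraliser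
commutes with the regular element `N δ` (`OrbAlg`); the abstract bridge (`OrbAbs`, `OrbIndex`,
`OrbAssembly`: Tonelli twice + counting of cosets) does the rest.  Completeness of `k` and
`char k = 0` are not used.
-/

set_option autoImplicit false
set_option linter.style.haveILetI false

open MeasureTheory
open scoped Matrix

noncomputable section

namespace Fermat.Agent.LT.T6.H846

open Fermat.Agent.LT.T6

/-- The frame of the abstract bridge, for `GL₂(k)`. -/
theorem frame846 {k : Type} [Field k] [Valued k Γ₀] (l : ℕ) (s : k ≃+* k)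
    (hs : ∀ y : k, Valued.v (s y) = Valued.v y) (hl : ∀ y : k, (s ^ l) y = y) (n : ℕ)
    (δ : GL (Fin 2) k) (hreg : IsReg (twNorm s l δ)) :
    Frame846 (glAut s) δ (twCentSub (glAut s) δ).subtype (subU846 k n) (InU n)
      (InTwCentC s) where
  up := fun _ => Iff.rfl
  range := fun g => ⟨fun ⟨t, ht⟩ => ht ▸ t.2, fun h => ⟨⟨g, h⟩, rfl⟩⟩
  sU := fun u hu => inU_glAut846 s hs n u hu
  c1 := fun _ _ h => h.1
  c2 := fun x t => inTwCentC_conj846 s δ x t
  c3 := fun y u hu h => inTwCentC_of_inU846 s n y u hu h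
  c4 := fun t t' => inTwCentC_mul846 s l hl δ hreg t t'

/-- **T6.19 (bridge): the orbit sum is the cut-off orbital integral.** -/
theorem orbSumIntC846 : OrbSumIntC := by
  intro k _ _ q l s hk hs _ hl n φ hφ _ δ c hreg hc μ hμ hμU μT hμT hμTc β hβc hβ0 hβ1
  haveI := secondCountable_GL846 hk
  letI : MeasurableSpace (GL (Fin 2) k) := borel _
  haveI : BorelSpace (GL (Fin 2) k) := ⟨rfl⟩
  haveI : SecondCountableTopology (twCentSub (glAut s) δ) :=
    (Topology.IsInducing.subtypeVal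
      (t := ((twCentSub (glAut s) δ : Subgroup (GL (Fin 2) k)) : Set (GL (Fin 2) k)))
      ).secondCountableTopology
  letI : MeasurableSpace (twCentSub (glAut s) δ) := borel _
  haveI : BorelSpace (twCentSub (glAut s) δ) := ⟨rfl⟩
  haveI := hμ
  haveI := hμT
  have F := frame846 l s hs hl n δ hreg
  have hT : μT {t : twCentSub (glAut s) δ |
      InTwCentC s δ ((twCentSub (glAut s) δ).subtype t)} = 1 := by
    rw [← hμTc]
    congr 1
    ext t
    exact ⟨fun h => h.2, fun h => ⟨t.2, h⟩⟩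
  exact F.orbSum_eq_integral continuous_subtype_val (isOpen_InU846 hk n) μ hμU μT hT φ hφ c hc
    β hβc hβ0 hβ1

example : Fermat.Agent.LT.T6.OrbSumIntC := orbSumIntC846

end Fermat.Agent.LT.T6.H846

end

end
-- ===== PACK-END LT/T6/H846/OrbSumInt.lean

-- ===== PACK-BEGIN LT/T7/H582/ProjBasisCore.lean
section



/-!
# Row LT, tower T7, leaf T7.L2.3.5.4.4 `SD534.ProjBasisC` -- the Mathlib-only core (helper582)

OFF-MAIN.  Mathlib + the Mathlib-only files of helper566 (`T7/H566/Schur{Core,Class,Global}.lean`: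
`IsHermOn566`, `parseval_class566`, `proj_form_eq566`, `finrank_span_orth566`,
`form_class_orth566`, `hasSum_regroup566`), byte-identical copies.

`projBasis_core582` is the statement of `SD534.ProjBasisC` with the class spans written out
(`cSpan566` is an abbreviation of the body of `SD534.clsSpan`).
-/

set_option autoImplicit false
set_option linter.style.haveILetI false

open Module
open scoped ComplexConjugate

noncomputable section

namespace Fermat.Agent.LT.T7.H582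

open Fermat.Agent.LT.T7.H566

section Basic

variable {M : Type} [AddCommGroup M] [Module ℂ M]

theorem form_sub_left582 {form : M → M → ℂ} {E : Submodule ℂ M} (h : IsHermOn566 form E)
    {x y z : M} (hx : x ∈ E) (hy : y ∈ E) (hz : z ∈ E) :
    form (x - y) z = form x z - form y z := by
  have h1 : x - y = x + (-1 : ℂ) • y := by rw [neg_one_smul, sub_eq_add_neg]
  rw [h1, h.add_left x hx _ (E.smul_mem _ hy) z hz, h.smul_left (-1) y hy z hz]
  ring

/-- An orthonormal basis of a finite dimensional space with a definite hermitian form. -/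
theorem exists_onb582 (form : M → M → ℂ) (E : Submodule ℂ M) (h : IsHermOn566 form E)
    [FiniteDimensional ℂ E] :
    ∃ u : Fin (finrank ℂ E) → M, (∀ i, u i ∈ E) ∧ (∀ i, form (u i) (u i) = 1) ∧
      (∀ i j, i ≠ j → form (u i) (u j) = 0) ∧
      ∀ x ∈ E, x ∈ Submodule.span ℂ (Set.range u) := by
  classical
  letI iN : NormedAddCommGroup E := formNormed566 form E h
  letI iI : InnerProductSpace ℂ E := formInner566 form E h
  have hinner : ∀ x y : E, inner ℂ x y = form (y : M) (x : M) := fun x y => rfl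
  let b := stdOrthonormalBasis ℂ E
  refine ⟨fun i => ((b i : E) : M), fun i => (b i).2, ?_, ?_, ?_⟩
  · intro i
    have h2 := orthonormal_iff_ite.1 b.orthonormal i i
    rw [if_pos rfl, hinner] at h2
    exact h2
  · intro i j hij
    have h2 := orthonormal_iff_ite.1 b.orthonormal j i
    rw [if_neg (Ne.symm hij), hinner] at h2
    exact h2
  · intro x hx
    have h2 := b.sum_repr' ⟨x, hx⟩
    have h3 : x = ∑ i, (inner ℂ (b i) (⟨x, hx⟩ : E)) • ((b i : E) : M) := by
      have h4 := congrArg (fun y : E => (y : M)) h2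
      simp only [Submodule.coe_sum, Submodule.coe_smul] at h4
      exact h4.symm
    rw [h3]
    exact Submodule.sum_mem _ fun i _ => Submodule.smul_mem _ _ (Submodule.subset_span ⟨i, rfl⟩)

end Basic

section Class

variable {M : Type} [AddCommGroup M] [Module ℂ M] {form : M → M → ℂ} {V : Submodule ℂ M}

/-- The class span is the span of the members of the class, indexed by a finset. -/
theorem cSpan_eq_range582 {A : Type} (v : ℕ → M) (J₀ : Set ℕ) (cl₀ : ℕ → A) (a : A)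
    (C : Finset ℕ) (hC : ∀ j, j ∈ C ↔ j ∈ J₀ ∧ cl₀ j = a) :
    cSpan566 v J₀ cl₀ a = Submodule.span ℂ (Set.range (fun i : C => v i)) := by
  have hset : {f : M | ∃ j : ℕ, j ∈ J₀ ∧ cl₀ j = a ∧ f = v j}
      = Set.range (fun i : C => v i) := by
    ext f
    constructor
    · rintro ⟨j, hj, hcj, rfl⟩
      exact ⟨⟨j, (hC j).2 ⟨hj, hcj⟩⟩, rfl⟩
    · rintro ⟨⟨j, hj⟩, rfl⟩
      exact ⟨j, ((hC j).1 hj).1, ((hC j).1 hj).2, rfl⟩
  show Submodule.span ℂ {f : M | ∃ j : ℕ, j ∈ J₀ ∧ cl₀ j = a ∧ f = v j} = _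
  rw [hset]

/-- The facts on one class: dimension, the projection, Parseval. -/
theorem class_facts582 (h : IsHermOn566 form V) (v : ℕ → M) (C : Finset ℕ)
    (hvV : ∀ j ∈ C, v j ∈ V) (h1 : ∀ j ∈ C, form (v j) (v j) = 1)
    (h0 : ∀ i ∈ C, ∀ j ∈ C, i ≠ j → form (v i) (v j) = 0) :
    finrank ℂ (Submodule.span ℂ (Set.range (fun i : C => v i))) = C.card ∧
    ∀ χ ∈ V,
      (∑ i ∈ C, form χ (v i) • v i) ∈ Submodule.span ℂ (Set.range (fun i : C => v i)) ∧
      (∀ y ∈ Submodule.span ℂ (Set.range (fun i : C => v i)),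
        form χ y = form (∑ i ∈ C, form χ (v i) • v i) y) ∧
      ∑ i ∈ C, ‖form χ (v i)‖ ^ 2
        = (form (∑ i ∈ C, form χ (v i) • v i) (∑ i ∈ C, form χ (v i) • v i)).re := by
  classical
  set u : C → M := fun i => v i with hu_def
  have hu : ∀ i, u i ∈ V := fun i => hvV i i.2
  have h1' : ∀ i, form (u i) (u i) = 1 := fun i => h1 i i.2
  have h0' : ∀ i j, i ≠ j → form (u i) (u j) = 0 := fun i j hij =>
    h0 i i.2 j j.2 (fun hij' => hij (Subtype.ext hij'))
  have hfr := finrank_span_orth566 form h u hu h1' h0'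
  rw [Fintype.card_coe] at hfr
  refine ⟨hfr, fun χ hχ => ?_⟩
  have hsum : (∑ i : C, form χ (u i) • u i) = ∑ i ∈ C, form χ (v i) • v i :=
    Finset.sum_coe_sort C (fun j => form χ (v j) • v j)
  have hproj := proj_form_eq566 form h u hu h1' h0' χ hχ
  rw [hsum] at hproj
  have hle : Submodule.span ℂ (Set.range u) ≤ V := by
    rw [Submodule.span_le]
    rintro _ ⟨i, rfl⟩
    exact hu i
  have huE : ∀ i, u i ∈ Submodule.span ℂ (Set.range u) := fun i =>
    Submodule.subset_span ⟨i, rfl⟩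
  have hpE : (∑ i ∈ C, form χ (v i) • v i) ∈ Submodule.span ℂ (Set.range u) :=
    Submodule.sum_mem _ fun i hi => Submodule.smul_mem _ _ (huE ⟨i, hi⟩)
  refine ⟨hpE, hproj, ?_⟩
  haveI hfin : FiniteDimensional ℂ (Submodule.span ℂ (Set.range u)) :=
    FiniteDimensional.span_of_finite ℂ (Set.finite_range u)
  have hcard : Fintype.card C = finrank ℂ (Submodule.span ℂ (Set.range u)) := by
    rw [hfr, Fintype.card_coe]
  have hP := parseval_class566 form _ (h.mono hle) u huE h1' h0' hcard _ hpE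
  rw [← hP, ← Finset.sum_coe_sort C (fun j => ‖form χ (v j)‖ ^ 2)]
  refine Finset.sum_congr rfl fun i _ => ?_
  rw [hproj (u i) (huE i)]

/-- A projector onto `W` which represents the form on `W` is the identity on `W` and
symmetric. -/
theorem proj_facts582 (h : IsHermOn566 form V) {W : Submodule ℂ M} (hWV : W ≤ V) (P : M → M)
    (hPW : ∀ x ∈ V, P x ∈ W) (hPin : ∀ x ∈ V, ∀ χ ∈ W, form (P x) χ = form x χ) :
    (∀ χ ∈ W, P χ = χ) ∧ ∀ x ∈ V, ∀ y ∈ V, form (P x) y = form x (P y) := by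
  constructor
  · intro χ hχ
    have hPχ := hPW χ (hWV hχ)
    have hz : P χ - χ ∈ W := W.sub_mem hPχ hχ
    have h1 : form (P χ - χ) (P χ - χ) = 0 := by
      rw [form_sub_left582 h (hWV hPχ) (hWV hχ) (hWV hz), hPin χ (hWV hχ) _ hz, sub_self]
    exact sub_eq_zero.1 (h.definite _ (hWV hz) h1)
  · intro x hx y hy
    have hPx := hPW x hx
    have hPy := hPW y hy
    have e1 : form (P x) (P y) = form x (P y) := hPin x hx _ hPy
    have e2 : form (P y) (P x) = form y (P x) := hPin y hy _ hPx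
    have e3 : form (P x) (P y) = form (P x) y := by
      rw [h.conj_symm (P y) (hWV hPy) (P x) (hWV hPx), e2,
        ← h.conj_symm y hy (P x) (hWV hPx)]
    rw [← e3, e1]

/-- The component of a member of `W` in a `P`-stable subspace `E` lies in `W`. -/
theorem proj_comp_mem582 (h : IsHermOn566 form V) {W : Submodule ℂ M} (hWV : W ≤ V)
    (P : M → M) (hPW : ∀ x ∈ V, P x ∈ W)
    (hPin : ∀ x ∈ V, ∀ χ ∈ W, form (P x) χ = form x χ)
    (E : Submodule ℂ M) (hEV : E ≤ V) (hPE : ∀ x ∈ E, P x ∈ E)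
    (χ p : M) (hχ : χ ∈ W) (hp : p ∈ E) (hproj : ∀ y ∈ E, form χ y = form p y) : p ∈ W := by
  obtain ⟨hid, hsym⟩ := proj_facts582 h hWV P hPW hPin
  have hz : P p - p ∈ E := E.sub_mem (hPE p hp) hp
  have key : ∀ y ∈ E, form (P p) y = form p y := by
    intro y hy
    rw [hsym p (hEV hp) y (hEV hy), ← hproj (P y) (hPE y hy), ← hsym χ (hWV hχ) y (hEV hy),
      hid χ hχ, hproj y hy]
  have h1 : form (P p - p) (P p - p) = 0 := by
    rw [form_sub_left582 h (hEV (hPE p hp)) (hEV hp) (hEV hz), key _ hz, sub_self]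
  have h2 := sub_eq_zero.1 (h.definite _ (hEV hz) h1)
  rw [← h2]
  exact hPW p (hEV hp)

end Class

section Main

variable {M : Type} [AddCommGroup M] [Module ℂ M]

/-- **PROJ-BASIS** (the statement of `SD534.ProjBasisC`, class spans written out). -/
theorem projBasis_core582 (form : M → M → ℂ) (V W : Submodule ℂ M)
    (A : Type) (v : ℕ → M) (J₀ : Set ℕ) (cl₀ : ℕ → A) (P : M → M)
    (hWV : W ≤ V)
    (hadd : ∀ x ∈ V, ∀ y ∈ V, ∀ z ∈ V, form (x + y) z = form x z + form y z)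
    (hsmul : ∀ (a : ℂ), ∀ x ∈ V, ∀ y ∈ V, form (a • x) y = a * form x y)
    (hconj : ∀ x ∈ V, ∀ y ∈ V, form y x = conj (form x y))
    (hnn : ∀ x ∈ V, 0 ≤ (form x x).re)
    (hdef : ∀ x ∈ V, form x x = 0 → x = 0)
    (hvV : ∀ j ∈ J₀, v j ∈ V)
    (hv1 : ∀ j ∈ J₀, form (v j) (v j) = 1)
    (hv0 : ∀ i ∈ J₀, ∀ j ∈ J₀, i ≠ j → form (v i) (v j) = 0)
    (hpars : ∀ ψ ∈ V, HasSum (fun j : J₀ => ‖form ψ (v j)‖ ^ 2) (form ψ ψ).re)
    (hfin : ∀ j₀ ∈ J₀, {j : ℕ | j ∈ J₀ ∧ cl₀ j = cl₀ j₀}.Finite)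
    (hPadd : ∀ x y : M, P (x + y) = P x + P y)
    (hPsmul : ∀ (a : ℂ) (x : M), P (a • x) = a • P x)
    (hPW : ∀ x ∈ V, P x ∈ W)
    (hPin : ∀ x ∈ V, ∀ χ ∈ W, form (P x) χ = form x χ)
    (hPE : ∀ a : A, ∀ x ∈ cSpan566 v J₀ cl₀ a, P x ∈ cSpan566 v J₀ cl₀ a) :
    ∃ (w : ℕ → M) (J : Set ℕ) (cl : ℕ → A),
      (∀ j ∈ J, w j ∈ W ∧ w j ∈ cSpan566 v J₀ cl₀ (cl j)) ∧
      (∀ j ∈ J, ∃ j₀ ∈ J₀, cl₀ j₀ = cl j) ∧
      (∀ j ∈ J, form (w j) (w j) = 1) ∧
      (∀ i ∈ J, ∀ j ∈ J, i ≠ j → form (w i) (w j) = 0) ∧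
      (∀ χ ∈ W, HasSum (fun j : J => ‖form χ (w j)‖ ^ 2) (form χ χ).re) ∧
      (∀ j₁ ∈ J, {j : ℕ | j ∈ J ∧ cl j = cl j₁}.Finite) ∧
      ∀ a : A, ∀ x ∈ W, x ∈ cSpan566 v J₀ cl₀ a → x ∈ cSpan566 w J cl a := by
  classical
  have h : IsHermOn566 form V := ⟨hadd, hsmul, hconj, hnn, hdef⟩
  -- the classes as finsets
  have hCfin : ∀ a : A, {j : ℕ | j ∈ J₀ ∧ cl₀ j = a}.Finite := by
    intro a
    by_cases hne : ∃ j₀, j₀ ∈ J₀ ∧ cl₀ j₀ = a
    · obtain ⟨j₀, hj₀, rfl⟩ := hne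
      exact hfin j₀ hj₀
    · have hemp : {j : ℕ | j ∈ J₀ ∧ cl₀ j = a} = ∅ := by
        ext j
        constructor
        · intro hj
          exact (hne ⟨j, hj⟩).elim
        · intro hj
          exact hj.elim
      rw [hemp]
      exact Set.finite_empty
  set C : A → Finset ℕ := fun a => (hCfin a).toFinset with hC_def
  have hC : ∀ a j, j ∈ C a ↔ j ∈ J₀ ∧ cl₀ j = a := fun a j => by
    rw [hC_def]
    exact (hCfin a).mem_toFinset
  set Er : A → Submodule ℂ M := fun a => Submodule.span ℂ (Set.range (fun i : C a => v i))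
    with hEr_def
  have hEr : ∀ a, cSpan566 v J₀ cl₀ a = Er a := fun a =>
    cSpan_eq_range582 v J₀ cl₀ a (C a) (hC a)
  have hErV : ∀ a, Er a ≤ V := fun a => by
    rw [← hEr a]
    exact cSpan_le566 v J₀ cl₀ V hvV a
  have hErfd : ∀ a, FiniteDimensional ℂ (Er a) := fun a =>
    FiniteDimensional.span_of_finite ℂ (Set.finite_range _)
  have hcf : ∀ a, finrank ℂ (Er a) = (C a).card ∧
      ∀ χ ∈ V,
        (∑ i ∈ C a, form χ (v i) • v i) ∈ Er a ∧
        (∀ y ∈ Er a, form χ y = form (∑ i ∈ C a, form χ (v i) • v i) y) ∧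
        ∑ i ∈ C a, ‖form χ (v i)‖ ^ 2
          = (form (∑ i ∈ C a, form χ (v i) • v i) (∑ i ∈ C a, form χ (v i) • v i)).re :=
    fun a => class_facts582 h v (C a) (fun j hj => hvV j ((hC a j).1 hj).1)
      (fun j hj => hv1 j ((hC a j).1 hj).1)
      (fun i hi j hj hij => hv0 i ((hC a i).1 hi).1 j ((hC a j).1 hj).1 hij)
  have hPEr : ∀ a, ∀ x ∈ Er a, P x ∈ Er a := fun a x hx => by
    rw [← hEr a] at hx ⊢
    exact hPE a x hx
  -- the spaces `W ∩ E a`
  have hWa : ∀ a, IsHermOn566 form (W ⊓ Er a) := fun a => h.mono (inf_le_left.trans hWV)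
  have hWafd : ∀ a, FiniteDimensional ℂ ↥(W ⊓ Er a) := fun a => by
    haveI := hErfd a
    infer_instance
  have hd : ∀ a, finrank ℂ ↥(W ⊓ Er a) ≤ (C a).card := fun a => by
    haveI := hErfd a
    rw [← (hcf a).1]
    exact Submodule.finrank_mono inf_le_right
  have hex : ∀ a, ∃ u : Fin (finrank ℂ ↥(W ⊓ Er a)) → M, (∀ i, u i ∈ W ⊓ Er a) ∧
      (∀ i, form (u i) (u i) = 1) ∧ (∀ i j, i ≠ j → form (u i) (u j) = 0) ∧
      ∀ x ∈ W ⊓ Er a, x ∈ Submodule.span ℂ (Set.range u) := fun a => by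
    haveI := hWafd a
    exact exists_onb582 form (W ⊓ Er a) (hWa a)
  choose u hu_mem hu1 hu0 hu_span using hex
  -- the indices
  set e : (a : A) → Fin (finrank ℂ ↥(W ⊓ Er a)) → ℕ := fun a i =>
    (C a).orderEmbOfFin rfl (Fin.castLE (hd a) i) with he_def
  have he_inj : ∀ a, Function.Injective (e a) := fun a i i' hii' => by
    have h1 := ((C a).orderEmbOfFin rfl).injective hii'
    exact Fin.castLE_injective (hd a) h1
  have he_mem : ∀ a i, e a i ∈ C a := fun a i =>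
    Finset.orderEmbOfFin_mem (C a) rfl _
  set wa : A → ℕ → M := fun a j =>
    if hj : ∃ i : Fin (finrank ℂ ↥(W ⊓ Er a)), e a i = j then u a (Classical.choose hj) else 0
    with hwa_def
  have hwa : ∀ a i, wa a (e a i) = u a i := fun a i => by
    have hj : ∃ i' : Fin (finrank ℂ ↥(W ⊓ Er a)), e a i' = e a i := ⟨i, rfl⟩
    have h1 : wa a (e a i) = u a (Classical.choose hj) := dif_pos hj
    rw [h1, he_inj a (Classical.choose_spec hj)]
  set w : ℕ → M := fun j => wa (cl₀ j) j with hw_def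
  set J : Set ℕ := {j | j ∈ J₀ ∧ ∃ i : Fin (finrank ℂ ↥(W ⊓ Er (cl₀ j))), e (cl₀ j) i = j}
    with hJ_def
  -- the two key facts
  have K1 : ∀ a (i : Fin (finrank ℂ ↥(W ⊓ Er a))),
      e a i ∈ J₀ ∧ cl₀ (e a i) = a ∧ e a i ∈ J ∧ w (e a i) = u a i := by
    intro a i
    obtain ⟨hj0, hcl⟩ := (hC a (e a i)).1 (he_mem a i)
    refine ⟨hj0, hcl, ?_, ?_⟩
    · refine ⟨hj0, ?_⟩
      generalize hjj : e a i = j at hcl
      subst hcl
      exact ⟨i, hjj⟩
    · show wa (cl₀ (e a i)) (e a i) = u a i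
      generalize hjj : e a i = j at hcl
      subst hcl
      have h3 := hwa (cl₀ j) i
      rw [hjj] at h3
      exact h3
  have K2 : ∀ j ∈ J, ∀ a, cl₀ j = a →
      ∃ k : Fin (finrank ℂ ↥(W ⊓ Er a)), e a k = j ∧ w j = u a k := by
    intro j hj a ha
    subst ha
    obtain ⟨k, hk⟩ := hj.2
    refine ⟨k, hk, ?_⟩
    have := (K1 (cl₀ j) k).2.2.2
    rw [hk] at this
    exact this
  refine ⟨w, J, cl₀, ?_, ?_, ?_, ?_, ?_, ?_, ?_⟩
  · -- members
    intro j hj
    obtain ⟨k, -, hw⟩ := K2 j hj _ rfl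
    have hm := hu_mem (cl₀ j) k
    rw [← hw] at hm
    refine ⟨hm.1, ?_⟩
    rw [hEr (cl₀ j)]
    exact hm.2
  · -- classes
    intro j hj
    exact ⟨j, hj.1, rfl⟩
  · -- norm one
    intro j hj
    obtain ⟨k, -, hw⟩ := K2 j hj _ rfl
    rw [hw]
    exact hu1 _ k
  · -- orthogonality
    intro i hi j hj hij
    by_cases hcl : cl₀ j = cl₀ i
    · obtain ⟨k, hk, hwi⟩ := K2 i hi _ rfl
      obtain ⟨k', hk', hwj⟩ := K2 j hj _ hcl
      rw [hwi, hwj]
      refine hu0 _ k k' ?_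
      intro hkk
      apply hij
      rw [← hk, ← hk', hkk]
    · obtain ⟨k, -, hwi⟩ := K2 i hi _ rfl
      obtain ⟨k', -, hwj⟩ := K2 j hj _ rfl
      have hx : w i ∈ cSpan566 v J₀ cl₀ (cl₀ i) := by
        rw [hwi, hEr]
        exact (hu_mem _ k).2
      have hy : w j ∈ cSpan566 v J₀ cl₀ (cl₀ j) := by
        rw [hwj, hEr]
        exact (hu_mem _ k').2
      exact form_class_orth566 h v J₀ cl₀ hvV hv0 (fun hh => hcl hh.symm) hx hy
  · -- Parseval
    intro χ hχ
    have hχV := hWV hχ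
    set g : ℕ → ℝ := J₀.indicator (fun j => ‖form χ (v j)‖ ^ 2) with hg_def
    set hh : ℕ → ℝ := J.indicator (fun j => ‖form χ (w j)‖ ^ 2) with hh_def
    have hg : HasSum g (form χ χ).re := by
      have h1 := hpars χ hχV
      exact (hasSum_subtype_iff_indicator (f := fun j : ℕ => ‖form χ (v j)‖ ^ 2)).1 h1
    have hJJ : ∀ j, j ∈ J → j ∈ J₀ := fun j hj => hj.1
    have key := hasSum_regroup566 g hh
      (fun j => Set.indicator_nonneg (fun _ _ => by positivity) j)
      (fun j => Set.indicator_nonneg (fun _ _ => by positivity) j) J₀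
      (fun j hj => Set.indicator_of_notMem hj _)
      (fun j hj => Set.indicator_of_notMem (fun hjJ => hj (hJJ j hjJ)) _)
      (fun j => C (cl₀ j))
      (fun j hj => (hC _ j).2 ⟨hj, rfl⟩)
      (fun j hj i hi => by
        obtain ⟨hi0, hicl⟩ := (hC _ i).1 hi
        exact ⟨hi0, by rw [hicl]⟩)
      ?_ (form χ χ).re hg
    · exact (hasSum_subtype_iff_indicator (f := fun j : ℕ => ‖form χ (w j)‖ ^ 2)).2 key
    · intro j₀ hj₀
      set a := cl₀ j₀ with ha_def
      obtain ⟨hpE, hproj, hparsC⟩ := (hcf a).2 χ hχV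
      set p := ∑ i ∈ C a, form χ (v i) • v i with hp_def
      -- the left side
      have hL : ∑ i ∈ C a, g i = (form p p).re := by
        rw [← hparsC]
        refine Finset.sum_congr rfl fun i hi => ?_
        exact Set.indicator_of_mem ((hC a i).1 hi).1 _
      -- `p ∈ W`
      have hpW : p ∈ W :=
        proj_comp_mem582 h hWV P hPW hPin (Er a) (hErV a) (hPEr a) χ p hχ hpE hproj
      have hpWa : p ∈ W ⊓ Er a := ⟨hpW, hpE⟩
      -- the right side
      have hR1 : ∑ i ∈ C a, hh i = ∑ k : Fin (finrank ℂ ↥(W ⊓ Er a)), ‖form χ (u a k)‖ ^ 2 := by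
        have hsub : (Finset.univ.image (e a)) ⊆ C a := by
          intro i hi
          obtain ⟨k, -, rfl⟩ := Finset.mem_image.1 hi
          exact he_mem a k
        rw [← Finset.sum_subset hsub, Finset.sum_image (fun k _ k' _ hkk => he_inj a hkk)]
        · refine Finset.sum_congr rfl fun k _ => ?_
          obtain ⟨-, -, hkJ, hwk⟩ := K1 a k
          rw [hh_def, Set.indicator_of_mem hkJ, hwk]
        · intro i hi hni
          refine Set.indicator_of_notMem ?_ _
          intro hiJ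
          obtain ⟨k, hk, -⟩ := K2 i hiJ a ((hC a i).1 hi).2
          exact hni (Finset.mem_image.2 ⟨k, Finset.mem_univ k, hk⟩)
      haveI := hWafd a
      have hR2 := parseval_class566 form (W ⊓ Er a) (hWa a) (u a) (hu_mem a) (hu1 a) (hu0 a)
        (Fintype.card_fin _) p hpWa
      rw [hL, hR1, ← hR2]
      refine Finset.sum_congr rfl fun k _ => ?_
      rw [hproj (u a k) (hu_mem a k).2]
  · -- finite classes
    intro j₁ hj₁
    refine (hCfin (cl₀ j₁)).subset ?_
    intro j hj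
    exact ⟨hj.1.1, hj.2⟩
  · -- exhaustion
    intro a x hxW hxE
    rw [hEr a] at hxE
    have hx := hu_span a x ⟨hxW, hxE⟩
    refine Submodule.span_mono ?_ hx
    rintro _ ⟨k, rfl⟩
    obtain ⟨-, hcl, hkJ, hwk⟩ := K1 a k
    exact ⟨e a k, hkJ, hcl, hwk.symm⟩

end Main

end Fermat.Agent.LT.T7.H582

end

end
-- ===== PACK-END LT/T7/H582/ProjBasisCore.lean

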