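import Mathlib
import Fermat.Agent.Pack.LT3.E5L0
import Fermat.Agent.Pack.LT3.E5L2
import Fermat.Agent.Pack.LT3.E0L2
import Fermat.Agent.Pack.LT3.E5L1
import Fermat.Agent.Pack.LT3.E3L3
import Fermat.Agent.Pack.LT2.E3L1
import Fermat.Agent.Pack.LT2.E0L2
import Fermat.Agent.Pack.LT2.E2L3
import Fermat.Agent.Pack.LT2.E5L2
import Fermat.Agent.Pack.LT2.E5L3
import Fermat.Agent.Pack.LT2.E4L2
import Fermat.Agent.Pack.LT3.E3L1
import Fermat.Agent.Pack.LT2.E2L1
import Fermat.Agent.Pack.LT3.E7L3

set_option linter.all false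

-- ===== PACK-BEGIN LT/CFT/H141/Sha.lean
section


/-!
# Row LT, tower CFT, sub-tower EX, row E1.C.10 `ShaC` (SPARE, helper141), OFF-MAIN

`shaC_of141 : EQ.InertC → EQ.EvenOrdC → EQ.ShaC`, VERBATIM against
`Fermat/Agent/LT/CFT/H476/EQSpec.lean` (helper476@a36ad8b7e, sha256 9f9ec67ebaf2cee9).
Mathlib + `EQSpec` only.

Proof (the norm trick of the header of `EQSpec`).  Let `x ∈ sUnitG S ⊓ (sqG ⊔ rayG S n)`:
`x = u₁ / u₂ = s² a / b`, `u = u₁ u₂` an integral `S`-unit, `a ≡ b ≡ 1 mod fS S n`,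
`s u₂ = c / e`, so `u e² b = c² a`.  If `u` is not a square, `InertC` gives `w ∉ S` with
`(u / w) = -1`; `GenClN` gives `w J = (α)`, `J ∣ fS S m`.  With `A = c (1 + α)`, `B = e (α - 1)`:
`b (A² - u B²) = c² y'`, `y' = 4 α b + (b - a)(α - 1)²`.  The Legendre character `χ = (u / ·)`
is `1` on `A² - u B²` (`EvenOrdC`), on `b` (ray) and on `c²`, hence on `y'`; by RAY COMPARISON
(`outProd_congr141`, `n ≥ 2 E + m + N`) it takes the same value on `y'` and on `y = 4 α b`,
where it is `χ(w) = -1`.  Contradiction.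
-/

set_option autoImplicit false
set_option linter.unusedSectionVars false

open IsDedekindDomain NumberField

noncomputable section

namespace Fermat.Agent.LT.CFT.H141

open Fermat.Agent.LT.CFT.EQ

variable {K : Type} [Field K] [NumberField K]

/-! ## Integral `S`-units and normal forms -/

lemma one_not_mem141 (v : HeightOneSpectrum (𝓞 K)) : (1 : 𝓞 K) ∉ v.asIdeal := fun h =>
  v.isMaximal.ne_top ((Ideal.eq_top_iff_one _).mpr h)

lemma isSInt_one141 (S : Finset (HeightOneSpectrum (𝓞 K))) : IsSInt S (1 : 𝓞 K) :=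
  ⟨one_ne_zero, fun v h => absurd h (one_not_mem141 v)⟩

lemma isSInt_mul141 {S : Finset (HeightOneSpectrum (𝓞 K))} {u u' : 𝓞 K} (h : IsSInt S u)
    (h' : IsSInt S u') : IsSInt S (u * u') :=
  ⟨mul_ne_zero h.1 h'.1, fun v hv => (v.isPrime.mem_or_mem hv).elim (h.2 v) (h'.2 v)⟩

lemma sUnitG_form141 (S : Finset (HeightOneSpectrum (𝓞 K))) {x : Kˣ} (hx : x ∈ sUnitG S) :
    ∃ u₁ u₂ : 𝓞 K, IsSInt S u₁ ∧ IsSInt S u₂ ∧
      (x : K) * algebraMap (𝓞 K) K u₂ = algebraMap (𝓞 K) K u₁ := by
  unfold sUnitG at hx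
  induction hx using Subgroup.closure_induction with
  | mem x hx =>
    obtain ⟨u, hu, hxu⟩ := hx
    exact ⟨u, 1, hu, isSInt_one141 S, by rw [map_one, mul_one, hxu]⟩
  | one => exact ⟨1, 1, isSInt_one141 S, isSInt_one141 S, by simp⟩
  | mul x y _ _ hx hy =>
    obtain ⟨u₁, u₂, h1, h2, e⟩ := hx
    obtain ⟨u₁', u₂', h1', h2', e'⟩ := hy
    refine ⟨u₁ * u₁', u₂ * u₂', isSInt_mul141 h1 h1', isSInt_mul141 h2 h2', ?_⟩
    rw [Units.val_mul, map_mul, map_mul, ← e, ← e']
    ring
  | inv x _ hx =>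
    obtain ⟨u₁, u₂, h1, h2, e⟩ := hx
    refine ⟨u₂, u₁, h2, h1, ?_⟩
    rw [← e, Units.val_inv_eq_inv_val, ← mul_assoc, inv_mul_cancel₀ x.ne_zero, one_mul]

lemma sub_one_mul_mem141 {I : Ideal (𝓞 K)} {a a' : 𝓞 K} (h : a - 1 ∈ I) (h' : a' - 1 ∈ I) :
    a * a' - 1 ∈ I := by
  have : a * a' - 1 = a * (a' - 1) + (a - 1) := by ring
  rw [this]
  exact Ideal.add_mem _ (Ideal.mul_mem_left _ _ h') h

lemma rayG_form141 (S : Finset (HeightOneSpectrum (𝓞 K))) (n : ℕ) {x : Kˣ}
    (hx : x ∈ rayG S n) :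
    ∃ a b : 𝓞 K, a - 1 ∈ fS S n ∧ b - 1 ∈ fS S n ∧ a ≠ 0 ∧ b ≠ 0 ∧
      (x : K) * algebraMap (𝓞 K) K b = algebraMap (𝓞 K) K a := by
  unfold rayG at hx
  induction hx using Subgroup.closure_induction with
  | mem x hx =>
    obtain ⟨a, ha, hxa⟩ := hx
    refine ⟨a, 1, ha, by simp, ?_, one_ne_zero, by rw [map_one, mul_one, hxa]⟩
    rintro rfl
    rw [map_zero] at hxa
    exact x.ne_zero hxa
  | one => exact ⟨1, 1, by simp, by simp, one_ne_zero, one_ne_zero, by simp⟩
  | mul x y _ _ hx hy =>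
    obtain ⟨a, b, ha, hb, ha0, hb0, e⟩ := hx
    obtain ⟨a', b', ha', hb', ha0', hb0', e'⟩ := hy
    refine ⟨a * a', b * b', sub_one_mul_mem141 ha ha', sub_one_mul_mem141 hb hb',
      mul_ne_zero ha0 ha0', mul_ne_zero hb0 hb0', ?_⟩
    rw [Units.val_mul, map_mul, map_mul, ← e, ← e']
    ring
  | inv x _ hx =>
    obtain ⟨a, b, ha, hb, ha0, hb0, e⟩ := hx
    refine ⟨b, a, hb, ha, hb0, ha0, ?_⟩
    rw [← e, Units.val_inv_eq_inv_val, ← mul_assoc, inv_mul_cancel₀ x.ne_zero, one_mul]

/-! ## Orders of `α` with `w J = (α)`, `J ∣ fS S m` -/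

lemma fS_ne_bot141 (S : Finset (HeightOneSpectrum (𝓞 K))) (m : ℕ) : fS S m ≠ ⊥ := by
  unfold fS
  rw [Ideal.zero_eq_bot.symm]
  exact Finset.prod_ne_zero_iff.mpr fun v _ => pow_ne_zero m v.ne_bot

lemma not_fS_le_of_not_mem141 (S : Finset (HeightOneSpectrum (𝓞 K))) (m : ℕ)
    {v : HeightOneSpectrum (𝓞 K)} (hv : v ∉ S) : ¬ fS S m ≤ v.asIdeal := by
  intro h
  unfold fS at h
  obtain ⟨v', hv', hle⟩ := (Ideal.IsPrime.prod_le v.isPrime).mp h
  have := v.isPrime
  have h1 : v'.asIdeal ≤ v.asIdeal := Ideal.IsPrime.le_of_pow_le hle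
  have h2 : v'.asIdeal = v.asIdeal := v'.isMaximal.eq_of_le v.isPrime.ne_top h1
  exact hv (HeightOneSpectrum.ext h2 ▸ hv')

lemma not_fS_le_pow_succ141 (S : Finset (HeightOneSpectrum (𝓞 K))) (m : ℕ)
    {v : HeightOneSpectrum (𝓞 K)} (hv : v ∈ S) : ¬ fS S m ≤ v.asIdeal ^ (m + 1) := by
  classical
  intro h
  rw [← Ideal.dvd_iff_le] at h
  unfold fS at h
  rw [← Finset.mul_prod_erase S _ hv, pow_succ] at h
  have h1 := (mul_dvd_mul_iff_left (pow_ne_zero m v.ne_bot)).mp h
  rw [Ideal.dvd_iff_le] at h1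
  obtain ⟨v', hv', hle⟩ := (Ideal.IsPrime.prod_le v.isPrime).mp h1
  have := v.isPrime
  have h2 : v'.asIdeal ≤ v.asIdeal := Ideal.IsPrime.le_of_pow_le hle
  have h3 : v'.asIdeal = v.asIdeal := v'.isMaximal.eq_of_le v.isPrime.ne_top h2
  exact (Finset.mem_erase.mp hv').1 (HeightOneSpectrum.ext h3)

lemma cnt_self141 (w : HeightOneSpectrum (𝓞 K)) : cnt141 w w.asIdeal = 1 :=
  Associates.count_self w.associates_irreducible

lemma cnt_of_ne141 {v w : HeightOneSpectrum (𝓞 K)} (h : v ≠ w) : cnt141 v w.asIdeal = 0 := by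
  refine Associates.count_eq_zero_of_ne v.associates_irreducible w.associates_irreducible ?_
  intro h'
  rw [Associates.mk_eq_mk_iff_associated, associated_iff_eq] at h'
  exact h (HeightOneSpectrum.ext h')

lemma cnt_eq_zero141 (v : HeightOneSpectrum (𝓞 K)) {J : Ideal (𝓞 K)} (hJ : J ≠ ⊥)
    (h : ¬ J ≤ v.asIdeal) : cnt141 v J = 0 := by
  by_contra h0
  have h1 := (le_cnt_iff141 v hJ 1).mp (by omega)
  rw [pow_one] at h1
  exact h h1

/-- The orders of `α`, `(α) = w J`, `J ∣ fS S m`, `w ∉ S`. -/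
lemma ord_alpha141 (S : Finset (HeightOneSpectrum (𝓞 K))) (m : ℕ)
    {w : HeightOneSpectrum (𝓞 K)} (hw : w ∉ S) {α : 𝓞 K} {J : Ideal (𝓞 K)}
    (hJ : fS S m ≤ J) (hα : w.asIdeal * J = Ideal.span {α}) :
    ord w α = 1 ∧ (∀ v : HeightOneSpectrum (𝓞 K), v ∉ S → v ≠ w → ord v α = 0) ∧
      ∀ v ∈ S, ord v α ≤ m := by
  have hJ0 : J ≠ ⊥ := fun h => fS_ne_bot141 S m (le_bot_iff.mp (h ▸ hJ))
  have hord : ∀ v : HeightOneSpectrum (𝓞 K), ord v α = cnt141 v w.asIdeal + cnt141 v J := by
    intro v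
    rw [ord_eq_cnt141, ← hα]
    exact cnt_mul141 v w.ne_bot hJ0
  have hJout : ∀ v : HeightOneSpectrum (𝓞 K), v ∉ S → cnt141 v J = 0 := fun v hv =>
    cnt_eq_zero141 v hJ0 fun hle => not_fS_le_of_not_mem141 S m hv (hJ.trans hle)
  refine ⟨?_, ?_, ?_⟩
  · rw [hord, cnt_self141, hJout w hw]
  · intro v hv hvw
    rw [hord, cnt_of_ne141 hvw, hJout v hv]
  · intro v hv
    have hvw : v ≠ w := fun h => hw (h ▸ hv)
    rw [hord, cnt_of_ne141 hvw, zero_add]
    by_contra hlt
    have h1 : J ≤ v.asIdeal ^ (m + 1) := (le_cnt_iff141 v hJ0 (m + 1)).mp (by omega)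
    exact not_fS_le_pow_succ141 S m hv (hJ.trans h1)

/-! ## The theorem -/

/-- **ROW E1.C.10 `Ш = 1`** (SPARE of helper141), from `InertC` and `EvenOrdC`. -/
theorem shaC_of141 (hInert : InertC) (hEven : EvenOrdC) : ShaC := by
  intro K _ _ S h2 m hm N hN hK
  classical
  set E : ℕ := S.sup (fun v => ord v (2 : 𝓞 K)) with hE
  refine ⟨2 * E + m + N, fun n hn => ?_⟩
  intro x hx
  obtain ⟨hxS, hxR⟩ := Subgroup.mem_inf.mp hx
  obtain ⟨u₁, u₂, hu₁, hu₂, e12⟩ := sUnitG_form141 S hxS
  obtain ⟨y₀, hy₀, z, hz, hyz⟩ := Subgroup.mem_sup.mp hxR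
  obtain ⟨s, hs⟩ := hy₀
  obtain ⟨a, b, ha, hb, ha0, hb0, eab⟩ := rayG_form141 S n hz
  have hu : IsSInt S (u₁ * u₂) := isSInt_mul141 hu₁ hu₂
  set u : 𝓞 K := u₁ * u₂ with hudef
  have hinj : Function.Injective (algebraMap (𝓞 K) K) := FaithfulSMul.algebraMap_injective _ _
  have hu₂K : algebraMap (𝓞 K) K u₂ ≠ 0 := fun h => hu₂.1 (hinj (by rw [h, map_zero]))
  -- `x u₂² = u`
  have hxu : (x : K) * algebraMap (𝓞 K) K u₂ ^ 2 = algebraMap (𝓞 K) K u := by
    rw [hudef, map_mul, ← e12]; ring
  by_contra hnot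
  -- `u` is not a square
  have hnsq : ¬ ∃ q : K, q ^ 2 = algebraMap (𝓞 K) K u := by
    rintro ⟨q, hq⟩
    apply hnot
    have hq0 : q / algebraMap (𝓞 K) K u₂ ≠ 0 := by
      refine div_ne_zero ?_ hu₂K
      rintro rfl
      rw [zero_pow (by norm_num)] at hq
      exact hu.1 (hinj (by rw [← hq, map_zero]))
    refine ⟨Units.mk0 _ hq0, Units.ext ?_⟩
    show (q / algebraMap (𝓞 K) K u₂) ^ 2 = (x : K)
    rw [div_pow, hq, ← hxu]
    field_simp
  -- the fraction `s u₂ = c / e`
  obtain ⟨c, e, he, hce⟩ := IsFractionRing.div_surjective (A := 𝓞 K)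
    ((s : K) * algebraMap (𝓞 K) K u₂)
  have he0 : e ≠ 0 := nonZeroDivisors.ne_zero he
  have heK : algebraMap (𝓞 K) K e ≠ 0 := fun h => he0 (hinj (by rw [h, map_zero]))
  have hxs : (x : K) = (s : K) ^ 2 * (z : K) := by
    rw [← hyz, Units.val_mul, ← hs]
    rfl
  have hid : u * e ^ 2 * b = c ^ 2 * a := by
    apply hinj
    simp only [map_mul, map_pow]
    rw [← hxu, ← eab, hxs]
    have hc : algebraMap (𝓞 K) K c = (s : K) * algebraMap (𝓞 K) K u₂ * algebraMap (𝓞 K) K e := by
      rw [← hce]; field_simp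
    rw [hc]; ring
  have hc0 : c ≠ 0 := by
    rintro rfl
    rw [map_zero, zero_div] at hce
    exact mul_ne_zero s.ne_zero hu₂K hce.symm
  -- the inert prime
  obtain ⟨w, hwS, _, hwns⟩ := hInert K u hnsq S
  obtain ⟨α, J, hα0, hJ, hwJ⟩ := hm w.asIdeal w.ne_bot
  obtain ⟨hαw, hαout, hαS⟩ := ord_alpha141 S m hwS hJ hwJ
  have hαmem : α ∈ w.asIdeal := by
    have := (le_ord_iff141 w hα0 1).mp (by omega)
    rwa [pow_one] at this
  have hα1 : α - 1 ≠ 0 := by
    intro h
    have : α = 1 := sub_eq_zero.mp h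
    exact one_not_mem141 w (this ▸ hαmem)
  -- the character
  set χ : {v : HeightOneSpectrum (𝓞 K) // v ∉ S} → ℤˣ := qsymOut S u with hχ
  have hχR : χ ∈ RayN S N := hK u hu
  have hnN : N ≤ n := by omega
  have hn1 : 1 ≤ n := by omega
  have hb1 : outProd S χ b = 1 := hχR b hb0 (fS_le_fS141 S hnN hb)
  -- `b` is prime to `S`
  have hbS : ∀ v ∈ S, ord v b = 0 := by
    intro v hv
    rw [ord_eq_zero_iff141 v hb0]
    intro hbv
    have h1 : b - 1 ∈ v.asIdeal := Ideal.pow_le_self (by omega) ((mem_fS_iff141 S n _).mp hb v hv)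
    have : (1 : 𝓞 K) = b - (b - 1) := by ring
    exact one_not_mem141 v (this ▸ Ideal.sub_mem _ hbv h1)
  -- the number `4`
  have h20 : (2 : 𝓞 K) ≠ 0 := two_ne_zero
  have h4eq : (4 : 𝓞 K) = 2 * 2 := by norm_num
  have h40 : (4 : 𝓞 K) ≠ 0 := by rw [h4eq]; exact mul_ne_zero h20 h20
  have h4S : ∀ v ∈ S, ord v (4 : 𝓞 K) ≤ 2 * E := by
    intro v hv
    rw [h4eq, ord_mul141 v h20 h20]
    have : ord v (2 : 𝓞 K) ≤ E := Finset.le_sup (f := fun v => ord v (2 : 𝓞 K)) hv
    omega
  have h4out : ∀ v : HeightOneSpectrum (𝓞 K), v ∉ S → ord v (4 : 𝓞 K) = 0 := by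
    intro v hv
    rw [ord_eq_zero_iff141 v h40, h4eq]
    intro h
    exact hv (h2 v ((v.isPrime.mem_or_mem h).elim id id))
  -- `y = 4 α b`, `y' = y + (b - a)(α - 1)²`
  set y : 𝓞 K := 4 * α * b with hy
  set y' : 𝓞 K := 4 * α * b + (b - a) * (α - 1) ^ 2 with hy'
  have hy0 : y ≠ 0 := mul_ne_zero (mul_ne_zero h40 hα0) hb0
  set A : 𝓞 K := c * (1 + α) with hA
  set B : 𝓞 K := e * (α - 1) with hB
  have hnorm : b * (A ^ 2 - u * B ^ 2) = c ^ 2 * y' := by
    rw [hA, hB, hy']
    linear_combination (-(α - 1) ^ 2) * hid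
  have hB0 : B ≠ 0 := mul_ne_zero he0 hα1
  have hAB : A ^ 2 - u * B ^ 2 ≠ 0 := by
    intro h
    apply hnsq
    refine ⟨algebraMap (𝓞 K) K A / algebraMap (𝓞 K) K B, ?_⟩
    have hBK : algebraMap (𝓞 K) K B ≠ 0 := fun h => hB0 (hinj (by rw [h, map_zero]))
    have h' : algebraMap (𝓞 K) K A ^ 2 = algebraMap (𝓞 K) K u * algebraMap (𝓞 K) K B ^ 2 := by
      rw [← map_pow, ← map_pow, ← map_mul]
      exact congrArg _ (sub_eq_zero.mp h)
    rw [div_pow, h']
    field_simp
  have hy'0 : y' ≠ 0 := by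
    intro h
    rw [h, mul_zero] at hnorm
    exact mul_ne_zero hb0 hAB hnorm
  -- the norm side
  have hnormχ : outProd S χ (A ^ 2 - u * B ^ 2) = 1 := by
    refine outProd_eq_one141 S χ fun v => ?_
    show qsym u v.1 ^ ord v.1 (A ^ 2 - u * B ^ 2) = 1
    unfold qsym
    by_cases hsq : IsSqMod v.1 u
    · rw [if_pos hsq, one_pow]
    · rw [if_neg hsq]
      exact (hEven K v.1 u A B hsq hAB).neg_one_pow
  have hy'1 : outProd S χ y' = 1 := by
    have h1 := congrArg (outProd S χ) hnorm
    rw [outProd_mul141 S χ hb0 hAB, outProd_mul141 S χ (pow_ne_zero 2 hc0) hy'0, hb1, hnormχ,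
      outProd_sq141 S χ hc0, one_mul, one_mul] at h1
    exact h1.symm
  -- ray comparison
  have hcmp : outProd S χ y = outProd S χ y' := by
    refine outProd_congr141 S N hN χ hχR hy0 hy'0 fun v hv => ?_
    have hδ : y' - y = (b - a) * (α - 1) ^ 2 := by rw [hy', hy]; ring
    rw [hδ]
    have hba : b - a ∈ fS S n := by
      have : b - a = (b - 1) - (a - 1) := by ring
      rw [this]
      exact Ideal.sub_mem _ hb ha
    have h1 : (b - a) * (α - 1) ^ 2 ∈ v.asIdeal ^ n :=
      (mem_fS_iff141 S n _).mp (Ideal.mul_mem_right _ _ hba) v hv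
    have hordy : ord v y ≤ 2 * E + m := by
      rw [hy, ord_mul141 v (mul_ne_zero h40 hα0) hb0, ord_mul141 v h40 hα0, hbS v hv]
      have := h4S v hv
      have := hαS v hv
      omega
    exact Ideal.pow_le_pow_right (by omega) h1
  -- the value on `y`
  have h4χ : outProd S χ (4 : 𝓞 K) = 1 :=
    outProd_eq_one141 S χ fun v => by rw [h4out v.1 v.2, pow_zero]
  have hαχ : outProd S χ α = χ ⟨w, hwS⟩ :=
    outProd_single141 S χ ⟨w, hwS⟩ hαw fun v hv =>
      hαout v.1 v.2 fun h => hv (Subtype.ext h)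
  have hχw : χ ⟨w, hwS⟩ = -1 := by
    show qsym u w = -1
    unfold qsym
    rw [if_neg hwns]
  have hyχ : outProd S χ y = -1 := by
    rw [hy, outProd_mul141 S χ (mul_ne_zero h40 hα0) hb0, outProd_mul141 S χ h40 hα0, h4χ, hαχ,
      hχw, hb1, one_mul, mul_one]
  rw [hyχ, hy'1] at hcmp
  exact absurd hcmp (by decide)

end Fermat.Agent.LT.CFT.H141

end

end
-- ===== PACK-END LT/CFT/H141/Sha.lean

-- ===== PACK-BEGIN LT/T6/H698/SphCKernel.lean
section


/-!
# Row LT, tower T6, leaf T6.29.C2 `SphCKernelC` (helper698)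

OFF-MAIN.  Proves `H830.SphCKernelC` of `LT/T6/H830/HCSpec.lean` (helper830, sha256 c3e7d846)
VERBATIM: for `u ≥ 0` and all `ν : ℂ`,
`sphC ν (cosh u) · sinh u = (1/2) ∫_{-u}^{u} e^{ρν} dρ`.

Route: `√(cosh² u - 1) = sinh u`; affine substitution `y = cosh u + x sinh u`
(`smul_integral_comp_add_mul`, valid for `sinh u = 0` too); `y = e^ρ`
(`integral_deriv_smul_comp''`); `(e^ρ)^(-1-ν) e^ρ = e^{-ρν}`; `ρ ↦ -ρ`.
-/

set_option autoImplicit false

open MeasureTheory

noncomputable section

namespace Fermat.Agent.LT.T6.H698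

open Fermat.Agent.LT.T6

theorem sqrt_cosh_sq_sub_one698 {u : ℝ} (hu : 0 ≤ u) :
    Real.sqrt (Real.cosh u ^ 2 - 1) = Real.sinh u := by
  have h : Real.cosh u ^ 2 - 1 = Real.sinh u ^ 2 := by
    rw [Real.cosh_sq]; ring
  rw [h, Real.sqrt_sq (Real.sinh_nonneg_iff.2 hu)]

/-- `(e^ρ)^z = e^{ρ z}` -/
theorem exp_cpow698 (ρ : ℝ) (z : ℂ) :
    (((Real.exp ρ : ℝ) : ℂ)) ^ z = Complex.exp ((ρ : ℂ) * z) := by
  have h0 : (((Real.exp ρ : ℝ) : ℂ)) ≠ 0 := Complex.ofReal_ne_zero.2 (Real.exp_ne_zero ρ)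
  rw [Complex.cpow_def_of_ne_zero h0, ← Complex.ofReal_log (Real.exp_pos ρ).le, Real.log_exp]

/-- the integral of `y ^ z` over `[e^{-u}, e^u]` -/
theorem integral_cpow_exp698 (ν : ℂ) (u : ℝ) :
    (∫ y in (Real.exp (-u))..(Real.exp u), (((y : ℝ) : ℂ)) ^ (-1 - ν))
      = ∫ ρ in (-u)..u, Complex.exp ((ρ : ℂ) * ν) := by
  -- substitution `y = e^ρ`
  have hsub : (∫ ρ in (-u)..u,
      ((fun y : ℝ => (((y : ℝ) : ℂ)) ^ (-1 - ν)) ∘ Real.exp) ρ * ((Real.exp ρ : ℝ) : ℂ))
      = ∫ y in (Real.exp (-u))..(Real.exp u), (((y : ℝ) : ℂ)) ^ (-1 - ν) := by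
    have key := intervalIntegral.integral_deriv_smul_comp''
      (a := -u) (b := u) (f := Real.exp) (f' := Real.exp)
      (g := fun y : ℝ => (((y : ℝ) : ℂ)) ^ (-1 - ν))
      Real.continuous_exp.continuousOn
      (fun x _ => (Real.hasDerivAt_exp x).hasDerivWithinAt)
      Real.continuous_exp.continuousOn ?_
    · simp only [Complex.real_smul] at key
      rw [← key]
      refine intervalIntegral.integral_congr fun ρ _ => ?_
      simp only [Function.comp]
      ring
    · -- continuity of `y ↦ y ^ z` on the image (positive reals)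
      intro y hy
      obtain ⟨x, -, rfl⟩ := hy
      have hpos : (0 : ℝ) < Real.exp x := Real.exp_pos x
      refine ContinuousAt.continuousWithinAt ?_
      refine ContinuousAt.cpow Complex.continuous_ofReal.continuousAt continuousAt_const ?_
      exact Complex.ofReal_mem_slitPlane.2 hpos
  rw [← hsub]
  -- `(e^ρ)^(-1-ν) e^ρ = e^{-ρν}`, then `ρ ↦ -ρ`
  have hint : ∀ ρ : ℝ,
      ((fun y : ℝ => (((y : ℝ) : ℂ)) ^ (-1 - ν)) ∘ Real.exp) ρ * ((Real.exp ρ : ℝ) : ℂ)
        = Complex.exp ((((-ρ : ℝ)) : ℂ) * ν) := by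
    intro ρ
    simp only [Function.comp]
    rw [exp_cpow698, Complex.ofReal_exp, ← Complex.exp_add]
    congr 1
    push_cast
    ring
  simp only [hint]
  have hneg := intervalIntegral.integral_comp_neg (a := -u) (b := u)
    (fun ρ : ℝ => Complex.exp ((ρ : ℂ) * ν))
  rw [neg_neg] at hneg
  exact hneg

/-- **T6.29.C2.** -/
theorem sphCKernelC698 : H830.SphCKernelC := by
  intro ν u hu
  rw [sphC, sqrt_cosh_sq_sub_one698 hu, ← integral_cpow_exp698]
  have haff := intervalIntegral.smul_integral_comp_add_mul (a := (-1 : ℝ)) (b := 1)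
    (fun y : ℝ => (((y : ℝ) : ℂ)) ^ (-1 - ν)) (Real.sinh u) (Real.cosh u)
  have e1 : Real.cosh u + Real.sinh u * (-1) = Real.exp (-u) := by
    rw [mul_neg_one, ← sub_eq_add_neg, Real.cosh_sub_sinh]
  have e2 : Real.cosh u + Real.sinh u * 1 = Real.exp u := by
    rw [mul_one, Real.cosh_add_sinh]
  rw [e1, e2, Complex.real_smul] at haff
  rw [← haff]
  have e3 : (∫ x in (-1 : ℝ)..1, ((Real.cosh u + x * Real.sinh u : ℝ) : ℂ) ^ (-1 - ν))
      = ∫ x in (-1 : ℝ)..1, ((Real.cosh u + Real.sinh u * x : ℝ) : ℂ) ^ (-1 - ν) := by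
    refine intervalIntegral.integral_congr fun x _ => ?_
    simp only [mul_comm]
  rw [e3]
  ring

end Fermat.Agent.LT.T6.H698

end

end
-- ===== PACK-END LT/T6/H698/SphCKernel.lean

-- ===== PACK-BEGIN LT/T6/H682/IwasawaIntC.lean
section




/-!
# Row LT, tower T6, leaf T6.29.I2 `IwasawaIntCC` (helper682), OFF-MAIN: the ADAPTER

    iwasawaIntCC_of189 : H189.U2HaarC → H189.IwasawaCC → H830.IwasawaIntCC

Registry row 1446.  Both sides VERBATIM: `LT/T6/H189/ArchIntSpec.lean` (helper189, sha256 4ac6c090,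
the measure identity `μ' = c • (iwaC)_* (du₁ du₂ dw dκ)`) and `LT/T6/H830/HCSpec.lean` (helper830,
sha256 c3e7d846, the integral formula for right-`U(2)`-invariant functions in the coordinates
`bC ζ r w`); byte-identical copies.  No second proof of the leaves of T6.23.

Proof: `integral_map`; the `κ`-integral disappears (`κ` is a probability measure carried by `U(2)`
and `F` is right-`U(2)`-invariant); Fubini; the linear change of variables
`(u₁, u₂) = ((ζ + r) / 2, (ζ - r) / 2)` of determinant `-1/2`; `bC ζ r w = dgC u₁ u₂ * unC w`.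
The constant is `c.toReal / 2`.
-/

set_option autoImplicit false

open MeasureTheory
open scoped Matrix ENNReal

noncomputable section

namespace Fermat.Agent.LT.T6.H682

open Fermat.Agent.LT.T6

/-! ## 1. The coordinates -/

theorem coe_dgC682 (u₁ u₂ : ℝ) :
    ((H189.dgC u₁ u₂ : GL (Fin 2) ℂ) : Matrix (Fin 2) (Fin 2) ℂ)
      = !![(Real.exp u₁ : ℂ), 0; 0, (Real.exp u₂ : ℂ)] := rfl

theorem coe_unC682 (w : ℂ) :
    ((H189.unC w : GL (Fin 2) ℂ) : Matrix (Fin 2) (Fin 2) ℂ) = !![1, w; 0, 1] := rfl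

theorem dgC_inv682 (u₁ u₂ : ℝ) : (H189.dgC u₁ u₂)⁻¹ = H189.dgC (-u₁) (-u₂) := by
  apply inv_eq_of_mul_eq_one_right
  apply Units.ext
  rw [Units.val_mul, coe_dgC682, coe_dgC682, Units.val_one]
  refine Matrix.ext fun i j => ?_
  fin_cases i <;> fin_cases j <;>
    simp [Matrix.mul_apply, Fin.sum_univ_two, ← Complex.exp_add]

theorem unC_inv682 (w : ℂ) : (H189.unC w)⁻¹ = H189.unC (-w) := by
  apply inv_eq_of_mul_eq_one_right
  apply Units.ext
  rw [Units.val_mul, coe_unC682, coe_unC682, Units.val_one]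
  refine Matrix.ext fun i j => ?_
  fin_cases i <;> fin_cases j <;> simp [Matrix.mul_apply, Fin.sum_univ_two]

theorem continuous_coe_dgC682 :
    Continuous fun u : ℝ × ℝ =>
      ((H189.dgC u.1 u.2 : GL (Fin 2) ℂ) : Matrix (Fin 2) (Fin 2) ℂ) := by
  refine continuous_matrix fun i j => ?_
  fin_cases i <;> fin_cases j <;> simp [coe_dgC682] <;> fun_prop

theorem continuous_coe_unC682 :
    Continuous fun w : ℂ => ((H189.unC w : GL (Fin 2) ℂ) : Matrix (Fin 2) (Fin 2) ℂ) := by
  refine continuous_matrix fun i j => ?_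
  fin_cases i <;> fin_cases j <;> simp [coe_unC682] <;> fun_prop

theorem continuous_dgC682 : Continuous fun u : ℝ × ℝ => H189.dgC u.1 u.2 := by
  rw [Units.continuous_iff]
  refine ⟨continuous_coe_dgC682, ?_⟩
  simp_rw [dgC_inv682]
  exact continuous_coe_dgC682.comp (continuous_neg.prodMap continuous_neg)

theorem continuous_unC682 : Continuous fun w : ℂ => H189.unC w := by
  rw [Units.continuous_iff]
  refine ⟨continuous_coe_unC682, ?_⟩
  simp_rw [unC_inv682]
  exact continuous_coe_unC682.comp continuous_neg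

theorem continuous_iwaC682 : Continuous H189.iwaC := by
  unfold H189.iwaC
  exact ((continuous_dgC682.comp (continuous_fst.prodMk (continuous_fst.comp continuous_snd))).mul
    (continuous_unC682.comp (continuous_fst.comp (continuous_snd.comp continuous_snd)))).mul
    (continuous_snd.comp (continuous_snd.comp continuous_snd))

theorem bC_eq682 (ζ r : ℝ) (w : ℂ) :
    H830.bC ζ r w = H189.dgC ((ζ + r) / 2) ((ζ - r) / 2) * H189.unC w := by
  apply Units.ext
  rw [Units.val_mul, coe_dgC682, coe_unC682, H830.coe_bC830]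
  refine Matrix.ext fun i j => ?_
  fin_cases i <;> fin_cases j <;> simp [Matrix.mul_apply, Fin.sum_univ_two]

/-! ## 2. The linear change of variables `(ζ, r) ↦ ((ζ + r) / 2, (ζ - r) / 2)` -/

/-- `(ζ, r) ↦ ((ζ + r) / 2, (ζ - r) / 2)`. -/
def Lmap682 : (ℝ × ℝ) →ₗ[ℝ] (ℝ × ℝ) :=
  Matrix.toLin (Module.Basis.finTwoProd ℝ) (Module.Basis.finTwoProd ℝ) !![1 / 2, 1 / 2; 1 / 2, -(1 / 2)]

theorem Lmap_apply682 (x : ℝ × ℝ) : Lmap682 x = ((x.1 + x.2) / 2, (x.1 - x.2) / 2) := by
  rw [Lmap682, Matrix.toLin_finTwoProd_apply]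
  ext <;> simp <;> ring

theorem det_Lmap682 : LinearMap.det Lmap682 = -(1 / 2) := by
  rw [Lmap682, LinearMap.det_toLin, Matrix.det_fin_two_of]
  norm_num

theorem map_Lmap682 :
    Measure.map Lmap682 (volume : Measure (ℝ × ℝ)) = (2 : ℝ≥0∞) • (volume : Measure (ℝ × ℝ)) := by
  have hdet : LinearMap.det Lmap682 ≠ 0 := by rw [det_Lmap682]; norm_num
  rw [Measure.map_linearMap_addHaar_eq_smul_addHaar _ hdet, det_Lmap682]
  congr 1
  have : |(-(1 / 2 : ℝ))⁻¹| = 2 := by norm_num
  rw [this]
  simp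

theorem measurable_Lmap682 : Measurable Lmap682 :=
  (LinearMap.continuous_of_finiteDimensional Lmap682).measurable

theorem integral_comp_Lmap682 (H : ℝ × ℝ → ℂ) (hH : Integrable H volume) :
    Integrable (fun x => H (Lmap682 x)) volume ∧ ∫ x, H (Lmap682 x) = 2 * ∫ x, H x := by
  have hsm : AEStronglyMeasurable H (Measure.map Lmap682 (volume : Measure (ℝ × ℝ))) := by
    rw [map_Lmap682]
    exact hH.aestronglyMeasurable.smul_measure _
  constructor
  · refine (integrable_map_measure hsm measurable_Lmap682.aemeasurable).mp ?_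
    rw [map_Lmap682]
    exact hH.smul_measure (by simp)
  · rw [← integral_map measurable_Lmap682.aemeasurable hsm, map_Lmap682, integral_smul_measure]
    simp

/-! ## 3. The adapter -/

/-- **T6.29.I2**: the Iwasawa integration formula on `GL₂(ℂ)` in the right-`U(2)`-invariant form
of `LT/T6/H830/HCSpec.lean`, from the measure identity of `LT/T6/H189/ArchIntSpec.lean`. -/
theorem iwasawaIntCC_of189 (hU : H189.U2HaarC) (hI : H189.IwasawaCC) : H830.IwasawaIntCC := by
  let mG : MeasurableSpace (GL (Fin 2) ℂ) := borel _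
  have : BorelSpace (GL (Fin 2) ℂ) := ⟨rfl⟩
  obtain ⟨κ, hκ⟩ := hU
  intro μ' hμ'
  obtain ⟨c, hc0, hctop, hμ⟩ := hI κ hκ μ' hμ'
  have : IsProbabilityMeasure κ := ⟨hκ.prob⟩
  refine ⟨c.toReal / 2, div_pos (ENNReal.toReal_pos hc0 hctop) two_pos, ?_⟩
  intro F hFc hFs hFinv
  -- the measure of the Iwasawa coordinates
  set M : Measure (ℝ × ℝ × ℂ × GL (Fin 2) ℂ) :=
    (volume : Measure ℝ).prod ((volume : Measure ℝ).prod ((volume : Measure ℂ).prod κ)) with hM
  have hμM : μ' = c • Measure.map H189.iwaC M := hμ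
  have hiwa : Measurable H189.iwaC := continuous_iwaC682.measurable
  have hFm : AEStronglyMeasurable F (Measure.map H189.iwaC M) := hFc.aestronglyMeasurable
  have hFint : Integrable F μ' := hFc.integrable_of_hasCompactSupport hFs
  have hFint' : Integrable (fun p => F (H189.iwaC p)) M := by
    rw [hμM] at hFint
    exact (integrable_map_measure hFm hiwa.aemeasurable).mp
      ((integrable_smul_measure hc0 hctop).mp hFint)
  have h1 : ∫ g, F g ∂μ' = c.toReal • ∫ p, F (H189.iwaC p) ∂M := by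
    conv_lhs => rw [hμM]
    rw [integral_smul_measure, integral_map hiwa.aemeasurable hFm]
  -- forget `k`
  set Ψ₀ : (ℝ × ℝ) × ℂ → ℂ := fun q => F (H189.dgC q.1.1 q.1.2 * H189.unC q.2) with hΨ₀
  have hΨc : Continuous Ψ₀ :=
    hFc.comp ((continuous_dgC682.comp continuous_fst).mul (continuous_unC682.comp continuous_snd))
  set Q : ℝ × ℝ × ℂ × GL (Fin 2) ℂ → (ℝ × ℝ) × ℂ := fun p => ((p.1, p.2.1), p.2.2.1) with hQ
  have hQm : Measurable Q :=
    (measurable_fst.prodMk (measurable_fst.comp measurable_snd)).prodMk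
      (measurable_fst.comp (measurable_snd.comp measurable_snd))
  have hae : (fun p => F (H189.iwaC p)) =ᵐ[M] fun p => Ψ₀ (Q p) := by
    have hk : ∀ᵐ k ∂κ, k ∈ H189.U2 := by
      rw [ae_iff]
      exact hκ.supp
    have h3 : ∀ᵐ p ∂((volume : Measure ℂ).prod κ), p.2 ∈ H189.U2 :=
      Measure.quasiMeasurePreserving_snd.ae hk
    have h2 : ∀ᵐ p ∂((volume : Measure ℝ).prod ((volume : Measure ℂ).prod κ)),
        p.2.2 ∈ H189.U2 := Measure.quasiMeasurePreserving_snd.ae h3
    have h1' : ∀ᵐ p ∂M, p.2.2.2 ∈ H189.U2 := Measure.quasiMeasurePreserving_snd.ae h2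
    filter_upwards [h1'] with p hp
    exact hFinv p.2.2.2 _ hp
  have hQmap : Measure.map Q M = (volume : Measure ((ℝ × ℝ) × ℂ)) := by
    have e0 : Measure.map Prod.fst ((volume : Measure ℂ).prod κ) = (volume : Measure ℂ) := by
      rw [Measure.map_fst_prod, measure_univ, one_smul]
    have e1 : Measure.map (Prod.map (id : ℝ → ℝ) (Prod.fst : ℂ × GL (Fin 2) ℂ → ℂ))
        ((volume : Measure ℝ).prod ((volume : Measure ℂ).prod κ))
          = (volume : Measure ℝ).prod (volume : Measure ℂ) := by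
      rw [← Measure.map_prod_map _ _ measurable_id measurable_fst, Measure.map_id, e0]
    have e2 : Measure.map (Prod.map (id : ℝ → ℝ)
        (Prod.map (id : ℝ → ℝ) (Prod.fst : ℂ × GL (Fin 2) ℂ → ℂ))) M
          = (volume : Measure ℝ).prod ((volume : Measure ℝ).prod (volume : Measure ℂ)) := by
      rw [hM, ← Measure.map_prod_map _ _ measurable_id (measurable_id.prodMap measurable_fst),
        Measure.map_id, e1]
    have e3 := (measurePreserving_prodAssoc (volume : Measure ℝ) (volume : Measure ℝ)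
      (volume : Measure ℂ)).symm
    have e4 : Q = (MeasurableEquiv.prodAssoc : (ℝ × ℝ) × ℂ ≃ᵐ ℝ × ℝ × ℂ).symm ∘
        (Prod.map (id : ℝ → ℝ) (Prod.map (id : ℝ → ℝ) (Prod.fst : ℂ × GL (Fin 2) ℂ → ℂ))) := by
      funext p
      rfl
    rw [e4, ← Measure.map_map (MeasurableEquiv.prodAssoc.symm.measurable)
      (measurable_id.prodMap (measurable_id.prodMap measurable_fst)), e2, e3.map_eq]
    rfl
  have hΨm : AEStronglyMeasurable Ψ₀ (Measure.map Q M) := hΨc.aestronglyMeasurable
  have h2 : ∫ p, F (H189.iwaC p) ∂M = ∫ q, Ψ₀ q := by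
    have h := integral_map hQm.aemeasurable hΨm
    rw [hQmap] at h
    exact (integral_congr_ae hae).trans h.symm
  have hΨint : Integrable Ψ₀ (volume : Measure ((ℝ × ℝ) × ℂ)) := by
    have h : Integrable Ψ₀ (Measure.map Q M) :=
      (integrable_map_measure hΨm hQm.aemeasurable).mpr (hFint'.congr hae)
    rw [hQmap] at h
    exact h
  -- Fubini
  set H : ℝ × ℝ → ℂ := fun u => ∫ w, Ψ₀ (u, w) with hH
  have hHint : Integrable H (volume : Measure (ℝ × ℝ)) := hΨint.integral_prod_left
  have h3 : ∫ q, Ψ₀ q = ∫ u, H u := integral_prod Ψ₀ hΨint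
  -- change of variables
  obtain ⟨hHL, h4⟩ := integral_comp_Lmap682 H hHint
  have h5 : ∫ x, H (Lmap682 x) = ∫ ζ, ∫ r, H (Lmap682 (ζ, r)) :=
    integral_prod (fun x => H (Lmap682 x)) hHL
  have h6 : ∀ ζ r : ℝ, H (Lmap682 (ζ, r)) = ∫ w, F (H830.bC ζ r w) := by
    intro ζ r
    simp only [hH, hΨ₀, Lmap_apply682, bC_eq682]
  have h5' : ∫ x, H (Lmap682 x) = ∫ ζ : ℝ, ∫ r : ℝ, ∫ w : ℂ, F (H830.bC ζ r w) := by
    rw [h5]
    simp_rw [h6]
  show ∫ g, F g ∂μ' = ((c.toReal / 2 : ℝ) : ℂ) * ∫ ζ : ℝ, ∫ r : ℝ, ∫ w : ℂ, F (H830.bC ζ r w)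
  rw [h1, h2, h3, ← h5']
  have h7 : ∫ u, H u = (1 / 2 : ℂ) * ∫ x, H (Lmap682 x) := by
    rw [h4]
    ring
  rw [h7, Complex.real_smul]
  push_cast
  ring

end Fermat.Agent.LT.T6.H682

end

end
-- ===== PACK-END LT/T6/H682/IwasawaIntC.lean

-- ===== PACK-BEGIN LT/T6/H964/AbelInj.lean
section


/-!
# Row LT, tower T6: INJECTIVITY of the Abel transform on continuous functions
(helper964, OFF-MAIN, Mathlib only)

`abelT_eq_zero_imp964` : `g` continuous, vanishing above `R`, `(A g)(ρ) = 0` for all `ρ ≥ a`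
`⟹ g = 0` on `[a, ∞)`.  (No differentiability of `g`: the inversion formula is applied to the
primitive `P(x) = ∫_x^R g`, `A (A P') = -π P`.)
-/

set_option autoImplicit false

open MeasureTheory Set Filter Topology Real
open scoped ContDiff

noncomputable section

namespace Fermat.Agent.LT.T6.H964

/-- The primitive `P(x) = ∫_x^R g`. -/
def prim964 (R : ℝ) (g : ℝ → ℂ) (x : ℝ) : ℂ := ∫ t in x..R, g t

theorem hasDerivAt_prim964 {g : ℝ → ℂ} (hg : Continuous g) (R x : ℝ) :
    HasDerivAt (prim964 R g) (-g x) x :=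
  intervalIntegral.integral_hasDerivAt_left (hg.intervalIntegrable _ _)
    (hg.stronglyMeasurableAtFilter _ _) hg.continuousAt

theorem deriv_prim964 {g : ℝ → ℂ} (hg : Continuous g) (R : ℝ) :
    deriv (prim964 R g) = fun x => -g x :=
  funext fun x => (hasDerivAt_prim964 hg R x).deriv

theorem contDiff_prim964 {g : ℝ → ℂ} (hg : Continuous g) (R : ℝ) :
    ContDiff ℝ 1 (prim964 R g) := by
  rw [contDiff_one_iff_deriv]
  refine ⟨fun x => (hasDerivAt_prim964 hg R x).differentiableAt, ?_⟩
  rw [deriv_prim964 hg R]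
  exact hg.neg

theorem prim_vanishesAbove964 {R : ℝ} {g : ℝ → ℂ} (hv : VanishesAbove964 R g) :
    VanishesAbove964 R (prim964 R g) := by
  intro x hx
  unfold prim964
  rw [intervalIntegral.integral_symm, intervalIntegral.integral_of_le hx.le,
    setIntegral_eq_zero_of_forall_eq_zero (fun t ht => hv t ht.1), neg_zero]

theorem abelT_neg964 (g : ℝ → ℂ) (r : ℝ) : abelT964 (fun x => -g x) r = -abelT964 g r := by
  unfold abelT964
  exact integral_neg _

/-- **Injectivity of the Abel transform** on continuous functions vanishing near `+∞`. -/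
theorem abelT_eq_zero_imp964 {R a : ℝ} {g : ℝ → ℂ} (hg : Continuous g)
    (hv : VanishesAbove964 R g) (h0 : ∀ ρ, a ≤ ρ → abelT964 g ρ = 0) :
    ∀ ρ, a ≤ ρ → g ρ = 0 := by
  have hP1 := contDiff_prim964 hg R
  have hPv := prim_vanishesAbove964 hv
  have hd := deriv_prim964 hg R
  have hP0 : ∀ ρ, a ≤ ρ → prim964 R g ρ = (fun _ : ℝ => (0 : ℂ)) ρ := by
    intro ρ hρ
    have h1 := abelT_abelT_deriv964 hP1 hPv ρ
    have h2 : abelT964 (abelT964 (deriv (prim964 R g))) ρ = 0 := by
      have e : ∀ x, a ≤ x → abelT964 (deriv (prim964 R g)) x = (fun _ : ℝ => (0 : ℂ)) x := by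
        intro x hx
        rw [hd, abelT_neg964, h0 x hx, neg_zero]
      rw [abelT_congr_Ici964 e ρ hρ]
      unfold abelT964
      simp
    rw [h2] at h1
    have hπ : (π : ℂ) ≠ 0 := by exact_mod_cast Real.pi_ne_zero
    have h3 : (π : ℂ) * prim964 R g ρ = 0 := by linear_combination h1
    rcases mul_eq_zero.mp h3 with h | h
    · exact absurd h hπ
    · exact h
  intro ρ hρ
  have h3 := deriv_eq_of_eqOn_Ici964 (h := prim964 R g) (h' := fun _ => (0 : ℂ))
    (hasDerivAt_prim964 hg R ρ).differentiableAt (differentiableAt_const _) hP0 hρ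
  rw [hd] at h3
  simpa using h3

end Fermat.Agent.LT.T6.H964

end
end
-- ===== PACK-END LT/T6/H964/AbelInj.lean

-- ===== PACK-BEGIN LT/H670/QOut/ClassN.lean
section



/-!
# Row LT, T7.QOUT (helper670): leaf `QN` PROVED (classical normalisation and untwisting)

`qN : QN`.  OFF-MAIN.
-/

set_option autoImplicit false

open UpperHalfPlane ModularForm CongruenceSubgroup Matrix.SpecialLinearGroup ModularFormClass
open scoped MatrixGroups ModularForm Manifold

namespace Fermat.Agent.LT.H670.QOut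

noncomputable section

open Fermat.Agent.LT.H556 Fermat.Agent.LT.H670

/-- the `q`-expansion of a cusp form on `Γ₁(M)` -/
theorem hasSum_qCoeff_Gamma1 {M : ℕ} {k : ℤ} (G : CuspForm (Gamma1 M) k) (τ : ℍ) :
    HasSum (fun n : ℕ => qCoeff G n • Function.Periodic.qParam 1 (τ : ℂ) ^ n) (G τ) := by
  have : Fact (IsCusp OnePoint.infty (Subgroup.map (mapGL ℝ) (Gamma1 M))) :=
    ⟨Subgroup.isCusp_of_mem_strictPeriods one_pos (one_mem_strictPeriods_Gamma1_map M)⟩
  exact ModularForm.hasSum_qExpansion (f := G) one_pos (one_mem_strictPeriods_Gamma1_map M) τ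

theorem qCoeff_zero_Gamma1 {M : ℕ} {k : ℤ} (G : CuspForm (Gamma1 M) k) : qCoeff G 0 = 0 := by
  have : Fact (IsCusp OnePoint.infty (Subgroup.map (mapGL ℝ) (Gamma1 M))) :=
    ⟨Subgroup.isCusp_of_mem_strictPeriods one_pos (one_mem_strictPeriods_Gamma1_map M)⟩
  exact CuspFormClass.qExpansion_coeff_zero G one_pos (one_mem_strictPeriods_Gamma1_map M)

theorem qCoeff_smul_Gamma1 {M : ℕ} {k : ℤ} (c : ℂ) (G : CuspForm (Gamma1 M) k) (n : ℕ) :
    qCoeff (⇑(c • G : CuspForm (Gamma1 M) k)) n = c * qCoeff G n := by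
  have key : ∀ τ : ℍ, HasSum
      (fun n : ℕ => (c * qCoeff G n) • Function.Periodic.qParam 1 (τ : ℂ) ^ n)
      ((c • G : CuspForm (Gamma1 M) k) τ) := by
    intro τ
    have h := (hasSum_qCoeff_Gamma1 G τ).mul_left c
    have e : (c • G : CuspForm (Gamma1 M) k) τ = c * G τ := by
      rfl
    rw [e]
    refine h.congr_fun ?_
    intro n
    simp only [smul_eq_mul]
    ring
  exact (ModularFormClass.qExpansion_coeff_unique one_pos
    (one_mem_strictPeriods_Gamma1_map M) (f := (c • G : CuspForm (Gamma1 M) k)) key n).symm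

/-- a nonzero cusp form has a nonzero coefficient of positive index -/
theorem exists_qCoeff_ne_zero {M : ℕ} {k : ℤ} (G : CuspForm (Gamma1 M) k) (hG : G ≠ 0) :
    ∃ m : ℕ, m ≠ 0 ∧ qCoeff G m ≠ 0 := by
  by_contra hcon0
  have hcon : ∀ m : ℕ, m ≠ 0 → qCoeff G m = 0 := fun m hm =>
    by_contra fun h => hcon0 ⟨m, hm, h⟩
  apply hG
  have hall : ∀ n : ℕ, qCoeff G n = 0 := by
    intro n
    rcases Nat.eq_zero_or_pos n with rfl | hn
    · exact qCoeff_zero_Gamma1 G
    · exact hcon n hn.ne'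
  ext τ
  have h := hasSum_qCoeff_Gamma1 G τ
  have h0 : HasSum (fun n : ℕ => qCoeff G n • Function.Periodic.qParam 1 (τ : ℂ) ^ n) 0 := by
    have : (fun n : ℕ => qCoeff G n • Function.Periodic.qParam 1 (τ : ℂ) ^ n) = fun _ => 0 := by
      funext n
      rw [hall n, zero_smul]
    rw [this]
    exact hasSum_zero
  exact h.unique h0

/-- factorisation `m = m₀ m₁`, the primes of `m₀` dividing `M`, `m₁` prime to `M` -/
theorem exists_factor_level (M : ℕ) : ∀ m : ℕ, m ≠ 0 →
    ∃ m₀ m₁ : ℕ, m = m₀ * m₁ ∧ m₀ ≠ 0 ∧ (∀ q : ℕ, q.Prime → q ∣ m₀ → q ∣ M) ∧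
      Nat.Coprime m₁ M := by
  intro m
  induction m using Nat.strong_induction_on with
  | _ m ih =>
    intro hm
    by_cases hc : Nat.Coprime m M
    · exact ⟨1, m, (one_mul m).symm, one_ne_zero,
        fun q hq h1 => absurd (Nat.dvd_one.mp h1) hq.ne_one, hc⟩
    · obtain ⟨p, hp, hpm, hpM⟩ := Nat.Prime.not_coprime_iff_dvd.mp hc
      obtain ⟨m', rfl⟩ := hpm
      have hm'0 : m' ≠ 0 := by
        rintro rfl
        exact hm (mul_zero p)
      have hlt : m' < p * m' := by
        calc m' = 1 * m' := (one_mul _).symm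
          _ < p * m' := Nat.mul_lt_mul_of_pos_right hp.one_lt (Nat.pos_of_ne_zero hm'0)
      obtain ⟨m₀, m₁, h1, h2, h3, h4⟩ := ih m' hlt hm'0
      refine ⟨p * m₀, m₁, by rw [h1, mul_assoc], mul_ne_zero hp.ne_zero h2, ?_, h4⟩
      intro q hq hqd
      rcases (Nat.Prime.dvd_mul hq).mp hqd with h | h
      · rw [(Nat.prime_dvd_prime_iff_eq hq hp).mp h]
        exact hpM
      · exact h3 q hq h

/-- if `c_{m₀} = 0` then `c_{m₀ n} = 0` for all `n` prime to `M` -/
theorem coeff_vanish_of_twisted (M : ℕ) (α β : DirichletCharacter ℂ M) (a b : Nat.Primes → ℂ)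
    (G : CuspForm (Gamma1 M) 1) (hrel : TwistedEigen M α β a b G) (m₀ : ℕ)
    (hm₀ : ∀ q : ℕ, q.Prime → q ∣ m₀ → q ∣ M) (h0 : qCoeff G m₀ = 0) :
    ∀ n : ℕ, Nat.Coprime n M → qCoeff G (m₀ * n) = 0 := by
  intro n
  induction n using Nat.strong_induction_on with
  | _ n ih =>
    intro hn
    by_cases h1 : n = 1
    · rw [h1, mul_one]
      exact h0
    · have hp := Nat.minFac_prime h1
      obtain ⟨n', hn'⟩ := Nat.minFac_dvd n
      set p := n.minFac with hpdef
      have hpM : ¬ p ∣ M := by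
        intro hpM
        have : p ∣ Nat.gcd n M := Nat.dvd_gcd (Nat.minFac_dvd n) hpM
        rw [hn] at this
        exact hp.one_lt.ne' (Nat.dvd_one.mp this)
      have hn'c : Nat.Coprime n' M := Nat.Coprime.coprime_dvd_left ⟨p, by rw [hn', mul_comm]⟩ hn
      rcases Nat.eq_zero_or_pos n' with h0' | hpos
      · rw [hn', h0', mul_zero, mul_zero]
        exact qCoeff_zero_Gamma1 G
      have hlt : n' < n := by
        calc n' = 1 * n' := (one_mul _).symm
          _ < p * n' := Nat.mul_lt_mul_of_pos_right hp.one_lt hpos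
          _ = n := hn'.symm
      have hrelp := (hrel ⟨p, hp⟩ hpM).1 (m₀ * n')
      have e1 : qCoeff G (m₀ * n') = 0 := ih n' hlt hn'c
      have hpm₀ : ¬ p ∣ m₀ := fun h => hpM (hm₀ p hp h)
      have e2 : (if p ∣ m₀ * n' then qCoeff G (m₀ * n' / p) else 0) = 0 := by
        split_ifs with hd
        · rcases (Nat.Prime.dvd_mul hp).mp hd with h | h
          · exact absurd h hpm₀
          · obtain ⟨n'', hn''⟩ := h
            have hn''c : Nat.Coprime n'' M :=
              Nat.Coprime.coprime_dvd_left ⟨p, by rw [hn'', mul_comm]⟩ hn'c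
            have hlt2 : n'' < n := by
              rcases Nat.eq_zero_or_pos n'' with h0'' | hpos''
              · rw [h0'']; exact lt_of_le_of_lt (Nat.zero_le _) hlt
              · calc n'' = 1 * n'' := (one_mul _).symm
                  _ < p * n'' := Nat.mul_lt_mul_of_pos_right hp.one_lt hpos''
                  _ = n' := hn''.symm
                  _ < n := hlt
            have : m₀ * n' / p = m₀ * n'' := by
              rw [hn'', ← mul_assoc, mul_comm m₀ p, mul_assoc, Nat.mul_div_cancel_left _ hp.pos]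
            rw [this]
            exact ih n'' hlt2 hn''c
        · rfl
      simp only [e1, mul_zero] at hrelp
      change qCoeff G (p * (m₀ * n')) + _ * (if p ∣ m₀ * n' then qCoeff G (m₀ * n' / p) else 0)
        = 0 at hrelp
      rw [e2, mul_zero, add_zero] at hrelp
      have : m₀ * n = p * (m₀ * n') := by rw [hn']; ring
      rw [this]
      exact hrelp

/-- **Leaf QN: PROVED.** -/
theorem qN : QN := by
  intro M hM α β a b G hG hrel
  have : NeZero M := hM
  obtain ⟨m, hm, hcm⟩ := exists_qCoeff_ne_zero G hG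
  obtain ⟨m₀, m₁, hmm, hm₀0, hm₀, hm₁⟩ := exists_factor_level M m hm
  have hc0 : qCoeff G m₀ ≠ 0 := by
    intro h0
    apply hcm
    rw [hmm]
    exact coeff_vanish_of_twisted M α β a b G hrel m₀ hm₀ h0 m₁ hm₁
  obtain ⟨G₁, hG₁⟩ := exists_U_Gamma1 M 1 G m₀ hm₀0 hm₀
  obtain ⟨G₂, hG₂⟩ := exists_twist_Gamma1 M M 1 G₁ (fun x => (α x)⁻¹)
  have hMN : M ∣ M * M ^ 2 := Dvd.intro _ rfl
  have hNne : NeZero (M * M ^ 2) := ⟨mul_ne_zero (NeZero.ne M) (pow_ne_zero 2 (NeZero.ne M))⟩
  set c : ℂ := qCoeff G m₀ with hc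
  -- the coefficients of the normalised untwisted form
  have hcf : ∀ n : ℕ, qCoeff (⇑(c⁻¹ • G₂ : CuspForm (Gamma1 (M * M ^ 2)) 1)) n
      = c⁻¹ * ((α ((n : ℕ) : ZMod M))⁻¹ * qCoeff G (n * m₀)) := by
    intro n
    rw [qCoeff_smul_Gamma1, hG₂, hG₁]
  -- facts at a prime not dividing the level
  have hprime : ∀ p : ℕ, p.Prime → ¬ p ∣ M * M ^ 2 →
      ¬ p ∣ M ∧ α ((p : ℕ) : ZMod M) ≠ 0 ∧ ¬ p ∣ m₀ ∧
        (DirichletCharacter.changeLevel hMN (β * α⁻¹ * α⁻¹)) ((p : ℕ) : ZMod (M * M ^ 2))
          = β ((p : ℕ) : ZMod M) * (α ((p : ℕ) : ZMod M))⁻¹ * (α ((p : ℕ) : ZMod M))⁻¹ := by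
    intro p hp hpN
    have hpM : ¬ p ∣ M := fun h => hpN (h.trans hMN)
    have hcop : Nat.Coprime p M := (Nat.Prime.coprime_iff_not_dvd hp).mpr hpM
    have hu : IsUnit ((p : ℕ) : ZMod M) := (ZMod.isUnit_iff_coprime p M).mpr hcop
    refine ⟨hpM, (IsUnit.map α hu).ne_zero, fun h => hpM (hm₀ p hp h), ?_⟩
    have hcopN : IsCoprime ((p : ℕ) : ℤ) ((M * M ^ 2 : ℕ) : ℤ) :=
      Nat.isCoprime_iff_coprime.mpr ((Nat.Prime.coprime_iff_not_dvd hp).mpr hpN)
    have h := DirichletCharacter.changeLevel_eq_cast_of_dvd' (β * α⁻¹ * α⁻¹) hMN hcopN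
    simp only [Int.cast_natCast] at h
    rw [h, MulChar.mul_apply, MulChar.mul_apply, MulChar.inv_apply_eq_inv']
  refine ⟨M * M ^ 2, hNne, DirichletCharacter.changeLevel hMN (β * α⁻¹ * α⁻¹), c⁻¹ • G₂,
    ⟨?_, ?_⟩, ?_⟩
  · -- normalised
    rw [hcf 1, one_mul, Nat.cast_one, map_one, inv_one, one_mul]
    exact inv_mul_cancel₀ hc0
  · -- the Hecke relations
    intro p hp hpN n
    obtain ⟨hpM, hα, hpm₀, hε⟩ := hprime p hp hpN
    have hr := (hrel ⟨p, hp⟩ hpM).1
    have hrn := hr (n * m₀)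
    have hr1 := hr m₀
    simp only [] at hrn hr1
    change qCoeff G (p * (n * m₀)) + β ((p : ℕ) : ZMod M) *
      (if p ∣ n * m₀ then qCoeff G (n * m₀ / p) else 0)
        = α ((p : ℕ) : ZMod M) * a ⟨p, hp⟩ * qCoeff G (n * m₀) at hrn
    change qCoeff G (p * m₀) + β ((p : ℕ) : ZMod M) *
      (if p ∣ m₀ then qCoeff G (m₀ / p) else 0)
        = α ((p : ℕ) : ZMod M) * a ⟨p, hp⟩ * qCoeff G m₀ at hr1
    rw [if_neg hpm₀, mul_zero, add_zero, ← hc] at hr1
    have hfp : qCoeff (⇑(c⁻¹ • G₂ : CuspForm (Gamma1 (M * M ^ 2)) 1)) p = a ⟨p, hp⟩ := by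
      rw [hcf p, hr1]
      field_simp
    rw [hfp, hε, hcf (p * n), hcf n]
    have e1 : p * n * m₀ = p * (n * m₀) := mul_assoc _ _ _
    rw [e1]
    have hC : qCoeff G (p * (n * m₀)) = α ((p : ℕ) : ZMod M) * a ⟨p, hp⟩ * qCoeff G (n * m₀)
        - β ((p : ℕ) : ZMod M) * (if p ∣ n * m₀ then qCoeff G (n * m₀ / p) else 0) := by
      rw [← hrn]; ring
    rw [hC]
    have hαmul : α (((p * n : ℕ) : ℕ) : ZMod M)
        = α ((p : ℕ) : ZMod M) * α ((n : ℕ) : ZMod M) := by
      rw [Nat.cast_mul, map_mul]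
    rw [hαmul]
    by_cases hd : p ∣ n
    · obtain ⟨n'', rfl⟩ := hd
      have hd' : p ∣ p * n'' * m₀ := Dvd.dvd.mul_right (Dvd.intro _ rfl) _
      rw [if_pos (Dvd.intro _ rfl), if_pos hd', Nat.mul_div_cancel_left _ hp.pos, hcf n'']
      have : p * n'' * m₀ / p = n'' * m₀ := by
        rw [mul_assoc, Nat.mul_div_cancel_left _ hp.pos]
      rw [this]
      have hαmul2 : α (((p * n'' : ℕ) : ℕ) : ZMod M)
          = α ((p : ℕ) : ZMod M) * α ((n'' : ℕ) : ZMod M) := by
        rw [Nat.cast_mul, map_mul]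
      rw [hαmul2]
      rw [mul_inv, mul_inv]
      field_simp
      ring
    · have hd' : ¬ p ∣ n * m₀ := by
        intro h
        rcases (Nat.Prime.dvd_mul hp).mp h with h | h
        · exact hd h
        · exact hpm₀ h
      rw [if_neg hd, if_neg hd', mul_zero, mul_zero, add_zero, sub_zero, mul_inv]
      field_simp
  · -- the eigenvalues
    intro p hpN
    obtain ⟨hpM, hα, hpm₀, hε⟩ := hprime p p.2 hpN
    have hr := (hrel p hpM)
    have hr1 := hr.1 m₀
    change qCoeff G (p * m₀) + β (((p : ℕ) : ℕ) : ZMod M) *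
      (if (p : ℕ) ∣ m₀ then qCoeff G (m₀ / p) else 0)
        = α (((p : ℕ) : ℕ) : ZMod M) * a p * qCoeff G m₀ at hr1
    rw [if_neg hpm₀, mul_zero, add_zero, ← hc] at hr1
    refine ⟨?_, ?_⟩
    · rw [hcf p, hr1]
      field_simp
    · rw [hε, hr.2]
      field_simp

end

end Fermat.Agent.LT.H670.QOut

end
-- ===== PACK-END LT/H670/QOut/ClassN.lean

-- ===== PACK-BEGIN LT/T1/H930/AdeleAutT5.lean
section



/-!
# Row LT: the adapter AUT-PRESERVES (helper930) — `T5.AutPreserves` for every field automorphism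

OFF-MAIN.  Imports parts 1–3 of T1.AUT (`AdeleAut`, `AdeleAutGL`, `AdeleAutArch`), helper556's
frozen `A0.lean` and helper32's frozen `T5/Spec.lean` v3 (sha256 d6f8b00ae5f14ad1) only.

* `adelicAut930 σ : T5.AdelicAut K` — the field automorphism `σ` with `adeleEquiv930 σ`.
* `autPreserves930` : for `σ`-stable `𝔫`, every Haar measure `μ` of `GL₂(𝔸_K)` and every ray
  generator `r`:  `T5.AutPreserves (adelicAut930 σ) 𝔫 μ r`
  (hypotheses: `LocallyCompactSpace (G K)`, `SecondCountableTopology (G K)` = part of `T1.LocCompC`).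
  - `measure` : the Haar character `σ ↦ mulEquivHaarChar (glAdeleCME930 σ)` is a character of
    the FINITE group `Aut(K)` with values in `ℝ≥0`, hence trivial (`haarCharHom930`,
    `mulEquivHaarChar_glAdeleCME930`);
  - `slab` : `adNorm_adeleEquiv930 : adNorm (adeleEquiv930 σ x) = adNorm x` (the local maps are
    isometries, `N(σ⁻¹ v) = N(v)`, reindexing of the products over the places);
  - `ray` : `glAdeleEquiv930_rayGen`; `level`, `arch` : parts 2 and 3.
* `exists_adelicAut930` : the existence form (`T1_AutExists` of the T5 interface).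
-/

set_option autoImplicit false

open IsDedekindDomain NumberField InfinitePlace MeasureTheory
open scoped MatrixGroups NNReal

noncomputable section

namespace Fermat.Agent.LT.T1.H930

open Fermat.Agent.LT.H556 Fermat.Agent.LT

variable {K : Type} [Field K] [NumberField K]

/-! ## The instance of `T5.AdelicAut` -/

/-- The adelic automorphism of a field automorphism, as a `T5.AdelicAut`. -/
def adelicAut930 (σ : K ≃+* K) : T5.AdelicAut K where
  σ := σ
  σA := adeleEquiv930 σ
  continuous_σA := continuous_adeleEquiv930 σ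
  continuous_symm := continuous_adeleEquiv930 σ.symm
  compat := adeleEquiv930_algebraMap σ

theorem adelicAut930_onG (σ : K ≃+* K) (g : A0.G K) :
    (adelicAut930 σ).onG g = glAdeleEquiv930 σ g := by
  apply Units.ext
  rfl

theorem adelicAut930_onGinv (σ : K ≃+* K) (g : A0.G K) :
    (adelicAut930 σ).onGinv g = glAdeleEquiv930 σ.symm g := by
  apply Units.ext
  rfl

/-! ## Finite order -/

instance finite_ringAut930 : Finite (K ≃+* K) := by
  obtain ⟨ι⟩ : Nonempty (K →+* ℂ) := inferInstance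
  refine Finite.of_injective (fun σ : K ≃+* K => ι.comp (σ : K →+* K)) ?_
  intro σ τ h
  ext x
  have := congrArg (fun f : K →+* ℂ => f x) h
  exact ι.injective this

theorem exists_pow_eq_one930 (σ : K ≃+* K) : ∃ n : ℕ, 0 < n ∧ (σ : RingAut K) ^ n = 1 :=
  isOfFinOrder_iff_pow_eq_one.1 (isOfFinOrder_of_finite (σ : RingAut K))

/-! ## The Haar character -/

/-- `glAdeleEquiv930 σ` as a continuous multiplicative equivalence. -/
def glAdeleCME930 (σ : K ≃+* K) : A0.G K ≃ₜ* A0.G K where
  toMulEquiv := glAdeleEquiv930 σ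
  continuous_toFun := continuous_glAdeleEquiv930 σ
  continuous_invFun := continuous_glAdeleEquiv930 σ.symm

theorem glAdeleCME930_apply (σ : K ≃+* K) (g : A0.G K) :
    glAdeleCME930 σ g = glAdeleEquiv930 σ g := rfl

theorem glAdeleEquiv930_refl (g : A0.G K) : glAdeleEquiv930 (RingEquiv.refl K) g = g := by
  apply Units.ext
  refine Matrix.ext fun i j => ?_
  rw [glAdeleEquiv930_val]
  exact adeleEquiv930_refl _

theorem glAdeleEquiv930_trans (σ τ : K ≃+* K) (g : A0.G K) :
    glAdeleEquiv930 (σ.trans τ) g = glAdeleEquiv930 τ (glAdeleEquiv930 σ g) := by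
  apply Units.ext
  refine Matrix.ext fun i j => ?_
  rw [glAdeleEquiv930_val, glAdeleEquiv930_val, glAdeleEquiv930_val]
  exact adeleEquiv930_trans σ τ _

theorem glAdeleCME930_refl : glAdeleCME930 (RingEquiv.refl K) = ContinuousMulEquiv.refl (A0.G K) :=
  ContinuousMulEquiv.ext fun g => glAdeleEquiv930_refl g

theorem glAdeleCME930_trans (σ τ : K ≃+* K) :
    glAdeleCME930 (σ.trans τ) = (glAdeleCME930 σ).trans (glAdeleCME930 τ) :=
  ContinuousMulEquiv.ext fun g => glAdeleEquiv930_trans σ τ g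

section haar

variable [LocallyCompactSpace (A0.G K)]

attribute [local instance] Fermat.Agent.LT.T5.instMeasurableSpaceG

instance borelSpace_G930 : BorelSpace (A0.G K) := ⟨rfl⟩

/-- The Haar character of the action of `Aut(K)` on `GL₂(𝔸_K)`. -/
def haarCharHom930 : RingAut K →* ℝ≥0 where
  toFun σ := mulEquivHaarChar (glAdeleCME930 σ)
  map_one' := by
    show mulEquivHaarChar (glAdeleCME930 (RingEquiv.refl K)) = 1
    rw [glAdeleCME930_refl, mulEquivHaarChar_refl]
  map_mul' σ τ := by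
    show mulEquivHaarChar (glAdeleCME930 (τ.trans σ)) = _
    rw [glAdeleCME930_trans, mulEquivHaarChar_trans, mul_comm]

theorem mulEquivHaarChar_glAdeleCME930 (σ : K ≃+* K) :
    mulEquivHaarChar (glAdeleCME930 σ) = 1 := by
  obtain ⟨n, hn, h⟩ := exists_pow_eq_one930 σ
  have h1 : haarCharHom930 (σ : RingAut K) ^ n = 1 := by
    rw [← map_pow, h, map_one]
  exact (pow_eq_one_iff.1 h1).resolve_right hn.ne'

end haar


/-! ## The adelic norm -/

theorem toNNReal_congr930 {a b : ℝ≥0} (ha : a ≠ 0) (hb : b ≠ 0) (h : a = b)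
    (x : WithZero (Multiplicative ℤ)) :
    WithZeroMulInt.toNNReal ha x = WithZeroMulInt.toNNReal hb x := by
  subst h
  rfl

theorem norm_finMapEquiv930 (σ : K ≃+* K) (w : HeightOneSpectrum (𝓞 K))
    (x : (finPull930 σ w).adicCompletion K) : ‖finMapEquiv930 σ w x‖ = ‖x‖ := by
  rw [FinitePlace.norm_def, FinitePlace.norm_def, valued_finMapEquiv930]
  congr 1
  exact toNNReal_congr930 _ _ (by rw [absNorm_finPull930]) _

omit [NumberField K] in
theorem norm_infMapHom930 (σ : K ≃+* K) (w : InfinitePlace K)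
    (x : (infPull930 σ w).Completion) : ‖infMapHom930 σ w x‖ = ‖x‖ := by
  have := (isometry_infMapHom930 σ w).dist_eq x 0
  rwa [map_zero, dist_zero_right, dist_zero_right] at this

omit [NumberField K] in
theorem mult_infPull930 (σ : K ≃+* K) (w : InfinitePlace K) :
    (infPull930 σ w).mult = w.mult := by
  by_cases h : w.IsReal
  · rw [IsReal.mult_eq_one h, IsReal.mult_eq_one ((isReal_infPull930 σ w).2 h)]
  · have h' : ¬ (infPull930 σ w).IsReal := fun hh => h ((isReal_infPull930 σ w).1 hh)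
    rw [IsComplex.mult_eq_two (not_isReal_iff_isComplex.1 h),
      IsComplex.mult_eq_two (not_isReal_iff_isComplex.1 h')]

theorem adNorm_adeleEquiv930 (σ : K ≃+* K) (x : A0.Adl K) :
    T5.adNorm (adeleEquiv930 σ x) = T5.adNorm x := by
  unfold T5.adNorm
  congr 1
  · have h1 : ∀ w : InfinitePlace K, ‖(adeleEquiv930 σ x).1 w‖ ^ w.mult
        = (fun v : InfinitePlace K => ‖x.1 v‖ ^ v.mult) (infPullEquiv930 σ w) := by
      intro w
      show ‖(adeleEquiv930 σ x).1 w‖ ^ w.mult = ‖x.1 (infPull930 σ w)‖ ^ (infPull930 σ w).mult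
      rw [adeleEquiv930_fst, norm_infMapHom930, mult_infPull930]
    rw [Finset.prod_congr rfl fun w _ => h1 w]
    exact Equiv.prod_comp (infPullEquiv930 σ) (fun v : InfinitePlace K => ‖x.1 v‖ ^ v.mult)
  · have h2 : ∀ w : HeightOneSpectrum (𝓞 K), ‖(adeleEquiv930 σ x).2 w‖
        = (fun v : HeightOneSpectrum (𝓞 K) => ‖x.2 v‖) (finPullEquiv930 σ w) := by
      intro w
      show ‖(adeleEquiv930 σ x).2 w‖ = ‖x.2 (finPull930 σ w)‖
      rw [adeleEquiv930_snd, norm_finMapEquiv930]
    rw [finprod_congr h2]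
    exact finprod_comp_equiv (finPullEquiv930 σ) (f := fun v : HeightOneSpectrum (𝓞 K) => ‖x.2 v‖)

theorem det_glAdeleEquiv930 (σ : K ≃+* K) (g : A0.G K) :
    Matrix.det ((glAdeleEquiv930 σ g : A0.G K) : Matrix (Fin 2) (Fin 2) (A0.Adl K))
      = adeleEquiv930 σ (Matrix.det (g : Matrix (Fin 2) (Fin 2) (A0.Adl K))) :=
  (RingHom.map_det (adeleEquiv930 σ).toRingHom _).symm

theorem mem_slab_glAdeleEquiv930 (σ : K ≃+* K) (g : A0.G K) :
    glAdeleEquiv930 σ g ∈ T5.slab K ↔ g ∈ T5.slab K := by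
  unfold T5.slab
  simp only [Set.mem_ofPred_eq]
  rw [det_glAdeleEquiv930, adNorm_adeleEquiv930]


/-! ## The ray generator -/

theorem glAdeleEquiv930_rayGen (σ : K ≃+* K) (r : A0.G K) (hr : T5.IsRayGen r) :
    glAdeleEquiv930 σ r = r := by
  obtain ⟨hfin, t, _, _, hinf⟩ := hr
  apply Units.ext
  refine Matrix.ext fun i j => ?_
  rw [glAdeleEquiv930_val]
  refine Prod.ext (funext fun w => ?_) (FiniteAdeleRing.ext K fun v => ?_)
  · rw [adeleEquiv930_fst]
    apply (Completion.extensionEmbedding w).injective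
    rw [extensionEmbedding_infMapHom930]
    have h1 : Completion.extensionEmbedding (infPull930 σ w)
        (((r : Matrix (Fin 2) (Fin 2) (A0.Adl K)) i j).1 (infPull930 σ w))
        = A0.infComp (infPull930 σ w) r i j := rfl
    have h2 : Completion.extensionEmbedding w
        (((r : Matrix (Fin 2) (Fin 2) (A0.Adl K)) i j).1 w) = A0.infComp w r i j := rfl
    rw [h1, h2, hinf, hinf, Matrix.diagonal_apply]
    split_ifs
    · exact infConj930_ofReal σ w t
    · exact map_zero _
  · rw [adeleEquiv930_snd]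
    have h1 : ((r : Matrix (Fin 2) (Fin 2) (A0.Adl K)) i j).2 (finPull930 σ v)
        = A0.finComp (finPull930 σ v) r i j := rfl
    have h2 : ((r : Matrix (Fin 2) (Fin 2) (A0.Adl K)) i j).2 v = A0.finComp v r i j := rfl
    rw [h1, h2, hfin (finPull930 σ v), hfin v, Matrix.one_apply, Matrix.one_apply]
    split_ifs <;> simp

/-! ## `T5.AutPreserves` -/

section preserves

variable [LocallyCompactSpace (A0.G K)] [SecondCountableTopology (A0.G K)]

attribute [local instance] Fermat.Agent.LT.T5.instMeasurableSpaceG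

theorem measure_preimage_glAdeleEquiv930 (σ : K ≃+* K) (μ : Measure (A0.G K))
    [μ.IsHaarMeasure] (A : Set (A0.G K)) :
    μ (glAdeleEquiv930 σ ⁻¹' A) = μ A := by
  have h := mulEquivHaarChar_smul_preimage μ (X := A) (glAdeleCME930 σ)
  rw [mulEquivHaarChar_glAdeleCME930, one_smul] at h
  exact h

/-- **The adapter AUT-PRESERVES.**  For every automorphism `σ` of the number field `K`, every
`σ`-stable level `𝔫`, every Haar measure `μ` of `GL₂(𝔸_K)` and every ray generator `r`, the
adelic automorphism `adelicAut930 σ` preserves the frame of T5. -/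
theorem autPreserves930 (σ : K ≃+* K) (𝔫 : Ideal (𝓞 K))
    (h𝔫 : 𝔫.map (RingOfIntegers.mapRingEquiv σ) = 𝔫) (μ : Measure (A0.G K))
    (hμ : μ.IsHaarMeasure) (r : A0.G K) (hr : T5.IsRayGen r) :
    T5.AutPreserves (adelicAut930 σ) 𝔫 μ r where
  left_inverse g := by
    rw [adelicAut930_onG, adelicAut930_onGinv]
    exact glAdeleEquiv930_symm_apply_apply σ g
  right_inverse g := by
    rw [adelicAut930_onG, adelicAut930_onGinv]
    exact glAdeleEquiv930_apply_symm_apply σ g
  rat γ := by
    rw [adelicAut930_onG]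
    exact glAdeleEquiv930_map_algebraMap σ γ
  cont := by
    have : ((adelicAut930 σ).onG : A0.G K → A0.G K) = glAdeleEquiv930 σ :=
      funext fun g => adelicAut930_onG σ g
    rw [this]
    exact continuous_glAdeleEquiv930 σ
  measure A _ := by
    have : ((adelicAut930 σ).onG : A0.G K → A0.G K) = glAdeleEquiv930 σ :=
      funext fun g => adelicAut930_onG σ g
    rw [this]
    exact measure_preimage_glAdeleEquiv930 σ μ A
  ray := by
    rw [adelicAut930_onG]
    exact glAdeleEquiv930_rayGen σ r hr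
  slab g := by
    rw [adelicAut930_onG]
    exact (mem_slab_glAdeleEquiv930 σ g).symm
  level u := by
    rw [adelicAut930_onG]
    have := inLevelGroup_glAdeleEquiv930 σ 𝔫 u
    rw [h𝔫] at this
    exact this.symm
  arch k := by
    rw [adelicAut930_onG]
    constructor
    · rintro ⟨w, hw⟩
      refine ⟨infPull930 σ.symm w, ?_⟩
      rw [isArchCompact_glAdeleEquiv930, infPull930_symm]
      exact hw
    · rintro ⟨w, hw⟩
      exact ⟨infPull930 σ w, (isArchCompact_glAdeleEquiv930 σ w k).1 hw⟩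

end preserves

/-- `autPreserves930` with the topological hypotheses as explicit arguments (the two components of
`T1.LocCompC K` which are used). -/
theorem autPreserves930' (hLC : LocallyCompactSpace (A0.G K))
    (hSC : SecondCountableTopology (A0.G K)) (σ : K ≃+* K) (𝔫 : Ideal (𝓞 K))
    (h𝔫 : 𝔫.map (RingOfIntegers.mapRingEquiv σ) = 𝔫)
    (μ : @Measure (A0.G K) Fermat.Agent.LT.T5.instMeasurableSpaceG)
    (hμ : @Measure.IsHaarMeasure (A0.G K) _ _ Fermat.Agent.LT.T5.instMeasurableSpaceG μ)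
    (r : A0.G K) (hr : T5.IsRayGen r) :
    T5.AutPreserves (adelicAut930 σ) 𝔫 μ r :=
  autPreserves930 σ 𝔫 h𝔫 μ hμ r hr

/-- **`T1_AutExists` (existence form).**  Every automorphism of `K` has an adelic extension which
preserves every frame of T5 of `σ`-stable level. -/
theorem exists_adelicAut930 (hLC : LocallyCompactSpace (A0.G K))
    (hSC : SecondCountableTopology (A0.G K)) (σ : K ≃+* K) :
    ∃ s : T5.AdelicAut K, s.σ = σ ∧
      ∀ 𝔫 : Ideal (𝓞 K), 𝔫.map (RingOfIntegers.mapRingEquiv σ) = 𝔫 →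
        ∀ (μ : @Measure (A0.G K) Fermat.Agent.LT.T5.instMeasurableSpaceG),
          @Measure.IsHaarMeasure (A0.G K) _ _ Fermat.Agent.LT.T5.instMeasurableSpaceG μ →
          ∀ r : A0.G K, T5.IsRayGen r → T5.AutPreserves s 𝔫 μ r :=
  ⟨adelicAut930 σ, rfl, fun 𝔫 h𝔫 μ hμ r hr => autPreserves930' hLC hSC σ 𝔫 h𝔫 μ hμ r hr⟩

end Fermat.Agent.LT.T1.H930

end
end
-- ===== PACK-END LT/T1/H930/AdeleAutT5.lean

-- ===== PACK-BEGIN LT/T2/H907/Defect.lean
section






/-!
# Row LT, tower T2, leaf T2.06 (helper907): the archimedean defect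

For `g ∈ GL₂(𝔸_K)` and an infinite place `w` let `M_w = infComp w g`.  The *defect*
`defect907 g ≥ 0` is the sum of

* `tau907 w g = (∑ |M_w i j|²) / (2 |det M_w|) - 1` (zero iff `M_w ∈ ℝ_{>0} · U(2)`),
* `sig907 w g = 1 - Re (det M_w) / |det M_w|` at the real places (zero iff `det M_w > 0`),
* `del907 w g = |det M_w| + |det M_w|⁻¹ - 2` (zero iff `|det M_w| = 1`).

It is continuous, invariant under the compact groups at infinity, under the level group and under
inversion; it vanishes exactly on `(finite part) · K_∞`.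
-/

set_option autoImplicit false
set_option linter.unusedSectionVars false

open IsDedekindDomain NumberField Matrix
open scoped MatrixGroups Classical

noncomputable section

namespace Fermat.Agent.LT.T2.H907

open Fermat.Agent.LT.H556.A0 Fermat.Agent.LT.T8.H864 Fermat.Agent.LT.H51.MS4

variable {K : Type} [Field K] [NumberField K]

/-! ## Components -/

theorem infComp_mul_inv907 (w : InfinitePlace K) (g : G K) :
    infComp w g * infComp w g⁻¹ = 1 := by
  rw [← infComp_mul, mul_inv_cancel, infComp_one]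

theorem infComp_inv_mul907 (w : InfinitePlace K) (g : G K) :
    infComp w g⁻¹ * infComp w g = 1 := by
  rw [← infComp_mul, inv_mul_cancel, infComp_one]

theorem det_infComp_ne_zero907 (w : InfinitePlace K) (g : G K) : (infComp w g).det ≠ 0 := by
  have h := congrArg Matrix.det (infComp_mul_inv907 w g)
  rw [Matrix.det_mul, Matrix.det_one] at h
  exact left_ne_zero_of_mul_eq_one h

/-- `|det M_w|`. -/
def dW907 (w : InfinitePlace K) (g : G K) : ℝ := ‖(infComp w g).det‖

theorem dW907_pos (w : InfinitePlace K) (g : G K) : 0 < dW907 w g :=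
  norm_pos_iff.mpr (det_infComp_ne_zero907 w g)

theorem dW907_mul (w : InfinitePlace K) (g h : G K) :
    dW907 w (g * h) = dW907 w g * dW907 w h := by
  unfold dW907
  rw [infComp_mul, Matrix.det_mul, norm_mul]

theorem dW907_one (w : InfinitePlace K) : dW907 w (1 : G K) = 1 := by
  unfold dW907
  rw [infComp_one, Matrix.det_one, norm_one]

theorem dW907_inv (w : InfinitePlace K) (g : G K) : dW907 w g⁻¹ = (dW907 w g)⁻¹ := by
  have h := dW907_mul w g g⁻¹
  rw [mul_inv_cancel, dW907_one] at h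
  exact eq_inv_of_mul_eq_one_right h.symm

/-- The defect of `M_w` from `ℝ_{>0} · U(2)`. -/
def tau907 (w : InfinitePlace K) (g : G K) : ℝ :=
  frob907 (infComp w g) / (2 * dW907 w g) - 1

/-- The sign defect at the real places. -/
def sig907 (w : InfinitePlace K) (g : G K) : ℝ :=
  if w.IsReal then 1 - (infComp w g).det.re / dW907 w g else 0

/-- The defect of `|det M_w| = 1`. -/
def del907 (w : InfinitePlace K) (g : G K) : ℝ :=
  dW907 w g + (dW907 w g)⁻¹ - 2

/-- THE DEFECT. -/
def defect907 (g : G K) : ℝ :=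
  ∑ w : InfinitePlace K, (tau907 w g + sig907 w g + del907 w g)

theorem tau907_nonneg (w : InfinitePlace K) (g : G K) : 0 ≤ tau907 w g := by
  unfold tau907
  have hd := dW907_pos w g
  have h := two_norm_det_le_frob907 (infComp w g)
  rw [sub_nonneg, le_div_iff₀ (by positivity)]
  simpa [dW907] using h

theorem sig907_nonneg (w : InfinitePlace K) (g : G K) : 0 ≤ sig907 w g := by
  unfold sig907
  split_ifs
  · have hd := dW907_pos w g
    rw [sub_nonneg, div_le_one hd]
    exact (Complex.re_le_norm _)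
  · exact le_rfl

theorem del907_nonneg (w : InfinitePlace K) (g : G K) : 0 ≤ del907 w g := by
  unfold del907
  have hd := dW907_pos w g
  have : dW907 w g + (dW907 w g)⁻¹ - 2 = (dW907 w g - 1) ^ 2 / dW907 w g := by
    field_simp
    ring
  rw [this]
  positivity

theorem term907_nonneg (w : InfinitePlace K) (g : G K) :
    0 ≤ tau907 w g + sig907 w g + del907 w g :=
  add_nonneg (add_nonneg (tau907_nonneg w g) (sig907_nonneg w g)) (del907_nonneg w g)

theorem defect907_nonneg (g : G K) : 0 ≤ defect907 g :=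
  Finset.sum_nonneg fun w _ => term907_nonneg w g

theorem term907_le_defect (w : InfinitePlace K) (g : G K) :
    tau907 w g + sig907 w g + del907 w g ≤ defect907 g :=
  Finset.single_le_sum (f := fun w => tau907 w g + sig907 w g + del907 w g)
    (fun w _ => term907_nonneg w g) (Finset.mem_univ w)

theorem tau907_le_defect (w : InfinitePlace K) (g : G K) : tau907 w g ≤ defect907 g := by
  have := term907_le_defect w g
  have := sig907_nonneg w g
  have := del907_nonneg w g
  linarith

theorem sig907_le_defect (w : InfinitePlace K) (g : G K) : sig907 w g ≤ defect907 g := by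
  have := term907_le_defect w g
  have := tau907_nonneg w g
  have := del907_nonneg w g
  linarith

theorem del907_le_defect (w : InfinitePlace K) (g : G K) : del907 w g ≤ defect907 g := by
  have := term907_le_defect w g
  have := tau907_nonneg w g
  have := sig907_nonneg w g
  linarith

/-! ## Invariance -/

/-- The defect depends only on `frob`, `|det|` and `Re det` (at the real places). -/
theorem defect907_congr {g g' : G K}
    (hf : ∀ w, frob907 (infComp w g') = frob907 (infComp w g))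
    (hd : ∀ w, dW907 w g' = dW907 w g)
    (hr : ∀ w, w.IsReal → (infComp w g').det.re = (infComp w g).det.re) :
    defect907 g' = defect907 g := by
  have htau : ∀ w, tau907 w g' = tau907 w g := fun w => by
    unfold tau907
    rw [hf, hd]
  have hsig : ∀ w, sig907 w g' = sig907 w g := fun w => by
    unfold sig907
    split_ifs with hw
    · rw [hr w hw, hd]
    · rfl
  have hdel : ∀ w, del907 w g' = del907 w g := fun w => by
    unfold del907
    rw [hd]
  unfold defect907
  simp only [htau, hsig, hdel]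

/-- Right multiplication by an element which is unitary with determinant `1` at the real
places, at every infinite place. -/
theorem defect907_mul_right {g k : G K}
    (hk : ∀ w, infComp w k * (infComp w k)ᴴ = 1)
    (hk' : ∀ w, w.IsReal → (infComp w k).det = 1) : defect907 (g * k) = defect907 g := by
  refine defect907_congr (fun w => ?_) (fun w => ?_) (fun w hw => ?_)
  · rw [infComp_mul, frob907_mul_unitary _ (hk w)]
  · rw [dW907_mul]
    unfold dW907
    rw [norm_det_of_unitary907 (hk w), mul_one]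
  · rw [infComp_mul, Matrix.det_mul, hk' w hw, mul_one]

theorem defect907_mul_left {g k : G K}
    (hk : ∀ w, infComp w k * (infComp w k)ᴴ = 1)
    (hk' : ∀ w, w.IsReal → (infComp w k).det = 1) : defect907 (k * g) = defect907 g := by
  refine defect907_congr (fun w => ?_) (fun w => ?_) (fun w hw => ?_)
  · rw [infComp_mul, frob907_unitary_mul _ (hk w)]
  · rw [dW907_mul]
    unfold dW907
    rw [norm_det_of_unitary907 (hk w), one_mul]
  · rw [infComp_mul, Matrix.det_mul, hk' w hw, one_mul]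

/-- Invariance under inversion. -/
theorem defect907_inv (g : G K) : defect907 g⁻¹ = defect907 g := by
  have htau : ∀ w, tau907 w g⁻¹ = tau907 w g := fun w => by
    unfold tau907
    have hd := (dW907_pos w g).ne'
    have hf := frob907_inv (infComp_mul_inv907 w g)
    rw [dW907_inv, ← hf]
    unfold dW907 at hd ⊢
    field_simp
  have hsig : ∀ w, sig907 w g⁻¹ = sig907 w g := fun w => by
    unfold sig907
    split_ifs with hw
    · have hd := (dW907_pos w g).ne'
      have hdet : (infComp w g⁻¹).det = ((infComp w g).det)⁻¹ := by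
        have h := congrArg Matrix.det (infComp_mul_inv907 w g)
        rw [Matrix.det_mul, Matrix.det_one] at h
        exact eq_inv_of_mul_eq_one_right h
      rw [dW907_inv, hdet, Complex.inv_re, Complex.normSq_eq_norm_sq]
      unfold dW907 at hd ⊢
      field_simp
    · rfl
  have hdel : ∀ w, del907 w g⁻¹ = del907 w g := fun w => by
    unfold del907
    rw [dW907_inv, inv_inv]
    ring
  unfold defect907
  simp only [htau, hsig, hdel]

/-! ## The zero set -/

theorem defect907_eq_zero_iff (g : G K) :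
    defect907 g = 0 ↔ ∀ w, tau907 w g = 0 ∧ sig907 w g = 0 ∧ del907 w g = 0 := by
  constructor
  · intro h w
    have h1 := tau907_le_defect w g
    have h2 := sig907_le_defect w g
    have h3 := del907_le_defect w g
    have h1' := tau907_nonneg w g
    have h2' := sig907_nonneg w g
    have h3' := del907_nonneg w g
    rw [h] at h1 h2 h3
    exact ⟨le_antisymm h1 h1', le_antisymm h2 h2', le_antisymm h3 h3'⟩
  · intro h
    unfold defect907
    refine Finset.sum_eq_zero fun w _ => ?_
    rw [(h w).1, (h w).2.1, (h w).2.2]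
    ring

theorem dW907_eq_one_of_del {w : InfinitePlace K} {g : G K} (h : del907 w g = 0) :
    dW907 w g = 1 := by
  unfold del907 at h
  have hd := dW907_pos w g
  have h2 : (dW907 w g - 1) ^ 2 = 0 := by
    have : dW907 w g + (dW907 w g)⁻¹ - 2 = (dW907 w g - 1) ^ 2 / dW907 w g := by
      field_simp
      ring
    rw [this, div_eq_zero_iff] at h
    rcases h with h | h
    · exact h
    · exact absurd h hd.ne'
  have := pow_eq_zero_iff (two_ne_zero) |>.mp h2
  linarith

/-- On the zero set of the defect the archimedean components are unitary, of determinant `1` at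
the real places. -/
theorem unitary_of_defect907_eq_zero {g : G K} (h : defect907 g = 0) (w : InfinitePlace K) :
    infComp w g * (infComp w g)ᴴ = 1 ∧ (w.IsReal → (infComp w g).det = 1) := by
  obtain ⟨ht, hs, hd⟩ := (defect907_eq_zero_iff g).1 h w
  have hd1 := dW907_eq_one_of_del hd
  have hfrob : frob907 (infComp w g) = 2 * ‖(infComp w g).det‖ := by
    unfold tau907 at ht
    rw [hd1] at ht
    have : frob907 (infComp w g) = 2 := by linarith
    rw [this]
    unfold dW907 at hd1
    rw [hd1]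
    norm_num
  refine ⟨?_, fun hw => ?_⟩
  · rw [mul_conjTranspose_of_frob907_eq hfrob]
    unfold dW907 at hd1
    rw [hd1]
    simp
  · unfold sig907 at hs
    rw [if_pos hw, hd1, div_one] at hs
    have hre : (infComp w g).det.re = 1 := by linarith
    unfold dW907 at hd1
    have him : (infComp w g).det.im = 0 := by
      have h2 : Complex.normSq (infComp w g).det = 1 := by
        rw [Complex.normSq_eq_norm_sq, hd1]; norm_num
      rw [Complex.normSq_apply, hre] at h2
      have : (infComp w g).det.im * (infComp w g).det.im = 0 := by linarith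
      exact mul_self_eq_zero.mp this
    exact Complex.ext (by simpa using hre) (by simpa using him)

end Fermat.Agent.LT.T2.H907

end

end
-- ===== PACK-END LT/T2/H907/Defect.lean

-- ===== PACK-BEGIN LT/T2/H566/HeckeIndep.lean
section




/-!
# Row LT, tower T2, leaf T2.09 (helper566): the Hecke sums do not depend on the coset system

OFF-MAIN.

* `inLevelGroup_of_local566`: an element supported at `v ∤ 𝔫`, integral with integral inverse,
  lies in `U(𝔫)`.
* `isIntegralAt_inv566`: an integral element whose determinant is a unit at `v` has an integral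
  inverse at `v`.
* `heckeSum_indep566`: for a right `U(𝔫)`-invariant function the Hecke sum at `v ∤ 𝔫` does not
  depend on the coset system (`T1.HeckeCosetC`).
* `shift_indep566`: the same for the shift by a scalar uniformiser.
-/

set_option autoImplicit false
set_option linter.unusedSectionVars false
set_option linter.style.haveILetI false

open IsDedekindDomain NumberField
open Fermat.Agent.LT.H556.A0 Fermat.Agent.LT Fermat.Agent.LT.T1.H793 Fermat.Agent.LT.T2

noncomputable section

namespace Fermat.Agent.LT.T2.H566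

variable {K : Type} [Field K] [NumberField K]

theorem one_mem_integers566 (v : HeightOneSpectrum (𝓞 K)) (i j : Fin 2) :
    (1 : Matrix (Fin 2) (Fin 2) (v.adicCompletion K)) i j ∈ v.adicCompletionIntegers K := by
  by_cases h : i = j
  · subst h
    rw [Matrix.one_apply_eq]
    exact one_mem _
  · rw [Matrix.one_apply_ne h]
    exact zero_mem _

/-- An element supported at `v ∤ 𝔫`, integral with integral inverse, lies in `U(𝔫)`. -/
theorem inLevelGroup_of_local566 (𝔫 : Ideal (𝓞 K)) (v : HeightOneSpectrum (𝓞 K))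
    (hv : ¬ v.asIdeal ∣ 𝔫) {k : G K} (hk : IsLocalAtFin v k) (hi : IsIntegralAt v k)
    (hi' : IsIntegralAt v k⁻¹) : InLevelGroup 𝔫 k := by
  refine ⟨hk.1, fun v' i j => ?_⟩
  by_cases hv' : v' = v
  · subst hv'
    constructor
    · refine integers_subset_idealClosure566 𝔫 v' hv ?_
      rw [Matrix.sub_apply]
      exact sub_mem (hi i j) (one_mem_integers566 v' i j)
    · refine integers_subset_idealClosure566 𝔫 v' hv ?_
      rw [Matrix.sub_apply]
      exact sub_mem (hi' i j) (one_mem_integers566 v' i j)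
  · have h1 : finComp v' k = 1 := hk.2 v' hv'
    have h2 : finComp v' k⁻¹ = 1 := (IsLocalAtFin.inv566 hk).2 v' hv'
    rw [h1, h2, sub_self]
    exact ⟨zero_mem_idealClosure566 𝔫 v', zero_mem_idealClosure566 𝔫 v'⟩

theorem isIntegralAt_mul566 (v : HeightOneSpectrum (𝓞 K)) {g h : G K}
    (hg : IsIntegralAt v g) (hh : IsIntegralAt v h) : IsIntegralAt v (g * h) := by
  intro i j
  rw [finComp_mul566, Matrix.mul_apply]
  exact sum_mem (fun l _ => mul_mem (hg i l) (hh l j))

/-- An integral element whose determinant is a unit at `v` has an integral inverse at `v`. -/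
theorem isIntegralAt_inv566 (v : HeightOneSpectrum (𝓞 K)) {k : G K} (hi : IsIntegralAt v k)
    (hdet : Valued.v (finComp v k).det = 1) : IsIntegralAt v k⁻¹ := by
  have hinv : finComp v k⁻¹ = (finComp v k)⁻¹ :=
    (Matrix.inv_eq_left_inv (finComp_inv_mul566 v k)).symm
  have hd0 : (finComp v k).det ≠ 0 := by
    intro h0
    rw [h0, map_zero] at hdet
    exact zero_ne_one hdet
  have hdinv : ((finComp v k).det)⁻¹ ∈ v.adicCompletionIntegers K := by
    rw [HeightOneSpectrum.mem_adicCompletionIntegers, map_inv₀, hdet, inv_one]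
  intro i j
  rw [hinv, Matrix.inv_def, Ring.inverse_eq_inv', Matrix.smul_apply, smul_eq_mul,
    Matrix.adjugate_fin_two]
  refine mul_mem hdinv ?_
  fin_cases i <;> fin_cases j <;> simp
  · exact hi 1 1
  · exact hi 0 1
  · exact hi 1 0
  · exact hi 0 0

theorem det_finComp_inv566 (v : HeightOneSpectrum (𝓞 K)) (g : G K) :
    (finComp v g⁻¹).det * (finComp v g).det = 1 := by
  rw [← Matrix.det_mul, finComp_inv_mul566, Matrix.det_one]

/-- The quotient of two elements of the same determinant valuation, if integral, is in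
`U(𝔫)`. -/
theorem quot_inv_integral566 (v : HeightOneSpectrum (𝓞 K)) {h h' : G K}
    (hd : Valued.v (finComp v h).det = Valued.v (finComp v h').det)
    (hint : IsIntegralAt v (h⁻¹ * h')) : IsIntegralAt v (h⁻¹ * h')⁻¹ := by
  have hdet : Valued.v (finComp v (h⁻¹ * h')).det = 1 := by
    rw [finComp_mul566, Matrix.det_mul, map_mul, ← hd]
    rw [← map_mul, det_finComp_inv566, map_one]
  exact isIntegralAt_inv566 v hint hdet

theorem inLevelGroup_quot566 (𝔫 : Ideal (𝓞 K)) (v : HeightOneSpectrum (𝓞 K))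
    (hv : ¬ v.asIdeal ∣ 𝔫) {h h' : G K} (hh : IsLocalAtFin v h) (hh' : IsLocalAtFin v h')
    (hd : Valued.v (finComp v h).det = Valued.v (finComp v h').det)
    (hint : IsIntegralAt v (h⁻¹ * h')) : InLevelGroup 𝔫 (h⁻¹ * h') := by
  have hloc : IsLocalAtFin v (h⁻¹ * h') := IsLocalAtFin.mul566 (IsLocalAtFin.inv566 hh) hh'
  exact inLevelGroup_of_local566 𝔫 v hv hloc hint (quot_inv_integral566 v hd hint)

section Hecke

variable (hHC : T1.HeckeCosetC K) (𝔫 : Ideal (𝓞 K)) (v : HeightOneSpectrum (𝓞 K))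
  (hv : ¬ v.asIdeal ∣ 𝔫)

theorem exp_neg_one_ne_zero566 : (WithZero.exp (-1 : ℤ) : WithZero (Multiplicative ℤ)) ≠ 0 :=
  WithZero.exp_ne_zero

include hHC hv in
/-- The Hecke sum of a right `U(𝔫)`-invariant function does not depend on the coset system. -/
theorem heckeSum_indep566 {H H' : Finset (G K)} (hH : IsHeckeCosetSystem v H)
    (hH' : IsHeckeCosetSystem v H') {φ : G K → ℂ}
    (hφ : ∀ u : G K, InLevelGroup 𝔫 u → ∀ g : G K, φ (g * u) = φ g) :
    heckeSum H' φ = heckeSum H φ := by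
  classical
  -- the matching `H' → H`
  have hex : ∀ h' ∈ H', ∃ h ∈ H, IsIntegralAt v (h⁻¹ * h') := by
    intro h' hh'
    obtain ⟨hl, hi, hd⟩ := hH'.2.1 h' hh'
    exact (hHC v).2.1 H hH h' hl hi hd
  choose! σ hσH hσint using hex
  have hdeq : ∀ h' ∈ H', Valued.v (finComp v (σ h')).det = Valued.v (finComp v h').det := by
    intro h' hh'
    obtain ⟨-, -, hd'⟩ := hH'.2.1 h' hh'
    obtain ⟨-, -, hd⟩ := hH.2.1 (σ h') (hσH h' hh')
    exact hd.trans hd'.symm
  have hlevel : ∀ h' ∈ H', InLevelGroup 𝔫 ((σ h')⁻¹ * h') := by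
    intro h' hh'
    obtain ⟨hl', -, -⟩ := hH'.2.1 h' hh'
    obtain ⟨hl, -, -⟩ := hH.2.1 (σ h') (hσH h' hh')
    exact inLevelGroup_quot566 𝔫 v hv hl hl' (hdeq h' hh') (hσint h' hh')
  have hinj : ∀ a₁ ∈ H', ∀ a₂ ∈ H', σ a₁ = σ a₂ → a₁ = a₂ := by
    intro a₁ ha₁ a₂ ha₂ he
    by_contra hne
    refine hH'.2.2 a₁ ha₁ a₂ ha₂ hne ?_
    have h1 : IsIntegralAt v ((σ a₁)⁻¹ * a₁)⁻¹ :=
      quot_inv_integral566 v (hdeq a₁ ha₁) (hσint a₁ ha₁)
    have h2 : IsIntegralAt v ((σ a₂)⁻¹ * a₂) := hσint a₂ ha₂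
    have e : a₁⁻¹ * a₂ = ((σ a₁)⁻¹ * a₁)⁻¹ * ((σ a₂)⁻¹ * a₂) := by
      rw [he]
      group
    rw [e]
    exact isIntegralAt_mul566 v h1 h2
  funext g
  unfold heckeSum
  refine Finset.sum_bij (fun a _ => σ a) hσH hinj ?_ ?_
  · exact fun b hb => by
      obtain ⟨a, ha, hab⟩ := Finset.surj_on_of_inj_on_of_card_le (fun a _ => σ a) hσH
        (fun a₁ a₂ ha₁ ha₂ he => hinj a₁ ha₁ a₂ ha₂ he) (by rw [hH.1, hH'.1]) b hb
      exact ⟨a, ha, hab.symm⟩
  · intro a ha
    have := hφ _ (hlevel a ha) (g * σ a)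
    rw [← this]
    congr 1
    group

theorem finComp_inv_of_diag566 {z : G K} {c : v.adicCompletion K} (hc : c ≠ 0)
    (hz : finComp v z = Matrix.diagonal (fun _ => c)) :
    finComp v z⁻¹ = Matrix.diagonal (fun _ => c⁻¹) := by
  have h1 : finComp v z⁻¹ = (finComp v z)⁻¹ :=
    (Matrix.inv_eq_left_inv (finComp_inv_mul566 v z)).symm
  rw [h1, hz]
  apply Matrix.inv_eq_left_inv
  rw [Matrix.diagonal_mul_diagonal]
  simp only [inv_mul_cancel₀ hc]
  exact Matrix.diagonal_one

include hv in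
/-- The shift of a right `U(𝔫)`-invariant function by a scalar uniformiser at `v ∤ 𝔫` does not
depend on the uniformiser. -/
theorem shift_indep566 {z z' : G K} (hz : IsScalarUniformizerAt v z)
    (hz' : IsScalarUniformizerAt v z') {φ : G K → ℂ}
    (hφ : ∀ u : G K, InLevelGroup 𝔫 u → ∀ g : G K, φ (g * u) = φ g) :
    shift z' φ = shift z φ := by
  obtain ⟨hl, c, hc, hzc⟩ := hz
  obtain ⟨hl', c', hc', hzc'⟩ := hz'
  have hc0 : c ≠ 0 := by
    intro h
    rw [h, map_zero] at hc
    exact exp_neg_one_ne_zero566 hc.symm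
  have hdet : ∀ d : v.adicCompletion K,
      (Matrix.diagonal (fun _ : Fin 2 => d)).det = d * d := by
    intro d
    rw [Matrix.det_diagonal, Fin.prod_univ_two]
  have hd : Valued.v (finComp v z).det = Valued.v (finComp v z').det := by
    rw [hzc, hzc', hdet, hdet, map_mul, map_mul, hc, hc']
  have hint : IsIntegralAt v (z⁻¹ * z') := by
    intro i j
    rw [finComp_mul566, finComp_inv_of_diag566 v hc0 hzc, hzc', Matrix.diagonal_mul_diagonal]
    by_cases h : i = j
    · subst h
      rw [Matrix.diagonal_apply_eq, HeightOneSpectrum.mem_adicCompletionIntegers, map_mul,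
        map_inv₀, hc, hc', inv_mul_cancel₀ exp_neg_one_ne_zero566]
    · rw [Matrix.diagonal_apply_ne _ h]
      exact zero_mem _
  have hlev := inLevelGroup_quot566 𝔫 v hv hl hl' hd hint
  funext g
  unfold shift
  have := hφ _ hlev (g * z)
  rw [← this]
  congr 1
  group

end Hecke

/-- The parametrisation of a geodesic sphere is unique. -/
theorem isSphereAt_unique566 {w : InfinitePlace K} {d : ℝ} {Y Y' : ℝ → ℝ → G K}
    (hY : IsSphereAt w d Y) (hY' : IsSphereAt w d Y') : Y' = Y := by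
  funext α β
  exact eq_of_isLocalAtInf566 (hY' α β).1 (hY α β).1 ((hY' α β).2.trans (hY α β).2.symm)

/-- The parametrisation of a geodesic circle is unique. -/
theorem isCircleAt_unique566 {w : InfinitePlace K} {t : ℝ} {Y Y' : ℝ → G K}
    (hY : IsCircleAt w t Y) (hY' : IsCircleAt w t Y') : Y' = Y := by
  funext θ
  exact eq_of_isLocalAtInf566 (hY' θ).1 (hY θ).1 ((hY' θ).2.trans (hY θ).2.symm)

end Fermat.Agent.LT.T2.H566

end

end
-- ===== PACK-END LT/T2/H566/HeckeIndep.lean

-- ===== PACK-BEGIN LT/T6/H277/Companion.lean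
section



/-!
# Row LT, tower T6, sub-leaf T6.13.2.3 `CompanionC` (helper277) -- OFF-MAIN

A non-scalar `2 × 2` matrix over a field is conjugate to its companion matrix.
-/

set_option autoImplicit false

open scoped Matrix

noncomputable section

namespace Fermat.Agent.LT.T6.H277

/-- A matrix with nonzero determinant as an element of `GL₂`. -/
def mk277 {k : Type} [Field k] (A : Matrix (Fin 2) (Fin 2) k) (h : A.det ≠ 0) : GL (Fin 2) k :=
  Matrix.GeneralLinearGroup.mkOfDetNeZero A h

@[simp] theorem coe_mk277 {k : Type} [Field k] (A : Matrix (Fin 2) (Fin 2) k) (h : A.det ≠ 0) :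
    ((mk277 A h : GL (Fin 2) k) : Matrix (Fin 2) (Fin 2) k) = A := rfl

/-- If `M x = x C` then `x⁻¹ M x = C`. -/
theorem conj_eq_of_mul_eq277 {k : Type} [Field k] (M C : Matrix (Fin 2) (Fin 2) k)
    (x : GL (Fin 2) k) (h : M * (x : Matrix (Fin 2) (Fin 2) k) = (x : Matrix (Fin 2) (Fin 2) k) * C) :
    ((x⁻¹ : GL (Fin 2) k) : Matrix (Fin 2) (Fin 2) k) * M * (x : Matrix (Fin 2) (Fin 2) k) = C := by
  rw [Matrix.mul_assoc, h, ← Matrix.mul_assoc, ← Units.val_mul, inv_mul_cancel, Units.val_one,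
    Matrix.one_mul]

/-- **T6.13.2.3 `CompanionC`.** -/
theorem companionC277 : CompanionC := by
  intro k _ M hM
  have hMe : M = !![M 0 0, M 0 1; M 1 0, M 1 1] := Matrix.eta_fin_two M
  have hdet : M.det = M 0 0 * M 1 1 - M 0 1 * M 1 0 := Matrix.det_fin_two M
  have htr : M.trace = M 0 0 + M 1 1 := Matrix.trace_fin_two M
  by_cases h10 : M 1 0 = 0
  · by_cases h01 : M 0 1 = 0
    · -- diagonal, distinct entries
      have hne : M 1 1 - M 0 0 ≠ 0 := by
        intro h
        apply hM (M 0 0)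
        have h11 : M 1 1 = M 0 0 := by linear_combination h
        rw [hMe]
        ext i j
        fin_cases i <;> fin_cases j <;> simp [h10, h01, h11, Matrix.one_apply]
      refine ⟨mk277 !![1, M 0 0; 1, M 1 1]
        (by rw [Matrix.det_fin_two_of]; simpa using hne), ?_⟩
      apply conj_eq_of_mul_eq277
      rw [coe_mk277, hdet, htr]
      conv_lhs => rw [hMe]
      ext i j
      fin_cases i <;> fin_cases j <;>
        simp [Matrix.mul_apply, Fin.sum_univ_two, h10, h01] <;> ring
    · refine ⟨mk277 !![0, M 0 1; 1, M 1 1]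
        (by rw [Matrix.det_fin_two_of]; simpa using h01), ?_⟩
      apply conj_eq_of_mul_eq277
      rw [coe_mk277, hdet, htr]
      conv_lhs => rw [hMe]
      ext i j
      fin_cases i <;> fin_cases j <;>
        simp [Matrix.mul_apply, Fin.sum_univ_two, h10] <;> ring
  · refine ⟨mk277 !![1, M 0 0; 0, M 1 0]
      (by rw [Matrix.det_fin_two_of]; simpa using h10), ?_⟩
    apply conj_eq_of_mul_eq277
    rw [coe_mk277, hdet, htr]
    conv_lhs => rw [hMe]
    ext i j
    fin_cases i <;> fin_cases j <;>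
      simp [Matrix.mul_apply, Fin.sum_univ_two] <;> ring

end Fermat.Agent.LT.T6.H277

end
end
-- ===== PACK-END LT/T6/H277/Companion.lean

-- ===== PACK-BEGIN LT/T6/H439/BallCount.lean
section




/-!
# Row LT, tower T6, leaf T6.13.2.7 `BallCountC` (helper439, OFF-MAIN)

Vocabulary: `Fermat/Agent/LT/T6/H277/OrbEllSpec.lean` (helper277@b9ce39e0d, sha256
7b0956b2baf7cad6), `LT/H338/TreeDist.lean`, `LT/H338/TreeCount.lean` (helper338), byte-identical
copies.

`ballCountC_h439 : H277.BallCountC` : the ball of radius `r` of a `(q+1)`-regular tree distance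
has `ballCard q r = 1 + (q+1) ∑_{i<r} q^i` elements.  The spheres are `S 0 = {o}`,
`S (i+1) = childF338 (S i)`.
-/

set_option autoImplicit false

noncomputable section

namespace Fermat.Agent.LT.T6.H439

open Fermat.Agent.LT.H338 Fermat.Agent.LT.T6.H60 Fermat.Agent.LT.T6.H277 Finset Classical

section Sphere

variable {V : Type} {d : V → V → ℕ} (hd : IsTreeDist338 d) (o : V)
  (q : ℕ) (hreg : ∀ v, {w | d v w = 1}.ncard = q + 1)

/-- The sphere of radius `i` around `o`, as a finset. -/
def sphere_h439 : ℕ → Finset V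
  | 0 => {o}
  | (i + 1) => childF338 o q hreg (sphere_h439 i)

include hd in
theorem mem_sphere_h439 : ∀ (i : ℕ) (x : V), x ∈ sphere_h439 o q hreg i ↔ d o x = i
  | 0, x => by
    rw [sphere_h439, mem_singleton, hd.eq_zero]
    exact eq_comm
  | (i + 1), x => by
    rw [sphere_h439, mem_childF338 hd, mem_sphere_h439 i]
    constructor
    · rintro ⟨h1, h2⟩
      have := par338_depth hd o h1
      omega
    · intro h
      have hox : o ≠ x := root_ne_of_depth338 hd o h
      refine ⟨hox, ?_⟩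
      have := par338_depth hd o hox
      omega

include hd in
theorem card_sphere_succ_h439 (i : ℕ) :
    (sphere_h439 o q hreg (i + 1)).card = (q + 1) * q ^ i := by
  induction i with
  | zero =>
    rw [sphere_h439, card_childF338 hd, sphere_h439, card_singleton, if_pos (mem_singleton_self o),
      pow_zero]
    ring
  | succ i ih =>
    have hnot : o ∉ sphere_h439 o q hreg (i + 1) := by
      rw [mem_sphere_h439 hd o q hreg, (hd.eq_zero o o).2 rfl]
      omega
    rw [sphere_h439, card_childF338 hd, if_neg hnot, ih]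
    ring

include hd in
theorem card_sphere_h439 (i : ℕ) :
    (sphere_h439 o q hreg i).card = if i = 0 then 1 else (q + 1) * q ^ (i - 1) := by
  cases i with
  | zero => simp [sphere_h439]
  | succ i => rw [card_sphere_succ_h439 hd o q hreg i]; simp

include hd in
theorem ball_eq_h439 (r : ℕ) :
    {x | d o x ≤ r} = ↑((range (r + 1)).biUnion (sphere_h439 o q hreg)) := by
  ext x
  rw [Set.mem_ofPred_eq, mem_coe, mem_biUnion]
  constructor
  · intro h
    exact ⟨d o x, mem_range.2 (by omega), (mem_sphere_h439 hd o q hreg _ x).2 rfl⟩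
  · rintro ⟨i, hi, hx⟩
    rw [mem_range] at hi
    rw [mem_sphere_h439 hd o q hreg] at hx
    omega

include hd in
theorem card_ball_h439 (r : ℕ) :
    ((range (r + 1)).biUnion (sphere_h439 o q hreg)).card = ballCard q r := by
  rw [card_biUnion]
  · rw [sum_range_succ', ballCard, mul_sum]
    simp only [sphere_h439, card_singleton]
    rw [add_comm]
    congr 1
    exact sum_congr rfl fun i _ => card_sphere_succ_h439 hd o q hreg i
  · intro i _ j _ hij
    rw [Function.onFun, Finset.disjoint_left]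
    intro x hx hx'
    rw [mem_sphere_h439 hd o q hreg] at hx hx'
    exact hij (hx.symm.trans hx')

end Sphere

/-- **T6.13.2.7 `BallCountC`.** -/
theorem ballCountC_h439 : BallCountC := by
  intro V d q hd hreg o r
  rw [ball_eq_h439 hd o q hreg r, Set.ncard_coe_finset, card_ball_h439 hd o q hreg r]

end Fermat.Agent.LT.T6.H439

end

end
-- ===== PACK-END LT/T6/H439/BallCount.lean

-- ===== PACK-BEGIN LT/T7/H267/UpInertKit.lean
section



/-!
# Row LT, tower T7, leaf UD.1 `UpInertC341` (helper267, SPARE): the topological kit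

OFF-MAIN.  Ring homomorphisms between completions of number fields at finite places which
multiply the valuation by a power `e > 0`: continuity, inducing, uniqueness (density of the
number field), and the same for `GL₂`.  Mathlib + `T6/Spec.lean` only (the import of
`T6/H267/InstExt.lean` is for the kit on the unique prime).
-/

set_option autoImplicit false

open IsDedekindDomain NumberField

noncomputable section

namespace Fermat.Agent.LT.T7.UD341.H267

section Completions

variable {K K' : Type} [Field K] [NumberField K] [Field K'] [NumberField K']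
variable {v : HeightOneSpectrum (𝓞 K)} {w : HeightOneSpectrum (𝓞 K')}

/-- A ring homomorphism of completions with `v(f x) = v(x)^e`, `e > 0`, is uniformly
continuous. -/
theorem uniformContinuous_of_val267 (f : v.adicCompletion K →+* w.adicCompletion K') (e : ℕ)
    (he : 0 < e) (hf : ∀ x, Valued.v (f x) = Valued.v x ^ e) : UniformContinuous f := by
  refine uniformContinuous_of_continuousAt_zero f ?_
  rw [ContinuousAt, map_zero, (Valued.hasBasis_nhds_zero _ _).tendsto_iff
    (Valued.hasBasis_nhds_zero _ _)]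
  intro γ _
  -- an element `z` of `K_v` with `v(z) ≤ 1` and `v(z)^e ≤ γ`
  obtain ⟨z', hz'⟩ := HeightOneSpectrum.valuedAdicCompletion_surjective K' w
    (MonoidWithZeroHom.ValueGroup₀.embedding γ.val)
  have hγ0 : MonoidWithZeroHom.ValueGroup₀.embedding γ.val ≠ (0 : WithZero (Multiplicative ℤ)) := by
    simp
  obtain ⟨a, ha⟩ : ∃ a : ℤ, MonoidWithZeroHom.ValueGroup₀.embedding γ.val
      = (WithZero.exp a : WithZero (Multiplicative ℤ)) := by
    refine ⟨WithZero.log (MonoidWithZeroHom.ValueGroup₀.embedding γ.val), ?_⟩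
    rw [WithZero.exp_log hγ0]
  obtain ⟨z, hz⟩ := HeightOneSpectrum.valuedAdicCompletion_surjective K v
    (WithZero.exp (-|a|))
  have hz0 : Valued.v z ≠ 0 := by
    rw [hz]
    simp
  refine ⟨Units.mk0 (Valued.v.restrict z) ?_, trivial, fun x hx => ?_⟩
  · rw [Ne, ← MonoidWithZeroHom.ValueGroup₀.embedding_inj]
    simpa using hz0
  simp only [Set.mem_ofPred_eq, Units.val_mk0] at hx ⊢
  rw [Valuation.restrict_lt_iff_lt_embedding] at hx ⊢
  rw [Valuation.embedding_restrict, hz] at hx
  rw [hf, ha]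
  calc Valued.v x ^ e ≤ Valued.v x ^ 1 := by
        refine pow_le_pow_of_le_one zero_le ?_ he
        exact hx.le.trans (by rw [← WithZero.exp_zero, WithZero.exp_le_exp]; simp)
    _ = Valued.v x := pow_one _
    _ < WithZero.exp (-|a|) := hx
    _ ≤ WithZero.exp a := by
        rw [WithZero.exp_le_exp]
        exact neg_abs_le a

theorem continuous_of_val267 (f : v.adicCompletion K →+* w.adicCompletion K') (e : ℕ)
    (he : 0 < e) (hf : ∀ x, Valued.v (f x) = Valued.v x ^ e) : Continuous f :=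
  (uniformContinuous_of_val267 f e he hf).continuous

/-- A ring homomorphism of completions with `v(f x) = v(x)^e`, `e > 0`, is inducing. -/
theorem isUniformInducing_of_val267 (f : v.adicCompletion K →+* w.adicCompletion K') (e : ℕ)
    (he : 0 < e) (hf : ∀ x, Valued.v (f x) = Valued.v x ^ e) : IsUniformInducing f := by
  rw [isUniformInducing_iff']
  refine ⟨uniformContinuous_of_val267 f e he hf, ?_⟩
  rw [((Valued.hasBasis_uniformity (w.adicCompletion K') _).comap _).le_basis_iff
    (Valued.hasBasis_uniformity (v.adicCompletion K) _)]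
  intro γ _
  obtain ⟨z, hz⟩ := HeightOneSpectrum.valuedAdicCompletion_surjective K v
    (MonoidWithZeroHom.ValueGroup₀.embedding γ.val)
  have hz0 : Valued.v z ≠ 0 := by
    rw [hz]
    simp
  have hz' : Valued.v (f z) ≠ 0 := by
    rw [hf]
    exact pow_ne_zero _ hz0
  refine ⟨Units.mk0 (Valued.v.restrict (f z)) ?_, trivial, ?_⟩
  · rw [Ne, ← MonoidWithZeroHom.ValueGroup₀.embedding_inj]
    simpa using hz'
  rintro ⟨x, y⟩ hxy
  simp only [Set.mem_preimage, Prod.map_apply, Set.mem_ofPred_eq, Units.val_mk0] at hxy ⊢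
  rw [Valuation.restrict_lt_iff_lt_embedding] at hxy ⊢
  rw [Valuation.embedding_restrict, ← map_sub, hf, hf, hz] at hxy
  exact lt_of_pow_lt_pow_left₀ _ zero_le hxy

theorem isInducing_of_val267 (f : v.adicCompletion K →+* w.adicCompletion K') (e : ℕ)
    (he : 0 < e) (hf : ∀ x, Valued.v (f x) = Valued.v x ^ e) : Topology.IsInducing f :=
  (isUniformInducing_of_val267 f e he hf).isInducing

/-- Two continuous ring homomorphisms of the completion which agree on the number field are
equal. -/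
theorem ringHom_eq_of_rat267 (f g : v.adicCompletion K →+* w.adicCompletion K')
    (hf : Continuous f) (hg : Continuous g)
    (h : ∀ x : K, f (algebraMap K (v.adicCompletion K) x)
      = g (algebraMap K (v.adicCompletion K) x)) : f = g := by
  have h1 : (f : v.adicCompletion K → w.adicCompletion K') = g :=
    DenseRange.equalizer (HeightOneSpectrum.denseRange_algebraMap K v) hf hg (funext h)
  exact DFunLike.coe_injective h1

/-- `GL₂` of an inducing ring homomorphism is inducing. -/
theorem isInducing_glMap267 {R S : Type} [CommRing R] [CommRing S] [TopologicalSpace R]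
    [TopologicalSpace S] (f : R →+* S) (hf : Topology.IsInducing f) :
    Topology.IsInducing (Matrix.GeneralLinearGroup.map (n := Fin 2) f) := by
  have h1 : Topology.IsInducing ((RingHom.mapMatrix f).toMonoidHom :
      Matrix (Fin 2) (Fin 2) R →* Matrix (Fin 2) (Fin 2) S) :=
    Topology.IsInducing.matrix_map hf
  exact h1.units_map

end Completions

end Fermat.Agent.LT.T7.UD341.H267

end

end
-- ===== PACK-END LT/T7/H267/UpInertKit.lean

-- ===== PACK-BEGIN LT/T7/H362/ChangeLin.lean
section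





/-!
# Row LT, tower T7, leaf T7.L2.2.C `ChangeC561` (registry row 2189, helper362): the analytic inputs

OFF-MAIN.  Imports Mathlib, A0, `T1/Spec.lean`, `T5/Spec.lean` (byte-identical copies).
Complete proofs.

* `isCuspFn_sum362`: the cusp functions of T5 are stable under finite linear combinations
  (hypothesis `T1.AddFundDomC K`: a fundamental domain of `K` in `𝔸_K` has finite measure, so
  the terms of the constant term are integrable);
* `continuous_onGinv362`: `σ⁻¹` is continuous on `GL₂(𝔸_K)`;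
* `integrable_rconv362`, `continuous_rconv362`, `bdd_rconv362`: for `φ` continuous with compact
  support and `ψ` continuous (bounded) the integrand of `R(φ) ψ` is integrable and `R(φ) ψ` is
  continuous (bounded).
-/

set_option autoImplicit false
set_option linter.style.haveILetI false

open IsDedekindDomain NumberField MeasureTheory
open scoped ComplexConjugate

noncomputable section

namespace Fermat.Agent.LT.T7.H362

open Fermat.Agent.LT.H556.A0 Fermat.Agent.LT.T5

attribute [local instance] Fermat.Agent.LT.T5.instMeasurableSpaceG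

variable {K : Type} [Field K] [NumberField K]

/-! ## 1. Fundamental domains of `K` in `𝔸_K` have finite measure -/

theorem countable_numberField362 (K : Type) [Field K] [NumberField K] : Countable K := by
  have e := (Module.finBasis ℚ K).equivFun.toEquiv
  exact Countable.of_equiv _ e.symm

theorem fundDom_finite362 (hT : Fermat.Agent.LT.T1.AddFundDomC K) :
    letI : MeasurableSpace (Adl K) := borel (Adl K)
    ∀ μ : Measure (Adl K), μ.IsAddHaarMeasure → ∀ D : Set (Adl K),
      IsAddFundamentalDomain ((algebraMap K (Adl K)).toAddMonoidHom.range) D μ → μ D < ⊤ := by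
  letI : MeasurableSpace (Adl K) := borel (Adl K)
  intro μ hμ D hD
  have : BorelSpace (Adl K) := ⟨rfl⟩
  obtain ⟨D₀, -, hD₀, -, -, hfin⟩ := hT μ hμ
  have hc : Countable K := countable_numberField362 K
  have : Countable ((algebraMap K (Adl K)).toAddMonoidHom.range) := by
    have h1 : (Set.range (algebraMap K (Adl K))).Countable := Set.countable_range _
    exact h1.to_subtype
  have hinv : VAddInvariantMeasure ((algebraMap K (Adl K)).toAddMonoidHom.range) (Adl K) μ :=
    ⟨fun ⟨x, _⟩ _ h => VAddInvariantMeasure.measure_preimage_vadd (M := Adl K) x h⟩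
  have := hD.measure_eq hD₀
  rw [this]
  exact hfin

/-- The unipotent map is continuous. -/
theorem continuous_unip362 (n : Adl K → G K)
    (hn : ∀ x : Adl K, (n x : Matrix (Fin 2) (Fin 2) (Adl K)) = !![1, x; 0, 1]) :
    Continuous n := by
  have hinv : ∀ x : Adl K, (n x)⁻¹ = n (-x) := by
    intro x
    refine inv_eq_of_mul_eq_one_right ?_
    apply Units.ext
    rw [Units.val_mul, hn, hn, Units.val_one]
    ext i j
    fin_cases i <;> fin_cases j <;> simp [Matrix.mul_apply, Fin.sum_univ_two]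
  rw [Units.continuous_iff]
  constructor
  · have h : (Units.val ∘ n)
        = fun u : Adl K => (!![1, u; 0, 1] : Matrix (Fin 2) (Fin 2) (Adl K)) := by
      funext x
      exact hn x
    rw [h]
    refine continuous_matrix (fun i j => ?_)
    fin_cases i <;> fin_cases j
    · exact continuous_const
    · exact continuous_id
    · exact continuous_const
    · exact continuous_const
  · have h : (fun u : Adl K => (((n u)⁻¹ : G K) : Matrix (Fin 2) (Fin 2) (Adl K)))
        = fun u : Adl K => (!![1, -u; 0, 1] : Matrix (Fin 2) (Fin 2) (Adl K)) := by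
      funext x
      rw [hinv, hn]
    rw [h]
    refine continuous_matrix (fun i j => ?_)
    fin_cases i <;> fin_cases j
    · exact continuous_const
    · exact continuous_neg
    · exact continuous_const
    · exact continuous_const

/-- The terms of the constant term are integrable. -/
theorem integrableOn_unip362 (hT : Fermat.Agent.LT.T1.AddFundDomC K) {ψ : G K → ℂ}
    (hc : Continuous ψ) (hb : ∃ C : ℝ, ∀ g : G K, ‖ψ g‖ ≤ C) :
    letI : MeasurableSpace (Adl K) := borel (Adl K)
    ∀ μ : Measure (Adl K), μ.IsAddHaarMeasure → ∀ D : Set (Adl K),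
      IsAddFundamentalDomain ((algebraMap K (Adl K)).toAddMonoidHom.range) D μ →
      ∀ n : Adl K → G K,
        (∀ x : Adl K, (n x : Matrix (Fin 2) (Fin 2) (Adl K)) = !![1, x; 0, 1]) →
        ∀ g : G K, IntegrableOn (fun x => ψ (n x * g)) D μ := by
  letI : MeasurableSpace (Adl K) := borel (Adl K)
  intro μ hμ D hD n hn g
  have : BorelSpace (Adl K) := ⟨rfl⟩
  obtain ⟨C, hC⟩ := hb
  have hfin : μ D < ⊤ := fundDom_finite362 hT μ hμ D hD
  have hcont : Continuous (fun x => ψ (n x * g)) :=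
    hc.comp ((continuous_unip362 n hn).mul continuous_const)
  have : IsFiniteMeasure (μ.restrict D) := ⟨by simpa using hfin⟩
  exact Integrable.of_bound hcont.aestronglyMeasurable C
    (Filter.Eventually.of_forall fun x => hC _)

/-! ## 2. Finite linear combinations of cusp functions -/

theorem continuous_lin362 (s : Finset ℕ) (a : ℕ → ℂ) (e : ℕ → G K → ℂ)
    (he : ∀ j ∈ s, Continuous (e j)) : Continuous fun g => ∑ j ∈ s, a j * e j g :=
  continuous_finsetSum _ fun j hj => continuous_const.mul (he j hj)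

theorem bdd_lin362 (s : Finset ℕ) (a : ℕ → ℂ) (e : ℕ → G K → ℂ)
    (he : ∀ j ∈ s, ∃ C : ℝ, ∀ g : G K, ‖e j g‖ ≤ C) :
    ∃ C : ℝ, ∀ g : G K, ‖∑ j ∈ s, a j * e j g‖ ≤ C := by
  classical
  induction s using Finset.induction_on with
  | empty => exact ⟨0, fun g => by simp⟩
  | insert i s hi ih =>
    obtain ⟨C, hC⟩ := he i (Finset.mem_insert_self i s)
    obtain ⟨D, hD⟩ := ih fun j hj => he j (Finset.mem_insert_of_mem hj)
    refine ⟨‖a i‖ * C + D, fun g => ?_⟩
    rw [Finset.sum_insert hi]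
    refine (norm_add_le _ _).trans (add_le_add ?_ (hD g))
    rw [norm_mul]
    exact mul_le_mul_of_nonneg_left (hC g) (norm_nonneg _)

/-- **The cusp functions are stable under finite linear combinations.** -/
theorem isCuspFn_sum362 (hT : Fermat.Agent.LT.T1.AddFundDomC K) {𝔫 : Ideal (𝓞 K)}
    {τ : G K → ℂ} {r : G K} (e : ℕ → G K → ℂ) (he : ∀ j, IsCuspFn 𝔫 τ r (e j))
    (s : Finset ℕ) (a : ℕ → ℂ) : IsCuspFn 𝔫 τ r (fun g => ∑ j ∈ s, a j * e j g) := by
  refine ⟨continuous_lin362 s a e fun j _ => (he j).cont,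
    bdd_lin362 s a e fun j _ => (he j).bdd, ⟨?_, ?_, ?_, ?_⟩, ?_⟩
  · intro γ g
    exact Finset.sum_congr rfl fun j _ => by rw [(he j).aut.left_inv]
  · intro u hu g
    exact Finset.sum_congr rfl fun j _ => by rw [(he j).aut.level_inv u hu]
  · intro w k hk g
    show ∑ j ∈ s, a j * e j (g * k) = τ k * ∑ j ∈ s, a j * e j g
    rw [Finset.mul_sum]
    refine Finset.sum_congr rfl fun j _ => ?_
    rw [(he j).aut.arch_compact w k hk]
    ring
  · intro g
    exact Finset.sum_congr rfl fun j _ => by rw [(he j).aut.ray]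
  · intro μ' hμ' D hD n hn g
    have hint := fun j => integrableOn_unip362 hT (he j).cont (he j).bdd μ' hμ' D hD n hn g
    show ∫ x in D, ∑ j ∈ s, a j * e j (n x * g) ∂μ' = 0
    rw [integral_finsetSum _ fun j _ => (hint j).const_mul (a j)]
    refine Finset.sum_eq_zero fun j _ => ?_
    rw [integral_const_mul, (he j).cuspidal μ' hμ' D hD n hn g, mul_zero]

/-! ## 3. `R(σ)` and `R(φ)` on continuous bounded functions -/

/-- `σ⁻¹` is continuous on `GL₂(𝔸_K)`. -/
theorem continuous_onGinv362 (s : AdelicAut K) : Continuous s.onGinv := by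
  unfold AdelicAut.onGinv Matrix.GeneralLinearGroup.map
  refine Continuous.units_map _ ?_
  exact Continuous.matrix_map continuous_id s.continuous_symm

theorem continuous_rsig362 (s : AdelicAut K) {e : G K → ℂ} (he : Continuous e) :
    Continuous (Rsig s e) :=
  he.comp (continuous_onGinv362 s)

theorem bdd_rsig362 (s : AdelicAut K) {e : G K → ℂ} (he : ∃ C : ℝ, ∀ g : G K, ‖e g‖ ≤ C) :
    ∃ C : ℝ, ∀ g : G K, ‖Rsig s e g‖ ≤ C := by
  obtain ⟨C, hC⟩ := he
  exact ⟨C, fun g => hC _⟩

/-- The integrand of `R(φ) ψ` is integrable. -/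
theorem integrable_rconv362 {μ : Measure (G K)} [IsFiniteMeasureOnCompacts μ]
    {φ ψ : G K → ℂ} (hφ : Continuous φ) (hsupp : HasCompactSupport φ) (hψ : Continuous ψ)
    (x : G K) : Integrable (fun y => φ y * ψ (x * y)) μ := by
  have : BorelSpace (G K) := ⟨rfl⟩
  have hc : Continuous fun y => φ y * ψ (x * y) :=
    hφ.mul (hψ.comp (continuous_const.mul continuous_id))
  exact hc.integrable_of_hasCompactSupport hsupp.mul_right

/-- `R(φ) ψ` is continuous. -/
theorem continuous_rconv362 {μ : Measure (G K)} [IsFiniteMeasureOnCompacts μ]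
    {φ ψ : G K → ℂ} (hφ : Continuous φ) (hsupp : HasCompactSupport φ) (hψ : Continuous ψ) :
    Continuous (Rconv μ φ ψ) := by
  have : BorelSpace (G K) := ⟨rfl⟩
  rw [← continuousOn_univ]
  unfold Rconv
  refine continuousOn_integral_of_compact_support (f := fun x y => φ y * ψ (x * y))
    (k := tsupport φ) hsupp ?_ ?_
  · refine Continuous.continuousOn ?_
    show Continuous fun p : G K × G K => φ p.2 * ψ (p.1 * p.2)
    exact (hφ.comp continuous_snd).mul (hψ.comp (continuous_fst.mul continuous_snd))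
  · intro x y _ hy
    show φ y * ψ (x * y) = 0
    rw [image_eq_zero_of_notMem_tsupport hy, zero_mul]

/-- `R(φ) ψ` is bounded. -/
theorem bdd_rconv362 {μ : Measure (G K)} [IsFiniteMeasureOnCompacts μ]
    {φ ψ : G K → ℂ} (hφ : Continuous φ) (hsupp : HasCompactSupport φ)
    (hb : ∃ C : ℝ, ∀ g : G K, ‖ψ g‖ ≤ C) :
    ∃ C : ℝ, ∀ g : G K, ‖Rconv μ φ ψ g‖ ≤ C := by
  have : BorelSpace (G K) := ⟨rfl⟩
  obtain ⟨C, hC⟩ := hb
  have hint : Integrable (fun y => ‖φ y‖ * C) μ :=
    ((hφ.integrable_of_hasCompactSupport hsupp).norm).mul_const C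
  refine ⟨∫ y, ‖φ y‖ * C ∂μ, fun x => ?_⟩
  unfold Rconv
  refine norm_integral_le_of_norm_le hint (Filter.Eventually.of_forall fun y => ?_)
  rw [norm_mul]
  exact mul_le_mul_of_nonneg_left (hC _) (norm_nonneg _)

end Fermat.Agent.LT.T7.H362

end
end
-- ===== PACK-END LT/T7/H362/ChangeLin.lean

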