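import Mathlib
import Fermat.Agent.Pack.LT3.E5L1
import Fermat.Agent.Pack.LT3.E5L0
import Fermat.Agent.Pack.LT2.E0L1
import Fermat.Agent.Pack.LT3.E3L1
import Fermat.Agent.Pack.LT3.E0L3
import Fermat.Agent.Pack.LT3.E6L3
import Fermat.Agent.Pack.LT3.E6L1
import Fermat.Agent.Pack.LT3.E6L0
import Fermat.Agent.Pack.LT2.E3L1
import Fermat.Agent.Pack.LT3.E4L1
import Fermat.Agent.Pack.LT3.E3L2
import Fermat.Agent.Pack.LT3.E6L2
import Fermat.Agent.Pack.LT3.E8L1

set_option linter.all false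

-- ===== PACK-BEGIN LT/T6/H367/EllFib.lean
section



/-!
# Row LT, tower T6, leaf T6.14c `EllCountC` (helper367): systems of representatives modulo `νⁿ`

OFF-MAIN.  No gaps, nothing assumed.

A system of representatives of `𝒪 / νⁿ⁺¹` is in bijection with `B_n × T`, `(ξ, t) ↦ ξ + νⁿ t`,
`T` a system of representatives of the residue field.
-/

set_option autoImplicit false

noncomputable section

namespace Fermat.Agent.LT.T6.H367

open Fermat.Agent.LT.T6 Fermat.Agent.LT.T6.H847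

section Fib

variable {K : Type} [Field K] [Valued K Γ₀]

/-- A system of representatives of the residue field. -/
structure IsResSys367 (T : Finset K) : Prop where
  int : ∀ x ∈ T, Valued.v x ≤ 1
  sep : ∀ x ∈ T, ∀ y ∈ T, x ≠ y → Valued.v (x - y) = 1
  cov : ∀ z : K, Valued.v z ≤ 1 → ∃ x ∈ T, Valued.v (z - x) < 1

theorem exp_neg_succ_lt367 (n : ℕ) :
    (WithZero.exp (-((n + 1 : ℕ) : ℤ)) : Γ₀) < WithZero.exp (-(n : ℤ)) :=
  WithZero.exp_lt_exp.mpr (by push_cast; omega)

theorem val_pow_unif367 {ν : K} (hν : Valued.v ν = WithZero.exp (-1 : ℤ)) (n : ℕ) :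
    Valued.v (ν ^ n) = WithZero.exp (-(n : ℤ)) := by
  rw [Valuation.map_pow, hν, ← WithZero.exp_nsmul]
  congr 1
  simp

/-- A system of representatives modulo `ν⁰` is a singleton. -/
theorem reprMod_zero367 (B : Set K) (hB : IsReprMod 0 B) :
    ∃ b₀ : K, B = {b₀} ∧ Valued.v b₀ ≤ 1 := by
  obtain ⟨b₀, ⟨hb₀, _⟩, huniq⟩ := hB.2 0 (by simp)
  refine ⟨b₀, ?_, hB.1 b₀ hb₀⟩
  ext b
  simp only [Set.mem_singleton_iff]
  constructor
  · intro hb
    refine huniq b ⟨hb, ?_⟩
    rw [zero_sub, Valuation.map_neg]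
    simpa using hB.1 b hb
  · rintro rfl
    exact hb₀

/-- **The fibration `B_{n+1} ≃ B_n × T`.** -/
theorem fib367 {ν : K} (hν : Valued.v ν = WithZero.exp (-1 : ℤ)) (T : Finset K)
    (hT : IsResSys367 T) (n : ℕ) (B B' : Set K) (hB : IsReprMod n B)
    (hB' : IsReprMod (n + 1) B') (Bf : Finset K) (hBf : (Bf : Set K) = B) :
    ∃ Bf' : Finset K, (Bf' : Set K) = B' ∧
      ∀ h : K → ℂ, (∀ x y : K, Valued.v x ≤ 1 → Valued.v y ≤ 1 →
          Valued.v (x - y) ≤ WithZero.exp (-((n + 1 : ℕ) : ℤ)) → h x = h y) →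
        ∑ b ∈ Bf', h b = ∑ ξ ∈ Bf, ∑ t ∈ T, h (ξ + ν ^ n * t) := by
  classical
  have hνn := val_pow_unif367 hν n
  have hν0 : ν ≠ 0 := by
    intro h
    rw [h, Valuation.map_zero] at hν
    exact WithZero.exp_ne_zero hν.symm
  have hνn0 : ν ^ n ≠ 0 := pow_ne_zero n hν0
  have hmemB : ∀ ξ : K, ξ ∈ Bf ↔ ξ ∈ B := fun ξ => by rw [← hBf]; exact Finset.mem_coe.symm
  have hmul : ∀ t : K, Valued.v t ≤ 1 → Valued.v (ν ^ n * t) ≤ WithZero.exp (-(n : ℤ)) := by
    intro t ht
    rw [Valuation.map_mul, hνn]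
    calc WithZero.exp (-(n : ℤ)) * Valued.v t ≤ WithZero.exp (-(n : ℤ)) * 1 :=
          mul_le_mul' le_rfl ht
      _ = _ := mul_one _
  have hint : ∀ ξ : K, ξ ∈ B → ∀ t : K, t ∈ T → Valued.v (ξ + ν ^ n * t) ≤ 1 := by
    intro ξ hξ t ht
    exact Valuation.map_add_le _ (hB.1 ξ hξ)
      (le_trans (hmul t (hT.int t ht)) (exp_neg_le_one367 n))
  have hrep : ∀ x : K, Valued.v x ≤ 1 →
      ∃ b : K, b ∈ B' ∧ Valued.v (x - b) ≤ WithZero.exp (-((n + 1 : ℕ) : ℤ)) :=
    fun x hx => (hB'.2 x hx).exists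
  choose! rep hrep using hrep
  set Ψ : K × K → K := fun p => rep (p.1 + ν ^ n * p.2) with hΨ
  have hinj : Set.InjOn Ψ ((Bf ×ˢ T : Finset (K × K)) : Set (K × K)) := by
    rintro ⟨ξ, t⟩ hp ⟨ξ', t'⟩ hp' heq
    simp only [Finset.coe_product, Set.mem_prod, Finset.mem_coe] at hp hp'
    obtain ⟨hξ, ht⟩ := hp
    obtain ⟨hξ', ht'⟩ := hp'
    rw [hmemB] at hξ hξ'
    simp only [hΨ] at heq
    have h1 := (hrep _ (hint ξ hξ t ht)).2
    have h2 := (hrep _ (hint ξ' hξ' t' ht')).2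
    rw [← heq] at h2
    have h3 : Valued.v ((ξ + ν ^ n * t) - (ξ' + ν ^ n * t'))
        ≤ WithZero.exp (-((n + 1 : ℕ) : ℤ)) := by
      have e : (ξ + ν ^ n * t) - (ξ' + ν ^ n * t')
          = (ξ + ν ^ n * t - rep (ξ + ν ^ n * t)) - (ξ' + ν ^ n * t' - rep (ξ + ν ^ n * t)) := by
        ring
      rw [e]
      exact Valuation.map_sub_le _ h1 h2
    have h4 : Valued.v (ξ' - ξ) ≤ WithZero.exp (-(n : ℤ)) := by
      have e : ξ' - ξ = ν ^ n * t + -(ν ^ n * t') + -((ξ + ν ^ n * t) - (ξ' + ν ^ n * t')) := by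
        ring
      rw [e]
      refine Valuation.map_add_le _ (Valuation.map_add_le _ (hmul t (hT.int t ht)) ?_) ?_
      · rw [Valuation.map_neg]
        exact hmul t' (hT.int t' ht')
      · rw [Valuation.map_neg]
        exact le_trans h3 (exp_neg_succ_lt367 n).le
    have h5 : ξ = ξ' := by
      obtain ⟨b, _, hbu⟩ := hB.2 ξ' (hB.1 ξ' hξ')
      have e1 := hbu ξ ⟨hξ, h4⟩
      have e2 := hbu ξ' ⟨hξ', by simp⟩
      rw [e1, e2]
    subst h5
    have h6 : t = t' := by
      by_contra hne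
      have h7 := hT.sep t ht t' ht' hne
      have e : (ξ + ν ^ n * t) - (ξ + ν ^ n * t') = ν ^ n * (t - t') := by ring
      rw [e, Valuation.map_mul, hνn, h7, mul_one] at h3
      exact absurd h3 (not_le.2 (exp_neg_succ_lt367 n))
    rw [h6]
  refine ⟨(Bf ×ˢ T).image Ψ, ?_, ?_⟩
  · ext b
    simp only [Finset.coe_image, Finset.coe_product, Set.mem_image, Set.mem_prod,
      Finset.mem_coe, Prod.exists]
    constructor
    · rintro ⟨ξ, t, ⟨hξ, ht⟩, rfl⟩
      rw [hmemB] at hξ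
      exact (hrep _ (hint ξ hξ t ht)).1
    · intro hb
      have hbint := hB'.1 b hb
      obtain ⟨ξ, ⟨hξ, hξb⟩, _⟩ := hB.2 b hbint
      have hy : Valued.v ((b - ξ) / ν ^ n) ≤ 1 := by
        rw [map_div₀, hνn]
        exact div_le_one_of_le₀ hξb zero_le
      obtain ⟨t, ht, htb⟩ := hT.cov _ hy
      refine ⟨ξ, t, ⟨(hmemB ξ).2 hξ, ht⟩, ?_⟩
      have hclose : Valued.v ((ξ + ν ^ n * t) - b) ≤ WithZero.exp (-((n + 1 : ℕ) : ℤ)) := by
        have e : (ξ + ν ^ n * t) - b = -(ν ^ n * ((b - ξ) / ν ^ n - t)) := by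
          field_simp
          ring
        rw [e, Valuation.map_neg, Valuation.map_mul, hνn, exp_neg_succ367, mul_comm]
        exact mul_le_mul' (lt_one_iff367.1 htb) le_rfl
      obtain ⟨b', _, hbu⟩ := hB'.2 _ (hint ξ hξ t ht)
      have e1 := hbu b ⟨hb, hclose⟩
      have e2 := hbu _ (hrep _ (hint ξ hξ t ht))
      simp only [hΨ]
      rw [e1, e2]
  · intro h hh
    rw [Finset.sum_image hinj, Finset.sum_product]
    refine Finset.sum_congr rfl fun ξ hξ => Finset.sum_congr rfl fun t ht => ?_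
    rw [hmemB] at hξ
    have h1 := hrep _ (hint ξ hξ t ht)
    simp only [hΨ]
    refine hh _ _ (hB'.1 _ h1.1) (hint ξ hξ t ht) ?_
    rw [Valuation.map_sub_swap]
    exact h1.2

/-- **The systems of representatives are finite, of cardinality `Qⁿ`, and fibred.** -/
theorem reprFin367 {ν : K} (hν : Valued.v ν = WithZero.exp (-1 : ℤ)) (T : Finset K)
    (hT : IsResSys367 T) (B : ℕ → Set K) (hB : ∀ n, IsReprMod n (B n)) :
    ∃ Bf : ℕ → Finset K, (∀ n, ((Bf n : Finset K) : Set K) = B n) ∧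
      (∃ b₀ : K, Bf 0 = {b₀}) ∧
      (∀ n, (Bf n).card = T.card ^ n) ∧
      ∀ (n : ℕ) (h : K → ℂ), (∀ x y : K, Valued.v x ≤ 1 → Valued.v y ≤ 1 →
          Valued.v (x - y) ≤ WithZero.exp (-((n + 1 : ℕ) : ℤ)) → h x = h y) →
        ∑ b ∈ Bf (n + 1), h b = ∑ ξ ∈ Bf n, ∑ t ∈ T, h (ξ + ν ^ n * t) := by
  classical
  have hfin : ∀ n, (B n).Finite := by
    intro n
    induction n with
    | zero =>
      obtain ⟨b₀, hb₀, _⟩ := reprMod_zero367 (B 0) (hB 0)
      rw [hb₀]
      exact Set.finite_singleton b₀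
    | succ n ih =>
      obtain ⟨Bf', hBf', _⟩ := fib367 hν T hT n (B n) (B (n + 1)) (hB n) (hB (n + 1))
        ih.toFinset (Set.Finite.coe_toFinset ih)
      rw [← hBf']
      exact Finset.finite_toSet Bf'
  have hfib : ∀ (n : ℕ) (h : K → ℂ), (∀ x y : K, Valued.v x ≤ 1 → Valued.v y ≤ 1 →
        Valued.v (x - y) ≤ WithZero.exp (-((n + 1 : ℕ) : ℤ)) → h x = h y) →
      ∑ b ∈ (hfin (n + 1)).toFinset, h b
        = ∑ ξ ∈ (hfin n).toFinset, ∑ t ∈ T, h (ξ + ν ^ n * t) := by
    intro n h hh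
    obtain ⟨Bf', hBf', hsum⟩ := fib367 hν T hT n (B n) (B (n + 1)) (hB n) (hB (n + 1))
      (hfin n).toFinset (Set.Finite.coe_toFinset (hfin n))
    have e : Bf' = (hfin (n + 1)).toFinset := by
      apply Finset.coe_injective
      rw [hBf', Set.Finite.coe_toFinset]
    rw [← e]
    exact hsum h hh
  refine ⟨fun n => (hfin n).toFinset, fun n => Set.Finite.coe_toFinset (hfin n), ?_, ?_, hfib⟩
  · obtain ⟨b₀, hb₀, _⟩ := reprMod_zero367 (B 0) (hB 0)
    refine ⟨b₀, ?_⟩
    apply Finset.coe_injective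
    rw [Set.Finite.coe_toFinset, hb₀, Finset.coe_singleton]
  · intro n
    show (hfin n).toFinset.card = T.card ^ n
    induction n with
    | zero =>
      obtain ⟨b₀, hb₀, _⟩ := reprMod_zero367 (B 0) (hB 0)
      have : (hfin 0).toFinset = {b₀} := by
        apply Finset.coe_injective
        rw [Set.Finite.coe_toFinset, hb₀, Finset.coe_singleton]
      rw [this]
      simp
    | succ n ih =>
      have h1 := hfib n (fun _ => 1) (fun _ _ _ _ _ => rfl)
      simp only [Finset.sum_const, nsmul_eq_mul, mul_one] at h1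
      have h2 : (((hfin (n + 1)).toFinset.card : ℕ) : ℂ)
          = (((hfin n).toFinset.card * T.card : ℕ) : ℂ) := by
        rw [h1]
        push_cast
        ring
      have h3 := Nat.cast_injective h2
      rw [h3, ih, pow_succ]

end Fib

end Fermat.Agent.LT.T6.H367

end

end
-- ===== PACK-END LT/T6/H367/EllFib.lean

-- ===== PACK-BEGIN LT/T6/H400/ResFaithful.lean
section



/-!
# Row LT, tower T6, sub-leaf T6.12g.3 `ResFaithfulC` (helper400), OFF-MAIN

`k'/k` unramified cyclic of degree `l` with generator `s` (`IsLocalExt k k' l 1 i s`): for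
`0 < m < l` the automorphism `s ^ m` is not the identity on the residue field of `k'`, in the
form: there is an integral `x` with `v (s^m x - x) = 1`.

Proof.  Put `τ = s ^ m`, `Q = q ^ l` (the cardinality of the residue field of `k'`), `ϖ` the
image of a uniformiser of `k` (a `τ`-fixed uniformiser of `k'`).  If `τ` were trivial on the
residue field, then by induction on `n`: `v (τ x - x) ≤ exp (-n)` for all integral `x`.  Indeed
`x = x ^ Q - ϖ z` with `z` integral, `τ x - x = ((τ x) ^ Q - x ^ Q) - ϖ (τ z - z)`, and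
`(τ x) ^ Q - x ^ Q = (τ x - x) · S` with `S ≡ Q x ^ (Q - 1) ≡ 0` modulo the maximal ideal.  Hence
`τ = 1` on the integers, hence on `k'`: a contradiction with the faithfulness of `s`.
-/

set_option autoImplicit false
set_option linter.style.haveILetI false

noncomputable section

namespace Fermat.Agent.LT.T6.H400

open Fermat.Agent.LT.T6
open scoped Valued

section Residue

variable {k : Type} [Field k] [Valued k Γ₀]

/-- Membership in the maximal ideal of the valuation integers. -/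
theorem mem_max_iff400 (x : 𝒪[k]) : x ∈ 𝓂[k] ↔ Valued.v (x : k) < 1 := by
  rw [Valued.maximalIdeal, IsLocalRing.mem_maximalIdeal, mem_nonunits_iff]
  exact Valuation.Integer.not_isUnit_iff_valuation_lt_one

/-- Equality in the residue field. -/
theorem residue_eq_iff400 (x y : 𝒪[k]) :
    IsLocalRing.residue 𝒪[k] x = IsLocalRing.residue 𝒪[k] y
      ↔ Valued.v ((x : k) - (y : k)) < 1 := by
  rw [← sub_eq_zero, ← map_sub, IsLocalRing.residue_eq_zero_iff]
  exact mem_max_iff400 (x - y)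

/-- The residue field of a local field with a residue system of `q` elements has `q`
elements. -/
theorem natCard_residue400 (q : ℕ) (h : IsLocalField k q) : Nat.card 𝓀[k] = q := by
  obtain ⟨T, hcard, hint, hdiff, hsurj⟩ := h.residue
  let f : T → 𝓀[k] := fun x =>
    IsLocalRing.residue 𝒪[k] ⟨x.1, (Valuation.mem_integer_iff _ _).2 (hint x.1 x.2)⟩
  have hf : Function.Bijective f := by
    constructor
    · intro x y hxy
      by_contra hne
      have h1 : Valued.v ((x : k) - (y : k)) < 1 := (residue_eq_iff400 _ _).1 hxy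
      have h2 := hdiff x.1 x.2 y.1 y.2 (fun e => hne (Subtype.ext e))
      rw [h2] at h1
      exact lt_irrefl _ h1
    · intro z
      obtain ⟨z, rfl⟩ := IsLocalRing.residue_surjective z
      obtain ⟨x, hx, hzx⟩ := hsurj (z : k) ((Valuation.mem_integer_iff _ _).1 z.2)
      refine ⟨⟨x, hx⟩, ?_⟩
      refine (residue_eq_iff400 _ _).2 ?_
      show Valued.v (x - (z : k)) < 1
      rw [Valuation.map_sub_swap]
      exact hzx
  rw [← Nat.card_eq_of_bijective f hf, Nat.card_eq_fintype_card, Fintype.card_coe, hcard]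

/-- The number of residue classes is positive. -/
theorem q_pos400 (q : ℕ) (h : IsLocalField k q) : 0 < q := by
  obtain ⟨T, hcard, -, -, hsurj⟩ := h.residue
  obtain ⟨x, hx, -⟩ := hsurj 0 (by simp)
  rw [← hcard]
  exact Finset.card_pos.2 ⟨x, hx⟩

/-- `x ^ q ≡ x` modulo the maximal ideal. -/
theorem pow_card_sub_lt400 (q : ℕ) (h : IsLocalField k q) (x : k) (hx : Valued.v x ≤ 1) :
    Valued.v (x ^ q - x) < 1 := by
  have hq := natCard_residue400 q h
  haveI : Finite 𝓀[k] := Nat.finite_of_card_ne_zero (by rw [hq]; exact (q_pos400 q h).ne')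
  letI : Fintype 𝓀[k] := Fintype.ofFinite _
  have hq' : Fintype.card 𝓀[k] = q := by rw [← Nat.card_eq_fintype_card, hq]
  let X : 𝒪[k] := ⟨x, (Valuation.mem_integer_iff _ _).2 hx⟩
  have h1 : IsLocalRing.residue 𝒪[k] (X ^ q) = IsLocalRing.residue 𝒪[k] X := by
    rw [map_pow, ← hq']
    exact FiniteField.pow_card _
  exact (residue_eq_iff400 (X ^ q) X).1 h1

/-- `q ≡ 0` modulo the maximal ideal. -/
theorem natCast_card_lt400 (q : ℕ) (h : IsLocalField k q) : Valued.v ((q : ℕ) : k) < 1 := by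
  have hq := natCard_residue400 q h
  haveI : Finite 𝓀[k] := Nat.finite_of_card_ne_zero (by rw [hq]; exact (q_pos400 q h).ne')
  letI : Fintype 𝓀[k] := Fintype.ofFinite _
  have hq' : Fintype.card 𝓀[k] = q := by rw [← Nat.card_eq_fintype_card, hq]
  have h1 : IsLocalRing.residue 𝒪[k] ((q : ℕ) : 𝒪[k]) = 0 := by
    rw [map_natCast, ← hq']
    exact FiniteField.cast_card_eq_zero _
  have h2 := (mem_max_iff400 ((q : ℕ) : 𝒪[k])).1 ((IsLocalRing.residue_eq_zero_iff _).1 h1)
  simpa using h2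

end Residue

section ValueGroup

/-- In `ℤᵐ⁰`: `a < 1` implies `a ≤ exp (-1)`. -/
theorem le_exp_neg_one_of_lt_one400 {a : Γ₀} (h : a < 1) : a ≤ WithZero.exp (-1 : ℤ) := by
  rcases eq_or_ne a 0 with rfl | ha
  · exact zero_le
  · rw [← WithZero.log_le_iff_le_exp ha]
    have h1 : WithZero.log a < 0 := by
      rw [WithZero.log_lt_iff_lt_exp ha, WithZero.exp_zero]
      exact h
    omega

/-- In `ℤᵐ⁰`: an element below every `exp (-(n+1))` is zero. -/
theorem eq_zero_of_forall_le_exp400 {a : Γ₀}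
    (h : ∀ n : ℕ, a ≤ WithZero.exp (-((n : ℤ) + 1))) : a = 0 := by
  by_contra ha
  have h1 := h (WithZero.log a).natAbs
  rw [← WithZero.log_le_iff_le_exp ha] at h1
  omega

end ValueGroup

section Main

/-- Powers of a valuation-preserving automorphism preserve the valuation. -/
theorem val_pow400 {k' : Type} [Field k'] [Valued k' Γ₀] (s : k' ≃+* k') (hs : ∀ y : k', Valued.v (s y) = Valued.v y) (m : ℕ)
    (y : k') : Valued.v ((s ^ m) y) = Valued.v y := by
  induction m generalizing y with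
  | zero => simp
  | succ m ih =>
    rw [pow_succ]
    show Valued.v ((s ^ m) (s y)) = Valued.v y
    rw [ih, hs]

/-- Powers of an automorphism fixing the image of `i` fix the image of `i`. -/
theorem fix_pow400 {k k' : Type} [Field k] [Field k'] (i : k →+* k') (s : k' ≃+* k') (hs : ∀ x : k, s (i x) = i x) (m : ℕ)
    (x : k) : (s ^ m) (i x) = i x := by
  induction m with
  | zero => simp
  | succ m ih =>
    rw [pow_succ]
    show (s ^ m) (s (i x)) = i x
    rw [hs, ih]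

/-- The geometric sum `∑_{j<Q} a^j b^(Q-1-j)` lies in the maximal ideal when `a ≡ b` and `Q` is
the cardinality of the residue field. -/
theorem geom_lt400 {k' : Type} [Field k'] [Valued k' Γ₀] (Q : ℕ) (hk' : IsLocalField k' Q) (a b : k') (ha : Valued.v a ≤ 1)
    (hb : Valued.v b ≤ 1) (hab : Valued.v (a - b) < 1) :
    Valued.v (∑ j ∈ Finset.range Q, a ^ j * b ^ (Q - 1 - j)) < 1 := by
  have hq := natCard_residue400 Q hk'
  haveI : Finite 𝓀[k'] := Nat.finite_of_card_ne_zero (by rw [hq]; exact (q_pos400 Q hk').ne')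
  letI : Fintype 𝓀[k'] := Fintype.ofFinite _
  have hq' : Fintype.card 𝓀[k'] = Q := by rw [← Nat.card_eq_fintype_card, hq]
  let A : 𝒪[k'] := ⟨a, (Valuation.mem_integer_iff _ _).2 ha⟩
  let B : 𝒪[k'] := ⟨b, (Valuation.mem_integer_iff _ _).2 hb⟩
  have hAB : IsLocalRing.residue 𝒪[k'] A = IsLocalRing.residue 𝒪[k'] B :=
    (residue_eq_iff400 A B).2 hab
  have h1 : IsLocalRing.residue 𝒪[k'] (∑ j ∈ Finset.range Q, A ^ j * B ^ (Q - 1 - j)) = 0 := by
    rw [map_sum]
    have h2 : ∀ j ∈ Finset.range Q,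
        IsLocalRing.residue 𝒪[k'] (A ^ j * B ^ (Q - 1 - j))
          = (IsLocalRing.residue 𝒪[k'] B) ^ (Q - 1) := by
      intro j hj
      rw [map_mul, map_pow, map_pow, hAB, ← pow_add]
      congr 1
      have := Finset.mem_range.1 hj
      omega
    rw [Finset.sum_congr rfl h2, Finset.sum_const, Finset.card_range, nsmul_eq_mul]
    have h3 : ((Q : ℕ) : 𝓀[k']) = 0 := by
      rw [← hq']
      exact FiniteField.cast_card_eq_zero _
    rw [h3, zero_mul]
  have h4 := (mem_max_iff400 _).1 ((IsLocalRing.residue_eq_zero_iff _).1 h1)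
  have h5 : ((∑ j ∈ Finset.range Q, A ^ j * B ^ (Q - 1 - j) : 𝒪[k']) : k')
      = ∑ j ∈ Finset.range Q, a ^ j * b ^ (Q - 1 - j) := by
    push_cast
    rfl
  rw [h5] at h4
  exact h4

/-- **T6.12g.3 (residual faithfulness).** -/
theorem resFaithful400 : H288.ResFaithfulC := by
  intro k k' _ _ _ _ q l i s hk hk' hext m hm0 hml
  by_contra hcon
  push Not at hcon
  have hτv : ∀ y : k', Valued.v ((s ^ m) y) = Valued.v y := val_pow400 s hext.val_s m
  have hτi : ∀ x : k, (s ^ m) (i x) = i x := fix_pow400 i s hext.cyc.fix_i m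
  obtain ⟨ϖ₀, hϖ₀⟩ := hk.unif
  have hϖv : Valued.v (i ϖ₀) = WithZero.exp (-1 : ℤ) := by
    rw [hext.val_i, pow_one, hϖ₀]
  have hϖne : i ϖ₀ ≠ 0 := by
    intro h0
    rw [h0, Valuation.map_zero] at hϖv
    exact WithZero.exp_ne_zero hϖv.symm
  have hτϖ : (s ^ m) (i ϖ₀) = i ϖ₀ := hτi ϖ₀
  -- the automorphism is trivial on the residue field
  have P0 : ∀ x : k', Valued.v x ≤ 1 → Valued.v ((s ^ m) x - x) < 1 := by
    intro x hx
    refine lt_of_le_of_ne ?_ (hcon x hx)
    refine Valuation.map_sub_le _ ?_ hx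
    rw [hτv]
    exact hx
  -- induction
  have key : ∀ n : ℕ, ∀ x : k', Valued.v x ≤ 1 →
      Valued.v ((s ^ m) x - x) ≤ WithZero.exp (-((n : ℤ) + 1)) := by
    intro n
    induction n with
    | zero =>
      intro x hx
      simpa using le_exp_neg_one_of_lt_one400 (P0 x hx)
    | succ n ih =>
      intro x hx
      have hτx : Valued.v ((s ^ m) x) ≤ 1 := by rw [hτv]; exact hx
      have hxQ : Valued.v (x ^ (q ^ l) - x) ≤ WithZero.exp (-1 : ℤ) :=
        le_exp_neg_one_of_lt_one400 (pow_card_sub_lt400 (q ^ l) hk' x hx)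
      -- z = (x ^ Q - x) / ϖ
      set z : k' := (x ^ (q ^ l) - x) / i ϖ₀ with hz
      have hzv : Valued.v z ≤ 1 := by
        rw [hz, map_div₀, hϖv]
        rw [div_le_iff₀ (by simp [WithZero.exp_ne_zero, zero_lt_iff]), one_mul]
        exact hxQ
      have hϖz : i ϖ₀ * z = x ^ (q ^ l) - x := by
        rw [hz]; field_simp
      have hτz : i ϖ₀ * (s ^ m) z = ((s ^ m) x) ^ (q ^ l) - (s ^ m) x := by
        have := congrArg (s ^ m) hϖz
        rw [map_mul, hτϖ, map_sub, map_pow] at this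
        exact this
      have hdiff : (s ^ m) x - x
          = (((s ^ m) x) ^ (q ^ l) - x ^ (q ^ l)) - i ϖ₀ * ((s ^ m) z - z) := by
        rw [mul_sub, hτz, hϖz]; ring
      have h1 : Valued.v (i ϖ₀ * ((s ^ m) z - z)) ≤ WithZero.exp (-(((n + 1 : ℕ) : ℤ) + 1)) := by
        rw [map_mul, hϖv]
        calc WithZero.exp (-1 : ℤ) * Valued.v ((s ^ m) z - z)
            ≤ WithZero.exp (-1 : ℤ) * WithZero.exp (-((n : ℤ) + 1)) :=
              mul_le_mul' le_rfl (ih z hzv)
          _ = WithZero.exp (-(((n + 1 : ℕ) : ℤ) + 1)) := by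
              rw [← WithZero.exp_add]; congr 1; push_cast; ring
      have h2 : Valued.v (((s ^ m) x) ^ (q ^ l) - x ^ (q ^ l))
          ≤ WithZero.exp (-(((n + 1 : ℕ) : ℤ) + 1)) := by
        rw [← geom_sum₂_mul, map_mul]
        calc Valued.v (∑ j ∈ Finset.range (q ^ l), ((s ^ m) x) ^ j * x ^ (q ^ l - 1 - j))
              * Valued.v ((s ^ m) x - x)
            ≤ WithZero.exp (-1 : ℤ) * WithZero.exp (-((n : ℤ) + 1)) :=
              mul_le_mul' (le_exp_neg_one_of_lt_one400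
                (geom_lt400 (q ^ l) hk' _ _ hτx hx (P0 x hx))) (ih x hx)
          _ = WithZero.exp (-(((n + 1 : ℕ) : ℤ) + 1)) := by
              rw [← WithZero.exp_add]; congr 1; push_cast; ring
      rw [hdiff]
      exact Valuation.map_sub_le _ h2 h1
  -- so the automorphism is trivial on the integers
  have htriv : ∀ x : k', Valued.v x ≤ 1 → (s ^ m) x = x := by
    intro x hx
    have h0 : Valued.v ((s ^ m) x - x) = 0 :=
      eq_zero_of_forall_le_exp400 (fun n => key n x hx)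
    rw [Valuation.zero_iff] at h0
    exact sub_eq_zero.1 h0
  -- hence on `k'`
  obtain ⟨y, hy⟩ := hext.cyc.faithful m hm0 hml
  apply hy
  rcases eq_or_ne y 0 with rfl | hy0
  · simp
  have hvy : Valued.v y ≠ 0 := (Valuation.ne_zero_iff _).2 hy0
  set N : ℕ := (WithZero.log (Valued.v y)).toNat with hN
  have hint : Valued.v (i ϖ₀ ^ N * y) ≤ 1 := by
    rw [map_mul, map_pow, hϖv, ← WithZero.exp_log hvy, ← WithZero.exp_nsmul, ← WithZero.exp_add,
      ← WithZero.exp_zero, WithZero.exp_le_exp]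
    have : (0 : ℤ) ≤ (N : ℤ) ∧ WithZero.log (Valued.v y) ≤ (N : ℤ) := by
      rw [hN]; omega
    simp only [nsmul_eq_mul]
    nlinarith [this.1, this.2]
  have h3 := htriv _ hint
  rw [map_mul, map_pow, hτϖ] at h3
  exact mul_left_cancel₀ (pow_ne_zero N hϖne) h3

end Main

end Fermat.Agent.LT.T6.H400

end

end
-- ===== PACK-END LT/T6/H400/ResFaithful.lean

-- ===== PACK-BEGIN LT/T6/H131/ResFixed.lean
section



/-!
# Row LT, tower T6, sub-leaf T6.12g.4 (`ResFaithfulC → ResFixedC`) -- helper131, OFF-MAIN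

Spec: `Fermat/Agent/LT/T6/H288/IndexSpec.lean` (helper288@01ab6bb4c, sha256 cba4b102), with
`LT/T6/H288/HypSpec.lean` and `LT/T6/Spec.lean` (byte-identical copies).  Nothing is assumed, no
placeholder proof.

Proof.  `s` preserves the valuation, so it induces an automorphism `σ` of the valuation ring
`𝒪'` of `k'` (`intAut_h131`) and an automorphism `s̄` of the residue field `F'`
(`resAut_h131`, Mathlib's `IsLocalRing.ResidueField.mapAut`).  `s̄ ^ l = 1` and, by
`ResFaithfulC`, `s̄ ^ m ≠ 1` for `0 < m < l`: `s̄` has order `l`.  By Artin's theorem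
(`FixedPoints.finrank_eq_card`) `F'` has degree `l` over the fixed field of `⟨s̄⟩`, so the fixed
field has `q` elements (`#F' = q ^ l`, `natCard_residueField_h131`).  The residues of `i(T)`,
`T` the residue system of `k`, are `q` distinct fixed elements: they are ALL the fixed elements.
-/

set_option autoImplicit false
set_option linter.style.haveILetI false

open Fermat.Agent.LT.T6 Fermat.Agent.LT.T6.H288
open Valued

noncomputable section

namespace Fermat.Agent.LT.T6.H131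

section General

variable {k' : Type} [Field k'] [Valued k' Γ₀]

/-- Membership in the maximal ideal of the valuation ring. -/
theorem mem_maxIdeal_iff_h131 (y : 𝒪[k']) :
    y ∈ IsLocalRing.maximalIdeal 𝒪[k'] ↔ Valued.v (y : k') < 1 := by
  rw [IsLocalRing.mem_maximalIdeal, mem_nonunits_iff,
    (Valuation.integer.integers (Valued.v : Valuation k' Γ₀)).isUnit_iff_valuation_eq_one]
  have hy : Valued.v (y : k') ≤ 1 := y.2
  constructor
  · intro h
    exact lt_of_le_of_ne hy h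
  · intro h
    exact ne_of_lt h

/-- Equality of residues. -/
theorem residue_eq_iff_h131 (y z : 𝒪[k']) :
    IsLocalRing.residue 𝒪[k'] y = IsLocalRing.residue 𝒪[k'] z ↔
      Valued.v ((y : k') - (z : k')) < 1 := by
  rw [← sub_eq_zero, ← map_sub, IsLocalRing.residue_eq_zero_iff, mem_maxIdeal_iff_h131]
  rfl

/-- The automorphism of the valuation ring induced by a valuation-preserving automorphism. -/
def intAut_h131 (s : k' ≃+* k') (hs : ∀ y : k', Valued.v (s y) = Valued.v y) :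
    RingAut 𝒪[k'] where
  toFun y := ⟨s y, by rw [Valuation.mem_integer_iff, hs]; exact y.2⟩
  invFun y := ⟨s.symm y, by
    rw [Valuation.mem_integer_iff, ← hs (s.symm y), RingEquiv.apply_symm_apply]; exact y.2⟩
  left_inv y := Subtype.ext (s.symm_apply_apply y)
  right_inv y := Subtype.ext (s.apply_symm_apply y)
  map_mul' a b := Subtype.ext (map_mul s (a : k') (b : k'))
  map_add' a b := Subtype.ext (map_add s (a : k') (b : k'))

theorem intAut_coe_h131 (s : k' ≃+* k') (hs : ∀ y : k', Valued.v (s y) = Valued.v y)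
    (y : 𝒪[k']) : ((intAut_h131 s hs y : 𝒪[k']) : k') = s y := rfl

theorem intAut_pow_coe_h131 (s : k' ≃+* k') (hs : ∀ y : k', Valued.v (s y) = Valued.v y)
    (m : ℕ) (y : 𝒪[k']) : (((intAut_h131 s hs ^ m) y : 𝒪[k']) : k') = (s ^ m) (y : k') := by
  induction m generalizing y with
  | zero => simp
  | succ m ih =>
    rw [pow_succ, pow_succ, RingAut.mul_apply, RingAut.mul_apply, ih, intAut_coe_h131]

/-- The induced automorphism of the residue field. -/
def resAut_h131 (s : k' ≃+* k') (hs : ∀ y : k', Valued.v (s y) = Valued.v y) :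
    RingAut 𝓀[k'] :=
  IsLocalRing.ResidueField.mapAut (intAut_h131 s hs)

theorem resAut_pow_residue_h131 (s : k' ≃+* k') (hs : ∀ y : k', Valued.v (s y) = Valued.v y)
    (m : ℕ) (y : 𝒪[k']) :
    (resAut_h131 s hs ^ m) (IsLocalRing.residue 𝒪[k'] y)
      = IsLocalRing.residue 𝒪[k'] ((intAut_h131 s hs ^ m) y) := by
  unfold resAut_h131
  rw [← map_pow]
  rfl

/-- The residues of a full residue system: a bijection onto the residue field. -/
theorem residueSystem_bijective_h131 (T : Finset k') (hT1 : ∀ x ∈ T, Valued.v x ≤ 1)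
    (hT2 : ∀ x ∈ T, ∀ y ∈ T, x ≠ y → Valued.v (x - y) = 1)
    (hT3 : ∀ z : k', Valued.v z ≤ 1 → ∃ x ∈ T, Valued.v (z - x) < 1) :
    Function.Bijective
      (fun t : T => IsLocalRing.residue 𝒪[k'] ⟨(t : k'), hT1 t t.2⟩) := by
  constructor
  · intro t t' h
    have h' := (residue_eq_iff_h131 _ _).1 h
    by_contra hne
    have hne' : (t : k') ≠ (t' : k') := fun h0 => hne (Subtype.ext h0)
    have := hT2 t t.2 t' t'.2 hne'
    simp only at h'
    rw [this] at h'
    exact lt_irrefl _ h'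
  · intro y
    obtain ⟨z, rfl⟩ := IsLocalRing.residue_surjective y
    obtain ⟨x, hx, hzx⟩ := hT3 z z.2
    refine ⟨⟨x, hx⟩, ?_⟩
    rw [residue_eq_iff_h131]
    simp only
    rw [← Valuation.map_neg, neg_sub]
    exact hzx

/-- The residue field of a local field with residue system of `q` elements has `q` elements. -/
theorem natCard_residueField_h131 {q : ℕ} (hk : IsLocalField k' q) :
    Finite 𝓀[k'] ∧ Nat.card 𝓀[k'] = q := by
  obtain ⟨T, hTq, hT1, hT2, hT3⟩ := hk.residue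
  have hb := residueSystem_bijective_h131 T hT1 hT2 hT3
  refine ⟨Finite.of_surjective _ hb.2, ?_⟩
  rw [← Nat.card_eq_of_bijective _ hb, Nat.card_eq_fintype_card, Fintype.card_coe, hTq]

end General

/-- **T6.12g.4**: residual faithfulness implies that the fixed field of `s` on the residue field
of `k'` is the residue field of `k`. -/
theorem resFixedC_of_resFaithfulC_h131 (hRF : ResFaithfulC) : ResFixedC := by
  intro k k' _ _ _ _ q l i s hk hk' hext x hx hsx
  classical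
  have hl : 0 < l := hext.cyc.pos
  have hvs := hext.val_s
  have hvi : ∀ a : k, Valued.v (i a) = Valued.v a := fun a => by simpa using hext.val_i a
  obtain ⟨hfin', hcard'⟩ := natCard_residueField_h131 hk'
  -- the residual automorphism and its order
  set sb : RingAut 𝓀[k'] := resAut_h131 s hvs with hsb
  have hpow : ∀ (m : ℕ) (y : 𝒪[k']), (sb ^ m) (IsLocalRing.residue 𝒪[k'] y)
      = IsLocalRing.residue 𝒪[k'] ((intAut_h131 s hvs ^ m) y) :=
    resAut_pow_residue_h131 s hvs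
  have hord : orderOf sb = l := by
    rw [orderOf_eq_iff hl]
    constructor
    · ext y
      obtain ⟨z, rfl⟩ := IsLocalRing.residue_surjective y
      rw [hpow, RingAut.one_apply]
      congr 1
      apply Subtype.ext
      rw [intAut_pow_coe_h131]
      exact hext.cyc.order _
    · intro m hml hm hone
      obtain ⟨z, hz1, hz2⟩ := hRF k k' q l i s hk hk' hext m hm hml
      have h1 := hpow m ⟨z, hz1⟩
      rw [hone, RingAut.one_apply] at h1
      have h2 := (residue_eq_iff_h131 _ _).1 h1.symm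
      rw [intAut_pow_coe_h131] at h2
      simp only at h2
      rw [hz2] at h2
      exact lt_irrefl _ h2
  -- the cyclic group generated by `sb`
  have hGcard : Nat.card (Subgroup.zpowers sb) = l := by rw [Nat.card_zpowers, hord]
  haveI : Finite (Subgroup.zpowers sb) := Nat.finite_of_card_ne_zero (by omega)
  letI : Fintype (Subgroup.zpowers sb) := Fintype.ofFinite _
  have hArtin := FixedPoints.finrank_eq_card (Subgroup.zpowers sb) 𝓀[k']
  rw [← Nat.card_eq_fintype_card, hGcard] at hArtin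
  set Fix := FixedPoints.subfield (Subgroup.zpowers sb) 𝓀[k'] with hFix
  have hFixcard : Nat.card Fix = q := by
    have h1 : Nat.card 𝓀[k'] = Nat.card Fix ^ Module.finrank Fix 𝓀[k'] :=
      Module.natCard_eq_pow_finrank
    rw [hcard', hArtin] at h1
    exact (Nat.pow_left_injective (by omega : l ≠ 0) h1).symm
  -- the residues of the residue system of `k`
  obtain ⟨T, hTq, hT1, hT2, hT3⟩ := hk.residue
  have hiT : ∀ t : T, Valued.v (i (t : k)) ≤ 1 := fun t => by rw [hvi]; exact hT1 t t.2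
  set g : T → 𝓀[k'] := fun t => IsLocalRing.residue 𝒪[k'] ⟨i (t : k), hiT t⟩ with hg
  have hginj : Function.Injective g := by
    intro t t' h
    have h' := (residue_eq_iff_h131 _ _).1 h
    by_contra hne
    have hne' : (t : k) ≠ (t' : k) := fun h0 => hne (Subtype.ext h0)
    have := hT2 t t.2 t' t'.2 hne'
    simp only at h'
    rw [← map_sub, hvi, this] at h'
    exact lt_irrefl _ h'
  have hmemFix : ∀ y : 𝓀[k'], sb y = y → y ∈ Fix := by
    intro y hy
    rw [hFix]
    intro m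
    have hle : Subgroup.zpowers sb ≤ MulAction.stabilizer (RingAut 𝓀[k']) y := by
      rw [Subgroup.zpowers_le]
      exact MulAction.mem_stabilizer_iff.2 hy
    exact MulAction.mem_stabilizer_iff.1 (hle m.2)
  have hsub : Set.range g ⊆ (Fix : Set 𝓀[k']) := by
    rintro _ ⟨t, rfl⟩
    apply hmemFix
    have := hpow 1 ⟨i (t : k), hiT t⟩
    rw [pow_one, pow_one] at this
    rw [hg]
    simp only
    rw [this]
    congr 1
    apply Subtype.ext
    rw [intAut_coe_h131]
    exact hext.cyc.fix_i _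
  have hrange : Set.range g = (Fix : Set 𝓀[k']) := by
    refine Set.eq_of_subset_of_ncard_le hsub ?_ (Set.toFinite _)
    have h1 : (Set.range g).ncard = q := by
      rw [Set.ncard_range_of_injective hginj, Nat.card_eq_fintype_card, Fintype.card_coe, hTq]
    have h2 : (Fix : Set 𝓀[k']).ncard = q := by
      rw [← hFixcard]
      rfl
    rw [h1, h2]
  -- the residue of `x` is fixed
  have hxfix : sb (IsLocalRing.residue 𝒪[k'] ⟨x, hx⟩) = IsLocalRing.residue 𝒪[k'] ⟨x, hx⟩ := by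
    have := hpow 1 ⟨x, hx⟩
    rw [pow_one, pow_one] at this
    rw [this, residue_eq_iff_h131, intAut_coe_h131]
    exact hsx
  have hxmem : IsLocalRing.residue 𝒪[k'] ⟨x, hx⟩ ∈ Set.range g := by
    rw [hrange]
    exact hmemFix _ hxfix
  obtain ⟨t, ht⟩ := hxmem
  refine ⟨t, hT1 t t.2, ?_⟩
  have := (residue_eq_iff_h131 _ _).1 ht.symm
  exact this

end Fermat.Agent.LT.T6.H131

end
end
-- ===== PACK-END LT/T6/H131/ResFixed.lean

-- ===== PACK-BEGIN LT/T6/H502/Fields.lean
section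




/-!
# Row LT, tower T6, sub-leaf T6.07 (helper502): the fields `L = K[X]/(f)`, `M = K'[X]/(f)`

OFF-MAIN.  Mathlib only.

`K'/K` a finite extension with an automorphism `s` over `K`, `f ∈ K[X]` irreducible over `K` and
over `K'`.  `L = AdjoinRoot f`, `M = AdjoinRoot (f.map (algebraMap K K'))`, `L → M` the evident
map, `τ ∈ Aut(M/L)` = "`s` on the coefficients".
-/

set_option autoImplicit false
set_option linter.style.haveILetI false

open Polynomial

noncomputable section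

namespace Fermat.Agent.LT.T6.H502

section Fields

variable {K K' : Type} [Field K] [Field K'] [Algebra K K'] (f : K[X])

/-- The evident homomorphism `K[X]/(f) → K'[X]/(f)`. -/
def phi502 : AdjoinRoot f →+* AdjoinRoot (f.map (algebraMap K K')) :=
  AdjoinRoot.lift ((AdjoinRoot.of (f.map (algebraMap K K'))).comp (algebraMap K K'))
    (AdjoinRoot.root (f.map (algebraMap K K')))
    (by rw [← eval₂_map]; exact AdjoinRoot.eval₂_root _)

theorem phi_of502 (x : K) :
    phi502 (K' := K') f (AdjoinRoot.of f x)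
      = AdjoinRoot.of (f.map (algebraMap K K')) (algebraMap K K' x) := by
  unfold phi502
  rw [AdjoinRoot.lift_of]
  rfl

theorem phi_root502 :
    phi502 (K' := K') f (AdjoinRoot.root f) = AdjoinRoot.root (f.map (algebraMap K K')) := by
  unfold phi502
  rw [AdjoinRoot.lift_root]

theorem phi_mk502 (q : K[X]) :
    phi502 (K' := K') f (AdjoinRoot.mk f q)
      = AdjoinRoot.mk (f.map (algebraMap K K')) (q.map (algebraMap K K')) := by
  unfold phi502
  rw [AdjoinRoot.lift_mk, ← eval₂_map, ← AdjoinRoot.aeval_eq, aeval_def, AdjoinRoot.algebraMap_eq]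

/-- The `L`-algebra structure of `M`. -/
@[reducible] def algLM502 : Algebra (AdjoinRoot f) (AdjoinRoot (f.map (algebraMap K K'))) :=
  (phi502 f).toAlgebra

attribute [local instance] algLM502

theorem algebraMap_LM502 (c : AdjoinRoot f) :
    algebraMap (AdjoinRoot f) (AdjoinRoot (f.map (algebraMap K K'))) c = phi502 f c := rfl

instance towerKLM502 : IsScalarTower K (AdjoinRoot f) (AdjoinRoot (f.map (algebraMap K K'))) :=
  IsScalarTower.of_algebraMap_eq fun x => by
    rw [algebraMap_LM502, AdjoinRoot.algebraMap_eq, phi_of502, AdjoinRoot.algebraMap_eq']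
    rfl

/-- "`s` on the coefficients" as a ring endomorphism of `M`. -/
def tauRing502 (s : K' ≃ₐ[K] K') :
    AdjoinRoot (f.map (algebraMap K K')) →+* AdjoinRoot (f.map (algebraMap K K')) :=
  AdjoinRoot.lift ((AdjoinRoot.of (f.map (algebraMap K K'))).comp ((s : K' ≃+* K') : K' →+* K'))
    (AdjoinRoot.root (f.map (algebraMap K K')))
    (by
      rw [eval₂_map]
      have h : (((AdjoinRoot.of (f.map (algebraMap K K'))).comp
          ((s : K' ≃+* K') : K' →+* K')).comp (algebraMap K K'))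
          = (AdjoinRoot.of (f.map (algebraMap K K'))).comp (algebraMap K K') := by
        ext x
        simp
      rw [h, ← eval₂_map]
      exact AdjoinRoot.eval₂_root _)

theorem tauRing_of502 (s : K' ≃ₐ[K] K') (x : K') :
    tauRing502 f s (AdjoinRoot.of (f.map (algebraMap K K')) x)
      = AdjoinRoot.of (f.map (algebraMap K K')) (s x) := by
  unfold tauRing502
  rw [AdjoinRoot.lift_of]
  rfl

theorem tauRing_root502 (s : K' ≃ₐ[K] K') :
    tauRing502 f s (AdjoinRoot.root (f.map (algebraMap K K')))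
      = AdjoinRoot.root (f.map (algebraMap K K')) := by
  unfold tauRing502
  rw [AdjoinRoot.lift_root]

theorem tauRing_phi502 (s : K' ≃ₐ[K] K') (c : AdjoinRoot f) :
    tauRing502 f s (phi502 f c) = phi502 f c := by
  induction c using AdjoinRoot.induction_on with
  | ih q =>
    rw [phi_mk502]
    induction q using Polynomial.induction_on' with
    | add p q hp hq => rw [Polynomial.map_add, map_add, map_add, hp, hq]
    | monomial n a =>
      rw [Polynomial.map_monomial, ← C_mul_X_pow_eq_monomial, map_mul, map_pow, AdjoinRoot.mk_C,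
        AdjoinRoot.mk_X, map_mul, map_pow, tauRing_of502, tauRing_root502, s.commutes]

/-- "`s` on the coefficients" as an `L`-algebra endomorphism of `M`. -/
def tauAlg502 (s : K' ≃ₐ[K] K') :
    AdjoinRoot (f.map (algebraMap K K')) →ₐ[AdjoinRoot f] AdjoinRoot (f.map (algebraMap K K')) :=
  { tauRing502 f s with
    commutes' := fun c => tauRing_phi502 f s c }

theorem tauAlg_apply502 (s : K' ≃ₐ[K] K') (y : AdjoinRoot (f.map (algebraMap K K'))) :
    tauAlg502 f s y = tauRing502 f s y := rfl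

end Fields

end Fermat.Agent.LT.T6.H502

end

end
-- ===== PACK-END LT/T6/H502/Fields.lean

-- ===== PACK-BEGIN LT/T6/H75/TorusTop.lean
section






/-!
# Row LT, tower T6: the centraliser of an elliptic element of `GL₂(ℝ)` as a measured group
(helper75)

OFF-MAIN.  No hole.  For `γ ∈ GL₂(ℝ)` with `disc γ ≠ 0` and `T = twCentSub id γ` (Borel
σ-algebra): `T` is commutative, second countable, locally compact; every Haar measure of `T` is
σ-finite, right invariant and inversion invariant.  Assets used (byte-identical copies):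
helper296 `H296/Cutoff*.lean`, helper972 `H972/RightInvR.lean`, helper8 `H8/Unimod.lean`.
-/

set_option autoImplicit false
set_option linter.style.haveILetI false

open MeasureTheory

noncomputable section

namespace Fermat.Agent.LT.T6.H75

open Fermat.Agent.LT.T6

/-- The centraliser of a regular element of `GL₂(ℝ)` is commutative. -/
theorem torus_comm75 (γ : GL (Fin 2) ℝ) (hdisc : disc γ ≠ 0)
    (s t : twCentSub (MonoidHom.id (GL (Fin 2) ℝ)) γ) : s * t = t * s := by
  have hD : H296.qd296 (γ : Matrix (Fin 2) (Fin 2) ℝ) ≠ 0 := by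
    unfold disc at hdisc
    unfold H296.qd296
    exact div_ne_zero hdisc (by norm_num)
  apply Subtype.ext
  exact H296.cent_comm296 _ hD s t ((H296.mem_twCentSub_id296 γ s).mp s.2)
    ((H296.mem_twCentSub_id296 γ t).mp t.2)

theorem secondCountable_torus75 (γ : GL (Fin 2) ℝ) :
    SecondCountableTopology (twCentSub (MonoidHom.id (GL (Fin 2) ℝ)) γ) := by
  haveI := H972.secondCountable_GL2R972
  exact TopologicalSpace.Subtype.secondCountableTopology _

theorem locallyCompact_torus75 (γ : GL (Fin 2) ℝ) :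
    LocallyCompactSpace (twCentSub (MonoidHom.id (GL (Fin 2) ℝ)) γ) := by
  haveI := H972.locallyCompactSpace_GL2R972
  exact (H296.isClosed_twCentSub_id296 γ).locallyCompactSpace

/-- Every Haar measure of the torus is σ-finite. -/
theorem sigmaFinite_torus75 (γ : GL (Fin 2) ℝ)
    (μT : @Measure (twCentSub (MonoidHom.id (GL (Fin 2) ℝ)) γ) (borel _))
    (hμT : @Measure.IsHaarMeasure _ _ _ (borel _) μT) :
    @SigmaFinite _ (borel _) μT := by
  letI : MeasurableSpace (twCentSub (MonoidHom.id (GL (Fin 2) ℝ)) γ) := borel _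
  haveI : BorelSpace (twCentSub (MonoidHom.id (GL (Fin 2) ℝ)) γ) := ⟨rfl⟩
  haveI := secondCountable_torus75 γ
  haveI := locallyCompact_torus75 γ
  haveI : μT.IsHaarMeasure := hμT
  infer_instance

/-- Every Haar measure of the torus is inversion invariant. -/
theorem invInvariant_torus75 (γ : GL (Fin 2) ℝ) (hdisc : disc γ ≠ 0)
    (μT : @Measure (twCentSub (MonoidHom.id (GL (Fin 2) ℝ)) γ) (borel _))
    (hμT : @Measure.IsHaarMeasure _ _ _ (borel _) μT) :
    @Measure.IsInvInvariant _ (borel _) _ μT := by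
  letI : MeasurableSpace (twCentSub (MonoidHom.id (GL (Fin 2) ℝ)) γ) := borel _
  haveI : BorelSpace (twCentSub (MonoidHom.id (GL (Fin 2) ℝ)) γ) := ⟨rfl⟩
  haveI := secondCountable_torus75 γ
  haveI := locallyCompact_torus75 γ
  haveI : μT.IsHaarMeasure := hμT
  haveI : μT.IsMulRightInvariant := by
    constructor
    intro g
    have e : (fun x : twCentSub (MonoidHom.id (GL (Fin 2) ℝ)) γ => x * g) = fun x => g * x := by
      funext x
      exact torus_comm75 γ hdisc x g
    rw [e]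
    exact map_mul_left_eq_self μT g
  exact ⟨H972.map_inv_eq_self_of_rightInv972 μT⟩

/-- Every Haar measure of `GL₂(ℂ)` is σ-finite. -/
theorem sigmaFinite_GL2C75 (μ' : @Measure (GL (Fin 2) ℂ) (borel _))
    (hμ' : @Measure.IsHaarMeasure _ _ _ (borel _) μ') : @SigmaFinite _ (borel _) μ' := by
  letI : MeasurableSpace (GL (Fin 2) ℂ) := borel _
  haveI : BorelSpace (GL (Fin 2) ℂ) := ⟨rfl⟩
  haveI := H8.secondCountableTopology_GL2C8
  haveI := H8.locallyCompactSpace_GL2C8
  haveI : μ'.IsHaarMeasure := hμ'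
  infer_instance

/-- The inclusion of the torus in `GL₂(ℂ)`. -/
def torIncl75 (γ : GL (Fin 2) ℝ) :
    twCentSub (MonoidHom.id (GL (Fin 2) ℝ)) γ →* GL (Fin 2) ℂ :=
  (Matrix.GeneralLinearGroup.map (algebraMap ℝ ℂ)).comp (Subgroup.subtype _)

theorem torIncl_apply75 (γ : GL (Fin 2) ℝ) (t : twCentSub (MonoidHom.id (GL (Fin 2) ℝ)) γ) :
    torIncl75 γ t = Matrix.GeneralLinearGroup.map (algebraMap ℝ ℂ) (t : GL (Fin 2) ℝ) := rfl

theorem continuous_mapRC75 :
    Continuous (Matrix.GeneralLinearGroup.map (algebraMap ℝ ℂ) :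
      GL (Fin 2) ℝ → GL (Fin 2) ℂ) := by
  unfold Matrix.GeneralLinearGroup.map
  apply Continuous.units_map
  exact Continuous.matrix_map continuous_id Complex.continuous_ofReal

theorem continuous_torIncl75 (γ : GL (Fin 2) ℝ) : Continuous (torIncl75 γ) :=
  continuous_mapRC75.comp continuous_subtype_val

/-- The action map `(t, x) ↦ t x` is measurable for the product of the Borel σ-algebras. -/
theorem measurable_torAct75 (γ : GL (Fin 2) ℝ) :
    @Measurable _ _ (@Prod.instMeasurableSpace _ _ (borel _) (borel _)) (borel _)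
      (fun p : twCentSub (MonoidHom.id (GL (Fin 2) ℝ)) γ × GL (Fin 2) ℂ =>
        torIncl75 γ p.1 * p.2) := by
  letI : MeasurableSpace (GL (Fin 2) ℂ) := borel _
  haveI : BorelSpace (GL (Fin 2) ℂ) := ⟨rfl⟩
  letI : MeasurableSpace (twCentSub (MonoidHom.id (GL (Fin 2) ℝ)) γ) := borel _
  haveI : BorelSpace (twCentSub (MonoidHom.id (GL (Fin 2) ℝ)) γ) := ⟨rfl⟩
  haveI := H8.secondCountableTopology_GL2C8
  haveI := secondCountable_torus75 γ
  have hc : Continuous (fun p : twCentSub (MonoidHom.id (GL (Fin 2) ℝ)) γ × GL (Fin 2) ℂ =>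
      torIncl75 γ p.1 * p.2) :=
    ((continuous_torIncl75 γ).comp continuous_fst).mul continuous_snd
  exact hc.measurable

end Fermat.Agent.LT.T6.H75

end

end
-- ===== PACK-END LT/T6/H75/TorusTop.lean

-- ===== PACK-BEGIN LT/T6/H769/CoreSel.lean
section


/-!
# Row LT, T6.00q.7 `CoreC438` (helper769, OFF-MAIN): the abstract core, main theorem
-/

set_option autoImplicit false

namespace Fermat.Agent.LT.T6.H769

open scoped NumberTheorySymbols

theorem sqf_neg769 {x : ℤ} (h : Squarefree x) : Squarefree (-x) := by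
  rw [← Int.squarefree_natAbs, Int.natAbs_neg, Int.squarefree_natAbs]
  exact h

/-- **The abstract core.** -/
theorem core_abs769 (m n₀ : ℤ) (hm : Squarefree m) (hn : Squarefree n₀) (hm1 : m ≠ 1)
    (hsign : ¬ (m < 0 ∧ n₀ < 0))
    (hL1 : ∀ p : ℕ, p.Prime → p ≠ 2 → (p : ℤ) ∣ n₀ → ¬ (p : ℤ) ∣ m → J(m | p) = 1)
    (hL3 : (2 : ℤ) ∣ n₀ → ¬ (2 : ℤ) ∣ m → m % 8 ≠ 5)
    (hL4a : (3 : ℤ) ∣ m → ¬ (3 : ℤ) ∣ n₀ → n₀ % 3 = 1)
    (hL4b : (3 : ℤ) ∣ m → (3 : ℤ) ∣ n₀ → (-(m / 3) * (n₀ / 3)) % 3 = 1) :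
    ∃ q : ℕ, q.Prime ∧ q % 3 = 1 ∧
      ∃ X Y Z : ℤ, Z ≠ 0 ∧ X ^ 2 = m * Y ^ 2 + n₀ * q * Z ^ 2 := by
  obtain ⟨g, m₁, n₁, hg, hmg, hng, hc_mn, hc_gm, hc_gn⟩ := gcd_split769 m n₀ hm hn
  have hm0 : m ≠ 0 := hm.ne_zero
  have hn0 : n₀ ≠ 0 := hn.ne_zero
  have hgZ : (0 : ℤ) < g := by exact_mod_cast hg
  have hm₁0 : m₁ ≠ 0 := by
    rintro rfl
    simp at hmg
    exact hm0 hmg
  have hn₁0 : n₁ ≠ 0 := by
    rintro rfl
    simp at hng
    exact hn0 hng
  have hsq_g : Squarefree (g : ℤ) := by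
    have := hm
    rw [hmg] at this
    exact (squarefree_mul_iff.mp this).2.1
  have hsq_m₁ : Squarefree m₁ := by
    have := hm
    rw [hmg] at this
    exact (squarefree_mul_iff.mp this).2.2
  have hsq_n₁ : Squarefree n₁ := by
    have := hn
    rw [hng] at this
    exact (squarefree_mul_iff.mp this).2.2
  -- odd parts
  obtain ⟨i, a, ha, hA⟩ := Nat.exists_eq_two_pow_mul_odd hg.ne'
  obtain ⟨tB, j, b, hb, hB, htB⟩ := odd_decomp769 (-m₁) (neg_ne_zero.mpr hm₁0)
  obtain ⟨tC, k, c₃, hc, hC, htC⟩ := odd_decomp769 (-n₁) (neg_ne_zero.mpr hn₁0)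
  have ha2 : a % 2 = 1 := Nat.odd_iff.mp ha
  have hAz : (g : ℤ) = 2 ^ i * a := by rw [hA]; push_cast; ring
  have hAz1 : (g : ℤ) = 1 * 2 ^ i * a := by rw [hAz]; ring
  have hi := exp_le_one769 hsq_g hAz1
  have hj := exp_le_one769 (sqf_neg769 hsq_m₁) hB
  have hk := exp_le_one769 (sqf_neg769 hsq_n₁) hC
  -- divisibilities
  have ha_g : (a : ℤ) ∣ g := ⟨2 ^ i, by rw [hAz]; ring⟩
  have hb_m : (b : ℤ) ∣ m₁ := (dvd_neg).mp ⟨sgn769 tB * 2 ^ j, by rw [hB]; ring⟩
  have hc_n : (c₃ : ℤ) ∣ n₁ := (dvd_neg).mp ⟨sgn769 tC * 2 ^ k, by rw [hC]; ring⟩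
  have hi2 : i = 1 → (2 : ℤ) ∣ g := fun h => ⟨a, by rw [hAz, h]; ring⟩
  have hj2 : j = 1 → (2 : ℤ) ∣ m₁ := fun h =>
    (dvd_neg).mp ⟨sgn769 tB * b, by rw [hB, h]; ring⟩
  have hk2 : k = 1 → (2 : ℤ) ∣ n₁ := fun h =>
    (dvd_neg).mp ⟨sgn769 tC * c₃, by rw [hC, h]; ring⟩
  have h2unit : ¬ IsUnit (2 : ℤ) := by
    rw [Int.isUnit_iff]
    omega
  have hij : ¬ (i = 1 ∧ j = 1) := fun ⟨h1, h2⟩ =>
    h2unit (hc_gm.isUnit_of_dvd' (hi2 h1) (hj2 h2))
  have hik : ¬ (i = 1 ∧ k = 1) := fun ⟨h1, h2⟩ =>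
    h2unit (hc_gn.isUnit_of_dvd' (hi2 h1) (hk2 h2))
  have hjk : ¬ (j = 1 ∧ k = 1) := fun ⟨h1, h2⟩ =>
    h2unit (hc_mn.isUnit_of_dvd' (hj2 h1) (hk2 h2))
  obtain ⟨t, ht4, hit, hjt, hkt⟩ : ∃ t < 4, i = (if t = 1 then 1 else 0) ∧
      j = (if t = 2 then 1 else 0) ∧ k = (if t = 3 then 1 else 0) := by
    rcases hi with hi | hi <;> rcases hj with hj | hj <;> rcases hk with hk | hk
    · exact ⟨0, by norm_num, by simp [hi], by simp [hj], by simp [hk]⟩
    · exact ⟨3, by norm_num, by simp [hi], by simp [hj], by simp [hk]⟩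
    · exact ⟨2, by norm_num, by simp [hi], by simp [hj], by simp [hk]⟩
    · exact absurd ⟨hj, hk⟩ hjk
    · exact ⟨1, by norm_num, by simp [hi], by simp [hj], by simp [hk]⟩
    · exact absurd ⟨hi, hk⟩ hik
    · exact absurd ⟨hi, hj⟩ hij
    · exact absurd ⟨hi, hj⟩ hij
  -- coprimalities
  have hca_m : IsCoprime (a : ℤ) m₁ := hc_gm.of_isCoprime_of_dvd_left ha_g
  have hca_n : IsCoprime (a : ℤ) n₁ := hc_gn.of_isCoprime_of_dvd_left ha_g
  have hcb_n : IsCoprime (b : ℤ) n₁ := hc_mn.of_isCoprime_of_dvd_left hb_m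
  have hcb_g : IsCoprime (b : ℤ) g := hc_gm.symm.of_isCoprime_of_dvd_left hb_m
  have hcc_g : IsCoprime (c₃ : ℤ) g := hc_gn.symm.of_isCoprime_of_dvd_left hc_n
  have hcc_m : IsCoprime (c₃ : ℤ) m₁ := hc_mn.symm.of_isCoprime_of_dvd_left hc_n
  have hab : a.Coprime b := Nat.isCoprime_iff_coprime.mp (hca_m.of_isCoprime_of_dvd_right hb_m)
  have hac : a.Coprime c₃ := Nat.isCoprime_iff_coprime.mp (hca_n.of_isCoprime_of_dvd_right hc_n)
  have hbc : b.Coprime c₃ := Nat.isCoprime_iff_coprime.mp (hcb_n.of_isCoprime_of_dvd_right hc_n)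
  -- signs
  have hsign' : ¬ (tB = true ∧ tC = true) := by
    rintro ⟨h1, h2⟩
    have h3 : m₁ < 0 := by have := htB.mp h1; linarith
    have h4 : n₁ < 0 := by have := htC.mp h2; linarith
    apply hsign
    constructor
    · rw [hmg]; exact mul_neg_of_pos_of_neg hgZ h3
    · rw [hng]; exact mul_neg_of_pos_of_neg hgZ h4
  -- the `2`-adic constraint
  have h2adic : t = 3 → (tB = true → (a * b) % 8 ≠ 3) ∧ (tB = false → (a * b) % 8 ≠ 5) := by
    intro ht3
    have hk1 : k = 1 := by rw [hkt]; simp [ht3]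
    have hi0 : i = 0 := by rw [hit]; simp [ht3]
    have hj0 : j = 0 := by rw [hjt]; simp [ht3]
    have h2n : (2 : ℤ) ∣ n₀ := by rw [hng]; exact (hk2 hk1).mul_left _
    have hmE : m = -(sgn769 tB * ((a * b : ℕ) : ℤ)) := by
      rw [hmg, hAz, hi0]
      have : m₁ = -(sgn769 tB * 2 ^ j * b) := by linarith
      rw [this, hj0]
      push_cast
      ring
    have hab2 : (a * b) % 2 = 1 := by
      rw [Nat.mul_mod, ha2, hb]
    have h2m : ¬ (2 : ℤ) ∣ m := by
      rw [hmE]
      rcases sgn_cases769 tB with e | e <;> rw [e] <;> omega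
    have h5 := hL3 h2n h2m
    rw [hmE] at h5
    constructor
    · intro htt
      rw [htt] at h5
      simp only [sgn769, if_true] at h5
      omega
    · intro htt
      rw [htt] at h5
      simp only [sgn769] at h5
      norm_num at h5
      omega
  obtain ⟨u, hu8, hu2, hu⟩ := omega769 a b c₃ ha2 hb hc tB tC hsign' t ht4 h2adic
  -- the modulus at `3`
  have h3p : Prime (3 : ℤ) := by
    have := Nat.prime_iff_prime_int.mp Nat.prime_three
    exact_mod_cast this
  obtain ⟨w, hw, hwa, hwb, hw1⟩ : ∃ w : ℕ, (w = 1 ∨ w = 3) ∧ IsCoprime (w : ℤ) a ∧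
      IsCoprime (w : ℤ) b ∧ (w = 1 ↔ (3 : ℤ) ∣ m) := by
    by_cases h3 : (3 : ℤ) ∣ m
    · refine ⟨1, Or.inl rfl, ?_, ?_, by simp [h3]⟩
      · push_cast
        exact isCoprime_one_left
      · push_cast
        exact isCoprime_one_left
    · refine ⟨3, Or.inr rfl, ?_, ?_, by simp [h3]⟩
      · push_cast
        rw [h3p.coprime_iff_not_dvd]
        intro h
        exact h3 (by rw [hmg]; exact (h.trans ha_g).mul_right _)
      · push_cast
        rw [h3p.coprime_iff_not_dvd]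
        intro h
        exact h3 (by rw [hmg]; exact (h.trans hb_m).mul_left _)
  -- the residue class
  have h2p : Prime (2 : ℤ) := by
    have := Nat.prime_iff_prime_int.mp Nat.prime_two
    exact_mod_cast this
  have h2odd : ∀ n : ℕ, n % 2 = 1 → IsCoprime (8 : ℤ) n := by
    intro n hn
    have h1 : IsCoprime (2 : ℤ) n := by
      rw [h2p.coprime_iff_not_dvd]
      omega
    have h2 := h1.pow_left (m := 3)
    norm_num at h2
    exact h2
  have h8w : IsCoprime (8 : ℤ) w := by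
    rcases hw with rfl | rfl
    · push_cast
      exact isCoprime_one_right
    · exact h2odd 3 (by norm_num)
  have hab' : IsCoprime (a : ℤ) b := Nat.isCoprime_iff_coprime.mpr hab
  obtain ⟨r, hr8, hrw, hra, hrb⟩ :=
    crt4_769 8 w a b h8w (h2odd a ha2) (h2odd b hb) hwa hwb hab' u 1 (-(m₁ * n₁)) n₀
  have hcn₀b : IsCoprime n₀ (b : ℤ) := by
    rw [hng]
    exact (hcb_g.symm).mul_left hcb_n.symm
  have hcmna : IsCoprime (m₁ * n₁) (a : ℤ) := hca_m.symm.mul_left hca_n.symm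
  have hr_8 : IsCoprime r 8 := coprime_of_dvd_sub769 hr8 (h2odd u hu2).symm
  have hr_w : IsCoprime r w := coprime_of_dvd_sub769 hrw isCoprime_one_left
  have hr_a : IsCoprime r a := coprime_of_dvd_sub769 hra hcmna.neg_left
  have hr_b : IsCoprime r b := coprime_of_dvd_sub769 hrb hcn₀b
  have ha0 : a ≠ 0 := by rintro rfl; simp at ha2
  have hb0 : b ≠ 0 := by rintro rfl; simp at hb
  have hc0 : c₃ ≠ 0 := by rintro rfl; simp at hc
  have hw0 : w ≠ 0 := by rcases hw with rfl | rfl <;> norm_num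
  have hN : 8 * w * a * b ≠ 0 := by positivity
  have hcopN : IsCoprime r ((8 * w * a * b : ℕ) : ℤ) := by
    push_cast
    exact ((hr_8.mul_right hr_w).mul_right hr_a).mul_right hr_b
  obtain ⟨q, hqgt, hqp, hqr⟩ :=
    Nat.forall_exists_prime_gt_and_zmodEq (m.natAbs + n₀.natAbs) hN hcopN
  have hd : ((8 * w * a * b : ℕ) : ℤ) ∣ r - q := Int.modEq_iff_dvd.mp hqr
  push_cast at hd
  have q8 : (8 : ℤ) ∣ q - u := by
    have h1 : (8 : ℤ) ∣ r - q := dvd_trans ⟨w * a * b, by ring⟩ hd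
    have : (q : ℤ) - u = (r - u) - (r - q) := by ring
    rw [this]
    exact dvd_sub hr8 h1
  have qw : (w : ℤ) ∣ q - 1 := by
    have h1 : (w : ℤ) ∣ r - q := dvd_trans ⟨8 * a * b, by ring⟩ hd
    have : (q : ℤ) - 1 = (r - 1) - (r - q) := by ring
    rw [this]
    exact dvd_sub hrw h1
  have qa : (a : ℤ) ∣ q + m₁ * n₁ := by
    have h1 : (a : ℤ) ∣ r - q := dvd_trans ⟨8 * w * b, by ring⟩ hd
    have : (q : ℤ) + m₁ * n₁ = (r - -(m₁ * n₁)) - (r - q) := by ring
    rw [this]
    exact dvd_sub hra h1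
  have qb : (b : ℤ) ∣ q - n₀ := by
    have h1 : (b : ℤ) ∣ r - q := dvd_trans ⟨8 * w * a, by ring⟩ hd
    have : (q : ℤ) - n₀ = (r - n₀) - (r - q) := by ring
    rw [this]
    exact dvd_sub hrb h1
  have hq8 : q % 8 = u := by omega
  have hq2 : q % 2 = 1 := by omega
  have hqm : ¬ (q : ℤ) ∣ m := by
    intro h
    have h1 : q ∣ m.natAbs := by
      have := Int.natAbs_dvd_natAbs.mpr h
      simpa using this
    have h2 := Nat.le_of_dvd (Int.natAbs_pos.mpr hm0) h1
    omega
  have hqn : ¬ (q : ℤ) ∣ n₀ := by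
    intro h
    have h1 : q ∣ n₀.natAbs := by
      have := Int.natAbs_dvd_natAbs.mpr h
      simpa using this
    have h2 := Nat.le_of_dvd (Int.natAbs_pos.mpr hn0) h1
    omega
  have hqz : Prime (q : ℤ) := Nat.prime_iff_prime_int.mp hqp
  have hAz2 : (g : ℤ) = sgn769 true * 2 ^ i * a := by rw [hAz]; simp [sgn769]
  -- `q ≡ 1 mod 3`
  have hq3 : q % 3 = 1 := by
    by_cases h3 : (3 : ℤ) ∣ m
    · have h3' := h3
      rw [hmg] at h3'
      rcases h3p.dvd_or_dvd h3' with h | h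
      · have h3a : (3 : ℤ) ∣ a := by
          have := odd_prime_dvd769 (p := 3) Nat.prime_three (by norm_num) hAz2
            (by exact_mod_cast h)
          exact_mod_cast this
        have h3n : (3 : ℤ) ∣ n₀ := by rw [hng]; exact h.mul_right _
        have h4 := hL4b h3 h3n
        obtain ⟨g', hg'⟩ := h
        have e1 : m / 3 = g' * m₁ := by
          rw [hmg, hg', mul_assoc]
          exact Int.mul_ediv_cancel_left _ (by norm_num)
        have e2 : n₀ / 3 = g' * n₁ := by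
          rw [hng, hg', mul_assoc]
          exact Int.mul_ediv_cancel_left _ (by norm_num)
        rw [e1, e2] at h4
        have h5 : ¬ (3 : ℤ) ∣ g' := by
          rintro ⟨g'', hg''⟩
          have h6 : (3 : ℤ) * 3 ∣ g := ⟨g'', by rw [hg', hg'']; ring⟩
          have h7 := hsq_g 3 h6
          rw [Int.isUnit_iff] at h7
          omega
        have h6 : ∃ k : ℤ, g' ^ 2 = 3 * k + 1 := by
          have : g' % 3 = 1 ∨ g' % 3 = 2 := by omega
          rcases this with h | h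
          · obtain ⟨k, hk⟩ : ∃ k, g' = 3 * k + 1 := ⟨g' / 3, by omega⟩
            exact ⟨3 * k ^ 2 + 2 * k, by rw [hk]; ring⟩
          · obtain ⟨k, hk⟩ : ∃ k, g' = 3 * k + 2 := ⟨g' / 3, by omega⟩
            exact ⟨3 * k ^ 2 + 4 * k + 1, by rw [hk]; ring⟩
        obtain ⟨k', hk'⟩ := h6
        have h8 : (3 : ℤ) ∣ q + m₁ * n₁ := h3a.trans qa
        have h9 : -(g' * m₁) * (g' * n₁) = -(m₁ * n₁) + 3 * (-(k' * (m₁ * n₁))) := by
          linear_combination (-(m₁ * n₁)) * hk'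
        rw [h9] at h4
        generalize m₁ * n₁ = P at h4 h8
        generalize k' * P = Q at h4
        omega
      · have h3b : (3 : ℤ) ∣ b := by
          have := odd_prime_dvd769 (p := 3) Nat.prime_three (by norm_num) hB
            (by exact_mod_cast (dvd_neg).mpr h)
          exact_mod_cast this
        have h3n : ¬ (3 : ℤ) ∣ n₀ := by
          intro h'
          have h4 : IsCoprime (3 : ℤ) n₀ := hcn₀b.symm.of_isCoprime_of_dvd_left h3b
          exact h3p.not_unit (h4.isUnit_of_dvd' dvd_rfl h')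
        have h4 := hL4a h3 h3n
        have h8 : (3 : ℤ) ∣ q - n₀ := h3b.trans qb
        omega
    · have hw3 : w = 3 := by
        rcases hw with h | h
        · exact absurd (hw1.mp h) h3
        · exact h
      rw [hw3] at qw
      push_cast at qw
      omega
  -- `q` is prime to `a`, `b`, `c₃`
  have hq_not_dvd : ∀ x : ℕ, ((x : ℤ) ∣ m ∨ (x : ℤ) ∣ n₀) → ¬ q ∣ x := by
    intro x hx hqx
    have hqx' : (q : ℤ) ∣ x := by exact_mod_cast hqx
    rcases hx with h | h
    · exact hqm (hqx'.trans h)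
    · exact hqn (hqx'.trans h)
  have ha_m : (a : ℤ) ∣ m := by rw [hmg]; exact ha_g.mul_right _
  have hb_m' : (b : ℤ) ∣ m := by rw [hmg]; exact hb_m.mul_left _
  have hc_n' : (c₃ : ℤ) ∣ n₀ := by rw [hng]; exact hc_n.mul_left _
  have hqa : a.Coprime q :=
    ((Nat.Prime.coprime_iff_not_dvd hqp).mpr (hq_not_dvd a (Or.inl ha_m))).symm
  have hqb : b.Coprime q :=
    ((Nat.Prime.coprime_iff_not_dvd hqp).mpr (hq_not_dvd b (Or.inl hb_m'))).symm
  have hcq2 : (c₃ * q) % 2 = 1 := by rw [Nat.mul_mod, hc, hq2]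
  -- the product formula
  have hT := lemmaT769 a b (c₃ * q) ha2 hb hcq2 hab (Nat.Coprime.mul_right hac hqa)
    (Nat.Coprime.mul_right hbc hqb) (sgn769 tB) (sgn769 tC) (sgn_cases769 tB) (sgn_cases769 tC)
    i j k
  have hF : F8_769 a b (c₃ * q) (sgn769 tB) (sgn769 tC) i j k = 1 := by
    rw [hit, hjt, hkt]
    exact hu q hq8
  have hC' : sgn769 tC * 2 ^ k * ((c₃ * q : ℕ) : ℤ) = -(n₁ * q) := by
    push_cast
    linear_combination (-(q : ℤ)) * hC
  have e1 : -(sgn769 tB * 2 ^ j * (b : ℤ)) * (sgn769 tC * 2 ^ k * ((c₃ * q : ℕ) : ℤ)) =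
      -(m₁ * (n₁ * q)) := by
    rw [hC', ← hB]
    ring
  have e2 : -(sgn769 tC * 2 ^ k * ((c₃ * q : ℕ) : ℤ)) * (2 ^ i * (a : ℤ)) = n₀ * q := by
    rw [hC', ← hAz, hng]
    ring
  have e3 : -(2 ^ i * (a : ℤ)) * (sgn769 tB * 2 ^ j * (b : ℤ)) = m := by
    rw [← hB, ← hAz, hmg]
    ring
  rw [e1, e2, e3, hF] at hT
  have J1 : J(-(m₁ * (n₁ * q)) | a) = 1 := by
    apply jac_sq_of_dvd769 (y := m₁ * n₁) _ hcmna
    have : -(m₁ * (n₁ * q)) - (m₁ * n₁) ^ 2 = (q + m₁ * n₁) * (-(m₁ * n₁)) := by ring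
    rw [this]
    exact qa.mul_right _
  have J2 : J(n₀ * q | b) = 1 := by
    apply jac_sq_of_dvd769 (y := n₀) _ hcn₀b
    have : n₀ * q - n₀ ^ 2 = (q - n₀) * n₀ := by ring
    rw [this]
    exact qb.mul_right _
  have hLc : ∀ p : ℕ, p.Prime → p ≠ 2 → (p : ℤ) ∣ n₁ → J(m | p) = 1 := by
    intro p hp hp2 hpn
    apply hL1 p hp hp2 (by rw [hng]; exact hpn.mul_left _)
    intro hpm
    have hpz : Prime (p : ℤ) := Nat.prime_iff_prime_int.mp hp
    rw [hmg] at hpm
    rcases hpz.dvd_or_dvd hpm with h | h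
    · exact hpz.not_unit (hc_gn.isUnit_of_dvd' h hpn)
    · exact hpz.not_unit (hc_mn.isUnit_of_dvd' h hpn)
  have J3 : J(m | c₃) = 1 := by
    apply jac_one_of_primes769
    intro p hp hpc
    have hp2 : p ≠ 2 := by
      rintro rfl
      have := Nat.mod_eq_zero_of_dvd hpc
      omega
    exact hLc p hp hp2 (dvd_trans (by exact_mod_cast hpc) hc_n)
  have Jq : J(m | q) = 1 := by
    rw [J1, J2, jacobiSym.mul_right' m hc0 hqp.ne_zero, J3] at hT
    simpa using hT
  -- the three roots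
  have hsq_gN : Squarefree g := by
    have := Int.squarefree_natAbs.mpr hsq_g
    simpa using this
  have R1 : ∃ t : ℤ, (g : ℤ) ∣ t ^ 2 + m₁ * (n₁ * q) := by
    obtain ⟨t, ht⟩ := sq_crt769 (-(m₁ * (n₁ * q))) g hsq_gN (by
      intro p hp hp2 hpg
      have hpa : (p : ℤ) ∣ a :=
        odd_prime_dvd769 hp hp2 hAz2 (by exact_mod_cast hpg)
      refine ⟨m₁ * n₁, hpa.trans ?_⟩
      have : (m₁ * n₁) ^ 2 - -(m₁ * (n₁ * q)) = (q + m₁ * n₁) * (m₁ * n₁) := by ring
      rw [this]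
      exact qa.mul_right _)
    exact ⟨t, by rwa [sub_neg_eq_add] at ht⟩
  have R2 : ∃ s : ℤ, m₁ ∣ s ^ 2 - g * (n₁ * q) := by
    obtain ⟨t, ht⟩ := sq_crt769 (g * (n₁ * q)) m₁.natAbs (Int.squarefree_natAbs.mpr hsq_m₁) (by
      intro p hp hp2 hpm
      have hpm' : (p : ℤ) ∣ -m₁ := by
        rw [dvd_neg]
        exact Int.natCast_dvd.mpr hpm
      have hpb : (p : ℤ) ∣ b := odd_prime_dvd769 hp hp2 hB hpm'
      refine ⟨n₀, hpb.trans ?_⟩
      have : n₀ ^ 2 - g * (n₁ * q) = (q - n₀) * (-n₀) := by rw [hng]; ring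
      rw [this]
      exact qb.mul_right _)
    exact ⟨t, Int.natAbs_dvd.mp ht⟩
  have R3 : ∃ r : ℤ, (n₁ * q) ∣ r ^ 2 - g * m₁ := by
    have hcnq : IsCoprime n₁ (q : ℤ) := by
      rw [isCoprime_comm, hqz.coprime_iff_not_dvd]
      intro h
      exact hqn (by rw [hng]; exact h.mul_left _)
    have hsqnq : Squarefree (n₁ * q) :=
      squarefree_mul_iff.mpr ⟨hcnq.isRelPrime, hsq_n₁, hqz.squarefree⟩
    obtain ⟨t, ht⟩ := sq_crt769 m (n₁ * q).natAbs (Int.squarefree_natAbs.mpr hsqnq) (by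
      intro p hp hp2 hpn
      have hpz : Prime (p : ℤ) := Nat.prime_iff_prime_int.mp hp
      have hpn' : (p : ℤ) ∣ n₁ * q := Int.natCast_dvd.mpr hpn
      rcases hpz.dvd_or_dvd hpn' with h | h
      · exact jac_root769 hp (hLc p hp hp2 h)
      · have hpq : p ∣ q := by exact_mod_cast h
        have : p = q := (Nat.prime_dvd_prime_iff_eq hp hqp).mp hpq
        rw [this]
        exact jac_root769 hqp Jq)
    exact ⟨t, by rw [← hmg]; exact Int.natAbs_dvd.mp ht⟩
  -- squarefreeness of the product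
  have hsqall : Squarefree (g * m₁.natAbs * (n₁ * q).natAbs) := by
    have hcnq : IsCoprime n₁ (q : ℤ) := by
      rw [isCoprime_comm, hqz.coprime_iff_not_dvd]
      intro h
      exact hqn (by rw [hng]; exact h.mul_left _)
    have hsqnq : Squarefree (n₁ * q) :=
      squarefree_mul_iff.mpr ⟨hcnq.isRelPrime, hsq_n₁, hqz.squarefree⟩
    have hcmq : IsCoprime m (q : ℤ) := by
      rw [isCoprime_comm, hqz.coprime_iff_not_dvd]
      exact hqm
    have hcmn : IsCoprime m n₁ := by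
      rw [hmg]
      exact hc_gn.mul_left hc_mn
    have h1 : Squarefree (m * (n₁ * q)) :=
      squarefree_mul_iff.mpr ⟨(hcmn.mul_right hcmq).isRelPrime, hm, hsqnq⟩
    have h2 := Int.squarefree_natAbs.mpr h1
    have h3 : (m * (n₁ * q)).natAbs = g * m₁.natAbs * (n₁ * q).natAbs := by
      rw [Int.natAbs_mul m, hmg, Int.natAbs_mul, Int.natAbs_natCast]
    rw [h3] at h2
    exact h2
  have hnq0 : n₁ * q ≠ 0 := mul_ne_zero hn₁0 (by exact_mod_cast hqp.ne_zero)
  have hsign3 : ¬ (m₁ < 0 ∧ n₁ * q < 0) := by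
    rintro ⟨h1, h2⟩
    apply hsign
    have hq0 : (0 : ℤ) < q := by exact_mod_cast hqp.pos
    have h3 : n₁ < 0 := by
      by_contra h
      push_neg at h
      have := mul_nonneg h hq0.le
      linarith
    constructor
    · rw [hmg]; exact mul_neg_of_pos_of_neg hgZ h1
    · rw [hng]; exact mul_neg_of_pos_of_neg hgZ h3
  obtain ⟨x, y, z, hne, he⟩ := glegendre769 g hg m₁ (n₁ * q) hm₁0 hnq0 hsqall hsign3 R1 R2 R3
  have hfin : ((g : ℤ) * x) ^ 2 = m * y ^ 2 + n₀ * q * z ^ 2 := by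
    rw [hmg, hng]
    linear_combination (g : ℤ) * he
  refine ⟨q, hqp, hq3, g * x, y, z, ?_, hfin⟩
  intro hz
  rw [hz] at hfin he
  have hy : y = 0 := not_sq769 hm hm1 (X := g * x) (by linear_combination hfin)
  rw [hy] at he
  have hx : x = 0 := by
    have h1 : (g : ℤ) * x ^ 2 = 0 := by linear_combination he
    rcases mul_eq_zero.mp h1 with h | h
    · exact absurd h hgZ.ne'
    · exact pow_eq_zero_iff (by norm_num) |>.mp h
  rcases hne with h | h | h
  · exact h hx
  · exact h hy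
  · exact h hz

end Fermat.Agent.LT.T6.H769

end
-- ===== PACK-END LT/T6/H769/CoreSel.lean

-- ===== PACK-BEGIN LT/T6/H388/Transl.lean
section


/-!
# Row LT, tower T6, leaf T6.18g1 `TranslC783` (translation by a central element)

OFF-MAIN (helper388).  Proves `Fermat.Agent.LT.T6.H783.TranslC783` VERBATIM:
local matching at the identity (for all data) gives local matching at every central norm
`z = N ζ`.

`Z` = the scalar matrix `ζ` in `GL₂(k')`, `W` = the scalar matrix `z` in `GL₂(k)`.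
* `φ_ζ(g) = φ(Z g)` has `BadData783`;
* the `s`-conjugacy class of `Z δ` is `Z ·` the class of `δ`, with the same classes modulo `U`
  and the same twisted centralisers, so `TO_{Z δ}(φ) = TO_δ(φ_ζ)` (`isOrbSumGen_transl388`);
* `N(Z δ) = ι(W) N(δ)` (`twNorm_sc_mul388`, `sc_nrm_eq_map388`);
* `f(g) = f₁(W⁻¹ g)`, radius `N = N₁ + 2 |log v(z)|`.
-/

set_option autoImplicit false

open scoped Matrix

noncomputable section

namespace Fermat.Agent.LT.T6.H388

open Fermat.Agent.LT.T6 Fermat.Agent.LT.T6.H783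

/-! ## Generic part: translation by a central element of a group -/

section Generic

variable {Γ : Type} [Group Γ]

/-- The translate `g ↦ φ(Z g)`. -/
def transl388 (Z : Γ) (φ : Γ → ℂ) : Γ → ℂ := fun g => φ (Z * g)

theorem transl_transl_inv388 (Z : Γ) (φ : Γ → ℂ) : transl388 Z (transl388 Z⁻¹ φ) = φ := by
  funext g
  simp [transl388]

theorem central_mul388 {Z : Γ} (hZ : ∀ g, Z * g = g * Z) (a b : Γ) :
    a * (Z * b) = Z * (a * b) := by
  rw [← mul_assoc, ← hZ a, mul_assoc]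

theorem central_inv388 {Z : Γ} (hZ : ∀ g, Z * g = g * Z) : ∀ g, Z⁻¹ * g = g * Z⁻¹ := by
  intro g
  have h := hZ g
  calc Z⁻¹ * g = Z⁻¹ * (g * Z) * Z⁻¹ := by simp [mul_assoc]
    _ = Z⁻¹ * (Z * g) * Z⁻¹ := by rw [h]
    _ = g * Z⁻¹ := by simp

theorem twconj_central388 {Z : Γ} (hZ : ∀ g, Z * g = g * Z) (s : Γ →* Γ) (x y : Γ) :
    x⁻¹ * (Z * y) * s x = Z * (x⁻¹ * y * s x) := by
  rw [central_mul388 hZ, mul_assoc Z]

theorem isBiInv_transl388 {U : Γ → Prop} {φ : Γ → ℂ} {Z : Γ} (hZ : ∀ g, Z * g = g * Z)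
    (h : IsBiInv U φ) : IsBiInv U (transl388 Z φ) := by
  intro u u' g hu hu'
  show φ (Z * (u * g * u')) = φ (Z * g)
  have e : Z * (u * g * u') = u * (Z * g) * u' := by
    rw [central_mul388 hZ u g, mul_assoc Z, mul_assoc u]
  rw [e]
  exact h u u' (Z * g) hu hu'

theorem hasFinSupp_transl388 {U : Γ → Prop} {φ : Γ → ℂ} (Z : Γ)
    (h : HasFinSupp U φ) : HasFinSupp U (transl388 Z φ) := by
  classical
  obtain ⟨F, hF⟩ := h
  refine ⟨F.image (fun x => Z⁻¹ * x), ?_⟩
  intro g hg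
  obtain ⟨x, hx, u, hu, hxu⟩ := hF (Z * g) hg
  refine ⟨Z⁻¹ * x, Finset.mem_image_of_mem _ hx, u, hu, ?_⟩
  rw [mul_assoc, ← hxu, inv_mul_cancel_left]

theorem cIndex_transl388 (U : Γ → Prop) (C : Γ → Γ → Prop) (Z : Γ)
    (hC : ∀ y t, C (Z * y) t ↔ C y t) (y : Γ) : cIndex U C (Z * y) = cIndex U C y := by
  unfold cIndex
  simp only [hC]

/-- **Orbit sums and central translations.**  `TO_{Z δ}(φ) = TO_δ(φ(Z ·))`. -/
theorem isOrbSumGen_transl388 (s : Γ →* Γ) (U : Γ → Prop) (C : Γ → Γ → Prop) (φ : Γ → ℂ)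
    {Z : Γ} (hZ : ∀ g, Z * g = g * Z) (hC : ∀ y t, C (Z * y) t ↔ C y t) (δ : Γ) (c : ℂ)
    (h : IsOrbSumGen s U C φ (Z * δ) c) : IsOrbSumGen s U C (transl388 Z φ) δ c := by
  classical
  obtain ⟨R, h1, h2, h3, h4⟩ := h
  have hinj : Function.Injective (fun y : Γ => Z⁻¹ * y) := fun a b hab => by
    simpa using hab
  refine ⟨R.image (fun y => Z⁻¹ * y), ?_, ?_, ?_, ?_⟩
  · intro y' hy'
    obtain ⟨y, hy, rfl⟩ := Finset.mem_image.1 hy'
    obtain ⟨x, hx⟩ := h1 y hy
    refine ⟨x, ?_⟩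
    rw [hx, twconj_central388 hZ, inv_mul_cancel_left]
  · intro y₁' hy₁' y₂' hy₂' hu
    obtain ⟨y₁, hy₁, rfl⟩ := Finset.mem_image.1 hy₁'
    obtain ⟨y₂, hy₂, rfl⟩ := Finset.mem_image.1 hy₂'
    obtain ⟨u, hu, hyu⟩ := hu
    have : y₁ = y₂ := by
      apply h2 y₁ hy₁ y₂ hy₂
      refine ⟨u, hu, ?_⟩
      have e : y₂ = Z * (Z⁻¹ * y₂) := by simp
      rw [e, hyu, ← twconj_central388 hZ, mul_inv_cancel_left]
    rw [this]
  · intro y hy hne
    obtain ⟨x, hx⟩ := hy
    have hcl : ∃ x' : Γ, Z * y = x'⁻¹ * (Z * δ) * s x' := ⟨x, by rw [hx, twconj_central388 hZ]⟩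
    obtain ⟨y₀, hy₀, u, hu, hyu⟩ := h3 (Z * y) hcl hne
    refine ⟨Z⁻¹ * y₀, Finset.mem_image_of_mem _ hy₀, u, hu, ?_⟩
    have e : y = Z⁻¹ * (Z * y) := by simp
    rw [e, hyu, twconj_central388 (central_inv388 hZ)]
  · rw [h4, Finset.sum_image (fun a _ b _ hab => hinj hab)]
    refine Finset.sum_congr rfl ?_
    intro y _
    have e : cIndex U C (Z⁻¹ * y) = cIndex U C y := by
      have := cIndex_transl388 U C Z hC (Z⁻¹ * y)
      rw [mul_inv_cancel_left] at this
      exact this.symm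
    simp only [transl388, mul_inv_cancel_left, e]

theorem isConj_central_mul388 {Z : Γ} (hZ : ∀ g, Z * g = g * Z) {a b : Γ} (h : IsConj a b) :
    IsConj (Z * a) (Z * b) := by
  obtain ⟨c, hc⟩ := isConj_iff.1 h
  refine isConj_iff.2 ⟨c, ?_⟩
  rw [central_mul388 hZ, mul_assoc Z, hc]

end Generic

/-! ## Scalar matrices in `GL₂` -/

section Scalar

variable {R : Type} [CommRing R]

/-- The scalar matrix `u` in `GL₂(R)`. -/
abbrev sc388 (u : Rˣ) : GL (Fin 2) R := Matrix.GeneralLinearGroup.scalar (Fin 2) u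

theorem sc_comm388 (u : Rˣ) (g : GL (Fin 2) R) : sc388 u * g = g * sc388 u :=
  Matrix.GeneralLinearGroup.scalar_commute u g

theorem sc_mul_coe388 (u : Rˣ) (g : GL (Fin 2) R) :
    ((sc388 u * g : GL (Fin 2) R) : Matrix (Fin 2) (Fin 2) R)
      = (u : R) • (g : Matrix (Fin 2) (Fin 2) R) := by
  rw [Units.val_mul, Matrix.GeneralLinearGroup.coe_scalar]
  ext a b
  simp [Matrix.scalar_apply, Matrix.diagonal_mul]

theorem trace_sc_mul388 (u : Rˣ) (g : GL (Fin 2) R) :
    ((sc388 u * g : GL (Fin 2) R) : Matrix (Fin 2) (Fin 2) R).trace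
      = (u : R) * (g : Matrix (Fin 2) (Fin 2) R).trace := by
  rw [sc_mul_coe388, Matrix.trace_smul, smul_eq_mul]

theorem det_sc_mul388 (u : Rˣ) (g : GL (Fin 2) R) :
    ((sc388 u * g : GL (Fin 2) R) : Matrix (Fin 2) (Fin 2) R).det
      = (u : R) ^ 2 * (g : Matrix (Fin 2) (Fin 2) R).det := by
  rw [sc_mul_coe388, Matrix.det_smul, Fintype.card_fin]

theorem glAut_sc388 (s : R ≃+* R) (u : Rˣ) :
    glAut s (sc388 u) = sc388 (Units.map (s : R →* R) u) := by
  apply Units.ext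
  ext a b
  by_cases hab : a = b
  · subst hab
    simp [glAut, Matrix.scalar_apply]
  · simp [glAut, Matrix.scalar_apply, hab]

theorem map_sc388 {R' : Type} [CommRing R'] (i : R →+* R') (u : Rˣ) :
    Matrix.GeneralLinearGroup.map i (sc388 u) = sc388 (Units.map (i : R →* R') u) := by
  apply Units.ext
  ext a b
  by_cases hab : a = b
  · subst hab
    simp [Matrix.scalar_apply]
  · simp [Matrix.scalar_apply, hab]

/-- The norm of a unit: `u · s(u) ⋯ s^{n-1}(u)`. -/
def nrm388 (s : R ≃+* R) : ℕ → Rˣ → Rˣ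
  | 0, _ => 1
  | (n + 1), u => u * Units.map (s : R →* R) (nrm388 s n u)

theorem nrm_coe388 (s : R ≃+* R) (n : ℕ) (u : Rˣ) :
    ((nrm388 s n u : Rˣ) : R) = ∏ j ∈ Finset.range n, (s ^ j) (u : R) := by
  induction n with
  | zero => simp [nrm388]
  | succ n ih =>
    have h1 : ((nrm388 s (n + 1) u : Rˣ) : R) = (u : R) * s ((nrm388 s n u : Rˣ) : R) := rfl
    have h2 : ∀ j : ℕ, (s ^ (j + 1)) (u : R) = s ((s ^ j) (u : R)) := by
      intro j
      rw [pow_succ']
      rfl
    rw [h1, ih, Finset.prod_range_succ', map_prod, mul_comm]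
    congr 1
    exact (Finset.prod_congr rfl fun j _ => (h2 j).symm)

/-- `N(Z δ) = N(Z) N(δ)` for a scalar matrix `Z`. -/
theorem twNorm_sc_mul388 (s : R ≃+* R) (n : ℕ) (u : Rˣ) (δ : GL (Fin 2) R) :
    twNorm s n (sc388 u * δ) = sc388 (nrm388 s n u) * twNorm s n δ := by
  unfold twNorm
  induction n with
  | zero => simp [twN, nrm388]
  | succ n ih =>
    have hs : sc388 (nrm388 s (n + 1) u)
        = sc388 u * sc388 (Units.map (s : R →* R) (nrm388 s n u)) :=
      map_mul (Matrix.GeneralLinearGroup.scalar (Fin 2)) u _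
    show sc388 u * δ * glAut s (twN (glAut s) n (sc388 u * δ))
      = sc388 (nrm388 s (n + 1) u) * (δ * glAut s (twN (glAut s) n δ))
    rw [ih, map_mul, glAut_sc388, hs]
    have hc := sc_comm388 (Units.map (s : R →* R) (nrm388 s n u)) δ
    calc sc388 u * δ * (sc388 (Units.map (s : R →* R) (nrm388 s n u))
            * glAut s (twN (glAut s) n δ))
        = sc388 u * (δ * sc388 (Units.map (s : R →* R) (nrm388 s n u)))
            * glAut s (twN (glAut s) n δ) := by simp only [mul_assoc]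
      _ = sc388 u * (sc388 (Units.map (s : R →* R) (nrm388 s n u)) * δ)
            * glAut s (twN (glAut s) n δ) := by rw [hc]
      _ = sc388 u * sc388 (Units.map (s : R →* R) (nrm388 s n u))
            * (δ * glAut s (twN (glAut s) n δ)) := by simp only [mul_assoc]

theorem nrm_inv388 (s : R ≃+* R) (n : ℕ) (u : Rˣ) :
    nrm388 s n u⁻¹ = (nrm388 s n u)⁻¹ := by
  induction n with
  | zero => simp [nrm388]
  | succ n ih =>
    show u⁻¹ * Units.map (s : R →* R) (nrm388 s n u⁻¹)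
      = (u * Units.map (s : R →* R) (nrm388 s n u))⁻¹
    rw [ih, map_inv, mul_inv]

theorem isReg_sc_mul388 (u : Rˣ) (γ : GL (Fin 2) R) (h : IsReg γ) : IsReg (sc388 u * γ) := by
  unfold IsReg disc at h ⊢
  rw [trace_sc_mul388, det_sc_mul388]
  have e : ((u : R) * (γ : Matrix (Fin 2) (Fin 2) R).trace) ^ 2
      - 4 * ((u : R) ^ 2 * (γ : Matrix (Fin 2) (Fin 2) R).det)
      = (u : R) ^ 2 * ((γ : Matrix (Fin 2) (Fin 2) R).trace ^ 2
          - 4 * (γ : Matrix (Fin 2) (Fin 2) R).det) := by ring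
  rw [e]
  exact (u.isUnit.pow 2).mul h

theorem sc_inv388 (u : Rˣ) : (sc388 u)⁻¹ = sc388 u⁻¹ :=
  (map_inv (Matrix.GeneralLinearGroup.scalar (Fin 2)) u).symm

end Scalar

/-! ## The local part -/

section Local

variable {k : Type} [Field k] [Valued k Γ₀]

theorem inTwCentC_sc388 (s : k ≃+* k) (u : kˣ) (y t : GL (Fin 2) k) :
    InTwCentC s (sc388 u * y) t ↔ InTwCentC s y t := by
  unfold InTwCentC InTwCent
  rw [twconj_central388 (sc_comm388 u)]
  constructor
  · rintro ⟨h, h'⟩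
    exact ⟨mul_left_cancel h, h'⟩
  · rintro ⟨h, h'⟩
    exact ⟨by rw [h], h'⟩

/-- `TO_δ(φ) = TO_{Z⁻¹ δ}(φ(Z ·))` for a scalar matrix `Z`. -/
theorem isTwOrbSum_transl388 (s : k ≃+* k) (n : ℕ) (φ : GL (Fin 2) k → ℂ) (u : kˣ)
    (δ : GL (Fin 2) k) (c : ℂ) (h : IsTwOrbSum s n φ δ c) :
    IsTwOrbSum s n (transl388 (sc388 u) φ) ((sc388 u)⁻¹ * δ) c := by
  unfold IsTwOrbSum at h ⊢
  apply isOrbSumGen_transl388 _ _ _ _ (sc_comm388 u) (inTwCentC_sc388 s u)
  rwa [mul_inv_cancel_left]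

/-- The `χ`-ball around `(2z, z²)` of radius `exp(-(N₁ + 2|log v z|))` is mapped into the
`χ`-ball around `(2, 1)` of radius `exp(-N₁)` by the translation by `z⁻¹`. -/
theorem inChiBall_transl388 (z : k) (hz : z ≠ 0) (N₁ : ℤ) (γ : GL (Fin 2) k)
    (h : InChiBall783 (2 * z) (z ^ 2) (N₁ + 2 * |WithZero.log (Valued.v z)|) γ) :
    InChiBall783 2 1 N₁ ((sc388 (Units.mk0 z hz))⁻¹ * γ) := by
  obtain ⟨h1, h2⟩ := h
  have hvz : Valued.v z ≠ 0 := (Valuation.ne_zero_iff _).2 hz
  have hL : Valued.v z = WithZero.exp (WithZero.log (Valued.v z)) := (WithZero.exp_log hvz).symm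
  set L : ℤ := WithZero.log (Valued.v z) with hLdef
  have hinv : Valued.v (z⁻¹) = WithZero.exp (-L) := by
    rw [map_inv₀, hL, WithZero.exp_neg]
  have habs1 : -L ≤ |L| := neg_le_abs L
  have habs0 : 0 ≤ |L| := abs_nonneg L
  rw [sc_inv388]
  refine ⟨?_, ?_⟩
  · rw [trace_sc_mul388]
    have e : ((Units.mk0 z hz)⁻¹ : kˣ).val * (γ : Matrix (Fin 2) (Fin 2) k).trace - 2
        = z⁻¹ * ((γ : Matrix (Fin 2) (Fin 2) k).trace - 2 * z) := by
      have : ((Units.mk0 z hz)⁻¹ : kˣ).val = z⁻¹ := rfl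
      rw [this]
      field_simp
    rw [e, map_mul, hinv]
    calc WithZero.exp (-L) * Valued.v ((γ : Matrix (Fin 2) (Fin 2) k).trace - 2 * z)
        ≤ WithZero.exp (-L) * WithZero.exp (-(N₁ + 2 * |L|)) := mul_le_mul_right h1 _
      _ = WithZero.exp (-L + -(N₁ + 2 * |L|)) := (WithZero.exp_add _ _).symm
      _ ≤ WithZero.exp (-N₁) := WithZero.exp_le_exp.2 (by linarith)
  · rw [det_sc_mul388]
    have e : ((Units.mk0 z hz)⁻¹ : kˣ).val ^ 2 * (γ : Matrix (Fin 2) (Fin 2) k).det - 1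
        = z⁻¹ * (z⁻¹ * ((γ : Matrix (Fin 2) (Fin 2) k).det - z ^ 2)) := by
      have : ((Units.mk0 z hz)⁻¹ : kˣ).val = z⁻¹ := rfl
      rw [this]
      field_simp
    rw [e, map_mul, map_mul, hinv]
    calc WithZero.exp (-L) * (WithZero.exp (-L)
            * Valued.v ((γ : Matrix (Fin 2) (Fin 2) k).det - z ^ 2))
        ≤ WithZero.exp (-L) * (WithZero.exp (-L) * WithZero.exp (-(N₁ + 2 * |L|))) :=
          mul_le_mul_right (mul_le_mul_right h2 _) _
      _ = WithZero.exp (-L + (-L + -(N₁ + 2 * |L|))) := by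
          rw [WithZero.exp_add, WithZero.exp_add]
      _ ≤ WithZero.exp (-N₁) := WithZero.exp_le_exp.2 (by linarith)

end Local

/-! ## The norm of the scalar matrix -/

section Norm

variable {k k' : Type} [Field k] [Field k']

theorem nrm_eq_map388 (l : ℕ) (i : k →+* k') (s : k' ≃+* k') (ζu : k'ˣ) (zu : kˣ)
    (h : i (zu : k) = ∏ j ∈ Finset.range l, (s ^ j) (ζu : k')) :
    nrm388 s l ζu = Units.map (i : k →* k') zu := by
  apply Units.ext
  rw [nrm_coe388, ← h]
  rfl

/-- `N(Z δ) = ι(W) N(δ)`. -/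
theorem twNorm_sc_mul_eq388 (l : ℕ) (i : k →+* k') (s : k' ≃+* k') (ζu : k'ˣ) (zu : kˣ)
    (h : i (zu : k) = ∏ j ∈ Finset.range l, (s ^ j) (ζu : k')) (δ : GL (Fin 2) k') :
    twNorm s l (sc388 ζu * δ)
      = Matrix.GeneralLinearGroup.map i (sc388 zu) * twNorm s l δ := by
  rw [twNorm_sc_mul388, nrm_eq_map388 l i s ζu zu h, map_sc388]

/-- `N(Z⁻¹ δ) = ι(W⁻¹) N(δ)`. -/
theorem twNorm_sc_inv_mul_eq388 (l : ℕ) (i : k →+* k') (s : k' ≃+* k') (ζu : k'ˣ) (zu : kˣ)
    (h : i (zu : k) = ∏ j ∈ Finset.range l, (s ^ j) (ζu : k')) (δ : GL (Fin 2) k') :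
    twNorm s l ((sc388 ζu)⁻¹ * δ)
      = Matrix.GeneralLinearGroup.map i (sc388 zu)⁻¹ * twNorm s l δ := by
  rw [sc_inv388, twNorm_sc_mul388, nrm_inv388, nrm_eq_map388 l i s ζu zu h, sc_inv388,
    map_sc388, map_inv]

theorem isConj_transl388 (l : ℕ) (i : k →+* k') (s : k' ≃+* k') (ζu : k'ˣ) (zu : kˣ)
    (h : i (zu : k) = ∏ j ∈ Finset.range l, (s ^ j) (ζu : k')) (δ : GL (Fin 2) k')
    (γ : GL (Fin 2) k)
    (hc : IsConj (twNorm s l δ) (Matrix.GeneralLinearGroup.map i γ)) :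
    IsConj (twNorm s l ((sc388 ζu)⁻¹ * δ))
      (Matrix.GeneralLinearGroup.map i ((sc388 zu)⁻¹ * γ)) := by
  rw [twNorm_sc_inv_mul_eq388 l i s ζu zu h, map_mul, sc_inv388, map_sc388]
  exact isConj_central_mul388 (sc_comm388 _) hc

theorem isNormFrom_of_transl388 (l : ℕ) (i : k →+* k') (s : k' ≃+* k') (ζu : k'ˣ) (zu : kˣ)
    (h : i (zu : k) = ∏ j ∈ Finset.range l, (s ^ j) (ζu : k')) (γ : GL (Fin 2) k)
    (hn : IsNormFrom l i s ((sc388 zu)⁻¹ * γ)) : IsNormFrom l i s γ := by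
  obtain ⟨δ₁, hδ₁⟩ := hn
  refine ⟨sc388 ζu * δ₁, ?_⟩
  rw [twNorm_sc_mul_eq388 l i s ζu zu h]
  have e : Matrix.GeneralLinearGroup.map i γ
      = Matrix.GeneralLinearGroup.map i (sc388 zu)
        * Matrix.GeneralLinearGroup.map i ((sc388 zu)⁻¹ * γ) := by
    rw [← map_mul, mul_inv_cancel_left]
  rw [e, map_sc388]
  exact isConj_central_mul388 (sc_comm388 _) hδ₁

end Norm

/-! ## The leaf -/

/-- **T6.18g1 `TranslC783`** (VERBATIM): local matching at the identity gives local matching at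
every central norm. -/
theorem translC388 : TranslC783 := by
  intro hOne k k' _ _ _ _ q l e i s n φ hd z hz hnorm
  obtain ⟨ζ, hζ⟩ := hnorm
  have hζ0 : ζ ≠ 0 := by
    rintro rfl
    obtain ⟨l', rfl⟩ : ∃ l', l = l' + 1 := ⟨l - 1, (Nat.succ_pred_eq_of_pos hd.prime.pos).symm⟩
    rw [Finset.prod_range_succ'] at hζ
    simp only [pow_zero, RingAut.one_apply, mul_zero] at hζ
    exact hz ((map_eq_zero i).1 hζ)
  have hnu : i ((Units.mk0 z hz : kˣ) : k)
      = ∏ j ∈ Finset.range l, (s ^ j) ((Units.mk0 ζ hζ0 : k'ˣ) : k') := hζ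
  have hd' : BadData783 k k' q l e i s n (transl388 (sc388 (Units.mk0 ζ hζ0)) φ) :=
    ⟨hd.hk, hd.hk', hd.ext, hd.prime, isBiInv_transl388 (sc_comm388 _) hd.inv,
      hasFinSupp_transl388 _ hd.supp⟩
  obtain ⟨N₁, m, f₁, hf₁b, hf₁s, hM1, hM2⟩ :=
    hOne k k' q l e i s n (transl388 (sc388 (Units.mk0 ζ hζ0)) φ) hd'
  have hO_of : ∀ (γ : GL (Fin 2) k) (c' : ℂ),
      IsOrbSum m (transl388 (sc388 (Units.mk0 z hz))⁻¹ f₁) γ c' →
        IsOrbSum m f₁ ((sc388 (Units.mk0 z hz))⁻¹ * γ) c' := by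
    intro γ c' hO
    have := isTwOrbSum_transl388 (RingEquiv.refl k) m _ (Units.mk0 z hz) γ c' hO
    rwa [transl_transl_inv388] at this
  refine ⟨N₁ + 2 * |WithZero.log (Valued.v z)|, m,
    transl388 (sc388 (Units.mk0 z hz))⁻¹ f₁,
    isBiInv_transl388 (central_inv388 (sc_comm388 _)) hf₁b,
    hasFinSupp_transl388 _ hf₁s, ?_, ?_⟩
  · intro δ γ c c' hγ hball hconj hTO hO
    refine hM1 ((sc388 (Units.mk0 ζ hζ0))⁻¹ * δ) ((sc388 (Units.mk0 z hz))⁻¹ * γ) c c'
      ?_ (inChiBall_transl388 z hz N₁ γ hball)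
      (isConj_transl388 l i s _ _ hnu δ γ hconj)
      (isTwOrbSum_transl388 s n φ _ δ c hTO) (hO_of γ c' hO)
    rw [sc_inv388]
    exact isReg_sc_mul388 _ γ hγ
  · intro γ c' hγ hball hnn hO
    refine hM2 ((sc388 (Units.mk0 z hz))⁻¹ * γ) c' ?_ (inChiBall_transl388 z hz N₁ γ hball)
      (fun hn => hnn (isNormFrom_of_transl388 l i s _ _ hnu γ hn)) (hO_of γ c' hO)
    rw [sc_inv388]
    exact isReg_sc_mul388 _ γ hγ

end Fermat.Agent.LT.T6.H388

end

end
-- ===== PACK-END LT/T6/H388/Transl.lean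

-- ===== PACK-BEGIN LT/T6/H179/TwAbs.lean
section






/-!
# Row LT, tower T6, sub-leaf T6.18f.6 `TwC179`: abstract part (helper179)

OFF-MAIN.  Group-theoretic and matrix lemmas:

* `orbSumGen_transfer179`: an orbit sum at `δ'` is an orbit sum at `δ` if `δ`, `δ'` have the same
  twisted centraliser and `φ`, `cIndex` agree at corresponding points `x⁻¹ δ s(x)`,
  `x⁻¹ δ' s(x)`;
* `orbSumGen_twConj179`: orbit sums only depend on the `s`-conjugacy class of the base point;
* `twNorm_mul_fixed179`: `N(c δ) = c ^ l N(δ)` for `c` fixed by `s` and commuting with `δ`;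
* `inU_of_near179`: an invertible matrix `≡ 1 mod ϖ ^ m`, `m ≥ 1`, lies in `U(m)`.
-/

set_option autoImplicit false

open scoped Matrix

noncomputable section

namespace Fermat.Agent.LT.T6.H179

open Fermat.Agent.LT.T6 Fermat.Agent.LT.T6.H783

section Abstract

variable {Γ : Type} [Group Γ]

/-- Two points of the twisted class of `δ'` coincide iff the corresponding points of the twisted
class of `δ` do, provided the twisted centralisers agree. -/
theorem twc_eq_iff179 (s : Γ →* Γ) (δ δ' : Γ)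
    (hcent : ∀ x : Γ, x⁻¹ * δ' * s x = δ' ↔ x⁻¹ * δ * s x = δ) (x z : Γ) :
    x⁻¹ * δ' * s x = z⁻¹ * δ' * s z ↔ x⁻¹ * δ * s x = z⁻¹ * δ * s z := by
  have key : ∀ d : Γ, x⁻¹ * d * s x = z⁻¹ * d * s z ↔ (x * z⁻¹)⁻¹ * d * s (x * z⁻¹) = d := by
    intro d
    constructor
    · intro h
      have h1 : (x * z⁻¹)⁻¹ * d * s (x * z⁻¹) = z * (x⁻¹ * d * s x) * (s z)⁻¹ := by
        rw [map_mul, map_inv]; group
      rw [h1, h]; group
    · intro h
      have h1 : x⁻¹ * d * s x = z⁻¹ * ((x * z⁻¹)⁻¹ * d * s (x * z⁻¹)) * s z := by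
        rw [map_mul, map_inv]; group
      rw [h1, h]
  rw [key δ', key δ]
  exact hcent _

/-- **Transfer of an orbit sum** along the correspondence `x⁻¹ δ' s(x) ↔ x⁻¹ δ s(x)`. -/
theorem orbSumGen_transfer179 (s : Γ →* Γ) (U : Γ → Prop) (C : Γ → Γ → Prop) (φ : Γ → ℂ)
    (δ δ' : Γ)
    (hcent : ∀ x : Γ, x⁻¹ * δ' * s x = δ' ↔ x⁻¹ * δ * s x = δ)
    (hφ : ∀ x : Γ, φ (x⁻¹ * δ * s x) = φ (x⁻¹ * δ' * s x))
    (hC : ∀ x : Γ, cIndex U C (x⁻¹ * δ * s x) = cIndex U C (x⁻¹ * δ' * s x))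
    {c : ℂ} (h : IsOrbSumGen s U C φ δ' c) : IsOrbSumGen s U C φ δ c := by
  classical
  obtain ⟨R', hR1, hR2, hR3, hc⟩ := h
  -- the correspondence as a function
  let Ψ : Γ → Γ := fun y' =>
    if h : ∃ x : Γ, y' = x⁻¹ * δ' * s x then h.choose⁻¹ * δ * s h.choose else y'
  have hΨ : ∀ x : Γ, Ψ (x⁻¹ * δ' * s x) = x⁻¹ * δ * s x := by
    intro x
    have hex : ∃ z : Γ, x⁻¹ * δ' * s x = z⁻¹ * δ' * s z := ⟨x, rfl⟩
    have h1 : Ψ (x⁻¹ * δ' * s x) = hex.choose⁻¹ * δ * s hex.choose := dif_pos hex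
    rw [h1]
    exact ((twc_eq_iff179 s δ δ' hcent x hex.choose).mp hex.choose_spec).symm
  refine ⟨R'.image Ψ, ?_, ?_, ?_, ?_⟩
  · intro y hy
    obtain ⟨y', hy', rfl⟩ := Finset.mem_image.mp hy
    obtain ⟨x, rfl⟩ := hR1 y' hy'
    exact ⟨x, hΨ x⟩
  · intro y₁ hy₁ y₂ hy₂ hu
    obtain ⟨y₁', hy₁', rfl⟩ := Finset.mem_image.mp hy₁
    obtain ⟨y₂', hy₂', rfl⟩ := Finset.mem_image.mp hy₂
    obtain ⟨x₁, rfl⟩ := hR1 y₁' hy₁'
    obtain ⟨x₂, rfl⟩ := hR1 y₂' hy₂'
    obtain ⟨u, hu, e⟩ := hu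
    rw [hΨ, hΨ] at e
    have e' : x₂⁻¹ * δ * s x₂ = (x₁ * u)⁻¹ * δ * s (x₁ * u) := by
      rw [e, map_mul]; group
    have e'' := (twc_eq_iff179 s δ δ' hcent x₂ (x₁ * u)).mpr e'
    have h12 : x₁⁻¹ * δ' * s x₁ = x₂⁻¹ * δ' * s x₂ := by
      refine hR2 _ hy₁' _ hy₂' ⟨u, hu, ?_⟩
      rw [e'', map_mul]; group
    rw [h12]
  · intro z hz hφz
    obtain ⟨x, rfl⟩ := hz
    have hφz' : φ (x⁻¹ * δ' * s x) ≠ 0 := by rw [← hφ x]; exact hφz
    obtain ⟨y', hy', u, hu, e⟩ := hR3 _ ⟨x, rfl⟩ hφz'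
    obtain ⟨x', rfl⟩ := hR1 y' hy'
    refine ⟨Ψ (x'⁻¹ * δ' * s x'), Finset.mem_image_of_mem Ψ hy', u, hu, ?_⟩
    have e' : x⁻¹ * δ' * s x = (x' * u)⁻¹ * δ' * s (x' * u) := by
      rw [e, map_mul]; group
    have e'' := (twc_eq_iff179 s δ δ' hcent x (x' * u)).mp e'
    rw [e'', hΨ, map_mul]; group
  · rw [hc, Finset.sum_image]
    · refine Finset.sum_congr rfl ?_
      intro y' hy'
      obtain ⟨x, rfl⟩ := hR1 y' hy'
      rw [hΨ, hφ x, hC x]
    · intro y₁' hy₁' y₂' hy₂' e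
      obtain ⟨x₁, rfl⟩ := hR1 y₁' hy₁'
      obtain ⟨x₂, rfl⟩ := hR1 y₂' hy₂'
      rw [hΨ, hΨ] at e
      exact (twc_eq_iff179 s δ δ' hcent x₁ x₂).mpr e

/-- Orbit sums only depend on the `s`-conjugacy class of the base point. -/
theorem orbSumGen_twConj179 (s : Γ →* Γ) (U : Γ → Prop) (C : Γ → Γ → Prop) (φ : Γ → ℂ)
    (δ z : Γ) {c : ℂ} (h : IsOrbSumGen s U C φ δ c) :
    IsOrbSumGen s U C φ (z⁻¹ * δ * s z) c := by
  obtain ⟨R, hR1, hR2, hR3, hc⟩ := h
  refine ⟨R, ?_, hR2, ?_, hc⟩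
  · intro y hy
    obtain ⟨x, rfl⟩ := hR1 y hy
    refine ⟨z⁻¹ * x, ?_⟩
    rw [map_mul, map_inv]; group
  · intro y hy hφy
    obtain ⟨x, rfl⟩ := hy
    refine hR3 _ ⟨z * x, ?_⟩ hφy
    rw [map_mul]; group

/-- `N_n(c δ) = c ^ n N_n(δ)` for `c` fixed by `s` and commuting with `δ`. -/
theorem twN_mul_fixed179 (s : Γ →* Γ) (c δ : Γ) (hc : s c = c) (h : δ * c = c * δ) (n : ℕ) :
    twN s n (c * δ) = c ^ n * twN s n δ := by
  induction n with
  | zero => simp [twN]
  | succ n ih =>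
    have h1 : twN s (n + 1) (c * δ) = c * δ * s (twN s n (c * δ)) := rfl
    have h2 : twN s (n + 1) δ = δ * s (twN s n δ) := rfl
    have h3 : δ * c ^ n = c ^ n * δ := (Commute.pow_right (show Commute δ c from h) n).eq
    rw [h1, ih, h2, map_mul, map_pow, hc, pow_succ']
    calc c * δ * (c ^ n * s (twN s n δ)) = c * (δ * c ^ n) * s (twN s n δ) := by group
      _ = c * (c ^ n * δ) * s (twN s n δ) := by rw [h3]
      _ = c * c ^ n * (δ * s (twN s n δ)) := by group

end Abstract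

end Fermat.Agent.LT.T6.H179

end

end
-- ===== PACK-END LT/T6/H179/TwAbs.lean

-- ===== PACK-BEGIN LT/T6/H313/LocalRes.lean
section





/-!
# Row LT, tower T6, sub-leaf T6.15c3 (helper313): the first approximation

OFF-MAIN.  `k'/k` as in `T6.IsLocalExt k k' l 1 i s`, `l` prime.

* `exists_trace_one313`: an integral `w ∈ k'` with `∑_{j<l} s^j w = 1`;
* `exists_res_norm313`: for `t, d ∈ k`, `t` integral, `d` a unit, an integral
  `β ∈ k'[X]/(X² - tX + d)` with `N β ≡ X` modulo the maximal ideal.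
-/

set_option autoImplicit false
set_option linter.style.haveILetI false
set_option linter.unusedSectionVars false
set_option linter.unusedVariables false

open Fermat.Agent.LT.T6

noncomputable section

namespace Fermat.Agent.LT.T6.H313

section

variable {k K : Type} [Field k] [Field K] [Valued k Γ₀] [Valued K Γ₀]
  {q l : ℕ} {i : k →+* K} {s : K ≃+* K}

/-- A sum over a full period is invariant. -/
theorem sum_pow_fixed313 (s : K ≃+* K) (l : ℕ) (hl : 0 < l) (hsl : ∀ y : K, (s ^ l) y = y)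
    (w : K) : s (∑ j ∈ Finset.range l, (s ^ j) w) = ∑ j ∈ Finset.range l, (s ^ j) w := by
  obtain ⟨m, rfl⟩ : ∃ m, l = m + 1 := ⟨l - 1, by omega⟩
  rw [map_sum]
  have h1 : ∀ j ∈ Finset.range (m + 1), s ((s ^ j) w) = (s ^ (j + 1)) w := by
    intro j _
    rw [pow_succ', RingAut.mul_apply]
  rw [Finset.sum_congr rfl h1, Finset.sum_range_succ, hsl, Finset.sum_range_succ' (fun j => (s ^ j) w)]
  simp

theorem pow_apply_fixed313 (s : K ≃+* K) (x : K) (hx : s x = x) (j : ℕ) : (s ^ j) x = x := by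
  induction j with
  | zero => simp
  | succ j ih => rw [pow_succ, RingAut.mul_apply, hx, ih]

theorem exists_trace_one313 (hk : IsLocalField k q) (hK : IsLocalField K (q ^ l))
    (he : IsLocalExt k K l 1 i s) (hl : l.Prime) :
    ∃ w : K, Valued.v w ≤ 1 ∧ ∑ j ∈ Finset.range l, (s ^ j) w = 1 := by
  classical
  haveI : Finite (Res313 K) := finite_residue313 hK
  have hσl := sBar313_pow_eq_one s he.val_s l he.cyc.order
  have hσ1 := sBar313_ne_one hk hK he hl
  obtain ⟨wb, hwb⟩ := exists_sum_pow_eq313 (sBar313 s he.val_s) l hl hσl hσ1 1 (map_one _)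
  obtain ⟨w₀, rfl⟩ := res313_surjective wb
  set Tw : K := ∑ j ∈ Finset.range l, (s ^ j) (w₀ : K) with hTw
  have hmem : ∀ j : ℕ, Valued.v ((s ^ j) (w₀ : K)) ≤ 1 := by
    intro j
    rw [← coe_sO313_pow s he.val_s j w₀]
    exact (((sO313 s he.val_s) ^ j) w₀).2
  have hTw1 : Valued.v Tw ≤ 1 := Valuation.map_sum_le _ (fun j _ => hmem j)
  have hres : res313 K ⟨Tw, hTw1⟩ = 1 := by
    have h1 : (⟨Tw, hTw1⟩ : Valued.integer K)
        = ∑ j ∈ Finset.range l, ((sO313 s he.val_s) ^ j) w₀ := by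
      apply Subtype.ext
      rw [AddSubmonoidClass.coe_finsetSum]
      show Tw = _
      rw [hTw]
      exact Finset.sum_congr rfl fun j _ => (coe_sO313_pow s he.val_s j w₀).symm
    rw [h1, map_sum, ← hwb]
    exact Finset.sum_congr rfl fun j _ => (sBar313_pow_res s he.val_s j w₀).symm
  have hv : Valued.v (Tw - 1) < 1 := by
    have := (res313_eq_iff (⟨Tw, hTw1⟩ : Valued.integer K) 1).1 (by rw [hres, map_one])
    simpa using this
  have hTwv : Valued.v Tw = 1 := by
    have h1 : Tw = 1 + (Tw - 1) := by ring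
    rw [h1, Valuation.map_add_eq_of_lt_left _ (by rwa [map_one]), map_one]
  have hTw0 : Tw ≠ 0 := by
    intro h
    rw [h, map_zero] at hTwv
    exact zero_ne_one hTwv
  have hfix : s Tw = Tw := sum_pow_fixed313 s l hl.pos he.cyc.order _
  refine ⟨(w₀ : K) / Tw, ?_, ?_⟩
  · rw [map_div₀, hTwv, div_one]
    exact w₀.2
  · have h1 : ∀ j ∈ Finset.range l, (s ^ j) ((w₀ : K) / Tw) = (s ^ j) (w₀ : K) / Tw := by
      intro j _
      rw [map_div₀, pow_apply_fixed313 s Tw hfix j]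
    rw [Finset.sum_congr rfl h1, ← Finset.sum_div, ← hTw, div_self hTw0]

theorem exists_res_norm313 (hk : IsLocalField k q) (hK : IsLocalField K (q ^ l))
    (he : IsLocalExt k K l 1 i s) (hl : l.Prime) (t d : k) (ht : Valued.v t ≤ 1)
    (hd : Valued.v d = 1) (ha : s (-(i d)) = -(i d)) (hb : s (i t) = i t) :
    ∃ β : QuadraticAlgebra K (-(i d)) (i t), Valued.v β.re ≤ 1 ∧ Valued.v β.im ≤ 1 ∧
      Valued.v ((nrm313 (⇑(qAut313 s ha hb)) l β - QuadraticAlgebra.omega).re) < 1 ∧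
      Valued.v ((nrm313 (⇑(qAut313 s ha hb)) l β - QuadraticAlgebra.omega).im) < 1 := by
  classical
  haveI : Finite (Res313 K) := finite_residue313 hK
  have hi : ∀ x : k, Valued.v (i x) = Valued.v x := fun x => by rw [he.val_i, pow_one]
  have hσl := sBar313_pow_eq_one s he.val_s l he.cyc.order
  have hσ1 := sBar313_ne_one hk hK he hl
  have haO1 : Valued.v (-(i d)) ≤ 1 := by rw [Valuation.map_neg, hi, hd]
  have hbO1 : Valued.v (i t) ≤ 1 := by rw [hi]; exact ht
  set aO : Valued.integer K := ⟨-(i d), haO1⟩ with haO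
  set bO : Valued.integer K := ⟨i t, hbO1⟩ with hbO
  have hsa : sO313 s he.val_s aO = aO := Subtype.ext ha
  have hsb : sO313 s he.val_s bO = bO := Subtype.ext hb
  have hab : sBar313 s he.val_s (res313 K aO) = res313 K aO := by rw [sBar313_res, hsa]
  have hbb : sBar313 s he.val_s (res313 K bO) = res313 K bO := by rw [sBar313_res, hsb]
  have hab0 : res313 K aO ≠ 0 := by
    rw [Ne, res313_eq_zero_iff]
    show ¬ Valued.v (-(i d)) < 1
    rw [Valuation.map_neg, hi, hd]
    exact lt_irrefl _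
  obtain ⟨βb, hβb⟩ := exists_nrm_eq_omega313 (sBar313 s he.val_s) l hl hσl hσ1
    (res313 K aO) (res313 K bO) hab hbb hab0
  obtain ⟨x, hx⟩ := res313_surjective βb.re
  obtain ⟨y, hy⟩ := res313_surjective βb.im
  set βO : QuadraticAlgebra (Valued.integer K) aO bO := ⟨x, y⟩ with hβO
  set red : QuadraticAlgebra (Valued.integer K) aO bO →+*
      QuadraticAlgebra (Res313 K) (res313 K aO) (res313 K bO) :=
    qMap313 (res313 K) rfl rfl with hred
  set inc : QuadraticAlgebra (Valued.integer K) aO bO →+* QuadraticAlgebra K (-(i d)) (i t) :=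
    qMap313 (Valued.integer K).subtype rfl rfl with hinc
  have hredβ : red βO = βb := by
    ext
    · exact hx
    · exact hy
  have hredσ : ∀ z, red (qAut313 (sO313 s he.val_s) hsa hsb z)
      = qAut313 (sBar313 s he.val_s) hab hbb (red z) := by
    intro z
    ext
    · exact (sBar313_res s he.val_s z.re).symm
    · exact (sBar313_res s he.val_s z.im).symm
  have hincσ : ∀ z, inc (qAut313 (sO313 s he.val_s) hsa hsb z)
      = qAut313 s ha hb (inc z) := by
    intro z
    ext <;> rfl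
  set Z := nrm313 (⇑(qAut313 (sO313 s he.val_s) hsa hsb)) l βO with hZ
  have hredZ : red Z = QuadraticAlgebra.omega := by
    rw [hZ, nrm313_map (⇑red) (map_one _) (map_mul _) _ _ hredσ l βO, hredβ, hβb]
  have hincZ : inc Z = nrm313 (⇑(qAut313 s ha hb)) l (inc βO) := by
    rw [hZ, nrm313_map (⇑inc) (map_one _) (map_mul _) _ _ hincσ l βO]
  refine ⟨inc βO, x.2, y.2, ?_, ?_⟩
  · rw [← hincZ]
    have h1 : res313 K Z.re = 0 :=
      (congrArg QuadraticAlgebra.re hredZ).trans QuadraticAlgebra.omega_re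
    have h2 := (res313_eq_zero_iff _).1 h1
    show Valued.v ((Z.re : K) - 0) < 1
    rw [sub_zero]
    exact h2
  · rw [← hincZ]
    have h1 : res313 K Z.im = res313 K 1 := by
      rw [map_one]
      exact (congrArg QuadraticAlgebra.im hredZ).trans QuadraticAlgebra.omega_im
    have h2 := (res313_eq_iff _ _).1 h1
    show Valued.v ((Z.im : K) - 1) < 1
    exact h2

end

end Fermat.Agent.LT.T6.H313

end

end
-- ===== PACK-END LT/T6/H313/LocalRes.lean

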