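import Mathlib
import Fermat.Agent.Pack.LT3.E8L0
import Fermat.Agent.Pack.LT3.E8L2
import Fermat.Agent.Pack.LT3.E8L1
import Fermat.Agent.Pack.LT3.E8L3
import Fermat.Agent.Pack.LT3.E5L0
import Fermat.Agent.Pack.LT3.E7L0
import Fermat.Agent.Pack.LT2.E0L1
import Fermat.Agent.Pack.LT3.E3L1
import Fermat.Agent.Pack.LT3.E3L2
import Fermat.Agent.Pack.LT3.E7L2
import Fermat.Agent.Pack.LT3.E3L3
import Fermat.Agent.Pack.LT2.E3L1
import Fermat.Agent.Pack.LT2.E3L0
import Fermat.Agent.Pack.LT3.E1L2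
import Fermat.Agent.Pack.LT3.E4L1
import Fermat.Agent.Pack.LT3.E6L3
import Fermat.Agent.Pack.LT3.E5L2
import Fermat.Agent.Pack.LT3.E9L1

set_option linter.all false

-- ===== PACK-BEGIN LT/H129/MelFubini.lean
section


/-!
# Row LT, tower T6, leaf T6.21.1 `H830.MelFubiniC` (registry row 1636; helper129) -- OFF-MAIN

    melFubiniC129 : T6.H830.MelFubiniC        (VERBATIM, UNCONDITIONAL)

`(ζ, r, x) ↦ f (bR ζ r x)` is continuous with compact support on `ℝ³` for every continuous `f`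
with compact support on `GL₂(ℝ)` (`continuous_bR129`, `hasCompactSupport_comp_bR129`; no weight,
no smoothness is used); Fubini.
-/

set_option autoImplicit false

open scoped Matrix
open MeasureTheory

noncomputable section

namespace Fermat.Agent.LT.H129

open Fermat.Agent.LT.T6 Fermat.Agent.LT.T6.H830

/-- The inverse of `bR ζ r x` as a matrix. -/
theorem coe_inv_bR129 (ζ r x : ℝ) :
    (((bR ζ r x)⁻¹ : GL (Fin 2) ℝ) : Matrix (Fin 2) (Fin 2) ℝ)
      = !![Real.exp (-((ζ + r) / 2)), -(x * Real.exp (-((ζ - r) / 2)));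
          0, Real.exp (-((ζ - r) / 2))] := by
  apply Units.inv_eq_of_mul_eq_one_right
  rw [coe_bR830]
  ext i j
  fin_cases i <;> fin_cases j
  · simp [Matrix.mul_apply, Fin.sum_univ_two, ← Real.exp_add]
  · simp only [Matrix.mul_apply, Fin.sum_univ_two]
    simp
    have h : Real.exp ((ζ - r) / 2) * Real.exp (-((ζ - r) / 2)) = 1 := by
      rw [← Real.exp_add]; simp
    have h2 : Real.exp (-((ζ - r) / 2)) = (Real.exp ((ζ - r) / 2))⁻¹ := Real.exp_neg _
    rw [h2]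
    ring
  · simp [Matrix.mul_apply, Fin.sum_univ_two]
  · simp [Matrix.mul_apply, Fin.sum_univ_two, ← Real.exp_add]

/-- `(ζ, r, x) ↦ bR ζ r x` is continuous. -/
theorem continuous_bR129 :
    Continuous (fun p : (ℝ × ℝ) × ℝ => bR p.1.1 p.1.2 p.2) := by
  rw [Units.continuous_iff]
  constructor
  · refine continuous_matrix fun i j => ?_
    fin_cases i <;> fin_cases j
    · simp only [Function.comp, coe_bR830]
      simp
      fun_prop
    · simp only [Function.comp, coe_bR830]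
      simp
      fun_prop
    · simp only [Function.comp, coe_bR830]
      simp
      fun_prop
    · simp only [Function.comp, coe_bR830]
      simp
      fun_prop
  · refine continuous_matrix fun i j => ?_
    fin_cases i <;> fin_cases j
    · simp only [coe_inv_bR129]
      simp
      fun_prop
    · simp only [coe_inv_bR129]
      simp
      fun_prop
    · simp only [coe_inv_bR129]
      simp
      fun_prop
    · simp only [coe_inv_bR129]
      simp
      fun_prop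

theorem continuous_entry_gl129 (i j : Fin 2) :
    Continuous (fun g : GL (Fin 2) ℝ => (g : Matrix (Fin 2) (Fin 2) ℝ) i j) :=
  Units.continuous_val.matrix_elem i j

theorem continuous_inv_entry_gl129 (i j : Fin 2) :
    Continuous (fun g : GL (Fin 2) ℝ => ((g⁻¹ : GL (Fin 2) ℝ) : Matrix (Fin 2) (Fin 2) ℝ) i j) :=
  (Units.continuous_val.comp continuous_inv).matrix_elem i j

/-- A compact subset of `GL₂(ℝ)` is bounded in the coordinates `(ζ, r, x)`. -/
theorem exists_box_of_isCompact129 (S : Set (GL (Fin 2) ℝ)) (hS : IsCompact S) :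
    ∃ L : ℝ, ∃ D : ℝ, ∀ ζ r x : ℝ, bR ζ r x ∈ S →
      ζ ∈ Set.Icc (-L) L ∧ r ∈ Set.Icc (-L) L ∧ x ∈ Set.Icc (-D) D := by
  obtain ⟨C1, h1⟩ := hS.exists_bound_of_continuousOn (continuous_entry_gl129 0 0).continuousOn
  obtain ⟨C2, h2⟩ := hS.exists_bound_of_continuousOn (continuous_entry_gl129 1 1).continuousOn
  obtain ⟨C3, h3⟩ := hS.exists_bound_of_continuousOn
    (continuous_inv_entry_gl129 0 0).continuousOn
  obtain ⟨C4, h4⟩ := hS.exists_bound_of_continuousOn
    (continuous_inv_entry_gl129 1 1).continuousOn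
  obtain ⟨C5, h5⟩ := hS.exists_bound_of_continuousOn (continuous_entry_gl129 0 1).continuousOn
  set C : ℝ := max 1 (max C1 (max C2 (max C3 (max C4 C5)))) with hC
  have hC1 : C1 ≤ C := le_trans (le_max_left _ _) (le_max_right _ _)
  have hC2 : C2 ≤ C :=
    le_trans (le_trans (le_max_left _ _) (le_max_right _ _)) (le_max_right _ _)
  have hC3 : C3 ≤ C :=
    le_trans (le_trans (le_trans (le_max_left _ _) (le_max_right _ _)) (le_max_right _ _))
      (le_max_right _ _)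
  have hC4 : C4 ≤ C :=
    le_trans (le_trans (le_trans (le_trans (le_max_left _ _) (le_max_right _ _))
      (le_max_right _ _)) (le_max_right _ _)) (le_max_right _ _)
  have hC5 : C5 ≤ C :=
    le_trans (le_trans (le_trans (le_trans (le_max_right _ _) (le_max_right _ _))
      (le_max_right _ _)) (le_max_right _ _)) (le_max_right _ _)
  have hCpos : 0 < C := lt_of_lt_of_le one_pos (le_max_left _ _)
  refine ⟨2 * Real.log C, C * C, ?_⟩
  intro ζ r x hmem
  have e1 := h1 _ hmem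
  have e2 := h2 _ hmem
  have e3 := h3 _ hmem
  have e4 := h4 _ hmem
  have e5 := h5 _ hmem
  simp only [coe_inv_bR129, coe_bR830, Real.norm_eq_abs] at e1 e2 e3 e4 e5
  simp at e1 e2 e3 e4 e5
  have a1 : (ζ + r) / 2 ≤ Real.log C := (Real.le_log_iff_exp_le hCpos).2 (e1.trans hC1)
  have a2 : (ζ - r) / 2 ≤ Real.log C := (Real.le_log_iff_exp_le hCpos).2 (e2.trans hC2)
  have a3 : -((ζ + r) / 2) ≤ Real.log C := (Real.le_log_iff_exp_le hCpos).2 (e3.trans hC3)
  have a4 : -((ζ - r) / 2) ≤ Real.log C := (Real.le_log_iff_exp_le hCpos).2 (e4.trans hC4)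
  refine ⟨⟨by linarith, by linarith⟩, ⟨by linarith, by linarith⟩, ?_⟩
  have hx : |x| ≤ C * C := by
    have hx1 : |x| = (Real.exp ((ζ + r) / 2) * |x|) * Real.exp (-((ζ + r) / 2)) := by
      rw [mul_comm (Real.exp _) |x|, mul_assoc, ← Real.exp_add]
      simp
    rw [hx1]
    exact mul_le_mul (e5.trans hC5) (e3.trans hC3) (Real.exp_pos _).le hCpos.le
  exact abs_le.1 hx

/-- `(ζ, r, x) ↦ f (bR ζ r x)` has compact support if `f` has. -/
theorem hasCompactSupport_comp_bR129 (f : GL (Fin 2) ℝ → ℂ) (hf : HasCompactSupport f) :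
    HasCompactSupport (fun p : (ℝ × ℝ) × ℝ => f (bR p.1.1 p.1.2 p.2)) := by
  obtain ⟨L, D, hbox⟩ := exists_box_of_isCompact129 (tsupport f) hf
  refine HasCompactSupport.intro
    (K := (Set.Icc (-L) L ×ˢ Set.Icc (-L) L) ×ˢ Set.Icc (-D) D)
    ((isCompact_Icc.prod isCompact_Icc).prod isCompact_Icc) ?_
  intro p hp
  by_contra hne
  apply hp
  have hmem : bR p.1.1 p.1.2 p.2 ∈ tsupport f := subset_tsupport f hne
  obtain ⟨h1, h2, h3⟩ := hbox _ _ _ hmem
  exact ⟨⟨h1, h2⟩, h3⟩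

/-- **T6.21.1 MEL-FUBINI**, for every continuous `f` with compact support. -/
theorem melFubini129 (f : GL (Fin 2) ℝ → ℂ) (hf : Continuous f) (hfs : HasCompactSupport f)
    (s : ℂ) :
    melR f s = ∫ r : ℝ, Complex.exp ((r : ℂ) * (s + 1 / 2)) * hcZ f r := by
  set H : (ℝ × ℝ) × ℝ → ℂ := fun p =>
    Complex.exp ((p.1.2 : ℂ) * (s + 1 / 2)) * f (bR p.1.1 p.1.2 p.2) with hH
  have hHc : Continuous H := by
    refine Continuous.mul ?_ (hf.comp continuous_bR129)
    fun_prop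
  have hHs : HasCompactSupport H := (hasCompactSupport_comp_bR129 f hfs).mul_left
  have hHi : Integrable H ((volume : Measure (ℝ × ℝ)).prod (volume : Measure ℝ)) :=
    hHc.integrable_of_hasCompactSupport hHs
  have hG : Integrable (fun q : ℝ × ℝ => ∫ x : ℝ, H (q, x)) (volume : Measure (ℝ × ℝ)) :=
    hHi.integral_prod_left
  have hGe : ∀ ζ r : ℝ, (∫ x : ℝ, H ((ζ, r), x))
      = Complex.exp ((r : ℂ) * (s + 1 / 2)) * hcR f ζ r := by
    intro ζ r
    simp only [hH, hcR]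
    exact integral_const_mul _ _
  have hG' : Integrable
      (Function.uncurry fun ζ r : ℝ => Complex.exp ((r : ℂ) * (s + 1 / 2)) * hcR f ζ r)
      ((volume : Measure ℝ).prod (volume : Measure ℝ)) := by
    have e : (Function.uncurry fun ζ r : ℝ => Complex.exp ((r : ℂ) * (s + 1 / 2)) * hcR f ζ r)
        = fun q : ℝ × ℝ => ∫ x : ℝ, H (q, x) := by
      funext q
      obtain ⟨ζ, r⟩ := q
      exact (hGe ζ r).symm
    rw [e]
    exact hG
  unfold melR
  rw [integral_integral_swap hG']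
  refine integral_congr_ae (Filter.Eventually.of_forall fun r => ?_)
  simp only [hcZ]
  exact integral_const_mul _ _

/-- **T6.21.1 MEL-FUBINI** (`H830.MelFubiniC` VERBATIM). -/
theorem melFubiniC129 : MelFubiniC := fun _ _ f hf s => melFubini129 f hf.cont hf.supp s

end Fermat.Agent.LT.H129

end

end
-- ===== PACK-END LT/H129/MelFubini.lean

-- ===== PACK-BEGIN LT/T6/H830/HCClosed.lean
section











/-!
# Row LT, tower T6, station T6.29 `ArchSpec`: INTEGRATION of the closed leaves (helper830)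

OFF-MAIN.  One closure, byte-identical copies of the leaf files:

| leaf | owner | file |
|---|---|---|
| `CartanRC` | helper543@ad02e8db1 | `T6/H543/CartanR.lean` |
| `SphAvgOfC` | helper162@30fb177d7 | `T6/H162/SphAvgOf.lean` |
| `EisIwRC` | helper309@2829e0e39 | `T6/H309/EisIwR.lean` |
| `CartanCC` | helper283@152db8d1f | `T6/H283/{CartanC,CartanCore}.lean` |
| `SphCKernelC` | helper698@c51e99c3d | `T6/H698/SphCKernel.lean` |
| `WIntOfC` | helper841@3b0d63b80 | `T6/H841/WInt.lean` |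
| `TriFubiniC` | helper286@9c5771ed2 | `T6/H286/TriFubini.lean` |
| `HCTransCOfC`, `MelSubstC`, tops, adapter | helper830 | `T6/H830/*.lean` |

OPEN (hypotheses of `archSpecC_of_open830`): `IwasawaIntRC`, `IwasawaIntCC` (= T6.23),
`SphAvgAtC`, `EisIntRC`.
-/

set_option autoImplicit false

noncomputable section

namespace Fermat.Agent.LT.T6.H830

open Fermat.Agent.LT.T6

/-- The complex side is closed up to the Iwasawa formula. -/
theorem hcTransCC_of_iwasawa830 (hIC : IwasawaIntCC) : HCTransCC :=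
  hcTransCOfC830 hIC (H841.wIntOf841 H283.cartanCC283) H698.sphCKernelC698 H286.triFubiniC286

/-- **T6.29 from the leaves still open.** -/
theorem archSpecC_of_open830 (hIR : IwasawaIntRC) (hIC : IwasawaIntCC) (hAt : SphAvgAtC)
    (hInt : EisIntRC) : ArchSpecC :=
  archSpec_of_leaves830 hIR hIC H543.cartanRC_h543 hAt H162.sphAvgOfC162 hInt H309.eisIwRC309
    H283.cartanCC283 H841.wIntOf841 H698.sphCKernelC698 H286.triFubiniC286 hcTransCOfC830

/-- **T6.20c from the leaves still open.** -/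
theorem specRelC626_of_open830 (hIR : IwasawaIntRC) (hIC : IwasawaIntCC) (hAt : SphAvgAtC)
    (hInt : EisIntRC) : H626.SpecRelC626 :=
  specRelC626_of_archSpec830 (archSpecC_of_open830 hIR hIC hAt hInt)

end Fermat.Agent.LT.T6.H830

end

end
-- ===== PACK-END LT/T6/H830/HCClosed.lean

-- ===== PACK-BEGIN LT/T6/H848/HcZForm.lean
section



/-!
# Row LT, tower T6, sub-leaf T6.21.4 `H830.HcZFormC` (helper848)

OFF-MAIN.  Imports: Mathlib and byte-identical copies of `LT/T6/H830/InjSpec.lean`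
(sha256 065bae8e), `HCSpec.lean` (c3e7d846), `LT/T6/SpecArch.lean` (003240b2),
`LT/T6/Spec.lean` v3 (8c5f2ae7).

`hcZ f r = ∫_x wph n r x · torT f (arcosh (rhoRX r x)) dx`:
* pointwise `f (bR ζ r x) = wph n r x · f (bR ζ t 0)`, `t = arcosh830 (rhoRX r x)` (Cartan
  decomposition of `bR ζ r x`; determinant, sum of the squares of the entries, `holPart`);
* `(ζ, x) ↦ f (bR ζ r x)` is continuous with compact support, Fubini.
-/

set_option autoImplicit false
set_option linter.style.haveILetI false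

open scoped Matrix
open MeasureTheory

noncomputable section

namespace Fermat.Agent.LT.T6.H848

open Fermat.Agent.LT.T6 Fermat.Agent.LT.T6.H830

/-! ## 1. The Cartan decomposition of `bR ζ r x` -/

/-- `arcosh830 (cosh t) = t` for `t ≥ 0`. -/
theorem arcosh_cosh848 {t : ℝ} (ht : 0 ≤ t) : arcosh830 (Real.cosh t) = t := by
  unfold arcosh830
  have h1 : Real.cosh t ^ 2 - 1 = Real.sinh t ^ 2 := by
    have := Real.cosh_sq t
    linarith
  rw [h1, Real.sqrt_sq (Real.sinh_nonneg_iff.mpr ht), Real.cosh_add_sinh, Real.log_exp]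

/-- `cosh (t/2) = √((cosh t + 1)/2)`. -/
theorem cosh_half848 (t : ℝ) : Real.cosh (t / 2) = Real.sqrt ((Real.cosh t + 1) / 2) := by
  have h1 : Real.cosh t = 2 * Real.cosh (t / 2) ^ 2 - 1 := by
    have := Real.cosh_two_mul (t / 2)
    have h2 : 2 * (t / 2) = t := by ring
    rw [h2] at this
    have h3 := Real.cosh_sq (t / 2)
    rw [this]
    linarith
  have h4 : (Real.cosh t + 1) / 2 = Real.cosh (t / 2) ^ 2 := by linarith
  rw [h4, Real.sqrt_sq (Real.cosh_pos _).le]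

theorem inSO2_rotR848 (θ : ℝ) : InSO2 (rotR θ) := by
  have h := Real.cos_sq_add_sin_sq θ
  constructor
  · rw [coe_rotR830]
    ext i j
    fin_cases i <;> fin_cases j <;>
      simp [Matrix.mul_apply, Fin.sum_univ_two, Matrix.transpose_apply] <;> nlinarith [h]
  · rw [coe_rotR830, Matrix.det_fin_two_of]
    nlinarith [h]

theorem holPart_rotR848 (θ : ℝ) :
    holPart (rotR θ) = (Real.cos θ : ℂ) + (Real.sin θ : ℂ) * Complex.I := by
  unfold holPart
  rw [coe_rotR830]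
  simp only [Matrix.of_apply, Matrix.cons_val', Matrix.cons_val_zero, Matrix.cons_val_one,
    Matrix.cons_val_fin_one]
  push_cast
  ring

/-- The pointwise identity. -/
theorem f_bR848 (hC : CartanRC) {n : ℤ} {f : GL (Fin 2) ℝ → ℂ} (hf : IsArchTestR n f)
    (ζ r x : ℝ) :
    f (bR ζ r x) = wph n r x * f (bR ζ (arcosh830 (rhoRX r x)) 0) := by
  have hdet : ((bR ζ r x : GL (Fin 2) ℝ) : Matrix (Fin 2) (Fin 2) ℝ).det = Real.exp ζ := by
    rw [coe_bR830, Matrix.det_fin_two_of, mul_zero, sub_zero, ← Real.exp_add]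
    congr 1
    ring
  obtain ⟨ζ', α, β, t, ht, hy⟩ := hC (bR ζ r x) (by rw [hdet]; exact Real.exp_pos _)
  -- the matrix equation
  have hM : ((bR ζ r x : GL (Fin 2) ℝ) : Matrix (Fin 2) (Fin 2) ℝ)
      = (rotR α : Matrix (Fin 2) (Fin 2) ℝ) * (bR ζ' t 0 : Matrix (Fin 2) (Fin 2) ℝ)
        * (rotR β : Matrix (Fin 2) (Fin 2) ℝ) := by
    rw [hy]
    rfl
  rw [coe_bR830, coe_bR830, coe_rotR830, coe_rotR830] at hM
  set A := Real.exp ((ζ + r) / 2) with hA
  set B := Real.exp ((ζ - r) / 2) with hB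
  set A' := Real.exp ((ζ' + t) / 2) with hA'
  set B' := Real.exp ((ζ' - t) / 2) with hB'
  set cα := Real.cos α with hcα
  set sα := Real.sin α with hsα
  set cβ := Real.cos β with hcβ
  set sβ := Real.sin β with hsβ
  have hα : cα ^ 2 + sα ^ 2 = 1 := Real.cos_sq_add_sin_sq α
  have hβ : cβ ^ 2 + sβ ^ 2 = 1 := Real.cos_sq_add_sin_sq β
  have h00 : A = cα * A' * cβ - sα * B' * sβ := by
    have := congrFun (congrFun hM 0) 0
    simp [Matrix.mul_apply, Fin.sum_univ_two] at this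
    linarith
  have h01 : A * x = -(cα * A' * sβ) - sα * B' * cβ := by
    have := congrFun (congrFun hM 0) 1
    simp [Matrix.mul_apply, Fin.sum_univ_two] at this
    linarith
  have h10 : 0 = sα * A' * cβ + cα * B' * sβ := by
    have := congrFun (congrFun hM 1) 0
    simp [Matrix.mul_apply, Fin.sum_univ_two] at this
    linarith
  have h11 : B = -(sα * A' * sβ) + cα * B' * cβ := by
    have := congrFun (congrFun hM 1) 1
    simp [Matrix.mul_apply, Fin.sum_univ_two] at this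
    linarith
  -- determinant: `ζ' = ζ`
  have hAB : A * B = Real.exp ζ := by
    rw [hA, hB, ← Real.exp_add]
    congr 1
    ring
  have hAB' : A' * B' = Real.exp ζ' := by
    rw [hA', hB', ← Real.exp_add]
    congr 1
    ring
  have hdet2 : A * B = A' * B' := by
    linear_combination B * h00 + (cα * A' * cβ - sα * B' * sβ) * h11
      + (-(-(cα * A' * sβ) - sα * B' * cβ)) * h10
      + (A' * B' * (cβ ^ 2 + sβ ^ 2)) * hα + (A' * B') * hβ
  have hζ : ζ' = ζ := by
    apply Real.exp_injective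
    rw [← hAB', ← hAB, hdet2]
  subst hζ
  -- sum of the squares: `cosh t = rhoRX r x`
  have hsq : A ^ 2 + (A * x) ^ 2 + B ^ 2 = A' ^ 2 + B' ^ 2 := by
    linear_combination (A + (cα * A' * cβ - sα * B' * sβ)) * h00
      + (A * x + (-(cα * A' * sβ) - sα * B' * cβ)) * h01
      + (B + (-(sα * A' * sβ) + cα * B' * cβ)) * h11
      + (sα * A' * cβ + cα * B' * sβ) * h10
      + ((A' ^ 2 + B' ^ 2) * (cβ ^ 2 + sβ ^ 2)) * hα + (A' ^ 2 + B' ^ 2) * hβ
  have hE : ∀ u : ℝ, Real.exp ((ζ' + u) / 2) = Real.exp (ζ' / 2) * Real.exp (u / 2) := by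
    intro u
    rw [← Real.exp_add]
    congr 1
    ring
  have hE' : ∀ u : ℝ, Real.exp ((ζ' - u) / 2) = Real.exp (ζ' / 2) * Real.exp (-(u / 2)) := by
    intro u
    rw [← Real.exp_add]
    congr 1
    ring
  have hEpos : 0 < Real.exp (ζ' / 2) := Real.exp_pos _
  have hA2 : A = Real.exp (ζ' / 2) * Real.exp (r / 2) := hE r
  have hB2 : B = Real.exp (ζ' / 2) * Real.exp (-(r / 2)) := hE' r
  have hA2' : A' = Real.exp (ζ' / 2) * Real.exp (t / 2) := hE t
  have hB2' : B' = Real.exp (ζ' / 2) * Real.exp (-(t / 2)) := hE' t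
  have hsq2 : ∀ u : ℝ, Real.exp (u / 2) ^ 2 = Real.exp u := by
    intro u
    rw [sq, ← Real.exp_add]
    congr 1
    ring
  have hsq3 : ∀ u : ℝ, Real.exp (-(u / 2)) ^ 2 = Real.exp (-u) := by
    intro u
    rw [sq, ← Real.exp_add]
    congr 1
    ring
  have hρ : rhoRX r x = Real.cosh t := by
    unfold rhoRX
    rw [Real.cosh_eq, Real.cosh_eq]
    have h1 : Real.exp (ζ' / 2) ^ 2 * (Real.exp r + Real.exp r * x ^ 2 + Real.exp (-r))
        = Real.exp (ζ' / 2) ^ 2 * (Real.exp t + Real.exp (-t)) := by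
      have := hsq
      rw [hA2, hB2, hA2', hB2'] at this
      rw [← hsq2 r, ← hsq3 r, ← hsq2 t, ← hsq3 t]
      linear_combination this
    have h2 : Real.exp r + Real.exp r * x ^ 2 + Real.exp (-r) = Real.exp t + Real.exp (-t) :=
      mul_left_cancel₀ (pow_ne_zero 2 hEpos.ne') h1
    linarith
  rw [hρ, arcosh_cosh848 ht]
  -- the weights
  have hf1 : f (bR ζ' r x)
      = (wtChar n (rotR β))⁻¹ * ((wtChar n (rotR α))⁻¹ * f (bR ζ' t 0)) := by
    rw [hy, hf.right _ _ (inSO2_rotR848 β), hf.left _ _ (inSO2_rotR848 α)]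
  rw [hf1, ← mul_assoc]
  congr 1
  -- the phase
  unfold wtChar wph
  rw [holPart_rotR848, holPart_rotR848, ← mul_inv, ← mul_zpow, ← inv_zpow]
  congr 1
  rw [hρ, ← cosh_half848]
  have hct : 0 < Real.cosh (t / 2) := Real.cosh_pos _
  -- real identities
  have hp : (cα * cβ - sα * sβ) * Real.cosh (t / 2) = Real.cosh (r / 2) := by
    have h1 : A + B = (A' + B') * (cα * cβ - sα * sβ) := by
      linear_combination h00 + h11
    rw [hA2, hB2, hA2', hB2'] at h1
    have h2 : Real.exp (ζ' / 2) * (2 * Real.cosh (r / 2))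
        = Real.exp (ζ' / 2) * (2 * Real.cosh (t / 2) * (cα * cβ - sα * sβ)) := by
      rw [Real.cosh_eq, Real.cosh_eq]
      linear_combination h1
    have h3 := mul_left_cancel₀ hEpos.ne' h2
    linarith
  have hq : (sα * cβ + cα * sβ) * Real.cosh (t / 2) = -(Real.exp (r / 2) * x / 2) := by
    have h1 : -(A * x) = (A' + B') * (sα * cβ + cα * sβ) := by
      linear_combination h10 - h01
    rw [hA2, hA2', hB2'] at h1
    have h2 : Real.exp (ζ' / 2) * (-(Real.exp (r / 2) * x))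
        = Real.exp (ζ' / 2) * (2 * Real.cosh (t / 2) * (sα * cβ + cα * sβ)) := by
      rw [Real.cosh_eq]
      linear_combination h1
    have h3 := mul_left_cancel₀ hEpos.ne' h2
    linarith
  have hpq : (cα * cβ - sα * sβ) ^ 2 + (sα * cβ + cα * sβ) ^ 2 = 1 := by
    linear_combination (cβ ^ 2 + sβ ^ 2) * hα + hβ
  rw [← hcα, ← hsα, ← hcβ, ← hsβ]
  apply inv_eq_of_mul_eq_one_left
  have hctC : ((Real.cosh (t / 2) : ℝ) : ℂ) ≠ 0 := Complex.ofReal_ne_zero.mpr hct.ne'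
  have hpC : ((Real.cosh (r / 2) : ℝ) : ℂ)
      = ((cα * cβ - sα * sβ : ℝ) : ℂ) * ((Real.cosh (t / 2) : ℝ) : ℂ) := by
    rw [← Complex.ofReal_mul, hp]
  have hqC : ((Real.exp (r / 2) * x / 2 : ℝ) : ℂ)
      = -(((sα * cβ + cα * sβ : ℝ) : ℂ) * ((Real.cosh (t / 2) : ℝ) : ℂ)) := by
    rw [← Complex.ofReal_mul, hq]
    push_cast
    ring
  have hpqC : ((cα * cβ - sα * sβ : ℝ) : ℂ) ^ 2 + ((sα * cβ + cα * sβ : ℝ) : ℂ) ^ 2 = 1 := by
    exact_mod_cast hpq
  have hP : ((cα * cβ - sα * sβ : ℝ) : ℂ) = (cα : ℂ) * cβ - sα * sβ := by push_cast; ring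
  have hQ : ((sα * cβ + cα * sβ : ℝ) : ℂ) = (sα : ℂ) * cβ + cα * sβ := by push_cast; ring
  rw [hpC, hqC, div_mul_eq_mul_div, div_eq_iff hctC, hP, hQ]
  rw [hP, hQ] at hpqC
  generalize ((Real.cosh (t / 2) : ℝ) : ℂ) = CT
  linear_combination CT * hpqC
    + (CT * (-((sα : ℂ) * cβ + cα * sβ) ^ 2
        + (((cα : ℂ) * cβ - sα * sβ) - ((sα : ℂ) * cβ + cα * sβ) * Complex.I) * (sα * sβ)))
      * Complex.I_sq

/-! ## 2. Regularity of `(ζ, x) ↦ f (bR ζ r x)` -/

/-- The inverse of `bR ζ r x`. -/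
theorem coe_inv_bR848 (ζ r x : ℝ) :
    (((bR ζ r x)⁻¹ : GL (Fin 2) ℝ) : Matrix (Fin 2) (Fin 2) ℝ)
      = !![Real.exp (-((ζ + r) / 2)), -(x * Real.exp (-((ζ - r) / 2)));
          0, Real.exp (-((ζ - r) / 2))] := by
  rw [Matrix.coe_units_inv, coe_bR830]
  apply Matrix.inv_eq_right_inv
  have h1 : Real.exp ((ζ + r) / 2) * Real.exp (-((ζ + r) / 2)) = 1 := by
    rw [← Real.exp_add, add_neg_cancel, Real.exp_zero]
  have h2 : Real.exp ((ζ - r) / 2) * Real.exp (-((ζ - r) / 2)) = 1 := by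
    rw [← Real.exp_add, add_neg_cancel, Real.exp_zero]
  ext i j
  fin_cases i <;> fin_cases j
  · simp [Matrix.mul_apply, Fin.sum_univ_two, h1]
  · simp only [Matrix.mul_apply, Fin.sum_univ_two]
    simp
    ring
  · simp [Matrix.mul_apply, Fin.sum_univ_two]
  · simp [Matrix.mul_apply, Fin.sum_univ_two, h2]

theorem continuous_bR848 (r : ℝ) : Continuous fun p : ℝ × ℝ => bR p.1 r p.2 := by
  rw [Units.continuous_iff]
  constructor
  · apply continuous_matrix
    intro i j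
    show Continuous fun p : ℝ × ℝ =>
      ((bR p.1 r p.2 : GL (Fin 2) ℝ) : Matrix (Fin 2) (Fin 2) ℝ) i j
    simp only [coe_bR830]
    fin_cases i <;> fin_cases j <;> simp <;> fun_prop
  · apply continuous_matrix
    intro i j
    show Continuous fun p : ℝ × ℝ =>
      (((bR p.1 r p.2)⁻¹ : GL (Fin 2) ℝ) : Matrix (Fin 2) (Fin 2) ℝ) i j
    simp only [coe_inv_bR848]
    fin_cases i <;> fin_cases j <;> simp <;> fun_prop

theorem continuous_F848 {n : ℤ} {f : GL (Fin 2) ℝ → ℂ} (hf : IsArchTestR n f) (r : ℝ) :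
    Continuous fun p : ℝ × ℝ => f (bR p.1 r p.2) :=
  hf.cont.comp (continuous_bR848 r)

theorem hasCompactSupport_F848 {n : ℤ} {f : GL (Fin 2) ℝ → ℂ} (hf : IsArchTestR n f) (r : ℝ) :
    HasCompactSupport fun p : ℝ × ℝ => f (bR p.1 r p.2) := by
  have hK : IsCompact (tsupport f) := hf.supp
  have hval : Continuous fun g : GL (Fin 2) ℝ => (g : Matrix (Fin 2) (Fin 2) ℝ) :=
    Units.continuous_val
  have hinv : Continuous fun g : GL (Fin 2) ℝ =>
      ((g⁻¹ : GL (Fin 2) ℝ) : Matrix (Fin 2) (Fin 2) ℝ) :=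
    hval.comp continuous_inv
  have c1 : Continuous fun g : GL (Fin 2) ℝ => (g : Matrix (Fin 2) (Fin 2) ℝ) 0 0 :=
    hval.matrix_elem 0 0
  have c2 : Continuous fun g : GL (Fin 2) ℝ => ((g⁻¹ : GL (Fin 2) ℝ) :
      Matrix (Fin 2) (Fin 2) ℝ) 0 0 :=
    hinv.matrix_elem 0 0
  have c3 : Continuous fun g : GL (Fin 2) ℝ => (g : Matrix (Fin 2) (Fin 2) ℝ) 0 1 :=
    hval.matrix_elem 0 1
  obtain ⟨C₁, hC₁⟩ := hK.exists_bound_of_continuousOn c1.continuousOn
  obtain ⟨C₂, hC₂⟩ := hK.exists_bound_of_continuousOn c2.continuousOn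
  obtain ⟨C₃, hC₃⟩ := hK.exists_bound_of_continuousOn c3.continuousOn
  refine HasCompactSupport.intro
    ((isCompact_Icc (a := -(2 * Real.log C₂) - r) (b := 2 * Real.log C₁ - r)).prod
      (isCompact_Icc (a := -(C₃ * C₂)) (b := C₃ * C₂))) ?_
  intro p hp
  by_contra hne
  apply hp
  have hmem : bR p.1 r p.2 ∈ tsupport f := subset_tsupport f hne
  have h1 := hC₁ _ hmem
  have h2 := hC₂ _ hmem
  have h3 := hC₃ _ hmem
  simp only [coe_bR830, coe_inv_bR848, Matrix.of_apply, Matrix.cons_val', Matrix.cons_val_zero,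
    Matrix.cons_val_one, Matrix.cons_val_fin_one, Real.norm_eq_abs] at h1 h2 h3
  rw [abs_of_pos (Real.exp_pos _)] at h1 h2
  have hC₁pos : 0 < C₁ := lt_of_lt_of_le (Real.exp_pos _) h1
  have hC₂pos : 0 < C₂ := lt_of_lt_of_le (Real.exp_pos _) h2
  have e1 : (p.1 + r) / 2 ≤ Real.log C₁ := (Real.le_log_iff_exp_le hC₁pos).mpr h1
  have e2 : -((p.1 + r) / 2) ≤ Real.log C₂ := (Real.le_log_iff_exp_le hC₂pos).mpr h2
  have e3 : |p.2| ≤ C₃ * C₂ := by
    have hx : p.2 = Real.exp ((p.1 + r) / 2) * p.2 * Real.exp (-((p.1 + r) / 2)) := by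
      have : Real.exp ((p.1 + r) / 2) * Real.exp (-((p.1 + r) / 2)) = 1 := by
        rw [← Real.exp_add, add_neg_cancel, Real.exp_zero]
      linear_combination (-p.2) * this
    rw [hx, abs_mul, abs_of_pos (Real.exp_pos (-((p.1 + r) / 2)))]
    exact mul_le_mul h3 h2 (Real.exp_pos _).le ((abs_nonneg _).trans h3)
  refine ⟨⟨by linarith, by linarith⟩, ?_⟩
  exact abs_le.mp e3

theorem integrable_F848 {n : ℤ} {f : GL (Fin 2) ℝ → ℂ} (hf : IsArchTestR n f) (r : ℝ) :
    Integrable (fun p : ℝ × ℝ => f (bR p.1 r p.2))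
      ((volume : Measure ℝ).prod (volume : Measure ℝ)) :=
  (continuous_F848 hf r).integrable_of_hasCompactSupport (hasCompactSupport_F848 hf r)

/-! ## 3. The leaf -/

/-- **T6.21.4** -/
theorem hcZFormC848 : HcZFormC := by
  intro hC n _ f hf r
  unfold hcZ hcR
  rw [integral_integral_swap (f := fun ζ x : ℝ => f (bR ζ r x)) (integrable_F848 hf r)]
  refine integral_congr_ae (Filter.Eventually.of_forall fun x => ?_)
  show (∫ ζ : ℝ, f (bR ζ r x)) = wph n r x * torT f (arcosh830 (rhoRX r x))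
  unfold torT
  rw [← integral_const_mul]
  exact integral_congr_ae (Filter.Eventually.of_forall fun ζ => f_bR848 hC hf ζ r x)

example : HcZFormC := hcZFormC848

end Fermat.Agent.LT.T6.H848

end

end
-- ===== PACK-END LT/T6/H848/HcZForm.lean

-- ===== PACK-BEGIN LT/T6/H288/IndexBasic.lean
section



/-!
# Row LT, tower T6, leaf T6.12g: basic lemmas on balls, scalings and norms (helper288)
-/

set_option autoImplicit false

noncomputable section

namespace Fermat.Agent.LT.T6.H288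

open Fermat.Agent.LT.T6

section Basic

variable {k : Type} [Field k] [Valued k Γ₀]

theorem mem_ball {n : ℤ} {x : k} : x ∈ ball k n ↔ Valued.v x ≤ WithZero.exp n := Iff.rfl

theorem mem_twistBall {s : k ≃+* k} {c : k} {n : ℤ} {x : k} :
    x ∈ twistBall s c n ↔ Valued.v (s x - c * x) ≤ WithZero.exp n := Iff.rfl

theorem v_ne_zero {x : k} (hx : x ≠ 0) : (Valued.v x : Γ₀) ≠ 0 :=
  (Valuation.ne_zero_iff _).2 hx

theorem v_eq_exp_neg_ordv {x : k} (hx : x ≠ 0) : Valued.v x = WithZero.exp (-ordv x) := by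
  unfold ordv
  rw [neg_neg, WithZero.exp_log (v_ne_zero hx)]

theorem ordv_of_v_eq_exp {x : k} {a : ℤ} (h : Valued.v x = WithZero.exp a) : ordv x = -a := by
  unfold ordv
  rw [h, WithZero.log_exp]

theorem v_le_exp_neg_iff {x : k} {j : ℤ} :
    Valued.v x ≤ WithZero.exp (-j) ↔ x = 0 ∨ j ≤ ordv x := by
  by_cases hx : x = 0
  · simp [hx]
  · rw [v_eq_exp_neg_ordv hx, WithZero.exp_le_exp]
    constructor
    · intro h; right; omega
    · rintro (h | h)
      · exact absurd h hx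
      · omega

theorem ball_mono {n n' : ℤ} (h : n' ≤ n) : ball k n' ≤ ball k n := by
  intro x hx
  exact le_trans hx (WithZero.exp_le_exp.2 h)

/-- Scaling by `g`, `v g = exp a`, maps the ball of radius `n` onto the ball of radius
`n + a`. -/
theorem map_mulLeft_ball {g : k} {a : ℤ} (hg : Valued.v g = WithZero.exp a) (n : ℤ) :
    (ball k n).map (AddMonoidHom.mulLeft g) = ball k (n + a) := by
  have hg0 : g ≠ 0 := by
    intro h
    rw [h, map_zero] at hg
    exact WithZero.exp_ne_zero hg.symm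
  ext y
  constructor
  · rintro ⟨x, hx, rfl⟩
    change Valued.v (g * x) ≤ WithZero.exp (n + a)
    rw [map_mul, hg, add_comm n a, WithZero.exp_add]
    exact mul_le_mul_right hx _
  · intro hy
    refine ⟨g⁻¹ * y, ?_, ?_⟩
    · change Valued.v (g⁻¹ * y) ≤ WithZero.exp n
      rw [map_mul, map_inv₀, hg]
      have hy' : Valued.v y ≤ WithZero.exp (n + a) := hy
      rw [add_comm n a, WithZero.exp_add] at hy'
      calc (WithZero.exp a)⁻¹ * Valued.v y
          ≤ (WithZero.exp a)⁻¹ * (WithZero.exp a * WithZero.exp n) := mul_le_mul_right hy' _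
        _ = WithZero.exp n := by
          rw [← mul_assoc, inv_mul_cancel₀ WithZero.exp_ne_zero, one_mul]
    · change g * (g⁻¹ * y) = y
      rw [← mul_assoc, mul_inv_cancel₀ hg0, one_mul]

omit [Valued k Γ₀] in
theorem mulLeft_injective {g : k} (hg : g ≠ 0) :
    Function.Injective (AddMonoidHom.mulLeft g) := by
  intro x y h
  exact mul_left_cancel₀ hg h

end Basic

section Norm

variable {k' : Type} [Field k']

theorem fNorm_mul (s : k' ≃+* k') (n : ℕ) (a b : k') :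
    fNorm s n (a * b) = fNorm s n a * fNorm s n b := by
  induction n with
  | zero => simp [fNorm]
  | succ n ih =>
    simp only [fNorm, ih, map_mul]
    ring

theorem fNorm_inv (s : k' ≃+* k') (n : ℕ) (a : k') :
    fNorm s n a⁻¹ = (fNorm s n a)⁻¹ := by
  induction n with
  | zero => simp [fNorm]
  | succ n ih =>
    simp only [fNorm, ih, map_inv₀, mul_inv]

theorem fNorm_div (s : k' ≃+* k') (n : ℕ) (a b : k') :
    fNorm s n (a / b) = fNorm s n a / fNorm s n b := by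
  rw [div_eq_mul_inv, fNorm_mul, fNorm_inv, div_eq_mul_inv]

/-- `s^n x - N_n(c) x = s(s^{n-1} x - N_{n-1}(c) x) + s(N_{n-1} c) (s x - c x)`. -/
theorem iter_sub_fNorm (s : k' ≃+* k') (c x : k') (n : ℕ) :
    (s ^ (n + 1)) x - fNorm s (n + 1) c * x
      = s ((s ^ n) x - fNorm s n c * x) + s (fNorm s n c) * (s x - c * x) := by
  have h1 : (s ^ (n + 1)) x = s ((s ^ n) x) := by
    rw [pow_succ']
    rfl
  rw [h1, fNorm, map_sub, map_mul]
  ring

end Norm

end Fermat.Agent.LT.T6.H288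

end

end
-- ===== PACK-END LT/T6/H288/IndexBasic.lean

-- ===== PACK-BEGIN LT/T6/H272/ReprCard.lean
section


/-!
# Row LT, tower T6, sub-leaf T6.12g.2 `ReprCardC` (helper272)

OFF-MAIN.  Counting with a full system of representatives `B` of `k / 𝒪`: for an additive
subgroup `A ⊇ 𝒪` of finite index over `𝒪`, the representatives lying in `A` are in bijection
with `A / 𝒪`.
-/

set_option autoImplicit false

noncomputable section

namespace Fermat.Agent.LT.T6.H272

open Fermat.Agent.LT.T6 Fermat.Agent.LT.T6.H288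

variable {k : Type} [Field k] [Valued k Γ₀]

/-- The class map from the representatives in `A` to `A / 𝒪`. -/
def reprClass272 (B : Set k) (A : AddSubgroup k) :
    {b : k | b ∈ B ∧ b ∈ A} → (A ⧸ (ball k 0).addSubgroupOf A) :=
  fun b => QuotientAddGroup.mk (⟨b.1, b.2.2⟩ : A)

theorem mem_ball272 (n : ℤ) (x : k) : x ∈ ball k n ↔ Valued.v x ≤ WithZero.exp n := Iff.rfl

theorem reprClass_injective272 (B : Set k) (hB : IsReprSet B) (A : AddSubgroup k) :
    Function.Injective (reprClass272 B A) := by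
  rintro ⟨b, hbB, hbA⟩ ⟨b', hb'B, hb'A⟩ h
  have h1 : (-(⟨b, hbA⟩ : A) + ⟨b', hb'A⟩) ∈ (ball k 0).addSubgroupOf A :=
    QuotientAddGroup.eq.mp h
  rw [AddSubgroup.mem_addSubgroupOf] at h1
  have h2 : Valued.v (b - b') ≤ 1 := by
    have h3 : Valued.v (-b + b') ≤ WithZero.exp (0 : ℤ) := h1
    have h4 : b - b' = -(-b + b') := by ring
    rw [h4, Valuation.map_neg]
    simpa using h3
  obtain ⟨c, -, hc⟩ := hB b
  have e1 : b = c := hc b ⟨hbB, by simp⟩
  have e2 : b' = c := hc b' ⟨hb'B, h2⟩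
  apply Subtype.ext
  change b = b'
  rw [e1, e2]

theorem reprClass_surjective272 (B : Set k) (hB : IsReprSet B) (A : AddSubgroup k)
    (hA : ball k 0 ≤ A) : Function.Surjective (reprClass272 B A) := by
  intro y
  induction y using QuotientAddGroup.induction_on with
  | H a =>
    obtain ⟨b, ⟨hbB, hb⟩, -⟩ := hB (a : k)
    have hab : (a : k) - b ∈ ball k 0 := by
      change Valued.v ((a : k) - b) ≤ WithZero.exp (0 : ℤ)
      simpa using hb
    have hbA : b ∈ A := by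
      have h1 : b = (a : k) - ((a : k) - b) := by ring
      rw [h1]
      exact A.sub_mem a.2 (hA hab)
    refine ⟨⟨b, hbB, hbA⟩, ?_⟩
    apply QuotientAddGroup.eq.mpr
    rw [AddSubgroup.mem_addSubgroupOf]
    change Valued.v (-b + (a : k)) ≤ WithZero.exp (0 : ℤ)
    have h2 : -b + (a : k) = (a : k) - b := by ring
    rw [h2]
    simpa using hb

/-- **T6.12g.2.** -/
theorem reprCardC272 : ReprCardC := by
  intro k _ _ B hB A hA hne
  have hcard : Nat.card {b : k | b ∈ B ∧ b ∈ A} = (ball k 0).relIndex A := by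
    rw [AddSubgroup.relIndex, AddSubgroup.index]
    exact Nat.card_congr (Equiv.ofBijective (reprClass272 B A)
      ⟨reprClass_injective272 B hB A, reprClass_surjective272 B hB A hA⟩)
  have hfin : Finite {b : k | b ∈ B ∧ b ∈ A} := by
    apply Nat.finite_of_card_ne_zero
    rw [hcard]
    exact hne
  refine ⟨Set.toFinite _, ?_⟩
  rw [← Nat.card_coe_set_eq]
  exact hcard

end Fermat.Agent.LT.T6.H272

end

end
-- ===== PACK-END LT/T6/H272/ReprCard.lean

-- ===== PACK-BEGIN LT/T6/H82/FixedMod.lean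
section


/-!
# Row LT, tower T6, sub-leaf T6.12g.5 `FixedModC` (helper82), OFF-MAIN

`fixedModC_of_resFixed82 : ResFixedC → FixedModC`  (frozen Props of
`Fermat/Agent/LT/T6/H288/IndexSpec.lean`, helper288 @01ab6bb4c, used VERBATIM).

Statement: `k'/k` unramified cyclic with generator `s`; if `x ∈ 𝒪'` and `s x ≡ x mod ϖ^r` then
`x ≡ i(a) mod ϖ^r` for some `a ∈ 𝒪`.

Proof: induction on `r` (for all `x`).  `r = 0`: `a = 0`.  Step: `ResFixedC` gives `a₀ ∈ 𝒪` with
`v(x - i a₀) < 1`, i.e. `≤ exp (-1)`; put `x₁ = (x - i a₀) / i ϖ` (`ϖ` a uniformiser of `k`,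
`v(i ϖ) = exp (-1)` because `e = 1`); then `x₁ ∈ 𝒪'` and `s x₁ - x₁ = (s x - x) / i ϖ` has
valuation `≤ exp (-r)`; the induction hypothesis gives `a₁`, and `a = a₀ + ϖ a₁` works:
`x - i a = i ϖ · (x₁ - i a₁)`.
-/

set_option autoImplicit false

noncomputable section

namespace Fermat.Agent.LT.T6.H82

open Fermat.Agent.LT.T6 Fermat.Agent.LT.T6.H288

/-- In `ℤᵐ⁰`: `x < 1 ↔ x ≤ exp (-1)`. -/
theorem lt_one_iff_le_exp_neg_one82 (x : Γ₀) : x < 1 ↔ x ≤ WithZero.exp (-1 : ℤ) := by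
  have h := WithZero.lt_mul_exp_iff_le (x := x) (y := WithZero.exp (-1 : ℤ)) WithZero.exp_ne_zero
  have h1 : WithZero.exp (-1 : ℤ) * WithZero.exp (1 : ℤ) = (1 : Γ₀) := by
    rw [← WithZero.exp_add]
    simp
  rwa [h1] at h

/-- `exp (-(r+1)) = exp (-1) * exp (-r)` in `ℤᵐ⁰`. -/
theorem exp_neg_succ82 (r : ℕ) :
    (WithZero.exp (-((r + 1 : ℕ) : ℤ)) : Γ₀) = WithZero.exp (-1 : ℤ) * WithZero.exp (-(r : ℤ)) := by
  rw [← WithZero.exp_add]
  congr 1
  push_cast
  ring

/-- The induction step and base case, with `ResFixedC` at the given data as a hypothesis. -/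
theorem fixedMod_aux82 {k k' : Type} [Field k] [Field k'] [Valued k Γ₀] [Valued k' Γ₀]
    {l : ℕ} {i : k →+* k'} {s : k' ≃+* k'}
    (hext : IsLocalExt k k' l 1 i s)
    (ϖ : k) (hϖ : Valued.v ϖ = WithZero.exp (-1 : ℤ))
    (hres : ∀ x : k', Valued.v x ≤ 1 → Valued.v (s x - x) < 1 →
      ∃ a : k, Valued.v a ≤ 1 ∧ Valued.v (x - i a) < 1) :
    ∀ (r : ℕ) (x : k'), Valued.v x ≤ 1 → Valued.v (s x - x) ≤ WithZero.exp (-(r : ℤ)) →
      ∃ a : k, Valued.v a ≤ 1 ∧ Valued.v (x - i a) ≤ WithZero.exp (-(r : ℤ)) := by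
  have hiϖ : Valued.v (i ϖ) = WithZero.exp (-1 : ℤ) := by
    rw [hext.val_i, pow_one, hϖ]
  have hiϖ0 : i ϖ ≠ 0 := by
    intro h0
    rw [h0, Valuation.map_zero] at hiϖ
    exact WithZero.exp_ne_zero hiϖ.symm
  have hval_i : ∀ a : k, Valued.v (i a) = Valued.v a := fun a => by
    rw [hext.val_i, pow_one]
  intro r
  induction r with
  | zero =>
    intro x hx _
    refine ⟨0, by simp, ?_⟩
    simpa using hx
  | succ r ih =>
    intro x hx hsx
    -- the residue step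
    have hlt : Valued.v (s x - x) < 1 := by
      rw [lt_one_iff_le_exp_neg_one82]
      refine le_trans hsx ?_
      rw [WithZero.exp_le_exp]
      push_cast
      omega
    obtain ⟨a₀, ha₀, hxa₀⟩ := hres x hx hlt
    rw [lt_one_iff_le_exp_neg_one82] at hxa₀
    -- divide by the uniformiser
    set x₁ : k' := (x - i a₀) / i ϖ with hx₁
    have hx₁mul : i ϖ * x₁ = x - i a₀ := by
      rw [hx₁, mul_div_cancel₀ _ hiϖ0]
    have hvx₁ : Valued.v x₁ ≤ 1 := by
      have h := hxa₀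
      rw [← hx₁mul, Valuation.map_mul, hiϖ] at h
      have hpos : (0 : Γ₀) < WithZero.exp (-1 : ℤ) := WithZero.exp_pos
      have h' : WithZero.exp (-1 : ℤ) * Valued.v x₁ ≤ WithZero.exp (-1 : ℤ) * 1 := by
        simpa using h
      exact le_of_mul_le_mul_left h' hpos
    have hsx₁ : i ϖ * (s x₁ - x₁) = s x - x := by
      have h1 : s (i ϖ * x₁) = i ϖ * s x₁ := by
        rw [map_mul, hext.cyc.fix_i]
      have h2 : s (x - i a₀) = s x - i a₀ := by
        rw [map_sub, hext.cyc.fix_i]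
      have h3 : i ϖ * s x₁ = s x - i a₀ := by
        rw [← h1, hx₁mul, h2]
      calc i ϖ * (s x₁ - x₁) = i ϖ * s x₁ - i ϖ * x₁ := by ring
        _ = (s x - i a₀) - (x - i a₀) := by rw [h3, hx₁mul]
        _ = s x - x := by ring
    have hvsx₁ : Valued.v (s x₁ - x₁) ≤ WithZero.exp (-(r : ℤ)) := by
      have h := hsx
      rw [← hsx₁, Valuation.map_mul, hiϖ, exp_neg_succ82] at h
      have hpos : (0 : Γ₀) < WithZero.exp (-1 : ℤ) := WithZero.exp_pos
      exact le_of_mul_le_mul_left h hpos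
    obtain ⟨a₁, ha₁, hxa₁⟩ := ih x₁ hvx₁ hvsx₁
    refine ⟨a₀ + ϖ * a₁, ?_, ?_⟩
    · refine le_trans (Valuation.map_add _ _ _) (max_le ha₀ ?_)
      rw [Valuation.map_mul, hϖ]
      calc WithZero.exp (-1 : ℤ) * Valued.v a₁ ≤ 1 * 1 := by
            refine mul_le_mul' ?_ ha₁
            rw [← WithZero.exp_zero (M := ℤ), WithZero.exp_le_exp]
            omega
        _ = 1 := one_mul 1
    · have hkey : x - i (a₀ + ϖ * a₁) = i ϖ * (x₁ - i a₁) := by
        rw [map_add, map_mul, mul_sub, hx₁mul]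
        ring
      rw [hkey, Valuation.map_mul, hiϖ, exp_neg_succ82]
      exact mul_le_mul' le_rfl hxa₁

/-- **T6.12g.5 `FixedModC` from `ResFixedC`.** -/
theorem fixedModC_of_resFixed82 (h : ResFixedC) : FixedModC := by
  intro k k' _ _ _ _ q l i s hk hk' hext r x hx hsx
  obtain ⟨ϖ, hϖ⟩ := hk.unif
  exact fixedMod_aux82 hext ϖ hϖ (fun y hy hsy => h k k' q l i s hk hk' hext y hy hsy) r x hx hsx

end Fermat.Agent.LT.T6.H82

end

end
-- ===== PACK-END LT/T6/H82/FixedMod.lean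

-- ===== PACK-BEGIN LT/T6/H227/OrbitParam.lean
section







/-!
# Row LT, tower T6, sub-leaf T6.12e `OrbitParamC` (helper227, spare) -- OFF-MAIN

The twisted orbit sum at a diagonal element `δ₀ = diag(d₁, d₂)`, `N d₁ ≠ N d₂`, is the plain sum
over `b ∈ k'/𝒪'` of `Φ [[d₁, d₁ s(b) - d₂ b], [0, d₂]]`.

Proof: the abstract unfolding `H227.orbSum_unfold_finsum` for `Γ = GL₂(k')`, `U = GL₂(𝒪')`,
`Lam = {diag(ϖ^a, ϖ^b)}`, `X = {n(b) : b ∈ B}`; Iwasawa decomposition (helper546); the twisted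
centraliser of `δ₀` is the group of the diagonal matrices with `s`-fixed entries.
-/

set_option autoImplicit false
set_option linter.unusedSectionVars false
set_option linter.unusedVariables false

open scoped Matrix

noncomputable section

namespace Fermat.Agent.LT.T6.H227

open Fermat.Agent.LT.T6 Fermat.Agent.LT.T6.H288

variable {K : Type} [Field K] [Valued K Γ₀]

/-! ## 1. Matrices -/

/-- The upper unipotent matrix `n(x) = [[1, x], [0, 1]]`. -/
def nG (x : K) : GL (Fin 2) K :=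
  ⟨!![1, x; 0, 1], !![1, -x; 0, 1],
    by ext i j; fin_cases i <;> fin_cases j <;> simp [Matrix.mul_apply, Fin.sum_univ_two],
    by ext i j; fin_cases i <;> fin_cases j <;> simp [Matrix.mul_apply, Fin.sum_univ_two]⟩

@[simp] theorem nG_val (x : K) : ((nG x : GL (Fin 2) K) : Matrix (Fin 2) (Fin 2) K) = !![1, x; 0, 1] :=
  rfl

@[simp] theorem nG_inv_val (x : K) :
    (((nG x)⁻¹ : GL (Fin 2) K) : Matrix (Fin 2) (Fin 2) K) = !![1, -x; 0, 1] := rfl

/-- The diagonal matrix `diag(a, b)`, `a, b ≠ 0`. -/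
def dG (a b : K) (ha : a ≠ 0) (hb : b ≠ 0) : GL (Fin 2) K :=
  ⟨!![a, 0; 0, b], !![a⁻¹, 0; 0, b⁻¹],
    by ext i j; fin_cases i <;> fin_cases j <;> simp [Matrix.mul_apply, Fin.sum_univ_two, ha, hb],
    by ext i j; fin_cases i <;> fin_cases j <;> simp [Matrix.mul_apply, Fin.sum_univ_two, ha, hb]⟩

@[simp] theorem dG_val (a b : K) (ha : a ≠ 0) (hb : b ≠ 0) :
    ((dG a b ha hb : GL (Fin 2) K) : Matrix (Fin 2) (Fin 2) K) = !![a, 0; 0, b] := rfl

@[simp] theorem dG_inv_val (a b : K) (ha : a ≠ 0) (hb : b ≠ 0) :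
    (((dG a b ha hb)⁻¹ : GL (Fin 2) K) : Matrix (Fin 2) (Fin 2) K) = !![a⁻¹, 0; 0, b⁻¹] := rfl

theorem glAut_val (s : K ≃+* K) (g : GL (Fin 2) K) :
    ((glAut s g : GL (Fin 2) K) : Matrix (Fin 2) (Fin 2) K)
      = (g : Matrix (Fin 2) (Fin 2) K).map s := rfl

theorem gl_ext {g h : GL (Fin 2) K}
    (e : (g : Matrix (Fin 2) (Fin 2) K) = (h : Matrix (Fin 2) (Fin 2) K)) : g = h :=
  Units.ext e

/-- An element of `GL₂` whose matrix is upper triangular with diagonal `a, b`: `a, b ≠ 0`. -/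
theorem diag_ne_zero_of_upper (g : GL (Fin 2) K) (a b u : K)
    (hg : (g : Matrix (Fin 2) (Fin 2) K) = !![a, u; 0, b]) : a ≠ 0 ∧ b ≠ 0 := by
  have h := Matrix.GeneralLinearGroup.det_ne_zero g
  rw [hg, Matrix.det_fin_two_of] at h
  constructor
  · rintro rfl; apply h; ring
  · rintro rfl; apply h; ring

/-! ## 2. Valuation -/

theorem v_le_one_of_sub_one {x : K} (h : Valued.v (x - 1) ≤ 1) : Valued.v x ≤ 1 := by
  have : x = (x - 1) + 1 := by ring
  rw [this]
  exact Valuation.map_add_le _ h (by simp)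

theorem v_le_one_of_sub_zero {x : K} (h : Valued.v (x - 0) ≤ 1) : Valued.v x ≤ 1 := by
  simpa using h

/-- Entries of an element of `U(0)` are integral. -/
theorem inU_zero_entry {g : GL (Fin 2) K} (hg : InU 0 g) (i j : Fin 2) :
    Valued.v ((g : Matrix (Fin 2) (Fin 2) K) i j) ≤ 1 := by
  have h := (hg i j).1
  have he : WithZero.exp (-((0 : ℕ) : ℤ)) = (1 : Γ₀) := by simp
  rw [he] at h
  by_cases hij : i = j
  · subst hij
    rw [Matrix.one_apply_eq] at h
    exact v_le_one_of_sub_one h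
  · rw [Matrix.one_apply_ne hij] at h
    exact v_le_one_of_sub_zero h

theorem inU_zero_inv_entry {g : GL (Fin 2) K} (hg : InU 0 g) (i j : Fin 2) :
    Valued.v (((g⁻¹ : GL (Fin 2) K) : Matrix (Fin 2) (Fin 2) K) i j) ≤ 1 :=
  inU_zero_entry (H944.inU_inv944 0 g hg) i j

theorem inU_zero_one : InU 0 (1 : GL (Fin 2) K) := by
  apply H546.inU_zero_of_integral_h546
  · intro i j
    rw [Units.val_one, Matrix.one_apply]
    split_ifs <;> simp
  · intro i j
    rw [inv_one, Units.val_one, Matrix.one_apply]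
    split_ifs <;> simp

theorem nG_inU {x : K} (hx : Valued.v x ≤ 1) : InU 0 (nG x) := by
  apply H546.inU_zero_of_integral_h546
  · intro i j
    fin_cases i <;> fin_cases j <;> simp [hx]
  · intro i j
    rw [nG_inv_val]
    fin_cases i <;> fin_cases j <;> simp [hx]

theorem dG_inU {a b : K} (ha : Valued.v a = 1) (hb : Valued.v b = 1) (ha0 : a ≠ 0)
    (hb0 : b ≠ 0) : InU 0 (dG a b ha0 hb0) := by
  apply H546.inU_zero_of_integral_h546
  · intro i j
    fin_cases i <;> fin_cases j <;> simp [ha, hb]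
  · intro i j
    rw [dG_inv_val]
    fin_cases i <;> fin_cases j <;> simp [ha, hb]

/-- The determinant of an element of `U(0)` is a unit. -/
theorem inU_zero_det {g : GL (Fin 2) K} (hg : InU 0 g) :
    Valued.v (g : Matrix (Fin 2) (Fin 2) K).det = 1 := by
  have h1 : Valued.v (g : Matrix (Fin 2) (Fin 2) K).det ≤ 1 := by
    rw [Matrix.det_fin_two]
    refine Valuation.map_sub_le _ ?_ ?_
    · rw [map_mul]; exact mul_le_one' (inU_zero_entry hg _ _) (inU_zero_entry hg _ _)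
    · rw [map_mul]; exact mul_le_one' (inU_zero_entry hg _ _) (inU_zero_entry hg _ _)
  have h2 : Valued.v ((g⁻¹ : GL (Fin 2) K) : Matrix (Fin 2) (Fin 2) K).det ≤ 1 := by
    rw [Matrix.det_fin_two]
    refine Valuation.map_sub_le _ ?_ ?_
    · rw [map_mul]; exact mul_le_one' (inU_zero_inv_entry hg _ _) (inU_zero_inv_entry hg _ _)
    · rw [map_mul]; exact mul_le_one' (inU_zero_inv_entry hg _ _) (inU_zero_inv_entry hg _ _)
  have h3 : (g : Matrix (Fin 2) (Fin 2) K).det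
      * ((g⁻¹ : GL (Fin 2) K) : Matrix (Fin 2) (Fin 2) K).det = 1 := by
    rw [← Matrix.det_mul, ← Units.val_mul, mul_inv_cancel, Units.val_one, Matrix.det_one]
  have h4 : Valued.v (g : Matrix (Fin 2) (Fin 2) K).det
      * Valued.v ((g⁻¹ : GL (Fin 2) K) : Matrix (Fin 2) (Fin 2) K).det = 1 := by
    rw [← map_mul, h3, map_one]
  refine le_antisymm h1 ?_
  by_contra hlt
  rw [not_le] at hlt
  have hpos : Valued.v ((g⁻¹ : GL (Fin 2) K) : Matrix (Fin 2) (Fin 2) K).det ≠ 0 := by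
    intro h0; rw [h0, mul_zero] at h4; exact zero_ne_one h4
  have : Valued.v (g : Matrix (Fin 2) (Fin 2) K).det
      * Valued.v ((g⁻¹ : GL (Fin 2) K) : Matrix (Fin 2) (Fin 2) K).det < 1 := by
    calc _ < 1 * Valued.v ((g⁻¹ : GL (Fin 2) K) : Matrix (Fin 2) (Fin 2) K).det :=
          mul_lt_mul_of_pos_right hlt (zero_lt_iff.mpr hpos)
      _ ≤ 1 := by rw [one_mul]; exact h2
  rw [h4] at this
  exact lt_irrefl _ this

/-! ## 3. The twisted centraliser of a diagonal element -/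

section Cent

variable (s : K ≃+* K) (l : ℕ)

theorem fNorm_twist (d₁ d₂ q : K) (h : d₁ * s q = q * d₂) :
    ∀ n : ℕ, fNorm s n d₁ * (s ^ n) q = q * fNorm s n d₂
  | 0 => by simp [fNorm]
  | (n + 1) => by
    have ih := fNorm_twist d₁ d₂ q h n
    have e : (s ^ (n + 1)) q = s ((s ^ n) q) := by
      rw [pow_succ']; rfl
    rw [e]
    show d₁ * s (fNorm s n d₁) * s ((s ^ n) q) = q * (d₂ * s (fNorm s n d₂))
    calc d₁ * s (fNorm s n d₁) * s ((s ^ n) q)
        = d₁ * s (fNorm s n d₁ * (s ^ n) q) := by rw [map_mul]; ring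
      _ = d₁ * s (q * fNorm s n d₂) := by rw [ih]
      _ = (d₁ * s q) * s (fNorm s n d₂) := by rw [map_mul]; ring
      _ = q * (d₂ * s (fNorm s n d₂)) := by rw [h]; ring

theorem twist_zero (hord : ∀ y : K, (s ^ l) y = y) (d₁ d₂ q : K)
    (hN : fNorm s l d₁ ≠ fNorm s l d₂) (h : d₁ * s q = q * d₂) : q = 0 := by
  by_contra hq
  apply hN
  have := fNorm_twist s d₁ d₂ q h l
  rw [hord, mul_comm] at this
  exact mul_left_cancel₀ hq this

variable {s l}

theorem inTwCent_iff_comm (δ t : GL (Fin 2) K) :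
    InTwCent s δ t ↔ (δ : Matrix (Fin 2) (Fin 2) K) * (t : Matrix (Fin 2) (Fin 2) K).map s
      = (t : Matrix (Fin 2) (Fin 2) K) * (δ : Matrix (Fin 2) (Fin 2) K) := by
  unfold InTwCent
  constructor
  · intro h
    have h2 : δ * glAut s t = t * δ := by
      have := congrArg (fun z => t * z) h
      simpa [mul_assoc] using this
    have := congrArg (fun z : GL (Fin 2) K => (z : Matrix (Fin 2) (Fin 2) K)) h2
    simpa [glAut_val] using this
  · intro h
    have h2 : δ * glAut s t = t * δ := by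
      apply gl_ext
      simpa [glAut_val] using h
    rw [mul_assoc, h2]; simp

/-- The twisted centraliser of `diag(d₁, d₂)`, `N d₁ ≠ N d₂`: the diagonal matrices with
`s`-fixed entries. -/
theorem inTwCent_diag_iff (hord : ∀ y : K, (s ^ l) y = y) (d₁ d₂ : K) (δ₀ : GL (Fin 2) K)
    (hδ : (δ₀ : Matrix (Fin 2) (Fin 2) K) = !![d₁, 0; 0, d₂])
    (hN : fNorm s l d₁ ≠ fNorm s l d₂) (t : GL (Fin 2) K) :
    InTwCent s δ₀ t ↔ ∃ p w : K, (t : Matrix (Fin 2) (Fin 2) K) = !![p, 0; 0, w] ∧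
      s p = p ∧ s w = w := by
  obtain ⟨hd₁, hd₂⟩ := diag_ne_zero_of_upper δ₀ d₁ d₂ 0 hδ
  rw [inTwCent_iff_comm, hδ]
  constructor
  · intro h
    have ht : (t : Matrix (Fin 2) (Fin 2) K)
        = !![(t : Matrix (Fin 2) (Fin 2) K) 0 0, (t : Matrix (Fin 2) (Fin 2) K) 0 1;
             (t : Matrix (Fin 2) (Fin 2) K) 1 0, (t : Matrix (Fin 2) (Fin 2) K) 1 1] :=
      Matrix.eta_fin_two _
    set p := (t : Matrix (Fin 2) (Fin 2) K) 0 0
    set q := (t : Matrix (Fin 2) (Fin 2) K) 0 1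
    set r := (t : Matrix (Fin 2) (Fin 2) K) 1 0
    set w := (t : Matrix (Fin 2) (Fin 2) K) 1 1
    rw [ht] at h
    have h00 := congrFun (congrFun h 0) 0
    have h01 := congrFun (congrFun h 0) 1
    have h10 := congrFun (congrFun h 1) 0
    have h11 := congrFun (congrFun h 1) 1
    simp [Matrix.mul_apply, Fin.sum_univ_two] at h00 h01 h10 h11
    have hq : q = 0 := twist_zero s l hord d₁ d₂ q hN h01
    have hr : r = 0 := twist_zero s l hord d₂ d₁ r (Ne.symm hN) h10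
    refine ⟨p, w, ?_, ?_, ?_⟩
    · rw [ht, hq, hr]
    · have : d₁ * s p = d₁ * p := by rw [h00]; ring
      exact mul_left_cancel₀ hd₁ this
    · have : d₂ * s w = d₂ * w := by rw [h11]; ring
      exact mul_left_cancel₀ hd₂ this
  · rintro ⟨p, w, ht, hp, hw⟩
    rw [ht]
    ext i j
    fin_cases i <;> fin_cases j <;> simp [Matrix.mul_apply, Fin.sum_univ_two, hp, hw, mul_comm]

theorem v_eq_one_of_sum_prod {p w : K} (h1 : Valued.v (p + w) ≤ 1)
    (h2 : Valued.v (p * w) = 1) : Valued.v p = 1 ∧ Valued.v w = 1 := by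
  rw [map_mul] at h2
  have key : ∀ a b : K, Valued.v (a + b) ≤ 1 → Valued.v a * Valued.v b = 1 →
      ¬ Valued.v a < 1 := by
    intro a b hab hprod hlt
    have hb : 1 < Valued.v b := by
      by_contra hb
      rw [not_lt] at hb
      have hpos : Valued.v a ≠ 0 := by
        intro h0; rw [h0, zero_mul] at hprod; exact zero_ne_one hprod
      have : Valued.v a * Valued.v b < 1 :=
        calc Valued.v a * Valued.v b ≤ Valued.v a * 1 := mul_le_mul_right hb _
          _ = Valued.v a := mul_one _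
          _ < 1 := hlt
      rw [hprod] at this
      exact lt_irrefl _ this
    have hlt' : Valued.v a < Valued.v b := lt_trans hlt hb
    have := Valuation.map_add_eq_of_lt_left (v := (Valued.v : Valuation K Γ₀)) hlt'
    rw [add_comm, this] at hab
    exact absurd hab (not_le.mpr hb)
  have hp : ¬ Valued.v p < 1 := key p w h1 h2
  have hw : ¬ Valued.v w < 1 := key w p (by rwa [add_comm]) (by rwa [mul_comm])
  rw [not_lt] at hp hw
  have hp' : Valued.v p ≤ 1 := by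
    by_contra hgt
    rw [not_le] at hgt
    have : 1 < Valued.v p * Valued.v w :=
      calc (1 : Γ₀) < Valued.v p := hgt
        _ = Valued.v p * 1 := (mul_one _).symm
        _ ≤ Valued.v p * Valued.v w := mul_le_mul_right hw _
    rw [h2] at this
    exact lt_irrefl _ this
  have hpe : Valued.v p = 1 := le_antisymm hp' hp
  refine ⟨hpe, ?_⟩
  rw [hpe, one_mul] at h2
  exact h2

/-- The compact part of the twisted centraliser of `diag(d₁, d₂)`. -/
theorem inTwCentC_diag_iff (hord : ∀ y : K, (s ^ l) y = y) (d₁ d₂ : K) (δ₀ : GL (Fin 2) K)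
    (hδ : (δ₀ : Matrix (Fin 2) (Fin 2) K) = !![d₁, 0; 0, d₂])
    (hN : fNorm s l d₁ ≠ fNorm s l d₂) (t : GL (Fin 2) K) :
    InTwCentC s δ₀ t ↔ ∃ p w : K, (t : Matrix (Fin 2) (Fin 2) K) = !![p, 0; 0, w] ∧
      s p = p ∧ s w = w ∧ Valued.v p = 1 ∧ Valued.v w = 1 := by
  unfold InTwCentC
  rw [inTwCent_diag_iff hord d₁ d₂ δ₀ hδ hN]
  constructor
  · rintro ⟨⟨p, w, ht, hp, hw⟩, htr, hdet⟩
    rw [ht] at htr hdet
    simp [Matrix.trace_fin_two_of, Matrix.det_fin_two_of] at htr hdet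
    obtain ⟨h1, h2⟩ := v_eq_one_of_sum_prod htr (by rw [map_mul]; exact hdet)
    exact ⟨p, w, ht, hp, hw, h1, h2⟩
  · rintro ⟨p, w, ht, hp, hw, h1, h2⟩
    refine ⟨⟨p, w, ht, hp, hw⟩, ?_, ?_⟩
    · rw [ht]
      simp only [Matrix.trace_fin_two_of]
      exact Valuation.map_add_le _ h1.le h2.le
    · rw [ht]
      simp [Matrix.det_fin_two_of, h1, h2]

end Cent

/-! ## 4. Powers of a uniformiser -/

section Unif

variable {ϖ : K}

theorem unif_ne_zero (hϖ : Valued.v ϖ = WithZero.exp (-1 : ℤ)) : ϖ ≠ 0 := by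
  intro h
  rw [h, map_zero] at hϖ
  exact WithZero.exp_ne_zero hϖ.symm

theorem v_unif_zpow (hϖ : Valued.v ϖ = WithZero.exp (-1 : ℤ)) (a : ℤ) :
    Valued.v (ϖ ^ a) = WithZero.exp (-a) := by
  rw [map_zpow₀, hϖ, ← WithZero.exp_zsmul]
  congr 1
  simp

/-- Every nonzero element is a power of the uniformiser times a unit. -/
theorem exists_unif_decomp (hϖ : Valued.v ϖ = WithZero.exp (-1 : ℤ)) {x : K} (hx : x ≠ 0) :
    ∃ (m : ℤ) (ε : K), Valued.v ε = 1 ∧ x = ϖ ^ m * ε := by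
  have hvx : Valued.v x ≠ 0 := by simpa using hx
  refine ⟨- WithZero.log (Valued.v x), x / ϖ ^ (- WithZero.log (Valued.v x)), ?_, ?_⟩
  · rw [map_div₀, v_unif_zpow hϖ, neg_neg, WithZero.exp_log hvx]
    exact div_self hvx
  · have h0 : ϖ ^ (- WithZero.log (Valued.v x)) ≠ 0 := zpow_ne_zero _ (unif_ne_zero hϖ)
    field_simp

theorem zpow_nonneg_of_v_le (hϖ : Valued.v ϖ = WithZero.exp (-1 : ℤ)) {a : ℤ}
    (h : Valued.v (ϖ ^ a) ≤ 1) : 0 ≤ a := by
  rw [v_unif_zpow hϖ, ← WithZero.exp_zero, WithZero.exp_le_exp] at h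
  omega

/-- `x < 1` in `ℤᵐ⁰` implies `x ≤ exp (-1)`. -/
theorem le_exp_neg_one_of_lt_one {x : Γ₀} (h : x < 1) : x ≤ WithZero.exp (-1 : ℤ) := by
  by_cases hx : x = 0
  · rw [hx]; simp
  · rw [← WithZero.exp_log hx] at h ⊢
    rw [← WithZero.exp_zero, WithZero.exp_lt_exp] at h
    rw [WithZero.exp_le_exp]
    omega

end Unif

/-! ## 5. The data of the unfolding -/

/-- The lattice of the powers of the uniformiser in the diagonal torus. -/
def LamP (ϖ : K) (g : GL (Fin 2) K) : Prop :=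
  ∃ a b : ℤ, (g : Matrix (Fin 2) (Fin 2) K) = !![ϖ ^ a, 0; 0, ϖ ^ b]

/-- The representatives `n(b)`, `b ∈ B`. -/
def XB (B : Set K) : Set (GL (Fin 2) K) := nG '' B

section Data

variable {s : K ≃+* K} {l : ℕ} {ϖ : K}

theorem mul_diag_val {a b : GL (Fin 2) K} {p w p' w' : K}
    (ha : (a : Matrix (Fin 2) (Fin 2) K) = !![p, 0; 0, w])
    (hb : (b : Matrix (Fin 2) (Fin 2) K) = !![p', 0; 0, w']) :
    ((a * b : GL (Fin 2) K) : Matrix (Fin 2) (Fin 2) K) = !![p * p', 0; 0, w * w'] := by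
  rw [Units.val_mul, ha, hb]
  ext i j
  fin_cases i <;> fin_cases j <;> simp [Matrix.mul_apply, Fin.sum_univ_two]

theorem inv_diag_val {a : GL (Fin 2) K} {p w : K}
    (ha : (a : Matrix (Fin 2) (Fin 2) K) = !![p, 0; 0, w]) :
    ((a⁻¹ : GL (Fin 2) K) : Matrix (Fin 2) (Fin 2) K) = !![p⁻¹, 0; 0, w⁻¹] := by
  obtain ⟨hp, hw⟩ := diag_ne_zero_of_upper a p w 0 ha
  have : a = dG p w hp hw := gl_ext (by rw [ha, dG_val])
  rw [this, dG_inv_val]

theorem lamP_mul (hϖ0 : ϖ ≠ 0) (a b : GL (Fin 2) K) (ha : LamP ϖ a) (hb : LamP ϖ b) :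
    LamP ϖ (a * b) := by
  obtain ⟨a₁, a₂, ha⟩ := ha
  obtain ⟨b₁, b₂, hb⟩ := hb
  refine ⟨a₁ + b₁, a₂ + b₂, ?_⟩
  rw [mul_diag_val ha hb, zpow_add₀ hϖ0, zpow_add₀ hϖ0]

theorem lamP_inv (a : GL (Fin 2) K) (ha : LamP ϖ a) : LamP ϖ a⁻¹ := by
  obtain ⟨a₁, a₂, ha⟩ := ha
  refine ⟨-a₁, -a₂, ?_⟩
  rw [inv_diag_val ha, zpow_neg, zpow_neg]

theorem one_val_eq : ((1 : GL (Fin 2) K) : Matrix (Fin 2) (Fin 2) K) = !![1, 0; 0, 1] := by
  rw [Units.val_one]
  ext i j
  fin_cases i <;> fin_cases j <;> simp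

/-- **The data of the unfolding at a diagonal element.** -/
theorem unfoldData_diag (hord : ∀ y : K, (s ^ l) y = y)
    (hval : ∀ y : K, Valued.v (s y) = Valued.v y)
    (hϖ : Valued.v ϖ = WithZero.exp (-1 : ℤ)) (hsϖ : s ϖ = ϖ)
    (d₁ d₂ : K) (δ₀ : GL (Fin 2) K)
    (hδ : (δ₀ : Matrix (Fin 2) (Fin 2) K) = !![d₁, 0; 0, d₂])
    (hN : fNorm s l d₁ ≠ fNorm s l d₂) (B : Set K) (hB : IsReprSet B) :
    UnfoldData (glAut s) (InU 0) (InTwCentC s) δ₀ (LamP ϖ) (XB B) := by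
  have hϖ0 : ϖ ≠ 0 := unif_ne_zero hϖ
  have hC := inTwCentC_diag_iff hord d₁ d₂ δ₀ hδ hN
  have hT := inTwCent_diag_iff hord d₁ d₂ δ₀ hδ hN
  refine
    { U_one := inU_zero_one
      U_mul := H944.inU_mul944 0
      U_inv := H944.inU_inv944 0
      C_cent := fun t ht => ht.1
      C_mul := ?_
      C_inv := ?_
      C_conj := fun x t => H944.inTwCentC_conj944 s δ₀ x t
      U_C := ?_
      Lam_mul := lamP_mul hϖ0
      Lam_inv := lamP_inv
      Lam_cent := ?_
      Lam_C := ?_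
      decomp := ?_
      cover := ?_
      uniq := ?_ }
  · -- C_mul
    intro a b ha hb
    obtain ⟨p, w, ha, hp, hw, vp, vw⟩ := (hC a).1 ha
    obtain ⟨p', w', hb, hp', hw', vp', vw'⟩ := (hC b).1 hb
    refine (hC (a * b)).2 ⟨p * p', w * w', mul_diag_val ha hb, ?_, ?_, ?_, ?_⟩
    · rw [map_mul, hp, hp']
    · rw [map_mul, hw, hw']
    · rw [map_mul, vp, vp', mul_one]
    · rw [map_mul, vw, vw', mul_one]
  · -- C_inv
    intro a ha
    obtain ⟨p, w, ha, hp, hw, vp, vw⟩ := (hC a).1 ha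
    refine (hC a⁻¹).2 ⟨p⁻¹, w⁻¹, inv_diag_val ha, ?_, ?_, ?_, ?_⟩
    · rw [map_inv₀, hp]
    · rw [map_inv₀, hw]
    · rw [map_inv₀, vp, inv_one]
    · rw [map_inv₀, vw, inv_one]
  · -- U_C
    intro x u hu h
    refine ⟨h, ?_, inU_zero_det hu⟩
    rw [Matrix.trace_fin_two]
    exact Valuation.map_add_le _ (inU_zero_entry hu _ _) (inU_zero_entry hu _ _)
  · -- Lam_cent
    rintro t ⟨a, b, ht⟩
    exact (hT t).2 ⟨ϖ ^ a, ϖ ^ b, ht, by rw [map_zpow₀, hsϖ], by rw [map_zpow₀, hsϖ]⟩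
  · -- Lam_C
    rintro t ⟨a, b, ht⟩ hc
    obtain ⟨p, w, ht', -, -, vp, vw⟩ := (hC t).1 hc
    have h00 : ϖ ^ a = p := by
      have := congrFun (congrFun (ht.symm.trans ht') 0) 0
      simpa using this
    have h11 : ϖ ^ b = w := by
      have := congrFun (congrFun (ht.symm.trans ht') 1) 1
      simpa using this
    have ha0 : a = 0 := by
      have := v_unif_zpow hϖ a
      rw [h00, vp, eq_comm, WithZero.exp_eq_one] at this
      omega
    have hb0 : b = 0 := by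
      have := v_unif_zpow hϖ b
      rw [h11, vw, eq_comm, WithZero.exp_eq_one] at this
      omega
    apply gl_ext
    rw [ht, ha0, hb0, one_val_eq]
    simp
  · -- decomp
    intro t ht
    obtain ⟨p, w, ht, hp, hw⟩ := (hT t).1 ht
    obtain ⟨hp0, hw0⟩ := diag_ne_zero_of_upper t p w 0 ht
    obtain ⟨m₁, ε₁, vε₁, hpε⟩ := exists_unif_decomp hϖ hp0
    obtain ⟨m₂, ε₂, vε₂, hwε⟩ := exists_unif_decomp hϖ hw0
    have hε₁0 : ε₁ ≠ 0 := by
      intro h; rw [h, map_zero] at vε₁; exact zero_ne_one vε₁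
    have hε₂0 : ε₂ ≠ 0 := by
      intro h; rw [h, map_zero] at vε₂; exact zero_ne_one vε₂
    have hz₁ : ϖ ^ m₁ ≠ 0 := zpow_ne_zero _ hϖ0
    have hz₂ : ϖ ^ m₂ ≠ 0 := zpow_ne_zero _ hϖ0
    have sε₁ : s ε₁ = ε₁ := by
      have h1 : s p = ϖ ^ m₁ * s ε₁ := by rw [hpε, map_mul, map_zpow₀, hsϖ]
      rw [hp, hpε] at h1
      exact (mul_left_cancel₀ hz₁ h1).symm
    have sε₂ : s ε₂ = ε₂ := by
      have h1 : s w = ϖ ^ m₂ * s ε₂ := by rw [hwε, map_mul, map_zpow₀, hsϖ]
      rw [hw, hwε] at h1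
      exact (mul_left_cancel₀ hz₂ h1).symm
    refine ⟨dG (ϖ ^ m₁) (ϖ ^ m₂) hz₁ hz₂, dG ε₁ ε₂ hε₁0 hε₂0, ⟨m₁, m₂, dG_val _ _ _ _⟩,
      (hC _).2 ⟨ε₁, ε₂, dG_val _ _ _ _, sε₁, sε₂, vε₁, vε₂⟩, ?_⟩
    apply gl_ext
    rw [mul_diag_val (dG_val _ _ _ _) (dG_val _ _ _ _), ht, hpε, hwε]
  · -- cover
    intro g
    obtain ⟨p, κ, a, b, u, hp, hκ, rfl⟩ := H546.iwasawa_valued_h546 g
    obtain ⟨ha0, hb0⟩ := diag_ne_zero_of_upper p a b u hp
    obtain ⟨m₁, ε₁, vε₁, haε⟩ := exists_unif_decomp hϖ ha0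
    obtain ⟨m₂, ε₂, vε₂, hbε⟩ := exists_unif_decomp hϖ hb0
    have hε₁0 : ε₁ ≠ 0 := by
      intro h; rw [h, map_zero] at vε₁; exact zero_ne_one vε₁
    have hε₂0 : ε₂ ≠ 0 := by
      intro h; rw [h, map_zero] at vε₂; exact zero_ne_one vε₂
    have hz₁ : ϖ ^ m₁ ≠ 0 := zpow_ne_zero _ hϖ0
    have hz₂ : ϖ ^ m₂ ≠ 0 := zpow_ne_zero _ hϖ0
    obtain ⟨b₀, ⟨hb₀B, hb₀⟩, -⟩ := hB (u / (ϖ ^ m₁ * ε₂))
    set o := u / (ϖ ^ m₁ * ε₂) - b₀ with ho
    refine ⟨nG b₀, ⟨b₀, hb₀B, rfl⟩, dG (ϖ ^ m₁) (ϖ ^ m₂) hz₁ hz₂,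
      nG o * dG ε₁ ε₂ hε₁0 hε₂0 * κ, ⟨m₁, m₂, dG_val _ _ _ _⟩,
      H944.inU_mul944 0 _ _ (H944.inU_mul944 0 _ _ (nG_inU hb₀)
        (dG_inU vε₁ vε₂ hε₁0 hε₂0)) hκ, ?_⟩
    have hp' : p = dG (ϖ ^ m₁) (ϖ ^ m₂) hz₁ hz₂ * nG b₀ * (nG o * dG ε₁ ε₂ hε₁0 hε₂0) := by
      apply gl_ext
      rw [hp]
      simp only [Units.val_mul, dG_val, nG_val]
      ext i j
      fin_cases i <;> fin_cases j <;> simp [Matrix.mul_apply, Fin.sum_univ_two, haε, hbε]
      rw [ho]
      field_simp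
      ring
    rw [hp']
    simp only [mul_assoc]
  · -- uniq
    rintro x ⟨b, hbB, rfl⟩ x' ⟨b', hb'B, rfl⟩ ⟨t, u, ⟨a, c, ht⟩, hu, hx⟩
    have hmat := congrArg (fun z : GL (Fin 2) K => (z : Matrix (Fin 2) (Fin 2) K)) hx
    simp only [Units.val_mul, nG_val, ht] at hmat
    have hue : (u : Matrix (Fin 2) (Fin 2) K)
        = !![(u : Matrix (Fin 2) (Fin 2) K) 0 0, (u : Matrix (Fin 2) (Fin 2) K) 0 1;
             (u : Matrix (Fin 2) (Fin 2) K) 1 0, (u : Matrix (Fin 2) (Fin 2) K) 1 1] :=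
      Matrix.eta_fin_two _
    have v00 := inU_zero_entry hu 0 0
    have v01 := inU_zero_entry hu 0 1
    have v11 := inU_zero_entry hu 1 1
    have vdet := inU_zero_det hu
    rw [Matrix.det_fin_two] at vdet
    set u00 := (u : Matrix (Fin 2) (Fin 2) K) 0 0
    set u01 := (u : Matrix (Fin 2) (Fin 2) K) 0 1
    set u10 := (u : Matrix (Fin 2) (Fin 2) K) 1 0
    set u11 := (u : Matrix (Fin 2) (Fin 2) K) 1 1
    rw [hue] at hmat
    have h00 := congrFun (congrFun hmat 0) 0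
    have h01 := congrFun (congrFun hmat 0) 1
    have h10 := congrFun (congrFun hmat 1) 0
    have h11 := congrFun (congrFun hmat 1) 1
    simp [Matrix.mul_apply, Fin.sum_univ_two] at h00 h01 h10 h11
    have hza : ϖ ^ a ≠ 0 := zpow_ne_zero _ hϖ0
    have hzc : ϖ ^ c ≠ 0 := zpow_ne_zero _ hϖ0
    have hu10 : u10 = 0 := by
      rcases h10 with h | h
      · exact absurd h hzc
      · exact h
    have hu11 : u11 = ϖ ^ (-c) := by
      rw [zpow_neg]
      field_simp
      rw [mul_comm]; exact h11.symm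
    have hu00 : u00 = ϖ ^ (-a) := by
      rw [hu10, mul_zero, add_zero] at h00
      rw [zpow_neg]
      field_simp
      rw [mul_comm]; exact h00.symm
    have ha_nonpos : 0 ≤ -a := zpow_nonneg_of_v_le hϖ (by rw [← hu00]; exact v00)
    have hc_nonpos : 0 ≤ -c := zpow_nonneg_of_v_le hϖ (by rw [← hu11]; exact v11)
    have hsum : -a + -c = 0 := by
      rw [hu10, mul_zero, sub_zero, hu00, hu11, ← zpow_add₀ hϖ0, v_unif_zpow hϖ,
        WithZero.exp_eq_one] at vdet
      omega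
    have ha0 : a = 0 := by omega
    have hc0 : c = 0 := by omega
    rw [ha0] at h01
    rw [hu11, hc0] at h01
    simp at h01
    -- h01 : b' = u01 + b
    have hbb : Valued.v (b' - b) ≤ 1 := by
      have : b' - b = u01 := by rw [h01]; ring
      rw [this]; exact v01
    obtain ⟨b₁, -, huniq⟩ := hB b'
    have e1 : b = b₁ := huniq b ⟨hbB, hbb⟩
    have e2 : b' = b₁ := huniq b' ⟨hb'B, by simp⟩
    rw [e1, e2]

end Data

/-! ## 6. Finiteness -/

section Finite

/-- Representatives of `𝒪 / ϖ^N 𝒪`. -/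
theorem exists_approx_finset {Q : ℕ} (hK : IsLocalField K Q) {ϖ : K}
    (hϖ : Valued.v ϖ = WithZero.exp (-1 : ℤ)) :
    ∀ N : ℕ, ∃ S : Finset K, ∀ z : K, Valued.v z ≤ 1 →
      ∃ σ ∈ S, Valued.v (z - σ) ≤ WithZero.exp (-(N : ℤ))
  | 0 => ⟨{0}, fun z hz => ⟨0, by simp, by simpa using hz⟩⟩
  | (N + 1) => by
    classical
    obtain ⟨S, hS⟩ := exists_approx_finset hK hϖ N
    obtain ⟨T, -, -, -, hT⟩ := hK.residue
    have hϖ0 : ϖ ≠ 0 := unif_ne_zero hϖ
    refine ⟨(T ×ˢ S).image (fun p => p.1 + ϖ * p.2), ?_⟩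
    intro z hz
    obtain ⟨t, htT, ht⟩ := hT z hz
    have ht' := le_exp_neg_one_of_lt_one ht
    have hz₁ : Valued.v ((z - t) / ϖ) ≤ 1 := by
      rw [map_div₀, hϖ]
      exact (div_le_one₀ (zero_lt_iff.mpr WithZero.exp_ne_zero)).mpr ht'
    obtain ⟨σ, hσS, hσ⟩ := hS _ hz₁
    refine ⟨t + ϖ * σ, Finset.mem_image.mpr ⟨(t, σ), Finset.mem_product.mpr ⟨htT, hσS⟩, rfl⟩, ?_⟩
    have e : z - (t + ϖ * σ) = ϖ * ((z - t) / ϖ - σ) := by
      field_simp
      ring
    rw [e, map_mul, hϖ]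
    have : (WithZero.exp (-((N + 1 : ℕ) : ℤ)) : Γ₀)
        = WithZero.exp (-1 : ℤ) * WithZero.exp (-(N : ℤ)) := by
      rw [← WithZero.exp_add]
      congr 1
      push_cast
      ring
    rw [this]
    exact mul_le_mul_right hσ _

theorem reprSet_bounded_finite_nat {Q : ℕ} (hK : IsLocalField K Q) {B : Set K}
    (hB : IsReprSet B) (N : ℕ) :
    {b : K | b ∈ B ∧ Valued.v b ≤ WithZero.exp (N : ℤ)}.Finite := by
  classical
  obtain ⟨ϖ, hϖ⟩ := hK.unif
  have hϖ0 : ϖ ≠ 0 := unif_ne_zero hϖ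
  obtain ⟨S, hS⟩ := exists_approx_finset hK hϖ N
  have hvN : Valued.v (ϖ ^ N) = WithZero.exp (-(N : ℤ)) := by
    have := v_unif_zpow hϖ (N : ℤ)
    rwa [zpow_natCast] at this
  have hN0 : ϖ ^ N ≠ 0 := pow_ne_zero _ hϖ0
  refine Set.Finite.subset
    ((S.finite_toSet).image (fun σ => (hB (σ / ϖ ^ N)).choose)) ?_
  rintro b ⟨hbB, hb⟩
  have hz : Valued.v (ϖ ^ N * b) ≤ 1 := by
    rw [map_mul, hvN]
    calc WithZero.exp (-(N : ℤ)) * Valued.v b
        ≤ WithZero.exp (-(N : ℤ)) * WithZero.exp (N : ℤ) := mul_le_mul_right hb _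
      _ = 1 := by rw [← WithZero.exp_add]; simp
  obtain ⟨σ, hσS, hσ⟩ := hS _ hz
  refine ⟨σ, hσS, ?_⟩
  have hspec := (hB (σ / ϖ ^ N)).choose_spec
  refine (hspec.2 b ⟨hbB, ?_⟩).symm
  have e : σ / ϖ ^ N - b = - ((ϖ ^ N * b - σ) / ϖ ^ N) := by
    field_simp
    ring
  rw [e, Valuation.map_neg, map_div₀, hvN]
  exact (div_le_one₀ (zero_lt_iff.mpr WithZero.exp_ne_zero)).mpr hσ

theorem reprSet_bounded_finite {Q : ℕ} (hK : IsLocalField K Q) {B : Set K}
    (hB : IsReprSet B) (M : Γ₀) : {b : K | b ∈ B ∧ Valued.v b ≤ M}.Finite := by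
  have hM : ∃ N : ℕ, M ≤ WithZero.exp (N : ℤ) := by
    by_cases h0 : M = 0
    · exact ⟨0, by rw [h0]; simp⟩
    · refine ⟨(WithZero.log M).toNat, ?_⟩
      rw [← WithZero.exp_log h0, WithZero.exp_le_exp]
      exact Int.self_le_toNat _
  obtain ⟨N, hN⟩ := hM
  exact (reprSet_bounded_finite_nat hK hB N).subset
    (fun b hb => ⟨hb.1, le_trans hb.2 hN⟩)

end Finite

/-! ## 7. The classes of the `y_b` and the leaf -/

section Leaf

variable {s : K ≃+* K} {l : ℕ}

/-- The twisted conjugate of `δ₀ = diag(d₁, d₂)` by `n(b)`. -/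
theorem twc_nG (d₁ d₂ : K) (δ₀ : GL (Fin 2) K)
    (hδ : (δ₀ : Matrix (Fin 2) (Fin 2) K) = !![d₁, 0; 0, d₂]) (b : K) :
    (((nG b)⁻¹ * δ₀ * glAut s (nG b) : GL (Fin 2) K) : Matrix (Fin 2) (Fin 2) K)
      = !![d₁, d₁ * s b - d₂ * b; 0, d₂] := by
  simp only [Units.val_mul, nG_inv_val, glAut_val, nG_val, hδ]
  ext i j
  fin_cases i <;> fin_cases j <;> simp [Matrix.mul_apply, Fin.sum_univ_two]
  ring

/-- Two representatives in the same `U`-class have comparable valuations. -/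
theorem class_bound (hord : ∀ y : K, (s ^ l) y = y)
    (hval : ∀ y : K, Valued.v (s y) = Valued.v y)
    (d₁ d₂ : K) (δ₀ : GL (Fin 2) K)
    (hδ : (δ₀ : Matrix (Fin 2) (Fin 2) K) = !![d₁, 0; 0, d₂])
    (hN : fNorm s l d₁ ≠ fNorm s l d₂) (y : GL (Fin 2) K) (b₁ b₂ : K) (u₁ u₂ : GL (Fin 2) K)
    (hu₁ : InU 0 u₁) (hu₂ : InU 0 u₂)
    (h₁ : (nG b₁)⁻¹ * δ₀ * glAut s (nG b₁) = u₁⁻¹ * y * glAut s u₁)
    (h₂ : (nG b₂)⁻¹ * δ₀ * glAut s (nG b₂) = u₂⁻¹ * y * glAut s u₂) :
    Valued.v b₂ ≤ max 1 (Valued.v b₁) := by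
  -- y = twc δ₀ (n(b₁) u₁⁻¹)
  have hy : y = twc (glAut s) δ₀ (nG b₁ * u₁⁻¹) := by
    rw [← twc_twc]
    show y = (u₁⁻¹)⁻¹ * ((nG b₁)⁻¹ * δ₀ * glAut s (nG b₁)) * glAut s u₁⁻¹
    rw [h₁, map_inv]
    group
  have h₂' : twc (glAut s) δ₀ (nG b₂) = twc (glAut s) δ₀ (nG b₁ * u₁⁻¹ * u₂) := by
    rw [← twc_twc (glAut s) δ₀ (nG b₁ * u₁⁻¹) u₂, ← hy]
    exact h₂
  rw [twc_eq_iff] at h₂'
  set τ := nG b₂ * (nG b₁ * u₁⁻¹ * u₂)⁻¹ with hτ
  obtain ⟨p, q, hτm, -, -⟩ := (inTwCent_diag_iff hord d₁ d₂ δ₀ hδ hN τ).1 h₂'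
  -- w = u₂⁻¹ u₁ = n(b₂)⁻¹ τ n(b₁)
  set w := u₂⁻¹ * u₁ with hw
  have hwU : InU 0 w := H944.inU_mul944 0 _ _ (H944.inU_inv944 0 _ hu₂) hu₁
  have hwe : w = (nG b₂)⁻¹ * τ * nG b₁ := by
    rw [hτ, hw]; group
  have hwm : (w : Matrix (Fin 2) (Fin 2) K) = !![p, p * b₁ - b₂ * q; 0, q] := by
    rw [hwe]
    simp only [Units.val_mul, nG_inv_val, nG_val, hτm]
    ext i j
    fin_cases i <;> fin_cases j <;> simp [Matrix.mul_apply, Fin.sum_univ_two]
    ring
  have v00 := inU_zero_entry hwU 0 0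
  have v01 := inU_zero_entry hwU 0 1
  have v11 := inU_zero_entry hwU 1 1
  have vdet := inU_zero_det hwU
  rw [hwm] at v00 v01 v11 vdet
  simp [Matrix.det_fin_two_of] at v00 v01 v11 vdet
  -- v p = v q = 1
  have hp1 : Valued.v p = 1 := by
    refine le_antisymm v00 ?_
    by_contra hlt
    rw [not_le] at hlt
    have hq0 : Valued.v q ≠ 0 := by
      intro h0; rw [h0, mul_zero] at vdet; exact zero_ne_one vdet
    have : Valued.v p * Valued.v q < 1 :=
      calc Valued.v p * Valued.v q < 1 * Valued.v q :=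
            mul_lt_mul_of_pos_right hlt (zero_lt_iff.mpr hq0)
        _ ≤ 1 := by rw [one_mul]; exact v11
    rw [vdet] at this
    exact lt_irrefl _ this
  have hq1 : Valued.v q = 1 := by rw [hp1, one_mul] at vdet; exact vdet
  have e : b₂ = (p * b₁ - (p * b₁ - b₂ * q)) / q := by
    have hq0 : q ≠ 0 := by
      intro h0; rw [h0, map_zero] at hq1; exact zero_ne_one hq1
    field_simp
    ring
  rw [e, map_div₀, hq1, div_one]
  refine le_trans (Valuation.map_sub _ _ _) ?_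
  rw [map_mul, hp1, one_mul]
  exact max_le (le_max_right _ _) (le_trans v01 (le_max_left _ _))

theorem nG_injective : Function.Injective (nG : K → GL (Fin 2) K) := by
  intro a b h
  have := congrArg (fun z : GL (Fin 2) K => (z : Matrix (Fin 2) (Fin 2) K) 0 1) h
  simpa using this

/-- **T6.12e `OrbitParamC`.** -/
theorem orbitParamC227 : OrbitParamC := by
  intro k k' _ _ _ _ q l i s hk hk' hext Φ hΦ d₁ d₂ δ₀ hδ hN c hc B Y hB hY
  obtain ⟨ϖ₀, hϖ₀⟩ := hk.unif
  have hϖ : Valued.v (i ϖ₀) = WithZero.exp (-1 : ℤ) := by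
    rw [hext.val_i, pow_one, hϖ₀]
  have hsϖ : s (i ϖ₀) = i ϖ₀ := hext.cyc.fix_i ϖ₀
  have hord := hext.cyc.order
  have hval := hext.val_s
  have D := unfoldData_diag hord hval hϖ hsϖ d₁ d₂ δ₀ hδ hN B hB
  have hφ : ∀ u y : GL (Fin 2) k', InU 0 u → Φ (u⁻¹ * y * glAut s u) = Φ y :=
    fun u y hu => hΦ u⁻¹ (glAut s u) y (H944.inU_inv944 0 u hu) (H944.inU_glAut944 s hval 0 u hu)
  have hc' : IsOrbSumGen (glAut s) (InU 0) (InTwCentC s) Φ δ₀ c := hc
  -- finiteness of the support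
  have hfin : {x | x ∈ XB B ∧ Φ (x⁻¹ * δ₀ * glAut s x) ≠ 0}.Finite := by
    obtain ⟨R, h1, h2, h3, -⟩ := hc'
    have hcover : {x | x ∈ XB B ∧ Φ (x⁻¹ * δ₀ * glAut s x) ≠ 0} ⊆
        ⋃ y ∈ (R : Set (GL (Fin 2) k')),
          {x | x ∈ XB B ∧ ∃ u, InU 0 u ∧ x⁻¹ * δ₀ * glAut s x = u⁻¹ * y * glAut s u} := by
      rintro x ⟨hxX, hx⟩
      obtain ⟨y', hy'R, u, hu, he⟩ := h3 _ ⟨x, rfl⟩ hx
      exact Set.mem_biUnion (Finset.mem_coe.mpr hy'R) ⟨hxX, u, hu, he⟩
    refine Set.Finite.subset (Set.Finite.biUnion R.finite_toSet ?_) hcover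
    intro y _
    by_cases hne : ({x | x ∈ XB B ∧ ∃ u, InU 0 u ∧
        x⁻¹ * δ₀ * glAut s x = u⁻¹ * y * glAut s u} : Set (GL (Fin 2) k')).Nonempty
    · obtain ⟨x₁, ⟨b₁, hb₁B, rfl⟩, u₁, hu₁, he₁⟩ := hne
      refine Set.Finite.subset
        ((reprSet_bounded_finite hk' hB (max 1 (Valued.v b₁))).image nG) ?_
      rintro x₂ ⟨⟨b₂, hb₂B, rfl⟩, u₂, hu₂, he₂⟩
      exact ⟨b₂, ⟨hb₂B, class_bound hord hval d₁ d₂ δ₀ hδ hN y b₁ b₂ u₁ u₂ hu₁ hu₂ he₁ he₂⟩, rfl⟩
    · rw [Set.not_nonempty_iff_eq_empty] at hne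
      rw [hne]
      exact Set.finite_empty
  have h0 := orbSum_unfold_finsum D Φ hφ c hc' hfin
  rw [h0]
  show ∑ᶠ x ∈ nG '' B, Φ (x⁻¹ * δ₀ * glAut s x) = ∑ᶠ b ∈ B, Φ (Y b)
  rw [finsum_mem_image (nG_injective.injOn)]
  apply finsum_congr
  intro b
  apply finsum_congr
  intro _
  congr 1
  apply gl_ext
  rw [twc_nG d₁ d₂ δ₀ hδ b, hY b]

end Leaf

end Fermat.Agent.LT.T6.H227

end

end
-- ===== PACK-END LT/T6/H227/OrbitParam.lean

-- ===== PACK-BEGIN LT/T6/Inf/H434/SmoothCore.lean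
section



/-!
# Row LT, sub-tower T6inf, leaf T6inf.04.2 `SmoothC811` -- SPARE (helper434), part 4: THE CORE

OFF-MAIN.  Mathlib only.

`smooth_core434`: let `e` be a continuous function on `GL₂(ℝ)` of weight `n` under `SO(2)` on the
right, `e 1 ≠ 0`, with `∫₀^{2π} e^{-inθ} e(g k_θ a_t) dθ = M(t) e(g)` for ALL real `t` and all `g`.
Then `M` is `C^∞` (in particular `C²`).

Proof.  `E(y) = e(P(y))` on `ℝ²`, `P(η, ξ) = n_ξ a_η`.  Choose a bump `Ψ` with
`c = ∫ Ψ E ≠ 0`.  Then, with `P(y) k_θ a_t = P(τ_{θ,t} y) k_β` and `τ` measure preserving,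

`M(t) c = ∫ Ψ(y) ∫₀^{2π} e^{-inθ} W(θ,t)ⁿ E(τ y) dθ dy
        = ∫₀^{2π} ∫ e^{-inθ} E(y') · W(θ,t)ⁿ Ψ(σ_{θ,t} y') dy' dθ`,

a convolution (at the point `0`) of a locally integrable function with a smooth kernel depending
smoothly on `t`, with locally uniformly compact support: `contDiffOn_convolution_right_with_param`.
-/

set_option autoImplicit false

open MeasureTheory
open scoped Matrix ContDiff Convolution

noncomputable section

namespace Fermat.Agent.LT.T6.Inf.H434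

/-- The locally integrable factor `f(θ, y) = 1_{(0, 2π]}(θ) e^{-inθ} E(y)`. -/
def ff434 (n : ℤ) (E0 : ℝ × ℝ → ℂ) : ℝ × (ℝ × ℝ) → ℂ :=
  (Set.Ioc (0 : ℝ) (2 * Real.pi) ×ˢ (Set.univ : Set (ℝ × ℝ))).indicator
    (fun z => wtf434 (-n) z.1 * E0 z.2)

theorem locallyIntegrable_ff434 (n : ℤ) {E0 : ℝ × ℝ → ℂ} (hE0 : Continuous E0) :
    LocallyIntegrable (ff434 n E0) volume := by
  unfold ff434
  apply LocallyIntegrable.indicator
  · apply Continuous.locallyIntegrable
    have := continuous_wtf434 (-n)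
    fun_prop
  · exact measurableSet_Ioc.prod MeasurableSet.univ

/-- The compact set carrying the kernels for `|t| ≤ T`. -/
def kk434 (T : ℝ) : Set (ℝ × (ℝ × ℝ)) :=
  (fun z => -z) '' ((fun p : ℝ × (ℝ × (ℝ × ℝ)) => (p.2.1, tau434 p.2.1 p.1 p.2.2)) ''
    (Set.Icc (-T) T ×ˢ (Metric.closedBall (0 : ℝ) 8 ×ˢ Metric.closedBall (0 : ℝ × ℝ) 1)))

theorem isCompact_kk434 (T : ℝ) : IsCompact (kk434 T) := by
  unfold kk434
  apply IsCompact.image
  · apply IsCompact.image
    · exact isCompact_Icc.prod ((isCompact_closedBall _ _).prod (isCompact_closedBall _ _))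
    · exact (continuous_fst.comp continuous_snd).prodMk
        (continuous_tau434 (continuous_fst.comp continuous_snd) continuous_fst
          (continuous_snd.comp continuous_snd))
  · exact continuous_neg

theorem gg_zero_of_notMem434 (n : ℤ) {χ : ℝ → ℝ} {Ψ : ℝ × ℝ → ℝ}
    (hχ0 : ∀ θ, 8 < |θ| → χ θ = 0) (hΨ0 : ∀ y, 1 < ‖y‖ → Ψ y = 0)
    (T t : ℝ) (ht : t ∈ Set.Icc (-T) T) (x : ℝ × (ℝ × ℝ)) (hx : x ∉ kk434 T) :
    gg434 n χ Ψ t (-x) = 0 := by
  by_contra h
  obtain ⟨y, hy, hθ, hz⟩ := gg_support434 n hχ0 hΨ0 t (-x) h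
  apply hx
  refine ⟨-x, ⟨(t, ((-x).1, y)), ⟨ht, ?_, ?_⟩, hz.symm⟩, neg_neg x⟩
  · simpa [Metric.mem_closedBall, dist_zero_right, Real.norm_eq_abs] using hθ
  · simpa [Metric.mem_closedBall, dist_zero_right] using hy

/-- The integrand after the change of variables. -/
def cc434 (n : ℤ) (E0 : ℝ × ℝ → ℂ) (χ : ℝ → ℝ) (Ψ : ℝ × ℝ → ℝ) (t : ℝ)
    (z : ℝ × (ℝ × ℝ)) : ℂ :=
  wtf434 (-n) z.1 * E0 z.2 * gg434 n χ Ψ t z

theorem continuous_cc434 (n : ℤ) {E0 : ℝ × ℝ → ℂ} (hE0 : Continuous E0) {χ : ℝ → ℝ}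
    {Ψ : ℝ × ℝ → ℝ} (hχ : ContDiff ℝ ∞ χ) (hΨ : ContDiff ℝ ∞ Ψ) (t : ℝ) :
    Continuous (cc434 n E0 χ Ψ t) := by
  unfold cc434
  have h1 := continuous_wtf434 (-n)
  have h2 : Continuous (fun z : ℝ × (ℝ × ℝ) => gg434 n χ Ψ t z) :=
    (contDiff_gg434 n hχ hΨ contDiff_const contDiff_id).continuous
  fun_prop

theorem integrable_cc434 (n : ℤ) {E0 : ℝ × ℝ → ℂ} (hE0 : Continuous E0) {χ : ℝ → ℝ}
    {Ψ : ℝ × ℝ → ℝ} (hχ : ContDiff ℝ ∞ χ) (hΨ : ContDiff ℝ ∞ Ψ)
    (hχ0 : ∀ θ, 8 < |θ| → χ θ = 0) (hΨ0 : ∀ y, 1 < ‖y‖ → Ψ y = 0) (t : ℝ) :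
    Integrable (cc434 n E0 χ Ψ t) volume := by
  apply (continuous_cc434 n hE0 hχ hΨ t).integrable_of_hasCompactSupport
  have hk : IsCompact ((fun z : ℝ × (ℝ × ℝ) => -z) '' kk434 |t|) :=
    (isCompact_kk434 |t|).image continuous_neg
  apply HasCompactSupport.intro hk
  intro z hz
  have hz' : -z ∉ kk434 |t| := by
    intro h
    exact hz ⟨-z, h, neg_neg z⟩
  have := gg_zero_of_notMem434 n hχ0 hΨ0 |t| t ⟨neg_abs_le t, le_abs_self t⟩ (-z) hz'
  rw [neg_neg] at this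
  unfold cc434
  rw [this, mul_zero]

/-- The integrand before the change of variables. -/
def cb1434 (n : ℤ) (E0 : ℝ × ℝ → ℂ) (χ : ℝ → ℝ) (Ψ : ℝ × ℝ → ℝ) (t : ℝ)
    (θ : ℝ) (y : ℝ × ℝ) : ℂ :=
  cc434 n E0 χ Ψ t (θ, tau434 θ t y)

theorem cb1_eq434 (n : ℤ) (E0 : ℝ × ℝ → ℂ) (χ : ℝ → ℝ) (Ψ : ℝ × ℝ → ℝ) (t θ : ℝ)
    (y : ℝ × ℝ) :
    cb1434 n E0 χ Ψ t θ y
      = wtf434 (-n) θ * E0 (tau434 θ t y) * (((χ θ : ℝ) : ℂ) * ww434 θ t ^ n * ((Ψ y : ℝ) : ℂ)) := by
  unfold cb1434 cc434 gg434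
  simp only [sig_tau434]

theorem integrable_cb1434 (n : ℤ) {E0 : ℝ × ℝ → ℂ} (hE0 : Continuous E0) {χ : ℝ → ℝ}
    {Ψ : ℝ × ℝ → ℝ} (hχ : ContDiff ℝ ∞ χ) (hΨ : ContDiff ℝ ∞ Ψ)
    (hχ0 : ∀ θ, 8 < |θ| → χ θ = 0) (hΨ0 : ∀ y, 1 < ‖y‖ → Ψ y = 0) (t : ℝ) :
    Integrable (Function.uncurry (cb1434 n E0 χ Ψ t)) volume := by
  have hcont : Continuous (Function.uncurry (cb1434 n E0 χ Ψ t)) := by
    have h1 : Continuous (fun p : ℝ × (ℝ × ℝ) => (p.1, tau434 p.1 t p.2)) :=
      continuous_fst.prodMk (continuous_tau434 continuous_fst continuous_const continuous_snd)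
    exact (continuous_cc434 n hE0 hχ hΨ t).comp h1
  apply hcont.integrable_of_hasCompactSupport
  have hk : IsCompact (Metric.closedBall (0 : ℝ) 8 ×ˢ Metric.closedBall (0 : ℝ × ℝ) 1) :=
    (isCompact_closedBall _ _).prod (isCompact_closedBall _ _)
  apply HasCompactSupport.intro hk
  rintro ⟨θ, y⟩ hz
  show cb1434 n E0 χ Ψ t θ y = 0
  rw [cb1_eq434]
  by_cases hθ : |θ| ≤ 8
  · have hy : 1 < ‖y‖ := by
      by_contra h
      apply hz
      refine ⟨?_, ?_⟩
      · simpa [Metric.mem_closedBall, dist_zero_right, Real.norm_eq_abs] using hθ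
      · simpa [Metric.mem_closedBall, dist_zero_right] using not_lt.1 h
    rw [hΨ0 y hy]
    simp
  · rw [hχ0 θ (not_le.1 hθ)]
    simp

/-- **THE IDENTITY**: `M(t) · ∫ Ψ E = (f ⋆ g_t)(0)`. -/
theorem key_identity434 (n : ℤ) (e : GL (Fin 2) ℝ → ℂ) (M : ℝ → ℂ) (K A : ℝ → GL (Fin 2) ℝ)
    (hK : ∀ θ, ((K θ : GL (Fin 2) ℝ) : Matrix (Fin 2) (Fin 2) ℝ) = rotM434 θ)
    (hA : ∀ t, ((A t : GL (Fin 2) ℝ) : Matrix (Fin 2) (Fin 2) ℝ) = torM434 t)
    (hc : Continuous e)
    (hw : ∀ (θ : ℝ) (k g : GL (Fin 2) ℝ), (k : Matrix (Fin 2) (Fin 2) ℝ) = rotM434 θ →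
      e (g * k) = wtf434 n θ * e g)
    (hM : ∀ (t : ℝ) (g : GL (Fin 2) ℝ),
      (∫ θ in (0 : ℝ)..(2 * Real.pi), wtf434 (-n) θ * e (g * (K θ * A t))) = M t * e g)
    {χ : ℝ → ℝ} {Ψ : ℝ × ℝ → ℝ} (hχ : ContDiff ℝ ∞ χ) (hΨ : ContDiff ℝ ∞ Ψ)
    (hχ0 : ∀ θ, 8 < |θ| → χ θ = 0) (hχ1 : ∀ θ ∈ Set.Icc (0 : ℝ) (2 * Real.pi), χ θ = 1)
    (hΨ0 : ∀ y, 1 < ‖y‖ → Ψ y = 0) (t : ℝ) :
    M t * (∫ y, ((Ψ y : ℝ) : ℂ) * e (bor434 y))
      = ∫ z, ff434 n (fun y => e (bor434 y)) z
          * gg434 n χ Ψ t z := by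
  set E0 : ℝ × ℝ → ℂ := fun y => e (bor434 y) with hE0def
  have hE0 : Continuous E0 := hc.comp continuous_bor434
  have hpi : (0 : ℝ) ≤ 2 * Real.pi := by positivity
  -- Step A
  have hA1 : M t * (∫ y, ((Ψ y : ℝ) : ℂ) * E0 y)
      = ∫ y, ∫ θ in (0 : ℝ)..(2 * Real.pi), cb1434 n E0 χ Ψ t θ y := by
    rw [← integral_const_mul]
    congr 1
    funext y
    have h1 : ∀ θ ∈ Set.uIcc (0 : ℝ) (2 * Real.pi), cb1434 n E0 χ Ψ t θ y
        = ((Ψ y : ℝ) : ℂ) * (wtf434 (-n) θ * e (bor434 y * (K θ * A t))) := by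
      intro θ hθ
      rw [Set.uIcc_of_le hpi] at hθ
      rw [cb1_eq434, hχ1 θ hθ, eval_shift434 hw θ t y (K θ) (A t) (hK θ) (hA t)]
      simp only [Complex.ofReal_one, one_mul]
      ring
    rw [intervalIntegral.integral_congr h1, intervalIntegral.integral_const_mul, hM t (bor434 y)]
    ring
  -- Step B
  have hB : (∫ y, ∫ θ in (0 : ℝ)..(2 * Real.pi), cb1434 n E0 χ Ψ t θ y)
      = ∫ θ in (0 : ℝ)..(2 * Real.pi), ∫ y, cb1434 n E0 χ Ψ t θ y := by
    rw [intervalIntegral_integral_swap]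
    rw [Measure.restrict_prod_eq_prod_univ, ← Measure.volume_eq_prod]
    exact (integrable_cb1434 n hE0 hχ hΨ hχ0 hΨ0 t).restrict
  -- Step C
  have hC : ∀ θ : ℝ, (∫ y, cb1434 n E0 χ Ψ t θ y) = ∫ y, cc434 n E0 χ Ψ t (θ, y) := by
    intro θ
    have hcont : Continuous (fun y : ℝ × ℝ => cc434 n E0 χ Ψ t (θ, y)) :=
      (continuous_cc434 n hE0 hχ hΨ t).comp (continuous_const.prodMk continuous_id)
    exact integral_comp_tau434 θ t (fun y => cc434 n E0 χ Ψ t (θ, y)) hcont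
  -- Step D
  have hD : (∫ θ in (0 : ℝ)..(2 * Real.pi), ∫ y, cc434 n E0 χ Ψ t (θ, y))
      = ∫ z in Set.Ioc (0 : ℝ) (2 * Real.pi) ×ˢ (Set.univ : Set (ℝ × ℝ)),
          cc434 n E0 χ Ψ t z := by
    rw [intervalIntegral.integral_of_le hpi]
    have hv : (volume : Measure (ℝ × (ℝ × ℝ)))
        = (volume : Measure ℝ).prod (volume : Measure (ℝ × ℝ)) := rfl
    rw [hv, setIntegral_prod]
    · simp only [Measure.restrict_univ]
    · rw [← hv]
      exact (integrable_cc434 n hE0 hχ hΨ hχ0 hΨ0 t).integrableOn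
  -- Step E
  have hE : (∫ z in Set.Ioc (0 : ℝ) (2 * Real.pi) ×ˢ (Set.univ : Set (ℝ × ℝ)),
      cc434 n E0 χ Ψ t z) = ∫ z, ff434 n E0 z * gg434 n χ Ψ t z := by
    rw [← integral_indicator (measurableSet_Ioc.prod MeasurableSet.univ)]
    congr 1
    funext z
    unfold ff434 cc434
    rw [Set.indicator_mul_left]
  rw [hA1, hB]
  simp only [hC]
  rw [hD, hE]

/-- **THE CORE.** -/
theorem smooth_core434 (n : ℤ) (e : GL (Fin 2) ℝ → ℂ) (M : ℝ → ℂ) (K A : ℝ → GL (Fin 2) ℝ)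
    (hK : ∀ θ, ((K θ : GL (Fin 2) ℝ) : Matrix (Fin 2) (Fin 2) ℝ) = rotM434 θ)
    (hA : ∀ t, ((A t : GL (Fin 2) ℝ) : Matrix (Fin 2) (Fin 2) ℝ) = torM434 t)
    (hc : Continuous e) (h1 : e 1 ≠ 0)
    (hw : ∀ (θ : ℝ) (k g : GL (Fin 2) ℝ), (k : Matrix (Fin 2) (Fin 2) ℝ) = rotM434 θ →
      e (g * k) = wtf434 n θ * e g)
    (hM : ∀ (t : ℝ) (g : GL (Fin 2) ℝ),
      (∫ θ in (0 : ℝ)..(2 * Real.pi), wtf434 (-n) θ * e (g * (K θ * A t))) = M t * e g) :
    ContDiff ℝ ∞ M := by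
  set E0 : ℝ × ℝ → ℂ := fun y => e (bor434 y) with hE0def
  have hE0 : Continuous E0 := hc.comp continuous_bor434
  have hE00 : E0 0 ≠ 0 := by
    show e (bor434 (0, 0)) ≠ 0
    rw [bor_zero434]
    exact h1
  obtain ⟨Ψ, hΨ, hΨ0, hcne⟩ := bump_exists434 E0 hE0 hE00
  -- the cut-off in `θ`
  let χb : ContDiffBump (0 : ℝ) := ⟨7, 8, by norm_num, by norm_num⟩
  have hχ : ContDiff ℝ ∞ (χb : ℝ → ℝ) := χb.contDiff
  have hχ0 : ∀ θ, 8 < |θ| → χb θ = 0 := by
    intro θ hθ
    apply χb.zero_of_le_dist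
    rw [dist_zero_right, Real.norm_eq_abs]
    exact hθ.le
  have hχ1 : ∀ θ ∈ Set.Icc (0 : ℝ) (2 * Real.pi), χb θ = 1 := by
    intro θ hθ
    apply χb.one_of_mem_closedBall
    rw [Metric.mem_closedBall, dist_zero_right, Real.norm_eq_abs, abs_of_nonneg hθ.1]
    have := Real.pi_lt_d2
    show θ ≤ 7
    linarith [hθ.2]
  have hkey := fun t => key_identity434 n e M K A hK hA hc hw hM hχ hΨ hχ0 hχ1 hΨ0 t
  -- the convolution
  set f := ff434 n E0 with hf
  set g : ℝ → ℝ × (ℝ × ℝ) → ℂ := fun t z => gg434 n χb Ψ t (-z) with hg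
  have hconv : ∀ t, (f ⋆[ContinuousLinearMap.mul ℝ ℂ, volume] g t) 0
      = ∫ z, f z * gg434 n χb Ψ t z := by
    intro t
    rw [convolution_def]
    congr 1
    funext z
    simp [hg]
  have hMeq : M = fun t => (f ⋆[ContinuousLinearMap.mul ℝ ℂ, volume] g t) 0
      / (∫ y, ((Ψ y : ℝ) : ℂ) * E0 y) := by
    funext t
    rw [eq_div_iff hcne, hconv t, ← hkey t]
  rw [hMeq]
  apply ContDiff.div_const
  rw [contDiff_iff_contDiffAt]
  intro t₀
  have hs : IsOpen (Set.Ioo (-(|t₀| + 1)) (|t₀| + 1)) := isOpen_Ioo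
  have hmem : t₀ ∈ Set.Ioo (-(|t₀| + 1)) (|t₀| + 1) := by
    constructor
    · linarith [neg_abs_le t₀]
    · linarith [le_abs_self t₀]
  have hgsmooth : ContDiff ℝ ∞ (Function.uncurry g) := by
    show ContDiff ℝ ∞ (fun p : ℝ × (ℝ × (ℝ × ℝ)) => gg434 n χb Ψ p.1 (-p.2))
    exact contDiff_gg434 n hχ hΨ contDiff_fst contDiff_snd.neg
  have hon := contDiffOn_convolution_right_with_param_comp (μ := volume)
    (ContinuousLinearMap.mul ℝ ℂ) (n := (⊤ : ℕ∞)) (s := Set.Ioo (-(|t₀| + 1)) (|t₀| + 1))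
    (v := fun _ : ℝ => (0 : ℝ × (ℝ × ℝ))) contDiffOn_const (f := f) (g := g)
    (k := kk434 (|t₀| + 1)) hs (isCompact_kk434 _)
    (fun p x hp hx => gg_zero_of_notMem434 n hχ0 hΨ0 (|t₀| + 1) p ⟨hp.1.le, hp.2.le⟩ x hx)
    (locallyIntegrable_ff434 n hE0) hgsmooth.contDiffOn
  exact (hon t₀ hmem).contDiffAt (hs.mem_nhds hmem)

end Fermat.Agent.LT.T6.Inf.H434

end

end
-- ===== PACK-END LT/T6/Inf/H434/SmoothCore.lean

-- ===== PACK-BEGIN LT/T7/H16/IwAdelic.lean
section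





/-!
# Row LT, tower T7, asset T7.L2.R (helper16): the Iwahori subgroup, adelic form

OFF-MAIN.  Bridge between `T5.InIwahori` / `T5.InIwahoriCoset` (T5/Spec v4) and the matrix
predicates of `IwLocal.lean`; the local elements `ω = antidiag(1, c)`, `s = antidiag(1, 1)` of
`GL₂(𝔸_K)` at a finite place (local embedding `locFin129` of helper129).
-/

set_option autoImplicit false

open IsDedekindDomain NumberField WithZero

noncomputable section

namespace Fermat.Agent.LT.T7.H16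

open Fermat.Agent.LT.H556.A0 Fermat.Agent.LT.T5 Fermat.Agent.LT.H129

variable {K : Type} [Field K] [NumberField K]

/-- The valuation of the completion at `w`. -/
abbrev vw16 (w : HeightOneSpectrum (𝓞 K)) : Valuation (w.adicCompletion K) ℤᵐ⁰ := Valued.v

theorem finComp_mul16 (w : HeightOneSpectrum (𝓞 K)) (g h : G K) :
    finComp w (g * h) = finComp w g * finComp w h := by
  rw [← coe_finCompHom129, ← coe_finCompHom129, ← coe_finCompHom129, map_mul]
  rfl

theorem finComp_one16 (w : HeightOneSpectrum (𝓞 K)) : finComp w (1 : G K) = 1 := by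
  rw [← coe_finCompHom129, map_one]
  rfl

theorem finComp_inv16' (w : HeightOneSpectrum (𝓞 K)) (g : G K) :
    finComp w g⁻¹ = (finComp w g)⁻¹ := by
  rw [← coe_finCompHom129, ← coe_finCompHom129, map_inv, Matrix.coe_units_inv]

theorem isIntegralAt_iff16 (w : HeightOneSpectrum (𝓞 K)) (g : G K) :
    IsIntegralAt w g ↔ ∀ i j, vw16 w (finComp w g i j) ≤ 1 := by
  unfold IsIntegralAt
  simp only [HeightOneSpectrum.mem_adicCompletionIntegers]

theorem v_det_le16 {F : Type*} [Field F] {v : Valuation F ℤᵐ⁰} {x : Matrix (Fin 2) (Fin 2) F}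
    (hx : ∀ i j, v (x i j) ≤ 1) : v x.det ≤ 1 := by
  rw [Matrix.det_fin_two]
  exact v_sub_le16 (v_mul_le16 (hx 0 0) (hx 1 1)) (v_mul_le16 (hx 0 1) (hx 1 0))

/-- `InIwahori` in matrix form. -/
theorem inIwahori_iff16 (w : HeightOneSpectrum (𝓞 K)) (g : G K) :
    InIwahori w g ↔ IsIw16 (vw16 w) (finComp w g) := by
  constructor
  · rintro ⟨h1, h2, h3⟩
    rw [isIntegralAt_iff16] at h1 h2
    refine ⟨⟨h1, ?_⟩, h3⟩
    have hmul : (finComp w g).det * (finComp w g⁻¹).det = 1 := by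
      rw [← Matrix.det_mul, ← finComp_mul16, mul_inv_cancel, finComp_one16, Matrix.det_one]
    have hv : vw16 w (finComp w g).det * vw16 w (finComp w g⁻¹).det = 1 := by
      rw [← map_mul, hmul, map_one]
    refine le_antisymm (v_det_le16 h1) ?_
    by_contra hlt
    rw [not_le] at hlt
    have : vw16 w (finComp w g).det * vw16 w (finComp w g⁻¹).det < 1 := by
      calc vw16 w (finComp w g).det * vw16 w (finComp w g⁻¹).det
          ≤ vw16 w (finComp w g).det * 1 := mul_le_mul' le_rfl (v_det_le16 h2)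
        _ = vw16 w (finComp w g).det := mul_one _
        _ < 1 := hlt
    rw [hv] at this
    exact lt_irrefl _ this
  · intro h
    refine ⟨(isIntegralAt_iff16 w g).2 h.1.1, (isIntegralAt_iff16 w g⁻¹).2 ?_, h.2⟩
    rw [finComp_inv16']
    exact (isGLO16_inv h.1).1

theorem inIwahori_mul16 (w : HeightOneSpectrum (𝓞 K)) {g h : G K} (hg : InIwahori w g)
    (hh : InIwahori w h) : InIwahori w (g * h) := by
  rw [inIwahori_iff16] at *
  rw [finComp_mul16]
  exact isIw16_mul hg hh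

theorem inIwahori_inv16 (w : HeightOneSpectrum (𝓞 K)) {g : G K} (hg : InIwahori w g) :
    InIwahori w g⁻¹ := by
  rw [inIwahori_iff16] at *
  rw [finComp_inv16']
  exact isIw16_inv hg

theorem inIwahori_of_trivAtFin16 (w : HeightOneSpectrum (𝓞 K)) {g : G K}
    (hg : TrivAtFin w g) : InIwahori w g := by
  rw [inIwahori_iff16]
  unfold TrivAtFin at hg
  rw [hg]
  exact isIw16_one

/-! ## Local elements -/

/-- The element of `GL₂(K_w)` with a given matrix of nonzero determinant. -/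
def glOf16 {w : HeightOneSpectrum (𝓞 K)} (M : Matrix (Fin 2) (Fin 2) (w.adicCompletion K))
    (hM : M.det ≠ 0) : GL (Fin 2) (w.adicCompletion K) :=
  Matrix.GeneralLinearGroup.mkOfDetNeZero M hM

/-- The element of `GL₂(𝔸_K)` supported at `w` with a given matrix of nonzero determinant. -/
def locOf16 (w : HeightOneSpectrum (𝓞 K)) (M : Matrix (Fin 2) (Fin 2) (w.adicCompletion K))
    (hM : M.det ≠ 0) : G K :=
  locFin129 w (glOf16 M hM)

theorem finComp_locOf16 (w : HeightOneSpectrum (𝓞 K))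
    (M : Matrix (Fin 2) (Fin 2) (w.adicCompletion K)) (hM : M.det ≠ 0) :
    finComp w (locOf16 w M hM) = M := by
  unfold locOf16
  rw [finComp_locFin129]
  rfl

theorem isLocalAtFin_locOf16 (w : HeightOneSpectrum (𝓞 K))
    (M : Matrix (Fin 2) (Fin 2) (w.adicCompletion K)) (hM : M.det ≠ 0) :
    IsLocalAtFin w (locOf16 w M hM) :=
  isLocalAtFin_locFin129 w _

/-- Two elements supported at `w` with the same matrix at `w` are equal. -/
theorem eq_of_local16 {w : HeightOneSpectrum (𝓞 K)} {g h : G K} (hg : IsLocalAtFin w g)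
    (hh : IsLocalAtFin w h) (e : finComp w g = finComp w h) : g = h := by
  rw [eq_locFin129_of_isLocalAtFin hg, eq_locFin129_of_isLocalAtFin hh]
  congr 1
  apply Units.ext
  rw [coe_finCompHom129, coe_finCompHom129]
  exact e

/-- An element which is supported at `w` and Iwahori at `w` is Iwahori along every orbit. -/
theorem inIwahori_all_of_local16 {w : HeightOneSpectrum (𝓞 K)} {k : G K}
    (hk : IsLocalAtFin w k) (hI : InIwahori w k) (v : HeightOneSpectrum (𝓞 K)) :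
    InIwahori v k := by
  by_cases h : v = w
  · subst h
    exact hI
  · exact inIwahori_of_trivAtFin16 v (hk.2 v h)

end Fermat.Agent.LT.T7.H16

end

end
-- ===== PACK-END LT/T7/H16/IwAdelic.lean

-- ===== PACK-BEGIN LT/T6/H584/SecCount.lean
section





/-!
# Row LT, tower T6, leaf T6.19 `OrbSumIntC` (helper584): second countability

OFF-MAIN.  Mathlib + `LT/T6/Spec.lean` (v3) + the topology of helper420 (`H420/ValTop.lean`,
`H420/GLTop.lean`, byte-identical).  A local field in the sense of `IsLocalField` and its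
`GL₂` are second countable.
-/

set_option autoImplicit false
set_option linter.unusedSectionVars false
set_option linter.style.haveILetI false

open Topology Filter Set

noncomputable section

namespace Fermat.Agent.LT.T6.H584

open Fermat.Agent.LT.T6 Fermat.Agent.LT.T6.H420

variable {k : Type} [Field k] [Valued k Γ₀]

theorem nhds_zero_countable584 {q : ℕ} (h : IsLocalField k q) :
    (𝓝 (0 : k)).IsCountablyGenerated := by
  obtain ⟨ϖ, hϖ⟩ := h.unif
  have hb : (𝓝 (0 : k)).HasBasis (fun _ : ℕ => True)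
      (fun m => {y : k | Valued.v (y - 0) ≤ WithZero.exp (-(m : ℤ))}) := by
    rw [Filter.hasBasis_iff]
    intro t
    rw [mem_nhds_iff_exp hϖ]
    simp
  exact hb.isCountablyGenerated

theorem secondCountable_field584 {q : ℕ} (h : IsLocalField k q) :
    SecondCountableTopology k := by
  haveI : SigmaCompactSpace k := sigmaCompactSpace_of_isLocalField h
  haveI : (𝓝 (0 : k)).IsCountablyGenerated := nhds_zero_countable584 h
  haveI : (uniformity k).IsCountablyGenerated := IsUniformAddGroup.uniformity_countably_generated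
  haveI : TopologicalSpace.MetrizableSpace k := UniformSpace.metrizableSpace
  letI : MetricSpace k := TopologicalSpace.metrizableSpaceMetric k
  exact EMetric.secondCountable_of_sigmaCompact k

theorem secondCountable_GL584 {q : ℕ} (h : IsLocalField k q) :
    SecondCountableTopology (GL (Fin 2) k) := by
  haveI : SecondCountableTopology k := secondCountable_field584 h
  haveI : SecondCountableTopology (Matrix (Fin 2) (Fin 2) k) :=
    inferInstanceAs (SecondCountableTopology (Fin 2 → Fin 2 → k))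
  haveI : SecondCountableTopology (Matrix (Fin 2) (Fin 2) k)ᵐᵒᵖ :=
    MulOpposite.opHomeomorph.symm.isEmbedding.secondCountableTopology
  exact Units.isEmbedding_embedProduct.secondCountableTopology

end Fermat.Agent.LT.T6.H584

end

end
-- ===== PACK-END LT/T6/H584/SecCount.lean

-- ===== PACK-BEGIN LT/T7/H662/ChainFubini.lean
section




/-!
# Row LT, tower T7, leaf C2.7.13.3 `LocEqSplitC340` (helper662): FUBINI ALONG THE CHAIN

OFF-MAIN.  Mathlib + the asset of helper159.  Complete proofs, nothing assumed.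

`H` a second countable Hausdorff topological group with its Borel `σ`-algebra, `μ` a `σ`-finite
left invariant measure.  For functions `Φ j` which are measurable, bounded and integrable
(`IsGood662`):

* `isGood_convL662`  : the left nested convolutions `convL159 μ Φ n` are again good;
* `chain_integral662`: the chain is integrable on `H^n` and its integral is `iterL159`;
* `split_fubini662`  : the SPLIT INTEGRAL (the shape of `splitInt340`) is the integral over `y₀`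
  of `convL159 μ Φ (l-1) (y₀⁻¹ (δ_0 ⋯ δ_{l-1}) y₀) β(y₀)`, PROVIDED the latter is integrable for
  the functions `‖Φ j‖`.
-/

set_option autoImplicit false
set_option linter.unusedSectionVars false

open MeasureTheory

noncomputable section

namespace Fermat.Agent.LT.T7.H662

open Fermat.Agent.LT.T6 Fermat.Agent.LT.T7.H159

variable {H : Type} [Group H] [TopologicalSpace H] [IsTopologicalGroup H]
  [SecondCountableTopology H] [T2Space H] [MeasurableSpace H] [BorelSpace H]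

/-- Measurable, bounded, integrable. -/
structure IsGood662 (μ : Measure H) (Φ : H → ℂ) : Prop where
  meas : Measurable Φ
  bdd : ∃ M : ℝ, ∀ x, ‖Φ x‖ ≤ M
  int : Integrable Φ μ

theorem IsGood662.norm {μ : Measure H} {Φ : H → ℂ} (h : IsGood662 μ Φ) :
    IsGood662 μ (fun g => ((‖Φ g‖ : ℝ) : ℂ)) where
  meas := Complex.measurable_ofReal.comp h.meas.norm
  bdd := by
    obtain ⟨M, hM⟩ := h.bdd
    refine ⟨M, fun x => ?_⟩
    rw [Complex.norm_real, norm_norm]
    exact hM x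
  int := h.int.norm.ofReal

theorem convInt_apply662 (μ : Measure H) (g Φ : H → ℂ) (x : H) :
    convInt μ g Φ x = ∫ h, g h * Φ (h⁻¹ * x) ∂μ := rfl

theorem convL_zero662 (μ : Measure H) (Φ : ℕ → H → ℂ) : convL159 μ Φ 0 = Φ 0 := rfl

theorem convL_succ662 (μ : Measure H) (Φ : ℕ → H → ℂ) (n : ℕ) :
    convL159 μ Φ (n + 1) = convInt μ (convL159 μ Φ n) (Φ (n + 1)) := rfl

theorem iterL_succ662 (μ : Measure H) (Φ : ℕ → H → ℂ) (δ : ℕ → H) (n : ℕ) (a b : H) :
    iterL159 μ Φ δ (n + 1) a b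
      = ∫ x, iterL159 μ Φ δ n a x * Φ (n + 1) (x⁻¹ * δ (n + 1) * b) ∂μ := rfl

theorem iterL_zero662 (μ : Measure H) (Φ : ℕ → H → ℂ) (δ : ℕ → H) (a b : H) :
    iterL159 μ Φ δ 0 a b = Φ 0 (a⁻¹ * δ 0 * b) := rfl

section Conv

variable (μ : Measure H) [SigmaFinite μ] [μ.IsMulLeftInvariant]

theorem measurable_convKer662 {g Φ : H → ℂ} (hg : Measurable g) (hΦ : Measurable Φ) :
    Measurable (fun p : H × H => g p.1 * Φ (p.1⁻¹ * p.2)) :=
  (hg.comp measurable_fst).mul (hΦ.comp (measurable_fst.inv.mul measurable_snd))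

theorem integrable_convKer662 {g Φ : H → ℂ} (hg : IsGood662 μ g) (hΦ : IsGood662 μ Φ) :
    Integrable (fun p : H × H => g p.1 * Φ (p.1⁻¹ * p.2)) (μ.prod μ) := by
  have h1 : Integrable (fun p : H × H => g p.1 * Φ p.2) (μ.prod μ) := hg.int.mul_prod hΦ.int
  have hmp := measurePreserving_prod_inv_mul μ μ
  exact (hmp.integrable_comp h1.aestronglyMeasurable).2 h1

/-- The convolution of two good functions is good. -/
theorem isGood_conv662 {g Φ : H → ℂ} (hg : IsGood662 μ g) (hΦ : IsGood662 μ Φ) :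
    IsGood662 μ (convInt μ g Φ) where
  meas := by
    have h := (measurable_convKer662 hg.meas hΦ.meas).stronglyMeasurable
    exact (h.integral_prod_left (μ := μ)).measurable
  bdd := by
    obtain ⟨M, hM⟩ := hΦ.bdd
    refine ⟨(∫ h, ‖g h‖ ∂μ) * M, fun x => ?_⟩
    rw [convInt_apply662]
    have hb : ∀ h : H, ‖g h * Φ (h⁻¹ * x)‖ ≤ ‖g h‖ * M := fun h => by
      rw [norm_mul]
      exact mul_le_mul_of_nonneg_left (hM _) (norm_nonneg _)
    calc ‖∫ h, g h * Φ (h⁻¹ * x) ∂μ‖ ≤ ∫ h, ‖g h‖ * M ∂μ :=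
          norm_integral_le_of_norm_le (hg.int.norm.mul_const M) (Filter.Eventually.of_forall hb)
      _ = (∫ h, ‖g h‖ ∂μ) * M := integral_mul_const _ _
  int := (integrable_convKer662 μ hg hΦ).integral_prod_right

theorem isGood_convL662 {Φ : ℕ → H → ℂ} (hΦ : ∀ j, IsGood662 μ (Φ j)) (n : ℕ) :
    IsGood662 μ (convL159 μ Φ n) := by
  induction n with
  | zero => exact hΦ 0
  | succ n ih =>
    rw [convL_succ662]
    exact isGood_conv662 μ ih (hΦ (n + 1))

end Conv

/-- The chain is jointly measurable. -/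
theorem measurable_chain662 {Φ : ℕ → H → ℂ} (hΦ : ∀ j, Measurable (Φ j)) (δ : ℕ → H) (n : ℕ) :
    Measurable (fun p : H × (Fin n → H) × H => chain662 Φ δ n p.1 p.2.1 p.2.2) := by
  induction n with
  | zero =>
    exact (hΦ 0).comp
      ((measurable_fst.inv.mul measurable_const).mul (measurable_snd.comp measurable_snd))
  | succ n ih =>
    have hlast : Measurable (fun p : H × (Fin (n + 1) → H) × H => p.2.1 (Fin.last n)) :=
      (measurable_pi_apply _).comp (measurable_fst.comp measurable_snd)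
    have hinit : Measurable (fun p : H × (Fin (n + 1) → H) × H =>
        (fun j : Fin n => p.2.1 ((Fin.last n).succAbove j))) :=
      measurable_pi_lambda _ fun j =>
        (measurable_pi_apply _).comp (measurable_fst.comp measurable_snd)
    have h1 : Measurable (fun p : H × (Fin (n + 1) → H) × H =>
        chain662 Φ δ n p.1 (fun j : Fin n => p.2.1 ((Fin.last n).succAbove j))
          (p.2.1 (Fin.last n))) :=
      ih.comp (measurable_fst.prodMk (hinit.prodMk hlast))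
    have h2 : Measurable (fun p : H × (Fin (n + 1) → H) × H =>
        Φ (n + 1) ((p.2.1 (Fin.last n))⁻¹ * δ (n + 1) * p.2.2)) :=
      (hΦ (n + 1)).comp
        ((hlast.inv.mul measurable_const).mul (measurable_snd.comp measurable_snd))
    exact h1.mul h2

section Main

variable (μ : Measure H) [SigmaFinite μ] [μ.IsMulLeftInvariant]

/-- **Fubini along the chain**: the chain is integrable and its integral is `iterL159`. -/
theorem chain_integral662 (δ : ℕ → H) (n : ℕ) :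
    ∀ (Φ : ℕ → H → ℂ), (∀ j, IsGood662 μ (Φ j)) → ∀ a b : H,
      Integrable (fun x : Fin n → H => chain662 Φ δ n a x b) (Measure.pi fun _ : Fin n => μ) ∧
        ∫ x : Fin n → H, chain662 Φ δ n a x b ∂(Measure.pi fun _ : Fin n => μ)
          = iterL159 μ Φ δ n a b := by
  induction n with
  | zero =>
    intro Φ _ a b
    have hpi : (Measure.pi fun _ : Fin 0 => μ) = Measure.dirac (fun _ => (1 : H)) :=
      Measure.pi_of_empty _ _
    have hc : (fun x : Fin 0 → H => chain662 Φ δ 0 a x b) = fun _ => Φ 0 (a⁻¹ * δ 0 * b) := rfl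
    rw [hc, hpi]
    refine ⟨integrable_const _, ?_⟩
    rw [integral_const, iterL_zero662]
    simp
  | succ n ih =>
    intro Φ hΦ a b
    have hΦn : ∀ j, IsGood662 μ (fun g => ((‖Φ j g‖ : ℝ) : ℂ)) := fun j => (hΦ j).norm
    set π : Measure (Fin n → H) := Measure.pi fun _ : Fin n => μ with hπ
    -- the function on `H × H^n`
    set f : H × (Fin n → H) → ℂ :=
      fun p => chain662 Φ δ n a p.2 p.1 * Φ (n + 1) (p.1⁻¹ * δ (n + 1) * b) with hf
    have hfm : Measurable f := by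
      have h1 : Measurable (fun p : H × (Fin n → H) => chain662 Φ δ n a p.2 p.1) :=
        (measurable_chain662 (fun j => (hΦ j).meas) δ n).comp
          (measurable_const.prodMk (measurable_snd.prodMk measurable_fst))
      have h2 : Measurable (fun p : H × (Fin n → H) => Φ (n + 1) (p.1⁻¹ * δ (n + 1) * b)) :=
        (hΦ (n + 1)).meas.comp ((measurable_fst.inv.mul measurable_const).mul measurable_const)
      exact h1.mul h2
    -- the inner integral of the norm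
    have hnorm : ∀ t : H, ∫ x : Fin n → H, ‖chain662 Φ δ n a x t‖ ∂π
        = (convL159 μ (fun j g => ((‖Φ j g‖ : ℝ) : ℂ)) n
            (a⁻¹ * prodFrom159 δ (n + 1) 0 * t)).re := by
      intro t
      have h1 := (ih (fun j g => ((‖Φ j g‖ : ℝ) : ℂ)) hΦn a t).2
      rw [iterL_eq159] at h1
      rw [← h1]
      have h2 : (fun x : Fin n → H => chain662 (fun j g => ((‖Φ j g‖ : ℝ) : ℂ)) δ n a x t)
          = fun x : Fin n → H => ((‖chain662 Φ δ n a x t‖ : ℝ) : ℂ) := by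
        funext x
        exact norm_chain662 Φ δ n a x t
      rw [h2, integral_complex_ofReal, Complex.ofReal_re]
    have hfi : Integrable f (μ.prod π) := by
      rw [integrable_prod_iff hfm.aestronglyMeasurable]
      constructor
      · refine Filter.Eventually.of_forall fun t => ?_
        show Integrable (fun x : Fin n → H =>
          chain662 Φ δ n a x t * Φ (n + 1) (t⁻¹ * δ (n + 1) * b)) π
        exact (ih Φ hΦ a t).1.mul_const _
      · have e : (fun t : H => ∫ x : Fin n → H, ‖f (t, x)‖ ∂π)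
            = fun t : H => (convL159 μ (fun j g => ((‖Φ j g‖ : ℝ) : ℂ)) n
                (a⁻¹ * prodFrom159 δ (n + 1) 0 * t)).re
              * ‖Φ (n + 1) (t⁻¹ * δ (n + 1) * b)‖ := by
          funext t
          have : (fun x : Fin n → H => ‖f (t, x)‖)
              = fun x : Fin n → H => ‖chain662 Φ δ n a x t‖
                  * ‖Φ (n + 1) (t⁻¹ * δ (n + 1) * b)‖ := by
            funext x
            exact norm_mul _ _
          rw [this, integral_mul_const, hnorm t]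
        rw [e]
        have hG := isGood_convL662 μ hΦn n
        have h1 : Integrable (fun t : H => (convL159 μ (fun j g => ((‖Φ j g‖ : ℝ) : ℂ)) n
            (a⁻¹ * prodFrom159 δ (n + 1) 0 * t)).re) μ :=
          (hG.int.comp_mul_left (a⁻¹ * prodFrom159 δ (n + 1) 0)).re
        obtain ⟨M, hM⟩ := (hΦ (n + 1)).bdd
        have h2 : Measurable (fun t : H => ‖Φ (n + 1) (t⁻¹ * δ (n + 1) * b)‖) :=
          ((hΦ (n + 1)).meas.comp
            ((measurable_inv.mul measurable_const).mul measurable_const)).norm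
        refine h1.mul_bdd (c := M) h2.aestronglyMeasurable
          (Filter.Eventually.of_forall fun t => ?_)
        rw [Real.norm_eq_abs, abs_of_nonneg (norm_nonneg _)]
        exact hM _
    have hmp := measurePreserving_piFinSuccAbove (fun _ : Fin (n + 1) => μ) (Fin.last n)
    have hcomp : (fun x : Fin (n + 1) → H => chain662 Φ δ (n + 1) a x b)
        = f ∘ (MeasurableEquiv.piFinSuccAbove (fun _ : Fin (n + 1) => H) (Fin.last n)) := rfl
    constructor
    · rw [hcomp]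
      exact (hmp.integrable_comp_emb
        (MeasurableEquiv.measurableEmbedding _)).2 hfi
    · rw [hcomp]
      have h1 := hmp.integral_comp' (f := MeasurableEquiv.piFinSuccAbove
        (fun _ : Fin (n + 1) => H) (Fin.last n)) f
      rw [show (∫ x, (f ∘ (MeasurableEquiv.piFinSuccAbove (fun _ : Fin (n + 1) => H)
          (Fin.last n))) x ∂(Measure.pi fun _ : Fin (n + 1) => μ))
          = ∫ y, f y ∂(μ.prod π) from h1]
      rw [integral_prod f hfi, iterL_succ662]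
      refine integral_congr_ae (Filter.Eventually.of_forall fun t => ?_)
      show ∫ x : Fin n → H, chain662 Φ δ n a x t * Φ (n + 1) (t⁻¹ * δ (n + 1) * b) ∂π
        = iterL159 μ Φ δ n a t * Φ (n + 1) (t⁻¹ * δ (n + 1) * b)
      rw [integral_mul_const, (ih Φ hΦ a t).2]

/-- **THE SPLIT INTEGRAL** (the shape of `splitInt340`, `l = n + 1`). -/
theorem split_fubini_succ662 (Φ : ℕ → H → ℂ) (hΦ : ∀ j, IsGood662 μ (Φ j)) (δ : ℕ → H) (n : ℕ)
    (β : H → ℝ) (hβ : Measurable β)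
    (hI : Integrable (fun y : H => convL159 μ (fun j g => ((‖Φ j g‖ : ℝ) : ℂ)) n
      (y⁻¹ * prodFrom159 δ (n + 1) 0 * y) * ((β y : ℝ) : ℂ)) μ) :
    ∫ y : Fin (n + 1) → H,
        (∏ j : Fin (n + 1), Φ j.1 ((y j)⁻¹ * δ j.1 * y (cyc662 j))) * ((β (y 0) : ℝ) : ℂ)
        ∂(Measure.pi fun _ : Fin (n + 1) => μ)
      = ∫ y : H, convL159 μ Φ n (y⁻¹ * prodFrom159 δ (n + 1) 0 * y) * ((β y : ℝ) : ℂ) ∂μ := by
  have hΦn : ∀ j, IsGood662 μ (fun g => ((‖Φ j g‖ : ℝ) : ℂ)) := fun j => (hΦ j).norm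
  set π : Measure (Fin n → H) := Measure.pi fun _ : Fin n => μ with hπ
  set f : H × (Fin n → H) → ℂ :=
    fun p => chain662 Φ δ n p.1 p.2 p.1 * ((β p.1 : ℝ) : ℂ) with hf
  have hfm : Measurable f := by
    have h1 : Measurable (fun p : H × (Fin n → H) => chain662 Φ δ n p.1 p.2 p.1) :=
      (measurable_chain662 (fun j => (hΦ j).meas) δ n).comp
        (measurable_fst.prodMk (measurable_snd.prodMk measurable_fst))
    exact h1.mul (Complex.measurable_ofReal.comp (hβ.comp measurable_fst))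
  have hnorm : ∀ t : H, ((∫ x : Fin n → H, ‖chain662 Φ δ n t x t‖ ∂π : ℝ) : ℂ)
      = convL159 μ (fun j g => ((‖Φ j g‖ : ℝ) : ℂ)) n (t⁻¹ * prodFrom159 δ (n + 1) 0 * t) := by
    intro t
    have h1 := (chain_integral662 μ δ n (fun j g => ((‖Φ j g‖ : ℝ) : ℂ)) hΦn t t).2
    rw [iterL_eq159] at h1
    rw [← h1]
    have h2 : (fun x : Fin n → H => chain662 (fun j g => ((‖Φ j g‖ : ℝ) : ℂ)) δ n t x t)
        = fun x : Fin n → H => ((‖chain662 Φ δ n t x t‖ : ℝ) : ℂ) := by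
      funext x
      exact norm_chain662 Φ δ n t x t
    rw [h2, integral_complex_ofReal]
  have hfi : Integrable f (μ.prod π) := by
    rw [integrable_prod_iff hfm.aestronglyMeasurable]
    constructor
    · refine Filter.Eventually.of_forall fun t => ?_
      show Integrable (fun x : Fin n → H => chain662 Φ δ n t x t * ((β t : ℝ) : ℂ)) π
      exact (chain_integral662 μ δ n Φ hΦ t t).1.mul_const _
    · have e : (fun t : H => ∫ x : Fin n → H, ‖f (t, x)‖ ∂π)
          = fun t : H => ‖convL159 μ (fun j g => ((‖Φ j g‖ : ℝ) : ℂ)) n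
              (t⁻¹ * prodFrom159 δ (n + 1) 0 * t) * ((β t : ℝ) : ℂ)‖ := by
        funext t
        have : (fun x : Fin n → H => ‖f (t, x)‖)
            = fun x : Fin n → H => ‖chain662 Φ δ n t x t‖ * ‖((β t : ℝ) : ℂ)‖ := by
          funext x
          exact norm_mul _ _
        have hr : 0 ≤ ∫ x : Fin n → H, ‖chain662 Φ δ n t x t‖ ∂π :=
          integral_nonneg fun x => norm_nonneg _
        have e1 : ‖((∫ x : Fin n → H, ‖chain662 Φ δ n t x t‖ ∂π : ℝ) : ℂ)‖
            = ∫ x : Fin n → H, ‖chain662 Φ δ n t x t‖ ∂π := by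
          rw [Complex.norm_real, Real.norm_eq_abs, abs_of_nonneg hr]
        rw [this, integral_mul_const, norm_mul, ← hnorm t, e1]
      rw [e]
      exact hI.norm
  have hmp := measurePreserving_piFinSuccAbove (fun _ : Fin (n + 1) => μ) (0 : Fin (n + 1))
  have hcomp : (fun y : Fin (n + 1) → H =>
      (∏ j : Fin (n + 1), Φ j.1 ((y j)⁻¹ * δ j.1 * y (cyc662 j))) * ((β (y 0) : ℝ) : ℂ))
      = f ∘ (MeasurableEquiv.piFinSuccAbove (fun _ : Fin (n + 1) => H) (0 : Fin (n + 1))) := by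
    funext y
    rw [prod_cyc662]
    rfl
  rw [hcomp]
  have h1 := hmp.integral_comp' (f := MeasurableEquiv.piFinSuccAbove
    (fun _ : Fin (n + 1) => H) (0 : Fin (n + 1))) f
  rw [show (∫ x, (f ∘ (MeasurableEquiv.piFinSuccAbove (fun _ : Fin (n + 1) => H)
      (0 : Fin (n + 1)))) x ∂(Measure.pi fun _ : Fin (n + 1) => μ))
      = ∫ y, f y ∂(μ.prod π) from h1]
  rw [integral_prod f hfi]
  refine integral_congr_ae (Filter.Eventually.of_forall fun t => ?_)
  show ∫ x : Fin n → H, chain662 Φ δ n t x t * ((β t : ℝ) : ℂ) ∂π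
    = convL159 μ Φ n (t⁻¹ * prodFrom159 δ (n + 1) 0 * t) * ((β t : ℝ) : ℂ)
  rw [integral_mul_const, (chain_integral662 μ δ n Φ hΦ t t).2, iterL_eq159]

/-- **THE SPLIT INTEGRAL**, general `l > 0`. -/
theorem split_fubini662 (Φ : ℕ → H → ℂ) (hΦ : ∀ j, IsGood662 μ (Φ j)) (δ : ℕ → H) (l : ℕ)
    (hl : 0 < l) (β : H → ℝ) (hβ : Measurable β)
    (hI : Integrable (fun y : H => convL159 μ (fun j g => ((‖Φ j g‖ : ℝ) : ℂ)) (l - 1)
      (y⁻¹ * prodFrom159 δ l 0 * y) * ((β y : ℝ) : ℂ)) μ) :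
    ∫ y : Fin l → H,
        (∏ j : Fin l, Φ j.1 ((y j)⁻¹ * δ j.1 * y (cyc662 j))) * ((β (y ⟨0, hl⟩) : ℝ) : ℂ)
        ∂(Measure.pi fun _ : Fin l => μ)
      = ∫ y : H, convL159 μ Φ (l - 1) (y⁻¹ * prodFrom159 δ l 0 * y) * ((β y : ℝ) : ℂ) ∂μ := by
  obtain ⟨n, rfl⟩ : ∃ n, l = n + 1 := ⟨l - 1, by omega⟩
  exact split_fubini_succ662 μ Φ hΦ δ n β hβ hI

end Main

end Fermat.Agent.LT.T7.H662

end

end
-- ===== PACK-END LT/T7/H662/ChainFubini.lean

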