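import Mathlib
import Fermat.Agent.Pack.LT3.E5L0
import Fermat.Agent.Pack.LT2.E0L1
import Fermat.Agent.Pack.LT3.E2L0
import Fermat.Agent.Pack.LT3.E0L2
import Fermat.Agent.Pack.LT3.E5L1
import Fermat.Agent.Pack.LT3.E6L1
import Fermat.Agent.Pack.LT3.E6L3
import Fermat.Agent.Pack.LT3.E4L1
import Fermat.Agent.Pack.LT3.E4L3
import Fermat.Agent.Pack.LT3.E6L0
import Fermat.Agent.Pack.LT3.E8L2

set_option linter.all false

-- ===== PACK-BEGIN LT/T6/H555/Hilbert90Mod.lean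
section


/-!
# Row LT, tower T6, sub-leaf T6.12g.6 `Hilbert90ModC` (helper555) -- OFF-MAIN

Spec: `Fermat/Agent/LT/T6/H288/IndexSpec.lean` (helper288@01ab6bb4c), registry row 967.

`hilbert90ModC_of555 : ResFaithfulC → Hilbert90ModC`.

Elementary proof, no residue field, no completeness:

* `dedekind555` (Dedekind independence modulo the maximal ideal, elementwise): if
  `v(s^m x - x) = 1` is solvable in the integers for `0 < m < l`, then for integral coefficients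
  `a j`, `j ∈ S ⊆ [0, l)`, one of which is a unit, there is an integer `θ` with
  `v(∑ a j s^j θ) = 1`  (induction on the number of unit coefficients);
* `β = ∑_{j<l} (N_j c)⁻¹ s^j θ` satisfies `s β - c β = c ((N_l c)⁻¹ - 1) θ`.
-/

set_option autoImplicit false

noncomputable section

namespace Fermat.Agent.LT.T6.H555

open Fermat.Agent.LT.T6 Fermat.Agent.LT.T6.H288

variable {k' : Type} [Field k'] [Valued k' Γ₀]

/-- Powers of a valuation-preserving automorphism preserve the valuation. -/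
theorem val_pow555 (s : k' ≃+* k') (hs : ∀ y : k', Valued.v (s y) = Valued.v y) (j : ℕ)
    (y : k') : Valued.v ((s ^ j) y) = Valued.v y := by
  induction j with
  | zero => rw [pow_zero, RingAut.one_apply]
  | succ n ih => rw [pow_succ', RingAut.mul_apply, hs, ih]

/-- Two distinct powers of `s` (exponents `< l`) are separated modulo the maximal ideal. -/
theorem sep555 (s : k' ≃+* k') (hs : ∀ y : k', Valued.v (s y) = Valued.v y) (l : ℕ)
    (hF : ∀ m : ℕ, 0 < m → m < l → ∃ x : k', Valued.v x ≤ 1 ∧ Valued.v ((s ^ m) x - x) = 1)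
    {j₀ j₁ : ℕ} (h₀ : j₀ < l) (h₁ : j₁ < l) (hne : j₀ ≠ j₁) :
    ∃ x : k', Valued.v x ≤ 1 ∧ Valued.v ((s ^ j₁) x - (s ^ j₀) x) = 1 := by
  rcases Nat.lt_or_gt_of_ne hne with h | h
  · obtain ⟨x, hx, hx1⟩ := hF (j₁ - j₀) (Nat.sub_pos_of_lt h) (by omega)
    refine ⟨x, hx, ?_⟩
    have e : (s ^ j₁) x - (s ^ j₀) x = (s ^ j₀) ((s ^ (j₁ - j₀)) x - x) := by
      rw [map_sub, ← RingAut.mul_apply, ← pow_add, Nat.add_sub_cancel' h.le]
    rw [e, val_pow555 s hs, hx1]
  · obtain ⟨x, hx, hx1⟩ := hF (j₀ - j₁) (Nat.sub_pos_of_lt h) (by omega)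
    refine ⟨x, hx, ?_⟩
    have e : (s ^ j₁) x - (s ^ j₀) x = -((s ^ j₁) ((s ^ (j₀ - j₁)) x - x)) := by
      rw [map_sub, ← RingAut.mul_apply, ← pow_add, Nat.add_sub_cancel' h.le]
      ring
    rw [e, Valuation.map_neg, val_pow555 s hs, hx1]

/-- A product of two elements `≤ 1` of `Γ₀` which is `1` has both factors `1`. -/
theorem eq_one_of_mul_eq_one555 {x y : Γ₀} (hx : x ≤ 1) (hy : y ≤ 1) (h : x * y = 1) :
    x = 1 ∧ y = 1 := by
  have h1 : (1 : Γ₀) ≤ x := by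
    calc (1 : Γ₀) = x * y := h.symm
      _ ≤ x := mul_le_of_le_one_right' hy
  have h2 : (1 : Γ₀) ≤ y := by
    calc (1 : Γ₀) = x * y := h.symm
      _ ≤ y := mul_le_of_le_one_left' hx
  exact ⟨le_antisymm hx h1, le_antisymm hy h2⟩

/-- An integral combination of integral elements is integral. -/
theorem val_sum_le555 (s : k' ≃+* k') (hs : ∀ y : k', Valued.v (s y) = Valued.v y)
    (S : Finset ℕ) (a : ℕ → k') (ha : ∀ j ∈ S, Valued.v (a j) ≤ 1) (θ : k')
    (hθ : Valued.v θ ≤ 1) : Valued.v (∑ j ∈ S, a j * (s ^ j) θ) ≤ 1 := by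
  refine Valuation.map_sum_le _ fun j hj => ?_
  rw [Valuation.map_mul, val_pow555 s hs]
  exact mul_le_one' (ha j hj) hθ

open Classical in
/-- **Dedekind independence modulo the maximal ideal** (elementwise form). -/
theorem dedekind555 (s : k' ≃+* k') (hs : ∀ y : k', Valued.v (s y) = Valued.v y) (l : ℕ)
    (hF : ∀ m : ℕ, 0 < m → m < l → ∃ x : k', Valued.v x ≤ 1 ∧ Valued.v ((s ^ m) x - x) = 1) :
    ∀ (n : ℕ) (S : Finset ℕ) (a : ℕ → k'), (∀ j ∈ S, j < l) →
      (∀ j ∈ S, Valued.v (a j) ≤ 1) →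
      (S.filter (fun j => Valued.v (a j) = 1)).card = n → 0 < n →
      ∃ θ : k', Valued.v θ ≤ 1 ∧ Valued.v (∑ j ∈ S, a j * (s ^ j) θ) = 1 := by
  intro n
  induction n using Nat.strong_induction_on with
  | _ n ih =>
    intro S a hS ha hcard hn
    have hne : (S.filter (fun j => Valued.v (a j) = 1)).Nonempty := by
      rw [← Finset.card_pos, hcard]; exact hn
    obtain ⟨j₀, hj₀⟩ := hne
    have hj₀S : j₀ ∈ S := (Finset.mem_filter.1 hj₀).1
    have hj₀u : Valued.v (a j₀) = 1 := (Finset.mem_filter.1 hj₀).2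
    by_cases h2 : ∃ j₁ ∈ S, Valued.v (a j₁) = 1 ∧ j₁ ≠ j₀
    · obtain ⟨j₁, hj₁S, hj₁u, hj₁ne⟩ := h2
      obtain ⟨x, hx, hx1⟩ := sep555 s hs l hF (hS j₀ hj₀S) (hS j₁ hj₁S) (Ne.symm hj₁ne)
      -- the new coefficients
      set a' : ℕ → k' := fun j => a j * ((s ^ j) x - (s ^ j₀) x) with ha'def
      have hdiff : ∀ j : ℕ, Valued.v ((s ^ j) x - (s ^ j₀) x) ≤ 1 := fun j =>
        Valuation.map_sub_le _ (by rw [val_pow555 s hs]; exact hx)
          (by rw [val_pow555 s hs]; exact hx)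
      have ha' : ∀ j ∈ S, Valued.v (a' j) ≤ 1 := fun j hj => by
        rw [ha'def]
        simp only
        rw [Valuation.map_mul]
        exact mul_le_one' (ha j hj) (hdiff j)
      have hsub : S.filter (fun j => Valued.v (a' j) = 1)
          ⊆ (S.filter (fun j => Valued.v (a j) = 1)).erase j₀ := by
        intro j hj
        obtain ⟨hjS, hju⟩ := Finset.mem_filter.1 hj
        rw [ha'def] at hju
        simp only at hju
        rw [Valuation.map_mul] at hju
        have h1 := (eq_one_of_mul_eq_one555 (ha j hjS) (hdiff j) hju).1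
        refine Finset.mem_erase.2 ⟨?_, Finset.mem_filter.2 ⟨hjS, h1⟩⟩
        rintro rfl
        have h0 := (eq_one_of_mul_eq_one555 (ha j hjS) (hdiff j) hju).2
        rw [sub_self, Valuation.map_zero] at h0
        exact zero_ne_one h0
      have hlt : (S.filter (fun j => Valued.v (a' j) = 1)).card < n := by
        calc (S.filter (fun j => Valued.v (a' j) = 1)).card
            ≤ ((S.filter (fun j => Valued.v (a j) = 1)).erase j₀).card :=
              Finset.card_le_card hsub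
          _ < (S.filter (fun j => Valued.v (a j) = 1)).card :=
              Finset.card_erase_lt_of_mem hj₀
          _ = n := hcard
      have hj₁' : j₁ ∈ S.filter (fun j => Valued.v (a' j) = 1) := by
        refine Finset.mem_filter.2 ⟨hj₁S, ?_⟩
        rw [ha'def]
        simp only
        rw [Valuation.map_mul, hj₁u, hx1, mul_one]
      have hpos : 0 < (S.filter (fun j => Valued.v (a' j) = 1)).card :=
        Finset.card_pos.2 ⟨j₁, hj₁'⟩
      obtain ⟨θ', hθ', hθ'1⟩ := ih _ hlt S a' hS ha' rfl hpos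
      -- the identity
      have hid : ∑ j ∈ S, a' j * (s ^ j) θ'
          = ∑ j ∈ S, a j * (s ^ j) (x * θ') - (s ^ j₀) x * ∑ j ∈ S, a j * (s ^ j) θ' := by
        rw [Finset.mul_sum, ← Finset.sum_sub_distrib]
        refine Finset.sum_congr rfl fun j _ => ?_
        rw [ha'def]
        simp only
        rw [map_mul]
        ring
      have hA : Valued.v (∑ j ∈ S, a j * (s ^ j) (x * θ')) ≤ 1 :=
        val_sum_le555 s hs S a ha (x * θ')
          (by rw [Valuation.map_mul]; exact mul_le_one' hx hθ')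
      have hC : Valued.v (∑ j ∈ S, a j * (s ^ j) θ') ≤ 1 := val_sum_le555 s hs S a ha θ' hθ'
      have hB : Valued.v ((s ^ j₀) x) ≤ 1 := by rw [val_pow555 s hs]; exact hx
      by_cases hA1 : Valued.v (∑ j ∈ S, a j * (s ^ j) (x * θ')) = 1
      · exact ⟨x * θ', by rw [Valuation.map_mul]; exact mul_le_one' hx hθ', hA1⟩
      · have hAlt : Valued.v (∑ j ∈ S, a j * (s ^ j) (x * θ')) < 1 := lt_of_le_of_ne hA hA1
        refine ⟨θ', hθ', ?_⟩
        rw [hid] at hθ'1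
        have hBC : Valued.v ((s ^ j₀) x * ∑ j ∈ S, a j * (s ^ j) θ') = 1 := by
          by_contra hne1
          have hBCle : Valued.v ((s ^ j₀) x * ∑ j ∈ S, a j * (s ^ j) θ') ≤ 1 := by
            rw [Valuation.map_mul]; exact mul_le_one' hB hC
          have hBClt := lt_of_le_of_ne hBCle hne1
          have := Valuation.map_sub_lt (Valued.v) hAlt hBClt
          rw [hθ'1] at this
          exact lt_irrefl _ this
        rw [Valuation.map_mul] at hBC
        exact (eq_one_of_mul_eq_one555 hB hC hBC).2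
    · -- only one unit coefficient: `θ = 1`
      push Not at h2
      refine ⟨1, by rw [Valuation.map_one], ?_⟩
      have hrest : Valued.v (∑ j ∈ S.erase j₀, a j * (s ^ j) 1) < 1 := by
        refine Valuation.map_sum_lt _ one_ne_zero fun j hj => ?_
        obtain ⟨hjne, hjS⟩ := Finset.mem_erase.1 hj
        rw [map_one, mul_one]
        exact lt_of_le_of_ne (ha j hjS) fun h1 => hjne (h2 j hjS h1)
      rw [← Finset.add_sum_erase S _ hj₀S, map_one, mul_one]
      have hlt : Valued.v (∑ j ∈ S.erase j₀, a j * (s ^ j) 1) < Valued.v (a j₀) := by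
        rw [hj₀u]; exact hrest
      rw [Valuation.map_add_eq_of_lt_left _ hlt, hj₀u]

/-- The partial norms of a unit are units. -/
theorem val_fNorm555 (s : k' ≃+* k') (hs : ∀ y : k', Valued.v (s y) = Valued.v y) (c : k')
    (hc : Valued.v c = 1) (n : ℕ) : Valued.v (fNorm s n c) = 1 := by
  induction n with
  | zero => simp [fNorm]
  | succ n ih => rw [fNorm, Valuation.map_mul, hs, ih, hc, mul_one]

omit [Valued k' Γ₀] in
/-- The cocycle relation of the coefficients `(N_j c)⁻¹`. -/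
theorem coeff_step555 (s : k' ≃+* k') (c : k') (hc0 : c ≠ 0) (n : ℕ) :
    s ((fNorm s n c)⁻¹) = c * (fNorm s (n + 1) c)⁻¹ := by
  rw [fNorm, mul_inv, ← mul_assoc, mul_inv_cancel₀ hc0, one_mul, map_inv₀]

/-- **T6.12g.6 (Hilbert 90 modulo `ϖ^r`)** from residual faithfulness. -/
theorem hilbert90ModC_of555 (hRF : ResFaithfulC) : Hilbert90ModC := by
  intro k k' _ _ _ _ q l i s hk hk' hext c r hc hN
  have hs : ∀ y : k', Valued.v (s y) = Valued.v y := hext.val_s
  have hF : ∀ m : ℕ, 0 < m → m < l →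
      ∃ x : k', Valued.v x ≤ 1 ∧ Valued.v ((s ^ m) x - x) = 1 :=
    fun m hm hml => hRF k k' q l i s hk hk' hext m hm hml
  have hc0 : c ≠ 0 := by
    intro h0
    rw [h0, Valuation.map_zero] at hc
    exact zero_ne_one hc
  have hl : 0 < l := hext.cyc.pos
  classical
  -- the coefficients
  set a : ℕ → k' := fun j => (fNorm s j c)⁻¹ with hadef
  have hau : ∀ j : ℕ, Valued.v (a j) = 1 := fun j => by
    rw [hadef]
    simp only
    rw [map_inv₀, val_fNorm555 s hs c hc, inv_one]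
  have hfilter : (Finset.range l).filter (fun j => Valued.v (a j) = 1) = Finset.range l :=
    Finset.filter_true_of_mem fun j _ => hau j
  obtain ⟨θ, hθ, hβ⟩ := dedekind555 s hs l hF l (Finset.range l) a
    (fun j hj => Finset.mem_range.1 hj) (fun j _ => (hau j).le)
    (by rw [hfilter, Finset.card_range]) hl
  refine ⟨∑ j ∈ Finset.range l, a j * (s ^ j) θ, hβ, ?_⟩
  -- `s β = c (β + (a l - 1) θ)`
  have hsβ : s (∑ j ∈ Finset.range l, a j * (s ^ j) θ)
      = c * ∑ j ∈ Finset.range l, a (j + 1) * (s ^ (j + 1)) θ := by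
    rw [map_sum, Finset.mul_sum]
    refine Finset.sum_congr rfl fun j _ => ?_
    rw [map_mul, hadef]
    simp only
    rw [coeff_step555 s c hc0 j, pow_succ', RingAut.mul_apply]
    ring
  have hshift : ∑ j ∈ Finset.range l, a (j + 1) * (s ^ (j + 1)) θ
      = ∑ j ∈ Finset.range l, a j * (s ^ j) θ + a l * θ - θ := by
    have h1 := Finset.sum_range_succ' (fun j => a j * (s ^ j) θ) l
    have h2 := Finset.sum_range_succ (fun j => a j * (s ^ j) θ) l
    have h0 : a 0 * (s ^ 0) θ = θ := by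
      rw [hadef]
      simp [fNorm]
    have hl' : (s ^ l) θ = θ := hext.cyc.order θ
    rw [h2, hl'] at h1
    rw [h0] at h1
    rw [h1]
    ring
  have hkey : s (∑ j ∈ Finset.range l, a j * (s ^ j) θ)
      - c * ∑ j ∈ Finset.range l, a j * (s ^ j) θ = c * ((a l - 1) * θ) := by
    rw [hsβ, hshift]
    ring
  rw [hkey, Valuation.map_mul, Valuation.map_mul, hc, one_mul]
  have hal : Valued.v (a l - 1) ≤ WithZero.exp (-(r : ℤ)) := by
    have hNu : Valued.v (fNorm s l c) = 1 := val_fNorm555 s hs c hc l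
    have hN0 : fNorm s l c ≠ 0 := by
      intro h0
      rw [h0, Valuation.map_zero] at hNu
      exact zero_ne_one hNu
    have e : a l - 1 = -((fNorm s l c - 1) * (fNorm s l c)⁻¹) := by
      rw [hadef]
      simp only
      field_simp
      ring
    rw [e, Valuation.map_neg, Valuation.map_mul, map_inv₀, hNu, inv_one, mul_one]
    exact hN
  calc Valued.v (a l - 1) * Valued.v θ ≤ Valued.v (a l - 1) := mul_le_of_le_one_right' hθ
    _ ≤ WithZero.exp (-(r : ℤ)) := hal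

end Fermat.Agent.LT.T6.H555

end

end
-- ===== PACK-END LT/T6/H555/Hilbert90Mod.lean

-- ===== PACK-BEGIN LT/T6/H634/EllCut.lean
section






/-!
# Row LT, tower T6, leaf T6.20e (`EllMatchC626`): THE CUT, level 1 (helper634, registry 1481)

OFF-MAIN.  Vocabulary: `LT/T6/Spec.lean` v3 (sha256 8c5f2ae7), `LT/T6/SpecArch.lean` (003240b2)
of helper22, `LT/T6/H626/ArchCut.lean` (fac998d4) of helper626, `LT/T6/H189/ArchIntSpec.lean`
(4ac6c090) of helper189: byte-identical copies.  Definitions, Props and PROVED tops only;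
nothing is assumed.

## The explicit matching constant

For Haar measures `μ` of `GL₂(ℝ)`, `μ'` of `GL₂(ℂ)` let `c_I`, `c_I'` be the constants of the
Iwasawa formulas of `H189` (`μ|_{det>0} = c_I (iwaR)_* (du₁ du₂ dx dθ)`,
`μ' = c_I' (iwaC)_* (du₁ du₂ dw dκ)`, `κ` the Haar PROBABILITY measure of `U(2)`).  They are read
off from the measures of the Iwasawa unit boxes: `μ (boxR634) = 2π c_I`, `μ' (boxC634) = π c_I'`.

    cStar634 μ μ' := μ'(boxC634) / (4π μ(boxR634))  =  c_I' / (8π c_I).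

WHY THIS IS THE CONSTANT (normalisations of `H626.IsAbelRel626`, `SpecArch.IsArchMatch`).
Hyperbolic `γ = diag(a, b)`, `a, b > 0`, `δ = diag(√a, √b)`, `T` = all diagonal matrices,
`μT = λ · (du₁ du₂ ⊗ counting measure on the four sign components)`:
* `O_γ(f) = (π c_I / λ) |1 - b/a|⁻¹ ∫_ℝ f(γ n(x)) dx` for `f` of weight `0, ±1`
  (Iwasawa on `det > 0`, left translation by `diag(-1,1)` for `det < 0`,
  `∫₀^{2π} B(n k_θ) dθ = π/λ` because `B(y) + B(-y) = 1/λ`, `-1 = k_π`);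
* `TO_δ(φ) = (c_I' / (4 λ)) |1 - b/a|⁻¹ ∫_ℂ φ(δ n(w)) dw`
  (`n(-w) δ n(w̄) = δ n(w̄ - √(b/a) w)`, real Jacobian `|1 - b/a|`; the four sign matrices lie in
  `U(2)` and `w ↦ φ(δ n(w))` is even).
With `F_{f₀} = F_{f₁} = c F_φ ∘ √` (`IsAbelRel626 c`): `O_γ(f₀ + f₁) = TO_δ(φ)` iff
`2π c c_I = c_I' / 4`.
Elliptic `γ = e^{r} k_θ`, `δ = e^{r/2} k_{θ/2}`, `T = {e^{r'} k_α}`, `μT = λ · dr' dα`
(`α ∈ (0, 2π]`), polar constants `c_P`, `c_P'` of `H189.PolarRC`, `H189.PolarCC`: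
* `O_γ(f₀ + f₁) = (4π c_P / λ) (ellDown g₀ θ + √2 cos θ · ellDown G₁ θ)`, `G₁ = g₁ / √(ρ + 1)`
  (profiles at `det = e^{2r}`; the component `det x < 0` contributes the integral at `k_{-θ}`);
* `TO_δ(φ) = (c_P' / (4π λ)) ellUp Φ θ` (Fermi coordinates `x = t a_τ a_b u`,
  `dμ' = (c_P'/4π) dr' dα · 2 cosh²(2b) sinh τ db dτ dκ(u)`, `β = 2b`);
* `c_P = c_I`, `c_P' = 4π c_I'` (the two-variable calculus `AbelArea` of `H189`);
* `H781.ArchEllIdC` with `κ = 2π c`:
  `ellDown g₀ θ + √2 cos θ ellDown G₁ θ = 2 c · ellUp Φ θ`.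
So `O_γ(f₀ + f₁) = TO_δ(φ)` iff `8π c c_P = c_P' / (4π)`, the SAME condition `c = c_I'/(8π c_I)`.

## Level 1

    EllMatchC626  ⇐  HypValueC634 + EllValueC634                 (`ellMatchC626_of634`, PROVED)
    GeoMatchC626  ⇐  HypExplC634  + EllValueC634                 (`geoMatch_of_expl634`, PROVED)

* `HypValueC634` : every matching constant `c > 0` on `{disc > 0}` is `cStar634 μ μ'`
  (one witness `γ, δ, μT, β, β', φ` with `TO_δ(φ) ≠ 0`, `AbelExistC626`, and the two hyperbolic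
  formulas above);
* `EllValueC634` : `cStar634 μ μ'` is a matching constant on `{disc < 0}` (level 2:
  `EllCut2.lean`);
* `HypExplC634`  : `cStar634 μ μ' > 0` is a matching constant on `{disc > 0}` (= `HypMatchC626`
  with its constant made explicit; offered to the owner of T6.20d: with it `GeoMatchC626` needs
  neither the uniqueness of the constant nor `AbelExistC626`).
-/

set_option autoImplicit false

open scoped Matrix
open MeasureTheory

noncomputable section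

namespace Fermat.Agent.LT.T6.H634

open Fermat.Agent.LT.T6 Fermat.Agent.LT.T6.H626 Fermat.Agent.LT.T6.H189

/-- The Iwasawa unit box of `GL₂(ℝ)⁺`: `diag(e^{u₁}, e^{u₂}) n(x) k_θ` with `u₁, u₂, x ∈ [0, 1]`,
`θ ∈ (0, 2π]`.  For a Haar measure with Iwasawa constant `c_I`: `μ (boxR634) = 2π c_I`. -/
def boxR634 : Set (GL (Fin 2) ℝ) :=
  iwaR '' (Set.Icc (0 : ℝ) 1 ×ˢ Set.Icc (0 : ℝ) 1 ×ˢ Set.Icc (0 : ℝ) 1 ×ˢ
    Set.Ioc (0 : ℝ) (2 * Real.pi))

/-- The Iwasawa unit box of `GL₂(ℂ)`: `diag(e^{u₁}, e^{u₂}) n(w) k` with `u₁, u₂ ∈ [0, 1]`,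
`|w| ≤ 1`, `k ∈ U(2)`.  For a Haar measure with Iwasawa constant `c_I'`: `μ' (boxC634) = π c_I'`. -/
def boxC634 : Set (GL (Fin 2) ℂ) :=
  iwaC '' (Set.Icc (0 : ℝ) 1 ×ˢ Set.Icc (0 : ℝ) 1 ×ˢ Metric.closedBall (0 : ℂ) 1 ×ˢ U2)

/-- **THE matching constant** of the Haar measures `μ`, `μ'`:
`μ'(boxC634) / (4π μ(boxR634)) = c_I' / (8π c_I)`. -/
def cStar634 (μ : @Measure (GL (Fin 2) ℝ) (borel _)) (μ' : @Measure (GL (Fin 2) ℂ) (borel _)) :
    ℝ :=
  (μ' boxC634).toReal / (4 * Real.pi * (μ boxR634).toReal)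

/-- **T6.20e.1 (value of the hyperbolic matching constant).**  Every matching constant `c > 0`
on `{disc > 0}` is `cStar634 μ μ'`.  (`AbelExistC626` is a hypothesis: it provides `f₀`, `f₁` for
one test function `φ ≥ 0`, `φ ≠ 0`.) -/
def HypValueC634 : Prop :=
  AbelExistC626 →
  ∀ (μ : @Measure (GL (Fin 2) ℝ) (borel _)) (μ' : @Measure (GL (Fin 2) ℂ) (borel _)),
    @Measure.IsHaarMeasure _ _ _ (borel _) μ → @Measure.IsHaarMeasure _ _ _ (borel _) μ' →
    ∀ c : ℝ, 0 < c → IsMatchConstOn626 (fun γ => 0 < disc γ) μ μ' c → c = cStar634 μ μ'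

/-- **T6.20e.2 (the elliptic matching with the explicit constant).**  `cStar634 μ μ'` is a
matching constant on `{disc < 0}`. -/
def EllValueC634 : Prop :=
  ∀ (μ : @Measure (GL (Fin 2) ℝ) (borel _)) (μ' : @Measure (GL (Fin 2) ℂ) (borel _)),
    @Measure.IsHaarMeasure _ _ _ (borel _) μ → @Measure.IsHaarMeasure _ _ _ (borel _) μ' →
    IsMatchConstOn626 (fun γ => disc γ < 0) μ μ' (cStar634 μ μ')

/-- **T6.20d' (the hyperbolic matching with the explicit constant)**: `cStar634 μ μ'` is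
positive and is a matching constant on `{disc > 0}`. -/
def HypExplC634 : Prop :=
  ∀ (μ : @Measure (GL (Fin 2) ℝ) (borel _)) (μ' : @Measure (GL (Fin 2) ℂ) (borel _)),
    @Measure.IsHaarMeasure _ _ _ (borel _) μ → @Measure.IsHaarMeasure _ _ _ (borel _) μ' →
    0 < cStar634 μ μ' ∧ IsMatchConstOn626 (fun γ => 0 < disc γ) μ μ' (cStar634 μ μ')

/-- **TOP of T6.20e, level 1**: `EllMatchC626` (VERBATIM) from the two parts. -/
theorem ellMatchC626_of634 (hV : HypValueC634) (hE : EllValueC634) : EllMatchC626 := by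
  intro hA μ μ' hμ hμ' c hc hM
  have hcs : c = cStar634 μ μ' := hV hA μ μ' hμ hμ' c hc hM
  rw [hcs]
  exact hE μ μ' hμ hμ'

/-- `HypMatchC626` (VERBATIM) from its explicit form. -/
theorem hypMatchC626_of_expl634 (hH : HypExplC634) : HypMatchC626 :=
  fun μ μ' hμ hμ' => ⟨cStar634 μ μ', (hH μ μ' hμ hμ').1, (hH μ μ' hμ hμ').2⟩

/-- **`GeoMatchC626` (VERBATIM) from the two explicit parts**: no uniqueness of the constant
and no `AbelExistC626` is needed on this route. -/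
theorem geoMatch_of_expl634 (hH : HypExplC634) (hE : EllValueC634) : GeoMatchC626 := by
  intro μ μ' hμ hμ'
  obtain ⟨hpos, hM⟩ := hH μ μ' hμ hμ'
  have hM' := hE μ μ' hμ hμ'
  refine ⟨cStar634 μ μ', hpos, fun n hn φ f₀ f₁ hφ hf₀ hf₁ hA => ?_⟩
  exact (isArchMatch_iff_on626 μ μ' φ _).1
    (isArchMatch_of_hyp_ell626 μ μ' φ _ (hM n hn φ f₀ f₁ hφ hf₀ hf₁ hA)
      (hM' n hn φ f₀ f₁ hφ hf₀ hf₁ hA))

/-- **TOP of the station T6.20 on the explicit route.** -/
theorem archMatchC_of_expl634 (hA : AbelExistC626) (hH : HypExplC634) (hE : EllValueC634)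
    (hS : SpecRelC626) : ArchMatchC :=
  archMatchC_of_cut626 hA (geoMatch_of_expl634 hH hE) hS

end Fermat.Agent.LT.T6.H634

end

end
-- ===== PACK-END LT/T6/H634/EllCut.lean

-- ===== PACK-BEGIN LT/T6/H559/EllCore.lean
section


/-!
# Row LT, tower T6, leaf T6.28 (ArchEllId) — THE ELLIPTIC IDENTITY (helper559, OFF-MAIN)

`Φ` = profile of `φ` (`φ = Φ ∘ ρ_ℂ`), continuous, zero beyond `R`; `Ψ(X) = ∫_X^∞ Φ`.
Profiles downstairs, WRITTEN OUT (`X_v = √((ρ+1+v²)/2)`):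

* `g0_559 Φ ρ = ∫_ℝ Φ(X_v)/X_v dv`                         (weight `0`),
* `G1_559 Φ ρ = (1/√2) ∫_ℝ [Φ(X_v)/X_v² + Ψ(X_v)/X_v³] dv`  (weight `±1`, `G₁ = g₁/√(ρ+1)`).

(They are the Abel inverses of `4π Ψ(√((r+1)/2))` and of `4π Ψ(√((r+1)/2)) / √(r+1)`.)

## Main results

* `ellI0_eq559`  : `∫_0^∞ g₀(1 + 2 sin²θ sinh²τ) sinh τ dτ = ∫_ℝ √2 cosh x Ψ(cosh x)/(cosh²x - cos²θ) dx`
* `ellI1_eq559`  : `∫_0^∞ G₁(1 + 2 sin²θ sinh²τ) sinh τ dτ = ∫_ℝ Ψ(cosh x)/(cosh²x - cos²θ) dx`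
* `ellUp_eq559`  : the `(b, τ)`-integral upstairs `= ∫_ℝ Ψ(cosh x)/(4 (cosh x - cos θ)) dx`
* `ell_identity559` : `I₀ + √2 cos θ · I₁ = 4 √2 · U`   (for `sin θ ≠ 0`).
-/

set_option autoImplicit false

open MeasureTheory Set Real Filter Topology

noncomputable section

namespace Fermat.Agent.LT.T6.H559

/-- Weight `0` profile downstairs. -/
def g0_559 (Φ : ℝ → ℂ) (ρ : ℝ) : ℂ := ∫ v : ℝ, Φ (xv559 ρ v) / (xv559 ρ v : ℂ)

/-- Weight `±1` profile downstairs (`G₁ = g₁ / √(ρ + 1)`). -/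
def G1_559 (Φ : ℝ → ℂ) (ρ : ℝ) : ℂ :=
  (1 / (Real.sqrt 2 : ℂ)) * ∫ v : ℝ, (Φ (xv559 ρ v) / (xv559 ρ v : ℂ) ^ 2
    + tail559 Φ (xv559 ρ v) / (xv559 ρ v : ℂ) ^ 3)

/-- `∫_0^∞ g₀(1 + 2 sin²θ sinh²τ) sinh τ dτ`. -/
def ellI0_559 (Φ : ℝ → ℂ) (θ : ℝ) : ℂ :=
  ∫ τ in Ioi (0 : ℝ), g0_559 Φ (1 + 2 * sin θ ^ 2 * sinh τ ^ 2) * (sinh τ : ℂ)

/-- `∫_0^∞ G₁(1 + 2 sin²θ sinh²τ) sinh τ dτ`. -/
def ellI1_559 (Φ : ℝ → ℂ) (θ : ℝ) : ℂ :=
  ∫ τ in Ioi (0 : ℝ), G1_559 Φ (1 + 2 * sin θ ^ 2 * sinh τ ^ 2) * (sinh τ : ℂ)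

/-- The auxiliary profile `V₁(X) = Φ(X)/X + Ψ(X)/X²` (with `X` replaced by `max X 1`, which
changes nothing on `X ≥ 1`). -/
def v1_559 (Φ : ℝ → ℂ) (X : ℝ) : ℂ :=
  Φ X / ((max X 1 : ℝ) : ℂ) + tail559 Φ X / ((max X 1 : ℝ) : ℂ) ^ 2

theorem v1_profile559 {Φ : ℝ → ℂ} {R : ℝ} (hΦ : IsProfile559 Φ R) : IsProfile559 (v1_559 Φ) R := by
  constructor
  · unfold v1_559
    have hmax : Continuous fun X : ℝ => ((max X 1 : ℝ) : ℂ) :=
      Complex.continuous_ofReal.comp (continuous_id.max continuous_const)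
    have hne : ∀ X : ℝ, ((max X 1 : ℝ) : ℂ) ≠ 0 := by
      intro X
      have : (0 : ℝ) < max X 1 := lt_of_lt_of_le one_pos (le_max_right _ _)
      exact_mod_cast this.ne'
    apply Continuous.add
    · exact hΦ.cont.div hmax hne
    · exact hΦ.tail_continuous.div (hmax.pow 2) (fun X => pow_ne_zero 2 (hne X))
  · intro x hx
    simp [v1_559, hΦ.zero x hx, hΦ.tail_zero hx]

theorem v1_eq559 (Φ : ℝ → ℂ) {X : ℝ} (hX : 1 ≤ X) :
    v1_559 Φ X = Φ X / (X : ℂ) + tail559 Φ X / (X : ℂ) ^ 2 := by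
  unfold v1_559
  rw [max_eq_left hX]

theorem xv_ge_one559 {ρ : ℝ} (hρ : 1 ≤ ρ) (v : ℝ) : 1 ≤ xv559 ρ v := by
  unfold xv559
  rw [show (1 : ℝ) = Real.sqrt 1 by simp]
  apply Real.sqrt_le_sqrt
  nlinarith [sq_nonneg v]

theorem G1_eq_gOf559 (Φ : ℝ → ℂ) {ρ : ℝ} (hρ : 1 ≤ ρ) :
    G1_559 Φ ρ = (1 / (Real.sqrt 2 : ℂ)) * gOf559 (v1_559 Φ) ρ := by
  unfold G1_559 gOf559
  congr 1
  apply integral_congr_ae
  filter_upwards with v
  have h1 := xv_ge_one559 hρ v
  have hne : (xv559 ρ v : ℂ) ≠ 0 := by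
    have : (0 : ℝ) < xv559 ρ v := lt_of_lt_of_le one_pos h1
    exact_mod_cast this.ne'
  rw [v1_eq559 Φ h1]
  field_simp

/-- The tail of `V₁`: `∫_c^∞ (Φ/X + Ψ/X²) = Ψ(c)/c` for `c ≥ 1`. -/
theorem tail_v1_559 {Φ : ℝ → ℂ} {R : ℝ} (hΦ : IsProfile559 Φ R) {c : ℝ} (hc : 1 ≤ c) :
    tail559 (v1_559 Φ) c = tail559 Φ c / (c : ℂ) := by
  have hV := v1_profile559 hΦ
  have hderiv : ∀ x ∈ Ici c, HasDerivAt (fun X : ℝ => -(tail559 Φ X / (X : ℂ)))
      (v1_559 Φ x) x := by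
    intro x hx
    have hx1 : (1 : ℝ) ≤ x := le_trans hc hx
    have hx0 : (x : ℂ) ≠ 0 := by
      have : (0 : ℝ) < x := lt_of_lt_of_le one_pos hx1
      exact_mod_cast this.ne'
    have h1 := hΦ.tail_hasDerivAt x
    have h2 : HasDerivAt (fun X : ℝ => (X : ℂ)) 1 x := by
      simpa using (hasDerivAt_id x).ofReal_comp
    have h3 : HasDerivAt (fun X : ℝ => -(tail559 Φ X / (X : ℂ)))
        (-((-Φ x * (x : ℂ) - tail559 Φ x * 1) / (x : ℂ) ^ 2)) x := (h1.div h2 hx0).neg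
    have e : -((-Φ x * (x : ℂ) - tail559 Φ x * 1) / (x : ℂ) ^ 2)
        = Φ x / (x : ℂ) + tail559 Φ x / (x : ℂ) ^ 2 := by
      field_simp
      ring
    rw [v1_eq559 Φ hx1, ← e]
    exact h3
  have hlim : Tendsto (fun X : ℝ => -(tail559 Φ X / (X : ℂ))) atTop (𝓝 0) := by
    apply tendsto_const_nhds.congr'
    filter_upwards [eventually_ge_atTop R] with X hX
    simp [hΦ.tail_zero hX]
  have key := integral_Ioi_of_hasDerivAt_of_tendsto' hderiv (hV.integrableOn_Ioi c) hlim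
  unfold tail559 at key ⊢
  rw [key]
  simp

theorem ellI0_eq559 {Φ : ℝ → ℂ} {R : ℝ} (hΦ : IsProfile559 Φ R) (θ : ℝ) (hθ : sin θ ≠ 0) :
    ellI0_559 Φ θ
      = ∫ x : ℝ, ((Real.sqrt 2 * cosh x / (cosh x ^ 2 - cos θ ^ 2) : ℝ) : ℂ)
          * tail559 Φ (cosh x) :=
  ellDown_eq559 hΦ θ hθ

theorem ellI1_eq559 {Φ : ℝ → ℂ} {R : ℝ} (hΦ : IsProfile559 Φ R) (θ : ℝ) (hθ : sin θ ≠ 0) :
    ellI1_559 Φ θ
      = ∫ x : ℝ, ((1 / (cosh x ^ 2 - cos θ ^ 2) : ℝ) : ℂ) * tail559 Φ (cosh x) := by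
  have h1 : ellI1_559 Φ θ = (1 / (Real.sqrt 2 : ℂ)) * ellDown559 (v1_559 Φ) θ := by
    unfold ellI1_559 ellDown559
    rw [← integral_const_mul]
    apply setIntegral_congr_fun measurableSet_Ioi
    intro τ _
    have hρ : (1 : ℝ) ≤ 1 + 2 * sin θ ^ 2 * sinh τ ^ 2 := by
      have := mul_nonneg (mul_nonneg zero_le_two (sq_nonneg (sin θ))) (sq_nonneg (sinh τ))
      linarith
    beta_reduce
    rw [G1_eq_gOf559 Φ hρ]
    ring
  rw [h1, ellDown_eq559 (v1_profile559 hΦ) θ hθ, ← integral_const_mul]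
  apply integral_congr_ae
  filter_upwards with x
  have hc : (1 : ℝ) ≤ cosh x := one_le_cosh x
  have ha : 0 < cosh x ^ 2 - cos θ ^ 2 := apos559 θ x hθ
  rw [tail_v1_559 hΦ hc]
  have h2 : (Real.sqrt 2 : ℂ) ≠ 0 := by
    have : (0 : ℝ) < Real.sqrt 2 := by positivity
    exact_mod_cast this.ne'
  have hc' : ((cosh x : ℝ) : ℂ) ≠ 0 := by exact_mod_cast (cosh_pos x).ne'
  have ha' : ((cosh x ^ 2 - cos θ ^ 2 : ℝ) : ℂ) ≠ 0 := by exact_mod_cast ha.ne'
  push_cast at hc' ha' ⊢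
  field_simp

/-- A continuous kernel times `Ψ ∘ cosh` is integrable on `ℝ`. -/
theorem integrable_kernel559 {Φ : ℝ → ℂ} {R : ℝ} (hΦ : IsProfile559 Φ R) {κ : ℝ → ℝ}
    (hκ : Continuous κ) :
    Integrable (fun x : ℝ => ((κ x : ℝ) : ℂ) * tail559 Φ (cosh x)) := by
  apply Continuous.integrable_of_hasCompactSupport
  · exact (Complex.continuous_ofReal.comp hκ).mul (hΦ.tail_continuous.comp continuous_cosh)
  · apply HasCompactSupport.of_support_subset_isCompact (isCompact_Icc (a := -|R|) (b := |R|))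
    intro x hx
    rw [Function.mem_support] at hx
    by_contra hmem
    apply hx
    have hbig : R ≤ cosh x := by
      have h1 := abs_lt_cosh559 x
      have h2 : |R| < |x| := by
        by_contra h
        rw [not_lt] at h
        exact hmem ⟨(abs_le.1 h).1, (abs_le.1 h).2⟩
      have := le_abs_self R
      linarith
    rw [hΦ.tail_zero hbig, mul_zero]

/-- **THE ELLIPTIC IDENTITY** (archimedean matching `ℂ/ℝ` on the elliptic set):
`I₀(θ) + √2 cos θ · I₁(θ) = 4 √2 · U(θ)` for `sin θ ≠ 0`. -/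
theorem ell_identity559 {Φ : ℝ → ℂ} {R : ℝ} (hΦ : IsProfile559 Φ R) (θ : ℝ) (hθ : sin θ ≠ 0) :
    ellI0_559 Φ θ + ((Real.sqrt 2 * cos θ : ℝ) : ℂ) * ellI1_559 Φ θ
      = ((4 * Real.sqrt 2 : ℝ) : ℂ) * ellUp559 Φ θ := by
  have hs : sin (θ / 2) ≠ 0 := by
    intro h0
    apply hθ
    have := sin_two_mul (θ / 2)
    rw [show 2 * (θ / 2) = θ by ring] at this
    rw [this, h0]
    ring
  have hapos : ∀ x : ℝ, 0 < cosh x ^ 2 - cos θ ^ 2 := fun x => apos559 θ x hθ
  have hbpos : ∀ x : ℝ, 0 < cosh x - cos θ := fun x =>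
    lt_of_lt_of_le (by positivity) (cosh_sub_cos_ge559 θ x)
  rw [ellI0_eq559 hΦ θ hθ, ellI1_eq559 hΦ θ hθ, ellUp_eq559 hΦ θ hs,
    ← integral_const_mul, ← integral_const_mul, ← integral_add]
  · apply integral_congr_ae
    filter_upwards with x
    have ha' : ((cosh x ^ 2 - cos θ ^ 2 : ℝ) : ℂ) ≠ 0 := by exact_mod_cast (hapos x).ne'
    have hb' : ((cosh x - cos θ : ℝ) : ℂ) ≠ 0 := by exact_mod_cast (hbpos x).ne'
    have hfac : ((cosh x ^ 2 - cos θ ^ 2 : ℝ) : ℂ)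
        = ((cosh x - cos θ : ℝ) : ℂ) * ((cosh x + cos θ : ℝ) : ℂ) := by
      push_cast
      ring
    have hc' : ((cosh x + cos θ : ℝ) : ℂ) ≠ 0 := by
      intro h
      rw [hfac, h, mul_zero] at ha'
      exact ha' rfl
    rw [Complex.ofReal_div, Complex.ofReal_div, Complex.ofReal_div, hfac]
    push_cast at hb' hc' ⊢
    field_simp
  · apply integrable_kernel559 hΦ
    exact (by fun_prop : Continuous fun x : ℝ => Real.sqrt 2 * cosh x).div
      (by fun_prop) (fun x => (hapos x).ne')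
  · have := integrable_kernel559 hΦ
      (κ := fun x => Real.sqrt 2 * cos θ * (1 / (cosh x ^ 2 - cos θ ^ 2)))
      ((continuous_const).mul ((continuous_const).div (by fun_prop) (fun x => (hapos x).ne')))
    refine this.congr ?_
    filter_upwards with x
    push_cast
    ring

end Fermat.Agent.LT.T6.H559

end
end
-- ===== PACK-END LT/T6/H559/EllCore.lean

-- ===== PACK-BEGIN LT/T6/H441/PolOfC.lean
section


/-!
# Row LT, tower T6, leaf T6.23.15 `PolOfCC` (helper441): the polar formula on `GL₂(ℂ)`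

OFF-MAIN.  `polOfCC441 : H189.PolOfCC`, VERBATIM against `LT/T6/H189/ArchIntCut.lean`
(helper189@45580d1ec, sha256 db591abe06d241ac; `ArchIntSpec.lean` 4ac6c0909efd5385).

Route (header of `ArchIntCut.lean`): for `F ≥ 0` measurable, `F̃ g = ∫∫ F (k₁ g k₂) dκ dκ`;
`∫ F dμ = ∫ F̃ dμ` (Tonelli, bi-invariance of `μ`); `F̃ g = Φ (log |det g| / 2, arcosh ρ(g))`
(Cartan, invariance of `κ`), `Φ (r, t) = ∫∫ F (e^r k₁ a_t k₂)`; Iwasawa formula;
`(u₁, u₂) ↦ ((u₁ + u₂)/2, u₁ - u₂)` preserves the Lebesgue measure; `AbelAreaCC`.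
-/

set_option autoImplicit false

open MeasureTheory
open scoped Matrix ENNReal

noncomputable section

namespace Fermat.Agent.LT.T6.H441

open Fermat.Agent.LT.T6.H189

local notation "GC" => GL (Fin 2) ℂ

attribute [local instance] secondCountable_GC441 sfinite_radMC441

/-- The Borel σ-algebra of `GL₂(ℂ)` (local instance of this file). -/
local instance borelGC441 : MeasurableSpace GC := borel GC

local instance borelSpaceGC441 : BorelSpace GC := ⟨rfl⟩

/-! ## The two averages -/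

/-- `F̃ g = ∫∫ F (k₁ g k₂) dκ(k₂) dκ(k₁)`. -/
def avg441 (κ : Measure GC) (F : GC → ℝ≥0∞) (g : GC) : ℝ≥0∞ :=
  ∫⁻ k₁, ∫⁻ k₂, F (k₁ * g * k₂) ∂κ ∂κ

/-- `Φ (r, t) = ∫∫ F (e^r k₁ a_t k₂) dκ(k₂) dκ(k₁)`. -/
def sph441 (κ : Measure GC) (F : GC → ℝ≥0∞) (r t : ℝ) : ℝ≥0∞ :=
  ∫⁻ k₁, ∫⁻ k₂, F (sclC r * k₁ * atC t * k₂) ∂κ ∂κ

section Meas

variable {κ : Measure GC} [SFinite κ] {F : GC → ℝ≥0∞}

theorem measurable_avg441 (hF : Measurable F) : Measurable (avg441 κ F) := by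
  have h1 : Measurable fun p : (GC × GC) × GC => F (p.1.2 * p.1.1 * p.2) :=
    hF.comp (((continuous_snd.comp continuous_fst).mul
      (continuous_fst.comp continuous_fst)).mul continuous_snd).measurable
  have h2 : Measurable fun p : GC × GC => ∫⁻ k₂, F (p.2 * p.1 * k₂) ∂κ :=
    h1.lintegral_prod_right'
  exact h2.lintegral_prod_right'

theorem measurable_sph441 (hF : Measurable F) :
    Measurable fun p : ℝ × ℝ => sph441 κ F p.1 p.2 := by
  have h1 : Measurable fun p : ((ℝ × ℝ) × GC) × GC =>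
      F (sclC p.1.1.1 * p.1.2 * atC p.1.1.2 * p.2) :=
    hF.comp ((((continuous_sclC441.comp (continuous_fst.comp (continuous_fst.comp
      continuous_fst))).mul (continuous_snd.comp continuous_fst)).mul
      (continuous_atC441.comp (continuous_snd.comp (continuous_fst.comp continuous_fst)))).mul
      continuous_snd).measurable
  have h2 : Measurable fun p : (ℝ × ℝ) × GC =>
      ∫⁻ k₂, F (sclC p.1.1 * p.2 * atC p.1.2 * k₂) ∂κ :=
    h1.lintegral_prod_right'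
  exact h2.lintegral_prod_right'

end Meas

/-! ## Invariance of `κ` -/

theorem lintegral_U2_left441 {κ : Measure GC} (hκ : IsU2Haar κ) {k : GC} (hk : k ∈ U2)
    (H : GC → ℝ≥0∞) : ∫⁻ x, H (k * x) ∂κ = ∫⁻ x, H x ∂κ := by
  have h := lintegral_map_equiv (μ := κ) H (MeasurableEquiv.mulLeft k)
  have h' : Measure.map (⇑(MeasurableEquiv.mulLeft k)) κ = κ := hκ.left k hk
  rw [h'] at h
  exact h.symm

theorem lintegral_U2_right441 {κ : Measure GC} (hκ : IsU2Haar κ) {k : GC} (hk : k ∈ U2)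
    (H : GC → ℝ≥0∞) : ∫⁻ x, H (x * k) ∂κ = ∫⁻ x, H x ∂κ := by
  have h := lintegral_map_equiv (μ := κ) H (MeasurableEquiv.mulRight k)
  have h' : Measure.map (⇑(MeasurableEquiv.mulRight k)) κ = κ := hκ.right k hk
  rw [h'] at h
  exact h.symm

theorem ae_mem_U2_441 {κ : Measure GC} (hκ : IsU2Haar κ) : ∀ᵐ k ∂κ, k ∈ U2 := by
  rw [ae_iff]
  exact hκ.supp

/-- `F̃` is right invariant under `U(2)`. -/
theorem avg_mul_right441 {κ : Measure GC} (hκ : IsU2Haar κ) (F : GC → ℝ≥0∞) (g : GC) {k : GC}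
    (hk : k ∈ U2) : avg441 κ F (g * k) = avg441 κ F g := by
  unfold avg441
  refine lintegral_congr fun k₁ => ?_
  have h := lintegral_U2_left441 hκ hk (fun x => F (k₁ * g * x))
  rw [← h]
  refine lintegral_congr fun k₂ => ?_
  simp only [mul_assoc]

/-- `F̃ g = Φ (log |det g| / 2, arcosh ρ(g))`. -/
theorem avg_eq_sph441 (hC : CartanCC) {κ : Measure GC} (hκ : IsU2Haar κ) (F : GC → ℝ≥0∞)
    (g : GC) :
    avg441 κ F g = sph441 κ F (Real.log ‖(g : Matrix (Fin 2) (Fin 2) ℂ).det‖ / 2)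
      (Real.arcosh (rhoQ g)) := by
  obtain ⟨-, k₁', hk₁', k₂', hk₂', hg⟩ := hC g
  set r := Real.log ‖(g : Matrix (Fin 2) (Fin 2) ℂ).det‖ / 2 with hr
  set t := Real.arcosh (rhoQ g) with ht
  have key : ∀ k₁ k₂ : GC, k₁ * g * k₂ = sclC r * (k₁ * k₁') * atC t * (k₂' * k₂) := by
    intro k₁ k₂
    conv_lhs => rw [hg]
    rw [← mul_assoc k₁, ← mul_assoc k₁, ← mul_assoc k₁, sclC_comm441 r k₁]
    simp only [mul_assoc]
  unfold avg441 sph441
  have h1 : ∀ k₁ : GC, ∫⁻ k₂, F (k₁ * g * k₂) ∂κ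
      = ∫⁻ k₂, F (sclC r * (k₁ * k₁') * atC t * k₂) ∂κ := by
    intro k₁
    rw [← lintegral_U2_left441 hκ hk₂' (fun x => F (sclC r * (k₁ * k₁') * atC t * x))]
    exact lintegral_congr fun k₂ => by rw [key]
  rw [lintegral_congr h1]
  exact lintegral_U2_right441 hκ hk₁' (fun x => ∫⁻ k₂, F (sclC r * x * atC t * k₂) ∂κ)

/-! ## Step 1: `∫ F dμ = ∫ F̃ dμ` -/

theorem lintegral_avg441 (hR : RightInvCC) {κ : Measure GC} (hκ : IsU2Haar κ) {μ : Measure GC}
    (hμ : μ.IsHaarMeasure) [SFinite μ] {F : GC → ℝ≥0∞} (hF : Measurable F) :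
    ∫⁻ g, avg441 κ F g ∂μ = ∫⁻ g, F g ∂μ := by
  have : IsProbabilityMeasure κ := ⟨hκ.prob⟩
  have hinv : ∀ k₁ k₂ : GC, ∫⁻ g, F (k₁ * g * k₂) ∂μ = ∫⁻ g, F g ∂μ := by
    intro k₁ k₂
    have h1 := lintegral_map_equiv (μ := μ) (fun x => F (k₁ * x)) (MeasurableEquiv.mulRight k₂)
    have h1' : Measure.map (⇑(MeasurableEquiv.mulRight k₂)) μ = μ := (hR μ hμ).1 k₂
    rw [h1'] at h1
    have h2 : ∫⁻ g, F (k₁ * g * k₂) ∂μ = ∫⁻ g, F (k₁ * g) ∂μ := by
      rw [h1]
      refine lintegral_congr fun x => ?_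
      show F (k₁ * x * k₂) = F (k₁ * (x * k₂))
      rw [mul_assoc]
    rw [h2]
    exact lintegral_mul_left_eq_self F k₁
  have hm1 : Measurable fun p : (GC × GC) × GC => F (p.1.2 * p.1.1 * p.2) :=
    hF.comp (((continuous_snd.comp continuous_fst).mul
      (continuous_fst.comp continuous_fst)).mul continuous_snd).measurable
  have hm2 : Measurable fun p : GC × GC => ∫⁻ k₂, F (p.2 * p.1 * k₂) ∂κ :=
    hm1.lintegral_prod_right'
  unfold avg441
  -- swap `g` and `k₁`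
  rw [lintegral_lintegral_swap (f := fun g k₁ => ∫⁻ k₂, F (k₁ * g * k₂) ∂κ) hm2.aemeasurable]
  have h3 : ∀ k₁ : GC, ∫⁻ g, ∫⁻ k₂, F (k₁ * g * k₂) ∂κ ∂μ = ∫⁻ g, F g ∂μ := by
    intro k₁
    have hm3 : Measurable fun p : GC × GC => F (k₁ * p.1 * p.2) :=
      hF.comp (((continuous_const.mul continuous_fst).mul continuous_snd)).measurable
    rw [lintegral_lintegral_swap (f := fun g k₂ => F (k₁ * g * k₂)) hm3.aemeasurable]
    rw [lintegral_congr fun k₂ => hinv k₁ k₂, lintegral_const, measure_univ, mul_one]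
  rw [lintegral_congr h3, lintegral_const, measure_univ, mul_one]

/-! ## Step 4: the linear change of variables -/

theorem lintegral_rs441 {Ψ : ℝ × ℝ → ℝ≥0∞} (hΨ : Measurable Ψ) :
    ∫⁻ u₁ : ℝ, ∫⁻ u₂ : ℝ, Ψ ((u₁ + u₂) / 2, u₁ - u₂) = ∫⁻ r : ℝ, ∫⁻ s : ℝ, Ψ (r, s) := by
  have hm1 : Measurable fun p : ℝ × ℝ => Ψ ((p.1 + p.2) / 2, p.1 - p.2) :=
    hΨ.comp (by fun_prop)
  rw [lintegral_lintegral_swap (f := fun u₁ u₂ : ℝ => Ψ ((u₁ + u₂) / 2, u₁ - u₂))
    hm1.aemeasurable]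
  have h1 : ∀ u₂ : ℝ, ∫⁻ u₁ : ℝ, Ψ ((u₁ + u₂) / 2, u₁ - u₂) = ∫⁻ s : ℝ, Ψ (s / 2 + u₂, s) := by
    intro u₂
    rw [← lintegral_add_right_eq_self (fun s : ℝ => Ψ (s / 2 + u₂, s)) (-u₂)]
    refine lintegral_congr fun u₁ => ?_
    congr 2
    ring
  rw [lintegral_congr h1]
  have hm2 : Measurable fun p : ℝ × ℝ => Ψ (p.2 / 2 + p.1, p.2) := hΨ.comp (by fun_prop)
  rw [lintegral_lintegral_swap (f := fun u₂ s : ℝ => Ψ (s / 2 + u₂, s)) hm2.aemeasurable]
  have h2 : ∀ s : ℝ, ∫⁻ u₂ : ℝ, Ψ (s / 2 + u₂, s) = ∫⁻ r : ℝ, Ψ (r, s) := by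
    intro s
    rw [← lintegral_add_right_eq_self (fun r : ℝ => Ψ (r, s)) (s / 2)]
    refine lintegral_congr fun u₂ => ?_
    congr 2
    ring
  rw [lintegral_congr h2]
  have hm3 : Measurable fun p : ℝ × ℝ => Ψ (p.2, p.1) := hΨ.comp (by fun_prop)
  exact lintegral_lintegral_swap (f := fun s r : ℝ => Ψ (r, s)) hm3.aemeasurable

/-! ## Step 3: the Iwasawa coordinates -/

theorem lintegral_iwa441 (hC : CartanCC) {κ : Measure GC} (hκ : IsU2Haar κ) {F : GC → ℝ≥0∞}
    (hF : Measurable F) :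
    ∫⁻ p, avg441 κ F (iwaC p) ∂(iwaMC κ)
      = ∫⁻ u₁ : ℝ, ∫⁻ u₂ : ℝ, ∫⁻ w : ℂ,
          sph441 κ F ((u₁ + u₂) / 2)
            (Real.arcosh (Real.cosh (u₁ - u₂) + Real.exp (u₁ - u₂) * ‖w‖ ^ 2 / 2)) := by
  have : IsProbabilityMeasure κ := ⟨hκ.prob⟩
  have hm : Measurable fun p : ℝ × ℝ × ℂ × GC => avg441 κ F (iwaC p) :=
    (measurable_avg441 hF).comp continuous_iwaC441.measurable
  show ∫⁻ p, avg441 κ F (iwaC p)
    ∂((volume : Measure ℝ).prod ((volume : Measure ℝ).prod ((volume : Measure ℂ).prod κ))) = _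
  rw [lintegral_prod _ hm.aemeasurable]
  refine lintegral_congr fun u₁ => ?_
  have hm1 : Measurable fun q : ℝ × ℂ × GC => avg441 κ F (iwaC (u₁, q)) :=
    hm.comp measurable_prodMk_left
  rw [lintegral_prod _ hm1.aemeasurable]
  refine lintegral_congr fun u₂ => ?_
  have hm2 : Measurable fun q : ℂ × GC => avg441 κ F (iwaC (u₁, u₂, q)) :=
    hm1.comp measurable_prodMk_left
  rw [lintegral_prod _ hm2.aemeasurable]
  refine lintegral_congr fun w => ?_
  have h1 : ∀ᵐ k ∂κ, avg441 κ F (iwaC (u₁, u₂, w, k)) = avg441 κ F (dgC u₁ u₂ * unC w) := by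
    filter_upwards [ae_mem_U2_441 hκ] with k hk
    exact avg_mul_right441 hκ F _ hk
  rw [lintegral_congr_ae h1, lintegral_const, measure_univ, mul_one, avg_eq_sph441 hC hκ,
    log_det_dgC_unC441, rhoQ_dgC_unC441]

/-! ## Step 5: the Abel area formula -/

theorem measurable_arcosh441 : Measurable Real.arcosh := by
  unfold Real.arcosh
  fun_prop

theorem lintegral_abel441 (hA : AbelAreaCC) {h : ℝ → ℝ≥0∞} (hh : Measurable h) :
    ∫⁻ s : ℝ, ∫⁻ w : ℂ, h (Real.arcosh (Real.cosh s + Real.exp s * ‖w‖ ^ 2 / 2))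
      = ENNReal.ofReal (4 * Real.pi) * ∫⁻ t, h t ∂radMC := by
  have hf : Measurable fun p : ℝ × ℂ => Real.cosh p.1 + Real.exp p.1 * ‖p.2‖ ^ 2 / 2 := by
    fun_prop
  have hha : Measurable fun x => h (Real.arcosh x) := hh.comp measurable_arcosh441
  have hpos : ∀ᵐ t ∂radMC, t ∈ Set.Ioi (0 : ℝ) :=
    (withDensity_absolutelyContinuous _ _).ae_le (ae_restrict_mem measurableSet_Ioi)
  calc ∫⁻ s : ℝ, ∫⁻ w : ℂ, h (Real.arcosh (Real.cosh s + Real.exp s * ‖w‖ ^ 2 / 2))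
      = ∫⁻ p : ℝ × ℂ, h (Real.arcosh (Real.cosh p.1 + Real.exp p.1 * ‖p.2‖ ^ 2 / 2))
          ∂((volume : Measure ℝ).prod (volume : Measure ℂ)) :=
        (lintegral_prod _ (hha.comp hf).aemeasurable).symm
    _ = ∫⁻ p : ℝ × ℂ, h (Real.arcosh (Real.cosh p.1 + Real.exp p.1 * ‖p.2‖ ^ 2 / 2))
          ∂(volume : Measure (ℝ × ℂ)) := by
        rw [Measure.volume_eq_prod]
    _ = ∫⁻ x, h (Real.arcosh x) ∂(Measure.map
          (fun p : ℝ × ℂ => Real.cosh p.1 + Real.exp p.1 * ‖p.2‖ ^ 2 / 2)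
          (volume : Measure (ℝ × ℂ))) := (lintegral_map hha hf).symm
    _ = ∫⁻ x, h (Real.arcosh x)
          ∂(ENNReal.ofReal (4 * Real.pi) • Measure.map Real.cosh radMC) := by
        rw [show Measure.map (fun p : ℝ × ℂ => Real.cosh p.1 + Real.exp p.1 * ‖p.2‖ ^ 2 / 2)
          (volume : Measure (ℝ × ℂ))
            = ENNReal.ofReal (4 * Real.pi) • Measure.map Real.cosh radMC from hA]
    _ = ENNReal.ofReal (4 * Real.pi) * ∫⁻ t, h (Real.arcosh (Real.cosh t)) ∂radMC := by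
        rw [lintegral_smul_measure, lintegral_map hha Real.measurable_cosh, smul_eq_mul]
    _ = ENNReal.ofReal (4 * Real.pi) * ∫⁻ t, h t ∂radMC := by
        congr 1
        refine lintegral_congr_ae ?_
        filter_upwards [hpos] with t ht
        rw [Real.arcosh_cosh (le_of_lt ht)]

/-! ## Step 6: the polar coordinates -/

theorem lintegral_pol441 {κ : Measure GC} [SFinite κ] {F : GC → ℝ≥0∞} (hF : Measurable F) :
    ∫⁻ p, F (polC p) ∂(polMC κ) = ∫⁻ r : ℝ, ∫⁻ t, sph441 κ F r t ∂radMC := by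
  have hm : Measurable fun p : ℝ × GC × ℝ × GC => F (polC p) :=
    hF.comp continuous_polC441.measurable
  show ∫⁻ p, F (polC p) ∂((volume : Measure ℝ).prod (κ.prod (radMC.prod κ))) = _
  rw [lintegral_prod _ hm.aemeasurable]
  refine lintegral_congr fun r => ?_
  have hm1 : Measurable fun q : GC × ℝ × GC => F (polC (r, q)) :=
    hm.comp measurable_prodMk_left
  rw [lintegral_prod _ hm1.aemeasurable]
  have h2 : ∀ k₁ : GC, ∫⁻ q : ℝ × GC, F (polC (r, k₁, q)) ∂(radMC.prod κ)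
      = ∫⁻ t, ∫⁻ k₂, F (sclC r * k₁ * atC t * k₂) ∂κ ∂radMC := fun k₁ =>
    lintegral_prod _ (hm1.comp measurable_prodMk_left).aemeasurable
  rw [lintegral_congr h2]
  have hm3 : Measurable fun p : (GC × ℝ) × GC => F (sclC r * p.1.1 * atC p.1.2 * p.2) :=
    hF.comp ((((continuous_const.mul (continuous_fst.comp continuous_fst)).mul
      (continuous_atC441.comp (continuous_snd.comp continuous_fst))).mul
      continuous_snd).measurable)
  have hm4 : Measurable fun p : GC × ℝ => ∫⁻ k₂, F (sclC r * p.1 * atC p.2 * k₂) ∂κ :=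
    hm3.lintegral_prod_right'
  rw [lintegral_lintegral_swap
    (f := fun (k₁ : GC) (t : ℝ) => ∫⁻ k₂, F (sclC r * k₁ * atC t * k₂) ∂κ) hm4.aemeasurable]
  rfl

/-! ## The leaf -/

/-- The integral form of the polar formula. -/
theorem lintegral_polar441 (hR : RightInvCC) (hC : CartanCC) (hA : AbelAreaCC)
    {κ : Measure GC} (hκ : IsU2Haar κ) {μ : Measure GC} (hμ : μ.IsHaarMeasure) [SFinite μ]
    {c₁ : ℝ≥0∞} (hIμ : μ = c₁ • Measure.map iwaC (iwaMC κ)) {F : GC → ℝ≥0∞}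
    (hF : Measurable F) :
    ∫⁻ g, F g ∂μ = (c₁ * ENNReal.ofReal (4 * Real.pi)) * ∫⁻ p, F (polC p) ∂(polMC κ) := by
  have hprob : IsProbabilityMeasure κ := ⟨hκ.prob⟩
  have hsphm : Measurable fun p : ℝ × ℝ => sph441 κ F p.1 p.2 := measurable_sph441 hF
  have hg0 : Measurable fun q : (ℝ × ℝ) × ℂ =>
      Real.cosh q.1.2 + Real.exp q.1.2 * ‖q.2‖ ^ 2 / 2 := by
    fun_prop
  have hg : Measurable fun q : (ℝ × ℝ) × ℂ =>
      ((q.1.1, Real.arcosh (Real.cosh q.1.2 + Real.exp q.1.2 * ‖q.2‖ ^ 2 / 2)) : ℝ × ℝ) :=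
    (measurable_fst.comp measurable_fst).prodMk (measurable_arcosh441.comp hg0)
  have hΨ : Measurable fun p : ℝ × ℝ => ∫⁻ w : ℂ, sph441 κ F p.1
      (Real.arcosh (Real.cosh p.2 + Real.exp p.2 * ‖w‖ ^ 2 / 2)) := by
    have h1 := hsphm.comp hg
    exact h1.lintegral_prod_right'
  have hsr : ∀ r : ℝ, Measurable fun t : ℝ => sph441 κ F r t := by
    intro r
    have hr : Measurable fun t : ℝ => ((r, t) : ℝ × ℝ) := measurable_prodMk_left
    have h := hsphm.comp hr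
    exact h
  have h5 : ∀ r : ℝ, ∫⁻ s : ℝ, ∫⁻ w : ℂ, sph441 κ F r
      (Real.arcosh (Real.cosh s + Real.exp s * ‖w‖ ^ 2 / 2))
      = ENNReal.ofReal (4 * Real.pi) * ∫⁻ t, sph441 κ F r t ∂radMC := fun r =>
    lintegral_abel441 hA (hsr r)
  have hm6 : Measurable fun r : ℝ => ∫⁻ t, sph441 κ F r t ∂radMC :=
    hsphm.lintegral_prod_right'
  have e1 : ∫⁻ g, F g ∂μ = ∫⁻ g, avg441 κ F g ∂μ := (lintegral_avg441 hR hκ hμ hF).symm
  have e2 : ∫⁻ g, avg441 κ F g ∂μ = c₁ * ∫⁻ p, avg441 κ F (iwaC p) ∂(iwaMC κ) := by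
    conv_lhs => rw [hIμ]
    rw [lintegral_smul_measure, lintegral_map (measurable_avg441 hF)
      continuous_iwaC441.measurable, smul_eq_mul]
  have e3 := lintegral_iwa441 hC hκ hF
  have e4 := lintegral_rs441 hΨ
  have e5 : ∫⁻ r : ℝ, ∫⁻ s : ℝ, ∫⁻ w : ℂ, sph441 κ F r
      (Real.arcosh (Real.cosh s + Real.exp s * ‖w‖ ^ 2 / 2))
      = ENNReal.ofReal (4 * Real.pi) * ∫⁻ r : ℝ, ∫⁻ t, sph441 κ F r t ∂radMC := by
    rw [lintegral_congr h5, lintegral_const_mul _ hm6]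
  have e6 := lintegral_pol441 (κ := κ) hF
  rw [e1, e2, e3, e4, e5, e6, mul_assoc]

/-- **T6.23.15 (A5)**: the polar integration formula on `GL₂(ℂ)` from the Iwasawa formula. -/
theorem polOfCC441 : PolOfCC := by
  intro hI hR hC hA κ hκ μ hμ
  obtain ⟨c₁, hc0, hctop, hIμ⟩ := hI κ hκ μ hμ
  have hprob : IsProbabilityMeasure κ := ⟨hκ.prob⟩
  have hsf : SFinite μ := by
    rw [hIμ]
    unfold iwaMC
    infer_instance
  have h4π : ENNReal.ofReal (4 * Real.pi) ≠ 0 := by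
    rw [Ne, ENNReal.ofReal_eq_zero, not_le]
    positivity
  refine ⟨c₁ * ENNReal.ofReal (4 * Real.pi), mul_ne_zero hc0 h4π,
    ENNReal.mul_ne_top hctop ENNReal.ofReal_ne_top, ?_⟩
  refine Measure.ext_of_lintegral _ fun F hF => ?_
  rw [lintegral_polar441 hR hC hA hκ hμ hIμ hF, lintegral_smul_measure,
    lintegral_map hF continuous_polC441.measurable, smul_eq_mul]

end Fermat.Agent.LT.T6.H441

end

end
-- ===== PACK-END LT/T6/H441/PolOfC.lean

-- ===== PACK-BEGIN LT/T6/H781/EllUp.lean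
section



/-!
# Row LT, tower T6, leaf T6.28 (helper781): part (B), the twisted elliptic orbital integral

OFF-MAIN.  Mathlib only.
-/

set_option autoImplicit false

open MeasureTheory Set

noncomputable section

namespace Fermat.Agent.LT.T6.H781

/-! ## Elementary bounds and compact supports -/

theorem abs_le_cosh781 (v : ℝ) : |v| ≤ Real.cosh v := by
  have h1 : |v| ≤ Real.sinh |v| := Real.self_le_sinh_iff.2 (abs_nonneg v)
  have h2 : Real.sinh |v| < Real.cosh |v| := Real.sinh_lt_cosh _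
  rw [Real.cosh_abs] at h2
  linarith

theorem abs_le_cosh_sq781 (v : ℝ) : |v| ≤ Real.cosh v ^ 2 := by
  have h1 := abs_le_cosh781 v
  have h2 := Real.one_le_cosh v
  nlinarith

theorem one_le_cosh_sq781 (v : ℝ) : 1 ≤ Real.cosh v ^ 2 := by
  have h2 := Real.one_le_cosh v
  nlinarith

theorem lt_sq_of_lt_abs781 {x R : ℝ} (hR : 1 ≤ R) (h : R < |x|) : R < x ^ 2 := by
  have h1 : R * R < |x| * |x| := mul_self_lt_mul_self (by linarith) h
  rw [abs_mul_abs_self] at h1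
  nlinarith

theorem hasCompactSupport_box781 {f : ℝ × ℝ → ℂ} {B : ℝ}
    (h0 : ∀ z : ℝ × ℝ, (B < |z.1| ∨ B < |z.2|) → f z = 0) : HasCompactSupport f := by
  refine HasCompactSupport.intro
    (isCompact_Icc.prod isCompact_Icc : IsCompact (Icc (-B) B ×ˢ Icc (-B) B)) fun z hz => ?_
  apply h0
  by_contra hcon
  push Not at hcon
  apply hz
  exact ⟨abs_le.1 hcon.1, abs_le.1 hcon.2⟩

theorem hasCompactSupport_interval781 {f : ℝ → ℂ} {B : ℝ}
    (h0 : ∀ v : ℝ, B < |v| → f v = 0) : HasCompactSupport f := by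
  refine HasCompactSupport.intro (isCompact_Icc : IsCompact (Icc (-B) B)) fun v hv => ?_
  apply h0
  by_contra hcon
  push Not at hcon
  exact hv (abs_le.1 hcon)

/-! ## The tail integral -/

theorem tailI_eq_interval781 {g : ℝ → ℂ} {R : ℝ} (h0 : ∀ y, R ≤ y → g y = 0) (X : ℝ) :
    tailI g X = ∫ t in X..R, g t := by
  unfold tailI
  rcases le_or_gt X R with h | h
  · rw [intervalIntegral.integral_of_le h]
    refine setIntegral_eq_of_subset_of_forall_sdiff_eq_zero measurableSet_Ioi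
      Ioc_subset_Ioi_self ?_
    intro x hx
    have hx1 : X < x := hx.1
    have hx2 : ¬ (x ∈ Ioc X R) := hx.2
    apply h0
    by_contra hcon
    push Not at hcon
    exact hx2 ⟨hx1, hcon.le⟩
  · rw [intervalIntegral.integral_of_ge h.le]
    have h1 : ∫ t in Ioi X, g t = 0 :=
      setIntegral_eq_zero_of_forall_eq_zero (fun x hx => h0 x (le_of_lt (lt_trans h hx)))
    have h2 : ∫ t in Ioc R X, g t = 0 :=
      setIntegral_eq_zero_of_forall_eq_zero (fun x hx => h0 x hx.1.le)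
    rw [h1, h2, neg_zero]

theorem continuous_tailI781 {g : ℝ → ℂ} {R : ℝ} (hg : Continuous g)
    (h0 : ∀ y, R ≤ y → g y = 0) : Continuous (tailI g) := by
  have h1 : tailI g = fun X => -∫ t in R..X, g t := by
    funext X
    rw [tailI_eq_interval781 h0, intervalIntegral.integral_symm]
  rw [h1]
  exact (intervalIntegral.continuous_primitive (fun a b => hg.intervalIntegrable a b) R).neg

theorem tailI_zero781 {g : ℝ → ℂ} {R : ℝ} (h0 : ∀ y, R ≤ y → g y = 0) {X : ℝ} (hX : R ≤ X) :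
    tailI g X = 0 := by
  unfold tailI
  exact setIntegral_eq_zero_of_forall_eq_zero (fun x hx => h0 x (le_trans hX (le_of_lt hx)))

theorem tailI_profExt781 (g : ℝ → ℂ) {X : ℝ} (hX : 1 ≤ X) :
    tailI (profExt781 g) X = tailI g X := by
  unfold tailI
  refine setIntegral_congr_fun measurableSet_Ioi fun t ht => ?_
  exact profExt781_of_le (le_trans hX (le_of_lt ht))

/-! ## The radial integral -/

theorem integrable_radial781 {g : ℝ → ℂ} {R : ℝ} (hg : Continuous g) (hR : 1 ≤ R)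
    (h0 : ∀ y, R ≤ y → g y = 0) {c : ℝ} (hc : 1 ≤ c) :
    Integrable (fun z : ℝ × ℝ => g (c + 2 * z.1 ^ 2 + 2 * z.2 ^ 2)) := by
  have hcont : Continuous fun z : ℝ × ℝ => g (c + 2 * z.1 ^ 2 + 2 * z.2 ^ 2) := by fun_prop
  have hsupp : HasCompactSupport fun z : ℝ × ℝ => g (c + 2 * z.1 ^ 2 + 2 * z.2 ^ 2) := by
    refine hasCompactSupport_box781 (B := R) fun z hz => ?_
    apply h0
    rcases hz with h | h
    · have := lt_sq_of_lt_abs781 hR h
      nlinarith [sq_nonneg z.2]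
    · have := lt_sq_of_lt_abs781 hR h
      nlinarith [sq_nonneg z.1]
  exact hcont.integrable_of_hasCompactSupport hsupp

theorem integral_radial781 {g : ℝ → ℂ} {R : ℝ} (hg : Continuous g) (hR : 1 ≤ R)
    (h0 : ∀ y, R ≤ y → g y = 0) {c : ℝ} (hc : 1 ≤ c) :
    ∫ z : ℝ × ℝ, g (c + 2 * z.1 ^ 2 + 2 * z.2 ^ 2) = ((Real.pi / 2 : ℝ) : ℂ) * tailI g c := by
  rw [integral_polar781 (integrable_radial781 hg hR h0 hc)]
  rw [tailI, integral_subst_sq781 c g, ← integral_const_mul]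
  refine setIntegral_congr_fun measurableSet_Ioi fun r hr => ?_
  have h1 : ∀ ψ : ℝ, c + 2 * (r * Real.cos ψ) ^ 2 + 2 * (r * Real.sin ψ) ^ 2 = c + 2 * r ^ 2 := by
    intro ψ
    have := Real.sin_sq_add_cos_sq ψ
    nlinarith
  simp only [h1]
  rw [setIntegral_const]
  have hv : (volume : Measure ℝ).real (Ioo (-Real.pi) Real.pi) = 2 * Real.pi := by
    rw [Measure.real, Real.volume_Ioo, ENNReal.toReal_ofReal (by linarith [Real.pi_pos])]
    ring
  rw [hv, Complex.real_smul]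
  push_cast
  ring

/-- The inner double integral for fixed `p`. -/
theorem integral_inner781 {g : ℝ → ℂ} {R : ℝ} (hg : Continuous g) (hR : 1 ≤ R)
    (h0 : ∀ y, R ≤ y → g y = 0) (p : ℝ) :
    ∫ β : ℝ, ∫ u : ℝ,
        g (2 * Real.cosh β ^ 2 * (1 + p ^ 2 + u ^ 2) - 1) * ((Real.cosh β ^ 2 : ℝ) : ℂ)
      = (((Real.sqrt (1 + p ^ 2))⁻¹ * (Real.pi / 2) : ℝ) : ℂ) * tailI g (1 + 2 * p ^ 2) := by
  have s1 : ∀ β : ℝ, ∫ u : ℝ,
      g (2 * Real.cosh β ^ 2 * (1 + p ^ 2 + u ^ 2) - 1) * ((Real.cosh β ^ 2 : ℝ) : ℂ)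
      = ((Real.cosh β : ℝ) : ℂ) *
        (fun S : ℝ => ∫ w : ℝ, g (2 * (1 + S ^ 2) * (1 + p ^ 2) - 1 + 2 * w ^ 2))
          (Real.sinh β) := by
    intro β
    have hch : 0 < Real.cosh β := Real.cosh_pos β
    have h1 := Measure.integral_comp_mul_left
      (fun w : ℝ => g (2 * (1 + Real.sinh β ^ 2) * (1 + p ^ 2) - 1 + 2 * w ^ 2)) (Real.cosh β)
    rw [integral_mul_const]
    have h2 : ∀ u : ℝ, 2 * Real.cosh β ^ 2 * (1 + p ^ 2 + u ^ 2) - 1
        = 2 * (1 + Real.sinh β ^ 2) * (1 + p ^ 2) - 1 + 2 * (Real.cosh β * u) ^ 2 := by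
      intro u
      linear_combination (2 * (1 + p ^ 2)) * Real.cosh_sq β
    simp only [h2]
    rw [h1, abs_of_pos (inv_pos.2 hch), Complex.real_smul]
    have hchc : ((Real.cosh β : ℝ) : ℂ) ≠ 0 := by exact_mod_cast hch.ne'
    push_cast
    field_simp
  simp only [s1]
  rw [← integral_subst_sinh_univ781
    (fun S : ℝ => ∫ w : ℝ, g (2 * (1 + S ^ 2) * (1 + p ^ 2) - 1 + 2 * w ^ 2))]
  have hq : 0 < Real.sqrt (1 + p ^ 2) := Real.sqrt_pos.2 (by positivity)
  have h3 := Measure.integral_comp_mul_left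
    (fun S' : ℝ => ∫ w : ℝ, g (1 + 2 * p ^ 2 + 2 * S' ^ 2 + 2 * w ^ 2)) (Real.sqrt (1 + p ^ 2))
  have h4 : ∀ S : ℝ, (∫ w : ℝ, g (2 * (1 + S ^ 2) * (1 + p ^ 2) - 1 + 2 * w ^ 2))
      = ∫ w : ℝ, g (1 + 2 * p ^ 2 + 2 * (Real.sqrt (1 + p ^ 2) * S) ^ 2 + 2 * w ^ 2) := by
    intro S
    have h5 : (Real.sqrt (1 + p ^ 2) * S) ^ 2 = (1 + p ^ 2) * S ^ 2 := by
      rw [mul_pow, Real.sq_sqrt (by positivity)]
    rw [h5]
    refine integral_congr_ae (Filter.Eventually.of_forall fun w => ?_)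
    show g _ = g _
    congr 1
    ring
  simp only [h4]
  rw [h3]
  have hc : (1 : ℝ) ≤ 1 + 2 * p ^ 2 := by nlinarith [sq_nonneg p]
  have h6 := integral_prod (fun z : ℝ × ℝ => g (1 + 2 * p ^ 2 + 2 * z.1 ^ 2 + 2 * z.2 ^ 2))
    (integrable_radial781 hg hR h0 hc)
  have h7 := integral_radial781 hg hR h0 hc
  rw [show (volume : Measure (ℝ × ℝ)) = (volume : Measure ℝ).prod (volume : Measure ℝ) from rfl]
    at h7
  rw [h6] at h7
  rw [h7, abs_of_pos (inv_pos.2 hq), Complex.real_smul]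
  push_cast
  ring

/-! ## The fibre integral -/

/-- The `β`-integral as a function of `y` (over a compact interval). -/
def upFib781 (g : ℝ → ℂ) (B : ℝ) (y : ℝ) : ℂ :=
  ∫ β in Icc (-B) B, g (2 * Real.cosh β ^ 2 * y - 1) * ((Real.cosh β ^ 2 : ℝ) : ℂ)

theorem continuous_upFib781 {g : ℝ → ℂ} (hg : Continuous g) (B : ℝ) :
    Continuous (upFib781 g B) := by
  have hc : Continuous (Function.uncurry
      (fun (y β : ℝ) => g (2 * Real.cosh β ^ 2 * y - 1) * ((Real.cosh β ^ 2 : ℝ) : ℂ))) := by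
    have h1 : Continuous fun z : ℝ × ℝ => Real.cosh z.2 := Real.continuous_cosh.comp continuous_snd
    have h2 : Continuous fun z : ℝ × ℝ => 2 * Real.cosh z.2 ^ 2 * z.1 - 1 :=
      (((h1.pow 2).const_mul 2).mul continuous_fst).sub continuous_const
    have h3 : Continuous fun z : ℝ × ℝ => ((Real.cosh z.2 ^ 2 : ℝ) : ℂ) :=
      Complex.continuous_ofReal.comp (h1.pow 2)
    exact (hg.comp h2).mul h3
  exact continuous_parametric_integral_of_continuous (μ := (volume : Measure ℝ)) hc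
    (isCompact_Icc : IsCompact (Icc (-B) B))

theorem fib_zero_of_abs781 {g : ℝ → ℂ} {R : ℝ} (hR : 1 ≤ R) (h0 : ∀ y, R ≤ y → g y = 0)
    {y : ℝ} (hy : 1 ≤ y) {β : ℝ} (hβ : R < |β|) : g (2 * Real.cosh β ^ 2 * y - 1) = 0 := by
  apply h0
  have h1 := abs_le_cosh_sq781 β
  have h2 : Real.cosh β ^ 2 ≤ Real.cosh β ^ 2 * y := by
    have := one_le_cosh_sq781 β
    nlinarith
  nlinarith

theorem fib_zero_of_le781 {g : ℝ → ℂ} {R : ℝ} (hR : 1 ≤ R) (h0 : ∀ y, R ≤ y → g y = 0)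
    {y : ℝ} (hy : R ≤ y) (β : ℝ) : g (2 * Real.cosh β ^ 2 * y - 1) = 0 := by
  apply h0
  have h1 := one_le_cosh_sq781 β
  have h2 : y ≤ Real.cosh β ^ 2 * y := by nlinarith
  nlinarith

theorem upFib781_zero {g : ℝ → ℂ} {R : ℝ} (hR : 1 ≤ R) (h0 : ∀ y, R ≤ y → g y = 0)
    (y : ℝ) (hy : R ≤ y) : upFib781 g R y = 0 := by
  unfold upFib781
  refine setIntegral_eq_zero_of_forall_eq_zero fun β _ => ?_
  rw [fib_zero_of_le781 hR h0 hy β, zero_mul]

theorem upFib781_eq {g : ℝ → ℂ} {R : ℝ} (hR : 1 ≤ R) (h0 : ∀ y, R ≤ y → g y = 0)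
    {y : ℝ} (hy : 1 ≤ y) :
    upFib781 g R y = ∫ β : ℝ, g (2 * Real.cosh β ^ 2 * y - 1) * ((Real.cosh β ^ 2 : ℝ) : ℂ) := by
  unfold upFib781
  refine setIntegral_eq_integral_of_forall_compl_eq_zero fun β hβ => ?_
  have h1 : R < |β| := by
    by_contra hcon
    push Not at hcon
    exact hβ (abs_le.1 hcon)
  rw [fib_zero_of_abs781 hR h0 hy h1, zero_mul]

/-- The swap of `u` and `β` for fixed `p`. -/
theorem integral_swap_inner781 {g : ℝ → ℂ} {R : ℝ} (hg : Continuous g) (hR : 1 ≤ R)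
    (h0 : ∀ y, R ≤ y → g y = 0) (p : ℝ) :
    ∫ u : ℝ, ∫ β : ℝ,
        g (2 * Real.cosh β ^ 2 * (1 + p ^ 2 + u ^ 2) - 1) * ((Real.cosh β ^ 2 : ℝ) : ℂ)
      = ∫ β : ℝ, ∫ u : ℝ,
        g (2 * Real.cosh β ^ 2 * (1 + p ^ 2 + u ^ 2) - 1) * ((Real.cosh β ^ 2 : ℝ) : ℂ) := by
  have hc : Continuous (Function.uncurry (fun (u β : ℝ) =>
      g (2 * Real.cosh β ^ 2 * (1 + p ^ 2 + u ^ 2) - 1) * ((Real.cosh β ^ 2 : ℝ) : ℂ))) := by
    have h1 : Continuous fun z : ℝ × ℝ => Real.cosh z.2 := Real.continuous_cosh.comp continuous_snd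
    have h2 : Continuous fun z : ℝ × ℝ => 2 * Real.cosh z.2 ^ 2 * (1 + p ^ 2 + z.1 ^ 2) - 1 :=
      (((h1.pow 2).const_mul 2).mul (continuous_const.add (continuous_fst.pow 2))).sub
        continuous_const
    have h3 : Continuous fun z : ℝ × ℝ => ((Real.cosh z.2 ^ 2 : ℝ) : ℂ) :=
      Complex.continuous_ofReal.comp (h1.pow 2)
    exact (hg.comp h2).mul h3
  have hs : HasCompactSupport (Function.uncurry (fun (u β : ℝ) =>
      g (2 * Real.cosh β ^ 2 * (1 + p ^ 2 + u ^ 2) - 1) * ((Real.cosh β ^ 2 : ℝ) : ℂ))) := by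
    refine hasCompactSupport_box781 (B := R) fun z hz => ?_
    show g (2 * Real.cosh z.2 ^ 2 * (1 + p ^ 2 + z.1 ^ 2) - 1) * ((Real.cosh z.2 ^ 2 : ℝ) : ℂ) = 0
    rcases hz with h | h
    · have h1 := lt_sq_of_lt_abs781 hR h
      have h2 : R ≤ 1 + p ^ 2 + z.1 ^ 2 := by nlinarith [sq_nonneg p]
      rw [fib_zero_of_le781 hR h0 h2 z.2, zero_mul]
    · have h2 : (1 : ℝ) ≤ 1 + p ^ 2 + z.1 ^ 2 := by nlinarith [sq_nonneg p, sq_nonneg z.1]
      rw [fib_zero_of_abs781 hR h0 h2 h, zero_mul]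
  exact integral_integral_swap_of_hasCompactSupport hc hs

/-! ## (B) -/

theorem sin_half_ne_zero781 {θ : ℝ} (hθ : Real.sin θ ≠ 0) : Real.sin (θ / 2) ≠ 0 := by
  intro h
  apply hθ
  have h1 : Real.sin θ = 2 * Real.sin (θ / 2) * Real.cos (θ / 2) := by
    rw [← Real.sin_two_mul]
    congr 1
    ring
  rw [h1, h]
  ring

theorem sin_half_sq781 (θ : ℝ) : Real.sin (θ / 2) ^ 2 = (1 - Real.cos θ) / 2 := by
  have h1 : Real.cos θ = 2 * Real.cos (θ / 2) ^ 2 - 1 := by
    rw [← Real.cos_two_mul]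
    congr 1
    ring
  have h2 := Real.sin_sq_add_cos_sq (θ / 2)
  linarith

theorem sinh_half_sq781 (v : ℝ) : Real.sinh (1 / 2 * v) ^ 2 = (Real.cosh v - 1) / 2 := by
  have h1 : Real.cosh v = Real.cosh (1 / 2 * v) ^ 2 + Real.sinh (1 / 2 * v) ^ 2 := by
    rw [← Real.cosh_two_mul]
    congr 1
    ring
  have h2 := Real.cosh_sq (1 / 2 * v)
  linarith

/-- **T6.28 (B)**. -/
theorem ellUpC781 : EllUpC := by
  intro Φ hΦ θ hθ
  obtain ⟨hc, R₀, h00⟩ := hΦ
  have hg : Continuous (profExt781 Φ) := continuous_profExt781 hc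
  have hR : (1 : ℝ) ≤ max R₀ 1 := le_max_right _ _
  have h0 : ∀ y, max R₀ 1 ≤ y → profExt781 Φ y = 0 := fun y hy => profExt781_zero h00 hy
  have hσ : Real.sin (θ / 2) ≠ 0 := sin_half_ne_zero781 hθ
  have hm : 0 < |Real.sin (θ / 2)| := abs_pos.2 hσ
  have hm2 : |Real.sin (θ / 2)| ^ 2 = Real.sin (θ / 2) ^ 2 := sq_abs _
  have core := ellDownCore781 (continuous_upFib781 hg (max R₀ 1)) hR
    (upFib781_zero hR h0) hm
  rw [hm2] at core
  -- the left-hand side of `core` is `π · ellUp`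
  have eL : ellUp Φ θ = ∫ τ in Ioi (0 : ℝ),
      upFib781 (profExt781 Φ) (max R₀ 1) (1 + Real.sin (θ / 2) ^ 2 * Real.sinh τ ^ 2)
        * ((Real.sinh τ : ℝ) : ℂ) := by
    unfold ellUp
    refine setIntegral_congr_fun measurableSet_Ioi fun τ _ => ?_
    have hy : (1 : ℝ) ≤ 1 + Real.sin (θ / 2) ^ 2 * Real.sinh τ ^ 2 := by
      nlinarith [sq_nonneg (Real.sin (θ / 2) * Real.sinh τ)]
    show _ = upFib781 (profExt781 Φ) (max R₀ 1) (1 + Real.sin (θ / 2) ^ 2 * Real.sinh τ ^ 2)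
        * ((Real.sinh τ : ℝ) : ℂ)
    rw [upFib781_eq hR h0 hy, ← integral_mul_const]
    refine integral_congr_ae (Filter.Eventually.of_forall fun β => ?_)
    show Φ (2 * Real.cosh β ^ 2 * (1 + Real.sin (θ / 2) ^ 2 * Real.sinh τ ^ 2) - 1) *
        ((Real.cosh β ^ 2 * Real.sinh τ : ℝ) : ℂ)
      = profExt781 Φ (2 * Real.cosh β ^ 2 * (1 + Real.sin (θ / 2) ^ 2 * Real.sinh τ ^ 2) - 1) *
        ((Real.cosh β ^ 2 : ℝ) : ℂ) * ((Real.sinh τ : ℝ) : ℂ)
    have hy2 : (1 : ℝ) ≤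
        2 * Real.cosh β ^ 2 * (1 + Real.sin (θ / 2) ^ 2 * Real.sinh τ ^ 2) - 1 := by
      have h1 := one_le_cosh_sq781 β
      nlinarith
    rw [profExt781_of_le hy2]
    push_cast
    ring
  -- the right-hand side of `core`
  have eR : ∀ p ∈ Ioi (0 : ℝ),
      (∫ u : ℝ, upFib781 (profExt781 Φ) (max R₀ 1) (1 + p ^ 2 + u ^ 2)) /
        ((Real.sin (θ / 2) ^ 2 + p ^ 2 : ℝ) : ℂ)
      = (fun p : ℝ => ((Real.pi / 2 : ℝ) : ℂ) * tailI (profExt781 Φ) (1 + 2 * p ^ 2) /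
          ((Real.sqrt (1 + p ^ 2) * (Real.sin (θ / 2) ^ 2 + p ^ 2) : ℝ) : ℂ)) p := by
    intro p _
    have h1 : ∫ u : ℝ, upFib781 (profExt781 Φ) (max R₀ 1) (1 + p ^ 2 + u ^ 2)
        = ∫ u : ℝ, ∫ β : ℝ, profExt781 Φ (2 * Real.cosh β ^ 2 * (1 + p ^ 2 + u ^ 2) - 1) *
            ((Real.cosh β ^ 2 : ℝ) : ℂ) := by
      refine integral_congr_ae (Filter.Eventually.of_forall fun u => ?_)
      exact upFib781_eq hR h0 (by nlinarith [sq_nonneg p, sq_nonneg u])
    rw [h1, integral_swap_inner781 hg hR h0 p, integral_inner781 hg hR h0 p]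
    have hq : 0 < Real.sqrt (1 + p ^ 2) := Real.sqrt_pos.2 (by positivity)
    have hqc : ((Real.sqrt (1 + p ^ 2) : ℝ) : ℂ) ≠ 0 := by exact_mod_cast hq.ne'
    have hd : 0 < Real.sin (θ / 2) ^ 2 + p ^ 2 := by positivity
    have hdc : ((Real.sin (θ / 2) ^ 2 + p ^ 2 : ℝ) : ℂ) ≠ 0 := by exact_mod_cast hd.ne'
    simp only [Complex.ofReal_mul, Complex.ofReal_inv] at hqc hdc ⊢
    field_simp
  rw [setIntegral_congr_fun measurableSet_Ioi eR] at core
  -- the substitution `p = sinh (v / 2)`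
  have eS := integral_subst_sinh781 one_pos (by norm_num : (0 : ℝ) < 1 / 2)
    (fun p : ℝ => ((Real.pi / 2 : ℝ) : ℂ) * tailI (profExt781 Φ) (1 + 2 * p ^ 2) /
          ((Real.sqrt (1 + p ^ 2) * (Real.sin (θ / 2) ^ 2 + p ^ 2) : ℝ) : ℂ))
  rw [eS] at core
  have eK : ∀ v ∈ Ioi (0 : ℝ),
      ((1 * (1 / 2) * Real.cosh (1 / 2 * v) : ℝ) : ℂ) *
        (fun p : ℝ => ((Real.pi / 2 : ℝ) : ℂ) * tailI (profExt781 Φ) (1 + 2 * p ^ 2) /
          ((Real.sqrt (1 + p ^ 2) * (Real.sin (θ / 2) ^ 2 + p ^ 2) : ℝ) : ℂ))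
          (1 * Real.sinh (1 / 2 * v))
      = ((Real.pi / 2 : ℝ) : ℂ) *
          (tailI Φ (Real.cosh v) / ((Real.cosh v - Real.cos θ : ℝ) : ℂ)) := by
    intro v hv
    have hv' : (0 : ℝ) < v := hv
    have hch : 0 < Real.cosh (1 / 2 * v) := Real.cosh_pos _
    have e1 : 1 + 2 * (1 * Real.sinh (1 / 2 * v)) ^ 2 = Real.cosh v := by
      rw [one_mul, sinh_half_sq781]
      ring
    have e2 : Real.sqrt (1 + (1 * Real.sinh (1 / 2 * v)) ^ 2) = Real.cosh (1 / 2 * v) := by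
      have h1 : 1 + (1 * Real.sinh (1 / 2 * v)) ^ 2 = Real.cosh (1 / 2 * v) ^ 2 := by
        rw [one_mul, Real.cosh_sq]
        ring
      rw [h1, Real.sqrt_sq hch.le]
    have e3 : Real.sin (θ / 2) ^ 2 + (1 * Real.sinh (1 / 2 * v)) ^ 2
        = (Real.cosh v - Real.cos θ) / 2 := by
      rw [one_mul, sinh_half_sq781, sin_half_sq781]
      ring
    have hpos : 0 < Real.cosh v - Real.cos θ := by
      have h1 : 1 < Real.cosh v := Real.one_lt_cosh.2 hv'.ne'
      have h2 := Real.cos_le_one θ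
      linarith
    have hposc : ((Real.cosh v - Real.cos θ : ℝ) : ℂ) ≠ 0 := by exact_mod_cast hpos.ne'
    have hchc : ((Real.cosh (1 / 2 * v) : ℝ) : ℂ) ≠ 0 := by exact_mod_cast hch.ne'
    simp only [e1, e2, e3]
    rw [tailI_profExt781 Φ (Real.one_le_cosh v)]
    generalize Real.cosh (1 / 2 * v) = C at hchc ⊢
    generalize tailI Φ (Real.cosh v) = T
    generalize Real.cosh v - Real.cos θ = D at hposc ⊢
    simp only [Complex.ofReal_mul, Complex.ofReal_div, Complex.ofReal_one, Complex.ofReal_ofNat]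
    field_simp
  rw [setIntegral_congr_fun measurableSet_Ioi eK, integral_const_mul, ← eL] at core
  have hpi : ((Real.pi : ℝ) : ℂ) ≠ 0 := by exact_mod_cast Real.pi_pos.ne'
  unfold ellKer
  have h9 : ((Real.pi : ℝ) : ℂ) * ellUp Φ θ = ((Real.pi : ℝ) : ℂ) * ((1 / 2 : ℂ) *
      ∫ v in Ioi (0 : ℝ), tailI Φ (Real.cosh v) / ((Real.cosh v - Real.cos θ : ℝ) : ℂ)) := by
    rw [core]
    push_cast
    ring
  exact mul_left_cancel₀ hpi h9

end Fermat.Agent.LT.T6.H781

end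

end
-- ===== PACK-END LT/T6/H781/EllUp.lean

-- ===== PACK-BEGIN LT/T6/H420/OrbSumEx.lean
section






/-!
# Row LT, tower T6, leaf T6.08 (helper420): `NormInjC → OrbSumExC`

Existence of the (twisted) orbital integral as a finite orbit sum, [L] §4-§5.

Proof.  Let `δ ∈ GL₂(k')` with `N δ` regular.
1. The `s`-conjugacy class `𝒪` of `δ` is the set of `y` with `tr N y = tr N δ`,
   `det N y = det N δ` (one inclusion: `N (x⁻¹ δ s(x)) = x⁻¹ (N δ) x`; the other: regular `2 × 2`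
   matrices with equal characteristic polynomial are conjugate, and `NormInjC`); it is CLOSED.
2. `GL₂(k')` is a sigma-compact group acting continuously and transitively on the locally
   compact Hausdorff (hence Baire) space `𝒪`; by the open mapping theorem for such actions
   (`smul_singleton_mem_nhds_of_sigmaCompact`) the `U(n)`-orbits are open in `𝒪`.
3. `supp φ ⊆ ⋃_{x ∈ F} x U(n)` is compact, so `𝒪 ∩ supp φ` is covered by finitely many
   `U(n)`-orbits; choose one representative in each.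

Mathlib + T6 Spec only.
-/

set_option autoImplicit false

noncomputable section

namespace Fermat.Agent.LT.T6.H420

open Topology Filter Set Matrix
open scoped Pointwise

section Abstract

variable {G : Type} [Group G]

/-- The `s`-twisted conjugacy class of `δ`. -/
def twClass (s : G →* G) (δ : G) : Set G := {y | ∃ x : G, y = x⁻¹ * δ * s x}

theorem twClass_stable (s : G →* G) (δ : G) {y : G} (hy : y ∈ twClass s δ) (g : G) :
    g * y * (s g)⁻¹ ∈ twClass s δ := by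
  obtain ⟨x, rfl⟩ := hy
  refine ⟨x * g⁻¹, ?_⟩
  rw [map_mul, map_inv]
  group

/-- The twisted conjugacy class as a type, carrying the action `g • y = g y s(g)⁻¹`. -/
def TwOrbit (s : G →* G) (δ : G) : Type := {y : G // y ∈ twClass s δ}

/-- The underlying element. -/
def TwOrbit.val {s : G →* G} {δ : G} (y : TwOrbit s δ) : G := Subtype.val y

instance instMulActionTwOrbit (s : G →* G) (δ : G) : MulAction G (TwOrbit s δ) where
  smul g y := ⟨g * y.1 * (s g)⁻¹, twClass_stable s δ y.2 g⟩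
  one_smul y := by
    apply Subtype.ext
    show 1 * y.1 * (s 1)⁻¹ = y.1
    simp
  mul_smul g h y := by
    apply Subtype.ext
    show g * h * y.1 * (s (g * h))⁻¹ = g * (h * y.1 * (s h)⁻¹) * (s g)⁻¹
    rw [map_mul]
    group

theorem TwOrbit.smul_val {s : G →* G} {δ : G} (g : G) (y : TwOrbit s δ) :
    (g • y).val = g * y.val * (s g)⁻¹ := rfl

instance instIsPretransitiveTwOrbit (s : G →* G) (δ : G) :
    MulAction.IsPretransitive G (TwOrbit s δ) where
  exists_smul_eq := by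
    rintro ⟨y₁, x₁, rfl⟩ ⟨y₂, x₂, rfl⟩
    refine ⟨x₂⁻¹ * x₁, ?_⟩
    apply Subtype.ext
    show x₂⁻¹ * x₁ * (x₁⁻¹ * δ * s x₁) * (s (x₂⁻¹ * x₁))⁻¹ = x₂⁻¹ * δ * s x₂
    rw [map_mul, map_inv]
    group

variable [TopologicalSpace G]

instance instTopologicalSpaceTwOrbit (s : G →* G) (δ : G) : TopologicalSpace (TwOrbit s δ) :=
  inferInstanceAs (TopologicalSpace {y : G // y ∈ twClass s δ})

theorem TwOrbit.isEmbedding_val (s : G →* G) (δ : G) :
    IsEmbedding (TwOrbit.val : TwOrbit s δ → G) := IsEmbedding.subtypeVal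

theorem TwOrbit.isClosedEmbedding_val (s : G →* G) (δ : G) (hC : IsClosed (twClass s δ)) :
    IsClosedEmbedding (TwOrbit.val : TwOrbit s δ → G) := hC.isClosedEmbedding_subtypeVal

variable [IsTopologicalGroup G]

theorem continuousSMul_twOrbit (s : G →* G) (hs : Continuous s) (δ : G) :
    ContinuousSMul G (TwOrbit s δ) where
  continuous_smul := by
    rw [(TwOrbit.isEmbedding_val s δ).continuous_iff]
    have h1 : Continuous fun p : G × TwOrbit s δ => p.1 * p.2.val * (s p.1)⁻¹ := by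
      have hv : Continuous (TwOrbit.val : TwOrbit s δ → G) :=
        (TwOrbit.isEmbedding_val s δ).continuous
      exact (continuous_fst.mul (hv.comp continuous_snd)).mul (hs.comp continuous_fst).inv
    exact h1

/-- **Finitely many `U`-orbits of a closed twisted conjugacy class meet a compact set.** -/
theorem exists_finite_reps [SigmaCompactSpace G] [T2Space G] [LocallyCompactSpace G]
    (s : G →* G) (hs : Continuous s) (U : Subgroup G) (hU : IsOpen (U : Set G))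
    (K : Set G) (hK : IsCompact K) (δ : G) (hC : IsClosed (twClass s δ)) :
    ∃ R : Finset G, (∀ y ∈ R, ∃ x : G, y = x⁻¹ * δ * s x) ∧
      (∀ y ∈ R, ∀ y' ∈ R, (∃ u : G, u ∈ U ∧ y' = u⁻¹ * y * s u) → y = y') ∧
      (∀ y : G, (∃ x : G, y = x⁻¹ * δ * s x) → y ∈ K →
        ∃ y' ∈ R, ∃ u : G, u ∈ U ∧ y = u⁻¹ * y' * s u) := by
  classical
  haveI : ContinuousSMul G (TwOrbit s δ) := continuousSMul_twOrbit s hs δ
  haveI : LocallyCompactSpace (TwOrbit s δ) :=
    (TwOrbit.isClosedEmbedding_val s δ hC).locallyCompactSpace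
  haveI : T2Space (TwOrbit s δ) := (TwOrbit.isEmbedding_val s δ).t2Space
  have hnhds : ∀ x : TwOrbit s δ, (U : Set G) • ({x} : Set (TwOrbit s δ)) ∈ 𝓝 x := fun x =>
    smul_singleton_mem_nhds_of_sigmaCompact (hU.mem_nhds U.one_mem) x
  have hK' : IsCompact ((TwOrbit.val : TwOrbit s δ → G) ⁻¹' K) :=
    (TwOrbit.isClosedEmbedding_val s δ hC).isCompact_preimage hK
  obtain ⟨t, -, ht⟩ := hK'.elim_nhds_subcover
    (fun x => (U : Set G) • ({x} : Set (TwOrbit s δ))) (fun x _ => hnhds x)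
  -- the equivalence relation of twisted conjugation by `U`
  let r : Setoid G :=
    { r := fun y y' => ∃ u : G, u ∈ U ∧ y' = u⁻¹ * y * s u
      iseqv :=
        { refl := fun y => ⟨1, U.one_mem, by simp⟩
          symm := by
            rintro y y' ⟨u, hu, rfl⟩
            refine ⟨u⁻¹, U.inv_mem hu, ?_⟩
            rw [map_inv]
            group
          trans := by
            rintro y y' y'' ⟨u, hu, rfl⟩ ⟨v, hv, rfl⟩
            refine ⟨u * v, U.mul_mem hu hv, ?_⟩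
            rw [map_mul]
            group } }
  let f : G → G := fun y => (Quotient.mk r y).out
  have hf : ∀ y, ∃ u : G, u ∈ U ∧ y = u⁻¹ * f y * s u := fun y =>
    Quotient.exact (Quotient.out_eq (Quotient.mk r y))
  have hf' : ∀ y y', (∃ u : G, u ∈ U ∧ y' = u⁻¹ * y * s u) → f y = f y' := fun y y' h =>
    congrArg Quotient.out (Quotient.sound (s := r) h)
  refine ⟨t.image (fun x => f x.val), ?_, ?_, ?_⟩
  · intro y hy
    obtain ⟨x, -, rfl⟩ := Finset.mem_image.1 hy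
    obtain ⟨u, -, hu⟩ := hf x.val
    -- `f x = u x s(u)⁻¹`
    have key : ∀ a b : G, a = u⁻¹ * b * s u → b = u * a * (s u)⁻¹ := by
      intro a b h
      rw [h]
      group
    rw [key _ _ hu]
    exact twClass_stable s δ x.2 u
  · intro y hy y' hy' hyy'
    obtain ⟨x, -, rfl⟩ := Finset.mem_image.1 hy
    obtain ⟨x', -, rfl⟩ := Finset.mem_image.1 hy'
    have h1 : f (f x.val) = f (f x'.val) := hf' _ _ hyy'
    have h2 : ∀ z, f (f z) = f z := fun z => hf' _ _ (hf z)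
    rw [h2, h2] at h1
    exact h1
  · intro y hy hyK
    have hyK' : (⟨y, hy⟩ : TwOrbit s δ) ∈ (TwOrbit.val : TwOrbit s δ → G) ⁻¹' K := hyK
    obtain ⟨x, hxt, hx⟩ := Set.mem_iUnion₂.1 (ht hyK')
    obtain ⟨u, hu, z, hz, huz⟩ := Set.mem_smul.1 hx
    have hzx : z = x := hz
    subst hzx
    have h1 : y = u * z.val * (s u)⁻¹ := by
      have := congrArg TwOrbit.val huz
      exact this.symm
    obtain ⟨w, hw, hwz⟩ := hf z.val
    refine ⟨f z.val, Finset.mem_image.2 ⟨z, hxt, rfl⟩, w * u⁻¹, U.mul_mem hw (U.inv_mem hu), ?_⟩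
    rw [h1, map_mul, map_inv]
    conv_lhs => rw [hwz]
    group

theorem continuous_twN (s : G →* G) (hs : Continuous s) (n : ℕ) : Continuous (twN s n) := by
  induction n with
  | zero => exact continuous_const
  | succ n ih =>
    have : twN s (n + 1) = fun δ => δ * s (twN s n δ) := by
      funext δ
      rfl
    rw [this]
    exact continuous_id.mul (hs.comp ih)

end Abstract

section Main

variable {k k' : Type} [Field k] [Field k'] [Valued k Γ₀] [Valued k' Γ₀]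

omit [Valued k Γ₀] [Valued k' Γ₀] in
/-- The twisted conjugacy class of `δ` with `N δ` regular is cut out by the trace and the
determinant of the norm. -/
theorem twClass_eq_of_normInj (hNI : NormInjC) {l : ℕ} {i : k →+* k'} {s : k' ≃+* k'}
    (hcyc : IsCyclicData k k' l i s) (δ : GL (Fin 2) k') (hreg : IsReg (twNorm s l δ)) :
    twClass (glAut s) δ =
      {y | ((twNorm s l y : GL (Fin 2) k') : Matrix (Fin 2) (Fin 2) k').trace
          = ((twNorm s l δ : GL (Fin 2) k') : Matrix (Fin 2) (Fin 2) k').trace} ∩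
      {y | ((twNorm s l y : GL (Fin 2) k') : Matrix (Fin 2) (Fin 2) k').det
          = ((twNorm s l δ : GL (Fin 2) k') : Matrix (Fin 2) (Fin 2) k').det} := by
  ext y
  constructor
  · rintro ⟨x, rfl⟩
    refine ⟨?_, ?_⟩
    · show ((twNorm s l (x⁻¹ * δ * glAut s x) : GL (Fin 2) k') :
        Matrix (Fin 2) (Fin 2) k').trace = _
      rw [twNorm_twConj s l hcyc.order, trace_conj_GL]
    · show ((twNorm s l (x⁻¹ * δ * glAut s x) : GL (Fin 2) k') :
        Matrix (Fin 2) (Fin 2) k').det = _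
      rw [twNorm_twConj s l hcyc.order, det_conj_GL]
  · rintro ⟨h1, h2⟩
    have hconj : IsConj (twNorm s l δ) (twNorm s l y) :=
      isConj_of_trace_det_eq _ _ h1.symm h2.symm hreg
    exact hNI k k' l i s hcyc δ y hreg hconj

theorem isClosed_twClass (hNI : NormInjC) {q l e : ℕ} {i : k →+* k'} {s : k' ≃+* k'}
    (hk' : IsLocalField k' q) (hext : IsLocalExt k k' l e i s) (δ : GL (Fin 2) k')
    (hreg : IsReg (twNorm s l δ)) : IsClosed (twClass (glAut s) δ) := by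
  rw [twClass_eq_of_normInj hNI hext.cyc δ hreg]
  have hs : Continuous (glAut s) := continuous_glAut hk' s hext.val_s
  have hN : Continuous fun y : GL (Fin 2) k' =>
      ((twNorm s l y : GL (Fin 2) k') : Matrix (Fin 2) (Fin 2) k') :=
    Units.continuous_val.comp (continuous_twN (glAut s) hs l)
  exact (isClosed_eq hN.matrix_trace continuous_const).inter
    (isClosed_eq hN.matrix_det continuous_const)

/-- **T6.08**: existence of the twisted orbital integrals as finite orbit sums, given `NormInjC`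
(T6.05). -/
theorem orbSumExC_of_normInjC (hNI : NormInjC) : OrbSumExC := by
  intro k k' _ _ _ _ q l e i s _ hk' hext n φ _ hfs δ hreg
  obtain ⟨F, hF⟩ := hfs
  haveI : LocallyCompactSpace (GL (Fin 2) k') := locallyCompactSpace_GL hk'
  haveI : SigmaCompactSpace (GL (Fin 2) k') := sigmaCompactSpace_GL hk'
  obtain ⟨ϖ, hϖ⟩ := hk'.unif
  have hs : Continuous (glAut s) := continuous_glAut hk' s hext.val_s
  have hK : IsCompact (⋃ x ∈ F, (fun u : GL (Fin 2) k' => x * u) ''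
      ((subU n : Subgroup (GL (Fin 2) k')) : Set (GL (Fin 2) k'))) :=
    F.finite_toSet.isCompact_biUnion fun x _ =>
      (isCompact_subU hk' n).image (continuous_const.mul continuous_id)
  obtain ⟨R, hR1, hR2, hR3⟩ := exists_finite_reps (glAut s) hs (subU n) (isOpen_subU hϖ n) _ hK δ
    (isClosed_twClass hNI hk' hext δ hreg)
  refine ⟨∑ y ∈ R, φ y * (cIndex (InU n) (InTwCentC s) y : ℂ), R, hR1, hR2, ?_, rfl⟩
  intro y hy hφ
  obtain ⟨x, hx, u, hu, rfl⟩ := hF y hφ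
  exact hR3 _ hy (Set.mem_biUnion hx ⟨u, hu, rfl⟩)

end Main

end Fermat.Agent.LT.T6.H420

end
end
-- ===== PACK-END LT/T6/H420/OrbSumEx.lean

-- ===== PACK-BEGIN LT/T6/H706/OrdBasic.lean
section



/-!
# Row LT, tower T6, leaf T6.18f.5 `OrdC179` (helper706): basic lemmas

OFF-MAIN.  Mathlib + `T6/Spec.lean` (helper22) + `H783/BadSpec.lean` (helper783)
+ `H179/LocRegSpec.lean` (helper179) + `H125/Cut.lean` (helper125), all byte-identical copies.

* the predicates `InU n` are groups (`inU_one706`, `inU_inv706`, `inU_mul706`);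
* `inU_of_sub_one706`: `g ≡ 1` modulo `ϖ^m`, `m ≥ 1`, implies `g ∈ U(m)`;
* `exists_fin_cosets706`: the elements of `GL₂(k)` with entries bounded by `exp B` and
  determinant of valuation at least `exp (-D)` lie in finitely many cosets `x U(M)`.
-/

set_option autoImplicit false

open scoped Matrix

noncomputable section

namespace Fermat.Agent.LT.T6.H706

open Fermat.Agent.LT.T6 Fermat.Agent.LT.T6.H783 Fermat.Agent.LT.T6.H125
  Fermat.Agent.LT.T6.H179

variable {k : Type} [Field k] [Valued k Γ₀]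

/-! ## The automorphism for `s = 1` -/

omit [Valued k Γ₀] in
theorem glAut_refl706 (x : GL (Fin 2) k) : glAut (RingEquiv.refl k) x = x := by
  simp [glAut]

/-! ## Bounds in the value group -/

theorem exists_exp_ge706 (x : Γ₀) : ∃ B : ℤ, x ≤ WithZero.exp B := by
  by_cases h : x = 0
  · exact ⟨0, by rw [h]; exact zero_le⟩
  · exact ⟨WithZero.log x, (WithZero.exp_log h).ge⟩

theorem exists_entry_bound706 (A : Matrix (Fin 2) (Fin 2) k) :
    ∃ B : ℤ, 0 ≤ B ∧ ∀ i j, Valued.v (A i j) ≤ WithZero.exp B := by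
  obtain ⟨B00, h00⟩ := exists_exp_ge706 (Valued.v (A 0 0))
  obtain ⟨B01, h01⟩ := exists_exp_ge706 (Valued.v (A 0 1))
  obtain ⟨B10, h10⟩ := exists_exp_ge706 (Valued.v (A 1 0))
  obtain ⟨B11, h11⟩ := exists_exp_ge706 (Valued.v (A 1 1))
  refine ⟨max 0 (max (max B00 B01) (max B10 B11)), le_max_left _ _, fun i j => ?_⟩
  fin_cases i <;> fin_cases j
  · exact h00.trans (WithZero.exp_le_exp.2 (by simp))
  · exact h01.trans (WithZero.exp_le_exp.2 (by simp))
  · exact h10.trans (WithZero.exp_le_exp.2 (by simp))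
  · exact h11.trans (WithZero.exp_le_exp.2 (by simp))

/-! ## The groups `U(n)` -/

theorem inU_one706 (n : ℕ) : InU n (1 : GL (Fin 2) k) := by
  intro i j
  simp

theorem inU_inv706 {n : ℕ} {g : GL (Fin 2) k} (h : InU n g) : InU n g⁻¹ := by
  intro i j
  refine ⟨(h i j).2, ?_⟩
  rw [inv_inv]
  exact (h i j).1

theorem mul_sub_one_entry706 {ε : Γ₀} {a b : GL (Fin 2) k}
    (ha : ∀ i j, Valued.v ((a : Matrix (Fin 2) (Fin 2) k) i j
      - (1 : Matrix (Fin 2) (Fin 2) k) i j) ≤ ε)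
    (hb : ∀ i j, Valued.v ((b : Matrix (Fin 2) (Fin 2) k) i j
      - (1 : Matrix (Fin 2) (Fin 2) k) i j) ≤ ε)
    (hb1 : ∀ i j, Valued.v ((b : Matrix (Fin 2) (Fin 2) k) i j) ≤ 1) (i j : Fin 2) :
    Valued.v (((a * b : GL (Fin 2) k) : Matrix (Fin 2) (Fin 2) k) i j
      - (1 : Matrix (Fin 2) (Fin 2) k) i j) ≤ ε := by
  have h1 : ((a * b : GL (Fin 2) k) : Matrix (Fin 2) (Fin 2) k) - 1
      = ((a : Matrix (Fin 2) (Fin 2) k) - 1) * (b : Matrix (Fin 2) (Fin 2) k)
        + ((b : Matrix (Fin 2) (Fin 2) k) - 1) := by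
    rw [Matrix.GeneralLinearGroup.coe_mul]
    noncomm_ring
  have h2 : ((a * b : GL (Fin 2) k) : Matrix (Fin 2) (Fin 2) k) i j
      - (1 : Matrix (Fin 2) (Fin 2) k) i j
      = (((a : Matrix (Fin 2) (Fin 2) k) - 1) * (b : Matrix (Fin 2) (Fin 2) k)) i j
        + ((b : Matrix (Fin 2) (Fin 2) k) - 1) i j := by
    rw [← Matrix.sub_apply, h1, Matrix.add_apply]
  rw [h2]
  refine v_add_le125 ?_ (hb i j)
  have := v_mul_entry125 (A := (a : Matrix (Fin 2) (Fin 2) k) - 1)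
    (B := (b : Matrix (Fin 2) (Fin 2) k)) (a := ε) (b := 1) ha hb1 i j
  rwa [mul_one] at this

theorem inU_mul706 {n : ℕ} {g h : GL (Fin 2) k} (hg : InU n g) (hh : InU n h) :
    InU n (g * h) := by
  intro i j
  refine ⟨mul_sub_one_entry706 (fun i j => (hg i j).1) (fun i j => (hh i j).1)
    (inU_entry125 hh) i j, ?_⟩
  rw [mul_inv_rev]
  exact mul_sub_one_entry706 (fun i j => (hh i j).2) (fun i j => (hg i j).2)
    (inU_inv_entry125 hg) i j

/-- `det u` is a unit for `u ∈ U(n)`. -/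
theorem inU_det706 {n : ℕ} {u : GL (Fin 2) k} (h : InU n u) :
    Valued.v (u : Matrix (Fin 2) (Fin 2) k).det = 1 := by
  have h1 := inU_det_le_one125 h
  have h2 := inU_det_le_one125 (inU_inv706 h)
  have h3 : (u : Matrix (Fin 2) (Fin 2) k).det
      * ((u⁻¹ : GL (Fin 2) k) : Matrix (Fin 2) (Fin 2) k).det = 1 := by
    rw [← Matrix.det_mul, ← Matrix.GeneralLinearGroup.coe_mul, mul_inv_cancel]
    simp
  have h4 : Valued.v (u : Matrix (Fin 2) (Fin 2) k).det
      * Valued.v ((u⁻¹ : GL (Fin 2) k) : Matrix (Fin 2) (Fin 2) k).det = 1 := by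
    rw [← map_mul, h3, map_one]
  refine le_antisymm h1 ?_
  calc (1 : Γ₀) = Valued.v (u : Matrix (Fin 2) (Fin 2) k).det
        * Valued.v ((u⁻¹ : GL (Fin 2) k) : Matrix (Fin 2) (Fin 2) k).det := h4.symm
    _ ≤ Valued.v (u : Matrix (Fin 2) (Fin 2) k).det * 1 := mul_le_mul' le_rfl h2
    _ = Valued.v (u : Matrix (Fin 2) (Fin 2) k).det := mul_one _

/-! ## Inverses of bounded matrices -/

omit [Valued k Γ₀] in
theorem det_ne_zero706 (w : GL (Fin 2) k) : (w : Matrix (Fin 2) (Fin 2) k).det ≠ 0 := by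
  have h3 : (w : Matrix (Fin 2) (Fin 2) k).det
      * ((w⁻¹ : GL (Fin 2) k) : Matrix (Fin 2) (Fin 2) k).det = 1 := by
    rw [← Matrix.det_mul, ← Matrix.GeneralLinearGroup.coe_mul, mul_inv_cancel]
    simp
  intro h
  rw [h, zero_mul] at h3
  exact zero_ne_one h3

/-- The entries of the inverse: `w⁻¹ = (det w)⁻¹ adj w`. -/
theorem inv_entry706 (w : GL (Fin 2) k) (i j : Fin 2) :
    ∃ i' j' : Fin 2, Valued.v (((w⁻¹ : GL (Fin 2) k) : Matrix (Fin 2) (Fin 2) k) i j)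
      = (Valued.v (w : Matrix (Fin 2) (Fin 2) k).det)⁻¹
        * Valued.v ((w : Matrix (Fin 2) (Fin 2) k) i' j') := by
  rw [Matrix.GeneralLinearGroup.coe_inv, Matrix.inv_def, Ring.inverse_eq_inv',
    Matrix.adjugate_fin_two]
  fin_cases i <;> fin_cases j
  · exact ⟨1, 1, by simp⟩
  · exact ⟨0, 1, by simp⟩
  · exact ⟨1, 0, by simp⟩
  · exact ⟨0, 0, by simp⟩

theorem inv_entry_le706 {B D : ℤ} {w : GL (Fin 2) k}
    (hB : ∀ i j, Valued.v ((w : Matrix (Fin 2) (Fin 2) k) i j) ≤ WithZero.exp B)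
    (hD : WithZero.exp (-D) ≤ Valued.v (w : Matrix (Fin 2) (Fin 2) k).det) (i j : Fin 2) :
    Valued.v (((w⁻¹ : GL (Fin 2) k) : Matrix (Fin 2) (Fin 2) k) i j)
      ≤ WithZero.exp (D + B) := by
  obtain ⟨i', j', h⟩ := inv_entry706 w i j
  rw [h, WithZero.exp_add]
  refine mul_le_mul' ?_ (hB i' j')
  have h1 : (Valued.v (w : Matrix (Fin 2) (Fin 2) k).det)⁻¹
      ≤ (WithZero.exp (-D) : Γ₀)⁻¹ := inv_anti₀ WithZero.exp_pos hD
  rwa [WithZero.exp_neg, inv_inv] at h1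

/-- `g ≡ 1` modulo `ϖ^m`, `m ≥ 1`, implies `g ∈ U(m)`. -/
theorem inU_of_sub_one706 {m : ℕ} (hm : 1 ≤ m) {g : GL (Fin 2) k}
    (h : ∀ i j, Valued.v ((g : Matrix (Fin 2) (Fin 2) k) i j
      - (1 : Matrix (Fin 2) (Fin 2) k) i j) ≤ WithZero.exp (-(m : ℤ))) : InU m g := by
  set ε : Γ₀ := WithZero.exp (-(m : ℤ)) with hε
  have hε1 : ε < 1 := by
    rw [hε, ← WithZero.exp_zero]
    exact WithZero.exp_lt_exp.2 (by omega)
  have h00 : Valued.v ((g : Matrix (Fin 2) (Fin 2) k) 0 0 - 1) ≤ ε := by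
    have := h 0 0
    rwa [Matrix.one_apply_eq] at this
  have h11 : Valued.v ((g : Matrix (Fin 2) (Fin 2) k) 1 1 - 1) ≤ ε := by
    have := h 1 1
    rwa [Matrix.one_apply_eq] at this
  have h01 : Valued.v ((g : Matrix (Fin 2) (Fin 2) k) 0 1) ≤ ε := by
    have := h 0 1
    rwa [Matrix.one_apply_ne (by decide), sub_zero] at this
  have h10 : Valued.v ((g : Matrix (Fin 2) (Fin 2) k) 1 0) ≤ ε := by
    have := h 1 0
    rwa [Matrix.one_apply_ne (by decide), sub_zero] at this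
  have hεε : ε * ε ≤ ε := by
    calc ε * ε ≤ ε * 1 := mul_le_mul' le_rfl hε1.le
      _ = ε := mul_one ε
  have hd : (g : Matrix (Fin 2) (Fin 2) k).det - 1
      = (((g : Matrix (Fin 2) (Fin 2) k) 0 0 - 1) + ((g : Matrix (Fin 2) (Fin 2) k) 1 1 - 1))
        + (((g : Matrix (Fin 2) (Fin 2) k) 0 0 - 1) * ((g : Matrix (Fin 2) (Fin 2) k) 1 1 - 1)
          - (g : Matrix (Fin 2) (Fin 2) k) 0 1 * (g : Matrix (Fin 2) (Fin 2) k) 1 0) := by
    rw [Matrix.det_fin_two]
    ring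
  have hdet1 : Valued.v ((g : Matrix (Fin 2) (Fin 2) k).det - 1) ≤ ε := by
    rw [hd]
    exact v_add_le125 (v_add_le125 h00 h11)
      (v_sub_le125 ((v_mul_le125 h00 h11).trans hεε) ((v_mul_le125 h01 h10).trans hεε))
  have hdet : Valued.v (g : Matrix (Fin 2) (Fin 2) k).det = 1 := by
    have h2 : (g : Matrix (Fin 2) (Fin 2) k).det
        = 1 + ((g : Matrix (Fin 2) (Fin 2) k).det - 1) := by ring
    rw [h2]
    exact Valuation.map_one_add_of_lt _ (lt_of_le_of_lt hdet1 hε1)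
  have hd0 : (g : Matrix (Fin 2) (Fin 2) k).det ≠ 0 := det_ne_zero706 g
  intro i j
  refine ⟨h i j, ?_⟩
  rw [Matrix.GeneralLinearGroup.coe_inv, Matrix.inv_def, Ring.inverse_eq_inv',
    Matrix.adjugate_fin_two]
  fin_cases i <;> fin_cases j
  · have e : ((g : Matrix (Fin 2) (Fin 2) k).det)⁻¹ * (g : Matrix (Fin 2) (Fin 2) k) 1 1 - 1
        = ((g : Matrix (Fin 2) (Fin 2) k).det)⁻¹
          * (((g : Matrix (Fin 2) (Fin 2) k) 1 1 - 1)
            - ((g : Matrix (Fin 2) (Fin 2) k).det - 1)) := by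
      field_simp
      ring
    simp only [Fin.zero_eta, Fin.isValue, Matrix.smul_apply, Matrix.of_apply,
      Matrix.cons_val', Matrix.cons_val_zero, Matrix.cons_val_fin_one, smul_eq_mul,
      Matrix.one_apply_eq]
    rw [e, map_mul, map_inv₀, hdet, inv_one, one_mul]
    exact v_sub_le125 h11 hdet1
  · simp only [Fin.zero_eta, Fin.isValue, Fin.mk_one, Matrix.smul_apply, Matrix.of_apply,
      Matrix.cons_val', Matrix.cons_val_one, Matrix.cons_val_zero, Matrix.cons_val_fin_one,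
      smul_eq_mul, ne_eq, zero_ne_one, not_false_eq_true, Matrix.one_apply_ne, sub_zero]
    rw [map_mul, map_inv₀, hdet, inv_one, one_mul, Valuation.map_neg]
    exact h01
  · simp only [Fin.mk_one, Fin.isValue, Fin.zero_eta, Matrix.smul_apply, Matrix.of_apply,
      Matrix.cons_val', Matrix.cons_val_zero, Matrix.cons_val_one, Matrix.cons_val_fin_one,
      smul_eq_mul, ne_eq, one_ne_zero, not_false_eq_true, Matrix.one_apply_ne, sub_zero]
    rw [map_mul, map_inv₀, hdet, inv_one, one_mul, Valuation.map_neg]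
    exact h10
  · have e : ((g : Matrix (Fin 2) (Fin 2) k).det)⁻¹ * (g : Matrix (Fin 2) (Fin 2) k) 0 0 - 1
        = ((g : Matrix (Fin 2) (Fin 2) k).det)⁻¹
          * (((g : Matrix (Fin 2) (Fin 2) k) 0 0 - 1)
            - ((g : Matrix (Fin 2) (Fin 2) k).det - 1)) := by
      field_simp
      ring
    simp only [Fin.mk_one, Fin.isValue, Matrix.smul_apply, Matrix.of_apply,
      Matrix.cons_val', Matrix.cons_val_one, Matrix.cons_val_fin_one, smul_eq_mul,
      Matrix.one_apply_eq]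
    rw [e, map_mul, map_inv₀, hdet, inv_one, one_mul]
    exact v_sub_le125 h00 hdet1

/-! ## Finitely many cosets in a bounded set -/

/-- A finite set which approximates every element of valuation at most `exp B` modulo
`exp (-L)`. -/
theorem approxB706 {q : ℕ} (hk : IsLocalField k q) (B L : ℤ) :
    ∃ S : Finset k, ∀ z : k, Valued.v z ≤ WithZero.exp B →
      ∃ s ∈ S, Valued.v (z - s) ≤ WithZero.exp (-L) := by
  classical
  obtain ⟨ϖ, hϖ⟩ := hk.unif
  have hϖ0 : ϖ ≠ 0 := by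
    intro h
    rw [h, map_zero] at hϖ
    exact WithZero.exp_ne_zero hϖ.symm
  have hpow : ∀ j : ℤ, Valued.v (ϖ ^ j) = WithZero.exp (-j) := by
    intro j
    rw [map_zpow₀, hϖ, ← WithZero.exp_zsmul]
    congr 1
    simp
  obtain ⟨S₀, hS₀⟩ := approx125 hk (B + L).toNat
  refine ⟨S₀.image (fun s => s * ϖ ^ (-B)), fun z hz => ?_⟩
  have hz' : Valued.v (z * ϖ ^ B) ≤ 1 := by
    rw [map_mul, hpow]
    calc Valued.v z * WithZero.exp (-B) ≤ WithZero.exp B * WithZero.exp (-B) :=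
          mul_le_mul' hz le_rfl
      _ = 1 := by rw [← WithZero.exp_add, add_neg_cancel, WithZero.exp_zero]
  obtain ⟨s, hs, hzs⟩ := hS₀ _ hz'
  refine ⟨s * ϖ ^ (-B), Finset.mem_image.2 ⟨s, hs, rfl⟩, ?_⟩
  have h1 : z - s * ϖ ^ (-B) = (z * ϖ ^ B - s) * ϖ ^ (-B) := by
    rw [sub_mul, mul_assoc, ← zpow_add₀ hϖ0, add_neg_cancel, zpow_zero, mul_one]
  rw [h1, map_mul, hpow, neg_neg]
  calc Valued.v (z * ϖ ^ B - s) * WithZero.exp B
      ≤ WithZero.exp (-(((B + L).toNat : ℕ) : ℤ)) * WithZero.exp B := mul_le_mul' hzs le_rfl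
    _ = WithZero.exp (-(((B + L).toNat : ℕ) : ℤ) + B) := (WithZero.exp_add _ _).symm
    _ ≤ WithZero.exp (-L) := by
        refine WithZero.exp_le_exp.2 ?_
        have := Int.self_le_toNat (B + L)
        omega

/-- Two elements of a bounded set which agree modulo `ϖ^L`, `L` large, differ by an element of
`U(M)`. -/
theorem inU_of_close_bdd706 {B D L : ℤ} {M : ℕ} (hL : D + B + M ≤ L) {w w' : GL (Fin 2) k}
    (hw : ∀ i j, Valued.v ((w : Matrix (Fin 2) (Fin 2) k) i j) ≤ WithZero.exp B)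
    (hwD : WithZero.exp (-D) ≤ Valued.v (w : Matrix (Fin 2) (Fin 2) k).det)
    (hw' : ∀ i j, Valued.v ((w' : Matrix (Fin 2) (Fin 2) k) i j) ≤ WithZero.exp B)
    (hwD' : WithZero.exp (-D) ≤ Valued.v (w' : Matrix (Fin 2) (Fin 2) k).det)
    (h : ∀ i j, Valued.v ((w : Matrix (Fin 2) (Fin 2) k) i j
      - (w' : Matrix (Fin 2) (Fin 2) k) i j) ≤ WithZero.exp (-L)) :
    InU M (w⁻¹ * w') := by
  have key : ∀ a b : GL (Fin 2) k,
      (∀ i j, Valued.v ((a : Matrix (Fin 2) (Fin 2) k) i j) ≤ WithZero.exp B) →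
      WithZero.exp (-D) ≤ Valued.v (a : Matrix (Fin 2) (Fin 2) k).det →
      (∀ i j, Valued.v ((a : Matrix (Fin 2) (Fin 2) k) i j
        - (b : Matrix (Fin 2) (Fin 2) k) i j) ≤ WithZero.exp (-L)) →
      ∀ i j, Valued.v (((a⁻¹ * b : GL (Fin 2) k) : Matrix (Fin 2) (Fin 2) k) i j
        - (1 : Matrix (Fin 2) (Fin 2) k) i j) ≤ WithZero.exp (-(M : ℤ)) := by
    intro a b ha haD hab i j
    have h1 : ((a⁻¹ * b : GL (Fin 2) k) : Matrix (Fin 2) (Fin 2) k) - 1
        = ((a⁻¹ : GL (Fin 2) k) : Matrix (Fin 2) (Fin 2) k)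
          * ((b : Matrix (Fin 2) (Fin 2) k) - (a : Matrix (Fin 2) (Fin 2) k)) := by
      rw [mul_sub, ← Units.val_mul, ← Units.val_mul, inv_mul_cancel, Units.val_one]
    have h2 : ∀ i j, Valued.v (((b : Matrix (Fin 2) (Fin 2) k)
        - (a : Matrix (Fin 2) (Fin 2) k)) i j) ≤ WithZero.exp (-L) := by
      intro i j
      rw [Matrix.sub_apply, Valuation.map_sub_swap]
      exact hab i j
    have h3 := v_mul_entry125 (inv_entry_le706 ha haD) h2 i j
    rw [← h1, Matrix.sub_apply] at h3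
    refine h3.trans ?_
    rw [← WithZero.exp_add]
    exact WithZero.exp_le_exp.2 (by omega)
  intro i j
  refine ⟨key w w' hw hwD h i j, ?_⟩
  have h0 : (w⁻¹ * w')⁻¹ = w'⁻¹ * w := by group
  rw [h0]
  refine key w' w hw' hwD' (fun i j => ?_) i j
  rw [Valuation.map_sub_swap]
  exact h i j

/-- **Finitely many cosets.**  The elements of `GL₂(k)` with entries bounded by `exp B` and
determinant of valuation at least `exp (-D)` lie in finitely many cosets `x U(M)`. -/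
theorem exists_fin_cosets706 {q : ℕ} (hk : IsLocalField k q) (B D : ℤ) (M : ℕ) :
    ∃ F : Finset (GL (Fin 2) k), ∀ g : GL (Fin 2) k,
      (∀ i j, Valued.v ((g : Matrix (Fin 2) (Fin 2) k) i j) ≤ WithZero.exp B) →
      WithZero.exp (-D) ≤ Valued.v (g : Matrix (Fin 2) (Fin 2) k).det →
      ∃ x ∈ F, ∃ u : GL (Fin 2) k, InU M u ∧ g = x * u := by
  classical
  obtain ⟨S, hS⟩ := approxB706 hk B (D + B + M)
  let I : Finset (Fin 2 → Fin 2 → k) :=
    Fintype.piFinset (fun _ => Fintype.piFinset (fun _ => S))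
  let ok : (Fin 2 → Fin 2 → k) → GL (Fin 2) k → Prop := fun r w =>
    (∀ i j, Valued.v ((w : Matrix (Fin 2) (Fin 2) k) i j) ≤ WithZero.exp B) ∧
    WithZero.exp (-D) ≤ Valued.v (w : Matrix (Fin 2) (Fin 2) k).det ∧
    ∀ i j, Valued.v ((w : Matrix (Fin 2) (Fin 2) k) i j - r i j)
      ≤ WithZero.exp (-(D + B + M))
  let rep : (Fin 2 → Fin 2 → k) → GL (Fin 2) k := fun r =>
    if h : ∃ w, ok r w then Classical.choose h else 1
  refine ⟨I.image rep, fun g hg hgD => ?_⟩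
  have hex : ∀ i j, ∃ s ∈ S, Valued.v ((g : Matrix (Fin 2) (Fin 2) k) i j - s)
      ≤ WithZero.exp (-(D + B + M)) := fun i j => hS _ (hg i j)
  choose r hrS hr using hex
  have hrI : r ∈ I := by
    simp only [I, Fintype.mem_piFinset]
    exact fun i j => hrS i j
  have hok : ∃ w₀, ok r w₀ := ⟨g, hg, hgD, hr⟩
  have hrep : rep r = Classical.choose hok := dif_pos hok
  obtain ⟨hw₀, hw₀D, hw₀r⟩ := Classical.choose_spec hok
  refine ⟨Classical.choose hok, Finset.mem_image.2 ⟨r, hrI, hrep⟩,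
    (Classical.choose hok)⁻¹ * g, ?_, ?_⟩
  · apply inU_of_close_bdd706 (le_refl (D + B + (M : ℤ))) hw₀ hw₀D hg hgD
    intro i j
    have h1 : ((Classical.choose hok : GL (Fin 2) k) : Matrix (Fin 2) (Fin 2) k) i j
        - (g : Matrix (Fin 2) (Fin 2) k) i j
        = (((Classical.choose hok : GL (Fin 2) k) : Matrix (Fin 2) (Fin 2) k) i j - r i j)
          - ((g : Matrix (Fin 2) (Fin 2) k) i j - r i j) := by ring
    rw [h1]
    exact v_sub_le125 (hw₀r i j) (hr i j)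
  · group

/-- The cosets `t U(M)` of the elements of a set contained in a bounded set are finitely many. -/
theorem finite_cosets706 {q : ℕ} (hk : IsLocalField k q) (B D : ℤ) (M : ℕ)
    (P : GL (Fin 2) k → Prop)
    (hP : ∀ t, P t → (∀ i j, Valued.v ((t : Matrix (Fin 2) (Fin 2) k) i j) ≤ WithZero.exp B) ∧
      WithZero.exp (-D) ≤ Valued.v (t : Matrix (Fin 2) (Fin 2) k).det) :
    Set.Finite {c : Set (GL (Fin 2) k) | ∃ t : GL (Fin 2) k, P t ∧
      c = {g : GL (Fin 2) k | ∃ u : GL (Fin 2) k, InU M u ∧ g = t * u}} := by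
  classical
  obtain ⟨F, hF⟩ := exists_fin_cosets706 hk B D M
  refine Set.Finite.subset
    (Finset.finite_toSet (F.image fun x => {g : GL (Fin 2) k | ∃ u : GL (Fin 2) k,
      InU M u ∧ g = x * u})) ?_
  rintro c ⟨t, ht, rfl⟩
  obtain ⟨x, hx, u, hu, rfl⟩ := hF t (hP t ht).1 (hP t ht).2
  rw [Finset.mem_coe, Finset.mem_image]
  refine ⟨x, hx, ?_⟩
  ext g
  constructor
  · rintro ⟨u', hu', rfl⟩
    exact ⟨u⁻¹ * u', inU_mul706 (inU_inv706 hu) hu', by group⟩
  · rintro ⟨u', hu', rfl⟩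
    exact ⟨u * u', inU_mul706 hu hu', by group⟩

end Fermat.Agent.LT.T6.H706

end

end
-- ===== PACK-END LT/T6/H706/OrdBasic.lean

-- ===== PACK-BEGIN LT/T6/H286/LatRigid.lean
section


/-!
# Row LT, tower T6, sub-leaf T6.14b.L2 `LatRigidC129` (rigidity) — helper286, OFF-MAIN

Registry row 1165.  Spec bytes: `LT/H129/EllParamSpec.lean` (helper129@6c63cff25, sha256
9e6fc0e0), `LT/T6/H847/EllRamSpec.lean` (3578c164), `LT/T6/Spec.lean` (89f8f8b8): byte-identical
copies.  Mathlib + these three files only.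

`latRigidC286 : H129.LatRigidC129`.

Proof (conductor of the lattice; no inverse in `E` is computed).  `M₀ = e(0, νⁿ)` satisfies
`M₀ · latMat n ξ = latMat n ξ · C`, `C = !![0, -ν^(2n+1); 1, τ νⁿ]` integral.  If
`L' = t L u` with `t = e(a, b)` (which commutes with `M₀`) and `u ∈ GL₂(𝒪)`, then
`M₀ L' = L' D` with `D = u⁻¹ C u` integral; comparing the first columns,
`ν^n' · D₁₀ · N(1, ξ') = νⁿ · N(1, ξ')`, so `n' ≤ n`.  The inverse relation gives `n ≤ n'`.
Then `|det t| = 1`, i.e. `|a² + τ a b + ν b²| = 1`, which forces `|a| = 1`, `|b| ≤ 1`.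
-/

set_option autoImplicit false

open scoped Matrix

noncomputable section

namespace Fermat.Agent.LT.T6.H286

open Fermat.Agent.LT.T6 Fermat.Agent.LT.T6.H847 Fermat.Agent.LT.H129

/-! ## 1. The value group `ℤᵐ⁰` -/

theorem le_exp_neg_one_of_lt_one286 {x : Γ₀} (h : x < 1) : x ≤ WithZero.exp (-1 : ℤ) := by
  rcases eq_or_ne x 0 with rfl | hx
  · exact zero_le
  · rw [← WithZero.log_le_iff_le_exp hx]
    have h1 : WithZero.log x < 0 := by
      rw [WithZero.log_lt_iff_lt_exp hx, WithZero.exp_zero]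
      exact h
    omega

theorem exp_one_le_of_one_lt286 {x : Γ₀} (h : 1 < x) : WithZero.exp (1 : ℤ) ≤ x := by
  have hx : x ≠ 0 := (zero_lt_one.trans h).ne'
  rw [← WithZero.le_log_iff_exp_le hx]
  have h1 : 0 < WithZero.log x := by
    rw [WithZero.lt_log_iff_exp_lt hx, WithZero.exp_zero]
    exact h
  omega

theorem exp_neg_one_pow286 (n : ℕ) :
    (WithZero.exp (-1 : ℤ) : Γ₀) ^ n = WithZero.exp (-(n : ℤ)) := by
  rw [← WithZero.exp_nsmul]
  congr 1
  simp

theorem exp_neg_one_lt_one286 : (WithZero.exp (-1 : ℤ) : Γ₀) < 1 := by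
  rw [← WithZero.exp_zero, WithZero.exp_lt_exp]
  omega

/-! ## 2. Matrices -/

section Alg

variable {k : Type} [Field k]

theorem det_embMat286 (τ ν a b : k) :
    (embMat τ ν a b).det = a ^ 2 + τ * a * b + ν * b ^ 2 := by
  simp only [embMat, Matrix.det_fin_two_of]
  ring

theorem det_latMat286 (τ ν : k) (n : ℕ) (ξ : k) :
    (latMat τ ν n ξ).det = ν ^ n * (1 + τ * ξ + ν * ξ ^ 2) := by
  simp only [latMat, Matrix.det_fin_two_of]
  ring

theorem embMat_comm286 (τ ν a b c d : k) :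
    embMat τ ν a b * embMat τ ν c d = embMat τ ν c d * embMat τ ν a b := by
  ext i j
  fin_cases i <;> fin_cases j <;>
    simp [embMat, Matrix.mul_apply, Fin.sum_univ_two] <;> ring

end Alg

variable {k : Type} [Field k] [Valued k Γ₀]

theorem ne_zero_of_val286 {ν : k} (hν : Valued.v ν = WithZero.exp (-1 : ℤ)) : ν ≠ 0 := by
  intro h
  rw [h, map_zero] at hν
  exact WithZero.exp_ne_zero hν.symm

theorem val_lt_one_mul286 {x y : k} (hx : Valued.v x < 1) (hy : Valued.v y ≤ 1) :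
    Valued.v (x * y) < 1 := by
  rw [map_mul]
  calc Valued.v x * Valued.v y ≤ Valued.v x * 1 := mul_le_mul' le_rfl hy
    _ = Valued.v x := mul_one _
    _ < 1 := hx

theorem val_le_one_mul286 {x y : k} (hx : Valued.v x ≤ 1) (hy : Valued.v y ≤ 1) :
    Valued.v (x * y) ≤ 1 := by
  rw [map_mul]
  exact mul_le_one' hx hy

theorem val_norm_one286 {τ ν ξ : k} (hν : Valued.v ν = WithZero.exp (-1 : ℤ))
    (hτ : Valued.v τ < 1) (hξ : Valued.v ξ ≤ 1) :
    Valued.v (1 + τ * ξ + ν * ξ ^ 2) = 1 := by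
  have hν1 : Valued.v ν < 1 := by rw [hν]; exact exp_neg_one_lt_one286
  have h1 : Valued.v (τ * ξ) < 1 := val_lt_one_mul286 hτ hξ
  have h2 : Valued.v (ν * ξ ^ 2) < 1 :=
    val_lt_one_mul286 hν1 (by rw [map_pow]; exact pow_le_one' hξ 2)
  have h3 : Valued.v (τ * ξ + ν * ξ ^ 2) < 1 := Valuation.map_add_lt _ h1 h2
  rw [add_assoc]
  exact Valued.v.map_one_add_of_lt h3

theorem norm_ne_zero286 {τ ν ξ : k} (hν : Valued.v ν = WithZero.exp (-1 : ℤ))
    (hτ : Valued.v τ < 1) (hξ : Valued.v ξ ≤ 1) : 1 + τ * ξ + ν * ξ ^ 2 ≠ 0 := by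
  intro h
  have := val_norm_one286 hν hτ hξ
  rw [h, map_zero] at this
  exact zero_ne_one this

theorem latGL_coe286 {τ ν : k} (hν : Valued.v ν = WithZero.exp (-1 : ℤ))
    (hτ : Valued.v τ < 1) (n : ℕ) {ξ : k} (hξ : Valued.v ξ ≤ 1) :
    ((latGL τ ν n ξ : GL (Fin 2) k) : Matrix (Fin 2) (Fin 2) k) = latMat τ ν n ξ := by
  have hdet : (latMat τ ν n ξ).det ≠ 0 := by
    rw [det_latMat286]
    exact mul_ne_zero (pow_ne_zero _ (ne_zero_of_val286 hν)) (norm_ne_zero286 hν hτ hξ)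
  unfold latGL
  rw [dif_pos hdet]
  rfl

/-- Integral `2 × 2` matrices. -/
def IsInt286 (M : Matrix (Fin 2) (Fin 2) k) : Prop := ∀ i j, Valued.v (M i j) ≤ 1

theorem isInt_mul286 {A B : Matrix (Fin 2) (Fin 2) k} (hA : IsInt286 A) (hB : IsInt286 B) :
    IsInt286 (A * B) := by
  intro i j
  rw [Matrix.mul_apply, Fin.sum_univ_two]
  exact Valuation.map_add_le _ (val_le_one_mul286 (hA _ _) (hB _ _))
    (val_le_one_mul286 (hA _ _) (hB _ _))

theorem val_det_le286 {A : Matrix (Fin 2) (Fin 2) k} (hA : IsInt286 A) :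
    Valued.v A.det ≤ 1 := by
  rw [Matrix.det_fin_two]
  exact Valuation.map_sub_le _ (val_le_one_mul286 (hA _ _) (hA _ _))
    (val_le_one_mul286 (hA _ _) (hA _ _))

theorem inU_entry286 {u : GL (Fin 2) k} (hu : InU 0 u) :
    IsInt286 (u : Matrix (Fin 2) (Fin 2) k) ∧
      IsInt286 ((u⁻¹ : GL (Fin 2) k) : Matrix (Fin 2) (Fin 2) k) := by
  have e0 : (WithZero.exp (-((0 : ℕ) : ℤ)) : Γ₀) = 1 := by simp
  have h1 : ∀ i j : Fin 2, Valued.v ((1 : Matrix (Fin 2) (Fin 2) k) i j) ≤ 1 := by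
    intro i j
    by_cases hij : i = j
    · subst hij
      simp
    · simp [Matrix.one_apply_ne hij]
  constructor
  · intro i j
    have h := (hu i j).1
    rw [e0] at h
    have := Valuation.map_add_le _ h (h1 i j)
    simpa using this
  · intro i j
    have h := (hu i j).2
    rw [e0] at h
    have := Valuation.map_add_le _ h (h1 i j)
    simpa using this

theorem inU_inv286 {u : GL (Fin 2) k} (hu : InU 0 u) : InU 0 u⁻¹ := by
  intro i j
  refine ⟨(hu i j).2, ?_⟩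
  rw [inv_inv]
  exact (hu i j).1

theorem val_det_inU286 {u : GL (Fin 2) k} (hu : InU 0 u) :
    Valued.v (u : Matrix (Fin 2) (Fin 2) k).det = 1 := by
  obtain ⟨hU, hU'⟩ := inU_entry286 hu
  have d1 := val_det_le286 hU
  have d2 := val_det_le286 hU'
  have hmul : (u : Matrix (Fin 2) (Fin 2) k).det *
      ((u⁻¹ : GL (Fin 2) k) : Matrix (Fin 2) (Fin 2) k).det = 1 := by
    rw [← Matrix.det_mul, ← Units.val_mul, mul_inv_cancel, Units.val_one, Matrix.det_one]
  have h3 : Valued.v (u : Matrix (Fin 2) (Fin 2) k).det *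
      Valued.v ((u⁻¹ : GL (Fin 2) k) : Matrix (Fin 2) (Fin 2) k).det = 1 := by
    rw [← map_mul, hmul, map_one]
  refine le_antisymm d1 ?_
  by_contra hlt
  push Not at hlt
  have h4 : Valued.v (u : Matrix (Fin 2) (Fin 2) k).det *
      Valued.v ((u⁻¹ : GL (Fin 2) k) : Matrix (Fin 2) (Fin 2) k).det < 1 :=
    calc _ ≤ Valued.v (u : Matrix (Fin 2) (Fin 2) k).det * 1 := mul_le_mul' le_rfl d2
      _ = _ := mul_one _
      _ < 1 := hlt
  rw [h3] at h4
  exact lt_irrefl _ h4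

/-! ## 3. The conductor argument -/

/-- One inequality: if `L' = t L u` with `t` commuting with `e(0, νⁿ)` and `u ∈ GL₂(𝒪)`, then
`n' ≤ n`. -/
theorem le_of_rel286 {τ ν : k} (hν : Valued.v ν = WithZero.exp (-1 : ℤ))
    (hτ : Valued.v τ < 1) {n n' : ℕ} {ξ ξ' : k} (hξ : Valued.v ξ ≤ 1) (hξ' : Valued.v ξ' ≤ 1)
    {t u : GL (Fin 2) k}
    (ht : (t : Matrix (Fin 2) (Fin 2) k) * embMat τ ν 0 (ν ^ n)
      = embMat τ ν 0 (ν ^ n) * (t : Matrix (Fin 2) (Fin 2) k))
    (hu : InU 0 u) (h : latGL τ ν n' ξ' = t * latGL τ ν n ξ * u) : n' ≤ n := by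
  obtain ⟨hU, hU'⟩ := inU_entry286 hu
  have hL' : latMat τ ν n' ξ'
      = (t : Matrix (Fin 2) (Fin 2) k) * latMat τ ν n ξ * (u : Matrix (Fin 2) (Fin 2) k) := by
    have h1 := congrArg (fun g : GL (Fin 2) k => (g : Matrix (Fin 2) (Fin 2) k)) h
    simp only [Units.val_mul] at h1
    rw [latGL_coe286 hν hτ n' hξ', latGL_coe286 hν hτ n hξ] at h1
    exact h1
  have hUU' : (u : Matrix (Fin 2) (Fin 2) k) * ((u⁻¹ : GL (Fin 2) k) : Matrix (Fin 2) (Fin 2) k)
      = 1 := by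
    rw [← Units.val_mul, mul_inv_cancel, Units.val_one]
  set C : Matrix (Fin 2) (Fin 2) k := !![0, -(ν ^ (2 * n + 1)); 1, τ * ν ^ n] with hCdef
  have hCint : IsInt286 C := by
    have hν1 : Valued.v ν ≤ 1 := by rw [hν]; exact exp_neg_one_lt_one286.le
    intro i j
    fin_cases i <;> fin_cases j
    · simp [hCdef]
    · simp only [hCdef, Fin.zero_eta, Fin.mk_one, Matrix.of_apply, Matrix.cons_val', Matrix.cons_val_zero,
        Matrix.cons_val_one, Matrix.empty_val', Matrix.cons_val_fin_one]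
      rw [Valuation.map_neg, map_pow]
      exact pow_le_one' hν1 _
    · simp [hCdef]
    · simp only [hCdef, Fin.mk_one, Matrix.of_apply, Matrix.cons_val',
        Matrix.cons_val_one, Matrix.empty_val', Matrix.cons_val_fin_one]
      exact val_le_one_mul286 hτ.le (by rw [map_pow]; exact pow_le_one' hν1 _)
  have hC : embMat τ ν 0 (ν ^ n) * latMat τ ν n ξ = latMat τ ν n ξ * C := by
    refine Matrix.ext fun i j => ?_
    fin_cases i <;> fin_cases j <;>
      simp only [embMat, latMat, hCdef, Matrix.mul_apply, Fin.sum_univ_two, Matrix.of_apply,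
        Matrix.cons_val', Matrix.cons_val_zero, Matrix.cons_val_one, Matrix.empty_val',
        Matrix.cons_val_fin_one, Fin.zero_eta, Fin.mk_one, Fin.isValue] <;> ring
  set D : Matrix (Fin 2) (Fin 2) k :=
    ((u⁻¹ : GL (Fin 2) k) : Matrix (Fin 2) (Fin 2) k) * C * (u : Matrix (Fin 2) (Fin 2) k)
    with hDdef
  have hDint : IsInt286 D := isInt_mul286 (isInt_mul286 hU' hCint) hU
  have hD : embMat τ ν 0 (ν ^ n) * latMat τ ν n' ξ' = latMat τ ν n' ξ' * D := by
    rw [hL', hDdef]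
    calc embMat τ ν 0 (ν ^ n) * ((t : Matrix (Fin 2) (Fin 2) k) * latMat τ ν n ξ *
          (u : Matrix (Fin 2) (Fin 2) k))
        = (embMat τ ν 0 (ν ^ n) * (t : Matrix (Fin 2) (Fin 2) k)) * latMat τ ν n ξ *
          (u : Matrix (Fin 2) (Fin 2) k) := by simp only [Matrix.mul_assoc]
      _ = (t : Matrix (Fin 2) (Fin 2) k) * (embMat τ ν 0 (ν ^ n) * latMat τ ν n ξ) *
          (u : Matrix (Fin 2) (Fin 2) k) := by rw [← ht]; simp only [Matrix.mul_assoc]
      _ = (t : Matrix (Fin 2) (Fin 2) k) * (latMat τ ν n ξ * C) *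
          (u : Matrix (Fin 2) (Fin 2) k) := by rw [hC]
      _ = (t : Matrix (Fin 2) (Fin 2) k) * latMat τ ν n ξ *
          (((u : Matrix (Fin 2) (Fin 2) k) * ((u⁻¹ : GL (Fin 2) k) : Matrix (Fin 2) (Fin 2) k))
            * (C * (u : Matrix (Fin 2) (Fin 2) k))) := by
            rw [hUU', Matrix.one_mul]; simp only [Matrix.mul_assoc]
      _ = (t : Matrix (Fin 2) (Fin 2) k) * latMat τ ν n ξ * (u : Matrix (Fin 2) (Fin 2) k) *
          (((u⁻¹ : GL (Fin 2) k) : Matrix (Fin 2) (Fin 2) k) * C *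
            (u : Matrix (Fin 2) (Fin 2) k)) := by simp only [Matrix.mul_assoc]
  have h00 := congrFun (congrFun hD 0) 0
  have h10 := congrFun (congrFun hD 1) 0
  simp only [Matrix.mul_apply, Fin.sum_univ_two, embMat, latMat, Matrix.of_apply,
    Matrix.cons_val', Matrix.cons_val_zero, Matrix.cons_val_one, Matrix.empty_val',
    Matrix.cons_val_fin_one] at h00 h10
  have key : ν ^ n' * D 1 0 * (1 + τ * ξ' + ν * ξ' ^ 2) = ν ^ n * (1 + τ * ξ' + ν * ξ' ^ 2) := by
    linear_combination ξ' * h00 - h10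
  have key2 : ν ^ n' * D 1 0 = ν ^ n := mul_right_cancel₀ (norm_ne_zero286 hν hτ hξ') key
  have key3 : Valued.v (ν ^ n' * D 1 0) = Valued.v (ν ^ n) := by rw [key2]
  rw [map_mul, map_pow, map_pow, hν, exp_neg_one_pow286, exp_neg_one_pow286] at key3
  have key4 : (WithZero.exp (-(n : ℤ)) : Γ₀) ≤ WithZero.exp (-(n' : ℤ)) := by
    rw [← key3]
    calc WithZero.exp (-(n' : ℤ)) * Valued.v (D 1 0)
        ≤ WithZero.exp (-(n' : ℤ)) * 1 := mul_le_mul' le_rfl (hDint 1 0)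
      _ = _ := mul_one _
  rw [WithZero.exp_le_exp] at key4
  omega

/-! ## 4. The norm form -/

/-- `|a² + τ a b + ν b²| = 1` forces `|a| = 1` and `|b| ≤ 1`. -/
theorem unit_of_norm_one286 {τ ν a b : k} (hν : Valued.v ν = WithZero.exp (-1 : ℤ))
    (hτ : Valued.v τ < 1) (hN : Valued.v (a ^ 2 + τ * a * b + ν * b ^ 2) = 1) :
    Valued.v a = 1 ∧ Valued.v b ≤ 1 := by
  have hν1 : Valued.v ν < 1 := by rw [hν]; exact exp_neg_one_lt_one286
  have hν0 : ν ≠ 0 := ne_zero_of_val286 hν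
  -- Step 1: `|b| ≤ 1`
  have hb : Valued.v b ≤ 1 := by
    by_contra hb
    push Not at hb
    have hb0 : b ≠ 0 := by
      intro h
      rw [h, map_zero] at hb
      exact not_lt.2 zero_le hb
    have hbe : WithZero.exp (1 : ℤ) ≤ Valued.v b := exp_one_le_of_one_lt286 hb
    set c : k := a / b with hc
    have hac : a = c * b := by rw [hc, div_mul_cancel₀ _ hb0]
    have e1 : a ^ 2 + τ * a * b + ν * b ^ 2 = b ^ 2 * (c * (c + τ) + ν) := by
      rw [hac]; ring
    rw [e1, map_mul, map_pow] at hN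
    -- `|c (c + τ) + ν| = |b|⁻² ≤ exp (-2) < |ν|`
    have h2 : Valued.v (c * (c + τ) + ν) < Valued.v ν := by
      have hb2 : WithZero.exp (1 : ℤ) * WithZero.exp (1 : ℤ) ≤ Valued.v b ^ 2 := by
        rw [pow_two]
        exact mul_le_mul' hbe hbe
      by_contra hcon
      push Not at hcon
      have h3 : WithZero.exp (1 : ℤ) * WithZero.exp (1 : ℤ) * WithZero.exp (-1 : ℤ)
          ≤ Valued.v b ^ 2 * Valued.v (c * (c + τ) + ν) := by
        rw [← hν]
        exact mul_le_mul' hb2 hcon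
      rw [hN, ← WithZero.exp_add, ← WithZero.exp_add, ← WithZero.exp_zero,
        WithZero.exp_le_exp] at h3
      omega
    -- hence `|c (c + τ)| = |ν|`
    have h4 : Valued.v (c * (c + τ)) = Valued.v ν := by
      have h5 : c * (c + τ) = (c * (c + τ) + ν) - ν := by ring
      rw [h5]
      exact Valuation.map_sub_eq_of_lt_right _ h2
    rw [map_mul] at h4
    rcases le_or_gt 1 (Valued.v c) with hc1 | hc1
    · -- `|c| ≥ 1`: `|c + τ| = |c|`
      have h6 : Valued.v (c + τ) = Valued.v c :=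
        Valuation.map_add_eq_of_lt_left _ (lt_of_lt_of_le hτ hc1)
      rw [h6] at h4
      have h7 : (1 : Γ₀) ≤ Valued.v c * Valued.v c := by
        calc (1 : Γ₀) = 1 * 1 := (mul_one 1).symm
          _ ≤ Valued.v c * Valued.v c := mul_le_mul' hc1 hc1
      rw [h4] at h7
      exact not_lt.2 h7 hν1
    · -- `|c| < 1`: `|c (c + τ)| ≤ exp (-2)`
      have h6 : Valued.v c ≤ WithZero.exp (-1 : ℤ) := le_exp_neg_one_of_lt_one286 hc1
      have h7 : Valued.v (c + τ) ≤ WithZero.exp (-1 : ℤ) :=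
        Valuation.map_add_le _ h6 (le_exp_neg_one_of_lt_one286 hτ)
      have h8 : Valued.v c * Valued.v (c + τ)
          ≤ WithZero.exp (-1 : ℤ) * WithZero.exp (-1 : ℤ) := mul_le_mul' h6 h7
      rw [h4, hν, ← WithZero.exp_add, WithZero.exp_le_exp] at h8
      omega
  refine ⟨?_, hb⟩
  -- Step 2: `|a| = 1`
  have h1 : Valued.v (τ * a * b + ν * b ^ 2) < max 1 (Valued.v a ^ 2) := by
    have hνb : Valued.v (ν * b ^ 2) < 1 :=
      val_lt_one_mul286 hν1 (by rw [map_pow]; exact pow_le_one' hb 2)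
    rcases le_or_gt (Valued.v a) 1 with ha | ha
    · have : Valued.v (τ * a * b) < 1 := by
        rw [mul_assoc]
        exact val_lt_one_mul286 hτ (val_le_one_mul286 ha hb)
      exact lt_of_lt_of_le (Valuation.map_add_lt _ this hνb) (le_max_left _ _)
    · have h2 : Valued.v (τ * a * b) < Valued.v a ^ 2 := by
        have e : τ * a * b = (τ * b) * a := by ring
        rw [e, map_mul, pow_two]
        have h3 : Valued.v (τ * b) < 1 := val_lt_one_mul286 hτ hb
        have ha0 : (0 : Γ₀) < Valued.v a := lt_trans zero_lt_one ha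
        calc Valued.v (τ * b) * Valued.v a < 1 * Valued.v a :=
              mul_lt_mul_of_pos_right (lt_of_lt_of_le h3 le_rfl) ha0
          _ = Valued.v a := one_mul _
          _ = 1 * Valued.v a := (one_mul _).symm
          _ ≤ Valued.v a * Valued.v a := mul_le_mul' ha.le le_rfl
      have h4 : (1 : Γ₀) < Valued.v a ^ 2 := by
        rw [pow_two]
        calc (1 : Γ₀) = 1 * 1 := (mul_one 1).symm
          _ ≤ 1 * Valued.v a := mul_le_mul' le_rfl ha.le
          _ = Valued.v a := one_mul _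
          _ < Valued.v a * Valued.v a := by
              have ha0 : (0 : Γ₀) < Valued.v a := lt_trans zero_lt_one ha
              calc Valued.v a = 1 * Valued.v a := (one_mul _).symm
                _ < Valued.v a * Valued.v a := mul_lt_mul_of_pos_right ha ha0
      exact lt_of_lt_of_le (Valuation.map_add_lt _ h2 (lt_trans hνb h4)) (le_max_right _ _)
  rcases le_or_gt (Valued.v a) 1 with ha | ha
  · -- `|a| ≤ 1`: the rest is `< 1`, so `|a²| = 1`
    have hrest : Valued.v (τ * a * b + ν * b ^ 2) < 1 := by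
      have hνb : Valued.v (ν * b ^ 2) < 1 :=
        val_lt_one_mul286 hν1 (by rw [map_pow]; exact pow_le_one' hb 2)
      have : Valued.v (τ * a * b) < 1 := by
        rw [mul_assoc]
        exact val_lt_one_mul286 hτ (val_le_one_mul286 ha hb)
      exact Valuation.map_add_lt _ this hνb
    have e : a ^ 2 = (a ^ 2 + τ * a * b + ν * b ^ 2) - (τ * a * b + ν * b ^ 2) := by ring
    have h2 : Valued.v (a ^ 2) = 1 := by
      rw [e, ← hN]
      exact Valuation.map_sub_eq_of_lt_left _ (by rw [hN]; exact hrest)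
    rw [map_pow] at h2
    refine le_antisymm ha ?_
    by_contra hlt
    push Not at hlt
    have h3 : Valued.v a ^ 2 < 1 := by
      rw [pow_two]
      calc Valued.v a * Valued.v a ≤ Valued.v a * 1 := mul_le_mul' le_rfl ha
        _ = Valued.v a := mul_one _
        _ < 1 := hlt
    rw [h2] at h3
    exact lt_irrefl _ h3
  · -- `|a| > 1`: `|N| = |a|² > 1`
    exfalso
    have h4 : (1 : Γ₀) < Valued.v a ^ 2 := by
      rw [pow_two]
      have ha0 : (0 : Γ₀) < Valued.v a := lt_trans zero_lt_one ha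
      calc (1 : Γ₀) < Valued.v a := ha
        _ = 1 * Valued.v a := (one_mul _).symm
        _ < Valued.v a * Valued.v a := mul_lt_mul_of_pos_right ha ha0
    have h5 : Valued.v (τ * a * b + ν * b ^ 2) < Valued.v (a ^ 2) := by
      rw [map_pow]
      have := h1
      rwa [max_eq_right h4.le] at this
    have h6 : Valued.v (a ^ 2 + τ * a * b + ν * b ^ 2) = Valued.v (a ^ 2) := by
      rw [add_assoc]
      exact Valuation.map_add_eq_of_lt_left _ h5
    rw [hN, map_pow] at h6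
    rw [← h6] at h4
    exact lt_irrefl _ h4

/-! ## 5. The leaf -/

/-- **T6.14b.L2 (rigidity)**, registry row 1165. -/
theorem latRigidC286 : LatRigidC129 := by
  intro k _ _ τ ν hν hτ n n' ξ ξ' a b t u hξ hξ' ht hu h
  have htc : ∀ c d : k, (t : Matrix (Fin 2) (Fin 2) k) * embMat τ ν c d
      = embMat τ ν c d * (t : Matrix (Fin 2) (Fin 2) k) := by
    intro c d
    rw [ht]
    exact embMat_comm286 τ ν a b c d
  have htt' : (t : Matrix (Fin 2) (Fin 2) k) * ((t⁻¹ : GL (Fin 2) k) : Matrix (Fin 2) (Fin 2) k)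
      = 1 := by
    rw [← Units.val_mul, mul_inv_cancel, Units.val_one]
  have ht't : ((t⁻¹ : GL (Fin 2) k) : Matrix (Fin 2) (Fin 2) k) * (t : Matrix (Fin 2) (Fin 2) k)
      = 1 := by
    rw [← Units.val_mul, inv_mul_cancel, Units.val_one]
  have htc' : ∀ c d : k, ((t⁻¹ : GL (Fin 2) k) : Matrix (Fin 2) (Fin 2) k) * embMat τ ν c d
      = embMat τ ν c d * ((t⁻¹ : GL (Fin 2) k) : Matrix (Fin 2) (Fin 2) k) := by
    intro c d
    calc ((t⁻¹ : GL (Fin 2) k) : Matrix (Fin 2) (Fin 2) k) * embMat τ ν c d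
        = ((t⁻¹ : GL (Fin 2) k) : Matrix (Fin 2) (Fin 2) k) * embMat τ ν c d *
          ((t : Matrix (Fin 2) (Fin 2) k) * ((t⁻¹ : GL (Fin 2) k) : Matrix (Fin 2) (Fin 2) k)) := by
            rw [htt', Matrix.mul_one]
      _ = ((t⁻¹ : GL (Fin 2) k) : Matrix (Fin 2) (Fin 2) k) *
          (embMat τ ν c d * (t : Matrix (Fin 2) (Fin 2) k)) *
          ((t⁻¹ : GL (Fin 2) k) : Matrix (Fin 2) (Fin 2) k) := by simp only [Matrix.mul_assoc]
      _ = ((t⁻¹ : GL (Fin 2) k) : Matrix (Fin 2) (Fin 2) k) *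
          ((t : Matrix (Fin 2) (Fin 2) k) * embMat τ ν c d) *
          ((t⁻¹ : GL (Fin 2) k) : Matrix (Fin 2) (Fin 2) k) := by rw [htc c d]
      _ = (((t⁻¹ : GL (Fin 2) k) : Matrix (Fin 2) (Fin 2) k) * (t : Matrix (Fin 2) (Fin 2) k)) *
          embMat τ ν c d * ((t⁻¹ : GL (Fin 2) k) : Matrix (Fin 2) (Fin 2) k) := by
            simp only [Matrix.mul_assoc]
      _ = embMat τ ν c d * ((t⁻¹ : GL (Fin 2) k) : Matrix (Fin 2) (Fin 2) k) := by
            rw [ht't, Matrix.one_mul]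
  have h1 : n' ≤ n := le_of_rel286 hν hτ hξ hξ' (htc 0 (ν ^ n)) hu h
  have hinv : latGL τ ν n ξ = t⁻¹ * latGL τ ν n' ξ' * u⁻¹ := by
    rw [h]
    simp only [mul_assoc, mul_inv_cancel, mul_one, inv_mul_cancel_left]
  have h2 : n ≤ n' := le_of_rel286 hν hτ hξ' hξ (htc' 0 (ν ^ n')) (inU_inv286 hu) hinv
  have hn : n' = n := le_antisymm h1 h2
  refine ⟨hn, ?_⟩
  subst hn
  -- determinants
  have hL' : latMat τ ν n' ξ'
      = (t : Matrix (Fin 2) (Fin 2) k) * latMat τ ν n' ξ * (u : Matrix (Fin 2) (Fin 2) k) := by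
    have h1 := congrArg (fun g : GL (Fin 2) k => (g : Matrix (Fin 2) (Fin 2) k)) h
    simp only [Units.val_mul] at h1
    rw [latGL_coe286 hν hτ n' hξ', latGL_coe286 hν hτ n' hξ] at h1
    exact h1
  have hdet := congrArg Matrix.det hL'
  rw [Matrix.det_mul, Matrix.det_mul, det_latMat286, det_latMat286, ht, det_embMat286] at hdet
  have hv := congrArg (Valued.v : k → Γ₀) hdet
  simp only [map_mul] at hv
  rw [val_norm_one286 hν hτ hξ', val_norm_one286 hν hτ hξ, val_det_inU286 hu] at hv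
  simp only [mul_one] at hv
  have hνn : Valued.v (ν ^ n') ≠ 0 := by
    rw [ne_eq, Valuation.zero_iff]
    exact pow_ne_zero _ (ne_zero_of_val286 hν)
  have hN : Valued.v (a ^ 2 + τ * a * b + ν * b ^ 2) = 1 := by
    have h3 : Valued.v (a ^ 2 + τ * a * b + ν * b ^ 2) * Valued.v (ν ^ n')
        = 1 * Valued.v (ν ^ n') := by rw [one_mul]; exact hv.symm
    exact mul_right_cancel₀ hνn h3
  exact unit_of_norm_one286 hν hτ hN

end Fermat.Agent.LT.T6.H286

end

end
-- ===== PACK-END LT/T6/H286/LatRigid.lean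

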