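import Mathlib
import Fermat.Agent.Pack.LT3.E8L1
import Fermat.Agent.Pack.LT3.E8L0
import Fermat.Agent.Pack.LT2.E0L1
import Fermat.Agent.Pack.LT2.E2L1
import Fermat.Agent.Pack.LT2.E3L1
import Fermat.Agent.Pack.LT3.E1L3
import Fermat.Agent.Pack.LT3.E4L3
import Fermat.Agent.Pack.LT3.E4L2
import Fermat.Agent.Pack.LT3.E7L3
import Fermat.Agent.Pack.S44C.G0E1L3
import Fermat.Agent.Pack.LT3.E4L0
import Fermat.Agent.Pack.LT3.E7L0
import Fermat.Agent.Pack.LT3.E4L1
import Fermat.Agent.Pack.LT3.E6L3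
import Fermat.Agent.Pack.LT3.E3L2
import Fermat.Agent.Pack.LT3.E7L2
import Fermat.Agent.Pack.LT2.E0L2
import Fermat.Agent.Pack.LT2.E2L2
import Fermat.Agent.Pack.LT3.E2L3
import Fermat.Agent.Pack.LT2.E4L2
import Fermat.Agent.Pack.LT3.E9L2

set_option linter.all false

-- ===== PACK-BEGIN LT/CFT/H137/QMod.lean
section


/-!
# Row LT, tower CFT, sub-tower EX, leaf E1.C (counting), helper137, OFF-MAIN, Mathlib only

The modulus `𝔐 = ∏_{v ∈ T} v ^ (k v)`, approximation lemmas and the valuation vector on `Kˣ`: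

* `mem_modM_iff137`, `isUnit_mk_of_notMem137`;
* `exists_den137` : an element of `K` which is integral at all `v ∈ T` is `a / ε` with
  `ε ≡ 1 mod 𝔐`;
* `ordAll_surjective137` : `ord : Kˣ → ℤ^T` is onto (uniformisers by CRT).
-/

set_option autoImplicit false
set_option linter.unusedSectionVars false

open IsDedekindDomain NumberField

namespace Fermat.Agent.LT.CFT.H137

variable (K : Type*) [Field K] [NumberField K]

/-- The modulus `∏_{v ∈ T} v ^ (k v)`. -/
noncomputable def modM137 (T : Finset (HeightOneSpectrum (𝓞 K)))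
    (k : HeightOneSpectrum (𝓞 K) → ℕ) : Ideal (𝓞 K) :=
  ∏ v ∈ T, v.asIdeal ^ k v

variable {K}

theorem mem_modM_iff137 (T : Finset (HeightOneSpectrum (𝓞 K)))
    (k : HeightOneSpectrum (𝓞 K) → ℕ) (x : 𝓞 K) :
    x ∈ modM137 K T k ↔ ∀ v ∈ T, x ∈ v.asIdeal ^ k v := by
  classical
  unfold modM137
  rw [← IsDedekindDomain.HeightOneSpectrum.inf_pow_eq_prod T k (fun v => v)
    (fun i _ j _ hij => hij)]
  simp only [Finset.inf_eq_iInf, Submodule.mem_iInf]

theorem modM_ne_bot137 (T : Finset (HeightOneSpectrum (𝓞 K)))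
    (k : HeightOneSpectrum (𝓞 K) → ℕ) : modM137 K T k ≠ ⊥ := by
  unfold modM137
  rw [Ne, ← Ideal.zero_eq_bot, Finset.prod_eq_zero_iff]
  rintro ⟨v, -, hv⟩
  exact pow_ne_zero _ v.ne_bot hv

theorem notMem_of_sub_one_mem137 (T : Finset (HeightOneSpectrum (𝓞 K)))
    (k : HeightOneSpectrum (𝓞 K) → ℕ) (hk : ∀ v ∈ T, 1 ≤ k v) {a : 𝓞 K}
    (ha : a - 1 ∈ modM137 K T k) {v : HeightOneSpectrum (𝓞 K)} (hv : v ∈ T) :
    a ∉ v.asIdeal := by
  intro hmem
  have h1 : a - 1 ∈ v.asIdeal ^ k v := (mem_modM_iff137 T k _).1 ha v hv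
  have h2 : a - 1 ∈ v.asIdeal := Ideal.pow_le_self (Nat.one_le_iff_ne_zero.1 (hk v hv)) h1
  have h3 : (1 : 𝓞 K) ∈ v.asIdeal := by
    have := v.asIdeal.sub_mem hmem h2
    simpa using this
  exact v.isPrime.ne_top ((Ideal.eq_top_iff_one _).2 h3)

/-- An element outside all `v ∈ T` is invertible modulo `𝔐`. -/
theorem exists_inv_mod137 (T : Finset (HeightOneSpectrum (𝓞 K)))
    (k : HeightOneSpectrum (𝓞 K) → ℕ) {a : 𝓞 K} (ha : ∀ v ∈ T, a ∉ v.asIdeal) :
    ∃ z : 𝓞 K, a * z - 1 ∈ modM137 K T k := by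
  have hsup : Ideal.span {a} ⊔ modM137 K T k = ⊤ := by
    by_contra hne
    obtain ⟨P, hP, hle⟩ := Ideal.exists_le_maximal _ hne
    have h1 : modM137 K T k ≤ P := le_trans le_sup_right hle
    have h2 : a ∈ P := hle (Ideal.mem_sup_left (Ideal.mem_span_singleton_self a))
    unfold modM137 at h1
    obtain ⟨v, hv, hvP⟩ := (Ideal.IsPrime.prod_le hP.isPrime).1 h1
    have h3 : v.asIdeal ≤ P := by
      have := hP.isPrime
      exact Ideal.IsPrime.le_of_pow_le hvP
    have h4 : v.asIdeal = P := v.isMaximal.eq_of_le hP.ne_top h3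
    exact ha v hv (h4 ▸ h2)
  have h1 : (1 : 𝓞 K) ∈ Ideal.span {a} ⊔ modM137 K T k := by rw [hsup]; exact Submodule.mem_top
  obtain ⟨y, hy, m, hm, hym⟩ := Submodule.mem_sup.1 h1
  obtain ⟨z, rfl⟩ := Ideal.mem_span_singleton'.1 hy
  refine ⟨z, ?_⟩
  have : a * z - 1 = -m := by rw [← hym]; ring
  rw [this]
  exact (modM137 K T k).neg_mem hm

/-- The valuation of a nonzero integer `d` at `P` is `exp (-n)` with `d ∈ P ^ n`. -/
theorem exists_pow_val137 (P : HeightOneSpectrum (𝓞 K)) {d : 𝓞 K} (hd : d ≠ 0) :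
    ∃ n : ℕ, d ∈ P.asIdeal ^ n ∧ P.intValuation d = WithZero.exp (-(n : ℤ)) := by
  refine ⟨_, ?_, P.intValuation_if_neg hd⟩
  rw [← P.intValuation_le_pow_iff_mem, P.intValuation_if_neg hd]

/-- **Denominators prime to `T`.**  If `x ∈ K` is integral at every `v ∈ T`, there is
`ε ≡ 1 mod 𝔐` with `ε x` integral. -/
theorem exists_den137 (T : Finset (HeightOneSpectrum (𝓞 K)))
    (k : HeightOneSpectrum (𝓞 K) → ℕ) (x : K)
    (hx : ∀ v ∈ T, v.valuation K x ≤ 1) :
    ∃ ε a : 𝓞 K, ε - 1 ∈ modM137 K T k ∧ algebraMap (𝓞 K) K a = algebraMap (𝓞 K) K ε * x := by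
  classical
  obtain ⟨n, d, hd, rfl⟩ := IsFractionRing.div_surjective (A := 𝓞 K) x
  have hd0 : d ≠ 0 := nonZeroDivisors.ne_zero hd
  -- the primes dividing `d`, outside `T`
  set S' : Finset (HeightOneSpectrum (𝓞 K)) :=
    ((Ideal.finite_factors (Ideal.span_singleton_eq_bot.not.2 hd0)).toFinset) \ T with hS'
  -- exponents
  have hex : ∀ P : HeightOneSpectrum (𝓞 K), ∃ m : ℕ, d ∈ P.asIdeal ^ m ∧
      P.intValuation d = WithZero.exp (-(m : ℤ)) := fun P => exists_pow_val137 P hd0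
  choose m hm1 hm2 using hex
  -- CRT
  obtain ⟨ε, hε⟩ := IsDedekindDomain.exists_forall_sub_mem_ideal
    (s := S' ∪ T) (fun P : HeightOneSpectrum (𝓞 K) => P.asIdeal)
    (fun P => if P ∈ T then k P else m P) (fun P _ => P.prime)
    (fun P _ Q _ hPQ h => hPQ (HeightOneSpectrum.ext h))
    (fun P => if (P : HeightOneSpectrum (𝓞 K)) ∈ T then (1 : 𝓞 K) else 0)
  have hεT : ε - 1 ∈ modM137 K T k := by
    rw [mem_modM_iff137]
    intro v hv
    have := hε v (Finset.mem_union_right _ hv)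
    simpa [hv] using this
  have hεS : ∀ P ∈ S', ε ∈ P.asIdeal ^ m P := by
    intro P hP
    have hPT : P ∉ T := (Finset.mem_sdiff.1 hP).2
    have := hε P (Finset.mem_union_left _ hP)
    simpa [hPT] using this
  -- integrality of `ε * (n / d)`
  have hint : ∀ P : HeightOneSpectrum (𝓞 K),
      P.valuation K (algebraMap (𝓞 K) K ε * (algebraMap (𝓞 K) K n / algebraMap (𝓞 K) K d)) ≤ 1 := by
    intro P
    by_cases hPT : P ∈ T
    · rw [map_mul]
      exact mul_le_one' (P.valuation_le_one ε) (hx P hPT)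
    · have hdK : P.valuation K (algebraMap (𝓞 K) K d) ≠ 0 := by
        rw [Ne, Valuation.zero_iff, map_eq_zero_iff _ (FaithfulSMul.algebraMap_injective (𝓞 K) K)]
        exact hd0
      rw [map_mul, map_div₀, ← mul_div_assoc, div_le_iff₀ (zero_lt_iff.2 hdK), one_mul]
      by_cases hPd : P ∈ S'
      · have h1 : P.valuation K (algebraMap (𝓞 K) K ε) ≤ P.valuation K (algebraMap (𝓞 K) K d) := by
          rw [HeightOneSpectrum.valuation_of_algebraMap, HeightOneSpectrum.valuation_of_algebraMap,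
            hm2 P, P.intValuation_le_pow_iff_mem]
          exact hεS P hPd
        calc P.valuation K (algebraMap (𝓞 K) K ε) * P.valuation K (algebraMap (𝓞 K) K n)
            ≤ P.valuation K (algebraMap (𝓞 K) K ε) * 1 :=
              mul_le_mul' le_rfl (P.valuation_le_one n)
          _ = P.valuation K (algebraMap (𝓞 K) K ε) := mul_one _
          _ ≤ _ := h1
      · -- `P ∤ d`
        have hPd' : d ∉ P.asIdeal := by
          intro hmem
          apply hPd
          rw [hS', Finset.mem_sdiff]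
          refine ⟨?_, hPT⟩
          rw [Set.Finite.mem_toFinset, Set.mem_ofPred_eq, Ideal.dvd_span_singleton]
          exact hmem
        have h1 : P.valuation K (algebraMap (𝓞 K) K d) = 1 := by
          rw [HeightOneSpectrum.valuation_of_algebraMap]
          exact (P.intValuation_eq_one_iff).2 hPd'
        rw [h1]
        exact mul_le_one' (P.valuation_le_one ε) (P.valuation_le_one n)
  obtain ⟨a, ha⟩ := HeightOneSpectrum.mem_integers_of_valuation_le_one K _ hint
  exact ⟨ε, a, hεT, ha⟩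

variable (K)

/-- The valuation vector of `x ∈ Kˣ` at the places of `T`. -/
noncomputable def ordAll137 (T : Finset (HeightOneSpectrum (𝓞 K))) :
    Kˣ →* (↥T → Multiplicative ℤ) :=
  MonoidHom.pi fun v => HeightOneSpectrum.valuationOfNeZero (K := K) v.1

theorem ordAll_apply137 (T : Finset (HeightOneSpectrum (𝓞 K))) (x : Kˣ) (v : ↥T) :
    ordAll137 K T x v = HeightOneSpectrum.valuationOfNeZero v.1 x := rfl

open Classical in
/-- Uniformisers at `v ∈ T` which are units at the other places of `T`. -/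
theorem exists_unif137 (T : Finset (HeightOneSpectrum (𝓞 K))) (v : ↥T) :
    ∃ p : Kˣ, ordAll137 K T p =
      Pi.mulSingle (M := fun _ : ↥T => Multiplicative ℤ) v (Multiplicative.ofAdd (-1 : ℤ)) := by
  obtain ⟨π, hπ⟩ := v.1.intValuation_exists_uniformizer
  obtain ⟨ϖ, hϖ⟩ := IsDedekindDomain.exists_forall_sub_mem_ideal
    (s := T) (fun P : HeightOneSpectrum (𝓞 K) => P.asIdeal)
    (fun P => if P = v.1 then 2 else 1) (fun P _ => P.prime)
    (fun P _ Q _ hPQ h => hPQ (HeightOneSpectrum.ext h))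
    (fun P => if (P : HeightOneSpectrum (𝓞 K)) = v.1 then π else 1)
  -- valuation at `v`
  have hv : v.1.intValuation ϖ = WithZero.exp (-1 : ℤ) := by
    have h1 := hϖ v.1 v.2
    simp only [if_true] at h1
    have h2 : v.1.intValuation (ϖ - π) ≤ WithZero.exp (-((2 : ℕ) : ℤ)) :=
      (v.1.intValuation_le_pow_iff_mem _ 2).2 h1
    have h3 : v.1.intValuation (ϖ - π) < v.1.intValuation π := by
      rw [hπ]
      refine lt_of_le_of_lt h2 ?_
      rw [WithZero.exp_lt_exp]
      norm_num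
    have h4 : ϖ = π + (ϖ - π) := by ring
    rw [h4, Valuation.map_add_eq_of_lt_left _ h3, hπ]
  -- valuations at the other places
  have hw : ∀ w ∈ T, w ≠ v.1 → w.intValuation ϖ = 1 := by
    intro w hwT hwv
    have h1 := hϖ w hwT
    simp only [if_neg hwv, pow_one] at h1
    rw [w.intValuation_eq_one_iff]
    intro hmem
    have h2 : (1 : 𝓞 K) ∈ w.asIdeal := by
      have := w.asIdeal.sub_mem hmem h1
      simpa using this
    exact w.isPrime.ne_top ((Ideal.eq_top_iff_one _).2 h2)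
  have hϖ0 : ϖ ≠ 0 := by
    rintro rfl
    rw [map_zero] at hv
    exact WithZero.exp_ne_zero hv.symm
  have hK0 : algebraMap (𝓞 K) K ϖ ≠ 0 := by
    rw [Ne, map_eq_zero_iff _ (FaithfulSMul.algebraMap_injective (𝓞 K) K)]
    exact hϖ0
  refine ⟨Units.mk0 _ hK0, ?_⟩
  funext w
  rw [ordAll_apply137]
  by_cases hwv : w = v
  · subst hwv
    rw [Pi.mulSingle_eq_same, ← WithZero.coe_inj, HeightOneSpectrum.valuationOfNeZero_eq,
      Units.val_mk0, HeightOneSpectrum.valuation_of_algebraMap, hv]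
    rfl
  · rw [Pi.mulSingle_eq_of_ne hwv, valuationOfNeZero_eq_one_iff137, Units.val_mk0,
      HeightOneSpectrum.valuation_of_algebraMap]
    exact hw w.1 w.2 (fun h => hwv (Subtype.ext h))

/-- `ord : Kˣ → ℤ^T` is onto. -/
theorem ordAll_surjective137 (T : Finset (HeightOneSpectrum (𝓞 K))) :
    Function.Surjective (ordAll137 K T) := by
  classical
  intro m
  choose p hp using exists_unif137 K T
  refine ⟨∏ v : ↥T, p v ^ (-(Multiplicative.toAdd (m v))), ?_⟩
  rw [map_prod]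
  funext w
  rw [Finset.prod_apply, Finset.prod_eq_single w]
  · rw [map_zpow, Pi.pow_apply, hp w, Pi.mulSingle_eq_same, ← ofAdd_zsmul,
      ← ofAdd_toAdd (m w)]
    congr 1
    simp
  · intro v _ hvw
    rw [map_zpow, Pi.pow_apply, hp v, Pi.mulSingle_eq_of_ne (Ne.symm hvw), one_zpow]
  · intro hw
    exact absurd (Finset.mem_univ w) hw

end Fermat.Agent.LT.CFT.H137

end
-- ===== PACK-END LT/CFT/H137/QMod.lean

-- ===== PACK-BEGIN LT/T6/H426/FourierUniq.lean
section



/-!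
# Row LT, tower T6, sub-leaf T6.21.3 (`H830.FourierUniqC`, registry 1638) -- helper426

OFF-MAIN.  `fourierUniqC426 : H830.FourierUniqC`, unconditional.

Proof.  At `s = -1/2 - 2πiξ` the hypothesis says that the Fourier transform of `H` vanishes at
`ξ`; `H` is continuous and integrable (compact support), its Fourier transform `0` is integrable,
so `H = 𝓕⁻ (𝓕 H) = 0` (Fourier inversion).  `fourier_uniq_core426` is Mathlib only.
-/

set_option autoImplicit false

open MeasureTheory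
open scoped FourierTransform

noncomputable section

namespace Fermat.Agent.LT.T6.H426

/-- Mathlib only: a continuous function of compact support whose two-sided Laplace transform
vanishes identically is `0`. -/
theorem fourier_uniq_core426 (H : ℝ → ℂ) (hc : Continuous H) (hs : HasCompactSupport H)
    (h0 : ∀ s : ℂ, (∫ r : ℝ, Complex.exp ((r : ℂ) * (s + 1 / 2)) * H r) = 0) (r : ℝ) :
    H r = 0 := by
  have hint : Integrable H := hc.integrable_of_hasCompactSupport hs
  have hF : 𝓕 H = 0 := by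
    funext ξ
    rw [Real.fourier_real_eq_integral_exp_smul]
    have h1 := h0 (-(1 / 2) - 2 * Real.pi * ξ * Complex.I)
    rw [Pi.zero_apply, ← h1]
    refine integral_congr_ae (Filter.Eventually.of_forall fun v => ?_)
    simp only [smul_eq_mul]
    congr 2
    push_cast
    ring
  have hFint : Integrable (𝓕 H) := by
    rw [hF]
    exact integrable_zero _ _ _
  have hinv := hc.fourierInv_fourier_eq hint hFint
  have h2 : 𝓕⁻ (𝓕 H) r = 0 := by
    rw [hF, Real.fourierInv_eq]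
    simp
  rw [← hinv]
  exact h2

/-- **T6.21.3 (FourierUniq)**, unconditional. -/
theorem fourierUniqC426 : Fermat.Agent.LT.T6.H830.FourierUniqC :=
  fun H hc hs h0 r => fourier_uniq_core426 H hc hs h0 r

end Fermat.Agent.LT.T6.H426

end

end
-- ===== PACK-END LT/T6/H426/FourierUniq.lean

-- ===== PACK-BEGIN LT/T6/H98/Unr2.lean
section








/-!
# Row LT, tower T6, sub-leaf T6.15c4 `Unr2C` (helper98): PROVED

`k'/k` unramified quadratic, `γ ∈ GL₂(k)` regular, without an eigenvalue in `k`, whose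
centraliser contains no element with a uniformiser as determinant: the characteristic
polynomial of `γ` has a root in `k'`.

Proof.  The centraliser contains `c (x - γ)`, of determinant `c² f(x)`, `f` the characteristic
polynomial: all values of `f` on `k` are nonzero of even order (`evenVal_of98`).  The descent on
the discriminant (`normalise98`) gives an affine substitution after which `f` is integral and
without a root modulo the maximal ideal; its reduction has a simple root in the residue field of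
`k'` (`q²` elements, `exists_approx_root98`), which lifts (`exists_root_of_approx98`).
-/

set_option autoImplicit false

open scoped Matrix

noncomputable section

namespace Fermat.Agent.LT.T6.H98

open WithZero Fermat.Agent.LT.T6

/-- The values of the characteristic polynomial of `γ` are nonzero of even order. -/
theorem evenVal_of98 {k : Type} [Field k] [Valued k Γ₀] (ϖ : k)
    (hϖ : Valued.v ϖ = exp (-1 : ℤ)) (γ : GL (Fin 2) k)
    (hne : ¬ HasEigen k γ) (hnr : ¬ HasRamUnif k γ) :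
    EvenVal98 (γ : Matrix (Fin 2) (Fin 2) k).trace (γ : Matrix (Fin 2) (Fin 2) k).det := by
  have hϖ0 : ϖ ≠ 0 := by
    intro h0
    rw [h0, map_zero] at hϖ
    exact exp_ne_zero hϖ.symm
  intro x
  have hfx : x ^ 2 - (γ : Matrix (Fin 2) (Fin 2) k).trace * x
      + (γ : Matrix (Fin 2) (Fin 2) k).det ≠ 0 := fun h => hne ⟨x, h⟩
  have hv0 : Valued.v (x ^ 2 - (γ : Matrix (Fin 2) (Fin 2) k).trace * x
      + (γ : Matrix (Fin 2) (Fin 2) k).det) ≠ 0 := (Valuation.ne_zero_iff _).mpr hfx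
  have hv : Valued.v (x ^ 2 - (γ : Matrix (Fin 2) (Fin 2) k).trace * x
      + (γ : Matrix (Fin 2) (Fin 2) k).det)
      = exp (log (Valued.v (x ^ 2 - (γ : Matrix (Fin 2) (Fin 2) k).trace * x
          + (γ : Matrix (Fin 2) (Fin 2) k).det))) := (exp_log hv0).symm
  rcases Int.even_or_odd' (log (Valued.v (x ^ 2 - (γ : Matrix (Fin 2) (Fin 2) k).trace * x
      + (γ : Matrix (Fin 2) (Fin 2) k).det))) with ⟨m, hm | hm⟩
  · exact ⟨m, by rw [hv, hm]⟩
  · exfalso
    apply hnr
    set c : k := ϖ ^ (m + 1) with hc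
    have hc0 : c ≠ 0 := zpow_ne_zero _ hϖ0
    set A : Matrix (Fin 2) (Fin 2) k := (γ : Matrix (Fin 2) (Fin 2) k) with hA
    set N : Matrix (Fin 2) (Fin 2) k := c • (x • (1 : Matrix (Fin 2) (Fin 2) k) - A) with hN
    have hdet : N.det = c ^ 2 * (x ^ 2 - A.trace * x + A.det) := by
      rw [hN, Matrix.det_fin_two, Matrix.det_fin_two, Matrix.trace_fin_two]
      simp only [Matrix.smul_apply, Matrix.sub_apply, Matrix.one_apply_eq, smul_eq_mul,
        Matrix.one_apply_ne (show (0 : Fin 2) ≠ 1 by decide),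
        Matrix.one_apply_ne (show (1 : Fin 2) ≠ 0 by decide)]
      ring
    have hdet0 : N.det ≠ 0 := by
      rw [hdet]
      exact mul_ne_zero (pow_ne_zero 2 hc0) hfx
    refine ⟨Matrix.GeneralLinearGroup.mkOfDetNeZero N hdet0, ?_, ?_⟩
    · apply Units.ext
      show N * A = A * N
      rw [hN]
      simp only [Matrix.smul_mul, Matrix.mul_smul, Matrix.sub_mul, Matrix.mul_sub,
        Matrix.one_mul, Matrix.mul_one]
    · show Valued.v N.det = exp (-1 : ℤ)
      rw [hdet, map_mul, hv, hm, map_pow, hc, map_zpow₀, hϖ, ← exp_zsmul, ← exp_nsmul,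
        ← exp_add]
      congr 1
      simp only [nsmul_eq_mul, smul_eq_mul]
      push_cast
      ring

/-- **T6.15c4 `Unr2C`.** -/
theorem unr2C98 : H159.Unr2C := by
  intro k k' _ _ _ _ q i s hk hk' hext γ hreg hne hnr
  haveI : CompleteSpace k := hk.complete
  haveI : CompleteSpace k' := hk'.complete
  obtain ⟨ϖ, hϖ⟩ := hk.unif
  obtain ⟨T, hT0, hT1, hT2, hT3⟩ := hk.residue
  obtain ⟨T', hT0', hT1', hT2', hT3'⟩ := hk'.residue
  have hi : ∀ x : k, Valued.v (i x) = Valued.v x := fun x => by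
    have := hext.val_i x
    rwa [pow_one] at this
  have hD : (γ : Matrix (Fin 2) (Fin 2) k).trace ^ 2
      - 4 * (γ : Matrix (Fin 2) (Fin 2) k).det ≠ 0 := IsUnit.ne_zero hreg
  have hE := evenVal_of98 ϖ hϖ γ hne hnr
  obtain ⟨c, e, τ', δ', hc, e1, e2, hτ', hδ', hirr⟩ := normalise98 ϖ hϖ _ _ hD hE
  obtain ⟨y0, -, hy1, hy2⟩ := exists_approx_root98 q i hi T hT0 hT1 hT2 hT3
    T' hT0' hT1' hT2' hT3' τ' δ' hτ' hδ' hirr
  obtain ⟨y, hy⟩ := exists_root_of_approx98 (i τ') (i δ') y0 hy1 hy2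
  refine ⟨i c * y + i e, ?_⟩
  have e1' : i τ' * i c = i (γ : Matrix (Fin 2) (Fin 2) k).trace - 2 * i e := by
    rw [← map_mul, e1, map_sub, map_mul, map_ofNat]
  have e2' : i δ' * i c ^ 2 = i e ^ 2 - i (γ : Matrix (Fin 2) (Fin 2) k).trace * i e
      + i (γ : Matrix (Fin 2) (Fin 2) k).det := by
    rw [← map_pow, ← map_mul, e2, map_add, map_sub, map_mul, map_pow]
  linear_combination (i c) ^ 2 * hy + (i c * y) * e1' - e2'

end Fermat.Agent.LT.T6.H98

end

end
-- ===== PACK-END LT/T6/H98/Unr2.lean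

-- ===== PACK-BEGIN LT/T6/H820/H90rAlg.lean
section




/-!
# Row LT, tower T6, leaf T6.13.3b.5 `H865.H90rC865`, part 1 (seat helper820, OFF-MAIN)

Algebra: the NON-COMMUTATIVE Poincaré series for `2 × 2` matrices.

For `U, c ∈ M₂(R)` and an automorphism `s` of `R` put `P₀ = 1`, `P_{m+1} = U · s(P_m)` (the
partial twisted norms) and `B = ∑_{m<l} P_m · s^m(c)`.  If `s^l = 1` on the entries of `c`:

    U · s(B) = B + (P_l - 1) · c        (`mPoincare820`).

Also: `P_m(d • U) = pnm220 s m d • P_m(U)` for a scalar `d`, `det P_{m+1} = det U · s(det P_m)`,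
and the twisted norm of `T6/Spec.lean` is `P_l` (`coe_twNorm820`).
-/

set_option autoImplicit false

open scoped Matrix

noncomputable section

namespace Fermat.Agent.LT.T6.H820

open Fermat.Agent.LT.T6 Fermat.Agent.LT.T6.H220

section Algebra

variable {R : Type} [CommRing R]

/-- The partial twisted norms `P₀ = 1`, `P_{m+1} = U · s(P_m)` of a matrix. -/
def mPN820 (s : R ≃+* R) (U : Matrix (Fin 2) (Fin 2) R) : ℕ → Matrix (Fin 2) (Fin 2) R
  | 0 => 1
  | (m + 1) => U * (mPN820 s U m).map s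

@[simp] theorem mPN_zero820 (s : R ≃+* R) (U : Matrix (Fin 2) (Fin 2) R) : mPN820 s U 0 = 1 := rfl

theorem mPN_succ820 (s : R ≃+* R) (U : Matrix (Fin 2) (Fin 2) R) (m : ℕ) :
    mPN820 s U (m + 1) = U * (mPN820 s U m).map s := rfl

/-- The Poincaré series `B = ∑_{m<l} P_m · s^m(c)`. -/
def mPser820 (s : R ≃+* R) (l : ℕ) (U c : Matrix (Fin 2) (Fin 2) R) :
    Matrix (Fin 2) (Fin 2) R :=
  ∑ m ∈ Finset.range l, mPN820 s U m * c.map (s ^ m : R ≃+* R)

theorem map_mul820 (s : R ≃+* R) (X Y : Matrix (Fin 2) (Fin 2) R) :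
    (X * Y).map s = X.map s * Y.map s := by
  ext a b
  simp [Matrix.mul_apply, Matrix.map_apply]

theorem map_sum820 (s : R ≃+* R) {ι : Type} (t : Finset ι)
    (f : ι → Matrix (Fin 2) (Fin 2) R) :
    (∑ m ∈ t, f m).map s = ∑ m ∈ t, (f m).map s := by
  ext a b
  simp [Matrix.map_apply, Matrix.sum_apply]

theorem map_smul820 (s : R ≃+* R) (d : R) (X : Matrix (Fin 2) (Fin 2) R) :
    (d • X).map s = s d • X.map s := by
  ext a b
  simp [Matrix.map_apply]

theorem map_pow_succ820 (s : R ≃+* R) (m : ℕ) (c : Matrix (Fin 2) (Fin 2) R) :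
    (c.map (s ^ m : R ≃+* R)).map s = c.map (s ^ (m + 1) : R ≃+* R) := by
  ext a b
  simp only [Matrix.map_apply]
  rw [pow_succ', RingAut.mul_apply]

/-- **The non-commutative Poincaré series identity.** -/
theorem mPoincare820 (s : R ≃+* R) (l : ℕ) (U c : Matrix (Fin 2) (Fin 2) R)
    (hc : ∀ a b, (s ^ l) (c a b) = c a b) :
    U * (mPser820 s l U c).map s = mPser820 s l U c + (mPN820 s U l - 1) * c := by
  unfold mPser820
  rw [map_sum820, Finset.mul_sum]
  have h1 : ∀ m ∈ Finset.range l, U * (mPN820 s U m * c.map (s ^ m : R ≃+* R)).map s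
      = mPN820 s U (m + 1) * c.map (s ^ (m + 1) : R ≃+* R) := by
    intro m _
    rw [map_mul820, map_pow_succ820, mPN_succ820, mul_assoc]
  rw [Finset.sum_congr rfl h1]
  have h2 := Finset.sum_range_succ' (fun m => mPN820 s U m * c.map (s ^ m : R ≃+* R)) l
  have h3 := Finset.sum_range_succ (fun m => mPN820 s U m * c.map (s ^ m : R ≃+* R)) l
  have hcl : c.map (s ^ l : R ≃+* R) = c := by
    ext a b
    simp only [Matrix.map_apply]
    exact hc a b
  have hc0 : c.map (s ^ 0 : R ≃+* R) = c := by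
    ext a b
    simp
  simp only [mPN_zero820, one_mul, hc0] at h2
  rw [hcl] at h3
  have h4 : ∑ m ∈ Finset.range l, mPN820 s U (m + 1) * c.map (s ^ (m + 1) : R ≃+* R)
      = ∑ m ∈ Finset.range l, mPN820 s U m * c.map (s ^ m : R ≃+* R) + mPN820 s U l * c - c := by
    rw [← h3, h2]
    abel
  rw [h4, sub_mul, one_mul]
  abel

/-- Scaling: `P_m(d • U) = pnm220 s m d • P_m(U)`. -/
theorem mPN_smul820 (s : R ≃+* R) (d : R) (U : Matrix (Fin 2) (Fin 2) R) (m : ℕ) :
    mPN820 s (d • U) m = pnm220 s m d • mPN820 s U m := by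
  induction m with
  | zero => simp [pnm_zero220]
  | succ n ih =>
    rw [mPN_succ820, ih, map_smul820, pnm_succ220, mPN_succ820, smul_mul_assoc, mul_smul_comm,
      smul_smul]

theorem det_map820 (s : R ≃+* R) (X : Matrix (Fin 2) (Fin 2) R) :
    (X.map s).det = s X.det := by
  simp [Matrix.det_fin_two]

theorem det_mPN_succ820 (s : R ≃+* R) (U : Matrix (Fin 2) (Fin 2) R) (m : ℕ) :
    (mPN820 s U (m + 1)).det = U.det * s (mPN820 s U m).det := by
  rw [mPN_succ820, Matrix.det_mul, det_map820]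

/-- The twisted norm of `T6/Spec.lean` is `P_l`. -/
theorem coe_twN820 (s : R ≃+* R) (u : GL (Fin 2) R) (m : ℕ) :
    ((twN (glAut s) m u : GL (Fin 2) R) : Matrix (Fin 2) (Fin 2) R)
      = mPN820 s (u : Matrix (Fin 2) (Fin 2) R) m := by
  induction m with
  | zero => rfl
  | succ n ih =>
    change ((u * glAut s (twN (glAut s) n u) : GL (Fin 2) R) : Matrix (Fin 2) (Fin 2) R) = _
    rw [Matrix.GeneralLinearGroup.coe_mul, mPN_succ820, ← ih]
    rfl

theorem coe_twNorm820 (s : R ≃+* R) (u : GL (Fin 2) R) (l : ℕ) :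
    ((twNorm s l u : GL (Fin 2) R) : Matrix (Fin 2) (Fin 2) R)
      = mPN820 s (u : Matrix (Fin 2) (Fin 2) R) l :=
  coe_twN820 s u l

theorem coe_glAut820 (s : R ≃+* R) (y : GL (Fin 2) R) :
    ((glAut s y : GL (Fin 2) R) : Matrix (Fin 2) (Fin 2) R)
      = (y : Matrix (Fin 2) (Fin 2) R).map s := rfl

/-- The entries of the Poincaré series for a diagonal `c`. -/
theorem mPser_diag_apply820 (s : R ≃+* R) (l : ℕ) (U : Matrix (Fin 2) (Fin 2) R)
    (t : Fin 2 → R) (a b : Fin 2) :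
    mPser820 s l U (Matrix.diagonal t) a b
      = ∑ m ∈ Finset.range l, mPN820 s U m a b * (s ^ m) (t b) := by
  unfold mPser820
  rw [Matrix.sum_apply]
  refine Finset.sum_congr rfl fun m _ => ?_
  rw [Matrix.diagonal_map (map_zero _), Matrix.mul_diagonal]

end Algebra

end Fermat.Agent.LT.T6.H820

end

end
-- ===== PACK-END LT/T6/H820/H90rAlg.lean

-- ===== PACK-BEGIN LT/T6/H888/ArchClassTop.lean
section



/-!
# Row LT, tower T6, leaf T6.22 `ArchClassC` (helper888): the TOP of the cut, PROVED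

`archClassC888 : MtContC888 → ProdFormC888 → DarbouxC888 → GLInjC888 → SphVolterraC888 →
  VolterraUniqC888 → ArchClassC`.
-/

set_option autoImplicit false

open MeasureTheory

noncomputable section

namespace Fermat.Agent.LT.T6.H888

open Fermat.Agent.LT.T6

theorem rho_symm888 (t u φ : ℝ) : rho888 t u φ = rho888 u t φ := by
  unfold rho888; ring

theorem kerW_symm888 (n : ℤ) (t u φ : ℝ) : kerW888 n t u φ = kerW888 n u t φ := by
  unfold kerW888; split_ifs <;> ring

theorem gT_symm888 (n : ℤ) (f : ℝ → ℂ) (t u : ℝ) : gT888 n f t u = gT888 n f u t := by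
  unfold gT888
  simp only [rho_symm888 t u, kerW_symm888 n t u]

theorem wtA_zero888 (n : ℤ) : wtA888 n 0 = 0 := by
  unfold wtA888; split_ifs <;> simp

theorem gL_zero888 (n : ℤ) (g : ℝ → ℂ) : gL888 n g 0 = 0 := by
  unfold gL888; simp

theorem nrm_pos888 (n : ℤ) (t : ℝ) : 0 < nrm888 n t := by
  unfold nrm888; split_ifs
  · exact one_pos
  · exact Real.cosh_pos _

/-- Pulling a constant out of `gL888` when `h q = c * g q` for `q > 0` (the weight vanishes
at `0`). -/
theorem gL_congr_mul888 (n : ℤ) (h g : ℝ → ℂ) (c : ℂ) (u : ℝ) (hu : 0 ≤ u)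
    (hq : ∀ q, 0 < q → h q = c * g q) : gL888 n h u = c * gL888 n g u := by
  unfold gL888
  rw [← intervalIntegral.integral_const_mul]
  apply intervalIntegral.integral_congr
  intro r hr
  rw [Set.uIcc_of_le hu] at hr
  simp only
  have h2 : (∫ q in (0:ℝ)..r, ((wtA888 n q : ℝ) : ℂ) * h q)
      = c * ∫ q in (0:ℝ)..r, ((wtA888 n q : ℝ) : ℂ) * g q := by
    rw [← intervalIntegral.integral_const_mul]
    apply intervalIntegral.integral_congr
    intro q hq'
    rw [Set.uIcc_of_le hr.1] at hq'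
    simp only
    rcases eq_or_lt_of_le hq'.1 with h0 | h0
    · rw [← h0, wtA_zero888]; simp
    · rw [hq q h0]; ring
  rw [h2]; ring

/-- **The top of the cut of T6.22.** -/
theorem archClassC888 (hA1 : MtContC888) (hA2 : ProdFormC888) (hB : DarbouxC888)
    (hI : GLInjC888) (hD : SphVolterraC888) (hE : VolterraUniqC888) : ArchClassC := by
  intro n hn e m hcont hne hwt hscal heig
  have hE0 : IsCircEigen888 n e m := ⟨hcont, hne, hwt, hscal, heig⟩
  have hfc : ContinuousOn (mtOf888 n m) (Set.Ici 0) := hA1 n hn e m hE0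
  have hf0 : mtOf888 n m 0 = 1 := by simp [mtOf888]
  have hPF : ∀ t u, 0 < t → 0 < u →
      gT888 n (mtOf888 n m) t u = mtOf888 n m t * mtOf888 n m u := hA2 n hn e m hE0
  have h1 : ∀ t u, 0 < t → 0 < u →
      gT888 n (gL888 n (mtOf888 n m)) t u
        = gL888 n (mtOf888 n m) t + mtOf888 n m t * gL888 n (mtOf888 n m) u := by
    intro t u ht hu
    rw [hB n hn (mtOf888 n m) hfc t u ht hu]
    congr 1
    exact gL_congr_mul888 n _ (mtOf888 n m) (mtOf888 n m t) u hu.le
      (fun q hq => hPF t q ht hq)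
  obtain ⟨u₀, hu₀, hwu₀⟩ := hI n hn (mtOf888 n m) hfc hf0
  have hV : ∀ t, 0 ≤ t → mtOf888 n m t
      = 1 + ((mtOf888 n m u₀ - 1) / gL888 n (mtOf888 n m) u₀) * gL888 n (mtOf888 n m) t := by
    intro t ht
    rcases eq_or_lt_of_le ht with h0 | h0
    · rw [← h0, hf0, gL_zero888]; ring
    · have e1 := h1 t u₀ h0 hu₀
      have e2 := h1 u₀ t hu₀ h0
      rw [gT_symm888] at e2
      have e3 := e1.symm.trans e2
      field_simp
      linear_combination e3
  obtain ⟨s, hs⟩ : ∃ s : ℂ,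
      lam888 n s = (mtOf888 n m u₀ - 1) / gL888 n (mtOf888 n m) u₀ := by
    unfold lam888
    split_ifs
    · obtain ⟨s, hs⟩ := IsAlgClosed.exists_pow_nat_eq
        ((mtOf888 n m u₀ - 1) / gL888 n (mtOf888 n m) u₀ + 1 / 4) (n := 2) (by norm_num)
      exact ⟨s, by rw [hs]; ring⟩
    · obtain ⟨s, hs⟩ := IsAlgClosed.exists_pow_nat_eq
        ((mtOf888 n m u₀ - 1) / gL888 n (mtOf888 n m) u₀ + 1) (n := 2) (by norm_num)
      exact ⟨s, by rw [hs]; ring⟩
  obtain ⟨ps, hpsc, hps1, hps2⟩ := hD n hn s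
  rw [hs] at hps2
  have hEq := hE n hn _ (mtOf888 n m) ps hfc hpsc hV hps2
  refine ⟨s, fun t ht => ?_⟩
  rw [hps1 t ht, ← hEq t ht.le]
  have h3 : mtOf888 n m t = m t / ((nrm888 n t : ℝ) : ℂ) := by simp [mtOf888, ht]
  rw [h3]
  have hne' : ((nrm888 n t : ℝ) : ℂ) ≠ 0 := by exact_mod_cast (nrm_pos888 n t).ne'
  field_simp

end Fermat.Agent.LT.T6.H888

end

end
-- ===== PACK-END LT/T6/H888/ArchClassTop.lean

-- ===== PACK-BEGIN LT/T7/H616/RegTrace3.lean
section





/-!
# Row LT, tower T7, node T7.L2.2 SPEC-UP: THE CLASS OF `Φ` (helper616, OFF-MAIN asset, ADDITIVE)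

Consumer form of `RegTrace.lean` / `RegTrace2.lean` in the vocabulary of `T7/Level2.lean`
(helper797@819237e8b): SETS of operators and SIMPLICITY of the class space.  Abstract linear
algebra only (Mathlib + main `S29/H872/Burnside` + `RegTrace`, `RegTrace2`).

## Dictionary (OP-up of `IsL2Data`)

`V` = the class space of `Φ`: the span of the invariant eigenfunctions `ψ` (`IsEigFn 𝔑₀ r ℓ o ψ C`,
`C` agreeing with `eigOf Φ` outside `S'`); finite-dimensional, non-zero.
`𝒢` = the operators `cosetOp Hg` on `V`, `g` BAD (`IsDblCosetSystem 𝔑₀ g Hg`);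
`ℐ j` = the Iwahori coset operators at the place `o j` on `V`;
`S = R(σ)`, `Sinv = R(σ⁻¹)`; `𝒰 = iwOp (o 0) H` (`∈ ℐ 0` up to the scalar `q^{-1/2}`), `Z` = the
translation by the scalar uniformiser at `o 0`.
The operator of OP-up is `[U g U] Zᵏ 𝒰ᵐ = g * (Zᵏ * 𝒰ᵐ)`, its diagonal coefficients against
`R(σ)` sum to `tr(g * (Zᵏ * 𝒰ᵐ) * S)` on `V`.

## Hypotheses

* `hGI`, `hII`: operators at different places commute (generators only);
* `hdown`, `hwrap`: `S⁻¹ (ℐ (j+1)) S ⊆ adjoin (ℐ j)`, `S⁻¹ (ℐ 0) S ⊆ adjoin (ℐ (l-1))`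
  (`R(σ)⁻¹ R(h) R(σ) = R(σ⁻¹ h)`, generators only); `hcent`: `S ^ l` commutes with `ℐ 0`
  (`S ^ l = 1`);
* `hirr`: SIMPLICITY = multiplicity one in module form (helper963): a subspace of `V` stable
  under `𝒢` and all `ℐ j` is `⊥` or `⊤`;
* `h1`, `hmul`: the span of `𝒢` contains `1` and the products of two elements of `𝒢`
  (a product of two double coset operators is a combination of double coset operators);
* `Z` invertible, commuting with `𝒢` and all `ℐ j`; `𝒰 ∈ adjoin (ℐ 0)`.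

## Results

* `exists_gen_twisted_trace_ne_zero616`: there is ONE `g ∈ 𝒢` with `tr(g S) ≠ 0`.
* `twisted_trace_gen616`: `tr(g h S) · dim V = tr(g S) · tr(h)` for `g ∈ 𝒢`, `h ∈ adjoin (ℐ 0)`.
* `specUp_core616`: there are `g ∈ 𝒢`, `b ≠ 0` with `tr(g S) ≠ 0`, `Z = b`, and for ALL `g' ∈ 𝒢`,
  `k ∈ ℤ`, `m ∈ ℕ`

      tr(g' (Zᵏ 𝒰ᵐ) S) · dim V = tr(g' S) · bᵏ · ∑_μ dim V_μ(𝒰) · μᵐ ;

  if `𝒰` is not nilpotent there is an eigenvalue `μ₀ ≠ 0` of `𝒰`: the atom `(b, μ₀)` of the class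
  of `Φ` has the coefficient `tr(g S) dim V_{μ₀}(𝒰) / dim V ≠ 0`.
-/

set_option autoImplicit false

open Module

namespace Fermat.Agent.LT.T7.H616

section Tools

variable {V : Type*} [AddCommGroup V] [Module ℂ V]

/-- Generators commute ⇒ the generated subalgebras commute. -/
theorem commute_adjoin_adjoin616 (s t : Set (Module.End ℂ V))
    (h : ∀ x ∈ s, ∀ y ∈ t, x * y = y * x) :
    ∀ x ∈ Algebra.adjoin ℂ s, ∀ y ∈ Algebra.adjoin ℂ t, x * y = y * x := by
  have h1 : Algebra.adjoin ℂ t ≤ Subalgebra.centralizer ℂ s := by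
    apply Algebra.adjoin_le
    intro y hy
    rw [SetLike.mem_coe, Subalgebra.mem_centralizer_iff]
    intro x hx
    exact h x hx y hy
  have h2 : Algebra.adjoin ℂ s
      ≤ Subalgebra.centralizer ℂ ((Algebra.adjoin ℂ t : Subalgebra ℂ (Module.End ℂ V)) :
        Set (Module.End ℂ V)) := by
    apply Algebra.adjoin_le
    intro x hx
    rw [SetLike.mem_coe, Subalgebra.mem_centralizer_iff]
    intro y hy
    have := h1 hy
    rw [Subalgebra.mem_centralizer_iff] at this
    exact (this x hx).symm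
  intro x hx y hy
  have := h2 hx
  rw [Subalgebra.mem_centralizer_iff] at this
  exact (this y hy).symm

/-- Conjugation by `S` maps a generated subalgebra into a subalgebra if it does so on the
generators. -/
theorem conj_adjoin_mem616 (S Sinv : Module.End ℂ V) (hS : S * Sinv = 1) (hS' : Sinv * S = 1)
    (s : Set (Module.End ℂ V)) (B : Subalgebra ℂ (Module.End ℂ V))
    (h : ∀ x ∈ s, Sinv * x * S ∈ B) :
    ∀ x ∈ Algebra.adjoin ℂ s, Sinv * x * S ∈ B := by
  intro x hx
  induction hx using Algebra.adjoin_induction with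
  | mem x hx => exact h x hx
  | algebraMap r =>
    have e : Sinv * algebraMap ℂ (Module.End ℂ V) r * S = algebraMap ℂ (Module.End ℂ V) r := by
      rw [← Algebra.commutes r Sinv, mul_assoc, hS', mul_one]
    rw [e]
    exact B.algebraMap_mem r
  | add x y _ _ hx hy =>
    have e : Sinv * (x + y) * S = Sinv * x * S + Sinv * y * S := by
      rw [mul_add, add_mul]
    rw [e]
    exact B.add_mem hx hy
  | mul x y _ _ hx hy =>
    have e : Sinv * (x * y) * S = (Sinv * x * S) * (Sinv * y * S) := by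
      have := conj_pow_mul616 S Sinv hS 1 x y
      simpa using this
    rw [e]
    exact B.mul_mem hx hy

/-- If the span of `𝒢` contains `1` and the products of two elements of `𝒢`, the subalgebra
generated by `𝒢` is contained in the span. -/
theorem adjoin_le_span616 (𝒢 : Set (Module.End ℂ V))
    (h1 : (1 : Module.End ℂ V) ∈ Submodule.span ℂ 𝒢)
    (hmul : ∀ x ∈ 𝒢, ∀ y ∈ 𝒢, x * y ∈ Submodule.span ℂ 𝒢) :
    ∀ x ∈ Algebra.adjoin ℂ 𝒢, x ∈ Submodule.span ℂ 𝒢 := by
  have hmul' : ∀ x y : Module.End ℂ V, x ∈ Submodule.span ℂ 𝒢 → y ∈ Submodule.span ℂ 𝒢 →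
      x * y ∈ Submodule.span ℂ 𝒢 := by
    intro x y hx hy
    have h2 : x * y ∈ Submodule.span ℂ 𝒢 * Submodule.span ℂ 𝒢 := Submodule.mul_mem_mul hx hy
    rw [Submodule.span_mul_span] at h2
    refine (Submodule.span_le.2 ?_) h2
    rintro z ⟨a, ha, b, hb, rfl⟩
    exact hmul a ha b hb
  let B : Subalgebra ℂ (Module.End ℂ V) := (Submodule.span ℂ 𝒢).toSubalgebra h1 hmul'
  have hle : Algebra.adjoin ℂ 𝒢 ≤ B := by
    apply Algebra.adjoin_le
    intro x hx
    exact Submodule.subset_span hx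
  intro x hx
  exact hle hx

end Tools

section Core

variable {V : Type*} [AddCommGroup V] [Module ℂ V] [FiniteDimensional ℂ V]

/-- **Burnside**: a set of operators without non-trivial invariant subspace generates
`End V`. -/
theorem adjoin_eq_top_of_simple616 [Nontrivial V] (𝒮 : Set (Module.End ℂ V))
    (hirr : ∀ W : Submodule ℂ V, (∀ a ∈ 𝒮, W ≤ W.comap a) → W = ⊥ ∨ W = ⊤) :
    Algebra.adjoin ℂ 𝒮 = ⊤ :=
  Fermat.Agent.S29.H872.burnside (Algebra.adjoin ℂ 𝒮)
    (fun W hW => hirr W (fun a ha => hW a (Algebra.subset_adjoin ha)))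

/-- The hypotheses of `twisted_trace_formula616` for the generated subalgebras. -/
theorem hyps_of_gens616 [Nontrivial V] (l : ℕ)
    (𝒢 : Set (Module.End ℂ V)) (ℐ : ℕ → Set (Module.End ℂ V))
    (S Sinv : Module.End ℂ V) (hS : S * Sinv = 1) (hS' : Sinv * S = 1)
    (hGI : ∀ j < l, ∀ g ∈ 𝒢, ∀ h ∈ ℐ j, g * h = h * g)
    (hII : ∀ i < l, ∀ j < l, i ≠ j → ∀ h ∈ ℐ i, ∀ h' ∈ ℐ j, h * h' = h' * h)
    (hdown : ∀ j, j + 1 < l → ∀ h ∈ ℐ (j + 1), Sinv * h * S ∈ Algebra.adjoin ℂ (ℐ j))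
    (hwrap : ∀ h ∈ ℐ 0, Sinv * h * S ∈ Algebra.adjoin ℂ (ℐ (l - 1)))
    (hcent : ∀ h ∈ ℐ 0, S ^ l * h = h * S ^ l)
    (hirr : ∀ W : Submodule ℂ V, (∀ g ∈ 𝒢, W ≤ W.comap g) →
      (∀ j < l, ∀ h ∈ ℐ j, W ≤ W.comap h) → W = ⊥ ∨ W = ⊤) :
    (∀ j < l, ∀ a ∈ Algebra.adjoin ℂ 𝒢, ∀ h ∈ Algebra.adjoin ℂ (ℐ j), a * h = h * a) ∧
    (∀ i < l, ∀ j < l, i ≠ j → ∀ h ∈ Algebra.adjoin ℂ (ℐ i), ∀ h' ∈ Algebra.adjoin ℂ (ℐ j),
      h * h' = h' * h) ∧
    (∀ j, j + 1 < l → ∀ h ∈ Algebra.adjoin ℂ (ℐ (j + 1)),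
      Sinv * h * S ∈ Algebra.adjoin ℂ (ℐ j)) ∧
    (∀ h ∈ Algebra.adjoin ℂ (ℐ 0), Sinv * h * S ∈ Algebra.adjoin ℂ (ℐ (l - 1))) ∧
    (∀ h ∈ Algebra.adjoin ℂ (ℐ 0), S ^ l * h = h * S ^ l) ∧
    Algebra.adjoin ℂ (((Algebra.adjoin ℂ 𝒢 : Subalgebra ℂ (Module.End ℂ V)) :
        Set (Module.End ℂ V)) ∪
      ⋃ j ∈ Finset.range l, ((Algebra.adjoin ℂ (ℐ j) : Subalgebra ℂ (Module.End ℂ V)) :
        Set (Module.End ℂ V))) = ⊤ := by
  refine ⟨fun j hj => commute_adjoin_adjoin616 𝒢 (ℐ j) (hGI j hj),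
    fun i hi j hj hij => commute_adjoin_adjoin616 (ℐ i) (ℐ j) (hII i hi j hj hij),
    fun j hj => conj_adjoin_mem616 S Sinv hS hS' (ℐ (j + 1)) _ (hdown j hj),
    conj_adjoin_mem616 S Sinv hS hS' (ℐ 0) _ hwrap, ?_, ?_⟩
  · intro h hh
    have := commute_adjoin_adjoin616 {S ^ l} (ℐ 0) (by
      intro x hx y hy
      rw [Set.mem_singleton_iff] at hx
      rw [hx]
      exact hcent y hy) (S ^ l) (Algebra.subset_adjoin (Set.mem_singleton _)) h hh
    exact this
  · have htop : Algebra.adjoin ℂ (𝒢 ∪ ⋃ j ∈ Finset.range l, ℐ j) = ⊤ := by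
      apply adjoin_eq_top_of_simple616
      intro W hW
      refine hirr W (fun g hg => hW g (Or.inl hg)) (fun j hj h hh => hW h (Or.inr ?_))
      simp only [Set.mem_iUnion, Finset.mem_range]
      exact ⟨j, hj, hh⟩
    rw [eq_top_iff, ← htop]
    apply Algebra.adjoin_mono
    rintro x (hx | hx)
    · exact Or.inl (Algebra.subset_adjoin hx)
    · right
      simp only [Set.mem_iUnion, Finset.mem_range] at hx ⊢
      obtain ⟨j, hj, hxj⟩ := hx
      exact ⟨j, hj, Algebra.subset_adjoin hxj⟩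

/-- **THE TWISTED TRACE FORMULA FOR GENERATORS.**  `tr(g h S) · dim V = tr(g S) · tr(h)` for
`g ∈ 𝒢` and `h` in the algebra generated by `ℐ 0`. -/
theorem twisted_trace_gen616 [Nontrivial V] (l : ℕ) (hl : 0 < l)
    (𝒢 : Set (Module.End ℂ V)) (ℐ : ℕ → Set (Module.End ℂ V))
    (S Sinv : Module.End ℂ V) (hS : S * Sinv = 1) (hS' : Sinv * S = 1)
    (hGI : ∀ j < l, ∀ g ∈ 𝒢, ∀ h ∈ ℐ j, g * h = h * g)
    (hII : ∀ i < l, ∀ j < l, i ≠ j → ∀ h ∈ ℐ i, ∀ h' ∈ ℐ j, h * h' = h' * h)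
    (hdown : ∀ j, j + 1 < l → ∀ h ∈ ℐ (j + 1), Sinv * h * S ∈ Algebra.adjoin ℂ (ℐ j))
    (hwrap : ∀ h ∈ ℐ 0, Sinv * h * S ∈ Algebra.adjoin ℂ (ℐ (l - 1)))
    (hcent : ∀ h ∈ ℐ 0, S ^ l * h = h * S ^ l)
    (hirr : ∀ W : Submodule ℂ V, (∀ g ∈ 𝒢, W ≤ W.comap g) →
      (∀ j < l, ∀ h ∈ ℐ j, W ≤ W.comap h) → W = ⊥ ∨ W = ⊤)
    (g : Module.End ℂ V) (hg : g ∈ Algebra.adjoin ℂ 𝒢)
    (h : Module.End ℂ V) (hh : h ∈ Algebra.adjoin ℂ (ℐ 0)) :
    LinearMap.trace ℂ V (g * h * S) * (Module.finrank ℂ V : ℂ)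
      = LinearMap.trace ℂ V (g * S) * LinearMap.trace ℂ V h := by
  obtain ⟨a1, a2, a3, a4, a5, a6⟩ :=
    hyps_of_gens616 l 𝒢 ℐ S Sinv hS hS' hGI hII hdown hwrap hcent hirr
  exact (twisted_trace_formula616 l hl (Algebra.adjoin ℂ 𝒢) (fun j => Algebra.adjoin ℂ (ℐ j))
    S Sinv hS hS' a1 a2 a3 a4 a5 a6).2 g hg h hh

/-- **NON-VANISHING FOR ONE GENERATOR.**  If the span of `𝒢` contains `1` and the products of two
elements of `𝒢`, there is `g ∈ 𝒢` with `tr(g S) ≠ 0`. -/
theorem exists_gen_twisted_trace_ne_zero616 [Nontrivial V] (l : ℕ) (hl : 0 < l)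
    (𝒢 : Set (Module.End ℂ V)) (ℐ : ℕ → Set (Module.End ℂ V))
    (S Sinv : Module.End ℂ V) (hS : S * Sinv = 1) (hS' : Sinv * S = 1)
    (hGI : ∀ j < l, ∀ g ∈ 𝒢, ∀ h ∈ ℐ j, g * h = h * g)
    (hII : ∀ i < l, ∀ j < l, i ≠ j → ∀ h ∈ ℐ i, ∀ h' ∈ ℐ j, h * h' = h' * h)
    (hdown : ∀ j, j + 1 < l → ∀ h ∈ ℐ (j + 1), Sinv * h * S ∈ Algebra.adjoin ℂ (ℐ j))
    (hwrap : ∀ h ∈ ℐ 0, Sinv * h * S ∈ Algebra.adjoin ℂ (ℐ (l - 1)))
    (hcent : ∀ h ∈ ℐ 0, S ^ l * h = h * S ^ l)
    (hirr : ∀ W : Submodule ℂ V, (∀ g ∈ 𝒢, W ≤ W.comap g) →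
      (∀ j < l, ∀ h ∈ ℐ j, W ≤ W.comap h) → W = ⊥ ∨ W = ⊤)
    (h1 : (1 : Module.End ℂ V) ∈ Submodule.span ℂ 𝒢)
    (hmul : ∀ x ∈ 𝒢, ∀ y ∈ 𝒢, x * y ∈ Submodule.span ℂ 𝒢) :
    ∃ g ∈ 𝒢, LinearMap.trace ℂ V (g * S) ≠ 0 := by
  obtain ⟨a1, a2, a3, a4, a5, a6⟩ :=
    hyps_of_gens616 l 𝒢 ℐ S Sinv hS hS' hGI hII hdown hwrap hcent hirr
  obtain ⟨a, ha, hne⟩ := (twisted_trace_formula616 l hl (Algebra.adjoin ℂ 𝒢)
    (fun j => Algebra.adjoin ℂ (ℐ j)) S Sinv hS hS' a1 a2 a3 a4 a5 a6).1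
  by_contra hcon
  push Not at hcon
  have hspan : a ∈ Submodule.span ℂ 𝒢 := adjoin_le_span616 𝒢 h1 hmul a ha
  have hker : Submodule.span ℂ 𝒢 ≤ LinearMap.ker (twTr616 S) := by
    rw [Submodule.span_le]
    intro g hg
    rw [SetLike.mem_coe, LinearMap.mem_ker, twTr616_apply]
    exact hcon g hg
  have := hker hspan
  rw [LinearMap.mem_ker, twTr616_apply] at this
  exact hne this

/-- **Schur**: an invertible operator commuting with a generating set is a non-zero scalar, and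
so are its integral powers. -/
theorem central_unit_scalar616 [Nontrivial V] (𝒮 : Set (Module.End ℂ V))
    (htop : Algebra.adjoin ℂ 𝒮 = ⊤) (Zu : (Module.End ℂ V)ˣ)
    (hZ : ∀ x ∈ 𝒮, (Zu : Module.End ℂ V) * x = x * Zu) :
    ∃ b : ℂ, b ≠ 0 ∧ ∀ k : ℤ,
      ((Zu ^ k : (Module.End ℂ V)ˣ) : Module.End ℂ V) = algebraMap ℂ (Module.End ℂ V) (b ^ k) := by
  have hall : ∀ x : Module.End ℂ V, (Zu : Module.End ℂ V) * x = x * Zu := by
    have hle : Algebra.adjoin ℂ 𝒮
        ≤ Subalgebra.centralizer ℂ ({(Zu : Module.End ℂ V)} : Set (Module.End ℂ V)) := by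
      apply Algebra.adjoin_le
      intro x hx
      rw [SetLike.mem_coe, Subalgebra.mem_centralizer_iff]
      intro z hz
      rw [Set.mem_singleton_iff] at hz
      rw [hz]
      exact hZ x hx
    intro x
    have hx : x ∈ Algebra.adjoin ℂ 𝒮 := by rw [htop]; exact Algebra.mem_top
    have := hle hx
    rw [Subalgebra.mem_centralizer_iff] at this
    exact this _ (Set.mem_singleton _)
  have hcen : (Zu : Module.End ℂ V) ∈ Subalgebra.center ℂ (Module.End ℂ V) := by
    rw [Subalgebra.mem_center_iff]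
    intro x
    exact (hall x).symm
  rw [Algebra.IsCentral.center_eq_bot, Algebra.mem_bot] at hcen
  obtain ⟨b, hb⟩ := hcen
  have hb0 : b ≠ 0 := by
    intro h0
    rw [h0, map_zero] at hb
    obtain ⟨v, hv⟩ := exists_ne (0 : V)
    have h1 : ((Zu⁻¹ : (Module.End ℂ V)ˣ) : Module.End ℂ V) * (Zu : Module.End ℂ V) = 1 :=
      Zu.inv_mul
    rw [← hb, mul_zero] at h1
    have := congrArg (fun f : Module.End ℂ V => f v) h1
    simp only [LinearMap.zero_apply, Module.End.one_apply] at this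
    exact hv this.symm
  refine ⟨b, hb0, fun k => ?_⟩
  have hu : Zu = Units.map (algebraMap ℂ (Module.End ℂ V)).toMonoidHom (Units.mk0 b hb0) := by
    apply Units.ext
    rw [← hb]
    rfl
  have e1 : (Units.map (algebraMap ℂ (Module.End ℂ V)).toMonoidHom (Units.mk0 b hb0)) ^ k
      = Units.map (algebraMap ℂ (Module.End ℂ V)).toMonoidHom ((Units.mk0 b hb0) ^ k) :=
    (map_zpow (Units.map (algebraMap ℂ (Module.End ℂ V)).toMonoidHom) (Units.mk0 b hb0) k).symm
  rw [hu, e1, Units.coe_map, Units.val_zpow_eq_zpow_val, Units.val_mk0]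
  rfl

/-- A non-nilpotent operator has a non-zero eigenvalue. -/
theorem exists_ne_zero_eigenvalue616 (𝒰 : Module.End ℂ V) (h : ¬ IsNilpotent 𝒰) :
    ∃ μ₀ : ℂ, μ₀ ≠ 0 ∧ 𝒰.maxGenEigenspace μ₀ ≠ ⊥ := by
  by_contra hcon
  push Not at hcon
  obtain ⟨m, hm, htr⟩ := exists_trace_pow_ne_zero_of_not_isNilpotent616 𝒰 h 1
  apply htr
  rw [trace_pow_eq_finsum616]
  apply finsum_eq_zero_of_forall_eq_zero
  intro μ
  by_cases hμ : μ = 0
  · rw [hμ, zero_pow (by omega), mul_zero]
  · rw [hcon μ hμ, finrank_bot]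
    simp

/-- **SPEC-UP, THE CLASS OF `Φ`.**  See the header. -/
theorem specUp_core616 [Nontrivial V] (l : ℕ) (hl : 0 < l)
    (𝒢 : Set (Module.End ℂ V)) (ℐ : ℕ → Set (Module.End ℂ V))
    (S Sinv : Module.End ℂ V) (hS : S * Sinv = 1) (hS' : Sinv * S = 1)
    (hGI : ∀ j < l, ∀ g ∈ 𝒢, ∀ h ∈ ℐ j, g * h = h * g)
    (hII : ∀ i < l, ∀ j < l, i ≠ j → ∀ h ∈ ℐ i, ∀ h' ∈ ℐ j, h * h' = h' * h)
    (hdown : ∀ j, j + 1 < l → ∀ h ∈ ℐ (j + 1), Sinv * h * S ∈ Algebra.adjoin ℂ (ℐ j))
    (hwrap : ∀ h ∈ ℐ 0, Sinv * h * S ∈ Algebra.adjoin ℂ (ℐ (l - 1)))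
    (hcent : ∀ h ∈ ℐ 0, S ^ l * h = h * S ^ l)
    (hirr : ∀ W : Submodule ℂ V, (∀ g ∈ 𝒢, W ≤ W.comap g) →
      (∀ j < l, ∀ h ∈ ℐ j, W ≤ W.comap h) → W = ⊥ ∨ W = ⊤)
    (h1 : (1 : Module.End ℂ V) ∈ Submodule.span ℂ 𝒢)
    (hmul : ∀ x ∈ 𝒢, ∀ y ∈ 𝒢, x * y ∈ Submodule.span ℂ 𝒢)
    (Zu : (Module.End ℂ V)ˣ)
    (hZG : ∀ g ∈ 𝒢, (Zu : Module.End ℂ V) * g = g * Zu)
    (hZI : ∀ j < l, ∀ h ∈ ℐ j, (Zu : Module.End ℂ V) * h = h * Zu)
    (𝒰 : Module.End ℂ V) (h𝒰 : 𝒰 ∈ Algebra.adjoin ℂ (ℐ 0)) :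
    ∃ g ∈ 𝒢, ∃ b : ℂ, LinearMap.trace ℂ V (g * S) ≠ 0 ∧ b ≠ 0 ∧
      (∀ k : ℤ, ((Zu ^ k : (Module.End ℂ V)ˣ) : Module.End ℂ V)
        = algebraMap ℂ (Module.End ℂ V) (b ^ k)) ∧
      ∀ g' ∈ 𝒢, ∀ (k : ℤ) (m : ℕ),
        LinearMap.trace ℂ V (g' * (((Zu ^ k : (Module.End ℂ V)ˣ) : Module.End ℂ V) * 𝒰 ^ m) * S)
            * (Module.finrank ℂ V : ℂ)
          = LinearMap.trace ℂ V (g' * S)
            * (b ^ k * ∑ᶠ μ : ℂ, (Module.finrank ℂ (𝒰.maxGenEigenspace μ) : ℂ) * μ ^ m) := by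
  obtain ⟨g, hg, hne⟩ := exists_gen_twisted_trace_ne_zero616 l hl 𝒢 ℐ S Sinv hS hS' hGI hII
    hdown hwrap hcent hirr h1 hmul
  have htop : Algebra.adjoin ℂ (𝒢 ∪ ⋃ j ∈ Finset.range l, ℐ j) = ⊤ := by
    apply adjoin_eq_top_of_simple616
    intro W hW
    refine hirr W (fun g hg => hW g (Or.inl hg)) (fun j hj h hh => hW h (Or.inr ?_))
    simp only [Set.mem_iUnion, Finset.mem_range]
    exact ⟨j, hj, hh⟩
  obtain ⟨b, hb0, hbk⟩ := central_unit_scalar616 _ htop Zu (by
    rintro x (hx | hx)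
    · exact hZG x hx
    · simp only [Set.mem_iUnion, Finset.mem_range] at hx
      obtain ⟨j, hj, hxj⟩ := hx
      exact hZI j hj x hxj)
  refine ⟨g, hg, b, hne, hb0, hbk, fun g' hg' k m => ?_⟩
  have hmem : ((Zu ^ k : (Module.End ℂ V)ˣ) : Module.End ℂ V) * 𝒰 ^ m
      ∈ Algebra.adjoin ℂ (ℐ 0) := by
    rw [hbk k]
    exact Subalgebra.mul_mem _ (Subalgebra.algebraMap_mem _ _) (Subalgebra.pow_mem _ h𝒰 m)
  rw [twisted_trace_gen616 l hl 𝒢 ℐ S Sinv hS hS' hGI hII hdown hwrap hcent hirr g'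
    (Algebra.subset_adjoin hg') _ hmem, hbk k, ← trace_pow_eq_finsum616]
  congr 1
  rw [← Algebra.smul_def, map_smul, smul_eq_mul]

end Core

end Fermat.Agent.LT.T7.H616

end
-- ===== PACK-END LT/T7/H616/RegTrace3.lean

-- ===== PACK-BEGIN LT/T7/H729/LocMeasCore.lean
section






/-!
# Row LT, tower T7, leaf T7.L2.1.C2.7.1 `H305.LocMeasC305` (helper729): the core

OFF-MAIN.  Proved lemmas only (no hole, nothing assumed).  ADDITIVE (new names only).
Assets (byte-identical copies): `T6/H420/{ValTop,GLTop}.lean` (helper420: topology of `GL₂` of an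
abstract local field), `T6/H846/OrbAlg.lean` (helper846: `twCent_comm_norm846`).

* `exists_haar_eq_one729` : a topological group with a compact open set `C ∋ 1` has a Haar
  measure (Borel σ-algebra) with `μ C = 1`;
* `entry_le729` : a matrix commuting with a regular `γ`, with integral trace and determinant, has
  entries bounded in terms of `γ` (`y² · disc γ = u² · disc g` for the off-diagonal coordinates);
* `isCompact_cent729` : `{g : g γ = γ g, tr g integral, det g a unit}` is compact in `GL₂(k)`;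
* `exists_locHaar729`, `exists_locTor729` : the two halves of the leaf.
-/

set_option autoImplicit false
set_option linter.style.haveILetI false

open MeasureTheory

noncomputable section

namespace Fermat.Agent.LT.T7.LocMeas729

open Fermat.Agent.LT.T6

/-! ## 1. Haar measures normalised on a compact open set -/

theorem exists_haar_eq_one729 {G : Type} [Group G] [TopologicalSpace G] [IsTopologicalGroup G]
    (C : Set G) (hC : IsCompact C) (hO : IsOpen C) (h1 : (1 : G) ∈ C) :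
    ∃ μ : @Measure G (borel G), @Measure.IsHaarMeasure G _ _ (borel G) μ ∧ μ C = 1 := by
  letI : MeasurableSpace G := borel G
  haveI : BorelSpace G := ⟨rfl⟩
  let K₀ : TopologicalSpace.PositiveCompacts G :=
    ⟨⟨C, hC⟩, ⟨1, by rw [hO.interior_eq]; exact h1⟩⟩
  exact ⟨Measure.haarMeasure K₀, Measure.isHaarMeasure_haarMeasure K₀,
    Measure.haarMeasure_self (K₀ := K₀)⟩

section Field

variable {k : Type} [Field k] [Valued k Γ₀]

/-! ## 2. Valuations -/

theorem val_two_le_one729 : Valued.v (2 : k) ≤ 1 := by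
  have h : (2 : k) = 1 + 1 := by norm_num
  rw [h]
  exact (Valued.v.map_add _ _).trans (by simp)

theorem val_four_le_one729 : Valued.v (4 : k) ≤ 1 := by
  have h : (4 : k) = 2 * 2 := by norm_num
  rw [h, map_mul]
  exact mul_le_one' val_two_le_one729 val_two_le_one729

theorem val_le_of_sq729 {y u D d : k} (hD : D ≠ 0) (h : y ^ 2 * D = u ^ 2 * d)
    (hd : Valued.v d ≤ 1) : Valued.v y ≤ max 1 (Valued.v u ^ 2 / Valued.v D) := by
  have hvD : Valued.v D ≠ 0 := (Valuation.ne_zero_iff _).2 hD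
  have hvD' : 0 < Valued.v D := zero_lt_iff.2 hvD
  have h1 : Valued.v y ^ 2 * Valued.v D = Valued.v u ^ 2 * Valued.v d := by
    rw [← map_pow, ← map_mul, h, map_mul, map_pow]
  have h2 : Valued.v y ^ 2 ≤ Valued.v u ^ 2 / Valued.v D := by
    rw [le_div_iff₀ hvD', h1]
    calc Valued.v u ^ 2 * Valued.v d ≤ Valued.v u ^ 2 * 1 := mul_le_mul' le_rfl hd
      _ = Valued.v u ^ 2 := mul_one _
  rcases le_or_gt (Valued.v y) 1 with hy | hy
  · exact le_max_of_le_left hy
  · refine le_max_of_le_right (le_trans ?_ h2)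
    calc Valued.v y = Valued.v y * 1 := (mul_one _).symm
      _ ≤ Valued.v y * Valued.v y := mul_le_mul' le_rfl hy.le
      _ = Valued.v y ^ 2 := (sq _).symm

/-! ## 3. The entries of the elements of the centraliser of a regular element -/

/-- The bound of the off-diagonal coordinates. -/
def offBound729 (γ : Matrix (Fin 2) (Fin 2) k) : Γ₀ :=
  max (max 1 (Valued.v (γ 0 1) ^ 2 / Valued.v (γ.trace ^ 2 - 4 * γ.det)))
    (max (max 1 (Valued.v (γ 1 0) ^ 2 / Valued.v (γ.trace ^ 2 - 4 * γ.det)))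
      (max 1 (Valued.v (γ 0 0 - γ 1 1) ^ 2 / Valued.v (γ.trace ^ 2 - 4 * γ.det))))

/-- The bound of the entries. -/
def entBound729 (γ : Matrix (Fin 2) (Fin 2) k) : Γ₀ := offBound729 γ / Valued.v (2 : k)

theorem one_le_offBound729 (γ : Matrix (Fin 2) (Fin 2) k) : 1 ≤ offBound729 γ :=
  le_max_of_le_left (le_max_left _ _)

theorem entry_le729 [CharZero k] (γ g : Matrix (Fin 2) (Fin 2) k)
    (hD : γ.trace ^ 2 - 4 * γ.det ≠ 0) (hc : g * γ = γ * g)
    (htr : Valued.v g.trace ≤ 1) (hdet : Valued.v g.det ≤ 1) (i j : Fin 2) :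
    Valued.v (g i j) ≤ entBound729 γ := by
  have e00 := congrFun (congrFun hc 0) 0
  have e01 := congrFun (congrFun hc 0) 1
  have e10 := congrFun (congrFun hc 1) 0
  simp only [Matrix.mul_apply, Fin.sum_univ_two] at e00 e01 e10
  have hDg : Valued.v (g.trace ^ 2 - 4 * g.det) ≤ 1 := by
    refine (Valued.v.map_sub _ _).trans (max_le ?_ ?_)
    · rw [map_pow]
      exact pow_le_one' htr 2
    · rw [map_mul]
      exact mul_le_one' val_four_le_one729 hdet
  have hγt : γ.trace = γ 0 0 + γ 1 1 := Matrix.trace_fin_two γ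
  have hγd : γ.det = γ 0 0 * γ 1 1 - γ 0 1 * γ 1 0 := Matrix.det_fin_two γ
  have hgt : g.trace = g 0 0 + g 1 1 := Matrix.trace_fin_two g
  have hgd : g.det = g 0 0 * g 1 1 - g 0 1 * g 1 0 := Matrix.det_fin_two g
  have I1 : g 0 1 ^ 2 * (γ.trace ^ 2 - 4 * γ.det) = γ 0 1 ^ 2 * (g.trace ^ 2 - 4 * g.det) := by
    rw [hγt, hγd, hgt, hgd]
    linear_combination (-(g 0 1 * (γ 0 0 - γ 1 1) + γ 0 1 * (g 0 0 - g 1 1))) * e01
      + (4 * g 0 1 * γ 0 1) * e00
  have I2 : g 1 0 ^ 2 * (γ.trace ^ 2 - 4 * γ.det) = γ 1 0 ^ 2 * (g.trace ^ 2 - 4 * g.det) := by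
    rw [hγt, hγd, hgt, hgd]
    linear_combination (g 1 0 * (γ 0 0 - γ 1 1) + γ 1 0 * (g 0 0 - g 1 1)) * e10
      - (4 * g 1 0 * γ 1 0) * e00
  have I3 : (g 0 0 - g 1 1) ^ 2 * (γ.trace ^ 2 - 4 * γ.det)
      = (γ 0 0 - γ 1 1) ^ 2 * (g.trace ^ 2 - 4 * g.det) := by
    rw [hγt, hγd, hgt, hgd]
    linear_combination (4 * (g 0 0 - g 1 1) * γ 1 0) * e01
      - (4 * (γ 0 0 - γ 1 1) * g 0 1) * e10
  have b01 : Valued.v (g 0 1) ≤ offBound729 γ :=
    (val_le_of_sq729 hD I1 hDg).trans (le_max_left _ _)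
  have b10 : Valued.v (g 1 0) ≤ offBound729 γ :=
    (val_le_of_sq729 hD I2 hDg).trans (le_max_of_le_right (le_max_left _ _))
  have bd : Valued.v (g 0 0 - g 1 1) ≤ offBound729 γ :=
    (val_le_of_sq729 hD I3 hDg).trans (le_max_of_le_right (le_max_right _ _))
  have h2 : (2 : k) ≠ 0 := two_ne_zero
  have hv2 : 0 < Valued.v (2 : k) := zero_lt_iff.2 ((Valuation.ne_zero_iff _).2 h2)
  have hoff : ∀ x : k, Valued.v x ≤ offBound729 γ → Valued.v x ≤ entBound729 γ := by
    intro x hx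
    unfold entBound729
    rw [le_div_iff₀ hv2]
    calc Valued.v x * Valued.v (2 : k) ≤ offBound729 γ * 1 := mul_le_mul' hx val_two_le_one729
      _ = offBound729 γ := mul_one _
  have htr' : Valued.v g.trace ≤ offBound729 γ := htr.trans (one_le_offBound729 γ)
  have b00 : Valued.v (g 0 0) ≤ entBound729 γ := by
    unfold entBound729
    rw [le_div_iff₀ hv2, ← map_mul]
    have e : g 0 0 * 2 = g.trace + (g 0 0 - g 1 1) := by rw [hgt]; ring
    rw [e]
    exact (Valued.v.map_add _ _).trans (max_le htr' bd)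
  have b11 : Valued.v (g 1 1) ≤ entBound729 γ := by
    unfold entBound729
    rw [le_div_iff₀ hv2, ← map_mul]
    have e : g 1 1 * 2 = g.trace - (g 0 0 - g 1 1) := by rw [hgt]; ring
    rw [e]
    exact (Valued.v.map_sub _ _).trans (max_le htr' bd)
  fin_cases i <;> fin_cases j
  · exact b00
  · exact hoff _ b01
  · exact hoff _ b10
  · exact b11

/-! ## 4. Compactness -/

theorem isCompact_bigBall729 {q : ℕ} (h : IsLocalField k q) (B : ℕ) :
    IsCompact {x : k | Valued.v x ≤ WithZero.exp (B : ℤ)} := by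
  obtain ⟨ϖ, hϖ⟩ := h.unif
  have hϖ0 : ϖ ≠ 0 := by
    intro h0
    rw [h0, map_zero] at hϖ
    exact WithZero.exp_ne_zero hϖ.symm
  have hmul : (WithZero.exp (B : ℤ) : Γ₀) * WithZero.exp (-(B : ℤ)) = 1 := by
    rw [← WithZero.exp_add, add_neg_cancel, WithZero.exp_zero]
  have e : {x : k | Valued.v x ≤ WithZero.exp (B : ℤ)}
      = (fun x : k => x / ϖ ^ B) '' {x : k | Valued.v x ≤ 1} := by
    ext x
    constructor
    · intro hx
      refine ⟨x * ϖ ^ B, ?_, ?_⟩
      · show Valued.v (x * ϖ ^ B) ≤ 1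
        rw [map_mul, H420.val_pow_unif hϖ, ← hmul]
        exact mul_le_mul' hx le_rfl
      · show x * ϖ ^ B / ϖ ^ B = x
        field_simp
    · rintro ⟨y, hy, rfl⟩
      show Valued.v (y / ϖ ^ B) ≤ WithZero.exp (B : ℤ)
      rw [map_div₀, H420.val_pow_unif hϖ, div_le_iff₀ (zero_lt_iff.2 WithZero.exp_ne_zero), hmul]
      exact hy
  rw [e]
  exact (H420.isCompact_unitBall h).image (by fun_prop)

/-- Matrices with entries of valuation `≤ exp B`. -/
def matBig729 (k : Type) [Field k] [Valued k Γ₀] (B : ℕ) : Set (Matrix (Fin 2) (Fin 2) k) :=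
  {M | ∀ i j, Valued.v (M i j) ≤ WithZero.exp (B : ℤ)}

theorem isCompact_matBig729 {q : ℕ} (h : IsLocalField k q) (B : ℕ) :
    IsCompact (matBig729 k B) := by
  have e : matBig729 k B = Set.pi Set.univ fun _ : Fin 2 => Set.pi Set.univ fun _ : Fin 2 =>
      {x : k | Valued.v x ≤ WithZero.exp (B : ℤ)} := by
    ext M
    constructor
    · intro hM i _ j _
      exact hM i j
    · intro hM i j
      exact hM i (Set.mem_univ i) j (Set.mem_univ j)
  rw [e]
  exact isCompact_univ_pi fun _ => isCompact_univ_pi fun _ => isCompact_bigBall729 h B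

theorem exists_nat_bound729 (b : Γ₀) : ∃ B : ℕ, b ≤ WithZero.exp (B : ℤ) := by
  rcases eq_or_ne b 0 with rfl | hb
  · exact ⟨0, zero_le⟩
  · refine ⟨(WithZero.log b).toNat, ?_⟩
    conv_lhs => rw [← WithZero.exp_log hb]
    rw [WithZero.exp_le_exp]
    exact Int.self_le_toNat _

theorem isOpen_val_le_one729 {q : ℕ} (h : IsLocalField k q) :
    IsOpen {x : k | Valued.v x ≤ 1} := by
  obtain ⟨ϖ, hϖ⟩ := h.unif
  have := H420.isOpen_cball hϖ (0 : k) 0
  simpa using this

theorem isClosed_val_le_one729 {q : ℕ} (h : IsLocalField k q) :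
    IsClosed {x : k | Valued.v x ≤ 1} := by
  obtain ⟨ϖ, hϖ⟩ := h.unif
  have := H420.isClosed_cball hϖ (0 : k) 0
  simpa using this

theorem val_eq_one_set729 :
    {x : k | Valued.v x = 1}
      = {x : k | Valued.v x ≤ 1} ∩ {x : k | Valued.v (x - 0) ≤ WithZero.exp (-((1 : ℕ) : ℤ))}ᶜ := by
  ext x
  simp only [Set.mem_ofPred_eq, Set.mem_inter_iff, Set.mem_compl_iff, sub_zero, not_le]
  have hlt : Valued.v x < 1 ↔ Valued.v x ≤ WithZero.exp (-((1 : ℕ) : ℤ)) := by
    have := H420.lt_exp_iff_le (Valued.v x) 0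
    rw [WithZero.exp_zero] at this
    rw [this]
    norm_num
  constructor
  · intro hx
    refine ⟨hx.le, ?_⟩
    rw [← not_le, ← hlt, hx]
    exact lt_irrefl _
  · rintro ⟨h1, h2⟩
    rw [← not_le, ← hlt, not_lt] at h2
    exact le_antisymm h1 h2

theorem isOpen_val_eq_one729 {q : ℕ} (h : IsLocalField k q) :
    IsOpen {x : k | Valued.v x = 1} := by
  obtain ⟨ϖ, hϖ⟩ := h.unif
  rw [val_eq_one_set729]
  exact (isOpen_val_le_one729 h).inter (H420.isClosed_cball hϖ (0 : k) 1).isOpen_compl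

theorem isClosed_val_eq_one729 {q : ℕ} (h : IsLocalField k q) :
    IsClosed {x : k | Valued.v x = 1} := by
  obtain ⟨ϖ, hϖ⟩ := h.unif
  rw [val_eq_one_set729]
  exact (isClosed_val_le_one729 h).inter (H420.isOpen_cball hϖ (0 : k) 1).isClosed_compl

theorem continuous_trace_GL729 :
    Continuous fun g : GL (Fin 2) k => (g : Matrix (Fin 2) (Fin 2) k).trace :=
  Units.continuous_val.matrix_trace

theorem continuous_det_GL729 :
    Continuous fun g : GL (Fin 2) k => (g : Matrix (Fin 2) (Fin 2) k).det :=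
  Units.continuous_val.matrix_det

/-- the entries of the inverse of an element with unit determinant -/
theorem inv_entry_le729 (g : GL (Fin 2) k) (b : Γ₀)
    (hdet : Valued.v (g : Matrix (Fin 2) (Fin 2) k).det = 1)
    (hg : ∀ i j, Valued.v ((g : Matrix (Fin 2) (Fin 2) k) i j) ≤ b) (i j : Fin 2) :
    Valued.v (((g⁻¹ : GL (Fin 2) k) : Matrix (Fin 2) (Fin 2) k) i j) ≤ b := by
  rw [Matrix.coe_units_inv, Matrix.inv_def, Matrix.smul_apply, smul_eq_mul, map_mul,
    Ring.inverse_eq_inv', map_inv₀, hdet, inv_one, one_mul, Matrix.adjugate_fin_two]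
  fin_cases i <;> fin_cases j <;> simp [hg]

/-- **The compact part of the centraliser of a regular element is compact.** -/
theorem isCompact_cent729 {q : ℕ} (h : IsLocalField k q) (γ : GL (Fin 2) k) (hγ : IsReg γ) :
    IsCompact {g : GL (Fin 2) k | g * γ = γ * g ∧
      Valued.v (g : Matrix (Fin 2) (Fin 2) k).trace ≤ 1 ∧
      Valued.v (g : Matrix (Fin 2) (Fin 2) k).det = 1} := by
  haveI : CharZero k := h.char0
  have hD : (γ : Matrix (Fin 2) (Fin 2) k).trace ^ 2 - 4 * (γ : Matrix (Fin 2) (Fin 2) k).det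
      ≠ 0 := IsUnit.ne_zero hγ
  obtain ⟨B, hB⟩ := exists_nat_bound729 (entBound729 (γ : Matrix (Fin 2) (Fin 2) k))
  have hbig : IsCompact (Units.embedProduct (Matrix (Fin 2) (Fin 2) k) ⁻¹'
      ((matBig729 k B) ×ˢ (MulOpposite.opHomeomorph.symm ⁻¹' (matBig729 k B)))) := by
    refine Units.isClosedEmbedding_embedProduct.isCompact_preimage ?_
    exact (isCompact_matBig729 h B).prod
      ((MulOpposite.opHomeomorph.symm.isCompact_preimage).2 (isCompact_matBig729 h B))
  refine hbig.of_isClosed_subset ?_ ?_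
  · have h1 : IsClosed {g : GL (Fin 2) k | g * γ = γ * g} :=
      isClosed_eq (continuous_id.mul continuous_const) (continuous_const.mul continuous_id)
    have h2 : IsClosed {g : GL (Fin 2) k | Valued.v (g : Matrix (Fin 2) (Fin 2) k).trace ≤ 1} :=
      (isClosed_val_le_one729 h).preimage continuous_trace_GL729
    have h3 : IsClosed {g : GL (Fin 2) k | Valued.v (g : Matrix (Fin 2) (Fin 2) k).det = 1} :=
      (isClosed_val_eq_one729 h).preimage continuous_det_GL729
    exact h1.inter (h2.inter h3)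
  · rintro g ⟨hc, htr, hdet⟩
    have hc' : (g : Matrix (Fin 2) (Fin 2) k) * (γ : Matrix (Fin 2) (Fin 2) k)
        = (γ : Matrix (Fin 2) (Fin 2) k) * (g : Matrix (Fin 2) (Fin 2) k) := by
      rw [← Units.val_mul, ← Units.val_mul, hc]
    have hent : ∀ i j, Valued.v ((g : Matrix (Fin 2) (Fin 2) k) i j) ≤ WithZero.exp (B : ℤ) :=
      fun i j => (entry_le729 _ _ hD hc' htr hdet.le i j).trans hB
    refine ⟨hent, ?_⟩
    show ∀ i j, Valued.v (((g⁻¹ : GL (Fin 2) k) : Matrix (Fin 2) (Fin 2) k) i j)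
      ≤ WithZero.exp (B : ℤ)
    exact inv_entry_le729 g _ hdet hent

/-! ## 5. The two halves of the leaf -/

theorem exists_locHaar729 {q : ℕ} (h : IsLocalField k q) (n : ℕ) :
    ∃ μ : @Measure (GL (Fin 2) k) (borel _),
      @Measure.IsHaarMeasure _ _ _ (borel _) μ ∧ μ {g | InU n g} = 1 := by
  obtain ⟨ϖ, hϖ⟩ := h.unif
  exact exists_haar_eq_one729 _ (H420.isCompact_subU h n) (H420.isOpen_subU hϖ n)
    (H420.subU n).one_mem

theorem exists_locTor729 {q : ℕ} (h : IsLocalField k q) (l : ℕ) (s : k ≃+* k)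
    (hs : ∀ y : k, Valued.v (s y) = Valued.v y) (hl : ∀ y : k, (s ^ l) y = y)
    (δ : GL (Fin 2) k) (hreg : IsReg (twNorm s l δ)) :
    ∃ μT : @Measure (twCentSub (glAut s) δ) (borel _),
      @Measure.IsHaarMeasure _ _ _ (borel _) μT ∧
      μT {t | Valued.v ((t : GL (Fin 2) k) : Matrix (Fin 2) (Fin 2) k).trace ≤ 1 ∧
        Valued.v ((t : GL (Fin 2) k) : Matrix (Fin 2) (Fin 2) k).det = 1} = 1 := by
  have hcl : IsClosed ((twCentSub (glAut s) δ : Subgroup (GL (Fin 2) k)) : Set (GL (Fin 2) k)) := by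
    have hcont : Continuous fun x : GL (Fin 2) k => x⁻¹ * δ * glAut s x :=
      (continuous_inv.mul continuous_const).mul (H420.continuous_glAut h s hs)
    exact isClosed_eq hcont continuous_const
  refine exists_haar_eq_one729 _ ?_ ?_ ?_
  · have hemb : Topology.IsClosedEmbedding
        (Subtype.val : (twCentSub (glAut s) δ) → GL (Fin 2) k) :=
      hcl.isClosedEmbedding_subtypeVal
    have hc := hemb.isCompact_preimage (isCompact_cent729 h (twNorm s l δ) hreg)
    have e : {t : twCentSub (glAut s) δ |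
        Valued.v ((t : GL (Fin 2) k) : Matrix (Fin 2) (Fin 2) k).trace ≤ 1 ∧
        Valued.v ((t : GL (Fin 2) k) : Matrix (Fin 2) (Fin 2) k).det = 1}
        = Subtype.val ⁻¹' {g : GL (Fin 2) k | g * twNorm s l δ = twNorm s l δ * g ∧
          Valued.v (g : Matrix (Fin 2) (Fin 2) k).trace ≤ 1 ∧
          Valued.v (g : Matrix (Fin 2) (Fin 2) k).det = 1} := by
      ext t
      constructor
      · rintro ⟨h1, h2⟩
        exact ⟨H846.twCent_comm_norm846 s l hl δ t t.2, h1, h2⟩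
      · rintro ⟨-, h1, h2⟩
        exact ⟨h1, h2⟩
    rw [e]
    exact hc
  · have h2 : IsOpen {g : GL (Fin 2) k | Valued.v (g : Matrix (Fin 2) (Fin 2) k).trace ≤ 1} :=
      (isOpen_val_le_one729 h).preimage continuous_trace_GL729
    have h3 : IsOpen {g : GL (Fin 2) k | Valued.v (g : Matrix (Fin 2) (Fin 2) k).det = 1} :=
      (isOpen_val_eq_one729 h).preimage continuous_det_GL729
    exact (h2.inter h3).preimage continuous_subtype_val
  · show Valued.v (((1 : twCentSub (glAut s) δ) : GL (Fin 2) k) :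
        Matrix (Fin 2) (Fin 2) k).trace ≤ 1 ∧
      Valued.v (((1 : twCentSub (glAut s) δ) : GL (Fin 2) k) :
        Matrix (Fin 2) (Fin 2) k).det = 1
    rw [Subgroup.coe_one, Units.val_one, Matrix.trace_fin_two, Matrix.det_one, map_one]
    refine ⟨?_, rfl⟩
    simp only [Matrix.one_apply_eq]
    exact (Valued.v.map_add _ _).trans (by simp)

end Field

end Fermat.Agent.LT.T7.LocMeas729

end

end
-- ===== PACK-END LT/T7/H729/LocMeasCore.lean

-- ===== PACK-BEGIN LT/T7/H159/GoodUnit.lean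
section






/-!
# Row LT, tower T7, asset for the field `matched` of `SupplyC` / `FamC` (helper159), OFF-MAIN

**GOOD UNITS: the local facts at ALMOST ALL places** (vocabulary of `T6/Spec.lean` v3, any field
with a valuation in `ℤᵐ⁰`; elementary, no tree, no orbit-sum machinery).

`γ ∈ GL₂(𝒪)` with `disc γ ∈ 𝒪^×` (a GOOD UNIT).  Then

* `goodUnit_down159`: `x⁻¹ γ x ∈ GL₂(𝒪)` ⇒ `x ∈ T_γ · GL₂(𝒪)` (`T_γ` = the centraliser): the support
  of `x ↦ 1_{GL₂(𝒪)}(x⁻¹ γ x)` is `T_γ GL₂(𝒪)`;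
* `cent_compact159`: the maximal compact subgroup `T_γ^c` (integral trace, unit determinant) of
  the centraliser lies in `GL₂(𝒪)`;
* `cIndex_goodUnit159`: `[T_γ^c : T_γ^c ∩ GL₂(𝒪)] = 1`;
* `unitOrb_down159`: the orbital integral (orbit sum of `T6`) of a function `φ` supported in
  `GL₂(𝒪)` and bi-invariant is `φ γ` (`= 1` for the unit of the Hecke algebra).

Proof of the first: `𝒪²` and `x 𝒪²` are modules over `𝒪[γ]`, both CYCLIC because `γ mod ϖ` is
regular (one of `e₁`, `e₂`, `e₁ + e₂` is a cyclic vector when the discriminant is a unit); the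
`k[γ]`-linear map which sends one cyclic vector to the other is the element of `T_γ`.

USE (global orbital integrals of pure tensors): at the places `v ∉ S(γ)` the cut-off
`β_v = 1_{GL₂(𝒪_v)}` is normalised on the support of the integrand
(`∫_{T_v} β_v(t x) dt = vol(T_v^c) = 1` for `x ∈ T_v GL₂(𝒪_v)`), which is the hypothesis of
`H159.unfold_cutoff_supp159`.
-/

set_option autoImplicit false

open scoped Matrix

noncomputable section

namespace Fermat.Agent.LT.T7.H159

open Fermat.Agent.LT.T6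

/-! ## 1. Matrix algebra: the matrix `[w | A w]` -/

section Algebra

variable {k : Type} [Field k]

/-- The matrix with columns `w` and `A w`. -/
def colMat159 (A : Matrix (Fin 2) (Fin 2) k) (w : Fin 2 → k) : Matrix (Fin 2) (Fin 2) k :=
  !![w 0, A 0 0 * w 0 + A 0 1 * w 1; w 1, A 1 0 * w 0 + A 1 1 * w 1]

/-- The companion matrix of the characteristic polynomial of `A`. -/
def compMat159 (A : Matrix (Fin 2) (Fin 2) k) : Matrix (Fin 2) (Fin 2) k :=
  !![0, -A.det; 1, A.trace]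

/-- Cayley--Hamilton: `A [w | A w] = [w | A w] C_A`. -/
theorem mul_colMat159 (A : Matrix (Fin 2) (Fin 2) k) (w : Fin 2 → k) :
    A * colMat159 A w = colMat159 A w * compMat159 A := by
  ext i j
  fin_cases i <;> fin_cases j <;>
    simp [colMat159, compMat159, Matrix.mul_apply, Fin.sum_univ_two, Matrix.det_fin_two,
      Matrix.trace_fin_two] <;> ring

/-- If `B A = A' B` then `B [w | A w] = [B w | A' B w]`. -/
theorem intertwine_colMat159 (A A' B : Matrix (Fin 2) (Fin 2) k) (h : B * A = A' * B)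
    (w : Fin 2 → k) :
    B * colMat159 A w = colMat159 A' (B.mulVec w) := by
  have h00 := congrFun (congrFun h 0) 0
  have h01 := congrFun (congrFun h 0) 1
  have h10 := congrFun (congrFun h 1) 0
  have h11 := congrFun (congrFun h 1) 1
  simp only [Matrix.mul_apply, Fin.sum_univ_two] at h00 h01 h10 h11
  ext i j
  fin_cases i <;> fin_cases j <;>
    simp [colMat159, Matrix.mul_apply, Fin.sum_univ_two, Matrix.mulVec, dotProduct]
  · linear_combination w 0 * h00 + w 1 * h01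
  · linear_combination w 0 * h10 + w 1 * h11

theorem det_colMat159 (A : Matrix (Fin 2) (Fin 2) k) (w : Fin 2 → k) :
    (colMat159 A w).det
      = w 0 * (A 1 0 * w 0 + A 1 1 * w 1) - (A 0 0 * w 0 + A 0 1 * w 1) * w 1 := by
  simp [colMat159, Matrix.det_fin_two]

end Algebra

/-! ## 2. Valuations -/

section Val

variable {k : Type} [Field k] [Valued k Γ₀]

theorem v_natCast_le_one159 (n : ℕ) : Valued.v (n : k) ≤ 1 := by
  induction n with
  | zero => simp
  | succ n ih =>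
    rw [Nat.cast_succ]
    exact (Valuation.map_add _ _ _).trans (max_le ih (by simp))

theorem v_four_le_one159 : Valued.v (4 : k) ≤ 1 := by
  have := v_natCast_le_one159 (k := k) 4
  simpa using this

/-- An element of `GL₂(k)` with integral entries and unit determinant lies in `U(0)`. -/
theorem inU_zero_of_det159 (g : GL (Fin 2) k)
    (h1 : ∀ i j : Fin 2, Valued.v ((g : Matrix (Fin 2) (Fin 2) k) i j) ≤ 1)
    (hd : Valued.v (g : Matrix (Fin 2) (Fin 2) k).det = 1) : InU 0 g := by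
  refine H288.H546.inU_zero_of_integral_h546 g h1 ?_
  intro i j
  have hinv : ((g⁻¹ : GL (Fin 2) k) : Matrix (Fin 2) (Fin 2) k)
      = (g : Matrix (Fin 2) (Fin 2) k)⁻¹ := Matrix.coe_units_inv g
  rw [hinv, Matrix.inv_def, Matrix.adjugate_fin_two, Ring.inverse_eq_inv']
  fin_cases i <;> fin_cases j <;>
    simp [Matrix.smul_apply, hd, h1]

omit [Valued k Γ₀] in
/-- The discriminant in terms of the entries. -/
theorem disc_eq159 (y : GL (Fin 2) k) :
    disc y = ((y : Matrix (Fin 2) (Fin 2) k) 0 0 - (y : Matrix (Fin 2) (Fin 2) k) 1 1) ^ 2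
      + 4 * ((y : Matrix (Fin 2) (Fin 2) k) 0 1 * (y : Matrix (Fin 2) (Fin 2) k) 1 0) := by
  simp only [disc, Matrix.trace_fin_two, Matrix.det_fin_two]
  ring

/-- **A cyclic vector.**  For `y ∈ GL₂(𝒪)` with unit discriminant one of `e₁`, `e₂`, `e₁ + e₂`
is a cyclic vector of `𝒪²` over `𝒪[y]`: the matrix `[w | y w]` has unit determinant. -/
theorem exists_cyclic159 (y : GL (Fin 2) k) (hy : InU 0 y) (hd : Valued.v (disc y) = 1) :
    ∃ w : Fin 2 → k, (∀ i, Valued.v (w i) ≤ 1) ∧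
      Valued.v (colMat159 (y : Matrix (Fin 2) (Fin 2) k) w).det = 1 := by
  have ha := H687.entry_le_one_of_inU_h687 hy 0 0
  have hb := H687.entry_le_one_of_inU_h687 hy 0 1
  have hc := H687.entry_le_one_of_inU_h687 hy 1 0
  have hdd := H687.entry_le_one_of_inU_h687 hy 1 1
  set a := (y : Matrix (Fin 2) (Fin 2) k) 0 0 with ha'
  set b := (y : Matrix (Fin 2) (Fin 2) k) 0 1 with hb'
  set c := (y : Matrix (Fin 2) (Fin 2) k) 1 0 with hc'
  set d := (y : Matrix (Fin 2) (Fin 2) k) 1 1 with hd'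
  by_cases h1 : Valued.v c = 1
  · refine ⟨![1, 0], ?_, ?_⟩
    · intro i; fin_cases i <;> simp
    · rw [det_colMat159]
      simpa using h1
  by_cases h2 : Valued.v b = 1
  · refine ⟨![0, 1], ?_, ?_⟩
    · intro i; fin_cases i <;> simp
    · rw [det_colMat159]
      simpa using h2
  have hc1 : Valued.v c < 1 := lt_of_le_of_ne hc h1
  have hb1 : Valued.v b < 1 := lt_of_le_of_ne hb h2
  refine ⟨![1, 1], ?_, ?_⟩
  · intro i; fin_cases i <;> simp
  · rw [det_colMat159]
    have hbc : Valued.v (4 * (b * c)) < 1 := by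
      rw [Valuation.map_mul, Valuation.map_mul]
      calc Valued.v (4 : k) * (Valued.v b * Valued.v c)
          ≤ 1 * (Valued.v b * 1) := mul_le_mul' v_four_le_one159 (mul_le_mul' le_rfl hc)
        _ = Valued.v b := by simp
        _ < 1 := hb1
    have hsq : Valued.v ((a - d) ^ 2) = 1 := by
      have hle : Valued.v ((a - d) ^ 2) ≤ 1 := by
        rw [Valuation.map_pow]
        exact pow_le_one' (Valuation.map_sub_le _ ha hdd) 2
      by_contra hne
      have hlt : Valued.v ((a - d) ^ 2) < 1 := lt_of_le_of_ne hle hne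
      have : Valued.v (disc y) < 1 := by
        rw [disc_eq159]
        exact lt_of_le_of_lt (Valuation.map_add _ _ _) (max_lt hlt hbc)
      rw [hd] at this
      exact lt_irrefl _ this
    have had : Valued.v (a - d) = 1 := by
      have hle : Valued.v (a - d) ≤ 1 := Valuation.map_sub_le _ ha hdd
      by_contra hne
      have hlt : Valued.v (a - d) < 1 := lt_of_le_of_ne hle hne
      rw [Valuation.map_pow, pow_two] at hsq
      have : Valued.v (a - d) * Valued.v (a - d) < 1 :=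
        lt_of_le_of_lt (mul_le_mul' hle le_rfl) (by simpa using hlt)
      rw [hsq] at this
      exact lt_irrefl _ this
    have hcb : Valued.v (c - b) < 1 :=
      lt_of_le_of_lt (Valuation.map_sub _ _ _) (max_lt hc1 hb1)
    have e : (![1, 1] : Fin 2 → k) 0 * (c * (![1, 1] : Fin 2 → k) 0 + d * (![1, 1] : Fin 2 → k) 1)
        - (a * (![1, 1] : Fin 2 → k) 0 + b * (![1, 1] : Fin 2 → k) 1) * (![1, 1] : Fin 2 → k) 1
        = (c - b) + (-(a - d)) := by
      simp
      ring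
    rw [e, Valuation.map_add_eq_of_lt_right]
    · rw [Valuation.map_neg, had]
    · rw [Valuation.map_neg, had]
      exact hcb

omit [Valued k Γ₀] in
theorem disc_conj159 (γ x : GL (Fin 2) k) : disc (x⁻¹ * γ * x) = disc γ := by
  have ht : ((x⁻¹ * γ * x : GL (Fin 2) k) : Matrix (Fin 2) (Fin 2) k).trace
      = (γ : Matrix (Fin 2) (Fin 2) k).trace := by
    rw [Units.val_mul, Units.val_mul, Matrix.trace_mul_comm, ← mul_assoc, ← Units.val_mul,
      mul_inv_cancel, Units.val_one, one_mul]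
  have hdet : ((x⁻¹ * γ * x : GL (Fin 2) k) : Matrix (Fin 2) (Fin 2) k).det
      = (γ : Matrix (Fin 2) (Fin 2) k).det := by
    rw [Units.val_mul, Units.val_mul, Matrix.det_mul, Matrix.det_mul, mul_comm, ← mul_assoc,
      ← Matrix.det_mul, ← Units.val_mul, mul_inv_cancel, Units.val_one, Matrix.det_one, one_mul]
  simp only [disc, ht, hdet]

/-- The entries of `[w | y w]` are integral. -/
theorem colMat_integral159 (y : GL (Fin 2) k) (hy : InU 0 y) (w : Fin 2 → k)
    (hw : ∀ i, Valued.v (w i) ≤ 1) (i j : Fin 2) :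
    Valued.v (colMat159 (y : Matrix (Fin 2) (Fin 2) k) w i j) ≤ 1 := by
  have he := fun a b => H687.entry_le_one_of_inU_h687 hy a b
  have hm : ∀ a b c d : k, Valued.v a ≤ 1 → Valued.v b ≤ 1 → Valued.v c ≤ 1 → Valued.v d ≤ 1 →
      Valued.v (a * b + c * d) ≤ 1 := by
    intro a b c d ha hb hc hd
    refine (Valuation.map_add _ _ _).trans (max_le ?_ ?_)
    · rw [Valuation.map_mul]; exact mul_le_one' ha hb
    · rw [Valuation.map_mul]; exact mul_le_one' hc hd
  fin_cases i <;> fin_cases j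
  · simpa [colMat159] using hw 0
  · simpa [colMat159] using hm _ _ _ _ (he 0 0) (hw 0) (he 0 1) (hw 1)
  · simpa [colMat159] using hw 1
  · simpa [colMat159] using hm _ _ _ _ (he 1 0) (hw 0) (he 1 1) (hw 1)

/-- The cyclic basis as an element of `GL₂(𝒪)`. -/
theorem exists_cyclicGL159 (y : GL (Fin 2) k) (hy : InU 0 y) (hd : Valued.v (disc y) = 1) :
    ∃ (w : Fin 2 → k) (P : GL (Fin 2) k), InU 0 P ∧
      (P : Matrix (Fin 2) (Fin 2) k) = colMat159 (y : Matrix (Fin 2) (Fin 2) k) w := by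
  obtain ⟨w, hw, hdet⟩ := exists_cyclic159 y hy hd
  have hne : (colMat159 (y : Matrix (Fin 2) (Fin 2) k) w).det ≠ 0 := by
    intro h0
    rw [h0, Valuation.map_zero] at hdet
    exact zero_ne_one hdet
  refine ⟨w, Matrix.GeneralLinearGroup.mkOfDetNeZero _ hne, ?_, rfl⟩
  refine inU_zero_of_det159 _ ?_ ?_
  · intro i j
    exact colMat_integral159 y hy w hw i j
  · exact hdet

/-- **GOOD UNIT, support form.**  `γ ∈ GL₂(𝒪)` with unit discriminant, `x⁻¹ γ x ∈ GL₂(𝒪)`:
then `x = t u` with `t` in the centraliser of `γ` and `u ∈ GL₂(𝒪)`. -/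
theorem goodUnit_down159 (γ x : GL (Fin 2) k) (hγ : InU 0 γ) (hd : Valued.v (disc γ) = 1)
    (hx : InU 0 (x⁻¹ * γ * x)) :
    ∃ t u : GL (Fin 2) k, t * γ = γ * t ∧ InU 0 u ∧ x = t * u := by
  have hdy : Valued.v (disc (x⁻¹ * γ * x)) = 1 := by rw [disc_conj159, hd]
  obtain ⟨w', P', hP', hP'm⟩ := exists_cyclicGL159 (x⁻¹ * γ * x) hx hdy
  obtain ⟨w₀, P₀, hP₀, hP₀m⟩ := exists_cyclicGL159 γ hγ hd
  refine ⟨x * P' * P₀⁻¹, P₀ * P'⁻¹, ?_, ?_, by group⟩
  · -- commutation
    have hxy : (x : Matrix (Fin 2) (Fin 2) k) * ((x⁻¹ * γ * x : GL (Fin 2) k) :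
        Matrix (Fin 2) (Fin 2) k) = (γ : Matrix (Fin 2) (Fin 2) k) * x := by
      rw [← Units.val_mul, ← Units.val_mul]
      congr 1
      group
    have hinv1 : ((P₀⁻¹ : GL (Fin 2) k) : Matrix (Fin 2) (Fin 2) k)
        * (P₀ : Matrix (Fin 2) (Fin 2) k) = 1 := by
      rw [← Units.val_mul, inv_mul_cancel, Units.val_one]
    have hinv2 : (P₀ : Matrix (Fin 2) (Fin 2) k)
        * ((P₀⁻¹ : GL (Fin 2) k) : Matrix (Fin 2) (Fin 2) k) = 1 := by
      rw [← Units.val_mul, mul_inv_cancel, Units.val_one]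
    apply Units.ext
    simp only [Units.val_mul]
    generalize ((P₀⁻¹ : GL (Fin 2) k) : Matrix (Fin 2) (Fin 2) k) = N₀ at hinv1 hinv2 ⊢
    generalize hX : (x : Matrix (Fin 2) (Fin 2) k) = X at hxy ⊢
    generalize hG : (γ : Matrix (Fin 2) (Fin 2) k) = G at hxy hP₀m ⊢
    generalize hM' : (P' : Matrix (Fin 2) (Fin 2) k) = M' at hP'm ⊢
    generalize hM₀ : (P₀ : Matrix (Fin 2) (Fin 2) k) = M₀ at hP₀m hinv1 hinv2 ⊢
    have h1 : X * M' = colMat159 G (X.mulVec w') := by
      rw [hP'm]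
      exact intertwine_colMat159 _ _ _ hxy w'
    have h2 : G * (X * M') = (X * M') * compMat159 G := by
      rw [h1]
      exact mul_colMat159 _ _
    have h3 : G * M₀ = M₀ * compMat159 G := by
      rw [hP₀m]
      exact mul_colMat159 _ _
    have h4 : N₀ * G = compMat159 G * N₀ := by
      calc N₀ * G = N₀ * G * (M₀ * N₀) := by rw [hinv2, mul_one]
        _ = N₀ * (G * M₀) * N₀ := by simp only [mul_assoc]
        _ = compMat159 G * N₀ := by rw [h3, ← mul_assoc, hinv1, one_mul]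
    calc X * M' * N₀ * G = (X * M') * (N₀ * G) := by simp only [mul_assoc]
      _ = (G * (X * M')) * N₀ := by rw [h4, h2]; simp only [mul_assoc]
      _ = G * (X * M' * N₀) := by simp only [mul_assoc]
  · exact H944.inU_mul944 0 _ _ hP₀ (H944.inU_inv944 0 _ hP')

omit [Valued k Γ₀] in
/-- `[w | A w] c = (c₀ + c₁ A) w`. -/
theorem colMat_mulVec159 (A : Matrix (Fin 2) (Fin 2) k) (w c : Fin 2 → k) :
    (colMat159 A w).mulVec c = (c 0 • (1 : Matrix (Fin 2) (Fin 2) k) + c 1 • A).mulVec w := by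
  ext i
  fin_cases i <;>
    simp [colMat159, Matrix.mulVec, dotProduct, Fin.sum_univ_two, Matrix.add_apply,
      Matrix.smul_apply, Matrix.one_apply] <;> ring

omit [Valued k Γ₀] in
theorem trace_lin159 (A : Matrix (Fin 2) (Fin 2) k) (a b : k) :
    (a • (1 : Matrix (Fin 2) (Fin 2) k) + b • A).trace = 2 * a + b * A.trace := by
  simp [Matrix.trace_fin_two]
  ring

omit [Valued k Γ₀] in
theorem det_lin159 (A : Matrix (Fin 2) (Fin 2) k) (a b : k) :
    (a • (1 : Matrix (Fin 2) (Fin 2) k) + b • A).det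
      = a ^ 2 + a * b * A.trace + b ^ 2 * A.det := by
  simp [Matrix.det_fin_two, Matrix.trace_fin_two, Matrix.add_apply, Matrix.smul_apply]
  ring

omit [Valued k Γ₀] in
/-- An element of the centraliser of `γ` is `a + b γ` when `γ` has a cyclic vector. -/
theorem cent_eq_lin159 (G T M₀ N₀ : Matrix (Fin 2) (Fin 2) k) (w₀ : Fin 2 → k)
    (hM : M₀ = colMat159 G w₀) (h1 : M₀ * N₀ = 1) (hT : T * G = G * T) :
    ∃ a b : k, T = a • (1 : Matrix (Fin 2) (Fin 2) k) + b • G := by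
  set c : Fin 2 → k := N₀.mulVec (T.mulVec w₀) with hc
  refine ⟨c 0, c 1, ?_⟩
  have e1 : M₀.mulVec c = T.mulVec w₀ := by
    rw [hc, Matrix.mulVec_mulVec, h1, Matrix.one_mulVec]
  have e2 : (c 0 • (1 : Matrix (Fin 2) (Fin 2) k) + c 1 • G).mulVec w₀ = T.mulVec w₀ := by
    rw [← colMat_mulVec159, ← hM, e1]
  have hB : (c 0 • (1 : Matrix (Fin 2) (Fin 2) k) + c 1 • G) * G
      = G * (c 0 • (1 : Matrix (Fin 2) (Fin 2) k) + c 1 • G) := by
    simp [add_mul, mul_add]
  have e3 : T * M₀ = (c 0 • (1 : Matrix (Fin 2) (Fin 2) k) + c 1 • G) * M₀ := by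
    rw [hM, intertwine_colMat159 G G T hT w₀, intertwine_colMat159 G G _ hB w₀, e2]
  calc T = T * (M₀ * N₀) := by rw [h1, mul_one]
    _ = (T * M₀) * N₀ := by rw [mul_assoc]
    _ = ((c 0 • (1 : Matrix (Fin 2) (Fin 2) k) + c 1 • G) * M₀) * N₀ := by rw [e3]
    _ = c 0 • (1 : Matrix (Fin 2) (Fin 2) k) + c 1 • G := by rw [mul_assoc, h1, mul_one]

/-- A root of a monic quadratic polynomial with integral coefficients is integral. -/
theorem v_root_le_one159 (a p r : k) (hp : Valued.v p ≤ 1) (hr : Valued.v r ≤ 1)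
    (h : a ^ 2 + p * a + r = 0) : Valued.v a ≤ 1 := by
  by_contra hlt
  have hgt : 1 < Valued.v a := lt_of_not_ge hlt
  have ha0 : Valued.v a ≠ 0 := ne_of_gt (lt_trans zero_lt_one hgt)
  have h1 : Valued.v (p * a) < Valued.v (a ^ 2) := by
    rw [Valuation.map_mul, Valuation.map_pow, pow_two]
    have hpos : (0 : Γ₀) < Valued.v a := lt_trans zero_lt_one hgt
    calc Valued.v p * Valued.v a ≤ 1 * Valued.v a := mul_le_mul' hp le_rfl
      _ = Valued.v a := one_mul _
      _ = 1 * Valued.v a := (one_mul _).symm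
      _ < Valued.v a * Valued.v a := by
          exact mul_lt_mul_of_pos_right hgt hpos
  have h2 : Valued.v r < Valued.v (a ^ 2) := by
    rw [Valuation.map_pow, pow_two]
    have hpos : (0 : Γ₀) < Valued.v a := lt_trans zero_lt_one hgt
    calc Valued.v r ≤ 1 := hr
      _ < Valued.v a := hgt
      _ = 1 * Valued.v a := (one_mul _).symm
      _ < Valued.v a * Valued.v a := mul_lt_mul_of_pos_right hgt hpos
  have h3 : Valued.v (p * a + r) < Valued.v (a ^ 2) :=
    lt_of_le_of_lt (Valuation.map_add _ _ _) (max_lt h1 h2)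
  have h4 : a ^ 2 = -(p * a + r) := by linear_combination h
  rw [h4, Valuation.map_neg] at h3
  exact lt_irrefl _ h3

/-- **The maximal compact subgroup of the centraliser of a good unit lies in `GL₂(𝒪)`.** -/
theorem cent_compact159 (γ t : GL (Fin 2) k) (hγ : InU 0 γ) (hd : Valued.v (disc γ) = 1)
    (ht : t * γ = γ * t)
    (htr : Valued.v (t : Matrix (Fin 2) (Fin 2) k).trace ≤ 1)
    (hdet : Valued.v (t : Matrix (Fin 2) (Fin 2) k).det = 1) : InU 0 t := by
  obtain ⟨w₀, P₀, -, hP₀m⟩ := exists_cyclicGL159 γ hγ hd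
  have hinv2 : (P₀ : Matrix (Fin 2) (Fin 2) k)
      * ((P₀⁻¹ : GL (Fin 2) k) : Matrix (Fin 2) (Fin 2) k) = 1 := by
    rw [← Units.val_mul, mul_inv_cancel, Units.val_one]
  have hT : (t : Matrix (Fin 2) (Fin 2) k) * (γ : Matrix (Fin 2) (Fin 2) k)
      = (γ : Matrix (Fin 2) (Fin 2) k) * (t : Matrix (Fin 2) (Fin 2) k) := by
    rw [← Units.val_mul, ← Units.val_mul, ht]
  obtain ⟨a, b, hab⟩ := cent_eq_lin159 (γ : Matrix (Fin 2) (Fin 2) k)
    (t : Matrix (Fin 2) (Fin 2) k) _ _ w₀ hP₀m hinv2 hT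
  have hGtr : Valued.v (γ : Matrix (Fin 2) (Fin 2) k).trace ≤ 1 := by
    rw [Matrix.trace_fin_two]
    exact (Valuation.map_add _ _ _).trans
      (max_le (H687.entry_le_one_of_inU_h687 hγ 0 0) (H687.entry_le_one_of_inU_h687 hγ 1 1))
  have hGdet : Valued.v (γ : Matrix (Fin 2) (Fin 2) k).det = 1 :=
    H687.v_det_eq_one_of_inU_h687 hγ
  have etr : (t : Matrix (Fin 2) (Fin 2) k).trace
      = 2 * a + b * (γ : Matrix (Fin 2) (Fin 2) k).trace := by
    rw [hab, trace_lin159]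
  have edet : (t : Matrix (Fin 2) (Fin 2) k).det
      = a ^ 2 + a * b * (γ : Matrix (Fin 2) (Fin 2) k).trace
        + b ^ 2 * (γ : Matrix (Fin 2) (Fin 2) k).det := by
    rw [hab, det_lin159]
  -- `b` is integral
  have hdisc : b ^ 2 * disc γ = (t : Matrix (Fin 2) (Fin 2) k).trace ^ 2
      - 4 * (t : Matrix (Fin 2) (Fin 2) k).det := by
    rw [etr, edet]
    simp only [disc]
    ring
  have hb : Valued.v b ≤ 1 := by
    have h1 : Valued.v (b ^ 2 * disc γ) ≤ 1 := by
      rw [hdisc]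
      refine (Valuation.map_sub _ _ _).trans (max_le ?_ ?_)
      · rw [Valuation.map_pow]
        exact pow_le_one' htr 2
      · rw [Valuation.map_mul, hdet, mul_one]
        exact v_four_le_one159
    rw [Valuation.map_mul, hd, mul_one, Valuation.map_pow] at h1
    by_contra hlt
    have hgt : 1 < Valued.v b := lt_of_not_ge hlt
    have : 1 < Valued.v b ^ 2 := one_lt_pow' hgt two_ne_zero
    exact absurd h1 (not_le.2 this)
  -- `a` is integral
  have ha : Valued.v a ≤ 1 := by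
    refine v_root_le_one159 a (b * (γ : Matrix (Fin 2) (Fin 2) k).trace)
      (b ^ 2 * (γ : Matrix (Fin 2) (Fin 2) k).det - (t : Matrix (Fin 2) (Fin 2) k).det) ?_ ?_ ?_
    · rw [Valuation.map_mul]
      exact mul_le_one' hb hGtr
    · refine (Valuation.map_sub _ _ _).trans (max_le ?_ (le_of_eq hdet))
      rw [Valuation.map_mul, Valuation.map_pow, hGdet, mul_one]
      exact pow_le_one' hb 2
    · rw [edet]
      ring
  refine inU_zero_of_det159 t ?_ hdet
  intro i j
  rw [hab, Matrix.add_apply, Matrix.smul_apply, Matrix.smul_apply]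
  refine (Valuation.map_add _ _ _).trans (max_le ?_ ?_)
  · rw [smul_eq_mul, Valuation.map_mul]
    exact mul_le_one' ha (H687.v_one_apply_le_one_h687 i j)
  · rw [smul_eq_mul, Valuation.map_mul]
    exact mul_le_one' hb (H687.entry_le_one_of_inU_h687 hγ i j)

/-! ## 3. The orbit sum at a good unit -/

omit [Valued k Γ₀] in
theorem glAut_refl159 (x : GL (Fin 2) k) : glAut (RingEquiv.refl k) x = x := by
  apply Units.ext
  ext a b
  rfl

theorem v_two_le_one159 : Valued.v (2 : k) ≤ 1 := by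
  have := v_natCast_le_one159 (k := k) 2
  simpa using this

/-- A conjugate of a good unit by an element of `GL₂(𝒪)` is a good unit. -/
theorem inU_conj159 (γ u : GL (Fin 2) k) (hγ : InU 0 γ) (hu : InU 0 u) :
    InU 0 (u⁻¹ * γ * u) :=
  H944.inU_mul944 0 _ _ (H944.inU_mul944 0 _ _ (H944.inU_inv944 0 _ hu) hγ) hu

/-- **`[T_γ^c : T_γ^c ∩ GL₂(𝒪)] = 1` at a good unit.** -/
theorem cIndex_goodUnit159 (γ : GL (Fin 2) k) (hγ : InU 0 γ) (hd : Valued.v (disc γ) = 1) :
    cIndex (InU 0) (InTwCentC (RingEquiv.refl k)) γ = 1 := by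
  have hset : {c : Set (GL (Fin 2) k) | ∃ t : GL (Fin 2) k,
      InTwCentC (RingEquiv.refl k) γ t ∧ c = {g | ∃ u : GL (Fin 2) k, InU 0 u ∧ g = t * u}}
      = {{g : GL (Fin 2) k | InU 0 g}} := by
    ext c
    simp only [Set.mem_ofPred_eq, Set.mem_singleton_iff]
    constructor
    · rintro ⟨t, ⟨htc, htr, hdet⟩, rfl⟩
      have hcomm : t * γ = γ * t := by
        have h := htc
        unfold InTwCent at h
        rw [glAut_refl159] at h
        calc t * γ = t * (t⁻¹ * γ * t) := by rw [h]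
          _ = γ * t := by group
      have htU : InU 0 t := cent_compact159 γ t hγ hd hcomm htr hdet
      ext g
      simp only [Set.mem_ofPred_eq]
      constructor
      · rintro ⟨u, hu, rfl⟩
        exact H944.inU_mul944 0 _ _ htU hu
      · intro hg
        exact ⟨t⁻¹ * g, H944.inU_mul944 0 _ _ (H944.inU_inv944 0 _ htU) hg, by group⟩
    · rintro rfl
      refine ⟨1, ⟨?_, ?_, ?_⟩, ?_⟩
      · unfold InTwCent
        rw [glAut_refl159]
        group
      · rw [Units.val_one, Matrix.trace_one]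
        simpa using v_two_le_one159 (k := k)
      · simp
      · ext g
        simp
  unfold cIndex
  rw [hset, Set.ncard_singleton]

/-- **The orbital integral at a good unit of a function supported in `GL₂(𝒪)`** is its value:
`O_γ(φ) = φ(γ)`; in particular `O_γ(1_{GL₂(𝒪)}) = 1`. -/
theorem unitOrb_down159 (γ : GL (Fin 2) k) (hγ : InU 0 γ) (hd : Valued.v (disc γ) = 1)
    (φ : GL (Fin 2) k → ℂ) (hφ : IsBiInv (InU 0) φ)
    (hsupp : ∀ g : GL (Fin 2) k, φ g ≠ 0 → InU 0 g) (c : ℂ) (hc : IsOrbSum 0 φ γ c) :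
    c = φ γ := by
  obtain ⟨R, hR1, hR2, hR3, hsum⟩ := hc
  simp only [glAut_refl159] at hR1 hR2 hR3
  -- the elements of `R` on which `φ` does not vanish are conjugate to `γ` under `GL₂(𝒪)`
  have key : ∀ y ∈ R, φ y ≠ 0 → ∃ u : GL (Fin 2) k, InU 0 u ∧ y = u⁻¹ * γ * u := by
    intro y hy hne
    obtain ⟨x, rfl⟩ := hR1 y hy
    obtain ⟨t, u, htγ, hu, rfl⟩ := goodUnit_down159 γ x hγ hd (hsupp _ hne)
    refine ⟨u, hu, ?_⟩
    calc (t * u)⁻¹ * γ * (t * u) = u⁻¹ * (t⁻¹ * (γ * t)) * u := by group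
      _ = u⁻¹ * (t⁻¹ * (t * γ)) * u := by rw [htγ]
      _ = u⁻¹ * γ * u := by group
  have hval : ∀ u : GL (Fin 2) k, InU 0 u → φ (u⁻¹ * γ * u) = φ γ := fun u hu =>
    hφ u⁻¹ u γ (H944.inU_inv944 0 _ hu) hu
  by_cases h0 : φ γ = 0
  · rw [hsum, h0]
    refine Finset.sum_eq_zero fun y hy => ?_
    by_cases hy0 : φ y = 0
    · rw [hy0, zero_mul]
    · obtain ⟨u, hu, rfl⟩ := key y hy hy0
      exact absurd (by rw [hval u hu, h0]) hy0
  · obtain ⟨y₀, hy₀, u₀, hu₀, hγy⟩ := hR3 γ ⟨1, by group⟩ h0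
    have hy₀γ : y₀ = (u₀⁻¹)⁻¹ * γ * u₀⁻¹ := by
      rw [hγy]
      group
    have hφy₀ : φ y₀ = φ γ := by
      rw [hy₀γ]
      exact hval u₀⁻¹ (H944.inU_inv944 0 _ hu₀)
    have hU₀ : InU 0 y₀ := by
      rw [hy₀γ]
      exact inU_conj159 γ u₀⁻¹ hγ (H944.inU_inv944 0 _ hu₀)
    have hd₀ : Valued.v (disc y₀) = 1 := by
      rw [hy₀γ, disc_conj159, hd]
    rw [hsum, Finset.sum_eq_single y₀]
    · rw [cIndex_goodUnit159 y₀ hU₀ hd₀, hφy₀]
      simp
    · intro y hy hne
      by_cases hy0 : φ y = 0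
      · rw [hy0, zero_mul]
      · exfalso
        obtain ⟨u, hu, hyu⟩ := key y hy hy0
        apply hne
        refine (hR2 y₀ hy₀ y hy ⟨u₀ * u, H944.inU_mul944 0 _ _ hu₀ hu, ?_⟩).symm
        rw [hyu, hγy]
        group
    · intro hn
      exact absurd hy₀ hn

end Val

end Fermat.Agent.LT.T7.H159

end

end
-- ===== PACK-END LT/T7/H159/GoodUnit.lean

-- ===== PACK-BEGIN LT/T7/H973/RestrGLQ.lean
section








/-!
# Row LT, tower T7, quadratic step `F/ℚ`, matching theorem over `ℚ` -- ASSET "RESTR-GL over `ℚ`"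
(helper973)

OFF-MAIN.  No hole, nothing assumed.  ADDITIVE (suffix `973`).  REAL FORM of the asset
`T7/H159/RestrGL.lean` of helper159 (there: `K` totally complex, `GL₂(ℂ)` at the infinite places).

`GL₂(𝔸_ℚ)` IS THE RESTRICTED PRODUCT of `GL₂(ℝ)` (the real place) and the groups `GL₂(ℚ_v)`
(finite places) with respect to the subgroups `GL₂(ℤ_v)`, in the abstract sense `IsRestrProd159`
of `T7/H159/HaarSplit.lean` (helper159, Mathlib only); so the Haar measure of `GL₂(𝔸_ℚ)` splits.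

* `reHomQ973`, `reGLQ973` : the component at the real place, in `ℝ` / `GL₂(ℝ)`; THE SAME TERMS as
  `MQ298.reHomQ298`, `MQ298.reGLQ298` of helper298 (`T7/H298/MatchQSpec.lean`) and as
  `T3.R.reHom ℚ Rat.infinitePlace Rat.isReal_infinitePlace` (equal by `rfl`).
* `isRestrProd_GLQ973 T₀ : IsRestrProd159 locProjQ973 locKQ973 (baseSetQ973 T₀)`.
* **`haarSplit_GLQ973`**: `μ` Haar on `GL₂(𝔸_ℚ)`, `μr` Haar on `GL₂(ℝ)`, `μF v` Haar on
  `GL₂(ℚ_v)` with `μF v (GL₂(ℤ_v)) = 1` for `v ∉ T₀`: there is ONE `c > 0` such that for every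
  finite `T ⊇ T₀` and all measurable `FF v`, `Fr`

      ∫_{E_T} ∏_{v ∈ T} FF_v(g_v) · Fr(g_∞) dμ(g) = c · ∏_{v ∈ T} ∫ FF_v dμF_v · ∫ Fr dμr

  with `E_T = {g : ∀ v ∉ T, IsIntegralAt v g ∧ IsIntegralAt v g⁻¹}` (`OutT305 T`).
* For functions of several places at once: `integral_restr159` with `isRestrProd_GLQ973`.

The finite places are those of helper159 (`intGL159 ℚ v`, `mkGL159`, `isCompact_GLBox159`, ...,
stated there for every number field); only the real place is new.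
-/

set_option autoImplicit false

open IsDedekindDomain NumberField MeasureTheory
open scoped RestrictedProduct

noncomputable section

namespace Fermat.Agent.LT.T7.H973

open Fermat.Agent.LT.H556.A0 Fermat.Agent.LT Fermat.Agent.LT.T7.H159

/-- The places of `ℚ`: the real place and the finite places. -/
abbrev PlQ973 : Type := Unit ⊕ HeightOneSpectrum (𝓞 ℚ)

/-- The local groups: `GL₂(ℝ)` at the real place, `GL₂(ℚ_v)` at the finite places. -/
def LocGLQ973 : PlQ973 → Type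
  | Sum.inl _ => GL (Fin 2) ℝ
  | Sum.inr v => GL (Fin 2) (v.adicCompletion ℚ)

instance instGroupLocGLQ973 : ∀ i : PlQ973, Group (LocGLQ973 i)
  | Sum.inl _ => inferInstanceAs (Group (GL (Fin 2) ℝ))
  | Sum.inr v => inferInstanceAs (Group (GL (Fin 2) (v.adicCompletion ℚ)))

instance instTopLocGLQ973 : ∀ i : PlQ973, TopologicalSpace (LocGLQ973 i)
  | Sum.inl _ => inferInstanceAs (TopologicalSpace (GL (Fin 2) ℝ))
  | Sum.inr v => inferInstanceAs (TopologicalSpace (GL (Fin 2) (v.adicCompletion ℚ)))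

instance instTopGroupLocGLQ973 : ∀ i : PlQ973, IsTopologicalGroup (LocGLQ973 i)
  | Sum.inl _ => inferInstanceAs (IsTopologicalGroup (GL (Fin 2) ℝ))
  | Sum.inr v => inferInstanceAs (IsTopologicalGroup (GL (Fin 2) (v.adicCompletion ℚ)))

instance instMeasLocGLQ973 : ∀ i : PlQ973, MeasurableSpace (LocGLQ973 i) :=
  fun i => borel (LocGLQ973 i)

instance instBorelLocGLQ973 : ∀ i : PlQ973, BorelSpace (LocGLQ973 i) :=
  fun _ => ⟨rfl⟩

theorem locallyCompactSpace_GLR973 : LocallyCompactSpace (GL (Fin 2) ℝ) := by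
  have := H11.LC.locallyCompactSpace_matrix_h11 (Fin 2) ℝ
  have := H11.LC.t2Space_matrix_h11 (Fin 2) ℝ
  infer_instance

theorem secondCountable_GLR973 : SecondCountableTopology (GL (Fin 2) ℝ) := by
  have := H11.SC.secondCountableTopology_matrix_h11 (Fin 2) ℝ
  exact H11.SC.secondCountableTopology_units_h11 _

instance instLCLocGLQ973 : ∀ i : PlQ973, LocallyCompactSpace (LocGLQ973 i)
  | Sum.inl _ => locallyCompactSpace_GLR973
  | Sum.inr v => H11.LC.locallyCompactSpace_GL2_adicCompletion_h11 ℚ v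

instance instSCLocGLQ973 : ∀ i : PlQ973, SecondCountableTopology (LocGLQ973 i)
  | Sum.inl _ => secondCountable_GLR973
  | Sum.inr v => secondCountable_GLv159 ℚ v

/-! ## The components, the subgroups -/

/-- The component at the real place of `ℚ`, in `ℝ` (the term of `MQ298.reHomQ298`). -/
def reHomQ973 : Adl ℚ →+* ℝ :=
  (InfinitePlace.Completion.extensionEmbeddingOfIsReal Rat.isReal_infinitePlace).comp
    ((Pi.evalRingHom (fun v : InfinitePlace ℚ => v.Completion) Rat.infinitePlace).comp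
      (RingHom.fst (InfiniteAdeleRing ℚ) (FiniteAdeleRing (𝓞 ℚ) ℚ)))

/-- The component of `g ∈ GL₂(𝔸_ℚ)` at the real place, in `GL₂(ℝ)` (the term of
`MQ298.reGLQ298`). -/
def reGLQ973 : G ℚ →* GL (Fin 2) ℝ :=
  Matrix.GeneralLinearGroup.map reHomQ973

/-- The components `GL₂(𝔸_ℚ) → GL₂(ℝ)`, `GL₂(𝔸_ℚ) → GL₂(ℚ_v)`. -/
def locProjQ973 : ∀ i : PlQ973, G ℚ →* LocGLQ973 i
  | Sum.inl _ => reGLQ973
  | Sum.inr v => Matrix.GeneralLinearGroup.map (T5.finHom v)

/-- The subgroups: `GL₂(ℤ_v)` at the finite places (`⊤` at the real place: it always belongs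
to `S`). -/
def locKQ973 : ∀ i : PlQ973, Subgroup (LocGLQ973 i)
  | Sum.inl _ => ⊤
  | Sum.inr v => intGL159 ℚ v

open Classical in
/-- The base set: the real place and the finite places of `T₀`. -/
def baseSetQ973 (T₀ : Finset (HeightOneSpectrum (𝓞 ℚ))) : Finset PlQ973 :=
  insert (Sum.inl ()) (T₀.image Sum.inr)

theorem inl_mem_baseSetQ973 (T₀ : Finset (HeightOneSpectrum (𝓞 ℚ))) (u : Unit) :
    (Sum.inl u : PlQ973) ∈ baseSetQ973 T₀ := by
  classical
  exact Finset.mem_insert_self _ _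

theorem inr_mem_baseSetQ973 (T₀ : Finset (HeightOneSpectrum (𝓞 ℚ)))
    (v : HeightOneSpectrum (𝓞 ℚ)) :
    (Sum.inr v : PlQ973) ∈ baseSetQ973 T₀ ↔ v ∈ T₀ := by
  classical
  simp [baseSetQ973]

/-! ## The real place -/

/-- Every infinite place of `ℚ` is real. -/
theorem isReal_ratPlace973 (w : InfinitePlace ℚ) : w.IsReal := by
  rw [Subsingleton.elim w Rat.infinitePlace]
  exact Rat.isReal_infinitePlace

/-- The complex component of an adele of `ℚ` is its real component. -/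
theorem infHom_eq_reHomQ973 (w : InfinitePlace ℚ) (a : Adl ℚ) :
    T5.infHom w a = ((reHomQ973 a : ℝ) : ℂ) := by
  obtain rfl : w = Rat.infinitePlace := Subsingleton.elim _ _
  exact (InfinitePlace.Completion.extensionEmbeddingOfIsReal_apply
    Rat.isReal_infinitePlace _).symm

theorem continuous_reHomQ973 : Continuous reHomQ973 :=
  (InfinitePlace.Completion.isometry_extensionEmbeddingOfIsReal
      Rat.isReal_infinitePlace).continuous.comp
    ((continuous_apply Rat.infinitePlace).comp continuous_fst)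

theorem continuous_reGLQ973 : Continuous reGLQ973 :=
  continuous_GLmap159 _ continuous_reHomQ973

theorem continuous_locProjQ973 (i : PlQ973) : Continuous (locProjQ973 i) := by
  cases i with
  | inl u => exact continuous_reGLQ973
  | inr v => exact continuous_GLmap159 _ (continuous_finHom159 v)

/-! ## `E_S` -/

theorem mem_restrSubQ_iff973 (S : Finset PlQ973) (g : G ℚ) :
    g ∈ restrSub159 locProjQ973 locKQ973 S ↔
      ∀ v : HeightOneSpectrum (𝓞 ℚ), (Sum.inr v : PlQ973) ∉ S →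
        (∀ i j, ((g : Matrix (Fin 2) (Fin 2) (Adl ℚ)) i j).2 v ∈ v.adicCompletionIntegers ℚ) ∧
          ∀ i j, (((g⁻¹ : G ℚ) : Matrix (Fin 2) (Fin 2) (Adl ℚ)) i j).2 v
            ∈ v.adicCompletionIntegers ℚ := by
  constructor
  · intro h v hv
    have := h (Sum.inr v) hv
    exact this
  · intro h i hi
    cases i with
    | inl u => exact Subgroup.mem_top _
    | inr v => exact h v hi

/-- `E_S` is open. -/
theorem isOpen_restrSubQ973 (S : Finset PlQ973) :
    IsOpen (restrSub159 locProjQ973 locKQ973 S : Set (G ℚ)) := by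
  have hset : (restrSub159 locProjQ973 locKQ973 S : Set (G ℚ))
      = (⋂ i : Fin 2, ⋂ j : Fin 2,
          (fun g : G ℚ => (g : Matrix (Fin 2) (Fin 2) (Adl ℚ)) i j) ⁻¹'
            {a : Adl ℚ | ∀ v, (Sum.inr v : PlQ973) ∉ S → a.2 v ∈ v.adicCompletionIntegers ℚ})
        ∩ (⋂ i : Fin 2, ⋂ j : Fin 2,
          (fun g : G ℚ => ((g⁻¹ : G ℚ) : Matrix (Fin 2) (Fin 2) (Adl ℚ)) i j) ⁻¹'
            {a : Adl ℚ | ∀ v, (Sum.inr v : PlQ973) ∉ S → a.2 v ∈ v.adicCompletionIntegers ℚ}) := by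
    ext g
    simp only [SetLike.mem_coe, mem_restrSubQ_iff973, Set.mem_inter_iff, Set.mem_iInter,
      Set.mem_preimage, Set.mem_ofPred_eq]
    constructor
    · intro h
      exact ⟨fun i j v hv => (h v hv).1 i j, fun i j v hv => (h v hv).2 i j⟩
    · rintro ⟨h1, h2⟩ v hv
      exact ⟨fun i j => h1 i j v hv, fun i j => h2 i j v hv⟩
  rw [hset]
  refine IsOpen.inter ?_ ?_
  · exact isOpen_iInter_of_finite fun i => isOpen_iInter_of_finite fun j =>
      (isOpen_intOutside159 _).preimage (continuous_entryGL159 i j)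
  · exact isOpen_iInter_of_finite fun i => isOpen_iInter_of_finite fun j =>
      (isOpen_intOutside159 _).preimage (continuous_entryInvGL159 i j)

/-! ## Surjectivity -/

theorem finite_inr_memQ973 (S : Finset PlQ973) :
    {v : HeightOneSpectrum (𝓞 ℚ) | (Sum.inr v : PlQ973) ∈ S}.Finite :=
  (S.finite_toSet.preimage (Sum.inr_injective.injOn)).subset fun _ h => h

theorem eventually_notMemQ973 (S : Finset PlQ973) :
    ∀ᶠ v : HeightOneSpectrum (𝓞 ℚ) in Filter.cofinite, (Sum.inr v : PlQ973) ∉ S := by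
  rw [Filter.eventually_cofinite]
  refine (finite_inr_memQ973 S).subset fun v hv => ?_
  simpa using hv

/-- The real component of the adelic matrix with given components. -/
theorem reGLQ_mkGL973 (a : ∀ w : InfinitePlace ℚ, GL (Fin 2) w.Completion)
    (b : ∀ v : HeightOneSpectrum (𝓞 ℚ), GL (Fin 2) (v.adicCompletion ℚ))
    (hb : ∀ᶠ v in Filter.cofinite, b v ∈ intGL159 ℚ v) :
    reGLQ973 (mkGL159 a b hb)
      = Matrix.GeneralLinearGroup.map
          (InfinitePlace.Completion.extensionEmbeddingOfIsReal Rat.isReal_infinitePlace)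
          (a Rat.infinitePlace) :=
  Units.ext rfl

open Classical in
/-- `(p_i)_{i ∈ S}` maps `E_S` onto the product. -/
theorem surj_restrQ973 (S : Finset PlQ973) (hS : (Sum.inl () : PlQ973) ∈ S)
    (x : ∀ i : S, LocGLQ973 i) :
    ∃ g ∈ restrSub159 locProjQ973 locKQ973 S, restrProj159 locProjQ973 S g = x := by
  set a : ∀ w : InfinitePlace ℚ, GL (Fin 2) w.Completion := fun w =>
    Matrix.GeneralLinearGroup.map
      ((InfinitePlace.Completion.ringEquivRealOfIsReal (isReal_ratPlace973 w)).symm :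
        ℝ →+* w.Completion)
      (x ⟨Sum.inl (), hS⟩ : GL (Fin 2) ℝ) with ha
  set b : ∀ v : HeightOneSpectrum (𝓞 ℚ), GL (Fin 2) (v.adicCompletion ℚ) := fun v =>
    if h : (Sum.inr v : PlQ973) ∈ S then (x ⟨Sum.inr v, h⟩ : GL (Fin 2) (v.adicCompletion ℚ))
    else 1 with hb
  have hb1 : ∀ v : HeightOneSpectrum (𝓞 ℚ), (Sum.inr v : PlQ973) ∉ S → b v = 1 := by
    intro v hv
    exact dif_neg hv
  have hbint : ∀ᶠ v in Filter.cofinite, b v ∈ intGL159 ℚ v :=
    (eventually_notMemQ973 S).mono fun v hv => by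
      rw [hb1 v hv]; exact (intGL159 ℚ v).one_mem
  refine ⟨mkGL159 a b hbint, ?_, ?_⟩
  · intro i hi
    cases i with
    | inl u => exact Subgroup.mem_top _
    | inr v =>
      have e : locProjQ973 (Sum.inr v) (mkGL159 a b hbint) = b v := mkGL_fin159 a b hbint v
      rw [e, hb1 v hi]
      exact (intGL159 ℚ v).one_mem
  · funext i
    obtain ⟨i, hi⟩ := i
    cases i with
    | inl u =>
      have e : locProjQ973 (Sum.inl u) (mkGL159 a b hbint)
          = Matrix.GeneralLinearGroup.map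
              (InfinitePlace.Completion.extensionEmbeddingOfIsReal Rat.isReal_infinitePlace)
              (a Rat.infinitePlace) :=
        reGLQ_mkGL973 a b hbint
      rw [restrProj_apply159, e]
      refine Units.ext ?_
      ext k l
      simp only [ha, Matrix.GeneralLinearGroup.map_apply]
      exact (InfinitePlace.Completion.ringEquivRealOfIsReal
        Rat.isReal_infinitePlace).apply_symm_apply _
    | inr v =>
      have e : locProjQ973 (Sum.inr v) (mkGL159 a b hbint) = b v := mkGL_fin159 a b hbint v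
      rw [restrProj_apply159, e]
      exact dif_pos hi

/-! ## Properness -/

open Classical in
/-- `(p_i)_{i ∈ S}` is proper on `E_S` (boxes; the box of helper159 with the real entries
embedded in `ℂ`). -/
theorem proper_restrQ973 (S : Finset PlQ973) (hS : (Sum.inl () : PlQ973) ∈ S)
    (C : ∀ i : PlQ973, Set (LocGLQ973 i)) (hC : ∀ i ∈ S, IsCompact (C i)) :
    ∃ C' : Set (G ℚ), IsCompact C' ∧
      {g | g ∈ restrSub159 locProjQ973 locKQ973 S ∧
        ∀ i ∈ S, locProjQ973 i g ∈ C i} ⊆ C' := by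
  set DR : Set ℝ := entrySet159 (R := ℝ) (C (Sum.inl ())) with hDR
  set DI : InfinitePlace ℚ → Set ℂ := fun _ => (fun r : ℝ => (r : ℂ)) '' DR with hDI
  set DF : ∀ v : HeightOneSpectrum (𝓞 ℚ), Set (v.adicCompletion ℚ) := fun v =>
    if (Sum.inr v : PlQ973) ∈ S then entrySet159 (R := v.adicCompletion ℚ) (C (Sum.inr v))
    else (v.adicCompletionIntegers ℚ : Set (v.adicCompletion ℚ)) with hDF
  have hDF1 : ∀ v, (Sum.inr v : PlQ973) ∈ S →
      DF v = entrySet159 (R := v.adicCompletion ℚ) (C (Sum.inr v)) := fun v hv => if_pos hv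
  have hDF0 : ∀ v, (Sum.inr v : PlQ973) ∉ S →
      DF v = (v.adicCompletionIntegers ℚ : Set (v.adicCompletion ℚ)) := fun v hv => if_neg hv
  have hcR : IsCompact DR := isCompact_entrySet159 (R := ℝ) (hC (Sum.inl ()) hS)
  have hcI : ∀ w, IsCompact (DI w) := fun _ => hcR.image Complex.continuous_ofReal
  have hc : ∀ v, IsCompact (DF v) := by
    intro v
    by_cases hv : (Sum.inr v : PlQ973) ∈ S
    · rw [hDF1 v hv]
      exact isCompact_entrySet159 (R := v.adicCompletion ℚ) (hC (Sum.inr v) hv)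
    · rw [hDF0 v hv]
      exact H11.LC.isCompact_integers_h11 ℚ v
  have hint : ∀ᶠ v in Filter.cofinite,
      DF v ⊆ (v.adicCompletionIntegers ℚ : Set (v.adicCompletion ℚ)) :=
    (eventually_notMemQ973 S).mono fun v hv => by rw [hDF0 v hv]
  refine ⟨_, isCompact_GLBox159 DI hcI DF hc hint, ?_⟩
  rintro g ⟨hgE, hgC⟩
  have hE := (mem_restrSubQ_iff973 S g).1 hgE
  have key : ∀ h : G ℚ, (∀ v, (Sum.inr v : PlQ973) ∉ S →
        ∀ i j, ((h : Matrix (Fin 2) (Fin 2) (Adl ℚ)) i j).2 v ∈ v.adicCompletionIntegers ℚ) →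
      (∀ i j, reHomQ973 ((h : Matrix (Fin 2) (Fin 2) (Adl ℚ)) i j) ∈ DR) →
      (∀ v, (Sum.inr v : PlQ973) ∈ S → ∀ i j,
        ((h : Matrix (Fin 2) (Fin 2) (Adl ℚ)) i j).2 v
          ∈ entrySet159 (R := v.adicCompletion ℚ) (C (Sum.inr v))) →
      (h : Matrix (Fin 2) (Fin 2) (Adl ℚ)) ∈ matBox159 DI DF := by
    intro h h0 hI h1 i j
    refine ⟨fun w => ?_, fun v => ?_⟩
    · rw [infHom_eq_reHomQ973 w]
      exact ⟨_, hI i j, rfl⟩
    · by_cases hv : (Sum.inr v : PlQ973) ∈ S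
      · rw [hDF1 v hv]; exact h1 v hv i j
      · rw [hDF0 v hv]; exact h0 v hv i j
  refine ⟨key g (fun v hv => (hE v hv).1) ?_ ?_, key g⁻¹ (fun v hv => (hE v hv).2) ?_ ?_⟩
  · intro i j
    exact entry_mem159 (R := ℝ) (hgC (Sum.inl ()) hS) i j
  · intro v hv i j
    exact entry_mem159 (R := v.adicCompletion ℚ) (hgC (Sum.inr v) hv) i j
  · intro i j
    have h1 := entryInv_mem159 (R := ℝ) (hgC (Sum.inl ()) hS) i j
    have h2 : ((reGLQ973 g)⁻¹ : GL (Fin 2) ℝ) = reGLQ973 g⁻¹ := (map_inv _ g).symm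
    have h3 : (((reGLQ973 g)⁻¹ : GL (Fin 2) ℝ) : Matrix (Fin 2) (Fin 2) ℝ) i j
        ∈ entrySet159 (R := ℝ) (C (Sum.inl ())) := h1
    rw [h2] at h3
    exact h3
  · intro v hv i j
    have h1 := entryInv_mem159 (R := v.adicCompletion ℚ) (hgC (Sum.inr v) hv) i j
    have h2 : ((Matrix.GeneralLinearGroup.map (T5.finHom v) g)⁻¹ :
        GL (Fin 2) (v.adicCompletion ℚ))
        = Matrix.GeneralLinearGroup.map (T5.finHom v) g⁻¹ := (map_inv _ g).symm
    have h3 : (((Matrix.GeneralLinearGroup.map (T5.finHom v) g)⁻¹ :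
        GL (Fin 2) (v.adicCompletion ℚ)) :
        Matrix (Fin 2) (Fin 2) (v.adicCompletion ℚ)) i j
          ∈ entrySet159 (R := v.adicCompletion ℚ) (C (Sum.inr v)) := h1
    rw [h2] at h3
    exact h3

/-! ## The theorem -/

/-- **`GL₂(𝔸_ℚ)` IS THE RESTRICTED PRODUCT** of `GL₂(ℝ)` and the `GL₂(ℚ_v)` with respect to the
`GL₂(ℤ_v)`, in the sense of `IsRestrProd159`. -/
theorem isRestrProd_GLQ973 (T₀ : Finset (HeightOneSpectrum (𝓞 ℚ))) :
    IsRestrProd159 locProjQ973 locKQ973 (baseSetQ973 T₀) where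
  cont := continuous_locProjQ973
  isOpenK := fun i _ => by
    cases i with
    | inl u => exact isOpen_univ
    | inr v => exact isOpen_intGL159 v
  isOpen := fun S _ => isOpen_restrSubQ973 S
  surj := fun S hS x => surj_restrQ973 S (hS (inl_mem_baseSetQ973 T₀ ())) x
  proper := fun S hS C hC => proper_restrQ973 S (hS (inl_mem_baseSetQ973 T₀ ())) C hC

/-! ## The splitting of the Haar measure of `GL₂(𝔸_ℚ)` -/

attribute [local instance] Fermat.Agent.LT.T5.instMeasurableSpaceG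

/-- The family of the local measures. -/
def locMeasQ973 (μr : @Measure (GL (Fin 2) ℝ) (borel _))
    (μF : ∀ v : HeightOneSpectrum (𝓞 ℚ), @Measure (GL (Fin 2) (v.adicCompletion ℚ)) (borel _)) :
    ∀ i : PlQ973, Measure (LocGLQ973 i)
  | Sum.inl _ => μr
  | Sum.inr v => μF v

/-- The family of the local functions. -/
def locFnQ973 (Fr : GL (Fin 2) ℝ → ℂ)
    (FF : ∀ v : HeightOneSpectrum (𝓞 ℚ), GL (Fin 2) (v.adicCompletion ℚ) → ℂ) :
    ∀ i : PlQ973, LocGLQ973 i → ℂ
  | Sum.inl _ => Fr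
  | Sum.inr v => FF v

theorem baseSetQ_mono973 {T₀ T : Finset (HeightOneSpectrum (𝓞 ℚ))} (h : T₀ ⊆ T) :
    baseSetQ973 T₀ ⊆ baseSetQ973 T := by
  intro i hi
  cases i with
  | inl u => exact inl_mem_baseSetQ973 T u
  | inr v => exact (inr_mem_baseSetQ973 T v).2 (h ((inr_mem_baseSetQ973 T₀ v).1 hi))

theorem prod_baseSetQ973 {M : Type*} [CommMonoid M] (T : Finset (HeightOneSpectrum (𝓞 ℚ)))
    (φ : PlQ973 → M) :
    ∏ i ∈ baseSetQ973 T, φ i = (∏ v ∈ T, φ (Sum.inr v)) * φ (Sum.inl ()) := by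
  classical
  unfold baseSetQ973
  rw [Finset.prod_insert, Finset.prod_image (fun _ _ _ _ h => Sum.inr_injective h), mul_comm]
  intro h
  obtain ⟨v, -, hv⟩ := Finset.mem_image.1 h
  exact Sum.inr_ne_inl hv

/-- `E_T` in the vocabulary of A0 (`OutT305` of helper305). -/
theorem mem_restrSubQ_base973 (T : Finset (HeightOneSpectrum (𝓞 ℚ))) (g : G ℚ) :
    g ∈ restrSub159 locProjQ973 locKQ973 (baseSetQ973 T) ↔
      ∀ v : HeightOneSpectrum (𝓞 ℚ), v ∉ T → IsIntegralAt v g ∧ IsIntegralAt v g⁻¹ := by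
  rw [mem_restrSubQ_iff973]
  constructor
  · intro h v hv
    exact h v fun h' => hv ((inr_mem_baseSetQ973 T v).1 h')
  · intro h v hv
    exact h v fun h' => hv ((inr_mem_baseSetQ973 T v).2 h')

/-- **THE SPLITTING OF THE HAAR MEASURE OF `GL₂(𝔸_ℚ)`.**  `μ` a Haar measure of `GL₂(𝔸_ℚ)`,
`μr` a Haar measure of `GL₂(ℝ)`, `μF v` Haar measures of `GL₂(ℚ_v)` with
`μF v (GL₂(ℤ_v)) = 1` for `v ∉ T₀`: there is ONE constant `c > 0` such that for every finite
`T ⊇ T₀` and all measurable local functions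

    ∫_{E_T} ∏_{v ∈ T} FF_v(g_v) · Fr(g_∞) dμ(g) = c · ∏_{v ∈ T} ∫ FF_v dμF_v · ∫ Fr dμr,

`E_T = {g : g_v ∈ GL₂(ℤ_v) for all v ∉ T}`. -/
theorem haarSplit_GLQ973
    (μ : Measure (G ℚ)) (hμ : μ.IsHaarMeasure) (T₀ : Finset (HeightOneSpectrum (𝓞 ℚ)))
    (μr : @Measure (GL (Fin 2) ℝ) (borel _))
    (μF : ∀ v : HeightOneSpectrum (𝓞 ℚ), @Measure (GL (Fin 2) (v.adicCompletion ℚ)) (borel _))
    (hr : @Measure.IsHaarMeasure _ _ _ (borel _) μr)
    (hF : ∀ v, @Measure.IsHaarMeasure _ _ _ (borel _) (μF v))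
    (h1 : ∀ v : HeightOneSpectrum (𝓞 ℚ), v ∉ T₀ →
      μF v (intGL159 ℚ v : Set (GL (Fin 2) (v.adicCompletion ℚ))) = 1) :
    ∃ c : ℝ, 0 < c ∧ ∀ T : Finset (HeightOneSpectrum (𝓞 ℚ)), T₀ ⊆ T →
      ∀ (Fr : GL (Fin 2) ℝ → ℂ)
        (FF : ∀ v : HeightOneSpectrum (𝓞 ℚ), GL (Fin 2) (v.adicCompletion ℚ) → ℂ),
        @Measurable _ _ (borel _) _ Fr →
        (∀ v ∈ T, @Measurable _ _ (borel _) _ (FF v)) →
        ∫ g in {g : G ℚ | ∀ v : HeightOneSpectrum (𝓞 ℚ), v ∉ T →
            IsIntegralAt v g ∧ IsIntegralAt v g⁻¹},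
          (∏ v ∈ T, FF v (Matrix.GeneralLinearGroup.map (T5.finHom v) g)) *
            Fr (reGLQ973 g) ∂μ
          = (c : ℂ) * ((∏ v ∈ T, @integral _ _ _ _ (borel _) (μF v) (FF v)) *
              @integral _ _ _ _ (borel _) μr Fr) := by
  have := hμ
  have : BorelSpace (G ℚ) := borelSpace_G159
  have hH : ∀ i : PlQ973, (locMeasQ973 μr μF i).IsHaarMeasure := by
    intro i
    cases i with
    | inl u => exact hr
    | inr v => exact hF v
  have hR := isRestrProd_GLQ973 T₀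
  have hKm : ∀ i : PlQ973, i ∉ baseSetQ973 T₀ →
      locMeasQ973 μr μF i (locKQ973 i : Set (LocGLQ973 i)) = 1 := by
    intro i hi
    cases i with
    | inl u => exact absurd (inl_mem_baseSetQ973 T₀ u) hi
    | inr v => exact h1 v fun h' => hi ((inr_mem_baseSetQ973 T₀ v).2 h')
  refine ⟨(restrConst159 μ locProjQ973 locKQ973 (locMeasQ973 μr μF) (baseSetQ973 T₀) : ℝ),
    restrConst_pos159 _ _ _ _ _, ?_⟩
  intro T hT Fr FF hFr hFF
  have hf : ∀ i ∈ baseSetQ973 T, Measurable (locFnQ973 Fr FF i) := by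
    intro i hi
    cases i with
    | inl u => exact hFr
    | inr v => exact hFF v ((inr_mem_baseSetQ973 T v).1 hi)
  have e := integral_restr_prod159 μ hR (locMeasQ973 μr μF) hKm (baseSetQ973 T)
    (baseSetQ_mono973 hT) (locFnQ973 Fr FF) hf
  rw [prod_baseSetQ973 T fun i => ∫ x, locFnQ973 Fr FF i x ∂(locMeasQ973 μr μF i)] at e
  have hset : {g : G ℚ | ∀ v : HeightOneSpectrum (𝓞 ℚ), v ∉ T →
      IsIntegralAt v g ∧ IsIntegralAt v g⁻¹}
      = (restrSub159 locProjQ973 locKQ973 (baseSetQ973 T) : Set (G ℚ)) := by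
    ext g
    exact (mem_restrSubQ_base973 T g).symm
  rw [hset]
  refine Eq.trans ?_ e
  refine integral_congr_ae (Filter.Eventually.of_forall fun g => ?_)
  exact (prod_baseSetQ973 T fun i => locFnQ973 Fr FF i (locProjQ973 i g)).symm

/-! ## Appendix: the equation lemmas of the definitions of this file are realised HERE

(ruling of the row-lead, review 16:00Z: the grader's kernel checker rejects a closure in which two
modules realise the equation lemmas of the same definition with different terms; `simp [f]`,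
`rw [f]`, `unfold f` downstream now find them in the defining module).  No statement of this
file is changed. -/

theorem eqnsRealised973 : True := by
  have _a1 := @LocGLQ973.eq_1
  have _a2 := @LocGLQ973.eq_2
  have _a3 := @LocGLQ973.eq_def
  have _b1 := @instGroupLocGLQ973.eq_1
  have _b2 := @instGroupLocGLQ973.eq_2
  have _b3 := @instGroupLocGLQ973.eq_def
  have _c1 := @instTopLocGLQ973.eq_1
  have _c2 := @instTopLocGLQ973.eq_2
  have _c3 := @instTopLocGLQ973.eq_def
  have _d1 := @instMeasLocGLQ973.eq_1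
  have _d3 := @instMeasLocGLQ973.eq_def
  have _e1 := @locProjQ973.eq_1
  have _e2 := @locProjQ973.eq_2
  have _e3 := @locProjQ973.eq_def
  have _f1 := @locKQ973.eq_1
  have _f2 := @locKQ973.eq_2
  have _f3 := @locKQ973.eq_def
  have _g1 := @locMeasQ973.eq_1
  have _g2 := @locMeasQ973.eq_2
  have _g3 := @locMeasQ973.eq_def
  have _h1 := @locFnQ973.eq_1
  have _h2 := @locFnQ973.eq_2
  have _h3 := @locFnQ973.eq_def
  have _i1 := @baseSetQ973.eq_1
  have _i3 := @baseSetQ973.eq_def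
  have _j1 := @reHomQ973.eq_1
  have _j3 := @reHomQ973.eq_def
  have _k1 := @reGLQ973.eq_1
  have _k3 := @reGLQ973.eq_def
  trivial

end Fermat.Agent.LT.T7.H973

end

end
-- ===== PACK-END LT/T7/H973/RestrGLQ.lean

-- ===== PACK-BEGIN LT/T7/H439/ClLocal.lean
section




/-!
# Row LT, tower T7, leaf T7.14.3h.C `ClassicalC` (hedge of helper528): local tools (helper439)

OFF-MAIN.  Sorry-free.  The closure `𝔪 𝒪_v` of an ideal in `K_v`:

* it is stable under addition, negation and multiplication by the integers of `K_v`;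
* it lies in the maximal ideal if `v ∣ 𝔪`, and a bound for the valuation on `𝔪` passes to it;
* simultaneous approximation of integers of `K_v`, `v ∈ S`, by an element of `𝒪` modulo `𝔪 𝒪_v`.

Assets: `LT/T2/H131/WeakApprox.lean` (helper131, byte-identical copy).
-/

set_option autoImplicit false

open IsDedekindDomain NumberField
open Fermat.Agent.LT.H556.A0
open Fermat.Agent.LT.T2.H131

noncomputable section

namespace Fermat.Agent.LT.T7.H439

variable {K : Type} [Field K] [NumberField K]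

/-- The embedding `𝒪 → K_v`. -/
def embO439 (v : HeightOneSpectrum (𝓞 K)) (a : 𝓞 K) : v.adicCompletion K :=
  algebraMap K (v.adicCompletion K) (algebraMap (𝓞 K) K a)

theorem embO_add439 (v : HeightOneSpectrum (𝓞 K)) (a b : 𝓞 K) :
    embO439 v (a + b) = embO439 v a + embO439 v b := by
  simp only [embO439, map_add]

theorem embO_mul439 (v : HeightOneSpectrum (𝓞 K)) (a b : 𝓞 K) :
    embO439 v (a * b) = embO439 v a * embO439 v b := by
  simp only [embO439, map_mul]

theorem embO_sub439 (v : HeightOneSpectrum (𝓞 K)) (a b : 𝓞 K) :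
    embO439 v (a - b) = embO439 v a - embO439 v b := by
  simp only [embO439, map_sub]

theorem embO_one439 (v : HeightOneSpectrum (𝓞 K)) : embO439 v (1 : 𝓞 K) = 1 := by
  simp only [embO439, map_one]

theorem embO_neg439 (v : HeightOneSpectrum (𝓞 K)) (a : 𝓞 K) :
    embO439 v (-a) = -embO439 v a := by
  simp only [embO439, map_neg]

theorem valued_embO439 (v : HeightOneSpectrum (𝓞 K)) (a : 𝓞 K) :
    Valued.v (embO439 v a) = v.intValuation a := by
  rw [embO439, valued_algebraMap_h131, HeightOneSpectrum.valuation_of_algebraMap]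

theorem valued_embO_le_one439 (v : HeightOneSpectrum (𝓞 K)) (a : 𝓞 K) :
    Valued.v (embO439 v a) ≤ 1 := by
  rw [valued_embO439]
  exact v.intValuation_le_one a

theorem valued_embO_lt_one_iff439 (v : HeightOneSpectrum (𝓞 K)) (a : 𝓞 K) :
    Valued.v (embO439 v a) < 1 ↔ a ∈ v.asIdeal := by
  rw [valued_embO439]
  exact v.intValuation_lt_one_iff_mem a

theorem idealClosure_eq439 (𝔪 : Ideal (𝓞 K)) (v : HeightOneSpectrum (𝓞 K)) :
    idealClosure 𝔪 v = closure (embO439 v '' (𝔪 : Set (𝓞 K))) := rfl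

theorem embO_mem_ic439 {𝔪 : Ideal (𝓞 K)} (v : HeightOneSpectrum (𝓞 K)) {a : 𝓞 K} (ha : a ∈ 𝔪) :
    embO439 v a ∈ idealClosure 𝔪 v :=
  subset_closure ⟨a, ha, rfl⟩

/-! ## Algebra of the closure -/

theorem ic_add439 (𝔪 : Ideal (𝓞 K)) (v : HeightOneSpectrum (𝓞 K)) {x y : v.adicCompletion K}
    (hx : x ∈ idealClosure 𝔪 v) (hy : y ∈ idealClosure 𝔪 v) : x + y ∈ idealClosure 𝔪 v := by
  rw [idealClosure_eq439] at *
  refine map_mem_closure₂ (f := fun a b : v.adicCompletion K => a + b) continuous_add hx hy ?_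
  rintro _ ⟨a, ha, rfl⟩ _ ⟨b, hb, rfl⟩
  exact ⟨a + b, 𝔪.add_mem ha hb, embO_add439 v a b⟩

/-- The integers of `K_v` are in the closure of `𝒪`. -/
theorem int_mem_closure439 (v : HeightOneSpectrum (𝓞 K)) {y : v.adicCompletion K}
    (hy : Valued.v y ≤ 1) : y ∈ closure (embO439 v '' (Set.univ : Set (𝓞 K))) := by
  rw [mem_closure_iff_nhds]
  intro t ht
  obtain ⟨c, hc, hct⟩ := exists_ball_subset_h131 y ht
  have hvc : Valued.v c ≠ 0 := by simpa using hc
  obtain ⟨n, hn⟩ := exists_exp_neg_lt_h131 hvc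
  obtain ⟨b, hb⟩ := exists_int_approx_h131 v y hy n
  exact ⟨embO439 v b, hct (lt_of_le_of_lt hb hn), ⟨b, Set.mem_univ _, rfl⟩⟩

theorem ic_mul_int439 (𝔪 : Ideal (𝓞 K)) (v : HeightOneSpectrum (𝓞 K)) {y x : v.adicCompletion K}
    (hy : Valued.v y ≤ 1) (hx : x ∈ idealClosure 𝔪 v) : y * x ∈ idealClosure 𝔪 v := by
  rw [idealClosure_eq439] at *
  refine map_mem_closure₂ (f := fun a b : v.adicCompletion K => a * b) continuous_mul
    (int_mem_closure439 v hy) hx ?_
  rintro _ ⟨a, -, rfl⟩ _ ⟨b, hb, rfl⟩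
  exact ⟨a * b, 𝔪.mul_mem_left a hb, embO_mul439 v a b⟩

theorem ic_neg439 (𝔪 : Ideal (𝓞 K)) (v : HeightOneSpectrum (𝓞 K)) {x : v.adicCompletion K}
    (hx : x ∈ idealClosure 𝔪 v) : -x ∈ idealClosure 𝔪 v := by
  have h := ic_mul_int439 𝔪 v (y := -1) (by rw [Valuation.map_neg, map_one]) hx
  rwa [neg_one_mul] at h

theorem ic_sub439 (𝔪 : Ideal (𝓞 K)) (v : HeightOneSpectrum (𝓞 K)) {x y : v.adicCompletion K}
    (hx : x ∈ idealClosure 𝔪 v) (hy : y ∈ idealClosure 𝔪 v) : x - y ∈ idealClosure 𝔪 v := by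
  rw [sub_eq_add_neg]
  exact ic_add439 𝔪 v hx (ic_neg439 𝔪 v hy)

/-- Division by a unit of `𝒪_v`. -/
theorem ic_of_unit_mul439 (𝔪 : Ideal (𝓞 K)) (v : HeightOneSpectrum (𝓞 K))
    {u x : v.adicCompletion K} (hu : Valued.v u = 1) (hx : u * x ∈ idealClosure 𝔪 v) :
    x ∈ idealClosure 𝔪 v := by
  have hu0 : u ≠ 0 := by
    intro h
    rw [h, map_zero] at hu
    exact zero_ne_one hu
  have h := ic_mul_int439 𝔪 v (y := u⁻¹) (by rw [map_inv₀, hu, inv_one]) hx
  rwa [inv_mul_cancel_left₀ hu0] at h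

/-! ## Valuations on the closure -/

/-- A bound for the valuation on a set passes to its closure. -/
theorem val_le_of_mem_closure439 {F : Type} [Field F] [Valued F (WithZero (Multiplicative ℤ))]
    {S : Set F} {γ : WithZero (Multiplicative ℤ)} (h : ∀ s ∈ S, Valued.v s ≤ γ) {x : F}
    (hx : x ∈ closure S) : Valued.v x ≤ γ := by
  by_cases h0 : x = 0
  · rw [h0, map_zero]
    exact zero_le
  · obtain ⟨s, hs1, hs2⟩ := mem_closure_iff_nhds.1 hx _ (ball_mem_nhds_h131 x x h0)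
    have hs1' : Valued.v (s - x) < Valued.v x := hs1
    have e : Valued.v s = Valued.v x := by
      have e' : s = x + (s - x) := by ring
      rw [e']
      exact Valuation.map_add_eq_of_lt_left _ hs1'
    rw [← e]
    exact h s hs2

theorem ic_val_le439 (𝔪 : Ideal (𝓞 K)) (v : HeightOneSpectrum (𝓞 K))
    {γ : WithZero (Multiplicative ℤ)} (h : ∀ m ∈ 𝔪, v.intValuation m ≤ γ)
    {x : v.adicCompletion K} (hx : x ∈ idealClosure 𝔪 v) : Valued.v x ≤ γ := by
  rw [idealClosure_eq439] at hx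
  refine val_le_of_mem_closure439 ?_ hx
  rintro _ ⟨m, hm, rfl⟩
  rw [valued_embO439]
  exact h m hm

/-- The closure of `𝔪` lies in the maximal ideal if `v ∣ 𝔪`. -/
theorem ic_lt_one439 {𝔪 : Ideal (𝓞 K)} {v : HeightOneSpectrum (𝓞 K)} (hv : v.asIdeal ∣ 𝔪)
    {x : v.adicCompletion K} (hx : x ∈ idealClosure 𝔪 v) : Valued.v x < 1 := by
  have h1 : Valued.v x ≤ WithZero.exp (-(1 : ℤ)) := by
    refine ic_val_le439 𝔪 v (fun m hm => ?_) hx
    have hm' : m ∈ v.asIdeal ^ 1 := by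
      rw [pow_one]
      exact Ideal.le_of_dvd hv hm
    have := (v.intValuation_le_pow_iff_mem m 1).2 hm'
    simpa using this
  refine lt_of_le_of_lt h1 ?_
  rw [← WithZero.exp_zero, WithZero.exp_lt_exp]
  norm_num

/-! ## Simultaneous approximation -/

/-- Simultaneous approximation of integers of `K_v`, `v ∈ S`, by an element of `𝒪`, modulo the
closures of `𝔪`. -/
theorem exists_approx439 {𝔪 : Ideal (𝓞 K)} (h𝔪 : 𝔪 ≠ ⊥) (S : Finset (HeightOneSpectrum (𝓞 K)))
    (x : (v : HeightOneSpectrum (𝓞 K)) → v.adicCompletion K)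
    (hx : ∀ v ∈ S, Valued.v (x v) ≤ 1) :
    ∃ a : 𝓞 K, ∀ v ∈ S, embO439 v a - x v ∈ idealClosure 𝔪 v := by
  classical
  choose N hN using fun v : HeightOneSpectrum (𝓞 K) => exists_ball_subset_idealClosure_h131 𝔪 h𝔪 v
  have hloc : ∀ v : HeightOneSpectrum (𝓞 K), ∃ b : 𝓞 K, v ∈ S →
      Valued.v (embO439 v b - x v) ≤ WithZero.exp (-(N v : ℤ)) := by
    intro v
    by_cases hv : v ∈ S
    · obtain ⟨b, hb⟩ := exists_int_approx_h131 v (x v) (hx v hv) (N v)
      exact ⟨b, fun _ => hb⟩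
    · exact ⟨0, fun h => absurd h hv⟩
  choose b hb using hloc
  obtain ⟨r, hr⟩ := IsDedekindDomain.exists_forall_sub_mem_ideal
    (s := S) (fun v : HeightOneSpectrum (𝓞 K) => v.asIdeal) (fun v => N v)
    (fun v _ => v.prime) (fun v _ w _ hvw h => hvw (HeightOneSpectrum.ext h))
    (fun v : S => b v)
  refine ⟨r, fun v hv => hN v _ ?_⟩
  have e : embO439 v r - x v = embO439 v (r - b v) + (embO439 v (b v) - x v) := by
    rw [embO_sub439]
    ring
  rw [e]
  refine (Valuation.map_add _ _ _).trans (max_le ?_ (hb v hv))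
  rw [valued_embO439]
  exact (v.intValuation_le_pow_iff_mem _ _).2 (hr v hv)

end Fermat.Agent.LT.T7.H439

end

end
-- ===== PACK-END LT/T7/H439/ClLocal.lean

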