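import Mathlib
import Fermat.Agent.Pack.LT3.E8L0
import Fermat.Agent.Pack.LT3.E6L0
import Fermat.Agent.Pack.LT3.E5L0
import Fermat.Agent.Pack.LT3.E7L1
import Fermat.Agent.Pack.LT3.E7L0
import Fermat.Agent.Pack.LT3.E7L3
import Fermat.Agent.Pack.LT2.E0L2
import Fermat.Agent.Pack.LT2.E2L1
import Fermat.Agent.Pack.LT2.E3L1
import Fermat.Agent.Pack.LT2.E5L1
import Fermat.Agent.Pack.LT3.E1L3
import Fermat.Agent.Pack.LT3.E7L2
import Fermat.Agent.Pack.LT3.E8L3
import Fermat.Agent.Pack.LT3.E9L3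

set_option linter.all false

-- ===== PACK-BEGIN LT/T6/H830/InjTop.lean
section


/-!
# Row LT, tower T6, leaf T6.21 `ArchInjC`: the formal top of the cut of `InjSpec.lean` (helper830)

OFF-MAIN.  `archInjC_of_leaves830` :
`HCTransRC → CartanRC → MelFubiniC → HcZRegC → FourierUniqC → HcZFormC → TorTRegC → AbelInj1C →
CentAvgOfTorusC → ArchInjC`.
-/

set_option autoImplicit false

open scoped Matrix
open MeasureTheory

noncomputable section

namespace Fermat.Agent.LT.T6.H830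

open Fermat.Agent.LT.T6

/-- **T6.21 from the leaves.** -/
theorem archInjC_of_leaves830 (hHC : HCTransRC) (hCart : CartanRC) (hMF : MelFubiniC)
    (hReg : HcZRegC) (hFU : FourierUniqC) (hForm : HcZFormC) (hTReg : TorTRegC)
    (hAbel : AbelInj1C) (hCent : CentAvgOfTorusC) : ArchInjC := by
  intro μ hμ n hn f hf hzero Z hZ g
  have hn' : IsWt n := hn
  obtain ⟨c, hc, hform⟩ := hHC μ hμ
  -- the Mellin transform vanishes
  have hmel : ∀ s : ℂ, melR f s = 0 := by
    intro s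
    have h1 := hform n hn' f hf s
    rw [hzero s] at h1
    exact (mul_eq_zero.1 h1.symm).resolve_left hc
  -- `hcZ f = 0`
  have hH : ∀ r : ℝ, hcZ f r = 0 := by
    obtain ⟨hc1, hc2⟩ := hReg n hn' f hf
    refine hFU (hcZ f) hc1 hc2 ?_
    intro s
    rw [← hMF n hn' f hf s]
    exact hmel s
  -- `torT f = 0` on `t ≥ 0`
  have hT : ∀ t : ℝ, 0 ≤ t → torT f t = 0 := by
    obtain ⟨ht1, ht2⟩ := hTReg n hn' f hf
    refine hAbel n hn' (torT f) ht1 ht2 ?_
    intro r
    rw [← hForm hCart n hn' f hf r]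
    exact hH r
  exact hCent hCart n hn' f hf hT Z hZ g

end Fermat.Agent.LT.T6.H830

end

end
-- ===== PACK-END LT/T6/H830/InjTop.lean

-- ===== PACK-BEGIN LT/T6/H437/ReprFin.lean
section



/-!
# Row LT, tower T6, sub-leaf T6.14b.L5: `H129.ReprFinC129` PROVED (helper437)

Registry row 1168.  Statement = `Fermat.Agent.LT.H129.ReprFinC129` of
`LT/H129/EllParamSpec.lean` (helper129@6c63cff25), VERBATIM.

Route (as in the row): `ϖ` a uniformiser, `T` the finite residue system; by induction on `n` there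
is a finite set `D n` such that every integral `x` is within `exp (-n)` of an element of `D n`
(`D (n+1) = {d + ϖ ^ n * t}`); a system of representatives `B` of `𝒪 / ϖⁿ` injects into `D n` by
the uniqueness clause of `IsReprMod`.  Only the fields `unif` and `residue` (covering part) of
`IsLocalField` are used.
-/

set_option autoImplicit false

namespace Fermat.Agent.LT.T6.H437

open Fermat.Agent.LT.T6 Fermat.Agent.LT.T6.H847

variable {k : Type} [Field k] [Valued k Γ₀]

/-- In `ℤᵐ⁰`, `x < 1` implies `x ≤ exp (-1)`. -/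
theorem le_exp_neg_one_of_lt_one437 {x : Γ₀} (hx : x < 1) : x ≤ WithZero.exp (-1 : ℤ) := by
  have h := (WithZero.lt_mul_exp_iff_le (x := x) (y := WithZero.exp (-1 : ℤ))
    WithZero.exp_ne_zero).mp
  apply h
  rw [← WithZero.exp_add]
  simpa using hx

/-- Finite `exp (-n)`-nets of the ring of integers. -/
theorem exists_net437 (ϖ : k) (hϖ : Valued.v ϖ = WithZero.exp (-1 : ℤ)) (T : Finset k)
    (hT : ∀ z : k, Valued.v z ≤ 1 → ∃ x ∈ T, Valued.v (z - x) < 1) (n : ℕ) :
    ∃ D : Finset k, ∀ x : k, Valued.v x ≤ 1 →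
      ∃ d ∈ D, Valued.v (x - d) ≤ WithZero.exp (-(n : ℤ)) := by
  classical
  induction n with
  | zero =>
    refine ⟨{0}, fun x hx => ⟨0, by simp, ?_⟩⟩
    simpa using hx
  | succ n ih =>
    obtain ⟨D, hD⟩ := ih
    refine ⟨(D ×ˢ T).image (fun p => p.1 + ϖ ^ n * p.2), fun x hx => ?_⟩
    obtain ⟨d, hd, hxd⟩ := hD x hx
    have hϖ0 : ϖ ≠ 0 := by
      intro h
      rw [h, map_zero] at hϖ
      exact WithZero.exp_ne_zero hϖ.symm
    have hpow0 : ϖ ^ n ≠ 0 := pow_ne_zero n hϖ0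
    have hvn : Valued.v (ϖ ^ n) = WithZero.exp (-(n : ℤ)) := by
      rw [map_pow, hϖ, ← WithZero.exp_nsmul]
      simp
    have hy1 : Valued.v ((x - d) / ϖ ^ n) ≤ 1 := by
      rw [map_div₀, hvn, div_le_iff₀ WithZero.exp_pos, one_mul]
      exact hxd
    obtain ⟨t, ht, hyt⟩ := hT _ hy1
    refine ⟨d + ϖ ^ n * t,
      Finset.mem_image.mpr ⟨(d, t), Finset.mem_product.mpr ⟨hd, ht⟩, rfl⟩, ?_⟩
    have e : x - (d + ϖ ^ n * t) = ϖ ^ n * ((x - d) / ϖ ^ n - t) := by
      field_simp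
      ring
    rw [e, map_mul, hvn]
    have h1 : Valued.v ((x - d) / ϖ ^ n - t) ≤ WithZero.exp (-1 : ℤ) :=
      le_exp_neg_one_of_lt_one437 hyt
    calc WithZero.exp (-(n : ℤ)) * Valued.v ((x - d) / ϖ ^ n - t)
        ≤ WithZero.exp (-(n : ℤ)) * WithZero.exp (-1 : ℤ) := by gcongr
      _ = WithZero.exp (-((n + 1 : ℕ) : ℤ)) := by
        rw [← WithZero.exp_add]
        congr 1
        push_cast
        ring

/-- **T6.14b.L5**, with the fields of `IsLocalField` that are used. -/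
theorem reprFin_of437 (ϖ : k) (hϖ : Valued.v ϖ = WithZero.exp (-1 : ℤ)) (T : Finset k)
    (hT : ∀ z : k, Valued.v z ≤ 1 → ∃ x ∈ T, Valued.v (z - x) < 1)
    (n : ℕ) (B : Set k) (hB : IsReprMod n B) : B.Finite := by
  classical
  obtain ⟨D, hD⟩ := exists_net437 ϖ hϖ T hT n
  have hex : ∀ b : B, ∃ d ∈ D, Valued.v ((b : k) - d) ≤ WithZero.exp (-(n : ℤ)) :=
    fun b => hD b (hB.1 b b.2)
  choose f hfD hf using hex
  have hinj : Function.Injective (fun b : B => (⟨f b, hfD b⟩ : D)) := by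
    intro b b' hbb
    have hfb : f b = f b' := congrArg Subtype.val hbb
    obtain ⟨c, -, hc⟩ := hB.2 b (hB.1 b b.2)
    have h1 : (b : k) = c := hc b ⟨b.2, by simp⟩
    have h2 : (b' : k) = c := by
      refine hc b' ⟨b'.2, ?_⟩
      have e : (b : k) - b' = ((b : k) - f b) - ((b' : k) - f b') := by
        rw [hfb]
        ring
      rw [e]
      exact (Valuation.map_sub _ _ _).trans (max_le (hf b) (hf b'))
    exact Subtype.ext (h1.trans h2.symm)
  exact Set.finite_coe_iff.mp (Finite.of_injective _ hinj)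

/-- **T6.14b.L5 `ReprFinC129`**, VERBATIM. -/
theorem reprFinC129_holds437 : Fermat.Agent.LT.H129.ReprFinC129 := by
  intro k _ _ q h n B hB
  obtain ⟨ϖ, hϖ⟩ := h.unif
  obtain ⟨T, -, -, -, hT⟩ := h.residue
  exact reprFin_of437 ϖ hϖ T hT n B hB

end Fermat.Agent.LT.T6.H437

end
-- ===== PACK-END LT/T6/H437/ReprFin.lean

-- ===== PACK-BEGIN LT/T6/H459/BallIndex.lean
section


/-!
# Row LT, tower T6, sub-leaf T6.12g.1 `BallIndexC` (helper459, OFF-MAIN)

`[ϖ^{-n} 𝒪 : ϖ^{-n'} 𝒪] = q ^ (n - n')` for `n' ≤ n` in a field with a valuation in `ℤᵐ⁰` which has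
a uniformiser and a residue system of `q` elements (`IsLocalField k q`; completeness and
characteristic zero are not used).

Route: one step `[ball (m+1) : ball m] = q` by the bijection `t ↦ ϖ^{-(m+1)} t` from the residue
system onto the quotient, then multiplicativity of the relative index in towers.

Result: `ballIndexC459 : H288.BallIndexC` (frozen Prop of `H288/IndexSpec.lean`,
sha256 `cba4b102…`).
-/

set_option autoImplicit false

noncomputable section

namespace Fermat.Agent.LT.T6.H459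

open Fermat.Agent.LT.T6 Fermat.Agent.LT.T6.H288

variable {k : Type} [Field k] [Valued k Γ₀]

/-- In `ℤᵐ⁰`: `γ < 1 ↔ γ ≤ exp (-1)`. -/
theorem lt_one_iff_le_exp459 (γ : Γ₀) : γ < 1 ↔ γ ≤ WithZero.exp (-1 : ℤ) := by
  rcases eq_or_ne γ 0 with rfl | h
  · constructor
    · intro _
      exact zero_le
    · intro _
      exact zero_lt_one
  · obtain ⟨a, rfl⟩ : ∃ a : ℤ, γ = WithZero.exp a :=
      ⟨WithZero.log γ, (WithZero.exp_log h).symm⟩
    rw [← WithZero.exp_zero (M := ℤ), WithZero.exp_lt_exp, WithZero.exp_le_exp]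
    omega

theorem mem_ball459 (n : ℤ) (x : k) : x ∈ ball k n ↔ Valued.v x ≤ WithZero.exp n := Iff.rfl

theorem ball_mono459 {n n' : ℤ} (h : n' ≤ n) : ball k n' ≤ ball k n :=
  fun _ hx => le_trans hx (WithZero.exp_le_exp.2 h)

/-- **One step**: `[ball (m + 1) : ball m] = q`. -/
theorem ball_relIndex_succ459 (q : ℕ) (hk : IsLocalField k q) (m : ℤ) :
    (ball k m).relIndex (ball k (m + 1)) = q := by
  obtain ⟨ϖ, hϖ⟩ := hk.unif
  obtain ⟨T, hT, hT1, hTne, hTs⟩ := hk.residue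
  have hϖ0 : ϖ ≠ 0 := by
    intro h
    rw [h, map_zero] at hϖ
    exact WithZero.exp_ne_zero hϖ.symm
  -- the scaling element
  obtain ⟨a, ha0, hva⟩ : ∃ a : k, a ≠ 0 ∧ Valued.v a = WithZero.exp (m + 1) := by
    refine ⟨ϖ ^ (-(m + 1)), zpow_ne_zero _ hϖ0, ?_⟩
    rw [map_zpow₀, hϖ, ← WithZero.exp_zsmul]
    congr 1
    simp
  have hmem : ∀ t ∈ T, a * t ∈ ball k (m + 1) := by
    intro t ht
    rw [mem_ball459, map_mul, hva]
    calc WithZero.exp (m + 1) * Valued.v t ≤ WithZero.exp (m + 1) * 1 := by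
          gcongr
          exact hT1 t ht
      _ = WithZero.exp (m + 1) := mul_one _
  rw [AddSubgroup.relIndex, AddSubgroup.index_eq_card, ← hT, ← Nat.card_eq_finsetCard T]
  symm
  refine Nat.card_congr (Equiv.ofBijective
    (fun t : T => (QuotientAddGroup.mk (⟨a * (t : k), hmem t t.2⟩ : ball k (m + 1)) :
      ball k (m + 1) ⧸ (ball k m).addSubgroupOf (ball k (m + 1)))) ⟨?_, ?_⟩)
  · -- injective
    rintro ⟨t, ht⟩ ⟨t', ht'⟩ h
    have h1 := QuotientAddGroup.eq.1 h
    rw [AddSubgroup.mem_addSubgroupOf] at h1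
    have h2 : Valued.v (-(a * t) + a * t') ≤ WithZero.exp m := h1
    have h3 : -(a * t) + a * t' = a * (t' - t) := by ring
    rw [h3, map_mul, hva, WithZero.exp_add] at h2
    by_contra hne
    have hne' : t' ≠ t := fun h => hne (by subst h; rfl)
    have h4 := hTne t' ht' t ht hne'
    rw [h4, mul_one] at h2
    have : WithZero.exp m * WithZero.exp (1 : ℤ) ≤ WithZero.exp m * 1 := by
      rw [mul_one]
      exact h2
    rw [← WithZero.exp_add, mul_one, WithZero.exp_le_exp] at this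
    omega
  · -- surjective
    intro x
    induction x using QuotientAddGroup.induction_on with
    | H x =>
      obtain ⟨x, hx⟩ := x
      have hx' : Valued.v x ≤ WithZero.exp (m + 1) := hx
      have hz : Valued.v (a⁻¹ * x) ≤ 1 := by
        rw [map_mul, map_inv₀, hva]
        calc (WithZero.exp (m + 1))⁻¹ * Valued.v x
            ≤ (WithZero.exp (m + 1))⁻¹ * WithZero.exp (m + 1) := by
              gcongr
          _ = 1 := inv_mul_cancel₀ WithZero.exp_ne_zero
      obtain ⟨t, ht, htz⟩ := hTs _ hz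
      refine ⟨⟨t, ht⟩, ?_⟩
      rw [QuotientAddGroup.eq, AddSubgroup.mem_addSubgroupOf]
      show Valued.v (-(a * t) + x) ≤ WithZero.exp m
      have h3 : -(a * t) + x = a * (a⁻¹ * x - t) := by
        field_simp
        ring
      rw [h3, map_mul, hva]
      have h5 := (lt_one_iff_le_exp459 _).1 htz
      calc WithZero.exp (m + 1) * Valued.v (a⁻¹ * x - t)
          ≤ WithZero.exp (m + 1) * WithZero.exp (-1 : ℤ) := by
            gcongr
        _ = WithZero.exp m := by
            rw [← WithZero.exp_add]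
            congr 1
            ring

/-- `[ball (n' + d) : ball n'] = q ^ d`. -/
theorem ball_relIndex_add459 (q : ℕ) (hk : IsLocalField k q) (n' : ℤ) (d : ℕ) :
    (ball k n').relIndex (ball k (n' + d)) = q ^ d := by
  induction d with
  | zero =>
    simp only [Nat.cast_zero, add_zero, pow_zero]
    exact AddSubgroup.relIndex_self _
  | succ d ih =>
    have h1 : ball k n' ≤ ball k (n' + d) := ball_mono459 (by omega)
    have h2 : ball k (n' + d) ≤ ball k (n' + (d + 1 : ℕ)) := ball_mono459 (by push_cast; omega)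
    have h3 := AddSubgroup.relIndex_mul_relIndex _ _ _ h1 h2
    have h4 : (ball k (n' + d)).relIndex (ball k (n' + (d + 1 : ℕ))) = q := by
      have := ball_relIndex_succ459 q hk (n' + d)
      have e : n' + (d + 1 : ℕ) = n' + d + 1 := by push_cast; ring
      rw [e]
      exact this
    rw [← h3, ih, h4, pow_succ]

/-- **T6.12g.1 `BallIndexC`.** -/
theorem ballIndexC459 : BallIndexC := by
  intro k _ _ q hk n n' h
  have e : n = n' + ((n - n').toNat : ℤ) := by
    rw [Int.toNat_of_nonneg (by omega)]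
    ring
  conv_lhs => rw [e]
  exact ball_relIndex_add459 q hk n' _

end Fermat.Agent.LT.T6.H459

end

end
-- ===== PACK-END LT/T6/H459/BallIndex.lean

-- ===== PACK-BEGIN LT/T6/H770/CoeffCompareClosed.lean
section



/-!
# Row LT, tower T6, leaf T6.12b `CoeffCompareC` CLOSED (helper770), OFF-MAIN

`coeffCompareC770 : H288.CoeffCompareC`, unconditional:
`coeffCompare_of_satClosed770` (this directory) applied to `H569.satClosed569`
(helper569, `T6/H569/SatClosed.lean`, sha256 `d2c1e745…`, byte-identical copy).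
-/

set_option autoImplicit false

namespace Fermat.Agent.LT.T6.H770

open Fermat.Agent.LT.T6 Fermat.Agent.LT.T6.H288

/-- **T6.12b** `CoeffCompareC`, unconditional. -/
theorem coeffCompareC770 : CoeffCompareC :=
  coeffCompare_of_satClosed770 Fermat.Agent.LT.T6.H569.satClosed569

end Fermat.Agent.LT.T6.H770

end
-- ===== PACK-END LT/T6/H770/CoeffCompareClosed.lean

-- ===== PACK-BEGIN LT/T6/H623/FamEquiv.lean
section



/-!
# Row LT, tower T6, leaf T6.20a, SPARE route of helper623: equivariance of the family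

`SO(2)` acts on `A = holPart` and on `B` by phases; a phase on `B` conjugates `y(g, V)` by
`diag(e, 1) ∈ U(2)`.  No hypothesis, no hole.
-/

set_option autoImplicit false

open scoped Matrix ContDiff
open MeasureTheory

noncomputable section

namespace Fermat.Agent.LT.T6.H623

open Fermat.Agent.LT.T6

/-! ## 1. `SO(2)` -/

/-- The entries of a rotation. -/
theorem inSO2_entries {k : GL (Fin 2) ℝ} (hk : InSO2 k) :
    (k : Matrix (Fin 2) (Fin 2) ℝ) 1 1 = (k : Matrix (Fin 2) (Fin 2) ℝ) 0 0 ∧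
    (k : Matrix (Fin 2) (Fin 2) ℝ) 1 0 = -(k : Matrix (Fin 2) (Fin 2) ℝ) 0 1 ∧
    (k : Matrix (Fin 2) (Fin 2) ℝ) 0 0 ^ 2 + (k : Matrix (Fin 2) (Fin 2) ℝ) 0 1 ^ 2 = 1 := by
  obtain ⟨h1, h2⟩ := hk
  set K := (k : Matrix (Fin 2) (Fin 2) ℝ) with hK
  have e00 : K 0 0 * K 0 0 + K 0 1 * K 0 1 = 1 := by
    have := congrFun (congrFun h1 0) 0
    simpa [Matrix.mul_apply, Fin.sum_univ_two, Matrix.transpose_apply] using this
  have e11 : K 1 0 * K 1 0 + K 1 1 * K 1 1 = 1 := by
    have := congrFun (congrFun h1 1) 1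
    simpa [Matrix.mul_apply, Fin.sum_univ_two, Matrix.transpose_apply] using this
  have ed : K 0 0 * K 1 1 - K 0 1 * K 1 0 = 1 := by
    rw [Matrix.det_fin_two] at h2; exact h2
  have hz : (K 0 0 - K 1 1) ^ 2 + (K 0 1 + K 1 0) ^ 2 = 0 := by
    linear_combination e00 + e11 - 2 * ed
  have hz1 : (K 0 0 - K 1 1) ^ 2 = 0 := by
    nlinarith [sq_nonneg (K 0 0 - K 1 1), sq_nonneg (K 0 1 + K 1 0)]
  have hz2 : (K 0 1 + K 1 0) ^ 2 = 0 := by
    nlinarith [sq_nonneg (K 0 0 - K 1 1), sq_nonneg (K 0 1 + K 1 0)]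
  have a1 : K 0 0 - K 1 1 = 0 := by simpa using hz1
  have a2 : K 0 1 + K 1 0 = 0 := by simpa using hz2
  refine ⟨by linarith, by linarith, by linear_combination e00⟩

theorem holPart_rot {k : GL (Fin 2) ℝ} (hk : InSO2 k) :
    holPart k = ⟨(k : Matrix (Fin 2) (Fin 2) ℝ) 0 0, -(k : Matrix (Fin 2) (Fin 2) ℝ) 0 1⟩ := by
  obtain ⟨h1, h2, -⟩ := inSO2_entries hk
  rw [← aM_eq_holPart]
  apply Complex.ext
  · simp only [aM, h1]; ring
  · simp only [aM, h2]; ring

theorem normSq_holPart_rot {k : GL (Fin 2) ℝ} (hk : InSO2 k) :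
    Complex.normSq (holPart k) = 1 := by
  obtain ⟨-, -, h3⟩ := inSO2_entries hk
  rw [holPart_rot hk, Complex.normSq_mk]
  linear_combination h3

theorem holPart_rot_ne_zero {k : GL (Fin 2) ℝ} (hk : InSO2 k) : holPart k ≠ 0 := by
  intro h
  have := normSq_holPart_rot hk
  rw [h] at this
  simp at this

theorem dM_rot_mul {k : GL (Fin 2) ℝ} (hk : InSO2 k) (g : GL (Fin 2) ℝ) :
    dM ((k * g : GL (Fin 2) ℝ) : Matrix (Fin 2) (Fin 2) ℝ) = dM (g : Matrix (Fin 2) (Fin 2) ℝ) := by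
  unfold dM
  rw [Units.val_mul, Matrix.det_mul, hk.2, one_mul]

theorem dM_mul_rot {k : GL (Fin 2) ℝ} (hk : InSO2 k) (g : GL (Fin 2) ℝ) :
    dM ((g * k : GL (Fin 2) ℝ) : Matrix (Fin 2) (Fin 2) ℝ) = dM (g : Matrix (Fin 2) (Fin 2) ℝ) := by
  unfold dM
  rw [Units.val_mul, Matrix.det_mul, hk.2, mul_one]

theorem det_rot_mul {k : GL (Fin 2) ℝ} (hk : InSO2 k) (g : GL (Fin 2) ℝ) :
    ((k * g : GL (Fin 2) ℝ) : Matrix (Fin 2) (Fin 2) ℝ).det
      = (g : Matrix (Fin 2) (Fin 2) ℝ).det := by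
  rw [Units.val_mul, Matrix.det_mul, hk.2, one_mul]

theorem det_mul_rot {k : GL (Fin 2) ℝ} (hk : InSO2 k) (g : GL (Fin 2) ℝ) :
    ((g * k : GL (Fin 2) ℝ) : Matrix (Fin 2) (Fin 2) ℝ).det
      = (g : Matrix (Fin 2) (Fin 2) ℝ).det := by
  rw [Units.val_mul, Matrix.det_mul, hk.2, mul_one]

theorem bM_rot_mul {k : GL (Fin 2) ℝ} (hk : InSO2 k) (g : GL (Fin 2) ℝ) :
    bM ((k * g : GL (Fin 2) ℝ) : Matrix (Fin 2) (Fin 2) ℝ)
      = holPart k * bM (g : Matrix (Fin 2) (Fin 2) ℝ) := by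
  obtain ⟨h1, h2, -⟩ := inSO2_entries hk
  rw [holPart_rot hk]
  apply Complex.ext
  · simp only [bM, Units.val_mul, Matrix.mul_apply, Fin.sum_univ_two, Complex.mul_re, h1, h2]
    ring
  · simp only [bM, Units.val_mul, Matrix.mul_apply, Fin.sum_univ_two, Complex.mul_im, h1, h2]
    ring

theorem aM_rot_mul {k : GL (Fin 2) ℝ} (hk : InSO2 k) (g : GL (Fin 2) ℝ) :
    aM ((k * g : GL (Fin 2) ℝ) : Matrix (Fin 2) (Fin 2) ℝ)
      = holPart k * aM (g : Matrix (Fin 2) (Fin 2) ℝ) := by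
  obtain ⟨h1, h2, -⟩ := inSO2_entries hk
  rw [holPart_rot hk]
  apply Complex.ext
  · simp only [aM, Units.val_mul, Matrix.mul_apply, Fin.sum_univ_two, Complex.mul_re, h1, h2]
    ring
  · simp only [aM, Units.val_mul, Matrix.mul_apply, Fin.sum_univ_two, Complex.mul_im, h1, h2]
    ring

theorem bM_mul_rot {k : GL (Fin 2) ℝ} (hk : InSO2 k) (g : GL (Fin 2) ℝ) :
    bM ((g * k : GL (Fin 2) ℝ) : Matrix (Fin 2) (Fin 2) ℝ)
      = (starRingEnd ℂ) (holPart k) * bM (g : Matrix (Fin 2) (Fin 2) ℝ) := by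
  obtain ⟨h1, h2, -⟩ := inSO2_entries hk
  rw [holPart_rot hk]
  apply Complex.ext
  · simp only [bM, Units.val_mul, Matrix.mul_apply, Fin.sum_univ_two, Complex.mul_re, h1, h2,
      Complex.conj_re, Complex.conj_im]
    ring
  · simp only [bM, Units.val_mul, Matrix.mul_apply, Fin.sum_univ_two, Complex.mul_im, h1, h2,
      Complex.conj_re, Complex.conj_im]
    ring

theorem aM_mul_rot {k : GL (Fin 2) ℝ} (hk : InSO2 k) (g : GL (Fin 2) ℝ) :
    aM ((g * k : GL (Fin 2) ℝ) : Matrix (Fin 2) (Fin 2) ℝ)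
      = holPart k * aM (g : Matrix (Fin 2) (Fin 2) ℝ) := by
  obtain ⟨h1, h2, -⟩ := inSO2_entries hk
  rw [holPart_rot hk]
  apply Complex.ext
  · simp only [aM, Units.val_mul, Matrix.mul_apply, Fin.sum_univ_two, Complex.mul_re, h1, h2]
    ring
  · simp only [aM, Units.val_mul, Matrix.mul_apply, Fin.sum_univ_two, Complex.mul_im, h1, h2]
    ring

/-! ## 2. A phase on `B` is a conjugation by `diag(e, 1)` -/

/-- `diag(e, 1)` for `e ≠ 0`. -/
def phaseG (e : ℂ) (he : e ≠ 0) : GL (Fin 2) ℂ :=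
  Matrix.GeneralLinearGroup.mkOfDetNeZero !![e, 0; 0, 1]
    (by rw [Matrix.det_fin_two_of]; simpa using he)

theorem inU2_phaseG (e : ℂ) (he : e ≠ 0) (h1 : Complex.normSq e = 1) : InU2 (phaseG e he) := by
  have hc : e * (starRingEnd ℂ) e = 1 := by
    rw [Complex.mul_conj, h1]; simp
  unfold InU2 phaseG
  ext i j
  fin_cases i <;> fin_cases j <;>
    simp [Matrix.GeneralLinearGroup.mkOfDetNeZero, Matrix.mul_apply, Fin.sum_univ_two,
      Matrix.conjTranspose_apply, hc]

/-- The matrices of the family for two data with the same `|det|` and `B' = e B`, `|e| = 1`. -/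
theorem yM_phase {M M' : Matrix (Fin 2) (Fin 2) ℝ} (e : ℂ) (h1 : Complex.normSq e = 1)
    (hd : dM M' = dM M) (hb : bM M' = e * bM M) (V : ℝ) :
    yM M' V = !![e, 0; 0, 1] * yM M V * !![(starRingEnd ℂ) e, 0; 0, 1] := by
  have hc : e * (starRingEnd ℂ) e = 1 := by
    rw [Complex.mul_conj, h1]; simp
  have hs : sM M' = sM M := by
    unfold sM
    rw [hd, hb, Complex.normSq_mul, h1, one_mul]
  have hx : xM M' V = xM M V := by unfold xM; rw [hs]
  have hσ : σM M' V = σM M V := by unfold σM; rw [hd, hx]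
  unfold yM
  rw [hσ, hx, hd, hb]
  ext i j
  fin_cases i <;> fin_cases j
  · simp only [Matrix.mul_apply, Fin.sum_univ_two, Matrix.of_apply, Matrix.cons_val',
      Matrix.cons_val_zero, Matrix.cons_val_one, Matrix.cons_val_fin_one, Fin.zero_eta]
    linear_combination (-(((σM M V * (xM M V + 1 + V) : ℝ) : ℂ))) * hc
  · simp [Matrix.mul_apply, Fin.sum_univ_two]
    ring
  · simp [Matrix.mul_apply, Fin.sum_univ_two]
    ring
  · simp [Matrix.mul_apply, Fin.sum_univ_two]

/-- **Phase invariance**: for a bi-`U(2)`-invariant `φ`, the value `φ (y(g, V))` depends on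
`|det g|` and on `B` up to a phase only. -/
theorem phi_yG_phase (φ : GL (Fin 2) ℂ → ℂ)
    (hl : ∀ k g : GL (Fin 2) ℂ, InU2 k → φ (k * g) = φ g)
    (hr : ∀ k g : GL (Fin 2) ℂ, InU2 k → φ (g * k) = φ g)
    {g g' : GL (Fin 2) ℝ} (e : ℂ) (h1 : Complex.normSq e = 1)
    (hd : dM (g' : Matrix (Fin 2) (Fin 2) ℝ) = dM (g : Matrix (Fin 2) (Fin 2) ℝ))
    (hb : bM (g' : Matrix (Fin 2) (Fin 2) ℝ) = e * bM (g : Matrix (Fin 2) (Fin 2) ℝ)) (V : ℝ) :
    φ (yG g' V) = φ (yG g V) := by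
  have he : e ≠ 0 := by
    intro h; rw [h] at h1; simp at h1
  have he' : (starRingEnd ℂ) e ≠ 0 := by simpa using he
  have h1' : Complex.normSq ((starRingEnd ℂ) e) = 1 := by rw [Complex.normSq_conj]; exact h1
  have key : yG g' V = phaseG e he * yG g V * phaseG ((starRingEnd ℂ) e) he' := by
    apply Units.ext
    rw [Units.val_mul, Units.val_mul, coe_yG, coe_yG]
    exact yM_phase e h1 hd hb V
  rw [key, hr _ _ (inU2_phaseG _ he' h1'), hl _ _ (inU2_phaseG _ he h1)]

end Fermat.Agent.LT.T6.H623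

end

end
-- ===== PACK-END LT/T6/H623/FamEquiv.lean

-- ===== PACK-BEGIN LT/T6/H863/Transfer.lean
section




/-!
# Row LT, tower T6, leaf T6.16 (`SplitMatchC`) -- helper863, OFF-MAIN

Part 5: transfer of the unfolding of Part 4 from sequences to `G^l = Fin l → G`, invariance of
the pure tensor `Φ` and of `cIndex` under twisted conjugation.

* `exists_fibre_reps_863` : for every `z` there is a full system `P` of representatives modulo
  `U₁` of the `y ∈ G^l` of norm `z` with `Φ y ≠ 0`, and `f z = ∑_{y ∈ P} Φ y`;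
* `tensor_act_863` : `Φ (u⁻¹ y s(u)) = Φ y` for `u ∈ U^l`;
* `cIndex_act_863` : `cIndex (u⁻¹ y s(u)) = cIndex y` for `u ∈ U^l`.

Mathlib + `T6/Spec.lean` (frozen) only; every proof is complete.
-/

set_option autoImplicit false

open scoped Classical

noncomputable section

namespace Fermat.Agent.LT.T6.H863

open Fermat.Agent.LT.T6

variable {G : Type} [Group G] {l : ℕ} [NeZero l]

/-- A tuple as a sequence (extended by `1`). -/
def seq863 (y : Fin l → G) : ℕ → G := fun j => if h : j < l then y ⟨j, h⟩ else 1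

/-- The restriction of a sequence to a tuple. -/
def res863 (l : ℕ) (a : ℕ → G) : Fin l → G := fun j => a j

omit [NeZero l] in
theorem seq863_val (y : Fin l → G) (j : Fin l) : seq863 y (j : ℕ) = y j := by
  unfold seq863
  rw [dif_pos j.2]

omit [NeZero l] in
theorem seq863_ge (y : Fin l → G) (j : ℕ) (hj : l ≤ j) : seq863 y j = 1 := by
  unfold seq863
  rw [dif_neg (by omega)]

omit [NeZero l] in
theorem res_seq_863 (y : Fin l → G) : res863 l (seq863 y) = y := by
  funext j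
  exact seq863_val y j

omit [NeZero l] in
theorem seq_res_863 (a : ℕ → G) (ha : ∀ j, l ≤ j → a j = 1) : seq863 (res863 l a) = a := by
  funext j
  by_cases hj : j < l
  · unfold seq863
    rw [dif_pos hj]
    rfl
  · rw [seq863_ge _ _ (by omega), ha j (by omega)]

theorem ofNat_val_863 (j : ℕ) (hj : j < l) : Fin.ofNat l j = ⟨j, hj⟩ := by
  apply Fin.ext
  simp [Fin.ofNat, Nat.mod_eq_of_lt hj]

theorem pq_eq_ppS_863 (y : Fin l → G) (j : ℕ) (hj : j ≤ l) : pq863 y j = ppS863 j (seq863 y) := by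
  induction j with
  | zero => rfl
  | succ j ih =>
    have hj' : j < l := hj
    rw [pq863_succ, ppS863_succ, ih (Nat.le_of_lt hj'), ofNat_val_863 j hj']
    congr 1
    exact (seq863_val y ⟨j, hj'⟩).symm

theorem nm_eq_ppS_863 (y : Fin l → G) : nm863 y = ppS863 l (seq863 y) :=
  pq_eq_ppS_863 y l le_rfl

/-- The pure tensor `Φ y = ∏_j φ_j (y_j)`. -/
def tensor863 (φ : ℕ → G → ℂ) (l : ℕ) (y : Fin l → G) : ℂ := ∏ j : Fin l, φ (j : ℕ) (y j)

omit [NeZero l] in
theorem tensor_eq_wtS_863 (φ : ℕ → G → ℂ) (y : Fin l → G) :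
    tensor863 φ l y = wtS863 φ l (seq863 y) := by
  unfold tensor863 wtS863
  rw [Finset.prod_range (fun j => φ j (seq863 y j))]
  refine Finset.prod_congr rfl (fun j _ => ?_)
  rw [seq863_val]

/-- Twisted equivalence modulo `U₁` in terms of sequences. -/
theorem twEq1_iff_eqS_863 (U : Subgroup G) (y y' : Fin l → G) :
    TwEq1863 U y y' ↔ EqS863 U l (seq863 y) (seq863 y') := by
  have hl : 0 < l := Nat.pos_of_ne_zero (NeZero.ne l)
  have h0val : ((0 : Fin l) : ℕ) = 0 := by simp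
  constructor
  · rintro ⟨u, huU, hu0, rfl⟩
    have hX : seq863 u l = seq863 u 0 := by
      rw [seq863_ge u l le_rfl]
      have := seq863_val u 0
      rw [h0val] at this
      rw [this, hu0]
    refine ⟨seq863 u, ?_, ?_, seq863_ge u l le_rfl, ?_⟩
    · intro j
      unfold seq863
      split_ifs
      · exact huU _
      · exact U.one_mem
    · have := seq863_val u 0
      rw [h0val] at this
      rw [this, hu0]
    · intro j hj
      have h1 := seq863_val (act863 u y) ⟨j, hj⟩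
      have h2 := seq863_val y ⟨j, hj⟩
      have h3 := seq863_val u ⟨j, hj⟩
      have h4 := wrap863 (seq863 u) hX ⟨j, hj⟩
      have h5 := seq863_val u (⟨j, hj⟩ + 1)
      simp only [] at h1 h2 h3 h4 h5
      rw [h1, h2, h3, ← h4, h5]
      rfl
  · rintro ⟨u, huU, hu0, huL, hu⟩
    have hX : u l = u 0 := by rw [huL, hu0]
    refine ⟨res863 l u, fun j => huU _, ?_, ?_⟩
    · show u ((0 : Fin l) : ℕ) = 1
      rw [h0val, hu0]
    · funext j
      have h1 := hu (j : ℕ) j.2
      rw [seq863_val, seq863_val] at h1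
      rw [h1]
      show _ = (res863 l u j)⁻¹ * y j * res863 l u (j + 1)
      show _ = (u (j : ℕ))⁻¹ * y j * u ((j + 1 : Fin l) : ℕ)
      rw [wrap863 u hX j]

section Chain

variable (U : Subgroup G) (φ : ℕ → G → ℂ)
  (hbi : ∀ j, IsBiInv (fun g => g ∈ U) (φ j))
  (hfs : ∀ j, HasFinSupp (fun g => g ∈ U) (φ j))

include hbi in
/-- The pure tensor is invariant under twisted conjugation by `U^l`. -/
theorem tensor_act_863 (u y : Fin l → G) (hu : ∀ j, u j ∈ U) :
    tensor863 φ l (act863 u y) = tensor863 φ l y := by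
  unfold tensor863
  refine Finset.prod_congr rfl (fun j _ => ?_)
  show φ j ((u j)⁻¹ * y j * u (j + 1)) = φ j (y j)
  exact hbi j (u j)⁻¹ (u (j + 1)) (y j) (U.inv_mem (hu j)) (hu _)

include hbi hfs in
/-- **The fibre of the norm.** -/
theorem exists_fibre_reps_863 (f : G → ℂ) (hf : IsConvProd (fun g => g ∈ U) l φ f) (z : G) :
    ∃ P : Finset (Fin l → G), (∀ y ∈ P, nm863 y = z) ∧ (∀ y ∈ P, tensor863 φ l y ≠ 0) ∧
      IsIneq863 (TwEq1863 U) P ∧
      (∀ y, nm863 y = z → tensor863 φ l y ≠ 0 → ∃ y' ∈ P, TwEq1863 U y y') ∧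
      f z = ∑ y ∈ P, tensor863 φ l y := by
  have hl : 0 < l := Nat.pos_of_ne_zero (NeZero.ne l)
  obtain ⟨χ, hχ0, hχ, rfl⟩ := hf
  obtain ⟨P, hP, hsum⟩ := exists_factor_reps_863 U φ hbi hfs l χ hχ0 hχ (l - 1) (by omega) z
  have hl1 : l - 1 + 1 = l := by omega
  rw [hl1] at hP hsum
  have hsr : ∀ a ∈ P, seq863 (res863 l a) = a := fun a ha => seq_res_863 a (hP.junk a ha)
  refine ⟨P.image (res863 l), ?_, ?_, ?_, ?_, ?_⟩
  · intro y hy
    obtain ⟨a, ha, rfl⟩ := Finset.mem_image.mp hy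
    rw [nm_eq_ppS_863, hsr a ha]
    exact hP.prod a ha
  · intro y hy
    obtain ⟨a, ha, rfl⟩ := Finset.mem_image.mp hy
    rw [tensor_eq_wtS_863, hsr a ha]
    exact hP.wt a ha
  · intro y hy y' hy' hyy'
    obtain ⟨a, ha, rfl⟩ := Finset.mem_image.mp hy
    obtain ⟨b, hb, rfl⟩ := Finset.mem_image.mp hy'
    rw [twEq1_iff_eqS_863, hsr a ha, hsr b hb] at hyy'
    rw [hP.ineq a ha b hb hyy']
  · intro y hy hΦ
    rw [nm_eq_ppS_863] at hy
    rw [tensor_eq_wtS_863] at hΦ
    obtain ⟨b, hb, hyb⟩ := hP.cover (seq863 y) hy hΦ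
    refine ⟨res863 l b, Finset.mem_image.mpr ⟨b, hb, rfl⟩, ?_⟩
    rw [twEq1_iff_eqS_863, hsr b hb]
    exact hyb
  · rw [hsum, Finset.sum_image]
    · refine Finset.sum_congr rfl (fun a ha => ?_)
      rw [tensor_eq_wtS_863, hsr a ha]
    · intro a ha b hb hab
      rw [← hsr a ha, ← hsr b hb, hab]

end Chain

/-- **Invariance of `cIndex`** under twisted conjugation by `U^l`. -/
theorem cIndex_act_863 {U : Subgroup G} {Cpt : G → Prop} (hC : CptData863 U Cpt)
    (u y : Fin l → G) (hu : ∀ j, u j ∈ U) :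
    cIndex (fun u : Fin l → G => ∀ j, u j ∈ U)
        (fun y t => t⁻¹ * y * shift863 l t = y ∧ ∀ j, Cpt (t j)) (act863 u y)
      = cIndex (fun u : Fin l → G => ∀ j, u j ∈ U)
          (fun y t => t⁻¹ * y * shift863 l t = y ∧ ∀ j, Cpt (t j)) y := by
  unfold cIndex
  set S : Set (Set (Fin l → G)) := {c | ∃ t : Fin l → G,
    (t⁻¹ * y * shift863 l t = y ∧ ∀ j, Cpt (t j)) ∧
      c = {g | ∃ w : Fin l → G, (∀ j, w j ∈ U) ∧ g = t * w}} with hS
  set S' : Set (Set (Fin l → G)) := {c | ∃ t : Fin l → G,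
    (t⁻¹ * act863 u y * shift863 l t = act863 u y ∧ ∀ j, Cpt (t j)) ∧
      c = {g | ∃ w : Fin l → G, (∀ j, w j ∈ U) ∧ g = t * w}} with hS'
  have himg : S' = (fun c : Set (Fin l → G) => (fun g => u⁻¹ * g) '' c) '' S := by
    ext c
    constructor
    · rintro ⟨t, ⟨ht1, ht2⟩, rfl⟩
      refine ⟨{g | ∃ w : Fin l → G, (∀ j, w j ∈ U) ∧ g = (u * t * u⁻¹) * w},
        ⟨u * t * u⁻¹, ⟨?_, ?_⟩, rfl⟩, ?_⟩
      · have h1 : act863 (u * t * u⁻¹) y = y := by
          rw [act863_mul, act863_mul]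
          have : act863 t (act863 u y) = act863 u y := ht1
          rw [this, act863_inv]
        exact h1
      · intro j
        have := hC.conj (u j)⁻¹ (t j) (ht2 j)
        simpa using this
      · ext g
        constructor
        · rintro ⟨g', ⟨w, hw, rfl⟩, rfl⟩
          refine ⟨u⁻¹ * w, fun j => U.mul_mem (U.inv_mem (hu j)) (hw j), ?_⟩
          show u⁻¹ * (u * t * u⁻¹ * w) = t * (u⁻¹ * w)
          group
        · rintro ⟨w, hw, rfl⟩
          refine ⟨u * t * u⁻¹ * (u * w), ⟨u * w, fun j => U.mul_mem (hu j) (hw j), rfl⟩, ?_⟩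
          show u⁻¹ * (u * t * u⁻¹ * (u * w)) = t * w
          group
    · rintro ⟨c', ⟨t, ⟨ht1, ht2⟩, rfl⟩, rfl⟩
      refine ⟨u⁻¹ * t * u, ⟨?_, ?_⟩, ?_⟩
      · have h1 : act863 (u⁻¹ * t * u) (act863 u y) = act863 u y := by
          rw [← act863_mul]
          have : u * (u⁻¹ * t * u) = t * u := by group
          rw [this, act863_mul]
          have h2 : act863 t y = y := ht1
          rw [h2]
        exact h1
      · intro j
        exact hC.conj (u j) (t j) (ht2 j)
      · ext g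
        constructor
        · rintro ⟨g', ⟨w, hw, rfl⟩, rfl⟩
          refine ⟨u⁻¹ * w, fun j => U.mul_mem (U.inv_mem (hu j)) (hw j), ?_⟩
          show u⁻¹ * (t * w) = u⁻¹ * t * u * (u⁻¹ * w)
          group
        · rintro ⟨w, hw, rfl⟩
          refine ⟨t * (u * w), ⟨u * w, fun j => U.mul_mem (hu j) (hw j), rfl⟩, ?_⟩
          show u⁻¹ * (t * (u * w)) = u⁻¹ * t * u * w
          group
  have hinj : Function.Injective (fun c : Set (Fin l → G) => (fun g => u⁻¹ * g) '' c) :=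
    Set.image_injective.mpr (mul_right_injective u⁻¹)
  show S'.ncard = S.ncard
  rw [himg, Set.ncard_image_of_injective _ hinj]

end Fermat.Agent.LT.T6.H863

end

end
-- ===== PACK-END LT/T6/H863/Transfer.lean

-- ===== PACK-BEGIN LT/T6/H263/MtCont.lean
section


/-!
# Row LT, tower T6, leaf T6.22.A1 `MtContC888` (helper263), OFF-MAIN

`mtContC263 : H888.MtContC888`, the frozen Prop of `LT/T6/H888/ArchClassSpec.lean` (helper888,
sha256 9a3f1734; byte-identical copy, with `LT/T6/SpecArch.lean` 003240b2 and `LT/T6/Spec.lean`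
v3 8c5f2ae7 of helper22).  Mathlib only otherwise.

Proof.  `Y t θ = k_θ diag(e^{t/2}, e^{-t/2}) k_θ⁻¹` is a jointly continuous map `ℝ × ℝ → GL₂(ℝ)`
(units topology), `Y 0 θ = 1`.  For `e x₀ ≠ 0` put `M t = ∫₀^{2π} e (x₀ Y t θ) dθ`, continuous on
`ℝ` (parametric interval integral), `M 0 = 2π e x₀`, and `M t = 2π m(t) e x₀` for `t > 0`.  So
`mtOf888 n m = M / (2π e x₀) / nrm888 n` on `[0, ∞)`.
-/

set_option autoImplicit false

open MeasureTheory

noncomputable section

namespace Fermat.Agent.LT.T6.H263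

open Fermat.Agent.LT.T6 Fermat.Agent.LT.T6.H888

theorem rot_mul263 (θ : ℝ) :
    (!![Real.cos θ, -Real.sin θ; Real.sin θ, Real.cos θ] : Matrix (Fin 2) (Fin 2) ℝ)
      * !![Real.cos θ, Real.sin θ; -Real.sin θ, Real.cos θ] = 1 := by
  have h := Real.cos_sq_add_sin_sq θ
  rw [Matrix.mul_fin_two, Matrix.one_fin_two]
  ext i j
  fin_cases i <;> fin_cases j <;> simp <;> first | ring1 | linear_combination h

theorem rot_mul263' (θ : ℝ) :
    (!![Real.cos θ, Real.sin θ; -Real.sin θ, Real.cos θ] : Matrix (Fin 2) (Fin 2) ℝ)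
      * !![Real.cos θ, -Real.sin θ; Real.sin θ, Real.cos θ] = 1 := by
  have h := Real.cos_sq_add_sin_sq θ
  rw [Matrix.mul_fin_two, Matrix.one_fin_two]
  ext i j
  fin_cases i <;> fin_cases j <;> simp <;> first | ring1 | linear_combination h

theorem diag_mul263 (t : ℝ) :
    (!![Real.exp (t / 2), 0; 0, Real.exp (-(t / 2))] : Matrix (Fin 2) (Fin 2) ℝ)
      * !![Real.exp (-(t / 2)), 0; 0, Real.exp (t / 2)] = 1 := by
  have h1 : Real.exp (t / 2) * Real.exp (-(t / 2)) = 1 := by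
    rw [← Real.exp_add, add_neg_cancel, Real.exp_zero]
  have h2 : Real.exp (-(t / 2)) * Real.exp (t / 2) = 1 := by
    rw [mul_comm]
    exact h1
  rw [Matrix.mul_fin_two, Matrix.one_fin_two]
  ext i j
  fin_cases i <;> fin_cases j <;> simp [h1, h2]

theorem diag_mul263' (t : ℝ) :
    (!![Real.exp (-(t / 2)), 0; 0, Real.exp (t / 2)] : Matrix (Fin 2) (Fin 2) ℝ)
      * !![Real.exp (t / 2), 0; 0, Real.exp (-(t / 2))] = 1 := by
  have h1 : Real.exp (t / 2) * Real.exp (-(t / 2)) = 1 := by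
    rw [← Real.exp_add, add_neg_cancel, Real.exp_zero]
  have h2 : Real.exp (-(t / 2)) * Real.exp (t / 2) = 1 := by
    rw [mul_comm]
    exact h1
  rw [Matrix.mul_fin_two, Matrix.one_fin_two]
  ext i j
  fin_cases i <;> fin_cases j <;> simp [h1, h2]

/-- The rotation `k_θ` as an element of `GL₂(ℝ)`. -/
def rotG263 (θ : ℝ) : GL (Fin 2) ℝ :=
  ⟨!![Real.cos θ, -Real.sin θ; Real.sin θ, Real.cos θ],
    !![Real.cos θ, Real.sin θ; -Real.sin θ, Real.cos θ], rot_mul263 θ, rot_mul263' θ⟩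

/-- The diagonal element `diag(e^{t/2}, e^{-t/2})` of `GL₂(ℝ)`. -/
def diagG263 (t : ℝ) : GL (Fin 2) ℝ :=
  ⟨!![Real.exp (t / 2), 0; 0, Real.exp (-(t / 2))],
    !![Real.exp (-(t / 2)), 0; 0, Real.exp (t / 2)], diag_mul263 t, diag_mul263' t⟩

/-- `Y t θ = k_θ diag(e^{t/2}, e^{-t/2}) k_θ⁻¹`. -/
def circY263 (t θ : ℝ) : GL (Fin 2) ℝ := rotG263 θ * diagG263 t * (rotG263 θ)⁻¹

theorem circY_val263 (t θ : ℝ) :
    ((circY263 t θ : GL (Fin 2) ℝ) : Matrix (Fin 2) (Fin 2) ℝ)
      = !![Real.cos θ, -Real.sin θ; Real.sin θ, Real.cos θ]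
        * !![Real.exp (t / 2), 0; 0, Real.exp (-(t / 2))]
        * !![Real.cos θ, Real.sin θ; -Real.sin θ, Real.cos θ] := rfl

theorem diagG_zero263 : diagG263 0 = 1 := by
  apply Units.ext
  show (!![Real.exp (0 / 2), 0; 0, Real.exp (-(0 / 2))] : Matrix (Fin 2) (Fin 2) ℝ) = 1
  rw [Matrix.one_fin_two]
  simp

theorem circY_zero263 (θ : ℝ) : circY263 0 θ = 1 := by
  unfold circY263
  rw [diagG_zero263, mul_one, mul_inv_cancel]

theorem continuous_rotG263 : Continuous rotG263 := by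
  rw [Units.continuous_iff]
  refine ⟨continuous_matrix (fun i j => ?_), continuous_matrix (fun i j => ?_)⟩
  · show Continuous fun θ : ℝ =>
      (!![Real.cos θ, -Real.sin θ; Real.sin θ, Real.cos θ] : Matrix (Fin 2) (Fin 2) ℝ) i j
    fin_cases i <;> fin_cases j <;> simp <;> fun_prop
  · show Continuous fun θ : ℝ =>
      (!![Real.cos θ, Real.sin θ; -Real.sin θ, Real.cos θ] : Matrix (Fin 2) (Fin 2) ℝ) i j
    fin_cases i <;> fin_cases j <;> simp <;> fun_prop

theorem continuous_diagG263 : Continuous diagG263 := by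
  rw [Units.continuous_iff]
  refine ⟨continuous_matrix (fun i j => ?_), continuous_matrix (fun i j => ?_)⟩
  · show Continuous fun t : ℝ =>
      (!![Real.exp (t / 2), 0; 0, Real.exp (-(t / 2))] : Matrix (Fin 2) (Fin 2) ℝ) i j
    fin_cases i <;> fin_cases j <;> simp <;> fun_prop
  · show Continuous fun t : ℝ =>
      (!![Real.exp (-(t / 2)), 0; 0, Real.exp (t / 2)] : Matrix (Fin 2) (Fin 2) ℝ) i j
    fin_cases i <;> fin_cases j <;> simp <;> fun_prop

theorem continuous_circY263 : Continuous (fun p : ℝ × ℝ => circY263 p.1 p.2) := by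
  unfold circY263
  exact ((continuous_rotG263.comp continuous_snd).mul
    (continuous_diagG263.comp continuous_fst)).mul
      ((continuous_rotG263.comp continuous_snd).inv)

theorem nrm_pos263 (n : ℤ) (t : ℝ) : 0 < nrm888 n t := by
  unfold nrm888
  split_ifs
  · exact one_pos
  · exact Real.cosh_pos _

theorem nrm_zero263 (n : ℤ) : nrm888 n 0 = 1 := by
  unfold nrm888
  split_ifs
  · rfl
  · rw [zero_div, Real.cosh_zero]

theorem continuous_nrm263 (n : ℤ) : Continuous (nrm888 n) := by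
  unfold nrm888
  split_ifs
  · exact continuous_const
  · exact Real.continuous_cosh.comp (continuous_id.div_const 2)

/-- **T6.22.A1 `MtContC888`**, verbatim. -/
theorem mtContC263 : MtContC888 := by
  intro n _ e m h
  obtain ⟨x₀, hx₀⟩ := h.ne
  have hpi : ((2 * Real.pi : ℝ) : ℂ) ≠ 0 := by
    rw [Complex.ofReal_ne_zero]
    positivity
  -- the continuous function `M`
  have hjoint : Continuous (Function.uncurry (fun t θ : ℝ => e (x₀ * circY263 t θ))) :=
    h.cont.comp (continuous_const.mul continuous_circY263)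
  have hM : Continuous (fun t : ℝ => ∫ θ in (0 : ℝ)..(2 * Real.pi), e (x₀ * circY263 t θ)) :=
    intervalIntegral.continuous_parametric_intervalIntegral_of_continuous' hjoint 0 (2 * Real.pi)
  have hM0 : (∫ θ in (0 : ℝ)..(2 * Real.pi), e (x₀ * circY263 0 θ))
      = ((2 * Real.pi : ℝ) : ℂ) * e x₀ := by
    simp only [circY_zero263, mul_one]
    rw [intervalIntegral.integral_const, sub_zero, Complex.real_smul]
  have hMt : ∀ t : ℝ, 0 < t → (∫ θ in (0 : ℝ)..(2 * Real.pi), e (x₀ * circY263 t θ))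
      = ((2 * Real.pi : ℝ) : ℂ) * m t * e x₀ :=
    fun t ht => h.eig t ht (circY263 t) (fun θ => circY_val263 t θ) x₀
  -- the candidate
  have hF : Continuous (fun t : ℝ =>
      (∫ θ in (0 : ℝ)..(2 * Real.pi), e (x₀ * circY263 t θ)) / (((2 * Real.pi : ℝ) : ℂ) * e x₀)
        / ((nrm888 n t : ℝ) : ℂ)) := by
    refine (hM.div_const _).div (Complex.continuous_ofReal.comp (continuous_nrm263 n)) ?_
    intro t
    rw [Complex.ofReal_ne_zero]
    exact (nrm_pos263 n t).ne'
  refine hF.continuousOn.congr ?_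
  intro t ht
  have ht' : (0 : ℝ) ≤ t := ht
  unfold mtOf888
  beta_reduce
  rcases ht'.lt_or_eq with hpos | hzero
  · rw [if_pos hpos, hMt t hpos]
    congr 1
    field_simp
  · subst hzero
    rw [if_neg (lt_irrefl _), hM0, nrm_zero263, Complex.ofReal_one, div_one,
      div_self (mul_ne_zero hpi hx₀)]

end Fermat.Agent.LT.T6.H263

end

end
-- ===== PACK-END LT/T6/H263/MtCont.lean

-- ===== PACK-BEGIN LT/T6/Inf/H502/UpGrow.lean
section



/-!
# Row LT, sub-tower T6inf, leaf T6inf.05 (helper502): weight `±1`, growth at infinity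

OFF-MAIN.  Mathlib only.

For REAL `σ` with `|σ| > 1/2` the function `t ↦ sphR1 σ (cosh t)` is not bounded by `1`
(`growQ_neg502`, `growQ_pos502`): the integrand is positive, and
* `σ < -1/2`: on `u ∈ [π/2, 3π/2]` it is `≥ (1/2) e^{2 τ min(η, 1/2)}`, `η = -σ - 1/2`, `t = 2τ`;
* `σ > 1/2`: on `u ∈ [0, e^{-t}]` it is `≥ e^{-τ} ((5/4) e^{-t})^{-σ-1}`.
-/

set_option autoImplicit false

open Real MeasureTheory

noncomputable section

namespace Fermat.Agent.LT.T6.Inf.H502

theorem base_pos_cosh502 (t u : ℝ) : 0 < Real.cosh t - Real.cos u * Real.sinh t := by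
  have h1 : |Real.cos u * Real.sinh t| ≤ |Real.sinh t| := by
    rw [abs_mul]
    calc |Real.cos u| * |Real.sinh t| ≤ 1 * |Real.sinh t| :=
          mul_le_mul_of_nonneg_right (Real.abs_cos_le_one u) (abs_nonneg _)
      _ = |Real.sinh t| := one_mul _
  have h2 : |Real.sinh t| < Real.cosh t := by
    rw [abs_lt]
    constructor
    · have := Real.cosh_add_sinh t
      have := Real.exp_pos t
      linarith
    · exact Real.sinh_lt_cosh t
  have h3 := le_abs_self (Real.cos u * Real.sinh t)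
  linarith

/-- The real integrand of `q(e, τ)`. -/
def fQ502 (e τ u : ℝ) : ℝ :=
  (Real.cosh τ - Real.cos u * Real.sinh τ)
    * (Real.cosh (2 * τ) - Real.cos u * Real.sinh (2 * τ)) ^ e

theorem fQ_nonneg502 (e τ u : ℝ) : 0 ≤ fQ502 e τ u := by
  unfold fQ502
  exact mul_nonneg (base_pos_cosh502 τ u).le (Real.rpow_nonneg (base_pos_cosh502 (2 * τ) u).le e)

theorem continuous_fQ502 (e τ : ℝ) : Continuous (fQ502 e τ) := by
  unfold fQ502
  have h1 : Continuous fun u : ℝ => Real.cosh τ - Real.cos u * Real.sinh τ := by fun_prop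
  have h2 : Continuous fun u : ℝ => Real.cosh (2 * τ) - Real.cos u * Real.sinh (2 * τ) := by
    fun_prop
  exact h1.mul (h2.rpow_const fun u => Or.inl (base_pos_cosh502 (2 * τ) u).ne')

theorem sphQ_real502 (e τ : ℝ) :
    sphQ502 (e : ℂ) τ
      = (((1 / (2 * Real.pi)) * ∫ u in (0 : ℝ)..(2 * Real.pi), fQ502 e τ u : ℝ) : ℂ) := by
  unfold sphQ502
  rw [Complex.ofReal_mul, ← intervalIntegral.integral_ofReal]
  congr 1
  refine intervalIntegral.integral_congr fun u _ => ?_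
  show _ = ((fQ502 e τ u : ℝ) : ℂ)
  unfold fQ502
  rw [Complex.ofReal_mul, Complex.ofReal_cpow (base_pos_cosh502 (2 * τ) u).le]

/-- A lower bound for the integral of a nonnegative function. -/
theorem integral_ge_of_sub502 (F : ℝ → ℝ) (hF : Continuous F) (hF0 : ∀ u, 0 ≤ F u)
    (a b m : ℝ) (ha : 0 ≤ a) (hab : a ≤ b) (hb : b ≤ 2 * Real.pi)
    (hm : ∀ u ∈ Set.Icc a b, m ≤ F u) :
    m * (b - a) ≤ ∫ u in (0 : ℝ)..(2 * Real.pi), F u := by
  have h1 := intervalIntegral.integral_add_adjacent_intervals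
    (hF.intervalIntegrable (μ := volume) 0 a) (hF.intervalIntegrable (μ := volume) a (2 * Real.pi))
  have h2 := intervalIntegral.integral_add_adjacent_intervals
    (hF.intervalIntegrable (μ := volume) a b) (hF.intervalIntegrable (μ := volume) b (2 * Real.pi))
  have h3 : 0 ≤ ∫ u in (0 : ℝ)..a, F u :=
    intervalIntegral.integral_nonneg ha fun u _ => hF0 u
  have h4 : 0 ≤ ∫ u in b..(2 * Real.pi), F u :=
    intervalIntegral.integral_nonneg hb fun u _ => hF0 u
  have h5 : ∫ _u in a..b, m ≤ ∫ u in a..b, F u :=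
    intervalIntegral.integral_mono_on hab (continuous_const.intervalIntegrable _ _)
      (hF.intervalIntegrable _ _) hm
  rw [intervalIntegral.integral_const, smul_eq_mul] at h5
  linarith

theorem exp_half_le_cosh502 (τ : ℝ) : Real.exp τ / 2 ≤ Real.cosh τ := by
  rw [Real.cosh_eq]
  have := Real.exp_pos (-τ)
  linarith

/-- Growth for `σ < -1/2`. -/
theorem growQ_neg502 (σ : ℝ) (hσ : σ < -1 / 2) :
    ∃ t : ℝ, 0 < t ∧ 1 < ‖sphR1_502 (σ : ℂ) (Real.cosh t)‖ := by
  obtain ⟨η, hη⟩ : ∃ η : ℝ, η = min (-σ - 1 / 2) (1 / 2) := ⟨_, rfl⟩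
  have hη0 : 0 < η := by
    rw [hη]
    apply lt_min <;> linarith
  have hη1 : η ≤ -σ - 1 / 2 := by rw [hη]; exact min_le_left _ _
  have hη2 : η ≤ 1 / 2 := by rw [hη]; exact min_le_right _ _
  obtain ⟨τ, hτdef⟩ : ∃ τ : ℝ, τ = 2 / η := ⟨_, rfl⟩
  have hτ : 0 < τ := by rw [hτdef]; positivity
  have hτη : 2 * τ * η = 4 := by
    rw [hτdef]
    field_simp
    ring
  refine ⟨2 * τ, by linarith, ?_⟩
  have e0 : (-(σ : ℂ) - 1) = (((-σ - 1 : ℝ)) : ℂ) := by push_cast; ring
  rw [sphR1_eq_sphQ502 _ τ hτ.le, e0, sphQ_real502, Complex.norm_real, Real.norm_eq_abs]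
  -- the lower bound on `[π/2, 3π/2]`
  have hpt : ∀ u ∈ Set.Icc (Real.pi / 2) (3 * Real.pi / 2),
      Real.exp (2 * τ * η) / 2 ≤ fQ502 (-σ - 1) τ u := by
    intro u hu
    have hcos : Real.cos u ≤ 0 := by
      apply Real.cos_nonpos_of_pi_div_two_le_of_le hu.1
      have := hu.2
      linarith [Real.pi_pos]
    have hs : 0 ≤ Real.sinh τ := Real.sinh_nonneg_iff.2 hτ.le
    have hs2 : 0 ≤ Real.sinh (2 * τ) := Real.sinh_nonneg_iff.2 (by linarith)
    have hf1 : Real.exp τ / 2 ≤ Real.cosh τ - Real.cos u * Real.sinh τ := by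
      have := exp_half_le_cosh502 τ
      nlinarith
    have hb1 : 1 ≤ Real.cosh (2 * τ) - Real.cos u * Real.sinh (2 * τ) := by
      have := Real.one_le_cosh (2 * τ)
      nlinarith
    have hb2 : Real.cosh (2 * τ) - Real.cos u * Real.sinh (2 * τ) ≤ Real.exp (2 * τ) := by
      have h1 := Real.cosh_add_sinh (2 * τ)
      have h2 : -Real.cos u ≤ 1 := by
        have := Real.neg_one_le_cos u
        linarith
      nlinarith
    have hbpos := base_pos_cosh502 (2 * τ) u
    -- the power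
    have hpow : Real.exp (2 * τ * (η - 1 / 2))
        ≤ (Real.cosh (2 * τ) - Real.cos u * Real.sinh (2 * τ)) ^ (-σ - 1) := by
      rw [Real.rpow_def_of_pos hbpos]
      apply Real.exp_le_exp.2
      have hlog0 : 0 ≤ Real.log (Real.cosh (2 * τ) - Real.cos u * Real.sinh (2 * τ)) :=
        Real.log_nonneg hb1
      have hlog1 : Real.log (Real.cosh (2 * τ) - Real.cos u * Real.sinh (2 * τ)) ≤ 2 * τ := by
        have := Real.log_le_log hbpos hb2
        rwa [Real.log_exp] at this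
      -- `2τ (η - 1/2) ≤ log b · (-σ - 1)`, with `η - 1/2 ≤ 0` and `η - 1/2 ≤ -σ - 1`
      have hη3 : η - 1 / 2 ≤ -σ - 1 := by linarith
      have hη4 : η - 1 / 2 ≤ 0 := by linarith
      calc 2 * τ * (η - 1 / 2)
          ≤ Real.log (Real.cosh (2 * τ) - Real.cos u * Real.sinh (2 * τ)) * (η - 1 / 2) := by
            nlinarith
        _ ≤ Real.log (Real.cosh (2 * τ) - Real.cos u * Real.sinh (2 * τ)) * (-σ - 1) :=
            mul_le_mul_of_nonneg_left hη3 hlog0
    unfold fQ502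
    have hsplit : Real.exp (2 * τ * η) / 2
        = (Real.exp τ / 2) * Real.exp (2 * τ * (η - 1 / 2)) := by
      have : 2 * τ * η = τ + 2 * τ * (η - 1 / 2) := by ring
      rw [this, Real.exp_add]
      ring
    rw [hsplit]
    exact mul_le_mul hf1 hpow (Real.exp_pos _).le (by linarith [Real.exp_pos τ])
  have hint := integral_ge_of_sub502 (fQ502 (-σ - 1) τ) (continuous_fQ502 _ _)
    (fQ_nonneg502 _ _) (Real.pi / 2) (3 * Real.pi / 2) (Real.exp (2 * τ * η) / 2)
    (by positivity) (by linarith [Real.pi_pos]) (by linarith [Real.pi_pos]) hpt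
  have hpi := Real.pi_pos
  have hexp4 : 5 ≤ Real.exp (2 * τ * η) := by
    rw [hτη]
    have := Real.add_one_le_exp 4
    linarith
  have hnn : 0 ≤ 1 / (2 * Real.pi) * ∫ u in (0 : ℝ)..(2 * Real.pi), fQ502 (-σ - 1) τ u := by
    apply mul_nonneg (by positivity)
    exact intervalIntegral.integral_nonneg (by positivity) fun u _ => fQ_nonneg502 _ _ _
  rw [abs_of_nonneg hnn]
  have h6 : Real.exp (2 * τ * η) / 2 * (3 * Real.pi / 2 - Real.pi / 2)
      = Real.exp (2 * τ * η) / 2 * Real.pi := by ring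
  rw [h6] at hint
  calc (1 : ℝ) < 1 / (2 * Real.pi) * (5 / 2 * Real.pi) := by
        field_simp
        norm_num
    _ ≤ 1 / (2 * Real.pi) * (Real.exp (2 * τ * η) / 2 * Real.pi) := by
        apply mul_le_mul_of_nonneg_left _ (by positivity)
        nlinarith
    _ ≤ 1 / (2 * Real.pi) * ∫ u in (0 : ℝ)..(2 * Real.pi), fQ502 (-σ - 1) τ u :=
        mul_le_mul_of_nonneg_left hint (by positivity)

theorem sinh_le_exp_half502 (t : ℝ) : Real.sinh t ≤ Real.exp t / 2 := by
  rw [Real.sinh_eq]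
  have := Real.exp_pos (-t)
  linarith

/-- Growth for `σ > 1/2`. -/
theorem growQ_pos502 (σ : ℝ) (hσ : 1 / 2 < σ) :
    ∃ t : ℝ, 0 < t ∧ 1 < ‖sphR1_502 (σ : ℂ) (Real.cosh t)‖ := by
  have hσ' : 0 < σ - 1 / 2 := by linarith
  obtain ⟨τ, hτdef⟩ : ∃ τ : ℝ, τ = (7 + (σ + 1) / 4) / (2 * (σ - 1 / 2)) := ⟨_, rfl⟩
  have hτ : 0 < τ := by
    rw [hτdef]
    apply div_pos <;> linarith
  have hτ2 : τ * (2 * (σ - 1 / 2)) = 7 + (σ + 1) / 4 := by
    rw [hτdef]
    exact div_mul_cancel₀ _ (by linarith : (2 * (σ - 1 / 2)) ≠ 0)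
  have hX : -τ + (1 / 4 - 2 * τ) * (-σ - 1) - 2 * τ = 7 := by
    linear_combination hτ2
  refine ⟨2 * τ, by linarith, ?_⟩
  have e0 : (-(σ : ℂ) - 1) = (((-σ - 1 : ℝ)) : ℂ) := by push_cast; ring
  rw [sphR1_eq_sphQ502 _ τ hτ.le, e0, sphQ_real502, Complex.norm_real, Real.norm_eq_abs]
  have hδ0 : 0 < Real.exp (-(2 * τ)) := Real.exp_pos _
  have hδ1 : Real.exp (-(2 * τ)) ≤ 1 := by
    rw [← Real.exp_zero]
    exact Real.exp_le_exp.2 (by linarith)
  have hpt : ∀ u ∈ Set.Icc (0 : ℝ) (Real.exp (-(2 * τ))),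
      Real.exp (-τ + (1 / 4 - 2 * τ) * (-σ - 1)) ≤ fQ502 (-σ - 1) τ u := by
    intro u hu
    have hs : 0 ≤ Real.sinh τ := Real.sinh_nonneg_iff.2 hτ.le
    have hs2 : 0 ≤ Real.sinh (2 * τ) := Real.sinh_nonneg_iff.2 (by linarith)
    have hcos1 : Real.cos u ≤ 1 := Real.cos_le_one u
    have hcos2 : 1 - u ^ 2 / 2 ≤ Real.cos u := Real.one_sub_sq_div_two_le_cos
    have hf1 : Real.exp (-τ) ≤ Real.cosh τ - Real.cos u * Real.sinh τ := by
      have := Real.cosh_sub_sinh τ
      nlinarith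
    have hbpos := base_pos_cosh502 (2 * τ) u
    have hu2 : u ^ 2 ≤ Real.exp (-(2 * τ)) ^ 2 := pow_le_pow_left₀ hu.1 hu.2 2
    have hee : Real.exp (-(2 * τ)) ^ 2 * Real.exp (2 * τ) = Real.exp (-(2 * τ)) := by
      rw [pow_two, mul_assoc, ← Real.exp_add]
      simp
    have hb2 : Real.cosh (2 * τ) - Real.cos u * Real.sinh (2 * τ)
        ≤ 5 / 4 * Real.exp (-(2 * τ)) := by
      have h1 := Real.cosh_sub_sinh (2 * τ)
      have h2 := sinh_le_exp_half502 (2 * τ)
      have h3 : Real.cosh (2 * τ) - Real.cos u * Real.sinh (2 * τ)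
          ≤ Real.cosh (2 * τ) - (1 - u ^ 2 / 2) * Real.sinh (2 * τ) := by nlinarith
      have h4 : u ^ 2 / 2 * Real.sinh (2 * τ)
          ≤ Real.exp (-(2 * τ)) ^ 2 / 2 * (Real.exp (2 * τ) / 2) := by
        apply mul_le_mul _ h2 hs2 (by positivity)
        linarith
      have h5 : Real.exp (-(2 * τ)) ^ 2 / 2 * (Real.exp (2 * τ) / 2)
          = Real.exp (-(2 * τ)) / 4 := by
        have : Real.exp (-(2 * τ)) ^ 2 / 2 * (Real.exp (2 * τ) / 2)
            = Real.exp (-(2 * τ)) ^ 2 * Real.exp (2 * τ) / 4 := by ring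
        rw [this, hee]
      nlinarith
    have hlog : Real.log (Real.cosh (2 * τ) - Real.cos u * Real.sinh (2 * τ))
        ≤ 1 / 4 - 2 * τ := by
      have h1 := Real.log_le_log hbpos hb2
      rw [Real.log_mul (by norm_num) hδ0.ne', Real.log_exp] at h1
      have h2 : Real.log (5 / 4) ≤ 5 / 4 - 1 := Real.log_le_sub_one_of_pos (by norm_num)
      linarith
    have hpow : Real.exp ((1 / 4 - 2 * τ) * (-σ - 1))
        ≤ (Real.cosh (2 * τ) - Real.cos u * Real.sinh (2 * τ)) ^ (-σ - 1) := by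
      rw [Real.rpow_def_of_pos hbpos]
      apply Real.exp_le_exp.2
      have : -σ - 1 ≤ 0 := by linarith
      exact mul_le_mul_of_nonpos_right hlog this
    unfold fQ502
    rw [Real.exp_add]
    exact mul_le_mul hf1 hpow (Real.exp_pos _).le (by linarith [Real.exp_pos (-τ)])
  have hpi := Real.pi_pos
  have hint := integral_ge_of_sub502 (fQ502 (-σ - 1) τ) (continuous_fQ502 _ _)
    (fQ_nonneg502 _ _) 0 (Real.exp (-(2 * τ))) (Real.exp (-τ + (1 / 4 - 2 * τ) * (-σ - 1)))
    le_rfl hδ0.le (by linarith [Real.pi_gt_three]) hpt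
  rw [sub_zero, ← Real.exp_add] at hint
  have hX' : -τ + (1 / 4 - 2 * τ) * (-σ - 1) + -(2 * τ) = 7 := by linarith
  rw [hX'] at hint
  have hexp7 : 8 ≤ Real.exp 7 := by
    have := Real.add_one_le_exp 7
    linarith
  have hnn : 0 ≤ 1 / (2 * Real.pi) * ∫ u in (0 : ℝ)..(2 * Real.pi), fQ502 (-σ - 1) τ u := by
    apply mul_nonneg (by positivity)
    exact intervalIntegral.integral_nonneg (by positivity) fun u _ => fQ_nonneg502 _ _ _
  rw [abs_of_nonneg hnn]
  have hpi4 := Real.pi_lt_four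
  calc (1 : ℝ) < 1 / (2 * Real.pi) * 8 := by
        rw [one_div, inv_mul_eq_div, lt_div_iff₀ (by positivity)]
        linarith
    _ ≤ 1 / (2 * Real.pi) * ∫ u in (0 : ℝ)..(2 * Real.pi), fQ502 (-σ - 1) τ u :=
        mul_le_mul_of_nonneg_left (hexp7.trans hint) (by positivity)

/-- Weight `±1`: if `sphR1 s (cosh t)` is real and bounded by `1` on `(0, ∞)`, then `s² - 1/4` is
real and `≤ 0`. -/
theorem param1_of_bounded502 (s : ℂ)
    (h : ∀ t : ℝ, 0 < t →
      (sphR1_502 s (Real.cosh t)).im = 0 ∧ ‖sphR1_502 s (Real.cosh t)‖ ≤ 1) :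
    (s ^ 2 - 1 / 4).im = 0 ∧ (s ^ 2 - 1 / 4).re ≤ 0 := by
  have him2 : (s ^ 2).im = 0 := paramQ_im502 s fun t ht => (h t ht).1
  have him : s.re * s.im = 0 := by
    have : (s ^ 2).im = 2 * (s.re * s.im) := by
      simp [pow_two, Complex.mul_im]
      ring
    rw [this] at him2
    linarith
  have e1 : (s ^ 2 - 1 / 4).im = (s ^ 2).im := by
    simp [Complex.sub_im]
  have e2 : (s ^ 2 - 1 / 4).re = s.re ^ 2 - s.im ^ 2 - 1 / 4 := by
    simp [pow_two, Complex.sub_re, Complex.mul_re]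
  refine ⟨by rw [e1, him2], ?_⟩
  rw [e2]
  rcases mul_eq_zero.1 him with hσ | hτ
  · rw [hσ]
    nlinarith [sq_nonneg s.im]
  · -- `s` real
    have hsR : s = ((s.re : ℝ) : ℂ) := by
      apply Complex.ext <;> simp [hτ]
    rw [hτ]
    by_contra hcon
    rw [not_le] at hcon
    have hlarge : s.re < -1 / 2 ∨ 1 / 2 < s.re := by
      by_contra hno
      rw [not_or, not_lt, not_lt] at hno
      nlinarith
    rcases hlarge with hneg | hpos
    · obtain ⟨t, ht, hbig⟩ := growQ_neg502 s.re hneg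
      rw [← hsR] at hbig
      exact absurd (h t ht).2 (not_le.2 hbig)
    · obtain ⟨t, ht, hbig⟩ := growQ_pos502 s.re hpos
      rw [← hsR] at hbig
      exact absurd (h t ht).2 (not_le.2 hbig)

end Fermat.Agent.LT.T6.Inf.H502

end

end
-- ===== PACK-END LT/T6/Inf/H502/UpGrow.lean

-- ===== PACK-BEGIN LT/T7/H175/ArchPeriod.lean
section







/-!
# Row LT, tower T7, asset ARCH-PROJ (helper175), part 3: the periods of automorphic functions

OFF-MAIN.  Vocabulary: A0, `T5/Spec.lean` v4; adelic kit of helper627 (`T2/H627/Adelic.lean`).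

`aInf175 x` is the positive scalar matrix `(e^{x_w})_w` at the infinite places (`1` at the finite
places).  An automorphic function of level `𝔫` and trivial `K_∞`-type in the frame of T5 (right
invariant under the ray generator `r` only) is right invariant under `aInf175 x` for `x` in the
lattice spanned by

* the logarithm of the ray generator, `(log t, …, log t)`;
* the logarithmic vectors `(log |ε|_w)_w` of the units `ε ≡ 1 mod 𝔫`
  (`ε ∈ GL₂(K)` is central, its finite part lies in `U(𝔫)`, the phases of its archimedean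
  components lie in `K_∞`).

By Dirichlet's unit theorem (`PeriodBasis.lean`) this lattice contains a basis of
`V = (InfinitePlace K → ℝ)`: `archPeriodBasis175`.
-/

set_option autoImplicit false
set_option linter.unusedSectionVars false
set_option linter.style.haveILetI false

open IsDedekindDomain NumberField MeasureTheory Module
open Fermat.Agent.LT.H556.A0 Fermat.Agent.LT Fermat.Agent.LT.T2.H627
open scoped Classical

noncomputable section

namespace Fermat.Agent.LT.T7.H175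

variable {K : Type} [Field K] [NumberField K]

/-! ## 1. Extensionality and components -/

theorem G_ext175 {g h : G K} (h1 : ∀ w : InfinitePlace K, infComp w g = infComp w h)
    (h2 : ∀ v : HeightOneSpectrum (𝓞 K), finComp v g = finComp v h) : g = h := by
  apply Units.ext
  refine Matrix.ext fun i j => ?_
  refine adl_ext627 (fun w => ?_) (fun v => ?_)
  · exact (InfinitePlace.Completion.extensionEmbedding w).injective
      (congrFun (congrFun (h1 w) i) j)
  · exact congrFun (congrFun (h2 v) i) j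

theorem infComp_one175 (w : InfinitePlace K) : infComp w (1 : G K) = 1 := by
  refine Matrix.ext fun i j => ?_
  show InfinitePlace.Completion.extensionEmbedding w
    (((1 : Matrix (Fin 2) (Fin 2) (Adl K)) i j).1 w) = _
  by_cases h : i = j
  · subst h
    simp only [Matrix.one_apply_eq]
    exact map_one _
  · simp only [Matrix.one_apply_ne h]
    exact map_zero _

theorem infComp_of_trivAtInf175 {w : InfinitePlace K} {g : G K} (hg : TrivAtInf w g) :
    infComp w g = 1 := by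
  refine Matrix.ext fun i j => ?_
  show InfinitePlace.Completion.extensionEmbedding w
    (((g : Matrix (Fin 2) (Fin 2) (Adl K)) i j).1 w) = _
  rw [hg i j]
  by_cases h : i = j
  · subst h
    simp only [Matrix.one_apply_eq]
    exact map_one _
  · simp only [Matrix.one_apply_ne h]
    exact map_zero _

/-! ## 2. The positive scalars -/

/-- The positive scalar matrix with logarithmic vector `x`. -/
def aInf175 (x : InfinitePlace K → ℝ) : G K := scal627 (expIdele627 x)

theorem aInf175_add (x y : InfinitePlace K → ℝ) :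
    aInf175 (x + y) = aInf175 x * aInf175 y := by
  unfold aInf175
  rw [expIdele627_add, map_mul]

theorem aInf175_zero : aInf175 (0 : InfinitePlace K → ℝ) = 1 := by
  unfold aInf175
  rw [expIdele627_zero, map_one]

theorem aInf175_comm (x : InfinitePlace K → ℝ) (g : G K) : aInf175 x * g = g * aInf175 x :=
  scal627_comm _ g

theorem infComp_aInf175 (w : InfinitePlace K) (x : InfinitePlace K → ℝ) :
    infComp w (aInf175 x) = Matrix.diagonal (fun _ => ((Real.exp (x w) : ℝ) : ℂ)) := by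
  unfold aInf175
  rw [infComp_scal627]
  congr 1
  funext _
  show InfinitePlace.Completion.extensionEmbedding w (eR627 w (Real.exp (x w))) = _
  rw [ext_eR627]

theorem finComp_aInf175 (v : HeightOneSpectrum (𝓞 K)) (x : InfinitePlace K → ℝ) :
    finComp v (aInf175 x) = 1 := by
  unfold aInf175
  rw [finComp_scal627]
  show Matrix.diagonal (fun _ : Fin 2 => (1 : FiniteAdeleRing (𝓞 K) K) v) = 1
  rw [← Matrix.diagonal_one]
  rfl

theorem continuous_infAdele175 :
    Continuous (fun s : InfinitePlace K → ℝ => infAdele627 (K := K) s) := by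
  refine Continuous.prodMk ?_ continuous_const
  exact continuous_pi fun w => (isometry_eR627 w).continuous.comp (continuous_apply w)

theorem continuous_expIdele175 :
    Continuous (fun x : InfinitePlace K → ℝ => expIdele627 (K := K) x) := by
  rw [Units.continuous_iff]
  constructor
  · have h : Continuous fun x : InfinitePlace K → ℝ => fun w => Real.exp (x w) :=
      continuous_pi fun w => Real.continuous_exp.comp (continuous_apply w)
    exact continuous_infAdele175.comp h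
  · have h : Continuous fun x : InfinitePlace K → ℝ => fun w => (Real.exp (x w))⁻¹ :=
      continuous_pi fun w =>
        (Real.continuous_exp.comp (continuous_apply w)).inv₀ (fun x => (Real.exp_pos _).ne')
    exact continuous_infAdele175.comp h

theorem continuous_aInf175 : Continuous (aInf175 (K := K)) :=
  continuous_scal627.comp continuous_expIdele175

/-- A positive scalar at one place is `aInf175` of a vector supported at that place. -/
theorem eq_aInf175_of_isArchPosScalar {w : InfinitePlace K} {z : G K}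
    (hz : IsArchPosScalar w z) : ∃ t : ℝ, z = aInf175 (Pi.single w t) := by
  obtain ⟨⟨hinf, hfin⟩, r, hr, hcomp⟩ := hz
  refine ⟨Real.log r, G_ext175 (fun w' => ?_) (fun v => ?_)⟩
  · rw [infComp_aInf175]
    by_cases hw : w' = w
    · subst hw
      rw [hcomp, Pi.single_eq_same, Real.exp_log hr]
    · rw [infComp_of_trivAtInf175 (hinf w' hw), Pi.single_eq_of_ne hw, Real.exp_zero]
      rw [Complex.ofReal_one, Matrix.diagonal_one]
  · rw [finComp_aInf175]
    exact hfin v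

/-- Invariance under the positive scalars at every place gives invariance under `aInf175`. -/
theorem inv_aInf175 {ψ : G K → ℂ}
    (h : ∀ (w : InfinitePlace K) (z : G K), IsArchPosScalar w z → ∀ g : G K, ψ (g * z) = ψ g)
    (x : InfinitePlace K → ℝ) (g : G K) : ψ (g * aInf175 x) = ψ g := by
  have key : ∀ (S : Finset (InfinitePlace K)) (g : G K),
      ψ (g * scal627 (∏ w ∈ S, expIdele627 (Pi.single w (x w)))) = ψ g := by
    intro S
    induction S using Finset.induction_on with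
    | empty => intro g; simp
    | insert a S ha ih =>
      intro g
      rw [Finset.prod_insert ha, map_mul, ← mul_assoc, ih]
      exact h a _ (isArchPosScalar_zloc627 a (x a)) g
  have hx : x = ∑ w : InfinitePlace K, Pi.single w (x w) :=
    (Finset.univ_sum_single x).symm
  unfold aInf175
  conv_lhs => rw [hx, expIdele627_sum]
  exact key _ g

/-! ## 3. The period of the ray -/

theorem rayGen_eq_aInf175 {r : G K} (hr : T5.IsRayGen r) :
    ∃ c : ℝ, c ≠ 0 ∧ r = aInf175 (fun _ => c) := by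
  obtain ⟨hfin, t, ht, hpow, hinf⟩ := hr
  refine ⟨Real.log t, ?_, G_ext175 (fun w => ?_) (fun v => ?_)⟩
  · intro h0
    have h1 : t = 1 := by
      have := Real.exp_log ht
      rw [h0, Real.exp_zero] at this
      exact this.symm
    rw [h1, one_pow] at hpow
    norm_num at hpow
  · rw [infComp_aInf175, hinf w, Real.exp_log ht]
  · rw [finComp_aInf175]
    exact hfin v

/-! ## 4. Ideles with prescribed parts -/

/-- The idele with components `c w` at the infinite places and `1` at the finite places. -/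
def infUnit175 : ((w : InfinitePlace K) → (w.Completion)ˣ) →* (Adl K)ˣ where
  toFun c :=
    { val := ((fun w => ((c w : (w.Completion)ˣ) : w.Completion)),
        (1 : FiniteAdeleRing (𝓞 K) K))
      inv := ((fun w => (((c w)⁻¹ : (w.Completion)ˣ) : w.Completion)),
        (1 : FiniteAdeleRing (𝓞 K) K))
      val_inv := by
        refine Prod.ext (funext fun w => ?_) (mul_one _)
        exact Units.mul_inv (c w)
      inv_val := by
        refine Prod.ext (funext fun w => ?_) (mul_one _)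
        exact Units.inv_mul (c w) }
  map_one' := by
    apply Units.ext
    exact Prod.ext (funext fun w => rfl) rfl
  map_mul' c d := by
    apply Units.ext
    refine Prod.ext (funext fun w => rfl) ?_
    exact (mul_one (1 : FiniteAdeleRing (𝓞 K) K)).symm

theorem infUnit175_fst (c : (w : InfinitePlace K) → (w.Completion)ˣ) (w : InfinitePlace K) :
    ((infUnit175 c : (Adl K)ˣ) : Adl K).1 w = (c w : w.Completion) := rfl

theorem infUnit175_snd (c : (w : InfinitePlace K) → (w.Completion)ˣ) :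
    ((infUnit175 c : (Adl K)ˣ) : Adl K).2 = 1 := rfl

/-- The idele with finite part `b` and `1` at the infinite places. -/
def finUnit175 : (FiniteAdeleRing (𝓞 K) K)ˣ →* (Adl K)ˣ where
  toFun b :=
    { val := ((1 : InfiniteAdeleRing K), (b : FiniteAdeleRing (𝓞 K) K))
      inv := ((1 : InfiniteAdeleRing K), ((b⁻¹ : (FiniteAdeleRing (𝓞 K) K)ˣ) :
        FiniteAdeleRing (𝓞 K) K))
      val_inv := Prod.ext (mul_one _) (Units.mul_inv b)
      inv_val := Prod.ext (mul_one _) (Units.inv_mul b) }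
  map_one' := by
    apply Units.ext
    exact Prod.ext rfl rfl
  map_mul' c d := by
    apply Units.ext
    exact Prod.ext (mul_one (1 : InfiniteAdeleRing K)).symm rfl

theorem finUnit175_fst (b : (FiniteAdeleRing (𝓞 K) K)ˣ) :
    ((finUnit175 b : (Adl K)ˣ) : Adl K).1 = 1 := rfl

theorem finUnit175_snd (b : (FiniteAdeleRing (𝓞 K) K)ˣ) :
    ((finUnit175 b : (Adl K)ˣ) : Adl K).2 = (b : FiniteAdeleRing (𝓞 K) K) := rfl

/-! ## 5. The decomposition of a unit of `𝓞 K` -/

/-- A unit of `𝓞 K` as an element of `Kˣ`. -/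
def unitK175 : (𝓞 K)ˣ →* Kˣ := Units.map (algebraMap (𝓞 K) K).toMonoidHom

theorem unitK175_val (ε : (𝓞 K)ˣ) : ((unitK175 ε : Kˣ) : K) = ((ε : 𝓞 K) : K) := rfl

theorem place_pos175 (ε : (𝓞 K)ˣ) (w : InfinitePlace K) : 0 < w ((ε : 𝓞 K) : K) :=
  NumberField.Units.pos_at_place ε w

theorem eR627_ne_zero175 (w : InfinitePlace K) {s : ℝ} (hs : s ≠ 0) : eR627 w s ≠ 0 := by
  intro h
  have := norm_eR627 w s
  rw [h, norm_zero] at this
  exact hs (abs_eq_zero.mp this.symm)

/-- The phase of the unit `ε` at the infinite place `w`. -/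
def phase175 (ε : (𝓞 K)ˣ) (w : InfinitePlace K) : (w.Completion)ˣ :=
  Units.map (algebraMap K w.Completion).toMonoidHom (unitK175 ε)
    * (Units.mk0 (eR627 w (w ((ε : 𝓞 K) : K))) (eR627_ne_zero175 w (place_pos175 ε w).ne'))⁻¹

/-- The finite part of the principal idele of the unit `ε`. -/
def finPart175 : (𝓞 K)ˣ →* (FiniteAdeleRing (𝓞 K) K)ˣ :=
  (Units.map (algebraMap K (FiniteAdeleRing (𝓞 K) K)).toMonoidHom).comp unitK175

theorem finPart175_val (ε : (𝓞 K)ˣ) :
    ((finPart175 ε : (FiniteAdeleRing (𝓞 K) K)ˣ) : FiniteAdeleRing (𝓞 K) K)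
      = algebraMap K (FiniteAdeleRing (𝓞 K) K) ((ε : 𝓞 K) : K) := rfl

theorem expIdele_unitLog175 (ε : (𝓞 K)ˣ) (w : InfinitePlace K) :
    ((expIdele627 (unitLog175 K ε) : (Adl K)ˣ) : Adl K).1 w = eR627 w (w ((ε : 𝓞 K) : K)) := by
  show eR627 w (Real.exp (unitLog175 K ε w)) = _
  unfold unitLog175
  rw [Real.exp_log (place_pos175 ε w)]

/-- **The principal idele of a unit** is the product of its absolute values, of its phases and
of its finite part. -/
theorem ratUnit_unit175 (ε : (𝓞 K)ˣ) :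
    T1.ratUnit K (unitK175 ε)
      = expIdele627 (unitLog175 K ε) * infUnit175 (phase175 ε) * finUnit175 (finPart175 ε) := by
  apply Units.ext
  rw [Units.val_mul, Units.val_mul]
  refine Prod.ext (funext fun w => ?_) ?_
  · show (((ε : 𝓞 K) : K) : w.Completion)
      = ((expIdele627 (unitLog175 K ε) : (Adl K)ˣ) : Adl K).1 w
        * ((infUnit175 (phase175 ε) : (Adl K)ˣ) : Adl K).1 w
        * ((finUnit175 (finPart175 ε) : (Adl K)ˣ) : Adl K).1 w
    rw [expIdele_unitLog175, infUnit175_fst, finUnit175_fst]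
    show _ = eR627 w (w ((ε : 𝓞 K) : K))
      * ((((ε : 𝓞 K) : K) : w.Completion) * (eR627 w (w ((ε : 𝓞 K) : K)))⁻¹) * 1
    have hne := eR627_ne_zero175 w (place_pos175 ε w).ne'
    field_simp
  · show algebraMap K (FiniteAdeleRing (𝓞 K) K) ((ε : 𝓞 K) : K)
      = (1 : FiniteAdeleRing (𝓞 K) K) * 1 * algebraMap K (FiniteAdeleRing (𝓞 K) K) ((ε : 𝓞 K) : K)
    rw [mul_one, one_mul]

/-! ## 6. The phases lie in `K_∞`, the finite part lies in `U(𝔫)` -/

theorem norm_phase175 (ε : (𝓞 K)ˣ) (w : InfinitePlace K) :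
    ‖InfinitePlace.Completion.extensionEmbedding w ((phase175 ε w : (w.Completion)ˣ) :
      w.Completion)‖ = 1 := by
  rw [(InfinitePlace.Completion.isometry_extensionEmbedding w).norm_map_of_map_zero (map_zero _)]
  show ‖((((ε : 𝓞 K) : K) : w.Completion)) * (eR627 w (w ((ε : 𝓞 K) : K)))⁻¹‖ = 1
  rw [norm_mul, norm_inv, norm_eR627]
  have h1 : ‖((((ε : 𝓞 K) : K)) : w.Completion)‖ = w ((ε : 𝓞 K) : K) :=
    InfinitePlace.Completion.norm_coe w _
  rw [h1, abs_of_pos (place_pos175 ε w)]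
  exact mul_inv_cancel₀ (place_pos175 ε w).ne'

theorem isArchCompact_phase175 (ε : (𝓞 K)ˣ) (w : InfinitePlace K) :
    IsArchCompact w (scal627 (infUnit175 (Pi.mulSingle w (phase175 ε w)))) := by
  set z : ℂ := InfinitePlace.Completion.extensionEmbedding w
    ((phase175 ε w : (w.Completion)ˣ) : w.Completion) with hz
  have hnorm : ‖z‖ = 1 := norm_phase175 ε w
  have hcomp : infComp w (scal627 (infUnit175 (Pi.mulSingle w (phase175 ε w))))
      = Matrix.diagonal (fun _ => z) := by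
    rw [infComp_scal627]
    congr 1
    funext _
    show InfinitePlace.Completion.extensionEmbedding w
      (((Pi.mulSingle w (phase175 ε w) : (w' : InfinitePlace K) → (w'.Completion)ˣ) w :
        (w.Completion)ˣ) : w.Completion) = z
    rw [Pi.mulSingle_eq_same]
  refine ⟨⟨fun w' hw' i j => ?_, fun v => ?_⟩, ?_, ?_⟩
  · show (Matrix.diagonal (fun _ : Fin 2 =>
        ((infUnit175 (Pi.mulSingle w (phase175 ε w)) : (Adl K)ˣ) : Adl K)) i j).1 w' = _
    by_cases h : i = j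
    · subst h
      simp only [Matrix.diagonal_apply_eq, Matrix.one_apply_eq]
      show (((Pi.mulSingle w (phase175 ε w) : (w' : InfinitePlace K) → (w'.Completion)ˣ) w' :
        (w'.Completion)ˣ) : w'.Completion) = 1
      rw [Pi.mulSingle_eq_of_ne hw']
      rfl
    · simp only [Matrix.diagonal_apply_ne _ h, Matrix.one_apply_ne h]
      rfl
  · show finComp v (scal627 _) = 1
    rw [finComp_scal627]
    show Matrix.diagonal (fun _ : Fin 2 => (1 : FiniteAdeleRing (𝓞 K) K) v) = 1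
    rw [← Matrix.diagonal_one]
    rfl
  · rw [hcomp, Matrix.diagonal_conjTranspose, Matrix.diagonal_mul_diagonal,
      ← Matrix.diagonal_one]
    congr 1
    funext _
    show z * star z = 1
    rw [Complex.star_def, Complex.mul_conj, Complex.normSq_eq_norm_sq, hnorm]
    norm_num
  · intro hw
    rw [hcomp, Matrix.det_diagonal, Fin.prod_univ_two]
    have hreal : z = ((InfinitePlace.Completion.extensionEmbeddingOfIsReal hw
        ((phase175 ε w : (w.Completion)ˣ) : w.Completion) : ℝ) : ℂ) :=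
      (InfinitePlace.Completion.extensionEmbeddingOfIsReal_apply hw _).symm
    set s : ℝ := InfinitePlace.Completion.extensionEmbeddingOfIsReal hw
        ((phase175 ε w : (w.Completion)ˣ) : w.Completion) with hs
    rw [hreal] at hnorm ⊢
    rw [Complex.norm_real, Real.norm_eq_abs] at hnorm
    have h2 : s * s = 1 := by
      have := abs_mul_abs_self s
      rw [hnorm] at this
      linarith
    rw [← Complex.ofReal_mul, h2, Complex.ofReal_one]

theorem mem_idealClosure175 (𝔫 : Ideal (𝓞 K)) (v : HeightOneSpectrum (𝓞 K)) {x : 𝓞 K}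
    (hx : x ∈ 𝔫) :
    algebraMap K (v.adicCompletion K) (algebraMap (𝓞 K) K x) ∈ idealClosure 𝔫 v :=
  subset_closure ⟨x, hx, rfl⟩

theorem finComp_finUnit175 (ε : (𝓞 K)ˣ) (v : HeightOneSpectrum (𝓞 K)) :
    finComp v (scal627 (finUnit175 (finPart175 ε)))
      = Matrix.diagonal (fun _ => algebraMap K (v.adicCompletion K) ((ε : 𝓞 K) : K)) := by
  rw [finComp_scal627]
  rfl

theorem inLevelGroup_finUnit175 {𝔫 : Ideal (𝓞 K)} {ε : (𝓞 K)ˣ} (hε : (ε : 𝓞 K) - 1 ∈ 𝔫) :
    InLevelGroup 𝔫 (scal627 (finUnit175 (finPart175 ε))) := by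
  have hε' : ((ε⁻¹ : (𝓞 K)ˣ) : 𝓞 K) - 1 ∈ 𝔫 := by
    have h1 : ((ε⁻¹ : (𝓞 K)ˣ) : 𝓞 K) - 1 = -((ε⁻¹ : (𝓞 K)ˣ) : 𝓞 K) * ((ε : 𝓞 K) - 1) := by
      have := Units.inv_mul ε
      linear_combination this
    rw [h1]
    exact Ideal.mul_mem_left _ _ hε
  have key : ∀ (η : (𝓞 K)ˣ), (η : 𝓞 K) - 1 ∈ 𝔫 → ∀ (v : HeightOneSpectrum (𝓞 K)) (i j : Fin 2),
      (finComp v (scal627 (finUnit175 (finPart175 η))) - 1) i j ∈ idealClosure 𝔫 v := by
    intro η hη v i j
    rw [finComp_finUnit175]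
    by_cases h : i = j
    · subst h
      simp only [Matrix.sub_apply, Matrix.diagonal_apply_eq, Matrix.one_apply_eq]
      have := mem_idealClosure175 𝔫 v hη
      rw [map_sub, map_sub, map_one, map_one] at this
      exact this
    · simp only [Matrix.sub_apply, Matrix.diagonal_apply_ne _ h, Matrix.one_apply_ne h, sub_zero]
      have := mem_idealClosure175 𝔫 v (Ideal.zero_mem 𝔫)
      rw [map_zero, map_zero] at this
      exact this
  refine ⟨fun w i j => ?_, fun v i j => ⟨key ε hε v i j, ?_⟩⟩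
  · show (Matrix.diagonal (fun _ : Fin 2 =>
        ((finUnit175 (finPart175 ε) : (Adl K)ˣ) : Adl K)) i j).1 w = _
    by_cases h : i = j
    · subst h
      simp only [Matrix.diagonal_apply_eq, Matrix.one_apply_eq]
      rfl
    · simp only [Matrix.diagonal_apply_ne _ h, Matrix.one_apply_ne h]
      rfl
  · have hinv : (scal627 (finUnit175 (finPart175 ε)))⁻¹
        = scal627 (finUnit175 (finPart175 ε⁻¹)) := by
      rw [map_inv, map_inv, map_inv]
    rw [hinv]
    exact key ε⁻¹ hε' v i j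

/-! ## 7. The period of a unit `≡ 1 mod 𝔫` -/

theorem ratG_unit175 (ε : (𝓞 K)ˣ) :
    T5.ratG (ratScal627 (unitK175 ε))
      = aInf175 (unitLog175 K ε) * scal627 (infUnit175 (phase175 ε))
        * scal627 (finUnit175 (finPart175 ε)) := by
  have h := ratG_ratScal627 (unitK175 ε)
  rw [ratUnit_unit175, map_mul, map_mul] at h
  exact h

/-- Invariance under the phases. -/
theorem inv_phase175 {𝔫 : Ideal (𝓞 K)} {r : G K} {ψ : G K → ℂ}
    (hψ : T5.IsAutomorphicFn 𝔫 T5.trivType r ψ) (ε : (𝓞 K)ˣ) (g : G K) :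
    ψ (g * scal627 (infUnit175 (phase175 ε))) = ψ g := by
  have key : ∀ (S : Finset (InfinitePlace K)) (g : G K),
      ψ (g * scal627 (infUnit175 (∏ w ∈ S, Pi.mulSingle w (phase175 ε w)))) = ψ g := by
    intro S
    induction S using Finset.induction_on with
    | empty => intro g; simp
    | insert a S ha ih =>
      intro g
      rw [Finset.prod_insert ha, map_mul, map_mul, scal627_comm,
        ← mul_assoc, hψ.arch_compact a _ (isArchCompact_phase175 ε a), ih]
      simp [T5.trivType]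
  have hx : phase175 ε = ∏ w : InfinitePlace K, Pi.mulSingle w (phase175 ε w) :=
    (Finset.univ_prod_mulSingle (phase175 ε)).symm
  conv_lhs => rw [hx]
  exact key _ g

/-- **THE PERIOD OF A UNIT.** -/
theorem inv_unit175 {𝔫 : Ideal (𝓞 K)} {r : G K} {ψ : G K → ℂ}
    (hψ : T5.IsAutomorphicFn 𝔫 T5.trivType r ψ) {ε : (𝓞 K)ˣ} (hε : (ε : 𝓞 K) - 1 ∈ 𝔫)
    (g : G K) : ψ (g * aInf175 (unitLog175 K ε)) = ψ g := by
  have h1 : ψ (T5.ratG (ratScal627 (unitK175 ε)) * g) = ψ g := hψ.left_inv _ g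
  have h2 : T5.ratG (ratScal627 (unitK175 ε)) * g
      = g * aInf175 (unitLog175 K ε) * scal627 (infUnit175 (phase175 ε))
        * scal627 (finUnit175 (finPart175 ε)) := by
    have hc : T5.ratG (ratScal627 (unitK175 ε)) * g
        = g * T5.ratG (ratScal627 (unitK175 ε)) := by
      rw [show T5.ratG (ratScal627 (unitK175 ε)) = scal627 (T1.ratUnit K (unitK175 ε)) from
        ratG_ratScal627 _]
      exact scal627_comm _ g
    rw [hc, ratG_unit175, ← mul_assoc, ← mul_assoc]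
  rw [h2, hψ.level_inv _ (inLevelGroup_finUnit175 hε), inv_phase175 hψ] at h1
  exact h1

/-! ## 8. The period basis of a level and a ray generator -/

theorem exists_pow_congr175 {𝔫 : Ideal (𝓞 K)} (h𝔫 : 𝔫 ≠ ⊥) :
    ∃ N : ℕ, 0 < N ∧ ∀ ε : (𝓞 K)ˣ, ((ε ^ N : (𝓞 K)ˣ) : 𝓞 K) - 1 ∈ 𝔫 := by
  haveI : Finite (𝓞 K ⧸ 𝔫) := Ideal.finiteQuotientOfFreeOfNeBot 𝔫 h𝔫
  refine ⟨Nat.card (𝓞 K ⧸ 𝔫)ˣ, Nat.card_pos, fun ε => ?_⟩
  have h1 : (Units.map (Ideal.Quotient.mk 𝔫).toMonoidHom ε) ^ Nat.card (𝓞 K ⧸ 𝔫)ˣ = 1 :=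
    pow_card_eq_one'
  have h2 : Ideal.Quotient.mk 𝔫 ((ε ^ Nat.card (𝓞 K ⧸ 𝔫)ˣ : (𝓞 K)ˣ) : 𝓞 K) = 1 := by
    have h3 : ((Units.map (Ideal.Quotient.mk 𝔫).toMonoidHom ε ^ Nat.card (𝓞 K ⧸ 𝔫)ˣ :
        (𝓞 K ⧸ 𝔫)ˣ) : 𝓞 K ⧸ 𝔫) = 1 := by rw [h1]; rfl
    rw [Units.val_pow_eq_pow_val] at h3
    rw [Units.val_pow_eq_pow_val, map_pow]
    exact h3
  rw [← Ideal.Quotient.eq_zero_iff_mem, map_sub, h2, map_one, sub_self]

theorem unitLog175_pow (ε : (𝓞 K)ˣ) (N : ℕ) :
    unitLog175 K (ε ^ N) = (N : ℝ) • unitLog175 K ε := by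
  funext w
  show Real.log (w (((ε ^ N : (𝓞 K)ˣ) : 𝓞 K) : K)) = (N : ℝ) * Real.log (w ((ε : 𝓞 K) : K))
  have h1 : (((ε ^ N : (𝓞 K)ˣ) : 𝓞 K) : K) = (((ε : 𝓞 K) : K)) ^ N := by
    rw [Units.val_pow_eq_pow_val]
    rfl
  rw [h1, map_pow, Real.log_pow]

/-- **THE PERIOD BASIS** of the automorphic functions of level `𝔫` and trivial type in the frame
of T5 with ray generator `r`. -/
theorem exists_archPeriodBasis175 {𝔫 : Ideal (𝓞 K)} (h𝔫 : 𝔫 ≠ ⊥) {r : G K}
    (hr : T5.IsRayGen r) :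
    ∃ b : Basis (Option (Fin (NumberField.Units.rank K))) ℝ (InfinitePlace K → ℝ),
      ∀ (i : Option (Fin (NumberField.Units.rank K))) (ψ : G K → ℂ),
        T5.IsAutomorphicFn 𝔫 T5.trivType r ψ → ∀ g : G K, ψ (g * aInf175 (b i)) = ψ g := by
  obtain ⟨c, hc, hrc⟩ := rayGen_eq_aInf175 hr
  obtain ⟨N, hN, hcong⟩ := exists_pow_congr175 h𝔫
  refine ⟨periodBasis175 K hc hN, fun i ψ hψ g => ?_⟩
  rw [periodBasis175_apply]
  cases i with
  | none =>
    show ψ (g * aInf175 (fun _ => c)) = ψ g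
    rw [← hrc]
    exact hψ.ray g
  | some j =>
    show ψ (g * aInf175 ((N : ℝ) • unitLog175 K (NumberField.Units.fundSystem K j))) = ψ g
    rw [← unitLog175_pow]
    exact inv_unit175 hψ (hcong _) g

end Fermat.Agent.LT.T7.H175

end

end
-- ===== PACK-END LT/T7/H175/ArchPeriod.lean

-- ===== PACK-BEGIN LT/T7/H750/TwSection.lean
section




/-!
# Row LT, tower T7, F/Q mirror (station `UpFactQ`, infinite place), ASSET (helper750), OFF-MAIN,
# MATHLIB ONLY: the TWISTED closed orbit in `GL₂(ℂ)` and the integrability of the twisted cut-off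
# orbital integrand

Twist = complex conjugation `cj750` on `GL₂(ℂ)`, `re750 : GL₂(ℝ) → GL₂(ℂ)`.

* `integrable_mul_cut_of_section_hom750`: the integrability lemma of `OrbIntCore.lean` for a
  continuous homomorphism `ι : H → G` in place of a closed subgroup (cut-off functions normalised
  against a Haar measure of `H`).
* `exists_compact_section_tw750`: `δ ∈ GL₂(ℂ)` with `δ δ̄ = γ₁ ∈ GL₂(ℝ)` regular, `C` compact: there
  is a compact `Ω₀` such that every `x` with `x⁻¹ δ x̄ ∈ C` is `t ω`, `t` in the centraliser of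
  `γ₁` in `GL₂(ℝ)`, `ω ∈ Ω₀`.
* **`integrable_tw_orbit_cut750`**: `x ↦ Φ(x⁻¹ δ x̄) β'(x)` is integrable on `GL₂(ℂ)` (`Φ` continuous
  of compact support, `β'` a continuous cut-off function normalised against a Haar measure of
  the centraliser of `γ₁` in `GL₂(ℝ)`).
-/

set_option autoImplicit false
set_option linter.unusedSectionVars false
set_option linter.style.haveILetI false

open MeasureTheory MeasureTheory.Measure Topology Set
open scoped ENNReal Pointwise ComplexConjugate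

noncomputable section

namespace Fermat.Agent.LT.T7.H750

/-! ## 1. The integrability lemma for a homomorphism -/

section Hom

variable {G : Type*} [Group G] [TopologicalSpace G] [IsTopologicalGroup G]
  [LocallyCompactSpace G] [SecondCountableTopology G] [T2Space G]
  [MeasurableSpace G] [BorelSpace G]
  {H : Type*} [Group H] [TopologicalSpace H] [IsTopologicalGroup H]
  [SecondCountableTopology H] [SigmaCompactSpace H] [MeasurableSpace H] [BorelSpace H]

theorem lintegral_cut_hom750 (ι : H →* G) (μH : Measure H)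
    (β : G → ℝ) (hβ0 : ∀ x, 0 ≤ β x)
    (hβ1 : ∀ x : G, ∫ t : H, β (ι t * x) ∂μH = 1) (x : G) :
    ∫⁻ t : H, ENNReal.ofReal (β (ι t * x)) ∂μH = 1 := by
  rw [← ofReal_integral_eq_lintegral_ofReal (integrable_of_integral_eq_one (hβ1 x))
    (Filter.Eventually.of_forall fun t => hβ0 _), hβ1 x, ENNReal.ofReal_one]

theorem lintegral_avg_mul_cut_hom750 (ι : H →* G) (hι : Continuous ι)
    (μ : Measure G) [IsHaarMeasure μ] (μH : Measure H) [IsHaarMeasure μH]
    (β : G → ℝ) (hβc : Continuous β) (hβ0 : ∀ x, 0 ≤ β x)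
    (hβ1 : ∀ x : G, ∫ t : H, β (ι t * x) ∂μH = 1)
    (E : Set G) (hE : MeasurableSet E) :
    ∫⁻ y, (∫⁻ t : H, E.indicator (fun _ => (1 : ℝ≥0∞)) ((ι t)⁻¹ * y) ∂μH)
        * ENNReal.ofReal (β y) ∂μ = μ E := by
  have hm1 : Measurable (fun p : G × H =>
      E.indicator (fun _ => (1 : ℝ≥0∞)) ((ι p.2)⁻¹ * p.1) * ENNReal.ofReal (β p.1)) := by
    have h1 : Measurable (fun p : G × H => (ι p.2)⁻¹ * p.1) :=
      (((hι.comp continuous_snd).inv).mul continuous_fst).measurable
    have h2 : Measurable (fun p : G × H =>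
        E.indicator (fun _ => (1 : ℝ≥0∞)) ((ι p.2)⁻¹ * p.1)) :=
      (measurable_const.indicator hE).comp h1
    exact h2.mul (hβc.comp continuous_fst).measurable.ennreal_ofReal
  have hm2 : Measurable (fun p : H × G =>
      E.indicator (fun _ => (1 : ℝ≥0∞)) p.2 * ENNReal.ofReal (β (ι p.1 * p.2))) := by
    have h2 : Measurable (fun p : H × G => E.indicator (fun _ => (1 : ℝ≥0∞)) p.2) :=
      (measurable_const.indicator hE).comp measurable_snd
    exact h2.mul
      (hβc.comp ((hι.comp continuous_fst).mul continuous_snd)).measurable.ennreal_ofReal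
  calc ∫⁻ y, (∫⁻ t : H, E.indicator (fun _ => (1 : ℝ≥0∞)) ((ι t)⁻¹ * y) ∂μH)
          * ENNReal.ofReal (β y) ∂μ
      = ∫⁻ y, ∫⁻ t : H, E.indicator (fun _ => (1 : ℝ≥0∞)) ((ι t)⁻¹ * y)
          * ENNReal.ofReal (β y) ∂μH ∂μ := by
        refine lintegral_congr fun y => ?_
        rw [lintegral_mul_const]
        exact (measurable_const.indicator hE).comp
          (((hι.inv).mul continuous_const).measurable)
    _ = ∫⁻ t : H, ∫⁻ y, E.indicator (fun _ => (1 : ℝ≥0∞)) ((ι t)⁻¹ * y)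
          * ENNReal.ofReal (β y) ∂μ ∂μH :=
        lintegral_lintegral_swap hm1.aemeasurable
    _ = ∫⁻ t : H, ∫⁻ y, E.indicator (fun _ => (1 : ℝ≥0∞)) y
          * ENNReal.ofReal (β (ι t * y)) ∂μ ∂μH := by
        refine lintegral_congr fun t => ?_
        have h := lintegral_mul_left_eq_self (μ := μ)
          (fun y => E.indicator (fun _ => (1 : ℝ≥0∞)) ((ι t)⁻¹ * y) * ENNReal.ofReal (β y))
          (ι t)
        rw [← h]
        refine lintegral_congr fun y => ?_
        simp only [inv_mul_cancel_left]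
    _ = ∫⁻ y, ∫⁻ t : H, E.indicator (fun _ => (1 : ℝ≥0∞)) y
          * ENNReal.ofReal (β (ι t * y)) ∂μH ∂μ :=
        lintegral_lintegral_swap hm2.aemeasurable
    _ = ∫⁻ y, E.indicator (fun _ => (1 : ℝ≥0∞)) y ∂μ := by
        refine lintegral_congr fun y => ?_
        rw [lintegral_const_mul' _ _ (by
          by_cases hy : y ∈ E <;> simp [hy]), lintegral_cut_hom750 ι μH β hβ0 hβ1 y, mul_one]
    _ = μ E := by
        rw [lintegral_indicator hE, lintegral_const, one_mul, Measure.restrict_apply_univ]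

/-- **Integrability of the cut-off integrand, homomorphism form.** -/
theorem integrable_mul_cut_of_section_hom750 (ι : H →* G) (hι : Continuous ι)
    (μ : Measure G) [IsHaarMeasure μ] (μH : Measure H) [IsHaarMeasure μH]
    (β : G → ℝ) (hβc : Continuous β) (hβ0 : ∀ x, 0 ≤ β x)
    (hβ1 : ∀ x : G, ∫ t : H, β (ι t * x) ∂μH = 1)
    (Ω₀ : Set G) (hΩ : IsCompact Ω₀)
    (Φ : G → ℂ) (hΦm : AEStronglyMeasurable Φ μ) (M : ℝ) (hΦb : ∀ y, ‖Φ y‖ ≤ M)
    (hΦs : ∀ y, Φ y ≠ 0 → ∃ t : H, ∃ ω ∈ Ω₀, y = ι t * ω) :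
    Integrable (fun y => Φ y * ((β y : ℝ) : ℂ)) μ := by
  obtain ⟨V, hVc, hV1⟩ := exists_compact_mem_nhds (1 : G)
  set E : Set G := V * Ω₀ with hEdef
  have hEc : IsCompact E := hVc.mul hΩ
  have hEm : MeasurableSet E := hEc.isClosed.measurableSet
  set A : Set H := {s : H | (ι s)⁻¹ ∈ V} with hAdef
  have hAm : MeasurableSet A :=
    (hVc.isClosed.preimage (hι.inv)).measurableSet
  have hA1 : A ∈ 𝓝 (1 : H) := by
    have hc : ContinuousAt (fun s : H => (ι s)⁻¹) 1 := (hι.inv).continuousAt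
    have : V ∈ 𝓝 ((fun s : H => (ι s)⁻¹) 1) := by simpa using hV1
    exact hc this
  have hApos : 0 < μH A := measure_pos_of_mem_nhds μH hA1
  set c : ℝ≥0∞ := min (μH A) 1 with hcdef
  have hc0 : c ≠ 0 := by
    rw [hcdef]
    exact (lt_min hApos one_pos).ne'
  have hctop : c ≠ ⊤ := (lt_of_le_of_lt (min_le_right _ _) ENNReal.one_lt_top).ne
  set Ψ : G → ℝ≥0∞ :=
    fun y => ∫⁻ t : H, E.indicator (fun _ => (1 : ℝ≥0∞)) ((ι t)⁻¹ * y) ∂μH with hΨdef
  have hΨ : ∀ y, Φ y ≠ 0 → c ≤ Ψ y := by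
    intro y hy
    obtain ⟨t₀, ω, hω, rfl⟩ := hΦs y hy
    have hsub : ∀ t : H, ((fun s : H => t₀⁻¹ * s) ⁻¹' A).indicator (fun _ => (1 : ℝ≥0∞)) t
        ≤ E.indicator (fun _ => (1 : ℝ≥0∞)) ((ι t)⁻¹ * (ι t₀ * ω)) := by
      intro t
      by_cases ht : t ∈ (fun s : H => t₀⁻¹ * s) ⁻¹' A
      · have h1 : (ι t)⁻¹ * ι t₀ ∈ V := by
          have h2 : (ι (t₀⁻¹ * t))⁻¹ ∈ V := ht
          simpa [map_mul, map_inv, mul_inv_rev] using h2
        have h3 : (ι t)⁻¹ * (ι t₀ * ω) ∈ E := by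
          rw [← mul_assoc]
          exact Set.mul_mem_mul h1 hω
        rw [Set.indicator_of_mem ht, Set.indicator_of_mem h3]
      · rw [Set.indicator_of_notMem ht]
        exact bot_le
    calc c ≤ μH A := min_le_left _ _
      _ = μH ((fun s : H => t₀⁻¹ * s) ⁻¹' A) := (measure_preimage_mul μH t₀⁻¹ A).symm
      _ = ∫⁻ t : H, ((fun s : H => t₀⁻¹ * s) ⁻¹' A).indicator (fun _ => (1 : ℝ≥0∞)) t ∂μH := by
          rw [lintegral_indicator ((measurable_const_mul _) hAm), lintegral_const, one_mul,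
            Measure.restrict_apply_univ]
      _ ≤ Ψ (ι t₀ * ω) := lintegral_mono hsub
  have hM0 : 0 ≤ M := le_trans (norm_nonneg _) (hΦb 1)
  have hbound : ∀ y, ‖Φ y * ((β y : ℝ) : ℂ)‖ₑ
      ≤ (ENNReal.ofReal M * c⁻¹) * (Ψ y * ENNReal.ofReal (β y)) := by
    intro y
    by_cases hy : Φ y = 0
    · simp [hy]
    · have h1 : ‖Φ y * ((β y : ℝ) : ℂ)‖ₑ = ENNReal.ofReal ‖Φ y‖ * ENNReal.ofReal (β y) := by
        rw [enorm_mul, ← ofReal_norm, ← ofReal_norm, Complex.norm_real,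
          Real.norm_of_nonneg (hβ0 y)]
      have h2 : (1 : ℝ≥0∞) ≤ c⁻¹ * Ψ y := by
        calc (1 : ℝ≥0∞) = c⁻¹ * c := (ENNReal.inv_mul_cancel hc0 hctop).symm
          _ ≤ c⁻¹ * Ψ y := by gcongr; exact hΨ y hy
      calc ‖Φ y * ((β y : ℝ) : ℂ)‖ₑ = ENNReal.ofReal ‖Φ y‖ * ENNReal.ofReal (β y) := h1
        _ ≤ ENNReal.ofReal M * ENNReal.ofReal (β y) := by
            gcongr; exact hΦb y
        _ = ENNReal.ofReal M * 1 * ENNReal.ofReal (β y) := by rw [mul_one]
        _ ≤ ENNReal.ofReal M * (c⁻¹ * Ψ y) * ENNReal.ofReal (β y) := by gcongr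
        _ = (ENNReal.ofReal M * c⁻¹) * (Ψ y * ENNReal.ofReal (β y)) := by ring
  refine ⟨hΦm.mul (Complex.continuous_ofReal.comp hβc).aestronglyMeasurable, ?_⟩
  rw [hasFiniteIntegral_iff_enorm]
  calc ∫⁻ y, ‖Φ y * ((β y : ℝ) : ℂ)‖ₑ ∂μ
      ≤ ∫⁻ y, (ENNReal.ofReal M * c⁻¹) * (Ψ y * ENNReal.ofReal (β y)) ∂μ :=
        lintegral_mono hbound
    _ = (ENNReal.ofReal M * c⁻¹) * ∫⁻ y, Ψ y * ENNReal.ofReal (β y) ∂μ :=
        lintegral_const_mul' _ _ (ENNReal.mul_ne_top ENNReal.ofReal_ne_top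
          (ENNReal.inv_ne_top.mpr hc0))
    _ = (ENNReal.ofReal M * c⁻¹) * μ E := by
        rw [hΨdef, lintegral_avg_mul_cut_hom750 ι hι μ μH β hβc hβ0 hβ1 E hEm]
    _ < ⊤ := ENNReal.mul_lt_top (ENNReal.mul_lt_top ENNReal.ofReal_lt_top
          (ENNReal.inv_lt_top.mpr (pos_iff_ne_zero.mpr hc0))) hEc.measure_lt_top

end Hom

/-! ## 2. The complex conjugation and the real points -/

/-- The complex conjugation of `GL₂(ℂ)`. -/
def cj750 : GL (Fin 2) ℂ →* GL (Fin 2) ℂ :=
  Matrix.GeneralLinearGroup.map ((starRingAut : ℂ ≃+* ℂ) : ℂ →+* ℂ)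

/-- `GL₂(ℝ) → GL₂(ℂ)`. -/
def re750 : GL (Fin 2) ℝ →* GL (Fin 2) ℂ := Matrix.GeneralLinearGroup.map (algebraMap ℝ ℂ)

theorem cj_val750 (x : GL (Fin 2) ℂ) :
    ((cj750 x : GL (Fin 2) ℂ) : Matrix (Fin 2) (Fin 2) ℂ)
      = (x : Matrix (Fin 2) (Fin 2) ℂ).map (fun z => conj z) := rfl

theorem re_val750 (x : GL (Fin 2) ℝ) :
    ((re750 x : GL (Fin 2) ℂ) : Matrix (Fin 2) (Fin 2) ℂ)
      = (x : Matrix (Fin 2) (Fin 2) ℝ).map (fun r => (r : ℂ)) := rfl

theorem cj_cj750 (x : GL (Fin 2) ℂ) : cj750 (cj750 x) = x := by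
  apply Units.ext
  rw [cj_val750, cj_val750]
  ext i j
  simp

theorem cj_re750 (x : GL (Fin 2) ℝ) : cj750 (re750 x) = re750 x := by
  apply Units.ext
  rw [cj_val750, re_val750]
  ext i j
  simp

theorem continuous_cj750 : Continuous cj750 := by
  have h : Continuous fun M : Matrix (Fin 2) (Fin 2) ℂ =>
      M.map ((starRingAut : ℂ ≃+* ℂ) : ℂ →+* ℂ) :=
    continuous_id.matrix_map Complex.continuous_conj
  exact Continuous.units_map _ h

theorem continuous_re750 : Continuous re750 := by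
  have h : Continuous fun M : Matrix (Fin 2) (Fin 2) ℝ => M.map (algebraMap ℝ ℂ) :=
    continuous_id.matrix_map Complex.continuous_ofReal
  exact Continuous.units_map _ h

theorem re_injective750 : Function.Injective re750 := by
  intro x y h
  apply Units.ext
  have h2 := congrArg (fun g : GL (Fin 2) ℂ => (g : Matrix (Fin 2) (Fin 2) ℂ)) h
  simp only [re_val750] at h2
  ext i j
  have h3 := congrFun (congrFun h2 i) j
  simpa using h3

theorem det_ne_zero750' (h : GL (Fin 2) ℂ) : (h : Matrix (Fin 2) (Fin 2) ℂ).det ≠ 0 :=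
  ((Matrix.isUnit_iff_isUnit_det _).mp h.isUnit).ne_zero

/-- An element of `GL₂(ℂ)` fixed by the conjugation is real. -/
theorem exists_real_of_conj750 (t : GL (Fin 2) ℂ) (h : cj750 t = t) :
    ∃ M : GL (Fin 2) ℝ, re750 M = t := by
  have he : ∀ i j, (((t : Matrix (Fin 2) (Fin 2) ℂ) i j).re : ℂ)
      = (t : Matrix (Fin 2) (Fin 2) ℂ) i j := by
    intro i j
    have h2 := congrArg (fun g : GL (Fin 2) ℂ => (g : Matrix (Fin 2) (Fin 2) ℂ) i j) h
    simp only [cj_val750, Matrix.map_apply] at h2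
    exact Complex.conj_eq_iff_re.mp h2
  set M₀ : Matrix (Fin 2) (Fin 2) ℝ := fun i j => ((t : Matrix (Fin 2) (Fin 2) ℂ) i j).re
    with hM₀
  have hmap : M₀.map (algebraMap ℝ ℂ) = (t : Matrix (Fin 2) (Fin 2) ℂ) := by
    ext i j
    simp only [hM₀]
    exact he i j
  have hdet : M₀.det ≠ 0 := by
    intro h0
    have h1 : (algebraMap ℝ ℂ) M₀.det = (M₀.map (algebraMap ℝ ℂ)).det := by
      rw [RingHom.map_det]
      rfl
    rw [h0, map_zero, hmap] at h1
    exact det_ne_zero750' t h1.symm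
  refine ⟨Matrix.GeneralLinearGroup.mkOfDetNeZero M₀ hdet, ?_⟩
  apply Units.ext
  rw [re_val750]
  exact hmap

/-! ## 3. The twisted compact section -/

theorem disc_re750 (γ₁ : GL (Fin 2) ℝ)
    (hreg : (γ₁ : Matrix (Fin 2) (Fin 2) ℝ).trace ^ 2
      - 4 * (γ₁ : Matrix (Fin 2) (Fin 2) ℝ).det ≠ 0) :
    ((re750 γ₁ : GL (Fin 2) ℂ) : Matrix (Fin 2) (Fin 2) ℂ).trace ^ 2
      - 4 * ((re750 γ₁ : GL (Fin 2) ℂ) : Matrix (Fin 2) (Fin 2) ℂ).det ≠ 0 := by
  have h : ((re750 γ₁ : GL (Fin 2) ℂ) : Matrix (Fin 2) (Fin 2) ℂ).trace ^ 2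
      - 4 * ((re750 γ₁ : GL (Fin 2) ℂ) : Matrix (Fin 2) (Fin 2) ℂ).det
      = (((γ₁ : Matrix (Fin 2) (Fin 2) ℝ).trace ^ 2
        - 4 * (γ₁ : Matrix (Fin 2) (Fin 2) ℝ).det : ℝ) : ℂ) := by
    rw [re_val750]
    simp only [Matrix.trace_fin_two, Matrix.det_fin_two, Matrix.map_apply]
    push_cast
    ring
  rw [h]
  exact_mod_cast hreg

/-- Commuting in the group from commuting with a regular element. -/
theorem comm_of_cent750 (g x y : GL (Fin 2) ℂ)
    (hreg : (g : Matrix (Fin 2) (Fin 2) ℂ).trace ^ 2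
      - 4 * (g : Matrix (Fin 2) (Fin 2) ℂ).det ≠ 0)
    (hx : x * g = g * x) (hy : y * g = g * y) : x * y = y * x := by
  apply Units.ext
  rw [Units.val_mul, Units.val_mul]
  refine comm_of_comm_regular750 _ _ _ hreg ?_ ?_
  · rw [← Units.val_mul, ← Units.val_mul, hx]
  · rw [← Units.val_mul, ← Units.val_mul, hy]

/-- **THE TWISTED COMPACT SECTION.** -/
theorem exists_compact_section_tw750 (γ₁ : GL (Fin 2) ℝ)
    (hreg : (γ₁ : Matrix (Fin 2) (Fin 2) ℝ).trace ^ 2
      - 4 * (γ₁ : Matrix (Fin 2) (Fin 2) ℝ).det ≠ 0)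
    (δ : GL (Fin 2) ℂ) (hN : δ * cj750 δ = re750 γ₁)
    (C : Set (GL (Fin 2) ℂ)) (hC : IsCompact C) :
    ∃ Ω₀ : Set (GL (Fin 2) ℂ), IsCompact Ω₀ ∧
      ∀ x : GL (Fin 2) ℂ, x⁻¹ * δ * cj750 x ∈ C →
        ∃ (t : GL (Fin 2) ℝ) (ω : GL (Fin 2) ℂ),
          t⁻¹ * γ₁ * t = γ₁ ∧ ω ∈ Ω₀ ∧ x = re750 t * ω := by
  classical
  set γ' : GL (Fin 2) ℂ := re750 γ₁ with hγ'
  have hreg' := disc_re750 γ₁ hreg
  have hcjγ : cj750 γ' = γ' := cj_re750 γ₁
  -- `δ` commutes with `γ'`
  have hδ' : cj750 δ * δ = γ' := by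
    have h1 := congrArg cj750 hN
    rw [map_mul, cj_cj750, hcjγ] at h1
    exact h1
  have hδγ : δ * γ' = γ' * δ := by
    calc δ * γ' = δ * (cj750 δ * δ) := by rw [hδ']
      _ = (δ * cj750 δ) * δ := by rw [mul_assoc]
      _ = γ' * δ := by rw [hN]
  -- the untwisted section for the norms
  have hC₁ : IsCompact ((fun c : GL (Fin 2) ℂ => c * cj750 c) '' C) :=
    hC.image (continuous_id.mul continuous_cj750)
  obtain ⟨Ω₁, hΩ₁, hsec⟩ := exists_compact_section750 γ' hreg' _ hC₁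
  -- the compact set of the `u = t⁻¹ t̄`
  have hC₃ : IsCompact ((fun p : GL (Fin 2) ℂ × GL (Fin 2) ℂ × GL (Fin 2) ℂ =>
      p.1 * p.2.1 * (cj750 p.2.2)⁻¹ * δ⁻¹) '' (Ω₁ ×ˢ (C ×ˢ Ω₁))) := by
    refine (hΩ₁.prod (hC.prod hΩ₁)).image ?_
    exact ((continuous_fst.mul (continuous_fst.comp continuous_snd)).mul
      ((continuous_cj750.comp (continuous_snd.comp continuous_snd)).inv)).mul continuous_const
  set C₃ : Set (GL (Fin 2) ℂ) := (fun p : GL (Fin 2) ℂ × GL (Fin 2) ℂ × GL (Fin 2) ℂ =>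
      p.1 * p.2.1 * (cj750 p.2.2)⁻¹ * δ⁻¹) '' (Ω₁ ×ˢ (C ×ˢ Ω₁)) with hC₃def
  -- the open cover
  have hv : Continuous fun u : GL (Fin 2) ℂ => (u : Matrix (Fin 2) (Fin 2) ℂ) :=
    Units.continuous_val
  have hmat : ∀ j : Fin 3, Continuous fun u : GL (Fin 2) ℂ =>
      av750 j • (1 : Matrix (Fin 2) (Fin 2) ℂ)
        + conj (av750 j) • (u : Matrix (Fin 2) (Fin 2) ℂ) := fun j =>
    continuous_const.add (hv.const_smul (conj (av750 j)))
  set U : Fin 3 → Set (GL (Fin 2) ℂ) := fun j =>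
    {u | (av750 j • (1 : Matrix (Fin 2) (Fin 2) ℂ)
      + conj (av750 j) • (u : Matrix (Fin 2) (Fin 2) ℂ)).det ≠ 0} with hUdef
  have hUo : ∀ j, IsOpen (U j) := fun j =>
    isOpen_ne_fun (hmat j).matrix_det continuous_const
  have hcov : C₃ ⊆ ⋃ j ∈ (Finset.univ : Finset (Fin 3)), U j := by
    intro u _
    obtain ⟨j, hj⟩ := exists_det_three750 (u : Matrix (Fin 2) (Fin 2) ℂ)
    exact Set.mem_biUnion (Finset.mem_univ j) hj
  obtain ⟨K, hKc, hKU, hKeq⟩ :=
    hC₃.finite_compact_cover Finset.univ U (fun j _ => hUo j) hcov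
  let V : ∀ j : Fin 3, K j → GL (Fin 2) ℂ := fun j u =>
    Matrix.GeneralLinearGroup.mkOfDetNeZero
      (av750 j • (1 : Matrix (Fin 2) (Fin 2) ℂ)
        + conj (av750 j) • ((u : GL (Fin 2) ℂ) : Matrix (Fin 2) (Fin 2) ℂ)) (hKU j u.2)
  have hV : ∀ j, Continuous (V j) := by
    intro j
    rw [Units.continuous_iff]
    have hr : Continuous fun u : K j =>
        av750 j • (1 : Matrix (Fin 2) (Fin 2) ℂ)
          + conj (av750 j) • ((u : GL (Fin 2) ℂ) : Matrix (Fin 2) (Fin 2) ℂ) :=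
      (hmat j).comp continuous_subtype_val
    refine ⟨hr, ?_⟩
    have hinv : (fun u : K j => ((V j u)⁻¹ : GL (Fin 2) ℂ).val)
        = fun u : K j =>
          ((av750 j • (1 : Matrix (Fin 2) (Fin 2) ℂ)
            + conj (av750 j) • ((u : GL (Fin 2) ℂ) : Matrix (Fin 2) (Fin 2) ℂ)).det)⁻¹ •
            (av750 j • (1 : Matrix (Fin 2) (Fin 2) ℂ)
              + conj (av750 j) •
                ((u : GL (Fin 2) ℂ) : Matrix (Fin 2) (Fin 2) ℂ)).adjugate := by
      funext u
      rw [Matrix.coe_units_inv]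
      change (av750 j • (1 : Matrix (Fin 2) (Fin 2) ℂ)
        + conj (av750 j) • ((u : GL (Fin 2) ℂ) : Matrix (Fin 2) (Fin 2) ℂ))⁻¹ = _
      rw [Matrix.inv_def, Ring.inverse_eq_inv']
    rw [hinv]
    exact (hr.matrix_det.inv₀ fun u => hKU j u.2).smul hr.matrix_adjugate
  have hΩ₂ : IsCompact (⋃ j, Set.range fun u : K j => (V j u)⁻¹) := by
    refine isCompact_iUnion fun j => ?_
    haveI : CompactSpace (K j) := isCompact_iff_compactSpace.mp (hKc j)
    exact isCompact_range (hV j).inv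
  refine ⟨(⋃ j, Set.range fun u : K j => (V j u)⁻¹) * Ω₁, hΩ₂.mul hΩ₁, ?_⟩
  intro x hx
  -- the norm of `c = x⁻¹ δ x̄`
  have hnorm : (x⁻¹ * δ * cj750 x) * cj750 (x⁻¹ * δ * cj750 x) = x⁻¹ * γ' * x := by
    rw [map_mul, map_mul, map_inv, cj_cj750]
    calc x⁻¹ * δ * cj750 x * ((cj750 x)⁻¹ * cj750 δ * x)
        = x⁻¹ * (δ * cj750 δ) * x := by group
      _ = x⁻¹ * γ' * x := by rw [hN]
  have hmem : x⁻¹ * γ' * x ∈ (fun c : GL (Fin 2) ℂ => c * cj750 c) '' C :=
    ⟨x⁻¹ * δ * cj750 x, hx, hnorm⟩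
  obtain ⟨t, ω₁, ht, hω₁, rfl⟩ := hsec x hmem
  -- commutation
  have htγ : t * γ' = γ' * t := by
    calc t * γ' = t * (t⁻¹ * γ' * t) := by rw [ht]
      _ = γ' * t := by group
  have hctγ : cj750 t * γ' = γ' * cj750 t := by
    have h1 := congrArg cj750 htγ
    rw [map_mul, map_mul, hcjγ] at h1
    exact h1
  have hcomm : cj750 t * δ = δ * cj750 t := comm_of_cent750 γ' _ _ hreg' hctγ hδγ
  have hcomm2 : t * cj750 t = cj750 t * t := comm_of_cent750 γ' _ _ hreg' htγ hctγ
  -- `u = t⁻¹ t̄` is in `C₃`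
  set u : GL (Fin 2) ℂ := t⁻¹ * cj750 t with hu
  have huC : u ∈ C₃ := by
    refine ⟨(ω₁, (t * ω₁)⁻¹ * δ * cj750 (t * ω₁), ω₁), ⟨hω₁, hx, hω₁⟩, ?_⟩
    simp only [map_mul]
    calc ω₁ * ((t * ω₁)⁻¹ * δ * (cj750 t * cj750 ω₁)) * (cj750 ω₁)⁻¹ * δ⁻¹
        = t⁻¹ * (δ * cj750 t) * δ⁻¹ := by group
      _ = t⁻¹ * (cj750 t * δ) * δ⁻¹ := by rw [hcomm]
      _ = u := by rw [hu]; group
  rw [hKeq] at huC
  obtain ⟨j, -, hj⟩ := Set.mem_iUnion₂.mp huC
  set W : GL (Fin 2) ℂ := V j ⟨u, hj⟩ with hW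
  have hWval : (W : Matrix (Fin 2) (Fin 2) ℂ)
      = av750 j • (1 : Matrix (Fin 2) (Fin 2) ℂ)
        + conj (av750 j) • (u : Matrix (Fin 2) (Fin 2) ℂ) := rfl
  -- `t' = t W = a t + ā t̄`
  have htW : ((t * W : GL (Fin 2) ℂ) : Matrix (Fin 2) (Fin 2) ℂ)
      = av750 j • (t : Matrix (Fin 2) (Fin 2) ℂ)
        + conj (av750 j) • ((cj750 t : GL (Fin 2) ℂ) : Matrix (Fin 2) (Fin 2) ℂ) := by
    have h1 : (t : Matrix (Fin 2) (Fin 2) ℂ) * (u : Matrix (Fin 2) (Fin 2) ℂ)
        = ((cj750 t : GL (Fin 2) ℂ) : Matrix (Fin 2) (Fin 2) ℂ) := by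
      rw [← Units.val_mul, hu, mul_inv_cancel_left]
    rw [Units.val_mul, hWval, mul_add, Matrix.mul_smul, Matrix.mul_smul, Matrix.mul_one, h1]
  have hfix : cj750 (t * W) = t * W := by
    apply Units.ext
    rw [cj_val750, htW, cj_val750]
    ext a b
    simp only [Matrix.map_apply, Matrix.add_apply, Matrix.smul_apply, smul_eq_mul, map_add,
      map_mul, Complex.conj_conj]
    ring
  obtain ⟨M, hM⟩ := exists_real_of_conj750 (t * W) hfix
  -- `M` is in the centraliser of `γ₁`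
  have htWγ : (t * W) * γ' = γ' * (t * W) := by
    apply Units.ext
    have e1 : ((t * W * γ' : GL (Fin 2) ℂ) : Matrix (Fin 2) (Fin 2) ℂ)
        = ((t * W : GL (Fin 2) ℂ) : Matrix (Fin 2) (Fin 2) ℂ)
          * (γ' : Matrix (Fin 2) (Fin 2) ℂ) := Units.val_mul _ _
    have e2 : ((γ' * (t * W) : GL (Fin 2) ℂ) : Matrix (Fin 2) (Fin 2) ℂ)
        = (γ' : Matrix (Fin 2) (Fin 2) ℂ)
          * ((t * W : GL (Fin 2) ℂ) : Matrix (Fin 2) (Fin 2) ℂ) := Units.val_mul _ _
    have m1 : (t : Matrix (Fin 2) (Fin 2) ℂ) * (γ' : Matrix (Fin 2) (Fin 2) ℂ)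
        = (γ' : Matrix (Fin 2) (Fin 2) ℂ) * (t : Matrix (Fin 2) (Fin 2) ℂ) := by
      rw [← Units.val_mul, ← Units.val_mul, htγ]
    have m2 : ((cj750 t : GL (Fin 2) ℂ) : Matrix (Fin 2) (Fin 2) ℂ)
          * (γ' : Matrix (Fin 2) (Fin 2) ℂ)
        = (γ' : Matrix (Fin 2) (Fin 2) ℂ)
          * ((cj750 t : GL (Fin 2) ℂ) : Matrix (Fin 2) (Fin 2) ℂ) := by
      rw [← Units.val_mul, ← Units.val_mul, hctγ]
    rw [e1, e2, htW, add_mul, mul_add, Matrix.smul_mul, Matrix.mul_smul, Matrix.smul_mul,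
      Matrix.mul_smul, m1, m2]
  have hMc : M⁻¹ * γ₁ * M = γ₁ := by
    apply re_injective750
    rw [map_mul, map_mul, map_inv, hM, ← hγ']
    calc (t * W)⁻¹ * γ' * (t * W) = (t * W)⁻¹ * (γ' * (t * W)) := by rw [mul_assoc]
      _ = (t * W)⁻¹ * ((t * W) * γ') := by rw [htWγ]
      _ = γ' := by group
  refine ⟨M, W⁻¹ * ω₁, hMc, ?_, ?_⟩
  · exact Set.mul_mem_mul (Set.mem_iUnion.mpr ⟨j, ⟨⟨u, hj⟩, rfl⟩⟩) hω₁
  · rw [hM]
    group

/-! ## 4. Integrability of the twisted cut-off orbital integrand -/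

theorem locallyCompactSpace_GL2C750' : LocallyCompactSpace (GL (Fin 2) ℂ) := by
  have : LocallyCompactSpace (Matrix (Fin 2) (Fin 2) ℂ) :=
    inferInstanceAs (LocallyCompactSpace (Fin 2 → Fin 2 → ℂ))
  have : T2Space (Matrix (Fin 2) (Fin 2) ℂ) := inferInstanceAs (T2Space (Fin 2 → Fin 2 → ℂ))
  infer_instance

theorem secondCountableTopology_GL2C750' : SecondCountableTopology (GL (Fin 2) ℂ) := by
  have : SecondCountableTopology (Matrix (Fin 2) (Fin 2) ℂ) :=
    inferInstanceAs (SecondCountableTopology (Fin 2 → Fin 2 → ℂ))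
  have : SecondCountableTopology (Matrix (Fin 2) (Fin 2) ℂ)ᵐᵒᵖ :=
    (MulOpposite.opHomeomorph
      (M := Matrix (Fin 2) (Fin 2) ℂ)).symm.isEmbedding.secondCountableTopology
  exact Units.isEmbedding_embedProduct.secondCountableTopology

theorem locallyCompactSpace_GL2R750 : LocallyCompactSpace (GL (Fin 2) ℝ) := by
  have : LocallyCompactSpace (Matrix (Fin 2) (Fin 2) ℝ) :=
    inferInstanceAs (LocallyCompactSpace (Fin 2 → Fin 2 → ℝ))
  have : T2Space (Matrix (Fin 2) (Fin 2) ℝ) := inferInstanceAs (T2Space (Fin 2 → Fin 2 → ℝ))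
  infer_instance

theorem secondCountableTopology_GL2R750 : SecondCountableTopology (GL (Fin 2) ℝ) := by
  have : SecondCountableTopology (Matrix (Fin 2) (Fin 2) ℝ) :=
    inferInstanceAs (SecondCountableTopology (Fin 2 → Fin 2 → ℝ))
  have : SecondCountableTopology (Matrix (Fin 2) (Fin 2) ℝ)ᵐᵒᵖ :=
    (MulOpposite.opHomeomorph
      (M := Matrix (Fin 2) (Fin 2) ℝ)).symm.isEmbedding.secondCountableTopology
  exact Units.isEmbedding_embedProduct.secondCountableTopology

/-- **INTEGRABILITY OF THE TWISTED CUT-OFF ORBITAL INTEGRAND.**  `γ₁ ∈ GL₂(ℝ)` regular, `T` its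
centraliser in `GL₂(ℝ)` with a Haar measure `μT`, `δ ∈ GL₂(ℂ)` with `δ δ̄ = γ₁`, `β'` a continuous
cut-off function on `GL₂(ℂ)` (`∫_T β'(t x) dμT(t) = 1`), `Φ` continuous of compact support: then
`x ↦ Φ(x⁻¹ δ x̄) β'(x)` is integrable for every Haar measure of `GL₂(ℂ)`. -/
theorem integrable_tw_orbit_cut750
    [MeasurableSpace (GL (Fin 2) ℂ)] [BorelSpace (GL (Fin 2) ℂ)]
    (γ₁ : GL (Fin 2) ℝ)
    (hreg : (γ₁ : Matrix (Fin 2) (Fin 2) ℝ).trace ^ 2
      - 4 * (γ₁ : Matrix (Fin 2) (Fin 2) ℝ).det ≠ 0)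
    (T : Subgroup (GL (Fin 2) ℝ)) (hT : ∀ x : GL (Fin 2) ℝ, x ∈ T ↔ x⁻¹ * γ₁ * x = γ₁)
    [MeasurableSpace T] [BorelSpace T]
    (μ : Measure (GL (Fin 2) ℂ)) [IsHaarMeasure μ] (μT : Measure T) [IsHaarMeasure μT]
    (δ : GL (Fin 2) ℂ) (hN : δ * cj750 δ = re750 γ₁)
    (β' : GL (Fin 2) ℂ → ℝ) (hβc : Continuous β') (hβ0 : ∀ x, 0 ≤ β' x)
    (hβ1 : ∀ x : GL (Fin 2) ℂ, ∫ t : T, β' (re750 (t : GL (Fin 2) ℝ) * x) ∂μT = 1)
    (Φ : GL (Fin 2) ℂ → ℂ) (hΦ : Continuous Φ) (hΦc : HasCompactSupport Φ) :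
    Integrable (fun x : GL (Fin 2) ℂ => Φ (x⁻¹ * δ * cj750 x) * ((β' x : ℝ) : ℂ)) μ := by
  haveI := locallyCompactSpace_GL2C750'
  haveI := secondCountableTopology_GL2C750'
  haveI := locallyCompactSpace_GL2R750
  haveI := secondCountableTopology_GL2R750
  have hTcl : IsClosed (T : Set (GL (Fin 2) ℝ)) := by
    have h : (T : Set (GL (Fin 2) ℝ)) = {x | x⁻¹ * γ₁ * x = γ₁} := by
      ext x; exact hT x
    rw [h]
    exact isClosed_eq ((continuous_inv.mul continuous_const).mul continuous_id) continuous_const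
  haveI : SigmaCompactSpace T := (hTcl.isClosedEmbedding_subtypeVal).sigmaCompactSpace
  haveI : SecondCountableTopology T := TopologicalSpace.Subtype.secondCountableTopology _
  obtain ⟨Ω₀, hΩ, hsec⟩ := exists_compact_section_tw750 γ₁ hreg δ hN _ hΦc.isCompact
  obtain ⟨M, hM⟩ := hΦ.bounded_above_of_compact_support hΦc
  have hΦcont : Continuous fun x : GL (Fin 2) ℂ => Φ (x⁻¹ * δ * cj750 x) :=
    hΦ.comp ((continuous_inv.mul continuous_const).mul continuous_cj750)
  refine integrable_mul_cut_of_section_hom750 (re750.comp T.subtype)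
    (continuous_re750.comp continuous_subtype_val) μ μT β' hβc hβ0 hβ1 Ω₀ hΩ
    (fun x => Φ (x⁻¹ * δ * cj750 x)) hΦcont.aestronglyMeasurable M (fun x => hM _) ?_
  intro x hx
  obtain ⟨t, ω, ht, hω, rfl⟩ := hsec x (subset_tsupport Φ hx)
  exact ⟨⟨t, (hT t).mpr ht⟩, ω, hω, rfl⟩

end Fermat.Agent.LT.T7.H750

end
end
-- ===== PACK-END LT/T7/H750/TwSection.lean

-- ===== PACK-BEGIN LT/T7/H362/ChangeCore.lean
section







/-!
# Row LT, tower T7, leaf T7.L2.2.C `ChangeC561` (registry row 2189, helper362): the core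

OFF-MAIN.  Imports Mathlib, A0, `T1/Spec.lean`, `T5/Spec.lean`, the asset `T7/H44/Rebase.lean`
of helper44 (registry row 2165, byte-identical copy) and `ChangeLin.lean`.  Complete proofs.

`changeCore362`: the statement of `T7.H561.ChangeC561` (unfolded) under the hypothesis
`T1.AddFundDomC K` (closed: tower T1).

## Proof

The blocks `idx i · ` and the singletons `{k}` (for `k` outside the blocks) form a partition of
`ℕ` into finite blocks (`blk362`); the matrix `A k j = (Q i)_{ba}` for `k = idx i a`,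
`j = idx i b` and `A k k = 1` outside the blocks (`mat362`) has orthonormal rows on every block
(`Qᴴ Q = 1`).  So `isCuspONB_rebase44` and `diagCoeff_rebase44` (helper44) apply, with the
analytic inputs of `ChangeLin.lean`.
-/

set_option autoImplicit false

open IsDedekindDomain NumberField MeasureTheory
open scoped ComplexConjugate

noncomputable section

namespace Fermat.Agent.LT.T7.H362

open Fermat.Agent.LT.H556.A0 Fermat.Agent.LT.T5 Fermat.Agent.LT.T7.H44

attribute [local instance] Fermat.Agent.LT.T5.instMeasurableSpaceG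

/-! ## 1. The blocks and the matrix -/

section Blocks

variable {ι : Type} {n : ι → ℕ} (idx : (i : ι) → Fin (n i) → ℕ)

open Classical in
/-- The block of `k`: the block `idx i ·` which contains `k`, or `{k}`. -/
def blk362 (k : ℕ) : Finset ℕ :=
  if h : ∃ i : ι, ∃ a : Fin (n i), idx i a = k then Finset.univ.image (idx h.choose) else {k}

open Classical in
/-- The matrix: `A (idx i a) (idx i b) = (Q i)_{ba}`, the identity outside the blocks. -/
def mat362 (Q : (i : ι) → Matrix (Fin (n i)) (Fin (n i)) ℂ) (k j : ℕ) : ℂ :=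
  if h : ∃ i : ι, ∃ a b : Fin (n i), idx i a = k ∧ idx i b = j then
    Q h.choose h.choose_spec.choose_spec.choose h.choose_spec.choose
  else if k = j then 1 else 0

variable {idx}

theorem idx_inj362
    (hinj : ∀ (i : ι) (a : Fin (n i)) (i' : ι) (a' : Fin (n i')), idx i a = idx i' a' →
      (⟨i, a⟩ : Σ i, Fin (n i)) = ⟨i', a'⟩) (i : ι) : Function.Injective (idx i) := by
  intro a a' h
  have := hinj i a i a' h
  exact eq_of_heq (Sigma.mk.inj this).2

theorem blk_idx362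
    (hinj : ∀ (i : ι) (a : Fin (n i)) (i' : ι) (a' : Fin (n i')), idx i a = idx i' a' →
      (⟨i, a⟩ : Σ i, Fin (n i)) = ⟨i', a'⟩) (i : ι) (a : Fin (n i)) :
    blk362 idx (idx i a) = Finset.univ.image (idx i) := by
  have key : ∀ i' : ι, (∃ a' : Fin (n i'), idx i' a' = idx i a) →
      Finset.univ.image (idx i') = Finset.univ.image (idx i) := by
    rintro i' ⟨a', ha'⟩
    obtain rfl : i' = i := (Sigma.mk.inj (hinj i' a' i a ha')).1
    rfl
  have h : ∃ i' : ι, ∃ a' : Fin (n i'), idx i' a' = idx i a := ⟨i, a, rfl⟩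
  unfold blk362
  rw [dif_pos h]
  exact key _ h.choose_spec

theorem blk_not362 {k : ℕ} (hk : ∀ (i : ι) (a : Fin (n i)), idx i a ≠ k) :
    blk362 idx k = {k} := by
  unfold blk362
  rw [dif_neg]
  rintro ⟨i, a, h⟩
  exact hk i a h

theorem mat_idx362
    (hinj : ∀ (i : ι) (a : Fin (n i)) (i' : ι) (a' : Fin (n i')), idx i a = idx i' a' →
      (⟨i, a⟩ : Σ i, Fin (n i)) = ⟨i', a'⟩)
    (Q : (i : ι) → Matrix (Fin (n i)) (Fin (n i)) ℂ) (i : ι) (a b : Fin (n i)) :
    mat362 idx Q (idx i a) (idx i b) = Q i b a := by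
  have key : ∀ (i' : ι) (a' b' : Fin (n i')), idx i' a' = idx i a → idx i' b' = idx i b →
      Q i' b' a' = Q i b a := by
    intro i' a' b' ha' hb'
    obtain rfl : i' = i := (Sigma.mk.inj (hinj i' a' i a ha')).1
    rw [idx_inj362 hinj i' ha', idx_inj362 hinj i' hb']
  have h : ∃ i' : ι, ∃ a' b' : Fin (n i'), idx i' a' = idx i a ∧ idx i' b' = idx i b :=
    ⟨i, a, b, rfl, rfl⟩
  unfold mat362
  rw [dif_pos h]
  exact key _ _ _ h.choose_spec.choose_spec.choose_spec.1
    h.choose_spec.choose_spec.choose_spec.2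

theorem mat_not362 (Q : (i : ι) → Matrix (Fin (n i)) (Fin (n i)) ℂ) {k : ℕ}
    (hk : ∀ (i : ι) (a : Fin (n i)), idx i a ≠ k) : mat362 idx Q k k = 1 := by
  unfold mat362
  rw [dif_neg, if_pos rfl]
  rintro ⟨i, a, b, h, -⟩
  exact hk i a h

theorem isBlocks362
    (hinj : ∀ (i : ι) (a : Fin (n i)) (i' : ι) (a' : Fin (n i')), idx i a = idx i' a' →
      (⟨i, a⟩ : Σ i, Fin (n i)) = ⟨i', a'⟩) : IsBlocks44 (blk362 idx) where
  self := by
    intro k
    by_cases h : ∃ i : ι, ∃ a : Fin (n i), idx i a = k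
    · obtain ⟨i, a, rfl⟩ := h
      rw [blk_idx362 hinj]
      exact Finset.mem_image_of_mem _ (Finset.mem_univ a)
    · rw [blk_not362 fun i a hia => h ⟨i, a, hia⟩]
      exact Finset.mem_singleton_self k
  eq := by
    intro k j hj
    by_cases h : ∃ i : ι, ∃ a : Fin (n i), idx i a = k
    · obtain ⟨i, a, rfl⟩ := h
      rw [blk_idx362 hinj] at hj ⊢
      obtain ⟨b, -, rfl⟩ := Finset.mem_image.1 hj
      exact blk_idx362 hinj i b
    · rw [blk_not362 fun i a hia => h ⟨i, a, hia⟩, Finset.mem_singleton] at hj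
      rw [hj]

/-- The columns of a unitary matrix are orthonormal. -/
theorem unitary_col362 {m : ℕ} {Q : Matrix (Fin m) (Fin m) ℂ}
    (hQ : Q ∈ Matrix.unitaryGroup (Fin m) ℂ) (a a' : Fin m) :
    ∑ b, Q b a * conj (Q b a') = if a = a' then 1 else 0 := by
  have h := Matrix.mem_unitaryGroup_iff'.1 hQ
  have h1 := congrFun (congrFun h a') a
  rw [Matrix.mul_apply, Matrix.one_apply] at h1
  simp only [Matrix.star_apply, Complex.star_def] at h1
  have h2 : ∑ b, Q b a * conj (Q b a') = ∑ b, conj (Q b a') * Q b a :=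
    Finset.sum_congr rfl fun b _ => mul_comm _ _
  rw [h2, h1]
  by_cases haa : a = a'
  · rw [if_pos haa, if_pos haa.symm]
  · rw [if_neg haa, if_neg (Ne.symm haa)]

end Blocks

/-! ## 2. The core -/

variable {K : Type} [Field K] [NumberField K]

theorem isRebase362 {μ : Measure (G K)} {F : Set (G K)} {e₀ : ℕ → G K → ℂ}
    {ι : Type} {n : ι → ℕ} {idx : (i : ι) → Fin (n i) → ℕ}
    (hinj : ∀ (i : ι) (a : Fin (n i)) (i' : ι) (a' : Fin (n i')), idx i a = idx i' a' →
      (⟨i, a⟩ : Σ i, Fin (n i)) = ⟨i', a'⟩)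
    (hnorm : ∀ (i : ι) (a : Fin (n i)), innerD μ F (e₀ (idx i a)) (e₀ (idx i a)) = 1)
    {Q : (i : ι) → Matrix (Fin (n i)) (Fin (n i)) ℂ}
    (hQ : ∀ i, Q i ∈ Matrix.unitaryGroup (Fin (n i)) ℂ) :
    IsRebase44 μ F e₀ (blk362 idx) (mat362 idx Q) where
  blocks := isBlocks362 hinj
  row := by
    intro k k' hk'
    by_cases h : ∃ i : ι, ∃ a : Fin (n i), idx i a = k
    · obtain ⟨i, a, rfl⟩ := h
      rw [blk_idx362 hinj] at hk' ⊢
      obtain ⟨a', -, rfl⟩ := Finset.mem_image.1 hk'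
      rw [Finset.sum_image fun b _ b' _ hbb => idx_inj362 hinj i hbb]
      have e1 : ∀ b : Fin (n i),
          mat362 idx Q (idx i a) (idx i b) * conj (mat362 idx Q (idx i a') (idx i b))
            = Q i b a * conj (Q i b a') := by
        intro b
        rw [mat_idx362 hinj, mat_idx362 hinj]
      rw [Finset.sum_congr rfl fun b _ => e1 b, unitary_col362 (hQ i) a a']
      by_cases haa : a = a'
      · rw [if_pos haa, if_pos (by rw [haa])]
      · rw [if_neg haa, if_neg fun hh => haa (idx_inj362 hinj i hh)]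
    · have hk : ∀ (i : ι) (a : Fin (n i)), idx i a ≠ k := fun i a hia => h ⟨i, a, hia⟩
      rw [blk_not362 hk, Finset.mem_singleton] at hk'
      rw [blk_not362 hk, Finset.sum_singleton, hk', if_pos rfl]
      rw [mat_not362 Q hk, map_one, mul_one]
  zero := by
    intro k hk1
    have hk : ∀ (i : ι) (a : Fin (n i)), idx i a ≠ k := by
      rintro i a rfl
      exact hk1 (hnorm i a)
    exact ⟨blk_not362 hk, mat_not362 Q hk⟩

/-- **The core of `ChangeC561`** (statement unfolded), from `T1.AddFundDomC K`. -/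
theorem changeCore362 (hT : Fermat.Agent.LT.T1.AddFundDomC K)
    (s : AdelicAut K) (𝔫 : Ideal (𝓞 K)) (μ : Measure (G K)) (F : Set (G K)) (r : G K)
    (hF : IsFrame μ F) (e₀ : ℕ → G K → ℂ) (he : IsCuspONB 𝔫 trivType r μ F e₀)
    (ι : Type) (n : ι → ℕ) (idx : (i : ι) → Fin (n i) → ℕ)
    (hinj : ∀ (i : ι) (a : Fin (n i)) (i' : ι) (a' : Fin (n i')), idx i a = idx i' a' →
      (⟨i, a⟩ : Σ i, Fin (n i)) = ⟨i', a'⟩)
    (hnorm : ∀ (i : ι) (a : Fin (n i)), innerD μ F (e₀ (idx i a)) (e₀ (idx i a)) = 1)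
    (Q : (i : ι) → Matrix (Fin (n i)) (Fin (n i)) ℂ)
    (hQ : ∀ i, Q i ∈ Matrix.unitaryGroup (Fin (n i)) ℂ) :
    ∃ e' : ℕ → G K → ℂ, IsCuspONB 𝔫 trivType r μ F e' ∧
      (∀ k : ℕ, (∀ (i : ι) (a : Fin (n i)), idx i a ≠ k) → e' k = e₀ k) ∧
      (∀ (i : ι) (a : Fin (n i)), e' (idx i a) = fun x => ∑ b, Q i b a * e₀ (idx i b) x) ∧
      ∀ φ : G K → ℂ, IsTestFn 𝔫 trivType φ → ∀ (i : ι) (a : Fin (n i)),
        diagCoeff s μ F φ (e' (idx i a))
          = ∑ b, ∑ c, conj (Q i c a)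
              * innerD μ F (Rconv μ φ (Rsig s (e₀ (idx i b)))) (e₀ (idx i c))
              * Q i b a := by
  have hhaar : μ.IsHaarMeasure := hF.haar
  have hreb := isRebase362 (e₀ := e₀) hinj hnorm hQ
  have hlin : ∀ (t : Finset ℕ) (a : ℕ → ℂ),
      IsCuspFn 𝔫 trivType r (fun g => ∑ j ∈ t, a j * e₀ j g) :=
    fun t a => isCuspFn_sum362 hT e₀ he.cusp t a
  refine ⟨rebase44 (blk362 idx) (mat362 idx Q) e₀, isCuspONB_rebase44 hF he hreb hlin,
    ?_, ?_, ?_⟩
  · intro k hk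
    funext g
    show ∑ j ∈ blk362 idx k, mat362 idx Q k j * e₀ j g = e₀ k g
    rw [blk_not362 hk, Finset.sum_singleton, mat_not362 Q hk, one_mul]
  · intro i a
    funext g
    show ∑ j ∈ blk362 idx (idx i a), mat362 idx Q (idx i a) j * e₀ j g
      = ∑ b, Q i b a * e₀ (idx i b) g
    rw [blk_idx362 hinj, Finset.sum_image fun b _ b' _ hbb => idx_inj362 hinj i hbb]
    exact Finset.sum_congr rfl fun b _ => by rw [mat_idx362 hinj]
  · intro φ hφ i a
    have hc : ∀ j, Continuous (Rsig s (e₀ j)) := fun j => continuous_rsig362 s (he.cusp j).cont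
    have hb : ∀ j, ∃ C : ℝ, ∀ g : G K, ‖Rsig s (e₀ j) g‖ ≤ C :=
      fun j => bdd_rsig362 s (he.cusp j).bdd
    rw [diagCoeff_rebase44 hF he s φ (idx i a)
      (fun j _ x => integrable_rconv362 hφ.cont hφ.supp (hc j) x)
      (fun j _ => ⟨continuous_rconv362 hφ.cont hφ.supp (hc j),
        bdd_rconv362 hφ.cont hφ.supp (hb j)⟩)]
    rw [blk_idx362 hinj, Finset.sum_image fun b _ b' _ hbb => idx_inj362 hinj i hbb]
    refine Finset.sum_congr rfl fun b _ => ?_
    rw [Finset.sum_image fun b _ b' _ hbb => idx_inj362 hinj i hbb]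
    refine Finset.sum_congr rfl fun c _ => ?_
    rw [mat_idx362 hinj, mat_idx362 hinj]
    ring

end Fermat.Agent.LT.T7.H362

end
end
-- ===== PACK-END LT/T7/H362/ChangeCore.lean

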