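import Mathlib
import Fermat.Agent.Pack.LT2.E0L2
import Fermat.Agent.Pack.LT2.E2L1
import Fermat.Agent.Pack.LT2.E5L3
import Fermat.Agent.Pack.LT2.E6L2
import Fermat.Agent.Pack.LT2.E5L0
import Fermat.Agent.Pack.LT3.E8L2
import Fermat.Agent.Pack.LT3.E0L1
import Fermat.Agent.Pack.LT3.E8L3
import Fermat.Agent.Pack.LT3.E10L0

set_option linter.all false

-- ===== PACK-BEGIN LT/T2/H429/Transl.lean
section








/-!
# Row LT, tower T2, sub-leaf T2.07.00 (helper429): THE KEY LEMMA

OFF-MAIN.  `transl429`: for ANY function `Φ` on `GL₂(𝔸_K)` which is left invariant under `GL₂(K)`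
and right invariant under `Z⁺`, and for any frame `F`,
`∫_D Φ(g h) dμ(g) = ∫_D Φ(g) dμ(g)` for every `h ∈ GL₂(𝔸_K)`.

Hypotheses used: `T1.AdNormC K` and `T1.UnimodC K` only.  Assets (byte-identical copies):
helper919 `LT/T1/H919/SiegelTools.lean` (`rayAdl919`, `scalarG919`), helper558
`LT/T1/H558/FundDom.lean` (`adNorm_det_ratG_mul558`, `continuous_adNorm_det558`).

`subTransl429 : SubTransl429 K` closes the registry row T2.07.00.
-/

set_option autoImplicit false
set_option linter.style.haveILetI false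

open IsDedekindDomain NumberField MeasureTheory
open Fermat.Agent.LT.H556.A0
open Fermat.Agent.LT.T2

noncomputable section

namespace Fermat.Agent.LT.T2.H429

variable {K : Type} [Field K] [NumberField K]

attribute [local instance] Fermat.Agent.LT.T2.borelG

/-! ## 1. Countability of `GL₂(K)` and the action on `GL₂(𝔸_K)` -/

theorem countable_field429 (K : Type) [Field K] [NumberField K] : Countable K := by
  have e : K ≃ₗ[ℚ] (Fin (Module.finrank ℚ K) → ℚ) := (Module.finBasis ℚ K).equivFun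
  exact e.toEquiv.injective.countable

theorem countable_gl429 (K : Type) [Field K] [NumberField K] : Countable (GL (Fin 2) K) := by
  haveI := countable_field429 K
  have hinj : Function.Injective
      (fun γ : GL (Fin 2) K => (γ : Matrix (Fin 2) (Fin 2) K)) := fun a b h => Units.ext h
  haveI : Countable (Matrix (Fin 2) (Fin 2) K) := by
    unfold Matrix
    infer_instance
  exact hinj.countable

/-- The action of `GL₂(K)` on `GL₂(𝔸_K)` by left translations. -/
@[reducible] def gamAct429 (K : Type) [Field K] [NumberField K] :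
    MulAction (GL (Fin 2) K) (G K) :=
  MulAction.compHom (G K) (T1.ratG K)

theorem borelSpace_G429 (K : Type) [Field K] [NumberField K] : BorelSpace (G K) := ⟨rfl⟩

/-- The determinant module `g ↦ ‖det g‖_𝔸`. -/
def dn429 (g : G K) : ℝ := T1.adNorm K (Matrix.det (g : Matrix (Fin 2) (Fin 2) (Adl K)))

theorem mem_slab_iff429 (g : G K) : g ∈ T1.slab K ↔ 1 ≤ dn429 g ∧ dn429 g < 2 := Iff.rfl

theorem dn_mul429 (hN : T1.AdNormC K) (g h : G K) : dn429 (g * h) = dn429 g * dn429 h := by
  obtain ⟨-, hmul, -, -⟩ := hN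
  have h1 : Matrix.det ((g * h : G K) : Matrix (Fin 2) (Fin 2) (Adl K))
      = ((Matrix.GeneralLinearGroup.det g * Matrix.GeneralLinearGroup.det h :
          (Adl K)ˣ) : Adl K) := by
    rw [Units.val_mul, Matrix.det_mul, Units.val_mul]
    rfl
  unfold dn429
  rw [h1, hmul]
  rfl

theorem dn_pos429 (hN : T1.AdNormC K) (g : G K) : 0 < dn429 g :=
  hN.1 (Matrix.GeneralLinearGroup.det g)

theorem dn_one429 (hN : T1.AdNormC K) : dn429 (1 : G K) = 1 := by
  have h := dn_mul429 hN (1 : G K) 1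
  rw [mul_one] at h
  have hp := dn_pos429 hN (1 : G K)
  nlinarith

theorem dn_inv429 (hN : T1.AdNormC K) (g : G K) : dn429 g⁻¹ = (dn429 g)⁻¹ := by
  have h := dn_mul429 hN g g⁻¹
  rw [mul_inv_cancel, dn_one429 hN] at h
  have hp := dn_pos429 hN g
  field_simp
  linarith

theorem dn_ratG429 (hN : T1.AdNormC K) (γ : GL (Fin 2) K) (g : G K) :
    dn429 (T1.ratG K γ * g) = dn429 g :=
  T1.H558.adNorm_det_ratG_mul558 K hN γ g

theorem measurableSet_slab429 (hN : T1.AdNormC K) : MeasurableSet (T1.slab K) := by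
  haveI := borelSpace_G429 K
  have hc : Continuous (dn429 (K := K)) := T1.H558.continuous_adNorm_det558 K hN
  have : T1.slab K = dn429 ⁻¹' (Set.Ico 1 2) := by
    ext g
    rfl
  rw [this]
  exact measurableSet_Ico.preimage hc.measurable

/-! ## 2. Strict fundamental domains in the slab are fundamental domains -/

section Fund

variable (hN : T1.AdNormC K) (μ : Measure (G K))

theorem measurableConstSMul429 :
    letI := gamAct429 K
    MeasurableConstSMul (GL (Fin 2) K) (G K) := by
  letI := gamAct429 K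
  haveI := borelSpace_G429 K
  exact ⟨fun c => (continuous_const_mul (T1.ratG K c) : Continuous fun g : G K =>
    T1.ratG K c * g).measurable⟩

include hN in
theorem smulInvariant_restrict429 [μ.IsMulLeftInvariant] :
    letI := gamAct429 K
    SMulInvariantMeasure (GL (Fin 2) K) (G K) (μ.restrict (T1.slab K)) := by
  letI := gamAct429 K
  haveI := borelSpace_G429 K
  refine ⟨fun c s hs => ?_⟩
  have hmeas : Measurable (fun g : G K => c • g) :=
    (continuous_const_mul (T1.ratG K c) : Continuous fun g : G K => T1.ratG K c * g).measurable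
  rw [Measure.restrict_apply (hmeas hs), Measure.restrict_apply hs]
  have hset : (fun g : G K => c • g) ⁻¹' s ∩ T1.slab K
      = (fun g : G K => T1.ratG K c * g) ⁻¹' (s ∩ T1.slab K) := by
    ext g
    simp only [Set.mem_inter_iff, Set.mem_preimage, mem_slab_iff429, dn_ratG429 hN]
    rfl
  rw [hset, measure_preimage_mul]

include hN in
theorem isFundamentalDomain_of_strict429 {D : Set (G K)} (hm : MeasurableSet D)
    (hsub : D ⊆ T1.slab K)
    (hstrict : ∀ g ∈ T1.slab K, ∃! γ : GL (Fin 2) K, T1.ratG K γ * g ∈ D) :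
    letI := gamAct429 K
    IsFundamentalDomain (GL (Fin 2) K) D (μ.restrict (T1.slab K)) := by
  letI := gamAct429 K
  refine ⟨hm.nullMeasurableSet, ?_, ?_⟩
  · rw [ae_restrict_iff' (measurableSet_slab429 hN)]
    exact Filter.Eventually.of_forall fun g hg => (hstrict g hg).exists
  · intro γ γ' hne
    apply Disjoint.aedisjoint
    rw [Set.disjoint_left]
    rintro x ⟨d, hd, rfl⟩ ⟨d', hd', hx⟩
    apply hne
    have hx' : T1.ratG K γ' * d' = T1.ratG K γ * d := hx
    obtain ⟨δ, -, huniq⟩ := hstrict d (hsub hd)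
    have h1 : (1 : GL (Fin 2) K) = δ := huniq 1 (by simpa using hd)
    have h2 : γ'⁻¹ * γ = δ := by
      apply huniq
      show T1.ratG K (γ'⁻¹ * γ) * d ∈ D
      rw [map_mul, mul_assoc, ← hx', ← mul_assoc, ← map_mul, inv_mul_cancel, map_one, one_mul]
      exact hd'
    have h3 : γ'⁻¹ * γ = 1 := h2.trans h1.symm
    have := congrArg (fun t => γ' * t) h3
    simpa using this

end Fund

/-! ## 3. Translation by an element of module one -/

section Unit

variable (hN : T1.AdNormC K) (μ : Measure (G K))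

include hN in
theorem setIntegral_transl_of_dn_one429 [μ.IsMulLeftInvariant] [μ.IsMulRightInvariant]
    {D : Set (G K)} (hm : MeasurableSet D) (hsub : D ⊆ T1.slab K)
    (hstrict : ∀ g ∈ T1.slab K, ∃! γ : GL (Fin 2) K, T1.ratG K γ * g ∈ D)
    (Φ : G K → ℂ) (hΓ : ∀ (γ : GL (Fin 2) K) (g : G K), Φ (T1.ratG K γ * g) = Φ g)
    (h : G K) (hh : dn429 h = 1) :
    ∫ g in D, Φ (g * h) ∂μ = ∫ g in D, Φ g ∂μ := by
  letI := gamAct429 K
  haveI := borelSpace_G429 K
  haveI := countable_gl429 K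
  haveI := measurableConstSMul429 (K := K)
  haveI := smulInvariant_restrict429 hN μ
  -- the translated domain
  set D' : Set (G K) := (fun g : G K => g * h⁻¹) ⁻¹' D with hD'
  have hm' : MeasurableSet D' :=
    (continuous_mul_const h⁻¹ : Continuous fun g : G K => g * h⁻¹).measurable hm
  have hpre : (fun g : G K => g * h) ⁻¹' D' = D := by
    ext g
    simp [hD', mul_assoc]
  have hinv : dn429 h⁻¹ = 1 := by rw [dn_inv429 hN, hh, inv_one]
  have hsub' : D' ⊆ T1.slab K := by
    intro g hg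
    have hg' : g * h⁻¹ ∈ T1.slab K := hsub hg
    rw [mem_slab_iff429, dn_mul429 hN, hinv, mul_one] at hg'
    exact (mem_slab_iff429 g).2 hg'
  have hstrict' : ∀ g ∈ T1.slab K, ∃! γ : GL (Fin 2) K, T1.ratG K γ * g ∈ D' := by
    intro g hg
    have hg' : g * h⁻¹ ∈ T1.slab K := by
      rw [mem_slab_iff429, dn_mul429 hN, hinv, mul_one]
      exact (mem_slab_iff429 g).1 hg
    obtain ⟨γ, hγ, huniq⟩ := hstrict (g * h⁻¹) hg'
    refine ⟨γ, ?_, fun δ hδ => huniq δ ?_⟩
    · show T1.ratG K γ * g * h⁻¹ ∈ D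
      rw [mul_assoc]
      exact hγ
    · have : T1.ratG K δ * g * h⁻¹ ∈ D := hδ
      rw [mul_assoc] at this
      exact this
  -- change of variables
  have h1 : ∫ g in D, Φ (g * h) ∂μ = ∫ g in D', Φ g ∂μ := by
    have := (measurePreserving_mul_right μ h).setIntegral_preimage_emb
      (measurableEmbedding_mulRight h) Φ D'
    rw [hpre] at this
    exact this
  -- the two fundamental domains
  have hF : IsFundamentalDomain (GL (Fin 2) K) D (μ.restrict (T1.slab K)) :=
    isFundamentalDomain_of_strict429 hN μ hm hsub hstrict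
  have hF' : IsFundamentalDomain (GL (Fin 2) K) D' (μ.restrict (T1.slab K)) :=
    isFundamentalDomain_of_strict429 hN μ hm' hsub' hstrict'
  have h2 := hF'.setIntegral_eq hF (f := Φ) (fun γ g => hΓ γ g)
  have hr : ∀ {E : Set (G K)}, MeasurableSet E → E ⊆ T1.slab K →
      (μ.restrict (T1.slab K)).restrict E = μ.restrict E := by
    intro E hE hEs
    rw [Measure.restrict_restrict hE, Set.inter_eq_left.2 hEs]
  rw [hr hm' hsub', hr hm hsub] at h2
  rw [h1, h2]

end Unit

/-! ## 4. The diagonal positive scalars -/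

/-- The scalar matrix of the real number `r` at every infinite place, `1` at the finite places. -/
def zpos429 (K : Type) [Field K] [NumberField K] (r : ℝˣ) : G K :=
  T1.H919.scalarG919 (Units.map (T1.H919.rayAdl919 K) r)

theorem zpos429_val (r : ℝˣ) :
    ((zpos429 K r : G K) : Matrix (Fin 2) (Fin 2) (Adl K))
      = Matrix.diagonal (fun _ => T1.H919.rayAdl919 K (r : ℝ)) :=
  T1.H919.scalarG919_val _

theorem isDiagPosScalar_zpos429 (r : ℝˣ) (hr : 0 < (r : ℝ)) : IsDiagPosScalar (zpos429 K r) := by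
  refine ⟨fun v => ?_, (r : ℝ), hr, fun w => ?_⟩
  · show finComp v (zpos429 K r) = 1
    refine Matrix.ext fun i j => ?_
    show (((zpos429 K r : G K) : Matrix (Fin 2) (Fin 2) (Adl K)) i j).2 v
      = (1 : Matrix (Fin 2) (Fin 2) (v.adicCompletion K)) i j
    rw [zpos429_val]
    by_cases hij : i = j
    · subst hij
      rw [Matrix.diagonal_apply_eq, Matrix.one_apply_eq]
      rfl
    · rw [Matrix.diagonal_apply_ne _ hij, Matrix.one_apply_ne hij]
      rfl
  · refine Matrix.ext fun i j => ?_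
    show InfinitePlace.Completion.extensionEmbedding w
      ((((zpos429 K r : G K) : Matrix (Fin 2) (Fin 2) (Adl K)) i j).1 w)
      = (Matrix.diagonal (fun _ => (((r : ℝ) : ℝ) : ℂ)) : Matrix (Fin 2) (Fin 2) ℂ) i j
    rw [zpos429_val]
    by_cases hij : i = j
    · subst hij
      rw [Matrix.diagonal_apply_eq, Matrix.diagonal_apply_eq, T1.H919.rayAdl919_inf,
        T1.H919.extensionEmbedding_realTo919]
    · rw [Matrix.diagonal_apply_ne _ hij, Matrix.diagonal_apply_ne _ hij]
      exact map_zero _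

theorem dn_zpos429 (r : ℝˣ) : dn429 (zpos429 K r) = |(r : ℝ) * r| ^ Module.finrank ℚ K := by
  unfold dn429
  rw [zpos429_val, Matrix.det_diagonal, Fin.prod_univ_two, ← map_mul,
    T1.H919.adNorm_rayAdl919]

theorem exists_diagPosScalar429 (K : Type) [Field K] [NumberField K] (a : ℝ) (ha : 0 < a) :
    ∃ z : G K, IsDiagPosScalar z ∧ dn429 z = a := by
  have hn : Module.finrank ℚ K ≠ 0 := (Module.finrank_pos (R := ℚ) (M := K)).ne'
  set s : ℝ := a ^ ((Module.finrank ℚ K : ℝ)⁻¹) with hs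
  have hs0 : 0 < s := Real.rpow_pos_of_pos ha _
  have hsn : s ^ Module.finrank ℚ K = a := Real.rpow_inv_natCast_pow ha.le hn
  have hr0 : 0 < Real.sqrt s := Real.sqrt_pos.2 hs0
  refine ⟨zpos429 K (Units.mk0 (Real.sqrt s) hr0.ne'), isDiagPosScalar_zpos429 _ hr0, ?_⟩
  rw [dn_zpos429]
  show |Real.sqrt s * Real.sqrt s| ^ Module.finrank ℚ K = a
  rw [Real.mul_self_sqrt hs0.le, abs_of_pos hs0, hsn]

/-! ## 5. THE KEY LEMMA -/

/-- **KEY LEMMA**: the integral over the domain of a frame of a function which is left invariant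
under `GL₂(K)` and right invariant under `Z⁺` is invariant under all right translations. -/
theorem transl429 (hN : T1.AdNormC K) (hU : T1.UnimodC K) (F : Frame K) (Φ : G K → ℂ)
    (hΓ : ∀ (γ : GL (Fin 2) K) (g : G K), Φ (T1.ratG K γ * g) = Φ g)
    (hZ : ∀ z : G K, IsDiagPosScalar z → ∀ g : G K, Φ (g * z) = Φ g) (h : G K) :
    ∫ g in F.D, Φ (g * h) ∂F.μ = ∫ g in F.D, Φ g ∂F.μ := by
  haveI := F.haar
  haveI : F.μ.IsMulRightInvariant := hU F.μ F.haar
  have ha : 0 < dn429 h := dn_pos429 hN h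
  obtain ⟨z, hz, hdz⟩ := exists_diagPosScalar429 K (dn429 h)⁻¹ (inv_pos.2 ha)
  have h1 : dn429 (h * z) = 1 := by
    rw [dn_mul429 hN, hdz, mul_inv_cancel₀ ha.ne']
  have h2 : ∀ g : G K, Φ (g * h) = Φ (g * (h * z)) := fun g => by
    rw [← mul_assoc, hZ z hz]
  simp only [h2]
  exact setIntegral_transl_of_dn_one429 hN F.μ F.meas F.sub F.strict Φ hΓ (h * z) h1

/-- **T2.07.00 CLOSED.** -/
theorem subTransl429 (K : Type) [Field K] [NumberField K] : SubTransl429 K :=
  fun hT1 F Φ _ _ hΓ hZ h => transl429 hT1.adNorm hT1.unimod F Φ hΓ hZ h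

end Fermat.Agent.LT.T2.H429

end

end
-- ===== PACK-END LT/T2/H429/Transl.lean

-- ===== PACK-BEGIN LT/T2/H291/OpsSpecT.lean
section






/-!
# Row LT, tower T2, leaf T2.27 (`LeafT07` = `OpsGoodT` + `OpsAdjT`): SUB-SPEC (helper291)

OFF-MAIN.  Vocabulary: `LT/H556/A0.lean`, `LT/T1/Spec.lean` (v1), `LT/T2/Spec.lean` (v3, sha256
b934629a), `LT/T2/SpecTau.lean` (sha256 4d2b0fc2), byte-identical copies.  Nothing is assumed, no
opaque constant, no placeholder proof.

This is the `T`-form (class of T5: level `U(𝔫)`, `K_∞`-type `τ`, ray generator `r`) of the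
sub-spec `LT/T2/H429/OpsSpec.lean` of helper429 for `T2.Leaf07`; the cut is THE SAME, so that the
owner of a row `T2.07.x` can prove the row `T2.27.x` by the same proof with `τ`, `r` as
parameters.  New with respect to `T2.07`:

* the class is `IsCuspT 𝔫 τ r` (type `τ` under the compact groups at infinity, invariant under
  the ray generator `r` ONLY -- not under the positive scalars of each infinite place);
* two more generators: the central shifts `shift z`, `shift z⁻¹`, `z` a positive scalar at ONE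
  infinite place;
* the circle means are `τ`-twisted (`circleMeanT`);
* the explicit adjoints `OpsAdjT` are part of the leaf.

`T2.LeafT07 K` is split along the GENERATORS of `T2.IsOpT` (`IsGenT291`).

* `PresT291`, `LinT291`, `BddT291`, `CommT291`, `HasAdjT291`: the five clauses of `T2.OpsGoodT`
  for ONE operator (resp. one pair of operators).
* `GenGoodT291 𝔫 τ R`: the five clauses for the generators only.
* PROVED: `opsGoodT_of_genGoodT291 : (∀ R, GenGoodT291 𝔫 τ R) → OpsGoodT K 𝔫 τ`.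
* The sub-leaves `SubT…291` (registry rows `T2.27.x`), each under the standing hypotheses
  `CtxT291 K 𝔫 τ` of the leaf, and the PROVED `leafT07_of_subT291 : SubT291 K → T2.LeafT07 K`.
-/

set_option autoImplicit false

open IsDedekindDomain NumberField MeasureTheory
open Fermat.Agent.LT.H556.A0
open Fermat.Agent.LT.T2

noncomputable section

namespace Fermat.Agent.LT.T2.H291

variable {K : Type} [Field K] [NumberField K]

attribute [local instance] Fermat.Agent.LT.T2.borelG

/-! ## 1. The generators and the five clauses -/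

/-- The generators of `T2.IsOpT`. -/
inductive IsGenT291 (𝔫 : Ideal (𝓞 K)) (τ : G K → ℂ) (F : Frame K) :
    ((G K → ℂ) → (G K → ℂ)) → Prop
  | conv (f : G K → ℂ) (hf : IsSphTestT 𝔫 τ f) : IsGenT291 𝔫 τ F (conv F f)
  | hecke (v : HeightOneSpectrum (𝓞 K)) (hv : ¬ v.asIdeal ∣ 𝔫) (H : Finset (G K))
      (hH : IsHeckeCosetSystem v H) : IsGenT291 𝔫 τ F (heckeSum H)
  | shift (v : HeightOneSpectrum (𝓞 K)) (hv : ¬ v.asIdeal ∣ 𝔫) (z : G K)
      (hz : IsScalarUniformizerAt v z) : IsGenT291 𝔫 τ F (shift z)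
  | shiftInv (v : HeightOneSpectrum (𝓞 K)) (hv : ¬ v.asIdeal ∣ 𝔫) (z : G K)
      (hz : IsScalarUniformizerAt v z) : IsGenT291 𝔫 τ F (shift z⁻¹)
  | central (w : InfinitePlace K) (z : G K) (hz : IsArchPosScalar w z) :
      IsGenT291 𝔫 τ F (shift z)
  | centralInv (w : InfinitePlace K) (z : G K) (hz : IsArchPosScalar w z) :
      IsGenT291 𝔫 τ F (shift z⁻¹)
  | sphere (w : InfinitePlace K) (hw : w.IsComplex) (d : ℝ) (hd : 0 < d) (Y : ℝ → ℝ → G K)
      (hY : IsSphereAt w d Y) : IsGenT291 𝔫 τ F (sphereMean Y)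
  | circle (w : InfinitePlace K) (hw : w.IsReal) (t : ℝ) (ht : 0 < t) (k : ℝ → G K) (a : G K)
      (hk : IsRotAt w k) (ha : IsTorusAt w t a) : IsGenT291 𝔫 τ F (circleMeanT τ k a)

theorem IsGenT291.isOpT {𝔫 : Ideal (𝓞 K)} {τ : G K → ℂ} {F : Frame K}
    {T : (G K → ℂ) → (G K → ℂ)} (h : IsGenT291 𝔫 τ F T) : IsOpT 𝔫 τ F T := by
  cases h with
  | conv f hf => exact IsOpT.conv f hf
  | hecke v hv H hH => exact IsOpT.hecke v hv H hH
  | shift v hv z hz => exact IsOpT.shift v hv z hz
  | shiftInv v hv z hz => exact IsOpT.shiftInv v hv z hz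
  | central w z hz => exact IsOpT.central w z hz
  | centralInv w z hz => exact IsOpT.centralInv w z hz
  | sphere w hw d hd Y hY => exact IsOpT.sphere w hw d hd Y hY
  | circle w hw t ht k a hk ha => exact IsOpT.circle w hw t ht k a hk ha

/-- Induction principle: a property of the generators which is stable under composition holds for
all operators. -/
theorem isOpT_induction291 {𝔫 : Ideal (𝓞 K)} {τ : G K → ℂ} {F : Frame K}
    {P : ((G K → ℂ) → (G K → ℂ)) → Prop}
    (hgen : ∀ T, IsGenT291 𝔫 τ F T → P T)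
    (hcomp : ∀ S T, IsOpT 𝔫 τ F S → IsOpT 𝔫 τ F T → P S → P T → P (fun φ => S (T φ)))
    {T : (G K → ℂ) → (G K → ℂ)} (hT : IsOpT 𝔫 τ F T) : P T := by
  induction hT with
  | conv f hf => exact hgen _ (IsGenT291.conv f hf)
  | hecke v hv H hH => exact hgen _ (IsGenT291.hecke v hv H hH)
  | shift v hv z hz => exact hgen _ (IsGenT291.shift v hv z hz)
  | shiftInv v hv z hz => exact hgen _ (IsGenT291.shiftInv v hv z hz)
  | central w z hz => exact hgen _ (IsGenT291.central w z hz)
  | centralInv w z hz => exact hgen _ (IsGenT291.centralInv w z hz)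
  | sphere w hw d hd Y hY => exact hgen _ (IsGenT291.sphere w hw d hd Y hY)
  | circle w hw t ht k a hk ha => exact hgen _ (IsGenT291.circle w hw t ht k a hk ha)
  | comp S T hS hT ihS ihT => exact hcomp S T hS hT ihS ihT

/-- `T` preserves the cusp functions of the class `(𝔫, τ, r)`. -/
def PresT291 (𝔫 : Ideal (𝓞 K)) (τ : G K → ℂ) (r : G K) (T : (G K → ℂ) → (G K → ℂ)) : Prop :=
  ∀ φ : G K → ℂ, IsCuspT 𝔫 τ r φ → IsCuspT 𝔫 τ r (T φ)

/-- `T` is additive and homogeneous on the cusp functions of the class. -/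
def LinT291 (𝔫 : Ideal (𝓞 K)) (τ : G K → ℂ) (r : G K) (T : (G K → ℂ) → (G K → ℂ)) : Prop :=
  ∀ (φ ψ : G K → ℂ) (c : ℂ), IsCuspT 𝔫 τ r φ → IsCuspT 𝔫 τ r ψ →
    T (fun g => φ g + c * ψ g) = fun g => T φ g + c * T ψ g

/-- `T` is bounded in `L²` on the cusp functions of the class. -/
def BddT291 (𝔫 : Ideal (𝓞 K)) (τ : G K → ℂ) (R : FrameR K) (T : (G K → ℂ) → (G K → ℂ)) :
    Prop :=
  ∃ C : ℝ, ∀ φ : G K → ℂ, IsCuspT 𝔫 τ R.r φ → nsq R.F (T φ) ≤ C * nsq R.F φ

/-- `S` and `T` commute on the cusp functions of the class. -/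
def CommT291 (𝔫 : Ideal (𝓞 K)) (τ : G K → ℂ) (r : G K) (S T : (G K → ℂ) → (G K → ℂ)) : Prop :=
  ∀ φ : G K → ℂ, IsCuspT 𝔫 τ r φ → S (T φ) = T (S φ)

/-- `T'` is adjoint to `T` on the cusp functions of the class. -/
def IsAdjT291 (𝔫 : Ideal (𝓞 K)) (τ : G K → ℂ) (R : FrameR K)
    (T T' : (G K → ℂ) → (G K → ℂ)) : Prop :=
  ∀ φ ψ : G K → ℂ, IsCuspT 𝔫 τ R.r φ → IsCuspT 𝔫 τ R.r ψ →
    pair R.F (T φ) ψ = pair R.F φ (T' ψ)

/-- `T` has an adjoint among the operators of the class. -/
def HasAdjT291 (𝔫 : Ideal (𝓞 K)) (τ : G K → ℂ) (R : FrameR K)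
    (T : (G K → ℂ) → (G K → ℂ)) : Prop :=
  ∃ T', IsOpT 𝔫 τ R.F T' ∧ IsAdjT291 𝔫 τ R T T'

/-- The five clauses of `OpsGoodT` for the generators. -/
structure GenGoodT291 (𝔫 : Ideal (𝓞 K)) (τ : G K → ℂ) (R : FrameR K) : Prop where
  pres : ∀ T, IsGenT291 𝔫 τ R.F T → PresT291 𝔫 τ R.r T
  lin : ∀ T, IsGenT291 𝔫 τ R.F T → LinT291 𝔫 τ R.r T
  bdd : ∀ T, IsGenT291 𝔫 τ R.F T → BddT291 𝔫 τ R T
  comm : ∀ S T, IsGenT291 𝔫 τ R.F S → IsGenT291 𝔫 τ R.F T → CommT291 𝔫 τ R.r S T
  adj : ∀ T, IsGenT291 𝔫 τ R.F T → HasAdjT291 𝔫 τ R T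

/-! ## 2. The assembly -/

/-- The square of the `L²`-norm is non-negative (also when the integrand is not integrable: then
the integral is `0`). -/
theorem nsq_nonnegT291 (F : Frame K) (φ : G K → ℂ) : 0 ≤ nsq F φ := by
  unfold nsq pair
  by_cases hi : Integrable (fun g => φ g * (starRingEnd ℂ) (φ g)) (F.μ.restrict F.D)
  · have h1 : (∫ g in F.D, φ g * (starRingEnd ℂ) (φ g) ∂F.μ).re
        = ∫ g in F.D, (φ g * (starRingEnd ℂ) (φ g)).re ∂F.μ := by
      have := integral_re (𝕜 := ℂ) hi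
      simpa using this.symm
    rw [h1]
    apply integral_nonneg
    intro g
    simp only [Complex.mul_conj]
    exact_mod_cast Complex.normSq_nonneg (φ g)
  · rw [integral_undef hi]
    simp

theorem pres_isOpT291 {𝔫 : Ideal (𝓞 K)} {τ : G K → ℂ} {R : FrameR K} (h : GenGoodT291 𝔫 τ R)
    {T : (G K → ℂ) → (G K → ℂ)} (hT : IsOpT 𝔫 τ R.F T) : PresT291 𝔫 τ R.r T :=
  isOpT_induction291 (P := PresT291 𝔫 τ R.r) h.pres
    (fun _ _ _ _ hS hT φ hφ => hS _ (hT φ hφ)) hT

theorem lin_isOpT291 {𝔫 : Ideal (𝓞 K)} {τ : G K → ℂ} {R : FrameR K} (h : GenGoodT291 𝔫 τ R)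
    {T : (G K → ℂ) → (G K → ℂ)} (hT : IsOpT 𝔫 τ R.F T) : LinT291 𝔫 τ R.r T := by
  refine isOpT_induction291 (P := LinT291 𝔫 τ R.r) h.lin ?_ hT
  intro S T _ hT' hS hT φ ψ c hφ hψ
  have h1 : T (fun g => φ g + c * ψ g) = fun g => T φ g + c * T ψ g := hT φ ψ c hφ hψ
  have h2 := hS (T φ) (T ψ) c (pres_isOpT291 h hT' φ hφ) (pres_isOpT291 h hT' ψ hψ)
  show S (T (fun g => φ g + c * ψ g)) = fun g => S (T φ) g + c * S (T ψ) g
  rw [h1, h2]

theorem bdd_isOpT291 {𝔫 : Ideal (𝓞 K)} {τ : G K → ℂ} {R : FrameR K} (h : GenGoodT291 𝔫 τ R)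
    {T : (G K → ℂ) → (G K → ℂ)} (hT : IsOpT 𝔫 τ R.F T) : BddT291 𝔫 τ R T := by
  refine isOpT_induction291 (P := BddT291 𝔫 τ R) h.bdd ?_ hT
  rintro S T _ hT' ⟨C, hC⟩ ⟨C', hC'⟩
  refine ⟨max C 0 * max C' 0, fun φ hφ => ?_⟩
  have h1 : nsq R.F (S (T φ)) ≤ C * nsq R.F (T φ) := hC _ (pres_isOpT291 h hT' φ hφ)
  have h2 : nsq R.F (T φ) ≤ C' * nsq R.F φ := hC' φ hφ
  have h3 : C * nsq R.F (T φ) ≤ max C 0 * nsq R.F (T φ) :=
    mul_le_mul_of_nonneg_right (le_max_left _ _) (nsq_nonnegT291 R.F _)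
  have h4 : C' * nsq R.F φ ≤ max C' 0 * nsq R.F φ :=
    mul_le_mul_of_nonneg_right (le_max_left _ _) (nsq_nonnegT291 R.F _)
  calc nsq R.F (S (T φ)) ≤ max C 0 * nsq R.F (T φ) := h1.trans h3
    _ ≤ max C 0 * (max C' 0 * nsq R.F φ) :=
        mul_le_mul_of_nonneg_left (h2.trans h4) (le_max_right _ _)
    _ = max C 0 * max C' 0 * nsq R.F φ := by ring

/-- A generator commutes with every operator. -/
theorem comm_gen_isOpT291 {𝔫 : Ideal (𝓞 K)} {τ : G K → ℂ} {R : FrameR K}
    (h : GenGoodT291 𝔫 τ R) {S : (G K → ℂ) → (G K → ℂ)} (hS : IsGenT291 𝔫 τ R.F S)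
    {T : (G K → ℂ) → (G K → ℂ)} (hT : IsOpT 𝔫 τ R.F T) : CommT291 𝔫 τ R.r S T := by
  refine isOpT_induction291 (P := CommT291 𝔫 τ R.r S) (fun T hT => h.comm S T hS hT) ?_ hT
  intro T₁ T₂ _ hT₂ h₁ h₂ φ hφ
  show S (T₁ (T₂ φ)) = T₁ (T₂ (S φ))
  rw [h₁ _ (pres_isOpT291 h hT₂ φ hφ), h₂ φ hφ]

theorem comm_isOpT291 {𝔫 : Ideal (𝓞 K)} {τ : G K → ℂ} {R : FrameR K} (h : GenGoodT291 𝔫 τ R)
    {S T : (G K → ℂ) → (G K → ℂ)} (hS : IsOpT 𝔫 τ R.F S) (hT : IsOpT 𝔫 τ R.F T) :
    CommT291 𝔫 τ R.r S T := by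
  refine isOpT_induction291 (P := fun S => CommT291 𝔫 τ R.r S T)
    (fun S hS => comm_gen_isOpT291 h hS hT) ?_ hS
  intro S₁ S₂ _ hS₂ h₁ h₂ φ hφ
  show S₁ (S₂ (T φ)) = T (S₁ (S₂ φ))
  rw [h₂ φ hφ, h₁ _ (pres_isOpT291 h hS₂ φ hφ)]

theorem adj_isOpT291 {𝔫 : Ideal (𝓞 K)} {τ : G K → ℂ} {R : FrameR K} (h : GenGoodT291 𝔫 τ R)
    {T : (G K → ℂ) → (G K → ℂ)} (hT : IsOpT 𝔫 τ R.F T) : HasAdjT291 𝔫 τ R T := by
  refine isOpT_induction291 (P := HasAdjT291 𝔫 τ R) h.adj ?_ hT
  rintro S T _ hT' ⟨S', hS', hSa⟩ ⟨T', hT'', hTa⟩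
  refine ⟨fun ψ => T' (S' ψ), IsOpT.comp T' S' hT'' hS', fun φ ψ hφ hψ => ?_⟩
  show pair R.F (S (T φ)) ψ = pair R.F φ (T' (S' ψ))
  rw [hSa _ ψ (pres_isOpT291 h hT' φ hφ) hψ, hTa φ _ hφ (pres_isOpT291 h hS' ψ hψ)]

/-- **ASSEMBLY**: the five clauses for the generators give `OpsGoodT`. -/
theorem opsGoodT_of_genGoodT291 {𝔫 : Ideal (𝓞 K)} {τ : G K → ℂ}
    (h : ∀ R : FrameR K, GenGoodT291 𝔫 τ R) : OpsGoodT K 𝔫 τ := fun R =>
  ⟨fun _ hT => pres_isOpT291 (h R) hT, fun _ hT => lin_isOpT291 (h R) hT,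
    fun _ hT => bdd_isOpT291 (h R) hT, fun _ _ hS hT => comm_isOpT291 (h R) hS hT,
    fun _ hT => adj_isOpT291 (h R) hT⟩

/-! ## 3. Formal facts (no hypothesis) -/

theorem CommT291.symm {𝔫 : Ideal (𝓞 K)} {τ : G K → ℂ} {r : G K}
    {S T : (G K → ℂ) → (G K → ℂ)} (h : CommT291 𝔫 τ r S T) : CommT291 𝔫 τ r T S :=
  fun φ hφ => (h φ hφ).symm

/-- Hecke sums are additive and homogeneous (on all functions). -/
theorem lin_heckeSumT291 (𝔫 : Ideal (𝓞 K)) (τ : G K → ℂ) (r : G K) (H : Finset (G K)) :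
    LinT291 𝔫 τ r (heckeSum H) := by
  intro φ ψ c _ _
  funext g
  simp only [heckeSum, Finset.sum_add_distrib, Finset.mul_sum]

/-- Shifts are additive and homogeneous (on all functions). -/
theorem lin_shiftT291 (𝔫 : Ideal (𝓞 K)) (τ : G K → ℂ) (r : G K) (z : G K) :
    LinT291 𝔫 τ r (shift z) := by
  intro φ ψ c _ _
  rfl

/-- The shift by a central element commutes with every generator (on all functions). -/
theorem comm_shift_genT291 {𝔫 : Ideal (𝓞 K)} {τ : G K → ℂ} {r : G K} {F : Frame K} {z : G K}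
    (hz : ∀ g : G K, g * z = z * g) {T : (G K → ℂ) → (G K → ℂ)} (hT : IsGenT291 𝔫 τ F T) :
    CommT291 𝔫 τ r (shift z) T := by
  intro φ _
  have key : ∀ x h : G K, x * z * h = x * h * z := fun x h => by
    rw [mul_assoc, ← hz h, mul_assoc]
  cases hT with
  | conv f hf =>
    funext x
    simp only [shift, conv, key]
  | hecke v hv H hH =>
    funext x
    simp only [shift, heckeSum, key]
  | shift v hv z' hz' =>
    funext x
    simp only [shift, key]
  | shiftInv v hv z' hz' =>
    funext x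
    simp only [shift, key]
  | central w z' hz' =>
    funext x
    simp only [shift, key]
  | centralInv w z' hz' =>
    funext x
    simp only [shift, key]
  | sphere w hw d hd Y hY =>
    funext x
    simp only [shift, sphereMean, key]
  | circle w hw t ht k a hk ha =>
    funext x
    simp only [shift, circleMeanT, key]

/-- The inverse of a central element is central. -/
theorem central_invT291 {z : G K} (hz : ∀ g : G K, g * z = z * g) (g : G K) :
    g * z⁻¹ = z⁻¹ * g := by
  have h := hz (z⁻¹ * g * z⁻¹)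
  have h1 : z⁻¹ * g * z⁻¹ * z = z⁻¹ * g := by group
  have h2 : z * (z⁻¹ * g * z⁻¹) = g * z⁻¹ := by group
  rw [h1, h2] at h
  exact h.symm

/-! ## 4. The standing hypotheses and the sub-leaves (registry rows `T2.27.x`) -/

/-- The standing hypotheses of `T2.LeafT07`. -/
structure CtxT291 (K : Type) [Field K] [NumberField K] (𝔫 : Ideal (𝓞 K)) (τ : G K → ℂ) :
    Prop where
  t1 : T1.T1Out K
  ne : 𝔫 ≠ ⊥
  kt : IsKType τ
  pd : PairDefiniteT K 𝔫 τ
  cc : ConvCuspT K 𝔫 τ

/-- **T2.27.00** (KEY LEMMA, `T`-form: invariance of the Petersson integral under right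
translations): for a function `Φ`, left invariant under `GL₂(K)` and right invariant under the ray
generator `r`, `∫_D Φ(g h) dμ(g) = ∫_D Φ(g) dμ(g)` for every `h ∈ GL₂(𝔸_K)`.
Proof: `T1.UnimodC` (right invariance of `μ`), `T1.AdNormC` (`‖det r‖ = 2`, the slab is a
fundamental domain of `⟨r⟩`), `r` is central: `D` and `D h` are two fundamental domains of the
countable group `GL₂(K) × ⟨r⟩` acting on `GL₂(𝔸_K)` by `(γ, m) • g = γ g r^m`
(`IsFundamentalDomain.setIntegral_eq`). -/
def SubTranslT291 (K : Type) [Field K] [NumberField K] : Prop :=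
  T1.T1Out K → ∀ (R : FrameR K) (Φ : G K → ℂ),
    (∀ (γ : GL (Fin 2) K) (g : G K), Φ (T1.ratG K γ * g) = Φ g) →
    (∀ g : G K, Φ (g * R.r) = Φ g) →
    ∀ h : G K, ∫ g in R.F.D, Φ (g * h) ∂(R.F.μ) = ∫ g in R.F.D, Φ g ∂(R.F.μ)

/-- **T2.27.01** the scalar uniformisers and the positive scalars at one infinite place are
central. -/
def SubCentralT291 (K : Type) [Field K] [NumberField K] : Prop :=
  (∀ (v : HeightOneSpectrum (𝓞 K)) (z : G K), IsScalarUniformizerAt v z →
    ∀ g : G K, g * z = z * g) ∧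
  (∀ (w : InfinitePlace K) (z : G K), IsArchPosScalar w z → ∀ g : G K, g * z = z * g)

/-- **T2.27.02** Hecke sums preserve the cusp functions of the class (`T1.HeckeCosetC`:
`u h = h' k`; `T1.AddFundDomC`: the constant term is an integral over a set of finite measure;
the elements of `H` commute with the elements supported at the infinite places and with `r`). -/
def SubHeckePresT291 (K : Type) [Field K] [NumberField K] : Prop :=
  ∀ (𝔫 : Ideal (𝓞 K)) (τ : G K → ℂ), CtxT291 K 𝔫 τ → ∀ (R : FrameR K)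
    (v : HeightOneSpectrum (𝓞 K)), ¬ v.asIdeal ∣ 𝔫 →
    ∀ H : Finset (G K), IsHeckeCosetSystem v H → PresT291 𝔫 τ R.r (heckeSum H)

/-- **T2.27.03** `‖T_H φ‖² ≤ (q_v + 1)² ‖φ‖²` (Cauchy--Schwarz and the KEY LEMMA). -/
def SubHeckeBddT291 (K : Type) [Field K] [NumberField K] : Prop :=
  ∀ (𝔫 : Ideal (𝓞 K)) (τ : G K → ℂ), CtxT291 K 𝔫 τ → ∀ (R : FrameR K)
    (v : HeightOneSpectrum (𝓞 K)), ¬ v.asIdeal ∣ 𝔫 →
    ∀ H : Finset (G K), IsHeckeCosetSystem v H → BddT291 𝔫 τ R (heckeSum H)

/-- **T2.27.04** `T_v* = S_v⁻¹ T_v`: `B(h) = ∫_D φ(g h) ψ̄(g)` is bi-invariant under `GL₂(𝒪_v)`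
(KEY LEMMA), and `h`, `h⁻¹ z` lie in the same double coset `GL₂(𝒪_v) diag(ϖ, 1) GL₂(𝒪_v)`.
For EVERY coset system `H` and EVERY scalar uniformiser `z` at `v` (clause 3 of `OpsAdjT`). -/
def SubHeckeAdjT291 (K : Type) [Field K] [NumberField K] : Prop :=
  ∀ (𝔫 : Ideal (𝓞 K)) (τ : G K → ℂ), CtxT291 K 𝔫 τ → ∀ (R : FrameR K)
    (v : HeightOneSpectrum (𝓞 K)), ¬ v.asIdeal ∣ 𝔫 →
    ∀ H : Finset (G K), IsHeckeCosetSystem v H →
    ∀ z : G K, IsScalarUniformizerAt v z →
      IsAdjT291 𝔫 τ R (heckeSum H) (fun ψ => shift z⁻¹ (heckeSum H ψ))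

/-- **T2.27.05** the shift by a central element preserves the cusp functions of the class. -/
def SubShiftPresT291 (K : Type) [Field K] [NumberField K] : Prop :=
  ∀ (𝔫 : Ideal (𝓞 K)) (τ : G K → ℂ) (r z : G K), (∀ g : G K, g * z = z * g) →
    PresT291 𝔫 τ r (shift z)

/-- **T2.27.06** right translations are isometries on the class (KEY LEMMA): clauses 1 and 2 of
`OpsAdjT`, for an arbitrary element `z`. -/
def SubShiftIsoT291 (K : Type) [Field K] [NumberField K] : Prop :=
  ∀ (𝔫 : Ideal (𝓞 K)) (τ : G K → ℂ), CtxT291 K 𝔫 τ → ∀ (R : FrameR K) (z : G K)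
    (φ ψ : G K → ℂ), IsCuspT 𝔫 τ R.r φ → IsCuspT 𝔫 τ R.r ψ →
      pair R.F (shift z φ) (shift z ψ) = pair R.F φ ψ

/-- **T2.27.08** convolutions are additive and homogeneous on the cusp functions of the class
(integrability: `f` continuous with compact support, `φ` continuous and bounded). -/
def SubConvLinT291 (K : Type) [Field K] [NumberField K] : Prop :=
  ∀ (𝔫 : Ideal (𝓞 K)) (τ : G K → ℂ), CtxT291 K 𝔫 τ → ∀ (R : FrameR K) (f : G K → ℂ),
    IsSphTestT 𝔫 τ f → LinT291 𝔫 τ R.r (conv R.F f)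

/-- **T2.27.09** `‖R(f) φ‖² ≤ ‖f‖₁² ‖φ‖²` (Cauchy--Schwarz, Tonelli, KEY LEMMA). -/
def SubConvBddT291 (K : Type) [Field K] [NumberField K] : Prop :=
  ∀ (𝔫 : Ideal (𝓞 K)) (τ : G K → ℂ), CtxT291 K 𝔫 τ → ∀ (R : FrameR K) (f : G K → ℂ),
    IsSphTestT 𝔫 τ f → BddT291 𝔫 τ R (conv R.F f)

/-- **T2.27.10** two Hecke sums commute on the cusp functions of the class (different places: the
elements commute; same place: independence of the coset system, asset helper129
`heckeSum_indep_level129`). -/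
def SubCommHeckeHeckeT291 (K : Type) [Field K] [NumberField K] : Prop :=
  ∀ (𝔫 : Ideal (𝓞 K)) (τ : G K → ℂ), CtxT291 K 𝔫 τ → ∀ R : FrameR K,
    ∀ (v : HeightOneSpectrum (𝓞 K)), ¬ v.asIdeal ∣ 𝔫 → ∀ H : Finset (G K),
    IsHeckeCosetSystem v H →
    ∀ (v' : HeightOneSpectrum (𝓞 K)), ¬ v'.asIdeal ∣ 𝔫 → ∀ H' : Finset (G K),
    IsHeckeCosetSystem v' H' → CommT291 𝔫 τ R.r (heckeSum H) (heckeSum H')

/-- **T2.27.11** a convolution by a spherical test function of type `τ` commutes with a Hecke sum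
(commutativity of the spherical Hecke algebra at `v`; the type `τ` plays no role).
[Bump, Thm 4.6.1]. -/
def SubCommConvHeckeT291 (K : Type) [Field K] [NumberField K] : Prop :=
  ∀ (𝔫 : Ideal (𝓞 K)) (τ : G K → ℂ), CtxT291 K 𝔫 τ → ∀ (R : FrameR K) (f : G K → ℂ),
    IsSphTestT 𝔫 τ f →
    ∀ (v : HeightOneSpectrum (𝓞 K)), ¬ v.asIdeal ∣ 𝔫 → ∀ H : Finset (G K),
    IsHeckeCosetSystem v H → CommT291 𝔫 τ R.r (conv R.F f) (heckeSum H)

/-- **T2.27.12** sphere means preserve the cusp functions of the class.  The type under `U(2)` at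
the place of the mean: `τ` is trivial on `SU(2)` (`SubTypeSU2T291`), `U(2) = U(1) · SU(2)` with
`U(1)` central, and `sin β dβ dα` is invariant under the rotations of `S² = SU(2) / T`
(`SubS2RotT291`); continuity of `Y` by `SubLocContT291`. -/
def SubSpherePresT291 (K : Type) [Field K] [NumberField K] : Prop :=
  ∀ (𝔫 : Ideal (𝓞 K)) (τ : G K → ℂ), CtxT291 K 𝔫 τ → ∀ (R : FrameR K)
    (w : InfinitePlace K), w.IsComplex → ∀ d : ℝ, 0 < d →
    ∀ Y : ℝ → ℝ → G K, IsSphereAt w d Y → PresT291 𝔫 τ R.r (sphereMean Y)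

/-- **T2.27.13** the `τ`-twisted circle means preserve the cusp functions of the class (the
circle is a one-parameter group, `θ ↦ τ(k_θ)⁻¹ φ(g k_θ a)` has period `2π` because `-1` is
central: periodicity). -/
def SubCirclePresT291 (K : Type) [Field K] [NumberField K] : Prop :=
  ∀ (𝔫 : Ideal (𝓞 K)) (τ : G K → ℂ), CtxT291 K 𝔫 τ → ∀ (R : FrameR K)
    (w : InfinitePlace K), w.IsReal → ∀ t : ℝ, 0 < t → ∀ (k : ℝ → G K) (a : G K),
    IsRotAt w k → IsTorusAt w t a → PresT291 𝔫 τ R.r (circleMeanT τ k a)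

/-- **T2.27.14** sphere means and twisted circle means are additive and homogeneous on the cusp
functions of the class. -/
def SubMeanLinT291 (K : Type) [Field K] [NumberField K] : Prop :=
  ∀ (𝔫 : Ideal (𝓞 K)) (τ : G K → ℂ), CtxT291 K 𝔫 τ → ∀ R : FrameR K,
    (∀ (w : InfinitePlace K), w.IsComplex → ∀ d : ℝ, 0 < d →
      ∀ Y : ℝ → ℝ → G K, IsSphereAt w d Y → LinT291 𝔫 τ R.r (sphereMean Y)) ∧
    (∀ (w : InfinitePlace K), w.IsReal → ∀ t : ℝ, 0 < t → ∀ (k : ℝ → G K) (a : G K),
      IsRotAt w k → IsTorusAt w t a → LinT291 𝔫 τ R.r (circleMeanT τ k a))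

/-- **T2.27.15** `‖M φ‖² ≤ (4π)² ‖φ‖²`, resp. `(2π)² ‖φ‖²` (Cauchy--Schwarz, Fubini, KEY LEMMA;
`|τ| = 1`). -/
def SubMeanBddT291 (K : Type) [Field K] [NumberField K] : Prop :=
  ∀ (𝔫 : Ideal (𝓞 K)) (τ : G K → ℂ), CtxT291 K 𝔫 τ → ∀ R : FrameR K,
    (∀ (w : InfinitePlace K), w.IsComplex → ∀ d : ℝ, 0 < d →
      ∀ Y : ℝ → ℝ → G K, IsSphereAt w d Y → BddT291 𝔫 τ R (sphereMean Y)) ∧
    (∀ (w : InfinitePlace K), w.IsReal → ∀ t : ℝ, 0 < t → ∀ (k : ℝ → G K) (a : G K),
      IsRotAt w k → IsTorusAt w t a → BddT291 𝔫 τ R (circleMeanT τ k a))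

/-- **T2.27.16** sphere means and twisted circle means are self-adjoint (clauses 4 and 5 of
`OpsAdjT`): `B(h) = ∫_D φ(g h) ψ̄(g)` satisfies `B(k₁ h k₂) = τ(k₁)⁻¹ … ` under the compact group
at `w` (KEY LEMMA), and `torus(d)⁻¹ = w₀ torus(d) w₀⁻¹` with `w₀ = [[0, 1], [-1, 0]]`
(`w₀ ∈ SU(2)`, resp. `w₀ = rotY π ∈ SO(2)`; the factors `τ(w₀)`, `τ(w₀)⁻¹` cancel). -/
def SubMeanAdjT291 (K : Type) [Field K] [NumberField K] : Prop :=
  ∀ (𝔫 : Ideal (𝓞 K)) (τ : G K → ℂ), CtxT291 K 𝔫 τ → ∀ R : FrameR K,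
    (∀ (w : InfinitePlace K), w.IsComplex → ∀ d : ℝ, 0 < d →
      ∀ Y : ℝ → ℝ → G K, IsSphereAt w d Y → IsAdjT291 𝔫 τ R (sphereMean Y) (sphereMean Y)) ∧
    (∀ (w : InfinitePlace K), w.IsReal → ∀ t : ℝ, 0 < t → ∀ (k : ℝ → G K) (a : G K),
      IsRotAt w k → IsTorusAt w t a →
      IsAdjT291 𝔫 τ R (circleMeanT τ k a) (circleMeanT τ k a))

/-- **T2.27.17** sphere means and twisted circle means commute with the Hecke sums (the elements
commute; the integral of a finite sum). -/
def SubCommMeanHeckeT291 (K : Type) [Field K] [NumberField K] : Prop :=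
  ∀ (𝔫 : Ideal (𝓞 K)) (τ : G K → ℂ), CtxT291 K 𝔫 τ → ∀ R : FrameR K,
    ∀ (v : HeightOneSpectrum (𝓞 K)), ¬ v.asIdeal ∣ 𝔫 → ∀ H : Finset (G K),
    IsHeckeCosetSystem v H →
    (∀ (w : InfinitePlace K), w.IsComplex → ∀ d : ℝ, 0 < d →
      ∀ Y : ℝ → ℝ → G K, IsSphereAt w d Y → CommT291 𝔫 τ R.r (sphereMean Y) (heckeSum H)) ∧
    (∀ (w : InfinitePlace K), w.IsReal → ∀ t : ℝ, 0 < t → ∀ (k : ℝ → G K) (a : G K),
      IsRotAt w k → IsTorusAt w t a → CommT291 𝔫 τ R.r (circleMeanT τ k a) (heckeSum H))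

/-- **T2.27.18** two sphere means commute on the cusp functions of the class.  Different places:
Fubini.  Same place: on functions of type `τ` the sphere mean is the convolution with a measure
which is bi-equivariant of type `τ⁻¹` under `U(2)`; the transposition fixes the diagonal
matrices and `τ(kᵀ) = τ(k)` on `U(2)` (`τ` is a power of the determinant: trivial on `SU(2)`);
Cartan decomposition `GL₂(ℂ) = U(2) A U(2)`; then `PairDefiniteT`. [Helgason, GGA IV §2]. -/
def SubCommSphereSphereT291 (K : Type) [Field K] [NumberField K] : Prop :=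
  ∀ (𝔫 : Ideal (𝓞 K)) (τ : G K → ℂ), CtxT291 K 𝔫 τ → ∀ R : FrameR K,
    ∀ (w : InfinitePlace K), w.IsComplex → ∀ d : ℝ, 0 < d →
    ∀ Y : ℝ → ℝ → G K, IsSphereAt w d Y →
    ∀ (w' : InfinitePlace K), w'.IsComplex → ∀ d' : ℝ, 0 < d' →
    ∀ Y' : ℝ → ℝ → G K, IsSphereAt w' d' Y' →
      CommT291 𝔫 τ R.r (sphereMean Y) (sphereMean Y')

/-- **T2.27.19** a sphere mean and a twisted circle mean commute (different places: Fubini). -/
def SubCommSphereCircleT291 (K : Type) [Field K] [NumberField K] : Prop :=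
  ∀ (𝔫 : Ideal (𝓞 K)) (τ : G K → ℂ), CtxT291 K 𝔫 τ → ∀ R : FrameR K,
    ∀ (w : InfinitePlace K), w.IsComplex → ∀ d : ℝ, 0 < d →
    ∀ Y : ℝ → ℝ → G K, IsSphereAt w d Y →
    ∀ (w' : InfinitePlace K), w'.IsReal → ∀ t : ℝ, 0 < t → ∀ (k : ℝ → G K) (a : G K),
    IsRotAt w' k → IsTorusAt w' t a →
      CommT291 𝔫 τ R.r (sphereMean Y) (circleMeanT τ k a)

/-- **T2.27.20** two twisted circle means commute.  Different places: Fubini.  Same place:
Gelfand's trick with the anti-involution `θ(g) = e gᵀ e`, `e = diag(1, -1)`, which fixes `SO(2)`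
pointwise and the diagonal matrices; `GL₂(ℝ) = SO(2) A' SO(2)`, `A'` = real diagonal matrices. -/
def SubCommCircleCircleT291 (K : Type) [Field K] [NumberField K] : Prop :=
  ∀ (𝔫 : Ideal (𝓞 K)) (τ : G K → ℂ), CtxT291 K 𝔫 τ → ∀ R : FrameR K,
    ∀ (w : InfinitePlace K), w.IsReal → ∀ t : ℝ, 0 < t → ∀ (k : ℝ → G K) (a : G K),
    IsRotAt w k → IsTorusAt w t a →
    ∀ (w' : InfinitePlace K), w'.IsReal → ∀ t' : ℝ, 0 < t' → ∀ (k' : ℝ → G K) (a' : G K),
    IsRotAt w' k' → IsTorusAt w' t' a' →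
      CommT291 𝔫 τ R.r (circleMeanT τ k a) (circleMeanT τ k' a')

/-- **T2.27.21** a convolution by a spherical test function of type `τ` commutes with the sphere
means and with the twisted circle means (Gelfand's trick at `w`, with the transposition at a
complex place and with `θ(g) = e gᵀ e` at a real place; then `PairDefiniteT`).
[Helgason, GGA IV §3], [Lang, `SL₂(ℝ)`, ch. IV]. -/
def SubCommConvMeanT291 (K : Type) [Field K] [NumberField K] : Prop :=
  ∀ (𝔫 : Ideal (𝓞 K)) (τ : G K → ℂ), CtxT291 K 𝔫 τ → ∀ (R : FrameR K) (f : G K → ℂ),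
    IsSphTestT 𝔫 τ f →
    (∀ (w : InfinitePlace K), w.IsComplex → ∀ d : ℝ, 0 < d →
      ∀ Y : ℝ → ℝ → G K, IsSphereAt w d Y → CommT291 𝔫 τ R.r (conv R.F f) (sphereMean Y)) ∧
    (∀ (w : InfinitePlace K), w.IsReal → ∀ t : ℝ, 0 < t → ∀ (k : ℝ → G K) (a : G K),
      IsRotAt w k → IsTorusAt w t a → CommT291 𝔫 τ R.r (conv R.F f) (circleMeanT τ k a))

/-! ### Auxiliary sub-leaves (Mathlib + A0 only; inputs of T2.27.12 -- T2.27.21) -/

/-- **T2.27.31** invariance of the measure `sin β dβ dα` of `S² = SU(2) / T` under the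
rotations, in Euler angles: for `ψ` continuous on the invertible matrices and right invariant
under the diagonal torus `T = {rotZ γ}` of `SU(2)`, and `k₀ ∈ SU(2)`.
(The form `T2.07.31` of helper429 -- `ψ` right invariant under `U(2)`, `k₀ ∈ U(2)` -- does not
apply to functions of type `τ`; this form implies it.) -/
def SubS2RotT291 : Prop :=
  ∀ ψ : Matrix (Fin 2) (Fin 2) ℂ → ℂ, ContinuousOn ψ {m | m.det ≠ 0} →
    (∀ (m : Matrix (Fin 2) (Fin 2) ℂ) (γ : ℝ), ψ (m * rotZ γ) = ψ m) →
    ∀ k₀ : Matrix (Fin 2) (Fin 2) ℂ, k₀ * k₀.conjTranspose = 1 → k₀.det = 1 →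
      (∫ α in (0 : ℝ)..(2 * Real.pi), ∫ β in (0 : ℝ)..Real.pi,
          ψ (k₀ * (rotZ α * rotY β)) * ((Real.sin β : ℝ) : ℂ))
        = ∫ α in (0 : ℝ)..(2 * Real.pi), ∫ β in (0 : ℝ)..Real.pi,
          ψ (rotZ α * rotY β) * ((Real.sin β : ℝ) : ℂ)

/-- **T2.27.33** a `K_∞`-type is trivial on `SU(2)` at a complex place: `rotZ (2γ)` is the
commutator of `rotZ γ` and `w₀ = [[0, 1], [-1, 0]]`, every element of `SU(2)` is conjugate in
`SU(2)` to some `rotZ γ`, and `τ` is multiplicative on the elements of `U(2)` at `w`. -/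
def SubTypeSU2T291 (K : Type) [Field K] [NumberField K] : Prop :=
  ∀ τ : G K → ℂ, IsKType τ → ∀ (w : InfinitePlace K), w.IsComplex →
    ∀ k : G K, IsArchCompact w k → (infComp w k).det = 1 → τ k = 1

/-- ALL SUB-LEAVES of `T2.LeafT07` which enter the assembly. -/
structure SubT291 (K : Type) [Field K] [NumberField K] : Prop where
  central : SubCentralT291 K
  heckePres : SubHeckePresT291 K
  heckeBdd : SubHeckeBddT291 K
  heckeAdj : SubHeckeAdjT291 K
  shiftPres : SubShiftPresT291 K
  shiftIso : SubShiftIsoT291 K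
  convLin : SubConvLinT291 K
  convBdd : SubConvBddT291 K
  commHeckeHecke : SubCommHeckeHeckeT291 K
  commConvHecke : SubCommConvHeckeT291 K
  spherePres : SubSpherePresT291 K
  circlePres : SubCirclePresT291 K
  meanLin : SubMeanLinT291 K
  meanBdd : SubMeanBddT291 K
  meanAdj : SubMeanAdjT291 K
  commMeanHecke : SubCommMeanHeckeT291 K
  commSphereSphere : SubCommSphereSphereT291 K
  commSphereCircle : SubCommSphereCircleT291 K
  commCircleCircle : SubCommCircleCircleT291 K
  commConvMean : SubCommConvMeanT291 K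

/-! ## 5. The leaf from the sub-leaves -/

theorem shift_shiftT291 (h k : G K) (φ : G K → ℂ) : shift h (shift k φ) = shift (h * k) φ := by
  funext g
  show φ (g * h * k) = φ (g * (h * k))
  rw [mul_assoc]

theorem shift_oneT291 (φ : G K → ℂ) : shift (1 : G K) φ = φ := by
  funext g
  show φ (g * 1) = φ g
  rw [mul_one]

/-- The adjoint of the shift by a central element is the shift by its inverse. -/
theorem adj_shift_of_isoT291 (S : SubT291 K) {𝔫 : Ideal (𝓞 K)} {τ : G K → ℂ}
    (c : CtxT291 K 𝔫 τ) (R : FrameR K) {z : G K} (hz : ∀ g : G K, g * z = z * g) :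
    IsAdjT291 𝔫 τ R (shift z) (shift z⁻¹) := by
  intro φ ψ hφ hψ
  have hψ' : IsCuspT 𝔫 τ R.r (shift z⁻¹ ψ) :=
    S.shiftPres 𝔫 τ R.r z⁻¹ (central_invT291 hz) ψ hψ
  have := S.shiftIso 𝔫 τ c R z φ (shift z⁻¹ ψ) hφ hψ'
  rw [shift_shiftT291, mul_inv_cancel, shift_oneT291] at this
  exact this

theorem bdd_shift_of_isoT291 (S : SubT291 K) {𝔫 : Ideal (𝓞 K)} {τ : G K → ℂ}
    (c : CtxT291 K 𝔫 τ) (R : FrameR K) (z : G K) : BddT291 𝔫 τ R (shift z) :=
  ⟨1, fun φ hφ => by
    unfold nsq
    rw [S.shiftIso 𝔫 τ c R z φ φ hφ hφ, one_mul]⟩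

theorem genGoodT_of_subT291 (S : SubT291 K) {𝔫 : Ideal (𝓞 K)} {τ : G K → ℂ}
    (c : CtxT291 K 𝔫 τ) (R : FrameR K) : GenGoodT291 𝔫 τ R := by
  have hcen : ∀ (v : HeightOneSpectrum (𝓞 K)) (z : G K), IsScalarUniformizerAt v z →
      ∀ g : G K, g * z = z * g := S.central.1
  have hcen' : ∀ (w : InfinitePlace K) (z : G K), IsArchPosScalar w z →
      ∀ g : G K, g * z = z * g := S.central.2
  have hcc := c.cc R
  refine ⟨?_, ?_, ?_, ?_, ?_⟩
  · -- preservation
    intro T hT
    cases hT with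
    | conv f hf => exact fun φ hφ => hcc.2.2.1 f φ hf.test hφ
    | hecke v hv H hH => exact S.heckePres 𝔫 τ c R v hv H hH
    | shift v hv z hz => exact S.shiftPres 𝔫 τ R.r z (hcen v z hz)
    | shiftInv v hv z hz => exact S.shiftPres 𝔫 τ R.r z⁻¹ (central_invT291 (hcen v z hz))
    | central w z hz => exact S.shiftPres 𝔫 τ R.r z (hcen' w z hz)
    | centralInv w z hz => exact S.shiftPres 𝔫 τ R.r z⁻¹ (central_invT291 (hcen' w z hz))
    | sphere w hw d hd Y hY => exact S.spherePres 𝔫 τ c R w hw d hd Y hY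
    | circle w hw t ht k a hk ha => exact S.circlePres 𝔫 τ c R w hw t ht k a hk ha
  · -- linearity
    intro T hT
    cases hT with
    | conv f hf => exact S.convLin 𝔫 τ c R f hf
    | hecke v hv H hH => exact lin_heckeSumT291 𝔫 τ R.r H
    | shift v hv z hz => exact lin_shiftT291 𝔫 τ R.r z
    | shiftInv v hv z hz => exact lin_shiftT291 𝔫 τ R.r z⁻¹
    | central w z hz => exact lin_shiftT291 𝔫 τ R.r z
    | centralInv w z hz => exact lin_shiftT291 𝔫 τ R.r z⁻¹
    | sphere w hw d hd Y hY => exact (S.meanLin 𝔫 τ c R).1 w hw d hd Y hY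
    | circle w hw t ht k a hk ha => exact (S.meanLin 𝔫 τ c R).2 w hw t ht k a hk ha
  · -- bounds
    intro T hT
    cases hT with
    | conv f hf => exact S.convBdd 𝔫 τ c R f hf
    | hecke v hv H hH => exact S.heckeBdd 𝔫 τ c R v hv H hH
    | shift v hv z hz => exact bdd_shift_of_isoT291 S c R z
    | shiftInv v hv z hz => exact bdd_shift_of_isoT291 S c R z⁻¹
    | central w z hz => exact bdd_shift_of_isoT291 S c R z
    | centralInv w z hz => exact bdd_shift_of_isoT291 S c R z⁻¹
    | sphere w hw d hd Y hY => exact (S.meanBdd 𝔫 τ c R).1 w hw d hd Y hY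
    | circle w hw t ht k a hk ha => exact (S.meanBdd 𝔫 τ c R).2 w hw t ht k a hk ha
  · -- commutation
    intro T₁ T₂ h₁ h₂
    cases h₁ with
    | shift v hv z hz => exact comm_shift_genT291 (hcen v z hz) h₂
    | shiftInv v hv z hz => exact comm_shift_genT291 (central_invT291 (hcen v z hz)) h₂
    | central w z hz => exact comm_shift_genT291 (hcen' w z hz) h₂
    | centralInv w z hz => exact comm_shift_genT291 (central_invT291 (hcen' w z hz)) h₂
    | conv f hf =>
      cases h₂ with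
      | conv f' hf' =>
        exact fun φ hφ => hcc.2.2.2.2.2 f f' φ hf hf' hφ.aut
      | hecke v hv H hH => exact S.commConvHecke 𝔫 τ c R f hf v hv H hH
      | shift v hv z hz =>
        exact (comm_shift_genT291 (hcen v z hz) (IsGenT291.conv (F := R.F) f hf)).symm
      | shiftInv v hv z hz =>
        exact (comm_shift_genT291 (central_invT291 (hcen v z hz))
          (IsGenT291.conv (F := R.F) f hf)).symm
      | central w z hz =>
        exact (comm_shift_genT291 (hcen' w z hz) (IsGenT291.conv (F := R.F) f hf)).symm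
      | centralInv w z hz =>
        exact (comm_shift_genT291 (central_invT291 (hcen' w z hz))
          (IsGenT291.conv (F := R.F) f hf)).symm
      | sphere w hw d hd Y hY => exact (S.commConvMean 𝔫 τ c R f hf).1 w hw d hd Y hY
      | circle w hw t ht k a hk ha => exact (S.commConvMean 𝔫 τ c R f hf).2 w hw t ht k a hk ha
    | hecke v hv H hH =>
      cases h₂ with
      | conv f' hf' => exact (S.commConvHecke 𝔫 τ c R f' hf' v hv H hH).symm
      | hecke v' hv' H' hH' => exact S.commHeckeHecke 𝔫 τ c R v hv H hH v' hv' H' hH'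
      | shift v' hv' z hz =>
        exact (comm_shift_genT291 (hcen v' z hz)
          (IsGenT291.hecke (τ := τ) (F := R.F) v hv H hH)).symm
      | shiftInv v' hv' z hz =>
        exact (comm_shift_genT291 (central_invT291 (hcen v' z hz))
          (IsGenT291.hecke (τ := τ) (F := R.F) v hv H hH)).symm
      | central w z hz =>
        exact (comm_shift_genT291 (hcen' w z hz)
          (IsGenT291.hecke (τ := τ) (F := R.F) v hv H hH)).symm
      | centralInv w z hz =>
        exact (comm_shift_genT291 (central_invT291 (hcen' w z hz))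
          (IsGenT291.hecke (τ := τ) (F := R.F) v hv H hH)).symm
      | sphere w hw d hd Y hY =>
        exact ((S.commMeanHecke 𝔫 τ c R v hv H hH).1 w hw d hd Y hY).symm
      | circle w hw t ht k a hk ha =>
        exact ((S.commMeanHecke 𝔫 τ c R v hv H hH).2 w hw t ht k a hk ha).symm
    | sphere w hw d hd Y hY =>
      cases h₂ with
      | conv f' hf' => exact ((S.commConvMean 𝔫 τ c R f' hf').1 w hw d hd Y hY).symm
      | hecke v hv H hH => exact (S.commMeanHecke 𝔫 τ c R v hv H hH).1 w hw d hd Y hY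
      | shift v' hv' z hz =>
        exact (comm_shift_genT291 (hcen v' z hz)
          (IsGenT291.sphere (𝔫 := 𝔫) (τ := τ) (F := R.F) w hw d hd Y hY)).symm
      | shiftInv v' hv' z hz =>
        exact (comm_shift_genT291 (central_invT291 (hcen v' z hz))
          (IsGenT291.sphere (𝔫 := 𝔫) (τ := τ) (F := R.F) w hw d hd Y hY)).symm
      | central w' z hz =>
        exact (comm_shift_genT291 (hcen' w' z hz)
          (IsGenT291.sphere (𝔫 := 𝔫) (τ := τ) (F := R.F) w hw d hd Y hY)).symm
      | centralInv w' z hz =>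
        exact (comm_shift_genT291 (central_invT291 (hcen' w' z hz))
          (IsGenT291.sphere (𝔫 := 𝔫) (τ := τ) (F := R.F) w hw d hd Y hY)).symm
      | sphere w' hw' d' hd' Y' hY' =>
        exact S.commSphereSphere 𝔫 τ c R w hw d hd Y hY w' hw' d' hd' Y' hY'
      | circle w' hw' t ht k a hk ha =>
        exact S.commSphereCircle 𝔫 τ c R w hw d hd Y hY w' hw' t ht k a hk ha
    | circle w hw t ht k a hk ha =>
      cases h₂ with
      | conv f' hf' => exact ((S.commConvMean 𝔫 τ c R f' hf').2 w hw t ht k a hk ha).symm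
      | hecke v hv H hH => exact (S.commMeanHecke 𝔫 τ c R v hv H hH).2 w hw t ht k a hk ha
      | shift v' hv' z hz =>
        exact (comm_shift_genT291 (hcen v' z hz)
          (IsGenT291.circle (𝔫 := 𝔫) (F := R.F) w hw t ht k a hk ha)).symm
      | shiftInv v' hv' z hz =>
        exact (comm_shift_genT291 (central_invT291 (hcen v' z hz))
          (IsGenT291.circle (𝔫 := 𝔫) (F := R.F) w hw t ht k a hk ha)).symm
      | central w' z hz =>
        exact (comm_shift_genT291 (hcen' w' z hz)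
          (IsGenT291.circle (𝔫 := 𝔫) (F := R.F) w hw t ht k a hk ha)).symm
      | centralInv w' z hz =>
        exact (comm_shift_genT291 (central_invT291 (hcen' w' z hz))
          (IsGenT291.circle (𝔫 := 𝔫) (F := R.F) w hw t ht k a hk ha)).symm
      | sphere w' hw' d' hd' Y' hY' =>
        exact (S.commSphereCircle 𝔫 τ c R w' hw' d' hd' Y' hY' w hw t ht k a hk ha).symm
      | circle w' hw' t' ht' k' a' hk' ha' =>
        exact S.commCircleCircle 𝔫 τ c R w hw t ht k a hk ha w' hw' t' ht' k' a' hk' ha'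
  · -- adjoints
    intro T hT
    cases hT with
    | conv f hf =>
      exact ⟨conv R.F (adj f), IsOpT.conv _ (hcc.2.1 f hf),
        fun φ ψ hφ hψ => hcc.2.2.2.2.1 f φ ψ hf.test hφ.aut hψ.aut⟩
    | hecke v hv H hH =>
      obtain ⟨z, hz⟩ := (c.t1.heckeCoset v).2.2
      exact ⟨fun ψ => shift z⁻¹ (heckeSum H ψ),
        IsOpT.comp _ _ (IsOpT.shiftInv v hv z hz) (IsOpT.hecke v hv H hH),
        S.heckeAdj 𝔫 τ c R v hv H hH z hz⟩
    | shift v hv z hz =>
      exact ⟨shift z⁻¹, IsOpT.shiftInv v hv z hz, adj_shift_of_isoT291 S c R (hcen v z hz)⟩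
    | shiftInv v hv z hz =>
      refine ⟨shift z, IsOpT.shift v hv z hz, ?_⟩
      have := adj_shift_of_isoT291 S c R (central_invT291 (hcen v z hz))
      rwa [inv_inv] at this
    | central w z hz =>
      exact ⟨shift z⁻¹, IsOpT.centralInv w z hz, adj_shift_of_isoT291 S c R (hcen' w z hz)⟩
    | centralInv w z hz =>
      refine ⟨shift z, IsOpT.central w z hz, ?_⟩
      have := adj_shift_of_isoT291 S c R (central_invT291 (hcen' w z hz))
      rwa [inv_inv] at this
    | sphere w hw d hd Y hY =>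
      exact ⟨sphereMean Y, IsOpT.sphere w hw d hd Y hY, (S.meanAdj 𝔫 τ c R).1 w hw d hd Y hY⟩
    | circle w hw t ht k a hk ha =>
      exact ⟨circleMeanT τ k a, IsOpT.circle w hw t ht k a hk ha,
        (S.meanAdj 𝔫 τ c R).2 w hw t ht k a hk ha⟩

/-- The explicit adjoints from the sub-leaves. -/
theorem opsAdjT_of_subT291 (S : SubT291 K) {𝔫 : Ideal (𝓞 K)} {τ : G K → ℂ}
    (c : CtxT291 K 𝔫 τ) : OpsAdjT K 𝔫 τ := fun R =>
  ⟨fun _ _ z _ φ ψ hφ hψ => S.shiftIso 𝔫 τ c R z φ ψ hφ hψ,
    fun _ z _ φ ψ hφ hψ => S.shiftIso 𝔫 τ c R z φ ψ hφ hψ,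
    fun v hv H z hH hz φ ψ hφ hψ => S.heckeAdj 𝔫 τ c R v hv H hH z hz φ ψ hφ hψ,
    fun w hw d hd Y hY φ ψ hφ hψ => (S.meanAdj 𝔫 τ c R).1 w hw d hd Y hY φ ψ hφ hψ,
    fun w hw t ht k a hk ha φ ψ hφ hψ => (S.meanAdj 𝔫 τ c R).2 w hw t ht k a hk ha φ ψ hφ hψ⟩

/-- **THE LEAF `T2.27` FROM ITS SUB-LEAVES.** -/
theorem leafT07_of_subT291 (S : SubT291 K) : LeafT07 K := fun hT1 𝔫 τ h𝔫 hτ hP hC =>
  ⟨opsGoodT_of_genGoodT291 fun R => genGoodT_of_subT291 S ⟨hT1, h𝔫, hτ, hP, hC⟩ R,
    opsAdjT_of_subT291 S ⟨hT1, h𝔫, hτ, hP, hC⟩⟩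

end Fermat.Agent.LT.T2.H291

end

end
-- ===== PACK-END LT/T2/H291/OpsSpecT.lean

-- ===== PACK-BEGIN LT/T2/H555/CartanInfAdapter.lean
section



/-!
# Row LT, tower T2, leaf T2.07.32: `SubCartanInf429` (helper555)

OFF-MAIN.  Adapter: the Prop `SubCartanInf429` of helper429's `OpsSpec.lean` (byte-identical copy,
sha256 657e0d9a) is proved by `subCartanInf_core555` (`CartanInf.lean`, Mathlib only).
-/

set_option autoImplicit false

namespace Fermat.Agent.LT.T2.H555

/-- **T2.07.32**: `SubCartanInf429` holds. -/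
theorem subCartanInf555 : Fermat.Agent.LT.T2.H429.SubCartanInf429 :=
  subCartanInf_core555

end Fermat.Agent.LT.T2.H555

end
-- ===== PACK-END LT/T2/H555/CartanInfAdapter.lean

-- ===== PACK-BEGIN LT/T2/H546/MeanLin.lean
section


/-!
# Row LT, tower T2, leaf T2.07.14 `SubMeanLin429` (helper546), OFF-MAIN

Sphere and circle means are additive and homogeneous on the cusp functions: the parametrisations
`Y` are continuous (`SubLocCont429`, T2.07.30), a cusp function is continuous, so all the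
integrands are continuous, hence interval integrable, and the inner integral is a continuous
function of the outer variable.  Delivered as `SubLocCont429 K → SubMeanLin429 K`.
Mathlib + A0 + `T2/Spec.lean` (v2) + `T2/H429/OpsSpec.lean` only.
-/

set_option autoImplicit false

open IsDedekindDomain NumberField MeasureTheory
open Fermat.Agent.LT.H556.A0
open Fermat.Agent.LT.T2 Fermat.Agent.LT.T2.H429

noncomputable section

namespace Fermat.Agent.LT.T2.H546

variable {K : Type} [Field K] [NumberField K]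

/-- The entries of `rotZ α * rotY β * torus d` are continuous in `(α, β)`. -/
theorem continuous_sphere_entry_h546 (d : ℝ) (i j : Fin 2) :
    Continuous fun p : ℝ × ℝ => (rotZ p.1 * rotY p.2 * torus d) i j := by
  have h1 : Continuous fun p : ℝ × ℝ => rotZ p.1 := by
    unfold rotZ
    apply continuous_matrix
    intro i j
    fin_cases i <;> fin_cases j <;> simp <;> fun_prop
  have h2 : Continuous fun p : ℝ × ℝ => rotY p.2 := by
    unfold rotY
    apply continuous_matrix
    intro i j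
    fin_cases i <;> fin_cases j <;> simp <;> fun_prop
  have h3 : Continuous fun p : ℝ × ℝ => rotZ p.1 * rotY p.2 * torus d :=
    (h1.matrix_mul h2).matrix_mul continuous_const
  exact h3.matrix_elem i j

/-- The entries of `rotY θ * torus t` are continuous in `θ`. -/
theorem continuous_circle_entry_h546 (t : ℝ) (i j : Fin 2) :
    Continuous fun θ : ℝ => (rotY θ * torus t) i j := by
  have h2 : Continuous fun θ : ℝ => rotY θ := by
    unfold rotY
    apply continuous_matrix
    intro i j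
    fin_cases i <;> fin_cases j <;> simp <;> fun_prop
  have h3 : Continuous fun θ : ℝ => rotY θ * torus t := h2.matrix_mul continuous_const
  exact h3.matrix_elem i j

/-- The parametrisation of a sphere is continuous. -/
theorem continuous_sphere_h546 (hLC : SubLocCont429 K) {w : InfinitePlace K} {d : ℝ}
    {Y : ℝ → ℝ → G K} (hY : IsSphereAt w d Y) :
    Continuous fun p : ℝ × ℝ => Y p.1 p.2 := by
  apply hLC w (ℝ × ℝ) (fun p : ℝ × ℝ => Y p.1 p.2) (fun p => (hY p.1 p.2).1)
  intro i j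
  have : (fun p : ℝ × ℝ => infComp w (Y p.1 p.2) i j)
      = fun p : ℝ × ℝ => (rotZ p.1 * rotY p.2 * torus d) i j := by
    funext p
    rw [(hY p.1 p.2).2]
  rw [this]
  exact continuous_sphere_entry_h546 d i j

/-- The parametrisation of a circle is continuous. -/
theorem continuous_circle_h546 (hLC : SubLocCont429 K) {w : InfinitePlace K} {t : ℝ}
    {Y : ℝ → G K} (hY : IsCircleAt w t Y) : Continuous Y := by
  apply hLC w ℝ Y (fun θ => (hY θ).1)
  intro i j
  have : (fun θ : ℝ => infComp w (Y θ) i j) = fun θ : ℝ => (rotY θ * torus t) i j := by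
    funext θ
    rw [(hY θ).2]
  rw [this]
  exact continuous_circle_entry_h546 t i j

/-- The integrand of the sphere mean is continuous in `(α, β)`. -/
theorem continuous_sphere_integrand_h546 {Y : ℝ → ℝ → G K}
    (hY : Continuous fun p : ℝ × ℝ => Y p.1 p.2) {φ : G K → ℂ} (hφ : Continuous φ) (g : G K) :
    Continuous (Function.uncurry fun α β : ℝ => φ (g * Y α β) * ((Real.sin β : ℝ) : ℂ)) := by
  have h1 : Continuous fun p : ℝ × ℝ => φ (g * Y p.1 p.2) :=
    hφ.comp (continuous_const.mul hY)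
  have h2 : Continuous fun p : ℝ × ℝ => ((Real.sin p.2 : ℝ) : ℂ) := by fun_prop
  exact h1.mul h2

/-- Additivity and homogeneity of an interval integral of continuous functions. -/
theorem intervalIntegral_lin_h546 {f₁ f₂ : ℝ → ℂ} (h1 : Continuous f₁) (h2 : Continuous f₂)
    (c : ℂ) (a b : ℝ) :
    (∫ x in a..b, (f₁ x + c * f₂ x)) = (∫ x in a..b, f₁ x) + c * ∫ x in a..b, f₂ x := by
  have h2' : Continuous fun x => c * f₂ x := continuous_const.mul h2
  rw [intervalIntegral.integral_add (h1.intervalIntegrable a b) (h2'.intervalIntegrable a b),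
    intervalIntegral.integral_const_mul]

/-- The sphere mean is additive and homogeneous on the continuous functions. -/
theorem sphereMean_lin_h546 {Y : ℝ → ℝ → G K} (hY : Continuous fun p : ℝ × ℝ => Y p.1 p.2)
    {φ ψ : G K → ℂ} (hφ : Continuous φ) (hψ : Continuous ψ) (c : ℂ) :
    sphereMean Y (fun g => φ g + c * ψ g) = fun g => sphereMean Y φ g + c * sphereMean Y ψ g := by
  funext g
  have hcφ := continuous_sphere_integrand_h546 hY hφ g
  have hcψ := continuous_sphere_integrand_h546 hY hψ g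
  obtain ⟨Fφ, hFφ⟩ : ∃ F : ℝ → ℝ → ℂ,
      F = fun α β : ℝ => φ (g * Y α β) * ((Real.sin β : ℝ) : ℂ) := ⟨_, rfl⟩
  obtain ⟨Fψ, hFψ⟩ : ∃ F : ℝ → ℝ → ℂ,
      F = fun α β : ℝ => ψ (g * Y α β) * ((Real.sin β : ℝ) : ℂ) := ⟨_, rfl⟩
  rw [← hFφ] at hcφ
  rw [← hFψ] at hcψ
  have e1 : sphereMean Y (fun g => φ g + c * ψ g) g
      = ∫ α in (0 : ℝ)..(2 * Real.pi), ∫ β in (0 : ℝ)..Real.pi, (Fφ α β + c * Fψ α β) := by
    unfold sphereMean
    rw [hFφ, hFψ]
    congr 1
    funext α
    congr 1
    funext β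
    ring
  have e2 : sphereMean Y φ g = ∫ α in (0 : ℝ)..(2 * Real.pi), ∫ β in (0 : ℝ)..Real.pi, Fφ α β := by
    unfold sphereMean
    rw [hFφ]
  have e3 : sphereMean Y ψ g = ∫ α in (0 : ℝ)..(2 * Real.pi), ∫ β in (0 : ℝ)..Real.pi, Fψ α β := by
    unfold sphereMean
    rw [hFψ]
  rw [e1, e2, e3]
  have hin : ∀ α : ℝ, (∫ β in (0 : ℝ)..Real.pi, (Fφ α β + c * Fψ α β))
      = (∫ β in (0 : ℝ)..Real.pi, Fφ α β) + c * ∫ β in (0 : ℝ)..Real.pi, Fψ α β := by
    intro α
    exact intervalIntegral_lin_h546 (hcφ.comp (Continuous.prodMk_right α))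
      (hcψ.comp (Continuous.prodMk_right α)) c 0 Real.pi
  have hin' : (fun α : ℝ => ∫ β in (0 : ℝ)..Real.pi, (Fφ α β + c * Fψ α β))
      = fun α : ℝ => (∫ β in (0 : ℝ)..Real.pi, Fφ α β) + c * ∫ β in (0 : ℝ)..Real.pi, Fψ α β :=
    funext hin
  rw [hin']
  have hoφ : Continuous fun α : ℝ => ∫ β in (0 : ℝ)..Real.pi, Fφ α β :=
    intervalIntegral.continuous_parametric_intervalIntegral_of_continuous' hcφ 0 Real.pi
  have hoψ : Continuous fun α : ℝ => ∫ β in (0 : ℝ)..Real.pi, Fψ α β :=
    intervalIntegral.continuous_parametric_intervalIntegral_of_continuous' hcψ 0 Real.pi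
  exact intervalIntegral_lin_h546 hoφ hoψ c 0 (2 * Real.pi)

/-- The circle mean is additive and homogeneous on the continuous functions. -/
theorem circleMean_lin_h546 {Y : ℝ → G K} (hY : Continuous Y)
    {φ ψ : G K → ℂ} (hφ : Continuous φ) (hψ : Continuous ψ) (c : ℂ) :
    circleMean Y (fun g => φ g + c * ψ g) = fun g => circleMean Y φ g + c * circleMean Y ψ g := by
  funext g
  have h1 : Continuous fun θ : ℝ => φ (g * Y θ) := hφ.comp (continuous_const.mul hY)
  have h2 : Continuous fun θ : ℝ => ψ (g * Y θ) := hψ.comp (continuous_const.mul hY)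
  exact intervalIntegral_lin_h546 h1 h2 c 0 (2 * Real.pi)

/-- **T2.07.14 `SubMeanLin429`** from **T2.07.30 `SubLocCont429`**. -/
theorem subMeanLin_of_locCont_h546 (hLC : SubLocCont429 K) : SubMeanLin429 K := by
  intro 𝔫 _
  refine ⟨?_, ?_⟩
  · intro w _ d _ Y hY φ ψ c hφ hψ
    exact sphereMean_lin_h546 (continuous_sphere_h546 hLC hY) hφ.cont hψ.cont c
  · intro w _ t _ Y hY φ ψ c hφ hψ
    exact circleMean_lin_h546 (continuous_circle_h546 hLC hY) hφ.cont hψ.cont c

end Fermat.Agent.LT.T2.H546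

end

end
-- ===== PACK-END LT/T2/H546/MeanLin.lean

-- ===== PACK-BEGIN LT/T2/H907/Smooth.lean
section



/-!
# Row LT, tower T2, leaf T2.06 (helper907): continuity and smoothness of the defect
-/

set_option autoImplicit false
set_option linter.unusedSectionVars false

open IsDedekindDomain NumberField Matrix
open scoped MatrixGroups Classical ContDiff

noncomputable section

namespace Fermat.Agent.LT.T2.H907

open Fermat.Agent.LT.H556.A0 Fermat.Agent.LT.T8.H864 Fermat.Agent.LT.H51.MS4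

variable {K : Type} [Field K] [NumberField K]

/-! ## Continuity -/

theorem continuous_entry907 (i j : Fin 2) :
    Continuous fun g : G K => (g : Matrix (Fin 2) (Fin 2) (Adl K)) i j := by
  have h0 : Continuous (fun g : G K => (g : Matrix (Fin 2) (Fin 2) (Adl K))) :=
    Units.continuous_val
  exact h0.matrix_elem i j

theorem continuous_infComp907 (w : InfinitePlace K) (i j : Fin 2) :
    Continuous fun g : G K => infComp w g i j := by
  have h1 : Continuous fun x : Adl K => x.1 w :=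
    (continuous_apply w).comp continuous_fst
  exact (InfinitePlace.Completion.isometry_extensionEmbedding w).continuous.comp
    (h1.comp (continuous_entry907 i j))

theorem continuous_finComp907 (v : HeightOneSpectrum (𝓞 K)) (i j : Fin 2) :
    Continuous fun g : G K => finComp v g i j := by
  have h1 : Continuous fun x : Adl K => x.2 v :=
    (RestrictedProduct.continuous_eval v).comp continuous_snd
  exact h1.comp (continuous_entry907 i j)

theorem continuous_frob907 (w : InfinitePlace K) :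
    Continuous fun g : G K => frob907 (infComp w g) := by
  unfold frob907
  refine continuous_finsetSum _ fun i _ => continuous_finsetSum _ fun j _ => ?_
  exact Complex.continuous_normSq.comp (continuous_infComp907 w i j)

theorem continuous_det907 (w : InfinitePlace K) :
    Continuous fun g : G K => (infComp w g).det := by
  simp only [Matrix.det_fin_two]
  exact ((continuous_infComp907 w 0 0).mul (continuous_infComp907 w 1 1)).sub
    ((continuous_infComp907 w 0 1).mul (continuous_infComp907 w 1 0))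

theorem continuous_dW907 (w : InfinitePlace K) : Continuous fun g : G K => dW907 w g :=
  (continuous_det907 w).norm

theorem continuous_defect907 : Continuous (defect907 (K := K)) := by
  unfold defect907
  refine continuous_finsetSum _ fun w _ => Continuous.add (Continuous.add ?_ ?_) ?_
  · unfold tau907
    exact ((continuous_frob907 w).div (continuous_const.mul (continuous_dW907 w))
      fun g => (mul_pos two_pos (dW907_pos w g)).ne').sub continuous_const
  · unfold sig907
    split_ifs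
    · exact continuous_const.sub ((Complex.continuous_re.comp (continuous_det907 w)).div
        (continuous_dW907 w) fun g => (dW907_pos w g).ne')
    · exact continuous_const
  · unfold del907
    exact ((continuous_dW907 w).add ((continuous_dW907 w).inv₀
      fun g => (dW907_pos w g).ne')).sub continuous_const

/-! ## Smoothness along archimedean families -/

section Smooth

variable {n : ℕ} {h : (Fin n → ℝ) → G K}

theorem contDiff_infComp_mul907 (g : G K)
    (hh : ∀ (w : InfinitePlace K) (i j : Fin 2), ContDiff ℝ ∞ (fun t => infComp w (h t) i j))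
    (w : InfinitePlace K) (i j : Fin 2) :
    ContDiff ℝ ∞ (fun t => infComp w (g * h t) i j) := by
  simp only [infComp_mul, Matrix.mul_apply, Fin.sum_univ_two]
  exact (contDiff_const.mul (hh w 0 j)).add (contDiff_const.mul (hh w 1 j))

theorem contDiff_frob907 (g : G K)
    (hh : ∀ (w : InfinitePlace K) (i j : Fin 2), ContDiff ℝ ∞ (fun t => infComp w (h t) i j))
    (w : InfinitePlace K) :
    ContDiff ℝ ∞ (fun t => frob907 (infComp w (g * h t))) := by
  unfold frob907
  refine ContDiff.sum fun i _ => ContDiff.sum fun j _ => ?_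
  have h1 := contDiff_infComp_mul907 g hh w i j
  have h2 : (fun t => Complex.normSq (infComp w (g * h t) i j))
      = fun t => ‖infComp w (g * h t) i j‖ ^ 2 := by
    funext t
    exact Complex.normSq_eq_norm_sq _
  rw [h2]
  exact h1.norm_sq ℝ

theorem contDiff_det907 (g : G K)
    (hh : ∀ (w : InfinitePlace K) (i j : Fin 2), ContDiff ℝ ∞ (fun t => infComp w (h t) i j))
    (w : InfinitePlace K) :
    ContDiff ℝ ∞ (fun t => (infComp w (g * h t)).det) := by
  simp only [Matrix.det_fin_two]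
  exact ((contDiff_infComp_mul907 g hh w 0 0).mul (contDiff_infComp_mul907 g hh w 1 1)).sub
    ((contDiff_infComp_mul907 g hh w 0 1).mul (contDiff_infComp_mul907 g hh w 1 0))

theorem contDiff_dW907 (g : G K)
    (hh : ∀ (w : InfinitePlace K) (i j : Fin 2), ContDiff ℝ ∞ (fun t => infComp w (h t) i j))
    (w : InfinitePlace K) :
    ContDiff ℝ ∞ (fun t => dW907 w (g * h t)) :=
  (contDiff_det907 g hh w).norm ℝ fun t => det_infComp_ne_zero907 w (g * h t)

theorem contDiff_defect907 (g : G K)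
    (hh : ∀ (w : InfinitePlace K) (i j : Fin 2), ContDiff ℝ ∞ (fun t => infComp w (h t) i j)) :
    ContDiff ℝ ∞ (fun t => defect907 (g * h t)) := by
  unfold defect907
  refine ContDiff.sum fun w _ => ContDiff.add (ContDiff.add ?_ ?_) ?_
  · unfold tau907
    exact ((contDiff_frob907 g hh w).div (contDiff_const.mul (contDiff_dW907 g hh w))
      fun t => (mul_pos two_pos (dW907_pos w (g * h t))).ne').sub contDiff_const
  · unfold sig907
    split_ifs
    · exact contDiff_const.sub ((Complex.reCLM.contDiff.comp (contDiff_det907 g hh w)).div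
        (contDiff_dW907 g hh w) fun t => (dW907_pos w (g * h t)).ne')
    · exact contDiff_const
  · unfold del907
    exact ((contDiff_dW907 g hh w).add ((contDiff_dW907 g hh w).inv
      fun t => (dW907_pos w (g * h t)).ne')).sub contDiff_const

end Smooth

end Fermat.Agent.LT.T2.H907

end

end
-- ===== PACK-END LT/T2/H907/Smooth.lean

-- ===== PACK-BEGIN LT/T2/H566/CuspInner.lean
section




/-!
# Row LT, tower T2, leaf T2.09 (helper566): the pre-Hilbert space of cusp functions

OFF-MAIN.  The space `cuspSub566` with the Petersson pairing of a frame is a complex inner product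
space (`cuspCore566`), by `T2.PairDefinite`.  `inner φ ψ = pair F ψ φ` (Mathlib's inner product is
conjugate linear in the FIRST variable, `T2.pair` in the second).
-/

set_option autoImplicit false
set_option linter.unusedSectionVars false
set_option linter.style.haveILetI false

open IsDedekindDomain NumberField MeasureTheory
open Fermat.Agent.LT.H556.A0 Fermat.Agent.LT
open scoped ComplexConjugate

noncomputable section

namespace Fermat.Agent.LT.T2.H566

variable {K : Type} [Field K] [NumberField K]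

attribute [local instance] Fermat.Agent.LT.T2.borelG

/-- Products of bounded continuous functions are integrable on the domain of a frame. -/
theorem integrable_pair566 (F : Frame K) {φ ψ : G K → ℂ}
    (hφc : Continuous φ) (hφb : ∃ C : ℝ, ∀ g : G K, ‖φ g‖ ≤ C)
    (hψc : Continuous ψ) (hψb : ∃ C : ℝ, ∀ g : G K, ‖ψ g‖ ≤ C) :
    Integrable (fun g => φ g * conj (ψ g)) (F.μ.restrict F.D) := by
  haveI : BorelSpace (G K) := ⟨rfl⟩
  obtain ⟨A, hA⟩ := hφb
  obtain ⟨B, hB⟩ := hψb
  haveI : IsFiniteMeasure (F.μ.restrict F.D) := isFiniteMeasure_restrict.2 F.fin.ne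
  have hcont : Continuous (fun g => φ g * conj (ψ g)) :=
    hφc.mul (Complex.continuous_conj.comp hψc)
  refine Integrable.of_bound hcont.aestronglyMeasurable (A * B)
    (Filter.Eventually.of_forall fun g => ?_)
  have hA0 : 0 ≤ A := (norm_nonneg _).trans (hA g)
  calc ‖φ g * conj (ψ g)‖ = ‖φ g‖ * ‖ψ g‖ := by rw [norm_mul, RCLike.norm_conj]
    _ ≤ A * B := mul_le_mul (hA g) (hB g) (norm_nonneg _) hA0

theorem pair_add_left566 (F : Frame K) {𝔫 : Ideal (𝓞 K)} {φ₁ φ₂ ψ : G K → ℂ}
    (h₁ : IsCuspFn 𝔫 φ₁) (h₂ : IsCuspFn 𝔫 φ₂) (hψ : IsCuspFn 𝔫 ψ) :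
    pair F (φ₁ + φ₂) ψ = pair F φ₁ ψ + pair F φ₂ ψ := by
  unfold pair
  rw [← integral_add (integrable_pair566 F h₁.cont h₁.bdd hψ.cont hψ.bdd)
    (integrable_pair566 F h₂.cont h₂.bdd hψ.cont hψ.bdd)]
  congr 1
  funext g
  simp [add_mul]

theorem pair_add_right566 (F : Frame K) {𝔫 : Ideal (𝓞 K)} {φ ψ₁ ψ₂ : G K → ℂ}
    (hφ : IsCuspFn 𝔫 φ) (h₁ : IsCuspFn 𝔫 ψ₁) (h₂ : IsCuspFn 𝔫 ψ₂) :
    pair F φ (ψ₁ + ψ₂) = pair F φ ψ₁ + pair F φ ψ₂ := by
  unfold pair
  rw [← integral_add (integrable_pair566 F hφ.cont hφ.bdd h₁.cont h₁.bdd)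
    (integrable_pair566 F hφ.cont hφ.bdd h₂.cont h₂.bdd)]
  congr 1
  funext g
  simp [mul_add]

theorem pair_smul_left566 (F : Frame K) (c : ℂ) (φ ψ : G K → ℂ) :
    pair F (c • φ) ψ = c * pair F φ ψ := by
  unfold pair
  rw [← integral_const_mul]
  congr 1
  funext g
  simp [mul_assoc]

theorem pair_smul_right566 (F : Frame K) (c : ℂ) (φ ψ : G K → ℂ) :
    pair F φ (c • ψ) = conj c * pair F φ ψ := by
  unfold pair
  rw [← integral_const_mul]
  congr 1
  funext g
  simp only [Pi.smul_apply, smul_eq_mul, map_mul]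
  ring

theorem pair_conj566 (F : Frame K) (φ ψ : G K → ℂ) :
    conj (pair F φ ψ) = pair F ψ φ := by
  unfold pair
  rw [← integral_conj]
  congr 1
  funext g
  simp only [map_mul, Complex.conj_conj]
  ring

theorem pair_self_eq566 (F : Frame K) (φ : G K → ℂ) :
    pair F φ φ = ((∫ g in F.D, Complex.normSq (φ g) ∂F.μ : ℝ) : ℂ) := by
  unfold pair
  have e : (fun g => φ g * conj (φ g)) = fun g => ((Complex.normSq (φ g) : ℝ) : ℂ) := by
    funext g
    rw [Complex.mul_conj]
  rw [e]
  exact integral_ofReal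

theorem nsq_eq566 (F : Frame K) (φ : G K → ℂ) :
    nsq F φ = ∫ g in F.D, Complex.normSq (φ g) ∂F.μ := by
  unfold nsq
  rw [pair_self_eq566]
  simp

theorem nsq_nonneg566 (F : Frame K) (φ : G K → ℂ) : 0 ≤ nsq F φ := by
  rw [nsq_eq566]
  exact integral_nonneg fun g => Complex.normSq_nonneg _

theorem pair_self_ofReal566 (F : Frame K) (φ : G K → ℂ) :
    pair F φ φ = ((nsq F φ : ℝ) : ℂ) := by
  rw [nsq_eq566, pair_self_eq566]

/-- The inner product core of the cusp functions. -/
@[instance_reducible]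
def cuspCore566 (hFD : T1.AddFundDomC K) (𝔫 : Ideal (𝓞 K)) (F : Frame K)
    (hPD : PairDefinite K 𝔫) : InnerProductSpace.Core ℂ (CuspV566 hFD 𝔫) where
  inner := fun φ ψ => pair F ψ.fn φ.fn
  conj_inner_symm := fun φ ψ => pair_conj566 F _ _
  re_inner_nonneg := fun φ => nsq_nonneg566 F _
  add_left := fun φ ψ χ => pair_add_right566 F χ.isCuspFn φ.isCuspFn ψ.isCuspFn
  smul_left := fun φ ψ r => pair_smul_right566 F r _ _
  definite := fun φ h => by
    have := (hPD F φ.fn φ.isCuspFn).2 h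
    apply CuspV566.ext
    funext g
    exact this g

end Fermat.Agent.LT.T2.H566

end

end
-- ===== PACK-END LT/T2/H566/CuspInner.lean

-- ===== PACK-BEGIN LT/T2/H833/LeafT01.lean
section



/-!
# Row LT, tower T2, leaf T2.21 `LeafT01` (`T`-form of T2.01) -- helper833, OFF-MAIN

`leafT01_833 : Fermat.Agent.LT.T2.LeafT01 K` for every number field `K`, VERBATIM against
`LT/T2/SpecTau.lean` (helper130@e2e090185, sha256 4d2b0fc2, byte-identical copy; with
`LT/T2/Spec.lean` b934629a, `LT/T1/Spec.lean` e8ae48d6, `LT/H556/A0.lean` 66d3374a).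

* `frameRExists833`: a Haar measure of `GL₂(𝔸_K)` (`T1.LocCompC`), the strict fundamental domain of
  `T1.FundDomC`, and a ray generator (`exists_rayGen833`: the real scalar `2^{1/(2[K:ℚ])}` at
  every infinite place; construction of helper62 `T5/H62/FrameExists.lean`, re-typed for
  `T2.IsRayGen`).
* `pairDefiniteT833`: as in T2.01 (helper245 `T2/H245/Leaf01.lean`) the open set `V = {φ ≠ 0}`
  meets the slab in a null set.  The class of T5 has no invariance under the positive scalars at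
  one infinite place, so the last step is different: a ray generator `r` is a CENTRAL scalar
  (`rayGen_val833`, `rayGen_commute833`) with `‖det r‖_𝔸 = 2` (`detNorm_rayGen833`), every `g` has
  a translate `g rᵐ` in the slab (`exists_zpow_mem_slab833`), `V rᵐ = V`, and right translation by
  the central `rᵐ` is left translation, which preserves the Haar measure; so `μ V = 0`, and `V` is
  open, hence empty.  Neither `τ` nor `𝔫 ≠ ⊥` nor the continuity of the module is used.
-/

set_option autoImplicit false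
set_option linter.unusedSectionVars false

open IsDedekindDomain NumberField MeasureTheory AutomorphicForm
open Fermat.Agent.LT.H556.A0
open Fermat.Agent.LT

noncomputable section

namespace Fermat.Agent.LT.T2.H833

variable {K : Type} [Field K] [NumberField K]

attribute [local instance] Fermat.Agent.LT.T2.borelG

/-! ## 0. Countability, extensionality of adeles -/

theorem countable_field833 (K : Type) [Field K] [NumberField K] : Countable K := by
  have e := (Module.finBasis ℚ K).equivFun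
  exact e.injective.countable

theorem countable_GL833 (K : Type) [Field K] [NumberField K] : Countable (GL (Fin 2) K) := by
  have := countable_field833 K
  have hinj : Function.Injective (fun g : GL (Fin 2) K => fun i j : Fin 2 =>
      (g : Matrix (Fin 2) (Fin 2) K) i j) := by
    intro g h hgh
    apply Units.ext
    ext i j
    exact congrFun (congrFun hgh i) j
  exact hinj.countable

/-- Two adeles with the same components (the infinite ones read in `ℂ`) are equal. -/
theorem adele_ext833 (a b : Adl K)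
    (h1 : ∀ w : InfinitePlace K, InfinitePlace.Completion.extensionEmbedding w (a.1 w)
      = InfinitePlace.Completion.extensionEmbedding w (b.1 w))
    (h2 : ∀ v : HeightOneSpectrum (𝓞 K), a.2 v = b.2 v) : a = b := by
  refine Prod.ext (funext fun w => ?_) (RestrictedProduct.ext _ _ h2)
  exact (InfinitePlace.Completion.extensionEmbedding w).injective (h1 w)

/-! ## 1. A ray generator exists (construction of helper62, for `T2.IsRayGen`) -/

omit [NumberField K] in
/-- Every real number is the image of an element of the completion at an infinite place. -/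
theorem exists_completion_eq_ofReal833 (w : InfinitePlace K) (t : ℝ) :
    ∃ c : w.Completion, InfinitePlace.Completion.extensionEmbedding w c = (t : ℂ) := by
  rcases InfinitePlace.isReal_or_isComplex w with hw | hw
  · obtain ⟨c, hc⟩ := InfinitePlace.Completion.surjective_extensionEmbeddingOfIsReal hw t
    refine ⟨c, ?_⟩
    rw [← InfinitePlace.Completion.extensionEmbeddingOfIsReal_apply hw, hc]
  · exact InfinitePlace.Completion.surjective_extensionEmbedding_of_isComplex hw (t : ℂ)

/-- A central element of `GL₂(𝔸_K)` which is `1` at the finite places and the real scalar `t ≠ 0`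
at every infinite place. -/
theorem exists_centralRay833 (t : ℝ) (ht : t ≠ 0) :
    ∃ r : G K, (∀ v : HeightOneSpectrum (𝓞 K), TrivAtFin v r) ∧
      ∀ w : InfinitePlace K, infComp w r = Matrix.diagonal (fun _ => (t : ℂ)) := by
  classical
  choose c hc using fun w : InfinitePlace K => exists_completion_eq_ofReal833 w t
  choose c' hc' using fun w : InfinitePlace K => exists_completion_eq_ofReal833 w t⁻¹
  have hcc : ∀ w, c w * c' w = 1 := by
    intro w
    apply (InfinitePlace.Completion.extensionEmbedding w).injective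
    rw [map_mul, hc, hc', map_one, ← Complex.ofReal_mul, mul_inv_cancel₀ ht, Complex.ofReal_one]
  let x : Adl K := (fun w => c w, 1)
  let x' : Adl K := (fun w => c' w, 1)
  have hxx : x * x' = 1 := by
    refine Prod.ext ?_ ?_
    · funext w
      exact hcc w
    · show (1 : FiniteAdeleRing (𝓞 K) K) * 1 = 1
      rw [mul_one]
  let u : (Adl K)ˣ := ⟨x, x', hxx, by rw [mul_comm]; exact hxx⟩
  let r : G K := Units.map (Matrix.scalar (Fin 2)).toMonoidHom u
  have hr : (r : Matrix (Fin 2) (Fin 2) (Adl K)) = Matrix.diagonal (fun _ => x) := rfl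
  refine ⟨r, ?_, ?_⟩
  · intro v
    show finComp v r = 1
    apply Matrix.ext
    intro i j
    show ((r : Matrix (Fin 2) (Fin 2) (Adl K)) i j).2 v = _
    rw [hr]
    by_cases hij : i = j
    · subst hij
      rw [Matrix.diagonal_apply_eq, Matrix.one_apply_eq]
      rfl
    · rw [Matrix.diagonal_apply_ne _ hij, Matrix.one_apply_ne hij]
      rfl
  · intro w
    apply Matrix.ext
    intro i j
    show InfinitePlace.Completion.extensionEmbedding w
      (((r : Matrix (Fin 2) (Fin 2) (Adl K)) i j).1 w) = _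
    rw [hr]
    by_cases hij : i = j
    · subst hij
      rw [Matrix.diagonal_apply_eq, Matrix.diagonal_apply_eq]
      exact hc w
    · rw [Matrix.diagonal_apply_ne _ hij, Matrix.diagonal_apply_ne _ hij]
      exact map_zero _

/-- **A generator of the discrete central ray exists** (`T2.IsRayGen`). -/
theorem exists_rayGen833 (K : Type) [Field K] [NumberField K] : ∃ r : G K, IsRayGen r := by
  have hn : 2 * Module.finrank ℚ K ≠ 0 :=
    Nat.mul_ne_zero two_ne_zero (Module.finrank_pos (R := ℚ) (M := K)).ne'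
  set t : ℝ := (2 : ℝ) ^ (((2 * Module.finrank ℚ K : ℕ) : ℝ)⁻¹) with ht
  have htpos : 0 < t := Real.rpow_pos_of_pos two_pos _
  have htpow : t ^ (2 * Module.finrank ℚ K) = 2 :=
    Real.rpow_inv_natCast_pow (by norm_num : (0 : ℝ) ≤ 2) hn
  obtain ⟨r, hfin, hinf⟩ := exists_centralRay833 (K := K) t htpos.ne'
  exact ⟨r, hfin, t, htpos, htpow, hinf⟩

/-! ## 2. The module of the determinant -/

/-- The module of the determinant, as a function on `GL₂(𝔸_K)`. -/
def detNorm833 (g : G K) : ℝ :=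
  T1.adNorm K (Matrix.det (g : Matrix (Fin 2) (Fin 2) (Adl K)))

theorem detNorm833_eq (g : G K) :
    detNorm833 g = T1.adNorm K ((Matrix.GeneralLinearGroup.det g : (Adl K)ˣ) : Adl K) := by
  rw [Matrix.GeneralLinearGroup.val_det_apply]
  rfl

theorem detNorm833_mul (hN : T1.AdNormC K) (g h : G K) :
    detNorm833 (g * h) = detNorm833 g * detNorm833 h := by
  rw [detNorm833_eq, detNorm833_eq, detNorm833_eq, map_mul]
  exact hN.2.1 _ _

theorem detNorm833_pos (hN : T1.AdNormC K) (g : G K) : 0 < detNorm833 g := by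
  rw [detNorm833_eq]
  exact hN.1 _

theorem mem_slab_iff833 (g : G K) :
    g ∈ T1.slab K ↔ 1 ≤ detNorm833 g ∧ detNorm833 g < 2 := Iff.rfl

/-! ## 3. A ray generator is a central scalar, and the module of its determinant is `2` -/

/-- A ray generator is the scalar matrix of its entry `(0,0)`. -/
theorem rayGen_val833 {r : G K} (hr : IsRayGen r) :
    (r : Matrix (Fin 2) (Fin 2) (Adl K))
      = Matrix.scalar (Fin 2) ((r : Matrix (Fin 2) (Fin 2) (Adl K)) 0 0) := by
  obtain ⟨hfin, t, -, -, hinf⟩ := hr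
  have e1 : ∀ (w : InfinitePlace K) (i j : Fin 2),
      InfinitePlace.Completion.extensionEmbedding w
        (((r : Matrix (Fin 2) (Fin 2) (Adl K)) i j).1 w)
        = (Matrix.diagonal (fun _ : Fin 2 => (t : ℂ))) i j :=
    fun w i j => congrFun (congrFun (hinf w) i) j
  have e2 : ∀ (v : HeightOneSpectrum (𝓞 K)) (i j : Fin 2),
      ((r : Matrix (Fin 2) (Fin 2) (Adl K)) i j).2 v
        = (1 : Matrix (Fin 2) (Fin 2) (v.adicCompletion K)) i j :=
    fun v i j => congrFun (congrFun (hfin v) i) j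
  have hoff : ∀ i j : Fin 2, i ≠ j → (r : Matrix (Fin 2) (Fin 2) (Adl K)) i j = 0 := by
    intro i j hij
    refine adele_ext833 _ _ (fun w => ?_) (fun v => ?_)
    · rw [e1 w i j, Matrix.diagonal_apply_ne _ hij]
      exact (map_zero _).symm
    · rw [e2 v i j, Matrix.one_apply_ne hij]
      rfl
  have hdiag : (r : Matrix (Fin 2) (Fin 2) (Adl K)) 1 1
      = (r : Matrix (Fin 2) (Fin 2) (Adl K)) 0 0 := by
    refine adele_ext833 _ _ (fun w => ?_) (fun v => ?_)
    · rw [e1 w 1 1, e1 w 0 0, Matrix.diagonal_apply_eq, Matrix.diagonal_apply_eq]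
    · rw [e2 v 1 1, e2 v 0 0, Matrix.one_apply_eq, Matrix.one_apply_eq]
  refine Matrix.ext fun i j => ?_
  rw [Matrix.scalar_apply, Matrix.diagonal_apply]
  by_cases hij : i = j
  · subst hij
    rw [if_pos rfl]
    fin_cases i
    · rfl
    · exact hdiag
  · rw [if_neg hij]
    exact hoff i j hij

/-- A ray generator is central. -/
theorem rayGen_commute833 {r : G K} (hr : IsRayGen r) (g : G K) : Commute r g := by
  apply Units.ext
  rw [Units.val_mul, Units.val_mul, rayGen_val833 hr]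
  exact (Matrix.scalar_commute _ (fun r' => Commute.all _ r') _).eq

/-- The module of the determinant of a ray generator is `2`. -/
theorem detNorm_rayGen833 {r : G K} (hr : IsRayGen r) : detNorm833 r = 2 := by
  have hval := rayGen_val833 hr
  obtain ⟨hfin, t, htpos, htpow, hinf⟩ := hr
  set x : Adl K := (r : Matrix (Fin 2) (Fin 2) (Adl K)) 0 0 with hx
  have hdet : Matrix.det (r : Matrix (Fin 2) (Fin 2) (Adl K)) = x * x := by
    rw [hval, Matrix.scalar_apply, Matrix.det_diagonal, Fin.prod_univ_two]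
  have hx1 : ∀ w : InfinitePlace K, ‖x.1 w‖ = t := by
    intro w
    have h1 := (InfinitePlace.Completion.isometry_extensionEmbedding w).norm_map_of_map_zero
      (map_zero _) (x.1 w)
    have h2 : InfinitePlace.Completion.extensionEmbedding w (x.1 w) = (t : ℂ) := by
      have := congrFun (congrFun (hinf w) 0) 0
      rw [Matrix.diagonal_apply_eq] at this
      exact this
    rw [← h1, h2, Complex.norm_real, Real.norm_eq_abs, abs_of_pos htpos]
  have hx2 : ∀ v : HeightOneSpectrum (𝓞 K), x.2 v = 1 := by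
    intro v
    have := congrFun (congrFun (hfin v) 0) 0
    rw [Matrix.one_apply_eq] at this
    exact this
  show T1.adNorm K (Matrix.det (r : Matrix (Fin 2) (Fin 2) (Adl K))) = 2
  rw [hdet]
  unfold T1.adNorm
  have hfinprod : (∏ᶠ v : HeightOneSpectrum (𝓞 K), ‖(x * x).2 v‖) = 1 := by
    have : ∀ v : HeightOneSpectrum (𝓞 K), ‖(x * x).2 v‖ = 1 := by
      intro v
      have e : (x * x).2 v = x.2 v * x.2 v := rfl
      rw [e, hx2 v, mul_one]
      exact norm_one
    simp only [this]
    exact finprod_one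
  have hinfprod : ∀ w : InfinitePlace K, ‖(x * x).1 w‖ = t * t := by
    intro w
    have e : (x * x).1 w = x.1 w * x.1 w := rfl
    rw [e, norm_mul, hx1 w]
  rw [hfinprod, mul_one]
  simp only [hinfprod]
  rw [Finset.prod_pow_eq_pow_sum, InfinitePlace.sum_mult_eq, ← sq, ← pow_mul]
  exact htpow

theorem detNorm_mul_zpow833 (hN : T1.AdNormC K) {r : G K} (hr : IsRayGen r) (g : G K) (m : ℤ) :
    detNorm833 (g * r ^ m) = detNorm833 g * (2 : ℝ) ^ m := by
  induction m using Int.induction_on with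
  | zero => simp
  | succ n ih =>
    rw [zpow_add_one, ← mul_assoc, detNorm833_mul hN, ih, detNorm_rayGen833 hr,
      zpow_add_one₀ (two_ne_zero), mul_assoc]
  | pred n ih =>
    have h2 : detNorm833 (g * r ^ (-(n : ℤ) - 1)) * 2 = detNorm833 (g * r ^ (-(n : ℤ))) := by
      rw [← detNorm_rayGen833 hr, ← detNorm833_mul hN, mul_assoc, ← zpow_add_one]
      simp
    rw [ih] at h2
    rw [zpow_sub_one₀ (two_ne_zero)]
    field_simp
    linarith

/-- Every element of `GL₂(𝔸_K)` has a translate by a power of the ray generator in the slab. -/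
theorem exists_zpow_mem_slab833 (hN : T1.AdNormC K) {r : G K} (hr : IsRayGen r) (g : G K) :
    ∃ m : ℤ, g * r ^ m ∈ T1.slab K := by
  obtain ⟨n, hn1, hn2⟩ := exists_mem_Ico_zpow (x := detNorm833 g) (y := (2 : ℝ))
    (detNorm833_pos hN g) one_lt_two
  refine ⟨-n, ?_⟩
  rw [mem_slab_iff833, detNorm_mul_zpow833 hN hr, zpow_neg]
  have hpos : (0 : ℝ) < 2 ^ n := zpow_pos two_pos n
  constructor
  · rw [le_mul_inv_iff₀ hpos, one_mul]
    exact hn1
  · rw [mul_inv_lt_iff₀ hpos]
    rw [zpow_add_one₀ two_ne_zero] at hn2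
    linarith

/-- Invariance under the powers of the ray generator. -/
theorem ray_zpow833 {r : G K} {φ : G K → ℂ} (hray : ∀ g : G K, φ (g * r) = φ g) (m : ℤ)
    (g : G K) : φ (g * r ^ m) = φ g := by
  induction m using Int.induction_on with
  | zero => simp
  | succ n ih => rw [zpow_add_one, ← mul_assoc, hray, ih]
  | pred n ih =>
    have h := hray (g * r ^ (-(n : ℤ) - 1))
    rw [mul_assoc, ← zpow_add_one, sub_add_cancel] at h
    rw [← h, ih]

/-! ## 4. The leaf -/

/-- Frames exist (as in T2.01). -/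
theorem frame_nonempty833 (h : T1.T1Out K) : Nonempty (Frame K) := by
  obtain ⟨-, hlc, -, -⟩ := h.locComp
  have : BorelSpace (G K) := ⟨rfl⟩
  have := hlc
  obtain ⟨F, hF, hsub, hstrict, hfin⟩ :=
    h.fundDom (Measure.haar : Measure (G K)) inferInstance
  exact ⟨⟨Measure.haar, inferInstance, F, hF, hsub, hstrict, hfin⟩⟩

/-- **T2.21, first part**: frames with a ray generator exist. -/
theorem frameRExists833 (h : T1.T1Out K) : FrameRExists K := by
  obtain ⟨F⟩ := frame_nonempty833 h
  obtain ⟨r, hr⟩ := exists_rayGen833 K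
  exact ⟨⟨F, r, hr⟩⟩

/-- **T2.21, second part**: the functions of the class are square integrable on the domain and
the pairing is definite.  (Only continuity, boundedness, left invariance under `GL₂(K)` and right
invariance under the ray generator are used.) -/
theorem pairDefiniteT833 (h : T1.T1Out K) (𝔫 : Ideal (𝓞 K)) (τ : G K → ℂ) :
    PairDefiniteT K 𝔫 τ := by
  intro R φ hφ
  have : BorelSpace (G K) := ⟨rfl⟩
  have := R.F.haar
  have hN := h.adNorm
  obtain ⟨C, hC⟩ := hφ.aut.bdd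
  have hcont : Continuous (fun g => φ g * (starRingEnd ℂ) (φ g)) :=
    hφ.aut.cont.mul (Complex.continuous_conj.comp hφ.aut.cont)
  have hint : IntegrableOn (fun g => φ g * (starRingEnd ℂ) (φ g)) R.F.D R.F.μ := by
    refine Measure.integrableOn_of_bounded (M := C * C) R.F.fin.ne hcont.aestronglyMeasurable
      (Filter.Eventually.of_forall fun g => ?_)
    rw [norm_mul, RCLike.norm_conj]
    exact mul_le_mul (hC g) (hC g) (norm_nonneg _) ((norm_nonneg _).trans (hC g))
  refine ⟨hint, fun h0 => ?_⟩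
  -- the real form of the pairing
  have hreal : ∀ g, φ g * (starRingEnd ℂ) (φ g) = ((Complex.normSq (φ g) : ℝ) : ℂ) :=
    fun g => Complex.mul_conj (φ g)
  have hintR : IntegrableOn (fun g => Complex.normSq (φ g)) R.F.D R.F.μ := by
    have := hint.re
    refine this.congr (Filter.Eventually.of_forall fun g => ?_)
    show (φ g * (starRingEnd ℂ) (φ g)).re = Complex.normSq (φ g)
    rw [hreal, Complex.ofReal_re]
  have h0R : ∫ g in R.F.D, Complex.normSq (φ g) ∂(R.F.μ) = 0 := by
    have h1 : pair R.F φ φ = ((∫ g in R.F.D, Complex.normSq (φ g) ∂(R.F.μ) : ℝ) : ℂ) := by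
      unfold pair
      simp only [hreal]
      exact integral_ofReal
    rw [h1] at h0
    exact_mod_cast h0
  have hae : (fun g => Complex.normSq (φ g)) =ᵐ[R.F.μ.restrict R.F.D] 0 :=
    (setIntegral_eq_zero_iff_of_nonneg_ae
      (Filter.Eventually.of_forall fun g => Complex.normSq_nonneg _) hintR).1 h0R
  -- the open set where `φ ≠ 0`
  have hVopen : IsOpen {g : G K | φ g ≠ 0} := isOpen_ne_fun hφ.aut.cont continuous_const
  have hVD : R.F.μ ({g : G K | φ g ≠ 0} ∩ R.F.D) = 0 := by
    have h2 : R.F.μ.restrict R.F.D {g : G K | φ g ≠ 0} = 0 := by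
      have h3 : ∀ᵐ g ∂(R.F.μ.restrict R.F.D), Complex.normSq (φ g) = 0 := hae
      rw [ae_iff] at h3
      have h4 : {g : G K | φ g ≠ 0} = {g : G K | ¬ Complex.normSq (φ g) = 0} := by
        ext g
        show φ g ≠ 0 ↔ ¬ Complex.normSq (φ g) = 0
        rw [Complex.normSq_eq_zero]
      rw [h4]
      exact h3
    rwa [Measure.restrict_apply hVopen.measurableSet] at h2
  -- the part of `V` in the slab is a null set
  have hVslab : R.F.μ ({g : G K | φ g ≠ 0} ∩ T1.slab K) = 0 := by
    have hcnt := countable_GL833 K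
    have hsub : {g : G K | φ g ≠ 0} ∩ T1.slab K ⊆
        ⋃ γ : GL (Fin 2) K, (fun g : G K => T1.ratG K γ * g) ⁻¹'
          ({g : G K | φ g ≠ 0} ∩ R.F.D) := by
      rintro g ⟨hg, hgs⟩
      obtain ⟨γ, hγ, -⟩ := R.F.strict g hgs
      refine Set.mem_iUnion.2 ⟨γ, ?_, hγ⟩
      show φ (T1.ratG K γ * g) ≠ 0
      have := hφ.aut.left_inv γ g
      rw [show T1.ratG K γ * g
        = Matrix.GeneralLinearGroup.map (algebraMap K (Adl K)) γ * g from rfl, this]
      exact hg
    refine measure_mono_null hsub ?_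
    refine measure_iUnion_null fun γ => ?_
    rw [measure_preimage_mul]
    exact hVD
  -- `V` is a null set: it is covered by the translates of its part in the slab by the powers of
  -- the central element `r`
  have hVnull : R.F.μ {g : G K | φ g ≠ 0} = 0 := by
    have hsub : {g : G K | φ g ≠ 0} ⊆
        ⋃ m : ℤ, (fun g : G K => R.r ^ m * g) ⁻¹' ({g : G K | φ g ≠ 0} ∩ T1.slab K) := by
      intro g hg
      obtain ⟨m, hm⟩ := exists_zpow_mem_slab833 hN R.ray g
      have hcomm : R.r ^ m * g = g * R.r ^ m := ((rayGen_commute833 R.ray g).zpow_left m).eq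
      refine Set.mem_iUnion.2 ⟨m, ?_, ?_⟩
      · show φ (R.r ^ m * g) ≠ 0
        rw [hcomm, ray_zpow833 hφ.aut.ray m g]
        exact hg
      · show R.r ^ m * g ∈ T1.slab K
        rw [hcomm]
        exact hm
    refine measure_mono_null hsub ?_
    refine measure_iUnion_null fun m => ?_
    rw [measure_preimage_mul]
    exact hVslab
  have hempty : {g : G K | φ g ≠ 0} = ∅ := (hVopen.measure_eq_zero_iff R.F.μ).1 hVnull
  intro g
  by_contra hg
  have hmem : g ∈ {g : G K | φ g ≠ 0} := hg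
  rw [hempty] at hmem
  exact hmem

/-- **T2.21 `LeafT01`** (registry row 1144), VERBATIM. -/
theorem leafT01_833 (K : Type) [Field K] [NumberField K] : LeafT01 K :=
  fun h => ⟨frameRExists833 h, fun 𝔫 τ _ _ => pairDefiniteT833 h 𝔫 τ⟩

/-- Type check against the frozen Prop. -/
example (K : Type) [Field K] [NumberField K] : Fermat.Agent.LT.T2.LeafT01 K := leafT01_833 K

end Fermat.Agent.LT.T2.H833

end

end
-- ===== PACK-END LT/T2/H833/LeafT01.lean

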