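import Fermat.Prelude.Thm_ModularFormClass_qCoeff_heckeT
import Fermat.Prelude.Thm_ModularForm_periodic_heckeU_comp_ofComplex
import Fermat.Prelude.Thm_ModularForm_periodic_heckeT_comp_ofComplex
import Fermat.Prelude.Thm_ModularForm_isBoundedAtImInfty_heckeU
import Fermat.Prelude.Thm_ModularForm_isBoundedAtImInfty_heckeT
import Fermat.Prelude.Thm_ModularForm_mdifferentiable_heckeT
import Mathlib
import Fermat.Agent.Pack.LT3.E8L0
import Fermat.Agent.Pack.LT3.E8L3
import Fermat.Agent.Pack.LT3.E8L1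
import Fermat.Agent.Pack.LT3.E3L2
import Fermat.Agent.Pack.LT3.E8L2
import Fermat.Agent.Pack.LT2.E3L0
import Fermat.Agent.Pack.LT2.E0L2
import Fermat.Agent.Pack.LT2.E2L1
import Fermat.Agent.Pack.LT2.E5L3
import Fermat.Agent.Pack.LT2.E2L3
import Fermat.Agent.Pack.LT2.E6L3
import Fermat.Agent.Pack.LT3.E0L3
import Fermat.Agent.Pack.LT2.E6L2
import Fermat.Agent.Pack.LT3.E10L1

set_option linter.all false

-- ===== PACK-BEGIN LT/T6/H964/AbelInj1.lean
section



/-!
# Row LT, tower T6, leaf T6.21.6 `AbelInj1C` (cut of helper830) — SPARE proof (helper964)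

OFF-MAIN.  `abelInj1C964 : H830.AbelInj1C` VERBATIM against
`LT/T6/H830/InjSpec.lean` (sha256 065bae8ee89d57b8, helper830@4a7e5e87a; byte-identical copy,
with `HCSpec` c3e7d846, `SpecArch` 003240b2, `Spec` 8c5f2ae7).

Route: `G(ρ) = T(arcosh (max ρ 1))`; for `n = 0` the hypothesis is `(A G)(cosh r) = 0`, for
`n = ±1` the imaginary part of the phase is odd in `x` and the hypothesis is
`(A G₁)(cosh r) = 0`, `G₁ = G / √((ρ+1)/2)`; injectivity of the Abel transform
(`abelT_eq_zero_imp964`).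
-/

set_option autoImplicit false

open MeasureTheory Set Filter Topology Real
open scoped ContDiff

noncomputable section

namespace Fermat.Agent.LT.T6.H964

open Fermat.Agent.LT.T6 Fermat.Agent.LT.T6.H830

theorem arcosh830_eq964 (ρ : ℝ) : arcosh830 ρ = Real.arcosh ρ := rfl

/-- The scaling factor `a = √(e^r / 2)`: `rhoRX r x = cosh r + (a x)²`. -/
def scl964 (r : ℝ) : ℝ := Real.sqrt (Real.exp r / 2)

theorem scl_pos964 (r : ℝ) : 0 < scl964 r :=
  Real.sqrt_pos.mpr (by positivity)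

theorem rhoRX_eq964 (r x : ℝ) : rhoRX r x = Real.cosh r + (scl964 r * x) ^ 2 := by
  unfold rhoRX scl964
  rw [mul_pow, Real.sq_sqrt (by positivity)]
  ring

theorem one_le_rhoRX964 (r x : ℝ) : 1 ≤ rhoRX r x := by
  rw [rhoRX_eq964]
  have := Real.one_le_cosh r
  have := sq_nonneg (scl964 r * x)
  linarith

theorem rhoRX_neg964 (r x : ℝ) : rhoRX r (-x) = rhoRX r x := by
  unfold rhoRX
  ring

/-- The substitution `u = a x`. -/
theorem integral_rhoRX964 (F : ℝ → ℂ) (r : ℝ) :
    ∫ x : ℝ, F (rhoRX r x) = |(scl964 r)⁻¹| • abelT964 F (Real.cosh r) := by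
  have h := Measure.integral_comp_mul_left (fun u : ℝ => F (Real.cosh r + u ^ 2)) (scl964 r)
  unfold abelT964
  rw [← h]
  congr 1
  funext x
  rw [rhoRX_eq964]

theorem abelT_zero_of_integral964 {F : ℝ → ℂ} (h : ∀ r : ℝ, ∫ x : ℝ, F (rhoRX r x) = 0) :
    ∀ ρ, 1 ≤ ρ → abelT964 F ρ = 0 := by
  intro ρ hρ
  have h1 := h (Real.arcosh ρ)
  rw [integral_rhoRX964, Real.cosh_arcosh hρ] at h1
  have hne : |(scl964 (Real.arcosh ρ))⁻¹| ≠ 0 :=
    abs_ne_zero.mpr (inv_ne_zero (scl_pos964 _).ne')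
  rcases smul_eq_zero.mp h1 with h2 | h2
  · exact absurd h2 hne
  · exact h2

/-- The radial profile `G(ρ) = T(arcosh (max ρ 1))`. -/
def profile964 (T : ℝ → ℂ) (ρ : ℝ) : ℂ := T (Real.arcosh (max ρ 1))

theorem continuous_profile964 {T : ℝ → ℂ} (hT : Continuous T) : Continuous (profile964 T) := by
  have h1 : Continuous (fun ρ : ℝ => Real.arcosh (max ρ 1)) :=
    Real.continuousOn_arcosh.comp_continuous (continuous_id.max continuous_const)
      (fun ρ => le_max_right ρ 1)
  exact hT.comp h1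

theorem profile_rhoRX964 (T : ℝ → ℂ) (r x : ℝ) :
    T (arcosh830 (rhoRX r x)) = profile964 T (rhoRX r x) := by
  unfold profile964
  rw [max_eq_left (one_le_rhoRX964 r x), arcosh830_eq964]

theorem profile_cosh964 (T : ℝ → ℂ) {t : ℝ} (ht : 0 ≤ t) : profile964 T (Real.cosh t) = T t := by
  unfold profile964
  rw [max_eq_left (Real.one_le_cosh t), Real.arcosh_cosh ht]

theorem profile_vanishesAbove964 {T : ℝ → ℂ} {M : ℝ} (hM : ∀ t : ℝ, M < t → T t = 0) :
    VanishesAbove964 (Real.cosh (max M 0)) (profile964 T) := by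
  intro ρ hρ
  have hρ1 : 1 ≤ ρ := le_trans (Real.one_le_cosh _) hρ.le
  unfold profile964
  rw [max_eq_left hρ1]
  apply hM
  have h1 : Real.cosh (max M 0) < Real.cosh (Real.arcosh ρ) := by rwa [Real.cosh_arcosh hρ1]
  rw [Real.cosh_lt_cosh, abs_of_nonneg (le_max_right M 0),
    abs_of_nonneg (Real.arcosh_nonneg hρ1)] at h1
  exact lt_of_le_of_lt (le_max_left M 0) h1

/-- The denominator `√((max ρ 1 + 1)/2)` (`= |holPart|` up to the centre). -/
def den964 (ρ : ℝ) : ℝ := Real.sqrt ((max ρ 1 + 1) / 2)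

theorem den_pos964 (ρ : ℝ) : 0 < den964 ρ := by
  unfold den964
  apply Real.sqrt_pos.mpr
  have := le_max_right ρ 1
  linarith

theorem continuous_den964 : Continuous den964 := by
  unfold den964
  fun_prop

/-- `G₁ = G / √((ρ + 1)/2)`. -/
def profile1_964 (T : ℝ → ℂ) (ρ : ℝ) : ℂ := profile964 T ρ / ((den964 ρ : ℝ) : ℂ)

theorem den_ne964 (ρ : ℝ) : ((den964 ρ : ℝ) : ℂ) ≠ 0 := by
  exact_mod_cast (den_pos964 ρ).ne'

theorem continuous_profile1_964 {T : ℝ → ℂ} (hT : Continuous T) :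
    Continuous (profile1_964 T) := by
  unfold profile1_964
  exact (continuous_profile964 hT).div (Complex.continuous_ofReal.comp continuous_den964)
    den_ne964

theorem profile1_vanishesAbove964 {T : ℝ → ℂ} {M : ℝ} (hM : ∀ t : ℝ, M < t → T t = 0) :
    VanishesAbove964 (Real.cosh (max M 0)) (profile1_964 T) := by
  intro ρ hρ
  unfold profile1_964
  rw [profile_vanishesAbove964 hM ρ hρ, zero_div]

theorem den_rhoRX964 (r x : ℝ) : den964 (rhoRX r x) = Real.sqrt ((rhoRX r x + 1) / 2) := by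
  unfold den964
  rw [max_eq_left (one_le_rhoRX964 r x)]

/-- `|A|² = (ρ + 1)/2`. -/
theorem den_sq964 (r x : ℝ) :
    den964 (rhoRX r x) ^ 2 = Real.cosh (r / 2) ^ 2 + (Real.exp (r / 2) * x / 2) ^ 2 := by
  rw [den_rhoRX964, Real.sq_sqrt (by have := one_le_rhoRX964 r x; linarith)]
  unfold rhoRX
  have h1 : Real.cosh r = Real.cosh (r / 2) ^ 2 + Real.sinh (r / 2) ^ 2 := by
    rw [← Real.cosh_two_mul]
    congr 1
    ring
  have h2 := Real.cosh_sq (r / 2)
  have h3 : Real.exp r = Real.exp (r / 2) ^ 2 := by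
    rw [← Real.exp_nat_mul]
    congr 1
    push_cast
    ring
  rw [h1, h3]
  nlinarith [h2]

theorem wph_zero964 (r x : ℝ) : wph 0 r x = 1 := by
  unfold wph
  exact zpow_zero _

theorem wph_one964 (r x : ℝ) :
    wph 1 r x = (((Real.cosh (r / 2) : ℝ) : ℂ) + ((Real.exp (r / 2) * x / 2 : ℝ) : ℂ) * Complex.I) /
      ((den964 (rhoRX r x) : ℝ) : ℂ) := by
  unfold wph
  rw [zpow_one, den_rhoRX964]

theorem wph_neg_one964 (r x : ℝ) :
    wph (-1) r x = (((Real.cosh (r / 2) : ℝ) : ℂ) - ((Real.exp (r / 2) * x / 2 : ℝ) : ℂ) * Complex.I) /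
      ((den964 (rhoRX r x) : ℝ) : ℂ) := by
  unfold wph
  rw [zpow_neg_one, ← den_rhoRX964, inv_div]
  have hd := den_ne964 (rhoRX r x)
  have hsq : (((den964 (rhoRX r x) : ℝ) : ℂ)) ^ 2 = ((Real.cosh (r / 2) : ℝ) : ℂ) ^ 2 +
      ((Real.exp (r / 2) * x / 2 : ℝ) : ℂ) ^ 2 := by
    exact_mod_cast congrArg (fun t : ℝ => (t : ℂ)) (den_sq964 r x)
  have hne : ((Real.cosh (r / 2) : ℝ) : ℂ) + ((Real.exp (r / 2) * x / 2 : ℝ) : ℂ) * Complex.I ≠ 0 := by
    intro h
    have h1 := congrArg Complex.re h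
    simp only [Complex.add_re, Complex.ofReal_re, Complex.mul_re, Complex.I_re, Complex.I_im,
      Complex.ofReal_im, mul_zero, mul_one, add_zero, Complex.zero_re, sub_self] at h1
    exact (Real.cosh_pos (r / 2)).ne' h1
  rw [div_eq_div_iff hne hd]
  linear_combination hsq + (((Real.exp (r / 2) * x / 2 : ℝ) : ℂ)) ^ 2 * Complex.I_sq

/-- The integrand `x ↦ F(ρ(r, x))` is integrable. -/
theorem integrable_rhoRX964 {F : ℝ → ℂ} {R : ℝ} (hF : Continuous F) (hv : VanishesAbove964 R F)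
    (r : ℝ) : Integrable (fun x : ℝ => F (rhoRX r x)) := by
  have h1 := (integrable_integrand964 hF hv (Real.cosh r)).comp_mul_left' (scl_pos964 r).ne'
  refine h1.congr (Eventually.of_forall fun x => ?_)
  simp only [rhoRX_eq964]

theorem hasCompactSupport_rhoRX964 {F : ℝ → ℂ} {R : ℝ} (hv : VanishesAbove964 R F) (r : ℝ) :
    HasCompactSupport (fun x : ℝ => F (rhoRX r x)) := by
  have h1 := (hasCompactSupport_integrand964 hv (Real.cosh r)).comp_isClosedEmbedding
    (Homeomorph.mulLeft₀ (scl964 r) (scl_pos964 r).ne').isClosedEmbedding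
  have e : (fun x : ℝ => F (rhoRX r x)) =
      (fun u : ℝ => F (Real.cosh r + u ^ 2)) ∘ (Homeomorph.mulLeft₀ (scl964 r) (scl_pos964 r).ne') := by
    funext x
    simp only [Function.comp_apply, Homeomorph.coe_mulLeft₀, rhoRX_eq964]
  rw [e]
  exact h1

theorem continuous_rhoRX964 (r : ℝ) : Continuous (fun x : ℝ => rhoRX r x) := by
  unfold rhoRX
  fun_prop

/-- The odd part integrates to zero. -/
theorem integral_odd964 (F : ℝ → ℂ) (r : ℝ) :
    ∫ x : ℝ, (x : ℂ) * F (rhoRX r x) = 0 := by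
  have h1 := integral_neg_eq_self (fun x : ℝ => (x : ℂ) * F (rhoRX r x)) volume
  have h2 : (fun x : ℝ => ((-x : ℝ) : ℂ) * F (rhoRX r (-x))) =
      fun x : ℝ => -((x : ℂ) * F (rhoRX r x)) := by
    funext x
    rw [rhoRX_neg964]
    push_cast
    ring
  rw [h2, integral_neg] at h1
  linear_combination (-(1 / 2 : ℂ)) * h1

/-- The common computation for `n = ±1` (`ε = ±1`). -/
theorem integral_wt_one964 {T : ℝ → ℂ} (hT : Continuous T) {M : ℝ}
    (hM : ∀ t : ℝ, M < t → T t = 0) (ε : ℂ) (r : ℝ) :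
    ∫ x : ℝ, ((((Real.cosh (r / 2) : ℝ) : ℂ) + ε * (((Real.exp (r / 2) * x / 2 : ℝ) : ℂ) * Complex.I)) /
      ((den964 (rhoRX r x) : ℝ) : ℂ)) * profile964 T (rhoRX r x)
      = ((Real.cosh (r / 2) : ℝ) : ℂ) * ∫ x : ℝ, profile1_964 T (rhoRX r x) := by
  have hc1 := continuous_profile1_964 hT
  have hv1 := profile1_vanishesAbove964 (T := T) hM
  have hI1 : Integrable (fun x : ℝ => ((Real.cosh (r / 2) : ℝ) : ℂ) * profile1_964 T (rhoRX r x)) :=
    (integrable_rhoRX964 hc1 hv1 r).const_mul _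
  have hcont : Continuous (fun x : ℝ => (x : ℂ) * profile1_964 T (rhoRX r x)) :=
    Complex.continuous_ofReal.mul (hc1.comp (continuous_rhoRX964 r))
  have hI2 : Integrable (fun x : ℝ => (ε * ((Real.exp (r / 2) / 2 : ℝ) : ℂ) * Complex.I) *
      ((x : ℂ) * profile1_964 T (rhoRX r x))) :=
    (hcont.integrable_of_hasCompactSupport
      ((hasCompactSupport_rhoRX964 hv1 r).mul_left)).const_mul _
  have e : (fun x : ℝ => ((((Real.cosh (r / 2) : ℝ) : ℂ) +
      ε * (((Real.exp (r / 2) * x / 2 : ℝ) : ℂ) * Complex.I)) /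
      ((den964 (rhoRX r x) : ℝ) : ℂ)) * profile964 T (rhoRX r x)) =
      fun x : ℝ => ((Real.cosh (r / 2) : ℝ) : ℂ) * profile1_964 T (rhoRX r x) +
        (ε * ((Real.exp (r / 2) / 2 : ℝ) : ℂ) * Complex.I) *
          ((x : ℂ) * profile1_964 T (rhoRX r x)) := by
    funext x
    unfold profile1_964
    have hd := den_ne964 (rhoRX r x)
    field_simp
    push_cast
    ring
  rw [e, integral_add hI1 hI2, integral_const_mul, integral_const_mul, integral_odd964,
    mul_zero, add_zero]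

/-- **T6.21.6 `AbelInj1C`** (cut of helper830), VERBATIM. -/
theorem abelInj1C964 : H830.AbelInj1C := by
  intro n hn T hT hMex hint t ht
  obtain ⟨M, hM⟩ := hMex
  have hGc := continuous_profile964 hT
  have hGv := profile_vanishesAbove964 (T := T) hM
  have key : ∀ ρ, 1 ≤ ρ → profile964 T ρ = 0 := by
    rcases hn with rfl | rfl | rfl
    · -- weight 0
      refine abelT_eq_zero_imp964 hGc hGv (abelT_zero_of_integral964 fun r => ?_)
      have h1 := hint r
      simp only [wph_zero964, one_mul, profile_rhoRX964] at h1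
      exact h1
    · -- weight 1
      have h0 : ∀ ρ, 1 ≤ ρ → profile1_964 T ρ = 0 := by
        refine abelT_eq_zero_imp964 (continuous_profile1_964 hT)
          (profile1_vanishesAbove964 hM) (abelT_zero_of_integral964 fun r => ?_)
        have h1 := hint r
        simp only [wph_one964, profile_rhoRX964] at h1
        have h2 := integral_wt_one964 hT hM 1 r
        simp only [one_mul] at h2
        rw [h1] at h2
        rcases mul_eq_zero.mp h2.symm with h3 | h3
        · exact absurd h3 (by exact_mod_cast (Real.cosh_pos (r / 2)).ne')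
        · exact h3
      intro ρ hρ
      have := h0 ρ hρ
      unfold profile1_964 at this
      rcases div_eq_zero_iff.mp this with h | h
      · exact h
      · exact absurd h (den_ne964 ρ)
    · -- weight -1
      have h0 : ∀ ρ, 1 ≤ ρ → profile1_964 T ρ = 0 := by
        refine abelT_eq_zero_imp964 (continuous_profile1_964 hT)
          (profile1_vanishesAbove964 hM) (abelT_zero_of_integral964 fun r => ?_)
        have h1 := hint r
        simp only [wph_neg_one964, profile_rhoRX964] at h1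
        have h2 := integral_wt_one964 hT hM (-1) r
        simp only [neg_one_mul, ← sub_eq_add_neg] at h2
        rw [h1] at h2
        rcases mul_eq_zero.mp h2.symm with h3 | h3
        · exact absurd h3 (by exact_mod_cast (Real.cosh_pos (r / 2)).ne')
        · exact h3
      intro ρ hρ
      have := h0 ρ hρ
      unfold profile1_964 at this
      rcases div_eq_zero_iff.mp this with h | h
      · exact h
      · exact absurd h (den_ne964 ρ)
  rw [← profile_cosh964 T ht]
  exact key _ (Real.one_le_cosh t)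

end Fermat.Agent.LT.T6.H964

end
end
-- ===== PACK-END LT/T6/H964/AbelInj1.lean

-- ===== PACK-BEGIN LT/H670/QOut/ClassA4.lean
section









/-!
# Row LT, T7.QOUT (helper670): leaf `QA4` PROVED (classical rescaling and `q`-coefficients)

`qA4 : QA4`.  OFF-MAIN.
-/

set_option autoImplicit false

open UpperHalfPlane ModularForm CongruenceSubgroup Matrix.SpecialLinearGroup ModularFormClass
open scoped MatrixGroups ModularForm Manifold

namespace Fermat.Agent.LT.H670.QOut

noncomputable section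

open Fermat.Agent.LT.H556 Fermat.Agent.LT.H670

/-- `diag(N,1) g = g' diag(N,1)` with `g' ∈ Γ(N)` for `g ∈ Γ₁(N²)`. -/
theorem diag_mul_Gamma1_sq (N : ℕ) (hN : N ≠ 0) (g : SL(2, ℤ)) (hg : g ∈ Gamma1 (N ^ 2)) :
    ∃ g' : SL(2, ℤ), g' ∈ Gamma N ∧
      heckeDiagMatrix N * mapGL ℝ g = mapGL ℝ g' * heckeDiagMatrix N := by
  have hg3 := (Gamma1_mem (N ^ 2) g).mp hg
  have hdet := sl2_det_eq g
  obtain ⟨e, he⟩ : ((N ^ 2 : ℕ) : ℤ) ∣ g 1 0 := (ZMod.intCast_zmod_eq_zero_iff_dvd _ _).mp hg3.2.2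
  obtain ⟨ea, hea⟩ : ((N ^ 2 : ℕ) : ℤ) ∣ g 0 0 - 1 := by
    rw [← ZMod.intCast_zmod_eq_zero_iff_dvd]; push_cast; rw [hg3.1]; ring
  obtain ⟨ed, hed⟩ : ((N ^ 2 : ℕ) : ℤ) ∣ g 1 1 - 1 := by
    rw [← ZMod.intCast_zmod_eq_zero_iff_dvd]; push_cast; rw [hg3.2.1]; ring
  push_cast at he hea hed
  obtain ⟨g', e00, e01, e10, e11⟩ := exists_sl2_of_entries
    (g 0 0) ((N : ℤ) * g 0 1) ((N : ℤ) * e) (g 1 1)
    (by rw [he] at hdet; linear_combination hdet)
  refine ⟨g', Gamma_mem.mpr ⟨?_, ?_, ?_, ?_⟩, ?_⟩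
  · have : (g' 0 0 : ℤ) = 1 + (N : ℤ) * ((N : ℤ) * ea) := by rw [e00]; linear_combination hea
    rw [this]; push_cast; simp
  · rw [e01]; push_cast; simp
  · rw [e10]; push_cast; simp
  · have : (g' 1 1 : ℤ) = 1 + (N : ℤ) * ((N : ℤ) * ed) := by rw [e11]; linear_combination hed
    rw [this]; push_cast; simp
  · have heR := congrArg (Int.cast : ℤ → ℝ) he
    have f00 := congrArg (Int.cast : ℤ → ℝ) e00
    have f01 := congrArg (Int.cast : ℤ → ℝ) e01
    have f10 := congrArg (Int.cast : ℤ → ℝ) e10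
    have f11 := congrArg (Int.cast : ℤ → ℝ) e11
    push_cast at heR f00 f01 f10 f11
    apply Units.ext
    ext i j'
    rw [Units.val_mul, Units.val_mul, Matrix.mul_apply, Matrix.mul_apply, Fin.sum_univ_two,
      Fin.sum_univ_two]
    simp only [mapGL_real_apply]
    fin_cases i <;> fin_cases j' <;>
      simp [hN, f00, f01, f10, f11] <;>
      first
        | ring1
        | (rw [heR]; ring1)

open ConjAct Pointwise in
theorem Gamma1_sq_le_conj_diag (N : ℕ) (hN : N ≠ 0) :
    (Gamma1 (N ^ 2) : Subgroup (GL (Fin 2) ℝ)) ≤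
      toConjAct (heckeDiagMatrix N)⁻¹ • (Gamma N : Subgroup (GL (Fin 2) ℝ)) := by
  rintro γ ⟨g, hg, rfl⟩
  rw [Subgroup.mem_pointwise_smul_iff_inv_smul_mem, ← map_inv, inv_inv, ConjAct.smul_def,
    ConjAct.ofConjAct_toConjAct]
  obtain ⟨g', hg'1, hg'⟩ := diag_mul_Gamma1_sq N hN g hg
  rw [hg', mul_inv_cancel_right]
  exact ⟨g', hg'1, rfl⟩

/-- `z ↦ F(N z)` as a cusp form on `Γ₁(N²)`. -/
def rescaleForm (N : ℕ) (hN : N ≠ 0) (F : CuspForm (Gamma N) 1) : CuspForm (Gamma1 (N ^ 2)) 1 :=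
  restrictCusp (Gamma1_sq_le_conj_diag N hN) (CuspForm.translate F (heckeDiagMatrix N))

theorem coe_rescaleForm (N : ℕ) (hN : N ≠ 0) (F : CuspForm (Gamma N) 1) :
    ⇑(rescaleForm N hN F) = (⇑F) ∣[(1 : ℤ)] heckeDiagMatrix N := rfl

theorem rescaleForm_apply (N : ℕ) (hN : N ≠ 0) (F : CuspForm (Gamma N) 1) (τ : ℍ) :
    rescaleForm N hN F τ = F (heckeDiagMatrix N • τ) := by
  rw [coe_rescaleForm, slash_heckeDiagMatrix_apply 1 hN]
  simp

theorem rescaleForm_ne_zero (N : ℕ) (hN : N ≠ 0) (F : CuspForm (Gamma N) 1) (hF : F ≠ 0) :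
    rescaleForm N hN F ≠ 0 := by
  intro h0
  apply hF
  ext τ
  have h := congrArg (fun G : CuspForm (Gamma1 (N ^ 2)) 1 => G ((heckeDiagMatrix N)⁻¹ • τ)) h0
  simp only [rescaleForm_apply, smul_inv_smul] at h
  exact h

theorem heckeMatrix_mul_diag (N p : ℕ) (hN : N ≠ 0) (hp : p ≠ 0) (j : ℕ) :
    heckeMatrix p (N * j) * heckeDiagMatrix N = heckeDiagMatrix N * heckeMatrix p j := by
  apply Units.ext
  ext i j
  fin_cases i <;> fin_cases j <;>
    simp [hN, hp, Matrix.mul_apply, Fin.sum_univ_two]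

theorem heckeDiag_mul_diag (N p : ℕ) (hN : N ≠ 0) (hp : p ≠ 0) :
    heckeDiagMatrix p * heckeDiagMatrix N = heckeDiagMatrix N * heckeDiagMatrix p := by
  apply Units.ext
  ext i j
  fin_cases i <;> fin_cases j <;>
    simp [hN, hp, Matrix.mul_apply, Fin.sum_univ_two]
  exact mul_comm _ _

/-- the Hecke identity of `F` gives the one of `G(z) = F(N z)` (pointwise) -/
theorem rescale_hecke (N : ℕ) (hN : N ≠ 0) (ψ₁ ψ₂ : DirichletCharacter ℂ N)
    (a b : Nat.Primes → ℂ) (F : CuspForm (Gamma N) 1) (hH : FnHecke N ψ₁ ψ₂ a b F)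
    (p : Nat.Primes) (hpN : ¬ (p : ℕ) ∣ N) (τ : ℍ) :
    (ψ₁ (((p : ℕ) : ℕ) : ZMod N))⁻¹ * heckeU 1 (p : ℕ) (⇑(rescaleForm N hN F)) τ
      + (ψ₂ (((p : ℕ) : ℕ) : ZMod N))⁻¹ *
          ((⇑(rescaleForm N hN F)) ∣[(1 : ℤ)] heckeDiagMatrix (p : ℕ)) τ
      = a p * rescaleForm N hN F τ := by
  have hp : (p : ℕ) ≠ 0 := p.2.ne_zero
  have h := congrFun (hH p hpN).1 (heckeDiagMatrix N • τ)
  simp only [Pi.add_apply, Pi.smul_apply, smul_eq_mul, Finset.sum_apply] at h
  rw [rescaleForm_apply, ← h, heckeU_apply 1 hp, Finset.mul_sum]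
  congr 1
  · congr 1
    refine Finset.sum_congr rfl fun j _ => ?_
    rw [slash_heckeMatrix_apply 1 hp, rescaleForm_apply, ← mul_smul, ← mul_smul,
      heckeMatrix_mul_diag N p hN hp]
  · congr 1
    rw [slash_heckeDiagMatrix_apply 1 hp, slash_heckeDiagMatrix_apply 1 hp, rescaleForm_apply,
      ← mul_smul, ← mul_smul, heckeDiag_mul_diag N p hN hp]


/-- the Hecke identity of `G` on `q`-coefficients -/
theorem rescale_coeff (N : ℕ) [NeZero N] (ψ₁ ψ₂ : DirichletCharacter ℂ N)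
    (a b : Nat.Primes → ℂ) (F : CuspForm (Gamma N) 1) (hH : FnHecke N ψ₁ ψ₂ a b F)
    (p : Nat.Primes) (hpN : ¬ (p : ℕ) ∣ N) (n : ℕ) :
    (ψ₁ (((p : ℕ) : ℕ) : ZMod N))⁻¹ * qCoeff (rescaleForm N (NeZero.ne N) F) (n * (p : ℕ))
      + (ψ₂ (((p : ℕ) : ℕ) : ZMod N))⁻¹ *
          (if (p : ℕ) ∣ n then qCoeff (rescaleForm N (NeZero.ne N) F) (n / (p : ℕ)) else 0)
      = a p * qCoeff (rescaleForm N (NeZero.ne N) F) n := by
  have hN : N ≠ 0 := NeZero.ne N
  have hp : (p : ℕ) ≠ 0 := p.2.ne_zero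
  set G := rescaleForm N hN F with hGdef
  have hΓ := one_mem_strictPeriods_Gamma1_map (N ^ 2)
  have hcusp : Fact (IsCusp OnePoint.infty (Subgroup.map (mapGL ℝ) (Gamma1 (N ^ 2)))) :=
    ⟨Subgroup.isCusp_of_mem_strictPeriods one_pos hΓ⟩
  have hper : Function.Periodic (⇑G ∘ UpperHalfPlane.ofComplex) 1 :=
    SlashInvariantFormClass.periodic_comp_ofComplex G hΓ
  have hhol : MDifferentiable 𝓘(ℂ) 𝓘(ℂ) ⇑G := CuspFormClass.holo G
  have hbdd : IsBoundedAtImInfty ⇑G := ModularFormClass.bdd_at_infty G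
  have hcU : ∀ m : ℕ, (qExpansion 1 (heckeU 1 (p : ℕ) ⇑G)).coeff m = qCoeff G (m * (p : ℕ)) :=
    fun m => ModularFormClass.qCoeff_heckeU G hΓ hp m
  have hcT : ∀ m : ℕ, (qExpansion 1 (heckeT 1 (p : ℕ) ⇑G)).coeff m
      = qCoeff G (m * (p : ℕ)) + (if (p : ℕ) ∣ m then qCoeff G (m / (p : ℕ)) else 0) := by
    intro m
    have h := ModularFormClass.qCoeff_heckeT G hΓ hp m
    rw [coeffHeckeT_apply] at h
    simp only [sub_self, zpow_zero, one_mul] at h
    exact h
  have key : ∀ τ : ℍ, HasSum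
      (fun m : ℕ => ((ψ₁ (((p : ℕ) : ℕ) : ZMod N))⁻¹ * qCoeff G (m * (p : ℕ))
        + (ψ₂ (((p : ℕ) : ℕ) : ZMod N))⁻¹ *
          (if (p : ℕ) ∣ m then qCoeff G (m / (p : ℕ)) else 0)) •
          Function.Periodic.qParam 1 (τ : ℂ) ^ m)
      ((a p • G : CuspForm (Gamma1 (N ^ 2)) 1) τ) := by
    intro τ
    have hU := UpperHalfPlane.hasSum_qExpansion one_pos
      (periodic_heckeU_comp_ofComplex hper 1 (p : ℕ)) (mdifferentiable_heckeU hhol 1 (p : ℕ))
      (isBoundedAtImInfty_heckeU hbdd 1 (p : ℕ)) τ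
    have hT := UpperHalfPlane.hasSum_qExpansion one_pos
      (periodic_heckeT_comp_ofComplex hper 1 (p : ℕ)) (mdifferentiable_heckeT hhol 1 (p : ℕ))
      (isBoundedAtImInfty_heckeT hbdd 1 (p : ℕ)) τ
    have hsum := (hU.mul_left (ψ₁ (((p : ℕ) : ℕ) : ZMod N))⁻¹).add
      ((hT.sub hU).mul_left (ψ₂ (((p : ℕ) : ℕ) : ZMod N))⁻¹)
    have hval : (ψ₁ (((p : ℕ) : ℕ) : ZMod N))⁻¹ * heckeU 1 (p : ℕ) (⇑G) τ
        + (ψ₂ (((p : ℕ) : ℕ) : ZMod N))⁻¹ * (heckeT 1 (p : ℕ) (⇑G) τ - heckeU 1 (p : ℕ) (⇑G) τ)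
        = (a p • G : CuspForm (Gamma1 (N ^ 2)) 1) τ := by
      have h1 := rescale_hecke N hN ψ₁ ψ₂ a b F hH p hpN τ
      have h2 : heckeT 1 (p : ℕ) (⇑G) τ - heckeU 1 (p : ℕ) (⇑G) τ
          = ((⇑G) ∣[(1 : ℤ)] heckeDiagMatrix (p : ℕ)) τ := by
        rw [heckeT_eq_heckeU_add, Pi.add_apply, add_sub_cancel_left]
      rw [h2]
      exact h1
    rw [hval] at hsum
    refine hsum.congr_fun ?_
    intro m
    simp only [smul_eq_mul, hcU, hcT]
    ring
  have huniq := ModularFormClass.qExpansion_coeff_unique one_pos hΓ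
    (f := (a p • G : CuspForm (Gamma1 (N ^ 2)) 1)) key n
  rw [huniq]
  exact qCoeff_smul_Gamma1 (a p) G n

/-- **Leaf QA4: PROVED.** -/
theorem qA4 : QA4 := by
  intro N hNz a b ψ₁ ψ₂ F hF hH
  have : NeZero N := hNz
  have hN : N ≠ 0 := NeZero.ne N
  have hMN : N ∣ N ^ 2 := Dvd.intro_left (N ^ 1) (by ring)
  have hNne : NeZero (N ^ 2) := ⟨pow_ne_zero 2 hN⟩
  refine ⟨N ^ 2, hNne, DirichletCharacter.changeLevel hMN ψ₁,
    DirichletCharacter.changeLevel hMN (ψ₁ * ψ₂⁻¹), rescaleForm N hN F,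
    rescaleForm_ne_zero N hN F hF, ?_⟩
  intro p hpN2
  have hpN : ¬ (p : ℕ) ∣ N := fun h => hpN2 (h.trans hMN)
  have hcop : Nat.Coprime (p : ℕ) N := (Nat.Prime.coprime_iff_not_dvd p.2).mpr hpN
  have hu : IsUnit (((p : ℕ) : ℕ) : ZMod N) := (ZMod.isUnit_iff_coprime p N).mpr hcop
  have h1 : ψ₁ (((p : ℕ) : ℕ) : ZMod N) ≠ 0 := (IsUnit.map ψ₁ hu).ne_zero
  have h2 : ψ₂ (((p : ℕ) : ℕ) : ZMod N) ≠ 0 := (IsUnit.map ψ₂ hu).ne_zero
  have hcopN : IsCoprime (((p : ℕ) : ℕ) : ℤ) ((N ^ 2 : ℕ) : ℤ) :=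
    Nat.isCoprime_iff_coprime.mpr ((Nat.Prime.coprime_iff_not_dvd p.2).mpr hpN2)
  have hα : (DirichletCharacter.changeLevel hMN ψ₁) (((p : ℕ) : ℕ) : ZMod (N ^ 2))
      = ψ₁ (((p : ℕ) : ℕ) : ZMod N) := by
    have h := DirichletCharacter.changeLevel_eq_cast_of_dvd' ψ₁ hMN hcopN
    simp only [Int.cast_natCast] at h
    exact h
  have hβ : (DirichletCharacter.changeLevel hMN (ψ₁ * ψ₂⁻¹)) (((p : ℕ) : ℕ) : ZMod (N ^ 2))
      = ψ₁ (((p : ℕ) : ℕ) : ZMod N) * (ψ₂ (((p : ℕ) : ℕ) : ZMod N))⁻¹ := by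
    have h := DirichletCharacter.changeLevel_eq_cast_of_dvd' (ψ₁ * ψ₂⁻¹) hMN hcopN
    simp only [Int.cast_natCast] at h
    rw [h, MulChar.mul_apply, MulChar.inv_apply_eq_inv']
  refine ⟨fun n => ?_, ?_⟩
  · have h := rescale_coeff N ψ₁ ψ₂ a b F hH p hpN n
    rw [hα, hβ, mul_comm (p : ℕ) n]
    have h3 : qCoeff (rescaleForm N hN F) (n * (p : ℕ))
        = ψ₁ (((p : ℕ) : ℕ) : ZMod N) * (a p * qCoeff (rescaleForm N hN F) n
          - (ψ₂ (((p : ℕ) : ℕ) : ZMod N))⁻¹ *
            (if (p : ℕ) ∣ n then qCoeff (rescaleForm N hN F) (n / (p : ℕ)) else 0)) := by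
      rw [← h]
      field_simp
      ring
    rw [h3]
    ring
  · rw [hα, hβ]
    have hb := (hH p hpN).2
    have : b p = (ψ₁ (((p : ℕ) : ℕ) : ZMod N))⁻¹ * (ψ₂ (((p : ℕ) : ℕ) : ZMod N))⁻¹ := by
      field_simp
      linear_combination hb
    rw [this]
    field_simp


end

end Fermat.Agent.LT.H670.QOut

end
-- ===== PACK-END LT/H670/QOut/ClassA4.lean

-- ===== PACK-BEGIN LT/T7/H237/QA2.lean
section



/-!
# Row LT, tower T7, sub-tower QOUT: leaf `QA2` (torus eigen-projection) -- helper237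

OFF-MAIN.  Proves `Fermat.Agent.LT.H670.QOut.QA2` (frozen in `H670/QOut/SpecA.lean`)
unconditionally: `qa2_237 : QA2`.

Given a form `φ₁` of level `U(N)` (`IsLevelForm N a b φ₁`), the eigen-projection
`φ₂(g) = Σ_t ψ₁(t₁)⁻¹ ψ₂(t₂)⁻¹ φ₁(g t̃)` over `t ∈ (ℤ/N)ˣ × (ℤ/N)ˣ` is again a form of level
`U(N)` with the same Hecke eigenvalues at `p ∤ N`, it is `(ψ₁, ψ₂)`-equivariant under the
integral matrices congruent to a diagonal matrix mod `N` (`TorusEquiv`), and for some
`(ψ₁, ψ₂)` it keeps the base point (orthogonality of Dirichlet characters).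

* Part A: `A0.idealClosure (lvl N) v` is the closed ball of radius `|N|_v` in `ℚ_v`.
* Part B: components of elements of `GL₂(𝔸_ℚ)`, extensionality, commutation lemmas.
* Part C: matrices over `ℚ_v` modulo `N`; `DiagMod` is multiplicative.
* Part D: the lift `lel237 N n₁ n₂` (`diag(n₁, n₂)` at the places dividing `N`, `1` elsewhere).
* Part E: the predicate `Tor237 N t u` (`u ≡ t` mod `N`) and its group properties.
* Part F: the projection, its properties and the leaf.
-/

set_option autoImplicit false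

open IsDedekindDomain NumberField AutomorphicForm
open scoped MatrixGroups

noncomputable section

namespace Fermat.Agent.LT.T7.H237

open Fermat.Agent.LT.H556 Fermat.Agent.LT.H670.QOut

/-! ## Part A: the closure of `(N)` in `ℚ_v` is the closed ball of radius `|N|_v` -/

theorem natCast_eq_algebraMap237 (v : HeightOneSpectrum (𝓞 ℚ)) (n : ℕ) :
    ((n : ℕ) : v.adicCompletion ℚ)
      = algebraMap ℚ (v.adicCompletion ℚ) (algebraMap (𝓞 ℚ) ℚ ((n : ℕ) : 𝓞 ℚ)) := by
  rw [map_natCast, map_natCast]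

theorem intCast_eq_algebraMap237 (v : HeightOneSpectrum (𝓞 ℚ)) (n : ℤ) :
    ((n : ℤ) : v.adicCompletion ℚ)
      = algebraMap ℚ (v.adicCompletion ℚ) (algebraMap (𝓞 ℚ) ℚ ((n : ℤ) : 𝓞 ℚ)) := by
  rw [map_intCast, map_intCast]

theorem valued_algebraMap237 (v : HeightOneSpectrum (𝓞 ℚ)) (k : ℚ) :
    Valued.v (algebraMap ℚ (v.adicCompletion ℚ) k) = v.valuation ℚ k :=
  HeightOneSpectrum.valuedAdicCompletion_eq_valuation' v k

theorem valued_intCast237 (v : HeightOneSpectrum (𝓞 ℚ)) (n : ℤ) :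
    Valued.v ((n : ℤ) : v.adicCompletion ℚ) = v.intValuation ((n : ℤ) : 𝓞 ℚ) := by
  rw [intCast_eq_algebraMap237]
  exact (HeightOneSpectrum.valuedAdicCompletion_eq_valuation' v _).trans
    (HeightOneSpectrum.valuation_of_algebraMap v _)

theorem valued_natCast237 (v : HeightOneSpectrum (𝓞 ℚ)) (n : ℕ) :
    Valued.v ((n : ℕ) : v.adicCompletion ℚ) = v.intValuation ((n : ℕ) : 𝓞 ℚ) := by
  rw [natCast_eq_algebraMap237]
  exact (HeightOneSpectrum.valuedAdicCompletion_eq_valuation' v _).trans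
    (HeightOneSpectrum.valuation_of_algebraMap v _)

theorem valued_intCast_le_one237 (v : HeightOneSpectrum (𝓞 ℚ)) (n : ℤ) :
    Valued.v ((n : ℤ) : v.adicCompletion ℚ) ≤ 1 := by
  rw [valued_intCast237]; exact HeightOneSpectrum.intValuation_le_one v _

theorem valued_natCast_le_one237 (v : HeightOneSpectrum (𝓞 ℚ)) (n : ℕ) :
    Valued.v ((n : ℕ) : v.adicCompletion ℚ) ≤ 1 := by
  rw [valued_natCast237]; exact HeightOneSpectrum.intValuation_le_one v _

theorem valued_natCast_ne_zero237 (v : HeightOneSpectrum (𝓞 ℚ)) (N : ℕ) [NeZero N] :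
    Valued.v ((N : ℕ) : v.adicCompletion ℚ) ≠ 0 := by
  rw [valued_natCast237]
  exact HeightOneSpectrum.intValuation_ne_zero v _ (Nat.cast_ne_zero.2 (NeZero.ne N))

/-- the closed ball of radius `|N|_v` -/
def ball237 (N : ℕ) (v : HeightOneSpectrum (𝓞 ℚ)) : Set (v.adicCompletion ℚ) :=
  {x | Valued.v x ≤ Valued.v ((N : ℕ) : v.adicCompletion ℚ)}

theorem mem_ball_iff237 (N : ℕ) [NeZero N] (v : HeightOneSpectrum (𝓞 ℚ))
    (x : v.adicCompletion ℚ) :
    x ∈ ball237 N v ↔ x * ((N : ℕ) : v.adicCompletion ℚ)⁻¹ ∈ v.adicCompletionIntegers ℚ := by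
  have h0 := valued_natCast_ne_zero237 v N
  rw [HeightOneSpectrum.mem_adicCompletionIntegers, map_mul, map_inv₀]
  show Valued.v x ≤ _ ↔ _
  rw [mul_inv_le_iff₀ (zero_lt_iff.2 h0), one_mul]

theorem isClosed_ball237 (N : ℕ) [NeZero N] (v : HeightOneSpectrum (𝓞 ℚ)) :
    IsClosed (ball237 N v) := by
  have h : ball237 N v
      = (fun x : v.adicCompletion ℚ => x * ((N : ℕ) : v.adicCompletion ℚ)⁻¹) ⁻¹'
        (v.adicCompletionIntegers ℚ : Set (v.adicCompletion ℚ)) := by
    ext x; exact mem_ball_iff237 N v x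
  rw [h]
  exact (Valued.isClosed_valuationSubring (v.adicCompletion ℚ)).preimage
    (continuous_id.mul continuous_const)

theorem idealClosure_subset_ball237 (N : ℕ) [NeZero N] (v : HeightOneSpectrum (𝓞 ℚ)) :
    A0.idealClosure (lvl N) v ⊆ ball237 N v := by
  refine closure_minimal ?_ (isClosed_ball237 N v)
  rintro _ ⟨x, hx, rfl⟩
  rw [SetLike.mem_coe, lvl, Ideal.mem_span_singleton] at hx
  obtain ⟨y, rfl⟩ := hx
  show Valued.v (algebraMap ℚ (v.adicCompletion ℚ) (algebraMap (𝓞 ℚ) ℚ (((N : ℕ) : 𝓞 ℚ) * y)))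
    ≤ Valued.v ((N : ℕ) : v.adicCompletion ℚ)
  rw [map_mul, map_mul, map_mul, map_natCast, map_natCast]
  have hy : Valued.v (algebraMap ℚ (v.adicCompletion ℚ) (algebraMap (𝓞 ℚ) ℚ y)) ≤ 1 := by
    rw [valued_algebraMap237, HeightOneSpectrum.valuation_of_algebraMap]
    exact HeightOneSpectrum.intValuation_le_one v y
  calc Valued.v ((N : ℕ) : v.adicCompletion ℚ) * Valued.v _
      ≤ Valued.v ((N : ℕ) : v.adicCompletion ℚ) * 1 := by gcongr
    _ = _ := mul_one _

theorem ball_subset_idealClosure237 (N : ℕ) [NeZero N] (v : HeightOneSpectrum (𝓞 ℚ)) :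
    ball237 N v ⊆ A0.idealClosure (lvl N) v := by
  intro x hx
  have h0 : ((N : ℕ) : v.adicCompletion ℚ) ≠ 0 := by
    intro h; exact valued_natCast_ne_zero237 v N (by rw [h, map_zero])
  -- the set of `y` with `N y` in the closure
  set S : Set (v.adicCompletion ℚ) :=
    (fun y : v.adicCompletion ℚ => ((N : ℕ) : v.adicCompletion ℚ) * y) ⁻¹'
      (A0.idealClosure (lvl N) v) with hS
  have hSclosed : IsClosed S :=
    (isClosed_closure).preimage (continuous_const.mul continuous_id)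
  have hdense : Dense (Set.range (algebraMap ℚ (v.adicCompletion ℚ))) :=
    HeightOneSpectrum.denseRange_algebraMap (R := 𝓞 ℚ) (K := ℚ) v
  have hopen : IsOpen (v.adicCompletionIntegers ℚ : Set (v.adicCompletion ℚ)) :=
    Valued.isOpen_valuationSubring (v.adicCompletion ℚ)
  have hsub : (v.adicCompletionIntegers ℚ : Set (v.adicCompletion ℚ)) ∩
      Set.range (algebraMap ℚ (v.adicCompletion ℚ)) ⊆ S := by
    rintro _ ⟨hk, k, rfl⟩
    have hk' : v.valuation ℚ k ≤ 1 := by
      rw [← valued_algebraMap237 v k]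
      exact hk
    have hN : ((N : ℕ) : 𝓞 ℚ) ∈ lvl N := Ideal.subset_span rfl
    have := T0.mul_mem_idealClosure (lvl N) v hN hk'
    show ((N : ℕ) : v.adicCompletion ℚ) * algebraMap ℚ (v.adicCompletion ℚ) k
      ∈ A0.idealClosure (lvl N) v
    rw [map_mul, map_natCast, map_natCast] at this
    exact this
  have hint : (v.adicCompletionIntegers ℚ : Set (v.adicCompletion ℚ)) ⊆ S :=
    (hdense.open_subset_closure_inter hopen).trans (closure_minimal hsub hSclosed)
  have hx' := hint ((mem_ball_iff237 N v x).1 hx)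
  have : ((N : ℕ) : v.adicCompletion ℚ) * (x * ((N : ℕ) : v.adicCompletion ℚ)⁻¹) = x := by
    field_simp
  rw [hS, Set.mem_preimage, this] at hx'
  exact hx'

theorem mem_idealClosure_iff237 (N : ℕ) [NeZero N] (v : HeightOneSpectrum (𝓞 ℚ))
    (x : v.adicCompletion ℚ) :
    x ∈ A0.idealClosure (lvl N) v ↔ Valued.v x ≤ Valued.v ((N : ℕ) : v.adicCompletion ℚ) :=
  ⟨fun h => idealClosure_subset_ball237 N v h, fun h => ball_subset_idealClosure237 N v h⟩

/-! ## Part B: components of adelic matrices -/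

/-- the raw matrix of `g` at the infinite place `w` -/
def infRaw237 (w : InfinitePlace ℚ) (g : A0.G ℚ) : Matrix (Fin 2) (Fin 2) w.Completion :=
  fun i j => ((g : Matrix (Fin 2) (Fin 2) (A0.Adl ℚ)) i j).1 w

theorem trivAtInf_iff237 (w : InfinitePlace ℚ) (g : A0.G ℚ) :
    A0.TrivAtInf w g ↔ infRaw237 w g = 1 :=
  ⟨fun h => Matrix.ext h, fun h i j => congrFun (congrFun h i) j⟩

theorem infRaw_mul237 (w : InfinitePlace ℚ) (g h : A0.G ℚ) :
    infRaw237 w (g * h) = infRaw237 w g * infRaw237 w h := by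
  refine Matrix.ext fun i j => ?_
  simp only [infRaw237, Units.val_mul, Matrix.mul_apply, Fin.sum_univ_two]
  rfl

theorem finComp_mul237 (v : HeightOneSpectrum (𝓞 ℚ)) (g h : A0.G ℚ) :
    A0.finComp v (g * h) = A0.finComp v g * A0.finComp v h := by
  refine Matrix.ext fun i j => ?_
  simp only [A0.finComp, Units.val_mul, Matrix.mul_apply, Fin.sum_univ_two]
  rfl

theorem infRaw_one237 (w : InfinitePlace ℚ) : infRaw237 w (1 : A0.G ℚ) = 1 := by
  refine Matrix.ext fun i j => ?_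
  show ((1 : Matrix (Fin 2) (Fin 2) (A0.Adl ℚ)) i j).1 w = _
  by_cases hij : i = j <;> simp [Matrix.one_apply, hij] <;> rfl

theorem finComp_one237 (v : HeightOneSpectrum (𝓞 ℚ)) : A0.finComp v (1 : A0.G ℚ) = 1 := by
  refine Matrix.ext fun i j => ?_
  show ((1 : Matrix (Fin 2) (Fin 2) (A0.Adl ℚ)) i j).2 v = _
  by_cases hij : i = j <;> simp [Matrix.one_apply, hij] <;> rfl

theorem ext_G237 {g h : A0.G ℚ} (h1 : ∀ w, infRaw237 w g = infRaw237 w h)
    (h2 : ∀ v, A0.finComp v g = A0.finComp v h) : g = h := by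
  apply Units.ext
  refine Matrix.ext fun i j => ?_
  refine Prod.ext ?_ ?_
  · funext w
    exact congrFun (congrFun (h1 w) i) j
  · refine FiniteAdeleRing.ext ℚ fun v => ?_
    exact congrFun (congrFun (h2 v) i) j

theorem finComp_inv_mul237 (v : HeightOneSpectrum (𝓞 ℚ)) (g : A0.G ℚ) :
    A0.finComp v g⁻¹ * A0.finComp v g = 1 := by
  rw [← finComp_mul237, inv_mul_cancel, finComp_one237]

theorem finComp_mul_inv237 (v : HeightOneSpectrum (𝓞 ℚ)) (g : A0.G ℚ) :
    A0.finComp v g * A0.finComp v g⁻¹ = 1 := by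
  rw [← finComp_mul237, mul_inv_cancel, finComp_one237]

theorem trivAtInf_mul237 {g h : A0.G ℚ} (hg : ∀ w, A0.TrivAtInf w g)
    (hh : ∀ w, A0.TrivAtInf w h) : ∀ w, A0.TrivAtInf w (g * h) := by
  intro w
  rw [trivAtInf_iff237, infRaw_mul237, (trivAtInf_iff237 w g).1 (hg w),
    (trivAtInf_iff237 w h).1 (hh w), one_mul]

theorem trivAtInf_one237 : ∀ w, A0.TrivAtInf w (1 : A0.G ℚ) := fun w =>
  (trivAtInf_iff237 w 1).2 (infRaw_one237 w)

theorem trivAtInf_inv237 {g : A0.G ℚ} (hg : ∀ w, A0.TrivAtInf w g) :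
    ∀ w, A0.TrivAtInf w g⁻¹ := by
  intro w
  rw [trivAtInf_iff237]
  have h := infRaw_mul237 w g⁻¹ g
  rw [inv_mul_cancel, infRaw_one237, (trivAtInf_iff237 w g).1 (hg w), mul_one] at h
  exact h.symm

/-- elements trivial at the real place commute with elements at the real place -/
theorem comm_locInf237 (m : GL (Fin 2) ℝ) {u : A0.G ℚ} (hu : ∀ w, A0.TrivAtInf w u) :
    locInf m * u = u * locInf m := by
  refine ext_G237 (fun w => ?_) (fun v => ?_)
  · rw [infRaw_mul237, infRaw_mul237, (trivAtInf_iff237 w u).1 (hu w), mul_one, one_mul]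
  · rw [finComp_mul237, finComp_mul237, finComp_locInf, mul_one, one_mul]

/-- an element supported at `v` commutes with an element trivial at `v` and at the real place -/
theorem comm_of_local237 {v : HeightOneSpectrum (𝓞 ℚ)} {h u : A0.G ℚ}
    (hh : A0.IsLocalAtFin v h) (hu : ∀ w, A0.TrivAtInf w u) (huv : A0.TrivAtFin v u) :
    h * u = u * h := by
  refine ext_G237 (fun w => ?_) (fun v' => ?_)
  · rw [infRaw_mul237, infRaw_mul237, (trivAtInf_iff237 w u).1 (hu w),
      (trivAtInf_iff237 w h).1 (hh.1 w)]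
  · rw [finComp_mul237, finComp_mul237]
    by_cases hv : v' = v
    · subst hv
      have : A0.finComp v' u = 1 := huv
      rw [this, mul_one, one_mul]
    · have : A0.finComp v' h = 1 := hh.2 v' hv
      rw [this, mul_one, one_mul]

/-! ## Part C: matrices over `ℚ_v` modulo `N` -/

/-- all entries have valuation at most `|N|_v` -/
def MatIn237 (N : ℕ) (v : HeightOneSpectrum (𝓞 ℚ))
    (A : Matrix (Fin 2) (Fin 2) (v.adicCompletion ℚ)) : Prop :=
  ∀ i j, Valued.v (A i j) ≤ Valued.v ((N : ℕ) : v.adicCompletion ℚ)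

/-- all entries are integral -/
def MatInt237 (v : HeightOneSpectrum (𝓞 ℚ))
    (A : Matrix (Fin 2) (Fin 2) (v.adicCompletion ℚ)) : Prop :=
  ∀ i j, Valued.v (A i j) ≤ 1

variable {N : ℕ} {v : HeightOneSpectrum (𝓞 ℚ)}
  {A B : Matrix (Fin 2) (Fin 2) (v.adicCompletion ℚ)}

theorem MatIn237.matInt (h : MatIn237 N v A) : MatInt237 v A := fun i j =>
  (h i j).trans (valued_natCast_le_one237 v N)

theorem MatIn237.add (hA : MatIn237 N v A) (hB : MatIn237 N v B) : MatIn237 N v (A + B) :=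
  fun i j => Valuation.map_add_le _ (hA i j) (hB i j)

theorem MatIn237.sub (hA : MatIn237 N v A) (hB : MatIn237 N v B) : MatIn237 N v (A - B) :=
  fun i j => Valuation.map_sub_le _ (hA i j) (hB i j)

theorem MatInt237.add (hA : MatInt237 v A) (hB : MatInt237 v B) : MatInt237 v (A + B) :=
  fun i j => Valuation.map_add_le _ (hA i j) (hB i j)

theorem MatIn237.mul_int (hA : MatIn237 N v A) (hB : MatInt237 v B) : MatIn237 N v (A * B) := by
  intro i j
  rw [Matrix.mul_apply, Fin.sum_univ_two]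
  refine Valuation.map_add_le _ ?_ ?_
  · rw [map_mul]
    calc Valued.v (A i 0) * Valued.v (B 0 j) ≤ Valued.v ((N : ℕ) : v.adicCompletion ℚ) * 1 :=
          mul_le_mul' (hA i 0) (hB 0 j)
      _ = _ := mul_one _
  · rw [map_mul]
    calc Valued.v (A i 1) * Valued.v (B 1 j) ≤ Valued.v ((N : ℕ) : v.adicCompletion ℚ) * 1 :=
          mul_le_mul' (hA i 1) (hB 1 j)
      _ = _ := mul_one _

theorem MatInt237.mul_in (hA : MatInt237 v A) (hB : MatIn237 N v B) : MatIn237 N v (A * B) := by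
  intro i j
  rw [Matrix.mul_apply, Fin.sum_univ_two]
  refine Valuation.map_add_le _ ?_ ?_
  · rw [map_mul]
    calc Valued.v (A i 0) * Valued.v (B 0 j) ≤ 1 * Valued.v ((N : ℕ) : v.adicCompletion ℚ) :=
          mul_le_mul' (hA i 0) (hB 0 j)
      _ = _ := one_mul _
  · rw [map_mul]
    calc Valued.v (A i 1) * Valued.v (B 1 j) ≤ 1 * Valued.v ((N : ℕ) : v.adicCompletion ℚ) :=
          mul_le_mul' (hA i 1) (hB 1 j)
      _ = _ := one_mul _

/-- the diagonal matrix of `DiagMod` -/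
abbrev dg237 (v : HeightOneSpectrum (𝓞 ℚ)) (a d : ℤ) :
    Matrix (Fin 2) (Fin 2) (v.adicCompletion ℚ) :=
  Matrix.diagonal ![((a : ℤ) : v.adicCompletion ℚ), ((d : ℤ) : v.adicCompletion ℚ)]

theorem matInt_dg237 (v : HeightOneSpectrum (𝓞 ℚ)) (a d : ℤ) : MatInt237 v (dg237 v a d) := by
  intro i j
  fin_cases i <;> fin_cases j <;> simp [dg237, valued_intCast_le_one237]

theorem dg_mul237 (v : HeightOneSpectrum (𝓞 ℚ)) (a d a' d' : ℤ) :
    dg237 v a d * dg237 v a' d' = dg237 v (a * a') (d * d') := by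
  rw [dg237, dg237, dg237, Matrix.diagonal_mul_diagonal]
  congr 1
  funext i
  fin_cases i <;> simp

theorem dg_one237 (v : HeightOneSpectrum (𝓞 ℚ)) : dg237 v 1 1 = 1 := by
  rw [dg237, ← Matrix.diagonal_one]
  congr 1
  funext i
  fin_cases i <;> simp

theorem matIn_dg_sub237 (N : ℕ) (v : HeightOneSpectrum (𝓞 ℚ)) {a d a₂ d₂ : ℤ}
    (ha : (N : ℤ) ∣ a - a₂) (hd : (N : ℤ) ∣ d - d₂) :
    MatIn237 N v (dg237 v a d - dg237 v a₂ d₂) := by
  have key : ∀ x y : ℤ, (N : ℤ) ∣ x - y →
      Valued.v (((x : ℤ) : v.adicCompletion ℚ) - ((y : ℤ) : v.adicCompletion ℚ))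
        ≤ Valued.v ((N : ℕ) : v.adicCompletion ℚ) := by
    rintro x y ⟨k, hk⟩
    rw [← Int.cast_sub, hk, Int.cast_mul, map_mul, Int.cast_natCast]
    calc Valued.v ((N : ℕ) : v.adicCompletion ℚ) * Valued.v ((k : ℤ) : v.adicCompletion ℚ)
        ≤ Valued.v ((N : ℕ) : v.adicCompletion ℚ) * 1 :=
          mul_le_mul' le_rfl (valued_intCast_le_one237 v k)
      _ = _ := mul_one _
  intro i j
  fin_cases i <;> fin_cases j <;> simp [dg237, key _ _ ha, key _ _ hd]

theorem diagMod_iff237 (N : ℕ) [NeZero N] (a d : ℤ) (u : A0.G ℚ) :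
    DiagMod N a d u ↔ (∀ w, A0.TrivAtInf w u) ∧
      ∀ v, MatIn237 N v (A0.finComp v u - dg237 v a d) := by
  unfold DiagMod MatIn237
  refine and_congr Iff.rfl (forall_congr' fun v => forall_congr' fun i => forall_congr' fun j => ?_)
  exact mem_idealClosure_iff237 N v _

theorem matInt_of_diagMod237 {N : ℕ} [NeZero N] {a d : ℤ} {u : A0.G ℚ} (h : DiagMod N a d u)
    (v : HeightOneSpectrum (𝓞 ℚ)) : MatInt237 v (A0.finComp v u) := by
  have h1 := (((diagMod_iff237 N a d u).1 h).2 v).matInt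
  have h2 := h1.add (matInt_dg237 v a d)
  rwa [sub_add_cancel] at h2

theorem diagMod_mul237 {N : ℕ} [NeZero N] {a d a' d' : ℤ} {u u' : A0.G ℚ}
    (h : DiagMod N a d u) (h' : DiagMod N a' d' u') :
    DiagMod N (a * a') (d * d') (u * u') := by
  rw [diagMod_iff237] at h h' ⊢
  refine ⟨trivAtInf_mul237 h.1 h'.1, fun v => ?_⟩
  have e : A0.finComp v (u * u') - dg237 v (a * a') (d * d')
      = (A0.finComp v u - dg237 v a d) * A0.finComp v u'
        + dg237 v a d * (A0.finComp v u' - dg237 v a' d') := by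
    rw [finComp_mul237, ← dg_mul237]
    noncomm_ring
  rw [e]
  exact ((h.2 v).mul_int (matInt_of_diagMod237 ((diagMod_iff237 N a' d' u').2 h') v)).add
    ((matInt_dg237 v a d).mul_in (h'.2 v))

theorem diagMod_congr237 {N : ℕ} [NeZero N] {a d a₂ d₂ : ℤ} {u : A0.G ℚ}
    (h : DiagMod N a d u) (ha : (N : ℤ) ∣ a - a₂) (hd : (N : ℤ) ∣ d - d₂) :
    DiagMod N a₂ d₂ u := by
  rw [diagMod_iff237] at h ⊢
  refine ⟨h.1, fun v => ?_⟩
  have e : A0.finComp v u - dg237 v a₂ d₂
      = (A0.finComp v u - dg237 v a d) + (dg237 v a d - dg237 v a₂ d₂) := by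
    abel
  rw [e]
  exact (h.2 v).add (matIn_dg_sub237 N v ha hd)

theorem inLevelGroup_iff237 (N : ℕ) [NeZero N] (u : A0.G ℚ) :
    A0.InLevelGroup (lvl N) u ↔ DiagMod N 1 1 u ∧ DiagMod N 1 1 u⁻¹ := by
  rw [diagMod_iff237, diagMod_iff237]
  unfold A0.InLevelGroup
  constructor
  · rintro ⟨h1, h2⟩
    refine ⟨⟨h1, fun v i j => ?_⟩, ⟨trivAtInf_inv237 h1, fun v i j => ?_⟩⟩
    · rw [dg_one237]; exact (mem_idealClosure_iff237 N v _).1 (h2 v i j).1
    · rw [dg_one237]; exact (mem_idealClosure_iff237 N v _).1 (h2 v i j).2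
  · rintro ⟨⟨h1, h2⟩, ⟨-, h3⟩⟩
    refine ⟨h1, fun v i j => ⟨?_, ?_⟩⟩
    · have := h2 v i j
      rw [dg_one237] at this
      exact (mem_idealClosure_iff237 N v _).2 this
    · have := h3 v i j
      rw [dg_one237] at this
      exact (mem_idealClosure_iff237 N v _).2 this

/-! ## Part D: the diagonal lift of a torus element -/

theorem valued_natCast_eq_one_iff237 (v : HeightOneSpectrum (𝓞 ℚ)) (n : ℕ) :
    Valued.v ((n : ℕ) : v.adicCompletion ℚ) = 1 ↔ ((n : ℕ) : 𝓞 ℚ) ∉ v.asIdeal := by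
  rw [valued_natCast237]
  exact HeightOneSpectrum.intValuation_eq_one_iff

theorem valued_eq_one_of_coprime237 {N n : ℕ} (hc : n.Coprime N)
    (v : HeightOneSpectrum (𝓞 ℚ)) (hv : ((N : ℕ) : 𝓞 ℚ) ∈ v.asIdeal) :
    Valued.v ((n : ℕ) : v.adicCompletion ℚ) = 1 := by
  rw [valued_natCast_eq_one_iff237]
  intro hn
  obtain ⟨x, y, hxy⟩ := Nat.isCoprime_iff_coprime.2 hc
  have h1 : ((x : ℤ) : 𝓞 ℚ) * ((n : ℕ) : 𝓞 ℚ) + ((y : ℤ) : 𝓞 ℚ) * ((N : ℕ) : 𝓞 ℚ) = 1 := by
    have := congrArg (Int.cast : ℤ → 𝓞 ℚ) hxy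
    push_cast at this
    exact this
  have h2 : (1 : 𝓞 ℚ) ∈ v.asIdeal := by
    rw [← h1]
    exact Ideal.add_mem _ (Ideal.mul_mem_left _ _ hn) (Ideal.mul_mem_left _ _ hv)
  exact v.isPrime.ne_top ((Ideal.eq_top_iff_one _).2 h2)

open Classical in
/-- the component at `v` of the lift of `n`: `n` at the places dividing `N` (where `n` is a
unit), `1` elsewhere -/
def cmp237 (N n : ℕ) (v : HeightOneSpectrum (𝓞 ℚ)) : v.adicCompletion ℚ :=
  if ((N : ℕ) : 𝓞 ℚ) ∈ v.asIdeal ∧ Valued.v ((n : ℕ) : v.adicCompletion ℚ) = 1 then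
    ((n : ℕ) : v.adicCompletion ℚ) else 1

theorem valued_cmp237 (N n : ℕ) (v : HeightOneSpectrum (𝓞 ℚ)) :
    Valued.v (cmp237 N n v) = 1 := by
  unfold cmp237
  split_ifs with h
  · exact h.2
  · exact map_one _

theorem cmp_ne_zero237 (N n : ℕ) (v : HeightOneSpectrum (𝓞 ℚ)) : cmp237 N n v ≠ 0 := by
  intro h
  have := valued_cmp237 N n v
  rw [h, map_zero] at this
  exact zero_ne_one this

theorem cmp_of_mem237 {N n : ℕ} (hc : n.Coprime N) (v : HeightOneSpectrum (𝓞 ℚ))
    (hv : ((N : ℕ) : 𝓞 ℚ) ∈ v.asIdeal) : cmp237 N n v = ((n : ℕ) : v.adicCompletion ℚ) := by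
  unfold cmp237
  rw [if_pos ⟨hv, valued_eq_one_of_coprime237 hc v hv⟩]

theorem cmp_of_notMem237 (N n : ℕ) (v : HeightOneSpectrum (𝓞 ℚ))
    (hv : ((N : ℕ) : 𝓞 ℚ) ∉ v.asIdeal) : cmp237 N n v = 1 := by
  unfold cmp237
  rw [if_neg (fun h => hv h.1)]

/-- the finite adele of the lift of `n` -/
def ad237 (N n : ℕ) : Afin :=
  RestrictedProduct.mk (cmp237 N n) (Filter.Eventually.of_forall fun v =>
    (HeightOneSpectrum.mem_adicCompletionIntegers (𝓞 ℚ) ℚ v).2 (valued_cmp237 N n v).le)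

/-- the inverse finite adele -/
def adInv237 (N n : ℕ) : Afin :=
  RestrictedProduct.mk (fun v => (cmp237 N n v)⁻¹) (Filter.Eventually.of_forall fun v =>
    (HeightOneSpectrum.mem_adicCompletionIntegers (𝓞 ℚ) ℚ v).2 (by
      rw [map_inv₀, valued_cmp237, inv_one]))

theorem ad_apply237 (N n : ℕ) (v : HeightOneSpectrum (𝓞 ℚ)) : ad237 N n v = cmp237 N n v := rfl

theorem adInv_apply237 (N n : ℕ) (v : HeightOneSpectrum (𝓞 ℚ)) :
    adInv237 N n v = (cmp237 N n v)⁻¹ := rfl

theorem ad_mul_adInv237 (N n : ℕ) : ad237 N n * adInv237 N n = 1 := by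
  refine FiniteAdeleRing.ext ℚ fun v => ?_
  rw [afin_mul_apply, afin_one_apply, ad_apply237, adInv_apply237]
  exact mul_inv_cancel₀ (cmp_ne_zero237 N n v)

theorem adInv_mul_ad237 (N n : ℕ) : adInv237 N n * ad237 N n = 1 := by
  rw [mul_comm]; exact ad_mul_adInv237 N n

/-- the matrix of the lift -/
def lmat237 (N n₁ n₂ : ℕ) : Matrix (Fin 2) (Fin 2) (A0.Adl ℚ) :=
  pairMat 1 (Matrix.diagonal ![ad237 N n₁, ad237 N n₂])

/-- the matrix of the inverse of the lift -/
def lmatInv237 (N n₁ n₂ : ℕ) : Matrix (Fin 2) (Fin 2) (A0.Adl ℚ) :=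
  pairMat 1 (Matrix.diagonal ![adInv237 N n₁, adInv237 N n₂])

theorem lmat_mul_inv237 (N n₁ n₂ : ℕ) : lmat237 N n₁ n₂ * lmatInv237 N n₁ n₂ = 1 := by
  rw [lmat237, lmatInv237, ← pairMat_mul, one_mul, Matrix.diagonal_mul_diagonal]
  have : (fun i => ![ad237 N n₁, ad237 N n₂] i * ![adInv237 N n₁, adInv237 N n₂] i)
      = fun _ => 1 := by
    funext i
    fin_cases i <;> simp [ad_mul_adInv237]
  rw [this, Matrix.diagonal_one]
  exact pairMat_one

theorem lmat_inv_mul237 (N n₁ n₂ : ℕ) : lmatInv237 N n₁ n₂ * lmat237 N n₁ n₂ = 1 := by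
  rw [lmat237, lmatInv237, ← pairMat_mul, one_mul, Matrix.diagonal_mul_diagonal]
  have : (fun i => ![adInv237 N n₁, adInv237 N n₂] i * ![ad237 N n₁, ad237 N n₂] i)
      = fun _ => 1 := by
    funext i
    fin_cases i <;> simp [adInv_mul_ad237]
  rw [this, Matrix.diagonal_one]
  exact pairMat_one

/-- the lift of `diag(n₁, n₂)`: the element of `GL₂(𝔸_ℚ)` with component `diag(n₁, n₂)` at the
places dividing `N` and `1` at all other places -/
def lel237 (N n₁ n₂ : ℕ) : A0.G ℚ :=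
  ⟨lmat237 N n₁ n₂, lmatInv237 N n₁ n₂, lmat_mul_inv237 N n₁ n₂, lmat_inv_mul237 N n₁ n₂⟩

theorem finComp_lel237 (N n₁ n₂ : ℕ) (v : HeightOneSpectrum (𝓞 ℚ)) :
    A0.finComp v (lel237 N n₁ n₂) = Matrix.diagonal ![cmp237 N n₁ v, cmp237 N n₂ v] := by
  refine Matrix.ext fun i j => ?_
  show (Matrix.diagonal ![ad237 N n₁, ad237 N n₂] i j) v = _
  fin_cases i <;> fin_cases j <;> simp [ad_apply237, afin_zero_apply]

theorem finComp_lel_inv237 (N n₁ n₂ : ℕ) (v : HeightOneSpectrum (𝓞 ℚ)) :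
    A0.finComp v (lel237 N n₁ n₂)⁻¹
      = Matrix.diagonal ![(cmp237 N n₁ v)⁻¹, (cmp237 N n₂ v)⁻¹] := by
  refine Matrix.ext fun i j => ?_
  show (Matrix.diagonal ![adInv237 N n₁, adInv237 N n₂] i j) v = _
  fin_cases i <;> fin_cases j <;> simp [adInv_apply237, afin_zero_apply]

theorem trivAtInf_lel237 (N n₁ n₂ : ℕ) (w : InfinitePlace ℚ) :
    A0.TrivAtInf w (lel237 N n₁ n₂) := by
  intro i j
  show ((1 : Matrix (Fin 2) (Fin 2) Ainf) i j) w = _
  by_cases hij : i = j <;> simp [Matrix.one_apply, hij] <;> rfl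

theorem trivAtFin_lel237 (N n₁ n₂ : ℕ) (v : HeightOneSpectrum (𝓞 ℚ))
    (hv : ((N : ℕ) : 𝓞 ℚ) ∉ v.asIdeal) : A0.TrivAtFin v (lel237 N n₁ n₂) := by
  show A0.finComp v _ = 1
  rw [finComp_lel237, cmp_of_notMem237 N n₁ v hv, cmp_of_notMem237 N n₂ v hv,
    ← Matrix.diagonal_one]
  congr 1
  funext i
  fin_cases i <;> simp

theorem valued_N_eq_one237 (N : ℕ) (v : HeightOneSpectrum (𝓞 ℚ))
    (hv : ((N : ℕ) : 𝓞 ℚ) ∉ v.asIdeal) : Valued.v ((N : ℕ) : v.adicCompletion ℚ) = 1 :=
  (valued_natCast_eq_one_iff237 v N).2 hv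

theorem cmp_sub237 {N n : ℕ} (hc : n.Coprime N) (v : HeightOneSpectrum (𝓞 ℚ)) :
    Valued.v (cmp237 N n v - (((n : ℕ) : ℤ) : v.adicCompletion ℚ))
      ≤ Valued.v ((N : ℕ) : v.adicCompletion ℚ) := by
  by_cases hv : ((N : ℕ) : 𝓞 ℚ) ∈ v.asIdeal
  · rw [cmp_of_mem237 hc v hv, Int.cast_natCast, sub_self, map_zero]
    exact zero_le
  · rw [cmp_of_notMem237 N n v hv, valued_N_eq_one237 N v hv]
    have : (1 : v.adicCompletion ℚ) - (((n : ℕ) : ℤ) : v.adicCompletion ℚ)
        = (((1 - (n : ℤ) : ℤ)) : v.adicCompletion ℚ) := by push_cast; rfl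
    rw [this]
    exact valued_intCast_le_one237 v _

theorem cmp_inv_sub237 {N n : ℕ} (hc : n.Coprime N) {n' : ℤ}
    (h : (N : ℤ) ∣ (n : ℤ) * n' - 1) (v : HeightOneSpectrum (𝓞 ℚ)) :
    Valued.v ((cmp237 N n v)⁻¹ - ((n' : ℤ) : v.adicCompletion ℚ))
      ≤ Valued.v ((N : ℕ) : v.adicCompletion ℚ) := by
  by_cases hv : ((N : ℕ) : 𝓞 ℚ) ∈ v.asIdeal
  · have h1 := valued_eq_one_of_coprime237 hc v hv
    have hne : ((n : ℕ) : v.adicCompletion ℚ) ≠ 0 := by
      intro h0; rw [h0, map_zero] at h1; exact zero_ne_one h1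
    rw [cmp_of_mem237 hc v hv]
    have e : ((n : ℕ) : v.adicCompletion ℚ)⁻¹ - ((n' : ℤ) : v.adicCompletion ℚ)
        = -(((n : ℕ) : v.adicCompletion ℚ)⁻¹ *
            ((((n : ℤ) * n' - 1 : ℤ)) : v.adicCompletion ℚ)) := by
      push_cast
      field_simp
      ring
    rw [e, Valuation.map_neg, map_mul, map_inv₀, h1, inv_one, one_mul]
    obtain ⟨k, hk⟩ := h
    rw [hk, Int.cast_mul, map_mul, Int.cast_natCast]
    calc Valued.v ((N : ℕ) : v.adicCompletion ℚ) * Valued.v ((k : ℤ) : v.adicCompletion ℚ)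
        ≤ Valued.v ((N : ℕ) : v.adicCompletion ℚ) * 1 :=
          mul_le_mul' le_rfl (valued_intCast_le_one237 v k)
      _ = _ := mul_one _
  · rw [cmp_of_notMem237 N n v hv, valued_N_eq_one237 N v hv, inv_one]
    have : (1 : v.adicCompletion ℚ) - ((n' : ℤ) : v.adicCompletion ℚ)
        = (((1 - n' : ℤ)) : v.adicCompletion ℚ) := by push_cast; rfl
    rw [this]
    exact valued_intCast_le_one237 v _

theorem diagMod_lel237 {N n₁ n₂ : ℕ} [NeZero N] (h₁ : n₁.Coprime N) (h₂ : n₂.Coprime N) :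
    DiagMod N ((n₁ : ℕ) : ℤ) ((n₂ : ℕ) : ℤ) (lel237 N n₁ n₂) := by
  rw [diagMod_iff237]
  refine ⟨trivAtInf_lel237 N n₁ n₂, fun v i j => ?_⟩
  rw [finComp_lel237]
  fin_cases i <;> fin_cases j
  · simpa [dg237] using cmp_sub237 h₁ v
  · simp [dg237]
  · simp [dg237]
  · simpa [dg237] using cmp_sub237 h₂ v

theorem diagMod_lel_inv237 {N n₁ n₂ : ℕ} [NeZero N] (h₁ : n₁.Coprime N) (h₂ : n₂.Coprime N)
    {n₁' n₂' : ℤ} (e₁ : (N : ℤ) ∣ (n₁ : ℤ) * n₁' - 1) (e₂ : (N : ℤ) ∣ (n₂ : ℤ) * n₂' - 1) :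
    DiagMod N n₁' n₂' (lel237 N n₁ n₂)⁻¹ := by
  rw [diagMod_iff237]
  refine ⟨trivAtInf_inv237 (trivAtInf_lel237 N n₁ n₂), fun v i j => ?_⟩
  rw [finComp_lel_inv237]
  fin_cases i <;> fin_cases j
  · simpa [dg237] using cmp_inv_sub237 h₁ e₁ v
  · simp [dg237]
  · simp [dg237]
  · simpa [dg237] using cmp_inv_sub237 h₂ e₂ v

/-! ## Part E: the torus mod `N` -/

/-- `u` is integral, trivial at the real place, and congruent mod `N` to the diagonal element
`t` of the torus `(ℤ/N)ˣ × (ℤ/N)ˣ` -/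
def Tor237 (N : ℕ) (t : (ZMod N)ˣ × (ZMod N)ˣ) (u : A0.G ℚ) : Prop :=
  ∃ a d a' d' : ℤ, ((a : ℤ) : ZMod N) = ((t.1 : (ZMod N)ˣ) : ZMod N) ∧
    ((d : ℤ) : ZMod N) = ((t.2 : (ZMod N)ˣ) : ZMod N) ∧
    ((a' : ℤ) : ZMod N) = ((t.1⁻¹ : (ZMod N)ˣ) : ZMod N) ∧
    ((d' : ℤ) : ZMod N) = ((t.2⁻¹ : (ZMod N)ˣ) : ZMod N) ∧
    DiagMod N a d u ∧ DiagMod N a' d' u⁻¹

theorem tor_trivAtInf237 {N : ℕ} {t : (ZMod N)ˣ × (ZMod N)ˣ} {u : A0.G ℚ}
    (h : Tor237 N t u) : ∀ w, A0.TrivAtInf w u := by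
  obtain ⟨a, d, a', d', -, -, -, -, h1, -⟩ := h
  exact h1.1

theorem tor_mul237 {N : ℕ} [NeZero N] {t t' : (ZMod N)ˣ × (ZMod N)ˣ} {u u' : A0.G ℚ}
    (h : Tor237 N t u) (h' : Tor237 N t' u') : Tor237 N (t * t') (u * u') := by
  obtain ⟨a, d, a', d', ha, hd, ha', hd', h1, h2⟩ := h
  obtain ⟨b, e, b', e', hb, he, hb', he', h3, h4⟩ := h'
  refine ⟨a * b, d * e, b' * a', e' * d', ?_, ?_, ?_, ?_, diagMod_mul237 h1 h3, ?_⟩
  · rw [Int.cast_mul, ha, hb, Prod.fst_mul, Units.val_mul]
  · rw [Int.cast_mul, hd, he, Prod.snd_mul, Units.val_mul]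
  · rw [Int.cast_mul, ha', hb', Prod.fst_mul, mul_inv_rev, Units.val_mul]
  · rw [Int.cast_mul, hd', he', Prod.snd_mul, mul_inv_rev, Units.val_mul]
  · rw [mul_inv_rev]
    exact diagMod_mul237 h4 h2

theorem tor_inv237 {N : ℕ} {t : (ZMod N)ˣ × (ZMod N)ˣ} {u : A0.G ℚ}
    (h : Tor237 N t u) : Tor237 N t⁻¹ u⁻¹ := by
  obtain ⟨a, d, a', d', ha, hd, ha', hd', h1, h2⟩ := h
  refine ⟨a', d', a, d, ha', hd', ?_, ?_, h2, ?_⟩
  · rw [ha, Prod.fst_inv, inv_inv]
  · rw [hd, Prod.snd_inv, inv_inv]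
  · rw [inv_inv]; exact h1

theorem inLevelGroup_of_tor_one237 {N : ℕ} [NeZero N] {u : A0.G ℚ}
    (h : Tor237 N 1 u) : A0.InLevelGroup (lvl N) u := by
  obtain ⟨a, d, a', d', ha, hd, ha', hd', h1, h2⟩ := h
  have key : ∀ x : ℤ, ((x : ℤ) : ZMod N) = 1 → (N : ℤ) ∣ x - 1 := by
    intro x hx
    rw [← ZMod.intCast_zmod_eq_zero_iff_dvd]
    push_cast
    rw [hx, sub_self]
  rw [inLevelGroup_iff237]
  refine ⟨diagMod_congr237 h1 (key a ?_) (key d ?_), diagMod_congr237 h2 (key a' ?_) (key d' ?_)⟩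
  · rw [ha]; rfl
  · rw [hd]; rfl
  · rw [ha']; simp
  · rw [hd']; simp

theorem tor_one_of_inLevelGroup237 {N : ℕ} [NeZero N] {u : A0.G ℚ}
    (h : A0.InLevelGroup (lvl N) u) : Tor237 N 1 u := by
  rw [inLevelGroup_iff237] at h
  exact ⟨1, 1, 1, 1, by simp, by simp, by simp, by simp, h.1, h.2⟩

theorem tor_of_diagMod237 {N : ℕ} [NeZero N] {a d a' d' : ℤ} {u : A0.G ℚ}
    (ha : (N : ℤ) ∣ a * a' - 1) (hd : (N : ℤ) ∣ d * d' - 1)
    (h1 : DiagMod N a d u) (h2 : DiagMod N a' d' u⁻¹) :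
    ∃ t : (ZMod N)ˣ × (ZMod N)ˣ, Tor237 N t u ∧
      ((t.1 : (ZMod N)ˣ) : ZMod N) = ((a : ℤ) : ZMod N) ∧
      ((t.2 : (ZMod N)ˣ) : ZMod N) = ((d : ℤ) : ZMod N) := by
  have key : ∀ x y : ℤ, (N : ℤ) ∣ x * y - 1 → ((x : ℤ) : ZMod N) * ((y : ℤ) : ZMod N) = 1 := by
    intro x y hxy
    have := (ZMod.intCast_zmod_eq_zero_iff_dvd (x * y - 1) N).2 hxy
    push_cast at this
    exact sub_eq_zero.1 this
  refine ⟨(⟨((a : ℤ) : ZMod N), ((a' : ℤ) : ZMod N), key a a' ha, by
      rw [mul_comm]; exact key a a' ha⟩,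
    ⟨((d : ℤ) : ZMod N), ((d' : ℤ) : ZMod N), key d d' hd, by
      rw [mul_comm]; exact key d d' hd⟩), ⟨a, d, a', d', rfl, rfl, rfl, rfl, h1, h2⟩, rfl, rfl⟩

/-- the lift of the torus element `t` -/
def lift237 (N : ℕ) (t : (ZMod N)ˣ × (ZMod N)ˣ) : A0.G ℚ :=
  lel237 N ((t.1 : (ZMod N)ˣ) : ZMod N).val ((t.2 : (ZMod N)ˣ) : ZMod N).val

theorem tor_lift237 (N : ℕ) [NeZero N] (t : (ZMod N)ˣ × (ZMod N)ˣ) :
    Tor237 N t (lift237 N t) := by
  have key : ∀ s : (ZMod N)ˣ,
      (N : ℤ) ∣ (((s : ZMod N).val : ℕ) : ℤ) * ((((s⁻¹ : (ZMod N)ˣ) : ZMod N).val : ℕ) : ℤ) - 1 := by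
    intro s
    rw [← ZMod.intCast_zmod_eq_zero_iff_dvd]
    push_cast
    rw [ZMod.natCast_zmod_val, ZMod.natCast_zmod_val, Units.mul_inv, sub_self]
  refine ⟨(((t.1 : ZMod N).val : ℕ) : ℤ), (((t.2 : ZMod N).val : ℕ) : ℤ),
    ((((t.1⁻¹ : (ZMod N)ˣ) : ZMod N).val : ℕ) : ℤ),
    ((((t.2⁻¹ : (ZMod N)ˣ) : ZMod N).val : ℕ) : ℤ), ?_, ?_, ?_, ?_,
    diagMod_lel237 (ZMod.val_coe_unit_coprime t.1) (ZMod.val_coe_unit_coprime t.2),
    diagMod_lel_inv237 (ZMod.val_coe_unit_coprime t.1) (ZMod.val_coe_unit_coprime t.2)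
      (key t.1) (key t.2)⟩
  · rw [Int.cast_natCast, ZMod.natCast_zmod_val]
  · rw [Int.cast_natCast, ZMod.natCast_zmod_val]
  · rw [Int.cast_natCast, ZMod.natCast_zmod_val]
  · rw [Int.cast_natCast, ZMod.natCast_zmod_val]

theorem trivAtFin_lift237 (N : ℕ) (t : (ZMod N)ˣ × (ZMod N)ˣ) (p : Nat.Primes)
    (hp : ¬ (p : ℕ) ∣ N) : A0.TrivAtFin (ratPrime p) (lift237 N t) :=
  trivAtFin_lel237 N _ _ _ (fun h => hp ((natCast_mem_ratPrime_iff p N).1 h))

theorem trivAtInf_lift237 (N : ℕ) (t : (ZMod N)ˣ × (ZMod N)ˣ) :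
    ∀ w, A0.TrivAtInf w (lift237 N t) := trivAtInf_lel237 N _ _

/-! ## Part F: the eigen-projection -/

section Projection

open scoped Manifold
open UpperHalfPlane

variable (N : ℕ) [NeZero N]

/-- the coefficient `ψ₁(t₁)⁻¹ ψ₂(t₂)⁻¹` -/
def coef237 (ψ₁ ψ₂ : DirichletCharacter ℂ N) (t : (ZMod N)ˣ × (ZMod N)ˣ) : ℂ :=
  ψ₁ ((t.1⁻¹ : (ZMod N)ˣ) : ZMod N) * ψ₂ ((t.2⁻¹ : (ZMod N)ˣ) : ZMod N)

/-- the eigen-projection of `φ` under the diagonal torus mod `N` -/
def proj237 (ψ₁ ψ₂ : DirichletCharacter ℂ N) (φ : A0.G ℚ → ℂ) (g : A0.G ℚ) : ℂ :=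
  ∑ t : (ZMod N)ˣ × (ZMod N)ˣ, coef237 N ψ₁ ψ₂ t * φ (g * lift237 N t)

variable {N}
variable {a b : Nat.Primes → ℂ} {φ : A0.G ℚ → ℂ}

/-- absorption: `φ(g u t̃) = φ(g (st)~)` for `u ≡ s` mod `N` -/
theorem absorb237 (h : IsLevelForm N a b φ) {s : (ZMod N)ˣ × (ZMod N)ˣ} {u : A0.G ℚ}
    (hu : Tor237 N s u) (t : (ZMod N)ˣ × (ZMod N)ˣ) (g : A0.G ℚ) :
    φ (g * u * lift237 N t) = φ (g * lift237 N (s * t)) := by
  have hw : A0.InLevelGroup (lvl N) ((lift237 N (s * t))⁻¹ * (u * lift237 N t)) := by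
    apply inLevelGroup_of_tor_one237
    have := tor_mul237 (tor_inv237 (tor_lift237 N (s * t))) (tor_mul237 hu (tor_lift237 N t))
    rwa [inv_mul_cancel] at this
  have := h.level_inv _ hw (g * lift237 N (s * t))
  rw [← this]
  congr 1
  group

omit [NeZero N] in
theorem coef_mul237 (ψ₁ ψ₂ : DirichletCharacter ℂ N) (s t : (ZMod N)ˣ × (ZMod N)ˣ) :
    coef237 N ψ₁ ψ₂ t
      = ψ₁ ((s.1 : (ZMod N)ˣ) : ZMod N) * ψ₂ ((s.2 : (ZMod N)ˣ) : ZMod N)
        * coef237 N ψ₁ ψ₂ (s * t) := by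
  unfold coef237
  have e1 : ψ₁ ((s.1 : (ZMod N)ˣ) : ZMod N) * ψ₁ (((s * t).1⁻¹ : (ZMod N)ˣ) : ZMod N)
      = ψ₁ ((t.1⁻¹ : (ZMod N)ˣ) : ZMod N) := by
    rw [← map_mul, ← Units.val_mul, Prod.fst_mul, mul_inv_rev, mul_comm t.1⁻¹,
      mul_inv_cancel_left]
  have e2 : ψ₂ ((s.2 : (ZMod N)ˣ) : ZMod N) * ψ₂ (((s * t).2⁻¹ : (ZMod N)ˣ) : ZMod N)
      = ψ₂ ((t.2⁻¹ : (ZMod N)ˣ) : ZMod N) := by
    rw [← map_mul, ← Units.val_mul, Prod.snd_mul, mul_inv_rev, mul_comm t.2⁻¹,
      mul_inv_cancel_left]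
  rw [← e1, ← e2]
  ring

theorem torusEquiv_proj237 (h : IsLevelForm N a b φ) (ψ₁ ψ₂ : DirichletCharacter ℂ N) :
    TorusEquiv N ψ₁ ψ₂ (proj237 N ψ₁ ψ₂ φ) := by
  intro a₀ d₀ a' d' u ha hd h1 h2 g
  obtain ⟨s, hs, hs1, hs2⟩ := tor_of_diagMod237 ha hd h1 h2
  unfold proj237
  rw [Finset.mul_sum, ← hs1, ← hs2,
    ← Equiv.sum_comp (Equiv.mulLeft s) (fun t =>
      ψ₁ ((s.1 : (ZMod N)ˣ) : ZMod N) * ψ₂ ((s.2 : (ZMod N)ˣ) : ZMod N) *
        (coef237 N ψ₁ ψ₂ t * φ (g * lift237 N t)))]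
  refine Finset.sum_congr rfl fun t _ => ?_
  rw [absorb237 h hs t g, coef_mul237 ψ₁ ψ₂ s t, Equiv.coe_mulLeft]
  ring

theorem sum_proj237 (h : IsLevelForm N a b φ) (g : A0.G ℚ) :
    ∑ ψ₁ : DirichletCharacter ℂ N, ∑ ψ₂ : DirichletCharacter ℂ N, proj237 N ψ₁ ψ₂ φ g
      = (N.totient : ℂ) * (N.totient : ℂ) * φ g := by
  unfold proj237 coef237
  have step : ∀ ψ₁ : DirichletCharacter ℂ N,
      ∑ ψ₂ : DirichletCharacter ℂ N, ∑ t : (ZMod N)ˣ × (ZMod N)ˣ,
        ψ₁ ((t.1⁻¹ : (ZMod N)ˣ) : ZMod N) * ψ₂ ((t.2⁻¹ : (ZMod N)ˣ) : ZMod N) *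
          φ (g * lift237 N t)
      = ∑ t : (ZMod N)ˣ × (ZMod N)ˣ, ∑ ψ₂ : DirichletCharacter ℂ N,
        ψ₁ ((t.1⁻¹ : (ZMod N)ˣ) : ZMod N) * ψ₂ ((t.2⁻¹ : (ZMod N)ˣ) : ZMod N) *
          φ (g * lift237 N t) := fun ψ₁ => Finset.sum_comm
  simp_rw [step]
  rw [Finset.sum_comm]
  have step2 : ∀ t : (ZMod N)ˣ × (ZMod N)ˣ,
      ∑ ψ₁ : DirichletCharacter ℂ N, ∑ ψ₂ : DirichletCharacter ℂ N,
        ψ₁ ((t.1⁻¹ : (ZMod N)ˣ) : ZMod N) * ψ₂ ((t.2⁻¹ : (ZMod N)ˣ) : ZMod N) *
          φ (g * lift237 N t)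
      = (if ((t.1⁻¹ : (ZMod N)ˣ) : ZMod N) = 1 then (N.totient : ℂ) else 0) *
        (if ((t.2⁻¹ : (ZMod N)ˣ) : ZMod N) = 1 then (N.totient : ℂ) else 0) *
          φ (g * lift237 N t) := by
    intro t
    rw [← DirichletCharacter.sum_characters_eq ℂ, ← DirichletCharacter.sum_characters_eq ℂ,
      Finset.sum_mul_sum, Finset.sum_mul]
    refine Finset.sum_congr rfl fun ψ₁ _ => ?_
    rw [Finset.sum_mul]
  simp_rw [step2]
  rw [Finset.sum_eq_single (1 : (ZMod N)ˣ × (ZMod N)ˣ)]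
  · have hl : φ (g * lift237 N 1) = φ g :=
      h.level_inv _ (inLevelGroup_of_tor_one237 (tor_lift237 N 1)) g
    simp [hl]
  · intro t _ ht
    have : ¬ (((t.1⁻¹ : (ZMod N)ˣ) : ZMod N) = 1 ∧ ((t.2⁻¹ : (ZMod N)ˣ) : ZMod N) = 1) := by
      rintro ⟨h1, h2⟩
      apply ht
      have h1' : t.1⁻¹ = 1 := Units.ext h1
      have h2' : t.2⁻¹ = 1 := Units.ext h2
      exact Prod.ext (inv_eq_one.1 h1') (inv_eq_one.1 h2')
    by_cases h1 : ((t.1⁻¹ : (ZMod N)ˣ) : ZMod N) = 1
    · have h2 : ¬ ((t.2⁻¹ : (ZMod N)ˣ) : ZMod N) = 1 := fun h2 => this ⟨h1, h2⟩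
      rw [if_neg h2, mul_zero, zero_mul]
    · rw [if_neg h1, zero_mul, zero_mul]
  · intro h1
    exact absurd (Finset.mem_univ _) h1

theorem famFn_proj237 (ψ₁ ψ₂ : DirichletCharacter ℂ N) (φ : A0.G ℚ → ℂ) (g : A0.G ℚ) :
    famFn (proj237 N ψ₁ ψ₂ φ) g
      = ∑ t : (ZMod N)ˣ × (ZMod N)ˣ, coef237 N ψ₁ ψ₂ t • famFn φ (g * lift237 N t) := by
  funext z
  rw [Finset.sum_apply]
  unfold famFn proj237
  rw [Finset.mul_sum]
  refine Finset.sum_congr rfl fun t _ => ?_
  rw [Pi.smul_apply, smul_eq_mul, mul_assoc]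
  ring

theorem isLevelForm_proj237 (h : IsLevelForm N a b φ) (ψ₁ ψ₂ : DirichletCharacter ℂ N)
    (hb : ∃ z : ℍ, proj237 N ψ₁ ψ₂ φ (locInf (gzMat z)) ≠ 0) :
    IsLevelForm N a b (proj237 N ψ₁ ψ₂ φ) where
  bdd := by
    obtain ⟨C, hC⟩ := h.bdd
    refine ⟨∑ t : (ZMod N)ˣ × (ZMod N)ˣ, ‖coef237 N ψ₁ ψ₂ t‖ * C, fun g => ?_⟩
    unfold proj237
    refine (norm_sum_le _ _).trans (Finset.sum_le_sum fun t _ => ?_)
    rw [norm_mul]
    exact mul_le_mul_of_nonneg_left (hC _) (norm_nonneg _)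
  left_inv := by
    intro γ g
    unfold proj237
    refine Finset.sum_congr rfl fun t _ => ?_
    rw [mul_assoc, h.left_inv]
  level_inv := by
    intro u hu g
    unfold proj237
    refine Finset.sum_congr rfl fun t _ => ?_
    rw [absorb237 h (tor_one_of_inLevelGroup237 hu) t g, one_mul]
  arch_scalar := by
    intro r hr g
    unfold proj237
    refine Finset.sum_congr rfl fun t _ => ?_
    rw [mul_assoc, comm_locInf237 _ (trivAtInf_lift237 N t), ← mul_assoc, h.arch_scalar]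
  weight_one := by
    intro θ g
    unfold proj237
    rw [Finset.mul_sum]
    refine Finset.sum_congr rfl fun t _ => ?_
    rw [mul_assoc, comm_locInf237 _ (trivAtInf_lift237 N t), ← mul_assoc, h.weight_one]
    ring
  holo := by
    intro g hg
    rw [famFn_proj237]
    refine MDifferentiable.sum fun t _ => ?_
    exact MDifferentiable.const_smul _ (h.holo _ (trivAtInf_mul237 hg (trivAtInf_lift237 N t)))
  hecke := by
    intro p hp
    have hcomm : ∀ (x : A0.G ℚ), A0.IsLocalAtFin (ratPrime p) x →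
        ∀ (g : A0.G ℚ) (t : (ZMod N)ˣ × (ZMod N)ˣ),
          g * x * lift237 N t = g * lift237 N t * x := by
      intro x hx g t
      rw [mul_assoc, comm_of_local237 hx (trivAtInf_lift237 N t) (trivAtFin_lift237 N t p hp),
        ← mul_assoc]
    refine ⟨fun H hH g => ?_, fun z hz g => ?_⟩
    · unfold proj237
      rw [Finset.sum_comm, Finset.mul_sum]
      refine Finset.sum_congr rfl fun t _ => ?_
      rw [← Finset.mul_sum]
      have e : ∑ x ∈ H, φ (g * x * lift237 N t) = ∑ x ∈ H, φ (g * lift237 N t * x) :=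
        Finset.sum_congr rfl fun x hx => by rw [hcomm x (hH.2.1 x hx).1 g t]
      rw [e, (h.hecke p hp).1 H hH]
      ring
    · unfold proj237
      rw [Finset.mul_sum]
      refine Finset.sum_congr rfl fun t _ => ?_
      rw [hcomm z hz.1 g t, (h.hecke p hp).2 z hz]
      ring
  based := hb

end Projection

/-- **Leaf QA2 (torus eigen-projection).** -/
theorem qa2_237 : QA2 := by
  intro N hN a b φ₁ h
  obtain ⟨z, hz⟩ := h.based
  have hex : ∃ ψ₁ ψ₂ : DirichletCharacter ℂ N,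
      proj237 N ψ₁ ψ₂ φ₁ (locInf (gzMat z)) ≠ 0 := by
    by_contra hcon0
    have hcon : ∀ ψ₁ ψ₂ : DirichletCharacter ℂ N,
        proj237 N ψ₁ ψ₂ φ₁ (locInf (gzMat z)) = 0 := fun ψ₁ ψ₂ => by
      by_contra h0
      exact hcon0 ⟨ψ₁, ψ₂, h0⟩
    have hsum := sum_proj237 h (locInf (gzMat z))
    simp_rw [hcon, Finset.sum_const_zero] at hsum
    have hpos : (N.totient : ℂ) ≠ 0 :=
      Nat.cast_ne_zero.2 (Nat.totient_pos.2 (Nat.pos_of_ne_zero (NeZero.ne N))).ne'
    exact hz ((mul_eq_zero.1 hsum.symm).resolve_left (mul_ne_zero hpos hpos))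
  obtain ⟨ψ₁, ψ₂, hψ⟩ := hex
  exact ⟨ψ₁, ψ₂, proj237 N ψ₁ ψ₂ φ₁, isLevelForm_proj237 h ψ₁ ψ₂ ⟨z, hψ⟩,
    torusEquiv_proj237 h ψ₁ ψ₂⟩

end Fermat.Agent.LT.T7.H237

end

end
-- ===== PACK-END LT/T7/H237/QA2.lean

-- ===== PACK-BEGIN LT/T2/H621/CircleBase.lean
section



/-!
# Row LT, tower T2, sub-leaf T2.07.13 `SubCirclePres429` (helper621): basic tools

OFF-MAIN.  Componentwise extensionality of `G K`, multiplicativity of the components, commutation
of elements with disjoint supports, the rotations `rotY`, real special orthogonal matrices.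
-/

set_option autoImplicit false
set_option linter.unusedSectionVars false

open IsDedekindDomain NumberField MeasureTheory
open Fermat.Agent.LT.H556.A0
open Fermat.Agent.LT.T2
open scoped ComplexConjugate

noncomputable section

namespace Fermat.Agent.LT.T2.H621

open NumberField.InfinitePlace

variable {K : Type} [Field K] [NumberField K]

/-! ## Components -/

/-- The component at the infinite place `w`. -/
def infPr621 (w : InfinitePlace K) : Adl K →+* w.Completion :=
  (Pi.evalRingHom (fun v : InfinitePlace K => v.Completion) w).comp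
    (RingHom.fst (InfiniteAdeleRing K) (FiniteAdeleRing (𝓞 K) K))

/-- The component at the finite place `v`. -/
def finPr621 (v : HeightOneSpectrum (𝓞 K)) : Adl K →+* v.adicCompletion K :=
  (RestrictedProduct.evalRingHom (fun v : HeightOneSpectrum (𝓞 K) => v.adicCompletion K) v).comp
    (RingHom.snd (InfiniteAdeleRing K) (FiniteAdeleRing (𝓞 K) K))

theorem adl_ext621 {a b : Adl K} (hinf : ∀ w : InfinitePlace K, a.1 w = b.1 w)
    (hfin : ∀ v : HeightOneSpectrum (𝓞 K), a.2 v = b.2 v) : a = b :=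
  Prod.ext (funext hinf) (RestrictedProduct.ext _ _ hfin)

theorem finComp_eq621 (v : HeightOneSpectrum (𝓞 K)) (g : G K) :
    finComp v g = (g : Matrix (Fin 2) (Fin 2) (Adl K)).map (finPr621 v) := rfl

theorem infComp_eq621 (w : InfinitePlace K) (g : G K) :
    infComp w g = (g : Matrix (Fin 2) (Fin 2) (Adl K)).map
      ((Completion.extensionEmbedding w).comp (infPr621 w)) := rfl

theorem infComp_mul621' (w : InfinitePlace K) (g h : G K) :
    infComp w (g * h) = infComp w g * infComp w h := by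
  rw [infComp_eq621, infComp_eq621, infComp_eq621, Units.val_mul, Matrix.map_mul]

theorem finComp_mul621' (v : HeightOneSpectrum (𝓞 K)) (g h : G K) :
    finComp v (g * h) = finComp v g * finComp v h := by
  rw [finComp_eq621, finComp_eq621, finComp_eq621, Units.val_mul, Matrix.map_mul]

theorem infComp_one621 (w : InfinitePlace K) : infComp w (1 : G K) = 1 := by
  rw [infComp_eq621, Units.val_one]
  ext i j
  by_cases hij : i = j
  · subst hij; simp
  · simp [Matrix.one_apply_ne hij]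

theorem infComp_inv_mul621' (w : InfinitePlace K) (g : G K) :
    infComp w g⁻¹ * infComp w g = 1 := by
  rw [← infComp_mul621', inv_mul_cancel, infComp_one621]

theorem infComp_of_triv621 (w : InfinitePlace K) (g : G K) (h : TrivAtInf w g) :
    infComp w g = 1 := by
  ext i j
  show Completion.extensionEmbedding w (((g : Matrix (Fin 2) (Fin 2) (Adl K)) i j).1 w) = _
  rw [h i j]
  by_cases hij : i = j
  · subst hij; simp
  · simp [Matrix.one_apply_ne hij]

/-- Componentwise extensionality of `GL₂(𝔸_K)`. -/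
theorem g_ext621 {a b : G K} (hinf : ∀ w : InfinitePlace K, infComp w a = infComp w b)
    (hfin : ∀ v : HeightOneSpectrum (𝓞 K), finComp v a = finComp v b) : a = b := by
  apply Units.ext
  ext i j
  refine adl_ext621 (fun w => ?_) (fun v => ?_)
  · have := congrFun (congrFun (hinf w) i) j
    exact (Completion.extensionEmbedding w).injective this
  · exact congrFun (congrFun (hfin v) i) j

/-- Two elements commute if at every place one of the two components is central. -/
theorem commute_of_comp621 {a b : G K}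
    (hinf : ∀ w : InfinitePlace K, infComp w a * infComp w b = infComp w b * infComp w a)
    (hfin : ∀ v : HeightOneSpectrum (𝓞 K), finComp v a * finComp v b = finComp v b * finComp v a) :
    a * b = b * a :=
  g_ext621 (fun w => by rw [infComp_mul621', infComp_mul621', hinf w])
    (fun v => by rw [finComp_mul621', finComp_mul621', hfin v])

/-- An element which is trivial at all infinite places commutes with an element supported at an
infinite place. -/
theorem commute_of_trivInf621 (w : InfinitePlace K) {u y : G K}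
    (hu : ∀ w' : InfinitePlace K, TrivAtInf w' u) (hy : IsLocalAtInf w y) : u * y = y * u := by
  refine commute_of_comp621 (fun w' => ?_) (fun v => ?_)
  · rw [infComp_of_triv621 w' u (hu w'), one_mul, mul_one]
  · have : finComp v y = 1 := hy.2 v
    rw [this, one_mul, mul_one]

/-- Elements supported at two different infinite places commute. -/
theorem commute_of_ne621 {w w' : InfinitePlace K} (hne : w' ≠ w) {z y : G K}
    (hz : IsLocalAtInf w' z) (hy : IsLocalAtInf w y) : z * y = y * z := by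
  refine commute_of_comp621 (fun w'' => ?_) (fun v => ?_)
  · by_cases h : w'' = w
    · subst h
      rw [infComp_of_triv621 _ z (hz.1 _ (Ne.symm hne)), one_mul, mul_one]
    · rw [infComp_of_triv621 _ y (hy.1 _ h), one_mul, mul_one]
  · have : finComp v y = 1 := hy.2 v
    rw [this, one_mul, mul_one]

/-- An element supported at `w` with scalar component commutes with every element supported at
`w`. -/
theorem commute_of_scalar621 (w : InfinitePlace K) {z y : G K} (hz : IsLocalAtInf w z)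
    (hy : IsLocalAtInf w y) (c : ℂ) (hc : infComp w z = Matrix.diagonal (fun _ => c)) :
    z * y = y * z := by
  refine commute_of_comp621 (fun w'' => ?_) (fun v => ?_)
  · by_cases h : w'' = w
    · subst h
      rw [hc]
      ext i j
      simp [Matrix.mul_apply, Matrix.diagonal_apply, mul_comm]
    · rw [infComp_of_triv621 _ y (hy.1 _ h), one_mul, mul_one]
  · have : finComp v y = 1 := hy.2 v
    rw [this, one_mul, mul_one]

/-- Two elements supported at `w` with the same component at `w` are equal. -/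
theorem eq_of_local621 (w : InfinitePlace K) {a b : G K} (ha : IsLocalAtInf w a)
    (hb : IsLocalAtInf w b) (h : infComp w a = infComp w b) : a = b := by
  refine g_ext621 (fun w' => ?_) (fun v => ?_)
  · by_cases hw : w' = w
    · subst hw; exact h
    · rw [infComp_of_triv621 _ a (ha.1 _ hw), infComp_of_triv621 _ b (hb.1 _ hw)]
  · have h1 : finComp v a = 1 := ha.2 v
    have h2 : finComp v b = 1 := hb.2 v
    rw [h1, h2]

theorem trivAtInf_iff_map621 (w : InfinitePlace K) (g : G K) :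
    TrivAtInf w g ↔ (g : Matrix (Fin 2) (Fin 2) (Adl K)).map (infPr621 w) = 1 := by
  constructor
  · intro h
    exact Matrix.ext fun i j => h i j
  · intro h i j
    exact congrFun (congrFun h i) j

theorem isLocalAtInf_mul621' (w : InfinitePlace K) (g h : G K) (hg : IsLocalAtInf w g)
    (hh : IsLocalAtInf w h) : IsLocalAtInf w (g * h) := by
  refine ⟨fun w' hw' => ?_, fun v => ?_⟩
  · rw [trivAtInf_iff_map621, Units.val_mul, Matrix.map_mul,
      (trivAtInf_iff_map621 w' g).1 (hg.1 w' hw'), (trivAtInf_iff_map621 w' h).1 (hh.1 w' hw'),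
      one_mul]
  · show finComp v (g * h) = 1
    have h1 : finComp v g = 1 := hg.2 v
    have h2 : finComp v h = 1 := hh.2 v
    rw [finComp_mul621', h1, h2, one_mul]

theorem isLocalAtInf_inv621' (w : InfinitePlace K) (g : G K) (hg : IsLocalAtInf w g) :
    IsLocalAtInf w g⁻¹ := by
  have key : ∀ {R : Type} [CommRing R] (f : Adl K →+* R),
      (g : Matrix (Fin 2) (Fin 2) (Adl K)).map f = 1 →
      ((g⁻¹ : G K) : Matrix (Fin 2) (Fin 2) (Adl K)).map f = 1 := by
    intro R _ f hf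
    have h1 : ((g⁻¹ : G K) : Matrix (Fin 2) (Fin 2) (Adl K)).map f
        * (g : Matrix (Fin 2) (Fin 2) (Adl K)).map f = 1 := by
      rw [← Matrix.map_mul, ← Units.val_mul, inv_mul_cancel, Units.val_one]
      ext i j
      by_cases hij : i = j
      · subst hij; simp
      · simp [Matrix.one_apply_ne hij]
    rwa [hf, mul_one] at h1
  refine ⟨fun w' hw' => ?_, fun v => ?_⟩
  · rw [trivAtInf_iff_map621]
    exact key _ ((trivAtInf_iff_map621 w' g).1 (hg.1 w' hw'))
  · show finComp v g⁻¹ = 1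
    rw [finComp_eq621]
    exact key _ (hg.2 v)

/-! ## The rotations -/

theorem rotY_add621 (a b : ℝ) : rotY (a + b) = rotY a * rotY b := by
  have hc : Real.cos ((a + b) / 2) = Real.cos (a / 2) * Real.cos (b / 2)
      - Real.sin (a / 2) * Real.sin (b / 2) := by
    rw [add_div, Real.cos_add]
  have hs : Real.sin ((a + b) / 2) = Real.sin (a / 2) * Real.cos (b / 2)
      + Real.cos (a / 2) * Real.sin (b / 2) := by
    rw [add_div, Real.sin_add]
  ext i j
  fin_cases i <;> fin_cases j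
  · show ((Real.cos ((a + b) / 2) : ℝ) : ℂ) = _
    rw [hc]
    simp [rotY, Matrix.mul_apply, Fin.sum_univ_two]
    ring
  · show -((Real.sin ((a + b) / 2) : ℝ) : ℂ) = _
    rw [hs]
    simp [rotY, Matrix.mul_apply, Fin.sum_univ_two]
  · show ((Real.sin ((a + b) / 2) : ℝ) : ℂ) = _
    rw [hs]
    simp [rotY, Matrix.mul_apply, Fin.sum_univ_two]
  · show ((Real.cos ((a + b) / 2) : ℝ) : ℂ) = _
    rw [hc]
    simp [rotY, Matrix.mul_apply, Fin.sum_univ_two]
    ring

theorem rotY_two_pi621 : rotY (2 * Real.pi) = -1 := by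
  have h : (2 * Real.pi) / 2 = Real.pi := by ring
  ext i j
  fin_cases i <;> fin_cases j
  · show ((Real.cos ((2 * Real.pi) / 2) : ℝ) : ℂ) = _
    rw [h, Real.cos_pi]; simp
  · show -((Real.sin ((2 * Real.pi) / 2) : ℝ) : ℂ) = _
    rw [h, Real.sin_pi]; simp
  · show ((Real.sin ((2 * Real.pi) / 2) : ℝ) : ℂ) = _
    rw [h, Real.sin_pi]; simp
  · show ((Real.cos ((2 * Real.pi) / 2) : ℝ) : ℂ) = _
    rw [h, Real.cos_pi]; simp

theorem rotY_add_two_pi621 (θ : ℝ) : rotY (θ + 2 * Real.pi) = -rotY θ := by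
  rw [rotY_add621, rotY_two_pi621, Matrix.mul_neg, mul_one]

/-- A real special orthogonal `2 × 2` matrix is a rotation `rotY θ₀`. -/
theorem exists_rotY621 (M : Matrix (Fin 2) (Fin 2) ℂ) (hre : ∀ i j, (M i j).im = 0)
    (hu : M * M.conjTranspose = 1) (hdet : M.det = 1) : ∃ θ₀ : ℝ, M = rotY θ₀ := by
  -- the entries
  obtain ⟨p, hp⟩ : ∃ p : ℝ, M 0 0 = (p : ℂ) := ⟨(M 0 0).re, Complex.ext rfl (by simp [hre])⟩
  obtain ⟨q, hq⟩ : ∃ q : ℝ, M 0 1 = (q : ℂ) := ⟨(M 0 1).re, Complex.ext rfl (by simp [hre])⟩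
  obtain ⟨r, hr⟩ : ∃ r : ℝ, M 1 0 = (r : ℂ) := ⟨(M 1 0).re, Complex.ext rfl (by simp [hre])⟩
  obtain ⟨s, hs⟩ : ∃ s : ℝ, M 1 1 = (s : ℂ) := ⟨(M 1 1).re, Complex.ext rfl (by simp [hre])⟩
  have h00 := congrFun (congrFun hu 0) 0
  have h11 := congrFun (congrFun hu 1) 1
  simp only [Matrix.mul_apply, Fin.sum_univ_two, Matrix.conjTranspose_apply, hp, hq, hr, hs,
    Matrix.one_apply_eq, Complex.star_def, Complex.conj_ofReal] at h00 h11
  have e1 : p * p + q * q = 1 := by exact_mod_cast h00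
  have e2 : r * r + s * s = 1 := by exact_mod_cast h11
  have e3 : p * s - q * r = 1 := by
    have := hdet
    rw [Matrix.det_fin_two, hp, hq, hr, hs] at this
    exact_mod_cast this
  have hps : p = s := by nlinarith [sq_nonneg (p - s), sq_nonneg (q + r)]
  have hqr : r = -q := by nlinarith [sq_nonneg (p - s), sq_nonneg (q + r)]
  -- the angle
  set z : ℂ := ⟨p, r⟩ with hz
  have hnorm : ‖z‖ = 1 := by
    have h1 : ‖z‖ ^ 2 = 1 := by
      rw [Complex.sq_norm, Complex.normSq_apply]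
      show p * p + r * r = 1
      rw [hqr]; nlinarith
    have h0 : 0 ≤ ‖z‖ := norm_nonneg z
    nlinarith
  have hz0 : z ≠ 0 := by
    intro h; rw [h, norm_zero] at hnorm; exact zero_ne_one hnorm
  have hcos : Real.cos (Complex.arg z) = p := by
    rw [Complex.cos_arg hz0, hnorm, div_one]
  have hsin : Real.sin (Complex.arg z) = r := by
    rw [Complex.sin_arg, hnorm, div_one]
  refine ⟨2 * Complex.arg z, ?_⟩
  have h2 : (2 * Complex.arg z) / 2 = Complex.arg z := by ring
  ext i j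
  fin_cases i <;> fin_cases j
  · show M 0 0 = ((Real.cos ((2 * Complex.arg z) / 2) : ℝ) : ℂ)
    rw [h2, hcos, hp]
  · show M 0 1 = -((Real.sin ((2 * Complex.arg z) / 2) : ℝ) : ℂ)
    rw [h2, hsin, hq, hqr]; simp
  · show M 1 0 = ((Real.sin ((2 * Complex.arg z) / 2) : ℝ) : ℂ)
    rw [h2, hsin, hr]
  · show M 1 1 = ((Real.cos ((2 * Complex.arg z) / 2) : ℝ) : ℂ)
    rw [h2, hcos, hs, hps]

/-- At a real place the components are real. -/
theorem infComp_im621 (w : InfinitePlace K) (hw : w.IsReal) (g : G K) (i j : Fin 2) :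
    (infComp w g i j).im = 0 := by
  show (Completion.extensionEmbedding w (((g : Matrix (Fin 2) (Fin 2) (Adl K)) i j).1 w)).im = 0
  rw [← Completion.extensionEmbeddingOfIsReal_apply hw]
  exact Complex.ofReal_im _

end Fermat.Agent.LT.T2.H621

end

end
-- ===== PACK-END LT/T2/H621/CircleBase.lean

-- ===== PACK-BEGIN LT/T2/H472/LocContLeaf.lean
section



/-!
# Row LT, tower T2, sub-leaf T2.07.30 `SubLocCont429` (helper472) -- OFF-MAIN, leaf

`subLocCont472 : T2.H429.SubLocCont429 K`, UNCONDITIONAL, exact type of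
`LT/T2/H429/OpsSpec.lean` (helper429@dcf706097, sha256 657e0d9a).
-/

set_option autoImplicit false

namespace Fermat.Agent.LT.T2.H472

/-- **T2.07.30** `SubLocCont429`. -/
theorem subLocCont472 (K : Type) [Field K] [NumberField K] :
    Fermat.Agent.LT.T2.H429.SubLocCont429 K :=
  fun w X _ h hloc hc => locCont472 K w X h hloc hc

end Fermat.Agent.LT.T2.H472

end
-- ===== PACK-END LT/T2/H472/LocContLeaf.lean

-- ===== PACK-BEGIN LT/T2/H878/LocalAlg.lean
section







/-!
# Row LT, tower T2, sub-leaf T2.07.21 (helper878), part 1: elements supported at one infinite place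

OFF-MAIN.  Algebra only.

* `exists_local878`: every invertible complex matrix (real at a real place) is the component at
  `w` of an element of `GL₂(𝔸_K)` supported at `w`;
* `G_ext878`, `ext_of_sameAway878`: an element of `GL₂(𝔸_K)` is determined by its components;
* `biInv_star878` (GELFAND'S TRICK): a function which is bi-invariant under the compact group at
  `w` takes the same value at `g` and at the element obtained from `g` by the conjugate
  transposition of the component at `w` (input: the Cartan decomposition `SubCartanInf429`).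
-/

set_option autoImplicit false

open IsDedekindDomain NumberField
open scoped Matrix

noncomputable section

namespace Fermat.Agent.LT.T2.H878

open Fermat.Agent.LT.H556.A0
open Fermat.Agent.LT.T2.H472

variable {K : Type} [Field K] [NumberField K]

/-! ## 1. Components -/

/-- Two matrices over the adeles with the same components are equal. -/
theorem adlMat_ext878 {A B : Matrix (Fin 2) (Fin 2) (Adl K)}
    (hinf : ∀ u : InfinitePlace K, (cInf472 u).mapMatrix A = (cInf472 u).mapMatrix B)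
    (hfin : ∀ v : HeightOneSpectrum (𝓞 K), (cFin472 v).mapMatrix A = (cFin472 v).mapMatrix B) :
    A = B := by
  funext i j
  refine Prod.ext ?_ ?_
  · funext u
    exact congrFun (congrFun (hinf u) i) j
  · refine FiniteAdeleRing.ext K fun v => ?_
    exact congrFun (congrFun (hfin v) i) j

theorem infComp_eq_map878 (w : InfinitePlace K) (g : G K) :
    infComp w g = (InfinitePlace.Completion.extensionEmbedding w).mapMatrix
      ((cInf472 w).mapMatrix (g : Matrix (Fin 2) (Fin 2) (Adl K))) := rfl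

/-- An element of `GL₂(𝔸_K)` is determined by its components. -/
theorem G_ext878 {g g' : G K} (hinf : ∀ u : InfinitePlace K, infComp u g = infComp u g')
    (hfin : ∀ v : HeightOneSpectrum (𝓞 K), finComp v g = finComp v g') : g = g' := by
  apply Units.ext
  apply adlMat_ext878
  · intro u
    funext i j
    have h := congrFun (congrFun (hinf u) i) j
    exact (InfinitePlace.Completion.extensionEmbedding u).injective h
  · intro v
    exact hfin v

theorem infComp_mul878 (w : InfinitePlace K) (g h : G K) :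
    infComp w (g * h) = infComp w g * infComp w h := by
  rw [infComp_eq472, infComp_eq472, infComp_eq472, Units.val_mul, map_mul]

theorem finComp_mul878 (v : HeightOneSpectrum (𝓞 K)) (g h : G K) :
    finComp v (g * h) = finComp v g * finComp v h := by
  rw [finComp_eq472, finComp_eq472, finComp_eq472, Units.val_mul, map_mul]

theorem infComp_one878 (w : InfinitePlace K) : infComp w (1 : G K) = 1 := by
  rw [infComp_eq472, Units.val_one, map_one]

theorem finComp_one878 (v : HeightOneSpectrum (𝓞 K)) : finComp v (1 : G K) = 1 := by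
  rw [finComp_eq472, Units.val_one, map_one]

theorem infComp_of_triv878 {u : InfinitePlace K} {g : G K} (h : TrivAtInf u g) :
    infComp u g = 1 := by
  rw [infComp_eq_map878, (trivAtInf_iff472 u g).1 h, map_one]

/-- At a real place the components are real. -/
theorem infComp_real878 {w : InfinitePlace K} (hw : w.IsReal) (g : G K) (i j : Fin 2) :
    (infComp w g i j).im = 0 := by
  show (InfinitePlace.Completion.extensionEmbedding w
    (((g : Matrix (Fin 2) (Fin 2) (Adl K)) i j).1 w)).im = 0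
  rw [← InfinitePlace.Completion.extensionEmbeddingOfIsReal_apply hw]
  exact Complex.ofReal_im _

/-! ## 2. Elements with the same components away from `w` -/

/-- `g` and `g'` have the same components at all places different from `w`. -/
def SameAway878 (w : InfinitePlace K) (g g' : G K) : Prop :=
  (∀ u : InfinitePlace K, u ≠ w → infComp u g = infComp u g') ∧
    ∀ v : HeightOneSpectrum (𝓞 K), finComp v g = finComp v g'

theorem SameAway878.refl (w : InfinitePlace K) (g : G K) : SameAway878 w g g :=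
  ⟨fun _ _ => rfl, fun _ => rfl⟩

theorem SameAway878.symm {w : InfinitePlace K} {g g' : G K} (h : SameAway878 w g g') :
    SameAway878 w g' g :=
  ⟨fun u hu => (h.1 u hu).symm, fun v => (h.2 v).symm⟩

theorem SameAway878.trans {w : InfinitePlace K} {g g' g'' : G K} (h : SameAway878 w g g')
    (h' : SameAway878 w g' g'') : SameAway878 w g g'' :=
  ⟨fun u hu => (h.1 u hu).trans (h'.1 u hu), fun v => (h.2 v).trans (h'.2 v)⟩

theorem SameAway878.mul {w : InfinitePlace K} {a a' b b' : G K} (h : SameAway878 w a a')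
    (h' : SameAway878 w b b') : SameAway878 w (a * b) (a' * b') :=
  ⟨fun u hu => by rw [infComp_mul878, infComp_mul878, h.1 u hu, h'.1 u hu],
    fun v => by rw [finComp_mul878, finComp_mul878, h.2 v, h'.2 v]⟩

theorem sameAway_of_local878 {w : InfinitePlace K} {k : G K} (h : IsLocalAtInf w k) :
    SameAway878 w k 1 :=
  ⟨fun u hu => by rw [infComp_of_triv878 (h.1 u hu), infComp_one878],
    fun v => by rw [finComp_one878]; exact h.2 v⟩

theorem isLocal_of_sameAway878 {w : InfinitePlace K} {k : G K} (h : SameAway878 w k 1) :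
    IsLocalAtInf w k := by
  refine ⟨fun u hu => ?_, fun v => ?_⟩
  · rw [trivAtInf_iff472]
    have h1 := h.1 u hu
    rw [infComp_one878, infComp_eq_map878] at h1
    funext i j
    have h2 := congrFun (congrFun h1 i) j
    apply (InfinitePlace.Completion.extensionEmbedding u).injective
    refine h2.trans ?_
    by_cases hij : i = j
    · subst hij
      simp
    · simp [Matrix.one_apply_ne hij]
  · have h1 := h.2 v
    rw [finComp_one878] at h1
    exact h1

theorem isLocalAtInf_mul878 {w : InfinitePlace K} {g h : G K} (hg : IsLocalAtInf w g)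
    (hh : IsLocalAtInf w h) : IsLocalAtInf w (g * h) := by
  apply isLocal_of_sameAway878
  have := (sameAway_of_local878 hg).mul (sameAway_of_local878 hh)
  rwa [mul_one] at this

theorem ext_of_sameAway878 {w : InfinitePlace K} {g g' : G K} (h : SameAway878 w g g')
    (hw : infComp w g = infComp w g') : g = g' := by
  refine G_ext878 (fun u => ?_) h.2
  by_cases hu : u = w
  · subst hu
    exact hw
  · exact h.1 u hu

/-- Elements supported at `w` with the same component at `w` are equal. -/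
theorem local_unique878 {w : InfinitePlace K} {g g' : G K} (hg : IsLocalAtInf w g)
    (hg' : IsLocalAtInf w g') (hw : infComp w g = infComp w g') : g = g' :=
  ext_of_sameAway878 ((sameAway_of_local878 hg).trans (sameAway_of_local878 hg').symm) hw

/-! ## 3. Construction of the elements supported at `w` -/

open Classical in
/-- The matrix over the adeles with component `M` at `w` and `1` at the other places. -/
def locMat878 (w : InfinitePlace K) (M : Matrix (Fin 2) (Fin 2) w.Completion) :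
    Matrix (Fin 2) (Fin 2) (Adl K) :=
  fun i j =>
    ((Function.update (fun u : InfinitePlace K => (1 : Matrix (Fin 2) (Fin 2) u.Completion) i j)
        w (M i j) : InfiniteAdeleRing K),
      (1 : Matrix (Fin 2) (Fin 2) (FiniteAdeleRing (𝓞 K) K)) i j)

open Classical in
theorem cInf_locMat_self878 (w : InfinitePlace K) (M : Matrix (Fin 2) (Fin 2) w.Completion) :
    (cInf472 w).mapMatrix (locMat878 w M) = M := by
  funext i j
  show Function.update (fun u : InfinitePlace K => (1 : Matrix (Fin 2) (Fin 2) u.Completion) i j)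
    w (M i j) w = M i j
  exact Function.update_self ..

open Classical in
theorem cInf_locMat_ne878 (w : InfinitePlace K) (M : Matrix (Fin 2) (Fin 2) w.Completion)
    {u : InfinitePlace K} (hu : u ≠ w) :
    (cInf472 u).mapMatrix (locMat878 w M) = 1 := by
  funext i j
  show Function.update (fun u : InfinitePlace K => (1 : Matrix (Fin 2) (Fin 2) u.Completion) i j)
    w (M i j) u = (1 : Matrix (Fin 2) (Fin 2) u.Completion) i j
  exact Function.update_of_ne hu ..

theorem cFin_locMat878 (w : InfinitePlace K) (M : Matrix (Fin 2) (Fin 2) w.Completion)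
    (v : HeightOneSpectrum (𝓞 K)) :
    (cFin472 v).mapMatrix (locMat878 w M) = 1 := by
  funext i j
  show ((1 : Matrix (Fin 2) (Fin 2) (FiniteAdeleRing (𝓞 K) K)) i j) v
    = (1 : Matrix (Fin 2) (Fin 2) (v.adicCompletion K)) i j
  exact one_apply_fin472 v i j

theorem locMat_mul878 (w : InfinitePlace K) (M N : Matrix (Fin 2) (Fin 2) w.Completion) :
    locMat878 w (M * N) = locMat878 (K := K) w M * locMat878 w N := by
  apply adlMat_ext878
  · intro u
    rw [map_mul]
    by_cases hu : u = w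
    · subst hu
      rw [cInf_locMat_self878, cInf_locMat_self878, cInf_locMat_self878]
    · rw [cInf_locMat_ne878 _ _ hu, cInf_locMat_ne878 _ _ hu, cInf_locMat_ne878 _ _ hu, mul_one]
  · intro v
    rw [map_mul, cFin_locMat878, cFin_locMat878, cFin_locMat878, mul_one]

theorem locMat_one878 (w : InfinitePlace K) : locMat878 (K := K) w 1 = 1 := by
  apply adlMat_ext878
  · intro u
    rw [map_one]
    by_cases hu : u = w
    · subst hu
      rw [cInf_locMat_self878]
    · rw [cInf_locMat_ne878 _ _ hu]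
  · intro v
    rw [map_one, cFin_locMat878]

/-- The element of `GL₂(𝔸_K)` supported at `w` with component `M`. -/
def locG878 (w : InfinitePlace K) (M N : Matrix (Fin 2) (Fin 2) w.Completion) (h1 : M * N = 1)
    (h2 : N * M = 1) : G K :=
  ⟨locMat878 w M, locMat878 w N, by rw [← locMat_mul878, h1, locMat_one878],
    by rw [← locMat_mul878, h2, locMat_one878]⟩

/-- **Existence of the elements supported at `w`.** -/
theorem exists_local878 (w : InfinitePlace K) (M : Matrix (Fin 2) (Fin 2) ℂ) (hdet : M.det ≠ 0)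
    (hreal : w.IsReal → ∀ i j, (M i j).im = 0) :
    ∃ g : G K, IsLocalAtInf w g ∧ infComp w g = M := by
  have hpre : ∀ i j, ∃ x : w.Completion,
      InfinitePlace.Completion.extensionEmbedding w x = M i j := by
    intro i j
    rcases InfinitePlace.isReal_or_isComplex w with hw | hw
    · refine ⟨(InfinitePlace.Completion.ringEquivRealOfIsReal hw).symm (M i j).re, ?_⟩
      rw [← InfinitePlace.Completion.extensionEmbeddingOfIsReal_apply hw]
      have h1 : InfinitePlace.Completion.extensionEmbeddingOfIsReal hw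
          ((InfinitePlace.Completion.ringEquivRealOfIsReal hw).symm (M i j).re) = (M i j).re :=
        (InfinitePlace.Completion.ringEquivRealOfIsReal hw).apply_symm_apply _
      rw [h1]
      apply Complex.ext
      · simp
      · simp [hreal hw i j]
    · exact InfinitePlace.Completion.surjective_extensionEmbedding_of_isComplex hw (M i j)
  choose M' hM' using hpre
  have hmap : (InfinitePlace.Completion.extensionEmbedding w).mapMatrix (Matrix.of M') = M := by
    funext i j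
    exact hM' i j
  have hdet' : (Matrix.of M').det ≠ 0 := by
    intro h0
    apply hdet
    rw [← hmap, ← RingHom.map_det, h0, map_zero]
  have hu : IsUnit (Matrix.of M').det := IsUnit.mk0 _ hdet'
  refine ⟨locG878 w (Matrix.of M') (Matrix.of M')⁻¹ (Matrix.mul_nonsing_inv _ hu)
    (Matrix.nonsing_inv_mul _ hu), ⟨fun u hu' => ?_, fun v => ?_⟩, ?_⟩
  · rw [trivAtInf_iff472]
    exact cInf_locMat_ne878 w _ hu'
  · show finComp v _ = 1
    rw [finComp_eq472]
    exact cFin_locMat878 w _ v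
  · rw [infComp_eq_map878]
    show (InfinitePlace.Completion.extensionEmbedding w).mapMatrix
      ((cInf472 w).mapMatrix (locMat878 w (Matrix.of M'))) = M
    rw [cInf_locMat_self878, hmap]

/-! ## 4. The compact group at `w` -/

theorem isArchCompact_inv878 {w : InfinitePlace K} {k : G K} (hk : IsArchCompact w k) :
    IsArchCompact w k⁻¹ := by
  obtain ⟨hloc, hu, hd⟩ := hk
  have hinv : (infComp w k)⁻¹ = (infComp w k)ᴴ := Matrix.inv_eq_right_inv hu
  refine ⟨isLocalAtInf_inv472 hloc, ?_, fun hw => ?_⟩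
  · rw [infComp_inv472, hinv, Matrix.conjTranspose_conjTranspose]
    exact mul_eq_one_comm.1 hu
  · rw [infComp_inv472, Matrix.det_nonsing_inv, hd hw]
    simp

theorem isArchCompact_mul878 {w : InfinitePlace K} {k k' : G K} (hk : IsArchCompact w k)
    (hk' : IsArchCompact w k') : IsArchCompact w (k * k') := by
  obtain ⟨hloc, hu, hd⟩ := hk
  obtain ⟨hloc', hu', hd'⟩ := hk'
  refine ⟨isLocalAtInf_mul878 hloc hloc', ?_, fun hw => ?_⟩
  · rw [infComp_mul878, Matrix.conjTranspose_mul]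
    calc infComp w k * infComp w k' * ((infComp w k')ᴴ * (infComp w k)ᴴ)
        = infComp w k * (infComp w k' * (infComp w k')ᴴ) * (infComp w k)ᴴ := by
          simp only [mul_assoc]
      _ = 1 := by rw [hu', mul_one, hu]
  · rw [infComp_mul878, Matrix.det_mul, hd hw, hd' hw, mul_one]

/-- The element supported at `w` with a given unitary component (of determinant one at a real
place) belongs to the compact group. -/
theorem exists_archCompact878 (w : InfinitePlace K) (k : Matrix (Fin 2) (Fin 2) ℂ)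
    (hu : k * kᴴ = 1) (hreal : w.IsReal → (∀ i j, (k i j).im = 0) ∧ k.det = 1) :
    ∃ g : G K, IsArchCompact w g ∧ infComp w g = k := by
  have hdet : k.det ≠ 0 := by
    have h := congrArg Matrix.det hu
    rw [Matrix.det_mul, Matrix.det_one] at h
    exact left_ne_zero_of_mul_eq_one h
  obtain ⟨g, hloc, hg⟩ := exists_local878 w k hdet (fun hw => (hreal hw).1)
  exact ⟨g, ⟨hloc, by rw [hg]; exact hu, fun hw => by rw [hg]; exact (hreal hw).2⟩, hg⟩

/-! ## 5. Gelfand's trick -/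

/-- **Gelfand's trick.**  A function which is left and right invariant under the compact group at
`w` is invariant under the conjugate transposition of the component at `w`. -/
theorem biInv_star878 (hC : H429.SubCartanInf429) (w : InfinitePlace K) (F : G K → ℂ)
    (hR : ∀ k : G K, IsArchCompact w k → ∀ g, F (g * k) = F g)
    (hL : ∀ k : G K, IsArchCompact w k → ∀ g, F (k * g) = F g)
    {g g' : G K} (hs : SameAway878 w g g') (hw : infComp w g' = (infComp w g)ᴴ) :
    F g' = F g := by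
  obtain ⟨k₁, k₂, a, b, hk₁, hk₂, hg, hre⟩ := hC (infComp w g) (det_infComp_ne_zero472 w g)
  have hre' : w.IsReal → (∀ i j, (k₁ i j).im = 0) ∧ (∀ i j, (k₂ i j).im = 0) ∧ k₁.det = 1 ∧
      k₂.det = 1 ∧ a.im = 0 ∧ b.im = 0 := fun hr => hre (fun i j => infComp_real878 hr g i j)
  obtain ⟨K₁, hK₁, hK₁c⟩ := exists_archCompact878 (K := K) w k₁ hk₁
    (fun hr => ⟨(hre' hr).1, (hre' hr).2.2.1⟩)
  obtain ⟨K₂, hK₂, hK₂c⟩ := exists_archCompact878 (K := K) w k₂ hk₂
    (fun hr => ⟨(hre' hr).2.1, (hre' hr).2.2.2.1⟩)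
  -- the diagonal entries do not vanish
  have hdet : (infComp w g).det ≠ 0 := det_infComp_ne_zero472 w g
  have hab : a ≠ 0 ∧ b ≠ 0 := by
    rw [hg, Matrix.det_mul, Matrix.det_mul, Matrix.det_diagonal] at hdet
    simp only [Fin.prod_univ_two, Matrix.cons_val_zero, Matrix.cons_val_one] at hdet
    constructor
    · rintro rfl
      simp at hdet
    · rintro rfl
      simp at hdet
  obtain ⟨ha, hb⟩ := hab
  have hca : (starRingEnd ℂ) a ≠ 0 := by simpa using ha
  have hcb : (starRingEnd ℂ) b ≠ 0 := by simpa using hb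
  -- the unitary diagonal matrix of the phases
  set u : Matrix (Fin 2) (Fin 2) ℂ :=
    Matrix.diagonal ![(starRingEnd ℂ) a / a, (starRingEnd ℂ) b / b] with hu
  have huu : u * uᴴ = 1 := by
    rw [hu, Matrix.diagonal_conjTranspose, Matrix.diagonal_mul_diagonal, ← Matrix.diagonal_one]
    congr 1
    funext i
    fin_cases i
    · simp
      field_simp
    · simp
      field_simp
  have hDu : Matrix.diagonal ![a, b] * u = (Matrix.diagonal ![a, b])ᴴ := by
    rw [hu, Matrix.diagonal_conjTranspose, Matrix.diagonal_mul_diagonal]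
    congr 1
    funext i
    fin_cases i
    · simp
      field_simp
    · simp
      field_simp
  have hureal : w.IsReal → (∀ i j, (u i j).im = 0) ∧ u.det = 1 := by
    intro hr
    have ha' : (starRingEnd ℂ) a = a := Complex.conj_eq_iff_im.2 (hre' hr).2.2.2.2.1
    have hb' : (starRingEnd ℂ) b = b := Complex.conj_eq_iff_im.2 (hre' hr).2.2.2.2.2
    have hu1 : u = 1 := by
      rw [hu, ha', hb', div_self ha, div_self hb, ← Matrix.diagonal_one]
      congr 1
      funext i
      fin_cases i <;> rfl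
    rw [hu1]
    refine ⟨fun i j => ?_, Matrix.det_one⟩
    by_cases hij : i = j
    · subst hij
      simp
    · simp [Matrix.one_apply_ne hij]
  obtain ⟨U, hU, hUc⟩ := exists_archCompact878 (K := K) w u huu hureal
  have hK₁i := isArchCompact_inv878 hK₁
  have hK₂i := isArchCompact_inv878 hK₂
  have hk₁' : k₁ᴴ * k₁ = 1 := mul_eq_one_comm.1 hk₁
  have hk₁inv : k₁⁻¹ = k₁ᴴ := Matrix.inv_eq_right_inv hk₁
  have hk₂inv : k₂⁻¹ = k₂ᴴ := Matrix.inv_eq_right_inv hk₂
  -- the key identity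
  have key : K₂ * g' * K₁ = K₁⁻¹ * g * K₂⁻¹ * U := by
    apply ext_of_sameAway878 (w := w)
    · have e1 : SameAway878 w (K₂ * g' * K₁) (1 * g * 1) :=
        ((sameAway_of_local878 hK₂.1).mul hs.symm).mul (sameAway_of_local878 hK₁.1)
      have e2 : SameAway878 w (K₁⁻¹ * g * K₂⁻¹ * U) (1 * g * 1 * 1) :=
        (((sameAway_of_local878 hK₁i.1).mul (SameAway878.refl w g)).mul
          (sameAway_of_local878 hK₂i.1)).mul (sameAway_of_local878 hU.1)
      rw [mul_one] at e2
      exact e1.trans e2.symm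
    · rw [infComp_mul878, infComp_mul878, infComp_mul878, infComp_mul878, infComp_mul878,
        infComp_inv472, infComp_inv472, hK₁c, hK₂c, hUc, hw, hk₁inv, hk₂inv, hg]
      simp only [Matrix.conjTranspose_mul]
      calc k₂ * (k₂ᴴ * ((Matrix.diagonal ![a, b])ᴴ * k₁ᴴ)) * k₁
          = (k₂ * k₂ᴴ) * (Matrix.diagonal ![a, b])ᴴ * (k₁ᴴ * k₁) := by
            simp only [mul_assoc]
        _ = (Matrix.diagonal ![a, b])ᴴ := by rw [hk₂, hk₁', one_mul, mul_one]
        _ = Matrix.diagonal ![a, b] * u := hDu.symm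
        _ = (k₁ᴴ * k₁) * Matrix.diagonal ![a, b] * (k₂ * k₂ᴴ) * u := by
            rw [hk₂, hk₁', one_mul, mul_one]
        _ = k₁ᴴ * (k₁ * Matrix.diagonal ![a, b] * k₂) * k₂ᴴ * u := by
            simp only [mul_assoc]
  calc F g' = F (K₂ * g') := (hL K₂ hK₂ g').symm
    _ = F (K₂ * g' * K₁) := (hR K₁ hK₁ _).symm
    _ = F (K₁⁻¹ * g * K₂⁻¹ * U) := by rw [key]
    _ = F (K₁⁻¹ * g * K₂⁻¹) := hR U hU _
    _ = F (K₁⁻¹ * g) := hR K₂⁻¹ hK₂i _
    _ = F g := hL K₁⁻¹ hK₁i g

/-- Every element has a conjugate transpose at `w`. -/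
theorem exists_star878 (w : InfinitePlace K) (h : G K) :
    ∃ h' : G K, SameAway878 w h h' ∧ infComp w h' = (infComp w h)ᴴ := by
  have hdet : (infComp w h).det ≠ 0 := det_infComp_ne_zero472 w h
  obtain ⟨L, hL, hLc⟩ := exists_local878 (K := K) w (infComp w h) hdet
    (fun hr i j => infComp_real878 hr h i j)
  have hdet' : ((infComp w h)ᴴ).det ≠ 0 := by
    rw [Matrix.det_conjTranspose]
    simpa using hdet
  obtain ⟨L', hL', hLc'⟩ := exists_local878 (K := K) w (infComp w h)ᴴ hdet'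
    (fun hr i j => by
      rw [Matrix.conjTranspose_apply, Complex.star_def, Complex.conj_im,
        infComp_real878 hr h j i, neg_zero])
  refine ⟨h * L⁻¹ * L', ?_, ?_⟩
  · have e : SameAway878 w (h * L⁻¹ * L') (h * 1 * 1) :=
      ((SameAway878.refl w h).mul (sameAway_of_local878 (isLocalAtInf_inv472 hL))).mul
        (sameAway_of_local878 hL')
    rw [mul_one, mul_one] at e
    exact e.symm
  · rw [infComp_mul878, infComp_mul878, infComp_inv472, hLc, hLc',
      Matrix.mul_nonsing_inv _ (IsUnit.mk0 _ hdet), one_mul]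

/-- The conjugate transpose at `w` of a product with an element supported at `w`. -/
theorem star_mul878 {w : InfinitePlace K} {y h h' z : G K} (hy : IsLocalAtInf w y)
    (hz : IsLocalAtInf w z) (hzc : infComp w z = (infComp w y)ᴴ) (hs : SameAway878 w h h')
    (hh : infComp w h' = (infComp w h)ᴴ) :
    SameAway878 w (y * h) (h' * z) ∧ infComp w (h' * z) = (infComp w (y * h))ᴴ := by
  constructor
  · have e1 : SameAway878 w (y * h) (1 * h') := (sameAway_of_local878 hy).mul hs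
    have e2 : SameAway878 w (h' * z) (h' * 1) :=
      (SameAway878.refl w h').mul (sameAway_of_local878 hz)
    rw [one_mul] at e1
    rw [mul_one] at e2
    exact e1.trans e2.symm
  · rw [infComp_mul878, infComp_mul878, Matrix.conjTranspose_mul, hzc, hh]

end Fermat.Agent.LT.T2.H878

end

end
-- ===== PACK-END LT/T2/H878/LocalAlg.lean

-- ===== PACK-BEGIN LT/T2/H322/MeanBddLeaf.lean
section







/-!
# Row LT, tower T2, sub-leaf T2.07.15 (helper322): `SubMeanBdd429`, VERBATIM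

OFF-MAIN.  `subMeanBdd322 : SubTransl429 K → SubLocCont429 K → SubMeanBdd429 K` against the bytes
of `LT/T2/H429/OpsSpec.lean` (helper429@dcf706097, sha256 657e0d9a).  The two hypotheses are the
sub-leaves T2.07.00 (KEY LEMMA) and T2.07.30 named in the registry row; of `Ctx429` only `t1` is
used (as the premise of `SubTransl429`).
-/

set_option autoImplicit false

open IsDedekindDomain NumberField MeasureTheory
open Fermat.Agent.LT.H556.A0
open Fermat.Agent.LT.T2

noncomputable section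

namespace Fermat.Agent.LT.T2.H322

variable {K : Type} [Field K] [NumberField K]

attribute [local instance] Fermat.Agent.LT.T2.borelG

/-- **T2.07.15** from T2.07.00 and T2.07.30. -/
theorem subMeanBdd322 (hTr : H429.SubTransl429 K) (hL : H429.SubLocCont429 K) :
    H429.SubMeanBdd429 K := by
  intro 𝔫 c F
  have hTrF : TranslInv322 F := fun Φ h1 h2 h3 h4 h => hTr c.t1 F Φ h1 h2 h3 h4 h
  have hLoc : LocCont322 K := hL
  exact ⟨fun w _ d _ Y hY => sphereBdd322 F hTrF hLoc w d Y hY,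
    fun w _ t _ Y hY => circleBdd322 F hTrF hLoc w t Y hY⟩

example (hTr : H429.SubTransl429 K) (hL : H429.SubLocCont429 K) : H429.SubMeanBdd429 K :=
  subMeanBdd322 hTr hL

end Fermat.Agent.LT.T2.H322

end

end
-- ===== PACK-END LT/T2/H322/MeanBddLeaf.lean

-- ===== PACK-BEGIN LT/T2/H368/CircleComm.lean
section




/-!
# Row LT, tower T2, sub-leaf T2.07.20 `SubCommCircleCircle429` (helper368)

OFF-MAIN.  On `LT/T2/H429/OpsSpec.lean` (helper429, sha256 657e0d9a), `LT/T2/Spec.lean`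
(sha256 43969e81), `LT/T1/Spec.lean` (sha256 eba1c6dc), `LT/H556/A0.lean` (sha256 66d3374a) and the
local elements of `LT/T8/H864/Local.lean` (helper864, sha256 118083c7), byte-identical copies.

`subCommCircleCircle368 : SubCommCircleCircle429 K`, UNCONDITIONAL (no standing hypothesis is
used): two circle means at real places commute on the cusp functions.

* different places: the elements commute, Fubini on the square;
* same place: Gelfand's trick for `(GL₂(ℝ), SO(2))`, in the DIRECT form (no pairing, no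
  definiteness, no Cartan decomposition as input): for every real matrix `x` there is a rotation
  `κ` with `xᵀ = κ x κ` (`exists_rot_transpose368`), so the left rotation average of a right
  `SO(2)`-invariant function is invariant under the transposition; the circle `rotY` is
  `2π`-periodic modulo the central element `-1 ∈ SO(2)`.
-/

set_option autoImplicit false

open MeasureTheory Set
open IsDedekindDomain NumberField
open scoped MatrixGroups

noncomputable section

namespace Fermat.Agent.LT.T2.H368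

/-- The rotation of angle `θ / 2`, as a real matrix. -/
def rotR368 (θ : ℝ) : Matrix (Fin 2) (Fin 2) ℝ :=
  !![Real.cos (θ / 2), -Real.sin (θ / 2); Real.sin (θ / 2), Real.cos (θ / 2)]

/-- `diag(e^{t/2}, e^{-t/2})`, as a real matrix. -/
def torR368 (t : ℝ) : Matrix (Fin 2) (Fin 2) ℝ :=
  !![Real.exp (t / 2), 0; 0, Real.exp (-(t / 2))]

theorem rotR368_add (a b : ℝ) : rotR368 (a + b) = rotR368 a * rotR368 b := by
  have h : (a + b) / 2 = a / 2 + b / 2 := by ring
  ext i j
  fin_cases i <;> fin_cases j <;>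
    simp [rotR368, h, Real.cos_add, Real.sin_add, Matrix.mul_apply, Fin.sum_univ_two] <;> ring

theorem rotR368_zero : rotR368 0 = 1 := by
  ext i j
  fin_cases i <;> fin_cases j <;> simp [rotR368]

theorem rotR368_two_pi : rotR368 (2 * Real.pi) = -1 := by
  have h : 2 * Real.pi / 2 = Real.pi := by ring
  ext i j
  fin_cases i <;> fin_cases j <;> simp [rotR368, h]

theorem rotR368_transpose (θ : ℝ) : (rotR368 θ).transpose = rotR368 (-θ) := by
  have h : -θ / 2 = -(θ / 2) := by ring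
  ext i j
  fin_cases i <;> fin_cases j <;> simp [rotR368, h, Matrix.transpose_apply]

theorem rotR368_det (θ : ℝ) : (rotR368 θ).det = 1 := by
  simp only [rotR368, Matrix.det_fin_two_of]
  have := Real.cos_sq_add_sin_sq (θ / 2)
  nlinarith [this]

theorem torR368_det (t : ℝ) : (torR368 t).det = 1 := by
  simp only [torR368, Matrix.det_fin_two_of]
  rw [mul_zero, sub_zero, ← Real.exp_add]
  simp

theorem torR368_transpose (t : ℝ) : (torR368 t).transpose = torR368 t := by
  ext i j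
  fin_cases i <;> fin_cases j <;> simp [torR368, Matrix.transpose_apply]

/-- The rotation as an element of `GL₂(ℝ)`. -/
def rotG368 (θ : ℝ) : GL (Fin 2) ℝ :=
  Matrix.GeneralLinearGroup.mkOfDetNeZero (rotR368 θ) (by rw [rotR368_det]; exact one_ne_zero)

/-- The torus element as an element of `GL₂(ℝ)`. -/
def torG368 (t : ℝ) : GL (Fin 2) ℝ :=
  Matrix.GeneralLinearGroup.mkOfDetNeZero (torR368 t) (by rw [torR368_det]; exact one_ne_zero)

@[simp] theorem coe_rotG368 (θ : ℝ) :
    ((rotG368 θ : GL (Fin 2) ℝ) : Matrix (Fin 2) (Fin 2) ℝ) = rotR368 θ := rfl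

@[simp] theorem coe_torG368 (t : ℝ) :
    ((torG368 t : GL (Fin 2) ℝ) : Matrix (Fin 2) (Fin 2) ℝ) = torR368 t := rfl

theorem rotG368_add (a b : ℝ) : rotG368 (a + b) = rotG368 a * rotG368 b :=
  Units.ext (by simp [rotR368_add])

theorem rotG368_zero : rotG368 0 = 1 :=
  Units.ext (by simp [rotR368_zero])

theorem rotG368_inv (a : ℝ) : (rotG368 a)⁻¹ = rotG368 (-a) := by
  rw [inv_eq_iff_eq_inv, eq_inv_iff_mul_eq_one, ← rotG368_add]
  simp [rotG368_zero]

/-- `rotG368 (2π) = -1` is central. -/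
theorem rotG368_two_pi_mul (x : GL (Fin 2) ℝ) :
    rotG368 (2 * Real.pi) * x = x * rotG368 (2 * Real.pi) :=
  Units.ext (by simp [rotR368_two_pi])

theorem continuous_rotR368 : Continuous rotR368 := by
  refine continuous_matrix fun i j => ?_
  fin_cases i <;> fin_cases j <;> simp [rotR368] <;> fun_prop

theorem continuous_rotG368 : Continuous rotG368 := by
  rw [Units.continuous_iff]
  refine ⟨continuous_rotR368, ?_⟩
  have h : (fun a : ℝ => (((rotG368 a)⁻¹ : GL (Fin 2) ℝ) : Matrix (Fin 2) (Fin 2) ℝ))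
      = fun a => rotR368 (-a) := by
    funext a
    rw [rotG368_inv]
    rfl
  show Continuous fun a : ℝ => (((rotG368 a)⁻¹ : GL (Fin 2) ℝ) : Matrix (Fin 2) (Fin 2) ℝ)
  rw [h]
  exact continuous_rotR368.comp continuous_neg

/-- For every real `2 × 2` matrix `x` there is a rotation `κ` with `xᵀ = κ x κ`
(equivalently `κ x` is symmetric): the Cartan decomposition in the form needed for Gelfand's
trick. -/
theorem exists_rot_transpose368 (x : Matrix (Fin 2) (Fin 2) ℝ) :
    ∃ c : ℝ, x.transpose = rotR368 c * x * rotR368 c := by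
  -- `p (b - c) = q (a + d)` and `p² + q² = 1`
  obtain ⟨p, q, h1, h2⟩ : ∃ p q : ℝ, p * (x 0 1 - x 1 0) = q * (x 0 0 + x 1 1) ∧
      p ^ 2 + q ^ 2 = 1 := by
    by_cases h : (x 0 0 + x 1 1) ^ 2 + (x 0 1 - x 1 0) ^ 2 = 0
    · refine ⟨1, 0, ?_, by norm_num⟩
      have h0 : x 0 1 - x 1 0 = 0 := by nlinarith [sq_nonneg (x 0 0 + x 1 1), sq_nonneg (x 0 1 - x 1 0)]
      rw [h0]; ring
    · set r := Real.sqrt ((x 0 0 + x 1 1) ^ 2 + (x 0 1 - x 1 0) ^ 2) with hr
      have hpos : 0 < (x 0 0 + x 1 1) ^ 2 + (x 0 1 - x 1 0) ^ 2 :=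
        lt_of_le_of_ne (by positivity) (Ne.symm h)
      have hr0 : 0 < r := Real.sqrt_pos.2 hpos
      have hr2 : r ^ 2 = (x 0 0 + x 1 1) ^ 2 + (x 0 1 - x 1 0) ^ 2 := Real.sq_sqrt hpos.le
      refine ⟨(x 0 0 + x 1 1) / r, (x 0 1 - x 1 0) / r, by ring, ?_⟩
      rw [div_pow, div_pow, ← add_div, ← hr2, div_self (pow_ne_zero 2 hr0.ne')]
  -- the angle
  obtain ⟨c, hc1, hc2⟩ : ∃ c : ℝ, Real.cos (c / 2) = p ∧ Real.sin (c / 2) = q := by
    set z : ℂ := ⟨p, q⟩ with hz
    have hnorm : ‖z‖ = 1 := by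
      have : ‖z‖ ^ 2 = 1 := by
        rw [Complex.sq_norm, Complex.normSq_apply]
        simp only [hz]
        nlinarith [h2]
      have h0 : 0 ≤ ‖z‖ := norm_nonneg z
      nlinarith [this, h0]
    have hz0 : z ≠ 0 := by
      intro h
      rw [h, norm_zero] at hnorm
      exact zero_ne_one hnorm
    refine ⟨2 * Complex.arg z, ?_, ?_⟩
    · rw [mul_div_cancel_left₀ _ (two_ne_zero' ℝ), Complex.cos_arg hz0, hnorm, div_one]
    · rw [mul_div_cancel_left₀ _ (two_ne_zero' ℝ), Complex.sin_arg, hnorm, div_one]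
  refine ⟨c, ?_⟩
  ext i j
  fin_cases i <;> fin_cases j
  · simp only [rotR368, hc1, hc2, Matrix.transpose_apply, Matrix.mul_apply, Fin.sum_univ_two,
      Fin.zero_eta, Fin.isValue, Matrix.of_apply, Matrix.cons_val', Matrix.cons_val_zero,
      Matrix.cons_val_one, Matrix.cons_val_fin_one]
    linear_combination (-q) * h1 - (x 0 0) * h2
  · simp only [rotR368, hc1, hc2, Matrix.transpose_apply, Matrix.mul_apply, Fin.sum_univ_two,
      Fin.zero_eta, Fin.mk_one, Fin.isValue, Matrix.of_apply, Matrix.cons_val', Matrix.cons_val_zero,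
      Matrix.cons_val_one, Matrix.cons_val_fin_one]
    linear_combination (-p) * h1 - (x 1 0) * h2
  · simp only [rotR368, hc1, hc2, Matrix.transpose_apply, Matrix.mul_apply, Fin.sum_univ_two,
      Fin.zero_eta, Fin.mk_one, Fin.isValue, Matrix.of_apply, Matrix.cons_val', Matrix.cons_val_zero,
      Matrix.cons_val_one, Matrix.cons_val_fin_one]
    linear_combination p * h1 - (x 0 1) * h2
  · simp only [rotR368, hc1, hc2, Matrix.transpose_apply, Matrix.mul_apply, Fin.sum_univ_two,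
      Fin.mk_one, Fin.isValue, Matrix.of_apply, Matrix.cons_val', Matrix.cons_val_zero,
      Matrix.cons_val_one, Matrix.cons_val_fin_one]
    linear_combination (-q) * h1 - (x 1 1) * h2

/-- Fubini for a continuous function on a rectangle, interval-integral form. -/
theorem intervalIntegral_swap368 {E : Type*} [NormedAddCommGroup E] [NormedSpace ℝ E]
    (f : ℝ → ℝ → E) (hf : Continuous (Function.uncurry f)) {a b c d : ℝ}
    (hab : a ≤ b) (hcd : c ≤ d) :
    (∫ x in a..b, ∫ y in c..d, f x y) = ∫ y in c..d, ∫ x in a..b, f x y := by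
  simp only [intervalIntegral.integral_of_le hab, intervalIntegral.integral_of_le hcd]
  apply MeasureTheory.integral_integral_swap
  rw [Measure.prod_restrict]
  have hK : IsCompact (Icc a b ×ˢ Icc c d) := isCompact_Icc.prod isCompact_Icc
  have h1 : IntegrableOn (Function.uncurry f) (Icc a b ×ˢ Icc c d) (volume.prod volume) :=
    hf.continuousOn.integrableOn_compact hK
  exact h1.mono_set (prod_mono Ioc_subset_Icc_self Ioc_subset_Icc_self)


/-! ## 2. Gelfand's trick on `GL₂(ℝ)` -/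

section Real

variable (ψ : GL (Fin 2) ℝ → ℂ)

/-- The left average of `ψ` over the rotations. -/
def avg368 (x : GL (Fin 2) ℝ) : ℂ := ∫ a in (0 : ℝ)..(2 * Real.pi), ψ (rotG368 a * x)

variable {ψ}

theorem periodic_rot368 (hinv : ∀ (m : GL (Fin 2) ℝ) (c : ℝ), ψ (m * rotG368 c) = ψ m)
    (x y : GL (Fin 2) ℝ) :
    Function.Periodic (fun a : ℝ => ψ (x * (rotG368 a * y))) (2 * Real.pi) := by
  intro a
  show ψ (x * (rotG368 (a + 2 * Real.pi) * y)) = ψ (x * (rotG368 a * y))
  have h : x * (rotG368 (a + 2 * Real.pi) * y) = x * (rotG368 a * y) * rotG368 (2 * Real.pi) := by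
    rw [rotG368_add, mul_assoc (rotG368 a), rotG368_two_pi_mul y]
    simp only [mul_assoc]
  rw [h, hinv]

theorem avg368_rot_mul (hinv : ∀ (m : GL (Fin 2) ℝ) (c : ℝ), ψ (m * rotG368 c) = ψ m)
    (c : ℝ) (x : GL (Fin 2) ℝ) : avg368 ψ (rotG368 c * x) = avg368 ψ x := by
  unfold avg368
  have h1 : ∀ a : ℝ, ψ (rotG368 a * (rotG368 c * x)) = ψ (1 * (rotG368 (a + c) * x)) := by
    intro a
    rw [rotG368_add, one_mul, mul_assoc]
  simp only [h1]
  rw [intervalIntegral.integral_comp_add_right (fun a => ψ (1 * (rotG368 a * x))) c]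
  have hp := periodic_rot368 hinv 1 x
  have := hp.intervalIntegral_add_eq (0 + c) 0
  simp only [zero_add] at this ⊢
  rw [add_comm (2 * Real.pi) c, this]
  simp only [one_mul]

theorem avg368_mul_rot (hinv : ∀ (m : GL (Fin 2) ℝ) (c : ℝ), ψ (m * rotG368 c) = ψ m)
    (c : ℝ) (x : GL (Fin 2) ℝ) : avg368 ψ (x * rotG368 c) = avg368 ψ x := by
  unfold avg368
  congr 1
  funext a
  rw [← mul_assoc, hinv]

/-- The average is invariant under the transposition. -/
theorem avg368_transpose (hinv : ∀ (m : GL (Fin 2) ℝ) (c : ℝ), ψ (m * rotG368 c) = ψ m)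
    (x y : GL (Fin 2) ℝ)
    (hxy : (y : Matrix (Fin 2) (Fin 2) ℝ) = (x : Matrix (Fin 2) (Fin 2) ℝ).transpose) :
    avg368 ψ y = avg368 ψ x := by
  obtain ⟨c, hc⟩ := exists_rot_transpose368 (x : Matrix (Fin 2) (Fin 2) ℝ)
  have hy : y = rotG368 c * (x * rotG368 c) := by
    apply Units.ext
    rw [hxy, hc]
    simp [mul_assoc]
  rw [hy, avg368_rot_mul hinv, avg368_mul_rot hinv]

theorem periodic_avg368 (hinv : ∀ (m : GL (Fin 2) ℝ) (c : ℝ), ψ (m * rotG368 c) = ψ m)
    (A A' : GL (Fin 2) ℝ) :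
    Function.Periodic (fun b : ℝ => avg368 ψ (A * (rotG368 b * A'))) (2 * Real.pi) := by
  intro b
  show avg368 ψ (A * (rotG368 (b + 2 * Real.pi) * A')) = avg368 ψ (A * (rotG368 b * A'))
  have h : A * (rotG368 (b + 2 * Real.pi) * A') = A * (rotG368 b * A') * rotG368 (2 * Real.pi) := by
    rw [rotG368_add, mul_assoc (rotG368 b), rotG368_two_pi_mul A']
    simp only [mul_assoc]
  rw [h, avg368_mul_rot hinv]

/-- **Gelfand's trick for `(GL₂(ℝ), SO(2))`**: the two iterated circle means of a continuous right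
`SO(2)`-invariant function agree. -/
theorem circle_comm_real368 (hc : Continuous ψ)
    (hinv : ∀ (m : GL (Fin 2) ℝ) (c : ℝ), ψ (m * rotG368 c) = ψ m)
    (A A' : GL (Fin 2) ℝ)
    (hA : (A : Matrix (Fin 2) (Fin 2) ℝ).transpose = (A : Matrix (Fin 2) (Fin 2) ℝ))
    (hA' : (A' : Matrix (Fin 2) (Fin 2) ℝ).transpose = (A' : Matrix (Fin 2) (Fin 2) ℝ)) :
    (∫ θ in (0 : ℝ)..(2 * Real.pi), ∫ θ' in (0 : ℝ)..(2 * Real.pi),
        ψ (rotG368 θ * A * (rotG368 θ' * A')))
      = ∫ θ' in (0 : ℝ)..(2 * Real.pi), ∫ θ in (0 : ℝ)..(2 * Real.pi),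
        ψ (rotG368 θ' * A' * (rotG368 θ * A)) := by
  have h2pi : (0 : ℝ) ≤ 2 * Real.pi := by positivity
  have hcont : ∀ B B' : GL (Fin 2) ℝ, Continuous (Function.uncurry
      (fun θ θ' : ℝ => ψ (rotG368 θ * B * (rotG368 θ' * B')))) := by
    intro B B'
    apply hc.comp
    have h1 : Continuous fun p : ℝ × ℝ => rotG368 p.1 := continuous_rotG368.comp continuous_fst
    have h2 : Continuous fun p : ℝ × ℝ => rotG368 p.2 := continuous_rotG368.comp continuous_snd
    exact (h1.mul continuous_const).mul (h2.mul continuous_const)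
  -- left side
  have hL : (∫ θ in (0 : ℝ)..(2 * Real.pi), ∫ θ' in (0 : ℝ)..(2 * Real.pi),
        ψ (rotG368 θ * A * (rotG368 θ' * A')))
      = ∫ θ' in (0 : ℝ)..(2 * Real.pi), avg368 ψ (A * (rotG368 θ' * A')) := by
    rw [intervalIntegral_swap368 _ (hcont A A') h2pi h2pi]
    simp only [avg368, mul_assoc]
  -- right side
  have hR : (∫ θ' in (0 : ℝ)..(2 * Real.pi), ∫ θ in (0 : ℝ)..(2 * Real.pi),
        ψ (rotG368 θ' * A' * (rotG368 θ * A)))
      = ∫ θ in (0 : ℝ)..(2 * Real.pi), avg368 ψ (A' * (rotG368 θ * A)) := by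
    rw [intervalIntegral_swap368 _ (hcont A' A) h2pi h2pi]
    simp only [avg368, mul_assoc]
  rw [hL, hR]
  -- transposition
  have hT : ∀ θ : ℝ, avg368 ψ (A' * (rotG368 θ * A)) = avg368 ψ (A * (rotG368 (-θ) * A')) := by
    intro θ
    refine (avg368_transpose hinv _ _ ?_).symm
    simp only [Matrix.GeneralLinearGroup.coe_mul, coe_rotG368, Matrix.transpose_mul, hA, hA',
      rotR368_transpose, mul_assoc]
  simp only [hT]
  rw [intervalIntegral.integral_comp_neg (fun b => avg368 ψ (A * (rotG368 b * A')))]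
  have hp := (periodic_avg368 hinv A A').intervalIntegral_add_eq (-(2 * Real.pi)) 0
  simp only [zero_add, neg_add_cancel, neg_zero] at hp ⊢
  exact hp.symm

end Real


/-! ## 3. The adelic statement -/

section Adelic

open Fermat.Agent.LT.H556.A0 Fermat.Agent.LT.T2 Fermat.Agent.LT.T2.H429 Fermat.Agent.LT.T8.H864

variable {K : Type} [Field K] [NumberField K]

/-- Two elements supported at the same infinite place with the same complex matrix are equal. -/
theorem eq_of_local368 {w : InfinitePlace K} {g g' : G K} (hg : IsLocalAtInf w g)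
    (hg' : IsLocalAtInf w g') (h : infComp w g = infComp w g') : g = g' := by
  refine G_ext (fun w' => ?_) (fun v => ?_)
  · by_cases hw : w' = w
    · subst hw
      apply Units.ext
      rw [coe_infCompHom, coe_infCompHom]
      rw [infComp_eq_map, infComp_eq_map] at h
      exact Matrix.map_injective (InfinitePlace.Completion.extensionEmbedding w').injective h
    · rw [(trivAtInf_iff_hom w' g).1 (hg.1 w' hw), (trivAtInf_iff_hom w' g').1 (hg'.1 w' hw)]
  · rw [(trivAtFin_iff_hom v g).1 (hg.2 v), (trivAtFin_iff_hom v g').1 (hg'.2 v)]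

theorem rotY_eq368 (θ : ℝ) : rotY θ = (rotR368 θ).map (fun r : ℝ => (r : ℂ)) := by
  ext i j
  fin_cases i <;> fin_cases j <;> simp [rotY, rotR368]

theorem torus_eq368 (t : ℝ) : torus t = (torR368 t).map (fun r : ℝ => (r : ℂ)) := by
  ext i j
  fin_cases i <;> fin_cases j <;> simp [torus, torR368]

theorem map_ofReal_mul368 (M N : Matrix (Fin 2) (Fin 2) ℝ) :
    (M * N).map (fun r : ℝ => (r : ℂ))
      = M.map (fun r : ℝ => (r : ℂ)) * N.map (fun r : ℝ => (r : ℂ)) :=
  Matrix.map_mul (f := Complex.ofRealHom)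

/-- The circle of `IsCircleAt` is the image of the real circle. -/
theorem circle_eq368 {w : InfinitePlace K} (hw : w.IsReal) {t : ℝ} {Y : ℝ → G K}
    (hY : IsCircleAt w t Y) (θ : ℝ) : Y θ = locInfReal hw (rotG368 θ * torG368 t) := by
  refine eq_of_local368 (hY θ).1 (isLocalAtInf_locInfReal hw _) ?_
  rw [(hY θ).2, infComp_locInfReal, rotY_eq368, torus_eq368, ← map_ofReal_mul368]
  rfl

/-- The rotations lie in the compact group at `w`. -/
theorem isArchCompact_rot368 {w : InfinitePlace K} (hw : w.IsReal) (c : ℝ) :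
    IsArchCompact w (locInfReal hw (rotG368 c)) := by
  have hmap : infComp w (locInfReal hw (rotG368 c))
      = (rotR368 c).map (fun r : ℝ => (r : ℂ)) := by
    rw [infComp_locInfReal]; rfl
  refine ⟨isLocalAtInf_locInfReal hw _, ?_, fun _ => ?_⟩
  · rw [hmap]
    have h1 : ((rotR368 c).map (fun r : ℝ => (r : ℂ))).conjTranspose
        = ((rotR368 c).transpose).map (fun r : ℝ => (r : ℂ)) := by
      ext i j
      simp [Matrix.conjTranspose_apply, Matrix.transpose_apply]
    rw [h1, ← map_ofReal_mul368, rotR368_transpose, ← rotR368_add, add_neg_cancel, rotR368_zero]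
    ext i j
    fin_cases i <;> fin_cases j <;> simp
  · rw [hmap]
    have h2 : ((rotR368 c).map (fun r : ℝ => (r : ℂ))).det = (((rotR368 c).det : ℝ) : ℂ) := by
      simp only [Matrix.det_fin_two, Matrix.map_apply]
      push_cast
      ring
    rw [h2, rotR368_det]
    simp

variable {𝔫 : Ideal (𝓞 K)} {φ : G K → ℂ}

/-- The pull-back of a cusp function to `GL₂(ℝ)` at the real place `w`. -/
def pull368 {w : InfinitePlace K} (hw : w.IsReal) (φ : G K → ℂ) (g : G K) :
    GL (Fin 2) ℝ → ℂ := fun m => φ (g * locInfReal hw m)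

theorem continuous_pull368 {w : InfinitePlace K} (hw : w.IsReal) (hφ : Continuous φ) (g : G K) :
    Continuous (pull368 hw φ g) :=
  hφ.comp (continuous_const.mul (continuous_locInfReal hw))

theorem pull368_inv {w : InfinitePlace K} (hw : w.IsReal) (hφ : IsCuspFn 𝔫 φ) (g : G K)
    (m : GL (Fin 2) ℝ) (c : ℝ) : pull368 hw φ g (m * rotG368 c) = pull368 hw φ g m := by
  unfold pull368
  rw [map_mul, ← mul_assoc]
  exact hφ.arch_compact w _ (isArchCompact_rot368 hw c) _

/-- Same place. -/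
theorem circle_comm_same368 {w : InfinitePlace K} (hw : w.IsReal) (hφ : IsCuspFn 𝔫 φ)
    {t t' : ℝ} {Y Y' : ℝ → G K} (hY : IsCircleAt w t Y) (hY' : IsCircleAt w t' Y') (g : G K) :
    circleMean Y (circleMean Y' φ) g = circleMean Y' (circleMean Y φ) g := by
  have h1 : ∀ θ θ' : ℝ, φ (g * Y θ * Y' θ')
      = pull368 hw φ g (rotG368 θ * torG368 t * (rotG368 θ' * torG368 t')) := by
    intro θ θ'
    unfold pull368
    rw [circle_eq368 hw hY θ, circle_eq368 hw hY' θ', mul_assoc, ← map_mul]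
  have h2 : ∀ θ θ' : ℝ, φ (g * Y' θ' * Y θ)
      = pull368 hw φ g (rotG368 θ' * torG368 t' * (rotG368 θ * torG368 t)) := by
    intro θ θ'
    unfold pull368
    rw [circle_eq368 hw hY θ, circle_eq368 hw hY' θ', mul_assoc, ← map_mul]
  show (∫ θ in (0 : ℝ)..(2 * Real.pi), ∫ θ' in (0 : ℝ)..(2 * Real.pi), φ (g * Y θ * Y' θ'))
    = ∫ θ' in (0 : ℝ)..(2 * Real.pi), ∫ θ in (0 : ℝ)..(2 * Real.pi), φ (g * Y' θ' * Y θ)
  simp only [h1, h2]
  exact circle_comm_real368 (continuous_pull368 hw hφ.cont g) (pull368_inv hw hφ g)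
    (torG368 t) (torG368 t') (torR368_transpose t) (torR368_transpose t')

/-- Elements supported at two different infinite places commute. -/
theorem commute_of_local368 {w w' : InfinitePlace K} (h : w' ≠ w) {y y' : G K}
    (hy : IsLocalAtInf w y) (hy' : IsLocalAtInf w' y') : y * y' = y' * y := by
  refine commute_of_triv (fun w'' => ?_) (fun v => Or.inl ((trivAtFin_iff_hom v y).1 (hy.2 v)))
  by_cases h' : w'' = w
  · subst h'
    exact Or.inr ((trivAtInf_iff_hom w'' y').1 (hy'.1 w'' (Ne.symm h)))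
  · exact Or.inl ((trivAtInf_iff_hom w'' y).1 (hy.1 w'' h'))

/-- Different places. -/
theorem circle_comm_diff368 {w w' : InfinitePlace K} (hw : w.IsReal) (hw' : w'.IsReal)
    (h : w' ≠ w) (hφ : IsCuspFn 𝔫 φ)
    {t t' : ℝ} {Y Y' : ℝ → G K} (hY : IsCircleAt w t Y) (hY' : IsCircleAt w' t' Y') (g : G K) :
    circleMean Y (circleMean Y' φ) g = circleMean Y' (circleMean Y φ) g := by
  have h2pi : (0 : ℝ) ≤ 2 * Real.pi := by positivity
  have hcomm : ∀ θ θ' : ℝ, g * Y' θ' * Y θ = g * Y θ * Y' θ' := by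
    intro θ θ'
    rw [mul_assoc, mul_assoc, commute_of_local368 h (hY θ).1 (hY' θ').1]
  have hYc : Continuous Y := by
    have : Y = fun θ => locInfReal hw (rotG368 θ * torG368 t) := funext (circle_eq368 hw hY)
    rw [this]
    exact (continuous_locInfReal hw).comp (continuous_rotG368.mul continuous_const)
  have hYc' : Continuous Y' := by
    have : Y' = fun θ => locInfReal hw' (rotG368 θ * torG368 t') := funext (circle_eq368 hw' hY')
    rw [this]
    exact (continuous_locInfReal hw').comp (continuous_rotG368.mul continuous_const)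
  have hcont : Continuous (Function.uncurry (fun θ θ' : ℝ => φ (g * Y θ * Y' θ'))) := by
    apply hφ.cont.comp
    exact (continuous_const.mul (hYc.comp continuous_fst)).mul (hYc'.comp continuous_snd)
  show (∫ θ in (0 : ℝ)..(2 * Real.pi), ∫ θ' in (0 : ℝ)..(2 * Real.pi), φ (g * Y θ * Y' θ'))
    = ∫ θ' in (0 : ℝ)..(2 * Real.pi), ∫ θ in (0 : ℝ)..(2 * Real.pi), φ (g * Y' θ' * Y θ)
  simp only [hcomm]
  exact intervalIntegral_swap368 _ hcont h2pi h2pi

/-- **T2.07.20**: two circle means commute on the cusp functions.  UNCONDITIONAL. -/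
theorem subCommCircleCircle368 (K : Type) [Field K] [NumberField K] :
    SubCommCircleCircle429 K := by
  intro 𝔫 _ w hw t _ Y hY w' hw' t' _ Y' hY' φ hφ
  funext g
  by_cases h : w' = w
  · subst h
    exact circle_comm_same368 hw hφ hY hY' g
  · exact circle_comm_diff368 hw hw' h hφ hY hY' g

end Adelic

end Fermat.Agent.LT.T2.H368

end

end
-- ===== PACK-END LT/T2/H368/CircleComm.lean

-- ===== PACK-BEGIN LT/T2/H437/LocReal.lean
section




/-!
# Row LT, tower T2, sub-leaf T2.02d.5c: `H724.LocRealC724` PROVED (helper437)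

Registry row 1083.  Statement = `Fermat.Agent.LT.T2.H724.LocRealC724` of
`LT/T2/H724/CommSpec.lean` (helper724@7fd05bef9), VERBATIM.  The hypothesis `M.det ≠ 0` is not
used.
-/

set_option autoImplicit false

namespace Fermat.Agent.LT.T2.H437

theorem locRealC724_holds437 : Fermat.Agent.LT.T2.H724.LocRealC724 :=
  fun M _ => locReal437 M

end Fermat.Agent.LT.T2.H437

end
-- ===== PACK-END LT/T2/H437/LocReal.lean

-- ===== PACK-BEGIN LT/T2/H768/LeafT15.lean
section






/-!
# Row LT, tower T2, leaf T2.35 `LeafT15` (helper768), OFF-MAIN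

`leafT15_768 K : T2.LeafT15 K`, i.e.
`T1.T1Out K → LeafT14 K → ∀ 𝔫 ≠ ⊥, OpsAdjT K 𝔫 trivType → CuspSpecT K 𝔫 trivType → CuspSpec K 𝔫`
VERBATIM (`LT/T2/SpecTau.lean` sha256 4d2b0fc2, `LT/T2/Spec.lean` v3 sha256 b934629a, byte-identical
copies of origin/helper130@e2e090185).

Proof.  Let `(u_j, m_j, a_j, b_j, c_j)` be a basis of the class `(𝔫, trivType, r)`.  Keep the
members with trivial central characters, `J₀ = {j : c_j(z) = 1 for every positive scalar z at
every infinite place}`.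
* For `j ∈ J₀` the function `u_j` is invariant under the positive scalars at every infinite place,
  hence a cusp function of `Spec.lean`.
* A circle `Y` at a real place `w` (radius `t`) is `Y θ = k θ * a` with `a = Y 0` (`rotY 0 = 1`)
  and `k θ = Y θ * (Y 0)⁻¹`, so `circleMean Y = circleMeanT trivType k a`.
* Parseval: for a cusp function `φ` of `Spec.lean` and `j ∉ J₀` choose `z` with `c_j(z) ≠ 1`;
  `S_z` is an isometry (`OpsAdjT`, second component), `S_z φ = φ`, `S_z u_j = c_j(z) u_j`, so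
  `⟨φ, u_j⟩ = conj (c_j z) ⟨φ, u_j⟩` and `⟨φ, u_j⟩ = 0`.  Hence the Parseval sum of the class is
  the sum over `J₀`.

The hypotheses `T1.T1Out K`, `𝔫 ≠ ⊥` and the existence part of `LeafT14` beyond one ray generator
are not used.
-/

set_option autoImplicit false

open IsDedekindDomain NumberField MeasureTheory AutomorphicForm
open Fermat.Agent.LT.H556.A0

noncomputable section

namespace Fermat.Agent.LT.T2.H768

open Fermat.Agent.LT.T2

variable {K : Type} [Field K] [NumberField K]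

attribute [local instance] Fermat.Agent.LT.T2.borelG

/-! ## Components of products -/

/-- The matrix of `g` at the infinite place `w`, with entries in the completion. -/
def infMat768 (w : InfinitePlace K) (g : G K) : Matrix (Fin 2) (Fin 2) w.Completion :=
  fun i j => ((g : Matrix (Fin 2) (Fin 2) (Adl K)) i j).1 w

theorem infMat_apply768 (w : InfinitePlace K) (g : G K) (i j : Fin 2) :
    infMat768 w g i j = ((g : Matrix (Fin 2) (Fin 2) (Adl K)) i j).1 w := rfl

theorem finComp_apply768 (v : HeightOneSpectrum (𝓞 K)) (g : G K) (i j : Fin 2) :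
    finComp v g i j = ((g : Matrix (Fin 2) (Fin 2) (Adl K)) i j).2 v := rfl

theorem infComp_apply768 (w : InfinitePlace K) (g : G K) (i j : Fin 2) :
    infComp w g i j = InfinitePlace.Completion.extensionEmbedding w
      (((g : Matrix (Fin 2) (Fin 2) (Adl K)) i j).1 w) := rfl

theorem trivAtInf_iff768 (w : InfinitePlace K) (g : G K) :
    TrivAtInf w g ↔ infMat768 w g = 1 := by
  constructor
  · intro h
    apply Matrix.ext
    intro i j
    exact h i j
  · intro h i j
    have := congrFun (congrFun h i) j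
    exact this

theorem infMat_mul768 (w : InfinitePlace K) (x y : G K) :
    infMat768 w (x * y) = infMat768 w x * infMat768 w y := by
  apply Matrix.ext
  intro i j
  rw [Matrix.mul_apply, Fin.sum_univ_two, infMat_apply768, infMat_apply768, infMat_apply768,
    infMat_apply768, infMat_apply768, Units.val_mul, Matrix.mul_apply, Fin.sum_univ_two]
  rfl

theorem infMat_one768 (w : InfinitePlace K) : infMat768 w (1 : G K) = 1 := by
  apply Matrix.ext
  intro i j
  rw [infMat_apply768, Units.val_one, Matrix.one_apply, Matrix.one_apply]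
  split_ifs
  · rfl
  · rfl

theorem finComp_mul768 (v : HeightOneSpectrum (𝓞 K)) (x y : G K) :
    finComp v (x * y) = finComp v x * finComp v y := by
  apply Matrix.ext
  intro i j
  rw [Matrix.mul_apply, Fin.sum_univ_two, finComp_apply768, finComp_apply768, finComp_apply768,
    finComp_apply768, finComp_apply768, Units.val_mul, Matrix.mul_apply, Fin.sum_univ_two]
  rfl

theorem finComp_one768 (v : HeightOneSpectrum (𝓞 K)) : finComp v (1 : G K) = 1 := by
  apply Matrix.ext
  intro i j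
  rw [finComp_apply768, Units.val_one, Matrix.one_apply, Matrix.one_apply]
  split_ifs
  · rfl
  · rfl

theorem infComp_mul768 (w : InfinitePlace K) (x y : G K) :
    infComp w (x * y) = infComp w x * infComp w y := by
  apply Matrix.ext
  intro i j
  rw [Matrix.mul_apply, Fin.sum_univ_two, infComp_apply768, infComp_apply768, infComp_apply768,
    infComp_apply768, infComp_apply768, Units.val_mul, Matrix.mul_apply, Fin.sum_univ_two,
    ← map_mul, ← map_mul, ← map_add]
  rfl

theorem infComp_one768 (w : InfinitePlace K) : infComp w (1 : G K) = 1 := by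
  apply Matrix.ext
  intro i j
  rw [infComp_apply768, Units.val_one, Matrix.one_apply, Matrix.one_apply]
  split_ifs
  · exact map_one _
  · exact map_zero _

theorem trivAtInf_mul768 {w : InfinitePlace K} {x y : G K} (hx : TrivAtInf w x)
    (hy : TrivAtInf w y) : TrivAtInf w (x * y) := by
  rw [trivAtInf_iff768] at hx hy ⊢
  rw [infMat_mul768, hx, hy, one_mul]

theorem trivAtInf_inv768 {w : InfinitePlace K} {x : G K} (hx : TrivAtInf w x) :
    TrivAtInf w x⁻¹ := by
  rw [trivAtInf_iff768] at hx ⊢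
  have h := infMat_mul768 w x x⁻¹
  rw [mul_inv_cancel, infMat_one768, hx, one_mul] at h
  exact h.symm

theorem trivAtFin_mul768 {v : HeightOneSpectrum (𝓞 K)} {x y : G K} (hx : TrivAtFin v x)
    (hy : TrivAtFin v y) : TrivAtFin v (x * y) := by
  unfold TrivAtFin at hx hy ⊢
  rw [finComp_mul768, hx, hy, one_mul]

theorem trivAtFin_inv768 {v : HeightOneSpectrum (𝓞 K)} {x : G K} (hx : TrivAtFin v x) :
    TrivAtFin v x⁻¹ := by
  unfold TrivAtFin at hx ⊢
  have h := finComp_mul768 v x x⁻¹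
  rw [mul_inv_cancel, finComp_one768, hx, one_mul] at h
  exact h.symm

theorem isLocalAtInf_mul768 {w : InfinitePlace K} {x y : G K} (hx : IsLocalAtInf w x)
    (hy : IsLocalAtInf w y) : IsLocalAtInf w (x * y) :=
  ⟨fun w' hw' => trivAtInf_mul768 (hx.1 w' hw') (hy.1 w' hw'),
    fun v => trivAtFin_mul768 (hx.2 v) (hy.2 v)⟩

theorem isLocalAtInf_inv768 {w : InfinitePlace K} {x : G K} (hx : IsLocalAtInf w x) :
    IsLocalAtInf w x⁻¹ :=
  ⟨fun w' hw' => trivAtInf_inv768 (hx.1 w' hw'), fun v => trivAtFin_inv768 (hx.2 v)⟩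

/-! ## The circle means -/

theorem rotY_zero768 : rotY 0 = 1 := by
  apply Matrix.ext
  intro i j
  unfold rotY
  fin_cases i <;> fin_cases j <;> simp

/-- A circle at `w` is a rotation family times a torus element. -/
theorem circle_split768 {w : InfinitePlace K} {t : ℝ} {Y : ℝ → G K} (hY : IsCircleAt w t Y) :
    IsRotAt w (fun θ => Y θ * (Y 0)⁻¹) ∧ IsTorusAt w t (Y 0) := by
  have h0 : infComp w (Y 0) = torus t := by
    rw [(hY 0).2, rotY_zero768, one_mul]
  refine ⟨fun θ => ⟨isLocalAtInf_mul768 (hY θ).1 (isLocalAtInf_inv768 (hY 0).1), ?_⟩,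
    (hY 0).1, h0⟩
  have h1 : infComp w (Y 0) * infComp w (Y 0)⁻¹ = 1 := by
    rw [← infComp_mul768, mul_inv_cancel, infComp_one768]
  rw [infComp_mul768, (hY θ).2, mul_assoc, ← h0, h1, mul_one]

/-- The eigen-property for the twisted circle means at the trivial type gives the one of
`Spec.lean`. -/
theorem meanEigR_of_meanEigRT768 {φ : G K → ℂ} {w : InfinitePlace K} {m : ℝ → ℂ}
    (h : MeanEigRT trivType φ w m) : MeanEigR φ w m := by
  intro t ht Y hY g
  obtain ⟨hk, ha⟩ := circle_split768 hY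
  have h1 := h t ht (fun θ => Y θ * (Y 0)⁻¹) (Y 0) hk ha g
  rw [← h1]
  unfold circleMean circleMeanT
  have h2 : (fun θ : ℝ => (trivType (Y θ * (Y 0)⁻¹))⁻¹ * φ (g * (Y θ * (Y 0)⁻¹) * Y 0))
      = fun θ : ℝ => φ (g * Y θ) := by
    funext θ
    have h3 : g * (Y θ * (Y 0)⁻¹) * Y 0 = g * Y θ := by
      rw [mul_assoc, inv_mul_cancel_right]
    rw [h3]
    unfold trivType
    rw [inv_one, one_mul]
  rw [h2]

/-! ## The pairing -/

theorem pair_const_mul_right768 (F : Frame K) (φ ψ : G K → ℂ) (c : ℂ) :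
    pair F φ (fun g => c * ψ g) = (starRingEnd ℂ) c * pair F φ ψ := by
  unfold pair
  rw [← integral_const_mul]
  congr 1
  funext g
  rw [map_mul]
  ring

/-- Orthogonality of a function invariant under the positive scalars to an eigenfunction of a
central shift with eigenvalue `≠ 1`. -/
theorem pair_eq_zero768 {𝔫 : Ideal (𝓞 K)} {F : Frame K} {r : G K} (hr : IsRayGen r)
    (hadj : OpsAdjT K 𝔫 trivType) {φ ψ : G K → ℂ} (hφ : IsCuspFn 𝔫 φ)
    (hφT : IsCuspT 𝔫 trivType r φ) (hψ : IsCuspT 𝔫 trivType r ψ)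
    {w : InfinitePlace K} {z : G K} (hz : IsArchPosScalar w z) {c : ℂ}
    (hc : ∀ g : G K, ψ (g * z) = c * ψ g) (hne : c ≠ 1) : pair F φ ψ = 0 := by
  have h1 := (hadj ⟨F, r, hr⟩).2.1 w z hz φ ψ hφT hψ
  have h2 : shift z φ = φ := funext fun g => hφ.arch_scalar w z hz g
  have h3 : shift z ψ = fun g => c * ψ g := funext fun g => hc g
  rw [h2, h3] at h1
  have h1' : (starRingEnd ℂ) c * pair F φ ψ = pair F φ ψ := by
    rw [← pair_const_mul_right768]
    exact h1
  have h4 : ((starRingEnd ℂ) c - 1) * pair F φ ψ = 0 := by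
    rw [sub_mul, one_mul, h1', sub_self]
  rcases mul_eq_zero.mp h4 with h5 | h5
  · exfalso
    apply hne
    have h6 : (starRingEnd ℂ) c = 1 := sub_eq_zero.mp h5
    have h7 := congrArg (starRingEnd ℂ) h6
    rw [Complex.conj_conj, map_one] at h7
    exact h7
  · exact h5

/-! ## The leaf -/

/-- **Leaf T2.35** (`LeafT15`): back to the A0 class. -/
theorem leafT15_768 (K : Type) [Field K] [NumberField K] : LeafT15 K := by
  intro _hT1 h14 𝔫 _h𝔫 hadj hspec F
  obtain ⟨r, hr⟩ := h14.1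
  obtain ⟨ι, u, m, a, b, c, hB⟩ := hspec ⟨F, r, hr⟩
  have hcuspT : ∀ j, IsCuspT 𝔫 trivType r (u j) := fun j => hB.cusp j
  have hnorm : ∀ j, pair F (u j) (u j) = 1 := fun j => hB.norm_one j
  have horth : ∀ i j, i ≠ j → pair F (u i) (u j) = 0 := fun i j hij => hB.orth i j hij
  have hpars : ∀ φ : G K → ℂ, IsCuspT 𝔫 trivType r φ →
      HasSum (fun j => ‖pair F φ (u j)‖ ^ 2) (nsq F φ) := fun φ hφ => hB.parseval φ hφ
  refine ⟨{j : ι // ∀ (w : InfinitePlace K) (z : G K), IsArchPosScalar w z → c j z = 1},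
    fun j => u j.1, fun j => m j.1, fun j => a j.1, fun j => b j.1, ?_⟩
  refine
    { cusp := ?_
      norm_one := fun j => hnorm j.1
      orth := fun i j hij => horth i.1 j.1 (fun h => hij (Subtype.ext h))
      eig_complex := fun j w hw => hB.eig_complex j.1 w hw
      eig_real := fun j w hw => meanEigR_of_meanEigRT768 (hB.eig_real j.1 w hw)
      hecke := fun j v hv => hB.hecke j.1 v hv
      unit_b := fun j v hv => hB.unit_b j.1 v hv
      conj_a := fun j v hv => hB.conj_a j.1 v hv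
      bound_a := fun j v hv => hB.bound_a j.1 v hv
      real_m := fun j w d hd => hB.real_m j.1 w d hd
      parseval := ?_ }
  · intro j
    have hT := hcuspT j.1
    refine ⟨hT.aut.cont, hT.aut.bdd, hT.aut.left_inv, hT.aut.level_inv, ?_, ?_, hT.cuspidal⟩
    · intro w z hz g
      rw [hB.central j.1 w z hz g, j.2 w z hz, one_mul]
    · intro w k hk g
      rw [hT.aut.arch_compact w k hk g]
      unfold trivType
      rw [one_mul]
  · intro φ hφ
    have hφT : IsCuspT 𝔫 trivType r φ := isCuspT_of_isCuspFn h14.2 hφ hr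
    have hsum := hpars φ hφT
    have hsupp : Function.support (fun j : ι => ‖pair F φ (u j)‖ ^ 2)
        ⊆ {j : ι | ∀ (w : InfinitePlace K) (z : G K), IsArchPosScalar w z → c j z = 1} := by
      intro j hj
      by_contra hP
      apply hj
      have hP' : ¬ ∀ (w : InfinitePlace K) (z : G K), IsArchPosScalar w z → c j z = 1 := hP
      obtain ⟨w, hw⟩ := not_forall.mp hP'
      obtain ⟨z, hz'⟩ := not_forall.mp hw
      obtain ⟨hz, hne⟩ := Classical.not_imp.mp hz'
      have h0 : pair F φ (u j) = 0 :=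
        pair_eq_zero768 hr hadj hφ hφT (hcuspT j) hz (fun g => hB.central j w z hz g) hne
      show ‖pair F φ (u j)‖ ^ 2 = 0
      rw [h0, norm_zero]
      norm_num
    exact (hasSum_subtype_iff_of_support_subset hsupp).mpr hsum

end Fermat.Agent.LT.T2.H768

end

end
-- ===== PACK-END LT/T2/H768/LeafT15.lean

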