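import Mathlib
import Fermat.Agent.Pack.LT3.E8L1
import Fermat.Agent.Pack.LT2.E2L3
import Fermat.Agent.Pack.LT3.E3L2
import Fermat.Agent.Pack.LT3.E8L0
import Fermat.Agent.Pack.LT2.E6L3
import Fermat.Agent.Pack.LT3.E0L2
import Fermat.Agent.Pack.LT2.E6L2
import Fermat.Agent.Pack.LT3.E8L2
import Fermat.Agent.Pack.LT3.E3L3
import Fermat.Agent.Pack.LT3.E8L3
import Fermat.Agent.Pack.LT3.E5L1
import Fermat.Agent.Pack.LT3.E10L2

set_option linter.all false

-- ===== PACK-BEGIN LT/H670/QOut/Api2.lean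
section


/-!
# Row LT, T7.QOUT (helper670): API 2 -- components of elements of `GL₂(𝔸_ℚ)`

OFF-MAIN.  Proved lemmas only.

* `finEval v : 𝔸_ℚ →+* ℚ_v`, `infEval : 𝔸_ℚ →+* ℝ`;
* `finGL v : GL₂(𝔸_ℚ) →* GL₂(ℚ_v)`, `infGL : GL₂(𝔸_ℚ) →* GL₂(ℝ)`;
* `finComp_mul`, `finComp_one`, `finComp_inv_mul`;
* `G_ext` : equality of elements by components;
* `diagQ_eq : diagQ γ = locInf (toReal γ) * finPart γ`, `finComp_finPart`, `trivAtInf_finPart`;
* `locInf_comm` : `locInf m` commutes with every element trivial at the real place;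
* `eq_locInf_mul : g = locInf (infGL g) * finOf g`, `finOf g` trivial at the real place.
-/

set_option autoImplicit false

open IsDedekindDomain NumberField AutomorphicForm
open scoped MatrixGroups

noncomputable section

namespace Fermat.Agent.LT.H670.QOut

open Fermat.Agent.LT.H556

/-- evaluation at the finite place `v` -/
def finEval (v : HeightOneSpectrum (𝓞 ℚ)) : A0.Adl ℚ →+* v.adicCompletion ℚ :=
  (RestrictedProduct.evalRingHom (fun v : HeightOneSpectrum (𝓞 ℚ) => v.adicCompletion ℚ) v).comp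
    (RingHom.snd Ainf Afin)

theorem finEval_apply (v : HeightOneSpectrum (𝓞 ℚ)) (x : A0.Adl ℚ) : finEval v x = x.2 v := rfl

/-- evaluation at the real place -/
def infEval : A0.Adl ℚ →+* ℝ :=
  ((InfinitePlace.Completion.ringEquivRealOfIsReal
      (isReal_place Rat.infinitePlace) : Rat.infinitePlace.Completion →+* ℝ).comp
    (Pi.evalRingHom (fun w : InfinitePlace ℚ => w.Completion) Rat.infinitePlace)).comp
    (RingHom.fst Ainf Afin)

theorem finComp_eq_map (v : HeightOneSpectrum (𝓞 ℚ)) (g : A0.G ℚ) :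
    A0.finComp v g = (g : Matrix (Fin 2) (Fin 2) (A0.Adl ℚ)).map (finEval v) := rfl

theorem finComp_mul (v : HeightOneSpectrum (𝓞 ℚ)) (g h : A0.G ℚ) :
    A0.finComp v (g * h) = A0.finComp v g * A0.finComp v h := by
  rw [finComp_eq_map, finComp_eq_map, finComp_eq_map, Units.val_mul, Matrix.map_mul]

theorem finComp_one (v : HeightOneSpectrum (𝓞 ℚ)) : A0.finComp v (1 : A0.G ℚ) = 1 := by
  rw [finComp_eq_map, Units.val_one, Matrix.map_one _ (map_zero _) (map_one _)]

theorem finComp_inv_mul (v : HeightOneSpectrum (𝓞 ℚ)) (g : A0.G ℚ) :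
    A0.finComp v g⁻¹ * A0.finComp v g = 1 := by
  rw [← finComp_mul, inv_mul_cancel, finComp_one]

theorem finComp_mul_inv (v : HeightOneSpectrum (𝓞 ℚ)) (g : A0.G ℚ) :
    A0.finComp v g * A0.finComp v g⁻¹ = 1 := by
  rw [← finComp_mul, mul_inv_cancel, finComp_one]

/-- `GL₂(𝔸_ℚ) → GL₂(ℚ_v)` -/
def finGL (v : HeightOneSpectrum (𝓞 ℚ)) : A0.G ℚ →* GL (Fin 2) (v.adicCompletion ℚ) :=
  Matrix.GeneralLinearGroup.map (finEval v)

theorem coe_finGL (v : HeightOneSpectrum (𝓞 ℚ)) (g : A0.G ℚ) :
    ((finGL v g : GL (Fin 2) (v.adicCompletion ℚ)) : Matrix (Fin 2) (Fin 2) (v.adicCompletion ℚ))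
      = A0.finComp v g := rfl

/-- `GL₂(𝔸_ℚ) → GL₂(ℝ)` -/
def infGL : A0.G ℚ →* GL (Fin 2) ℝ := Matrix.GeneralLinearGroup.map infEval

/-! ## Triviality at the real place -/

/-- projection to the infinite adeles -/
def infProj : A0.Adl ℚ →+* Ainf :=
  (RingHom.fst Ainf Afin).comp (adlEquiv : A0.Adl ℚ →+* Ainf × Afin)

theorem infProj_apply (x : A0.Adl ℚ) : infProj x = x.1 := rfl

theorem ainf_one_apply (w : InfinitePlace ℚ) : (1 : Ainf) w = 1 := rfl
theorem ainf_zero_apply (w : InfinitePlace ℚ) : (0 : Ainf) w = 0 := rfl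

theorem one_ainf_apply (i j : Fin 2) (w : InfinitePlace ℚ) :
    ((1 : Matrix (Fin 2) (Fin 2) Ainf) i j) w = (1 : Matrix (Fin 2) (Fin 2) w.Completion) i j := by
  by_cases hij : i = j
  · rw [hij, Matrix.one_apply_eq, Matrix.one_apply_eq]; rfl
  · rw [Matrix.one_apply_ne hij, Matrix.one_apply_ne hij]; rfl

theorem trivAtInf_iff (g : A0.G ℚ) :
    (∀ w : InfinitePlace ℚ, A0.TrivAtInf w g) ↔
      (g : Matrix (Fin 2) (Fin 2) (A0.Adl ℚ)).map infProj = 1 := by
  constructor
  · intro h
    refine Matrix.ext fun i j => ?_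
    funext w
    rw [one_ainf_apply]
    exact h w i j
  · intro h w i j
    rw [← one_ainf_apply, ← h]
    rfl

/-- equality by components -/
theorem G_ext {g h : A0.G ℚ}
    (hinf : (g : Matrix (Fin 2) (Fin 2) (A0.Adl ℚ)).map infProj
      = (h : Matrix (Fin 2) (Fin 2) (A0.Adl ℚ)).map infProj)
    (hfin : ∀ v : HeightOneSpectrum (𝓞 ℚ), A0.finComp v g = A0.finComp v h) : g = h := by
  apply Units.ext
  refine Matrix.ext fun i j => Prod.ext (congrFun (congrFun hinf i) j) ?_
  refine FiniteAdeleRing.ext ℚ (fun v => ?_)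
  exact congrFun (congrFun (hfin v) i) j

/-! ## Local elements -/

theorem map_infProj_mul (g h : A0.G ℚ) :
    ((g * h : A0.G ℚ) : Matrix (Fin 2) (Fin 2) (A0.Adl ℚ)).map infProj
      = (g : Matrix (Fin 2) (Fin 2) (A0.Adl ℚ)).map infProj
        * (h : Matrix (Fin 2) (Fin 2) (A0.Adl ℚ)).map infProj := by
  rw [Units.val_mul, Matrix.map_mul]

theorem map_infProj_one :
    ((1 : A0.G ℚ) : Matrix (Fin 2) (Fin 2) (A0.Adl ℚ)).map infProj = 1 := by
  rw [Units.val_one, Matrix.map_one _ (map_zero _) (map_one _)]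

theorem trivAtInf_mul {g h : A0.G ℚ} (hg : ∀ w : InfinitePlace ℚ, A0.TrivAtInf w g)
    (hh : ∀ w : InfinitePlace ℚ, A0.TrivAtInf w h) :
    ∀ w : InfinitePlace ℚ, A0.TrivAtInf w (g * h) := by
  rw [trivAtInf_iff] at hg hh ⊢
  rw [map_infProj_mul, hg, hh, one_mul]

theorem trivAtInf_one : ∀ w : InfinitePlace ℚ, A0.TrivAtInf w (1 : A0.G ℚ) := by
  rw [trivAtInf_iff]
  exact map_infProj_one

/-- the inverse of an element trivial at the real place is trivial at the real place -/
theorem trivAtInf_inv {g : A0.G ℚ} (hg : ∀ w : InfinitePlace ℚ, A0.TrivAtInf w g) :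
    ∀ w : InfinitePlace ℚ, A0.TrivAtInf w g⁻¹ := by
  rw [trivAtInf_iff] at hg ⊢
  have h1 := map_infProj_mul g⁻¹ g
  rw [inv_mul_cancel, map_infProj_one, hg, mul_one] at h1
  exact h1.symm

theorem trivAtInf_locFin' (v : HeightOneSpectrum (𝓞 ℚ)) (m : GL (Fin 2) (v.adicCompletion ℚ)) :
    ∀ w : InfinitePlace ℚ, A0.TrivAtInf w (locFin v m) := fun w => trivAtInf_locFin v m w

/-- `locInf m` commutes with every element trivial at the real place -/
theorem locInf_comm (m : GL (Fin 2) ℝ) {g : A0.G ℚ}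
    (hg : ∀ w : InfinitePlace ℚ, A0.TrivAtInf w g) : locInf m * g = g * locInf m := by
  rw [trivAtInf_iff] at hg
  apply G_ext
  · rw [map_infProj_mul, map_infProj_mul, hg, one_mul, mul_one]
  · intro v
    rw [finComp_mul, finComp_mul, finComp_locInf, one_mul, mul_one]

/-! ## Rational matrices -/

theorem finEval_algebraMap (v : HeightOneSpectrum (𝓞 ℚ)) (c : ℚ) :
    finEval v (algebraMap ℚ (A0.Adl ℚ) c) = algebraMap ℚ (v.adicCompletion ℚ) c := rfl

theorem finComp_diagQ (v : HeightOneSpectrum (𝓞 ℚ)) (γ : GL (Fin 2) ℚ) :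
    A0.finComp v (diagQ γ)
      = (γ : Matrix (Fin 2) (Fin 2) ℚ).map (algebraMap ℚ (v.adicCompletion ℚ)) := by
  refine Matrix.ext fun i j => ?_
  rfl

theorem finComp_finPart (v : HeightOneSpectrum (𝓞 ℚ)) (γ : GL (Fin 2) ℚ) :
    A0.finComp v (finPart γ)
      = (γ : Matrix (Fin 2) (Fin 2) ℚ).map (algebraMap ℚ (v.adicCompletion ℚ)) := by
  rw [finPart, finComp_mul, ← map_inv, finComp_locInf, one_mul, finComp_diagQ]

/-! ## The real component -/

theorem map_infProj_locInf (m : GL (Fin 2) ℝ) :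
    ((locInf m : A0.G ℚ) : Matrix (Fin 2) (Fin 2) (A0.Adl ℚ)).map infProj
      = (m : Matrix (Fin 2) (Fin 2) ℝ).map realToInf := rfl

theorem realToInf_ratCast (c : ℚ) : realToInf ((c : ℚ) : ℝ) = algebraMap ℚ Ainf c := by
  have h : (realToInf.comp (algebraMap ℚ ℝ)) = algebraMap ℚ Ainf := Subsingleton.elim _ _
  exact congrFun (congrArg DFunLike.coe h) c

theorem map_infProj_diagQ (γ : GL (Fin 2) ℚ) :
    ((diagQ γ : A0.G ℚ) : Matrix (Fin 2) (Fin 2) (A0.Adl ℚ)).map infProj
      = ((toReal γ : GL (Fin 2) ℝ) : Matrix (Fin 2) (Fin 2) ℝ).map realToInf := by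
  refine Matrix.ext fun i j => ?_
  show algebraMap ℚ Ainf (γ i j) = realToInf (algebraMap ℚ ℝ (γ i j))
  rw [← realToInf_ratCast]
  rfl

theorem diagQ_eq (γ : GL (Fin 2) ℚ) : diagQ γ = locInf (toReal γ) * finPart γ := by
  rw [finPart, mul_inv_cancel_left]

/-- the finite part of a rational matrix is trivial at the real place -/
theorem trivAtInf_finPart (γ : GL (Fin 2) ℚ) :
    ∀ w : InfinitePlace ℚ, A0.TrivAtInf w (finPart γ) := by
  rw [trivAtInf_iff, finPart, map_infProj_mul, ← map_inv, map_infProj_locInf, map_infProj_diagQ,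
    ← Matrix.map_mul, ← Units.val_mul, inv_mul_cancel, Units.val_one,
    Matrix.map_one _ (map_zero _) (map_one _)]

theorem finPart_mul (γ δ : GL (Fin 2) ℚ) : finPart (γ * δ) = finPart γ * finPart δ := by
  have h1 := diagQ_eq (γ * δ)
  rw [map_mul, diagQ_eq γ, diagQ_eq δ, map_mul, map_mul] at h1
  have hc : finPart γ * locInf (toReal δ) = locInf (toReal δ) * finPart γ :=
    (locInf_comm (toReal δ) (trivAtInf_finPart γ)).symm
  have h2 : locInf (toReal γ) * finPart γ * (locInf (toReal δ) * finPart δ)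
      = locInf (toReal γ) * locInf (toReal δ) * (finPart γ * finPart δ) := by
    rw [mul_assoc, ← mul_assoc (finPart γ), hc]
    simp only [mul_assoc]
  rw [h2] at h1
  exact (mul_left_cancel h1).symm

theorem finPart_inv (γ : GL (Fin 2) ℚ) : finPart γ⁻¹ = (finPart γ)⁻¹ := by
  have h := finPart_mul γ⁻¹ γ
  rw [inv_mul_cancel] at h
  have h1 : finPart (1 : GL (Fin 2) ℚ) = 1 := by
    rw [finPart, map_one, map_one, map_one, inv_one, one_mul]
  rw [h1] at h
  exact eq_inv_of_mul_eq_one_left h.symm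

theorem infEval_realToInf (w : InfinitePlace ℚ) (x : Ainf) (w' : InfinitePlace ℚ)
    (h : w = w') :
    (InfinitePlace.Completion.ringEquivRealOfIsReal (isReal_place w)).symm
      (InfinitePlace.Completion.ringEquivRealOfIsReal (isReal_place w') (x w')) = x w := by
  subst h
  exact RingEquiv.symm_apply_apply _ _

theorem realToInf_infEval (x : A0.Adl ℚ) : realToInf (infEval x) = infProj x := by
  funext w
  exact infEval_realToInf w x.1 Rat.infinitePlace (Subsingleton.elim _ _)

theorem map_infProj_eq (g : A0.G ℚ) :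
    (g : Matrix (Fin 2) (Fin 2) (A0.Adl ℚ)).map infProj
      = ((infGL g : GL (Fin 2) ℝ) : Matrix (Fin 2) (Fin 2) ℝ).map realToInf := by
  refine Matrix.ext fun i j => ?_
  exact (realToInf_infEval _).symm

/-- the part of `g` away from the real place -/
def finOf (g : A0.G ℚ) : A0.G ℚ := (locInf (infGL g))⁻¹ * g

theorem eq_locInf_mul (g : A0.G ℚ) : g = locInf (infGL g) * finOf g := by
  rw [finOf, mul_inv_cancel_left]

theorem trivAtInf_finOf (g : A0.G ℚ) : ∀ w : InfinitePlace ℚ, A0.TrivAtInf w (finOf g) := by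
  rw [trivAtInf_iff, finOf, map_infProj_mul, ← map_inv, map_infProj_locInf, map_infProj_eq g,
    ← Matrix.map_mul, ← Units.val_mul, inv_mul_cancel, Units.val_one,
    Matrix.map_one _ (map_zero _) (map_one _)]

end Fermat.Agent.LT.H670.QOut

end

end
-- ===== PACK-END LT/H670/QOut/Api2.lean

-- ===== PACK-BEGIN LT/T7/H698/QA1.lean
section




/-!
# Row LT, tower T7, sub-tower QOUT, leaf `QA1` (helper698): the base point

OFF-MAIN.  Proves `QOut.QA1` of `H670/QOut/SpecA.lean` (helper670) VERBATIM, unconditionally: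
`qa1_698 : QOut.QA1`.

Route (no strong approximation):
* `φ g ≠ 0`; after left translation by `diag(-1,1) ∈ GL₂(ℚ)` the real component `g_∞` of `g` has
  positive determinant, so `g_∞ = g_z · r · k_θ` (Iwasawa, `iwasawa698`), and with
  `g₀ = g_∞⁻¹ g` (trivial at the real place) `φ(g_z g₀) ≠ 0` (`exists_base698`);
* `φ₁(g) = φ(g g₀)`; `g₀` and `g₀⁻¹` have a common denominator `D` (`exists_den_both698`), and
  `g₀⁻¹ U(N₀ D²) g₀ ⊆ U(π.level)` for `N₀ = |π.level|` (`level_conj698`);
* at `p ∤ N₀ D²` the element `g₀` is in `GL₂(ℤ_p)`, so conjugation by `g₀` preserves the Hecke coset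
  systems and the scalar uniformisers (`hecke_conj698`).
-/

set_option autoImplicit false

open IsDedekindDomain NumberField AutomorphicForm
open CongruenceSubgroup UpperHalfPlane
open scoped MatrixGroups Manifold

noncomputable section

namespace Fermat.Agent.LT.T7.H698

open Fermat.Agent.LT.H556 Fermat.Agent.LT.H670 Fermat.Agent.LT.T8

/-! ## Bounded denominators -/

/-- natural numbers are integral at every finite place -/
theorem natCast_mem_int698 (v : HeightOneSpectrum (𝓞 ℚ)) (n : ℕ) :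
    ((n : ℕ) : v.adicCompletion ℚ) ∈ v.adicCompletionIntegers ℚ :=
  natCast_mem _ n

theorem dvd_mul_mem_int698 (v : HeightOneSpectrum (𝓞 ℚ)) {n m : ℕ} (h : n ∣ m)
    {a : v.adicCompletion ℚ} (ha : ((n : ℕ) : v.adicCompletion ℚ) * a ∈ v.adicCompletionIntegers ℚ) :
    ((m : ℕ) : v.adicCompletion ℚ) * a ∈ v.adicCompletionIntegers ℚ := by
  obtain ⟨c, rfl⟩ := h
  have h1 : (((n * c : ℕ)) : v.adicCompletion ℚ) * a
      = ((c : ℕ) : v.adicCompletion ℚ) * (((n : ℕ) : v.adicCompletion ℚ) * a) := by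
    push_cast; ring
  rw [h1]
  exact mul_mem (natCast_mem_int698 v c) ha

/-- one place: a nonzero natural number clears the denominator -/
theorem exists_nat_mul_mem698 (v : HeightOneSpectrum (𝓞 ℚ)) (a : v.adicCompletion ℚ) :
    ∃ n : ℕ, n ≠ 0 ∧ ((n : ℕ) : v.adicCompletion ℚ) * a ∈ v.adicCompletionIntegers ℚ := by
  obtain ⟨b, hb, hab⟩ :=
    HeightOneSpectrum.adicCompletion.mul_nonZeroDivisor_mem_adicCompletionIntegers (K := ℚ) v a
  have hb0 : b ≠ 0 := nonZeroDivisors.ne_zero hb
  have hI : Ideal.span {b} ≠ (⊥ : Ideal (𝓞 ℚ)) := by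
    rw [Ne, Ideal.span_singleton_eq_bot]; exact hb0
  refine ⟨Ideal.absNorm (Ideal.span {b}), ?_, ?_⟩
  · intro h0
    rw [Ideal.absNorm_eq_zero_iff] at h0
    exact hI h0
  · have hmem := Ideal.absNorm_mem (Ideal.span {b})
    rw [Ideal.mem_span_singleton] at hmem
    obtain ⟨c, hc⟩ := hmem
    have h2 : ((Ideal.absNorm (Ideal.span {b}) : ℕ) : v.adicCompletion ℚ)
        = algebraMap (𝓞 ℚ) (v.adicCompletion ℚ) b * algebraMap (𝓞 ℚ) (v.adicCompletion ℚ) c := by
      rw [← map_mul, ← hc, map_natCast]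
    rw [h2]
    have h3 : algebraMap (𝓞 ℚ) (v.adicCompletion ℚ) b * algebraMap (𝓞 ℚ) (v.adicCompletion ℚ) c * a
        = algebraMap (𝓞 ℚ) (v.adicCompletion ℚ) c * (a * algebraMap (𝓞 ℚ) (v.adicCompletion ℚ) b) := by
      ring
    rw [h3]
    refine mul_mem ?_ hab
    exact HeightOneSpectrum.coe_mem_adicCompletionIntegers v c

/-- a finite adele has a bounded denominator -/
theorem exists_nat_mul_mem_adele698 (x : FiniteAdeleRing (𝓞 ℚ) ℚ) :
    ∃ D : ℕ, D ≠ 0 ∧ ∀ v : HeightOneSpectrum (𝓞 ℚ),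
      ((D : ℕ) : v.adicCompletion ℚ) * x v ∈ v.adicCompletionIntegers ℚ := by
  classical
  have hfin : {v : HeightOneSpectrum (𝓞 ℚ) | x v ∉ v.adicCompletionIntegers ℚ}.Finite := by
    have := x.2
    rw [Filter.eventually_cofinite] at this
    exact this
  choose n hn0 hn using fun v : HeightOneSpectrum (𝓞 ℚ) => exists_nat_mul_mem698 v (x v)
  refine ⟨∏ v ∈ hfin.toFinset, n v, ?_, fun v => ?_⟩
  · exact Finset.prod_ne_zero_iff.2 fun v _ => hn0 v
  · by_cases hv : x v ∈ v.adicCompletionIntegers ℚ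
    · exact mul_mem (natCast_mem_int698 v _) hv
    · have hmem : v ∈ hfin.toFinset := by
        rw [Set.Finite.mem_toFinset]; exact hv
      exact dvd_mul_mem_int698 v (Finset.dvd_prod_of_mem n hmem) (hn v)

/-! ## The closure of an ideal -/

theorem natCast_ne_zero698 (v : HeightOneSpectrum (𝓞 ℚ)) {n : ℕ} (hn : n ≠ 0) :
    ((n : ℕ) : v.adicCompletion ℚ) ≠ 0 := by
  have h : ((n : ℕ) : v.adicCompletion ℚ) = algebraMap ℚ (v.adicCompletion ℚ) (n : ℚ) :=
    (map_natCast _ n).symm
  rw [h]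
  intro h0
  have h1 : algebraMap ℚ (v.adicCompletion ℚ) (n : ℚ) = algebraMap ℚ (v.adicCompletion ℚ) 0 := by
    rw [h0, map_zero]
  have h2 := (algebraMap ℚ (v.adicCompletion ℚ)).injective h1
  exact hn (by exact_mod_cast h2)

/-- `x · 𝒪_v ⊆ closure 𝔫` for `x ∈ 𝔫` -/
theorem mul_int_mem_idealClosure698 (𝔫 : Ideal (𝓞 ℚ)) (v : HeightOneSpectrum (𝓞 ℚ)) {x : 𝓞 ℚ}
    (hx : x ∈ 𝔫) {t : v.adicCompletion ℚ} (ht : t ∈ v.adicCompletionIntegers ℚ) :
    algebraMap ℚ (v.adicCompletion ℚ) (algebraMap (𝓞 ℚ) ℚ x) * t ∈ A0.idealClosure 𝔫 v := by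
  have hclosed : IsClosed {s : v.adicCompletion ℚ |
      algebraMap ℚ (v.adicCompletion ℚ) (algebraMap (𝓞 ℚ) ℚ x) * s ∈ A0.idealClosure 𝔫 v} := by
    have hc : Continuous fun s : v.adicCompletion ℚ =>
        algebraMap ℚ (v.adicCompletion ℚ) (algebraMap (𝓞 ℚ) ℚ x) * s :=
      continuous_const.mul continuous_id
    exact (isClosed_closure (s := _)).preimage hc
  have hdense : t ∈ closure ((algebraMap ℚ (v.adicCompletion ℚ)) ''
      {k : ℚ | v.valuation ℚ k ≤ 1}) := by
    rw [mem_closure_iff_nhds]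
    intro W hW
    have hopen : IsOpen ((v.adicCompletionIntegers ℚ : ValuationSubring (v.adicCompletion ℚ)) :
        Set (v.adicCompletion ℚ)) := Valued.isOpen_valuationSubring (v.adicCompletion ℚ)
    have hW' : W ∩ ((v.adicCompletionIntegers ℚ : ValuationSubring (v.adicCompletion ℚ)) :
        Set (v.adicCompletion ℚ)) ∈ nhds t := Filter.inter_mem hW (hopen.mem_nhds ht)
    obtain ⟨k, hk⟩ := (HeightOneSpectrum.denseRange_algebraMap ℚ v).mem_nhds hW'
    refine ⟨algebraMap ℚ (v.adicCompletion ℚ) k, hk.1, k, ?_, rfl⟩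
    have h2 : Valued.v (algebraMap ℚ (v.adicCompletion ℚ) k) ≤ 1 := hk.2
    have h3 : Valued.v (algebraMap ℚ (v.adicCompletion ℚ) k) = v.valuation ℚ k :=
      HeightOneSpectrum.valuedAdicCompletion_eq_valuation' v k
    rw [h3] at h2
    exact h2
  refine closure_minimal ?_ hclosed hdense
  rintro _ ⟨k, hk, rfl⟩
  have := T0.mul_mem_idealClosure 𝔫 v hx hk
  rw [map_mul] at this
  exact this

/-- elements of `closure (N)` are `N` times an integer -/
theorem inv_mul_mem_int_of_mem_lvl698 (v : HeightOneSpectrum (𝓞 ℚ)) {N : ℕ} (hN : N ≠ 0)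
    {y : v.adicCompletion ℚ} (hy : y ∈ A0.idealClosure (QOut.lvl N) v) :
    ((N : ℕ) : v.adicCompletion ℚ)⁻¹ * y ∈ v.adicCompletionIntegers ℚ := by
  have hN' := natCast_ne_zero698 v hN
  have hclosed : IsClosed {s : v.adicCompletion ℚ |
      ((N : ℕ) : v.adicCompletion ℚ)⁻¹ * s ∈ v.adicCompletionIntegers ℚ} := by
    have hc : Continuous fun s : v.adicCompletion ℚ => ((N : ℕ) : v.adicCompletion ℚ)⁻¹ * s :=
      continuous_const.mul continuous_id
    exact (Valued.isClosed_valuationSubring (v.adicCompletion ℚ)).preimage hc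
  refine closure_minimal ?_ hclosed hy
  rintro _ ⟨x, hx, rfl⟩
  have hx' : x ∈ Ideal.span {((N : ℕ) : 𝓞 ℚ)} := hx
  rw [Ideal.mem_span_singleton] at hx'
  obtain ⟨c, rfl⟩ := hx'
  show ((N : ℕ) : v.adicCompletion ℚ)⁻¹ *
    algebraMap ℚ (v.adicCompletion ℚ) (algebraMap (𝓞 ℚ) ℚ (((N : ℕ) : 𝓞 ℚ) * c))
      ∈ v.adicCompletionIntegers ℚ
  rw [map_mul, map_mul, map_natCast, map_natCast, ← mul_assoc, inv_mul_cancel₀ hN', one_mul]
  exact HeightOneSpectrum.coe_mem_adicCompletionIntegers v c

/-- conjugation of the level group by an element with bounded denominators -/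
theorem conj_level698 (𝔫 : Ideal (𝓞 ℚ)) (v : HeightOneSpectrum (𝓞 ℚ)) (N₀ D : ℕ) (hD : D ≠ 0)
    (hN0 : N₀ ≠ 0) (hN₀ : ((N₀ : ℕ) : 𝓞 ℚ) ∈ 𝔫)
    (A B U : Matrix (Fin 2) (Fin 2) (v.adicCompletion ℚ)) (hBA : B * A = 1)
    (hA : ∀ i j, ((D : ℕ) : v.adicCompletion ℚ) * A i j ∈ v.adicCompletionIntegers ℚ)
    (hB : ∀ i j, ((D : ℕ) : v.adicCompletion ℚ) * B i j ∈ v.adicCompletionIntegers ℚ)
    (hU : ∀ i j, (U - 1) i j ∈ A0.idealClosure (QOut.lvl (N₀ * D * D)) v) (i j : Fin 2) :
    (B * U * A - 1) i j ∈ A0.idealClosure 𝔫 v := by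
  have hN : N₀ * D * D ≠ 0 := Nat.mul_ne_zero (Nat.mul_ne_zero hN0 hD) hD
  have hN' := natCast_ne_zero698 v hN
  obtain ⟨y, hy, hUy⟩ : ∃ y : Fin 2 → Fin 2 → v.adicCompletion ℚ,
      (∀ k l, y k l ∈ v.adicCompletionIntegers ℚ) ∧
      ∀ k l, (U - 1) k l = (((N₀ * D * D : ℕ)) : v.adicCompletion ℚ) * y k l := by
    refine ⟨fun k l => (((N₀ * D * D : ℕ)) : v.adicCompletion ℚ)⁻¹ * (U - 1) k l,
      fun k l => inv_mul_mem_int_of_mem_lvl698 v hN (hU k l), fun k l => ?_⟩
    rw [← mul_assoc, mul_inv_cancel₀ hN', one_mul]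
  have h1 : B * U * A - 1 = B * (U - 1) * A := by
    rw [Matrix.mul_sub, Matrix.sub_mul, Matrix.mul_one, hBA]
  have hentry : (B * U * A - 1) i j
      = algebraMap ℚ (v.adicCompletion ℚ) (algebraMap (𝓞 ℚ) ℚ ((N₀ : ℕ) : 𝓞 ℚ)) *
        (((((D : ℕ) : v.adicCompletion ℚ) * B i 0) * y 0 0
            + (((D : ℕ) : v.adicCompletion ℚ) * B i 1) * y 1 0)
              * (((D : ℕ) : v.adicCompletion ℚ) * A 0 j)
          + ((((D : ℕ) : v.adicCompletion ℚ) * B i 0) * y 0 1
            + (((D : ℕ) : v.adicCompletion ℚ) * B i 1) * y 1 1)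
              * (((D : ℕ) : v.adicCompletion ℚ) * A 1 j)) := by
    rw [h1, Matrix.mul_apply, Fin.sum_univ_two, Matrix.mul_apply, Matrix.mul_apply,
      Fin.sum_univ_two, Fin.sum_univ_two, hUy 0 0, hUy 0 1, hUy 1 0, hUy 1 1, map_natCast,
      map_natCast]
    push_cast
    ring
  rw [hentry]
  refine mul_int_mem_idealClosure698 𝔫 v hN₀ ?_
  exact add_mem (mul_mem (add_mem (mul_mem (hB i 0) (hy 0 0)) (mul_mem (hB i 1) (hy 1 0)))
      (hA 0 j))
    (mul_mem (add_mem (mul_mem (hB i 0) (hy 0 1)) (mul_mem (hB i 1) (hy 1 1))) (hA 1 j))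

/-! ## Components at the real place -/

/-- the isomorphism of the completion at the real place with `ℝ` -/
def toR698 (w : InfinitePlace ℚ) : w.Completion ≃+* ℝ :=
  InfinitePlace.Completion.ringEquivRealOfIsReal (QOut.isReal_place w)

/-- the real component -/
def realOf698 : A0.G ℚ →* GL (Fin 2) ℝ :=
  (Matrix.GeneralLinearGroup.map ((toR698 Rat.infinitePlace : _ ≃+* ℝ) : _ →+* ℝ)).comp
    (H864.infCompHom Rat.infinitePlace)

theorem realOf698_apply (g : A0.G ℚ) (i j : Fin 2) :
    (realOf698 g : Matrix (Fin 2) (Fin 2) ℝ) i j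
      = toR698 Rat.infinitePlace (((g : Matrix (Fin 2) (Fin 2) (A0.Adl ℚ)) i j).1 Rat.infinitePlace) :=
  rfl

theorem infCompHom_locInf698 (w : InfinitePlace ℚ) (m : GL (Fin 2) ℝ) (i j : Fin 2) :
    (H864.infCompHom w (QOut.locInf m) : Matrix (Fin 2) (Fin 2) w.Completion) i j
      = (toR698 w).symm (m i j) := rfl

theorem realOf698_locInf (m : GL (Fin 2) ℝ) : realOf698 (QOut.locInf m) = m := by
  refine Units.ext (Matrix.ext fun i j => ?_)
  rw [realOf698_apply]
  exact (toR698 Rat.infinitePlace).apply_symm_apply (m i j)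

theorem infCompHom_locInf_realOf698 (w : InfinitePlace ℚ) (g : A0.G ℚ) :
    H864.infCompHom w (QOut.locInf (realOf698 g)) = H864.infCompHom w g := by
  obtain rfl : w = Rat.infinitePlace := Subsingleton.elim _ _
  refine Units.ext (Matrix.ext fun i j => ?_)
  rw [infCompHom_locInf698, realOf698_apply]
  exact (toR698 Rat.infinitePlace).symm_apply_apply _

theorem finCompHom_locInf698 (v : HeightOneSpectrum (𝓞 ℚ)) (m : GL (Fin 2) ℝ) :
    H864.finCompHom v (QOut.locInf m) = 1 :=
  (H864.trivAtFin_iff_hom v _).1 (QOut.trivAtFin_locInf v m)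

theorem realOf698_diagQ (γ : GL (Fin 2) ℚ) : realOf698 (QOut.diagQ γ) = QOut.toReal γ := by
  refine Units.ext (Matrix.ext fun i j => ?_)
  rw [realOf698_apply]
  show ((toR698 Rat.infinitePlace : _ ≃+* ℝ) : _ →+* ℝ)
    (algebraMap ℚ (Rat.infinitePlace : InfinitePlace ℚ).Completion (γ i j)) = algebraMap ℚ ℝ (γ i j)
  rw [eq_ratCast, map_ratCast, eq_ratCast]

/-- the part of `g` away from the real place -/
def finOf698 (g : A0.G ℚ) : A0.G ℚ := (QOut.locInf (realOf698 g))⁻¹ * g

theorem locInf_mul_finOf698 (g : A0.G ℚ) : QOut.locInf (realOf698 g) * finOf698 g = g :=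
  mul_inv_cancel_left _ _

theorem trivAtInf_finOf698 (g : A0.G ℚ) (w : InfinitePlace ℚ) : A0.TrivAtInf w (finOf698 g) := by
  rw [H864.trivAtInf_iff_hom, finOf698, map_mul, map_inv, infCompHom_locInf_realOf698,
    inv_mul_cancel]

/-- elements trivial at the real place commute with the elements at the real place -/
theorem comm_locInf698 {g : A0.G ℚ} (hg : ∀ w : InfinitePlace ℚ, A0.TrivAtInf w g)
    (m : GL (Fin 2) ℝ) : g * QOut.locInf m = QOut.locInf m * g :=
  H864.commute_of_triv (fun w => Or.inl ((H864.trivAtInf_iff_hom w g).1 (hg w)))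
    (fun v => Or.inr (finCompHom_locInf698 v m))

theorem trivAtInf_mul698 {g g' : A0.G ℚ} (hg : ∀ w : InfinitePlace ℚ, A0.TrivAtInf w g)
    (hg' : ∀ w : InfinitePlace ℚ, A0.TrivAtInf w g') (w : InfinitePlace ℚ) :
    A0.TrivAtInf w (g * g') := by
  rw [H864.trivAtInf_iff_hom, map_mul, (H864.trivAtInf_iff_hom w g).1 (hg w),
    (H864.trivAtInf_iff_hom w g').1 (hg' w), one_mul]

theorem trivAtInf_inv698 {g : A0.G ℚ} (hg : ∀ w : InfinitePlace ℚ, A0.TrivAtInf w g)
    (w : InfinitePlace ℚ) : A0.TrivAtInf w g⁻¹ := by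
  rw [H864.trivAtInf_iff_hom, map_inv, (H864.trivAtInf_iff_hom w g).1 (hg w), inv_one]

/-! ## The concrete elements at the real place -/

theorem infComp_kTheta698 (w : InfinitePlace ℚ) (θ : ℝ) :
    A0.infComp w (QOut.locInf (QOut.kTheta θ)) = QOut.rotC θ := by
  rw [QOut.infComp_locInf]
  refine Matrix.ext fun i j => ?_
  fin_cases i <;> fin_cases j <;> simp [QOut.kTheta, QOut.rotC]

theorem infComp_gzMat698 (w : InfinitePlace ℚ) (z : ℍ) :
    A0.infComp w (QOut.locInf (QOut.gzMat z)) = QOut.gzC z := by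
  rw [QOut.infComp_locInf]
  refine Matrix.ext fun i j => ?_
  fin_cases i <;> fin_cases j <;> simp [QOut.gzMat, QOut.gzC]

theorem isArchPosScalar698 (w : InfinitePlace ℚ) (r : ℝ) (hr : 0 < r) :
    A0.IsArchPosScalar w (QOut.locInf (QOut.scalR r hr)) := by
  refine ⟨QOut.isLocalAtInf_locInf w _, r, hr, ?_⟩
  rw [QOut.infComp_locInf]
  refine Matrix.ext fun i j => ?_
  fin_cases i <;> fin_cases j <;> simp [QOut.scalR]

/-! ## Iwasawa decomposition -/

theorem iwasawa698 (m : GL (Fin 2) ℝ) (hdet : 0 < (m : Matrix (Fin 2) (Fin 2) ℝ).det) :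
    ∃ (z : ℍ) (r : ℝ) (hr : 0 < r) (θ : ℝ),
      m = QOut.gzMat z * QOut.scalR r hr * QOut.kTheta θ := by
  set a := (m : Matrix (Fin 2) (Fin 2) ℝ) 0 0 with ha
  set b := (m : Matrix (Fin 2) (Fin 2) ℝ) 0 1 with hb
  set c := (m : Matrix (Fin 2) (Fin 2) ℝ) 1 0 with hc
  set d := (m : Matrix (Fin 2) (Fin 2) ℝ) 1 1 with hd
  have hdet' : 0 < a * d - b * c := by
    rw [Matrix.det_fin_two] at hdet; exact hdet
  have hs : 0 < c ^ 2 + d ^ 2 := by
    by_contra hneg
    have hc0 : c = 0 := by nlinarith [sq_nonneg c, sq_nonneg d]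
    have hd0 : d = 0 := by nlinarith [sq_nonneg c, sq_nonneg d]
    rw [hc0, hd0] at hdet'
    simp at hdet'
  have hr : 0 < Real.sqrt (c ^ 2 + d ^ 2) := Real.sqrt_pos.2 hs
  have hrr : Real.sqrt (c ^ 2 + d ^ 2) * Real.sqrt (c ^ 2 + d ^ 2) = c ^ 2 + d ^ 2 :=
    Real.mul_self_sqrt hs.le
  have hw0 : (⟨d, -c⟩ : ℂ) ≠ 0 := by
    intro h0
    have h1 := congrArg Complex.re h0
    have h2 := congrArg Complex.im h0
    simp only [Complex.zero_re, Complex.zero_im] at h1 h2
    have hc0 : c = 0 := by linarith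
    rw [hc0, h1] at hs
    simp at hs
  have hnorm : ‖(⟨d, -c⟩ : ℂ)‖ = Real.sqrt (c ^ 2 + d ^ 2) := by
    rw [Complex.norm_eq_sqrt_sq_add_sq]
    congr 1
    simp only
    ring
  have hcos : Real.sqrt (c ^ 2 + d ^ 2) * Real.cos (Complex.arg ⟨d, -c⟩) = d := by
    rw [Complex.cos_arg hw0, hnorm]
    field_simp
  have hsin : Real.sqrt (c ^ 2 + d ^ 2) * Real.sin (Complex.arg ⟨d, -c⟩) = -c := by
    rw [Complex.sin_arg, hnorm]
    field_simp
  have hy : 0 < (a * d - b * c) / (c ^ 2 + d ^ 2) := div_pos hdet' hs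
  refine ⟨⟨⟨(a * c + b * d) / (c ^ 2 + d ^ 2), (a * d - b * c) / (c ^ 2 + d ^ 2)⟩, hy⟩,
    Real.sqrt (c ^ 2 + d ^ 2), hr, Complex.arg ⟨d, -c⟩, ?_⟩
  refine Units.ext (Matrix.ext fun i j => ?_)
  have hs' : c ^ 2 + d ^ 2 ≠ 0 := hs.ne'
  generalize Real.sqrt (c ^ 2 + d ^ 2) = r at hr hrr hcos hsin ⊢
  generalize Complex.arg ⟨d, -c⟩ = θ at hcos hsin ⊢
  fin_cases i <;> fin_cases j
  · show a = _
    simp [QOut.gzMat, QOut.scalR, QOut.kTheta, Matrix.mul_apply, Fin.sum_univ_two,
      UpperHalfPlane.im, UpperHalfPlane.re]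
    have e : (a * d - b * c) / (c ^ 2 + d ^ 2) * r * Real.cos θ
        + -((a * c + b * d) / (c ^ 2 + d ^ 2) * r * Real.sin θ)
        = (a * d - b * c) / (c ^ 2 + d ^ 2) * (r * Real.cos θ)
          + -((a * c + b * d) / (c ^ 2 + d ^ 2) * (r * Real.sin θ)) := by ring
    rw [e, hcos, hsin]
    field_simp
    ring
  · show b = _
    simp [QOut.gzMat, QOut.scalR, QOut.kTheta, Matrix.mul_apply, Fin.sum_univ_two,
      UpperHalfPlane.im, UpperHalfPlane.re]
    have e : (a * d - b * c) / (c ^ 2 + d ^ 2) * r * Real.sin θ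
        + (a * c + b * d) / (c ^ 2 + d ^ 2) * r * Real.cos θ
        = (a * d - b * c) / (c ^ 2 + d ^ 2) * (r * Real.sin θ)
          + (a * c + b * d) / (c ^ 2 + d ^ 2) * (r * Real.cos θ) := by ring
    rw [e, hcos, hsin]
    field_simp
    ring
  · show c = _
    simp [QOut.gzMat, QOut.scalR, QOut.kTheta, Matrix.mul_apply, Fin.sum_univ_two,
      UpperHalfPlane.im, UpperHalfPlane.re]
    rw [hsin, neg_neg]
  · show d = _
    simp [QOut.gzMat, QOut.scalR, QOut.kTheta, Matrix.mul_apply, Fin.sum_univ_two,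
      UpperHalfPlane.im, UpperHalfPlane.re]
    rw [hcos]

/-! ## Integral matrices -/

theorem int_mul698 (v : HeightOneSpectrum (𝓞 ℚ))
    {A B : Matrix (Fin 2) (Fin 2) (v.adicCompletion ℚ)}
    (hA : ∀ i j, A i j ∈ v.adicCompletionIntegers ℚ)
    (hB : ∀ i j, B i j ∈ v.adicCompletionIntegers ℚ) (i j : Fin 2) :
    (A * B) i j ∈ v.adicCompletionIntegers ℚ := by
  rw [Matrix.mul_apply, Fin.sum_univ_two]
  exact add_mem (mul_mem (hA i 0) (hB 0 j)) (mul_mem (hA i 1) (hB 1 j))

theorem isIntegralAt_mul698 (v : HeightOneSpectrum (𝓞 ℚ)) {g g' : A0.G ℚ}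
    (hg : A0.IsIntegralAt v g) (hg' : A0.IsIntegralAt v g') : A0.IsIntegralAt v (g * g') := by
  intro i j
  rw [H864.finComp_mul]
  exact int_mul698 v hg hg' i j

/-- a natural number prime to `p` is a unit at `p` -/
theorem valued_natCast_eq_one698 (p : Nat.Primes) {D : ℕ} (hpD : ¬ (p : ℕ) ∣ D) :
    Valued.v (((D : ℕ) : (ratPrime p).adicCompletion ℚ)) = 1 := by
  have h1 : (((D : ℕ) : (ratPrime p).adicCompletion ℚ))
      = algebraMap ℚ ((ratPrime p).adicCompletion ℚ) (algebraMap (𝓞 ℚ) ℚ ((D : ℕ) : 𝓞 ℚ)) := by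
    rw [map_natCast, map_natCast]
  rw [h1]
  have h2 : Valued.v (algebraMap ℚ ((ratPrime p).adicCompletion ℚ)
      (algebraMap (𝓞 ℚ) ℚ ((D : ℕ) : 𝓞 ℚ)))
      = (ratPrime p).valuation ℚ (algebraMap (𝓞 ℚ) ℚ ((D : ℕ) : 𝓞 ℚ)) :=
    HeightOneSpectrum.valuedAdicCompletion_eq_valuation' (ratPrime p) _
  rw [h2, HeightOneSpectrum.valuation_eq_one_iff_notMem, QOut.natCast_mem_ratPrime_iff]
  exact hpD

theorem int_of_natCast_mul698 (p : Nat.Primes) {D : ℕ} (hpD : ¬ (p : ℕ) ∣ D)
    {x : (ratPrime p).adicCompletion ℚ}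
    (h : ((D : ℕ) : (ratPrime p).adicCompletion ℚ) * x ∈ (ratPrime p).adicCompletionIntegers ℚ) :
    x ∈ (ratPrime p).adicCompletionIntegers ℚ := by
  rw [HeightOneSpectrum.mem_adicCompletionIntegers] at h ⊢
  rw [map_mul, valued_natCast_eq_one698 p hpD, one_mul] at h
  exact h

/-! ## Bounded denominators of an element of `GL₂(𝔸_ℚ)` -/

theorem exists_den698 (g : A0.G ℚ) :
    ∃ D : ℕ, D ≠ 0 ∧ ∀ (v : HeightOneSpectrum (𝓞 ℚ)) (i j : Fin 2),
      ((D : ℕ) : v.adicCompletion ℚ) * A0.finComp v g i j ∈ v.adicCompletionIntegers ℚ := by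
  choose D hD0 hD using fun ij : Fin 2 × Fin 2 =>
    exists_nat_mul_mem_adele698 (((g : Matrix (Fin 2) (Fin 2) (A0.Adl ℚ)) ij.1 ij.2).2)
  refine ⟨∏ ij : Fin 2 × Fin 2, D ij, Finset.prod_ne_zero_iff.2 fun ij _ => hD0 ij,
    fun v i j => ?_⟩
  exact dvd_mul_mem_int698 v (Finset.dvd_prod_of_mem D (Finset.mem_univ (i, j))) (hD (i, j) v)

theorem exists_den_both698 (g : A0.G ℚ) :
    ∃ D : ℕ, D ≠ 0 ∧ (∀ (v : HeightOneSpectrum (𝓞 ℚ)) (i j : Fin 2),
      ((D : ℕ) : v.adicCompletion ℚ) * A0.finComp v g i j ∈ v.adicCompletionIntegers ℚ) ∧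
      ∀ (v : HeightOneSpectrum (𝓞 ℚ)) (i j : Fin 2),
      ((D : ℕ) : v.adicCompletion ℚ) * A0.finComp v g⁻¹ i j ∈ v.adicCompletionIntegers ℚ := by
  obtain ⟨D₁, h₁, hD₁⟩ := exists_den698 g
  obtain ⟨D₂, h₂, hD₂⟩ := exists_den698 g⁻¹
  refine ⟨D₁ * D₂, Nat.mul_ne_zero h₁ h₂, fun v i j => ?_, fun v i j => ?_⟩
  · exact dvd_mul_mem_int698 v (Dvd.intro _ rfl) (hD₁ v i j)
  · exact dvd_mul_mem_int698 v (Dvd.intro_left _ rfl) (hD₂ v i j)

/-! ## The level group -/

theorem finComp_inv_mul698 (v : HeightOneSpectrum (𝓞 ℚ)) (g : A0.G ℚ) :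
    A0.finComp v g⁻¹ * A0.finComp v g = 1 := by
  rw [← H864.finComp_mul, inv_mul_cancel, H864.finComp_one]

theorem finComp_mul_inv698 (v : HeightOneSpectrum (𝓞 ℚ)) (g : A0.G ℚ) :
    A0.finComp v g * A0.finComp v g⁻¹ = 1 := by
  rw [← H864.finComp_mul, mul_inv_cancel, H864.finComp_one]

theorem level_conj698 (𝔫 : Ideal (𝓞 ℚ)) (g₀ : A0.G ℚ)
    (hg₀ : ∀ w : InfinitePlace ℚ, A0.TrivAtInf w g₀) (N₀ D : ℕ) (hD : D ≠ 0) (hN0 : N₀ ≠ 0)
    (hN₀ : ((N₀ : ℕ) : 𝓞 ℚ) ∈ 𝔫)
    (hA : ∀ (v : HeightOneSpectrum (𝓞 ℚ)) (i j : Fin 2),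
      ((D : ℕ) : v.adicCompletion ℚ) * A0.finComp v g₀ i j ∈ v.adicCompletionIntegers ℚ)
    (hB : ∀ (v : HeightOneSpectrum (𝓞 ℚ)) (i j : Fin 2),
      ((D : ℕ) : v.adicCompletion ℚ) * A0.finComp v g₀⁻¹ i j ∈ v.adicCompletionIntegers ℚ)
    (u : A0.G ℚ) (hu : A0.InLevelGroup (QOut.lvl (N₀ * D * D)) u) :
    A0.InLevelGroup 𝔫 (g₀⁻¹ * u * g₀) := by
  refine ⟨fun w => trivAtInf_mul698 (trivAtInf_mul698 (trivAtInf_inv698 hg₀) hu.1) hg₀ w,
    fun v i j => ⟨?_, ?_⟩⟩
  · rw [H864.finComp_mul, H864.finComp_mul]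
    exact conj_level698 𝔫 v N₀ D hD hN0 hN₀ _ _ _ (finComp_inv_mul698 v g₀) (hA v) (hB v)
      (fun k l => (hu.2 v k l).1) i j
  · have e : (g₀⁻¹ * u * g₀)⁻¹ = g₀⁻¹ * u⁻¹ * g₀ := by
      rw [mul_inv_rev, mul_inv_rev, inv_inv, mul_assoc]
    rw [e, H864.finComp_mul, H864.finComp_mul]
    exact conj_level698 𝔫 v N₀ D hD hN0 hN₀ _ _ _ (finComp_inv_mul698 v g₀) (hA v) (hB v)
      (fun k l => (hu.2 v k l).2) i j

/-! ## Hecke operators -/

theorem scalar_comm698 (v : HeightOneSpectrum (𝓞 ℚ)) {z : A0.G ℚ}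
    (hz : A0.IsScalarUniformizerAt v z) (g : A0.G ℚ) : z * g = g * z := by
  obtain ⟨⟨hinf, hfin⟩, c, -, hc⟩ := hz
  refine H864.G_ext (fun w => ?_) (fun v' => ?_)
  · rw [map_mul, map_mul, (H864.trivAtInf_iff_hom w z).1 (hinf w), one_mul, mul_one]
  · by_cases hv : v' = v
    · subst hv
      refine Units.ext ?_
      rw [map_mul, map_mul]
      show A0.finComp v' z * A0.finComp v' g = A0.finComp v' g * A0.finComp v' z
      rw [hc]
      refine Matrix.ext fun i j => ?_
      rw [Matrix.diagonal_mul, Matrix.mul_diagonal, mul_comm]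
    · rw [map_mul, map_mul, (H864.trivAtFin_iff_hom v' z).1 (hfin v' hv), one_mul, mul_one]

theorem isLocalAtFin_conj698 (v : HeightOneSpectrum (𝓞 ℚ)) {g₀ h : A0.G ℚ}
    (hg₀ : ∀ w : InfinitePlace ℚ, A0.TrivAtInf w g₀) (hh : A0.IsLocalAtFin v h) :
    A0.IsLocalAtFin v (g₀⁻¹ * h * g₀) := by
  refine ⟨fun w => trivAtInf_mul698 (trivAtInf_mul698 (trivAtInf_inv698 hg₀) hh.1) hg₀ w,
    fun v' hv' => ?_⟩
  show A0.finComp v' (g₀⁻¹ * h * g₀) = 1
  have h1 : A0.finComp v' h = 1 := hh.2 v' hv'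
  rw [H864.finComp_mul, H864.finComp_mul, h1, mul_one, finComp_inv_mul698]

theorem heckeCoset_conj698 (v : HeightOneSpectrum (𝓞 ℚ)) {g₀ : A0.G ℚ}
    (hg₀ : ∀ w : InfinitePlace ℚ, A0.TrivAtInf w g₀)
    (hA : A0.IsIntegralAt v g₀) (hB : A0.IsIntegralAt v g₀⁻¹)
    [DecidableEq (A0.G ℚ)] {H : Finset (A0.G ℚ)} (hH : A0.IsHeckeCosetSystem v H) :
    A0.IsHeckeCosetSystem v (H.image fun h => g₀⁻¹ * h * g₀) := by
  have hinj : Function.Injective fun h : A0.G ℚ => g₀⁻¹ * h * g₀ := by
    intro h h' hhh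
    exact mul_left_cancel (mul_right_cancel hhh)
  refine ⟨?_, ?_, ?_⟩
  · rw [Finset.card_image_of_injective _ hinj]
    exact hH.1
  · intro h' hh'
    obtain ⟨h, hh, rfl⟩ := Finset.mem_image.1 hh'
    obtain ⟨hloc, hint, hdet⟩ := hH.2.1 h hh
    refine ⟨isLocalAtFin_conj698 v hg₀ hloc, isIntegralAt_mul698 v (isIntegralAt_mul698 v hB hint) hA,
      ?_⟩
    rw [H864.finComp_mul, H864.finComp_mul, Matrix.det_mul, Matrix.det_mul,
      mul_comm (A0.finComp v g₀⁻¹).det, mul_assoc, ← Matrix.det_mul, finComp_inv_mul698,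
      Matrix.det_one, mul_one]
    exact hdet
  · intro h₁' hh₁' h₂' hh₂' hne hint
    obtain ⟨h₁, hh₁, rfl⟩ := Finset.mem_image.1 hh₁'
    obtain ⟨h₂, hh₂, rfl⟩ := Finset.mem_image.1 hh₂'
    have hne' : h₁ ≠ h₂ := fun h => hne (by rw [h])
    refine hH.2.2 h₁ hh₁ h₂ hh₂ hne' ?_
    have e : h₁⁻¹ * h₂ = g₀ * ((g₀⁻¹ * h₁ * g₀)⁻¹ * (g₀⁻¹ * h₂ * g₀)) * g₀⁻¹ := by
      group
    rw [e]
    exact isIntegralAt_mul698 v (isIntegralAt_mul698 v hA hint) hB

theorem hecke_conj698 (φ : A0.G ℚ → ℂ) (v : HeightOneSpectrum (𝓞 ℚ)) (a b : ℂ)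
    (hφ : A0.IsHeckeEigenAt φ v a b) {g₀ : A0.G ℚ}
    (hg₀ : ∀ w : InfinitePlace ℚ, A0.TrivAtInf w g₀)
    (hA : A0.IsIntegralAt v g₀) (hB : A0.IsIntegralAt v g₀⁻¹) :
    A0.IsHeckeEigenAt (fun g => φ (g * g₀)) v a b := by
  classical
  refine ⟨fun H hH g => ?_, fun z hz g => ?_⟩
  · have h1 := hφ.1 _ (heckeCoset_conj698 v hg₀ hA hB hH) (g * g₀)
    have hinj : Function.Injective fun h : A0.G ℚ => g₀⁻¹ * h * g₀ := by
      intro h h' hhh
      exact mul_left_cancel (mul_right_cancel hhh)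
    rw [Finset.sum_image (fun x _ y _ hxy => hinj hxy)] at h1
    rw [← h1]
    refine Finset.sum_congr rfl fun h _ => ?_
    show φ (g * h * g₀) = φ (g * g₀ * (g₀⁻¹ * h * g₀))
    congr 1
    group
  · show φ (g * z * g₀) = b * φ (g * g₀)
    rw [mul_assoc, scalar_comm698 v hz g₀, ← mul_assoc]
    exact hφ.2 z hz (g * g₀)

theorem not_dvd_level698 (𝔫 : Ideal (𝓞 ℚ)) {N₀ : ℕ} (hN₀ : ((N₀ : ℕ) : 𝓞 ℚ) ∈ 𝔫)
    (p : Nat.Primes) (hp : ¬ (p : ℕ) ∣ N₀) : ¬ (ratPrime p).asIdeal ∣ 𝔫 := by
  intro hdvd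
  have hle : 𝔫 ≤ (ratPrime p).asIdeal := Ideal.le_of_dvd hdvd
  exact hp ((QOut.natCast_mem_ratPrime_iff p N₀).1 (hle hN₀))

/-! ## The base point -/

/-- `diag(-1, 1)` -/
def gammaNeg698 : GL (Fin 2) ℚ :=
  Matrix.GeneralLinearGroup.mkOfDetNeZero !![-1, 0; 0, 1] (by
    rw [Matrix.det_fin_two_of]; norm_num)

theorem det_toReal_gammaNeg698 :
    ((QOut.toReal gammaNeg698 : GL (Fin 2) ℝ) : Matrix (Fin 2) (Fin 2) ℝ).det = -1 := by
  rw [Matrix.det_fin_two]
  simp [QOut.toReal, gammaNeg698]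

theorem exists_base698 (π : HeckeEigensystem ℚ ℂ) (φ : A0.G ℚ → ℂ)
    (hφ : QOut.IsHolWtOneFormFor π φ) :
    ∃ (z : ℍ) (g₀ : A0.G ℚ), (∀ w : InfinitePlace ℚ, A0.TrivAtInf w g₀) ∧
      φ (QOut.locInf (QOut.gzMat z) * g₀) ≠ 0 := by
  obtain ⟨g, hg⟩ := hφ.ne_zero
  obtain ⟨g', hg', hdet⟩ : ∃ g' : A0.G ℚ, φ g' ≠ 0 ∧
      0 < ((realOf698 g' : GL (Fin 2) ℝ) : Matrix (Fin 2) (Fin 2) ℝ).det := by
    rcases lt_or_gt_of_ne (Matrix.GeneralLinearGroup.det_ne_zero (realOf698 g)) with hneg | hpos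
    · refine ⟨QOut.diagQ gammaNeg698 * g, ?_, ?_⟩
      · have := hφ.left_inv gammaNeg698 g
        rw [show φ (QOut.diagQ gammaNeg698 * g) = φ g from this]
        exact hg
      · rw [map_mul, realOf698_diagQ, Matrix.GeneralLinearGroup.coe_mul, Matrix.det_mul,
          det_toReal_gammaNeg698]
        linarith
    · exact ⟨g, hg, hpos⟩
  obtain ⟨z, r, hr, θ, hm⟩ := iwasawa698 (realOf698 g') hdet
  refine ⟨z, finOf698 g', trivAtInf_finOf698 g', ?_⟩
  have h1 : g' = QOut.locInf (QOut.gzMat z) * finOf698 g' * QOut.locInf (QOut.scalR r hr)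
      * QOut.locInf (QOut.kTheta θ) := by
    have h2 := locInf_mul_finOf698 g'
    rw [hm, map_mul, map_mul] at h2
    rw [mul_assoc (QOut.locInf (QOut.gzMat z)) (finOf698 g'),
      comm_locInf698 (trivAtInf_finOf698 g'),
      mul_assoc (QOut.locInf (QOut.gzMat z)), mul_assoc (QOut.locInf (QOut.scalR r hr)),
      comm_locInf698 (trivAtInf_finOf698 g'), ← mul_assoc (QOut.locInf (QOut.scalR r hr)),
      ← mul_assoc (QOut.locInf (QOut.gzMat z)), ← mul_assoc (QOut.locInf (QOut.gzMat z))]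
    exact h2.symm
  intro h0
  apply hg'
  rw [h1, hφ.weight_one Rat.infinitePlace θ _ (QOut.isLocalAtInf_locInf _ _)
      (infComp_kTheta698 _ θ),
    hφ.arch_scalar Rat.infinitePlace _ (isArchPosScalar698 _ r hr), h0, mul_zero]

/-! ## QA1 -/

theorem qa1_698 : QOut.QA1 := by
  intro π φ hφ
  obtain ⟨z, g₀, hg₀, hz⟩ := exists_base698 π φ hφ
  obtain ⟨D, hD0, hDA, hDB⟩ := exists_den_both698 g₀
  have hN₀0 : Ideal.absNorm π.level ≠ 0 := by
    intro h0
    rw [Ideal.absNorm_eq_zero_iff] at h0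
    exact π.level_ne_bot h0
  have hN₀ : ((Ideal.absNorm π.level : ℕ) : 𝓞 ℚ) ∈ π.level := Ideal.absNorm_mem π.level
  have hN : Ideal.absNorm π.level * D * D ≠ 0 :=
    Nat.mul_ne_zero (Nat.mul_ne_zero hN₀0 hD0) hD0
  refine ⟨Ideal.absNorm π.level * D * D, ⟨hN⟩, fun g => φ (g * g₀), ?_⟩
  refine
    { bdd := ?_
      left_inv := ?_
      level_inv := ?_
      arch_scalar := ?_
      weight_one := ?_
      holo := ?_
      hecke := ?_
      based := ?_ }
  · obtain ⟨C, hC⟩ := hφ.bdd
    exact ⟨C, fun g => hC _⟩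
  · intro γ g
    show φ (QOut.diagQ γ * g * g₀) = φ (g * g₀)
    rw [mul_assoc]
    exact hφ.left_inv γ (g * g₀)
  · intro u hu g
    show φ (g * u * g₀) = φ (g * g₀)
    have e : g * u * g₀ = g * g₀ * (g₀⁻¹ * u * g₀) := by group
    rw [e]
    exact hφ.level_inv _ (level_conj698 π.level g₀ hg₀ _ D hD0 hN₀0 hN₀ hDA hDB u hu) _
  · intro r hr g
    show φ (g * QOut.locInf (QOut.scalR r hr) * g₀) = φ (g * g₀)
    rw [mul_assoc, ← comm_locInf698 hg₀, ← mul_assoc]
    exact hφ.arch_scalar Rat.infinitePlace _ (isArchPosScalar698 _ r hr) _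
  · intro θ g
    show φ (g * QOut.locInf (QOut.kTheta θ) * g₀) = _ * φ (g * g₀)
    rw [mul_assoc, ← comm_locInf698 hg₀, ← mul_assoc]
    exact hφ.weight_one Rat.infinitePlace θ _ (QOut.isLocalAtInf_locInf _ _)
      (infComp_kTheta698 _ θ) _
  · intro g hg
    have h := hφ.holo Rat.infinitePlace (fun z => QOut.locInf (QOut.gzMat z))
      (fun z => ⟨QOut.isLocalAtInf_locInf _ _, infComp_gzMat698 _ z⟩) (g * g₀)
      (trivAtInf_mul698 hg hg₀)
    have e : QOut.famFn (fun g => φ (g * g₀)) g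
        = fun z : ℍ => (((Real.sqrt z.im : ℝ) : ℂ))⁻¹ * φ (QOut.locInf (QOut.gzMat z) * (g * g₀)) := by
      funext z
      simp only [QOut.famFn, mul_assoc]
    rw [e]
    exact h
  · intro p hp
    have hpN₀ : ¬ (p : ℕ) ∣ Ideal.absNorm π.level := fun h =>
      hp (Dvd.dvd.mul_right (Dvd.dvd.mul_right h D) D)
    have hpD : ¬ (p : ℕ) ∣ D := fun h => hp (Dvd.dvd.mul_left h _)
    exact hecke_conj698 φ (ratPrime p) _ _ (hφ.hecke (ratPrime p) (not_dvd_level698 π.level hN₀ p hpN₀))
      hg₀ (fun i j => int_of_natCast_mul698 p hpD (hDA (ratPrime p) i j))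
      (fun i j => int_of_natCast_mul698 p hpD (hDB (ratPrime p) i j))
  · exact ⟨z, hz⟩

end Fermat.Agent.LT.T7.H698

end

end
-- ===== PACK-END LT/T7/H698/QA1.lean

-- ===== PACK-BEGIN LT/T2/H228/ConvStable.lean
section



set_option autoImplicit false

open IsDedekindDomain NumberField MeasureTheory AutomorphicForm
open Fermat.Agent.LT.H556.A0

noncomputable section

namespace Fermat.Agent.LT.T2.H228

open Fermat.Agent.LT.T2

attribute [local instance] Fermat.Agent.LT.T2.borelG

variable {K : Type} [Field K] [NumberField K]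

/-- The Borel structure of `G K`. -/
theorem borelSpaceG228 : BorelSpace (G K) := ⟨rfl⟩

attribute [local instance] borelSpaceG228

/-! ## Local components -/

/-- The component at the infinite place `w`, as a ring homomorphism. -/
def infEval228 (w : InfinitePlace K) : Adl K →+* w.Completion :=
  (Pi.evalRingHom (fun w : InfinitePlace K => w.Completion) w).comp (RingHom.fst _ _)

/-- The component at the finite place `v`, as a ring homomorphism. -/
def finEval228 (v : HeightOneSpectrum (𝓞 K)) : Adl K →+* v.adicCompletion K :=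
  (RestrictedProduct.evalRingHom _ v).comp (RingHom.snd _ _)

@[simp] theorem infEval228_apply (w : InfinitePlace K) (x : Adl K) : infEval228 w x = x.1 w := rfl

@[simp] theorem finEval228_apply (v : HeightOneSpectrum (𝓞 K)) (x : Adl K) :
    finEval228 v x = x.2 v := rfl

/-- The component at `w` composed with the embedding into `ℂ`. -/
def infEmb228 (w : InfinitePlace K) : Adl K →+* ℂ :=
  (InfinitePlace.Completion.extensionEmbedding w).comp (infEval228 w)

theorem infComp_eq228 (w : InfinitePlace K) (g : G K) :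
    infComp w g = (infEmb228 w).mapMatrix (g : Matrix (Fin 2) (Fin 2) (Adl K)) := rfl

theorem finComp_eq228 (v : HeightOneSpectrum (𝓞 K)) (g : G K) :
    finComp v g = (finEval228 v).mapMatrix (g : Matrix (Fin 2) (Fin 2) (Adl K)) := rfl

theorem infComp_mul228 (w : InfinitePlace K) (g h : G K) :
    infComp w (g * h) = infComp w g * infComp w h := by
  simp only [infComp_eq228, Units.val_mul, map_mul]

theorem finComp_mul228 (v : HeightOneSpectrum (𝓞 K)) (g h : G K) :
    finComp v (g * h) = finComp v g * finComp v h := by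
  simp only [finComp_eq228, Units.val_mul, map_mul]

theorem infComp_one228 (w : InfinitePlace K) : infComp w (1 : G K) = 1 := by
  simp only [infComp_eq228, Units.val_one, map_one]

theorem finComp_one228 (v : HeightOneSpectrum (𝓞 K)) : finComp v (1 : G K) = 1 := by
  simp only [finComp_eq228, Units.val_one, map_one]

theorem infComp_mul_inv228 (w : InfinitePlace K) (g : G K) : infComp w g * infComp w g⁻¹ = 1 := by
  rw [← infComp_mul228, mul_inv_cancel, infComp_one228]

theorem infComp_inv_mul228 (w : InfinitePlace K) (g : G K) : infComp w g⁻¹ * infComp w g = 1 := by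
  rw [← infComp_mul228, inv_mul_cancel, infComp_one228]

theorem finComp_mul_inv228 (v : HeightOneSpectrum (𝓞 K)) (g : G K) :
    finComp v g * finComp v g⁻¹ = 1 := by
  rw [← finComp_mul228, mul_inv_cancel, finComp_one228]

theorem finComp_inv_mul228 (v : HeightOneSpectrum (𝓞 K)) (g : G K) :
    finComp v g⁻¹ * finComp v g = 1 := by
  rw [← finComp_mul228, inv_mul_cancel, finComp_one228]

/-- The determinant at the infinite place `w`. -/
theorem det_infComp228 (w : InfinitePlace K) (g : G K) :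
    (infComp w g).det = InfinitePlace.Completion.extensionEmbedding w
      ((Matrix.det (g : Matrix (Fin 2) (Fin 2) (Adl K))).1 w) := by
  rw [infComp_eq228, ← RingHom.map_det]; rfl

/-- The determinant at the finite place `v`. -/
theorem det_finComp228 (v : HeightOneSpectrum (𝓞 K)) (g : G K) :
    (finComp v g).det = (Matrix.det (g : Matrix (Fin 2) (Fin 2) (Adl K))).2 v := by
  rw [finComp_eq228, ← RingHom.map_det]; rfl

/-- The matrix of the components at `w` (in the completion). -/
def infMat228 (w : InfinitePlace K) (g : G K) : Matrix (Fin 2) (Fin 2) w.Completion :=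
  (infEval228 w).mapMatrix (g : Matrix (Fin 2) (Fin 2) (Adl K))

theorem trivAtInf_iff228 (w : InfinitePlace K) (g : G K) : TrivAtInf w g ↔ infMat228 w g = 1 := by
  constructor
  · intro h; exact Matrix.ext fun i j => h i j
  · intro h i j; exact congrFun (congrFun h i) j

theorem det_infMat228 (w : InfinitePlace K) (g : G K) :
    (infMat228 w g).det = (Matrix.det (g : Matrix (Fin 2) (Fin 2) (Adl K))).1 w := by
  rw [infMat228, ← RingHom.map_det]; rfl

theorem norm_det_inf228 (w : InfinitePlace K) (g : G K) :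
    ‖(Matrix.det (g : Matrix (Fin 2) (Fin 2) (Adl K))).1 w‖ = ‖(infComp w g).det‖ := by
  rw [det_infComp228]
  exact ((InfinitePlace.Completion.isometry_extensionEmbedding w).norm_map_of_map_zero
    (map_zero _) _).symm

/-! ## The level group and the compact groups at infinity -/

theorem idealClosure_subset228 (𝔫 : Ideal (𝓞 K)) (v : HeightOneSpectrum (𝓞 K)) :
    idealClosure 𝔫 v ⊆ (v.adicCompletionIntegers K : Set (v.adicCompletion K)) := by
  refine closure_minimal ?_ (Valued.isClosed_valuationSubring (v.adicCompletion K))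
  rintro _ ⟨x, -, rfl⟩
  exact HeightOneSpectrum.coe_algebraMap_mem (𝓞 K) K v x

theorem norm_le_one_of_mem228 (v : HeightOneSpectrum (𝓞 K)) {x : v.adicCompletion K}
    (hx : x ∈ v.adicCompletionIntegers K) : ‖x‖ ≤ 1 := by
  rw [Valued.toNormedField.norm_le_one_iff]
  exact (HeightOneSpectrum.mem_adicCompletionIntegers (𝓞 K) K v).1 hx

/-- A matrix with integral entries has an integral determinant. -/
theorem det_mem_of_entries228 (v : HeightOneSpectrum (𝓞 K))
    (A : Matrix (Fin 2) (Fin 2) (v.adicCompletion K))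
    (hA : ∀ i j, A i j ∈ v.adicCompletionIntegers K) : A.det ∈ v.adicCompletionIntegers K := by
  rw [Matrix.det_fin_two]
  exact sub_mem (mul_mem (hA 0 0) (hA 1 1)) (mul_mem (hA 0 1) (hA 1 0))

/-- `‖det‖_v = 1` for `g` integral at `v` together with its inverse. -/
theorem norm_det_fin_eq_one228 (v : HeightOneSpectrum (𝓞 K)) (g : G K)
    (h1 : IsIntegralAt v g) (h2 : IsIntegralAt v g⁻¹) : ‖(finComp v g).det‖ = 1 := by
  have a1 := norm_le_one_of_mem228 v (det_mem_of_entries228 v _ h1)
  have a2 := norm_le_one_of_mem228 v (det_mem_of_entries228 v _ h2)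
  have hm : ‖(finComp v g).det‖ * ‖(finComp v g⁻¹).det‖ = 1 := by
    rw [← norm_mul, ← Matrix.det_mul, finComp_mul_inv228, Matrix.det_one, norm_one]
  have b1 : 0 ≤ ‖(finComp v g).det‖ := norm_nonneg _
  have b2 : 0 ≤ ‖(finComp v g⁻¹).det‖ := norm_nonneg _
  nlinarith

theorem inLevelGroup_integral228 {𝔫 : Ideal (𝓞 K)} {u : G K} (hu : InLevelGroup 𝔫 u)
    (v : HeightOneSpectrum (𝓞 K)) : IsIntegralAt v u ∧ IsIntegralAt v u⁻¹ := by
  constructor
  · intro i j
    have h := idealClosure_subset228 𝔫 v ((hu.2 v i j).1)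
    have h1 : ((1 : Matrix (Fin 2) (Fin 2) (v.adicCompletion K)) i j)
        ∈ v.adicCompletionIntegers K := by
      by_cases hij : i = j
      · subst hij; simp only [Matrix.one_apply_eq]; exact one_mem _
      · simp only [Matrix.one_apply_ne hij]; exact zero_mem _
    have := add_mem h h1
    simpa [Matrix.sub_apply] using this
  · intro i j
    have h := idealClosure_subset228 𝔫 v ((hu.2 v i j).2)
    have h1 : ((1 : Matrix (Fin 2) (Fin 2) (v.adicCompletion K)) i j)
        ∈ v.adicCompletionIntegers K := by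
      by_cases hij : i = j
      · subst hij; simp only [Matrix.one_apply_eq]; exact one_mem _
      · simp only [Matrix.one_apply_ne hij]; exact zero_mem _
    have := add_mem h h1
    simpa [Matrix.sub_apply] using this

theorem infComp_eq_one_of_triv228 {w : InfinitePlace K} {g : G K} (h : TrivAtInf w g) :
    infComp w g = 1 := by
  have h1 : infMat228 w g = 1 := (trivAtInf_iff228 w g).1 h
  have h2 : infComp w g = (InfinitePlace.Completion.extensionEmbedding w).mapMatrix
      (infMat228 w g) := rfl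
  rw [h2, h1, map_one]

theorem trivAtInf_inv228 {w : InfinitePlace K} {g : G K} (h : TrivAtInf w g) :
    TrivAtInf w g⁻¹ := by
  rw [trivAtInf_iff228] at h ⊢
  have h1 : infMat228 w g * infMat228 w g⁻¹ = 1 := by
    unfold infMat228
    rw [← map_mul, ← Units.val_mul, mul_inv_cancel, Units.val_one, map_one]
  rw [h, one_mul] at h1
  exact h1

theorem trivAtFin_inv228 {v : HeightOneSpectrum (𝓞 K)} {g : G K} (h : TrivAtFin v g) :
    TrivAtFin v g⁻¹ := by
  unfold TrivAtFin at h ⊢
  have h1 := finComp_mul_inv228 v g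
  rw [h, one_mul] at h1
  exact h1

theorem inLevelGroup_inv228 {𝔫 : Ideal (𝓞 K)} {u : G K} (hu : InLevelGroup 𝔫 u) :
    InLevelGroup 𝔫 u⁻¹ := by
  refine ⟨fun w => trivAtInf_inv228 (hu.1 w), fun v i j => ⟨(hu.2 v i j).2, ?_⟩⟩
  rw [inv_inv]
  exact (hu.2 v i j).1

theorem isLocalAtInf_inv228 {w : InfinitePlace K} {g : G K} (h : IsLocalAtInf w g) :
    IsLocalAtInf w g⁻¹ :=
  ⟨fun w' hw' => trivAtInf_inv228 (h.1 w' hw'), fun v => trivAtFin_inv228 (h.2 v)⟩

theorem norm_det_of_unitary228 (A : Matrix (Fin 2) (Fin 2) ℂ) (hA : A * A.conjTranspose = 1) :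
    ‖A.det‖ = 1 := by
  have h1 : A.det * (starRingEnd ℂ) A.det = 1 := by
    have := congrArg Matrix.det hA
    rw [Matrix.det_mul, Matrix.det_conjTranspose, Matrix.det_one] at this
    exact this
  have h2 : ‖A.det‖ * ‖A.det‖ = 1 := by
    have := congrArg norm h1
    rw [norm_mul, RCLike.norm_conj, norm_one] at this
    exact this
  have h3 : 0 ≤ ‖A.det‖ := norm_nonneg _
  nlinarith

theorem isArchCompact_inv228 {w : InfinitePlace K} {k : G K} (hk : IsArchCompact w k) :
    IsArchCompact w k⁻¹ := by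
  refine ⟨isLocalAtInf_inv228 hk.1, ?_, ?_⟩
  · -- `A A* = 1` gives `A⁻¹ = A*`, hence `A⁻¹ (A⁻¹)* = A* A = 1`
    have h1 : infComp w k * (infComp w k).conjTranspose = 1 := hk.2.1
    have h2 : infComp w k⁻¹ = (infComp w k).conjTranspose := by
      calc infComp w k⁻¹ = infComp w k⁻¹ * (infComp w k * (infComp w k).conjTranspose) := by
            rw [h1, mul_one]
        _ = (infComp w k⁻¹ * infComp w k) * (infComp w k).conjTranspose := by
            rw [mul_assoc]
        _ = (infComp w k).conjTranspose := by rw [infComp_inv_mul228, one_mul]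
    rw [h2, Matrix.conjTranspose_conjTranspose]
    exact mul_eq_one_comm.mp h1
  · intro hw
    have h1 := hk.2.2 hw
    have h2 : (infComp w k).det * (infComp w k⁻¹).det = 1 := by
      rw [← Matrix.det_mul, infComp_mul_inv228, Matrix.det_one]
    rw [h1, one_mul] at h2
    exact h2


/-! ## Scalars at one infinite place are central -/

theorem adele_ext228 {x y : Adl K} (h1 : ∀ w : InfinitePlace K, x.1 w = y.1 w)
    (h2 : ∀ v : HeightOneSpectrum (𝓞 K), x.2 v = y.2 v) : x = y :=
  Prod.ext (funext h1) (RestrictedProduct.ext _ _ h2)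

/-- A matrix which is scalar at `w` and trivial at all other places is a scalar matrix. -/
theorem val_eq_scalar228 {w : InfinitePlace K} {z : G K} (hz : IsLocalAtInf w z) {r : ℂ}
    (hr : infComp w z = Matrix.diagonal (fun _ => r)) :
    (z : Matrix (Fin 2) (Fin 2) (Adl K))
      = Matrix.scalar (Fin 2) ((z : Matrix (Fin 2) (Fin 2) (Adl K)) 0 0) := by
  have hinj : Function.Injective (InfinitePlace.Completion.extensionEmbedding w) :=
    (InfinitePlace.Completion.extensionEmbedding w).injective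
  have hw : ∀ i j : Fin 2, InfinitePlace.Completion.extensionEmbedding w
      (((z : Matrix (Fin 2) (Fin 2) (Adl K)) i j).1 w)
        = (Matrix.diagonal (fun _ : Fin 2 => r)) i j := fun i j => congrFun (congrFun hr i) j
  have hoff : ∀ i j : Fin 2, i ≠ j → (z : Matrix (Fin 2) (Fin 2) (Adl K)) i j = 0 := by
    intro i j hij
    refine adele_ext228 (fun w' => ?_) (fun v => ?_)
    · by_cases hw' : w' = w
      · subst hw'
        apply hinj
        rw [hw i j, Matrix.diagonal_apply_ne _ hij]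
        exact (map_zero _).symm
      · have := hz.1 w' hw' i j
        rw [this, Matrix.one_apply_ne hij]; rfl
    · have := congrFun (congrFun (hz.2 v) i) j
      change ((z : Matrix (Fin 2) (Fin 2) (Adl K)) i j).2 v = _ at this
      rw [this, Matrix.one_apply_ne hij]; rfl
  have hdiag : (z : Matrix (Fin 2) (Fin 2) (Adl K)) 1 1
      = (z : Matrix (Fin 2) (Fin 2) (Adl K)) 0 0 := by
    refine adele_ext228 (fun w' => ?_) (fun v => ?_)
    · by_cases hw' : w' = w
      · subst hw'
        apply hinj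
        rw [hw 1 1, hw 0 0, Matrix.diagonal_apply_eq, Matrix.diagonal_apply_eq]
      · rw [hz.1 w' hw' 1 1, hz.1 w' hw' 0 0, Matrix.one_apply_eq, Matrix.one_apply_eq]
    · have h1 := congrFun (congrFun (hz.2 v) 1) 1
      have h0 := congrFun (congrFun (hz.2 v) 0) 0
      change ((z : Matrix (Fin 2) (Fin 2) (Adl K)) 1 1).2 v = _ at h1
      change ((z : Matrix (Fin 2) (Fin 2) (Adl K)) 0 0).2 v = _ at h0
      rw [h1, h0, Matrix.one_apply_eq, Matrix.one_apply_eq]
  ext i j
  fin_cases i <;> fin_cases j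
  · simp
  · simpa using hoff 0 1 (by decide)
  · simpa using hoff 1 0 (by decide)
  · simpa using hdiag

/-- Scalars at one infinite place are central in `G K`. -/
theorem archPosScalar_central228 {w : InfinitePlace K} {z : G K} (hz : IsArchPosScalar w z)
    (y : G K) : z * y = y * z := by
  obtain ⟨hloc, r, -, hr⟩ := hz
  have h := val_eq_scalar228 hloc (r := (r : ℂ)) hr
  apply Units.ext
  rw [Units.val_mul, Units.val_mul, h]
  exact (Matrix.scalar_commute _ (fun r' => Commute.all _ r') _).eq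


/-! ## Integrability -/

/-- A test function is integrable. -/
theorem integrable_testFn228 (hT : T1.T1Out K) (F : Frame K) {𝔫 : Ideal (𝓞 K)} {f : G K → ℂ}
    (hf : IsTestFn 𝔫 f) : Integrable f F.μ := by
  have := F.haar
  have : T2Space (G K) := hT.locComp.2.2.1
  exact hf.cont.integrable_of_hasCompactSupport hf.cpt

/-- The integrand of the convolution is integrable. -/
theorem integrable_conv228 (hT : T1.T1Out K) (F : Frame K) {𝔫 : Ideal (𝓞 K)} {f φ : G K → ℂ}
    (hf : IsTestFn 𝔫 f) (hφc : Continuous φ) (hφb : ∃ C : ℝ, ∀ g : G K, ‖φ g‖ ≤ C) (x : G K) :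
    Integrable (fun h => φ (x * h) * f h) F.μ := by
  obtain ⟨C, hC⟩ := hφb
  refine (integrable_testFn228 hT F hf).bdd_mul (c := C) ?_ ?_
  · exact (hφc.comp (continuous_const.mul continuous_id)).aestronglyMeasurable
  · exact Filter.Eventually.of_forall fun y => hC _

/-- `conv F f φ` is bounded. -/
theorem conv_bdd228 (hT : T1.T1Out K) (F : Frame K) {𝔫 : Ideal (𝓞 K)} {f φ : G K → ℂ}
    (hf : IsTestFn 𝔫 f) (hφb : ∃ C : ℝ, ∀ g : G K, ‖φ g‖ ≤ C) :
    ∃ C : ℝ, ∀ x : G K, ‖conv F f φ x‖ ≤ C := by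
  obtain ⟨C, hC⟩ := hφb
  have hI := (integrable_testFn228 hT F hf).norm
  refine ⟨∫ y, C * ‖f y‖ ∂F.μ, fun x => ?_⟩
  unfold conv
  refine norm_integral_le_of_norm_le (hI.const_mul C) (Filter.Eventually.of_forall fun y => ?_)
  rw [norm_mul]
  exact mul_le_mul_of_nonneg_right (hC _) (norm_nonneg _)

/-- `conv F f φ` is continuous. -/
theorem conv_continuous228 (hT : T1.T1Out K) (F : Frame K) {𝔫 : Ideal (𝓞 K)} {f φ : G K → ℂ}
    (hf : IsTestFn 𝔫 f) (hφc : Continuous φ) (hφb : ∃ C : ℝ, ∀ g : G K, ‖φ g‖ ≤ C) :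
    Continuous (conv F f φ) := by
  obtain ⟨C, hC⟩ := hφb
  have : SecondCountableTopology (G K) := hT.locComp.2.2.2
  have hI := (integrable_testFn228 hT F hf).norm
  unfold conv
  refine continuous_of_dominated (bound := fun y => C * ‖f y‖) ?_ ?_ (hI.const_mul C) ?_
  · intro x
    exact ((hφc.comp (continuous_const.mul continuous_id)).mul hf.cont).aestronglyMeasurable
  · intro x
    refine Filter.Eventually.of_forall fun y => ?_
    rw [norm_mul]
    exact mul_le_mul_of_nonneg_right (hC _) (norm_nonneg _)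
  · refine Filter.Eventually.of_forall fun y => ?_
    exact (hφc.comp (continuous_id.mul continuous_const)).mul continuous_const

/-- Left `GL₂(K)`-invariance passes to `conv F f φ`. -/
theorem conv_left_inv228 (F : Frame K) {f φ : G K → ℂ}
    (hφ : ∀ (γ : GL (Fin 2) K) (g : G K),
      φ (Matrix.GeneralLinearGroup.map (algebraMap K (Adl K)) γ * g) = φ g)
    (γ : GL (Fin 2) K) (g : G K) :
    conv F f φ (Matrix.GeneralLinearGroup.map (algebraMap K (Adl K)) γ * g) = conv F f φ g := by
  unfold conv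
  refine integral_congr_ae (Filter.Eventually.of_forall fun y => ?_)
  simp only [mul_assoc, hφ]

/-- Right invariance of `conv F f φ` under an element `u` under which `f` is left invariant. -/
theorem conv_right_inv228 (F : Frame K) {f φ : G K → ℂ} {u : G K}
    (hfu : ∀ g : G K, f (u⁻¹ * g) = f g) (x : G K) :
    conv F f φ (x * u) = conv F f φ x := by
  have := F.haar
  unfold conv
  have h1 : ∫ h, φ (x * u * h) * f h ∂F.μ
      = ∫ h, (fun h' => φ (x * h') * f (u⁻¹ * h')) (u * h) ∂F.μ := by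
    refine integral_congr_ae (Filter.Eventually.of_forall fun y => ?_)
    simp [mul_assoc]
  rw [h1]
  refine (integral_mul_left_eq_self (μ := F.μ) (fun h' => φ (x * h') * f (u⁻¹ * h')) u).trans ?_
  refine integral_congr_ae (Filter.Eventually.of_forall fun y => ?_)
  simp [hfu]

/-! ## Invariance properties of the convolution -/

theorem conv_level_inv228 (F : Frame K) {𝔫 : Ideal (𝓞 K)} {f : G K → ℂ}
    (hf : IsTestFn 𝔫 f) (φ : G K → ℂ) (u : G K) (hu : InLevelGroup 𝔫 u) (x : G K) :
    conv F f φ (x * u) = conv F f φ x :=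
  conv_right_inv228 F (fun g => hf.level_left u⁻¹ (inLevelGroup_inv228 hu) g) x

theorem conv_arch_compact228 (F : Frame K) {𝔫 : Ideal (𝓞 K)} {f : G K → ℂ}
    (hf : IsTestFn 𝔫 f) (φ : G K → ℂ) (w : InfinitePlace K) (k : G K) (hk : IsArchCompact w k)
    (x : G K) : conv F f φ (x * k) = conv F f φ x :=
  conv_right_inv228 F (fun g => hf.arch_left w k⁻¹ (isArchCompact_inv228 hk) g) x

theorem conv_arch_scalar228 (F : Frame K) (f : G K → ℂ) {φ : G K → ℂ}
    (hφ : ∀ (w : InfinitePlace K) (z : G K), IsArchPosScalar w z → ∀ g : G K, φ (g * z) = φ g)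
    (w : InfinitePlace K) (z : G K) (hz : IsArchPosScalar w z) (x : G K) :
    conv F f φ (x * z) = conv F f φ x := by
  unfold conv
  refine integral_congr_ae (Filter.Eventually.of_forall fun y => ?_)
  have : x * z * y = x * y * z := by
    rw [mul_assoc, archPosScalar_central228 hz y, ← mul_assoc]
  simp only [this, hφ w z hz]


/-! ## Cuspidality -/

/-- The Borel `σ`-algebra of the adeles (the one of `A0.IsCuspidalFn`, `T1.AddFundDomC`). -/
local instance borelA228 : MeasurableSpace (Adl K) := borel (Adl K)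

theorem borelSpaceA228 : BorelSpace (Adl K) := ⟨rfl⟩

attribute [local instance] borelSpaceA228

theorem countable_K228 : Countable K :=
  (Module.finBasis ℚ K).equivFun.toEquiv.countable_iff.mpr inferInstance

theorem countable_princ228 : Countable (T1.princ K) := by
  have : Countable K := countable_K228
  exact Set.countable_range _ |>.to_subtype

/-- A parametrisation of the upper unipotent matrices is continuous. -/
theorem continuous_unip228 (n : Adl K → G K)
    (hn : ∀ x : Adl K, (n x : Matrix (Fin 2) (Fin 2) (Adl K)) = !![1, x; 0, 1]) :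
    Continuous n := by
  rw [Units.continuous_iff]
  constructor
  · have : (Units.val ∘ n) = fun x : Adl K => !![1, x; 0, 1] := by
      funext x; exact hn x
    rw [this]
    refine continuous_matrix fun i j => ?_
    fin_cases i <;> fin_cases j <;> simp <;> fun_prop
  · have : (fun x : Adl K => (((n x)⁻¹ : G K) : Matrix (Fin 2) (Fin 2) (Adl K)))
        = fun x : Adl K => !![1, -x; 0, 1] := by
      funext x
      apply Units.inv_eq_of_mul_eq_one_right
      rw [hn x]
      ext i j
      fin_cases i <;> fin_cases j <;> simp [Matrix.mul_apply, Fin.sum_univ_two]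
    rw [this]
    refine continuous_matrix fun i j => ?_
    fin_cases i <;> fin_cases j <;> simp <;> fun_prop

/-- All fundamental domains of `K` in `𝔸_K` have finite measure. -/
theorem addFundDom_fin228 (hT : T1.T1Out K) (μA : Measure (Adl K)) (hμA : μA.IsAddHaarMeasure)
    (D : Set (Adl K))
    (hD : IsAddFundamentalDomain ((algebraMap K (Adl K)).toAddMonoidHom.range) D μA) :
    μA D < ⊤ := by
  have : SecondCountableTopology (Adl K) := hT.locComp.1.2.2
  have : Countable ((algebraMap K (Adl K)).toAddMonoidHom.range) := countable_princ228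
  obtain ⟨D₀, -, hD₀, -, -, hfin⟩ := hT.addFundDom μA hμA
  have h := hD.measure_eq hD₀
  rw [h]
  exact hfin

theorem conv_cuspidal228 (hT : T1.T1Out K) (F : Frame K) {𝔫 : Ideal (𝓞 K)} {f φ : G K → ℂ}
    (hf : IsTestFn 𝔫 f) (hφc : Continuous φ) (hφb : ∃ C : ℝ, ∀ g : G K, ‖φ g‖ ≤ C)
    (hφ : IsCuspidalFn φ) : IsCuspidalFn (conv F f φ) := by
  intro μA hμA D hD n hn g
  have := F.haar
  have : SecondCountableTopology (Adl K) := hT.locComp.1.2.2
  have : LocallyCompactSpace (G K) := hT.locComp.2.1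
  have : SecondCountableTopology (G K) := hT.locComp.2.2.2
  obtain ⟨C, hC⟩ := hφb
  have hDfin : μA D < ⊤ := addFundDom_fin228 hT μA hμA D hD
  have : IsFiniteMeasure (μA.restrict D) := isFiniteMeasure_restrict.2 hDfin.ne
  have hncont := continuous_unip228 n hn
  have hfI : Integrable (fun y => C * ‖f y‖) F.μ :=
    ((integrable_testFn228 hT F hf).norm).const_mul C
  -- integrability on the product
  have hprod : Integrable (Function.uncurry fun (x : Adl K) (y : G K) => φ (n x * g * y) * f y)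
      ((μA.restrict D).prod F.μ) := by
    have hb : Integrable (fun z : Adl K × G K => (1 : ℝ) * (C * ‖f z.2‖))
        ((μA.restrict D).prod F.μ) :=
      Integrable.mul_prod (f := fun _ : Adl K => (1 : ℝ)) (integrable_const _) hfI
    refine hb.mono' ?_ (Filter.Eventually.of_forall fun z => ?_)
    · have hcont : Continuous (Function.uncurry fun (x : Adl K) (y : G K) =>
          φ (n x * g * y) * f y) := by
        unfold Function.uncurry
        exact (hφc.comp (((hncont.comp continuous_fst).mul continuous_const).mul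
          continuous_snd)).mul (hf.cont.comp continuous_snd)
      exact hcont.aestronglyMeasurable
    · simp only [Function.uncurry, one_mul, norm_mul]
      exact mul_le_mul_of_nonneg_right (hC _) (norm_nonneg _)
  have hswap := integral_integral_swap hprod
  have hL : ∫ x in D, conv F f φ (n x * g) ∂μA
      = ∫ x in D, ∫ y, φ (n x * g * y) * f y ∂F.μ ∂μA := rfl
  rw [hL, hswap]
  have hzero : ∀ y : G K, ∫ x in D, φ (n x * g * y) * f y ∂μA = 0 := by
    intro y
    have h1 : ∫ x in D, φ (n x * g * y) * f y ∂μA = (∫ x in D, φ (n x * (g * y)) ∂μA) * f y := by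
      rw [← integral_mul_const]
      refine integral_congr_ae (Filter.Eventually.of_forall fun x => ?_)
      simp only [mul_assoc]
    rw [h1, hφ μA hμA D hD n hn (g * y), zero_mul]
  simp only [hzero, integral_zero]

/-! ## The leaf -/

/-- **T2.02b**: convolution by a test function preserves the cusp functions. -/
theorem leaf02b_228 : Leaf02b K := by
  intro hT 𝔫 _ F f φ hf hφ
  exact
    { cont := conv_continuous228 hT F hf hφ.cont hφ.bdd
      bdd := conv_bdd228 hT F hf hφ.bdd
      left_inv := conv_left_inv228 F hφ.left_inv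
      level_inv := fun u hu g => conv_level_inv228 F hf φ u hu g
      arch_scalar := fun w z hz g => conv_arch_scalar228 F f hφ.arch_scalar w z hz g
      arch_compact := fun w k hk g => conv_arch_compact228 F hf φ w k hk g
      cuspidal := conv_cuspidal228 hT F hf hφ.cont hφ.bdd hφ.cuspidal }

end Fermat.Agent.LT.T2.H228

end

end
-- ===== PACK-END LT/T2/H228/ConvStable.lean

-- ===== PACK-BEGIN LT/T2/H981/ConvAdj.lean
section



/-!
# Row LT, tower T2, leaf T2.02c `Leaf02c` (helper981): the adjoint of `conv F f` is `conv F (adj f)`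

OFF-MAIN.  Proves `Fermat.Agent.LT.T2.H228.Leaf02c K` VERBATIM (sub-spec
`Fermat/Agent/LT/T2/H228/ConvSpec.lean` of helper228@40fe6cf64, sha256 `d808ff41…`), against the CURRENT
architect bytes `Fermat/Agent/LT/T2/Spec.lean` v3 of helper130 (sha256 `b934629a…`:
`conv F f φ x = ∫ φ (x h) f h dμ(h)` over the whole group, `f` continuous with compact support).

## Proof

* `unfold981` (Mathlib only): `G` a second countable topological group with Borel structure,
  `μ` left invariant and σ-finite, `Δ` a countable subgroup, `D` a strict measurable fundamental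
  domain of `Δ` (left translations), `Φ` on `G × G` invariant under the diagonal left action of
  `Δ` and integrable on `D × G`.  Then `∫_D ∫_G Φ(x, y) dy dx = ∫_D ∫_G Φ(x, y) dx dy`.
  (`D × G` and `G × D` are two fundamental domains of the diagonal action on `G × G`:
  `IsFundamentalDomain.setIntegral_eq`; then Fubini.)
* `exists_z981`: a central element `z` of `GL₂(𝔸_K)`, an archimedean positive scalar at ONE
  infinite place `w` (so every cusp function is invariant under `z`), with `‖det z‖_𝔸 = 2`.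
* `delta981 z = GL₂(K) · z^ℤ` is a countable subgroup and the domain `F.D` of a frame is a strict
  fundamental domain of it in the whole group (`strict981`; uses `T1.AdNormC`: positivity,
  multiplicativity, product formula).
* `Φ(x, y) = φ(y) f(x⁻¹ y) conj ψ(x)` is continuous, invariant, and integrable on `D × G`
  (bounded by `C ‖f(x⁻¹ y)‖`, shear map, `μ(D) < ∞`).  Left invariance of `μ` turns both sides of
  the leaf into the two iterated integrals of `Φ`.

Unimodularity is NOT needed for v3 (`conv` is an integral over the whole group); only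
`T1Out.locComp` and `T1Out.adNorm` are used; the hypotheses `AdjTest228`, `ConvStable228` are not
used.
-/

set_option autoImplicit false

open IsDedekindDomain NumberField MeasureTheory AutomorphicForm
open Fermat.Agent.LT.H556.A0
open Fermat.Agent.LT

noncomputable section

namespace Fermat.Agent.LT.T2.H981

section Abstract

variable {G : Type*} [Group G] [TopologicalSpace G] [IsTopologicalGroup G] [MeasurableSpace G]
  [BorelSpace G] [SecondCountableTopology G]

omit [SecondCountableTopology G] in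
/-- The diagonal left action of a subgroup preserves the product of a left invariant measure
with itself. -/
theorem smulInvariant_prod981 (μ : Measure G) [SigmaFinite μ] [μ.IsMulLeftInvariant]
    (Δ : Subgroup G) : SMulInvariantMeasure Δ (G × G) (μ.prod μ) := by
  refine ⟨fun δ s hs => ?_⟩
  have h1 : MeasurePreserving (fun x : G => (δ : G) * x) μ μ := measurePreserving_mul_left μ (δ : G)
  have h2 : MeasurePreserving (Prod.map (fun x : G => (δ : G) * x) (fun x : G => (δ : G) * x))
      (μ.prod μ) (μ.prod μ) := h1.prod h1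
  have h3 : (fun z : G × G => δ • z) =
      Prod.map (fun x : G => (δ : G) * x) (fun x : G => (δ : G) * x) := by
    funext z
    rfl
  rw [h3]
  exact h2.measure_preimage hs.nullMeasurableSet

/-- **Unfolding**: for a strict fundamental domain `D` of a countable subgroup `Δ` and a function
`Φ` on `G × G` invariant under the diagonal action of `Δ`, the integral over `D × G` equals the
integral over `G × D`. -/
theorem unfold981 (μ : Measure G) [SigmaFinite μ] [μ.IsMulLeftInvariant]
    (Δ : Subgroup G) [Countable Δ] (D : Set G) (hD : MeasurableSet D)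
    (hstrict : ∀ g : G, ∃! δ : Δ, (δ : G) * g ∈ D)
    (Φ : G × G → ℂ) (hΦ : ∀ (δ : Δ) (x y : G), Φ ((δ : G) * x, (δ : G) * y) = Φ (x, y))
    (hint : IntegrableOn Φ (D ×ˢ Set.univ) (μ.prod μ)) :
    ∫ x in D, ∫ y, Φ (x, y) ∂μ ∂μ = ∫ y in D, ∫ x, Φ (x, y) ∂μ ∂μ := by
  have := smulInvariant_prod981 μ Δ
  have hA : IsFundamentalDomain Δ (D ×ˢ (Set.univ : Set G)) (μ.prod μ) := by
    refine IsFundamentalDomain.mk' (hD.prod MeasurableSet.univ).nullMeasurableSet ?_
    rintro ⟨x, y⟩
    obtain ⟨δ, hδ, huniq⟩ := hstrict x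
    refine ⟨δ, ⟨hδ, Set.mem_univ _⟩, fun δ' h' => huniq δ' h'.1⟩
  have hB : IsFundamentalDomain Δ ((Set.univ : Set G) ×ˢ D) (μ.prod μ) := by
    refine IsFundamentalDomain.mk' (MeasurableSet.univ.prod hD).nullMeasurableSet ?_
    rintro ⟨x, y⟩
    obtain ⟨δ, hδ, huniq⟩ := hstrict y
    refine ⟨δ, ⟨Set.mem_univ _, hδ⟩, fun δ' h' => huniq δ' h'.2⟩
  have hinv : ∀ (δ : Δ) (z : G × G), Φ (δ • z) = Φ z := fun δ z => hΦ δ z.1 z.2
  have hint' : IntegrableOn Φ ((Set.univ : Set G) ×ˢ D) (μ.prod μ) :=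
    (hA.integrableOn_iff hB hinv).1 hint
  have hEq := hA.setIntegral_eq hB hinv
  rw [setIntegral_prod Φ hint, setIntegral_prod Φ hint'] at hEq
  simp only [Measure.restrict_univ] at hEq
  rw [hEq]
  -- swap the order of integration on `G × D`
  have hint'' : Integrable (fun z : G × G => Φ z) (μ.prod (μ.restrict D)) := by
    have := hint'
    unfold IntegrableOn at this
    rwa [← Measure.prod_restrict, Measure.restrict_univ] at this
  exact integral_integral_swap (f := fun x y => Φ (x, y)) hint''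

end Abstract

variable {K : Type} [Field K] [NumberField K]

open scoped Classical

/-- A number field is countable. -/
theorem countable_field981 (K : Type) [Field K] [NumberField K] : Countable K :=
  (Module.finBasis ℚ K).equivFun.injective.countable

theorem countable_gl981 (K : Type) [Field K] [NumberField K] : Countable (GL (Fin 2) K) := by
  have := countable_field981 K
  have : Countable (Matrix (Fin 2) (Fin 2) K) := inferInstanceAs (Countable (Fin 2 → Fin 2 → K))
  exact (Units.val_injective (α := Matrix (Fin 2) (Fin 2) K)).countable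

omit [NumberField K] in
/-- Every real number is in the image of `extensionEmbedding`. -/
theorem exists_real981 (w : InfinitePlace K) (r : ℝ) :
    ∃ c : w.Completion, InfinitePlace.Completion.extensionEmbedding w c = (r : ℂ) := by
  rcases InfinitePlace.isReal_or_isComplex w with hw | hw
  · obtain ⟨c, hc⟩ := InfinitePlace.Completion.surjective_extensionEmbeddingOfIsReal hw r
    refine ⟨c, ?_⟩
    rw [← InfinitePlace.Completion.extensionEmbeddingOfIsReal_apply hw, hc]
  · exact InfinitePlace.Completion.surjective_extensionEmbedding_of_isComplex hw (r : ℂ)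

/-- The idele which is `c` at the infinite place `w` and `1` elsewhere. -/
def idele981 (w : InfinitePlace K) (c : w.Completion) (hc : c ≠ 0) : (Adl K)ˣ where
  val := (Pi.mulSingle w c, 1)
  inv := (Pi.mulSingle w c⁻¹, 1)
  val_inv := by
    refine Prod.ext ?_ (mul_one _)
    change Pi.mulSingle w c * Pi.mulSingle w c⁻¹ = 1
    rw [← Pi.mulSingle_mul, mul_inv_cancel₀ hc, Pi.mulSingle_one]
  inv_val := by
    refine Prod.ext ?_ (mul_one _)
    change Pi.mulSingle w c⁻¹ * Pi.mulSingle w c = 1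
    rw [← Pi.mulSingle_mul, inv_mul_cancel₀ hc, Pi.mulSingle_one]

theorem idele981_fst (w : InfinitePlace K) (c : w.Completion) (hc : c ≠ 0) :
    ((idele981 w c hc : (Adl K)ˣ) : Adl K).1 = Pi.mulSingle w c := rfl

theorem idele981_snd (w : InfinitePlace K) (c : w.Completion) (hc : c ≠ 0) :
    ((idele981 w c hc : (Adl K)ˣ) : Adl K).2 = 1 := rfl

/-- The module of `idele981`. -/
theorem adNorm_idele981 (w : InfinitePlace K) (c : w.Completion) (hc : c ≠ 0) :
    T1.adNorm K ((idele981 w c hc : (Adl K)ˣ) : Adl K) = ‖c‖ ^ w.mult := by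
  unfold T1.adNorm
  rw [idele981_fst, idele981_snd]
  have h1 : (∏ᶠ v : HeightOneSpectrum (𝓞 K),
      ‖((1 : FiniteAdeleRing (𝓞 K) K)) v‖) = 1 := by
    have : ∀ v : HeightOneSpectrum (𝓞 K), ‖((1 : FiniteAdeleRing (𝓞 K) K)) v‖ = 1 := by
      intro v
      change ‖(1 : v.adicCompletion K)‖ = 1
      exact norm_one
    simp only [this]
    exact finprod_one
  rw [h1, mul_one]
  rw [Finset.prod_eq_single w]
  · rw [Pi.mulSingle_eq_same]
  · intro w' _ hne
    rw [Pi.mulSingle_eq_of_ne hne, norm_one, one_pow]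
  · intro h
    exact absurd (Finset.mem_univ w) h


/-- The scalar matrix of `idele981`. -/
def zmat981 (w : InfinitePlace K) (c : w.Completion) (hc : c ≠ 0) : G K :=
  Matrix.GeneralLinearGroup.scalar (Fin 2) (idele981 w c hc)

theorem zmat981_entry (w : InfinitePlace K) (c : w.Completion) (hc : c ≠ 0) (i j : Fin 2) :
    (zmat981 w c hc : Matrix (Fin 2) (Fin 2) (Adl K)) i j
      = if i = j then ((idele981 w c hc : (Adl K)ˣ) : Adl K) else 0 := by
  unfold zmat981
  rw [Matrix.GeneralLinearGroup.coe_scalar, Matrix.scalar_apply, Matrix.diagonal_apply]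

theorem zmat981_central (w : InfinitePlace K) (c : w.Completion) (hc : c ≠ 0) (g : G K) :
    zmat981 w c hc * g = g * zmat981 w c hc :=
  Matrix.GeneralLinearGroup.scalar_commute _ g

theorem zmat981_local (w : InfinitePlace K) (c : w.Completion) (hc : c ≠ 0) :
    IsLocalAtInf w (zmat981 w c hc) := by
  refine ⟨fun w' hw' i j => ?_, fun v => ?_⟩
  · rw [zmat981_entry]
    by_cases hij : i = j
    · rw [if_pos hij, idele981_fst, Pi.mulSingle_eq_of_ne hw', hij, Matrix.one_apply_eq]
    · rw [if_neg hij, Matrix.one_apply_ne hij]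
      rfl
  · unfold TrivAtFin finComp
    funext i j
    rw [zmat981_entry]
    by_cases hij : i = j
    · rw [if_pos hij, idele981_snd, hij, Matrix.one_apply_eq]
      rfl
    · rw [if_neg hij, Matrix.one_apply_ne hij]
      rfl

theorem zmat981_archPos (w : InfinitePlace K) (c : w.Completion) (hc : c ≠ 0) (r : ℝ)
    (hr : 0 < r) (hcr : InfinitePlace.Completion.extensionEmbedding w c = (r : ℂ)) :
    IsArchPosScalar w (zmat981 w c hc) := by
  refine ⟨zmat981_local w c hc, r, hr, ?_⟩
  funext i j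
  unfold infComp
  rw [zmat981_entry, Matrix.diagonal_apply]
  by_cases hij : i = j
  · rw [if_pos hij, if_pos hij, idele981_fst, Pi.mulSingle_eq_same, hcr]
  · rw [if_neg hij, if_neg hij]
    exact map_zero _

/-- The module of the determinant. -/
def nrm981 (g : G K) : ℝ := T1.adNorm K (Matrix.det (g : Matrix (Fin 2) (Fin 2) (Adl K)))

theorem nrm981_eq (g : G K) :
    nrm981 g = T1.adNorm K ((Matrix.GeneralLinearGroup.det g : (Adl K)ˣ) : Adl K) := rfl

theorem nrm981_pos (hN : T1.AdNormC K) (g : G K) : 0 < nrm981 g := by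
  rw [nrm981_eq]
  exact hN.1 _

theorem nrm981_mul (hN : T1.AdNormC K) (g h : G K) : nrm981 (g * h) = nrm981 g * nrm981 h := by
  rw [nrm981_eq, nrm981_eq, nrm981_eq, map_mul]
  exact hN.2.1 _ _

theorem nrm981_one (hN : T1.AdNormC K) : nrm981 (1 : G K) = 1 := by
  have h := nrm981_mul hN (1 : G K) 1
  rw [mul_one] at h
  have hp := nrm981_pos hN (1 : G K)
  have : nrm981 (1 : G K) * (nrm981 (1 : G K) - 1) = 0 := by linarith
  rcases mul_eq_zero.1 this with h0 | h0
  · exact absurd h0 hp.ne'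
  · linarith

theorem nrm981_rat (hN : T1.AdNormC K) (γ : GL (Fin 2) K) : nrm981 (T1.ratG K γ) = 1 := by
  rw [nrm981_eq]
  unfold T1.ratG
  rw [Matrix.GeneralLinearGroup.map_det]
  exact hN.2.2.1 (Matrix.GeneralLinearGroup.det γ)

theorem nrm981_zpow (hN : T1.AdNormC K) (g : G K) (m : ℤ) : nrm981 (g ^ m) = nrm981 g ^ m := by
  have hnat : ∀ n : ℕ, nrm981 (g ^ n) = nrm981 g ^ n := by
    intro n
    induction n with
    | zero => rw [pow_zero, pow_zero]; exact nrm981_one hN
    | succ n ih => rw [pow_succ, pow_succ, nrm981_mul hN, ih]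
  have hinv : ∀ h : G K, nrm981 h⁻¹ = (nrm981 h)⁻¹ := by
    intro h
    have h1 := nrm981_mul hN h h⁻¹
    rw [mul_inv_cancel, nrm981_one hN] at h1
    exact eq_inv_of_mul_eq_one_right h1.symm
  cases m with
  | ofNat n => simpa using hnat n
  | negSucc n =>
    rw [zpow_negSucc, zpow_negSucc, hinv, hnat]

theorem nrm981_zmat (w : InfinitePlace K) (c : w.Completion) (hc : c ≠ 0) (hN : T1.AdNormC K) :
    nrm981 (zmat981 w c hc) = (‖c‖ ^ w.mult) ^ 2 := by
  rw [nrm981_eq]
  unfold zmat981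
  rw [Matrix.GeneralLinearGroup.det_scalar, Fintype.card_fin, pow_two, pow_two, hN.2.1,
    adNorm_idele981]

/-- The central element `z₀` of module `2`, an archimedean positive scalar at one place. -/
theorem exists_z981 (hN : T1.AdNormC K) :
    ∃ (w : InfinitePlace K) (z : G K), IsArchPosScalar w z ∧ (∀ g : G K, z * g = g * z) ∧
      nrm981 z = 2 := by
  obtain ⟨w⟩ : Nonempty (InfinitePlace K) := inferInstance
  set r : ℝ := (2 : ℝ) ^ ((1 : ℝ) / (2 * (w.mult : ℝ))) with hr
  have hmult : (0 : ℝ) < (w.mult : ℝ) := by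
    have : 0 < w.mult := InfinitePlace.mult_pos
    exact_mod_cast this
  have hr0 : 0 < r := Real.rpow_pos_of_pos (by norm_num) _
  obtain ⟨c, hc⟩ := exists_real981 w r
  have hnorm : ‖c‖ = r := by
    have h := (InfinitePlace.Completion.isometry_extensionEmbedding w).norm_map_of_map_zero
      (map_zero _) c
    rw [← h, hc, Complex.norm_real, Real.norm_eq_abs, abs_of_pos hr0]
  have hc0 : c ≠ 0 := by
    intro h0
    rw [h0, norm_zero] at hnorm
    exact hr0.ne' hnorm.symm
  refine ⟨w, zmat981 w c hc0, zmat981_archPos w c hc0 r hr0 hc, zmat981_central w c hc0, ?_⟩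
  rw [nrm981_zmat w c hc0 hN, hnorm, ← pow_mul, hr, ← Real.rpow_natCast, ← Real.rpow_mul (by norm_num)]
  have : (1 : ℝ) / (2 * (w.mult : ℝ)) * ((w.mult * 2 : ℕ) : ℝ) = 1 := by
    push_cast
    field_simp
  rw [this, Real.rpow_one]


/-- The subgroup `GL₂(K) · z^ℤ` of `GL₂(𝔸_K)`, `z` central. -/
def delta981 (z : G K) (hz : ∀ g : G K, z * g = g * z) : Subgroup (G K) where
  carrier := {g | ∃ (γ : GL (Fin 2) K) (m : ℤ), g = T1.ratG K γ * z ^ m}
  one_mem' := ⟨1, 0, by rw [map_one, zpow_zero, mul_one]⟩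
  mul_mem' := by
    rintro _ _ ⟨γ, m, rfl⟩ ⟨γ', m', rfl⟩
    refine ⟨γ * γ', m + m', ?_⟩
    have hc : z ^ m * T1.ratG K γ' = T1.ratG K γ' * z ^ m :=
      (Commute.zpow_left (hz (T1.ratG K γ')) m)
    rw [map_mul, zpow_add]
    calc T1.ratG K γ * z ^ m * (T1.ratG K γ' * z ^ m')
        = T1.ratG K γ * (z ^ m * T1.ratG K γ') * z ^ m' := by group
      _ = T1.ratG K γ * (T1.ratG K γ' * z ^ m) * z ^ m' := by rw [hc]
      _ = T1.ratG K γ * T1.ratG K γ' * (z ^ m * z ^ m') := by group
  inv_mem' := by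
    rintro _ ⟨γ, m, rfl⟩
    refine ⟨γ⁻¹, -m, ?_⟩
    have hc : z ^ (-m) * T1.ratG K γ⁻¹ = T1.ratG K γ⁻¹ * z ^ (-m) :=
      (Commute.zpow_left (hz (T1.ratG K γ⁻¹)) (-m))
    rw [mul_inv_rev, ← zpow_neg, ← map_inv, hc]

theorem mem_delta981 (z : G K) (hz : ∀ g : G K, z * g = g * z) (g : G K) :
    g ∈ delta981 z hz ↔ ∃ (γ : GL (Fin 2) K) (m : ℤ), g = T1.ratG K γ * z ^ m := Iff.rfl

theorem countable_delta981 (z : G K) (hz : ∀ g : G K, z * g = g * z) :
    Countable (delta981 z hz) := by
  have := countable_gl981 K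
  have h : ((delta981 z hz : Subgroup (G K)) : Set (G K))
      = Set.range (fun p : GL (Fin 2) K × ℤ => T1.ratG K p.1 * z ^ p.2) := by
    ext g
    constructor
    · rintro ⟨γ, m, rfl⟩
      exact ⟨(γ, m), rfl⟩
    · rintro ⟨⟨γ, m⟩, rfl⟩
      exact ⟨γ, m, rfl⟩
  have hc : ((delta981 z hz : Subgroup (G K)) : Set (G K)).Countable := by
    rw [h]
    exact Set.countable_range _
  exact hc.to_subtype

attribute [local instance] Fermat.Agent.LT.T2.borelG

/-- The frame domain is a strict fundamental domain of `GL₂(K) · z^ℤ` in `GL₂(𝔸_K)`. -/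
theorem strict981 (hN : T1.AdNormC K) (F : Frame K) (z : G K)
    (hz : ∀ g : G K, z * g = g * z) (hz2 : nrm981 z = 2) (g : G K) :
    ∃! δ : delta981 z hz, ((δ : G K)) * g ∈ F.D := by
  have hslab : ∀ x : G K, x ∈ T1.slab K ↔ 1 ≤ nrm981 x ∧ nrm981 x < 2 := fun x => Iff.rfl
  have hpos := nrm981_pos hN g
  obtain ⟨n, hn1, hn2⟩ := exists_mem_Ico_zpow hpos (by norm_num : (1 : ℝ) < 2)
  have h2pos : ∀ k : ℤ, (0 : ℝ) < 2 ^ k := fun k => zpow_pos (by norm_num) k
  -- `z ^ (-n) * g` lies in the slab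
  have hnorm : ∀ k : ℤ, nrm981 (z ^ k * g) = 2 ^ k * nrm981 g := by
    intro k
    rw [nrm981_mul hN, nrm981_zpow hN, hz2]
  have hmem : z ^ (-n) * g ∈ T1.slab K := by
    rw [hslab, hnorm, zpow_neg]
    constructor
    · rw [← div_eq_inv_mul, le_div_iff₀ (h2pos n), one_mul]
      exact hn1
    · rw [← div_eq_inv_mul, div_lt_iff₀ (h2pos n)]
      rw [zpow_add_one₀ (by norm_num : (2 : ℝ) ≠ 0), mul_comm] at hn2
      exact hn2
  obtain ⟨γ, hγ, hγu⟩ := F.strict _ hmem
  refine ⟨⟨T1.ratG K γ * z ^ (-n), γ, -n, rfl⟩, ?_, ?_⟩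
  · change T1.ratG K γ * z ^ (-n) * g ∈ F.D
    rw [mul_assoc]
    exact hγ
  · rintro ⟨δ, γ', m, rfl⟩ hδ
    change T1.ratG K γ' * z ^ m * g ∈ F.D at hδ
    rw [mul_assoc] at hδ
    have hs := F.sub hδ
    rw [hslab, nrm981_mul hN, nrm981_rat hN, one_mul, hnorm] at hs
    -- `m = -n`
    have hm : m = -n := by
      by_contra hne
      rcases lt_or_gt_of_ne hne with hlt | hgt
      · -- `m + 1 ≤ -n`, so `2^m t ≤ 2^(-n-1) t < 1`
        have h1 : m + 1 ≤ -n := hlt
        have h2 : (2 : ℝ) ^ (m + 1) ≤ 2 ^ (-n) := zpow_le_zpow_right₀ (by norm_num) h1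
        rw [zpow_add_one₀ (by norm_num : (2 : ℝ) ≠ 0)] at h2
        have h3 : (2 : ℝ) ^ (-n) * nrm981 g < 2 := by
          have := (hslab _).1 hmem
          rw [hnorm] at this
          exact this.2
        have h4 : (2 : ℝ) ^ m * 2 * nrm981 g ≤ 2 ^ (-n) * nrm981 g :=
          mul_le_mul_of_nonneg_right h2 hpos.le
        nlinarith [hs.1]
      · have h1 : -n + 1 ≤ m := hgt
        have h2 : (2 : ℝ) ^ (-n + 1) ≤ 2 ^ m := zpow_le_zpow_right₀ (by norm_num) h1
        rw [zpow_add_one₀ (by norm_num : (2 : ℝ) ≠ 0)] at h2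
        have h3 : 1 ≤ (2 : ℝ) ^ (-n) * nrm981 g := by
          have := (hslab _).1 hmem
          rw [hnorm] at this
          exact this.1
        have h4 : (2 : ℝ) ^ (-n) * 2 * nrm981 g ≤ 2 ^ m * nrm981 g :=
          mul_le_mul_of_nonneg_right h2 hpos.le
        nlinarith [hs.2]
    subst hm
    have := hγu γ' hδ
    subst this
    rfl


/-- A cusp function is left invariant under `GL₂(K) · z^ℤ`. -/
theorem inv_delta981 {𝔫 : Ideal (𝓞 K)} {φ : G K → ℂ} (hφ : IsCuspFn 𝔫 φ)
    (w : InfinitePlace K) (z : G K) (hzw : IsArchPosScalar w z)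
    (hz : ∀ g : G K, z * g = g * z) (δ : delta981 z hz) (g : G K) :
    φ ((δ : G K) * g) = φ g := by
  obtain ⟨δ, γ, m, rfl⟩ := δ
  change φ (T1.ratG K γ * z ^ m * g) = φ g
  have h1 : ∀ x : G K, φ (x * z) = φ x := fun x => hφ.arch_scalar w z hzw x
  have h2 : ∀ x : G K, φ (x * z⁻¹) = φ x := by
    intro x
    have := h1 (x * z⁻¹)
    rw [inv_mul_cancel_right] at this
    exact this.symm
  have hnat : ∀ (n : ℕ) (x : G K), φ (x * z ^ n) = φ x := by
    intro n
    induction n with
    | zero => intro x; rw [pow_zero, mul_one]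
    | succ n ih => intro x; rw [pow_succ, ← mul_assoc, h1, ih]
  have hnat' : ∀ (n : ℕ) (x : G K), φ (x * (z⁻¹) ^ n) = φ x := by
    intro n
    induction n with
    | zero => intro x; rw [pow_zero, mul_one]
    | succ n ih => intro x; rw [pow_succ, ← mul_assoc, h2, ih]
  have hint : ∀ (k : ℤ) (x : G K), φ (x * z ^ k) = φ x := by
    intro k x
    cases k with
    | ofNat n => simpa using hnat n x
    | negSucc n =>
      rw [zpow_negSucc, ← inv_pow]
      exact hnat' (n + 1) x
  have hc : z ^ m * g = g * z ^ m := Commute.zpow_left (hz g) m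
  rw [mul_assoc, hc]
  unfold T1.ratG
  rw [hφ.left_inv, hint]

/-- **T2.02c** (helper981): the adjoint of `conv F f` on the cusp functions is
`conv F (adj f)`. -/
theorem leaf02c_981 (K : Type) [Field K] [NumberField K] : H228.Leaf02c K := by
  intro hT1 𝔫 _ _ _ F f φ ψ hf hφ hψ
  obtain ⟨-, hLC, hT2, hSC⟩ := hT1.locComp
  have := hLC
  have := hT2
  have := hSC
  have : BorelSpace (G K) := ⟨rfl⟩
  have := F.haar
  obtain ⟨w, z, hzw, hzc, hz2⟩ := exists_z981 hT1.adNorm
  have := countable_delta981 z hzc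
  have : IsFiniteMeasure (F.μ.restrict F.D) :=
    ⟨by rw [Measure.restrict_apply_univ]; exact F.fin⟩
  set Φ : G K × G K → ℂ := fun p => φ p.2 * f (p.1⁻¹ * p.2) * (starRingEnd ℂ) (ψ p.1) with hΦ
  -- invariance
  have hΦinv : ∀ (δ : delta981 z hzc) (x y : G K),
      Φ ((δ : G K) * x, (δ : G K) * y) = Φ (x, y) := by
    intro δ x y
    simp only [hΦ]
    rw [inv_delta981 hφ w z hzw hzc δ y, inv_delta981 hψ w z hzw hzc δ x]
    congr 3
    group
  -- continuity, bounds
  have hΦcont : Continuous Φ := by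
    simp only [hΦ]
    have h1 : Continuous fun p : G K × G K => φ p.2 := hφ.cont.comp continuous_snd
    have h2 : Continuous fun p : G K × G K => f (p.1⁻¹ * p.2) :=
      hf.cont.comp ((continuous_inv.comp continuous_fst).mul continuous_snd)
    have h3 : Continuous fun p : G K × G K => (starRingEnd ℂ) (ψ p.1) :=
      Complex.continuous_conj.comp (hψ.cont.comp continuous_fst)
    exact (h1.mul h2).mul h3
  obtain ⟨Cφ, hCφ⟩ := hφ.bdd
  obtain ⟨Cψ, hCψ⟩ := hψ.bdd
  have hCφ0 : 0 ≤ Cφ := le_trans (norm_nonneg _) (hCφ 1)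
  have hCψ0 : 0 ≤ Cψ := le_trans (norm_nonneg _) (hCψ 1)
  have hfint : Integrable f F.μ := hf.cont.integrable_of_hasCompactSupport hf.cpt
  -- integrability on `D × G`
  have hint : IntegrableOn Φ (F.D ×ˢ (Set.univ : Set (G K))) (F.μ.prod F.μ) := by
    unfold IntegrableOn
    rw [← Measure.prod_restrict, Measure.restrict_univ]
    have hg0 : Integrable (fun p : G K × G K => Cφ * Cψ * ‖f p.2‖)
        ((F.μ.restrict F.D).prod F.μ) :=
      ((hfint.norm.const_mul (Cφ * Cψ)).comp_snd (F.μ.restrict F.D))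
    have hS := measurePreserving_prod_inv_mul (F.μ.restrict F.D) F.μ
    have hg1 : Integrable ((fun p : G K × G K => Cφ * Cψ * ‖f p.2‖) ∘
        (fun z : G K × G K => (z.1, z.1⁻¹ * z.2))) ((F.μ.restrict F.D).prod F.μ) :=
      (hS.integrable_comp hg0.aestronglyMeasurable).2 hg0
    refine hg1.mono' hΦcont.aestronglyMeasurable (Filter.Eventually.of_forall fun p => ?_)
    simp only [hΦ, Function.comp_apply]
    rw [norm_mul, norm_mul, RCLike.norm_conj]
    calc ‖φ p.2‖ * ‖f (p.1⁻¹ * p.2)‖ * ‖ψ p.1‖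
        ≤ Cφ * ‖f (p.1⁻¹ * p.2)‖ * Cψ := by
          apply mul_le_mul _ (hCψ _) (norm_nonneg _)
          · exact mul_nonneg hCφ0 (norm_nonneg _)
          · exact mul_le_mul_of_nonneg_right (hCφ _) (norm_nonneg _)
      _ = Cφ * Cψ * ‖f (p.1⁻¹ * p.2)‖ := by ring
  have key := unfold981 F.μ (delta981 z hzc) F.D F.meas
    (strict981 hT1.adNorm F z hzc hz2) Φ hΦinv hint
  -- the two sides
  have hL : pair F (conv F f φ) ψ = ∫ x in F.D, ∫ y, Φ (x, y) ∂F.μ ∂F.μ := by
    unfold pair conv
    refine integral_congr_ae (Filter.Eventually.of_forall fun x => ?_)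
    simp only [hΦ]
    rw [integral_mul_const]
    congr 1
    have := integral_mul_left_eq_self (μ := F.μ) (fun y => φ y * f (x⁻¹ * y)) x
    rw [← this]
    refine integral_congr_ae (Filter.Eventually.of_forall fun h => ?_)
    simp only [inv_mul_cancel_left]
  have hR : pair F φ (conv F (adj f) ψ) = ∫ y in F.D, ∫ x, Φ (x, y) ∂F.μ ∂F.μ := by
    unfold pair conv adj
    refine integral_congr_ae (Filter.Eventually.of_forall fun x => ?_)
    simp only [hΦ]
    rw [← integral_conj, ← integral_const_mul]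
    have := integral_mul_left_eq_self (μ := F.μ)
      (fun y => φ x * f (y⁻¹ * x) * (starRingEnd ℂ) (ψ y)) x
    rw [← this]
    refine integral_congr_ae (Filter.Eventually.of_forall fun h => ?_)
    simp only [mul_inv_rev, inv_mul_cancel_right, map_mul, Complex.conj_conj]
    ring
  rw [hL, hR, key]

end Fermat.Agent.LT.T2.H981

end
end
-- ===== PACK-END LT/T2/H981/ConvAdj.lean

-- ===== PACK-BEGIN LT/T2/H833/ConvShape.lean
section



/-!
# Row LT, tower T2, sub-leaf T2.02d.2 `ConvShapeC724` (SHAPE) -- helper833, OFF-MAIN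

`convShapeC833 : H724.ConvShapeC724 K` VERBATIM against
`LT/T2/H724/CommSpec.lean` (helper724@7fd05bef9, sha256 78972da3, byte-identical copy; with
`LT/T2/Spec.lean` b934629a, `LT/T1/Spec.lean` e8ae48d6, `LT/H556/A0.lean` 66d3374a).

The convolution kernel `(f₁ ⋆ f₂)(g) = ∫ f₁(h) f₂(h⁻¹ g) dμ(h)` of two functions of spherical shape
has spherical shape.  No regularity and no integrability is used:

* right invariance: pointwise equality of the integrands;
* left invariance: `integral_mul_left_eq_self` (left invariance of the Haar measure, valid for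
  every function) and the left invariance of `f₁`;
* support at the places dividing the level: if the integral is not `0`, some integrand is not
  `0`, so `g = h (h⁻¹ g)` is a product of two bad units, and the bad units are closed under
  multiplication (`idealClosure 𝔫 v` is closed under addition and multiplication).

The hypothesis `T1.LocCompC K` of the Prop is not needed.
-/

set_option autoImplicit false

open IsDedekindDomain NumberField MeasureTheory AutomorphicForm
open Fermat.Agent.LT.H556.A0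

noncomputable section

namespace Fermat.Agent.LT.T2.H833

open Fermat.Agent.LT.T2 Fermat.Agent.LT.T2.H724

variable {K : Type} [Field K] [NumberField K]

attribute [local instance] Fermat.Agent.LT.T2.borelG

/-! ## 1. `idealClosure 𝔫 v` is closed under addition and multiplication -/

/-- The ring homomorphism `𝓞 K → K_v`. -/
def toCompl833 (v : HeightOneSpectrum (𝓞 K)) : 𝓞 K →+* v.adicCompletion K :=
  (algebraMap K (v.adicCompletion K)).comp (algebraMap (𝓞 K) K)

theorem idealClosure_eq833 (𝔫 : Ideal (𝓞 K)) (v : HeightOneSpectrum (𝓞 K)) :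
    idealClosure 𝔫 v = closure ((toCompl833 v) '' (𝔫 : Set (𝓞 K))) := rfl

theorem zero_mem_idealClosure833 (𝔫 : Ideal (𝓞 K)) (v : HeightOneSpectrum (𝓞 K)) :
    (0 : v.adicCompletion K) ∈ idealClosure 𝔫 v := by
  rw [idealClosure_eq833]
  exact subset_closure ⟨0, 𝔫.zero_mem, map_zero _⟩

theorem add_mem_idealClosure833 (𝔫 : Ideal (𝓞 K)) (v : HeightOneSpectrum (𝓞 K))
    {x y : v.adicCompletion K} (hx : x ∈ idealClosure 𝔫 v) (hy : y ∈ idealClosure 𝔫 v) :
    x + y ∈ idealClosure 𝔫 v := by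
  rw [idealClosure_eq833] at hx hy ⊢
  refine map_mem_closure₂ (f := fun a b : v.adicCompletion K => a + b) continuous_add hx hy ?_
  rintro _ ⟨a, ha, rfl⟩ _ ⟨b, hb, rfl⟩
  exact ⟨a + b, 𝔫.add_mem ha hb, map_add _ _ _⟩

theorem mul_mem_idealClosure833 (𝔫 : Ideal (𝓞 K)) (v : HeightOneSpectrum (𝓞 K))
    {x y : v.adicCompletion K} (hx : x ∈ idealClosure 𝔫 v) (hy : y ∈ idealClosure 𝔫 v) :
    x * y ∈ idealClosure 𝔫 v := by
  rw [idealClosure_eq833] at hx hy ⊢
  refine map_mem_closure₂ (f := fun a b : v.adicCompletion K => a * b) continuous_mul hx hy ?_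
  rintro _ ⟨a, ha, rfl⟩ _ ⟨b, hb, rfl⟩
  exact ⟨a * b, 𝔫.mul_mem_left a hb, map_mul _ _ _⟩

/-! ## 2. The bad units are closed under multiplication -/

/-- The component at the finite place `v`, as a ring homomorphism. -/
def finHom833 (v : HeightOneSpectrum (𝓞 K)) : Adl K →+* v.adicCompletion K :=
  (RestrictedProduct.evalRingHom (fun v : HeightOneSpectrum (𝓞 K) => v.adicCompletion K) v).comp
    (RingHom.snd (InfiniteAdeleRing K) (FiniteAdeleRing (𝓞 K) K))

theorem finComp_eq_map833 (v : HeightOneSpectrum (𝓞 K)) (g : G K) :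
    finComp v g = (g : Matrix (Fin 2) (Fin 2) (Adl K)).map (finHom833 v) := rfl

theorem finComp_mul833 (v : HeightOneSpectrum (𝓞 K)) (g h : G K) :
    finComp v (g * h) = finComp v g * finComp v h := by
  rw [finComp_eq_map833, finComp_eq_map833, finComp_eq_map833, Units.val_mul, Matrix.map_mul]

/-- `(A B - 1) = (A - 1)(B - 1) + (A - 1) + (B - 1)`, entrywise in a set closed under `+`, `*`. -/
theorem sub_one_mul_mem833 {R : Type*} [CommRing R] (I : Set R)
    (hadd : ∀ x y, x ∈ I → y ∈ I → x + y ∈ I) (hmul : ∀ x y, x ∈ I → y ∈ I → x * y ∈ I)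
    (A B : Matrix (Fin 2) (Fin 2) R) (hA : ∀ i j, (A - 1) i j ∈ I) (hB : ∀ i j, (B - 1) i j ∈ I)
    (i j : Fin 2) : (A * B - 1) i j ∈ I := by
  have e : A * B - 1 = (A - 1) * (B - 1) + (A - 1) + (B - 1) := by
    noncomm_ring
  rw [e]
  have h1 : ((A - 1) * (B - 1)) i j ∈ I := by
    rw [Matrix.mul_apply, Fin.sum_univ_two]
    exact hadd _ _ (hmul _ _ (hA i 0) (hB 0 j)) (hmul _ _ (hA i 1) (hB 1 j))
  rw [Matrix.add_apply, Matrix.add_apply]
  exact hadd _ _ (hadd _ _ h1 (hA i j)) (hB i j)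

theorem isBadUnit_mul833 {𝔫 : Ideal (𝓞 K)} {a b : G K} (ha : IsBadUnit724 𝔫 a)
    (hb : IsBadUnit724 𝔫 b) : IsBadUnit724 𝔫 (a * b) := by
  intro v hv i j
  refine ⟨?_, ?_⟩
  · rw [finComp_mul833]
    exact sub_one_mul_mem833 (idealClosure 𝔫 v)
      (fun x y hx hy => add_mem_idealClosure833 𝔫 v hx hy)
      (fun x y hx hy => mul_mem_idealClosure833 𝔫 v hx hy) _ _
      (fun i j => (ha v hv i j).1) (fun i j => (hb v hv i j).1) i j
  · rw [mul_inv_rev, finComp_mul833]
    exact sub_one_mul_mem833 (idealClosure 𝔫 v)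
      (fun x y hx hy => add_mem_idealClosure833 𝔫 v hx hy)
      (fun x y hx hy => mul_mem_idealClosure833 𝔫 v hx hy) _ _
      (fun i j => (hb v hv i j).2) (fun i j => (ha v hv i j).2) i j

/-! ## 3. The leaf -/

/-- Left invariance of the convolution kernel under an element which leaves `f₁` invariant on the
left.  (Left invariance of the Haar measure; no integrability.) -/
theorem convKer_left833 (F : Frame K) (f₁ f₂ : G K → ℂ) (u : G K)
    (hu : ∀ g : G K, f₁ (u * g) = f₁ g) (g : G K) :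
    convKer724 F f₁ f₂ (u * g) = convKer724 F f₁ f₂ g := by
  have : BorelSpace (G K) := ⟨rfl⟩
  have := F.haar
  unfold convKer724
  rw [← integral_mul_left_eq_self (μ := F.μ) (fun h => f₁ h * f₂ (h⁻¹ * (u * g))) u]
  refine integral_congr_ae (Filter.Eventually.of_forall fun h => ?_)
  simp only
  rw [hu h, mul_inv_rev, mul_assoc, inv_mul_cancel_left]

/-- Right invariance of the convolution kernel under an element which leaves `f₂` invariant on
the right. -/
theorem convKer_right833 (F : Frame K) (f₁ f₂ : G K → ℂ) (u : G K)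
    (hu : ∀ g : G K, f₂ (g * u) = f₂ g) (g : G K) :
    convKer724 F f₁ f₂ (g * u) = convKer724 F f₁ f₂ g := by
  unfold convKer724
  refine integral_congr_ae (Filter.Eventually.of_forall fun h => ?_)
  simp only
  rw [← mul_assoc, hu]

/-- If the convolution kernel does not vanish at `g`, then `g = h (h⁻¹ g)` with `f₁ h ≠ 0` and
`f₂ (h⁻¹ g) ≠ 0`. -/
theorem exists_of_convKer_ne_zero833 (F : Frame K) (f₁ f₂ : G K → ℂ) (g : G K)
    (hg : convKer724 F f₁ f₂ g ≠ 0) : ∃ h : G K, f₁ h ≠ 0 ∧ f₂ (h⁻¹ * g) ≠ 0 := by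
  by_contra hcon
  have hcon : ∀ h : G K, f₁ h ≠ 0 → f₂ (h⁻¹ * g) = 0 := fun h h1 =>
    by_contra fun h2 => hcon ⟨h, h1, h2⟩
  apply hg
  unfold convKer724
  have : (fun h => f₁ h * f₂ (h⁻¹ * g)) = fun _ => (0 : ℂ) := by
    funext h
    by_cases h1 : f₁ h = 0
    · rw [h1, zero_mul]
    · rw [hcon h h1, mul_zero]
  rw [this, integral_zero]

/-- **T2.02d.2 SHAPE** (registry row 1078), VERBATIM. -/
theorem convShapeC833 (K : Type) [Field K] [NumberField K] : ConvShapeC724 K := by
  intro _ 𝔫 F f₁ f₂ h₁ h₂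
  refine ⟨?_, ?_, ?_, ?_, ?_⟩
  · intro u hu g
    exact convKer_right833 F f₁ f₂ u (h₂.level_right u hu) g
  · intro u hu g
    exact convKer_left833 F f₁ f₂ u (h₁.level_left u hu) g
  · intro w k hk g
    exact convKer_right833 F f₁ f₂ k (h₂.arch_right w k hk) g
  · intro w k hk g
    exact convKer_left833 F f₁ f₂ k (h₁.arch_left w k hk) g
  · intro g hg
    obtain ⟨h, hh1, hh2⟩ := exists_of_convKer_ne_zero833 F f₁ f₂ g hg
    have e : g = h * (h⁻¹ * g) := by rw [mul_inv_cancel_left]
    rw [e]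
    exact isBadUnit_mul833 (h₁.bad_unit h hh1) (h₂.bad_unit _ hh2)

end Fermat.Agent.LT.T2.H833

end

end
-- ===== PACK-END LT/T2/H833/ConvShape.lean

-- ===== PACK-BEGIN LT/T2/H570/LocFin.lean
section



/-!
# Row LT, tower T2, leaf T2.02d.5a `LocFinC724` (helper570)

OFF-MAIN.  `leafLocFin570 K : T2.H724.LocFinC724 K`, VERBATIM against
`LT/T2/H724/CommSpec.lean` (helper724, sha256 78972da3), unconditional: the abstract statement of
`LocFinAbs.lean` for the valuation `Valued.v` of `v.adicCompletion K`.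
-/

set_option autoImplicit false

open IsDedekindDomain NumberField

namespace Fermat.Agent.LT.T2.H570

/-- **T2.02d.5a**: for `M ∈ GL₂(K_v)` there are `A, B ∈ GL₂(𝒪_v)` with `adjugate M = A M B`. -/
theorem leafLocFin570 (K : Type) [Field K] [NumberField K] :
    Fermat.Agent.LT.T2.H724.LocFinC724 K := by
  intro v M hM
  exact adjugate_rel570 (Valued.v : Valuation (v.adicCompletion K) (WithZero (Multiplicative ℤ)))
    M hM

end Fermat.Agent.LT.T2.H570

end
-- ===== PACK-END LT/T2/H570/LocFin.lean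

-- ===== PACK-BEGIN LT/H972/GelfandCore.lean
section



/-!
# Row LT, helper972: GELFAND'S TRICK at a finite place — Spec-independent core

OFF-MAIN.  On `LT/H556/A0.lean` (helper556, sha256 66d3374a) and the library `LT/H129/*` of
helper129 (origin/helper129@6c248c692) ONLY: no tower Spec is imported, so this file does not
move when a tower Spec is re-based.  Same proofs as `LT/T2/H972/CommConvHecke.lean` (frozen
bytes of registry row 1006), in the namespace `Fermat.Agent.LT.H972` (do not open the two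
namespaces together).

MAIN RESULT `conv_hecke_comm972`: for a measure `μ` on `GL₂(𝔸_K)` (Borel) which is left and right
invariant and finite on compact sets, a Hecke coset system `H` at `v`, a continuous `φ` which is
right invariant under `GL₂(𝒪_v)` and a continuous compactly supported `f` which is bi-invariant
under `GL₂(𝒪_v)`:
`∫ (∑_{h ∈ H} φ (x y h)) f(y) dμ(y) = ∑_{h ∈ H} ∫ φ (x h y) f(y) dμ(y)`,
i.e. `R(f) ∘ T_H = T_H ∘ R(f)`.  No level, no cuspidality, no condition at the other places.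

Tools: `tr972` (transposition of `GL₂(F)`), `tau_inv972` (bi-`GL₂(𝒪_v)`-invariant functions are
invariant under the transposition at `v`; Cartan decomposition `cartan129`), `exists_sym972`
(every coset system can be moved to a SYMMETRIC one), `sym_sum972`
(`∑_{h ∈ S} f (y h⁻¹) = ∑_{h ∈ S} f (h⁻¹ y)` for a symmetric system), `biInv_leftSum972`,
`isHeckeCosetSystem_left972`, `isHeckeCosetSystem_right972`, `valued_det_maxCpt972`,
`comm_local_triv972`, `conv_rightInv972` (`R(f) φ` is right invariant under `GL₂(𝒪_v)`).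
-/

set_option autoImplicit false

open IsDedekindDomain NumberField MeasureTheory
open Fermat.Agent.LT.H556.A0
open Fermat.Agent.LT.H129

noncomputable section

namespace Fermat.Agent.LT.H972

/-! ## 1. The transposition of `GL₂(F)` -/

section Local

variable {F : Type*} [Field F]

/-- The transposition of `GL₂(F)`. -/
def tr972 (g : GL (Fin 2) F) : GL (Fin 2) F where
  val := (g : Matrix (Fin 2) (Fin 2) F).transpose
  inv := ((g⁻¹ : GL (Fin 2) F) : Matrix (Fin 2) (Fin 2) F).transpose
  val_inv := by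
    rw [← Matrix.transpose_mul, ← Matrix.GeneralLinearGroup.coe_mul, inv_mul_cancel]
    simp
  inv_val := by
    rw [← Matrix.transpose_mul, ← Matrix.GeneralLinearGroup.coe_mul, mul_inv_cancel]
    simp

theorem coe_tr972 (g : GL (Fin 2) F) :
    ((tr972 g : GL (Fin 2) F) : Matrix (Fin 2) (Fin 2) F)
      = (g : Matrix (Fin 2) (Fin 2) F).transpose := rfl

theorem tr972_mul (a b : GL (Fin 2) F) : tr972 (a * b) = tr972 b * tr972 a := by
  apply Units.ext
  simp only [coe_tr972, Matrix.transpose_mul, Units.val_mul]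

theorem tr972_one : tr972 (1 : GL (Fin 2) F) = 1 := by
  apply Units.ext
  simp [coe_tr972]

theorem tr972_inv (a : GL (Fin 2) F) : tr972 a⁻¹ = (tr972 a)⁻¹ := by
  rw [eq_inv_iff_mul_eq_one, ← tr972_mul, mul_inv_cancel, tr972_one]

theorem tr972_tr972 (a : GL (Fin 2) F) : tr972 (tr972 a) = a := by
  apply Units.ext
  simp [coe_tr972]

theorem isInt129_tr972 {O : ValuationSubring F} {g : GL (Fin 2) F} (hg : IsInt129 O g) :
    IsInt129 O (tr972 g) := fun i j => hg j i

theorem isMaxCpt129_tr972 {O : ValuationSubring F} {g : GL (Fin 2) F} (hg : IsMaxCpt129 O g) :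
    IsMaxCpt129 O (tr972 g) := by
  refine ⟨isInt129_tr972 hg.1, ?_⟩
  rw [← tr972_inv]
  exact isInt129_tr972 hg.2

theorem tr972_diag129 (x y : F) (hx : x ≠ 0) (hy : y ≠ 0) :
    tr972 (diag129 x y hx hy) = diag129 x y hx hy := by
  apply Units.ext
  rw [coe_tr972]
  simp only [diag129, coe_mkGL129]
  ext i j
  fin_cases i <;> fin_cases j <;> simp

end Local

/-! ## 2. Elements of `GL₂(𝔸_K)` supported at `v`, bi-invariant functions -/

section Adelic

variable {K : Type} [Field K] [NumberField K] {v : HeightOneSpectrum (𝓞 K)}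

/-- An element supported at `v` commutes with an element which is trivial at `v`. -/
theorem comm_local_triv972 {a b : G K} (ha : IsLocalAtFin v a) (hb : TrivAtFin v b) :
    a * b = b * a := by
  rw [isLocalAtFin_iff129] at ha
  rw [trivAtFin_iff129] at hb
  apply G_ext129
  · intro w
    rw [map_mul, map_mul, ha.1 w, one_mul, mul_one]
  · intro v'
    rw [map_mul, map_mul]
    by_cases h : v' = v
    · subst h
      rw [hb, one_mul, mul_one]
    · rw [ha.2 v' h, one_mul, mul_one]

/-- `y = loc(y_v) · y'` with `y'` trivial at `v`. -/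
theorem trivAtFin_quot972 (y : G K) :
    TrivAtFin v ((locFin129 v (finCompHom129 v y))⁻¹ * y) := by
  rw [trivAtFin_iff129, map_mul, map_inv, finCompHom129_locFin129, inv_mul_cancel]

theorem isIntegralAt_mul972 {a b : G K} (ha : IsIntegralAt v a) (hb : IsIntegralAt v b) :
    IsIntegralAt v (a * b) := by
  rw [← isInt129_finCompHom_iff] at *
  rw [map_mul]
  exact isInt129_mul ha hb

theorem isLocalMaxCptAt_loc972 {k : GL (Fin 2) (v.adicCompletion K)}
    (hk : IsMaxCpt129 (v.adicCompletionIntegers K) k) :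
    IsLocalMaxCptAt129 v (locFin129 v k) := by
  refine ⟨isLocalAtFin_locFin129 v k, ?_, ?_⟩
  · rw [← isInt129_finCompHom_iff, finCompHom129_locFin129]
    exact hk.1
  · rw [← map_inv, ← isInt129_finCompHom_iff, finCompHom129_locFin129]
    exact hk.2

theorem isLocalMaxCptAt_inv972 {u : G K} (hu : IsLocalMaxCptAt129 v u) :
    IsLocalMaxCptAt129 v u⁻¹ :=
  ⟨isLocalAtFin_inv129 hu.1, hu.2.2, by rw [inv_inv]; exact hu.2.1⟩

theorem isLocalMaxCptAt_mul972 {u u' : G K} (hu : IsLocalMaxCptAt129 v u)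
    (hu' : IsLocalMaxCptAt129 v u') : IsLocalMaxCptAt129 v (u * u') :=
  ⟨isLocalAtFin_mul129 hu.1 hu'.1, isIntegralAt_mul972 hu.2.1 hu'.2.1, by
    rw [mul_inv_rev]; exact isIntegralAt_mul972 hu'.2.2 hu.2.2⟩

theorem finComp_mul972 (a b : G K) : finComp v (a * b) = finComp v a * finComp v b := by
  rw [← coe_finCompHom129, ← coe_finCompHom129, ← coe_finCompHom129, map_mul]
  rfl

/-- The determinant of an element of `GL₂(𝒪_v)` is a unit. -/
theorem valued_det_maxCpt972 {u : G K} (hu : IsLocalMaxCptAt129 v u) :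
    Valued.v (finComp v u).det = 1 := by
  have h1 : Valued.v (finComp v u).det ≤ 1 := by
    have := det_mem_of_isInt129 ((isInt129_finCompHom_iff v u).mpr hu.2.1)
    exact (HeightOneSpectrum.mem_adicCompletionIntegers (𝓞 K) K v).mp this
  have h2 : Valued.v (finComp v u⁻¹).det ≤ 1 := by
    have := det_mem_of_isInt129 ((isInt129_finCompHom_iff v u⁻¹).mpr hu.2.2)
    exact (HeightOneSpectrum.mem_adicCompletionIntegers (𝓞 K) K v).mp this
  have h3 : Valued.v (finComp v u).det * Valued.v (finComp v u⁻¹).det = 1 := by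
    rw [← map_mul, ← Matrix.det_mul, ← finComp_mul972, mul_inv_cancel]
    have : finComp v (1 : G K) = 1 := by
      rw [← coe_finCompHom129, map_one]
      rfl
    rw [this, Matrix.det_one, map_one]
  refine le_antisymm h1 ?_
  calc (1 : WithZero (Multiplicative ℤ))
      = Valued.v (finComp v u).det * Valued.v (finComp v u⁻¹).det := h3.symm
    _ ≤ Valued.v (finComp v u).det := mul_le_of_le_one_right' h2

/-- Bi-invariance under `GL₂(𝒪_v)`. -/
def BiInv972 (v : HeightOneSpectrum (𝓞 K)) (Φ : G K → ℂ) : Prop :=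
  (∀ u : G K, IsLocalMaxCptAt129 v u → ∀ g : G K, Φ (g * u) = Φ g) ∧
    ∀ u : G K, IsLocalMaxCptAt129 v u → ∀ g : G K, Φ (u * g) = Φ g

/-- **Gelfand's trick**: a function which is bi-invariant under `GL₂(𝒪_v)` is invariant under the
transposition of the component at `v` (Cartan decomposition). -/
theorem tau_inv972 {Φ : G K → ℂ} (hΦ : BiInv972 v Φ) (x : GL (Fin 2) (v.adicCompletion K))
    {y' : G K} (hy' : TrivAtFin v y') :
    Φ (locFin129 v (tr972 x) * y') = Φ (locFin129 v x * y') := by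
  obtain ⟨k₁, k₂, a, b, ha, hb, hk₁, hk₂, -, hx⟩ := cartan129 (v.adicCompletionIntegers K) x
  have key : ∀ (u₁ u₂ d : GL (Fin 2) (v.adicCompletion K)),
      IsMaxCpt129 (v.adicCompletionIntegers K) u₁ →
      IsMaxCpt129 (v.adicCompletionIntegers K) u₂ →
      Φ (locFin129 v (u₁ * d * u₂) * y') = Φ (locFin129 v d * y') := by
    intro u₁ u₂ d h₁ h₂
    rw [map_mul, map_mul, mul_assoc, mul_assoc, hΦ.2 _ (isLocalMaxCptAt_loc972 h₁),
      comm_local_triv972 (isLocalAtFin_locFin129 v u₂) hy', ← mul_assoc,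
      hΦ.1 _ (isLocalMaxCptAt_loc972 h₂)]
  rw [hx, tr972_mul, tr972_mul, tr972_diag129, ← mul_assoc,
    key _ _ _ (isMaxCpt129_tr972 hk₂) (isMaxCpt129_tr972 hk₁), key _ _ _ hk₁ hk₂]

/-! ## 3. Translates of Hecke coset systems -/

open scoped Classical in
/-- The left translate of a Hecke coset system by an element of `GL₂(𝒪_v)`. -/
theorem isHeckeCosetSystem_left972 {H : Finset (G K)} (hH : IsHeckeCosetSystem v H) {u : G K}
    (hu : IsLocalMaxCptAt129 v u) : IsHeckeCosetSystem v (H.image fun h => u * h) := by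
  obtain ⟨hcard, hmem, hne⟩ := hH
  refine ⟨?_, ?_, ?_⟩
  · rw [Finset.card_image_of_injective _ (mul_right_injective u), hcard]
  · intro g hg
    obtain ⟨h, hh, rfl⟩ := Finset.mem_image.mp hg
    obtain ⟨h1, h2, h3⟩ := hmem h hh
    refine ⟨isLocalAtFin_mul129 hu.1 h1, isIntegralAt_mul972 hu.2.1 h2, ?_⟩
    rw [finComp_mul972, Matrix.det_mul, map_mul, valued_det_maxCpt972 hu, one_mul, h3]
  · intro g hg g' hg' hgg'
    obtain ⟨h, hh, rfl⟩ := Finset.mem_image.mp hg
    obtain ⟨h', hh', rfl⟩ := Finset.mem_image.mp hg'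
    have e : (u * h)⁻¹ * (u * h') = h⁻¹ * h' := by group
    rw [e]
    exact hne h hh h' hh' (fun e' => hgg' (by rw [e']))

open scoped Classical in
/-- A right translate of a Hecke coset system by elements of `GL₂(𝒪_v)`. -/
theorem isHeckeCosetSystem_right972 {H : Finset (G K)} (hH : IsHeckeCosetSystem v H)
    (u : G K → G K) (hu : ∀ h ∈ H, IsLocalMaxCptAt129 v (u h)) :
    IsHeckeCosetSystem v (H.image fun h => h * u h) := by
  obtain ⟨hcard, hmem, hne⟩ := hH
  have hinj : Set.InjOn (fun h => h * u h) (H : Set (G K)) := by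
    intro h hh h' hh' e
    by_contra hcon
    apply hne h hh h' hh' hcon
    have e' : h⁻¹ * h' = u h * (u h')⁻¹ := by
      have e1 : h * u h = h' * u h' := e
      calc h⁻¹ * h' = h⁻¹ * (h' * u h') * (u h')⁻¹ := by group
        _ = h⁻¹ * (h * u h) * (u h')⁻¹ := by rw [e1]
        _ = u h * (u h')⁻¹ := by group
    rw [e']
    exact isIntegralAt_mul972 (hu h hh).2.1 (hu h' hh').2.2
  refine ⟨?_, ?_, ?_⟩
  · rw [Finset.card_image_of_injOn hinj, hcard]
  · intro g hg
    obtain ⟨h, hh, rfl⟩ := Finset.mem_image.mp hg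
    obtain ⟨h1, h2, h3⟩ := hmem h hh
    refine ⟨isLocalAtFin_mul129 h1 (hu h hh).1, isIntegralAt_mul972 h2 (hu h hh).2.1, ?_⟩
    rw [finComp_mul972, Matrix.det_mul, map_mul, valued_det_maxCpt972 (hu h hh), mul_one, h3]
  · intro g hg g' hg' hgg' hint
    obtain ⟨h, hh, rfl⟩ := Finset.mem_image.mp hg
    obtain ⟨h', hh', rfl⟩ := Finset.mem_image.mp hg'
    have hh_ne : h ≠ h' := fun e' => hgg' (by rw [e'])
    apply hne h hh h' hh' hh_ne
    have e : h⁻¹ * h' = u h * ((h * u h)⁻¹ * (h' * u h')) * (u h')⁻¹ := by group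
    rw [e]
    exact isIntegralAt_mul972 (isIntegralAt_mul972 (hu h hh).2.1 hint) (hu h' hh').2.2

/-- **Symmetric Hecke coset systems exist**: `k₁ d k₂ ↦ k₁ d k₁ᵀ`. -/
theorem exists_sym972 {H : Finset (G K)} (hH : IsHeckeCosetSystem v H) :
    ∃ S : Finset (G K), IsHeckeCosetSystem v S ∧
      ∀ h ∈ S, tr972 (finCompHom129 v h) = finCompHom129 v h := by
  classical
  have key : ∀ h : G K, ∃ u : G K, IsLocalMaxCptAt129 v u ∧
      tr972 (finCompHom129 v (h * u)) = finCompHom129 v (h * u) := by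
    intro h
    obtain ⟨k₁, k₂, a, b, ha, hb, hk₁, hk₂, -, hx⟩ :=
      cartan129 (v.adicCompletionIntegers K) (finCompHom129 v h)
    refine ⟨locFin129 v (k₂⁻¹ * tr972 k₁),
      isLocalMaxCptAt_loc972 (isMaxCpt129_mul (isMaxCpt129_inv hk₂) (isMaxCpt129_tr972 hk₁)), ?_⟩
    have e : finCompHom129 v (h * locFin129 v (k₂⁻¹ * tr972 k₁))
        = k₁ * diag129 a b ha hb * tr972 k₁ := by
      rw [map_mul, finCompHom129_locFin129, hx]
      group
    rw [e, tr972_mul, tr972_mul, tr972_tr972, tr972_diag129, mul_assoc]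
  choose u hu hsym using key
  refine ⟨H.image fun h => h * u h, isHeckeCosetSystem_right972 hH u (fun h _ => hu h), ?_⟩
  intro g hg
  obtain ⟨h, -, rfl⟩ := Finset.mem_image.mp hg
  exact hsym h

/-! ## 4. The identity for a symmetric coset system -/

/-- `y ↦ ∑_{h ∈ H} f (h⁻¹ y)` is bi-invariant under `GL₂(𝒪_v)`. -/
theorem biInv_leftSum972 {H : Finset (G K)} (hH : IsHeckeCosetSystem v H) {f : G K → ℂ}
    (hf : BiInv972 v f) : BiInv972 v (fun y => ∑ h ∈ H, f (h⁻¹ * y)) := by
  classical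
  refine ⟨fun u hu g => ?_, fun u hu g => ?_⟩
  · refine Finset.sum_congr rfl fun h _ => ?_
    rw [← mul_assoc, hf.1 u hu]
  · have hθ : ∀ w : G K, IsLocalMaxCptAt129 v w → ∀ a : G K,
        (fun a => f (a⁻¹ * g)) (a * w) = (fun a => f (a⁻¹ * g)) a := by
      intro w hw a
      show f ((a * w)⁻¹ * g) = f (a⁻¹ * g)
      rw [mul_inv_rev, mul_assoc, hf.2 _ (isLocalMaxCptAt_inv972 hw)]
    have h1 := heckeSum_indep129 (isHeckeCosetSystem_left972 hH (isLocalMaxCptAt_inv972 hu)) hH
      (fun a => f (a⁻¹ * g)) hθ 1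
    rw [Finset.sum_image (fun a _ b _ e => mul_right_injective _ e)] at h1
    simp only [one_mul] at h1
    show ∑ h ∈ H, f (h⁻¹ * (u * g)) = ∑ h ∈ H, f (h⁻¹ * g)
    rw [← h1]
    refine Finset.sum_congr rfl fun h _ => ?_
    congr 1
    group

/-- **The identity of Gelfand's trick** for a coset system of symmetric elements. -/
theorem sym_sum972 {S : Finset (G K)} (hS : IsHeckeCosetSystem v S)
    (hsym : ∀ h ∈ S, tr972 (finCompHom129 v h) = finCompHom129 v h) {f : G K → ℂ}
    (hf : BiInv972 v f) (y : G K) :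
    ∑ h ∈ S, f (y * h⁻¹) = ∑ h ∈ S, f (h⁻¹ * y) := by
  obtain ⟨x, y', hy, ht⟩ : ∃ (x : GL (Fin 2) (v.adicCompletion K)) (y' : G K),
      y = locFin129 v x * y' ∧ TrivAtFin v y' :=
    ⟨finCompHom129 v y, (locFin129 v (finCompHom129 v y))⁻¹ * y, by group,
      trivAtFin_quot972 y⟩
  have h1 : ∀ h ∈ S, f (y * h⁻¹) = f (h⁻¹ * (locFin129 v (tr972 x) * y')) := by
    intro h hh
    obtain ⟨s, hs⟩ : ∃ s : GL (Fin 2) (v.adicCompletion K), h = locFin129 v s :=
      ⟨_, eq_locFin129_of_isLocalAtFin (hS.2.1 h hh).1⟩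
    have hss : tr972 s = s := by
      have := hsym h hh
      rwa [hs, finCompHom129_locFin129] at this
    have hc : y' * (locFin129 v s)⁻¹ = (locFin129 v s)⁻¹ * y' :=
      (comm_local_triv972 (isLocalAtFin_inv129 (isLocalAtFin_locFin129 v s)) ht).symm
    calc f (y * h⁻¹) = f (locFin129 v x * y' * (locFin129 v s)⁻¹) := by rw [hy, hs]
      _ = f (locFin129 v (x * s⁻¹) * y') := by
          rw [mul_assoc, hc, ← mul_assoc, map_mul, map_inv]
      _ = f (locFin129 v (tr972 (x * s⁻¹)) * y') := (tau_inv972 hf _ ht).symm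
      _ = f (locFin129 v (s⁻¹ * tr972 x) * y') := by rw [tr972_mul, tr972_inv, hss]
      _ = f (h⁻¹ * (locFin129 v (tr972 x) * y')) := by
          rw [map_mul, map_inv, ← hs, mul_assoc]
  rw [Finset.sum_congr rfl h1]
  have h2 : ∑ h ∈ S, f (h⁻¹ * (locFin129 v (tr972 x) * y'))
      = ∑ h ∈ S, f (h⁻¹ * (locFin129 v x * y')) :=
    tau_inv972 (biInv_leftSum972 hS hf) x ht
  rw [h2, ← hy]

end Adelic

/-! ## 5. The commutation -/

section Main

variable {K : Type} [Field K] [NumberField K] {v : HeightOneSpectrum (𝓞 K)}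
variable [MeasurableSpace (G K)] [BorelSpace (G K)]

/-- (continuous) `×` (continuous with compact support) is integrable. -/
theorem integrable_mul972 (μ : Measure (G K)) [IsFiniteMeasureOnCompacts μ] {a b : G K → ℂ}
    (ha : Continuous a) (hb : Continuous b) (hc : HasCompactSupport b) :
    Integrable (fun y => a y * b y) μ :=
  (ha.mul hb).integrable_of_hasCompactSupport (hc.mul_left (f := a))

/-- The convolution `x ↦ ∫ φ (x y) f(y) dμ(y)` is right invariant under `u` when `f` is left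
invariant under `u⁻¹` (no integrability needed). -/
theorem conv_rightInv972 (μ : Measure (G K)) [μ.IsMulLeftInvariant] {f φ : G K → ℂ} {u : G K}
    (hf : ∀ g : G K, f (u⁻¹ * g) = f g) (x : G K) :
    ∫ y, φ (x * u * y) * f y ∂μ = ∫ y, φ (x * y) * f y ∂μ := by
  have := integral_mul_left_eq_self (μ := μ) (fun y => φ (x * y) * f (u⁻¹ * y)) u
  calc ∫ y, φ (x * u * y) * f y ∂μ
      = ∫ y, φ (x * (u * y)) * f (u⁻¹ * (u * y)) ∂μ := by
        congr 1
        funext y
        rw [mul_assoc x u y, inv_mul_cancel_left]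
    _ = ∫ y, φ (x * y) * f (u⁻¹ * y) ∂μ := this
    _ = ∫ y, φ (x * y) * f y ∂μ := by
        congr 1
        funext y
        rw [hf]

/-- **GELFAND'S TRICK at `v`**: `R(f) ∘ T_H = T_H ∘ R(f)` for a symmetric coset system. -/
theorem conv_hecke_comm_sym972 {S : Finset (G K)} (hS : IsHeckeCosetSystem v S)
    (hsym : ∀ h ∈ S, tr972 (finCompHom129 v h) = finCompHom129 v h)
    (μ : Measure (G K)) [IsFiniteMeasureOnCompacts μ] [μ.IsMulLeftInvariant]
    [μ.IsMulRightInvariant] {f φ : G K → ℂ} (hφc : Continuous φ) (hfc : Continuous f)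
    (hfs : HasCompactSupport f) (hf : BiInv972 v f) (x : G K) :
    ∫ y, (∑ h ∈ S, φ (x * y * h)) * f y ∂μ = ∑ h ∈ S, ∫ y, φ (x * h * y) * f y ∂μ := by
  have hφx : Continuous fun y => φ (x * y) := hφc.comp (continuous_const.mul continuous_id)
  have hL : ∫ y, (∑ h ∈ S, φ (x * y * h)) * f y ∂μ
      = ∫ y, φ (x * y) * ∑ h ∈ S, f (y * h⁻¹) ∂μ := by
    have i1 : ∀ h ∈ S, Integrable (fun y => φ (x * y * h) * f y) μ := fun h _ =>
      integrable_mul972 μ
        (hφc.comp ((continuous_const.mul continuous_id).mul continuous_const)) hfc hfs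
    have i2 : ∀ h ∈ S, Integrable (fun y => φ (x * y) * f (y * h⁻¹)) μ := fun h _ =>
      integrable_mul972 μ hφx (hfc.comp (continuous_id.mul continuous_const))
        (hfs.comp_homeomorph (Homeomorph.mulRight h⁻¹))
    simp only [Finset.sum_mul, Finset.mul_sum]
    rw [integral_finsetSum _ i1, integral_finsetSum _ i2]
    refine Finset.sum_congr rfl fun h _ => ?_
    have := integral_mul_right_eq_self (μ := μ) (fun y => φ (x * y) * f (y * h⁻¹)) h
    rw [← this]
    congr 1
    funext y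
    rw [mul_assoc x y h, mul_inv_cancel_right]
  have hR : ∑ h ∈ S, ∫ y, φ (x * h * y) * f y ∂μ
      = ∫ y, φ (x * y) * ∑ h ∈ S, f (h⁻¹ * y) ∂μ := by
    have i2 : ∀ h ∈ S, Integrable (fun y => φ (x * y) * f (h⁻¹ * y)) μ := fun h _ =>
      integrable_mul972 μ hφx (hfc.comp (continuous_const.mul continuous_id))
        (hfs.comp_homeomorph (Homeomorph.mulLeft h⁻¹))
    simp only [Finset.mul_sum]
    rw [integral_finsetSum _ i2]
    refine Finset.sum_congr rfl fun h _ => ?_
    have := integral_mul_left_eq_self (μ := μ) (fun y => φ (x * y) * f (h⁻¹ * y)) h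
    rw [← this]
    congr 1
    funext y
    rw [mul_assoc x h y, inv_mul_cancel_left]
  rw [hL, hR]
  congr 1
  funext y
  rw [sym_sum972 hS hsym hf y]

/-- **GELFAND'S TRICK at `v`**: `R(f) ∘ T_H = T_H ∘ R(f)` for EVERY Hecke coset system `H` at `v`,
`φ` continuous and right invariant under `GL₂(𝒪_v)`, `f` continuous with compact support and
bi-invariant under `GL₂(𝒪_v)`, `μ` left and right invariant and finite on compact sets. -/
theorem conv_hecke_comm972 {H : Finset (G K)} (hH : IsHeckeCosetSystem v H)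
    (μ : Measure (G K)) [IsFiniteMeasureOnCompacts μ] [μ.IsMulLeftInvariant]
    [μ.IsMulRightInvariant] {f φ : G K → ℂ} (hφc : Continuous φ)
    (hφ : ∀ u : G K, IsLocalMaxCptAt129 v u → ∀ g : G K, φ (g * u) = φ g)
    (hfc : Continuous f) (hfs : HasCompactSupport f) (hf : BiInv972 v f) (x : G K) :
    ∫ y, (∑ h ∈ H, φ (x * y * h)) * f y ∂μ = ∑ h ∈ H, ∫ y, φ (x * h * y) * f y ∂μ := by
  obtain ⟨S, hS, hsym⟩ := exists_sym972 hH
  have e1 : ∀ y : G K, ∑ h ∈ H, φ (x * y * h) = ∑ h ∈ S, φ (x * y * h) := fun y =>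
    heckeSum_indep129 hH hS φ hφ (x * y)
  have hψ : ∀ u : G K, IsLocalMaxCptAt129 v u → ∀ g : G K,
      (fun g => ∫ y, φ (g * y) * f y ∂μ) (g * u) = (fun g => ∫ y, φ (g * y) * f y ∂μ) g :=
    fun u hu g => conv_rightInv972 μ (fun g' => hf.2 _ (isLocalMaxCptAt_inv972 hu) g') g
  have e2 := heckeSum_indep129 hH hS (fun g => ∫ y, φ (g * y) * f y ∂μ) hψ x
  simp only [e1]
  rw [e2]
  exact conv_hecke_comm_sym972 hS hsym μ hφc hfc hfs hf x

end Main

end Fermat.Agent.LT.H972

end

end
-- ===== PACK-END LT/H972/GelfandCore.lean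

-- ===== PACK-BEGIN LT/T2/H314/CommMeanHecke.lean
section




/-!
# Row LT, tower T2, sub-leaf T2.07.17 `SubCommMeanHecke429` (helper314, registry row 1012)

OFF-MAIN.  Sub-spec: `LT/T2/H429/OpsSpec.lean` of helper429 (byte-identical copy, with its
copies of `LT/H556/A0.lean`, `LT/T1/Spec.lean`, `LT/T2/Spec.lean`).

`subCommMeanHecke314 K : SubCommMeanHecke429 K` VERBATIM and UNCONDITIONAL: the sphere and the
circle means commute with the Hecke sums on the cusp functions.  Only the continuity of the cusp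
function and `IsLocalAtFin v h` for the elements of the coset system are used: the elements at
an infinite place commute with the elements at a finite place (`commute_inf_fin314`), the
parametrisations of spheres and circles are continuous (`continuous_sphere314`,
`continuous_circle314`; no use of the sub-leaf T2.07.30), and the integral of a finite sum of
continuous functions is the sum of the integrals.

Also `commSphereHecke314`, `commCircleHecke314`: the same on ALL continuous functions, and the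
SPARE `subLocCont314 K : SubLocCont429 K` (T2.07.30, verbatim; owner helper472: use or ignore).
-/

set_option autoImplicit false

open IsDedekindDomain NumberField MeasureTheory
open Fermat.Agent.LT.H556.A0
open Fermat.Agent.LT.T2

noncomputable section

namespace Fermat.Agent.LT.T2.H314

variable {K : Type} [Field K] [NumberField K]

/-- A sphere mean commutes with a sum of right translations by elements supported at a finite
place, on every continuous function. -/
theorem commSphereHecke314 {w : InfinitePlace K} {d : ℝ} {Y : ℝ → ℝ → G K}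
    (hY : IsSphereAt w d Y) {v : HeightOneSpectrum (𝓞 K)} (H : Finset (G K))
    (hH : ∀ h ∈ H, IsLocalAtFin v h) {φ : G K → ℂ} (hφ : Continuous φ) :
    sphereMean Y (heckeSum H φ) = heckeSum H (sphereMean Y φ) := by
  funext g
  exact sphere_sum_comm314 hY H hH hφ g

/-- A circle mean commutes with a sum of right translations by elements supported at a finite
place, on every continuous function. -/
theorem commCircleHecke314 {w : InfinitePlace K} {t : ℝ} {Y : ℝ → G K}
    (hY : IsCircleAt w t Y) {v : HeightOneSpectrum (𝓞 K)} (H : Finset (G K))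
    (hH : ∀ h ∈ H, IsLocalAtFin v h) {φ : G K → ℂ} (hφ : Continuous φ) :
    circleMean Y (heckeSum H φ) = heckeSum H (circleMean Y φ) := by
  funext g
  exact circle_sum_comm314 hY H hH hφ g

/-- **T2.07.17** `SubCommMeanHecke429`, VERBATIM. -/
theorem subCommMeanHecke314 (K : Type) [Field K] [NumberField K] :
    H429.SubCommMeanHecke429 K := by
  intro 𝔫 _ v _ H hH
  have hloc : ∀ h ∈ H, IsLocalAtFin v h := fun h hh => (hH.2.1 h hh).1
  refine ⟨?_, ?_⟩
  · intro w _ d _ Y hY φ hφ
    exact commSphereHecke314 hY H hloc hφ.cont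
  · intro w _ t _ Y hY φ hφ
    exact commCircleHecke314 hY H hloc hφ.cont

/-- **T2.07.30** `SubLocCont429`, VERBATIM (spare). -/
theorem subLocCont314 (K : Type) [Field K] [NumberField K] : H429.SubLocCont429 K :=
  fun w _ _ h hloc hc => continuous_of_localAtInf314 w h hloc hc

end Fermat.Agent.LT.T2.H314

end

end
-- ===== PACK-END LT/T2/H314/CommMeanHecke.lean

-- ===== PACK-BEGIN LT/T2/H354/KType.lean
section





/-!
# Row LT, tower T2, leaf T2.26 (helper354): classification of the `K_∞`-types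

For `τ` with `T2.IsKType τ` and an infinite place `w` there is an integer `n` with
`τ k = (pA354 (infComp w k)) ^ n` (`w` real, `k ∈ SO(2)`), resp. `τ k = (det (infComp w k)) ^ n`
(`w` complex, `k ∈ U(2)`), for every `k` with `IsArchCompact w k`.
-/

set_option autoImplicit false
set_option linter.unusedSectionVars false

open IsDedekindDomain NumberField Matrix
open scoped MatrixGroups Classical

noncomputable section

namespace Fermat.Agent.LT.T2.H354

open Fermat.Agent.LT.H556.A0 Fermat.Agent.LT.T8.H864 Fermat.Agent.LT.T2 Fermat.Agent.LT.T2.H907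

variable {K : Type} [Field K] [NumberField K]

local notation "conj" => starRingEnd ℂ

/-! ## Generalities -/

/-- At a real place the archimedean component is a real matrix. -/
theorem isRe354_infComp {w : InfinitePlace K} (hw : w.IsReal) (g : G K) :
    IsRe354 (infComp w g) := by
  intro i j
  unfold infComp
  rw [← InfinitePlace.Completion.extensionEmbeddingOfIsReal_apply hw]
  exact Complex.ofReal_im _

theorem infCompHom_eq_of_infComp354 {w : InfinitePlace K} {k k' : G K}
    (h : infComp w k = infComp w k') : infCompHom w k = infCompHom w k' := by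
  rw [infComp_eq_infCompHom, infComp_eq_infCompHom] at h
  refine Units.ext ?_
  exact Matrix.map_injective (InfinitePlace.Completion.extensionEmbedding w).injective h

/-- Two elements supported at `w` with the same component at `w` are equal. -/
theorem eq_of_isLocalAtInf354 {w : InfinitePlace K} {k k' : G K} (hk : IsLocalAtInf w k)
    (hk' : IsLocalAtInf w k') (h : infComp w k = infComp w k') : k = k' := by
  refine G_ext (fun w' => ?_) (fun v => ?_)
  · by_cases hw : w' = w
    · subst hw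
      exact infCompHom_eq_of_infComp354 h
    · rw [(trivAtInf_iff_hom w' k).1 (hk.1 w' hw), (trivAtInf_iff_hom w' k').1 (hk'.1 w' hw)]
  · rw [(trivAtFin_iff_hom v k).1 (hk.2 v), (trivAtFin_iff_hom v k').1 (hk'.2 v)]

theorem isLocalAtInf_one354 (w : InfinitePlace K) : IsLocalAtInf w (1 : G K) := by
  refine ⟨fun w' _ => ?_, fun v => ?_⟩
  · rw [trivAtInf_iff_hom, map_one]
  · rw [trivAtFin_iff_hom, map_one]

theorem isArchCompact_one354 (w : InfinitePlace K) : IsArchCompact w (1 : G K) := by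
  refine ⟨isLocalAtInf_one354 w, ?_, fun _ => ?_⟩
  · rw [infComp_one]; simp
  · rw [infComp_one]; simp

theorem map_one_of_isKType354 {τ : G K → ℂ} (hτ : IsKType τ) : τ 1 = 1 := by
  obtain ⟨w⟩ : Nonempty (InfinitePlace K) := inferInstance
  have h1 := hτ.mul w 1 1 (isArchCompact_one354 w) (isArchCompact_one354 w)
  rw [mul_one] at h1
  have h2 := hτ.norm_one w 1 (isArchCompact_one354 w)
  have h0 : τ 1 ≠ 0 := by
    intro h; rw [h, norm_zero] at h2; exact zero_ne_one h2
  have : τ 1 * (τ 1 - 1) = 0 := by linear_combination -h1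
  rcases mul_eq_zero.1 this with h | h
  · exact absurd h h0
  · linear_combination h

/-! ## Real places -/

/-- The real rotation matrix of angle `θ`. -/
def rotM354 (θ : ℝ) : Matrix (Fin 2) (Fin 2) ℝ :=
  !![Real.cos θ, -Real.sin θ; Real.sin θ, Real.cos θ]

theorem rotM354_mul (θ θ' : ℝ) : rotM354 θ * rotM354 θ' = rotM354 (θ + θ') := by
  ext i j
  fin_cases i <;> fin_cases j <;>
    simp [rotM354, Matrix.mul_apply, Fin.sum_univ_two, Real.cos_add, Real.sin_add] <;> ring

theorem rotM354_zero : rotM354 0 = 1 := by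
  ext i j
  fin_cases i <;> fin_cases j <;> simp [rotM354]

theorem rotM354_two_pi : rotM354 (2 * Real.pi) = 1 := by
  ext i j
  fin_cases i <;> fin_cases j <;> simp [rotM354]

/-- The rotation of angle `θ` in `GL₂(ℝ)`. -/
def rotGL354 (θ : ℝ) : GL (Fin 2) ℝ :=
  ⟨rotM354 θ, rotM354 (-θ), by rw [rotM354_mul, add_neg_cancel, rotM354_zero],
    by rw [rotM354_mul, neg_add_cancel, rotM354_zero]⟩

theorem rotGL354_add (θ θ' : ℝ) : rotGL354 (θ + θ') = rotGL354 θ * rotGL354 θ' :=
  Units.ext (rotM354_mul θ θ').symm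

theorem rotGL354_zero : rotGL354 0 = 1 := Units.ext rotM354_zero

theorem rotGL354_two_pi : rotGL354 (2 * Real.pi) = 1 := Units.ext rotM354_two_pi

theorem continuous_rotM354 : Continuous rotM354 := by
  refine continuous_matrix fun i j => ?_
  fin_cases i <;> fin_cases j
  · simpa [rotM354] using Real.continuous_cos
  · have : Continuous fun θ : ℝ => -Real.sin θ := Real.continuous_sin.neg
    simpa [rotM354] using this
  · simpa [rotM354] using Real.continuous_sin
  · simpa [rotM354] using Real.continuous_cos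

theorem continuous_rotGL354 : Continuous rotGL354 := by
  rw [Units.continuous_iff]
  refine ⟨continuous_rotM354, ?_⟩
  exact continuous_rotM354.comp continuous_neg

theorem map_rotM354 (θ : ℝ) :
    (rotM354 θ).map (fun r : ℝ => (r : ℂ)) = roM354 (Real.cos θ) (Real.sin θ) := by
  ext i j
  fin_cases i <;> fin_cases j <;> simp [rotM354, roM354]

theorem isU354_roM_real {a b : ℝ} (h : a ^ 2 + b ^ 2 = 1) : IsU354 (roM354 (a : ℂ) (b : ℂ)) := by
  have e : roM354 (a : ℂ) (b : ℂ) = suM354 (a : ℂ) (b : ℂ) := by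
    unfold roM354 suM354
    rw [Complex.conj_ofReal, Complex.conj_ofReal]
  rw [e]
  refine isU354_suM ?_
  rw [Complex.conj_ofReal, Complex.conj_ofReal]
  have : ((a ^ 2 + b ^ 2 : ℝ) : ℂ) = 1 := by rw [h]; simp
  push_cast at this
  linear_combination this

theorem det_roM354 (a b : ℂ) : (roM354 a b).det = a ^ 2 + b ^ 2 := by
  rw [Matrix.det_fin_two]
  simp only [roM354, Matrix.of_apply, Matrix.cons_val', Matrix.cons_val_zero, Matrix.cons_val_one,
    Matrix.cons_val_fin_one]
  ring

/-- The rotation of angle `θ` at the real place `w`. -/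
def kRot354 {w : InfinitePlace K} (hw : w.IsReal) (θ : ℝ) : G K := locInfReal hw (rotGL354 θ)

theorem infComp_kRot354 {w : InfinitePlace K} (hw : w.IsReal) (θ : ℝ) :
    infComp w (kRot354 hw θ) = roM354 (Real.cos θ) (Real.sin θ) := by
  unfold kRot354
  rw [infComp_locInfReal]
  exact map_rotM354 θ

theorem isArchCompact_kRot354 {w : InfinitePlace K} (hw : w.IsReal) (θ : ℝ) :
    IsArchCompact w (kRot354 hw θ) := by
  refine ⟨isLocalAtInf_locInfReal hw _, ?_, fun _ => ?_⟩
  · rw [infComp_kRot354]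
    exact isU354_roM_real (by rw [Real.cos_sq_add_sin_sq])
  · rw [infComp_kRot354, det_roM354]
    have : ((Real.cos θ ^ 2 + Real.sin θ ^ 2 : ℝ) : ℂ) = 1 := by
      rw [Real.cos_sq_add_sin_sq]; simp
    rw [Complex.ofReal_add, Complex.ofReal_pow, Complex.ofReal_pow] at this
    exact this

/-- **Classification at a real place.** -/
theorem ktype_real354 {τ : G K → ℂ} (hτ : IsKType τ) {w : InfinitePlace K} (hw : w.IsReal) :
    ∃ n : ℤ, ∀ k : G K, IsArchCompact w k → τ k = pA354 (infComp w k) ^ n := by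
  set χ : ℝ → ℂ := fun θ => τ (kRot354 hw θ) with hχ
  have hχc : Continuous χ := by
    have h1 : Continuous fun θ : ℝ => kRot354 (K := K) hw θ :=
      (continuous_locInfReal hw).comp continuous_rotGL354
    exact (hτ.cont w).comp_continuous h1 fun θ => isArchCompact_kRot354 hw θ
  have hχ0 : χ 0 = 1 := by
    rw [hχ]
    simp only
    unfold kRot354
    rw [rotGL354_zero, map_one]
    exact map_one_of_isKType354 hτ
  have hχm : ∀ s t, χ (s + t) = χ s * χ t := by
    intro s t
    rw [hχ]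
    simp only
    rw [← hτ.mul w _ _ (isArchCompact_kRot354 hw s) (isArchCompact_kRot354 hw t)]
    unfold kRot354
    rw [rotGL354_add, map_mul]
  have hχp : χ (2 * Real.pi) = 1 := by
    rw [hχ]
    simp only
    unfold kRot354
    rw [rotGL354_two_pi, map_one]
    exact map_one_of_isKType354 hτ
  obtain ⟨n, hn⟩ := char_periodic354 χ hχc hχ0 hχm hχp
  refine ⟨n, fun k hk => ?_⟩
  obtain ⟨hloc, hU, hdet⟩ := hk
  have hre := isRe354_infComp hw k
  obtain ⟨hform, hnorm⟩ := eq_roM354_of_isU hU (hdet hw) hre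
  set z : ℂ := infComp w k 0 0 + Complex.I * infComp w k 1 0 with hz
  set θ : ℝ := Complex.arg z with hθ
  have hexp : Complex.exp (θ * Complex.I) = z := by
    have := Complex.norm_mul_exp_arg_mul_I z
    rw [hnorm, Complex.ofReal_one, one_mul] at this
    exact this
  have e0 : (infComp w k 0 0).im = 0 := hre 0 0
  have e1 : (infComp w k 1 0).im = 0 := hre 1 0
  have hc : infComp w k 0 0 = ((Real.cos θ : ℝ) : ℂ) := by
    have h1 := congrArg Complex.re hexp
    rw [Complex.exp_ofReal_mul_I_re, hz] at h1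
    simp only [Complex.add_re, Complex.mul_re, Complex.I_re, Complex.I_im, e1] at h1
    refine Complex.ext ?_ ?_
    · rw [Complex.ofReal_re]; linarith
    · rw [Complex.ofReal_im]; exact e0
  have hs : infComp w k 1 0 = ((Real.sin θ : ℝ) : ℂ) := by
    have h1 := congrArg Complex.im hexp
    rw [Complex.exp_ofReal_mul_I_im, hz] at h1
    simp only [Complex.add_im, Complex.mul_im, Complex.I_re, Complex.I_im, e0] at h1
    refine Complex.ext ?_ ?_
    · rw [Complex.ofReal_re]; linarith
    · rw [Complex.ofReal_im]; exact e1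
  have hk' : k = kRot354 hw θ := by
    refine eq_of_isLocalAtInf354 hloc (isLocalAtInf_locInfReal hw _) ?_
    rw [infComp_kRot354, ← hc, ← hs]
    exact hform
  have hpa : pA354 (infComp w k) = z := by
    rw [hform, pA354_roM]
  calc τ k = χ θ := by rw [hχ]; simp only; rw [← hk']
    _ = Complex.exp (θ * Complex.I) ^ n := hn θ
    _ = pA354 (infComp w k) ^ n := by rw [hexp, hpa]

/-! ## Complex places -/

/-- The complex numbers inside the completion at a complex place. -/
def cpxHom354 {w : InfinitePlace K} (hw : w.IsComplex) : ℂ →+* w.Completion :=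
  (InfinitePlace.Completion.ringEquivComplexOfIsComplex hw).symm.toRingHom

theorem extensionEmbedding_cpxHom354 {w : InfinitePlace K} (hw : w.IsComplex) (z : ℂ) :
    InfinitePlace.Completion.extensionEmbedding w (cpxHom354 hw z) = z := by
  rw [← InfinitePlace.Completion.ringEquivComplexOfIsComplex_apply hw]
  exact (InfinitePlace.Completion.ringEquivComplexOfIsComplex hw).apply_symm_apply z

theorem continuous_cpxHom354 {w : InfinitePlace K} (hw : w.IsComplex) :
    Continuous (cpxHom354 hw) :=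
  (InfinitePlace.Completion.isometryEquivComplexOfIsComplex hw).symm.continuous

/-- The local element at the complex place `w` given by a complex matrix. -/
def locInfCpx354 {w : InfinitePlace K} (hw : w.IsComplex) : GL (Fin 2) ℂ →* G K :=
  (locInf w).comp (Matrix.GeneralLinearGroup.map (cpxHom354 hw))

theorem isLocalAtInf_locInfCpx354 {w : InfinitePlace K} (hw : w.IsComplex) (m : GL (Fin 2) ℂ) :
    IsLocalAtInf w (locInfCpx354 hw m) := isLocalAtInf_locInf w _

theorem infComp_locInfCpx354 {w : InfinitePlace K} (hw : w.IsComplex) (m : GL (Fin 2) ℂ) :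
    infComp w (locInfCpx354 hw m) = (m : Matrix (Fin 2) (Fin 2) ℂ) := by
  unfold locInfCpx354
  rw [MonoidHom.comp_apply, infComp_locInf_self]
  refine Matrix.ext fun i j => ?_
  exact extensionEmbedding_cpxHom354 hw _

theorem continuous_locInfCpx354 {w : InfinitePlace K} (hw : w.IsComplex) :
    Continuous (locInfCpx354 (K := K) hw) := by
  have h : Continuous (Matrix.GeneralLinearGroup.map (n := Fin 2) (cpxHom354 hw)) := by
    unfold Matrix.GeneralLinearGroup.map
    apply Continuous.units_map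
    exact Continuous.matrix_map continuous_id (continuous_cpxHom354 hw)
  exact (continuous_locInf w).comp h

/-- A unitary matrix as an element of `GL₂(ℂ)`. -/
def uGL354 (M : Matrix (Fin 2) (Fin 2) ℂ) (h : IsU354 M) : GL (Fin 2) ℂ :=
  ⟨M, Mᴴ, h, h.conjTranspose_mul⟩

/-- The local element at the complex place `w` given by a unitary matrix (`1` for the other
matrices). -/
def iotaC354 {w : InfinitePlace K} (hw : w.IsComplex) (M : Matrix (Fin 2) (Fin 2) ℂ) : G K :=
  if h : IsU354 M then locInfCpx354 hw (uGL354 M h) else 1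

theorem iotaC354_of_isU {w : InfinitePlace K} (hw : w.IsComplex)
    {M : Matrix (Fin 2) (Fin 2) ℂ} (h : IsU354 M) :
    iotaC354 (K := K) hw M = locInfCpx354 hw (uGL354 M h) := dif_pos h

theorem infComp_iotaC354 {w : InfinitePlace K} (hw : w.IsComplex)
    {M : Matrix (Fin 2) (Fin 2) ℂ} (h : IsU354 M) : infComp w (iotaC354 (K := K) hw M) = M := by
  rw [iotaC354_of_isU hw h, infComp_locInfCpx354]
  rfl

theorem isArchCompact_iotaC354 {w : InfinitePlace K} (hw : w.IsComplex)
    {M : Matrix (Fin 2) (Fin 2) ℂ} (h : IsU354 M) : IsArchCompact w (iotaC354 (K := K) hw M) := by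
  refine ⟨?_, ?_, fun hr => ?_⟩
  · rw [iotaC354_of_isU hw h]
    exact isLocalAtInf_locInfCpx354 hw _
  · rw [infComp_iotaC354 hw h]
    exact h
  · exact absurd hr (InfinitePlace.not_isReal_iff_isComplex.2 hw)

theorem iotaC354_mul {w : InfinitePlace K} (hw : w.IsComplex)
    {M N : Matrix (Fin 2) (Fin 2) ℂ} (hM : IsU354 M) (hN : IsU354 N) :
    iotaC354 (K := K) hw (M * N) = iotaC354 hw M * iotaC354 hw N := by
  rw [iotaC354_of_isU hw hM, iotaC354_of_isU hw hN, iotaC354_of_isU hw (hM.mul hN), ← map_mul]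
  congr 1
  exact Units.ext rfl

theorem continuousOn_iotaC354 {w : InfinitePlace K} (hw : w.IsComplex) :
    ContinuousOn (iotaC354 (K := K) hw) {M | IsU354 M} := by
  rw [continuousOn_iff_continuous_domRestrict]
  have e : Set.domRestrict {M | IsU354 M} (iotaC354 (K := K) hw)
      = fun x : {M : Matrix (Fin 2) (Fin 2) ℂ | IsU354 M} =>
          locInfCpx354 hw (uGL354 x.1 x.2) := by
    funext x
    exact iotaC354_of_isU hw x.2
  rw [e]
  refine (continuous_locInfCpx354 hw).comp ?_
  rw [Units.continuous_iff]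
  refine ⟨continuous_subtype_val, ?_⟩
  exact continuous_subtype_val.matrix_conjTranspose

/-- **Classification at a complex place.** -/
theorem ktype_complex354 {τ : G K → ℂ} (hτ : IsKType τ) {w : InfinitePlace K}
    (hw : w.IsComplex) :
    ∃ n : ℤ, ∀ k : G K, IsArchCompact w k → τ k = (infComp w k).det ^ n := by
  set T : Matrix (Fin 2) (Fin 2) ℂ → ℂ := fun M => τ (iotaC354 hw M) with hT
  have hmul : ∀ M N, IsU354 M → IsU354 N → T (M * N) = T M * T N := by
    intro M N hM hN
    rw [hT]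
    simp only
    rw [iotaC354_mul hw hM hN]
    exact hτ.mul w _ _ (isArchCompact_iotaC354 hw hM) (isArchCompact_iotaC354 hw hN)
  have hnorm : ∀ M, IsU354 M → ‖T M‖ = 1 := fun M hM =>
    hτ.norm_one w _ (isArchCompact_iotaC354 hw hM)
  have hcont : ContinuousOn T {M | IsU354 M} :=
    (hτ.cont w).comp (continuousOn_iotaC354 hw) fun M hM => isArchCompact_iotaC354 hw hM
  obtain ⟨n, hn⟩ := u2_char354 T hmul hnorm hcont
  refine ⟨n, fun k hk => ?_⟩
  have hU : IsU354 (infComp w k) := hk.2.1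
  have hk' : k = iotaC354 hw (infComp w k) := by
    refine eq_of_isLocalAtInf354 hk.1 (isArchCompact_iotaC354 hw hU).1 ?_
    rw [infComp_iotaC354 hw hU]
  calc τ k = T (infComp w k) := by rw [hT]; simp only; rw [← hk']
    _ = (infComp w k).det ^ n := hn _ hU

/-! ## The local character -/

/-- The basic character of the compact group at `w`: `pA` at a real place, `det` at a complex
place. -/
def Ploc354 (w : InfinitePlace K) (M : Matrix (Fin 2) (Fin 2) ℂ) : ℂ :=
  if w.IsReal then pA354 M else M.det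

/-- **Classification of the `K_∞`-types.** -/
theorem ktype_class354 {τ : G K → ℂ} (hτ : IsKType τ) :
    ∃ n : InfinitePlace K → ℤ, ∀ (w : InfinitePlace K) (k : G K), IsArchCompact w k →
      τ k = Ploc354 w (infComp w k) ^ n w := by
  have h : ∀ w : InfinitePlace K, ∃ n : ℤ, ∀ k : G K, IsArchCompact w k →
      τ k = Ploc354 w (infComp w k) ^ n := by
    intro w
    by_cases hw : w.IsReal
    · obtain ⟨n, hn⟩ := ktype_real354 hτ hw
      exact ⟨n, fun k hk => by rw [Ploc354, if_pos hw]; exact hn k hk⟩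
    · obtain ⟨n, hn⟩ := ktype_complex354 hτ (InfinitePlace.not_isReal_iff_isComplex.1 hw)
      exact ⟨n, fun k hk => by rw [Ploc354, if_neg hw]; exact hn k hk⟩
  choose n hn using h
  exact ⟨n, hn⟩

end Fermat.Agent.LT.T2.H354

end

end
-- ===== PACK-END LT/T2/H354/KType.lean

-- ===== PACK-BEGIN LT/T2/H8/LeafT04.lean
section




/-!
# Row LT, tower T2, leaf T2.24 (`GPST ⇒ HSBoundT`, `GPSKillT ⇒ HSKillT`) — helper8, OFF-MAIN

`leafT04_h8 : T2.LeafT04 K`, verbatim against `LT/T2/SpecTau.lean` (helper130@e2e090185,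
sha256 4d2b0fc2), the `T`-form of T2.04 for the class of T5 (level `U(𝔫)`, `K_∞`-type `τ`,
invariance under the ray generator `r`).

The proof is that of T2.04 (helper510, `LT/T2/H510/Leaf04.lean`, sha256 c2c039c1): Bessel at a
point, then integration over the fundamental domain.  The lemmas of helper510 which do not mention
the class (`sum_sq_le_h510`, `isCuspidalFn_sum_h510`, `nsq_sum_h510`, `nsq_eq_integral_h510`) are
used as they are; the three lemmas on the convolution are restated for a continuous `f` with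
compact support, and the classes `IsCuspT`, `IsAutT` are closed under finite linear combinations.
-/

set_option autoImplicit false
set_option linter.style.haveILetI false

open IsDedekindDomain NumberField MeasureTheory AutomorphicForm
open Fermat.Agent.LT.H556.A0

noncomputable section

namespace Fermat.Agent.LT.T2.H8

open Fermat.Agent.LT
open Fermat.Agent.LT.T2.H510

attribute [local instance] Fermat.Agent.LT.T2.borelG
attribute [local instance] Fermat.Agent.LT.T2.H510.borelSpaceG_h510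

variable {K : Type} [Field K] [NumberField K]

/-! ## 1. Linear combinations in the class -/

/-- A finite linear combination of automorphic functions of the class is in the class. -/
theorem isAutT_sum_h8 (𝔫 : Ideal (𝓞 K)) (τ : G K → ℂ) (r : G K) {n : ℕ} (c : Fin n → ℂ)
    (φ : Fin n → G K → ℂ) (hφ : ∀ i, T2.IsAutT 𝔫 τ r (φ i)) :
    T2.IsAutT 𝔫 τ r (fun g => ∑ i, c i * φ i g) where
  cont := continuous_finsetSum _ fun i _ => continuous_const.mul (hφ i).cont
  bdd := by
    choose C hC using fun i => (hφ i).bdd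
    refine ⟨∑ i, ‖c i‖ * C i, fun g => ?_⟩
    calc ‖∑ i, c i * φ i g‖ ≤ ∑ i, ‖c i * φ i g‖ := norm_sum_le _ _
      _ ≤ ∑ i, ‖c i‖ * C i := Finset.sum_le_sum fun i _ => by
          rw [norm_mul]
          exact mul_le_mul_of_nonneg_left (hC i g) (norm_nonneg _)
  left_inv := fun γ g =>
    Finset.sum_congr rfl fun i _ => by rw [(hφ i).left_inv γ g]
  level_inv := fun u hu g =>
    Finset.sum_congr rfl fun i _ => by rw [(hφ i).level_inv u hu g]
  arch_compact := fun w k hk g => by
    rw [Finset.mul_sum]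
    exact Finset.sum_congr rfl fun i _ => by rw [(hφ i).arch_compact w k hk g]; ring
  ray := fun g =>
    Finset.sum_congr rfl fun i _ => by rw [(hφ i).ray g]

/-- A finite linear combination of cusp functions of the class is a cusp function of the class. -/
theorem isCuspT_sum_h8 (hT1 : T1.T1Out K) (𝔫 : Ideal (𝓞 K)) (τ : G K → ℂ) (r : G K) {n : ℕ}
    (c : Fin n → ℂ) (φ : Fin n → G K → ℂ) (hφ : ∀ i, T2.IsCuspT 𝔫 τ r (φ i)) :
    T2.IsCuspT 𝔫 τ r (fun g => ∑ i, c i * φ i g) where
  aut := isAutT_sum_h8 𝔫 τ r c φ fun i => (hφ i).aut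
  cuspidal := isCuspidalFn_sum_h510 hT1 c φ (fun i => (hφ i).aut.cont)
    (fun i => (hφ i).aut.bdd) (fun i => (hφ i).cuspidal)

/-! ## 2. The convolution with a continuous function of compact support -/

/-- The integrand of the convolution is integrable. -/
theorem integrable_conv_h8 (F : T2.Frame K) {f : G K → ℂ} (hfc : Continuous f)
    (hfs : HasCompactSupport f) {φ : G K → ℂ} (hφ : Continuous φ) (x : G K) :
    Integrable (fun h => φ (x * h) * f h) F.μ := by
  haveI := F.haar
  have hcont : Continuous fun h => φ (x * h) * f h :=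
    (hφ.comp (continuous_const.mul continuous_id)).mul hfc
  exact hcont.integrable_of_hasCompactSupport (hfs.mul_left (f := fun h => φ (x * h)))

/-- The convolution of a continuous function with a continuous function of compact support is
continuous. -/
theorem continuous_conv_h8 (hT1 : T1.T1Out K) (F : T2.Frame K) {f : G K → ℂ}
    (hfc : Continuous f) (hfs : HasCompactSupport f) {φ : G K → ℂ} (hφ : Continuous φ) :
    Continuous (T2.conv F f φ) := by
  haveI := F.haar
  haveI : LocallyCompactSpace (G K) := hT1.locComp.2.1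
  haveI : T2Space (G K) := hT1.locComp.2.2.1
  haveI : SecondCountableTopology (G K) := hT1.locComp.2.2.2
  have hu : Continuous (Function.uncurry fun (x : G K) (h : G K) => φ (x * h) * f h) :=
    (hφ.comp (continuous_fst.mul continuous_snd)).mul (hfc.comp continuous_snd)
  have h1 : Continuous fun x => ∫ h in tsupport f, φ (x * h) * f h ∂F.μ :=
    continuous_parametric_integral_of_continuous hu hfs
  have h2 : T2.conv F f φ = fun x => ∫ h in tsupport f, φ (x * h) * f h ∂F.μ := by
    funext x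
    unfold T2.conv
    refine (setIntegral_eq_integral_of_forall_compl_eq_zero fun h hh => ?_).symm
    rw [image_eq_zero_of_notMem_tsupport hh, mul_zero]
  rw [h2]
  exact h1

/-- The convolution is linear on finite combinations of continuous functions. -/
theorem conv_sum_h8 (F : T2.Frame K) {f : G K → ℂ} (hfc : Continuous f)
    (hfs : HasCompactSupport f) {n : ℕ} (c : Fin n → ℂ) (φ : Fin n → G K → ℂ)
    (hφ : ∀ i, Continuous (φ i)) (x : G K) :
    T2.conv F f (fun g => ∑ i, c i * φ i g) x = ∑ i, c i * T2.conv F f (φ i) x := by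
  unfold T2.conv
  have h0 : (fun h => (∑ i, c i * φ i (x * h)) * f h)
      = fun h => ∑ i, c i * (φ i (x * h) * f h) := by
    funext h
    rw [Finset.sum_mul]
    exact Finset.sum_congr rfl fun i _ => by ring
  rw [h0, integral_finsetSum _ fun i _ =>
    (integrable_conv_h8 F hfc hfs (hφ i) x).const_mul (c i)]
  exact Finset.sum_congr rfl fun i _ => integral_const_mul (c i) _

/-! ## 3. The leaf -/

/-- **The abstract step** (helper510's `hs_of_pointwise_h510` for a continuous `f` with compact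
support): a pointwise estimate `|R(f)φ(x)| ≤ C₀ ‖φ‖₂` on a class `P` of bounded continuous
functions which is closed under finite linear combinations gives the Hilbert--Schmidt bound
`∑ ‖R(f) φ_i‖² ≤ max(C₀,0)² μ(D)` for orthonormal families in `P`. -/
theorem hs_of_pointwise_h8 (hT1 : T1.T1Out K) (F : T2.Frame K)
    {f : G K → ℂ} (hfc : Continuous f) (hfs : HasCompactSupport f) (P : (G K → ℂ) → Prop)
    (hPc : ∀ φ, P φ → Continuous φ) (hPb : ∀ φ, P φ → ∃ C : ℝ, ∀ g : G K, ‖φ g‖ ≤ C)
    (hPs : ∀ (n : ℕ) (c : Fin n → ℂ) (φ : Fin n → G K → ℂ), (∀ i, P (φ i)) →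
      P (fun g => ∑ i, c i * φ i g))
    (C₀ : ℝ) (hC₀ : ∀ φ : G K → ℂ, P φ →
      ∀ x : G K, ‖T2.conv F f φ x‖ ≤ C₀ * Real.sqrt (T2.nsq F φ))
    (n : ℕ) (φ : Fin n → G K → ℂ) (hφ : ∀ i, P (φ i))
    (horth : ∀ i j, T2.pair F (φ i) (φ j) = if i = j then 1 else 0) :
    ∑ i, T2.nsq F (T2.conv F f (φ i)) ≤ (max C₀ 0) ^ 2 * (F.μ F.D).toReal := by
  -- Bessel at a point
  have hpt : ∀ x : G K, ∑ i, ‖T2.conv F f (φ i) x‖ ^ 2 ≤ (max C₀ 0) ^ 2 := by
    intro x
    set a : Fin n → ℂ := fun i => T2.conv F f (φ i) x with ha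
    refine sum_sq_le_h510 a (max C₀ 0) (le_max_right _ _) ?_
    have h1 := hC₀ _ (hPs n (fun i => (starRingEnd ℂ) (a i)) φ hφ) x
    rw [conv_sum_h8 F hfc hfs _ φ (fun i => hPc _ (hφ i)) x,
      nsq_sum_h510 F _ φ (fun i => hPc _ (hφ i)) (fun i => hPb _ (hφ i)) horth] at h1
    have h2 : (∑ i, ‖(starRingEnd ℂ) (a i)‖ ^ 2) = ∑ i, ‖a i‖ ^ 2 :=
      Finset.sum_congr rfl fun i _ => by rw [RCLike.norm_conj]
    rw [h2] at h1
    exact h1.trans (mul_le_mul_of_nonneg_right (le_max_left _ _) (Real.sqrt_nonneg _))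
  -- integrability of the squares
  have hint : ∀ i, IntegrableOn (fun g => ‖T2.conv F f (φ i) g‖ ^ 2) F.D F.μ := by
    intro i
    have hc : Continuous fun g => ‖T2.conv F f (φ i) g‖ ^ 2 :=
      ((continuous_conv_h8 hT1 F hfc hfs (hPc _ (hφ i))).norm).pow 2
    refine Measure.integrableOn_of_bounded
      (M := (C₀ * Real.sqrt (T2.nsq F (φ i))) ^ 2) F.fin.ne hc.aestronglyMeasurable
      (Filter.Eventually.of_forall fun g => ?_)
    rw [Real.norm_of_nonneg (by positivity)]
    exact pow_le_pow_left₀ (norm_nonneg _) (hC₀ _ (hφ i) g) 2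
  calc ∑ i, T2.nsq F (T2.conv F f (φ i))
      = ∑ i, ∫ g in F.D, ‖T2.conv F f (φ i) g‖ ^ 2 ∂F.μ :=
        Finset.sum_congr rfl fun i _ => nsq_eq_integral_h510 F _
    _ = ∫ g in F.D, ∑ i, ‖T2.conv F f (φ i) g‖ ^ 2 ∂F.μ :=
        (integral_finsetSum _ fun i _ => hint i).symm
    _ ≤ ∫ _ in F.D, (max C₀ 0) ^ 2 ∂F.μ :=
        setIntegral_mono (integrable_finsetSum _ fun i _ => hint i)
          (integrableOn_const F.fin.ne) hpt
    _ = (max C₀ 0) ^ 2 * (F.μ F.D).toReal := by
        rw [setIntegral_const, smul_eq_mul, mul_comm]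
        rfl

/-- **T2.24**: `GPST ⇒ HSBoundT` and `GPSKillT ⇒ HSKillT` (the hypotheses `𝔫 ≠ ⊥` and `IsKType τ`
are not used). -/
theorem leafT04_h8 (K : Type) [Field K] [NumberField K] : T2.LeafT04 K := by
  intro hT1 𝔫 τ _ _
  refine ⟨fun hG R f hf => ?_, fun hG R f hf hkill => ?_⟩
  · obtain ⟨C₀, hC₀⟩ := hG R f hf
    exact ⟨(max C₀ 0) ^ 2 * (R.F.μ R.F.D).toReal, fun n φ hφ horth =>
      hs_of_pointwise_h8 hT1 R.F hf.cont hf.cpt (T2.IsCuspT 𝔫 τ R.r)
        (fun _ h => h.aut.cont) (fun _ h => h.aut.bdd)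
        (fun n c φ hφ => isCuspT_sum_h8 hT1 𝔫 τ R.r c φ hφ) C₀ hC₀ n φ hφ horth⟩
  · obtain ⟨C₀, hC₀⟩ := hG R f hf hkill
    exact ⟨(max C₀ 0) ^ 2 * (R.F.μ R.F.D).toReal, fun n φ hφ horth =>
      hs_of_pointwise_h8 hT1 R.F hf.cont hf.cpt (T2.IsAutT 𝔫 τ R.r)
        (fun _ h => h.cont) (fun _ h => h.bdd)
        (fun n c φ hφ => isAutT_sum_h8 𝔫 τ R.r c φ hφ) C₀ hC₀ n φ hφ horth⟩

end Fermat.Agent.LT.T2.H8

end

end
-- ===== PACK-END LT/T2/H8/LeafT04.lean

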