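import Mathlib
import Fermat.Agent.Pack.LT3.E8L0
import Fermat.Agent.Pack.LT2.E0L2
import Fermat.Agent.Pack.LT2.E2L1
import Fermat.Agent.Pack.LT2.E5L3
import Fermat.Agent.Pack.LT3.E8L2
import Fermat.Agent.Pack.LT2.E6L3
import Fermat.Agent.Pack.LT2.E6L0
import Fermat.Agent.Pack.LT2.E3L0
import Fermat.Agent.Pack.LT3.E0L1
import Fermat.Agent.Pack.LT3.E3L3
import Fermat.Agent.Pack.LT3.E0L2
import Fermat.Agent.Pack.LT3.E3L2
import Fermat.Agent.Pack.LT2.E6L2
import Fermat.Agent.Pack.LT3.E0L3
import Fermat.Agent.Pack.LT3.E10L3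

set_option linter.all false

-- ===== PACK-BEGIN LT/T6/H492/TorTReg.lean
section


/-!
# Row LT, tower T6, leaf T6.21.5 `H830.TorTRegC` (helper492)

OFF-MAIN.  `torTRegC492 : H830.TorTRegC` VERBATIM (Spec `LT/T6/H830/InjSpec.lean` of helper830,
byte-identical copy): for a test function `f` on `GL₂(ℝ)` the central average on the torus
`torT f t = ∫_ζ f(e^{ζ/2} a_t) dζ` is continuous in `t` and vanishes for large `t`.

Only `Continuous f` and `HasCompactSupport f` are used (`torT_reg492`).

Proof.  On the compact support `K` of `f` the continuous functions `log |det g|` and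
`g₀₀² / |det g|` are bounded, by `R` and `M₀`; at `g = bR ζ t 0 = e^{ζ/2} diag(e^{t/2}, e^{-t/2})`
they take the values `ζ` and `e^t`.  So `f (bR ζ t 0) = 0` unless `|ζ| ≤ R` and `e^t ≤ M₀`:
the integrand is dominated by `C · 1_{[-R, R]}` uniformly in `t` (continuity of the parametric
integral, `MeasureTheory.continuous_of_dominated`), and it vanishes identically for `t > M₀`
(`t + 1 ≤ e^t`).  `(ζ, t) ↦ bR ζ t 0` is continuous into `GL₂(ℝ)` (units topology: the inverse is
`bR (-ζ) (-t) 0`).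
-/

set_option autoImplicit false

open scoped Matrix
open MeasureTheory

noncomputable section

namespace Fermat.Agent.LT.T6.H492

open Fermat.Agent.LT.T6 Fermat.Agent.LT.T6.H830

/-! ## 1. The torus elements `bR ζ t 0` -/

theorem bR_val492 (ζ r x : ℝ) :
    ((bR ζ r x : GL (Fin 2) ℝ) : Matrix (Fin 2) (Fin 2) ℝ)
      = !![Real.exp ((ζ + r) / 2), Real.exp ((ζ + r) / 2) * x; 0, Real.exp ((ζ - r) / 2)] :=
  rfl

theorem bR_mul_neg492 (ζ t : ℝ) : bR ζ t 0 * bR (-ζ) (-t) 0 = 1 := by
  apply Units.ext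
  rw [Units.val_mul, bR_val492, bR_val492, Units.val_one]
  have e1 : Real.exp ((ζ + t) / 2) * Real.exp ((-ζ + -t) / 2) = 1 := by
    rw [← Real.exp_add]
    have : (ζ + t) / 2 + (-ζ + -t) / 2 = 0 := by ring
    rw [this, Real.exp_zero]
  have e2 : Real.exp ((ζ - t) / 2) * Real.exp ((-ζ + t) / 2) = 1 := by
    rw [← Real.exp_add]
    have : (ζ - t) / 2 + (-ζ + t) / 2 = 0 := by ring
    rw [this, Real.exp_zero]
  ext i j
  fin_cases i <;> fin_cases j <;> simp [Matrix.mul_apply, Fin.sum_univ_two, e1, e2]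

theorem bR_inv492 (ζ t : ℝ) : (bR ζ t 0)⁻¹ = bR (-ζ) (-t) 0 :=
  inv_eq_of_mul_eq_one_right (bR_mul_neg492 ζ t)

theorem continuous_bR_val492 :
    Continuous (fun p : ℝ × ℝ =>
      ((bR p.1 p.2 0 : GL (Fin 2) ℝ) : Matrix (Fin 2) (Fin 2) ℝ)) := by
  simp only [bR_val492]
  refine continuous_matrix fun i j => ?_
  fin_cases i <;> fin_cases j <;> simp <;> fun_prop

theorem continuous_bR492 : Continuous (fun p : ℝ × ℝ => bR p.1 p.2 0) := by
  rw [Units.continuous_iff]
  refine ⟨continuous_bR_val492, ?_⟩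
  have h : (fun p : ℝ × ℝ =>
      (((bR p.1 p.2 0)⁻¹ : GL (Fin 2) ℝ) : Matrix (Fin 2) (Fin 2) ℝ))
      = fun p : ℝ × ℝ => ((bR (-p.1) (-p.2) 0 : GL (Fin 2) ℝ) : Matrix (Fin 2) (Fin 2) ℝ) := by
    funext p
    rw [bR_inv492]
  have h2 : Continuous (fun p : ℝ × ℝ => ((-p.1, -p.2) : ℝ × ℝ)) := by fun_prop
  exact h ▸ continuous_bR_val492.comp h2

theorem det_bR492 (ζ t : ℝ) :
    ((bR ζ t 0 : GL (Fin 2) ℝ) : Matrix (Fin 2) (Fin 2) ℝ).det = Real.exp ζ := by
  rw [bR_val492, Matrix.det_fin_two_of]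
  simp only [mul_zero, sub_zero]
  rw [← Real.exp_add]
  congr 1
  ring

theorem entry_bR492 (ζ t : ℝ) :
    ((bR ζ t 0 : GL (Fin 2) ℝ) : Matrix (Fin 2) (Fin 2) ℝ) 0 0 = Real.exp ((ζ + t) / 2) := by
  rw [bR_val492]
  rfl

/-! ## 2. Two continuous functions on `GL₂(ℝ)` -/

theorem continuous_det492 :
    Continuous (fun g : GL (Fin 2) ℝ => (g : Matrix (Fin 2) (Fin 2) ℝ).det) :=
  Continuous.matrix_det Units.continuous_val

theorem det_ne_zero492 (g : GL (Fin 2) ℝ) : (g : Matrix (Fin 2) (Fin 2) ℝ).det ≠ 0 := by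
  have h := Matrix.GeneralLinearGroup.det_ne_zero g
  exact h

theorem continuous_logdet492 :
    Continuous (fun g : GL (Fin 2) ℝ => Real.log |(g : Matrix (Fin 2) (Fin 2) ℝ).det|) :=
  Continuous.log (continuous_abs.comp continuous_det492)
    (fun g => abs_ne_zero.mpr (det_ne_zero492 g))

theorem continuous_ratio492 :
    Continuous (fun g : GL (Fin 2) ℝ =>
      ((g : Matrix (Fin 2) (Fin 2) ℝ) 0 0) ^ 2 / |(g : Matrix (Fin 2) (Fin 2) ℝ).det|) :=
  Continuous.div ((Units.continuous_val.matrix_elem 0 0).pow 2)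
    (continuous_abs.comp continuous_det492) (fun g => abs_ne_zero.mpr (det_ne_zero492 g))

/-! ## 3. The leaf -/

theorem torT_reg492 {f : GL (Fin 2) ℝ → ℂ} (hc : Continuous f) (hs : HasCompactSupport f) :
    Continuous (torT f) ∧ ∃ M : ℝ, ∀ t : ℝ, M < t → torT f t = 0 := by
  have hK : IsCompact (tsupport f) := hs
  obtain ⟨R, hR⟩ := hK.exists_bound_of_continuousOn continuous_logdet492.continuousOn
  obtain ⟨M₀, hM₀⟩ := hK.exists_bound_of_continuousOn continuous_ratio492.continuousOn
  obtain ⟨C, hC⟩ := hc.bounded_above_of_compact_support hs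
  have hC0 : 0 ≤ C := (norm_nonneg _).trans (hC 1)
  have hzero : ∀ ζ t : ℝ, f (bR ζ t 0) ≠ 0 → |ζ| ≤ R ∧ Real.exp t ≤ M₀ := by
    intro ζ t hne
    have hmem : bR ζ t 0 ∈ tsupport f := subset_tsupport f hne
    constructor
    · have h := hR _ hmem
      rw [det_bR492, abs_of_pos (Real.exp_pos ζ), Real.log_exp, Real.norm_eq_abs] at h
      exact h
    · have h := hM₀ _ hmem
      rw [det_bR492, entry_bR492, abs_of_pos (Real.exp_pos ζ), Real.norm_eq_abs] at h
      have e : Real.exp ((ζ + t) / 2) ^ 2 / Real.exp ζ = Real.exp t := by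
        rw [← Real.exp_nat_mul, ← Real.exp_sub]
        congr 1
        push_cast
        ring
      rw [e, abs_of_pos (Real.exp_pos t)] at h
      exact h
  refine ⟨?_, M₀, ?_⟩
  · unfold torT
    refine continuous_of_dominated (bound := Set.indicator (Set.Icc (-R) R) (fun _ => C))
      ?_ ?_ ?_ ?_
    · intro t
      have h2 : Continuous (fun ζ : ℝ => ((ζ, t) : ℝ × ℝ)) := by fun_prop
      exact (hc.comp (continuous_bR492.comp h2)).aestronglyMeasurable
    · intro t
      refine Filter.Eventually.of_forall fun ζ => ?_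
      by_cases h0 : f (bR ζ t 0) = 0
      · rw [h0, norm_zero]
        exact Set.indicator_nonneg (fun _ _ => hC0) _
      · rw [Set.indicator_of_mem (Set.mem_Icc.mpr (abs_le.mp (hzero ζ t h0).1))]
        exact hC _
    · rw [integrable_indicator_iff measurableSet_Icc]
      exact integrableOn_const (by simp)
    · refine Filter.Eventually.of_forall fun ζ => ?_
      have h2 : Continuous (fun t : ℝ => ((ζ, t) : ℝ × ℝ)) := by fun_prop
      exact hc.comp (continuous_bR492.comp h2)
  · intro t ht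
    unfold torT
    have h0 : ∀ ζ : ℝ, f (bR ζ t 0) = 0 := by
      intro ζ
      by_contra hne
      have h1 := (hzero ζ t hne).2
      have h2 := Real.add_one_le_exp t
      linarith
    simp [h0]

/-- **Leaf T6.21.5** `H830.TorTRegC`, VERBATIM. -/
theorem torTRegC492 : TorTRegC :=
  fun _ _ _ hf => torT_reg492 hf.cont hf.supp

end Fermat.Agent.LT.T6.H492

end

end
-- ===== PACK-END LT/T6/H492/TorTReg.lean

-- ===== PACK-BEGIN LT/T6/H792/CentAvg.lean
section


/-!
# Row LT, tower T6, leaf T6.21.7 `CentAvgOfTorusC` (helper792)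

OFF-MAIN.  Spec: `Fermat/Agent/LT/T6/H830/InjSpec.lean` (helper830@4a7e5e87a), imported verbatim.

`centAvgOfTorusC792 : H830.CentAvgOfTorusC`: if `torT f t = ∫_ζ f (bR ζ t 0) dζ` vanishes for
`t ≥ 0`, the central average `∫_{r > 0} f (r g) dr / r` vanishes.

Proof.  `r = e^u` turns the central average into `∫_u f (e^u g) du` (no integrability is
needed for the change of variables).  If `det g ≤ 0` the integrand vanishes (`IsArchTestR.pos`).
If `det g > 0`, `g = k_α (bR ζ₀ t 0) k_β` with `t ≥ 0` (Cartan), `e^u` is central,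
`e^u · bR ζ₀ t 0 = bR (ζ₀ + 2u) t 0`, and the weight gives
`f (e^u g) = χ(k_α)⁻¹ χ(k_β)⁻¹ f (bR (ζ₀ + 2u) t 0)`; finally
`∫_u h (ζ₀ + 2u) du = (1/2) ∫ h` for every `h`.
-/

set_option autoImplicit false

open scoped Matrix
open MeasureTheory

noncomputable section

namespace Fermat.Agent.LT.T6.H792

open Fermat.Agent.LT.T6 Fermat.Agent.LT.T6.H830

/-- The rotations are in `SO(2)`. -/
theorem inSO2_rotR792 (θ : ℝ) : InSO2 (rotR θ) := by
  have h := Real.cos_sq_add_sin_sq θ
  constructor
  · rw [coe_rotR830]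
    ext i j
    fin_cases i <;> fin_cases j <;>
      simp [Matrix.mul_apply, Fin.sum_univ_two] <;> nlinarith [h]
  · rw [coe_rotR830, Matrix.det_fin_two_of]
    nlinarith [h]

/-- Scalar matrices are central. -/
theorem scalar_mul_comm792 (z y : GL (Fin 2) ℝ) (r : ℝ)
    (hz : (z : Matrix (Fin 2) (Fin 2) ℝ) = Matrix.diagonal (fun _ => r)) : z * y = y * z := by
  apply Units.ext
  show (z : Matrix (Fin 2) (Fin 2) ℝ) * (y : Matrix (Fin 2) (Fin 2) ℝ)
    = (y : Matrix (Fin 2) (Fin 2) ℝ) * (z : Matrix (Fin 2) (Fin 2) ℝ)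
  rw [hz, ← Matrix.smul_one_eq_diagonal, Matrix.smul_mul, Matrix.mul_smul, one_mul, mul_one]

/-- `e^u · bR ζ t 0 = bR (ζ + 2u) t 0`. -/
theorem scalar_mul_bR792 (z : GL (Fin 2) ℝ) (u ζ t : ℝ)
    (hz : (z : Matrix (Fin 2) (Fin 2) ℝ) = Matrix.diagonal (fun _ => Real.exp u)) :
    z * bR ζ t 0 = bR (ζ + 2 * u) t 0 := by
  apply Units.ext
  show (z : Matrix (Fin 2) (Fin 2) ℝ) * ((bR ζ t 0 : GL (Fin 2) ℝ) : Matrix (Fin 2) (Fin 2) ℝ)
    = ((bR (ζ + 2 * u) t 0 : GL (Fin 2) ℝ) : Matrix (Fin 2) (Fin 2) ℝ)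
  rw [hz, coe_bR830, coe_bR830]
  have e1 : Real.exp u * Real.exp ((ζ + t) / 2) = Real.exp ((ζ + 2 * u + t) / 2) := by
    rw [← Real.exp_add]; congr 1; ring
  have e2 : Real.exp u * Real.exp ((ζ - t) / 2) = Real.exp ((ζ + 2 * u - t) / 2) := by
    rw [← Real.exp_add]; congr 1; ring
  ext i j
  fin_cases i <;> fin_cases j <;> simp [Matrix.mul_apply, Fin.sum_univ_two, e1, e2]

/-- `∫_u h (ζ₀ + 2u) du = (1/2) ∫ h` (no integrability needed). -/
theorem integral_affine792 (h : ℝ → ℂ) (ζ0 : ℝ) :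
    (∫ u : ℝ, h (ζ0 + 2 * u)) = (1 / 2 : ℂ) * ∫ ζ : ℝ, h ζ := by
  have h3 := Measure.integral_comp_mul_left (fun y => h (ζ0 + y)) (2 : ℝ)
  have h4 := integral_add_left_eq_self (μ := (volume : Measure ℝ)) (fun y => h y) ζ0
  rw [h3, h4, Complex.real_smul]
  congr 1
  rw [abs_of_pos (by norm_num : (0 : ℝ) < 2⁻¹)]
  push_cast
  norm_num

/-- The substitution `r = e^u` in the central average. -/
theorem centAvg_exp792 (F : ℝ → ℂ) :
    (∫ r in Set.Ioi (0 : ℝ), F r / (r : ℂ)) = ∫ u : ℝ, F (Real.exp u) := by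
  have key := integral_image_eq_integral_abs_deriv_smul (s := Set.univ) (f := Real.exp)
    (f' := Real.exp) MeasurableSet.univ
    (fun x _ => (Real.hasDerivAt_exp x).hasDerivWithinAt)
    (fun x _ y _ hxy => Real.exp_injective hxy) (fun r => F r / (r : ℂ))
  rw [Set.image_univ, Real.range_exp, Measure.restrict_univ] at key
  rw [key]
  refine integral_congr_ae (Filter.Eventually.of_forall fun u => ?_)
  have hu : ((Real.exp u : ℝ) : ℂ) ≠ 0 := Complex.ofReal_ne_zero.2 (Real.exp_ne_zero u)
  show |Real.exp u| • (F (Real.exp u) / ((Real.exp u : ℝ) : ℂ)) = F (Real.exp u)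
  rw [abs_of_pos (Real.exp_pos u), Complex.real_smul]
  field_simp

/-- **T6.21.7 CENT-AVG.** -/
theorem centAvgOfTorusC792 : CentAvgOfTorusC := by
  intro hC n _ f hf htor Z hZ g
  rw [centAvg_exp792 (fun r => f (Z r * g))]
  by_cases hdet : 0 < (g : Matrix (Fin 2) (Fin 2) ℝ).det
  · obtain ⟨ζ0, α, β, t, ht, hg⟩ := hC g hdet
    have key : ∀ u : ℝ, f (Z (Real.exp u) * g)
        = ((wtChar n (rotR α))⁻¹ * (wtChar n (rotR β))⁻¹) * f (bR (ζ0 + 2 * u) t 0) := by
      intro u
      have hzu := hZ (Real.exp u) (Real.exp_pos u)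
      have e : Z (Real.exp u) * g = rotR α * bR (ζ0 + 2 * u) t 0 * rotR β := by
        rw [hg, ← scalar_mul_bR792 _ u ζ0 t hzu, ← mul_assoc, ← mul_assoc,
          scalar_mul_comm792 _ (rotR α) _ hzu, mul_assoc (rotR α)]
      rw [e, hf.right _ _ (inSO2_rotR792 β), hf.left _ _ (inSO2_rotR792 α)]
      ring
    simp_rw [key]
    rw [integral_const_mul, integral_affine792 (fun ζ => f (bR ζ t 0)) ζ0]
    have h0 : (∫ ζ : ℝ, f (bR ζ t 0)) = 0 := htor t ht
    rw [h0, mul_zero, mul_zero]
  · have hz : ∀ u : ℝ, f (Z (Real.exp u) * g) = 0 := by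
      intro u
      by_contra hne
      have hp := hf.pos _ hne
      have hzu := hZ (Real.exp u) (Real.exp_pos u)
      have hm : ((Z (Real.exp u) * g : GL (Fin 2) ℝ) : Matrix (Fin 2) (Fin 2) ℝ)
          = (Z (Real.exp u) : Matrix (Fin 2) (Fin 2) ℝ) * (g : Matrix (Fin 2) (Fin 2) ℝ) := rfl
      rw [hm, Matrix.det_mul, hzu, Matrix.det_diagonal, Fin.prod_univ_two] at hp
      have hq : 0 < Real.exp u * Real.exp u := mul_pos (Real.exp_pos u) (Real.exp_pos u)
      exact hdet ((mul_pos_iff_of_pos_left hq).1 hp)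
    simp [hz]

end Fermat.Agent.LT.T6.H792

end

end
-- ===== PACK-END LT/T6/H792/CentAvg.lean

-- ===== PACK-BEGIN LT/T2/H173/ConvBdd.lean
section






/-!
# Row LT, tower T2, sub-leaf T2.07.09 (`SubConvBdd429`), helper173

OFF-MAIN.  `subConvBdd_of173 : SubTransl429 K → SubConvBdd429 K`:
`‖R(f) φ‖² ≤ ‖f‖₁² ‖φ‖²` on the cusp functions (weighted Cauchy--Schwarz, Fubini, and the
invariance of the Petersson integral under right translations = the KEY LEMMA `SubTransl429`).
-/

set_option autoImplicit false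

open IsDedekindDomain NumberField MeasureTheory
open Fermat.Agent.LT.H556.A0
open Fermat.Agent.LT.T2
open Fermat.Agent.LT.T2.H429

noncomputable section

namespace Fermat.Agent.LT.T2.H173

variable {K : Type} [Field K] [NumberField K]

attribute [local instance] Fermat.Agent.LT.T2.borelG

/-! ## 1. Weighted Cauchy--Schwarz -/

/-- `(∫ u w)² ≤ (∫ w) (∫ u² w)` for a weight `w ≥ 0`. -/
theorem sq_integral_mul_le173 {α : Type*} [MeasurableSpace α] (μ : Measure α) (u w : α → ℝ)
    (hw : ∀ a, 0 ≤ w a) (h0 : Integrable w μ) (h1 : Integrable (fun a => u a * w a) μ)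
    (h2 : Integrable (fun a => u a ^ 2 * w a) μ) :
    (∫ a, u a * w a ∂μ) ^ 2 ≤ (∫ a, w a ∂μ) * ∫ a, u a ^ 2 * w a ∂μ := by
  have key : ∀ t : ℝ, 0 ≤ (∫ a, w a ∂μ) * (t * t) + (-2 * ∫ a, u a * w a ∂μ) * t
      + ∫ a, u a ^ 2 * w a ∂μ := by
    intro t
    have e : (fun a => (u a - t) ^ 2 * w a)
        = fun a => (t * t) * w a + ((-2 * t) * (u a * w a) + u a ^ 2 * w a) := by
      funext a; ring
    have h3 : ∫ a, (u a - t) ^ 2 * w a ∂μ
        = (∫ a, w a ∂μ) * (t * t) + (-2 * ∫ a, u a * w a ∂μ) * t + ∫ a, u a ^ 2 * w a ∂μ := by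
      rw [e]
      have i1 : Integrable (fun a => (t * t) * w a) μ := h0.const_mul _
      have i2 : Integrable (fun a => (-2 * t) * (u a * w a)) μ := h1.const_mul _
      have i3 : Integrable (fun a => (-2 * t) * (u a * w a) + u a ^ 2 * w a) μ := i2.add h2
      rw [integral_add i1 i3, integral_add i2 h2, integral_const_mul, integral_const_mul]
      ring
    rw [← h3]
    exact integral_nonneg fun a => mul_nonneg (sq_nonneg _) (hw a)
  have h := discrim_le_zero key
  unfold discrim at h
  nlinarith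

/-! ## 2. The square of the norm as a real integral -/

theorem nsq_eq173 (F : Frame K) (φ : G K → ℂ) :
    nsq F φ = ∫ g in F.D, Complex.normSq (φ g) ∂F.μ := by
  unfold nsq pair
  have e : (fun g => φ g * (starRingEnd ℂ) (φ g))
      = fun g => ((Complex.normSq (φ g) : ℝ) : ℂ) := by
    funext g; rw [Complex.mul_conj]
  rw [e, integral_complex_ofReal, Complex.ofReal_re]

/-! ## 3. The bound, given the invariance of cusp functions under `Z⁺` -/

theorem convBdd_core173 (hT : SubTransl429 K) (𝔫 : Ideal (𝓞 K)) (c : Ctx429 K 𝔫) (F : Frame K)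
    (f : G K → ℂ) (hf : IsSphTestFn 𝔫 f)
    (hZ : ∀ φ : G K → ℂ, IsCuspFn 𝔫 φ → ∀ z : G K, IsDiagPosScalar z →
      ∀ g : G K, φ (g * z) = φ g) :
    Bdd429 𝔫 F (conv F f) := by
  obtain ⟨-, hlc, ht2, hsc⟩ := c.t1.locComp
  have := hlc
  have := ht2
  have := hsc
  have : BorelSpace (G K) := ⟨rfl⟩
  have := F.haar
  have : IsFiniteMeasure (F.μ.restrict F.D) := ⟨by
    rw [Measure.restrict_apply MeasurableSet.univ, Set.univ_inter]; exact F.fin⟩
  have hfc : Continuous f := hf.test.cont
  have hfs : HasCompactSupport f := hf.test.cpt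
  -- the weight `w = |f|`
  set w : G K → ℝ := fun h => ‖f h‖ with hw
  have hwc : Continuous w := hfc.norm
  have hws : HasCompactSupport w := hfs.norm
  have hw0 : ∀ h, 0 ≤ w h := fun h => norm_nonneg _
  have hwi : Integrable w F.μ := hwc.integrable_of_hasCompactSupport hws
  set L : ℝ := ∫ h, w h ∂F.μ with hL
  have hL0 : 0 ≤ L := integral_nonneg hw0
  refine ⟨L ^ 2, fun φ hφ => ?_⟩
  obtain ⟨B, hB⟩ := hφ.bdd
  have hψ : IsCuspFn 𝔫 (conv F f φ) := (c.cc F).2.2.1 f φ hf.test hφ
  obtain ⟨B', hB'⟩ := hψ.bdd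
  rw [nsq_eq173, nsq_eq173]
  set N : G K → ℝ := fun g => Complex.normSq (φ g) with hN
  have hNc : Continuous N := Complex.continuous_normSq.comp hφ.cont
  have hN0 : ∀ g, 0 ≤ N g := fun g => Complex.normSq_nonneg _
  have hNB : ∀ g, N g ≤ B ^ 2 := by
    intro g
    show Complex.normSq (φ g) ≤ B ^ 2
    rw [Complex.normSq_eq_norm_sq]
    exact pow_le_pow_left₀ (norm_nonneg _) (hB g) 2
  -- the function on the product
  set Fn : G K × G K → ℝ := fun p => N (p.1 * p.2) * w p.2 with hFn
  have hFnc : Continuous Fn :=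
    (hNc.comp (continuous_fst.mul continuous_snd)).mul (hwc.comp continuous_snd)
  have hFni : Integrable Fn ((F.μ.restrict F.D).prod F.μ) := by
    have hb : Integrable (fun p : G K × G K => (fun _ : G K => B ^ 2) p.1 * w p.2)
        ((F.μ.restrict F.D).prod F.μ) :=
      Integrable.mul_prod (integrable_const _) hwi
    refine hb.mono' hFnc.aestronglyMeasurable (Filter.Eventually.of_forall fun p => ?_)
    show ‖N (p.1 * p.2) * w p.2‖ ≤ B ^ 2 * w p.2
    rw [Real.norm_eq_abs, abs_of_nonneg (mul_nonneg (hN0 _) (hw0 _))]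
    exact mul_le_mul_of_nonneg_right (hNB _) (hw0 _)
  -- the KEY LEMMA for `N`
  have hkey : ∀ h : G K, ∫ x in F.D, N (x * h) ∂F.μ = ∫ x in F.D, N x ∂F.μ := by
    intro h
    have h1 := hT c.t1 F (fun g => ((N g : ℝ) : ℂ)) (Complex.continuous_ofReal.comp hNc)
      ⟨B ^ 2, fun g => by
        rw [Complex.norm_real, Real.norm_eq_abs, abs_of_nonneg (hN0 g)]; exact hNB g⟩
      (fun γ g => by
        show ((Complex.normSq (φ (T1.ratG K γ * g)) : ℝ) : ℂ) = ((Complex.normSq (φ g) : ℝ) : ℂ)
        rw [show φ (T1.ratG K γ * g) = φ g from hφ.left_inv γ g])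
      (fun z hz g => by
        show ((Complex.normSq (φ (g * z)) : ℝ) : ℂ) = ((Complex.normSq (φ g) : ℝ) : ℂ)
        rw [hZ φ hφ z hz g]) h
    have h2 : ∫ g in F.D, ((N (g * h) : ℝ) : ℂ) ∂F.μ = ∫ g in F.D, ((N g : ℝ) : ℂ) ∂F.μ := h1
    rw [integral_complex_ofReal, integral_complex_ofReal] at h2
    exact Complex.ofReal_injective h2
  -- pointwise Cauchy--Schwarz
  have hpt : ∀ x : G K, Complex.normSq (conv F f φ x) ≤ L * ∫ h, Fn (x, h) ∂F.μ := by
    intro x
    set u : G K → ℝ := fun h => ‖φ (x * h)‖ with hu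
    have huc : Continuous u := (hφ.cont.comp (continuous_const.mul continuous_id)).norm
    have i1 : Integrable (fun a => u a * w a) F.μ :=
      (huc.mul hwc).integrable_of_hasCompactSupport hws.mul_left
    have i2 : Integrable (fun a => u a ^ 2 * w a) F.μ :=
      ((huc.pow 2).mul hwc).integrable_of_hasCompactSupport hws.mul_left
    have hcs := sq_integral_mul_le173 F.μ u w hw0 hwi i1 i2
    have e2 : (fun a => u a ^ 2 * w a) = fun h => Fn (x, h) := by
      funext a
      show ‖φ (x * a)‖ ^ 2 * w a = Complex.normSq (φ (x * a)) * w a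
      rw [Complex.normSq_eq_norm_sq]
    rw [e2] at hcs
    have h3 : ‖conv F f φ x‖ ≤ ∫ a, u a * w a ∂F.μ := by
      unfold conv
      refine (norm_integral_le_integral_norm _).trans (le_of_eq ?_)
      refine integral_congr_ae (Filter.Eventually.of_forall fun a => ?_)
      show ‖φ (x * a) * f a‖ = ‖φ (x * a)‖ * ‖f a‖
      exact norm_mul _ _
    rw [Complex.normSq_eq_norm_sq]
    calc ‖conv F f φ x‖ ^ 2 ≤ (∫ a, u a * w a ∂F.μ) ^ 2 :=
          pow_le_pow_left₀ (norm_nonneg _) h3 2
      _ ≤ L * ∫ h, Fn (x, h) ∂F.μ := hcs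
  -- integrate over the domain
  have hJi : Integrable (fun x => ∫ h, Fn (x, h) ∂F.μ) (F.μ.restrict F.D) :=
    hFni.integral_prod_left
  have hψi : Integrable (fun x => Complex.normSq (conv F f φ x)) (F.μ.restrict F.D) := by
    refine Integrable.mono' (integrable_const (B' ^ 2))
      (Complex.continuous_normSq.comp hψ.cont).aestronglyMeasurable
      (Filter.Eventually.of_forall fun x => ?_)
    rw [Real.norm_eq_abs, abs_of_nonneg (Complex.normSq_nonneg _), Complex.normSq_eq_norm_sq]
    exact pow_le_pow_left₀ (norm_nonneg _) (hB' x) 2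
  have hswap : ∫ x in F.D, (∫ h, Fn (x, h) ∂F.μ) ∂F.μ = (∫ x in F.D, N x ∂F.μ) * L := by
    have h1 := integral_integral_swap (μ := F.μ.restrict F.D) (ν := F.μ)
      (f := fun x h => Fn (x, h)) hFni
    rw [h1]
    have h2 : (fun h => ∫ x in F.D, Fn (x, h) ∂F.μ)
        = fun h => (∫ x in F.D, N x ∂F.μ) * w h := by
      funext h
      show ∫ x in F.D, N (x * h) * w h ∂F.μ = _
      rw [integral_mul_const, hkey h]
    rw [h2, integral_const_mul]
  calc ∫ g in F.D, Complex.normSq (conv F f φ g) ∂F.μ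
      ≤ ∫ x in F.D, L * ∫ h, Fn (x, h) ∂F.μ ∂F.μ :=
        integral_mono hψi (hJi.const_mul L) hpt
    _ = L * ((∫ x in F.D, N x ∂F.μ) * L) := by rw [integral_const_mul, hswap]
    _ = L ^ 2 * ∫ g in F.D, Complex.normSq (φ g) ∂F.μ := by ring

/-! ## 4. Cusp functions are invariant under `Z⁺`

A diagonal positive scalar is the product over the infinite places `w` of positive scalars
supported at `w`. -/

theorem adele_ext173 {x y : Adl K} (h1 : ∀ w : InfinitePlace K, x.1 w = y.1 w)
    (h2 : ∀ v : HeightOneSpectrum (𝓞 K), x.2 v = y.2 v) : x = y :=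
  Prod.ext (funext h1) (RestrictedProduct.ext _ _ h2)

open Classical in
/-- The adele with component `x w` at the infinite places `w ∈ S` and `1` at all other places. -/
def partA173 (x : ∀ w : InfinitePlace K, w.Completion) (S : Finset (InfinitePlace K)) : Adl K :=
  (fun w => if w ∈ S then x w else 1, 1)

theorem partA173_fst_mem (x : ∀ w : InfinitePlace K, w.Completion)
    {S : Finset (InfinitePlace K)} {w : InfinitePlace K} (hw : w ∈ S) :
    (partA173 x S).1 w = x w := by
  classical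
  exact if_pos hw

theorem partA173_fst_not_mem (x : ∀ w : InfinitePlace K, w.Completion)
    {S : Finset (InfinitePlace K)} {w : InfinitePlace K} (hw : w ∉ S) :
    (partA173 x S).1 w = 1 := by
  classical
  exact if_neg hw

theorem partA173_snd (x : ∀ w : InfinitePlace K, w.Completion) (S : Finset (InfinitePlace K))
    (v : HeightOneSpectrum (𝓞 K)) : (partA173 x S).2 v = 1 := rfl

theorem partA173_mul_inv (x : ∀ w : InfinitePlace K, w.Completion) (hx : ∀ w, x w ≠ 0)
    (S : Finset (InfinitePlace K)) : partA173 x S * partA173 (fun w => (x w)⁻¹) S = 1 := by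
  refine adele_ext173 (fun w => ?_) (fun v => ?_)
  · show (partA173 x S).1 w * (partA173 (fun w => (x w)⁻¹) S).1 w = 1
    by_cases hw : w ∈ S
    · rw [partA173_fst_mem x hw, partA173_fst_mem _ hw, mul_inv_cancel₀ (hx w)]
    · rw [partA173_fst_not_mem x hw, partA173_fst_not_mem _ hw, mul_one]
  · show (partA173 x S).2 v * (partA173 (fun w => (x w)⁻¹) S).2 v = 1
    rw [partA173_snd, partA173_snd, mul_one]

theorem partA173_empty (x : ∀ w : InfinitePlace K, w.Completion) : partA173 x ∅ = 1 := by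
  refine adele_ext173 (fun w => ?_) (fun v => rfl)
  rw [partA173_fst_not_mem x (Finset.notMem_empty w)]
  rfl

theorem partA173_insert [DecidableEq (InfinitePlace K)]
    (x : ∀ w : InfinitePlace K, w.Completion) {a : InfinitePlace K}
    {S : Finset (InfinitePlace K)} (ha : a ∉ S) :
    partA173 x (insert a S) = partA173 x S * partA173 x {a} := by
  refine adele_ext173 (fun w => ?_) (fun v => ?_)
  · show (partA173 x (insert a S)).1 w = (partA173 x S).1 w * (partA173 x {a}).1 w
    by_cases hwa : w = a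
    · subst hwa
      rw [partA173_fst_mem x (Finset.mem_insert_self _ _), partA173_fst_not_mem x ha,
        partA173_fst_mem x (Finset.mem_singleton_self _), one_mul]
    · have hws : w ∉ ({a} : Finset (InfinitePlace K)) := fun h => hwa (Finset.mem_singleton.1 h)
      by_cases hw : w ∈ S
      · rw [partA173_fst_mem x (Finset.mem_insert_of_mem hw), partA173_fst_mem x hw,
          partA173_fst_not_mem x hws, mul_one]
      · rw [partA173_fst_not_mem x (fun h => (Finset.mem_insert.1 h).elim hwa hw),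
          partA173_fst_not_mem x hw, partA173_fst_not_mem x hws, mul_one]
  · show (partA173 x (insert a S)).2 v = (partA173 x S).2 v * (partA173 x {a}).2 v
    rw [partA173_snd, partA173_snd, partA173_snd, mul_one]

/-- The scalar matrix of `partA173 x S` as an element of `GL₂(𝔸_K)`. -/
def partG173 (x : ∀ w : InfinitePlace K, w.Completion) (hx : ∀ w, x w ≠ 0)
    (S : Finset (InfinitePlace K)) : G K where
  val := Matrix.scalar (Fin 2) (partA173 x S)
  inv := Matrix.scalar (Fin 2) (partA173 (fun w => (x w)⁻¹) S)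
  val_inv := by rw [← map_mul, partA173_mul_inv x hx, map_one]
  inv_val := by rw [← map_mul, mul_comm, partA173_mul_inv x hx, map_one]

theorem partG173_empty (x : ∀ w : InfinitePlace K, w.Completion) (hx : ∀ w, x w ≠ 0) :
    partG173 x hx ∅ = 1 := by
  apply Units.ext
  show Matrix.scalar (Fin 2) (partA173 x ∅) = 1
  rw [partA173_empty, map_one]

theorem partG173_insert [DecidableEq (InfinitePlace K)]
    (x : ∀ w : InfinitePlace K, w.Completion) (hx : ∀ w, x w ≠ 0)
    {a : InfinitePlace K} {S : Finset (InfinitePlace K)} (ha : a ∉ S) :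
    partG173 x hx (insert a S) = partG173 x hx S * partG173 x hx {a} := by
  apply Units.ext
  show Matrix.scalar (Fin 2) (partA173 x (insert a S))
    = Matrix.scalar (Fin 2) (partA173 x S) * Matrix.scalar (Fin 2) (partA173 x {a})
  rw [partA173_insert x ha, map_mul]

theorem partG173_entry (x : ∀ w : InfinitePlace K, w.Completion) (hx : ∀ w, x w ≠ 0)
    (S : Finset (InfinitePlace K)) (i j : Fin 2) :
    ((partG173 x hx S : G K) : Matrix (Fin 2) (Fin 2) (Adl K)) i j
      = if i = j then partA173 x S else 0 := by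
  show (Matrix.scalar (Fin 2) (partA173 x S)) i j = _
  rw [Matrix.scalar_apply, Matrix.diagonal_apply]

theorem partG173_archPos (x : ∀ w : InfinitePlace K, w.Completion) (hx : ∀ w, x w ≠ 0)
    (a : InfinitePlace K) (r : ℝ) (hr : 0 < r)
    (hxa : InfinitePlace.Completion.extensionEmbedding a (x a) = (r : ℂ)) :
    IsArchPosScalar a (partG173 x hx {a}) := by
  refine ⟨⟨fun w' hw' i j => ?_, fun v => ?_⟩, r, hr, ?_⟩
  · rw [partG173_entry]
    by_cases hij : i = j
    · rw [if_pos hij, partA173_fst_not_mem x (fun h => hw' (Finset.mem_singleton.1 h)), hij,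
        Matrix.one_apply_eq]
    · rw [if_neg hij, Matrix.one_apply_ne hij]
      rfl
  · refine Matrix.ext fun i j => ?_
    show (((partG173 x hx {a} : G K) : Matrix (Fin 2) (Fin 2) (Adl K)) i j).2 v = _
    rw [partG173_entry]
    by_cases hij : i = j
    · rw [if_pos hij, partA173_snd, hij, Matrix.one_apply_eq]
    · rw [if_neg hij, Matrix.one_apply_ne hij]
      rfl
  · refine Matrix.ext fun i j => ?_
    show InfinitePlace.Completion.extensionEmbedding a
      ((((partG173 x hx {a} : G K) : Matrix (Fin 2) (Fin 2) (Adl K)) i j).1 a) = _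
    rw [partG173_entry]
    by_cases hij : i = j
    · rw [if_pos hij, partA173_fst_mem x (Finset.mem_singleton_self _), hxa, hij,
        Matrix.diagonal_apply_eq]
    · rw [if_neg hij, Matrix.diagonal_apply_ne _ hij]
      exact map_zero _

/-- A diagonal positive scalar is `partG173 x univ` for the family `x` of its components. -/
theorem diagPos_eq_partG173 {z : G K} (hz : IsDiagPosScalar z) :
    ∃ (x : ∀ w : InfinitePlace K, w.Completion) (hx : ∀ w, x w ≠ 0) (r : ℝ), 0 < r ∧
      (∀ w, InfinitePlace.Completion.extensionEmbedding w (x w) = (r : ℂ)) ∧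
      z = partG173 x hx Finset.univ := by
  obtain ⟨hfin, r, hr, hinf⟩ := hz
  have hinj : ∀ w : InfinitePlace K,
      Function.Injective (InfinitePlace.Completion.extensionEmbedding w) :=
    fun w => (InfinitePlace.Completion.extensionEmbedding w).injective
  have hent : ∀ (w : InfinitePlace K) (i j : Fin 2),
      InfinitePlace.Completion.extensionEmbedding w
        (((z : Matrix (Fin 2) (Fin 2) (Adl K)) i j).1 w)
        = (Matrix.diagonal (fun _ : Fin 2 => (r : ℂ))) i j := fun w i j =>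
    congrFun (congrFun (hinf w) i) j
  have hfent : ∀ (v : HeightOneSpectrum (𝓞 K)) (i j : Fin 2),
      ((z : Matrix (Fin 2) (Fin 2) (Adl K)) i j).2 v
        = (1 : Matrix (Fin 2) (Fin 2) (v.adicCompletion K)) i j := fun v i j =>
    congrFun (congrFun (hfin v) i) j
  set x : ∀ w : InfinitePlace K, w.Completion :=
    fun w => ((z : Matrix (Fin 2) (Fin 2) (Adl K)) 0 0).1 w with hxdef
  have hxr : ∀ w, InfinitePlace.Completion.extensionEmbedding w (x w) = (r : ℂ) := by
    intro w
    have := hent w 0 0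
    rwa [Matrix.diagonal_apply_eq] at this
  have hx : ∀ w, x w ≠ 0 := by
    intro w h0
    have h1 := hxr w
    rw [h0, map_zero] at h1
    exact (Complex.ofReal_ne_zero.2 hr.ne') h1.symm
  refine ⟨x, hx, r, hr, hxr, ?_⟩
  apply Units.ext
  refine Matrix.ext fun i j => ?_
  rw [partG173_entry]
  by_cases hij : i = j
  · rw [if_pos hij]
    refine adele_ext173 (fun w => ?_) (fun v => ?_)
    · rw [partA173_fst_mem x (Finset.mem_univ w)]
      apply hinj w
      rw [hent w i j, hxr w, hij, Matrix.diagonal_apply_eq]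
    · rw [partA173_snd, hfent v i j, hij, Matrix.one_apply_eq]
  · rw [if_neg hij]
    refine adele_ext173 (fun w => ?_) (fun v => ?_)
    · apply hinj w
      rw [hent w i j, Matrix.diagonal_apply_ne _ hij]
      exact (map_zero _).symm
    · rw [hfent v i j, Matrix.one_apply_ne hij]
      rfl

/-- Cusp functions are invariant under the diagonal positive scalars. -/
theorem cusp_diagPos173 {𝔫 : Ideal (𝓞 K)} {φ : G K → ℂ} (hφ : IsCuspFn 𝔫 φ) (z : G K)
    (hz : IsDiagPosScalar z) (g : G K) : φ (g * z) = φ g := by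
  classical
  obtain ⟨x, hx, r, hr, hxr, rfl⟩ := diagPos_eq_partG173 hz
  have key : ∀ S : Finset (InfinitePlace K), ∀ g : G K, φ (g * partG173 x hx S) = φ g := by
    intro S
    induction S using Finset.induction_on with
    | empty => intro g; rw [partG173_empty, mul_one]
    | insert a S ha ih =>
      intro g
      rw [partG173_insert x hx ha, ← mul_assoc,
        hφ.arch_scalar a _ (partG173_archPos x hx a r hr (hxr a)), ih]
  exact key Finset.univ g

/-! ## 5. The sub-leaf -/

/-- **T2.07.09** from the KEY LEMMA T2.07.00. -/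
theorem subConvBdd_of173 (hT : SubTransl429 K) : SubConvBdd429 K :=
  fun 𝔫 c F f hf => convBdd_core173 hT 𝔫 c F f hf fun _ hφ z hz g => cusp_diagPos173 hφ z hz g

end Fermat.Agent.LT.T2.H173

end

end
-- ===== PACK-END LT/T2/H173/ConvBdd.lean

-- ===== PACK-BEGIN LT/T2/H473/ConvSwap.lean
section



/-!
# Row LT, tower T2, leaf T2.02d.4 `ConvSwapC724` (SWAP): PROVED (helper473)

OFF-MAIN.  Registry row 1080.  Spec: `Fermat/Agent/LT/T2/H724/CommSpec.lean`
(helper724@7fd05bef9, sha256 78972da3), byte-identical copy; nothing of it is re-defined.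

* `isInvInvariant_of_rightInv473`: in a locally compact second countable group a Haar measure
  which is right invariant is invariant under inversion (`μ.inv = c • μ` by uniqueness, `c² = 1`
  because inversion is an involution).  General group, Mathlib only.
* `isInvInvariant_G473`: the same for `G K` from `T1.LocCompC` and `T1.UnimodC`.
* `convSwapC473 : ConvSwapC724 K`: two changes of variables, `h ↦ ι h` (hypothesis) and
  `h ↦ ι g / h` (`integral_div_left_eq_self`).  No integrability is needed.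
-/

set_option autoImplicit false

open IsDedekindDomain NumberField MeasureTheory AutomorphicForm
open Fermat.Agent.LT.H556.A0

noncomputable section

namespace Fermat.Agent.LT.T2.H473

open Fermat.Agent.LT.T2 Fermat.Agent.LT.T2.H724

/-- A right invariant Haar measure of a locally compact second countable group is invariant
under inversion. -/
theorem isInvInvariant_of_rightInv473 {G : Type*} [Group G] [TopologicalSpace G]
    [IsTopologicalGroup G] [MeasurableSpace G] [BorelSpace G] [LocallyCompactSpace G]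
    [SecondCountableTopology G] (μ : Measure G) [μ.IsHaarMeasure] [μ.IsMulRightInvariant] :
    μ.IsInvInvariant := by
  constructor
  let c : NNReal := Measure.haarScalarFactor μ.inv μ
  have hc : μ.inv = c • μ := Measure.isMulLeftInvariant_eq_smul μ.inv μ
  have h2 : Measure.map Inv.inv (Measure.map Inv.inv μ) = c ^ 2 • μ := by
    rw [← Measure.inv_def μ, hc, Measure.map_smul, ← Measure.inv_def μ, hc, smul_smul, pow_two]
  have μeq : μ = c ^ 2 • μ := by
    rw [Measure.map_map continuous_inv.measurable continuous_inv.measurable] at h2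
    simpa only [inv_involutive, Function.Involutive.comp_self, Measure.map_id] using h2
  have K : TopologicalSpace.PositiveCompacts G := Classical.arbitrary _
  have h3 : ((c ^ 2 : NNReal) : ENNReal) * μ K = 1 * μ K := by
    conv_rhs => rw [μeq]
    simp
  have h4 : ((c ^ 2 : NNReal) : ENNReal) = 1 :=
    (ENNReal.mul_left_inj (Measure.measure_pos_of_nonempty_interior _ K.interior_nonempty).ne'
      K.isCompact.measure_lt_top.ne).1 h3
  have h5 : c ^ 2 = 1 := by exact_mod_cast h4
  have h6 : c = 1 := (pow_eq_one_iff_of_nonneg (show (0 : NNReal) ≤ c from c.2) two_ne_zero).1 h5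
  rw [hc, h6, one_smul]

variable {K : Type} [Field K] [NumberField K]

attribute [local instance] Fermat.Agent.LT.T2.borelG

/-- Haar measures of `G K` are invariant under inversion (`T1.LocCompC`, `T1.UnimodC`). -/
theorem isInvInvariant_G473 (hLC : T1.LocCompC K) (hU : T1.UnimodC K) (μ : Measure (G K))
    (hμ : μ.IsHaarMeasure) : μ.IsInvInvariant := by
  have : BorelSpace (G K) := ⟨rfl⟩
  have : LocallyCompactSpace (G K) := hLC.2.1
  have : SecondCountableTopology (G K) := hLC.2.2.2
  have : μ.IsMulRightInvariant := hU μ hμ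
  exact isInvInvariant_of_rightInv473 μ

/-- **T2.02d.4 SWAP** (registry row 1080). -/
theorem convSwapC473 : ConvSwapC724 K := by
  intro hLC hU F hι f₁ f₂ g
  have : BorelSpace (G K) := ⟨rfl⟩
  have : LocallyCompactSpace (G K) := hLC.2.1
  have : SecondCountableTopology (G K) := hLC.2.2.2
  have : F.μ.IsHaarMeasure := F.haar
  have : F.μ.IsInvInvariant := isInvInvariant_G473 hLC hU F.μ F.haar
  -- `ι` as a measurable equivalence
  let e : G K ≃ᵐ G K :=
    { toFun := adjG724
      invFun := adjG724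
      left_inv := adjG724_adjG724
      right_inv := adjG724_adjG724
      measurable_toFun := hι.measurable
      measurable_invFun := hι.measurable }
  have he : MeasurePreserving e F.μ F.μ := hι
  unfold convKer724
  -- right hand side: `h ↦ ι h`
  have hR : ∫ h, f₂ (adjG724 h) * f₁ (adjG724 (h⁻¹ * g)) ∂F.μ
      = ∫ h, f₂ h * f₁ (adjG724 g / h) ∂F.μ := by
    have := he.integral_comp' (fun h => f₂ h * f₁ (adjG724 g / h))
    rw [← this]
    refine integral_congr_ae (Filter.Eventually.of_forall fun h => ?_)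
    show f₂ (adjG724 h) * f₁ (adjG724 (h⁻¹ * g)) = f₂ (adjG724 h) * f₁ (adjG724 g / adjG724 h)
    rw [adjG724_mul, adjG724_inv, div_eq_mul_inv]
  -- left hand side: `h ↦ ι g / h`
  have hL : ∫ h, f₁ h * f₂ (h⁻¹ * adjG724 g) ∂F.μ
      = ∫ h, f₂ h * f₁ (adjG724 g / h) ∂F.μ := by
    rw [← integral_div_left_eq_self (fun h => f₁ h * f₂ (h⁻¹ * adjG724 g)) F.μ (adjG724 g)]
    refine integral_congr_ae (Filter.Eventually.of_forall fun h => ?_)
    show f₁ (adjG724 g / h) * f₂ ((adjG724 g / h)⁻¹ * adjG724 g) = f₂ h * f₁ (adjG724 g / h)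
    rw [inv_div, div_mul_cancel, mul_comm]
  rw [hL, hR]

end Fermat.Agent.LT.T2.H473

end
end
-- ===== PACK-END LT/T2/H473/ConvSwap.lean

-- ===== PACK-BEGIN LT/T2/H323/ConvKer.lean
section



/-!
# Row LT, tower T2, sub-leaf T2.02d.1 `ConvKerC724` (FUBINI)   (helper323), OFF-MAIN

`convKerC323 : H724.ConvKerC724 K`, VERBATIM against
`Fermat/Agent/LT/T2/H724/CommSpec.lean` (helper724, sha256 78972da3):

    R(f₁) R(f₂) φ (x) = ∫ φ(x g) (f₁ ⋆ f₂)(g) dg,     (f₁ ⋆ f₂)(g) = ∫ f₁(h) f₂(h⁻¹ g) dh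

for continuous compactly supported `f₁`, `f₂` and continuous `φ` (boundedness of `φ` is not
used: `φ` is bounded on the compact set `x · supp f₁ · supp f₂`).

Proof.  Abstract form `conv_conv_eq323` on any locally compact, Hausdorff, second countable
topological group with a left invariant measure which is finite on compact sets:
left invariance (`k ↦ h⁻¹ g`) in the inner integral, then Fubini for the continuous compactly
supported function `(h, g) ↦ φ(x g) f₂(h⁻¹ g) f₁(h)` on `G × G`.
-/

set_option autoImplicit false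
set_option linter.style.haveILetI false
set_option linter.unusedSectionVars false

open MeasureTheory

noncomputable section

namespace Fermat.Agent.LT.T2.H323

/-! ## 1. The abstract statement -/

section Abstract

variable {G : Type*} [Group G] [TopologicalSpace G] [IsTopologicalGroup G]
  [LocallyCompactSpace G] [T2Space G] [SecondCountableTopology G]
  [MeasurableSpace G] [BorelSpace G]

/-- The function `(h, g) ↦ φ(x g) f₂(h⁻¹ g) f₁(h)` is continuous with compact support. -/
theorem hasCompactSupport_kernel323 (f₁ f₂ φ : G → ℂ) (h₁ : HasCompactSupport f₁)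
    (h₂ : HasCompactSupport f₂) (x : G) :
    HasCompactSupport (fun p : G × G => φ (x * p.2) * f₂ (p.1⁻¹ * p.2) * f₁ p.1) := by
  have hS : IsCompact ((tsupport f₁) ×ˢ ((fun p : G × G => p.1 * p.2) ''
      ((tsupport f₁) ×ˢ (tsupport f₂)))) :=
    h₁.isCompact.prod ((h₁.isCompact.prod h₂.isCompact).image (continuous_fst.mul continuous_snd))
  refine HasCompactSupport.intro hS ?_
  intro p hp
  by_contra hne
  apply hp
  have hf1 : f₁ p.1 ≠ 0 := fun h => hne (by rw [h, mul_zero])
  have hf2 : f₂ (p.1⁻¹ * p.2) ≠ 0 := fun h => hne (by rw [h, mul_zero, zero_mul])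
  have m1 : p.1 ∈ tsupport f₁ := subset_tsupport _ hf1
  have m2 : p.1⁻¹ * p.2 ∈ tsupport f₂ := subset_tsupport _ hf2
  refine ⟨m1, ⟨(p.1, p.1⁻¹ * p.2), ⟨m1, m2⟩, ?_⟩⟩
  show p.1 * (p.1⁻¹ * p.2) = p.2
  rw [mul_inv_cancel_left]

theorem continuous_kernel323 (f₁ f₂ φ : G → ℂ) (c₁ : Continuous f₁) (c₂ : Continuous f₂)
    (cφ : Continuous φ) (x : G) :
    Continuous (fun p : G × G => φ (x * p.2) * f₂ (p.1⁻¹ * p.2) * f₁ p.1) := by
  have e1 : Continuous (fun p : G × G => x * p.2) := continuous_const.mul continuous_snd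
  have e2 : Continuous (fun p : G × G => p.1⁻¹ * p.2) := continuous_fst.inv.mul continuous_snd
  exact ((cφ.comp e1).mul (c₂.comp e2)).mul (c₁.comp continuous_fst)

/-- **Fubini for convolutions**, abstract form. -/
theorem conv_conv_eq323 (μ : Measure G) [μ.IsMulLeftInvariant] [IsFiniteMeasureOnCompacts μ]
    [SFinite μ] (f₁ f₂ φ : G → ℂ) (c₁ : Continuous f₁) (h₁ : HasCompactSupport f₁)
    (c₂ : Continuous f₂) (h₂ : HasCompactSupport f₂) (cφ : Continuous φ) (x : G) :
    ∫ h, (∫ k, φ (x * h * k) * f₂ k ∂μ) * f₁ h ∂μ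
      = ∫ g, φ (x * g) * (∫ h, f₁ h * f₂ (h⁻¹ * g) ∂μ) ∂μ := by
  -- Step 1: left invariance in the inner integral
  have step1 : ∀ h : G, ∫ k, φ (x * h * k) * f₂ k ∂μ = ∫ g, φ (x * g) * f₂ (h⁻¹ * g) ∂μ := by
    intro h
    have := integral_mul_left_eq_self (μ := μ) (fun g => φ (x * g) * f₂ (h⁻¹ * g)) h
    rw [← this]
    refine integral_congr_ae (Filter.Eventually.of_forall fun k => ?_)
    show φ (x * h * k) * f₂ k = φ (x * (h * k)) * f₂ (h⁻¹ * (h * k))
    rw [inv_mul_cancel_left, mul_assoc]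
  -- Step 2: put `f₁ h` inside
  have step2 : ∀ h : G, (∫ g, φ (x * g) * f₂ (h⁻¹ * g) ∂μ) * f₁ h
      = ∫ g, φ (x * g) * f₂ (h⁻¹ * g) * f₁ h ∂μ := by
    intro h
    rw [integral_mul_const]
  -- Step 3: Fubini
  have hint : Integrable (Function.uncurry fun (h g : G) => φ (x * g) * f₂ (h⁻¹ * g) * f₁ h)
      (μ.prod μ) := by
    have hc := continuous_kernel323 f₁ f₂ φ c₁ c₂ cφ x
    have hs := hasCompactSupport_kernel323 f₁ f₂ φ h₁ h₂ x
    exact hc.integrable_of_hasCompactSupport hs
  have step3 := integral_integral_swap hint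
  -- Step 4: pull `φ (x g)` out
  have step4 : ∀ g : G, ∫ h, φ (x * g) * f₂ (h⁻¹ * g) * f₁ h ∂μ
      = φ (x * g) * ∫ h, f₁ h * f₂ (h⁻¹ * g) ∂μ := by
    intro g
    rw [← integral_const_mul]
    refine integral_congr_ae (Filter.Eventually.of_forall fun h => ?_)
    show φ (x * g) * f₂ (h⁻¹ * g) * f₁ h = φ (x * g) * (f₁ h * f₂ (h⁻¹ * g))
    ring
  calc ∫ h, (∫ k, φ (x * h * k) * f₂ k ∂μ) * f₁ h ∂μ
      = ∫ h, ∫ g, φ (x * g) * f₂ (h⁻¹ * g) * f₁ h ∂μ ∂μ := by
        refine integral_congr_ae (Filter.Eventually.of_forall fun h => ?_)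
        show (∫ k, φ (x * h * k) * f₂ k ∂μ) * f₁ h = ∫ g, φ (x * g) * f₂ (h⁻¹ * g) * f₁ h ∂μ
        rw [step1 h, step2 h]
    _ = ∫ g, ∫ h, φ (x * g) * f₂ (h⁻¹ * g) * f₁ h ∂μ ∂μ := step3
    _ = ∫ g, φ (x * g) * (∫ h, f₁ h * f₂ (h⁻¹ * g) ∂μ) ∂μ := by
        refine integral_congr_ae (Filter.Eventually.of_forall fun g => ?_)
        exact step4 g

end Abstract

/-! ## 2. The leaf -/

open IsDedekindDomain NumberField AutomorphicForm
open Fermat.Agent.LT.H556.A0
open Fermat.Agent.LT.T2 Fermat.Agent.LT.T2.H724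

attribute [local instance] Fermat.Agent.LT.T2.borelG

variable (K : Type) [Field K] [NumberField K]

/-- **Sub-leaf T2.02d.1 (FUBINI)**, unconditional. -/
theorem convKerC323 : ConvKerC724 K := by
  intro hLC F f₁ f₂ φ c₁ h₁ c₂ h₂ cφ _ x
  obtain ⟨_, hlc, ht2, hsc⟩ := hLC
  haveI : LocallyCompactSpace (G K) := hlc
  haveI : T2Space (G K) := ht2
  haveI : SecondCountableTopology (G K) := hsc
  haveI : BorelSpace (G K) := ⟨rfl⟩
  haveI : F.μ.IsHaarMeasure := F.haar
  exact conv_conv_eq323 F.μ f₁ f₂ φ c₁ h₁ c₂ h₂ cφ x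

end Fermat.Agent.LT.T2.H323

end

end
-- ===== PACK-END LT/T2/H323/ConvKer.lean

-- ===== PACK-BEGIN LT/T2/H286/AdjMeas.lean
section



/-!
# Row LT, tower T2, sub-leaf T2.02d.3 `AdjMeasC724` (MEASURE) — helper286, OFF-MAIN

Registry row 1079.  Spec bytes: `LT/T2/H724/CommSpec.lean` (helper724@7fd05bef9, sha256 78972da3),
`LT/T2/Spec.lean` (helper130 v3, sha256 b934629a), `LT/T1/Spec.lean` (helper54, e8ae48d6),
`LT/H556/A0.lean` (66d3374a): byte-identical copies.

`adjMeasC286 : H724.AdjMeasC724 K` — every Haar measure of `GL₂(𝔸_K)` is invariant under the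
anti-involution `ι(g) = adjugate g`.

Proof.  `τ = ι ∘ inv` is an involutive continuous automorphism of the locally compact second
countable group `GL₂(𝔸_K)`, so its modulus `c` satisfies `c * c = 1`, i.e. `c = 1`
(`MeasureTheory.mulEquivHaarChar_trans`); `inv` preserves a Haar measure which is also right
invariant (`T1.UnimodC`), by the same involution argument; `ι = τ ∘ inv`.

The two abstract statements (`map_inv_eq_self_of_rightInv286`, `map_eq_self_of_involutive286`) are
over Mathlib only.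
-/

set_option autoImplicit false
set_option linter.style.haveILetI false

open IsDedekindDomain NumberField MeasureTheory MeasureTheory.Measure
open Fermat.Agent.LT.H556.A0
open scoped NNReal ENNReal

noncomputable section

namespace Fermat.Agent.LT.T2.H286

/-! ## 1. Abstract part (Mathlib only) -/

section Abstract

variable {G : Type*} [Group G] [TopologicalSpace G] [IsTopologicalGroup G]
  [MeasurableSpace G] [BorelSpace G] [LocallyCompactSpace G] [SecondCountableTopology G]

/-- In a locally compact second countable group, a Haar measure which is also right invariant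
is invariant under inversion. -/
theorem map_inv_eq_self_of_rightInv286 (μ : Measure G) [IsHaarMeasure μ]
    [IsMulRightInvariant μ] : map Inv.inv μ = μ := by
  haveI : IsHaarMeasure μ.inv :=
    { toIsFiniteMeasureOnCompacts := inferInstance
      toIsMulLeftInvariant := inferInstance
      toIsOpenPosMeasure := inferInstance }
  let c : ℝ≥0 := haarScalarFactor μ.inv μ
  have hc : μ.inv = c • μ := isMulLeftInvariant_eq_smul μ.inv μ
  have h2 : map Inv.inv (map Inv.inv μ) = (c * c) • μ := by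
    rw [← inv_def μ, hc, Measure.map_smul, ← inv_def μ, hc, smul_smul]
  have μeq : μ = (c * c) • μ := by
    rw [map_map continuous_inv.measurable continuous_inv.measurable] at h2
    simpa only [inv_involutive, Function.Involutive.comp_self, Measure.map_id] using h2
  have Kc : TopologicalSpace.PositiveCompacts G := Classical.arbitrary _
  have h3 : ((c * c : ℝ≥0) : ℝ≥0∞) * μ Kc = 1 * μ Kc := by
    conv_rhs => rw [μeq]
    simp [Measure.smul_apply, ENNReal.smul_def]
  have h4 : ((c * c : ℝ≥0) : ℝ≥0∞) = 1 :=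
    (ENNReal.mul_left_inj (measure_pos_of_nonempty_interior _ Kc.interior_nonempty).ne'
      Kc.isCompact.measure_lt_top.ne).1 h3
  have h5 : c * c = 1 := by exact_mod_cast h4
  have h6 : c = 1 := by
    have h7 : (c : ℝ) * (c : ℝ) = 1 := by exact_mod_cast h5
    have h8 : (0 : ℝ) ≤ c := c.coe_nonneg
    have h9 : (c : ℝ) = 1 := by nlinarith
    exact_mod_cast h9
  rw [← inv_def μ, hc, h6, one_smul]

/-- In a locally compact second countable group, every Haar measure is invariant under every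
involutive continuous automorphism. -/
theorem map_eq_self_of_involutive286 (μ : Measure G) [IsHaarMeasure μ] (φ : G ≃ₜ* G)
    (hφ : ∀ g : G, φ (φ g) = g) : map φ μ = μ := by
  haveI : Regular μ := inferInstance
  have h1 : φ.trans φ = ContinuousMulEquiv.refl G := by
    ext g
    simp [hφ]
  have h2 : mulEquivHaarChar φ * mulEquivHaarChar φ = 1 := by
    rw [← mulEquivHaarChar_trans, h1, mulEquivHaarChar_refl]
  have h3 : mulEquivHaarChar φ = 1 := by
    have h7 : ((mulEquivHaarChar φ : ℝ≥0) : ℝ) * ((mulEquivHaarChar φ : ℝ≥0) : ℝ) = 1 := by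
      exact_mod_cast h2
    have h8 : (0 : ℝ) ≤ (mulEquivHaarChar φ : ℝ≥0) := NNReal.coe_nonneg _
    have h9 : ((mulEquivHaarChar φ : ℝ≥0) : ℝ) = 1 := by nlinarith
    exact_mod_cast h9
  have h4 := mulEquivHaarChar_smul_map μ φ
  rwa [h3, one_smul] at h4

end Abstract

/-! ## 2. The adelic group -/

open Fermat.Agent.LT.T2 Fermat.Agent.LT.T2.H724

variable {K : Type} [Field K] [NumberField K]

attribute [local instance] Fermat.Agent.LT.T2.borelG

/-- The Borel `σ`-algebra is Borel. -/
theorem borelSpaceG286 : BorelSpace (G K) := ⟨rfl⟩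

/-- `ι` is continuous. -/
theorem continuous_adjG286 : Continuous (adjG724 (K := K)) := by
  rw [Units.continuous_iff]
  constructor
  · exact (Units.continuous_val).matrix_adjugate
  · exact (Units.continuous_val.comp continuous_inv).matrix_adjugate

/-- The involutive automorphism `τ(g) = ι(g⁻¹)` of `GL₂(𝔸_K)`. -/
def tauEquiv286 : G K ≃ₜ* G K where
  toFun g := adjG724 g⁻¹
  invFun g := adjG724 g⁻¹
  left_inv g := by
    show adjG724 (adjG724 g⁻¹)⁻¹ = g
    rw [← adjG724_inv, inv_inv, adjG724_adjG724]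
  right_inv g := by
    show adjG724 (adjG724 g⁻¹)⁻¹ = g
    rw [← adjG724_inv, inv_inv, adjG724_adjG724]
  map_mul' g h := by
    show adjG724 (g * h)⁻¹ = adjG724 g⁻¹ * adjG724 h⁻¹
    rw [mul_inv_rev, adjG724_mul]
  continuous_toFun := continuous_adjG286.comp continuous_inv
  continuous_invFun := continuous_adjG286.comp continuous_inv

theorem tauEquiv286_apply (g : G K) : tauEquiv286 g = adjG724 g⁻¹ := rfl

theorem tauEquiv286_involutive (g : G K) : tauEquiv286 (tauEquiv286 g) = g := by
  rw [tauEquiv286_apply, tauEquiv286_apply, ← adjG724_inv, inv_inv, adjG724_adjG724]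

/-- **T2.02d.3 MEASURE** (registry row 1079): every Haar measure of `GL₂(𝔸_K)` is invariant
under `ι(g) = adjugate g`. -/
theorem adjMeasC286 (K : Type) [Field K] [NumberField K] : AdjMeasC724 K := by
  intro hLC hU μ hμ
  haveI : LocallyCompactSpace (G K) := hLC.2.1
  haveI : SecondCountableTopology (G K) := hLC.2.2.2
  haveI : BorelSpace (G K) := borelSpaceG286
  haveI : IsHaarMeasure μ := hμ
  haveI : IsMulRightInvariant μ := hU μ hμ
  have h1 : map Inv.inv μ = μ := map_inv_eq_self_of_rightInv286 μ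
  have h2 : map (tauEquiv286 (K := K)) μ = μ :=
    map_eq_self_of_involutive286 μ tauEquiv286 tauEquiv286_involutive
  have hcomp : (adjG724 (K := K)) = (tauEquiv286 (K := K)) ∘ Inv.inv := by
    funext g
    simp [tauEquiv286_apply]
  have hτ : Measurable (tauEquiv286 (K := K)) :=
    (continuous_adjG286.comp continuous_inv).measurable
  have hinv : Measurable (Inv.inv : G K → G K) := continuous_inv.measurable
  refine ⟨continuous_adjG286.measurable, ?_⟩
  rw [hcomp, ← map_map hτ hinv, h1, h2]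

end Fermat.Agent.LT.T2.H286

end

end
-- ===== PACK-END LT/T2/H286/AdjMeas.lean

-- ===== PACK-BEGIN LT/T2/H566/SpherePres.lean
section






/-!
# Row LT, tower T2, sub-leaf T2.07.12 `SubSpherePres429` (helper566, SPARE of row 1007)

OFF-MAIN.  The sphere means at a complex place preserve the cusp functions:
`subSpherePres566 : SubS2Rot429 → SubSpherePres429 K`.

* continuity: parametric interval integrals of a jointly continuous function (`Y` is continuous
  by `H472.locCont472`);
* invariance under `U(𝔫)`, under the positive scalars and under the compact groups at the other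
  places: the elements commute with `Y α β` (`H429/Loc.lean`);
* invariance under `U(2)` at the place of the mean: `SubS2Rot429` applied to
  `ψ(m) = φ(g · loc_w(m))`, where `loc_w : GL₂(ℂ) → GL₂(𝔸_K)` is the local embedding at the
  complex place `w` (`locC566`);
* cuspidality: Fubini on `D × (0, 2π] × (0, π]` (`μ D < ∞` by `T1.AddFundDomC`).

Imports (byte-identical copies): `LT/T2/H429/{OpsSpec (6efb177a), Loc (e54337bf)}.lean`
(helper429), `LT/T2/H472/LocCont.lean` (helper472, 407bf890), `LT/H129/{Comp, Local}.lean`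
(helper129), `LT/T1/H793/AdeleProj.lean` (helper793).
-/

set_option autoImplicit false
set_option linter.unusedSectionVars false
set_option linter.style.haveILetI false

open IsDedekindDomain NumberField MeasureTheory
open Fermat.Agent.LT.H556.A0 Fermat.Agent.LT
open Fermat.Agent.LT.T2 Fermat.Agent.LT.T2.H429 Fermat.Agent.LT.T2.H472
open scoped ComplexConjugate

noncomputable section

namespace Fermat.Agent.LT.T2.H566

open NumberField.InfinitePlace

variable {K : Type} [Field K] [NumberField K]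

/-! ## Continuity of the parametrisation -/

theorem continuous_rotZ566 : Continuous rotZ := by
  refine continuous_matrix fun i j => ?_
  fin_cases i <;> fin_cases j
  · show Continuous fun α : ℝ => Complex.exp (Complex.I * ((α / 2 : ℝ) : ℂ))
    fun_prop
  · exact continuous_const
  · exact continuous_const
  · show Continuous fun α : ℝ => Complex.exp (-(Complex.I * ((α / 2 : ℝ) : ℂ)))
    fun_prop

theorem continuous_rotY566 : Continuous rotY := by
  refine continuous_matrix fun i j => ?_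
  fin_cases i <;> fin_cases j
  · show Continuous fun β : ℝ => ((Real.cos (β / 2) : ℝ) : ℂ)
    fun_prop
  · show Continuous fun β : ℝ => -((Real.sin (β / 2) : ℝ) : ℂ)
    fun_prop
  · show Continuous fun β : ℝ => ((Real.sin (β / 2) : ℝ) : ℂ)
    fun_prop
  · show Continuous fun β : ℝ => ((Real.cos (β / 2) : ℝ) : ℂ)
    fun_prop

/-- The parametrisation of a sphere is jointly continuous. -/
theorem continuous_sphere566 (w : InfinitePlace K) (d : ℝ) (Y : ℝ → ℝ → G K)
    (hY : IsSphereAt w d Y) : Continuous fun p : ℝ × ℝ => Y p.1 p.2 := by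
  refine locCont472 K w (ℝ × ℝ) (fun p => Y p.1 p.2) (fun p => (hY p.1 p.2).1) fun i j => ?_
  have h : (fun p : ℝ × ℝ => infComp w (Y p.1 p.2) i j)
      = fun p : ℝ × ℝ => (rotZ p.1 * rotY p.2 * torus d) i j :=
    funext fun p => by rw [(hY p.1 p.2).2]
  rw [h]
  exact ((((continuous_rotZ566.comp continuous_fst).matrix_mul
    (continuous_rotY566.comp continuous_snd)).matrix_mul continuous_const)).matrix_elem i j

/-! ## The local embedding of `GL₂(ℂ)` at a complex place -/

/-- The element of `GL₂(K_w)` with the given complex matrix, `w` a complex place. -/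
def glOfMat566 (w : InfinitePlace K) (hw : w.IsComplex) (m : Matrix (Fin 2) (Fin 2) ℂ)
    (h : m.det ≠ 0) : GL (Fin 2) w.Completion :=
  Matrix.GeneralLinearGroup.mkOfDetNeZero
    (m.map (Completion.ringEquivComplexOfIsComplex hw).symm) (by
      have e : (m.map (Completion.ringEquivComplexOfIsComplex hw).symm).det
          = (Completion.ringEquivComplexOfIsComplex hw).symm m.det := by
        rw [Matrix.det_fin_two, Matrix.det_fin_two]
        simp only [Matrix.map_apply, map_sub, map_mul]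
      rw [e]
      intro h0
      exact h ((Completion.ringEquivComplexOfIsComplex hw).symm.injective
        (h0.trans (map_zero _).symm)))

/-- The element of `GL₂(𝔸_K)` supported at the complex place `w` with the given matrix. -/
def locC566 (w : InfinitePlace K) (hw : w.IsComplex) (m : Matrix (Fin 2) (Fin 2) ℂ)
    (h : m.det ≠ 0) : G K :=
  locInf429 w (glOfMat566 w hw m h)

theorem isLocalAtInf_locC566 (w : InfinitePlace K) (hw : w.IsComplex)
    (m : Matrix (Fin 2) (Fin 2) ℂ) (h : m.det ≠ 0) : IsLocalAtInf w (locC566 w hw m h) :=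
  isLocalAtInf_locInf429 w _

theorem infComp_locC566 (w : InfinitePlace K) (hw : w.IsComplex)
    (m : Matrix (Fin 2) (Fin 2) ℂ) (h : m.det ≠ 0) : infComp w (locC566 w hw m h) = m := by
  unfold locC566
  rw [infComp_locInf429]
  ext i j
  show Completion.extensionEmbedding w ((Completion.ringEquivComplexOfIsComplex hw).symm (m i j))
    = m i j
  rw [← Completion.ringEquivComplexOfIsComplex_apply hw]
  exact RingEquiv.apply_symm_apply _ _

/-- A local element at the complex place `w` is the local embedding of its matrix. -/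
theorem eq_locC566 (w : InfinitePlace K) (hw : w.IsComplex) {g : G K} (hg : IsLocalAtInf w g)
    {m : Matrix (Fin 2) (Fin 2) ℂ} (h : m.det ≠ 0) (e : infComp w g = m) :
    g = locC566 w hw m h :=
  eq_of_isLocalAtInf429 hg (isLocalAtInf_locC566 w hw m h)
    (e.trans (infComp_locC566 w hw m h).symm)

theorem locC_mul566 (w : InfinitePlace K) (hw : w.IsComplex)
    (m k : Matrix (Fin 2) (Fin 2) ℂ) (hm : m.det ≠ 0) (hk : k.det ≠ 0) (hmk : (m * k).det ≠ 0) :
    locC566 w hw (m * k) hmk = locC566 w hw m hm * locC566 w hw k hk := by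
  symm
  refine eq_locC566 w hw
    (isLocalAtInf_mul429 (isLocalAtInf_locC566 w hw m hm) (isLocalAtInf_locC566 w hw k hk)) hmk ?_
  rw [infComp_mul429, infComp_locC566, infComp_locC566]

/-- The local embedding is continuous on the invertible matrices. -/
theorem continuous_locC566 (w : InfinitePlace K) (hw : w.IsComplex) :
    Continuous fun m : {m : Matrix (Fin 2) (Fin 2) ℂ // m.det ≠ 0} =>
      locC566 w hw m.1 m.2 := by
  refine locCont472 K w _ _ (fun m => isLocalAtInf_locC566 w hw m.1 m.2) fun i j => ?_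
  have h : (fun m : {m : Matrix (Fin 2) (Fin 2) ℂ // m.det ≠ 0} =>
      infComp w (locC566 w hw m.1 m.2) i j) = fun m => m.1 i j :=
    funext fun m => by rw [infComp_locC566]
  rw [h]
  exact (continuous_subtype_val.matrix_elem i j)

theorem det_ne_zero_of_unitary566 {k : Matrix (Fin 2) (Fin 2) ℂ}
    (hk : k * k.conjTranspose = 1) : k.det ≠ 0 := by
  intro h0
  have := congrArg Matrix.det hk
  rw [Matrix.det_mul, h0, zero_mul, Matrix.det_one] at this
  exact zero_ne_one this

/-! ## The invariance under `U(2)` at the place of the mean -/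

/-- The function on `M₂(ℂ)` to which `SubS2Rot429` is applied. -/
def psiC566 (w : InfinitePlace K) (hw : w.IsComplex) (φ : G K → ℂ) (g : G K) :
    Matrix (Fin 2) (Fin 2) ℂ → ℂ :=
  fun m => if h : m.det ≠ 0 then φ (g * locC566 w hw m h) else 0

theorem psiC_of_local566 (w : InfinitePlace K) (hw : w.IsComplex) (φ : G K → ℂ) (g : G K)
    {y : G K} (hy : IsLocalAtInf w y) : psiC566 w hw φ g (infComp w y) = φ (g * y) := by
  have hdet : (infComp w y).det ≠ 0 := det_infComp_ne_zero472 w y
  unfold psiC566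
  rw [dif_pos hdet, ← eq_locC566 w hw hy hdet rfl]

theorem continuousOn_psiC566 (w : InfinitePlace K) (hw : w.IsComplex) {φ : G K → ℂ}
    (hφ : Continuous φ) (g : G K) :
    ContinuousOn (psiC566 w hw φ g) {m | m.det ≠ 0} := by
  rw [continuousOn_iff_continuous_domRestrict]
  have h : Set.domRestrict {m : Matrix (Fin 2) (Fin 2) ℂ | m.det ≠ 0} (psiC566 w hw φ g)
      = fun m : {m : Matrix (Fin 2) (Fin 2) ℂ // m.det ≠ 0} =>
        φ (g * locC566 w hw m.1 m.2) := by
    funext m
    exact dif_pos m.2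
  rw [h]
  exact hφ.comp (continuous_const.mul (continuous_locC566 w hw))

theorem psiC_right_inv566 (w : InfinitePlace K) (hw : w.IsComplex) {φ : G K → ℂ}
    (hinv : ∀ (w : InfinitePlace K) (k : G K), IsArchCompact w k → ∀ g : G K, φ (g * k) = φ g)
    (g : G K) (m k : Matrix (Fin 2) (Fin 2) ℂ) (hk : k * k.conjTranspose = 1) :
    psiC566 w hw φ g (m * k) = psiC566 w hw φ g m := by
  have hkdet : k.det ≠ 0 := det_ne_zero_of_unitary566 hk
  by_cases hm : m.det ≠ 0
  · have hmk : (m * k).det ≠ 0 := by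
      rw [Matrix.det_mul]
      exact mul_ne_zero hm hkdet
    unfold psiC566
    rw [dif_pos hmk, dif_pos hm, locC_mul566 w hw m k hm hkdet hmk, ← mul_assoc]
    refine hinv w _ ⟨isLocalAtInf_locC566 w hw k hkdet, ?_, fun hr => ?_⟩ _
    · rw [infComp_locC566]
      exact hk
    · exact absurd hr (not_isReal_iff_isComplex.2 hw)
  · have hmk : ¬ (m * k).det ≠ 0 := by
      rw [Matrix.det_mul]
      push Not at hm ⊢
      rw [hm, zero_mul]
    unfold psiC566
    rw [dif_neg hmk, dif_neg hm]

/-! ## The sub-leaf -/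

/-- **T2.07.12 `SubSpherePres429`** from `SubS2Rot429` (T2.07.31). -/
theorem subSpherePres566 (K : Type) [Field K] [NumberField K] (hS2 : SubS2Rot429) :
    SubSpherePres429 K := by
  intro 𝔫 c w hw d _ Y hY φ hφ
  have hYc : Continuous fun p : ℝ × ℝ => Y p.1 p.2 := continuous_sphere566 w d Y hY
  have hsin : Continuous fun β : ℝ => ((Real.sin β : ℝ) : ℂ) := by fun_prop
  obtain ⟨C, hC⟩ := hφ.bdd
  have hC0 : 0 ≤ C := (norm_nonneg _).trans (hC 1)
  -- the inner integral is jointly continuous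
  have hinner : ∀ {X : Type} [TopologicalSpace X] (a : X → G K), Continuous a →
      Continuous fun p : X × ℝ => ∫ β in (0 : ℝ)..Real.pi,
        φ (a p.1 * Y p.2 β) * ((Real.sin β : ℝ) : ℂ) := by
    intro X _ a ha
    have hf : Continuous (Function.uncurry fun (p : X × ℝ) (β : ℝ) =>
        φ (a p.1 * Y p.2 β) * ((Real.sin β : ℝ) : ℂ)) := by
      refine (hφ.cont.comp ?_).mul (hsin.comp continuous_snd)
      refine (ha.comp (continuous_fst.comp continuous_fst)).mul ?_
      exact hYc.comp ((continuous_snd.comp continuous_fst).prodMk continuous_snd)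
    exact intervalIntegral.continuous_parametric_intervalIntegral_of_continuous' hf 0 Real.pi
  have hinner_bd : ∀ (g : G K) (α : ℝ), ‖∫ β in (0 : ℝ)..Real.pi,
      φ (g * Y α β) * ((Real.sin β : ℝ) : ℂ)‖ ≤ C * |Real.pi - 0| := by
    intro g α
    refine intervalIntegral.norm_integral_le_of_norm_le_const fun β _ => ?_
    rw [norm_mul, Complex.norm_real]
    calc ‖φ (g * Y α β)‖ * ‖Real.sin β‖ ≤ C * 1 :=
          mul_le_mul (hC _) (by rw [Real.norm_eq_abs]; exact Real.abs_sin_le_one β)
            (norm_nonneg _) hC0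
      _ = C := mul_one C
  refine ⟨?_, ?_, ?_, ?_, ?_, ?_, ?_⟩
  · -- continuity
    have h2 : Continuous (Function.uncurry fun (g : G K) (α : ℝ) =>
        ∫ β in (0 : ℝ)..Real.pi, φ (g * Y α β) * ((Real.sin β : ℝ) : ℂ)) :=
      hinner (fun g : G K => g) continuous_id
    exact intervalIntegral.continuous_parametric_intervalIntegral_of_continuous' h2 0
      (2 * Real.pi)
  · -- boundedness
    refine ⟨C * |Real.pi - 0| * |2 * Real.pi - 0|, fun g => ?_⟩
    exact intervalIntegral.norm_integral_le_of_norm_le_const fun α _ => hinner_bd g α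
  · -- left invariance
    intro γ g
    show (∫ α in (0 : ℝ)..(2 * Real.pi), ∫ β in (0 : ℝ)..Real.pi,
        φ (Matrix.GeneralLinearGroup.map (algebraMap K (Adl K)) γ * g * Y α β)
          * ((Real.sin β : ℝ) : ℂ))
      = ∫ α in (0 : ℝ)..(2 * Real.pi), ∫ β in (0 : ℝ)..Real.pi,
        φ (g * Y α β) * ((Real.sin β : ℝ) : ℂ)
    congr 1
    funext α
    congr 1
    funext β
    rw [mul_assoc, hφ.left_inv γ _]
  · -- level
    intro u hu g
    show (∫ α in (0 : ℝ)..(2 * Real.pi), ∫ β in (0 : ℝ)..Real.pi,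
        φ (g * u * Y α β) * ((Real.sin β : ℝ) : ℂ))
      = ∫ α in (0 : ℝ)..(2 * Real.pi), ∫ β in (0 : ℝ)..Real.pi,
        φ (g * Y α β) * ((Real.sin β : ℝ) : ℂ)
    congr 1
    funext α
    congr 1
    funext β
    rw [mul_assoc, commute_level_inf429 hu (hY α β).1, ← mul_assoc, hφ.level_inv u hu _]
  · -- positive scalars
    intro w' z hz g
    show (∫ α in (0 : ℝ)..(2 * Real.pi), ∫ β in (0 : ℝ)..Real.pi,
        φ (g * z * Y α β) * ((Real.sin β : ℝ) : ℂ))
      = ∫ α in (0 : ℝ)..(2 * Real.pi), ∫ β in (0 : ℝ)..Real.pi,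
        φ (g * Y α β) * ((Real.sin β : ℝ) : ℂ)
    congr 1
    funext α
    congr 1
    funext β
    have hcomm : z * Y α β = Y α β * z := by
      by_cases h : w' = w
      · subst h
        obtain ⟨r, -, hr⟩ := hz.2
        refine eq_of_isLocalAtInf429 (isLocalAtInf_mul429 hz.1 (hY α β).1)
          (isLocalAtInf_mul429 (hY α β).1 hz.1) ?_
        rw [infComp_mul429, infComp_mul429, hr]
        ext i j
        simp [Matrix.mul_apply, Matrix.diagonal_apply, mul_comm]
      · exact commute_inf_inf429 h hz.1 (hY α β).1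
    rw [mul_assoc, hcomm, ← mul_assoc, hφ.arch_scalar w' z hz _]
  · -- compact groups
    intro w' k hk g
    show (∫ α in (0 : ℝ)..(2 * Real.pi), ∫ β in (0 : ℝ)..Real.pi,
        φ (g * k * Y α β) * ((Real.sin β : ℝ) : ℂ))
      = ∫ α in (0 : ℝ)..(2 * Real.pi), ∫ β in (0 : ℝ)..Real.pi,
        φ (g * Y α β) * ((Real.sin β : ℝ) : ℂ)
    by_cases h : w' = w
    · subst h
      have key := hS2 (psiC566 w' hw φ g) (continuousOn_psiC566 w' hw hφ.cont g)
        (psiC_right_inv566 w' hw hφ.arch_compact g) (infComp w' k) hk.2.1 d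
      have e1 : ∀ α β : ℝ, psiC566 w' hw φ g (infComp w' k * (rotZ α * rotY β * torus d))
          = φ (g * k * Y α β) := by
        intro α β
        have := psiC_of_local566 w' hw φ g (isLocalAtInf_mul429 hk.1 (hY α β).1)
        rw [infComp_mul429, (hY α β).2, ← mul_assoc g] at this
        exact this
      have e2 : ∀ α β : ℝ, psiC566 w' hw φ g (rotZ α * rotY β * torus d)
          = φ (g * Y α β) := by
        intro α β
        have := psiC_of_local566 w' hw φ g (hY α β).1
        rw [(hY α β).2] at this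
        exact this
      simp only [e1, e2] at key
      exact key
    · congr 1
      funext α
      congr 1
      funext β
      rw [mul_assoc, commute_inf_inf429 h hk.1 (hY α β).1, ← mul_assoc,
        hφ.arch_compact w' k hk _]
  · -- cuspidality
    letI : MeasurableSpace (Adl K) := borel (Adl K)
    haveI : BorelSpace (Adl K) := ⟨rfl⟩
    intro μ hμ D hD n hn g
    haveI := hμ
    have hDfin : μ D < ⊤ := measure_fundDom_lt_top566 c.t1.addFundDom μ hμ D hD
    haveI : IsFiniteMeasure (μ.restrict D) := ⟨by rwa [Measure.restrict_apply_univ]⟩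
    have hnc : Continuous n := continuous_unip566 n hn
    -- first swap: `x` and `α`
    set F : Adl K → ℝ → ℂ := fun x α =>
      ∫ β in (0 : ℝ)..Real.pi, φ (n x * g * Y α β) * ((Real.sin β : ℝ) : ℂ) with hF
    have hFc : Continuous (Function.uncurry F) :=
      hinner (fun x : Adl K => n x * g) (hnc.mul continuous_const)
    have hFint : Integrable (Function.uncurry F)
        ((μ.restrict D).prod (volume.restrict (Set.Ioc (0 : ℝ) (2 * Real.pi)))) :=
      Integrable.mono' (g := fun _ => C * |Real.pi - 0|) (integrable_const _)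
        hFc.aestronglyMeasurable (Filter.Eventually.of_forall fun p => hinner_bd _ _)
    have h1 : ∀ x : Adl K, sphereMean Y φ (n x * g)
        = ∫ α in Set.Ioc (0 : ℝ) (2 * Real.pi), F x α := fun x =>
      intervalIntegral.integral_of_le (by positivity)
    show ∫ x in D, sphereMean Y φ (n x * g) ∂μ = 0
    simp only [h1]
    rw [integral_integral_swap hFint]
    -- second swap: `x` and `β`, for every `α`
    have h2 : ∀ α : ℝ, ∫ x in D, F x α ∂μ = 0 := by
      intro α
      set f : Adl K → ℝ → ℂ := fun x β => φ (n x * g * Y α β) * ((Real.sin β : ℝ) : ℂ)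
        with hf
      have hfc : Continuous (Function.uncurry f) := by
        refine (hφ.cont.comp ?_).mul (hsin.comp continuous_snd)
        refine ((hnc.comp continuous_fst).mul continuous_const).mul ?_
        exact hYc.comp (continuous_const.prodMk continuous_snd)
      have hfint : Integrable (Function.uncurry f)
          ((μ.restrict D).prod (volume.restrict (Set.Ioc (0 : ℝ) Real.pi))) := by
        refine Integrable.mono' (g := fun _ => C) (integrable_const C)
          hfc.aestronglyMeasurable (Filter.Eventually.of_forall fun p => ?_)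
        show ‖φ (n p.1 * g * Y α p.2) * ((Real.sin p.2 : ℝ) : ℂ)‖ ≤ C
        rw [norm_mul, Complex.norm_real]
        calc ‖φ (n p.1 * g * Y α p.2)‖ * ‖Real.sin p.2‖ ≤ C * 1 :=
              mul_le_mul (hC _) (by rw [Real.norm_eq_abs]; exact Real.abs_sin_le_one _)
                (norm_nonneg _) hC0
          _ = C := mul_one C
      have h3 : ∀ x : Adl K, F x α = ∫ β in Set.Ioc (0 : ℝ) Real.pi, f x β := fun x =>
        intervalIntegral.integral_of_le Real.pi_pos.le
      simp only [h3]
      rw [integral_integral_swap hfint]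
      have h4 : ∀ β : ℝ, ∫ x in D, f x β ∂μ = 0 := by
        intro β
        have := hφ.cuspidal μ hμ D hD n hn (g * Y α β)
        simp only [hf]
        rw [integral_mul_const]
        simp only [mul_assoc]
        rw [this, zero_mul]
      simp only [h4, integral_zero]
    simp only [h2, integral_zero]

end Fermat.Agent.LT.T2.H566

end

end
-- ===== PACK-END LT/T2/H566/SpherePres.lean

-- ===== PACK-BEGIN LT/T2/H841/Avg.lean
section







/-!
# Row LT, tower T2, leaf T2.07.18 (helper841): the averaged function and its invariances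

OFF-MAIN.  For a cusp function `φ`, a complex place `w` and `g ∈ GL₂(𝔸_K)`,
`psi841 w hw φ g m = ∫_{qA} φ(g · ι(qmat q · m)) dq` is bi-invariant under `U(2)`, hence (Cartan)
invariant under the transposition of real matrices.
-/

set_option autoImplicit false
set_option linter.unusedSectionVars false

open IsDedekindDomain NumberField MeasureTheory
open Fermat.Agent.LT.H556.A0
open Fermat.Agent.LT.T2 Fermat.Agent.LT.T2.H429

noncomputable section

namespace Fermat.Agent.LT.T2.H841

variable {K : Type} [Field K] [NumberField K]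

section

variable (w : InfinitePlace K) (hw : w.IsComplex)

/-- The parametrisation of a sphere is continuous. -/
theorem continuous_sphere841 (hL : SubLocCont429 K) {d : ℝ} {Y : ℝ → ℝ → G K}
    (hY : IsSphereAt w d Y) : Continuous fun p : ℝ × ℝ => Y p.1 p.2 := by
  refine hL w (ℝ × ℝ) (fun p => Y p.1 p.2) (fun p => (hY p.1 p.2).1) (fun i j => ?_)
  have h : (fun p : ℝ × ℝ => infComp w (Y p.1 p.2) i j) = fun p => sphM841 d p.1 p.2 i j := by
    funext p
    rw [(hY p.1 p.2).2]
    rfl
  rw [h]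
  exact (continuous_sphM841 d).matrix_elem i j

theorem sphere_eq_iota841 {d : ℝ} {Y : ℝ → ℝ → G K} (hY : IsSphereAt w d Y) (α β : ℝ) :
    Y α β = iota841 w hw (sphM841 d α β) :=
  eq_iota841 w hw (det_sphM841_ne d α β) _ (hY α β).1 (hY α β).2

theorem det_qmat_mul_ne841 {q : ℂ × ℂ} (hq : q ∈ qA) {m : Matrix (Fin 2) (Fin 2) ℂ}
    (hm : m.det ≠ 0) : (qmat q * m).det ≠ 0 := by
  rw [Matrix.det_mul]
  exact mul_ne_zero (det_qmat_ne_zero hq) hm

/-- `q ↦ ι(qmat q · m)` is continuous on the annulus. -/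
theorem continuousOn_iota_qmat841 (hL : SubLocCont429 K) {m : Matrix (Fin 2) (Fin 2) ℂ}
    (hm : m.det ≠ 0) : ContinuousOn (fun q : ℂ × ℂ => iota841 w hw (qmat q * m)) qA := by
  rw [continuousOn_iff_continuous_domRestrict]
  refine hL w qA (qA.domRestrict fun q => iota841 w hw (qmat q * m))
    (fun q => isLocalAtInf_iota841 w hw _) (fun i j => ?_)
  have h : (fun q : qA => infComp w (qA.domRestrict (fun q => iota841 w hw (qmat q * m)) q) i j)
      = fun q : qA => (qmat q.1 * m) i j := by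
    funext q
    rw [Set.domRestrict_apply, infComp_iota841 w hw (det_qmat_mul_ne841 q.2 hm)]
  rw [h]
  exact ((continuous_qmat.comp continuous_subtype_val).matrix_mul
    continuous_const).matrix_elem i j

theorem continuousOn_iota_qmat_one841 (hL : SubLocCont429 K) :
    ContinuousOn (fun q : ℂ × ℂ => iota841 w hw (qmat q)) qA := by
  have h := continuousOn_iota_qmat841 w hw hL (m := 1) (by simp)
  simpa only [mul_one] using h

/-- The averaged function. -/
def psi841 (φ : G K → ℂ) (g : G K) (m : Matrix (Fin 2) (Fin 2) ℂ) : ℂ :=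
  ∫ q in qA, φ (g * iota841 w hw (qmat q * m))

/-- Right invariance under `U(2)`. -/
theorem psi841_mul_unitary {φ : G K → ℂ}
    (hφ : ∀ (k : G K), IsArchCompact w k → ∀ g : G K, φ (g * k) = φ g) (g : G K)
    {m : Matrix (Fin 2) (Fin 2) ℂ} (hm : m.det ≠ 0) {k : Matrix (Fin 2) (Fin 2) ℂ}
    (hk : k * k.conjTranspose = 1) : psi841 w hw φ g (m * k) = psi841 w hw φ g m := by
  unfold psi841
  refine setIntegral_congr_fun measurableSet_qA (fun q hq => ?_)
  show φ (g * iota841 w hw (qmat q * (m * k))) = φ (g * iota841 w hw (qmat q * m))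
  rw [← mul_assoc, iota841_mul w hw (det_qmat_mul_ne841 hq hm) (det_ne_zero_of_unitary841 hk),
    ← mul_assoc]
  exact hφ _ (isArchCompact_iota841 w hw hk) _

/-- Left invariance under `SU(2)`, in the form `suMat`. -/
theorem psi841_suMat_mul (φ : G K → ℂ) (g : G K) (a c : ℂ)
    (h : Complex.normSq a + Complex.normSq c = 1) (m : Matrix (Fin 2) (Fin 2) ℂ) :
    psi841 w hw φ g (suMat a c * m) = psi841 w hw φ g m := by
  unfold psi841
  have h1 := setIntegral_qA_comp_qT a c h (fun q => φ (g * iota841 w hw (qmat q * m)))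
  rw [← h1]
  refine setIntegral_congr_fun measurableSet_qA (fun q _ => ?_)
  show φ (g * iota841 w hw (qmat q * (suMat a c * m)))
    = φ (g * iota841 w hw (qmat (qT a c q) * m))
  rw [qmat_qT, mul_assoc]

/-- Left invariance under `SU(2)`. -/
theorem psi841_su_mul (φ : G K → ℂ) (g : G K) {k : Matrix (Fin 2) (Fin 2) ℂ}
    (hk : k * k.conjTranspose = 1) (hd : k.det = 1) (m : Matrix (Fin 2) (Fin 2) ℂ) :
    psi841 w hw φ g (k * m) = psi841 w hw φ g m := by
  obtain ⟨hs, hn⟩ := su_shape841 hk hd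
  rw [hs]
  exact psi841_suMat_mul w hw φ g _ _ hn m

/-- Invariance under the transposition of real matrices (Cartan decomposition). -/
theorem psi841_transpose (hC : SubCartanInf429) {φ : G K → ℂ}
    (hφ : ∀ (k : G K), IsArchCompact w k → ∀ g : G K, φ (g * k) = φ g) (g : G K)
    {X : Matrix (Fin 2) (Fin 2) ℂ} (hX : X.det ≠ 0) (hr : ∀ i j, (X i j).im = 0) :
    psi841 w hw φ g X.transpose = psi841 w hw φ g X := by
  obtain ⟨k₁, k₂, a, b, hk₁, hk₂, hXe, hreal⟩ := hC X hX
  obtain ⟨-, -, hd₁, hd₂, -, -⟩ := hreal hr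
  have hD : (Matrix.diagonal ![a, b]).det ≠ 0 := by
    intro h0
    apply hX
    rw [hXe, Matrix.det_mul, Matrix.det_mul, h0]
    simp
  have e1 : psi841 w hw φ g X = psi841 w hw φ g (Matrix.diagonal ![a, b]) := by
    rw [hXe, mul_assoc, psi841_su_mul w hw φ g hk₁ hd₁,
      psi841_mul_unitary w hw hφ g hD hk₂]
  have hT : X.transpose = k₂.transpose * (Matrix.diagonal ![a, b] * k₁.transpose) := by
    rw [hXe, Matrix.transpose_mul, Matrix.transpose_mul, Matrix.diagonal_transpose]
  have e2 : psi841 w hw φ g X.transpose = psi841 w hw φ g (Matrix.diagonal ![a, b]) := by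
    rw [hT, psi841_su_mul w hw φ g (conjTranspose_transpose_unitary841 hk₂)
        (by rw [Matrix.det_transpose]; exact hd₂),
      psi841_mul_unitary w hw hφ g hD (conjTranspose_transpose_unitary841 hk₁)]
  rw [e1, e2]

/-- **Symmetry** of the averaged function on the middle matrices. -/
theorem psi841_mid_symm (hC : SubCartanInf429) {φ : G K → ℂ}
    (hφ : ∀ (k : G K), IsArchCompact w k → ∀ g : G K, φ (g * k) = φ g) (g : G K)
    (d β d' : ℝ) :
    psi841 w hw φ g (midM841 d β d') = psi841 w hw φ g (midM841 d' β d) := by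
  have hdet : ∀ x y z : ℝ, (midM841 x y z).det ≠ 0 := fun x y z => by
    rw [det_midM841]; exact one_ne_zero
  rw [← psi841_transpose w hw hC hφ g (hdet d β d') (midM841_real d β d'),
    midM841_transpose, mul_assoc]
  unfold dmat841
  rw [psi841_suMat_mul w hw φ g _ _ normSq_dmat841,
    psi841_mul_unitary w hw hφ g (hdet d' β d) dmatInv841_unitary]

/-- The averaged function on a product of two sphere matrices. -/
theorem psi841_sph_mul (φ : G K → ℂ) (g : G K) (d d' α β α' β' : ℝ) :
    psi841 w hw φ g (sphM841 d α β * sphM841 d' α' β')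
      = psi841 w hw φ g (midM841 d β' d') := by
  have e : sphM841 d α β * sphM841 d' α' β'
      = rotZ α * (rotY β * (rotZ α' * midM841 d β' d')) := by
    unfold sphM841 midM841
    have h := rotZ_mul_torus841 α' d
    calc rotZ α * rotY β * torus d * (rotZ α' * rotY β' * torus d')
        = rotZ α * rotY β * ((torus d * rotZ α') * rotY β' * torus d') := by
          simp only [mul_assoc]
      _ = rotZ α * rotY β * ((rotZ α' * torus d) * rotY β' * torus d') := by rw [h]
      _ = rotZ α * (rotY β * (rotZ α' * (torus d * rotY β' * torus d'))) := by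
          simp only [mul_assoc]
  rw [e, rotZ_eq_suMat841 α, psi841_suMat_mul w hw φ g _ _ (normSq_rotZ841 α),
    rotY_eq_suMat841 β, psi841_suMat_mul w hw φ g _ _ (normSq_rotY841 β),
    rotZ_eq_suMat841 α', psi841_suMat_mul w hw φ g _ _ (normSq_rotZ841 α')]

end

end Fermat.Agent.LT.T2.H841

end

end
-- ===== PACK-END LT/T2/H841/Avg.lean

-- ===== PACK-BEGIN LT/T2/H886/CuspAlg.lean
section




/-!
# Row LT, tower T2, shared asset CUSP-ALG (helper886): linear algebra of cusp functions

OFF-MAIN.  Imports: Mathlib, `LT/T2/Spec.lean` (helper130@87ff7c8b8, v1, byte-identical copy,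
sha256 1b305586...), `LT/T1/H886/AddFundDom.lean` (helper886) and its imports.
NO new notion: every statement is about `A0.IsCuspidalFn`, `T2.IsCuspFn`, `T2.pair`, `T2.nsq`.

1. `unipG886 x = [[1,x],[0,1]] : G K`, `continuous_unipG886`, `eq_unipG886` (the function `n` of
   `A0.IsCuspidalFn` is unique).
2. EVERY fundamental domain `D` of `K` in `𝔸_K` (as quantified in `A0.IsCuspidalFn`) has
   `0 < μ D = μ (fundDom886 K) < ∞` (`measure_eq_fundDom886`, `measure_lt_top_of_fundDom886`,
   `measure_pos_of_fundDom886`); `integrableOn_unip886`: `x ↦ φ(n(x) g)` is integrable on `D` for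
   `φ` continuous and bounded.
3. `isCuspidalFn_iff886` (unfolded form, with `constTerm886`), closure of `A0.IsCuspidalFn` under
   `0`, `c * ·`, `-`, `+`, `-` (binary), right translation, and UNIFORM LIMITS
   (`isCuspidalFn_of_uniform_limit886`).
4. `T2.IsCuspFn 𝔫` is closed under `0`, `c * ·`, `-`, `+`, `-`, `φ + c * ψ` (the combinations of
   `T2.OpsGood`), finite sums, and UNIFORM LIMITS (`isCuspFn_of_uniform_limit886`).
5. The pairing of a frame: `integrableOn_mul_conj886`, `pair_add_left886`,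
   `pair_const_mul_left886`, `pair_conj_symm886`, `pair_add_right886`, `pair_const_mul_right886`,
   `pair_neg_left886`, `pair_sub_left886`, `pair_self886`, `nsq_eq886` (`= ∫_D |φ|²`),
   `nsq_nonneg886`, `nsq_le_of_bound886` (`‖φ‖₂² ≤ ‖φ‖_∞² μ(D)`).
6. `cuspSubmodule886 𝔫 : Submodule ℂ (G K → ℂ)`, `preCore886 F 𝔫 : PreInnerProductSpace.Core`,
   Cauchy--Schwarz `norm_pair_sq_le886`, `core886 F 𝔫 (h : PairDefinite K 𝔫) :
   InnerProductSpace.Core ℂ (cuspSubmodule886 𝔫)` (the pre-Hilbert space `V` of T2.09),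
   `tendsto_nsq_of_uniform_limit886`, `exists_limit_of_uniformCauchy886` (a uniformly Cauchy
   sequence of cusp functions converges uniformly and in `L²` to a cusp function: the second half
   of T2.05).
-/

set_option autoImplicit false

open IsDedekindDomain NumberField MeasureTheory
open scoped Classical

noncomputable section

namespace Fermat.Agent.LT.T2.H886

open Fermat.Agent.LT.H556.A0 Fermat.Agent.LT.T1 Fermat.Agent.LT.T2 Fermat.Agent.LT.T1.H886

variable {K : Type} [Field K] [NumberField K]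

/-! ## 1. The unipotent elements `n(x)` -/

/-- `n(x) = [[1, x], [0, 1]]` as an element of `GL₂(𝔸_K)`. -/
def unipG886 (x : Adl K) : G K :=
  ⟨!![1, x; 0, 1], !![1, -x; 0, 1],
    by simp [Matrix.one_fin_two],
    by simp [Matrix.one_fin_two]⟩

theorem coe_unipG886 (x : Adl K) :
    (unipG886 x : Matrix (Fin 2) (Fin 2) (Adl K)) = !![1, x; 0, 1] := rfl

/-- The function `n` of `A0.IsCuspidalFn` is unique. -/
theorem eq_unipG886 (n : Adl K → G K)
    (hn : ∀ x : Adl K, (n x : Matrix (Fin 2) (Fin 2) (Adl K)) = !![1, x; 0, 1]) :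
    n = unipG886 := by
  funext x
  exact Units.ext (hn x)

theorem continuous_matrix_unip886 : Continuous fun x : Adl K =>
    (!![1, x; 0, 1] : Matrix (Fin 2) (Fin 2) (Adl K)) := by
  refine continuous_matrix fun i j => ?_
  fin_cases i <;> fin_cases j <;> simp <;> fun_prop

/-- `x ↦ n(x)` is continuous. -/
theorem continuous_unipG886 : Continuous (unipG886 : Adl K → G K) := by
  rw [Units.continuous_iff]
  refine ⟨continuous_matrix_unip886, ?_⟩
  have h : (fun x : Adl K => (((unipG886 x)⁻¹ : G K) : Matrix (Fin 2) (Fin 2) (Adl K)))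
      = (fun x : Adl K => (!![1, x; 0, 1] : Matrix (Fin 2) (Fin 2) (Adl K))) ∘ fun x => -x := by
    funext x
    rfl
  rw [h]
  exact continuous_matrix_unip886.comp continuous_neg

/-! ## 2. Every fundamental domain of `K` in `𝔸_K` has the same finite positive measure -/

section FD

variable (K)

theorem measurableConstVAdd_princ886 [MeasurableSpace (Adl K)] [BorelSpace (Adl K)] :
    MeasurableConstVAdd (princ K) (Adl K) :=
  ⟨fun c => (continuous_const_vadd c).measurable⟩

variable {K}

/-- Two fundamental domains have the same measure. -/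
theorem measure_eq_fundDom886 [MeasurableSpace (Adl K)] [BorelSpace (Adl K)]
    (μ : Measure (Adl K)) [μ.IsAddHaarMeasure] {D : Set (Adl K)}
    (hD : IsAddFundamentalDomain (princ K) D μ) : μ D = μ (fundDom886 K) := by
  have := countable_princ886 K
  have := measurableConstVAdd_princ886 K
  have : VAddInvariantMeasure (princ K) (Adl K) μ := inferInstance
  exact hD.measure_eq (isAddFundamentalDomain_fundDom886 K μ)

theorem measure_lt_top_of_fundDom886 [MeasurableSpace (Adl K)] [BorelSpace (Adl K)]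
    (μ : Measure (Adl K)) [μ.IsAddHaarMeasure] {D : Set (Adl K)}
    (hD : IsAddFundamentalDomain (princ K) D μ) : μ D < ⊤ := by
  rw [measure_eq_fundDom886 μ hD]
  exact measure_fundDom886_lt_top K μ

theorem measure_pos_of_fundDom886 [MeasurableSpace (Adl K)] [BorelSpace (Adl K)]
    (μ : Measure (Adl K)) [μ.IsAddHaarMeasure] {D : Set (Adl K)}
    (hD : IsAddFundamentalDomain (princ K) D μ) : 0 < μ D := by
  rw [measure_eq_fundDom886 μ hD]
  exact measure_fundDom886_pos K μ

/-- For `φ` continuous and bounded, `x ↦ φ(n(x) g)` is integrable on every fundamental domain. -/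
theorem integrableOn_unip886 [MeasurableSpace (Adl K)] [BorelSpace (Adl K)]
    (μ : Measure (Adl K)) [μ.IsAddHaarMeasure] {D : Set (Adl K)}
    (hD : IsAddFundamentalDomain (princ K) D μ) {φ : G K → ℂ} (hc : Continuous φ)
    {C : ℝ} (hb : ∀ g : G K, ‖φ g‖ ≤ C) (g : G K) :
    IntegrableOn (fun x : Adl K => φ (unipG886 x * g)) D μ := by
  have hcont : Continuous fun x : Adl K => φ (unipG886 x * g) :=
    hc.comp (continuous_unipG886.mul continuous_const)
  refine Measure.integrableOn_of_bounded (M := C) (measure_lt_top_of_fundDom886 μ hD).ne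
    hcont.aestronglyMeasurable ?_
  exact Filter.Eventually.of_forall fun x => hb _

end FD

/-! ## 3. `A0.IsCuspidalFn`: unfolded form and closure properties -/

section Cuspidal

/-- The condition of `A0.IsCuspidalFn` for ONE Haar measure, ONE fundamental domain and one `g`,
with the unique function `n = unipG886`. -/
def constTerm886 [MeasurableSpace (Adl K)] (μ : Measure (Adl K)) (D : Set (Adl K))
    (φ : G K → ℂ) (g : G K) : ℂ :=
  ∫ x in D, φ (unipG886 x * g) ∂μ

/-- Unfolded form of `A0.IsCuspidalFn`: the function `n` is `unipG886`. -/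
theorem isCuspidalFn_iff886 (φ : G K → ℂ) :
    IsCuspidalFn φ ↔
      letI : MeasurableSpace (Adl K) := borel (Adl K)
      ∀ μ : Measure (Adl K), μ.IsAddHaarMeasure → ∀ D : Set (Adl K),
        IsAddFundamentalDomain (princ K) D μ → ∀ g : G K, constTerm886 μ D φ g = 0 := by
  constructor
  · intro h μ hμ D hD g
    exact h μ hμ D hD unipG886 coe_unipG886 g
  · intro h μ hμ D hD n hn g
    rw [eq_unipG886 n hn]
    exact h μ hμ D hD g

theorem isCuspidalFn_zero886 : IsCuspidalFn (fun _ : G K => (0 : ℂ)) := by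
  intro μ _ D _ n _ g
  simp

theorem isCuspidalFn_const_mul886 {φ : G K → ℂ} (c : ℂ) (hφ : IsCuspidalFn φ) :
    IsCuspidalFn (fun g => c * φ g) := by
  intro μ hμ D hD n hn g
  have := hφ μ hμ D hD n hn g
  rw [integral_const_mul, this, mul_zero]

theorem isCuspidalFn_neg886 {φ : G K → ℂ} (hφ : IsCuspidalFn φ) :
    IsCuspidalFn (fun g => -φ g) := by
  intro μ hμ D hD n hn g
  have := hφ μ hμ D hD n hn g
  rw [integral_neg, this, neg_zero]

/-- Cuspidality is invariant under right translation. -/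
theorem isCuspidalFn_shift886 {φ : G K → ℂ} (h : G K) (hφ : IsCuspidalFn φ) :
    IsCuspidalFn (fun g => φ (g * h)) := by
  intro μ hμ D hD n hn g
  have := hφ μ hμ D hD n hn (g * h)
  simpa only [mul_assoc] using this

theorem isCuspidalFn_add886 {φ ψ : G K → ℂ} (hφc : Continuous φ) {C : ℝ}
    (hφb : ∀ g, ‖φ g‖ ≤ C) (hψc : Continuous ψ) {C' : ℝ} (hψb : ∀ g, ‖ψ g‖ ≤ C')
    (hφ : IsCuspidalFn φ) (hψ : IsCuspidalFn ψ) : IsCuspidalFn (fun g => φ g + ψ g) := by
  rw [isCuspidalFn_iff886] at hφ hψ ⊢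
  let _ : MeasurableSpace (Adl K) := borel (Adl K)
  have : BorelSpace (Adl K) := ⟨rfl⟩
  intro μ hμ D hD g
  have := hμ
  have h1 := integrableOn_unip886 μ hD hφc hφb g
  have h2 := integrableOn_unip886 μ hD hψc hψb g
  have e := integral_add h1 h2
  have e1 : constTerm886 μ D φ g = 0 := hφ μ hμ D hD g
  have e2 : constTerm886 μ D ψ g = 0 := hψ μ hμ D hD g
  unfold constTerm886 at e1 e2 ⊢
  rw [e1, e2, add_zero] at e
  exact e

theorem isCuspidalFn_sub886 {φ ψ : G K → ℂ} (hφc : Continuous φ) {C : ℝ}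
    (hφb : ∀ g, ‖φ g‖ ≤ C) (hψc : Continuous ψ) {C' : ℝ} (hψb : ∀ g, ‖ψ g‖ ≤ C')
    (hφ : IsCuspidalFn φ) (hψ : IsCuspidalFn ψ) : IsCuspidalFn (fun g => φ g - ψ g) := by
  have hn : Continuous fun g => -ψ g := hψc.neg
  have h := isCuspidalFn_add886 (ψ := fun g => -ψ g) hφc hφb hn (C' := C')
    (fun g => by rw [norm_neg]; exact hψb g) hφ (isCuspidalFn_neg886 hψ)
  simpa only [sub_eq_add_neg] using h

/-- **Uniform limits**: a uniform limit of continuous bounded cuspidal functions is cuspidal. -/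
theorem isCuspidalFn_of_uniform_limit886 {φ : ℕ → G K → ℂ} {ψ : G K → ℂ}
    (hc : ∀ k, Continuous (φ k)) (hb : ∀ k, ∃ C : ℝ, ∀ g, ‖φ k g‖ ≤ C)
    (hcusp : ∀ k, IsCuspidalFn (φ k))
    (hlim : ∀ ε : ℝ, 0 < ε → ∃ N : ℕ, ∀ k ≥ N, ∀ g : G K, ‖φ k g - ψ g‖ ≤ ε) :
    IsCuspidalFn ψ := by
  -- `ψ` is continuous and bounded
  have hψc : Continuous ψ := by
    have hu : TendstoUniformly (fun k => φ k) ψ Filter.atTop := by
      rw [Metric.tendstoUniformly_iff]
      intro ε hε
      obtain ⟨N, hN⟩ := hlim (ε / 2) (half_pos hε)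
      filter_upwards [Filter.eventually_ge_atTop N] with k hk g
      rw [dist_comm, dist_eq_norm]
      exact lt_of_le_of_lt (hN k hk g) (half_lt_self hε)
    exact hu.continuous (Filter.Eventually.of_forall hc).frequently
  obtain ⟨N₁, hN₁⟩ := hlim 1 one_pos
  obtain ⟨C₁, hC₁⟩ := hb N₁
  have hψb : ∀ g, ‖ψ g‖ ≤ C₁ + 1 := by
    intro g
    have h1 := hN₁ N₁ le_rfl g
    have h2 : ψ g = φ N₁ g - (φ N₁ g - ψ g) := by ring
    rw [h2]
    calc ‖φ N₁ g - (φ N₁ g - ψ g)‖ ≤ ‖φ N₁ g‖ + ‖φ N₁ g - ψ g‖ := norm_sub_le _ _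
      _ ≤ C₁ + 1 := add_le_add (hC₁ g) h1
  rw [isCuspidalFn_iff886]
  let _ : MeasurableSpace (Adl K) := borel (Adl K)
  have : BorelSpace (Adl K) := ⟨rfl⟩
  intro μ hμ D hD g
  have := hμ
  have hfin := measure_lt_top_of_fundDom886 μ hD
  have hψi := integrableOn_unip886 μ hD hψc hψb g
  -- the constant term is smaller than every `ε · μ D`
  have key : ∀ ε : ℝ, 0 < ε → ‖constTerm886 μ D ψ g‖ ≤ ε * μ.real D := by
    intro ε hε
    obtain ⟨N, hN⟩ := hlim ε hε
    obtain ⟨C, hC⟩ := hb N
    have hφi := integrableOn_unip886 μ hD (hc N) hC g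
    have e0 : constTerm886 μ D (φ N) g = 0 := by
      have := (isCuspidalFn_iff886 (φ N)).mp (hcusp N)
      exact this μ hμ D hD g
    have e1 : constTerm886 μ D ψ g
        = -∫ x in D, (φ N (unipG886 x * g) - ψ (unipG886 x * g)) ∂μ := by
      rw [integral_sub hφi hψi]
      unfold constTerm886 at e0 ⊢
      rw [e0]
      ring
    rw [e1, norm_neg]
    exact norm_setIntegral_le_of_norm_le_const hfin (fun x _ => hN N le_rfl _)
  by_contra hne
  have hpos : 0 < ‖constTerm886 μ D ψ g‖ := norm_pos_iff.mpr hne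
  have hμpos : 0 < μ.real D + 1 := by
    have : 0 ≤ μ.real D := measureReal_nonneg
    linarith
  have h := key (‖constTerm886 μ D ψ g‖ / (2 * (μ.real D + 1)))
    (div_pos hpos (by linarith))
  have h3 : ‖constTerm886 μ D ψ g‖ / (2 * (μ.real D + 1)) * μ.real D
      ≤ ‖constTerm886 μ D ψ g‖ / 2 := by
    have h0 : 0 ≤ μ.real D := measureReal_nonneg
    rw [div_mul_eq_mul_div, div_le_div_iff₀ (by linarith) (by norm_num)]
    nlinarith
  linarith

end Cuspidal

/-! ## 4. `T2.IsCuspFn 𝔫` is a `ℂ`-vector space of functions, closed under uniform limits -/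

section CuspFn

variable {𝔫 : Ideal (𝓞 K)}

theorem isCuspFn_zero886 (𝔫 : Ideal (𝓞 K)) : IsCuspFn 𝔫 (fun _ : G K => (0 : ℂ)) where
  cont := continuous_const
  bdd := ⟨0, fun _ => by simp⟩
  left_inv := fun _ _ => rfl
  level_inv := fun _ _ _ => rfl
  arch_scalar := fun _ _ _ _ => rfl
  arch_compact := fun _ _ _ _ => rfl
  cuspidal := isCuspidalFn_zero886

theorem isCuspFn_const_mul886 {φ : G K → ℂ} (c : ℂ) (h : IsCuspFn 𝔫 φ) :
    IsCuspFn 𝔫 (fun g => c * φ g) where
  cont := continuous_const.mul h.cont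
  bdd := by
    obtain ⟨C, hC⟩ := h.bdd
    refine ⟨‖c‖ * C, fun g => ?_⟩
    rw [norm_mul]
    exact mul_le_mul_of_nonneg_left (hC g) (norm_nonneg c)
  left_inv := fun γ g => by rw [h.left_inv γ g]
  level_inv := fun u hu g => by rw [h.level_inv u hu g]
  arch_scalar := fun w z hz g => by rw [h.arch_scalar w z hz g]
  arch_compact := fun w k hk g => by rw [h.arch_compact w k hk g]
  cuspidal := isCuspidalFn_const_mul886 c h.cuspidal

theorem isCuspFn_neg886 {φ : G K → ℂ} (h : IsCuspFn 𝔫 φ) : IsCuspFn 𝔫 (fun g => -φ g) := by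
  have := isCuspFn_const_mul886 (-1) h
  simpa only [neg_one_mul] using this

theorem isCuspFn_add886 {φ ψ : G K → ℂ} (hφ : IsCuspFn 𝔫 φ) (hψ : IsCuspFn 𝔫 ψ) :
    IsCuspFn 𝔫 (fun g => φ g + ψ g) where
  cont := hφ.cont.add hψ.cont
  bdd := by
    obtain ⟨C, hC⟩ := hφ.bdd
    obtain ⟨C', hC'⟩ := hψ.bdd
    exact ⟨C + C', fun g => le_trans (norm_add_le _ _) (add_le_add (hC g) (hC' g))⟩
  left_inv := fun γ g => by rw [hφ.left_inv γ g, hψ.left_inv γ g]
  level_inv := fun u hu g => by rw [hφ.level_inv u hu g, hψ.level_inv u hu g]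
  arch_scalar := fun w z hz g => by rw [hφ.arch_scalar w z hz g, hψ.arch_scalar w z hz g]
  arch_compact := fun w k hk g => by rw [hφ.arch_compact w k hk g, hψ.arch_compact w k hk g]
  cuspidal := by
    obtain ⟨C, hC⟩ := hφ.bdd
    obtain ⟨C', hC'⟩ := hψ.bdd
    exact isCuspidalFn_add886 hφ.cont hC hψ.cont hC' hφ.cuspidal hψ.cuspidal

theorem isCuspFn_sub886 {φ ψ : G K → ℂ} (hφ : IsCuspFn 𝔫 φ) (hψ : IsCuspFn 𝔫 ψ) :
    IsCuspFn 𝔫 (fun g => φ g - ψ g) := by
  have := isCuspFn_add886 hφ (isCuspFn_neg886 hψ)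
  simpa only [sub_eq_add_neg] using this

/-- The linear combinations of `T2.OpsGood`. -/
theorem isCuspFn_add_const_mul886 {φ ψ : G K → ℂ} (c : ℂ) (hφ : IsCuspFn 𝔫 φ)
    (hψ : IsCuspFn 𝔫 ψ) : IsCuspFn 𝔫 (fun g => φ g + c * ψ g) :=
  isCuspFn_add886 hφ (isCuspFn_const_mul886 c hψ)

theorem isCuspFn_sum886 {ι : Type*} (s : Finset ι) {φ : ι → G K → ℂ}
    (h : ∀ i ∈ s, IsCuspFn 𝔫 (φ i)) : IsCuspFn 𝔫 (fun g => ∑ i ∈ s, φ i g) := by
  induction s using Finset.induction_on with
  | empty => simpa using isCuspFn_zero886 𝔫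
  | insert a s ha ih =>
    have h1 := h a (Finset.mem_insert_self a s)
    have h2 := ih fun i hi => h i (Finset.mem_insert_of_mem hi)
    have := isCuspFn_add886 h1 h2
    simpa only [Finset.sum_insert ha] using this

/-- **Uniform limits** of cusp functions are cusp functions. -/
theorem isCuspFn_of_uniform_limit886 {φ : ℕ → G K → ℂ} {ψ : G K → ℂ}
    (h : ∀ k, IsCuspFn 𝔫 (φ k))
    (hlim : ∀ ε : ℝ, 0 < ε → ∃ N : ℕ, ∀ k ≥ N, ∀ g : G K, ‖φ k g - ψ g‖ ≤ ε) :
    IsCuspFn 𝔫 ψ := by
  -- pointwise limits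
  have hpt : ∀ g : G K, Filter.Tendsto (fun k => φ k g) Filter.atTop (nhds (ψ g)) := by
    intro g
    rw [Metric.tendsto_atTop]
    intro ε hε
    obtain ⟨N, hN⟩ := hlim (ε / 2) (half_pos hε)
    refine ⟨N, fun k hk => ?_⟩
    rw [dist_eq_norm]
    exact lt_of_le_of_lt (hN k hk g) (half_lt_self hε)
  have hinv : ∀ g g' : G K, (∀ k, φ k g = φ k g') → ψ g = ψ g' := by
    intro g g' hk
    refine tendsto_nhds_unique (hpt g) ?_
    have : (fun k => φ k g) = fun k => φ k g' := funext hk
    rw [this]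
    exact hpt g'
  have hu : TendstoUniformly (fun k => φ k) ψ Filter.atTop := by
    rw [Metric.tendstoUniformly_iff]
    intro ε hε
    obtain ⟨N, hN⟩ := hlim (ε / 2) (half_pos hε)
    filter_upwards [Filter.eventually_ge_atTop N] with k hk g
    rw [dist_comm, dist_eq_norm]
    exact lt_of_le_of_lt (hN k hk g) (half_lt_self hε)
  obtain ⟨N₁, hN₁⟩ := hlim 1 one_pos
  obtain ⟨C₁, hC₁⟩ := (h N₁).bdd
  refine
    { cont := hu.continuous (Filter.Eventually.of_forall fun k => (h k).cont).frequently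
      bdd := ⟨C₁ + 1, fun g => ?_⟩
      left_inv := fun γ g => hinv _ _ fun k => (h k).left_inv γ g
      level_inv := fun u hu' g => hinv _ _ fun k => (h k).level_inv u hu' g
      arch_scalar := fun w z hz g => hinv _ _ fun k => (h k).arch_scalar w z hz g
      arch_compact := fun w k' hk g => hinv _ _ fun k => (h k).arch_compact w k' hk g
      cuspidal := isCuspidalFn_of_uniform_limit886 (fun k => (h k).cont) (fun k => (h k).bdd)
        (fun k => (h k).cuspidal) hlim }
  have h1 := hN₁ N₁ le_rfl g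
  have h2 : ψ g = φ N₁ g - (φ N₁ g - ψ g) := by ring
  rw [h2]
  calc ‖φ N₁ g - (φ N₁ g - ψ g)‖ ≤ ‖φ N₁ g‖ + ‖φ N₁ g - ψ g‖ := norm_sub_le _ _
    _ ≤ C₁ + 1 := add_le_add (hC₁ g) h1

end CuspFn

/-! ## 5. The pairing of a frame on continuous bounded functions -/

section Pair

attribute [local instance] Fermat.Agent.LT.T2.borelG

theorem borelSpace_G886 : BorelSpace (G K) := ⟨rfl⟩

variable (F : Frame K)

/-- `φ · conj ψ` is integrable on the domain of a frame, for `φ`, `ψ` continuous and bounded. -/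
theorem integrableOn_mul_conj886 {φ ψ : G K → ℂ} (hφc : Continuous φ) {C : ℝ}
    (hφb : ∀ g, ‖φ g‖ ≤ C) (hψc : Continuous ψ) {C' : ℝ} (hψb : ∀ g, ‖ψ g‖ ≤ C') :
    IntegrableOn (fun g => φ g * (starRingEnd ℂ) (ψ g)) F.D F.μ := by
  have := borelSpace_G886 (K := K)
  have hcont : Continuous fun g => φ g * (starRingEnd ℂ) (ψ g) :=
    hφc.mul (Complex.continuous_conj.comp hψc)
  refine Measure.integrableOn_of_bounded (M := C * C') F.fin.ne hcont.aestronglyMeasurable ?_
  refine Filter.Eventually.of_forall fun g => ?_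
  rw [norm_mul, RCLike.norm_conj]
  exact mul_le_mul (hφb g) (hψb g) (norm_nonneg _) (le_trans (norm_nonneg _) (hφb g))

theorem pair_add_left886 {φ ψ χ : G K → ℂ} (hφc : Continuous φ) {C : ℝ}
    (hφb : ∀ g, ‖φ g‖ ≤ C) (hψc : Continuous ψ) {C' : ℝ} (hψb : ∀ g, ‖ψ g‖ ≤ C')
    (hχc : Continuous χ) {C'' : ℝ} (hχb : ∀ g, ‖χ g‖ ≤ C'') :
    pair F (fun g => φ g + ψ g) χ = pair F φ χ + pair F ψ χ := by
  unfold pair
  rw [← integral_add (integrableOn_mul_conj886 F hφc hφb hχc hχb)
    (integrableOn_mul_conj886 F hψc hψb hχc hχb)]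
  congr 1
  funext g
  ring

theorem pair_const_mul_left886 (c : ℂ) (φ χ : G K → ℂ) :
    pair F (fun g => c * φ g) χ = c * pair F φ χ := by
  unfold pair
  rw [← integral_const_mul]
  congr 1
  funext g
  ring

theorem pair_conj_symm886 (φ ψ : G K → ℂ) :
    (starRingEnd ℂ) (pair F φ ψ) = pair F ψ φ := by
  unfold pair
  rw [← integral_conj]
  congr 1
  funext g
  simp [mul_comm]

theorem pair_add_right886 {φ ψ χ : G K → ℂ} (hφc : Continuous φ) {C : ℝ}
    (hφb : ∀ g, ‖φ g‖ ≤ C) (hψc : Continuous ψ) {C' : ℝ} (hψb : ∀ g, ‖ψ g‖ ≤ C')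
    (hχc : Continuous χ) {C'' : ℝ} (hχb : ∀ g, ‖χ g‖ ≤ C'') :
    pair F χ (fun g => φ g + ψ g) = pair F χ φ + pair F χ ψ := by
  rw [← pair_conj_symm886 F (fun g => φ g + ψ g) χ,
    pair_add_left886 F hφc hφb hψc hψb hχc hχb, map_add, pair_conj_symm886, pair_conj_symm886]

theorem pair_const_mul_right886 (c : ℂ) (φ χ : G K → ℂ) :
    pair F χ (fun g => c * φ g) = (starRingEnd ℂ) c * pair F χ φ := by
  rw [← pair_conj_symm886 F (fun g => c * φ g) χ, pair_const_mul_left886, map_mul,
    pair_conj_symm886]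

theorem pair_neg_left886 (φ χ : G K → ℂ) : pair F (fun g => -φ g) χ = -pair F φ χ := by
  have := pair_const_mul_left886 F (-1) φ χ
  simpa only [neg_one_mul] using this

theorem pair_sub_left886 {φ ψ χ : G K → ℂ} (hφc : Continuous φ) {C : ℝ}
    (hφb : ∀ g, ‖φ g‖ ≤ C) (hψc : Continuous ψ) {C' : ℝ} (hψb : ∀ g, ‖ψ g‖ ≤ C')
    (hχc : Continuous χ) {C'' : ℝ} (hχb : ∀ g, ‖χ g‖ ≤ C'') :
    pair F (fun g => φ g - ψ g) χ = pair F φ χ - pair F ψ χ := by
  have hn : Continuous fun g => -ψ g := hψc.neg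
  have h := pair_add_left886 F (ψ := fun g => -ψ g) hφc hφb hn (C' := C')
    (fun g => by rw [norm_neg]; exact hψb g) hχc hχb
  rw [pair_neg_left886] at h
  simpa only [sub_eq_add_neg] using h

/-- `⟨φ, φ⟩ = ∫_D |φ|²`. -/
theorem pair_self886 (φ : G K → ℂ) :
    pair F φ φ = ((∫ g in F.D, ‖φ g‖ ^ 2 ∂F.μ : ℝ) : ℂ) := by
  unfold pair
  rw [← integral_complex_ofReal]
  congr 1
  funext g
  rw [Complex.mul_conj, Complex.normSq_eq_norm_sq]

theorem nsq_eq886 (φ : G K → ℂ) : nsq F φ = ∫ g in F.D, ‖φ g‖ ^ 2 ∂F.μ := by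
  unfold nsq
  rw [pair_self886, Complex.ofReal_re]

theorem pair_self_eq_nsq886 (φ : G K → ℂ) : pair F φ φ = ((nsq F φ : ℝ) : ℂ) := by
  rw [nsq_eq886, pair_self886]

theorem nsq_nonneg886 (φ : G K → ℂ) : 0 ≤ nsq F φ := by
  rw [nsq_eq886]
  exact integral_nonneg fun g => by positivity

/-- The `L²`-norm is bounded by the sup norm: `‖φ‖₂² ≤ ε² · μ(D)`. -/
theorem nsq_le_of_bound886 {φ : G K → ℂ} {ε : ℝ} (hb : ∀ g, ‖φ g‖ ≤ ε) :
    nsq F φ ≤ ε ^ 2 * F.μ.real F.D := by
  rw [nsq_eq886]
  have h := norm_setIntegral_le_of_norm_le_const (μ := F.μ) (s := F.D)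
    (f := fun g => ‖φ g‖ ^ 2) (C := ε ^ 2) F.fin (fun g _ => by
      rw [Real.norm_eq_abs, abs_of_nonneg (by positivity)]
      exact pow_le_pow_left₀ (norm_nonneg _) (hb g) 2)
  exact le_trans (le_abs_self _) (by simpa [Real.norm_eq_abs] using h)

end Pair

/-! ## 6. The pre-Hilbert space of cusp functions -/

section Space

attribute [local instance] Fermat.Agent.LT.T2.borelG

/-- The `ℂ`-vector space of cusp functions of level `U(𝔫)`. -/
def cuspSubmodule886 (𝔫 : Ideal (𝓞 K)) : Submodule ℂ (G K → ℂ) where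
  carrier := {φ | IsCuspFn 𝔫 φ}
  add_mem' := fun hφ hψ => isCuspFn_add886 hφ hψ
  zero_mem' := isCuspFn_zero886 𝔫
  smul_mem' := fun c _ hφ => isCuspFn_const_mul886 c hφ

theorem mem_cuspSubmodule886 {𝔫 : Ideal (𝓞 K)} {φ : G K → ℂ} :
    φ ∈ cuspSubmodule886 𝔫 ↔ IsCuspFn 𝔫 φ := Iff.rfl

variable (F : Frame K) (𝔫 : Ideal (𝓞 K))

/-- The semi-definite Hermitian form of a frame on the cusp functions
(`inner x y = pair F y x`: Mathlib's inner products are linear in the SECOND variable). -/
@[reducible] def preCore886 : PreInnerProductSpace.Core ℂ (cuspSubmodule886 (K := K) 𝔫) where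
  inner x y := pair F y.1 x.1
  conj_inner_symm x y := pair_conj_symm886 F x.1 y.1
  re_inner_nonneg x := nsq_nonneg886 F x.1
  add_left x y z := by
    obtain ⟨C, hC⟩ := x.2.bdd
    obtain ⟨C', hC'⟩ := y.2.bdd
    obtain ⟨C'', hC''⟩ := z.2.bdd
    exact pair_add_right886 F x.2.cont hC y.2.cont hC' z.2.cont hC''
  smul_left x y r := pair_const_mul_right886 F r x.1 y.1

/-- **Cauchy--Schwarz** for the pairing of a frame on cusp functions. -/
theorem norm_pair_sq_le886 {φ ψ : G K → ℂ} (hφ : IsCuspFn 𝔫 φ) (hψ : IsCuspFn 𝔫 ψ) :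
    ‖pair F φ ψ‖ ^ 2 ≤ nsq F φ * nsq F ψ := by
  have h := @InnerProductSpace.Core.inner_mul_inner_self_le ℂ (cuspSubmodule886 (K := K) 𝔫) _ _ _
    (preCore886 F 𝔫) ⟨ψ, hψ⟩ ⟨φ, hφ⟩
  have e1 : ‖pair F ψ φ‖ = ‖pair F φ ψ‖ := by
    rw [← pair_conj_symm886 F φ ψ, RCLike.norm_conj]
  have h' : ‖pair F φ ψ‖ * ‖pair F ψ φ‖ ≤ nsq F ψ * nsq F φ := h
  rw [e1] at h'
  rw [sq, mul_comm (nsq F φ)]
  exact h'

/-- The Hermitian form of a frame on the cusp functions is an inner product, by
`T2.PairDefinite`. -/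
@[reducible] def core886 (h : PairDefinite K 𝔫) : InnerProductSpace.Core ℂ (cuspSubmodule886 (K := K) 𝔫) :=
  { preCore886 F 𝔫 with
    definite := fun x hx => Subtype.ext (funext ((h F x.1 x.2).2 hx)) }

theorem core886_inner (h : PairDefinite K 𝔫) (x y : cuspSubmodule886 (K := K) 𝔫) :
    (core886 F 𝔫 h).inner x y = pair F y.1 x.1 := rfl

/-- `‖φ_k - ψ‖_∞ → 0` implies `‖φ_k - ψ‖₂ → 0` on the domain of a frame. -/
theorem tendsto_nsq_of_uniform_limit886 {φ : ℕ → G K → ℂ} {ψ : G K → ℂ}
    (hlim : ∀ ε : ℝ, 0 < ε → ∃ N : ℕ, ∀ k ≥ N, ∀ g : G K, ‖φ k g - ψ g‖ ≤ ε) :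
    Filter.Tendsto (fun k => nsq F (fun g => φ k g - ψ g)) Filter.atTop (nhds 0) := by
  rw [Metric.tendsto_atTop]
  intro ε hε
  have hμ : 0 ≤ F.μ.real F.D := measureReal_nonneg
  -- choose `δ` with `δ² (μ D + 1) ≤ ε / 2`
  set δ : ℝ := Real.sqrt (ε / (2 * (F.μ.real F.D + 1))) with hδ
  have hpos : 0 < ε / (2 * (F.μ.real F.D + 1)) := div_pos hε (by linarith)
  have hδpos : 0 < δ := Real.sqrt_pos.mpr hpos
  have hδsq : δ ^ 2 = ε / (2 * (F.μ.real F.D + 1)) := Real.sq_sqrt hpos.le
  obtain ⟨N, hN⟩ := hlim δ hδpos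
  refine ⟨N, fun k hk => ?_⟩
  have h1 := nsq_le_of_bound886 F (φ := fun g => φ k g - ψ g) (hN k hk)
  have h0 := nsq_nonneg886 F (fun g => φ k g - ψ g)
  rw [Real.dist_eq, sub_zero, abs_of_nonneg h0]
  refine lt_of_le_of_lt h1 ?_
  rw [hδsq, div_mul_eq_mul_div, div_lt_iff₀ (by linarith)]
  nlinarith

/-- **Completeness for the sup norm**: a uniformly Cauchy sequence of cusp functions converges
uniformly, and in `L²` of every frame, to a cusp function. -/
theorem exists_limit_of_uniformCauchy886 {φ : ℕ → G K → ℂ} (h : ∀ k, IsCuspFn 𝔫 (φ k))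
    (hC : ∀ ε : ℝ, 0 < ε → ∃ N : ℕ, ∀ k ≥ N, ∀ l ≥ N, ∀ g : G K, ‖φ k g - φ l g‖ ≤ ε) :
    ∃ ψ : G K → ℂ, IsCuspFn 𝔫 ψ ∧
      (∀ ε : ℝ, 0 < ε → ∃ N : ℕ, ∀ k ≥ N, ∀ g : G K, ‖φ k g - ψ g‖ ≤ ε) ∧
      ∀ F : Frame K,
        Filter.Tendsto (fun k => nsq F (fun g => φ k g - ψ g)) Filter.atTop (nhds 0) := by
  -- pointwise limits
  have hcs : ∀ g : G K, CauchySeq fun k => φ k g := by
    intro g
    rw [Metric.cauchySeq_iff]
    intro ε hε
    obtain ⟨N, hN⟩ := hC (ε / 2) (half_pos hε)
    refine ⟨N, fun k hk l hl => ?_⟩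
    rw [dist_eq_norm]
    exact lt_of_le_of_lt (hN k hk l hl g) (half_lt_self hε)
  choose ψ hψ using fun g => cauchySeq_tendsto_of_complete (hcs g)
  have hlim : ∀ ε : ℝ, 0 < ε → ∃ N : ℕ, ∀ k ≥ N, ∀ g : G K, ‖φ k g - ψ g‖ ≤ ε := by
    intro ε hε
    obtain ⟨N, hN⟩ := hC ε hε
    refine ⟨N, fun k hk g => ?_⟩
    have ht : Filter.Tendsto (fun l => ‖φ k g - φ l g‖) Filter.atTop (nhds ‖φ k g - ψ g‖) :=
      (tendsto_const_nhds.sub (hψ g)).norm
    refine le_of_tendsto ht ?_
    filter_upwards [Filter.eventually_ge_atTop N] with l hl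
    exact hN k hk l hl g
  exact ⟨ψ, isCuspFn_of_uniform_limit886 h hlim, hlim,
    fun F => tendsto_nsq_of_uniform_limit886 F hlim⟩

end Space

end Fermat.Agent.LT.T2.H886

end
end
-- ===== PACK-END LT/T2/H886/CuspAlg.lean

-- ===== PACK-BEGIN LT/T2/H799/LeafT05.lean
section






/-!
# Row LT, tower T2, leaf T2.25 (`LeafT05`: `GPST ⇒ ConvRegularT`, class of T5) -- helper799, OFF-MAIN

Spec: `Fermat/Agent/LT/T2/SpecTau.lean` (helper130@e2e090185, sha256 4d2b0fc2), ADDITIVE to
`LT/T2/Spec.lean` v3 (sha256 b934629a); vocabulary `LT/H556/A0.lean` (66d3374a),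
`LT/T1/Spec.lean` (e8ae48d6), byte-identical copies.  Imports: Mathlib + these four files only.
Nothing is assumed, no placeholder proof.

This is the proof of T2.05 (helper131, `LT/T2/H131/Leaf05.lean`) with the class `(𝔫, τ, r)` in
place of the class of A0; the general lemmas are restated here under fresh names so that the file
depends on the Spec files only.

Proof.  Let `φ k` be an `L²`-Cauchy sequence of cusp functions of the class and
`ψs k = R(f) (φ k)`.
* `IsCuspT` is stable under differences (`isCuspT_sub_h799`): `τ`-equivariance and the invariance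
  under `r` are linear conditions; the constant-term integrand is bounded and continuous, and every
  fundamental domain of `K` in `𝔸_K` has finite measure.
* `R(f)` is additive on continuous functions (`convT_sub_h799`).
* By `GPST`, `sup |ψs k - ψs l| ≤ C ‖φ k - φ l‖₂`: the sequence `ψs` is uniformly Cauchy, hence
  converges uniformly to some `ψ`.
* A uniform limit of cusp functions of the class is a cusp function of the class
  (`isCuspT_of_tendstoUniformly_h799`).
* `‖ψs k - ψ‖₂² ≤ sup |ψs k - ψ|² · μ(D) → 0` (`abs_nsqT_le_h799`, `Frame.fin`).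
Only `T1Out.addFundDom`, `ConvCuspT` (third component) and `GPST` are used; `𝔫 ≠ ⊥`, `IsKType τ`
and `PairDefiniteT` are not.
-/

set_option autoImplicit false
set_option linter.style.haveILetI false

open IsDedekindDomain NumberField MeasureTheory AutomorphicForm
open Fermat.Agent.LT.H556.A0

noncomputable section

namespace Fermat.Agent.LT.T2.H799

attribute [local instance] Fermat.Agent.LT.T2.borelG

variable {K : Type} [Field K] [NumberField K]

/-- The Borel structure of the adeles (the one of `A0.IsCuspidalFn`, `T1.AddFundDomC`). -/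
local instance borelAdl_h799 : MeasurableSpace (Adl K) := borel (Adl K)

local instance borelSpaceAdl_h799 : BorelSpace (Adl K) := ⟨rfl⟩

local instance borelSpaceG_h799 : BorelSpace (G K) := ⟨rfl⟩

/-- A number field is countable. -/
theorem countable_numberField_h799 (K : Type) [Field K] [NumberField K] : Countable K := by
  have e := (Module.finBasis ℚ K).equivFun
  exact Countable.of_equiv _ e.toEquiv.symm

/-- The unipotent section `x ↦ n(x)` is continuous. -/
theorem continuous_unip_h799 (n : Adl K → G K)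
    (hn : ∀ x : Adl K, (n x : Matrix (Fin 2) (Fin 2) (Adl K)) = !![1, x; 0, 1]) :
    Continuous n := by
  rw [Units.continuous_iff]
  constructor
  · have : (Units.val ∘ n) = fun x : Adl K => (!![1, x; 0, 1] : Matrix (Fin 2) (Fin 2) (Adl K)) := by
      funext x
      exact hn x
    rw [this]
    refine continuous_matrix fun i j => ?_
    fin_cases i <;> fin_cases j <;> simp <;> fun_prop
  · have : (fun x : Adl K => (((n x)⁻¹ : G K) : Matrix (Fin 2) (Fin 2) (Adl K)))
        = fun x : Adl K => (!![1, -x; 0, 1] : Matrix (Fin 2) (Fin 2) (Adl K)) := by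
      funext x
      apply Units.inv_eq_of_mul_eq_one_right
      rw [hn x]
      ext i j
      fin_cases i <;> fin_cases j <;> simp [Matrix.mul_apply, Fin.sum_univ_two]
    rw [this]
    refine continuous_matrix fun i j => ?_
    fin_cases i <;> fin_cases j <;> simp <;> fun_prop

/-- Every fundamental domain of `K` in `𝔸_K` has finite measure. -/
theorem addFundDom_measure_lt_top_h799 (hFD : T1.AddFundDomC K)
    (μ : Measure (Adl K)) (hμ : μ.IsAddHaarMeasure) (D : Set (Adl K))
    (hD : IsAddFundamentalDomain ((algebraMap K (Adl K)).toAddMonoidHom.range) D μ) :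
    μ D < ⊤ := by
  obtain ⟨D₀, -, hD₀, -, -, hfin⟩ := hFD μ hμ
  haveI : Countable K := countable_numberField_h799 K
  haveI : Countable ((algebraMap K (Adl K)).toAddMonoidHom.range) := by
    have : Countable (Set.range (algebraMap K (Adl K)).toAddMonoidHom) :=
      (Set.countable_range _).to_subtype
    exact this
  have hD₀' : IsAddFundamentalDomain ((algebraMap K (Adl K)).toAddMonoidHom.range) D₀ μ := hD₀
  rw [hD.measure_eq hD₀']
  exact hfin

/-- The constant-term integrand of a bounded continuous function is integrable on every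
fundamental domain. -/
theorem integrableOn_constTerm_h799 (hFD : T1.AddFundDomC K) {φ : G K → ℂ}
    (hc : Continuous φ) (hb : ∃ C : ℝ, ∀ g : G K, ‖φ g‖ ≤ C)
    (μ : Measure (Adl K)) (hμ : μ.IsAddHaarMeasure) (D : Set (Adl K))
    (hD : IsAddFundamentalDomain ((algebraMap K (Adl K)).toAddMonoidHom.range) D μ)
    (n : Adl K → G K)
    (hn : ∀ x : Adl K, (n x : Matrix (Fin 2) (Fin 2) (Adl K)) = !![1, x; 0, 1]) (g : G K) :
    IntegrableOn (fun x => φ (n x * g)) D μ := by
  obtain ⟨C, hC⟩ := hb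
  have hfin : μ D < ⊤ := addFundDom_measure_lt_top_h799 hFD μ hμ D hD
  have hcont : Continuous fun x => φ (n x * g) :=
    hc.comp ((continuous_unip_h799 n hn).mul continuous_const)
  haveI : IsFiniteMeasure (μ.restrict D) := ⟨by rwa [Measure.restrict_apply_univ]⟩
  exact Integrable.of_bound hcont.aestronglyMeasurable C (Filter.Eventually.of_forall fun x => hC _)

/-- The cuspidality condition in unfolded form (with the Borel structure as an instance). -/
theorem isCuspidalFn_iff_h799 (φ : G K → ℂ) :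
    IsCuspidalFn φ ↔ ∀ μ : Measure (Adl K), μ.IsAddHaarMeasure →
      ∀ D : Set (Adl K),
        IsAddFundamentalDomain ((algebraMap K (Adl K)).toAddMonoidHom.range) D μ →
        ∀ n : Adl K → G K,
          (∀ x : Adl K, (n x : Matrix (Fin 2) (Fin 2) (Adl K)) = !![1, x; 0, 1]) →
          ∀ g : G K, ∫ x in D, φ (n x * g) ∂μ = 0 :=
  Iff.rfl

/-- The difference of two automorphic functions of the class is in the class. -/
theorem isAutT_sub_h799 {𝔫 : Ideal (𝓞 K)} {τ : G K → ℂ} {r : G K} {φ ψ : G K → ℂ}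
    (hφ : IsAutT 𝔫 τ r φ) (hψ : IsAutT 𝔫 τ r ψ) : IsAutT 𝔫 τ r (fun g => φ g - ψ g) := by
  refine ⟨hφ.cont.sub hψ.cont, ?_, ?_, ?_, ?_, ?_⟩
  · obtain ⟨C₁, h₁⟩ := hφ.bdd
    obtain ⟨C₂, h₂⟩ := hψ.bdd
    exact ⟨C₁ + C₂, fun g => (norm_sub_le _ _).trans (add_le_add (h₁ g) (h₂ g))⟩
  · intro γ g
    simp only [hφ.left_inv γ g, hψ.left_inv γ g]
  · intro u hu g
    simp only [hφ.level_inv u hu g, hψ.level_inv u hu g]
  · intro w k hk g
    simp only [hφ.arch_compact w k hk g, hψ.arch_compact w k hk g, mul_sub]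
  · intro g
    simp only [hφ.ray g, hψ.ray g]

/-- The difference of two cusp functions of the class is a cusp function of the class. -/
theorem isCuspT_sub_h799 (hFD : T1.AddFundDomC K) {𝔫 : Ideal (𝓞 K)} {τ : G K → ℂ} {r : G K}
    {φ ψ : G K → ℂ} (hφ : IsCuspT 𝔫 τ r φ) (hψ : IsCuspT 𝔫 τ r ψ) :
    IsCuspT 𝔫 τ r (fun g => φ g - ψ g) := by
  refine ⟨isAutT_sub_h799 hφ.aut hψ.aut, ?_⟩
  rw [isCuspidalFn_iff_h799]
  intro μ hμ D hD n hn g
  have h₁ := integrableOn_constTerm_h799 hFD hφ.aut.cont hφ.aut.bdd μ hμ D hD n hn g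
  have h₂ := integrableOn_constTerm_h799 hFD hψ.aut.cont hψ.aut.bdd μ hμ D hD n hn g
  rw [integral_sub h₁ h₂, (isCuspidalFn_iff_h799 φ).1 hφ.cuspidal μ hμ D hD n hn g,
    (isCuspidalFn_iff_h799 ψ).1 hψ.cuspidal μ hμ D hD n hn g, sub_zero]

/-- The integrand of the convolution is integrable (continuous with compact support). -/
theorem integrable_convT_h799 {𝔫 : Ideal (𝓞 K)} {τ : G K → ℂ} (F : Frame K)
    {f φ : G K → ℂ} (hf : IsTestT 𝔫 τ f) (hc : Continuous φ) (x : G K) :
    Integrable (fun h => φ (x * h) * f h) F.μ := by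
  haveI := F.haar
  have hcont : Continuous fun h => φ (x * h) * f h :=
    (hc.comp (continuous_const.mul continuous_id)).mul hf.cont
  have hcs : HasCompactSupport fun h => φ (x * h) * f h :=
    HasCompactSupport.mul_left (f := fun h => φ (x * h)) hf.cpt
  exact hcont.integrable_of_hasCompactSupport hcs

/-- The convolution is additive on continuous functions (difference form). -/
theorem convT_sub_h799 {𝔫 : Ideal (𝓞 K)} {τ : G K → ℂ} (F : Frame K)
    {f φ ψ : G K → ℂ} (hf : IsTestT 𝔫 τ f) (hφ : Continuous φ) (hψ : Continuous ψ) (x : G K) :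
    conv F f (fun g => φ g - ψ g) x = conv F f φ x - conv F f ψ x := by
  unfold conv
  rw [← integral_sub (integrable_convT_h799 F hf hφ x) (integrable_convT_h799 F hf hψ x)]
  congr 1
  funext y
  ring

/-- `nsq` of a uniformly small function is small. -/
theorem abs_nsqT_le_h799 (F : Frame K) {h : G K → ℂ} {ε : ℝ}
    (hh : ∀ g : G K, ‖h g‖ ≤ ε) : |nsq F h| ≤ ε * ε * F.μ.real F.D := by
  unfold nsq pair
  refine (Complex.abs_re_le_norm _).trans ?_
  refine norm_setIntegral_le_of_norm_le_const F.fin ?_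
  intro g _
  have h0 : 0 ≤ ε := (norm_nonneg _).trans (hh g)
  rw [norm_mul, RCLike.norm_conj]
  exact mul_le_mul (hh g) (hh g) (norm_nonneg _) h0

/-- **Uniform limits of automorphic functions of the class are in the class.** -/
theorem isAutT_of_tendstoUniformly_h799 {𝔫 : Ideal (𝓞 K)} {τ : G K → ℂ} {r : G K}
    {ψs : ℕ → G K → ℂ} {ψ : G K → ℂ} (hψs : ∀ k, IsAutT 𝔫 τ r (ψs k))
    (hu : TendstoUniformly ψs ψ Filter.atTop) : IsAutT 𝔫 τ r ψ := by
  have hlim : ∀ x : G K, Filter.Tendsto (fun k => ψs k x) Filter.atTop (nhds (ψ x)) :=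
    fun x => hu.tendsto_at x
  have hunif : ∀ ε > 0, ∃ N : ℕ, ∀ k ≥ N, ∀ x : G K, ‖ψ x - ψs k x‖ < ε := by
    intro ε hε
    have := (Metric.tendstoUniformly_iff.1 hu) ε hε
    obtain ⟨N, hN⟩ := Filter.eventually_atTop.1 this
    exact ⟨N, fun k hk x => by simpa [dist_eq_norm] using hN k hk x⟩
  have hcont : Continuous ψ :=
    hu.continuous (Filter.Frequently.of_forall fun k => (hψs k).cont)
  have hbdd : ∃ C : ℝ, ∀ g : G K, ‖ψ g‖ ≤ C := by
    obtain ⟨N, hN⟩ := hunif 1 one_pos
    obtain ⟨C, hC⟩ := (hψs N).bdd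
    refine ⟨1 + C, fun g => ?_⟩
    have h1 := (hN N le_rfl g).le
    have h2 := hC g
    calc ‖ψ g‖ = ‖(ψ g - ψs N g) + ψs N g‖ := by rw [sub_add_cancel]
      _ ≤ ‖ψ g - ψs N g‖ + ‖ψs N g‖ := norm_add_le _ _
      _ ≤ 1 + C := add_le_add h1 h2
  refine ⟨hcont, hbdd, ?_, ?_, ?_, ?_⟩
  · intro γ g
    refine tendsto_nhds_unique (hlim _) ((hlim g).congr fun k => ?_)
    exact ((hψs k).left_inv γ g).symm
  · intro u hu' g
    refine tendsto_nhds_unique (hlim _) ((hlim g).congr fun k => ?_)
    exact ((hψs k).level_inv u hu' g).symm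
  · intro w k' hk g
    refine tendsto_nhds_unique (hlim _) (((hlim g).const_mul (τ k')).congr fun k => ?_)
    exact ((hψs k).arch_compact w k' hk g).symm
  · intro g
    refine tendsto_nhds_unique (hlim _) ((hlim g).congr fun k => ?_)
    exact ((hψs k).ray g).symm

/-- **Uniform limits of cusp functions of the class are cusp functions of the class.** -/
theorem isCuspT_of_tendstoUniformly_h799 (hFD : T1.AddFundDomC K) {𝔫 : Ideal (𝓞 K)}
    {τ : G K → ℂ} {r : G K} {ψs : ℕ → G K → ℂ} {ψ : G K → ℂ}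
    (hψs : ∀ k, IsCuspT 𝔫 τ r (ψs k))
    (hu : TendstoUniformly ψs ψ Filter.atTop) : IsCuspT 𝔫 τ r ψ := by
  have haut : IsAutT 𝔫 τ r ψ := isAutT_of_tendstoUniformly_h799 (fun k => (hψs k).aut) hu
  have hunif : ∀ ε > 0, ∃ N : ℕ, ∀ k ≥ N, ∀ x : G K, ‖ψ x - ψs k x‖ < ε := by
    intro ε hε
    have := (Metric.tendstoUniformly_iff.1 hu) ε hε
    obtain ⟨N, hN⟩ := Filter.eventually_atTop.1 this
    exact ⟨N, fun k hk x => by simpa [dist_eq_norm] using hN k hk x⟩
  refine ⟨haut, ?_⟩
  rw [isCuspidalFn_iff_h799]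
  intro μ hμ D hD n hn g
  have hfin : μ D < ⊤ := addFundDom_measure_lt_top_h799 hFD μ hμ D hD
  have hI : IntegrableOn (fun x => ψ (n x * g)) D μ :=
    integrableOn_constTerm_h799 hFD haut.cont haut.bdd μ hμ D hD n hn g
  have hle : ∀ ε > 0, ‖∫ x in D, ψ (n x * g) ∂μ‖ ≤ ε * μ.real D := by
    intro ε hε
    obtain ⟨N, hN⟩ := hunif ε hε
    have hIN : IntegrableOn (fun x => ψs N (n x * g)) D μ :=
      integrableOn_constTerm_h799 hFD (hψs N).aut.cont (hψs N).aut.bdd μ hμ D hD n hn g
    have h0 : ∫ x in D, ψs N (n x * g) ∂μ = 0 :=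
      (isCuspidalFn_iff_h799 _).1 (hψs N).cuspidal μ hμ D hD n hn g
    have hEq : ∫ x in D, ψ (n x * g) ∂μ
        = ∫ x in D, (ψ (n x * g) - ψs N (n x * g)) ∂μ := by
      rw [integral_sub hI hIN, h0, sub_zero]
    rw [hEq]
    exact norm_setIntegral_le_of_norm_le_const hfin fun x _ => (hN N le_rfl _).le
  by_contra hne
  have hpos : 0 < ‖∫ x in D, ψ (n x * g) ∂μ‖ := norm_pos_iff.2 hne
  set I := ‖∫ x in D, ψ (n x * g) ∂μ‖ with hIdef
  have hreal : 0 ≤ μ.real D := measureReal_nonneg
  have := hle (I / (2 * (μ.real D + 1))) (by positivity)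
  have h2 : I / (2 * (μ.real D + 1)) * μ.real D ≤ I / 2 := by
    rw [div_mul_eq_mul_div, div_le_div_iff₀ (by positivity) (by norm_num)]
    nlinarith
  linarith

/-- **Core of T2.25**: for ONE class `(𝔫, τ, r)` and ONE frame, from the third component of
`ConvCuspT` and the estimate of `GPST` for the test function `f`. -/
theorem convRegularT_core_h799 (hFD : T1.AddFundDomC K) {𝔫 : Ideal (𝓞 K)} {τ : G K → ℂ}
    (R : FrameR K) {f : G K → ℂ} (hf : IsTestT 𝔫 τ f)
    (hconv : ∀ φ : G K → ℂ, IsCuspT 𝔫 τ R.r φ → IsCuspT 𝔫 τ R.r (conv R.F f φ))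
    {C : ℝ} (hC' : ∀ φ : G K → ℂ, IsCuspT 𝔫 τ R.r φ →
      ∀ x : G K, ‖conv R.F f φ x‖ ≤ C * Real.sqrt (nsq R.F φ))
    (φ : ℕ → G K → ℂ) (hφ : ∀ k, IsCuspT 𝔫 τ R.r (φ k))
    (hcauchy : ∀ ε : ℝ, 0 < ε → ∃ N : ℕ, ∀ k ≥ N, ∀ l ≥ N,
      nsq R.F (fun g => φ k g - φ l g) < ε) :
    ∃ ψ : G K → ℂ, IsCuspT 𝔫 τ R.r ψ ∧
      Filter.Tendsto (fun k => nsq R.F (fun g => conv R.F f (φ k) g - ψ g)) Filter.atTop
        (nhds 0) := by
  set F : Frame K := R.F with hFdef
  have hψs : ∀ k, IsCuspT 𝔫 τ R.r (conv F f (φ k)) := fun k => hconv (φ k) (hφ k)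
  -- uniform Cauchy
  have key : ∀ ε > 0, ∃ N : ℕ, ∀ k ≥ N, ∀ l ≥ N, ∀ x : G K,
      ‖conv F f (φ k) x - conv F f (φ l) x‖ ≤ ε := by
    intro ε hε
    set M : ℝ := max C 0 + 1 with hM
    have hMpos : 0 < M := by positivity
    obtain ⟨N, hN⟩ := hcauchy ((ε / M) ^ 2) (by positivity)
    refine ⟨N, fun k hk l hl x => ?_⟩
    have hsub : IsCuspT 𝔫 τ R.r (fun g => φ k g - φ l g) := isCuspT_sub_h799 hFD (hφ k) (hφ l)
    have h1 := hC' _ hsub x
    rw [convT_sub_h799 F hf (hφ k).aut.cont (hφ l).aut.cont x] at h1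
    have h2 : Real.sqrt (nsq F fun g => φ k g - φ l g) ≤ ε / M := by
      rw [Real.sqrt_le_left (by positivity)]
      exact (hN k hk l hl).le
    have h3 : 0 ≤ Real.sqrt (nsq F fun g => φ k g - φ l g) := Real.sqrt_nonneg _
    calc ‖conv F f (φ k) x - conv F f (φ l) x‖
        ≤ C * Real.sqrt (nsq F fun g => φ k g - φ l g) := h1
      _ ≤ M * Real.sqrt (nsq F fun g => φ k g - φ l g) :=
          mul_le_mul_of_nonneg_right (by rw [hM]; linarith [le_max_left C 0]) h3
      _ ≤ M * (ε / M) := mul_le_mul_of_nonneg_left h2 hMpos.le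
      _ = ε := by field_simp
  -- pointwise limits
  have hcs : ∀ x : G K, CauchySeq fun k => conv F f (φ k) x := by
    intro x
    rw [Metric.cauchySeq_iff']
    intro ε hε
    obtain ⟨N, hN⟩ := key (ε / 2) (by positivity)
    refine ⟨N, fun k hk => ?_⟩
    rw [dist_eq_norm]
    exact (hN k hk N le_rfl x).trans_lt (by linarith)
  choose ψ hψ using fun x => cauchySeq_tendsto_of_complete (hcs x)
  have hunif : ∀ ε > 0, ∃ N : ℕ, ∀ k ≥ N, ∀ x : G K, ‖conv F f (φ k) x - ψ x‖ ≤ ε := by
    intro ε hε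
    obtain ⟨N, hN⟩ := key ε hε
    refine ⟨N, fun k hk x => ?_⟩
    have ht : Filter.Tendsto (fun l => ‖conv F f (φ k) x - conv F f (φ l) x‖) Filter.atTop
        (nhds ‖conv F f (φ k) x - ψ x‖) :=
      (tendsto_const_nhds.sub (hψ x)).norm
    refine le_of_tendsto ht ?_
    filter_upwards [Filter.eventually_ge_atTop N] with l hl
    exact hN k hk l hl x
  have hTU : TendstoUniformly (fun k => conv F f (φ k)) ψ Filter.atTop := by
    rw [Metric.tendstoUniformly_iff]
    intro ε hε
    obtain ⟨N, hN⟩ := hunif (ε / 2) (by positivity)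
    filter_upwards [Filter.eventually_ge_atTop N] with k hk x
    rw [dist_comm, dist_eq_norm]
    exact (hN k hk x).trans_lt (by linarith)
  refine ⟨ψ, isCuspT_of_tendstoUniformly_h799 hFD hψs hTU, ?_⟩
  rw [Metric.tendsto_atTop]
  intro η hη
  have hreal : 0 ≤ F.μ.real F.D := measureReal_nonneg
  set ε : ℝ := min 1 (η / (2 * (F.μ.real F.D + 1))) with hε
  have hεpos : 0 < ε := lt_min one_pos (by positivity)
  obtain ⟨N, hN⟩ := hunif ε hεpos
  refine ⟨N, fun k hk => ?_⟩
  rw [Real.dist_eq, sub_zero]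
  refine (abs_nsqT_le_h799 F (hN k hk)).trans_lt ?_
  have h1 : ε ≤ 1 := min_le_left _ _
  have h2 : ε ≤ η / (2 * (F.μ.real F.D + 1)) := min_le_right _ _
  have h3 : ε * ε * F.μ.real F.D ≤ ε * F.μ.real F.D := by
    have : ε * ε ≤ ε := by nlinarith
    exact mul_le_mul_of_nonneg_right this hreal
  have h4 : ε * F.μ.real F.D ≤ η / (2 * (F.μ.real F.D + 1)) * F.μ.real F.D :=
    mul_le_mul_of_nonneg_right h2 hreal
  have h5 : η / (2 * (F.μ.real F.D + 1)) * F.μ.real F.D ≤ η / 2 := by
    rw [div_mul_eq_mul_div, div_le_div_iff₀ (by positivity) (by norm_num)]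
    nlinarith
  linarith

/-- **Leaf T2.25**: `GPST ⇒ ConvRegularT` (the `T`-form of T2.05), VERBATIM `T2.LeafT05 K`. -/
theorem leafT05_h799 (K : Type) [Field K] [NumberField K] : LeafT05 K := by
  intro hT1 𝔫 τ _ _ _ hC hG R f hf φ hφ hcauchy
  obtain ⟨C, hC'⟩ := hG R f hf
  exact convRegularT_core_h799 hT1.addFundDom R hf
    (fun ψ hψ => (hC R).2.2.1 f ψ hf hψ) hC' φ hφ hcauchy

end Fermat.Agent.LT.T2.H799

end
end
-- ===== PACK-END LT/T2/H799/LeafT05.lean

-- ===== PACK-BEGIN LT/T2/H8/LocCpx.lean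
section



/-!
# T2.02d.5b `LocCpxC724` (helper8)

Leaf of `Fermat/Agent/LT/T2/H724/CommSpec.lean` (helper724@7fd05bef9, sha256 78972da3):
for `M ∈ GL₂(ℂ)` there are `A, B ∈ U(2)` with `adjugate M = A * M * B`.
The proof is in `LocCpxCore.lean` (Mathlib only).
-/

namespace Fermat.Agent.LT.T2.H8

/-- **T2.02d.5b.**  `LocCpxC724` holds. -/
theorem locCpxC724_h8 : Fermat.Agent.LT.T2.H724.LocCpxC724 :=
  fun M hM => exists_unitary_adjugate8 M hM

end Fermat.Agent.LT.T2.H8

end
-- ===== PACK-END LT/T2/H8/LocCpx.lean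

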