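import Mathlib
import Fermat.Agent.Pack.LT2.E0L1
import Fermat.Agent.Pack.LT3.E5L1
import Fermat.Agent.Pack.LT3.E0L3
import Fermat.Agent.Pack.LT3.E6L1
import Fermat.Agent.Pack.LT3.E6L0
import Fermat.Agent.Pack.LT3.E6L3
import Fermat.Agent.Pack.LT3.E4L2
import Fermat.Agent.Pack.LT3.E8L3

set_option linter.all false

-- ===== PACK-BEGIN LT/T6/H502/LocStep.lean
section





/-!
# Row LT, tower T6, sub-leaf T6.07 (helper502): the local step

OFF-MAIN.  Mathlib only + `T6/Spec.lean`.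

`K'/K` cyclic with generator `s`, `L = K(θ)`, `M = K' L`, `τ ∈ Gal(M/L)` the extension of `s`.
`F` a `K`-algebra and `E` an `L`-algebra (fields; `F = K_v`, `E = L_u` in the application) with a
compatible ring homomorphism `ι : F → E`.  If `γ` is conjugate in `GL₂(K' ⊗_K F)` to a twisted
norm, then `θ` is a norm from `E ⊗_L M` (`locstep502`).
-/

set_option autoImplicit false
set_option linter.style.haveILetI false
set_option linter.unnecessarySimpa false

open scoped TensorProduct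
open Polynomial

noncomputable section

namespace Fermat.Agent.LT.T6.H502

open Fermat.Agent.LT.T6

section LocStep

variable {K K' L M : Type} [Field K] [Field K'] [Field L] [Field M]
  [Algebra K K'] [Algebra K L] [Algebra K' M] [Algebra L M] [Algebra K M]
  [IsScalarTower K K' M] [IsScalarTower K L M]

/-- `s ⊗ 1` on `K' ⊗_K F`. -/
abbrev sTens502 (s : K' ≃ₐ[K] K') (F : Type) [Field F] [Algebra K F] :
    K' ⊗[K] F ≃+* K' ⊗[K] F :=
  (Algebra.TensorProduct.congr s (AlgEquiv.refl : F ≃ₐ[K] F) :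
    K' ⊗[K] F ≃ₐ[K] K' ⊗[K] F).toRingEquiv

omit [Field L] [Field M] [Algebra K L] [Algebra K' M] [Algebra L M] [Algebra K M]
  [IsScalarTower K K' M] [IsScalarTower K L M] in
theorem sTens_pow_tmul502 (s : K' ≃ₐ[K] K') (F : Type) [Field F] [Algebra K F] (n : ℕ)
    (k : K') (x : F) : (sTens502 s F ^ n) (k ⊗ₜ[K] x) = ((s ^ n) k) ⊗ₜ[K] x := by
  induction n generalizing k with
  | zero => simp
  | succ n ih =>
    rw [pow_succ, RingAut.mul_apply]
    have h1 : sTens502 s F (k ⊗ₜ[K] x) = (s k) ⊗ₜ[K] x := by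
      simp [sTens502]
    rw [h1, ih, pow_succ, AlgEquiv.mul_apply]

omit [Field L] [Field M] [Algebra K L] [Algebra K' M] [Algebra L M] [Algebra K M]
  [IsScalarTower K K' M] [IsScalarTower K L M] in
theorem sTens_pow502 (s : K' ≃ₐ[K] K') (F : Type) [Field F] [Algebra K F] (l : ℕ)
    (hs : s ^ l = 1) : sTens502 s F ^ l = 1 := by
  ext r
  induction r using TensorProduct.induction_on with
  | zero => simp
  | tmul k x => rw [sTens_pow_tmul502, hs]; rfl
  | add a b ha hb => rw [map_add, ha, hb]; rfl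

variable [FiniteDimensional L M] [IsGalois L M] [Infinite L]

/-- **The local step.** -/
theorem locstep502 (s : K' ≃ₐ[K] K') (l : ℕ) (hs : s ^ l = 1) (τ : M ≃ₐ[L] M)
    (hτ : ∀ x : K', τ (algebraMap K' M x) = algebraMap K' M (s x))
    (hbij : Function.Bijective (fun i : Fin l => τ ^ (i : ℕ)))
    (γ : GL (Fin 2) K) (hreg : IsReg γ) (θ : L)
    (hθ : θ ^ 2 - algebraMap K L (γ : Matrix (Fin 2) (Fin 2) K).trace * θ
      + algebraMap K L (γ : Matrix (Fin 2) (Fin 2) K).det = 0)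
    {F E : Type} [Field F] [Algebra K F] [Field E] [Algebra L E] (ι : F →+* E)
    (hι : ∀ x : K, ι (algebraMap K F x) = algebraMap L E (algebraMap K L x))
    (δ : GL (Fin 2) (K' ⊗[K] F))
    (hδ : IsConj (twNorm (sTens502 s F) l δ)
      (Matrix.GeneralLinearGroup.map
        ((Algebra.TensorProduct.includeRight : F →ₐ[K] K' ⊗[K] F) : F →+* K' ⊗[K] F)
        (Matrix.GeneralLinearGroup.map (algebraMap K F) γ))) :
    ∃ y : E ⊗[L] M, Algebra.norm E y = algebraMap L E θ := by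
  classical
  -- notation
  set incR : F →+* K' ⊗[K] F :=
    ((Algebra.TensorProduct.includeRight : F →ₐ[K] K' ⊗[K] F) : F →+* K' ⊗[K] F) with hincR
  set γR : GL (Fin 2) (K' ⊗[K] F) :=
    Matrix.GeneralLinearGroup.map incR (Matrix.GeneralLinearGroup.map (algebraMap K F) γ)
    with hγR
  set incM : M →+* E ⊗[L] M :=
    ((Algebra.TensorProduct.includeRight : M →ₐ[L] E ⊗[L] M) : M →+* E ⊗[L] M) with hincM
  set incE : E →+* E ⊗[L] M :=
    ((Algebra.TensorProduct.includeLeft : E →ₐ[E] E ⊗[L] M) : E →+* E ⊗[L] M) with hincE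
  have hLM : ∀ c : L, incE (algebraMap L E c) = incM (algebraMap L M c) := by
    intro c
    show (algebraMap L E c) ⊗ₜ[L] (1 : M) = (1 : E) ⊗ₜ[L] (algebraMap L M c)
    rw [Algebra.algebraMap_eq_smul_one, Algebra.algebraMap_eq_smul_one, TensorProduct.smul_tmul]
  -- the homomorphism Ψ
  letI algKB : Algebra K (E ⊗[L] M) :=
    ((algebraMap L (E ⊗[L] M)).comp (algebraMap K L)).toAlgebra
  have halgKB : ∀ k : K, algebraMap K (E ⊗[L] M) k = incE (algebraMap L E (algebraMap K L k)) :=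
    fun k => rfl
  let f₁ : K' →ₐ[K] E ⊗[L] M :=
    { toRingHom := incM.comp (algebraMap K' M)
      commutes' := fun k => by
        show incM (algebraMap K' M (algebraMap K K' k)) = _
        rw [halgKB, hLM, ← IsScalarTower.algebraMap_apply K K' M,
          IsScalarTower.algebraMap_apply K L M] }
  let f₂ : F →ₐ[K] E ⊗[L] M :=
    { toRingHom := incE.comp ι
      commutes' := fun k => by
        show incE (ι (algebraMap K F k)) = _
        rw [halgKB, hι] }
  let Ψ : K' ⊗[K] F →+* E ⊗[L] M :=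
    (Algebra.TensorProduct.lift f₁ f₂ (fun _ _ => Commute.all _ _)).toRingHom
  have hΨ : ∀ (k : K') (x : F), Ψ (k ⊗ₜ[K] x) = incM (algebraMap K' M k) * incE (ι x) := by
    intro k x
    show (Algebra.TensorProduct.lift f₁ f₂ _) (k ⊗ₜ[K] x) = _
    rw [Algebra.TensorProduct.lift_tmul]
    rfl
  have hΨK : ∀ k : K, Ψ (incR (algebraMap K F k))
      = incM (algebraMap L M (algebraMap K L k)) := by
    intro k
    have : incR (algebraMap K F k) = (1 : K') ⊗ₜ[K] (algebraMap K F k) := rfl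
    rw [this, hΨ, map_one, map_one, one_mul, hι, hLM]
  set Θ : E ⊗[L] M := incM (algebraMap L M θ) with hΘdef
  let T : E ⊗[L] M →+* E ⊗[L] M :=
    (Algebra.TensorProduct.map (AlgHom.id E E) (τ : M →ₐ[L] M)).toRingHom
  have hTtmul : ∀ (e : E) (m : M), T (e ⊗ₜ[L] m) = e ⊗ₜ[L] τ m := by
    intro e m
    show (Algebra.TensorProduct.map (AlgHom.id E E) (τ : M →ₐ[L] M)) (e ⊗ₜ[L] m) = _
    rw [Algebra.TensorProduct.map_tmul]
    rfl
  have hTincM : ∀ m : M, T (incM m) = incM (τ m) := fun m => hTtmul 1 m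
  have hTincE : ∀ e : E, T (incE e) = incE e := by
    intro e
    have := hTtmul e 1
    rwa [map_one] at this
  -- hypotheses of the core
  have hs' : sTens502 s F ^ l = 1 := sTens_pow502 s F l hs
  have hγs : glAut (sTens502 s F) γR = γR := by
    apply Units.ext
    ext i j
    rw [coe_glAut502]
    simp only [Matrix.map_apply, hγR, Matrix.GeneralLinearGroup.map_apply]
    show sTens502 s F ((1 : K') ⊗ₜ[K] _) = (1 : K') ⊗ₜ[K] _
    have := sTens_pow_tmul502 s F 1 (1 : K') ((algebraMap K F) (γ i j))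
    simpa using this
  have htr : (γR : Matrix (Fin 2) (Fin 2) (K' ⊗[K] F)).trace
      = incR (algebraMap K F (γ : Matrix (Fin 2) (Fin 2) K).trace) := by
    simp [hγR, Matrix.trace_fin_two]
  have hdet : (γR : Matrix (Fin 2) (Fin 2) (K' ⊗[K] F)).det
      = incR (algebraMap K F (γ : Matrix (Fin 2) (Fin 2) K).det) := by
    simp [hγR, Matrix.det_fin_two]
  have hreg' : IsReg γR := by
    have h1 : disc γR = incR (algebraMap K F (disc γ)) := by
      unfold disc
      rw [htr, hdet, map_sub, map_sub, map_pow, map_pow, map_mul, map_mul, map_ofNat,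
        map_ofNat]
    unfold IsReg
    rw [h1]
    exact (hreg.map (algebraMap K F)).map incR
  have hΘ : Θ ^ 2 - Ψ (γR : Matrix (Fin 2) (Fin 2) (K' ⊗[K] F)).trace * Θ
      + Ψ (γR : Matrix (Fin 2) (Fin 2) (K' ⊗[K] F)).det = 0 := by
    rw [htr, hdet, hΨK, hΨK, hΘdef, ← map_pow, ← map_mul, ← map_sub, ← map_add,
      ← map_pow, ← map_mul, ← map_sub, ← map_add, hθ, map_zero, map_zero]
  have hTΨ : ∀ r, T (Ψ r) = Ψ (sTens502 s F r) := by
    intro r
    induction r using TensorProduct.induction_on with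
    | zero => simp
    | tmul k x =>
      have h1 : sTens502 s F (k ⊗ₜ[K] x) = (s k) ⊗ₜ[K] x := by
        have := sTens_pow_tmul502 s F 1 k x
        simpa using this
      rw [h1, hΨ, hΨ, map_mul, hTincM, hTincE, hτ]
    | add a b ha hb => rw [map_add, map_add, map_add, map_add, ha, hb]
  have hTΘ : T Θ = Θ := by
    rw [hΘdef, hTincM, AlgEquiv.commutes]
  obtain ⟨y, hy⟩ := exists_prod_eq502 (sTens502 s F) l hs' γR hγs hreg' δ hδ Ψ Θ hΘ T hTΨ hTΘ
  refine ⟨y, ?_⟩
  -- norm = product over the Galois group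
  have hnorm := algebraMap_norm_eq_prod502 (L := L) (M := M) (A := E) y
  -- iterate of T
  have hTiter : ∀ (i : ℕ) (z : E ⊗[L] M),
      T^[i] z = Algebra.TensorProduct.map (AlgHom.id E E) ((τ ^ i : M ≃ₐ[L] M) : M →ₐ[L] M) z := by
    intro i
    induction i with
    | zero =>
      intro z
      simp only [Function.iterate_zero, id_eq, pow_zero]
      induction z using TensorProduct.induction_on with
      | zero => simp
      | tmul e m => rw [Algebra.TensorProduct.map_tmul]; rfl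
      | add a b ha hb => rw [map_add, ← ha, ← hb]
    | succ i ih =>
      intro z
      rw [Function.iterate_succ_apply', ih]
      induction z using TensorProduct.induction_on with
      | zero => simp
      | tmul e m =>
        rw [Algebra.TensorProduct.map_tmul, Algebra.TensorProduct.map_tmul, hTtmul, pow_succ']
        rfl
      | add a b ha hb => rw [map_add, map_add, map_add, ha, hb]
  have hprod : ∏ σ : M ≃ₐ[L] M,
      Algebra.TensorProduct.map (AlgHom.id E E) (σ : M →ₐ[L] M) y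
        = ∏ i ∈ Finset.range l, T^[i] y := by
    rw [Finset.prod_range]
    have := Fintype.prod_bijective (fun i : Fin l => τ ^ (i : ℕ)) hbij
      (fun i : Fin l => T^[(i : ℕ)] y)
      (fun σ : M ≃ₐ[L] M => Algebra.TensorProduct.map (AlgHom.id E E) (σ : M →ₐ[L] M) y)
      (fun i => hTiter i y)
    exact this.symm
  rw [hprod, hy] at hnorm
  have hinj : Function.Injective (algebraMap E (E ⊗[L] M)) := by
    have := Algebra.TensorProduct.includeLeft_injective (R := L) (S := E) (A := E) (B := M)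
      (algebraMap L M).injective
    exact this
  apply hinj
  rw [hnorm, hΘdef, ← hLM]
  rfl

end LocStep

end Fermat.Agent.LT.T6.H502

end

end
-- ===== PACK-END LT/T6/H502/LocStep.lean

-- ===== PACK-BEGIN LT/T6/H502/Split.lean
section




/-!
# Row LT, tower T6, sub-leaf T6.07 (helper502): the split case

OFF-MAIN.  Mathlib only + `T6/Spec.lean`.

`K'/K` cyclic of prime degree `l` with generator `s`, `γ ∈ GL₂(K)` elliptic.  If the
characteristic polynomial of `γ` has a root `θ'` in `K'`, then `l = 2`, `K' = K(θ')`, and `γ` is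
a norm: `K'[γ] = K' × K'` with `s` acting by `(a, b) ↦ (s b, s a)`, and
`(θ', θ'') = (θ', 1) · s(θ', 1)`.  No arithmetic is needed (`split_case502`).
-/

set_option autoImplicit false
set_option linter.unnecessarySimpa false

open scoped Matrix
open Polynomial

noncomputable section

namespace Fermat.Agent.LT.T6.H502

open Fermat.Agent.LT.T6

section Split

variable {K K' : Type} [Field K] [Field K'] [Algebra K K']

omit [Algebra K K'] in
/-- Evaluation at a pair. -/
theorem eval₂_diag502 (a b : K') (q : K'[X]) :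
    eval₂ (RingHom.prod (RingHom.id K') (RingHom.id K')) ((a, b) : K' × K') q
      = (eval a q, eval b q) := by
  apply Prod.ext
  · have := hom_eval₂ q (RingHom.prod (RingHom.id K') (RingHom.id K')) (RingHom.fst K' K')
      ((a, b) : K' × K')
    simp only [RingHom.coe_fst] at this
    rw [this]
    rfl
  · have := hom_eval₂ q (RingHom.prod (RingHom.id K') (RingHom.id K')) (RingHom.snd K' K')
      ((a, b) : K' × K')
    simp only [RingHom.coe_snd] at this
    rw [this]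
    rfl

variable [FiniteDimensional K K'] [IsGalois K K']

theorem split_case502 (s : K' ≃ₐ[K] K') (hs : ∀ t : K' ≃ₐ[K] K', t ∈ Subgroup.zpowers s)
    (l : ℕ) (hl : l.Prime) (hsl : s ^ l = 1) (γ : GL (Fin 2) K) (hell : IsEll γ) (θ' : K')
    (hθ' : θ' ^ 2 - algebraMap K K' (γ : Matrix (Fin 2) (Fin 2) K).trace * θ'
      + algebraMap K K' (γ : Matrix (Fin 2) (Fin 2) K).det = 0) :
    ∃ δ : GL (Fin 2) K',
      twNorm (s : K' ≃+* K') l δ = Matrix.GeneralLinearGroup.map (algebraMap K K') γ := by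
  classical
  set t' : K' := algebraMap K K' (γ : Matrix (Fin 2) (Fin 2) K).trace with ht'
  set d' : K' := algebraMap K K' (γ : Matrix (Fin 2) (Fin 2) K).det with hd'
  set θ'' : K' := t' - θ' with hθ''
  set γ' : GL (Fin 2) K' := Matrix.GeneralLinearGroup.map (algebraMap K K') γ with hγ'
  have htr' : (γ' : Matrix (Fin 2) (Fin 2) K').trace = t' := by
    simp [hγ', ht', Matrix.trace_fin_two]
  have hdet' : (γ' : Matrix (Fin 2) (Fin 2) K').det = d' := by
    simp [hγ', hd', Matrix.det_fin_two]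
  have hst : s t' = t' := s.commutes _
  have hsd : s d' = d' := s.commutes _
  have hsroot : (s θ') ^ 2 - t' * s θ' + d' = 0 := by
    have := congrArg s hθ'
    simpa [map_sub, map_add, map_mul, map_pow, hst, hsd] using this
  have hroots : ∀ x : K', x ^ 2 - t' * x + d' = 0 → x = θ' ∨ x = θ'' := by
    intro x hx
    have h : (x - θ') * (x - θ'') = 0 := by
      rw [hθ'']
      linear_combination hx - hθ'
    rcases mul_eq_zero.mp h with h | h
    · left; linear_combination h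
    · right; linear_combination h
  -- the discriminant
  have hdisc : (θ' - θ'') ^ 2 = algebraMap K K' (disc γ) := by
    unfold disc
    rw [map_sub, map_pow, map_mul, map_ofNat, ← ht', ← hd', hθ'']
    linear_combination 4 * hθ'
  have hne12 : θ' ≠ θ'' := by
    intro h
    rw [h, sub_self] at hdisc
    have h0 : algebraMap K K' (disc γ) = 0 := by rw [← hdisc]; ring
    have h1 : disc γ = 0 := (algebraMap K K').injective (by rw [h0, map_zero])
    exact hell.1.ne_zero h1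
  -- θ' is not fixed
  have hne : s θ' ≠ θ' := by
    intro hfix
    have hmem : s ∈ MulAction.stabilizer (K' ≃ₐ[K] K') θ' := by
      rw [MulAction.mem_stabilizer_iff]; exact hfix
    have hle : Subgroup.zpowers s ≤ MulAction.stabilizer (K' ≃ₐ[K] K') θ' :=
      (Subgroup.zpowers_le).mpr hmem
    have hall : ∀ t : K' ≃ₐ[K] K', t θ' = θ' := fun t => by
      have := hle (hs t)
      rw [MulAction.mem_stabilizer_iff] at this
      exact this
    obtain ⟨x, hx⟩ := (IsGalois.mem_range_algebraMap_iff_fixed θ').mpr hall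
    apply hell.2 x
    apply (algebraMap K K').injective
    rw [map_zero, map_add, map_sub, map_pow, map_mul, hx]
    exact hθ'
  have hsθ' : s θ' = θ'' := (hroots _ hsroot).resolve_left hne
  have hsθ'' : s θ'' = θ' := by
    rw [hθ'', map_sub, hst, hsθ', hθ'']; ring
  -- l = 2
  have hpow : ∀ n : ℕ, (s ^ n) θ' = if Even n then θ' else θ'' := by
    intro n
    induction n with
    | zero => simp
    | succ n ih =>
      rw [pow_succ', AlgEquiv.mul_apply, ih]
      by_cases hn : Even n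
      · rw [if_pos hn, if_neg (by rw [Nat.even_add_one]; exact not_not.mpr hn), hsθ']
      · rw [if_neg hn, if_pos (by rw [Nat.even_add_one]; exact hn), hsθ'']
  have hl2 : l = 2 := by
    by_contra h
    have hodd : ¬ Even l := by
      rcases hl.eq_two_or_odd' with h2 | h2
      · exact absurd h2 h
      · exact Nat.not_even_iff_odd.mpr h2
    have := hpow l
    rw [hsl, if_neg hodd] at this
    exact hne12 (by simpa using this)
  subst hl2
  -- the compatible triple on `K' × K'`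
  let Ψ : K' →+* K' × K' := RingHom.prod (RingHom.id K') (RingHom.id K')
  let T : K' × K' →+* K' × K' :=
    RingHom.prod (((s : K' ≃+* K') : K' →+* K').comp (RingHom.snd K' K'))
      (((s : K' ≃+* K') : K' →+* K').comp (RingHom.fst K' K'))
  have hT : ∀ a b : K', T (a, b) = (s b, s a) := fun a b => rfl
  have hγs : glAut (s : K' ≃+* K') γ' = γ' := by
    apply Units.ext
    ext i j
    rw [coe_glAut502]
    simp [hγ', Matrix.GeneralLinearGroup.map_apply]
  have hθ'0 : θ' ≠ 0 := by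
    intro h0
    rw [h0] at hθ'
    have hd0 : d' = 0 := by simpa using hθ'
    have h1 : (γ : Matrix (Fin 2) (Fin 2) K).det = 0 :=
      (algebraMap K K').injective (by rw [map_zero]; exact hd0)
    have h2 : IsUnit (γ : Matrix (Fin 2) (Fin 2) K).det :=
      (Matrix.isUnit_iff_isUnit_det _).mp γ.isUnit
    exact h2.ne_zero h1
  have hgfac : charP502 (γ' : Matrix (Fin 2) (Fin 2) K') = (X - C θ') * (X - C θ'') := by
    unfold charP502
    rw [htr', hdet', hθ'']
    have hd : d' = θ' * (t' - θ') := by linear_combination hθ'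
    rw [hd]
    simp only [map_neg, map_sub, map_mul]
    ring
  refine exists_twNorm_eq502 (s : K' ≃+* K') 2 γ' hγs Ψ ((θ', θ'') : K' × K') T ?_ ?_ ?_ ?_
    ((θ', 1) : K' × K') ((θ'⁻¹, 1) : K' × K') ?_ ?_
  · intro r
    show T (r, r) = _
    rw [hT]
    rfl
  · rw [hT, hsθ', hsθ'']
  · intro q hq
    have hq' : (eval θ' q, eval θ'' q) = ((0 : K'), (0 : K')) := by
      rw [← eval₂_diag502]; exact hq
    have h1 : eval θ' q = 0 := (Prod.ext_iff.mp hq').1
    have h2 : eval θ'' q = 0 := (Prod.ext_iff.mp hq').2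
    obtain ⟨q₁, hq₁⟩ := dvd_iff_isRoot.mpr h1
    have h3 : eval θ'' q₁ = 0 := by
      rw [hq₁, eval_mul, eval_sub, eval_X, eval_C] at h2
      rcases mul_eq_zero.mp h2 with h | h
      · exact absurd (sub_eq_zero.mp h).symm hne12
      · exact h
    obtain ⟨q₂, hq₂⟩ := dvd_iff_isRoot.mpr h3
    rw [hq₁, hq₂, ← mul_assoc, ← hgfac, map_mul, aeval_charP502, zero_mul]
  · rintro ⟨a, b⟩
    refine ⟨C a + C ((b - a) / (θ'' - θ')) * (X - C θ'), ?_⟩
    show eval₂ (RingHom.prod (RingHom.id K') (RingHom.id K')) ((θ', θ'') : K' × K') _ = _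
    rw [eval₂_diag502]
    have hne' : θ'' - θ' ≠ 0 := sub_ne_zero.mpr (Ne.symm hne12)
    apply Prod.ext
    · simp
    · simp only [eval_add, eval_C, eval_mul, eval_sub, eval_X]
      field_simp
      ring
  · apply Prod.ext
    · simp [mul_inv_cancel₀ hθ'0]
    · simp
  · rw [Finset.prod_range_succ, Finset.prod_range_one, Function.iterate_zero, id_eq,
      Function.iterate_one, hT]
    apply Prod.ext
    · simp
    · simp [hsθ']

end Split

end Fermat.Agent.LT.T6.H502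

end

end
-- ===== PACK-END LT/T6/H502/Split.lean

-- ===== PACK-BEGIN LT/T6/H783/CenTop.lean
section


/-!
# Row LT, tower T6, leaf T6.18g `CenNormC783`: the PROVED glue (helper783)

* `cenOne_of_leaves783 : NormInjC → DescC783 → PowC783 → CenOneC783`
* `cenNorm_of_leaves783 : TranslC783 → NormInjC → DescC783 → PowC783 → CenNormC783`
-/

set_option autoImplicit false

open scoped Matrix

noncomputable section

namespace Fermat.Agent.LT.T6.H783

open Fermat.Agent.LT.T6

section Lemmas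

variable {R : Type} [CommRing R]

/-- The norm of a `σ`-fixed element is its power. -/
theorem twNorm_fixed783 (s : R ≃+* R) {x : GL (Fin 2) R} (hx : glAut s x = x) (l : ℕ) :
    twNorm s l x = x ^ l := by
  unfold twNorm
  induction l with
  | zero => simp [twN]
  | succ n ih =>
    change x * glAut s (twN (glAut s) n x) = x ^ (n + 1)
    rw [ih, map_pow, hx, pow_succ']

/-- The twisted orbit sum only depends on the `s`-conjugacy class. -/
theorem twOrb_of_twConj783 {k' : Type} [Field k'] [Valued k' Γ₀] (s : k' ≃+* k') {n : ℕ}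
    {φ : GL (Fin 2) k' → ℂ} {δ δ' : GL (Fin 2) k'} {c : ℂ} (h : IsTwConj s δ δ')
    (hc : IsTwOrbSum s n φ δ c) : IsTwOrbSum s n φ δ' c := by
  obtain ⟨g, rfl⟩ := h
  have key : ∀ y : GL (Fin 2) k', (∃ x : GL (Fin 2) k', y = x⁻¹ * δ * glAut s x) ↔
      ∃ x : GL (Fin 2) k', y = x⁻¹ * (g⁻¹ * δ * glAut s g) * glAut s x := by
    intro y
    constructor
    · rintro ⟨x, rfl⟩
      refine ⟨g⁻¹ * x, ?_⟩
      simp [mul_assoc]
    · rintro ⟨x, rfl⟩
      refine ⟨g * x, ?_⟩
      simp [mul_assoc]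
  obtain ⟨Rf, h1, h2, h3, h4⟩ := hc
  exact ⟨Rf, fun y hy => (key y).1 (h1 y hy), h2, fun y hy hne => h3 y ((key y).2 hy) hne, h4⟩

end Lemmas

section Disc

variable {K : Type} [Field K]

theorem disc_conj783 {a b : GL (Fin 2) K} (h : IsConj a b) : disc a = disc b := by
  obtain ⟨c, hc⟩ := isConj_iff.1 h
  subst hc
  unfold disc
  have htr : ((c * a * c⁻¹ : GL (Fin 2) K) : Matrix (Fin 2) (Fin 2) K).trace
      = (a : Matrix (Fin 2) (Fin 2) K).trace := by
    have : ((c * a * c⁻¹ : GL (Fin 2) K) : Matrix (Fin 2) (Fin 2) K)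
        = c.val * (a.val * (c⁻¹ : GL (Fin 2) K).val) := by
      simp [mul_assoc]
    rw [this, Matrix.trace_mul_comm, mul_assoc]
    have h2 : (c⁻¹ : GL (Fin 2) K).val * c.val = 1 := by
      rw [← Units.val_mul]; simp
    rw [h2, mul_one]
  have hdet : ((c * a * c⁻¹ : GL (Fin 2) K) : Matrix (Fin 2) (Fin 2) K).det
      = (a : Matrix (Fin 2) (Fin 2) K).det := by
    have : ((c * a * c⁻¹ : GL (Fin 2) K) : Matrix (Fin 2) (Fin 2) K)
        = c.val * a.val * (c⁻¹ : GL (Fin 2) K).val := by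
      simp
    rw [this, Matrix.det_mul, Matrix.det_mul]
    have h2 : c.val.det * (c⁻¹ : GL (Fin 2) K).val.det = 1 := by
      rw [← Matrix.det_mul, ← Units.val_mul]; simp
    calc c.val.det * a.val.det * (c⁻¹ : GL (Fin 2) K).val.det
        = (c.val.det * (c⁻¹ : GL (Fin 2) K).val.det) * a.val.det := by ring
      _ = a.val.det := by rw [h2, one_mul]
  rw [htr, hdet]

theorem disc_map783 {K' : Type} [Field K'] (i : K →+* K') (γ : GL (Fin 2) K) :
    disc (Matrix.GeneralLinearGroup.map i γ) = i (disc γ) := by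
  unfold disc
  have h1 : ((Matrix.GeneralLinearGroup.map i γ : GL (Fin 2) K') : Matrix (Fin 2) (Fin 2) K')
      = (γ : Matrix (Fin 2) (Fin 2) K).map i := rfl
  rw [h1]
  have htr : ((γ : Matrix (Fin 2) (Fin 2) K).map i).trace
      = i (γ : Matrix (Fin 2) (Fin 2) K).trace := by
    simp [Matrix.trace, Fin.sum_univ_two]
  have hdet : ((γ : Matrix (Fin 2) (Fin 2) K).map i).det
      = i (γ : Matrix (Fin 2) (Fin 2) K).det := by
    simp [Matrix.det_fin_two]
  rw [htr, hdet, map_sub, map_mul, map_pow, map_ofNat]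

theorem isReg_of_conj_map783 {K' : Type} [Field K'] (i : K →+* K') {γ : GL (Fin 2) K}
    (hγ : IsReg γ) {x : GL (Fin 2) K'}
    (hx : IsConj x (Matrix.GeneralLinearGroup.map i γ)) : IsReg x := by
  unfold IsReg at hγ ⊢
  rw [disc_conj783 hx, disc_map783]
  exact hγ.map i

theorem glAut_map783 {K' : Type} [Field K'] (i : K →+* K') (s : K' ≃+* K')
    (hfix : ∀ x : K, s (i x) = i x) (h : GL (Fin 2) K) :
    glAut s (Matrix.GeneralLinearGroup.map i h) = Matrix.GeneralLinearGroup.map i h := by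
  apply Units.ext
  ext a b
  simp [glAut, hfix]

end Disc

/-- **Local matching at the identity from descent and push-forward.** -/
theorem cenOne_of_leaves783 (hNI : NormInjC) (hDesc : DescC783) (hPow : PowC783) :
    CenOneC783 := by
  intro k k' _ _ _ _ q l e i s n φ hd
  obtain ⟨N₀, m, ψ, hψb, hψf, hD⟩ := hDesc k k' q l e i s n φ hd
  obtain ⟨N₁, m', f, hfb, hff, hP⟩ := hPow k q l hd.hk hd.prime.pos N₀ m ψ hψb hψf
  have hN : ∀ h : GL (Fin 2) k, twNorm s l (Matrix.GeneralLinearGroup.map i h)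
      = Matrix.GeneralLinearGroup.map i (h ^ l) := by
    intro h
    rw [twNorm_fixed783 s (glAut_map783 i s hd.ext.cyc.fix_i h), map_pow]
  refine ⟨N₁, m', f, hfb, hff, ⟨?_, ?_⟩⟩
  · intro δ γ c c' hγ hball hconj hTO hO
    obtain ⟨h, hhl, hhb, hh⟩ := hP γ hγ hball
    have hO' := hh c' hO
    have hreg' : IsReg (twNorm s l δ) := isReg_of_conj_map783 i hγ hconj
    have htc : IsTwConj s δ (Matrix.GeneralLinearGroup.map i h) :=
      hNI k k' l i s hd.ext.cyc δ (Matrix.GeneralLinearGroup.map i h) hreg'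
        (by rw [hN, hhl]; exact hconj)
    have hTO' : IsTwOrbSum s n φ (Matrix.GeneralLinearGroup.map i h) c :=
      twOrb_of_twConj783 s htc hTO
    exact hD h c c' hhb (by rw [hhl]; exact hγ) hTO' hO'
  · intro γ c' hγ hball hnn hO
    exfalso
    obtain ⟨h, hhl, -, -⟩ := hP γ hγ hball
    apply hnn
    refine ⟨Matrix.GeneralLinearGroup.map i h, ?_⟩
    rw [hN, hhl]

/-- **T6.18g from the second-level leaves.** -/
theorem cenNorm_of_leaves783 (hT : TranslC783) (hNI : NormInjC) (hDesc : DescC783)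
    (hPow : PowC783) : CenNormC783 :=
  hT (cenOne_of_leaves783 hNI hDesc hPow)

end Fermat.Agent.LT.T6.H783

end

end
-- ===== PACK-END LT/T6/H783/CenTop.lean

-- ===== PACK-BEGIN LT/T6/H783/DescSpec.lean
section


/-!
# Row LT, tower T6, leaf T6.18g2 `DescC783` (twisted descent `G' ⇝ G` at the identity):
THIRD-LEVEL SUB-SPEC (helper783)

OFF-MAIN.  Definitions + frozen Props.  PROVED glue in `DescTop.lean`:
`descC_of_leaves783 : ProperC783 → DecompC783 → DescC783`.

`G = GL₂(k) ⊂ G' = GL₂(k')` via `ι = GL.map i`, `σ = glAut s`, `U' = U'(n)`.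

## Plan
* `ProperC783` (PROPERNESS): there are `N₀` and a finite `Y ⊂ G'` such that for `h ∈ G` in the
  `χ`-ball `V(N₀)` around `(2, 1)`, every `x` with `φ(x⁻¹ h σ(x)) ≠ 0` lies in `G y U'`, `y ∈ Y`.
  - `RootBoundC783` (Cayley–Hamilton, NO root extraction): `w = x⁻¹ h σ(x)`, `N w = x⁻¹ h^l x`,
    `h' = x⁻¹ h x`, `h'^l = S h' + Q` with `S = P_l(t, d)`, `Q = Q_l(t, d)` integer polynomials in
    `(t, d) = χ(h)`, `P_l(2, 1) = l`; for `N₀ > ord(l)`: `v(S) = v(l)` and `h' = S⁻¹ (N w - Q)` is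
    bounded by the bound of `w`; the same for `h'⁻¹`; so the cocycle `x⁻¹ σ(x) = h'⁻¹ w` is bounded.
  - `BH90C783` (BOUNDED HILBERT 90): `x⁻¹ σ(x)` bounded `⇒ x ∈ G · (finitely many y U')`.
    Lattices: `Λ' = x 𝒪'²` is almost `σ`-stable, `Λ'' = ∑_j σ^j Λ'` is `σ`-stable,
    `Λ' ⊂ Λ'' ⊂ ϖ'^{-(l-1)A} Λ'`, and for a `k`-basis `(b_j)` of `k'` in `𝒪'` with dual basis
    `(b_j^*)` for the trace form: `λ = ∑_j b_j^* tr(b_j λ)`, so
    `Λ'' ⊂ ∑_j b_j^* (Λ'' ∩ k²) 𝒪'`; `Λ'' ∩ k² = g 𝒪²`.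
* `DecompC783` (ORBIT DECOMPOSITION): for such `(N₀, Y)` there are `m`, `ψ` with
  `TO_h(φ) = O_h(ψ)`: `ψ = ∑_{y} [Γ_y : U(m)]⁻¹ φ_y` (after pruning `Y` to distinct double cosets),
  `φ_y(g) = φ(y⁻¹ g σ(y))`, `Γ_y = G ∩ y U' y⁻¹`.
  - `FibreC783`: `TO_h(φ) = ∑_y O^{Γ_y}_h(φ_y)` (orbits of `U'` in the `σ`-class of `h` are the pairs
    (`y`, orbit of `Γ_y` in the class of `h`); the twisted centraliser of `h₁ ∈ G` is `T_{h₁}`,
    `TwCentC`; the indices agree).
  - `GenLvlC783`: `O^{(m)}_h(ψ) = [Γ : U(m)] · O^{Γ}_h(ψ)` for a compact open subgroup `Γ ⊃ U(m)`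
    (no normality: `∑_{(T∩Γ)\Γ/U(m)} [T ∩ Γ : T ∩ g U(m) g⁻¹] = [Γ : U(m)]`).
-/

set_option autoImplicit false

open scoped Matrix

noncomputable section

namespace Fermat.Agent.LT.T6.H783

open Fermat.Agent.LT.T6

/-! ## Definitions -/

/-- The entries of `g` and of `g⁻¹` are bounded by `exp A`. -/
def EntryBdd783 {K : Type} [Field K] [Valued K Γ₀] (A : ℤ) (g : GL (Fin 2) K) : Prop :=
  ∀ a b : Fin 2, Valued.v ((g : Matrix (Fin 2) (Fin 2) K) a b) ≤ WithZero.exp A ∧
    Valued.v (((g⁻¹ : GL (Fin 2) K) : Matrix (Fin 2) (Fin 2) K) a b) ≤ WithZero.exp A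

/-- `x ∈ G y U'(n)`. -/
def InDC783 {k k' : Type} [Field k] [Field k'] [Valued k' Γ₀] (i : k →+* k') (n : ℕ)
    (y x : GL (Fin 2) k') : Prop :=
  ∃ (g : GL (Fin 2) k) (u : GL (Fin 2) k'), InU n u ∧
    x = Matrix.GeneralLinearGroup.map i g * y * u

/-- `(N₀, Y)` is a PROPER COVER: for `h ∈ G` in the `χ`-ball of radius `exp(-N₀)` around
`(2, 1)`, every `x` with `φ(x⁻¹ h σ(x)) ≠ 0` lies in `G y U'(n)` for some `y ∈ Y`. -/
def IsProperCover783 {k k' : Type} [Field k] [Field k'] [Valued k Γ₀] [Valued k' Γ₀]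
    (i : k →+* k') (s : k' ≃+* k') (n : ℕ) (φ : GL (Fin 2) k' → ℂ) (N₀ : ℤ)
    (Y : Finset (GL (Fin 2) k')) : Prop :=
  ∀ (h : GL (Fin 2) k) (x : GL (Fin 2) k'), InChiBall783 2 1 N₀ h →
    φ (x⁻¹ * Matrix.GeneralLinearGroup.map i h * glAut s x) ≠ 0 → ∃ y ∈ Y, InDC783 i n y x

/-- `Γ_y = G ∩ y U'(n) y⁻¹`. -/
def GamY783 {k k' : Type} [Field k] [Field k'] [Valued k' Γ₀] (i : k →+* k') (n : ℕ)
    (y : GL (Fin 2) k') (g : GL (Fin 2) k) : Prop :=
  InU n (y⁻¹ * Matrix.GeneralLinearGroup.map i g * y)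

/-- `φ_y(g) = φ(y⁻¹ g σ(y))`. -/
def phiY783 {k k' : Type} [Field k] [Field k'] (i : k →+* k') (s : k' ≃+* k')
    (φ : GL (Fin 2) k' → ℂ) (y : GL (Fin 2) k') (g : GL (Fin 2) k) : ℂ :=
  φ (y⁻¹ * Matrix.GeneralLinearGroup.map i g * glAut s y)

/-- The orbit sum of `ψ` at `h` for conjugation by the subgroup `Γ` of `GL₂(k)`. -/
def IsOrbSumGam783 {k : Type} [Field k] [Valued k Γ₀] (Γ : GL (Fin 2) k → Prop)
    (ψ : GL (Fin 2) k → ℂ) (h : GL (Fin 2) k) (c : ℂ) : Prop :=
  IsOrbSumGen (glAut (RingEquiv.refl k)) Γ (InTwCentC (RingEquiv.refl k)) ψ h c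

/-! ## First split: properness and orbit decomposition -/

/-- **T6.18g2-P (properness).** -/
def ProperC783 : Prop :=
  ∀ (k k' : Type) [Field k] [Field k'] [Valued k Γ₀] [Valued k' Γ₀] (q l e : ℕ)
    (i : k →+* k') (s : k' ≃+* k') (n : ℕ) (φ : GL (Fin 2) k' → ℂ),
    BadData783 k k' q l e i s n φ →
      ∃ (N₀ : ℤ) (Y : Finset (GL (Fin 2) k')), IsProperCover783 i s n φ N₀ Y

/-- **T6.18g2-D (orbit decomposition).** -/
def DecompC783 : Prop :=
  ∀ (k k' : Type) [Field k] [Field k'] [Valued k Γ₀] [Valued k' Γ₀] (q l e : ℕ)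
    (i : k →+* k') (s : k' ≃+* k') (n : ℕ) (φ : GL (Fin 2) k' → ℂ),
    BadData783 k k' q l e i s n φ →
    ∀ (N₀ : ℤ) (Y : Finset (GL (Fin 2) k')), IsProperCover783 i s n φ N₀ Y →
      ∃ (m : ℕ) (ψ : GL (Fin 2) k → ℂ), IsBiInv (InU m) ψ ∧ HasFinSupp (InU m) ψ ∧
        ∀ (h : GL (Fin 2) k) (c c' : ℂ), InChiBall783 2 1 N₀ h → IsReg (h ^ l) →
          IsTwOrbSum s n φ (Matrix.GeneralLinearGroup.map i h) c → IsOrbSum m ψ h c' → c = c'

/-! ## Sub-leaves of properness -/

/-- **T6.18g2-P1 (the cocycle is bounded; Cayley–Hamilton).**  For `h ∈ G` near `1`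
(`N₀ > ord(l)`) and `w = x⁻¹ h σ(x)` bounded, the cocycle `x⁻¹ σ(x)` is bounded. -/
def RootBoundC783 : Prop :=
  ∀ (k k' : Type) [Field k] [Field k'] [Valued k Γ₀] [Valued k' Γ₀] (q l e : ℕ)
    (i : k →+* k') (s : k' ≃+* k'),
    IsLocalField k q → IsLocalField k' (q ^ (l / e)) → IsLocalExt k k' l e i s → l.Prime →
    ∃ N₀ : ℤ, ∀ A : ℤ, ∃ A' : ℤ, ∀ (h : GL (Fin 2) k) (x : GL (Fin 2) k'),
      InChiBall783 2 1 N₀ h →
      EntryBdd783 A (x⁻¹ * Matrix.GeneralLinearGroup.map i h * glAut s x) →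
      EntryBdd783 A' (x⁻¹ * glAut s x)

/-- **T6.18g2-P2 (bounded Hilbert 90).**  The `x ∈ G'` with bounded cocycle `x⁻¹ σ(x)` lie in
finitely many double cosets `G y U'(n)`. -/
def BH90C783 : Prop :=
  ∀ (k k' : Type) [Field k] [Field k'] [Valued k Γ₀] [Valued k' Γ₀] (q l e : ℕ)
    (i : k →+* k') (s : k' ≃+* k'),
    IsLocalField k q → IsLocalField k' (q ^ (l / e)) → IsLocalExt k k' l e i s → l.Prime →
    ∀ (n : ℕ) (A : ℤ), ∃ Y : Finset (GL (Fin 2) k'), ∀ x : GL (Fin 2) k',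
      EntryBdd783 A (x⁻¹ * glAut s x) → ∃ y ∈ Y, InDC783 i n y x

/-- **T6.18g2-P0 (glue of properness)**: `φ` is supported on finitely many cosets, hence on a
bounded set. -/
def ProperGlueC783 : Prop := RootBoundC783 → BH90C783 → ProperC783

/-! ## Sub-leaves of the orbit decomposition -/

/-- **T6.18g2-D1 (fibration of the twisted class over `G \ G' / U'`).**  `Y` a finite set of
representatives of DISTINCT double cosets `G y U'(n)` containing every `x` with
`φ(x⁻¹ h σ(x)) ≠ 0`, `h ^ l` regular: `TO_h(φ) = ∑_{y ∈ Y} O^{Γ_y}_h(φ_y)`. -/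
def FibreC783 : Prop :=
  ∀ (k k' : Type) [Field k] [Field k'] [Valued k Γ₀] [Valued k' Γ₀] (q l e : ℕ)
    (i : k →+* k') (s : k' ≃+* k') (n : ℕ) (φ : GL (Fin 2) k' → ℂ),
    BadData783 k k' q l e i s n φ →
    ∀ (Y : Finset (GL (Fin 2) k')), (∀ y ∈ Y, ∀ y' ∈ Y, InDC783 i n y y' → y = y') →
    ∀ h : GL (Fin 2) k, IsReg (h ^ l) →
      (∀ x : GL (Fin 2) k', φ (x⁻¹ * Matrix.GeneralLinearGroup.map i h * glAut s x) ≠ 0 →
        ∃ y ∈ Y, InDC783 i n y x) →
      ∀ (c : ℂ) (cs : GL (Fin 2) k' → ℂ),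
        IsTwOrbSum s n φ (Matrix.GeneralLinearGroup.map i h) c →
        (∀ y ∈ Y, IsOrbSumGam783 (GamY783 i n y) (phiY783 i s φ y) h (cs y)) →
        c = ∑ y ∈ Y, cs y

/-- **T6.18g2-D2 (level change for a compact open subgroup `Γ ⊃ U(m)`, no normality).**
`Γ` a subgroup of `GL₂(k)` with integral traces and unit determinants, containing `U(m)` with
finite index: there is `κ ≠ 0` (`= [Γ : U(m)]`) such that for `ψ` bi-`U(m)`-invariant and
invariant under conjugation by `Γ`, `h` regular: an orbit sum `c'` at level `m` gives an orbit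
sum `c` for `Γ` with `c' = κ c`. -/
def GenLvlC783 : Prop :=
  ∀ (k : Type) [Field k] [Valued k Γ₀] (q : ℕ), IsLocalField k q →
    ∀ (m : ℕ) (Γ : GL (Fin 2) k → Prop), Γ 1 → (∀ g g', Γ g → Γ g' → Γ (g * g')) →
      (∀ g, Γ g → Γ g⁻¹) → (∀ g, InU m g → Γ g) →
      (∀ g, Γ g → Valued.v (g : Matrix (Fin 2) (Fin 2) k).trace ≤ 1 ∧
        Valued.v (g : Matrix (Fin 2) (Fin 2) k).det = 1) →
      (∃ F : Finset (GL (Fin 2) k), ∀ g, Γ g → ∃ x ∈ F, ∃ u, InU m u ∧ g = x * u) →
      ∃ κ : ℕ, κ ≠ 0 ∧ ∀ ψ : GL (Fin 2) k → ℂ, IsBiInv (InU m) ψ →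
        (∀ g x, Γ g → ψ (g⁻¹ * x * g) = ψ x) →
        ∀ (h : GL (Fin 2) k) (c' : ℂ), IsReg h → IsOrbSum m ψ h c' →
          ∃ c : ℂ, IsOrbSumGam783 Γ ψ h c ∧ c' = (κ : ℂ) * c

/-- **T6.18g2-D0 (glue of the orbit decomposition)**: prune `Y` to distinct double cosets,
choose `m` with `U(m) ⊂ Γ_y` and `φ_y` bi-`U(m)`-invariant of finite support for all `y ∈ Y`,
`ψ = ∑_y κ_y⁻¹ φ_y`. -/
def DecompGlueC783 : Prop :=
  FibreC783 → GenLvlC783 → OrbSumExC → OrbSumUniqC → AddC783 → DecompC783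

end Fermat.Agent.LT.T6.H783

end

end
-- ===== PACK-END LT/T6/H783/DescSpec.lean

-- ===== PACK-BEGIN LT/T6/H568/NearC.lean
section


/-!
# Row LT, tower T6, sub-leaf T6.18f.3 `NearC179` (helper568)

OFF-MAIN.  `nearC_of568 : H179.NormalFormC179 → H179.RootC179 → H179.NearC179`, VERBATIM against
`LT/T6/H179/LocRegSpec.lean` (helper179@eb0286de2, sha256 `4a0ec3cb…`), on `T6/Spec.lean`
(sha256 `be86e12a…`) and `T6/H783/BadSpec.lean` (sha256 `c79abacc…`), byte-identical copies.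

Route (valuation bookkeeping only): `γ ∼ A + B γ₀` with `(A, B)` near `(0, 1)`
(`NormalFormC179` at a deeper radius); by Cayley–Hamilton
`(A + B γ₀) γ₀⁻¹ = (B + A t₀ / d₀) - (A / d₀) γ₀` is near `1`, hence an `l`-th power `t ^ l`,
`t = a + b γ₀` near `1` (`RootC179`); `t` is invertible because `t ^ l γ₀ = A + B γ₀` is.
-/

set_option autoImplicit false

open scoped Matrix

noncomputable section

namespace Fermat.Agent.LT.T6.H568

open Fermat.Agent.LT.T6 Fermat.Agent.LT.T6.H783 Fermat.Agent.LT.T6.H179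

/-- Cayley–Hamilton for `2 × 2` matrices. -/
theorem mul_self_fin_two568 {k : Type} [Field k] (X : Matrix (Fin 2) (Fin 2) k) :
    X * X = X.trace • X - X.det • (1 : Matrix (Fin 2) (Fin 2) k) := by
  ext i j
  fin_cases i <;> fin_cases j <;>
    simp [Matrix.mul_apply, Fin.sum_univ_two, Matrix.trace_fin_two, Matrix.det_fin_two] <;> ring

/-- The key identity: `((B + A t / d) + (-A / d) X) X = A + B X` for `t = tr X`, `d = det X ≠ 0`. -/
theorem key_identity568 {k : Type} [Field k] (X : Matrix (Fin 2) (Fin 2) k) (hd : X.det ≠ 0)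
    (A B : k) :
    ((B + A * (X.trace / X.det)) • (1 : Matrix (Fin 2) (Fin 2) k) + (-(A / X.det)) • X) * X
      = A • (1 : Matrix (Fin 2) (Fin 2) k) + B • X := by
  rw [add_mul, Matrix.smul_mul, Matrix.smul_mul, one_mul, mul_self_fin_two568 X]
  rw [smul_sub, smul_smul, smul_smul]
  have h1 : -(A / X.det) * X.det = -A := by field_simp
  have h2 : -(A / X.det) * X.trace = -(A * (X.trace / X.det)) := by field_simp
  rw [h1, h2]
  rw [add_smul, neg_smul, neg_smul]
  abel

/-- Every element of `ℤᵐ⁰` is bounded by some `exp c`, `0 ≤ c`. -/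
theorem exists_le_exp568 (x : Γ₀) : ∃ c : ℤ, 0 ≤ c ∧ x ≤ WithZero.exp c := by
  by_cases hx : x = 0
  · exact ⟨0, le_rfl, by rw [hx]; exact zero_le⟩
  · refine ⟨max 0 (WithZero.log x), le_max_left _ _, ?_⟩
    calc x = WithZero.exp (WithZero.log x) := (WithZero.exp_log hx).symm
      _ ≤ WithZero.exp (max 0 (WithZero.log x)) :=
        WithZero.exp_le_exp.mpr (le_max_right _ _)

/-- **T6.18f.3** from the normal form and the `l`-th roots. -/
theorem nearC_of568 (hNF : NormalFormC179) (hRoot : RootC179) : NearC179 := by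
  intro k _ _ q hk l hl γ₀ hreg M
  obtain ⟨N₂, hN₂⟩ := hRoot k q hk l hl γ₀ hreg M
  set X : Matrix (Fin 2) (Fin 2) k := (γ₀ : Matrix (Fin 2) (Fin 2) k) with hX
  have hd : X.det ≠ 0 := by
    have h := Matrix.GeneralLinearGroup.det_ne_zero γ₀
    simpa [hX] using h
  obtain ⟨c₁, hc₁0, hc₁⟩ := exists_le_exp568 (Valued.v (X.trace / X.det))
  obtain ⟨c₂, hc₂0, hc₂⟩ := exists_le_exp568 (Valued.v (X.det)⁻¹)
  set c : ℤ := max c₁ c₂ with hc
  have hc0 : 0 ≤ c := le_trans hc₁0 (le_max_left _ _)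
  set M₁ : ℤ := max M (N₂ + c) with hM₁
  obtain ⟨N, hN⟩ := hNF k q hk γ₀ hreg M₁
  refine ⟨N, ?_⟩
  intro γ hγ
  obtain ⟨g, A, B, hA, hB, hconj⟩ := hN γ hγ
  -- the bounds at radius `M`
  have hM₁M : WithZero.exp (-M₁) ≤ WithZero.exp (-M) :=
    WithZero.exp_le_exp.mpr (by have := le_max_left M (N₂ + c); omega)
  have hM₁N : WithZero.exp (-M₁) * WithZero.exp c ≤ WithZero.exp (-N₂) := by
    rw [← WithZero.exp_add]
    exact WithZero.exp_le_exp.mpr (by have := le_max_right M (N₂ + c); omega)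
  have hM₁N' : WithZero.exp (-M₁) ≤ WithZero.exp (-N₂) :=
    WithZero.exp_le_exp.mpr (by have := le_max_right M (N₂ + c); omega)
  have hexp1 : WithZero.exp c₁ ≤ WithZero.exp c := WithZero.exp_le_exp.mpr (le_max_left _ _)
  have hexp2 : WithZero.exp c₂ ≤ WithZero.exp c := WithZero.exp_le_exp.mpr (le_max_right _ _)
  -- the element `u = a₁ + b₁ γ₀`
  set a₁ : k := B + A * (X.trace / X.det) with ha₁
  set b₁ : k := -(A / X.det) with hb₁
  have hva₁ : Valued.v (a₁ - 1) ≤ WithZero.exp (-N₂) := by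
    have e : a₁ - 1 = (B - 1) + A * (X.trace / X.det) := by rw [ha₁]; ring
    rw [e]
    refine le_trans (Valuation.map_add _ _ _) (max_le (le_trans hB hM₁N') ?_)
    rw [Valuation.map_mul]
    exact le_trans (mul_le_mul' hA (le_trans hc₁ hexp1)) hM₁N
  have hvb₁ : Valued.v b₁ ≤ WithZero.exp (-N₂) := by
    rw [hb₁, Valuation.map_neg, div_eq_mul_inv, Valuation.map_mul]
    exact le_trans (mul_le_mul' hA (le_trans hc₂ hexp2)) hM₁N
  obtain ⟨a', b', ha', hb', hpow⟩ := hN₂ a₁ b₁ hva₁ hvb₁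
  -- the matrix `t`
  set T : Matrix (Fin 2) (Fin 2) k := a' • (1 : Matrix (Fin 2) (Fin 2) k) + b' • X with hT
  have hkey : T ^ l * X = A • (1 : Matrix (Fin 2) (Fin 2) k) + B • X := by
    rw [hT, hpow]
    exact key_identity568 X hd A B
  have hdetconj : ((g⁻¹ * γ * g : GL (Fin 2) k) : Matrix (Fin 2) (Fin 2) k).det ≠ 0 :=
    Matrix.GeneralLinearGroup.det_ne_zero _
  have hdetT : T.det ≠ 0 := by
    intro h0
    apply hdetconj
    rw [hconj, ← hkey, Matrix.det_mul, Matrix.det_pow, h0, zero_pow (Nat.pos_iff_ne_zero.mp hl),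
      zero_mul]
  set t : GL (Fin 2) k := Matrix.GeneralLinearGroup.mkOfDetNeZero T hdetT with ht
  have htT : (t : Matrix (Fin 2) (Fin 2) k) = T := rfl
  have hmat : ((t ^ l * γ₀ : GL (Fin 2) k) : Matrix (Fin 2) (Fin 2) k)
      = A • (1 : Matrix (Fin 2) (Fin 2) k) + B • X := by
    rw [Units.val_mul, Units.val_pow_eq_pow_val, htT]
    exact hkey
  have hGL : g⁻¹ * γ * g = t ^ l * γ₀ := by
    apply Matrix.GeneralLinearGroup.ext
    intro i j
    rw [hconj, hmat]
  refine ⟨g, t, a', b', A, B, ha', hb', le_trans hA hM₁M, le_trans hB hM₁M, htT, hmat, ?_⟩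
  rw [← hGL]
  group

end Fermat.Agent.LT.T6.H568

end

end
-- ===== PACK-END LT/T6/H568/NearC.lean

-- ===== PACK-BEGIN LT/T6/H227/NormOpen.lean
section



/-!
# Row LT, tower T6, sub-leaf T6.18f.4 `NormOpenC179` (helper227) -- OFF-MAIN

`normOpen_of227 : NearC179 → NormOpenC179`: near a regular point `γ₀` of `GL₂(k)` either every
`γ` is (conjugate to) a norm from `GL₂(k')` or none is.

Proof (pure algebra, uses only `IsCyclicData`).  By `NearC179` (with `M = 1`) `γ` near `γ₀` is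
conjugate to `γ₁ = t ^ l γ₀ = A + B γ₀`, `t = a + b γ₀`, `B ≠ 0`.
* If `N δ ∼ i(γ₀)`: after an `s`-conjugation `N δ = i(γ₀)` exactly; `δ` commutes with
  `N δ` (`δ s(N δ) = N(δ) sˡ(δ)` and `i(γ₀)` is `s`-fixed), hence with `i(t)`; then
  `N(i(t) δ) = i(t) ^ l N(δ) = i(γ₁)`.
* If `N δ ∼ i(γ₁)`: after an `s`-conjugation `N δ = i(γ₁) = i(A) + i(B) i(γ₀)`; `δ` commutes with
  `i(γ₁)`, hence with `i(γ₀)` (`B ≠ 0`) and with `i(t)⁻¹`; `N(i(t)⁻¹ δ) = i(t) ^ (-l) i(γ₁) = i(γ₀)`.
-/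

set_option autoImplicit false
set_option linter.unusedSectionVars false
set_option linter.unusedVariables false

open scoped Matrix

noncomputable section

namespace Fermat.Agent.LT.T6.H227

open Fermat.Agent.LT.T6 Fermat.Agent.LT.T6.H179 Fermat.Agent.LT.T6.H783

/-! ## Twisted norms in a group -/

section Grp

variable {Γ : Type} [Group Γ] (σ : Γ →* Γ)

/-- `N_n(c δ) = c ^ n N_n(δ)` for a `σ`-fixed `c` which commutes with `δ`. -/
theorem twN_mul_fixed (c δ : Γ) (hc : σ c = c) (hcomm : c * δ = δ * c) (n : ℕ) :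
    twN σ n (c * δ) = c ^ n * twN σ n δ := by
  induction n with
  | zero => simp [twN]
  | succ n ih =>
    have hpow : δ * c ^ n = c ^ n * δ := by
      have : Commute c δ := hcomm
      exact (this.pow_left n).eq.symm
    show c * δ * σ (twN σ n (c * δ)) = c ^ (n + 1) * (δ * σ (twN σ n δ))
    rw [ih, map_mul, map_pow, hc, pow_succ']
    calc c * δ * (c ^ n * σ (twN σ n δ)) = c * (δ * c ^ n) * σ (twN σ n δ) := by
          simp only [mul_assoc]
      _ = c * c ^ n * (δ * σ (twN σ n δ)) := by rw [hpow]; simp only [mul_assoc]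

/-- After a twisted conjugation the norm is exactly the conjugate. -/
theorem twN_exact (l : ℕ) (hl : ∀ g : Γ, (σ^[l]) g = g) (x δ : Γ) :
    twN σ l (x * δ * (σ x)⁻¹) = x * twN σ l δ * x⁻¹ := by
  have := H888.twN_twConj888 σ x⁻¹ δ l
  rw [inv_inv, map_inv, hl] at this
  exact this

/-- `δ` commutes with its norm if the norm is `σ`-fixed. -/
theorem comm_norm (l : ℕ) (hl : ∀ g : Γ, (σ^[l]) g = g) (δ : Γ)
    (hfix : σ (twN σ l δ) = twN σ l δ) : δ * twN σ l δ = twN σ l δ * δ := by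
  have := H888.twN_mul_iterate888 σ δ l
  rwa [hfix, hl] at this

end Grp

/-! ## The two implications -/

section Alg

variable {k k' : Type} [Field k] [Field k']

theorem glAut_map_fixed (i : k →+* k') (s : k' ≃+* k') (hfix : ∀ x : k, s (i x) = i x)
    (g : GL (Fin 2) k) :
    glAut s (Matrix.GeneralLinearGroup.map i g) = Matrix.GeneralLinearGroup.map i g := by
  apply Matrix.GeneralLinearGroup.ext
  intro a b
  rw [H888.glAut_apply888]
  simp [Matrix.GeneralLinearGroup.map_apply, hfix]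

theorem map_val_lin (i : k →+* k') (t γ₀ : GL (Fin 2) k) (a b : k)
    (ht : (t : Matrix (Fin 2) (Fin 2) k)
      = a • (1 : Matrix (Fin 2) (Fin 2) k) + b • (γ₀ : Matrix (Fin 2) (Fin 2) k)) :
    ((Matrix.GeneralLinearGroup.map i t : GL (Fin 2) k') : Matrix (Fin 2) (Fin 2) k')
      = i a • (1 : Matrix (Fin 2) (Fin 2) k')
        + i b • ((Matrix.GeneralLinearGroup.map i γ₀ : GL (Fin 2) k') :
            Matrix (Fin 2) (Fin 2) k') := by
  ext p q
  have h := congrFun (congrFun ht p) q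
  simp only [Matrix.GeneralLinearGroup.map_apply, Matrix.add_apply, Matrix.smul_apply,
    smul_eq_mul] at h ⊢
  rw [h, map_add, map_mul, map_mul]
  congr 2
  by_cases hpq : p = q
  · subst hpq; simp
  · simp [Matrix.one_apply_ne hpq]

theorem gl_comm_iff (X Y : GL (Fin 2) k') :
    X * Y = Y * X ↔ Commute (X : Matrix (Fin 2) (Fin 2) k') (Y : Matrix (Fin 2) (Fin 2) k') := by
  constructor
  · intro h
    have := congrArg (fun z : GL (Fin 2) k' => (z : Matrix (Fin 2) (Fin 2) k')) h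
    simpa [Commute, SemiconjBy] using this
  · intro h
    apply Units.ext
    simpa [Commute, SemiconjBy] using h

/-- The core: if `t = a + b γ₀`, `γ₁ = A + B γ₀ = t ^ l γ₀`, `B ≠ 0`, then `γ₁` is a norm iff
`γ₀` is. -/
theorem isNormFrom_iff_of_lin (l : ℕ) (i : k →+* k') (s : k' ≃+* k')
    (hfix : ∀ x : k, s (i x) = i x) (hord : ∀ y : k', (s ^ l) y = y)
    (γ₀ t : GL (Fin 2) k) (a b A B : k) (hB : B ≠ 0)
    (ht : (t : Matrix (Fin 2) (Fin 2) k)
      = a • (1 : Matrix (Fin 2) (Fin 2) k) + b • (γ₀ : Matrix (Fin 2) (Fin 2) k))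
    (hγ₁ : ((t ^ l * γ₀ : GL (Fin 2) k) : Matrix (Fin 2) (Fin 2) k)
      = A • (1 : Matrix (Fin 2) (Fin 2) k) + B • (γ₀ : Matrix (Fin 2) (Fin 2) k)) :
    IsNormFrom l i s (t ^ l * γ₀) ↔ IsNormFrom l i s γ₀ := by
  have hl : ∀ g : GL (Fin 2) k', ((glAut s)^[l]) g = g :=
    H888.glAut_iterate_eq_self888 s l hord
  set ι := Matrix.GeneralLinearGroup.map (n := Fin 2) i with hι
  have hιfix : ∀ g : GL (Fin 2) k, glAut s (ι g) = ι g := glAut_map_fixed i s hfix
  have hT : ((ι t : GL (Fin 2) k') : Matrix (Fin 2) (Fin 2) k')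
      = i a • (1 : Matrix (Fin 2) (Fin 2) k')
        + i b • ((ι γ₀ : GL (Fin 2) k') : Matrix (Fin 2) (Fin 2) k') :=
    map_val_lin i t γ₀ a b ht
  have hG₁ : ((ι (t ^ l * γ₀) : GL (Fin 2) k') : Matrix (Fin 2) (Fin 2) k')
      = i A • (1 : Matrix (Fin 2) (Fin 2) k')
        + i B • ((ι γ₀ : GL (Fin 2) k') : Matrix (Fin 2) (Fin 2) k') :=
    map_val_lin i (t ^ l * γ₀) γ₀ A B hγ₁
  have hiB : i B ≠ 0 := by
    intro h
    exact hB ((map_eq_zero i).1 h)
  -- commuting with `ι γ₀` implies commuting with `ι t`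
  have comm_t : ∀ δ : GL (Fin 2) k', δ * ι γ₀ = ι γ₀ * δ → ι t * δ = δ * ι t := by
    intro δ h
    rw [gl_comm_iff] at h ⊢
    rw [hT]
    exact ((Commute.one_right _).smul_right _).add_right (h.smul_right _) |>.symm
  constructor
  · -- `γ₁` a norm ⇒ `γ₀` a norm
    rintro ⟨δ, hδ⟩
    obtain ⟨x, hx⟩ := isConj_iff.1 hδ
    set δ' := x * δ * (glAut s x)⁻¹ with hδ'
    have hN : twN (glAut s) l δ' = ι (t ^ l * γ₀) := by
      rw [hδ', twN_exact (glAut s) l hl]; exact hx
    have hc1 : δ' * ι (t ^ l * γ₀) = ι (t ^ l * γ₀) * δ' := by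
      have := comm_norm (glAut s) l hl δ' (by rw [hN, hιfix])
      rwa [hN] at this
    have hc0 : δ' * ι γ₀ = ι γ₀ * δ' := by
      rw [gl_comm_iff] at hc1 ⊢
      rw [hG₁] at hc1
      have h1 : Commute (δ' : Matrix (Fin 2) (Fin 2) k')
          (i B • ((ι γ₀ : GL (Fin 2) k') : Matrix (Fin 2) (Fin 2) k')) := by
        have := hc1.sub_right ((Commute.one_right (δ' : Matrix (Fin 2) (Fin 2) k')).smul_right (i A))
        simpa using this
      have h2 := h1.smul_right (i B)⁻¹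
      rwa [smul_smul, inv_mul_cancel₀ hiB, one_smul] at h2
    have hct : ι t * δ' = δ' * ι t := comm_t δ' hc0
    have hct' : (ι t)⁻¹ * δ' = δ' * (ι t)⁻¹ := by
      have : Commute (ι t) δ' := hct
      exact this.inv_left.eq
    refine ⟨(ι t)⁻¹ * δ', ?_⟩
    have hNN : twNorm s l ((ι t)⁻¹ * δ') = ι γ₀ := by
      show twN (glAut s) l ((ι t)⁻¹ * δ') = ι γ₀
      rw [twN_mul_fixed (glAut s) (ι t)⁻¹ δ' (by rw [map_inv, hιfix]) hct' l, hN, map_mul,
        map_pow]
      group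
    rw [hNN]
  · -- `γ₀` a norm ⇒ `γ₁` a norm
    rintro ⟨δ, hδ⟩
    obtain ⟨x, hx⟩ := isConj_iff.1 hδ
    set δ' := x * δ * (glAut s x)⁻¹ with hδ'
    have hN : twN (glAut s) l δ' = ι γ₀ := by
      rw [hδ', twN_exact (glAut s) l hl]; exact hx
    have hc0 : δ' * ι γ₀ = ι γ₀ * δ' := by
      have := comm_norm (glAut s) l hl δ' (by rw [hN, hιfix])
      rwa [hN] at this
    have hct : ι t * δ' = δ' * ι t := comm_t δ' hc0
    refine ⟨ι t * δ', ?_⟩
    have hNN : twNorm s l (ι t * δ') = ι (t ^ l * γ₀) := by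
      show twN (glAut s) l (ι t * δ') = ι (t ^ l * γ₀)
      rw [twN_mul_fixed (glAut s) (ι t) δ' (hιfix t) hct l, hN, map_mul, map_pow]
    rw [hNN]

theorem isNormFrom_conj (l : ℕ) (i : k →+* k') (s : k' ≃+* k') (g γ : GL (Fin 2) k) :
    IsNormFrom l i s (g * γ * g⁻¹) ↔ IsNormFrom l i s γ := by
  have hc : IsConj (Matrix.GeneralLinearGroup.map (n := Fin 2) i γ)
      (Matrix.GeneralLinearGroup.map (n := Fin 2) i (g * γ * g⁻¹)) :=
    isConj_iff.2 ⟨Matrix.GeneralLinearGroup.map (n := Fin 2) i g, by simp [map_mul, map_inv]⟩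
  constructor
  · rintro ⟨δ, hδ⟩
    exact ⟨δ, hδ.trans hc.symm⟩
  · rintro ⟨δ, hδ⟩
    exact ⟨δ, hδ.trans hc⟩

end Alg

/-! ## The leaf -/

/-- **T6.18f.4**: `NearC179 → NormOpenC179`. -/
theorem normOpen_of227 (hnear : NearC179) : NormOpenC179 := by
  intro k k' _ _ _ _ q l e i s hk hk' hext γ₀ hreg
  obtain ⟨N, hN⟩ := hnear k q hk l hext.cyc.pos γ₀ hreg 1
  refine ⟨N, fun γ hγ => ?_⟩
  obtain ⟨g, t, a, b, A, B, -, -, -, hB1, ht, hγ₁, rfl⟩ := hN γ hγ
  have hB : B ≠ 0 := by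
    rintro rfl
    rw [zero_sub, Valuation.map_neg, map_one, ← WithZero.exp_zero, WithZero.exp_le_exp] at hB1
    omega
  rw [isNormFrom_conj]
  exact isNormFrom_iff_of_lin l i s hext.cyc.fix_i hext.cyc.order γ₀ t a b A B hB ht hγ₁

end Fermat.Agent.LT.T6.H227

end

end
-- ===== PACK-END LT/T6/H227/NormOpen.lean

-- ===== PACK-BEGIN LT/T6/H162/CptG.lean
section




/-!
# Row LT, tower T6, leaf T6.18g.e `CptGC305` (helper162) -- OFF-MAIN

`cptGC162 : Fermat.Agent.LT.T6.H305.CptGC305`, VERBATIM the Prop of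
`LT/T6/H305/CenNormSpec.lean` (helper305, sha256 f00c68bd75d61a4e; on `T6/Spec.lean` v3
8c5f2ae7a3cd8a6e and `T6/H783/BadSpec.lean` c79abacc91498d35, byte-identical copies).

UNCONDITIONAL.  The proof is `cptG_core162` of `CptGCore.lean` (Mathlib + `T6/Spec.lean` only):
finite approximation of the entries modulo `exp (-(m + 2 B))` by the residue system of
`IsLocalField`, and the bound `exp (2 B)` for the entries of the inverse on the bounded set.
The centres of the cosets can be taken in the bounded set (`cptGC_centres162`).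
-/

set_option autoImplicit false

open scoped Matrix

noncomputable section

namespace Fermat.Agent.LT.T6.H162

open Fermat.Agent.LT.T6 Fermat.Agent.LT.T6.H305

/-- **T6.18g.e `CptGC305`** (bounded sets of `GL₂(k)` are covered by finitely many cosets
`x U(m)`), VERBATIM. -/
theorem cptGC162 : CptGC305 := by
  intro k _ _ q hk B m
  obtain ⟨F, -, hF⟩ := cptG_core162 hk B m
  exact ⟨F, hF⟩

/-- The same with centres in the bounded set. -/
theorem cptGC_centres162 (k : Type) [Field k] [Valued k Γ₀] (q : ℕ) (hk : IsLocalField k q)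
    (B : ℤ) (m : ℕ) :
    ∃ F : Finset (GL (Fin 2) k),
      (∀ x ∈ F, entryMax x ≤ WithZero.exp B ∧
        WithZero.exp (-B) ≤ Valued.v (x : Matrix (Fin 2) (Fin 2) k).det) ∧
      ∀ g : GL (Fin 2) k, entryMax g ≤ WithZero.exp B →
        WithZero.exp (-B) ≤ Valued.v (g : Matrix (Fin 2) (Fin 2) k).det →
        ∃ x ∈ F, ∃ u : GL (Fin 2) k, InU m u ∧ g = x * u :=
  cptG_core162 hk B m

end Fermat.Agent.LT.T6.H162

end

end
-- ===== PACK-END LT/T6/H162/CptG.lean

-- ===== PACK-BEGIN LT/T6/H952/LatOrbitEx.lean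
section



/-!
# Row LT, tower T6, leaf T6.14b.L3 `LatOrbitExC129` (helper952)

OFF-MAIN.  `latOrbitExC952 : Fermat.Agent.LT.H129.LatOrbitExC129` (registry row 1166; Spec
`Fermat/Agent/LT/H129/EllParamSpec.lean` of helper129, byte-identical copy).

Proof (the route of the Spec).  `t e(1, ξ) = e(a₁, b₁)`, `a₁ = a - ν b ξ` a unit,
`b₁ = a ξ + b + τ b ξ`; `ξ'' = b₁ / a₁`; `ξ' ∈ B` with `|ξ'' - ξ'| ≤ exp(-n)`;
`B' = (ξ'' - ξ') / N(1, ξ')`, `A = 1 + ν ξ' B'`, `C = B' / νⁿ`;
`u = a₁ · !![A, -ν^(n+1) B'; C, A + τ B']` has integral entries and unit determinant, and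
`t · latMat n ξ = latMat n ξ' · u` is a polynomial identity modulo the three relations
`a₁ ξ'' = b₁`, `B' N(1, ξ') = ξ'' - ξ'`, `C νⁿ = B'`.
-/

set_option autoImplicit false
set_option linter.unusedSectionVars false
set_option linter.style.haveILetI false
set_option linter.unusedSimpArgs false

open scoped Matrix

noncomputable section

namespace Fermat.Agent.LT.T6.H952

open Fermat.Agent.LT.T6 Fermat.Agent.LT.T6.H847

variable {k : Type} [Field k] [Valued k Γ₀]

/-- The matrix identity, modulo the three relations. -/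
theorem mat_identity952 (τ ν a b ξ ξ' ξ'' B' C : k) (n : ℕ)
    (h1 : (a - ν * b * ξ) * ξ'' = a * ξ + b + τ * b * ξ)
    (h2 : B' * (1 + τ * ξ' + ν * ξ' ^ 2) = ξ'' - ξ') (h3 : C * ν ^ n = B') :
    embMat τ ν a b * latMat τ ν n ξ = latMat τ ν n ξ' *
      !![(a - ν * b * ξ) * (1 + ν * ξ' * B'), -((a - ν * b * ξ) * ν ^ (n + 1) * B');
        (a - ν * b * ξ) * C, (a - ν * b * ξ) * ((1 + ν * ξ' * B') + τ * B')] := by
  ext i j
  fin_cases i <;> fin_cases j
  · simp only [embMat, latMat, Matrix.mul_apply, Fin.sum_univ_two, Matrix.of_apply,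
      Matrix.cons_val', Matrix.cons_val_zero, Matrix.cons_val_one, Fin.zero_eta, Fin.mk_one,
      Matrix.cons_val_fin_one]
    linear_combination ((a - ν * b * ξ) * ν * ξ') * h3
  · simp only [embMat, latMat, Matrix.mul_apply, Fin.sum_univ_two, Matrix.of_apply,
      Matrix.cons_val', Matrix.cons_val_zero, Matrix.cons_val_one, Fin.zero_eta, Fin.mk_one,
      Matrix.cons_val_fin_one]
    linear_combination (ν ^ (n + 1) * (a - ν * b * ξ)) * h2 + ν ^ (n + 1) * h1
  · simp only [embMat, latMat, Matrix.mul_apply, Fin.sum_univ_two, Matrix.of_apply,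
      Matrix.cons_val', Matrix.cons_val_zero, Matrix.cons_val_one, Fin.zero_eta, Fin.mk_one,
      Matrix.cons_val_fin_one]
    linear_combination (-1 : k) * h1 - (a - ν * b * ξ) * h2 -
      (a - ν * b * ξ) * (1 + τ * ξ') * h3
  · simp only [embMat, latMat, Matrix.mul_apply, Fin.sum_univ_two, Matrix.of_apply,
      Matrix.cons_val', Matrix.cons_val_zero, Matrix.cons_val_one, Fin.zero_eta, Fin.mk_one,
      Matrix.cons_val_fin_one]
    linear_combination (-(ν ^ n * τ)) * h1 - (ν ^ n * τ * (a - ν * b * ξ)) * h2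

theorem val_one_add952 {x : k} (hx : Valued.v x < 1) : Valued.v (1 + x) = 1 := by
  have h := Valuation.map_add_eq_of_lt_left (v := (Valued.v : Valuation k Γ₀)) (x := 1) (y := x)
    (by rw [map_one]; exact hx)
  rw [h, map_one]

theorem val_unit_add952 {x y : k} (hx : Valued.v x = 1) (hy : Valued.v y < 1) :
    Valued.v (x + y) = 1 := by
  have h := Valuation.map_add_eq_of_lt_left (v := (Valued.v : Valuation k Γ₀)) (x := x) (y := y)
    (by rw [hx]; exact hy)
  rw [h, hx]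

theorem val_unit_sub952 {x y : k} (hx : Valued.v x = 1) (hy : Valued.v y < 1) :
    Valued.v (x - y) = 1 := by
  rw [sub_eq_add_neg]
  exact val_unit_add952 hx (by rw [Valuation.map_neg]; exact hy)

theorem val_nu_pow952 {ν : k} (hν : Valued.v ν = WithZero.exp (-1 : ℤ)) (n : ℕ) :
    Valued.v (ν ^ n) = WithZero.exp (-(n : ℤ)) := by
  rw [map_pow, hν, ← WithZero.exp_nsmul]
  simp

theorem val_nu_lt952 {ν : k} (hν : Valued.v ν = WithZero.exp (-1 : ℤ)) : Valued.v ν < 1 := by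
  rw [hν, ← WithZero.exp_zero]
  exact WithZero.exp_lt_exp.mpr (by norm_num)

theorem val_nu_pow_le952 {ν : k} (hν : Valued.v ν = WithZero.exp (-1 : ℤ)) (n : ℕ) :
    Valued.v (ν ^ n) ≤ 1 := by
  rw [val_nu_pow952 hν, ← WithZero.exp_zero]
  exact WithZero.exp_le_exp.mpr (by omega)

/-- The norm form at an integral point is a unit. -/
theorem val_norm952 {τ ν ξ : k} (hν : Valued.v ν = WithZero.exp (-1 : ℤ)) (hτ : Valued.v τ < 1)
    (hξ : Valued.v ξ ≤ 1) : Valued.v (1 + τ * ξ + ν * ξ ^ 2) = 1 := by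
  have h1 : Valued.v (τ * ξ) < 1 := by
    rw [map_mul]
    exact mul_lt_one_of_lt_of_le hτ hξ
  have h2 : Valued.v (ν * ξ ^ 2) < 1 := by
    rw [map_mul, map_pow]
    exact mul_lt_one_of_lt_of_le (val_nu_lt952 hν) (pow_le_one₀ zero_le hξ)
  exact val_unit_add952 (val_one_add952 h1) h2

theorem latMat_det952 (τ ν : k) (n : ℕ) (ξ : k) :
    (latMat τ ν n ξ).det = ν ^ n * (1 + τ * ξ + ν * ξ ^ 2) := by
  rw [latMat, Matrix.det_fin_two_of]
  ring

theorem latGL_coe952 {τ ν : k} (hν : Valued.v ν = WithZero.exp (-1 : ℤ)) (hτ : Valued.v τ < 1)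
    (n : ℕ) {ξ : k} (hξ : Valued.v ξ ≤ 1) :
    ((latGL τ ν n ξ : GL (Fin 2) k) : Matrix (Fin 2) (Fin 2) k) = latMat τ ν n ξ := by
  have hν0 : ν ≠ 0 := by
    intro h0
    rw [h0, map_zero] at hν
    exact WithZero.exp_ne_zero hν.symm
  have hN : (1 + τ * ξ + ν * ξ ^ 2) ≠ 0 := by
    intro h0
    have := val_norm952 hν hτ hξ
    rw [h0, map_zero] at this
    exact zero_ne_one this
  have hdet : (latMat τ ν n ξ).det ≠ 0 := by
    rw [latMat_det952]
    exact mul_ne_zero (pow_ne_zero _ hν0) hN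
  unfold latGL
  rw [dif_pos hdet]
  rfl

/-- An element of `GL₂(k)` with integral entries and unit determinant lies in `U(0)`. -/
theorem inU_zero_of952 (u : GL (Fin 2) k)
    (hent : ∀ i j, Valued.v ((u : Matrix (Fin 2) (Fin 2) k) i j) ≤ 1)
    (hdet : Valued.v ((u : Matrix (Fin 2) (Fin 2) k).det) = 1) : InU 0 u := by
  have hone : ∀ i j : Fin 2, Valued.v ((1 : Matrix (Fin 2) (Fin 2) k) i j) ≤ 1 := by
    intro i j
    rw [Matrix.one_apply]
    split_ifs
    · rw [map_one]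
    · rw [map_zero]; exact zero_le
  have hexp : WithZero.exp (-((0 : ℕ) : ℤ)) = (1 : Γ₀) := by simp
  have hinv : ∀ i j, Valued.v (((u⁻¹ : GL (Fin 2) k) : Matrix (Fin 2) (Fin 2) k) i j) ≤ 1 := by
    intro i j
    rw [Matrix.coe_units_inv, Matrix.inv_def, Matrix.adjugate_fin_two, Ring.inverse_eq_inv',
      Matrix.smul_apply, smul_eq_mul, map_mul, map_inv₀, hdet, inv_one, one_mul]
    fin_cases i <;> fin_cases j
    · simpa using hent 1 1
    · simpa using hent 0 1
    · simpa using hent 1 0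
    · simpa using hent 0 0
  intro i j
  rw [hexp]
  exact ⟨Valuation.map_sub_le _ (hent i j) (hone i j),
    Valuation.map_sub_le _ (hinv i j) (hone i j)⟩

/-- **Leaf T6.14b.L3** (registry row 1166). -/
theorem latOrbitExC952 : Fermat.Agent.LT.H129.LatOrbitExC129 := by
  intro k _ _ τ ν hν hτ n B hB ξ a b t hξ ha hb ht
  have hνlt : Valued.v ν < 1 := val_nu_lt952 hν
  have hν0 : ν ≠ 0 := by
    intro h0
    rw [h0, map_zero] at hν
    exact WithZero.exp_ne_zero hν.symm
  -- `a₁` and `b₁`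
  have hνbξ : Valued.v (ν * b * ξ) < 1 := by
    rw [map_mul, map_mul]
    exact mul_lt_one_of_lt_of_le (mul_lt_one_of_lt_of_le hνlt hb) hξ
  have ha₁ : Valued.v (a - ν * b * ξ) = 1 := val_unit_sub952 ha hνbξ
  have ha₁0 : a - ν * b * ξ ≠ 0 := by
    intro h0
    rw [h0, map_zero] at ha₁
    exact zero_ne_one ha₁
  have hb₁ : Valued.v (a * ξ + b + τ * b * ξ) ≤ 1 := by
    refine Valuation.map_add_le _ (Valuation.map_add_le _ ?_ hb) ?_
    · rw [map_mul, ha, one_mul]; exact hξ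
    · rw [map_mul, map_mul]
      exact Left.mul_le_one (Left.mul_le_one hτ.le hb) hξ
  -- `ξ''` and `ξ'`
  have hξ'' : Valued.v ((a * ξ + b + τ * b * ξ) / (a - ν * b * ξ)) ≤ 1 := by
    rw [map_div₀, ha₁, div_one]
    exact hb₁
  obtain ⟨ξ', ⟨hξ'B, hclose⟩, -⟩ := hB.2 _ hξ''
  have hξ' : Valued.v ξ' ≤ 1 := hB.1 ξ' hξ'B
  have hN' : Valued.v (1 + τ * ξ' + ν * ξ' ^ 2) = 1 := val_norm952 hν hτ hξ'
  have hN'0 : (1 + τ * ξ' + ν * ξ' ^ 2) ≠ 0 := by
    intro h0
    rw [h0, map_zero] at hN'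
    exact zero_ne_one hN'
  -- `B'`, `C`, `A`
  obtain ⟨ξ'', hξ''def⟩ : ∃ ξ'' : k, ξ'' = (a * ξ + b + τ * b * ξ) / (a - ν * b * ξ) := ⟨_, rfl⟩
  rw [← hξ''def] at hclose
  obtain ⟨B', hB'def⟩ : ∃ B' : k, B' = (ξ'' - ξ') / (1 + τ * ξ' + ν * ξ' ^ 2) := ⟨_, rfl⟩
  obtain ⟨C, hCdef⟩ : ∃ C : k, C = B' / ν ^ n := ⟨_, rfl⟩
  have h1 : (a - ν * b * ξ) * ξ'' = a * ξ + b + τ * b * ξ := by
    rw [hξ''def, mul_div_cancel₀ _ ha₁0]
  have h2 : B' * (1 + τ * ξ' + ν * ξ' ^ 2) = ξ'' - ξ' := by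
    rw [hB'def, div_mul_cancel₀ _ hN'0]
  have h3 : C * ν ^ n = B' := by
    rw [hCdef, div_mul_cancel₀ _ (pow_ne_zero _ hν0)]
  have hB'v : Valued.v B' ≤ WithZero.exp (-(n : ℤ)) := by
    rw [hB'def, map_div₀, hN', div_one]
    exact hclose
  have hB'1 : Valued.v B' ≤ 1 := by
    refine hB'v.trans ?_
    rw [← WithZero.exp_zero]
    exact WithZero.exp_le_exp.mpr (by omega)
  have hCv : Valued.v C ≤ 1 := by
    rw [hCdef, map_div₀, val_nu_pow952 hν]
    exact (div_le_one₀ WithZero.exp_pos).mpr hB'v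
  have hνξB : Valued.v (ν * ξ' * B') < 1 := by
    rw [map_mul, map_mul]
    exact mul_lt_one_of_lt_of_le (mul_lt_one_of_lt_of_le hνlt hξ') hB'1
  have hA : Valued.v (1 + ν * ξ' * B') = 1 := val_one_add952 hνξB
  have hτB : Valued.v (τ * B') < 1 := by
    rw [map_mul]
    exact mul_lt_one_of_lt_of_le hτ hB'1
  have hAτ : Valued.v ((1 + ν * ξ' * B') + τ * B') = 1 := val_unit_add952 hA hτB
  -- the matrix `U`
  obtain ⟨U, hUdef⟩ : ∃ U : Matrix (Fin 2) (Fin 2) k, U =
      !![(a - ν * b * ξ) * (1 + ν * ξ' * B'), -((a - ν * b * ξ) * ν ^ (n + 1) * B');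
        (a - ν * b * ξ) * C, (a - ν * b * ξ) * ((1 + ν * ξ' * B') + τ * B')] := ⟨_, rfl⟩
  have hUdet : U.det = (a - ν * b * ξ) ^ 2 *
      ((1 + ν * ξ' * B') * ((1 + ν * ξ' * B') + τ * B') + ν ^ (n + 1) * B' * C) := by
    rw [hUdef, Matrix.det_fin_two_of]
    ring
  have hUdetv : Valued.v U.det = 1 := by
    rw [hUdet, map_mul, map_pow, ha₁, one_pow, one_mul]
    refine val_unit_add952 (by rw [map_mul, hA, hAτ, one_mul]) ?_
    rw [map_mul, map_mul, pow_succ, map_mul]
    exact mul_lt_one_of_lt_of_le (mul_lt_one_of_lt_of_le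
      (by rw [mul_comm]; exact mul_lt_one_of_lt_of_le hνlt (val_nu_pow_le952 hν n)) hB'1) hCv
  have hUdet0 : U.det ≠ 0 := by
    intro h0
    rw [h0, map_zero] at hUdetv
    exact zero_ne_one hUdetv
  have hUent : ∀ i j, Valued.v (U i j) ≤ 1 := by
    intro i j
    rw [hUdef]
    fin_cases i <;> fin_cases j
    · show Valued.v ((a - ν * b * ξ) * (1 + ν * ξ' * B')) ≤ 1
      rw [map_mul, ha₁, hA, one_mul]
    · show Valued.v (-((a - ν * b * ξ) * ν ^ (n + 1) * B')) ≤ 1
      rw [Valuation.map_neg, map_mul, map_mul, ha₁, one_mul]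
      exact Left.mul_le_one (val_nu_pow_le952 hν _) hB'1
    · show Valued.v ((a - ν * b * ξ) * C) ≤ 1
      rw [map_mul, ha₁, one_mul]
      exact hCv
    · show Valued.v ((a - ν * b * ξ) * ((1 + ν * ξ' * B') + τ * B')) ≤ 1
      rw [map_mul, ha₁, hAτ, one_mul]
  -- conclusion
  refine ⟨ξ', hξ'B, Matrix.GeneralLinearGroup.mkOfDetNeZero U hUdet0, ?_, ?_⟩
  · exact inU_zero_of952 _ hUent hUdetv
  · apply Units.ext
    rw [Units.val_mul, Units.val_mul, ht, latGL_coe952 hν hτ n hξ, latGL_coe952 hν hτ n hξ']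
    show embMat τ ν a b * latMat τ ν n ξ = latMat τ ν n ξ' * U
    rw [hUdef]
    exact mat_identity952 τ ν a b ξ ξ' ξ'' B' C n h1 h2 h3

end Fermat.Agent.LT.T6.H952

end

end
-- ===== PACK-END LT/T6/H952/LatOrbitEx.lean

-- ===== PACK-BEGIN LT/T6/H75/LatOrbitUniq.lean
section


/-!
# Row LT, tower T6, sub-leaf T6.14b.L4 `LatOrbitUniqC129`: CLOSED, unconditional (helper75)

OFF-MAIN.  Sub-spec: `LT/H129/EllParamSpec.lean` (helper129@6c63cff25, sha256 9e6fc0e0,
byte-identical copy) on `LT/T6/H847/EllRamSpec.lean` (3578c164) and `LT/T6/Spec.lean` (89f8f8b8).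

`latMat n ξ' = latMat n ξ · u` with `u` integral: the first column reads
`1 = u₀₀ - ν^(n+1) ξ u₁₀`, `ξ' = ξ u₀₀ + (1 + τ ξ) νⁿ u₁₀`, hence
`ξ' - ξ = νⁿ u₁₀ (1 + τ ξ + ν ξ²)`, of valuation `≤ exp (-n)`.

* `latMat_det75`, `val_norm_eq_one75`, `latMat_det_ne_zero75`, `coe_latGL75` (reusable);
* `latOrbitUniq75 : LatOrbitUniqC129` (VERBATIM, registry row T6.14b.L4).
-/

set_option autoImplicit false

open scoped Matrix

noncomputable section

namespace Fermat.Agent.LT.T6.H75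

open Fermat.Agent.LT.T6 Fermat.Agent.LT.T6.H847 Fermat.Agent.LT.H129

variable {k : Type} [Field k] [Valued k Γ₀]

/-- `det (x_ξ g_n) = νⁿ (1 + τ ξ + ν ξ²)`. -/
theorem latMat_det75 {k : Type} [Field k] (τ ν : k) (n : ℕ) (ξ : k) :
    (latMat τ ν n ξ).det = ν ^ n * (1 + τ * ξ + ν * ξ ^ 2) := by
  unfold latMat
  rw [Matrix.det_fin_two_of]
  ring

/-- The norm `N(1 + ξ Π) = 1 + τ ξ + ν ξ²` of `1 + ξ Π` is a unit for `ξ` integral. -/
theorem val_norm_eq_one75 {τ ν ξ : k} (hν : Valued.v ν = WithZero.exp (-1 : ℤ))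
    (hτ : Valued.v τ < 1) (hξ : Valued.v ξ ≤ 1) :
    Valued.v (1 + τ * ξ + ν * ξ ^ 2) = 1 := by
  have hν1 : Valued.v ν < 1 := by
    rw [hν, ← WithZero.exp_zero, WithZero.exp_lt_exp]
    norm_num
  have h1 : Valued.v (τ * ξ) < 1 := by
    rw [map_mul]
    calc Valued.v τ * Valued.v ξ ≤ Valued.v τ * 1 := mul_le_mul_right hξ _
      _ = Valued.v τ := mul_one _
      _ < 1 := hτ
  have h2 : Valued.v (ν * ξ ^ 2) < 1 := by
    rw [map_mul, map_pow]
    calc Valued.v ν * Valued.v ξ ^ 2 ≤ Valued.v ν * 1 :=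
          mul_le_mul_right (pow_le_one₀ zero_le hξ) _
      _ = Valued.v ν := mul_one _
      _ < 1 := hν1
  have h3 : Valued.v (τ * ξ + ν * ξ ^ 2) < 1 :=
    lt_of_le_of_lt (Valuation.map_add _ _ _) (max_lt h1 h2)
  rw [add_assoc]
  exact Valuation.map_one_add_of_lt _ h3

theorem unif_ne_zero75 {ν : k} (hν : Valued.v ν = WithZero.exp (-1 : ℤ)) : ν ≠ 0 := by
  intro h0
  rw [h0, map_zero] at hν
  exact WithZero.exp_ne_zero hν.symm

/-- `det (x_ξ g_n) ≠ 0` for `ξ` integral. -/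
theorem latMat_det_ne_zero75 {τ ν ξ : k} (hν : Valued.v ν = WithZero.exp (-1 : ℤ))
    (hτ : Valued.v τ < 1) (hξ : Valued.v ξ ≤ 1) (n : ℕ) : (latMat τ ν n ξ).det ≠ 0 := by
  rw [latMat_det75]
  refine mul_ne_zero (pow_ne_zero _ (unif_ne_zero75 hν)) ?_
  intro h0
  have := val_norm_eq_one75 hν hτ hξ
  rw [h0, map_zero] at this
  exact zero_ne_one this

/-- The matrix of `latGL` for `ξ` integral. -/
theorem coe_latGL75 {τ ν ξ : k} (hν : Valued.v ν = WithZero.exp (-1 : ℤ))
    (hτ : Valued.v τ < 1) (hξ : Valued.v ξ ≤ 1) (n : ℕ) :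
    ((latGL τ ν n ξ : GL (Fin 2) k) : Matrix (Fin 2) (Fin 2) k) = latMat τ ν n ξ := by
  unfold latGL
  rw [dif_pos (latMat_det_ne_zero75 hν hτ hξ n)]
  rfl

/-- An element of `GL₂(𝒪)` has integral entries. -/
theorem val_entry_le_one75 {u : GL (Fin 2) k} (hu : InU 0 u) (i j : Fin 2) :
    Valued.v ((u : Matrix (Fin 2) (Fin 2) k) i j) ≤ 1 := by
  have h := (hu i j).1
  have h0 : WithZero.exp (-((0 : ℕ) : ℤ)) = (1 : Γ₀) := by simp
  rw [h0] at h
  have h1 : Valued.v ((1 : Matrix (Fin 2) (Fin 2) k) i j) ≤ 1 := by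
    by_cases hij : i = j
    · subst hij; simp
    · simp [hij]
  have e : (u : Matrix (Fin 2) (Fin 2) k) i j
      = ((u : Matrix (Fin 2) (Fin 2) k) i j - (1 : Matrix (Fin 2) (Fin 2) k) i j)
        + (1 : Matrix (Fin 2) (Fin 2) k) i j := by ring
  rw [e]
  exact le_trans (Valuation.map_add _ _ _) (max_le h h1)

/-- **T6.14b.L4** (`LatOrbitUniqC129`, VERBATIM): `latGL n ξ' ∈ latGL n ξ · GL₂(𝒪)` implies
`ξ' ≡ ξ mod νⁿ`.  Unconditional. -/
theorem latOrbitUniq75 : LatOrbitUniqC129 := by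
  intro k _ _ τ ν hν hτ n ξ ξ' u hξ hξ' hu h
  have e : latMat τ ν n ξ' = latMat τ ν n ξ * (u : Matrix (Fin 2) (Fin 2) k) := by
    have := congrArg (fun g : GL (Fin 2) k => (g : Matrix (Fin 2) (Fin 2) k)) h
    simp only [Matrix.GeneralLinearGroup.coe_mul] at this
    rw [coe_latGL75 hν hτ hξ' n, coe_latGL75 hν hτ hξ n] at this
    exact this
  have e00 := congrFun (congrFun e 0) 0
  have e10 := congrFun (congrFun e 1) 0
  rw [Matrix.mul_apply, Fin.sum_univ_two] at e00 e10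
  simp only [latMat, Matrix.of_apply, Matrix.cons_val', Matrix.cons_val_zero,
    Matrix.cons_val_one, Matrix.cons_val_fin_one] at e00 e10
  have key : ξ' - ξ
      = ν ^ n * (u : Matrix (Fin 2) (Fin 2) k) 1 0 * (1 + τ * ξ + ν * ξ ^ 2) := by
    linear_combination e10 - ξ * e00
  rw [key, map_mul, map_mul, map_pow, hν, val_norm_eq_one75 hν hτ hξ, mul_one]
  have hexp : (WithZero.exp (-1 : ℤ) : Γ₀) ^ n = WithZero.exp (-(n : ℤ)) := by
    rw [← WithZero.exp_nsmul]
    simp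
  rw [hexp]
  calc WithZero.exp (-(n : ℤ)) * Valued.v ((u : Matrix (Fin 2) (Fin 2) k) 1 0)
      ≤ WithZero.exp (-(n : ℤ)) * 1 := mul_le_mul_right (val_entry_le_one75 hu 1 0) _
    _ = WithZero.exp (-(n : ℤ)) := mul_one _

end Fermat.Agent.LT.T6.H75

end

end
-- ===== PACK-END LT/T6/H75/LatOrbitUniq.lean

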