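import Mathlib
import Fermat.Agent.Pack.LT2.E0L2
import Fermat.Agent.Pack.LT2.E2L1
import Fermat.Agent.Pack.LT2.E5L3
import Fermat.Agent.Pack.LT3.E8L2
import Fermat.Agent.Pack.LT3.E5L0
import Fermat.Agent.Pack.LT3.E8L3
import Fermat.Agent.Pack.LT3.E8L0
import Fermat.Agent.Pack.LT3.E9L0
import Fermat.Agent.Pack.LT3.E0L0
import Fermat.Agent.Pack.LT3.E9L3
import Fermat.Agent.Pack.LT2.E0L1
import Fermat.Agent.Pack.LT3.E4L2
import Fermat.Agent.Pack.LT3.E6L1
import Fermat.Agent.Pack.LT3.E11L0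

set_option linter.all false

-- ===== PACK-BEGIN LT/T2/H879/CommSphereCircle.lean
section






/-!
# Row LT, tower T2, sub-leaf T2.07.19 `SubCommSphereCircle429` (helper879), OFF-MAIN

A sphere mean (complex place `w`) and a circle mean (real place `w'`) commute on the cusp
functions.  Proof: `w ≠ w'`, so the parametrising elements commute (`comm_of_local879`), and the
three interval integrals may be interchanged (Fubini for continuous integrands on a box).

Input: the auxiliary sub-leaf T2.07.30 `SubLocCont429` (continuity of the parametrisations).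
Vocabulary: byte-identical copies of `LT/H556/A0.lean`, `LT/T1/Spec.lean`, `LT/T2/Spec.lean`,
`LT/T2/H429/OpsSpec.lean` (helper429@dcf706097).
-/

set_option autoImplicit false

open IsDedekindDomain NumberField MeasureTheory
open Fermat.Agent.LT.H556.A0
open Fermat.Agent.LT.T2
open Fermat.Agent.LT.T2.H429

noncomputable section

namespace Fermat.Agent.LT.T2.H879

variable {K : Type} [Field K] [NumberField K]

/-! ## 1. Elements supported at different infinite places commute -/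

/-- Two adeles with the same components are equal. -/
theorem adl_ext879 {x y : Adl K} (hinf : ∀ u : InfinitePlace K, x.1 u = y.1 u)
    (hfin : ∀ v : HeightOneSpectrum (𝓞 K), x.2 v = y.2 v) : x = y := by
  refine Prod.ext ?_ ?_
  · funext u
    exact hinf u
  · exact RestrictedProduct.ext _ _ hfin

/-- The entries of a product at an infinite place. -/
theorem mul_inf879 (a b : G K) (u : InfinitePlace K) (i j : Fin 2) :
    (((a * b : G K) : Matrix (Fin 2) (Fin 2) (Adl K)) i j).1 u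
      = ((a : Matrix (Fin 2) (Fin 2) (Adl K)) i 0).1 u
          * ((b : Matrix (Fin 2) (Fin 2) (Adl K)) 0 j).1 u
        + ((a : Matrix (Fin 2) (Fin 2) (Adl K)) i 1).1 u
          * ((b : Matrix (Fin 2) (Fin 2) (Adl K)) 1 j).1 u := by
  rw [Units.val_mul, Matrix.mul_apply, Fin.sum_univ_two]
  rfl

/-- The entries of a product at a finite place. -/
theorem mul_fin879 (a b : G K) (v : HeightOneSpectrum (𝓞 K)) (i j : Fin 2) :
    (((a * b : G K) : Matrix (Fin 2) (Fin 2) (Adl K)) i j).2 v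
      = ((a : Matrix (Fin 2) (Fin 2) (Adl K)) i 0).2 v
          * ((b : Matrix (Fin 2) (Fin 2) (Adl K)) 0 j).2 v
        + ((a : Matrix (Fin 2) (Fin 2) (Adl K)) i 1).2 v
          * ((b : Matrix (Fin 2) (Fin 2) (Adl K)) 1 j).2 v := by
  rw [Units.val_mul, Matrix.mul_apply, Fin.sum_univ_two]
  rfl

/-- If `a` is trivial at the infinite place `u`, then `a * b` and `b * a` have the components of
`b` at `u`. -/
theorem mul_inf_of_triv_left879 {a : G K} {u : InfinitePlace K} (ha : TrivAtInf u a) (b : G K)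
    (i j : Fin 2) :
    (((a * b : G K) : Matrix (Fin 2) (Fin 2) (Adl K)) i j).1 u
      = ((b : Matrix (Fin 2) (Fin 2) (Adl K)) i j).1 u := by
  rw [mul_inf879, ha i 0, ha i 1]
  fin_cases i <;> simp [Matrix.one_apply]

theorem mul_inf_of_triv_right879 {a : G K} {u : InfinitePlace K} (ha : TrivAtInf u a) (b : G K)
    (i j : Fin 2) :
    (((b * a : G K) : Matrix (Fin 2) (Fin 2) (Adl K)) i j).1 u
      = ((b : Matrix (Fin 2) (Fin 2) (Adl K)) i j).1 u := by
  rw [mul_inf879, ha 0 j, ha 1 j]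
  fin_cases j <;> simp [Matrix.one_apply]

theorem trivAtFin_apply879 {a : G K} {v : HeightOneSpectrum (𝓞 K)} (ha : TrivAtFin v a)
    (i j : Fin 2) :
    ((a : Matrix (Fin 2) (Fin 2) (Adl K)) i j).2 v
      = (1 : Matrix (Fin 2) (Fin 2) (v.adicCompletion K)) i j := by
  have h := congrFun (congrFun ha i) j
  exact h

theorem mul_fin_of_triv_left879 {a : G K} {v : HeightOneSpectrum (𝓞 K)} (ha : TrivAtFin v a)
    (b : G K) (i j : Fin 2) :
    (((a * b : G K) : Matrix (Fin 2) (Fin 2) (Adl K)) i j).2 v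
      = ((b : Matrix (Fin 2) (Fin 2) (Adl K)) i j).2 v := by
  rw [mul_fin879, trivAtFin_apply879 ha i 0, trivAtFin_apply879 ha i 1]
  fin_cases i <;> simp [Matrix.one_apply]

theorem mul_fin_of_triv_right879 {a : G K} {v : HeightOneSpectrum (𝓞 K)} (ha : TrivAtFin v a)
    (b : G K) (i j : Fin 2) :
    (((b * a : G K) : Matrix (Fin 2) (Fin 2) (Adl K)) i j).2 v
      = ((b : Matrix (Fin 2) (Fin 2) (Adl K)) i j).2 v := by
  rw [mul_fin879, trivAtFin_apply879 ha 0 j, trivAtFin_apply879 ha 1 j]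
  fin_cases j <;> simp [Matrix.one_apply]

/-- **Elements supported at two different infinite places commute.** -/
theorem comm_of_local879 {w w' : InfinitePlace K} (hne : w ≠ w') {a b : G K}
    (ha : IsLocalAtInf w a) (hb : IsLocalAtInf w' b) : a * b = b * a := by
  apply Units.ext
  funext i j
  apply adl_ext879
  · intro u
    by_cases hu : u = w
    · have hb' : TrivAtInf u b := hb.1 u (by rw [hu]; exact hne)
      rw [mul_inf_of_triv_right879 hb' a i j, mul_inf_of_triv_left879 hb' a i j]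
    · have ha' : TrivAtInf u a := ha.1 u hu
      rw [mul_inf_of_triv_left879 ha' b i j, mul_inf_of_triv_right879 ha' b i j]
  · intro v
    rw [mul_fin_of_triv_left879 (ha.2 v) b i j, mul_fin_of_triv_right879 (ha.2 v) b i j]

/-! ## 2. Continuity of the parametrisations -/

theorem continuous_rotZ_entry879 (i j : Fin 2) : Continuous fun α : ℝ => rotZ α i j := by
  fin_cases i <;> fin_cases j <;> simp [rotZ] <;> fun_prop

theorem continuous_rotY_entry879 (i j : Fin 2) : Continuous fun β : ℝ => rotY β i j := by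
  fin_cases i <;> fin_cases j <;> simp [rotY] <;> fun_prop

/-- The parametrisation of a sphere is continuous. -/
theorem continuous_sphere879 (hLC : SubLocCont429 K) {w : InfinitePlace K} {d : ℝ}
    {Y : ℝ → ℝ → G K} (hY : IsSphereAt w d Y) :
    Continuous fun p : ℝ × ℝ => Y p.1 p.2 := by
  refine hLC w (ℝ × ℝ) (fun p => Y p.1 p.2) (fun p => (hY p.1 p.2).1) ?_
  intro i j
  have h : (fun p : ℝ × ℝ => infComp w (Y p.1 p.2) i j)
      = fun p : ℝ × ℝ => (rotZ p.1 * rotY p.2 * torus d) i j := by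
    funext p
    rw [(hY p.1 p.2).2]
  rw [h]
  simp only [Matrix.mul_apply, Fin.sum_univ_two]
  have hZ := fun i j => (continuous_rotZ_entry879 i j).comp (continuous_fst : Continuous fun p : ℝ × ℝ => p.1)
  have hYY := fun i j => (continuous_rotY_entry879 i j).comp (continuous_snd : Continuous fun p : ℝ × ℝ => p.2)
  simp only [Function.comp_def] at hZ hYY
  fun_prop

/-- The parametrisation of a circle is continuous. -/
theorem continuous_circle879 (hLC : SubLocCont429 K) {w : InfinitePlace K} {t : ℝ}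
    {Y : ℝ → G K} (hY : IsCircleAt w t Y) : Continuous Y := by
  refine hLC w ℝ Y (fun θ => (hY θ).1) ?_
  intro i j
  have h : (fun θ : ℝ => infComp w (Y θ) i j) = fun θ : ℝ => (rotY θ * torus t) i j := by
    funext θ
    rw [(hY θ).2]
  rw [h]
  simp only [Matrix.mul_apply, Fin.sum_univ_two]
  have hYY := fun i j => continuous_rotY_entry879 i j
  fun_prop

/-! ## 3. Fubini on a box -/

/-- Interchange of three interval integrals for a continuous integrand with a weight in the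
middle variable. -/
theorem swap3_879 {F : ℝ → ℝ → ℝ → ℂ}
    (hF : Continuous fun p : ℝ × ℝ × ℝ => F p.1 p.2.1 p.2.2) {s : ℝ → ℂ} (hs : Continuous s)
    (a b c d e f : ℝ) :
    (∫ α in a..b, ∫ β in c..d, (∫ θ in e..f, F α β θ) * s β)
      = ∫ θ in e..f, ∫ α in a..b, ∫ β in c..d, F α β θ * s β := by
  -- the integrand `G α β θ = F α β θ * s β`
  have hG : Continuous fun p : ℝ × ℝ × ℝ => F p.1 p.2.1 p.2.2 * s p.2.1 :=
    hF.mul (hs.comp (continuous_fst.comp continuous_snd))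
  -- step 1: the weight goes inside
  have h1 : ∀ α β : ℝ, (∫ θ in e..f, F α β θ) * s β = ∫ θ in e..f, F α β θ * s β := by
    intro α β
    exact (intervalIntegral.integral_mul_const (s β) (fun θ => F α β θ)).symm
  simp only [h1]
  -- step 2: interchange of the two inner integrals
  have h2 : ∀ α : ℝ, (∫ β in c..d, ∫ θ in e..f, F α β θ * s β)
      = ∫ θ in e..f, ∫ β in c..d, F α β θ * s β := by
    intro α
    apply intervalIntegral_intervalIntegral_swap
    have hc : Continuous (Function.uncurry fun β θ : ℝ => F α β θ * s β) := by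
      have : (Function.uncurry fun β θ : ℝ => F α β θ * s β)
          = (fun p : ℝ × ℝ × ℝ => F p.1 p.2.1 p.2.2 * s p.2.1) ∘ fun q : ℝ × ℝ => (α, q.1, q.2) := by
        funext q
        rfl
      rw [this]
      exact hG.comp (by fun_prop)
    exact (hc.continuousOn.integrableOn_compact
      (isCompact_uIcc.prod isCompact_uIcc)).mono_set
      (Set.prod_mono Set.uIoc_subset_uIcc Set.uIoc_subset_uIcc)
  simp only [h2]
  -- step 3: interchange of the two outer integrals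
  apply intervalIntegral_intervalIntegral_swap
  have hc : Continuous (Function.uncurry fun α θ : ℝ => ∫ β in c..d, F α β θ * s β) := by
    have hpar := intervalIntegral.continuous_parametric_intervalIntegral_of_continuous'
      (μ := volume) (f := fun (q : ℝ × ℝ) (β : ℝ) => F q.1 β q.2 * s β) (by
        have : (Function.uncurry fun (q : ℝ × ℝ) (β : ℝ) => F q.1 β q.2 * s β)
            = (fun p : ℝ × ℝ × ℝ => F p.1 p.2.1 p.2.2 * s p.2.1)
                ∘ fun r : (ℝ × ℝ) × ℝ => (r.1.1, r.2, r.1.2) := by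
          funext r
          rfl
        rw [this]
        exact hG.comp (by fun_prop)) c d
    exact hpar
  exact (hc.continuousOn.integrableOn_compact
    (isCompact_uIcc.prod isCompact_uIcc)).mono_set
    (Set.prod_mono Set.uIoc_subset_uIcc Set.uIoc_subset_uIcc)

/-! ## 4. The sub-leaf -/

/-- **T2.07.19** from T2.07.30: a sphere mean and a circle mean commute on the cusp
functions. -/
theorem subCommSphereCircle_of_locCont879 (hLC : SubLocCont429 K) :
    SubCommSphereCircle429 K := by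
  intro 𝔫 _ w hw d _ Y hY w' hw' t _ Y' hY' φ hφ
  have hne : w ≠ w' := by
    rintro rfl
    exact (InfinitePlace.not_isReal_iff_isComplex.mpr hw) hw'
  have hcY : Continuous fun p : ℝ × ℝ => Y p.1 p.2 := continuous_sphere879 hLC hY
  have hcY' : Continuous Y' := continuous_circle879 hLC hY'
  funext g
  show (∫ α in (0 : ℝ)..(2 * Real.pi), ∫ β in (0 : ℝ)..Real.pi,
        circleMean Y' φ (g * Y α β) * ((Real.sin β : ℝ) : ℂ))
      = ∫ θ in (0 : ℝ)..(2 * Real.pi), sphereMean Y φ (g * Y' θ)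
  simp only [circleMean, sphereMean]
  have hcomm : ∀ α β θ : ℝ, g * Y' θ * Y α β = g * Y α β * Y' θ := by
    intro α β θ
    rw [mul_assoc, mul_assoc, comm_of_local879 hne (hY α β).1 (hY' θ).1]
  simp only [hcomm]
  refine swap3_879 (F := fun α β θ => φ (g * Y α β * Y' θ)) ?_
    (s := fun β => ((Real.sin β : ℝ) : ℂ)) ?_ _ _ _ _ _ _
  · refine hφ.cont.comp ?_
    have h1 : Continuous fun p : ℝ × ℝ × ℝ => Y p.1 p.2.1 :=
      hcY.comp (continuous_fst.prodMk (continuous_fst.comp continuous_snd))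
    have h2 : Continuous fun p : ℝ × ℝ × ℝ => Y' p.2.2 :=
      hcY'.comp (continuous_snd.comp continuous_snd)
    exact (continuous_const.mul h1).mul h2
  · fun_prop

end Fermat.Agent.LT.T2.H879

end
end
-- ===== PACK-END LT/T2/H879/CommSphereCircle.lean

-- ===== PACK-BEGIN LT/T6/H277/NormalForm.lean
section





/-!
# Row LT, tower T6, leaf T6.13.2: the normal form of `γ` from the leaves (helper277) -- OFF-MAIN

`exists_nf277 : PolyNFC → CompanionC → DiscUnitC → ` every regular `γ` without eigenvalue and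
without centraliser element of determinant a uniformiser is conjugate to some `y` in normal form
(`IsNF277`), and `ordDet γ = 2 j`, `ordDisc γ = 2 j + 2 r`.
-/

set_option autoImplicit false

open scoped Matrix

noncomputable section

namespace Fermat.Agent.LT.T6.H277

open Fermat.Agent.LT.T6 Fermat.Agent.LT.T6.H60 Fermat.Agent.LT.H129

section Val

variable {k : Type} [Field k] [Valued k Γ₀]

theorem v_zpow277 {ϖ : k} (hϖ : Valued.v ϖ = WithZero.exp (-1 : ℤ)) (n : ℤ) :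
    Valued.v (ϖ ^ n) = WithZero.exp (-n) := by
  rw [map_zpow₀, hϖ, ← WithZero.exp_zsmul]
  congr 1
  simp

theorem v_pow277 {ϖ : k} (hϖ : Valued.v ϖ = WithZero.exp (-1 : ℤ)) (n : ℕ) :
    Valued.v (ϖ ^ n) = WithZero.exp (-(n : ℤ)) := by
  rw [← zpow_natCast, v_zpow277 hϖ]

theorem unif_ne_zero277 {ϖ : k} (hϖ : Valued.v ϖ = WithZero.exp (-1 : ℤ)) : ϖ ≠ 0 := by
  intro h
  rw [h, map_zero] at hϖ
  exact WithZero.exp_ne_zero hϖ.symm

theorem v_pow_le_one277 {ϖ : k} (hϖ : Valued.v ϖ = WithZero.exp (-1 : ℤ)) (n : ℕ) :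
    Valued.v (ϖ ^ n) ≤ 1 := by
  rw [v_pow277 hϖ, ← WithZero.exp_zero]
  exact WithZero.exp_le_exp.mpr (by omega)

/-- `InU 0` from integral entries and unit determinant. -/
theorem inU_zero_of277 (g : GL (Fin 2) k)
    (hint : ∀ i j, Valued.v ((g : Matrix (Fin 2) (Fin 2) k) i j) ≤ 1)
    (hdet : Valued.v (g : Matrix (Fin 2) (Fin 2) k).det = 1) : InU 0 g := by
  rw [inU_zero_iff129]
  have h1 : IsInt129 (vO129 k) g := fun i j => (mem_vO129 _).mpr (hint i j)
  refine ⟨h1, isInt129_inv_of_det h1 ?_⟩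
  rw [mem_vO129, map_inv₀, hdet, inv_one]

end Val

/-- The normal form of `γ` from the leaves. -/
theorem exists_nf277 (hP : PolyNFC) (hC : CompanionC) (hD : DiscUnitC)
    {k : Type} [Field k] [Valued k Γ₀] {q : ℕ} (hk : IsLocalField k q)
    (γ : GL (Fin 2) k) (hE : ¬ HasEigen k γ) (hR : ¬ HasRamUnif k γ) :
    ∃ (ϖ : k) (j : ℤ) (r : ℕ) (a : k) (w u y x : GL (Fin 2) k),
      IsNF277 ϖ j r a w u y ∧ y = x⁻¹ * γ * x ∧ ordDet γ = 2 * j ∧
        ordDisc γ = 2 * j + 2 * (r : ℤ) := by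
  set G : Matrix (Fin 2) (Fin 2) k := (γ : Matrix (Fin 2) (Fin 2) k) with hG
  have hGe : G = !![G 0 0, G 0 1; G 1 0, G 1 1] := Matrix.eta_fin_two G
  have hdetG : G.det = G 0 0 * G 1 1 - G 0 1 * G 1 0 := Matrix.det_fin_two G
  have htrG : G.trace = G 0 0 + G 1 1 := Matrix.trace_fin_two G
  have hn0 : G.det ≠ 0 := by
    have := (Matrix.isUnit_iff_isUnit_det G).mp γ.isUnit
    exact this.ne_zero
  have hroot : ∀ x : k, x ^ 2 - G.trace * x + G.det ≠ 0 := fun x hx => hE ⟨x, hx⟩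
  have hnorm : ∀ x y : k,
      Valued.v (x ^ 2 + G.trace * x * y + G.det * y ^ 2) ≠ WithZero.exp (-1 : ℤ) := by
    intro x y hxy
    apply hR
    set T : Matrix (Fin 2) (Fin 2) k := x • (1 : Matrix (Fin 2) (Fin 2) k) + y • G with hT
    have hTdet : T.det = x ^ 2 + G.trace * x * y + G.det * y ^ 2 := by
      rw [Matrix.det_fin_two, hdetG, htrG, hT]
      simp [Matrix.add_apply, Matrix.smul_apply]
      ring
    have hT0 : T.det ≠ 0 := by
      intro h0
      rw [hTdet] at h0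
      rw [h0, map_zero] at hxy
      exact WithZero.exp_ne_zero hxy.symm
    refine ⟨mk277 T hT0, ?_, ?_⟩
    · apply Units.ext
      rw [Units.val_mul, Units.val_mul, coe_mk277, ← hG, hT]
      simp [Matrix.add_mul, Matrix.mul_add]
    · rw [coe_mk277, hTdet]; exact hxy
  obtain ⟨ϖ, j, r, a, t', n', hϖ, ha, ht', hn', hirr, hdu, ht, hn⟩ :=
    hP k q hk G.trace G.det hn0 hroot hnorm
  have hϖ0 : ϖ ≠ 0 := unif_ne_zero277 hϖ
  set P : k := ϖ ^ j with hPdef
  set Q : k := ϖ ^ r with hQdef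
  have hP0 : P ≠ 0 := zpow_ne_zero _ hϖ0
  have hQ0 : Q ≠ 0 := pow_ne_zero _ hϖ0
  have hP2 : ϖ ^ (2 * j) = P ^ 2 := by
    rw [hPdef, ← zpow_natCast, ← zpow_mul, mul_comm]; rfl
  have hQ2 : ϖ ^ (2 * r) = Q ^ 2 := by
    rw [hQdef, ← pow_mul, mul_comm]
  rw [hP2, hQ2] at hn
  rw [hQ2] at hdu
  have hn'0 : n' ≠ 0 := by
    intro h
    rw [h, map_zero] at hn'
    exact zero_ne_one hn'
  -- the matrix `M = ((γ / P) - a) / Q`
  set M : Matrix (Fin 2) (Fin 2) k :=
    Q⁻¹ • (P⁻¹ • G - a • (1 : Matrix (Fin 2) (Fin 2) k)) with hM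
  have hGM : G = P • (a • (1 : Matrix (Fin 2) (Fin 2) k) + Q • M) := by
    rw [hM, smul_smul, mul_inv_cancel₀ hQ0, one_smul, add_sub_cancel, smul_smul,
      mul_inv_cancel₀ hP0, one_smul]
  have hMtr : M.trace = t' := by
    rw [hM, Matrix.trace_smul, Matrix.trace_sub, Matrix.trace_smul, Matrix.trace_smul,
      Matrix.trace_one, ht]
    simp only [Fintype.card_fin, smul_eq_mul]
    field_simp
    ring
  have hMdet : M.det = n' := by
    have e1 : M.det = (Q⁻¹) ^ 2 * ((P⁻¹) ^ 2 * G.det - a * (P⁻¹ * G.trace) + a ^ 2) := by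
      rw [hM, Matrix.det_fin_two, hdetG, htrG]
      simp [Matrix.sub_apply, Matrix.smul_apply]
      ring
    rw [e1, hn, ht]
    field_simp
    ring
  have hMns : ∀ c : k, M ≠ c • (1 : Matrix (Fin 2) (Fin 2) k) := by
    intro c hc
    apply hE
    refine ⟨P * (a + Q * c), ?_⟩
    have hG' : G = (P * (a + Q * c)) • (1 : Matrix (Fin 2) (Fin 2) k) := by
      rw [hGM, hc, smul_smul, ← add_smul, smul_smul]
    have h1 : G.trace = 2 * (P * (a + Q * c)) := by
      rw [hG', Matrix.trace_smul, Matrix.trace_one]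
      simp only [Fintype.card_fin, smul_eq_mul]
      push_cast; ring
    have h2 : G.det = (P * (a + Q * c)) ^ 2 := by
      rw [hG', Matrix.det_smul, Matrix.det_one]
      simp
    show (P * (a + Q * c)) ^ 2 - G.trace * (P * (a + Q * c)) + G.det = 0
    rw [h1, h2]; ring
  obtain ⟨x, hx⟩ := hC k M hMns
  rw [hMdet, hMtr] at hx
  set W : Matrix (Fin 2) (Fin 2) k := !![0, - n'; 1, t'] with hW
  have hWdet : W.det = n' := by rw [hW, Matrix.det_fin_two_of]; ring
  have hWtr : W.trace = t' := by rw [hW, Matrix.trace_fin_two_of]; ring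
  have hW0 : W.det ≠ 0 := by rw [hWdet]; exact hn'0
  set Um : Matrix (Fin 2) (Fin 2) k := a • (1 : Matrix (Fin 2) (Fin 2) k) + Q • W with hUm
  have hUdet : Um.det = a ^ 2 + a * Q * t' + Q ^ 2 * n' := by
    rw [hUm, hW, Matrix.det_fin_two]
    simp [Matrix.add_apply, Matrix.smul_apply]
    ring
  have hU0 : Um.det ≠ 0 := by
    intro h
    rw [hUdet] at h
    rw [h, map_zero] at hdu
    exact zero_ne_one hdu
  have hvQ : Valued.v Q ≤ 1 := v_pow_le_one277 hϖ r
  have hy : ((x⁻¹ * γ * x : GL (Fin 2) k) : Matrix (Fin 2) (Fin 2) k) = P • Um := by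
    rw [Units.val_mul, Units.val_mul, ← hG, hUm, ← hx]
    conv_lhs => rw [hGM]
    simp only [Matrix.mul_smul, Matrix.smul_mul, Matrix.mul_add, Matrix.add_mul, Matrix.mul_one]
    rw [← Units.val_mul, inv_mul_cancel, Units.val_one]
  refine ⟨ϖ, j, r, a, mk277 W hW0, mk277 Um hU0, x⁻¹ * γ * x, x, ?_, rfl, ?_, ?_⟩
  · refine ⟨hϖ, ha, ?_, ?_, ?_, ?_, ?_⟩
    · apply inU_zero_of277
      · intro i j
        rw [coe_mk277, hW]
        fin_cases i <;> fin_cases j <;> simp [hn'.le, ht']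
      · rw [coe_mk277, hWdet]; exact hn'
    · apply inU_zero_of277
      · intro i j
        rw [coe_mk277, hUm, hW]
        fin_cases i <;> fin_cases j
        · simpa using ha
        · simp only [Matrix.add_apply, Matrix.smul_apply, Matrix.one_apply]
          simp [hn', hvQ]
        · simp only [Matrix.add_apply, Matrix.smul_apply, Matrix.one_apply]
          simp [hvQ]
        · simp only [Matrix.add_apply, Matrix.smul_apply, Matrix.one_apply]
          simp only [Fin.mk_one, Fin.isValue, ↓reduceIte, smul_eq_mul, Matrix.of_apply,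
            Matrix.cons_val', Matrix.cons_val_one, Matrix.cons_val_fin_one, mul_one]
          refine le_trans (Valuation.map_add _ _ _) (max_le ha ?_)
          rw [map_mul]
          exact mul_le_one' hvQ ht'
      · rw [coe_mk277, hUdet]; exact hdu
    · intro b hb
      rw [coe_mk277, hWtr, hWdet]
      exact hirr b hb
    · rw [coe_mk277, coe_mk277]
    · rw [coe_mk277]; exact hy
  · -- ordDet
    unfold ordDet
    rw [← hG, hn, map_mul, hdu, mul_one, map_pow, hPdef, v_zpow277 hϖ, ← WithZero.exp_nsmul,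
      WithZero.log_exp]
    simp
  · -- ordDisc
    have hdisc : disc γ = P ^ 2 * Q ^ 2 * (t' ^ 2 - 4 * n') := by
      unfold disc
      rw [← hG, hn, ht]; ring
    have hDu := hD k q hk t' n' ht' hn'.le hirr
    unfold ordDisc
    rw [hdisc, map_mul, map_mul, hDu, mul_one, map_pow, map_pow, hPdef, hQdef,
      v_zpow277 hϖ, v_pow277 hϖ, ← WithZero.exp_nsmul, ← WithZero.exp_nsmul,
      ← WithZero.exp_add, WithZero.log_exp]
    simp
    ring

end Fermat.Agent.LT.T6.H277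

end
end
-- ===== PACK-END LT/T6/H277/NormalForm.lean

-- ===== PACK-BEGIN LT/T6/H283/FamSmooth.lean
section


/-!
# Row LT, tower T6, leaf T6.20a.1 `FamSmoothC626` (helper283, registry 1682)

OFF-MAIN.  `famSmoothC283 : H626.FamSmoothC626`, VERBATIM vs `T6/H626/AbelCut.lean`
(helper626@f2abbd58e, sha256 `6a4d529b…`), unconditional.

All square roots are square roots of positive smooth functions: `det > 0`,
`(ρ + 1 + v²)/2 ≥ 1/2` because `ρ = tr(yᵀ y)/(2 |det y|) ≥ 0`, and `x + 1 ≥ 1`.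
-/

set_option autoImplicit false

open scoped Matrix ContDiff

namespace Fermat.Agent.LT.T6.H283

open Fermat.Agent.LT.T6

/-- The real-to-complex coercion of a smooth function is smooth. -/
theorem ofReal_contDiff283 {E : Type*} [NormedAddCommGroup E] [NormedSpace ℝ E] {f : E → ℝ}
    (hf : ContDiff ℝ ∞ f) : ContDiff ℝ ∞ (fun p => ((f p : ℝ) : ℂ)) :=
  Complex.ofRealCLM.contDiff.comp hf

theorem trace_transpose_mul_self_nonneg283 (y : Matrix (Fin 2) (Fin 2) ℝ) :
    0 ≤ (y.transpose * y).trace := by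
  rw [Matrix.trace_fin_two]
  simp only [Matrix.mul_apply, Fin.sum_univ_two, Matrix.transpose_apply]
  nlinarith [mul_self_nonneg (y 0 0), mul_self_nonneg (y 1 0), mul_self_nonneg (y 0 1),
    mul_self_nonneg (y 1 1)]

theorem rhoM_nonneg283 (y : Matrix (Fin 2) (Fin 2) ℝ) : 0 ≤ H626.rhoM626 y := by
  unfold H626.rhoM626
  exact div_nonneg (trace_transpose_mul_self_nonneg283 y) (by positivity)

/-- **T6.20a.1 FAM-SMOOTH.** -/
theorem famSmoothC283 : H626.FamSmoothC626 := by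
  intro m h hh hdet i j
  have htail : ContDiff ℝ ∞ (fun p : Fin (m + 1) → ℝ => (Fin.tail p : Fin m → ℝ)) := by
    rw [contDiff_pi]
    intro k
    exact contDiff_apply ℝ ℝ (Fin.succ k)
  have he : ∀ i j : Fin 2, ContDiff ℝ ∞ (fun p : Fin (m + 1) → ℝ => h (Fin.tail p) i j) :=
    fun i j => (hh i j).comp htail
  have hv : ContDiff ℝ ∞ (fun p : Fin (m + 1) → ℝ => p 0) := contDiff_apply ℝ ℝ 0
  have hDpos : ∀ p : Fin (m + 1) → ℝ, 0 < (h (Fin.tail p)).det := fun p => hdet _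
  have hD : ContDiff ℝ ∞ (fun p : Fin (m + 1) → ℝ => (h (Fin.tail p)).det) := by
    simp only [Matrix.det_fin_two]
    exact ((he 0 0).mul (he 1 1)).sub ((he 0 1).mul (he 1 0))
  have hsD : ContDiff ℝ ∞ (fun p : Fin (m + 1) → ℝ => Real.sqrt (h (Fin.tail p)).det) :=
    hD.sqrt (fun p => (hDpos p).ne')
  have hssD : ContDiff ℝ ∞
      (fun p : Fin (m + 1) → ℝ => Real.sqrt (Real.sqrt (h (Fin.tail p)).det)) :=
    hsD.sqrt (fun p => (Real.sqrt_pos.2 (hDpos p)).ne')
  have h2Dpos : ∀ p : Fin (m + 1) → ℝ, 0 < 2 * (h (Fin.tail p)).det :=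
    fun p => mul_pos two_pos (hDpos p)
  have hs2D : ContDiff ℝ ∞ (fun p : Fin (m + 1) → ℝ => Real.sqrt (2 * (h (Fin.tail p)).det)) :=
    (contDiff_const.mul hD).sqrt (fun p => (h2Dpos p).ne')
  have hs2Dne : ∀ p : Fin (m + 1) → ℝ, Real.sqrt (2 * (h (Fin.tail p)).det) ≠ 0 :=
    fun p => (Real.sqrt_pos.2 (h2Dpos p)).ne'
  have hH1 : ContDiff ℝ ∞ (fun p : Fin (m + 1) → ℝ => H626.famH1_626 (h (Fin.tail p))) := by
    unfold H626.famH1_626
    exact ((he 0 0).sub (he 1 1)).div hs2D hs2Dne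
  have hH2 : ContDiff ℝ ∞ (fun p : Fin (m + 1) → ℝ => H626.famH2_626 (h (Fin.tail p))) := by
    unfold H626.famH2_626
    exact ((he 0 1).add (he 1 0)).div hs2D hs2Dne
  have htr : ContDiff ℝ ∞
      (fun p : Fin (m + 1) → ℝ => ((h (Fin.tail p)).transpose * h (Fin.tail p)).trace) := by
    simp only [Matrix.trace_fin_two, Matrix.mul_apply, Fin.sum_univ_two, Matrix.transpose_apply]
    exact (((he 0 0).mul (he 0 0)).add ((he 1 0).mul (he 1 0))).add
      (((he 0 1).mul (he 0 1)).add ((he 1 1).mul (he 1 1)))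
  have hrho : ContDiff ℝ ∞ (fun p : Fin (m + 1) → ℝ => H626.rhoM626 (h (Fin.tail p))) := by
    unfold H626.rhoM626
    have habs : (fun p : Fin (m + 1) → ℝ => 2 * |(h (Fin.tail p)).det|)
        = fun p => 2 * (h (Fin.tail p)).det := by
      funext p
      rw [abs_of_pos (hDpos p)]
    have hden : ContDiff ℝ ∞ (fun p : Fin (m + 1) → ℝ => 2 * |(h (Fin.tail p)).det|) := by
      rw [habs]
      exact contDiff_const.mul hD
    exact htr.div hden (fun p => by
      rw [abs_of_pos (hDpos p)]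
      exact (h2Dpos p).ne')
  have hinpos : ∀ p : Fin (m + 1) → ℝ,
      0 < (H626.rhoM626 (h (Fin.tail p)) + 1 + p 0 ^ 2) / 2 := fun p => by
    have h1 := rhoM_nonneg283 (h (Fin.tail p))
    have h2 := sq_nonneg (p 0)
    linarith
  have hx : ContDiff ℝ ∞
      (fun p : Fin (m + 1) → ℝ => H626.xv626 (H626.rhoM626 (h (Fin.tail p))) (p 0)) := by
    unfold H626.xv626
    exact (((hrho.add contDiff_const).add (hv.pow 2)).div_const 2).sqrt
      (fun p => (hinpos p).ne')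
  have hx1pos : ∀ p : Fin (m + 1) → ℝ,
      0 < H626.xv626 (H626.rhoM626 (h (Fin.tail p))) (p 0) + 1 := fun p => by
    have : 0 ≤ H626.xv626 (H626.rhoM626 (h (Fin.tail p))) (p 0) := Real.sqrt_nonneg _
    linarith
  have hsx1 : ContDiff ℝ ∞ (fun p : Fin (m + 1) → ℝ =>
      Real.sqrt (H626.xv626 (H626.rhoM626 (h (Fin.tail p))) (p 0) + 1)) :=
    (hx.add contDiff_const).sqrt (fun p => (hx1pos p).ne')
  have hscal : ContDiff ℝ ∞ (fun p : Fin (m + 1) → ℝ =>
      H626.famScal626 (h (Fin.tail p)) (H626.xv626 (H626.rhoM626 (h (Fin.tail p))) (p 0))) := by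
    unfold H626.famScal626
    exact hssD.div (contDiff_const.mul hsx1)
      (fun p => mul_ne_zero two_ne_zero (Real.sqrt_pos.2 (hx1pos p)).ne')
  have hA : ContDiff ℝ ∞ (fun p : Fin (m + 1) → ℝ =>
      Real.sqrt 2 * (H626.xv626 (H626.rhoM626 (h (Fin.tail p))) (p 0) + 1)) :=
    contDiff_const.mul (hx.add contDiff_const)
  have hI : ContDiff ℝ ∞ (fun p : Fin (m + 1) → ℝ => ((p 0 : ℝ) : ℂ) * Complex.I) :=
    (ofReal_contDiff283 hv).mul contDiff_const
  have hS := ofReal_contDiff283 hscal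
  unfold H626.famMat626
  fin_cases i <;> fin_cases j
  · simp only [Fin.zero_eta, Fin.isValue, Matrix.smul_apply, Matrix.of_apply, Matrix.cons_val',
      Matrix.cons_val_zero, Matrix.cons_val_fin_one, smul_eq_mul]
    exact hS.mul (ofReal_contDiff283 (hA.add hH1))
  · simp only [Fin.zero_eta, Fin.mk_one, Fin.isValue, Matrix.smul_apply, Matrix.of_apply,
      Matrix.cons_val', Matrix.cons_val_zero, Matrix.cons_val_one, Matrix.cons_val_fin_one,
      smul_eq_mul]
    exact hS.mul ((ofReal_contDiff283 hH2).sub hI)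
  · simp only [Fin.zero_eta, Fin.mk_one, Fin.isValue, Matrix.smul_apply, Matrix.of_apply,
      Matrix.cons_val', Matrix.cons_val_zero, Matrix.cons_val_one, Matrix.cons_val_fin_one,
      smul_eq_mul]
    exact hS.mul ((ofReal_contDiff283 hH2).add hI)
  · simp only [Fin.mk_one, Fin.isValue, Matrix.smul_apply, Matrix.of_apply, Matrix.cons_val',
      Matrix.cons_val_one, Matrix.cons_val_fin_one, smul_eq_mul]
    exact hS.mul (ofReal_contDiff283 (hA.sub hH1))

end Fermat.Agent.LT.T6.H283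

end
-- ===== PACK-END LT/T6/H283/FamSmooth.lean

-- ===== PACK-BEGIN LT/T6/H367/EllNorm.lean
section



/-!
# Row LT, tower T6, leaf T6.14c `EllCountC` (helper367): the norm of `a + b Π` modulo `ν^{c+1}`

OFF-MAIN.  No gaps, nothing assumed.

For `z = a + b Π ∈ k'[Π]`, `a ≠ 0`, `ord b - ord a ≥ c`:
`N z = P + Q Π` with `ord P = l · ord a` and `Q / P ≡ Tr (b / a)` modulo `ν^{c+1}`.
-/

set_option autoImplicit false

open scoped Matrix

noncomputable section

namespace Fermat.Agent.LT.T6.H367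

open Fermat.Agent.LT.T6 Fermat.Agent.LT.T6.H847

/-! ## 1. Twisted norms and twisted conjugation in a group -/

section Group

variable {Γ : Type} [Group Γ]

theorem twN_conj367 (σ : Γ →* Γ) (x δ : Γ) (m : ℕ) :
    twN σ m (x⁻¹ * δ * σ x) = x⁻¹ * twN σ m δ * (σ^[m]) x := by
  induction m with
  | zero => simp [twN]
  | succ m ih =>
    rw [twN, ih, twN, Function.iterate_succ_apply', map_mul, map_mul, map_inv]
    group

end Group

/-! ## 2. The coefficients of the twisted norm in `k'[Π]` -/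

section Coeff

variable {K : Type} [Field K]

/-- The coordinates `(P_m, Q_m)` of `N_m (a + b Π) = (a + b Π) s(N_{m-1} (a + b Π))`. -/
def nPQ367 (s : K ≃+* K) (τ ν a b : K) : ℕ → K × K
  | 0 => (1, 0)
  | (m + 1) =>
    (a * s (nPQ367 s τ ν a b m).1 - ν * b * s (nPQ367 s τ ν a b m).2,
      a * s (nPQ367 s τ ν a b m).2 + b * s (nPQ367 s τ ν a b m).1
        + τ * b * s (nPQ367 s τ ν a b m).2)

theorem nPQ367_zero (s : K ≃+* K) (τ ν a b : K) : nPQ367 s τ ν a b 0 = (1, 0) := rfl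

theorem nPQ367_succ (s : K ≃+* K) (τ ν a b : K) (m : ℕ) :
    nPQ367 s τ ν a b (m + 1)
      = (a * s (nPQ367 s τ ν a b m).1 - ν * b * s (nPQ367 s τ ν a b m).2,
          a * s (nPQ367 s τ ν a b m).2 + b * s (nPQ367 s τ ν a b m).1
            + τ * b * s (nPQ367 s τ ν a b m).2) := rfl

/-- The matrix of the twisted norm of `a + b Π`. -/
theorem twN_val367 (s : K ≃+* K) (τ ν a b : K) (hsτ : s τ = τ) (hsν : s ν = ν)
    (Z : GL (Fin 2) K) (hZ : (Z : Matrix (Fin 2) (Fin 2) K) = embMat τ ν a b) (m : ℕ) :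
    ((twN (glAut s) m Z : GL (Fin 2) K) : Matrix (Fin 2) (Fin 2) K)
      = embMat τ ν (nPQ367 s τ ν a b m).1 (nPQ367 s τ ν a b m).2 := by
  induction m with
  | zero =>
    rw [twN, nPQ367_zero, Units.val_one, embMat_one367]
  | succ m ih =>
    have h1 : ((glAut s (twN (glAut s) m Z) : GL (Fin 2) K) : Matrix (Fin 2) (Fin 2) K)
        = ((twN (glAut s) m Z : GL (Fin 2) K) : Matrix (Fin 2) (Fin 2) K).map
            (s : K →+* K) := rfl
    rw [twN, Units.val_mul, h1, ih, embMat_map367, hZ, nPQ367_succ]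
    simp only [RingHom.coe_coe, hsτ, hsν]
    rw [embMat_mul367]

/-- Iterating `glAut s` is `glAut (s ^ m)` on the entries. -/
theorem glAut_iterate367 (s : K ≃+* K) (m : ℕ) (X : GL (Fin 2) K) (i j : Fin 2) :
    (((glAut s)^[m] X : GL (Fin 2) K) : Matrix (Fin 2) (Fin 2) K) i j
      = (s ^ m) ((X : Matrix (Fin 2) (Fin 2) K) i j) := by
  induction m generalizing X with
  | zero => simp
  | succ m ih =>
    rw [Function.iterate_succ_apply', pow_succ', RingAut.mul_apply, ← ih]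
    rfl

end Coeff

/-! ## 3. The partial traces -/

section Trace

variable {K : Type} [Field K]

/-- The partial trace `∑_{j < m} s^j x`. -/
def trS367 (s : K ≃+* K) (m : ℕ) (x : K) : K := ∑ j ∈ Finset.range m, (s ^ j) x

theorem trS367_zero (s : K ≃+* K) (x : K) : trS367 s 0 x = 0 := by
  unfold trS367; simp

theorem trS367_succ (s : K ≃+* K) (m : ℕ) (x : K) :
    trS367 s (m + 1) x = s (trS367 s m x) + x := by
  unfold trS367
  rw [Finset.sum_range_succ', map_sum]
  congr 1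
  refine Finset.sum_congr rfl fun j _ => ?_
  rw [pow_succ', RingAut.mul_apply]

theorem trS367_add (s : K ≃+* K) (m : ℕ) (x y : K) :
    trS367 s m (x + y) = trS367 s m x + trS367 s m y := by
  unfold trS367
  rw [← Finset.sum_add_distrib]
  exact Finset.sum_congr rfl fun j _ => map_add _ _ _

theorem trS367_neg (s : K ≃+* K) (m : ℕ) (x : K) :
    trS367 s m (-x) = -trS367 s m x := by
  unfold trS367
  rw [← Finset.sum_neg_distrib]
  exact Finset.sum_congr rfl fun j _ => map_neg _ _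

theorem trS367_sub (s : K ≃+* K) (m : ℕ) (x y : K) :
    trS367 s m (x - y) = trS367 s m x - trS367 s m y := by
  rw [sub_eq_add_neg, trS367_add, trS367_neg, ← sub_eq_add_neg]

theorem pow_fix367 (s : K ≃+* K) (c : K) (hc : s c = c) (j : ℕ) : (s ^ j) c = c := by
  induction j with
  | zero => simp
  | succ j ih => rw [pow_succ', RingAut.mul_apply, ih, hc]

theorem trS367_mul_fix (s : K ≃+* K) (m : ℕ) (c x : K) (hc : s c = c) :
    trS367 s m (c * x) = c * trS367 s m x := by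
  unfold trS367
  rw [Finset.mul_sum]
  refine Finset.sum_congr rfl fun j _ => ?_
  rw [map_mul, pow_fix367 s c hc]

/-- `Tr (s x) = Tr x` when `s ^ l = 1`. -/
theorem trS367_apply_s (s : K ≃+* K) (l : ℕ) (hl : ∀ y : K, (s ^ l) y = y) (x : K) :
    trS367 s l (s x) = trS367 s l x := by
  have h1 : trS367 s (l + 1) x = s (trS367 s l x) + x := trS367_succ s l x
  have h2 : trS367 s (l + 1) x = trS367 s l x + (s ^ l) x := by
    unfold trS367
    rw [Finset.sum_range_succ]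
  have h3 : trS367 s l (s x) = s (trS367 s l x) := by
    unfold trS367
    rw [map_sum]
    refine Finset.sum_congr rfl fun j _ => ?_
    rw [← RingAut.mul_apply, ← RingAut.mul_apply, ← pow_succ, ← pow_succ']
  rw [h3]
  have := h1.symm.trans h2
  rw [hl] at this
  exact add_right_cancel this

variable [Valued K Γ₀]

theorem val_pow367 (s : K ≃+* K) (hs : ∀ y : K, Valued.v (s y) = Valued.v y) (j : ℕ) (y : K) :
    Valued.v ((s ^ j) y) = Valued.v y := by
  induction j with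
  | zero => simp
  | succ j ih => rw [pow_succ', RingAut.mul_apply, hs, ih]

theorem val_trS367_le (s : K ≃+* K) (hs : ∀ y : K, Valued.v (s y) = Valued.v y) (m : ℕ)
    (x : K) (g : Γ₀) (hx : Valued.v x ≤ g) : Valued.v (trS367 s m x) ≤ g := by
  unfold trS367
  by_cases hm : m = 0
  · subst hm
    simp
  · refine Valuation.map_sum_le _ fun j _ => ?_
    rw [val_pow367 s hs]
    exact hx

end Trace

/-! ## 4. The norm modulo `ν^{c+1}` -/

section NormVal

variable {K : Type} [Field K] [Valued K Γ₀]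

theorem mul_exp_le367 (W : Γ₀) {u u' : ℤ} (h : u' ≤ u) :
    W * WithZero.exp (-u) ≤ W * WithZero.exp (-u') :=
  mul_le_mul' le_rfl (WithZero.exp_le_exp.mpr (by omega))

/-- **The norm of `a + b Π` modulo `ν^{c+1}`.**  If `a ≠ 0` and `v b ≤ v a · exp (-c)` then for
every `m`: `v (P_m) = (v a) ^ m` and `v (Q_m - P_m · ∑_{j<m} s^j (b / a)) ≤ v (P_m) · exp (-(c+1))`.
-/
theorem norm_coeff367 {s : K ≃+* K} {τ ν : K} (C : Ctx367 s τ ν) (a b : K) (ha : a ≠ 0)
    (c : ℕ) (hb : Valued.v b ≤ Valued.v a * WithZero.exp (-(c : ℤ))) (m : ℕ) :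
    Valued.v (nPQ367 s τ ν a b m).1 = Valued.v a ^ m ∧
      Valued.v ((nPQ367 s τ ν a b m).2 - (nPQ367 s τ ν a b m).1 * trS367 s m (b / a))
        ≤ Valued.v (nPQ367 s τ ν a b m).1 * WithZero.exp (-((c : ℤ) + 1)) := by
  have hva : Valued.v a ≠ 0 := (Valuation.ne_zero_iff _).2 ha
  have hβ : Valued.v (b / a) ≤ WithZero.exp (-(c : ℤ)) := by
    rw [map_div₀, div_le_iff₀ (zero_lt_iff.mpr hva), mul_comm]
    exact hb
  have hS : ∀ m : ℕ, Valued.v (trS367 s m (b / a)) ≤ WithZero.exp (-(c : ℤ)) := fun m =>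
    val_trS367_le s C.val_s m _ _ hβ
  have hc1 : (WithZero.exp (-(c : ℤ)) : Γ₀) ≤ 1 := exp_neg_le_one367 c
  induction m with
  | zero =>
    rw [nPQ367_zero, trS367_zero]
    simp
  | succ m ih =>
    obtain ⟨hP, hQS⟩ := ih
    set P := (nPQ367 s τ ν a b m).1 with hPdef
    set Q := (nPQ367 s τ ν a b m).2 with hQdef
    set S := trS367 s m (b / a) with hSdef
    have hvP : Valued.v P ≠ 0 := by rw [hP]; exact pow_ne_zero m hva
    set W := Valued.v a * Valued.v P with hW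
    have hW0 : W ≠ 0 := mul_ne_zero hva hvP
    -- the bound on `Q`
    have hQ : Valued.v Q ≤ Valued.v P * WithZero.exp (-(c : ℤ)) := by
      have e : Q = (Q - P * S) + P * S := by ring
      rw [e]
      refine Valuation.map_add_le _ (le_trans hQS (mul_exp_le367 _ (by omega))) ?_
      rw [Valuation.map_mul]
      exact mul_le_mul' le_rfl (hS m)
    have hbQ : Valued.v b * Valued.v (s Q) ≤ W := by
      rw [C.val_s]
      calc Valued.v b * Valued.v Q
          ≤ (Valued.v a * WithZero.exp (-(c : ℤ))) * (Valued.v P * WithZero.exp (-(c : ℤ))) :=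
            mul_le_mul' hb hQ
        _ ≤ (Valued.v a * 1) * (Valued.v P * 1) :=
            mul_le_mul' (mul_le_mul' le_rfl hc1) (mul_le_mul' le_rfl hc1)
        _ = W := by rw [mul_one, mul_one]
    have hbQ' : Valued.v b * Valued.v (s Q) ≤ W * WithZero.exp (-(c : ℤ)) := by
      rw [C.val_s]
      calc Valued.v b * Valued.v Q
          ≤ (Valued.v a * WithZero.exp (-(c : ℤ))) * (Valued.v P * 1) :=
            mul_le_mul' hb (le_trans hQ (mul_le_mul' le_rfl hc1))
        _ = W * WithZero.exp (-(c : ℤ)) := by rw [mul_one, hW]; ac_rfl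
    rw [nPQ367_succ]
    simp only
    rw [← hPdef, ← hQdef]
    have hP' : Valued.v (a * s P - ν * b * s Q) = W := by
      have h1 : Valued.v (a * s P) = W := by rw [Valuation.map_mul, C.val_s]
      have h2 : Valued.v (-(ν * b * s Q)) < Valued.v (a * s P) := by
        rw [h1, Valuation.map_neg, Valuation.map_mul, Valuation.map_mul, C.val_ν, mul_assoc]
        exact (lt_iff_le_exp_mul367 hW0).2 (mul_le_mul' le_rfl hbQ)
      rw [sub_eq_add_neg, Valuation.map_add_eq_of_lt_left _ h2, h1]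
    refine ⟨?_, ?_⟩
    · rw [hP', hW, hP, pow_succ']
    · rw [hP', trS367_succ, ← hSdef]
      have hba : b = a * (b / a) := by field_simp
      have e : a * s Q + b * s P + τ * b * s Q - (a * s P - ν * b * s Q) * (s S + b / a)
          = a * s (Q - P * S) + τ * b * s Q + ν * b * s Q * (s S + b / a) := by
        rw [map_sub, map_mul]
        generalize b / a = β at hba ⊢
        rw [hba]
        ring
      rw [e]
      have hexp : (WithZero.exp (-1 : ℤ) : Γ₀) * WithZero.exp (-(c : ℤ))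
          = WithZero.exp (-((c : ℤ) + 1)) := by
        rw [← WithZero.exp_add]; congr 1; ring
      have hτbQ : WithZero.exp (-1 : ℤ) * (Valued.v b * Valued.v (s Q))
          ≤ W * WithZero.exp (-((c : ℤ) + 1)) := by
        calc WithZero.exp (-1 : ℤ) * (Valued.v b * Valued.v (s Q))
            ≤ WithZero.exp (-1 : ℤ) * (W * WithZero.exp (-(c : ℤ))) :=
              mul_le_mul' le_rfl hbQ'
          _ = W * WithZero.exp (-((c : ℤ) + 1)) := by rw [← hexp]; ac_rfl
      refine Valuation.map_add_le _ (Valuation.map_add_le _ ?_ ?_) ?_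
      · rw [Valuation.map_mul, C.val_s]
        calc Valued.v a * Valued.v (Q - P * S)
            ≤ Valued.v a * (Valued.v P * WithZero.exp (-((c : ℤ) + 1))) :=
              mul_le_mul' le_rfl hQS
          _ = W * WithZero.exp (-((c : ℤ) + 1)) := by rw [hW, mul_assoc]
      · rw [Valuation.map_mul, Valuation.map_mul, mul_assoc]
        exact le_trans (mul_le_mul' C.val_τ_le le_rfl) hτbQ
      · have hSβ : Valued.v (s S + b / a) ≤ 1 :=
          Valuation.map_add_le _ (by rw [C.val_s]; exact le_trans (hS m) hc1)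
            (le_trans hβ hc1)
        rw [Valuation.map_mul, Valuation.map_mul, Valuation.map_mul, C.val_ν]
        calc WithZero.exp (-1 : ℤ) * Valued.v b * Valued.v (s Q) * Valued.v (s S + b / a)
            = WithZero.exp (-1 : ℤ) * (Valued.v b * Valued.v (s Q))
                * Valued.v (s S + b / a) := by rw [mul_assoc (WithZero.exp (-1 : ℤ))]
          _ ≤ (W * WithZero.exp (-((c : ℤ) + 1))) * 1 := mul_le_mul' hτbQ hSβ
          _ = _ := mul_one _

end NormVal

/-! ## 5. The norm of the conjugates `x⁻¹ δ₀ s(x)` -/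

section NormConj

variable {K : Type} [Field K] [Valued K Γ₀]

omit [Valued K Γ₀] in
theorem conjMat367_zero (τ ν a b : K) : conjMat367 τ ν 0 a b = embMat τ ν a b := by
  unfold conjMat367 embMat
  ext i j
  fin_cases i <;> fin_cases j <;> simp

omit [Valued K Γ₀] in
theorem latMat_zero367 (τ ν ξ : K) : latMat τ ν 0 ξ = embMat τ ν 1 ξ := by
  unfold latMat embMat
  ext i j
  fin_cases i <;> fin_cases j <;> simp

namespace Ctx367

variable {s : K ≃+* K} {τ ν : K} (C : Ctx367 s τ ν)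
include C

/-- The twisted norm of `x⁻¹ δ₀ s(x)` is the twisted norm of `δ₀` (in `k'[Π]`). -/
theorem twNorm_conjGL (l : ℕ) (hl : ∀ y : K, (s ^ l) y = y) (δ₀ γ' : GL (Fin 2) K)
    (α' β' : K) (hγ : (γ' : Matrix (Fin 2) (Fin 2) K) = embMat τ ν α' β')
    (hN : twNorm s l δ₀ = γ') (ξ : K) (hξ : Valued.v ξ ≤ 1) :
    twNorm s l (conjGL367 s τ ν δ₀ 0 ξ) = γ' := by
  set X := latGL τ ν 0 ξ with hX
  have hXv : (X : Matrix (Fin 2) (Fin 2) K) = embMat τ ν 1 ξ := by
    rw [hX, C.latGL_val 0 ξ hξ, latMat_zero367]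
  have hit : (glAut s)^[l] X = X := by
    apply Units.ext
    ext i j
    rw [glAut_iterate367, hl]
  have hcomm : γ' * X = X * γ' := by
    apply Units.ext
    rw [Units.val_mul, Units.val_mul, hγ, hXv, embMat_mul367, embMat_mul367]
    congr 1 <;> ring
  unfold twNorm at hN ⊢
  rw [conjGL367_def, ← hX, twN_conj367, hit, hN, mul_assoc, hcomm, ← mul_assoc,
    inv_mul_cancel, one_mul]

/-- The coordinates of the norm of `x⁻¹ δ₀ s(x)`. -/
theorem nPQ_conj (l : ℕ) (hl : ∀ y : K, (s ^ l) y = y) (d₀ d₁ : K) (δ₀ γ' : GL (Fin 2) K)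
    (hδ : (δ₀ : Matrix (Fin 2) (Fin 2) K) = embMat τ ν d₀ d₁)
    (α' β' : K) (hγ : (γ' : Matrix (Fin 2) (Fin 2) K) = embMat τ ν α' β')
    (hN : twNorm s l δ₀ = γ') (ξ : K) (hξ : Valued.v ξ ≤ 1) :
    (nPQ367 s τ ν (aNum367 τ ν d₀ d₁ ξ (s ξ) / nrm367 τ ν ξ)
        (bNum367 τ ν d₀ d₁ ξ (s ξ) / nrm367 τ ν ξ) l).1 = α' ∧
      (nPQ367 s τ ν (aNum367 τ ν d₀ d₁ ξ (s ξ) / nrm367 τ ν ξ)
        (bNum367 τ ν d₀ d₁ ξ (s ξ) / nrm367 τ ν ξ) l).2 = β' := by
  have h1 := C.twNorm_conjGL l hl δ₀ γ' α' β' hγ hN ξ hξ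
  have h2 := C.conjGL_val d₀ d₁ δ₀ hδ 0 ξ hξ
  rw [conjMat367_zero] at h2
  have h3 := twN_val367 s τ ν _ _ C.sτ C.sν (conjGL367 s τ ν δ₀ 0 ξ) h2 l
  unfold twNorm at h1
  rw [h1, hγ] at h3
  have := embMat_inj367 h3
  exact ⟨this.1.symm, this.2.symm⟩

/-- **(N), even case.**  If `ξ` is integral and `v F(ξ) ≤ v d₀ · exp (-c)` then
`v α' = (v d₀) ^ l` and `v (β' - α' · Tr (F(ξ) / aNum(ξ))) ≤ v α' · exp (-(c+1))`. -/
theorem norm_even (l : ℕ) (hl : ∀ y : K, (s ^ l) y = y) (d₀ d₁ : K) (δ₀ γ' : GL (Fin 2) K)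
    (hδ : (δ₀ : Matrix (Fin 2) (Fin 2) K) = embMat τ ν d₀ d₁)
    (α' β' : K) (hγ : (γ' : Matrix (Fin 2) (Fin 2) K) = embMat τ ν α' β')
    (hN : twNorm s l δ₀ = γ') (hE : Valued.v d₁ ≤ Valued.v d₀) (hd₀ : d₀ ≠ 0)
    (ξ : K) (hξ : Valued.v ξ ≤ 1) (c : ℕ)
    (hc : Valued.v (bNum367 τ ν d₀ d₁ ξ (s ξ)) ≤ Valued.v d₀ * WithZero.exp (-(c : ℤ))) :
    Valued.v α' = Valued.v d₀ ^ l ∧
      Valued.v (β' - α' * trS367 s l
          (bNum367 τ ν d₀ d₁ ξ (s ξ) / aNum367 τ ν d₀ d₁ ξ (s ξ)))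
        ≤ Valued.v α' * WithZero.exp (-((c : ℤ) + 1)) := by
  have hPQ := C.nPQ_conj l hl d₀ d₁ δ₀ γ' hδ α' β' hγ hN ξ hξ
  have hNne := C.nrm_ne ξ hξ
  have hva : Valued.v (aNum367 τ ν d₀ d₁ ξ (s ξ) / nrm367 τ ν ξ) = Valued.v d₀ := by
    rw [C.val_div_nrm _ ξ hξ, C.val_aNum_even d₀ d₁ ξ hξ hE hd₀]
  have ha0 : aNum367 τ ν d₀ d₁ ξ (s ξ) / nrm367 τ ν ξ ≠ 0 := by
    intro h
    rw [h, Valuation.map_zero] at hva
    exact (Valuation.ne_zero_iff _).2 hd₀ hva.symm
  have hb : Valued.v (bNum367 τ ν d₀ d₁ ξ (s ξ) / nrm367 τ ν ξ)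
      ≤ Valued.v (aNum367 τ ν d₀ d₁ ξ (s ξ) / nrm367 τ ν ξ) * WithZero.exp (-(c : ℤ)) := by
    rw [hva, C.val_div_nrm _ ξ hξ]
    exact hc
  have key := norm_coeff367 C _ _ ha0 c hb l
  rw [hPQ.1, hPQ.2, hva] at key
  have e : bNum367 τ ν d₀ d₁ ξ (s ξ) / nrm367 τ ν ξ
      / (aNum367 τ ν d₀ d₁ ξ (s ξ) / nrm367 τ ν ξ)
      = bNum367 τ ν d₀ d₁ ξ (s ξ) / aNum367 τ ν d₀ d₁ ξ (s ξ) := by
    field_simp
  rw [e] at key
  exact key

end Ctx367

end NormConj

end Fermat.Agent.LT.T6.H367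

end

end
-- ===== PACK-END LT/T6/H367/EllNorm.lean

-- ===== PACK-BEGIN LT/T6/H501/RadInt0.lean
section




/-!
# Row LT, tower T6, sub-leaf T6.20a.7 `RadInt0C626` (helper501) — OFF-MAIN

`radInt0C501 : T6.H626.RadInt0C626`, verbatim (bytes of `T6/H626/AbelCut.lean`, helper626), from
the Mathlib-only core `radInt0_core501` (`RadInt0Core.lean`).
-/

set_option autoImplicit false

namespace Fermat.Agent.LT.H501.Rad

/-- **Sub-leaf T6.20a.7 `RadInt0C626`**, verbatim. -/
theorem radInt0C501 : Fermat.Agent.LT.T6.H626.RadInt0C626 :=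
  fun Φ hΦ hR A α β hA hα hβ => radInt0_core501 Φ hΦ hR A α β hA hα hβ

end Fermat.Agent.LT.H501.Rad

end
-- ===== PACK-END LT/T6/H501/RadInt0.lean

-- ===== PACK-BEGIN LT/T6/H698/ParamInt.lean
section



/-!
# Row LT, tower T6, leaf T6.20a.2 `ParamIntC626` (helper698)

OFF-MAIN.  Spec: `LT/T6/H626/AbelCut.lean` (helper626, sha256 6a4d529b), byte-identical copy.

`paramIntC698 : H626.ParamIntC626`: if `G` is smooth on `ℝ^{m+1}` and vanishes for `|p 0| > V`,
then `t ↦ ∫_ℝ G(v, t) dv` is smooth on `ℝ^m`.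

Proof: the parametric integral is the value at `0` of the convolution of the locally integrable
function `1` with `g_t(x) = G(-x, t)`, whose supports lie in the fixed compact `[-V, V]`;
apply `contDiffOn_convolution_right_with_param_comp`.
-/

set_option autoImplicit false

open scoped ContDiff Convolution
open MeasureTheory

noncomputable section

namespace Fermat.Agent.LT.T6.H698

open Fermat.Agent.LT.T6

/-- The map `(t, x) ↦ (-x, t)` from `ℝ^m × ℝ` to `ℝ^{m+1}` is smooth. -/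
theorem contDiff_consNeg698 (m : ℕ) :
    ContDiff ℝ ∞ (fun q : (Fin m → ℝ) × ℝ => (Fin.cons (-q.2) q.1 : Fin (m + 1) → ℝ)) := by
  rw [contDiff_pi]
  intro i
  refine Fin.cases ?_ (fun j => ?_) i
  · simpa using (contDiff_snd (𝕜 := ℝ) (E := Fin m → ℝ) (F := ℝ)).neg
  · simp only [Fin.cons_succ]
    exact (contDiff_apply ℝ ℝ j).comp (contDiff_fst (𝕜 := ℝ) (E := Fin m → ℝ) (F := ℝ))

/-- **T6.20a.2 PARAM-INT**: a parametric integral of a smooth function with uniformly compact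
support in the integration variable is smooth. -/
theorem paramIntC698 : H626.ParamIntC626 := by
  intro m G hG hV
  obtain ⟨V, hV⟩ := hV
  let g : (Fin m → ℝ) → ℝ → ℂ := fun t x => G (Fin.cons (-x) t)
  have hg : ContDiffOn ℝ ((⊤ : ℕ∞) : WithTop ℕ∞) (↿g)
      ((Set.univ : Set (Fin m → ℝ)) ×ˢ (Set.univ : Set ℝ)) :=
    (hG.comp (contDiff_consNeg698 m)).contDiffOn
  have hk : IsCompact (Set.Icc (-V) V) := isCompact_Icc
  have hgs : ∀ p, ∀ x, p ∈ (Set.univ : Set (Fin m → ℝ)) → x ∉ Set.Icc (-V) V → g p x = 0 := by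
    intro p x _ hx
    apply hV
    simp only [Fin.cons_zero, abs_neg]
    by_contra h
    exact hx (abs_le.mp (not_lt.mp h))
  have hf : LocallyIntegrable (fun _ : ℝ => (1 : ℝ)) volume := locallyIntegrable_const 1
  have key := contDiffOn_convolution_right_with_param_comp (𝕜 := ℝ) (μ := (volume : Measure ℝ))
    (ContinuousLinearMap.lsmul ℝ ℝ) (v := fun _ : Fin m → ℝ => (0 : ℝ)) contDiffOn_const
    isOpen_univ hk hgs hf hg
  rw [contDiffOn_univ] at key
  have heq : (fun t : Fin m → ℝ => ∫ v : ℝ, G (Fin.cons v t : Fin (m + 1) → ℝ)) =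
      fun t => ((fun _ : ℝ => (1 : ℝ)) ⋆[ContinuousLinearMap.lsmul ℝ ℝ, volume] g t) 0 := by
    funext t
    simp only [convolution, ContinuousLinearMap.lsmul_apply, one_smul, zero_sub, g, neg_neg]
  rw [heq]
  exact key

end Fermat.Agent.LT.T6.H698

end

end
-- ===== PACK-END LT/T6/H698/ParamInt.lean

-- ===== PACK-BEGIN LT/T6/H783/DescTop.lean
section



/-!
# Row LT, tower T6, leaf T6.18g2 `DescC783`: the PROVED glue (helper783)

* `descC_of_leaves783 : ProperC783 → DecompC783 → DescC783`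
* `descC_of_subleaves783` : from the six sub-leaves.
* `cenNorm_of_subleaves783` : `CenNormC783` from all its leaves.
-/

set_option autoImplicit false

open scoped Matrix

noncomputable section

namespace Fermat.Agent.LT.T6.H783

open Fermat.Agent.LT.T6

theorem descC_of_leaves783 (hP : ProperC783) (hD : DecompC783) : DescC783 := by
  intro k k' _ _ _ _ q l e i s n φ hd
  obtain ⟨N₀, Y, hY⟩ := hP k k' q l e i s n φ hd
  obtain ⟨m, ψ, hb, hf, hm⟩ := hD k k' q l e i s n φ hd N₀ Y hY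
  exact ⟨N₀, m, ψ, hb, hf, hm⟩

theorem descC_of_subleaves783 (hPG : ProperGlueC783) (hRB : RootBoundC783) (hBH : BH90C783)
    (hDG : DecompGlueC783) (hFib : FibreC783) (hGL : GenLvlC783) (hEx : OrbSumExC)
    (hUniq : OrbSumUniqC) (hAdd : AddC783) : DescC783 :=
  descC_of_leaves783 (hPG hRB hBH) (hDG hFib hGL hEx hUniq hAdd)

theorem cenNorm_of_subleaves783 (hT : TranslC783) (hNI : NormInjC) (hPow : PowC783)
    (hPG : ProperGlueC783) (hRB : RootBoundC783) (hBH : BH90C783)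
    (hDG : DecompGlueC783) (hFib : FibreC783) (hGL : GenLvlC783) (hEx : OrbSumExC)
    (hUniq : OrbSumUniqC) (hAdd : AddC783) : CenNormC783 :=
  cenNorm_of_leaves783 hT hNI
    (descC_of_subleaves783 hPG hRB hBH hDG hFib hGL hEx hUniq hAdd) hPow

end Fermat.Agent.LT.T6.H783

end

end
-- ===== PACK-END LT/T6/H783/DescTop.lean

-- ===== PACK-BEGIN LT/T6/H846/DecompBasic.lean
section





/-!
# Row LT, tower T6, leaf T6.18g2-D0 `DecompGlueC783` (helper846) -- soft part, OFF-MAIN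

Algebra of orbit sums (scaling, zero, finite sums from `AddC783`), the trivial local extension
`k / k` (untwisted orbit sums exist by `OrbSumExC`), pruning of a finite set by an equivalence
relation, `h ^ l` regular `⇒ h` regular.
-/

set_option autoImplicit false
set_option linter.unusedSectionVars false
set_option linter.style.haveILetI false

open scoped Matrix
open WithZero

noncomputable section

namespace Fermat.Agent.LT.T6.H846

open Fermat.Agent.LT.T6 Fermat.Agent.LT.T6.H783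

/-! ### Pruning -/

theorem prune846 {α : Type} (r : α → α → Prop) (hrefl : ∀ a, r a a)
    (hsymm : ∀ a b, r a b → r b a) (htrans : ∀ a b c, r a b → r b c → r a c)
    (Y : Finset α) :
    ∃ Y' : Finset α, Y' ⊆ Y ∧ (∀ y ∈ Y', ∀ y' ∈ Y', r y y' → y = y') ∧
      ∀ y ∈ Y, ∃ y' ∈ Y', r y' y := by
  classical
  induction Y using Finset.induction_on with
  | empty => exact ⟨∅, Finset.Subset.refl _, by simp, by simp⟩
  | insert a Y _ ih =>
    obtain ⟨Y', hsub, hdist, hcov⟩ := ih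
    by_cases h : ∃ y' ∈ Y', r y' a
    · refine ⟨Y', hsub.trans (Finset.subset_insert _ _), hdist, ?_⟩
      intro y hy
      rcases Finset.mem_insert.1 hy with e | hy1
      · rw [e]
        exact h
      · exact hcov y hy1
    · refine ⟨insert a Y', Finset.insert_subset_insert _ hsub, ?_, ?_⟩
      · intro y hy y' hy' hr
        rcases Finset.mem_insert.1 hy with e | hy1
        · rcases Finset.mem_insert.1 hy' with e' | hy1'
          · rw [e, e']
          · exfalso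
            apply h
            rw [e] at hr
            exact ⟨y', hy1', hsymm _ _ hr⟩
        · rcases Finset.mem_insert.1 hy' with e' | hy1'
          · exfalso
            apply h
            rw [e'] at hr
            exact ⟨y, hy1, hr⟩
          · exact hdist y hy1 y' hy1' hr
      · intro y hy
        rcases Finset.mem_insert.1 hy with e | hy1
        · exact ⟨a, Finset.mem_insert_self _ _, by rw [e]; exact hrefl _⟩
        · obtain ⟨y', hy', hr⟩ := hcov y hy1
          exact ⟨y', Finset.mem_insert_of_mem hy', hr⟩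

/-! ### Algebra of orbit sums -/

section OrbAlgebra

variable {Γ : Type} [Group Γ]

theorem isOrbSumGen_smul846 (s : Γ →* Γ) (U : Γ → Prop) (C : Γ → Γ → Prop) (φ : Γ → ℂ)
    (δ : Γ) (c a : ℂ) (ha : a ≠ 0) (h : IsOrbSumGen s U C φ δ c) :
    IsOrbSumGen s U C (fun g => a * φ g) δ (a * c) := by
  obtain ⟨R, h1, h2, h3, h4⟩ := h
  refine ⟨R, h1, h2, ?_, ?_⟩
  · intro y hy hne
    refine h3 y hy (fun h0 => hne ?_)
    change a * φ y = 0
    rw [h0, mul_zero]
  · rw [h4, Finset.mul_sum]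
    exact Finset.sum_congr rfl fun y _ => by ring

theorem isOrbSumGen_zero846 (s : Γ →* Γ) (U : Γ → Prop) (C : Γ → Γ → Prop) (δ : Γ) :
    IsOrbSumGen s U C (0 : Γ → ℂ) δ 0 :=
  ⟨∅, by simp, by simp, fun y _ hne => absurd rfl hne, by simp⟩

theorem isBiInv_add846 (U : Γ → Prop) (f g : Γ → ℂ) (hf : IsBiInv U f) (hg : IsBiInv U g) :
    IsBiInv U (f + g) := fun u u' x hu hu' => by
  simp only [Pi.add_apply]
  rw [hf u u' x hu hu', hg u u' x hu hu']

theorem isBiInv_zero846 (U : Γ → Prop) : IsBiInv U (0 : Γ → ℂ) := fun _ _ _ _ _ => rfl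

theorem isBiInv_smul846 (U : Γ → Prop) (f : Γ → ℂ) (a : ℂ) (hf : IsBiInv U f) :
    IsBiInv U (fun g => a * f g) := fun u u' x hu hu' => by
  simp only
  rw [hf u u' x hu hu']

theorem isBiInv_sum846 {ι : Type} (U : Γ → Prop) (Y : Finset ι) (f : ι → Γ → ℂ)
    (hf : ∀ y ∈ Y, IsBiInv U (f y)) : IsBiInv U (∑ y ∈ Y, f y) := by
  classical
  induction Y using Finset.induction_on with
  | empty => simpa using isBiInv_zero846 U
  | insert a Y ha ih =>
    rw [Finset.sum_insert ha]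
    exact isBiInv_add846 U _ _ (hf a (Finset.mem_insert_self _ _))
      (ih fun y hy => hf y (Finset.mem_insert_of_mem hy))

theorem hasFinSupp_smul846 (U : Γ → Prop) (f : Γ → ℂ) (a : ℂ) (hf : HasFinSupp U f) :
    HasFinSupp U (fun g => a * f g) := by
  obtain ⟨F, hF⟩ := hf
  refine ⟨F, fun g hg => hF g (fun h0 => hg ?_)⟩
  change a * f g = 0
  rw [h0, mul_zero]

theorem hasFinSupp_sum846 {ι : Type} (U : Γ → Prop) (Y : Finset ι) (f : ι → Γ → ℂ)
    (hf : ∀ y ∈ Y, HasFinSupp U (f y)) : HasFinSupp U (∑ y ∈ Y, f y) := by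
  classical
  choose! F hF using hf
  refine ⟨Y.biUnion F, fun g hg => ?_⟩
  rw [Finset.sum_apply] at hg
  obtain ⟨y, hy, hne⟩ := Finset.exists_ne_zero_of_sum_ne_zero hg
  obtain ⟨x, hx, u, hu, e⟩ := hF y hy g hne
  exact ⟨x, Finset.mem_biUnion.2 ⟨y, hy, hx⟩, u, hu, e⟩

end OrbAlgebra

section OrbSumK

variable {k : Type} [Field k] [Valued k Γ₀]

theorem isOrbSum_sum846 (hadd : AddC783) {ι : Type} (m : ℕ) (Y : Finset ι)
    (f : ι → GL (Fin 2) k → ℂ) (c : ι → ℂ) (γ : GL (Fin 2) k)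
    (hf : ∀ y ∈ Y, IsBiInv (InU m) (f y)) (hc : ∀ y ∈ Y, IsOrbSum m (f y) γ (c y)) :
    IsOrbSum m (∑ y ∈ Y, f y) γ (∑ y ∈ Y, c y) := by
  classical
  induction Y using Finset.induction_on with
  | empty =>
    simp only [Finset.sum_empty]
    exact isOrbSumGen_zero846 _ _ _ _
  | insert a Y ha ih =>
    rw [Finset.sum_insert ha, Finset.sum_insert ha]
    exact hadd k m _ _ (hf a (Finset.mem_insert_self _ _))
      (isBiInv_sum846 _ Y f fun y hy => hf y (Finset.mem_insert_of_mem hy)) γ _ _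
      (hc a (Finset.mem_insert_self _ _))
      (ih (fun y hy => hf y (Finset.mem_insert_of_mem hy))
        (fun y hy => hc y (Finset.mem_insert_of_mem hy)))

/-- The trivial extension `k / k`. -/
theorem isLocalExt_refl846 : IsLocalExt k k 1 1 (RingHom.id k) (RingEquiv.refl k) where
  cyc :=
    { pos := Nat.one_pos
      fix_i := fun _ => rfl
      fixed := fun y _ => ⟨y, rfl⟩
      order := fun _ => rfl
      faithful := fun m hm hm' => by omega }
  e_pos := Nat.one_pos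
  val_i := fun x => by simp
  val_s := fun _ => rfl

/-- Untwisted orbit sums exist (from `OrbSumExC` for the trivial extension). -/
theorem exists_orbSum846 (hex : OrbSumExC) {q : ℕ} (hk : IsLocalField k q) (m : ℕ)
    (f : GL (Fin 2) k → ℂ) (hf : IsBiInv (InU m) f) (hs : HasFinSupp (InU m) f)
    (γ : GL (Fin 2) k) (hγ : IsReg γ) : ∃ c : ℂ, IsOrbSum m f γ c := by
  have hk' : IsLocalField k (q ^ (1 / 1)) := by simpa using hk
  have hreg : IsReg (twNorm (RingEquiv.refl k) 1 γ) := by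
    have e : twNorm (RingEquiv.refl k) 1 γ = γ := by
      change γ * glAut (RingEquiv.refl k) 1 = γ
      rw [map_one, mul_one]
    rw [e]
    exact hγ
  exact hex k k q 1 1 (RingHom.id k) (RingEquiv.refl k) hk hk' isLocalExt_refl846 m f hf hs γ hreg

theorem orbSum_unique846 (huq : OrbSumUniqC) (m : ℕ) (f : GL (Fin 2) k → ℂ)
    (hf : IsBiInv (InU m) f) (γ : GL (Fin 2) k) (c c' : ℂ) (h : IsOrbSum m f γ c)
    (h' : IsOrbSum m f γ c') : c = c' :=
  huq k (RingEquiv.refl k) (fun _ => rfl) m f hf γ c c' h h'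

end OrbSumK

/-! ### `h ^ l` regular implies `h` regular -/

section Reg

variable {F : Type} [Field F]

theorem sq_eq_cayley846 (A : Matrix (Fin 2) (Fin 2) F) :
    A * A = A.trace • A - A.det • (1 : Matrix (Fin 2) (Fin 2) F) := by
  rw [Matrix.eta_fin_two (A * A), Matrix.eta_fin_two
    (A.trace • A - A.det • (1 : Matrix (Fin 2) (Fin 2) F))]
  simp only [Matrix.mul_apply, Fin.sum_univ_two, Matrix.trace_fin_two, Matrix.det_fin_two,
    Matrix.sub_apply, Matrix.smul_apply, Matrix.one_apply, smul_eq_mul]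
  congr 1
  ext i j
  fin_cases i <;> fin_cases j <;> simp <;> ring

theorem pow_eq_lin846 (A : Matrix (Fin 2) (Fin 2) F) (l : ℕ) :
    ∃ a b : F, A ^ l = a • A + b • (1 : Matrix (Fin 2) (Fin 2) F) := by
  induction l with
  | zero => exact ⟨0, 1, by simp⟩
  | succ l ih =>
    obtain ⟨a, b, h⟩ := ih
    refine ⟨a * A.trace + b, -(a * A.det), ?_⟩
    rw [pow_succ, h, add_mul, smul_mul_assoc, sq_eq_cayley846 A, smul_mul_assoc, one_mul]
    simp only [smul_sub, smul_smul, add_smul, neg_smul]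
    abel

theorem disc_lin846 (A : Matrix (Fin 2) (Fin 2) F) (a b : F) :
    (a • A + b • (1 : Matrix (Fin 2) (Fin 2) F)).trace ^ 2
        - 4 * (a • A + b • (1 : Matrix (Fin 2) (Fin 2) F)).det
      = a ^ 2 * (A.trace ^ 2 - 4 * A.det) := by
  simp only [Matrix.trace_fin_two, Matrix.det_fin_two, Matrix.add_apply, Matrix.smul_apply,
    Matrix.one_apply, smul_eq_mul]
  simp
  ring

theorem isReg_of_pow846 (h : GL (Fin 2) F) (l : ℕ) (hreg : IsReg (h ^ l)) : IsReg h := by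
  have h1 : disc (h ^ l) ≠ 0 := hreg.ne_zero
  obtain ⟨a, b, hab⟩ := pow_eq_lin846 (h : Matrix (Fin 2) (Fin 2) F) l
  have h2 : disc (h ^ l) = a ^ 2 * disc h := by
    unfold disc
    rw [Units.val_pow_eq_pow_val, hab, disc_lin846]
  rw [h2] at h1
  exact (isUnit_iff_ne_zero).2 (right_ne_zero_of_mul h1)

end Reg

end Fermat.Agent.LT.T6.H846

end

end
-- ===== PACK-END LT/T6/H846/DecompBasic.lean

-- ===== PACK-BEGIN LT/T6/H777/PowRoot.lean
section



/-!
# Row LT, tower T6, sub-leaf T6.18g3.1b `PowRootFromFnC820`, helper777, OFF-MAIN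

`powRootFromFnC777 : Fermat.Agent.LT.T6.H820.PowRootFromFnC820` (VERBATIM Prop of
`H820/PowSpec.lean`): from the root functions `(a, b)` of `RootFnC820` to the conjugation
equivariant `l`-th root `ρ(y) = a(χ y) y + b(χ y)` on a `χ`-ball around `(2, 1)` and the function
`f₀ = (ψ ∘ ρ) 1_V`.

* `ρ y` is invertible because `(ρ y) ^ l = y`; `disc (ρ y) = a² disc y`, and `a ≠ 0` for `y`
  regular (otherwise `y = (ρ y) ^ l` is scalar).
* FINITE SUPPORT: `f₀ y ≠ 0` forces `ρ y ∈ supp ψ`, so `y = (ρ y) ^ l` has bounded entries, and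
  `|det y| = 1` on the ball; the bounded matrices of unit determinant are a finite union of
  cosets `x U(m')` (finite residue system).
* BI-INVARIANCE at the level `m' = N₁ + m + C + 2 B + B' + 1`: for `f₀ y ≠ 0` and
  `u, u' ∈ U(m')`, `χ(u y u')` stays in the ball and
  `ρ(u y u') = u ρ(y) u' W` with `W ∈ U(m)` (Lipschitz bounds for `a`, `b`).
-/

set_option autoImplicit false
set_option linter.unusedSectionVars false

open scoped Matrix

noncomputable section

namespace Fermat.Agent.LT.T6.H777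

open Fermat.Agent.LT.T6 Fermat.Agent.LT.T6.H783 Fermat.Agent.LT.T6.H820

variable {k : Type} [Field k] [Valued k Γ₀]

/-! ## 1. Bounded matrices -/

/-- All entries of `A` have valuation at most `exp n`. -/
def Bdd777 (n : ℤ) (A : Matrix (Fin 2) (Fin 2) k) : Prop :=
  ∀ i j : Fin 2, Valued.v (A i j) ≤ WithZero.exp n

theorem small_iff_bdd777 (n : ℕ) (A : Matrix (Fin 2) (Fin 2) k) :
    Small777 n A ↔ Bdd777 (-(n : ℤ)) A := Iff.rfl

theorem bdd_mono777 {n n' : ℤ} (h : n ≤ n') {A : Matrix (Fin 2) (Fin 2) k}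
    (hA : Bdd777 n A) : Bdd777 n' A := fun i j =>
  (hA i j).trans (WithZero.exp_le_exp.2 h)

theorem bdd_zero777 (n : ℤ) : Bdd777 n (0 : Matrix (Fin 2) (Fin 2) k) := fun i j => by
  simp

theorem bdd_one777 : Bdd777 0 (1 : Matrix (Fin 2) (Fin 2) k) := fun i j => by
  rw [Matrix.one_apply, WithZero.exp_zero]
  split_ifs <;> simp

theorem bdd_add777 {n : ℤ} {A B : Matrix (Fin 2) (Fin 2) k} (hA : Bdd777 n A)
    (hB : Bdd777 n B) : Bdd777 n (A + B) := fun i j =>
  Valuation.map_add_le _ (hA i j) (hB i j)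

theorem bdd_sub777 {n : ℤ} {A B : Matrix (Fin 2) (Fin 2) k} (hA : Bdd777 n A)
    (hB : Bdd777 n B) : Bdd777 n (A - B) := fun i j =>
  Valuation.map_sub_le _ (hA i j) (hB i j)

theorem bdd_neg777 {n : ℤ} {A : Matrix (Fin 2) (Fin 2) k} (hA : Bdd777 n A) :
    Bdd777 n (-A) := fun i j => by
  rw [Matrix.neg_apply, Valuation.map_neg]
  exact hA i j

theorem bdd_mul777 {n n' : ℤ} {A B : Matrix (Fin 2) (Fin 2) k} (hA : Bdd777 n A)
    (hB : Bdd777 n' B) : Bdd777 (n + n') (A * B) := fun i j => by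
  rw [Matrix.mul_apply]
  refine Valuation.map_sum_le _ fun l _ => ?_
  rw [map_mul, WithZero.exp_add]
  exact mul_le_mul' (hA i l) (hB l j)

theorem bdd_smul777 {j n : ℤ} {c : k} {A : Matrix (Fin 2) (Fin 2) k}
    (hc : Valued.v c ≤ WithZero.exp j) (hA : Bdd777 n A) : Bdd777 (j + n) (c • A) :=
  fun i i' => by
    rw [Matrix.smul_apply, smul_eq_mul, map_mul, WithZero.exp_add]
    exact mul_le_mul' hc (hA i i')

theorem bdd_pow777 {n : ℤ} {A : Matrix (Fin 2) (Fin 2) k} (hA : Bdd777 n A)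
    (l : ℕ) : Bdd777 (l * n) (A ^ l) := by
  induction l with
  | zero =>
    simp only [Nat.cast_zero, zero_mul, pow_zero]
    exact bdd_one777
  | succ l ih =>
    rw [pow_succ]
    have h := bdd_mul777 ih hA
    have e : ((l + 1 : ℕ) : ℤ) * n = l * n + n := by push_cast; ring
    rw [e]
    exact h

/-- The valuation of an element is bounded by some `exp n`, `n ≥ 0`. -/
theorem exists_nat_bound777 (z : k) : ∃ n : ℕ, Valued.v z ≤ WithZero.exp (n : ℤ) := by
  rcases eq_or_ne (Valued.v z) 0 with h | h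
  · exact ⟨0, by rw [h]; exact zero_le⟩
  · refine ⟨(WithZero.log (Valued.v z)).toNat, ?_⟩
    conv_lhs => rw [← WithZero.exp_log h]
    rw [WithZero.exp_le_exp]
    exact Int.self_le_toNat _

theorem exists_bdd777 (A : Matrix (Fin 2) (Fin 2) k) : ∃ n : ℕ, Bdd777 (n : ℤ) A := by
  obtain ⟨n00, h00⟩ := exists_nat_bound777 (A 0 0)
  obtain ⟨n01, h01⟩ := exists_nat_bound777 (A 0 1)
  obtain ⟨n10, h10⟩ := exists_nat_bound777 (A 1 0)
  obtain ⟨n11, h11⟩ := exists_nat_bound777 (A 1 1)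
  refine ⟨n00 + n01 + n10 + n11, fun i j => ?_⟩
  fin_cases i <;> fin_cases j
  · exact h00.trans (WithZero.exp_le_exp.2 (by push_cast; omega))
  · exact h01.trans (WithZero.exp_le_exp.2 (by push_cast; omega))
  · exact h10.trans (WithZero.exp_le_exp.2 (by push_cast; omega))
  · exact h11.trans (WithZero.exp_le_exp.2 (by push_cast; omega))

/-- A finite set of invertible matrices is bounded, together with the inverses. -/
theorem exists_bdd_finset777 (F : Finset (GL (Fin 2) k)) :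
    ∃ B : ℕ, ∀ x ∈ F, Bdd777 (B : ℤ) (x : Matrix (Fin 2) (Fin 2) k) ∧
      Bdd777 (B : ℤ) ((x⁻¹ : GL (Fin 2) k) : Matrix (Fin 2) (Fin 2) k) := by
  classical
  induction F using Finset.induction_on with
  | empty => exact ⟨0, fun x hx => absurd hx (Finset.notMem_empty x)⟩
  | insert x F _ ih =>
    obtain ⟨B, hB⟩ := ih
    obtain ⟨n, hn⟩ := exists_bdd777 (x : Matrix (Fin 2) (Fin 2) k)
    obtain ⟨n', hn'⟩ := exists_bdd777 ((x⁻¹ : GL (Fin 2) k) : Matrix (Fin 2) (Fin 2) k)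
    refine ⟨B + n + n', fun y hy => ?_⟩
    rcases Finset.mem_insert.1 hy with rfl | hy
    · exact ⟨bdd_mono777 (by push_cast; omega) hn, bdd_mono777 (by push_cast; omega) hn'⟩
    · exact ⟨bdd_mono777 (by push_cast; omega) (hB y hy).1,
        bdd_mono777 (by push_cast; omega) (hB y hy).2⟩

/-- The inverse of a bounded matrix of unit determinant is bounded. -/
theorem bdd_inv777 {B : ℤ} {g : GL (Fin 2) k}
    (hg : Bdd777 B (g : Matrix (Fin 2) (Fin 2) k))
    (hdet : Valued.v (g : Matrix (Fin 2) (Fin 2) k).det = 1) :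
    Bdd777 B ((g⁻¹ : GL (Fin 2) k) : Matrix (Fin 2) (Fin 2) k) := by
  have hne : (g : Matrix (Fin 2) (Fin 2) k).det ≠ 0 := by
    intro h
    rw [h, map_zero] at hdet
    exact zero_ne_one hdet
  have hinv : Valued.v ((g : Matrix (Fin 2) (Fin 2) k).det)⁻¹ = 1 := by
    rw [map_inv₀, hdet, inv_one]
  rw [Matrix.coe_units_inv, Matrix.inv_def, Ring.inverse_eq_inv', Matrix.adjugate_fin_two]
  intro i j
  fin_cases i <;> fin_cases j <;>
    simp only [Fin.zero_eta, Fin.mk_one, Fin.isValue, Matrix.smul_apply, Matrix.of_apply,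
      Matrix.cons_val', Matrix.cons_val_zero, Matrix.cons_val_one, Matrix.cons_val_fin_one,
      smul_eq_mul, map_mul, hinv, one_mul, Valuation.map_neg]
  · exact hg 1 1
  · exact hg 0 1
  · exact hg 1 0
  · exact hg 0 0

/-- A matrix congruent to `1` modulo `ϖ^n`, `n ≥ 1`, lies in `U(n)`. -/
theorem inU_of_small777 {n : ℕ} (hn : 1 ≤ n) {W : GL (Fin 2) k}
    (hW : Small777 n ((W : Matrix (Fin 2) (Fin 2) k) - 1)) : InU n W := by
  have hlt : (WithZero.exp (-(n : ℤ)) : Γ₀) < 1 := by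
    rw [← WithZero.exp_zero, WithZero.exp_lt_exp]
    omega
  have hint : Bdd777 0 (W : Matrix (Fin 2) (Fin 2) k) := by
    have h1 : Bdd777 0 ((W : Matrix (Fin 2) (Fin 2) k) - 1) :=
      bdd_mono777 (by omega) ((small_iff_bdd777 n _).1 hW)
    have := bdd_add777 h1 bdd_one777
    simpa using this
  have hdet : Valued.v (W : Matrix (Fin 2) (Fin 2) k).det = 1 := by
    have e : (W : Matrix (Fin 2) (Fin 2) k).det
        = 1 + (((W : Matrix (Fin 2) (Fin 2) k) - 1) 0 0 + ((W : Matrix (Fin 2) (Fin 2) k) - 1) 1 1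
          + ((W : Matrix (Fin 2) (Fin 2) k) - 1) 0 0 * ((W : Matrix (Fin 2) (Fin 2) k) - 1) 1 1
          - ((W : Matrix (Fin 2) (Fin 2) k) - 1) 0 1 * ((W : Matrix (Fin 2) (Fin 2) k) - 1) 1 0) := by
      rw [Matrix.det_fin_two]
      simp only [Matrix.sub_apply, Matrix.one_apply_eq, ne_eq, zero_ne_one, one_ne_zero,
        not_false_eq_true, Matrix.one_apply_ne, sub_zero]
      ring
    rw [e]
    apply Valuation.map_one_add_of_lt
    have hle : ∀ i j, Valued.v (((W : Matrix (Fin 2) (Fin 2) k) - 1) i j)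
        ≤ WithZero.exp (-(n : ℤ)) := hW
    have hle1 : ∀ i j, Valued.v (((W : Matrix (Fin 2) (Fin 2) k) - 1) i j) ≤ 1 :=
      fun i j => (hle i j).trans hlt.le
    refine lt_of_le_of_lt ?_ hlt
    refine Valuation.map_sub_le _ (Valuation.map_add_le _ (Valuation.map_add_le _ (hle 0 0)
      (hle 1 1)) ?_) ?_
    · rw [map_mul]
      calc _ ≤ WithZero.exp (-(n : ℤ)) * 1 := mul_le_mul' (hle 0 0) (hle1 1 1)
        _ = _ := mul_one _
    · rw [map_mul]
      calc _ ≤ WithZero.exp (-(n : ℤ)) * 1 := mul_le_mul' (hle 0 1) (hle1 1 0)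
        _ = _ := mul_one _
  have hinvint := bdd_inv777 hint hdet
  rw [inU_iff777]
  refine ⟨hW, ?_⟩
  have e : ((W⁻¹ : GL (Fin 2) k) : Matrix (Fin 2) (Fin 2) k) - 1
      = ((W⁻¹ : GL (Fin 2) k) : Matrix (Fin 2) (Fin 2) k)
        * -((W : Matrix (Fin 2) (Fin 2) k) - 1) := by
    have h1 : ((W⁻¹ : GL (Fin 2) k) : Matrix (Fin 2) (Fin 2) k)
        * (W : Matrix (Fin 2) (Fin 2) k) = 1 := by
      rw [← Units.val_mul, inv_mul_cancel, Units.val_one]
    rw [neg_sub, Matrix.mul_sub, h1, Matrix.mul_one]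
  rw [e]
  have h2 := bdd_mul777 hinvint (bdd_neg777 ((small_iff_bdd777 n _).1 hW))
  rw [zero_add] at h2
  exact (small_iff_bdd777 n _).2 h2

/-! ## 2. Bounded matrices of unit determinant: finitely many cosets -/

theorem val_unif_pow777 {ϖ : k} (hϖ : Valued.v ϖ = WithZero.exp (-1 : ℤ)) (n : ℕ) :
    Valued.v (ϖ ^ n) = WithZero.exp (-(n : ℤ)) := by
  rw [map_pow, hϖ, ← WithZero.exp_nsmul]
  congr 1
  simp

/-- Two bounded matrices of unit determinant which are close lie in the same coset. -/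
theorem inU_inv_mul_of_close777 {B m' : ℕ} {g x : GL (Fin 2) k}
    (hg : Bdd777 (B : ℤ) (g : Matrix (Fin 2) (Fin 2) k))
    (hgd : Valued.v (g : Matrix (Fin 2) (Fin 2) k).det = 1)
    (hx : Bdd777 (B : ℤ) (x : Matrix (Fin 2) (Fin 2) k))
    (hxd : Valued.v (x : Matrix (Fin 2) (Fin 2) k).det = 1)
    (hclose : Bdd777 (-((m' + B : ℕ) : ℤ))
      ((g : Matrix (Fin 2) (Fin 2) k) - (x : Matrix (Fin 2) (Fin 2) k))) :
    InU m' (x⁻¹ * g) := by
  have hxi := bdd_inv777 hx hxd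
  have hgi := bdd_inv777 hg hgd
  rw [inU_iff777]
  constructor
  · have e : ((x⁻¹ * g : GL (Fin 2) k) : Matrix (Fin 2) (Fin 2) k) - 1
        = ((x⁻¹ : GL (Fin 2) k) : Matrix (Fin 2) (Fin 2) k)
          * ((g : Matrix (Fin 2) (Fin 2) k) - (x : Matrix (Fin 2) (Fin 2) k)) := by
      have h1 : ((x⁻¹ : GL (Fin 2) k) : Matrix (Fin 2) (Fin 2) k)
          * (x : Matrix (Fin 2) (Fin 2) k) = 1 := by
        rw [← Units.val_mul, inv_mul_cancel, Units.val_one]
      rw [Units.val_mul, Matrix.mul_sub, h1]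
    rw [e, small_iff_bdd777]
    refine bdd_mono777 ?_ (bdd_mul777 hxi hclose)
    push_cast
    omega
  · have e : (((x⁻¹ * g)⁻¹ : GL (Fin 2) k) : Matrix (Fin 2) (Fin 2) k) - 1
        = ((g⁻¹ : GL (Fin 2) k) : Matrix (Fin 2) (Fin 2) k)
          * -((g : Matrix (Fin 2) (Fin 2) k) - (x : Matrix (Fin 2) (Fin 2) k)) := by
      have h1 : ((g⁻¹ : GL (Fin 2) k) : Matrix (Fin 2) (Fin 2) k)
          * (g : Matrix (Fin 2) (Fin 2) k) = 1 := by
        rw [← Units.val_mul, inv_mul_cancel, Units.val_one]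
      rw [mul_inv_rev, inv_inv, Units.val_mul, neg_sub, Matrix.mul_sub, h1]
    rw [e, small_iff_bdd777]
    refine bdd_mono777 ?_ (bdd_mul777 hgi (bdd_neg777 hclose))
    push_cast
    omega

theorem exists_cover777 {q : ℕ} (hk : IsLocalField k q) (B m' : ℕ) :
    ∃ F : Finset (GL (Fin 2) k), ∀ g : GL (Fin 2) k,
      Bdd777 (B : ℤ) (g : Matrix (Fin 2) (Fin 2) k) →
      Valued.v (g : Matrix (Fin 2) (Fin 2) k).det = 1 →
      ∃ x ∈ F, ∃ u : GL (Fin 2) k, InU m' u ∧ g = x * u := by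
  classical
  obtain ⟨ϖ, hϖ⟩ := hk.unif
  obtain ⟨A, hA⟩ := exists_reps777 hk (m' + 2 * B)
  have hϖB := val_unif_pow777 hϖ B
  have hϖ0 : ϖ ^ B ≠ 0 := by
    intro h
    rw [h, map_zero] at hϖB
    exact WithZero.exp_ne_zero hϖB.symm
  let P : (Fin 2 → Fin 2 → A) → GL (Fin 2) k → Prop := fun c g =>
    Bdd777 (B : ℤ) (g : Matrix (Fin 2) (Fin 2) k) ∧
      Valued.v (g : Matrix (Fin 2) (Fin 2) k).det = 1 ∧
      ∀ i j, Valued.v (ϖ ^ B * (g : Matrix (Fin 2) (Fin 2) k) i j - (c i j : k))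
        ≤ WithZero.exp (-((m' + 2 * B : ℕ) : ℤ))
  let X : (Fin 2 → Fin 2 → A) → GL (Fin 2) k := fun c =>
    if h : ∃ g, P c g then h.choose else 1
  refine ⟨Finset.univ.image X, fun g hg hgd => ?_⟩
  have hint : ∀ i j, Valued.v (ϖ ^ B * (g : Matrix (Fin 2) (Fin 2) k) i j) ≤ 1 := by
    intro i j
    rw [map_mul, hϖB]
    calc WithZero.exp (-(B : ℤ)) * Valued.v ((g : Matrix (Fin 2) (Fin 2) k) i j)
        ≤ WithZero.exp (-(B : ℤ)) * WithZero.exp (B : ℤ) := mul_le_mul' le_rfl (hg i j)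
      _ = 1 := by rw [← WithZero.exp_add, neg_add_cancel, WithZero.exp_zero]
  have hch : ∀ i j, ∃ a ∈ A, Valued.v (ϖ ^ B * (g : Matrix (Fin 2) (Fin 2) k) i j - a)
      ≤ WithZero.exp (-((m' + 2 * B : ℕ) : ℤ)) := fun i j => hA _ (hint i j)
  choose c hcA hc using hch
  have hex : ∃ g', P (fun i j => ⟨c i j, hcA i j⟩) g' := ⟨g, hg, hgd, fun i j => hc i j⟩
  refine ⟨X (fun i j => ⟨c i j, hcA i j⟩), Finset.mem_image_of_mem X (Finset.mem_univ _), ?_⟩
  have hXeq : X (fun i j => ⟨c i j, hcA i j⟩) = hex.choose := by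
    simp only [X, dif_pos hex]
  rw [hXeq]
  obtain ⟨hx, hxd, hxc⟩ := hex.choose_spec
  set x := hex.choose
  have hclose : Bdd777 (-((m' + B : ℕ) : ℤ))
      ((g : Matrix (Fin 2) (Fin 2) k) - (x : Matrix (Fin 2) (Fin 2) k)) := by
    intro i j
    have e : ((g : Matrix (Fin 2) (Fin 2) k) - (x : Matrix (Fin 2) (Fin 2) k)) i j
        = (ϖ ^ B)⁻¹ * ((ϖ ^ B * (g : Matrix (Fin 2) (Fin 2) k) i j - c i j)
          - (ϖ ^ B * (x : Matrix (Fin 2) (Fin 2) k) i j - c i j)) := by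
      rw [Matrix.sub_apply]
      field_simp
      ring
    rw [e, map_mul, map_inv₀, hϖB]
    have h1 : Valued.v ((ϖ ^ B * (g : Matrix (Fin 2) (Fin 2) k) i j - c i j)
          - (ϖ ^ B * (x : Matrix (Fin 2) (Fin 2) k) i j - c i j))
        ≤ WithZero.exp (-((m' + 2 * B : ℕ) : ℤ)) :=
      Valuation.map_sub_le _ (hc i j) (hxc i j)
    calc (WithZero.exp (-(B : ℤ)) : Γ₀)⁻¹ * _
        ≤ (WithZero.exp (-(B : ℤ)) : Γ₀)⁻¹ * WithZero.exp (-((m' + 2 * B : ℕ) : ℤ)) :=
          mul_le_mul' le_rfl h1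
      _ = WithZero.exp (-((m' + B : ℕ) : ℤ)) := by
          rw [← WithZero.exp_neg, ← WithZero.exp_add]
          congr 1
          push_cast
          ring
  exact ⟨x⁻¹ * g, inU_inv_mul_of_close777 hg hgd hx hxd hclose, by group⟩

/-! ## 3. Trace and determinant estimates -/

theorem trace_lin777 (a b : k) (M : Matrix (Fin 2) (Fin 2) k) :
    (a • M + b • (1 : Matrix (Fin 2) (Fin 2) k)).trace = a * M.trace + 2 * b := by
  simp only [Matrix.trace_fin_two, Matrix.add_apply, Matrix.smul_apply, Matrix.one_apply_eq,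
    smul_eq_mul, mul_one]
  ring

theorem det_lin777 (a b : k) (M : Matrix (Fin 2) (Fin 2) k) :
    (a • M + b • (1 : Matrix (Fin 2) (Fin 2) k)).det
      = a ^ 2 * M.det + a * b * M.trace + b ^ 2 := by
  simp only [Matrix.det_fin_two, Matrix.trace_fin_two, Matrix.add_apply, Matrix.smul_apply,
    Matrix.one_apply_eq, smul_eq_mul, mul_one, ne_eq, zero_ne_one, one_ne_zero,
    not_false_eq_true, Matrix.one_apply_ne, mul_zero, add_zero]
  ring

theorem val_det_sub_one_le777 {n : ℕ} {W : Matrix (Fin 2) (Fin 2) k}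
    (hW : Small777 n (W - 1)) : Valued.v (W.det - 1) ≤ WithZero.exp (-(n : ℤ)) := by
  have e : W.det - 1 = (W - 1) 0 0 + (W - 1) 1 1 + (W - 1) 0 0 * (W - 1) 1 1
      - (W - 1) 0 1 * (W - 1) 1 0 := by
    rw [Matrix.det_fin_two]
    simp only [Matrix.sub_apply, Matrix.one_apply_eq, ne_eq, zero_ne_one, one_ne_zero,
      not_false_eq_true, Matrix.one_apply_ne, sub_zero]
    ring
  rw [e]
  have hle1 : ∀ i j, Valued.v ((W - 1) i j) ≤ 1 := fun i j =>
    (hW i j).trans (exp_neg_le_one777 n)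
  refine Valuation.map_sub_le _ (Valuation.map_add_le _ (Valuation.map_add_le _ (hW 0 0)
    (hW 1 1)) ?_) ?_
  · rw [map_mul]
    calc _ ≤ WithZero.exp (-(n : ℤ)) * 1 := mul_le_mul' (hW 0 0) (hle1 1 1)
      _ = _ := mul_one _
  · rw [map_mul]
    calc _ ≤ WithZero.exp (-(n : ℤ)) * 1 := mul_le_mul' (hW 0 1) (hle1 1 0)
      _ = _ := mul_one _

theorem val_trace_le777 {n : ℤ} {D : Matrix (Fin 2) (Fin 2) k} (hD : Bdd777 n D) :
    Valued.v D.trace ≤ WithZero.exp n := by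
  rw [Matrix.trace_fin_two]
  exact Valuation.map_add_le _ (hD 0 0) (hD 1 1)

theorem bdd_of_inU777 {n : ℕ} {u : GL (Fin 2) k} (hu : InU n u) :
    Bdd777 0 (u : Matrix (Fin 2) (Fin 2) k) := by
  have := small_of_inU777 hu
  rw [small_iff_bdd777] at this
  simpa using this

theorem bdd_inv_of_inU777 {n : ℕ} {u : GL (Fin 2) k} (hu : InU n u) :
    Bdd777 0 ((u⁻¹ : GL (Fin 2) k) : Matrix (Fin 2) (Fin 2) k) :=
  bdd_of_inU777 (inU_inv777 hu)

/-- `χ(u g u')` is close to `χ(g)` for `u, u' ∈ U(m')` and `g` bounded of unit determinant. -/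
theorem chi_close777 {B m' : ℕ} {u u' g : GL (Fin 2) k} (hu : InU m' u) (hu' : InU m' u')
    (hg : Bdd777 (B : ℤ) (g : Matrix (Fin 2) (Fin 2) k))
    (hgd : Valued.v (g : Matrix (Fin 2) (Fin 2) k).det = 1) :
    Bdd777 (B : ℤ) ((u * g * u' : GL (Fin 2) k) : Matrix (Fin 2) (Fin 2) k) ∧
      Valued.v (((u * g * u' : GL (Fin 2) k) : Matrix (Fin 2) (Fin 2) k).trace
        - (g : Matrix (Fin 2) (Fin 2) k).trace) ≤ WithZero.exp ((B : ℤ) - m') ∧
      Valued.v (((u * g * u' : GL (Fin 2) k) : Matrix (Fin 2) (Fin 2) k).det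
        - (g : Matrix (Fin 2) (Fin 2) k).det) ≤ WithZero.exp (-(m' : ℤ)) := by
  have hub := bdd_of_inU777 hu
  have hub' := bdd_of_inU777 hu'
  have hus := ((inU_iff777 m' u).1 hu).1
  have hus' := ((inU_iff777 m' u').1 hu').1
  rw [small_iff_bdd777] at hus hus'
  refine ⟨?_, ?_, ?_⟩
  · rw [Units.val_mul, Units.val_mul]
    have := bdd_mul777 (bdd_mul777 hub hg) hub'
    simpa using this
  · have e : ((u * g * u' : GL (Fin 2) k) : Matrix (Fin 2) (Fin 2) k)
        - (g : Matrix (Fin 2) (Fin 2) k)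
        = ((u : Matrix (Fin 2) (Fin 2) k) - 1) * (g : Matrix (Fin 2) (Fin 2) k)
            * (u' : Matrix (Fin 2) (Fin 2) k)
          + (g : Matrix (Fin 2) (Fin 2) k) * ((u' : Matrix (Fin 2) (Fin 2) k) - 1) := by
      rw [Units.val_mul, Units.val_mul]
      noncomm_ring
    rw [← Matrix.trace_sub, e]
    refine val_trace_le777 (bdd_add777 ?_ ?_)
    · refine bdd_mono777 ?_ (bdd_mul777 (bdd_mul777 hus hg) hub')
      omega
    · refine bdd_mono777 ?_ (bdd_mul777 hg hus')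
      omega
  · have hdu := val_det_sub_one_le777 (((inU_iff777 m' u).1 hu).1)
    have hdu' := val_det_sub_one_le777 (((inU_iff777 m' u').1 hu').1)
    have hdu1 : Valued.v (u' : Matrix (Fin 2) (Fin 2) k).det ≤ 1 :=
      (trace_det_of_inU777 hu').2.le
    rw [Units.val_mul, Units.val_mul, Matrix.det_mul, Matrix.det_mul]
    have e : (u : Matrix (Fin 2) (Fin 2) k).det * (g : Matrix (Fin 2) (Fin 2) k).det
          * (u' : Matrix (Fin 2) (Fin 2) k).det - (g : Matrix (Fin 2) (Fin 2) k).det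
        = (g : Matrix (Fin 2) (Fin 2) k).det
          * (((u : Matrix (Fin 2) (Fin 2) k).det - 1) * (u' : Matrix (Fin 2) (Fin 2) k).det
            + ((u' : Matrix (Fin 2) (Fin 2) k).det - 1)) := by ring
    rw [e, map_mul, hgd, one_mul]
    refine Valuation.map_add_le _ ?_ hdu'
    rw [map_mul]
    calc _ ≤ WithZero.exp (-(m' : ℤ)) * 1 := mul_le_mul' hdu hdu1
      _ = _ := mul_one _

/-! ## 4. The root `ρ` and the function `f₀` -/

/-- The property of the root functions `(a, b)` on the ball of radius `exp(-N₁)`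
(the body of `RootFnC820`). -/
def IsRootFn777 (l : ℕ) (N₀ N₁ C : ℤ) (a b : k → k → k) : Prop :=
  ∀ t d : k, Valued.v (t - 2 : k) ≤ WithZero.exp (-N₁) →
    Valued.v (d - 1 : k) ≤ WithZero.exp (-N₁) →
    (∀ M : Matrix (Fin 2) (Fin 2) k, M.trace = t → M.det = d →
      (a t d • M + b t d • (1 : Matrix (Fin 2) (Fin 2) k)) ^ l = M) ∧
    Valued.v (a t d * t + 2 * b t d - 2 : k) ≤ WithZero.exp (-N₀) ∧
    Valued.v (a t d ^ 2 * d + a t d * b t d * t + b t d ^ 2 - 1 : k)
      ≤ WithZero.exp (-N₀) ∧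
    Valued.v (a t d : k) ≤ WithZero.exp C ∧ Valued.v (b t d : k) ≤ WithZero.exp C ∧
    ∀ t' d' : k, Valued.v (t' - 2 : k) ≤ WithZero.exp (-N₁) →
      Valued.v (d' - 1 : k) ≤ WithZero.exp (-N₁) →
      Valued.v (a t d - a t' d' : k)
          ≤ WithZero.exp C * max (Valued.v (t - t' : k)) (Valued.v (d - d' : k)) ∧
        Valued.v (b t d - b t' d' : k)
          ≤ WithZero.exp C * max (Valued.v (t - t' : k)) (Valued.v (d - d' : k))

/-- The matrix `a(χ y) y + b(χ y)`. -/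
def rhoMat777 (a b : k → k → k) (y : GL (Fin 2) k) : Matrix (Fin 2) (Fin 2) k :=
  a (y : Matrix (Fin 2) (Fin 2) k).trace (y : Matrix (Fin 2) (Fin 2) k).det
      • (y : Matrix (Fin 2) (Fin 2) k)
    + b (y : Matrix (Fin 2) (Fin 2) k).trace (y : Matrix (Fin 2) (Fin 2) k).det
      • (1 : Matrix (Fin 2) (Fin 2) k)

open Classical in
/-- The root `ρ(y) = a(χ y) y + b(χ y)` (junk value `1` where the matrix is singular). -/
def rho777 (a b : k → k → k) (y : GL (Fin 2) k) : GL (Fin 2) k :=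
  if h : (rhoMat777 a b y).det ≠ 0 then Matrix.GeneralLinearGroup.mkOfDetNeZero _ h else 1

open Classical in
/-- The function `f₀ = (ψ ∘ ρ) 1_V`. -/
def f0_777 (a b : k → k → k) (N : ℤ) (ψ : GL (Fin 2) k → ℂ) (y : GL (Fin 2) k) : ℂ :=
  if InChiBall783 2 1 N y then ψ (rho777 a b y) else 0

section Root

variable {l : ℕ} {N₀ N₁ C N : ℤ} {a b : k → k → k}

theorem ball_mono777 (hN : N₁ ≤ N) {y : GL (Fin 2) k} (hy : InChiBall783 2 1 N y) :
    Valued.v ((y : Matrix (Fin 2) (Fin 2) k).trace - 2) ≤ WithZero.exp (-N₁) ∧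
      Valued.v ((y : Matrix (Fin 2) (Fin 2) k).det - 1) ≤ WithZero.exp (-N₁) :=
  ⟨hy.1.trans (WithZero.exp_le_exp.2 (by omega)), hy.2.trans (WithZero.exp_le_exp.2 (by omega))⟩

theorem rhoMat_pow777 (h : IsRootFn777 l N₀ N₁ C a b) (hN : N₁ ≤ N) {y : GL (Fin 2) k}
    (hy : InChiBall783 2 1 N y) : rhoMat777 a b y ^ l = (y : Matrix (Fin 2) (Fin 2) k) :=
  (h _ _ (ball_mono777 hN hy).1 (ball_mono777 hN hy).2).1 _ rfl rfl

theorem det_ne_zero777 (y : GL (Fin 2) k) : (y : Matrix (Fin 2) (Fin 2) k).det ≠ 0 := by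
  have h := congrArg Matrix.det (show (y : Matrix (Fin 2) (Fin 2) k)
    * ((y⁻¹ : GL (Fin 2) k) : Matrix (Fin 2) (Fin 2) k) = 1 by
      rw [← Units.val_mul, mul_inv_cancel, Units.val_one])
  rw [Matrix.det_mul, Matrix.det_one] at h
  intro h0
  rw [h0, zero_mul] at h
  exact zero_ne_one h

theorem rhoMat_det_ne_zero777 (hl : 0 < l) (h : IsRootFn777 l N₀ N₁ C a b) (hN : N₁ ≤ N)
    {y : GL (Fin 2) k} (hy : InChiBall783 2 1 N y) : (rhoMat777 a b y).det ≠ 0 := by
  intro h0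
  have h1 := congrArg Matrix.det (rhoMat_pow777 h hN hy)
  rw [Matrix.det_pow, h0, zero_pow hl.ne'] at h1
  exact det_ne_zero777 y h1.symm

theorem coe_rho777 (hl : 0 < l) (h : IsRootFn777 l N₀ N₁ C a b) (hN : N₁ ≤ N)
    {y : GL (Fin 2) k} (hy : InChiBall783 2 1 N y) :
    ((rho777 a b y : GL (Fin 2) k) : Matrix (Fin 2) (Fin 2) k) = rhoMat777 a b y := by
  unfold rho777
  rw [dif_pos (rhoMat_det_ne_zero777 hl h hN hy)]
  rfl

theorem rho_pow777 (hl : 0 < l) (h : IsRootFn777 l N₀ N₁ C a b) (hN : N₁ ≤ N)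
    {y : GL (Fin 2) k} (hy : InChiBall783 2 1 N y) : (rho777 a b y) ^ l = y := by
  apply Units.ext
  rw [Units.val_pow_eq_pow_val, coe_rho777 hl h hN hy, rhoMat_pow777 h hN hy]

theorem rho_ball777 (hl : 0 < l) (h : IsRootFn777 l N₀ N₁ C a b) (hN : N₁ ≤ N)
    {y : GL (Fin 2) k} (hy : InChiBall783 2 1 N y) : InChiBall783 2 1 N₀ (rho777 a b y) := by
  obtain ⟨-, h2, h3, -⟩ := h _ _ (ball_mono777 hN hy).1 (ball_mono777 hN hy).2
  unfold InChiBall783
  rw [coe_rho777 hl h hN hy]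
  unfold rhoMat777
  rw [trace_lin777, det_lin777]
  exact ⟨h2, h3⟩

theorem trace_conj777 (x y : GL (Fin 2) k) :
    ((x⁻¹ * y * x : GL (Fin 2) k) : Matrix (Fin 2) (Fin 2) k).trace
      = (y : Matrix (Fin 2) (Fin 2) k).trace := by
  rw [Units.val_mul, Matrix.trace_mul_comm, ← Units.val_mul, mul_inv_cancel_left]

theorem det_conj777 (x y : GL (Fin 2) k) :
    ((x⁻¹ * y * x : GL (Fin 2) k) : Matrix (Fin 2) (Fin 2) k).det
      = (y : Matrix (Fin 2) (Fin 2) k).det := by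
  rw [Units.val_mul, Matrix.det_mul, mul_comm, ← Matrix.det_mul, ← Units.val_mul,
    mul_inv_cancel_left]

theorem ball_conj777 (x : GL (Fin 2) k) {y : GL (Fin 2) k} (hy : InChiBall783 2 1 N y) :
    InChiBall783 2 1 N (x⁻¹ * y * x) := by
  unfold InChiBall783 at hy ⊢
  rw [trace_conj777, det_conj777]
  exact hy

theorem rho_conj777 (hl : 0 < l) (h : IsRootFn777 l N₀ N₁ C a b) (hN : N₁ ≤ N)
    {y : GL (Fin 2) k} (hy : InChiBall783 2 1 N y) (x : GL (Fin 2) k) :
    rho777 a b (x⁻¹ * y * x) = x⁻¹ * rho777 a b y * x := by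
  apply Units.ext
  rw [coe_rho777 hl h hN (ball_conj777 x hy), Units.val_mul, Units.val_mul,
    coe_rho777 hl h hN hy]
  unfold rhoMat777
  rw [trace_conj777, det_conj777, Units.val_mul, Units.val_mul]
  have h1 : ((x⁻¹ : GL (Fin 2) k) : Matrix (Fin 2) (Fin 2) k)
      * (x : Matrix (Fin 2) (Fin 2) k) = 1 := by
    rw [← Units.val_mul, inv_mul_cancel, Units.val_one]
  rw [Matrix.mul_add, Matrix.add_mul, Matrix.mul_smul, Matrix.smul_mul, Matrix.mul_smul,
    Matrix.smul_mul, Matrix.mul_one, h1]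

theorem disc_rho777 (hl : 0 < l) (h : IsRootFn777 l N₀ N₁ C a b) (hN : N₁ ≤ N)
    {y : GL (Fin 2) k} (hy : InChiBall783 2 1 N y) :
    disc (rho777 a b y)
      = a (y : Matrix (Fin 2) (Fin 2) k).trace (y : Matrix (Fin 2) (Fin 2) k).det ^ 2
        * disc y := by
  unfold disc
  rw [coe_rho777 hl h hN hy]
  unfold rhoMat777
  rw [trace_lin777, det_lin777]
  ring

theorem rho_reg777 (hl : 0 < l) (h : IsRootFn777 l N₀ N₁ C a b) (hN : N₁ ≤ N)
    {y : GL (Fin 2) k} (hy : InChiBall783 2 1 N y) (hreg : IsReg y) :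
    IsReg (rho777 a b y) := by
  unfold IsReg at hreg ⊢
  rw [isUnit_iff_ne_zero] at hreg ⊢
  rw [disc_rho777 hl h hN hy]
  refine mul_ne_zero (pow_ne_zero _ ?_) hreg
  intro ha
  apply hreg
  have hp := rhoMat_pow777 h hN hy
  unfold rhoMat777 at hp
  rw [ha, zero_smul, zero_add, smul_pow, one_pow] at hp
  unfold disc
  rw [← hp]
  simp only [Matrix.trace_fin_two, Matrix.det_fin_two, Matrix.smul_apply, Matrix.one_apply_eq,
    smul_eq_mul, mul_one, ne_eq, zero_ne_one, one_ne_zero, not_false_eq_true,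
    Matrix.one_apply_ne, mul_zero]
  ring

theorem f0_eq777 (ψ : GL (Fin 2) k → ℂ) {y : GL (Fin 2) k} (hy : InChiBall783 2 1 N y) :
    f0_777 a b N ψ y = ψ (rho777 a b y) := by
  unfold f0_777
  rw [if_pos hy]

theorem f0_ne777 {ψ : GL (Fin 2) k → ℂ} {y : GL (Fin 2) k} (hy : f0_777 a b N ψ y ≠ 0) :
    InChiBall783 2 1 N y ∧ ψ (rho777 a b y) ≠ 0 := by
  unfold f0_777 at hy
  by_cases hb : InChiBall783 2 1 N y
  · rw [if_pos hb] at hy
    exact ⟨hb, hy⟩
  · rw [if_neg hb] at hy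
    exact absurd rfl hy

theorem isRootOn777 (hl : 0 < l) (h : IsRootFn777 l N₀ N₁ C a b) (hN : N₁ ≤ N)
    (ψ : GL (Fin 2) k → ℂ) : IsRootOn820 l N₀ N ψ (rho777 a b) (f0_777 a b N ψ) :=
  fun _ hreg hy => ⟨rho_pow777 hl h hN hy, rho_reg777 hl h hN hy hreg,
    rho_ball777 hl h hN hy, fun x => rho_conj777 hl h hN hy x, f0_eq777 ψ hy⟩

/-! ## 5. Boundedness on the support -/

theorem val_det_eq_one_of_ball777 (hN1 : 1 ≤ N) {y : GL (Fin 2) k}
    (hy : InChiBall783 2 1 N y) : Valued.v (y : Matrix (Fin 2) (Fin 2) k).det = 1 := by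
  have e : (y : Matrix (Fin 2) (Fin 2) k).det
      = 1 + ((y : Matrix (Fin 2) (Fin 2) k).det - 1) := by ring
  rw [e]
  apply Valuation.map_one_add_of_lt
  refine lt_of_le_of_lt hy.2 ?_
  rw [← WithZero.exp_zero, WithZero.exp_lt_exp]
  omega

/-- The data on the support of `f₀`. -/
theorem supp_bounds777 (hl : 0 < l) (h : IsRootFn777 l N₀ N₁ C a b) (hN : N₁ ≤ N)
    (hN1 : 1 ≤ N) {m Bψ : ℕ} {ψ : GL (Fin 2) k → ℂ} {Fψ : Finset (GL (Fin 2) k)}
    (hFψ : ∀ g : GL (Fin 2) k, ψ g ≠ 0 → ∃ x ∈ Fψ, ∃ u : GL (Fin 2) k, InU m u ∧ g = x * u)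
    (hBψ : ∀ x ∈ Fψ, Bdd777 (Bψ : ℤ) (x : Matrix (Fin 2) (Fin 2) k) ∧
      Bdd777 (Bψ : ℤ) ((x⁻¹ : GL (Fin 2) k) : Matrix (Fin 2) (Fin 2) k))
    {g : GL (Fin 2) k} (hg : f0_777 a b N ψ g ≠ 0) :
    InChiBall783 2 1 N g ∧ ψ (rho777 a b g) ≠ 0 ∧
      Bdd777 (Bψ : ℤ) ((rho777 a b g : GL (Fin 2) k) : Matrix (Fin 2) (Fin 2) k) ∧
      Bdd777 (Bψ : ℤ) (((rho777 a b g)⁻¹ : GL (Fin 2) k) : Matrix (Fin 2) (Fin 2) k) ∧
      Bdd777 ((l * Bψ : ℕ) : ℤ) (g : Matrix (Fin 2) (Fin 2) k) ∧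
      Valued.v (g : Matrix (Fin 2) (Fin 2) k).det = 1 := by
  obtain ⟨hb, hψ⟩ := f0_ne777 hg
  obtain ⟨x, hx, u, hu, hxu⟩ := hFψ _ hψ
  obtain ⟨hx1, hx2⟩ := hBψ x hx
  have hρ : Bdd777 (Bψ : ℤ) ((rho777 a b g : GL (Fin 2) k) : Matrix (Fin 2) (Fin 2) k) := by
    rw [hxu, Units.val_mul]
    have := bdd_mul777 hx1 (bdd_of_inU777 hu)
    rwa [add_zero] at this
  have hρi : Bdd777 (Bψ : ℤ)
      (((rho777 a b g)⁻¹ : GL (Fin 2) k) : Matrix (Fin 2) (Fin 2) k) := by
    rw [hxu, mul_inv_rev, Units.val_mul]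
    have := bdd_mul777 (bdd_inv_of_inU777 hu) hx2
    rwa [zero_add] at this
  refine ⟨hb, hψ, hρ, hρi, ?_, val_det_eq_one_of_ball777 hN1 hb⟩
  have hp := rhoMat_pow777 h hN hb
  rw [← coe_rho777 hl h hN hb] at hp
  rw [← hp]
  have := bdd_pow777 hρ l
  push_cast
  exact this

/-! ## 6. Bi-invariance -/

theorem ball_close777 {B m' : ℕ} (hm' : N + B ≤ m') {g g' : GL (Fin 2) k}
    (hg : InChiBall783 2 1 N g)
    (ht : Valued.v ((g' : Matrix (Fin 2) (Fin 2) k).trace
      - (g : Matrix (Fin 2) (Fin 2) k).trace) ≤ WithZero.exp ((B : ℤ) - m'))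
    (hd : Valued.v ((g' : Matrix (Fin 2) (Fin 2) k).det
      - (g : Matrix (Fin 2) (Fin 2) k).det) ≤ WithZero.exp (-(m' : ℤ))) :
    InChiBall783 2 1 N g' := by
  constructor
  · have e : (g' : Matrix (Fin 2) (Fin 2) k).trace - 2
        = ((g' : Matrix (Fin 2) (Fin 2) k).trace - (g : Matrix (Fin 2) (Fin 2) k).trace)
          + ((g : Matrix (Fin 2) (Fin 2) k).trace - 2) := by ring
    rw [e]
    exact Valuation.map_add_le _ (ht.trans (WithZero.exp_le_exp.2 (by omega))) hg.1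
  · have e : (g' : Matrix (Fin 2) (Fin 2) k).det - 1
        = ((g' : Matrix (Fin 2) (Fin 2) k).det - (g : Matrix (Fin 2) (Fin 2) k).det)
          + ((g : Matrix (Fin 2) (Fin 2) k).det - 1) := by ring
    rw [e]
    exact Valuation.map_add_le _ (hd.trans (WithZero.exp_le_exp.2 (by omega))) hg.2

/-- The Lipschitz estimate for `ρ`: `ρ(u g u') - u ρ(g) u'` is small. -/
theorem rhoMat_close777 (h : IsRootFn777 l N₀ N₁ C a b) (hN : N₁ ≤ N) {B Cn m' : ℕ}
    (hC : C ≤ Cn) {u u' g : GL (Fin 2) k} (hu : InU m' u) (hu' : InU m' u')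
    (hg : Bdd777 (B : ℤ) (g : Matrix (Fin 2) (Fin 2) k))
    (hgd : Valued.v (g : Matrix (Fin 2) (Fin 2) k).det = 1)
    (hb : InChiBall783 2 1 N g) (hb' : InChiBall783 2 1 N (u * g * u')) :
    Bdd777 ((Cn : ℤ) + 2 * B - m')
      (rhoMat777 a b (u * g * u') - (u : Matrix (Fin 2) (Fin 2) k) * rhoMat777 a b g
        * (u' : Matrix (Fin 2) (Fin 2) k)) := by
  obtain ⟨hgb, htr, hdt⟩ := chi_close777 hu hu' hg hgd
  obtain ⟨-, -, -, -, hbC, -⟩ := h _ _ (ball_mono777 hN hb).1 (ball_mono777 hN hb).2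
  obtain ⟨-, -, -, -, -, hL⟩ := h _ _ (ball_mono777 hN hb').1 (ball_mono777 hN hb').2
  obtain ⟨hLa, hLb⟩ := hL _ _ (ball_mono777 hN hb).1 (ball_mono777 hN hb).2
  have hmax : max (Valued.v (((u * g * u' : GL (Fin 2) k) : Matrix (Fin 2) (Fin 2) k).trace
        - (g : Matrix (Fin 2) (Fin 2) k).trace))
      (Valued.v (((u * g * u' : GL (Fin 2) k) : Matrix (Fin 2) (Fin 2) k).det
        - (g : Matrix (Fin 2) (Fin 2) k).det)) ≤ WithZero.exp ((B : ℤ) - m') :=
    max_le htr (hdt.trans (WithZero.exp_le_exp.2 (by omega)))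
  have hexp : (WithZero.exp C : Γ₀) * WithZero.exp ((B : ℤ) - m')
      ≤ WithZero.exp ((Cn : ℤ) + B - m') := by
    rw [← WithZero.exp_add, WithZero.exp_le_exp]
    omega
  have hLa' := (hLa.trans (mul_le_mul' le_rfl hmax)).trans hexp
  have hLb' := (hLb.trans (mul_le_mul' le_rfl hmax)).trans hexp
  have hus := ((inU_iff777 m' u).1 hu).1
  have hus' := ((inU_iff777 m' u').1 hu').1
  rw [small_iff_bdd777] at hus hus'
  have hub := bdd_of_inU777 hu
  have e : rhoMat777 a b (u * g * u') - (u : Matrix (Fin 2) (Fin 2) k) * rhoMat777 a b g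
        * (u' : Matrix (Fin 2) (Fin 2) k)
      = (a ((u * g * u' : GL (Fin 2) k) : Matrix (Fin 2) (Fin 2) k).trace
            ((u * g * u' : GL (Fin 2) k) : Matrix (Fin 2) (Fin 2) k).det
          - a (g : Matrix (Fin 2) (Fin 2) k).trace (g : Matrix (Fin 2) (Fin 2) k).det)
          • ((u * g * u' : GL (Fin 2) k) : Matrix (Fin 2) (Fin 2) k)
        + (b ((u * g * u' : GL (Fin 2) k) : Matrix (Fin 2) (Fin 2) k).trace
            ((u * g * u' : GL (Fin 2) k) : Matrix (Fin 2) (Fin 2) k).det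
          - b (g : Matrix (Fin 2) (Fin 2) k).trace (g : Matrix (Fin 2) (Fin 2) k).det)
          • (1 : Matrix (Fin 2) (Fin 2) k)
        - b (g : Matrix (Fin 2) (Fin 2) k).trace (g : Matrix (Fin 2) (Fin 2) k).det
          • (((u : Matrix (Fin 2) (Fin 2) k) - 1) * (u' : Matrix (Fin 2) (Fin 2) k)
            + ((u' : Matrix (Fin 2) (Fin 2) k) - 1)) := by
    unfold rhoMat777
    rw [Units.val_mul, Units.val_mul]
    simp only [Matrix.mul_add, Matrix.add_mul, Matrix.mul_smul, Matrix.smul_mul, Matrix.mul_one,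
      Matrix.one_mul, sub_smul, smul_add, smul_sub, Matrix.sub_mul]
    abel
  rw [e]
  refine bdd_sub777 (bdd_add777 ?_ ?_) ?_
  · refine bdd_mono777 ?_ (bdd_smul777 hLa' hgb)
    omega
  · refine bdd_mono777 ?_ (bdd_smul777 hLb' bdd_one777)
    omega
  · have h1 : Bdd777 (-(m' : ℤ)) (((u : Matrix (Fin 2) (Fin 2) k) - 1)
        * (u' : Matrix (Fin 2) (Fin 2) k) + ((u' : Matrix (Fin 2) (Fin 2) k) - 1)) := by
      refine bdd_add777 ?_ hus'
      have := bdd_mul777 hus (bdd_of_inU777 hu')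
      rwa [add_zero] at this
    refine bdd_mono777 ?_ (bdd_smul777 (hbC.trans (WithZero.exp_le_exp.2 hC)) h1)
    omega

theorem inU_mono777 {m₀ m : ℕ} (hm : m₀ ≤ m) {g : GL (Fin 2) k} (hg : InU m g) : InU m₀ g :=
  Usub_mono777 hm hg

/-- The key step of the bi-invariance: on the support, `f₀ (u g u') = f₀ g`. -/
theorem f0_inv_of_ne777 (hl : 0 < l) (h : IsRootFn777 l N₀ N₁ C a b) (hN : N₁ ≤ N)
    (hN1 : 1 ≤ N) {m Bψ Cn m' : ℕ} (hC : C ≤ Cn)
    (hm' : N + m + Cn + 2 * (l * Bψ : ℕ) + Bψ + 1 ≤ m')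
    {ψ : GL (Fin 2) k → ℂ} (hψ : IsBiInv (InU m) ψ) {Fψ : Finset (GL (Fin 2) k)}
    (hFψ : ∀ g : GL (Fin 2) k, ψ g ≠ 0 → ∃ x ∈ Fψ, ∃ u : GL (Fin 2) k, InU m u ∧ g = x * u)
    (hBψ : ∀ x ∈ Fψ, Bdd777 (Bψ : ℤ) (x : Matrix (Fin 2) (Fin 2) k) ∧
      Bdd777 (Bψ : ℤ) ((x⁻¹ : GL (Fin 2) k) : Matrix (Fin 2) (Fin 2) k))
    {u u' g : GL (Fin 2) k} (hu : InU m' u) (hu' : InU m' u')
    (hg : f0_777 a b N ψ g ≠ 0) :
    f0_777 a b N ψ (u * g * u') = f0_777 a b N ψ g := by
  obtain ⟨hb, -, hρ, hρi, hgB, hgd⟩ := supp_bounds777 hl h hN hN1 hFψ hBψ hg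
  generalize l * Bψ = B at hm' hgB
  obtain ⟨-, htr, hdt⟩ := chi_close777 hu hu' hgB hgd
  have hb' : InChiBall783 2 1 N (u * g * u') :=
    ball_close777 (by omega) hb htr hdt
  have hE := rhoMat_close777 h hN hC hu hu' hgB hgd hb hb'
  rw [f0_eq777 ψ hb, f0_eq777 ψ hb']
  -- the correction `W`
  set r := rho777 a b g with hr
  set r' := rho777 a b (u * g * u') with hr'
  have hW : InU (m + 1) ((u * r * u')⁻¹ * r') := by
    apply inU_of_small777 (Nat.le_add_left 1 m)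
    have h1 : (((u * r * u')⁻¹ : GL (Fin 2) k) : Matrix (Fin 2) (Fin 2) k)
        * ((u * r * u' : GL (Fin 2) k) : Matrix (Fin 2) (Fin 2) k) = 1 := by
      rw [← Units.val_mul, inv_mul_cancel, Units.val_one]
    have e : (((u * r * u')⁻¹ * r' : GL (Fin 2) k) : Matrix (Fin 2) (Fin 2) k) - 1
        = (((u * r * u')⁻¹ : GL (Fin 2) k) : Matrix (Fin 2) (Fin 2) k)
          * (rhoMat777 a b (u * g * u') - (u : Matrix (Fin 2) (Fin 2) k) * rhoMat777 a b g
            * (u' : Matrix (Fin 2) (Fin 2) k)) := by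
      rw [← coe_rho777 hl h hN hb, ← coe_rho777 hl h hN hb', ← Units.val_mul, ← Units.val_mul,
        Matrix.mul_sub, h1, Units.val_mul]
    rw [e, small_iff_bdd777]
    have hinv : Bdd777 (Bψ : ℤ)
        (((u * r * u')⁻¹ : GL (Fin 2) k) : Matrix (Fin 2) (Fin 2) k) := by
      rw [mul_inv_rev, mul_inv_rev, Units.val_mul, Units.val_mul]
      have := bdd_mul777 (bdd_inv_of_inU777 hu') (bdd_mul777 hρi (bdd_inv_of_inU777 hu))
      rwa [add_zero, zero_add] at this
    refine bdd_mono777 ?_ (bdd_mul777 hinv hE)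
    push_cast
    omega
  have hmm' : m ≤ m' := by omega
  have e : r' = u * r * (u' * ((u * r * u')⁻¹ * r')) := by group
  rw [e]
  exact hψ u _ r (inU_mono777 hmm' hu)
    (inU_mul777 (inU_mono777 hmm' hu') (inU_mono777 (Nat.le_add_right m 1) hW))

theorem f0_biInv777 (hl : 0 < l) (h : IsRootFn777 l N₀ N₁ C a b) (hN : N₁ ≤ N)
    (hN1 : 1 ≤ N) {m Bψ Cn m' : ℕ} (hC : C ≤ Cn)
    (hm' : N + m + Cn + 2 * (l * Bψ : ℕ) + Bψ + 1 ≤ m')
    {ψ : GL (Fin 2) k → ℂ} (hψ : IsBiInv (InU m) ψ) {Fψ : Finset (GL (Fin 2) k)}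
    (hFψ : ∀ g : GL (Fin 2) k, ψ g ≠ 0 → ∃ x ∈ Fψ, ∃ u : GL (Fin 2) k, InU m u ∧ g = x * u)
    (hBψ : ∀ x ∈ Fψ, Bdd777 (Bψ : ℤ) (x : Matrix (Fin 2) (Fin 2) k) ∧
      Bdd777 (Bψ : ℤ) ((x⁻¹ : GL (Fin 2) k) : Matrix (Fin 2) (Fin 2) k)) :
    IsBiInv (InU m') (f0_777 a b N ψ) := by
  intro u u' g hu hu'
  by_cases hg : f0_777 a b N ψ g = 0
  · by_contra hne
    have hne' : f0_777 a b N ψ (u * g * u') ≠ 0 := fun h0 => hne (h0.trans hg.symm)
    have := f0_inv_of_ne777 hl h hN hN1 hC hm' hψ hFψ hBψ (inU_inv777 hu) (inU_inv777 hu') hne'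
    have e : u⁻¹ * (u * g * u') * u'⁻¹ = g := by group
    rw [e] at this
    exact hne' (this ▸ hg)
  · exact f0_inv_of_ne777 hl h hN hN1 hC hm' hψ hFψ hBψ hu hu' hg

theorem f0_finSupp777 {q : ℕ} (hk : IsLocalField k q) (hl : 0 < l)
    (h : IsRootFn777 l N₀ N₁ C a b) (hN : N₁ ≤ N)
    (hN1 : 1 ≤ N) {m Bψ : ℕ} (m' : ℕ)
    {ψ : GL (Fin 2) k → ℂ} {Fψ : Finset (GL (Fin 2) k)}
    (hFψ : ∀ g : GL (Fin 2) k, ψ g ≠ 0 → ∃ x ∈ Fψ, ∃ u : GL (Fin 2) k, InU m u ∧ g = x * u)
    (hBψ : ∀ x ∈ Fψ, Bdd777 (Bψ : ℤ) (x : Matrix (Fin 2) (Fin 2) k) ∧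
      Bdd777 (Bψ : ℤ) ((x⁻¹ : GL (Fin 2) k) : Matrix (Fin 2) (Fin 2) k)) :
    HasFinSupp (InU m') (f0_777 a b N ψ) := by
  obtain ⟨F, hF⟩ := exists_cover777 hk (l * Bψ) m'
  refine ⟨F, fun g hg => ?_⟩
  obtain ⟨-, -, -, -, hgB, hgd⟩ := supp_bounds777 hl h hN hN1 hFψ hBψ hg
  exact hF g hgB hgd

end Root

/-! ## 7. The theorem -/

/-- **T6.18g3.1b** (`PowRootFromFnC820`, VERBATIM). -/
theorem powRootFromFnC777 : PowRootFromFnC820 := by
  intro hroot k _ _ q l hk hl N₀ m ψ hψ hψs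
  obtain ⟨N₁, C, a, b, hab⟩ := hroot k q l hk hl N₀
  have h : IsRootFn777 l N₀ N₁ C a b := hab
  obtain ⟨Fψ, hFψ⟩ := hψs
  obtain ⟨Bψ, hBψ⟩ := exists_bdd_finset777 Fψ
  have hN : N₁ ≤ max N₁ 1 := le_max_left _ _
  have hN1 : (1 : ℤ) ≤ max N₁ 1 := le_max_right _ _
  have hC : C ≤ ((C.toNat : ℕ) : ℤ) := Int.self_le_toNat C
  have hm' : max N₁ 1 + m + (C.toNat : ℕ) + 2 * (l * Bψ : ℕ) + Bψ + 1
      ≤ (((max N₁ 1).toNat + m + C.toNat + 2 * (l * Bψ) + Bψ + 1 : ℕ) : ℤ) := by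
    have := Int.self_le_toNat (max N₁ 1)
    push_cast
    omega
  refine ⟨max N₁ 1, (max N₁ 1).toNat + m + C.toNat + 2 * (l * Bψ) + Bψ + 1,
    rho777 a b, f0_777 a b (max N₁ 1) ψ, by omega, ?_, ?_, ?_⟩
  · exact f0_biInv777 hl h hN hN1 hC hm' hψ hFψ hBψ
  · exact f0_finSupp777 hk hl h hN hN1 _ hFψ hBψ
  · exact isRootOn777 hl h hN ψ

end Fermat.Agent.LT.T6.H777

end

end
-- ===== PACK-END LT/T6/H777/PowRoot.lean

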