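import Mathlib
import Fermat.Agent.Pack.LT3.E8L2
import Fermat.Agent.Pack.LT3.E3L2
import Fermat.Agent.Pack.LT3.E3L3
import Fermat.Agent.Pack.LT3.E5L0
import Fermat.Agent.Pack.LT2.E6L0
import Fermat.Agent.Pack.LT3.E5L2
import Fermat.Agent.Pack.LT3.E9L0
import Fermat.Agent.Pack.LT3.E0L0
import Fermat.Agent.Pack.LT3.E9L1
import Fermat.Agent.Pack.LT2.E0L1
import Fermat.Agent.Pack.LT3.E4L1
import Fermat.Agent.Pack.LT3.E9L3
import Fermat.Agent.Pack.LT3.E6L1
import Fermat.Agent.Pack.LT3.E4L2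
import Fermat.Agent.Pack.LT3.E9L2
import Fermat.Agent.Pack.LT3.E11L1

set_option linter.all false

-- ===== PACK-BEGIN LT/T2/H197/S2RotLeaf.lean
section



/-!
# Row LT, tower T2, sub-leaf T2.07.31 (helper197): `SubS2Rot429`, verbatim

`subS2Rot197 : Fermat.Agent.LT.T2.H429.SubS2Rot429` against the byte-identical copy of
`LT/T2/H429/OpsSpec.lean` (helper429).
-/

set_option autoImplicit false

namespace Fermat.Agent.LT.T2.H197

/-- **T2.07.31** (registry row 1018): invariance of the measure `sin β dβ dα` of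
`S² = U(2) / (U(1) × U(1))` under the rotations. -/
theorem subS2Rot197 : Fermat.Agent.LT.T2.H429.SubS2Rot429 :=
  fun ψ hψ hinv k₀ hk₀ d => subS2Rot_stmt197 ψ hψ hinv k₀ hk₀ d

end Fermat.Agent.LT.T2.H197

end
-- ===== PACK-END LT/T2/H197/S2RotLeaf.lean

-- ===== PACK-BEGIN LT/T6/H219/LocalC.lean
section



/-!
# T6.00q.6 `LocalCC438` VERBATIM (cut of helper438, `HasseQ3.lean` sha256 7b061f61) — helper219

`c ∈ ℚ^×` a local norm everywhere from `M = L(√-3)` over `L = ℚ(√d)` ⟹ `RatCond438 d c`.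
Mathlib + byte-identical copy of `H438/HasseQ3.lean`.
-/

set_option autoImplicit false

namespace Fermat.Agent.LT.T6.H219

open IsDedekindDomain HeightOneSpectrum WithZero NumberField Fermat.Agent.LT.T6.H438

variable {L M : Type} [Field L] [NumberField L] [Field M] [NumberField M] [Algebra L M]

theorem splits_three219 (d : ℤ) (hd3 : d % 3 = 1) : Splits438 d 3 := by
  right
  refine ⟨by norm_num, ?_, ?_⟩
  · intro h
    have : (3 : ℤ) ∣ d := by exact_mod_cast h
    omega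
  · refine ⟨1, ?_⟩
    have : ((d : ℤ) : ZMod 3) = ((1 : ℤ) : ZMod 3) := by
      rw [ZMod.intCast_eq_intCast_iff]
      unfold Int.ModEq
      omega
    rw [this]
    simp

/-- **LOCAL-C at `3`.** -/
theorem localC_atThree219 (hp : IsQ3Pair438 L M) (d : ℤ) (δ : L) (hd : Squarefree d)
    (hd1 : d ≠ 1) (hδ : δ ^ 2 = (d : L)) (c : ℚ) (hc : c ≠ 0)
    (hfin : IsLocNormFin438 L M (algebraMap ℚ L c)) (hd3 : d % 3 = 1) : Lam3_438 c := by
  have : Fact (Nat.Prime 3) := ⟨Nat.prime_three⟩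
  obtain ⟨ψ⟩ := exists_padic_embedding219 hp d δ hd hd1 hδ 3 (splits_three219 d hd3)
  set v := placeOf219 (ψ : L →+* ℚ_[3]) with hv
  obtain ⟨a, b, hab⟩ := n3_of_locNormFin219 hp _ hfin v
  have h3 : v.valuation L (3 : L) = exp (-1 : ℤ) := by
    have := valuation_natCast219 (ψ : L →+* ℚ_[3]) 3 (by norm_num)
    rw [padicValNat_self] at this
    simpa using this
  -- the integer `N = num * den`
  set N : ℤ := c.num * c.den with hN
  have hN0 : N ≠ 0 := mul_ne_zero (Rat.num_ne_zero.mpr hc) (by exact_mod_cast c.den_nz)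
  have hfinN : FiniteMultiplicity (3 : ℤ) N := by
    rw [Int.finiteMultiplicity_iff]
    exact ⟨by norm_num, hN0⟩
  obtain ⟨z₀, hz₀, h3z⟩ := hfinN.exists_eq_pow_mul_and_not_dvd
  set k := multiplicity (3 : ℤ) N with hk
  have hq : c * (c.den : ℚ) ^ 2 = (3 : ℚ) ^ k * (z₀ : ℚ) := by
    have h1 : c * (c.den : ℚ) ^ 2 = ((N : ℤ) : ℚ) := by
      rw [hN]
      push_cast
      rw [← Rat.mul_den_eq_num c]
      ring
    rw [h1, hz₀]
    push_cast
    ring
  let f : ℚ →+* v.adicCompletion L := (algebraMap L (v.adicCompletion L)).comp (algebraMap ℚ L)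
  have hab' : a ^ 2 + 3 * b ^ 2 = f c := hab
  have hK : (a * f (c.den : ℚ)) ^ 2 + 3 * (b * f (c.den : ℚ)) ^ 2
      = (3 : v.adicCompletion L) ^ k * (z₀ : v.adicCompletion L) := by
    have : (a * f (c.den : ℚ)) ^ 2 + 3 * (b * f (c.den : ℚ)) ^ 2
        = f (c * (c.den : ℚ) ^ 2) := by
      rw [map_mul, map_pow, ← hab']
      ring
    rw [this, hq, map_mul, map_pow, map_ofNat, map_intCast]
  have hz1 : z₀ % 3 = 1 :=
    q4_219 v h3 (toZModP219 (ψ : L →+* ℚ_[3])) (mem_placeOf219 (ψ : L →+* ℚ_[3])) k _ _ z₀ h3z hK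
  exact lam3_of_unit219 c hc (c.den : ℚ) (by exact_mod_cast c.den_nz) k z₀ hq hz1

/-- **T6.00q.6 `LocalCC438`, VERBATIM.** -/
theorem localCC219 : LocalCC438 := by
  intro L M _ _ _ _ _ hp d δ hdsf hd1 hδ c hc hfin hinf
  exact ⟨localC_atInf219 hp d δ hdsf hd1 hδ c hc hinf,
    fun p hpp hp3 hodd => localC_atInert219 hp d δ hdsf hd1 hδ c hc hfin p hpp hp3 hodd,
    localC_atThree219 hp d δ hdsf hd1 hδ c hc hfin⟩

end Fermat.Agent.LT.T6.H219

end
-- ===== PACK-END LT/T6/H219/LocalC.lean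

-- ===== PACK-BEGIN LT/T6/H277/H546/PolyNF.lean
section



/-!
# Row LT, tower T6, leaf T6.13.2.1 `PolyNFC` (helper546), OFF-MAIN

Normal form of `(tr, det)` for an elliptic unramified element (Newton + Hensel):
`X² - tX + n` without root in `k`, whose norm form never has the valuation of a uniformiser.
Then `t = ϖ^j (2a + ϖ^r t')`, `n = ϖ^{2j} (a² + a ϖ^r t' + ϖ^{2r} n')`, `a, t' ∈ 𝒪`, `n' ∈ 𝒪ˣ`,
and `X² - t'X + n'` has no root modulo `ϖ`.

Mathlib + `T6/Spec.lean` (helper22) + `T6/H277/OrbEllSpec.lean` (helper277) +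
`H129/Newton.lean` (helper129: `newtonC129`, `exists_fixed129`), byte-identical copies.
-/

set_option autoImplicit false

noncomputable section

namespace Fermat.Agent.LT.T6.H277.H546

open Fermat.Agent.LT.T6 Fermat.Agent.LT.T6.H277 Fermat.Agent.LT.H129 Fermat.Agent.LT.T6.H159

variable {k : Type} [Field k] [Valued k Γ₀]

/-! ## Valuations of powers of a uniformiser -/

theorem unif_ne_zero_h546 {ϖ : k} (hϖ : Valued.v ϖ = WithZero.exp (-1 : ℤ)) : ϖ ≠ 0 := by
  intro h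
  rw [h, map_zero] at hϖ
  exact WithZero.exp_ne_zero hϖ.symm

theorem v_unif_zpow_h546 {ϖ : k} (hϖ : Valued.v ϖ = WithZero.exp (-1 : ℤ)) (m : ℤ) :
    Valued.v (ϖ ^ m) = WithZero.exp (-m) := by
  rw [map_zpow₀, hϖ, ← WithZero.exp_zsmul]
  congr 1
  simp

theorem v_unif_pow_h546 {ϖ : k} (hϖ : Valued.v ϖ = WithZero.exp (-1 : ℤ)) (r : ℕ) :
    Valued.v (ϖ ^ r) = WithZero.exp (-(r : ℤ)) := by
  rw [map_pow, hϖ, ← WithZero.exp_nsmul]
  congr 1
  simp

theorem exp_sq_h546 (a : ℤ) : (WithZero.exp a : Γ₀) ^ 2 = WithZero.exp (2 * a) := by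
  rw [← WithZero.exp_nsmul]
  congr 1

theorem v_eq_exp_log_h546 {x : k} (hx : x ≠ 0) :
    Valued.v x = WithZero.exp (WithZero.log (Valued.v x)) :=
  (WithZero.exp_log ((Valuation.ne_zero_iff _).mpr hx)).symm

theorem v_two_le_h546 : Valued.v (2 : k) ≤ 1 := by
  have : (2 : k) = 1 + 1 := by norm_num
  rw [this]
  exact le_trans (Valuation.map_add _ _ _) (by simp)

theorem v_four_le_h546 : Valued.v (4 : k) ≤ 1 := by
  have : (4 : k) = 2 * 2 := by norm_num
  rw [this, map_mul]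
  exact mul_le_one' v_two_le_h546 v_two_le_h546

/-- An integral monic quadratic polynomial has integral values at integral points. -/
theorem v_chi_le_h546 {τ d b : k} (hτ : Valued.v τ ≤ 1) (hd : Valued.v d ≤ 1)
    (hb : Valued.v b ≤ 1) : Valued.v (b ^ 2 - τ * b + d) ≤ 1 := by
  have h1 : Valued.v (b ^ 2) ≤ 1 := by
    rw [map_pow]; exact pow_le_one' hb 2
  have h2 : Valued.v (τ * b) ≤ 1 := by
    rw [map_mul]; exact mul_le_one' hτ hb
  exact le_trans (Valuation.map_add _ _ _) (max_le (Valuation.map_sub_le _ h1 h2) hd)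

/-! ## Hensel: the discriminant bounds the values -/

/-- If `X² - τX + d` has no root in the complete field `k` of characteristic zero, then
`|D| ≤ |b² - τ b + d|` for every `b`, `D = τ² - 4d`. -/
theorem disc_le_h546 [CompleteSpace k] [CharZero k] {τ d : k}
    (hroot : ∀ x : k, x ^ 2 - τ * x + d ≠ 0) (b : k) :
    Valued.v (τ ^ 2 - 4 * d) ≤ Valued.v (b ^ 2 - τ * b + d) := by
  by_contra h
  rw [not_le] at h
  obtain ⟨D, hD⟩ : ∃ D : k, D = τ ^ 2 - 4 * d := ⟨_, rfl⟩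
  obtain ⟨e, he⟩ : ∃ e : k, e = b ^ 2 - τ * b + d := ⟨_, rfl⟩
  rw [← hD, ← he] at h
  have hD0 : D ≠ 0 := by
    intro h0
    rw [h0, map_zero] at h
    exact not_lt_zero h
  have hvD : Valued.v D ≠ 0 := (Valuation.ne_zero_iff _).mpr hD0
  have hc : Valued.v (-(e / D)) < 1 := by
    rw [Valuation.map_neg, map_div₀, div_lt_one₀ (zero_lt_iff.mpr hvD)]
    exact h
  obtain ⟨Y, hY⟩ := exists_fixed129 hc
  -- `(1 - 2Y)² = 1 + 4 e / D`
  have h1 : (1 - 2 * Y) ^ 2 = 1 + 4 * (e / D) := by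
    have : Y ^ 2 = Y + e / D := by
      have := hY
      linear_combination -this
    calc (1 - 2 * Y) ^ 2 = 1 - 4 * Y + 4 * Y ^ 2 := by ring
      _ = 1 + 4 * (e / D) := by rw [this]; ring
  have h2 : D * (1 - 2 * Y) ^ 2 = (2 * b - τ) ^ 2 := by
    rw [h1, mul_add, mul_one, mul_left_comm, mul_div_cancel₀ _ hD0, hD, he]
    ring
  by_cases h0 : 1 - 2 * Y = 0
  · -- then `e / D = -1/4`, of valuation `≥ 1`
    rw [h0] at h1
    have h4 : (4 : k) ≠ 0 := by norm_num
    have h3 : -(e / D) = 1 / 4 := by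
      linear_combination (1 / 4 : k) * h1
    rw [h3, map_div₀, map_one, div_lt_one₀ (zero_lt_iff.mpr ((Valuation.ne_zero_iff _).mpr h4))]
      at hc
    exact absurd v_four_le_h546 (not_le.mpr hc)
  · -- `D = s²`, `s = (2b - τ) / (1 - 2Y)`, and `(τ + s) / 2` is a root
    obtain ⟨s, hs⟩ : ∃ s : k, s = (2 * b - τ) / (1 - 2 * Y) := ⟨_, rfl⟩
    have hs2 : s ^ 2 = D := by
      rw [hs, div_pow, ← h2]
      field_simp
    apply hroot ((τ + s) / 2)
    have h2' : (2 : k) ≠ 0 := by norm_num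
    have : ((τ + s) / 2) ^ 2 - τ * ((τ + s) / 2) + d = (s ^ 2 - (τ ^ 2 - 4 * d)) / 4 := by
      field_simp
      ring
    rw [this, hs2, hD, sub_self, zero_div]

/-! ## The normal form -/

/-- **T6.13.2.1 `PolyNFC`.** -/
theorem polyNFC_h546 : PolyNFC := by
  intro k _ _ q hk t n hn0 hroot hN
  have := hk.complete
  have := hk.char0
  obtain ⟨ϖ, hϖ⟩ := hk.unif
  have hϖ0 : ϖ ≠ 0 := unif_ne_zero_h546 hϖ
  -- (1) the valuation of `n` is even
  obtain ⟨m, hm⟩ : ∃ m : ℤ, Valued.v n = WithZero.exp m := ⟨_, v_eq_exp_log_h546 hn0⟩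
  obtain ⟨s, hs | hs⟩ := Int.even_or_odd' m
  swap
  · exfalso
    apply hN 0 (ϖ ^ (s + 1))
    have : (0 : k) ^ 2 + t * 0 * ϖ ^ (s + 1) + n * (ϖ ^ (s + 1)) ^ 2 = n * (ϖ ^ (s + 1)) ^ 2 := by
      ring
    rw [this, map_mul, map_pow, v_unif_zpow_h546 hϖ, hm, exp_sq_h546, ← WithZero.exp_add]
    congr 1
    omega
  -- `P = ϖ^j`, `j = -s`
  obtain ⟨j, hj⟩ : ∃ j : ℤ, j = -s := ⟨_, rfl⟩
  obtain ⟨P, hP⟩ : ∃ P : k, P = ϖ ^ j := ⟨_, rfl⟩
  have hP0 : P ≠ 0 := by rw [hP]; exact zpow_ne_zero _ hϖ0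
  have hvP : Valued.v P = WithZero.exp (-j) := by rw [hP]; exact v_unif_zpow_h546 hϖ j
  have hP2 : P ^ 2 = ϖ ^ (2 * j) := by
    rw [hP, ← zpow_natCast, ← zpow_mul]
    congr 1
    push_cast
    ring
  obtain ⟨t0, ht0⟩ : ∃ t0 : k, t0 = t / P := ⟨_, rfl⟩
  obtain ⟨n0, hn0'⟩ : ∃ n0 : k, n0 = n / P ^ 2 := ⟨_, rfl⟩
  have htP : t = P * t0 := by rw [ht0]; field_simp
  have hnP : n = P ^ 2 * n0 := by rw [hn0']; field_simp
  have hvn0 : Valued.v n0 = 1 := by
    rw [hn0', map_div₀, map_pow, hvP, hm, exp_sq_h546, ← WithZero.exp_sub]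
    rw [WithZero.exp_eq_one]
    omega
  have hroot0 : ∀ x : k, x ^ 2 - t0 * x + n0 ≠ 0 := by
    intro x hx
    apply hroot (P * x)
    rw [htP, hnP]
    have : (P * x) ^ 2 - P * t0 * (P * x) + P ^ 2 * n0 = P ^ 2 * (x ^ 2 - t0 * x + n0) := by ring
    rw [this, hx, mul_zero]
  -- (2) `t0` is integral
  have hvt0 : Valued.v t0 ≤ 1 := by
    by_contra h
    obtain ⟨x, hx⟩ := newtonC129 k q hk t0 n0 hvn0 (not_le.mp h)
    exact hroot0 x hx
  -- (3) the discriminant bounds the values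
  obtain ⟨D, hD⟩ : ∃ D : k, D = t0 ^ 2 - 4 * n0 := ⟨_, rfl⟩
  have hDle : ∀ b : k, Valued.v D ≤ Valued.v (b ^ 2 - t0 * b + n0) := by
    intro b
    rw [hD]
    exact disc_le_h546 hroot0 b
  have hD0 : D ≠ 0 := by
    intro h0
    have h2' : (2 : k) ≠ 0 := by norm_num
    apply hroot0 (t0 / 2)
    have : (t0 / 2) ^ 2 - t0 * (t0 / 2) + n0 = -(t0 ^ 2 - 4 * n0) / 4 := by
      field_simp
      ring
    rw [this, ← hD, h0, neg_zero, zero_div]
  -- (4) the maximal order of a value at an integral point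
  obtain ⟨S, hS⟩ : ∃ S : Set ℕ, S = {i : ℕ | ∃ b : k, Valued.v b ≤ 1 ∧
      Valued.v (b ^ 2 - t0 * b + n0) = WithZero.exp (-(i : ℤ))} := ⟨_, rfl⟩
  have hmemS : ∀ b : k, Valued.v b ≤ 1 → ∃ i ∈ S,
      Valued.v (b ^ 2 - t0 * b + n0) = WithZero.exp (-(i : ℤ)) := by
    intro b hb
    have hle : Valued.v (b ^ 2 - t0 * b + n0) ≤ 1 := v_chi_le_h546 hvt0 hvn0.le hb
    have hne : Valued.v (b ^ 2 - t0 * b + n0) ≠ 0 := (Valuation.ne_zero_iff _).mpr (hroot0 b)
    have hlog : WithZero.log (Valued.v (b ^ 2 - t0 * b + n0)) ≤ 0 := by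
      rw [WithZero.log_le_iff_le_exp hne, WithZero.exp_zero]
      exact hle
    have he : Valued.v (b ^ 2 - t0 * b + n0)
        = WithZero.exp (-(((-WithZero.log (Valued.v (b ^ 2 - t0 * b + n0))).toNat : ℕ) : ℤ)) := by
      rw [Int.toNat_of_nonneg (by omega), neg_neg]
      exact (WithZero.exp_log hne).symm
    refine ⟨_, ?_, he⟩
    rw [hS]
    exact ⟨b, hb, he⟩
  have hbdd : BddAbove S := by
    refine ⟨(-WithZero.log (Valued.v D)).toNat, ?_⟩
    intro i hi
    rw [hS] at hi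
    obtain ⟨b, _, hvb⟩ := hi
    have h1 := hDle b
    rw [hvb, v_eq_exp_log_h546 hD0, WithZero.exp_le_exp] at h1
    omega
  have hne : S.Nonempty := by
    obtain ⟨i, hi, _⟩ := hmemS 0 (by simp)
    exact ⟨i, hi⟩
  have hsup : sSup S ∈ S := Nat.sSup_mem hne hbdd
  obtain ⟨i₀, hi₀⟩ : ∃ i₀ : ℕ, i₀ = sSup S := ⟨_, rfl⟩
  rw [← hi₀] at hsup
  have hsup' := hsup
  rw [hS] at hsup'
  obtain ⟨a, hva, hchia⟩ := hsup'
  have hmax : ∀ b : k, Valued.v b ≤ 1 →
      WithZero.exp (-(i₀ : ℤ)) ≤ Valued.v (b ^ 2 - t0 * b + n0) := by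
    intro b hb
    obtain ⟨i, hi, hvi⟩ := hmemS b hb
    have : i ≤ i₀ := by rw [hi₀]; exact le_csSup hbdd hi
    rw [hvi, WithZero.exp_le_exp]
    omega
  -- the maximum is even
  obtain ⟨r, hr | hr⟩ := Nat.even_or_odd' i₀
  swap
  · exfalso
    obtain ⟨c, hc⟩ : ∃ c : k, c = (ϖ ^ r)⁻¹ := ⟨_, rfl⟩
    apply hN (-a * c) (P⁻¹ * c)
    have : (-a * c) ^ 2 + t * (-a * c) * (P⁻¹ * c) + n * (P⁻¹ * c) ^ 2
        = c ^ 2 * (a ^ 2 - t0 * a + n0) := by
      rw [ht0, hn0']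
      field_simp
      ring
    rw [this, map_mul, map_pow, hchia, hc, map_inv₀, v_unif_pow_h546 hϖ, ← WithZero.exp_neg,
      exp_sq_h546, ← WithZero.exp_add]
    congr 1
    omega
  -- (5) `R = ϖ^r`, `t1`, `n1`
  obtain ⟨R, hR⟩ : ∃ R : k, R = ϖ ^ r := ⟨_, rfl⟩
  have hR0 : R ≠ 0 := by rw [hR]; exact pow_ne_zero _ hϖ0
  have hvR : Valued.v R = WithZero.exp (-(r : ℤ)) := by rw [hR]; exact v_unif_pow_h546 hϖ r
  have hvR1 : Valued.v R ≤ 1 := by
    rw [hvR, ← WithZero.exp_zero, WithZero.exp_le_exp]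
    omega
  have hR2 : R ^ 2 = ϖ ^ (2 * r) := by
    rw [hR, ← pow_mul, mul_comm]
  obtain ⟨t1, ht1⟩ : ∃ t1 : k, t1 = (t0 - 2 * a) / R := ⟨_, rfl⟩
  obtain ⟨n1, hn1⟩ : ∃ n1 : k, n1 = (a ^ 2 - t0 * a + n0) / R ^ 2 := ⟨_, rfl⟩
  have hvn1 : Valued.v n1 = 1 := by
    rw [hn1, map_div₀, map_pow, hvR, hchia, exp_sq_h546, ← WithZero.exp_sub,
      WithZero.exp_eq_one]
    omega
  have hshift : ∀ x : k, (a + R * x) ^ 2 - t0 * (a + R * x) + n0
      = R ^ 2 * (x ^ 2 - t1 * x + n1) := by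
    intro x
    rw [ht1, hn1]
    field_simp
    ring
  have hroot1 : ∀ x : k, x ^ 2 - t1 * x + n1 ≠ 0 := by
    intro x hx
    apply hroot0 (a + R * x)
    rw [hshift, hx, mul_zero]
  have hvt1 : Valued.v t1 ≤ 1 := by
    by_contra h
    obtain ⟨x, hx⟩ := newtonC129 k q hk t1 n1 hvn1 (not_le.mp h)
    exact hroot1 x hx
  -- (6) no root modulo `ϖ`
  have hunit : ∀ b : k, Valued.v b ≤ 1 → Valued.v (chi277 t1 n1 b) = 1 := by
    intro b hb
    unfold chi277
    apply le_antisymm (v_chi_le_h546 hvt1 hvn1.le hb)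
    have hab : Valued.v (a + R * b) ≤ 1 := by
      refine le_trans (Valuation.map_add _ _ _) (max_le hva ?_)
      rw [map_mul]
      exact mul_le_one' hvR1 hb
    have h1 := hmax (a + R * b) hab
    rw [hshift, map_mul, map_pow, hvR, exp_sq_h546, hr] at h1
    have h2 : (WithZero.exp (2 * -(r : ℤ)) : Γ₀) ≠ 0 := WithZero.exp_ne_zero
    have h3 : (WithZero.exp (-((2 * r : ℕ) : ℤ)) : Γ₀) = WithZero.exp (2 * -(r : ℤ)) := by
      congr 1
      push_cast
      ring
    rw [h3] at h1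
    have h4 : WithZero.exp (2 * -(r : ℤ)) * 1
        ≤ WithZero.exp (2 * -(r : ℤ)) * Valued.v (b ^ 2 - t1 * b + n1) := by
      rw [mul_one]; exact h1
    exact le_of_mul_le_mul_left h4 (zero_lt_iff.mpr h2)
  -- the formulas
  have hinner : a ^ 2 + a * ϖ ^ r * t1 + ϖ ^ (2 * r) * n1 = n0 := by
    rw [← hR2, ← hR, ht1, hn1]
    field_simp
    ring
  refine ⟨ϖ, j, r, a, t1, n1, hϖ, hva, hvt1, hvn1, hunit, ?_, ?_, ?_⟩
  · rw [hinner]; exact hvn0
  · rw [← hP, ← hR, htP, ht1]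
    field_simp
    ring
  · rw [hinner, ← hP2]
    exact hnP

end Fermat.Agent.LT.T6.H277.H546

end

end
-- ===== PACK-END LT/T6/H277/H546/PolyNF.lean

-- ===== PACK-BEGIN LT/T6/H69/FixBall.lean
section




/-!
# Row LT, tower T6, sub-leaf T6.13.2.4 `FixBallC` (helper69), OFF-MAIN

Against `LT/T6/H277/OrbEllSpec.lean` (helper277, sha256 7b0956b2baf7cad6), on `LT/T6/Spec.lean`
(helper22, sha256 89f8f8b81940fd80) and the Cartan toolkit `LT/H129/CartanInv.lean` (helper129),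
byte-identical copies.  Nothing is assumed.

`fixBallC69 : H277.FixBallC`: for `y = ϖ^j (a + ϖ^r w)` in normal form, the vertex `[x]` of the
tree is fixed by `y` iff its Cartan distance from `[1]` is `≤ r`.

Proof.  `gd g = 2 log (entryMax g) - log v(det g) ≥ 0`, and for `v(det g) = exp (-2j)`:
`gd g = 0` iff every entry of `g` has valuation `≤ exp (-j)`.  Write `x = u₁ d u₂` (Cartan,
helper129), `d = diag(x₀, y₀)`, `v y₀ ≤ v x₀`.  The normal form is stable under conjugation by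
`u₁ ∈ GL₂(𝒪)`, and `gd` is bi-invariant, so `x = d`.  For `w = [[p, q], [s, t]]` the value of the
characteristic polynomial at `p` is `- q s`, so `q` and `s` are units.  The entries of
`d⁻¹ y d` are `ϖ^j (a + ϖ^r p)`, `ϖ^{j+r} q y₀/x₀`, `ϖ^{j+r} s x₀/y₀`, `ϖ^j (a + ϖ^r t)`.
-/

set_option autoImplicit false

open Matrix

noncomputable section

namespace Fermat.Agent.LT.T6.H69

open Fermat.Agent.LT.T6 Fermat.Agent.LT.T6.H277 Fermat.Agent.LT.H129

variable {k : Type} [Field k] [Valued k Γ₀]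

/-! ## 1. The Cartan distance through the largest entry -/

theorem entryMax_ne_zero69 (g : GL (Fin 2) k) : entryMax g ≠ 0 := by
  intro h0
  have hz : ∀ i j, (g : Matrix (Fin 2) (Fin 2) k) i j = 0 := by
    intro i j
    have := entry_le_entryMax129 g i j
    rw [h0, le_zero_iff, map_eq_zero] at this
    exact this
  exact det_ne_zero129 g (by rw [hz 0 0, hz 0 1]; simp)

theorem det_le_entryMax_sq69 (g : GL (Fin 2) k) :
    Valued.v (g : Matrix (Fin 2) (Fin 2) k).det ≤ entryMax g * entryMax g := by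
  rw [Matrix.det_fin_two]
  refine le_trans (Valuation.map_sub _ _ _) (max_le ?_ ?_)
  · rw [map_mul]
    exact mul_le_mul' (entry_le_entryMax129 g 0 0) (entry_le_entryMax129 g 1 1)
  · rw [map_mul]
    exact mul_le_mul' (entry_le_entryMax129 g 0 1) (entry_le_entryMax129 g 1 0)

theorem gd277_eq69 (g : GL (Fin 2) k) :
    gd277 g = 2 * WithZero.log (entryMax g)
      - WithZero.log (Valued.v (g : Matrix (Fin 2) (Fin 2) k).det) := by
  unfold gd277 cartan
  dsimp only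
  ring

/-- The Cartan distance is non-negative. -/
theorem gd277_nonneg69 (g : GL (Fin 2) k) : 0 ≤ gd277 g := by
  have hE := entryMax_ne_zero69 g
  have hD : Valued.v (g : Matrix (Fin 2) (Fin 2) k).det ≠ 0 := by
    rw [ne_eq, map_eq_zero]; exact det_ne_zero_gl129 g
  have := (WithZero.log_le_log hD (mul_ne_zero hE hE)).mpr (det_le_entryMax_sq69 g)
  rw [WithZero.log_mul hE hE] at this
  rw [gd277_eq69]
  omega

/-- For `v(det g) = exp (-2j)`: `gd g = 0` iff every entry has valuation `≤ exp (-j)`. -/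
theorem gd277_zero_iff69 (g : GL (Fin 2) k) (j : ℤ)
    (hdet : Valued.v (g : Matrix (Fin 2) (Fin 2) k).det = WithZero.exp (-(2 * j))) :
    gd277 g = 0 ↔
      ∀ i l, Valued.v ((g : Matrix (Fin 2) (Fin 2) k) i l) ≤ WithZero.exp (-j) := by
  have hE := entryMax_ne_zero69 g
  have hnn := gd277_nonneg69 g
  rw [gd277_eq69, hdet, WithZero.log_exp] at hnn
  rw [gd277_eq69, hdet, WithZero.log_exp]
  constructor
  · intro h i l
    have h1 : WithZero.log (entryMax g) = -j := by omega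
    have h2 : entryMax g = WithZero.exp (-j) := by rw [← h1, WithZero.exp_log hE]
    exact h2 ▸ entry_le_entryMax129 g i l
  · intro h
    have h1 : entryMax g ≤ WithZero.exp (-j) := entryMax_le129 g h
    have h2 : WithZero.log (entryMax g) ≤ -j := by
      have := (WithZero.log_le_log hE WithZero.exp_ne_zero).mpr h1
      rwa [WithZero.log_exp] at this
    omega

/-! ## 2. Conjugation -/

theorem gd277_conj_reduce69 {u₁ u₂ d y : GL (Fin 2) k} (hu₂ : InU 0 u₂) :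
    gd277 ((u₁ * d * u₂)⁻¹ * y * (u₁ * d * u₂)) = gd277 (d⁻¹ * (u₁⁻¹ * y * u₁) * d) := by
  have e : (u₁ * d * u₂)⁻¹ * y * (u₁ * d * u₂)
      = u₂⁻¹ * (d⁻¹ * (u₁⁻¹ * y * u₁) * d) * u₂ := by group
  unfold gd277
  rw [e, cartan_mul129 (inU_zero_inv129 hu₂) hu₂]

omit [Valued k Γ₀] in
theorem coe_conj69 (c g : GL (Fin 2) k) :
    ((c⁻¹ * g * c : GL (Fin 2) k) : Matrix (Fin 2) (Fin 2) k)
      = ((c⁻¹ : GL (Fin 2) k) : Matrix (Fin 2) (Fin 2) k) * (g : Matrix (Fin 2) (Fin 2) k)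
        * (c : Matrix (Fin 2) (Fin 2) k) := by
  rw [Matrix.GeneralLinearGroup.coe_mul, Matrix.GeneralLinearGroup.coe_mul]

omit [Valued k Γ₀] in
theorem det_conj69 (c g : GL (Fin 2) k) :
    ((c⁻¹ * g * c : GL (Fin 2) k) : Matrix (Fin 2) (Fin 2) k).det
      = (g : Matrix (Fin 2) (Fin 2) k).det := by
  rw [coe_conj69]
  exact Matrix.det_units_conj' c _

omit [Valued k Γ₀] in
theorem trace_conj69 (c g : GL (Fin 2) k) :
    ((c⁻¹ * g * c : GL (Fin 2) k) : Matrix (Fin 2) (Fin 2) k).trace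
      = (g : Matrix (Fin 2) (Fin 2) k).trace := by
  rw [coe_conj69]
  exact Matrix.trace_units_conj' c _

/-- The normal form is stable under conjugation by `GL₂(𝒪)`. -/
theorem isNF277_conj69 {ϖ : k} {j : ℤ} {r : ℕ} {a : k} {w u y c : GL (Fin 2) k}
    (h : IsNF277 ϖ j r a w u y) (hc : InU 0 c) :
    IsNF277 ϖ j r a (c⁻¹ * w * c) (c⁻¹ * u * c) (c⁻¹ * y * c) where
  unif := h.unif
  a_int := h.a_int
  w_int := inU_zero_mul129 (inU_zero_mul129 (inU_zero_inv129 hc) h.w_int) hc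
  u_int := inU_zero_mul129 (inU_zero_mul129 (inU_zero_inv129 hc) h.u_int) hc
  w_irr := by
    intro b hb
    rw [trace_conj69, det_conj69]
    exact h.w_irr b hb
  u_eq := by
    have h1 : ((c⁻¹ : GL (Fin 2) k) : Matrix (Fin 2) (Fin 2) k) * (c : Matrix (Fin 2) (Fin 2) k)
        = 1 := by
      rw [← Matrix.GeneralLinearGroup.coe_mul, inv_mul_cancel]; rfl
    rw [coe_conj69, coe_conj69, h.u_eq, Matrix.mul_add, Matrix.add_mul, Matrix.mul_smul,
      Matrix.smul_mul, Matrix.mul_one, h1, Matrix.mul_smul, Matrix.smul_mul]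
  y_eq := by
    rw [coe_conj69, coe_conj69, h.y_eq, Matrix.mul_smul, Matrix.smul_mul]

/-! ## 3. The off-diagonal entries of `w` are units -/

theorem mul_eq_one_of_le69 {α β : Γ₀} (hα : α ≤ 1) (hβ : β ≤ 1) (h : α * β = 1) :
    α = 1 ∧ β = 1 := by
  constructor
  · refine le_antisymm hα ?_
    calc (1 : Γ₀) = α * β := h.symm
      _ ≤ α * 1 := mul_le_mul' le_rfl hβ
      _ = α := mul_one _
  · refine le_antisymm hβ ?_
    calc (1 : Γ₀) = α * β := h.symm
      _ ≤ 1 * β := mul_le_mul' hα le_rfl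
      _ = β := one_mul _

theorem entry_int69 {w : GL (Fin 2) k} (hw : InU 0 w) (i l : Fin 2) :
    Valued.v ((w : Matrix (Fin 2) (Fin 2) k) i l) ≤ 1 :=
  ((inU_zero_iff129 w).mp hw).1 i l

theorem offdiag_unit69 {ϖ : k} {j : ℤ} {r : ℕ} {a : k} {w u y : GL (Fin 2) k}
    (h : IsNF277 ϖ j r a w u y) :
    Valued.v ((w : Matrix (Fin 2) (Fin 2) k) 0 1) = 1 ∧
      Valued.v ((w : Matrix (Fin 2) (Fin 2) k) 1 0) = 1 := by
  have h1 := h.w_irr ((w : Matrix (Fin 2) (Fin 2) k) 0 0) (entry_int69 h.w_int 0 0)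
  have h2 : chi277 (w : Matrix (Fin 2) (Fin 2) k).trace (w : Matrix (Fin 2) (Fin 2) k).det
      ((w : Matrix (Fin 2) (Fin 2) k) 0 0)
      = -((w : Matrix (Fin 2) (Fin 2) k) 0 1 * (w : Matrix (Fin 2) (Fin 2) k) 1 0) := by
    unfold chi277
    rw [Matrix.trace_fin_two, Matrix.det_fin_two]
    ring
  rw [h2, Valuation.map_neg, map_mul] at h1
  exact mul_eq_one_of_le69 (entry_int69 h.w_int 0 1) (entry_int69 h.w_int 1 0) h1

/-! ## 4. The diagonal case -/

omit [Valued k Γ₀] in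
theorem diag129_inv69 (x y : k) (hx : x ≠ 0) (hy : y ≠ 0) :
    (diag129 x y hx hy)⁻¹ = diag129 x⁻¹ y⁻¹ (inv_ne_zero hx) (inv_ne_zero hy) := by
  apply inv_eq_of_mul_eq_one_right
  rw [diag129_mul]
  apply ext_mat129
  simp only [diag129, coe_mkGL129, mul_inv_cancel₀ hx, mul_inv_cancel₀ hy]
  rw [Units.val_one, Matrix.one_fin_two]

omit [Valued k Γ₀] in
theorem conj_diag_apply69 (x y : k) (hx : x ≠ 0) (hy : y ≠ 0) (g : GL (Fin 2) k) :
    (((diag129 x y hx hy)⁻¹ * g * diag129 x y hx hy : GL (Fin 2) k) :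
        Matrix (Fin 2) (Fin 2) k)
      = !![(g : Matrix (Fin 2) (Fin 2) k) 0 0, x⁻¹ * (g : Matrix (Fin 2) (Fin 2) k) 0 1 * y;
           y⁻¹ * (g : Matrix (Fin 2) (Fin 2) k) 1 0 * x, (g : Matrix (Fin 2) (Fin 2) k) 1 1] := by
  rw [diag129_inv69, Matrix.GeneralLinearGroup.coe_mul, Matrix.GeneralLinearGroup.coe_mul]
  simp only [diag129, coe_mkGL129]
  conv_lhs => rw [eta129 g]
  rw [Matrix.mul_fin_two, Matrix.mul_fin_two]
  ext i l
  fin_cases i <;> fin_cases l <;> simp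
  · field_simp
  · field_simp

theorem val_zpow_unif69 {ϖ : k} (h : Valued.v ϖ = WithZero.exp (-1 : ℤ)) (j : ℤ) :
    Valued.v (ϖ ^ j) = WithZero.exp (-j) := by
  rw [map_zpow₀, h, ← WithZero.exp_zsmul]
  congr 1
  simp

theorem val_pow_unif69 {ϖ : k} (h : Valued.v ϖ = WithZero.exp (-1 : ℤ)) (r : ℕ) :
    Valued.v (ϖ ^ r) = WithZero.exp (-(r : ℤ)) := by
  rw [map_pow, h, ← WithZero.exp_nsmul]
  congr 1
  simp

/-- The entries of `y` in normal form. -/
theorem nf_entries69 {ϖ : k} {j : ℤ} {r : ℕ} {a : k} {w u y : GL (Fin 2) k}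
    (h : IsNF277 ϖ j r a w u y) (i l : Fin 2) :
    (y : Matrix (Fin 2) (Fin 2) k) i l
      = ϖ ^ j * (a * (1 : Matrix (Fin 2) (Fin 2) k) i l
          + ϖ ^ r * (w : Matrix (Fin 2) (Fin 2) k) i l) := by
  rw [h.y_eq, h.u_eq]
  simp [Matrix.smul_apply, Matrix.add_apply]

theorem nf_det69 {ϖ : k} {j : ℤ} {r : ℕ} {a : k} {w u y : GL (Fin 2) k}
    (h : IsNF277 ϖ j r a w u y) :
    Valued.v (y : Matrix (Fin 2) (Fin 2) k).det = WithZero.exp (-(2 * j)) := by
  rw [h.y_eq, Matrix.det_smul, Fintype.card_fin, map_mul, map_pow, val_zpow_unif69 h.unif,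
    valued_det_of_isMaxCpt129 ((inU_zero_iff129 u).mp h.u_int), mul_one, ← WithZero.exp_nsmul]
  congr 1
  simp

/-- **The diagonal case.** -/
theorem fixBall_diag69 {ϖ : k} {j : ℤ} {r : ℕ} {a : k} {w u y : GL (Fin 2) k}
    (h : IsNF277 ϖ j r a w u y) (x₀ y₀ : k) (hx : x₀ ≠ 0) (hy : y₀ ≠ 0)
    (hxy : Valued.v y₀ ≤ Valued.v x₀) :
    gd277 ((diag129 x₀ y₀ hx hy)⁻¹ * y * diag129 x₀ y₀ hx hy) = 0 ↔
      WithZero.log (Valued.v x₀) - WithZero.log (Valued.v y₀) ≤ (r : ℤ) := by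
  have hvx : Valued.v x₀ ≠ 0 := by rwa [ne_eq, map_eq_zero]
  have hvy : Valued.v y₀ ≠ 0 := by rwa [ne_eq, map_eq_zero]
  have hmn : WithZero.log (Valued.v y₀) ≤ WithZero.log (Valued.v x₀) :=
    (WithZero.log_le_log hvy hvx).mpr hxy
  have ex : Valued.v x₀ = WithZero.exp (WithZero.log (Valued.v x₀)) :=
    (WithZero.exp_log hvx).symm
  have ey : Valued.v y₀ = WithZero.exp (WithZero.log (Valued.v y₀)) :=
    (WithZero.exp_log hvy).symm
  set m : ℤ := WithZero.log (Valued.v x₀) with hm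
  set n : ℤ := WithZero.log (Valued.v y₀) with hn
  obtain ⟨hq, hs⟩ := offdiag_unit69 h
  have hdet : Valued.v (((diag129 x₀ y₀ hx hy)⁻¹ * y * diag129 x₀ y₀ hx hy : GL (Fin 2) k) :
      Matrix (Fin 2) (Fin 2) k).det = WithZero.exp (-(2 * j)) := by
    rw [det_conj69, nf_det69 h]
  rw [gd277_zero_iff69 _ j hdet, conj_diag_apply69]
  -- the four entries
  have hr1 : Valued.v (ϖ ^ r) ≤ 1 := by
    rw [val_pow_unif69 h.unif, ← WithZero.exp_zero, WithZero.exp_le_exp]
    omega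
  have hdiag : ∀ i : Fin 2, Valued.v ((y : Matrix (Fin 2) (Fin 2) k) i i) ≤ WithZero.exp (-j) := by
    intro i
    rw [nf_entries69 h, map_mul, val_zpow_unif69 h.unif]
    have : Valued.v (a * (1 : Matrix (Fin 2) (Fin 2) k) i i
        + ϖ ^ r * (w : Matrix (Fin 2) (Fin 2) k) i i) ≤ 1 := by
      refine le_trans (Valuation.map_add _ _ _) (max_le ?_ ?_)
      · simpa using h.a_int
      · rw [map_mul]
        calc Valued.v (ϖ ^ r) * Valued.v ((w : Matrix (Fin 2) (Fin 2) k) i i)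
            ≤ 1 * 1 := mul_le_mul' hr1 (entry_int69 h.w_int i i)
          _ = 1 := mul_one _
    calc WithZero.exp (-j) * Valued.v (a * (1 : Matrix (Fin 2) (Fin 2) k) i i
          + ϖ ^ r * (w : Matrix (Fin 2) (Fin 2) k) i i)
        ≤ WithZero.exp (-j) * 1 := mul_le_mul' le_rfl this
      _ = WithZero.exp (-j) := mul_one _
  have h01 : Valued.v (x₀⁻¹ * (y : Matrix (Fin 2) (Fin 2) k) 0 1 * y₀)
      = WithZero.exp (-m + (-j + -(r : ℤ)) + n) := by
    rw [nf_entries69 h]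
    simp only [Matrix.one_apply_ne (show (0 : Fin 2) ≠ 1 by decide), mul_zero, zero_add]
    rw [map_mul, map_mul, map_mul, map_mul, map_inv₀, val_zpow_unif69 h.unif,
      val_pow_unif69 h.unif, hq, mul_one, ex, ey,
      ← WithZero.exp_neg, ← WithZero.exp_add, ← WithZero.exp_add, ← WithZero.exp_add]
  have h10 : Valued.v (y₀⁻¹ * (y : Matrix (Fin 2) (Fin 2) k) 1 0 * x₀)
      = WithZero.exp (-n + (-j + -(r : ℤ)) + m) := by
    rw [nf_entries69 h]
    simp only [Matrix.one_apply_ne (show (1 : Fin 2) ≠ 0 by decide), mul_zero, zero_add]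
    rw [map_mul, map_mul, map_mul, map_mul, map_inv₀, val_zpow_unif69 h.unif,
      val_pow_unif69 h.unif, hs, mul_one, ex, ey,
      ← WithZero.exp_neg, ← WithZero.exp_add, ← WithZero.exp_add, ← WithZero.exp_add]
  constructor
  · intro H
    have := H 1 0
    simp only [Matrix.of_apply, Matrix.cons_val_one, Matrix.cons_val_zero] at this
    rw [h10, WithZero.exp_le_exp] at this
    omega
  · intro H i l
    fin_cases i <;> fin_cases l
    · simpa using hdiag 0
    · show Valued.v (x₀⁻¹ * (y : Matrix (Fin 2) (Fin 2) k) 0 1 * y₀) ≤ _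
      rw [h01, WithZero.exp_le_exp]
      omega
    · show Valued.v (y₀⁻¹ * (y : Matrix (Fin 2) (Fin 2) k) 1 0 * x₀) ≤ _
      rw [h10, WithZero.exp_le_exp]
      omega
    · simpa using hdiag 1

/-! ## 5. The leaf -/

/-- **T6.13.2.4 `FixBallC`.** -/
theorem fixBallC69 : FixBallC := by
  intro k _ _ ϖ j r a w u y h x
  obtain ⟨u₁, u₂, x₀, y₀, hx₀, hy₀, hu₁, hu₂, hxy, hx, hc⟩ := exists_cartan_diag129 x
  have h1 : gd277 (x⁻¹ * y * x)
      = gd277 ((diag129 x₀ y₀ hx₀ hy₀)⁻¹ * (u₁⁻¹ * y * u₁) * diag129 x₀ y₀ hx₀ hy₀) := by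
    rw [hx]
    exact gd277_conj_reduce69 hu₂
  have h2 : gd277 x = WithZero.log (Valued.v x₀) - WithZero.log (Valued.v y₀) := by
    unfold gd277
    rw [hc]
    dsimp only
    ring
  rw [h1, h2]
  exact fixBall_diag69 (isNF277_conj69 h hu₁) x₀ y₀ hx₀ hy₀ hxy

end Fermat.Agent.LT.T6.H69

end

end
-- ===== PACK-END LT/T6/H69/FixBall.lean

-- ===== PACK-BEGIN LT/T6/H75/TwEll.lean
section




/-!
# Row LT, tower T6, leaf T6.26 `ArchHAK` -- the twisted elliptic orbital integral on `GL₂(ℂ)`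
(owner helper75)

OFF-MAIN.  No hole, nothing assumed beyond the hypotheses written in the statements.

## The result

`twEllOrbital75`: let `μ'` be a Haar measure of `GL₂(ℂ)`, `κ` the Haar probability measure of `U(2)`
and `c` the constant of the Iwasawa integration formula `μ' = c • (iwaC)_* (du₁ du₂ dw dκ)`
(`H189.IwasawaCC`).  Let `φ` be a function on `GL₂(ℂ)` with radial profile `Φ` on the elements of
determinant of absolute value `1` (`φ g = Φ (rhoC g)`; `Φ` continuous, zero above `M`), `h` a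
continuous compactly supported cut-off on `ℝ` and `δ = k_{a/2}` the rotation of angle `a/2`
(so that `N δ = δ δ̄ = k_a`), `cos a < 1`.  Then

`∫ φ(x⁻¹ δ x̄) h(log |det x|) dμ'(x) = c · (π/4) (∫ h) · ∫_ℝ (cosh σ - cos a)⁻¹ Ψ(cosh σ) dσ`,
`Ψ(y) = ∫_{x > y} Φ(x) dx` (`twTail75 Φ`).

The right-hand side is, up to the constant, the elliptic side of `H517.radialMatch517`.

## The proof (the "eigenbasis trick"; no Fermi coordinates, no `G = H A K` decomposition)

`g₀ = (1/√2) !![1, 1; -i, i] ∈ U(2)` diagonalises the rotations.  By left invariance we integrate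
over `x = g₀ · diag(e^{u₁}, e^{u₂}) · n(w) · k`; for such `x` the radial coordinate of `x⁻¹ δ x̄` is
`twRho75 a (u₁ - u₂) |w|²` (`TwEllAlg.lean`) and `|det x| = e^{u₁ + u₂}`; the integral over
`(u₁, u₂, w)` is elementary (`TwEllInt.lean`).
-/

set_option autoImplicit false

open MeasureTheory Real Set
open scoped Matrix ENNReal

noncomputable section

namespace Fermat.Agent.LT.T6.H75

open Fermat.Agent.LT.T6 Fermat.Agent.LT.T6.H189 Fermat.Agent.LT.T6.H517

/-! ## Continuity -/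

theorem continuous_conjGL75 : Continuous (conjGL75 : GL (Fin 2) ℂ → GL (Fin 2) ℂ) := by
  unfold conjGL75 glAut Matrix.GeneralLinearGroup.map
  apply Continuous.units_map
  exact Continuous.matrix_map continuous_id Complex.continuous_conj

theorem continuous_rhoC75 : Continuous rhoC := by
  unfold rhoC
  refine Continuous.div ?_ ?_ ?_
  · exact Complex.continuous_re.comp
      ((Units.continuous_val.matrix_conjTranspose.matrix_mul Units.continuous_val).matrix_trace)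
  · exact continuous_const.mul (continuous_norm.comp Units.continuous_val.matrix_det)
  · intro y
    have := Matrix.GeneralLinearGroup.det_ne_zero y
    have h2 : 0 < ‖(y : Matrix (Fin 2) (Fin 2) ℂ).det‖ := norm_pos_iff.mpr this
    positivity

theorem continuous_log_norm_det75 :
    Continuous (fun x : GL (Fin 2) ℂ => Real.log ‖(x : Matrix (Fin 2) (Fin 2) ℂ).det‖) := by
  refine Continuous.log (continuous_norm.comp Units.continuous_val.matrix_det) ?_
  intro y
  exact (norm_pos_iff.mpr (Matrix.GeneralLinearGroup.det_ne_zero y)).ne'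

/-! ## Determinants -/

theorem det_rotC75 (θ : ℝ) : ((rotC75 θ : GL (Fin 2) ℂ) : Matrix (Fin 2) (Fin 2) ℂ).det = 1 := by
  rw [coe_rotC75, Matrix.det_fin_two_of]
  have h := Real.cos_sq_add_sin_sq θ
  have h2 : ((Real.cos θ : ℂ)) ^ 2 + ((Real.sin θ : ℂ)) ^ 2 = 1 := by exact_mod_cast h
  linear_combination h2

theorem det_conjGL75 (x : GL (Fin 2) ℂ) :
    ((conjGL75 x : GL (Fin 2) ℂ) : Matrix (Fin 2) (Fin 2) ℂ).det
      = (starRingEnd ℂ) (x : Matrix (Fin 2) (Fin 2) ℂ).det := by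
  rw [RingHom.map_det]
  rfl

/-- Every twisted conjugate of a rotation has a determinant of absolute value `1`. -/
theorem norm_det_twConj75 (θ : ℝ) (x : GL (Fin 2) ℂ) :
    ‖((x⁻¹ * rotC75 θ * conjGL75 x : GL (Fin 2) ℂ) : Matrix (Fin 2) (Fin 2) ℂ).det‖ = 1 := by
  have hx : (x : Matrix (Fin 2) (Fin 2) ℂ).det ≠ 0 := Matrix.GeneralLinearGroup.det_ne_zero x
  have h1 : ((x⁻¹ : GL (Fin 2) ℂ) : Matrix (Fin 2) (Fin 2) ℂ).det
      * (x : Matrix (Fin 2) (Fin 2) ℂ).det = 1 := by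
    rw [← Matrix.det_mul, ← Matrix.GeneralLinearGroup.coe_mul, inv_mul_cancel]
    simp
  have h2 : ‖((x⁻¹ : GL (Fin 2) ℂ) : Matrix (Fin 2) (Fin 2) ℂ).det‖
      * ‖(x : Matrix (Fin 2) (Fin 2) ℂ).det‖ = 1 := by
    rw [← norm_mul, h1, norm_one]
  rw [Matrix.GeneralLinearGroup.coe_mul, Matrix.GeneralLinearGroup.coe_mul, Matrix.det_mul,
    Matrix.det_mul, det_rotC75, det_conjGL75, mul_one, norm_mul, RCLike.norm_conj, h2]

/-! ## The integrand in Iwasawa coordinates -/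

/-- The integrand `G(u₁, u₂, w) = Φ(ρ(u₁ - u₂, |w|²)) h(u₁ + u₂)` is continuous. -/
theorem continuous_twInt75 (a : ℝ) {Φ : ℝ → ℂ} (hΦc : Continuous Φ) {h : ℝ → ℝ}
    (hh : Continuous h) :
    Continuous (fun q : ℝ × ℝ × ℂ =>
      Φ (twRho75 a (q.1 - q.2.1) (Complex.normSq q.2.2)) * (h (q.1 + q.2.1) : ℂ)) := by
  have h1 : Continuous (fun q : ℝ × ℝ × ℂ => twRho75 a (q.1 - q.2.1) (Complex.normSq q.2.2)) := by
    have := (continuous_twRho75 a).comp
      (((continuous_fst.sub (continuous_fst.comp continuous_snd)).prodMk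
        (Complex.continuous_normSq.comp (continuous_snd.comp continuous_snd))) :
        Continuous (fun q : ℝ × ℝ × ℂ => (q.1 - q.2.1, Complex.normSq q.2.2)))
    exact this
  exact (hΦc.comp h1).mul
    (Complex.continuous_ofReal.comp (hh.comp (continuous_fst.add (continuous_fst.comp continuous_snd))))

/-! ## The orbital integral -/

/-- The twisted elliptic orbital integral, for any Borel structure on `GL₂(ℂ)`. -/
theorem twEllOrbital_aux75 [MeasurableSpace (GL (Fin 2) ℂ)] [BorelSpace (GL (Fin 2) ℂ)]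
    (κ : Measure (GL (Fin 2) ℂ)) (hκ1 : κ Set.univ = 1) (hκ2 : κ U2ᶜ = 0)
    (μ' : Measure (GL (Fin 2) ℂ)) [μ'.IsHaarMeasure] (c : ℝ≥0∞)
    (hIw : μ' = c • Measure.map iwaC
      ((volume : Measure ℝ).prod ((volume : Measure ℝ).prod ((volume : Measure ℂ).prod κ))))
    {φ : GL (Fin 2) ℂ → ℂ} {Φ : ℝ → ℂ} (hΦc : Continuous Φ) {M : ℝ}
    (hΦM : VanishesAbove517 Φ M)
    (hφ : ∀ g : GL (Fin 2) ℂ, ‖(g : Matrix (Fin 2) (Fin 2) ℂ).det‖ = 1 → φ g = Φ (rhoC g))
    {h : ℝ → ℝ} (hh : Continuous h) (hhc : HasCompactSupport h) {a : ℝ}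
    (ha : Real.cos a < 1) :
    ∫ x : GL (Fin 2) ℂ, φ (x⁻¹ * rotC75 (a / 2) * conjGL75 x)
        * (h (Real.log ‖(x : Matrix (Fin 2) (Fin 2) ℂ).det‖) : ℂ) ∂μ'
      = ((c.toReal * (π / 4 * ∫ y, h y) : ℝ) : ℂ)
          * ∫ σ : ℝ, (Real.cosh σ - Real.cos a)⁻¹ • twTail75 Φ (Real.cosh σ) := by
  classical
  have : IsProbabilityMeasure κ := ⟨hκ1⟩
  set ν : Measure (ℝ × ℝ × ℂ × GL (Fin 2) ℂ) :=
    (volume : Measure ℝ).prod ((volume : Measure ℝ).prod ((volume : Measure ℂ).prod κ)) with hν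
  -- the continuous integrand
  set F : GL (Fin 2) ℂ → ℂ := fun x =>
    Φ (rhoC (x⁻¹ * rotC75 (a / 2) * conjGL75 x))
      * (h (Real.log ‖(x : Matrix (Fin 2) (Fin 2) ℂ).det‖) : ℂ) with hF
  have hFc : Continuous F := by
    have h1 : Continuous (fun x : GL (Fin 2) ℂ => x⁻¹ * rotC75 (a / 2) * conjGL75 x) :=
      (continuous_id.inv.mul continuous_const).mul continuous_conjGL75
    exact (hΦc.comp (continuous_rhoC75.comp h1)).mul
      (Complex.continuous_ofReal.comp (hh.comp continuous_log_norm_det75))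
  have h1 : (fun x : GL (Fin 2) ℂ => φ (x⁻¹ * rotC75 (a / 2) * conjGL75 x)
      * (h (Real.log ‖(x : Matrix (Fin 2) (Fin 2) ℂ).det‖) : ℂ)) = F := by
    funext x
    simp only [hF]
    rw [hφ _ (norm_det_twConj75 _ _)]
  rw [h1]
  -- left translation by `g₀`
  rw [← integral_mul_left_eq_self F g0GL75]
  -- the Iwasawa parametrisation is a.e. measurable
  have hne : μ' ≠ 0 := NeZero.ne μ'
  have hiw : AEMeasurable iwaC ν := by
    by_contra hcon
    apply hne
    rw [hIw, Measure.map_of_not_aemeasurable hcon, smul_zero]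
  have hFg : Continuous (fun x : GL (Fin 2) ℂ => F (g0GL75 * x)) :=
    hFc.comp (continuous_const.mul continuous_id)
  rw [hIw, integral_smul_measure, integral_map hiw hFg.aestronglyMeasurable]
  -- a.e. rewriting
  have hae : ∀ᵐ p ∂ν, F (g0GL75 * iwaC p)
      = Φ (twRho75 a (p.1 - p.2.1) (Complex.normSq p.2.2.1)) * (h (p.1 + p.2.1) : ℂ) := by
    have hnull : ν {p | p.2.2.2 ∈ U2ᶜ} = 0 := by
      have hs : {p : ℝ × ℝ × ℂ × GL (Fin 2) ℂ | p.2.2.2 ∈ U2ᶜ}
          = Set.univ ×ˢ (Set.univ ×ˢ (Set.univ ×ˢ U2ᶜ)) := by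
        ext p
        simp
      rw [hs, hν, Measure.prod_prod, Measure.prod_prod, Measure.prod_prod, hκ2]
      simp
    filter_upwards [measure_eq_zero_iff_ae_notMem.mp hnull] with p hp
    have hk : InU2 p.2.2.2 := by
      by_contra hcon
      exact hp hcon
    have e : g0GL75 * iwaC p = twPt75 p.1 p.2.1 p.2.2.1 * p.2.2.2 := by
      simp only [iwaC, twPt75, mul_assoc]
    simp only [hF]
    rw [e, twEll_rhoC_full75 a _ _ _ hk, norm_det_twPt75 _ _ _ hk, Real.log_exp]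
  rw [integral_congr_ae hae]
  -- forget `k`
  have hπ : Measurable (fun p : ℝ × ℝ × ℂ × GL (Fin 2) ℂ => (p.1, p.2.1, p.2.2.1)) := by
    fun_prop
  have hmap : Measure.map (fun p : ℝ × ℝ × ℂ × GL (Fin 2) ℂ => (p.1, p.2.1, p.2.2.1)) ν
      = (volume : Measure (ℝ × ℝ × ℂ)) := by
    have e1 : (fun p : ℝ × ℝ × ℂ × GL (Fin 2) ℂ => (p.1, p.2.1, p.2.2.1))
        = Prod.map id (Prod.map id Prod.fst) := rfl
    have e2 : Measure.map (Prod.fst : ℂ × GL (Fin 2) ℂ → ℂ) ((volume : Measure ℂ).prod κ)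
        = (volume : Measure ℂ) := by
      rw [Measure.map_fst_prod, hκ1, one_smul]
    rw [e1, hν, ← Measure.map_prod_map _ _ measurable_id (measurable_id.prodMap measurable_fst),
      ← Measure.map_prod_map _ _ measurable_id measurable_fst, e2, Measure.map_id]
    rfl
  have hG := continuous_twInt75 a hΦc hh
  have h3 := integral_map (μ := ν) hπ.aemeasurable hG.aestronglyMeasurable
  rw [hmap] at h3
  rw [← h3, twEll_integral75 ha hΦc hΦM hh hhc, Complex.real_smul]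
  push_cast
  ring

/-- **T6.26: the twisted elliptic orbital integral on `GL₂(ℂ)`**, in the conventions of
`T6/SpecArch.lean` and `H189/ArchIntSpec.lean` (`κ`, `μ'`, `c` as in `H189.IwasawaCC`). -/
theorem twEllOrbital75
    (κ : @Measure (GL (Fin 2) ℂ) (borel _)) (hκ : IsU2Haar κ)
    (μ' : @Measure (GL (Fin 2) ℂ) (borel _)) (hμ' : @Measure.IsHaarMeasure _ _ _ (borel _) μ')
    (c : ℝ≥0∞)
    (hIw : μ' = c • @Measure.map _ _
        (@Prod.instMeasurableSpace _ _ _ (@Prod.instMeasurableSpace _ _ _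
          (@Prod.instMeasurableSpace _ _ _ (borel _)))) (borel _) iwaC (iwaMC κ))
    {φ : GL (Fin 2) ℂ → ℂ} {Φ : ℝ → ℂ} (hΦc : Continuous Φ) {M : ℝ}
    (hΦM : VanishesAbove517 Φ M)
    (hφ : ∀ g : GL (Fin 2) ℂ, ‖(g : Matrix (Fin 2) (Fin 2) ℂ).det‖ = 1 → φ g = Φ (rhoC g))
    {h : ℝ → ℝ} (hh : Continuous h) (hhc : HasCompactSupport h) {a : ℝ}
    (ha : Real.cos a < 1) :
    @integral _ _ _ _ (borel _) μ' (fun x : GL (Fin 2) ℂ =>
        φ (x⁻¹ * rotC75 (a / 2) * glAut (starRingAut : ℂ ≃+* ℂ) x)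
          * (h (Real.log ‖(x : Matrix (Fin 2) (Fin 2) ℂ).det‖) : ℂ))
      = ((c.toReal * (π / 4 * ∫ y, h y) : ℝ) : ℂ)
          * ∫ σ : ℝ, (Real.cosh σ - Real.cos a)⁻¹ • twTail75 Φ (Real.cosh σ) :=
  @twEllOrbital_aux75 (borel (GL (Fin 2) ℂ)) (@BorelSpace.mk _ _ (borel _) rfl) κ hκ.prob hκ.supp
    μ' hμ' c hIw φ Φ hΦc M hΦM hφ h hh hhc a ha

end Fermat.Agent.LT.T6.H75

end

end
-- ===== PACK-END LT/T6/H75/TwEll.lean

-- ===== PACK-BEGIN LT/T6/H769/CoreNorm.lean
section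



/-!
# Row LT, T6.00q.7 `CoreC438` (helper769, OFF-MAIN): normalisation

The finite set `P` of primes `p ≡ 2 mod 3` with `v_p(c)` odd, the squarefree number
`c₂ = ∏_{p ∈ P} p`, and `c = ± c₂ · n` with `n` everywhere locally a norm from `ℚ(√-3)`.
-/

set_option autoImplicit false

namespace Fermat.Agent.LT.T6.H769

open Fermat.Agent.LT.T6.H438
open scoped NumberTheorySymbols

/-- The primes `p ≡ 2 mod 3` with `v_p(c)` odd. -/
noncomputable def Pset769 (c : ℚ) : Finset ℕ :=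
  ((c.num.natAbs * c.den).primeFactors).filter (fun p => p % 3 = 2 ∧ Odd (padicValRat p c))

theorem mem_Pset769 {c : ℚ} (hc : c ≠ 0) (p : ℕ) :
    p ∈ Pset769 c ↔ p.Prime ∧ p % 3 = 2 ∧ Odd (padicValRat p c) := by
  unfold Pset769
  rw [Finset.mem_filter, Nat.mem_primeFactors]
  constructor
  · rintro ⟨⟨hp, -, -⟩, h2, h3⟩
    exact ⟨hp, h2, h3⟩
  · rintro ⟨hp, h2, h3⟩
    refine ⟨⟨hp, ?_, ?_⟩, h2, h3⟩
    · by_contra hnd
      have h1 : ¬ p ∣ c.num.natAbs := fun h => hnd (h.mul_right _)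
      have h4 : ¬ p ∣ c.den := fun h => hnd (h.mul_left _)
      have h5 : padicValRat p c = 0 := by
        rw [padicValRat_def, padicValInt, padicValNat.eq_zero_of_not_dvd h1,
          padicValNat.eq_zero_of_not_dvd h4]
        simp
      rw [h5] at h3
      exact absurd h3 (by decide)
    · exact mul_ne_zero (Int.natAbs_ne_zero.mpr (Rat.num_ne_zero.mpr hc)) c.den_ne_zero

/-- Products of primes: divisibility. -/
theorem prime_dvd_prod769 {P : Finset ℕ} (hP : ∀ p ∈ P, p.Prime) {p : ℕ} (hp : p.Prime) :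
    p ∣ ∏ r ∈ P, r ↔ p ∈ P := by
  rw [hp.prime.dvd_finsetProd_iff]
  constructor
  · rintro ⟨r, hr, hpr⟩
    rwa [(Nat.prime_dvd_prime_iff_eq hp (hP r hr)).mp hpr]
  · intro h
    exact ⟨p, h, dvd_rfl⟩

theorem sqf_prod769 {P : Finset ℕ} (hP : ∀ p ∈ P, p.Prime) : Squarefree (∏ r ∈ P, r) := by
  apply Finset.squarefree_prod_of_pairwise_isCoprime
  · intro x hx y hy hxy
    exact Nat.coprime_iff_isRelPrime.mp ((Nat.coprime_primes (hP x hx) (hP y hy)).mpr hxy)
  · intro x hx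
    exact (hP x hx).squarefree

theorem val_prod769 {P : Finset ℕ} (hP : ∀ p ∈ P, p.Prime) {p : ℕ} (hp : p.Prime) :
    padicValNat p (∏ r ∈ P, r) = if p ∈ P then 1 else 0 := by
  split_ifs with h
  · rw [← Nat.factorization_def _ hp]
    exact Nat.factorization_eq_one_of_squarefree (sqf_prod769 hP) hp
      ((prime_dvd_prod769 hP hp).mpr h)
  · exact padicValNat.eq_zero_of_not_dvd (fun h' => h ((prime_dvd_prod769 hP hp).mp h'))

theorem prod_mod3_769 (P : Finset ℕ) (hP : ∀ p ∈ P, p % 3 = 2) :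
    (∏ r ∈ P, r) % 3 = if Even P.card then 1 else 2 := by
  induction P using Finset.induction_on with
  | empty => simp
  | insert a s ha ih =>
    rw [Finset.prod_insert ha, Finset.card_insert_of_notMem ha, Nat.mul_mod,
      hP a (Finset.mem_insert_self a s), ih (fun p hp => hP p (Finset.mem_insert_of_mem hp))]
    by_cases h : Even s.card
    · have : ¬ Even (s.card + 1) := by
        rw [Nat.even_add_one]
        exact not_not.mpr h
      simp [h, this]
    · have : Even (s.card + 1) := by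
        rw [Nat.even_add_one]
        exact h
      simp [h, this]

end Fermat.Agent.LT.T6.H769

end
-- ===== PACK-END LT/T6/H769/CoreNorm.lean

-- ===== PACK-BEGIN LT/T6/H82/Fibre.lean
section







/-!
# Row LT, tower T6, sub-leaf T6.18g2-D1 `FibreC783` (helper82)

OFF-MAIN.  `fibreC82 : H783.FibreC783`, VERBATIM against `LT/T6/H783/DescSpec.lean`
(helper783@4831eb18d, sha256 efb33450), UNCONDITIONAL:

  `TO_h(φ) = ∑_{y ∈ Y} O^{Γ_y}_h(φ_y)`.

Proof: the abstract fibration `fibre_abstract82` (`FibreAbs.lean`) for `G = GL₂(k)`,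
`G' = GL₂(k')`, `ι = GL.map i`, `σ = glAut s`, `U' = U'(n)`, with

* the twisted centraliser of `ι(g)` in `G'` is the image of the centraliser of `g` in `G` when
  `g ^ l` is regular: `twCentC166` (helper166, T6.06) for `N(ι g) = ι(g ^ l)`, and the centraliser
  of the non-scalar `g ^ l` is commutative (`gl_comm_of_comm166`);
* the compact parts correspond (`val_i`: `v(i x) = v(x) ^ e`, `e > 0`);
* `U'(n)` is a `σ`-stable subgroup (`inU_mul944`, `inU_inv944`, `inU_glAut944` of helper944, T6.09).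
-/

set_option autoImplicit false

open scoped Matrix

noncomputable section

namespace Fermat.Agent.LT.T6.H82

open Fermat.Agent.LT.T6

section Local

/-- `1 ∈ U(n)`. -/
theorem inU_one82 {k : Type} [Field k] [Valued k Γ₀] (n : ℕ) : InU n (1 : GL (Fin 2) k) := by
  intro a b
  simp

/-- `glAut` of the identity automorphism is the identity. -/
theorem glAut_refl82 {k : Type} [Field k] (g : GL (Fin 2) k) :
    glAut (RingEquiv.refl k) g = g := by
  apply Matrix.GeneralLinearGroup.ext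
  intro a b
  rw [H166.glAut_apply166]
  rfl

end Local

section Algebra

variable {k k' : Type} [Field k] [Field k']

/-- The twisted norm of an element of `GL₂(k)` is its `l`-th power. -/
theorem twNorm_map82 (i : k →+* k') (s : k' ≃+* k') (hfix : ∀ x : k, s (i x) = i x)
    (g : GL (Fin 2) k) (l : ℕ) :
    twNorm s l (Matrix.GeneralLinearGroup.map i g) = Matrix.GeneralLinearGroup.map i (g ^ l) := by
  induction l with
  | zero => rw [pow_zero, map_one]; rfl
  | succ m ih =>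
    have e : twNorm s (m + 1) (Matrix.GeneralLinearGroup.map i g)
        = Matrix.GeneralLinearGroup.map i g
          * glAut s (twNorm s m (Matrix.GeneralLinearGroup.map i g)) := rfl
    rw [e, ih, H166.glAut_map166 i s hfix, ← map_mul, ← pow_succ']

/-- The discriminant is invariant under conjugation. -/
theorem isReg_conj82 (x m : GL (Fin 2) k) (hm : IsReg m) : IsReg (x⁻¹ * m * x) := by
  have htr : ((x⁻¹ * m * x : GL (Fin 2) k) : Matrix (Fin 2) (Fin 2) k).trace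
      = (m : Matrix (Fin 2) (Fin 2) k).trace := by
    rw [Units.val_mul, Matrix.trace_mul_comm, ← Units.val_mul]
    congr 2
    group
  have hdet : ((x⁻¹ * m * x : GL (Fin 2) k) : Matrix (Fin 2) (Fin 2) k).det
      = (m : Matrix (Fin 2) (Fin 2) k).det := by
    rw [Units.val_mul, Matrix.det_mul_comm, ← Units.val_mul]
    congr 2
    group
  unfold IsReg disc at hm ⊢
  rw [htr, hdet]
  exact hm

/-- Powers of a conjugate. -/
theorem conj_pow82 {Γ : Type} [Group Γ] (x h : Γ) (l : ℕ) :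
    (x⁻¹ * h * x) ^ l = x⁻¹ * h ^ l * x := by
  induction l with
  | zero => simp
  | succ m ih => rw [pow_succ, ih, pow_succ]; group

/-- The `l`-th power of a conjugate of `h` is regular if `h ^ l` is. -/
theorem isReg_conj_pow82 (x h : GL (Fin 2) k) (l : ℕ) (hreg : IsReg (h ^ l)) :
    IsReg ((x⁻¹ * h * x) ^ l) := by
  rw [conj_pow82]
  exact isReg_conj82 x _ hreg

/-- The trace of the image of `t` in `GL₂(k')`. -/
theorem trace_map82 (i : k →+* k') (t : GL (Fin 2) k) :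
    (Matrix.GeneralLinearGroup.map i t : Matrix (Fin 2) (Fin 2) k').trace
      = i (t : Matrix (Fin 2) (Fin 2) k).trace := by
  rw [Matrix.trace_fin_two, Matrix.trace_fin_two, Matrix.GeneralLinearGroup.map_apply,
    Matrix.GeneralLinearGroup.map_apply, map_add]

/-- The determinant of the image of `t` in `GL₂(k')`. -/
theorem det_map82 (i : k →+* k') (t : GL (Fin 2) k) :
    (Matrix.GeneralLinearGroup.map i t : Matrix (Fin 2) (Fin 2) k').det
      = i (t : Matrix (Fin 2) (Fin 2) k).det := by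
  rw [Matrix.det_fin_two, Matrix.det_fin_two, Matrix.GeneralLinearGroup.map_apply,
    Matrix.GeneralLinearGroup.map_apply, Matrix.GeneralLinearGroup.map_apply,
    Matrix.GeneralLinearGroup.map_apply, map_sub, map_mul, map_mul]

/-- The twisted centraliser of `ι(g)` is the image of the centraliser of `g`, for `g ^ l`
regular. -/
theorem twCent_map82 (l : ℕ) (i : k →+* k') (s : k' ≃+* k') (hcyc : IsCyclicData k k' l i s)
    (g : GL (Fin 2) k) (hreg : IsReg (g ^ l)) (τ : GL (Fin 2) k')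
    (hτ : τ⁻¹ * Matrix.GeneralLinearGroup.map i g * glAut s τ
      = Matrix.GeneralLinearGroup.map i g) :
    ∃ t : GL (Fin 2) k, t * g = g * t ∧ τ = Matrix.GeneralLinearGroup.map i t := by
  have h1 := (H166.twCentC166 k k' l i s hcyc (Matrix.GeneralLinearGroup.map i g) (g ^ l) hreg
    (twNorm_map82 i s hcyc.fix_i g l) τ).1 hτ
  obtain ⟨t, htc, ht⟩ := h1
  refine ⟨t, ?_, ht⟩
  have hns : ((g ^ l : GL (Fin 2) k) : Matrix (Fin 2) (Fin 2) k) 0 1 ≠ 0 ∨
      ((g ^ l : GL (Fin 2) k) : Matrix (Fin 2) (Fin 2) k) 1 0 ≠ 0 ∨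
      ((g ^ l : GL (Fin 2) k) : Matrix (Fin 2) (Fin 2) k) 0 0
        - ((g ^ l : GL (Fin 2) k) : Matrix (Fin 2) (Fin 2) k) 1 1 ≠ 0 :=
    H166.nonscalar_of_disc166 _ hreg.ne_zero
  exact H166.gl_comm_of_comm166 (g ^ l) t g hns htc (pow_mul_comm' g l).symm

end Algebra

section Compact

variable {k k' : Type} [Field k] [Field k'] [Valued k Γ₀] [Valued k' Γ₀]

/-- `v(i x) ≤ 1 ↔ v(x) ≤ 1`. -/
theorem val_le_one_iff82 {e : ℕ} (he : 0 < e) (i : k →+* k')
    (hv : ∀ x : k, Valued.v (i x) = Valued.v x ^ e) (x : k) :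
    Valued.v (i x) ≤ 1 ↔ Valued.v x ≤ 1 := by
  rw [hv]
  exact pow_le_one_iff he.ne'

/-- `v(i x) = 1 ↔ v(x) = 1`. -/
theorem val_eq_one_iff82 {e : ℕ} (he : 0 < e) (i : k →+* k')
    (hv : ∀ x : k, Valued.v (i x) = Valued.v x ^ e) (x : k) :
    Valued.v (i x) = 1 ↔ Valued.v x = 1 := by
  rw [hv]
  exact pow_eq_one_iff_of_nonneg zero_le he.ne'

/-- The compact part of the twisted centraliser of `β = y⁻¹ ι(g) σ(y)` is the conjugate by `y` of
the image of the compact part of the centraliser of `g`, for `g ^ l` regular. -/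
theorem inTwCentC_fibre82 (l e : ℕ) (i : k →+* k') (s : k' ≃+* k')
    (hext : IsLocalExt k k' l e i s) (g : GL (Fin 2) k) (hreg : IsReg (g ^ l))
    (y t : GL (Fin 2) k') :
    InTwCentC s (y⁻¹ * Matrix.GeneralLinearGroup.map i g * glAut s y) t ↔
      ∃ t₁ : GL (Fin 2) k, InTwCentC (RingEquiv.refl k) g t₁ ∧
        t = y⁻¹ * Matrix.GeneralLinearGroup.map i t₁ * y := by
  rw [H944.inTwCentC_conj944 s (Matrix.GeneralLinearGroup.map i g) y t]
  constructor
  · rintro ⟨hc, htr, hdet⟩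
    obtain ⟨t₁, hcomm, ht₁⟩ := twCent_map82 l i s hext.cyc g hreg _ hc
    refine ⟨t₁, ⟨?_, ?_, ?_⟩, ?_⟩
    · show t₁⁻¹ * g * glAut (RingEquiv.refl k) t₁ = g
      rw [glAut_refl82, mul_assoc, ← hcomm]
      group
    · rw [ht₁, trace_map82] at htr
      exact (val_le_one_iff82 hext.e_pos i hext.val_i _).1 htr
    · rw [ht₁, det_map82] at hdet
      exact (val_eq_one_iff82 hext.e_pos i hext.val_i _).1 hdet
    · rw [← ht₁]
      group
  · rintro ⟨t₁, ⟨hc, htr, hdet⟩, rfl⟩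
    have e1 : y * (y⁻¹ * Matrix.GeneralLinearGroup.map i t₁ * y) * y⁻¹
        = Matrix.GeneralLinearGroup.map i t₁ := by group
    rw [e1]
    refine ⟨?_, ?_, ?_⟩
    · show (Matrix.GeneralLinearGroup.map i t₁)⁻¹ * Matrix.GeneralLinearGroup.map i g
        * glAut s (Matrix.GeneralLinearGroup.map i t₁) = Matrix.GeneralLinearGroup.map i g
      have hc' : t₁⁻¹ * g * t₁ = g := by
        have := hc
        unfold InTwCent at this
        rwa [glAut_refl82] at this
      rw [H166.glAut_map166 i s hext.cyc.fix_i, ← map_inv, ← map_mul, ← map_mul, hc']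
    · rw [trace_map82]
      exact (val_le_one_iff82 hext.e_pos i hext.val_i _).2 htr
    · rw [det_map82]
      exact (val_eq_one_iff82 hext.e_pos i hext.val_i _).2 hdet

end Compact

/-- **T6.18g2-D1 `FibreC783`** (VERBATIM, unconditional): the fibration of the twisted class over
`G \ G' / U'`, `TO_h(φ) = ∑_{y ∈ Y} O^{Γ_y}_h(φ_y)`. -/
theorem fibreC82 : H783.FibreC783 := by
  intro k k' _ _ _ _ q l e i s n φ hB Y hY h hreg hcov c cs hc hcs
  have hfix := hB.ext.cyc.fix_i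
  refine fibre_abstract82 (Matrix.GeneralLinearGroup.map i) (glAut s)
    (glAut (RingEquiv.refl k)) glAut_refl82 (H166.glAut_map166 i s hfix) (InU n)
    (H944.inU_mul944 n) (H944.inU_inv944 n) (H944.inU_glAut944 s hB.ext.val_s n) φ hB.inv
    (InTwCentC s) (InTwCentC (RingEquiv.refl k))
    (fun y u t _ => H944.inTwCentC_conj944 s y u t) h ?_ ?_ Y hY hcov c cs hc hcs
  · intro τ hτ
    exact twCent_map82 l i s hB.ext.cyc h hreg τ hτ
  · rintro y g ⟨x, rfl⟩
    exact cIndex_fibre82 (Matrix.GeneralLinearGroup.map i) (InU n) (inU_one82 n)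
      (H944.inU_mul944 n) (H944.inU_inv944 n) (InTwCentC s) (InTwCentC (RingEquiv.refl k)) y _ _
      (inTwCentC_fibre82 l e i s hB.ext _ (isReg_conj_pow82 x h l hreg) y)

end Fermat.Agent.LT.T6.H82

end

end
-- ===== PACK-END LT/T6/H82/Fibre.lean

-- ===== PACK-BEGIN LT/T6/H846/DecompBdd.lean
section






/-!
# Row LT, tower T6, leaf T6.18g2-D0 `DecompGlueC783` (helper846) -- bounded sets, OFF-MAIN

* `EntryBdd783` is stable under products and inverses; every element and every finite set is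
  bounded;
* `inU_conj846` : `y⁻¹ U(n + 2A) y ⊆ U(n)` for `y` bounded by `exp A`;
* `localFinite846` : a bounded subset of `GL₂(k)`, `k` a local field, is covered by finitely many
  cosets `x U(m)`;
* the inclusion `GL₂(k) → GL₂(k')` of a local extension: `ι U(m) ⊆ U'(m)`, `ι(g)` bounded `⇒ g`
  bounded, `σ ∘ ι = ι`.
-/

set_option autoImplicit false
set_option linter.unusedSectionVars false
set_option linter.style.haveILetI false

open scoped Matrix
open WithZero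

noncomputable section

namespace Fermat.Agent.LT.T6.H846

open Fermat.Agent.LT.T6 Fermat.Agent.LT.T6.H783

section Bdd

variable {K : Type} [Field K] [Valued K Γ₀]

theorem entryBdd_iff846 (A : ℤ) (g : GL (Fin 2) K) :
    EntryBdd783 A g ↔ EntLe846 (exp A) (g : Matrix (Fin 2) (Fin 2) K) ∧
      EntLe846 (exp A) ((g⁻¹ : GL (Fin 2) K) : Matrix (Fin 2) (Fin 2) K) := by
  constructor
  · intro h
    exact ⟨fun a b => (h a b).1, fun a b => (h a b).2⟩
  · intro h a b
    exact ⟨h.1 a b, h.2 a b⟩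

theorem entryBdd_inv846 (A : ℤ) (g : GL (Fin 2) K) (h : EntryBdd783 A g) :
    EntryBdd783 A g⁻¹ := by
  rw [entryBdd_iff846] at h ⊢
  refine ⟨h.2, ?_⟩
  rw [inv_inv]
  exact h.1

theorem entryBdd_mul846 (A B : ℤ) (g h : GL (Fin 2) K) (hg : EntryBdd783 A g)
    (hh : EntryBdd783 B h) : EntryBdd783 (A + B) (g * h) := by
  rw [entryBdd_iff846] at hg hh ⊢
  refine ⟨?_, ?_⟩
  · rw [Units.val_mul, exp_add]
    exact hg.1.mul hh.1
  · rw [mul_inv_rev, Units.val_mul, exp_add, mul_comm (exp A)]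
    exact hh.2.mul hg.2

theorem entryBdd_mono846 {A B : ℤ} (hAB : A ≤ B) (g : GL (Fin 2) K) (h : EntryBdd783 A g) :
    EntryBdd783 B g := by
  rw [entryBdd_iff846] at h ⊢
  have : exp A ≤ (exp B : Γ₀) := exp_le_exp.2 hAB
  exact ⟨h.1.mono this, h.2.mono this⟩

theorem entryBdd_of_inU846 (n : ℕ) (u : GL (Fin 2) K) (hu : InU n u) : EntryBdd783 0 u := by
  rw [entryBdd_iff846, exp_zero]
  exact ⟨entLe_of_inU846 n u hu, entLe_of_inU846 n u⁻¹ (inU_inv846 n u hu)⟩

theorem exists_nat_bound846 (x : K) : ∃ A : ℕ, Valued.v x ≤ exp (A : ℤ) := by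
  refine ⟨(log (Valued.v x)).toNat, le_trans le_exp_log ?_⟩
  rw [exp_le_exp]
  exact Int.self_le_toNat _

theorem exists_entryBdd846 (g : GL (Fin 2) K) : ∃ A : ℕ, EntryBdd783 (A : ℤ) g := by
  choose a ha using fun p : Fin 2 × Fin 2 =>
    exists_nat_bound846 ((g : Matrix (Fin 2) (Fin 2) K) p.1 p.2)
  choose a' ha' using fun p : Fin 2 × Fin 2 =>
    exists_nat_bound846 (((g⁻¹ : GL (Fin 2) K) : Matrix (Fin 2) (Fin 2) K) p.1 p.2)
  refine ⟨Finset.univ.sup (fun p => a p + a' p), fun i j => ⟨?_, ?_⟩⟩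
  · refine (ha (i, j)).trans (exp_le_exp.2 ?_)
    have h1 : a (i, j) + a' (i, j) ≤ Finset.univ.sup (fun p => a p + a' p) :=
      Finset.le_sup (f := fun p => a p + a' p) (Finset.mem_univ (i, j))
    omega
  · refine (ha' (i, j)).trans (exp_le_exp.2 ?_)
    have h1 : a (i, j) + a' (i, j) ≤ Finset.univ.sup (fun p => a p + a' p) :=
      Finset.le_sup (f := fun p => a p + a' p) (Finset.mem_univ (i, j))
    omega

theorem exists_entryBdd_finset846 (Y : Finset (GL (Fin 2) K)) :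
    ∃ A : ℕ, ∀ y ∈ Y, EntryBdd783 (A : ℤ) y := by
  choose b hb using fun y : GL (Fin 2) K => exists_entryBdd846 y
  refine ⟨Y.sup b, fun y hy => entryBdd_mono846 ?_ y (hb y)⟩
  have : b y ≤ Y.sup b := Finset.le_sup hy
  exact_mod_cast this

theorem conj_sub_one846 (y u : GL (Fin 2) K) :
    ((y⁻¹ * u * y : GL (Fin 2) K) : Matrix (Fin 2) (Fin 2) K) - 1
      = ((y⁻¹ : GL (Fin 2) K) : Matrix (Fin 2) (Fin 2) K)
        * ((u : Matrix (Fin 2) (Fin 2) K) - 1) * (y : Matrix (Fin 2) (Fin 2) K) := by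
  have h1 : ((y⁻¹ : GL (Fin 2) K) : Matrix (Fin 2) (Fin 2) K) * (y : Matrix (Fin 2) (Fin 2) K)
      = 1 := by
    rw [← Units.val_mul, inv_mul_cancel]
    rfl
  rw [Units.val_mul, Units.val_mul, mul_sub, sub_mul, mul_one, h1]

theorem inU_conj846 (A n : ℕ) (y u : GL (Fin 2) K) (hy : EntryBdd783 (A : ℤ) y)
    (hu : InU (n + 2 * A) u) : InU n (y⁻¹ * u * y) := by
  rw [entryBdd_iff846] at hy
  have key : ∀ w : GL (Fin 2) K,
      EntLe846 (exp (-((n + 2 * A : ℕ) : ℤ))) ((w : Matrix (Fin 2) (Fin 2) K) - 1) →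
      EntLe846 (exp (-(n : ℤ))) (((y⁻¹ * w * y : GL (Fin 2) K) : Matrix (Fin 2) (Fin 2) K) - 1) := by
    intro w hw
    rw [conj_sub_one846]
    have h := (hy.2.mul hw).mul hy.1
    have e : exp (A : ℤ) * exp (-((n + 2 * A : ℕ) : ℤ)) * exp (A : ℤ) = (exp (-(n : ℤ)) : Γ₀) := by
      rw [← exp_add, ← exp_add]
      congr 1
      push_cast
      ring
    rwa [e] at h
  rw [inU_iff846] at hu ⊢
  refine ⟨key u hu.1, ?_⟩
  have e : (y⁻¹ * u * y)⁻¹ = y⁻¹ * u⁻¹ * y := by group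
  rw [e]
  exact key u⁻¹ hu.2

/-- **Local finiteness**: a bounded subset of `GL₂(K)` is covered by finitely many cosets of
`U(m)`. -/
theorem localFinite846 {q : ℕ} (hk : IsLocalField K q) (A m : ℕ) :
    ∃ F : Finset (GL (Fin 2) K), ∀ g : GL (Fin 2) K, EntryBdd783 (A : ℤ) g →
      ∃ x ∈ F, ∃ u : GL (Fin 2) K, InU m u ∧ g = x * u := by
  classical
  obtain ⟨ϖ, hϖ⟩ := hk.unif
  obtain ⟨T, -, -, -, hT⟩ := hk.residue
  have hϖ0 : ϖ ≠ 0 := by
    intro h0
    rw [h0, map_zero] at hϖ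
    exact exp_ne_zero hϖ.symm
  set M : ℕ := m + A with hM
  set D : Finset K := digits846 T ϖ (M + A) with hD
  -- the approximation property
  let P : (Fin 2 → Fin 2 → K) → GL (Fin 2) K → Prop := fun d x =>
    EntryBdd783 (A : ℤ) x ∧
      ∀ i j, Valued.v ((x : Matrix (Fin 2) (Fin 2) K) i j - (ϖ⁻¹) ^ A * d i j) ≤ exp (-(M : ℤ))
  let c : (Fin 2 → Fin 2 → K) → GL (Fin 2) K := fun d =>
    if h : ∃ x, P d x then Classical.choose h else 1
  have hc : ∀ d, (∃ x, P d x) → P d (c d) := by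
    intro d h
    simp only [c, dif_pos h]
    exact Classical.choose_spec h
  refine ⟨(Fintype.piFinset fun _ : Fin 2 => Fintype.piFinset fun _ : Fin 2 => D).image c, ?_⟩
  intro g hg
  -- digits of the entries of `g`
  have hdig : ∀ i j, ∃ d ∈ D, Valued.v ((g : Matrix (Fin 2) (Fin 2) K) i j - (ϖ⁻¹) ^ A * d)
      ≤ exp (-(M : ℤ)) := by
    intro i j
    have hz : Valued.v (ϖ ^ A * (g : Matrix (Fin 2) (Fin 2) K) i j) ≤ 1 := by
      rw [map_mul, map_pow, hϖ]
      calc exp (-1 : ℤ) ^ A * Valued.v ((g : Matrix (Fin 2) (Fin 2) K) i j)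
          ≤ exp (-1 : ℤ) ^ A * exp (A : ℤ) := by
            gcongr
            exact (hg i j).1
        _ = 1 := by
            rw [← exp_nsmul, ← exp_add]
            simp
    obtain ⟨d, hd, hzd⟩ := exists_digit846 T ϖ hϖ hT (M + A) _ hz
    refine ⟨d, hd, ?_⟩
    have e : (g : Matrix (Fin 2) (Fin 2) K) i j - (ϖ⁻¹) ^ A * d
        = (ϖ⁻¹) ^ A * (ϖ ^ A * (g : Matrix (Fin 2) (Fin 2) K) i j - d) := by
      have : ϖ ^ A ≠ 0 := pow_ne_zero A hϖ0
      rw [mul_sub, ← mul_assoc, inv_pow, inv_mul_cancel₀ this, one_mul]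
    rw [e, map_mul, map_pow, map_inv₀, hϖ]
    calc (exp (-1 : ℤ))⁻¹ ^ A * Valued.v (ϖ ^ A * (g : Matrix (Fin 2) (Fin 2) K) i j - d)
        ≤ (exp (-1 : ℤ))⁻¹ ^ A * exp (-((M + A : ℕ) : ℤ)) := by gcongr
      _ = exp (-(M : ℤ)) := by
          rw [← exp_neg, ← exp_nsmul, ← exp_add]
          congr 1
          push_cast
          simp
  choose d hdD hdv using hdig
  have hPg : P d g := ⟨hg, hdv⟩
  have hPc := hc d ⟨g, hPg⟩
  refine ⟨c d, Finset.mem_image.2 ⟨d, ?_, rfl⟩, (c d)⁻¹ * g, ?_, by group⟩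
  · simp only [Fintype.mem_piFinset]
    exact fun i j => hdD i j
  · -- `x⁻¹ g ∈ U(m)`
    have hclose : EntLe846 (exp (-(M : ℤ)))
        ((g : Matrix (Fin 2) (Fin 2) K) - (c d : Matrix (Fin 2) (Fin 2) K)) := by
      intro i j
      have e : ((g : Matrix (Fin 2) (Fin 2) K) - (c d : Matrix (Fin 2) (Fin 2) K)) i j
          = ((g : Matrix (Fin 2) (Fin 2) K) i j - (ϖ⁻¹) ^ A * d i j)
            - ((c d : Matrix (Fin 2) (Fin 2) K) i j - (ϖ⁻¹) ^ A * d i j) := by
        rw [Matrix.sub_apply]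
        ring
      rw [e]
      exact Valuation.map_sub_le _ (hdv i j) (hPc.2 i j)
    have hclose' : EntLe846 (exp (-(M : ℤ)))
        ((c d : Matrix (Fin 2) (Fin 2) K) - (g : Matrix (Fin 2) (Fin 2) K)) := by
      intro i j
      rw [Matrix.sub_apply, Valuation.map_sub_swap, ← Matrix.sub_apply]
      exact hclose i j
    have hAM : exp (A : ℤ) * exp (-(M : ℤ)) = (exp (-(m : ℤ)) : Γ₀) := by
      rw [← exp_add]
      congr 1
      rw [hM]
      push_cast
      ring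
    have hx := (entryBdd_iff846 _ _).1 hPc.1
    have hg' := (entryBdd_iff846 _ _).1 hg
    rw [inU_iff846]
    refine ⟨?_, ?_⟩
    · have e : (((c d)⁻¹ * g : GL (Fin 2) K) : Matrix (Fin 2) (Fin 2) K) - 1
          = (((c d)⁻¹ : GL (Fin 2) K) : Matrix (Fin 2) (Fin 2) K)
            * ((g : Matrix (Fin 2) (Fin 2) K) - (c d : Matrix (Fin 2) (Fin 2) K)) := by
        rw [Units.val_mul, mul_sub, Units.inv_mul]
      rw [e, ← hAM]
      exact hx.2.mul hclose
    · have e : ((((c d)⁻¹ * g)⁻¹ : GL (Fin 2) K) : Matrix (Fin 2) (Fin 2) K) - 1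
          = ((g⁻¹ : GL (Fin 2) K) : Matrix (Fin 2) (Fin 2) K)
            * ((c d : Matrix (Fin 2) (Fin 2) K) - (g : Matrix (Fin 2) (Fin 2) K)) := by
        rw [mul_inv_rev, inv_inv, Units.val_mul, mul_sub, Units.inv_mul]
      rw [e, ← hAM]
      exact hg'.2.mul hclose'

end Bdd

section Ext

variable {k k' : Type} [Field k] [Field k'] [Valued k Γ₀] [Valued k' Γ₀]

theorem map_apply846 (i : k →+* k') (g : GL (Fin 2) k) (a b : Fin 2) :
    (Matrix.GeneralLinearGroup.map i g : Matrix (Fin 2) (Fin 2) k') a b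
      = i ((g : Matrix (Fin 2) (Fin 2) k) a b) :=
  Matrix.GeneralLinearGroup.map_apply i a b g

theorem pow_le_self846 (x : Γ₀) (hx : x ≤ 1) (e : ℕ) (he : 0 < e) : x ^ e ≤ x := by
  obtain ⟨e', rfl⟩ := Nat.exists_eq_succ_of_ne_zero he.ne'
  rw [pow_succ]
  calc x ^ e' * x ≤ 1 * x := by
        gcongr
        exact pow_le_one' hx e'
    _ = x := one_mul _

theorem le_of_pow_le846 (x : Γ₀) (A : ℕ) (e : ℕ) (he : 0 < e) (h : x ^ e ≤ exp (A : ℤ)) :
    x ≤ exp (A : ℤ) := by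
  by_contra hx
  rw [not_le] at hx
  have h1 : (1 : Γ₀) ≤ exp (A : ℤ) := by
    rw [← exp_zero, exp_le_exp]
    omega
  have h2 : (1 : Γ₀) ≤ x := h1.trans hx.le
  obtain ⟨e', rfl⟩ := Nat.exists_eq_succ_of_ne_zero he.ne'
  have h3 : x ≤ x ^ (e' + 1) := by
    rw [pow_succ]
    calc x = 1 * x := (one_mul _).symm
      _ ≤ x ^ e' * x := by
          gcongr
          exact one_le_pow_of_one_le' h2 e'
  exact absurd (h3.trans h) (not_le.2 hx)

theorem le_one_of_pow_le_one846 (x : Γ₀) (e : ℕ) (he : 0 < e) (h : x ^ e ≤ 1) : x ≤ 1 := by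
  have := le_of_pow_le846 x 0 e he (by simpa using h)
  simpa using this

theorem eq_one_of_pow_eq_one846 (x : Γ₀) (e : ℕ) (he : 0 < e) (h : x ^ e = 1) : x = 1 := by
  have h1 : x ≤ 1 := le_one_of_pow_le_one846 x e he h.le
  refine le_antisymm h1 ?_
  by_contra hx
  rw [not_le] at hx
  have h2 : x ^ e ≤ x := pow_le_self846 x h1 e he
  rw [h] at h2
  exact absurd h2 (not_le.2 hx)

theorem inU_map846 (i : k →+* k') (e : ℕ) (he : 0 < e)
    (hval : ∀ x : k, Valued.v (i x) = Valued.v x ^ e) (m : ℕ) (u : GL (Fin 2) k)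
    (hu : InU m u) : InU m (Matrix.GeneralLinearGroup.map i u) := by
  have key : ∀ (g : GL (Fin 2) k) (a b : Fin 2),
      Valued.v ((g : Matrix (Fin 2) (Fin 2) k) a b - (1 : Matrix (Fin 2) (Fin 2) k) a b)
        ≤ exp (-(m : ℤ)) →
      Valued.v ((Matrix.GeneralLinearGroup.map i g : Matrix (Fin 2) (Fin 2) k') a b
        - (1 : Matrix (Fin 2) (Fin 2) k') a b) ≤ exp (-(m : ℤ)) := by
    intro g a b h
    have h1 : (1 : Matrix (Fin 2) (Fin 2) k') a b = i ((1 : Matrix (Fin 2) (Fin 2) k) a b) := by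
      rw [Matrix.one_apply, Matrix.one_apply]
      split_ifs <;> simp
    rw [map_apply846, h1, ← map_sub, hval]
    refine (pow_le_self846 _ (h.trans (exp_neg_le_one846 m)) e he).trans h
  intro a b
  refine ⟨key u a b (hu a b).1, ?_⟩
  have : (Matrix.GeneralLinearGroup.map i u)⁻¹ = Matrix.GeneralLinearGroup.map i u⁻¹ :=
    (map_inv (Matrix.GeneralLinearGroup.map i) u).symm
  rw [this]
  exact key u⁻¹ a b (hu a b).2

theorem entryBdd_of_map846 (i : k →+* k') (e : ℕ) (he : 0 < e)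
    (hval : ∀ x : k, Valued.v (i x) = Valued.v x ^ e) (A : ℕ) (g : GL (Fin 2) k)
    (h : EntryBdd783 (A : ℤ) (Matrix.GeneralLinearGroup.map i g)) : EntryBdd783 (A : ℤ) g := by
  intro a b
  have h1 := (h a b).1
  have h2 := (h a b).2
  have e2 : (Matrix.GeneralLinearGroup.map i g)⁻¹ = Matrix.GeneralLinearGroup.map i g⁻¹ :=
    (map_inv (Matrix.GeneralLinearGroup.map i) g).symm
  rw [e2] at h2
  rw [map_apply846, hval] at h1 h2
  exact ⟨le_of_pow_le846 _ A e he h1, le_of_pow_le846 _ A e he h2⟩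

theorem glAut_map846 (i : k →+* k') (s : k' ≃+* k') (hfix : ∀ x : k, s (i x) = i x)
    (g : GL (Fin 2) k) :
    glAut s (Matrix.GeneralLinearGroup.map i g) = Matrix.GeneralLinearGroup.map i g := by
  apply Units.ext
  ext a b
  rw [glAut_apply846, map_apply846, hfix]

theorem trace_map846 (i : k →+* k') (g : GL (Fin 2) k) :
    (Matrix.GeneralLinearGroup.map i g : Matrix (Fin 2) (Fin 2) k').trace
      = i (g : Matrix (Fin 2) (Fin 2) k).trace := by
  rw [Matrix.trace_fin_two, Matrix.trace_fin_two, map_apply846, map_apply846, map_add]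

theorem det_map846 (i : k →+* k') (g : GL (Fin 2) k) :
    (Matrix.GeneralLinearGroup.map i g : Matrix (Fin 2) (Fin 2) k').det
      = i (g : Matrix (Fin 2) (Fin 2) k).det := by
  rw [Matrix.det_fin_two, Matrix.det_fin_two, map_apply846, map_apply846, map_apply846,
    map_apply846, map_sub, map_mul, map_mul]

theorem entryBdd_glAut846 (s : k' ≃+* k') (hs : ∀ y : k', Valued.v (s y) = Valued.v y)
    (A : ℤ) (g : GL (Fin 2) k') (h : EntryBdd783 A g) : EntryBdd783 A (glAut s g) := by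
  intro a b
  have e2 : (glAut s g)⁻¹ = glAut s g⁻¹ := (map_inv (glAut s) g).symm
  rw [e2, glAut_apply846, glAut_apply846, hs, hs]
  exact h a b

end Ext

end Fermat.Agent.LT.T6.H846

end

end
-- ===== PACK-END LT/T6/H846/DecompBdd.lean

-- ===== PACK-BEGIN LT/T6/H179/TwLoc.lean
section


/-!
# Row LT, tower T6, sub-leaf T6.18f.6 `TwC179`: local part (helper179)

OFF-MAIN.
* `inU_of_near179`: an invertible matrix `≡ 1 mod ϖ ^ m`, `m ≥ 1`, lies in `U(m)`;
* `isReg_lin179`, `comm_lin_iff179`: `γ₁ = A + B γ₀`, `B ≠ 0`, is regular with `γ₀` and has the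
  same centraliser;
* `core179`: the transfer of a twisted orbit sum from `i(t) δ₀` to `δ₀`.
-/

set_option autoImplicit false
set_option linter.unusedSectionVars false

open scoped Matrix

noncomputable section

namespace Fermat.Agent.LT.T6.H179

open Fermat.Agent.LT.T6 Fermat.Agent.LT.T6.H783 Fermat.Agent.LT.T6.H944 Fermat.Agent.LT.T6.H420

section Near

variable {k : Type} [Field k] [Valued k Γ₀]

/-- An invertible matrix `≡ 1 mod ϖ ^ m`, `m ≥ 1`, lies in `U(m)`. -/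
theorem inU_of_near179 (m : ℕ) (hm : 1 ≤ m) (w : GL (Fin 2) k)
    (hw : Near944 m (w : Matrix (Fin 2) (Fin 2) k)) : InU m w := by
  rw [inU_iff944]
  refine ⟨hw, ?_⟩
  set W : Matrix (Fin 2) (Fin 2) k := (w : Matrix (Fin 2) (Fin 2) k) with hW
  set ε : Γ₀ := WithZero.exp (-(m : ℤ)) with hε
  have hε1 : ε < 1 := by
    rw [hε, ← WithZero.exp_zero, WithZero.exp_lt_exp]
    omega
  have h00 : Valued.v (W 0 0 - 1) ≤ ε := by
    have := hw 0 0
    rwa [Matrix.one_apply_eq] at this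
  have h01 : Valued.v (W 0 1) ≤ ε := by
    have := hw 0 1
    rwa [Matrix.one_apply_ne (show (0 : Fin 2) ≠ 1 by decide), sub_zero] at this
  have h10 : Valued.v (W 1 0) ≤ ε := by
    have := hw 1 0
    rwa [Matrix.one_apply_ne (show (1 : Fin 2) ≠ 0 by decide), sub_zero] at this
  have h11 : Valued.v (W 1 1 - 1) ≤ ε := by
    have := hw 1 1
    rwa [Matrix.one_apply_eq] at this
  have hεε : ε * ε ≤ ε := by
    calc ε * ε ≤ ε * 1 := mul_le_mul' le_rfl hε1.le
      _ = ε := mul_one _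
  -- the determinant
  have hdet : W.det - 1 = (W 0 0 - 1) + (W 1 1 - 1) + (W 0 0 - 1) * (W 1 1 - 1) - W 0 1 * W 1 0 := by
    rw [Matrix.det_fin_two]; ring
  have hd1 : Valued.v (W.det - 1) ≤ ε := by
    rw [hdet]
    refine (Valued.v.map_sub _ _).trans (max_le ?_ ?_)
    · refine (Valued.v.map_add _ _).trans (max_le ?_ ?_)
      · exact (Valued.v.map_add _ _).trans (max_le h00 h11)
      · rw [map_mul]
        exact (mul_le_mul' h00 h11).trans hεε
    · rw [map_mul]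
      exact (mul_le_mul' h01 h10).trans hεε
  have hdv : Valued.v W.det = 1 := by
    have h1 : W.det = 1 + (W.det - 1) := by ring
    rw [h1]
    exact Valuation.map_one_add_of_lt _ (lt_of_le_of_lt hd1 hε1)
  have hdne : W.det ≠ 0 := by
    intro h0
    rw [h0, map_zero] at hdv
    exact zero_ne_one hdv
  have hinv : ((w⁻¹ : GL (Fin 2) k) : Matrix (Fin 2) (Fin 2) k) = W.det⁻¹ • W.adjugate := by
    rw [Matrix.coe_units_inv, Matrix.inv_def, Ring.inverse_eq_inv']
  intro a b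
  rw [hinv, Matrix.adjugate_fin_two]
  have hsc : ∀ x : k, Valued.v (W.det⁻¹ * x) = Valued.v x := by
    intro x
    rw [map_mul, map_inv₀, hdv, inv_one, one_mul]
  fin_cases a <;> fin_cases b
  · have e : (W.det⁻¹ • !![W 1 1, -W 0 1; -W 1 0, W 0 0]) 0 0 - (1 : Matrix (Fin 2) (Fin 2) k) 0 0
        = W.det⁻¹ * ((W 1 1 - 1) - (W.det - 1)) := by
      simp only [Matrix.smul_apply, Matrix.of_apply, Matrix.cons_val', Matrix.cons_val_zero,
        Matrix.cons_val_fin_one, Matrix.one_apply_eq, smul_eq_mul]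
      field_simp
      ring
    show Valued.v ((W.det⁻¹ • !![W 1 1, -W 0 1; -W 1 0, W 0 0]) 0 0
      - (1 : Matrix (Fin 2) (Fin 2) k) 0 0) ≤ ε
    rw [e, hsc]
    exact (Valued.v.map_sub _ _).trans (max_le h11 hd1)
  · have e : (W.det⁻¹ • !![W 1 1, -W 0 1; -W 1 0, W 0 0]) 0 1 - (1 : Matrix (Fin 2) (Fin 2) k) 0 1
        = W.det⁻¹ * (-W 0 1) := by
      simp [Matrix.one_apply_ne]
    show Valued.v ((W.det⁻¹ • !![W 1 1, -W 0 1; -W 1 0, W 0 0]) 0 1
      - (1 : Matrix (Fin 2) (Fin 2) k) 0 1) ≤ ε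
    rw [e, hsc, Valuation.map_neg]
    exact h01
  · have e : (W.det⁻¹ • !![W 1 1, -W 0 1; -W 1 0, W 0 0]) 1 0 - (1 : Matrix (Fin 2) (Fin 2) k) 1 0
        = W.det⁻¹ * (-W 1 0) := by
      simp [Matrix.one_apply_ne]
    show Valued.v ((W.det⁻¹ • !![W 1 1, -W 0 1; -W 1 0, W 0 0]) 1 0
      - (1 : Matrix (Fin 2) (Fin 2) k) 1 0) ≤ ε
    rw [e, hsc, Valuation.map_neg]
    exact h10
  · have e : (W.det⁻¹ • !![W 1 1, -W 0 1; -W 1 0, W 0 0]) 1 1 - (1 : Matrix (Fin 2) (Fin 2) k) 1 1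
        = W.det⁻¹ * ((W 0 0 - 1) - (W.det - 1)) := by
      simp only [Matrix.smul_apply, Matrix.of_apply, Matrix.cons_val', Matrix.cons_val_one,
        Matrix.cons_val_fin_one, Matrix.one_apply_eq, smul_eq_mul]
      field_simp
      ring
    show Valued.v ((W.det⁻¹ • !![W 1 1, -W 0 1; -W 1 0, W 0 0]) 1 1
      - (1 : Matrix (Fin 2) (Fin 2) k) 1 1) ≤ ε
    rw [e, hsc]
    exact (Valued.v.map_sub _ _).trans (max_le h00 hd1)

/-- `U(m') ⊆ U(m)` for `m ≤ m'`. -/
theorem inU_mono179 {m m' : ℕ} (h : m ≤ m') {w : GL (Fin 2) k} (hw : InU m' w) : InU m w := by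
  have he : (WithZero.exp (-(m' : ℤ)) : Γ₀) ≤ WithZero.exp (-(m : ℤ)) := by
    rw [WithZero.exp_le_exp]; omega
  exact fun a b => ⟨(hw a b).1.trans he, (hw a b).2.trans he⟩

end Near

section Lin

variable {F : Type} [Field F]

theorem disc_lin179 (γ₀ γ₁ : GL (Fin 2) F) (A B : F)
    (h : (γ₁ : Matrix (Fin 2) (Fin 2) F)
      = A • (1 : Matrix (Fin 2) (Fin 2) F) + B • (γ₀ : Matrix (Fin 2) (Fin 2) F)) :
    disc γ₁ = B ^ 2 * disc γ₀ := by
  unfold disc
  rw [h, Matrix.trace_fin_two, Matrix.det_fin_two, Matrix.trace_fin_two, Matrix.det_fin_two]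
  simp only [Matrix.add_apply, Matrix.smul_apply, Matrix.one_apply_eq, smul_eq_mul,
    Matrix.one_apply_ne (show (0 : Fin 2) ≠ 1 by decide),
    Matrix.one_apply_ne (show (1 : Fin 2) ≠ 0 by decide)]
  ring

theorem isReg_lin179 (γ₀ γ₁ : GL (Fin 2) F) (A B : F)
    (h : (γ₁ : Matrix (Fin 2) (Fin 2) F)
      = A • (1 : Matrix (Fin 2) (Fin 2) F) + B • (γ₀ : Matrix (Fin 2) (Fin 2) F))
    (hB : B ≠ 0) (hreg : IsReg γ₀) : IsReg γ₁ := by
  unfold IsReg at hreg ⊢
  rw [disc_lin179 γ₀ γ₁ A B h]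
  exact (isUnit_iff_ne_zero.mpr (pow_ne_zero 2 hB)).mul hreg

/-- `γ₁ = A + B γ₀`, `B ≠ 0`: the same centraliser. -/
theorem comm_lin_iff179 (γ₀ γ₁ : GL (Fin 2) F) (A B : F)
    (h : (γ₁ : Matrix (Fin 2) (Fin 2) F)
      = A • (1 : Matrix (Fin 2) (Fin 2) F) + B • (γ₀ : Matrix (Fin 2) (Fin 2) F))
    (hB : B ≠ 0) (c : GL (Fin 2) F) : c * γ₁ = γ₁ * c ↔ c * γ₀ = γ₀ * c := by
  have e1 : (c * γ₁ = γ₁ * c) ↔ ((c : Matrix (Fin 2) (Fin 2) F) * γ₁ = γ₁ * c) := by
    constructor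
    · intro h1
      have := congrArg (fun z : GL (Fin 2) F => (z : Matrix (Fin 2) (Fin 2) F)) h1
      simpa using this
    · intro h1
      apply Units.ext
      simpa using h1
  have e0 : (c * γ₀ = γ₀ * c) ↔ ((c : Matrix (Fin 2) (Fin 2) F) * γ₀ = γ₀ * c) := by
    constructor
    · intro h1
      have := congrArg (fun z : GL (Fin 2) F => (z : Matrix (Fin 2) (Fin 2) F)) h1
      simpa using this
    · intro h1
      apply Units.ext
      simpa using h1
  rw [e1, e0, h]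
  simp only [Matrix.mul_add, Matrix.add_mul, Matrix.mul_smul, Matrix.smul_mul, Matrix.mul_one,
    Matrix.one_mul]
  constructor
  · intro h1
    have h2 : B • ((c : Matrix (Fin 2) (Fin 2) F) * γ₀) = B • ((γ₀ : Matrix (Fin 2) (Fin 2) F) * c) :=
      add_left_cancel h1
    have h3 := congrArg (fun X : Matrix (Fin 2) (Fin 2) F => B⁻¹ • X) h2
    simpa [smul_smul, inv_mul_cancel₀ hB] using h3
  · intro h1
    rw [h1]

end Lin

section Conj

variable {F : Type} [Field F]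

/-- Conjugation of `α + β h`. -/
theorem conj_lin179 (x g h : GL (Fin 2) F) (α β : F)
    (hg : (g : Matrix (Fin 2) (Fin 2) F)
      = α • (1 : Matrix (Fin 2) (Fin 2) F) + β • (h : Matrix (Fin 2) (Fin 2) F)) :
    ((x⁻¹ * g * x : GL (Fin 2) F) : Matrix (Fin 2) (Fin 2) F)
      = α • (1 : Matrix (Fin 2) (Fin 2) F)
        + β • ((x⁻¹ * h * x : GL (Fin 2) F) : Matrix (Fin 2) (Fin 2) F) := by
  have h1 : ((x⁻¹ : GL (Fin 2) F) : Matrix (Fin 2) (Fin 2) F) * (x : Matrix (Fin 2) (Fin 2) F)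
      = 1 := by
    rw [← Units.val_mul, inv_mul_cancel, Units.val_one]
  simp only [Units.val_mul, hg, Matrix.mul_add, Matrix.add_mul, Matrix.mul_smul,
    Matrix.smul_mul, Matrix.mul_one, h1]

/-- `t = a + b γ₀` commutes with `γ₀`. -/
theorem comm_of_lin179 (γ₀ t : GL (Fin 2) F) (a b : F)
    (ht : (t : Matrix (Fin 2) (Fin 2) F)
      = a • (1 : Matrix (Fin 2) (Fin 2) F) + b • (γ₀ : Matrix (Fin 2) (Fin 2) F)) :
    t * γ₀ = γ₀ * t := by
  apply Units.ext
  simp only [Units.val_mul, ht, Matrix.mul_add, Matrix.add_mul, Matrix.mul_smul,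
    Matrix.smul_mul, Matrix.mul_one, Matrix.one_mul]

end Conj

section Core

variable {k k' : Type} [Field k] [Field k'] [Valued k Γ₀] [Valued k' Γ₀]

/-- The image of `a + b γ₀` in `GL₂(k')`. -/
theorem map_lin179 (i : k →+* k') (γ₀ t : GL (Fin 2) k) (a b : k)
    (ht : (t : Matrix (Fin 2) (Fin 2) k)
      = a • (1 : Matrix (Fin 2) (Fin 2) k) + b • (γ₀ : Matrix (Fin 2) (Fin 2) k)) :
    ((Matrix.GeneralLinearGroup.map i t : GL (Fin 2) k') : Matrix (Fin 2) (Fin 2) k')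
      = i a • (1 : Matrix (Fin 2) (Fin 2) k')
        + i b • ((Matrix.GeneralLinearGroup.map i γ₀ : GL (Fin 2) k') :
            Matrix (Fin 2) (Fin 2) k') := by
  ext p r
  rw [Matrix.GeneralLinearGroup.map_apply, ht]
  simp only [Matrix.add_apply, Matrix.smul_apply, smul_eq_mul, map_add, map_mul,
    Matrix.GeneralLinearGroup.map_apply]
  by_cases h : p = r
  · subst h
    simp
  · simp [Matrix.one_apply_ne h]

variable (i : k →+* k') (s : k' ≃+* k') (l : ℕ)

/-- `δ₀` commutes with `i(t)`, `t = a + b γ₀`, if `N δ₀ = i(γ₀)` is regular. -/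
theorem comm_map_lin179 (hcyc : IsCyclicData k k' l i s) (γ₀ t : GL (Fin 2) k) (a b : k)
    (ht : (t : Matrix (Fin 2) (Fin 2) k)
      = a • (1 : Matrix (Fin 2) (Fin 2) k) + b • (γ₀ : Matrix (Fin 2) (Fin 2) k))
    (hreg : IsReg γ₀) (δ₀ : GL (Fin 2) k')
    (hN : twNorm s l δ₀ = Matrix.GeneralLinearGroup.map i γ₀) :
    δ₀ * Matrix.GeneralLinearGroup.map i t = Matrix.GeneralLinearGroup.map i t * δ₀ := by
  have hfix0 : glAut s (Matrix.GeneralLinearGroup.map i γ₀) = Matrix.GeneralLinearGroup.map i γ₀ :=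
    H166.glAut_map166 i s hcyc.fix_i γ₀
  have h1 := H848.glAut_twNorm848 s hcyc.order δ₀
  rw [hN, hfix0] at h1
  have hc0 : δ₀ * Matrix.GeneralLinearGroup.map i γ₀ = Matrix.GeneralLinearGroup.map i γ₀ * δ₀ := by
    calc δ₀ * Matrix.GeneralLinearGroup.map i γ₀
        = δ₀ * (δ₀⁻¹ * Matrix.GeneralLinearGroup.map i γ₀ * δ₀) := by rw [← h1]
      _ = Matrix.GeneralLinearGroup.map i γ₀ * δ₀ := by group
  have hct : Matrix.GeneralLinearGroup.map i t * Matrix.GeneralLinearGroup.map i γ₀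
      = Matrix.GeneralLinearGroup.map i γ₀ * Matrix.GeneralLinearGroup.map i t := by
    rw [← map_mul, ← map_mul, comm_of_lin179 γ₀ t a b ht]
  exact H166.gl_comm_of_comm166 _ δ₀ _ (H166.nonscalar_map166 i γ₀ hreg) hc0 hct

/-- `N(i(t) δ₀) = i(t ^ l γ₀)`. -/
theorem twNorm_shift179 (hcyc : IsCyclicData k k' l i s) (γ₀ t : GL (Fin 2) k) (a b : k)
    (ht : (t : Matrix (Fin 2) (Fin 2) k)
      = a • (1 : Matrix (Fin 2) (Fin 2) k) + b • (γ₀ : Matrix (Fin 2) (Fin 2) k))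
    (hreg : IsReg γ₀) (δ₀ : GL (Fin 2) k')
    (hN : twNorm s l δ₀ = Matrix.GeneralLinearGroup.map i γ₀) :
    twNorm s l (Matrix.GeneralLinearGroup.map i t * δ₀)
      = Matrix.GeneralLinearGroup.map i (t ^ l * γ₀) := by
  have hfixt : glAut s (Matrix.GeneralLinearGroup.map i t) = Matrix.GeneralLinearGroup.map i t :=
    H166.glAut_map166 i s hcyc.fix_i t
  have hcomm := comm_map_lin179 i s l hcyc γ₀ t a b ht hreg δ₀ hN
  have h1 := twN_mul_fixed179 (glAut s) (Matrix.GeneralLinearGroup.map i t) δ₀ hfixt hcomm l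
  have h2 : twNorm s l δ₀ = twN (glAut s) l δ₀ := rfl
  have h3 : twNorm s l (Matrix.GeneralLinearGroup.map i t * δ₀)
      = twN (glAut s) l (Matrix.GeneralLinearGroup.map i t * δ₀) := rfl
  rw [h3, h1, ← h2, hN, map_mul, map_pow]

/-- The twisted centralisers of `δ₀` and `i(t) δ₀` agree. -/
theorem inTwCent_shift_iff179 (hTC : TwCentC) (hcyc : IsCyclicData k k' l i s)
    (γ₀ t γ₁ : GL (Fin 2) k) (a b A B : k)
    (ht : (t : Matrix (Fin 2) (Fin 2) k)
      = a • (1 : Matrix (Fin 2) (Fin 2) k) + b • (γ₀ : Matrix (Fin 2) (Fin 2) k))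
    (hγ₁ : γ₁ = t ^ l * γ₀)
    (hγ₁' : (γ₁ : Matrix (Fin 2) (Fin 2) k)
      = A • (1 : Matrix (Fin 2) (Fin 2) k) + B • (γ₀ : Matrix (Fin 2) (Fin 2) k))
    (hB : B ≠ 0) (hreg : IsReg γ₀) (δ₀ : GL (Fin 2) k')
    (hN : twNorm s l δ₀ = Matrix.GeneralLinearGroup.map i γ₀) (x : GL (Fin 2) k') :
    InTwCent s (Matrix.GeneralLinearGroup.map i t * δ₀) x ↔ InTwCent s δ₀ x := by
  have hN₁ : twNorm s l (Matrix.GeneralLinearGroup.map i t * δ₀)
      = Matrix.GeneralLinearGroup.map i γ₁ := by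
    rw [hγ₁]
    exact twNorm_shift179 i s l hcyc γ₀ t a b ht hreg δ₀ hN
  have hreg₁ : IsReg γ₁ := isReg_lin179 γ₀ γ₁ A B hγ₁' hB hreg
  rw [hTC k k' l i s hcyc δ₀ γ₀ hreg hN x,
    hTC k k' l i s hcyc (Matrix.GeneralLinearGroup.map i t * δ₀) γ₁ hreg₁ hN₁ x]
  constructor
  · rintro ⟨c, hc, rfl⟩
    exact ⟨c, (comm_lin_iff179 γ₀ γ₁ A B hγ₁' hB c).mp hc, rfl⟩
  · rintro ⟨c, hc, rfl⟩
    exact ⟨c, (comm_lin_iff179 γ₀ γ₁ A B hγ₁' hB c).mpr hc, rfl⟩

end Core

section Estimate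

variable {k k' : Type} [Field k] [Field k'] [Valued k Γ₀] [Valued k' Γ₀]

theorem inU_one179 (n : ℕ) : InU n (1 : GL (Fin 2) k') := by
  intro a b
  simp

variable (i : k →+* k') (s : k' ≃+* k') (l : ℕ)

/-- **`φ` agrees at corresponding points** of the twisted classes of `δ₀` and `i(t) δ₀`. -/
theorem phi_shift179 (hcyc : IsCyclicData k k' l i s)
    (hvs : ∀ y : k', Valued.v (s y) = Valued.v y)
    (n : ℕ) (φ : GL (Fin 2) k' → ℂ) (hinv : IsBiInv (InU n) φ)
    (Cb : Γ₀) (hCb1 : 1 ≤ Cb)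
    (hCb : ∀ g : GL (Fin 2) k', φ g ≠ 0 → EntryLe (g : Matrix (Fin 2) (Fin 2) k') Cb)
    (γ₀ t γ₁ : GL (Fin 2) k) (a b A B : k)
    (ht : (t : Matrix (Fin 2) (Fin 2) k)
      = a • (1 : Matrix (Fin 2) (Fin 2) k) + b • (γ₀ : Matrix (Fin 2) (Fin 2) k))
    (hγ₁ : γ₁ = t ^ l * γ₀)
    (hγ₁' : (γ₁ : Matrix (Fin 2) (Fin 2) k)
      = A • (1 : Matrix (Fin 2) (Fin 2) k) + B • (γ₀ : Matrix (Fin 2) (Fin 2) k))
    (hreg : IsReg γ₀)
    (ha : Valued.v (i a - 1) ≤ WithZero.exp (-((max n 1 : ℕ) : ℤ)))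
    (hb : Valued.v (i b) * Cb ^ l ≤ WithZero.exp (-((max n 1 : ℕ) : ℤ)))
    (hA : Valued.v (i A) ≤ 1) (hB : Valued.v (i B) = 1)
    (δ₀ : GL (Fin 2) k') (hN : twNorm s l δ₀ = Matrix.GeneralLinearGroup.map i γ₀)
    (x : GL (Fin 2) k') :
    φ (x⁻¹ * δ₀ * glAut s x)
      = φ (x⁻¹ * (Matrix.GeneralLinearGroup.map i t * δ₀) * glAut s x) := by
  set y : GL (Fin 2) k' := x⁻¹ * δ₀ * glAut s x with hy
  set y' : GL (Fin 2) k' := x⁻¹ * (Matrix.GeneralLinearGroup.map i t * δ₀) * glAut s x with hy'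
  set W : GL (Fin 2) k' := x⁻¹ * Matrix.GeneralLinearGroup.map i t * x with hW
  have hy'W : y' = W * y := by
    rw [hy', hW, hy]; group
  have hNy : twNorm s l y = x⁻¹ * Matrix.GeneralLinearGroup.map i γ₀ * x := by
    rw [hy, H848.twNorm_twConj848 s hcyc.order x δ₀, hN]
  have hNy' : twNorm s l y' = x⁻¹ * Matrix.GeneralLinearGroup.map i γ₁ * x := by
    rw [hy', H848.twNorm_twConj848 s hcyc.order x _,
      twNorm_shift179 i s l hcyc γ₀ t a b ht hreg δ₀ hN, ← hγ₁]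
  have hWm : (W : Matrix (Fin 2) (Fin 2) k')
      = i a • (1 : Matrix (Fin 2) (Fin 2) k')
        + i b • ((twNorm s l y : GL (Fin 2) k') : Matrix (Fin 2) (Fin 2) k') := by
    rw [hNy]
    exact conj_lin179 x _ _ (i a) (i b) (map_lin179 i γ₀ t a b ht)
  have hNm : ((twNorm s l y' : GL (Fin 2) k') : Matrix (Fin 2) (Fin 2) k')
      = i A • (1 : Matrix (Fin 2) (Fin 2) k')
        + i B • ((twNorm s l y : GL (Fin 2) k') : Matrix (Fin 2) (Fin 2) k') := by
    rw [hNy', hNy]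
    exact conj_lin179 x _ _ (i A) (i B) (map_lin179 i γ₀ γ₁ A B hγ₁')
  have hCbl : (1 : Γ₀) ≤ Cb ^ l := one_le_pow_of_one_le' hCb1 l
  by_cases h0 : φ y = 0 ∧ φ y' = 0
  · rw [h0.1, h0.2]
  -- the entries of `N(y)` are bounded
  have hE : EntryLe ((twNorm s l y : GL (Fin 2) k') : Matrix (Fin 2) (Fin 2) k') (Cb ^ l) := by
    by_cases hφy : φ y = 0
    · have hφy' : φ y' ≠ 0 := fun h => h0 ⟨hφy, h⟩
      have hE' := entryLe_twNorm hvs (hCb y' hφy') l
      have hBne : i B ≠ 0 := by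
        intro h
        rw [h, map_zero] at hB
        exact zero_ne_one hB
      intro p r
      have e : ((twNorm s l y : GL (Fin 2) k') : Matrix (Fin 2) (Fin 2) k') p r
          = (i B)⁻¹ * (((twNorm s l y' : GL (Fin 2) k') : Matrix (Fin 2) (Fin 2) k') p r
            - i A * (1 : Matrix (Fin 2) (Fin 2) k') p r) := by
        rw [hNm]
        simp only [Matrix.add_apply, Matrix.smul_apply, smul_eq_mul]
        field_simp
        ring
      rw [e, map_mul, map_inv₀, hB, inv_one, one_mul]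
      refine (Valued.v.map_sub _ _).trans (max_le (hE' p r) ?_)
      rw [map_mul]
      calc Valued.v (i A) * Valued.v ((1 : Matrix (Fin 2) (Fin 2) k') p r)
          ≤ 1 * 1 := mul_le_mul' hA (EntryLe.one p r)
        _ = 1 := mul_one _
        _ ≤ Cb ^ l := hCbl
    · exact entryLe_twNorm hvs (hCb y hφy) l
  -- `W ≡ 1`
  have hnear : Near944 (max n 1) (W : Matrix (Fin 2) (Fin 2) k') := by
    intro p r
    have e : (W : Matrix (Fin 2) (Fin 2) k') p r - (1 : Matrix (Fin 2) (Fin 2) k') p r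
        = (i a - 1) * (1 : Matrix (Fin 2) (Fin 2) k') p r
          + i b * ((twNorm s l y : GL (Fin 2) k') : Matrix (Fin 2) (Fin 2) k') p r := by
      rw [hWm]
      simp only [Matrix.add_apply, Matrix.smul_apply, smul_eq_mul]
      ring
    rw [e]
    refine (Valued.v.map_add _ _).trans (max_le ?_ ?_)
    · rw [map_mul]
      calc Valued.v (i a - 1) * Valued.v ((1 : Matrix (Fin 2) (Fin 2) k') p r)
          ≤ WithZero.exp (-((max n 1 : ℕ) : ℤ)) * 1 := mul_le_mul' ha (EntryLe.one p r)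
        _ = WithZero.exp (-((max n 1 : ℕ) : ℤ)) := mul_one _
    · rw [map_mul]
      exact (mul_le_mul' le_rfl (hE p r)).trans hb
  have hWU : InU n W :=
    inU_mono179 (le_max_left n 1) (inU_of_near179 (max n 1) (le_max_right n 1) W hnear)
  have h1 := hinv W 1 y hWU (inU_one179 n)
  rw [mul_one] at h1
  rw [hy'W, h1]

/-- **The indices agree at corresponding points.** -/
theorem cIndex_shift179 (hTC : TwCentC) (hcyc : IsCyclicData k k' l i s) (n : ℕ)
    (γ₀ t γ₁ : GL (Fin 2) k) (a b A B : k)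
    (ht : (t : Matrix (Fin 2) (Fin 2) k)
      = a • (1 : Matrix (Fin 2) (Fin 2) k) + b • (γ₀ : Matrix (Fin 2) (Fin 2) k))
    (hγ₁ : γ₁ = t ^ l * γ₀)
    (hγ₁' : (γ₁ : Matrix (Fin 2) (Fin 2) k)
      = A • (1 : Matrix (Fin 2) (Fin 2) k) + B • (γ₀ : Matrix (Fin 2) (Fin 2) k))
    (hB : B ≠ 0) (hreg : IsReg γ₀) (δ₀ : GL (Fin 2) k')
    (hN : twNorm s l δ₀ = Matrix.GeneralLinearGroup.map i γ₀) (x : GL (Fin 2) k') :
    cIndex (InU n) (InTwCentC s) (x⁻¹ * δ₀ * glAut s x)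
      = cIndex (InU n) (InTwCentC s)
          (x⁻¹ * (Matrix.GeneralLinearGroup.map i t * δ₀) * glAut s x) := by
  have hpred : ∀ w : GL (Fin 2) k', InTwCentC s (x⁻¹ * δ₀ * glAut s x) w
      ↔ InTwCentC s (x⁻¹ * (Matrix.GeneralLinearGroup.map i t * δ₀) * glAut s x) w := by
    intro w
    rw [inTwCentC_conj944, inTwCentC_conj944]
    unfold InTwCentC
    rw [inTwCent_shift_iff179 i s l hTC hcyc γ₀ t γ₁ a b A B ht hγ₁ hγ₁' hB hreg δ₀ hN]
  unfold cIndex
  congr 1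
  ext c
  constructor
  · rintro ⟨w, hw, rfl⟩
    exact ⟨w, (hpred w).mp hw, rfl⟩
  · rintro ⟨w, hw, rfl⟩
    exact ⟨w, (hpred w).mpr hw, rfl⟩

/-- **CORE: the transfer of a twisted orbit sum from `i(t) δ₀` to `δ₀`.** -/
theorem core179 (hTC : TwCentC) (hcyc : IsCyclicData k k' l i s)
    (hvs : ∀ y : k', Valued.v (s y) = Valued.v y)
    (n : ℕ) (φ : GL (Fin 2) k' → ℂ) (hinv : IsBiInv (InU n) φ)
    (Cb : Γ₀) (hCb1 : 1 ≤ Cb)
    (hCb : ∀ g : GL (Fin 2) k', φ g ≠ 0 → EntryLe (g : Matrix (Fin 2) (Fin 2) k') Cb)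
    (γ₀ t γ₁ : GL (Fin 2) k) (a b A B : k)
    (ht : (t : Matrix (Fin 2) (Fin 2) k)
      = a • (1 : Matrix (Fin 2) (Fin 2) k) + b • (γ₀ : Matrix (Fin 2) (Fin 2) k))
    (hγ₁ : γ₁ = t ^ l * γ₀)
    (hγ₁' : (γ₁ : Matrix (Fin 2) (Fin 2) k)
      = A • (1 : Matrix (Fin 2) (Fin 2) k) + B • (γ₀ : Matrix (Fin 2) (Fin 2) k))
    (hreg : IsReg γ₀)
    (ha : Valued.v (i a - 1) ≤ WithZero.exp (-((max n 1 : ℕ) : ℤ)))
    (hb : Valued.v (i b) * Cb ^ l ≤ WithZero.exp (-((max n 1 : ℕ) : ℤ)))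
    (hA : Valued.v (i A) ≤ 1) (hB : Valued.v (i B) = 1)
    (δ₀ : GL (Fin 2) k') (hN : twNorm s l δ₀ = Matrix.GeneralLinearGroup.map i γ₀) (c : ℂ)
    (h : IsTwOrbSum s n φ (Matrix.GeneralLinearGroup.map i t * δ₀) c) :
    IsTwOrbSum s n φ δ₀ c := by
  have hBne : B ≠ 0 := by
    intro h0
    rw [h0, map_zero, map_zero] at hB
    exact zero_ne_one hB
  exact orbSumGen_transfer179 (glAut s) (InU n) (InTwCentC s) φ δ₀
    (Matrix.GeneralLinearGroup.map i t * δ₀)
    (fun x => inTwCent_shift_iff179 i s l hTC hcyc γ₀ t γ₁ a b A B ht hγ₁ hγ₁' hBne hreg δ₀ hN x)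
    (phi_shift179 i s l hcyc hvs n φ hinv Cb hCb1 hCb γ₀ t γ₁ a b A B ht hγ₁ hγ₁' hreg ha hb hA
      hB δ₀ hN)
    (cIndex_shift179 i s l hTC hcyc n γ₀ t γ₁ a b A B ht hγ₁ hγ₁' hBne hreg δ₀ hN) h

end Estimate

end Fermat.Agent.LT.T6.H179

end

end
-- ===== PACK-END LT/T6/H179/TwLoc.lean

-- ===== PACK-BEGIN LT/T6/H706/OrdCent.lean
section


/-!
# Row LT, tower T6, leaf T6.18f.5 `OrdC179` (helper706): the centraliser of a regular element

OFF-MAIN.

* `cent_eq706`: a matrix commuting with a regular `y ∈ GL₂(k)` is `α + β y`;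
* `cent_bound706`: the maximal compact subgroup `T_y^c` of the centraliser of a regular `y` is
  bounded (`disc t = β² disc y`, `2 α = tr t - β tr y`);
* `cIndex_pos706`: the index `[T_y^c : T_y^c ∩ U(m)]` of `T6/Spec.lean` is FINITE and `≥ 1`.
-/

set_option autoImplicit false

open scoped Matrix

noncomputable section

namespace Fermat.Agent.LT.T6.H706

open Fermat.Agent.LT.T6 Fermat.Agent.LT.T6.H783 Fermat.Agent.LT.T6.H125
  Fermat.Agent.LT.T6.H179

variable {k : Type} [Field k] [Valued k Γ₀]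

/-! ## The centraliser of a regular matrix -/

omit [Valued k Γ₀] in
/-- A `2 × 2` matrix commuting with a matrix of non-zero discriminant is a polynomial in it. -/
theorem cent_eq_mat706 {Y T : Matrix (Fin 2) (Fin 2) k}
    (hreg : Y.trace ^ 2 - 4 * Y.det ≠ 0) (hc : T * Y = Y * T) :
    ∃ α β : k, T = α • (1 : Matrix (Fin 2) (Fin 2) k) + β • Y := by
  have e00 := congrFun (congrFun hc 0) 0
  have e01 := congrFun (congrFun hc 0) 1
  have e10 := congrFun (congrFun hc 1) 0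
  have e11 := congrFun (congrFun hc 1) 1
  simp only [Matrix.mul_apply, Fin.sum_univ_two] at e00 e01 e10 e11
  rw [Matrix.trace_fin_two, Matrix.det_fin_two] at hreg
  by_cases hq : Y 0 1 = 0
  · by_cases hr : Y 1 0 = 0
    · -- diagonal `Y`
      have hps : Y 0 0 - Y 1 1 ≠ 0 := by
        intro h
        apply hreg
        rw [hq, hr]
        have : Y 0 0 = Y 1 1 := sub_eq_zero.1 h
        rw [this]
        ring
      have hb : T 0 1 = 0 := by
        rw [hq] at e01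
        have : T 0 1 * (Y 0 0 - Y 1 1) = 0 := by linear_combination -e01
        rcases mul_eq_zero.1 this with h | h
        · exact h
        · exact absurd h hps
      have hcc : T 1 0 = 0 := by
        rw [hr] at e10
        have : T 1 0 * (Y 0 0 - Y 1 1) = 0 := by linear_combination e10
        rcases mul_eq_zero.1 this with h | h
        · exact h
        · exact absurd h hps
      refine ⟨T 0 0 - (T 0 0 - T 1 1) / (Y 0 0 - Y 1 1) * Y 0 0,
        (T 0 0 - T 1 1) / (Y 0 0 - Y 1 1), ?_⟩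
      ext i j
      fin_cases i <;> fin_cases j
      · simp
      · simp [hb, hq]
      · simp [hcc, hr]
      · simp only [Fin.mk_one, Fin.isValue, Matrix.add_apply, Matrix.smul_apply,
          Matrix.one_apply_eq, smul_eq_mul, mul_one]
        field_simp
        ring
    · -- `Y 1 0 ≠ 0`, `Y 0 1 = 0`
      have hb : T 0 1 = 0 := by
        rw [hq] at e00
        have : T 0 1 * Y 1 0 = 0 := by linear_combination e00
        rcases mul_eq_zero.1 this with h | h
        · exact h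
        · exact absurd h hr
      refine ⟨T 0 0 - T 1 0 / Y 1 0 * Y 0 0, T 1 0 / Y 1 0, ?_⟩
      ext i j
      fin_cases i <;> fin_cases j
      · simp
      · simp [hb, hq]
      · simp only [Fin.mk_one, Fin.isValue, Fin.zero_eta, Matrix.add_apply, Matrix.smul_apply,
          ne_eq, one_ne_zero, not_false_eq_true, Matrix.one_apply_ne, smul_eq_mul, mul_zero,
          zero_add]
        field_simp
      · simp only [Fin.mk_one, Fin.isValue, Matrix.add_apply, Matrix.smul_apply,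
          Matrix.one_apply_eq, smul_eq_mul, mul_one]
        field_simp
        linear_combination e10
  · -- `Y 0 1 ≠ 0`
    refine ⟨T 0 0 - T 0 1 / Y 0 1 * Y 0 0, T 0 1 / Y 0 1, ?_⟩
    ext i j
    fin_cases i <;> fin_cases j
    · simp
    · simp only [Fin.zero_eta, Fin.isValue, Fin.mk_one, Matrix.add_apply, Matrix.smul_apply,
        ne_eq, zero_ne_one, not_false_eq_true, Matrix.one_apply_ne, smul_eq_mul, mul_zero,
        zero_add]
      field_simp
    · simp only [Fin.mk_one, Fin.isValue, Fin.zero_eta, Matrix.add_apply, Matrix.smul_apply,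
        ne_eq, one_ne_zero, not_false_eq_true, Matrix.one_apply_ne, smul_eq_mul, mul_zero,
        zero_add]
      field_simp
      linear_combination -e00
    · simp only [Fin.mk_one, Fin.isValue, Matrix.add_apply, Matrix.smul_apply,
        Matrix.one_apply_eq, smul_eq_mul, mul_one]
      field_simp
      linear_combination -e01

omit [Valued k Γ₀] in
theorem isReg_iff706 (y : GL (Fin 2) k) :
    IsReg y ↔ (y : Matrix (Fin 2) (Fin 2) k).trace ^ 2
      - 4 * (y : Matrix (Fin 2) (Fin 2) k).det ≠ 0 := by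
  unfold IsReg disc
  exact isUnit_iff_ne_zero

omit [Valued k Γ₀] in
/-- The centraliser of a regular element. -/
theorem cent_eq706 {y t : GL (Fin 2) k} (hreg : IsReg y) (hc : t⁻¹ * y * t = y) :
    ∃ α β : k, (t : Matrix (Fin 2) (Fin 2) k)
      = α • (1 : Matrix (Fin 2) (Fin 2) k) + β • (y : Matrix (Fin 2) (Fin 2) k) := by
  have h1 : y * t = t * y := by
    calc y * t = t * (t⁻¹ * y * t) := by group
      _ = t * y := by rw [hc]
  have h2 : (t : Matrix (Fin 2) (Fin 2) k) * (y : Matrix (Fin 2) (Fin 2) k)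
      = (y : Matrix (Fin 2) (Fin 2) k) * (t : Matrix (Fin 2) (Fin 2) k) := by
    rw [← Matrix.GeneralLinearGroup.coe_mul, ← Matrix.GeneralLinearGroup.coe_mul, h1]
  exact cent_eq_mat706 ((isReg_iff706 y).1 hreg) h2

/-! ## The maximal compact subgroup of the centraliser is bounded -/

theorem sq_le_exp706 {x : Γ₀} {E : ℤ} (hE : 0 ≤ E) (h : x ^ 2 ≤ WithZero.exp E) :
    x ≤ WithZero.exp E := by
  rcases le_or_gt x 1 with h1 | h1
  · exact h1.trans (by rw [← WithZero.exp_zero]; exact WithZero.exp_le_exp.2 hE)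
  · refine le_trans ?_ h
    rw [sq]
    calc x = x * 1 := (mul_one x).symm
      _ ≤ x * x := mul_le_mul' le_rfl h1.le

theorem le_inv_of_mul_le_one706 {x a : Γ₀} (ha : a ≠ 0) (h : x * a ≤ 1) : x ≤ a⁻¹ := by
  have := (le_mul_inv_iff₀ (zero_lt_iff.2 ha)).2 h
  rwa [one_mul] at this

theorem v_two_le706 : Valued.v (2 : k) ≤ 1 := by
  have : (2 : k) = 1 + 1 := by norm_num
  rw [this]
  exact v_add_le125 (by simp) (by simp)

theorem exists_exp_ge_nonneg706 (x : Γ₀) : ∃ B : ℤ, 0 ≤ B ∧ x ≤ WithZero.exp B := by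
  obtain ⟨B, hB⟩ := exists_exp_ge706 x
  exact ⟨max 0 B, le_max_left _ _, hB.trans (WithZero.exp_le_exp.2 (le_max_right _ _))⟩

/-- The elements `t` of the centraliser of a regular `y` with integral characteristic
polynomial are bounded. -/
theorem cent_bound706 {q : ℕ} (hk : IsLocalField k q) {y : GL (Fin 2) k} (hreg : IsReg y) :
    ∃ B : ℤ, ∀ t : GL (Fin 2) k, t⁻¹ * y * t = y →
      Valued.v (t : Matrix (Fin 2) (Fin 2) k).trace ≤ 1 →
      Valued.v (t : Matrix (Fin 2) (Fin 2) k).det = 1 →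
      ∀ i j, Valued.v ((t : Matrix (Fin 2) (Fin 2) k) i j) ≤ WithZero.exp B := by
  have hchar : CharZero k := hk.char0
  have hΔ := (isReg_iff706 y).1 hreg
  set Y : Matrix (Fin 2) (Fin 2) k := (y : Matrix (Fin 2) (Fin 2) k) with hY
  set Δ : k := Y.trace ^ 2 - 4 * Y.det with hΔdef
  have hvΔ : Valued.v Δ ≠ 0 := (Valuation.ne_zero_iff _).2 hΔ
  have h2 : (2 : k) ≠ 0 := two_ne_zero
  have hv2 : Valued.v (2 : k) ≠ 0 := (Valuation.ne_zero_iff _).2 h2
  obtain ⟨E, hE0, hE⟩ := exists_exp_ge_nonneg706 (Valued.v Δ)⁻¹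
  obtain ⟨W, hW0, hW⟩ := exists_exp_ge_nonneg706 (Valued.v (2 : k))⁻¹
  obtain ⟨Ty, hTy0, hTy⟩ := exists_exp_ge_nonneg706 (Valued.v Y.trace)
  obtain ⟨By, hBy0, hBy⟩ := exists_entry_bound706 Y
  refine ⟨W + (E + Ty) + By, fun t hc htr hdet i j => ?_⟩
  obtain ⟨α, β, hT⟩ := cent_eq706 hreg hc
  rw [← hY] at hT
  set T : Matrix (Fin 2) (Fin 2) k := (t : Matrix (Fin 2) (Fin 2) k) with hTdef
  -- the discriminant
  have hdisc : T.trace ^ 2 - 4 * T.det = β ^ 2 * Δ := by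
    rw [hΔdef, hT, Matrix.trace_fin_two, Matrix.det_fin_two, Matrix.trace_fin_two,
      Matrix.det_fin_two]
    simp only [Matrix.add_apply, Matrix.smul_apply, Matrix.one_apply_eq, smul_eq_mul, mul_one,
      ne_eq, zero_ne_one, one_ne_zero, not_false_eq_true, Matrix.one_apply_ne, mul_zero,
      zero_add]
    ring
  have hv4 : Valued.v (4 : k) ≤ 1 := by
    have : (4 : k) = 2 * 2 := by norm_num
    rw [this]
    have := v_mul_le125 (v_two_le706 (k := k)) (v_two_le706 (k := k))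
    rwa [mul_one] at this
  have hvdisc : Valued.v (T.trace ^ 2 - 4 * T.det) ≤ 1 := by
    refine v_sub_le125 ?_ ?_
    · rw [map_pow]
      exact pow_le_one₀ zero_le htr
    · rw [map_mul, hdet, mul_one]
      exact hv4
  have hβ : Valued.v β ≤ WithZero.exp E := by
    apply sq_le_exp706 hE0
    rw [hdisc, map_mul, map_pow] at hvdisc
    exact (le_inv_of_mul_le_one706 hvΔ hvdisc).trans hE
  -- `α`
  have htrT : T.trace = 2 * α + β * Y.trace := by
    rw [hT, Matrix.trace_fin_two, Matrix.trace_fin_two]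
    simp only [Matrix.add_apply, Matrix.smul_apply, Matrix.one_apply_eq, smul_eq_mul, mul_one]
    ring
  have h2α : Valued.v (2 * α) ≤ WithZero.exp (E + Ty) := by
    have e : 2 * α = T.trace - β * Y.trace := by rw [htrT]; ring
    rw [e]
    refine v_sub_le125 (htr.trans ?_) ?_
    · rw [← WithZero.exp_zero]
      exact WithZero.exp_le_exp.2 (by omega)
    · rw [WithZero.exp_add]
      exact v_mul_le125 hβ hTy
  have hα : Valued.v α ≤ WithZero.exp (W + (E + Ty)) := by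
    rw [map_mul, mul_comm] at h2α
    have h3 : Valued.v α ≤ WithZero.exp (E + Ty) * (Valued.v (2 : k))⁻¹ :=
      (le_mul_inv_iff₀ (zero_lt_iff.2 hv2)).2 h2α
    refine h3.trans ?_
    rw [WithZero.exp_add W, mul_comm]
    exact mul_le_mul' hW le_rfl
  -- the entries
  have hTij : T i j = α * (1 : Matrix (Fin 2) (Fin 2) k) i j + β * Y i j := by
    rw [hT]
    simp [Matrix.add_apply, Matrix.smul_apply]
  rw [hTij]
  refine v_add_le125 ?_ ?_
  · have := v_mul_le125 hα (v_one_entry125 (k := k) i j)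
    rw [mul_one] at this
    exact this.trans (WithZero.exp_le_exp.2 (by omega))
  · have := v_mul_le125 hβ (hBy i j)
    rw [← WithZero.exp_add] at this
    exact this.trans (WithZero.exp_le_exp.2 (by omega))

/-! ## The index `[T_y^c : T_y^c ∩ U(m)]` is finite and positive -/

theorem inTwCentC_refl_iff706 (y t : GL (Fin 2) k) :
    InTwCentC (RingEquiv.refl k) y t ↔ t⁻¹ * y * t = y ∧
      Valued.v (t : Matrix (Fin 2) (Fin 2) k).trace ≤ 1 ∧
      Valued.v (t : Matrix (Fin 2) (Fin 2) k).det = 1 := by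
  unfold InTwCentC InTwCent
  rw [glAut_refl706]

/-- The index `[T_y^c : T_y^c ∩ U(m)]` at a regular `y` is finite and `≥ 1`. -/
theorem cIndex_pos706 {q : ℕ} (hk : IsLocalField k q) (m : ℕ) {y : GL (Fin 2) k}
    (hreg : IsReg y) : 0 < cIndex (InU m) (InTwCentC (RingEquiv.refl k)) y := by
  obtain ⟨B, hB⟩ := cent_bound706 hk hreg
  have hfin := finite_cosets706 hk B 0 m (fun t => InTwCentC (RingEquiv.refl k) y t)
    (fun t ht => by
      obtain ⟨h1, h2, h3⟩ := (inTwCentC_refl_iff706 y t).1 ht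
      refine ⟨hB t h1 h2 h3, ?_⟩
      rw [h3, neg_zero, WithZero.exp_zero])
  unfold cIndex
  rw [Set.ncard_pos hfin]
  refine ⟨{g : GL (Fin 2) k | ∃ u : GL (Fin 2) k, InU m u ∧ g = 1 * u}, 1, ?_, rfl⟩
  rw [inTwCentC_refl_iff706]
  refine ⟨by group, ?_, by simp⟩
  rw [Units.val_one, Matrix.trace_fin_two]
  simp only [Matrix.one_apply_eq]
  exact v_add_le125 (by simp) (by simp)

end Fermat.Agent.LT.T6.H706

end

end
-- ===== PACK-END LT/T6/H706/OrdCent.lean

-- ===== PACK-BEGIN LT/T6/H706/OrdOmega.lean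
section


/-!
# Row LT, tower T6, leaf T6.18f.5 `OrdC179` (helper706): the double coset `Ω = U(m) γ₀ U(m)`

OFF-MAIN.

* `Om706 m γ₀` = the double coset `U(m) γ₀ U(m)`, `ind706 m γ₀` = its indicator function;
* `ind_biInv706`, `ind_finSupp706`: the indicator is bi-`U(m)`-invariant of finite support;
* `om_stable706`: `Ω + ϖ^L M₂(𝒪) = Ω` for `L` large (`m ≥ 1`).
-/

set_option autoImplicit false

open scoped Matrix

noncomputable section

namespace Fermat.Agent.LT.T6.H706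

open Fermat.Agent.LT.T6 Fermat.Agent.LT.T6.H783 Fermat.Agent.LT.T6.H125
  Fermat.Agent.LT.T6.H179

variable {k : Type} [Field k] [Valued k Γ₀]

/-- The double coset `Ω = U(m) γ₀ U(m)`. -/
def Om706 (m : ℕ) (γ₀ : GL (Fin 2) k) (y : GL (Fin 2) k) : Prop :=
  ∃ u u' : GL (Fin 2) k, InU m u ∧ InU m u' ∧ y = u * γ₀ * u'

open Classical in
/-- The indicator function of `Ω = U(m) γ₀ U(m)`. -/
def ind706 (m : ℕ) (γ₀ : GL (Fin 2) k) : GL (Fin 2) k → ℂ :=
  fun y => if Om706 m γ₀ y then 1 else 0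

theorem om_self706 (m : ℕ) (γ₀ : GL (Fin 2) k) : Om706 m γ₀ γ₀ :=
  ⟨1, 1, inU_one706 m, inU_one706 m, by group⟩

theorem om_mul706 {m : ℕ} {γ₀ y u u' : GL (Fin 2) k} (hy : Om706 m γ₀ y) (hu : InU m u)
    (hu' : InU m u') : Om706 m γ₀ (u * y * u') := by
  obtain ⟨w, w', hw, hw', rfl⟩ := hy
  exact ⟨u * w, w' * u', inU_mul706 hu hw, inU_mul706 hw' hu', by group⟩

theorem om_mul_iff706 {m : ℕ} {γ₀ y u u' : GL (Fin 2) k} (hu : InU m u) (hu' : InU m u') :
    Om706 m γ₀ (u * y * u') ↔ Om706 m γ₀ y := by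
  refine ⟨fun h => ?_, fun h => om_mul706 h hu hu'⟩
  have := om_mul706 h (inU_inv706 hu) (inU_inv706 hu')
  have e : u⁻¹ * (u * y * u') * u'⁻¹ = y := by group
  rwa [e] at this

theorem om_inv706 {m : ℕ} {γ₀ y : GL (Fin 2) k} (hy : Om706 m γ₀ y) : Om706 m γ₀⁻¹ y⁻¹ := by
  obtain ⟨w, w', hw, hw', rfl⟩ := hy
  exact ⟨w'⁻¹, w⁻¹, inU_inv706 hw', inU_inv706 hw, by group⟩

theorem ind_eq_of_iff706 {m : ℕ} {γ₀ y z : GL (Fin 2) k}
    (h : Om706 m γ₀ y ↔ Om706 m γ₀ z) : ind706 m γ₀ y = ind706 m γ₀ z := by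
  unfold ind706
  by_cases hy : Om706 m γ₀ y
  · simp [hy, h.1 hy]
  · have hz : ¬ Om706 m γ₀ z := fun hz => hy (h.2 hz)
    simp [hy, hz]

theorem ind_biInv706 (m : ℕ) (γ₀ : GL (Fin 2) k) : IsBiInv (InU m) (ind706 m γ₀) := by
  intro u u' g hu hu'
  exact ind_eq_of_iff706 (om_mul_iff706 hu hu')

theorem ind_ne_zero_iff706 {m : ℕ} {γ₀ y : GL (Fin 2) k} :
    ind706 m γ₀ y ≠ 0 ↔ Om706 m γ₀ y := by
  unfold ind706
  by_cases h : Om706 m γ₀ y
  · simp [h]
  · simp [h]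

/-- The entries of the elements of `Ω` are bounded by those of `γ₀`. -/
theorem om_entry706 {m : ℕ} {γ₀ y : GL (Fin 2) k} {B : ℤ}
    (hB : ∀ i j, Valued.v ((γ₀ : Matrix (Fin 2) (Fin 2) k) i j) ≤ WithZero.exp B)
    (hy : Om706 m γ₀ y) (i j : Fin 2) :
    Valued.v ((y : Matrix (Fin 2) (Fin 2) k) i j) ≤ WithZero.exp B := by
  obtain ⟨w, w', hw, hw', rfl⟩ := hy
  rw [Matrix.GeneralLinearGroup.coe_mul, Matrix.GeneralLinearGroup.coe_mul]
  have h1 := v_mul_entry125 (v_mul_entry125 (inU_entry125 hw) hB) (inU_entry125 hw') i j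
  rwa [one_mul, mul_one] at h1

/-- The determinant on `Ω`. -/
theorem om_det706 {m : ℕ} {γ₀ y : GL (Fin 2) k} (hy : Om706 m γ₀ y) :
    Valued.v (y : Matrix (Fin 2) (Fin 2) k).det
      = Valued.v (γ₀ : Matrix (Fin 2) (Fin 2) k).det := by
  obtain ⟨w, w', hw, hw', rfl⟩ := hy
  rw [Matrix.GeneralLinearGroup.coe_mul, Matrix.GeneralLinearGroup.coe_mul, Matrix.det_mul,
    Matrix.det_mul, map_mul, map_mul, inU_det706 hw, inU_det706 hw', one_mul, mul_one]

/-- The indicator of `Ω` has finite support modulo `U(m)`. -/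
theorem ind_finSupp706 {q : ℕ} (hk : IsLocalField k q) (m : ℕ) (γ₀ : GL (Fin 2) k) :
    HasFinSupp (InU m) (ind706 m γ₀) := by
  obtain ⟨B, -, hB⟩ := exists_entry_bound706 (γ₀ : Matrix (Fin 2) (Fin 2) k)
  have hd0 : Valued.v (γ₀ : Matrix (Fin 2) (Fin 2) k).det ≠ 0 :=
    (Valuation.ne_zero_iff _).2 (det_ne_zero706 γ₀)
  obtain ⟨F, hF⟩ := exists_fin_cosets706 hk B
    (-(WithZero.log (Valued.v (γ₀ : Matrix (Fin 2) (Fin 2) k).det))) m
  refine ⟨F, fun g hg => ?_⟩
  have hΩ := ind_ne_zero_iff706.1 hg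
  refine hF g (om_entry706 hB hΩ) ?_
  rw [om_det706 hΩ, neg_neg, WithZero.exp_log hd0]

/-- **Stability of `Ω`**: an element of `GL₂(k)` which is close to an element of `Ω` lies in
`Ω` (`m ≥ 1`). -/
theorem om_stable706 {m : ℕ} (hm : 1 ≤ m) {γ₀ y z : GL (Fin 2) k} {B' L : ℤ}
    (hB' : ∀ i j, Valued.v (((γ₀⁻¹ : GL (Fin 2) k) : Matrix (Fin 2) (Fin 2) k) i j)
      ≤ WithZero.exp B')
    (hL : B' + (m : ℤ) ≤ L) (hy : Om706 m γ₀ y)
    (hz : ∀ i j, Valued.v ((z : Matrix (Fin 2) (Fin 2) k) i j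
      - (y : Matrix (Fin 2) (Fin 2) k) i j) ≤ WithZero.exp (-L)) :
    Om706 m γ₀ z := by
  have hyinv := om_entry706 hB' (om_inv706 hy)
  have hw : InU m (y⁻¹ * z) := by
    apply inU_of_sub_one706 hm
    intro i j
    have h1 : ((y⁻¹ * z : GL (Fin 2) k) : Matrix (Fin 2) (Fin 2) k) - 1
        = ((y⁻¹ : GL (Fin 2) k) : Matrix (Fin 2) (Fin 2) k)
          * ((z : Matrix (Fin 2) (Fin 2) k) - (y : Matrix (Fin 2) (Fin 2) k)) := by
      rw [mul_sub, ← Units.val_mul, ← Units.val_mul, inv_mul_cancel, Units.val_one]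
    have h2 : ∀ i j, Valued.v (((z : Matrix (Fin 2) (Fin 2) k)
        - (y : Matrix (Fin 2) (Fin 2) k)) i j) ≤ WithZero.exp (-L) := by
      intro i j
      rw [Matrix.sub_apply]
      exact hz i j
    have h3 := v_mul_entry125 hyinv h2 i j
    rw [← h1, Matrix.sub_apply] at h3
    refine h3.trans ?_
    rw [← WithZero.exp_add]
    exact WithZero.exp_le_exp.2 (by omega)
  have := om_mul706 hy (inU_one706 m) hw
  have e : 1 * y * (y⁻¹ * z) = z := by group
  rwa [e] at this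

end Fermat.Agent.LT.T6.H706

end

end
-- ===== PACK-END LT/T6/H706/OrdOmega.lean

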