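import Mathlib
import Fermat.Agent.Pack.LT2.E0L1
import Fermat.Agent.Pack.LT3.E8L2
import Fermat.Agent.Pack.LT3.E8L0
import Fermat.Agent.Pack.LT3.E5L1
import Fermat.Agent.Pack.LT3.E0L1
import Fermat.Agent.Pack.LT3.E9L1
import Fermat.Agent.Pack.LT3.E2L0
import Fermat.Agent.Pack.LT3.E5L0
import Fermat.Agent.Pack.LT3.E0L2
import Fermat.Agent.Pack.LT3.E0L0
import Fermat.Agent.Pack.LT3.E9L2
import Fermat.Agent.Pack.LT3.E9L3
import Fermat.Agent.Pack.LT3.E1L2
import Fermat.Agent.Pack.LT2.E3L1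
import Fermat.Agent.Pack.LT3.E9L0
import Fermat.Agent.Pack.LT3.E11L2

set_option linter.all false

-- ===== PACK-BEGIN LT/T6/H340/BTDist.lean
section



/-!
# Row LT, tower T6, helper340: the Cartan distance on `GL₂(k)` (OFF-MAIN)

Against `LT/T6/Spec.lean` (helper22, byte-identical copy) and `LT/H129/CartanInv.lean`
(helper129, byte-identical copy).  `k` is a field with `Valued k ℤᵐ⁰`; no completeness and no
finiteness is used in this file.

`cdist340 g = a - b` for the Cartan invariant `(a, b)` of `g`.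

* `cdist340_eq_iff` : `cdist340 g = n ↔ entryMax g ^ 2 = v (det g) * exp n`;
* `cdist340_mul_left`, `cdist340_mul_right` (invariance under `U(0) = GL₂(𝒪)`),
  `cdist340_scal_mul` (scalars), `cdist340_inv`, `cdist340_glAut`;
* `cdist340_eq_zero_iff` : `cdist340 g = 0 ↔ g ∈ k^× · GL₂(𝒪)`;
* `cdist340_mul_of_zero_left/right` : elements of distance zero do not change `cdist340`;
* `exists_decomp340` : Cartan decomposition together with the value of `cdist340`.
-/

set_option autoImplicit false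
set_option linter.unusedSectionVars false

open Matrix

noncomputable section

namespace Fermat.Agent.LT.T6.H340

open Fermat.Agent.LT.T6 Fermat.Agent.LT.H129

variable {k : Type} [Field k] [Valued k Γ₀]

/-- The distance `a - b` of the Cartan invariant `(a, b)` of `g`. -/
def cdist340 (g : GL (Fin 2) k) : ℕ := ((cartan g).1 - (cartan g).2).toNat

theorem vdet_ne_zero340 (g : GL (Fin 2) k) :
    Valued.v (g : Matrix (Fin 2) (Fin 2) k).det ≠ 0 := by
  rw [ne_eq, map_eq_zero]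
  exact det_ne_zero_gl129 g

theorem vdet_le_sq340 (g : GL (Fin 2) k) :
    Valued.v (g : Matrix (Fin 2) (Fin 2) k).det ≤ entryMax g ^ 2 := by
  rw [Matrix.det_fin_two, sq]
  refine le_trans (Valuation.map_sub _ _ _) (max_le ?_ ?_)
  · rw [map_mul]
    exact mul_le_mul' (entry_le_entryMax129 g 0 0) (entry_le_entryMax129 g 1 1)
  · rw [map_mul]
    exact mul_le_mul' (entry_le_entryMax129 g 0 1) (entry_le_entryMax129 g 1 0)

theorem entryMax_ne_zero340 (g : GL (Fin 2) k) : entryMax g ≠ 0 := by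
  intro h
  have := vdet_le_sq340 g
  rw [h] at this
  simp only [ne_eq, OfNat.ofNat_ne_zero, not_false_eq_true, zero_pow, nonpos_iff_eq_zero] at this
  exact vdet_ne_zero340 g this

/-- Multiplicative characterisation of the Cartan distance. -/
theorem cdist340_eq_iff (g : GL (Fin 2) k) (n : ℕ) :
    cdist340 g = n ↔
      entryMax g ^ 2 = Valued.v (g : Matrix (Fin 2) (Fin 2) k).det * WithZero.exp (n : ℤ) := by
  have he := entryMax_ne_zero340 g
  have hd := vdet_ne_zero340 g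
  have hle := vdet_le_sq340 g
  have hlog : WithZero.log (Valued.v (g : Matrix (Fin 2) (Fin 2) k).det)
      ≤ 2 * WithZero.log (entryMax g) := by
    have := (WithZero.log_le_log hd (pow_ne_zero 2 he)).mpr hle
    rw [WithZero.log_pow] at this
    simpa using this
  have hval : (cartan g).1 - (cartan g).2
      = 2 * WithZero.log (entryMax g)
        - WithZero.log (Valued.v (g : Matrix (Fin 2) (Fin 2) k).det) := by
    unfold cartan
    ring
  unfold cdist340
  rw [hval]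
  constructor
  · intro h
    have h2 : 2 * WithZero.log (entryMax g)
        - WithZero.log (Valued.v (g : Matrix (Fin 2) (Fin 2) k).det) = (n : ℤ) := by
      omega
    have h3 : WithZero.log (entryMax g ^ 2)
        = WithZero.log (Valued.v (g : Matrix (Fin 2) (Fin 2) k).det * WithZero.exp (n : ℤ)) := by
      rw [WithZero.log_pow, WithZero.log_mul hd WithZero.exp_ne_zero, WithZero.log_exp]
      simp only [nsmul_eq_mul, Nat.cast_ofNat]
      omega
    exact log_inj129 (pow_ne_zero 2 he) (mul_ne_zero hd WithZero.exp_ne_zero) h3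
  · intro h
    have h3 := congrArg WithZero.log h
    rw [WithZero.log_pow, WithZero.log_mul hd WithZero.exp_ne_zero, WithZero.log_exp] at h3
    simp only [nsmul_eq_mul, Nat.cast_ofNat] at h3
    omega

theorem cdist340_spec (g : GL (Fin 2) k) :
    entryMax g ^ 2
      = Valued.v (g : Matrix (Fin 2) (Fin 2) k).det * WithZero.exp ((cdist340 g : ℕ) : ℤ) :=
  (cdist340_eq_iff g _).mp rfl

/-! ### Explicit matrices -/

omit [Valued k Γ₀] in
theorem det_mkGL340 (a b c d : k) (h : a * d - b * c ≠ 0) :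
    ((mkGL129 a b c d h : GL (Fin 2) k) : Matrix (Fin 2) (Fin 2) k).det = a * d - b * c := by
  rw [coe_mkGL129, Matrix.det_fin_two_of]

theorem entryMax_mkGL340 {a b c d : k} (h : a * d - b * c ≠ 0) {M : Γ₀}
    (ha : Valued.v a ≤ M) (hb : Valued.v b ≤ M) (hc : Valued.v c ≤ M) (hd : Valued.v d ≤ M)
    (hex : Valued.v a = M ∨ Valued.v b = M ∨ Valued.v c = M ∨ Valued.v d = M) :
    entryMax (mkGL129 a b c d h) = M := by
  apply le_antisymm
  · apply entryMax_le129
    intro i j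
    fin_cases i <;> fin_cases j <;> simpa using by assumption
  · rcases hex with e | e | e | e
    · have := entry_le_entryMax129 (mkGL129 a b c d h) 0 0
      simpa [e] using this
    · have := entry_le_entryMax129 (mkGL129 a b c d h) 0 1
      simpa [e] using this
    · have := entry_le_entryMax129 (mkGL129 a b c d h) 1 0
      simpa [e] using this
    · have := entry_le_entryMax129 (mkGL129 a b c d h) 1 1
      simpa [e] using this

/-- The Cartan distance of an explicit matrix. -/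
theorem cdist340_mkGL {a b c d : k} (h : a * d - b * c ≠ 0) {M : Γ₀} {n : ℕ}
    (ha : Valued.v a ≤ M) (hb : Valued.v b ≤ M) (hc : Valued.v c ≤ M) (hd : Valued.v d ≤ M)
    (hex : Valued.v a = M ∨ Valued.v b = M ∨ Valued.v c = M ∨ Valued.v d = M)
    (hM : M ^ 2 = Valued.v (a * d - b * c) * WithZero.exp (n : ℤ)) :
    cdist340 (mkGL129 a b c d h) = n := by
  rw [cdist340_eq_iff, entryMax_mkGL340 h ha hb hc hd hex, det_mkGL340, hM]

/-! ### Invariance -/

theorem inU_zero_one340 : InU 0 (1 : GL (Fin 2) k) :=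
  (inU_zero_iff129 _).mpr (isMaxCpt129_one _)

theorem cdist340_mul_right (g : GL (Fin 2) k) {u : GL (Fin 2) k} (hu : InU 0 u) :
    cdist340 (g * u) = cdist340 g := by
  have := cartan_mul129 (g := g) inU_zero_one340 hu
  rw [one_mul] at this
  unfold cdist340
  rw [this]

theorem cdist340_mul_left (g : GL (Fin 2) k) {u : GL (Fin 2) k} (hu : InU 0 u) :
    cdist340 (u * g) = cdist340 g := by
  have := cartan_mul129 (g := g) hu inU_zero_one340
  rw [mul_one] at this
  unfold cdist340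
  rw [this]

/-- The scalar matrix `z`. -/
def scal340 (z : k) (hz : z ≠ 0) : GL (Fin 2) k := diag129 z z hz hz

omit [Valued k Γ₀] in
theorem coe_scal340 (z : k) (hz : z ≠ 0) :
    ((scal340 z hz : GL (Fin 2) k) : Matrix (Fin 2) (Fin 2) k) = !![z, 0; 0, z] := rfl

theorem scal340_mul_apply (z : k) (hz : z ≠ 0) (g : GL (Fin 2) k) (i j : Fin 2) :
    ((scal340 z hz * g : GL (Fin 2) k) : Matrix (Fin 2) (Fin 2) k) i j
      = z * (g : Matrix (Fin 2) (Fin 2) k) i j := by
  rw [Matrix.GeneralLinearGroup.coe_mul, coe_scal340, Matrix.mul_apply, Fin.sum_univ_two]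
  fin_cases i <;> simp

theorem scal340_comm (z : k) (hz : z ≠ 0) (g : GL (Fin 2) k) :
    scal340 z hz * g = g * scal340 z hz := by
  apply ext_mat129
  ext i j
  rw [scal340_mul_apply, Matrix.GeneralLinearGroup.coe_mul, coe_scal340, Matrix.mul_apply,
    Fin.sum_univ_two]
  fin_cases j <;> simp [mul_comm]

theorem entryMax_scal_mul340 (z : k) (hz : z ≠ 0) (g : GL (Fin 2) k) :
    entryMax (scal340 z hz * g) = Valued.v z * entryMax g := by
  have hvz : Valued.v z ≠ 0 := by rwa [ne_eq, map_eq_zero]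
  apply le_antisymm
  · apply entryMax_le129
    intro i j
    rw [scal340_mul_apply, map_mul]
    exact mul_le_mul' le_rfl (entry_le_entryMax129 g i j)
  · have h1 : entryMax g ≤ (Valued.v z)⁻¹ * entryMax (scal340 z hz * g) := by
      apply entryMax_le129
      intro i j
      have := entry_le_entryMax129 (scal340 z hz * g) i j
      rw [scal340_mul_apply, map_mul] at this
      calc Valued.v ((g : Matrix (Fin 2) (Fin 2) k) i j)
          = (Valued.v z)⁻¹ * (Valued.v z * Valued.v ((g : Matrix (Fin 2) (Fin 2) k) i j)) := by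
            rw [← mul_assoc, inv_mul_cancel₀ hvz, one_mul]
        _ ≤ (Valued.v z)⁻¹ * entryMax (scal340 z hz * g) := mul_le_mul' le_rfl this
    calc Valued.v z * entryMax g
        ≤ Valued.v z * ((Valued.v z)⁻¹ * entryMax (scal340 z hz * g)) := mul_le_mul' le_rfl h1
      _ = entryMax (scal340 z hz * g) := by rw [← mul_assoc, mul_inv_cancel₀ hvz, one_mul]

theorem det_scal340 (z : k) (hz : z ≠ 0) :
    ((scal340 z hz : GL (Fin 2) k) : Matrix (Fin 2) (Fin 2) k).det = z * z := by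
  rw [coe_scal340, Matrix.det_fin_two_of]; ring

theorem cdist340_scal_mul (z : k) (hz : z ≠ 0) (g : GL (Fin 2) k) :
    cdist340 (scal340 z hz * g) = cdist340 g := by
  rw [cdist340_eq_iff, entryMax_scal_mul340, Matrix.GeneralLinearGroup.coe_mul, Matrix.det_mul,
    det_scal340, map_mul, map_mul, mul_pow, cdist340_spec g, sq]
  simp only [mul_assoc]

theorem cdist340_mul_scal (z : k) (hz : z ≠ 0) (g : GL (Fin 2) k) :
    cdist340 (g * scal340 z hz) = cdist340 g := by
  rw [← scal340_comm, cdist340_scal_mul]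

/-! ### Diagonal matrices and the Cartan decomposition -/

theorem cdist340_diag {x y : k} (hx : x ≠ 0) (hy : y ≠ 0) {n : ℕ}
    (h : Valued.v x = Valued.v y * WithZero.exp (n : ℤ)) :
    cdist340 (diag129 x y hx hy) = n := by
  have hvy : Valued.v y ≠ 0 := by rwa [ne_eq, map_eq_zero]
  have hyx : Valued.v y ≤ Valued.v x := by
    rw [h]
    calc Valued.v y = Valued.v y * 1 := (mul_one _).symm
      _ ≤ Valued.v y * WithZero.exp (n : ℤ) := by
        apply mul_le_mul' le_rfl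
        rw [← WithZero.exp_zero, WithZero.exp_le_exp]
        exact Int.natCast_nonneg n
  rw [cdist340_eq_iff, entryMax_diag129 hx hy hyx]
  have hdet : ((diag129 x y hx hy : GL (Fin 2) k) : Matrix (Fin 2) (Fin 2) k).det = x * y := by
    simp [diag129, Matrix.det_fin_two_of]
  rw [hdet, map_mul, h, sq]
  simp only [mul_comm, mul_left_comm]

/-- Cartan decomposition, with the value of the Cartan distance. -/
theorem exists_decomp340 (g : GL (Fin 2) k) :
    ∃ (u u' : GL (Fin 2) k) (x y : k) (hx : x ≠ 0) (hy : y ≠ 0),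
      InU 0 u ∧ InU 0 u' ∧ g = u * diag129 x y hx hy * u' ∧
      Valued.v x = Valued.v y * WithZero.exp ((cdist340 g : ℕ) : ℤ) := by
  obtain ⟨u, u', x, y, hx, hy, hu, hu', hxy, hg, -⟩ := exists_cartan_diag129 g
  refine ⟨u, u', x, y, hx, hy, hu, hu', hg, ?_⟩
  have hvx : Valued.v x ≠ 0 := by rwa [ne_eq, map_eq_zero]
  have hvy : Valued.v y ≠ 0 := by rwa [ne_eq, map_eq_zero]
  have h1 : cdist340 g = cdist340 (diag129 x y hx hy) := by
    rw [hg, cdist340_mul_right _ hu', cdist340_mul_left _ hu]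
  have h2 := cdist340_spec (diag129 x y hx hy)
  rw [entryMax_diag129 hx hy hxy] at h2
  have hdet : ((diag129 x y hx hy : GL (Fin 2) k) : Matrix (Fin 2) (Fin 2) k).det = x * y := by
    simp [diag129, Matrix.det_fin_two_of]
  rw [hdet, map_mul, sq, mul_assoc] at h2
  rw [h1]
  exact mul_left_cancel₀ hvx h2

omit [Valued k Γ₀] in
theorem diag129_inv340 {x y : k} (hx : x ≠ 0) (hy : y ≠ 0) :
    (diag129 x y hx hy)⁻¹ = diag129 x⁻¹ y⁻¹ (inv_ne_zero hx) (inv_ne_zero hy) := by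
  rw [inv_eq_iff_mul_eq_one, diag129_mul]
  apply ext_mat129
  simp [diag129, Matrix.one_fin_two, hx, hy]

omit [Valued k Γ₀] in
theorem weyl_diag_weyl340 {x y : k} (hx : x ≠ 0) (hy : y ≠ 0) :
    (weyl129 : GL (Fin 2) k) * diag129 x y hx hy * weyl129 = diag129 y x hy hx := by
  apply ext_mat129
  simp [weyl129, diag129]

theorem inU_zero_weyl340 : InU 0 (weyl129 : GL (Fin 2) k) :=
  (inU_zero_iff129 _).mpr (isMaxCpt129_weyl _)

theorem cdist340_diag_swap {x y : k} (hx : x ≠ 0) (hy : y ≠ 0) :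
    cdist340 (diag129 y x hy hx) = cdist340 (diag129 x y hx hy) := by
  rw [← weyl_diag_weyl340 hx hy, cdist340_mul_right _ inU_zero_weyl340,
    cdist340_mul_left _ inU_zero_weyl340]

theorem cdist340_inv (g : GL (Fin 2) k) : cdist340 g⁻¹ = cdist340 g := by
  obtain ⟨u, u', x, y, hx, hy, hu, hu', hg, hv⟩ := exists_decomp340 g
  have hvx : Valued.v x ≠ 0 := by rwa [ne_eq, map_eq_zero]
  have hvy : Valued.v y ≠ 0 := by rwa [ne_eq, map_eq_zero]
  have e : g⁻¹ = u'⁻¹ * (diag129 x y hx hy)⁻¹ * u⁻¹ := by rw [hg]; group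
  rw [e, cdist340_mul_right _ (inU_zero_inv129 hu), cdist340_mul_left _ (inU_zero_inv129 hu'),
    diag129_inv340, ← cdist340_diag_swap]
  apply cdist340_diag
  rw [map_inv₀, map_inv₀, hv, mul_inv, mul_assoc, inv_mul_cancel₀ WithZero.exp_ne_zero, mul_one]

theorem cdist340_one : cdist340 (1 : GL (Fin 2) k) = 0 := by
  have h : (1 : GL (Fin 2) k) = diag129 1 1 one_ne_zero one_ne_zero := by
    apply ext_mat129
    simp [diag129, Matrix.one_fin_two]
  rw [h]
  apply cdist340_diag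
  simp

theorem cdist340_of_inU {u : GL (Fin 2) k} (hu : InU 0 u) : cdist340 u = 0 := by
  have := cdist340_mul_right (1 : GL (Fin 2) k) hu
  rwa [one_mul, cdist340_one] at this

/-- `cdist340 g = 0` iff `g ∈ k^× · GL₂(𝒪)`. -/
theorem cdist340_eq_zero_iff (g : GL (Fin 2) k) :
    cdist340 g = 0 ↔ ∃ (z : k) (hz : z ≠ 0) (u : GL (Fin 2) k), InU 0 u ∧ g = scal340 z hz * u := by
  constructor
  · intro h0
    obtain ⟨u, u', x, y, hx, hy, hu, hu', hg, hv⟩ := exists_decomp340 g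
    rw [h0] at hv
    simp only [CharP.cast_eq_zero, WithZero.exp_zero, mul_one] at hv
    have hvx : Valued.v x ≠ 0 := by rwa [ne_eq, map_eq_zero]
    have hux : Valued.v (y / x) = 1 := by rw [map_div₀, hv, div_self]; rwa [← hv]
    have hd := isMaxCpt129_diag_unit (k := k) one_ne_zero (div_ne_zero hy hx) (by simp) hux
    have hdd : diag129 x y hx hy
        = scal340 x hx * diag129 1 (y / x) one_ne_zero (div_ne_zero hy hx) := by
      unfold scal340
      rw [diag129_mul]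
      exact diag129_congr _ _ _ _ (by ring) (by field_simp)
    refine ⟨x, hx, u * diag129 1 (y / x) one_ne_zero (div_ne_zero hy hx) * u',
      inU_zero_mul129 (inU_zero_mul129 hu ((inU_zero_iff129 _).mpr hd)) hu', ?_⟩
    rw [hg, hdd]
    simp only [← mul_assoc]
    rw [scal340_comm x hx u]
  · rintro ⟨z, hz, u, hu, rfl⟩
    rw [cdist340_scal_mul, cdist340_of_inU hu]

theorem cdist340_mul_of_zero_left {x : GL (Fin 2) k} (hx : cdist340 x = 0) (y : GL (Fin 2) k) :
    cdist340 (x * y) = cdist340 y := by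
  obtain ⟨z, hz, u, hu, rfl⟩ := (cdist340_eq_zero_iff x).mp hx
  rw [mul_assoc, cdist340_scal_mul, cdist340_mul_left _ hu]

theorem cdist340_mul_of_zero_right {x : GL (Fin 2) k} (hx : cdist340 x = 0) (y : GL (Fin 2) k) :
    cdist340 (y * x) = cdist340 y := by
  obtain ⟨z, hz, u, hu, rfl⟩ := (cdist340_eq_zero_iff x).mp hx
  rw [← mul_assoc, ← scal340_comm, mul_assoc, cdist340_scal_mul, cdist340_mul_right _ hu]

/-! ### Ring automorphisms preserving the valuation -/

theorem coe_glAut340 (s : k ≃+* k) (g : GL (Fin 2) k) (i j : Fin 2) :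
    ((glAut s g : GL (Fin 2) k) : Matrix (Fin 2) (Fin 2) k) i j
      = s ((g : Matrix (Fin 2) (Fin 2) k) i j) := rfl

theorem cartan_glAut340 (s : k ≃+* k) (hs : ∀ y : k, Valued.v (s y) = Valued.v y)
    (g : GL (Fin 2) k) : cartan (glAut s g) = cartan g := by
  have h1 : entryMax (glAut s g) = entryMax g := by
    unfold entryMax
    congr 1
    funext p
    rw [coe_glAut340, hs]
  have h2 : ((glAut s g : GL (Fin 2) k) : Matrix (Fin 2) (Fin 2) k).det
      = s (g : Matrix (Fin 2) (Fin 2) k).det := by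
    rw [Matrix.det_fin_two, Matrix.det_fin_two]
    simp only [coe_glAut340, map_sub, map_mul]
  unfold cartan
  rw [h1, h2, hs]

theorem cdist340_glAut (s : k ≃+* k) (hs : ∀ y : k, Valued.v (s y) = Valued.v y)
    (g : GL (Fin 2) k) : cdist340 (glAut s g) = cdist340 g := by
  unfold cdist340
  rw [cartan_glAut340 s hs]

end Fermat.Agent.LT.T6.H340

end

end
-- ===== PACK-END LT/T6/H340/BTDist.lean

-- ===== PACK-BEGIN LT/T6/H626/FamAlg.lean
section



/-!
# Row LT, tower T6, station T6.20a, route H: the ALGEBRA of the Hermitian family (helper626)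

OFF-MAIN.  `famAlg626`: for `det y > 0`, `det M_v(y) = √(det y)`, `toGLC626 (M_v(y))` has matrix
`M_v(y)`, `rhoC (M_v(y)) = x_v`, `|det| = √(det y)`.  Also `one_le_rhoM626`, `one_le_xv626`.
-/

set_option autoImplicit false

open scoped Matrix

noncomputable section

namespace Fermat.Agent.LT.T6.H626

open Fermat.Agent.LT.T6

/-- The model matrix `s • [[p, q - i v], [q + i v, r]]` with real `s, p, q, v, r`. -/
def hermMat626 (s p q v r : ℝ) : Matrix (Fin 2) (Fin 2) ℂ :=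
  ((s : ℝ) : ℂ) • !![((p : ℝ) : ℂ), ((q : ℝ) : ℂ) - ((v : ℝ) : ℂ) * Complex.I;
    ((q : ℝ) : ℂ) + ((v : ℝ) : ℂ) * Complex.I, ((r : ℝ) : ℂ)]

theorem det_hermMat626 (s p q v r : ℝ) :
    (hermMat626 s p q v r).det = ((s ^ 2 * (p * r - q ^ 2 - v ^ 2) : ℝ) : ℂ) := by
  unfold hermMat626
  rw [Matrix.det_fin_two]
  simp only [Matrix.smul_apply, Matrix.of_apply, Matrix.cons_val', Matrix.cons_val_zero,
    Matrix.cons_val_one, smul_eq_mul]
  push_cast
  ring_nf
  rw [Complex.I_sq]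
  ring

theorem trace_hermMat626 (s p q v r : ℝ) :
    (((hermMat626 s p q v r).conjTranspose * hermMat626 s p q v r).trace).re
      = s ^ 2 * (p ^ 2 + r ^ 2 + 2 * q ^ 2 + 2 * v ^ 2) := by
  unfold hermMat626
  rw [Matrix.trace_fin_two]
  simp only [Matrix.mul_apply, Fin.sum_univ_two, Matrix.conjTranspose_apply, Matrix.smul_apply,
    Matrix.of_apply, Matrix.cons_val', Matrix.cons_val_zero, Matrix.cons_val_one, smul_eq_mul,
    star_mul', Complex.star_def, Complex.conj_ofReal, map_sub, map_add, map_mul, Complex.conj_I]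
  simp only [Complex.add_re, Complex.mul_re, Complex.sub_re, Complex.ofReal_re, Complex.ofReal_im,
    Complex.I_re, Complex.I_im, Complex.add_im, Complex.mul_im, Complex.sub_im, Complex.neg_re,
    Complex.neg_im]
  ring

theorem famMat_eq_herm626 (y : Matrix (Fin 2) (Fin 2) ℝ) (v : ℝ) :
    famMat626 y v = hermMat626 (famScal626 y (xv626 (rhoM626 y) v))
      (Real.sqrt 2 * (xv626 (rhoM626 y) v + 1) + famH1_626 y) (famH2_626 y) v
      (Real.sqrt 2 * (xv626 (rhoM626 y) v + 1) - famH1_626 y) := rfl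

/-- `tr(yᵀ y) = 2 det y + (y₀₀ - y₁₁)² + (y₀₁ + y₁₀)²`. -/
theorem trace_transpose_mul626 (y : Matrix (Fin 2) (Fin 2) ℝ) :
    (y.transpose * y).trace = 2 * y.det + ((y 0 0 - y 1 1) ^ 2 + (y 0 1 + y 1 0) ^ 2) := by
  rw [Matrix.trace_fin_two, Matrix.det_fin_two]
  simp only [Matrix.mul_apply, Fin.sum_univ_two, Matrix.transpose_apply]
  ring

/-- `h₁² + h₂² = ρ - 1`. -/
theorem famH_sq626 (y : Matrix (Fin 2) (Fin 2) ℝ) (hy : 0 < y.det) :
    famH1_626 y ^ 2 + famH2_626 y ^ 2 = rhoM626 y - 1 := by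
  have h2 : (0 : ℝ) ≤ 2 * y.det := by positivity
  unfold famH1_626 famH2_626 rhoM626
  rw [div_pow, div_pow, Real.sq_sqrt h2, abs_of_pos hy, trace_transpose_mul626]
  field_simp
  ring

theorem one_le_rhoM626 (y : Matrix (Fin 2) (Fin 2) ℝ) (hy : 0 < y.det) : 1 ≤ rhoM626 y := by
  have h := famH_sq626 y hy
  nlinarith [sq_nonneg (famH1_626 y), sq_nonneg (famH2_626 y)]

theorem xv_sq626 (ρ v : ℝ) (hρ : 1 ≤ ρ) : xv626 ρ v ^ 2 = (ρ + 1 + v ^ 2) / 2 := by
  unfold xv626
  rw [Real.sq_sqrt]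
  nlinarith [sq_nonneg v]

theorem one_le_xv626 (ρ v : ℝ) (hρ : 1 ≤ ρ) : 1 ≤ xv626 ρ v := by
  unfold xv626
  rw [show (1 : ℝ) = Real.sqrt 1 from Real.sqrt_one.symm]
  apply Real.sqrt_le_sqrt
  nlinarith [sq_nonneg v]

theorem famScal_sq626 (y : Matrix (Fin 2) (Fin 2) ℝ) (hy : 0 < y.det) (x : ℝ) (hx : 1 ≤ x) :
    famScal626 y x ^ 2 * (4 * (x + 1)) = Real.sqrt y.det := by
  have hx1 : (0 : ℝ) < x + 1 := by linarith
  have hs : Real.sqrt (x + 1) ^ 2 = x + 1 := Real.sq_sqrt hx1.le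
  have hs0 : Real.sqrt (x + 1) ≠ 0 := (Real.sqrt_pos.2 hx1).ne'
  have hd : Real.sqrt (Real.sqrt y.det) ^ 2 = Real.sqrt y.det := Real.sq_sqrt (Real.sqrt_nonneg _)
  unfold famScal626
  rw [div_pow, mul_pow, hd, hs]
  field_simp
  ring

/-- **The algebra of the Hermitian family.** -/
theorem famAlg626 (y : Matrix (Fin 2) (Fin 2) ℝ) (hy : 0 < y.det) (v : ℝ) :
    (famMat626 y v).det = ((Real.sqrt y.det : ℝ) : ℂ) ∧
    ((toGLC626 (famMat626 y v) : GL (Fin 2) ℂ) : Matrix (Fin 2) (Fin 2) ℂ) = famMat626 y v ∧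
    rhoC (toGLC626 (famMat626 y v)) = xv626 (rhoM626 y) v ∧
    ‖((toGLC626 (famMat626 y v) : GL (Fin 2) ℂ) : Matrix (Fin 2) (Fin 2) ℂ).det‖
      = Real.sqrt y.det := by
  have hρ := one_le_rhoM626 y hy
  have hx := one_le_xv626 (rhoM626 y) v hρ
  have hx2 := xv_sq626 (rhoM626 y) v hρ
  have hH := famH_sq626 y hy
  have hS := famScal_sq626 y hy _ hx
  have h2 : Real.sqrt 2 ^ 2 = 2 := Real.sq_sqrt (by norm_num)
  have hD : 0 < Real.sqrt y.det := Real.sqrt_pos.2 hy
  set x := xv626 (rhoM626 y) v with hxdef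
  set s := famScal626 y x with hsdef
  set h₁ := famH1_626 y
  set h₂ := famH2_626 y
  have hdet : (famMat626 y v).det = ((Real.sqrt y.det : ℝ) : ℂ) := by
    rw [famMat_eq_herm626, det_hermMat626]
    congr 1
    have e1 : (Real.sqrt 2 * (x + 1) + h₁) * (Real.sqrt 2 * (x + 1) - h₁) - h₂ ^ 2 - v ^ 2
        = 4 * (x + 1) := by
      have : (Real.sqrt 2 * (x + 1) + h₁) * (Real.sqrt 2 * (x + 1) - h₁) - h₂ ^ 2 - v ^ 2
          = Real.sqrt 2 ^ 2 * (x + 1) ^ 2 - (h₁ ^ 2 + h₂ ^ 2) - v ^ 2 := by ring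
      rw [this, h2, hH]
      nlinarith
    rw [e1]
    exact hS
  have hne : (famMat626 y v).det ≠ 0 := by
    rw [hdet]
    exact Complex.ofReal_ne_zero.2 hD.ne'
  have hcoe : ((toGLC626 (famMat626 y v) : GL (Fin 2) ℂ) : Matrix (Fin 2) (Fin 2) ℂ)
      = famMat626 y v := by
    unfold toGLC626
    rw [dif_pos hne]
    rfl
  have hnorm : ‖((toGLC626 (famMat626 y v) : GL (Fin 2) ℂ) : Matrix (Fin 2) (Fin 2) ℂ).det‖
      = Real.sqrt y.det := by
    rw [hcoe, hdet, Complex.norm_real, Real.norm_of_nonneg hD.le]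
  refine ⟨hdet, hcoe, ?_, hnorm⟩
  unfold rhoC
  rw [hnorm, hcoe, famMat_eq_herm626, trace_hermMat626]
  have e2 : (Real.sqrt 2 * (x + 1) + h₁) ^ 2 + (Real.sqrt 2 * (x + 1) - h₁) ^ 2 + 2 * h₂ ^ 2
      + 2 * v ^ 2 = 8 * x * (x + 1) := by
    have : (Real.sqrt 2 * (x + 1) + h₁) ^ 2 + (Real.sqrt 2 * (x + 1) - h₁) ^ 2 + 2 * h₂ ^ 2
        + 2 * v ^ 2 = 2 * Real.sqrt 2 ^ 2 * (x + 1) ^ 2 + 2 * (h₁ ^ 2 + h₂ ^ 2) + 2 * v ^ 2 := by
      ring
    rw [this, h2, hH]
    nlinarith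
  rw [e2]
  have e3 : s ^ 2 * (8 * x * (x + 1)) = 2 * x * Real.sqrt y.det := by
    rw [← hS]
    ring
  rw [e3]
  field_simp

end Fermat.Agent.LT.T6.H626

end

end
-- ===== PACK-END LT/T6/H626/FamAlg.lean

-- ===== PACK-BEGIN LT/T6/H296/CutoffTop.lean
section



/-!
# Row LT, tower T6, sub-tower T6inf, leaf T6inf.09 (helper296): `T6.Inf.CutoffExC` PROVED

Spec: `LT/T6/Inf/Spec.lean` v2 (origin/helper19@9f15c6d69, sha256 3d46cdcb2296b6f2).  OFF-MAIN.
-/

set_option autoImplicit false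

namespace Fermat.Agent.LT.T6.H296

/-- **T6inf.09 (cut-off functions exist).** -/
theorem cutoffExC_296 : Fermat.Agent.LT.T6.Inf.CutoffExC :=
  cutoffExC_unfolded296

end Fermat.Agent.LT.T6.H296

end
-- ===== PACK-END LT/T6/H296/CutoffTop.lean

-- ===== PACK-BEGIN LT/T6/H439/RadInt1.lean
section




/-!
# Row LT, tower T6, leaf T6.20a.8 `RadInt1C626` (helper439, OFF-MAIN)

`radInt1C_h439 : H626.RadInt1C626`, VERBATIM against `LT/T6/H626/AbelCut.lean`
(helper626@f2abbd58e, sha256 6a4d529b62b20077).  The proof is `radInt1_core439` of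
`RadInt1Core.lean` (Mathlib only): scaling, Fubini, polar coordinates, the angular integral
`∫_{-π}^{π} dθ / (A² + r² cos² θ) = 2π / (A √(A² + r²))`, and `X = √(A² + r²)`.
-/

set_option autoImplicit false

noncomputable section

namespace Fermat.Agent.LT.T6.H439

/-- **T6.20a.8 `RadInt1C626`** (VERBATIM). -/
theorem radInt1C_h439 : Fermat.Agent.LT.T6.H626.RadInt1C626 :=
  fun Φ hΦ hR A α β hA hα hβ => radInt1_core439 Φ hΦ hR A α β hA hα hβ

end Fermat.Agent.LT.T6.H439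

end

end
-- ===== PACK-END LT/T6/H439/RadInt1.lean

-- ===== PACK-BEGIN LT/T6/H502/Galois.lean
section




/-!
# Row LT, tower T6, sub-leaf T6.07 (helper502): `M / L` is cyclic Galois with generator `τ`

OFF-MAIN.  Mathlib only.
-/

set_option autoImplicit false
set_option linter.style.haveILetI false
set_option linter.unusedSectionVars false

open Polynomial

noncomputable section

namespace Fermat.Agent.LT.T6.H502

section Galois

variable {K K' : Type} [Field K] [Field K'] [Algebra K K'] [FiniteDimensional K K'] (f : K[X])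
  [hf : Fact (Irreducible f)] [hg : Fact (Irreducible (f.map (algebraMap K K')))]

attribute [local instance] algLM502

theorem finite_KL502 : Module.Finite K (AdjoinRoot f) :=
  (AdjoinRoot.powerBasis hf.out.ne_zero).finite

theorem finite_K'M502 : Module.Finite K' (AdjoinRoot (f.map (algebraMap K K'))) :=
  (AdjoinRoot.powerBasis hg.out.ne_zero).finite

theorem finite_KM502 : Module.Finite K (AdjoinRoot (f.map (algebraMap K K'))) := by
  haveI := finite_K'M502 (K' := K') f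
  exact Module.Finite.trans K' _

theorem finite_LM502 : Module.Finite (AdjoinRoot f) (AdjoinRoot (f.map (algebraMap K K'))) := by
  haveI := finite_KM502 (K' := K') f
  exact Module.Finite.of_restrictScalars_finite K (AdjoinRoot f) _

theorem finrank_LM502 :
    Module.finrank (AdjoinRoot f) (AdjoinRoot (f.map (algebraMap K K')))
      = Module.finrank K K' := by
  haveI := finite_KL502 f
  haveI := finite_K'M502 (K' := K') f
  haveI := finite_LM502 (K' := K') f
  have h1 : Module.finrank K (AdjoinRoot f) = f.natDegree := by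
    rw [(AdjoinRoot.powerBasis hf.out.ne_zero).finrank, AdjoinRoot.powerBasis_dim]
  have h2 : Module.finrank K' (AdjoinRoot (f.map (algebraMap K K'))) = f.natDegree := by
    rw [(AdjoinRoot.powerBasis hg.out.ne_zero).finrank, AdjoinRoot.powerBasis_dim,
      natDegree_map]
  have h3 := Module.finrank_mul_finrank K K' (AdjoinRoot (f.map (algebraMap K K')))
  have h4 := Module.finrank_mul_finrank K (AdjoinRoot f) (AdjoinRoot (f.map (algebraMap K K')))
  rw [h2] at h3
  rw [h1, ← h3, mul_comm] at h4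
  have hpos : 0 < f.natDegree := hf.out.natDegree_pos
  exact Nat.eq_of_mul_eq_mul_right hpos h4

/-- `τ ∈ Aut(M/L)`. -/
def tau502 (s : K' ≃ₐ[K] K') :
    AdjoinRoot (f.map (algebraMap K K')) ≃ₐ[AdjoinRoot f] AdjoinRoot (f.map (algebraMap K K')) :=
  AlgEquiv.ofBijective (tauAlg502 f s)
    (haveI := finite_LM502 (K' := K') f; AlgHom.bijective _)

theorem tau_apply502 (s : K' ≃ₐ[K] K') (y : AdjoinRoot (f.map (algebraMap K K'))) :
    tau502 f s y = tauRing502 f s y := by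
  unfold tau502
  rw [AlgEquiv.ofBijective_apply]
  rfl

theorem tau_of502 (s : K' ≃ₐ[K] K') (x : K') :
    tau502 f s (AdjoinRoot.of (f.map (algebraMap K K')) x)
      = AdjoinRoot.of (f.map (algebraMap K K')) (s x) := by
  rw [tau_apply502, tauRing_of502]

theorem tau_pow_of502 (s : K' ≃ₐ[K] K') (n : ℕ) (x : K') :
    (tau502 f s ^ n) (AdjoinRoot.of (f.map (algebraMap K K')) x)
      = AdjoinRoot.of (f.map (algebraMap K K')) ((s ^ n) x) := by
  induction n generalizing x with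
  | zero => simp
  | succ n ih =>
    rw [pow_succ, AlgEquiv.mul_apply, tau_of502, ih, pow_succ, AlgEquiv.mul_apply]

theorem tau_pow_injective502 (s : K' ≃ₐ[K] K') (l : ℕ)
    (hinj : ∀ i j : ℕ, i < l → j < l → s ^ i = s ^ j → i = j) :
    Function.Injective (fun i : Fin l => tau502 f s ^ (i : ℕ)) := by
  intro i j hij
  apply Fin.ext
  apply hinj i j i.2 j.2
  ext x
  have h1 := tau_pow_of502 f s i x
  have h2 := tau_pow_of502 f s j x
  have h3 : (tau502 f s ^ (i : ℕ)) = (tau502 f s ^ (j : ℕ)) := hij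
  rw [h3, h2] at h1
  exact (AdjoinRoot.coe_injective' (f := f.map (algebraMap K K'))) h1.symm

theorem card_gal502 (s : K' ≃ₐ[K] K') (l : ℕ) (hl : Module.finrank K K' = l)
    (hinj : ∀ i j : ℕ, i < l → j < l → s ^ i = s ^ j → i = j) :
    Nat.card (AdjoinRoot (f.map (algebraMap K K')) ≃ₐ[AdjoinRoot f]
      AdjoinRoot (f.map (algebraMap K K'))) = l := by
  haveI := finite_LM502 (K' := K') f
  apply le_antisymm
  · have h := AlgEquiv.card_le (F := AdjoinRoot f) (K := AdjoinRoot (f.map (algebraMap K K')))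
    rw [finrank_LM502, hl] at h
    rwa [Nat.card_eq_fintype_card]
  · have h := Nat.card_le_card_of_injective _ (tau_pow_injective502 f s l hinj)
    simpa using h

theorem isGalois_LM502 (s : K' ≃ₐ[K] K') (l : ℕ) (hl : Module.finrank K K' = l)
    (hinj : ∀ i j : ℕ, i < l → j < l → s ^ i = s ^ j → i = j) :
    IsGalois (AdjoinRoot f) (AdjoinRoot (f.map (algebraMap K K'))) := by
  haveI := finite_LM502 (K' := K') f
  apply IsGalois.of_card_aut_eq_finrank
  rw [card_gal502 f s l hl hinj, finrank_LM502, hl]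

theorem tau_pow_bijective502 (s : K' ≃ₐ[K] K') (l : ℕ) (hl : Module.finrank K K' = l)
    (hinj : ∀ i j : ℕ, i < l → j < l → s ^ i = s ^ j → i = j) :
    Function.Bijective (fun i : Fin l => tau502 f s ^ (i : ℕ)) := by
  haveI := finite_LM502 (K' := K') f
  refine (tau_pow_injective502 f s l hinj).bijective_of_nat_card_le ?_
  rw [card_gal502 f s l hl hinj]
  simp

end Galois

end Fermat.Agent.LT.T6.H502

end

end
-- ===== PACK-END LT/T6/H502/Galois.lean

-- ===== PACK-BEGIN LT/T6/H634/EllCut2.lean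
section








/-!
# Row LT, tower T6, station T6.20e.2 (`EllValueC634`): THE CUT, level 2 (helper634)

OFF-MAIN.  Definitions, Props and the PROVED top `ellValue_of634`; nothing is assumed.
Vocabulary: `EllCut.lean` (level 1), `H189/ArchIntSpec.lean` (`dgR`, `dgC`, `ArchIntOut`),
`H781/EllSpec.lean` (`abelT`, `tailI`, `ellDown`, `ellUp`, `IsProfile`, `ArchEllIdC`),
byte-identical copies.

    EllValueC634 ⇐ EllNormC634 + (ArchIntOut → BoxPosC634) + ProfAbelC634 + H781.ArchEllIdC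
                     + (ArchIntOut → EllRealC634) + (ArchIntOut → EllTwC634) + ArchIntOut

(the owners of `BoxPosC634`, `EllRealC634`, `EllTwC634` may use the integration formulas
`H189.ArchIntOut` as a hypothesis; with them `μ (boxR634) = 2π c_I`, `μ' (boxC634) = π c_I'` for the
Iwasawa constants `c_I`, `c_I'`, and the polar constant of `GL₂(ℝ)⁺` is `c_P = c_I`).

## Intrinsic data of an elliptic `γ ∈ GL₂(ℝ)` (`disc γ < 0`, hence `det γ > 0`)

* `D = det γ`, `θ = thetaOf634 γ = arccos (tr γ / (2 √D)) ∈ (0, π)`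
  (`γ` is conjugate in `GL₂(ℝ)` to `√D k_θ`; only `cos θ`, `sin² θ`, `sin² (θ/2)` occur);
* the centraliser `T = twCentSub id γ = ℝ[γ]ˣ ≅ ℂˣ`; a Haar measure `μT` of `T` is
  `λ · dr' dα` in the coordinates `t = g (e^{r'} k_α) g⁻¹`, `α ∈ (0, 2π]`, with
  `λ = lamT634 γ μT := μT {t | 1 ≤ det t ≤ e²} / (2π)`.

## Profiles (`t = radT634 ρ = arcosh ρ`)

* `prof0_634 f D ρ = f(√D a_t)` (weight `0` and `±1`: the value on the positive torus),
* `prof1_634 f D ρ = f(√D a_t) / √(ρ + 1)`                       (`G₁` of `H781`),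
* `profC634 φ D ρ = φ(D^{1/4} a_t)` on `GL₂(ℂ)`                  (`Φ` of `H781` at `|det| = √D`).

## The leaves

* `EllNormC634` (algebra): every `γ` with `disc γ < 0` is a norm
  (`δ = (γ + √D) / √(tr γ + 2 √D)` is real and `δ² = γ`).
* `BoxPosC634` : `0 < μ (boxR634) < ∞` for a Haar measure.
* `ProfAbelC634` : the profiles are profiles, and `IsAbelRel626 c φ f₀ f₁` is the Abel matching
  of `H781.ArchEllIdC` with `κ = 2π c`.
* `EllRealC634` (= T6.27, real side, FINAL FORM): the orbital integral of `f₀ + f₁` at `γ`,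
  `= (4π c_I / λ) (ellDown g₀ θ + √2 cos θ · ellDown G₁ θ)`, `c_I = cR634 μ = μ(boxR634)/(2π)`.
* `EllTwC634` (= T6.26 + T6.27, twisted side, FINAL FORM): the twisted orbital integral of `φ`
  at any `δ` with `δ δ̄ = γ`, `= (c_I' / λ) ellUp Φ θ`, `c_I' = cC634 μ' = μ'(boxC634)/π`.
Derivations of the two formulas and of the constants: header of `EllCut.lean`.
-/

set_option autoImplicit false

open scoped Matrix
open MeasureTheory

noncomputable section

namespace Fermat.Agent.LT.T6.H634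

open Fermat.Agent.LT.T6 Fermat.Agent.LT.T6.H626 Fermat.Agent.LT.T6.H189
open Fermat.Agent.LT.T6.H781

/-! ## 1. Vocabulary -/

/-- The Iwasawa (= polar) constant of a Haar measure of `GL₂(ℝ)`: `μ (boxR634) / (2π)`. -/
def cR634 (μ : @Measure (GL (Fin 2) ℝ) (borel _)) : ℝ := (μ boxR634).toReal / (2 * Real.pi)

/-- The Iwasawa constant of a Haar measure of `GL₂(ℂ)`: `μ' (boxC634) / π`. -/
def cC634 (μ' : @Measure (GL (Fin 2) ℂ) (borel _)) : ℝ := (μ' boxC634).toReal / Real.pi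

/-- The angle of an elliptic `γ`: `arccos (tr γ / (2 √(det γ)))`. -/
def thetaOf634 (γ : GL (Fin 2) ℝ) : ℝ :=
  Real.arccos ((γ : Matrix (Fin 2) (Fin 2) ℝ).trace /
    (2 * Real.sqrt (γ : Matrix (Fin 2) (Fin 2) ℝ).det))

/-- The normalisation `λ` of a Haar measure of the centraliser of an elliptic `γ`:
`μT {t | 1 ≤ det t ≤ e²} / (2π)`. -/
def lamT634 (γ : GL (Fin 2) ℝ)
    (μT : @Measure (twCentSub (MonoidHom.id (GL (Fin 2) ℝ)) γ) (borel _)) : ℝ :=
  (μT {t | 1 ≤ ((t : GL (Fin 2) ℝ) : Matrix (Fin 2) (Fin 2) ℝ).det ∧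
      ((t : GL (Fin 2) ℝ) : Matrix (Fin 2) (Fin 2) ℝ).det ≤ Real.exp 2}).toReal /
    (2 * Real.pi)

/-- `arcosh ρ = log (ρ + √(ρ² - 1))`. -/
def radT634 (ρ : ℝ) : ℝ := Real.log (ρ + Real.sqrt (ρ ^ 2 - 1))

/-- The profile of `f` on `GL₂(ℝ)` at determinant `D`: `ρ ↦ f(√D a_t)`, `cosh t = ρ`. -/
def prof0_634 (f : GL (Fin 2) ℝ → ℂ) (D ρ : ℝ) : ℂ :=
  f (dgR (Real.log D / 2 + radT634 ρ / 2) (Real.log D / 2 - radT634 ρ / 2))

/-- The weight-one profile `G₁` of `H781`: `ρ ↦ f(√D a_t) / √(ρ + 1)`. -/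
def prof1_634 (f : GL (Fin 2) ℝ → ℂ) (D ρ : ℝ) : ℂ :=
  prof0_634 f D ρ / ((Real.sqrt (ρ + 1) : ℝ) : ℂ)

/-- The profile of `φ` on `GL₂(ℂ)` at `|det| = √D`: `ρ ↦ φ(D^{1/4} a_t)`, `cosh t = ρ`. -/
def profC634 (φ : GL (Fin 2) ℂ → ℂ) (D ρ : ℝ) : ℂ :=
  φ (dgC (Real.log D / 4 + radT634 ρ / 2) (Real.log D / 4 - radT634 ρ / 2))

/-! ## 2. The leaves -/

/-- **T6.20e.2a (algebra).**  Every `γ ∈ GL₂(ℝ)` with negative discriminant is a norm from
`GL₂(ℂ)`. -/
def EllNormC634 : Prop :=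
  ∀ γ : GL (Fin 2) ℝ, disc γ < 0 →
    IsNormFrom 2 (algebraMap ℝ ℂ) (starRingAut : ℂ ≃+* ℂ) γ

/-- **T6.20e.2b.**  The Iwasawa unit box has positive finite measure. -/
def BoxPosC634 : Prop :=
  ∀ μ : @Measure (GL (Fin 2) ℝ) (borel _), @Measure.IsHaarMeasure _ _ _ (borel _) μ →
    0 < (μ boxR634).toReal

/-- **T6.20e.2c (profiles and the Abel relation).**  For test functions in the Abel relation
with constant `c` and every `D > 0`: the three profiles at determinant `D` are profiles in the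
sense of `H781`, Abel-matched with the constant `κ = 2π c`. -/
def ProfAbelC634 : Prop :=
  ∀ (c : ℂ) (n : ℤ), n = 1 ∨ n = -1 →
    ∀ (φ : GL (Fin 2) ℂ → ℂ) (f₀ f₁ : GL (Fin 2) ℝ → ℂ),
      IsArchTestC φ → IsArchTestR 0 f₀ → IsArchTestR n f₁ → IsAbelRel626 c φ f₀ f₁ →
      ∀ D : ℝ, 0 < D →
        IsProfile (prof0_634 f₀ D) ∧ IsProfile (prof1_634 f₁ D) ∧ IsProfile (profC634 φ D) ∧
        (∀ x : ℝ, 1 ≤ x →
          abelT (prof0_634 f₀ D) x
            = ((2 * Real.pi : ℝ) : ℂ) * c * tailI (profC634 φ D) (Real.sqrt ((x + 1) / 2)) /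
                ((Real.sqrt 2 : ℝ) : ℂ)) ∧
        (∀ x : ℝ, 1 ≤ x →
          abelT (prof1_634 f₁ D) x
            = ((2 * Real.pi : ℝ) : ℂ) * c * tailI (profC634 φ D) (Real.sqrt ((x + 1) / 2)) /
                ((2 * Real.sqrt ((x + 1) / 2) : ℝ) : ℂ))

/-- **T6.20e.2d (the elliptic orbital integral on `GL₂(ℝ)`, final form of T6.27).**
For `f₀` of weight `0`, `f₁` of weight `n = ±1`, `γ` with `disc γ < 0`, a Haar measure `μT` of
its centraliser and a cut-off `β`:
`∫ (f₀ + f₁)(x⁻¹ γ x) β(x) dμ(x) = (4π c_I / λ) (ellDown g₀ θ + √2 cos θ · ellDown G₁ θ)`. -/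
def EllRealC634 : Prop :=
  ∀ (μ : @Measure (GL (Fin 2) ℝ) (borel _)), @Measure.IsHaarMeasure _ _ _ (borel _) μ →
    ∀ n : ℤ, n = 1 ∨ n = -1 →
    ∀ f₀ f₁ : GL (Fin 2) ℝ → ℂ, IsArchTestR 0 f₀ → IsArchTestR n f₁ →
    ∀ γ : GL (Fin 2) ℝ, disc γ < 0 →
    ∀ μT : @Measure (twCentSub (MonoidHom.id (GL (Fin 2) ℝ)) γ) (borel _),
      @Measure.IsHaarMeasure _ _ _ (borel _) μT →
    ∀ β : GL (Fin 2) ℝ → ℝ, Continuous β → (∀ x, 0 ≤ β x) →
      (∀ x : GL (Fin 2) ℝ,
        @integral _ _ _ _ (borel _) μT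
          (fun t : twCentSub (MonoidHom.id (GL (Fin 2) ℝ)) γ =>
            β ((t : GL (Fin 2) ℝ) * x)) = 1) →
      @integral _ _ _ _ (borel _) μ
          (fun x : GL (Fin 2) ℝ =>
            (f₀ (x⁻¹ * γ * x) + f₁ (x⁻¹ * γ * x)) * (β x : ℂ))
        = ((4 * Real.pi * cR634 μ / lamT634 γ μT : ℝ) : ℂ) *
            (ellDown (prof0_634 f₀ (γ : Matrix (Fin 2) (Fin 2) ℝ).det) (thetaOf634 γ) +
              ((Real.sqrt 2 * Real.cos (thetaOf634 γ) : ℝ) : ℂ) *
                ellDown (prof1_634 f₁ (γ : Matrix (Fin 2) (Fin 2) ℝ).det) (thetaOf634 γ))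

/-- **T6.20e.2e (the twisted elliptic orbital integral on `GL₂(ℂ)`, final form of
T6.26 + T6.27).**  For a bi-`U(2)`-invariant test function `φ`, `γ ∈ GL₂(ℝ)` with `disc γ < 0`,
`δ` with `δ δ̄ = γ`, a Haar measure `μT` of the centraliser of `γ` and a cut-off `β'`:
`∫ φ(x⁻¹ δ x̄) β'(x) dμ'(x) = (c_I' / λ) ellUp Φ θ`. -/
def EllTwC634 : Prop :=
  ∀ (μ' : @Measure (GL (Fin 2) ℂ) (borel _)), @Measure.IsHaarMeasure _ _ _ (borel _) μ' →
    ∀ φ : GL (Fin 2) ℂ → ℂ, IsArchTestC φ →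
    ∀ γ : GL (Fin 2) ℝ, disc γ < 0 →
    ∀ μT : @Measure (twCentSub (MonoidHom.id (GL (Fin 2) ℝ)) γ) (borel _),
      @Measure.IsHaarMeasure _ _ _ (borel _) μT →
    ∀ δ : GL (Fin 2) ℂ,
      twNorm (starRingAut : ℂ ≃+* ℂ) 2 δ = Matrix.GeneralLinearGroup.map (algebraMap ℝ ℂ) γ →
    ∀ β' : GL (Fin 2) ℂ → ℝ, Continuous β' → (∀ x, 0 ≤ β' x) →
      (∀ x : GL (Fin 2) ℂ,
        @integral _ _ _ _ (borel _) μT
          (fun t : twCentSub (MonoidHom.id (GL (Fin 2) ℝ)) γ =>
            β' (Matrix.GeneralLinearGroup.map (algebraMap ℝ ℂ) (t : GL (Fin 2) ℝ) * x))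
          = 1) →
      @integral _ _ _ _ (borel _) μ'
          (fun x : GL (Fin 2) ℂ =>
            φ (x⁻¹ * δ * glAut (starRingAut : ℂ ≃+* ℂ) x) * (β' x : ℂ))
        = ((cC634 μ' / lamT634 γ μT : ℝ) : ℂ) *
            ellUp (profC634 φ (γ : Matrix (Fin 2) (Fin 2) ℝ).det) (thetaOf634 γ)

/-! ## 3. Elementary facts about the angle -/

/-- `disc γ < 0` forces `det γ > 0`. -/
theorem det_pos_of_disc_neg634 (γ : GL (Fin 2) ℝ) (h : disc γ < 0) :
    0 < (γ : Matrix (Fin 2) (Fin 2) ℝ).det := by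
  unfold disc at h
  nlinarith [sq_nonneg ((γ : Matrix (Fin 2) (Fin 2) ℝ).trace)]

/-- For `disc γ < 0` the angle is regular: `sin θ ≠ 0`. -/
theorem sin_thetaOf_ne_zero634 (γ : GL (Fin 2) ℝ) (h : disc γ < 0) :
    Real.sin (thetaOf634 γ) ≠ 0 := by
  have hD := det_pos_of_disc_neg634 γ h
  set D := (γ : Matrix (Fin 2) (Fin 2) ℝ).det with hDdef
  set t := (γ : Matrix (Fin 2) (Fin 2) ℝ).trace with htdef
  have hs : 0 < Real.sqrt D := Real.sqrt_pos.mpr hD
  have hsq : Real.sqrt D ^ 2 = D := Real.sq_sqrt hD.le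
  have hlt : t ^ 2 < 4 * D := by
    have : t ^ 2 - 4 * D < 0 := h
    linarith
  have hq : (t / (2 * Real.sqrt D)) ^ 2 < 1 := by
    rw [div_pow, div_lt_one (by positivity)]
    nlinarith
  have habs : |t / (2 * Real.sqrt D)| < 1 := (sq_lt_one_iff_abs_lt_one _).mp hq
  have h1 : -1 < t / (2 * Real.sqrt D) := (abs_lt.mp habs).1
  have h2 : t / (2 * Real.sqrt D) < 1 := (abs_lt.mp habs).2
  unfold thetaOf634
  rw [Real.sin_arccos]
  have hpos : 0 < 1 - (t / (2 * Real.sqrt D)) ^ 2 := by linarith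
  exact (Real.sqrt_pos.mpr hpos).ne'

/-! ## 4. The top -/

/-- **TOP of the station T6.20e.2**: `EllValueC634` from the leaves. -/
theorem ellValue_of634 (hInt : ArchIntOut) (hN : EllNormC634) (hB : ArchIntOut → BoxPosC634)
    (hP : ProfAbelC634) (hId : ArchEllIdC)
    (hR : ArchIntOut → EllRealC634) (hT : ArchIntOut → EllTwC634) : EllValueC634 := by
  intro μ μ' hμ hμ' n hn φ f₀ f₁ hφ hf₀ hf₁ hA γ hγ hdisc μT hμT β hβc hβ0 hβ1
  refine ⟨?_, fun hnot => absurd (hN γ hdisc) hnot⟩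
  intro δ hδ β' hβ'c hβ'0 hβ'1
  have hD := det_pos_of_disc_neg634 γ hdisc
  have hsin := sin_thetaOf_ne_zero634 γ hdisc
  obtain ⟨hp0, hp1, hpC, hab0, hab1⟩ :=
    hP ((cStar634 μ μ' : ℝ) : ℂ) n hn φ f₀ f₁ hφ hf₀ hf₁ hA
      (γ : Matrix (Fin 2) (Fin 2) ℝ).det hD
  have hid := hId (prof0_634 f₀ (γ : Matrix (Fin 2) (Fin 2) ℝ).det)
    (prof1_634 f₁ (γ : Matrix (Fin 2) (Fin 2) ℝ).det)
    (profC634 φ (γ : Matrix (Fin 2) (Fin 2) ℝ).det)
    (((2 * Real.pi : ℝ) : ℂ) * ((cStar634 μ μ' : ℝ) : ℂ)) hp0 hp1 hpC hab0 hab1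
    (thetaOf634 γ) hsin
  have hreal := hR hInt μ hμ n hn f₀ f₁ hf₀ hf₁ γ hdisc μT hμT β hβc hβ0 hβ1
  have htw := hT hInt μ' hμ' φ hφ γ hdisc μT hμT δ hδ β' hβ'c hβ'0 hβ'1
  have hbox := hB hInt μ hμ
  show @integral _ _ _ _ (borel _) μ
      (fun x : GL (Fin 2) ℝ => (f₀ (x⁻¹ * γ * x) + f₁ (x⁻¹ * γ * x)) * (β x : ℂ)) = _
  rw [hreal, htw, hid]
  have hpi : (Real.pi : ℝ) ≠ 0 := Real.pi_ne_zero
  have hconst : 4 * Real.pi * cR634 μ / lamT634 γ μT * (2 * cStar634 μ μ')
      = cC634 μ' / lamT634 γ μT := by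
    unfold cR634 cC634 cStar634
    field_simp
  have hpiC : ((Real.pi : ℝ) : ℂ) ≠ 0 := by exact_mod_cast hpi
  have hconstC : ((4 * Real.pi * cR634 μ / lamT634 γ μT : ℝ) : ℂ) *
      (((2 * Real.pi : ℝ) : ℂ) * ((cStar634 μ μ' : ℝ) : ℂ) / ((Real.pi : ℝ) : ℂ))
      = ((cC634 μ' / lamT634 γ μT : ℝ) : ℂ) := by
    rw [← hconst]
    push_cast
    field_simp
  rw [← mul_assoc, hconstC]

end Fermat.Agent.LT.T6.H634

end

end
-- ===== PACK-END LT/T6/H634/EllCut2.lean

-- ===== PACK-BEGIN LT/T6/H559/EllUpC.lean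
section



/-!
# Row LT, tower T6, leaf T6.28 part (B): `H781.EllUpC` VERBATIM, UNCONDITIONAL (helper559)

OFF-MAIN.  Adapter from `ellUp_eq559` (`LT/T6/H559/EllUp.lean`) to the Prop `EllUpC` of the owner
helper781 (`LT/T6/H781/EllSpec.lean`, sha256 3217f43c6be3c854, byte-identical copy).
`EllDownC` is NOT used.
-/

set_option autoImplicit false

open MeasureTheory Set Real Filter Topology

noncomputable section

namespace Fermat.Agent.LT.T6.H559

/-- Extension to `ℝ` of a profile given on `[1, ∞)`. -/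
def ext559 (Φ : ℝ → ℂ) (x : ℝ) : ℂ := Φ (max x 1)

theorem ext_eq559 (Φ : ℝ → ℂ) {x : ℝ} (hx : 1 ≤ x) : ext559 Φ x = Φ x := by
  unfold ext559
  rw [max_eq_left hx]

theorem ext_profile559 {Φ : ℝ → ℂ} (h : H781.IsProfile Φ) : ∃ R, IsProfile559 (ext559 Φ) R := by
  obtain ⟨hc, R, hR⟩ := h
  refine ⟨max R 1, ?_, ?_⟩
  · have hmax : Continuous fun x : ℝ => max x 1 := continuous_id.max continuous_const
    exact hc.comp_continuous hmax (fun x => le_max_right x 1)
  · intro x hx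
    unfold ext559
    apply hR
    exact le_trans (le_max_left R 1) (hx.trans (le_max_left x 1))

theorem tail_ext559 (Φ : ℝ → ℂ) {X : ℝ} (hX : 1 ≤ X) :
    tail559 (ext559 Φ) X = H781.tailI Φ X := by
  unfold tail559 H781.tailI
  apply setIntegral_congr_fun measurableSet_Ioi
  intro t ht
  exact ext_eq559 Φ (hX.trans (le_of_lt ht))

/-- The argument of `Φ` upstairs is `≥ 1`. -/
theorem upArg_ge_one559 (θ β τ : ℝ) :
    1 ≤ 2 * cosh β ^ 2 * (1 + sin (θ / 2) ^ 2 * sinh τ ^ 2) - 1 := by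
  have h1 : 1 ≤ cosh β ^ 2 := by
    have := one_le_cosh β
    nlinarith
  have h2 : 0 ≤ sin (θ / 2) ^ 2 * sinh τ ^ 2 := by positivity
  nlinarith [mul_nonneg (by linarith : (0 : ℝ) ≤ cosh β ^ 2) h2]

/-- The integrand upstairs in the coordinates of helper781. -/
def fUp559 (Φ : ℝ → ℂ) (θ τ β : ℝ) : ℂ :=
  Φ (2 * cosh β ^ 2 * (1 + sin (θ / 2) ^ 2 * sinh τ ^ 2) - 1)
    * ((cosh β ^ 2 * sinh τ : ℝ) : ℂ)

theorem integrable_fUp559 {Φ : ℝ → ℂ} {R : ℝ} (hΦ : IsProfile559 Φ R) (θ : ℝ)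
    (hs : sin (θ / 2) ≠ 0) :
    Integrable (Function.uncurry fun τ β : ℝ => fUp559 Φ θ τ β)
      ((volume.restrict (Ioi (0 : ℝ))).prod (volume : Measure ℝ)) := by
  have hm : (volume.restrict (Ioi (0 : ℝ))).prod (volume : Measure ℝ)
      = (volume : Measure (ℝ × ℝ)).restrict (Ioi (0 : ℝ) ×ˢ (univ : Set ℝ)) := by
    rw [Measure.volume_eq_prod, ← Measure.prod_restrict, Measure.restrict_univ]
  rw [hm]
  set B : ℝ := |R| + 1 with hB
  have hB1 : 1 ≤ B := by have := abs_nonneg R; linarith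
  have hs2 : 0 < sin (θ / 2) ^ 2 := by positivity
  have hS : IsClosed (Ici (0 : ℝ) ×ˢ (univ : Set ℝ)) := isClosed_Ici.prod isClosed_univ
  have hK : IsCompact (Icc (0 : ℝ) (B / sin (θ / 2) ^ 2) ×ˢ Icc (-B) B) :=
    isCompact_Icc.prod isCompact_Icc
  have hcont : ContinuousOn (Function.uncurry fun τ β : ℝ => fUp559 Φ θ τ β)
      (Ici (0 : ℝ) ×ˢ (univ : Set ℝ)) := by
    apply Continuous.continuousOn
    unfold fUp559
    apply Continuous.mul
    · exact hΦ.cont.comp (by fun_prop)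
    · fun_prop
  have h0 : ∀ p ∈ Ici (0 : ℝ) ×ˢ (univ : Set ℝ),
      p ∉ Icc (0 : ℝ) (B / sin (θ / 2) ^ 2) ×ˢ Icc (-B) B →
      (Function.uncurry fun τ β : ℝ => fUp559 Φ θ τ β) p = 0 := by
    rintro ⟨τ, β⟩ hp hpK
    have hτ : (0 : ℝ) ≤ τ := hp.1
    have hbig : R ≤ 2 * cosh β ^ 2 * (1 + sin (θ / 2) ^ 2 * sinh τ ^ 2) - 1 := by
      by_contra hlt
      rw [not_le] at hlt
      apply hpK
      have hRB : R ≤ B - 1 := by have := le_abs_self R; linarith
      have hc1 : 1 ≤ cosh β := one_le_cosh β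
      have hc2 : 1 ≤ cosh β ^ 2 := by nlinarith
      have hq : 0 ≤ sin (θ / 2) ^ 2 * sinh τ ^ 2 := by positivity
      -- arg ≥ cosh β
      have h1 : cosh β ≤ 2 * cosh β ^ 2 * (1 + sin (θ / 2) ^ 2 * sinh τ ^ 2) - 1 := by
        nlinarith [mul_nonneg (by linarith : (0 : ℝ) ≤ cosh β ^ 2) hq]
      -- arg ≥ 1 + 2 s² sinh² τ ≥ 2 s² τ²
      have hsinh : τ ≤ sinh τ := self_le_sinh_iff.2 hτ
      have hsinh2 : τ ^ 2 ≤ sinh τ ^ 2 := by nlinarith
      have h2 : 2 * sin (θ / 2) ^ 2 * τ ^ 2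
          ≤ 2 * cosh β ^ 2 * (1 + sin (θ / 2) ^ 2 * sinh τ ^ 2) - 1 := by
        have h3 : sin (θ / 2) ^ 2 * τ ^ 2 ≤ sin (θ / 2) ^ 2 * sinh τ ^ 2 :=
          mul_le_mul_of_nonneg_left hsinh2 hs2.le
        nlinarith [mul_nonneg (sub_nonneg.2 hc2) hq]
      refine ⟨⟨hτ, ?_⟩, ?_⟩
      · rw [le_div_iff₀ hs2]
        by_contra h
        rw [not_le] at h
        have hτ0 : 0 < τ := by
          by_contra h0
          have : τ = 0 := le_antisymm (not_lt.1 h0) hτ
          rw [this] at h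
          linarith
        have h3 : B * τ < τ * sin (θ / 2) ^ 2 * τ := by
          have := mul_lt_mul_of_pos_right h hτ0
          linarith
        have hs1 : sin (θ / 2) ^ 2 ≤ 1 := sin_sq_le_one _
        have hτ1 : 1 ≤ τ := by
          by_contra h1'
          rw [not_le] at h1'
          nlinarith
        nlinarith
      · have h3 : |β| < B := by
          have := abs_lt_cosh559 β
          linarith
        exact ⟨(abs_lt.1 h3).1.le, (abs_lt.1 h3).2.le⟩
    simp only [Function.uncurry, fUp559, hΦ.zero _ hbig, zero_mul]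
  exact (integrableOn_prod559 hS hK hcont h0).mono_set
    (prod_mono Ioi_subset_Ici_self (subset_refl _))

/-- The upstairs integral of helper781 equals `ellUp559`. -/
theorem ellUp781_eq559 {Φ : ℝ → ℂ} {R : ℝ} (hΦ : IsProfile559 Φ R) (θ : ℝ)
    (hs : sin (θ / 2) ≠ 0) :
    (∫ τ in Ioi (0 : ℝ), ∫ β : ℝ, fUp559 Φ θ τ β) = ellUp559 Φ θ := by
  rw [integral_integral_swap (integrable_fUp559 hΦ θ hs)]
  unfold ellUp559
  have h2 := Measure.integral_comp_mul_left (fun β : ℝ => ∫ τ in Ioi (0 : ℝ), fUp559 Φ θ τ β) 2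
  have h3 : ∫ b : ℝ, ∫ τ in Ioi (0 : ℝ),
        Φ (cosh (4 * b) + 2 * cosh (2 * b) ^ 2 * sin (θ / 2) ^ 2 * sinh τ ^ 2)
          * ((2 * cosh (2 * b) ^ 2 * sinh τ : ℝ) : ℂ)
      = (2 : ℂ) * ∫ b : ℝ, (fun β : ℝ => ∫ τ in Ioi (0 : ℝ), fUp559 Φ θ τ β) (2 * b) := by
    rw [← integral_const_mul]
    apply integral_congr_ae
    filter_upwards with b
    rw [← integral_const_mul]
    apply setIntegral_congr_fun measurableSet_Ioi
    intro τ _
    beta_reduce
    unfold fUp559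
    have h4 : cosh (4 * b) = 2 * cosh (2 * b) ^ 2 - 1 := by
      rw [show (4 : ℝ) * b = 2 * (2 * b) by ring, cosh_two_mul, cosh_sq (2 * b)]
      ring
    rw [h4, show 2 * cosh (2 * b) ^ 2 - 1 + 2 * cosh (2 * b) ^ 2 * sin (θ / 2) ^ 2 * sinh τ ^ 2
        = 2 * cosh (2 * b) ^ 2 * (1 + sin (θ / 2) ^ 2 * sinh τ ^ 2) - 1 by ring]
    push_cast
    ring
  rw [h3, h2]
  have : |(2 : ℝ)⁻¹| = 2⁻¹ := abs_of_pos (by norm_num)
  rw [this, Complex.real_smul]
  push_cast
  ring

/-- `∫_ℝ h = 2 ∫_{x>0} h` for an even integrable function. -/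
theorem integral_even559 {h : ℝ → ℂ} (hint : Integrable h) (heven : ∀ x, h (-x) = h x) :
    ∫ x : ℝ, h x = 2 * ∫ x in Ioi (0 : ℝ), h x := by
  have h1 := intervalIntegral.integral_Iic_add_Ioi (b := (0 : ℝ)) hint.integrableOn
    hint.integrableOn
  have h2 : ∫ x in Iic (0 : ℝ), h x = ∫ x in Ioi (0 : ℝ), h x := by
    have := integral_comp_neg_Ioi (0 : ℝ) h
    rw [neg_zero] at this
    rw [← this]
    apply setIntegral_congr_fun measurableSet_Ioi
    intro x _
    exact heven x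
  rw [← h1, h2]
  ring

/-- **T6.28 (B)** `EllUpC` of helper781, VERBATIM, unconditional. -/
theorem ellUpC559 : H781.EllUpC := by
  intro Φ hΦ θ hθ
  obtain ⟨R, hP⟩ := ext_profile559 hΦ
  have hs : sin (θ / 2) ≠ 0 := by
    intro h0
    apply hθ
    have := sin_two_mul (θ / 2)
    rw [show 2 * (θ / 2) = θ by ring] at this
    rw [this, h0]
    ring
  have hbpos : ∀ x : ℝ, 0 < cosh x - cos θ := fun x =>
    lt_of_lt_of_le (by positivity) (cosh_sub_cos_ge559 θ x)
  -- step a: replace Φ by its extension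
  have ha : H781.ellUp Φ θ = ∫ τ in Ioi (0 : ℝ), ∫ β : ℝ, fUp559 (ext559 Φ) θ τ β := by
    unfold H781.ellUp fUp559
    apply setIntegral_congr_fun measurableSet_Ioi
    intro τ _
    apply integral_congr_ae
    filter_upwards with β
    rw [ext_eq559 Φ (upArg_ge_one559 θ β τ)]
  rw [ha, ellUp781_eq559 hP θ hs, ellUp_eq559 hP θ hs]
  -- step e: evenness
  have hint : Integrable (fun x : ℝ => ((1 / (4 * (cosh x - cos θ)) : ℝ) : ℂ)
      * tail559 (ext559 Φ) (cosh x)) := by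
    apply integrable_kernel559 hP
    exact continuous_const.div (by fun_prop) (fun x => (mul_pos (by norm_num) (hbpos x)).ne')
  rw [integral_even559 hint (by intro x; simp only [cosh_neg])]
  unfold H781.ellKer
  rw [← integral_const_mul, ← integral_const_mul]
  apply setIntegral_congr_fun measurableSet_Ioi
  intro v _
  beta_reduce
  rw [tail_ext559 Φ (one_le_cosh v)]
  have hb' : ((cosh v - cos θ : ℝ) : ℂ) ≠ 0 := by exact_mod_cast (hbpos v).ne'
  rw [Complex.ofReal_div]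
  push_cast at hb' ⊢
  field_simp
  ring

end Fermat.Agent.LT.T6.H559

end
end
-- ===== PACK-END LT/T6/H559/EllUpC.lean

-- ===== PACK-BEGIN LT/T6/H372/ProperGlue.lean
section


/-!
# Row LT, tower T6, leaf T6.18g2-P0 `ProperGlueC783` (helper372)

OFF-MAIN.  Leaf `ProperGlueC783` of the sub-spec `LT/T6/H783/DescSpec.lean` (helper783, bytes
frozen, imported verbatim):

    ProperGlueC783 : RootBoundC783 → BH90C783 → ProperC783

`φ` is supported on finitely many cosets `x₀ U'(n)`, `x₀ ∈ F`; the entries of `x₀ u` and of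
`(x₀ u)⁻¹ = u⁻¹ x₀⁻¹`, `u ∈ U'(n)`, are bounded by the bound `exp A` of the entries of the
`x₀, x₀⁻¹` (`u`, `u⁻¹` are integral; ultrametric inequality).  So `φ(x⁻¹ h σ(x)) ≠ 0` gives
`EntryBdd783 A (x⁻¹ h σ(x))`, `RootBoundC783` bounds the cocycle `x⁻¹ σ(x)` by `A'` and
`BH90C783` gives the finite set `Y`.
-/

set_option autoImplicit false

open scoped Matrix

noncomputable section

namespace Fermat.Agent.LT.T6.H372

open Fermat.Agent.LT.T6 Fermat.Agent.LT.T6.H783

/-- Every value of the valuation is bounded by some `exp A`. -/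
theorem exists_le_exp372 (z : Γ₀) : ∃ A : ℤ, z ≤ WithZero.exp A := by
  by_cases hz : z = 0
  · exact ⟨0, by rw [hz]; exact zero_le⟩
  · exact ⟨WithZero.log z, by rw [WithZero.exp_log hz]⟩

/-- The entries of an element of `U(n)` are integral. -/
theorem inU_entry_le_one372 {K : Type} [Field K] [Valued K Γ₀] {n : ℕ} {u : GL (Fin 2) K}
    (hu : InU n u) (a b : Fin 2) :
    Valued.v ((u : Matrix (Fin 2) (Fin 2) K) a b) ≤ 1 ∧
      Valued.v (((u⁻¹ : GL (Fin 2) K) : Matrix (Fin 2) (Fin 2) K) a b) ≤ 1 := by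
  have hexp : WithZero.exp (-(n : ℤ)) ≤ (1 : Γ₀) := by
    rw [← WithZero.exp_zero, WithZero.exp_le_exp]
    omega
  have hone : Valued.v ((1 : Matrix (Fin 2) (Fin 2) K) a b) ≤ (1 : Γ₀) := by
    by_cases hab : a = b
    · rw [Matrix.one_apply, if_pos hab, map_one]
    · rw [Matrix.one_apply, if_neg hab, map_zero]; exact zero_le
  obtain ⟨h1, h2⟩ := hu a b
  constructor
  · have h := Valuation.map_add_le (Valued.v) (h1.trans hexp) hone
    rwa [sub_add_cancel] at h
  · have h := Valuation.map_add_le (Valued.v) (h2.trans hexp) hone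
    rwa [sub_add_cancel] at h

/-- A single element of `GL₂` has bounded entries. -/
theorem exists_entryBdd372 {K : Type} [Field K] [Valued K Γ₀] (g : GL (Fin 2) K) :
    ∃ A : ℤ, EntryBdd783 A g := by
  choose A hA using fun p : Fin 2 × Fin 2 =>
    exists_le_exp372 (Valued.v ((g : Matrix (Fin 2) (Fin 2) K) p.1 p.2))
  choose B hB using fun p : Fin 2 × Fin 2 =>
    exists_le_exp372 (Valued.v (((g⁻¹ : GL (Fin 2) K) : Matrix (Fin 2) (Fin 2) K) p.1 p.2))
  obtain ⟨M, hM⟩ := Finset.exists_le ((Finset.univ.image A) ∪ (Finset.univ.image B))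
  refine ⟨M, fun a b => ⟨(hA (a, b)).trans ?_, (hB (a, b)).trans ?_⟩⟩
  · exact WithZero.exp_le_exp.mpr (hM _ (Finset.mem_union_left _
      (Finset.mem_image_of_mem A (Finset.mem_univ _))))
  · exact WithZero.exp_le_exp.mpr (hM _ (Finset.mem_union_right _
      (Finset.mem_image_of_mem B (Finset.mem_univ _))))

theorem entryBdd_mono372 {K : Type} [Field K] [Valued K Γ₀] {A A' : ℤ} (h : A ≤ A')
    {g : GL (Fin 2) K} (hg : EntryBdd783 A g) : EntryBdd783 A' g := fun a b =>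
  ⟨(hg a b).1.trans (WithZero.exp_le_exp.mpr h), (hg a b).2.trans (WithZero.exp_le_exp.mpr h)⟩

/-- A finite set of elements of `GL₂` has uniformly bounded entries. -/
theorem exists_entryBdd_finset372 {K : Type} [Field K] [Valued K Γ₀]
    (F : Finset (GL (Fin 2) K)) : ∃ A : ℤ, ∀ g ∈ F, EntryBdd783 A g := by
  choose A hA using fun g : GL (Fin 2) K => exists_entryBdd372 g
  obtain ⟨M, hM⟩ := Finset.exists_le (F.image A)
  exact ⟨M, fun g hg => entryBdd_mono372 (hM _ (Finset.mem_image_of_mem A hg)) (hA g)⟩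

/-- The entries of `x₀ u`, `u ∈ U(n)`, are bounded by the bound of `x₀`. -/
theorem entryBdd_mul_inU372 {K : Type} [Field K] [Valued K Γ₀] {A : ℤ} {n : ℕ}
    {x₀ u : GL (Fin 2) K} (hx : EntryBdd783 A x₀) (hu : InU n u) :
    EntryBdd783 A (x₀ * u) := by
  intro a b
  constructor
  · rw [Units.val_mul, Matrix.mul_apply]
    refine Valuation.map_sum_le _ fun c _ => ?_
    rw [map_mul]
    calc Valued.v ((x₀ : Matrix (Fin 2) (Fin 2) K) a c) *
          Valued.v ((u : Matrix (Fin 2) (Fin 2) K) c b)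
        ≤ WithZero.exp A * 1 := mul_le_mul' (hx a c).1 (inU_entry_le_one372 hu c b).1
      _ = WithZero.exp A := mul_one _
  · rw [mul_inv_rev, Units.val_mul, Matrix.mul_apply]
    refine Valuation.map_sum_le _ fun c _ => ?_
    rw [map_mul]
    calc Valued.v (((u⁻¹ : GL (Fin 2) K) : Matrix (Fin 2) (Fin 2) K) a c) *
          Valued.v (((x₀⁻¹ : GL (Fin 2) K) : Matrix (Fin 2) (Fin 2) K) c b)
        ≤ 1 * WithZero.exp A := mul_le_mul' (inU_entry_le_one372 hu a c).2 (hx c b).2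
      _ = WithZero.exp A := one_mul _

/-- **Leaf T6.18g2-P0**: the glue of properness. -/
theorem properGlueC372 : ProperGlueC783 := by
  intro hRB hBH k k' _ _ _ _ q l e i s n φ hd
  obtain ⟨N₀, hN₀⟩ := hRB k k' q l e i s hd.hk hd.hk' hd.ext hd.prime
  obtain ⟨F, hF⟩ := hd.supp
  obtain ⟨A, hA⟩ := exists_entryBdd_finset372 F
  obtain ⟨A', hA'⟩ := hN₀ A
  obtain ⟨Y, hY⟩ := hBH k k' q l e i s hd.hk hd.hk' hd.ext hd.prime n A'
  refine ⟨N₀, Y, fun h x hh hφ => ?_⟩
  obtain ⟨x₀, hx₀, u, hu, hg⟩ := hF _ hφ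
  refine hY x (hA' h x hh ?_)
  rw [hg]
  exact entryBdd_mul_inU372 (hA x₀ hx₀) hu

end Fermat.Agent.LT.T6.H372

end

end
-- ===== PACK-END LT/T6/H372/ProperGlue.lean

-- ===== PACK-BEGIN LT/T6/H717/BH90Desc.lean
section



/-!
# Row LT, tower T6, leaf T6.18g2-P2 (bounded Hilbert 90), helper717: the descent

OFF-MAIN.  `descent717` : for a cyclic extension `k'/k` with generator `s` (`IsLocalExt`) and
`A : ℤ` there is `C` such that every `x ∈ GL₂(k')` with cocycle `x⁻¹ s(x)` bounded by `A`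
is `x = g y'`, `g ∈ GL₂(k)`, `y'` and `y'⁻¹` bounded by `C`.

Proof (matrices only).  `s^m(x) = x N_m`, `N_m = c s(c) ⋯ s^{m-1}(c)` bounded.  With a Galois
partition of unity `∑_j a_j s^m(b_j) = δ_{m0}`: `T_j = ∑_m s^m(b_j x) = x C_j` has entries in `k`,
`C_j` bounded, `x = ∑_j a_j T_j`.  The columns of the `T_j` have rank `2`; `g` = the pair of
columns of maximal `|det|`; Cramer: `T_j = g P_j`, `P_j` integral.  Then `y' = ∑_j a_j P_j` and
`y'⁻¹ = x⁻¹ g` = two columns of the `C_j`.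
-/

set_option autoImplicit false
set_option linter.unusedSectionVars false
set_option linter.style.haveILetI false
set_option linter.unusedVariables false
set_option maxHeartbeats 1600000

open scoped Matrix

noncomputable section

namespace Fermat.Agent.LT.T6.H717

open Fermat.Agent.LT.T6 Fermat.Agent.LT.T6.H783 WithZero

variable {k k' : Type} [Field k] [Field k'] [Valued k Γ₀] [Valued k' Γ₀]

/-! ## Powers of `s` -/

lemma pow_succ_apply717 (s : k' ≃+* k') (m : ℕ) (y : k') : (s ^ (m + 1)) y = s ((s ^ m) y) := by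
  rw [pow_succ']
  rfl

lemma pow_zero_apply717 (s : k' ≃+* k') (y : k') : (s ^ 0) y = y := by
  rw [pow_zero]
  rfl

lemma val_pow717 (s : k' ≃+* k') (hs : ∀ y : k', Valued.v (s y) = Valued.v y) (m : ℕ)
    (y : k') : Valued.v ((s ^ m) y) = Valued.v y := by
  induction m with
  | zero => rw [pow_zero_apply717]
  | succ m ih => rw [pow_succ_apply717, hs, ih]

/-- The trace `∑_{m<l} s^m(y)` is fixed by `s`. -/
lemma trace_fixed717 (s : k' ≃+* k') (l : ℕ) (hord : ∀ y : k', (s ^ l) y = y) (y : k') :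
    s (∑ m ∈ Finset.range l, (s ^ m) y) = ∑ m ∈ Finset.range l, (s ^ m) y := by
  rw [map_sum]
  have h1 : ∑ m ∈ Finset.range l, s ((s ^ m) y) = ∑ m ∈ Finset.range l, (s ^ (m + 1)) y :=
    Finset.sum_congr rfl (fun m _ => (pow_succ_apply717 s m y).symm)
  rw [h1]
  have h2 := Finset.sum_range_succ' (fun m => (s ^ m) y) l
  have h3 := Finset.sum_range_succ (fun m => (s ^ m) y) l
  rw [h3] at h2
  simp only [pow_zero_apply717, hord] at h2
  exact (add_right_cancel h2).symm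

/-! ## A bound for a finite family -/

lemma exists_bound717 {ι : Type} [Fintype ι] (f : ι → k') :
    ∃ B : ℤ, 0 ≤ B ∧ ∀ j, Valued.v (f j) ≤ exp B := by
  classical
  obtain ⟨B, hB⟩ := Finset.exists_le
    (insert (0 : ℤ) ((Finset.univ : Finset ι).image (fun j => log (Valued.v (f j)))))
  refine ⟨B, hB 0 (Finset.mem_insert_self _ _), fun j => ?_⟩
  by_cases h0 : Valued.v (f j) = 0
  · rw [h0]; exact zero_le'
  · rw [← exp_log h0, exp_le_exp]
    exact hB _ (Finset.mem_insert_of_mem (Finset.mem_image_of_mem _ (Finset.mem_univ j)))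

/-! ## The matrices `N_m` -/

/-- `N_0 = 1`, `N_{m+1} = c · s(N_m)`. -/
def Nmat717 (s : k' ≃+* k') (c : Matrix (Fin 2) (Fin 2) k') : ℕ → Matrix (Fin 2) (Fin 2) k'
  | 0 => 1
  | (m + 1) => c * (Nmat717 s c m).map s

lemma map_pow_eq717 (s : k' ≃+* k') (X Xi : Matrix (Fin 2) (Fin 2) k') (hX : X * Xi = 1)
    (m : ℕ) : X.map (s ^ m) = X * Nmat717 s (Xi * X.map s) m := by
  induction m with
  | zero =>
    rw [Nmat717, mul_one]
    ext a b
    rw [Matrix.map_apply, pow_zero_apply717]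
  | succ m ih =>
    have h1 : X.map (s ^ (m + 1)) = (X.map (s ^ m)).map s := by
      ext a b
      rw [Matrix.map_apply, Matrix.map_apply, Matrix.map_apply, pow_succ_apply717]
    have h2 : (X * Nmat717 s (Xi * X.map s) m).map s
        = X.map s * (Nmat717 s (Xi * X.map s) m).map s := by
      exact Matrix.map_mul (f := (s : k' →+* k'))
    rw [h1, ih, h2, Nmat717, ← mul_assoc, ← mul_assoc, hX, one_mul]

lemma Nmat_bdd717 (s : k' ≃+* k') (hs : ∀ y : k', Valued.v (s y) = Valued.v y)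
    (c : Matrix (Fin 2) (Fin 2) k') (A : ℤ) (hA : 0 ≤ A) (hc : MBdd717 A c) (m : ℕ) :
    MBdd717 ((m : ℤ) * A) (Nmat717 s c m) := by
  induction m with
  | zero =>
    rw [Nmat717]
    simpa using (MBdd717.one (K := k'))
  | succ m ih =>
    rw [Nmat717]
    have h1 : MBdd717 ((m : ℤ) * A) ((Nmat717 s c m).map s) := by
      intro a b
      rw [Matrix.map_apply, hs]
      exact ih a b
    have h2 := hc.mul h1
    refine h2.mono ?_
    push_cast
    linarith

/-! ## The determinant is bilinear in the columns -/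

lemma det_eq_zero_of_cols717 {ι : Type} [Fintype ι] (i : k →+* k') (a : ι → k')
    (T0 : ι → Fin 2 → Fin 2 → k) (X : Matrix (Fin 2) (Fin 2) k')
    (hX : ∀ r c, X r c = ∑ j, a j * i (T0 j r c))
    (hdet : ∀ (p p' : ι × Fin 2),
      T0 p.1 0 p.2 * T0 p'.1 1 p'.2 - T0 p.1 1 p.2 * T0 p'.1 0 p'.2 = 0) :
    X.det = 0 := by
  rw [Matrix.det_fin_two, hX 0 0, hX 1 1, hX 0 1, hX 1 0]
  rw [Finset.sum_mul_sum, Finset.sum_mul_sum]
  rw [Finset.sum_comm (f := fun j j' => a j * i (T0 j 0 1) * (a j' * i (T0 j' 1 0)))]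
  rw [← Finset.sum_sub_distrib]
  apply Finset.sum_eq_zero
  intro j _
  rw [← Finset.sum_sub_distrib]
  apply Finset.sum_eq_zero
  intro j' _
  have h := hdet (j, 0) (j', 1)
  simp only at h
  have h2 : a j * i (T0 j 0 0) * (a j' * i (T0 j' 1 1)) - a j' * i (T0 j' 0 1) * (a j * i (T0 j 1 0))
      = a j * a j' * i (T0 j 0 0 * T0 j' 1 1 - T0 j 1 0 * T0 j' 0 1) := by
    rw [map_sub, map_mul, map_mul]
    ring
  rw [h2, h, map_zero, mul_zero]

end Fermat.Agent.LT.T6.H717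

end
end
-- ===== PACK-END LT/T6/H717/BH90Desc.lean

-- ===== PACK-BEGIN LT/T6/H420/OrbSumExFull.lean
section





/-!
# Row LT, tower T6, leaf T6.08 (helper420): `OrbSumExC`, UNCONDITIONAL

`orbSumExC_of_normInjC` (this seat) applied to `normInjC848` (T6.05, helper848, vendored
byte-identical from `origin/helper848@a730c876d`).
-/

set_option autoImplicit false

namespace Fermat.Agent.LT.T6.H420

/-- **T6.08 `OrbSumExC`**, unconditional. -/
theorem orbSumExC420 : OrbSumExC := orbSumExC_of_normInjC Fermat.Agent.LT.T6.H848.normInjC848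

end Fermat.Agent.LT.T6.H420

end
-- ===== PACK-END LT/T6/H420/OrbSumExFull.lean

-- ===== PACK-BEGIN LT/T6/H820/PowTop.lean
section


/-!
# Row LT, tower T6, leaf T6.18g3 `H783.PowC783`: the PROVED glue (seat helper820, OFF-MAIN)

    powC_of_leaves820 : T6.OrbSumExC → H783.LvlC783 → PowRootC820 → H783.PowC783
    powC_of_all820 : T6.OrbSumExC → H783.LvlC783 → RootFnC820 → PowRootFromFnC820 → H783.PowC783

See the header of `PowSpec.lean`.
-/

set_option autoImplicit false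

open scoped Matrix

noncomputable section

namespace Fermat.Agent.LT.T6.H820

open Fermat.Agent.LT.T6 Fermat.Agent.LT.T6.H783

section Algebra

variable {k : Type} [Field k]

theorem glAut_refl820 (x : GL (Fin 2) k) : glAut (RingEquiv.refl k) x = x := by
  apply Units.ext
  ext a b
  simp [glAut]

theorem trace_conj820 (x y : GL (Fin 2) k) :
    ((x⁻¹ * y * x : GL (Fin 2) k) : Matrix (Fin 2) (Fin 2) k).trace
      = (y : Matrix (Fin 2) (Fin 2) k).trace := by
  have e : ((x⁻¹ * y * x : GL (Fin 2) k) : Matrix (Fin 2) (Fin 2) k)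
      = (x⁻¹ : GL (Fin 2) k).val * (y.val * x.val) := by
    simp [mul_assoc]
  rw [e, Matrix.trace_mul_comm, mul_assoc]
  have h2 : x.val * (x⁻¹ : GL (Fin 2) k).val = 1 := by
    rw [← Units.val_mul]; simp
  rw [h2, mul_one]

theorem det_conj820 (x y : GL (Fin 2) k) :
    ((x⁻¹ * y * x : GL (Fin 2) k) : Matrix (Fin 2) (Fin 2) k).det
      = (y : Matrix (Fin 2) (Fin 2) k).det := by
  have e : ((x⁻¹ * y * x : GL (Fin 2) k) : Matrix (Fin 2) (Fin 2) k)
      = (x⁻¹ : GL (Fin 2) k).val * y.val * x.val := by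
    simp
  rw [e, Matrix.det_mul, Matrix.det_mul]
  have h2 : (x⁻¹ : GL (Fin 2) k).val.det * x.val.det = 1 := by
    rw [← Matrix.det_mul, ← Units.val_mul]; simp
  calc (x⁻¹ : GL (Fin 2) k).val.det * y.val.det * x.val.det
      = ((x⁻¹ : GL (Fin 2) k).val.det * x.val.det) * y.val.det := by ring
    _ = y.val.det := by rw [h2, one_mul]

theorem isReg_conj820 {x y : GL (Fin 2) k} (hy : IsReg y) : IsReg (x⁻¹ * y * x) := by
  unfold IsReg disc at hy ⊢
  rw [trace_conj820, det_conj820]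
  exact hy

theorem inChiBall_conj820 [Valued k Γ₀] {t d : k} {N : ℤ} {x y : GL (Fin 2) k}
    (hy : InChiBall783 t d N y) : InChiBall783 t d N (x⁻¹ * y * x) := by
  unfold InChiBall783 at hy ⊢
  rw [trace_conj820, det_conj820]
  exact hy

theorem conj_pow820 (x y : GL (Fin 2) k) (l : ℕ) : (x⁻¹ * y * x) ^ l = x⁻¹ * y ^ l * x := by
  induction l with
  | zero => simp
  | succ n ih => rw [pow_succ, ih, pow_succ]; group

end Algebra

section Transfer

variable {k : Type} [Field k] [Valued k Γ₀]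

theorem inU_mono820 {m m' : ℕ} (h : m ≤ m') {g : GL (Fin 2) k} (hg : InU m' g) : InU m g := by
  intro i j
  have hle : WithZero.exp (-(m' : ℤ)) ≤ (WithZero.exp (-(m : ℤ)) : Γ₀) := by
    rw [WithZero.exp_le_exp]
    omega
  exact ⟨(hg i j).1.trans hle, (hg i j).2.trans hle⟩

theorem isBiInv_mono820 {m m' : ℕ} (h : m ≤ m') {ψ : GL (Fin 2) k → ℂ}
    (hψ : IsBiInv (InU m) ψ) : IsBiInv (InU m') ψ :=
  fun u u' g hu hu' => hψ u u' g (inU_mono820 h hu) (inU_mono820 h hu')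

/-- The compact centralisers of `y` and of `ρ y` coincide. -/
theorem inTwCentC_root820 {l : ℕ} {ρ : GL (Fin 2) k → GL (Fin 2) k} {y : GL (Fin 2) k}
    (hpow : (ρ y) ^ l = y)
    (heq : ∀ x : GL (Fin 2) k, ρ (x⁻¹ * y * x) = x⁻¹ * ρ y * x) (t : GL (Fin 2) k) :
    InTwCentC (RingEquiv.refl k) y t ↔ InTwCentC (RingEquiv.refl k) (ρ y) t := by
  unfold InTwCentC InTwCent
  rw [glAut_refl820]
  constructor
  · rintro ⟨h1, h2⟩
    refine ⟨?_, h2⟩
    have := heq t
    rw [h1] at this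
    exact this.symm
  · rintro ⟨h1, h2⟩
    refine ⟨?_, h2⟩
    have := congrArg (fun z => z ^ l) h1
    simp only [conj_pow820, hpow] at this
    exact this

theorem cIndex_root820 {l m : ℕ} {ρ : GL (Fin 2) k → GL (Fin 2) k} {y : GL (Fin 2) k}
    (hpow : (ρ y) ^ l = y)
    (heq : ∀ x : GL (Fin 2) k, ρ (x⁻¹ * y * x) = x⁻¹ * ρ y * x) :
    cIndex (InU m) (InTwCentC (RingEquiv.refl k)) y
      = cIndex (InU m) (InTwCentC (RingEquiv.refl k)) (ρ y) := by
  unfold cIndex
  congr 1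
  ext c
  simp only [Set.mem_ofPred_eq]
  constructor
  · rintro ⟨t, ht, hc⟩
    exact ⟨t, (inTwCentC_root820 hpow heq t).1 ht, hc⟩
  · rintro ⟨t, ht, hc⟩
    exact ⟨t, (inTwCentC_root820 hpow heq t).2 ht, hc⟩

/-- **Transfer of orbit sums along an equivariant root.** -/
theorem orbSum_root820 {l : ℕ} {N₀ N₁ : ℤ} {m' : ℕ} {ψ f₀ : GL (Fin 2) k → ℂ}
    {ρ : GL (Fin 2) k → GL (Fin 2) k} (hρ : IsRootOn820 l N₀ N₁ ψ ρ f₀)
    {γ : GL (Fin 2) k} (hγ : IsReg γ) (hball : InChiBall783 2 1 N₁ γ) {c : ℂ}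
    (hc : IsOrbSum m' f₀ γ c) : IsOrbSum m' ψ (ρ γ) c := by
  classical
  obtain ⟨R, h1, h2, h3, h4⟩ := hc
  -- the elements of the class of `γ`
  have hcl : ∀ y : GL (Fin 2) k, (∃ x : GL (Fin 2) k, y = x⁻¹ * γ * glAut (RingEquiv.refl k) x) →
      IsReg y ∧ InChiBall783 2 1 N₁ y ∧ ∃ x : GL (Fin 2) k, y = x⁻¹ * γ * x ∧
        ρ y = x⁻¹ * ρ γ * x := by
    rintro y ⟨x, rfl⟩
    rw [glAut_refl820]
    exact ⟨isReg_conj820 hγ, inChiBall_conj820 hball, x, rfl, (hρ γ hγ hball).2.2.2.1 x⟩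
  have hinj : ∀ y ∈ R, ∀ y' ∈ R, ρ y = ρ y' → y = y' := by
    intro y hy y' hy' e
    have a := (hρ y (hcl y (h1 y hy)).1 (hcl y (h1 y hy)).2.1).1
    have a' := (hρ y' (hcl y' (h1 y' hy')).1 (hcl y' (h1 y' hy')).2.1).1
    rw [← a, ← a', e]
  refine ⟨R.image ρ, ?_, ?_, ?_, ?_⟩
  · intro z hz
    obtain ⟨y, hy, rfl⟩ := Finset.mem_image.1 hz
    obtain ⟨-, -, x, -, hx⟩ := hcl y (h1 y hy)
    exact ⟨x, by rw [glAut_refl820]; exact hx⟩
  · intro z hz z' hz' hu
    obtain ⟨y, hy, rfl⟩ := Finset.mem_image.1 hz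
    obtain ⟨y', hy', rfl⟩ := Finset.mem_image.1 hz'
    obtain ⟨u, hu, e⟩ := hu
    rw [glAut_refl820] at e
    have a := (hρ y (hcl y (h1 y hy)).1 (hcl y (h1 y hy)).2.1).1
    have a' := (hρ y' (hcl y' (h1 y' hy')).1 (hcl y' (h1 y' hy')).2.1).1
    have e' : y' = u⁻¹ * y * glAut (RingEquiv.refl k) u := by
      rw [glAut_refl820, ← a, ← a', e, conj_pow820]
    rw [h2 y hy y' hy' ⟨u, hu, e'⟩]
  · intro z hz hne
    obtain ⟨x, hx⟩ := hz
    rw [glAut_refl820] at hx
    -- `z = ρ y` with `y = x⁻¹ γ x`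
    have hy0 : ∃ x' : GL (Fin 2) k, x⁻¹ * γ * x = x'⁻¹ * γ * glAut (RingEquiv.refl k) x' :=
      ⟨x, by rw [glAut_refl820]⟩
    obtain ⟨hyr, hyb, -⟩ := hcl (x⁻¹ * γ * x) hy0
    have hzy : ρ (x⁻¹ * γ * x) = z := by
      rw [(hρ γ hγ hball).2.2.2.1 x, hx]
    have hf : f₀ (x⁻¹ * γ * x) ≠ 0 := by
      rw [(hρ _ hyr hyb).2.2.2.2, hzy]
      exact hne
    obtain ⟨y', hy', u, hu, e⟩ := h3 _ hy0 hf
    rw [glAut_refl820] at e
    refine ⟨ρ y', Finset.mem_image_of_mem ρ hy', u, hu, ?_⟩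
    rw [glAut_refl820, ← hzy, e]
    exact (hρ y' (hcl y' (h1 y' hy')).1 (hcl y' (h1 y' hy')).2.1).2.2.2.1 u
  · rw [h4, Finset.sum_image hinj]
    refine Finset.sum_congr rfl fun y hy => ?_
    obtain ⟨hyr, hyb, -⟩ := hcl y (h1 y hy)
    obtain ⟨hp, -, -, heq, hf⟩ := hρ y hyr hyb
    rw [hf, cIndex_root820 hp heq]

/-- Scaling an orbit sum. -/
theorem orbSum_smul820 {m : ℕ} {f : GL (Fin 2) k → ℂ} {γ : GL (Fin 2) k} {c : ℂ} {a : ℂ}
    (ha : a ≠ 0) (hc : IsOrbSum m (fun y => a * f y) γ c) : IsOrbSum m f γ (a⁻¹ * c) := by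
  obtain ⟨R, h1, h2, h3, h4⟩ := hc
  refine ⟨R, h1, h2, ?_, ?_⟩
  · intro y hy hne
    exact h3 y hy (mul_ne_zero ha hne)
  · rw [h4, Finset.mul_sum]
    refine Finset.sum_congr rfl fun y _ => ?_
    rw [← mul_assoc, ← mul_assoc, inv_mul_cancel₀ ha, one_mul]

end Transfer

/-- The untwisted instance of `OrbSumExC`. -/
theorem orbSumEx_untw820 (hEx : OrbSumExC) (k : Type) [Field k] [Valued k Γ₀] (q : ℕ)
    (hk : IsLocalField k q) (n : ℕ) (φ : GL (Fin 2) k → ℂ) (hφ : IsBiInv (InU n) φ)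
    (hφf : HasFinSupp (InU n) φ) (δ : GL (Fin 2) k) (hδ : IsReg δ) :
    ∃ c : ℂ, IsOrbSum n φ δ c := by
  have hext : IsLocalExt k k 1 1 (RingHom.id k) (RingEquiv.refl k) :=
    { cyc :=
        { pos := Nat.one_pos
          fix_i := fun _ => rfl
          fixed := fun y _ => ⟨y, rfl⟩
          order := fun _ => rfl
          faithful := fun m h0 h1 => by omega }
      e_pos := Nat.one_pos
      val_i := fun x => by simp
      val_s := fun _ => rfl }
  have hk' : IsLocalField k (q ^ (1 / 1)) := by simpa using hk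
  have hreg : IsReg (twNorm (RingEquiv.refl k) 1 δ) := by
    have : twNorm (RingEquiv.refl k) 1 δ = δ := by
      simp [twNorm, twN]
    rw [this]
    exact hδ
  exact hEx k k q 1 1 (RingHom.id k) (RingEquiv.refl k) hk hk' hext n φ hφ hφf δ hreg

/-- **THE GLUE**: `PowC783` from the existence of orbit sums, the level change and the `l`-th
root near the identity. -/
theorem powC_of_leaves820 (hEx : OrbSumExC) (hLvl : LvlC783) (hRoot : PowRootC820) :
    PowC783 := by
  intro k _ _ q l hk hl N₀ m ψ hψb hψf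
  obtain ⟨N₁, m', ρ, f₀, hmm', hf₀b, hf₀f, hρ⟩ := hRoot k q l hk hl N₀ m ψ hψb hψf
  obtain ⟨κ, hκ, hκ'⟩ := hLvl k q hk m m' hmm'
  have hκC : (κ : ℂ) ≠ 0 := Nat.cast_ne_zero.2 hκ
  refine ⟨N₁, m', fun y => (κ : ℂ)⁻¹ * f₀ y, ?_, ?_, ?_⟩
  · intro u u' g hu hu'
    simp only
    rw [hf₀b u u' g hu hu']
  · obtain ⟨F, hF⟩ := hf₀f
    exact ⟨F, fun g hg => hF g (right_ne_zero_of_mul hg)⟩
  · intro γ hγ hball
    obtain ⟨hp, hreg, hb0, -, -⟩ := hρ γ hγ hball
    refine ⟨ρ γ, hp, hb0, ?_⟩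
    intro c' hc'
    -- orbit sum of `f₀` at `γ`, level `m'`
    have h1 : IsOrbSum m' f₀ γ ((κ : ℂ) * c') := by
      have := orbSum_smul820 (inv_ne_zero hκC) hc'
      rwa [inv_inv] at this
    -- transfer to `h = ρ γ`
    have h2 : IsOrbSum m' ψ (ρ γ) ((κ : ℂ) * c') := orbSum_root820 hρ hγ hball h1
    -- existence at level `m` and level change
    obtain ⟨c, hc⟩ := orbSumEx_untw820 hEx k q hk m ψ hψb hψf (ρ γ) hreg
    have h3 := hκ' ψ hψb (ρ γ) c ((κ : ℂ) * c') hreg hc h2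
    have : c' = c := mul_left_cancel₀ hκC h3
    rw [this]
    exact hc

/-- `PowC783` from the four leaves. -/
theorem powC_of_all820 (hEx : OrbSumExC) (hLvl : LvlC783) (hFn : RootFnC820)
    (hB : PowRootFromFnC820) : PowC783 :=
  powC_of_leaves820 hEx hLvl (hB hFn)

end Fermat.Agent.LT.T6.H820

end

end
-- ===== PACK-END LT/T6/H820/PowTop.lean

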