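import Mathlib
import Fermat.Agent.Pack.LT2.E0L2
import Fermat.Agent.Pack.LT2.E2L1
import Fermat.Agent.Pack.LT2.E5L3
import Fermat.Agent.Pack.LT3.E8L2
import Fermat.Agent.Pack.LT2.E0L1
import Fermat.Agent.Pack.LT3.E9L0
import Fermat.Agent.Pack.LT3.E6L2
import Fermat.Agent.Pack.LT3.E9L2
import Fermat.Agent.Pack.LT3.E9L3
import Fermat.Agent.Pack.LT3.E4L3
import Fermat.Agent.Pack.LT3.E4L2
import Fermat.Agent.Pack.LT3.E4L1
import Fermat.Agent.Pack.LT3.E11L3

set_option linter.all false

-- ===== PACK-BEGIN LT/T2/H848/ConvLin.lean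
section






/-!
# Row LT, tower T2, sub-leaf T2.07.08 `SubConvLin429` (helper848)

OFF-MAIN.  Imports: Mathlib and byte-identical copies of `LT/H556/A0.lean`, `LT/T1/Spec.lean`,
`LT/T2/Spec.lean` (v2, sha256 43969e81), `LT/T2/H429/OpsSpec.lean` (sha256 657e0d9a).

`conv F f φ x = ∫ φ(x h) f(h) dμ(h)` is additive and homogeneous in `φ` on the continuous
functions: `h ↦ θ(x h) f(h)` is continuous with compact support, hence integrable for the Haar
measure of the frame.  No hypothesis of the context is used (neither boundedness of `φ`, nor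
`T1.LocCompC`).
-/

set_option autoImplicit false

open IsDedekindDomain NumberField MeasureTheory
open Fermat.Agent.LT.H556.A0
open Fermat.Agent.LT.T2

noncomputable section

namespace Fermat.Agent.LT.T2.H848

variable {K : Type} [Field K] [NumberField K]

attribute [local instance] Fermat.Agent.LT.T2.borelG

/-- The integrand of a convolution is integrable: `θ` continuous, `f` continuous with compact
support. -/
theorem integrable_conv848 (F : Frame K) {f θ : G K → ℂ} (hf : Continuous f)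
    (hc : HasCompactSupport f) (hθ : Continuous θ) (x : G K) :
    Integrable (fun h => θ (x * h) * f h) F.μ := by
  have : F.μ.IsHaarMeasure := F.haar
  have : BorelSpace (G K) := ⟨rfl⟩
  have h1 : Continuous fun h : G K => θ (x * h) * f h :=
    (hθ.comp (continuous_const.mul continuous_id)).mul hf
  have h2 : HasCompactSupport fun h : G K => θ (x * h) * f h := hc.mul_left
  exact h1.integrable_of_hasCompactSupport h2

/-- Convolution by a continuous function with compact support is additive and homogeneous on the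
continuous functions. -/
theorem conv_lin848 (F : Frame K) {f φ ψ : G K → ℂ} (hf : Continuous f)
    (hc : HasCompactSupport f) (hφ : Continuous φ) (hψ : Continuous ψ) (c : ℂ) :
    conv F f (fun g => φ g + c * ψ g) = fun g => conv F f φ g + c * conv F f ψ g := by
  funext x
  have h1 := integrable_conv848 F hf hc hφ x
  have h2 := (integrable_conv848 F hf hc hψ x).const_mul c
  show ∫ h, (φ (x * h) + c * ψ (x * h)) * f h ∂F.μ
    = ∫ h, φ (x * h) * f h ∂F.μ + c * ∫ h, ψ (x * h) * f h ∂F.μ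
  have h3 : (fun h : G K => (φ (x * h) + c * ψ (x * h)) * f h)
      = fun h => φ (x * h) * f h + c * (ψ (x * h) * f h) := by
    funext h
    ring
  rw [h3, integral_add h1 h2, integral_const_mul]

/-- **T2.07.08** -/
theorem subConvLin848 : H429.SubConvLin429 K := by
  intro 𝔫 _ F f hf φ ψ c hφ hψ
  exact conv_lin848 F hf.test.cont hf.test.cpt hφ.cont hψ.cont c

example : H429.SubConvLin429 K := subConvLin848

end Fermat.Agent.LT.T2.H848

end

end
-- ===== PACK-END LT/T2/H848/ConvLin.lean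

-- ===== PACK-BEGIN LT/T2/H90/LocComp.lean
section



/-!
# Row LT, tower T2, sub-leaf T2.07.12 `SubSpherePres429` (helper90), part 1 -- OFF-MAIN

Local components of `GL₂(𝔸_K)`: multiplicativity of the components, commutation of elements
supported at different places, the element `locG_h90 hw m` supported at a complex place with a
given component.  Used by `SpherePres.lean`.
-/

set_option autoImplicit false
set_option linter.unusedSectionVars false

open IsDedekindDomain NumberField MeasureTheory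
open Fermat.Agent.LT.H556.A0
open Fermat.Agent.LT.T2 Fermat.Agent.LT.T2.H429

noncomputable section

namespace Fermat.Agent.LT.T2.H90

variable {K : Type} [Field K] [NumberField K]

/-! ## 1. Components -/

/-- The projection of the adele ring to the completion at the infinite place `w`. -/
def infPr_h90 (w : InfinitePlace K) : Adl K →+* w.Completion where
  toFun a := a.1 w
  map_one' := rfl
  map_mul' _ _ := rfl
  map_zero' := rfl
  map_add' _ _ := rfl

/-- The projection of the adele ring to the completion at the finite place `v`. -/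
def finPr_h90 (v : HeightOneSpectrum (𝓞 K)) : Adl K →+* v.adicCompletion K where
  toFun a := a.2 v
  map_one' := rfl
  map_mul' _ _ := rfl
  map_zero' := rfl
  map_add' _ _ := rfl

/-- The raw matrix of `g` at the infinite place `w`. -/
def infRaw_h90 (w : InfinitePlace K) (g : G K) : Matrix (Fin 2) (Fin 2) w.Completion :=
  (g : Matrix (Fin 2) (Fin 2) (Adl K)).map (infPr_h90 w)

theorem infRaw_mul_h90 (w : InfinitePlace K) (g h : G K) :
    infRaw_h90 w (g * h) = infRaw_h90 w g * infRaw_h90 w h := by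
  simp only [infRaw_h90, Units.val_mul]
  exact Matrix.map_mul

theorem finComp_eq_map_h90 (v : HeightOneSpectrum (𝓞 K)) (g : G K) :
    finComp v g = (g : Matrix (Fin 2) (Fin 2) (Adl K)).map (finPr_h90 v) := rfl

theorem finComp_mul_h90 (v : HeightOneSpectrum (𝓞 K)) (g h : G K) :
    finComp v (g * h) = finComp v g * finComp v h := by
  simp only [finComp_eq_map_h90, Units.val_mul]
  exact Matrix.map_mul

theorem infComp_eq_map_h90 (w : InfinitePlace K) (g : G K) :
    infComp w g = (infRaw_h90 w g).map (InfinitePlace.Completion.extensionEmbedding w) := rfl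

theorem infComp_mul_h90 (w : InfinitePlace K) (g h : G K) :
    infComp w (g * h) = infComp w g * infComp w h := by
  simp only [infComp_eq_map_h90, infRaw_mul_h90]
  exact Matrix.map_mul

theorem trivAtInf_iff_h90 (w : InfinitePlace K) (g : G K) :
    TrivAtInf w g ↔ infRaw_h90 w g = 1 := by
  constructor
  · intro h
    exact Matrix.ext fun i j => h i j
  · intro h i j
    have := congrFun (congrFun h i) j
    exact this

theorem infRaw_injective_h90 (w : InfinitePlace K) {A B : Matrix (Fin 2) (Fin 2) w.Completion}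
    (h : A.map (InfinitePlace.Completion.extensionEmbedding w)
      = B.map (InfinitePlace.Completion.extensionEmbedding w)) : A = B := by
  refine Matrix.ext fun i j => ?_
  have := congrFun (congrFun h i) j
  exact (InfinitePlace.Completion.extensionEmbedding w).injective this

/-- Extensionality for elements of `GL₂(𝔸_K)`. -/
theorem gl_ext_h90 {g h : G K} (hinf : ∀ w : InfinitePlace K, infRaw_h90 w g = infRaw_h90 w h)
    (hfin : ∀ v : HeightOneSpectrum (𝓞 K), finComp v g = finComp v h) : g = h := by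
  apply Units.ext
  ext i j
  refine Prod.ext ?_ ?_
  · funext w
    exact congrFun (congrFun (hinf w) i) j
  · apply DFunLike.ext
    intro v
    exact congrFun (congrFun (hfin v) i) j

/-- Two elements commute if their components commute at every place. -/
theorem commute_of_comp_h90 {g h : G K}
    (hinf : ∀ w : InfinitePlace K,
      infRaw_h90 w g * infRaw_h90 w h = infRaw_h90 w h * infRaw_h90 w g)
    (hfin : ∀ v : HeightOneSpectrum (𝓞 K), finComp v g * finComp v h = finComp v h * finComp v g) :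
    g * h = h * g := by
  refine gl_ext_h90 ?_ ?_
  · intro w
    rw [infRaw_mul_h90, infRaw_mul_h90, hinf w]
  · intro v
    rw [finComp_mul_h90, finComp_mul_h90, hfin v]

/-! ## 2. Commutation of elements supported at different places -/

/-- An element which is trivial at all infinite places commutes with an element supported at
an infinite place. -/
theorem commute_level_local_h90 {w : InfinitePlace K} {u y : G K}
    (hu : ∀ w' : InfinitePlace K, TrivAtInf w' u) (hy : IsLocalAtInf w y) :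
    u * y = y * u := by
  refine commute_of_comp_h90 ?_ ?_
  · intro w'
    rw [(trivAtInf_iff_h90 w' u).1 (hu w'), one_mul, mul_one]
  · intro v
    have : finComp v y = 1 := hy.2 v
    rw [this, one_mul, mul_one]

/-- An element supported at the infinite place `w'` commutes with an element supported at the
infinite place `w`, if it is scalar at `w'` or if `w' ≠ w`. -/
theorem commute_local_local_h90 {w w' : InfinitePlace K} {z y : G K}
    (hz : IsLocalAtInf w' z) (hy : IsLocalAtInf w y)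
    (h : w' ≠ w ∨ ∃ c : ℂ, infComp w' z = Matrix.diagonal (fun _ => c)) :
    z * y = y * z := by
  refine commute_of_comp_h90 ?_ ?_
  · intro w''
    by_cases h1 : w'' = w'
    · subst h1
      rcases h with h | ⟨c, hc⟩
      · have : infRaw_h90 w'' y = 1 := (trivAtInf_iff_h90 w'' y).1 (hy.1 w'' h)
        rw [this, one_mul, mul_one]
      · apply infRaw_injective_h90 w''
        rw [Matrix.map_mul, Matrix.map_mul, ← infComp_eq_map_h90, ← infComp_eq_map_h90, hc]
        ext i j
        fin_cases i <;> fin_cases j <;>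
          simp [Matrix.mul_apply, Fin.sum_univ_two, mul_comm]
    · have : infRaw_h90 w'' z = 1 := (trivAtInf_iff_h90 w'' z).1 (hz.1 w'' h1)
      rw [this, one_mul, mul_one]
  · intro v
    have : finComp v y = 1 := hy.2 v
    rw [this, one_mul, mul_one]

/-! ## 3. The element supported at a complex place with a given component -/

/-- Extensionality for matrices over the adeles. -/
theorem mat_ext_h90 {A B : Matrix (Fin 2) (Fin 2) (Adl K)}
    (hinf : ∀ w : InfinitePlace K, A.map (infPr_h90 w) = B.map (infPr_h90 w))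
    (hfin : ∀ v : HeightOneSpectrum (𝓞 K), A.map (finPr_h90 v) = B.map (finPr_h90 v)) :
    A = B := by
  ext i j
  refine Prod.ext ?_ ?_
  · funext w
    exact congrFun (congrFun (hinf w) i) j
  · apply DFunLike.ext
    intro v
    exact congrFun (congrFun (hfin v) i) j

open Classical in
/-- The matrix over the adeles with component `m` at the complex place `w` and the identity at
all other places. -/
def locMat_h90 {w : InfinitePlace K} (hw : w.IsComplex) (m : Matrix (Fin 2) (Fin 2) ℂ) :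
    Matrix (Fin 2) (Fin 2) (Adl K) :=
  fun i j =>
    (⟨Function.update (fun w' : InfinitePlace K => (1 : Matrix (Fin 2) (Fin 2) w'.Completion) i j)
        w ((InfinitePlace.Completion.ringEquivComplexOfIsComplex hw).symm (m i j)),
      (1 : Matrix (Fin 2) (Fin 2) (FiniteAdeleRing (𝓞 K) K)) i j⟩ :
      InfiniteAdeleRing K × FiniteAdeleRing (𝓞 K) K)

open Classical in
theorem locMat_inf_self_h90 {w : InfinitePlace K} (hw : w.IsComplex)
    (m : Matrix (Fin 2) (Fin 2) ℂ) :
    (locMat_h90 hw m).map (infPr_h90 w)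
      = m.map (InfinitePlace.Completion.ringEquivComplexOfIsComplex hw).symm := by
  refine Matrix.ext fun i j => ?_
  change Function.update (fun w' : InfinitePlace K => (1 : Matrix (Fin 2) (Fin 2) w'.Completion) i j)
        w ((InfinitePlace.Completion.ringEquivComplexOfIsComplex hw).symm (m i j)) w
      = (InfinitePlace.Completion.ringEquivComplexOfIsComplex hw).symm (m i j)
  exact Function.update_self _ _ _

open Classical in
theorem locMat_inf_ne_h90 {w w' : InfinitePlace K} (hw : w.IsComplex) (h : w' ≠ w)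
    (m : Matrix (Fin 2) (Fin 2) ℂ) :
    (locMat_h90 hw m).map (infPr_h90 w') = 1 := by
  refine Matrix.ext fun i j => ?_
  change Function.update (fun w' : InfinitePlace K => (1 : Matrix (Fin 2) (Fin 2) w'.Completion) i j)
        w ((InfinitePlace.Completion.ringEquivComplexOfIsComplex hw).symm (m i j)) w'
      = (1 : Matrix (Fin 2) (Fin 2) w'.Completion) i j
  exact Function.update_of_ne h _ _

theorem locMat_fin_h90 {w : InfinitePlace K} (hw : w.IsComplex) (v : HeightOneSpectrum (𝓞 K))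
    (m : Matrix (Fin 2) (Fin 2) ℂ) :
    (locMat_h90 hw m).map (finPr_h90 v) = 1 := by
  refine Matrix.ext fun i j => ?_
  change ((1 : Matrix (Fin 2) (Fin 2) (FiniteAdeleRing (𝓞 K) K)) i j) v
      = (1 : Matrix (Fin 2) (Fin 2) (v.adicCompletion K)) i j
  by_cases hij : i = j
  · subst hij
    simp only [Matrix.one_apply_eq]
    rfl
  · simp only [Matrix.one_apply_ne hij]
    rfl

theorem locMat_mul_h90 {w : InfinitePlace K} (hw : w.IsComplex)
    (m m' : Matrix (Fin 2) (Fin 2) ℂ) :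
    locMat_h90 hw (m * m') = locMat_h90 hw m * locMat_h90 hw m' := by
  refine mat_ext_h90 ?_ ?_
  · intro w'
    by_cases h : w' = w
    · subst h
      rw [Matrix.map_mul, locMat_inf_self_h90, locMat_inf_self_h90, locMat_inf_self_h90,
        Matrix.map_mul]
    · rw [Matrix.map_mul, locMat_inf_ne_h90 hw h, locMat_inf_ne_h90 hw h,
        locMat_inf_ne_h90 hw h, one_mul]
  · intro v
    rw [Matrix.map_mul, locMat_fin_h90, locMat_fin_h90, locMat_fin_h90, one_mul]

theorem locMat_one_h90 {w : InfinitePlace K} (hw : w.IsComplex) :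
    locMat_h90 hw (1 : Matrix (Fin 2) (Fin 2) ℂ) = 1 := by
  refine mat_ext_h90 ?_ ?_
  · intro w'
    by_cases h : w' = w
    · subst h
      rw [locMat_inf_self_h90, Matrix.map_one _ (map_zero _) (map_one _),
        Matrix.map_one _ (map_zero _) (map_one _)]
    · rw [locMat_inf_ne_h90 hw h, Matrix.map_one _ (map_zero _) (map_one _)]
  · intro v
    rw [locMat_fin_h90, Matrix.map_one _ (map_zero _) (map_one _)]

/-- The element of `GL₂(𝔸_K)` supported at the complex place `w` with component `m`. -/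
def locG_h90 {w : InfinitePlace K} (hw : w.IsComplex) (m : GL (Fin 2) ℂ) : G K :=
  ⟨locMat_h90 hw (m : Matrix (Fin 2) (Fin 2) ℂ),
    locMat_h90 hw ((m⁻¹ : GL (Fin 2) ℂ) : Matrix (Fin 2) (Fin 2) ℂ),
    by rw [← locMat_mul_h90, ← Units.val_mul, mul_inv_cancel, Units.val_one, locMat_one_h90],
    by rw [← locMat_mul_h90, ← Units.val_mul, inv_mul_cancel, Units.val_one, locMat_one_h90]⟩

theorem locG_mul_h90 {w : InfinitePlace K} (hw : w.IsComplex) (m m' : GL (Fin 2) ℂ) :
    locG_h90 (K := K) hw (m * m') = locG_h90 hw m * locG_h90 hw m' := by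
  apply Units.ext
  exact locMat_mul_h90 hw _ _

theorem locG_isLocal_h90 {w : InfinitePlace K} (hw : w.IsComplex) (m : GL (Fin 2) ℂ) :
    IsLocalAtInf w (locG_h90 (K := K) hw m) := by
  refine ⟨fun w' h => ?_, fun v => ?_⟩
  · rw [trivAtInf_iff_h90]
    exact locMat_inf_ne_h90 hw h _
  · exact locMat_fin_h90 hw v _

theorem infComp_locG_h90 {w : InfinitePlace K} (hw : w.IsComplex) (m : GL (Fin 2) ℂ) :
    infComp w (locG_h90 (K := K) hw m) = (m : Matrix (Fin 2) (Fin 2) ℂ) := by
  rw [infComp_eq_map_h90]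
  have : infRaw_h90 w (locG_h90 (K := K) hw m)
      = (m : Matrix (Fin 2) (Fin 2) ℂ).map
          (InfinitePlace.Completion.ringEquivComplexOfIsComplex hw).symm :=
    locMat_inf_self_h90 hw _
  rw [this]
  refine Matrix.ext fun i j => ?_
  simp only [Matrix.map_apply]
  exact (InfinitePlace.Completion.ringEquivComplexOfIsComplex hw).apply_symm_apply _

/-- An element supported at `w` is determined by its component at `w`. -/
theorem eq_of_local_h90 {w : InfinitePlace K} {y y' : G K} (hy : IsLocalAtInf w y)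
    (hy' : IsLocalAtInf w y') (h : infComp w y = infComp w y') : y = y' := by
  refine gl_ext_h90 ?_ ?_
  · intro w'
    by_cases h1 : w' = w
    · subst h1
      exact infRaw_injective_h90 w' h
    · rw [(trivAtInf_iff_h90 w' y).1 (hy.1 w' h1), (trivAtInf_iff_h90 w' y').1 (hy'.1 w' h1)]
  · intro v
    rw [show finComp v y = 1 from hy.2 v, show finComp v y' = 1 from hy'.2 v]

theorem isLocal_mul_h90 {w : InfinitePlace K} {y y' : G K} (hy : IsLocalAtInf w y)
    (hy' : IsLocalAtInf w y') : IsLocalAtInf w (y * y') := by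
  refine ⟨fun w' h => ?_, fun v => ?_⟩
  · rw [trivAtInf_iff_h90, infRaw_mul_h90, (trivAtInf_iff_h90 w' y).1 (hy.1 w' h),
      (trivAtInf_iff_h90 w' y').1 (hy'.1 w' h), one_mul]
  · change finComp v (y * y') = 1
    rw [finComp_mul_h90, show finComp v y = 1 from hy.2 v, show finComp v y' = 1 from hy'.2 v,
      one_mul]

end Fermat.Agent.LT.T2.H90

end
end
-- ===== PACK-END LT/T2/H90/LocComp.lean

-- ===== PACK-BEGIN LT/T2/H91/ZPlus.lean
section



/-!
# Row LT, tower T2, tool for the sub-leaves of T2.07 (helper91)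

OFF-MAIN.  A cusp function of `T2.IsCuspFn` is right invariant under the DIAGONAL positive scalars
`Z⁺` (`T2.IsDiagPosScalar`): such a scalar is the product over the infinite places `w` of scalars
supported at `w` (`A0.IsArchPosScalar w`), under which the function is invariant by
`IsCuspFn.arch_scalar`.  No hypothesis; Mathlib + the frozen vocabulary only.
-/

set_option autoImplicit false

open IsDedekindDomain NumberField MeasureTheory
open Fermat.Agent.LT.H556.A0
open Fermat.Agent.LT.T2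

noncomputable section

namespace Fermat.Agent.LT.T2.H91

variable {K : Type} [Field K] [NumberField K]

open scoped Classical in
/-- The adele with component `x_w` at the infinite places `w ∈ s` and `1` at all other places. -/
def partAdele91 (x : Adl K) (s : Finset (InfinitePlace K)) : Adl K :=
  ((fun w => if w ∈ s then x.1 w else 1), 1)

open scoped Classical in
/-- The adele with component `x_w⁻¹` at the infinite places `w ∈ s` and `1` at all other places. -/
def partAdeleInv91 (x : Adl K) (s : Finset (InfinitePlace K)) : Adl K :=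
  ((fun w => if w ∈ s then (x.1 w)⁻¹ else 1), 1)

open scoped Classical in
theorem partAdele_fst91 (x : Adl K) (s : Finset (InfinitePlace K)) (w : InfinitePlace K) :
    (partAdele91 x s).1 w = if w ∈ s then x.1 w else 1 := rfl

theorem partAdele_snd91 (x : Adl K) (s : Finset (InfinitePlace K)) :
    (partAdele91 x s).2 = 1 := rfl

open scoped Classical in
theorem partAdele_mul_inv91 (x : Adl K) (hx : ∀ w, x.1 w ≠ 0) (s : Finset (InfinitePlace K)) :
    partAdele91 x s * partAdeleInv91 x s = 1 := by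
  refine Prod.ext ?_ ?_
  · funext w
    show (if w ∈ s then x.1 w else 1) * (if w ∈ s then (x.1 w)⁻¹ else 1) = 1
    split_ifs
    · exact mul_inv_cancel₀ (hx w)
    · exact mul_one 1
  · show (1 : FiniteAdeleRing (𝓞 K) K) * 1 = 1
    exact mul_one 1

theorem partAdeleInv_mul91 (x : Adl K) (hx : ∀ w, x.1 w ≠ 0) (s : Finset (InfinitePlace K)) :
    partAdeleInv91 x s * partAdele91 x s = 1 := by
  rw [mul_comm]; exact partAdele_mul_inv91 x hx s

/-- The scalar matrix of `partAdele91 x s`, as an element of `GL₂(𝔸_K)`. -/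
def partScalar91 (x : Adl K) (hx : ∀ w, x.1 w ≠ 0) (s : Finset (InfinitePlace K)) : G K :=
  ⟨Matrix.scalar (Fin 2) (partAdele91 x s), Matrix.scalar (Fin 2) (partAdeleInv91 x s),
    by rw [← map_mul, partAdele_mul_inv91 x hx s, map_one],
    by rw [← map_mul, partAdeleInv_mul91 x hx s, map_one]⟩

theorem partScalar_coe91 (x : Adl K) (hx : ∀ w, x.1 w ≠ 0) (s : Finset (InfinitePlace K)) :
    ((partScalar91 x hx s : G K) : Matrix (Fin 2) (Fin 2) (Adl K))
      = Matrix.scalar (Fin 2) (partAdele91 x s) := rfl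

theorem partAdele_empty91 (x : Adl K) : partAdele91 x ∅ = 1 := by
  refine Prod.ext ?_ rfl
  funext w
  rw [partAdele_fst91]
  simp only [Finset.notMem_empty, if_false]
  rfl

theorem partScalar_empty91 (x : Adl K) (hx : ∀ w, x.1 w ≠ 0) : partScalar91 x hx ∅ = 1 := by
  apply Units.ext
  rw [partScalar_coe91, partAdele_empty91, map_one]
  rfl

open scoped Classical in
theorem partAdele_insert91 (x : Adl K) (s : Finset (InfinitePlace K)) (w : InfinitePlace K)
    (hw : w ∉ s) : partAdele91 x (insert w s) = partAdele91 x s * partAdele91 x {w} := by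
  refine Prod.ext ?_ ?_
  · funext w'
    show (if w' ∈ insert w s then x.1 w' else 1)
      = (if w' ∈ s then x.1 w' else 1) * (if w' ∈ ({w} : Finset _) then x.1 w' else 1)
    by_cases h1 : w' = w
    · subst h1
      simp [hw]
    · by_cases h2 : w' ∈ s
      · simp [h1, h2]
      · simp [h1, h2]
  · show (1 : FiniteAdeleRing (𝓞 K) K) = 1 * 1
    exact (mul_one 1).symm

open scoped Classical in
theorem partScalar_insert91 (x : Adl K) (hx : ∀ w, x.1 w ≠ 0) (s : Finset (InfinitePlace K))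
    (w : InfinitePlace K) (hw : w ∉ s) :
    partScalar91 x hx (insert w s) = partScalar91 x hx s * partScalar91 x hx {w} := by
  apply Units.ext
  rw [Units.val_mul, partScalar_coe91, partScalar_coe91, partScalar_coe91,
    partAdele_insert91 x s w hw, map_mul]

/-- Components of a scalar matrix. -/
theorem scalar_fst91 (x : Adl K) (i j : Fin 2) (w : InfinitePlace K) :
    ((Matrix.scalar (Fin 2) x : Matrix (Fin 2) (Fin 2) (Adl K)) i j).1 w
      = if i = j then x.1 w else 0 := by
  by_cases hij : i = j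
  · subst hij
    simp
  · simp only [Matrix.scalar_apply, Matrix.diagonal_apply_ne _ hij, if_neg hij]
    rfl

theorem scalar_snd91 (x : Adl K) (i j : Fin 2) (v : HeightOneSpectrum (𝓞 K)) :
    ((Matrix.scalar (Fin 2) x : Matrix (Fin 2) (Fin 2) (Adl K)) i j).2 v
      = if i = j then x.2 v else 0 := by
  by_cases hij : i = j
  · subst hij
    simp
  · simp only [Matrix.scalar_apply, Matrix.diagonal_apply_ne _ hij, if_neg hij]
    rfl

/-- The entries of a diagonal positive scalar. -/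
theorem diagPos_entries91 {z : G K} (hz : IsDiagPosScalar z) :
    (∀ w, ((z : Matrix (Fin 2) (Fin 2) (Adl K)) 0 0).1 w ≠ 0) ∧
    (z : Matrix (Fin 2) (Fin 2) (Adl K))
      = Matrix.scalar (Fin 2)
          (partAdele91 ((z : Matrix (Fin 2) (Fin 2) (Adl K)) 0 0) Finset.univ) := by
  obtain ⟨hfin, r, hr, hinf⟩ := hz
  have hent : ∀ (w : InfinitePlace K) (i j : Fin 2),
      InfinitePlace.Completion.extensionEmbedding w
        (((z : Matrix (Fin 2) (Fin 2) (Adl K)) i j).1 w)
        = if i = j then (r : ℂ) else 0 := by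
    intro w i j
    have := congrFun (congrFun (hinf w) i) j
    rw [Matrix.diagonal_apply] at this
    exact this
  have hne : ∀ w, ((z : Matrix (Fin 2) (Fin 2) (Adl K)) 0 0).1 w ≠ 0 := by
    intro w h0
    have h := hent w 0 0
    rw [h0, map_zero, if_pos rfl] at h
    exact hr.ne' (by exact_mod_cast h.symm)
  refine ⟨hne, ?_⟩
  ext i j
  refine Prod.ext ?_ ?_
  · funext w
    have hinj := (InfinitePlace.Completion.extensionEmbedding w).injective
    apply hinj
    rw [hent w i j, scalar_fst91, partAdele_fst91]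
    by_cases hij : i = j
    · rw [if_pos hij, if_pos hij, if_pos (Finset.mem_univ w), hent w 0 0, if_pos rfl]
    · rw [if_neg hij, if_neg hij, map_zero]
  · apply FiniteAdeleRing.ext
    intro v
    have h : finComp v z i j = (1 : Matrix (Fin 2) (Fin 2) (v.adicCompletion K)) i j := by
      rw [show finComp v z = 1 from hfin v]
    have h' : ((z : Matrix (Fin 2) (Fin 2) (Adl K)) i j).2 v
        = (1 : Matrix (Fin 2) (Fin 2) (v.adicCompletion K)) i j := h
    rw [h', scalar_snd91, partAdele_snd91, Matrix.one_apply]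
    rfl

/-- The scalar supported at the infinite place `w` is an `A0.IsArchPosScalar w`. -/
theorem partScalar_single_isArch91 {z : G K} (hz : IsDiagPosScalar z) (w : InfinitePlace K) :
    IsArchPosScalar w
      (partScalar91 ((z : Matrix (Fin 2) (Fin 2) (Adl K)) 0 0) (diagPos_entries91 hz).1 {w}) := by
  classical
  obtain ⟨hfin, r, hr, hinf⟩ := hz
  have h00 : InfinitePlace.Completion.extensionEmbedding w
      (((z : Matrix (Fin 2) (Fin 2) (Adl K)) 0 0).1 w) = (r : ℂ) := by
    have := congrFun (congrFun (hinf w) 0) 0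
    rw [Matrix.diagonal_apply, if_pos rfl] at this
    exact this
  refine ⟨⟨?_, ?_⟩, r, hr, ?_⟩
  · intro w' hw' i j
    rw [partScalar_coe91, scalar_fst91, partAdele_fst91, Matrix.one_apply]
    have : w' ∉ ({w} : Finset (InfinitePlace K)) := by simpa using hw'
    rw [if_neg this]
  · intro v
    refine Matrix.ext fun i j => ?_
    show ((partScalar91 ((z : Matrix (Fin 2) (Fin 2) (Adl K)) 0 0) _ {w} :
      Matrix (Fin 2) (Fin 2) (Adl K)) i j).2 v = (1 : Matrix (Fin 2) (Fin 2) _) i j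
    rw [partScalar_coe91, scalar_snd91, partAdele_snd91, Matrix.one_apply]
    rfl
  · refine Matrix.ext fun i j => ?_
    show InfinitePlace.Completion.extensionEmbedding w
      (((partScalar91 ((z : Matrix (Fin 2) (Fin 2) (Adl K)) 0 0) _ {w} :
        Matrix (Fin 2) (Fin 2) (Adl K)) i j).1 w) = _
    rw [partScalar_coe91, scalar_fst91, partAdele_fst91, Matrix.diagonal_apply,
      if_pos (Finset.mem_singleton_self w)]
    by_cases hij : i = j
    · rw [if_pos hij, if_pos hij, h00]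
    · rw [if_neg hij, if_neg hij, map_zero]

/-- **A cusp function is right invariant under the diagonal positive scalars `Z⁺`.** -/
theorem cuspFn_diagPos91 {𝔫 : Ideal (𝓞 K)} {φ : G K → ℂ} (hφ : IsCuspFn 𝔫 φ) {z : G K}
    (hz : IsDiagPosScalar z) (g : G K) : φ (g * z) = φ g := by
  classical
  have hne := (diagPos_entries91 hz).1
  have hz' : z = partScalar91 ((z : Matrix (Fin 2) (Fin 2) (Adl K)) 0 0) hne Finset.univ := by
    apply Units.ext
    rw [partScalar_coe91]
    exact (diagPos_entries91 hz).2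
  have key : ∀ s : Finset (InfinitePlace K), ∀ g : G K,
      φ (g * partScalar91 ((z : Matrix (Fin 2) (Fin 2) (Adl K)) 0 0) hne s) = φ g := by
    intro s
    induction s using Finset.induction_on with
    | empty => intro g; rw [partScalar_empty91, mul_one]
    | insert w s hw ih =>
      intro g
      rw [partScalar_insert91 _ hne s w hw, ← mul_assoc,
        hφ.arch_scalar w _ (partScalar_single_isArch91 hz w), ih]
  rw [hz']
  exact key Finset.univ g

end Fermat.Agent.LT.T2.H91

end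

end
-- ===== PACK-END LT/T2/H91/ZPlus.lean

-- ===== PACK-BEGIN LT/T6/H338/GDist.lean
section



/-!
# Row LT, tower T6 — the distance `a - b` of the Cartan invariant on `GL₂(k)` (helper338, OFF-MAIN)

Helper lemmas for T6.10 / T6.13 / T6.14 (registry row T6.13b).  `k` any field with `Valued k ℤᵐ⁰`.
`gd338 g = 2 log (entryMax g) - log v(det g) = a - b` for `cartan g = (a, b)`.
Vendored byte-identical: `T6/Spec.lean` (helper22@823e765ba), `H129/*` (helper129@b7820190f).
-/

set_option autoImplicit false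

open Matrix

noncomputable section

namespace Fermat.Agent.LT.H338

open Fermat.Agent.LT.T6 Fermat.Agent.LT.H129

variable {k : Type} [Field k] [Valued k Γ₀]

/-! ### Values -/

theorem lt_iff_le_mul_exp338 {x y : Γ₀} (hy : y ≠ 0) : x < y ↔ x ≤ y * WithZero.exp (-1 : ℤ) := by
  have h := WithZero.lt_mul_exp_iff_le (x := x) (y := y * WithZero.exp (-1 : ℤ))
    (mul_ne_zero hy WithZero.exp_ne_zero)
  rw [mul_assoc, ← WithZero.exp_add] at h
  simpa using h

theorem exp_neg_one_lt_one338 : (WithZero.exp (-1 : ℤ) : Γ₀) < 1 := by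
  rw [← WithZero.exp_zero, WithZero.exp_lt_exp]; norm_num

/-! ### Entries -/

omit [Valued k Γ₀] in
theorem det_eq338 (g : GL (Fin 2) k) :
    (g : Matrix (Fin 2) (Fin 2) k).det = g 0 0 * g 1 1 - g 0 1 * g 1 0 :=
  Matrix.det_fin_two _

theorem valued_det_ne_zero338 (g : GL (Fin 2) k) :
    Valued.v (g : Matrix (Fin 2) (Fin 2) k).det ≠ 0 := by
  rw [ne_eq, map_eq_zero, det_eq338]
  exact det_ne_zero129 g

theorem exists_entry_eq_entryMax338 (g : GL (Fin 2) k) :
    ∃ i j : Fin 2, Valued.v ((g : Matrix (Fin 2) (Fin 2) k) i j) = entryMax g := by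
  obtain ⟨p, -, hp⟩ := Finset.exists_mem_eq_sup' Finset.univ_nonempty
    (fun p : Fin 2 × Fin 2 => Valued.v ((g : Matrix (Fin 2) (Fin 2) k) p.1 p.2))
  exact ⟨p.1, p.2, hp.symm⟩

theorem valued_det_le338 (g : GL (Fin 2) k) :
    Valued.v (g : Matrix (Fin 2) (Fin 2) k).det ≤ entryMax g * entryMax g := by
  rw [det_eq338]
  refine le_trans (Valuation.map_sub _ _ _) (max_le ?_ ?_)
  · rw [map_mul]
    exact mul_le_mul' (entry_le_entryMax129 g 0 0) (entry_le_entryMax129 g 1 1)
  · rw [map_mul]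
    exact mul_le_mul' (entry_le_entryMax129 g 0 1) (entry_le_entryMax129 g 1 0)

theorem entryMax_ne_zero338 (g : GL (Fin 2) k) : entryMax g ≠ 0 := by
  intro h
  have := valued_det_le338 g
  rw [h, mul_zero] at this
  exact valued_det_ne_zero338 g (le_antisymm this zero_le)

/-! ### The function `gd = a - b` -/

/-- `a - b` for the Cartan invariant `(a, b)`. -/
def gd338 (g : GL (Fin 2) k) : ℤ :=
  2 * WithZero.log (entryMax g) - WithZero.log (Valued.v (g : Matrix (Fin 2) (Fin 2) k).det)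

theorem gd338_eq_cartan (g : GL (Fin 2) k) : gd338 g = (cartan g).1 - (cartan g).2 := by
  unfold gd338 cartan; ring

theorem gd338_nonneg (g : GL (Fin 2) k) : 0 ≤ gd338 g := by
  have h := valued_det_le338 g
  have h2 := (WithZero.log_le_log (valued_det_ne_zero338 g)
    (mul_ne_zero (entryMax_ne_zero338 g) (entryMax_ne_zero338 g))).2 h
  rw [WithZero.log_mul (entryMax_ne_zero338 g) (entryMax_ne_zero338 g)] at h2
  unfold gd338; omega

/-- `gd g = 0` iff `v(det g) = entryMax g ^ 2`. -/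
theorem gd338_eq_zero_iff (g : GL (Fin 2) k) :
    gd338 g = 0 ↔ Valued.v (g : Matrix (Fin 2) (Fin 2) k).det = entryMax g * entryMax g := by
  have hM := entryMax_ne_zero338 g
  constructor
  · intro h
    apply log_inj129 (valued_det_ne_zero338 g) (mul_ne_zero hM hM)
    rw [WithZero.log_mul hM hM]
    unfold gd338 at h; omega
  · intro h
    unfold gd338
    rw [h, WithZero.log_mul hM hM]; ring

/-- `gd g ≠ 0` iff `v(det g) < entryMax g ^ 2`. -/
theorem gd338_ne_zero_iff (g : GL (Fin 2) k) :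
    gd338 g ≠ 0 ↔ Valued.v (g : Matrix (Fin 2) (Fin 2) k).det < entryMax g * entryMax g := by
  rw [ne_eq, gd338_eq_zero_iff, lt_iff_le_and_ne]
  exact ⟨fun h => ⟨valued_det_le338 g, h⟩, fun h => h.2⟩

/-! ### Invariance -/

theorem gd338_mul_U (g : GL (Fin 2) k) {u u' : GL (Fin 2) k} (hu : InU 0 u) (hu' : InU 0 u') :
    gd338 (u * g * u') = gd338 g := by
  rw [gd338_eq_cartan, gd338_eq_cartan, cartan_mul129 hu hu']

theorem gd338_mul_right_U (g : GL (Fin 2) k) {u : GL (Fin 2) k} (hu : InU 0 u) :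
    gd338 (g * u) = gd338 g := by
  have h1 : InU 0 (1 : GL (Fin 2) k) := (inU_zero_iff129 _).2 (isMaxCpt129_one _)
  have := gd338_mul_U g h1 hu
  rwa [one_mul] at this

theorem gd338_mul_left_U (g : GL (Fin 2) k) {u : GL (Fin 2) k} (hu : InU 0 u) :
    gd338 (u * g) = gd338 g := by
  have h1 : InU 0 (1 : GL (Fin 2) k) := (inU_zero_iff129 _).2 (isMaxCpt129_one _)
  have := gd338_mul_U g hu h1
  rwa [mul_one] at this

/-- The scalar matrix `z`. -/
def sc338 (z : k) (hz : z ≠ 0) : GL (Fin 2) k := diag129 z z hz hz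

omit [Valued k Γ₀] in
theorem sc338_mul_apply (z : k) (hz : z ≠ 0) (g : GL (Fin 2) k) (i j : Fin 2) :
    ((sc338 z hz * g : GL (Fin 2) k) : Matrix (Fin 2) (Fin 2) k) i j = z * g i j := by
  rw [Matrix.GeneralLinearGroup.coe_mul, Matrix.mul_apply, Fin.sum_univ_two]
  fin_cases i <;> simp [sc338, diag129]

omit [Valued k Γ₀] in
theorem sc338_comm (z : k) (hz : z ≠ 0) (g : GL (Fin 2) k) : sc338 z hz * g = g * sc338 z hz := by
  apply ext_mat129
  ext i j
  rw [sc338_mul_apply, Matrix.GeneralLinearGroup.coe_mul, Matrix.mul_apply, Fin.sum_univ_two]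
  fin_cases j <;> simp [sc338, diag129, mul_comm]

theorem entryMax_sc338_mul (z : k) (hz : z ≠ 0) (g : GL (Fin 2) k) :
    entryMax (sc338 z hz * g) = Valued.v z * entryMax g := by
  have hvz : Valued.v z ≠ 0 := by rwa [ne_eq, map_eq_zero]
  apply le_antisymm
  · apply entryMax_le129
    intro i j
    rw [sc338_mul_apply, map_mul]
    exact mul_le_mul' le_rfl (entry_le_entryMax129 g i j)
  · obtain ⟨i, j, hij⟩ := exists_entry_eq_entryMax338 g
    rw [← hij, ← map_mul, ← sc338_mul_apply z hz g i j]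
    exact entry_le_entryMax129 _ i j

omit [Valued k Γ₀] in
theorem det_sc338_mul (z : k) (hz : z ≠ 0) (g : GL (Fin 2) k) :
    ((sc338 z hz * g : GL (Fin 2) k) : Matrix (Fin 2) (Fin 2) k).det
      = z * z * (g : Matrix (Fin 2) (Fin 2) k).det := by
  rw [det_eq338, det_eq338, sc338_mul_apply, sc338_mul_apply, sc338_mul_apply, sc338_mul_apply]
  ring

theorem gd338_sc_mul (z : k) (hz : z ≠ 0) (g : GL (Fin 2) k) :
    gd338 (sc338 z hz * g) = gd338 g := by
  have hvz : Valued.v z ≠ 0 := by rwa [ne_eq, map_eq_zero]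
  unfold gd338
  rw [entryMax_sc338_mul, det_sc338_mul, map_mul, map_mul,
    WithZero.log_mul hvz (entryMax_ne_zero338 g),
    WithZero.log_mul (mul_ne_zero hvz hvz) (valued_det_ne_zero338 g), WithZero.log_mul hvz hvz]
  ring

theorem gd338_mul_sc (z : k) (hz : z ≠ 0) (g : GL (Fin 2) k) :
    gd338 (g * sc338 z hz) = gd338 g := by
  rw [← sc338_comm, gd338_sc_mul]

/-! ### Elements with `gd = 0`, inverses -/

omit [Valued k Γ₀] in
theorem sc338_mul_sc338_inv (z : k) (hz : z ≠ 0) :
    sc338 z hz * sc338 z⁻¹ (inv_ne_zero hz) = 1 := by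
  apply ext_mat129
  ext i j
  rw [sc338_mul_apply]
  fin_cases i <;> fin_cases j <;> simp [sc338, diag129, hz]

/-- An element with `gd = 0` is a scalar times an element of `GL₂(𝒪)`. -/
theorem exists_sc_of_gd_eq_zero338 {g : GL (Fin 2) k} (h : gd338 g = 0) :
    ∃ (z : k) (hz : z ≠ 0) (u : GL (Fin 2) k), InU 0 u ∧ g = sc338 z hz * u := by
  obtain ⟨i, j, hij⟩ := exists_entry_eq_entryMax338 g
  have hM := entryMax_ne_zero338 g
  have hz : (g : Matrix (Fin 2) (Fin 2) k) i j ≠ 0 := by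
    intro e
    rw [e, map_zero] at hij
    exact hM hij.symm
  have hvz : Valued.v ((g : Matrix (Fin 2) (Fin 2) k) i j) ≠ 0 := by rwa [ne_eq, map_eq_zero]
  refine ⟨_, hz, sc338 _ (inv_ne_zero hz) * g, ?_, ?_⟩
  · rw [inU_zero_iff129]
    have hint : IsInt129 (vO129 k) (sc338 _ (inv_ne_zero hz) * g) := by
      intro a b
      rw [sc338_mul_apply, mem_vO129, map_mul, map_inv₀, hij]
      calc (entryMax g)⁻¹ * Valued.v ((g : Matrix (Fin 2) (Fin 2) k) a b)
          ≤ (entryMax g)⁻¹ * entryMax g := mul_le_mul' le_rfl (entry_le_entryMax129 g a b)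
        _ = 1 := inv_mul_cancel₀ hM
    refine ⟨hint, isInt129_inv_of_det hint ?_⟩
    rw [mem_vO129, map_inv₀, det_sc338_mul, map_mul, map_mul, map_inv₀,
      (gd338_eq_zero_iff g).1 h, hij]
    have : (entryMax g)⁻¹ * (entryMax g)⁻¹ * (entryMax g * entryMax g) = 1 := by
      field_simp
    rw [this, inv_one]
  · rw [← mul_assoc, sc338_mul_sc338_inv, one_mul]

theorem gd338_of_InU {u : GL (Fin 2) k} (hu : InU 0 u) : gd338 u = 0 := by
  have := gd338_mul_right_U (1 : GL (Fin 2) k) hu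
  rw [one_mul] at this
  rw [this, gd338_eq_zero_iff]
  have h1 : entryMax (1 : GL (Fin 2) k) = 1 := by
    apply le_antisymm
    · apply entryMax_le129
      intro i j
      by_cases hij : i = j
      · subst hij; simp
      · simp [hij]
    · have := entry_le_entryMax129 (1 : GL (Fin 2) k) 0 0
      simpa using this
  rw [h1]; simp

/-- Right invariance under the elements with `gd = 0`. -/
theorem gd338_mul_right_of_eq_zero (g : GL (Fin 2) k) {h : GL (Fin 2) k} (hh : gd338 h = 0) :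
    gd338 (g * h) = gd338 g := by
  obtain ⟨z, hz, u, hu, rfl⟩ := exists_sc_of_gd_eq_zero338 hh
  rw [← mul_assoc, gd338_mul_right_U _ hu, gd338_mul_sc]

theorem entry_inv338 (g : GL (Fin 2) k) (i j : Fin 2) :
    Valued.v (((g⁻¹ : GL (Fin 2) k) : Matrix (Fin 2) (Fin 2) k) i j)
      = Valued.v ((g : Matrix (Fin 2) (Fin 2) k) (1 - j) (1 - i))
        / Valued.v (g : Matrix (Fin 2) (Fin 2) k).det := by
  rw [inv_apply129, map_div₀, Matrix.adjugate_fin_two]
  fin_cases i <;> fin_cases j <;> simp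

theorem entryMax_inv338 (g : GL (Fin 2) k) :
    entryMax g⁻¹ = entryMax g / Valued.v (g : Matrix (Fin 2) (Fin 2) k).det := by
  apply le_antisymm
  · apply entryMax_le129
    intro i j
    rw [entry_inv338, div_eq_mul_inv, div_eq_mul_inv]
    exact mul_le_mul' (entry_le_entryMax129 g _ _) le_rfl
  · obtain ⟨i, j, hij⟩ := exists_entry_eq_entryMax338 g
    have := entry_le_entryMax129 g⁻¹ (1 - j) (1 - i)
    rw [entry_inv338] at this
    have e1 : (1 : Fin 2) - (1 - i) = i := by fin_cases i <;> rfl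
    have e2 : (1 : Fin 2) - (1 - j) = j := by fin_cases j <;> rfl
    rw [e1, e2, hij] at this
    exact this

theorem gd338_inv (g : GL (Fin 2) k) : gd338 g⁻¹ = gd338 g := by
  have hM := entryMax_ne_zero338 g
  have hd := valued_det_ne_zero338 g
  unfold gd338
  rw [entryMax_inv338, Matrix.coe_units_inv, Matrix.det_nonsing_inv, Ring.inverse_eq_inv',
    map_inv₀, WithZero.log_div hM hd, WithZero.log_inv]
  ring

end Fermat.Agent.LT.H338

end

end
-- ===== PACK-END LT/T6/H338/GDist.lean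

-- ===== PACK-BEGIN LT/T6/H189/ArchIntClosed.lean
section





/-!
# Row LT, tower T6, leaf T6.23 `ArchInt` -- CLOSED (owner helper189)

OFF-MAIN.  `archIntOut189 : ArchIntOut`, UNCONDITIONAL: the Iwasawa and polar integration formulas
on `GL₂(ℝ)⁺` and `GL₂(ℂ)` for an arbitrary Haar measure, unimodularity, and the Haar probability
measure of `U(2)`.

Leaves: helper972 (L1), helper8 (L1'), helper569 (L2), helper905 (L2'), helper965 (L3),
helper79 (L4), helper281 (L6), helper514 (L6'), helper127 (L7), helper501 (L7'), helper189 (A1),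
helper848 (A2), helper216 (A3), helper915 (A4), helper441 (A5).
-/

set_option autoImplicit false

namespace Fermat.Agent.LT.T6.H189

/-- **The polar integration formula on `GL₂(ℝ)⁺`**, unconditional. -/
theorem polarRC189 : PolarRC :=
  Fermat.Agent.LT.T6.H915.polOfRC915 iwasawaRC189 rightInvRC189 cartanRC189 abelAreaRC189

/-- **The polar integration formula on `GL₂(ℂ)`**, unconditional. -/
theorem polarCC189 : PolarCC :=
  Fermat.Agent.LT.T6.H441.polOfCC441 iwasawaCC189 rightInvCC189 cartanCC189 abelAreaCC189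

/-- **T6.23 `ArchInt`, CLOSED.** -/
theorem archIntOut189 : ArchIntOut :=
  archIntOut_of_pol189 Fermat.Agent.LT.T6.H915.polOfRC915 Fermat.Agent.LT.T6.H441.polOfCC441

end Fermat.Agent.LT.T6.H189

end
-- ===== PACK-END LT/T6/H189/ArchIntClosed.lean

-- ===== PACK-BEGIN LT/T6/H781/EllId.lean
section



/-!
# Row LT, tower T6, leaf T6.28 `ArchEllId` (registry 1263, helper781): THE ELLIPTIC IDENTITY

OFF-MAIN.  Mathlib only.  `archEllId781 : ArchEllIdC` (Spec: `LT/T6/H781/EllSpec.lean`), from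
(A) `ellDownC781` (`EllDown.lean`) and (B) `ellUpC781` (`EllUp.lean`) by the substitution
`p = √2 sinh v` and `sin²θ + sinh²v = (cosh v - cos θ)(cosh v + cos θ)`.
-/

set_option autoImplicit false

open MeasureTheory Set

noncomputable section

namespace Fermat.Agent.LT.T6.H781

theorem integrableOn_ker781 {g : ℝ → ℂ} {R : ℝ} (hg : Continuous g)
    (h0 : ∀ y, R ≤ y → g y = 0) {s : ℝ} (hs : s ≠ 0) (k : ℝ → ℝ) (hk : Continuous k) :
    IntegrableOn (fun v : ℝ => tailI g (Real.cosh v) *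
      ((k v / (s ^ 2 + Real.sinh v ^ 2) : ℝ) : ℂ)) (Ioi 0) := by
  have hs2 : 0 < s ^ 2 := by positivity
  have hcont : Continuous (fun v : ℝ => tailI g (Real.cosh v) *
      ((k v / (s ^ 2 + Real.sinh v ^ 2) : ℝ) : ℂ)) := by
    have h1 : Continuous fun v : ℝ => tailI g (Real.cosh v) :=
      (continuous_tailI781 hg h0).comp Real.continuous_cosh
    have h2 : Continuous fun v : ℝ => k v / (s ^ 2 + Real.sinh v ^ 2) :=
      hk.div (continuous_const.add (Real.continuous_sinh.pow 2))
        (fun v => by nlinarith [sq_nonneg (Real.sinh v)])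
    exact h1.mul (Complex.continuous_ofReal.comp h2)
  have hsupp : HasCompactSupport (fun v : ℝ => tailI g (Real.cosh v) *
      ((k v / (s ^ 2 + Real.sinh v ^ 2) : ℝ) : ℂ)) := by
    refine hasCompactSupport_interval781 (B := R) fun v hv => ?_
    show tailI g (Real.cosh v) * _ = 0
    rw [tailI_zero781 h0 (le_trans hv.le (abs_le_cosh781 v)), zero_mul]
  exact (hcont.integrable_of_hasCompactSupport hsupp).integrableOn

theorem sqrt_arg781 (v : ℝ) :
    Real.sqrt ((1 + (Real.sqrt 2 * Real.sinh (1 * v)) ^ 2 + 1) / 2) = Real.cosh v := by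
  have h1 : (1 + (Real.sqrt 2 * Real.sinh (1 * v)) ^ 2 + 1) / 2 = Real.cosh v ^ 2 := by
    rw [one_mul, mul_pow, Real.sq_sqrt (by norm_num), Real.cosh_sq]
    ring
  rw [h1, Real.sqrt_sq (Real.cosh_pos v).le]

theorem den_arg781 (s v : ℝ) :
    2 * s ^ 2 + (Real.sqrt 2 * Real.sinh (1 * v)) ^ 2 = 2 * (s ^ 2 + Real.sinh v ^ 2) := by
  rw [one_mul, mul_pow, Real.sq_sqrt (by norm_num)]
  ring

/-- **T6.28, the formal top**: (A) and (B) give the elliptic identity. -/
theorem archEllIdTop781 : ArchEllIdTopC := by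
  intro hA hB g₀ G₁ Φ κ hg₀ hG₁ hΦ h0 h1 θ hθ
  have hBθ := hB Φ hΦ θ hθ
  have hA0 := hA g₀ hg₀ θ hθ
  have hA1 := hA G₁ hG₁ θ hθ
  obtain ⟨hc, R₀, h00⟩ := hΦ
  have hg : Continuous (profExt781 Φ) := continuous_profExt781 hc
  have hz : ∀ y, max R₀ 1 ≤ y → profExt781 Φ y = 0 := fun y hy => profExt781_zero h00 hy
  have i1 := integrableOn_ker781 hg hz hθ Real.cosh Real.continuous_cosh
  have i2 := integrableOn_ker781 hg hz hθ (fun _ => (1 : ℝ)) continuous_const
  have hs2 : 0 < Real.sin θ ^ 2 := by positivity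
  have hsq2 : ((Real.sqrt 2 : ℝ) : ℂ) ≠ 0 := by
    have : Real.sqrt 2 ≠ 0 := (Real.sqrt_pos.2 two_pos).ne'
    exact_mod_cast this
  have hsq2' : ((Real.sqrt 2 : ℝ) : ℂ) * ((Real.sqrt 2 : ℝ) : ℂ) = 2 := by
    rw [← Complex.ofReal_mul, Real.mul_self_sqrt (by norm_num)]
    norm_num
  -- (A) for `g₀`
  have a0 : ((Real.pi : ℝ) : ℂ) * ellDown g₀ θ = κ / 2 * ∫ v in Ioi (0 : ℝ),
      tailI (profExt781 Φ) (Real.cosh v) *
        ((Real.cosh v / (Real.sin θ ^ 2 + Real.sinh v ^ 2) : ℝ) : ℂ) := by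
    rw [hA0]
    have e0 : ∀ p ∈ Ioi (0 : ℝ),
        abelT g₀ (1 + p ^ 2) / ((2 * Real.sin θ ^ 2 + p ^ 2 : ℝ) : ℂ)
        = (fun p : ℝ => κ * tailI Φ (Real.sqrt ((1 + p ^ 2 + 1) / 2)) /
            ((Real.sqrt 2 : ℝ) : ℂ) / ((2 * Real.sin θ ^ 2 + p ^ 2 : ℝ) : ℂ)) p := by
      intro p _
      show _ = κ * tailI Φ (Real.sqrt ((1 + p ^ 2 + 1) / 2)) /
            ((Real.sqrt 2 : ℝ) : ℂ) / ((2 * Real.sin θ ^ 2 + p ^ 2 : ℝ) : ℂ)
      rw [h0 (1 + p ^ 2) (by nlinarith [sq_nonneg p])]
    rw [setIntegral_congr_fun measurableSet_Ioi e0]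
    have eS := integral_subst_sinh781 (Real.sqrt_pos.2 two_pos) one_pos
      (fun p : ℝ => κ * tailI Φ (Real.sqrt ((1 + p ^ 2 + 1) / 2)) /
            ((Real.sqrt 2 : ℝ) : ℂ) / ((2 * Real.sin θ ^ 2 + p ^ 2 : ℝ) : ℂ))
    rw [eS, ← integral_const_mul]
    refine setIntegral_congr_fun measurableSet_Ioi fun v _ => ?_
    show ((Real.sqrt 2 * 1 * Real.cosh (1 * v) : ℝ) : ℂ) *
        (κ * tailI Φ (Real.sqrt ((1 + (Real.sqrt 2 * Real.sinh (1 * v)) ^ 2 + 1) / 2)) /
            ((Real.sqrt 2 : ℝ) : ℂ) /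
            ((2 * Real.sin θ ^ 2 + (Real.sqrt 2 * Real.sinh (1 * v)) ^ 2 : ℝ) : ℂ))
      = κ / 2 * (tailI (profExt781 Φ) (Real.cosh v) *
        ((Real.cosh v / (Real.sin θ ^ 2 + Real.sinh v ^ 2) : ℝ) : ℂ))
    rw [sqrt_arg781, den_arg781, tailI_profExt781 Φ (Real.one_le_cosh v), one_mul, mul_one]
    have hD : 0 < Real.sin θ ^ 2 + Real.sinh v ^ 2 := by nlinarith [sq_nonneg (Real.sinh v)]
    have hDc : ((Real.sin θ ^ 2 + Real.sinh v ^ 2 : ℝ) : ℂ) ≠ 0 := by exact_mod_cast hD.ne'
    generalize tailI Φ (Real.cosh v) = T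
    generalize Real.sin θ ^ 2 + Real.sinh v ^ 2 = D at hDc ⊢
    generalize Real.cosh v = C
    simp only [Complex.ofReal_mul, Complex.ofReal_div, Complex.ofReal_ofNat]
    field_simp
  -- (A) for `G₁`
  have a1 : ((Real.pi : ℝ) : ℂ) * ellDown G₁ θ
      = κ * ((Real.sqrt 2 : ℝ) : ℂ) / 4 * ∫ v in Ioi (0 : ℝ),
      tailI (profExt781 Φ) (Real.cosh v) *
        (((1 : ℝ) / (Real.sin θ ^ 2 + Real.sinh v ^ 2) : ℝ) : ℂ) := by
    rw [hA1]
    have e0 : ∀ p ∈ Ioi (0 : ℝ),
        abelT G₁ (1 + p ^ 2) / ((2 * Real.sin θ ^ 2 + p ^ 2 : ℝ) : ℂ)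
        = (fun p : ℝ => κ * tailI Φ (Real.sqrt ((1 + p ^ 2 + 1) / 2)) /
            ((2 * Real.sqrt ((1 + p ^ 2 + 1) / 2) : ℝ) : ℂ) /
            ((2 * Real.sin θ ^ 2 + p ^ 2 : ℝ) : ℂ)) p := by
      intro p _
      show _ = κ * tailI Φ (Real.sqrt ((1 + p ^ 2 + 1) / 2)) /
            ((2 * Real.sqrt ((1 + p ^ 2 + 1) / 2) : ℝ) : ℂ) /
            ((2 * Real.sin θ ^ 2 + p ^ 2 : ℝ) : ℂ)
      rw [h1 (1 + p ^ 2) (by nlinarith [sq_nonneg p])]
    rw [setIntegral_congr_fun measurableSet_Ioi e0]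
    have eS := integral_subst_sinh781 (Real.sqrt_pos.2 two_pos) one_pos
      (fun p : ℝ => κ * tailI Φ (Real.sqrt ((1 + p ^ 2 + 1) / 2)) /
            ((2 * Real.sqrt ((1 + p ^ 2 + 1) / 2) : ℝ) : ℂ) /
            ((2 * Real.sin θ ^ 2 + p ^ 2 : ℝ) : ℂ))
    rw [eS, ← integral_const_mul]
    refine setIntegral_congr_fun measurableSet_Ioi fun v _ => ?_
    show ((Real.sqrt 2 * 1 * Real.cosh (1 * v) : ℝ) : ℂ) *
        (κ * tailI Φ (Real.sqrt ((1 + (Real.sqrt 2 * Real.sinh (1 * v)) ^ 2 + 1) / 2)) /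
            ((2 * Real.sqrt ((1 + (Real.sqrt 2 * Real.sinh (1 * v)) ^ 2 + 1) / 2) : ℝ) : ℂ) /
            ((2 * Real.sin θ ^ 2 + (Real.sqrt 2 * Real.sinh (1 * v)) ^ 2 : ℝ) : ℂ))
      = κ * ((Real.sqrt 2 : ℝ) : ℂ) / 4 * (tailI (profExt781 Φ) (Real.cosh v) *
        (((1 : ℝ) / (Real.sin θ ^ 2 + Real.sinh v ^ 2) : ℝ) : ℂ))
    rw [sqrt_arg781, den_arg781, tailI_profExt781 Φ (Real.one_le_cosh v), one_mul, mul_one]
    have hD : 0 < Real.sin θ ^ 2 + Real.sinh v ^ 2 := by nlinarith [sq_nonneg (Real.sinh v)]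
    have hDc : ((Real.sin θ ^ 2 + Real.sinh v ^ 2 : ℝ) : ℂ) ≠ 0 := by exact_mod_cast hD.ne'
    have hCc : ((Real.cosh v : ℝ) : ℂ) ≠ 0 := by exact_mod_cast (Real.cosh_pos v).ne'
    generalize tailI Φ (Real.cosh v) = T
    generalize Real.sin θ ^ 2 + Real.sinh v ^ 2 = D at hDc ⊢
    generalize Real.cosh v = C at hCc ⊢
    generalize Real.sqrt 2 = q at hsq2 hsq2' ⊢
    simp only [Complex.ofReal_mul, Complex.ofReal_div, Complex.ofReal_ofNat, Complex.ofReal_one]
    field_simp
    ring
  -- the kernel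
  have eK : ellKer (tailI Φ) θ
      = (∫ v in Ioi (0 : ℝ), tailI (profExt781 Φ) (Real.cosh v) *
          ((Real.cosh v / (Real.sin θ ^ 2 + Real.sinh v ^ 2) : ℝ) : ℂ))
        + ((Real.cos θ : ℝ) : ℂ) * ∫ v in Ioi (0 : ℝ), tailI (profExt781 Φ) (Real.cosh v) *
          (((1 : ℝ) / (Real.sin θ ^ 2 + Real.sinh v ^ 2) : ℝ) : ℂ) := by
    rw [← integral_const_mul, ← integral_add i1 (i2.const_mul _)]
    unfold ellKer
    refine setIntegral_congr_fun measurableSet_Ioi fun v _ => ?_
    show tailI Φ (Real.cosh v) / ((Real.cosh v - Real.cos θ : ℝ) : ℂ)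
      = tailI (profExt781 Φ) (Real.cosh v) *
          ((Real.cosh v / (Real.sin θ ^ 2 + Real.sinh v ^ 2) : ℝ) : ℂ)
        + ((Real.cos θ : ℝ) : ℂ) * (tailI (profExt781 Φ) (Real.cosh v) *
          (((1 : ℝ) / (Real.sin θ ^ 2 + Real.sinh v ^ 2) : ℝ) : ℂ))
    rw [tailI_profExt781 Φ (Real.one_le_cosh v)]
    have hD : 0 < Real.sin θ ^ 2 + Real.sinh v ^ 2 := by nlinarith [sq_nonneg (Real.sinh v)]
    have hfac : Real.sin θ ^ 2 + Real.sinh v ^ 2
        = (Real.cosh v - Real.cos θ) * (Real.cosh v + Real.cos θ) := by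
      have h1 := Real.sin_sq_add_cos_sq θ
      have h2 := Real.cosh_sq v
      nlinarith
    have hm : Real.cosh v - Real.cos θ ≠ 0 := by
      intro h
      rw [hfac, h, zero_mul] at hD
      exact lt_irrefl _ hD
    have hp : Real.cosh v + Real.cos θ ≠ 0 := by
      intro h
      rw [hfac, h, mul_zero] at hD
      exact lt_irrefl _ hD
    have hmc : ((Real.cosh v : ℝ) : ℂ) - ((Real.cos θ : ℝ) : ℂ) ≠ 0 := by exact_mod_cast hm
    have hpc : ((Real.cosh v : ℝ) : ℂ) + ((Real.cos θ : ℝ) : ℂ) ≠ 0 := by exact_mod_cast hp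
    rw [hfac]
    generalize tailI Φ (Real.cosh v) = T
    simp only [Complex.ofReal_mul, Complex.ofReal_div, Complex.ofReal_one, Complex.ofReal_sub,
      Complex.ofReal_add]
    generalize ((Real.cosh v : ℝ) : ℂ) = C at hmc hpc ⊢
    generalize ((Real.cos θ : ℝ) : ℂ) = c at hmc hpc ⊢
    field_simp
  -- conclusion
  have hpi : ((Real.pi : ℝ) : ℂ) ≠ 0 := by exact_mod_cast Real.pi_pos.ne'
  have hfin : ((Real.pi : ℝ) : ℂ) *
      (ellDown g₀ θ + ((Real.sqrt 2 * Real.cos θ : ℝ) : ℂ) * ellDown G₁ θ)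
      = ((Real.pi : ℝ) : ℂ) * (κ / ((Real.pi : ℝ) : ℂ) * ellUp Φ θ) := by
    have h3 : ((Real.pi : ℝ) : ℂ) *
        (ellDown g₀ θ + ((Real.sqrt 2 * Real.cos θ : ℝ) : ℂ) * ellDown G₁ θ)
        = ((Real.pi : ℝ) : ℂ) * ellDown g₀ θ
          + ((Real.sqrt 2 : ℝ) : ℂ) * ((Real.cos θ : ℝ) : ℂ) *
            (((Real.pi : ℝ) : ℂ) * ellDown G₁ θ) := by
      push_cast
      ring
    rw [h3, a0, a1, hBθ, eK]
    have h4 : ∀ X : ℂ, ((Real.pi : ℝ) : ℂ) * (κ / ((Real.pi : ℝ) : ℂ) * X) = κ * X := by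
      intro X
      field_simp
    rw [h4]
    linear_combination (((Real.cos θ : ℝ) : ℂ) * κ *
      (∫ v in Ioi (0 : ℝ), tailI (profExt781 Φ) (Real.cosh v) *
          (((1 : ℝ) / (Real.sin θ ^ 2 + Real.sinh v ^ 2) : ℝ) : ℂ)) / 4) * hsq2'
  exact mul_left_cancel₀ hpi hfin

/-- **T6.28 `ArchEllId`**: THE ELLIPTIC IDENTITY. -/
theorem archEllId781 : ArchEllIdC := archEllIdTop781 ellDownC781 ellUpC781

end Fermat.Agent.LT.T6.H781

end

end
-- ===== PACK-END LT/T6/H781/EllId.lean

-- ===== PACK-BEGIN LT/T6/H863/RootBound.lean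
section




/-!
# Row LT, tower T6, leaf T6.18g2-P1 (`RootBoundC783`) -- helper863, OFF-MAIN

**`rootBoundC_863 : Fermat.Agent.LT.T6.H783.RootBoundC783`**, VERBATIM against
`Fermat/Agent/LT/T6/H783/DescSpec.lean` (helper783, sha256 efb33450...).

`k'/k` cyclic of prime degree `l` with generator `s`, `h ∈ GL₂(k)` with `(tr h, det h)` close to
`(2, 1)`, `x ∈ GL₂(k')`, `w = x⁻¹ h s(x)` with bounded entries: then the cocycle `x⁻¹ s(x)` has
bounded entries.

Proof (Cayley--Hamilton, no root extraction): `N w = w s(w) ⋯ s^{l-1}(w) = x⁻¹ h^l x = M^l`,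
`M = x⁻¹ h x`; `M^l = S M + Q` with `S = P_l(t, d)`, `Q = Q_l(t, d)`, `(t, d) = (tr h, det h)`,
`P_0 = 0`, `Q_0 = 1`, `P_{j+1} = t P_j + Q_j`, `Q_{j+1} = - d P_j`; `P_j ≡ j`, `Q_j ≡ 1 - j`
modulo `(t - 2, d - 1)`, so `v(S) = v(l)` for `(t, d)` close to `(2, 1)`, and
`M = S⁻¹ (N w - Q)` is bounded; `det M` is a unit, so `M⁻¹` is bounded; `x⁻¹ s(x) = M⁻¹ w`.

Mathlib + `T6/Spec.lean` + `T6/H783/{BadSpec,CenSpec,DescSpec}.lean` (frozen) only; every proof is
complete.
-/

set_option autoImplicit false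

set_option linter.unusedSectionVars false

open scoped Classical

noncomputable section

namespace Fermat.Agent.LT.T6.H863

open Fermat.Agent.LT.T6 Fermat.Agent.LT.T6.H783

/-! ### Cayley--Hamilton for `2 × 2` matrices -/

section CH

variable {R : Type} [CommRing R]

theorem ch2_863 (M : Matrix (Fin 2) (Fin 2) R) :
    M * M = M.trace • M - M.det • (1 : Matrix (Fin 2) (Fin 2) R) := by
  ext a b
  fin_cases a <;> fin_cases b <;>
    simp [Matrix.mul_apply, Fin.sum_univ_two, Matrix.trace_fin_two, Matrix.det_fin_two] <;> ring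

/-- The coefficients `(P_j, Q_j)` of `M^j = P_j M + Q_j`. -/
def chP863 (t d : R) : ℕ → R × R
  | 0 => (0, 1)
  | (j + 1) => (t * (chP863 t d j).1 + (chP863 t d j).2, -(d * (chP863 t d j).1))

theorem chP863_zero (t d : R) : chP863 t d 0 = (0, 1) := rfl

theorem chP863_succ (t d : R) (j : ℕ) :
    chP863 t d (j + 1) = (t * (chP863 t d j).1 + (chP863 t d j).2, -(d * (chP863 t d j).1)) := rfl

theorem pow_eq_chP_863 (M : Matrix (Fin 2) (Fin 2) R) (j : ℕ) :
    M ^ j = (chP863 M.trace M.det j).1 • M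
      + (chP863 M.trace M.det j).2 • (1 : Matrix (Fin 2) (Fin 2) R) := by
  induction j with
  | zero => simp [chP863_zero]
  | succ j ih =>
    rw [pow_succ, ih, chP863_succ]
    simp only
    rw [add_mul, smul_mul_assoc, smul_mul_assoc, one_mul, ch2_863]
    module

end CH

/-! ### Valuations -/

section Val

variable {K : Type} [Field K] [Valued K Γ₀]

theorem val_natCast_le_863 (n : ℕ) : Valued.v ((n : K)) ≤ 1 := by
  induction n with
  | zero => simp
  | succ n ih =>
    rw [Nat.cast_succ]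
    exact Valuation.map_add_le _ ih (le_of_eq (map_one _))

theorem chP_est_863 (t d : K) (ε : Γ₀) (hε : ε ≤ 1) (ht : Valued.v (t - 2) ≤ ε)
    (hd : Valued.v (d - 1) ≤ ε) (j : ℕ) :
    Valued.v ((chP863 t d j).1 - (j : K)) ≤ ε ∧
      Valued.v ((chP863 t d j).2 + (j : K) - 1) ≤ ε := by
  have h2 : Valued.v (2 : K) ≤ 1 := by
    have := val_natCast_le_863 (K := K) 2
    simpa using this
  have ht1 : Valued.v t ≤ 1 := by
    have : t = (t - 2) + 2 := by ring
    rw [this]
    exact Valuation.map_add_le _ (ht.trans hε) h2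
  have hd1 : Valued.v d ≤ 1 := by
    have : d = (d - 1) + 1 := by ring
    rw [this]
    exact Valuation.map_add_le _ (hd.trans hε) (le_of_eq (map_one _))
  induction j with
  | zero =>
    rw [chP863_zero]
    simp
  | succ j ih =>
    obtain ⟨ih1, ih2⟩ := ih
    rw [chP863_succ]
    simp only
    have hj : Valued.v ((j : K)) ≤ 1 := val_natCast_le_863 j
    constructor
    · have e1 : t * (chP863 t d j).1 + (chP863 t d j).2 - ((j + 1 : ℕ) : K)
          = t * ((chP863 t d j).1 - (j : K)) + (t - 2) * (j : K)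
            + ((chP863 t d j).2 + (j : K) - 1) := by
        push_cast
        ring
      rw [e1]
      refine Valuation.map_add_le _ (Valuation.map_add_le _ ?_ ?_) ih2
      · rw [map_mul]
        calc Valued.v t * Valued.v ((chP863 t d j).1 - (j : K)) ≤ 1 * ε := mul_le_mul' ht1 ih1
          _ = ε := one_mul _
      · rw [map_mul]
        calc Valued.v (t - 2) * Valued.v ((j : K)) ≤ ε * 1 := mul_le_mul' ht hj
          _ = ε := mul_one _
    · have e2 : -(d * (chP863 t d j).1) + ((j + 1 : ℕ) : K) - 1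
          = -(d * ((chP863 t d j).1 - (j : K))) - (d - 1) * (j : K) := by
        push_cast
        ring
      rw [e2]
      refine Valuation.map_sub_le _ ?_ ?_
      · rw [Valuation.map_neg, map_mul]
        calc Valued.v d * Valued.v ((chP863 t d j).1 - (j : K)) ≤ 1 * ε := mul_le_mul' hd1 ih1
          _ = ε := one_mul _
      · rw [map_mul]
        calc Valued.v (d - 1) * Valued.v ((j : K)) ≤ ε * 1 := mul_le_mul' hd hj
          _ = ε := mul_one _

/-! ### Bounded entries -/

/-- The entries of `M` are bounded by `B`. -/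
def EBdd863 (B : Γ₀) (M : Matrix (Fin 2) (Fin 2) K) : Prop :=
  ∀ a b : Fin 2, Valued.v (M a b) ≤ B

theorem ebdd_mono_863 (B B' : Γ₀) (hBB' : B ≤ B') (M : Matrix (Fin 2) (Fin 2) K)
    (h : EBdd863 B M) : EBdd863 B' M := fun a b => (h a b).trans hBB'

theorem ebdd_one_863 : EBdd863 (1 : Γ₀) (1 : Matrix (Fin 2) (Fin 2) K) := by
  intro a b
  by_cases hab : a = b
  · rw [hab, Matrix.one_apply_eq, map_one]
  · rw [Matrix.one_apply_ne hab, map_zero]
    exact zero_le

theorem ebdd_mul_863 (B B' : Γ₀) (M M' : Matrix (Fin 2) (Fin 2) K) (h : EBdd863 B M)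
    (h' : EBdd863 B' M') : EBdd863 (B * B') (M * M') := by
  intro a b
  rw [Matrix.mul_apply]
  refine Valuation.map_sum_le _ (fun m _ => ?_)
  rw [map_mul]
  exact mul_le_mul' (h a m) (h' m b)

theorem glAut_apply_863 (s : K ≃+* K) (g : GL (Fin 2) K) (a b : Fin 2) :
    ((glAut s g : GL (Fin 2) K) : Matrix (Fin 2) (Fin 2) K) a b
      = s ((g : Matrix (Fin 2) (Fin 2) K) a b) := by
  unfold glAut
  rfl

theorem ebdd_twN_863 (s : K ≃+* K) (hs : ∀ y : K, Valued.v (s y) = Valued.v y) (B : Γ₀)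
    (w : GL (Fin 2) K) (hw : EBdd863 B (w : Matrix (Fin 2) (Fin 2) K)) (n : ℕ) :
    EBdd863 (B ^ n) ((twN (glAut s) n w : GL (Fin 2) K) : Matrix (Fin 2) (Fin 2) K) := by
  induction n with
  | zero =>
    rw [pow_zero, twN_zero_863]
    exact ebdd_one_863
  | succ n ih =>
    rw [twN_succ_863, Matrix.GeneralLinearGroup.coe_mul, pow_succ']
    refine ebdd_mul_863 _ _ _ _ hw ?_
    intro a b
    rw [glAut_apply_863, hs]
    exact ih a b

theorem coe_inv_mul_rb863 (g : GL (Fin 2) K) :
    ((g⁻¹ : GL (Fin 2) K) : Matrix (Fin 2) (Fin 2) K) * (g : Matrix (Fin 2) (Fin 2) K) = 1 := by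
  rw [← Matrix.GeneralLinearGroup.coe_mul, inv_mul_cancel]
  rfl

theorem coe_mul_inv_rb863 (g : GL (Fin 2) K) :
    (g : Matrix (Fin 2) (Fin 2) K) * ((g⁻¹ : GL (Fin 2) K) : Matrix (Fin 2) (Fin 2) K) = 1 := by
  rw [← Matrix.GeneralLinearGroup.coe_mul, mul_inv_cancel]
  rfl

/-- The entries of `g⁻¹` times `det g` are, up to sign, the entries of `g`. -/
theorem ebdd_inv_863 (g : GL (Fin 2) K)
    (hdet : Valued.v (g : Matrix (Fin 2) (Fin 2) K).det = 1) (B : Γ₀)
    (h : EBdd863 B (g : Matrix (Fin 2) (Fin 2) K)) :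
    EBdd863 B ((g⁻¹ : GL (Fin 2) K) : Matrix (Fin 2) (Fin 2) K) := by
  have h' := coe_inv_mul_rb863 g
  set A : Matrix (Fin 2) (Fin 2) K := (g : Matrix (Fin 2) (Fin 2) K) with hA
  set C : Matrix (Fin 2) (Fin 2) K := ((g⁻¹ : GL (Fin 2) K) : Matrix (Fin 2) (Fin 2) K) with hC
  have f00 := congrFun (congrFun h' 0) 0
  have f11 := congrFun (congrFun h' 1) 1
  have f01 := congrFun (congrFun h' 0) 1
  have f10 := congrFun (congrFun h' 1) 0
  simp only [Matrix.mul_apply, Fin.sum_univ_two, Matrix.one_apply_eq, ne_eq, zero_ne_one,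
    not_false_eq_true, one_ne_zero, Matrix.one_apply_ne] at f00 f11 f01 f10
  rw [Matrix.det_fin_two] at hdet
  have k00 : C 0 0 * (A 0 0 * A 1 1 - A 0 1 * A 1 0) = A 1 1 := by
    linear_combination (A 1 1) * f00 - (A 1 0) * f01
  have k11 : C 1 1 * (A 0 0 * A 1 1 - A 0 1 * A 1 0) = A 0 0 := by
    linear_combination (A 0 0) * f11 - (A 0 1) * f10
  have k01 : C 0 1 * (A 0 0 * A 1 1 - A 0 1 * A 1 0) = -A 0 1 := by
    linear_combination (A 0 0) * f01 - (A 0 1) * f00
  have k10 : C 1 0 * (A 0 0 * A 1 1 - A 0 1 * A 1 0) = -A 1 0 := by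
    linear_combination (A 1 1) * f10 - (A 1 0) * f11
  have v00 := congrArg Valued.v k00
  have v11 := congrArg Valued.v k11
  have v01 := congrArg Valued.v k01
  have v10 := congrArg Valued.v k10
  rw [map_mul, hdet, mul_one] at v00 v11 v01 v10
  rw [Valuation.map_neg] at v01 v10
  intro a b
  fin_cases a <;> fin_cases b
  · show Valued.v (C 0 0) ≤ B
    rw [v00]
    exact h 1 1
  · show Valued.v (C 0 1) ≤ B
    rw [v01]
    exact h 0 1
  · show Valued.v (C 1 0) ≤ B
    rw [v10]
    exact h 1 0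
  · show Valued.v (C 1 1) ≤ B
    rw [v11]
    exact h 0 0

theorem trace_conj_rb863 (g t : GL (Fin 2) K) :
    ((g⁻¹ * t * g : GL (Fin 2) K) : Matrix (Fin 2) (Fin 2) K).trace
      = (t : Matrix (Fin 2) (Fin 2) K).trace := by
  rw [Matrix.GeneralLinearGroup.coe_mul, Matrix.GeneralLinearGroup.coe_mul,
    Matrix.trace_mul_comm, ← Matrix.mul_assoc, coe_mul_inv_rb863, Matrix.one_mul]

theorem det_conj_rb863 (g t : GL (Fin 2) K) :
    ((g⁻¹ * t * g : GL (Fin 2) K) : Matrix (Fin 2) (Fin 2) K).det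
      = (t : Matrix (Fin 2) (Fin 2) K).det := by
  rw [Matrix.GeneralLinearGroup.coe_mul, Matrix.GeneralLinearGroup.coe_mul, Matrix.det_mul,
    Matrix.det_mul]
  have h : ((g⁻¹ : GL (Fin 2) K) : Matrix (Fin 2) (Fin 2) K).det
      * (g : Matrix (Fin 2) (Fin 2) K).det = 1 := by
    rw [← Matrix.det_mul, coe_inv_mul_rb863, Matrix.det_one]
  linear_combination (t : Matrix (Fin 2) (Fin 2) K).det * h

/-! ### The twisted norm of `x⁻¹ g s(x)` for `g` fixed by `s` -/

theorem twN_fixed_863 {Γ : Type} [Group Γ] (s : Γ →* Γ) (g : Γ) (hg : s g = g) (n : ℕ) :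
    twN s n g = g ^ n := by
  induction n with
  | zero => rw [twN_zero_863, pow_zero]
  | succ n ih => rw [twN_succ_863, ih, map_pow, hg, pow_succ']

theorem conj_pow_863 {Γ : Type} [Group Γ] (x g : Γ) (n : ℕ) :
    (x⁻¹ * g * x) ^ n = x⁻¹ * g ^ n * x := by
  have := conj_pow (a := x⁻¹) (b := g) (i := n)
  simpa using this

theorem glAut_iterate_863 (s : K ≃+* K) (n : ℕ) (x : GL (Fin 2) K) (a b : Fin 2) :
    ((((glAut s)^[n]) x : GL (Fin 2) K) : Matrix (Fin 2) (Fin 2) K) a b
      = (s ^ n) ((x : Matrix (Fin 2) (Fin 2) K) a b) := by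
  induction n with
  | zero => rfl
  | succ n ih =>
    rw [Function.iterate_succ_apply', glAut_apply_863, ih, pow_succ']
    rfl

theorem glAut_iterate_eq_863 (s : K ≃+* K) (l : ℕ) (hsl : ∀ y : K, (s ^ l) y = y)
    (x : GL (Fin 2) K) : ((glAut s)^[l]) x = x := by
  apply Matrix.GeneralLinearGroup.ext
  intro a b
  rw [glAut_iterate_863, hsl]

/-! ### The core estimate -/

theorem rootBound_core_863 (s : K ≃+* K) (hs : ∀ y : K, Valued.v (s y) = Valued.v y) (l : ℕ)
    (hsl : ∀ y : K, (s ^ l) y = y) (g x : GL (Fin 2) K) (hg : glAut s g = g)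
    (ε : Γ₀) (hε : ε < Valued.v ((l : K)))
    (ht : Valued.v ((g : Matrix (Fin 2) (Fin 2) K).trace - 2) ≤ ε)
    (hd : Valued.v ((g : Matrix (Fin 2) (Fin 2) K).det - 1) ≤ ε)
    (B : Γ₀) (hB1 : 1 ≤ B)
    (hw : EBdd863 B ((x⁻¹ * g * glAut s x : GL (Fin 2) K) : Matrix (Fin 2) (Fin 2) K))
    (hw' : EBdd863 B (((x⁻¹ * g * glAut s x)⁻¹ : GL (Fin 2) K) : Matrix (Fin 2) (Fin 2) K)) :
    EBdd863 ((Valued.v ((l : K)))⁻¹ * B ^ (l + 1))
        ((x⁻¹ * glAut s x : GL (Fin 2) K) : Matrix (Fin 2) (Fin 2) K) ∧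
      EBdd863 ((Valued.v ((l : K)))⁻¹ * B ^ (l + 1))
        (((x⁻¹ * glAut s x)⁻¹ : GL (Fin 2) K) : Matrix (Fin 2) (Fin 2) K) := by
  have hl1 : Valued.v ((l : K)) ≤ 1 := val_natCast_le_863 l
  have hε1 : ε ≤ 1 := hε.le.trans hl1
  have hvl0 : Valued.v ((l : K)) ≠ 0 := ne_of_gt (lt_of_le_of_lt zero_le hε)
  -- the norm
  have hN : twN (glAut s) l (x⁻¹ * g * glAut s x) = (x⁻¹ * g * x) ^ l := by
    rw [twN_conj_863, twN_fixed_863 _ _ hg, glAut_iterate_eq_863 s l hsl, conj_pow_863]
  have hMl : EBdd863 (B ^ l)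
      (((x⁻¹ * g * x : GL (Fin 2) K) : Matrix (Fin 2) (Fin 2) K) ^ l) := by
    have := ebdd_twN_863 s hs B _ hw l
    rw [hN] at this
    have hc : (((x⁻¹ * g * x) ^ l : GL (Fin 2) K) : Matrix (Fin 2) (Fin 2) K)
        = ((x⁻¹ * g * x : GL (Fin 2) K) : Matrix (Fin 2) (Fin 2) K) ^ l :=
      Units.val_pow_eq_pow_val _ l
    rw [hc] at this
    exact this
  have htr := trace_conj_rb863 x g
  have hdt := det_conj_rb863 x g
  obtain ⟨hP, hQ⟩ := chP_est_863 _ _ ε hε1 ht hd l
  have hpow := pow_eq_chP_863 ((x⁻¹ * g * x : GL (Fin 2) K) : Matrix (Fin 2) (Fin 2) K) l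
  rw [htr, hdt] at hpow
  set M : Matrix (Fin 2) (Fin 2) K := ((x⁻¹ * g * x : GL (Fin 2) K) : Matrix (Fin 2) (Fin 2) K)
    with hMdef
  set t : K := (g : Matrix (Fin 2) (Fin 2) K).trace with htdef
  set d : K := (g : Matrix (Fin 2) (Fin 2) K).det with hddef
  set S : K := (chP863 t d l).1 with hSdef
  set Q : K := (chP863 t d l).2 with hQdef
  have hvS : Valued.v S = Valued.v ((l : K)) := by
    have : S = (l : K) + (S - (l : K)) := by ring
    rw [this]
    exact Valuation.map_add_eq_of_lt_left _ (lt_of_le_of_lt hP hε)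
  have hvQ : Valued.v Q ≤ 1 := by
    have : Q = (Q + (l : K) - 1) + (1 - (l : K)) := by ring
    rw [this]
    exact Valuation.map_add_le _ (hQ.trans hε1)
      (Valuation.map_sub_le _ (le_of_eq (map_one _)) hl1)
  have hvd : Valued.v d = 1 := by
    have : d = 1 + (d - 1) := by ring
    rw [this]
    exact Valuation.map_one_add_of_lt _ (lt_of_le_of_lt hd (lt_of_lt_of_le hε hl1))
  have hBl : 1 ≤ B ^ l := one_le_pow_of_one_le' hB1 l
  have hMb : EBdd863 ((Valued.v ((l : K)))⁻¹ * B ^ l) M := by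
    intro a b
    have e := congrFun (congrFun hpow a) b
    simp only [Matrix.add_apply, Matrix.smul_apply, smul_eq_mul] at e
    have e' : S * M a b = (M ^ l) a b - Q * (1 : Matrix (Fin 2) (Fin 2) K) a b := by
      rw [e]
      ring
    have hv : Valued.v (S * M a b) ≤ B ^ l := by
      rw [e']
      refine Valuation.map_sub_le _ (hMl a b) ?_
      rw [map_mul]
      calc Valued.v Q * Valued.v ((1 : Matrix (Fin 2) (Fin 2) K) a b) ≤ 1 * 1 :=
            mul_le_mul' hvQ (ebdd_one_863 a b)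
        _ = 1 := one_mul 1
        _ ≤ B ^ l := hBl
    rw [map_mul, hvS] at hv
    calc Valued.v (M a b)
        = (Valued.v ((l : K)))⁻¹ * (Valued.v ((l : K)) * Valued.v (M a b)) := by
          rw [← mul_assoc, inv_mul_cancel₀ hvl0, one_mul]
      _ ≤ (Valued.v ((l : K)))⁻¹ * B ^ l := mul_le_mul' le_rfl hv
  have hMdet : Valued.v M.det = 1 := by
    rw [hMdef, hdt]
    exact hvd
  have hMinv := ebdd_inv_863 (x⁻¹ * g * x) hMdet _ hMb
  have e1 : x⁻¹ * glAut s x = (x⁻¹ * g * x)⁻¹ * (x⁻¹ * g * glAut s x) := by group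
  have e2 : (x⁻¹ * glAut s x)⁻¹ = (x⁻¹ * g * glAut s x)⁻¹ * (x⁻¹ * g * x) := by group
  constructor
  · rw [e1, Matrix.GeneralLinearGroup.coe_mul]
    have := ebdd_mul_863 _ _ _ _ hMinv hw
    refine ebdd_mono_863 _ _ (le_of_eq ?_) _ this
    rw [pow_succ, mul_assoc]
  · rw [e2, Matrix.GeneralLinearGroup.coe_mul]
    have := ebdd_mul_863 _ _ _ _ hw' hMb
    refine ebdd_mono_863 _ _ (le_of_eq ?_) _ this
    rw [pow_succ, mul_left_comm, mul_comm B (B ^ l)]

end Val

/-! ### The leaf -/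

section Leaf

variable {k k' : Type} [Field k] [Field k'] [Valued k' Γ₀]

theorem map_fixed_863 (i : k →+* k') (s : k' ≃+* k') (hfix : ∀ x : k, s (i x) = i x)
    (h : GL (Fin 2) k) :
    glAut s (Matrix.GeneralLinearGroup.map i h) = Matrix.GeneralLinearGroup.map i h := by
  apply Matrix.GeneralLinearGroup.ext
  intro a b
  rw [glAut_apply_863, Matrix.GeneralLinearGroup.map_apply, hfix]

theorem trace_map_863 (i : k →+* k') (h : GL (Fin 2) k) :
    ((Matrix.GeneralLinearGroup.map i h : GL (Fin 2) k') : Matrix (Fin 2) (Fin 2) k').trace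
      = i (h : Matrix (Fin 2) (Fin 2) k).trace := by
  rw [Matrix.trace_fin_two, Matrix.trace_fin_two, map_add,
    Matrix.GeneralLinearGroup.map_apply, Matrix.GeneralLinearGroup.map_apply]

theorem det_map_863 (i : k →+* k') (h : GL (Fin 2) k) :
    ((Matrix.GeneralLinearGroup.map i h : GL (Fin 2) k') : Matrix (Fin 2) (Fin 2) k').det
      = i (h : Matrix (Fin 2) (Fin 2) k).det := by
  rw [Matrix.det_fin_two, Matrix.det_fin_two, map_sub, map_mul, map_mul,
    Matrix.GeneralLinearGroup.map_apply, Matrix.GeneralLinearGroup.map_apply,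
    Matrix.GeneralLinearGroup.map_apply, Matrix.GeneralLinearGroup.map_apply]

end Leaf

/-- **T6.18g2-P1, `RootBoundC783`.** -/
theorem rootBoundC_863 : RootBoundC783 := by
  intro k k' _ _ _ _ q l e i s hk hk' hext hl
  have hchar : CharZero k' := hk'.char0
  have hl0 : ((l : ℕ) : k') ≠ 0 := Nat.cast_ne_zero.mpr hl.ne_zero
  have hvl : Valued.v ((l : k')) ≠ 0 := (Valuation.ne_zero_iff _).mpr hl0
  obtain ⟨a, ha⟩ : ∃ a : ℤ, Valued.v ((l : k')) = WithZero.exp (-a) :=
    ⟨-WithZero.log (Valued.v ((l : k'))), by rw [neg_neg, WithZero.exp_log hvl]⟩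
  refine ⟨max a 0 + 1, fun A => ⟨a + ((l + 1 : ℕ) : ℤ) * max A 0, fun h x hh hw => ?_⟩⟩
  set ε : Γ₀ := WithZero.exp (-(max a 0 + 1)) with hεdef
  have hε : ε < Valued.v ((l : k')) := by
    rw [ha, hεdef, WithZero.exp_lt_exp]
    have := le_max_left a 0
    omega
  have hε1 : ε ≤ 1 := by
    rw [hεdef, ← WithZero.exp_zero, WithZero.exp_le_exp]
    have := le_max_right a 0
    omega
  have hpow : ∀ z : k, Valued.v z ≤ ε → Valued.v (i z) ≤ ε := by
    intro z hz
    rw [hext.val_i]
    calc Valued.v z ^ e ≤ ε ^ e := pow_le_pow_left' hz e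
      _ ≤ ε := pow_le_of_le_one zero_le hε1 hext.e_pos.ne'
  obtain ⟨hh1, hh2⟩ := hh
  have ht : Valued.v (((Matrix.GeneralLinearGroup.map i h : GL (Fin 2) k') :
      Matrix (Fin 2) (Fin 2) k').trace - 2) ≤ ε := by
    have e1 : ((Matrix.GeneralLinearGroup.map i h : GL (Fin 2) k') :
        Matrix (Fin 2) (Fin 2) k').trace - 2
        = i ((h : Matrix (Fin 2) (Fin 2) k).trace - 2) := by
      rw [trace_map_863, map_sub, map_ofNat]
    rw [e1]
    exact hpow _ hh1
  have hd : Valued.v (((Matrix.GeneralLinearGroup.map i h : GL (Fin 2) k') :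
      Matrix (Fin 2) (Fin 2) k').det - 1) ≤ ε := by
    have e1 : ((Matrix.GeneralLinearGroup.map i h : GL (Fin 2) k') :
        Matrix (Fin 2) (Fin 2) k').det - 1
        = i ((h : Matrix (Fin 2) (Fin 2) k).det - 1) := by
      rw [det_map_863, map_sub, map_one]
    rw [e1]
    exact hpow _ hh2
  set B : Γ₀ := WithZero.exp (max A 0) with hBdef
  have hB1 : 1 ≤ B := by
    rw [hBdef, ← WithZero.exp_zero, WithZero.exp_le_exp]
    exact le_max_right A 0
  have hAB : WithZero.exp A ≤ B := by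
    rw [hBdef, WithZero.exp_le_exp]
    exact le_max_left A 0
  have hw1 : EBdd863 B ((x⁻¹ * Matrix.GeneralLinearGroup.map i h * glAut s x : GL (Fin 2) k') :
      Matrix (Fin 2) (Fin 2) k') := fun a b => ((hw a b).1).trans hAB
  have hw2 : EBdd863 B (((x⁻¹ * Matrix.GeneralLinearGroup.map i h * glAut s x)⁻¹ :
      GL (Fin 2) k') : Matrix (Fin 2) (Fin 2) k') := fun a b => ((hw a b).2).trans hAB
  obtain ⟨r1, r2⟩ := rootBound_core_863 s hext.val_s l hext.cyc.order
    (Matrix.GeneralLinearGroup.map i h) x (map_fixed_863 i s hext.cyc.fix_i h) ε hε ht hd B hB1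
    hw1 hw2
  have hbound : (Valued.v ((l : k')))⁻¹ * B ^ (l + 1)
      = WithZero.exp (a + ((l + 1 : ℕ) : ℤ) * max A 0) := by
    rw [ha, WithZero.exp_neg, inv_inv, WithZero.exp_add, hBdef, ← WithZero.exp_nsmul,
      nsmul_eq_mul]
  rw [hbound] at r1 r2
  intro c b
  exact ⟨r1 c b, r2 c b⟩

end Fermat.Agent.LT.T6.H863

end

end
-- ===== PACK-END LT/T6/H863/RootBound.lean

-- ===== PACK-BEGIN LT/T6/H196/GenLvl.lean
section




/-!
# Row LT, tower T6, leaf T6.18g2-D2 `GenLvlC783` (helper196) -- part 3: `GL₂(k)`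

OFF-MAIN.  `genLvlC196 : GenLvlC783` VERBATIM (Prop of `LT/T6/H783/DescSpec.lean`,
helper783@4831eb18d).  Uses the algebra of helper846 (`LT/T6/H846/OrbAlg.lean`, byte-identical
copy): `U(m)` is a subgroup, the compact part of the centraliser of a regular element is closed
under products.
-/

set_option autoImplicit false

open scoped Matrix

noncomputable section

namespace Fermat.Agent.LT.T6.H196

open Fermat.Agent.LT.T6 Fermat.Agent.LT.T6.H783 Fermat.Agent.LT.T6.H846

variable {k : Type} [Field k] [Valued k Γ₀]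

/-- `glAut` of the identity is the identity. -/
theorem glAut_refl196 : glAut (RingEquiv.refl k) = MonoidHom.id (GL (Fin 2) k) :=
  MonoidHom.ext fun g => glAut_eq_self846 (RingEquiv.refl k) (fun _ => rfl) g

theorem glAut_refl_apply196 (g : GL (Fin 2) k) : glAut (RingEquiv.refl k) g = g :=
  glAut_eq_self846 (RingEquiv.refl k) (fun _ => rfl) g

omit [Valued k Γ₀] in
/-- The discriminant is invariant under conjugation. -/
theorem isReg_conj196 (h x : GL (Fin 2) k) (hreg : IsReg h) : IsReg (x⁻¹ * h * x) := by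
  have e2 : ((x⁻¹ * h * x : GL (Fin 2) k) : Matrix (Fin 2) (Fin 2) k).trace
      = (h : Matrix (Fin 2) (Fin 2) k).trace := by
    rw [Units.val_mul, Units.val_mul, Matrix.trace_mul_cycle, ← Units.val_mul, mul_inv_cancel]
    simp
  have e3 : ((x⁻¹ * h * x : GL (Fin 2) k) : Matrix (Fin 2) (Fin 2) k).det
      = (h : Matrix (Fin 2) (Fin 2) k).det := by
    rw [Units.val_mul, Units.val_mul, Matrix.det_mul, Matrix.det_mul, mul_comm, ← mul_assoc,
      ← Matrix.det_mul, ← Units.val_mul, mul_inv_cancel]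
    simp
  unfold IsReg disc at hreg ⊢
  rw [e2, e3]
  exact hreg

theorem valued_two_le_one196 : Valued.v (2 : k) ≤ 1 := by
  have : (2 : k) = 1 + 1 := by norm_num
  rw [this]
  exact Valuation.map_add_le _ (by simp) (by simp)

/-- `1` lies in the compact part of every centraliser. -/
theorem inTwCentC_one196 (y : GL (Fin 2) k) : InTwCentC (RingEquiv.refl k) y 1 := by
  refine ⟨?_, ?_, ?_⟩
  · change (1 : GL (Fin 2) k)⁻¹ * y * glAut (RingEquiv.refl k) 1 = y
    rw [map_one, inv_one, one_mul, mul_one]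
  · rw [Units.val_one, Matrix.trace_one, Fintype.card_fin]
    have : ((2 : ℕ) : k) = 2 := by norm_num
    rw [this]
    exact valued_two_le_one196
  · rw [Units.val_one, Matrix.det_one, map_one]

/-- The compact part of a centraliser is closed under inverses. -/
theorem inTwCentC_inv196 (y t : GL (Fin 2) k) (ht : InTwCentC (RingEquiv.refl k) y t) :
    InTwCentC (RingEquiv.refl k) y t⁻¹ := by
  obtain ⟨h1, h2, h3⟩ := ht
  have h1' : t⁻¹ * y * t = y := by
    have := h1
    unfold InTwCent at this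
    rw [glAut_refl_apply196] at this
    exact this
  have hdet : (t : Matrix (Fin 2) (Fin 2) k).det
      * ((t⁻¹ : GL (Fin 2) k) : Matrix (Fin 2) (Fin 2) k).det = 1 := by
    rw [← Matrix.det_mul, ← Units.val_mul, mul_inv_cancel]
    simp
  have hvdet : Valued.v ((t⁻¹ : GL (Fin 2) k) : Matrix (Fin 2) (Fin 2) k).det = 1 := by
    have := congrArg Valued.v hdet
    rw [map_mul, h3, one_mul, map_one] at this
    exact this
  refine ⟨?_, ?_, hvdet⟩
  · change (t⁻¹)⁻¹ * y * glAut (RingEquiv.refl k) t⁻¹ = y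
    rw [glAut_refl_apply196, inv_inv]
    calc t * y * t⁻¹ = t * (t⁻¹ * y * t) * t⁻¹ := by rw [h1']
      _ = y := by group
  · -- `tr t⁻¹ = tr t · det t⁻¹`
    have hadj : ((t⁻¹ : GL (Fin 2) k) : Matrix (Fin 2) (Fin 2) k)
        = ((t⁻¹ : GL (Fin 2) k) : Matrix (Fin 2) (Fin 2) k).det
          • (t : Matrix (Fin 2) (Fin 2) k).adjugate := by
      have e1 : (t : Matrix (Fin 2) (Fin 2) k) * ((t⁻¹ : GL (Fin 2) k) : Matrix (Fin 2) (Fin 2) k)
          = 1 := by
        rw [← Units.val_mul, mul_inv_cancel]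
        rfl
      calc ((t⁻¹ : GL (Fin 2) k) : Matrix (Fin 2) (Fin 2) k)
          = ((t : Matrix (Fin 2) (Fin 2) k).det
              * ((t⁻¹ : GL (Fin 2) k) : Matrix (Fin 2) (Fin 2) k).det)
            • ((t⁻¹ : GL (Fin 2) k) : Matrix (Fin 2) (Fin 2) k) := by rw [hdet, one_smul]
        _ = ((t⁻¹ : GL (Fin 2) k) : Matrix (Fin 2) (Fin 2) k).det
            • (((t : Matrix (Fin 2) (Fin 2) k).adjugate * (t : Matrix (Fin 2) (Fin 2) k))
              * ((t⁻¹ : GL (Fin 2) k) : Matrix (Fin 2) (Fin 2) k)) := by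
            rw [Matrix.adjugate_mul, Matrix.smul_mul, one_mul, smul_smul, mul_comm]
        _ = _ := by rw [mul_assoc, e1, mul_one]
    have htr : (t : Matrix (Fin 2) (Fin 2) k).adjugate.trace
        = (t : Matrix (Fin 2) (Fin 2) k).trace := by
      rw [Matrix.adjugate_fin_two, Matrix.trace_fin_two, Matrix.trace_fin_two]
      simp only [Matrix.of_apply, Matrix.cons_val', Matrix.cons_val_zero, Matrix.cons_val_one,
        Matrix.cons_val_fin_one]
      exact add_comm _ _
    rw [hadj, Matrix.trace_smul, htr, smul_eq_mul, map_mul, hvdet, one_mul]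
    exact h2

/-- The compact part of the centraliser of a regular element is a subgroup. -/
theorem isSub_inTwCentC196 (y : GL (Fin 2) k) (hreg : IsReg y) :
    IsSub196 (InTwCentC (RingEquiv.refl k) y) where
  one := inTwCentC_one196 y
  mul := fun a b ha hb => by
    have hn : twNorm (RingEquiv.refl k) 1 y = y := by
      change y * glAut (RingEquiv.refl k) 1 = y
      rw [map_one, mul_one]
    exact inTwCentC_mul846 (RingEquiv.refl k) 1 (fun _ => rfl) y (by rw [hn]; exact hreg) a b ha hb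
  inv := fun a ha => inTwCentC_inv196 y a ha

/-- `U(m)` is a subgroup. -/
theorem isSub_inU196 (m : ℕ) : IsSub196 (InU (k := k) m) where
  one := inU_one846 m
  mul := fun a b ha hb => inU_mul846 m a b ha hb
  inv := fun a ha => inU_inv846 m a ha

/-- **T6.18g2-D2** `GenLvlC783`. -/
theorem genLvlC196 : GenLvlC783 := by
  intro k _ _ q _ m Γ hΓ1 hΓmul hΓinv hUΓ hΓint hF
  classical
  have hΓ : IsSub196 Γ := ⟨hΓ1, hΓmul, hΓinv⟩
  have hU : IsSub196 (InU (k := k) m) := isSub_inU196 m
  have hfin : {c : Set (GL (Fin 2) k) | ∃ g, Γ g ∧ c = lc196 (InU m) g}.Finite := by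
    obtain ⟨F, hF⟩ := hF
    refine (F.finite_toSet.image (lc196 (InU m))).subset ?_
    rintro c ⟨g, hg, rfl⟩
    obtain ⟨x, hx, u, hu, rfl⟩ := hF g hg
    refine ⟨x, hx, ?_⟩
    apply lc196_eq_of hU
    have : x⁻¹ * (x * u) = u := by group
    rw [this]
    exact hu
  refine ⟨Set.ncard {c : Set (GL (Fin 2) k) | ∃ g, Γ g ∧ c = lc196 (InU m) g}, ?_, ?_⟩
  · have hne : {c : Set (GL (Fin 2) k) | ∃ g, Γ g ∧ c = lc196 (InU m) g}.Nonempty :=
      ⟨lc196 (InU m) 1, 1, hΓ1, rfl⟩
    exact ((Set.ncard_pos hfin).mpr hne).ne'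
  · intro ψ _ hψ h c' hreg hsum
    have hsum' : IsOrbSumGen (MonoidHom.id (GL (Fin 2) k)) (InU m)
        (InTwCentC (RingEquiv.refl k)) ψ h c' := by
      have := hsum
      unfold IsOrbSum IsTwOrbSum at this
      rw [glAut_refl196] at this
      exact this
    obtain ⟨c, hc, hcc⟩ := genLvl_abs196 (InU m) Γ (InTwCentC (RingEquiv.refl k)) hU hΓ hUΓ hfin
      ψ hψ h
      (by
        rintro y ⟨x, rfl⟩
        exact isSub_inTwCentC196 _ (isReg_conj196 h x hreg))
      (by
        intro y t ht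
        have := ht.1
        unfold InTwCent at this
        rw [glAut_refl_apply196] at this
        exact this)
      (by
        intro y x t
        have := inTwCentC_conj846 (RingEquiv.refl k) y x t
        rw [glAut_refl_apply196] at this
        exact this)
      (by
        intro y g hg hgy
        refine ⟨?_, (hΓint g hg).1, (hΓint g hg).2⟩
        change g⁻¹ * y * glAut (RingEquiv.refl k) g = y
        rw [glAut_refl_apply196]
        exact hgy)
      c' hsum'
    refine ⟨c, ?_, hcc⟩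
    unfold IsOrbSumGam783
    rw [glAut_refl196]
    exact hc

end Fermat.Agent.LT.T6.H196

end
end
-- ===== PACK-END LT/T6/H196/GenLvl.lean

-- ===== PACK-BEGIN LT/T6/H333/RootFn.lean
section



/-!
# Row LT, tower T6, leaf T6.18g3.1a `H820.RootFnC820` (helper333)

OFF-MAIN.  Proves `H820.RootFnC820` VERBATIM against `LT/T6/H820/PowSpec.lean`
(helper820@553f9c171, sha256 601c508e1707).

## Construction

`λ = |l| = exp (-m)`, `s = max N₀ 1`, `ε = exp (-s)`, `c = l² ϖ^s`, `|c| = exp (-K)`, `K = 2m + s`,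
`N₁ = 2K`, `C = 3K + m`.  For `(t, d)` in the ball put `τ = t - 2`, `δ = d - t + 1`,
`β = τ / c`, `α = -δ / c²` (`|α|, |β| ≤ 1`) and let `A = QuadraticAlgebra k α β`, `ω² = α + β ω`.
For a matrix `M` of trace `t` and determinant `d` the element `N = (M - 1) / c` satisfies
`N² = α + β N` (Cayley--Hamilton), so `ω ↦ N` is an algebra homomorphism `A → M₂(k)` with
`1 + c ω ↦ M`.  The simplified Newton iteration in `A` (`Newton.lean`, a contraction of ratio `ε`
on the ball `1 + {‖·‖ ≤ λ ε}`) gives `z = x + y ω` with `z ^ l = 1 + c ω`, and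
`a = y / c`, `b = x - y / c`.  The Lipschitz bound is `root_near333`.
-/

set_option autoImplicit false
set_option linter.unnecessarySeqFocus false

open scoped Matrix

noncomputable section

namespace Fermat.Agent.LT.T6.H333

open Fermat.Agent.LT.T6 Fermat.Agent.LT.T6.H783 Fermat.Agent.LT.T6.H820

/-! ## Matrices -/

section Mat

variable {k : Type} [Field k]

theorem cayley333 (M : Matrix (Fin 2) (Fin 2) k) :
    M * M = M.trace • M - M.det • (1 : Matrix (Fin 2) (Fin 2) k) := by
  ext i j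
  fin_cases i <;> fin_cases j <;>
    simp [Matrix.mul_apply, Fin.sum_univ_two, Matrix.trace_fin_two, Matrix.det_fin_two] <;> ring

theorem scaled333 (M : Matrix (Fin 2) (Fin 2) k) (t d c : k) (ht : M.trace = t)
    (hd : M.det = d) (hc : c ≠ 0) :
    (c⁻¹ • (M - 1)) * (c⁻¹ • (M - 1))
      = (-((d - t + 1) / c ^ 2)) • (1 : Matrix (Fin 2) (Fin 2) k)
        + ((t - 2) / c) • (c⁻¹ • (M - 1)) := by
  have h1 : (M - 1) * (M - 1)
      = (t - 2) • (M - 1) - (d - t + 1) • (1 : Matrix (Fin 2) (Fin 2) k) := by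
    have e : (M - 1) * (M - 1) = M * M - (2 : k) • M + 1 := by
      rw [two_smul]; noncomm_ring
    rw [e, cayley333, ht, hd]
    module
  rw [smul_mul_smul_comm, h1]
  have hc2 : c ^ 2 ≠ 0 := pow_ne_zero 2 hc
  match_scalars <;> field_simp <;> ring

theorem matroot333 {α β : k} (M : Matrix (Fin 2) (Fin 2) k) (c : k)
    (hN : (c⁻¹ • (M - 1)) * (c⁻¹ • (M - 1))
      = α • (1 : Matrix (Fin 2) (Fin 2) k) + β • (c⁻¹ • (M - 1))) (hc : c ≠ 0)
    (z : QuadraticAlgebra k α β) (l : ℕ) (hz : z ^ l = ⟨1, c⟩) :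
    ((z.im / c) • M + (z.re - z.im / c) • (1 : Matrix (Fin 2) (Fin 2) k)) ^ l = M := by
  have h1 : QuadraticAlgebra.lift ⟨c⁻¹ • (M - 1), hN⟩ z
      = (z.im / c) • M + (z.re - z.im / c) • (1 : Matrix (Fin 2) (Fin 2) k) := by
    show z.re • (1 : Matrix (Fin 2) (Fin 2) k) + z.im • (c⁻¹ • (M - 1)) = _
    match_scalars <;> field_simp <;> ring
  have h2 : QuadraticAlgebra.lift ⟨c⁻¹ • (M - 1), hN⟩ (⟨1, c⟩ : QuadraticAlgebra k α β)
      = M := by
    show (1 : k) • (1 : Matrix (Fin 2) (Fin 2) k) + c • (c⁻¹ • (M - 1)) = _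
    rw [smul_smul, mul_inv_cancel₀ hc, one_smul, one_smul]
    abel
  rw [← h1, ← map_pow, hz, h2]

end Mat

/-! ## Valuations and `exp` -/

section Val

variable {k : Type} [Field k] [Valued k Γ₀]

theorem vmul333 {x y : k} {a b : ℤ} (hx : Valued.v x ≤ WithZero.exp a)
    (hy : Valued.v y ≤ WithZero.exp b) : Valued.v (x * y) ≤ WithZero.exp (a + b) := by
  rw [Valuation.map_mul, WithZero.exp_add]
  exact mul_le_mul' hx hy

theorem vdiv333 {x c : k} {a b : ℤ} (hx : Valued.v x ≤ WithZero.exp a)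
    (hc : Valued.v c = WithZero.exp b) : Valued.v (x / c) ≤ WithZero.exp (a - b) := by
  rw [map_div₀, hc, WithZero.exp_sub, div_eq_mul_inv, div_eq_mul_inv]
  exact mul_le_mul' hx le_rfl

theorem vle333 {x : k} {a b : ℤ} (hx : Valued.v x ≤ WithZero.exp a) (hab : a ≤ b) :
    Valued.v x ≤ WithZero.exp b :=
  hx.trans (WithZero.exp_le_exp.mpr hab)

theorem vdiv_le333 {x c : k} {b : ℤ} {η : Γ₀} (hx : Valued.v x ≤ η)
    (hc : Valued.v c = WithZero.exp (-b)) : Valued.v (x / c) ≤ WithZero.exp b * η := by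
  rw [map_div₀, hc, div_eq_mul_inv, ← WithZero.exp_neg, neg_neg, mul_comm]
  exact mul_le_mul' le_rfl hx

end Val

/-! ## The root functions -/

section Fn

variable {k : Type} [Field k] [Valued k Γ₀]

/-- The parameter `α = -δ / c²` of the quadratic algebra at `(t, d)`. -/
def qα333 (c t d : k) : k := -((d - t + 1) / c ^ 2)

/-- The parameter `β = τ / c` of the quadratic algebra at `(t, d)`. -/
def qβ333 (c t _d : k) : k := (t - 2) / c

/-- `z` is an `l`-th root of `1 + c ω` in the ball of radius `ρ` around `1`. -/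
def IsRoot333 (l : ℕ) (c : k) (ρ : Γ₀) (t d : k)
    (z : QuadraticAlgebra k (qα333 c t d) (qβ333 c t d)) : Prop :=
  QLe333 (z - 1) ρ ∧ z ^ l = ⟨1, c⟩

open Classical in
/-- The coordinates of a chosen root (`(0, 0)` if there is none). -/
def rootCoord333 (l : ℕ) (c : k) (ρ : Γ₀) (t d : k) : k × k :=
  if h : ∃ z : QuadraticAlgebra k (qα333 c t d) (qβ333 c t d), IsRoot333 l c ρ t d z then
    ((Classical.choose h).re, (Classical.choose h).im)
  else (0, 0)

theorem rootCoord_spec333 (l : ℕ) (c : k) (ρ : Γ₀) (t d : k)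
    (h : ∃ z : QuadraticAlgebra k (qα333 c t d) (qβ333 c t d), IsRoot333 l c ρ t d z) :
    IsRoot333 l c ρ t d ⟨(rootCoord333 l c ρ t d).1, (rootCoord333 l c ρ t d).2⟩ := by
  unfold rootCoord333
  rw [dif_pos h]
  exact Classical.choose_spec h

/-- `a = y / c`. -/
def rootA333 (l : ℕ) (c : k) (ρ : Γ₀) (t d : k) : k := (rootCoord333 l c ρ t d).2 / c

/-- `b = x - y / c`. -/
def rootB333 (l : ℕ) (c : k) (ρ : Γ₀) (t d : k) : k :=
  (rootCoord333 l c ρ t d).1 - (rootCoord333 l c ρ t d).2 / c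

end Fn

/-! ## The estimates at one point -/

section Point

variable {k : Type} [Field k] [Valued k Γ₀]

theorem val_two_le333 : Valued.v (2 : k) ≤ WithZero.exp (0 : ℤ) := by
  have := val_natCast_le_one333 (k := k) 2
  rw [WithZero.exp_zero]
  exact_mod_cast this

theorem val_delta_le333 {t d : k} {K : ℤ}
    (ht : Valued.v (t - 2) ≤ WithZero.exp (-(2 * K)))
    (hd : Valued.v (d - 1) ≤ WithZero.exp (-(2 * K))) :
    Valued.v (d - t + 1) ≤ WithZero.exp (-(2 * K)) := by
  have e : d - t + 1 = (d - 1) - (t - 2) := by ring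
  rw [e]
  exact Valuation.map_sub_le _ hd ht

theorem val_sq333 {c : k} {K : ℤ} (hc : Valued.v c = WithZero.exp (-K)) :
    Valued.v (c ^ 2) = WithZero.exp (-(2 * K)) := by
  rw [map_pow, hc, pow_two, ← WithZero.exp_add]
  congr 1
  ring

theorem param_le333 {c t d : k} {K : ℤ} (hK : 0 ≤ K) (hc : Valued.v c = WithZero.exp (-K))
    (ht : Valued.v (t - 2) ≤ WithZero.exp (-(2 * K)))
    (hd : Valued.v (d - 1) ≤ WithZero.exp (-(2 * K))) :
    Valued.v (qα333 c t d) ≤ 1 ∧ Valued.v (qβ333 c t d) ≤ 1 := by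
  refine ⟨?_, ?_⟩
  · unfold qα333
    rw [Valuation.map_neg, ← WithZero.exp_zero]
    exact vle333 (vdiv333 (val_delta_le333 ht hd) (val_sq333 hc)) (by omega)
  · unfold qβ333
    rw [← WithZero.exp_zero]
    exact vle333 (vdiv333 ht hc) (by omega)

theorem exists_isRoot333 [CompleteSpace k] {l : ℕ} (hl : (l : k) ≠ 0) {m K : ℤ} {s : ℕ}
    (hs : 1 ≤ s) (hm : Valued.v (l : k) = WithZero.exp (-m)) (hKdef : K = 2 * m + s)
    (hK : 0 ≤ K) {c t d : k} (hc : Valued.v c = WithZero.exp (-K))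
    (ht : Valued.v (t - 2) ≤ WithZero.exp (-(2 * K)))
    (hd : Valued.v (d - 1) ≤ WithZero.exp (-(2 * K))) :
    ∃ z : QuadraticAlgebra k (qα333 c t d) (qβ333 c t d),
      IsRoot333 l c (Valued.v (l : k) * WithZero.exp (-(s : ℤ))) t d z := by
  obtain ⟨hα, hβ⟩ := param_le333 hK hc ht hd
  refine exists_root333 hα hβ hl (ε := WithZero.exp (-(s : ℤ))) ?_ WithZero.exp_ne_zero
    ⟨1, c⟩ ?_
  · rw [WithZero.exp_le_exp]; omega
  · refine ⟨?_, ?_⟩
    · show Valued.v ((1 : k) - 1) ≤ _
      rw [sub_self, map_zero]; exact zero_le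
    · show Valued.v (c - 0) ≤ _
      rw [sub_zero, hc, hm, ← WithZero.exp_add, ← WithZero.exp_add, WithZero.exp_le_exp]
      omega

/-- The data at one point of the ball. -/
theorem point333 [CompleteSpace k] {l : ℕ} (hl : (l : k) ≠ 0) {m K : ℤ} {s : ℕ}
    (hs : 1 ≤ s) (hm : Valued.v (l : k) = WithZero.exp (-m)) (hKdef : K = 2 * m + s)
    (hK : 0 ≤ K) {ρ : Γ₀} (hρ : ρ = Valued.v (l : k) * WithZero.exp (-(s : ℤ)))
    {c t d : k} (hc : Valued.v c = WithZero.exp (-K))
    (ht : Valued.v (t - 2) ≤ WithZero.exp (-(2 * K)))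
    (hd : Valued.v (d - 1) ≤ WithZero.exp (-(2 * K))) :
    IsRoot333 l c ρ t d ⟨(rootCoord333 l c ρ t d).1, (rootCoord333 l c ρ t d).2⟩ ∧
      Valued.v ((rootCoord333 l c ρ t d).1 - 1) ≤ WithZero.exp (-(m + s)) ∧
      Valued.v ((rootCoord333 l c ρ t d).2) ≤ WithZero.exp (-(m + s)) := by
  have hex := exists_isRoot333 hl hs hm hKdef hK hc ht hd
  rw [← hρ] at hex
  have h := rootCoord_spec333 l c ρ t d hex
  have hρ' : ρ = WithZero.exp (-(m + s)) := by
    rw [hρ, hm, ← WithZero.exp_add]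
    congr 1
    ring
  refine ⟨h, ?_, ?_⟩
  · have h1 : Valued.v ((rootCoord333 l c ρ t d).1 - 1) ≤ ρ := h.1.1
    exact h1.trans (le_of_eq hρ')
  · have h1 : Valued.v ((rootCoord333 l c ρ t d).2 - 0) ≤ ρ := h.1.2
    rw [sub_zero] at h1
    exact h1.trans (le_of_eq hρ')

end Point

/-! ## The estimates in coordinates -/

section Est

variable {k : Type} [Field k] [Valued k Γ₀]

theorem val_a333 {y c : k} {m K : ℤ} {s : ℕ} (hKdef : K = 2 * m + s)
    (hc : Valued.v c = WithZero.exp (-K)) (hy : Valued.v y ≤ WithZero.exp (-(m + s))) :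
    Valued.v (y / c) ≤ WithZero.exp m :=
  vle333 (vdiv333 hy hc) (by omega)

theorem val_x333 {x : k} {m : ℤ} {s : ℕ} (hm : 0 ≤ m)
    (hx : Valued.v (x - 1) ≤ WithZero.exp (-(m + s))) : Valued.v x ≤ WithZero.exp (0 : ℤ) := by
  have e : x = (x - 1) + 1 := by ring
  rw [e]
  refine Valuation.map_add_le _ (vle333 hx (by omega)) ?_
  rw [map_one, WithZero.exp_zero]

theorem val_b333 {x y c : k} {m K : ℤ} {s : ℕ} (hm : 0 ≤ m) (hKdef : K = 2 * m + s)
    (hc : Valued.v c = WithZero.exp (-K)) (hx : Valued.v (x - 1) ≤ WithZero.exp (-(m + s)))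
    (hy : Valued.v y ≤ WithZero.exp (-(m + s))) :
    Valued.v (x - y / c) ≤ WithZero.exp m :=
  Valuation.map_sub_le _ (vle333 (val_x333 hm hx) hm) (val_a333 hKdef hc hy)

theorem tr_est333 {x y c t : k} {m K N₀ : ℤ} {s : ℕ} (hm : 0 ≤ m) (hKdef : K = 2 * m + s)
    (hN : N₀ ≤ s) (hc : Valued.v c = WithZero.exp (-K))
    (ht : Valued.v (t - 2) ≤ WithZero.exp (-(2 * K)))
    (hx : Valued.v (x - 1) ≤ WithZero.exp (-(m + s)))
    (hy : Valued.v y ≤ WithZero.exp (-(m + s))) :
    Valued.v (y / c * t + 2 * (x - y / c) - 2) ≤ WithZero.exp (-N₀) := by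
  have e : y / c * t + 2 * (x - y / c) - 2 = y / c * (t - 2) + 2 * (x - 1) := by ring
  rw [e]
  refine Valuation.map_add_le _ ?_ ?_
  · exact vle333 (vmul333 (val_a333 hKdef hc hy) ht) (by omega)
  · exact vle333 (vmul333 val_two_le333 hx) (by omega)

theorem det_est333 {x y c t d : k} {m K N₀ : ℤ} {s : ℕ} (hm : 0 ≤ m) (hKdef : K = 2 * m + s)
    (hN : N₀ ≤ s) (hc : Valued.v c = WithZero.exp (-K))
    (ht : Valued.v (t - 2) ≤ WithZero.exp (-(2 * K)))
    (hd : Valued.v (d - 1) ≤ WithZero.exp (-(2 * K)))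
    (hx : Valued.v (x - 1) ≤ WithZero.exp (-(m + s)))
    (hy : Valued.v y ≤ WithZero.exp (-(m + s))) :
    Valued.v ((y / c) ^ 2 * d + y / c * (x - y / c) * t + (x - y / c) ^ 2 - 1)
      ≤ WithZero.exp (-N₀) := by
  have e : (y / c) ^ 2 * d + y / c * (x - y / c) * t + (x - y / c) ^ 2 - 1
      = (y / c) * (y / c) * (d - t + 1) + (y / c) * x * (t - 2) + (x - 1) * (x + 1) := by ring
  rw [e]
  have ha := val_a333 hKdef hc hy
  have hx0 := val_x333 hm hx
  have hx1 : Valued.v (x + 1) ≤ WithZero.exp (0 : ℤ) := by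
    refine Valuation.map_add_le _ hx0 ?_
    rw [map_one, WithZero.exp_zero]
  refine Valuation.map_add_le _ (Valuation.map_add_le _ ?_ ?_) ?_
  · exact vle333 (vmul333 (vmul333 ha ha) (val_delta_le333 ht hd)) (by omega)
  · exact vle333 (vmul333 (vmul333 ha hx0) ht) (by omega)
  · exact vle333 (vmul333 hx hx1) (by omega)

/-- The parameters are Lipschitz in `(t, d)`. -/
theorem param_near333 {c t d t' d' : k} {K : ℤ} (hK : 0 ≤ K)
    (hc : Valued.v c = WithZero.exp (-K)) :
    Valued.v (qα333 c t d - qα333 c t' d')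
        ≤ WithZero.exp (2 * K) * max (Valued.v (t - t')) (Valued.v (d - d')) ∧
      Valued.v (qβ333 c t d - qβ333 c t' d')
        ≤ WithZero.exp (2 * K) * max (Valued.v (t - t')) (Valued.v (d - d')) := by
  refine ⟨?_, ?_⟩
  · have e : qα333 c t d - qα333 c t' d' = ((t - t') - (d - d')) / c ^ 2 := by
      unfold qα333; ring
    rw [e]
    exact vdiv_le333 (Valuation.map_sub_le _ (le_max_left _ _) (le_max_right _ _))
      (val_sq333 hc)
  · have e : qβ333 c t d - qβ333 c t' d' = (t - t') / c := by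
      unfold qβ333; ring
    rw [e]
    refine (vdiv_le333 (le_max_left (Valued.v (t - t')) (Valued.v (d - d'))) hc).trans ?_
    exact mul_le_mul' (WithZero.exp_le_exp.mpr (by omega)) le_rfl

theorem lip_est333 {x y x' y' c : k} {m K : ℤ} {η₀ : Γ₀} (hK : 0 ≤ K)
    (hc : Valued.v c = WithZero.exp (-K))
    (hx : Valued.v (x - x') ≤ WithZero.exp m * (WithZero.exp (2 * K) * η₀))
    (hy : Valued.v (y - y') ≤ WithZero.exp m * (WithZero.exp (2 * K) * η₀)) :
    Valued.v (y / c - y' / c) ≤ WithZero.exp (3 * K + m) * η₀ ∧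
      Valued.v ((x - y / c) - (x' - y' / c)) ≤ WithZero.exp (3 * K + m) * η₀ := by
  have h3 : WithZero.exp K * (WithZero.exp m * (WithZero.exp (2 * K) * η₀))
      = WithZero.exp (3 * K + m) * η₀ := by
    rw [← mul_assoc, ← mul_assoc, ← WithZero.exp_add, ← WithZero.exp_add]
    congr 2
    ring
  have ha : Valued.v (y / c - y' / c) ≤ WithZero.exp (3 * K + m) * η₀ := by
    have e : y / c - y' / c = (y - y') / c := by ring
    rw [e, ← h3]
    exact vdiv_le333 hy hc
  refine ⟨ha, ?_⟩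
  have e : (x - y / c) - (x' - y' / c) = (x - x') - (y / c - y' / c) := by ring
  rw [e]
  refine Valuation.map_sub_le _ (hx.trans ?_) ha
  rw [← mul_assoc, ← WithZero.exp_add]
  exact mul_le_mul' (WithZero.exp_le_exp.mpr (by omega)) le_rfl

end Est

/-! ## The leaf -/

/-- **T6.18g3.1a** (`H820.RootFnC820`, verbatim). -/
theorem rootFnC333 : RootFnC820 := by
  intro k _ _ q l hk hl N₀
  have : CharZero k := hk.char0
  have : CompleteSpace k := hk.complete
  have hl0 : (l : k) ≠ 0 := Nat.cast_ne_zero.mpr hl.ne'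
  have hlam : Valued.v (l : k) ≠ 0 := (Valuation.ne_zero_iff _).mpr hl0
  obtain ⟨ϖ, hϖ⟩ := hk.unif
  obtain ⟨m, hm⟩ : ∃ m : ℤ, Valued.v (l : k) = WithZero.exp (-m) :=
    ⟨-WithZero.log (Valued.v (l : k)), by rw [neg_neg, WithZero.exp_log hlam]⟩
  have hm0 : 0 ≤ m := by
    have h1 := val_natCast_le_one333 (k := k) l
    rw [hm, ← WithZero.exp_zero, WithZero.exp_le_exp] at h1
    omega
  obtain ⟨s, hs1, hsN⟩ : ∃ s : ℕ, 1 ≤ s ∧ N₀ ≤ (s : ℤ) := ⟨(max N₀ 1).toNat, by omega, by omega⟩
  obtain ⟨K, hKdef⟩ : ∃ K : ℤ, K = 2 * m + s := ⟨_, rfl⟩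
  have hK0 : 0 ≤ K := by omega
  obtain ⟨c, hc⟩ : ∃ c : k, Valued.v c = WithZero.exp (-K) := by
    refine ⟨(l : k) ^ 2 * ϖ ^ s, ?_⟩
    rw [map_mul, map_pow, map_pow, hm, hϖ, ← WithZero.exp_nsmul, ← WithZero.exp_nsmul,
      ← WithZero.exp_add]
    congr 1
    rw [hKdef]
    simp only [nsmul_eq_mul]
    push_cast
    ring
  have hc0 : c ≠ 0 := by
    rw [← Valuation.ne_zero_iff (Valued.v : Valuation k Γ₀), hc]
    exact WithZero.exp_ne_zero
  obtain ⟨ρ, hρ⟩ : ∃ ρ : Γ₀, ρ = Valued.v (l : k) * WithZero.exp (-(s : ℤ)) := ⟨_, rfl⟩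
  have hεle : WithZero.exp (-(s : ℤ)) ≤ WithZero.exp (-1 : ℤ) := by
    rw [WithZero.exp_le_exp]; omega
  refine ⟨2 * K, 3 * K + m, fun t d => (rootCoord333 l c ρ t d).2 / c,
    fun t d => (rootCoord333 l c ρ t d).1 - (rootCoord333 l c ρ t d).2 / c, ?_⟩
  intro t d ht hd
  obtain ⟨hroot, hx, hy⟩ := point333 hl0 hs1 hm hKdef hK0 hρ hc ht hd
  obtain ⟨hα, hβ⟩ := param_le333 hK0 hc ht hd
  refine ⟨?_, ?_, ?_, ?_, ?_, ?_⟩
  · intro M htr hdet
    exact matroot333 M c (scaled333 M t d c htr hdet hc0) hc0 _ l hroot.2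
  · exact tr_est333 hm0 hKdef hsN hc ht hx hy
  · exact det_est333 hm0 hKdef hsN hc ht hd hx hy
  · exact vle333 (val_a333 hKdef hc hy) (by omega)
  · exact vle333 (val_b333 hm0 hKdef hc hx hy) (by omega)
  · intro t' d' ht' hd'
    obtain ⟨hroot', hx', hy'⟩ := point333 hl0 hs1 hm hKdef hK0 hρ hc ht' hd'
    obtain ⟨hα', hβ'⟩ := param_le333 hK0 hc ht' hd'
    obtain ⟨hαη, hβη⟩ := param_near333 (t := t) (d := d) (t' := t') (d' := d') hK0 hc
    have hz := qle_mono333 hroot.1 (le_of_eq hρ)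
    have hz' := qle_mono333 hroot'.1 (le_of_eq hρ)
    have hnear := root_near333 hα hβ hα' hβ' hαη hβη hl0 hεle hz hz' (by
      rw [hroot.2, hroot'.2]; rfl)
    have hinv : (Valued.v (l : k))⁻¹ = WithZero.exp m := by
      rw [hm, ← WithZero.exp_neg, neg_neg]
    rw [hinv] at hnear
    exact lip_est333 hK0 hc hnear.1 hnear.2

end Fermat.Agent.LT.T6.H333

end

end
-- ===== PACK-END LT/T6/H333/RootFn.lean

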