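import Mathlib
import Fermat.Agent.Pack.LT3.E10L2
import Fermat.Agent.Pack.LT3.E9L0
import Fermat.Agent.Pack.LT3.E3L2
import Fermat.Agent.Pack.LT3.E9L1
import Fermat.Agent.Pack.LT3.E6L0
import Fermat.Agent.Pack.LT3.E8L2
import Fermat.Agent.Pack.LT3.E10L0
import Fermat.Agent.Pack.LT3.E8L0
import Fermat.Agent.Pack.LT2.E0L1
import Fermat.Agent.Pack.LT2.E3L1
import Fermat.Agent.Pack.LT3.E12L0

set_option linter.all false

-- ===== PACK-BEGIN LT/CFT/H137/QBound.lean
section


/-!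
# Row LT, tower CFT, sub-tower EX, leaf E1.C (counting), helper137, OFF-MAIN, Mathlib only

The subgroup `H₁ = ⟨a ∈ 𝓞 K, a ≡ 1 mod 𝔐⟩ · (Kˣ)²` of `Kˣ` and its index:

* `index_h1_le137` : `[Kˣ : H₁] ≤ 2 ^ #T * [(𝓞 K ⧸ 𝔐)ˣ : squares]`, and the index is finite.
-/

set_option autoImplicit false
set_option linter.unusedSectionVars false

open IsDedekindDomain NumberField

namespace Fermat.Agent.LT.CFT.H137

variable (K : Type*) [Field K] [NumberField K]

/-- The generators of the ray: the nonzero integers `a ≡ 1 mod 𝔐`. -/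
def k1Gen137 (𝔐 : Ideal (𝓞 K)) : Set Kˣ :=
  {x | ∃ a : 𝓞 K, a - 1 ∈ 𝔐 ∧ (x : K) = algebraMap (𝓞 K) K a}

/-- The ray modulo `𝔐`, as a subgroup of `Kˣ`. -/
def k1Sub137 (𝔐 : Ideal (𝓞 K)) : Subgroup Kˣ := Subgroup.closure (k1Gen137 K 𝔐)

/-- `H₁ = K_{𝔐,1} · (Kˣ)²`. -/
def h1Sub137 (𝔐 : Ideal (𝓞 K)) : Subgroup Kˣ :=
  k1Sub137 K 𝔐 ⊔ (powMonoidHom 2 : Kˣ →* Kˣ).range

variable {K}

theorem k1Sub_le_h1Sub137 (𝔐 : Ideal (𝓞 K)) : k1Sub137 K 𝔐 ≤ h1Sub137 K 𝔐 := le_sup_left

theorem sq_mem_h1Sub137 (𝔐 : Ideal (𝓞 K)) (y : Kˣ) : y ^ 2 ∈ h1Sub137 K 𝔐 :=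
  (le_sup_right : _ ≤ h1Sub137 K 𝔐) ⟨y, rfl⟩

/-- Nonzero integers as elements of `Kˣ`. -/
noncomputable def toKx137 (a : 𝓞 K) (ha : a ≠ 0) : Kˣ :=
  Units.mk0 (algebraMap (𝓞 K) K a)
    (by rw [Ne, map_eq_zero_iff _ (FaithfulSMul.algebraMap_injective (𝓞 K) K)]; exact ha)

theorem toKx_val137 (a : 𝓞 K) (ha : a ≠ 0) : ((toKx137 a ha : Kˣ) : K) = algebraMap (𝓞 K) K a :=
  rfl

theorem toKx_mul137 (a b : 𝓞 K) (ha : a ≠ 0) (hb : b ≠ 0) :
    toKx137 (a * b) (mul_ne_zero ha hb) = toKx137 a ha * toKx137 b hb := by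
  apply Units.ext
  rw [Units.val_mul, toKx_val137, toKx_val137, toKx_val137, map_mul]

theorem toKx_mem_k1Sub137 (𝔐 : Ideal (𝓞 K)) (a : 𝓞 K) (ha : a ≠ 0) (h : a - 1 ∈ 𝔐) :
    toKx137 a ha ∈ k1Sub137 K 𝔐 :=
  Subgroup.subset_closure ⟨a, h, rfl⟩

/-- Two nonzero integers which are congruent modulo `𝔐` and invertible modulo `𝔐` differ by an
element of the ray. -/
theorem div_mem_k1Sub137 (𝔐 : Ideal (𝓞 K)) (a b : 𝓞 K) (ha : a ≠ 0) (hb : b ≠ 0)
    (hab : a - b ∈ 𝔐) (hinv : ∃ z : 𝓞 K, b * z - 1 ∈ 𝔐) :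
    (toKx137 b hb)⁻¹ * toKx137 a ha ∈ k1Sub137 K 𝔐 := by
  obtain ⟨z, hz⟩ := hinv
  by_cases hz0 : z = 0
  · -- then `𝔐 = ⊤`
    have h1 : (1 : 𝓞 K) ∈ 𝔐 := by
      rw [hz0, mul_zero, zero_sub] at hz
      simpa using 𝔐.neg_mem hz
    have htop : 𝔐 = ⊤ := (Ideal.eq_top_iff_one _).2 h1
    have h2 : toKx137 a ha ∈ k1Sub137 K 𝔐 :=
      toKx_mem_k1Sub137 𝔐 a ha (by rw [htop]; exact Submodule.mem_top)
    have h3 : toKx137 b hb ∈ k1Sub137 K 𝔐 :=
      toKx_mem_k1Sub137 𝔐 b hb (by rw [htop]; exact Submodule.mem_top)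
    exact (k1Sub137 K 𝔐).mul_mem ((k1Sub137 K 𝔐).inv_mem h3) h2
  · have haz : a * z - 1 ∈ 𝔐 := by
      have : a * z - 1 = (a - b) * z + (b * z - 1) := by ring
      rw [this]
      exact 𝔐.add_mem (𝔐.mul_mem_right _ hab) hz
    have h2 : toKx137 (a * z) (mul_ne_zero ha hz0) ∈ k1Sub137 K 𝔐 :=
      toKx_mem_k1Sub137 𝔐 _ _ haz
    have h3 : toKx137 (b * z) (mul_ne_zero hb hz0) ∈ k1Sub137 K 𝔐 :=
      toKx_mem_k1Sub137 𝔐 _ _ hz
    have h4 := (k1Sub137 K 𝔐).mul_mem ((k1Sub137 K 𝔐).inv_mem h3) h2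
    rw [toKx_mul137 a z ha hz0, toKx_mul137 b z hb hz0] at h4
    have e : (toKx137 b hb * toKx137 z hz0)⁻¹ * (toKx137 a ha * toKx137 z hz0) =
        (toKx137 b hb)⁻¹ * toKx137 a ha := by
      rw [mul_comm (toKx137 b hb) (toKx137 z hz0), mul_comm (toKx137 a ha) (toKx137 z hz0),
        mul_inv_rev, mul_assoc, inv_mul_cancel_left]
    rw [e] at h4
    exact h4

variable (K)

/-- The valuation vector modulo `2`. -/
noncomputable def ord2_137 (T : Finset (HeightOneSpectrum (𝓞 K))) :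
    Kˣ →* (↥T → Multiplicative (ZMod 2)) :=
  (latRed137 (↥T) 2).comp (ordAll137 K T)

theorem index_ker_ord2_137 (T : Finset (HeightOneSpectrum (𝓞 K))) :
    (ord2_137 K T).ker.index = 2 ^ T.card := by
  have hsurj : Function.Surjective (ord2_137 K T) :=
    (latRed_surjective137 (↥T) 2).comp (ordAll_surjective137 K T)
  rw [Subgroup.index_ker, MonoidHom.range_eq_top.2 hsurj, Subgroup.card_top, Nat.card_fun,
    Nat.card_congr (Multiplicative.toAdd : Multiplicative (ZMod 2) ≃ ZMod 2), Nat.card_zmod,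
    Nat.card_eq_fintype_card, Fintype.card_coe]

variable {K}

theorem h1Sub_le_ker137 (T : Finset (HeightOneSpectrum (𝓞 K)))
    (k : HeightOneSpectrum (𝓞 K) → ℕ) (hk : ∀ v ∈ T, 1 ≤ k v) :
    h1Sub137 K (modM137 K T k) ≤ (ord2_137 K T).ker := by
  unfold h1Sub137 k1Sub137
  rw [sup_le_iff]
  constructor
  · rw [Subgroup.closure_le]
    rintro x ⟨a, ha, hxa⟩
    rw [SetLike.mem_coe, MonoidHom.mem_ker]
    have h1 : ordAll137 K T x = 1 := by
      funext v
      rw [ordAll_apply137, Pi.one_apply, valuationOfNeZero_eq_one_iff137, hxa,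
        HeightOneSpectrum.valuation_of_algebraMap, v.1.intValuation_eq_one_iff]
      exact notMem_of_sub_one_mem137 T k hk ha v.2
    show latRed137 (↥T) 2 (ordAll137 K T x) = 1
    rw [h1, map_one]
  · rintro _ ⟨y, rfl⟩
    rw [MonoidHom.mem_ker, powMonoidHom_apply, map_pow]
    funext v
    have h2 : ∀ c : Multiplicative (ZMod 2), c ^ 2 = 1 := by decide
    rw [Pi.pow_apply, Pi.one_apply]
    exact h2 _

/-- Every element with even valuations at `T` is, modulo `H₁`, an integer prime to `T`. -/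
theorem exists_int_rep137 (T : Finset (HeightOneSpectrum (𝓞 K))) (hT : T.Nonempty)
    (k : HeightOneSpectrum (𝓞 K) → ℕ) (hk : ∀ v ∈ T, 1 ≤ k v) (x : Kˣ)
    (hx : x ∈ (ord2_137 K T).ker) :
    ∃ (a : 𝓞 K) (ha : a ≠ 0), (∀ v ∈ T, a ∉ v.asIdeal) ∧
      (toKx137 a ha)⁻¹ * x ∈ h1Sub137 K (modM137 K T k) := by
  classical
  -- even valuations
  have h1 : ordAll137 K T x ∈ (latRed137 (↥T) 2).ker := hx
  rw [latRed_ker137] at h1
  obtain ⟨m, hm⟩ := h1
  obtain ⟨y, rfl⟩ := ordAll_surjective137 K T m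
  rw [powMonoidHom_apply] at hm
  set x' : Kˣ := x * (y ^ 2)⁻¹ with hx'
  have hx'1 : ordAll137 K T x' = 1 := by
    rw [hx', map_mul, map_inv, map_pow, hm, mul_inv_cancel]
  have hval : ∀ v ∈ T, v.valuation K (x' : K) = 1 := by
    intro v hv
    rw [← valuationOfNeZero_eq_one_iff137]
    exact congrFun hx'1 ⟨v, hv⟩
  obtain ⟨ε, a, hε, ha⟩ := exists_den137 T k (x' : K) (fun v hv => (hval v hv).le)
  -- `ε ≠ 0`
  obtain ⟨v₀, hv₀⟩ := hT
  have hε0 : ε ≠ 0 := by
    rintro rfl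
    have := notMem_of_sub_one_mem137 T k hk hε hv₀
    exact this (Submodule.zero_mem _)
  have ha0 : a ≠ 0 := by
    rintro rfl
    rw [map_zero] at ha
    have h2 : algebraMap (𝓞 K) K ε ≠ 0 := by
      rw [Ne, map_eq_zero_iff _ (FaithfulSMul.algebraMap_injective (𝓞 K) K)]
      exact hε0
    exact mul_ne_zero h2 x'.ne_zero ha.symm
  refine ⟨a, ha0, ?_, ?_⟩
  · intro v hv
    have h2 : v.valuation K (algebraMap (𝓞 K) K a) = 1 := by
      rw [ha, map_mul, hval v hv, mul_one, HeightOneSpectrum.valuation_of_algebraMap,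
        v.intValuation_eq_one_iff]
      exact notMem_of_sub_one_mem137 T k hk hε hv
    rw [HeightOneSpectrum.valuation_of_algebraMap, v.intValuation_eq_one_iff] at h2
    exact h2
  · -- `x = a * ε⁻¹ * y ^ 2`
    have e1 : toKx137 a ha0 = toKx137 ε hε0 * x' := by
      apply Units.ext
      rw [Units.val_mul, toKx_val137, toKx_val137]
      exact ha
    have e2 : (toKx137 a ha0)⁻¹ * x = (toKx137 ε hε0)⁻¹ * y ^ 2 := by
      rw [inv_mul_eq_iff_eq_mul, e1, mul_mul_mul_comm, mul_inv_cancel, one_mul, hx',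
        inv_mul_cancel_right]
    rw [e2]
    refine (h1Sub137 K _).mul_mem ((h1Sub137 K _).inv_mem ?_) (sq_mem_h1Sub137 _ y)
    exact k1Sub_le_h1Sub137 _ (toKx_mem_k1Sub137 _ ε hε0 hε)

end Fermat.Agent.LT.CFT.H137

end
-- ===== PACK-END LT/CFT/H137/QBound.lean

-- ===== PACK-BEGIN LT/T6/H844/EPOrb.lean
section





/-!
# Row LT, tower T6, leaf T6.18i.3 `EPOrbC385` (helper844), OFF-MAIN

The orbital integrals of the spherical Euler–Poincaré function
`f₀ = 1_{K ϖ^{(j+1, j-1)} K} - (q - 1) 1_{K ϖ^{(j, j)} K}`, `j = ord z`, at the regular `γ` in a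
small `χ`-ball around `(2z, z²)`: `2` (elliptic unramified), `1` (elliptic ramified),
`0` (hyperbolic).  GLUE from the leaves of the fundamental lemma, in the instance `k' = k`,
`l = 1`, `s = id`:

`epOrbC844 : H60.OrbEllUnrC → H847.EllReduceC → H847.EllOrbC → H288.DiagReduceC →
    H288.OrbSumDiagC → H385.EPOrbC385`.
-/

set_option autoImplicit false

open scoped Matrix

noncomputable section

namespace Fermat.Agent.LT.T6.H844

open Fermat.Agent.LT.T6 Fermat.Agent.LT.T6.H783 Fermat.Agent.LT.T6.H385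

/-! ## The trivial extension `k / k` -/

section Triv

variable {k : Type} [Field k]

lemma isCyclicData_refl844 : IsCyclicData k k 1 (RingHom.id k) (RingEquiv.refl k) where
  pos := Nat.one_pos
  fix_i _ := rfl
  fixed y _ := ⟨y, rfl⟩
  order _ := rfl
  faithful m hm hm1 := absurd hm1 (by omega)

lemma isLocalExt_refl844 [Valued k Γ₀] :
    IsLocalExt k k 1 1 (RingHom.id k) (RingEquiv.refl k) where
  cyc := isCyclicData_refl844
  e_pos := Nat.one_pos
  val_i x := by simp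
  val_s _ := rfl

lemma glAut_refl844 (g : GL (Fin 2) k) : glAut (RingEquiv.refl k) g = g := by
  apply Units.ext
  ext i j
  simp [glAut]

lemma twNorm_one844 (g : GL (Fin 2) k) : twNorm (RingEquiv.refl k) 1 g = g := by
  simp [twNorm, twN]

lemma map_id844 (g : GL (Fin 2) k) : Matrix.GeneralLinearGroup.map (RingHom.id k) g = g := by
  rw [Matrix.GeneralLinearGroup.map_id]
  rfl

lemma isConj_twNorm_refl844 (g : GL (Fin 2) k) :
    IsConj (twNorm (RingEquiv.refl k) 1 g) (Matrix.GeneralLinearGroup.map (RingHom.id k) g) := by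
  rw [twNorm_one844, map_id844]

end Triv

/-! ## Orbit sums depend on the twisted conjugacy class only -/

lemma isOrbSumGen_of_twConj844 {Γ : Type} [Group Γ] (s : Γ →* Γ) (U : Γ → Prop)
    (C : Γ → Γ → Prop) (φ : Γ → ℂ) (δ δ₀ : Γ) (c : ℂ) (x₀ : Γ) (h₀ : δ₀ = x₀⁻¹ * δ * s x₀)
    (h : IsOrbSumGen s U C φ δ c) : IsOrbSumGen s U C φ δ₀ c := by
  obtain ⟨R, h1, h2, h3, h4⟩ := h
  have key : ∀ y : Γ, (∃ x, y = x⁻¹ * δ * s x) ↔ (∃ x, y = x⁻¹ * δ₀ * s x) := by
    intro y
    constructor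
    · rintro ⟨x, rfl⟩
      refine ⟨x₀⁻¹ * x, ?_⟩
      rw [h₀]
      simp [mul_assoc]
    · rintro ⟨x, rfl⟩
      refine ⟨x₀ * x, ?_⟩
      rw [h₀]
      simp [mul_assoc]
  exact ⟨R, fun y hy => (key y).mp (h1 y hy), h2, fun y hy => h3 y ((key y).mpr hy), h4⟩

lemma isOrbSum_of_twConj844 {k : Type} [Field k] [Valued k Γ₀] (f : GL (Fin 2) k → ℂ)
    (γ δ₀ : GL (Fin 2) k) (c : ℂ) (hconj : IsTwConj (RingEquiv.refl k) γ δ₀)
    (h : IsOrbSum 0 f γ c) : IsTwOrbSum (RingEquiv.refl k) 0 f δ₀ c := by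
  obtain ⟨x, hx⟩ := hconj
  exact isOrbSumGen_of_twConj844 _ _ _ _ γ δ₀ c x hx h

/-! ## The three evaluations -/

lemma epFun_sum844 (q : ℕ) (j : ℤ) (w : ℤ × ℤ → ℂ) :
    ((epFun385 q j).sum fun lam c => c * w lam)
      = w (j + 1, j - 1) - ((q : ℂ) - 1) * w (j, j) := by
  unfold epFun385
  rw [Finsupp.sum_sub_index (by intros; ring), Finsupp.sum_single_index (by simp),
    Finsupp.sum_single_index (by simp), one_mul]

lemma wGeo_eval844 (q r : ℕ) (j : ℤ) :
    H60.wGeo q r j (j + 1, j - 1) - ((q : ℂ) - 1) * H60.wGeo q r j (j, j) = 2 := by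
  have h1 : (j + 1) + (j - 1) = 2 * j := by ring
  have h2 : ¬ (j + 1 = j - 1) := by omega
  have h3 : j - 1 < j + 1 := by omega
  have h4 : (j + 1 - j).toNat - 1 = 0 := by
    have : j + 1 - j = 1 := by ring
    rw [this]
    rfl
  have h5 : j + j = 2 * j := by ring
  simp only [H60.wGeo, H60.wFix, h1, h2, h3, h4, h5, if_true, if_false, pow_zero, mul_one]
  ring

lemma ellWeight_eval844 (Q : ℕ) (q : ℂ) (j : ℤ) (Θ : ℂ) (hQ : (Q : ℂ) = q) :
    H847.ellWeight Q (j + 1, j - 1) (2 * j) Θ - (q - 1) * H847.ellWeight Q (j, j) (2 * j) Θ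
      = 1 := by
  have h1 : (j + 1) + (j - 1) = 2 * j := by ring
  have h2 : ¬ (j + 1 = j - 1) := by omega
  have h3 : j - 1 ≤ j + 1 := by omega
  have h4 : (j + 1 - (j - 1)) / 2 - 1 = 0 := by
    have : j + 1 - (j - 1) = 2 := by ring
    rw [this]
    rfl
  have h5 : j + j = 2 * j := by ring
  have h6 : ¬ (2 * j % 2 = 1) := by omega
  simp only [H847.ellWeight, h1, h2, h3, h4, h5, h6, le_refl, and_self, if_true, if_false,
    zpow_zero, one_mul, hQ]
  ring

lemma constTerm_eval844 (Q : ℕ) (q : ℕ) (j : ℤ) (hQ : Q = q) (hq : 1 < q) :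
    H288.constTerm Q (epFun385 q j) j j = 0 := by
  subst hQ
  have hq0 : (Q : ℂ) ≠ 0 := by
    have : Q ≠ 0 := by omega
    exact_mod_cast this
  unfold H288.constTerm
  rw [epFun_sum844]
  have h1 : (j + 1) + (j - 1) = j + j := by ring
  have h2 : ¬ (j - 1 = j) := by omega
  have h3 : j - 1 ≤ j := by omega
  simp only [H288.ctWeight, h1, h2, h3, min_self, le_refl, and_self, if_true, if_false]
  have h4 : (Q : ℂ) ^ (-(j - 1)) = (Q : ℂ) ^ (-j) * (Q : ℂ) := by
    have : -(j - 1) = -j + 1 := by ring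
    rw [this, zpow_add₀ hq0, zpow_one]
  rw [h4]
  field_simp
  ring

/-! ## Valuations near the central point -/

section Val

variable {k : Type} [Field k] [Valued k Γ₀]

lemma val_two_le_one844 : Valued.v (2 : k) ≤ 1 := by
  have h : (2 : k) = 1 + 1 := by norm_num
  rw [h]
  refine le_trans (Valuation.map_add _ _ _) ?_
  simp

lemma val_eq_of_near844 {x y : k} {N : ℤ} (hy : y ≠ 0)
    (h : Valued.v (x - y) ≤ WithZero.exp (-N)) (hN : -N < WithZero.log (Valued.v y)) :
    Valued.v x = Valued.v y := by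
  apply Valuation.map_eq_of_sub_lt
  refine lt_of_le_of_lt h ?_
  exact (WithZero.lt_log_iff_exp_lt ((Valuation.ne_zero_iff _).mpr hy)).mp hN

lemma log_val_sq844 (z : k) :
    WithZero.log (Valued.v (z ^ 2)) = 2 * WithZero.log (Valued.v z) := by
  rw [map_pow, WithZero.log_pow]
  simp

/-- Near `z²` the determinant has the valuation of `z²`. -/
lemma log_val_det844 {d z : k} {N : ℤ} (hz : z ≠ 0)
    (h : Valued.v (d - z ^ 2) ≤ WithZero.exp (-N))
    (hN : -N < 2 * WithZero.log (Valued.v z)) :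
    WithZero.log (Valued.v d) = 2 * WithZero.log (Valued.v z) := by
  rw [val_eq_of_near844 (pow_ne_zero 2 hz) h (by rw [log_val_sq844]; exact hN), log_val_sq844]

/-- Two elements with sum near `2z` and product near `z²` have the valuation of `z`. -/
lemma log_val_eigen844 {t₁ t₂ z : k} {N : ℤ} (ht₁ : t₁ ≠ 0) (ht₂ : t₂ ≠ 0) (hz : z ≠ 0)
    (htr : Valued.v (t₁ + t₂ - 2 * z) ≤ WithZero.exp (-N))
    (hdet : Valued.v (t₁ * t₂ - z ^ 2) ≤ WithZero.exp (-N))
    (hN1 : -N < 2 * WithZero.log (Valued.v z)) (hN2 : -N ≤ WithZero.log (Valued.v z)) :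
    WithZero.log (Valued.v t₁) = WithZero.log (Valued.v z) ∧
      WithZero.log (Valued.v t₂) = WithZero.log (Valued.v z) := by
  have hv₁ : Valued.v t₁ ≠ 0 := (Valuation.ne_zero_iff _).mpr ht₁
  have hv₂ : Valued.v t₂ ≠ 0 := (Valuation.ne_zero_iff _).mpr ht₂
  have hvz : Valued.v z ≠ 0 := (Valuation.ne_zero_iff _).mpr hz
  have hprod : WithZero.log (Valued.v t₁) + WithZero.log (Valued.v t₂)
      = 2 * WithZero.log (Valued.v z) := by
    rw [← log_val_det844 hz hdet hN1, map_mul, WithZero.log_mul hv₁ hv₂]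
  have hsum : Valued.v (t₁ + t₂) ≤ Valued.v z := by
    have h : t₁ + t₂ = (t₁ + t₂ - 2 * z) + 2 * z := by ring
    rw [h]
    refine le_trans (Valuation.map_add _ _ _) (max_le ?_ ?_)
    · refine le_trans htr ?_
      exact (WithZero.le_log_iff_exp_le hvz).mp hN2
    · rw [map_mul]
      calc Valued.v (2 : k) * Valued.v z ≤ 1 * Valued.v z := by
            gcongr
            exact val_two_le_one844
        _ = Valued.v z := one_mul _
  by_cases hAB : WithZero.log (Valued.v t₁) = WithZero.log (Valued.v t₂)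
  · constructor <;> omega
  · exfalso
    have hne : Valued.v t₁ ≠ Valued.v t₂ := fun h => hAB (by rw [h])
    rw [Valuation.map_add_of_distinct_val _ hne] at hsum
    have h1 : WithZero.log (Valued.v t₁) ≤ WithZero.log (Valued.v z) :=
      (WithZero.log_le_log hv₁ hvz).mpr (le_trans (le_max_left _ _) hsum)
    have h2 : WithZero.log (Valued.v t₂) ≤ WithZero.log (Valued.v z) :=
      (WithZero.log_le_log hv₂ hvz).mpr (le_trans (le_max_right _ _) hsum)
    omega

end Val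

/-! ## The leaf -/

/-- **T6.18i.3**: the orbital integrals of the spherical Euler–Poincaré function near the
centre, from the leaves of the fundamental lemma. -/
theorem epOrbC844 (hU : H60.OrbEllUnrC) (hR : H847.EllReduceC) (hO : H847.EllOrbC)
    (hD : H288.DiagReduceC) (hS : H288.OrbSumDiagC) : EPOrbC385 := by
  intro k _ _ q hk z hz
  have hq1 : 1 < q := H60.one_lt_of_isLocalField hk
  have hk1 : IsLocalField k (q ^ 1) := by rwa [pow_one]
  refine ⟨2 * |WithZero.log (Valued.v z)| + 1, fun γ hreg hball c' hc' => ?_⟩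
  obtain ⟨htr, hdet⟩ := hball
  have hN1 : -(2 * |WithZero.log (Valued.v z)| + 1) < 2 * WithZero.log (Valued.v z) := by
    have := neg_abs_le (WithZero.log (Valued.v z))
    omega
  have hN2 : -(2 * |WithZero.log (Valued.v z)| + 1) ≤ WithZero.log (Valued.v z) := by
    have h1 := neg_abs_le (WithZero.log (Valued.v z))
    have h2 := abs_nonneg (WithZero.log (Valued.v z))
    omega
  have hlogdet : WithZero.log (Valued.v (γ : Matrix (Fin 2) (Fin 2) k).det)
      = 2 * WithZero.log (Valued.v z) := log_val_det844 hz hdet hN1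
  unfold quatMult385
  by_cases hE : HasEigen k γ
  · -- hyperbolic
    rw [if_pos hE]
    obtain ⟨d₁, d₂, t₁, t₂, δ₀, γ₀, ht12, hd₁, hd₂, hδ₀, hγ₀, hn₁, hn₂, htw, hcj⟩ :=
      hD k k 1 (RingHom.id k) (RingEquiv.refl k) isCyclicData_refl844 γ γ hreg hE
        (isConj_twNorm_refl844 γ)
    have hc := hS k k q 1 (RingHom.id k) (RingEquiv.refl k) hk hk1 isLocalExt_refl844
      (epFun385 q (ord385 z)) d₁ d₂ t₁ t₂ δ₀ hδ₀ hd₁ hd₂ ht12 hn₁ hn₂ c'
      (isOrbSum_of_twConj844 _ γ δ₀ c' htw hc')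
    have hd₁t : d₁ = t₁ := by simpa [H288.fNorm] using hn₁
    have hd₂t : d₂ = t₂ := by simpa [H288.fNorm] using hn₂
    obtain ⟨x, hx⟩ := isConj_iff.mp hcj
    have hγ₀' : (γ₀ : Matrix (Fin 2) (Fin 2) k)
        = (x : Matrix (Fin 2) (Fin 2) k) * (γ : Matrix (Fin 2) (Fin 2) k)
          * ((x⁻¹ : GL (Fin 2) k) : Matrix (Fin 2) (Fin 2) k) := by
      rw [← hx]
      rfl
    have htrace : (γ : Matrix (Fin 2) (Fin 2) k).trace = d₁ + d₂ := by
      rw [← Matrix.trace_units_conj x (γ : Matrix (Fin 2) (Fin 2) k), ← hγ₀', hγ₀,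
        Matrix.trace_fin_two_of, hd₁t, hd₂t]
    have hdett : (γ : Matrix (Fin 2) (Fin 2) k).det = d₁ * d₂ := by
      rw [← Matrix.det_units_conj x (γ : Matrix (Fin 2) (Fin 2) k), ← hγ₀', hγ₀,
        Matrix.det_fin_two_of, hd₁t, hd₂t]
      ring
    rw [htrace] at htr
    rw [hdett] at hdet
    obtain ⟨h1, h2⟩ := log_val_eigen844 hd₁ hd₂ hz htr hdet hN1 hN2
    have ho₁ : H288.ordv d₁ = ord385 z := by
      unfold H288.ordv ord385
      rw [h1]
    have ho₂ : H288.ordv d₂ = ord385 z := by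
      unfold H288.ordv ord385
      rw [h2]
    rw [hc, ho₁, ho₂, constTerm_eval844 (q ^ 1) q (ord385 z) (pow_one q) hq1, mul_zero]
  · rw [if_neg hE]
    by_cases hRam : HasRamUnif k γ
    · -- elliptic ramified
      rw [if_pos hRam]
      obtain ⟨τ, ν, α, β, d₀, d₁, γ₀, δ₀, hdata, hcj, htw⟩ :=
        hR k k q 1 (RingHom.id k) (RingEquiv.refl k) hk hk1 isLocalExt_refl844 γ γ hreg hE hRam
          (isConj_twNorm_refl844 γ)
      have hc := hO k k q 1 (RingHom.id k) (RingEquiv.refl k) hk hk1 isLocalExt_refl844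
        τ ν α β d₀ d₁ γ₀ δ₀ hdata (epFun385 q (ord385 z)) c'
        (isOrbSum_of_twConj844 _ γ δ₀ c' htw hc')
      obtain ⟨x, hx⟩ := htw
      have hdet₀ : (δ₀ : Matrix (Fin 2) (Fin 2) k).det = (γ : Matrix (Fin 2) (Fin 2) k).det := by
        rw [hx, glAut_refl844]
        exact Matrix.det_units_conj' x (γ : Matrix (Fin 2) (Fin 2) k)
      have hord : H847.ord847 (δ₀ : Matrix (Fin 2) (Fin 2) k).det = 2 * ord385 z := by
        unfold H847.ord847 ord385
        rw [hdet₀, hlogdet]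
        ring
      rw [hc, epFun_sum844, hord]
      exact ellWeight_eval844 (q ^ 1) (q : ℂ) (ord385 z) _ (by simp)
    · -- elliptic unramified
      rw [if_neg hRam]
      obtain ⟨j, r, hj, hr, hgeo⟩ := hU k q hk γ hreg hE hRam
      have hjj : j = ord385 z := by
        have h1 : H60.ordDet γ = 2 * ord385 z := by
          unfold H60.ordDet ord385
          rw [hlogdet]
          ring
        omega
      rw [hgeo _ c' hc', epFun_sum844, hjj]
      exact wGeo_eval844 q r (ord385 z)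

end Fermat.Agent.LT.T6.H844

end

end
-- ===== PACK-END LT/T6/H844/EPOrb.lean

-- ===== PACK-BEGIN LT/T6/H388/TwReduce.lean
section



/-!
# Row LT, tower T6, leaf T6.18i.4 `TwReduceC385` (reduction to `w δ₀`, `w ∈ D^×` near `1`)

OFF-MAIN (helper388).  Proves `twReduce_of_sqrt388 : SqrtNearC385 → TwReduceC385`
(`TwReduceC385` VERBATIM; the row needs `SqrtNearC385`, leaf Q1b.1 of `QuatSpec.lean`).

Steps (header of `QuatSpec.lean`, 3, first bullet):
1. `σ`-conjugate `δ` to `δ₁` with `δ₁ σ(δ₁) = ι γ` (`normalize388`);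
2. `W = ι w₁`, `w₁ = a + b γ`, `w₁² = γ / z` (`SqrtNearC385`); `ζ = δ₁ W⁻¹` satisfies
   `ζ σ(ζ) = z` (`zeta_norm388`);
3. `x = [e₁ | ζ e₁]` is invertible because `z` is not a norm, and `ζ σ(x) = x δ₀`
   (`exists_frame388`);
4. `w = x⁻¹ W x ∈ D^×`, `w δ₀ = x⁻¹ δ₁ σ(x)` (`reduce_alg388`);
5. `Nrd(w - 1) = N(P) - z N(R)` is small and `Nrd` is anisotropic: `P = w₀₀ - 1` and `R = w₁₀`
   are small (`aniso388`, squares near `1` from `SqrtNearC385`: `sq_near_one388`); the same for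
   `w⁻¹`.
-/

set_option autoImplicit false

open scoped Matrix

noncomputable section

namespace Fermat.Agent.LT.T6.H388

open Fermat.Agent.LT.T6 Fermat.Agent.LT.T6.H783 Fermat.Agent.LT.T6.H385

/-! ## 1. Algebra over the fields -/

section Alg

variable {k k' : Type} [Field k] [Field k']

theorem twNorm_two388 (s : k' ≃+* k') (δ : GL (Fin 2) k') :
    twNorm s 2 δ = δ * glAut s δ := by
  simp [twNorm, twN]

theorem glAut_coe388 (s : k' ≃+* k') (g : GL (Fin 2) k') :
    ((glAut s g : GL (Fin 2) k') : Matrix (Fin 2) (Fin 2) k')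
      = (g : Matrix (Fin 2) (Fin 2) k').map s := rfl

theorem map_coe388 (i : k →+* k') (g : GL (Fin 2) k) :
    ((Matrix.GeneralLinearGroup.map i g : GL (Fin 2) k') : Matrix (Fin 2) (Fin 2) k')
      = (g : Matrix (Fin 2) (Fin 2) k).map i := rfl

theorem glAut_glAut388 (s : k' ≃+* k') (h2 : ∀ y, s (s y) = y) (g : GL (Fin 2) k') :
    glAut s (glAut s g) = g := by
  apply Units.ext
  ext a b
  simp [glAut_coe388, h2]

theorem glAut_map388 (i : k →+* k') (s : k' ≃+* k') (hfix : ∀ x : k, s (i x) = i x)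
    (h : GL (Fin 2) k) :
    glAut s (Matrix.GeneralLinearGroup.map i h) = Matrix.GeneralLinearGroup.map i h := by
  apply Units.ext
  ext a b
  simp [glAut_coe388, hfix]

/-- Step 1: `σ`-conjugate `δ` to an element whose norm is `g` on the nose. -/
theorem normalize388 (s : k' ≃+* k') (h2 : ∀ y, s (s y) = y) (δ g : GL (Fin 2) k')
    (hc : IsConj (twNorm s 2 δ) g) :
    ∃ δ₁ : GL (Fin 2) k', IsTwConj s δ δ₁ ∧ δ₁ * glAut s δ₁ = g := by
  obtain ⟨c, hc⟩ := isConj_iff.1 hc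
  rw [twNorm_two388] at hc
  refine ⟨c * δ * (glAut s c)⁻¹, ⟨c⁻¹, by simp⟩, ?_⟩
  simp only [map_mul, map_inv, glAut_glAut388 s h2]
  rw [← hc]
  group

/-- Step 2: `ζ = δ₁ W⁻¹` has norm `S` if `δ₁ σ(δ₁) = G = S W²`, `W` commutes with `δ₁`, `σ W = W`,
`S` central. -/
theorem zeta_norm388 (s : k' ≃+* k') (δ₁ G W S : GL (Fin 2) k')
    (hN : δ₁ * glAut s δ₁ = G) (hG : G = S * W * W) (hS : ∀ g, S * g = g * S)
    (hWδ : W * δ₁ = δ₁ * W) (hσW : glAut s W = W) :
    (δ₁ * W⁻¹) * glAut s (δ₁ * W⁻¹) = S := by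
  have hσδ : glAut s δ₁ = δ₁⁻¹ * G := by rw [← hN]; group
  have hWG : W * G = G * W := by
    rw [hG]
    calc W * (S * W * W) = (W * S) * W * W := by group
      _ = (S * W) * W * W := by rw [hS W]
      _ = S * W * W * W := by group
  have hWinvδ : W⁻¹ * δ₁⁻¹ = δ₁⁻¹ * W⁻¹ := by
    rw [← mul_inv_rev, ← mul_inv_rev, hWδ]
  have hWinvG : W⁻¹ * G = G * W⁻¹ := by
    calc W⁻¹ * G = W⁻¹ * (G * W) * W⁻¹ := by group
      _ = W⁻¹ * (W * G) * W⁻¹ := by rw [hWG]
      _ = G * W⁻¹ := by group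
  rw [map_mul, map_inv, hσW, hσδ]
  calc δ₁ * W⁻¹ * (δ₁⁻¹ * G * W⁻¹)
      = δ₁ * (W⁻¹ * δ₁⁻¹) * G * W⁻¹ := by group
    _ = δ₁ * (δ₁⁻¹ * W⁻¹) * G * W⁻¹ := by rw [hWinvδ]
    _ = (W⁻¹ * G) * W⁻¹ := by group
    _ = (G * W⁻¹) * W⁻¹ := by rw [hWinvG]
    _ = S := by rw [hG]; group

/-- Step 3: the frame `x = [e₁ | ζ e₁]`. -/
theorem exists_frame388 (i : k →+* k') (s : k' ≃+* k') (z : k) (hz : z ≠ 0)
    (hnn : ¬ IsFieldNorm783 2 i s z) (ζ : GL (Fin 2) k')
    (hζ : (ζ : Matrix (Fin 2) (Fin 2) k') * (ζ : Matrix (Fin 2) (Fin 2) k').map s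
      = (i z) • (1 : Matrix (Fin 2) (Fin 2) k')) :
    ∃ x δ₀ : GL (Fin 2) k', IsQuatBase385 (i z) δ₀ ∧ ζ * glAut s x = x * δ₀ := by
  have h00 := congrFun (congrFun hζ 0) 0
  have h10 := congrFun (congrFun hζ 1) 0
  simp only [Matrix.mul_apply, Fin.sum_univ_two, Matrix.map_apply, Matrix.smul_apply,
    Matrix.one_apply_eq, smul_eq_mul, mul_one] at h00
  simp only [Matrix.mul_apply, Fin.sum_univ_two, Matrix.map_apply, Matrix.smul_apply,
    smul_eq_mul] at h10
  have h10' : (ζ : Matrix (Fin 2) (Fin 2) k') 1 0 * s ((ζ : Matrix (Fin 2) (Fin 2) k') 0 0)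
      + (ζ : Matrix (Fin 2) (Fin 2) k') 1 1 * s ((ζ : Matrix (Fin 2) (Fin 2) k') 1 0) = 0 := by
    rw [h10]
    simp
  have hc : (ζ : Matrix (Fin 2) (Fin 2) k') 1 0 ≠ 0 := by
    intro hc0
    apply hnn
    refine ⟨(ζ : Matrix (Fin 2) (Fin 2) k') 0 0, ?_⟩
    rw [hc0, map_zero, mul_zero, add_zero] at h00
    rw [Finset.prod_range_succ, Finset.prod_range_one, pow_zero, pow_one, ← h00]
    rfl
  have hiz : i z ≠ 0 := (map_ne_zero i).2 hz
  have hdx : (!![1, (ζ : Matrix (Fin 2) (Fin 2) k') 0 0;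
      0, (ζ : Matrix (Fin 2) (Fin 2) k') 1 0] : Matrix (Fin 2) (Fin 2) k').det ≠ 0 := by
    rw [Matrix.det_fin_two_of]
    simpa using hc
  have hd0 : (!![0, i z; 1, 0] : Matrix (Fin 2) (Fin 2) k').det ≠ 0 := by
    rw [Matrix.det_fin_two_of]
    simpa using hiz
  refine ⟨Matrix.GeneralLinearGroup.mkOfDetNeZero _ hdx,
    Matrix.GeneralLinearGroup.mkOfDetNeZero _ hd0, rfl, ?_⟩
  apply Units.ext
  rw [Units.val_mul, Units.val_mul, glAut_coe388]
  show (ζ : Matrix (Fin 2) (Fin 2) k')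
      * (!![1, (ζ : Matrix (Fin 2) (Fin 2) k') 0 0;
          0, (ζ : Matrix (Fin 2) (Fin 2) k') 1 0] : Matrix (Fin 2) (Fin 2) k').map s
    = !![1, (ζ : Matrix (Fin 2) (Fin 2) k') 0 0; 0, (ζ : Matrix (Fin 2) (Fin 2) k') 1 0]
      * !![0, i z; 1, 0]
  ext a b
  fin_cases a <;> fin_cases b <;>
    simp [Matrix.mul_apply, Fin.sum_univ_two, h00, h10']

theorem sc_coe_smul388 (u : k'ˣ) :
    ((sc388 u : GL (Fin 2) k') : Matrix (Fin 2) (Fin 2) k')
      = (u : k') • (1 : Matrix (Fin 2) (Fin 2) k') := by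
  have h := sc_mul_coe388 u (1 : GL (Fin 2) k')
  rwa [mul_one, Units.val_one] at h

/-- Step 4: the algebraic reduction. -/
theorem reduce_alg388 (i : k →+* k') (s : k' ≃+* k') (hfix : ∀ x : k, s (i x) = i x)
    (h2 : ∀ y, s (s y) = y) (z : k) (hz : z ≠ 0) (hnn : ¬ IsFieldNorm783 2 i s z)
    (δ : GL (Fin 2) k') (γ w₁ : GL (Fin 2) k) (a b : k)
    (hw : (w₁ : Matrix (Fin 2) (Fin 2) k) = a • (1 : Matrix (Fin 2) (Fin 2) k)
      + b • (γ : Matrix (Fin 2) (Fin 2) k))
    (hww : (w₁ : Matrix (Fin 2) (Fin 2) k) * (w₁ : Matrix (Fin 2) (Fin 2) k)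
      = z⁻¹ • (γ : Matrix (Fin 2) (Fin 2) k))
    (hc : IsConj (twNorm s 2 δ) (Matrix.GeneralLinearGroup.map i γ)) :
    ∃ w δ₀ x : GL (Fin 2) k', IsQuatBase385 (i z) δ₀ ∧ InQuat385 s δ₀ w ∧
      IsTwConj s δ (w * δ₀) ∧ w = x⁻¹ * Matrix.GeneralLinearGroup.map i w₁ * x := by
  obtain ⟨δ₁, ⟨y, hy⟩, hN⟩ := normalize388 s h2 δ _ hc
  -- `γ = z w₁²` in `GL₂(k)`
  have hγ : γ = sc388 (Units.mk0 z hz) * (w₁ * w₁) := by
    apply Units.ext
    rw [sc_mul_coe388, Units.val_mul, hww, smul_smul]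
    simp [hz]
  have hG : Matrix.GeneralLinearGroup.map i γ
      = sc388 (Units.map (i : k →* k') (Units.mk0 z hz))
        * Matrix.GeneralLinearGroup.map i w₁ * Matrix.GeneralLinearGroup.map i w₁ := by
    conv_lhs => rw [hγ]
    rw [map_mul, map_mul, map_sc388, mul_assoc]
  -- `δ₁` commutes with `ι γ`
  have hσN : glAut s δ₁ * δ₁ = Matrix.GeneralLinearGroup.map i γ := by
    have := congrArg (glAut s) hN
    rwa [map_mul, glAut_glAut388 s h2, glAut_map388 i s hfix] at this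
  have hcomm : δ₁ * Matrix.GeneralLinearGroup.map i γ
      = Matrix.GeneralLinearGroup.map i γ * δ₁ := by
    conv_lhs => rw [← hσN]
    conv_rhs => rw [← hN]
    group
  have hcomm' : (δ₁ : Matrix (Fin 2) (Fin 2) k') * (γ : Matrix (Fin 2) (Fin 2) k).map i
      = (γ : Matrix (Fin 2) (Fin 2) k).map i * (δ₁ : Matrix (Fin 2) (Fin 2) k') := by
    have := congrArg Units.val hcomm
    rwa [Units.val_mul, Units.val_mul, map_coe388] at this
  -- `W = ι w₁` commutes with `δ₁`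
  have hWval : ((Matrix.GeneralLinearGroup.map i w₁ : GL (Fin 2) k') :
      Matrix (Fin 2) (Fin 2) k') = (i a) • (1 : Matrix (Fin 2) (Fin 2) k')
        + (i b) • (γ : Matrix (Fin 2) (Fin 2) k).map i := by
    rw [map_coe388, hw]
    ext p q
    by_cases hpq : p = q
    · subst hpq
      simp [Matrix.map_apply]
    · simp [Matrix.map_apply, hpq]
  have hWδ : Matrix.GeneralLinearGroup.map i w₁ * δ₁
      = δ₁ * Matrix.GeneralLinearGroup.map i w₁ := by
    apply Units.ext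
    rw [Units.val_mul, Units.val_mul, hWval, add_mul, mul_add, Matrix.smul_mul,
      Matrix.smul_mul, Matrix.mul_smul, Matrix.mul_smul, one_mul, mul_one, hcomm']
  have hζ := zeta_norm388 s δ₁ _ (Matrix.GeneralLinearGroup.map i w₁)
    (sc388 (Units.map (i : k →* k') (Units.mk0 z hz))) hN hG (sc_comm388 _) hWδ
    (glAut_map388 i s hfix w₁)
  have hζ' : ((δ₁ * (Matrix.GeneralLinearGroup.map i w₁)⁻¹ : GL (Fin 2) k') :
        Matrix (Fin 2) (Fin 2) k')
      * ((δ₁ * (Matrix.GeneralLinearGroup.map i w₁)⁻¹ : GL (Fin 2) k') :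
        Matrix (Fin 2) (Fin 2) k').map s = (i z) • (1 : Matrix (Fin 2) (Fin 2) k') := by
    have := congrArg Units.val hζ
    rw [Units.val_mul, glAut_coe388, sc_coe_smul388] at this
    exact this
  obtain ⟨x, δ₀, hδ₀, hx⟩ := exists_frame388 i s z hz hnn _ hζ'
  have hδ₀eq : δ₀ = x⁻¹ * (δ₁ * (Matrix.GeneralLinearGroup.map i w₁)⁻¹) * glAut s x := by
    rw [mul_assoc, hx]
    group
  have hwδ₀ : x⁻¹ * Matrix.GeneralLinearGroup.map i w₁ * x * δ₀ = x⁻¹ * δ₁ * glAut s x := by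
    rw [hδ₀eq]
    calc x⁻¹ * Matrix.GeneralLinearGroup.map i w₁ * x
          * (x⁻¹ * (δ₁ * (Matrix.GeneralLinearGroup.map i w₁)⁻¹) * glAut s x)
        = x⁻¹ * (Matrix.GeneralLinearGroup.map i w₁ * δ₁)
            * (Matrix.GeneralLinearGroup.map i w₁)⁻¹ * glAut s x := by group
      _ = x⁻¹ * (δ₁ * Matrix.GeneralLinearGroup.map i w₁)
            * (Matrix.GeneralLinearGroup.map i w₁)⁻¹ * glAut s x := by rw [hWδ]
      _ = x⁻¹ * δ₁ * glAut s x := by group
  refine ⟨x⁻¹ * Matrix.GeneralLinearGroup.map i w₁ * x, δ₀, x, hδ₀, ?_, ?_, rfl⟩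
  · unfold InQuat385
    rw [hwδ₀, map_mul, map_mul, map_inv, glAut_map388 i s hfix, hδ₀eq]
    group
  · rw [hwδ₀, hy]
    exact ⟨y * x, by simp [mul_assoc]⟩

/-- The entries of an element of `D^×`. -/
theorem inQuat_entries388 (s : k' ≃+* k') (c : k') (w δ₀ : GL (Fin 2) k')
    (hδ₀ : IsQuatBase385 c δ₀) (hq : InQuat385 s δ₀ w) :
    (w : Matrix (Fin 2) (Fin 2) k') 0 1 = c * s ((w : Matrix (Fin 2) (Fin 2) k') 1 0) ∧
      (w : Matrix (Fin 2) (Fin 2) k') 1 1 = s ((w : Matrix (Fin 2) (Fin 2) k') 0 0) := by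
  have h := congrArg Units.val hq
  rw [Units.val_mul, Units.val_mul, glAut_coe388, hδ₀] at h
  have h00 := congrFun (congrFun h 0) 0
  have h10 := congrFun (congrFun h 1) 0
  simp [Matrix.mul_apply, Fin.sum_univ_two] at h00 h10
  exact ⟨h00, h10⟩

theorem inQuat_inv388 (s : k' ≃+* k') (w δ₀ : GL (Fin 2) k') (hq : InQuat385 s δ₀ w) :
    InQuat385 s δ₀ w⁻¹ := by
  unfold InQuat385 at hq ⊢
  rw [map_inv]
  calc w⁻¹ * δ₀ = w⁻¹ * (δ₀ * glAut s w) * (glAut s w)⁻¹ := by group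
    _ = w⁻¹ * (w * δ₀) * (glAut s w)⁻¹ := by rw [hq]
    _ = δ₀ * (glAut s w)⁻¹ := by group

theorem trace_conj388 (x U : GL (Fin 2) k') :
    ((x⁻¹ * U * x : GL (Fin 2) k') : Matrix (Fin 2) (Fin 2) k').trace
      = (U : Matrix (Fin 2) (Fin 2) k').trace := by
  rw [Units.val_mul, Units.val_mul, Matrix.trace_mul_comm, ← mul_assoc, ← Units.val_mul,
    mul_inv_cancel, Units.val_one, one_mul]

theorem det_conj388 (x U : GL (Fin 2) k') :
    ((x⁻¹ * U * x : GL (Fin 2) k') : Matrix (Fin 2) (Fin 2) k').det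
      = (U : Matrix (Fin 2) (Fin 2) k').det := by
  rw [Units.val_mul, Units.val_mul, Matrix.det_mul, Matrix.det_mul]
  have h : (x⁻¹ : GL (Fin 2) k').val.det * x.val.det = 1 := by
    rw [← Matrix.det_mul, ← Units.val_mul, inv_mul_cancel, Units.val_one, Matrix.det_one]
  calc (x⁻¹ : GL (Fin 2) k').val.det * U.val.det * x.val.det
      = ((x⁻¹ : GL (Fin 2) k').val.det * x.val.det) * U.val.det := by ring
    _ = U.val.det := by rw [h, one_mul]

theorem trace_map388 (i : k →+* k') (u : GL (Fin 2) k) :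
    ((Matrix.GeneralLinearGroup.map i u : GL (Fin 2) k') : Matrix (Fin 2) (Fin 2) k').trace
      = i (u : Matrix (Fin 2) (Fin 2) k).trace := by
  rw [map_coe388]
  simp [Matrix.trace, Fin.sum_univ_two]

theorem det_map388 (i : k →+* k') (u : GL (Fin 2) k) :
    ((Matrix.GeneralLinearGroup.map i u : GL (Fin 2) k') : Matrix (Fin 2) (Fin 2) k').det
      = i (u : Matrix (Fin 2) (Fin 2) k).det := by
  rw [map_coe388]
  simp [Matrix.det_fin_two]

/-- The reduced norm of `w - 1` for `w = x⁻¹ (ι u) x ∈ D^×`. -/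
theorem nrd_sub_one388 (i : k →+* k') (s : k' ≃+* k') (c : k') (w δ₀ x : GL (Fin 2) k')
    (u : GL (Fin 2) k) (hδ₀ : IsQuatBase385 c δ₀) (hq : InQuat385 s δ₀ w)
    (hwx : w = x⁻¹ * Matrix.GeneralLinearGroup.map i u * x) :
    ((w : Matrix (Fin 2) (Fin 2) k') 0 0 - 1) * s ((w : Matrix (Fin 2) (Fin 2) k') 0 0 - 1)
        - c * ((w : Matrix (Fin 2) (Fin 2) k') 1 0 * s ((w : Matrix (Fin 2) (Fin 2) k') 1 0))
      = i ((u : Matrix (Fin 2) (Fin 2) k).det - (u : Matrix (Fin 2) (Fin 2) k).trace + 1) := by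
  obtain ⟨h01, h11⟩ := inQuat_entries388 s c w δ₀ hδ₀ hq
  have htr : (w : Matrix (Fin 2) (Fin 2) k').trace = i (u : Matrix (Fin 2) (Fin 2) k).trace := by
    rw [hwx, trace_conj388, trace_map388]
  have hdet : (w : Matrix (Fin 2) (Fin 2) k').det = i (u : Matrix (Fin 2) (Fin 2) k).det := by
    rw [hwx, det_conj388, det_map388]
  have hR : i ((u : Matrix (Fin 2) (Fin 2) k).det - (u : Matrix (Fin 2) (Fin 2) k).trace + 1)
      = (w : Matrix (Fin 2) (Fin 2) k').det - (w : Matrix (Fin 2) (Fin 2) k').trace + 1 := by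
    rw [htr, hdet, map_add, map_sub, map_one]
  rw [hR, Matrix.det_fin_two, Matrix.trace_fin_two, h01, h11, map_sub, map_one]
  ring

theorem inv_nrd388 (u : GL (Fin 2) k) :
    ((u⁻¹ : GL (Fin 2) k) : Matrix (Fin 2) (Fin 2) k).det
        - ((u⁻¹ : GL (Fin 2) k) : Matrix (Fin 2) (Fin 2) k).trace + 1
      = ((u : Matrix (Fin 2) (Fin 2) k).det - (u : Matrix (Fin 2) (Fin 2) k).trace + 1)
          / (u : Matrix (Fin 2) (Fin 2) k).det := by
  have hd : (u : Matrix (Fin 2) (Fin 2) k).det ≠ 0 := Matrix.GeneralLinearGroup.det_ne_zero u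
  have hdet : ((u⁻¹ : GL (Fin 2) k) : Matrix (Fin 2) (Fin 2) k).det
      = ((u : Matrix (Fin 2) (Fin 2) k).det)⁻¹ := by
    have h : ((u⁻¹ : GL (Fin 2) k) : Matrix (Fin 2) (Fin 2) k).det
        * (u : Matrix (Fin 2) (Fin 2) k).det = 1 := by
      rw [← Matrix.det_mul, ← Units.val_mul, inv_mul_cancel, Units.val_one, Matrix.det_one]
    exact eq_inv_of_mul_eq_one_left h
  have htr : ((u⁻¹ : GL (Fin 2) k) : Matrix (Fin 2) (Fin 2) k).trace
      = ((u : Matrix (Fin 2) (Fin 2) k).det)⁻¹ * (u : Matrix (Fin 2) (Fin 2) k).trace := by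
    rw [Matrix.coe_units_inv, Matrix.inv_def, Matrix.adjugate_fin_two, Ring.inverse_eq_inv',
      Matrix.trace_smul, Matrix.trace_fin_two_of, Matrix.trace_fin_two, smul_eq_mul]
    ring
  rw [hdet, htr]
  field_simp
  ring

end Alg

/-! ## 2. Valuations -/

section Val

variable {k k' : Type} [Field k] [Field k'] [Valued k Γ₀] [Valued k' Γ₀]

/-- Squares near `1`, from `SqrtNearC385` applied to `diag(t, 1)`. -/
theorem sq_near_one388 (hS : SqrtNearC385) (q : ℕ) (hk : IsLocalField k q) :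
    ∃ N₀ : ℤ, 1 ≤ N₀ ∧ ∀ t : k, Valued.v (t - 1) ≤ WithZero.exp (-N₀) → ∃ r : k, r ^ 2 = t := by
  obtain ⟨N, hN⟩ := hS k q hk 1 one_ne_zero 0
  refine ⟨max N 1, le_max_right _ _, ?_⟩
  intro t ht
  have ht1 : Valued.v (t - 1) < 1 := by
    refine lt_of_le_of_lt ht ?_
    rw [← WithZero.exp_zero, WithZero.exp_lt_exp]
    have : (1 : ℤ) ≤ max N 1 := le_max_right _ _
    omega
  have hvt : Valued.v t = 1 := by
    have := Valuation.map_one_add_of_lt (v := (Valued.v : Valuation k Γ₀)) ht1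
    rwa [add_sub_cancel] at this
  have ht0 : t ≠ 0 := by
    rintro rfl
    simp at hvt
  have hdet : (!![t, 0; 0, 1] : Matrix (Fin 2) (Fin 2) k).det ≠ 0 := by
    rw [Matrix.det_fin_two_of]
    simpa using ht0
  have htN : Valued.v (t - 1) ≤ WithZero.exp (-N) :=
    le_trans ht (WithZero.exp_le_exp.2 (by have := le_max_left N 1; omega))
  have hball : InChiBall783 (2 * 1) ((1 : k) ^ 2) N
      (Matrix.GeneralLinearGroup.mkOfDetNeZero _ hdet) := by
    constructor
    · show Valued.v ((!![t, 0; 0, 1] : Matrix (Fin 2) (Fin 2) k).trace - 2 * 1) ≤ _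
      rw [Matrix.trace_fin_two_of]
      have e : t + 1 - 2 * 1 = t - 1 := by ring
      rw [e]
      exact htN
    · show Valued.v ((!![t, 0; 0, 1] : Matrix (Fin 2) (Fin 2) k).det - 1 ^ 2) ≤ _
      rw [Matrix.det_fin_two_of]
      have e : t * 1 - 0 * 0 - 1 ^ 2 = t - 1 := by ring
      rw [e]
      exact htN
  obtain ⟨w, a, b, hw, hww, -⟩ := hN _ hball
  have hγ : ((Matrix.GeneralLinearGroup.mkOfDetNeZero _ hdet : GL (Fin 2) k) :
      Matrix (Fin 2) (Fin 2) k) = !![t, 0; 0, 1] := rfl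
  rw [hγ] at hw hww
  have h00 := congrFun (congrFun hww 0) 0
  have hw00 : (w : Matrix (Fin 2) (Fin 2) k) 0 0 = a + b * t := by
    rw [hw]; simp
  have hw01 : (w : Matrix (Fin 2) (Fin 2) k) 0 1 = 0 := by
    rw [hw]; simp
  simp only [Matrix.mul_apply, Fin.sum_univ_two, hw00, hw01, zero_mul, add_zero,
    Matrix.smul_apply, inv_one, smul_eq_mul, one_mul] at h00
  refine ⟨a + b * t, ?_⟩
  rw [pow_two, h00]
  simp

omit [Valued k' Γ₀] in
/-- Anisotropy of the reduced norm: if `N(P) - z N(R) = d` and `z` is not a norm then `N(P)` and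
`z N(R)` are bounded by `exp(N₀) |d|`. -/
theorem aniso388 (i : k →+* k') (s : k' ≃+* k') (hfix : ∀ x : k, s (i x) = i x)
    (h2 : ∀ y, s (s y) = y) (hfixed : ∀ y : k', s y = y → ∃ x : k, i x = y)
    (z : k) (hz : z ≠ 0) (hnn : ¬ IsFieldNorm783 2 i s z)
    (N₀ : ℤ) (hN₀ : 1 ≤ N₀)
    (hsq : ∀ t : k, Valued.v (t - 1) ≤ WithZero.exp (-N₀) → ∃ r : k, r ^ 2 = t)
    (P R : k') (d : k) (hd : P * s P - i z * (R * s R) = i d) :
    ∃ A B : k, i A = P * s P ∧ i B = R * s R ∧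
      Valued.v (z * B) ≤ WithZero.exp N₀ * Valued.v d ∧
      Valued.v A ≤ WithZero.exp N₀ * Valued.v d := by
  obtain ⟨A, hA⟩ := hfixed (P * s P) (by rw [map_mul, h2, mul_comm])
  obtain ⟨B, hB⟩ := hfixed (R * s R) (by rw [map_mul, h2, mul_comm])
  have hinj : Function.Injective i := i.injective
  have hABd : A - z * B = d := by
    apply hinj
    rw [map_sub, map_mul, hA, hB, hd]
  have h1le : (1 : Γ₀) ≤ WithZero.exp N₀ := by
    rw [← WithZero.exp_zero, WithZero.exp_le_exp]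
    omega
  have hzB : Valued.v (z * B) ≤ WithZero.exp N₀ * Valued.v d := by
    by_contra hcon
    rw [not_le] at hcon
    have hzB0 : z * B ≠ 0 := by
      intro h0
      rw [h0, map_zero] at hcon
      exact absurd hcon (not_lt.2 zero_le)
    have hB0 : B ≠ 0 := fun h => hzB0 (by rw [h, mul_zero])
    have hvzB : Valued.v (z * B) ≠ 0 := (Valuation.ne_zero_iff _).2 hzB0
    -- `t = A / (z B)` is within `exp(-N₀)` of `1`
    have ht : Valued.v (A / (z * B) - 1) ≤ WithZero.exp (-N₀) := by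
      have e : A / (z * B) - 1 = d / (z * B) := by
        rw [← hABd]
        field_simp
      rw [e, map_div₀, div_le_iff₀ (zero_lt_iff.2 hvzB)]
      calc Valued.v d = WithZero.exp (-N₀) * (WithZero.exp N₀ * Valued.v d) := by
            rw [← mul_assoc, ← WithZero.exp_add]
            simp
        _ ≤ WithZero.exp (-N₀) * Valued.v (z * B) := mul_le_mul_right hcon.le _
    obtain ⟨r, hr⟩ := hsq _ ht
    have ht1 : Valued.v (A / (z * B) - 1) < 1 := by
      refine lt_of_le_of_lt ht ?_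
      rw [← WithZero.exp_zero, WithZero.exp_lt_exp]
      omega
    have hvt : Valued.v (A / (z * B)) = 1 := by
      have := Valuation.map_one_add_of_lt (v := (Valued.v : Valuation k Γ₀)) ht1
      rwa [add_sub_cancel] at this
    have hr0 : r ≠ 0 := by
      rintro rfl
      rw [zero_pow two_ne_zero] at hr
      rw [← hr, map_zero] at hvt
      exact zero_ne_one hvt
    have hRR : R * s R ≠ 0 := by
      rw [← hB]
      exact (map_ne_zero i).2 hB0
    have hR0 : R ≠ 0 := fun h => hRR (by rw [h, zero_mul])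
    have hsR0 : s R ≠ 0 := fun h => hRR (by rw [h, mul_zero])
    have hir0 : i r ≠ 0 := (map_ne_zero i).2 hr0
    -- `A = r² z B`
    have hAeq : A = r ^ 2 * (z * B) := by
      rw [hr]
      field_simp
    apply hnn
    refine ⟨P / (R * i r), ?_⟩
    rw [Finset.prod_range_succ, Finset.prod_range_one, pow_zero, pow_one]
    have e1 : (1 : k' ≃+* k') (P / (R * i r)) = P / (R * i r) := rfl
    rw [e1, map_div₀, map_mul, hfix]
    have hiA : P * s P = (i r) ^ 2 * (i z * (R * s R)) := by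
      rw [← hA, ← hB, hAeq, map_mul, map_mul, map_pow]
    field_simp
    rw [hiA]
    ring
  refine ⟨A, B, hA, hB, hzB, ?_⟩
  have hAe : A = d + z * B := by rw [← hABd]; ring
  rw [hAe]
  refine le_trans (Valuation.map_add _ _ _) (max_le ?_ hzB)
  calc Valued.v d = 1 * Valued.v d := (one_mul _).symm
    _ ≤ WithZero.exp N₀ * Valued.v d := mul_le_mul_left h1le _

theorem le_exp_of_sq_le388 (y : Γ₀) (T : ℤ) (h : y ^ 2 ≤ WithZero.exp (-(2 * T))) :
    y ≤ WithZero.exp (-T) := by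
  by_contra hcon
  rw [not_le] at hcon
  have h1 : WithZero.exp (-T) ^ 2 < y ^ 2 := pow_lt_pow_left₀ hcon zero_le two_ne_zero
  have h2 : WithZero.exp (-T) ^ 2 = WithZero.exp (-(2 * T)) := by
    rw [pow_two, ← WithZero.exp_add]
    congr 1
    ring
  rw [h2] at h1
  exact absurd h (not_le.2 h1)

/-- Step 5: the entries of `w - 1` are small. -/
theorem small388 (i : k →+* k') (s : k' ≃+* k') (e : ℕ) (he : 0 < e)
    (hvi : ∀ x : k, Valued.v (i x) = Valued.v x ^ e)
    (hvs : ∀ y : k', Valued.v (s y) = Valued.v y)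
    (z : k) (hz : z ≠ 0) (N₀ : ℤ) (M : ℕ) (M' : ℤ)
    (hM' : N₀ + 2 * (M : ℤ) + |WithZero.log (Valued.v z)|
      + 2 * ((e : ℤ) * |WithZero.log (Valued.v z)|) ≤ M')
    (P R : k') (A B d : k) (hA : i A = P * s P) (hB : i B = R * s R)
    (hd : Valued.v d ≤ WithZero.exp (-M'))
    (hzB : Valued.v (z * B) ≤ WithZero.exp N₀ * Valued.v d)
    (hAv : Valued.v A ≤ WithZero.exp N₀ * Valued.v d) :
    Valued.v P ≤ WithZero.exp (-(M : ℤ)) ∧ Valued.v (s P) ≤ WithZero.exp (-(M : ℤ)) ∧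
      Valued.v R ≤ WithZero.exp (-(M : ℤ)) ∧ Valued.v (i z * s R) ≤ WithZero.exp (-(M : ℤ)) := by
  have hvz : Valued.v z ≠ 0 := (Valuation.ne_zero_iff _).2 hz
  have hL : Valued.v z = WithZero.exp (WithZero.log (Valued.v z)) := (WithZero.exp_log hvz).symm
  set L : ℤ := WithZero.log (Valued.v z) with hLdef
  have habs0 : 0 ≤ |L| := abs_nonneg L
  have habs1 : L ≤ |L| := le_abs_self L
  have habs2 : -L ≤ |L| := neg_le_abs L
  have he1 : (1 : ℤ) ≤ (e : ℤ) := by exact_mod_cast he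
  have hE0 : 0 ≤ (e : ℤ) * |L| := mul_nonneg (by omega) habs0
  have hEL : (e : ℤ) * L ≤ (e : ℤ) * |L| := mul_le_mul_of_nonneg_left habs1 (by omega)
  have hM0 : (0 : ℤ) ≤ (M : ℤ) := Int.natCast_nonneg M
  have hbound : WithZero.exp N₀ * Valued.v d ≤ WithZero.exp (N₀ - M') := by
    calc WithZero.exp N₀ * Valued.v d ≤ WithZero.exp N₀ * WithZero.exp (-M') :=
          mul_le_mul_right hd _
      _ = WithZero.exp (N₀ - M') := by rw [← WithZero.exp_add]; congr 1
  have hpow : ∀ a : Γ₀, a ≤ 1 → a ^ e ≤ a := fun a ha =>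
    pow_le_of_le_one zero_le ha (by omega)
  -- `P`
  have hvA : Valued.v A ≤ WithZero.exp (-(2 * (M : ℤ))) :=
    le_trans hAv (le_trans hbound (WithZero.exp_le_exp.2 (by linarith)))
  have hvA1 : Valued.v A ≤ 1 := by
    refine le_trans hvA ?_
    rw [← WithZero.exp_zero, WithZero.exp_le_exp]
    linarith
  have hP2 : Valued.v P ^ 2 ≤ WithZero.exp (-(2 * (M : ℤ))) := by
    have e1 : Valued.v P ^ 2 = Valued.v A ^ e := by
      rw [← hvi, hA, map_mul, hvs, pow_two]
    rw [e1]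
    exact le_trans (hpow _ hvA1) hvA
  have hP : Valued.v P ≤ WithZero.exp (-(M : ℤ)) := le_exp_of_sq_le388 _ _ hP2
  -- `R`
  have hvB : Valued.v B ≤ WithZero.exp (-(2 * ((M : ℤ) + (e : ℤ) * |L|))) := by
    have h1 : WithZero.exp L * Valued.v B ≤ WithZero.exp (N₀ - M') := by
      rw [← hL, ← map_mul]
      exact le_trans hzB hbound
    calc Valued.v B = WithZero.exp (-L) * (WithZero.exp L * Valued.v B) := by
          rw [← mul_assoc, ← WithZero.exp_add]
          simp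
      _ ≤ WithZero.exp (-L) * WithZero.exp (N₀ - M') := mul_le_mul_right h1 _
      _ = WithZero.exp (-L + (N₀ - M')) := (WithZero.exp_add _ _).symm
      _ ≤ WithZero.exp (-(2 * ((M : ℤ) + (e : ℤ) * |L|))) :=
          WithZero.exp_le_exp.2 (by linarith)
  have hvB1 : Valued.v B ≤ 1 := by
    refine le_trans hvB ?_
    rw [← WithZero.exp_zero, WithZero.exp_le_exp]
    linarith
  have hR2 : Valued.v R ^ 2 ≤ WithZero.exp (-(2 * ((M : ℤ) + (e : ℤ) * |L|))) := by
    have e1 : Valued.v R ^ 2 = Valued.v B ^ e := by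
      rw [← hvi, hB, map_mul, hvs, pow_two]
    rw [e1]
    exact le_trans (hpow _ hvB1) hvB
  have hR' : Valued.v R ≤ WithZero.exp (-((M : ℤ) + (e : ℤ) * |L|)) :=
    le_exp_of_sq_le388 _ _ hR2
  have hR : Valued.v R ≤ WithZero.exp (-(M : ℤ)) :=
    le_trans hR' (WithZero.exp_le_exp.2 (by linarith))
  refine ⟨hP, by rw [hvs]; exact hP, hR, ?_⟩
  have hviz : Valued.v (i z) = WithZero.exp ((e : ℤ) * L) := by
    rw [hvi, hL, ← WithZero.exp_nsmul, nsmul_eq_mul]
  rw [map_mul, hvs, hviz]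
  calc WithZero.exp ((e : ℤ) * L) * Valued.v R
      ≤ WithZero.exp ((e : ℤ) * L) * WithZero.exp (-((M : ℤ) + (e : ℤ) * |L|)) :=
        mul_le_mul_right hR' _
    _ = WithZero.exp ((e : ℤ) * L + -((M : ℤ) + (e : ℤ) * |L|)) := (WithZero.exp_add _ _).symm
    _ ≤ WithZero.exp (-(M : ℤ)) := WithZero.exp_le_exp.2 (by linarith)

/-- The entries of `w - 1`, `w = x⁻¹ (ι u) x ∈ D^×`, are small if `Nrd(u - 1)` is small. -/
theorem quat_small388 (i : k →+* k') (s : k' ≃+* k') (e : ℕ) (he : 0 < e)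
    (hvi : ∀ x : k, Valued.v (i x) = Valued.v x ^ e)
    (hvs : ∀ y : k', Valued.v (s y) = Valued.v y)
    (hfix : ∀ x : k, s (i x) = i x) (h2 : ∀ y, s (s y) = y)
    (hfixed : ∀ y : k', s y = y → ∃ x : k, i x = y)
    (z : k) (hz : z ≠ 0) (hnn : ¬ IsFieldNorm783 2 i s z)
    (N₀ : ℤ) (hN₀ : 1 ≤ N₀)
    (hsq : ∀ t : k, Valued.v (t - 1) ≤ WithZero.exp (-N₀) → ∃ r : k, r ^ 2 = t)
    (M : ℕ) (M' : ℤ)
    (hM' : N₀ + 2 * (M : ℤ) + |WithZero.log (Valued.v z)|
      + 2 * ((e : ℤ) * |WithZero.log (Valued.v z)|) ≤ M')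
    (w δ₀ x : GL (Fin 2) k') (u : GL (Fin 2) k)
    (hδ₀ : IsQuatBase385 (i z) δ₀) (hq : InQuat385 s δ₀ w)
    (hwx : w = x⁻¹ * Matrix.GeneralLinearGroup.map i u * x)
    (hu : Valued.v ((u : Matrix (Fin 2) (Fin 2) k).det - (u : Matrix (Fin 2) (Fin 2) k).trace + 1)
      ≤ WithZero.exp (-M')) :
    ∀ p q : Fin 2, Valued.v ((w : Matrix (Fin 2) (Fin 2) k') p q
      - (1 : Matrix (Fin 2) (Fin 2) k') p q) ≤ WithZero.exp (-(M : ℤ)) := by
  have hnrd := nrd_sub_one388 i s (i z) w δ₀ x u hδ₀ hq hwx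
  obtain ⟨h01, h11⟩ := inQuat_entries388 s (i z) w δ₀ hδ₀ hq
  obtain ⟨A, B, hA, hB, hzB, hAv⟩ := aniso388 i s hfix h2 hfixed z hz hnn N₀ hN₀ hsq _ _ _ hnrd
  obtain ⟨hP, hsP, hR, hzR⟩ := small388 i s e he hvi hvs z hz N₀ M M' hM' _ _ A B _ hA hB hu
    hzB hAv
  intro p q
  fin_cases p <;> fin_cases q
  · simpa using hP
  · simpa [h01] using hzR
  · simpa using hR
  · simpa [h11] using hsP

end Val

/-! ## 3. The leaf -/

/-- **T6.18i.4 `TwReduceC385`** (VERBATIM) from `SqrtNearC385`. -/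
theorem twReduce_of_sqrt388 (hS : SqrtNearC385) : TwReduceC385 := by
  intro k k' _ _ _ _ q e i s hq z hz hnn M
  obtain ⟨N₀, hN₀, hsq⟩ := sq_near_one388 hS q hq.hk
  have hnonneg : (0 : ℤ) ≤ N₀ + 2 * (M : ℤ) + |WithZero.log (Valued.v z)|
      + 2 * ((e : ℤ) * |WithZero.log (Valued.v z)|) := by
    have h1 : 0 ≤ |WithZero.log (Valued.v z)| := abs_nonneg _
    have h2 : (0 : ℤ) ≤ (e : ℤ) * |WithZero.log (Valued.v z)| :=
      mul_nonneg (Int.natCast_nonneg e) h1
    have h3 : (0 : ℤ) ≤ (M : ℤ) := Int.natCast_nonneg M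
    linarith
  obtain ⟨M', hM'eq⟩ : ∃ M' : ℕ, (M' : ℤ) = N₀ + 2 * (M : ℤ) + |WithZero.log (Valued.v z)|
      + 2 * ((e : ℤ) * |WithZero.log (Valued.v z)|) :=
    ⟨_, Int.toNat_of_nonneg hnonneg⟩
  have hM'1 : (1 : ℤ) ≤ (M' : ℤ) := by
    have h1 : 0 ≤ |WithZero.log (Valued.v z)| := abs_nonneg _
    have h2 : (0 : ℤ) ≤ (e : ℤ) * |WithZero.log (Valued.v z)| :=
      mul_nonneg (Int.natCast_nonneg e) h1
    have h3 : (0 : ℤ) ≤ (M : ℤ) := Int.natCast_nonneg M
    linarith
  obtain ⟨N, hN⟩ := hS k q hq.hk z hz M'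
  refine ⟨N, ?_⟩
  intro δ γ _ hball hconj
  obtain ⟨w₁, a, b, hw, hww, hball₁⟩ := hN γ hball
  have hfix := hq.ext.cyc.fix_i
  have h2 : ∀ y, s (s y) = y := fun y => by
    have := hq.ext.cyc.order y
    rwa [pow_two] at this
  obtain ⟨w, δ₀, x, hδ₀, hquat, htw, hwx⟩ :=
    reduce_alg388 i s hfix h2 z hz hnn δ γ w₁ a b hw hww hconj
  refine ⟨w, δ₀, hδ₀, hquat, ?_, htw⟩
  obtain ⟨hb1, hb2⟩ := hball₁
  -- `Nrd(w₁ - 1)` is small
  have hd : Valued.v ((w₁ : Matrix (Fin 2) (Fin 2) k).det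
      - (w₁ : Matrix (Fin 2) (Fin 2) k).trace + 1) ≤ WithZero.exp (-(M' : ℤ)) := by
    have e1 : (w₁ : Matrix (Fin 2) (Fin 2) k).det - (w₁ : Matrix (Fin 2) (Fin 2) k).trace + 1
        = ((w₁ : Matrix (Fin 2) (Fin 2) k).det - 1)
          - ((w₁ : Matrix (Fin 2) (Fin 2) k).trace - 2) := by ring
    rw [e1]
    exact le_trans (Valuation.map_sub _ _ _) (max_le hb2 hb1)
  -- `det w₁` is a unit
  have hdet1 : Valued.v (w₁ : Matrix (Fin 2) (Fin 2) k).det = 1 := by
    have hlt : Valued.v ((w₁ : Matrix (Fin 2) (Fin 2) k).det - 1) < 1 := by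
      refine lt_of_le_of_lt hb2 ?_
      rw [← WithZero.exp_zero, WithZero.exp_lt_exp]
      omega
    have := Valuation.map_one_add_of_lt (v := (Valued.v : Valuation k Γ₀)) hlt
    rwa [add_sub_cancel] at this
  have hd' : Valued.v (((w₁⁻¹ : GL (Fin 2) k) : Matrix (Fin 2) (Fin 2) k).det
      - ((w₁⁻¹ : GL (Fin 2) k) : Matrix (Fin 2) (Fin 2) k).trace + 1)
        ≤ WithZero.exp (-(M' : ℤ)) := by
    rw [inv_nrd388, map_div₀, hdet1, div_one]
    exact hd
  have hwx' : w⁻¹ = x⁻¹ * Matrix.GeneralLinearGroup.map i w₁⁻¹ * x := by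
    rw [hwx, map_inv]
    group
  have hS1 := quat_small388 i s e hq.ext.e_pos hq.ext.val_i hq.ext.val_s hfix h2
    hq.ext.cyc.fixed z hz hnn N₀ hN₀ hsq M M' (le_of_eq hM'eq.symm) w δ₀ x w₁ hδ₀ hquat hwx hd
  have hS2 := quat_small388 i s e hq.ext.e_pos hq.ext.val_i hq.ext.val_s hfix h2
    hq.ext.cyc.fixed z hz hnn N₀ hN₀ hsq M M' (le_of_eq hM'eq.symm) w⁻¹ δ₀ x w₁⁻¹ hδ₀
    (inQuat_inv388 s w δ₀ hquat) hwx' hd'
  intro p q'
  exact ⟨hS1 p q', hS2 p q'⟩

end Fermat.Agent.LT.T6.H388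

end

end
-- ===== PACK-END LT/T6/H388/TwReduce.lean

-- ===== PACK-BEGIN LT/T6/H675/QuatCoreSpec.lean
section


/-!
# Row LT, tower T6, leaf T6.18i.5 `QuatCoreRamC385` (owner helper675): SUB-SPEC — OFF-MAIN

Bytes: `LT/T6/H385/QuatSpec.lean` = helper385@3e19135ad (sha256 03a0bab8) and its closure
(`T6/Spec.lean` 8c5f2ae7, `H783/BadSpec.lean` c79abacc, `H288/HypSpec.lean` 46fc5f22,
`H159/NormSpec.lean` eef43064, `H159/VanishSpec.lean` 35587965), byte-identical copies.

`QuatCoreRamC385`: `k'/k` RAMIFIED quadratic, `γ ∈ GL₂(k)` regular elliptic, `z ∈ k^×`: there is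
`ζ = a + b γ`, `a, b ∈ k'`, with `ζ σ(ζ) = z`.

## The cut (top `quatCoreRam_of_leaves675` PROVED in `QuatCoreTop.lean`)

Let `t = tr γ`, `d = det γ`, `Δ = t² - 4d` (not a square in `k`), `θ ∈ k'` with `σ θ = -θ`,
`θ² = c ∈ k`.  `N = {z : ∃ ζ = a + bγ, ζ σ(ζ) = z}` is closed under products (the algebra
`k'[γ]` is commutative) and contains `m²` (`ζ = m`), `-c` (`ζ = θ`), `Δ` (`ζ = 2γ - t`) and
`x² - (Δ/c) y²` (`ζ = x + y θ⁻¹ (2γ - t)`): ALGEBRA, proved in `QuatCoreTop.lean`.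

* the characteristic polynomial of `γ` has a root `λ ∈ k'` (`k[γ] ≅ k'`): `ζ = a + bγ` with
  `b = (z - 1)/(λ - σλ)`, `a = 1 - b σλ`: ALGEBRA, proved in `QuatCoreTop.lean`.
* otherwise, TAME case (`q` odd):
  - `QcRamOddC675` : `ord c` is odd (`k'/k` is ramified; if `ord c` were even, `c = u m²` with `u`
    a unit which is not a square, hence not a square modulo `ϖ` (Hensel, `q` odd), and
    `v'(x + yθ)² = v(x² - c y²)² = max(v x, v(m y))⁴`: the value group of `k'` would be the one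
    of `k`, but `v'(i ϖ) = v(ϖ)²` and `k'` has an element of valuation `exp (-1)`).
  - `QcTameArithC675` : ARITHMETIC OF `k` ONLY: if `ord c` is odd and `Δ`, `Δ c` are not
    squares, every `z ∈ k^×` is `m² (-c)^{n₁} Δ^{n₂} (x² - (Δ/c) y²)`.
    (`ord Δ` even: `Δ = u₁ m²`, `u₁` a non-square unit; `z (-c)^{n₁}` has even order, its unit
    part is a square or `u₁ ·` square.  `ord Δ` odd: `Δ/c = u₀ m²`, `u₀` a non-square unit, and
    `x² - u₀ y²` represents every unit: count in the residue field + Hensel.)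
* otherwise, WILD case (`q` even): `QcWildC675` = the statement itself.  Needs the norm index
  theorem `[k^× : N k'^×] = 2` for the quadratic extensions of a dyadic field and the
  non-degeneracy of the Hilbert symbol.  NOT NEEDED BY THE WALL (`ℚ(√-3)/ℚ` is ramified at `3`
  only), but part of `QuatCoreRamC385` as typed.

All Props are TRUE statements of mathematics.  Definitions and frozen Props only.
-/

set_option autoImplicit false

open scoped Matrix

noncomputable section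

namespace Fermat.Agent.LT.T6.H675

open Fermat.Agent.LT.T6 Fermat.Agent.LT.T6.H783 Fermat.Agent.LT.T6.H385

/-- `z` is of the form `ζ σ(ζ)` with `ζ = a + b γ ∈ GL₂(k')`, `a, b ∈ k'` (the conclusion of
`H385.QuatCoreRamC385`). -/
def IsCoreNorm675 {k k' : Type} [Field k] [Field k'] (i : k →+* k') (s : k' ≃+* k')
    (γ : GL (Fin 2) k) (z : k) : Prop :=
  ∃ (ζ : GL (Fin 2) k') (a b : k'),
    (ζ : Matrix (Fin 2) (Fin 2) k') = a • (1 : Matrix (Fin 2) (Fin 2) k')
      + b • ((Matrix.GeneralLinearGroup.map i γ : GL (Fin 2) k') :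
          Matrix (Fin 2) (Fin 2) k') ∧
    (ζ : Matrix (Fin 2) (Fin 2) k') * ((glAut s ζ : GL (Fin 2) k') :
        Matrix (Fin 2) (Fin 2) k') = (i z) • (1 : Matrix (Fin 2) (Fin 2) k')

/-- **T6.18i.5a (the ramified quadratic extension is `k(√c)`, `ord c` odd), TAME.**
`k'/k` ramified quadratic, `q` odd, `θ ∈ k'^×` with `σ θ = -θ`, `θ² = c ∈ k`: `ord c` is odd. -/
def QcRamOddC675 : Prop :=
  ∀ (k k' : Type) [Field k] [Field k'] [Valued k Γ₀] [Valued k' Γ₀] (q : ℕ)
    (i : k →+* k') (s : k' ≃+* k'), QuadData385 k k' q 2 i s → Odd q →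
    ∀ (θ : k') (c : k), θ ≠ 0 → s θ = -θ → θ ^ 2 = i c → Odd (ord385 c)

/-- **T6.18i.5b (square classes of a non-dyadic local field), TAME, arithmetic of `k` only.**
`q` odd, `ord c` odd, `Δ` and `Δ c` not squares: every `z ∈ k^×` is
`m² (-c)^{n₁} Δ^{n₂} (x² - (Δ/c) y²)`. -/
def QcTameArithC675 : Prop :=
  ∀ (k : Type) [Field k] [Valued k Γ₀] (q : ℕ), IsLocalField k q → Odd q →
    ∀ c Δ : k, c ≠ 0 → Odd (ord385 c) → Δ ≠ 0 → ¬ IsSquare Δ → ¬ IsSquare (Δ * c) →
    ∀ z : k, z ≠ 0 →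
      ∃ (n₁ n₂ : ℕ) (m x y : k),
        z = m ^ 2 * (-c) ^ n₁ * Δ ^ n₂ * (x ^ 2 - Δ / c * y ^ 2)

/-- **T6.18i.5c (the statement in the WILD case: dyadic `k`, `k'[γ]` a field).**
Local class field theory for the quadratic extensions of a dyadic field.  Not needed by the
wall. -/
def QcWildC675 : Prop :=
  ∀ (k k' : Type) [Field k] [Field k'] [Valued k Γ₀] [Valued k' Γ₀] (q : ℕ)
    (i : k →+* k') (s : k' ≃+* k'), QuadData385 k k' q 2 i s → Even q →
    ∀ z : k, z ≠ 0 → ∀ γ : GL (Fin 2) k, IsReg γ → ¬ HasEigen k γ →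
      (∀ x : k', x ^ 2 - i (γ : Matrix (Fin 2) (Fin 2) k).trace * x
        + i (γ : Matrix (Fin 2) (Fin 2) k).det ≠ 0) →
      IsCoreNorm675 i s γ z

/-- `QuatCoreRamC385` in terms of `IsCoreNorm675` (definitional unfolding). -/
theorem quatCoreRamC385_iff675 :
    QuatCoreRamC385 ↔
      ∀ (k k' : Type) [Field k] [Field k'] [Valued k Γ₀] [Valued k' Γ₀] (q : ℕ)
        (i : k →+* k') (s : k' ≃+* k'), QuadData385 k k' q 2 i s →
        ∀ z : k, z ≠ 0 → ∀ γ : GL (Fin 2) k, IsReg γ → ¬ HasEigen k γ →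
          IsCoreNorm675 i s γ z :=
  Iff.rfl

end Fermat.Agent.LT.T6.H675

end

end
-- ===== PACK-END LT/T6/H675/QuatCoreSpec.lean

-- ===== PACK-BEGIN LT/H129/EllBasic.lean
section



/-!
# Row LT, tower T6, leaf T6.14b `EllParamC` (helper129): basic formulas -- OFF-MAIN

The quadratic algebra `E = k[Π]`, `Π² = τ Π - ν`, inside `M₂(k)`: `e(a, b) = embMat τ ν a b`.

* `embMat_mul129`, `embMat_comm129`, `det_embMat129`, `trace_embMat129`, `embMat_map129`;
* `cent_embMat129`: the centraliser of `e(α, β)`, `β ≠ 0`, is `{e(a, b)}`;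
* `val_norm129`: `|a² + τ a b + ν b²| = max(|a|², exp(-1) |b|²)` for `|ν| = exp(-1)`, `|τ| < 1`;
* `val_norm_eq_one_iff129`: `|N(a, b)| = 1 ↔ |a| = 1 ∧ |b| ≤ 1`;
* `latMat_eq129`, `det_latMat129`, `coe_latGL129`.
-/

set_option autoImplicit false

open scoped Matrix

noncomputable section

namespace Fermat.Agent.LT.H129

open Fermat.Agent.LT.T6 Fermat.Agent.LT.T6.H847

section Alg

variable {F : Type} [Field F] (τ ν : F)

theorem embMat_mul129 (a b c d : F) :
    embMat τ ν a b * embMat τ ν c d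
      = embMat τ ν (a * c - ν * b * d) (a * d + b * c + τ * b * d) := by
  ext i j
  fin_cases i <;> fin_cases j <;>
    simp [embMat, Matrix.mul_apply, Fin.sum_univ_two] <;> ring

theorem embMat_comm129 (a b c d : F) :
    embMat τ ν a b * embMat τ ν c d = embMat τ ν c d * embMat τ ν a b := by
  rw [embMat_mul129, embMat_mul129]
  congr 1 <;> ring

theorem det_embMat129 (a b : F) :
    (embMat τ ν a b).det = a ^ 2 + τ * a * b + ν * b ^ 2 := by
  simp [embMat, Matrix.det_fin_two]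
  ring

theorem trace_embMat129 (a b : F) : (embMat τ ν a b).trace = 2 * a + τ * b := by
  simp [embMat, Matrix.trace_fin_two]
  ring

theorem embMat_one129 : embMat τ ν 1 0 = (1 : Matrix (Fin 2) (Fin 2) F) := by
  ext i j
  fin_cases i <;> fin_cases j <;> simp [embMat]

theorem embMat_map129 {F' : Type} [Field F'] (i : F →+* F') (a b : F) :
    (embMat τ ν a b).map i = embMat (i τ) (i ν) (i a) (i b) := by
  ext r c
  fin_cases r <;> fin_cases c <;> simp [embMat]

theorem embMat_inj129 {a b c d : F} (h : embMat τ ν a b = embMat τ ν c d) : a = c ∧ b = d := by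
  have h0 := congrFun (congrFun h 0) 0
  have h1 := congrFun (congrFun h 1) 0
  simp [embMat] at h0 h1
  exact ⟨h0, h1⟩

/-- The centraliser of `e(α, β)`, `β ≠ 0`, consists of the `e(a, b)`. -/
theorem cent_embMat129 {α β : F} (hβ : β ≠ 0) (M : Matrix (Fin 2) (Fin 2) F)
    (h : M * embMat τ ν α β = embMat τ ν α β * M) :
    M = embMat τ ν (M 0 0) (M 1 0) := by
  have h00 := congrFun (congrFun h 0) 0
  have h10 := congrFun (congrFun h 1) 0
  simp [embMat, Matrix.mul_apply, Fin.sum_univ_two] at h00 h10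
  -- h00 : M 0 0 * α + M 0 1 * β = α * M 0 0 + -(ν * β) * M 1 0
  -- h10 : M 1 0 * α + M 1 1 * β = β * M 0 0 + (α + τ * β) * M 1 0
  have e01 : M 0 1 = -(ν * M 1 0) := by
    have : β * (M 0 1 + ν * M 1 0) = 0 := by linear_combination h00
    rcases mul_eq_zero.mp this with h' | h'
    · exact absurd h' hβ
    · linear_combination h'
  have e11 : M 1 1 = M 0 0 + τ * M 1 0 := by
    have : β * (M 1 1 - M 0 0 - τ * M 1 0) = 0 := by linear_combination h10
    rcases mul_eq_zero.mp this with h' | h'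
    · exact absurd h' hβ
    · linear_combination h'
  ext i j
  fin_cases i <;> fin_cases j <;> simp [embMat, e01, e11]

theorem latMat_eq129 (n : ℕ) (ξ : F) :
    latMat τ ν n ξ = embMat τ ν 1 ξ * !![1, 0; 0, ν ^ n] := by
  ext i j
  fin_cases i <;> fin_cases j <;>
    simp [latMat, embMat, Matrix.mul_apply, Fin.sum_univ_two]
  ring

theorem det_latMat129 (n : ℕ) (ξ : F) :
    (latMat τ ν n ξ).det = ν ^ n * (1 + τ * ξ + ν * ξ ^ 2) := by
  simp [latMat, Matrix.det_fin_two]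
  ring

end Alg

section Val

variable {k : Type} [Field k] [Valued k Γ₀] {τ ν : k}

/-- Discreteness of `ℤᵐ⁰`: `x < y` implies `x ≤ exp(-1) y`. -/
theorem le_exp_mul_of_lt129 {x y : Γ₀} (h : x < y) : x ≤ WithZero.exp (-1 : ℤ) * y := by
  have hy : y ≠ 0 := fun h0 => by rw [h0] at h; exact absurd h (not_lt.mpr zero_le)
  by_cases hx : x = 0
  · rw [hx]; exact zero_le
  · have h1 : WithZero.log x < WithZero.log y := (WithZero.log_lt_log hx hy).mpr h
    have h2 : WithZero.exp (-1 : ℤ) * y ≠ 0 := mul_ne_zero WithZero.exp_ne_zero hy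
    rw [← WithZero.log_le_log hx h2, WithZero.log_mul WithZero.exp_ne_zero hy, WithZero.log_exp]
    omega

/-- The valuation of the norm form: `|a² + τ a b + ν b²| = max(|a|², exp(-1) |b|²)`. -/
theorem val_norm129 (hν : Valued.v ν = WithZero.exp (-1 : ℤ)) (hτ : Valued.v τ < 1) (a b : k) :
    Valued.v (a ^ 2 + τ * a * b + ν * b ^ 2)
      = max (Valued.v a ^ 2) (WithZero.exp (-1 : ℤ) * Valued.v b ^ 2) := by
  have hτ' : Valued.v τ ≤ WithZero.exp (-1 : ℤ) := by
    simpa using le_exp_mul_of_lt129 hτ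
  have he1 : (WithZero.exp (-1 : ℤ) : Γ₀) < 1 := by
    rw [← WithZero.exp_zero]; exact WithZero.exp_lt_exp.mpr (by norm_num)
  have he0 : (0 : Γ₀) < WithZero.exp (-1 : ℤ) := WithZero.exp_pos
  rcases le_or_gt (Valued.v b) (Valued.v a) with hba | hab
  · -- `|b| ≤ |a|`
    by_cases ha : a = 0
    · have hb : b = 0 := by
        rw [ha, map_zero] at hba
        exact (map_eq_zero _).mp (le_antisymm hba zero_le)
      simp [ha, hb]
    have ha0 : (0 : Γ₀) < Valued.v a := zero_lt_iff.mpr ((map_ne_zero _).mpr ha)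
    have hZ : WithZero.exp (-1 : ℤ) * Valued.v b ^ 2 < Valued.v a ^ 2 := by
      calc WithZero.exp (-1 : ℤ) * Valued.v b ^ 2
          ≤ WithZero.exp (-1 : ℤ) * Valued.v a ^ 2 :=
            mul_le_mul' le_rfl (pow_le_pow_left' hba 2)
        _ < 1 * Valued.v a ^ 2 :=
            mul_lt_mul_of_pos_right he1 (pow_pos ha0 2)
        _ = Valued.v a ^ 2 := one_mul _
    have hY : Valued.v (τ * a * b) < Valued.v a ^ 2 := by
      rw [map_mul, map_mul, sq]
      calc Valued.v τ * Valued.v a * Valued.v b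
          ≤ Valued.v τ * Valued.v a * Valued.v a := mul_le_mul' le_rfl hba
        _ = Valued.v τ * (Valued.v a * Valued.v a) := mul_assoc _ _ _
        _ < 1 * (Valued.v a * Valued.v a) :=
            mul_lt_mul_of_pos_right hτ (mul_pos ha0 ha0)
        _ = Valued.v a * Valued.v a := one_mul _
    have hYZ : Valued.v (τ * a * b + ν * b ^ 2) < Valued.v (a ^ 2) := by
      rw [map_pow]
      refine lt_of_le_of_lt (Valuation.map_add _ _ _) (max_lt hY ?_)
      rw [map_mul, map_pow, hν]; exact hZ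
    rw [max_eq_left hZ.le, add_assoc, Valuation.map_add_eq_of_lt_left _ hYZ, map_pow]
  · -- `|a| < |b|`
    have hb0 : (0 : Γ₀) < Valued.v b := lt_of_le_of_lt zero_le hab
    have hab' : Valued.v a ≤ WithZero.exp (-1 : ℤ) * Valued.v b := le_exp_mul_of_lt129 hab
    have hZ : Valued.v (ν * b ^ 2) = WithZero.exp (-1 : ℤ) * Valued.v b ^ 2 := by
      rw [map_mul, map_pow, hν]
    have hpos : (0 : Γ₀) < WithZero.exp (-1 : ℤ) * Valued.v b ^ 2 :=
      mul_pos he0 (pow_pos hb0 2)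
    have hX : Valued.v a ^ 2 < WithZero.exp (-1 : ℤ) * Valued.v b ^ 2 := by
      calc Valued.v a ^ 2 ≤ (WithZero.exp (-1 : ℤ) * Valued.v b) ^ 2 := pow_le_pow_left' hab' 2
        _ = WithZero.exp (-1 : ℤ) * (WithZero.exp (-1 : ℤ) * Valued.v b ^ 2) := by
            rw [mul_pow, sq, sq, mul_assoc]
        _ < 1 * (WithZero.exp (-1 : ℤ) * Valued.v b ^ 2) :=
            mul_lt_mul_of_pos_right he1 hpos
        _ = WithZero.exp (-1 : ℤ) * Valued.v b ^ 2 := one_mul _
    have hY : Valued.v (τ * a * b) < WithZero.exp (-1 : ℤ) * Valued.v b ^ 2 := by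
      rw [map_mul, map_mul]
      calc Valued.v τ * Valued.v a * Valued.v b
          ≤ WithZero.exp (-1 : ℤ) * (WithZero.exp (-1 : ℤ) * Valued.v b) * Valued.v b :=
            mul_le_mul' (mul_le_mul' hτ' hab') le_rfl
        _ = WithZero.exp (-1 : ℤ) * (WithZero.exp (-1 : ℤ) * Valued.v b ^ 2) := by
            rw [sq, mul_assoc, mul_assoc]
        _ < 1 * (WithZero.exp (-1 : ℤ) * Valued.v b ^ 2) :=
            mul_lt_mul_of_pos_right he1 hpos
        _ = WithZero.exp (-1 : ℤ) * Valued.v b ^ 2 := one_mul _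
    have hXY : Valued.v (a ^ 2 + τ * a * b) < Valued.v (ν * b ^ 2) := by
      rw [hZ]
      refine lt_of_le_of_lt (Valuation.map_add _ _ _) (max_lt ?_ hY)
      rw [map_pow]; exact hX
    rw [max_eq_right hX.le, Valuation.map_add_eq_of_lt_right _ hXY, hZ]

/-- `|N(a, b)| = 1 ↔ |a| = 1 ∧ |b| ≤ 1`. -/
theorem val_norm_eq_one_iff129 (hν : Valued.v ν = WithZero.exp (-1 : ℤ))
    (hτ : Valued.v τ < 1) (a b : k) :
    Valued.v (a ^ 2 + τ * a * b + ν * b ^ 2) = 1 ↔ Valued.v a = 1 ∧ Valued.v b ≤ 1 := by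
  have he1 : (WithZero.exp (-1 : ℤ) : Γ₀) < 1 := by
    rw [← WithZero.exp_zero]; exact WithZero.exp_lt_exp.mpr (by norm_num)
  rw [val_norm129 hν hτ]
  constructor
  · intro h
    have h1 : Valued.v a ^ 2 ≤ 1 := h ▸ le_max_left _ _
    have h2 : WithZero.exp (-1 : ℤ) * Valued.v b ^ 2 ≤ 1 := h ▸ le_max_right _ _
    have ha : Valued.v a ≤ 1 := by
      by_contra hcon
      rw [not_le] at hcon
      exact absurd h1 (not_le.mpr (one_lt_pow' hcon (by norm_num)))
    have hb : Valued.v b ≤ 1 := by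
      by_contra hcon
      rw [not_le] at hcon
      have h3 : WithZero.exp (1 : ℤ) ≤ Valued.v b := by
        have := le_exp_mul_of_lt129 hcon
        have h4 : WithZero.exp (1 : ℤ) * 1 ≤ WithZero.exp (1 : ℤ)
            * (WithZero.exp (-1 : ℤ) * Valued.v b) := mul_le_mul' le_rfl this
        rwa [mul_one, ← mul_assoc, ← WithZero.exp_add, add_neg_cancel, WithZero.exp_zero,
          one_mul] at h4
      have h5 : WithZero.exp (-1 : ℤ) * WithZero.exp (1 : ℤ) ^ 2
          ≤ WithZero.exp (-1 : ℤ) * Valued.v b ^ 2 :=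
        mul_le_mul' le_rfl (pow_le_pow_left' h3 2)
      have h6 : WithZero.exp (-1 : ℤ) * WithZero.exp (1 : ℤ) ^ 2 = WithZero.exp (1 : ℤ) := by
        rw [sq, ← WithZero.exp_add, ← WithZero.exp_add]; norm_num
      rw [h6] at h5
      have h7 : (1 : Γ₀) < WithZero.exp (1 : ℤ) := by
        rw [← WithZero.exp_zero]; exact WithZero.exp_lt_exp.mpr (by norm_num)
      exact absurd (le_trans h5 h2) (not_le.mpr h7)
    refine ⟨?_, hb⟩
    by_contra hne
    have halt : Valued.v a < 1 := lt_of_le_of_ne ha hne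
    have h3 : Valued.v a ^ 2 < 1 := pow_lt_one₀ zero_le halt (by norm_num)
    have h4 : WithZero.exp (-1 : ℤ) * Valued.v b ^ 2 < 1 := by
      calc WithZero.exp (-1 : ℤ) * Valued.v b ^ 2
          ≤ WithZero.exp (-1 : ℤ) * 1 := mul_le_mul' le_rfl (pow_le_one₀ zero_le hb)
        _ = WithZero.exp (-1 : ℤ) := mul_one _
        _ < 1 := he1
    exact absurd h (ne_of_lt (max_lt h3 h4))
  · rintro ⟨ha, hb⟩
    rw [ha, one_pow]
    apply max_eq_left
    calc WithZero.exp (-1 : ℤ) * Valued.v b ^ 2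
        ≤ WithZero.exp (-1 : ℤ) * 1 := mul_le_mul' le_rfl (pow_le_one₀ zero_le hb)
      _ = WithZero.exp (-1 : ℤ) := mul_one _
      _ ≤ 1 := he1.le

/-- `N(1, ξ) = 1 + τ ξ + ν ξ²` is a unit for `ξ` integral. -/
theorem val_norm_one129 (hν : Valued.v ν = WithZero.exp (-1 : ℤ)) (hτ : Valued.v τ < 1)
    {ξ : k} (hξ : Valued.v ξ ≤ 1) : Valued.v (1 + τ * ξ + ν * ξ ^ 2) = 1 := by
  have := (val_norm_eq_one_iff129 hν hτ 1 ξ).mpr ⟨map_one _, hξ⟩
  simpa using this

theorem ν_ne_zero129 (hν : Valued.v ν = WithZero.exp (-1 : ℤ)) : ν ≠ 0 := by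
  intro h
  rw [h, map_zero] at hν
  exact WithZero.exp_ne_zero hν.symm

theorem det_latMat_ne_zero129 (hν : Valued.v ν = WithZero.exp (-1 : ℤ)) (hτ : Valued.v τ < 1)
    (n : ℕ) {ξ : k} (hξ : Valued.v ξ ≤ 1) : (latMat τ ν n ξ).det ≠ 0 := by
  rw [det_latMat129]
  refine mul_ne_zero (pow_ne_zero n (ν_ne_zero129 hν)) ?_
  intro h
  have := val_norm_one129 hν hτ hξ
  rw [h, map_zero] at this
  exact zero_ne_one this

theorem coe_latGL129 (hν : Valued.v ν = WithZero.exp (-1 : ℤ)) (hτ : Valued.v τ < 1)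
    (n : ℕ) {ξ : k} (hξ : Valued.v ξ ≤ 1) :
    ((latGL τ ν n ξ : GL (Fin 2) k) : Matrix (Fin 2) (Fin 2) k) = latMat τ ν n ξ := by
  unfold latGL
  rw [dif_pos (det_latMat_ne_zero129 hν hτ n hξ)]
  rfl

theorem val_det_latGL129 (hν : Valued.v ν = WithZero.exp (-1 : ℤ)) (hτ : Valued.v τ < 1)
    (n : ℕ) {ξ : k} (hξ : Valued.v ξ ≤ 1) :
    Valued.v ((latGL τ ν n ξ : GL (Fin 2) k) : Matrix (Fin 2) (Fin 2) k).det
      = WithZero.exp (-(n : ℤ)) := by
  rw [coe_latGL129 hν hτ n hξ, det_latMat129, map_mul, map_pow, hν, val_norm_one129 hν hτ hξ,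
    mul_one, ← WithZero.exp_nsmul]
  congr 1
  simp

end Val

end Fermat.Agent.LT.H129

end

end
-- ===== PACK-END LT/H129/EllBasic.lean

-- ===== PACK-BEGIN LT/T6/H468/DbLin.lean
section


/-!
# Row LT, tower T6, leaf T6.22.B.2 `H683.DbLinC683` (registry row 1670): CLOSED
(helper468, OFF-MAIN; Mathlib + the Spec only)

`dbLinC468 : H683.DbLinC683`, VERBATIM vs `LT/T6/H683/DarbouxSpec.lean` (helper683, sha256
5201439e): the Darboux identity is linear in `g`.

* `rho_ge_one468`: `ρ(t, u, φ) ≥ 1` for ALL real `t, u, φ` (convex combination of `cosh (t ± u)`).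
* `gT_lin468`, `gT_cont468`: the generalised translation is linear on the functions continuous
  on `[0, ∞)`, and `q ↦ T f (t, q)` is continuous on `ℝ`.
* `gL_lin468`, `gL_contOn468`: the Green operator is linear on the functions continuous on
  `[0, ∞)` at the points `d ≥ 0`, and `G g` is continuous on `[0, ∞)`
  (`|A(r)⁻¹ ∫₀ʳ A g| ≤ r sup |g|`).
-/

set_option autoImplicit false

open MeasureTheory

noncomputable section

namespace Fermat.Agent.LT.T6.H468

open Fermat.Agent.LT.T6 Fermat.Agent.LT.T6.H888 Fermat.Agent.LT.T6.H683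

/-! ## The weight `A` -/

theorem wtA_cont468 (n : ℤ) : Continuous (wtA888 n) := by
  unfold wtA888
  by_cases h : n = 0
  · simp only [h, if_true]
    exact Real.continuous_sinh
  · simp only [h, if_false]
    exact Real.continuous_sinh.mul (continuous_const.add Real.continuous_cosh)

theorem wtA_pos468 (n : ℤ) {r : ℝ} (hr : 0 < r) : 0 < wtA888 n r := by
  unfold wtA888
  have h1 : 0 < Real.sinh r := Real.sinh_pos_iff.2 hr
  have h2 : 0 < Real.cosh r := Real.cosh_pos r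
  split_ifs
  · exact h1
  · positivity

theorem wtA_nonneg468 (n : ℤ) {r : ℝ} (hr : 0 ≤ r) : 0 ≤ wtA888 n r := by
  unfold wtA888
  have h1 : 0 ≤ Real.sinh r := Real.sinh_nonneg_iff.2 hr
  have h2 : 0 < Real.cosh r := Real.cosh_pos r
  split_ifs
  · exact h1
  · positivity

theorem wtA_mono468 (n : ℤ) {q r : ℝ} (hq : 0 ≤ q) (hqr : q ≤ r) :
    wtA888 n q ≤ wtA888 n r := by
  unfold wtA888
  have h1 : Real.sinh q ≤ Real.sinh r := Real.sinh_le_sinh.2 hqr
  have h2 : Real.cosh q ≤ Real.cosh r := by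
    rw [Real.cosh_le_cosh, abs_of_nonneg hq, abs_of_nonneg (hq.trans hqr)]
    exact hqr
  have h3 : 0 ≤ Real.sinh q := Real.sinh_nonneg_iff.2 hq
  have h4 : 0 < Real.cosh q := Real.cosh_pos q
  split_ifs
  · exact h1
  · exact mul_le_mul h1 (by linarith) (by positivity) (h3.trans h1)

/-! ## The generalised translation -/

/-- `ρ ≥ 1`: a convex combination of `cosh (t + u)` and `cosh (t - u)`. -/
theorem rho_ge_one468 (t u φ : ℝ) : 1 ≤ rho888 t u φ := by
  unfold rho888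
  have h1 : 1 ≤ Real.cosh (t + u) := Real.one_le_cosh _
  have h2 : 1 ≤ Real.cosh (t - u) := Real.one_le_cosh _
  rw [Real.cosh_add] at h1
  rw [Real.cosh_sub] at h2
  have h3 := Real.cos_le_one φ
  have h4 := Real.neg_one_le_cos φ
  nlinarith [mul_nonneg (by linarith : (0 : ℝ) ≤ 1 + Real.cos φ)
      (by linarith : (0 : ℝ) ≤ Real.cosh t * Real.cosh u + Real.sinh t * Real.sinh u - 1),
    mul_nonneg (by linarith : (0 : ℝ) ≤ 1 - Real.cos φ)
      (by linarith : (0 : ℝ) ≤ Real.cosh t * Real.cosh u - Real.sinh t * Real.sinh u - 1)]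

theorem continuous_tanh468 : Continuous Real.tanh := by
  have h : Real.tanh = fun x => Real.sinh x / Real.cosh x := by
    funext x
    exact Real.tanh_eq_sinh_div_cosh x
  rw [h]
  exact Real.continuous_sinh.div Real.continuous_cosh (fun x => (Real.cosh_pos x).ne')

theorem rho_cont468 (t : ℝ) : Continuous (fun p : ℝ × ℝ => rho888 t p.1 p.2) := by
  unfold rho888
  exact (continuous_const.mul (Real.continuous_cosh.comp continuous_fst)).add
    ((continuous_const.mul (Real.continuous_sinh.comp continuous_fst)).mul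
      (Real.continuous_cos.comp continuous_snd))

theorem kerW_cont468 (n : ℤ) (t : ℝ) : Continuous (fun p : ℝ × ℝ => kerW888 n t p.1 p.2) := by
  unfold kerW888
  by_cases h : n = 0
  · simp only [h, if_true]
    exact continuous_const
  · simp only [h, if_false]
    refine continuous_const.add ((continuous_const.mul ?_).mul
      (Real.continuous_cos.comp continuous_snd))
    exact continuous_tanh468.comp (continuous_fst.div_const 2)

/-- The integrand of the generalised translation is jointly continuous in `(q, φ)`. -/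
theorem gT_integrand_cont468 (n : ℤ) {f : ℝ → ℂ} (hf : ContinuousOn f (Set.Ici 0)) (t : ℝ) :
    Continuous (fun p : ℝ × ℝ =>
      ((kerW888 n t p.1 p.2 : ℝ) : ℂ) * f (Real.arcosh (rho888 t p.1 p.2))) := by
  have h1 : Continuous (fun p : ℝ × ℝ => Real.arcosh (rho888 t p.1 p.2)) :=
    Real.continuousOn_arcosh.comp_continuous (rho_cont468 t) (fun p => rho_ge_one468 _ _ _)
  have h2 : Continuous (fun p : ℝ × ℝ => f (Real.arcosh (rho888 t p.1 p.2))) :=
    hf.comp_continuous h1 (fun p => Real.arcosh_nonneg (rho_ge_one468 _ _ _))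
  exact (Complex.continuous_ofReal.comp (kerW_cont468 n t)).mul h2

theorem gT_integrable468 (n : ℤ) {f : ℝ → ℂ} (hf : ContinuousOn f (Set.Ici 0)) (t q : ℝ) :
    IntervalIntegrable (fun φ : ℝ =>
      ((kerW888 n t q φ : ℝ) : ℂ) * f (Real.arcosh (rho888 t q φ))) volume 0 (2 * Real.pi) := by
  have h := (gT_integrand_cont468 n hf t).comp
    (Continuous.prodMk (continuous_const (y := q)) continuous_id)
  exact h.intervalIntegrable _ _

/-- `q ↦ T f (t, q)` is continuous. -/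
theorem gT_cont468 (n : ℤ) {f : ℝ → ℂ} (hf : ContinuousOn f (Set.Ici 0)) (t : ℝ) :
    Continuous (fun q : ℝ => gT888 n f t q) := by
  unfold gT888
  refine continuous_const.mul ?_
  exact intervalIntegral.continuous_parametric_intervalIntegral_of_continuous
    (f := fun q φ => ((kerW888 n t q φ : ℝ) : ℂ) * f (Real.arcosh (rho888 t q φ)))
    (gT_integrand_cont468 n hf t) continuous_const

/-- The generalised translation only uses the values at the points `≥ 0`. -/
theorem gT_congr468 (n : ℤ) {f f' : ℝ → ℂ} (h : ∀ x : ℝ, 0 ≤ x → f x = f' x) (t q : ℝ) :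
    gT888 n f t q = gT888 n f' t q := by
  unfold gT888
  congr 1
  refine intervalIntegral.integral_congr (fun φ _ => ?_)
  rw [h _ (Real.arcosh_nonneg (rho_ge_one468 _ _ _))]

/-- The generalised translation is linear. -/
theorem gT_lin468 (n : ℤ) {f₁ f₂ : ℝ → ℂ} (h₁ : ContinuousOn f₁ (Set.Ici 0))
    (h₂ : ContinuousOn f₂ (Set.Ici 0)) (a b : ℂ) (t q : ℝ) :
    gT888 n (fun x => a * f₁ x + b * f₂ x) t q = a * gT888 n f₁ t q + b * gT888 n f₂ t q := by
  unfold gT888
  have e : (fun φ : ℝ => ((kerW888 n t q φ : ℝ) : ℂ)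
        * (a * f₁ (Real.arcosh (rho888 t q φ)) + b * f₂ (Real.arcosh (rho888 t q φ))))
      = fun φ : ℝ => a * (((kerW888 n t q φ : ℝ) : ℂ) * f₁ (Real.arcosh (rho888 t q φ)))
        + b * (((kerW888 n t q φ : ℝ) : ℂ) * f₂ (Real.arcosh (rho888 t q φ))) := by
    funext φ
    ring
  rw [e, intervalIntegral.integral_add ((gT_integrable468 n h₁ t q).const_mul a)
    ((gT_integrable468 n h₂ t q).const_mul b), intervalIntegral.integral_const_mul,
    intervalIntegral.integral_const_mul]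
  ring

/-! ## The Green operator -/

/-- The inner integral of the Green operator. -/
def innerG468 (n : ℤ) (g : ℝ → ℂ) (r : ℝ) : ℂ :=
  ∫ q in (0 : ℝ)..r, ((wtA888 n q : ℝ) : ℂ) * g q

theorem gL_eq468 (n : ℤ) (g : ℝ → ℂ) (t : ℝ) :
    gL888 n g t = ∫ r in (0 : ℝ)..t, (((wtA888 n r)⁻¹ : ℝ) : ℂ) * innerG468 n g r := rfl

theorem inner_contOn468 (n : ℤ) {g : ℝ → ℂ} (hg : ContinuousOn g (Set.Ici 0)) :
    ContinuousOn (fun q : ℝ => ((wtA888 n q : ℝ) : ℂ) * g q) (Set.Ici 0) :=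
  (Complex.continuous_ofReal.comp (wtA_cont468 n)).continuousOn.mul hg

theorem inner_integrable468 (n : ℤ) {g : ℝ → ℂ} (hg : ContinuousOn g (Set.Ici 0)) {r : ℝ}
    (hr : 0 ≤ r) :
    IntervalIntegrable (fun q : ℝ => ((wtA888 n q : ℝ) : ℂ) * g q) volume 0 r := by
  refine ContinuousOn.intervalIntegrable ((inner_contOn468 n hg).mono ?_)
  rw [Set.uIcc_of_le hr]
  exact Set.Icc_subset_Ici_self

theorem innerG_lin468 (n : ℤ) {g h : ℝ → ℂ} (hg : ContinuousOn g (Set.Ici 0))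
    (hh : ContinuousOn h (Set.Ici 0)) (a b : ℂ) {r : ℝ} (hr : 0 ≤ r) :
    innerG468 n (fun q => a * g q + b * h q) r = a * innerG468 n g r + b * innerG468 n h r := by
  unfold innerG468
  have e : (fun q : ℝ => ((wtA888 n q : ℝ) : ℂ) * (a * g q + b * h q))
      = fun q : ℝ => a * (((wtA888 n q : ℝ) : ℂ) * g q) + b * (((wtA888 n q : ℝ) : ℂ) * h q) := by
    funext q
    ring
  rw [e, intervalIntegral.integral_add ((inner_integrable468 n hg hr).const_mul a)
    ((inner_integrable468 n hh hr).const_mul b), intervalIntegral.integral_const_mul,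
    intervalIntegral.integral_const_mul]

/-- The inner integral is continuous on `[0, ∞)`. -/
theorem innerG_contOn468 (n : ℤ) {g : ℝ → ℂ} (hg : ContinuousOn g (Set.Ici 0)) :
    ContinuousOn (innerG468 n g) (Set.Ici 0) := by
  intro x hx
  have hx0 : (0 : ℝ) ≤ x := hx
  have hint : IntegrableOn (fun q : ℝ => ((wtA888 n q : ℝ) : ℂ) * g q)
      (Set.uIcc 0 (x + 1)) volume := by
    rw [Set.uIcc_of_le (by linarith)]
    exact ((inner_contOn468 n hg).mono Set.Icc_subset_Ici_self).integrableOn_Icc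
  have hc := intervalIntegral.continuousOn_primitive_interval hint
  rw [Set.uIcc_of_le (by linarith : (0 : ℝ) ≤ x + 1)] at hc
  have hmem : Set.Icc (0 : ℝ) (x + 1) ∈ nhdsWithin x (Set.Ici 0) := by
    have h1 : Set.Iio (x + 1) ∈ nhds x := Iio_mem_nhds (by linarith)
    have h2 : Set.Ici (0 : ℝ) ∩ Set.Iio (x + 1) ∈ nhdsWithin x (Set.Ici 0) :=
      Filter.inter_mem self_mem_nhdsWithin (nhdsWithin_le_nhds h1)
    refine Filter.mem_of_superset h2 ?_
    rintro y ⟨hy1, hy2⟩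
    exact ⟨hy1, le_of_lt hy2⟩
  exact (hc x ⟨hx0, by linarith⟩).mono_of_mem_nhdsWithin hmem

/-- The bound `|A(r)⁻¹ ∫₀ʳ A g| ≤ r sup |g|`. -/
theorem outer_bound468 (n : ℤ) {g : ℝ → ℂ} {d S : ℝ}
    (hS : ∀ x ∈ Set.Icc (0 : ℝ) d, ‖g x‖ ≤ S) {r : ℝ} (hr0 : 0 < r) (hrd : r ≤ d) :
    ‖(((wtA888 n r)⁻¹ : ℝ) : ℂ) * innerG468 n g r‖ ≤ S * d := by
  have hA : 0 < wtA888 n r := wtA_pos468 n hr0
  have hS0 : 0 ≤ S := (norm_nonneg _).trans (hS r ⟨hr0.le, hrd⟩)
  have h1 : ‖innerG468 n g r‖ ≤ wtA888 n r * S * |r - 0| := by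
    unfold innerG468
    refine intervalIntegral.norm_integral_le_of_norm_le_const (fun x hx => ?_)
    rw [Set.uIoc_of_le hr0.le] at hx
    rw [norm_mul, Complex.norm_real, Real.norm_eq_abs, abs_of_nonneg (wtA_nonneg468 n hx.1.le)]
    exact mul_le_mul (wtA_mono468 n hx.1.le hx.2) (hS x ⟨hx.1.le, hx.2.trans hrd⟩)
      (norm_nonneg _) hA.le
  rw [sub_zero, abs_of_pos hr0] at h1
  rw [norm_mul, Complex.norm_real, Real.norm_eq_abs, abs_of_pos (inv_pos.2 hA)]
  calc (wtA888 n r)⁻¹ * ‖innerG468 n g r‖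
      ≤ (wtA888 n r)⁻¹ * (wtA888 n r * S * r) :=
        mul_le_mul_of_nonneg_left h1 (inv_pos.2 hA).le
    _ = S * r := by
        field_simp
    _ ≤ S * d := mul_le_mul_of_nonneg_left hrd hS0

/-- The integrand of the Green operator is integrable on `[0, d]`. -/
theorem outer_integrable468 (n : ℤ) {g : ℝ → ℂ} (hg : ContinuousOn g (Set.Ici 0)) {d : ℝ}
    (hd : 0 ≤ d) :
    IntervalIntegrable (fun r : ℝ => (((wtA888 n r)⁻¹ : ℝ) : ℂ) * innerG468 n g r)
      volume 0 d := by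
  rw [intervalIntegrable_iff_integrableOn_Ioc_of_le hd]
  obtain ⟨S, hS⟩ := isCompact_Icc.exists_bound_of_continuousOn
    (hg.mono (Set.Icc_subset_Ici_self : Set.Icc (0 : ℝ) d ⊆ Set.Ici 0))
  have hcont : ContinuousOn (fun r : ℝ => (((wtA888 n r)⁻¹ : ℝ) : ℂ) * innerG468 n g r)
      (Set.Ioc 0 d) := by
    refine ContinuousOn.mul ?_ ((innerG_contOn468 n hg).mono
      (fun r hr => (le_of_lt hr.1 : (0 : ℝ) ≤ r)))
    refine Complex.continuous_ofReal.comp_continuousOn ?_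
    exact (wtA_cont468 n).continuousOn.inv₀ (fun r hr => (wtA_pos468 n hr.1).ne')
  have hmeas := hcont.aestronglyMeasurable (μ := volume) measurableSet_Ioc
  refine Integrable.of_bound hmeas (S * d) ?_
  refine (ae_restrict_iff' measurableSet_Ioc).2 (Filter.Eventually.of_forall (fun r hr => ?_))
  exact outer_bound468 n hS hr.1 hr.2

/-- The Green operator is linear (at the points `d ≥ 0`). -/
theorem gL_lin468 (n : ℤ) {g h : ℝ → ℂ} (hg : ContinuousOn g (Set.Ici 0))
    (hh : ContinuousOn h (Set.Ici 0)) (a b : ℂ) {d : ℝ} (hd : 0 ≤ d) :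
    gL888 n (fun q => a * g q + b * h q) d = a * gL888 n g d + b * gL888 n h d := by
  rw [gL_eq468, gL_eq468, gL_eq468]
  have e : ∫ r in (0 : ℝ)..d, (((wtA888 n r)⁻¹ : ℝ) : ℂ)
        * innerG468 n (fun q => a * g q + b * h q) r
      = ∫ r in (0 : ℝ)..d, (a * ((((wtA888 n r)⁻¹ : ℝ) : ℂ) * innerG468 n g r)
        + b * ((((wtA888 n r)⁻¹ : ℝ) : ℂ) * innerG468 n h r)) := by
    refine intervalIntegral.integral_congr (fun r hr => ?_)
    rw [Set.uIcc_of_le hd] at hr
    rw [innerG_lin468 n hg hh a b hr.1]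
    ring
  rw [e, intervalIntegral.integral_add ((outer_integrable468 n hg hd).const_mul a)
    ((outer_integrable468 n hh hd).const_mul b), intervalIntegral.integral_const_mul,
    intervalIntegral.integral_const_mul]

/-- `G g` is continuous on `[0, ∞)`. -/
theorem gL_contOn468 (n : ℤ) {g : ℝ → ℂ} (hg : ContinuousOn g (Set.Ici 0)) :
    ContinuousOn (gL888 n g) (Set.Ici 0) := by
  intro x hx
  have hx0 : (0 : ℝ) ≤ x := hx
  have hint : IntegrableOn (fun r : ℝ => (((wtA888 n r)⁻¹ : ℝ) : ℂ) * innerG468 n g r)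
      (Set.uIcc 0 (x + 1)) volume := by
    have h := outer_integrable468 n hg (by linarith : (0 : ℝ) ≤ x + 1)
    rw [intervalIntegrable_iff_integrableOn_Icc_of_le (by linarith)] at h
    rw [Set.uIcc_of_le (by linarith)]
    exact h
  have hc := intervalIntegral.continuousOn_primitive_interval hint
  rw [Set.uIcc_of_le (by linarith : (0 : ℝ) ≤ x + 1)] at hc
  have hmem : Set.Icc (0 : ℝ) (x + 1) ∈ nhdsWithin x (Set.Ici 0) := by
    have h1 : Set.Iio (x + 1) ∈ nhds x := Iio_mem_nhds (by linarith)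
    have h2 : Set.Ici (0 : ℝ) ∩ Set.Iio (x + 1) ∈ nhdsWithin x (Set.Ici 0) :=
      Filter.inter_mem self_mem_nhdsWithin (nhdsWithin_le_nhds h1)
    refine Filter.mem_of_superset h2 ?_
    rintro y ⟨hy1, hy2⟩
    exact ⟨hy1, le_of_lt hy2⟩
  have := (hc x ⟨hx0, by linarith⟩).mono_of_mem_nhdsWithin hmem
  exact this

/-! ## The leaf -/

/-- **Leaf T6.22.B.2 `DbLinC683`**, VERBATIM. -/
theorem dbLinC468 : DbLinC683 := by
  intro n _ g h hg hh a b hG hH t u ht hu
  have hGg := gL_contOn468 n hg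
  have hGh := gL_contOn468 n hh
  -- the left-hand side
  have e1 : gT888 n (gL888 n (fun q => a * g q + b * h q)) t u
      = a * gT888 n (gL888 n g) t u + b * gT888 n (gL888 n h) t u := by
    rw [gT_congr468 n (f' := fun x => a * gL888 n g x + b * gL888 n h x)
      (fun x hx => gL_lin468 n hg hh a b hx) t u]
    exact gT_lin468 n hGg hGh a b t u
  -- the right-hand side
  have e2 : (fun q => gT888 n (fun q => a * g q + b * h q) t q)
      = fun q => a * gT888 n g t q + b * gT888 n h t q := by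
    funext q
    exact gT_lin468 n hg hh a b t q
  have e3 : gL888 n (fun q => gT888 n (fun q => a * g q + b * h q) t q) u
      = a * gL888 n (fun q => gT888 n g t q) u + b * gL888 n (fun q => gT888 n h t q) u := by
    rw [e2]
    exact gL_lin468 n (gT_cont468 n hg t).continuousOn (gT_cont468 n hh t).continuousOn a b
      hu.le
  rw [e1, e3, gL_lin468 n hg hh a b ht.le, hG t u ht hu, hH t u ht hu]
  ring

end Fermat.Agent.LT.T6.H468

end

end
-- ===== PACK-END LT/T6/H468/DbLin.lean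

-- ===== PACK-BEGIN LT/T6/H319/DbDense.lean
section


/-!
# Row LT, tower T6, leaf T6.22.B.5 `DbDenseC683` (registry 1673; helper319)

OFF-MAIN.  Imports `LT/T6/H683/DarbouxSpec.lean` (helper683@ac6017c1d, byte-identical copy) only.
No definition.

`dbDenseC319 : H683.DbDenseC683`: polynomials in `cosh` with complex coefficients are uniformly
dense, on `[0, R]`, in the functions continuous on `[0, ∞)`.

Proof.  Weierstrass (`exists_polynomial_near_of_continuousOn`) on `[1, cosh R]` for the real and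
the imaginary part of `g ∘ arcosh`, each with `ε / 2`; `arcosh (cosh q) = q` for `q ≥ 0`.
-/

set_option autoImplicit false

open Polynomial

noncomputable section

namespace Fermat.Agent.LT.T6.H319

/-- `g ∘ arcosh` is continuous on `[1, b]`. -/
theorem continuousOn_comp_arcosh319 {g : ℝ → ℂ} (hg : ContinuousOn g (Set.Ici 0)) (b : ℝ) :
    ContinuousOn (fun x => g (Real.arcosh x)) (Set.Icc 1 b) := by
  have h1 : ContinuousOn Real.arcosh (Set.Icc 1 b) :=
    Real.continuousOn_arcosh.mono fun x hx => hx.1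
  exact hg.comp h1 fun x hx => Real.arcosh_nonneg hx.1

/-- Evaluation of a finite sum of monomials with the coefficients of `P`. -/
theorem eval_eq_sum319 (P : ℂ[X]) (z : ℂ) :
    ∑ i ∈ Finset.range (P.natDegree + 1), P.coeff i * z ^ i = P.eval z :=
  (Polynomial.eval_eq_sum_range z).symm

/-- Weierstrass with complex values: a function continuous on `[a, b]` is uniformly
approximated by polynomials with complex coefficients. -/
theorem exists_cpoly_near319 (a b : ℝ) (f : ℝ → ℂ) (hf : ContinuousOn f (Set.Icc a b))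
    (ε : ℝ) (hε : 0 < ε) :
    ∃ P : ℂ[X], ∀ x ∈ Set.Icc a b, ‖f x - P.eval (x : ℂ)‖ ≤ ε := by
  have hre : ContinuousOn (fun x => (f x).re) (Set.Icc a b) :=
    Complex.continuous_re.comp_continuousOn hf
  have him : ContinuousOn (fun x => (f x).im) (Set.Icc a b) :=
    Complex.continuous_im.comp_continuousOn hf
  obtain ⟨p, hp⟩ := exists_polynomial_near_of_continuousOn a b _ hre (ε / 2) (half_pos hε)
  obtain ⟨p', hp'⟩ := exists_polynomial_near_of_continuousOn a b _ him (ε / 2) (half_pos hε)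
  refine ⟨p.map (algebraMap ℝ ℂ) + Polynomial.C Complex.I * p'.map (algebraMap ℝ ℂ), ?_⟩
  intro x hx
  have e1 : (p.map (algebraMap ℝ ℂ)).eval (x : ℂ) = ((p.eval x : ℝ) : ℂ) := by
    rw [Polynomial.eval_map_algebraMap, ← Complex.coe_algebraMap, Polynomial.aeval_algebraMap_apply,
      Polynomial.coe_aeval_eq_eval]
  have e2 : (p'.map (algebraMap ℝ ℂ)).eval (x : ℂ) = ((p'.eval x : ℝ) : ℂ) := by
    rw [Polynomial.eval_map_algebraMap, ← Complex.coe_algebraMap, Polynomial.aeval_algebraMap_apply,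
      Polynomial.coe_aeval_eq_eval]
  rw [Polynomial.eval_add, Polynomial.eval_mul, Polynomial.eval_C, e1, e2]
  have hd : f x - (((p.eval x : ℝ) : ℂ) + Complex.I * ((p'.eval x : ℝ) : ℂ))
      = (((f x).re - p.eval x : ℝ) : ℂ) + (((f x).im - p'.eval x : ℝ) : ℂ) * Complex.I := by
    apply Complex.ext <;> simp
  rw [hd]
  have h1 : ‖(((f x).re - p.eval x : ℝ) : ℂ)‖ ≤ ε / 2 := by
    rw [Complex.norm_real, Real.norm_eq_abs, abs_sub_comm]
    exact (hp x hx).le
  have h2 : ‖(((f x).im - p'.eval x : ℝ) : ℂ) * Complex.I‖ ≤ ε / 2 := by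
    rw [norm_mul, Complex.norm_I, mul_one, Complex.norm_real, Real.norm_eq_abs, abs_sub_comm]
    exact (hp' x hx).le
  calc ‖(((f x).re - p.eval x : ℝ) : ℂ) + (((f x).im - p'.eval x : ℝ) : ℂ) * Complex.I‖
      ≤ ‖(((f x).re - p.eval x : ℝ) : ℂ)‖ + ‖(((f x).im - p'.eval x : ℝ) : ℂ) * Complex.I‖ :=
        norm_add_le _ _
    _ ≤ ε / 2 + ε / 2 := add_le_add h1 h2
    _ = ε := add_halves ε

/-- **Leaf D.5 `DbDenseC683`** (verbatim, `LT/T6/H683/DarbouxSpec.lean`). -/
theorem dbDenseC319 : H683.DbDenseC683 := by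
  intro g hg R ε hR hε
  obtain ⟨P, hP⟩ := exists_cpoly_near319 1 (Real.cosh R) (fun x => g (Real.arcosh x))
    (continuousOn_comp_arcosh319 hg _) ε hε
  refine ⟨P.natDegree + 1, fun i => P.coeff i, ?_⟩
  intro q hq
  have hq1 : Real.cosh q ∈ Set.Icc 1 (Real.cosh R) :=
    ⟨Real.one_le_cosh q, Real.cosh_le_cosh.mpr (by
      rw [abs_of_nonneg hq.1, abs_of_nonneg hR.le]; exact hq.2)⟩
  have h := hP (Real.cosh q) hq1
  simp only [Real.arcosh_cosh hq.1] at h
  have e : ∑ i ∈ Finset.range (P.natDegree + 1), P.coeff i * ((Real.cosh q ^ i : ℝ) : ℂ)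
      = P.eval ((Real.cosh q : ℝ) : ℂ) := by
    rw [← eval_eq_sum319]
    refine Finset.sum_congr rfl fun i _ => ?_
    rw [Complex.ofReal_pow]
  rw [e]
  exact h

end Fermat.Agent.LT.T6.H319

end

end
-- ===== PACK-END LT/T6/H319/DbDense.lean

-- ===== PACK-BEGIN LT/T6/Inf/H811/ClassCut.lean
section


/-!
# Row LT, sub-tower T6inf, leaf T6inf.04 `ClassR1C` (registry 1378) -- THE CUT (helper811)

OFF-MAIN.  Definitions, frozen sub-leaf Props and the PROVED top
`classR1_of_leaves811 : ExtC811 → SmoothC811 → ProductC811 → OdeC811 → UniqC811 → FamilyC811 →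
  SphQEvenC811 → SphQZeroC811 → SphQDD0C811 → ClassR1C`.
No hole, nothing assumed.  Mathlib + `T6/Inf/Spec.lean` (helper19@846d5fb56, sha256 1c79e0f3) only.

## The route (all identities checked numerically, pure Python, to 1e-13)

`k_θ = rotG811 θ`, `a_t = torG811 t`, circle mean `(C_t e)(g) = ∫₀^{2π} e^{-inθ} e(g k_θ a_t) dθ`
(`circMean811`, ALL real `t`).  WLOG `e 1 ≠ 0` (left translation).

* `ExtC811`   : the eigen-equation for `t > 0` gives it for ALL real `t`, with the EVEN extension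
  `mExt811 m` of `m` (`= 2π` at `0`): `a_{-t} = k_{π/2} a_t k_{-π/2}`, periodic shift.
* `SmoothC811`: `M = mExt811 m` is `C²` (regularisation on the left by a smooth function on the
  group `N A ≅ ℝ²`: `M(t) · ∫∫ Ψ(ξ, η) e(n_ξ a_η) = ∫₀^{2π} ∫∫ e^{-inθ} Ψ(ξ, η) e(n_ξ a_η k_θ a_t)`,
  `n_ξ a_η k_θ a_t = n_{ξ + e^η x} a_{η + v} k_β` with `x + i e^v = k_θ a_t · i`, translate `(ξ, η)`:
  the `t`-dependence moves into the smooth kernel; e.g. `contDiffOn_convolution_right_with_param`).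
* `ProductC811`: PRODUCT FORMULA `M(u) M(t) = ∫₀^{2π} K(u,t,θ) / cosh(T/2) · M(T) dθ`,
  `cosh T = cosh u cosh t + sinh u sinh t cos 2θ`, `K = cosh((u+t)/2) cos² θ + cosh((u-t)/2) sin² θ`
  (Cartan decomposition `a_u k_θ a_t = k_α a_T k_β`, `e^{i(α+β)} = j/|j|`, `j = jR`,
  `j(a_u k_θ a_t) = 2 [cosh((u+t)/2) cos θ + i cosh((u-t)/2) sin θ]`, `|j| = 2 cosh(T/2)`; the
  imaginary part of `e^{-iθ} j` is odd in `θ`).
* `OdeC811`   : `∂_t²` at `t = 0`: `G = M / (2π cosh(·/2))` satisfies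
  `G'' + (coth u + tanh(u/2)) G' + (1/2 - M''(0)/π) G = 0` on `u > 0`.
* `UniqC811`  : two `C²` solutions on `ℝ` with the same value at `0` and derivative `0` at `0`
  coincide on `[0, ∞)` (`p = sinh u cosh²(u/2)`, `(p D')' = -μ p D`, `|D(u)| ≤ |μ| u ∫₀^u |D|`,
  Grönwall).
* `FamilyC811`: `E_s(g) = (d - i c) (c² + d²)^{s-1}` (`g = [[a, b], [c, d]]`) is continuous, of
  weight one, `E_s(1) = 1`, joint eigenfunction with eigenvalue function `2π sphQ s`
  (`E_s(p g) = χ(p) E_s(g)` for `p` upper triangular, Iwasawa `g = p k_β`, `u = 2θ + π`).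
* `SphQEvenC811`, `SphQZeroC811`, `SphQDD0C811`: `sphQ s` is even, `sphQ s 0 = 1`,
  `(sphQ s)''(0) = s²/2 - 1/4`.

Then `M` and `M_s = 2π sphQ s` satisfy the same ODE for `s² = 1/2 + M''(0)/π`.
-/

set_option autoImplicit false

open MeasureTheory
open scoped Matrix

noncomputable section

namespace Fermat.Agent.LT.T6.Inf.H811

open Fermat.Agent.LT.T6.Inf

/-! ## Definitions -/

theorem det_rotR811 (θ : ℝ) : (rotR θ).det = 1 := by
  unfold rotR
  rw [Matrix.det_fin_two_of]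
  nlinarith [Real.sin_sq_add_cos_sq θ]

theorem det_torR811 (t : ℝ) : (torR t).det = 1 := by
  unfold torR
  rw [Matrix.det_fin_two_of, ← Real.exp_add]
  simp

/-- `k_θ` as an element of `GL₂(ℝ)`. -/
def rotG811 (θ : ℝ) : GR :=
  Matrix.GeneralLinearGroup.mkOfDetNeZero (rotR θ) (by rw [det_rotR811]; exact one_ne_zero)

/-- `a_t` as an element of `GL₂(ℝ)`. -/
def torG811 (t : ℝ) : GR :=
  Matrix.GeneralLinearGroup.mkOfDetNeZero (torR t) (by rw [det_torR811]; exact one_ne_zero)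

theorem rotG_coe811 (θ : ℝ) : ((rotG811 θ : GR) : Matrix (Fin 2) (Fin 2) ℝ) = rotR θ := rfl

theorem torG_coe811 (t : ℝ) : ((torG811 t : GR) : Matrix (Fin 2) (Fin 2) ℝ) = torR t := rfl

/-- The circle mean of weight `n` and radius `t` (any real `t`) of `e` at `g`:
`∫₀^{2π} e^{-inθ} e(g k_θ a_t) dθ`. -/
def circMean811 (n : ℤ) (e : GR → ℂ) (g : GR) (t : ℝ) : ℂ :=
  ∫ θ in (0 : ℝ)..(2 * Real.pi), wt (-n) θ * e (g * (rotG811 θ * torG811 t))

/-- The even extension of an eigenvalue function to `ℝ` (value `2π` at `0`). -/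
def mExt811 (m : ℝ → ℂ) (t : ℝ) : ℂ :=
  if 0 < t then m t else if t = 0 then ((2 * Real.pi : ℝ) : ℂ) else m (-t)

/-- `cosh T` for `a_u k_θ a_t = k_α a_T k_β`. -/
def chX811 (u t θ : ℝ) : ℝ :=
  Real.cosh u * Real.cosh t + Real.sinh u * Real.sinh t * Real.cos (2 * θ)

/-- THE PRODUCT FORMULA. -/
def ProdForm811 (M : ℝ → ℂ) : Prop :=
  ∀ u t : ℝ, M u * M t = ∫ θ in (0 : ℝ)..(2 * Real.pi),
    (((Real.cosh ((u + t) / 2) * Real.cos θ ^ 2 + Real.cosh ((u - t) / 2) * Real.sin θ ^ 2)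
        / Real.cosh (Real.arcosh (chX811 u t θ) / 2) : ℝ) : ℂ)
      * M (Real.arcosh (chX811 u t θ))

/-- `G = M / (2π cosh(·/2))`. -/
def gOf811 (M : ℝ → ℂ) (x : ℝ) : ℂ := M x / ((2 * Real.pi * Real.cosh (x / 2) : ℝ) : ℂ)

/-- The coefficient `coth u + tanh(u/2)` of the radial equation. -/
def odeCoef811 (u : ℝ) : ℝ := Real.cosh u / Real.sinh u + Real.sinh (u / 2) / Real.cosh (u / 2)

/-- THE RADIAL EQUATION `G'' + (coth u + tanh(u/2)) G' + μ G = 0` on `u > 0`. -/
def IsOde811 (μ : ℂ) (G : ℝ → ℂ) : Prop :=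
  ∀ u : ℝ, 0 < u → deriv (deriv G) u + ((odeCoef811 u : ℝ) : ℂ) * deriv G u + μ * G u = 0

/-! ## The sub-leaves -/

/-- **T6inf.04.1 EXT.**  The eigen-equation for all real `t`, with the even extension. -/
def ExtC811 : Prop :=
  ∀ (n : ℤ) (e : GR → ℂ) (m : ℝ → ℂ), Continuous e → HasWeight n e → MeanEig n e m →
    ∀ (t : ℝ) (g : GR), circMean811 n e g t = mExt811 m t * e g

/-- **T6inf.04.2 SMOOTH.**  The eigenvalue function of a continuous joint eigenfunction which
does not vanish at `1` is `C²` on `ℝ`. -/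
def SmoothC811 : Prop :=
  ∀ (n : ℤ) (e : GR → ℂ) (M : ℝ → ℂ), Continuous e → e 1 ≠ 0 → HasWeight n e →
    (∀ (t : ℝ) (g : GR), circMean811 n e g t = M t * e g) → ContDiff ℝ 2 M

/-- **T6inf.04.3 PRODUCT.**  The product formula in weight one. -/
def ProductC811 : Prop :=
  ∀ (e : GR → ℂ) (M : ℝ → ℂ), Continuous e → e 1 ≠ 0 → HasWeight 1 e →
    (∀ (t : ℝ) (g : GR), circMean811 1 e g t = M t * e g) → ProdForm811 M

/-- **T6inf.04.3a CARTAN** (input of PRODUCT).  `g ∈ SL₂(ℝ)` is `k_α a_T k_β`, `T ≥ 0`. -/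
def CartanC811 : Prop :=
  ∀ g : GR, (g : Matrix (Fin 2) (Fin 2) ℝ).det = 1 →
    ∃ α β T : ℝ, 0 ≤ T ∧ g = rotG811 α * torG811 T * rotG811 β

/-- **T6inf.04.3b PRODUCT from CARTAN.** -/
def ProdOfCartanC811 : Prop := CartanC811 → ProductC811

/-- **T6inf.04.4 ODE.**  A `C²` solution of the product formula satisfies the radial equation. -/
def OdeC811 : Prop :=
  ∀ M : ℝ → ℂ, ContDiff ℝ 2 M → ProdForm811 M →
    IsOde811 (1 / 2 - deriv (deriv M) 0 / (Real.pi : ℂ)) (gOf811 M)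

/-- **T6inf.04.5 UNIQ.**  Uniqueness for the radial equation (regular singular point at `0`). -/
def UniqC811 : Prop :=
  ∀ (μ : ℂ) (G₁ G₂ : ℝ → ℂ), ContDiff ℝ 2 G₁ → ContDiff ℝ 2 G₂ → G₁ 0 = G₂ 0 →
    deriv G₁ 0 = 0 → deriv G₂ 0 = 0 → IsOde811 μ G₁ → IsOde811 μ G₂ →
    ∀ u : ℝ, 0 ≤ u → G₁ u = G₂ u

/-- **T6inf.04.6 FAMILY.**  Every `2π sphQ s` is the eigenvalue function of a continuous joint
eigenfunction of weight one which does not vanish at `1`. -/
def FamilyC811 : Prop :=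
  ∀ s : ℂ, ∃ e : GR → ℂ, Continuous e ∧ e 1 ≠ 0 ∧ HasWeight 1 e ∧
    MeanEig 1 e (fun t => ((2 * Real.pi : ℝ) : ℂ) * sphQ s t)

/-- **T6inf.04.7 EVEN.** -/
def SphQEvenC811 : Prop := ∀ (s : ℂ) (t : ℝ), sphQ s (-t) = sphQ s t

/-- **T6inf.04.8 ZERO.** -/
def SphQZeroC811 : Prop := ∀ s : ℂ, sphQ s 0 = 1

/-- **T6inf.04.9 DD0.**  `(sphQ s)''(0) = s²/2 - 1/4`. -/
def SphQDD0C811 : Prop :=
  ∀ s : ℂ, deriv (deriv (fun t : ℝ => sphQ s t)) 0 = s ^ 2 / 2 - 1 / 4

/-! ## The top (PROVED) -/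

theorem product_of811 (h1 : CartanC811) (h2 : ProdOfCartanC811) : ProductC811 := h2 h1

theorem mExt_neg811 (m : ℝ → ℂ) (t : ℝ) : mExt811 m (-t) = mExt811 m t := by
  unfold mExt811
  rcases lt_trichotomy t 0 with h | h | h
  · have h1 : (0 : ℝ) < -t := by linarith
    have h2 : ¬ (0 : ℝ) < t := by linarith
    have h3 : t ≠ 0 := by linarith
    simp [h1, h2, h3]
  · subst h
    simp
  · have h1 : ¬ (0 : ℝ) < -t := by linarith
    have h2 : -t ≠ 0 := by linarith
    simp [h1, h2, h]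

theorem mExt_zero811 (m : ℝ → ℂ) : mExt811 m 0 = ((2 * Real.pi : ℝ) : ℂ) := by
  simp [mExt811]

theorem mExt_pos811 (m : ℝ → ℂ) {t : ℝ} (ht : 0 < t) : mExt811 m t = m t := by
  simp [mExt811, ht]

theorem gOf_neg811 {M : ℝ → ℂ} (hM : ∀ t, M (-t) = M t) (x : ℝ) : gOf811 M (-x) = gOf811 M x := by
  unfold gOf811
  rw [hM, neg_div, Real.cosh_neg]

theorem denom_ne_zero811 (x : ℝ) : ((2 * Real.pi * Real.cosh (x / 2) : ℝ) : ℂ) ≠ 0 := by
  have : (0 : ℝ) < 2 * Real.pi * Real.cosh (x / 2) := by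
    have := Real.cosh_pos (x / 2)
    have := Real.pi_pos
    positivity
  exact_mod_cast this.ne'

theorem contDiff_gOf811 {M : ℝ → ℂ} (hM : ContDiff ℝ 2 M) : ContDiff ℝ 2 (gOf811 M) := by
  have h : ContDiff ℝ 2 (fun x : ℝ => 2 * Real.pi * Real.cosh (x / 2)) := by fun_prop
  have h' : ContDiff ℝ 2 (fun x : ℝ => ((2 * Real.pi * Real.cosh (x / 2) : ℝ) : ℂ)) :=
    Complex.ofRealCLM.contDiff.comp h
  have h'' : gOf811 M = fun x => M x * (((2 * Real.pi * Real.cosh (x / 2) : ℝ) : ℂ))⁻¹ := by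
    funext x
    unfold gOf811
    rw [div_eq_mul_inv]
  rw [h'']
  exact hM.mul (h'.inv (fun x => denom_ne_zero811 x))

theorem deriv_zero_of_even811 {G : ℝ → ℂ} (hG : ∀ x, G (-x) = G x) : deriv G 0 = 0 := by
  have h1 : (fun x => G (-x)) = G := funext hG
  have h2 : deriv (fun x => G (-x)) 0 = -deriv G (-0) := deriv_comp_neg G 0
  rw [h1, neg_zero] at h2
  have h3 : (2 : ℂ) * deriv G 0 = 0 := by
    have : deriv G 0 + deriv G 0 = 0 := by
      nth_rewrite 1 [h2]
      simp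
    rw [two_mul]
    exact this
  simpa using h3

/-- **THE TOP of T6inf.04**: the frozen Prop `ClassR1C` from the sub-leaves. -/
theorem classR1_of_leaves811 (hExt : ExtC811) (hSm : SmoothC811) (hPr : ProductC811)
    (hOde : OdeC811) (hUn : UniqC811) (hFam : FamilyC811) (hEv : SphQEvenC811)
    (hZ : SphQZeroC811) (hDD : SphQDD0C811) : ClassR1C := by
  intro e m hcont hne hw hmean
  obtain ⟨g₀, hg₀⟩ := hne
  -- left translation: WLOG `e 1 ≠ 0`
  set e' : GR → ℂ := fun g => e (g₀ * g) with he'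
  have hc' : Continuous e' := hcont.comp (continuous_const.mul continuous_id)
  have h1' : e' 1 ≠ 0 := by
    simpa [he'] using hg₀
  have hw' : HasWeight 1 e' := by
    intro θ k g hk
    simp only [he']
    rw [← mul_assoc]
    exact hw θ k (g₀ * g) hk
  have hm' : MeanEig 1 e' m := by
    intro t ht Y hY g
    have := hmean t ht Y hY (g₀ * g)
    simp only [he']
    simpa [mul_assoc] using this
  -- the given eigenvalue function
  have hall := hExt 1 e' m hc' hw' hm'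
  have hMs : ContDiff ℝ 2 (mExt811 m) := hSm 1 e' (mExt811 m) hc' h1' hw' hall
  have hMp : ProdForm811 (mExt811 m) := hPr e' (mExt811 m) hc' h1' hw' hall
  have hode := hOde (mExt811 m) hMs hMp
  -- the parameter
  obtain ⟨s, hs⟩ : ∃ s : ℂ, s ^ 2 = 1 / 2 + deriv (deriv (mExt811 m)) 0 / (Real.pi : ℂ) :=
    IsAlgClosed.exists_pow_nat_eq _ (by norm_num)
  -- the model
  obtain ⟨es, hesc, hes1, hesw, hesm⟩ := hFam s
  have halls := hExt 1 es _ hesc hesw hesm
  have hMeq : mExt811 (fun t => ((2 * Real.pi : ℝ) : ℂ) * sphQ s t)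
      = fun t => ((2 * Real.pi : ℝ) : ℂ) * sphQ s t := by
    funext t
    unfold mExt811
    split_ifs with h1 h2
    · rfl
    · simp only [h2, hZ s, mul_one]
    · simp only [hEv s t]
  rw [hMeq] at halls
  have hSs : ContDiff ℝ 2 (fun t => ((2 * Real.pi : ℝ) : ℂ) * sphQ s t) :=
    hSm 1 es _ hesc hes1 hesw halls
  have hPs : ProdForm811 (fun t => ((2 * Real.pi : ℝ) : ℂ) * sphQ s t) :=
    hPr es _ hesc hes1 hesw halls
  have hodes := hOde _ hSs hPs
  have hdd : deriv (deriv (fun t => ((2 * Real.pi : ℝ) : ℂ) * sphQ s t)) 0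
      = ((2 * Real.pi : ℝ) : ℂ) * (s ^ 2 / 2 - 1 / 4) := by
    have e1 : deriv (fun t => ((2 * Real.pi : ℝ) : ℂ) * sphQ s t)
        = fun t => ((2 * Real.pi : ℝ) : ℂ) * deriv (fun t => sphQ s t) t := by
      funext t
      exact deriv_const_mul_field _
    rw [e1, deriv_const_mul_field, hDD s]
  have hpi : (Real.pi : ℂ) ≠ 0 := by exact_mod_cast Real.pi_ne_zero
  have hμ : (1 / 2 - deriv (deriv (fun t => ((2 * Real.pi : ℝ) : ℂ) * sphQ s t)) 0 / (Real.pi : ℂ))
      = 1 / 2 - deriv (deriv (mExt811 m)) 0 / (Real.pi : ℂ) := by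
    have hs' : deriv (deriv (mExt811 m)) 0 / (Real.pi : ℂ) = s ^ 2 - 1 / 2 := by
      rw [hs]
      ring
    rw [hdd, hs']
    push_cast
    field_simp
    ring
  rw [hμ] at hodes
  -- uniqueness
  have hev1 : ∀ x, gOf811 (mExt811 m) (-x) = gOf811 (mExt811 m) x :=
    gOf_neg811 (mExt_neg811 m)
  have hev2 : ∀ x, gOf811 (fun t => ((2 * Real.pi : ℝ) : ℂ) * sphQ s t) (-x)
      = gOf811 (fun t => ((2 * Real.pi : ℝ) : ℂ) * sphQ s t) x :=
    gOf_neg811 (fun t => by simp only [hEv s t])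
  have h0 : gOf811 (mExt811 m) 0 = gOf811 (fun t => ((2 * Real.pi : ℝ) : ℂ) * sphQ s t) 0 := by
    unfold gOf811
    simp only [mExt_zero811, hZ s, mul_one]
  have huniq := hUn _ _ _ (contDiff_gOf811 hMs) (contDiff_gOf811 hSs) h0
    (deriv_zero_of_even811 hev1) (deriv_zero_of_even811 hev2) hode hodes
  refine ⟨s, fun t ht => ?_⟩
  have h := huniq t ht.le
  unfold gOf811 at h
  have hd := denom_ne_zero811 t
  have h' : mExt811 m t = ((2 * Real.pi : ℝ) : ℂ) * sphQ s t := by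
    field_simp at h
    exact h
  rw [mExt_pos811 m ht] at h'
  rw [h']

end Fermat.Agent.LT.T6.Inf.H811

end

end
-- ===== PACK-END LT/T6/Inf/H811/ClassCut.lean

-- ===== PACK-BEGIN LT/T7/H159/GoodUnitTw.lean
section





/-!
# Row LT, tower T7, asset for the field `matched` of `SupplyC` / `FamC` (helper159), OFF-MAIN

**GOOD UNITS, TWISTED (inert place).**  `k'/k` unramified of prime degree `l` with generator
`s`; `δ ∈ GL₂(𝒪')` with `disc (N δ) ∈ 𝒪'^×`.

* `twCent_compact159` (elementary): the maximal compact subgroup of the twisted centraliser of a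
  `y ∈ GL₂(𝒪')` with `disc (N y)` a unit lies in `GL₂(𝒪')` (it commutes with the good unit `N y`);
  `cIndex_goodUnit_tw159`: the index of `T6` is `1`;
* `unitOrb_up159`: the twisted orbit sum of the unit `1_{GL₂(𝒪')}` at `δ` is `1`
  (`T6.FundLemmaC` for the unit + `unitOrb_down159` at the companion matrix of `N δ`);
* `goodUnit_up159`: `x⁻¹ δ s(x) ∈ GL₂(𝒪')` ⇒ `x = t u`, `t` in the twisted centraliser of `δ`,
  `u ∈ GL₂(𝒪')`: the support of `x ↦ 1_{GL₂(𝒪')}(x⁻¹ δ s(x))` is `T'_δ GL₂(𝒪')`.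

The Props of `T6` are HYPOTHESES (`FundLemmaC`, `OrbSumExC`, `NormClassC`; all closed in
`T6/Closed.lean` of helper22).
-/

set_option autoImplicit false

open scoped Matrix

noncomputable section

namespace Fermat.Agent.LT.T7.H159

open Fermat.Agent.LT.T6

/-! ## 1. The compact part of the twisted centraliser -/

section Tw

variable {k : Type} [Field k] [Valued k Γ₀]

/-- The twisted norm of an element of `GL₂(𝒪)` lies in `GL₂(𝒪)`. -/
theorem inU_twNorm159 (s : k ≃+* k) (hv : ∀ y : k, Valued.v (s y) = Valued.v y) (n : ℕ)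
    (y : GL (Fin 2) k) (hy : InU 0 y) : InU 0 (twNorm s n y) := by
  induction n with
  | zero =>
    show InU 0 (1 : GL (Fin 2) k)
    exact inU_zero_of_det159 1 (fun i j => H687.v_one_apply_le_one_h687 i j) (by simp)
  | succ n ih =>
    show InU 0 (y * glAut s (twNorm s n y))
    exact H944.inU_mul944 0 _ _ hy (H944.inU_glAut944 s hv 0 _ ih)

omit [Valued k Γ₀] in
/-- An element of the twisted centraliser of `y` commutes with `N y`. -/
theorem comm_of_inTwCent159 (s : k ≃+* k) {l : ℕ} (hord : ∀ y : k, (s ^ l) y = y)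
    (y t : GL (Fin 2) k) (ht : InTwCent s y t) : t * twNorm s l y = twNorm s l y * t := by
  have h := H848.twNorm_twConj848 s hord t y
  unfold InTwCent at ht
  rw [ht] at h
  calc t * twNorm s l y = t * (t⁻¹ * twNorm s l y * t) := by rw [← h]
    _ = twNorm s l y * t := by group

/-- **The maximal compact subgroup of the twisted centraliser of a good unit lies in
`GL₂(𝒪)`.** -/
theorem twCent_compact159 (s : k ≃+* k) (hv : ∀ y : k, Valued.v (s y) = Valued.v y) {l : ℕ}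
    (hord : ∀ y : k, (s ^ l) y = y) (y t : GL (Fin 2) k) (hy : InU 0 y)
    (hd : Valued.v (disc (twNorm s l y)) = 1) (ht : InTwCentC s y t) : InU 0 t :=
  cent_compact159 (twNorm s l y) t (inU_twNorm159 s hv l y hy) hd
    (comm_of_inTwCent159 s hord y t ht.1) ht.2.1 ht.2.2

/-- **`[T'^c : T'^c ∩ GL₂(𝒪)] = 1` at a twisted good unit.** -/
theorem cIndex_goodUnit_tw159 (s : k ≃+* k) (hv : ∀ y : k, Valued.v (s y) = Valued.v y) {l : ℕ}
    (hord : ∀ y : k, (s ^ l) y = y) (y : GL (Fin 2) k) (hy : InU 0 y)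
    (hd : Valued.v (disc (twNorm s l y)) = 1) :
    cIndex (InU 0) (InTwCentC s) y = 1 := by
  have hset : {c : Set (GL (Fin 2) k) | ∃ t : GL (Fin 2) k,
      InTwCentC s y t ∧ c = {g | ∃ u : GL (Fin 2) k, InU 0 u ∧ g = t * u}}
      = {{g : GL (Fin 2) k | InU 0 g}} := by
    ext c
    simp only [Set.mem_ofPred_eq, Set.mem_singleton_iff]
    constructor
    · rintro ⟨t, htc, rfl⟩
      have htU : InU 0 t := twCent_compact159 s hv hord y t hy hd htc
      ext g
      simp only [Set.mem_ofPred_eq]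
      constructor
      · rintro ⟨u, hu, rfl⟩
        exact H944.inU_mul944 0 _ _ htU hu
      · intro hg
        exact ⟨t⁻¹ * g, H944.inU_mul944 0 _ _ (H944.inU_inv944 0 _ htU) hg, by group⟩
    · rintro rfl
      refine ⟨1, ⟨?_, ?_, ?_⟩, ?_⟩
      · unfold InTwCent
        rw [map_one]
        group
      · rw [Units.val_one, Matrix.trace_one]
        simpa using v_two_le_one159 (k := k)
      · simp
      · ext g
        simp
  unfold cIndex
  rw [hset, Set.ncard_singleton]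

/-! ## 2. The unit of the Hecke algebra -/

/-- The unit of the spherical Hecke algebra, as a function of the Cartan invariant. -/
def unitFn159 : (ℤ × ℤ) →₀ ℂ := Finsupp.single (0, 0) 1

theorem isDominant_unitFn159 : IsDominant unitFn159 := by
  intro lam hlam
  have : lam = (0, 0) := by
    by_contra hne
    have : unitFn159 lam = 0 := by
      unfold unitFn159
      rw [Finsupp.single_apply, if_neg (Ne.symm hne)]
    exact (Finsupp.mem_support_iff.1 hlam) this
  rw [this]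

theorem isBC_unitFn159 (l q : ℕ) : _root_.Fermat.Agent.LT.T6.IsBC l q unitFn159 unitFn159 := by
  intro x y _ _
  unfold unitFn159
  rw [Finsupp.sum_single_index (by simp), Finsupp.sum_single_index (by simp)]
  simp [satake, satPoly]

theorem entryMax_ne_zero159 (g : GL (Fin 2) k) : entryMax g ≠ 0 := by
  intro h0
  have hz : ∀ i j : Fin 2, (g : Matrix (Fin 2) (Fin 2) k) i j = 0 := by
    intro i j
    have := H687.v_entry_le_entryMax_h687 g i j
    rw [h0] at this
    exact (Valuation.zero_iff _).1 (le_antisymm this zero_le)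
  have hdet : (g : Matrix (Fin 2) (Fin 2) k).det = 0 := by
    rw [Matrix.det_fin_two, hz 0 0, hz 0 1]
    ring
  have hunit : IsUnit (g : Matrix (Fin 2) (Fin 2) k).det :=
    (Matrix.isUnit_iff_isUnit_det _).1 (Units.isUnit g)
  rw [hdet] at hunit
  exact not_isUnit_zero hunit

theorem inU_of_cartan159 (g : GL (Fin 2) k) (h : cartan g = (0, 0)) : InU 0 g := by
  unfold cartan at h
  have h2 : WithZero.log (entryMax g) = 0 := by
    have := congrArg Prod.snd h
    simpa using this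
  have h1 : WithZero.log (Valued.v (g : Matrix (Fin 2) (Fin 2) k).det) = 0 := by
    have := congrArg Prod.fst h
    simp only [h2, zero_sub, neg_eq_zero] at this
    exact this
  have hE : entryMax g = 1 := by
    have := WithZero.exp_log (entryMax_ne_zero159 g)
    rw [h2, WithZero.exp_zero] at this
    exact this.symm
  have hdet0 : Valued.v (g : Matrix (Fin 2) (Fin 2) k).det ≠ 0 := by
    rw [Valuation.ne_zero_iff]
    exact ((Matrix.isUnit_iff_isUnit_det _).1 (Units.isUnit g)).ne_zero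
  have hD : Valued.v (g : Matrix (Fin 2) (Fin 2) k).det = 1 := by
    have := WithZero.exp_log hdet0
    rw [h1, WithZero.exp_zero] at this
    exact this.symm
  refine inU_zero_of_det159 g (fun i j => ?_) hD
  rw [← hE]
  exact H687.v_entry_le_entryMax_h687 g i j

theorem cartan_of_inU159 (g : GL (Fin 2) k) (h : InU 0 g) : cartan g = (0, 0) := by
  have h1 : cartan (g * 1 * 1) = cartan (1 : GL (Fin 2) k) :=
    H687.cartan_mul_mul_h687 1 h (inU_zero_of_det159 1
      (fun i j => H687.v_one_apply_le_one_h687 i j) (by simp))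
  rw [mul_one, mul_one] at h1
  rw [h1]
  have hE : entryMax (1 : GL (Fin 2) k) = 1 := by
    unfold entryMax
    apply le_antisymm
    · refine Finset.sup'_le _ _ fun p _ => ?_
      exact H687.v_one_apply_le_one_h687 p.1 p.2
    · refine le_trans ?_ (Finset.le_sup' _ (Finset.mem_univ ((0 : Fin 2), (0 : Fin 2))))
      simp
  unfold cartan
  rw [hE]
  simp

/-- The unit as a function on `GL₂(k)`: the characteristic function of `GL₂(𝒪)`. -/
theorem unitFn_apply159 (g : GL (Fin 2) k) [Decidable (InU 0 g)] :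
    unitFn159 (cartan g) = if InU 0 g then 1 else 0 := by
  unfold unitFn159
  split_ifs with h
  · rw [cartan_of_inU159 g h, Finsupp.single_eq_same]
  · rw [Finsupp.single_apply, if_neg]
    intro hc
    exact h (inU_of_cartan159 g hc.symm)

theorem inU_of_unitFn_ne159 (g : GL (Fin 2) k) (h : unitFn159 (cartan g) ≠ 0) : InU 0 g := by
  apply inU_of_cartan159
  by_contra hne
  apply h
  unfold unitFn159
  rw [Finsupp.single_apply, if_neg]
  exact fun hc => hne hc.symm

theorem unitFn_of_inU159 (g : GL (Fin 2) k) (h : InU 0 g) : unitFn159 (cartan g) = 1 := by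
  rw [cartan_of_inU159 g h]
  unfold unitFn159
  rw [Finsupp.single_eq_same]

theorem isBiInv_unit159 :
    IsBiInv (InU 0) (fun g : GL (Fin 2) k => unitFn159 (cartan g)) := by
  intro u u' g hu hu'
  show unitFn159 (cartan (u * g * u')) = unitFn159 (cartan g)
  rw [H687.cartan_mul_mul_h687 g hu hu']

theorem hasFinSupp_unit159 :
    HasFinSupp (InU 0) (fun g : GL (Fin 2) k => unitFn159 (cartan g)) := by
  refine ⟨{1}, fun g hg => ⟨1, by simp, g, inU_of_unitFn_ne159 g hg, by simp⟩⟩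

/-- **The orbital integral of the unit at a good unit is `1`** (the orbit sum exists). -/
theorem isOrbSum_unit159 (γ : GL (Fin 2) k) (hγ : InU 0 γ) (hd : Valued.v (disc γ) = 1) :
    IsOrbSum 0 (fun g : GL (Fin 2) k => unitFn159 (cartan g)) γ 1 := by
  refine ⟨{γ}, ?_, ?_, ?_, ?_⟩
  · intro y hy
    rw [Finset.mem_singleton] at hy
    exact ⟨1, by rw [hy, map_one]; group⟩
  · intro y hy y' hy' _
    rw [Finset.mem_singleton] at hy hy'
    rw [hy, hy']
  · rintro y ⟨x, rfl⟩ hne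
    rw [glAut_refl159] at hne ⊢
    obtain ⟨t, u, htγ, hu, rfl⟩ := goodUnit_down159 γ x hγ hd (inU_of_unitFn_ne159 _ hne)
    refine ⟨γ, Finset.mem_singleton_self _, u, hu, ?_⟩
    rw [glAut_refl159]
    calc (t * u)⁻¹ * γ * (t * u) = u⁻¹ * (t⁻¹ * (γ * t)) * u := by group
      _ = u⁻¹ * (t⁻¹ * (t * γ)) * u := by rw [htγ]
      _ = u⁻¹ * γ * u := by group
  · rw [Finset.sum_singleton, cIndex_goodUnit159 γ hγ hd]
    show (1 : ℂ) = unitFn159 (cartan γ) * ((1 : ℕ) : ℂ)
    rw [unitFn_of_inU159 γ hγ]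
    simp

end Tw

/-! ## 3. The companion matrix -/

section Comp

variable {k : Type} [Field k]

/-- The companion matrix of `X² - τ X + Δ` as an element of `GL₂(k)`. -/
def compGL159 (τ Δ : k) (hΔ : Δ ≠ 0) : GL (Fin 2) k :=
  Matrix.GeneralLinearGroup.mkOfDetNeZero !![0, -Δ; 1, τ] (by
    rw [Matrix.det_fin_two_of]
    simpa using hΔ)

theorem compGL_coe159 (τ Δ : k) (hΔ : Δ ≠ 0) :
    (compGL159 τ Δ hΔ : Matrix (Fin 2) (Fin 2) k) = !![0, -Δ; 1, τ] := rfl

theorem det_ne_zero159 (γ : GL (Fin 2) k) : (γ : Matrix (Fin 2) (Fin 2) k).det ≠ 0 :=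
  ((Matrix.isUnit_iff_isUnit_det _).1 (Units.isUnit γ)).ne_zero

/-- A cyclic vector over a field: `γ` with non-zero discriminant. -/
theorem exists_cyclic_field159 (γ : GL (Fin 2) k) (hd : disc γ ≠ 0) :
    ∃ w : Fin 2 → k, (colMat159 (γ : Matrix (Fin 2) (Fin 2) k) w).det ≠ 0 := by
  by_cases h1 : (γ : Matrix (Fin 2) (Fin 2) k) 1 0 = 0
  · by_cases h2 : (γ : Matrix (Fin 2) (Fin 2) k) 0 1 = 0
    · refine ⟨![1, 1], ?_⟩
      rw [det_colMat159]
      intro h0
      apply hd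
      rw [disc_eq159, h1, h2]
      simp only [Matrix.cons_val_zero, Matrix.cons_val_one, h1, h2] at h0
      have : (γ : Matrix (Fin 2) (Fin 2) k) 0 0 - (γ : Matrix (Fin 2) (Fin 2) k) 1 1 = 0 := by
        linear_combination -h0
      rw [this]
      ring
    · refine ⟨![0, 1], ?_⟩
      rw [det_colMat159]
      simpa using h2
  · refine ⟨![1, 0], ?_⟩
    rw [det_colMat159]
    simpa using h1

/-- A regular element is conjugate to the companion matrix of its characteristic polynomial. -/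
theorem isConj_comp159 (γ : GL (Fin 2) k) (hd : disc γ ≠ 0) :
    IsConj γ (compGL159 (γ : Matrix (Fin 2) (Fin 2) k).trace (γ : Matrix (Fin 2) (Fin 2) k).det
      (det_ne_zero159 γ)) := by
  obtain ⟨w, hw⟩ := exists_cyclic_field159 γ hd
  set P : GL (Fin 2) k := Matrix.GeneralLinearGroup.mkOfDetNeZero _ hw with hP
  rw [isConj_iff]
  refine ⟨P⁻¹, ?_⟩
  have h : γ * P = P * compGL159 (γ : Matrix (Fin 2) (Fin 2) k).trace
      (γ : Matrix (Fin 2) (Fin 2) k).det (det_ne_zero159 γ) := by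
    apply Units.ext
    rw [Units.val_mul, Units.val_mul]
    exact mul_colMat159 _ w
  rw [inv_inv, mul_assoc, h]
  group

theorem trace_isConj159 {a b : GL (Fin 2) k} (h : IsConj a b) :
    (b : Matrix (Fin 2) (Fin 2) k).trace = (a : Matrix (Fin 2) (Fin 2) k).trace := by
  obtain ⟨c, rfl⟩ := isConj_iff.1 h
  rw [Units.val_mul, Units.val_mul, Matrix.trace_mul_comm, ← mul_assoc, ← Units.val_mul,
    inv_mul_cancel, Units.val_one, one_mul]

theorem det_isConj159 {a b : GL (Fin 2) k} (h : IsConj a b) :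
    (b : Matrix (Fin 2) (Fin 2) k).det = (a : Matrix (Fin 2) (Fin 2) k).det := by
  obtain ⟨c, rfl⟩ := isConj_iff.1 h
  rw [Units.val_mul, Units.val_mul, Matrix.det_mul, Matrix.det_mul, mul_comm, ← mul_assoc,
    ← Matrix.det_mul, ← Units.val_mul, inv_mul_cancel, Units.val_one, Matrix.det_one, one_mul]

theorem disc_isConj159 {a b : GL (Fin 2) k} (h : IsConj a b) : disc b = disc a := by
  simp only [disc, trace_isConj159 h, det_isConj159 h]

theorem trace_map159 {k' : Type} [Field k'] (i : k →+* k') (γ : GL (Fin 2) k) :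
    ((Matrix.GeneralLinearGroup.map i γ : GL (Fin 2) k') : Matrix (Fin 2) (Fin 2) k').trace
      = i (γ : Matrix (Fin 2) (Fin 2) k).trace := by
  simp [Matrix.trace_fin_two, Matrix.GeneralLinearGroup.map]

theorem det_map159 {k' : Type} [Field k'] (i : k →+* k') (γ : GL (Fin 2) k) :
    ((Matrix.GeneralLinearGroup.map i γ : GL (Fin 2) k') : Matrix (Fin 2) (Fin 2) k').det
      = i (γ : Matrix (Fin 2) (Fin 2) k).det := by
  simp [Matrix.det_fin_two, Matrix.GeneralLinearGroup.map]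

theorem disc_map159 {k' : Type} [Field k'] (i : k →+* k') (γ : GL (Fin 2) k) :
    disc (Matrix.GeneralLinearGroup.map i γ) = i (disc γ) := by
  simp only [disc, trace_map159, det_map159, map_sub, map_pow, map_mul, map_ofNat]

end Comp

/-! ## 4. The twisted orbit sum of the unit at a good unit; the support -/

section Up

variable {k k' : Type} [Field k] [Field k'] [Valued k Γ₀] [Valued k' Γ₀]

/-- The companion matrix downstairs of the norm of a twisted good unit: a good unit of `GL₂(k)`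
whose image is conjugate to `N δ`. -/
theorem exists_goodUnit_norm159 (hNC : NormClassC) (l : ℕ) (i : k →+* k') (s : k' ≃+* k')
    (hext : IsLocalExt k k' l 1 i s) (δ : GL (Fin 2) k') (hδ : InU 0 δ)
    (hd : Valued.v (disc (twNorm s l δ)) = 1) :
    ∃ γ : GL (Fin 2) k, InU 0 γ ∧ Valued.v (disc γ) = 1 ∧
      IsConj (twNorm s l δ) (Matrix.GeneralLinearGroup.map i γ) := by
  obtain ⟨γ₁, hγ₁⟩ := hNC k k' l i s hext.cyc δ
  have hvi : ∀ x : k, Valued.v (i x) = Valued.v x := fun x => by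
    rw [hext.val_i, pow_one]
  have hN : InU 0 (twNorm s l δ) := inU_twNorm159 s hext.val_s l δ hδ
  have hdisc1 : Valued.v (disc γ₁) = 1 := by
    rw [← hvi, ← disc_map159, disc_isConj159 hγ₁, hd]
  have hdne : disc γ₁ ≠ 0 := by
    intro h0
    rw [h0, Valuation.map_zero] at hdisc1
    exact zero_ne_one hdisc1
  have htr : Valued.v (γ₁ : Matrix (Fin 2) (Fin 2) k).trace ≤ 1 := by
    rw [← hvi, ← trace_map159, trace_isConj159 hγ₁, Matrix.trace_fin_two]
    exact (Valuation.map_add _ _ _).trans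
      (max_le (H687.entry_le_one_of_inU_h687 hN 0 0) (H687.entry_le_one_of_inU_h687 hN 1 1))
  have hdet : Valued.v (γ₁ : Matrix (Fin 2) (Fin 2) k).det = 1 := by
    rw [← hvi, ← det_map159, det_isConj159 hγ₁]
    exact H687.v_det_eq_one_of_inU_h687 hN
  have hconj := isConj_comp159 γ₁ hdne
  set γc := compGL159 (γ₁ : Matrix (Fin 2) (Fin 2) k).trace (γ₁ : Matrix (Fin 2) (Fin 2) k).det
    (det_ne_zero159 γ₁) with hγc
  refine ⟨γc, ?_, ?_, ?_⟩
  · refine inU_zero_of_det159 γc ?_ ?_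
    · intro a b
      rw [hγc, compGL_coe159]
      fin_cases a <;> fin_cases b
      · simp
      · simpa using le_of_eq hdet
      · simp
      · simpa using htr
    · rw [det_isConj159 hconj]
      exact hdet
  · rw [disc_isConj159 hconj]
    exact hdisc1
  · exact hγ₁.trans (MonoidHom.map_isConj _ hconj)

/-- **The twisted orbit sum of the unit at a twisted good unit is `1`.** -/
theorem unitOrb_up159 (hFL : FundLemmaC) (hNC : NormClassC) (q l : ℕ) (i : k →+* k')
    (s : k' ≃+* k') (hk : IsLocalField k q) (hk' : IsLocalField k' (q ^ l))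
    (hext : IsLocalExt k k' l 1 i s) (hl : l.Prime) (δ : GL (Fin 2) k') (hδ : InU 0 δ)
    (hd : Valued.v (disc (twNorm s l δ)) = 1) (c : ℂ)
    (hc : IsTwOrbSum s 0 (fun g : GL (Fin 2) k' => unitFn159 (cartan g)) δ c) : c = 1 := by
  obtain ⟨γ, hγ, hdγ, hconj⟩ := exists_goodUnit_norm159 hNC l i s hext δ hδ hd
  have hreg : IsReg γ := by
    unfold IsReg
    rw [isUnit_iff_ne_zero]
    intro h0
    rw [h0, Valuation.map_zero] at hdγ
    exact zero_ne_one hdγ
  exact hFL.1 k k' q l i s hk hk' hext hl unitFn159 unitFn159 isDominant_unitFn159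
    isDominant_unitFn159 (isBC_unitFn159 l q) δ γ c 1 hreg trivial hconj hc
    (isOrbSum_unit159 γ hγ hdγ)

/-- **GOOD UNIT, twisted support form.**  `δ ∈ GL₂(𝒪')` with `disc (N δ)` a unit,
`x⁻¹ δ s(x) ∈ GL₂(𝒪')`: then `x = t u` with `t` in the twisted centraliser of `δ` and
`u ∈ GL₂(𝒪')`. -/
theorem goodUnit_up159 (hFL : FundLemmaC) (hEx : OrbSumExC) (hNC : NormClassC) (q l : ℕ)
    (i : k →+* k') (s : k' ≃+* k') (hk : IsLocalField k q) (hk' : IsLocalField k' (q ^ l))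
    (hext : IsLocalExt k k' l 1 i s) (hl : l.Prime) (δ : GL (Fin 2) k') (hδ : InU 0 δ)
    (hd : Valued.v (disc (twNorm s l δ)) = 1) (x : GL (Fin 2) k')
    (hx : InU 0 (x⁻¹ * δ * glAut s x)) :
    ∃ t u : GL (Fin 2) k', InTwCent s δ t ∧ InU 0 u ∧ x = t * u := by
  classical
  have hord : ∀ y : k', (s ^ l) y = y := hext.cyc.order
  have hregN : IsReg (twNorm s l δ) := by
    unfold IsReg
    rw [isUnit_iff_ne_zero]
    intro h0
    rw [h0, Valuation.map_zero] at hd
    exact zero_ne_one hd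
  have hk'' : IsLocalField k' (q ^ (l / 1)) := by rwa [Nat.div_one]
  obtain ⟨c, hc⟩ := hEx k k' q l 1 i s hk hk'' hext 0 _ (isBiInv_unit159 (k := k'))
    hasFinSupp_unit159 δ hregN
  have hc1 : c = 1 := unitOrb_up159 hFL hNC q l i s hk hk' hext hl δ hδ hd c hc
  obtain ⟨R, hR1, hR2, hR3, hsum⟩ := hc
  -- the terms of the sum
  have hterm : ∀ y ∈ R, unitFn159 (cartan y) * (cIndex (InU 0) (InTwCentC s) y : ℂ)
      = if unitFn159 (cartan y) ≠ 0 then 1 else 0 := by
    intro y hy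
    by_cases h0 : unitFn159 (cartan y) = 0
    · rw [if_neg (not_not.2 h0), h0, zero_mul]
    · have hyU : InU 0 y := inU_of_unitFn_ne159 y h0
      obtain ⟨z, rfl⟩ := hR1 y hy
      have hdy : Valued.v (disc (twNorm s l (z⁻¹ * δ * glAut s z))) = 1 := by
        rw [H848.twNorm_twConj848 s hord, disc_conj159, hd]
      rw [if_pos h0, cIndex_goodUnit_tw159 s hext.val_s hord _ hyU hdy, unitFn_of_inU159 _ hyU]
      simp
  have hcard : (R.filter fun y => unitFn159 (cartan y) ≠ 0).card = 1 := by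
    have h1 : (1 : ℂ) = ((R.filter fun y => unitFn159 (cartan y) ≠ 0).card : ℂ) := by
      rw [← hc1, hsum, Finset.sum_congr rfl hterm, Finset.sum_ite, Finset.sum_const_zero,
        add_zero, Finset.sum_const, nsmul_eq_mul, mul_one]
    exact_mod_cast h1.symm
  obtain ⟨a, ha⟩ := Finset.card_eq_one.1 hcard
  -- the class of `δ`
  have hφδ : unitFn159 (cartan δ) ≠ 0 := by
    rw [unitFn_of_inU159 δ hδ]
    exact one_ne_zero
  obtain ⟨y₀, hy₀, u₀, hu₀, hδy⟩ := hR3 δ ⟨1, by rw [map_one]; group⟩ hφδ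
  have hφx : unitFn159 (cartan (x⁻¹ * δ * glAut s x)) ≠ 0 := by
    rw [unitFn_of_inU159 _ hx]
    exact one_ne_zero
  obtain ⟨y₁, hy₁, u₁, hu₁, hxy⟩ := hR3 _ ⟨x, rfl⟩ hφx
  have hsu : ∀ u : GL (Fin 2) k', InU 0 u → InU 0 (glAut s u) := fun u hu =>
    H944.inU_glAut944 s hext.val_s 0 u hu
  have hy₀U : unitFn159 (cartan y₀) ≠ 0 := by
    have e : y₀ = u₀ * δ * (glAut s u₀)⁻¹ := by
      rw [hδy]
      group
    rw [e, unitFn_of_inU159]
    · exact one_ne_zero
    · exact H944.inU_mul944 0 _ _ (H944.inU_mul944 0 _ _ hu₀ hδ)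
        (H944.inU_inv944 0 _ (hsu u₀ hu₀))
  have hy₁U : unitFn159 (cartan y₁) ≠ 0 := by
    have e : y₁ = u₁ * (x⁻¹ * δ * glAut s x) * (glAut s u₁)⁻¹ := by
      rw [hxy]
      group
    rw [e, unitFn_of_inU159]
    · exact one_ne_zero
    · exact H944.inU_mul944 0 _ _ (H944.inU_mul944 0 _ _ hu₁ hx)
        (H944.inU_inv944 0 _ (hsu u₁ hu₁))
  have hm₀ : y₀ ∈ R.filter fun y => unitFn159 (cartan y) ≠ 0 :=
    Finset.mem_filter.2 ⟨hy₀, hy₀U⟩
  have hm₁ : y₁ ∈ R.filter fun y => unitFn159 (cartan y) ≠ 0 :=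
    Finset.mem_filter.2 ⟨hy₁, hy₁U⟩
  rw [ha, Finset.mem_singleton] at hm₀ hm₁
  have hy01 : y₁ = y₀ := hm₁.trans hm₀.symm
  -- the element of the twisted centraliser
  have hy₀e : y₀ = u₀ * δ * (glAut s u₀)⁻¹ := by
    rw [hδy]
    group
  refine ⟨x * (u₀⁻¹ * u₁)⁻¹, u₀⁻¹ * u₁, ?_,
    H944.inU_mul944 0 _ _ (H944.inU_inv944 0 _ hu₀) hu₁, by group⟩
  unfold InTwCent
  have e1 : x⁻¹ * δ * glAut s x = (u₀⁻¹ * u₁)⁻¹ * δ * glAut s (u₀⁻¹ * u₁) := by
    rw [hxy, hy01, hy₀e]
    simp only [map_mul, map_inv]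
    group
  calc (x * (u₀⁻¹ * u₁)⁻¹)⁻¹ * δ * glAut s (x * (u₀⁻¹ * u₁)⁻¹)
      = (u₀⁻¹ * u₁) * (x⁻¹ * δ * glAut s x) * (glAut s (u₀⁻¹ * u₁))⁻¹ := by
        simp only [map_mul, map_inv]
        group
    _ = δ := by
        rw [e1]
        group

end Up

end Fermat.Agent.LT.T7.H159

end

end
-- ===== PACK-END LT/T7/H159/GoodUnitTw.lean

-- ===== PACK-BEGIN LT/T7/H159/GoodUnitSplit.lean
section





/-!
# Row LT, tower T7, asset for the field `matched` of `SupplyC` / `FamC` (helper159), OFF-MAIN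

**GOOD UNITS, SPLIT PLACE.**  On `GL₂(k)^l` with the cyclic shift (`T6.shiftHom l`, the
vocabulary of `T6.SplitMatchC` / `T6.IsSplitOrbSum`): `δ = (δ_j)` with `δ_j ∈ GL₂(𝒪)` and
`disc (δ_0 δ_1 ⋯ δ_{l-1}) ∈ 𝒪^×`.

* `goodUnit_split159`: if every component of `x⁻¹ δ s(x)` lies in `GL₂(𝒪)` then `x = t u` with
  `t` in the twisted centraliser of `δ` and every `u_j ∈ GL₂(𝒪)`;
* `splitCent_compact159`: the maximal compact subgroup of the twisted centraliser of such a
  `δ` (the predicate of `T6.IsSplitOrbSum`) lies in `GL₂(𝒪)^l`.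

Elementary (from `goodUnit_down159`, `cent_compact159` at the norm).
-/

set_option autoImplicit false

open scoped Matrix

noncomputable section

namespace Fermat.Agent.LT.T7.H159

open Fermat.Agent.LT.T6

section Split

variable {k : Type} [Field k] [Valued k Γ₀] {l : ℕ} [NeZero l]

/-- The `n`-th successor in `Fin l` (cyclic). -/
def succN159 (n : ℕ) (j : Fin l) : Fin l := ((fun i : Fin l => i + 1)^[n]) j

theorem succN_val159 (n : ℕ) (j : Fin l) : (succN159 n j).val = (j.val + n) % l := by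
  unfold succN159
  induction n with
  | zero => simp [Nat.mod_eq_of_lt j.isLt]
  | succ n ih =>
    rw [Function.iterate_succ_apply', Fin.val_add, ih]
    have h1 : ((1 : Fin l).val) = 1 % l := Fin.val_one' l
    rw [h1, ← Nat.add_mod, add_assoc]

theorem succN_self159 (j : Fin l) : succN159 l j = j := by
  apply Fin.ext
  rw [succN_val159]
  simp [Nat.mod_eq_of_lt j.isLt]

theorem succN_zero159 (j : Fin l) : succN159 j.val 0 = j := by
  apply Fin.ext
  rw [succN_val159]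
  simp [Nat.mod_eq_of_lt j.isLt]

theorem succN_succ159 (n : ℕ) (j : Fin l) : succN159 (n + 1) j = succN159 n j + 1 := by
  unfold succN159
  rw [Function.iterate_succ_apply']

omit [Valued k Γ₀] in
theorem shift_iterate_apply159 (n : ℕ) (x : Fin l → GL (Fin 2) k) (j : Fin l) :
    ((shiftHom (k := k) l)^[n] x) j = x (succN159 n j) := by
  induction n generalizing j with
  | zero => rfl
  | succ n ih =>
    rw [Function.iterate_succ_apply', succN_succ159]
    show ((shiftHom (k := k) l)^[n] x) (j + 1) = _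
    rw [ih]
    congr 1
    unfold succN159
    rw [← Function.iterate_succ_apply, Function.iterate_succ_apply']

omit [Valued k Γ₀] in
theorem shift_iterate_self159 (x : Fin l → GL (Fin 2) k) :
    ((shiftHom (k := k) l)^[l] x) = x := by
  funext j
  rw [shift_iterate_apply159, succN_self159]

omit [Valued k Γ₀] in
/-- `N_n(x⁻¹ δ s(x))_j = x_j⁻¹ (N_n δ)_j x_{j+n}`. -/
theorem twN_conj_split159 (n : ℕ) (x δ : Fin l → GL (Fin 2) k) (j : Fin l) :
    twN (shiftHom (k := k) l) n (x⁻¹ * δ * shiftHom l x) j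
      = (x j)⁻¹ * twN (shiftHom (k := k) l) n δ j * x (succN159 n j) := by
  rw [H848.twN_twConj848]
  show (x j)⁻¹ * twN (shiftHom (k := k) l) n δ j * ((shiftHom (k := k) l)^[n] x) j = _
  rw [shift_iterate_apply159]

omit [Valued k Γ₀] in
/-- `(N_{n+1} δ)_j = (N_n δ)_j δ_{j+n}`. -/
theorem twN_succ_split159 (n : ℕ) (δ : Fin l → GL (Fin 2) k) (j : Fin l) :
    twN (shiftHom (k := k) l) (n + 1) δ j
      = twN (shiftHom (k := k) l) n δ j * δ (succN159 n j) := by
  rw [H848.twN_succ_right848]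
  show twN (shiftHom (k := k) l) n δ j * ((shiftHom (k := k) l)^[n] δ) j = _
  rw [shift_iterate_apply159]

/-- The components of the twisted norms of an element of `GL₂(𝒪)^l` lie in `GL₂(𝒪)`. -/
theorem inU_twN_split159 (y : Fin l → GL (Fin 2) k) (hy : ∀ j, InU 0 (y j)) (n : ℕ)
    (j : Fin l) : InU 0 (twN (shiftHom (k := k) l) n y j) := by
  induction n generalizing j with
  | zero =>
    show InU 0 (1 : GL (Fin 2) k)
    exact inU_zero_of_det159 1 (fun i j => H687.v_one_apply_le_one_h687 i j) (by simp)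
  | succ n ih =>
    show InU 0 (y j * twN (shiftHom (k := k) l) n y (j + 1))
    exact H944.inU_mul944 0 _ _ (hy j) (ih (j + 1))

/-- **GOOD UNIT, split place, support form.** -/
theorem goodUnit_split159 (δ x : Fin l → GL (Fin 2) k) (hδ : ∀ j, InU 0 (δ j))
    (hd : Valued.v (disc (twN (shiftHom (k := k) l) l δ 0)) = 1)
    (hx : ∀ j, InU 0 ((x⁻¹ * δ * shiftHom l x) j)) :
    ∃ t u : Fin l → GL (Fin 2) k, t⁻¹ * δ * shiftHom l t = δ ∧ (∀ j, InU 0 (u j)) ∧
      x = t * u := by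
  set y : Fin l → GL (Fin 2) k := x⁻¹ * δ * shiftHom l x with hy
  set P : ℕ → GL (Fin 2) k := fun n => twN (shiftHom (k := k) l) n δ 0 with hP
  set Y : ℕ → GL (Fin 2) k := fun n => twN (shiftHom (k := k) l) n y 0 with hY
  have hPU : ∀ n, InU 0 (P n) := fun n => inU_twN_split159 δ hδ n 0
  have hYU : ∀ n, InU 0 (Y n) := fun n => inU_twN_split159 y hx n 0
  -- `x` in terms of `x 0`
  have hxn : ∀ n : ℕ, x (succN159 n 0) = (P n)⁻¹ * x 0 * Y n := by
    intro n
    have h := twN_conj_split159 n x δ 0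
    show x (succN159 n 0) = (twN (shiftHom (k := k) l) n δ 0)⁻¹ * x 0
      * twN (shiftHom (k := k) l) n (x⁻¹ * δ * shiftHom l x) 0
    rw [h]
    group
  have hxj : ∀ j : Fin l, x j = (P j.val)⁻¹ * x 0 * Y j.val := by
    intro j
    have := hxn j.val
    rwa [succN_zero159] at this
  -- the good unit `N δ` at `x 0`
  have hN : InU 0 (P l) := hPU l
  have hconj : InU 0 ((x 0)⁻¹ * P l * x 0) := by
    have h := twN_conj_split159 l x δ 0
    rw [succN_self159] at h
    have := hYU l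
    show InU 0 ((x 0)⁻¹ * twN (shiftHom (k := k) l) l δ 0 * x 0)
    rw [← h]
    exact this
  obtain ⟨t₀, u₀, ht₀, hu₀, hx0⟩ := goodUnit_down159 (P l) (x 0) hN hd hconj
  -- the partial products
  have hPsucc : ∀ j : Fin l, P (j.val + 1) = P j.val * δ j := by
    intro j
    have := twN_succ_split159 j.val δ 0
    rwa [succN_zero159] at this
  refine ⟨fun j => (P j.val)⁻¹ * t₀ * P j.val, fun j => (P j.val)⁻¹ * u₀ * Y j.val, ?_, ?_, ?_⟩
  · funext j
    show ((P j.val)⁻¹ * t₀ * P j.val)⁻¹ * δ j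
      * ((P (j + 1).val)⁻¹ * t₀ * P (j + 1).val) = δ j
    by_cases hj : j.val + 1 < l
    · have hv : (j + 1).val = j.val + 1 := by
        rw [Fin.val_add, Fin.val_one' l, Nat.add_mod_mod, Nat.mod_eq_of_lt hj]
      rw [hv, hPsucc j]
      group
    · have hjl : j.val + 1 = l := by
        have := j.isLt
        omega
      have hv : (j + 1).val = 0 := by
        rw [Fin.val_add, Fin.val_one' l, Nat.add_mod_mod, hjl, Nat.mod_self]
      have hP0 : P 0 = 1 := rfl
      have hPl : P l = P j.val * δ j := by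
        have := hPsucc j
        rwa [hjl] at this
      rw [hv, hP0]
      have e : t₀ * (P j.val * δ j) = (P j.val * δ j) * t₀ := by rw [← hPl, ht₀]
      calc ((P j.val)⁻¹ * t₀ * P j.val)⁻¹ * δ j * ((1 : GL (Fin 2) k)⁻¹ * t₀ * 1)
          = (P j.val)⁻¹ * t₀⁻¹ * ((P j.val * δ j) * t₀) := by group
        _ = (P j.val)⁻¹ * t₀⁻¹ * (t₀ * (P j.val * δ j)) := by rw [e]
        _ = δ j := by group
  · intro j
    exact H944.inU_mul944 0 _ _ (H944.inU_mul944 0 _ _ (H944.inU_inv944 0 _ (hPU j.val)) hu₀)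
      (hYU j.val)
  · funext j
    show x j = ((P j.val)⁻¹ * t₀ * P j.val) * ((P j.val)⁻¹ * u₀ * Y j.val)
    rw [hxj j, hx0]
    group

omit [Valued k Γ₀] in
/-- The norms at the different starting points are conjugate: same discriminant. -/
theorem disc_twN_split159 (y : Fin l → GL (Fin 2) k) (j : Fin l) :
    disc (twN (shiftHom (k := k) l) l y j) = disc (twN (shiftHom (k := k) l) l y 0) := by
  have hstep : ∀ i : Fin l, disc (twN (shiftHom (k := k) l) l y (i + 1))
      = disc (twN (shiftHom (k := k) l) l y i) := by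
    intro i
    have h1 : twN (shiftHom (k := k) l) (l + 1) y i
        = y i * twN (shiftHom (k := k) l) l y (i + 1) := rfl
    have h2 := twN_succ_split159 l y i
    rw [succN_self159] at h2
    have h3 : twN (shiftHom (k := k) l) l y (i + 1)
        = (y i)⁻¹ * twN (shiftHom (k := k) l) l y i * y i := by
      have h4 : y i * twN (shiftHom (k := k) l) l y (i + 1)
          = twN (shiftHom (k := k) l) l y i * y i := h1.symm.trans h2
      calc twN (shiftHom (k := k) l) l y (i + 1)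
          = (y i)⁻¹ * (y i * twN (shiftHom (k := k) l) l y (i + 1)) := by group
        _ = (y i)⁻¹ * twN (shiftHom (k := k) l) l y i * y i := by rw [h4]; group
    rw [h3, disc_conj159]
  have hn : ∀ n : ℕ, disc (twN (shiftHom (k := k) l) l y (succN159 n 0))
      = disc (twN (shiftHom (k := k) l) l y 0) := by
    intro n
    induction n with
    | zero => rfl
    | succ n ih => rw [succN_succ159, hstep, ih]
  have := hn j.val
  rwa [succN_zero159] at this

/-- **The maximal compact subgroup of the twisted centraliser of a split good unit lies in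
`GL₂(𝒪)^l`** (the predicate is the one of `T6.IsSplitOrbSum`). -/
theorem splitCent_compact159 (y t : Fin l → GL (Fin 2) k) (hy : ∀ j, InU 0 (y j))
    (hd : Valued.v (disc (twN (shiftHom (k := k) l) l y 0)) = 1)
    (ht : t⁻¹ * y * shiftHom l t = y)
    (htc : ∀ j, Valued.v ((t j : GL (Fin 2) k) : Matrix (Fin 2) (Fin 2) k).trace ≤ 1 ∧
      Valued.v ((t j : GL (Fin 2) k) : Matrix (Fin 2) (Fin 2) k).det = 1) (j : Fin l) :
    InU 0 (t j) := by
  have h := twN_conj_split159 l t y j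
  rw [ht, succN_self159] at h
  have hcomm : t j * twN (shiftHom (k := k) l) l y j = twN (shiftHom (k := k) l) l y j * t j := by
    calc t j * twN (shiftHom (k := k) l) l y j
        = t j * ((t j)⁻¹ * twN (shiftHom (k := k) l) l y j * t j) := by rw [← h]
      _ = twN (shiftHom (k := k) l) l y j * t j := by group
  refine cent_compact159 (twN (shiftHom (k := k) l) l y j) (t j) (inU_twN_split159 y hy l j) ?_
    hcomm (htc j).1 (htc j).2
  rw [disc_twN_split159, hd]

end Split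

end Fermat.Agent.LT.T7.H159

end

end
-- ===== PACK-END LT/T7/H159/GoodUnitSplit.lean

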