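import Mathlib
import Fermat.Agent.Pack.LT2.E0L1
import Fermat.Agent.Pack.LT3.E4L3
import Fermat.Agent.Pack.LT3.E7L3
import Fermat.Agent.Pack.LT3.E4L1
import Fermat.Agent.Pack.LT3.E10L0
import Fermat.Agent.Pack.LT3.E2L0
import Fermat.Agent.Pack.LT3.E8L0
import Fermat.Agent.Pack.LT3.E7L0
import Fermat.Agent.Pack.LT3.E10L3
import Fermat.Agent.Pack.LT3.E6L3
import Fermat.Agent.Pack.LT3.E2L3
import Fermat.Agent.Pack.LT3.E4L2
import Fermat.Agent.Pack.LT3.E10L1
import Fermat.Agent.Pack.LT2.E7L3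
import Fermat.Agent.Pack.LT2.E3L1
import Fermat.Agent.Pack.LT2.E2L1
import Fermat.Agent.Pack.LT2.E7L2
import Fermat.Agent.Pack.LT3.E12L1

set_option linter.all false

-- ===== PACK-BEGIN LT/T6/H220/UnrNorm.lean
section







/-!
# Row LT, tower T6: UNRAMIFIED CORE, part 5 (the norm is onto the units) -- helper220, OFF-MAIN

In the setting of `T6/Spec.lean` (`IsLocalField k q`, `IsLocalField k' (q ^ l)`,
`IsLocalExt k k' l 1 i s`, `l` prime):

* `val_nm_one_add220`   : `v (N (1 + θ) - 1 - tr θ) ≤ v θ ^ 2` for `v θ ≤ 1`;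
* `norm_units_surj220`  : every unit of `k` is the norm of a unit of `k'`;
* `isNorm_iff220`       : `x ∈ kˣ` is a norm from `k'` iff `l ∣ ord x`.
-/

set_option autoImplicit false

open scoped Valued
open Fermat.Agent.LT.T6 WithZero

noncomputable section

namespace Fermat.Agent.LT.T6.H220

section Pre

variable {k' : Type} [Field k']

theorem pnm_one_add_succ220 (s : k' ≃+* k') (m : ℕ) (θ : k') :
    pnm220 s (m + 1) (1 + θ) = pnm220 s m (1 + θ) * (1 + (s ^ m) θ) := by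
  unfold pnm220
  rw [Finset.prod_range_succ, map_add, map_one]

theorem psum_succ_right220 (s : k' ≃+* k') (m : ℕ) (θ : k') :
    psum220 s (m + 1) θ = psum220 s m θ + (s ^ m) θ := by
  unfold psum220
  rw [Finset.sum_range_succ]

end Pre

section Unr

variable {k k' : Type} [Field k] [Field k'] [Valued k Γ₀] [Valued k' Γ₀]
  {q l : ℕ} {i : k →+* k'} {s : k' ≃+* k'}

/-- **Expansion of the norm**: `N_m (1 + θ) = 1 + tr_m θ + O(θ²)`. -/
theorem val_pnm_one_add220 (hext : IsLocalExt k k' l 1 i s) (θ : k') (hθ : Valued.v θ ≤ 1)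
    (m : ℕ) :
    Valued.v (pnm220 s m (1 + θ) - 1 - psum220 s m θ) ≤ Valued.v θ ^ 2 := by
  induction m with
  | zero => simp [pnm220, psum220]
  | succ m ih =>
    have h1 : Valued.v (pnm220 s m (1 + θ) - 1) ≤ Valued.v θ := by
      have : pnm220 s m (1 + θ) - 1
          = (pnm220 s m (1 + θ) - 1 - psum220 s m θ) + psum220 s m θ := by ring
      rw [this]
      refine (Valued.v.map_add _ _).trans (max_le (ih.trans ?_) (val_psum_le220 hext m θ))
      calc Valued.v θ ^ 2 = Valued.v θ * Valued.v θ := sq _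
        _ ≤ Valued.v θ * 1 := mul_le_mul_right hθ _
        _ = Valued.v θ := mul_one _
    have h2 : pnm220 s (m + 1) (1 + θ) - 1 - psum220 s (m + 1) θ
        = (pnm220 s m (1 + θ) - 1 - psum220 s m θ) + (s ^ m) θ * (pnm220 s m (1 + θ) - 1) := by
      rw [pnm_one_add_succ220, psum_succ_right220]; ring
    rw [h2]
    refine (Valued.v.map_add _ _).trans (max_le ih ?_)
    rw [map_mul, val_pow_s220 s hext.val_s, sq]
    exact mul_le_mul_right h1 _

theorem val_nm_one_add220 (hext : IsLocalExt k k' l 1 i s) (θ : k') (hθ : Valued.v θ ≤ 1) :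
    Valued.v (nm220 s l (1 + θ) - 1 - tr220 s l θ) ≤ Valued.v θ ^ 2 :=
  val_pnm_one_add220 hext θ hθ l

theorem val_nm_one_add_sub_one220 (hext : IsLocalExt k k' l 1 i s) (θ : k')
    (hθ : Valued.v θ ≤ 1) : Valued.v (nm220 s l (1 + θ) - 1) ≤ Valued.v θ := by
  have : nm220 s l (1 + θ) - 1
      = (nm220 s l (1 + θ) - 1 - tr220 s l θ) + tr220 s l θ := by ring
  rw [this]
  refine (Valued.v.map_add _ _).trans
    (max_le ((val_nm_one_add220 hext θ hθ).trans ?_) (val_psum_le220 hext l θ))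
  calc Valued.v θ ^ 2 = Valued.v θ * Valued.v θ := sq _
    _ ≤ Valued.v θ * 1 := mul_le_mul_right hθ _
    _ = Valued.v θ := mul_one _

/-- The norm is `1`-Lipschitz on the units. -/
theorem val_nm_sub_nm220 (hext : IsLocalExt k k' l 1 i s) (L w : k') (hw : Valued.v w = 1)
    (hLw : Valued.v (L - w) ≤ 1) :
    Valued.v (nm220 s l L - nm220 s l w) ≤ Valued.v (L - w) := by
  have hw0 : w ≠ 0 := by
    intro h0; rw [h0, map_zero] at hw; exact zero_ne_one hw
  have h1 : L = w * (1 + (L - w) * w⁻¹) := by field_simp; ring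
  have hv : Valued.v ((L - w) * w⁻¹) = Valued.v (L - w) := by
    rw [map_mul, map_inv₀, hw, inv_one, mul_one]
  have h2 : nm220 s l L - nm220 s l w
      = nm220 s l w * (nm220 s l (1 + (L - w) * w⁻¹) - 1) := by
    conv_lhs => rw [h1, nm_mul220]
    ring
  rw [h2, map_mul, val_nm220 hext, hw, one_pow, one_mul, ← hv]
  exact val_nm_one_add_sub_one220 hext _ (by rw [hv]; exact hLw)

/-- First approximation: the residue norm is onto. -/
theorem exists_norm_approx220 (hk : IsLocalField k q) (hk' : IsLocalField k' (q ^ l))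
    (hext : IsLocalExt k k' l 1 i s) (hl : l.Prime) (x : k) (hx : Valued.v x = 1) :
    ∃ u : k', Valued.v u = 1 ∧ Valued.v (nm220 s l u - i x) ≤ exp (-1 : ℤ) := by
  have hxb : IsLocalRing.residue 𝒪[k] (intMk220 x hx.le) ≠ 0 :=
    (residue_ne_zero_iff220 _).2 hx
  obtain ⟨ub, hub, hN⟩ := resNorm_surj220 hk hk' hext hl _ hxb
  obtain ⟨u, rfl⟩ := IsLocalRing.residue_surjective (R := 𝒪[k']) ub
  refine ⟨u, (residue_ne_zero_iff220 u).1 hub, ?_⟩
  apply le_exp_neg_one_of_lt_one220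
  have h1 := residue_nm220 hext u
  have h2 : pnm220 (sRes220 s hext.val_s) l (IsLocalRing.residue 𝒪[k'] u)
      = ∏ j ∈ Finset.range l, (sRes220 s hext.val_s ^ j) (IsLocalRing.residue 𝒪[k'] u) := rfl
  rw [h2, ← h1, iRes_residue220, residue_eq_iff220] at hN
  exact hN

/-- **The norm is onto the units.** -/
theorem norm_units_surj220 (hk : IsLocalField k q) (hk' : IsLocalField k' (q ^ l))
    (hext : IsLocalExt k k' l 1 i s) (hl : l.Prime) (x : k) (hx : Valued.v x = 1) :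
    ∃ u : k', Valued.v u = 1 ∧ nm220 s l u = i x := by
  have hcomp : CompleteSpace k' := hk'.complete
  obtain ⟨u₀, hu₀, hN₀⟩ := exists_norm_approx220 hk hk' hext hl x hx
  have hix : Valued.v (i x) = 1 := by rw [val_i220 hext, hx]
  have hix0 : i x ≠ 0 := by
    intro h0; rw [h0, map_zero] at hix; exact zero_ne_one hix
  obtain ⟨L, hL0, hL⟩ := approx220 hk'.unif
    (fun n w => Valued.v w = 1 ∧ Valued.v (nm220 s l w - i x) ≤ exp (-((n : ℤ) + 1)))
    (by
      rintro n w ⟨hw, hNw⟩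
      have hnw : Valued.v (nm220 s l w) = 1 := by rw [val_nm220 hext, hw, one_pow]
      have hnw0 : nm220 s l w ≠ 0 := by
        intro h0; rw [h0, map_zero] at hnw; exact zero_ne_one hnw
      have hfix : s (i x * (nm220 s l w)⁻¹) = i x * (nm220 s l w)⁻¹ := by
        rw [map_mul, map_inv₀, hext.cyc.fix_i, s_nm220 s l w (hext.cyc.order w)]
      obtain ⟨x', hx'⟩ := hext.cyc.fixed _ hfix
      have hb : i (x' - 1) = (i x - nm220 s l w) * (nm220 s l w)⁻¹ := by
        rw [map_sub, map_one, hx']; field_simp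
      have hvb : Valued.v (x' - 1) ≤ exp (-((n : ℤ) + 1)) := by
        rw [← val_i220 hext, hb, map_mul, map_inv₀, hnw, inv_one, mul_one,
          Valuation.map_sub_swap]
        exact hNw
      obtain ⟨θ, hθ, htr⟩ := tr_surj220 hk hk' hext hl (x' - 1)
      have hθ' : Valued.v θ ≤ exp (-((n : ℤ) + 1)) := hθ.trans hvb
      have hθ1 : Valued.v θ < 1 := hθ'.trans_lt (exp_neg_succ_lt_one220 n)
      refine ⟨w * (1 + θ), ⟨?_, ?_⟩, ?_⟩
      · rw [map_mul, hw, one_mul]
        exact Valuation.map_one_add_of_lt _ hθ1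
      · have h3 : nm220 s l (w * (1 + θ)) - i x
            = nm220 s l w * (nm220 s l (1 + θ) - 1 - tr220 s l θ) := by
          rw [nm_mul220, htr, hb]; field_simp; ring
        rw [h3, map_mul, hnw, one_mul]
        refine (val_nm_one_add220 hext θ hθ1.le).trans ?_
        calc Valued.v θ ^ 2 ≤ (exp (-((n : ℤ) + 1)) : Γ₀) ^ 2 := pow_le_pow_left₀ zero_le hθ' 2
          _ = exp (2 • (-((n : ℤ) + 1))) := (exp_nsmul _ _).symm
          _ ≤ exp (-(((n + 1 : ℕ) : ℤ) + 1)) := by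
            rw [exp_le_exp, two_nsmul]; push_cast; omega
      · have : w * (1 + θ) - w = w * θ := by ring
        rw [this, map_mul, hw, one_mul]
        exact hθ')
    u₀ ⟨hu₀, by simpa using hN₀⟩
  have hL1 : Valued.v L = 1 := by
    have h1 : Valued.v (L - u₀) < Valued.v u₀ := by
      rw [hu₀]; exact hL0.trans_lt (by rw [← exp_zero, exp_lt_exp]; omega)
    rw [← hu₀]
    exact Valuation.map_eq_of_sub_lt _ h1
  refine ⟨L, hL1, ?_⟩
  rw [← sub_eq_zero]
  apply eq_zero_of_forall_le220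
  intro n
  obtain ⟨w, ⟨hw, hNw⟩, hLw⟩ := hL n
  have : nm220 s l L - i x = (nm220 s l L - nm220 s l w) + (nm220 s l w - i x) := by ring
  rw [this]
  refine (Valued.v.map_add _ _).trans (max_le ?_ hNw)
  exact (val_nm_sub_nm220 hext L w hw
    (hLw.trans (exp_neg_succ_lt_one220 n).le)).trans hLw

/-- **Norms of the unramified extension**: `x ≠ 0` in `k` is a norm from `k'` iff `l` divides
its (additive) valuation. -/
theorem isNorm_iff220 (hk : IsLocalField k q) (hk' : IsLocalField k' (q ^ l))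
    (hext : IsLocalExt k k' l 1 i s) (hl : l.Prime) (x : k) (hx : x ≠ 0) :
    (∃ y : k', nm220 s l y = i x) ↔ (l : ℤ) ∣ log (Valued.v x) := by
  have hvx : Valued.v x ≠ 0 := (Valuation.ne_zero_iff _).2 hx
  constructor
  · rintro ⟨y, hy⟩
    have h1 : Valued.v x = Valued.v y ^ l := by
      rw [← val_i220 hext, ← hy, val_nm220 hext]
    rw [h1, log_pow]
    exact ⟨log (Valued.v y), by simp⟩
  · rintro ⟨m, hm⟩
    obtain ⟨ϖ, hϖ⟩ := hk.unif
    have hϖ0 : ϖ ≠ 0 := by
      intro h0; rw [h0, map_zero] at hϖ; exact exp_ne_zero hϖ.symm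
    set c : k := ϖ ^ (-m) with hc
    have hc0 : c ≠ 0 := zpow_ne_zero _ hϖ0
    have hvc : Valued.v c = exp m := by
      rw [hc, map_zpow₀, hϖ, ← exp_zsmul]; simp
    have hvcl : Valued.v (c ^ l) = Valued.v x := by
      rw [map_pow, hvc, ← exp_nsmul, ← exp_log hvx, hm]; simp
    have hu : Valued.v (x * (c ^ l)⁻¹) = 1 := by
      rw [map_mul, map_inv₀, hvcl, mul_inv_cancel₀ hvx]
    obtain ⟨u, _, hNu⟩ := norm_units_surj220 hk hk' hext hl _ hu
    refine ⟨i c * u, ?_⟩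
    rw [nm_mul220, nm_fixed220 s l (i c) (hext.cyc.fix_i c), hNu, ← map_pow, ← map_mul]
    congr 1
    field_simp

end Unr

end Fermat.Agent.LT.T6.H220

end

end
-- ===== PACK-END LT/T6/H220/UnrNorm.lean

-- ===== PACK-BEGIN LT/T6/H682/DbLim.lean
section



/-!
# Row LT, tower T6, leaf T6.22.B.3 `DbLimC683` (helper682), OFF-MAIN

    dbLimC682 : Fermat.Agent.LT.T6.H683.DbLimC683          (VERBATIM, unconditional)

Registry row 1671; spec `LT/T6/H683/DarbouxSpec.lean` (helper683, sha256 5201439e) on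
`LT/T6/H888/ArchClassSpec.lean` (helper888, sha256 9a3f1734), byte-identical copies.

The Darboux identity passes to uniform limits on `[0, t + u]`: with `δ = g - h`,
`|G δ (d)| ≤ d² sup_{[0,d]} |δ|` (`A` is non-negative and increasing on `[0, ∞)`),
`|T f (t, u)| ≤ 2 sup_{[0, t+u]} |f|` (`|K| ≤ 2`, `0 ≤ arcosh ρ(t, u, φ) ≤ t + u`), both operators
are additive on functions continuous on `[0, ∞)`, so the defect of `g` is `≤ 5 (t + u)² ε`.
-/

set_option autoImplicit false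

open MeasureTheory Set

noncomputable section

namespace Fermat.Agent.LT.T6.H682

open Fermat.Agent.LT.T6 Fermat.Agent.LT.T6.H888 Fermat.Agent.LT.T6.H683

/-! ## 1. `ρ` and `arcosh ρ` -/

theorem one_le_rho682 (t u φ : ℝ) : 1 ≤ rho888 t u φ := by
  unfold rho888
  have hct := Real.one_le_cosh t
  have hcu := Real.one_le_cosh u
  have h1 := Real.cosh_sq t
  have h2 := Real.cosh_sq u
  have hX : 0 ≤ Real.cosh t * Real.cosh u - 1 := by nlinarith
  have key : |Real.sinh t * Real.sinh u| ≤ Real.cosh t * Real.cosh u - 1 := by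
    apply abs_le_of_sq_le_sq _ hX
    nlinarith [sq_nonneg (Real.cosh t - Real.cosh u)]
  have hc : |Real.cos φ| ≤ 1 := Real.abs_cos_le_one φ
  have h3 : |Real.sinh t * Real.sinh u * Real.cos φ| ≤ Real.cosh t * Real.cosh u - 1 := by
    rw [abs_mul]
    calc |Real.sinh t * Real.sinh u| * |Real.cos φ|
        ≤ |Real.sinh t * Real.sinh u| * 1 :=
          mul_le_mul_of_nonneg_left hc (abs_nonneg _)
      _ ≤ Real.cosh t * Real.cosh u - 1 := by rw [mul_one]; exact key
  have h4 := neg_abs_le (Real.sinh t * Real.sinh u * Real.cos φ)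
  linarith

theorem rho_le682 {t u : ℝ} (ht : 0 ≤ t) (hu : 0 ≤ u) (φ : ℝ) :
    rho888 t u φ ≤ Real.cosh (t + u) := by
  rw [Real.cosh_add]
  unfold rho888
  have h0 : 0 ≤ Real.sinh t * Real.sinh u :=
    mul_nonneg (Real.sinh_nonneg_iff.mpr ht) (Real.sinh_nonneg_iff.mpr hu)
  have h1 : Real.sinh t * Real.sinh u * Real.cos φ ≤ Real.sinh t * Real.sinh u * 1 :=
    mul_le_mul_of_nonneg_left (Real.cos_le_one φ) h0
  linarith

theorem arcosh_rho_nonneg682 (t u φ : ℝ) : 0 ≤ Real.arcosh (rho888 t u φ) :=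
  Real.arcosh_nonneg (one_le_rho682 t u φ)

theorem arcosh_rho_le682 {t u : ℝ} (ht : 0 ≤ t) (hu : 0 ≤ u) (φ : ℝ) :
    Real.arcosh (rho888 t u φ) ≤ t + u := by
  have h1 := one_le_rho682 t u φ
  have h3 : Real.arcosh (rho888 t u φ) ≤ Real.arcosh (Real.cosh (t + u)) :=
    (Real.arcosh_le_arcosh (by linarith) (Real.cosh_pos _)).mpr (rho_le682 ht hu φ)
  rwa [Real.arcosh_cosh (by linarith)] at h3

theorem continuous_rho682 (t : ℝ) : Continuous fun p : ℝ × ℝ => rho888 t p.1 p.2 := by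
  unfold rho888
  exact (continuous_const.mul (Real.continuous_cosh.comp continuous_fst)).add
    ((continuous_const.mul (Real.continuous_sinh.comp continuous_fst)).mul
      (Real.continuous_cos.comp continuous_snd))

theorem continuous_arcosh_rho682 (t : ℝ) :
    Continuous fun p : ℝ × ℝ => Real.arcosh (rho888 t p.1 p.2) :=
  Real.continuousOn_arcosh.comp_continuous (continuous_rho682 t)
    (fun p => one_le_rho682 t p.1 p.2)

/-! ## 2. The kernel -/

theorem abs_tanh_le_one682 (x : ℝ) : |Real.tanh x| ≤ 1 :=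
  abs_le.mpr ⟨(Real.neg_one_lt_tanh x).le, (Real.tanh_lt_one x).le⟩

theorem abs_kerW_le682 (n : ℤ) (t u φ : ℝ) : |kerW888 n t u φ| ≤ 2 := by
  unfold kerW888
  split_ifs
  · norm_num
  · have h1 := abs_tanh_le_one682 (t / 2)
    have h2 := abs_tanh_le_one682 (u / 2)
    have h3 : |Real.cos φ| ≤ 1 := Real.abs_cos_le_one φ
    have h4 : |Real.tanh (t / 2) * Real.tanh (u / 2) * Real.cos φ| ≤ 1 := by
      rw [abs_mul, abs_mul]
      calc |Real.tanh (t / 2)| * |Real.tanh (u / 2)| * |Real.cos φ|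
          ≤ 1 * 1 * 1 :=
            mul_le_mul (mul_le_mul h1 h2 (abs_nonneg _) zero_le_one) h3 (abs_nonneg _)
              (by norm_num)
        _ = 1 := by norm_num
    calc |1 + Real.tanh (t / 2) * Real.tanh (u / 2) * Real.cos φ|
        ≤ |(1 : ℝ)| + |Real.tanh (t / 2) * Real.tanh (u / 2) * Real.cos φ| := abs_add_le _ _
      _ ≤ 2 := by rw [abs_one]; linarith

theorem continuous_tanh682 : Continuous Real.tanh := by
  have h : Real.tanh = fun x => Real.sinh x / Real.cosh x := by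
    funext x
    exact Real.tanh_eq_sinh_div_cosh x
  rw [h]
  exact Real.continuous_sinh.div Real.continuous_cosh (fun x => (Real.cosh_pos x).ne')

theorem continuous_kerW682 (n : ℤ) (t : ℝ) :
    Continuous fun p : ℝ × ℝ => kerW888 n t p.1 p.2 := by
  unfold kerW888
  split_ifs
  · exact continuous_const
  · exact continuous_const.add ((continuous_const.mul
      (continuous_tanh682.comp (continuous_fst.div_const 2))).mul
        (Real.continuous_cos.comp continuous_snd))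

/-! ## 3. The weight -/

theorem wtA_nonneg682 (n : ℤ) {r : ℝ} (hr : 0 ≤ r) : 0 ≤ wtA888 n r := by
  unfold wtA888
  have h1 : 0 ≤ Real.sinh r := Real.sinh_nonneg_iff.mpr hr
  have h2 := Real.one_le_cosh r
  split_ifs
  · exact h1
  · exact mul_nonneg h1 (by linarith)

theorem wtA_pos682 (n : ℤ) {r : ℝ} (hr : 0 < r) : 0 < wtA888 n r := by
  unfold wtA888
  have h1 : 0 < Real.sinh r := Real.sinh_pos_iff.mpr hr
  have h2 := Real.one_le_cosh r
  split_ifs
  · exact h1
  · exact mul_pos h1 (by linarith)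

theorem wtA_mono682 (n : ℤ) {q r : ℝ} (hq : 0 ≤ q) (hqr : q ≤ r) :
    wtA888 n q ≤ wtA888 n r := by
  unfold wtA888
  have h1 : Real.sinh q ≤ Real.sinh r := Real.sinh_le_sinh.mpr hqr
  have h2 : Real.cosh q ≤ Real.cosh r := by
    rw [Real.cosh_le_cosh, abs_of_nonneg hq, abs_of_nonneg (hq.trans hqr)]
    exact hqr
  have h3 : 0 ≤ Real.sinh q := Real.sinh_nonneg_iff.mpr hq
  have h4 := Real.one_le_cosh q
  split_ifs
  · exact h1
  · exact mul_le_mul h1 (by linarith) (by linarith) (h3.trans h1)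

theorem continuous_wtA682 (n : ℤ) : Continuous (wtA888 n) := by
  unfold wtA888
  split_ifs
  · exact Real.continuous_sinh
  · exact Real.continuous_sinh.mul (continuous_const.add Real.continuous_cosh)

/-! ## 4. Bounds for the Green operator and the translation -/

theorem norm_inner_le682 (n : ℤ) (f : ℝ → ℂ) {M r : ℝ} (hr : 0 ≤ r)
    (hM : ∀ q ∈ Icc (0 : ℝ) r, ‖f q‖ ≤ M) :
    ‖∫ q in (0 : ℝ)..r, ((wtA888 n q : ℝ) : ℂ) * f q‖ ≤ wtA888 n r * M * r := by
  have h := intervalIntegral.norm_integral_le_of_norm_le_const (a := (0 : ℝ)) (b := r)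
    (C := wtA888 n r * M) (f := fun q => ((wtA888 n q : ℝ) : ℂ) * f q) (by
      intro q hq
      rw [uIoc_of_le hr] at hq
      have hq0 : 0 ≤ q := hq.1.le
      rw [norm_mul, Complex.norm_real, Real.norm_eq_abs, abs_of_nonneg (wtA_nonneg682 n hq0)]
      exact mul_le_mul (wtA_mono682 n hq0 hq.2) (hM q ⟨hq0, hq.2⟩) (norm_nonneg _)
        (wtA_nonneg682 n hr))
  rwa [sub_zero, abs_of_nonneg hr] at h

theorem norm_outer_le682 (n : ℤ) (f : ℝ → ℂ) {M r : ℝ} (hr : 0 < r)
    (hM : ∀ q ∈ Icc (0 : ℝ) r, ‖f q‖ ≤ M) :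
    ‖(((wtA888 n r)⁻¹ : ℝ) : ℂ) * ∫ q in (0 : ℝ)..r, ((wtA888 n q : ℝ) : ℂ) * f q‖ ≤ M * r := by
  have hA := wtA_pos682 n hr
  rw [norm_mul, Complex.norm_real, Real.norm_eq_abs, abs_of_nonneg (inv_nonneg.mpr hA.le)]
  calc (wtA888 n r)⁻¹ * ‖∫ q in (0 : ℝ)..r, ((wtA888 n q : ℝ) : ℂ) * f q‖
      ≤ (wtA888 n r)⁻¹ * (wtA888 n r * M * r) :=
        mul_le_mul_of_nonneg_left (norm_inner_le682 n f hr.le hM) (inv_nonneg.mpr hA.le)
    _ = M * r := by field_simp

theorem norm_gL_le682 (n : ℤ) (f : ℝ → ℂ) {M t : ℝ} (ht : 0 ≤ t)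
    (hM : ∀ q ∈ Icc (0 : ℝ) t, ‖f q‖ ≤ M) : ‖gL888 n f t‖ ≤ M * t * t := by
  unfold gL888
  have hM0 : 0 ≤ M := (norm_nonneg _).trans (hM 0 ⟨le_rfl, ht⟩)
  have h := intervalIntegral.norm_integral_le_of_norm_le_const (a := (0 : ℝ)) (b := t)
    (C := M * t) (f := fun r => (((wtA888 n r)⁻¹ : ℝ) : ℂ) *
      ∫ q in (0 : ℝ)..r, ((wtA888 n q : ℝ) : ℂ) * f q) (by
      intro r hr
      rw [uIoc_of_le ht] at hr
      exact (norm_outer_le682 n f hr.1 (fun q hq => hM q ⟨hq.1, hq.2.trans hr.2⟩)).trans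
        (mul_le_mul_of_nonneg_left hr.2 hM0))
  rwa [sub_zero, abs_of_nonneg ht] at h

theorem norm_gT_le682 (n : ℤ) (f : ℝ → ℂ) {M t u : ℝ} (ht : 0 ≤ t) (hu : 0 ≤ u)
    (hM : ∀ x ∈ Icc (0 : ℝ) (t + u), ‖f x‖ ≤ M) : ‖gT888 n f t u‖ ≤ 2 * M := by
  unfold gT888
  have hM0 : 0 ≤ M := (norm_nonneg _).trans (hM 0 ⟨le_rfl, by linarith⟩)
  have hpi : 0 < 2 * Real.pi := by positivity
  have h := intervalIntegral.norm_integral_le_of_norm_le_const (a := (0 : ℝ))
    (b := 2 * Real.pi) (C := 2 * M)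
    (f := fun φ => ((kerW888 n t u φ : ℝ) : ℂ) * f (Real.arcosh (rho888 t u φ))) (by
      intro φ _
      rw [norm_mul, Complex.norm_real, Real.norm_eq_abs]
      exact mul_le_mul (abs_kerW_le682 n t u φ)
        (hM _ ⟨arcosh_rho_nonneg682 t u φ, arcosh_rho_le682 ht hu φ⟩) (norm_nonneg _)
        (by norm_num))
  rw [sub_zero, abs_of_nonneg hpi.le] at h
  rw [norm_mul, Complex.norm_real, Real.norm_eq_abs, abs_of_nonneg (by positivity)]
  calc 1 / (2 * Real.pi) * ‖∫ φ in (0 : ℝ)..(2 * Real.pi),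
        ((kerW888 n t u φ : ℝ) : ℂ) * f (Real.arcosh (rho888 t u φ))‖
      ≤ 1 / (2 * Real.pi) * (2 * M * (2 * Real.pi)) :=
        mul_le_mul_of_nonneg_left h (by positivity)
    _ = 2 * M := by field_simp

/-! ## 5. Integrability and continuity -/

theorem continuousOn_innerFn682 (n : ℤ) {f : ℝ → ℂ} (hf : ContinuousOn f (Ici 0)) :
    ContinuousOn (fun q => ((wtA888 n q : ℝ) : ℂ) * f q) (Ici 0) :=
  (Complex.continuous_ofReal.comp (continuous_wtA682 n)).continuousOn.mul hf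

theorem intervalIntegrable_inner682 (n : ℤ) {f : ℝ → ℂ} (hf : ContinuousOn f (Ici 0)) {r : ℝ}
    (hr : 0 ≤ r) :
    IntervalIntegrable (fun q => ((wtA888 n q : ℝ) : ℂ) * f q) volume 0 r := by
  apply ContinuousOn.intervalIntegrable
  rw [uIcc_of_le hr]
  exact (continuousOn_innerFn682 n hf).mono (fun x hx => hx.1)

theorem continuousOn_inner682 (n : ℤ) {f : ℝ → ℂ} (hf : ContinuousOn f (Ici 0)) {t : ℝ}
    (ht : 0 ≤ t) :
    ContinuousOn (fun r => ∫ q in (0 : ℝ)..r, ((wtA888 n q : ℝ) : ℂ) * f q) (Icc 0 t) := by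
  have h := intervalIntegral.continuousOn_primitive_interval (μ := volume) (a := (0 : ℝ))
    (b := t) (f := fun q => ((wtA888 n q : ℝ) : ℂ) * f q) (by
      rw [uIcc_of_le ht]
      exact ((continuousOn_innerFn682 n hf).mono (fun x hx => hx.1)).integrableOn_Icc)
  rwa [uIcc_of_le ht] at h

theorem exists_bound682 {f : ℝ → ℂ} (hf : ContinuousOn f (Ici 0)) (t : ℝ) :
    ∃ M : ℝ, ∀ q ∈ Icc (0 : ℝ) t, ‖f q‖ ≤ M :=
  isCompact_Icc.exists_bound_of_continuousOn (hf.mono (fun _ hx => hx.1))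

theorem intervalIntegrable_outer682 (n : ℤ) {f : ℝ → ℂ} (hf : ContinuousOn f (Ici 0)) {t : ℝ}
    (ht : 0 ≤ t) :
    IntervalIntegrable (fun r => (((wtA888 n r)⁻¹ : ℝ) : ℂ) *
      ∫ q in (0 : ℝ)..r, ((wtA888 n q : ℝ) : ℂ) * f q) volume 0 t := by
  rw [intervalIntegrable_iff_integrableOn_Ioc_of_le ht]
  obtain ⟨M, hM⟩ := exists_bound682 hf t
  have hM0 : 0 ≤ M := (norm_nonneg _).trans (hM 0 ⟨le_rfl, ht⟩)
  have hcont : ContinuousOn (fun r => (((wtA888 n r)⁻¹ : ℝ) : ℂ) *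
      ∫ q in (0 : ℝ)..r, ((wtA888 n q : ℝ) : ℂ) * f q) (Ioc 0 t) := by
    refine ContinuousOn.mul ?_ ((continuousOn_inner682 n hf ht).mono Ioc_subset_Icc_self)
    refine Complex.continuous_ofReal.comp_continuousOn ?_
    exact (continuous_wtA682 n).continuousOn.inv₀ (fun r hr => (wtA_pos682 n hr.1).ne')
  refine Integrable.mono' (integrable_const (M * t))
    (hcont.aestronglyMeasurable measurableSet_Ioc) ?_
  refine (ae_restrict_iff' measurableSet_Ioc).mpr (Filter.Eventually.of_forall fun r hr => ?_)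
  exact (norm_outer_le682 n f hr.1 (fun q hq => hM q ⟨hq.1, hq.2.trans hr.2⟩)).trans
    (mul_le_mul_of_nonneg_left hr.2 hM0)

theorem continuousOn_gL682 (n : ℤ) {f : ℝ → ℂ} (hf : ContinuousOn f (Ici 0)) :
    ContinuousOn (gL888 n f) (Ici 0) := by
  intro x hx
  have hx0 : (0 : ℝ) ≤ x := hx
  have hT : (0 : ℝ) ≤ x + 1 := by linarith
  have h := intervalIntegral.continuousOn_primitive_interval (μ := volume) (a := (0 : ℝ))
    (b := x + 1) (f := fun r => (((wtA888 n r)⁻¹ : ℝ) : ℂ) *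
      ∫ q in (0 : ℝ)..r, ((wtA888 n q : ℝ) : ℂ) * f q) (by
      rw [uIcc_of_le hT]
      have := (intervalIntegrable_iff_integrableOn_Icc_of_le hT).mp
        (intervalIntegrable_outer682 n hf hT)
      exact this)
  rw [uIcc_of_le hT] at h
  have h1 : ContinuousWithinAt (gL888 n f) (Icc 0 (x + 1)) x := h x ⟨hx0, by linarith⟩
  refine h1.mono_of_mem_nhdsWithin ?_
  have : Icc (0 : ℝ) (x + 1) = Ici 0 ∩ Iic (x + 1) := by
    ext y
    simp [Icc, Ici, Iic]
  rw [this]
  exact inter_mem_nhdsWithin _ (Iic_mem_nhds (by linarith))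

theorem continuous_gTFn682 (n : ℤ) {f : ℝ → ℂ} (hf : ContinuousOn f (Ici 0)) (t : ℝ) :
    Continuous fun p : ℝ × ℝ =>
      ((kerW888 n t p.1 p.2 : ℝ) : ℂ) * f (Real.arcosh (rho888 t p.1 p.2)) :=
  (Complex.continuous_ofReal.comp (continuous_kerW682 n t)).mul
    (hf.comp_continuous (continuous_arcosh_rho682 t)
      (fun p => arcosh_rho_nonneg682 t p.1 p.2))

theorem continuous_gT682 (n : ℤ) {f : ℝ → ℂ} (hf : ContinuousOn f (Ici 0)) (t : ℝ) :
    Continuous fun q => gT888 n f t q := by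
  unfold gT888
  refine continuous_const.mul ?_
  exact intervalIntegral.continuous_parametric_intervalIntegral_of_continuous'
    (f := fun q φ => ((kerW888 n t q φ : ℝ) : ℂ) * f (Real.arcosh (rho888 t q φ)))
    (continuous_gTFn682 n hf t) 0 (2 * Real.pi)

/-! ## 6. Additivity -/

theorem gT_congr682 (n : ℤ) {f f' : ℝ → ℂ} (h : ∀ x : ℝ, 0 ≤ x → f x = f' x) (t u : ℝ) :
    gT888 n f t u = gT888 n f' t u := by
  unfold gT888
  congr 1
  refine intervalIntegral.integral_congr fun φ _ => ?_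
  rw [h _ (arcosh_rho_nonneg682 t u φ)]

theorem gT_sub682 (n : ℤ) {f f' : ℝ → ℂ} (hf : ContinuousOn f (Ici 0))
    (hf' : ContinuousOn f' (Ici 0)) (t u : ℝ) :
    gT888 n (fun q => f q - f' q) t u = gT888 n f t u - gT888 n f' t u := by
  unfold gT888
  have h1 : IntervalIntegrable
      (fun φ => ((kerW888 n t u φ : ℝ) : ℂ) * f (Real.arcosh (rho888 t u φ))) volume 0
      (2 * Real.pi) :=
    ((continuous_gTFn682 n hf t).comp (Continuous.prodMk_right u)).intervalIntegrable _ _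
  have h2 : IntervalIntegrable
      (fun φ => ((kerW888 n t u φ : ℝ) : ℂ) * f' (Real.arcosh (rho888 t u φ))) volume 0
      (2 * Real.pi) :=
    ((continuous_gTFn682 n hf' t).comp (Continuous.prodMk_right u)).intervalIntegrable _ _
  rw [← mul_sub, ← intervalIntegral.integral_sub h1 h2]
  congr 1
  refine intervalIntegral.integral_congr fun φ _ => ?_
  beta_reduce
  ring

theorem gL_sub682 (n : ℤ) {f f' : ℝ → ℂ} (hf : ContinuousOn f (Ici 0))
    (hf' : ContinuousOn f' (Ici 0)) {t : ℝ} (ht : 0 ≤ t) :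
    gL888 n (fun q => f q - f' q) t = gL888 n f t - gL888 n f' t := by
  unfold gL888
  rw [← intervalIntegral.integral_sub (intervalIntegrable_outer682 n hf ht)
    (intervalIntegrable_outer682 n hf' ht)]
  refine intervalIntegral.integral_congr fun r hr => ?_
  rw [uIcc_of_le ht] at hr
  beta_reduce
  rw [← mul_sub, ← intervalIntegral.integral_sub (intervalIntegrable_inner682 n hf hr.1)
    (intervalIntegrable_inner682 n hf' hr.1)]
  congr 1
  refine intervalIntegral.integral_congr fun q _ => ?_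
  ring

/-! ## 7. The leaf -/

/-- **LEAF T6.22.B.3 `DbLimC683`** (VERBATIM the Prop of `LT/T6/H683/DarbouxSpec.lean`). -/
theorem dbLimC682 : DbLimC683 := by
  intro n _ g hg happrox t u ht hu
  have hR : 0 < t + u := by linarith
  have key : ∀ ε : ℝ, 0 < ε →
      ‖gT888 n (gL888 n g) t u - (gL888 n g t + gL888 n (fun q => gT888 n g t q) u)‖
        ≤ 5 * ((t + u) * (t + u)) * ε := by
    intro ε hε
    obtain ⟨h, hh, hD, hgh⟩ := happrox (t + u) ε hR hε
    have hDh := hD t u ht hu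
    set δ : ℝ → ℂ := fun q => g q - h q with hδdef
    have hδc : ContinuousOn δ (Ici 0) := hg.sub hh
    have hδ : ∀ q ∈ Icc (0 : ℝ) (t + u), ‖δ q‖ ≤ ε := hgh
    have e1 : ∀ x : ℝ, 0 ≤ x → gL888 n g x = gL888 n h x + gL888 n δ x := by
      intro x hx
      have := gL_sub682 n hg hh hx
      rw [hδdef, this]
      ring
    have e2 : gT888 n (gL888 n g) t u
        = gT888 n (gL888 n h) t u + gT888 n (gL888 n δ) t u := by
      have h1 := gT_sub682 n (continuousOn_gL682 n hg) (continuousOn_gL682 n hh) t u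
      have h2 : gT888 n (fun q => gL888 n g q - gL888 n h q) t u = gT888 n (gL888 n δ) t u :=
        gT_congr682 n (fun x hx => by rw [e1 x hx]; ring) t u
      rw [h2] at h1
      rw [h1]
      ring
    have e3 : ∀ q : ℝ, gT888 n g t q = gT888 n h t q + gT888 n δ t q := by
      intro q
      have := gT_sub682 n hg hh t q
      rw [hδdef, this]
      ring
    have e4 : gL888 n (fun q => gT888 n g t q) u
        = gL888 n (fun q => gT888 n h t q) u + gL888 n (fun q => gT888 n δ t q) u := by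
      have h1 := gL_sub682 n (continuous_gT682 n hg t).continuousOn
        (continuous_gT682 n hh t).continuousOn hu.le
      have h2 : (fun q => gT888 n g t q - gT888 n h t q) = fun q => gT888 n δ t q := by
        funext q
        rw [e3 q]
        ring
      rw [h2] at h1
      rw [h1]
      ring
    have b1 : ‖gL888 n δ t‖ ≤ ε * t * t :=
      norm_gL_le682 n δ ht.le (fun q hq => hδ q ⟨hq.1, by linarith [hq.2]⟩)
    have b2 : ‖gT888 n (gL888 n δ) t u‖ ≤ 2 * (ε * (t + u) * (t + u)) := by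
      refine norm_gT_le682 n _ ht.le hu.le (fun x hx => ?_)
      refine (norm_gL_le682 n δ hx.1 (fun q hq => hδ q ⟨hq.1, hq.2.trans hx.2⟩)).trans ?_
      have hx0 := hx.1
      have hx1 := hx.2
      have : x * x ≤ (t + u) * (t + u) := mul_le_mul hx1 hx1 hx0 hR.le
      nlinarith
    have b3 : ‖gL888 n (fun q => gT888 n δ t q) u‖ ≤ 2 * ε * u * u := by
      refine norm_gL_le682 n _ hu.le (fun q hq => ?_)
      exact norm_gT_le682 n δ ht.le hq.1 (fun x hx => hδ x ⟨hx.1, by linarith [hx.2, hq.2]⟩)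
    have e5 : gT888 n (gL888 n g) t u - (gL888 n g t + gL888 n (fun q => gT888 n g t q) u)
        = gT888 n (gL888 n δ) t u - gL888 n δ t - gL888 n (fun q => gT888 n δ t q) u := by
      rw [e2, e1 t ht.le, e4, hDh]
      ring
    rw [e5]
    have n1 := norm_sub_le (gT888 n (gL888 n δ) t u - gL888 n δ t)
      (gL888 n (fun q => gT888 n δ t q) u)
    have n2 := norm_sub_le (gT888 n (gL888 n δ) t u) (gL888 n δ t)
    have ht2 : t * t ≤ (t + u) * (t + u) := by nlinarith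
    have hu2 : u * u ≤ (t + u) * (t + u) := by nlinarith
    nlinarith
  have hzero : ‖gT888 n (gL888 n g) t u
      - (gL888 n g t + gL888 n (fun q => gT888 n g t q) u)‖ = 0 := by
    by_contra hne
    have hpos : 0 < ‖gT888 n (gL888 n g) t u
        - (gL888 n g t + gL888 n (fun q => gT888 n g t q) u)‖ :=
      lt_of_le_of_ne (norm_nonneg _) (Ne.symm hne)
    set X := ‖gT888 n (gL888 n g) t u
        - (gL888 n g t + gL888 n (fun q => gT888 n g t q) u)‖ with hX
    have hC : 0 < 5 * ((t + u) * (t + u)) := by positivity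
    have := key (X / (2 * (5 * ((t + u) * (t + u))))) (by positivity)
    have e : 5 * ((t + u) * (t + u)) * (X / (2 * (5 * ((t + u) * (t + u))))) = X / 2 := by
      field_simp
    rw [e] at this
    linarith
  exact sub_eq_zero.mp (norm_eq_zero.mp hzero)

end Fermat.Agent.LT.T6.H682

end

end
-- ===== PACK-END LT/T6/H682/DbLim.lean

-- ===== PACK-BEGIN LT/T6/Inf/H19/SphC.lean
section




/-!
# Row LT, sub-tower T6inf (helper19): closed form of `T6.sphC`, leaf T6inf.07 `Sph0ParamC`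

OFF-MAIN.  Mathlib + `T6/SpecArch.lean` + `T6/Inf/Spec.lean` only.

* `sphC_cosh19`      : `sphC ν (cosh d) = sinh (ν d) / (ν sinh d)` for `ν ≠ 0`, `d > 0`;
* `sphC_zero_cosh19` : `sphC 0 (cosh d) = d / sinh d` for `d > 0`;
* `sph0ParamC19`     : `Inf.Sph0ParamC`.
-/

set_option autoImplicit false

open MeasureTheory

noncomputable section

namespace Fermat.Agent.LT.T6.Inf.H19

open Fermat.Agent.LT.T6

theorem sqrt_cosh_sq_sub_one19 {d : ℝ} (hd : 0 < d) :
    Real.sqrt (Real.cosh d ^ 2 - 1) = Real.sinh d := by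
  have h : Real.cosh d ^ 2 - 1 = Real.sinh d ^ 2 := by
    have := Real.cosh_sq d
    linarith
  rw [h, Real.sqrt_sq (le_of_lt (Real.sinh_pos_iff.mpr hd))]

theorem cosh_add_sinh19 (d : ℝ) : Real.cosh d + Real.sinh d = Real.exp d := Real.cosh_add_sinh d

theorem cosh_sub_sinh19 (d : ℝ) : Real.cosh d - Real.sinh d = Real.exp (-d) :=
  Real.cosh_sub_sinh d

theorem ofReal_exp_cpow19 (d : ℝ) (w : ℂ) :
    ((Real.exp d : ℝ) : ℂ) ^ w = Complex.exp ((d : ℂ) * w) := by
  have hne : ((Real.exp d : ℝ) : ℂ) ≠ 0 := by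
    exact_mod_cast (Real.exp_pos d).ne'
  rw [Complex.cpow_def_of_ne_zero hne, ← Complex.ofReal_log (Real.exp_pos d).le, Real.log_exp]

/-- The integral defining `sphC`, after the substitution `y = ρ + x σ`. -/
theorem sphC_eq_integral19 (ν : ℂ) {d : ℝ} (hd : 0 < d) :
    sphC ν (Real.cosh d) = (1 / 2 : ℂ) * (((Real.sinh d : ℝ) : ℂ)⁻¹ *
      ∫ y in Real.exp (-d)..Real.exp d, ((y : ℝ) : ℂ) ^ (-1 - ν)) := by
  have hs : Real.sinh d ≠ 0 := (Real.sinh_pos_iff.mpr hd).ne'
  unfold sphC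
  rw [sqrt_cosh_sq_sub_one19 hd]
  congr 1
  have h := intervalIntegral.integral_comp_add_mul
    (f := fun y : ℝ => ((y : ℝ) : ℂ) ^ (-1 - ν)) (a := (-1 : ℝ)) (b := 1) hs (Real.cosh d)
  have e1 : Real.cosh d + Real.sinh d * (-1 : ℝ) = Real.exp (-d) := by
    rw [← cosh_sub_sinh19]; ring
  have e2 : Real.cosh d + Real.sinh d * (1 : ℝ) = Real.exp d := by
    rw [← cosh_add_sinh19]; ring
  rw [e1, e2] at h
  have h' : (∫ x in (-1 : ℝ)..1, ((Real.cosh d + x * Real.sinh d : ℝ) : ℂ) ^ (-1 - ν))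
      = ∫ x in (-1 : ℝ)..1, ((Real.cosh d + Real.sinh d * x : ℝ) : ℂ) ^ (-1 - ν) := by
    refine intervalIntegral.integral_congr ?_
    intro x _
    simp only [mul_comm]
  rw [h', h]
  rw [Complex.real_smul, Complex.ofReal_inv]

theorem sphC_cosh19 {ν : ℂ} (hν : ν ≠ 0) {d : ℝ} (hd : 0 < d) :
    sphC ν (Real.cosh d) = Complex.sinh (ν * (d : ℂ)) / (ν * ((Real.sinh d : ℝ) : ℂ)) := by
  have hs : ((Real.sinh d : ℝ) : ℂ) ≠ 0 := by
    exact_mod_cast (Real.sinh_pos_iff.mpr hd).ne'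
  rw [sphC_eq_integral19 ν hd]
  have h0 : (0 : ℝ) ∉ Set.uIcc (Real.exp (-d)) (Real.exp d) := by
    rw [Set.uIcc_of_le (Real.exp_le_exp.mpr (by linarith))]
    intro h
    exact absurd h.1 (not_le.mpr (Real.exp_pos _))
  have hr : (-1 - ν) ≠ -1 := by
    intro h
    apply hν
    have : ν = -1 - (-1 - ν) := by ring
    rw [this, h]; ring
  rw [integral_cpow (Or.inr ⟨hr, h0⟩)]
  have e : (-1 - ν + 1) = -ν := by ring
  rw [e, ofReal_exp_cpow19, ofReal_exp_cpow19, Complex.sinh]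
  have hν' : (-ν) ≠ 0 := neg_ne_zero.mpr hν
  field_simp
  push_cast
  ring_nf

theorem sphC_zero_cosh19 {d : ℝ} (hd : 0 < d) :
    sphC 0 (Real.cosh d) = ((d / Real.sinh d : ℝ) : ℂ) := by
  have hs : Real.sinh d ≠ 0 := (Real.sinh_pos_iff.mpr hd).ne'
  rw [sphC_eq_integral19 0 hd]
  have h1 : (∫ y in Real.exp (-d)..Real.exp d, ((y : ℝ) : ℂ) ^ (-1 - (0 : ℂ)))
      = ((∫ y in Real.exp (-d)..Real.exp d, y⁻¹ : ℝ) : ℂ) := by
    rw [← intervalIntegral.integral_ofReal]
    refine intervalIntegral.integral_congr ?_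
    intro y _
    simp only [sub_zero, Complex.cpow_neg_one, Complex.ofReal_inv]
  rw [h1, integral_inv_of_pos (Real.exp_pos _) (Real.exp_pos _)]
  have h2 : Real.log (Real.exp d / Real.exp (-d)) = 2 * d := by
    rw [← Real.exp_sub, Real.log_exp]; ring
  rw [h2]
  push_cast
  field_simp

/-- **T6inf.07** `Sph0ParamC`. -/
theorem sph0ParamC19 : Inf.Sph0ParamC := by
  intro s h
  by_contra hs
  have hz : (2 * s) ≠ 0 := mul_ne_zero two_ne_zero hs
  set z : ℂ := 2 * s with hzdef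
  -- `sinh (z d) = z d` for all `d > 0`
  have key : ∀ d : ℝ, 0 < d → Complex.sinh (z * (d : ℂ)) = z * (d : ℂ) := by
    intro d hd
    have hsd : ((Real.sinh d : ℝ) : ℂ) ≠ 0 := by
      exact_mod_cast (Real.sinh_pos_iff.mpr hd).ne'
    have h1 := h d hd
    rw [sphC_cosh19 hz hd, sphC_zero_cosh19 hd, Complex.ofReal_div,
      div_eq_div_iff (mul_ne_zero hz hsd) hsd] at h1
    have h2 : Complex.sinh (z * (d : ℂ)) * ((Real.sinh d : ℝ) : ℂ)
        = (z * (d : ℂ)) * ((Real.sinh d : ℝ) : ℂ) := by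
      rw [h1]; ring
    exact mul_right_cancel₀ hsd h2
  -- differentiate `d ↦ sinh (z d) - z d` at `d = 1`
  have hc : HasDerivAt (fun w : ℂ => Complex.sinh (z * w) - z * w)
      (Complex.cosh (z * 1) * (z * 1) - z * 1) (1 : ℂ) :=
    (((hasDerivAt_id (1 : ℂ)).const_mul z).csinh).sub ((hasDerivAt_id (1 : ℂ)).const_mul z)
  have hr : HasDerivAt (fun d : ℝ => Complex.sinh (z * (d : ℂ)) - z * (d : ℂ))
      (Complex.cosh (z * 1) * (z * 1) - z * 1) (1 : ℝ) := by
    have hc' : HasDerivAt (fun w : ℂ => Complex.sinh (z * w) - z * w)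
        (Complex.cosh (z * 1) * (z * 1) - z * 1) (((1 : ℝ) : ℂ)) := by
      simpa using hc
    exact hc'.comp_ofReal
  have heq : (fun d : ℝ => Complex.sinh (z * (d : ℂ)) - z * (d : ℂ))
      =ᶠ[nhds (1 : ℝ)] fun _ => (0 : ℂ) := by
    filter_upwards [lt_mem_nhds (show (0 : ℝ) < 1 from one_pos)] with d hd
    rw [key d hd, sub_self]
  have h0 : HasDerivAt (fun d : ℝ => Complex.sinh (z * (d : ℂ)) - z * (d : ℂ)) (0 : ℂ)
      (1 : ℝ) :=
    (hasDerivAt_const (1 : ℝ) (0 : ℂ)).congr_of_eventuallyEq heq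
  have hder : Complex.cosh (z * 1) * (z * 1) - z * 1 = 0 := hr.unique h0
  have hc1 : Complex.cosh z = 1 := by
    have h3 : (Complex.cosh z - 1) * z = 0 := by
      have := hder
      simp only [mul_one] at this
      linear_combination this
    rcases mul_eq_zero.mp h3 with h4 | h4
    · exact sub_eq_zero.mp h4
    · exact absurd h4 hz
  have hsn : Complex.sinh z = z := by
    have := key 1 one_pos
    simpa using this
  have hid := Complex.cosh_sq z
  rw [hc1, hsn] at hid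
  have h5 : z ^ 2 = 0 := by linear_combination -hid
  exact hz ((pow_eq_zero_iff (two_ne_zero)).mp h5)

end Fermat.Agent.LT.T6.Inf.H19

end

end
-- ===== PACK-END LT/T6/Inf/H19/SphC.lean

-- ===== PACK-BEGIN LT/T6/Inf/H502/UpUnitary.lean
section
/-
T6inf.05 (helper502): `UpUnitaryC`, VERBATIM against `Fermat.Agent.LT.T6.Inf.Spec`.

The analytic content lives in the Mathlib-only files `UpCore`, `UpShift`, `UpC`, `UpQ`, `UpGrow`
of this directory; this file only identifies the three integrals of `T6.SpecArch` with their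
byte copies and assembles the statement.
-/





set_option autoImplicit false

noncomputable section

namespace Fermat.Agent.LT.T6.Inf.H502

theorem sphR0_spec502 (s : ℂ) (ρ : ℝ) : Fermat.Agent.LT.T6.sphR0 s ρ = sphR0_502 s ρ := rfl

theorem sphR1_spec502 (s : ℂ) (ρ : ℝ) : Fermat.Agent.LT.T6.sphR1 s ρ = sphR1_502 s ρ := rfl

theorem sphC_spec502 (ν : ℂ) (ρ : ℝ) : Fermat.Agent.LT.T6.sphC ν ρ = sphC502 ν ρ := rfl

theorem sphRad_zero502 (s : ℂ) (ρ : ℝ) : Fermat.Agent.LT.T6.sphRad 0 s ρ = sphR0_502 s ρ := by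
  unfold Fermat.Agent.LT.T6.sphRad
  rw [if_pos rfl, sphR0_spec502]

theorem sphRad_ne502 (n : ℤ) (hn : n ≠ 0) (s : ℂ) (ρ : ℝ) :
    Fermat.Agent.LT.T6.sphRad n s ρ = sphR1_502 s ρ := by
  unfold Fermat.Agent.LT.T6.sphRad
  rw [if_neg hn, sphR1_spec502]

/-- The closed form of `T6.sphC` on `(1, ∞)`: `sphC ν (cosh d) = sinh (ν d) / (ν sinh d)`
(`= d / sinh d` for `ν = 0`), in the packaged form `sphR502`. -/
theorem sphC_closed502 (ν : ℂ) (d : ℝ) (hd : 0 < d) :
    Fermat.Agent.LT.T6.sphC ν (Real.cosh d) = sphR502 ν d := by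
  rw [sphC_spec502, sphC_eq502 ν d hd]

/-- If the radial spherical function of weight `n ∈ {0, ±1}` and parameter `s` is real and bounded
by `1` on `(0, ∞)`, then `s² - 1/4` is real and `≤ 0`, i.e. `s ∈ iℝ ∪ [-1/2, 1/2]`. -/
theorem param_of_sphRad502 (n : ℤ) (s : ℂ)
    (h : ∀ t : ℝ, 0 < t →
      (Fermat.Agent.LT.T6.sphRad n s (Real.cosh t)).im = 0 ∧
        ‖Fermat.Agent.LT.T6.sphRad n s (Real.cosh t)‖ ≤ 1) :
    (s ^ 2 - 1 / 4).im = 0 ∧ (s ^ 2 - 1 / 4).re ≤ 0 := by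
  by_cases hn : n = 0
  · subst hn
    refine param0_of_bounded502 s fun t ht => ?_
    have := h t ht
    rwa [sphRad_zero502] at this
  · refine param1_of_bounded502 s fun t ht => ?_
    have := h t ht
    rwa [sphRad_ne502 n hn] at this

/-- **T6inf.05.** -/
theorem upUnitaryC502 : Fermat.Agent.LT.T6.Inf.UpUnitaryC := by
  intro n _ s h d hd
  obtain ⟨h1, h2⟩ := param_of_sphRad502 n s h
  rw [sphC_closed502 (2 * s) d hd]
  exact sphR_bounded502 s h1 h2 d hd

end Fermat.Agent.LT.T6.Inf.H502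

end

end
-- ===== PACK-END LT/T6/Inf/H502/UpUnitary.lean

-- ===== PACK-BEGIN LT/T6/H584/OrbSumInt.lean
section








/-!
# Row LT, tower T6, leaf T6.19 `OrbSumIntC` (helper584, spare proof)

OFF-MAIN.  `orbSumIntC584 : T6.OrbSumIntC`, VERBATIM the Prop of `LT/T6/Spec.lean` (v3, sha256
`8c5f2ae7`, helper22@83fb5972b), with NO hypothesis.  Imports: Mathlib, the Spec, the topology of
helper420 (`H420/ValTop.lean`, `H420/GLTop.lean`, byte-identical) and three files of this folder.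

Proof (no quotient measure, no unimodularity):
1. `F(x) = φ(x⁻¹ δ s(x))` equals `φ(y)` on the open set `D_y = T x_y U` and vanishes outside the
   `D_y`, `y ∈ R`; the `D_y` are pairwise disjoint.
2. `μT(V_y) · ∫_{D_y} β dμ = μ(U) = 1`, `V_y = T ∩ x_y U x_y⁻¹` (`weil_coset584`).
3. `T^c` is the disjoint union of `cIndex y` translates of `V_y`, so `cIndex y · μT(V_y) = 1`
   (`T` commutes with the regular element `N δ`, hence is commutative; for commuting `t, u` with
   integral characteristic polynomials `tr(tu)` is integral).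
-/

set_option autoImplicit false
set_option linter.unusedSectionVars false
set_option linter.style.haveILetI false
set_option linter.deprecated false

open MeasureTheory Set
open scoped ENNReal

noncomputable section

namespace Fermat.Agent.LT.T6.H584

open Fermat.Agent.LT.T6 Fermat.Agent.LT.T6.H420

section Local

variable {k : Type} [Field k] [Valued k Γ₀]

/-! ## The automorphism on `GL₂` -/

theorem glAut_apply584 (s : k ≃+* k) (g : GL (Fin 2) k) (i j : Fin 2) :
    ((glAut s g : GL (Fin 2) k) : Matrix (Fin 2) (Fin 2) k) i j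
      = s ((g : Matrix (Fin 2) (Fin 2) k) i j) := rfl

theorem map_one_apply584 (s : k ≃+* k) (i j : Fin 2) :
    s ((1 : Matrix (Fin 2) (Fin 2) k) i j) = (1 : Matrix (Fin 2) (Fin 2) k) i j := by
  by_cases h : i = j
  · subst h; simp
  · simp [Matrix.one_apply_ne h]

theorem inU_glAut584 (s : k ≃+* k) (hs : ∀ y : k, Valued.v (s y) = Valued.v y) (n : ℕ)
    (u : GL (Fin 2) k) (hu : InU n u) : InU n (glAut s u) := by
  intro i j
  constructor
  · rw [glAut_apply584, ← map_one_apply584 s i j, ← map_sub, hs]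
    exact (hu i j).1
  · rw [← map_inv, glAut_apply584, ← map_one_apply584 s i j, ← map_sub, hs]
    exact (hu i j).2

theorem glAut_iterate584 (s : k ≃+* k) (m : ℕ) (x : GL (Fin 2) k) :
    (glAut s)^[m] x = glAut (s ^ m) x := by
  induction m with
  | zero =>
    apply Units.ext
    ext i j
    rw [Function.iterate_zero, id, glAut_apply584, pow_zero]
    rfl
  | succ m ih =>
    rw [Function.iterate_succ_apply', ih]
    apply Units.ext
    ext i j
    rw [glAut_apply584, glAut_apply584, glAut_apply584, pow_succ']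
    rfl

theorem glAut_iterate_eq584 (s : k ≃+* k) (l : ℕ) (hsl : ∀ y : k, (s ^ l) y = y)
    (x : GL (Fin 2) k) : (glAut s)^[l] x = x := by
  rw [glAut_iterate584]
  apply Units.ext
  ext i j
  rw [glAut_apply584, hsl]

/-- The twisted centraliser of `δ` commutes with the norm of `δ`. -/
theorem twCent_commute584 (s : k ≃+* k) (l : ℕ) (hsl : ∀ y : k, (s ^ l) y = y)
    (δ x : GL (Fin 2) k) (hx : x ∈ twCentSub (glAut s) δ) :
    (x : Matrix (Fin 2) (Fin 2) k) * (twNorm s l δ : GL (Fin 2) k)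
      = (twNorm s l δ : GL (Fin 2) k) * (x : Matrix (Fin 2) (Fin 2) k) := by
  have h := twCent_mul_twN584 (glAut s) δ x hx l
  rw [glAut_iterate_eq584 s l hsl] at h
  have h' := congrArg (fun g : GL (Fin 2) k => (g : Matrix (Fin 2) (Fin 2) k)) h
  simpa [twNorm] using h'

/-- The twisted centraliser of `δ` is commutative if `N δ` is regular. -/
theorem twCent_comm584 (s : k ≃+* k) (l : ℕ) (hsl : ∀ y : k, (s ^ l) y = y)
    (δ : GL (Fin 2) k) (hreg : IsReg (twNorm s l δ)) (x y : GL (Fin 2) k)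
    (hx : x ∈ twCentSub (glAut s) δ) (hy : y ∈ twCentSub (glAut s) δ) :
    (x : Matrix (Fin 2) (Fin 2) k) * (y : Matrix (Fin 2) (Fin 2) k)
      = (y : Matrix (Fin 2) (Fin 2) k) * (x : Matrix (Fin 2) (Fin 2) k) :=
  commute_of_reg584 _ _ _ hreg.ne_zero (twCent_commute584 s l hsl δ x hx)
    (twCent_commute584 s l hsl δ y hy)

/-! ## Traces and determinants -/

theorem trace_conj584 (g x : GL (Fin 2) k) :
    ((g⁻¹ * x * g : GL (Fin 2) k) : Matrix (Fin 2) (Fin 2) k).trace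
      = (x : Matrix (Fin 2) (Fin 2) k).trace := by
  rw [Units.val_mul, Units.val_mul, Matrix.trace_mul_comm, ← Matrix.mul_assoc,
    ← Units.val_mul, mul_inv_cancel, Units.val_one, Matrix.one_mul]

theorem det_conj584 (g x : GL (Fin 2) k) :
    ((g⁻¹ * x * g : GL (Fin 2) k) : Matrix (Fin 2) (Fin 2) k).det
      = (x : Matrix (Fin 2) (Fin 2) k).det := by
  rw [Units.val_mul, Units.val_mul, Matrix.det_mul, Matrix.det_mul, mul_comm, ← mul_assoc,
    ← Matrix.det_mul, ← Units.val_mul, mul_inv_cancel, Units.val_one, Matrix.det_one, one_mul]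

theorem val_entry_le_one584 (n : ℕ) (M : Matrix (Fin 2) (Fin 2) k) (hM : M ∈ matBall n)
    (i j : Fin 2) : Valued.v (M i j) ≤ 1 := by
  have h1 : M i j = (M i j - (1 : Matrix (Fin 2) (Fin 2) k) i j)
      + (1 : Matrix (Fin 2) (Fin 2) k) i j := by ring
  rw [h1]
  refine (Valued.v.map_add _ _).trans (max_le ((hM i j).trans (exp_neg_nat_le_one n)) ?_)
  by_cases h : i = j
  · subst h; simp
  · simp [Matrix.one_apply_ne h]

theorem val_trace_le_one584 (n : ℕ) (M : Matrix (Fin 2) (Fin 2) k) (hM : M ∈ matBall n) :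
    Valued.v M.trace ≤ 1 := by
  rw [Matrix.trace_fin_two]
  exact (Valued.v.map_add _ _).trans
    (max_le (val_entry_le_one584 n M hM 0 0) (val_entry_le_one584 n M hM 1 1))

theorem val_det_le_one584 (n : ℕ) (M : Matrix (Fin 2) (Fin 2) k) (hM : M ∈ matBall n) :
    Valued.v M.det ≤ 1 := by
  rw [Matrix.det_fin_two]
  refine (Valued.v.map_sub _ _).trans (max_le ?_ ?_)
  · rw [map_mul]
    calc Valued.v (M 0 0) * Valued.v (M 1 1) ≤ 1 * 1 :=
          mul_le_mul' (val_entry_le_one584 n M hM 0 0) (val_entry_le_one584 n M hM 1 1)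
      _ = 1 := one_mul _
  · rw [map_mul]
    calc Valued.v (M 0 1) * Valued.v (M 1 0) ≤ 1 * 1 :=
          mul_le_mul' (val_entry_le_one584 n M hM 0 1) (val_entry_le_one584 n M hM 1 0)
      _ = 1 := one_mul _

theorem inU_trace_det584 (n : ℕ) (u : GL (Fin 2) k) (hu : InU n u) :
    Valued.v (u : Matrix (Fin 2) (Fin 2) k).trace ≤ 1 ∧
      Valued.v (u : Matrix (Fin 2) (Fin 2) k).det = 1 := by
  obtain ⟨h1, h2⟩ := (inU_iff n u).1 hu
  refine ⟨val_trace_le_one584 n _ h1, le_antisymm (val_det_le_one584 n _ h1) ?_⟩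
  have hd : (u : Matrix (Fin 2) (Fin 2) k).det
      * ((u⁻¹ : GL (Fin 2) k) : Matrix (Fin 2) (Fin 2) k).det = 1 := by
    rw [← Matrix.det_mul, ← Units.val_mul, mul_inv_cancel, Units.val_one, Matrix.det_one]
  have hv := congrArg Valued.v hd
  rw [map_mul, map_one] at hv
  calc (1 : Γ₀) = Valued.v (u : Matrix (Fin 2) (Fin 2) k).det
        * Valued.v ((u⁻¹ : GL (Fin 2) k) : Matrix (Fin 2) (Fin 2) k).det := hv.symm
    _ ≤ Valued.v (u : Matrix (Fin 2) (Fin 2) k).det * 1 :=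
        mul_le_mul_right (val_det_le_one584 n _ h2) _
    _ = Valued.v (u : Matrix (Fin 2) (Fin 2) k).det := mul_one _

end Local

/-! ## Twisted conjugation in a group -/

section Grp

variable {Γ : Type} [Group Γ]

theorem mem_twCentSub584 (s' : Γ →* Γ) (δ x : Γ) :
    x ∈ twCentSub s' δ ↔ x⁻¹ * δ * s' x = δ := Iff.rfl

theorem tw_conj_mem584 (s' : Γ →* Γ) (δ x₀ t : Γ)
    (h : t⁻¹ * (x₀⁻¹ * δ * s' x₀) * s' t = x₀⁻¹ * δ * s' x₀) :
    x₀ * t * x₀⁻¹ ∈ twCentSub s' δ := by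
  rw [mem_twCentSub584]
  simp only [map_mul, map_inv, mul_inv_rev, inv_inv]
  calc x₀ * (t⁻¹ * x₀⁻¹) * δ * (s' x₀ * s' t * (s' x₀)⁻¹)
      = x₀ * (t⁻¹ * (x₀⁻¹ * δ * s' x₀) * s' t) * (s' x₀)⁻¹ := by group
    _ = x₀ * (x₀⁻¹ * δ * s' x₀) * (s' x₀)⁻¹ := by rw [h]
    _ = δ := by group

theorem tw_conj_inv584 (s' : Γ →* Γ) (δ x₀ t : Γ) (ht : t ∈ twCentSub s' δ) :
    (x₀⁻¹ * t * x₀)⁻¹ * (x₀⁻¹ * δ * s' x₀) * s' (x₀⁻¹ * t * x₀) = x₀⁻¹ * δ * s' x₀ := by
  rw [mem_twCentSub584] at ht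
  simp only [map_mul, map_inv, mul_inv_rev, inv_inv]
  calc x₀⁻¹ * (t⁻¹ * x₀) * (x₀⁻¹ * δ * s' x₀) * ((s' x₀)⁻¹ * s' t * s' x₀)
      = x₀⁻¹ * (t⁻¹ * δ * s' t) * s' x₀ := by group
    _ = x₀⁻¹ * δ * s' x₀ := by rw [ht]

theorem tw_of_dcoset584 (s' : Γ →* Γ) (δ x₀ t u : Γ) (ht : t ∈ twCentSub s' δ) :
    (t * x₀ * u)⁻¹ * δ * s' (t * x₀ * u) = u⁻¹ * (x₀⁻¹ * δ * s' x₀) * s' u := by
  rw [mem_twCentSub584] at ht
  simp only [map_mul, mul_inv_rev]
  calc u⁻¹ * (x₀⁻¹ * t⁻¹) * δ * (s' t * s' x₀ * s' u)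
      = u⁻¹ * x₀⁻¹ * (t⁻¹ * δ * s' t) * s' x₀ * s' u := by group
    _ = u⁻¹ * (x₀⁻¹ * δ * s' x₀) * s' u := by rw [ht]; group

theorem mem_twCent_of_eq584 (s' : Γ →* Γ) (δ x z : Γ)
    (h : x⁻¹ * δ * s' x = z⁻¹ * δ * s' z) : x * z⁻¹ ∈ twCentSub s' δ := by
  rw [mem_twCentSub584]
  simp only [map_mul, map_inv, mul_inv_rev, inv_inv]
  calc z * x⁻¹ * δ * (s' x * (s' z)⁻¹) = z * (x⁻¹ * δ * s' x) * (s' z)⁻¹ := by group
    _ = z * (z⁻¹ * δ * s' z) * (s' z)⁻¹ := by rw [h]
    _ = δ := by group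

end Grp

/-! ## The two measure identities -/

section Core

variable {k : Type} [Field k] [Valued k Γ₀]
  [MeasurableSpace (GL (Fin 2) k)] [BorelSpace (GL (Fin 2) k)]

theorem spec_coset_eq584 (n : ℕ) (t : GL (Fin 2) k) :
    {g : GL (Fin 2) k | ∃ u, InU n u ∧ g = t * u} = cosetU584 (subU n) t := by
  ext g
  simp only [mem_setOf_eq, cosetU584, mem_subU_iff]
  constructor
  · rintro ⟨u, hu, rfl⟩
    rwa [inv_mul_cancel_left]
  · intro h
    exact ⟨t⁻¹ * g, h, by group⟩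

theorem isClosed_twCent584 {q : ℕ} (hk : IsLocalField k q) (s : k ≃+* k)
    (hs : ∀ y : k, Valued.v (s y) = Valued.v y) (δ : GL (Fin 2) k)
    (T : Subgroup (GL (Fin 2) k)) (hT : ∀ x, x ∈ T ↔ x⁻¹ * δ * glAut s x = δ) :
    IsClosed (T : Set (GL (Fin 2) k)) := by
  have hc : Continuous (glAut s) := continuous_glAut hk s hs
  have hc' : Continuous fun x : GL (Fin 2) k => x⁻¹ * δ * glAut s x := by fun_prop
  have : (T : Set (GL (Fin 2) k)) = {x | x⁻¹ * δ * glAut s x = δ} := by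
    ext x
    exact hT x
  rw [this]
  exact isClosed_eq hc' continuous_const

/-- `μT(V) · ∫_{T x₀ U} β dμ = 1`. -/
theorem lint_dcoset584 {q : ℕ} (hk : IsLocalField k q) (s : k ≃+* k)
    (hs : ∀ y : k, Valued.v (s y) = Valued.v y) (n : ℕ) (δ : GL (Fin 2) k)
    (μ : Measure (GL (Fin 2) k)) [μ.IsHaarMeasure] (hμU : μ {g | InU n g} = 1)
    (T : Subgroup (GL (Fin 2) k)) (hT : ∀ x, x ∈ T ↔ x⁻¹ * δ * glAut s x = δ)
    [MeasurableSpace T] [BorelSpace T] (μT : Measure T) [μT.IsHaarMeasure]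
    (β : GL (Fin 2) k → ℝ) (hβc : Continuous β) (hβ0 : ∀ x, 0 ≤ β x)
    (hβint : ∀ x : GL (Fin 2) k, ∫ t : T, β ((t : GL (Fin 2) k) * x) ∂μT = 1)
    (x₀ : GL (Fin 2) k) :
    μT (stabV584 T.subtype (subU n) x₀ : Set T)
      * ∫⁻ x in dcoset584 T.subtype (subU n) x₀, ENNReal.ofReal (β x) ∂μ = 1 := by
  haveI : SecondCountableTopology (GL (Fin 2) k) := secondCountable_GL584 hk
  haveI : SecondCountableTopology T := Topology.IsInducing.subtypeVal.secondCountableTopology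
  haveI : SigmaCompactSpace (GL (Fin 2) k) := sigmaCompactSpace_GL hk
  haveI : SigmaCompactSpace T :=
    (isClosed_twCent584 hk s hs δ T hT).isClosedEmbedding_subtypeVal.sigmaCompactSpace
  obtain ⟨ϖ, hϖ⟩ := hk.unif
  have hU := isOpen_subU (k := k) hϖ n
  have hμU' : μ ((subU n : Subgroup (GL (Fin 2) k)) : Set (GL (Fin 2) k)) = 1 := hμU
  have hint : ∀ u ∈ subU (k := k) n,
      ∫⁻ t : T, ENNReal.ofReal (β (T.subtype t * (x₀ * u))) ∂μT = 1 := by
    intro u _
    have hI : Integrable (fun t : T => β ((t : GL (Fin 2) k) * (x₀ * u))) μT := by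
      by_contra h
      have := integral_undef h
      rw [hβint] at this
      exact one_ne_zero this
    have := ofReal_integral_eq_lintegral_ofReal hI (ae_of_all _ fun t => hβ0 _)
    rw [hβint, ENNReal.ofReal_one] at this
    exact this.symm
  have := weil_coset584 μ μT T.subtype continuous_subtype_val (subU n) hU
    (by rw [hμU']; exact ENNReal.one_ne_top) x₀ (fun x => ENNReal.ofReal (β x))
    hβc.measurable.ennreal_ofReal hint
  rw [this, hμU']

/-- `cIndex(y) · μT(V) = 1`. -/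
theorem index_mul584 {q : ℕ} (hk : IsLocalField k q) (l : ℕ) (s : k ≃+* k)
    (_hs : ∀ y : k, Valued.v (s y) = Valued.v y) (hsl : ∀ y : k, (s ^ l) y = y)
    (n : ℕ) (δ : GL (Fin 2) k) (hreg : IsReg (twNorm s l δ))
    (T : Subgroup (GL (Fin 2) k)) (hT : ∀ x, x ∈ T ↔ x⁻¹ * δ * glAut s x = δ)
    [MeasurableSpace T] [BorelSpace T] (μT : Measure T) [μT.IsHaarMeasure]
    (hμTc : μT {t | Valued.v ((t : GL (Fin 2) k) : Matrix (Fin 2) (Fin 2) k).trace ≤ 1 ∧
        Valued.v ((t : GL (Fin 2) k) : Matrix (Fin 2) (Fin 2) k).det = 1} = 1)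
    (x₀ : GL (Fin 2) k) :
    (cIndex (InU n) (InTwCentC s) (x₀⁻¹ * δ * glAut s x₀) : ℝ≥0∞)
      * μT (stabV584 T.subtype (subU n) x₀ : Set T) = 1 := by
  classical
  obtain ⟨ϖ, hϖ⟩ := hk.unif
  have hUo := isOpen_subU (k := k) hϖ n
  have hT' : ∀ x, x ∈ T ↔ x ∈ twCentSub (glAut s) δ := hT
  set y := x₀⁻¹ * δ * glAut s x₀ with hy
  set V := stabV584 T.subtype (subU n) x₀ with hV
  set 𝒞 : Set (Set (GL (Fin 2) k)) :=
    {c | ∃ t, InTwCentC s y t ∧ c = {g | ∃ u, InU n u ∧ g = t * u}} with h𝒞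
  have hcI : cIndex (InU n) (InTwCentC s) y = 𝒞.ncard := rfl
  set A : Set (GL (Fin 2) k) → Set T :=
    fun c => {t : T | x₀⁻¹ * (t : GL (Fin 2) k) * x₀ ∈ c} with hA
  set Tc : Set T := {t | Valued.v ((t : GL (Fin 2) k) : Matrix (Fin 2) (Fin 2) k).trace ≤ 1 ∧
        Valued.v ((t : GL (Fin 2) k) : Matrix (Fin 2) (Fin 2) k).det = 1} with hTc
  have hconj : Continuous fun t : T => x₀⁻¹ * (t : GL (Fin 2) k) * x₀ := by fun_prop
  have hVopen : IsOpen (V : Set T) :=
    isOpen_stabV584 T.subtype continuous_subtype_val (subU n) hUo x₀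
  have hm0 : μT (V : Set T) ≠ 0 := (hVopen.measure_pos μT ⟨1, V.one_mem⟩).ne'
  -- (a)
  have hAmeasure : ∀ c ∈ 𝒞, μT (A c) = μT (V : Set T) := by
    rintro c ⟨tc, htc, rfl⟩
    have hτ : x₀ * tc * x₀⁻¹ ∈ T := (hT' _).2 (tw_conj_mem584 _ _ _ _ htc.1)
    have : A {g | ∃ u, InU n u ∧ g = tc * u}
        = (fun t : T => (⟨x₀ * tc * x₀⁻¹, hτ⟩ : T)⁻¹ * t) ⁻¹' (V : Set T) := by
      ext t
      have e : x₀⁻¹ * T.subtype ((⟨x₀ * tc * x₀⁻¹, hτ⟩ : T)⁻¹ * t) * x₀
          = tc⁻¹ * (x₀⁻¹ * (t : GL (Fin 2) k) * x₀) := by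
        show x₀⁻¹ * ((x₀ * tc * x₀⁻¹)⁻¹ * (t : GL (Fin 2) k)) * x₀ = _
        group
      constructor
      · rintro ⟨u, hu, hg⟩
        show x₀⁻¹ * T.subtype ((⟨x₀ * tc * x₀⁻¹, hτ⟩ : T)⁻¹ * t) * x₀ ∈ subU n
        rw [e, hg, inv_mul_cancel_left]
        exact hu
      · intro h
        have h' : x₀⁻¹ * T.subtype ((⟨x₀ * tc * x₀⁻¹, hτ⟩ : T)⁻¹ * t) * x₀ ∈ subU n := h
        rw [e] at h'
        exact ⟨tc⁻¹ * (x₀⁻¹ * (t : GL (Fin 2) k) * x₀), h', by group⟩
    rw [this, measure_preimage_mul]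
  -- (d)
  have hAmeas : ∀ c ∈ 𝒞, MeasurableSet (A c) := by
    rintro c ⟨tc, htc, rfl⟩
    have : A {g | ∃ u, InU n u ∧ g = tc * u}
        = (fun t : T => x₀⁻¹ * (t : GL (Fin 2) k) * x₀) ⁻¹' (cosetU584 (subU n) tc) := by
      rw [← spec_coset_eq584]
      rfl
    rw [this]
    exact ((isOpen_cosetU584 (subU n) hUo tc).preimage hconj).measurableSet
  -- (b)
  have hAdisj : ∀ c ∈ 𝒞, ∀ c' ∈ 𝒞, c ≠ c' → Disjoint (A c) (A c') := by
    rintro c ⟨tc, htc, rfl⟩ c' ⟨tc', htc', rfl⟩ hne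
    rw [Set.disjoint_left]
    intro t ht ht'
    apply hne
    rw [spec_coset_eq584, spec_coset_eq584]
    have ht1 : x₀⁻¹ * (t : GL (Fin 2) k) * x₀ ∈ {g | ∃ u, InU n u ∧ g = tc * u} := ht
    have ht2 : x₀⁻¹ * (t : GL (Fin 2) k) * x₀ ∈ {g | ∃ u, InU n u ∧ g = tc' * u} := ht'
    rw [spec_coset_eq584] at ht1 ht2
    have h1 : tc⁻¹ * (x₀⁻¹ * (t : GL (Fin 2) k) * x₀) ∈ subU n := ht1
    have h2 : tc'⁻¹ * (x₀⁻¹ * (t : GL (Fin 2) k) * x₀) ∈ subU n := ht2
    refine (cosetU_eq_of584 (subU n) ?_).symm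
    have : tc⁻¹ * tc' = (tc⁻¹ * (x₀⁻¹ * (t : GL (Fin 2) k) * x₀))
        * (tc'⁻¹ * (x₀⁻¹ * (t : GL (Fin 2) k) * x₀))⁻¹ := by group
    rw [this]
    exact (subU n).mul_mem h1 ((subU n).inv_mem h2)
  -- (c)
  have hAunion : ⋃ c ∈ 𝒞, A c = Tc := by
    ext t
    simp only [mem_iUnion, exists_prop]
    constructor
    · rintro ⟨c, ⟨tc, htc, rfl⟩, u, hu, hg⟩
      have hτ : x₀ * tc * x₀⁻¹ ∈ twCentSub (glAut s) δ := tw_conj_mem584 _ _ _ _ htc.1
      have ht' : (t : GL (Fin 2) k) = x₀ * (tc * u) * x₀⁻¹ := by rw [← hg]; group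
      have hw : x₀ * u * x₀⁻¹ ∈ twCentSub (glAut s) δ := by
        have : x₀ * u * x₀⁻¹ = (x₀ * tc * x₀⁻¹)⁻¹ * (t : GL (Fin 2) k) := by
          rw [ht']; group
        rw [this]
        exact (twCentSub (glAut s) δ).mul_mem ((twCentSub (glAut s) δ).inv_mem hτ)
          ((hT' _).1 t.2)
      have hcomm := twCent_comm584 s l hsl δ hreg _ _ hτ hw
      have htw : (t : GL (Fin 2) k) = (x₀ * tc * x₀⁻¹) * (x₀ * u * x₀⁻¹) := by
        rw [ht']; group
      have e1 : ((x₀ * tc * x₀⁻¹ : GL (Fin 2) k) : Matrix (Fin 2) (Fin 2) k).trace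
          = (tc : Matrix (Fin 2) (Fin 2) k).trace := by
        have := trace_conj584 x₀⁻¹ tc
        rwa [inv_inv] at this
      have e2 : ((x₀ * tc * x₀⁻¹ : GL (Fin 2) k) : Matrix (Fin 2) (Fin 2) k).det
          = (tc : Matrix (Fin 2) (Fin 2) k).det := by
        have := det_conj584 x₀⁻¹ tc
        rwa [inv_inv] at this
      have e3 : ((x₀ * u * x₀⁻¹ : GL (Fin 2) k) : Matrix (Fin 2) (Fin 2) k).trace
          = (u : Matrix (Fin 2) (Fin 2) k).trace := by
        have := trace_conj584 x₀⁻¹ u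
        rwa [inv_inv] at this
      have e4 : ((x₀ * u * x₀⁻¹ : GL (Fin 2) k) : Matrix (Fin 2) (Fin 2) k).det
          = (u : Matrix (Fin 2) (Fin 2) k).det := by
        have := det_conj584 x₀⁻¹ u
        rwa [inv_inv] at this
      obtain ⟨hut, hud⟩ := inU_trace_det584 n u hu
      obtain ⟨-, htct, htcd⟩ := htc
      show Valued.v ((t : GL (Fin 2) k) : Matrix (Fin 2) (Fin 2) k).trace ≤ 1 ∧
        Valued.v ((t : GL (Fin 2) k) : Matrix (Fin 2) (Fin 2) k).det = 1
      rw [htw, Units.val_mul]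
      constructor
      · refine val_trace_mul_le_one584 _ _ hcomm ?_ ?_ ?_ ?_
        · rw [e1]; exact htct
        · rw [e2]; exact htcd.le
        · rw [e3]; exact hut
        · rw [e4]; exact hud.le
      · rw [Matrix.det_mul, map_mul, e2, e4, htcd, hud, one_mul]
    · intro ht
      refine ⟨{g | ∃ u, InU n u ∧ g = (x₀⁻¹ * (t : GL (Fin 2) k) * x₀) * u},
        ⟨x₀⁻¹ * (t : GL (Fin 2) k) * x₀,
          ⟨tw_conj_inv584 _ _ _ _ ((hT' _).1 t.2), ?_, ?_⟩, rfl⟩,
        ⟨1, (subU n).one_mem, by simp⟩⟩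
      · rw [trace_conj584]; exact ht.1
      · rw [det_conj584]; exact ht.2
  -- finite unions
  have hsum : ∀ S : Finset (Set (GL (Fin 2) k)), (↑S : Set (Set (GL (Fin 2) k))) ⊆ 𝒞 →
      μT (⋃ c ∈ S, A c) = (S.card : ℝ≥0∞) * μT (V : Set T) := by
    intro S hS
    rw [measure_biUnion_finset
      (fun c hc c' hc' hne => hAdisj c (hS hc) c' (hS hc') hne)
      (fun c hc => hAmeas c (hS hc)),
      Finset.sum_congr rfl (fun c hc => hAmeasure c (hS (Finset.mem_coe.2 hc))),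
      Finset.sum_const, nsmul_eq_mul]
  have hbound : ∀ S : Finset (Set (GL (Fin 2) k)), (↑S : Set (Set (GL (Fin 2) k))) ⊆ 𝒞 →
      (S.card : ℝ≥0∞) * μT (V : Set T) ≤ 1 := by
    intro S hS
    rw [← hsum S hS, ← hμTc]
    apply measure_mono
    rw [← hAunion]
    intro t ht
    simp only [mem_iUnion, exists_prop] at ht ⊢
    obtain ⟨c, hc, htc⟩ := ht
    exact ⟨c, hS (Finset.mem_coe.2 hc), htc⟩
  have hfin : 𝒞.Finite := by
    by_contra hinf
    obtain ⟨N, hN⟩ := ENNReal.exists_nat_mul_gt hm0 ENNReal.one_ne_top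
    obtain ⟨S, hS, hcard⟩ := Set.Infinite.exists_subset_card_eq hinf N
    have := hbound S hS
    rw [hcard] at this
    exact absurd this (not_le.2 hN)
  have h1 := hsum hfin.toFinset (by rw [hfin.coe_toFinset])
  have h2 : ⋃ c ∈ hfin.toFinset, A c = Tc := by
    rw [← hAunion]
    ext t
    simp only [mem_iUnion, exists_prop, Set.Finite.mem_toFinset]
  rw [h2, hμTc] at h1
  rw [hcI, Set.ncard_eq_toFinset_card 𝒞 hfin]
  exact h1.symm

/-- `∫_{T x₀ U} β dμ = cIndex(y)` (with integrability). -/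
theorem integral_dcoset584 {q : ℕ} (hk : IsLocalField k q) (l : ℕ) (s : k ≃+* k)
    (hs : ∀ y : k, Valued.v (s y) = Valued.v y) (hsl : ∀ y : k, (s ^ l) y = y)
    (n : ℕ) (δ : GL (Fin 2) k) (hreg : IsReg (twNorm s l δ))
    (μ : Measure (GL (Fin 2) k)) [μ.IsHaarMeasure] (hμU : μ {g | InU n g} = 1)
    (T : Subgroup (GL (Fin 2) k)) (hT : ∀ x, x ∈ T ↔ x⁻¹ * δ * glAut s x = δ)
    [MeasurableSpace T] [BorelSpace T] (μT : Measure T) [μT.IsHaarMeasure]
    (hμTc : μT {t | Valued.v ((t : GL (Fin 2) k) : Matrix (Fin 2) (Fin 2) k).trace ≤ 1 ∧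
        Valued.v ((t : GL (Fin 2) k) : Matrix (Fin 2) (Fin 2) k).det = 1} = 1)
    (β : GL (Fin 2) k → ℝ) (hβc : Continuous β) (hβ0 : ∀ x, 0 ≤ β x)
    (hβint : ∀ x : GL (Fin 2) k, ∫ t : T, β ((t : GL (Fin 2) k) * x) ∂μT = 1)
    (x₀ : GL (Fin 2) k) :
    IntegrableOn β (dcoset584 T.subtype (subU n) x₀) μ ∧
      ∫ x in dcoset584 T.subtype (subU n) x₀, β x ∂μ
        = (cIndex (InU n) (InTwCentC s) (x₀⁻¹ * δ * glAut s x₀) : ℝ) := by
  have h1 := lint_dcoset584 hk s hs n δ μ hμU T hT μT β hβc hβ0 hβint x₀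
  have h2 := index_mul584 hk l s hs hsl n δ hreg T hT μT hμTc x₀
  have h3 : ∫⁻ x in dcoset584 T.subtype (subU n) x₀, ENNReal.ofReal (β x) ∂μ
      = (cIndex (InU n) (InTwCentC s) (x₀⁻¹ * δ * glAut s x₀) : ℝ≥0∞) := by
    calc ∫⁻ x in dcoset584 T.subtype (subU n) x₀, ENNReal.ofReal (β x) ∂μ
        = ((cIndex (InU n) (InTwCentC s) (x₀⁻¹ * δ * glAut s x₀) : ℝ≥0∞)
            * μT (stabV584 T.subtype (subU n) x₀ : Set T))
          * ∫⁻ x in dcoset584 T.subtype (subU n) x₀, ENNReal.ofReal (β x) ∂μ := by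
          rw [h2, one_mul]
      _ = (cIndex (InU n) (InTwCentC s) (x₀⁻¹ * δ * glAut s x₀) : ℝ≥0∞) := by
          rw [mul_assoc, h1, mul_one]
  have hsm : AEStronglyMeasurable β (μ.restrict (dcoset584 T.subtype (subU n) x₀)) :=
    hβc.aestronglyMeasurable
  have hnn : 0 ≤ᵐ[μ.restrict (dcoset584 T.subtype (subU n) x₀)] β :=
    ae_of_all _ hβ0
  refine ⟨⟨hsm, ?_⟩, ?_⟩
  · rw [hasFiniteIntegral_iff_ofReal hnn, h3]
    exact ENNReal.natCast_lt_top _
  · rw [integral_eq_lintegral_of_nonneg_ae hnn hsm, h3, ENNReal.toReal_natCast]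

/-- **T6.19, core form** (instances as arguments). -/
theorem orbSumInt_core584 {q : ℕ} (hk : IsLocalField k q) (l : ℕ) (s : k ≃+* k)
    (hs : ∀ y : k, Valued.v (s y) = Valued.v y) (hsl : ∀ y : k, (s ^ l) y = y)
    (n : ℕ) (φ : GL (Fin 2) k → ℂ) (hφ : IsBiInv (InU n) φ)
    (δ : GL (Fin 2) k) (c : ℂ) (hreg : IsReg (twNorm s l δ)) (horb : IsTwOrbSum s n φ δ c)
    (μ : Measure (GL (Fin 2) k)) [μ.IsHaarMeasure] (hμU : μ {g | InU n g} = 1)
    (T : Subgroup (GL (Fin 2) k)) (hT : ∀ x, x ∈ T ↔ x⁻¹ * δ * glAut s x = δ)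
    [MeasurableSpace T] [BorelSpace T] (μT : Measure T) [μT.IsHaarMeasure]
    (hμTc : μT {t | Valued.v ((t : GL (Fin 2) k) : Matrix (Fin 2) (Fin 2) k).trace ≤ 1 ∧
        Valued.v ((t : GL (Fin 2) k) : Matrix (Fin 2) (Fin 2) k).det = 1} = 1)
    (β : GL (Fin 2) k → ℝ) (hβc : Continuous β) (hβ0 : ∀ x, 0 ≤ β x)
    (hβint : ∀ x : GL (Fin 2) k, ∫ t : T, β ((t : GL (Fin 2) k) * x) ∂μT = 1) :
    ∫ x, φ (x⁻¹ * δ * glAut s x) * (β x : ℂ) ∂μ = c := by
  classical
  obtain ⟨ϖ, hϖ⟩ := hk.unif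
  have hUo := isOpen_subU (k := k) hϖ n
  have hT' : ∀ x, x ∈ T ↔ x ∈ twCentSub (glAut s) δ := hT
  obtain ⟨R, hR1, hR2, hR3, hc⟩ := horb
  choose! xr hxr using hR1
  -- the double cosets
  set D : GL (Fin 2) k → Set (GL (Fin 2) k) :=
    fun y => dcoset584 T.subtype (subU n) (xr y) with hD
  have hDopen : ∀ y, IsOpen (D y) := by
    intro y
    rw [hD]
    simp only
    rw [dcoset_eq_iUnion584]
    exact isOpen_iUnion fun q => isOpen_cosetU584 (subU n) hUo _
  -- the value of the twisted conjugate on `D y`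
  have hDtw : ∀ y ∈ R, ∀ x ∈ D y, ∃ u, InU n u ∧ x⁻¹ * δ * glAut s x = u⁻¹ * y * glAut s u := by
    intro y hy x hx
    obtain ⟨t, u, hu, rfl⟩ := hx
    refine ⟨u, hu, ?_⟩
    have := tw_of_dcoset584 (glAut s) δ (xr y) (t : GL (Fin 2) k) u ((hT' _).1 t.2)
    rw [← hxr y hy] at this
    exact this
  have hDφ : ∀ y ∈ R, ∀ x ∈ D y, φ (x⁻¹ * δ * glAut s x) = φ y := by
    intro y hy x hx
    obtain ⟨u, hu, hxu⟩ := hDtw y hy x hx
    rw [hxu]
    exact hφ u⁻¹ (glAut s u) y ((subU n).inv_mem hu) (inU_glAut584 s hs n u hu)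
  have hDdisj : ∀ y ∈ R, ∀ y' ∈ R, y ≠ y' → Disjoint (D y) (D y') := by
    intro y hy y' hy' hne
    rw [Set.disjoint_left]
    intro x hx hx'
    apply hne
    obtain ⟨u, hu, hxu⟩ := hDtw y hy x hx
    obtain ⟨u', hu', hxu'⟩ := hDtw y' hy' x hx'
    refine hR2 y hy y' hy' ⟨u * u'⁻¹, (subU n).mul_mem hu ((subU n).inv_mem hu'), ?_⟩
    have e : u⁻¹ * y * glAut s u = u'⁻¹ * y' * glAut s u' := by rw [← hxu, ← hxu']
    have e' : y' = u' * (u⁻¹ * y * glAut s u) * (glAut s u')⁻¹ := by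
      rw [e]; group
    rw [e']
    simp only [map_mul, map_inv, mul_inv_rev, inv_inv]
    group
  have hzero : ∀ x, (∀ y ∈ R, x ∉ D y) → φ (x⁻¹ * δ * glAut s x) = 0 := by
    intro x hx
    by_contra hne
    obtain ⟨y', hy', u, hu, hxu⟩ := hR3 (x⁻¹ * δ * glAut s x) ⟨x, rfl⟩ hne
    apply hx y' hy'
    have hz : x⁻¹ * δ * glAut s x
        = (xr y' * u)⁻¹ * δ * glAut s (xr y' * u) := by
      rw [hxu]
      conv_lhs => rw [hxr y' hy']
      simp only [map_mul, mul_inv_rev]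
      group
    have ht : x * (xr y' * u)⁻¹ ∈ T := (hT' _).2 (mem_twCent_of_eq584 _ _ _ _ hz)
    exact ⟨⟨x * (xr y' * u)⁻¹, ht⟩, u, hu, by
      show x = x * (xr y' * u)⁻¹ * xr y' * u
      group⟩
  -- the integrals over the double cosets
  have hint : ∀ y ∈ R, IntegrableOn β (D y) μ ∧
      ∫ x in D y, β x ∂μ = (cIndex (InU n) (InTwCentC s) y : ℝ) := by
    intro y hy
    have := integral_dcoset584 hk l s hs hsl n δ hreg μ hμU T hT μT hμTc β hβc hβ0 hβint (xr y)
    rw [← hxr y hy] at this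
    exact this
  -- pointwise decomposition
  have hpt : ∀ x, φ (x⁻¹ * δ * glAut s x) * (β x : ℂ)
      = ∑ y ∈ R, (D y).indicator (fun x => φ y * (β x : ℂ)) x := by
    intro x
    by_cases hx : ∃ y ∈ R, x ∈ D y
    · obtain ⟨y₀, hy₀, hxy₀⟩ := hx
      rw [Finset.sum_eq_single y₀]
      · rw [indicator_of_mem hxy₀, hDφ y₀ hy₀ x hxy₀]
      · intro y hy hne
        have : x ∉ D y := fun h =>
          (Set.disjoint_left.1 (hDdisj y hy y₀ hy₀ hne)) h hxy₀
        exact indicator_of_notMem this _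
      · intro h
        exact absurd hy₀ h
    · push Not at hx
      rw [hzero x hx, zero_mul]
      symm
      apply Finset.sum_eq_zero
      intro y hy
      exact indicator_of_notMem (hx y hy) _
  have hI : ∀ y ∈ R, Integrable ((D y).indicator (fun x => φ y * (β x : ℂ))) μ := by
    intro y hy
    rw [integrable_indicator_iff (hDopen y).measurableSet]
    exact ((hint y hy).1.ofReal (𝕜 := ℂ)).const_mul (φ y)
  calc ∫ x, φ (x⁻¹ * δ * glAut s x) * (β x : ℂ) ∂μ
      = ∫ x, ∑ y ∈ R, (D y).indicator (fun x => φ y * (β x : ℂ)) x ∂μ :=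
        integral_congr_ae (ae_of_all _ hpt)
    _ = ∑ y ∈ R, ∫ x, (D y).indicator (fun x => φ y * (β x : ℂ)) x ∂μ :=
        integral_finset_sum R hI
    _ = ∑ y ∈ R, φ y * (cIndex (InU n) (InTwCentC s) y : ℂ) := by
        refine Finset.sum_congr rfl fun y hy => ?_
        rw [integral_indicator (hDopen y).measurableSet, integral_const_mul,
          integral_complex_ofReal, (hint y hy).2]
        simp
    _ = c := hc.symm

end Core

/-- **T6.19 `OrbSumIntC`**: the orbit sum is the orbital integral. -/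
theorem orbSumIntC584 : OrbSumIntC := by
  intro k _ _ q l s hk hs _ hsl n φ hφ _ δ c hreg horb μ hμ hμU μT hμT hμTc β hβc hβ0 hβint
  exact @orbSumInt_core584 k _ _ (borel (GL (Fin 2) k))
    (@BorelSpace.mk (GL (Fin 2) k) _ (borel (GL (Fin 2) k)) rfl) q hk l s hs hsl n φ hφ δ c hreg
    horb μ hμ hμU (twCentSub (glAut s) δ) (fun _ => Iff.rfl) (borel (twCentSub (glAut s) δ))
    (@BorelSpace.mk (twCentSub (glAut s) δ) _ (borel (twCentSub (glAut s) δ)) rfl) μT hμT hμTc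
    β hβc hβ0 hβint

end Fermat.Agent.LT.T6.H584

end

end
-- ===== PACK-END LT/T6/H584/OrbSumInt.lean

-- ===== PACK-BEGIN LT/T7/H208/SplitIntbl.lean
section





/-!
# Row LT, tower T7, station C2, leaf C2.7.13.3b `LocEqSplitC305b` (helper208, registry row 2741)
# PART B: the cut-off orbital integral of a compact set converges (finite places)

OFF-MAIN.  `k` a local field (`T6.IsLocalField`), `γ ∈ GL₂(k)` regular, `μ` the Haar measure
with `μ(U(m)) = 1`, `β ≥ 0` a continuous cut-off function for the centraliser of `γ`.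

* `Frame846.integrable208` : in the abstract frame of helper846 (`T6/H846/OrbAssembly.lean`),
  if `φ` (bi-`U`-invariant) has an orbit sum at `δ` then `x ↦ φ(x⁻¹ δ s(x)) β(x)` is INTEGRABLE
  (the integrability which is implicit in the proof of `Frame846.orbSum_eq_integral`: the
  integrand is a finite sum of multiples of `1_{T x U} β`, and `β` is integrable on `T x U`).
* `exists_biInv_ge208` : every compact set of `GL₂(k)` is contained in a compact set `S` whose
  indicator function is bi-`U(m)`-invariant with finite support modulo `U(m)`.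
* `integrable_orb_compact208` : `a ↦ 1_K(a⁻¹ γ a) β(a)` is integrable for every compact `K`
  (orbit sums exist: `T6.OrbSumExC` for `k' = k`, `l = e = 1`).

No hole, nothing assumed.  Imports: Mathlib, `T6/Spec.lean`, helper420 `GLTop` (`U(m)` is compact
and open), helper846 `Orb*` (the bridge), byte-identical copies of the files of the closed tower
T6.
-/

set_option autoImplicit false
set_option linter.unusedSectionVars false
set_option linter.style.haveILetI false

open MeasureTheory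
open scoped ENNReal Pointwise

noncomputable section

namespace Fermat.Agent.LT.T7.H208

open Fermat.Agent.LT Fermat.Agent.LT.T6 Fermat.Agent.LT.T6.H846

section Abstract

variable {G H : Type} [Group G] [Group H] {s : G →* G} {δ : G} {ι : H →* G}
  {U : Subgroup G} {Up : G → Prop} {C : G → G → Prop}
  [TopologicalSpace G] [IsTopologicalGroup G] [SecondCountableTopology G]
  [MeasurableSpace G] [BorelSpace G]
  [TopologicalSpace H] [IsTopologicalGroup H] [SecondCountableTopology H]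
  [MeasurableSpace H] [BorelSpace H]

/-- **Integrability in the abstract bridge** (the first half of the proof of
`Frame846.orbSum_eq_integral` of helper846). -/
theorem integrable_frame208 (F : Frame846 s δ ι U Up C) (hι : Continuous ι)
    (hU : IsOpen (U : Set G))
    (μ : Measure G) [μ.IsMulLeftInvariant] (hμU : μ (U : Set G) = 1)
    (ν : Measure H) [ν.IsMulLeftInvariant] [ν.IsOpenPosMeasure]
    (hT : ν {t : H | C δ (ι t)} = 1)
    (φ : G → ℂ) (hφ : IsBiInv Up φ) (c : ℂ) (hc : IsOrbSumGen s Up C φ δ c)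
    (β : G → ℝ) (hβc : Continuous β) (hβ0 : ∀ x, 0 ≤ β x)
    (hβ1 : ∀ x : G, ∫ t : H, β (ι t * x) ∂ν = 1) :
    Integrable (fun x : G => φ (x⁻¹ * δ * s x) * (β x : ℂ)) μ := by
  classical
  haveI : IsLocallyFiniteMeasure μ := locallyFinite_G846 U hU μ hμU
  haveI : IsLocallyFiniteMeasure ν := F.locallyFinite_H hι hU ν hT
  obtain ⟨R, hR1, hR2, hR3, hcsum⟩ := hc
  choose! X hXeq using hR1
  set D : G → Set G := fun y => dcoset846 ι U (X y) with hD
  have hDm : ∀ y, MeasurableSet (D y) := fun y => (isOpen_dcoset846 ι U hU _).measurableSet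
  have hF1 : ∀ y ∈ R, ∀ z ∈ D y, φ (z⁻¹ * δ * s z) = φ y := by
    intro y hy z hz
    obtain ⟨t, u, hu, rfl⟩ := hz
    rw [F.twconj_dcoset, ← hXeq y hy]
    exact hφ u⁻¹ (s u) y ((F.up _).2 (U.inv_mem hu)) ((F.up _).2 (F.sU u hu))
  have hF2 : ∀ z, φ (z⁻¹ * δ * s z) ≠ 0 → ∃ y ∈ R, z ∈ D y := by
    intro z hz
    obtain ⟨y', hy', u, hu, he⟩ := hR3 _ ⟨z, rfl⟩ hz
    refine ⟨y', hy', F.mem_dcoset_of_eq (X y') z u ((F.up u).1 hu) ?_⟩
    rw [he, ← hXeq y' hy']
  have hF3 : ∀ y ∈ R, ∀ y' ∈ R, ∀ z, z ∈ D y → z ∈ D y' → y = y' := by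
    intro y hy y' hy' z hz hz'
    obtain ⟨t, u, hu, h1⟩ := hz
    obtain ⟨t', u', hu', h2⟩ := hz'
    have a1 : z⁻¹ * δ * s z = u⁻¹ * y * s u := by
      rw [h1, F.twconj_dcoset, ← hXeq y hy]
    have a2 : z⁻¹ * δ * s z = u'⁻¹ * y' * s u' := by
      rw [h2, F.twconj_dcoset, ← hXeq y' hy']
    apply hR2 y hy y' hy'
    refine ⟨u * u'⁻¹, (F.up _).2 (U.mul_mem hu (U.inv_mem hu')), ?_⟩
    have e : y' = u' * (u'⁻¹ * y' * s u') * (s u')⁻¹ := by group
    rw [e, ← a2, a1]
    simp only [map_mul, map_inv, mul_inv_rev, inv_inv, mul_assoc]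
  set βe : G → ℝ≥0∞ := fun z => ENNReal.ofReal (β z) with hβe
  have hβem : Measurable βe := ENNReal.measurable_ofReal.comp hβc.measurable
  have hβe1 : ∀ z, ∫⁻ t : H, βe (ι t * z) ∂ν = 1 := by
    intro z
    have h := integral_eq_lintegral_of_nonneg_ae (μ := ν) (f := fun t : H => β (ι t * z))
      (Filter.Eventually.of_forall fun t => hβ0 _)
      (hβc.comp (hι.mul continuous_const)).aestronglyMeasurable
    rw [hβ1 z] at h
    exact (ENNReal.toReal_eq_one_iff _).1 h.symm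
  have hL : ∀ y ∈ R, ∫⁻ z in D y, βe z ∂μ = (cIndex Up C y : ℝ≥0∞) := by
    intro y hy
    have h1 := lintegral_doubleCoset846 μ ν ι hι U hU hμU βe hβem hβe1 (X y)
    have h2 := F.cIndex_mul_stab ν hι hU hT (X y)
    rw [← hXeq y hy] at h2
    have e1 := ENNReal.eq_inv_of_mul_eq_one_left h2
    have e2 := ENNReal.eq_inv_of_mul_eq_one_left (by rwa [mul_comm] at h1 :
      (∫⁻ z in D y, βe z ∂μ) * ν (stab846 ι U (X y)) = 1)
    rw [e1, e2]
  have hInt : ∀ y ∈ R, IntegrableOn β (D y) μ := by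
    intro y hy
    refine ⟨hβc.aestronglyMeasurable, ?_⟩
    rw [hasFiniteIntegral_iff_ofReal (Filter.Eventually.of_forall fun z => hβ0 z)]
    have := hL y hy
    simp only [hβe] at this
    rw [this]
    exact ENNReal.natCast_lt_top _
  set g : G → G → ℂ := fun y z => φ y * (D y).indicator (fun z => (β z : ℂ)) z with hg
  have hpt : ∀ z, φ (z⁻¹ * δ * s z) * (β z : ℂ) = ∑ y ∈ R, g y z := by
    intro z
    by_cases h : ∃ y ∈ R, z ∈ D y
    · obtain ⟨y₀, hy₀, hz₀⟩ := h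
      rw [Finset.sum_eq_single y₀]
      · simp only [hg, Set.indicator_of_mem hz₀]
        rw [hF1 y₀ hy₀ z hz₀]
      · intro y hy hne
        have : z ∉ D y := fun hz => hne (hF3 y hy y₀ hy₀ z hz hz₀)
        simp only [hg, Set.indicator_of_notMem this, mul_zero]
      · intro h'
        exact absurd hy₀ h'
    · have hz0 : φ (z⁻¹ * δ * s z) = 0 := by
        by_contra hne
        exact h (hF2 z hne)
      rw [hz0, zero_mul]
      symm
      apply Finset.sum_eq_zero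
      intro y hy
      have : z ∉ D y := fun hz => h ⟨y, hy, hz⟩
      simp only [hg, Set.indicator_of_notMem this, mul_zero]
  have hgInt : ∀ y ∈ R, Integrable (g y) μ := by
    intro y hy
    refine Integrable.const_mul ?_ _
    rw [integrable_indicator_iff (hDm y)]
    exact (hInt y hy).ofReal
  have hsum : Integrable (fun z => ∑ y ∈ R, g y z) μ := integrable_finsetSum R hgInt
  exact hsum.congr (Filter.Eventually.of_forall fun z => (hpt z).symm)

end Abstract

section Local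

variable {k : Type} [Field k] [Valued k Γ₀]

/-- The trivial extension `k/k` is a local extension of degree `1`. -/
theorem isLocalExt_refl208 : IsLocalExt k k 1 1 (RingHom.id k) (RingEquiv.refl k) where
  cyc :=
    { pos := Nat.one_pos
      fix_i := fun _ => rfl
      fixed := fun y _ => ⟨y, rfl⟩
      order := fun _ => rfl
      faithful := fun m h0 h1 => absurd h1 (by omega) }
  e_pos := Nat.one_pos
  val_i := fun x => by rw [pow_one]; rfl
  val_s := fun _ => rfl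

/-- `N_1 δ = δ`. -/
theorem twNorm_one208 (s : k ≃+* k) (γ : GL (Fin 2) k) : twNorm s 1 γ = γ := by
  show γ * (glAut s) 1 = γ
  rw [map_one, mul_one]

/-- **The cut-off orbital integral of a bi-invariant function of finite support converges.** -/
theorem integrable_orb208 (hEx : OrbSumExC) {q : ℕ} (hk : IsLocalField k q) (m : ℕ)
    (μ : @Measure (GL (Fin 2) k) (borel _))
    (hμ : @Measure.IsHaarMeasure _ _ _ (borel _) μ) (hμU : μ {g | InU m g} = 1)
    (γ : GL (Fin 2) k) (hγ : IsReg γ)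
    (μT : @Measure (twCentSub (glAut (RingEquiv.refl k)) γ) (borel _))
    (hμT : @Measure.IsHaarMeasure _ _ _ (borel _) μT)
    (hμTc : μT {t | Valued.v ((t : GL (Fin 2) k) : Matrix (Fin 2) (Fin 2) k).trace ≤ 1 ∧
        Valued.v ((t : GL (Fin 2) k) : Matrix (Fin 2) (Fin 2) k).det = 1} = 1)
    (β : GL (Fin 2) k → ℝ) (hβc : Continuous β) (hβ0 : ∀ x, 0 ≤ β x)
    (hβ1 : ∀ x : GL (Fin 2) k,
      @integral _ _ _ _ (borel _) μT
        (fun t : twCentSub (glAut (RingEquiv.refl k)) γ => β ((t : GL (Fin 2) k) * x)) = 1)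
    (φ : GL (Fin 2) k → ℂ) (hφ : IsBiInv (InU m) φ) (hφs : HasFinSupp (InU m) φ) :
    @Integrable _ _ _ _ (borel _) (fun x : GL (Fin 2) k => φ (x⁻¹ * γ * x) * (β x : ℂ)) μ := by
  have hreg : IsReg (twNorm (RingEquiv.refl k) 1 γ) := by rw [twNorm_one208]; exact hγ
  have hk' : IsLocalField k (q ^ (1 / 1)) := by
    have : q ^ (1 / 1) = q := by norm_num
    rw [this]; exact hk
  obtain ⟨c, hc⟩ := hEx k k q 1 1 (RingHom.id k) (RingEquiv.refl k) hk hk' isLocalExt_refl208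
    m φ hφ hφs γ hreg
  haveI := secondCountable_GL846 hk
  letI : MeasurableSpace (GL (Fin 2) k) := borel _
  haveI : BorelSpace (GL (Fin 2) k) := ⟨rfl⟩
  haveI : SecondCountableTopology (twCentSub (glAut (RingEquiv.refl k)) γ) :=
    (Topology.IsInducing.subtypeVal
      (t := ((twCentSub (glAut (RingEquiv.refl k)) γ : Subgroup (GL (Fin 2) k)) :
        Set (GL (Fin 2) k)))).secondCountableTopology
  letI : MeasurableSpace (twCentSub (glAut (RingEquiv.refl k)) γ) := borel _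
  haveI : BorelSpace (twCentSub (glAut (RingEquiv.refl k)) γ) := ⟨rfl⟩
  haveI := hμ
  haveI := hμT
  have F := frame846 1 (RingEquiv.refl k) (fun _ => rfl) (fun _ => rfl) m γ hreg
  have hT : μT {t : twCentSub (glAut (RingEquiv.refl k)) γ |
      InTwCentC (RingEquiv.refl k) γ ((twCentSub (glAut (RingEquiv.refl k)) γ).subtype t)}
      = 1 := by
    rw [← hμTc]
    congr 1
    ext t
    exact ⟨fun h => h.2, fun h => ⟨t.2, h⟩⟩
  have h := integrable_frame208 F continuous_subtype_val (isOpen_InU846 hk m) μ hμU μT hT φ hφ c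
    hc β hβc hβ0 hβ1
  refine h.congr (Filter.Eventually.of_forall fun x => ?_)
  show φ (x⁻¹ * γ * glAut (RingEquiv.refl k) x) * (β x : ℂ) = φ (x⁻¹ * γ * x) * (β x : ℂ)
  rw [glAut_eq_self846 (RingEquiv.refl k) (fun _ => rfl) x]

end Local

end Fermat.Agent.LT.T7.H208

end

end
-- ===== PACK-END LT/T7/H208/SplitIntbl.lean

-- ===== PACK-BEGIN LT/T7/H555/SplitIntbl.lean
section




/-!
# Row LT, tower T7, leaf C2.7.13.3 `LocEqSplitC340` / `LocEqSplitC305b` (helper555), part B: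
# CONVERGENCE OF THE LOCAL ORBITAL INTEGRALS AT A REGULAR ELEMENT, topology of Hecke functions

OFF-MAIN.  Abstract part (the frame of helper846, `T6/H846`): if `φ` has an orbit sum at `δ`
then `{z : φ(z⁻¹ δ s(z)) ≠ 0}` is contained in a measurable set on which the cut-off function
`β` is integrable (`Frame846.exists_integrableOn555`; Weil's formula
`H846.lintegral_doubleCoset846`); the indicator function of `U K U` (`dblInd555`) is
bi-invariant with finite support modulo `U` (the input of `T6.OrbSumExC`).  Bi-`U`-invariant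
functions with finite support modulo `U` are continuous with compact support (`U` open and
compact).
-/

set_option autoImplicit false
set_option linter.unusedSectionVars false

open MeasureTheory Topology
open scoped ENNReal Pointwise

noncomputable section

namespace Fermat.Agent.LT.T7.H555

open Fermat.Agent.LT Fermat.Agent.LT.T6 Fermat.Agent.LT.T6.H846

/-! ## 1. The abstract frame -/

section Abstract

variable {G H : Type} [Group G] [Group H] {s : G →* G} {δ : G} {ι : H →* G}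
  {U : Subgroup G} {Up : G → Prop} {C : G → G → Prop}
  [TopologicalSpace G] [IsTopologicalGroup G] [SecondCountableTopology G]
  [MeasurableSpace G] [BorelSpace G]
  [TopologicalSpace H] [IsTopologicalGroup H] [SecondCountableTopology H]
  [MeasurableSpace H] [BorelSpace H]

theorem exists_integrableOn555 (F : Frame846 s δ ι U Up C) (hι : Continuous ι)
    (hU : IsOpen (U : Set G))
    (μ : Measure G) [μ.IsMulLeftInvariant] (hμU : μ (U : Set G) = 1)
    (ν : Measure H) [ν.IsMulLeftInvariant] [ν.IsOpenPosMeasure]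
    (hT : ν {t : H | C δ (ι t)} = 1)
    (φ : G → ℂ) (c : ℂ) (hc : IsOrbSumGen s Up C φ δ c)
    (β : G → ℝ) (hβc : Continuous β) (hβ0 : ∀ x, 0 ≤ β x)
    (hβ1 : ∀ x : G, ∫ t : H, β (ι t * x) ∂ν = 1) :
    ∃ E : Set G, MeasurableSet E ∧ IntegrableOn β E μ ∧
      ∀ z : G, φ (z⁻¹ * δ * s z) ≠ 0 → z ∈ E := by
  classical
  haveI : IsLocallyFiniteMeasure μ := locallyFinite_G846 U hU μ hμU
  haveI : IsLocallyFiniteMeasure ν := F.locallyFinite_H hι hU ν hT
  obtain ⟨R, hR1, _, hR3, _⟩ := hc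
  choose! X hXeq using hR1
  set D : G → Set G := fun y => dcoset846 ι U (X y) with hD
  have hDm : ∀ y, MeasurableSet (D y) := fun y => (isOpen_dcoset846 ι U hU _).measurableSet
  have hF2 : ∀ z, φ (z⁻¹ * δ * s z) ≠ 0 → ∃ y ∈ R, z ∈ D y := by
    intro z hz
    obtain ⟨y', hy', u, hu, he⟩ := hR3 _ ⟨z, rfl⟩ hz
    refine ⟨y', hy', F.mem_dcoset_of_eq (X y') z u ((F.up u).1 hu) ?_⟩
    rw [he, ← hXeq y' hy']
  set βe : G → ℝ≥0∞ := fun z => ENNReal.ofReal (β z) with hβe
  have hβem : Measurable βe := ENNReal.measurable_ofReal.comp hβc.measurable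
  have hβe1 : ∀ z, ∫⁻ t : H, βe (ι t * z) ∂ν = 1 := by
    intro z
    have h := integral_eq_lintegral_of_nonneg_ae (μ := ν) (f := fun t : H => β (ι t * z))
      (Filter.Eventually.of_forall fun t => hβ0 _)
      (hβc.comp (hι.mul continuous_const)).aestronglyMeasurable
    rw [hβ1 z] at h
    exact (ENNReal.toReal_eq_one_iff _).1 h.symm
  have hInt : ∀ y ∈ R, IntegrableOn β (D y) μ := by
    intro y _
    refine ⟨hβc.aestronglyMeasurable, ?_⟩
    rw [hasFiniteIntegral_iff_ofReal (Filter.Eventually.of_forall fun z => hβ0 z)]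
    have h1 := lintegral_doubleCoset846 μ ν ι hι U hU hμU βe hβem hβe1 (X y)
    have hpos := stab_pos846 (U := U) ν hι hU (X y)
    by_contra htop
    rw [not_lt, top_le_iff] at htop
    have htop' : ∫⁻ z in D y, βe z ∂μ = ⊤ := htop
    rw [htop', ENNReal.mul_top hpos.ne'] at h1
    exact ENNReal.top_ne_one h1
  refine ⟨⋃ y ∈ R, D y, R.measurableSet_biUnion fun y _ => hDm y, ?_, ?_⟩
  · exact (integrableOn_finset_iUnion).2 hInt
  · intro z hz
    obtain ⟨y, hy, hzy⟩ := hF2 z hz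
    exact Set.mem_biUnion hy hzy

end Abstract

/-! ## 2. Hecke functions are continuous with compact support -/

section Hecke

variable {G : Type} [Group G] [TopologicalSpace G] [IsTopologicalGroup G]

theorem continuous_of_rightInv555 (U : Subgroup G) (hU : IsOpen (U : Set G)) (φ : G → ℂ)
    (hφ : ∀ g u : G, u ∈ U → φ (g * u) = φ g) : Continuous φ := by
  refine IsLocallyConstant.continuous ((IsLocallyConstant.iff_exists_open φ).2 fun g => ?_)
  refine ⟨{z | g⁻¹ * z ∈ U}, isOpen_leftCoset846 U hU g, ?_, fun z hz => ?_⟩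
  · show g⁻¹ * g ∈ U
    rw [inv_mul_cancel]
    exact U.one_mem
  · have := hφ g (g⁻¹ * z) hz
    rwa [mul_inv_cancel_left] at this

theorem hasCompactSupport_of_finSupp555 [T2Space G] (U : Subgroup G)
    (hUc : IsCompact (U : Set G)) (φ : G → ℂ)
    (hφ : ∃ F : Finset G, ∀ g : G, φ g ≠ 0 → ∃ x ∈ F, ∃ u : G, u ∈ U ∧ g = x * u) :
    HasCompactSupport φ := by
  obtain ⟨F, hF⟩ := hφ
  refine HasCompactSupport.intro (K := ⋃ x ∈ F, (fun u => x * u) '' (U : Set G)) ?_ ?_
  · exact F.isCompact_biUnion fun x _ => hUc.image (continuous_const.mul continuous_id)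
  · intro g hg
    by_contra hne
    obtain ⟨x, hx, u, hu, rfl⟩ := hF g hne
    exact hg (Set.mem_biUnion hx ⟨u, hu, rfl⟩)

/-- The indicator function of `U K U`. -/
def dblInd555 (U : Subgroup G) (K : Set G) : G → ℂ :=
  open Classical in fun g => if g ∈ (U : Set G) * K * (U : Set G) then 1 else 0

theorem dblInd_biInv555 (U : Subgroup G) (K : Set G) (u u' g : G) (hu : u ∈ U) (hu' : u' ∈ U) :
    dblInd555 U K (u * g * u') = dblInd555 U K g := by
  classical
  have key : u * g * u' ∈ (U : Set G) * K * (U : Set G) ↔ g ∈ (U : Set G) * K * (U : Set G) := by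
    constructor
    · rintro ⟨a, ⟨b, hb, k, hk, rfl⟩, c, hc, h⟩
      refine ⟨u⁻¹ * b * k, ⟨u⁻¹ * b, U.mul_mem (U.inv_mem hu) hb, k, hk, rfl⟩, c * u'⁻¹,
        U.mul_mem hc (U.inv_mem hu'), ?_⟩
      have h' : b * k * c = u * g * u' := h
      calc u⁻¹ * b * k * (c * u'⁻¹) = u⁻¹ * (b * k * c) * u'⁻¹ := by group
        _ = g := by rw [h']; group
    · rintro ⟨a, ⟨b, hb, k, hk, rfl⟩, c, hc, h⟩
      refine ⟨u * b * k, ⟨u * b, U.mul_mem hu hb, k, hk, rfl⟩, c * u', U.mul_mem hc hu', ?_⟩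
      have h' : b * k * c = g := h
      calc u * b * k * (c * u') = u * (b * k * c) * u' := by group
        _ = u * g * u' := by rw [h']
  unfold dblInd555
  simp only [key]

theorem dblInd_of_mem555 (U : Subgroup G) (K : Set G) (g : G) (hg : g ∈ K) :
    dblInd555 U K g = 1 := by
  classical
  unfold dblInd555
  rw [if_pos]
  exact ⟨1 * g, ⟨1, U.one_mem, g, hg, rfl⟩, 1, U.one_mem, by simp⟩

theorem dblInd_finSupp555 (U : Subgroup G) (hU : IsOpen (U : Set G))
    (hUc : IsCompact (U : Set G)) (K : Set G) (hK : IsCompact K) :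
    ∃ F : Finset G, ∀ g : G, dblInd555 U K g ≠ 0 → ∃ x ∈ F, ∃ u : G, u ∈ U ∧ g = x * u := by
  classical
  have hc : IsCompact ((U : Set G) * K * (U : Set G)) := (hUc.mul hK).mul hUc
  obtain ⟨t, _, ht⟩ := hc.elim_nhds_subcover (fun x => {z | x⁻¹ * z ∈ U}) (fun x _ =>
    (isOpen_leftCoset846 U hU x).mem_nhds (by
      show x⁻¹ * x ∈ U
      rw [inv_mul_cancel]
      exact U.one_mem))
  refine ⟨t, fun g hg => ?_⟩
  have hmem : g ∈ (U : Set G) * K * (U : Set G) := by
    by_contra hn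
    apply hg
    unfold dblInd555
    rw [if_neg hn]
  obtain ⟨x, hx, hgx⟩ := Set.mem_iUnion₂.1 (ht hmem)
  exact ⟨x, hx, x⁻¹ * g, hgx, by rw [mul_inv_cancel_left]⟩

end Hecke

end Fermat.Agent.LT.T7.H555

end

end
-- ===== PACK-END LT/T7/H555/SplitIntbl.lean

-- ===== PACK-BEGIN LT/T7/H644/SetupNT.lean
section




/-!
# Row LT, tower T7, leaf T7.L2.1.C0 `SetupC` (owner helper644): the number-theoretic part

OFF-MAIN.  Mathlib + the vocabulary `T7.PlaceOver`, `T7.IsCycExt` of `T7/Spec.lean`.  From the two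
leaves of `SetupSpec.lean` (a moved place, transitivity): for a cyclic extension `K'/K` of prime
degree with generator `σ`, a level `𝔏 ≠ 0` of `K'` and a finite set `S₀` of places of `K'` there
are a level `𝔫₀` of `K`, the set `S'` of the prime divisors of `𝔫₀ 𝒪_{K'}`, a place `u` of `K`
and its `σ`-orbit `o` with all the properties of the fields of `H893.IsL2Base` which do not
involve the adeles.
-/

set_option autoImplicit false
set_option linter.unusedSectionVars false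

open IsDedekindDomain NumberField

noncomputable section

namespace Fermat.Agent.LT.T7.H644

open Fermat.Agent.LT.T7

section

variable {K K' : Type} [Field K] [NumberField K] [Field K'] [NumberField K'] [Algebra K K']

/-! ## 1. Places over places -/

theorem placeOver_iff644 (v : HeightOneSpectrum (𝓞 K)) (w : HeightOneSpectrum (𝓞 K')) :
    PlaceOver K K' v w ↔ Ideal.comap (algebraMap (𝓞 K) (𝓞 K')) w.asIdeal = v.asIdeal := by
  constructor
  · intro h
    ext x
    rw [Ideal.mem_comap]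
    exact (h x (algebraMap (𝓞 K) (𝓞 K') x) rfl).symm
  · intro h x y hxy
    have hy : y = algebraMap (𝓞 K) (𝓞 K') x := by
      apply RingOfIntegers.ext
      exact hxy
    rw [hy, ← h, Ideal.mem_comap]

variable (K) in
/-- The place of `K` under a place of `K'`. -/
def under644 (w : HeightOneSpectrum (𝓞 K')) : HeightOneSpectrum (𝓞 K) where
  asIdeal := Ideal.comap (algebraMap (𝓞 K) (𝓞 K')) w.asIdeal
  isPrime := Ideal.comap_isPrime _ _
  ne_bot := Ideal.IsIntegral.comap_ne_bot (𝓞 K) w.ne_bot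

theorem placeOver_under644 (w : HeightOneSpectrum (𝓞 K')) :
    PlaceOver K K' (under644 K w) w :=
  (placeOver_iff644 _ _).2 rfl

theorem eq_under644 {v : HeightOneSpectrum (𝓞 K)} {w : HeightOneSpectrum (𝓞 K')}
    (h : PlaceOver K K' v w) : v = under644 K w := by
  ext1
  exact ((placeOver_iff644 v w).1 h).symm

/-- `𝔫 𝒪_{K'} ⊆ w` iff `𝔫 ⊆ v` for `w` over `v`. -/
theorem up_le_iff644 {v : HeightOneSpectrum (𝓞 K)} {w : HeightOneSpectrum (𝓞 K')}
    (h : PlaceOver K K' v w) (𝔫 : Ideal (𝓞 K)) :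
    Ideal.map (algebraMap (𝓞 K) (𝓞 K')) 𝔫 ≤ w.asIdeal ↔ 𝔫 ≤ v.asIdeal := by
  rw [Ideal.map_le_iff_le_comap, (placeOver_iff644 v w).1 h]

/-! ## 2. The action of the Galois group on the places -/

/-- The automorphism of `𝒪_{K'}` of an element of the Galois group. -/
abbrev galInt644 (τ : K' ≃ₐ[K] K') : 𝓞 K' ≃+* 𝓞 K' :=
  NumberField.RingOfIntegers.mapRingEquiv τ.toRingEquiv

theorem galInt_coe644 (τ : K' ≃ₐ[K] K') (x : 𝓞 K') : ((galInt644 τ x : 𝓞 K') : K') = τ (x : K') :=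
  rfl

theorem galInt_mul644 (τ τ' : K' ≃ₐ[K] K') (x : 𝓞 K') :
    galInt644 (τ * τ') x = galInt644 τ (galInt644 τ' x) := by
  apply RingOfIntegers.ext
  rfl

theorem galInt_one644 (x : 𝓞 K') : galInt644 (1 : K' ≃ₐ[K] K') x = x := by
  apply RingOfIntegers.ext
  rfl

theorem galInt_algebraMap644 (τ : K' ≃ₐ[K] K') (x : 𝓞 K) :
    galInt644 τ (algebraMap (𝓞 K) (𝓞 K') x) = algebraMap (𝓞 K) (𝓞 K') x := by
  apply RingOfIntegers.ext
  show τ (algebraMap K K' (x : K)) = algebraMap K K' (x : K)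
  exact τ.commutes _

theorem mem_map_galInt644 (τ : K' ≃ₐ[K] K') (I : Ideal (𝓞 K')) (y : 𝓞 K') :
    y ∈ Ideal.map (galInt644 τ) I ↔ galInt644 τ⁻¹ y ∈ I := by
  rw [Ideal.mem_map_of_equiv]
  constructor
  · rintro ⟨x, hx, rfl⟩
    rw [← galInt_mul644, inv_mul_cancel, galInt_one644]
    exact hx
  · intro h
    refine ⟨_, h, ?_⟩
    rw [← galInt_mul644, mul_inv_cancel, galInt_one644]

theorem map_galInt_mul644 (τ τ' : K' ≃ₐ[K] K') (I : Ideal (𝓞 K')) :
    Ideal.map (galInt644 (τ * τ')) I = Ideal.map (galInt644 τ) (Ideal.map (galInt644 τ') I) := by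
  ext y
  rw [mem_map_galInt644, mem_map_galInt644, mem_map_galInt644, mul_inv_rev, galInt_mul644]

theorem map_galInt_one644 (I : Ideal (𝓞 K')) :
    Ideal.map (galInt644 (1 : K' ≃ₐ[K] K')) I = I := by
  ext y
  rw [mem_map_galInt644, inv_one, galInt_one644]

theorem map_galInt_pow_fixed644 (τ : K' ≃ₐ[K] K') (I : Ideal (𝓞 K'))
    (h : Ideal.map (galInt644 τ) I = I) (m : ℕ) : Ideal.map (galInt644 (τ ^ m)) I = I := by
  induction m with
  | zero => rw [pow_zero]; exact map_galInt_one644 I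
  | succ m ih => rw [pow_succ, map_galInt_mul644, h, ih]

/-- The image of a place under an element of the Galois group. -/
def move644 (τ : K' ≃ₐ[K] K') (w : HeightOneSpectrum (𝓞 K')) : HeightOneSpectrum (𝓞 K') where
  asIdeal := Ideal.map (galInt644 τ) w.asIdeal
  isPrime := Ideal.map_isPrime_of_equiv (galInt644 τ)
  ne_bot := by
    rw [Ne, Ideal.map_eq_bot_iff_of_injective (galInt644 τ).injective]
    exact w.ne_bot

theorem placeOver_move644 (τ : K' ≃ₐ[K] K') {v : HeightOneSpectrum (𝓞 K)}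
    {w : HeightOneSpectrum (𝓞 K')} (h : PlaceOver K K' v w) :
    PlaceOver K K' v (move644 τ w) := by
  rw [placeOver_iff644] at h ⊢
  rw [← h]
  ext x
  rw [Ideal.mem_comap, Ideal.mem_comap]
  show algebraMap (𝓞 K) (𝓞 K') x ∈ Ideal.map (galInt644 τ) w.asIdeal ↔ _
  rw [mem_map_galInt644, galInt_algebraMap644]

/-! ## 3. The generator -/

theorem exists_generator644 (ℓ : ℕ) (h : IsCycExt K K' ℓ) :
    ∃ σ : K' ≃ₐ[K] K', σ ≠ 1 ∧ σ ^ ℓ = 1 ∧ (∀ τ : K' ≃ₐ[K] K', ∃ j < ℓ, τ = σ ^ j) ∧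
      (∀ x : K', (∃ y : K, algebraMap K K' y = x) ↔ σ x = x) ∧
      (∀ j : ℕ, 0 < j → j < ℓ → ∃ x : K', (σ ^ j) x ≠ x) := by
  classical
  have := h.galois
  have hℓ := h.prime
  have hcard : Nat.card (K' ≃ₐ[K] K') = ℓ := by
    rw [IsGalois.card_aut_eq_finrank, h.degree]
  have : Fact ℓ.Prime := ⟨hℓ⟩
  have : Finite (K' ≃ₐ[K] K') := Nat.finite_of_card_ne_zero (by rw [hcard]; exact hℓ.ne_zero)
  have hnt : Nontrivial (K' ≃ₐ[K] K') := by
    rw [← Finite.one_lt_card_iff_nontrivial, hcard]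
    exact hℓ.one_lt
  obtain ⟨σ, hσ⟩ := exists_ne (1 : K' ≃ₐ[K] K')
  have htop : Subgroup.zpowers σ = ⊤ := zpowers_eq_top_of_prime_card hcard hσ
  have hord : orderOf σ = ℓ := by
    rw [← Nat.card_zpowers, htop, Subgroup.card_top, hcard]
  have h1 : σ ^ ℓ = 1 := by rw [← hord]; exact pow_orderOf_eq_one σ
  refine ⟨σ, hσ, h1, ?_, ?_, ?_⟩
  · intro τ
    have hτ : τ ∈ Subgroup.zpowers σ := by rw [htop]; exact Subgroup.mem_top τ
    rw [mem_zpowers_iff_mem_range_orderOf, hord] at hτ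
    obtain ⟨j, hj, rfl⟩ := Finset.mem_image.1 hτ
    exact ⟨j, Finset.mem_range.1 hj, rfl⟩
  · intro x
    constructor
    · rintro ⟨y, rfl⟩
      exact σ.commutes y
    · intro hx
      have hall : ∀ f : K' ≃ₐ[K] K', f x = x := by
        intro f
        have hf : f ∈ Subgroup.zpowers σ := by rw [htop]; exact Subgroup.mem_top f
        obtain ⟨n, rfl⟩ := Subgroup.mem_zpowers_iff.1 hf
        have hfix : σ ∈ MulAction.stabilizer (K' ≃ₐ[K] K') x := hx
        exact (Subgroup.zpow_mem _ hfix n)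
      exact (IsGalois.mem_range_algebraMap_iff_fixed (F := K) (E := K') x).2 hall
  · intro j hj0 hjl
    by_contra hcon
    have hcon' : ∀ x : K', (σ ^ j) x = x := by
      intro x
      by_contra hx
      exact hcon ⟨x, hx⟩
    have h1 : σ ^ j = 1 := AlgEquiv.ext hcon'
    exact pow_ne_one_of_lt_orderOf hj0.ne' (by rw [hord]; exact hjl) h1

/-! ## 4. The levels and the orbit -/

/-- The prime divisors of a nonzero ideal, as a finite set. -/
theorem exists_factorSet644 {R : Type} [CommRing R] [IsDedekindDomain R] (I : Ideal R)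
    (hI : I ≠ ⊥) :
    ∃ S : Finset (HeightOneSpectrum R), ∀ w : HeightOneSpectrum R, w ∈ S ↔ w.asIdeal ∣ I := by
  classical
  have hI0 : I ≠ 0 := hI
  refine ⟨(Ideal.finite_factors hI0).toFinset, fun w => ?_⟩
  rw [Set.Finite.mem_toFinset]
  rfl

/-- The auxiliary ideal of `K`: contained in `𝔏 ∩ 𝒪_K` and in the places under `S₀`. -/
theorem exists_auxIdeal644 (𝔏 : Ideal (𝓞 K')) (h𝔏 : 𝔏 ≠ ⊥)
    (S₀ : Finset (HeightOneSpectrum (𝓞 K'))) :
    ∃ J : Ideal (𝓞 K), J ≠ ⊥ ∧ Ideal.map (algebraMap (𝓞 K) (𝓞 K')) J ≤ 𝔏 ∧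
      ∀ w ∈ S₀, J ≤ Ideal.comap (algebraMap (𝓞 K) (𝓞 K')) w.asIdeal := by
  classical
  refine ⟨Ideal.comap (algebraMap (𝓞 K) (𝓞 K')) 𝔏 *
    ∏ w ∈ S₀, Ideal.comap (algebraMap (𝓞 K) (𝓞 K')) w.asIdeal, ?_, ?_, ?_⟩
  · refine mul_ne_zero (Ideal.IsIntegral.comap_ne_bot (𝓞 K) h𝔏) ?_
    rw [Finset.prod_ne_zero_iff]
    intro w _
    exact Ideal.IsIntegral.comap_ne_bot (𝓞 K) w.ne_bot
  · exact le_trans (Ideal.map_mono Ideal.mul_le_left) Ideal.map_comap_le
  · intro w hw
    refine le_trans Ideal.mul_le_right ?_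
    exact le_trans Ideal.prod_le_inf (Finset.inf_le hw)

theorem up_ne_bot644 (𝔫 : Ideal (𝓞 K)) (h : 𝔫 ≠ ⊥) :
    Ideal.map (algebraMap (𝓞 K) (𝓞 K')) 𝔫 ≠ ⊥ := by
  rw [Ne, Ideal.map_eq_bot_iff_of_injective (FaithfulSMul.algebraMap_injective (𝓞 K) (𝓞 K'))]
  exact h

/-- **The number-theoretic part of `SetupC`.** -/
theorem exists_setupNT644 (hM : MovedPlaceC644) (hT : GalTransC644) (ℓ : ℕ)
    (h : IsCycExt K K' ℓ) (σ : K' ≃ₐ[K] K') (hσ1 : σ ≠ 1) (hσℓ : σ ^ ℓ = 1)
    (hgen : ∀ τ : K' ≃ₐ[K] K', ∃ j < ℓ, τ = σ ^ j)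
    (𝔏 : Ideal (𝓞 K')) (h𝔏 : 𝔏 ≠ ⊥) (S₀ : Finset (HeightOneSpectrum (𝓞 K'))) :
    ∃ (𝔫₀ : Ideal (𝓞 K)) (S' : Finset (HeightOneSpectrum (𝓞 K')))
      (u : HeightOneSpectrum (𝓞 K)) (o : ℕ → HeightOneSpectrum (𝓞 K')),
      𝔫₀ ≠ ⊥ ∧ Ideal.map (algebraMap (𝓞 K) (𝓞 K')) 𝔫₀ ≤ 𝔏 ∧
      (∀ w, w ∈ S' ↔ w.asIdeal ∣ Ideal.map (algebraMap (𝓞 K) (𝓞 K')) 𝔫₀) ∧
      (∀ w ∈ S₀, w ∈ S') ∧
      (∀ j, (o (j + 1)).asIdeal = Ideal.map (galInt644 σ) (o j).asIdeal) ∧
      (∀ j, 0 < j → j < ℓ → o j ≠ o 0) ∧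
      (∀ j, PlaceOver K K' u (o j)) ∧
      (∀ j, o j ∈ S') ∧
      (∀ j, ¬ (o j).asIdeal ∣ 𝔏) ∧
      u.asIdeal ∣ 𝔫₀ ∧ ¬ u.asIdeal ^ 2 ∣ 𝔫₀ ∧
      (∀ w, PlaceOver K K' u w → ∃ j < ℓ, w = o j) ∧
      (∀ (v : HeightOneSpectrum (𝓞 K)) (w w' : HeightOneSpectrum (𝓞 K')),
        PlaceOver K K' v w → PlaceOver K K' v w' → w ∈ S' → w' ∈ S') := by
  classical
  obtain ⟨J, hJ0, hJ𝔏, hJS⟩ := exists_auxIdeal644 (K := K) 𝔏 h𝔏 S₀
  obtain ⟨T, hT'⟩ := exists_factorSet644 _ (up_ne_bot644 (K' := K') J hJ0)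
  -- the moved place
  have hσx : ∃ x : K', σ.toRingEquiv x ≠ x := by
    by_contra hcon
    push Not at hcon
    exact hσ1 (AlgEquiv.ext hcon)
  obtain ⟨w₀, hw₀T, hw₀σ⟩ := hM K' σ.toRingEquiv hσx T
  have hw₀J : ¬ Ideal.map (algebraMap (𝓞 K) (𝓞 K')) J ≤ w₀.asIdeal := by
    intro hle
    apply hw₀T
    rw [hT']
    exact Ideal.dvd_iff_le.2 hle
  obtain ⟨u, hu₀⟩ : ∃ u : HeightOneSpectrum (𝓞 K), PlaceOver K K' u w₀ :=
    ⟨under644 K w₀, placeOver_under644 w₀⟩
  have huJ : ¬ J ≤ u.asIdeal := fun hle => hw₀J ((up_le_iff644 hu₀ J).2 hle)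
  obtain ⟨𝔫₀, h𝔫₀⟩ : ∃ 𝔫₀ : Ideal (𝓞 K), 𝔫₀ = u.asIdeal * J := ⟨_, rfl⟩
  have h𝔫₀0 : 𝔫₀ ≠ ⊥ := by
    rw [h𝔫₀]
    exact mul_ne_zero u.ne_bot hJ0
  have h𝔫₀u : 𝔫₀ ≤ u.asIdeal := by
    rw [h𝔫₀]
    exact Ideal.mul_le_left
  have h𝔫₀J : 𝔫₀ ≤ J := by
    rw [h𝔫₀]
    exact Ideal.mul_le_right
  obtain ⟨S', hmemS'⟩ := exists_factorSet644 _ (up_ne_bot644 (K' := K') 𝔫₀ h𝔫₀0)
  -- membership in `S'` through the place below
  have hS'iff : ∀ (v : HeightOneSpectrum (𝓞 K)) (w : HeightOneSpectrum (𝓞 K')),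
      PlaceOver K K' v w → (w ∈ S' ↔ 𝔫₀ ≤ v.asIdeal) := by
    intro v w hvw
    rw [hmemS', Ideal.dvd_iff_le, up_le_iff644 hvw]
  obtain ⟨o, ho⟩ : ∃ o : ℕ → HeightOneSpectrum (𝓞 K'),
      ∀ j, (o j).asIdeal = Ideal.map (galInt644 (σ ^ j)) w₀.asIdeal :=
    ⟨fun j => move644 (σ ^ j) w₀, fun _ => rfl⟩
  have hover : ∀ j, PlaceOver K K' u (o j) := by
    intro j
    have h1 : o j = move644 (σ ^ j) w₀ := by
      ext1
      exact ho j
    rw [h1]
    exact placeOver_move644 (σ ^ j) hu₀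
  refine ⟨𝔫₀, S', u, o, h𝔫₀0, ?_, hmemS', ?_, ?_, ?_, hover, ?_, ?_, ?_, ?_, ?_, ?_⟩
  · -- the level
    exact le_trans (Ideal.map_mono h𝔫₀J) hJ𝔏
  · -- `S₀ ⊆ S'`
    intro w hw
    rw [hS'iff _ w (placeOver_under644 w)]
    exact le_trans h𝔫₀J (hJS w hw)
  · -- the orbit relation
    intro j
    rw [ho, ho, pow_succ', map_galInt_mul644]
  · -- the orbit has `ℓ` elements
    intro j hj0 hjl hcon
    have h1 : Ideal.map (galInt644 (σ ^ j)) w₀.asIdeal = w₀.asIdeal := by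
      have h0 : (o j).asIdeal = (o 0).asIdeal := congrArg HeightOneSpectrum.asIdeal hcon
      rw [ho, ho, pow_zero, map_galInt_one644] at h0
      exact h0
    have hcop : Nat.Coprime j ℓ :=
      ((Nat.Prime.coprime_iff_not_dvd h.prime).2 (Nat.not_dvd_of_pos_of_lt hj0 hjl)).symm
    obtain ⟨m, -, hm⟩ := Nat.exists_mul_mod_eq_one_of_coprime hcop h.prime.one_lt
    have h2 := map_galInt_pow_fixed644 (σ ^ j) w₀.asIdeal h1 m
    rw [← pow_mul, pow_eq_pow_mod (j * m) hσℓ, hm, pow_one] at h2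
    exact hw₀σ h2
  · -- the orbit divides the base level
    intro j
    rw [hS'iff u (o j) (hover j)]
    exact h𝔫₀u
  · -- the orbit is prime to the level
    intro j hdvd
    have h1 : 𝔏 ≤ (o j).asIdeal := Ideal.dvd_iff_le.1 hdvd
    have h2 : Ideal.map (algebraMap (𝓞 K) (𝓞 K')) J ≤ (o j).asIdeal := le_trans hJ𝔏 h1
    rw [up_le_iff644 (hover j)] at h2
    exact huJ h2
  · exact Dvd.intro J h𝔫₀.symm
  · intro hdvd
    rw [pow_two, h𝔫₀] at hdvd
    have hu0 : u.asIdeal ≠ 0 := u.ne_bot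
    have h1 : u.asIdeal ∣ J := (mul_dvd_mul_iff_left hu0).1 hdvd
    exact huJ (Ideal.dvd_iff_le.1 h1)
  · -- the orbit is the fibre
    intro w hw
    obtain ⟨τ, hτ⟩ := hT K K' h.galois u w₀ w hu₀ hw
    obtain ⟨j, hj, rfl⟩ := hgen τ
    refine ⟨j, hj, ?_⟩
    ext1
    rw [ho]
    exact hτ
  · intro v w w' hw hw' hmem
    rw [hS'iff v w' hw']
    exact (hS'iff v w hw).1 hmem

end

end Fermat.Agent.LT.T7.H644

end

end
-- ===== PACK-END LT/T7/H644/SetupNT.lean

-- ===== PACK-BEGIN LT/T7/H277/TwDomain.lean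
section





/-!
# Row LT, tower T7, leaf T7.G1 (helper277, SPARE): twisted fundamental domains exist

For a frame `(μ, F)` of T5 and every `δ ∈ GL₂(K)` the `σ`-centraliser `twStab s δ` has a strict
Borel fundamental domain in the slab: the union of the translates `a F` of the fundamental
domain of `GL₂(K)` by a set `A` of representatives of `twStab s δ \ GL₂(K)`.  Uses the product
formula (`T1.AdNormC`) for the `GL₂(K)`-invariance of the slab and the countability of `GL₂(K)`.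
OFF-MAIN.
-/

set_option autoImplicit false
open IsDedekindDomain NumberField MeasureTheory
open scoped MatrixGroups
open Fermat.Agent.LT.H556.A0 Fermat.Agent.LT.T5

noncomputable section
namespace Fermat.Agent.LT.T7.H277

open Fermat.Agent.LT.T5.H277

variable {K : Type} [Field K] [NumberField K]

attribute [local instance] Fermat.Agent.LT.T5.instMeasurableSpaceG

/-- The slab is invariant under left translation by `GL₂(K)`. -/
theorem slab_ratG_mul277 (hN : T1.AdNormC K) (γ : GL (Fin 2) K) (g : G K) :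
    (ratG γ * g ∈ slab K) ↔ g ∈ slab K := by
  rw [mem_slab_iff277, mem_slab_iff277, nd277_mul hN, nd277_ratG hN, one_mul]

/-- The translate of a Borel set by an element of `GL₂(𝔸_K)` is Borel. -/
theorem measurableSet_mulLeft_image277 (u : G K) {F : Set (G K)} (hF : MeasurableSet F) :
    MeasurableSet ((fun x : G K => u * x) '' F) := by
  have : BorelSpace (G K) := borelSpaceG277
  exact ((Homeomorph.mulLeft u).measurableEmbedding.measurableSet_image).mpr hF

/-- **Twisted fundamental domains exist.** -/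
theorem exists_isTwDomain277 (hN : T1.AdNormC K) {μ : Measure (G K)} {F : Set (G K)}
    (hF : IsFrame μ F) (s : AdelicAut K) (δ : GL (Fin 2) K) :
    ∃ Fδ : Set (G K), IsTwDomain s δ Fδ := by
  obtain ⟨A, hA, -⟩ := (twStab s δ).exists_isComplement_right 1
  have hcount : A.Countable := by
    have : Countable (GL (Fin 2) K) := countable_GL277 K
    exact Set.to_countable A
  refine ⟨⋃ a ∈ A, (fun x : G K => ratG a * x) '' F, ?_, ?_, ?_⟩
  · exact MeasurableSet.biUnion hcount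
      (fun a _ => measurableSet_mulLeft_image277 (ratG a) hF.meas)
  · intro y hy
    simp only [Set.mem_iUnion, Set.mem_image] at hy
    obtain ⟨a, -, x, hx, rfl⟩ := hy
    exact (slab_ratG_mul277 hN a x).2 (hF.sub hx)
  · intro g hg
    obtain ⟨γ0, hγ0, hγ0u⟩ := hF.strict g hg
    -- membership criterion
    have key : ∀ h : GL (Fin 2) K,
        (ratG h * g ∈ ⋃ a ∈ A, (fun x : G K => ratG a * x) '' F) ↔ h * γ0⁻¹ ∈ A := by
      intro h
      simp only [Set.mem_iUnion, Set.mem_image]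
      constructor
      · rintro ⟨a, ha, x, hx, hxe⟩
        have hx' : x = ratG (a⁻¹ * h) * g := by
          rw [map_mul, map_inv, mul_assoc, ← hxe, inv_mul_cancel_left]
        have h1 : a⁻¹ * h = γ0 := hγ0u _ (by
          show ratG (a⁻¹ * h) * g ∈ F
          rw [← hx']; exact hx)
        have h2 : h * γ0⁻¹ = a := by
          rw [← h1]; group
        rw [h2]; exact ha
      · intro ha
        refine ⟨h * γ0⁻¹, ha, ratG γ0 * g, hγ0, ?_⟩
        rw [← mul_assoc, ← map_mul, inv_mul_cancel_right]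
    obtain ⟨⟨h0, a0⟩, hdec, huniq⟩ := hA.existsUnique γ0⁻¹
    have hdec : (h0 : GL (Fin 2) K) * (a0 : GL (Fin 2) K) = γ0⁻¹ := hdec
    have hmem : (h0 : GL (Fin 2) K)⁻¹ ∈ twStab s δ := (twStab s δ).inv_mem h0.2
    refine ⟨⟨(h0 : GL (Fin 2) K)⁻¹, hmem⟩, ?_, ?_⟩
    · show ratG ((h0 : GL (Fin 2) K)⁻¹) * g ∈ _
      rw [key]
      have : (h0 : GL (Fin 2) K)⁻¹ * γ0⁻¹ = a0 := by
        rw [← hdec]; simp
      rw [this]; exact a0.2
    · intro h hh
      have hh' : (h : GL (Fin 2) K) * γ0⁻¹ ∈ A := (key _).1 hh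
      have hinv : (h : GL (Fin 2) K)⁻¹ ∈ ((twStab s δ : Subgroup (GL (Fin 2) K)) : Set (GL (Fin 2) K)) :=
        (twStab s δ).inv_mem h.2
      have := huniq (⟨(h : GL (Fin 2) K)⁻¹, hinv⟩, ⟨(h : GL (Fin 2) K) * γ0⁻¹, hh'⟩)
        (by show (h : GL (Fin 2) K)⁻¹ * ((h : GL (Fin 2) K) * γ0⁻¹) = γ0⁻¹; simp)
      have h3 : (h : GL (Fin 2) K)⁻¹ = (h0 : GL (Fin 2) K) :=
        congrArg (fun x => (x.1 : GL (Fin 2) K)) this
      apply Subtype.ext
      show (h : GL (Fin 2) K) = (h0 : GL (Fin 2) K)⁻¹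
      rw [← h3, inv_inv]

end Fermat.Agent.LT.T7.H277
end

end
-- ===== PACK-END LT/T7/H277/TwDomain.lean

-- ===== PACK-BEGIN LT/T7/H277/FlatAdd.lean
section





/-!
# Row LT, tower T7, ASSET (helper277): the periodisation along the ray is a FINITE sum

For a compactly supported `φ` and every `g` only finitely many `m ∈ ℤ` have `φ (g rᵐ) ≠ 0`
(the module `‖det‖` is continuous, positive and `‖det r‖ = 2`).  Hence `T5.flat`, `T5.twTerm`
are additive in `φ` on compactly supported functions -- needed wherever a test function is a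
SUM (e.g. `f₀ + f₁` in the quadratic mirror of `GeomC`).  Input: `T1.AdNormC`.  OFF-MAIN.
-/

set_option autoImplicit false
open IsDedekindDomain NumberField MeasureTheory
open scoped MatrixGroups
open Fermat.Agent.LT.H556.A0 Fermat.Agent.LT.T5

noncomputable section
namespace Fermat.Agent.LT.T7.H277

open Fermat.Agent.LT.T5.H277

variable {K : Type} [Field K] [NumberField K]

/-- The determinant `GL₂(𝔸_K) → 𝔸_Kˣ` is continuous. -/
theorem continuous_detG277 :
    Continuous (fun g : G K => (Matrix.GeneralLinearGroup.det g : (Adl K)ˣ)) := by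
  rw [Units.continuous_iff]
  constructor
  · have : (Units.val ∘ fun g : G K => (Matrix.GeneralLinearGroup.det g : (Adl K)ˣ))
        = fun g : G K => Matrix.det (g : Matrix (Fin 2) (Fin 2) (Adl K)) := by
      funext g; rfl
    rw [this]
    exact Continuous.matrix_det Units.continuous_val
  · have : (fun g : G K => (((Matrix.GeneralLinearGroup.det g : (Adl K)ˣ)⁻¹ : (Adl K)ˣ) : Adl K))
        = fun g : G K => Matrix.det ((g⁻¹ : G K) : Matrix (Fin 2) (Fin 2) (Adl K)) := by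
      funext g
      rw [← map_inv]; rfl
    rw [this]
    exact Continuous.matrix_det Units.continuous_coe_inv

/-- The module of the determinant is continuous. -/
theorem continuous_nd277 (hN : T1.AdNormC K) : Continuous (nd277 : G K → ℝ) := by
  have h := hN.2.2.2.comp (continuous_detG277 (K := K))
  exact h

/-- Only finitely many points of a ray through `g` meet a compact support. -/
theorem finite_ray_support277 (hN : T1.AdNormC K) {r : G K} (hr : IsRayGen r)
    {φ : G K → ℂ} (hφ : HasCompactSupport φ) (g : G K) :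
    {m : ℤ | φ (g * r ^ m) ≠ 0}.Finite := by
  by_cases hne : (tsupport φ).Nonempty
  swap
  · rw [Set.not_nonempty_iff_eq_empty] at hne
    have : {m : ℤ | φ (g * r ^ m) ≠ 0} = ∅ := by
      ext m
      simp only [Set.mem_setOf_eq, Set.mem_empty_iff_false, iff_false, not_not]
      by_contra h
      have : g * r ^ m ∈ tsupport φ := subset_tsupport _ h
      rw [hne] at this
      exact this
    rw [this]; exact Set.finite_empty
  have hcomp : IsCompact (tsupport φ) := hφ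
  obtain ⟨x₁, -, h₁⟩ := hcomp.exists_isMinOn hne (continuous_nd277 hN).continuousOn
  obtain ⟨x₂, -, h₂⟩ := hcomp.exists_isMaxOn hne (continuous_nd277 hN).continuousOn
  have ha : 0 < nd277 x₁ := nd277_pos hN _
  have hb : 0 < nd277 x₂ := nd277_pos hN _
  have hg : 0 < nd277 g := nd277_pos hN _
  apply Set.Finite.subset (Set.finite_Icc (Int.clog 2 (nd277 x₁ / nd277 g))
    (Int.log 2 (nd277 x₂ / nd277 g)))
  intro m hm
  have hmem : g * r ^ m ∈ tsupport φ := subset_tsupport _ hm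
  have e : nd277 (g * r ^ m) = nd277 g * (2 : ℝ) ^ m := by
    rw [nd277_mul hN, nd277_zpow hN hr]
  have l1 : nd277 x₁ ≤ nd277 g * (2 : ℝ) ^ m := by
    rw [← e]; exact h₁ hmem
  have l2 : nd277 g * (2 : ℝ) ^ m ≤ nd277 x₂ := by
    rw [← e]; exact h₂ hmem
  constructor
  · rw [← Int.le_zpow_iff_clog_le (by norm_num : 1 < 2) (div_pos ha hg)]
    rw [div_le_iff₀ hg]
    push_cast
    linarith
  · rw [← Int.zpow_le_iff_le_log (by norm_num : 1 < 2) (div_pos hb hg)]
    rw [le_div_iff₀ hg]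
    push_cast
    linarith

theorem summable_ray277 (hN : T1.AdNormC K) {r : G K} (hr : IsRayGen r)
    {φ : G K → ℂ} (hφ : HasCompactSupport φ) (g : G K) :
    Summable fun m : ℤ => φ (g * r ^ m) :=
  summable_of_finite_support (finite_ray_support277 hN hr hφ g)

/-- `T5.flat` is additive on compactly supported functions. -/
theorem flat_add277 (hN : T1.AdNormC K) {r : G K} (hr : IsRayGen r)
    {φ₁ φ₂ : G K → ℂ} (h₁ : HasCompactSupport φ₁) (h₂ : HasCompactSupport φ₂) (g : G K) :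
    flat r (fun x => φ₁ x + φ₂ x) g = flat r φ₁ g + flat r φ₂ g := by
  show ∑' m : ℤ, (φ₁ (g * r ^ m) + φ₂ (g * r ^ m)) = _
  exact (summable_ray277 hN hr h₁ g).tsum_add (summable_ray277 hN hr h₂ g)

/-- `T5.twTerm` is additive on compactly supported functions. -/
theorem twTerm_add277 (hN : T1.AdNormC K) {r : G K} (hr : IsRayGen r) (s : AdelicAut K)
    {φ₁ φ₂ : G K → ℂ} (h₁ : HasCompactSupport φ₁) (h₂ : HasCompactSupport φ₂)
    (δ : GL (Fin 2) K) (x : G K) :
    twTerm r s (fun y => φ₁ y + φ₂ y) δ x = twTerm r s φ₁ δ x + twTerm r s φ₂ δ x :=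
  flat_add277 hN hr h₁ h₂ _

/-- `T5.flat` commutes with scalars. -/
theorem flat_smul277 (r : G K) (c : ℂ) (φ : G K → ℂ) (g : G K) :
    flat r (fun x => c * φ x) g = c * flat r φ g := by
  show ∑' m : ℤ, c * φ (g * r ^ m) = c * ∑' m : ℤ, φ (g * r ^ m)
  exact tsum_mul_left

end Fermat.Agent.LT.T7.H277
end

end
-- ===== PACK-END LT/T7/H277/FlatAdd.lean

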