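import Mathlib
import Fermat.Agent.Pack.LT3.E9L0
import Fermat.Agent.Pack.LT3.E10L1
import Fermat.Agent.Pack.LT3.E10L0
import Fermat.Agent.Pack.LT3.E9L2
import Fermat.Agent.Pack.LT3.E6L2
import Fermat.Agent.Pack.LT3.E10L2
import Fermat.Agent.Pack.LT3.E7L3
import Fermat.Agent.Pack.LT3.E8L1
import Fermat.Agent.Pack.LT2.E6L2
import Fermat.Agent.Pack.LT2.E0L2
import Fermat.Agent.Pack.LT2.E2L1
import Fermat.Agent.Pack.LT2.E3L1
import Fermat.Agent.Pack.LT2.E7L2
import Fermat.Agent.Pack.LT3.E7L2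
import Fermat.Agent.Pack.LT2.E0L1
import Fermat.Agent.Pack.LT3.E10L3
import Fermat.Agent.Pack.LT3.E12L2

set_option linter.all false

-- ===== PACK-BEGIN LT/T6/H385/QuatTop.lean
section


/-!
# Row LT, tower T6, leaf T6.18i `CenQuatC783`: the PROVED tops from the sub-leaves (helper385)

* `cenQuat_of_leaves385 : H288.CartanInvC → SphFinSuppC385 → EPOrbC385 → HypNonNormC385 →
    EllNormC385 → TwDescC385 → H783.CenQuatC783`
* `ellNorm_of_cases385 : H159.NormCritC → EllNormRamC385 → EllNormC385`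
* `ellNormRam_of_core385 : SqrtNearC385 → QuatCoreRamC385 → EllNormRamC385`
* `twDesc_of_leaves385 : TwReduceC385 → TwDescOrbC385 → TwDescC385`
-/

set_option autoImplicit false

open scoped Matrix

noncomputable section

namespace Fermat.Agent.LT.T6.H385

open Fermat.Agent.LT.T6 Fermat.Agent.LT.T6.H783

/-! ## Small lemmas -/

section Basic

variable {k : Type} [Field k] [Valued k Γ₀]

theorem inChiBall_mono385 {t d : k} {N N' : ℤ} (h : N ≤ N') {γ : GL (Fin 2) k}
    (hγ : InChiBall783 t d N' γ) : InChiBall783 t d N γ := by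
  have hle : WithZero.exp (-N') ≤ WithZero.exp (-N) := by
    rw [WithZero.exp_le_exp]
    omega
  exact ⟨hγ.1.trans hle, hγ.2.trans hle⟩

/-- Orbit sums of a constant multiple. -/
theorem orbSum_of_mul385 {Γ : Type} [Group Γ] {s : Γ →* Γ} {U : Γ → Prop} {C : Γ → Γ → Prop}
    {f : Γ → ℂ} {δ : Γ} {a c : ℂ} (ha : a ≠ 0)
    (h : IsOrbSumGen s U C (fun g => a * f g) δ c) : IsOrbSumGen s U C f δ (c / a) := by
  obtain ⟨R, h1, h2, h3, h4⟩ := h
  refine ⟨R, h1, h2, ?_, ?_⟩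
  · intro y hy hne
    exact h3 y hy (mul_ne_zero ha hne)
  · rw [h4, Finset.sum_div]
    refine Finset.sum_congr rfl fun y _ => ?_
    field_simp

theorem orbSum_zero_fun385 {Γ : Type} [Group Γ] {s : Γ →* Γ} {U : Γ → Prop} {C : Γ → Γ → Prop}
    {δ : Γ} {c : ℂ} (h : IsOrbSumGen s U C (fun _ => (0 : ℂ)) δ c) : c = 0 := by
  obtain ⟨R, -, -, -, h4⟩ := h
  rw [h4]
  simp

/-- Orbit sums only depend on the twisted conjugacy class of the base point. -/
theorem orbSum_twConj385 {Γ : Type} [Group Γ] {s : Γ →* Γ} {U : Γ → Prop} {C : Γ → Γ → Prop}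
    {f : Γ → ℂ} {δ δ' : Γ} {c : ℂ} (x : Γ) (hx : δ' = x⁻¹ * δ * s x)
    (h : IsOrbSumGen s U C f δ c) : IsOrbSumGen s U C f δ' c := by
  obtain ⟨R, h1, h2, h3, h4⟩ := h
  have key : ∀ y : Γ, (∃ x' : Γ, y = x'⁻¹ * δ' * s x') ↔ ∃ x' : Γ, y = x'⁻¹ * δ * s x' := by
    intro y
    constructor
    · rintro ⟨x', rfl⟩
      refine ⟨x * x', ?_⟩
      rw [hx, map_mul, mul_inv_rev]
      group
    · rintro ⟨x', rfl⟩
      refine ⟨x⁻¹ * x', ?_⟩
      rw [hx, map_mul, map_inv, mul_inv_rev, inv_inv]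
      group
  refine ⟨R, fun y hy => (key y).2 (h1 y hy), h2, fun y hy hne => h3 y ((key y).1 hy) hne, h4⟩

end Basic

/-! ## `twDesc_of_leaves385` -/

section Tw

variable {k k' : Type} [Field k] [Field k']

theorem glAut_glAut385 {l : ℕ} {i : k →+* k'} {s : k' ≃+* k'}
    (h : IsCyclicData k k' l i s) (hl : l = 2) (x : GL (Fin 2) k') :
    glAut s (glAut s x) = x := by
  apply Units.ext
  ext a b
  have h2 := h.order (x.val a b)
  rw [hl] at h2
  simpa [glAut, pow_two] using h2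

theorem twNorm_two385 (s : k' ≃+* k') (δ : GL (Fin 2) k') :
    twNorm s 2 δ = δ * glAut s δ := by
  simp [twNorm, twN]

theorem twNorm_twConj385 {l : ℕ} {i : k →+* k'} {s : k' ≃+* k'}
    (h : IsCyclicData k k' l i s) (hl : l = 2) (δ x : GL (Fin 2) k') :
    twNorm s 2 (x⁻¹ * δ * glAut s x) = x⁻¹ * twNorm s 2 δ * x := by
  rw [twNorm_two385, twNorm_two385, map_mul, map_mul, map_inv, glAut_glAut385 h hl]
  group

end Tw

/-- **`TwDescC385` from its two leaves.** -/
theorem twDesc_of_leaves385 (hr : TwReduceC385) (ho : TwDescOrbC385) : TwDescC385 := by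
  intro k k' _ _ _ _ q e i s n φ hbad z hz hnn
  obtain ⟨M, c₀, hM⟩ := ho k k' q e i s n φ hbad z hz hnn
  obtain ⟨N, hN⟩ := hr k k' q e i s ⟨hbad.hk, hbad.hk', hbad.ext⟩ z hz hnn M
  refine ⟨N, c₀, ?_⟩
  intro δ γ c hreg hball hell hconj hsum
  obtain ⟨w, δ₀, hb, hq, hu, x, hx⟩ := hN δ γ hreg hball hconj
  refine hM w δ₀ γ c hb hq hu hreg hell ?_ ?_
  · rw [hx, twNorm_twConj385 hbad.ext.cyc rfl]
    have h1 : IsConj (x⁻¹ * twNorm s 2 δ * x) (twNorm s 2 δ) := by
      rw [isConj_iff]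
      exact ⟨x, by group⟩
    exact h1.trans hconj
  · exact orbSum_twConj385 x hx hsum

/-! ## `ellNorm_of_cases385` -/

theorem e_cases385 {k k' : Type} [Field k] [Field k'] [Valued k Γ₀] [Valued k' Γ₀]
    {q e : ℕ} {i : k →+* k'} {s : k' ≃+* k'} (h : QuadData385 k k' q e i s) :
    e = 1 ∨ e = 2 := by
  have h1 : 1 < q ^ (2 / e) := H159.one_lt_of_isLocalField h.hk'
  have h2 : 0 < e := h.ext.e_pos
  have h3 : 2 / e ≠ 0 := by
    intro h0
    rw [h0, pow_zero] at h1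
    exact lt_irrefl _ h1
  have h4 : e ≤ 2 := by
    by_contra hlt
    exact h3 (Nat.div_eq_of_lt (by omega))
  omega

theorem val_det_of_ball385 {k : Type} [Field k] [Valued k Γ₀] {z : k} (hz : z ≠ 0)
    {γ : GL (Fin 2) k}
    (hγ : InChiBall783 (2 * z) (z ^ 2) (-(2 * WithZero.log (Valued.v z)) + 1) γ) :
    Valued.v (γ : Matrix (Fin 2) (Fin 2) k).det = Valued.v (z ^ 2) := by
  have hvz : Valued.v z ≠ 0 := (Valuation.ne_zero_iff _).2 hz
  have h1 : Valued.v ((γ : Matrix (Fin 2) (Fin 2) k).det - z ^ 2) < Valued.v (z ^ 2) := by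
    refine lt_of_le_of_lt hγ.2 ?_
    have hz2 : Valued.v (z ^ 2) = WithZero.exp (2 * WithZero.log (Valued.v z)) := by
      rw [map_pow, ← WithZero.exp_log hvz, ← WithZero.exp_nsmul, WithZero.log_exp]
      simp
    rw [hz2, WithZero.exp_lt_exp]
    omega
  exact Valuation.map_eq_of_sub_lt _ h1

/-- **`EllNormC385` from the unramified norm criterion and the ramified case.** -/
theorem ellNorm_of_cases385 (hc : H159.NormCritC) (hr : EllNormRamC385) : EllNormC385 := by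
  intro k k' _ _ _ _ q e i s hq z hz
  rcases e_cases385 hq with he | he
  · subst he
    refine ⟨-(2 * WithZero.log (Valued.v z)) + 1, ?_⟩
    intro γ hreg hball hell
    have hk' : IsLocalField k' (q ^ 2) := by
      have := hq.hk'
      simpa using this
    refine hc k k' q 2 i s hq.hk hk' hq.ext Nat.prime_two γ hreg ?_ ?_
    · rw [val_det_of_ball385 hz hball, map_pow, WithZero.log_pow]
      exact ⟨WithZero.log (Valued.v z), by simp⟩
    · intro t ht
      exact absurd ⟨t, ht⟩ hell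
  · subst he
    exact hr k k' q i s hq z hz

/-! ## `ellNormRam_of_core385` -/

section Core

variable {k k' : Type} [Field k] [Field k']

theorem coe_map385 (i : k →+* k') (g : GL (Fin 2) k) (x y : Fin 2) :
    ((Matrix.GeneralLinearGroup.map i g : GL (Fin 2) k') : Matrix (Fin 2) (Fin 2) k') x y
      = i ((g : Matrix (Fin 2) (Fin 2) k) x y) := rfl

theorem coe_glAut385 (s : k' ≃+* k') (g : GL (Fin 2) k') (x y : Fin 2) :
    ((glAut s g : GL (Fin 2) k') : Matrix (Fin 2) (Fin 2) k') x y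
      = s ((g : Matrix (Fin 2) (Fin 2) k') x y) := rfl

theorem map_one_entry385 {R S : Type} [CommRing R] [CommRing S] (f : R →+* S) (x y : Fin 2) :
    f ((1 : Matrix (Fin 2) (Fin 2) R) x y) = (1 : Matrix (Fin 2) (Fin 2) S) x y := by
  by_cases h : x = y
  · subst h
    simp
  · simp [Matrix.one_apply_ne h]

/-- The norm of `ζ · w`, `ζ ∈ k'[γ]`, `w ∈ k[γ]`. -/
theorem norm_mul_poly385 {l : ℕ} {i : k →+* k'} {s : k' ≃+* k'} (h : IsCyclicData k k' l i s)
    (γ w : GL (Fin 2) k) (ζ : GL (Fin 2) k') (a b z : k) (a' b' : k') (hz : z ≠ 0)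
    (hw : (w : Matrix (Fin 2) (Fin 2) k) = a • (1 : Matrix (Fin 2) (Fin 2) k)
      + b • (γ : Matrix (Fin 2) (Fin 2) k))
    (hw2 : (w : Matrix (Fin 2) (Fin 2) k) * (w : Matrix (Fin 2) (Fin 2) k)
      = z⁻¹ • (γ : Matrix (Fin 2) (Fin 2) k))
    (hζ : (ζ : Matrix (Fin 2) (Fin 2) k') = a' • (1 : Matrix (Fin 2) (Fin 2) k')
      + b' • ((Matrix.GeneralLinearGroup.map i γ : GL (Fin 2) k') : Matrix (Fin 2) (Fin 2) k'))
    (hζ2 : (ζ : Matrix (Fin 2) (Fin 2) k') * ((glAut s ζ : GL (Fin 2) k') :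
      Matrix (Fin 2) (Fin 2) k') = (i z) • (1 : Matrix (Fin 2) (Fin 2) k')) :
    twNorm s 2 (ζ * Matrix.GeneralLinearGroup.map i w) = Matrix.GeneralLinearGroup.map i γ := by
  rw [twNorm_two385]
  apply Units.ext
  set G : Matrix (Fin 2) (Fin 2) k' :=
    ((Matrix.GeneralLinearGroup.map i γ : GL (Fin 2) k') : Matrix (Fin 2) (Fin 2) k') with hG
  have hW : ((Matrix.GeneralLinearGroup.map i w : GL (Fin 2) k') : Matrix (Fin 2) (Fin 2) k')
      = i a • (1 : Matrix (Fin 2) (Fin 2) k') + i b • G := by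
    ext x y
    rw [coe_map385, hw]
    simp only [Matrix.add_apply, Matrix.smul_apply, smul_eq_mul, map_add, map_mul]
    rw [map_one_entry385, hG, coe_map385]
  have hσW : ((glAut s (Matrix.GeneralLinearGroup.map i w) : GL (Fin 2) k') :
      Matrix (Fin 2) (Fin 2) k') = i a • (1 : Matrix (Fin 2) (Fin 2) k') + i b • G := by
    rw [← hW]
    ext x y
    rw [coe_glAut385, coe_map385, h.fix_i]
  have hσZ : ((glAut s ζ : GL (Fin 2) k') : Matrix (Fin 2) (Fin 2) k')
      = s a' • (1 : Matrix (Fin 2) (Fin 2) k') + s b' • G := by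
    ext x y
    rw [coe_glAut385, hζ]
    simp only [Matrix.add_apply, Matrix.smul_apply, smul_eq_mul, map_add, map_mul]
    have h1 : s ((1 : Matrix (Fin 2) (Fin 2) k') x y) = (1 : Matrix (Fin 2) (Fin 2) k') x y :=
      map_one_entry385 (s : k' →+* k') x y
    rw [h1, hG, coe_map385, h.fix_i]
  have hWW : (i a • (1 : Matrix (Fin 2) (Fin 2) k') + i b • G)
      * (i a • (1 : Matrix (Fin 2) (Fin 2) k') + i b • G) = (i z)⁻¹ • G := by
    rw [← hW]
    ext x y
    have e1 := congrFun (congrFun hw2 x) y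
    simp only [Matrix.mul_apply, Fin.sum_univ_two, Matrix.smul_apply, smul_eq_mul] at e1
    simp only [Matrix.mul_apply, Fin.sum_univ_two, Matrix.smul_apply, smul_eq_mul, coe_map385,
      hG]
    rw [← map_mul, ← map_mul, ← map_add, e1, map_mul, map_inv₀]
  have hcomm : (ζ : Matrix (Fin 2) (Fin 2) k') * (i a • (1 : Matrix (Fin 2) (Fin 2) k') + i b • G)
      * (((glAut s ζ : GL (Fin 2) k') : Matrix (Fin 2) (Fin 2) k')
        * (i a • (1 : Matrix (Fin 2) (Fin 2) k') + i b • G))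
      = ((ζ : Matrix (Fin 2) (Fin 2) k') * ((glAut s ζ : GL (Fin 2) k') :
          Matrix (Fin 2) (Fin 2) k'))
        * ((i a • (1 : Matrix (Fin 2) (Fin 2) k') + i b • G)
          * (i a • (1 : Matrix (Fin 2) (Fin 2) k') + i b • G)) := by
    rw [hσZ, hζ]
    simp only [add_mul, mul_add, smul_mul_assoc, mul_smul_comm, one_mul, mul_one, smul_add,
      smul_smul, mul_assoc]
    module
  have hiz : i z ≠ 0 := (map_ne_zero i).2 hz
  calc ((ζ * Matrix.GeneralLinearGroup.map i w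
        * glAut s (ζ * Matrix.GeneralLinearGroup.map i w) : GL (Fin 2) k') :
          Matrix (Fin 2) (Fin 2) k')
      = (ζ : Matrix (Fin 2) (Fin 2) k') * (i a • (1 : Matrix (Fin 2) (Fin 2) k') + i b • G)
        * (((glAut s ζ : GL (Fin 2) k') : Matrix (Fin 2) (Fin 2) k')
          * (i a • (1 : Matrix (Fin 2) (Fin 2) k') + i b • G)) := by
        rw [map_mul, Units.val_mul, Units.val_mul, Units.val_mul, hW, hσW]
    _ = G := by
        rw [hcomm, hζ2, hWW, smul_mul_assoc, one_mul, smul_smul, mul_inv_cancel₀ hiz, one_smul]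

end Core

/-- **`EllNormRamC385` from the square root and the class field theory core.** -/
theorem ellNormRam_of_core385 (hs : SqrtNearC385) (hc : QuatCoreRamC385) : EllNormRamC385 := by
  intro k k' _ _ _ _ q i s hq z hz
  obtain ⟨N, hN⟩ := hs k q hq.hk z hz 0
  refine ⟨N, ?_⟩
  intro γ hreg hball hell
  obtain ⟨w, a, b, hw, hw2, -⟩ := hN γ hball
  obtain ⟨ζ, a', b', hζ, hζ2⟩ := hc k k' q i s hq z hz γ hreg hell
  refine ⟨ζ * Matrix.GeneralLinearGroup.map i w, ?_⟩
  rw [norm_mul_poly385 hq.ext.cyc γ w ζ a b z a' b' hz hw hw2 hζ hζ2]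

/-! ## `cenQuat_of_leaves385` -/

theorem isBiInv_sph385 (hci : H288.CartanInvC) {k : Type} [Field k] [Valued k Γ₀]
    (F : ℤ × ℤ → ℂ) : IsBiInv (InU 0) (fun g : GL (Fin 2) k => F (cartan g)) := by
  intro u u' g hu hu'
  show F (cartan (u * g * u')) = F (cartan g)
  rw [hci k u u' g hu hu']

/-- The orbit sum of `c₀ · f₀` from the orbit sum of `f₀`. -/
theorem orbSum_scaled385 {k : Type} [Field k] [Valued k Γ₀] {f : GL (Fin 2) k → ℂ}
    {γ : GL (Fin 2) k} {c₀ c' v : ℂ}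
    (hv : ∀ c : ℂ, IsOrbSum 0 f γ c → c = v)
    (h : IsOrbSum 0 (fun g => c₀ * f g) γ c') : c' = c₀ * v := by
  by_cases h0 : c₀ = 0
  · subst h0
    have h' : IsOrbSumGen (glAut (RingEquiv.refl k)) (InU 0) (InTwCentC (RingEquiv.refl k))
        (fun _ => (0 : ℂ)) γ c' := by
      have e : (fun g : GL (Fin 2) k => (0 : ℂ) * f g) = fun _ => (0 : ℂ) := by
        funext g
        simp
      rw [← e]
      exact h
    rw [orbSum_zero_fun385 h', zero_mul]
  · have h1 : IsOrbSum 0 f γ (c' / c₀) := orbSum_of_mul385 h0 h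
    have h2 := hv _ h1
    rw [← h2]
    field_simp

/-- **THE TOP: `CenQuatC783` from the six leaves.** -/
theorem cenQuat_of_leaves385 (hci : H288.CartanInvC) (hfs : SphFinSuppC385) (hep : EPOrbC385)
    (hhyp : HypNonNormC385) (hell : EllNormC385) (htw : TwDescC385) : CenQuatC783 := by
  intro k k' _ _ _ _ q e i s n φ hbad z hz hnn
  have hq : QuadData385 k k' q e i s := ⟨hbad.hk, hbad.hk', hbad.ext⟩
  obtain ⟨N₁, hN₁⟩ := hep k q hbad.hk z hz
  obtain ⟨N₂, hN₂⟩ := hhyp k k' q e i s hq z hz hnn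
  obtain ⟨N₃, hN₃⟩ := hell k k' q e i s hq z hz
  obtain ⟨N₄, c₀, hN₄⟩ := htw k k' q e i s n φ hbad z hz hnn
  have le1 : N₁ ≤ max (max N₁ N₂) (max N₃ N₄) := le_max_of_le_left (le_max_left _ _)
  have le2 : N₂ ≤ max (max N₁ N₂) (max N₃ N₄) := le_max_of_le_left (le_max_right _ _)
  have le3 : N₃ ≤ max (max N₁ N₂) (max N₃ N₄) := le_max_of_le_right (le_max_left _ _)
  have le4 : N₄ ≤ max (max N₁ N₂) (max N₃ N₄) := le_max_of_le_right (le_max_right _ _)
  refine ⟨max (max N₁ N₂) (max N₃ N₄), 0,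
    fun g => c₀ * epFun385 q (ord385 z) (cartan g), ?_, ?_, ?_, ?_⟩
  · exact isBiInv_sph385 hci (fun lam => c₀ * epFun385 q (ord385 z) lam)
  · obtain ⟨F, hF⟩ := hfs k q hbad.hk (epFun385 q (ord385 z))
    refine ⟨F, fun g hg => hF g ?_⟩
    intro h0
    apply hg
    have h0' : epFun385 q (ord385 z) (cartan g) = 0 := h0
    show c₀ * epFun385 q (ord385 z) (cartan g) = 0
    rw [h0', mul_zero]
  · intro δ γ c c' hreg hball hconj hc hc'
    have hne : ¬ HasEigen k γ :=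
      fun h => hN₂ γ hreg (inChiBall_mono385 le2 hball) h ⟨δ, hconj⟩
    rw [hN₄ δ γ c hreg (inChiBall_mono385 le4 hball) hne hconj hc]
    exact (orbSum_scaled385 (fun c h => hN₁ γ hreg (inChiBall_mono385 le1 hball) c h) hc').symm
  · intro γ c' hreg hball hnn' hc'
    have hE : HasEigen k γ := by
      by_contra h
      exact hnn' (hN₃ γ hreg (inChiBall_mono385 le3 hball) h)
    have h1 := orbSum_scaled385 (fun c h => hN₁ γ hreg (inChiBall_mono385 le1 hball) c h) hc'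
    rw [h1, quatMult385, if_pos hE, mul_zero]

end Fermat.Agent.LT.T6.H385

end

end
-- ===== PACK-END LT/T6/H385/QuatTop.lean

-- ===== PACK-BEGIN LT/T6/H385/DescSpec.lean
section


/-!
# Row LT, tower T6, leaf T6.18i.6 `TwDescOrbC385` (twisted descent to `D^×`): SUB-SPEC
(helper385), OFF-MAIN

Definitions + frozen sub-leaf Props.  PROVED tops in `DescTop.lean`:

* `twDescOrb_of385 : DescAbsC385 → QuatSettingC385 → PhiEqC385 → BaseOrbExC385 → TwDescOrbC385`
* `phiEq_of385 : PropBaseC385 → NormalSmallC385 → ConjSmallC385 → ShiftBackC385 → PhiEqC385`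

## The statement in one line

`δ₀ = [[0, z], [1, 0]]`, `H = D^×` its twisted centraliser, `w ∈ H` close to `1`, `δ₁ = w δ₀`,
`N δ₁ = w² z ∼ γ` elliptic regular, `T = k[w]^×` the twisted centraliser of `δ₁`:

  `TO_{δ₁}(φ) = #(T \ H / H^c) · TO_{δ₀}(φ)`,   BOTH sides orbit sums in the sense of `T6/Spec`

(`TO_{δ₀}(φ) = ∑_{x₀ ∈ H \ G' / U'} φ(x₀⁻¹ δ₀ σ(x₀)) [H^c : H^c ∩ x₀ U' x₀⁻¹]`, `H^c = 𝒪_D^×`; the
relation `IsOrbSumGen` does not ask `N δ₀` to be regular).

## The proof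

1. `PhiEqC385`: `φ(x⁻¹ w δ₀ σ(x)) = φ(x⁻¹ δ₀ σ(x))` for ALL `x`, if `w ∈ H ∩ U'(M)`, `M` large.
   Write `g = x⁻¹ w δ₀ σ(x)`, `g₀ = x⁻¹ δ₀ σ(x)`, `w_x = x⁻¹ w x`, `g = w_x g₀`.
   * `PropBaseC385` (properness at `δ₀`): `g₀ ∈ F U'` ⇒ `x ∈ H X₀ U'`, `X₀` finite.
     (`x⁻¹ = d' [e₁ | g₀ e₁]` with `d' ∈ H`: for `y = [v | g₀ σ(v)]`, `g₀ σ(y) = y δ₀` because
     `g₀ σ(g₀) = z`.  With `g₀ = [[p, r], [t, u]]`: `N p + r σ(t) = z` and `N p / z ∉ 1 + 4ϖ𝒪`
     (`z` is not a norm), so `|r σ(t)| ≥ |4 ϖ z|`: `t` is bounded from below, `[e₁ | g₀ e₁]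
     = [[1, p], [0, t]]` runs over a compact subset of `GL₂(k')`.)
   * `ShiftBackC385`: `g ∈ F U'` ⇒ `g₀ ∈ F'' U'`.  (`η = w - 1 ∈ D`, `η² = τ η - ν` with
     `τ = tr η`, `ν = det η` small scalars; `η_x = x⁻¹ η x`, `g σ(g) = z w_x² = z ((1 - ν) + (2 + τ) η_x)`,
     so `η_x = (g σ(g) / z - 1 + ν) / (2 + τ)` is bounded on `F U'`; `det w_x = det w` is a unit;
     `g₀ = w_x⁻¹ g` is bounded with `|det g₀| = |det g|`.)
   * `NormalSmallC385`: `d⁻¹ w d ∈ U'(M')` for all `d ∈ H`, if `w ∈ H ∩ U'(M)`.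
     (`Nrd (w - 1) = N(a) - z N(b)` is invariant under conjugation and ANISOTROPIC with a
     constant: `|N a - z N b| ≥ |4ϖ| max(|N a|, |z N b|)`.)
   * `ConjSmallC385`: `x₀⁻¹ U'(M') x₀ ⊂ U'(n)`.
2. `BaseOrbExC385`: the orbit sum at `δ₀` exists (from `PropBaseC385`).
3. `QuatSettingC385`: the group theory of `H = D^×`, `H^c = 𝒪_D^×`, `T`, `T^c = T ∩ H^c`:
   `H^c` is a normal subgroup of `H` (`D` is a division algebra: `Nrd d` integral ⇒ `Trd d`
   integral, H159.NewtonC), `H ∩ x U' x⁻¹ ⊂ H^c`, `[H^c : H^c ∩ x U' x⁻¹] < ∞`,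
   `H / H^c = ℤ` via `ord Nrd` (`e = 2`: `Nrd ϖ' = N ϖ'`; `e = 1`: `ord z` is odd because units
   are norms), `T = k'[w²] ∩ H`, `ord Nrd (T) = ord N_{k[γ]/k}(k[γ]^×) = ℤ` or `2ℤ`.
4. `DescAbsC385`: the ABSTRACT descent (pure group theory): in any group, if `T ⊂ H`,
   `T^c = T ∩ H^c`, `H^c ◁ H`, `H ∩ x U x⁻¹ ⊂ H^c` of finite index, `#(T \ H / H^c) = m` and
   `φ(x⁻¹ δ₁ s(x)) = φ(x⁻¹ δ₀ s(x))` for all `x`, then `TO_{δ₁}(φ) = m · TO_{δ₀}(φ)`.
   (The `U`-classes of the class of `δ₁` over the `U`-class of `x₀⁻¹ δ₀ s(x₀)` are the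
   `T \ H / Γ`, `Γ = H ∩ x₀ U x₀⁻¹`, with weights `[T^c : T^c ∩ h Γ h⁻¹]`, and
   `∑_{h ∈ T \ H / Γ} [T^c : T^c ∩ h Γ h⁻¹] = m [H^c : Γ]`: count the points of `H / Γ` over a
   system of representatives of `T \ H / H^c`; the `T`-orbit of a point meets the fibre of
   `H / Γ → H / H^c` in ONE `T^c`-orbit.)
-/

set_option autoImplicit false

open scoped Matrix

noncomputable section

namespace Fermat.Agent.LT.T6.H385

open Fermat.Agent.LT.T6 Fermat.Agent.LT.T6.H783

/-! ## The abstract descent -/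

/-- The abstract setting: `H = {h : h⁻¹ δ₀ s(h) = δ₀}`, `H^c = {o : C δ₀ o}`,
`T = {t : t⁻¹ δ₁ s(t) = δ₁}`, `T^c = {t : C δ₁ t}`. -/
structure DescSetting385 {Γ : Type} [Group Γ] (s : Γ →* Γ) (U : Γ → Prop) (C : Γ → Γ → Prop)
    (δ₀ δ₁ : Γ) (m : ℕ) : Prop where
  U_one : U 1
  U_mul : ∀ u v : Γ, U u → U v → U (u * v)
  U_inv : ∀ u : Γ, U u → U u⁻¹
  U_s : ∀ u : Γ, U u → U (s u)
  C_cent : ∀ y t : Γ, C y t → t⁻¹ * y * s t = y
  C_conj : ∀ y t x : Γ, C y t → C (x⁻¹ * y * s x) (x⁻¹ * t * x)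
  C₀_one : C δ₀ 1
  C₀_mul : ∀ t t' : Γ, C δ₀ t → C δ₀ t' → C δ₀ (t * t')
  C₀_inv : ∀ t : Γ, C δ₀ t → C δ₀ t⁻¹
  sub : ∀ t : Γ, t⁻¹ * δ₁ * s t = δ₁ → t⁻¹ * δ₀ * s t = δ₀
  C₁_iff : ∀ t : Γ, C δ₁ t ↔ (t⁻¹ * δ₁ * s t = δ₁ ∧ C δ₀ t)
  normal : ∀ h o : Γ, h⁻¹ * δ₀ * s h = δ₀ → C δ₀ o → C δ₀ (h⁻¹ * o * h)
  cpt : ∀ h x : Γ, h⁻¹ * δ₀ * s h = δ₀ → U (x⁻¹ * h * x) → C δ₀ h
  fin : ∀ x : Γ, {c : Set Γ | ∃ t : Γ, C δ₀ t ∧ c = {g : Γ | ∃ u : Γ, U u ∧ g = x⁻¹ * t * x * u}}.Finite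
  reps : ∃ Rm : Finset Γ, Rm.card = m ∧ (∀ r ∈ Rm, r⁻¹ * δ₀ * s r = δ₀) ∧
    (∀ h : Γ, h⁻¹ * δ₀ * s h = δ₀ →
      ∃ r ∈ Rm, ∃ t o : Γ, t⁻¹ * δ₁ * s t = δ₁ ∧ C δ₀ o ∧ h = t * r * o) ∧
    ∀ r ∈ Rm, ∀ r' ∈ Rm,
      (∃ t o : Γ, t⁻¹ * δ₁ * s t = δ₁ ∧ C δ₀ o ∧ r' = t * r * o) → r = r'

/-- **D1 (the abstract descent; pure group theory).** -/
def DescAbsC385 : Prop :=
  ∀ (Γ : Type) [Group Γ] (s : Γ →* Γ) (U : Γ → Prop) (C : Γ → Γ → Prop) (δ₀ δ₁ : Γ) (m : ℕ),
    DescSetting385 s U C δ₀ δ₁ m →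
    ∀ φ : Γ → ℂ, IsBiInv U φ →
      (∀ x : Γ, φ (x⁻¹ * δ₁ * s x) = φ (x⁻¹ * δ₀ * s x)) →
      ∀ c₀ c : ℂ, IsOrbSumGen s U C φ δ₀ c₀ → IsOrbSumGen s U C φ δ₁ c → c = (m : ℂ) * c₀

/-! ## The concrete setting -/

open Classical in
/-- `#(k[γ]^× \ D^× / 𝒪_D^×)` for elliptic `γ`, as a natural number. -/
def quatMultNat385 (k : Type) [Field k] [Valued k Γ₀] (γ : GL (Fin 2) k) : ℕ :=
  if HasRamUnif k γ then 1 else 2

/-- **D2 (the group theory of `D^×`).** -/
def QuatSettingC385 : Prop :=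
  ∀ (k k' : Type) [Field k] [Field k'] [Valued k Γ₀] [Valued k' Γ₀] (q e : ℕ)
    (i : k →+* k') (s : k' ≃+* k'), QuadData385 k k' q e i s →
    ∀ z : k, z ≠ 0 → ¬ IsFieldNorm783 2 i s z →
    ∀ (n : ℕ) (w δ₀ : GL (Fin 2) k') (γ : GL (Fin 2) k),
      IsQuatBase385 (i z) δ₀ → InTwCent s δ₀ w → IsReg γ → ¬ HasEigen k γ →
      IsConj (twNorm s 2 (w * δ₀)) (Matrix.GeneralLinearGroup.map i γ) →
      DescSetting385 (glAut s) (InU n) (InTwCentC s) δ₀ (w * δ₀) (quatMultNat385 k γ)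

/-- **D3 (`φ` does not see `w`).** -/
def PhiEqC385 : Prop :=
  ∀ (k k' : Type) [Field k] [Field k'] [Valued k Γ₀] [Valued k' Γ₀] (q e : ℕ)
    (i : k →+* k') (s : k' ≃+* k') (n : ℕ) (φ : GL (Fin 2) k' → ℂ),
    BadData783 k k' q 2 e i s n φ →
    ∀ z : k, z ≠ 0 → ¬ IsFieldNorm783 2 i s z →
    ∀ δ₀ : GL (Fin 2) k', IsQuatBase385 (i z) δ₀ →
      ∃ M : ℕ, ∀ w : GL (Fin 2) k', InTwCent s δ₀ w → InU M w →
        ∀ x : GL (Fin 2) k',
          φ (x⁻¹ * (w * δ₀) * glAut s x) = φ (x⁻¹ * δ₀ * glAut s x)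

/-- **D4 (the orbit sum at `δ₀` exists).** -/
def BaseOrbExC385 : Prop :=
  ∀ (k k' : Type) [Field k] [Field k'] [Valued k Γ₀] [Valued k' Γ₀] (q e : ℕ)
    (i : k →+* k') (s : k' ≃+* k') (n : ℕ) (φ : GL (Fin 2) k' → ℂ),
    BadData783 k k' q 2 e i s n φ →
    ∀ z : k, z ≠ 0 → ¬ IsFieldNorm783 2 i s z →
    ∀ δ₀ : GL (Fin 2) k', IsQuatBase385 (i z) δ₀ → ∃ c₀ : ℂ, IsTwOrbSum s n φ δ₀ c₀

/-! ## The leaves of `PhiEqC385` -/

/-- `g` lies in `F · U(n)`. -/
def InCosets385 {k' : Type} [Field k'] [Valued k' Γ₀] (n : ℕ) (F : Finset (GL (Fin 2) k'))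
    (g : GL (Fin 2) k') : Prop :=
  ∃ f ∈ F, ∃ u : GL (Fin 2) k', InU n u ∧ g = f * u

/-- **D3.1 (properness of the twisted orbit map at `δ₀`).** -/
def PropBaseC385 : Prop :=
  ∀ (k k' : Type) [Field k] [Field k'] [Valued k Γ₀] [Valued k' Γ₀] (q e : ℕ)
    (i : k →+* k') (s : k' ≃+* k'), QuadData385 k k' q e i s →
    ∀ z : k, z ≠ 0 → ¬ IsFieldNorm783 2 i s z →
    ∀ (n : ℕ) (δ₀ : GL (Fin 2) k'), IsQuatBase385 (i z) δ₀ →
    ∀ F : Finset (GL (Fin 2) k'), ∃ X₀ : Finset (GL (Fin 2) k'),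
      ∀ x : GL (Fin 2) k', InCosets385 n F (x⁻¹ * δ₀ * glAut s x) →
        ∃ d x₀ u : GL (Fin 2) k', InTwCent s δ₀ d ∧ x₀ ∈ X₀ ∧ InU n u ∧ x = d * x₀ * u

/-- **D3.2 (small elements of `D^×` stay small under conjugation by `D^×`).** -/
def NormalSmallC385 : Prop :=
  ∀ (k k' : Type) [Field k] [Field k'] [Valued k Γ₀] [Valued k' Γ₀] (q e : ℕ)
    (i : k →+* k') (s : k' ≃+* k'), QuadData385 k k' q e i s →
    ∀ z : k, z ≠ 0 → ¬ IsFieldNorm783 2 i s z →
    ∀ δ₀ : GL (Fin 2) k', IsQuatBase385 (i z) δ₀ →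
    ∀ M' : ℕ, ∃ M : ℕ, ∀ w d : GL (Fin 2) k', InTwCent s δ₀ w → InTwCent s δ₀ d →
      InU M w → InU M' (d⁻¹ * w * d)

/-- **D3.3 (conjugation by a fixed element is continuous at `1`).** -/
def ConjSmallC385 : Prop :=
  ∀ (k' : Type) [Field k'] [Valued k' Γ₀] (x₀ : GL (Fin 2) k') (n : ℕ),
    ∃ M' : ℕ, ∀ g : GL (Fin 2) k', InU M' g → InU n (x₀⁻¹ * g * x₀)

/-- **D3.4 (from the class of `w δ₀` back to the class of `δ₀`).** -/
def ShiftBackC385 : Prop :=
  ∀ (k k' : Type) [Field k] [Field k'] [Valued k Γ₀] [Valued k' Γ₀] (q e : ℕ)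
    (i : k →+* k') (s : k' ≃+* k'), QuadData385 k k' q e i s →
    ∀ z : k, z ≠ 0 → ¬ IsFieldNorm783 2 i s z →
    ∀ (n : ℕ) (δ₀ : GL (Fin 2) k'), IsQuatBase385 (i z) δ₀ →
    ∀ F : Finset (GL (Fin 2) k'), ∃ (M₂ : ℕ) (F'' : Finset (GL (Fin 2) k')),
      ∀ w x : GL (Fin 2) k', InTwCent s δ₀ w → InU M₂ w →
        InCosets385 n F (x⁻¹ * (w * δ₀) * glAut s x) →
        InCosets385 n F'' (x⁻¹ * δ₀ * glAut s x)

end Fermat.Agent.LT.T6.H385

end

end
-- ===== PACK-END LT/T6/H385/DescSpec.lean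

-- ===== PACK-BEGIN LT/T6/H288/TwistKer.lean
section


/-!
# Row LT, tower T6, leaf T6.12g.7 `TwistKerC` (the core of the Jacobian) from
`FixedModC`, `Hilbert90ModC`, `BallIndexC` (helper288)
-/

set_option autoImplicit false

noncomputable section

namespace Fermat.Agent.LT.T6.H288

open Fermat.Agent.LT.T6

section

variable {k k' : Type} [Field k] [Field k'] [Valued k Γ₀] [Valued k' Γ₀] {q l : ℕ}
  {i : k →+* k'} {s : k' ≃+* k'}

theorem v_i (hext : IsLocalExt k k' l 1 i s) (x : k) : Valued.v (i x) = Valued.v x := by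
  rw [hext.val_i, pow_one]

theorem v_s_pow (hext : IsLocalExt k k' l 1 i s) (n : ℕ) (x : k') :
    Valued.v ((s ^ n) x) = Valued.v x := by
  induction n with
  | zero => rfl
  | succ n ih =>
    have : (s ^ (n + 1)) x = s ((s ^ n) x) := by
      rw [pow_succ']; rfl
    rw [this, hext.val_s, ih]

theorem v_fNorm_of_unit (hext : IsLocalExt k k' l 1 i s) {c : k'} (hc : Valued.v c = 1)
    (n : ℕ) : Valued.v (fNorm s n c) = 1 := by
  induction n with
  | zero => simp [fNorm]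
  | succ n ih => rw [fNorm, map_mul, hext.val_s, ih, hc, one_mul]

/-- The norm argument: if `s x - c x` is integral (`c` a unit) then `(1 - N c) x` is
integral. -/
theorem v_one_sub_norm_mul_le (hext : IsLocalExt k k' l 1 i s) {c x : k'}
    (hc : Valued.v c = 1) (hx : Valued.v (s x - c * x) ≤ 1) (n : ℕ) :
    Valued.v ((s ^ n) x - fNorm s n c * x) ≤ 1 := by
  induction n with
  | zero => simp [fNorm]
  | succ n ih =>
    rw [iter_sub_fNorm]
    refine le_trans (Valuation.map_add _ _ _) (max_le ?_ ?_)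
    · rw [hext.val_s]; exact ih
    · rw [map_mul, hext.val_s, v_fNorm_of_unit hext hc, one_mul]
      exact hx

end

/-- **T6.12g.7 `TwistKerC`** from `FixedModC`, `Hilbert90ModC` and `BallIndexC`. -/
theorem twistKer_of (hfix : FixedModC) (h90 : Hilbert90ModC) (hball : BallIndexC) :
    TwistKerC := by
  intro k k' _ _ _ _ q l i s hk hk' hext c ν hc hN hν
  -- the uniformiser
  obtain ⟨ϖ₀, hϖ₀⟩ := hk.unif
  set ϖ : k' := i ϖ₀ with hϖdef
  have hϖ : Valued.v ϖ = WithZero.exp (-1 : ℤ) := by rw [hϖdef, v_i hext, hϖ₀]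
  have hsϖ : s ϖ = ϖ := hext.cyc.fix_i ϖ₀
  -- `ν` is a unit, `1 - ν ≠ 0`
  have hvν : Valued.v ν = 1 := by
    rw [← v_i hext, ← hN]; exact v_fNorm_of_unit hext hc l
  have h1ν : (1 : k) - ν ≠ 0 := sub_ne_zero.2 (Ne.symm hν)
  have hv1ν : Valued.v (1 - ν) ≤ 1 := by
    refine le_trans (Valuation.map_sub _ _ _) (max_le ?_ ?_)
    · simp
    · rw [hvν]
  have hord : 0 ≤ ordv (1 - ν) := by
    have := (v_le_exp_neg_iff (x := 1 - ν) (j := 0)).1 (by simpa using hv1ν)
    rcases this with h | h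
    · exact absurd h h1ν
    · exact h
  set r : ℕ := (ordv (1 - ν)).toNat with hrdef
  have hr : (r : ℤ) = ordv (1 - ν) := Int.toNat_of_nonneg hord
  have hv1ν' : Valued.v (1 - ν) = WithZero.exp (-(r : ℤ)) := by
    rw [hr]; exact v_eq_exp_neg_ordv h1ν
  -- Hilbert 90 modulo `ϖ ^ r`
  have hNc : Valued.v (fNorm s l c - 1) ≤ WithZero.exp (-(r : ℤ)) := by
    have h0 : fNorm s l c - 1 = -(i (1 - ν)) := by
      rw [hN, map_sub, map_one]; ring
    rw [h0, Valuation.map_neg, v_i hext, hv1ν']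
  obtain ⟨β, hβ, hβc⟩ := h90 k k' q l i s hk hk' hext c r hc hNc
  have hβ0 : β ≠ 0 := by
    intro h; rw [h, map_zero] at hβ; exact zero_ne_one hβ
  -- the scaling element `g = β ϖ^{-r}`, `v g = exp r`
  set P : k' := ϖ ^ r with hPdef
  have hvP : Valued.v P = WithZero.exp (-(r : ℤ)) := by
    rw [hPdef, map_pow, hϖ, ← WithZero.exp_nsmul]
    simp
  have hP0 : P ≠ 0 := by
    intro h; rw [h, map_zero] at hvP; exact WithZero.exp_ne_zero hvP.symm
  have hsP : s P = P := by rw [hPdef, map_pow, hsϖ]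
  set g : k' := β * P⁻¹ with hgdef
  have hvg : Valued.v g = WithZero.exp (r : ℤ) := by
    rw [hgdef, map_mul, map_inv₀, hβ, hvP, one_mul, WithZero.exp_neg, inv_inv]
  have hg0 : g ≠ 0 := mul_ne_zero hβ0 (inv_ne_zero hP0)
  -- the fixed points modulo `ϖ ^ r`
  set Z₁ : AddSubgroup k' := twistBall s 1 (-(r : ℤ)) ⊓ ball k' 0 with hZ₁
  -- Claim A
  have hA : twistBall s c 0 = Z₁.map (AddMonoidHom.mulLeft g) := by
    ext x
    constructor
    · intro hx
      have hx' : Valued.v (s x - c * x) ≤ 1 := by simpa [mem_twistBall] using hx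
      -- `v x ≤ exp r`
      have h1 := v_one_sub_norm_mul_le hext hc hx' l
      rw [hext.cyc.order, hN] at h1
      have h2 : x - i ν * x = i (1 - ν) * x := by rw [map_sub, map_one]; ring
      rw [h2, map_mul, v_i hext, hv1ν'] at h1
      have hvx : Valued.v x ≤ WithZero.exp (r : ℤ) := by
        calc Valued.v x = WithZero.exp (r : ℤ) * (WithZero.exp (-(r : ℤ)) * Valued.v x) := by
              rw [← mul_assoc, ← WithZero.exp_add]; simp
          _ ≤ WithZero.exp (r : ℤ) * 1 := mul_le_mul_right h1 _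
          _ = WithZero.exp (r : ℤ) := mul_one _
      obtain ⟨y, hxy⟩ : ∃ y : k', x = g * y :=
        ⟨g⁻¹ * x, by rw [← mul_assoc, mul_inv_cancel₀ hg0, one_mul]⟩
      have hy : y = g⁻¹ * x := by
        rw [hxy, ← mul_assoc, inv_mul_cancel₀ hg0, one_mul]
      have hvy : Valued.v y ≤ 1 := by
        rw [hy, map_mul, map_inv₀, hvg]
        calc (WithZero.exp (r : ℤ))⁻¹ * Valued.v x
            ≤ (WithZero.exp (r : ℤ))⁻¹ * WithZero.exp (r : ℤ) := mul_le_mul_right hvx _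
          _ = 1 := inv_mul_cancel₀ WithZero.exp_ne_zero
      refine ⟨y, ⟨?_, by simpa [mem_ball] using hvy⟩, hxy.symm⟩
      -- `v (s y - y) ≤ exp (-r)`
      have hsg : s g = s β * P⁻¹ := by rw [hgdef, map_mul, map_inv₀, hsP]
      have hPg : P * g = β := by
        rw [hgdef, mul_comm β, ← mul_assoc, mul_inv_cancel₀ hP0, one_mul]
      have hPsg : P * s g = s β := by
        rw [hsg, mul_comm (s β), ← mul_assoc, mul_inv_cancel₀ hP0, one_mul]
      have key : c * β * (s y - y) = P * (s x - c * x) - (s β - c * β) * s y := by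
        have e1 : P * (s x - c * x) = (P * s g) * s y - c * (P * g) * y := by
          rw [hxy, map_mul]; ring
        rw [e1, hPg, hPsg]; ring
      have hvkey : Valued.v (c * β * (s y - y)) ≤ WithZero.exp (-(r : ℤ)) := by
        rw [key]
        refine le_trans (Valuation.map_sub _ _ _) (max_le ?_ ?_)
        · rw [map_mul, hvP]
          calc WithZero.exp (-(r : ℤ)) * Valued.v (s x - c * x)
              ≤ WithZero.exp (-(r : ℤ)) * 1 := mul_le_mul_right hx' _
            _ = _ := mul_one _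
        · rw [map_mul, hext.val_s]
          calc Valued.v (s β - c * β) * Valued.v y
              ≤ WithZero.exp (-(r : ℤ)) * 1 := mul_le_mul' hβc hvy
            _ = _ := mul_one _
      rw [map_mul, map_mul, hc, hβ, one_mul, one_mul] at hvkey
      change Valued.v (s y - 1 * y) ≤ WithZero.exp (-(r : ℤ))
      rwa [one_mul]
    · rintro ⟨y, ⟨hy1, hy2⟩, rfl⟩
      have hy1' : Valued.v (s y - y) ≤ WithZero.exp (-(r : ℤ)) := by
        have : Valued.v (s y - 1 * y) ≤ WithZero.exp (-(r : ℤ)) := hy1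
        rwa [one_mul] at this
      have hy2' : Valued.v y ≤ 1 := by simpa [mem_ball] using hy2
      change Valued.v (s (g * y) - c * (g * y)) ≤ WithZero.exp 0
      have hsg : s g = s β * P⁻¹ := by rw [hgdef, map_mul, map_inv₀, hsP]
      have key : s (g * y) - c * (g * y)
          = P⁻¹ * ((s β - c * β) * s y + c * β * (s y - y)) := by
        rw [map_mul, hsg]
        have : g = β * P⁻¹ := hgdef
        rw [this]
        ring
      rw [key, map_mul, map_inv₀, hvP, WithZero.exp_zero]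
      have h3 : Valued.v ((s β - c * β) * s y + c * β * (s y - y))
          ≤ WithZero.exp (-(r : ℤ)) := by
        refine le_trans (Valuation.map_add _ _ _) (max_le ?_ ?_)
        · rw [map_mul, hext.val_s]
          calc Valued.v (s β - c * β) * Valued.v y
              ≤ WithZero.exp (-(r : ℤ)) * 1 := mul_le_mul' hβc hy2'
            _ = _ := mul_one _
        · rw [map_mul, map_mul, hc, hβ, one_mul, one_mul]
          exact hy1'
      calc (WithZero.exp (-(r : ℤ)))⁻¹ * Valued.v ((s β - c * β) * s y + c * β * (s y - y))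
          ≤ (WithZero.exp (-(r : ℤ)))⁻¹ * WithZero.exp (-(r : ℤ)) := mul_le_mul_right h3 _
        _ = 1 := inv_mul_cancel₀ WithZero.exp_ne_zero
  -- Claim B
  have hB : ball k' 0 = (ball k' (-(r : ℤ))).map (AddMonoidHom.mulLeft g) := by
    rw [map_mulLeft_ball hvg]
    simp
  -- Claim C
  have hC : Z₁ = (ball k 0).map (i : k →+ k') ⊔ ball k' (-(r : ℤ)) := by
    apply le_antisymm
    · rintro y ⟨hy1, hy2⟩
      have hy1' : Valued.v (s y - y) ≤ WithZero.exp (-(r : ℤ)) := by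
        have : Valued.v (s y - 1 * y) ≤ WithZero.exp (-(r : ℤ)) := hy1
        rwa [one_mul] at this
      have hy2' : Valued.v y ≤ 1 := by simpa [mem_ball] using hy2
      obtain ⟨a, ha, hya⟩ := hfix k k' q l i s hk hk' hext r y hy2' hy1'
      rw [AddSubgroup.mem_sup]
      refine ⟨i a, ⟨a, by simpa [mem_ball] using ha, rfl⟩, y - i a, hya, by ring⟩
    · refine sup_le ?_ ?_
      · rintro _ ⟨a, ha, rfl⟩
        have ha' : Valued.v a ≤ 1 := by simpa [mem_ball] using ha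
        refine ⟨?_, ?_⟩
        · change Valued.v (s (i a) - 1 * i a) ≤ WithZero.exp (-(r : ℤ))
          have : s (i a) = i a := hext.cyc.fix_i a
          simp [this]
        · change Valued.v (i a) ≤ WithZero.exp 0
          rw [v_i hext, WithZero.exp_zero]; exact ha'
      · intro y hy
        have hy' : Valued.v y ≤ WithZero.exp (-(r : ℤ)) := hy
        refine ⟨?_, ?_⟩
        · change Valued.v (s y - 1 * y) ≤ WithZero.exp (-(r : ℤ))
          rw [one_mul]
          refine le_trans (Valuation.map_sub _ _ _) (max_le ?_ hy')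
          rw [hext.val_s]; exact hy'
        · exact ball_mono (by omega) hy
  -- the intersection
  have hD : ball k' (-(r : ℤ)) ⊓ (ball k 0).map (i : k →+ k')
      = (ball k (-(r : ℤ))).map (i : k →+ k') := by
    ext y
    constructor
    · rintro ⟨hy, a, ha, rfl⟩
      refine ⟨a, ?_, rfl⟩
      have : Valued.v (i a) ≤ WithZero.exp (-(r : ℤ)) := hy
      rwa [v_i hext] at this
    · rintro ⟨a, ha, rfl⟩
      have ha' : Valued.v a ≤ WithZero.exp (-(r : ℤ)) := ha
      refine ⟨?_, a, ball_mono (by omega) ha, rfl⟩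
      change Valued.v (i a) ≤ WithZero.exp (-(r : ℤ))
      rw [v_i hext]; exact ha'
  have hinj : Function.Injective (i : k →+ k') := i.injective
  calc (ball k' 0).relIndex (twistBall s c 0)
      = ((ball k' (-(r : ℤ))).map (AddMonoidHom.mulLeft g)).relIndex
          (Z₁.map (AddMonoidHom.mulLeft g)) := by rw [← hA, ← hB]
    _ = (ball k' (-(r : ℤ))).relIndex Z₁ :=
        AddSubgroup.relIndex_map_map_of_injective _ _ (mulLeft_injective hg0)
    _ = (ball k' (-(r : ℤ))).relIndex ((ball k 0).map (i : k →+ k')) := by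
        rw [hC, AddSubgroup.relIndex_sup_right]
    _ = ((ball k (-(r : ℤ))).map (i : k →+ k')).relIndex ((ball k 0).map (i : k →+ k')) := by
        rw [← hD, AddSubgroup.inf_relIndex_right]
    _ = (ball k (-(r : ℤ))).relIndex (ball k 0) :=
        AddSubgroup.relIndex_map_map_of_injective _ _ hinj
    _ = q ^ r := by
        rw [hball k q hk 0 (-(r : ℤ)) (by omega)]
        congr 1
        omega

end Fermat.Agent.LT.T6.H288

end

end
-- ===== PACK-END LT/T6/H288/TwistKer.lean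

-- ===== PACK-BEGIN LT/T6/H842/EllTop.lean
section



/-!
# Row LT, tower T6, leaf T6.27 (helper842): topology of the standard maps

OFF-MAIN.  `GL₂(ℝ)`, `GL₂(ℂ)` are second countable and locally compact; a map into `GL₂` is
continuous as soon as its matrix is; the standard maps `zk`, `aR`, `aq`, `incl`, `glAut`,
`polarMap`, `hakPolarMap` are continuous.
-/

set_option autoImplicit false

open scoped Matrix
open MeasureTheory

noncomputable section

namespace Fermat.Agent.LT.T6.H842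

/-! ## 1. `GL₂` as a topological space -/

theorem secondCountable_matrix842 (K : Type*) [TopologicalSpace K] [SecondCountableTopology K] :
    SecondCountableTopology (Matrix (Fin 2) (Fin 2) K) :=
  inferInstanceAs (SecondCountableTopology (Fin 2 → Fin 2 → K))

theorem locallyCompact_matrix842 (K : Type*) [TopologicalSpace K] [LocallyCompactSpace K] :
    LocallyCompactSpace (Matrix (Fin 2) (Fin 2) K) :=
  inferInstanceAs (LocallyCompactSpace (Fin 2 → Fin 2 → K))

theorem secondCountable_GL842 (K : Type*) [CommRing K] [TopologicalSpace K]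
    [SecondCountableTopology K] : SecondCountableTopology (GL (Fin 2) K) := by
  have := secondCountable_matrix842 K
  have : SecondCountableTopology (Matrix (Fin 2) (Fin 2) K)ᵐᵒᵖ :=
    (MulOpposite.opHomeomorph (M := (Matrix (Fin 2) (Fin 2) K))).symm.secondCountableTopology
  exact Units.isEmbedding_embedProduct.secondCountableTopology

theorem locallyCompact_GR842 : LocallyCompactSpace (GL (Fin 2) ℝ) := by
  have := locallyCompact_matrix842 ℝ
  infer_instance

theorem locallyCompact_GC842 : LocallyCompactSpace (GL (Fin 2) ℂ) := by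
  have := locallyCompact_matrix842 ℂ
  infer_instance

/-- A map into `GL₂(K)` (`K` a topological field) is continuous if its matrix is. -/
theorem continuous_toGL842 {K : Type*} [Field K] [TopologicalSpace K] [IsTopologicalRing K]
    [ContinuousInv₀ K] {X : Type*} [TopologicalSpace X] (f : X → GL (Fin 2) K)
    (hf : Continuous fun x => ((f x : GL (Fin 2) K) : Matrix (Fin 2) (Fin 2) K)) :
    Continuous f := by
  rw [Units.continuous_iff]
  refine ⟨hf, ?_⟩
  have h1 : (fun x => ((f x)⁻¹ : GL (Fin 2) K).val)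
      = fun x => ((f x : Matrix (Fin 2) (Fin 2) K).det)⁻¹ •
          (f x : Matrix (Fin 2) (Fin 2) K).adjugate := by
    funext x
    rw [Matrix.coe_units_inv, Matrix.inv_def, Ring.inverse_eq_inv']
  rw [h1]
  refine Continuous.smul (Continuous.inv₀ hf.matrix_det fun x => ?_) hf.matrix_adjugate
  exact (Matrix.isUnits_det_units (f x)).ne_zero

/-- The entries are continuous on `GL₂`. -/
theorem continuous_entry842 {K : Type*} [CommRing K] [TopologicalSpace K] (i j : Fin 2) :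
    Continuous fun g : GL (Fin 2) K => (g : Matrix (Fin 2) (Fin 2) K) i j :=
  Continuous.matrix_elem (A := fun g : GL (Fin 2) K => (g : Matrix (Fin 2) (Fin 2) K))
    Units.continuous_val i j

/-! ## 2. The standard maps -/

theorem continuous_zkMat842 : Continuous fun p : ℝ × ℝ => zkMat p.1 p.2 := by
  refine continuous_matrix fun i j => ?_
  fin_cases i <;> fin_cases j <;> simp [zkMat] <;> fun_prop

theorem continuous_zk842 : Continuous fun p : ℝ × ℝ => zk p.1 p.2 :=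
  continuous_toGL842 _ continuous_zkMat842

theorem continuous_aR842 : Continuous aR := by
  refine continuous_toGL842 _ (continuous_matrix fun i j => ?_)
  fin_cases i <;> fin_cases j <;> simp [aMat] <;> fun_prop

theorem continuous_aq842 : Continuous aq := by
  refine continuous_toGL842 _ (continuous_matrix fun i j => ?_)
  fin_cases i <;> fin_cases j <;> simp [aqMat] <;> fun_prop

theorem continuous_incl842 : Continuous incl := by
  refine continuous_toGL842 _ (continuous_matrix fun i j => ?_)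
  simp only [coe_incl_apply842]
  exact Complex.continuous_ofReal.comp (continuous_entry842 i j)

theorem continuous_glAut_star842 : Continuous (glAut (starRingAut : ℂ ≃+* ℂ)) := by
  refine continuous_toGL842 _ (continuous_matrix fun i j => ?_)
  have : (fun g : GL (Fin 2) ℂ =>
      ((glAut (starRingAut : ℂ ≃+* ℂ) g : GL (Fin 2) ℂ) : Matrix (Fin 2) (Fin 2) ℂ) i j)
      = fun g : GL (Fin 2) ℂ => (starRingEnd ℂ) ((g : Matrix (Fin 2) (Fin 2) ℂ) i j) := by
    funext g; rfl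
  rw [this]
  exact Complex.continuous_conj.comp (continuous_entry842 i j)

theorem continuous_polarMap842 (ε : GL (Fin 2) ℝ) : Continuous (polarMap ε) := by
  unfold polarMap
  have h1 : Continuous fun p : (ℝ × ℝ) × (ℝ × ℝ) => zk p.2.1 p.2.2 :=
    continuous_zk842.comp continuous_snd
  have h2 : Continuous fun p : (ℝ × ℝ) × (ℝ × ℝ) => aR p.1.1 :=
    continuous_aR842.comp (continuous_fst.comp continuous_fst)
  have h3 : Continuous fun p : (ℝ × ℝ) × (ℝ × ℝ) => zk 0 p.1.2 :=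
    continuous_zk842.comp (continuous_const.prodMk (continuous_snd.comp continuous_fst))
  exact ((h1.mul h2).mul h3).mul continuous_const

theorem continuous_hakPolarMap842 (ε : GL (Fin 2) ℝ) : Continuous (hakPolarMap ε) := by
  unfold hakPolarMap
  have h1 : Continuous fun p : ((ℝ × ℝ) × (ℝ × GL (Fin 2) ℂ)) × (ℝ × ℝ) =>
      incl (polarMap ε (p.1.1, p.2)) :=
    continuous_incl842.comp ((continuous_polarMap842 ε).comp
      ((continuous_fst.comp continuous_fst).prodMk continuous_snd))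
  have h2 : Continuous fun p : ((ℝ × ℝ) × (ℝ × GL (Fin 2) ℂ)) × (ℝ × ℝ) => aq p.1.2.1 :=
    continuous_aq842.comp (continuous_fst.comp (continuous_snd.comp continuous_fst))
  have h3 : Continuous fun p : ((ℝ × ℝ) × (ℝ × GL (Fin 2) ℂ)) × (ℝ × ℝ) => p.1.2.2 :=
    continuous_snd.comp (continuous_snd.comp continuous_fst)
  exact (h1.mul h2).mul h3

theorem continuous_hakMap842 : Continuous hakMap := by
  unfold hakMap
  exact ((continuous_incl842.comp continuous_fst).mul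
    (continuous_aq842.comp (continuous_fst.comp continuous_snd))).mul
    (continuous_snd.comp continuous_snd)

theorem continuous_ellY842 (u θ : ℝ) : Continuous fun τ : ℝ => ellY u θ τ := by
  unfold ellY
  exact ((continuous_aR842.inv).mul continuous_const).mul continuous_aR842

theorem continuous_ellX842 (u θ : ℝ) : Continuous fun p : ℝ × ℝ => ellX u θ p.1 p.2 := by
  unfold ellX
  have h1 : Continuous fun p : ℝ × ℝ => aq (-p.2) :=
    continuous_aq842.comp (continuous_snd.neg)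
  have h2 : Continuous fun p : ℝ × ℝ => incl (ellY (u / 2) (θ / 2) p.1) :=
    continuous_incl842.comp ((continuous_ellY842 _ _).comp continuous_fst)
  exact (h1.mul h2).mul h1

end Fermat.Agent.LT.T6.H842

end

end
-- ===== PACK-END LT/T6/H842/EllTop.lean

-- ===== PACK-BEGIN LT/T6/H820/BoxR.lean
section



/-!
# Row LT, tower T6, station T6.20e: the measure of the real Iwasawa unit box (helper820)

OFF-MAIN.  ASSET for `cStar634` (helper634, `EllCut.lean`): if `μ|_{det > 0} = c • (iwaR)_* iwaMR`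
(the Iwasawa formula `H189.IwasawaRC` with constant `c`), then `μ (boxR634) = c * 2π`.
-/

set_option autoImplicit false

open MeasureTheory
open scoped Matrix ENNReal

noncomputable section

namespace Fermat.Agent.LT.T6.H820

open Fermat.Agent.LT.T6 Fermat.Agent.LT.T6.H189 Fermat.Agent.LT.T6.H634 Fermat.Agent.LT.T6.H569

/-- `k_θ` is the rotation of the point `e^{iθ}` of the circle. -/
theorem rotR_eq_rotZ820 (θ : ℝ) : rotR θ = rotZ (Circle.exp θ) := by
  apply Units.ext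
  show (rotR θ : Matrix (Fin 2) (Fin 2) ℝ) = (rotZ (Circle.exp θ) : Matrix (Fin 2) (Fin 2) ℝ)
  rw [rotZ_val569]
  have hre : ((Circle.exp θ : Circle) : ℂ).re = Real.cos θ := by
    rw [Circle.coe_exp]
    exact Complex.exp_ofReal_mul_I_re θ
  have him : ((Circle.exp θ : Circle) : ℂ).im = Real.sin θ := by
    rw [Circle.coe_exp]
    exact Complex.exp_ofReal_mul_I_im θ
  rw [hre, him]
  rfl

theorem iwaR_eq_jR820 (p : ℝ × ℝ × ℝ × ℝ) :
    iwaR p = jR (p.1, p.2.1, p.2.2.1, Circle.exp p.2.2.2) := by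
  unfold iwaR jR
  rw [rotR_eq_rotZ820]

/-- `θ ↦ e^{iθ}` is injective on `(0, 2π]`. -/
theorem circle_exp_injOn820 : Set.InjOn (fun θ : ℝ => Circle.exp θ) (Set.Ioc 0 (2 * Real.pi)) := by
  intro x hx y hy hxy
  have hxy' : Circle.exp x = Circle.exp y := hxy
  rw [Circle.exp_eq_exp] at hxy'
  obtain ⟨m, hm⟩ := hxy'
  have hpi := Real.pi_pos
  have h1 : (m : ℝ) * (2 * Real.pi) < 2 * Real.pi := by
    have : x - y < 2 * Real.pi := by linarith [hx.2, hy.1]
    linarith
  have h2 : -(2 * Real.pi) < (m : ℝ) * (2 * Real.pi) := by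
    have : -(2 * Real.pi) < x - y := by linarith [hx.1, hy.2]
    linarith
  have h3 : (m : ℝ) < 1 := by
    by_contra h
    have : (1 : ℝ) ≤ m := not_lt.mp h
    nlinarith
  have h4 : (-1 : ℝ) < m := by
    by_contra h
    have : (m : ℝ) ≤ -1 := not_lt.mp h
    nlinarith
  have h5 : m = 0 := by
    have h3' : m < 1 := by exact_mod_cast h3
    have h4' : -1 < m := by exact_mod_cast h4
    omega
  rw [h5] at hm
  simpa using hm

/-- `θ ↦ e^{iθ}` maps `(0, 2π]` onto the circle. -/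
theorem circle_exp_surjOn820 (z : Circle) : ∃ θ ∈ Set.Ioc 0 (2 * Real.pi), Circle.exp θ = z := by
  have hpi := Real.pi_pos
  have harg := Complex.arg_mem_Ioc (z : ℂ)
  have hz : Circle.exp (Complex.arg (z : ℂ)) = z := Circle.exp_arg z
  by_cases h : 0 < Complex.arg (z : ℂ)
  · exact ⟨Complex.arg (z : ℂ), ⟨h, by linarith [harg.2]⟩, hz⟩
  · refine ⟨Complex.arg (z : ℂ) + 2 * Real.pi, ⟨by linarith [harg.1], by linarith [not_lt.mp h]⟩, ?_⟩
    rw [Circle.exp_add, Circle.exp_two_pi, mul_one, hz]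

/-- The parameter box. -/
def pBoxR820 : Set (ℝ × ℝ × ℝ × ℝ) :=
  Set.Icc (0 : ℝ) 1 ×ˢ Set.Icc (0 : ℝ) 1 ×ˢ Set.Icc (0 : ℝ) 1 ×ˢ Set.Ioc (0 : ℝ) (2 * Real.pi)

theorem boxR_eq820 : boxR634 = iwaR '' pBoxR820 := rfl

/-- The real box is the image of a compact set under `jR`. -/
theorem boxR_eq_jR820 :
    boxR634 = jR '' (Set.Icc (0 : ℝ) 1 ×ˢ Set.Icc (0 : ℝ) 1 ×ˢ Set.Icc (0 : ℝ) 1 ×ˢ
      (Set.univ : Set Circle)) := by
  rw [boxR_eq820]
  ext g
  constructor
  · rintro ⟨p, hp, rfl⟩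
    obtain ⟨h1, h2, h3, -⟩ := hp
    exact ⟨(p.1, p.2.1, p.2.2.1, Circle.exp p.2.2.2), ⟨h1, h2, h3, Set.mem_univ _⟩,
      (iwaR_eq_jR820 p).symm⟩
  · rintro ⟨q, hq, rfl⟩
    obtain ⟨h1, h2, h3, -⟩ := hq
    obtain ⟨θ, hθ, hz⟩ := circle_exp_surjOn820 q.2.2.2
    refine ⟨(q.1, q.2.1, q.2.2.1, θ), ⟨h1, h2, h3, hθ⟩, ?_⟩
    rw [iwaR_eq_jR820]
    simp only
    rw [hz]

theorem isCompact_boxR820 : IsCompact boxR634 := by
  rw [boxR_eq_jR820]
  exact ((isCompact_Icc.prod (isCompact_Icc.prod (isCompact_Icc.prod isCompact_univ)))).image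
    continuous_jR569

theorem boxR_subset_posR820 : boxR634 ⊆ posR := by
  rw [boxR_eq_jR820]
  rintro g ⟨q, -, rfl⟩
  show 0 < ((jR q : GL (Fin 2) ℝ) : Matrix (Fin 2) (Fin 2) ℝ).det
  rw [jR_det569]
  exact mul_pos (Real.exp_pos _) (Real.exp_pos _)

/-- The preimage of the box, inside the domain of the angle, is the parameter box. -/
theorem preimage_boxR820 (p : ℝ × ℝ × ℝ × ℝ) (hp : p.2.2.2 ∈ Set.Ioc (0 : ℝ) (2 * Real.pi))
    (h : iwaR p ∈ boxR634) : p ∈ pBoxR820 := by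
  rw [boxR_eq820] at h
  obtain ⟨q, hq, hqp⟩ := h
  rw [iwaR_eq_jR820, iwaR_eq_jR820] at hqp
  have h1 := kR_jR569.injective hqp
  simp only [Prod.mk.injEq] at h1
  obtain ⟨e1, e2, e3, e4⟩ := h1
  obtain ⟨q1, q2, q3, q4⟩ := hq
  have e5 : q.2.2.2 = p.2.2.2 := circle_exp_injOn820 q4 hp e4
  refine ⟨?_, ?_, ?_, hp⟩
  · rw [← e1]; exact q1
  · rw [← e2]; exact q2
  · rw [← e3]; exact q3

theorem continuous_iwaR820 : Continuous iwaR := by
  have h : iwaR = fun p : ℝ × ℝ × ℝ × ℝ => jR (p.1, p.2.1, p.2.2.1, Circle.exp p.2.2.2) :=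
    funext iwaR_eq_jR820
  rw [h]
  exact continuous_jR569.comp (by fun_prop)

/-- The measure of the parameter box. -/
theorem iwaMR_pBox820 : iwaMR pBoxR820 = ENNReal.ofReal (2 * Real.pi) := by
  unfold iwaMR pBoxR820 angM
  rw [Measure.prod_prod, Measure.prod_prod, Measure.prod_prod]
  rw [Real.volume_Icc, Measure.restrict_apply measurableSet_Ioc, Set.inter_self, Real.volume_Ioc]
  simp

/-- The complement of the domain of the angle is a null set. -/
theorem iwaMR_compl820 :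
    iwaMR {p : ℝ × ℝ × ℝ × ℝ | p.2.2.2 ∉ Set.Ioc (0 : ℝ) (2 * Real.pi)} = 0 := by
  have hset : {p : ℝ × ℝ × ℝ × ℝ | p.2.2.2 ∉ Set.Ioc (0 : ℝ) (2 * Real.pi)}
      = (Set.univ : Set ℝ) ×ˢ (Set.univ : Set ℝ) ×ˢ (Set.univ : Set ℝ) ×ˢ
        (Set.Ioc (0 : ℝ) (2 * Real.pi))ᶜ := by
    ext p
    simp
  rw [hset]
  unfold iwaMR angM
  rw [Measure.prod_prod, Measure.prod_prod, Measure.prod_prod]
  rw [Measure.restrict_apply measurableSet_Ioc.compl]
  simp

/-- **The measure of the real Iwasawa unit box.** -/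
theorem boxR_measure820 (μ : @Measure (GL (Fin 2) ℝ) (borel _)) (c : ℝ≥0∞)
    (h : @Measure.restrict _ (borel _) μ posR = c • @Measure.map _ _ _ (borel _) iwaR iwaMR) :
    μ boxR634 = c * ENNReal.ofReal (2 * Real.pi) := by
  letI : MeasurableSpace (GL (Fin 2) ℝ) := borel _
  haveI : BorelSpace (GL (Fin 2) ℝ) := ⟨rfl⟩
  have hmeas : MeasurableSet boxR634 := isCompact_boxR820.isClosed.measurableSet
  have h1 : μ boxR634 = (μ.restrict posR) boxR634 :=
    (Measure.restrict_eq_self μ boxR_subset_posR820).symm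
  rw [h1, h]
  rw [Measure.smul_apply, smul_eq_mul]
  congr 1
  rw [Measure.map_apply continuous_iwaR820.measurable hmeas]
  -- the preimage is the parameter box up to a null set
  apply le_antisymm
  · calc iwaMR (iwaR ⁻¹' boxR634)
        ≤ iwaMR (pBoxR820 ∪ {p : ℝ × ℝ × ℝ × ℝ | p.2.2.2 ∉ Set.Ioc (0 : ℝ) (2 * Real.pi)}) := by
          apply measure_mono
          intro p hp
          by_cases hθ : p.2.2.2 ∈ Set.Ioc (0 : ℝ) (2 * Real.pi)
          · exact Or.inl (preimage_boxR820 p hθ hp)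
          · exact Or.inr hθ
      _ ≤ iwaMR pBoxR820 + iwaMR {p : ℝ × ℝ × ℝ × ℝ | p.2.2.2 ∉ Set.Ioc (0 : ℝ) (2 * Real.pi)} :=
          measure_union_le _ _
      _ = ENNReal.ofReal (2 * Real.pi) := by
          rw [iwaMR_pBox820, iwaMR_compl820, add_zero]
  · rw [← iwaMR_pBox820]
    apply measure_mono
    intro p hp
    exact ⟨p, hp, rfl⟩

end Fermat.Agent.LT.T6.H820

end

end
-- ===== PACK-END LT/T6/H820/BoxR.lean

-- ===== PACK-BEGIN LT/T6/H888/GreenBasic.lean
section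



/-!
# Row LT, tower T6, leaf T6.22 (helper888): basic facts on the Green operator `gL888`
-/

set_option autoImplicit false

open MeasureTheory Set

noncomputable section

namespace Fermat.Agent.LT.T6.H888

theorem wtA_cont888 (n : ℤ) : Continuous (wtA888 n) := by
  by_cases h : n = 0
  · have : wtA888 n = fun t => Real.sinh t := by funext t; simp [wtA888, h]
    rw [this]; fun_prop
  · have : wtA888 n = fun t => Real.sinh t * (1 + Real.cosh t) := by funext t; simp [wtA888, h]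
    rw [this]; fun_prop

theorem wtA_pos888 (n : ℤ) {t : ℝ} (ht : 0 < t) : 0 < wtA888 n t := by
  unfold wtA888; split_ifs
  · exact Real.sinh_pos_iff.mpr ht
  · exact mul_pos (Real.sinh_pos_iff.mpr ht) (by positivity)

theorem wtA_nonneg888 (n : ℤ) {t : ℝ} (ht : 0 ≤ t) : 0 ≤ wtA888 n t := by
  rcases eq_or_lt_of_le ht with h | h
  · rw [← h, wtA_zero888]
  · exact (wtA_pos888 n h).le

theorem wtA_mono888 (n : ℤ) {q r : ℝ} (hq : 0 ≤ q) (hqr : q ≤ r) :
    wtA888 n q ≤ wtA888 n r := by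
  unfold wtA888; split_ifs
  · exact Real.sinh_le_sinh.mpr hqr
  · have h1 : Real.cosh q ≤ Real.cosh r :=
      Real.cosh_le_cosh.mpr (by rw [abs_of_nonneg hq, abs_of_nonneg (hq.trans hqr)]; exact hqr)
    exact mul_le_mul (Real.sinh_le_sinh.mpr hqr) (by linarith) (by positivity)
      (Real.sinh_nonneg_iff.mpr (hq.trans hqr))

/-- The inner integral of the Green operator. -/
def gLin888 (n : ℤ) (g : ℝ → ℂ) (r : ℝ) : ℂ :=
  ∫ q in (0 : ℝ)..r, ((wtA888 n q : ℝ) : ℂ) * g q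

/-- The integrand of the outer integral of the Green operator. -/
def gLker888 (n : ℤ) (g : ℝ → ℂ) (r : ℝ) : ℂ :=
  (((wtA888 n r)⁻¹ : ℝ) : ℂ) * gLin888 n g r

theorem gL_eq888 (n : ℤ) (g : ℝ → ℂ) (t : ℝ) :
    gL888 n g t = ∫ r in (0 : ℝ)..t, gLker888 n g r := rfl

theorem gLin_bound888 (n : ℤ) (g : ℝ → ℂ) {r C : ℝ} (hr : 0 < r)
    (hC : ∀ q ∈ Ioc (0 : ℝ) r, ‖g q‖ ≤ C) : ‖gLin888 n g r‖ ≤ wtA888 n r * C * r := by
  have hC0 : 0 ≤ C := (norm_nonneg _).trans (hC r ⟨hr, le_refl _⟩)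
  have h1 : ∀ q ∈ Set.uIoc (0 : ℝ) r, ‖((wtA888 n q : ℝ) : ℂ) * g q‖ ≤ wtA888 n r * C := by
    intro q hq
    rw [uIoc_of_le hr.le] at hq
    rw [norm_mul, Complex.norm_real, Real.norm_eq_abs, abs_of_nonneg (wtA_nonneg888 n hq.1.le)]
    exact mul_le_mul (wtA_mono888 n hq.1.le hq.2) (hC q hq) (norm_nonneg _)
      (wtA_nonneg888 n hr.le)
  have h2 := intervalIntegral.norm_integral_le_of_norm_le_const h1
  rw [sub_zero, abs_of_pos hr] at h2
  exact h2

theorem gLker_bound888 (n : ℤ) (g : ℝ → ℂ) {r C : ℝ} (hr : 0 < r)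
    (hC : ∀ q ∈ Ioc (0 : ℝ) r, ‖g q‖ ≤ C) : ‖gLker888 n g r‖ ≤ C * r := by
  have hA := wtA_pos888 n hr
  unfold gLker888
  rw [norm_mul, Complex.norm_real, Real.norm_eq_abs, abs_of_pos (inv_pos.mpr hA)]
  calc (wtA888 n r)⁻¹ * ‖gLin888 n g r‖
      ≤ (wtA888 n r)⁻¹ * (wtA888 n r * C * r) :=
        mul_le_mul_of_nonneg_left (gLin_bound888 n g hr hC) (inv_pos.mpr hA).le
    _ = C * r := by field_simp

theorem gLin_cont888 (n : ℤ) {g : ℝ → ℂ} (hg : Continuous g) : Continuous (gLin888 n g) := by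
  unfold gLin888
  apply intervalIntegral.continuous_primitive
  intro a b
  exact (Continuous.intervalIntegrable
    ((Complex.continuous_ofReal.comp (wtA_cont888 n)).mul hg) a b)

theorem gLker_contOn888 (n : ℤ) {g : ℝ → ℂ} (hg : Continuous g) :
    ContinuousOn (gLker888 n g) (Ioi 0) := by
  unfold gLker888
  apply ContinuousOn.mul _ (gLin_cont888 n hg).continuousOn
  apply Complex.continuous_ofReal.comp_continuousOn
  apply ContinuousOn.inv₀ (wtA_cont888 n).continuousOn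
  intro x hx
  exact (wtA_pos888 n hx).ne'

theorem gLker_intble888 (n : ℤ) {g : ℝ → ℂ} (hg : Continuous g) {t : ℝ} (ht : 0 ≤ t) :
    IntervalIntegrable (gLker888 n g) volume 0 t := by
  rw [intervalIntegrable_iff_integrableOn_Ioc_of_le ht]
  obtain ⟨C, hC⟩ := (isCompact_Icc (a := (0:ℝ)) (b := t)).exists_bound_of_continuousOn
    hg.continuousOn
  apply IntegrableOn.of_bound measure_Ioc_lt_top
    (((gLker_contOn888 n hg).mono (fun x hx => hx.1)).aestronglyMeasurable measurableSet_Ioc)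
    (C * t)
  · rw [ae_restrict_iff' measurableSet_Ioc]
    refine Filter.Eventually.of_forall (fun r hr => ?_)
    have hC0 : 0 ≤ C := (norm_nonneg _).trans (hC r ⟨hr.1.le, hr.2⟩)
    refine (gLker_bound888 n g hr.1 (fun q hq => hC q ⟨hq.1.le, hq.2.trans hr.2⟩)).trans ?_
    exact mul_le_mul_of_nonneg_left hr.2 hC0

/-- `gL888` only depends on the values on `(0, t]`. -/
theorem gL_congr888 (n : ℤ) (g g' : ℝ → ℂ) {t : ℝ} (ht : 0 ≤ t)
    (h : ∀ q, 0 < q → q ≤ t → g q = g' q) : gL888 n g t = gL888 n g' t := by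
  unfold gL888
  apply intervalIntegral.integral_congr
  intro r hr
  rw [uIcc_of_le ht] at hr
  simp only
  congr 1
  apply intervalIntegral.integral_congr
  intro q hq
  rw [uIcc_of_le hr.1] at hq
  simp only
  rcases eq_or_lt_of_le hq.1 with h0 | h0
  · rw [← h0, wtA_zero888]; simp
  · rw [h q h0 (hq.2.trans hr.2)]

/-- The continuous extension of a function on `[0, ∞)` to `ℝ` (constant on `(-∞, 0]`). -/
def extC888 (g : ℝ → ℂ) (q : ℝ) : ℂ := g (max q 0)

theorem extC_cont888 {g : ℝ → ℂ} (hg : ContinuousOn g (Ici 0)) : Continuous (extC888 g) := by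
  unfold extC888
  exact hg.comp_continuous (by fun_prop) (fun q => le_max_right q 0)

theorem extC_eq888 (g : ℝ → ℂ) {q : ℝ} (hq : 0 ≤ q) : extC888 g q = g q := by
  unfold extC888; rw [max_eq_left hq]

theorem gL_ext888 (n : ℤ) (g : ℝ → ℂ) {t : ℝ} (ht : 0 ≤ t) :
    gL888 n (extC888 g) t = gL888 n g t :=
  gL_congr888 n _ _ ht (fun _ hq _ => extC_eq888 g hq.le)

theorem gL_sub888 (n : ℤ) {f g : ℝ → ℂ} (hf : Continuous f) (hg : Continuous g) {t : ℝ}
    (ht : 0 ≤ t) : gL888 n (fun q => f q - g q) t = gL888 n f t - gL888 n g t := by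
  rw [gL_eq888, gL_eq888, gL_eq888,
    ← intervalIntegral.integral_sub (gLker_intble888 n hf ht) (gLker_intble888 n hg ht)]
  apply intervalIntegral.integral_congr
  intro r _
  simp only [gLker888, gLin888]
  rw [← mul_sub, ← intervalIntegral.integral_sub]
  · congr 1
    apply intervalIntegral.integral_congr
    intro q _
    simp only
    ring
  · exact Continuous.intervalIntegrable
      ((Complex.continuous_ofReal.comp (wtA_cont888 n)).mul hf) _ _
  · exact Continuous.intervalIntegrable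
      ((Complex.continuous_ofReal.comp (wtA_cont888 n)).mul hg) _ _

theorem gL_const_mul888 (n : ℤ) (c : ℂ) (g : ℝ → ℂ) (t : ℝ) :
    gL888 n (fun q => c * g q) t = c * gL888 n g t := by
  unfold gL888
  rw [← intervalIntegral.integral_const_mul]
  apply intervalIntegral.integral_congr
  intro r _
  simp only
  have : (∫ q in (0:ℝ)..r, ((wtA888 n q : ℝ) : ℂ) * (c * g q))
      = c * ∫ q in (0:ℝ)..r, ((wtA888 n q : ℝ) : ℂ) * g q := by
    rw [← intervalIntegral.integral_const_mul]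
    apply intervalIntegral.integral_congr
    intro q _
    simp only
    ring
  rw [this]; ring

end Fermat.Agent.LT.T6.H888

end

end
-- ===== PACK-END LT/T6/H888/GreenBasic.lean

-- ===== PACK-BEGIN LT/T6/H497/ProdForm.lean
section





/-!
# Row LT, tower T6, leaf T6.22.A2 `ProdFormC888` (helper497)

OFF-MAIN.  The product formula `T μ (t, u) = μ(t) μ(u)` of the normalised eigenvalue function of
a continuous joint eigenfunction of the circle means (weights `0, ±1`).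

Proof.  `Y_t(θ) = k_θ a_t k_θ⁻¹`.  For `e(x₀) ≠ 0` compute
`I = ∫∫ e(x₀ Y_u(θ') Y_t(θ)) dθ dθ'` in two ways: (1) the eigen-equation twice gives
`(2π)² m(t) m(u) e(x₀)`; (2) `θ = θ' + v`, Fubini, and for fixed `v` the Cartan decomposition
`a_u k_v a_t = k_α a_d k_β` (`cosh d = ρ(t, u, 2v)`) gives
`Y_u(θ') Y_t(θ' + v) = Y_d(θ' + α) k_{α + β - v}`, hence the inner integral is
`χ_n(k_{α+β-v}) · 2π · m(d) e(x₀)`, and `χ_n(k_{α+β-v}) cosh(d/2)` is the holomorphic part of
`a_u Y_t(v)` (`n = 1`), an explicit trigonometric polynomial in `2v`; its odd part integrates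
to `0`.  As a by-product the normalised eigenvalue function is continuous on `[0, ∞)`.
-/

set_option autoImplicit false

open scoped Matrix
open MeasureTheory

noncomputable section

namespace Fermat.Agent.LT.T6.H497

open Fermat.Agent.LT.T6 Fermat.Agent.LT.T6.H830 Fermat.Agent.LT.T6.H888 Fermat.Agent.LT.T6.H162
  Fermat.Agent.LT.T6.H543

/-! ## 1. The circle `Y_t(θ) = k_θ a_t k_θ⁻¹` -/

/-- `Y_t(θ) = k_θ a_t k_{-θ}`. -/
def yR497 (t θ : ℝ) : GL (Fin 2) ℝ := rotR θ * bR 0 t 0 * rotR (-θ)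

theorem coe_yR497 (t θ : ℝ) :
    ((yR497 t θ : GL (Fin 2) ℝ) : Matrix (Fin 2) (Fin 2) ℝ)
      = !![Real.cos θ, -Real.sin θ; Real.sin θ, Real.cos θ]
        * !![Real.exp (t / 2), 0; 0, Real.exp (-(t / 2))]
        * !![Real.cos θ, Real.sin θ; -Real.sin θ, Real.cos θ] := by
  unfold yR497
  rw [Units.val_mul, Units.val_mul, coe_rotR830, coe_bR830, coe_rotR830, Real.cos_neg,
    Real.sin_neg, neg_neg, mul_zero]
  have h1 : (0 + t) / 2 = t / 2 := by ring
  have h2 : (0 - t) / 2 = -(t / 2) := by ring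
  rw [h1, h2]

theorem rotR_zero497 : rotR 0 = 1 := by
  apply Units.ext
  rw [coe_rotR830, Real.cos_zero, Real.sin_zero, neg_zero]
  exact Matrix.one_fin_two.symm

theorem rotR_inv497 (θ : ℝ) : (rotR θ)⁻¹ = rotR (-θ) := by
  apply inv_eq_of_mul_eq_one_right
  rw [rotR_mul_rotR162, add_neg_cancel, rotR_zero497]

theorem bR_zero497 : bR 0 0 0 = 1 := by
  apply Units.ext
  rw [coe_bR830]
  simp [Matrix.one_fin_two]

theorem bR_mul_bR497 (t u : ℝ) : bR 0 t 0 * bR 0 u 0 = bR 0 (t + u) 0 := by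
  apply Units.ext
  rw [Units.val_mul, coe_bR830, coe_bR830, coe_bR830]
  simp
  constructor <;> rw [← Real.exp_add] <;> congr 1 <;> ring

theorem bR_inv497 (t : ℝ) : (bR 0 t 0)⁻¹ = bR 0 (-t) 0 := by
  apply inv_eq_of_mul_eq_one_right
  rw [bR_mul_bR497, add_neg_cancel, bR_zero497]

theorem continuous_rotR_val497 :
    Continuous (fun θ : ℝ => ((rotR θ : GL (Fin 2) ℝ) : Matrix (Fin 2) (Fin 2) ℝ)) := by
  apply continuous_matrix
  intro i j
  fin_cases i <;> fin_cases j <;> simp [coe_rotR830] <;> fun_prop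

theorem continuous_rotR497 : Continuous rotR := by
  rw [Units.continuous_iff]
  refine ⟨continuous_rotR_val497, ?_⟩
  have h : (fun θ : ℝ => (((rotR θ)⁻¹ : GL (Fin 2) ℝ) : Matrix (Fin 2) (Fin 2) ℝ))
      = (fun θ : ℝ => ((rotR θ : GL (Fin 2) ℝ) : Matrix (Fin 2) (Fin 2) ℝ)) ∘ (fun θ => -θ) := by
    funext θ
    rw [rotR_inv497]
    rfl
  rw [h]
  exact continuous_rotR_val497.comp continuous_neg

theorem continuous_bR_val497 :
    Continuous (fun t : ℝ => ((bR 0 t 0 : GL (Fin 2) ℝ) : Matrix (Fin 2) (Fin 2) ℝ)) := by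
  apply continuous_matrix
  intro i j
  fin_cases i <;> fin_cases j <;> simp [coe_bR830] <;> fun_prop

theorem continuous_bR497 : Continuous (fun t : ℝ => bR 0 t 0) := by
  rw [Units.continuous_iff]
  refine ⟨continuous_bR_val497, ?_⟩
  have h : (fun t : ℝ => (((bR 0 t 0)⁻¹ : GL (Fin 2) ℝ) : Matrix (Fin 2) (Fin 2) ℝ))
      = (fun t : ℝ => ((bR 0 t 0 : GL (Fin 2) ℝ) : Matrix (Fin 2) (Fin 2) ℝ)) ∘ (fun t => -t) := by
    funext t
    rw [bR_inv497]
    rfl
  rw [h]
  exact continuous_bR_val497.comp continuous_neg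

theorem continuous_yR497 : Continuous (fun p : ℝ × ℝ => yR497 p.1 p.2) := by
  unfold yR497
  exact ((continuous_rotR497.comp continuous_snd).mul (continuous_bR497.comp continuous_fst)).mul
    (continuous_rotR497.comp continuous_snd.neg)

theorem yR_periodic497 (t : ℝ) : Function.Periodic (yR497 t) (2 * Real.pi) := by
  intro θ
  unfold yR497
  have h : -(θ + 2 * Real.pi) + 2 * Real.pi = -θ := by ring
  rw [rotR_add_two_pi162, ← rotR_add_two_pi162 (-(θ + 2 * Real.pi)), h]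

theorem yR_zero497 (θ : ℝ) : yR497 0 θ = 1 := by
  unfold yR497
  rw [bR_zero497, mul_one, rotR_mul_rotR162, add_neg_cancel, rotR_zero497]

theorem inSO2_rotR497 (γ : ℝ) : InSO2 (rotR γ) := by
  refine ⟨?_, det_rotR162 γ⟩
  rw [coe_rotR830]
  have h := Real.cos_sq_add_sin_sq γ
  ext i j
  fin_cases i <;> fin_cases j <;> simp [Matrix.mul_apply, Fin.sum_univ_two]
    <;> nlinarith [h]

theorem holPart_rotR497 (γ : ℝ) : holPart (rotR γ) = Complex.exp ((γ : ℂ) * Complex.I) := by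
  have h := holPart_rotR_mul162 γ 1
  rw [mul_one] at h
  rw [h]
  have h1 : holPart (1 : GL (Fin 2) ℝ) = 1 := by
    unfold holPart
    simp
  rw [h1, mul_one]

/-! ## 2. The product `a_u k_v a_t` -/

theorem coe_prod497 (t u v : ℝ) :
    ((bR 0 u 0 * rotR v * bR 0 t 0 : GL (Fin 2) ℝ) : Matrix (Fin 2) (Fin 2) ℝ)
      = !![Real.exp (u / 2) * Real.cos v * Real.exp (t / 2),
            -(Real.exp (u / 2) * Real.sin v * Real.exp (-(t / 2)));
          Real.exp (-(u / 2)) * Real.sin v * Real.exp (t / 2),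
            Real.exp (-(u / 2)) * Real.cos v * Real.exp (-(t / 2))] := by
  rw [Units.val_mul, Units.val_mul, coe_bR830, coe_rotR830, coe_bR830]
  have h1 : ∀ x : ℝ, (0 + x) / 2 = x / 2 := fun x => by ring
  have h2 : ∀ x : ℝ, (0 - x) / 2 = -(x / 2) := fun x => by ring
  rw [h1, h2, h1, h2]
  ext i j
  fin_cases i <;> fin_cases j <;> simp [Matrix.mul_apply, Fin.sum_univ_two]

theorem det_bR497 (ζ t : ℝ) :
    ((bR ζ t 0 : GL (Fin 2) ℝ) : Matrix (Fin 2) (Fin 2) ℝ).det = Real.exp ζ := by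
  rw [coe_bR830, Matrix.det_fin_two_of, mul_zero, sub_zero, ← Real.exp_add]
  congr 1
  ring

theorem det_prod497 (t u v : ℝ) :
    ((bR 0 u 0 * rotR v * bR 0 t 0 : GL (Fin 2) ℝ) : Matrix (Fin 2) (Fin 2) ℝ).det = 1 := by
  rw [Units.val_mul, Units.val_mul, Matrix.det_mul, Matrix.det_mul, det_bR497, det_bR497,
    det_rotR162, Real.exp_zero]
  norm_num

theorem exp_eq_sq497 (t : ℝ) : Real.exp t = Real.exp (t / 2) ^ 2 := by
  rw [sq, ← Real.exp_add]
  congr 1
  ring

theorem exp_neg_eq_sq497 (t : ℝ) : Real.exp (-t) = Real.exp (-(t / 2)) ^ 2 := by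
  rw [sq, ← Real.exp_add]
  congr 1
  ring

theorem cos_two_mul497 (v : ℝ) : Real.cos (2 * v) = Real.cos v ^ 2 - Real.sin v ^ 2 := by
  rw [Real.cos_two_mul]
  have h := Real.cos_sq_add_sin_sq v
  linarith

theorem rhoR_prod497 (t u v : ℝ) :
    rhoR (bR 0 u 0 * rotR v * bR 0 t 0) = rho888 t u (2 * v) := by
  rw [rhoR_eq162, det_prod497, coe_prod497]
  unfold rho888
  rw [Real.cosh_eq, Real.cosh_eq, Real.sinh_eq, Real.sinh_eq, cos_two_mul497, exp_eq_sq497 t,
    exp_eq_sq497 u, exp_neg_eq_sq497 t, exp_neg_eq_sq497 u]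
  simp only [Matrix.of_apply, Matrix.cons_val', Matrix.cons_val_zero, Matrix.cons_val_one,
    Matrix.cons_val_fin_one, abs_one, mul_one]
  have h := Real.cos_sq_add_sin_sq v
  linear_combination ((Real.exp (t / 2) ^ 2 + Real.exp (-(t / 2)) ^ 2)
    * (Real.exp (u / 2) ^ 2 + Real.exp (-(u / 2)) ^ 2) / 4) * h

/-- The weight-one factor `W(v) = cosh(t/2) cosh(u/2) + sinh(t/2) sinh(u/2) e^{-2iv}`. -/
def wOne497 (t u v : ℝ) : ℂ :=
  ((Real.cosh (t / 2) * Real.cosh (u / 2)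
      + Real.sinh (t / 2) * Real.sinh (u / 2) * Real.cos (2 * v) : ℝ) : ℂ)
    - ((Real.sinh (t / 2) * Real.sinh (u / 2) * Real.sin (2 * v) : ℝ) : ℂ) * Complex.I

theorem cplx_aux497 (P Q c s X Z : ℝ) (hX : (P * c + Q * s) / 2 = X)
    (hZ : (P * s - Q * c) / 2 = Z) :
    (((P : ℝ) : ℂ) + ((Q : ℝ) : ℂ) * Complex.I) / 2
        * (((c : ℝ) : ℂ) + ((-s : ℝ) : ℂ) * Complex.I)
      = ((X : ℝ) : ℂ) - ((Z : ℝ) : ℂ) * Complex.I := by
  subst hX hZ
  push_cast
  linear_combination (-(Q : ℂ) * s / 2) * Complex.I_sq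

theorem holPart_prod497 (t u v : ℝ) :
    holPart (bR 0 u 0 * rotR v * bR 0 t 0) * Complex.exp (((-v : ℝ) : ℂ) * Complex.I)
      = wOne497 t u v := by
  unfold holPart wOne497
  rw [coe_prod497, Complex.exp_mul_I, ← Complex.ofReal_cos, ← Complex.ofReal_sin, Real.cos_neg,
    Real.sin_neg]
  simp only [Matrix.of_apply, Matrix.cons_val', Matrix.cons_val_zero, Matrix.cons_val_one,
    Matrix.cons_val_fin_one]
  have h := Real.cos_sq_add_sin_sq v
  refine cplx_aux497 _ _ _ _ _ _ ?_ ?_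
  · rw [cos_two_mul497, Real.cosh_eq, Real.cosh_eq, Real.sinh_eq, Real.sinh_eq]
    linear_combination ((Real.exp (t / 2) + Real.exp (-(t / 2))) / 2
      * ((Real.exp (u / 2) + Real.exp (-(u / 2))) / 2)) * h
  · rw [Real.sin_two_mul, Real.sinh_eq, Real.sinh_eq]
    ring

/-! ## 3. The Cartan decomposition of `a_u k_v a_t` -/

theorem rho_ge_one497 (t u φ : ℝ) (ht : 0 < t) (hu : 0 < u) : 1 ≤ rho888 t u φ := by
  unfold rho888
  have h1 : 0 < Real.sinh t := Real.sinh_pos_iff.2 ht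
  have h2 : 0 < Real.sinh u := Real.sinh_pos_iff.2 hu
  have h3 : -1 ≤ Real.cos φ := Real.neg_one_le_cos φ
  have h4 : 1 ≤ Real.cosh (t - u) := Real.one_le_cosh _
  rw [Real.cosh_sub] at h4
  nlinarith [mul_pos h1 h2]

theorem cartan_prod497 (t u v : ℝ) :
    ∃ α β : ℝ,
      bR 0 u 0 * rotR v * bR 0 t 0
        = rotR α * bR 0 (Real.arcosh (rho888 t u (2 * v))) 0 * rotR β ∧
      Complex.exp (((α + β - v : ℝ) : ℂ) * Complex.I)
          * ((Real.cosh (Real.arcosh (rho888 t u (2 * v)) / 2) : ℝ) : ℂ)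
        = wOne497 t u v := by
  have hdet := det_prod497 t u v
  obtain ⟨ζ, α, β, d, hd, hg⟩ := cartanRC_h543 (bR 0 u 0 * rotR v * bR 0 t 0)
    (by rw [hdet]; exact one_pos)
  have hζ : ζ = 0 := by
    have h1 := hdet
    rw [hg, det_mul_rotR162, det_rotR_mul162, det_bR497] at h1
    exact (Real.exp_eq_one_iff ζ).1 h1
  subst hζ
  have hρ : Real.arcosh (rho888 t u (2 * v)) = d := by
    rw [← rhoR_prod497, hg, rhoR_cartan162, Real.arcosh_cosh hd]
  rw [hρ]
  refine ⟨α, β, hg, ?_⟩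
  rw [← holPart_prod497, hg, holPart_cartan162]
  have h0 : Real.exp ((0 : ℝ) / 2) = 1 := by rw [zero_div, Real.exp_zero]
  rw [h0, one_mul]
  have h1 : (((α + β - v : ℝ) : ℂ)) * Complex.I
      = (α : ℂ) * Complex.I + (β : ℂ) * Complex.I + ((-v : ℝ) : ℂ) * Complex.I := by
    push_cast
    ring
  rw [h1, Complex.exp_add, Complex.exp_add]
  ring

theorem yR_mul_yR497 (t u v α β d θ : ℝ)
    (hg : bR 0 u 0 * rotR v * bR 0 t 0 = rotR α * bR 0 d 0 * rotR β) :
    yR497 u θ * yR497 t (θ + v) = yR497 d (θ + α) * rotR (α + β - v) := by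
  unfold yR497
  have h1 : rotR (-θ) * rotR (θ + v) = rotR v := by
    rw [rotR_mul_rotR162]
    congr 1
    ring
  have h2 : rotR (-(θ + α)) * rotR (α + β - v) = rotR β * rotR (-(θ + v)) := by
    rw [rotR_mul_rotR162, rotR_mul_rotR162]
    congr 1
    ring
  calc rotR θ * bR 0 u 0 * rotR (-θ) * (rotR (θ + v) * bR 0 t 0 * rotR (-(θ + v)))
      = rotR θ * (bR 0 u 0 * (rotR (-θ) * rotR (θ + v)) * bR 0 t 0) * rotR (-(θ + v)) := by
        simp only [mul_assoc]
    _ = rotR θ * (rotR α * bR 0 d 0 * rotR β) * rotR (-(θ + v)) := by rw [h1, hg]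
    _ = rotR θ * rotR α * bR 0 d 0 * (rotR β * rotR (-(θ + v))) := by simp only [mul_assoc]
    _ = rotR (θ + α) * bR 0 d 0 * (rotR (-(θ + α)) * rotR (α + β - v)) := by
        rw [rotR_mul_rotR162, h2]
    _ = rotR (θ + α) * bR 0 d 0 * rotR (-(θ + α)) * rotR (α + β - v) := by
        simp only [mul_assoc]

/-! ## 4. The weight factor -/

/-- The sign of the odd part. -/
def sg497 (n : ℤ) : ℂ := if n = 0 then 0 else if n = 1 then -1 else 1

/-- `χ_n(k_{α+β-v}) · nrm(d)`, explicitly. -/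
def wFac497 (n : ℤ) (t u v : ℝ) : ℂ :=
  ((nrm888 n t * nrm888 n u * kerW888 n t u (2 * v) : ℝ) : ℂ)
    + sg497 n * ((Real.sinh (t / 2) * Real.sinh (u / 2) * Real.sin (2 * v) : ℝ) : ℂ) * Complex.I

theorem ker_eq497 (t u φ : ℝ) :
    Real.cosh (t / 2) * Real.cosh (u / 2)
        * (1 + Real.tanh (t / 2) * Real.tanh (u / 2) * Real.cos φ)
      = Real.cosh (t / 2) * Real.cosh (u / 2)
        + Real.sinh (t / 2) * Real.sinh (u / 2) * Real.cos φ := by
  rw [Real.tanh_eq_sinh_div_cosh, Real.tanh_eq_sinh_div_cosh]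
  have h1 : Real.cosh (t / 2) ≠ 0 := (Real.cosh_pos _).ne'
  have h2 : Real.cosh (u / 2) ≠ 0 := (Real.cosh_pos _).ne'
  field_simp

theorem wFac_eq497 (n : ℤ) (hn : n = 0 ∨ n = 1 ∨ n = -1) (t u v γ d : ℝ)
    (hW : Complex.exp (((γ : ℝ) : ℂ) * Complex.I) * ((Real.cosh (d / 2) : ℝ) : ℂ)
      = wOne497 t u v) :
    wtChar n (rotR γ) * ((nrm888 n d : ℝ) : ℂ) = wFac497 n t u v := by
  unfold wtChar wFac497
  rw [holPart_rotR497]
  rcases hn with rfl | rfl | rfl
  · simp [nrm888, kerW888, sg497]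
  · have h10 : (1 : ℤ) ≠ 0 := one_ne_zero
    simp only [nrm888, kerW888, sg497, h10, if_false, zpow_one, if_true]
    rw [hW, ker_eq497]
    unfold wOne497
    push_cast
    ring
  · have h10 : (-1 : ℤ) ≠ 0 := by norm_num
    have h11 : (-1 : ℤ) ≠ 1 := by norm_num
    simp only [nrm888, kerW888, sg497, h10, h11, if_false, zpow_neg_one]
    have hc : (Complex.exp (((γ : ℝ) : ℂ) * Complex.I))⁻¹ * ((Real.cosh (d / 2) : ℝ) : ℂ)
        = (starRingEnd ℂ) (Complex.exp (((γ : ℝ) : ℂ) * Complex.I)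
          * ((Real.cosh (d / 2) : ℝ) : ℂ)) := by
      rw [map_mul, Complex.conj_ofReal, ← Complex.exp_conj, map_mul, Complex.conj_ofReal,
        Complex.conj_I, mul_neg, Complex.exp_neg]
    rw [hc, hW, ker_eq497]
    unfold wOne497
    rw [map_sub, map_mul, Complex.conj_ofReal, Complex.conj_ofReal, Complex.conj_I]
    push_cast
    ring

/-! ## 5. The eigen-equation -/

section Eigen

variable {n : ℤ} {e : GL (Fin 2) ℝ → ℂ} {m : ℝ → ℂ}

theorem eig497 (h : IsCircEigen888 n e m) (t : ℝ) (ht : 0 < t) (x : GL (Fin 2) ℝ) :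
    (∫ θ in (0 : ℝ)..(2 * Real.pi), e (x * yR497 t θ))
      = ((2 * Real.pi : ℝ) : ℂ) * m t * e x :=
  h.eig t ht (yR497 t) (coe_yR497 t) x

theorem shift497 (e : GL (Fin 2) ℝ → ℂ) (x : GL (Fin 2) ℝ) (d α : ℝ) :
    (∫ θ in (0 : ℝ)..(2 * Real.pi), e (x * yR497 d (θ + α)))
      = ∫ θ in (0 : ℝ)..(2 * Real.pi), e (x * yR497 d θ) := by
  have hper : Function.Periodic (fun θ : ℝ => e (x * yR497 d θ)) (2 * Real.pi) := by
    intro θ
    show e (x * yR497 d (θ + 2 * Real.pi)) = e (x * yR497 d θ)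
    rw [yR_periodic497 d θ]
  rw [intervalIntegral.integral_comp_add_right (fun θ : ℝ => e (x * yR497 d θ)) α]
  have h1 := hper.intervalIntegral_add_eq (0 + α) 0
  have h2 : 0 + α + 2 * Real.pi = 2 * Real.pi + α := by ring
  rw [h2, zero_add (2 * Real.pi)] at h1
  exact h1

theorem shift'497 (e : GL (Fin 2) ℝ → ℂ) (x : GL (Fin 2) ℝ) (d α : ℝ) :
    (∫ θ in (0 : ℝ)..(2 * Real.pi), e (x * yR497 d (α + θ)))
      = ∫ θ in (0 : ℝ)..(2 * Real.pi), e (x * yR497 d θ) := by
  rw [← shift497 e x d α]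
  simp_rw [add_comm α]

theorem nrm_pos497 (n : ℤ) (d : ℝ) : 0 < nrm888 n d := by
  unfold nrm888
  split_ifs
  · exact one_pos
  · exact Real.cosh_pos _

theorem nrm_zero497 (n : ℤ) : nrm888 n 0 = 1 := by
  unfold nrm888
  split_ifs
  · rfl
  · rw [zero_div, Real.cosh_zero]

theorem continuous_nrm497 (n : ℤ) : Continuous (nrm888 n) := by
  unfold nrm888
  split_ifs
  · exact continuous_const
  · exact Real.continuous_cosh.comp (continuous_id.div_const 2)

theorem mtOf_mul_nrm497 (n : ℤ) (m : ℝ → ℂ) (d : ℝ) (hd : 0 < d) :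
    mtOf888 n m d * ((nrm888 n d : ℝ) : ℂ) = m d := by
  unfold mtOf888
  rw [if_pos hd]
  have h0 : ((nrm888 n d : ℝ) : ℂ) ≠ 0 := Complex.ofReal_ne_zero.2 (nrm_pos497 n d).ne'
  field_simp

theorem mtOf_zero497 (n : ℤ) (m : ℝ → ℂ) : mtOf888 n m 0 = 1 := by
  unfold mtOf888
  rw [if_neg (lt_irrefl 0)]

theorem mfun497 (h : IsCircEigen888 n e m) (d : ℝ) (hd : 0 ≤ d) (x : GL (Fin 2) ℝ) :
    (∫ θ in (0 : ℝ)..(2 * Real.pi), e (x * yR497 d θ))
      = ((2 * Real.pi : ℝ) : ℂ) * (mtOf888 n m d * ((nrm888 n d : ℝ) : ℂ)) * e x := by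
  rcases hd.eq_or_lt with hd0 | hd0
  · subst hd0
    simp_rw [yR_zero497, mul_one]
    rw [intervalIntegral.integral_const, mtOf_zero497, nrm_zero497, sub_zero, Complex.real_smul]
    push_cast
    ring
  · rw [mtOf_mul_nrm497 n m d hd0]
    exact eig497 h d hd0 x

theorem inner497 (h : IsCircEigen888 n e m) (hn : n = 0 ∨ n = 1 ∨ n = -1) (x : GL (Fin 2) ℝ)
    (t u v : ℝ) (ht : 0 < t) (hu : 0 < u) :
    (∫ θ in (0 : ℝ)..(2 * Real.pi), e (x * (yR497 u θ * yR497 t (θ + v))))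
      = ((2 * Real.pi : ℝ) : ℂ) * e x * wFac497 n t u v
        * mtOf888 n m (Real.arcosh (rho888 t u (2 * v))) := by
  obtain ⟨α, β, hg, hW⟩ := cartan_prod497 t u v
  have hd0 : 0 ≤ Real.arcosh (rho888 t u (2 * v)) :=
    Real.arcosh_nonneg (rho_ge_one497 t u (2 * v) ht hu)
  have h1 : ∀ θ : ℝ, e (x * (yR497 u θ * yR497 t (θ + v)))
      = wtChar n (rotR (α + β - v))
        * e (x * yR497 (Real.arcosh (rho888 t u (2 * v))) (θ + α)) := by
    intro θ
    rw [yR_mul_yR497 t u v α β _ θ hg, ← mul_assoc, h.wt _ _ (inSO2_rotR497 _)]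
  simp_rw [h1]
  rw [intervalIntegral.integral_const_mul, shift497, mfun497 h _ hd0 x,
    ← wFac_eq497 n hn t u v _ _ hW]
  ring

end Eigen

/-! ## 6. One-variable calculus -/

/-- `∫₀^{2π} F(2v) dv = ∫₀^{2π} F(φ) dφ` for a continuous `2π`-periodic `F`. -/
theorem double497 (F : ℝ → ℂ) (hF : Continuous F) (hper : Function.Periodic F (2 * Real.pi)) :
    (∫ v in (0 : ℝ)..(2 * Real.pi), F (2 * v)) = ∫ φ in (0 : ℝ)..(2 * Real.pi), F φ := by
  rw [intervalIntegral.integral_comp_mul_left (fun x => F x) (two_ne_zero : (2 : ℝ) ≠ 0),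
    mul_zero]
  have h1 : (∫ x in (0 : ℝ)..(2 * (2 * Real.pi)), F x)
      = (∫ x in (0 : ℝ)..(2 * Real.pi), F x) + ∫ x in (2 * Real.pi)..(2 * (2 * Real.pi)), F x :=
    (intervalIntegral.integral_add_adjacent_intervals (hF.intervalIntegrable _ _)
      (hF.intervalIntegrable _ _)).symm
  have h2 := hper.intervalIntegral_add_eq (2 * Real.pi) 0
  have h3 : 2 * Real.pi + 2 * Real.pi = 2 * (2 * Real.pi) := by ring
  rw [h3, zero_add] at h2
  rw [h1, h2, Complex.real_smul]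
  push_cast
  ring

/-- The integral over a period of a function which is odd under `φ ↦ 2π - φ` vanishes. -/
theorem odd497 (F : ℝ → ℂ) (hodd : ∀ φ : ℝ, F (2 * Real.pi - φ) = -F φ) :
    (∫ φ in (0 : ℝ)..(2 * Real.pi), F φ) = 0 := by
  have h1 := intervalIntegral.integral_comp_sub_left (a := (0 : ℝ)) (b := 2 * Real.pi)
    (fun x => F x) (2 * Real.pi)
  rw [sub_self, sub_zero] at h1
  simp_rw [hodd] at h1
  rw [intervalIntegral.integral_neg] at h1
  have h2 : (2 : ℂ) * (∫ φ in (0 : ℝ)..(2 * Real.pi), F φ) = 0 := by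
    linear_combination -h1
  rcases mul_eq_zero.1 h2 with h3 | h3
  · exact absurd h3 two_ne_zero
  · exact h3

theorem rho_periodic497 (t u : ℝ) : Function.Periodic (rho888 t u) (2 * Real.pi) := by
  intro φ
  unfold rho888
  rw [Real.cos_add_two_pi]

theorem rho_reflect497 (t u φ : ℝ) : rho888 t u (2 * Real.pi - φ) = rho888 t u φ := by
  unfold rho888
  rw [Real.cos_two_pi_sub]

theorem continuous_rho497 (t u : ℝ) : Continuous (rho888 t u) := by
  unfold rho888
  fun_prop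

theorem kerW_periodic497 (n : ℤ) (t u : ℝ) : Function.Periodic (kerW888 n t u) (2 * Real.pi) := by
  intro φ
  unfold kerW888
  rw [Real.cos_add_two_pi]

theorem continuous_kerW497 (n : ℤ) (t u : ℝ) : Continuous (kerW888 n t u) := by
  unfold kerW888
  split_ifs
  · exact continuous_const
  · fun_prop

/-! ## 7. Continuity of the normalised eigenvalue function -/

section Cont

variable {n : ℤ} {e : GL (Fin 2) ℝ → ℂ} {m : ℝ → ℂ}

theorem continuous_yR_comp497 {X : Type*} [TopologicalSpace X] {f g : X → ℝ}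
    (hf : Continuous f) (hg : Continuous g) : Continuous (fun p : X => yR497 (f p) (g p)) := by
  have h1 : (fun p : X => yR497 (f p) (g p))
      = (fun p : ℝ × ℝ => yR497 p.1 p.2) ∘ (fun p : X => (f p, g p)) := rfl
  rw [h1]
  exact continuous_yR497.comp (hf.prodMk hg)

/-- The continuous function on `ℝ` which is the normalised eigenvalue function on `[0, ∞)`. -/
def mc497 (n : ℤ) (e : GL (Fin 2) ℝ → ℂ) (x : GL (Fin 2) ℝ) (d : ℝ) : ℂ :=
  (∫ θ in (0 : ℝ)..(2 * Real.pi), e (x * yR497 d θ))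
    / (((2 * Real.pi : ℝ) : ℂ) * e x * ((nrm888 n d : ℝ) : ℂ))

theorem continuous_mc497 (h : IsCircEigen888 n e m) (x : GL (Fin 2) ℝ) (hx : e x ≠ 0) :
    Continuous (mc497 n e x) := by
  unfold mc497
  have hnum : Continuous (fun d : ℝ => ∫ θ in (0 : ℝ)..(2 * Real.pi), e (x * yR497 d θ)) := by
    apply intervalIntegral.continuous_parametric_intervalIntegral_of_continuous'
      (f := fun (d θ : ℝ) => e (x * yR497 d θ))
    exact h.cont.comp (continuous_const.mul (continuous_yR_comp497 continuous_fst continuous_snd))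
  have hden : Continuous (fun d : ℝ =>
      ((2 * Real.pi : ℝ) : ℂ) * e x * ((nrm888 n d : ℝ) : ℂ)) :=
    continuous_const.mul (Complex.continuous_ofReal.comp (continuous_nrm497 n))
  refine hnum.div hden ?_
  intro d
  have h1 : ((2 * Real.pi : ℝ) : ℂ) ≠ 0 :=
    Complex.ofReal_ne_zero.2 (mul_pos two_pos Real.pi_pos).ne'
  have h2 : ((nrm888 n d : ℝ) : ℂ) ≠ 0 := Complex.ofReal_ne_zero.2 (nrm_pos497 n d).ne'
  exact mul_ne_zero (mul_ne_zero h1 hx) h2

theorem mtOf_eq_mc497 (h : IsCircEigen888 n e m) (x : GL (Fin 2) ℝ) (hx : e x ≠ 0) (d : ℝ)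
    (hd : 0 ≤ d) : mtOf888 n m d = mc497 n e x d := by
  unfold mc497
  rw [mfun497 h d hd x]
  have h1 : ((2 * Real.pi : ℝ) : ℂ) ≠ 0 :=
    Complex.ofReal_ne_zero.2 (mul_pos two_pos Real.pi_pos).ne'
  have h2 : ((nrm888 n d : ℝ) : ℂ) ≠ 0 := Complex.ofReal_ne_zero.2 (nrm_pos497 n d).ne'
  field_simp

/-- **(A1) `MtContC888`**: the normalised eigenvalue function is continuous on `[0, ∞)`. -/
theorem mtContC497 : MtContC888 := by
  intro n _ e m h
  obtain ⟨x, hx⟩ := h.ne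
  exact (continuous_mc497 h x hx).continuousOn.congr (fun d hd => mtOf_eq_mc497 h x hx d hd)

theorem continuous_H497 (h : IsCircEigen888 n e m) (t u : ℝ) (ht : 0 < t) (hu : 0 < u) :
    Continuous (fun φ : ℝ => mtOf888 n m (Real.arcosh (rho888 t u φ))) := by
  obtain ⟨x, hx⟩ := h.ne
  have h1 : (fun φ : ℝ => mtOf888 n m (Real.arcosh (rho888 t u φ)))
      = fun φ : ℝ => mc497 n e x (Real.arcosh (rho888 t u φ)) := by
    funext φ
    exact mtOf_eq_mc497 h x hx _ (Real.arcosh_nonneg (rho_ge_one497 t u φ ht hu))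
  rw [h1]
  exact (continuous_mc497 h x hx).comp
    (Real.continuousOn_arcosh.comp_continuous (continuous_rho497 t u)
      (fun φ => rho_ge_one497 t u φ ht hu))

end Cont

/-! ## 8. The product formula -/

/-- `φ ↦ μ(d(t, u, φ))`. -/
def hF497 (n : ℤ) (m : ℝ → ℂ) (t u φ : ℝ) : ℂ := mtOf888 n m (Real.arcosh (rho888 t u φ))

/-- The even integrand. -/
def fEven497 (n : ℤ) (m : ℝ → ℂ) (t u φ : ℝ) : ℂ :=
  ((kerW888 n t u φ : ℝ) : ℂ) * hF497 n m t u φ

/-- The odd integrand. -/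
def fOdd497 (n : ℤ) (m : ℝ → ℂ) (t u φ : ℝ) : ℂ :=
  ((Real.sin φ : ℝ) : ℂ) * hF497 n m t u φ

theorem hF_periodic497 (n : ℤ) (m : ℝ → ℂ) (t u : ℝ) :
    Function.Periodic (hF497 n m t u) (2 * Real.pi) := by
  intro φ
  unfold hF497
  rw [rho_periodic497 t u φ]

theorem hF_reflect497 (n : ℤ) (m : ℝ → ℂ) (t u φ : ℝ) :
    hF497 n m t u (2 * Real.pi - φ) = hF497 n m t u φ := by
  unfold hF497
  rw [rho_reflect497]

theorem fEven_periodic497 (n : ℤ) (m : ℝ → ℂ) (t u : ℝ) :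
    Function.Periodic (fEven497 n m t u) (2 * Real.pi) := by
  intro φ
  unfold fEven497
  rw [kerW_periodic497 n t u φ, hF_periodic497 n m t u φ]

theorem fOdd_periodic497 (n : ℤ) (m : ℝ → ℂ) (t u : ℝ) :
    Function.Periodic (fOdd497 n m t u) (2 * Real.pi) := by
  intro φ
  unfold fOdd497
  rw [Real.sin_add_two_pi, hF_periodic497 n m t u φ]

theorem fOdd_odd497 (n : ℤ) (m : ℝ → ℂ) (t u φ : ℝ) :
    fOdd497 n m t u (2 * Real.pi - φ) = -fOdd497 n m t u φ := by
  unfold fOdd497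
  rw [Real.sin_two_pi_sub, hF_reflect497]
  push_cast
  ring

theorem wFac_decomp497 (n : ℤ) (m : ℝ → ℂ) (t u v : ℝ) (c : ℂ) :
    c * wFac497 n t u v * hF497 n m t u (2 * v)
      = (c * ((nrm888 n t * nrm888 n u : ℝ) : ℂ)) * fEven497 n m t u (2 * v)
        + (c * sg497 n * ((Real.sinh (t / 2) * Real.sinh (u / 2) : ℝ) : ℂ) * Complex.I)
          * fOdd497 n m t u (2 * v) := by
  unfold wFac497 fEven497 fOdd497
  push_cast
  ring

/-- **(A2) `ProdFormC888`**, VERBATIM: the product formula. -/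
theorem prodFormC497 : ProdFormC888 := by
  intro n hn e m h t u ht hu
  obtain ⟨x₀, hx₀⟩ := h.ne
  have hHc : Continuous (hF497 n m t u) := continuous_H497 h t u ht hu
  have hF₁c : Continuous (fEven497 n m t u) :=
    (Complex.continuous_ofReal.comp (continuous_kerW497 n t u)).mul hHc
  have hF₂c : Continuous (fOdd497 n m t u) :=
    (Complex.continuous_ofReal.comp Real.continuous_sin).mul hHc
  have hI₂ : (∫ v in (0 : ℝ)..(2 * Real.pi), fOdd497 n m t u (2 * v)) = 0 := by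
    rw [double497 _ hF₂c (fOdd_periodic497 n m t u)]
    exact odd497 _ (fOdd_odd497 n m t u)
  have hI₁ : (∫ v in (0 : ℝ)..(2 * Real.pi), fEven497 n m t u (2 * v))
      = ∫ φ in (0 : ℝ)..(2 * Real.pi), fEven497 n m t u φ :=
    double497 _ hF₁c (fEven_periodic497 n m t u)
  -- the double integral, first way
  have way1 : (∫ θ' in (0 : ℝ)..(2 * Real.pi), ∫ θ in (0 : ℝ)..(2 * Real.pi),
        e (x₀ * yR497 u θ' * yR497 t θ))
      = ((2 * Real.pi : ℝ) : ℂ) * m t * (((2 * Real.pi : ℝ) : ℂ) * m u * e x₀) := by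
    simp_rw [eig497 h t ht]
    rw [intervalIntegral.integral_const_mul, eig497 h u hu]
  -- the double integral, second way
  have way2 : (∫ θ' in (0 : ℝ)..(2 * Real.pi), ∫ θ in (0 : ℝ)..(2 * Real.pi),
        e (x₀ * yR497 u θ' * yR497 t θ))
      = ∫ v in (0 : ℝ)..(2 * Real.pi),
          ((2 * Real.pi : ℝ) : ℂ) * e x₀ * wFac497 n t u v * hF497 n m t u (2 * v) := by
    have hin : ∀ θ' : ℝ, (∫ θ in (0 : ℝ)..(2 * Real.pi), e (x₀ * yR497 u θ' * yR497 t θ))
        = ∫ v in (0 : ℝ)..(2 * Real.pi), e (x₀ * (yR497 u θ' * yR497 t (θ' + v))) := by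
      intro θ'
      simp_rw [← mul_assoc]
      exact (shift'497 e (x₀ * yR497 u θ') t θ').symm
    simp_rw [hin]
    rw [MeasureTheory.intervalIntegral_intervalIntegral_swap]
    · apply intervalIntegral.integral_congr
      intro v _
      exact inner497 h hn x₀ t u v ht hu
    · have hG : Continuous (Function.uncurry
          (fun θ' v : ℝ => e (x₀ * (yR497 u θ' * yR497 t (θ' + v))))) := by
        apply h.cont.comp
        apply continuous_const.mul
        exact (continuous_yR_comp497 continuous_const continuous_fst).mul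
          (continuous_yR_comp497 continuous_const (continuous_fst.add continuous_snd))
      have hK : IsCompact (Set.uIcc (0 : ℝ) (2 * Real.pi) ×ˢ Set.uIcc (0 : ℝ) (2 * Real.pi)) :=
        isCompact_uIcc.prod isCompact_uIcc
      exact (hG.continuousOn.integrableOn_compact hK).mono_set
        (Set.prod_mono Set.uIoc_subset_uIcc Set.uIoc_subset_uIcc)
  -- the odd part drops out
  have way3 : (∫ v in (0 : ℝ)..(2 * Real.pi),
        ((2 * Real.pi : ℝ) : ℂ) * e x₀ * wFac497 n t u v * hF497 n m t u (2 * v))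
      = (((2 * Real.pi : ℝ) : ℂ) * e x₀ * ((nrm888 n t * nrm888 n u : ℝ) : ℂ))
        * ∫ φ in (0 : ℝ)..(2 * Real.pi), fEven497 n m t u φ := by
    simp_rw [wFac_decomp497]
    rw [intervalIntegral.integral_add, intervalIntegral.integral_const_mul,
      intervalIntegral.integral_const_mul, hI₁, hI₂, mul_zero, add_zero]
    · exact ((hF₁c.comp (continuous_const.mul continuous_id)).const_mul _).intervalIntegrable _ _
    · exact ((hF₂c.comp (continuous_const.mul continuous_id)).const_mul _).intervalIntegrable _ _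
  have h1 : ((2 * Real.pi : ℝ) : ℂ) ≠ 0 :=
    Complex.ofReal_ne_zero.2 (mul_pos two_pos Real.pi_pos).ne'
  have hkey : (∫ φ in (0 : ℝ)..(2 * Real.pi), fEven497 n m t u φ)
      = ((2 * Real.pi : ℝ) : ℂ) * (mtOf888 n m t * mtOf888 n m u) := by
    have h5 := way1.symm.trans (way2.trans way3)
    rw [← mtOf_mul_nrm497 n m t ht, ← mtOf_mul_nrm497 n m u hu] at h5
    have h4 : ((2 * Real.pi : ℝ) : ℂ) * e x₀ * ((nrm888 n t * nrm888 n u : ℝ) : ℂ) ≠ 0 := by
      exact mul_ne_zero (mul_ne_zero h1 hx₀)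
        (Complex.ofReal_ne_zero.2 (mul_pos (nrm_pos497 n t) (nrm_pos497 n u)).ne')
    apply mul_left_cancel₀ h4
    rw [← h5]
    push_cast
    ring
  unfold gT888
  have hfin : (∫ φ in (0 : ℝ)..(2 * Real.pi),
      ((kerW888 n t u φ : ℝ) : ℂ) * mtOf888 n m (Real.arcosh (rho888 t u φ)))
      = ∫ φ in (0 : ℝ)..(2 * Real.pi), fEven497 n m t u φ := rfl
  rw [hfin, hkey]
  push_cast
  field_simp

end Fermat.Agent.LT.T6.H497

end

end
-- ===== PACK-END LT/T6/H497/ProdForm.lean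

-- ===== PACK-BEGIN LT/T7/H468/IwLocal.lean
section



/-!
# Row LT, tower T7, leaf T7.L2.3.5.3 `SD534.OpsClassC` (helper468): the Iwahori subgroup, locally

OFF-MAIN.  `F = K_v`, valuation `Valued.v`.  Local algebra in `GL₂(F)`:

* `IwL468 v A`  : `A` lies in the Iwahori subgroup `I` (entries of `A`, `A⁻¹` integral, lower left
  entry in the maximal ideal); `I` is a group.
* `StdL468 v M` : the shape of the elements of `I diag(ϖ, 1) I` (integral, first column in the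
  maximal ideal, `M₁₁` a unit, `det M` a uniformiser); stable under `I` on both sides.
* `iwL_inv_mul468` : `M⁻¹ M' ∈ I` if `M, M'` have this shape and `M₁₁ M'₀₁ ≡ M₀₁ M'₁₁`.
* `lamL468`     : the invariant `M₀₁ / M₁₁ mod 𝔭` in the residue field.
-/

set_option autoImplicit false
set_option linter.unusedSectionVars false
set_option linter.style.haveILetI false

open IsDedekindDomain NumberField Matrix

noncomputable section

namespace Fermat.Agent.LT.T7.H468

variable {K : Type} [Field K] [NumberField K] (v : HeightOneSpectrum (𝓞 K))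

/-! ## Valuations in `ℤᵐ⁰` -/

theorem le_exp_neg_one468 {y : WithZero (Multiplicative ℤ)} (hy : y < 1) :
    y ≤ WithZero.exp (-1 : ℤ) :=
  Fermat.Agent.LT.H129.withZero_le_exp_neg_one129 hy

theorem exp_neg_one_lt_one468 : (WithZero.exp (-1 : ℤ) : WithZero (Multiplicative ℤ)) < 1 := by
  rw [← WithZero.exp_zero, WithZero.exp_lt_exp]
  norm_num

theorem val_eq_one_of_mul468 {x y : WithZero (Multiplicative ℤ)} (hx : x ≤ 1) (hy : y ≤ 1)
    (h : x * y = 1) : x = 1 := by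
  refine le_antisymm hx ?_
  by_contra hlt
  rw [not_le] at hlt
  have hy0 : y ≠ 0 := by
    rintro rfl
    simp at h
  have : x * y < 1 := by
    calc x * y < 1 * y := by
          exact mul_lt_mul_of_pos_right hlt (zero_lt_iff.2 hy0)
      _ = y := one_mul y
      _ ≤ 1 := hy
  exact absurd h (ne_of_lt this)

variable {v}

/-- `v(x y) < 1` if `v(x) < 1` and `v(y) ≤ 1`. -/
theorem val_mul_lt468 {x y : v.adicCompletion K} (hx : Valued.v x < 1) (hy : Valued.v y ≤ 1) :
    Valued.v (x * y) < 1 := by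
  rw [map_mul]
  calc Valued.v x * Valued.v y ≤ Valued.v x * 1 := mul_le_mul_right hy _
    _ = Valued.v x := mul_one _
    _ < 1 := hx

theorem val_mul_lt468' {x y : v.adicCompletion K} (hx : Valued.v x ≤ 1) (hy : Valued.v y < 1) :
    Valued.v (x * y) < 1 := by
  rw [mul_comm]
  exact val_mul_lt468 hy hx

theorem val_mul_le468 {x y : v.adicCompletion K} (hx : Valued.v x ≤ 1) (hy : Valued.v y ≤ 1) :
    Valued.v (x * y) ≤ 1 := by
  rw [map_mul]
  exact mul_le_one' hx hy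

/-- `v(x + y) = 1` if `v(x) = 1` and `v(y) < 1`. -/
theorem val_add_eq_one468 {x y : v.adicCompletion K} (hx : Valued.v x = 1)
    (hy : Valued.v y < 1) : Valued.v (x + y) = 1 := by
  rw [Valuation.map_add_eq_of_lt_left _ (by rw [hx]; exact hy), hx]

/-! ## The Iwahori subgroup -/

variable (v)

/-- `A ∈ I`. -/
def IwL468 (A : GL (Fin 2) (v.adicCompletion K)) : Prop :=
  (∀ i j, Valued.v ((A : Matrix (Fin 2) (Fin 2) (v.adicCompletion K)) i j) ≤ 1) ∧
    (∀ i j, Valued.v (((A⁻¹ : GL (Fin 2) (v.adicCompletion K)) :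
      Matrix (Fin 2) (Fin 2) (v.adicCompletion K)) i j) ≤ 1) ∧
    Valued.v ((A : Matrix (Fin 2) (Fin 2) (v.adicCompletion K)) 1 0) < 1

variable {v}

theorem val_det_le468 {A : Matrix (Fin 2) (Fin 2) (v.adicCompletion K)}
    (h : ∀ i j, Valued.v (A i j) ≤ 1) : Valued.v A.det ≤ 1 := by
  rw [Matrix.det_fin_two]
  exact Valuation.map_sub_le _ (val_mul_le468 (h 0 0) (h 1 1)) (val_mul_le468 (h 0 1) (h 1 0))

theorem det_mul_det_inv468 (A : GL (Fin 2) (v.adicCompletion K)) :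
    (A : Matrix (Fin 2) (Fin 2) (v.adicCompletion K)).det
      * ((A⁻¹ : GL (Fin 2) (v.adicCompletion K)) :
          Matrix (Fin 2) (Fin 2) (v.adicCompletion K)).det = 1 := by
  rw [← Matrix.det_mul, ← Matrix.GeneralLinearGroup.coe_mul, mul_inv_cancel]
  simp

theorem IwL468.val_det {A : GL (Fin 2) (v.adicCompletion K)} (h : IwL468 v A) :
    Valued.v (A : Matrix (Fin 2) (Fin 2) (v.adicCompletion K)).det = 1 := by
  refine val_eq_one_of_mul468 (val_det_le468 h.1) (val_det_le468 h.2.1) ?_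
  rw [← map_mul, det_mul_det_inv468, map_one]

/-- Integral entries, unit determinant and lower left entry in the maximal ideal. -/
theorem iwL_of468 {A : GL (Fin 2) (v.adicCompletion K)}
    (h1 : ∀ i j, Valued.v ((A : Matrix (Fin 2) (Fin 2) (v.adicCompletion K)) i j) ≤ 1)
    (h2 : Valued.v (A : Matrix (Fin 2) (Fin 2) (v.adicCompletion K)).det = 1)
    (h3 : Valued.v ((A : Matrix (Fin 2) (Fin 2) (v.adicCompletion K)) 1 0) < 1) :
    IwL468 v A := by
  refine ⟨h1, fun i j => ?_, h3⟩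
  rw [Fermat.Agent.LT.H129.inv_apply129, map_div₀, h2, div_one, Matrix.adjugate_fin_two]
  fin_cases i <;> fin_cases j
  · simpa using h1 1 1
  · simpa using h1 0 1
  · simpa using h1 1 0
  · simpa using h1 0 0

theorem IwL468.one : IwL468 v (1 : GL (Fin 2) (v.adicCompletion K)) := by
  refine iwL_of468 (fun i j => ?_) (by simp) (by simp)
  fin_cases i <;> fin_cases j <;> simp

theorem IwL468.mul {A B : GL (Fin 2) (v.adicCompletion K)} (hA : IwL468 v A)
    (hB : IwL468 v B) : IwL468 v (A * B) := by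
  refine iwL_of468 (fun i j => ?_) ?_ ?_
  · rw [Matrix.GeneralLinearGroup.coe_mul, Matrix.mul_apply, Fin.sum_univ_two]
    exact Valuation.map_add_le _ (val_mul_le468 (hA.1 i 0) (hB.1 0 j))
      (val_mul_le468 (hA.1 i 1) (hB.1 1 j))
  · rw [Matrix.GeneralLinearGroup.coe_mul, Matrix.det_mul, map_mul, hA.val_det, hB.val_det,
      one_mul]
  · rw [Matrix.GeneralLinearGroup.coe_mul, Matrix.mul_apply, Fin.sum_univ_two]
    exact Valuation.map_add_lt _ (val_mul_lt468 hA.2.2 (hB.1 0 0))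
      (val_mul_lt468' (hA.1 1 1) hB.2.2)

theorem IwL468.inv {A : GL (Fin 2) (v.adicCompletion K)} (hA : IwL468 v A) :
    IwL468 v A⁻¹ := by
  refine ⟨hA.2.1, by rw [inv_inv]; exact hA.1, ?_⟩
  rw [Fermat.Agent.LT.H129.inv_apply129, map_div₀, hA.val_det, div_one, Matrix.adjugate_fin_two]
  simpa using hA.2.2

/-! ## The shape of the elements of `I diag(ϖ, 1) I` -/

variable (v)

/-- The shape of the elements of `I diag(ϖ, 1) I`. -/
def StdL468 (M : GL (Fin 2) (v.adicCompletion K)) : Prop :=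
  (∀ i j, Valued.v ((M : Matrix (Fin 2) (Fin 2) (v.adicCompletion K)) i j) ≤ 1) ∧
    Valued.v ((M : Matrix (Fin 2) (Fin 2) (v.adicCompletion K)) 0 0) < 1 ∧
    Valued.v ((M : Matrix (Fin 2) (Fin 2) (v.adicCompletion K)) 1 0) < 1 ∧
    Valued.v ((M : Matrix (Fin 2) (Fin 2) (v.adicCompletion K)) 1 1) = 1 ∧
    Valued.v (M : Matrix (Fin 2) (Fin 2) (v.adicCompletion K)).det = WithZero.exp (-1 : ℤ)

variable {v}

theorem IwL468.val_diag {A : GL (Fin 2) (v.adicCompletion K)} (h : IwL468 v A) :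
    Valued.v ((A : Matrix (Fin 2) (Fin 2) (v.adicCompletion K)) 0 0) = 1 ∧
      Valued.v ((A : Matrix (Fin 2) (Fin 2) (v.adicCompletion K)) 1 1) = 1 := by
  have hd := h.val_det
  rw [Matrix.det_fin_two] at hd
  have h1 : Valued.v ((A : Matrix (Fin 2) (Fin 2) (v.adicCompletion K)) 0 1
      * (A : Matrix (Fin 2) (Fin 2) (v.adicCompletion K)) 1 0) < 1 :=
    val_mul_lt468' (h.1 0 1) h.2.2
  have h2 : Valued.v ((A : Matrix (Fin 2) (Fin 2) (v.adicCompletion K)) 0 0
      * (A : Matrix (Fin 2) (Fin 2) (v.adicCompletion K)) 1 1) = 1 := by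
    have e : (A : Matrix (Fin 2) (Fin 2) (v.adicCompletion K)) 0 0
        * (A : Matrix (Fin 2) (Fin 2) (v.adicCompletion K)) 1 1
        = ((A : Matrix (Fin 2) (Fin 2) (v.adicCompletion K)) 0 0
            * (A : Matrix (Fin 2) (Fin 2) (v.adicCompletion K)) 1 1
          - (A : Matrix (Fin 2) (Fin 2) (v.adicCompletion K)) 0 1
            * (A : Matrix (Fin 2) (Fin 2) (v.adicCompletion K)) 1 0)
          + (A : Matrix (Fin 2) (Fin 2) (v.adicCompletion K)) 0 1
            * (A : Matrix (Fin 2) (Fin 2) (v.adicCompletion K)) 1 0 := by ring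
    rw [e]
    exact val_add_eq_one468 hd h1
  rw [map_mul] at h2
  exact ⟨val_eq_one_of_mul468 (h.1 0 0) (h.1 1 1) h2,
    val_eq_one_of_mul468 (h.1 1 1) (h.1 0 0) (by rw [mul_comm]; exact h2)⟩

/-- `I M ⊆` the shape. -/
theorem StdL468.iw_mul {A M : GL (Fin 2) (v.adicCompletion K)} (hA : IwL468 v A)
    (hM : StdL468 v M) : StdL468 v (A * M) := by
  obtain ⟨m1, m00, m10, m11, mdet⟩ := hM
  refine ⟨fun i j => ?_, ?_, ?_, ?_, ?_⟩
  · rw [Matrix.GeneralLinearGroup.coe_mul, Matrix.mul_apply, Fin.sum_univ_two]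
    exact Valuation.map_add_le _ (val_mul_le468 (hA.1 i 0) (m1 0 j))
      (val_mul_le468 (hA.1 i 1) (m1 1 j))
  · rw [Matrix.GeneralLinearGroup.coe_mul, Matrix.mul_apply, Fin.sum_univ_two]
    exact Valuation.map_add_lt _ (val_mul_lt468' (hA.1 0 0) m00) (val_mul_lt468' (hA.1 0 1) m10)
  · rw [Matrix.GeneralLinearGroup.coe_mul, Matrix.mul_apply, Fin.sum_univ_two]
    exact Valuation.map_add_lt _ (val_mul_lt468' (hA.1 1 0) m00) (val_mul_lt468' (hA.1 1 1) m10)
  · rw [Matrix.GeneralLinearGroup.coe_mul, Matrix.mul_apply, Fin.sum_univ_two, add_comm]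
    refine val_add_eq_one468 ?_ (val_mul_lt468 hA.2.2 (m1 0 1))
    rw [map_mul, hA.val_diag.2, m11, one_mul]
  · rw [Matrix.GeneralLinearGroup.coe_mul, Matrix.det_mul, map_mul, hA.val_det, mdet, one_mul]

/-- `M I ⊆` the shape. -/
theorem StdL468.mul_iw {A M : GL (Fin 2) (v.adicCompletion K)} (hM : StdL468 v M)
    (hA : IwL468 v A) : StdL468 v (M * A) := by
  obtain ⟨m1, m00, m10, m11, mdet⟩ := hM
  refine ⟨fun i j => ?_, ?_, ?_, ?_, ?_⟩
  · rw [Matrix.GeneralLinearGroup.coe_mul, Matrix.mul_apply, Fin.sum_univ_two]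
    exact Valuation.map_add_le _ (val_mul_le468 (m1 i 0) (hA.1 0 j))
      (val_mul_le468 (m1 i 1) (hA.1 1 j))
  · rw [Matrix.GeneralLinearGroup.coe_mul, Matrix.mul_apply, Fin.sum_univ_two]
    exact Valuation.map_add_lt _ (val_mul_lt468 m00 (hA.1 0 0)) (val_mul_lt468' (m1 0 1) hA.2.2)
  · rw [Matrix.GeneralLinearGroup.coe_mul, Matrix.mul_apply, Fin.sum_univ_two]
    exact Valuation.map_add_lt _ (val_mul_lt468 m10 (hA.1 0 0)) (val_mul_lt468' (m1 1 1) hA.2.2)
  · rw [Matrix.GeneralLinearGroup.coe_mul, Matrix.mul_apply, Fin.sum_univ_two, add_comm]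
    refine val_add_eq_one468 ?_ (val_mul_lt468 m10 (hA.1 0 1))
    rw [map_mul, hA.val_diag.2, m11, one_mul]
  · rw [Matrix.GeneralLinearGroup.coe_mul, Matrix.det_mul, map_mul, hA.val_det, mdet, mul_one]

/-- `diag(c, 1)` has the shape. -/
theorem StdL468.diag {T : GL (Fin 2) (v.adicCompletion K)} {c : v.adicCompletion K}
    (hc : Valued.v c = WithZero.exp (-1 : ℤ))
    (hT : (T : Matrix (Fin 2) (Fin 2) (v.adicCompletion K)) = !![c, 0; 0, 1]) :
    StdL468 v T := by
  have hc1 : Valued.v c < 1 := by rw [hc]; exact exp_neg_one_lt_one468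
  refine ⟨fun i j => ?_, ?_, ?_, ?_, ?_⟩
  · rw [hT]
    fin_cases i <;> fin_cases j <;> simp [hc1.le]
  · rw [hT]; simpa using hc1
  · rw [hT]; simp
  · rw [hT]; simp
  · rw [hT, Matrix.det_fin_two_of]; simpa using hc

/-- **The criterion.**  `M⁻¹ M' ∈ I` if `M, M'` have the shape and `M₁₁ M'₀₁ ≡ M₀₁ M'₁₁`. -/
theorem iwL_inv_mul468 {M M' : GL (Fin 2) (v.adicCompletion K)} (hM : StdL468 v M)
    (hM' : StdL468 v M')
    (h : Valued.v ((M : Matrix (Fin 2) (Fin 2) (v.adicCompletion K)) 1 1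
        * (M' : Matrix (Fin 2) (Fin 2) (v.adicCompletion K)) 0 1
      - (M : Matrix (Fin 2) (Fin 2) (v.adicCompletion K)) 0 1
        * (M' : Matrix (Fin 2) (Fin 2) (v.adicCompletion K)) 1 1) < 1) :
    IwL468 v (M⁻¹ * M') := by
  obtain ⟨m1, m00, m10, m11, mdet⟩ := hM
  obtain ⟨n1, n00, n10, n11, ndet⟩ := hM'
  have hne : (WithZero.exp (-1 : ℤ) : WithZero (Multiplicative ℤ)) ≠ 0 := WithZero.exp_ne_zero
  have hdiv : ∀ x : v.adicCompletion K, Valued.v x < 1 →
      Valued.v (x / (M : Matrix (Fin 2) (Fin 2) (v.adicCompletion K)).det) ≤ 1 := by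
    intro x hx
    rw [map_div₀, mdet]
    exact div_le_one_of_le₀ (le_exp_neg_one468 hx) zero_le
  refine iwL_of468 (fun i j => ?_) ?_ ?_
  · rw [Fermat.Agent.LT.H129.inv_mul_apply129, Matrix.adjugate_fin_two, Matrix.mul_apply,
      Fin.sum_univ_two]
    apply hdiv
    fin_cases i <;> fin_cases j
    · simp only [Fin.zero_eta, Fin.isValue, Matrix.of_apply, Matrix.cons_val', Matrix.cons_val_zero,
        Matrix.cons_val_fin_one, Matrix.cons_val_one]
      exact Valuation.map_add_lt _ (val_mul_lt468' (m1 1 1) n00)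
        (val_mul_lt468' (by rw [Valuation.map_neg]; exact m1 0 1) n10)
    · simp only [Fin.zero_eta, Fin.isValue, Fin.mk_one, Matrix.of_apply, Matrix.cons_val',
        Matrix.cons_val_zero, Matrix.cons_val_fin_one, Matrix.cons_val_one]
      have e : (M : Matrix (Fin 2) (Fin 2) (v.adicCompletion K)) 1 1
            * (M' : Matrix (Fin 2) (Fin 2) (v.adicCompletion K)) 0 1
          + -(M : Matrix (Fin 2) (Fin 2) (v.adicCompletion K)) 0 1
            * (M' : Matrix (Fin 2) (Fin 2) (v.adicCompletion K)) 1 1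
          = (M : Matrix (Fin 2) (Fin 2) (v.adicCompletion K)) 1 1
            * (M' : Matrix (Fin 2) (Fin 2) (v.adicCompletion K)) 0 1
          - (M : Matrix (Fin 2) (Fin 2) (v.adicCompletion K)) 0 1
            * (M' : Matrix (Fin 2) (Fin 2) (v.adicCompletion K)) 1 1 := by ring
      rw [e]
      exact h
    · simp only [Fin.mk_one, Fin.isValue, Fin.zero_eta, Matrix.of_apply, Matrix.cons_val',
        Matrix.cons_val_zero, Matrix.cons_val_fin_one, Matrix.cons_val_one]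
      exact Valuation.map_add_lt _
        (val_mul_lt468 (by rw [Valuation.map_neg]; exact m10) (n1 0 0))
        (val_mul_lt468 m00 (n1 1 0))
    · simp only [Fin.mk_one, Fin.isValue, Matrix.of_apply, Matrix.cons_val', Matrix.cons_val_one,
        Matrix.cons_val_fin_one, Matrix.cons_val_zero]
      exact Valuation.map_add_lt _
        (val_mul_lt468 (by rw [Valuation.map_neg]; exact m10) (n1 0 1))
        (val_mul_lt468 m00 (n1 1 1))
  · rw [Matrix.GeneralLinearGroup.coe_mul, Matrix.det_mul, map_mul]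
    have hi := det_mul_det_inv468 M
    have hvi : Valued.v ((M⁻¹ : GL (Fin 2) (v.adicCompletion K)) :
        Matrix (Fin 2) (Fin 2) (v.adicCompletion K)).det = (WithZero.exp (-1 : ℤ))⁻¹ := by
      have := congrArg Valued.v hi
      rw [map_mul, map_one, mdet] at this
      exact eq_inv_of_mul_eq_one_right this
    rw [hvi, ndet, inv_mul_cancel₀ hne]
  · rw [Fermat.Agent.LT.H129.inv_mul_apply129, Matrix.adjugate_fin_two, Matrix.mul_apply,
      Fin.sum_univ_two, map_div₀, mdet]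
    simp only [Fin.isValue, Matrix.of_apply, Matrix.cons_val', Matrix.cons_val_zero,
      Matrix.cons_val_fin_one, Matrix.cons_val_one]
    -- the numerator has valuation `≤ exp (-2)`
    have hsq : ∀ x y : v.adicCompletion K, Valued.v x < 1 → Valued.v y < 1 →
        Valued.v (x * y) ≤ WithZero.exp (-1 : ℤ) * WithZero.exp (-1 : ℤ) := by
      intro x y hx hy
      rw [map_mul]
      exact mul_le_mul' (le_exp_neg_one468 hx) (le_exp_neg_one468 hy)
    have hnum : Valued.v (-(M : Matrix (Fin 2) (Fin 2) (v.adicCompletion K)) 1 0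
          * (M' : Matrix (Fin 2) (Fin 2) (v.adicCompletion K)) 0 0
        + (M : Matrix (Fin 2) (Fin 2) (v.adicCompletion K)) 0 0
          * (M' : Matrix (Fin 2) (Fin 2) (v.adicCompletion K)) 1 0)
        ≤ WithZero.exp (-1 : ℤ) * WithZero.exp (-1 : ℤ) :=
      Valuation.map_add_le _ (hsq _ _ (by rw [Valuation.map_neg]; exact m10) n00)
        (hsq _ _ m00 n10)
    calc _ ≤ WithZero.exp (-1 : ℤ) * WithZero.exp (-1 : ℤ) / WithZero.exp (-1 : ℤ) :=
          div_le_div_of_nonneg_right hnum zero_le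
      _ = WithZero.exp (-1 : ℤ) := by rw [mul_div_assoc, div_self hne, mul_one]
      _ < 1 := exp_neg_one_lt_one468

end Fermat.Agent.LT.T7.H468

end

end
-- ===== PACK-END LT/T7/H468/IwLocal.lean

-- ===== PACK-BEGIN LT/T7/H584/UnfoldTop.lean
section







/-!
# Row LT, tower T7, geometric half of the comparison (helper584): the UNFOLDING lemma in the
# frame of T5 (hypotheses: `T1.LocCompC`, `T1.AdNormC`, `T5.IsFrame`, `T5.IsRayGen`,
# `T5.AutPreserves`)

OFF-MAIN.  Byte-identical copies: A0 66d3374a, T1/Spec e8ae48d6, T5/Spec v4 f2d97e70,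
T5/H277/{Basic,Ray} (helper277, from the closure of T5/Closed v8, origin/helper32@3767e091b).

`twTerm_unfold_frame584`: for a frame `(μ, F, r)` of T5, an automorphism `s` preserving it, a
strict fundamental domain `Fδ` of the `σ`-centraliser of `δ` in the slab, a right invariant
`σ`-finite measure `μT` on the ADELIC twisted centraliser `T_𝔸 = twCentA584 s δ`, a strict
fundamental domain `D` of finite measure for `Γ = G^σ_δ(K) ⟨r⟩` in `T_𝔸` and a cut-off function
`β` for `(T_𝔸, μT)`: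

    ∫_{Fδ} twTerm r s φ δ dμ  =  μT(D) · ∫ twTerm r s φ δ (x) β(x) dμ(x).

Both sides of `T7.IsGlobMatch.norm` and the left side of `T7.IsGlobMatch.nonnorm` are of the
form on the left (`s = D.s` resp. `s = T5.AdelicAut.id K`).
-/

set_option autoImplicit false
set_option linter.style.haveILetI false

open IsDedekindDomain NumberField MeasureTheory Set
open scoped ENNReal

noncomputable section

namespace Fermat.Agent.LT.T7.H584

open Fermat.Agent.LT.H556.A0

attribute [local instance] Fermat.Agent.LT.T5.instMeasurableSpaceG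

variable {K : Type} [Field K] [NumberField K]

/-- Every element has exactly one translate by the ray in the slab. -/
theorem existsUnique_zpow_slab584 (hN : T1.AdNormC K) {r : G K} (hr : T5.IsRayGen r) (g : G K) :
    ∃! k : ℤ, r ^ k * g ∈ T5.slab K := by
  obtain ⟨m, hm⟩ := T5.H277.exists_zpow_mem_slab277 hN hr g
  refine ⟨m, ?_, ?_⟩
  · change r ^ m * g ∈ T5.slab K
    rw [T5.H277.ray_zpow_comm277 hr]
    exact hm
  · intro k hk
    change r ^ k * g ∈ T5.slab K at hk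
    rw [T5.H277.ray_zpow_comm277 hr] at hk
    have e : g * r ^ k * r ^ (-k) = g * r ^ m * r ^ (-m) := by
      rw [mul_assoc, mul_assoc, ← zpow_add, ← zpow_add]
      simp
    have := T5.H277.zpow_eq_of_mem_slab277 hN hr (-k) (-m) hk hm e
    omega

/-- The slab is stable under `GL₂(K)` (product formula). -/
theorem ratG_mul_mem_slab584 (hN : T1.AdNormC K) (γ : GL (Fin 2) K) (g : G K)
    (hg : g ∈ T5.slab K) : T5.ratG γ * g ∈ T5.slab K := by
  rw [T5.H277.mem_slab_iff277] at hg ⊢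
  rw [T5.H277.nd277_mul hN, T5.H277.nd277_ratG hN, one_mul]
  exact hg

/-- The discrete subgroup `Γ = G^σ_δ(K) ⟨r⟩` of the adelic twisted centraliser, for a ray
generator `r`. -/
def latRay584 (s : T5.AdelicAut K) (δ : GL (Fin 2) K) {r : G K} (hr : T5.IsRayGen r) :
    Subgroup (twCentA584 s δ) :=
  latT584 s δ r (T5.H277.ray_comm277 hr)

theorem mem_latRay584 (s : T5.AdelicAut K) (δ : GL (Fin 2) K) {r : G K} (hr : T5.IsRayGen r)
    (t : twCentA584 s δ) :
    t ∈ latRay584 s δ hr ↔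
      ∃ γ : T5.twStab s δ, ∃ k : ℤ, (t : G K) = T5.ratG (γ : GL (Fin 2) K) * r ^ k :=
  Iff.rfl

/-- **THE UNFOLDING LEMMA in the frame of T5.**  See the header. -/
theorem twTerm_unfold_frame584 (hLC : T1.LocCompC K) (hN : T1.AdNormC K)
    (s : T5.AdelicAut K) (𝔫 : Ideal (𝓞 K)) (μ : Measure (G K)) (F : Set (G K)) (r : G K)
    (hF : T5.IsFrame μ F) (hr : T5.IsRayGen r) (hP : T5.AutPreserves s 𝔫 μ r)
    (δ : GL (Fin 2) K) (φ : G K → ℂ)
    (Fδ : Set (G K)) (hFδ : T5.IsTwDomain s δ Fδ)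
    (μT : Measure (twCentA584 s δ)) [μT.IsMulRightInvariant] [SigmaFinite μT]
    (D : Set (twCentA584 s δ)) (hDm : MeasurableSet D)
    (hD : ∀ t : twCentA584 s δ, ∃! γ : latRay584 s δ hr, t * (γ : twCentA584 s δ) ∈ D)
    (hDfin : μT D ≠ ⊤)
    (β : G K → ℝ) (hβ : Measurable β) (hβ0 : ∀ x, 0 ≤ β x)
    (hβ1 : ∀ x : G K, ∫⁻ t : twCentA584 s δ, ENNReal.ofReal (β ((t : G K) * x)) ∂μT = 1)
    (hΦ : Measurable (T5.twTerm r s φ δ))
    (hint : Integrable (fun x => T5.twTerm r s φ δ x * (β x : ℂ)) μ) :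
    IntegrableOn (T5.twTerm r s φ δ) Fδ μ ∧
      ∫ x in Fδ, T5.twTerm r s φ δ x ∂μ
        = ((μT D).toReal : ℂ) * ∫ x, T5.twTerm r s φ δ x * (β x : ℂ) ∂μ := by
  haveI : BorelSpace (G K) := ⟨rfl⟩
  haveI : LocallyCompactSpace (G K) := hLC.2.1
  haveI : SecondCountableTopology (G K) := hLC.2.2.2
  haveI : μ.IsHaarMeasure := hF.haar
  exact twTerm_unfold584 s μ r δ φ (T5.H277.ray_comm277 hr) hP.ray hP.rat
    (fun g => existsUnique_zpow_slab584 hN hr g) (fun γ g hg => ratG_mul_mem_slab584 hN γ g hg)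
    Fδ hFδ μT D hDm hD hDfin β hβ hβ0 hβ1 hΦ hint

end Fermat.Agent.LT.T7.H584

end

end
-- ===== PACK-END LT/T7/H584/UnfoldTop.lean

-- ===== PACK-BEGIN LT/T7/H750/TwArchInt.lean
section




/-!
# Row LT, tower T7, F/Q mirror (station `UpFactQ`, the infinite place), ASSET (helper750),
# OFF-MAIN: INTEGRABILITY of the TWISTED cut-off orbital integrand on `GL₂(ℂ)`, in the vocabulary
# of `T6/Spec.lean` / `T6/SpecArch.lean` (`T6.IsArchMatch`) and of `IsArchValQ514` (helper514)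

`γ ∈ GL₂(ℝ)` regular, `μT` a Haar measure of its centraliser
`T6.twCentSub (MonoidHom.id _) γ` (= `cent305 γ`), `β'` a continuous cut-off function on `GL₂(ℂ)`
normalised against `μT` (the cut-off data of `T6.IsArchMatch`), `Φ` continuous of compact
support on `GL₂(ℂ)`, `μc` a Haar measure of `GL₂(ℂ)`.

* `twArchIntegrable750`: if `N δ = δ δ̄ = γ` (`T6.twNorm starRingAut 2 δ`), then
  `x ↦ Φ(x⁻¹ δ x̄) β'(x)` is `μc`-integrable.
* `twArchIntegrable_central750`: the same if `N δ = γ z`, `z` central in `GL₂(ℝ)` and `γ z` regular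
  (the form needed for the terms `j` of the ray: `N (δ r'^j)_w = (γ r^j)_∞`).
* `isReg_mul_scalar750`: `γ z` is regular if `γ` is regular and `z = c • 1`.

This is the integrability needed to exchange the sum over the ray with the integral at the
infinite place in the factorisation upstairs over `ℚ` (the twisted orbit is closed:
`TwSection.lean`, Mathlib only).
-/

set_option autoImplicit false
set_option linter.unusedSectionVars false
set_option linter.style.haveILetI false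

open MeasureTheory

noncomputable section

namespace Fermat.Agent.LT.T7.H750

open Fermat.Agent.LT

theorem glAut_star750 (x : GL (Fin 2) ℂ) : T6.glAut (starRingAut : ℂ ≃+* ℂ) x = cj750 x := rfl

theorem twNorm_two750 (δ : GL (Fin 2) ℂ) :
    T6.twNorm (starRingAut : ℂ ≃+* ℂ) 2 δ = δ * cj750 δ := by
  change δ * T6.glAut (starRingAut : ℂ ≃+* ℂ) (δ * T6.glAut (starRingAut : ℂ ≃+* ℂ) 1) = _
  rw [map_one, mul_one]
  rfl

/-- `γ z` is regular if `γ` is regular and `z` is a scalar matrix. -/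
theorem isReg_mul_scalar750 (γ z : GL (Fin 2) ℝ) (hγ : T6.IsReg γ) (c : ℝ)
    (hz : (z : Matrix (Fin 2) (Fin 2) ℝ) = c • 1) : T6.IsReg (γ * z) := by
  have hc : c ≠ 0 := by
    intro h0
    have h1 : (z : Matrix (Fin 2) (Fin 2) ℝ).det ≠ 0 :=
      ((Matrix.isUnit_iff_isUnit_det _).mp z.isUnit).ne_zero
    rw [hz, h0, zero_smul, Matrix.det_zero] at h1
    exact h1 rfl
  have h2 : (γ : Matrix (Fin 2) (Fin 2) ℝ).trace ^ 2
      - 4 * (γ : Matrix (Fin 2) (Fin 2) ℝ).det ≠ 0 := hγ.ne_zero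
  have h3 : ((γ * z : GL (Fin 2) ℝ) : Matrix (Fin 2) (Fin 2) ℝ).trace ^ 2
      - 4 * ((γ * z : GL (Fin 2) ℝ) : Matrix (Fin 2) (Fin 2) ℝ).det
      = c ^ 2 * ((γ : Matrix (Fin 2) (Fin 2) ℝ).trace ^ 2
        - 4 * (γ : Matrix (Fin 2) (Fin 2) ℝ).det) := by
    rw [Units.val_mul, hz, Matrix.mul_smul, Matrix.mul_one]
    simp only [Matrix.trace_fin_two, Matrix.det_fin_two, Matrix.smul_apply, smul_eq_mul]
    ring
  change IsUnit (((γ * z : GL (Fin 2) ℝ) : Matrix (Fin 2) (Fin 2) ℝ).trace ^ 2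
      - 4 * ((γ * z : GL (Fin 2) ℝ) : Matrix (Fin 2) (Fin 2) ℝ).det)
  rw [h3]
  exact (mul_ne_zero (pow_ne_zero 2 hc) h2).isUnit

/-- **TW-ARCH-INTEGRABLE, central form.** -/
theorem twArchIntegrable_central750 (γ z : GL (Fin 2) ℝ)
    (hz : ∀ x : GL (Fin 2) ℝ, x * z = z * x) (hreg : T6.IsReg (γ * z))
    (μc : @Measure (GL (Fin 2) ℂ) (borel _)) (hμc : @Measure.IsHaarMeasure _ _ _ (borel _) μc)
    (μT : @Measure (T6.twCentSub (MonoidHom.id (GL (Fin 2) ℝ)) γ) (borel _))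
    (hμT : @Measure.IsHaarMeasure _ _ _ (borel _) μT)
    (δ : GL (Fin 2) ℂ)
    (hN : T6.twNorm (starRingAut : ℂ ≃+* ℂ) 2 δ
      = Matrix.GeneralLinearGroup.map (algebraMap ℝ ℂ) (γ * z))
    (β' : GL (Fin 2) ℂ → ℝ) (hβc : Continuous β') (hβ0 : ∀ x, 0 ≤ β' x)
    (hβ1 : ∀ x : GL (Fin 2) ℂ,
      @integral _ _ _ _ (borel _) μT
        (fun t : T6.twCentSub (MonoidHom.id (GL (Fin 2) ℝ)) γ =>
          β' (Matrix.GeneralLinearGroup.map (algebraMap ℝ ℂ) (t : GL (Fin 2) ℝ) * x)) = 1)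
    (Φ : GL (Fin 2) ℂ → ℂ) (hΦ : Continuous Φ) (hΦc : HasCompactSupport Φ) :
    @Integrable _ _ _ _ (borel _)
      (fun x : GL (Fin 2) ℂ =>
        Φ (x⁻¹ * δ * T6.glAut (starRingAut : ℂ ≃+* ℂ) x) * ((β' x : ℝ) : ℂ)) μc := by
  letI : MeasurableSpace (GL (Fin 2) ℂ) := borel _
  haveI : BorelSpace (GL (Fin 2) ℂ) := ⟨rfl⟩
  letI : MeasurableSpace (T6.twCentSub (MonoidHom.id (GL (Fin 2) ℝ)) γ) := borel _
  haveI : BorelSpace (T6.twCentSub (MonoidHom.id (GL (Fin 2) ℝ)) γ) := ⟨rfl⟩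
  haveI := hμc
  haveI := hμT
  have hreg' : ((γ * z : GL (Fin 2) ℝ) : Matrix (Fin 2) (Fin 2) ℝ).trace ^ 2
      - 4 * ((γ * z : GL (Fin 2) ℝ) : Matrix (Fin 2) (Fin 2) ℝ).det ≠ 0 := hreg.ne_zero
  have hT : ∀ x : GL (Fin 2) ℝ,
      x ∈ T6.twCentSub (MonoidHom.id (GL (Fin 2) ℝ)) γ ↔ x⁻¹ * (γ * z) * x = γ * z := by
    intro x
    have h1 : x⁻¹ * (γ * z) * x = (x⁻¹ * γ * x) * z := by
      rw [mul_assoc (x⁻¹ * γ) x z, hz x]
      simp only [mul_assoc]
    rw [h1]
    constructor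
    · intro hx
      have hx' : x⁻¹ * γ * x = γ := hx
      rw [hx']
    · intro hx
      exact mul_right_cancel hx
  have hN' : δ * cj750 δ = re750 (γ * z) := by
    rw [← twNorm_two750, hN]
    rfl
  exact integrable_tw_orbit_cut750 (γ * z) hreg'
    (T6.twCentSub (MonoidHom.id (GL (Fin 2) ℝ)) γ) hT μc μT δ hN' β' hβc hβ0 hβ1 Φ hΦ hΦc

/-- **TW-ARCH-INTEGRABLE** (the data of `T6.IsArchMatch`). -/
theorem twArchIntegrable750 (γ : GL (Fin 2) ℝ) (hγ : T6.IsReg γ)
    (μc : @Measure (GL (Fin 2) ℂ) (borel _)) (hμc : @Measure.IsHaarMeasure _ _ _ (borel _) μc)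
    (μT : @Measure (T6.twCentSub (MonoidHom.id (GL (Fin 2) ℝ)) γ) (borel _))
    (hμT : @Measure.IsHaarMeasure _ _ _ (borel _) μT)
    (δ : GL (Fin 2) ℂ)
    (hN : T6.twNorm (starRingAut : ℂ ≃+* ℂ) 2 δ
      = Matrix.GeneralLinearGroup.map (algebraMap ℝ ℂ) γ)
    (β' : GL (Fin 2) ℂ → ℝ) (hβc : Continuous β') (hβ0 : ∀ x, 0 ≤ β' x)
    (hβ1 : ∀ x : GL (Fin 2) ℂ,
      @integral _ _ _ _ (borel _) μT
        (fun t : T6.twCentSub (MonoidHom.id (GL (Fin 2) ℝ)) γ =>
          β' (Matrix.GeneralLinearGroup.map (algebraMap ℝ ℂ) (t : GL (Fin 2) ℝ) * x)) = 1)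
    (Φ : GL (Fin 2) ℂ → ℂ) (hΦ : Continuous Φ) (hΦc : HasCompactSupport Φ) :
    @Integrable _ _ _ _ (borel _)
      (fun x : GL (Fin 2) ℂ =>
        Φ (x⁻¹ * δ * T6.glAut (starRingAut : ℂ ≃+* ℂ) x) * ((β' x : ℝ) : ℂ)) μc := by
  refine twArchIntegrable_central750 γ 1 (fun x => by rw [mul_one, one_mul])
    (by rw [mul_one]; exact hγ) μc hμc μT hμT δ (by rw [mul_one]; exact hN) β' hβc hβ0 hβ1
    Φ hΦ hΦc

end Fermat.Agent.LT.T7.H750

end
end
-- ===== PACK-END LT/T7/H750/TwArchInt.lean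

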