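import Mathlib
import Fermat.Agent.Pack.LT2.E0L1
import Fermat.Agent.Pack.LT2.E2L1
import Fermat.Agent.Pack.LT2.E3L1
import Fermat.Agent.Pack.LT3.E9L1
import Fermat.Agent.Pack.LT3.E9L0
import Fermat.Agent.Pack.LT3.E10L0
import Fermat.Agent.Pack.LT3.E9L2
import Fermat.Agent.Pack.LT3.E5L0
import Fermat.Agent.Pack.LT3.E10L3
import Fermat.Agent.Pack.LT3.E8L0
import Fermat.Agent.Pack.LT2.E6L2
import Fermat.Agent.Pack.LT3.E5L2
import Fermat.Agent.Pack.LT3.E7L1
import Fermat.Agent.Pack.LT3.E10L1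
import Fermat.Agent.Pack.LT3.E12L3

set_option linter.all false

-- ===== PACK-BEGIN LT/T6/H313/QuadUnitNorm.lean
section







/-!
# Row LT, tower T6, sub-leaf T6.15c3 `QuadUnitNormC` (helper313): PROVED

OFF-MAIN.  `quadUnitNormC313 : Fermat.Agent.LT.T6.H159.QuadUnitNormC` (VERBATIM Prop of
`LT/T6/H159/NormSpec.lean`, helper159@f7e632065, sha256 eef43064d78b62ff).

Proof.  `A = 𝒪[X]/(X² - tX + d)`, `t = tr u`, `d = det u`, `B = A ⊗ 𝒪'`, `σ = 1 ⊗ s`.
(1) residue level (`QuadRes`): `X = N β̄` in `B/ϖ`, by the four cases of `X² - t̄X + d̄` over the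
residue field of `k'` (`FinNorm`: norm and trace of finite fields in automorphism form;
`LocalAut`: the residue automorphism has order exactly `l`); (2) successive approximation
(`Lift`, `LocalLim`): `N (1 + w δ) = 1 + δ + δ² r` for `Tr w = 1`; (3) `X ↦ u`.
-/

set_option autoImplicit false
set_option linter.style.haveILetI false
set_option linter.unusedSectionVars false
set_option linter.unusedVariables false

open scoped Matrix
open Fermat.Agent.LT.T6

noncomputable section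

namespace Fermat.Agent.LT.T6.H313

/-- Cayley--Hamilton for `2 × 2` matrices. -/
theorem cayley_hamilton_two313 {R : Type*} [CommRing R] (U : Matrix (Fin 2) (Fin 2) R) :
    U * U = (-U.det) • (1 : Matrix (Fin 2) (Fin 2) R) + U.trace • U := by
  ext i j
  fin_cases i <;> fin_cases j <;>
    simp [Matrix.mul_apply, Fin.sum_univ_two, Matrix.trace_fin_two, Matrix.det_fin_two] <;> ring

theorem quadUnitNormC313 : Fermat.Agent.LT.T6.H159.QuadUnitNormC := by
  intro k k' _ _ _ _ q l i s hk hk' he hl u htr hdet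
  classical
  haveI : CompleteSpace k' := hk'.complete
  obtain ⟨ϖ, hϖ⟩ := hk'.unif
  have hi : ∀ x : k, Valued.v (i x) = Valued.v x := fun x => by rw [he.val_i, pow_one]
  set t : k := (u : Matrix (Fin 2) (Fin 2) k).trace with ht
  set d : k := (u : Matrix (Fin 2) (Fin 2) k).det with hd
  have ha : s (-(i d)) = -(i d) := by rw [map_neg, he.cyc.fix_i]
  have hb : s (i t) = i t := he.cyc.fix_i t
  have hav : Valued.v (-(i d)) = 1 := by rw [Valuation.map_neg, hi, hdet]
  have hbv : Valued.v (i t) ≤ 1 := by rw [hi]; exact htr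
  obtain ⟨w, hw, hwtr⟩ := exists_trace_one313 hk hk' he hl
  obtain ⟨β₁, h1re, h1im, hres_re, hres_im⟩ :=
    exists_res_norm313 hk hk' he hl t d htr hdet ha hb
  obtain ⟨β, hβ⟩ := exists_nrm_eq_omega_of_approx313 ϖ hϖ hav hbv s he.val_s ha hb l
    he.cyc.order w hw hwtr β₁ h1re h1im hres_re hres_im
  -- the matrix side
  set U : Matrix (Fin 2) (Fin 2) k' :=
    ((Matrix.GeneralLinearGroup.map i u : GL (Fin 2) k') : Matrix (Fin 2) (Fin 2) k') with hU
  have hUmap : U = (u : Matrix (Fin 2) (Fin 2) k).map i := rfl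
  have hUtr : U.trace = i t := by
    rw [hUmap, ht, Matrix.trace_fin_two, Matrix.trace_fin_two, map_add]
    rfl
  have hUdet : U.det = i d := by
    rw [hUmap, hd, Matrix.det_fin_two, Matrix.det_fin_two, map_sub, map_mul, map_mul]
    rfl
  have hUU : U * U = (-(i d)) • (1 : Matrix (Fin 2) (Fin 2) k') + (i t) • U := by
    rw [← hUtr, ← hUdet]
    exact cayley_hamilton_two313 U
  have hUs : U.map s = U := by
    rw [hUmap]
    ext p r
    simp only [Matrix.map_apply]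
    exact he.cyc.fix_i _
  set Ψ : QuadraticAlgebra k' (-(i d)) (i t) →ₐ[k'] Matrix (Fin 2) (Fin 2) k' :=
    QuadraticAlgebra.lift ⟨U, hUU⟩ with hΨ
  have hΨapp : ∀ z, Ψ z = z.re • (1 : Matrix (Fin 2) (Fin 2) k') + z.im • U := fun z => rfl
  have hΨω : Ψ QuadraticAlgebra.omega = U := by
    rw [hΨapp]
    simp
  have hΨσ : ∀ z, Ψ (qAut313 s ha hb z) = (Ψ z).map s := by
    intro z
    rw [hΨapp, hΨapp]
    ext p r
    simp only [qAut313_re, qAut313_im, Matrix.add_apply, Matrix.smul_apply, Matrix.map_apply,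
      smul_eq_mul, map_add, map_mul]
    have h1 : s (U p r) = U p r := by
      have := congrFun (congrFun hUs p) r
      simpa [Matrix.map_apply] using this
    have h2 : s ((1 : Matrix (Fin 2) (Fin 2) k') p r) = (1 : Matrix (Fin 2) (Fin 2) k') p r := by
      by_cases hpr : p = r
      · subst hpr; simp
      · simp [hpr]
    rw [h1, h2]
  -- invertibility of `Ψ β`
  have hUdet0 : U.det ≠ 0 := by
    rw [hUdet]
    intro h
    have : Valued.v (i d) = 0 := by rw [h, map_zero]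
    rw [hi, hdet] at this
    exact one_ne_zero this
  have hl1 : ∃ m, l = m + 1 := ⟨l - 1, by have := hl.pos; omega⟩
  obtain ⟨m, hm⟩ := hl1
  have hdetβ : (Ψ β).det ≠ 0 := by
    intro h0
    have h1 : U = Ψ β * Ψ (qAut313 s ha hb (nrm313 (⇑(qAut313 s ha hb)) m β)) := by
      rw [← hΨω, ← hβ, hm, nrm313_succ, map_mul]
    rw [h1, Matrix.det_mul, h0, zero_mul] at hUdet0
    exact hUdet0 rfl
  set x : GL (Fin 2) k' := Matrix.GeneralLinearGroup.mkOfDetNeZero (Ψ β) hdetβ with hx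
  have hxcoe : (x : Matrix (Fin 2) (Fin 2) k') = Ψ β := rfl
  have hN : ∀ n : ℕ, ((twN (glAut s) n x : GL (Fin 2) k') : Matrix (Fin 2) (Fin 2) k')
      = Ψ (nrm313 (⇑(qAut313 s ha hb)) n β) := by
    intro n
    induction n with
    | zero =>
      show ((1 : GL (Fin 2) k') : Matrix (Fin 2) (Fin 2) k') = Ψ 1
      rw [map_one]
      rfl
    | succ n ih =>
      show ((x * glAut s (twN (glAut s) n x) : GL (Fin 2) k') : Matrix (Fin 2) (Fin 2) k') = _
      rw [nrm313_succ, map_mul, hΨσ, ← ih, Units.val_mul, hxcoe]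
      rfl
  refine ⟨x, β.re, β.im, ?_, ?_⟩
  · rw [hxcoe, hΨapp]
  · apply Units.ext
    show ((twN (glAut s) l x : GL (Fin 2) k') : Matrix (Fin 2) (Fin 2) k') = U
    rw [hN, hβ, hΨω]

end Fermat.Agent.LT.T6.H313

end

end
-- ===== PACK-END LT/T6/H313/QuadUnitNorm.lean

-- ===== PACK-BEGIN LT/T6/H159/NormGlue.lean
section






/-!
# Row LT, tower T6, sub-leaf T6.15c `NormCritC` (helper159): the glue

`normCrit_of : NewtonC → QuadUnitNormC → Unr2C → NormCritC`  (see `NormLin.lean` for the plan).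
-/

set_option autoImplicit false

open scoped Matrix

noncomputable section

namespace Fermat.Agent.LT.T6.H159

open Fermat.Agent.LT.T6

/-! ## Valuations -/

section Val

variable {k : Type} [Field k] [Valued k Γ₀]

/-- `|x| = exp (log |x|)` for `x ≠ 0`. -/
theorem v_eq_exp_log {x : k} (hx : x ≠ 0) :
    Valued.v x = WithZero.exp (WithZero.log (Valued.v x)) :=
  (WithZero.exp_log ((Valuation.ne_zero_iff _).mpr hx)).symm

theorem log_v_mul {x y : k} (hx : x ≠ 0) (hy : y ≠ 0) :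
    WithZero.log (Valued.v (x * y)) = WithZero.log (Valued.v x) + WithZero.log (Valued.v y) := by
  rw [map_mul, WithZero.log_mul ((Valuation.ne_zero_iff _).mpr hx)
    ((Valuation.ne_zero_iff _).mpr hy)]

theorem log_v_zpow (x : k) (n : ℤ) :
    WithZero.log (Valued.v (x ^ n)) = n * WithZero.log (Valued.v x) := by
  rw [map_zpow₀, WithZero.log_zpow, smul_eq_mul]

theorem log_v_pow (x : k) (n : ℕ) :
    WithZero.log (Valued.v (x ^ n)) = n * WithZero.log (Valued.v x) := by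
  rw [map_pow, WithZero.log_pow, nsmul_eq_mul]

theorem v_eq_one_of_log {x : k} (hx : x ≠ 0) (h : WithZero.log (Valued.v x) = 0) :
    Valued.v x = 1 := by
  rw [v_eq_exp_log hx, h, WithZero.exp_zero]

theorem v_eq_exp_of_log {x : k} (hx : x ≠ 0) {n : ℤ} (h : WithZero.log (Valued.v x) = n) :
    Valued.v x = WithZero.exp n := by
  rw [v_eq_exp_log hx, h]

theorem v_two_le_one : Valued.v (2 : k) ≤ 1 := by
  have h : (2 : k) = 1 + 1 := by norm_num
  rw [h]
  refine le_trans (Valuation.map_add _ _ _) ?_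
  simp

theorem log_v_unif {ϖ : k} (h : Valued.v ϖ = WithZero.exp (-1 : ℤ)) :
    WithZero.log (Valued.v ϖ) = -1 := by
  rw [h, WithZero.log_exp]

theorem unif_ne_zero {ϖ : k} (h : Valued.v ϖ = WithZero.exp (-1 : ℤ)) : ϖ ≠ 0 := by
  intro h0
  rw [h0, map_zero] at h
  exact WithZero.exp_ne_zero h.symm

end Val

/-! ## Diagonal elements, base change of matrices -/

section Diag

variable {K K' : Type} [Field K] [Field K']

/-- The diagonal element `diag(d₁, d₂)` of `GL₂(K)`. -/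
def diagGL (d₁ d₂ : K) (h₁ : d₁ ≠ 0) (h₂ : d₂ ≠ 0) : GL (Fin 2) K :=
  Matrix.GeneralLinearGroup.mkOfDetNeZero !![d₁, 0; 0, d₂] (by
    rw [Matrix.det_fin_two_of]
    simpa using mul_ne_zero h₁ h₂)

theorem diagGL_coe (d₁ d₂ : K) (h₁ : d₁ ≠ 0) (h₂ : d₂ ≠ 0) :
    ((diagGL d₁ d₂ h₁ h₂ : GL (Fin 2) K) : Matrix (Fin 2) (Fin 2) K) = !![d₁, 0; 0, d₂] := rfl

theorem trace_map_gl (f : K →+* K') (g : GL (Fin 2) K) :
    ((Matrix.GeneralLinearGroup.map f g : GL (Fin 2) K') : Matrix (Fin 2) (Fin 2) K').trace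
      = f (g : Matrix (Fin 2) (Fin 2) K).trace := by
  rw [Matrix.trace_fin_two, Matrix.trace_fin_two, Matrix.GeneralLinearGroup.map_apply,
    Matrix.GeneralLinearGroup.map_apply, map_add]

theorem det_map_gl (f : K →+* K') (g : GL (Fin 2) K) :
    ((Matrix.GeneralLinearGroup.map f g : GL (Fin 2) K') : Matrix (Fin 2) (Fin 2) K').det
      = f (g : Matrix (Fin 2) (Fin 2) K).det := by
  rw [Matrix.det_fin_two, Matrix.det_fin_two, Matrix.GeneralLinearGroup.map_apply,
    Matrix.GeneralLinearGroup.map_apply, Matrix.GeneralLinearGroup.map_apply,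
    Matrix.GeneralLinearGroup.map_apply, map_sub, map_mul, map_mul]

theorem det_gl_ne_zero (g : GL (Fin 2) K) : (g : Matrix (Fin 2) (Fin 2) K).det ≠ 0 :=
  ((Matrix.isUnit_iff_isUnit_det _).mp g.isUnit).ne_zero

theorem map_diagGL (f : K →+* K') (d₁ d₂ : K) (h₁ : d₁ ≠ 0) (h₂ : d₂ ≠ 0) :
    ((Matrix.GeneralLinearGroup.map f (diagGL d₁ d₂ h₁ h₂) : GL (Fin 2) K') :
      Matrix (Fin 2) (Fin 2) K') = !![f d₁, 0; 0, f d₂] := by
  ext a b
  rw [Matrix.GeneralLinearGroup.map_apply, diagGL_coe]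
  fin_cases a <;> fin_cases b <;> simp

theorem disc_ne_zero {γ : GL (Fin 2) K} (hreg : IsReg γ) :
    (γ : Matrix (Fin 2) (Fin 2) K).trace ^ 2 - 4 * (γ : Matrix (Fin 2) (Fin 2) K).det ≠ 0 :=
  hreg.ne_zero

omit [Field K] in
theorem fNorm_zero_arg (s : K' ≃+* K') (n : ℕ) (hn : 0 < n) : fNorm s n 0 = 0 := by
  obtain ⟨m, rfl⟩ : ∃ m, n = m + 1 := ⟨n - 1, by omega⟩
  rw [fNorm_succ, zero_mul]

end Diag

/-! ## Norms of scalars -/

section Scalars

variable {k k' : Type} [Field k] [Field k'] [Valued k Γ₀] [Valued k' Γ₀]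

/-- Every `t ∈ kˣ` with `l ∣ ord t` is a norm from `k'`. -/
theorem scalar_norm (hQ : QuadUnitNormC) (q l : ℕ) (i : k →+* k') (s : k' ≃+* k')
    (hk : IsLocalField k q) (hk' : IsLocalField k' (q ^ l)) (hext : IsLocalExt k k' l 1 i s)
    (hl : l.Prime) (t : k) (ht : t ≠ 0) (hdiv : (l : ℤ) ∣ WithZero.log (Valued.v t)) :
    ∃ d : k', d ≠ 0 ∧ fNorm s l d = i t := by
  obtain ⟨ϖ, hϖ⟩ := hk.unif
  have hϖ0 : ϖ ≠ 0 := unif_ne_zero hϖ
  obtain ⟨m, hm⟩ := hdiv
  -- the unit part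
  set w : k := t * ϖ ^ ((l : ℤ) * m) with hw
  have hw0 : w ≠ 0 := mul_ne_zero ht (zpow_ne_zero _ hϖ0)
  have hwv : Valued.v w = 1 := by
    apply v_eq_one_of_log hw0
    rw [hw, log_v_mul ht (zpow_ne_zero _ hϖ0), log_v_zpow, log_v_unif hϖ, hm]
    ring
  obtain ⟨x, a, b, hx, hN⟩ := hQ k k' q l i s hk hk' hext hl (diagGL w w hw0 hw0)
    (by
      rw [diagGL_coe, Matrix.trace_fin_two_of]
      have h2 : w + w = 2 * w := by ring
      rw [h2, map_mul, hwv, mul_one]
      exact v_two_le_one)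
    (by
      rw [diagGL_coe, Matrix.det_fin_two_of, mul_zero, sub_zero, map_mul, hwv, mul_one])
  rw [map_diagGL] at hx
  set c : k' := a + b * i w with hc
  have hxc : (x : Matrix (Fin 2) (Fin 2) k') = !![c, 0; 0, c] := by
    rw [hx, Matrix.one_fin_two]
    ext r j
    fin_cases r <;> fin_cases j <;> simp [hc]
  have h1 := twNorm_diag s l x c c hxc
  rw [hN, map_diagGL] at h1
  have hc1 : fNorm s l c = i w := by
    have := congrFun (congrFun h1 0) 0
    simpa using this.symm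
  refine ⟨c * i (ϖ ^ (-m)), ?_, ?_⟩
  · have hiw : i w ≠ 0 := (map_ne_zero i).mpr hw0
    have hc0 : c ≠ 0 := by
      intro h0
      rw [h0, fNorm_zero_arg s l hl.pos] at hc1
      exact hiw hc1.symm
    exact mul_ne_zero hc0 ((map_ne_zero i).mpr (zpow_ne_zero _ hϖ0))
  · rw [fNorm_mul, hc1, fNorm_fixed s l _ (hext.cyc.fix_i _), ← map_pow, ← map_mul]
    congr 1
    rw [hw, ← zpow_natCast (ϖ ^ (-m)) l, ← zpow_mul, mul_assoc, ← zpow_add₀ hϖ0]
    have : (l : ℤ) * m + -m * (l : ℤ) = 0 := by ring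
    rw [this, zpow_zero, mul_one]

end Scalars

/-! ## Case (A): `γ` has an eigenvalue in `k` -/

section CaseA

variable {k k' : Type} [Field k] [Field k'] [Valued k Γ₀] [Valued k' Γ₀]

theorem normCrit_hyp (hQ : QuadUnitNormC) (q l : ℕ) (i : k →+* k') (s : k' ≃+* k')
    (hk : IsLocalField k q) (hk' : IsLocalField k' (q ^ l)) (hext : IsLocalExt k k' l 1 i s)
    (hl : l.Prime) (γ : GL (Fin 2) k) (hreg : IsReg γ)
    (heig : ∀ t : k, t ^ 2 - (γ : Matrix (Fin 2) (Fin 2) k).trace * t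
        + (γ : Matrix (Fin 2) (Fin 2) k).det = 0 → (l : ℤ) ∣ WithZero.log (Valued.v t))
    (t₁ : k) (ht₁ : t₁ ^ 2 - (γ : Matrix (Fin 2) (Fin 2) k).trace * t₁
        + (γ : Matrix (Fin 2) (Fin 2) k).det = 0) :
    IsNormFrom l i s γ := by
  set T := (γ : Matrix (Fin 2) (Fin 2) k).trace with hT
  set D := (γ : Matrix (Fin 2) (Fin 2) k).det with hD
  have hD0 : D ≠ 0 := det_gl_ne_zero γ
  set t₂ : k := T - t₁ with ht₂def
  have ht₂ : t₂ ^ 2 - T * t₂ + D = 0 := by
    rw [ht₂def]; linear_combination ht₁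
  have hprod : t₁ * t₂ = D := by
    rw [ht₂def]; linear_combination -ht₁
  have h10 : t₁ ≠ 0 := by
    intro h; apply hD0; rw [← hprod, h, zero_mul]
  have h20 : t₂ ≠ 0 := by
    intro h; apply hD0; rw [← hprod, h, mul_zero]
  obtain ⟨d₁, hd₁0, hd₁⟩ := scalar_norm hQ q l i s hk hk' hext hl t₁ h10 (heig t₁ ht₁)
  obtain ⟨d₂, hd₂0, hd₂⟩ := scalar_norm hQ q l i s hk hk' hext hl t₂ h20 (heig t₂ ht₂)
  refine ⟨diagGL d₁ d₂ hd₁0 hd₂0, ?_⟩
  have hN := twNorm_diag s l (diagGL d₁ d₂ hd₁0 hd₂0) d₁ d₂ (diagGL_coe _ _ _ _)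
  rw [hd₁, hd₂] at hN
  have htr : ((twNorm s l (diagGL d₁ d₂ hd₁0 hd₂0) : GL (Fin 2) k') :
      Matrix (Fin 2) (Fin 2) k').trace = i T := by
    rw [hN, Matrix.trace_fin_two_of, ← map_add]
    congr 1
    rw [ht₂def]; ring
  have hdet : ((twNorm s l (diagGL d₁ d₂ hd₁0 hd₂0) : GL (Fin 2) k') :
      Matrix (Fin 2) (Fin 2) k').det = i D := by
    rw [hN, Matrix.det_fin_two_of, mul_zero, sub_zero, ← map_mul, hprod]
  apply isConj_of_trace_det
  · rw [htr, trace_map_gl]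
  · rw [hdet, det_map_gl]
  · rw [htr, hdet]
    have h4 : (4 : k') = i 4 := (map_ofNat i 4).symm
    rw [h4, ← map_pow, ← map_mul, ← map_sub]
    exact (map_ne_zero i).mpr (disc_ne_zero hreg)

end CaseA

/-! ## Case (B): `γ` elliptic, `k[γ]/k` unramified, `l = 2` -/

section CaseB

variable {k k' : Type} [Field k] [Field k'] [Valued k Γ₀] [Valued k' Γ₀]

theorem normCrit_unr2 (hU : Unr2C) (q : ℕ) (i : k →+* k') (s : k' ≃+* k')
    (hk : IsLocalField k q) (hk' : IsLocalField k' (q ^ 2)) (hext : IsLocalExt k k' 2 1 i s)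
    (γ : GL (Fin 2) k) (hreg : IsReg γ) (hne : ¬ HasEigen k γ) (hnr : ¬ HasRamUnif k γ) :
    IsNormFrom 2 i s γ := by
  obtain ⟨lam, hlam⟩ := hU k k' q i s hk hk' hext γ hreg hne hnr
  set T := (γ : Matrix (Fin 2) (Fin 2) k).trace with hT
  set D := (γ : Matrix (Fin 2) (Fin 2) k).det with hD
  have hD0 : D ≠ 0 := det_gl_ne_zero γ
  have hs_root : (s lam) ^ 2 - i T * s lam + i D = 0 := by
    have h := congrArg s hlam
    rw [map_add, map_sub, map_mul, map_pow, hext.cyc.fix_i, hext.cyc.fix_i, map_zero] at h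
    exact h
  have hsne : s lam ≠ lam := by
    intro h
    obtain ⟨t, ht⟩ := hext.cyc.fixed lam h
    apply hne
    refine ⟨t, ?_⟩
    apply i.injective
    rw [map_add, map_sub, map_mul, map_pow, ht, map_zero]
    exact hlam
  have hs : s lam = i T - lam := by
    have h : (s lam - lam) * (s lam - (i T - lam)) = 0 := by
      linear_combination hs_root - hlam
    rcases mul_eq_zero.mp h with h1 | h1
    · exact absurd (sub_eq_zero.mp h1) hsne
    · exact sub_eq_zero.mp h1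
  have hprod : lam * s lam = i D := by
    rw [hs]; linear_combination -hlam
  have hlam0 : lam ≠ 0 := by
    intro h
    have : i D = 0 := by rw [← hprod, h, zero_mul]
    exact hD0 ((map_eq_zero i).mp this)
  have hdet : (!![0, lam; 1, 0] : Matrix (Fin 2) (Fin 2) k').det ≠ 0 := by
    rw [Matrix.det_fin_two_of]
    simpa using hlam0
  let δ : GL (Fin 2) k' := Matrix.GeneralLinearGroup.mkOfDetNeZero _ hdet
  have hδ : (δ : Matrix (Fin 2) (Fin 2) k') = !![0, lam; 1, 0] := rfl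
  have h2 : twNorm s 2 δ = δ * glAut s δ := by
    have : twNorm s 2 δ = δ * glAut s (δ * glAut s 1) := rfl
    rw [this, map_one, mul_one]
  have hN : ((twNorm s 2 δ : GL (Fin 2) k') : Matrix (Fin 2) (Fin 2) k')
      = !![lam, 0; 0, s lam] := by
    rw [h2, Matrix.GeneralLinearGroup.coe_mul]
    ext a b
    rw [Matrix.mul_apply, Fin.sum_univ_two, glAut_coe, glAut_coe, hδ]
    fin_cases a <;> fin_cases b <;> simp
  refine ⟨δ, ?_⟩
  apply isConj_of_trace_det
  · rw [hN, Matrix.trace_fin_two_of, trace_map_gl, hs]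
    ring
  · rw [hN, Matrix.det_fin_two_of, mul_zero, sub_zero, det_map_gl, hprod]
  · rw [hN, Matrix.trace_fin_two_of, Matrix.det_fin_two_of, mul_zero, sub_zero, hprod, hs]
    have h4 : (4 : k') = i 4 := (map_ofNat i 4).symm
    have h5 : lam + (i T - lam) = i T := by ring
    rw [h5, h4, ← map_pow, ← map_mul, ← map_sub]
    exact (map_ne_zero i).mpr (disc_ne_zero hreg)

end CaseB

/-! ## Case (C): `γ` elliptic, `k[γ]/k` ramified or `l` odd -/

section CaseC

variable {k k' : Type} [Field k] [Field k'] [Valued k Γ₀] [Valued k' Γ₀]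

omit [Valued k Γ₀] in
theorem det_mul_gl (g h : GL (Fin 2) k) :
    ((g * h : GL (Fin 2) k) : Matrix (Fin 2) (Fin 2) k).det
      = (g : Matrix (Fin 2) (Fin 2) k).det * (h : Matrix (Fin 2) (Fin 2) k).det := by
  rw [Matrix.GeneralLinearGroup.coe_mul, Matrix.det_mul]

omit [Valued k Γ₀] in
theorem det_inv_gl (g : GL (Fin 2) k) :
    ((g⁻¹ : GL (Fin 2) k) : Matrix (Fin 2) (Fin 2) k).det
      = ((g : Matrix (Fin 2) (Fin 2) k).det)⁻¹ := by
  have h1 : ((g⁻¹ : GL (Fin 2) k) : Matrix (Fin 2) (Fin 2) k).det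
      * (g : Matrix (Fin 2) (Fin 2) k).det = 1 := by
    rw [← det_mul_gl, inv_mul_cancel, Matrix.GeneralLinearGroup.coe_one, Matrix.det_one]
  exact eq_inv_of_mul_eq_one_left h1

omit [Valued k Γ₀] in
theorem det_pow_gl (g : GL (Fin 2) k) (n : ℕ) :
    ((g ^ n : GL (Fin 2) k) : Matrix (Fin 2) (Fin 2) k).det
      = ((g : Matrix (Fin 2) (Fin 2) k).det) ^ n := by
  induction n with
  | zero => simp
  | succ n ih => rw [pow_succ, det_mul_gl, ih, pow_succ]

omit [Valued k Γ₀] in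
theorem det_zpow_gl (g : GL (Fin 2) k) (n : ℤ) :
    ((g ^ n : GL (Fin 2) k) : Matrix (Fin 2) (Fin 2) k).det
      = ((g : Matrix (Fin 2) (Fin 2) k).det) ^ n := by
  cases n with
  | ofNat m => rw [Int.ofNat_eq_natCast, zpow_natCast, zpow_natCast, det_pow_gl]
  | negSucc m => rw [zpow_negSucc, zpow_negSucc, det_inv_gl, det_pow_gl]

/-- The scalar matrices are central. -/
theorem diagGL_comm {K : Type} [Field K] (c : K) (hc : c ≠ 0) (g : GL (Fin 2) K) :
    diagGL c c hc hc * g = g * diagGL c c hc hc := by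
  apply Matrix.GeneralLinearGroup.ext
  intro a b
  rw [Matrix.GeneralLinearGroup.coe_mul, Matrix.GeneralLinearGroup.coe_mul, diagGL_coe,
    Matrix.mul_apply, Matrix.mul_apply, Fin.sum_univ_two, Fin.sum_univ_two]
  fin_cases a <;> fin_cases b <;> simp [mul_comm]

theorem det_diagGL {K : Type} [Field K] (c : K) (hc : c ≠ 0) :
    ((diagGL c c hc hc : GL (Fin 2) K) : Matrix (Fin 2) (Fin 2) K).det = c ^ 2 := by
  rw [diagGL_coe, Matrix.det_fin_two_of]
  ring

/-- An `l`-th root of `γ` modulo units in the centraliser of `γ`. -/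
theorem exists_cent_root (q l : ℕ) (hk : IsLocalField k q) (hl : l.Prime) (γ : GL (Fin 2) k)
    (hdiv : (l : ℤ) ∣ WithZero.log (Valued.v (γ : Matrix (Fin 2) (Fin 2) k).det))
    (h : HasRamUnif k γ ∨ l ≠ 2) :
    ∃ z : GL (Fin 2) k, z * γ = γ * z ∧
      Valued.v (z : Matrix (Fin 2) (Fin 2) k).det ^ l
        = Valued.v (γ : Matrix (Fin 2) (Fin 2) k).det := by
  have hD0 : (γ : Matrix (Fin 2) (Fin 2) k).det ≠ 0 := det_gl_ne_zero γ
  by_cases hram : HasRamUnif k γ
  · obtain ⟨t₀, hcomm, hdet⟩ := hram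
    obtain ⟨m, hm⟩ := hdiv
    refine ⟨t₀ ^ (-m), ?_, ?_⟩
    · have hc : Commute t₀ γ := hcomm
      exact (hc.zpow_left (-m)).eq
    · have hz0 : ((t₀ ^ (-m) : GL (Fin 2) k) : Matrix (Fin 2) (Fin 2) k).det ≠ 0 :=
        det_gl_ne_zero _
      rw [← map_pow, v_eq_exp_log (pow_ne_zero l hz0), v_eq_exp_log hD0]
      congr 1
      rw [log_v_pow, det_zpow_gl, log_v_zpow, hdet, WithZero.log_exp, hm]
      ring
  · have hl2 : l ≠ 2 := by
      rcases h with h | h
      · exact absurd h hram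
      · exact h
    obtain ⟨ϖ, hϖ⟩ := hk.unif
    have hϖ0 : ϖ ≠ 0 := unif_ne_zero hϖ
    -- the order of `det γ` is even
    have heven : (2 : ℤ) ∣ WithZero.log (Valued.v (γ : Matrix (Fin 2) (Fin 2) k).det) := by
      by_contra hodd
      obtain ⟨j, hj⟩ : ∃ j : ℤ,
          WithZero.log (Valued.v (γ : Matrix (Fin 2) (Fin 2) k).det) = 2 * j + 1 := by
        refine ⟨WithZero.log (Valued.v (γ : Matrix (Fin 2) (Fin 2) k).det) / 2, ?_⟩
        omega
      apply hram
      have hc0 : ϖ ^ (j + 1) ≠ 0 := zpow_ne_zero _ hϖ0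
      refine ⟨diagGL (ϖ ^ (j + 1)) (ϖ ^ (j + 1)) hc0 hc0 * γ, ?_, ?_⟩
      · have hc : Commute (diagGL (ϖ ^ (j + 1)) (ϖ ^ (j + 1)) hc0 hc0) γ := diagGL_comm _ _ γ
        exact (hc.mul_left (Commute.refl γ)).eq
      · rw [det_mul_gl, det_diagGL]
        apply v_eq_exp_of_log (mul_ne_zero (pow_ne_zero 2 hc0) hD0)
        rw [log_v_mul (pow_ne_zero 2 hc0) hD0, log_v_pow, log_v_zpow, log_v_unif hϖ, hj]
        push_cast
        ring
    obtain ⟨m', hm'⟩ := heven
    have hlm : (l : ℤ) ∣ m' := by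
      have h1 : (l : ℤ) ∣ 2 * m' := hm' ▸ hdiv
      have hcop : IsCoprime (l : ℤ) 2 := by
        have : Nat.Coprime l 2 := by
          rw [Nat.coprime_primes hl Nat.prime_two]
          exact hl2
        exact_mod_cast Nat.isCoprime_iff_coprime.mpr this
      exact hcop.dvd_of_dvd_mul_left h1
    obtain ⟨m'', hm''⟩ := hlm
    have hc0 : ϖ ^ (-m'') ≠ 0 := zpow_ne_zero _ hϖ0
    refine ⟨diagGL (ϖ ^ (-m'')) (ϖ ^ (-m'')) hc0 hc0, diagGL_comm _ _ _, ?_⟩
    rw [← map_pow, v_eq_exp_log (pow_ne_zero l (det_gl_ne_zero _)), v_eq_exp_log hD0]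
    congr 1
    rw [log_v_pow, det_diagGL, log_v_pow, log_v_zpow, log_v_unif hϖ, hm', hm'']
    push_cast
    ring

/-- An element of the centraliser of an elliptic `γ` with unit determinant has integral trace. -/
theorem trace_integral (hNw : NewtonC) (q : ℕ) (hk : IsLocalField k q) (γ u : GL (Fin 2) k)
    (hreg : IsReg γ) (hne : ¬ HasEigen k γ) (hcomm : u * γ = γ * u)
    (hdet : Valued.v (u : Matrix (Fin 2) (Fin 2) k).det = 1) :
    Valued.v (u : Matrix (Fin 2) (Fin 2) k).trace ≤ 1 := by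
  by_contra hgt
  rw [not_le] at hgt
  obtain ⟨e, he⟩ := hNw k q hk _ _ hdet hgt
  have hcm : (u : Matrix (Fin 2) (Fin 2) k) * (γ : Matrix (Fin 2) (Fin 2) k)
      = (γ : Matrix (Fin 2) (Fin 2) k) * (u : Matrix (Fin 2) (Fin 2) k) := by
    rw [← Matrix.GeneralLinearGroup.coe_mul, ← Matrix.GeneralLinearGroup.coe_mul, hcomm]
  obtain ⟨α, β, hαβ⟩ := exists_eq_add_smul_of_comm _ _
    (not_scalar_of_disc _ (disc_ne_zero hreg)) hcm
  have htr : (u : Matrix (Fin 2) (Fin 2) k).trace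
      = 2 * α + β * (γ : Matrix (Fin 2) (Fin 2) k).trace := by
    rw [hαβ, Matrix.trace_add, Matrix.trace_smul, Matrix.trace_smul, Matrix.trace_one]
    simp
    ring
  have hdt : (u : Matrix (Fin 2) (Fin 2) k).det
      = α ^ 2 + α * β * (γ : Matrix (Fin 2) (Fin 2) k).trace
        + β ^ 2 * (γ : Matrix (Fin 2) (Fin 2) k).det := by
    rw [hαβ, Matrix.det_fin_two, Matrix.trace_fin_two, Matrix.det_fin_two]
    simp
    ring
  by_cases hβ : β = 0
  · rw [hβ] at htr hdt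
    have hα2 : (u : Matrix (Fin 2) (Fin 2) k).det = α ^ 2 := by
      rw [hdt]; ring
    have hα0 : α ≠ 0 := by
      intro h0
      have := det_gl_ne_zero u
      rw [hα2, h0] at this
      exact this (by ring)
    have hvα : Valued.v α = 1 := by
      apply v_eq_one_of_log hα0
      have h1 : WithZero.log (Valued.v (α ^ 2)) = 0 := by
        rw [← hα2, hdet, WithZero.log_one]
      rw [log_v_pow] at h1
      push_cast at h1
      omega
    have : Valued.v (u : Matrix (Fin 2) (Fin 2) k).trace ≤ 1 := by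
      rw [htr, zero_mul, add_zero, map_mul, hvα, mul_one]
      exact v_two_le_one
    exact absurd hgt (not_lt.mpr this)
  · apply hne
    refine ⟨(e - α) / β, ?_⟩
    rw [htr, hdt] at he
    have hβ2 : β ^ 2 ≠ 0 := pow_ne_zero 2 hβ
    apply mul_left_cancel₀ hβ2
    rw [mul_zero]
    field_simp
    linear_combination he

theorem normCrit_ell (hNw : NewtonC) (hQ : QuadUnitNormC) (q l : ℕ) (i : k →+* k')
    (s : k' ≃+* k') (hk : IsLocalField k q) (hk' : IsLocalField k' (q ^ l))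
    (hext : IsLocalExt k k' l 1 i s) (hl : l.Prime) (γ : GL (Fin 2) k) (hreg : IsReg γ)
    (hne : ¬ HasEigen k γ)
    (hdiv : (l : ℤ) ∣ WithZero.log (Valued.v (γ : Matrix (Fin 2) (Fin 2) k).det))
    (h : HasRamUnif k γ ∨ l ≠ 2) : IsNormFrom l i s γ := by
  obtain ⟨z, hzc, hzv⟩ := exists_cent_root q l hk hl γ hdiv h
  have hc : Commute z γ := hzc
  have hzl : Commute (z ^ l) γ := hc.pow_left l
  have huγ : γ * (z ^ l)⁻¹ * γ = γ * (γ * (z ^ l)⁻¹) :=
    ((Commute.refl γ).mul_left hzl.inv_left).eq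
  have hudet : Valued.v ((γ * (z ^ l)⁻¹ : GL (Fin 2) k) : Matrix (Fin 2) (Fin 2) k).det = 1 := by
    rw [det_mul_gl, det_inv_gl, det_pow_gl, map_mul, map_inv₀, map_pow, hzv]
    exact mul_inv_cancel₀ ((Valuation.ne_zero_iff _).mpr (det_gl_ne_zero γ))
  have hutr := trace_integral hNw q hk γ (γ * (z ^ l)⁻¹) hreg hne huγ hudet
  obtain ⟨x, a, b, hx, hN⟩ := hQ k k' q l i s hk hk' hext hl (γ * (z ^ l)⁻¹) hutr hudet
  have hZ : glAut s (Matrix.GeneralLinearGroup.map i z) = Matrix.GeneralLinearGroup.map i z := by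
    apply Matrix.GeneralLinearGroup.ext
    intro r j
    rw [glAut_coe, Matrix.GeneralLinearGroup.map_apply, hext.cyc.fix_i]
  have hzu : Commute z (γ * (z ^ l)⁻¹) :=
    hc.mul_right ((Commute.refl z).pow_right l).inv_right
  have hZU : (Matrix.GeneralLinearGroup.map i z : GL (Fin 2) k')
        * Matrix.GeneralLinearGroup.map i (γ * (z ^ l)⁻¹)
      = Matrix.GeneralLinearGroup.map i (γ * (z ^ l)⁻¹)
        * Matrix.GeneralLinearGroup.map i z := by
    rw [← map_mul, ← map_mul, hzu.eq]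
  have hZU' : ((Matrix.GeneralLinearGroup.map i z : GL (Fin 2) k') : Matrix (Fin 2) (Fin 2) k')
        * ((Matrix.GeneralLinearGroup.map i (γ * (z ^ l)⁻¹) : GL (Fin 2) k') :
            Matrix (Fin 2) (Fin 2) k')
      = ((Matrix.GeneralLinearGroup.map i (γ * (z ^ l)⁻¹) : GL (Fin 2) k') :
            Matrix (Fin 2) (Fin 2) k')
        * ((Matrix.GeneralLinearGroup.map i z : GL (Fin 2) k') : Matrix (Fin 2) (Fin 2) k') := by
    rw [← Matrix.GeneralLinearGroup.coe_mul, ← Matrix.GeneralLinearGroup.coe_mul, hZU]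
  have hZx : Commute (Matrix.GeneralLinearGroup.map i z : GL (Fin 2) k') x := by
    apply Units.ext
    rw [Units.val_mul, Units.val_mul, hx, mul_add, add_mul, Matrix.mul_smul, Matrix.smul_mul,
      Matrix.mul_smul, Matrix.smul_mul, mul_one, one_mul, hZU']
  refine ⟨Matrix.GeneralLinearGroup.map i z * x, ?_⟩
  have hfin : twNorm s l (Matrix.GeneralLinearGroup.map i z * x)
      = Matrix.GeneralLinearGroup.map i γ := by
    have h1 : twNorm s l (Matrix.GeneralLinearGroup.map i z * x)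
        = (Matrix.GeneralLinearGroup.map i z) ^ l * twNorm s l x :=
      twN_mul_fixed (glAut s) _ x hZ hZx l
    rw [h1, hN, ← map_pow, ← map_mul]
    congr 1
    rw [← mul_assoc, hzl.eq, mul_assoc, mul_inv_cancel, mul_one]
  rw [hfin]

end CaseC

/-! ## The glue -/

/-- **T6.15c `NormCritC` from `NewtonC`, `QuadUnitNormC`, `Unr2C`.** -/
theorem normCrit_of (hNw : NewtonC) (hQ : QuadUnitNormC) (hU : Unr2C) : NormCritC := by
  intro k k' _ _ _ _ q l i s hk hk' hext hl γ hreg hdiv heig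
  by_cases he : HasEigen k γ
  · obtain ⟨t₁, ht₁⟩ := he
    exact normCrit_hyp hQ q l i s hk hk' hext hl γ hreg heig t₁ ht₁
  · by_cases h : HasRamUnif k γ ∨ l ≠ 2
    · exact normCrit_ell hNw hQ q l i s hk hk' hext hl γ hreg he hdiv h
    · rw [not_or, not_not] at h
      obtain ⟨hnr, rfl⟩ := h
      exact normCrit_unr2 hU q i s hk hk' hext γ hreg he hnr

/-- **T6.15 `FLVanishC` from the five open sub-leaves.** -/
theorem flVanish_of' (ha : SupportC) (hb : HypVanishC) (hNw : NewtonC) (hQ : QuadUnitNormC)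
    (hU : Unr2C) : FLVanishC :=
  flVanish_of ha hb (normCrit_of hNw hQ hU)



end Fermat.Agent.LT.T6.H159

end

end
-- ===== PACK-END LT/T6/H159/NormGlue.lean

-- ===== PACK-BEGIN LT/T6/H855/HypSym.lean
section



/-!
# Row LT, tower T6, T6.25 `ArchHyp` (helper855): SYMMETRIES

OFF-MAIN.  `SO(2)`, `U(2)`, the elements of `H189/ArchIntSpec.lean` in terms of `nU855`, `dgU855`,
the sign elements, norms with positive eigenvalues.
-/

set_option autoImplicit false

open scoped Matrix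
open MeasureTheory

noncomputable section

namespace Fermat.Agent.LT.T6.H855

open Fermat.Agent.LT.T6

/-! ## 1. The elements of `H189/ArchIntSpec.lean` -/

/-- `e^u` as a unit. -/
def expU855 (u : ℝ) : ℝˣ := Units.mk0 (Real.exp u) (Real.exp_ne_zero u)

@[simp] theorem expU_coe855 (u : ℝ) : ((expU855 u : ℝˣ) : ℝ) = Real.exp u := rfl

theorem expU_add855 (u v : ℝ) : expU855 (u + v) = expU855 u * expU855 v := by
  apply Units.ext
  simp [Real.exp_add]

theorem expU_neg855 (u : ℝ) : expU855 (-u) = (expU855 u)⁻¹ := by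
  apply Units.ext
  simp [Real.exp_neg]

theorem unR_eq855 (x : ℝ) : H189.unR x = nU855 x := by
  apply Units.ext
  rfl

theorem unC_eq855 (w : ℂ) : H189.unC w = nU855 w := by
  apply Units.ext
  rfl

theorem dgR_eq855 (u₁ u₂ : ℝ) : H189.dgR u₁ u₂ = dgU855 (expU855 u₁) (expU855 u₂) := by
  apply Units.ext
  rfl

theorem dgC_eq855 (u₁ u₂ : ℝ) : H189.dgC u₁ u₂ = iotaC855 (H189.dgR u₁ u₂) := by
  apply Matrix.GeneralLinearGroup.ext
  intro i j
  rw [iota_coe855, dgR_eq855]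
  fin_cases i <;> fin_cases j <;> simp [H189.dgC]

theorem rotR_coe855 (θ : ℝ) :
    ((H189.rotR θ : GL (Fin 2) ℝ) : Matrix (Fin 2) (Fin 2) ℝ)
      = !![Real.cos θ, -Real.sin θ; Real.sin θ, Real.cos θ] := rfl

theorem rotR_inSO2_855 (θ : ℝ) : InSO2 (H189.rotR θ) := by
  constructor
  · rw [rotR_coe855]
    ext i j
    fin_cases i <;> fin_cases j <;>
      simp [Matrix.mul_apply, Fin.sum_univ_two] <;>
      nlinarith [Real.cos_sq_add_sin_sq θ]
  · rw [rotR_coe855, Matrix.det_fin_two_of]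
    nlinarith [Real.cos_sq_add_sin_sq θ]

/-! ## 2. `SO(2)` -/

theorem inSO2_form855 {k : GL (Fin 2) ℝ} (hk : InSO2 k) :
    (k : Matrix (Fin 2) (Fin 2) ℝ) 1 1 = (k : Matrix (Fin 2) (Fin 2) ℝ) 0 0 ∧
    (k : Matrix (Fin 2) (Fin 2) ℝ) 1 0 = -(k : Matrix (Fin 2) (Fin 2) ℝ) 0 1 ∧
    (k : Matrix (Fin 2) (Fin 2) ℝ) 0 0 ^ 2 + (k : Matrix (Fin 2) (Fin 2) ℝ) 0 1 ^ 2 = 1 := by
  obtain ⟨h1, h2⟩ := hk
  have e00 := congrFun (congrFun h1 0) 0
  have e11 := congrFun (congrFun h1 1) 1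
  simp only [Matrix.mul_apply, Fin.sum_univ_two, Matrix.transpose_apply, Matrix.one_apply_eq]
    at e00 e11
  rw [Matrix.det_fin_two] at h2
  set x := (k : Matrix (Fin 2) (Fin 2) ℝ) 0 0
  set y := (k : Matrix (Fin 2) (Fin 2) ℝ) 0 1
  set z := (k : Matrix (Fin 2) (Fin 2) ℝ) 1 0
  set w := (k : Matrix (Fin 2) (Fin 2) ℝ) 1 1
  have hsq : (x - w) ^ 2 + (y + z) ^ 2 = 0 := by nlinarith
  have hxw : x - w = 0 := by nlinarith [sq_nonneg (x - w), sq_nonneg (y + z)]
  have hyz : y + z = 0 := by nlinarith [sq_nonneg (x - w), sq_nonneg (y + z)]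
  refine ⟨by linarith, by linarith, by nlinarith⟩

theorem inv_coe_of_inSO2_855 {k : GL (Fin 2) ℝ} (hk : InSO2 k) :
    ((k⁻¹ : GL (Fin 2) ℝ) : Matrix (Fin 2) (Fin 2) ℝ)
      = (k : Matrix (Fin 2) (Fin 2) ℝ).transpose := by
  rw [Matrix.GeneralLinearGroup.coe_inv]
  exact Matrix.inv_eq_right_inv hk.1

theorem inSO2_inv855 {k : GL (Fin 2) ℝ} (hk : InSO2 k) : InSO2 k⁻¹ := by
  have hinv := inv_coe_of_inSO2_855 hk
  constructor
  · rw [hinv, Matrix.transpose_transpose]
    have h := hk.1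
    exact (Matrix.mul_eq_one_comm_of_equiv (Equiv.refl (Fin 2))).mp h
  · rw [hinv, Matrix.det_transpose]
    exact hk.2

theorem holPart_of_inSO2_855 {k : GL (Fin 2) ℝ} (hk : InSO2 k) :
    holPart k = (((k : Matrix (Fin 2) (Fin 2) ℝ) 0 0 : ℝ) : ℂ)
      - (((k : Matrix (Fin 2) (Fin 2) ℝ) 0 1 : ℝ) : ℂ) * Complex.I := by
  obtain ⟨h1, h2, -⟩ := inSO2_form855 hk
  unfold holPart
  rw [h1, h2]
  push_cast
  ring

theorem holPart_inv_mul855 {k : GL (Fin 2) ℝ} (hk : InSO2 k) :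
    holPart k⁻¹ * holPart k = 1 := by
  rw [holPart_of_inSO2_855 hk, holPart_of_inSO2_855 (inSO2_inv855 hk), inv_coe_of_inSO2_855 hk]
  obtain ⟨h1, h2, h3⟩ := inSO2_form855 hk
  simp only [Matrix.transpose_apply]
  rw [h2]
  have h3' : ((((k : Matrix (Fin 2) (Fin 2) ℝ) 0 0 : ℝ) : ℂ)) ^ 2
      + ((((k : Matrix (Fin 2) (Fin 2) ℝ) 0 1 : ℝ) : ℂ)) ^ 2 = 1 := by exact_mod_cast h3
  push_cast
  linear_combination h3' - (((((k : Matrix (Fin 2) (Fin 2) ℝ) 0 1 : ℝ) : ℂ)) ^ 2) * Complex.I_sq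

theorem wtChar_inv_mul855 (n : ℤ) {k : GL (Fin 2) ℝ} (hk : InSO2 k) :
    wtChar n k⁻¹ * wtChar n k = 1 := by
  unfold wtChar
  rw [← mul_zpow, holPart_inv_mul855 hk, one_zpow]

/-- A function of weight `n` is invariant under the conjugation by `SO(2)`. -/
theorem conj_inv_of_weight855 (n : ℤ) (f : GL (Fin 2) ℝ → ℂ)
    (hl : ∀ k g : GL (Fin 2) ℝ, InSO2 k → f (k * g) = (wtChar n k)⁻¹ * f g)
    (hr : ∀ k g : GL (Fin 2) ℝ, InSO2 k → f (g * k) = (wtChar n k)⁻¹ * f g)
    {k : GL (Fin 2) ℝ} (hk : InSO2 k) (g : GL (Fin 2) ℝ) :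
    f (k⁻¹ * g * k) = f g := by
  rw [hr k _ hk, hl k⁻¹ g (inSO2_inv855 hk), ← mul_assoc, ← mul_inv]
  rw [mul_comm (wtChar n k), wtChar_inv_mul855 n hk]
  simp

/-- `-1 ∈ GL₂(ℝ)`. -/
def negOne855 : GL (Fin 2) ℝ := dgU855 (-1) (-1)

theorem negOne_inSO2_855 : InSO2 negOne855 := by
  constructor
  · ext i j
    fin_cases i <;> fin_cases j <;> simp [negOne855, Matrix.mul_apply, Fin.sum_univ_two]
  · simp [negOne855, Matrix.det_fin_two]

theorem holPart_negOne855 : holPart negOne855 = -1 := by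
  unfold holPart
  simp [negOne855]

theorem wtChar_negOne855 (n : ℤ) : wtChar n negOne855 = (-1 : ℂ) ^ n := by
  unfold wtChar
  rw [holPart_negOne855]

theorem negOne_mul_dgU855 (a b : ℝˣ) : negOne855 * dgU855 a b = dgU855 (-a) (-b) := by
  unfold negOne855
  rw [dgU_mul855]
  simp

/-- A function of weight `0` is even. -/
theorem even_of_weight_zero855 (f : GL (Fin 2) ℝ → ℂ)
    (hl : ∀ k g : GL (Fin 2) ℝ, InSO2 k → f (k * g) = (wtChar 0 k)⁻¹ * f g)
    (g : GL (Fin 2) ℝ) : f (negOne855 * g) = f g := by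
  rw [hl _ _ negOne_inSO2_855, wtChar_negOne855]
  simp

/-- A function of odd weight is odd. -/
theorem odd_of_weight_odd855 (n : ℤ) (hn : Odd n) (f : GL (Fin 2) ℝ → ℂ)
    (hl : ∀ k g : GL (Fin 2) ℝ, InSO2 k → f (k * g) = (wtChar n k)⁻¹ * f g)
    (g : GL (Fin 2) ℝ) : f (negOne855 * g) = -f g := by
  rw [hl _ _ negOne_inSO2_855, wtChar_negOne855, hn.neg_one_zpow]
  simp

/-! ## 3. `U(2)` -/

theorem inv_coe_of_inU2_855 {k : GL (Fin 2) ℂ} (hk : InU2 k) :
    ((k⁻¹ : GL (Fin 2) ℂ) : Matrix (Fin 2) (Fin 2) ℂ)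
      = (k : Matrix (Fin 2) (Fin 2) ℂ).conjTranspose := by
  rw [Matrix.GeneralLinearGroup.coe_inv]
  exact Matrix.inv_eq_right_inv hk

theorem inU2_inv855 {k : GL (Fin 2) ℂ} (hk : InU2 k) : InU2 k⁻¹ := by
  unfold InU2
  rw [inv_coe_of_inU2_855 hk, Matrix.conjTranspose_conjTranspose]
  exact (Matrix.mul_eq_one_comm_of_equiv (Equiv.refl (Fin 2))).mp hk

theorem inU2_glAut855 {k : GL (Fin 2) ℂ} (hk : InU2 k) :
    InU2 (glAut (starRingAut : ℂ ≃+* ℂ) k) := by
  unfold InU2 at hk ⊢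
  have e := fun i j => congrFun (congrFun hk i) j
  simp only [Matrix.mul_apply, Fin.sum_univ_two, Matrix.conjTranspose_apply] at e
  ext i j
  have h := congrArg (starRingEnd ℂ) (e i j)
  simp only [Matrix.mul_apply, Fin.sum_univ_two, Matrix.conjTranspose_apply, glAut_coe855]
  have h1 : (starRingEnd ℂ) ((1 : Matrix (Fin 2) (Fin 2) ℂ) i j)
      = (1 : Matrix (Fin 2) (Fin 2) ℂ) i j := by
    fin_cases i <;> fin_cases j <;> simp
  rw [h1] at h
  rw [← h]
  simp

/-- A bi-`U(2)`-invariant function is invariant under the twisted conjugation by `U(2)`. -/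
theorem twconj_inv_of_biinv855 (φ : GL (Fin 2) ℂ → ℂ)
    (hl : ∀ k g : GL (Fin 2) ℂ, InU2 k → φ (k * g) = φ g)
    (hr : ∀ k g : GL (Fin 2) ℂ, InU2 k → φ (g * k) = φ g)
    {k : GL (Fin 2) ℂ} (hk : InU2 k) (g : GL (Fin 2) ℂ) :
    φ (k⁻¹ * g * glAut (starRingAut : ℂ ≃+* ℂ) k) = φ g := by
  rw [hr _ _ (inU2_glAut855 hk), hl _ _ (inU2_inv855 hk)]

/-- A diagonal matrix with entries of absolute value one is unitary. -/
theorem dgU_inU2_855 (v₁ v₂ : ℂˣ) (h1 : Complex.normSq (v₁ : ℂ) = 1)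
    (h2 : Complex.normSq (v₂ : ℂ) = 1) : InU2 (dgU855 v₁ v₂) := by
  unfold InU2
  have e1 : (v₁ : ℂ) * (starRingEnd ℂ) (v₁ : ℂ) = 1 := by
    rw [Complex.mul_conj, h1]; simp
  have e2 : (v₂ : ℂ) * (starRingEnd ℂ) (v₂ : ℂ) = 1 := by
    rw [Complex.mul_conj, h2]; simp
  ext i j
  fin_cases i <;> fin_cases j <;>
    simp [Matrix.mul_apply, Fin.sum_univ_two, Matrix.conjTranspose_apply, e1, e2]

/-! ## 4. The sign elements -/

/-- The sign of a unit of `ℤ` as a unit of `ℝ`. -/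
abbrev sgnU855 (s : ℤˣ) : ℝˣ := Units.map (Int.castRingHom ℝ).toMonoidHom s

/-- The sign element `diag(±1, ±1)`. -/
def sgE855 (s : ℤˣ × ℤˣ) : GL (Fin 2) ℝ := dgU855 (sgnU855 s.1) (sgnU855 s.2)

theorem sgE_mul855 (s t : ℤˣ × ℤˣ) : sgE855 (s * t) = sgE855 s * sgE855 t := by
  unfold sgE855
  rw [dgU_mul855]
  simp [sgnU855]

theorem sgE_one855 : sgE855 1 = 1 := by
  unfold sgE855
  simp [dgU_one855]

/-! ## 5. Norms -/

/-- An element conjugate to `diag(a, b)`, `a, b > 0`, is a norm. -/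
theorem isNormFrom_of_pos855 (g : GL (Fin 2) ℝ) (a b : ℝˣ) (ha : 0 < (a : ℝ)) (hb : 0 < (b : ℝ)) :
    IsNormFrom 2 (algebraMap ℝ ℂ) (starRingAut : ℂ ≃+* ℂ) (g * dgU855 a b * g⁻¹) := by
  have hsa : Real.sqrt (a : ℝ) ≠ 0 := (Real.sqrt_pos.mpr ha).ne'
  have hsb : Real.sqrt (b : ℝ) ≠ 0 := (Real.sqrt_pos.mpr hb).ne'
  refine ⟨iotaC855 (g * dgU855 (Units.mk0 _ hsa) (Units.mk0 _ hsb) * g⁻¹), ?_⟩
  rw [twNorm_two855, glAut_iota855, ← map_mul]
  have : g * dgU855 (Units.mk0 _ hsa) (Units.mk0 _ hsb) * g⁻¹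
      * (g * dgU855 (Units.mk0 _ hsa) (Units.mk0 _ hsb) * g⁻¹) = g * dgU855 a b * g⁻¹ := by
    have h2 : dgU855 (Units.mk0 _ hsa) (Units.mk0 _ hsb) * dgU855 (Units.mk0 _ hsa) (Units.mk0 _ hsb)
        = dgU855 a b := by
      rw [dgU_mul855]
      congr 1 <;> apply Units.ext <;> simp [Real.mul_self_sqrt, ha.le, hb.le]
    calc g * dgU855 (Units.mk0 _ hsa) (Units.mk0 _ hsb) * g⁻¹
          * (g * dgU855 (Units.mk0 _ hsa) (Units.mk0 _ hsb) * g⁻¹)
        = g * (dgU855 (Units.mk0 _ hsa) (Units.mk0 _ hsb)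
            * dgU855 (Units.mk0 _ hsa) (Units.mk0 _ hsb)) * g⁻¹ := by group
      _ = g * dgU855 a b * g⁻¹ := by rw [h2]
  rw [this]

end Fermat.Agent.LT.T6.H855

end

end
-- ===== PACK-END LT/T6/H855/HypSym.lean

-- ===== PACK-BEGIN LT/T6/H820/BoxC.lean
section



/-!
# Row LT, tower T6, station T6.20e: the measure of the complex Iwasawa unit box (helper820)

OFF-MAIN.  ASSET for `cStar634` (helper634, `EllCut.lean`): if `μ' = c • (iwaC)_* (iwaMC κ)`
(the Iwasawa formula `H189.IwasawaCC` with constant `c`, `κ` the Haar probability measure of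
`U(2)`), then `μ' (boxC634) = c * π`.
-/

set_option autoImplicit false

open MeasureTheory
open scoped Matrix ENNReal

noncomputable section

namespace Fermat.Agent.LT.T6.H820

open Fermat.Agent.LT.T6 Fermat.Agent.LT.T6.H189 Fermat.Agent.LT.T6.H634 Fermat.Agent.LT.T6.H905

/-- The parameter box. -/
def pBoxC820 : Set (ℝ × ℝ × ℂ × GL (Fin 2) ℂ) :=
  Set.Icc (0 : ℝ) 1 ×ˢ Set.Icc (0 : ℝ) 1 ×ˢ Metric.closedBall (0 : ℂ) 1 ×ˢ U2

theorem boxC_eq820 : boxC634 = iwaC '' pBoxC820 := rfl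

theorem iwaC_eq820 (p : ℝ × ℝ × ℂ × GL (Fin 2) ℂ) :
    iwaC p = bor905 (p.1, p.2.1, p.2.2.1) * p.2.2.2 := rfl

/-- The complex box in the inverse coordinates. -/
theorem boxC_eq_coord820 :
    boxC634 = {g : GL (Fin 2) ℂ | iwU1_905 g ∈ Set.Icc (0 : ℝ) 1 ∧
      iwU2_905 g ∈ Set.Icc (0 : ℝ) 1 ∧ iwW905 g ∈ Metric.closedBall (0 : ℂ) 1} := by
  rw [boxC_eq820]
  ext g
  constructor
  · rintro ⟨p, ⟨h1, h2, h3, h4⟩, rfl⟩
    have hk : p.2.2.2 ∈ U2sub := h4
    rw [iwaC_eq820]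
    show iwU1_905 _ ∈ _ ∧ iwU2_905 _ ∈ _ ∧ iwW905 _ ∈ _
    rw [iwU1_bor_mul905 _ hk, iwU2_bor_mul905 _ hk, iwW_bor_mul905 _ hk]
    exact ⟨h1, h2, h3⟩
  · rintro ⟨h1, h2, h3⟩
    refine ⟨(iwU1_905 g, iwU2_905 g, iwW905 g, iwK905 g), ⟨h1, h2, h3, iwK_mem905 g⟩, ?_⟩
    rw [iwaC_eq820]
    show bor905 (iwU1_905 g, iwU2_905 g, iwW905 g) * ((iwB905 g)⁻¹ * g) = g
    exact mul_inv_cancel_left (iwB905 g) g

theorem isClosed_boxC820 : IsClosed boxC634 := by
  rw [boxC_eq_coord820]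
  exact (isClosed_Icc.preimage continuous_iwU1_905).inter
    ((isClosed_Icc.preimage continuous_iwU2_905).inter
      (Metric.isClosed_closedBall.preimage continuous_iwW905))

/-- The preimage of the box, inside `U(2)`, is the parameter box. -/
theorem preimage_boxC820 (p : ℝ × ℝ × ℂ × GL (Fin 2) ℂ) (hp : p.2.2.2 ∈ U2)
    (h : iwaC p ∈ boxC634) : p ∈ pBoxC820 := by
  rw [boxC_eq_coord820, iwaC_eq820] at h
  have hk : p.2.2.2 ∈ U2sub := hp
  obtain ⟨h1, h2, h3⟩ := h
  rw [iwU1_bor_mul905 _ hk] at h1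
  rw [iwU2_bor_mul905 _ hk] at h2
  rw [iwW_bor_mul905 _ hk] at h3
  exact ⟨h1, h2, h3, hp⟩

theorem continuous_iwaC820 : Continuous iwaC := by
  have h : iwaC = fun p : ℝ × ℝ × ℂ × GL (Fin 2) ℂ =>
      bor905 (p.1, p.2.1, p.2.2.1) * p.2.2.2 := funext iwaC_eq820
  rw [h]
  refine (continuous_bor905.comp ?_).mul ?_
  · exact continuous_fst.prodMk ((continuous_fst.comp continuous_snd).prodMk
      (continuous_fst.comp (continuous_snd.comp continuous_snd)))
  · exact continuous_snd.comp (continuous_snd.comp continuous_snd)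

/-- The Haar probability measure of `U(2)` has mass `1` on `U(2)`. -/
theorem u2Haar_U2_820 (κ : @Measure (GL (Fin 2) ℂ) (borel _)) (hκ : IsU2Haar κ) : κ U2 = 1 := by
  apply le_antisymm
  · rw [← hκ.prob]
    exact measure_mono (Set.subset_univ _)
  · calc (1 : ℝ≥0∞) = κ Set.univ := hκ.prob.symm
      _ = κ (U2 ∪ U2ᶜ) := by rw [Set.union_compl_self]
      _ ≤ κ U2 + κ U2ᶜ := measure_union_le _ _
      _ = κ U2 := by rw [hκ.supp, add_zero]

/-- **The measure of the complex Iwasawa unit box.** -/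
theorem boxC_measure820 (κ μ' : @Measure (GL (Fin 2) ℂ) (borel _)) (hκ : IsU2Haar κ) (c : ℝ≥0∞)
    (h : μ' = c • @Measure.map _ _
        (@Prod.instMeasurableSpace _ _ _ (@Prod.instMeasurableSpace _ _ _
          (@Prod.instMeasurableSpace _ _ _ (borel _)))) (borel _) iwaC (iwaMC κ)) :
    μ' boxC634 = c * ENNReal.ofReal Real.pi := by
  letI : MeasurableSpace (GL (Fin 2) ℂ) := borel _
  haveI : BorelSpace (GL (Fin 2) ℂ) := ⟨rfl⟩
  haveI : IsFiniteMeasure κ := ⟨by rw [hκ.prob]; exact ENNReal.one_lt_top⟩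
  have hmeas : MeasurableSet boxC634 := isClosed_boxC820.measurableSet
  have hbox : iwaMC κ pBoxC820 = ENNReal.ofReal Real.pi := by
    unfold iwaMC pBoxC820
    rw [Measure.prod_prod, Measure.prod_prod, Measure.prod_prod]
    rw [Real.volume_Icc, Complex.volume_closedBall, u2Haar_U2_820 κ hκ]
    have hpi : (NNReal.pi : ℝ≥0∞) = ENNReal.ofReal Real.pi := by
      rw [ENNReal.ofReal, ← NNReal.coe_real_pi, Real.toNNReal_coe]
    simp [hpi]
  have hcompl : iwaMC κ {p : ℝ × ℝ × ℂ × GL (Fin 2) ℂ | p.2.2.2 ∉ U2} = 0 := by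
    have hset : {p : ℝ × ℝ × ℂ × GL (Fin 2) ℂ | p.2.2.2 ∉ U2}
        = (Set.univ : Set ℝ) ×ˢ (Set.univ : Set ℝ) ×ˢ (Set.univ : Set ℂ) ×ˢ U2ᶜ := by
      ext p
      simp
    rw [hset]
    unfold iwaMC
    rw [Measure.prod_prod, Measure.prod_prod, Measure.prod_prod, hκ.supp]
    simp
  rw [h, Measure.smul_apply, smul_eq_mul]
  congr 1
  rw [Measure.map_apply continuous_iwaC820.measurable hmeas]
  apply le_antisymm
  · calc iwaMC κ (iwaC ⁻¹' boxC634)
        ≤ iwaMC κ (pBoxC820 ∪ {p : ℝ × ℝ × ℂ × GL (Fin 2) ℂ | p.2.2.2 ∉ U2}) := by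
          apply measure_mono
          intro p hp
          by_cases hk : p.2.2.2 ∈ U2
          · exact Or.inl (preimage_boxC820 p hk hp)
          · exact Or.inr hk
      _ ≤ iwaMC κ pBoxC820 + iwaMC κ {p : ℝ × ℝ × ℂ × GL (Fin 2) ℂ | p.2.2.2 ∉ U2} :=
          measure_union_le _ _
      _ = ENNReal.ofReal Real.pi := by rw [hbox, hcompl, add_zero]
  · rw [← hbox]
    apply measure_mono
    intro p hp
    exact ⟨p, hp, rfl⟩

end Fermat.Agent.LT.T6.H820

end

end
-- ===== PACK-END LT/T6/H820/BoxC.lean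

-- ===== PACK-BEGIN LT/T6/H863/Assemble.lean
section



/-!
# Row LT, tower T6, leaf T6.16 (`SplitMatchC`) -- helper863, OFF-MAIN

Part 6: THE ABSTRACT THEOREM.  `G` any group, `U ≤ G`, `Cpt` a conjugation-invariant predicate
containing `U`, closed under inverses, and closed under multiplication on the centraliser of
every conjugate of the norm `γ = δ_0 ⋯ δ_{l-1}`; `φ_j` bi-`U`-invariant of finite support modulo
`U`, `f = φ_0 * ⋯ * φ_{l-1}` (`IsConvProd`).  Then the twisted orbit sum of `φ_0 ⊗ ⋯ ⊗ φ_{l-1}` at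
`δ` on `G^l` (cyclic shift) equals the orbit sum of `f` at `γ`:

    `split_match_abs_863`.

Mathlib + `T6/Spec.lean` (frozen) only; every proof is complete.
-/

set_option autoImplicit false

open scoped Classical

noncomputable section

namespace Fermat.Agent.LT.T6.H863

open Fermat.Agent.LT.T6

/-- Extension of a system of pairwise inequivalent elements to one covering a finite set. -/
theorem ext_reps_863 {α : Type*} (r : α → α → Prop) (hr : Equivalence r) (R E : Finset α)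
    (hR : IsIneq863 r R) :
    ∃ R' : Finset α, R ⊆ R' ∧ R' ⊆ R ∪ E ∧ IsIneq863 r R' ∧ ∀ e ∈ E, ∃ h ∈ R', r e h := by
  induction E using Finset.induction_on with
  | empty =>
    exact ⟨R, Finset.Subset.refl _, Finset.subset_union_left, hR, fun e he => by simp at he⟩
  | insert x E hx ih =>
    obtain ⟨R', hRR', hR'E, hR', hcov⟩ := ih
    have hsub : R ∪ E ⊆ R ∪ insert x E :=
      Finset.union_subset_union (Finset.Subset.refl _) (Finset.subset_insert _ _)
    by_cases hex : ∃ h ∈ R', r x h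
    · refine ⟨R', hRR', hR'E.trans hsub, hR', fun e he => ?_⟩
      rcases Finset.mem_insert.mp he with rfl | he
      · exact hex
      · exact hcov e he
    · refine ⟨insert x R', hRR'.trans (Finset.subset_insert _ _), ?_, ?_, fun e he => ?_⟩
      · intro a ha
        rcases Finset.mem_insert.mp ha with rfl | ha
        · exact Finset.mem_union_right _ (Finset.mem_insert_self _ _)
        · exact hsub (hR'E ha)
      · intro a ha b hb hab
        rcases Finset.mem_insert.mp ha with hax | haH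
        · rcases Finset.mem_insert.mp hb with hbx | hbH
          · rw [hax, hbx]
          · exact absurd ⟨b, hbH, hax ▸ hab⟩ hex
        · rcases Finset.mem_insert.mp hb with hbx | hbH
          · exact absurd ⟨a, haH, hbx ▸ hr.symm hab⟩ hex
          · exact hR' a haH b hbH hab
      · rcases Finset.mem_insert.mp he with rfl | he
        · exact ⟨e, Finset.mem_insert_self _ _, hr.refl e⟩
        · obtain ⟨h, hh, heh⟩ := hcov e he
          exact ⟨h, Finset.mem_insert_of_mem hh, heh⟩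

variable {G : Type} [Group G] {l : ℕ} [NeZero l]

/-- Conjugacy under `U`. -/
def ConjU863 (U : Subgroup G) (z z' : G) : Prop := ∃ u : G, u ∈ U ∧ z' = u⁻¹ * z * u

theorem conjU863_equiv (U : Subgroup G) : Equivalence (ConjU863 U) where
  refl z := ⟨1, U.one_mem, by group⟩
  symm := by
    rintro z z' ⟨u, hu, rfl⟩
    exact ⟨u⁻¹, U.inv_mem hu, by group⟩
  trans := by
    rintro z z' z'' ⟨u, hu, rfl⟩ ⟨w, hw, rfl⟩
    exact ⟨u * w, U.mul_mem hu hw, by group⟩

/-- The element of `G^l` with component `g` at `0` and `1` elsewhere. -/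
def single863 (l : ℕ) [NeZero l] (g : G) : Fin l → G := fun j => if j = 0 then g else 1

theorem single863_zero (g : G) : single863 l g 0 = g := if_pos rfl

theorem single863_mem (U : Subgroup G) (g : G) (hg : g ∈ U) (j : Fin l) :
    single863 l g j ∈ U := by
  unfold single863
  split_ifs
  · exact hg
  · exact U.one_mem

/-- **THE ABSTRACT THEOREM.** -/
theorem split_match_abs_863 (U : Subgroup G) (Cpt : G → Prop) (hC : CptData863 U Cpt)
    (φ : ℕ → G → ℂ) (f : G → ℂ)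
    (hbi : ∀ j, IsBiInv (fun g => g ∈ U) (φ j))
    (hfs : ∀ j, HasFinSupp (fun g => g ∈ U) (φ j))
    (hf : IsConvProd (fun g => g ∈ U) l φ f) (δ : Fin l → G)
    (hmul : ∀ z : G, (∃ g : G, z = g⁻¹ * nm863 δ * g) → CptMul863 Cpt z)
    (c c' : ℂ)
    (hc : IsOrbSumGen (shift863 l) (fun u : Fin l → G => ∀ j, u j ∈ U)
      (fun y t => t⁻¹ * y * shift863 l t = y ∧ ∀ j, Cpt (t j)) (tensor863 φ l) δ c)
    (hc' : IsOrbSumGen (MonoidHom.id G) (fun u : G => u ∈ U)
      (fun z t => t⁻¹ * z * t = z ∧ Cpt t) f (nm863 δ) c') :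
    c = c' := by
  obtain ⟨R, hR1, hR2, hR3, rfl⟩ := hc
  obtain ⟨R', hR'1, hR'2, hR'3, rfl⟩ := hc'
  simp only [MonoidHom.id_apply] at hR'1 hR'2 hR'3
  -- notation
  set Φ : (Fin l → G) → ℂ := tensor863 φ l with hΦdef
  set w : (Fin l → G) → ℕ := cIndex (fun u : Fin l → G => ∀ j, u j ∈ U)
    (fun y t => t⁻¹ * y * shift863 l t = y ∧ ∀ j, Cpt (t j)) with hwdef
  set W : G → ℕ := cIndex (fun u : G => u ∈ U) (fun z t => t⁻¹ * z * t = z ∧ Cpt t) with hWdef
  have heq := twEq863_equiv (l := l) U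
  have hΦinv : ∀ u y : Fin l → G, (∀ j, u j ∈ U) → Φ (act863 u y) = Φ y :=
    fun u y hu => tensor_act_863 U φ hbi u y hu
  have hΦcl : ∀ y y', TwEq863 U y y' → Φ y = Φ y' := by
    rintro y y' ⟨u, hu, rfl⟩
    exact (hΦinv u y hu).symm
  have hwcl : ∀ y y', TwEq863 U y y' → w y = w y' := by
    rintro y y' ⟨u, hu, rfl⟩
    exact (cIndex_act_863 hC u y hu).symm
  have hXcl : ∀ y y', TwEq863 U y y' →
      (∃ x : Fin l → G, y = x⁻¹ * δ * shift863 l x) →
      ∃ x : Fin l → G, y' = x⁻¹ * δ * shift863 l x := by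
    rintro y y' ⟨u, hu, rfl⟩ ⟨x, rfl⟩
    exact ⟨x * u, (act863_mul x u δ).symm⟩
  have hnmX : ∀ y : Fin l → G, (∃ x : Fin l → G, y = x⁻¹ * δ * shift863 l x) →
      ∃ g : G, nm863 y = g⁻¹ * nm863 δ * g := by
    rintro y ⟨x, rfl⟩
    exact ⟨x 0, nm863_conj x δ⟩
  -- Step 1: extend `R'`
  set E : Finset G := (R.filter (fun y => Φ y ≠ 0)).image nm863 with hE
  have hR'ineq : IsIneq863 (ConjU863 U) R' := by
    intro a ha b hb ⟨u, hu, hab⟩
    exact hR'2 a ha b hb ⟨u, hu, hab⟩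
  obtain ⟨R'', hR'R'', hR''sub, hR''ineq, hR''cov⟩ :=
    ext_reps_863 (ConjU863 U) (conjU863_equiv U) R' E hR'ineq
  -- Step 2
  have hR''O : ∀ z ∈ R'', ∃ g : G, z = g⁻¹ * nm863 δ * g := by
    intro z hz
    rcases Finset.mem_union.mp (hR''sub hz) with hz' | hz'
    · exact hR'1 z hz'
    · obtain ⟨y, hy, rfl⟩ := Finset.mem_image.mp hz'
      exact hnmX y (hR1 y (Finset.mem_filter.mp hy).1)
  -- Step 3
  have hstep3 : ∑ z ∈ R', f z * (W z : ℂ) = ∑ z ∈ R'', f z * (W z : ℂ) := by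
    refine Finset.sum_subset hR'R'' (fun z hz hz' => ?_)
    have hfz : f z = 0 := by
      by_contra hne
      obtain ⟨z', hz'R, u, hu, hzu⟩ := hR'3 z (hR''O z hz) hne
      have h1 : ConjU863 U z' z := ⟨u, hu, hzu⟩
      have h2 : z' = z := hR''ineq z' (hR'R'' hz'R) z hz h1
      exact hz' (h2 ▸ hz'R)
    rw [hfz, zero_mul]
  rw [hstep3]
  -- Step 4: the fibres
  choose Pz hPn hPΦ hPi hPc hPs using
    (fun z : G => exists_fibre_reps_863 U φ hbi hfs f hf z)
  set T : Finset (Fin l → G) := R''.biUnion Pz with hT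
  have hTmem : ∀ y ∈ T, nm863 y ∈ R'' ∧ y ∈ Pz (nm863 y) := by
    intro y hy
    obtain ⟨z, hz, hyz⟩ := Finset.mem_biUnion.mp hy
    have := hPn z y hyz
    rw [this]
    exact ⟨hz, hyz⟩
  have hTX : ∀ y ∈ T, ∃ x : Fin l → G, y = x⁻¹ * δ * shift863 l x := by
    intro y hy
    obtain ⟨g, hg⟩ := hR''O _ (hTmem y hy).1
    obtain ⟨x, -, hx⟩ := tw_exists_863 δ y g hg
    exact ⟨x, hx⟩
  -- Step 5
  obtain ⟨R₂, hR₂T, hR₂ineq, hR₂cov⟩ := exists_reps_863 (TwEq863 U) heq T
  -- Step 6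
  set F : (Fin l → G) → ℂ := fun y =>
    if (∃ x : Fin l → G, y = x⁻¹ * δ * shift863 l x) then Φ y * (w y : ℂ) else 0 with hFdef
  have hFX : ∀ y, (∃ x : Fin l → G, y = x⁻¹ * δ * shift863 l x) → F y = Φ y * (w y : ℂ) :=
    fun y hy => if_pos hy
  have hFnX : ∀ y, ¬ (∃ x : Fin l → G, y = x⁻¹ * δ * shift863 l x) → F y = 0 :=
    fun y hy => if_neg hy
  have hFcl : ∀ y y', TwEq863 U y y' → F y = F y' := by
    intro y y' hyy'
    by_cases hX : ∃ x : Fin l → G, y = x⁻¹ * δ * shift863 l x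
    · rw [hFX y hX, hFX y' (hXcl y y' hyy' hX), hΦcl y y' hyy', hwcl y y' hyy']
    · have hX' : ¬ ∃ x : Fin l → G, y' = x⁻¹ * δ * shift863 l x :=
        fun h => hX (hXcl y' y (heq.symm hyy') h)
      rw [hFnX y hX, hFnX y' hX']
  have hFne : ∀ y, F y ≠ 0 →
      (∃ x : Fin l → G, y = x⁻¹ * δ * shift863 l x) ∧ Φ y ≠ 0 := by
    intro y hy
    by_cases hX : ∃ x : Fin l → G, y = x⁻¹ * δ * shift863 l x
    · refine ⟨hX, ?_⟩
      rw [hFX y hX] at hy
      exact left_ne_zero_of_mul hy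
    · exfalso
      apply hy
      exact hFnX y hX
  have hRcov : Covers863 (TwEq863 U) F R := by
    intro y hy
    obtain ⟨hX, hΦ⟩ := hFne y hy
    obtain ⟨y', hy', u, hu, hyu⟩ := hR3 y hX hΦ
    exact ⟨y', hy', heq.symm ⟨u, hu, hyu⟩⟩
  have hR₂cov' : Covers863 (TwEq863 U) F R₂ := by
    intro y hy
    obtain ⟨r, hr, hyr⟩ := hRcov y hy
    have hΦr : Φ r ≠ 0 := by
      rw [← hΦcl y r hyr]
      exact (hFne y hy).2
    have hnE : nm863 r ∈ E :=
      Finset.mem_image.mpr ⟨r, Finset.mem_filter.mpr ⟨hr, hΦr⟩, rfl⟩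
    obtain ⟨z, hz, u₀, hu₀, hzu⟩ := hR''cov _ hnE
    set y₁ : Fin l → G := act863 (single863 l u₀) r with hy₁
    have hy₁n : nm863 y₁ = z := by
      rw [hy₁, nm863_act, single863_zero, hzu]
    have hy₁Φ : Φ y₁ ≠ 0 := by
      rw [hy₁, hΦinv _ _ (single863_mem U u₀ hu₀)]
      exact hΦr
    obtain ⟨y₀, hy₀, hy₁₀⟩ := hPc z y₁ hy₁n hy₁Φ
    have hy₀T : y₀ ∈ T := Finset.mem_biUnion.mpr ⟨z, hz, hy₀⟩
    obtain ⟨r₂, hr₂, hy₀r₂⟩ := hR₂cov y₀ hy₀T
    refine ⟨r₂, hr₂, ?_⟩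
    have h1 : TwEq863 U r y₁ := ⟨single863 l u₀, single863_mem U u₀ hu₀, rfl⟩
    exact heq.trans hyr (heq.trans h1 (heq.trans hy₁₀.toTwEq hy₀r₂))
  have hRineq : IsIneq863 (TwEq863 U) R := by
    intro a ha b hb ⟨u, hu, hab⟩
    exact hR2 a ha b hb ⟨u, hu, hab⟩
  have hstep6 : ∑ y ∈ R, Φ y * (w y : ℂ) = ∑ y ∈ R₂, Φ y * (w y : ℂ) := by
    have h1 : ∑ y ∈ R, Φ y * (w y : ℂ) = ∑ y ∈ R, F y :=
      Finset.sum_congr rfl (fun y hy => (hFX y (hR1 y hy)).symm)
    have h2 : ∑ y ∈ R₂, Φ y * (w y : ℂ) = ∑ y ∈ R₂, F y :=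
      Finset.sum_congr rfl (fun y hy => (hFX y (hTX y (hR₂T hy))).symm)
    rw [h1, h2]
    exact sum_reps_eq_863 (TwEq863 U) heq F hFcl R R₂ hRineq hR₂ineq hRcov hR₂cov'
  rw [hstep6]
  -- Step 7: the counting lemma at the elements of `R₂`
  have hsame : ∀ r ∈ T, ∀ y ∈ T, TwEq863 U r y → nm863 y = nm863 r := by
    intro r hr y hy ⟨u, hu, hyu⟩
    have h1 : ConjU863 U (nm863 r) (nm863 y) := ⟨u 0, hu 0, by rw [hyu, nm863_act]⟩
    exact (hR''ineq _ (hTmem r hr).1 _ (hTmem y hy).1 h1).symm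
  have hfilter : ∀ r ∈ T, T.filter (fun y => TwEq863 U r y)
      = (Pz (nm863 r)).filter (fun y => TwEq863 U r y) := by
    intro r hr
    ext y
    simp only [Finset.mem_filter]
    constructor
    · rintro ⟨hy, hry⟩
      refine ⟨?_, hry⟩
      have := (hTmem y hy).2
      rwa [hsame r hr y hy hry] at this
    · rintro ⟨hy, hry⟩
      exact ⟨Finset.mem_biUnion.mpr ⟨_, (hTmem r hr).1, hy⟩, hry⟩
  have hcount : ∀ r ∈ T, (W (nm863 r) : ℂ) * ((T.filter (fun y => TwEq863 U r y)).card : ℂ)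
      = (w r : ℂ) := by
    intro r hr
    have h1 := count_863 hC r (hmul _ (hR''O _ (hTmem r hr).1)) Φ hΦinv
      (hPΦ _ r (hTmem r hr).2) (Pz (nm863 r)) (hPn _) (hPi _) (hPc _)
    rw [hfilter r hr, ← Nat.cast_mul]
    exact congrArg _ h1
  -- Step 8
  choose! ρ hρ using hR₂cov
  have hρiff : ∀ y ∈ T, ∀ r ∈ R₂, ρ y = r ↔ TwEq863 U r y := by
    intro y hy r hr
    constructor
    · rintro rfl
      exact heq.symm (hρ y hy).2
    · intro hry
      exact hR₂ineq _ (hρ y hy).1 r hr (heq.trans (heq.symm (hρ y hy).2) (heq.symm hry))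
  have hstep8 : ∑ r ∈ R₂, Φ r * (w r : ℂ) = ∑ y ∈ T, Φ y * (W (nm863 y) : ℂ) := by
    rw [← Finset.sum_fiberwise_of_maps_to (g := ρ) (t := R₂) (fun y hy => (hρ y hy).1)]
    refine Finset.sum_congr rfl (fun r hr => ?_)
    have hrT : r ∈ T := hR₂T hr
    have hfil : T.filter (fun y => ρ y = r) = T.filter (fun y => TwEq863 U r y) := by
      ext y
      simp only [Finset.mem_filter]
      constructor
      · rintro ⟨hy, h⟩
        exact ⟨hy, (hρiff y hy r hr).mp h⟩
      · rintro ⟨hy, h⟩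
        exact ⟨hy, (hρiff y hy r hr).mpr h⟩
    rw [hfil]
    have hconst : ∀ y ∈ T.filter (fun y => TwEq863 U r y),
        Φ y * (W (nm863 y) : ℂ) = Φ r * (W (nm863 r) : ℂ) := by
      intro y hy
      obtain ⟨hyT, hry⟩ := Finset.mem_filter.mp hy
      rw [hsame r hrT y hyT hry, ← hΦcl r y hry]
    rw [Finset.sum_congr rfl hconst, Finset.sum_const, nsmul_eq_mul, ← hcount r hrT]
    ring
  rw [hstep8]
  -- Step 9
  rw [hT, Finset.sum_biUnion]
  · refine Finset.sum_congr rfl (fun z _ => ?_)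
    rw [hPs z, Finset.sum_mul]
    refine Finset.sum_congr rfl (fun y hy => ?_)
    rw [hPn z y hy]
  · intro z _ z' _ hne
    rw [Function.onFun, Finset.disjoint_left]
    intro y hy hy'
    exact hne ((hPn z y hy).symm.trans (hPn z' y hy'))

end Fermat.Agent.LT.T6.H863

end

end
-- ===== PACK-END LT/T6/H863/Assemble.lean

-- ===== PACK-BEGIN LT/T6/H863/DbMono.lean
section



/-!
# Row LT, tower T6, leaf T6.22.B.4 (`DbMonoC683`) -- helper863, OFF-MAIN

**`dbMonoC_863 : Fermat.Agent.LT.T6.H683.DbMonoC683`**, VERBATIM against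
`Fermat/Agent/LT/T6/H683/DarbouxSpec.lean` (helper683, sha256 5201439e...).

The Darboux identity for the monomials `cosh ^ k` from the smooth case and linearity:

* `k = 0`: `1 = L F₀`, `F₀ = log (1 + x)` (`n = 0`), `F₀ = log (1 + x) / 2 - 1 / (1 + x)`
  (`n = ± 1`);
* `k = 1`: `L x = 2 x` (`n = 0`), `L x = 3 x - 1` (`n = ± 1`);
* `k = m + 2`: `L x^{m+2} = (m+2)(m+3) x^{m+2} - (m+2)(m+1) x^m` (`n = 0`),
  `L x^{m+2} = (m+2)(m+4) x^{m+2} - (m+2) x^{m+1} - (m+2)(m+1) x^m` (`n = ± 1`).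

Mathlib + the frozen Spec closure only; every proof is complete.
-/

set_option autoImplicit false

noncomputable section

namespace Fermat.Agent.LT.T6.H863

open Fermat.Agent.LT.T6 Fermat.Agent.LT.T6.H888 Fermat.Agent.LT.T6.H683

/-- The smooth case, for a function given by an explicit formula. -/
theorem db_of_smooth_863 (hS : DbSmoothC683) (n : ℤ) (hn : n = 0 ∨ n = 1 ∨ n = -1)
    (F F' F'' : ℝ → ℝ) (hF : ∀ x : ℝ, 0 < x → HasDerivAt F (F' x) x)
    (hF' : ∀ x : ℝ, 0 < x → HasDerivAt F' (F'' x) x) (hF'' : ContinuousOn F'' (Set.Ioi 0))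
    (g : ℝ → ℂ) (hg : ∀ q : ℝ, g q = ((lop683 n F' F'' (Real.cosh q) : ℝ) : ℂ)) :
    DarbouxAt683 n g := by
  have h := hS n hn F F' F'' hF hF' hF''
  have e : g = fun q => ((lop683 n F' F'' (Real.cosh q) : ℝ) : ℂ) := funext hg
  rw [e]
  exact h

theorem lop_zero_863 (F' F'' : ℝ → ℝ) (x : ℝ) :
    lop683 0 F' F'' x = (x ^ 2 - 1) * F'' x + 2 * x * F' x := by
  unfold lop683
  rw [if_pos rfl]

theorem lop_ne_863 (n : ℤ) (hn : n ≠ 0) (F' F'' : ℝ → ℝ) (x : ℝ) :
    lop683 n F' F'' x = (x ^ 2 - 1) * F'' x + (3 * x - 1) * F' x := by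
  unfold lop683
  rw [if_neg hn]

theorem hda_863 (x : ℝ) : HasDerivAt (fun y : ℝ => 1 + y) 1 x :=
  (hasDerivAt_id x).const_add 1

theorem hda2_863 (x : ℝ) : HasDerivAt (fun y : ℝ => (1 + y) ^ 2) (2 * (1 + x)) x := by
  have h : HasDerivAt (fun y : ℝ => (1 + y) * (1 + y)) (1 * (1 + x) + (1 + x) * 1) x :=
    (hda_863 x).mul (hda_863 x)
  have e : (fun y : ℝ => (1 + y) ^ 2) = fun y : ℝ => (1 + y) * (1 + y) := by
    funext y
    ring
  rw [e]
  exact h.congr_deriv (by ring)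

theorem hpow_863 (m : ℕ) (x : ℝ) :
    HasDerivAt (fun x : ℝ => x ^ (m + 2)) (((m : ℝ) + 2) * x ^ (m + 1)) x := by
  have h := hasDerivAt_pow (m + 2) x
  have e : m + 2 - 1 = m + 1 := rfl
  rw [e] at h
  exact h.congr_deriv (by push_cast; ring)

theorem hpow'_863 (m : ℕ) (x : ℝ) :
    HasDerivAt (fun x : ℝ => ((m : ℝ) + 2) * x ^ (m + 1))
      (((m : ℝ) + 2) * (((m : ℝ) + 1) * x ^ m)) x := by
  have h := (hasDerivAt_pow (m + 1) x).const_mul ((m : ℝ) + 2)
  have e : m + 1 - 1 = m := rfl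
  rw [e] at h
  exact h.congr_deriv (by push_cast; ring)

theorem cont_mono_863 (k : ℕ) :
    ContinuousOn (fun q : ℝ => ((Real.cosh q ^ k : ℝ) : ℂ)) (Set.Ici 0) :=
  (continuous_mono683 k).continuousOn

/-! ### `k = 0` -/

/-- `k = 0`, `n = 0`. -/
theorem db_const_zero_863 (hS : DbSmoothC683) :
    DarbouxAt683 0 (fun q => ((Real.cosh q ^ 0 : ℝ) : ℂ)) := by
  refine db_of_smooth_863 hS 0 (Or.inl rfl) (fun x => Real.log (1 + x)) (fun x => (1 + x)⁻¹)
    (fun x => -((1 + x) ^ 2)⁻¹) ?_ ?_ ?_ _ ?_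
  · intro x hx
    have hx1 : (1 : ℝ) + x ≠ 0 := by positivity
    have h : HasDerivAt (fun y : ℝ => Real.log (1 + y)) (1 / (1 + x)) x :=
      (hda_863 x).log hx1
    exact h.congr_deriv (by field_simp)
  · intro x hx
    have hx1 : (1 : ℝ) + x ≠ 0 := by positivity
    have h : HasDerivAt (fun y : ℝ => (1 + y)⁻¹) (-1 / (1 + x) ^ 2) x := (hda_863 x).inv hx1
    exact h.congr_deriv (by field_simp)
  · refine ContinuousOn.neg (ContinuousOn.inv₀ (by fun_prop) ?_)
    intro x hx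
    have : (0 : ℝ) < x := hx
    positivity
  · intro q
    have hc : (1 : ℝ) + Real.cosh q ≠ 0 := by
      have := Real.cosh_pos q
      positivity
    rw [lop_zero_863]
    congr 1
    field_simp
    ring

/-- `k = 0`, `n ≠ 0`. -/
theorem db_const_ne_863 (hS : DbSmoothC683) (n : ℤ) (hn : n = 0 ∨ n = 1 ∨ n = -1)
    (hn0 : n ≠ 0) : DarbouxAt683 n (fun q => ((Real.cosh q ^ 0 : ℝ) : ℂ)) := by
  refine db_of_smooth_863 hS n hn (fun x => Real.log (1 + x) / 2 - (1 + x)⁻¹)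
    (fun x => (1 + x)⁻¹ / 2 + ((1 + x) ^ 2)⁻¹)
    (fun x => -((1 + x) ^ 2)⁻¹ / 2 - 2 * ((1 + x) ^ 3)⁻¹) ?_ ?_ ?_ _ ?_
  · intro x hx
    have hx1 : (1 : ℝ) + x ≠ 0 := by positivity
    have h1 : HasDerivAt (fun y : ℝ => Real.log (1 + y) / 2) (1 / (1 + x) / 2) x :=
      ((hda_863 x).log hx1).div_const 2
    have h2 : HasDerivAt (fun y : ℝ => (1 + y)⁻¹) (-1 / (1 + x) ^ 2) x := (hda_863 x).inv hx1
    have h : HasDerivAt (fun y : ℝ => Real.log (1 + y) / 2 - (1 + y)⁻¹)
        (1 / (1 + x) / 2 - -1 / (1 + x) ^ 2) x := h1.sub h2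
    exact h.congr_deriv (by field_simp; ring)
  · intro x hx
    have hx1 : (1 : ℝ) + x ≠ 0 := by positivity
    have h1 : HasDerivAt (fun y : ℝ => (1 + y)⁻¹ / 2) (-1 / (1 + x) ^ 2 / 2) x :=
      ((hda_863 x).inv hx1).div_const 2
    have h2 : HasDerivAt (fun y : ℝ => ((1 + y) ^ 2)⁻¹)
        (-(2 * (1 + x)) / ((1 + x) ^ 2) ^ 2) x := (hda2_863 x).inv (pow_ne_zero 2 hx1)
    have h : HasDerivAt (fun y : ℝ => (1 + y)⁻¹ / 2 + ((1 + y) ^ 2)⁻¹)
        (-1 / (1 + x) ^ 2 / 2 + -(2 * (1 + x)) / ((1 + x) ^ 2) ^ 2) x := h1.add h2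
    exact h.congr_deriv (by field_simp; ring)
  · have h1 : ContinuousOn (fun x : ℝ => ((1 + x) ^ 2)⁻¹) (Set.Ioi 0) := by
      refine ContinuousOn.inv₀ (by fun_prop) ?_
      intro x hx
      have : (0 : ℝ) < x := hx
      positivity
    have h2 : ContinuousOn (fun x : ℝ => ((1 + x) ^ 3)⁻¹) (Set.Ioi 0) := by
      refine ContinuousOn.inv₀ (by fun_prop) ?_
      intro x hx
      have : (0 : ℝ) < x := hx
      positivity
    exact ((h1.neg).div_const 2).sub (continuousOn_const.mul h2)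
  · intro q
    have hc : (1 : ℝ) + Real.cosh q ≠ 0 := by
      have := Real.cosh_pos q
      positivity
    rw [lop_ne_863 n hn0]
    congr 1
    field_simp
    ring

theorem db_const_863 (hS : DbSmoothC683) (n : ℤ) (hn : n = 0 ∨ n = 1 ∨ n = -1) :
    DarbouxAt683 n (fun q => ((Real.cosh q ^ 0 : ℝ) : ℂ)) := by
  by_cases hn0 : n = 0
  · subst hn0
    exact db_const_zero_863 hS
  · exact db_const_ne_863 hS n hn hn0

/-! ### `k = 1` -/

theorem db_one_863 (hS : DbSmoothC683) (hLin : DbLinC683) (n : ℤ)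
    (hn : n = 0 ∨ n = 1 ∨ n = -1) :
    DarbouxAt683 n (fun q => ((Real.cosh q ^ 1 : ℝ) : ℂ)) := by
  have h0 := db_const_863 hS n hn
  have hF : ∀ x : ℝ, 0 < x → HasDerivAt (fun x : ℝ => x) ((fun _ : ℝ => (1 : ℝ)) x) x :=
    fun x _ => hasDerivAt_id x
  have hF' : ∀ x : ℝ, 0 < x →
      HasDerivAt (fun _ : ℝ => (1 : ℝ)) ((fun _ : ℝ => (0 : ℝ)) x) x :=
    fun x _ => hasDerivAt_const x 1
  have hF'' : ContinuousOn (fun _ : ℝ => (0 : ℝ)) (Set.Ioi 0) := continuousOn_const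
  by_cases hn0 : n = 0
  · subst hn0
    have hg : DarbouxAt683 0 (fun q => (((2 : ℝ) * Real.cosh q : ℝ) : ℂ)) := by
      refine db_of_smooth_863 hS 0 hn _ _ _ hF hF' hF'' _ (fun q => ?_)
      rw [lop_zero_863]
      congr 1
      ring
    have hgc : ContinuousOn (fun q : ℝ => (((2 : ℝ) * Real.cosh q : ℝ) : ℂ)) (Set.Ici 0) :=
      (Complex.continuous_ofReal.comp (by fun_prop)).continuousOn
    have h := hLin 0 hn _ _ hgc (cont_mono_863 0) (1 / 2) 0 hg h0
    have e : (fun q : ℝ => ((Real.cosh q ^ 1 : ℝ) : ℂ))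
        = fun q => (1 / 2 : ℂ) * (((2 : ℝ) * Real.cosh q : ℝ) : ℂ)
            + 0 * ((Real.cosh q ^ 0 : ℝ) : ℂ) := by
      funext q
      push_cast
      ring
    rw [e]
    exact h
  · have hg : DarbouxAt683 n (fun q => (((3 : ℝ) * Real.cosh q - 1 : ℝ) : ℂ)) := by
      refine db_of_smooth_863 hS n hn _ _ _ hF hF' hF'' _ (fun q => ?_)
      rw [lop_ne_863 n hn0]
      congr 1
      ring
    have hgc : ContinuousOn (fun q : ℝ => (((3 : ℝ) * Real.cosh q - 1 : ℝ) : ℂ))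
        (Set.Ici 0) :=
      (Complex.continuous_ofReal.comp (by fun_prop)).continuousOn
    have h := hLin n hn _ _ hgc (cont_mono_863 0) (1 / 3) (1 / 3) hg h0
    have e : (fun q : ℝ => ((Real.cosh q ^ 1 : ℝ) : ℂ))
        = fun q => (1 / 3 : ℂ) * (((3 : ℝ) * Real.cosh q - 1 : ℝ) : ℂ)
            + (1 / 3 : ℂ) * ((Real.cosh q ^ 0 : ℝ) : ℂ) := by
      funext q
      push_cast
      ring
    rw [e]
    exact h

/-! ### `k = m + 2` -/

theorem db_step_863 (hS : DbSmoothC683) (hLin : DbLinC683) (n : ℤ)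
    (hn : n = 0 ∨ n = 1 ∨ n = -1) (m : ℕ)
    (hm : DarbouxAt683 n (fun q => ((Real.cosh q ^ m : ℝ) : ℂ)))
    (hm1 : DarbouxAt683 n (fun q => ((Real.cosh q ^ (m + 1) : ℝ) : ℂ))) :
    DarbouxAt683 n (fun q => ((Real.cosh q ^ (m + 2) : ℝ) : ℂ)) := by
  have hF : ∀ x : ℝ, 0 < x →
      HasDerivAt (fun x : ℝ => x ^ (m + 2)) ((fun x : ℝ => ((m : ℝ) + 2) * x ^ (m + 1)) x) x :=
    fun x _ => hpow_863 m x
  have hF' : ∀ x : ℝ, 0 < x →
      HasDerivAt (fun x : ℝ => ((m : ℝ) + 2) * x ^ (m + 1))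
        ((fun x : ℝ => ((m : ℝ) + 2) * (((m : ℝ) + 1) * x ^ m)) x) x :=
    fun x _ => hpow'_863 m x
  have hF'' : ContinuousOn (fun x : ℝ => ((m : ℝ) + 2) * (((m : ℝ) + 1) * x ^ m))
      (Set.Ioi 0) := by fun_prop
  have hm2 : ((m : ℂ) + 2) ≠ 0 := by
    have h : ((m : ℂ) + 2) = ((m + 2 : ℕ) : ℂ) := by push_cast; ring
    rw [h]
    exact Nat.cast_ne_zero.mpr (by omega)
  have hm3 : ((m : ℂ) + 3) ≠ 0 := by
    have h : ((m : ℂ) + 3) = ((m + 3 : ℕ) : ℂ) := by push_cast; ring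
    rw [h]
    exact Nat.cast_ne_zero.mpr (by omega)
  have hm4 : ((m : ℂ) + 4) ≠ 0 := by
    have h : ((m : ℂ) + 4) = ((m + 4 : ℕ) : ℂ) := by push_cast; ring
    rw [h]
    exact Nat.cast_ne_zero.mpr (by omega)
  by_cases hn0 : n = 0
  · subst hn0
    have hg : DarbouxAt683 0 (fun q => (((((m : ℝ) + 2) * ((m : ℝ) + 3)) * Real.cosh q ^ (m + 2)
        - (((m : ℝ) + 2) * ((m : ℝ) + 1)) * Real.cosh q ^ m : ℝ) : ℂ)) := by
      refine db_of_smooth_863 hS 0 hn _ _ _ hF hF' hF'' _ (fun q => ?_)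
      rw [lop_zero_863]
      congr 1
      ring
    have hgc : ContinuousOn (fun q : ℝ =>
        (((((m : ℝ) + 2) * ((m : ℝ) + 3)) * Real.cosh q ^ (m + 2)
          - (((m : ℝ) + 2) * ((m : ℝ) + 1)) * Real.cosh q ^ m : ℝ) : ℂ)) (Set.Ici 0) :=
      (Complex.continuous_ofReal.comp (by fun_prop)).continuousOn
    have h := hLin 0 hn _ _ hgc (cont_mono_863 m)
      (1 / (((m : ℂ) + 2) * ((m : ℂ) + 3))) (((m : ℂ) + 1) / ((m : ℂ) + 3)) hg hm
    have e : (fun q : ℝ => ((Real.cosh q ^ (m + 2) : ℝ) : ℂ))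
        = fun q => (1 / (((m : ℂ) + 2) * ((m : ℂ) + 3)))
            * (((((m : ℝ) + 2) * ((m : ℝ) + 3)) * Real.cosh q ^ (m + 2)
              - (((m : ℝ) + 2) * ((m : ℝ) + 1)) * Real.cosh q ^ m : ℝ) : ℂ)
          + (((m : ℂ) + 1) / ((m : ℂ) + 3)) * ((Real.cosh q ^ m : ℝ) : ℂ) := by
      funext q
      push_cast
      field_simp
      ring
    rw [e]
    exact h
  · have hg : DarbouxAt683 n (fun q => (((((m : ℝ) + 2) * ((m : ℝ) + 4)) * Real.cosh q ^ (m + 2)
        - ((m : ℝ) + 2) * Real.cosh q ^ (m + 1)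
        - (((m : ℝ) + 2) * ((m : ℝ) + 1)) * Real.cosh q ^ m : ℝ) : ℂ)) := by
      refine db_of_smooth_863 hS n hn _ _ _ hF hF' hF'' _ (fun q => ?_)
      rw [lop_ne_863 n hn0]
      congr 1
      ring
    have hgc : ContinuousOn (fun q : ℝ =>
        (((((m : ℝ) + 2) * ((m : ℝ) + 4)) * Real.cosh q ^ (m + 2)
          - ((m : ℝ) + 2) * Real.cosh q ^ (m + 1)
          - (((m : ℝ) + 2) * ((m : ℝ) + 1)) * Real.cosh q ^ m : ℝ) : ℂ)) (Set.Ici 0) :=
      (Complex.continuous_ofReal.comp (by fun_prop)).continuousOn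
    -- the lower order part
    have hlow := hLin n hn _ _ (cont_mono_863 (m + 1)) (cont_mono_863 m)
      (1 / ((m : ℂ) + 4)) (((m : ℂ) + 1) / ((m : ℂ) + 4)) hm1 hm
    have hlowc : ContinuousOn (fun q : ℝ =>
        (1 / ((m : ℂ) + 4)) * ((Real.cosh q ^ (m + 1) : ℝ) : ℂ)
          + (((m : ℂ) + 1) / ((m : ℂ) + 4)) * ((Real.cosh q ^ m : ℝ) : ℂ)) (Set.Ici 0) :=
      ((continuous_const.mul (continuous_mono683 (m + 1))).add
        (continuous_const.mul (continuous_mono683 m))).continuousOn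
    have h := hLin n hn _ _ hgc hlowc (1 / (((m : ℂ) + 2) * ((m : ℂ) + 4))) 1 hg hlow
    have e : (fun q : ℝ => ((Real.cosh q ^ (m + 2) : ℝ) : ℂ))
        = fun q => (1 / (((m : ℂ) + 2) * ((m : ℂ) + 4)))
            * (((((m : ℝ) + 2) * ((m : ℝ) + 4)) * Real.cosh q ^ (m + 2)
              - ((m : ℝ) + 2) * Real.cosh q ^ (m + 1)
              - (((m : ℝ) + 2) * ((m : ℝ) + 1)) * Real.cosh q ^ m : ℝ) : ℂ)
          + 1 * ((1 / ((m : ℂ) + 4)) * ((Real.cosh q ^ (m + 1) : ℝ) : ℂ)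
            + (((m : ℂ) + 1) / ((m : ℂ) + 4)) * ((Real.cosh q ^ m : ℝ) : ℂ)) := by
      funext q
      push_cast
      field_simp
      ring
    rw [e]
    exact h

/-- **Leaf D.4 (MONOMIALS), `DbMonoC683`.** -/
theorem dbMonoC_863 : DbMonoC683 := by
  intro hS hLin n hn k
  have hall : ∀ m : ℕ, DarbouxAt683 n (fun q => ((Real.cosh q ^ m : ℝ) : ℂ)) ∧
      DarbouxAt683 n (fun q => ((Real.cosh q ^ (m + 1) : ℝ) : ℂ)) := by
    intro m
    induction m with
    | zero => exact ⟨db_const_863 hS n hn, db_one_863 hS hLin n hn⟩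
    | succ m ih => exact ⟨ih.2, db_step_863 hS hLin n hn m ih.1 ih.2⟩
  exact (hall k).1

end Fermat.Agent.LT.T6.H863

end

end
-- ===== PACK-END LT/T6/H863/DbMono.lean

-- ===== PACK-BEGIN LT/T6/Inf/Bridge.lean
section



/-!
# Row LT, sub-tower T6inf (helper19): BRIDGES between the v1 forms and the v2 forms of
# `LT/T6/Inf/Spec.lean` v3

OFF-MAIN.  Everything here is PROVED (no hole, nothing assumed).

* `wt_neg_one19`            : `wt (-1) θ = Complex.exp (-(Complex.I * θ))`;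
* `meanValueWtOne_iff_v1_19`: `MeanValueWtOne e ↔ MeanValueWtOneV1 e`;
* `wtOneHolC_iff_v1_19`     : `WtOneHolC ↔ WtOneHolCV1`.

So a proof of D3 written against v1 (`H157/HolSpec.lean`) and one written against v2
(`H261/D3Top.lean`) prove THE SAME Prop `Inf.WtOneHolC` of v3.
-/

set_option autoImplicit false

open IsDedekindDomain NumberField MeasureTheory
open UpperHalfPlane
open scoped ContDiff Manifold Matrix

noncomputable section

namespace Fermat.Agent.LT.T6.Inf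

open Fermat.Agent.LT.H556 Fermat.Agent.LT.H670

/-- The phase of v1 is the phase of v2. -/
theorem wt_neg_one19 (θ : ℝ) : wt (-1) θ = Complex.exp (-(Complex.I * ((θ : ℝ) : ℂ))) := by
  unfold wt
  congr 1
  push_cast
  ring

/-- The two spellings of the weight-one mean value property agree. -/
theorem meanValueWtOne_iff_v1_19 (e : A0.G ℚ → ℂ) : MeanValueWtOne e ↔ MeanValueWtOneV1 e := by
  unfold MeanValueWtOne MeanValueWtOneV1
  simp only [wt_neg_one19]

/-- **D3: the v1 form and the v2 form are the same statement.** -/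
theorem wtOneHolC_iff_v1_19 : WtOneHolC ↔ WtOneHolCV1 := by
  unfold WtOneHolC WtOneHolCV1
  simp only [meanValueWtOne_iff_v1_19]

end Fermat.Agent.LT.T6.Inf

end

end
-- ===== PACK-END LT/T6/Inf/Bridge.lean

-- ===== PACK-BEGIN LT/T6/Inf/H59/Class0Spec.lean
section



/-!
# Row LT, sub-tower T6inf, leaf T6inf.03 `ClassR0C`: SUB-SPEC (helper59), OFF-MAIN

Definitions + frozen sub-leaf Props of `Inf.ClassR0C` (`LT/T6/Inf/Spec.lean` of helper19).
Mathlib + `T6/Inf/Spec.lean` only.  The PROVED top is in `Class0Top.lean`: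

* `classR0_of_leaves59 : RegC59 → CartanRC59 → FunEqC59 → OdeC59 → PsOdeC59 → OdeUniqC59 →
    Inf.ClassR0C`.

## Notation

`k_θ = kR59 θ`, `a_t = aR59 t` (elements of `GL₂(ℝ)` with the matrices `rotR θ`, `torR t`),
`prof59 E g t = ∫₀^{2π} E(g k_θ a_t) dθ` (the circle mean of radius `t` around `g`),
`dist59 r t θ = arcosh(cosh r cosh t + sinh r sinh t cos 2θ)` (the radius of `a_r k_θ a_t`).

## The proof of `ClassR0C` (classical: Helgason, GGA IV §2; Lang, SL₂(ℝ), IV §§ 2-4)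

`e` continuous, `e(g₀) ≠ 0`, right `SO(2)`-invariant, `∫₀^{2π} e(g k_θ a_t) dθ = m(t) e(g)`, `t > 0`.

1. **REG** (`RegC59`): regularise on the LEFT, `E(g) = ∫ ψ(y) e(y⁻¹ g) dy = ∫ ψ(g w) e(w⁻¹) dw`
   (`ψ ≥ 0` a smooth bump at `1` with small support; `dy` a left Haar measure of `GL₂(ℝ)`, or
   Lebesgue measure on `M₂(ℝ)`: `E(g) = ∫_{M₂(ℝ)} B(g x) e(x⁻¹) dx = |det g|⁻² ∫ B(y) e(y⁻¹ g) dy`).
   Left translations commute with the circle means and preserve the right `SO(2)`-invariance, so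
   `E` is again a joint eigenfunction with THE SAME `m`, `E(g₀) ≠ 0` if the support of `ψ` is
   small, and `g` enters only through the smooth kernel: `t ↦ ∫₀^{2π} E(g₀ k_θ a_t) dθ` is `C²`
   (differentiation under the two integral signs; supports in a fixed compact set).
2. **FUN-EQ** (`FunEqC59`, with `CartanRC59`): `M(t) = prof59 E g₀ t / E(g₀)` (`= m(t)` for
   `t > 0`, `M(0) = 2π`, `M` even: `a_{-t} = k_{π/2} a_t k_{π/2}⁻¹`) satisfies
   `M(r) M(t) = ∫₀^{2π} M(dist59 r t θ) dθ` for ALL real `r`, `t`: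
   `∫_η ∫_θ E(g₀ k_η a_r k_θ a_t) dθ dη = M(t) M(r) E(g₀)` (eigen-equation twice), and in the other
   order, with `a_r k_θ a_t = k_α a_D k_β` (`CartanRC59`, `D = dist59 r t θ`: `chR(a_r k_θ a_t) =
   cosh r cosh t + sinh r sinh t cos 2θ`), `∫_η E(g₀ k_η k_α a_D k_β) dη = prof59 E g₀ D`
   (periodicity, right invariance).
3. **ODE** (`OdeC59`; one real variable, Mathlib only): second derivative in `r` at `r = 0` of the
   functional equation, `t > 0` fixed: `D(0) = t`, `∂_r D(0) = c`, `∂_r² D(0) = coth t (1 - c²)`,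
   `c = cos 2θ` (from `cosh D = cosh r cosh t + sinh r sinh t c`; `arcosh` is smooth near
   `cosh t > 1`), `∫ c² = ∫ (1 - c²) = π`:  `M''(0) M(t) = π (M''(t) + coth t M'(t))`.
4. **PS-ODE** (`PsOdeC59`): `P_s` is continuous, `P_s(0) = 1`, and
   `P_s'' + coth t P_s' = (s² - 1/4) P_s` on `t > 0`: with `h = cosh t + sinh t cos u`, `ν = s - 1/2`:
   `h_tt = h`, `h² - h_t² = sin² u`, `h_u = - sinh t sin u`, one integration by parts in `u`
   (checked numerically, residual `1e-7`).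
5. **ODE-UNIQ** (`OdeUniqC59`; regular singular point): `(sinh t · y')' = λ sinh t · y`;
   `sinh ε · y'(ε) → C` as `ε → 0`, and `C ≠ 0` would give `y ∼ C log t`, unbounded; so
   `sinh t · y'(t) = λ ∫₀ᵗ sinh x · y(x) dx`, `|y'(t)| ≤ |λ| t sup_{(0,t]} |y|`,
   `sup_{(0,t₀]} |y| ≤ |λ| t₀² / 2 · sup_{(0,t₀]} |y|`: `y = 0` on `(0, t₀]`, then everywhere
   (`ODE_solution_unique` on `[t₀, ∞)`, or Gronwall).
6. **TOP**: `λ = s² - 1/4` (`ℂ` is algebraically closed), `y = M - 2π P_s`, `y(0) = 0`.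
-/

set_option autoImplicit false

open MeasureTheory
open scoped ContDiff Matrix

noncomputable section

namespace Fermat.Agent.LT.T6.Inf.H59

open Fermat.Agent.LT.T6.Inf

/-! ## Definitions -/

/-- `k_θ` as an element of `GL₂(ℝ)` (matrix `rotR θ`, inverse `rotR (-θ)`). -/
def kR59 (θ : ℝ) : GR :=
  ⟨rotR θ, rotR (-θ),
    by
      ext i j
      fin_cases i <;> fin_cases j <;>
        simp [rotR, Matrix.mul_apply, Fin.sum_univ_two, Real.cos_neg, Real.sin_neg] <;>
        nlinarith [Real.sin_sq_add_cos_sq θ],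
    by
      ext i j
      fin_cases i <;> fin_cases j <;>
        simp [rotR, Matrix.mul_apply, Fin.sum_univ_two, Real.cos_neg, Real.sin_neg] <;>
        nlinarith [Real.sin_sq_add_cos_sq θ]⟩

/-- `a_t` as an element of `GL₂(ℝ)` (matrix `torR t`, inverse `torR (-t)`). -/
def aR59 (t : ℝ) : GR :=
  ⟨torR t, torR (-t),
    by
      ext i j
      fin_cases i <;> fin_cases j <;>
        simp [torR, Matrix.mul_apply, Fin.sum_univ_two, ← Real.exp_add] <;> ring,
    by
      ext i j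
      fin_cases i <;> fin_cases j <;>
        simp [torR, Matrix.mul_apply, Fin.sum_univ_two, ← Real.exp_add] <;> ring⟩

@[simp] theorem coe_kR59 (θ : ℝ) : ((kR59 θ : GR) : Matrix (Fin 2) (Fin 2) ℝ) = rotR θ := rfl

@[simp] theorem coe_aR59 (t : ℝ) : ((aR59 t : GR) : Matrix (Fin 2) (Fin 2) ℝ) = torR t := rfl

/-- The circle mean of radius `t` of `E` around `g`: `∫₀^{2π} E(g k_θ a_t) dθ`. -/
def prof59 (E : GR → ℂ) (g : GR) (t : ℝ) : ℂ :=
  ∫ θ in (0 : ℝ)..(2 * Real.pi), E (g * kR59 θ * aR59 t)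

/-- The radius of `a_r k_θ a_t`: `arcosh(cosh r cosh t + sinh r sinh t cos 2θ)`. -/
def dist59 (r t θ : ℝ) : ℝ :=
  Real.arcosh (Real.cosh r * Real.cosh t + Real.sinh r * Real.sinh t * Real.cos (2 * θ))

/-- The functional equation of the (unnormalised) spherical functions:
`M(r) M(t) = ∫₀^{2π} M(dist59 r t θ) dθ` for all real `r`, `t`. -/
def IsSph59 (M : ℝ → ℂ) : Prop :=
  ∀ r t : ℝ, M r * M t = ∫ θ in (0 : ℝ)..(2 * Real.pi), M (dist59 r t θ)

/-! ## The sub-leaves -/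

/-- **T6inf.03a REG (regularisation on the left).**  A continuous right `SO(2)`-invariant joint
eigenfunction `e` of the circle means, `e(g₀) ≠ 0`, can be replaced by one, `E`, with the same
eigenvalue function, `E(g₀) ≠ 0`, whose circle means around `g₀` are a `C²` function of the
radius.  (Header, step 1.) -/
def RegC59 : Prop :=
  ∀ (e : GR → ℂ) (m : ℝ → ℂ), Continuous e → HasWeight 0 e → MeanEig 0 e m →
    ∀ g₀ : GR, e g₀ ≠ 0 →
      ∃ E : GR → ℂ, Continuous E ∧ E g₀ ≠ 0 ∧ HasWeight 0 E ∧ MeanEig 0 E m ∧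
        ContDiff ℝ 2 (fun t : ℝ => prof59 E g₀ t)

/-- **T6inf.03b CARTAN (`KAK` decomposition of `SL₂(ℝ)`).**  Every `g ∈ GL₂(ℝ)` of determinant
`1` is `k_α a_D k_β` with `cosh D = chR g = tr(g gᵀ) / 2`, `D ≥ 0`.
(`g gᵀ` is symmetric positive definite of determinant `1`: `g gᵀ = k_α diag(e^D, e^{-D}) k_α⁻¹`;
`a_D⁻¹ k_α⁻¹ g` is orthogonal of determinant `1`, i.e. a rotation.) -/
def CartanRC59 : Prop :=
  ∀ g : GR, (g : Matrix (Fin 2) (Fin 2) ℝ).det = 1 →
    ∃ α β : ℝ, g = kR59 α * aR59 (Real.arcosh (chR g)) * kR59 β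

/-- **T6inf.03c FUN-EQ (the functional equation).**  For a continuous right `SO(2)`-invariant
joint eigenfunction `E` of the circle means with `E(g₀) ≠ 0`, the normalised circle means
`M(t) = prof59 E g₀ t / E(g₀)` satisfy `M(r) M(t) = ∫₀^{2π} M(dist59 r t θ) dθ` for all real
`r`, `t`.  (Header, step 2.) -/
def FunEqC59 : Prop :=
  CartanRC59 →
  ∀ (E : GR → ℂ) (m : ℝ → ℂ), Continuous E → HasWeight 0 E → MeanEig 0 E m →
    ∀ g₀ : GR, E g₀ ≠ 0 → IsSph59 (fun t : ℝ => prof59 E g₀ t / E g₀)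

/-- **T6inf.03d ODE (Mathlib only, one real variable).**  A `C²` solution `M` of the functional
equation with `M(0) = 2π` satisfies `M'' + coth t · M' = λ M` on `t > 0` for some `λ ∈ ℂ`
(`λ = M''(0) / π`).  (Header, step 3.) -/
def OdeC59 : Prop :=
  ∀ M : ℝ → ℂ, ContDiff ℝ 2 M → M 0 = ((2 * Real.pi : ℝ) : ℂ) → IsSph59 M →
    ∃ lam : ℂ, ∀ t : ℝ, 0 < t →
      iteratedDeriv 2 M t + ((Real.cosh t / Real.sinh t : ℝ) : ℂ) * deriv M t = lam * M t

/-- **T6inf.03e PS-ODE (Mathlib only).**  `P_s` is continuous, `P_s(0) = 1`, differentiable on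
`t > 0` with `P_s'' + coth t · P_s' = (s² - 1/4) P_s`.  (Header, step 4.) -/
def PsOdeC59 : Prop :=
  ∀ s : ℂ, sphP s 0 = 1 ∧ Continuous (fun t : ℝ => sphP s t) ∧
    ∃ P' : ℝ → ℂ, (∀ t : ℝ, 0 < t → HasDerivAt (fun t : ℝ => sphP s t) (P' t) t) ∧
      ∀ t : ℝ, 0 < t →
        HasDerivAt P'
          ((s ^ 2 - 1 / 4) * sphP s t - ((Real.cosh t / Real.sinh t : ℝ) : ℂ) * P' t) t

/-- **T6inf.03f ODE-UNIQ (Mathlib only; regular singular point).**  A solution of
`y'' + coth t · y' = λ y` on `t > 0` which tends to `0` at `0` vanishes.  (Header, step 5.) -/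
def OdeUniqC59 : Prop :=
  ∀ (lam : ℂ) (y y' : ℝ → ℂ), ContinuousWithinAt y (Set.Ici 0) 0 → y 0 = 0 →
    (∀ t : ℝ, 0 < t → HasDerivAt y (y' t) t) →
    (∀ t : ℝ, 0 < t →
      HasDerivAt y' (lam * y t - ((Real.cosh t / Real.sinh t : ℝ) : ℂ) * y' t) t) →
    ∀ t : ℝ, 0 < t → y t = 0

end Fermat.Agent.LT.T6.Inf.H59

end

end
-- ===== PACK-END LT/T6/Inf/H59/Class0Spec.lean

-- ===== PACK-BEGIN LT/T2/H793/RayGen.lean
section




/-!
# Row LT, tower T2, leaf T2.34 `LeafT14` (helper793, OFF-MAIN)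

The ray generator exists and is the product of its local components:

* `exists_isRayGen793 : ∃ r : G K, T2.IsRayGen r`  (`t = 2^{1/(2[K:ℚ])}`),
* `rayOfArch793 : T2.RayOfArch K`,
* `leafT14_793 : T2.LeafT14 K`  (VERBATIM vs `T2/SpecTau.lean`, helper130@e2e090185,
  sha256 4d2b0fc2).

Tools: `T1/H793/AdeleProj.lean` (`glMk793`, `gl_ext793`).  Mathlib + A0 only.
-/

set_option autoImplicit false

open IsDedekindDomain NumberField
open Fermat.Agent.LT.H556.A0
open Fermat.Agent.LT.T1.H793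

noncomputable section

namespace Fermat.Agent.LT.T2.H793

open Classical

variable {K : Type} [Field K] [NumberField K]

omit [NumberField K] in
/-- Every real number is a value of the embedding of the completion at an infinite place. -/
lemma exists_extensionEmbedding_eq793 (w : InfinitePlace K) (t : ℝ) :
    ∃ x : w.Completion, InfinitePlace.Completion.extensionEmbedding w x = (t : ℂ) := by
  rcases w.isReal_or_isComplex with hw | hw
  · set e := InfinitePlace.Completion.ringEquivRealOfIsReal hw with he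
    refine ⟨e.symm t, ?_⟩
    rw [← InfinitePlace.Completion.extensionEmbeddingOfIsReal_apply hw]
    have : InfinitePlace.Completion.extensionEmbeddingOfIsReal hw (e.symm t) = t :=
      e.apply_symm_apply t
    rw [this]
  · set e := InfinitePlace.Completion.ringEquivComplexOfIsComplex hw with he
    exact ⟨e.symm (t : ℂ), e.apply_symm_apply _⟩

/-- The scalar matrix of a unit. -/
def scal793 {R : Type} [CommRing R] (c : Rˣ) : GL (Fin 2) R :=
  Units.map (Matrix.scalar (Fin 2)).toMonoidHom c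

lemma scal793_coe {R : Type} [CommRing R] (c : Rˣ) :
    ((scal793 c : GL (Fin 2) R) : Matrix (Fin 2) (Fin 2) R)
      = Matrix.diagonal (fun _ => (c : R)) := rfl

lemma one_integral793 (v : HeightOneSpectrum (𝓞 K)) (i j : Fin 2) :
    ((1 : GL (Fin 2) (v.adicCompletion K)) : Matrix (Fin 2) (Fin 2) (v.adicCompletion K)) i j
      ∈ v.adicCompletionIntegers K := by
  rw [Units.val_one, Matrix.one_apply]
  split_ifs
  · exact one_mem _
  · exact zero_mem _

lemma one_inv_integral793 (v : HeightOneSpectrum (𝓞 K)) (i j : Fin 2) :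
    (((1 : GL (Fin 2) (v.adicCompletion K))⁻¹ : GL (Fin 2) (v.adicCompletion K)) :
      Matrix (Fin 2) (Fin 2) (v.adicCompletion K)) i j ∈ v.adicCompletionIntegers K := by
  rw [inv_one]
  exact one_integral793 v i j

/-- The element of `GL₂(𝔸_K)` which is the scalar `c w` at the infinite places `w ∈ S` and the
identity at all other places. -/
def rayS793 (c : ∀ w : InfinitePlace K, (w.Completion)ˣ) (S : Finset (InfinitePlace K)) : G K :=
  glMk793 (fun w => if w ∈ S then scal793 (c w) else 1) (fun _ => 1)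
    (fun v i j => one_integral793 v i j) (fun v i j => one_inv_integral793 v i j)

lemma glInf793_rayS (c : ∀ w : InfinitePlace K, (w.Completion)ˣ)
    (S : Finset (InfinitePlace K)) (w : InfinitePlace K) :
    glInf793 w (rayS793 c S) = if w ∈ S then scal793 (c w) else 1 :=
  glInf793_glMk _ _ _ _ w

lemma glFin793_rayS (c : ∀ w : InfinitePlace K, (w.Completion)ˣ)
    (S : Finset (InfinitePlace K)) (v : HeightOneSpectrum (𝓞 K)) :
    glFin793 v (rayS793 c S) = 1 :=
  glFin793_glMk _ _ _ _ v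

lemma rayS793_empty (c : ∀ w : InfinitePlace K, (w.Completion)ˣ) : rayS793 c ∅ = 1 := by
  refine gl_ext793 (fun w => ?_) (fun v => ?_)
  · rw [glInf793_rayS, map_one]
    simp
  · rw [glFin793_rayS, map_one]

lemma rayS793_insert (c : ∀ w : InfinitePlace K, (w.Completion)ˣ)
    (S : Finset (InfinitePlace K)) (w : InfinitePlace K) (hw : w ∉ S) :
    rayS793 c (insert w S) = rayS793 c S * rayS793 c {w} := by
  refine gl_ext793 (fun w' => ?_) (fun v => ?_)
  · rw [map_mul, glInf793_rayS, glInf793_rayS, glInf793_rayS]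
    by_cases h : w' = w
    · subst h
      simp [hw]
    · by_cases h' : w' ∈ S
      · simp [h, h']
      · simp [h, h']
  · rw [map_mul, glFin793_rayS, glFin793_rayS, glFin793_rayS, mul_one]

lemma trivAtFin_rayS793 (c : ∀ w : InfinitePlace K, (w.Completion)ˣ)
    (S : Finset (InfinitePlace K)) (v : HeightOneSpectrum (𝓞 K)) :
    TrivAtFin v (rayS793 c S) := by
  unfold TrivAtFin
  rw [finComp_eq793, glFin793_rayS, Units.val_one]

lemma infComp_rayS793 (c : ∀ w : InfinitePlace K, (w.Completion)ˣ)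
    (S : Finset (InfinitePlace K)) (w : InfinitePlace K) (hw : w ∈ S) (t : ℝ)
    (ht : InfinitePlace.Completion.extensionEmbedding w (c w : w.Completion) = (t : ℂ)) :
    infComp w (rayS793 c S) = Matrix.diagonal (fun _ => (t : ℂ)) := by
  rw [infComp_eq793, glInf793_rayS, if_pos hw, scal793_coe]
  ext i j
  rw [Matrix.map_apply, Matrix.diagonal_apply, Matrix.diagonal_apply]
  split_ifs
  · exact ht
  · exact map_zero _

lemma trivAtInf_rayS793 (c : ∀ w : InfinitePlace K, (w.Completion)ˣ)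
    (S : Finset (InfinitePlace K)) (w : InfinitePlace K) (hw : w ∉ S) :
    TrivAtInf w (rayS793 c S) := by
  intro i j
  have h := glInf793_rayS c S w
  rw [if_neg hw] at h
  have h2 := congrArg (fun x : GL (Fin 2) w.Completion =>
    (x : Matrix (Fin 2) (Fin 2) w.Completion) i j) h
  simp only [glInf793_coe, Matrix.map_apply, projInf793_apply, Units.val_one] at h2
  exact h2

lemma isArchPosScalar_rayS793 (c : ∀ w : InfinitePlace K, (w.Completion)ˣ)
    (w : InfinitePlace K) (t : ℝ) (ht0 : 0 < t)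
    (ht : InfinitePlace.Completion.extensionEmbedding w (c w : w.Completion) = (t : ℂ)) :
    IsArchPosScalar w (rayS793 c {w}) := by
  refine ⟨⟨fun w' hw' => trivAtInf_rayS793 c {w} w' (by simpa using hw'),
    fun v => trivAtFin_rayS793 c {w} v⟩, t, ht0, ?_⟩
  exact infComp_rayS793 c {w} w (by simp) t ht

/-- Invariance under the local positive scalars gives invariance under their products. -/
lemma invariant_rayS793 (φ : G K → ℂ)
    (hφ : ∀ (w : InfinitePlace K) (z : G K), IsArchPosScalar w z → ∀ g : G K, φ (g * z) = φ g)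
    (c : ∀ w : InfinitePlace K, (w.Completion)ˣ) (t : ℝ) (ht0 : 0 < t)
    (ht : ∀ w : InfinitePlace K,
      InfinitePlace.Completion.extensionEmbedding w (c w : w.Completion) = (t : ℂ))
    (S : Finset (InfinitePlace K)) (g : G K) : φ (g * rayS793 c S) = φ g := by
  induction S using Finset.induction_on generalizing g with
  | empty => rw [rayS793_empty, mul_one]
  | insert w S hw ih =>
    rw [rayS793_insert c S w hw, ← mul_assoc,
      hφ w _ (isArchPosScalar_rayS793 c w t ht0 (ht w)) (g * rayS793 c S), ih g]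

omit [NumberField K] in
/-- Units of the completions with image `t` under the embeddings. -/
lemma exists_units793 (t : ℝ) (ht0 : 0 < t) :
    ∃ c : ∀ w : InfinitePlace K, (w.Completion)ˣ, ∀ w : InfinitePlace K,
      InfinitePlace.Completion.extensionEmbedding w (c w : w.Completion) = (t : ℂ) := by
  have h : ∀ w : InfinitePlace K, ∃ c : (w.Completion)ˣ,
      InfinitePlace.Completion.extensionEmbedding w (c : w.Completion) = (t : ℂ) := by
    intro w
    obtain ⟨x, hx⟩ := exists_extensionEmbedding_eq793 w t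
    have hx0 : x ≠ 0 := by
      intro h0
      rw [h0, map_zero] at hx
      have : (t : ℂ) ≠ 0 := by exact_mod_cast ht0.ne'
      exact this hx.symm
    exact ⟨Units.mk0 x hx0, hx⟩
  choose c hc using h
  exact ⟨c, hc⟩

/-- A ray element is the product of its local components. -/
lemma eq_rayS793_univ (r : G K) (hfin : ∀ v : HeightOneSpectrum (𝓞 K), TrivAtFin v r)
    (c : ∀ w : InfinitePlace K, (w.Completion)ˣ) (t : ℝ)
    (ht : ∀ w : InfinitePlace K,
      InfinitePlace.Completion.extensionEmbedding w (c w : w.Completion) = (t : ℂ))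
    (hr : ∀ w : InfinitePlace K, infComp w r = Matrix.diagonal (fun _ => (t : ℂ))) :
    r = rayS793 c Finset.univ := by
  refine gl_ext793 (fun w => ?_) (fun v => ?_)
  · rw [glInf793_rayS, if_pos (Finset.mem_univ w)]
    apply Units.ext
    refine Matrix.ext fun i j => ?_
    have hinj : Function.Injective (InfinitePlace.Completion.extensionEmbedding w) :=
      (InfinitePlace.Completion.extensionEmbedding w).injective
    apply hinj
    have h1 := congrFun (congrFun (hr w) i) j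
    rw [infComp_eq793, Matrix.map_apply] at h1
    rw [h1, scal793_coe, Matrix.diagonal_apply, Matrix.diagonal_apply]
    split_ifs
    · exact (ht w).symm
    · exact (map_zero _).symm
  · rw [glFin793_rayS]
    apply Units.ext
    have := hfin v
    unfold TrivAtFin at this
    rw [finComp_eq793] at this
    rw [this, Units.val_one]

/-- **The invariance of A0 implies the invariance under the ray generator.** -/
theorem rayOfArch793 (K : Type) [Field K] [NumberField K] : RayOfArch K := by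
  intro φ hφ r hr g
  obtain ⟨hfin, t, ht0, -, hinf⟩ := hr
  obtain ⟨c, hc⟩ := exists_units793 (K := K) t ht0
  rw [eq_rayS793_univ r hfin c t hc hinf]
  exact invariant_rayS793 φ hφ c t ht0 hc Finset.univ g

/-- **The ray generator exists.** -/
theorem exists_isRayGen793 (K : Type) [Field K] [NumberField K] : ∃ r : G K, IsRayGen r := by
  set n : ℕ := Module.finrank ℚ K with hn
  have hn0 : 0 < n := Module.finrank_pos
  set t : ℝ := (2 : ℝ) ^ ((1 : ℝ) / ((2 * n : ℕ) : ℝ)) with ht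
  have ht0 : 0 < t := Real.rpow_pos_of_pos (by norm_num) _
  have htpow : t ^ (2 * n) = 2 := by
    rw [ht, ← Real.rpow_natCast, ← Real.rpow_mul (by norm_num)]
    have : (1 : ℝ) / ((2 * n : ℕ) : ℝ) * ((2 * n : ℕ) : ℝ) = 1 := by
      have : ((2 * n : ℕ) : ℝ) ≠ 0 := by
        have : 0 < 2 * n := by omega
        exact_mod_cast this.ne'
      field_simp
    rw [this, Real.rpow_one]
  obtain ⟨c, hc⟩ := exists_units793 (K := K) t ht0
  refine ⟨rayS793 c Finset.univ, fun v => trivAtFin_rayS793 c _ v, t, ht0, htpow, fun w => ?_⟩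
  exact infComp_rayS793 c Finset.univ w (Finset.mem_univ w) t (hc w)

/-- **T2.34 = `LeafT14`**, verbatim. -/
theorem leafT14_793 (K : Type) [Field K] [NumberField K] : LeafT14 K :=
  ⟨exists_isRayGen793 K, rayOfArch793 K⟩

end Fermat.Agent.LT.T2.H793

end

end
-- ===== PACK-END LT/T2/H793/RayGen.lean

-- ===== PACK-BEGIN LT/T7/H662/FinSupp.lean
section






/-!
# Row LT, tower T7, leaf C2.7.13.3 `LocEqSplitC340` (helper662): FUNCTIONS OF FINITE SUPPORT
# MODULO A COMPACT OPEN SUBGROUP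

OFF-MAIN.  Mathlib + `T6/Spec` + the assets of helper159, helper584.  Complete proofs, nothing
assumed.

`H` a second countable Hausdorff topological group with its Borel `σ`-algebra, `U` a compact
open subgroup, `μ` a left invariant measure with `μ U = 1`.

* `isGood_of_finSupp662`     : a right `U`-invariant function of finite support modulo `U` is
  measurable, bounded and integrable (`IsGood662`);
* `convL_biInv662`, `convL_finSupp662` : the left nested convolutions of bi-`U`-invariant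
  functions of finite support modulo `U` are bi-`U`-invariant of finite support modulo `U`.
-/

set_option autoImplicit false
set_option linter.unusedSectionVars false

open MeasureTheory
open scoped Pointwise

noncomputable section

namespace Fermat.Agent.LT.T7.H662

open Fermat.Agent.LT Fermat.Agent.LT.T6 Fermat.Agent.LT.T7.H159

variable {H : Type} [Group H] [TopologicalSpace H] [IsTopologicalGroup H]
  [SecondCountableTopology H] [T2Space H] [MeasurableSpace H] [BorelSpace H]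

/-- The coset `x U` as a set. -/
def cosetSet662 (U : Subgroup H) (x : H) : Set H := {g | x⁻¹ * g ∈ U}

theorem mem_cosetSet662 (U : Subgroup H) (x g : H) : g ∈ cosetSet662 U x ↔ x⁻¹ * g ∈ U := Iff.rfl

theorem isOpen_cosetSet662 (U : Subgroup H) (hUo : IsOpen (U : Set H)) (x : H) :
    IsOpen (cosetSet662 U x) :=
  hUo.preimage (continuous_const.mul continuous_id)

theorem self_mem_cosetSet662 (U : Subgroup H) (x : H) : x ∈ cosetSet662 U x := by
  show x⁻¹ * x ∈ U
  rw [inv_mul_cancel]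
  exact U.one_mem

theorem cosetSet_eq_image662 (U : Subgroup H) (x : H) :
    cosetSet662 U x = (fun u => x * u) '' (U : Set H) := by
  ext g
  constructor
  · intro hg
    exact ⟨x⁻¹ * g, hg, mul_inv_cancel_left x g⟩
  · rintro ⟨u, hu, rfl⟩
    show x⁻¹ * (x * u) ∈ U
    rw [inv_mul_cancel_left]
    exact hu

theorem isCompact_cosetSet662 (U : Subgroup H) (hUc : IsCompact (U : Set H)) (x : H) :
    IsCompact (cosetSet662 U x) := by
  rw [cosetSet_eq_image662]
  exact hUc.image (continuous_const.mul continuous_id)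

theorem measure_cosetSet662 (U : Subgroup H) (μ : Measure H) [μ.IsMulLeftInvariant]
    (hμ : μ (U : Set H) = 1) (x : H) : μ (cosetSet662 U x) = 1 := by
  have : cosetSet662 U x = (fun g => x⁻¹ * g) ⁻¹' (U : Set H) := rfl
  rw [this, measure_preimage_mul, hμ]

/-- Right invariance from bi-invariance. -/
theorem rightInv_of_biInv662 (U : Subgroup H) {φ : H → ℂ} (hφ : IsBiInv (fun g => g ∈ U) φ)
    (g u : H) (hu : u ∈ U) : φ (g * u) = φ g := by
  have := hφ 1 u g U.one_mem hu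
  rwa [one_mul] at this

theorem leftInv_of_biInv662 (U : Subgroup H) {φ : H → ℂ} (hφ : IsBiInv (fun g => g ∈ U) φ)
    (g u : H) (hu : u ∈ U) : φ (u * g) = φ g := by
  have := hφ u 1 g hu U.one_mem
  rwa [mul_one] at this

/-- A right invariant function is continuous. -/
theorem continuous_of_rightInv662 (U : Subgroup H) (hUo : IsOpen (U : Set H)) {φ : H → ℂ}
    (hφ : ∀ g u : H, u ∈ U → φ (g * u) = φ g) : Continuous φ := by
  apply IsLocallyConstant.continuous
  rw [IsLocallyConstant.iff_exists_open]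
  intro x
  refine ⟨cosetSet662 U x, isOpen_cosetSet662 U hUo x, self_mem_cosetSet662 U x, ?_⟩
  intro g hg
  have := hφ x (x⁻¹ * g) hg
  rwa [mul_inv_cancel_left] at this

/-- The support of a function of finite support modulo `U` lies in a finite union of cosets. -/
theorem support_subset_of_finSupp662 (U : Subgroup H) {φ : H → ℂ} {F : Finset H}
    (hF : ∀ g : H, φ g ≠ 0 → ∃ x ∈ F, ∃ u : H, u ∈ U ∧ g = x * u) :
    Function.support φ ⊆ ⋃ x ∈ F, cosetSet662 U x := by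
  intro g hg
  obtain ⟨x, hx, u, hu, rfl⟩ := hF g hg
  refine Set.mem_biUnion hx ?_
  show x⁻¹ * (x * u) ∈ U
  rw [inv_mul_cancel_left]
  exact hu

/-- **A right invariant function of finite support modulo `U` is good.** -/
theorem isGood_of_finSupp662 (U : Subgroup H) (hUo : IsOpen (U : Set H)) (μ : Measure H)
    [μ.IsMulLeftInvariant] (hμ : μ (U : Set H) = 1) {φ : H → ℂ}
    (hφ : ∀ g u : H, u ∈ U → φ (g * u) = φ g) (hfs : HasFinSupp (fun g => g ∈ U) φ) :
    IsGood662 μ φ := by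
  classical
  obtain ⟨F, hF⟩ := hfs
  have hc := continuous_of_rightInv662 U hUo hφ
  have hb : ∀ g : H, ‖φ g‖ ≤ ∑ x ∈ F, ‖φ x‖ := by
    intro g
    by_cases hg : φ g = 0
    · rw [hg, norm_zero]
      exact Finset.sum_nonneg fun _ _ => norm_nonneg _
    · obtain ⟨x, hx, u, hu, rfl⟩ := hF g hg
      rw [hφ x u hu]
      exact Finset.single_le_sum (f := fun x => ‖φ x‖) (fun _ _ => norm_nonneg _) hx
  refine ⟨hc.measurable, ⟨_, hb⟩, ?_⟩
  have hS : μ (⋃ x ∈ F, cosetSet662 U x) ≠ ⊤ := by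
    refine ne_of_lt (lt_of_le_of_lt (measure_biUnion_finset_le F _) ?_)
    refine ENNReal.sum_lt_top.2 fun x _ => ?_
    rw [measure_cosetSet662 U μ hμ x]
    exact ENNReal.one_lt_top
  have h1 : IntegrableOn φ (⋃ x ∈ F, cosetSet662 U x) μ :=
    Measure.integrableOn_of_bounded hS hc.aestronglyMeasurable
      (Filter.Eventually.of_forall hb)
  exact (integrableOn_iff_integrable_of_support_subset
    (support_subset_of_finSupp662 U hF)).1 h1

/-! ## Convolutions -/

theorem convInt_leftInv662 (U : Subgroup H) (μ : Measure H) [μ.IsMulLeftInvariant]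
    {G Φ : H → ℂ} (hG : ∀ g u : H, u ∈ U → G (u * g) = G g) (x u : H) (hu : u ∈ U) :
    convInt μ G Φ (u * x) = convInt μ G Φ x := by
  show ∫ h, G h * Φ (h⁻¹ * (u * x)) ∂μ = ∫ h, G h * Φ (h⁻¹ * x) ∂μ
  have h := integral_mul_left_eq_self (μ := μ) (fun h => G h * Φ (h⁻¹ * (u * x))) u
  rw [← h]
  refine integral_congr_ae (Filter.Eventually.of_forall fun h' => ?_)
  show G (u * h') * Φ ((u * h')⁻¹ * (u * x)) = G h' * Φ (h'⁻¹ * x)
  rw [hG h' u hu]
  congr 2
  group

theorem convL_leftInv662 (U : Subgroup H) (μ : Measure H) [μ.IsMulLeftInvariant]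
    {Φ : ℕ → H → ℂ} (hΦ : ∀ j, IsBiInv (fun g => g ∈ U) (Φ j)) :
    ∀ (n : ℕ) (g u : H), u ∈ U → convL159 μ Φ n (u * g) = convL159 μ Φ n g
  | 0, g, u, hu => leftInv_of_biInv662 U (hΦ 0) g u hu
  | n + 1, g, u, hu =>
      convInt_leftInv662 U μ (fun g u hu => convL_leftInv662 U μ hΦ n g u hu) g u hu

theorem convL_rightInv662 (U : Subgroup H) (μ : Measure H)
    {Φ : ℕ → H → ℂ} (hΦ : ∀ j, IsBiInv (fun g => g ∈ U) (Φ j)) (n : ℕ) (g u : H)
    (hu : u ∈ U) : convL159 μ Φ n (g * u) = convL159 μ Φ n g :=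
  H584.convL_right_inv584 μ (U := fun g => g ∈ U) U.one_mem Φ hΦ n g u hu

/-- The left nested convolutions are bi-invariant. -/
theorem convL_biInv662 (U : Subgroup H) (μ : Measure H) [μ.IsMulLeftInvariant]
    {Φ : ℕ → H → ℂ} (hΦ : ∀ j, IsBiInv (fun g => g ∈ U) (Φ j)) (n : ℕ) :
    IsBiInv (fun g => g ∈ U) (convL159 μ Φ n) := by
  intro u u' g hu hu'
  rw [convL_rightInv662 U μ hΦ n _ u' hu', convL_leftInv662 U μ hΦ n g u hu]

theorem support_convInt662 (μ : Measure H) {G Φ : H → ℂ} {A B : Set H}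
    (hG : Function.support G ⊆ A) (hΦ : Function.support Φ ⊆ B) :
    Function.support (convInt μ G Φ) ⊆ A * B := by
  intro x hx
  by_contra hnot
  apply hx
  show ∫ h, G h * Φ (h⁻¹ * x) ∂μ = 0
  have h0 : ∀ h : H, G h * Φ (h⁻¹ * x) = 0 := by
    intro h
    by_contra hne
    have h1 : G h ≠ 0 := left_ne_zero_of_mul hne
    have h2 : Φ (h⁻¹ * x) ≠ 0 := right_ne_zero_of_mul hne
    apply hnot
    exact ⟨h, hG h1, h⁻¹ * x, hΦ h2, mul_inv_cancel_left h x⟩
  simp only [h0, integral_zero]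

/-- The supports of the left nested convolutions lie in compact sets. -/
theorem support_convL662 (μ : Measure H) {Φ : ℕ → H → ℂ}
    (hΦ : ∀ j, ∃ A : Set H, IsCompact A ∧ Function.support (Φ j) ⊆ A) (n : ℕ) :
    ∃ A : Set H, IsCompact A ∧ Function.support (convL159 μ Φ n) ⊆ A := by
  induction n with
  | zero => exact hΦ 0
  | succ n ih =>
    obtain ⟨A, hA, hsA⟩ := ih
    obtain ⟨B, hB, hsB⟩ := hΦ (n + 1)
    exact ⟨A * B, hA.mul hB, support_convInt662 μ hsA hsB⟩

theorem compact_of_finSupp662 (U : Subgroup H) (hUc : IsCompact (U : Set H)) {φ : H → ℂ}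
    (hfs : HasFinSupp (fun g => g ∈ U) φ) :
    ∃ A : Set H, IsCompact A ∧ Function.support φ ⊆ A := by
  obtain ⟨F, hF⟩ := hfs
  exact ⟨⋃ x ∈ F, cosetSet662 U x,
    F.isCompact_biUnion fun x _ => isCompact_cosetSet662 U hUc x,
    support_subset_of_finSupp662 U hF⟩

theorem finSupp_of_compact662 (U : Subgroup H) (hUo : IsOpen (U : Set H)) {φ : H → ℂ}
    {A : Set H} (hA : IsCompact A) (hs : Function.support φ ⊆ A) :
    HasFinSupp (fun g => g ∈ U) φ := by
  obtain ⟨t, ht⟩ := hA.elim_finite_subcover (fun x : H => cosetSet662 U x)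
    (fun x => isOpen_cosetSet662 U hUo x)
    (fun g _ => Set.mem_iUnion.2 ⟨g, self_mem_cosetSet662 U g⟩)
  refine ⟨t, fun g hg => ?_⟩
  have hgA : g ∈ A := hs hg
  obtain ⟨x, hx, hgx⟩ := Set.mem_iUnion₂.1 (ht hgA)
  exact ⟨x, hx, x⁻¹ * g, hgx, (mul_inv_cancel_left x g).symm⟩

/-- The left nested convolutions have finite support modulo `U`. -/
theorem convL_finSupp662 (U : Subgroup H) (hUo : IsOpen (U : Set H))
    (hUc : IsCompact (U : Set H)) (μ : Measure H) {Φ : ℕ → H → ℂ}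
    (hΦ : ∀ j, HasFinSupp (fun g => g ∈ U) (Φ j)) (n : ℕ) :
    HasFinSupp (fun g => g ∈ U) (convL159 μ Φ n) := by
  obtain ⟨A, hA, hs⟩ := support_convL662 μ (fun j => compact_of_finSupp662 U hUc (hΦ j)) n
  exact finSupp_of_compact662 U hUo hA hs

/-- The norm of a bi-invariant function of finite support is one. -/
theorem biInv_norm662 (U : Subgroup H) {φ : H → ℂ} (hφ : IsBiInv (fun g => g ∈ U) φ) :
    IsBiInv (fun g => g ∈ U) (fun g => ((‖φ g‖ : ℝ) : ℂ)) := by
  intro u u' g hu hu'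
  show ((‖φ (u * g * u')‖ : ℝ) : ℂ) = ((‖φ g‖ : ℝ) : ℂ)
  rw [hφ u u' g hu hu']

theorem finSupp_norm662 (U : Subgroup H) {φ : H → ℂ} (hφ : HasFinSupp (fun g => g ∈ U) φ) :
    HasFinSupp (fun g => g ∈ U) (fun g => ((‖φ g‖ : ℝ) : ℂ)) := by
  obtain ⟨F, hF⟩ := hφ
  refine ⟨F, fun g hg => hF g ?_⟩
  intro h0
  apply hg
  show ((‖φ g‖ : ℝ) : ℂ) = 0
  rw [h0, norm_zero, Complex.ofReal_zero]

/-! ## Appendix: the equation lemmas of the definitions of this file are realised HERE -/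

theorem eqns_realised_finSupp662 : True := by
  have _a1 := @cosetSet662.eq_1
  have _a2 := @cosetSet662.eq_def
  have _a3 := @cosetSet662.eq_unfold
  trivial

end Fermat.Agent.LT.T7.H662

end

end
-- ===== PACK-END LT/T7/H662/FinSupp.lean

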