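import Mathlib
import Fermat.Agent.Pack.LT3.E0L0
import Fermat.Agent.Pack.S43GC.G0E10L2
import Fermat.Agent.Pack.LT3.E11L2
import Fermat.Agent.Pack.LT3.E11L0
import Fermat.Agent.Pack.LT2.E0L2
import Fermat.Agent.Pack.LT2.E2L1
import Fermat.Agent.Pack.LT2.E5L3
import Fermat.Agent.Pack.LT2.E6L2
import Fermat.Agent.Pack.LT2.E3L0
import Fermat.Agent.Pack.LT3.E11L3
import Fermat.Agent.Pack.LT3.E8L2
import Fermat.Agent.Pack.LT3.E11L1
import Fermat.Agent.Pack.LT3.E3L0
import Fermat.Agent.Pack.LT2.E6L0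
import Fermat.Agent.Pack.LT3.E13L0

set_option linter.all false

-- ===== PACK-BEGIN LT/CFT/H618/EX/SUnitSq.lean
section



/-!
# Row LT, tower CFT, sub-tower EX, leaf CFT.16.E1.C.5 `SUnitSqC` (helper618, SPARE, OFF-MAIN)

`sUnitSqC618 : Fermat.Agent.LT.CFT.EQ.SUnitSqC` (the Prop of `LT/CFT/H476/EQSpec.lean`,
origin/helper476@a36ad8b7e, VERBATIM): over a totally complex number field, for every finite set
`S` of primes there are `2 ^ (#S + r₂)` integral `S`-units, pairwise distinct modulo squares of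
`K`.

Proof: the `S`-unit index theorem of main (`H604.index_range_pow_sUnit_of_primitiveRoot`,
`[E_S : E_S²] = 2 ^ (#∞ + #S)`); representatives of the classes are made integral by an even
power of a generator `N₀` of `(∏_{v ∈ S} v) ^ h`.
-/

set_option autoImplicit false
set_option linter.style.haveILetI false
set_option linter.unusedSectionVars false

open IsDedekindDomain NumberField
open Fermat.Agent.S55.H604

noncomputable section

namespace Fermat.Agent.LT.CFT.H618

open Fermat.Agent.LT.CFT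

variable {K : Type} [Field K] [NumberField K]

/-- A generator of a power of `∏_{v ∈ S} v`: it lies in exactly the primes of `S`. -/
theorem exists_support_eq618 (S : Finset (HeightOneSpectrum (𝓞 K))) :
    ∃ N₀ : 𝓞 K, N₀ ≠ 0 ∧ (∀ v ∈ S, N₀ ∈ v.asIdeal) ∧
      ∀ w : HeightOneSpectrum (𝓞 K), N₀ ∈ w.asIdeal → w ∈ S := by
  classical
  set I : Ideal (𝓞 K) := ∏ v ∈ S, v.asIdeal with hI
  have hI0 : I ≠ ⊥ := by
    rw [hI, ← Ideal.zero_eq_bot, Ne, Finset.prod_eq_zero_iff]
    rintro ⟨v, _, hv⟩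
    exact v.ne_bot hv
  set h := Fintype.card (ClassGroup (𝓞 K)) with hh
  have hh0 : h ≠ 0 := Fintype.card_ne_zero
  have hIh0 : I ^ h ≠ ⊥ := pow_ne_zero _ hI0
  have hprin : (I ^ h).IsPrincipal := by
    have h1 : ClassGroup.mk0 ⟨I ^ h, mem_nonZeroDivisors_of_ne_zero hIh0⟩ = 1 := by
      have h2 : (⟨I ^ h, mem_nonZeroDivisors_of_ne_zero hIh0⟩ : nonZeroDivisors (Ideal (𝓞 K))) =
          (⟨I, mem_nonZeroDivisors_of_ne_zero hI0⟩ : nonZeroDivisors (Ideal (𝓞 K))) ^ h :=
        Subtype.ext rfl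
      rw [h2, map_pow, hh]
      exact pow_card_eq_one
    exact (ClassGroup.mk0_eq_one_iff _).mp h1
  obtain ⟨N₀, hN₀⟩ := hprin.principal
  rw [Ideal.submodule_span_eq] at hN₀
  have hmem : N₀ ∈ I ^ h := by rw [hN₀]; exact Ideal.mem_span_singleton_self N₀
  refine ⟨N₀, ?_, ?_, ?_⟩
  · rintro rfl
    apply hIh0
    rw [hN₀]
    simp
  · intro v hv
    have h1 : I ≤ v.asIdeal := by
      rw [hI, ← Ideal.dvd_iff_le]
      exact Finset.dvd_prod_of_mem _ hv
    exact h1 (Ideal.pow_le_self hh0 hmem)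
  · intro w hw
    haveI := w.isPrime
    have h1 : I ^ h ≤ w.asIdeal := by
      rw [hN₀, Ideal.span_singleton_le_iff_mem]
      exact hw
    have h2 : I ≤ w.asIdeal := Ideal.IsPrime.le_of_pow_le h1
    rw [hI] at h2
    obtain ⟨v, hv, hvw⟩ := (Ideal.IsPrime.prod_le w.isPrime).mp h2
    have hmax : v.asIdeal.IsMaximal := v.isPrime.isMaximal v.ne_bot
    have heq : v.asIdeal = w.asIdeal := hmax.eq_of_le w.isPrime.ne_top hvw
    have : v = w := HeightOneSpectrum.ext heq
    rw [← this]
    exact hv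

theorem mem_SUnit_iff618 (S : Finset (HeightOneSpectrum (𝓞 K))) (x : Kˣ) :
    x ∈ SUnit K S ↔ ∀ v : HeightOneSpectrum (𝓞 K), v ∉ S → v.valuation K (x : K) = 1 := by
  unfold SUnit
  rw [Set.unit]
  simp only [Finset.mem_coe]
  rfl

/-- An `S`-unit times a high even power of `N₀` is integral. -/
theorem exists_integral_mul_gen618 (S : Finset (HeightOneSpectrum (𝓞 K))) (N₀ : 𝓞 K)
    (hN₀ : N₀ ≠ 0) (hN₀S : ∀ v ∈ S, N₀ ∈ v.asIdeal) (x : Kˣ) (hx : x ∈ SUnit K S) :
    ∃ (m : ℕ) (a : 𝓞 K), algebraMap (𝓞 K) K a = (x : K) * (algebraMap (𝓞 K) K N₀) ^ (2 * m) := by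
  classical
  set m : ℕ := ∑ w ∈ S, (WithZero.log (w.valuation K (x : K))).natAbs with hm
  have hint : ∀ w : HeightOneSpectrum (𝓞 K),
      w.valuation K ((x : K) * (algebraMap (𝓞 K) K N₀) ^ (2 * m)) ≤ 1 := by
    intro w
    rw [map_mul, map_pow]
    by_cases hw : w ∈ S
    · have hle : (WithZero.log (w.valuation K (x : K))).natAbs ≤ m := by
        rw [hm]
        exact Finset.single_le_sum
          (f := fun w : HeightOneSpectrum (𝓞 K) => (WithZero.log (w.valuation K (x : K))).natAbs)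
          (fun _ _ => Nat.zero_le _) hw
      have hx0 : w.valuation K (x : K) ≠ 0 := by simp
      have h1 : w.valuation K (algebraMap (𝓞 K) K N₀) ≤ WithZero.exp (-1 : ℤ) := by
        have h2 : w.valuation K (algebraMap (𝓞 K) K N₀) < 1 := by
          rw [HeightOneSpectrum.valuation_of_algebraMap,
            HeightOneSpectrum.intValuation_lt_one_iff_mem]
          exact hN₀S w hw
        have h3 : w.valuation K (algebraMap (𝓞 K) K N₀) ≠ 0 := by
          rw [Ne, map_eq_zero]
          exact RingOfIntegers.coe_ne_zero_iff.mpr hN₀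
        obtain ⟨n, hn⟩ : ∃ n : ℤ, w.valuation K (algebraMap (𝓞 K) K N₀) = WithZero.exp n :=
          ⟨WithZero.log _, (WithZero.exp_log h3).symm⟩
        rw [hn] at h2 ⊢
        rw [← WithZero.exp_zero, WithZero.exp_lt_exp] at h2
        rw [WithZero.exp_le_exp]
        omega
      calc w.valuation K (x : K) * w.valuation K (algebraMap (𝓞 K) K N₀) ^ (2 * m)
          ≤ w.valuation K (x : K) * WithZero.exp (-1 : ℤ) ^ (2 * m) := by
            gcongr
        _ = WithZero.exp (WithZero.log (w.valuation K (x : K)) + (2 * m : ℕ) • (-1 : ℤ)) := by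
            rw [WithZero.exp_add, WithZero.exp_log hx0, WithZero.exp_nsmul]
        _ ≤ 1 := by
            rw [← WithZero.exp_zero, WithZero.exp_le_exp]
            have h5 : WithZero.log (w.valuation K (x : K)) ≤
                (WithZero.log (w.valuation K (x : K))).natAbs := by omega
            have hle' : ((WithZero.log (w.valuation K (x : K))).natAbs : ℤ) ≤ m := by
              exact_mod_cast hle
            rw [nsmul_eq_mul]
            push_cast
            linarith
    · rw [(mem_SUnit_iff618 S x).mp hx w hw, one_mul]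
      exact pow_le_one₀ zero_le (HeightOneSpectrum.valuation_le_one w _)
  obtain ⟨a, ha⟩ := HeightOneSpectrum.mem_integers_of_valuation_le_one K _ hint
  exact ⟨m, a, ha⟩

/-- **Leaf CFT.16.E1.C.5**: `S`-units modulo squares. -/
theorem sUnitSqC618 : EQ.SUnitSqC := by
  classical
  intro K _ _ hTC S
  obtain ⟨N₀, hN₀, hN₀S, hN₀out⟩ := exists_support_eq618 S
  set H : Subgroup ↥(SUnit K S) := (powMonoidHom 2 : SUnit K S →* SUnit K S).range with hH
  have hcard : Fintype.card (InfinitePlace K) = InfinitePlace.nrComplexPlaces K := by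
    have h0 : InfinitePlace.nrRealPlaces K = 0 := by
      unfold InfinitePlace.nrRealPlaces
      rw [Fintype.card_eq_zero_iff]
      exact ⟨fun w => (InfinitePlace.not_isReal_iff_isComplex.2 (hTC w.1)) w.2⟩
    rw [InfinitePlace.card_eq_nrRealPlaces_add_nrComplexPlaces, h0, zero_add]
  have hidx : H.index = 2 ^ (S.card + InfinitePlace.nrComplexPlaces K) := by
    rw [hH, index_range_pow_sUnit_of_primitiveRoot K S 2 (by norm_num)
      (IsPrimitiveRoot.neg_one 0 (by norm_num)), hcard, add_comm]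
  haveI : H.FiniteIndex := ⟨by rw [hidx]; positivity⟩
  haveI : Finite (↥(SUnit K S) ⧸ H) := Subgroup.finite_quotient_of_finiteIndex
  letI : Fintype (↥(SUnit K S) ⧸ H) := Fintype.ofFinite _
  have hNK : algebraMap (𝓞 K) K N₀ ≠ 0 := RingOfIntegers.coe_ne_zero_iff.mpr hN₀
  have hrep : ∀ q : ↥(SUnit K S) ⧸ H, ∃ (x : ↥(SUnit K S)) (m : ℕ) (a : 𝓞 K),
      (x : ↥(SUnit K S) ⧸ H) = q ∧ algebraMap (𝓞 K) K a =
        (((x : Kˣ)) : K) * (algebraMap (𝓞 K) K N₀) ^ (2 * m) := by
    intro q
    obtain ⟨x, rfl⟩ := QuotientGroup.mk_surjective q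
    obtain ⟨m, a, ha⟩ := exists_integral_mul_gen618 S N₀ hN₀ hN₀S (x : Kˣ) x.2
    exact ⟨x, m, a, rfl, ha⟩
  choose x m f hxq hf using hrep
  have hkey : ∀ q q' : ↥(SUnit K S) ⧸ H,
      (∃ c : K, c ^ 2 = algebraMap (𝓞 K) K (f q) * algebraMap (𝓞 K) K (f q')) → q = q' := by
    rintro q q' ⟨c, hc⟩
    rw [hf q, hf q'] at hc
    set N : K := algebraMap (𝓞 K) K N₀ with hN
    set c' : K := c / N ^ (m q + m q') with hc'
    have hc2 : c' ^ 2 = (((x q : Kˣ)) : K) * (((x q' : Kˣ)) : K) := by
      rw [hc', div_pow, hc]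
      field_simp
      ring
    have hc0 : c' ≠ 0 := by
      intro h0
      rw [h0] at hc2
      have : (0 : K) ^ 2 = 0 := by ring
      rw [this] at hc2
      rcases mul_eq_zero.mp hc2.symm with h | h
      · exact (Units.ne_zero _) h
      · exact (Units.ne_zero _) h
    set y : Kˣ := Units.mk0 c' hc0 with hy
    have h2y : y ^ 2 = (x q : Kˣ) * (x q' : Kˣ) := by
      apply Units.ext
      simp only [Units.val_pow_eq_pow_val, Units.val_mul, hy, Units.val_mk0]
      exact hc2
    have hyS : y ∈ SUnit K S := by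
      rw [mem_SUnit_iff618]
      intro w hw
      have h1 : w.valuation K ((y ^ 2 : Kˣ) : K) = 1 := by
        rw [h2y, Units.val_mul, map_mul, (mem_SUnit_iff618 S _).mp (x q).2 w hw,
          (mem_SUnit_iff618 S _).mp (x q').2 w hw, one_mul]
      rw [Units.val_pow_eq_pow_val, map_pow] at h1
      exact (pow_eq_one_iff.mp h1).resolve_right (by norm_num)
    have hsum : x q * x q' ∈ H := by
      refine ⟨⟨y, hyS⟩, ?_⟩
      apply Subtype.ext
      simp only [powMonoidHom_apply, Subgroup.coe_pow, Subgroup.coe_mul]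
      exact h2y
    have h2 : (x q) ^ 2 ∈ H := ⟨x q, rfl⟩
    have hdiff : (x q)⁻¹ * x q' ∈ H := by
      have : (x q)⁻¹ * x q' = (x q * x q') * ((x q) ^ 2)⁻¹ := by
        rw [sq]
        have hcomm : ∀ a b : ↥(SUnit K S), a * b = b * a := fun a b => mul_comm a b
        rw [mul_inv_rev, hcomm (x q) (x q'), mul_assoc, ← mul_assoc (x q), mul_inv_cancel,
          one_mul, hcomm]
      rw [this]
      exact H.mul_mem hsum (H.inv_mem h2)
    rw [← hxq q, ← hxq q']
    exact (QuotientGroup.eq).mpr hdiff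
  have hinj : Function.Injective f := by
    intro q q' h
    apply hkey
    refine ⟨algebraMap (𝓞 K) K (f q), ?_⟩
    rw [← h]
    ring
  refine ⟨Finset.univ.image f, ?_, ?_, ?_⟩
  · rw [Finset.card_image_of_injective _ hinj, Finset.card_univ, ← Nat.card_eq_fintype_card,
      ← Subgroup.index_eq_card, hidx]
  · intro u hu
    obtain ⟨q, -, rfl⟩ := Finset.mem_image.mp hu
    refine ⟨?_, fun P hP => ?_⟩
    · intro h0
      have h1 := hf q
      rw [h0, map_zero] at h1
      rcases mul_eq_zero.mp h1.symm with h | h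
      · exact (Units.ne_zero _) h
      · exact pow_ne_zero _ hNK h
    · by_contra hPS
      have h1 : P.valuation K (algebraMap (𝓞 K) K (f q)) = 1 := by
        have hN1 : P.valuation K (algebraMap (𝓞 K) K N₀) = 1 := by
          rw [HeightOneSpectrum.valuation_of_algebraMap]
          have h3 : ¬ P.intValuation N₀ < 1 := by
            rw [HeightOneSpectrum.intValuation_lt_one_iff_mem]
            exact fun h => hPS (hN₀out P h)
          exact le_antisymm (HeightOneSpectrum.intValuation_le_one P _) (not_lt.mp h3)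
        rw [hf q, map_mul, map_pow, (mem_SUnit_iff618 S _).mp (x q).2 P hPS, hN1, one_pow,
          one_mul]
      have h2 : P.valuation K (algebraMap (𝓞 K) K (f q)) < 1 := by
        rw [HeightOneSpectrum.valuation_of_algebraMap,
          HeightOneSpectrum.intValuation_lt_one_iff_mem]
        exact hP
      rw [h1] at h2
      exact lt_irrefl _ h2
  · intro u hu u' hu' hne hc
    obtain ⟨q, -, rfl⟩ := Finset.mem_image.mp hu
    obtain ⟨q', -, rfl⟩ := Finset.mem_image.mp hu'
    exact hne (congrArg f (hkey q q' hc))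

end Fermat.Agent.LT.CFT.H618

end

end
-- ===== PACK-END LT/CFT/H618/EX/SUnitSq.lean

-- ===== PACK-BEGIN LT/T2/H228/AdjTest.lean
section



/-!
# Row LT, tower T2, leaf T2.02a (helper228): `adj` preserves the (spherical) test functions

OFF-MAIN.  `leaf02a_228 : Leaf02a K`.  Vocabulary: `T2/Spec.lean` v3 (sha256 b934629a).

* smoothness: `(g h(t))⁻¹ = g⁻¹ (g h(t)⁻¹ g⁻¹)` and the conjugated family is again trivial at the
  finite places and smooth at the infinite places (inverse of a `2 × 2` matrix);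
* compact support: `adj f = conj ∘ f ∘ (·)⁻¹` and inversion is a homeomorphism of `G K`.
-/

set_option autoImplicit false
set_option linter.unusedSectionVars false

open IsDedekindDomain NumberField MeasureTheory AutomorphicForm
open Fermat.Agent.LT.H556.A0
open scoped ContDiff

noncomputable section

namespace Fermat.Agent.LT.T2.H228

open Fermat.Agent.LT.T2

variable {K : Type} [Field K] [NumberField K]

/-! ## `adj f`: the algebraic fields -/

theorem adj_apply228 (f : G K → ℂ) (g : G K) : adj f g = (starRingEnd ℂ) (f g⁻¹) := rfl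

theorem adj_cont228 {f : G K → ℂ} (hf : Continuous f) : Continuous (adj f) :=
  Complex.continuous_conj.comp (hf.comp continuous_inv)

theorem adj_right228 {f : G K → ℂ} {u : G K} (hf : ∀ g : G K, f (u⁻¹ * g) = f g) (g : G K) :
    adj f (g * u) = adj f g := by
  rw [adj_apply228, adj_apply228, mul_inv_rev, hf]

theorem adj_left228 {f : G K → ℂ} {u : G K} (hf : ∀ g : G K, f (g * u⁻¹) = f g) (g : G K) :
    adj f (u * g) = adj f g := by
  rw [adj_apply228, adj_apply228, mul_inv_rev, hf]


/-! ## Compact support -/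

theorem adj_cpt228 {f : G K → ℂ} (hf : HasCompactSupport f) : HasCompactSupport (adj f) := by
  have h1 : HasCompactSupport (f ∘ (Homeomorph.inv (G K))) := hf.comp_homeomorph _
  have h2 : HasCompactSupport ((starRingEnd ℂ) ∘ (f ∘ (Homeomorph.inv (G K)))) :=
    h1.comp_left (map_zero _)
  exact h2

/-! ## Smoothness at infinity -/

theorem contDiff_mul_entries228 {n : ℕ} (A B : (Fin n → ℝ) → Matrix (Fin 2) (Fin 2) ℂ)
    (hA : ∀ i j, ContDiff ℝ ∞ (fun t => A t i j)) (hB : ∀ i j, ContDiff ℝ ∞ (fun t => B t i j))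
    (i j : Fin 2) : ContDiff ℝ ∞ (fun t => (A t * B t) i j) := by
  have : (fun t => (A t * B t) i j) = fun t => A t i 0 * B t 0 j + A t i 1 * B t 1 j := by
    funext t; rw [Matrix.mul_apply, Fin.sum_univ_two]
  rw [this]
  exact ((hA i 0).mul (hB 0 j)).add ((hA i 1).mul (hB 1 j))

theorem contDiff_inv_entries228 {n : ℕ} (M N : (Fin n → ℝ) → Matrix (Fin 2) (Fin 2) ℂ)
    (hMN : ∀ t, M t * N t = 1) (hM : ∀ i j, ContDiff ℝ ∞ (fun t => M t i j))
    (i j : Fin 2) : ContDiff ℝ ∞ (fun t => N t i j) := by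
  have hdet : ∀ t, (M t).det ≠ 0 := by
    intro t h0
    have := congrArg Matrix.det (hMN t)
    rw [Matrix.det_mul, h0, zero_mul, Matrix.det_one] at this
    exact zero_ne_one this
  have hN : ∀ t, N t = (M t).det⁻¹ • (M t).adjugate := by
    intro t
    rw [← Matrix.inv_eq_right_inv (hMN t), Matrix.inv_def, Ring.inverse_eq_inv']
  have hd : ContDiff ℝ ∞ (fun t => (M t).det) := by
    have : (fun t => (M t).det) = fun t => M t 0 0 * M t 1 1 - M t 0 1 * M t 1 0 := by
      funext t; rw [Matrix.det_fin_two]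
    rw [this]
    exact ((hM 0 0).mul (hM 1 1)).sub ((hM 0 1).mul (hM 1 0))
  have hdi : ContDiff ℝ ∞ (fun t => ((M t).det)⁻¹) := hd.inv hdet
  have hadj : ContDiff ℝ ∞ (fun t => (M t).adjugate i j) := by
    have : (fun t => (M t).adjugate i j)
        = fun t => (!![M t 1 1, -M t 0 1; -M t 1 0, M t 0 0] : Matrix (Fin 2) (Fin 2) ℂ) i j := by
      funext t; rw [Matrix.adjugate_fin_two]
    rw [this]
    fin_cases i <;> fin_cases j
    · simpa using hM 1 1
    · simpa using (hM 0 1).neg
    · simpa using (hM 1 0).neg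
    · simpa using hM 0 0
  have : (fun t => N t i j) = fun t => ((M t).det)⁻¹ * (M t).adjugate i j := by
    funext t; rw [hN t, Matrix.smul_apply, smul_eq_mul]
  rw [this]
  exact hdi.mul hadj

theorem adj_smooth228 {f : G K → ℂ} (hf : IsSmoothAtInf f) : IsSmoothAtInf (adj f) := by
  intro n h hfin hsm g
  have hfin' : ∀ (t : Fin n → ℝ) (v : HeightOneSpectrum (𝓞 K)),
      TrivAtFin v (g * (h t)⁻¹ * g⁻¹) := by
    intro t v
    have h1 : finComp v (h t)⁻¹ = 1 := trivAtFin_inv228 (hfin t v)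
    unfold TrivAtFin
    rw [finComp_mul228, finComp_mul228, h1, mul_one, finComp_mul_inv228]
  have hsm' : ∀ (w : InfinitePlace K) (i j : Fin 2),
      ContDiff ℝ ∞ (fun t => infComp w (g * (h t)⁻¹ * g⁻¹) i j) := by
    intro w i j
    have hN := contDiff_inv_entries228 (fun t => infComp w (h t)) (fun t => infComp w (h t)⁻¹)
      (fun t => infComp_mul_inv228 w (h t)) (hsm w)
    have h1 := contDiff_mul_entries228 (fun _ => infComp w g) (fun t => infComp w (h t)⁻¹)
      (fun _ _ => contDiff_const) hN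
    have h2 := contDiff_mul_entries228 (fun t => infComp w g * infComp w (h t)⁻¹)
      (fun _ => infComp w g⁻¹) h1 (fun _ _ => contDiff_const) i j
    have : (fun t => infComp w (g * (h t)⁻¹ * g⁻¹) i j)
        = fun t => (infComp w g * infComp w (h t)⁻¹ * infComp w g⁻¹) i j := by
      funext t; rw [infComp_mul228, infComp_mul228]
    rw [this]
    exact h2
  have key := hf n (fun t => g * (h t)⁻¹ * g⁻¹) hfin' hsm' g⁻¹
  have : (fun t => adj f (g * h t))
      = fun t => Complex.conjCLE (f (g⁻¹ * (g * (h t)⁻¹ * g⁻¹))) := by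
    funext t
    rw [adj_apply228]
    have : (g * h t)⁻¹ = g⁻¹ * (g * (h t)⁻¹ * g⁻¹) := by group
    rw [this]; rfl
  rw [this]
  exact Complex.conjCLE.contDiff.comp key

/-! ## The leaf -/

theorem adj_isTestFn228 (_hT : T1.T1Out K) {𝔫 : Ideal (𝓞 K)} {f : G K → ℂ} (hf : IsTestFn 𝔫 f) :
    IsTestFn 𝔫 (adj f) :=
  { cont := adj_cont228 hf.cont
    smooth := adj_smooth228 hf.smooth
    cpt := adj_cpt228 hf.cpt
    level_right := fun u hu g =>
      adj_right228 (fun g' => hf.level_left u⁻¹ (inLevelGroup_inv228 hu) g') g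
    level_left := fun u hu g =>
      adj_left228 (fun g' => hf.level_right u⁻¹ (inLevelGroup_inv228 hu) g') g
    arch_right := fun w k hk g =>
      adj_right228 (fun g' => hf.arch_left w k⁻¹ (isArchCompact_inv228 hk) g') g
    arch_left := fun w k hk g =>
      adj_left228 (fun g' => hf.arch_right w k⁻¹ (isArchCompact_inv228 hk) g') g }

theorem adj_isSphTestFn228 (hT : T1.T1Out K) {𝔫 : Ideal (𝓞 K)} {f : G K → ℂ}
    (hf : IsSphTestFn 𝔫 f) : IsSphTestFn 𝔫 (adj f) := by
  refine ⟨adj_isTestFn228 hT hf.test, ?_⟩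
  intro g hg v hv i j
  have hfne : f g⁻¹ ≠ 0 := by
    intro h; apply hg; rw [adj_apply228, h, map_zero]
  have := hf.bad_unit g⁻¹ hfne v hv i j
  rw [inv_inv] at this
  exact ⟨this.2, this.1⟩

/-- **T2.02a**: `adj` preserves the test functions and the spherical test functions. -/
theorem leaf02a_228 : Leaf02a K :=
  fun hT _ _ => ⟨fun _ hf => adj_isTestFn228 hT hf, fun _ hf => adj_isSphTestFn228 hT hf⟩

end Fermat.Agent.LT.T2.H228

end

end
-- ===== PACK-END LT/T2/H228/AdjTest.lean

-- ===== PACK-BEGIN LT/T2/H372/ConvLinT.lean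
section



/-!
# Row LT, tower T2, sub-leaf T2.27.08 `SubConvLinT291` (helper372)

OFF-MAIN.  Imports: Mathlib and `LT/T2/H291/OpsSpecT.lean` (helper291, sha256 c8359c85; its
imports are byte-identical copies of `LT/H556/A0.lean` 66d3374a, `LT/T1/Spec.lean` e8ae48d6,
`LT/T2/Spec.lean` v3 b934629a, `LT/T2/SpecTau.lean` 4d2b0fc2).

T-form of T2.07.08 (helper848 `conv_lin848`, same proof with the class `IsCuspT 𝔫 τ R.r`):
`conv F f φ x = ∫ φ(x h) f(h) dμ(h)` is additive and homogeneous in `φ` on the continuous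
functions: `h ↦ θ(x h) f(h)` is continuous with compact support, hence integrable for the Haar
measure of the frame.  No hypothesis of the context is used.
-/

set_option autoImplicit false

open IsDedekindDomain NumberField MeasureTheory
open Fermat.Agent.LT.H556.A0
open Fermat.Agent.LT.T2

noncomputable section

namespace Fermat.Agent.LT.T2.H372

variable {K : Type} [Field K] [NumberField K]

attribute [local instance] Fermat.Agent.LT.T2.borelG

/-- The integrand of a convolution is integrable: `θ` continuous, `f` continuous with compact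
support. -/
theorem integrable_convT372 (F : Frame K) {f θ : G K → ℂ} (hf : Continuous f)
    (hc : HasCompactSupport f) (hθ : Continuous θ) (x : G K) :
    Integrable (fun h => θ (x * h) * f h) F.μ := by
  have : F.μ.IsHaarMeasure := F.haar
  have : BorelSpace (G K) := ⟨rfl⟩
  have h1 : Continuous fun h : G K => θ (x * h) * f h :=
    (hθ.comp (continuous_const.mul continuous_id)).mul hf
  have h2 : HasCompactSupport fun h : G K => θ (x * h) * f h := hc.mul_left
  exact h1.integrable_of_hasCompactSupport h2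

/-- Convolution by a continuous function with compact support is additive and homogeneous on the
continuous functions. -/
theorem conv_linT372 (F : Frame K) {f φ ψ : G K → ℂ} (hf : Continuous f)
    (hc : HasCompactSupport f) (hφ : Continuous φ) (hψ : Continuous ψ) (c : ℂ) :
    conv F f (fun g => φ g + c * ψ g) = fun g => conv F f φ g + c * conv F f ψ g := by
  funext x
  have h1 := integrable_convT372 F hf hc hφ x
  have h2 := (integrable_convT372 F hf hc hψ x).const_mul c
  show ∫ h, (φ (x * h) + c * ψ (x * h)) * f h ∂F.μ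
    = ∫ h, φ (x * h) * f h ∂F.μ + c * ∫ h, ψ (x * h) * f h ∂F.μ
  have h3 : (fun h : G K => (φ (x * h) + c * ψ (x * h)) * f h)
      = fun h => φ (x * h) * f h + c * (ψ (x * h) * f h) := by
    funext h
    ring
  rw [h3, integral_add h1 h2, integral_const_mul]

/-- **T2.27.08** -/
theorem subConvLinT372 : H291.SubConvLinT291 K := by
  intro 𝔫 τ _ R f hf φ ψ c hφ hψ
  exact conv_linT372 R.F hf.test.cont hf.test.cpt hφ.aut.cont hψ.aut.cont c

example : H291.SubConvLinT291 K := subConvLinT372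

end Fermat.Agent.LT.T2.H372

end

end
-- ===== PACK-END LT/T2/H372/ConvLinT.lean

-- ===== PACK-BEGIN LT/T2/H776/CommSphereCircleT.lean
section








/-!
# Row LT, tower T2, sub-leaf T2.27.19 `SubCommSphereCircleT291` (helper776), OFF-MAIN

A sphere mean (complex place `w`) and a `τ`-twisted circle mean (real place `w'`) commute on the
cusp functions of the class `(𝔫, τ, r)`.  `T`-form of T2.07.19 (helper879,
`LT/T2/H879/CommSphereCircle.lean`): the SAME proof, with the continuous weight `τ(k_θ)⁻¹`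
inside the integrand.  `w ≠ w'`, so the parametrising elements commute (`comm_of_local776c`), and
the three interval integrals may be interchanged (Fubini for continuous integrands on a box,
`swap3_776c`).  Sections 1 and 3 are the lemmas of helper879, renamed (his file is typed on older
Spec bytes).  Continuity of the parametrisations: `locCont472` (helper472, imports A0 only).

VERBATIM against `LT/T2/H291/OpsSpecT.lean` (helper291@22c6ecc98, sha256 c8359c85); UNCONDITIONAL.
-/

set_option autoImplicit false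

open IsDedekindDomain NumberField MeasureTheory
open Fermat.Agent.LT.H556.A0
open Fermat.Agent.LT.T2
open Fermat.Agent.LT.T2.H291

noncomputable section

namespace Fermat.Agent.LT.T2.H776

variable {K : Type} [Field K] [NumberField K]

/-! ## 1. Elements supported at different infinite places commute -/

/-- Two adeles with the same components are equal. -/
theorem adl_ext776c {x y : Adl K} (hinf : ∀ u : InfinitePlace K, x.1 u = y.1 u)
    (hfin : ∀ v : HeightOneSpectrum (𝓞 K), x.2 v = y.2 v) : x = y := by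
  refine Prod.ext ?_ ?_
  · funext u
    exact hinf u
  · exact RestrictedProduct.ext _ _ hfin

/-- The entries of a product at an infinite place. -/
theorem mul_inf776c (a b : G K) (u : InfinitePlace K) (i j : Fin 2) :
    (((a * b : G K) : Matrix (Fin 2) (Fin 2) (Adl K)) i j).1 u
      = ((a : Matrix (Fin 2) (Fin 2) (Adl K)) i 0).1 u
          * ((b : Matrix (Fin 2) (Fin 2) (Adl K)) 0 j).1 u
        + ((a : Matrix (Fin 2) (Fin 2) (Adl K)) i 1).1 u
          * ((b : Matrix (Fin 2) (Fin 2) (Adl K)) 1 j).1 u := by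
  rw [Units.val_mul, Matrix.mul_apply, Fin.sum_univ_two]
  rfl

/-- The entries of a product at a finite place. -/
theorem mul_fin776c (a b : G K) (v : HeightOneSpectrum (𝓞 K)) (i j : Fin 2) :
    (((a * b : G K) : Matrix (Fin 2) (Fin 2) (Adl K)) i j).2 v
      = ((a : Matrix (Fin 2) (Fin 2) (Adl K)) i 0).2 v
          * ((b : Matrix (Fin 2) (Fin 2) (Adl K)) 0 j).2 v
        + ((a : Matrix (Fin 2) (Fin 2) (Adl K)) i 1).2 v
          * ((b : Matrix (Fin 2) (Fin 2) (Adl K)) 1 j).2 v := by
  rw [Units.val_mul, Matrix.mul_apply, Fin.sum_univ_two]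
  rfl

/-- If `a` is trivial at the infinite place `u`, then `a * b` and `b * a` have the components of
`b` at `u`. -/
theorem mul_inf_of_triv_left776c {a : G K} {u : InfinitePlace K} (ha : TrivAtInf u a) (b : G K)
    (i j : Fin 2) :
    (((a * b : G K) : Matrix (Fin 2) (Fin 2) (Adl K)) i j).1 u
      = ((b : Matrix (Fin 2) (Fin 2) (Adl K)) i j).1 u := by
  rw [mul_inf776c, ha i 0, ha i 1]
  fin_cases i <;> simp [Matrix.one_apply]

theorem mul_inf_of_triv_right776c {a : G K} {u : InfinitePlace K} (ha : TrivAtInf u a) (b : G K)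
    (i j : Fin 2) :
    (((b * a : G K) : Matrix (Fin 2) (Fin 2) (Adl K)) i j).1 u
      = ((b : Matrix (Fin 2) (Fin 2) (Adl K)) i j).1 u := by
  rw [mul_inf776c, ha 0 j, ha 1 j]
  fin_cases j <;> simp [Matrix.one_apply]

theorem trivAtFin_apply776c {a : G K} {v : HeightOneSpectrum (𝓞 K)} (ha : TrivAtFin v a)
    (i j : Fin 2) :
    ((a : Matrix (Fin 2) (Fin 2) (Adl K)) i j).2 v
      = (1 : Matrix (Fin 2) (Fin 2) (v.adicCompletion K)) i j := by
  have h := congrFun (congrFun ha i) j
  exact h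

theorem mul_fin_of_triv_left776c {a : G K} {v : HeightOneSpectrum (𝓞 K)} (ha : TrivAtFin v a)
    (b : G K) (i j : Fin 2) :
    (((a * b : G K) : Matrix (Fin 2) (Fin 2) (Adl K)) i j).2 v
      = ((b : Matrix (Fin 2) (Fin 2) (Adl K)) i j).2 v := by
  rw [mul_fin776c, trivAtFin_apply776c ha i 0, trivAtFin_apply776c ha i 1]
  fin_cases i <;> simp [Matrix.one_apply]

theorem mul_fin_of_triv_right776c {a : G K} {v : HeightOneSpectrum (𝓞 K)} (ha : TrivAtFin v a)
    (b : G K) (i j : Fin 2) :
    (((b * a : G K) : Matrix (Fin 2) (Fin 2) (Adl K)) i j).2 v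
      = ((b : Matrix (Fin 2) (Fin 2) (Adl K)) i j).2 v := by
  rw [mul_fin776c, trivAtFin_apply776c ha 0 j, trivAtFin_apply776c ha 1 j]
  fin_cases j <;> simp [Matrix.one_apply]

/-- **Elements supported at two different infinite places commute.** -/
theorem comm_of_local776c {w w' : InfinitePlace K} (hne : w ≠ w') {a b : G K}
    (ha : IsLocalAtInf w a) (hb : IsLocalAtInf w' b) : a * b = b * a := by
  apply Units.ext
  funext i j
  apply adl_ext776c
  · intro u
    by_cases hu : u = w
    · have hb' : TrivAtInf u b := hb.1 u (by rw [hu]; exact hne)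
      rw [mul_inf_of_triv_right776c hb' a i j, mul_inf_of_triv_left776c hb' a i j]
    · have ha' : TrivAtInf u a := ha.1 u hu
      rw [mul_inf_of_triv_left776c ha' b i j, mul_inf_of_triv_right776c ha' b i j]
  · intro v
    rw [mul_fin_of_triv_left776c (ha.2 v) b i j, mul_fin_of_triv_right776c (ha.2 v) b i j]

/-! ## 2. Continuity of the parametrisations, compactness of the rotations -/

theorem continuous_rotZ_entry776c (i j : Fin 2) : Continuous fun α : ℝ => rotZ α i j := by
  fin_cases i <;> fin_cases j <;> simp [rotZ] <;> fun_prop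

theorem continuous_rotY_entry776c (i j : Fin 2) : Continuous fun β : ℝ => rotY β i j := by
  fin_cases i <;> fin_cases j <;> simp [rotY] <;> fun_prop

/-- The parametrisation of a sphere is continuous. -/
theorem continuous_sphere776c {w : InfinitePlace K} {d : ℝ}
    {Y : ℝ → ℝ → G K} (hY : IsSphereAt w d Y) :
    Continuous fun p : ℝ × ℝ => Y p.1 p.2 := by
  refine Fermat.Agent.LT.T2.H472.locCont472 K w (ℝ × ℝ) (fun p => Y p.1 p.2)
    (fun p => (hY p.1 p.2).1) ?_
  intro i j
  have h : (fun p : ℝ × ℝ => infComp w (Y p.1 p.2) i j)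
      = fun p : ℝ × ℝ => (rotZ p.1 * rotY p.2 * torus d) i j := by
    funext p
    rw [(hY p.1 p.2).2]
  rw [h]
  simp only [Matrix.mul_apply, Fin.sum_univ_two]
  have hZ := fun i j => (continuous_rotZ_entry776c i j).comp
    (continuous_fst : Continuous fun p : ℝ × ℝ => p.1)
  have hYY := fun i j => (continuous_rotY_entry776c i j).comp
    (continuous_snd : Continuous fun p : ℝ × ℝ => p.2)
  simp only [Function.comp_def] at hZ hYY
  fun_prop

/-- The one-parameter family of rotations at a real place is continuous. -/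
theorem continuous_rot776c {w : InfinitePlace K} {k : ℝ → G K} (hk : IsRotAt w k) :
    Continuous k := by
  refine Fermat.Agent.LT.T2.H472.locCont472 K w ℝ k (fun θ => (hk θ).1) ?_
  intro i j
  have h : (fun θ : ℝ => infComp w (k θ) i j) = fun θ : ℝ => rotY θ i j := by
    funext θ
    rw [(hk θ).2]
  rw [h]
  exact continuous_rotY_entry776c i j

theorem rot_aux776c (c s : ℝ) (h : c ^ 2 + s ^ 2 = 1) :
    (!![(c : ℂ), -(s : ℂ); (s : ℂ), (c : ℂ)] : Matrix (Fin 2) (Fin 2) ℂ)
        * (!![(c : ℂ), -(s : ℂ); (s : ℂ), (c : ℂ)] : Matrix (Fin 2) (Fin 2) ℂ).conjTranspose = 1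
      ∧ (!![(c : ℂ), -(s : ℂ); (s : ℂ), (c : ℂ)] : Matrix (Fin 2) (Fin 2) ℂ).det = 1 := by
  have hC : (c : ℂ) ^ 2 + (s : ℂ) ^ 2 = 1 := by exact_mod_cast h
  constructor
  · ext i j
    fin_cases i <;> fin_cases j <;>
      simp [Matrix.mul_apply, Matrix.conjTranspose_apply, Fin.sum_univ_two] <;>
      first | linear_combination hC | ring
  · rw [Matrix.det_fin_two]
    simp
    linear_combination hC

theorem rotY_mul_conjTranspose776c (θ : ℝ) : rotY θ * (rotY θ).conjTranspose = 1 :=
  (rot_aux776c (Real.cos (θ / 2)) (Real.sin (θ / 2)) (Real.cos_sq_add_sin_sq (θ / 2))).1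

theorem det_rotY776c (θ : ℝ) : (rotY θ).det = 1 :=
  (rot_aux776c (Real.cos (θ / 2)) (Real.sin (θ / 2)) (Real.cos_sq_add_sin_sq (θ / 2))).2

/-- The rotations at a real place lie in the compact group. -/
theorem isArchCompact_rot776c {w : InfinitePlace K} {k : ℝ → G K} (hk : IsRotAt w k) (θ : ℝ) :
    IsArchCompact w (k θ) := by
  refine ⟨(hk θ).1, ?_, fun _ => ?_⟩
  · rw [(hk θ).2]
    exact rotY_mul_conjTranspose776c θ
  · rw [(hk θ).2]
    exact det_rotY776c θ

/-! ## 3. Fubini on a box -/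

/-- Interchange of three interval integrals for a continuous integrand with a weight in the
middle variable. -/
theorem swap3_776c {F : ℝ → ℝ → ℝ → ℂ}
    (hF : Continuous fun p : ℝ × ℝ × ℝ => F p.1 p.2.1 p.2.2) {s : ℝ → ℂ} (hs : Continuous s)
    (a b c d e f : ℝ) :
    (∫ α in a..b, ∫ β in c..d, (∫ θ in e..f, F α β θ) * s β)
      = ∫ θ in e..f, ∫ α in a..b, ∫ β in c..d, F α β θ * s β := by
  -- the integrand `G α β θ = F α β θ * s β`
  have hG : Continuous fun p : ℝ × ℝ × ℝ => F p.1 p.2.1 p.2.2 * s p.2.1 :=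
    hF.mul (hs.comp (continuous_fst.comp continuous_snd))
  -- step 1: the weight goes inside
  have h1 : ∀ α β : ℝ, (∫ θ in e..f, F α β θ) * s β = ∫ θ in e..f, F α β θ * s β := by
    intro α β
    exact (intervalIntegral.integral_mul_const (s β) (fun θ => F α β θ)).symm
  simp only [h1]
  -- step 2: interchange of the two inner integrals
  have h2 : ∀ α : ℝ, (∫ β in c..d, ∫ θ in e..f, F α β θ * s β)
      = ∫ θ in e..f, ∫ β in c..d, F α β θ * s β := by
    intro α
    apply intervalIntegral_intervalIntegral_swap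
    have hc : Continuous (Function.uncurry fun β θ : ℝ => F α β θ * s β) := by
      have : (Function.uncurry fun β θ : ℝ => F α β θ * s β)
          = (fun p : ℝ × ℝ × ℝ => F p.1 p.2.1 p.2.2 * s p.2.1) ∘ fun q : ℝ × ℝ => (α, q.1, q.2) := by
        funext q
        rfl
      rw [this]
      exact hG.comp (by fun_prop)
    exact (hc.continuousOn.integrableOn_compact
      (isCompact_uIcc.prod isCompact_uIcc)).mono_set
      (Set.prod_mono Set.uIoc_subset_uIcc Set.uIoc_subset_uIcc)
  simp only [h2]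
  -- step 3: interchange of the two outer integrals
  apply intervalIntegral_intervalIntegral_swap
  have hc : Continuous (Function.uncurry fun α θ : ℝ => ∫ β in c..d, F α β θ * s β) := by
    have hpar := intervalIntegral.continuous_parametric_intervalIntegral_of_continuous'
      (μ := volume) (f := fun (q : ℝ × ℝ) (β : ℝ) => F q.1 β q.2 * s β) (by
        have : (Function.uncurry fun (q : ℝ × ℝ) (β : ℝ) => F q.1 β q.2 * s β)
            = (fun p : ℝ × ℝ × ℝ => F p.1 p.2.1 p.2.2 * s p.2.1)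
                ∘ fun r : (ℝ × ℝ) × ℝ => (r.1.1, r.2, r.1.2) := by
          funext r
          rfl
        rw [this]
        exact hG.comp (by fun_prop)) c d
    exact hpar
  exact (hc.continuousOn.integrableOn_compact
    (isCompact_uIcc.prod isCompact_uIcc)).mono_set
    (Set.prod_mono Set.uIoc_subset_uIcc Set.uIoc_subset_uIcc)

/-! ## 4. The sub-leaf -/

/-- **T2.27.19**: a sphere mean and a `τ`-twisted circle mean commute on the cusp functions of
the class. -/
theorem subCommSphereCircleT776 (K : Type) [Field K] [NumberField K] :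
    SubCommSphereCircleT291 K := by
  intro 𝔫 τ hctx R w hw d _ Y hY w' hw' t _ k a hk ha φ hφ
  have hne : w ≠ w' := by
    rintro rfl
    exact (InfinitePlace.not_isReal_iff_isComplex.mpr hw) hw'
  have hcY : Continuous fun p : ℝ × ℝ => Y p.1 p.2 := continuous_sphere776c hY
  have hck : Continuous k := continuous_rot776c hk
  have hkc : ∀ θ : ℝ, IsArchCompact w' (k θ) := isArchCompact_rot776c hk
  have hτc : Continuous fun θ : ℝ => τ (k θ) :=
    (hctx.kt.cont w').comp_continuous hck hkc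
  have hτ0 : ∀ θ : ℝ, τ (k θ) ≠ 0 := by
    intro θ h0
    have h1 := hctx.kt.norm_one w' (k θ) (hkc θ)
    rw [h0, norm_zero] at h1
    exact zero_ne_one h1
  have hτi : Continuous fun θ : ℝ => (τ (k θ))⁻¹ := hτc.inv₀ hτ0
  funext g
  show (∫ α in (0 : ℝ)..(2 * Real.pi), ∫ β in (0 : ℝ)..Real.pi,
        circleMeanT τ k a φ (g * Y α β) * ((Real.sin β : ℝ) : ℂ))
      = ∫ θ in (0 : ℝ)..(2 * Real.pi), (τ (k θ))⁻¹ * sphereMean Y φ (g * k θ * a)
  simp only [circleMeanT, sphereMean]
  have hcomm : ∀ α β θ : ℝ, g * k θ * a * Y α β = g * Y α β * k θ * a := by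
    intro α β θ
    have h1 : a * Y α β = Y α β * a := (comm_of_local776c hne (hY α β).1 ha.1).symm
    have h2 : k θ * Y α β = Y α β * k θ := (comm_of_local776c hne (hY α β).1 (hk θ).1).symm
    calc g * k θ * a * Y α β = g * k θ * (a * Y α β) := by rw [mul_assoc]
      _ = g * k θ * (Y α β * a) := by rw [h1]
      _ = g * (k θ * Y α β) * a := by simp only [mul_assoc]
      _ = g * (Y α β * k θ) * a := by rw [h2]
      _ = g * Y α β * k θ * a := by simp only [mul_assoc]
  simp only [hcomm]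
  have hF : Continuous fun p : ℝ × ℝ × ℝ =>
      (τ (k p.2.2))⁻¹ * φ (g * Y p.1 p.2.1 * k p.2.2 * a) := by
    refine (hτi.comp (continuous_snd.comp continuous_snd)).mul (hφ.aut.cont.comp ?_)
    have h1 : Continuous fun p : ℝ × ℝ × ℝ => Y p.1 p.2.1 :=
      hcY.comp (continuous_fst.prodMk (continuous_fst.comp continuous_snd))
    have h2 : Continuous fun p : ℝ × ℝ × ℝ => k p.2.2 :=
      hck.comp (continuous_snd.comp continuous_snd)
    exact ((continuous_const.mul h1).mul h2).mul continuous_const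
  have hs : Continuous fun β : ℝ => ((Real.sin β : ℝ) : ℂ) := by fun_prop
  rw [swap3_776c (F := fun α β θ => (τ (k θ))⁻¹ * φ (g * Y α β * k θ * a)) hF
    (s := fun β => ((Real.sin β : ℝ) : ℂ)) hs]
  refine intervalIntegral.integral_congr fun θ _ => ?_
  show (∫ α in (0 : ℝ)..(2 * Real.pi), ∫ β in (0 : ℝ)..Real.pi,
        (τ (k θ))⁻¹ * φ (g * Y α β * k θ * a) * ((Real.sin β : ℝ) : ℂ))
      = (τ (k θ))⁻¹ * ∫ α in (0 : ℝ)..(2 * Real.pi), ∫ β in (0 : ℝ)..Real.pi,
        φ (g * Y α β * k θ * a) * ((Real.sin β : ℝ) : ℂ)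
  rw [← intervalIntegral.integral_const_mul]
  refine intervalIntegral.integral_congr fun α _ => ?_
  show (∫ β in (0 : ℝ)..Real.pi,
        (τ (k θ))⁻¹ * φ (g * Y α β * k θ * a) * ((Real.sin β : ℝ) : ℂ))
      = (τ (k θ))⁻¹ * ∫ β in (0 : ℝ)..Real.pi,
        φ (g * Y α β * k θ * a) * ((Real.sin β : ℝ) : ℂ)
  rw [← intervalIntegral.integral_const_mul]
  refine intervalIntegral.integral_congr fun β _ => ?_
  show (τ (k θ))⁻¹ * φ (g * Y α β * k θ * a) * ((Real.sin β : ℝ) : ℂ)
      = (τ (k θ))⁻¹ * (φ (g * Y α β * k θ * a) * ((Real.sin β : ℝ) : ℂ))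
  rw [mul_assoc]

end Fermat.Agent.LT.T2.H776

end
end
-- ===== PACK-END LT/T2/H776/CommSphereCircleT.lean

-- ===== PACK-BEGIN LT/T2/H409/SpherePresT.lean
section




/-!
# Row LT, tower T2, sub-leaf T2.27.12 `SubSpherePresT291` (helper409, registry row 1394)

OFF-MAIN.  The sphere means at a complex place preserve the cusp functions of the class
`(𝔫, τ, r)` of T5:

`subSpherePresT409 : SubS2RotT291 → SubTypeSU2T291 K → SubSpherePresT291 K`.

`T`-form of `T2.07.12`; the proof is the one of helper566 (`LT/T2/H566/SpherePres.lean`, spare of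
helper90) with `τ`, `r` as parameters.

* continuity, boundedness, left invariance, level: as in `T2.07.12`;
* the ray generator `r` is central (`central_of_comp409`);
* type `τ` under `U(2)` at the place of the mean: `k = Z K₀`, `Z` a unitary scalar (central),
  `K₀ ∈ SU(2)`; `τ K₀ = 1` (`SubTypeSU2T291`), and `SubS2RotT291` is applied to
  `ψ(m) = φ(g · loc_w(m · torus d))`, which is right invariant under the torus `{rotZ γ}` because
  `rotZ γ ∈ SU(2)` commutes with `torus d`;
* type `τ` at the other infinite places: the elements commute with `Y α β`;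
* cuspidality: Fubini (`μ D < ∞` by `T1.AddFundDomC`).

Imports (byte-identical copies): `LT/T2/H291/OpsSpecT.lean` (helper291, c8359c85),
`LT/T2/H566/{SpherePres (b09e34f4), CuspSub (e069a95a)}.lean` (helper566),
`LT/T2/H429/{OpsSpec (6efb177a), Loc (e54337bf)}.lean` (helper429), `LT/T2/H472/LocCont.lean`
(helper472, 407bf890), `LT/H129/{Comp, Local}.lean` (helper129), `LT/T1/H793/AdeleProj.lean`
(helper793).
-/

set_option autoImplicit false
set_option linter.unusedSectionVars false
set_option linter.style.haveILetI false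

open IsDedekindDomain NumberField MeasureTheory
open Fermat.Agent.LT.H556.A0 Fermat.Agent.LT
open Fermat.Agent.LT.T2 Fermat.Agent.LT.T2.H429 Fermat.Agent.LT.T2.H472
open Fermat.Agent.LT.T2.H566 Fermat.Agent.LT.T2.H291 Fermat.Agent.LT.H129
open scoped ComplexConjugate

noncomputable section

namespace Fermat.Agent.LT.T2.H409

open NumberField.InfinitePlace

variable {K : Type} [Field K] [NumberField K]

attribute [local instance] Fermat.Agent.LT.T2.borelG

/-! ## Central elements -/

/-- An element which is trivial at the finite places and a scalar matrix at every infinite place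
is central. -/
theorem central_of_comp409 {z : G K}
    (hI : ∀ w : InfinitePlace K, ∃ c : ℂ, infComp w z = Matrix.diagonal (fun _ => c))
    (hF : ∀ v : HeightOneSpectrum (𝓞 K), TrivAtFin v z) (g : G K) : g * z = z * g := by
  refine central_of_scalar_comp429 (fun w => ?_) (fun v => ?_) g
  · obtain ⟨c, hc⟩ := hI w
    exact ⟨_, scalar_of_map_scalar429 _ c (by rw [← infComp_eq429]; exact hc)⟩
  · refine ⟨1, ?_⟩
    rw [(trivAtFin_iff129 v z).1 (hF v)]
    exact one_eq_diagonal429

/-- The ray generator is central. -/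
theorem central_ray409 {r : G K} (hr : IsRayGen r) (g : G K) : g * r = r * g := by
  obtain ⟨hfin, t, -, -, ht⟩ := hr
  exact central_of_comp409 (fun w => ⟨(t : ℂ), ht w⟩) hfin g

/-- `A0.infComp` of an element which is trivial at `w`. -/
theorem infComp_of_trivAtInf409 {w : InfinitePlace K} {g : G K} (h : TrivAtInf w g) :
    infComp w g = 1 := by
  rw [infComp_eq429, (trivAtInf_iff129 w g).1 h, Units.val_one,
    Matrix.map_one _ (map_zero _) (map_one _)]

/-- A local element at `w` with a scalar matrix is central. -/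
theorem central_of_local_scalar409 {w : InfinitePlace K} {z : G K} (hz : IsLocalAtInf w z)
    {c : ℂ} (hc : infComp w z = Matrix.diagonal (fun _ => c)) (g : G K) : g * z = z * g := by
  refine central_of_comp409 (fun w' => ?_) hz.2 g
  by_cases h : w' = w
  · subst h
    exact ⟨c, hc⟩
  · refine ⟨1, ?_⟩
    rw [infComp_of_trivAtInf409 (hz.1 w' h), Matrix.diagonal_one]

/-! ## Matrices -/

theorem det_torus_ne_zero409 (d : ℝ) : (torus d).det ≠ 0 := by
  unfold torus
  rw [Matrix.det_fin_two_of, mul_zero, sub_zero, ← Complex.ofReal_mul, ← Real.exp_add]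
  exact_mod_cast (Real.exp_pos _).ne'

theorem rotZ_mul_torus409 (γ d : ℝ) : rotZ γ * torus d = torus d * rotZ γ := by
  unfold rotZ torus
  ext i j
  fin_cases i <;> fin_cases j <;> simp [Matrix.mul_apply, Fin.sum_univ_two, mul_comm]

theorem rotZ_unitary409 (γ : ℝ) : rotZ γ * (rotZ γ).conjTranspose = 1 := by
  unfold rotZ
  ext i j
  fin_cases i <;> fin_cases j <;>
    simp [Matrix.mul_apply, Fin.sum_univ_two, Matrix.conjTranspose_apply, ← Complex.exp_conj,
      ← Complex.exp_add, Complex.conj_ofNat]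

theorem det_rotZ409 (γ : ℝ) : (rotZ γ).det = 1 := by
  unfold rotZ
  rw [Matrix.det_fin_two_of, mul_zero, sub_zero, ← Complex.exp_add, add_neg_cancel,
    Complex.exp_zero]

/-- A unitary matrix is the product of a unitary scalar and an element of `SU(2)`. -/
theorem exists_scalar_su409 {m : Matrix (Fin 2) (Fin 2) ℂ} (hm : m * m.conjTranspose = 1) :
    ∃ (c : ℂ) (k₀ : Matrix (Fin 2) (Fin 2) ℂ), c * conj c = 1 ∧ k₀ * k₀.conjTranspose = 1 ∧
      k₀.det = 1 ∧ m = Matrix.diagonal (fun _ => c) * k₀ := by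
  have hdet : m.det * conj m.det = 1 := by
    have := congrArg Matrix.det hm
    rwa [Matrix.det_mul, Matrix.det_conjTranspose, Matrix.det_one] at this
  have hdet0 : m.det ≠ 0 := left_ne_zero_of_mul_eq_one hdet
  obtain ⟨c, hc⟩ := IsAlgClosed.exists_pow_nat_eq m.det (n := 2) (by norm_num)
  have hc0 : c ≠ 0 := by
    intro h0
    rw [h0] at hc
    exact hdet0 (by rw [← hc]; norm_num)
  have hcc : c * conj c = 1 := by
    have h1 : (c * conj c) ^ 2 = 1 := by
      rw [mul_pow, ← map_pow, hc]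
      exact hdet
    have h2 : c * conj c = ((Complex.normSq c : ℝ) : ℂ) := Complex.mul_conj c
    rw [h2] at h1 ⊢
    have h3 : (Complex.normSq c) ^ 2 = 1 := by exact_mod_cast h1
    have h4 : Complex.normSq c = 1 := by
      have h5 : 0 ≤ Complex.normSq c := Complex.normSq_nonneg c
      nlinarith [h3, h5]
    rw [h4, Complex.ofReal_one]
  refine ⟨c, c⁻¹ • m, hcc, ?_, ?_, ?_⟩
  · rw [Matrix.conjTranspose_smul, Matrix.smul_mul, Matrix.mul_smul, hm, smul_smul]
    have : c⁻¹ * star c⁻¹ = 1 := by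
      rw [star_inv₀, ← mul_inv]
      show (c * conj c)⁻¹ = 1
      rw [hcc, inv_one]
    rw [this, one_smul]
  · rw [Matrix.det_smul, Fintype.card_fin, ← hc, inv_pow, inv_mul_cancel₀ (pow_ne_zero 2 hc0)]
  · have : (Matrix.diagonal (fun _ => c) : Matrix (Fin 2) (Fin 2) ℂ) = c • 1 := by
      ext i j
      by_cases h : i = j
      · subst h
        simp
      · simp [Matrix.diagonal_apply_ne _ h, Matrix.one_apply_ne h]
    rw [this, Matrix.smul_mul, Matrix.one_mul, smul_smul, mul_inv_cancel₀ hc0, one_smul]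

theorem diagonal_unitary409 {c : ℂ} (hc : c * conj c = 1) :
    (Matrix.diagonal (fun _ => c) : Matrix (Fin 2) (Fin 2) ℂ)
      * (Matrix.diagonal (fun _ => c) : Matrix (Fin 2) (Fin 2) ℂ).conjTranspose = 1 := by
  rw [Matrix.diagonal_conjTranspose, Matrix.diagonal_mul_diagonal, ← Matrix.diagonal_one]
  congr 1
  funext i
  exact hc

/-! ## The function fed to `SubS2RotT291` -/

/-- `ψ(m) = φ(g · loc_w(m · torus d))`. -/
def psiT409 (w : InfinitePlace K) (hw : w.IsComplex) (φ : G K → ℂ) (g : G K) (d : ℝ) :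
    Matrix (Fin 2) (Fin 2) ℂ → ℂ :=
  fun m => psiC566 w hw φ g (m * torus d)

theorem continuousOn_psiT409 (w : InfinitePlace K) (hw : w.IsComplex) {φ : G K → ℂ}
    (hφ : Continuous φ) (g : G K) (d : ℝ) :
    ContinuousOn (psiT409 w hw φ g d) {m | m.det ≠ 0} := by
  have h1 : ContinuousOn (fun m : Matrix (Fin 2) (Fin 2) ℂ => m * torus d) {m | m.det ≠ 0} :=
    (continuous_id.matrix_mul continuous_const).continuousOn
  refine (continuousOn_psiC566 w hw hφ g).comp h1 ?_
  intro m hm
  show (m * torus d).det ≠ 0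
  rw [Matrix.det_mul]
  exact mul_ne_zero hm (det_torus_ne_zero409 d)

/-- The type of `ψ = psiC566` under right multiplication by a unitary matrix. -/
theorem psiC_right_type409 (w : InfinitePlace K) (hw : w.IsComplex) {τ : G K → ℂ}
    {φ : G K → ℂ}
    (hinv : ∀ (w : InfinitePlace K) (k : G K), IsArchCompact w k →
      ∀ g : G K, φ (g * k) = τ k * φ g)
    (g : G K) (m k : Matrix (Fin 2) (Fin 2) ℂ) (hk : k * k.conjTranspose = 1)
    (hkdet : k.det ≠ 0) :
    psiC566 w hw φ g (m * k) = τ (locC566 w hw k hkdet) * psiC566 w hw φ g m := by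
  by_cases hm : m.det ≠ 0
  · have hmk : (m * k).det ≠ 0 := by
      rw [Matrix.det_mul]
      exact mul_ne_zero hm hkdet
    unfold psiC566
    rw [dif_pos hmk, dif_pos hm, locC_mul566 w hw m k hm hkdet hmk, ← mul_assoc]
    refine hinv w _ ⟨isLocalAtInf_locC566 w hw k hkdet, ?_, fun hr => ?_⟩ _
    · rw [infComp_locC566]
      exact hk
    · exact absurd hr (not_isReal_iff_isComplex.2 hw)
  · have hmk : ¬ (m * k).det ≠ 0 := by
      rw [Matrix.det_mul]
      push Not at hm ⊢
      rw [hm, zero_mul]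
    unfold psiC566
    rw [dif_neg hmk, dif_neg hm, mul_zero]

theorem isArchCompact_locC409 (w : InfinitePlace K) (hw : w.IsComplex)
    {k : Matrix (Fin 2) (Fin 2) ℂ} (hk : k * k.conjTranspose = 1) (hkdet : k.det ≠ 0) :
    IsArchCompact w (locC566 w hw k hkdet) := by
  refine ⟨isLocalAtInf_locC566 w hw k hkdet, ?_, fun hr => ?_⟩
  · rw [infComp_locC566]
    exact hk
  · exact absurd hr (not_isReal_iff_isComplex.2 hw)

/-! ## The sub-leaf -/

/-- **T2.27.12 `SubSpherePresT291`** from `SubS2RotT291` (T2.27.31) and `SubTypeSU2T291`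
(T2.27.33). -/
theorem subSpherePresT409 (K : Type) [Field K] [NumberField K] (hS2 : SubS2RotT291)
    (hSU : SubTypeSU2T291 K) : SubSpherePresT291 K := by
  intro 𝔫 τ c R w hw d _ Y hY φ hφ
  have hYc : Continuous fun p : ℝ × ℝ => Y p.1 p.2 := continuous_sphere566 w d Y hY
  have hsin : Continuous fun β : ℝ => ((Real.sin β : ℝ) : ℂ) := by fun_prop
  obtain ⟨C, hC⟩ := hφ.aut.bdd
  have hC0 : 0 ≤ C := (norm_nonneg _).trans (hC 1)
  -- the inner integral is jointly continuous
  have hinner : ∀ {X : Type} [TopologicalSpace X] (a : X → G K), Continuous a →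
      Continuous fun p : X × ℝ => ∫ β in (0 : ℝ)..Real.pi,
        φ (a p.1 * Y p.2 β) * ((Real.sin β : ℝ) : ℂ) := by
    intro X _ a ha
    have hf : Continuous (Function.uncurry fun (p : X × ℝ) (β : ℝ) =>
        φ (a p.1 * Y p.2 β) * ((Real.sin β : ℝ) : ℂ)) := by
      refine (hφ.aut.cont.comp ?_).mul (hsin.comp continuous_snd)
      refine (ha.comp (continuous_fst.comp continuous_fst)).mul ?_
      exact hYc.comp ((continuous_snd.comp continuous_fst).prodMk continuous_snd)
    exact intervalIntegral.continuous_parametric_intervalIntegral_of_continuous' hf 0 Real.pi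
  have hinner_bd : ∀ (g : G K) (α : ℝ), ‖∫ β in (0 : ℝ)..Real.pi,
      φ (g * Y α β) * ((Real.sin β : ℝ) : ℂ)‖ ≤ C * |Real.pi - 0| := by
    intro g α
    refine intervalIntegral.norm_integral_le_of_norm_le_const fun β _ => ?_
    rw [norm_mul, Complex.norm_real]
    calc ‖φ (g * Y α β)‖ * ‖Real.sin β‖ ≤ C * 1 :=
          mul_le_mul (hC _) (by rw [Real.norm_eq_abs]; exact Real.abs_sin_le_one β)
            (norm_nonneg _) hC0
      _ = C := mul_one C
  -- a factor `τ k` comes out of the mean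
  have hpull : ∀ (t : ℂ) (g h : G K),
      (∀ α β : ℝ, φ (g * Y α β) = t * φ (h * Y α β)) →
      sphereMean Y φ g = t * sphereMean Y φ h := by
    intro t g h e
    show (∫ α in (0 : ℝ)..(2 * Real.pi), ∫ β in (0 : ℝ)..Real.pi,
        φ (g * Y α β) * ((Real.sin β : ℝ) : ℂ))
      = t * ∫ α in (0 : ℝ)..(2 * Real.pi), ∫ β in (0 : ℝ)..Real.pi,
        φ (h * Y α β) * ((Real.sin β : ℝ) : ℂ)
    rw [← intervalIntegral.integral_const_mul]
    congr 1
    funext α
    rw [← intervalIntegral.integral_const_mul]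
    congr 1
    funext β
    rw [e α β, mul_assoc]
  refine ⟨⟨?_, ?_, ?_, ?_, ?_, ?_⟩, ?_⟩
  · -- continuity
    have h2 : Continuous (Function.uncurry fun (g : G K) (α : ℝ) =>
        ∫ β in (0 : ℝ)..Real.pi, φ (g * Y α β) * ((Real.sin β : ℝ) : ℂ)) :=
      hinner (fun g : G K => g) continuous_id
    exact intervalIntegral.continuous_parametric_intervalIntegral_of_continuous' h2 0
      (2 * Real.pi)
  · -- boundedness
    refine ⟨C * |Real.pi - 0| * |2 * Real.pi - 0|, fun g => ?_⟩
    exact intervalIntegral.norm_integral_le_of_norm_le_const fun α _ => hinner_bd g α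
  · -- left invariance
    intro γ g
    have := hpull 1 (Matrix.GeneralLinearGroup.map (algebraMap K (Adl K)) γ * g) g
      (fun α β => by rw [mul_assoc, hφ.aut.left_inv γ _, one_mul])
    rwa [one_mul] at this
  · -- level
    intro u hu g
    have := hpull 1 (g * u) g (fun α β => by
      rw [mul_assoc, commute_level_inf429 hu (hY α β).1, ← mul_assoc,
        hφ.aut.level_inv u hu _, one_mul])
    rwa [one_mul] at this
  · -- the type under the compact groups
    intro w' k hk g
    by_cases h : w' = w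
    · subst h
      obtain ⟨z, k₀, hzz, hk₀u, hk₀d, hdec⟩ := exists_scalar_su409 hk.2.1
      have hzdet : (Matrix.diagonal (fun _ => z) : Matrix (Fin 2) (Fin 2) ℂ).det ≠ 0 :=
        det_ne_zero_of_unitary566 (diagonal_unitary409 hzz)
      have hk₀det : k₀.det ≠ 0 := by rw [hk₀d]; exact one_ne_zero
      set Z : G K := locC566 w' hw (Matrix.diagonal (fun _ => z)) hzdet with hZ
      set K₀ : G K := locC566 w' hw k₀ hk₀det with hK₀
      have hZc : IsArchCompact w' Z := isArchCompact_locC409 w' hw (diagonal_unitary409 hzz) _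
      have hK₀c : IsArchCompact w' K₀ := isArchCompact_locC409 w' hw hk₀u _
      have hkZK : k = Z * K₀ := by
        refine eq_of_isLocalAtInf429 hk.1 (isLocalAtInf_mul429 hZc.1 hK₀c.1) ?_
        rw [infComp_mul429, hZ, hK₀, infComp_locC566, infComp_locC566]
        exact hdec
      have hZcen : ∀ x : G K, x * Z = Z * x :=
        central_of_local_scalar409 hZc.1 (infComp_locC566 w' hw _ hzdet)
      have hτK₀ : τ K₀ = 1 :=
        hSU τ c.kt w' hw K₀ hK₀c (by rw [hK₀, infComp_locC566]; exact hk₀d)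
      have hτk : τ k = τ Z := by
        rw [hkZK, c.kt.mul w' Z K₀ hZc hK₀c, hτK₀, mul_one]
      -- the rotation invariance
      have hinvψ : ∀ (m : Matrix (Fin 2) (Fin 2) ℂ) (γ : ℝ),
          psiT409 w' hw φ g d (m * rotZ γ) = psiT409 w' hw φ g d m := by
        intro m γ
        have hrdet : (rotZ γ).det ≠ 0 := by rw [det_rotZ409]; exact one_ne_zero
        show psiC566 w' hw φ g (m * rotZ γ * torus d) = psiC566 w' hw φ g (m * torus d)
        rw [Matrix.mul_assoc, rotZ_mul_torus409, ← Matrix.mul_assoc,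
          psiC_right_type409 w' hw hφ.aut.arch_compact g (m * torus d) (rotZ γ)
            (rotZ_unitary409 γ) hrdet]
        rw [hSU τ c.kt w' hw _ (isArchCompact_locC409 w' hw (rotZ_unitary409 γ) hrdet)
          (by rw [infComp_locC566]; exact det_rotZ409 γ), one_mul]
      have key := hS2 (psiT409 w' hw φ g d) (continuousOn_psiT409 w' hw hφ.aut.cont g d)
        hinvψ k₀ hk₀u hk₀d
      have e1 : ∀ α β : ℝ, psiT409 w' hw φ g d (k₀ * (rotZ α * rotY β))
          = φ (g * K₀ * Y α β) := by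
        intro α β
        have := psiC_of_local566 w' hw φ g (isLocalAtInf_mul429 hK₀c.1 (hY α β).1)
        rw [infComp_mul429, (hY α β).2, hK₀, infComp_locC566, ← hK₀, ← mul_assoc g] at this
        show psiC566 w' hw φ g (k₀ * (rotZ α * rotY β) * torus d) = φ (g * K₀ * Y α β)
        rw [← this]
        congr 1
        simp only [Matrix.mul_assoc]
      have e2 : ∀ α β : ℝ, psiT409 w' hw φ g d (rotZ α * rotY β) = φ (g * Y α β) := by
        intro α β
        have := psiC_of_local566 w' hw φ g (hY α β).1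
        rw [(hY α β).2] at this
        exact this
      simp only [e1, e2] at key
      -- assemble
      have h1 : sphereMean Y φ (g * k) = τ Z * sphereMean Y φ (g * K₀) := by
        refine hpull (τ Z) (g * k) (g * K₀) fun α β => ?_
        have : g * k * Y α β = g * K₀ * Y α β * Z := by
          rw [hkZK, hZcen (g * K₀ * Y α β)]
          simp only [mul_assoc]
          rw [← mul_assoc g Z, hZcen g]
          simp only [mul_assoc]
        rw [this, hφ.aut.arch_compact w' Z hZc]
      rw [h1, hτk]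
      congr 1
    · refine hpull (τ k) (g * k) g fun α β => ?_
      rw [mul_assoc, commute_inf_inf429 h hk.1 (hY α β).1, ← mul_assoc,
        hφ.aut.arch_compact w' k hk _]
  · -- the ray
    intro g
    have := hpull 1 (g * R.r) g (fun α β => by
      rw [mul_assoc, ← central_ray409 R.ray (Y α β), ← mul_assoc, hφ.aut.ray, one_mul])
    rwa [one_mul] at this
  · -- cuspidality
    letI : MeasurableSpace (Adl K) := borel (Adl K)
    haveI : BorelSpace (Adl K) := ⟨rfl⟩
    intro μ hμ D hD n hn g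
    haveI := hμ
    have hDfin : μ D < ⊤ := measure_fundDom_lt_top566 c.t1.addFundDom μ hμ D hD
    haveI : IsFiniteMeasure (μ.restrict D) := ⟨by rwa [Measure.restrict_apply_univ]⟩
    have hnc : Continuous n := continuous_unip566 n hn
    -- first swap: `x` and `α`
    set F : Adl K → ℝ → ℂ := fun x α =>
      ∫ β in (0 : ℝ)..Real.pi, φ (n x * g * Y α β) * ((Real.sin β : ℝ) : ℂ) with hF
    have hFc : Continuous (Function.uncurry F) :=
      hinner (fun x : Adl K => n x * g) (hnc.mul continuous_const)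
    have hFint : Integrable (Function.uncurry F)
        ((μ.restrict D).prod (volume.restrict (Set.Ioc (0 : ℝ) (2 * Real.pi)))) :=
      Integrable.mono' (g := fun _ => C * |Real.pi - 0|) (integrable_const _)
        hFc.aestronglyMeasurable (Filter.Eventually.of_forall fun p => hinner_bd _ _)
    have h1 : ∀ x : Adl K, sphereMean Y φ (n x * g)
        = ∫ α in Set.Ioc (0 : ℝ) (2 * Real.pi), F x α := fun x =>
      intervalIntegral.integral_of_le (by positivity)
    show ∫ x in D, sphereMean Y φ (n x * g) ∂μ = 0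
    simp only [h1]
    rw [integral_integral_swap hFint]
    -- second swap: `x` and `β`, for every `α`
    have h2 : ∀ α : ℝ, ∫ x in D, F x α ∂μ = 0 := by
      intro α
      set f : Adl K → ℝ → ℂ := fun x β => φ (n x * g * Y α β) * ((Real.sin β : ℝ) : ℂ)
        with hf
      have hfc : Continuous (Function.uncurry f) := by
        refine (hφ.aut.cont.comp ?_).mul (hsin.comp continuous_snd)
        refine ((hnc.comp continuous_fst).mul continuous_const).mul ?_
        exact hYc.comp (continuous_const.prodMk continuous_snd)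
      have hfint : Integrable (Function.uncurry f)
          ((μ.restrict D).prod (volume.restrict (Set.Ioc (0 : ℝ) Real.pi))) := by
        refine Integrable.mono' (g := fun _ => C) (integrable_const C)
          hfc.aestronglyMeasurable (Filter.Eventually.of_forall fun p => ?_)
        show ‖φ (n p.1 * g * Y α p.2) * ((Real.sin p.2 : ℝ) : ℂ)‖ ≤ C
        rw [norm_mul, Complex.norm_real]
        calc ‖φ (n p.1 * g * Y α p.2)‖ * ‖Real.sin p.2‖ ≤ C * 1 :=
              mul_le_mul (hC _) (by rw [Real.norm_eq_abs]; exact Real.abs_sin_le_one _)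
                (norm_nonneg _) hC0
          _ = C := mul_one C
      have h3 : ∀ x : Adl K, F x α = ∫ β in Set.Ioc (0 : ℝ) Real.pi, f x β := fun x =>
        intervalIntegral.integral_of_le Real.pi_pos.le
      simp only [h3]
      rw [integral_integral_swap hfint]
      have h4 : ∀ β : ℝ, ∫ x in D, f x β ∂μ = 0 := by
        intro β
        have := hφ.cuspidal μ hμ D hD n hn (g * Y α β)
        simp only [hf]
        rw [integral_mul_const]
        simp only [mul_assoc]
        rw [this, zero_mul]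
      simp only [h4, integral_zero]
    simp only [h2, integral_zero]

end Fermat.Agent.LT.T2.H409

end

end
-- ===== PACK-END LT/T2/H409/SpherePresT.lean

-- ===== PACK-BEGIN LT/T2/H770/MeanAdj.lean
section





/-!
# Row LT, tower T2, sub-leaf T2.07.16 `SubMeanAdj429` (helper770) -- OFF-MAIN

Sphere and circle means are self-adjoint for the Petersson pairing on the cusp functions.

Delivered: `subMeanAdj770 : SubTransl429 K → SubMeanAdj429 K` (input = the KEY LEMMA T2.07.00
only; T2.07.30 is closed by `subLocCont472` of helper472), and the form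
`subMeanAdj_of770 : SubTransl429 K → SubLocCont429 K → SubMeanAdj429 K`.

Proof.  `B(h) = ∫_D φ(g h) conj ψ(g) dμ(g)`.
* KEY LEMMA applied to `Φ(g) = φ(g h₂⁻¹ h₁) conj ψ(g)` (continuous, bounded, left invariant,
  `Z⁺`-invariant because `Z⁺` is central and the cusp functions are `Z⁺`-invariant, `Comp.lean`):
  `∫_D φ(g h₁) conj ψ(g h₂) = B(h₂⁻¹ h₁)` (`transl770`).
* Hence `B` is left and right invariant under the compact group at `w` (`B_left770`,
  `B_right770`), and `∫_D φ(g) conj ψ(g y) = B(y⁻¹)`.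
* For `y = k a` with `k` compact at `w`, `a` of component `torus d`: `B(y) = B(a)`,
  `B(y⁻¹) = B(a⁻¹)`, and `a⁻¹ = J a J⁻¹` with `J` of component `rotY π = [[0,-1],[1,0]]`
  (`torus d * rotY π * torus d = rotY π`), so `B(a⁻¹) = B(a)`: POINTWISE symmetry
  `∫_D φ(g y) conj ψ(g) = ∫_D φ(g) conj ψ(g y)` for every point `y` of the sphere (`pointwise770`).
  All the elements are taken from the parametrisation itself:
  `a = Y 0 0`, `k = Y α β * a⁻¹`, `J = Y 0 π * a⁻¹`.
* Fubini on `D × [0,2π] × [0,π]` (finite measure, bounded continuous integrand):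
  `mean_adj_abstract770`.
-/

set_option autoImplicit false
set_option linter.unusedSectionVars false

open IsDedekindDomain NumberField MeasureTheory
open Fermat.Agent.LT.H556.A0
open Fermat.Agent.LT.T2 Fermat.Agent.LT.T2.H429 Fermat.Agent.LT.T2.H472
open scoped ComplexConjugate

noncomputable section

namespace Fermat.Agent.LT.T2.H770

variable {K : Type} [Field K] [NumberField K]

attribute [local instance] Fermat.Agent.LT.T2.borelG

/-! ## 1. The abstract Fubini argument -/

/-- If `∫_D φ(g y) conj ψ(g) = ∫_D φ(g) conj ψ(g y)` for every point `y = y p` of a continuous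
family, then the mean over the family (finite measure `ν`, real bounded continuous weight `s`) is
self-adjoint on the bounded continuous functions. -/
theorem mean_adj_abstract770 {G P : Type*} [Group G] [TopologicalSpace G] [IsTopologicalGroup G]
    [MeasurableSpace G] [BorelSpace G] [TopologicalSpace P] [SecondCountableTopology P]
    [MeasurableSpace P] [BorelSpace P] (μ : Measure G) (D : Set G) (hD : μ D < ⊤)
    (ν : Measure P) [IsFiniteMeasure ν] {φ ψ : G → ℂ} (hφ : Continuous φ) (hψ : Continuous ψ)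
    {Cφ Cψ : ℝ} (hCφ : ∀ g, ‖φ g‖ ≤ Cφ) (hCψ : ∀ g, ‖ψ g‖ ≤ Cψ) {y : P → G} (hy : Continuous y)
    {s : P → ℝ} (hs : Continuous s) {Cs : ℝ} (hCs : ∀ p, |s p| ≤ Cs)
    (hpt : ∀ p, ∫ g in D, φ (g * y p) * conj (ψ g) ∂μ = ∫ g in D, φ g * conj (ψ (g * y p)) ∂μ) :
    ∫ g in D, (∫ p, φ (g * y p) * ((s p : ℝ) : ℂ) ∂ν) * conj (ψ g) ∂μ
      = ∫ g in D, φ g * conj (∫ p, ψ (g * y p) * ((s p : ℝ) : ℂ) ∂ν) ∂μ := by
  have : IsFiniteMeasure (μ.restrict D) := ⟨by rw [Measure.restrict_apply_univ]; exact hD⟩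
  have hCφ0 : 0 ≤ Cφ := (norm_nonneg _).trans (hCφ 1)
  have hCψ0 : 0 ≤ Cψ := (norm_nonneg _).trans (hCψ 1)
  have hmul : Continuous fun q : G × P => q.1 * y q.2 :=
    continuous_fst.mul (hy.comp continuous_snd)
  have hsC : Continuous fun q : G × P => ((s q.2 : ℝ) : ℂ) :=
    Complex.continuous_ofReal.comp (hs.comp continuous_snd)
  -- the two integrands on `D × P`
  have hc1 : Continuous fun q : G × P => φ (q.1 * y q.2) * ((s q.2 : ℝ) : ℂ) * conj (ψ q.1) :=
    ((hφ.comp hmul).mul hsC).mul (Complex.continuous_conj.comp (hψ.comp continuous_fst))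
  have hc2 : Continuous fun q : G × P => φ q.1 * conj (ψ (q.1 * y q.2) * ((s q.2 : ℝ) : ℂ)) :=
    (hφ.comp continuous_fst).mul (Complex.continuous_conj.comp ((hψ.comp hmul).mul hsC))
  have hb : ∀ p, ‖((s p : ℝ) : ℂ)‖ ≤ Cs := fun p => by
    rw [Complex.norm_real, Real.norm_eq_abs]
    exact hCs p
  have hi1 : Integrable (Function.uncurry fun (g : G) (p : P) =>
      φ (g * y p) * ((s p : ℝ) : ℂ) * conj (ψ g)) ((μ.restrict D).prod ν) := by
    refine Integrable.of_bound hc1.aestronglyMeasurable (Cφ * Cs * Cψ)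
      (Filter.Eventually.of_forall fun q => ?_)
    show ‖φ (q.1 * y q.2) * ((s q.2 : ℝ) : ℂ) * conj (ψ q.1)‖ ≤ _
    rw [norm_mul, norm_mul, RCLike.norm_conj]
    have h0 : 0 ≤ Cs := (norm_nonneg _).trans (hb q.2)
    exact mul_le_mul (mul_le_mul (hCφ _) (hb _) (norm_nonneg _) hCφ0) (hCψ _) (norm_nonneg _)
      (mul_nonneg hCφ0 h0)
  have hi2 : Integrable (Function.uncurry fun (g : G) (p : P) =>
      φ g * conj (ψ (g * y p) * ((s p : ℝ) : ℂ))) ((μ.restrict D).prod ν) := by
    refine Integrable.of_bound hc2.aestronglyMeasurable (Cφ * (Cψ * Cs))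
      (Filter.Eventually.of_forall fun q => ?_)
    show ‖φ q.1 * conj (ψ (q.1 * y q.2) * ((s q.2 : ℝ) : ℂ))‖ ≤ _
    rw [norm_mul, RCLike.norm_conj, norm_mul]
    have h0 : 0 ≤ Cs := (norm_nonneg _).trans (hb q.2)
    exact mul_le_mul (hCφ _) (mul_le_mul (hCψ _) (hb _) (norm_nonneg _) hCψ0)
      (mul_nonneg (norm_nonneg _) (norm_nonneg _)) hCφ0
  calc ∫ g in D, (∫ p, φ (g * y p) * ((s p : ℝ) : ℂ) ∂ν) * conj (ψ g) ∂μ
      = ∫ g in D, ∫ p, φ (g * y p) * ((s p : ℝ) : ℂ) * conj (ψ g) ∂ν ∂μ := by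
        congr 1
        funext g
        rw [integral_mul_const]
    _ = ∫ p, ∫ g in D, φ (g * y p) * ((s p : ℝ) : ℂ) * conj (ψ g) ∂μ ∂ν :=
        integral_integral_swap hi1
    _ = ∫ p, ((s p : ℝ) : ℂ) * ∫ g in D, φ (g * y p) * conj (ψ g) ∂μ ∂ν := by
        congr 1
        funext p
        rw [← integral_const_mul]
        congr 1
        funext g
        ring
    _ = ∫ p, ((s p : ℝ) : ℂ) * ∫ g in D, φ g * conj (ψ (g * y p)) ∂μ ∂ν := by
        congr 1
        funext p
        rw [hpt p]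
    _ = ∫ p, ∫ g in D, φ g * conj (ψ (g * y p) * ((s p : ℝ) : ℂ)) ∂μ ∂ν := by
        congr 1
        funext p
        rw [← integral_const_mul]
        congr 1
        funext g
        rw [map_mul, Complex.conj_ofReal]
        ring
    _ = ∫ g in D, ∫ p, φ g * conj (ψ (g * y p) * ((s p : ℝ) : ℂ)) ∂ν ∂μ :=
        (integral_integral_swap hi2).symm
    _ = ∫ g in D, φ g * conj (∫ p, ψ (g * y p) * ((s p : ℝ) : ℂ) ∂ν) ∂μ := by
        congr 1
        funext g
        rw [integral_const_mul, integral_conj]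

/-! ## 2. The matrices -/

theorem rotZ_zero770 : rotZ 0 = 1 := by
  unfold rotZ
  ext i j
  fin_cases i <;> fin_cases j <;> simp

theorem rotY_zero770 : rotY 0 = 1 := by
  unfold rotY
  ext i j
  fin_cases i <;> fin_cases j <;> simp

theorem rotY_pi770 : rotY Real.pi = !![0, -1; 1, 0] := by
  unfold rotY
  ext i j
  fin_cases i <;> fin_cases j <;> simp

theorem diag_unitary770 {a b : ℂ} (ha : a * conj a = 1) (hb : b * conj b = 1) :
    (!![a, 0; 0, b] : Matrix (Fin 2) (Fin 2) ℂ)
      * (!![a, 0; 0, b] : Matrix (Fin 2) (Fin 2) ℂ).conjTranspose = 1 := by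
  ext i j
  fin_cases i <;> fin_cases j <;>
    simp [Matrix.mul_apply, Fin.sum_univ_two, Matrix.conjTranspose_apply, ha, hb]

theorem rot_unitary770 {c s : ℂ} (hc : conj c = c) (hs : conj s = s) (h : c * c + s * s = 1) :
    (!![c, -s; s, c] : Matrix (Fin 2) (Fin 2) ℂ)
      * (!![c, -s; s, c] : Matrix (Fin 2) (Fin 2) ℂ).conjTranspose = 1 := by
  ext i j
  fin_cases i <;> fin_cases j <;>
    simp [Matrix.mul_apply, Fin.sum_univ_two, Matrix.conjTranspose_apply, hc, hs]
  · linear_combination h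
  · ring
  · ring
  · linear_combination h

theorem rotZ_unitary770 (α : ℝ) : rotZ α * (rotZ α).conjTranspose = 1 := by
  have h1 : conj (Complex.exp (Complex.I * ((α / 2 : ℝ) : ℂ)))
      = Complex.exp (-(Complex.I * ((α / 2 : ℝ) : ℂ))) := by
    rw [← Complex.exp_conj, map_mul, Complex.conj_I, Complex.conj_ofReal, neg_mul]
  have h2 : conj (Complex.exp (-(Complex.I * ((α / 2 : ℝ) : ℂ))))
      = Complex.exp (Complex.I * ((α / 2 : ℝ) : ℂ)) := by
    rw [← Complex.exp_conj, map_neg, map_mul, Complex.conj_I, Complex.conj_ofReal, neg_mul,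
      neg_neg]
  have h3 : Complex.exp (Complex.I * ((α / 2 : ℝ) : ℂ))
      * Complex.exp (-(Complex.I * ((α / 2 : ℝ) : ℂ))) = 1 := by
    rw [← Complex.exp_add, add_neg_cancel, Complex.exp_zero]
  refine diag_unitary770 ?_ ?_
  · rw [h1, h3]
  · rw [h2, mul_comm, h3]

theorem cos_sq_add_sin_sq770 (x : ℝ) :
    ((Real.cos x : ℝ) : ℂ) * ((Real.cos x : ℝ) : ℂ)
      + ((Real.sin x : ℝ) : ℂ) * ((Real.sin x : ℝ) : ℂ) = 1 := by
  rw [← Complex.ofReal_mul, ← Complex.ofReal_mul, ← Complex.ofReal_add, ← sq, ← sq,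
    Real.cos_sq_add_sin_sq, Complex.ofReal_one]

theorem rotY_unitary770 (β : ℝ) : rotY β * (rotY β).conjTranspose = 1 :=
  rot_unitary770 (Complex.conj_ofReal _) (Complex.conj_ofReal _) (cos_sq_add_sin_sq770 (β / 2))

theorem rotY_det770 (β : ℝ) : (rotY β).det = 1 := by
  have h := cos_sq_add_sin_sq770 (β / 2)
  unfold rotY
  rw [Matrix.det_fin_two_of]
  linear_combination h

/-- A product of unitary matrices is unitary. -/
theorem unitary_mul770 {A B : Matrix (Fin 2) (Fin 2) ℂ} (hA : A * A.conjTranspose = 1)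
    (hB : B * B.conjTranspose = 1) : (A * B) * (A * B).conjTranspose = 1 := by
  rw [Matrix.conjTranspose_mul, ← mul_assoc, mul_assoc A B, hB, mul_one, hA]

theorem diag_weyl770 {p q : ℂ} (h : p * q = 1) :
    (!![p, 0; 0, q] : Matrix (Fin 2) (Fin 2) ℂ) * !![0, -1; 1, 0] * !![p, 0; 0, q]
      = !![0, -1; 1, 0] := by
  have h' : q * p = 1 := by rw [mul_comm, h]
  ext i j
  fin_cases i <;> fin_cases j <;> simp [Matrix.mul_apply, Fin.sum_univ_two, h, h']

theorem torus_rotY_pi770 (d : ℝ) : torus d * rotY Real.pi * torus d = rotY Real.pi := by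
  have h1 : ((Real.exp (d / 2) : ℝ) : ℂ) * ((Real.exp (-(d / 2)) : ℝ) : ℂ) = 1 := by
    rw [← Complex.ofReal_mul, ← Real.exp_add, add_neg_cancel, Real.exp_zero, Complex.ofReal_one]
  rw [rotY_pi770]
  exact diag_weyl770 h1

/-! ## 3. The pointwise symmetry -/

/-- `B(h) = ∫_D φ(g h) conj ψ(g) dμ(g)`. -/
def B770 (F : Frame K) (φ ψ : G K → ℂ) (h : G K) : ℂ :=
  ∫ g in F.D, φ (g * h) * conj (ψ g) ∂F.μ

/-- The KEY LEMMA on the cusp functions: `∫_D φ(g h₁) conj ψ(g h₂) = B(h₂⁻¹ h₁)`. -/
theorem transl770 (hT : SubTransl429 K) (h1 : T1.T1Out K) (F : Frame K) {𝔫 : Ideal (𝓞 K)}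
    {φ ψ : G K → ℂ} (hφ : IsCuspFn 𝔫 φ) (hψ : IsCuspFn 𝔫 ψ) (h₁ h₂ : G K) :
    ∫ g in F.D, φ (g * h₁) * conj (ψ (g * h₂)) ∂F.μ = B770 F φ ψ (h₂⁻¹ * h₁) := by
  obtain ⟨Cφ, hCφ⟩ := hφ.bdd
  obtain ⟨Cψ, hCψ⟩ := hψ.bdd
  have hcont : Continuous fun g : G K => φ (g * (h₂⁻¹ * h₁)) * conj (ψ g) :=
    (hφ.cont.comp (continuous_id.mul continuous_const)).mul
      (Complex.continuous_conj.comp hψ.cont)
  have hbdd : ∃ C : ℝ, ∀ g : G K, ‖φ (g * (h₂⁻¹ * h₁)) * conj (ψ g)‖ ≤ C := by
    refine ⟨Cφ * Cψ, fun g => ?_⟩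
    rw [norm_mul, RCLike.norm_conj]
    exact mul_le_mul (hCφ _) (hCψ _) (norm_nonneg _) ((norm_nonneg _).trans (hCφ 1))
  have hleft : ∀ (γ : GL (Fin 2) K) (g : G K),
      φ (T1.ratG K γ * g * (h₂⁻¹ * h₁)) * conj (ψ (T1.ratG K γ * g))
        = φ (g * (h₂⁻¹ * h₁)) * conj (ψ g) := by
    intro γ g
    rw [mul_assoc,
      show φ (T1.ratG K γ * (g * (h₂⁻¹ * h₁))) = φ (g * (h₂⁻¹ * h₁)) from hφ.left_inv γ _,
      show ψ (T1.ratG K γ * g) = ψ g from hψ.left_inv γ g]
  have hz : ∀ z : G K, IsDiagPosScalar z → ∀ g : G K,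
      φ (g * z * (h₂⁻¹ * h₁)) * conj (ψ (g * z)) = φ (g * (h₂⁻¹ * h₁)) * conj (ψ g) := by
    intro z hz g
    have e : g * z * (h₂⁻¹ * h₁) = g * (h₂⁻¹ * h₁) * z := by
      rw [mul_assoc, ← diagPos_central770 hz (h₂⁻¹ * h₁), ← mul_assoc]
    rw [e, cusp_diagPos_inv770 hφ hz, cusp_diagPos_inv770 hψ hz]
  have key := hT h1 F (fun g => φ (g * (h₂⁻¹ * h₁)) * conj (ψ g)) hcont hbdd hleft hz h₂
  unfold B770
  rw [← key]
  congr 1
  funext g
  show φ (g * h₁) * conj (ψ (g * h₂)) = φ (g * h₂ * (h₂⁻¹ * h₁)) * conj (ψ (g * h₂))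
  rw [show g * h₂ * (h₂⁻¹ * h₁) = g * h₁ by group]

/-- `B` is left invariant under the compact group at `w`. -/
theorem B_left770 (hT : SubTransl429 K) (h1 : T1.T1Out K) (F : Frame K) {𝔫 : Ideal (𝓞 K)}
    {φ ψ : G K → ℂ} (hφ : IsCuspFn 𝔫 φ) (hψ : IsCuspFn 𝔫 ψ) {w : InfinitePlace K} {k : G K}
    (hk : IsArchCompact w k) (h : G K) : B770 F φ ψ (k * h) = B770 F φ ψ h := by
  have key := transl770 hT h1 F hφ hψ h k⁻¹
  rw [inv_inv] at key
  rw [← key]
  unfold B770
  congr 1
  funext g
  have e : ψ (g * k⁻¹ * k) = ψ (g * k⁻¹) := hψ.arch_compact w k hk (g * k⁻¹)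
  rw [inv_mul_cancel_right] at e
  rw [← e]

/-- `B` is right invariant under the compact group at `w`. -/
theorem B_right770 (F : Frame K) {𝔫 : Ideal (𝓞 K)} {φ : G K → ℂ} (ψ : G K → ℂ)
    (hφ : IsCuspFn 𝔫 φ) {w : InfinitePlace K} {k : G K} (hk : IsArchCompact w k) (h : G K) :
    B770 F φ ψ (h * k⁻¹) = B770 F φ ψ h := by
  unfold B770
  congr 1
  funext g
  have e : φ (g * (h * k⁻¹) * k) = φ (g * (h * k⁻¹)) := hφ.arch_compact w k hk (g * (h * k⁻¹))
  rw [← e, show g * (h * k⁻¹) * k = g * h by group]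

/-- **Pointwise symmetry.**  `y = κ · torus d` at `w` with `κ` in the compact group, `a` and `j`
the elements of components `torus d`, `rotY π · torus d`:
`∫_D φ(g y) conj ψ(g) = ∫_D φ(g) conj ψ(g y)`. -/
theorem pointwise770 (hT : SubTransl429 K) (h1 : T1.T1Out K) (F : Frame K) {𝔫 : Ideal (𝓞 K)}
    {φ ψ : G K → ℂ} (hφ : IsCuspFn 𝔫 φ) (hψ : IsCuspFn 𝔫 ψ) {w : InfinitePlace K} {d : ℝ}
    {y a j : G K} {κ : Matrix (Fin 2) (Fin 2) ℂ} (hκ : κ * κ.conjTranspose = 1)
    (hκdet : w.IsReal → κ.det = 1)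
    (hy : IsLocalAtInf w y) (hyc : infComp w y = κ * torus d)
    (ha : IsLocalAtInf w a) (hac : infComp w a = torus d)
    (hj : IsLocalAtInf w j) (hjc : infComp w j = rotY Real.pi * torus d) :
    ∫ g in F.D, φ (g * y) * conj (ψ g) ∂F.μ = ∫ g in F.D, φ g * conj (ψ (g * y)) ∂F.μ := by
  have ha' : IsLocalAtInf w a⁻¹ := isLocalAtInf_inv472 ha
  have hta : torus d * infComp w a⁻¹ = 1 := by
    rw [← hac]
    exact infComp_mul_inv770 w a
  have hkc : infComp w (y * a⁻¹) = κ := by
    rw [infComp_mul770, hyc, mul_assoc, hta, mul_one]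
  have hk : IsArchCompact w (y * a⁻¹) :=
    ⟨isLocalAtInf_mul770 hy ha', by rw [hkc]; exact hκ, fun hw => by rw [hkc]; exact hκdet hw⟩
  have hJc : infComp w (j * a⁻¹) = rotY Real.pi := by
    rw [infComp_mul770, hjc, mul_assoc, hta, mul_one]
  have hJ : IsArchCompact w (j * a⁻¹) :=
    ⟨isLocalAtInf_mul770 hj ha', by rw [hJc]; exact rotY_unitary770 _,
      fun _ => by rw [hJc]; exact rotY_det770 _⟩
  have haJa : a * (j * a⁻¹) * a = j * a⁻¹ := by
    apply eq_of_local770 (isLocalAtInf_mul770 (isLocalAtInf_mul770 ha hJ.1) ha) hJ.1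
    rw [infComp_mul770, infComp_mul770, hJc, hac, torus_rotY_pi770]
  have hyk : y = (y * a⁻¹) * a := by group
  have hainv : a⁻¹ = (j * a⁻¹) * a * (j * a⁻¹)⁻¹ := by
    have h' : (j * a⁻¹)⁻¹ = (a * (j * a⁻¹) * a)⁻¹ := by rw [haJa]
    rw [h']
    group
  have e1 : B770 F φ ψ y = B770 F φ ψ a := by
    conv_lhs => rw [hyk]
    exact B_left770 hT h1 F hφ hψ hk a
  have e2 : B770 F φ ψ y⁻¹ = B770 F φ ψ a⁻¹ := by
    have e : y⁻¹ = a⁻¹ * (y * a⁻¹)⁻¹ := by group
    rw [e]
    exact B_right770 F ψ hφ hk a⁻¹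
  have e3 : B770 F φ ψ a⁻¹ = B770 F φ ψ a := by
    conv_lhs => rw [hainv]
    rw [B_right770 F ψ hφ hJ ((j * a⁻¹) * a), B_left770 hT h1 F hφ hψ hJ a]
  have e4 : ∫ g in F.D, φ g * conj (ψ (g * y)) ∂F.μ = B770 F φ ψ y⁻¹ := by
    have key := transl770 hT h1 F hφ hψ 1 y
    rw [mul_one] at key
    rw [← key]
    congr 1
    funext g
    rw [mul_one]
  rw [e4, e2, e3, ← e1]
  rfl

/-! ## 4. The means as integrals over a finite measure -/

/-- The measure `dα dβ` on `[0, 2π] × [0, π]`. -/
def nuS770 : Measure (ℝ × ℝ) :=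
  (volume.restrict (Set.Ioc (0 : ℝ) (2 * Real.pi))).prod (volume.restrict (Set.Ioc (0 : ℝ) Real.pi))

/-- The measure `dθ` on `[0, 2π]`. -/
def nuC770 : Measure ℝ := volume.restrict (Set.Ioc (0 : ℝ) (2 * Real.pi))

theorem isFiniteMeasure_nuS770 : IsFiniteMeasure nuS770 := by
  unfold nuS770
  infer_instance

theorem isFiniteMeasure_nuC770 : IsFiniteMeasure nuC770 := by
  unfold nuC770
  infer_instance

/-- The sphere mean of a bounded continuous function as an integral over `nuS770`. -/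
theorem sphereMean_eq770 {Y : ℝ → ℝ → G K} (hY : Continuous fun p : ℝ × ℝ => Y p.1 p.2)
    {χ : G K → ℂ} (hχ : Continuous χ) {C : ℝ} (hC : ∀ g, ‖χ g‖ ≤ C) (g : G K) :
    sphereMean Y χ g = ∫ p, χ (g * Y p.1 p.2) * ((Real.sin p.2 : ℝ) : ℂ) ∂nuS770 := by
  have hfin := isFiniteMeasure_nuS770
  have hc : Continuous fun p : ℝ × ℝ => χ (g * Y p.1 p.2) * ((Real.sin p.2 : ℝ) : ℂ) :=
    (hχ.comp (continuous_const.mul hY)).mul
      (Complex.continuous_ofReal.comp (Real.continuous_sin.comp continuous_snd))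
  have hi : Integrable (fun p : ℝ × ℝ => χ (g * Y p.1 p.2) * ((Real.sin p.2 : ℝ) : ℂ))
      nuS770 := by
    refine Integrable.of_bound hc.aestronglyMeasurable (C * 1)
      (Filter.Eventually.of_forall fun p => ?_)
    show ‖χ (g * Y p.1 p.2) * ((Real.sin p.2 : ℝ) : ℂ)‖ ≤ _
    rw [norm_mul, Complex.norm_real, Real.norm_eq_abs]
    exact mul_le_mul (hC _) (Real.abs_sin_le_one _) (abs_nonneg _)
      ((norm_nonneg _).trans (hC 1))
  have h2 : (0 : ℝ) ≤ 2 * Real.pi := by positivity
  unfold sphereMean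
  rw [intervalIntegral.integral_of_le h2]
  simp only [intervalIntegral.integral_of_le Real.pi_pos.le]
  unfold nuS770 at hi ⊢
  rw [integral_prod _ hi]

/-- The circle mean as an integral over `nuC770`. -/
theorem circleMean_eq770 (Y : ℝ → G K) (χ : G K → ℂ) (g : G K) :
    circleMean Y χ g = ∫ θ, χ (g * Y θ) * (((1 : ℝ) : ℝ) : ℂ) ∂nuC770 := by
  have h2 : (0 : ℝ) ≤ 2 * Real.pi := by positivity
  unfold circleMean nuC770
  rw [intervalIntegral.integral_of_le h2]
  simp only [Complex.ofReal_one, mul_one]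

/-! ## 5. The sub-leaf -/

theorem sphere_adj770 (hT : SubTransl429 K) (hLC : SubLocCont429 K) {𝔫 : Ideal (𝓞 K)}
    (c : Ctx429 K 𝔫) (F : Frame K) {w : InfinitePlace K} (hw : w.IsComplex) {d : ℝ}
    {Y : ℝ → ℝ → G K} (hY : IsSphereAt w d Y) :
    IsAdj429 𝔫 F (sphereMean Y) (sphereMean Y) := by
  intro φ ψ hφ hψ
  have hYc : Continuous fun p : ℝ × ℝ => Y p.1 p.2 := H546.continuous_sphere_h546 hLC hY
  obtain ⟨Cφ, hCφ⟩ := hφ.bdd
  obtain ⟨Cψ, hCψ⟩ := hψ.bdd
  have hB : BorelSpace (G K) := ⟨rfl⟩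
  have hfin := isFiniteMeasure_nuS770
  have hnr : ¬ w.IsReal := InfinitePlace.not_isReal_iff_isComplex.2 hw
  have ha : infComp w (Y 0 0) = torus d := by
    rw [(hY 0 0).2, rotZ_zero770, rotY_zero770, one_mul, one_mul]
  have hj : infComp w (Y 0 Real.pi) = rotY Real.pi * torus d := by
    rw [(hY 0 Real.pi).2, rotZ_zero770, one_mul]
  have hpt : ∀ p : ℝ × ℝ, ∫ g in F.D, φ (g * Y p.1 p.2) * conj (ψ g) ∂F.μ
      = ∫ g in F.D, φ g * conj (ψ (g * Y p.1 p.2)) ∂F.μ := fun p =>
    pointwise770 hT c.t1 F hφ hψ (unitary_mul770 (rotZ_unitary770 p.1) (rotY_unitary770 p.2))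
      (fun h => absurd h hnr) (hY p.1 p.2).1 (hY p.1 p.2).2 (hY 0 0).1 ha (hY 0 Real.pi).1 hj
  have key := mean_adj_abstract770 F.μ F.D F.fin nuS770 hφ.cont hψ.cont hCφ hCψ hYc
    (s := fun p : ℝ × ℝ => Real.sin p.2) (Real.continuous_sin.comp continuous_snd) (Cs := 1)
    (fun p => Real.abs_sin_le_one _) hpt
  unfold pair
  have e1 : (fun g => sphereMean Y φ g * conj (ψ g))
      = fun g => (∫ p, φ (g * Y p.1 p.2) * ((Real.sin p.2 : ℝ) : ℂ) ∂nuS770) * conj (ψ g) := by
    funext g
    rw [sphereMean_eq770 hYc hφ.cont hCφ g]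
  have e2 : (fun g => φ g * conj (sphereMean Y ψ g))
      = fun g => φ g * conj (∫ p, ψ (g * Y p.1 p.2) * ((Real.sin p.2 : ℝ) : ℂ) ∂nuS770) := by
    funext g
    rw [sphereMean_eq770 hYc hψ.cont hCψ g]
  rw [e1, e2]
  exact key

theorem circle_adj770 (hT : SubTransl429 K) (hLC : SubLocCont429 K) {𝔫 : Ideal (𝓞 K)}
    (c : Ctx429 K 𝔫) (F : Frame K) {w : InfinitePlace K} {t : ℝ}
    {Y : ℝ → G K} (hY : IsCircleAt w t Y) :
    IsAdj429 𝔫 F (circleMean Y) (circleMean Y) := by
  intro φ ψ hφ hψ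
  have hYc : Continuous Y := H546.continuous_circle_h546 hLC hY
  obtain ⟨Cφ, hCφ⟩ := hφ.bdd
  obtain ⟨Cψ, hCψ⟩ := hψ.bdd
  have hB : BorelSpace (G K) := ⟨rfl⟩
  have hfin := isFiniteMeasure_nuC770
  have ha : infComp w (Y 0) = torus t := by
    rw [(hY 0).2, rotY_zero770, one_mul]
  have hpt : ∀ θ : ℝ, ∫ g in F.D, φ (g * Y θ) * conj (ψ g) ∂F.μ
      = ∫ g in F.D, φ g * conj (ψ (g * Y θ)) ∂F.μ := fun θ =>
    pointwise770 hT c.t1 F hφ hψ (rotY_unitary770 θ) (fun _ => rotY_det770 θ)
      (hY θ).1 (hY θ).2 (hY 0).1 ha (hY Real.pi).1 (hY Real.pi).2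
  have key := mean_adj_abstract770 F.μ F.D F.fin nuC770 hφ.cont hψ.cont hCφ hCψ hYc
    (s := fun _ : ℝ => (1 : ℝ)) continuous_const (Cs := 1)
    (fun _ => by rw [abs_one]) hpt
  unfold pair
  have e1 : (fun g => circleMean Y φ g * conj (ψ g))
      = fun g => (∫ θ, φ (g * Y θ) * (((1 : ℝ) : ℝ) : ℂ) ∂nuC770) * conj (ψ g) := by
    funext g
    rw [circleMean_eq770 Y φ g]
  have e2 : (fun g => φ g * conj (circleMean Y ψ g))
      = fun g => φ g * conj (∫ θ, ψ (g * Y θ) * (((1 : ℝ) : ℝ) : ℂ) ∂nuC770) := by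
    funext g
    rw [circleMean_eq770 Y ψ g]
  rw [e1, e2]
  exact key

/-- **T2.07.16 `SubMeanAdj429`** from the KEY LEMMA **T2.07.00** and **T2.07.30**. -/
theorem subMeanAdj_of770 (hT : SubTransl429 K) (hLC : SubLocCont429 K) : SubMeanAdj429 K :=
  fun _ c F =>
    ⟨fun _ hw _ _ _ hY => sphere_adj770 hT hLC c F hw hY,
      fun _ _ _ _ _ hY => circle_adj770 hT hLC c F hY⟩

/-- **T2.07.16 `SubMeanAdj429`** from the KEY LEMMA **T2.07.00** (T2.07.30 is closed by
`subLocCont472` of helper472). -/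
theorem subMeanAdj770 (hT : SubTransl429 K) : SubMeanAdj429 K :=
  subMeanAdj_of770 hT (subLocCont472 K)

end Fermat.Agent.LT.T2.H770

end

end
-- ===== PACK-END LT/T2/H770/MeanAdj.lean

-- ===== PACK-BEGIN LT/T2/H291/GelfandT.lean
section







/-!
# Row LT, tower T2, sub-leaf T2.27.21 (helper291), part 1: Gelfand's trick in `T`-form

OFF-MAIN.  Two anti-involutions at an infinite place `w`:

* `w` complex: the transposition.  A function which is left and right invariant under `SU(2)` at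
  `w` is invariant under the transposition of the component at `w` (`biInv_transposeT291`):
  `GL₂(ℂ) = SU(2) · (diagonal matrices) · SU(2)` (Cartan decomposition `SubCartanInf429`, and
  `U(2) = SU(2) · diag(δ, 1)`), the transposition fixes the diagonal matrices and preserves
  `SU(2)`.
* `w` real: `θ(m) = e mᵀ e`, `e = diag(1, -1)`.  A function of type `(τ⁻¹, τ⁻¹)` under `SO(2)` at
  `w` is invariant under `θ` at `w` (`biType_thetaT291`): `GL₂(ℝ) = SO(2) · A · SO(2)` with `A`
  the real diagonal matrices, `θ` fixes `SO(2)` and `A` pointwise and `SO(2)` is commutative.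

Nothing is assumed, no opaque constant, no placeholder proof.
-/

set_option autoImplicit false
set_option linter.unusedSectionVars false

open IsDedekindDomain NumberField MeasureTheory Set
open scoped Matrix

noncomputable section

namespace Fermat.Agent.LT.T2.H291

open Fermat.Agent.LT.H556.A0
open Fermat.Agent.LT.T2
open Fermat.Agent.LT.T2.H472
open Fermat.Agent.LT.T2.H878

variable {K : Type} [Field K] [NumberField K]

/-! ## 1. Matrix facts -/

theorem unitary_transposeT291 {k : Matrix (Fin 2) (Fin 2) ℂ} (hk : k * kᴴ = 1) :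
    kᵀ * (kᵀ)ᴴ = 1 := by
  have h1 : kᴴ * k = 1 := mul_eq_one_comm.1 hk
  have h2 : (kᴴ * k)ᵀ = 1 := by rw [h1, Matrix.transpose_one]
  rw [Matrix.transpose_mul] at h2
  rw [← h2]
  rfl

theorem det_ne_zero_of_unitaryT291 {k : Matrix (Fin 2) (Fin 2) ℂ} (hk : k * kᴴ = 1) :
    k.det ≠ 0 := by
  have h := congrArg Matrix.det hk
  rw [Matrix.det_mul, Matrix.det_one] at h
  exact left_ne_zero_of_mul_eq_one h

theorem det_mul_conj_of_unitaryT291 {k : Matrix (Fin 2) (Fin 2) ℂ} (hk : k * kᴴ = 1) :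
    k.det * (starRingEnd ℂ) k.det = 1 := by
  have h := congrArg Matrix.det hk
  rwa [Matrix.det_mul, Matrix.det_conjTranspose, Matrix.det_one] at h

/-- `diag(c, 1)` with `|c| = 1` is unitary. -/
theorem diagOne_unitaryT291 {c : ℂ} (hc : c * (starRingEnd ℂ) c = 1) :
    (Matrix.diagonal ![c, 1] : Matrix (Fin 2) (Fin 2) ℂ)
      * (Matrix.diagonal ![c, 1] : Matrix (Fin 2) (Fin 2) ℂ)ᴴ = 1 := by
  rw [Matrix.diagonal_conjTranspose, Matrix.diagonal_mul_diagonal, ← Matrix.diagonal_one]
  congr 1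
  funext i
  fin_cases i
  · simpa using hc
  · simp

/-- `U(2) = SU(2) · diag(δ, 1)`, on both sides. -/
theorem cartan_suT291 (hC : H429.SubCartanInf429) (g : Matrix (Fin 2) (Fin 2) ℂ)
    (hg : g.det ≠ 0) :
    ∃ s₁ s₂ : Matrix (Fin 2) (Fin 2) ℂ, ∃ a b : ℂ,
      s₁ * s₁ᴴ = 1 ∧ s₂ * s₂ᴴ = 1 ∧ s₁.det = 1 ∧ s₂.det = 1 ∧
      g = s₁ * Matrix.diagonal ![a, b] * s₂ := by
  obtain ⟨k₁, k₂, a, b, hk₁, hk₂, hgk, -⟩ := hC g hg
  have hd₁ := det_mul_conj_of_unitaryT291 hk₁
  have hd₂ := det_mul_conj_of_unitaryT291 hk₂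
  have hd₁0 : k₁.det ≠ 0 := left_ne_zero_of_mul_eq_one hd₁
  have hd₂0 : k₂.det ≠ 0 := left_ne_zero_of_mul_eq_one hd₂
  have hc₁ : (k₁.det)⁻¹ * (starRingEnd ℂ) (k₁.det)⁻¹ = 1 := by
    rw [map_inv₀, ← mul_inv, hd₁, inv_one]
  have hc₂ : (k₂.det)⁻¹ * (starRingEnd ℂ) (k₂.det)⁻¹ = 1 := by
    rw [map_inv₀, ← mul_inv, hd₂, inv_one]
  have hu₁ := diagOne_unitaryT291 hc₁
  have hu₂ := diagOne_unitaryT291 hc₂
  refine ⟨k₁ * Matrix.diagonal ![(k₁.det)⁻¹, 1], Matrix.diagonal ![(k₂.det)⁻¹, 1] * k₂,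
    k₁.det * a * k₂.det, b, ?_, ?_, ?_, ?_, ?_⟩
  · rw [Matrix.conjTranspose_mul]
    calc k₁ * Matrix.diagonal ![(k₁.det)⁻¹, 1] * ((Matrix.diagonal ![(k₁.det)⁻¹, 1])ᴴ * k₁ᴴ)
        = k₁ * (Matrix.diagonal ![(k₁.det)⁻¹, 1] * (Matrix.diagonal ![(k₁.det)⁻¹, 1])ᴴ) * k₁ᴴ := by
          simp only [mul_assoc]
      _ = 1 := by rw [hu₁, mul_one, hk₁]
  · rw [Matrix.conjTranspose_mul]
    calc Matrix.diagonal ![(k₂.det)⁻¹, 1] * k₂ * (k₂ᴴ * (Matrix.diagonal ![(k₂.det)⁻¹, 1])ᴴ)
        = Matrix.diagonal ![(k₂.det)⁻¹, 1] * (k₂ * k₂ᴴ) * (Matrix.diagonal ![(k₂.det)⁻¹, 1])ᴴ := by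
          simp only [mul_assoc]
      _ = 1 := by rw [hk₂, mul_one, hu₂]
  · rw [Matrix.det_mul, Matrix.det_diagonal]
    simp only [Fin.prod_univ_two, Matrix.cons_val_zero, Matrix.cons_val_one]
    rw [mul_one, mul_inv_cancel₀ hd₁0]
  · rw [Matrix.det_mul, Matrix.det_diagonal]
    simp only [Fin.prod_univ_two, Matrix.cons_val_zero, Matrix.cons_val_one]
    rw [mul_one, inv_mul_cancel₀ hd₂0]
  · rw [hgk]
    have e : Matrix.diagonal ![(k₁.det)⁻¹, 1] * Matrix.diagonal ![k₁.det * a * k₂.det, b]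
        * Matrix.diagonal ![(k₂.det)⁻¹, 1] = (Matrix.diagonal ![a, b] : Matrix (Fin 2) (Fin 2) ℂ) := by
      rw [Matrix.diagonal_mul_diagonal, Matrix.diagonal_mul_diagonal]
      congr 1
      funext i
      fin_cases i
      · simp
        field_simp
      · simp
    calc k₁ * Matrix.diagonal ![a, b] * k₂
        = k₁ * (Matrix.diagonal ![(k₁.det)⁻¹, 1] * Matrix.diagonal ![k₁.det * a * k₂.det, b]
          * Matrix.diagonal ![(k₂.det)⁻¹, 1]) * k₂ := by rw [e]
      _ = k₁ * Matrix.diagonal ![(k₁.det)⁻¹, 1] * Matrix.diagonal ![k₁.det * a * k₂.det, b]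
          * (Matrix.diagonal ![(k₂.det)⁻¹, 1] * k₂) := by simp only [mul_assoc]

/-! ## 2. The complex places: the transposition -/

/-- The elements of `SU(2)` at `w` (at a real place: the compact group `SO(2)` itself). -/
def IsSUT291 (w : InfinitePlace K) (k : G K) : Prop :=
  IsArchCompact w k ∧ (infComp w k).det = 1

/-- The element of `SU(2)` at the complex place `w` with a given component. -/
theorem exists_suT291 {w : InfinitePlace K} (hw : w.IsComplex) (s : Matrix (Fin 2) (Fin 2) ℂ)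
    (hs : s * sᴴ = 1) (hd : s.det = 1) : ∃ S : G K, IsSUT291 w S ∧ infComp w S = s := by
  obtain ⟨S, hS, hSc⟩ := exists_archCompact878 (K := K) w s hs
    (fun hr => absurd hr (InfinitePlace.not_isReal_iff_isComplex.2 hw))
  exact ⟨S, ⟨hS, by rw [hSc]; exact hd⟩, hSc⟩

theorem IsSUT291.inv {w : InfinitePlace K} {k : G K} (hk : IsSUT291 w k) : IsSUT291 w k⁻¹ :=
  ⟨isArchCompact_inv878 hk.1, by rw [infComp_inv472, Matrix.det_nonsing_inv, hk.2]; simp⟩

/-- **Gelfand's trick at a complex place**: a function which is left and right invariant under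
`SU(2)` at `w` is invariant under the transposition of the component at `w`. -/
theorem biInv_transposeT291 (hC : H429.SubCartanInf429) {w : InfinitePlace K}
    (hw : w.IsComplex) (F : G K → ℂ)
    (hR : ∀ k : G K, IsSUT291 w k → ∀ g, F (g * k) = F g)
    (hL : ∀ k : G K, IsSUT291 w k → ∀ g, F (k * g) = F g)
    {g g' : G K} (hs : SameAway878 w g g') (hgg : infComp w g' = (infComp w g)ᵀ) :
    F g' = F g := by
  obtain ⟨s₁, s₂, a, b, hs₁, hs₂, hd₁, hd₂, hg⟩ :=
    cartan_suT291 hC (infComp w g) (det_infComp_ne_zero472 w g)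
  obtain ⟨S₁, hS₁, hS₁c⟩ := exists_suT291 (K := K) hw s₁ hs₁ hd₁
  obtain ⟨S₂, hS₂, hS₂c⟩ := exists_suT291 (K := K) hw s₂ hs₂ hd₂
  obtain ⟨T₁, hT₁, hT₁c⟩ := exists_suT291 (K := K) hw s₁ᵀ (unitary_transposeT291 hs₁)
    (by rw [Matrix.det_transpose, hd₁])
  obtain ⟨T₂, hT₂, hT₂c⟩ := exists_suT291 (K := K) hw s₂ᵀ (unitary_transposeT291 hs₂)
    (by rw [Matrix.det_transpose, hd₂])
  have hu₁ : IsUnit s₁.det := by rw [hd₁]; exact isUnit_one
  have hu₂ : IsUnit s₂.det := by rw [hd₂]; exact isUnit_one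
  -- the middle element
  set Δ : G K := S₁⁻¹ * g * S₂⁻¹ with hΔ
  have hΔc : infComp w Δ = Matrix.diagonal ![a, b] := by
    rw [hΔ, infComp_mul878, infComp_mul878, infComp_inv472, infComp_inv472, hS₁c, hS₂c, hg]
    calc s₁⁻¹ * (s₁ * Matrix.diagonal ![a, b] * s₂) * s₂⁻¹
        = (s₁⁻¹ * s₁) * Matrix.diagonal ![a, b] * (s₂ * s₂⁻¹) := by simp only [mul_assoc]
      _ = Matrix.diagonal ![a, b] := by
          rw [Matrix.nonsing_inv_mul _ hu₁, Matrix.mul_nonsing_inv _ hu₂, one_mul, mul_one]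
  have hΔs : SameAway878 w Δ g := by
    have e : SameAway878 w (S₁⁻¹ * g * S₂⁻¹) (1 * g * 1) :=
      ((sameAway_of_local878 (isLocalAtInf_inv472 hS₁.1.1)).mul (SameAway878.refl w g)).mul
        (sameAway_of_local878 (isLocalAtInf_inv472 hS₂.1.1))
    rwa [one_mul, mul_one] at e
  have e1 : g = S₁ * Δ * S₂ := by
    rw [hΔ]
    group
  have e2 : g' = T₂ * Δ * T₁ := by
    apply ext_of_sameAway878 (w := w)
    · have e : SameAway878 w (T₂ * Δ * T₁) (1 * g * 1) :=
        ((sameAway_of_local878 hT₂.1.1).mul hΔs).mul (sameAway_of_local878 hT₁.1.1)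
      rw [one_mul, mul_one] at e
      exact hs.symm.trans e.symm
    · rw [hgg, infComp_mul878, infComp_mul878, hT₁c, hT₂c, hΔc, hg, Matrix.transpose_mul,
        Matrix.transpose_mul, Matrix.diagonal_transpose, mul_assoc]
  calc F g' = F (T₂ * Δ * T₁) := by rw [e2]
    _ = F (T₂ * Δ) := hR T₁ hT₁ _
    _ = F Δ := hL T₂ hT₂ _
    _ = F (S₁ * Δ) := (hL S₁ hS₁ _).symm
    _ = F (S₁ * Δ * S₂) := (hR S₂ hS₂ _).symm
    _ = F g := by rw [← e1]

/-- Every element has a transpose at `w` (complex place). -/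
theorem exists_transposeT291 {w : InfinitePlace K} (hw : w.IsComplex) (h : G K) :
    ∃ h' : G K, SameAway878 w h h' ∧ infComp w h' = (infComp w h)ᵀ := by
  have hnr : ¬ w.IsReal := InfinitePlace.not_isReal_iff_isComplex.2 hw
  have hdet : (infComp w h).det ≠ 0 := det_infComp_ne_zero472 w h
  obtain ⟨L, hL, hLc⟩ := exists_local878 (K := K) w (infComp w h) hdet (fun hr => absurd hr hnr)
  have hdet' : ((infComp w h)ᵀ).det ≠ 0 := by rwa [Matrix.det_transpose]
  obtain ⟨L', hL', hLc'⟩ := exists_local878 (K := K) w (infComp w h)ᵀ hdet'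
    (fun hr => absurd hr hnr)
  refine ⟨h * L⁻¹ * L', ?_, ?_⟩
  · have e : SameAway878 w (h * L⁻¹ * L') (h * 1 * 1) :=
      ((SameAway878.refl w h).mul (sameAway_of_local878 (isLocalAtInf_inv472 hL))).mul
        (sameAway_of_local878 hL')
    rw [mul_one, mul_one] at e
    exact e.symm
  · rw [infComp_mul878, infComp_mul878, infComp_inv472, hLc, hLc',
      Matrix.mul_nonsing_inv _ (IsUnit.mk0 _ hdet), one_mul]

/-- The transpose at `w` of a product with an element supported at `w`. -/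
theorem transpose_mulT291 {w : InfinitePlace K} {y h h' z : G K} (hy : IsLocalAtInf w y)
    (hz : IsLocalAtInf w z) (hzc : infComp w z = (infComp w y)ᵀ) (hs : SameAway878 w h h')
    (hh : infComp w h' = (infComp w h)ᵀ) :
    SameAway878 w (y * h) (h' * z) ∧ infComp w (h' * z) = (infComp w (y * h))ᵀ := by
  constructor
  · have e1 : SameAway878 w (y * h) (1 * h') := (sameAway_of_local878 hy).mul hs
    have e2 : SameAway878 w (h' * z) (h' * 1) :=
      (SameAway878.refl w h').mul (sameAway_of_local878 hz)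
    rw [one_mul] at e1
    rw [mul_one] at e2
    exact e1.trans e2.symm
  · rw [infComp_mul878, infComp_mul878, Matrix.transpose_mul, hzc, hh]

/-! ## 3. The real places: `θ(m) = e mᵀ e` -/

/-- `e = diag(1, -1)`. -/
def eMatT291 : Matrix (Fin 2) (Fin 2) ℂ := Matrix.diagonal ![1, -1]

/-- The anti-involution `θ(m) = e mᵀ e`. -/
def thetaT291 (m : Matrix (Fin 2) (Fin 2) ℂ) : Matrix (Fin 2) (Fin 2) ℂ :=
  eMatT291 * mᵀ * eMatT291

theorem eMat_mul_selfT291 : eMatT291 * eMatT291 = 1 := by
  unfold eMatT291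
  rw [Matrix.diagonal_mul_diagonal, ← Matrix.diagonal_one]
  congr 1
  funext i
  fin_cases i <;> simp

theorem thetaT291_apply (m : Matrix (Fin 2) (Fin 2) ℂ) :
    thetaT291 m = !![m 0 0, -m 1 0; -m 0 1, m 1 1] := by
  unfold thetaT291 eMatT291
  ext i j
  fin_cases i <;> fin_cases j <;>
    simp [Matrix.mul_apply, Fin.sum_univ_two, Matrix.transpose_apply, Matrix.diagonal_apply]

theorem thetaT291_mul (m n : Matrix (Fin 2) (Fin 2) ℂ) :
    thetaT291 (m * n) = thetaT291 n * thetaT291 m := by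
  unfold thetaT291
  rw [Matrix.transpose_mul]
  calc eMatT291 * (nᵀ * mᵀ) * eMatT291
      = eMatT291 * nᵀ * (1 : Matrix (Fin 2) (Fin 2) ℂ) * mᵀ * eMatT291 := by
        rw [mul_one]
        simp only [mul_assoc]
    _ = eMatT291 * nᵀ * eMatT291 * (eMatT291 * mᵀ * eMatT291) := by
        rw [← eMat_mul_selfT291]
        simp only [mul_assoc]

theorem thetaT291_rotY (θ : ℝ) : thetaT291 (rotY θ) = rotY θ := by
  rw [thetaT291_apply]
  unfold rotY
  ext i j
  fin_cases i <;> fin_cases j <;> simp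

theorem thetaT291_diagonal (a b : ℂ) :
    thetaT291 (Matrix.diagonal ![a, b]) = Matrix.diagonal ![a, b] := by
  rw [thetaT291_apply]
  ext i j
  fin_cases i <;> fin_cases j <;> simp

theorem thetaT291_torus (t : ℝ) : thetaT291 (torus t) = torus t := by
  rw [thetaT291_apply]
  unfold torus
  ext i j
  fin_cases i <;> fin_cases j <;> simp

theorem thetaT291_det (m : Matrix (Fin 2) (Fin 2) ℂ) : (thetaT291 m).det = m.det := by
  rw [thetaT291_apply, Matrix.det_fin_two_of, Matrix.det_fin_two]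
  ring

theorem thetaT291_real {m : Matrix (Fin 2) (Fin 2) ℂ} (hm : ∀ i j, (m i j).im = 0)
    (i j : Fin 2) : (thetaT291 m i j).im = 0 := by
  rw [thetaT291_apply]
  fin_cases i <;> fin_cases j <;> simp [hm]

/-- **Gelfand's trick at a real place**: a function of type `(τ⁻¹, τ⁻¹)` under the compact group
at `w` is invariant under `θ` at `w`. -/
theorem biType_thetaT291 (hC : H429.SubCartanInf429) {w : InfinitePlace K}
    (hw : w.IsReal) (τ : G K → ℂ) (F : G K → ℂ)
    (hR : ∀ k : G K, IsArchCompact w k → ∀ g, F (g * k) = (τ k)⁻¹ * F g)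
    (hL : ∀ k : G K, IsArchCompact w k → ∀ g, F (k * g) = (τ k)⁻¹ * F g)
    {g g' : G K} (hs : SameAway878 w g g') (hgg : infComp w g' = thetaT291 (infComp w g)) :
    F g' = F g := by
  obtain ⟨k₁, k₂, a, b, hk₁, hk₂, hg, hre⟩ := hC (infComp w g) (det_infComp_ne_zero472 w g)
  obtain ⟨hr₁, hr₂, hd₁, hd₂, -, -⟩ := hre (fun i j => infComp_real878 hw g i j)
  obtain ⟨K₁, hK₁, hK₁c⟩ := exists_archCompact878 (K := K) w k₁ hk₁ (fun _ => ⟨hr₁, hd₁⟩)
  obtain ⟨K₂, hK₂, hK₂c⟩ := exists_archCompact878 (K := K) w k₂ hk₂ (fun _ => ⟨hr₂, hd₂⟩)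
  obtain ⟨θ₁, hθ₁⟩ := so2_eq_rotY878 k₁ hk₁ hr₁ hd₁
  obtain ⟨θ₂, hθ₂⟩ := so2_eq_rotY878 k₂ hk₂ hr₂ hd₂
  have hu₁ : IsUnit k₁.det := by rw [hd₁]; exact isUnit_one
  have hu₂ : IsUnit k₂.det := by rw [hd₂]; exact isUnit_one
  set Δ : G K := K₁⁻¹ * g * K₂⁻¹ with hΔ
  have hΔc : infComp w Δ = Matrix.diagonal ![a, b] := by
    rw [hΔ, infComp_mul878, infComp_mul878, infComp_inv472, infComp_inv472, hK₁c, hK₂c, hg]
    calc k₁⁻¹ * (k₁ * Matrix.diagonal ![a, b] * k₂) * k₂⁻¹
        = (k₁⁻¹ * k₁) * Matrix.diagonal ![a, b] * (k₂ * k₂⁻¹) := by simp only [mul_assoc]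
      _ = Matrix.diagonal ![a, b] := by
          rw [Matrix.nonsing_inv_mul _ hu₁, Matrix.mul_nonsing_inv _ hu₂, one_mul, mul_one]
  have hΔs : SameAway878 w Δ g := by
    have e : SameAway878 w (K₁⁻¹ * g * K₂⁻¹) (1 * g * 1) :=
      ((sameAway_of_local878 (isLocalAtInf_inv472 hK₁.1)).mul (SameAway878.refl w g)).mul
        (sameAway_of_local878 (isLocalAtInf_inv472 hK₂.1))
    rwa [one_mul, mul_one] at e
  have e1 : g = K₁ * Δ * K₂ := by
    rw [hΔ]
    group
  have e2 : g' = K₂ * Δ * K₁ := by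
    apply ext_of_sameAway878 (w := w)
    · have e : SameAway878 w (K₂ * Δ * K₁) (1 * g * 1) :=
        ((sameAway_of_local878 hK₂.1).mul hΔs).mul (sameAway_of_local878 hK₁.1)
      rw [one_mul, mul_one] at e
      exact hs.symm.trans e.symm
    · rw [hgg, infComp_mul878, infComp_mul878, hK₁c, hK₂c, hΔc, hg, thetaT291_mul,
        thetaT291_mul, thetaT291_diagonal, hθ₁, hθ₂, thetaT291_rotY, thetaT291_rotY, mul_assoc]
  calc F g' = F (K₂ * Δ * K₁) := by rw [e2]
    _ = (τ K₁)⁻¹ * F (K₂ * Δ) := hR K₁ hK₁ _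
    _ = (τ K₁)⁻¹ * ((τ K₂)⁻¹ * F Δ) := by rw [hL K₂ hK₂ Δ]
    _ = (τ K₂)⁻¹ * ((τ K₁)⁻¹ * F Δ) := by ring
    _ = (τ K₂)⁻¹ * F (K₁ * Δ) := by rw [hL K₁ hK₁ Δ]
    _ = F (K₁ * Δ * K₂) := (hR K₂ hK₂ _).symm
    _ = F g := by rw [← e1]

/-- Every element has a `θ`-transform at `w` (real place). -/
theorem exists_thetaT291 {w : InfinitePlace K} (hw : w.IsReal) (h : G K) :
    ∃ h' : G K, SameAway878 w h h' ∧ infComp w h' = thetaT291 (infComp w h) := by
  have hdet : (infComp w h).det ≠ 0 := det_infComp_ne_zero472 w h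
  obtain ⟨L, hL, hLc⟩ := exists_local878 (K := K) w (infComp w h) hdet
    (fun hr i j => infComp_real878 hr h i j)
  have hdet' : (thetaT291 (infComp w h)).det ≠ 0 := by rwa [thetaT291_det]
  obtain ⟨L', hL', hLc'⟩ := exists_local878 (K := K) w (thetaT291 (infComp w h)) hdet'
    (fun hr i j => thetaT291_real (fun i j => infComp_real878 hr h i j) i j)
  refine ⟨h * L⁻¹ * L', ?_, ?_⟩
  · have e : SameAway878 w (h * L⁻¹ * L') (h * 1 * 1) :=
      ((SameAway878.refl w h).mul (sameAway_of_local878 (isLocalAtInf_inv472 hL))).mul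
        (sameAway_of_local878 hL')
    rw [mul_one, mul_one] at e
    exact e.symm
  · rw [infComp_mul878, infComp_mul878, infComp_inv472, hLc, hLc',
      Matrix.mul_nonsing_inv _ (IsUnit.mk0 _ hdet), one_mul]

/-- The `θ`-transform at `w` of a product with an element supported at `w`. -/
theorem theta_mulT291 {w : InfinitePlace K} {y h h' z : G K} (hy : IsLocalAtInf w y)
    (hz : IsLocalAtInf w z) (hzc : infComp w z = thetaT291 (infComp w y))
    (hs : SameAway878 w h h') (hh : infComp w h' = thetaT291 (infComp w h)) :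
    SameAway878 w (y * h) (h' * z) ∧ infComp w (h' * z) = thetaT291 (infComp w (y * h)) := by
  constructor
  · have e1 : SameAway878 w (y * h) (1 * h') := (sameAway_of_local878 hy).mul hs
    have e2 : SameAway878 w (h' * z) (h' * 1) :=
      (SameAway878.refl w h').mul (sameAway_of_local878 hz)
    rw [one_mul] at e1
    rw [mul_one] at e2
    exact e1.trans e2.symm
  · rw [infComp_mul878, infComp_mul878, thetaT291_mul, hzc, hh]

end Fermat.Agent.LT.T2.H291

end

end
-- ===== PACK-END LT/T2/H291/GelfandT.lean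

-- ===== PACK-BEGIN LT/T2/H429/Aut.lean
section








/-!
# Row LT, tower T2, leaf T2.07 (helper429): invariance class and the pairing under translations

OFF-MAIN.
* `scalarUnif_central429` (= registry row T2.07.01), `diagPos_central429`;
* `cusp_diag_inv429`: a cusp function is right invariant under `Z⁺`;
* `IsAut429 φ`: left invariant under `GL₂(K)`, right invariant under `Z⁺`;
* `pair_shift_shift429`, `pair_shift_left429`, `nsq_shift429`: consequences of the KEY LEMMA
  (`transl429`): right translations are unitary for the pairing of a frame.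
-/

set_option autoImplicit false
set_option linter.style.haveILetI false
set_option linter.unusedSectionVars false

open IsDedekindDomain NumberField MeasureTheory
open Fermat.Agent.LT.H556.A0
open Fermat.Agent.LT.H129
open Fermat.Agent.LT.T2

noncomputable section

namespace Fermat.Agent.LT.T2.H429

variable {K : Type} [Field K] [NumberField K]

attribute [local instance] Fermat.Agent.LT.T2.borelG

/-! ## 1. Central elements -/

/-- **T2.07.01 CLOSED**: a scalar uniformiser is central. -/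
theorem scalarUnif_central429 {v : HeightOneSpectrum (𝓞 K)} {z : G K}
    (hz : IsScalarUniformizerAt v z) (g : G K) : g * z = z * g := by
  obtain ⟨hloc, c, -, hc⟩ := hz
  rw [isLocalAtFin_iff129] at hloc
  refine central_of_scalar_comp429 (fun w => ⟨1, ?_⟩) (fun v' => ?_) g
  · rw [hloc.1 w]
    exact one_eq_diagonal429
  · by_cases h : v' = v
    · subst h
      exact ⟨c, hc⟩
    · refine ⟨1, ?_⟩
      rw [hloc.2 v' h]
      exact one_eq_diagonal429

theorem subCentral429 (K : Type) [Field K] [NumberField K] : SubCentral429 K :=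
  fun _ _ hz g => scalarUnif_central429 hz g

/-- A diagonal positive scalar is central. -/
theorem diagPos_central429 {z : G K} (hz : IsDiagPosScalar z) (g : G K) : g * z = z * g := by
  obtain ⟨hfin, r, -, hr⟩ := hz
  refine central_of_scalar_comp429 (fun w => ⟨((infCompHom129 w z : GL (Fin 2) w.Completion) :
    Matrix (Fin 2) (Fin 2) w.Completion) 0 0, ?_⟩) (fun v => ⟨1, ?_⟩) g
  · exact scalar_of_map_scalar429 _ (r : ℂ) (hr w)
  · rw [(trivAtFin_iff129 v z).1 (hfin v)]
    exact one_eq_diagonal429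

/-! ## 2. Cusp functions are invariant under `Z⁺` -/

open scoped Classical in
/-- If `φ` is right invariant under the positive scalars at every infinite place, then it is
right invariant under the diagonal positive scalars. -/
theorem diag_inv_of_arch429 {φ : G K → ℂ}
    (h : ∀ (w : InfinitePlace K) (z : G K), IsArchPosScalar w z → ∀ g : G K, φ (g * z) = φ g)
    (z : G K) (hz : IsDiagPosScalar z) (g : G K) : φ (g * z) = φ g := by
  obtain ⟨hfin, r, hr0, hr⟩ := hz
  -- the partial products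
  let m : Finset (InfinitePlace K) → ∀ w : InfinitePlace K, GL (Fin 2) w.Completion :=
    fun S w => if w ∈ S then infCompHom129 w z else 1
  have key : ∀ S : Finset (InfinitePlace K), ∀ g : G K, φ (g * infMk429 K (m S)) = φ g := by
    intro S
    induction S using Finset.induction_on with
    | empty =>
      intro g
      have : m ∅ = 1 := by
        funext w
        simp [m]
      rw [this, map_one, mul_one]
    | insert w S hw ih =>
      intro g
      have hm : m (insert w S) = m S * Pi.mulSingle w (infCompHom129 w z) := by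
        funext w'
        by_cases e : w' = w
        · subst e
          simp [m, hw]
        · simp [m, e]
      have hl : IsArchPosScalar w (locInf429 w (infCompHom129 w z)) := by
        refine ⟨isLocalAtInf_locInf429 w _, r, hr0, ?_⟩
        rw [infComp_locInf429, ← infComp_eq429]
        exact hr w
      rw [hm, map_mul, ← mul_assoc]
      have : infMk429 K (Pi.mulSingle w (infCompHom129 w z))
          = locInf429 w (infCompHom129 w z) := rfl
      rw [this, h w _ hl, ih]
  have hz' : z = infMk429 K (m Finset.univ) := by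
    apply G_ext129
    · intro w
      rw [infCompHom_infMk429]
      simp [m]
    · intro v
      rw [finCompHom_infMk429]
      exact (trivAtFin_iff129 v z).1 (hfin v)
  rw [hz']
  exact key Finset.univ g

theorem cusp_diag_inv429 {𝔫 : Ideal (𝓞 K)} {φ : G K → ℂ} (hφ : IsCuspFn 𝔫 φ)
    (z : G K) (hz : IsDiagPosScalar z) (g : G K) : φ (g * z) = φ g :=
  diag_inv_of_arch429 hφ.arch_scalar z hz g

/-! ## 3. The invariance class -/

/-- Left invariant under `GL₂(K)` and right invariant under `Z⁺`. -/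
structure IsAut429 (φ : G K → ℂ) : Prop where
  left_inv : ∀ (γ : GL (Fin 2) K) (g : G K), φ (T1.ratG K γ * g) = φ g
  diag_inv : ∀ z : G K, IsDiagPosScalar z → ∀ g : G K, φ (g * z) = φ g

theorem cusp_isAut429 {𝔫 : Ideal (𝓞 K)} {φ : G K → ℂ} (hφ : IsCuspFn 𝔫 φ) : IsAut429 φ :=
  ⟨fun γ g => hφ.left_inv γ g, fun z hz g => cusp_diag_inv429 hφ z hz g⟩

theorem IsAut429.shift {φ : G K → ℂ} (hφ : IsAut429 φ) (h : G K) : IsAut429 (shift h φ) := by
  refine ⟨fun γ g => ?_, fun z hz g => ?_⟩
  · show φ (T1.ratG K γ * g * h) = φ (g * h)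
    rw [mul_assoc, hφ.left_inv]
  · show φ (g * z * h) = φ (g * h)
    rw [mul_assoc, ← diagPos_central429 hz h, ← mul_assoc, hφ.diag_inv z hz]

theorem IsAut429.mul_conj {φ ψ : G K → ℂ} (hφ : IsAut429 φ) (hψ : IsAut429 ψ) :
    IsAut429 (fun g => φ g * (starRingEnd ℂ) (ψ g)) := by
  refine ⟨fun γ g => ?_, fun z hz g => ?_⟩
  · show φ _ * (starRingEnd ℂ) (ψ _) = _
    rw [hφ.left_inv, hψ.left_inv]
  · show φ _ * (starRingEnd ℂ) (ψ _) = _
    rw [hφ.diag_inv z hz, hψ.diag_inv z hz]

theorem shift_shift429 (h k : G K) (φ : G K → ℂ) : shift h (shift k φ) = shift (h * k) φ := by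
  funext g
  show φ (g * h * k) = φ (g * (h * k))
  rw [mul_assoc]

theorem shift_one429 (φ : G K → ℂ) : shift (1 : G K) φ = φ := by
  funext g
  show φ (g * 1) = φ g
  rw [mul_one]

/-! ## 4. The pairing under translations -/

section Pair

variable (hN : T1.AdNormC K) (hU : T1.UnimodC K) (F : Frame K)

include hN hU in
/-- Right translations are unitary. -/
theorem pair_shift_shift429 {φ ψ : G K → ℂ} (hφ : IsAut429 φ) (hψ : IsAut429 ψ) (h : G K) :
    pair F (shift h φ) (shift h ψ) = pair F φ ψ := by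
  have hΦ := hφ.mul_conj hψ
  exact transl429 hN hU F (fun g => φ g * (starRingEnd ℂ) (ψ g)) hΦ.left_inv hΦ.diag_inv h

include hN hU in
/-- The adjoint of the right translation by `h` is the right translation by `h⁻¹`. -/
theorem pair_shift_left429 {φ ψ : G K → ℂ} (hφ : IsAut429 φ) (hψ : IsAut429 ψ) (h : G K) :
    pair F (shift h φ) ψ = pair F φ (shift h⁻¹ ψ) := by
  have := pair_shift_shift429 hN hU F hφ (hψ.shift h⁻¹) h
  rw [shift_shift429, mul_inv_cancel, shift_one429] at this
  exact this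

include hN hU in
theorem nsq_shift429 {φ : G K → ℂ} (hφ : IsAut429 φ) (h : G K) :
    nsq F (shift h φ) = nsq F φ := by
  unfold nsq
  rw [pair_shift_shift429 hN hU F hφ hφ h]

end Pair

/-! ## 5. Shifts by central elements preserve the cusp functions -/

theorem pres_shift_central429 (𝔫 : Ideal (𝓞 K)) {z : G K} (hz : ∀ g : G K, g * z = z * g) :
    Pres429 𝔫 (shift z) := by
  intro φ hφ
  have key : ∀ g u : G K, g * u * z = g * z * u := fun g u => by
    rw [mul_assoc, hz u, ← mul_assoc]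
  refine ⟨?_, ?_, ?_, ?_, ?_, ?_, ?_⟩
  · exact hφ.cont.comp (continuous_mul_const z)
  · obtain ⟨C, hC⟩ := hφ.bdd
    exact ⟨C, fun g => hC _⟩
  · intro γ g
    show φ (_ * g * z) = φ (g * z)
    rw [mul_assoc, hφ.left_inv]
  · intro u hu g
    show φ (g * u * z) = φ (g * z)
    rw [key, hφ.level_inv u hu]
  · intro w u hu g
    show φ (g * u * z) = φ (g * z)
    rw [key, hφ.arch_scalar w u hu]
  · intro w u hu g
    show φ (g * u * z) = φ (g * z)
    rw [key, hφ.arch_compact w u hu]
  · intro μ hμ D hD n hn g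
    have := hφ.cuspidal μ hμ D hD n hn (g * z)
    simp only [shift]
    simpa only [mul_assoc] using this

/-! ## 6. The sub-leaves on the shifts (registry rows T2.07.05 -- T2.07.07) -/

/-- **T2.07.05 CLOSED.** -/
theorem subShiftPres429 (K : Type) [Field K] [NumberField K] : SubShiftPres429 K :=
  fun 𝔫 _ _ _ _ hz =>
    ⟨pres_shift_central429 𝔫 (scalarUnif_central429 hz),
      pres_shift_central429 𝔫 (central_inv429 (scalarUnif_central429 hz))⟩

/-- **T2.07.06 CLOSED.** -/
theorem subShiftBdd429 (K : Type) [Field K] [NumberField K] : SubShiftBdd429 K :=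
  fun _ c F _ _ z _ =>
    ⟨⟨1, fun φ hφ => by rw [nsq_shift429 c.t1.adNorm c.t1.unimod F (cusp_isAut429 hφ) z, one_mul]⟩,
      ⟨1, fun φ hφ => by rw [nsq_shift429 c.t1.adNorm c.t1.unimod F (cusp_isAut429 hφ) z⁻¹, one_mul]⟩⟩

/-- **T2.07.07 CLOSED.** -/
theorem subShiftAdj429 (K : Type) [Field K] [NumberField K] : SubShiftAdj429 K :=
  fun _ c F _ _ z _ =>
    ⟨fun φ ψ hφ hψ => pair_shift_left429 c.t1.adNorm c.t1.unimod F (cusp_isAut429 hφ) (cusp_isAut429 hψ) z,
      fun φ ψ hφ hψ => by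
        have := pair_shift_left429 c.t1.adNorm c.t1.unimod F (cusp_isAut429 hφ) (cusp_isAut429 hψ) z⁻¹
        rwa [inv_inv] at this⟩

end Fermat.Agent.LT.T2.H429

end

end
-- ===== PACK-END LT/T2/H429/Aut.lean

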