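import Mathlib
import Fermat.Agent.Pack.LT3.E11L1
import Fermat.Agent.Pack.LT3.E11L2
import Fermat.Agent.Pack.LT2.E6L2
import Fermat.Agent.Pack.LT2.E6L3
import Fermat.Agent.Pack.LT3.E11L0
import Fermat.Agent.Pack.LT2.E2L3
import Fermat.Agent.Pack.LT3.E3L3
import Fermat.Agent.Pack.LT2.E3L0
import Fermat.Agent.Pack.LT2.E7L3
import Fermat.Agent.Pack.LT3.E13L1

set_option linter.all false

-- ===== PACK-BEGIN LT/H670/QOut/Top.lean
section


/-!
# Row LT, T7.QOUT (helper670): current top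

`qOut_of_three : QA1 → QA2 → QA3 → QOutC` (the classical leaves `QA4`, `QN` are PROVED).  OFF-MAIN.
-/

set_option autoImplicit false

namespace Fermat.Agent.LT.H670.QOut

/-- **QOUT from the three adelic leaves.** -/
theorem qOut_of_three (h1 : QA1) (h2 : QA2) (h3 : QA3) : QOutC :=
  qOut_of_five h1 h2 h3 qA4 qN

end Fermat.Agent.LT.H670.QOut

end
-- ===== PACK-END LT/H670/QOut/Top.lean

-- ===== PACK-BEGIN LT/T7/H237/QA3Hecke.lean
section



/-!
# Row LT, tower T7, sub-tower QOUT: the HECKE HALF of leaf `QA3` -- helper237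

OFF-MAIN.  On `H670/QOut/SpecA.lean` (frozen) + `H670/QOut/Api2.lean` + `T7/H237/QA2.lean`.

`fnHecke237 : IsLevelForm N a b φ → TorusEquiv N ψ₁ ψ₂ φ → FnHecke N ψ₁ ψ₂ a b (famFn φ 1)`:
the classical function `F(z) = y^{-1/2} φ(g_z)` of a torus-equivariant form of level `U(N)`
satisfies, for every prime `p ∤ N`,
`ψ₁(p)⁻¹ Σ_{j<p} F ∣[1] [[1, N j],[0, p]] + ψ₂(p)⁻¹ F ∣[1] [[p, 0],[0, 1]] = a_p F` and
`b_p ψ₁(p) ψ₂(p) = 1`.

No Iwasawa decomposition and no `Γ(N)`-invariance is used: the coset system at `v = (p)` is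
`h_j = [[p, -N j],[0, 1]]_v` (`j < p`), `h_∞ = [[1, 0],[0, p]]_v`; for `h = γ_v` with `γ` rational,
`φ(g_z h) = φ(γ⁻¹ g_z h) = φ((γ⁻¹ g_z)_∞ · u)` with `u = finPart γ⁻¹ · γ_v` integral everywhere and
congruent to `diag(p⁻¹, 1)` resp. `diag(1, p⁻¹)` mod `N`; `γ⁻¹ g_z` is `g_{z'}` times a positive
scalar since `γ` is upper triangular.

* Part G: valuations of rational numbers at the places of `ℚ`.
* Part H: `ratAt237`, `awayEl237` and their components; `diagMod_of_comps237`.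
* Part I: the coset system `hSys237` and `isHeckeCosetSystem_hSys237`.
* Part J: the congruences `DiagMod` of the elements `awayEl237`.
* Part K: `transfer237` and the identities in `GL₂(ℝ)`.
* Part L: `hecke_sum237`, `hecke_scalar237`, `fnHecke237`.
-/

set_option autoImplicit false

open IsDedekindDomain NumberField AutomorphicForm
open scoped MatrixGroups

noncomputable section

namespace Fermat.Agent.LT.T7.H237

open Fermat.Agent.LT.H556 Fermat.Agent.LT.H670.QOut

/-! ## Part G: valuations of rational numbers -/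

theorem valuation_intCast_le_one237 (v : HeightOneSpectrum (𝓞 ℚ)) (m : ℤ) :
    v.valuation ℚ ((m : ℤ) : ℚ) ≤ 1 := by
  have h : ((m : ℤ) : ℚ) = algebraMap (𝓞 ℚ) ℚ ((m : ℤ) : 𝓞 ℚ) := by rw [map_intCast]
  rw [h]
  exact HeightOneSpectrum.valuation_le_one v _

theorem valuation_natCast237 (v : HeightOneSpectrum (𝓞 ℚ)) (n : ℕ) :
    v.valuation ℚ ((n : ℕ) : ℚ) = Valued.v ((n : ℕ) : v.adicCompletion ℚ) := by
  rw [← valued_algebraMap237, map_natCast]

theorem valuation_intCast237 (v : HeightOneSpectrum (𝓞 ℚ)) (n : ℤ) :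
    v.valuation ℚ ((n : ℤ) : ℚ) = Valued.v ((n : ℤ) : v.adicCompletion ℚ) := by
  rw [← valued_algebraMap237, map_intCast]

/-- a prime is a unit at every place different from its own -/
theorem valuation_prime_of_ne237 (p : Nat.Primes) (v : HeightOneSpectrum (𝓞 ℚ))
    (hv : v ≠ ratPrime p) : v.valuation ℚ (((p : ℕ) : ℕ) : ℚ) = 1 := by
  rw [valuation_natCast237, valued_natCast_eq_one_iff237]
  obtain ⟨q, rfl⟩ := exists_eq_ratPrime v
  rw [natCast_mem_ratPrime_iff]
  intro hdvd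
  apply hv
  have : (q : ℕ) = (p : ℕ) := (Nat.prime_dvd_prime_iff_eq q.2 p.2).1 hdvd
  rw [Subtype.ext this]

/-- a prime is a uniformiser at its own place -/
theorem valuation_prime_self237 (p : Nat.Primes) :
    (ratPrime p).valuation ℚ (((p : ℕ) : ℕ) : ℚ) = WithZero.exp (-1 : ℤ) := by
  have h : (((p : ℕ) : ℕ) : ℚ) = algebraMap (𝓞 ℚ) ℚ (((p : ℕ) : ℕ) : 𝓞 ℚ) := by rw [map_natCast]
  rw [h, HeightOneSpectrum.valuation_of_algebraMap]
  exact HeightOneSpectrum.intValuation_singleton _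
    (Nat.cast_ne_zero.2 p.2.ne_zero) (ratPrime_asIdeal p)

/-- an integer prime to `p` is a unit at `p` -/
theorem valuation_natCast_eq_one_of_not_dvd237 (p : Nat.Primes) {n : ℕ} (hn : ¬ (p : ℕ) ∣ n) :
    (ratPrime p).valuation ℚ ((n : ℕ) : ℚ) = 1 := by
  rw [valuation_natCast237, valued_natCast_eq_one_iff237, natCast_mem_ratPrime_iff]
  exact hn

theorem valuation_intCast_eq_one_of_not_dvd237 (p : Nat.Primes) {n : ℤ}
    (hn : ¬ ((p : ℕ) : ℤ) ∣ n) : (ratPrime p).valuation ℚ ((n : ℤ) : ℚ) = 1 := by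
  have h1 : (ratPrime p).valuation ℚ ((n.natAbs : ℕ) : ℚ) = 1 :=
    valuation_natCast_eq_one_of_not_dvd237 p (fun h => hn (Int.natCast_dvd.2 h))
  rcases Int.natAbs_eq n with h | h
  · rw [h, Int.cast_natCast]; exact h1
  · rw [h, Int.cast_neg, Int.cast_natCast, Valuation.map_neg]; exact h1

/-- `m / p` is divisible by `N` at `v` when `N ∣ m` and `p` is a unit at `v` -/
theorem valuation_div_le237 (N : ℕ) (v : HeightOneSpectrum (𝓞 ℚ)) {m : ℤ} {c : ℚ}
    (hc : v.valuation ℚ c = 1) (hm : (N : ℤ) ∣ m) :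
    v.valuation ℚ (((m : ℤ) : ℚ) * c⁻¹) ≤ v.valuation ℚ ((N : ℕ) : ℚ) := by
  obtain ⟨k, rfl⟩ := hm
  rw [map_mul, map_inv₀, hc, inv_one, mul_one, Int.cast_mul, map_mul, Int.cast_natCast]
  calc v.valuation ℚ ((N : ℕ) : ℚ) * v.valuation ℚ ((k : ℤ) : ℚ)
      ≤ v.valuation ℚ ((N : ℕ) : ℚ) * 1 := mul_le_mul' le_rfl (valuation_intCast_le_one237 v k)
    _ = _ := mul_one _

/-! ## Part H: rational matrices at the finite places -/

/-- `GL₂(ℚ) → GL₂(ℚ_v)` -/
def ratAt237 (v : HeightOneSpectrum (𝓞 ℚ)) : GL (Fin 2) ℚ →* GL (Fin 2) (v.adicCompletion ℚ) :=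
  Matrix.GeneralLinearGroup.map (algebraMap ℚ (v.adicCompletion ℚ))

theorem coe_ratAt237 (v : HeightOneSpectrum (𝓞 ℚ)) (γ : GL (Fin 2) ℚ) :
    ((ratAt237 v γ : GL (Fin 2) (v.adicCompletion ℚ)) :
        Matrix (Fin 2) (Fin 2) (v.adicCompletion ℚ))
      = (γ : Matrix (Fin 2) (Fin 2) ℚ).map (algebraMap ℚ (v.adicCompletion ℚ)) := rfl

/-- the element with components `γ⁻¹` at the finite places `≠ v`, trivial at `v` and at the
real place -/
def awayEl237 (v : HeightOneSpectrum (𝓞 ℚ)) (γ : GL (Fin 2) ℚ) : A0.G ℚ :=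
  finPart γ⁻¹ * locFin v (ratAt237 v γ)

theorem trivAtInf_awayEl237 (v : HeightOneSpectrum (𝓞 ℚ)) (γ : GL (Fin 2) ℚ) :
    ∀ w, A0.TrivAtInf w (awayEl237 v γ) :=
  trivAtInf_mul237 (trivAtInf_finPart γ⁻¹) (fun w => trivAtInf_locFin v _ w)

theorem awayEl_inv237 (v : HeightOneSpectrum (𝓞 ℚ)) (γ : GL (Fin 2) ℚ) :
    (awayEl237 v γ)⁻¹ = locFin v (ratAt237 v γ⁻¹) * finPart γ := by
  rw [awayEl237, mul_inv_rev, finPart_inv, inv_inv, map_inv, map_inv]

theorem finComp_awayEl_same237 (v : HeightOneSpectrum (𝓞 ℚ)) (γ : GL (Fin 2) ℚ) :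
    A0.finComp v (awayEl237 v γ) = 1 := by
  rw [awayEl237, finComp_mul237, finComp_finPart, finComp_locFin_same, coe_ratAt237,
    ← Matrix.map_mul, ← Units.val_mul, inv_mul_cancel, Units.val_one,
    Matrix.map_one _ (map_zero _) (map_one _)]

theorem finComp_awayEl_ne237 (v v' : HeightOneSpectrum (𝓞 ℚ)) (h : v' ≠ v)
    (γ : GL (Fin 2) ℚ) :
    A0.finComp v' (awayEl237 v γ)
      = ((γ⁻¹ : GL (Fin 2) ℚ) : Matrix (Fin 2) (Fin 2) ℚ).map
          (algebraMap ℚ (v'.adicCompletion ℚ)) := by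
  rw [awayEl237, finComp_mul237, finComp_finPart, finComp_locFin_ne v v' h, mul_one]

theorem finComp_awayEl_inv_same237 (v : HeightOneSpectrum (𝓞 ℚ)) (γ : GL (Fin 2) ℚ) :
    A0.finComp v (awayEl237 v γ)⁻¹ = 1 := by
  rw [awayEl_inv237, finComp_mul237, finComp_finPart, finComp_locFin_same, coe_ratAt237,
    ← Matrix.map_mul, ← Units.val_mul, inv_mul_cancel, Units.val_one,
    Matrix.map_one _ (map_zero _) (map_one _)]

theorem finComp_awayEl_inv_ne237 (v v' : HeightOneSpectrum (𝓞 ℚ)) (h : v' ≠ v)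
    (γ : GL (Fin 2) ℚ) :
    A0.finComp v' (awayEl237 v γ)⁻¹
      = (γ : Matrix (Fin 2) (Fin 2) ℚ).map (algebraMap ℚ (v'.adicCompletion ℚ)) := by
  rw [awayEl_inv237, finComp_mul237, finComp_finPart, finComp_locFin_ne v v' h, one_mul]

theorem dg_eq_map237 (v : HeightOneSpectrum (𝓞 ℚ)) (a d : ℤ) :
    dg237 v a d = (Matrix.diagonal ![((a : ℤ) : ℚ), ((d : ℤ) : ℚ)]).map
      (algebraMap ℚ (v.adicCompletion ℚ)) := by
  refine Matrix.ext fun i j => ?_
  fin_cases i <;> fin_cases j <;> simp [dg237]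

/-- `DiagMod` from the components -/
theorem diagMod_of_comps237 {N : ℕ} [NeZero N] {v : HeightOneSpectrum (𝓞 ℚ)}
    (hv : ((N : ℕ) : 𝓞 ℚ) ∉ v.asIdeal) {u : A0.G ℚ} (M : Matrix (Fin 2) (Fin 2) ℚ) (a d : ℤ)
    (hinf : ∀ w, A0.TrivAtInf w u) (hsame : A0.finComp v u = 1)
    (hne : ∀ v', v' ≠ v → A0.finComp v' u = M.map (algebraMap ℚ (v'.adicCompletion ℚ)))
    (h : ∀ v', v' ≠ v → ∀ i j,
      v'.valuation ℚ (M i j - Matrix.diagonal ![((a : ℤ) : ℚ), ((d : ℤ) : ℚ)] i j)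
        ≤ v'.valuation ℚ ((N : ℕ) : ℚ)) :
    DiagMod N a d u := by
  rw [diagMod_iff237]
  refine ⟨hinf, fun v' => ?_⟩
  by_cases hv' : v' = v
  · subst hv'
    intro i j
    rw [hsame, valued_N_eq_one237 N v' hv, ← dg_one237 v']
    have h1 : MatInt237 v' (dg237 v' 1 1 - dg237 v' a d) := by
      intro i j
      exact Valuation.map_sub_le _ (matInt_dg237 v' 1 1 i j) (matInt_dg237 v' a d i j)
    exact h1 i j
  · intro i j
    rw [hne v' hv', dg_eq_map237, ← Matrix.map_sub (f := algebraMap ℚ (v'.adicCompletion ℚ))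
      (fun _ _ => map_sub _ _ _), Matrix.map_apply, valued_algebraMap237,
      ← valuation_natCast237]
    exact h v' hv' i j

/-! ## Part I: the Hecke coset system at `p ∤ N` -/

/-- upper triangular rational matrix, with its explicit inverse -/
def utQ237 (a b d : ℚ) (ha : a ≠ 0) (hd : d ≠ 0) : GL (Fin 2) ℚ :=
  ⟨!![a, b; 0, d], !![a⁻¹, -(b * a⁻¹ * d⁻¹); 0, d⁻¹], by
      ext i j
      fin_cases i <;> fin_cases j <;> simp [Matrix.mul_apply, Fin.sum_univ_two] <;> field_simp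
      ring, by
      ext i j
      fin_cases i <;> fin_cases j <;> simp [Matrix.mul_apply, Fin.sum_univ_two] <;> field_simp
      ring⟩

theorem coe_utQ237 (a b d : ℚ) (ha : a ≠ 0) (hd : d ≠ 0) :
    ((utQ237 a b d ha hd : GL (Fin 2) ℚ) : Matrix (Fin 2) (Fin 2) ℚ) = !![a, b; 0, d] := rfl

theorem coe_utQ_inv237 (a b d : ℚ) (ha : a ≠ 0) (hd : d ≠ 0) :
    (((utQ237 a b d ha hd)⁻¹ : GL (Fin 2) ℚ) : Matrix (Fin 2) (Fin 2) ℚ)
      = !![a⁻¹, -(b * a⁻¹ * d⁻¹); 0, d⁻¹] := rfl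

theorem primeQ_ne_zero237 (p : Nat.Primes) : (((p : ℕ) : ℕ) : ℚ) ≠ 0 :=
  Nat.cast_ne_zero.2 p.2.ne_zero

/-- `[[p, -N j], [0, 1]]` -/
def gamJ237 (N : ℕ) (p : Nat.Primes) (j : ℕ) : GL (Fin 2) ℚ :=
  utQ237 (((p : ℕ) : ℕ) : ℚ) (-(((N : ℕ) : ℚ) * ((j : ℕ) : ℚ))) 1 (primeQ_ne_zero237 p) one_ne_zero

/-- `[[1, 0], [0, p]]` -/
def gamI237 (p : Nat.Primes) : GL (Fin 2) ℚ :=
  utQ237 1 0 (((p : ℕ) : ℕ) : ℚ) one_ne_zero (primeQ_ne_zero237 p)

/-- `[[p, 0], [0, p]]` -/
def gamS237 (p : Nat.Primes) : GL (Fin 2) ℚ :=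
  utQ237 (((p : ℕ) : ℕ) : ℚ) 0 (((p : ℕ) : ℕ) : ℚ) (primeQ_ne_zero237 p) (primeQ_ne_zero237 p)

/-- the rational matrices of the coset system -/
def hk237 (N : ℕ) (p : Nat.Primes) : Option (Fin (p : ℕ)) → GL (Fin 2) ℚ
  | none => gamI237 p
  | some j => gamJ237 N p (j : ℕ)

theorem coe_hk_none237 (N : ℕ) (p : Nat.Primes) :
    ((hk237 N p none : GL (Fin 2) ℚ) : Matrix (Fin 2) (Fin 2) ℚ)
      = !![1, 0; 0, (((p : ℕ) : ℕ) : ℚ)] := rfl

theorem coe_hk_some237 (N : ℕ) (p : Nat.Primes) (j : Fin (p : ℕ)) :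
    ((hk237 N p (some j) : GL (Fin 2) ℚ) : Matrix (Fin 2) (Fin 2) ℚ)
      = !![(((p : ℕ) : ℕ) : ℚ), -(((N : ℕ) : ℚ) * (((j : ℕ) : ℕ) : ℚ)); 0, 1] := rfl

theorem coe_hk_inv_none237 (N : ℕ) (p : Nat.Primes) :
    (((hk237 N p none)⁻¹ : GL (Fin 2) ℚ) : Matrix (Fin 2) (Fin 2) ℚ)
      = !![(1 : ℚ)⁻¹, -(0 * (1 : ℚ)⁻¹ * ((((p : ℕ) : ℕ) : ℚ))⁻¹); 0,
          ((((p : ℕ) : ℕ) : ℚ))⁻¹] := rfl

theorem coe_hk_inv_some237 (N : ℕ) (p : Nat.Primes) (j : Fin (p : ℕ)) :
    (((hk237 N p (some j))⁻¹ : GL (Fin 2) ℚ) : Matrix (Fin 2) (Fin 2) ℚ)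
      = !![((((p : ℕ) : ℕ) : ℚ))⁻¹,
          -(-(((N : ℕ) : ℚ) * (((j : ℕ) : ℕ) : ℚ)) * ((((p : ℕ) : ℕ) : ℚ))⁻¹ * (1 : ℚ)⁻¹);
          0, (1 : ℚ)⁻¹] := rfl

/-- the coset representatives -/
def hel237 (N : ℕ) (p : Nat.Primes) (x : Option (Fin (p : ℕ))) : A0.G ℚ :=
  locFin (ratPrime p) (ratAt237 (ratPrime p) (hk237 N p x))

theorem finComp_hel237 (N : ℕ) (p : Nat.Primes) (x : Option (Fin (p : ℕ))) :
    A0.finComp (ratPrime p) (hel237 N p x)
      = (hk237 N p x : Matrix (Fin 2) (Fin 2) ℚ).map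
          (algebraMap ℚ ((ratPrime p).adicCompletion ℚ)) := by
  rw [hel237, finComp_locFin_same, coe_ratAt237]

theorem finComp_hel_inv_mul237 (N : ℕ) (p : Nat.Primes) (x y : Option (Fin (p : ℕ))) :
    A0.finComp (ratPrime p) ((hel237 N p x)⁻¹ * hel237 N p y)
      = (((hk237 N p x)⁻¹ * hk237 N p y : GL (Fin 2) ℚ) : Matrix (Fin 2) (Fin 2) ℚ).map
          (algebraMap ℚ ((ratPrime p).adicCompletion ℚ)) := by
  rw [hel237, hel237, ← map_inv, ← map_mul, ← map_inv, ← map_mul, finComp_locFin_same,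
    coe_ratAt237]

theorem valuation_prime_inv237 (p : Nat.Primes) :
    (1 : WithZero (Multiplicative ℤ)) < (ratPrime p).valuation ℚ ((((p : ℕ) : ℕ) : ℚ)⁻¹) := by
  rw [map_inv₀, valuation_prime_self237, ← WithZero.exp_neg, neg_neg, ← WithZero.exp_zero,
    WithZero.exp_lt_exp]
  exact zero_lt_one

theorem isIntegralAt_iff237 (v : HeightOneSpectrum (𝓞 ℚ)) (g : A0.G ℚ) :
    A0.IsIntegralAt v g ↔ ∀ i j, Valued.v (A0.finComp v g i j) ≤ 1 := Iff.rfl

theorem not_isIntegralAt_hel237 {N : ℕ} (p : Nat.Primes) (hp : ¬ (p : ℕ) ∣ N)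
    (x y : Option (Fin (p : ℕ))) (hxy : x ≠ y) :
    ¬ A0.IsIntegralAt (ratPrime p) ((hel237 N p x)⁻¹ * hel237 N p y) := by
  rw [isIntegralAt_iff237, finComp_hel_inv_mul237]
  intro hint
  have hp0 := primeQ_ne_zero237 p
  rcases x with _ | j <;> rcases y with _ | j'
  · exact hxy rfl
  · -- `γ_∞⁻¹ γ_j`, entry `(1,1) = p⁻¹`
    have h := hint 1 1
    rw [Matrix.map_apply, valued_algebraMap237, Units.val_mul] at h
    have e : ((((hk237 N p none)⁻¹ : GL (Fin 2) ℚ) : Matrix (Fin 2) (Fin 2) ℚ) *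
        ((hk237 N p (some j') : GL (Fin 2) ℚ) : Matrix (Fin 2) (Fin 2) ℚ)) 1 1
        = (((p : ℕ) : ℕ) : ℚ)⁻¹ := by
      rw [coe_hk_inv_none237, coe_hk_some237]
      simp [Matrix.mul_apply, Fin.sum_univ_two]
    rw [e] at h
    exact absurd h (not_le.2 (valuation_prime_inv237 p))
  · -- `γ_j⁻¹ γ_∞`, entry `(0,0) = p⁻¹`
    have h := hint 0 0
    rw [Matrix.map_apply, valued_algebraMap237, Units.val_mul] at h
    have e : ((((hk237 N p (some j))⁻¹ : GL (Fin 2) ℚ) : Matrix (Fin 2) (Fin 2) ℚ) *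
        ((hk237 N p none : GL (Fin 2) ℚ) : Matrix (Fin 2) (Fin 2) ℚ)) 0 0
        = (((p : ℕ) : ℕ) : ℚ)⁻¹ := by
      rw [coe_hk_inv_some237, coe_hk_none237]
      simp [Matrix.mul_apply, Fin.sum_univ_two]
    rw [e] at h
    exact absurd h (not_le.2 (valuation_prime_inv237 p))
  · -- `γ_j⁻¹ γ_j'`, entry `(0,1) = N (j - j') / p`
    have hjj : (j : ℕ) ≠ (j' : ℕ) := fun h => hxy (by rw [Fin.ext h])
    have h := hint 0 1
    rw [Matrix.map_apply, valued_algebraMap237, Units.val_mul] at h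
    have e : ((((hk237 N p (some j))⁻¹ : GL (Fin 2) ℚ) : Matrix (Fin 2) (Fin 2) ℚ) *
        ((hk237 N p (some j') : GL (Fin 2) ℚ) : Matrix (Fin 2) (Fin 2) ℚ)) 0 1
        = ((N : ℕ) : ℚ) * (((((j : ℕ) : ℤ) - ((j' : ℕ) : ℤ) : ℤ)) : ℚ) *
          (((p : ℕ) : ℕ) : ℚ)⁻¹ := by
      rw [coe_hk_inv_some237, coe_hk_some237]
      simp [Matrix.mul_apply, Fin.sum_univ_two]
      field_simp
      ring
    rw [e, map_mul, map_mul, valuation_natCast_eq_one_of_not_dvd237 p hp, one_mul,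
      valuation_intCast_eq_one_of_not_dvd237 p, one_mul] at h
    · exact absurd h (not_le.2 (valuation_prime_inv237 p))
    · intro hdvd
      have h0 : (((j : ℕ) : ℤ) - ((j' : ℕ) : ℤ)) = 0 := by
        apply Int.eq_zero_of_abs_lt_dvd hdvd
        have h1 : ((j : ℕ) : ℤ) < ((p : ℕ) : ℤ) := by exact_mod_cast j.2
        have h2 : ((j' : ℕ) : ℤ) < ((p : ℕ) : ℤ) := by exact_mod_cast j'.2
        have h3 : (0 : ℤ) ≤ ((j : ℕ) : ℤ) := Int.natCast_nonneg _
        have h4 : (0 : ℤ) ≤ ((j' : ℕ) : ℤ) := Int.natCast_nonneg _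
        rw [abs_lt]
        constructor <;> linarith
      apply hjj
      have : ((j : ℕ) : ℤ) = ((j' : ℕ) : ℤ) := by linarith
      exact_mod_cast this

theorem isIntegralAt_one237 (v : HeightOneSpectrum (𝓞 ℚ)) : A0.IsIntegralAt v (1 : A0.G ℚ) := by
  rw [isIntegralAt_iff237, finComp_one237]
  intro i j
  by_cases hij : i = j
  · rw [hij, Matrix.one_apply_eq, map_one]
  · rw [Matrix.one_apply_ne hij, map_zero]; exact zero_le

theorem hel_injective237 {N : ℕ} (p : Nat.Primes) (hp : ¬ (p : ℕ) ∣ N) :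
    Function.Injective (hel237 N p) := by
  intro x y hxy
  by_contra hne
  apply not_isIntegralAt_hel237 p hp x y hne
  rw [hxy, inv_mul_cancel]
  exact isIntegralAt_one237 _

/-- the coset system -/
def hSys237 (N : ℕ) (p : Nat.Primes) : Finset (A0.G ℚ) :=
  open Classical in Finset.univ.image (hel237 N p)

theorem isHeckeCosetSystem_hSys237 {N : ℕ} (p : Nat.Primes) (hp : ¬ (p : ℕ) ∣ N) :
    A0.IsHeckeCosetSystem (ratPrime p) (hSys237 N p) := by
  classical
  refine ⟨?_, ?_, ?_⟩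
  · rw [hSys237, Finset.card_image_of_injective _ (hel_injective237 p hp), Finset.card_univ,
      Fintype.card_option, Fintype.card_fin, absNorm_ratPrime]
  · intro h hh
    rw [hSys237, Finset.mem_image] at hh
    obtain ⟨x, -, rfl⟩ := hh
    refine ⟨isLocalAtFin_locFin _ _, ?_, ?_⟩
    · rw [isIntegralAt_iff237, finComp_hel237]
      intro i j
      rw [Matrix.map_apply, valued_algebraMap237]
      have hP : (ratPrime p).valuation ℚ (((p : ℕ) : ℕ) : ℚ) ≤ 1 := by
        have := valuation_intCast_le_one237 (ratPrime p) (((p : ℕ) : ℕ) : ℤ)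
        rwa [Int.cast_natCast] at this
      rcases x with _ | k
      · rw [coe_hk_none237]
        fin_cases i <;> fin_cases j <;> simp [hP]
      · rw [coe_hk_some237]
        have hNk : (ratPrime p).valuation ℚ (((N : ℕ) : ℚ) * (((k : ℕ) : ℕ) : ℚ)) ≤ 1 := by
          have := valuation_intCast_le_one237 (ratPrime p) (((N : ℕ) : ℤ) * ((k : ℕ) : ℤ))
          rw [Int.cast_mul, Int.cast_natCast, Int.cast_natCast] at this
          exact this
        fin_cases i <;> fin_cases j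
        · simpa using hP
        · simpa [Valuation.map_neg] using hNk
        · simp
        · simp
    · have hdet : ((hk237 N p x : Matrix (Fin 2) (Fin 2) ℚ).map
          (algebraMap ℚ ((ratPrime p).adicCompletion ℚ))).det
          = algebraMap ℚ ((ratPrime p).adicCompletion ℚ)
            ((hk237 N p x : Matrix (Fin 2) (Fin 2) ℚ).det) :=
        (RingHom.map_det (algebraMap ℚ ((ratPrime p).adicCompletion ℚ)) _).symm
      rw [finComp_hel237, hdet, valued_algebraMap237]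
      rcases x with _ | k
      · rw [coe_hk_none237, Matrix.det_fin_two_of, one_mul, zero_mul, sub_zero]
        exact valuation_prime_self237 p
      · rw [coe_hk_some237, Matrix.det_fin_two_of, mul_one, mul_zero, sub_zero]
        exact valuation_prime_self237 p
  · intro h hh h' hh' hne
    rw [hSys237, Finset.mem_image] at hh hh'
    obtain ⟨x, -, rfl⟩ := hh
    obtain ⟨y, -, rfl⟩ := hh'
    exact not_isIntegralAt_hel237 p hp x y (fun hxy => hne (by rw [hxy]))

/-! ## Part J: congruences of the elements `awayEl` -/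

theorem valuation_dvd_le237 (N : ℕ) (v : HeightOneSpectrum (𝓞 ℚ)) {m : ℤ} (hm : (N : ℤ) ∣ m) :
    v.valuation ℚ ((m : ℤ) : ℚ) ≤ v.valuation ℚ ((N : ℕ) : ℚ) := by
  have := valuation_div_le237 N v (c := 1) (map_one _) hm
  rwa [inv_one, mul_one] at this

theorem valuation_zero_le237 (N : ℕ) (v : HeightOneSpectrum (𝓞 ℚ)) :
    v.valuation ℚ (0 : ℚ) ≤ v.valuation ℚ ((N : ℕ) : ℚ) := by
  rw [map_zero]; exact zero_le

theorem diagMod_awayEl_utQ237 {N : ℕ} [NeZero N] {v : HeightOneSpectrum (𝓞 ℚ)}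
    (hv : ((N : ℕ) : 𝓞 ℚ) ∉ v.asIdeal) (a b d : ℚ) (ha : a ≠ 0) (hd : d ≠ 0) (a' d' : ℤ)
    (h00 : ∀ v', v' ≠ v → v'.valuation ℚ (a⁻¹ - ((a' : ℤ) : ℚ)) ≤ v'.valuation ℚ ((N : ℕ) : ℚ))
    (h01 : ∀ v', v' ≠ v → v'.valuation ℚ (b * a⁻¹ * d⁻¹) ≤ v'.valuation ℚ ((N : ℕ) : ℚ))
    (h11 : ∀ v', v' ≠ v → v'.valuation ℚ (d⁻¹ - ((d' : ℤ) : ℚ)) ≤ v'.valuation ℚ ((N : ℕ) : ℚ)) :
    DiagMod N a' d' (awayEl237 v (utQ237 a b d ha hd)) := by
  refine diagMod_of_comps237 hv _ a' d' (trivAtInf_awayEl237 v _) (finComp_awayEl_same237 v _)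
    (fun v' hv' => finComp_awayEl_ne237 v v' hv' _) (fun v' hv' i j => ?_)
  rw [coe_utQ_inv237]
  fin_cases i <;> fin_cases j
  · simpa using h00 v' hv'
  · simpa [Valuation.map_neg] using h01 v' hv'
  · simp
  · simpa using h11 v' hv'

theorem diagMod_awayEl_inv_utQ237 {N : ℕ} [NeZero N] {v : HeightOneSpectrum (𝓞 ℚ)}
    (hv : ((N : ℕ) : 𝓞 ℚ) ∉ v.asIdeal) (a b d : ℚ) (ha : a ≠ 0) (hd : d ≠ 0) (a₀ d₀ : ℤ)
    (h00 : ∀ v', v' ≠ v → v'.valuation ℚ (a - ((a₀ : ℤ) : ℚ)) ≤ v'.valuation ℚ ((N : ℕ) : ℚ))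
    (h01 : ∀ v', v' ≠ v → v'.valuation ℚ b ≤ v'.valuation ℚ ((N : ℕ) : ℚ))
    (h11 : ∀ v', v' ≠ v → v'.valuation ℚ (d - ((d₀ : ℤ) : ℚ)) ≤ v'.valuation ℚ ((N : ℕ) : ℚ)) :
    DiagMod N a₀ d₀ (awayEl237 v (utQ237 a b d ha hd))⁻¹ := by
  refine diagMod_of_comps237 hv _ a₀ d₀ (trivAtInf_inv237 (trivAtInf_awayEl237 v _))
    (finComp_awayEl_inv_same237 v _)
    (fun v' hv' => finComp_awayEl_inv_ne237 v v' hv' _) (fun v' hv' i j => ?_)
  rw [coe_utQ237]
  fin_cases i <;> fin_cases j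
  · simpa using h00 v' hv'
  · simpa using h01 v' hv'
  · simp
  · simpa using h11 v' hv'

section Cong

variable {N : ℕ} [NeZero N] (p : Nat.Primes) (hp : ¬ (p : ℕ) ∣ N) {p' : ℤ}
  (hpp : (N : ℤ) ∣ (((p : ℕ) : ℕ) : ℤ) * p' - 1)

omit [NeZero N] in
include hp in
theorem notMem_ratPrime237 : ((N : ℕ) : 𝓞 ℚ) ∉ (ratPrime p).asIdeal := fun h =>
  hp ((natCast_mem_ratPrime_iff p N).1 h)

omit [NeZero N] in
include hpp in
/-- `p⁻¹ ≡ p'` mod `N` away from `p` -/
theorem valuation_inv_sub237 (v' : HeightOneSpectrum (𝓞 ℚ)) (hv' : v' ≠ ratPrime p) :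
    v'.valuation ℚ (((((p : ℕ) : ℕ) : ℚ))⁻¹ - ((p' : ℤ) : ℚ))
      ≤ v'.valuation ℚ ((N : ℕ) : ℚ) := by
  have hp0 := primeQ_ne_zero237 p
  have e : ((((p : ℕ) : ℕ) : ℚ))⁻¹ - ((p' : ℤ) : ℚ)
      = -((((((p : ℕ) : ℕ) : ℤ) * p' - 1 : ℤ) : ℚ) * ((((p : ℕ) : ℕ) : ℚ))⁻¹) := by
    push_cast
    field_simp
    ring
  rw [e, Valuation.map_neg]
  exact valuation_div_le237 N v' (valuation_prime_of_ne237 p v' hv') hpp

include hp hpp in
theorem diagMod_gamJ237 (j : ℕ) :
    DiagMod N p' 1 (awayEl237 (ratPrime p) (gamJ237 N p j)) := by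
  refine diagMod_awayEl_utQ237 (notMem_ratPrime237 p hp) _ _ _ _ _ p' 1
    (fun v' hv' => valuation_inv_sub237 p hpp v' hv') (fun v' hv' => ?_) (fun v' hv' => ?_)
  · have h := valuation_div_le237 N v' (m := -(((N : ℕ) : ℤ) * ((j : ℕ) : ℤ)))
      (valuation_prime_of_ne237 p v' hv') (Dvd.intro _ rfl |>.neg_right)
    simpa using h
  · simp

include hp in
theorem diagMod_gamJ_inv237 (j : ℕ) :
    DiagMod N (((p : ℕ) : ℕ) : ℤ) 1 (awayEl237 (ratPrime p) (gamJ237 N p j))⁻¹ := by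
  refine diagMod_awayEl_inv_utQ237 (notMem_ratPrime237 p hp) _ _ _ _ _ _ 1
    (fun v' hv' => ?_) (fun v' hv' => ?_) (fun v' hv' => ?_)
  · simp
  · have h := valuation_dvd_le237 N v' (m := -(((N : ℕ) : ℤ) * ((j : ℕ) : ℤ)))
      (Dvd.intro _ rfl |>.neg_right)
    simpa using h
  · simp

include hp hpp in
theorem diagMod_gamI237 :
    DiagMod N 1 p' (awayEl237 (ratPrime p) (gamI237 p)) := by
  refine diagMod_awayEl_utQ237 (notMem_ratPrime237 p hp) _ _ _ _ _ 1 p'
    (fun v' hv' => ?_) (fun v' hv' => ?_) (fun v' hv' => valuation_inv_sub237 p hpp v' hv')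
  · simp
  · simp

include hp in
theorem diagMod_gamI_inv237 :
    DiagMod N 1 (((p : ℕ) : ℕ) : ℤ) (awayEl237 (ratPrime p) (gamI237 p))⁻¹ := by
  refine diagMod_awayEl_inv_utQ237 (notMem_ratPrime237 p hp) _ _ _ _ _ 1 _
    (fun v' hv' => ?_) (fun v' hv' => ?_) (fun v' hv' => ?_)
  · simp
  · simp
  · simp

include hp hpp in
theorem diagMod_gamS237 :
    DiagMod N p' p' (awayEl237 (ratPrime p) (gamS237 p)) := by
  refine diagMod_awayEl_utQ237 (notMem_ratPrime237 p hp) _ _ _ _ _ p' p'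
    (fun v' hv' => valuation_inv_sub237 p hpp v' hv') (fun v' hv' => ?_)
    (fun v' hv' => valuation_inv_sub237 p hpp v' hv')
  · simp

include hp in
theorem diagMod_gamS_inv237 :
    DiagMod N (((p : ℕ) : ℕ) : ℤ) (((p : ℕ) : ℕ) : ℤ)
      (awayEl237 (ratPrime p) (gamS237 p))⁻¹ := by
  refine diagMod_awayEl_inv_utQ237 (notMem_ratPrime237 p hp) _ _ _ _ _ _ _
    (fun v' hv' => ?_) (fun v' hv' => ?_) (fun v' hv' => ?_)
  · simp
  · simp
  · simp

end Cong

/-! ## Part K: transfer to the real place -/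

section Transfer

open UpperHalfPlane ModularForm
open scoped Manifold ModularForm

variable {N : ℕ} [NeZero N] {a b : Nat.Primes → ℂ} {φ : A0.G ℚ → ℂ}
  {ψ₁ ψ₂ : DirichletCharacter ℂ N}

omit [NeZero N] in
/-- `φ(m_∞ · γ_v) = ψ₁(a₀) ψ₂(d₀) φ((γ⁻¹ m)_∞)` when `finPart γ⁻¹ · γ_v ≡ diag(a₀, d₀)` mod `N` -/
theorem transfer237 (h : IsLevelForm N a b φ) (hT : TorusEquiv N ψ₁ ψ₂ φ)
    (v : HeightOneSpectrum (𝓞 ℚ)) (γ : GL (Fin 2) ℚ) (a₀ d₀ a' d' : ℤ)
    (ha : (N : ℤ) ∣ a₀ * a' - 1) (hd : (N : ℤ) ∣ d₀ * d' - 1)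
    (h1 : DiagMod N a₀ d₀ (awayEl237 v γ)) (h2 : DiagMod N a' d' (awayEl237 v γ)⁻¹)
    (m : GL (Fin 2) ℝ) :
    φ (locInf m * locFin v (ratAt237 v γ))
      = ψ₁ ((a₀ : ℤ) : ZMod N) * ψ₂ ((d₀ : ℤ) : ZMod N) * φ (locInf (toReal γ⁻¹ * m)) := by
  rw [← hT a₀ d₀ a' d' _ ha hd h1 h2, ← h.left_inv γ⁻¹ (locInf m * locFin v (ratAt237 v γ))]
  congr 1
  rw [diagQ_eq, awayEl237, map_mul]
  have hc : finPart γ⁻¹ * locInf m = locInf m * finPart γ⁻¹ :=
    (comm_locInf237 m (trivAtInf_finPart γ⁻¹)).symm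
  calc locInf (toReal γ⁻¹) * finPart γ⁻¹ * (locInf m * locFin v (ratAt237 v γ))
      = locInf (toReal γ⁻¹) * (finPart γ⁻¹ * locInf m) * locFin v (ratAt237 v γ) := by
        simp only [mul_assoc]
    _ = locInf (toReal γ⁻¹) * locInf m * (finPart γ⁻¹ * locFin v (ratAt237 v γ)) := by
        rw [hc]; simp only [mul_assoc]

theorem coe_toReal237 (γ : GL (Fin 2) ℚ) :
    ((toReal γ : GL (Fin 2) ℝ) : Matrix (Fin 2) (Fin 2) ℝ)
      = (γ : Matrix (Fin 2) (Fin 2) ℚ).map (algebraMap ℚ ℝ) := rfl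

theorem coe_gzMat237 (z : ℍ) :
    ((gzMat z : GL (Fin 2) ℝ) : Matrix (Fin 2) (Fin 2) ℝ) = !![z.im, z.re; 0, 1] := rfl

theorem coe_scalR237 (r : ℝ) (hr : 0 < r) :
    ((scalR r hr : GL (Fin 2) ℝ) : Matrix (Fin 2) (Fin 2) ℝ) = !![r, 0; 0, r] := rfl

theorem im_heckeMatrix_smul237 {p : ℕ} (hp : p ≠ 0) (j : ℕ) (z : ℍ) :
    (heckeMatrix p j • z).im = z.im / p := by
  have h := congrArg Complex.im (coe_heckeMatrix_smul hp j z)
  rw [UpperHalfPlane.coe_im, Complex.div_natCast_im, Complex.add_im, UpperHalfPlane.coe_im,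
    Complex.natCast_im, add_zero] at h
  exact h

theorem re_heckeMatrix_smul237 {p : ℕ} (hp : p ≠ 0) (j : ℕ) (z : ℍ) :
    (heckeMatrix p j • z).re = (z.re + j) / p := by
  have h := congrArg Complex.re (coe_heckeMatrix_smul hp j z)
  rw [UpperHalfPlane.coe_re, Complex.div_natCast_re, Complex.add_re, UpperHalfPlane.coe_re,
    Complex.natCast_re] at h
  exact h

theorem im_heckeDiagMatrix_smul237 {p : ℕ} (hp : p ≠ 0) (z : ℍ) :
    (heckeDiagMatrix p • z).im = p * z.im := by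
  have h := congrArg Complex.im (coe_heckeDiagMatrix_smul hp z)
  rw [UpperHalfPlane.coe_im, Complex.mul_im, UpperHalfPlane.coe_im, UpperHalfPlane.coe_re,
    Complex.natCast_im, Complex.natCast_re, zero_mul, add_zero] at h
  exact h

theorem re_heckeDiagMatrix_smul237 {p : ℕ} (hp : p ≠ 0) (z : ℍ) :
    (heckeDiagMatrix p • z).re = p * z.re := by
  have h := congrArg Complex.re (coe_heckeDiagMatrix_smul hp z)
  rw [UpperHalfPlane.coe_re, Complex.mul_re, UpperHalfPlane.coe_im, UpperHalfPlane.coe_re,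
    Complex.natCast_im, Complex.natCast_re, zero_mul, sub_zero] at h
  exact h

theorem primeR_pos237 (p : Nat.Primes) : (0 : ℝ) < (((p : ℕ) : ℕ) : ℝ) :=
  Nat.cast_pos.2 p.2.pos

/-- `γ_j⁻¹ g_z = g_{(z + N j)/p}` -/
theorem toReal_gamJ_inv_mul237 (N : ℕ) (p : Nat.Primes) (j : ℕ) (z : ℍ) :
    toReal (gamJ237 N p j)⁻¹ * gzMat z = gzMat (heckeMatrix (p : ℕ) (N * j) • z) := by
  have hp0 : (((p : ℕ) : ℕ) : ℝ) ≠ 0 := (primeR_pos237 p).ne'
  apply Units.ext
  rw [Units.val_mul, coe_toReal237, coe_gzMat237, coe_gzMat237, gamJ237, coe_utQ_inv237,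
    im_heckeMatrix_smul237 p.2.ne_zero, re_heckeMatrix_smul237 p.2.ne_zero]
  ext i j'
  fin_cases i <;> fin_cases j' <;> simp [Matrix.mul_apply, Fin.sum_univ_two] <;> field_simp

/-- `γ_∞⁻¹ g_z = g_{p z} · p⁻¹` -/
theorem toReal_gamI_inv_mul237 (p : Nat.Primes) (z : ℍ) :
    toReal (gamI237 p)⁻¹ * gzMat z
      = gzMat (heckeDiagMatrix (p : ℕ) • z) *
          scalR ((((p : ℕ) : ℕ) : ℝ))⁻¹ (inv_pos.2 (primeR_pos237 p)) := by
  have hp0 : (((p : ℕ) : ℕ) : ℝ) ≠ 0 := (primeR_pos237 p).ne'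
  apply Units.ext
  rw [Units.val_mul, Units.val_mul, coe_toReal237, coe_gzMat237, coe_gzMat237, coe_scalR237,
    gamI237, coe_utQ_inv237,
    im_heckeDiagMatrix_smul237 p.2.ne_zero, re_heckeDiagMatrix_smul237 p.2.ne_zero]
  ext i j'
  fin_cases i <;> fin_cases j' <;> simp [Matrix.mul_apply, Fin.sum_univ_two] <;> field_simp

/-- `(p·1)⁻¹ m = m · p⁻¹` -/
theorem toReal_gamS_inv_mul237 (p : Nat.Primes) (m : GL (Fin 2) ℝ) :
    toReal (gamS237 p)⁻¹ * m
      = m * scalR ((((p : ℕ) : ℕ) : ℝ))⁻¹ (inv_pos.2 (primeR_pos237 p)) := by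
  apply Units.ext
  rw [Units.val_mul, Units.val_mul, coe_toReal237, coe_scalR237, gamS237, coe_utQ_inv237]
  ext i j'
  fin_cases i <;> fin_cases j' <;> simp [Matrix.mul_apply, Fin.sum_univ_two, mul_comm]

end Transfer

/-! ## Part L: the Hecke identities of the classical function -/

section Assembly

open UpperHalfPlane ModularForm
open scoped Manifold ModularForm

variable {N : ℕ} [NeZero N] {a b : Nat.Primes → ℂ} {φ : A0.G ℚ → ℂ}
  {ψ₁ ψ₂ : DirichletCharacter ℂ N}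

omit [NeZero N] in
/-- an inverse of `p` mod `N` -/
theorem exists_inv_mod237 (p : Nat.Primes) (hp : ¬ (p : ℕ) ∣ N) :
    ∃ p' : ℤ, (N : ℤ) ∣ (((p : ℕ) : ℕ) : ℤ) * p' - 1 := by
  have hc : Nat.Coprime (p : ℕ) N := (Nat.Prime.coprime_iff_not_dvd p.2).2 hp
  obtain ⟨x, y, hxy⟩ := Nat.isCoprime_iff_coprime.2 hc
  refine ⟨x, ⟨-y, ?_⟩⟩
  linear_combination hxy

omit [NeZero N] in
theorem char_mul_eq_one237 (ψ : DirichletCharacter ℂ N) {p : ℕ} {p' : ℤ}
    (hpp : (N : ℤ) ∣ ((p : ℕ) : ℤ) * p' - 1) :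
    ψ ((p : ℕ) : ZMod N) * ψ ((p' : ℤ) : ZMod N) = 1 := by
  have h1 : ((p : ℕ) : ZMod N) * ((p' : ℤ) : ZMod N) = 1 := by
    have := (ZMod.intCast_zmod_eq_zero_iff_dvd (((p : ℕ) : ℤ) * p' - 1) N).2 hpp
    push_cast at this
    exact sub_eq_zero.1 this
  rw [← map_mul, h1, map_one]

omit [NeZero N] in
theorem char_inv237 (ψ : DirichletCharacter ℂ N) {p : ℕ} {p' : ℤ}
    (hpp : (N : ℤ) ∣ ((p : ℕ) : ℤ) * p' - 1) :
    ψ ((p' : ℤ) : ZMod N) = (ψ ((p : ℕ) : ZMod N))⁻¹ :=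
  eq_inv_of_mul_eq_one_right (char_mul_eq_one237 ψ hpp)

/-- the Hecke relation at `p`, on the adelic side, at the points `g_z` -/
theorem hecke_sum237 (h : IsLevelForm N a b φ) (hT : TorusEquiv N ψ₁ ψ₂ φ) (p : Nat.Primes)
    (hp : ¬ (p : ℕ) ∣ N) (z : ℍ) :
    (ψ₂ (((p : ℕ) : ℕ) : ZMod N))⁻¹ * φ (locInf (gzMat (heckeDiagMatrix (p : ℕ) • z))) +
      ∑ j ∈ Finset.range (p : ℕ), (ψ₁ (((p : ℕ) : ℕ) : ZMod N))⁻¹ *
        φ (locInf (gzMat (heckeMatrix (p : ℕ) (N * j) • z)))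
    = ((Real.sqrt ((((p : ℕ) : ℕ) : ℝ)) : ℝ) : ℂ) * a p * φ (locInf (gzMat z)) := by
  classical
  obtain ⟨p', hpp⟩ := exists_inv_mod237 p hp
  have hpp' : (N : ℤ) ∣ p' * (((p : ℕ) : ℕ) : ℤ) - 1 := by rwa [mul_comm]
  have h11 : (N : ℤ) ∣ (1 : ℤ) * 1 - 1 := by simp
  have hH := (h.hecke p hp).1 (hSys237 N p) (isHeckeCosetSystem_hSys237 p hp)
    (locInf (gzMat z))
  rw [absNorm_ratPrime] at hH
  rw [← hH, hSys237, Finset.sum_image (fun x _ y _ hxy => hel_injective237 p hp hxy),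
    Fintype.sum_option]
  congr 1
  · show _ = φ (locInf (gzMat z) * locFin (ratPrime p) (ratAt237 (ratPrime p) (gamI237 p)))
    rw [transfer237 h hT _ (gamI237 p) 1 p' 1 (((p : ℕ) : ℕ) : ℤ) h11 hpp'
      (diagMod_gamI237 p hp hpp) (diagMod_gamI_inv237 p hp), toReal_gamI_inv_mul237, map_mul,
      h.arch_scalar, Int.cast_one, map_one, one_mul, char_inv237 ψ₂ hpp]
  · rw [← Fin.sum_univ_eq_sum_range (fun j => (ψ₁ (((p : ℕ) : ℕ) : ZMod N))⁻¹ *
        φ (locInf (gzMat (heckeMatrix (p : ℕ) (N * j) • z)))) (p : ℕ)]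
    refine Finset.sum_congr rfl fun j _ => ?_
    show _ = φ (locInf (gzMat z) *
      locFin (ratPrime p) (ratAt237 (ratPrime p) (gamJ237 N p (j : ℕ))))
    rw [transfer237 h hT _ (gamJ237 N p (j : ℕ)) p' 1 (((p : ℕ) : ℕ) : ℤ) 1 hpp' h11
      (diagMod_gamJ237 p hp hpp _) (diagMod_gamJ_inv237 p hp _), toReal_gamJ_inv_mul237,
      Int.cast_one, map_one, mul_one, char_inv237 ψ₁ hpp]

/-- the scalar Hecke relation: `b_p ψ₁(p) ψ₂(p) = 1` -/
theorem hecke_scalar237 (h : IsLevelForm N a b φ) (hT : TorusEquiv N ψ₁ ψ₂ φ) (p : Nat.Primes)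
    (hp : ¬ (p : ℕ) ∣ N) :
    b p * (ψ₁ (((p : ℕ) : ℕ) : ZMod N) * ψ₂ (((p : ℕ) : ℕ) : ZMod N)) = 1 := by
  obtain ⟨z₀, hz₀⟩ := h.based
  obtain ⟨p', hpp⟩ := exists_inv_mod237 p hp
  have hpp' : (N : ℤ) ∣ p' * (((p : ℕ) : ℕ) : ℤ) - 1 := by rwa [mul_comm]
  have hsu : A0.IsScalarUniformizerAt (ratPrime p)
      (locFin (ratPrime p) (ratAt237 (ratPrime p) (gamS237 p))) := by
    refine ⟨isLocalAtFin_locFin _ _,
      algebraMap ℚ ((ratPrime p).adicCompletion ℚ) (((p : ℕ) : ℕ) : ℚ), ?_, ?_⟩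
    · rw [valued_algebraMap237]; exact valuation_prime_self237 p
    · rw [finComp_locFin_same, coe_ratAt237, gamS237, coe_utQ237]
      ext i j
      fin_cases i <;> fin_cases j <;> simp
  have h1 := (h.hecke p hp).2 _ hsu (locInf (gzMat z₀))
  rw [transfer237 h hT _ (gamS237 p) p' p' (((p : ℕ) : ℕ) : ℤ) (((p : ℕ) : ℕ) : ℤ) hpp' hpp'
    (diagMod_gamS237 p hp hpp) (diagMod_gamS_inv237 p hp), toReal_gamS_inv_mul237, map_mul,
    h.arch_scalar] at h1
  have h2 : ψ₁ ((p' : ℤ) : ZMod N) * ψ₂ ((p' : ℤ) : ZMod N) = b p := mul_right_cancel₀ hz₀ h1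
  rw [← h2]
  calc ψ₁ ((p' : ℤ) : ZMod N) * ψ₂ ((p' : ℤ) : ZMod N) *
        (ψ₁ (((p : ℕ) : ℕ) : ZMod N) * ψ₂ (((p : ℕ) : ℕ) : ZMod N))
      = (ψ₁ (((p : ℕ) : ℕ) : ZMod N) * ψ₁ ((p' : ℤ) : ZMod N)) *
          (ψ₂ (((p : ℕ) : ℕ) : ZMod N) * ψ₂ ((p' : ℤ) : ZMod N)) := by ring
    _ = 1 := by rw [char_mul_eq_one237 ψ₁ hpp, char_mul_eq_one237 ψ₂ hpp, one_mul]

/-- **The Hecke half of QA3**: the classical function `z ↦ y^{-1/2} φ(g_z)` satisfies the Hecke
identities `FnHecke`. -/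
theorem fnHecke237 (h : IsLevelForm N a b φ) (hT : TorusEquiv N ψ₁ ψ₂ φ) :
    FnHecke N ψ₁ ψ₂ a b (famFn φ 1) := by
  intro p hp
  refine ⟨?_, hecke_scalar237 h hT p hp⟩
  funext z
  have hp0 : (p : ℕ) ≠ 0 := p.2.ne_zero
  have hP : (0 : ℝ) < (((p : ℕ) : ℕ) : ℝ) := primeR_pos237 p
  have hy : (0 : ℝ) < z.im := z.im_pos
  have key := hecke_sum237 h hT p hp z
  rw [Pi.add_apply, Pi.smul_apply, Pi.smul_apply, Pi.smul_apply, Finset.sum_apply,
    smul_eq_mul, smul_eq_mul, smul_eq_mul]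
  simp_rw [slash_heckeMatrix_apply 1 hp0, slash_heckeDiagMatrix_apply 1 hp0]
  unfold famFn
  simp only [mul_one, sub_self, zpow_zero, one_mul]
  rw [im_heckeDiagMatrix_smul237 hp0]
  simp_rw [im_heckeMatrix_smul237 hp0]
  rw [Real.sqrt_div hy.le, Real.sqrt_mul hP.le]
  set r : ℝ := Real.sqrt ((((p : ℕ) : ℕ) : ℝ)) with hr
  set s : ℝ := Real.sqrt z.im with hs
  have hr0 : (r : ℂ) ≠ 0 := Complex.ofReal_ne_zero.2 (Real.sqrt_pos.2 hP).ne'
  have hs0 : (s : ℂ) ≠ 0 := Complex.ofReal_ne_zero.2 (Real.sqrt_pos.2 hy).ne'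
  have hrr : (r : ℂ) * (r : ℂ) = (((p : ℕ) : ℕ) : ℂ) := by
    rw [← Complex.ofReal_mul, hr, Real.mul_self_sqrt hP.le, Complex.ofReal_natCast]
  have e1 : ∀ j : ℕ, (((p : ℕ) : ℕ) : ℂ)⁻¹ * ((((s / r : ℝ)) : ℂ)⁻¹ *
      φ (locInf (gzMat (heckeMatrix (p : ℕ) (N * j) • z))))
      = ((r : ℂ) * (s : ℂ))⁻¹ * φ (locInf (gzMat (heckeMatrix (p : ℕ) (N * j) • z))) := by
    intro j
    rw [← hrr, Complex.ofReal_div]
    field_simp
  simp_rw [e1]
  rw [Complex.ofReal_mul, ← Finset.mul_sum]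
  have key' : (ψ₂ (((p : ℕ) : ℕ) : ZMod N))⁻¹ *
      φ (locInf (gzMat (heckeDiagMatrix (p : ℕ) • z))) +
      (ψ₁ (((p : ℕ) : ℕ) : ZMod N))⁻¹ * ∑ j ∈ Finset.range (p : ℕ),
        φ (locInf (gzMat (heckeMatrix (p : ℕ) (N * j) • z)))
      = (r : ℂ) * a p * φ (locInf (gzMat z)) := by
    rw [← key, Finset.mul_sum]
  have e2 : a p * ((s : ℂ)⁻¹ * φ (locInf (gzMat z)))
      = ((r : ℂ) * (s : ℂ))⁻¹ * ((r : ℂ) * a p * φ (locInf (gzMat z))) := by
    field_simp
  rw [e2, ← key']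
  ring

end Assembly

end Fermat.Agent.LT.T7.H237

end

end
-- ===== PACK-END LT/T7/H237/QA3Hecke.lean

-- ===== PACK-BEGIN LT/T2/H175/TauSpec.lean
section





/-!
# Row LT, tower T2, leaf T2.22 `LeafT02` (`ConvCuspT`, class of T5): CUT (helper175, owner of
# registry row 1145)

OFF-MAIN.  Vocabulary: `LT/T2/SpecTau.lean` (helper130, sha256 4d2b0fc2), `LT/T2/Spec.lean` v3
(b934629a), `LT/T2/H724/CommSpec.lean` (helper724, 78972da3: `convKer724`, `IsBadUnit724`,
`ConvKerC724`), `LT/T2/H228/ConvStable.lean` (helper228, bd5c0df1: `infComp_mul228`, ...),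
byte-identical copies.  Definitions, Props, PROVED tops; nothing is assumed.

## The cut

    leafT02_of_parts175 : LeafT02a175 K → LeafT02b175 K → LeafT02c175 K → LeafT02d175 K →
      T2.LeafT02 K

* `T2.22a` `LeafT02a175`: `adj f` is a (spherical) test function of type `τ` when `f` is.
* `T2.22b` `LeafT02b175`: `conv F f` preserves `IsAutT` and `IsCuspT`.
* `T2.22c` `LeafT02c175`: the adjoint of `conv F f` is `conv F (adj f)` on `IsAutT`
  (proof of T2.02c, helper981 `unfold981` / `strict981`, with the ray generator `r` as `z`).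
* `T2.22d` `LeafT02d175`: convolutions by spherical test functions of type `τ` commute.

## The cut of `T2.22d` (Gelfand's trick with `θ(g) = e gᵀ e`, `e = diag(1, -1)`)

`ι = adjugate` turns the type `τ` into `τ⁻¹`; `θ(g) = e gᵀ e = s (adjugate g) s`
(`s = [[0,1],[1,0]]`) is the identity on `SO(2)` and every `M ∈ GL₂(ℂ)` satisfies
`θ(M) = A M A⁻¹` with ONE `A ∈ SU(2)` (real if `M` is real): so `f ∘ θ = f` for every `f` of
spherical shape of type `τ`, for EVERY `K_∞`-type `τ`.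

    convCommT_of_leaves175 :
      H724.ConvKerC724 K → ShapeTC175 K → ThetaMeasC175 K → ThetaSwapC175 K →
      LocArchC175 → LocFinTC175 K → FinGlueC175 K → InfGlueC175 K → LeafT02d175 K

* `ConvKerC724` (FUBINI): DONE (helper323 `convKerC323`), used as it is.
* `ShapeTC175` (T2.22d.1): `f₁ ⋆ f₂` has spherical shape of type `τ` (proof of helper833).
* `ThetaMeasC175` (T2.22d.2): Haar measures are `θ`-invariant (`θ = Ad(s) ∘ ι`, helper286).
* `ThetaSwapC175` (T2.22d.3): `(f₁ ⋆ f₂)(θ g) = ((f₂ ∘ θ) ⋆ (f₁ ∘ θ))(g)` (proof of helper473).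
* `LocArchC175` (T2.22d.4, Mathlib only): `θ(M) A = A M`, `A ∈ SU(2)`, real for real `M`.
* `LocFinTC175` (T2.22d.5): `θ(M) = A M B`, `A, B ∈ GL₂(𝒪_v)` (from helper570 `leafLocFin570`).
* `FinGlueC175` (T2.22d.6): the finite part of the double coset statement.
* `InfGlueC175` (T2.22d.7): the infinite part.
-/

set_option autoImplicit false

open IsDedekindDomain NumberField MeasureTheory AutomorphicForm
open Fermat.Agent.LT.H556.A0

noncomputable section

namespace Fermat.Agent.LT.T2.H175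

open Fermat.Agent.LT.T2

attribute [local instance] Fermat.Agent.LT.T2.borelG

/-! ## 1. The anti-involution `θ` -/

section Theta

variable {R : Type*} [CommRing R]

/-- `θ(M) = e Mᵀ e`, `e = diag(1, -1)`: `[[a, b], [c, d]] ↦ [[a, -c], [-b, d]]`. -/
def thetaM175 (M : Matrix (Fin 2) (Fin 2) R) : Matrix (Fin 2) (Fin 2) R :=
  !![M 0 0, -M 1 0; -M 0 1, M 1 1]

theorem thetaM175_mul (M N : Matrix (Fin 2) (Fin 2) R) :
    thetaM175 (M * N) = thetaM175 N * thetaM175 M := by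
  ext i j
  fin_cases i <;> fin_cases j <;>
    simp [thetaM175, Matrix.mul_apply, Fin.sum_univ_two] <;> ring

theorem thetaM175_one : thetaM175 (1 : Matrix (Fin 2) (Fin 2) R) = 1 := by
  ext i j
  fin_cases i <;> fin_cases j <;> simp [thetaM175]

theorem thetaM175_thetaM175 (M : Matrix (Fin 2) (Fin 2) R) : thetaM175 (thetaM175 M) = M := by
  ext i j
  fin_cases i <;> fin_cases j <;> simp [thetaM175]

theorem thetaM175_map {S : Type*} [CommRing S] (φ : R →+* S) (M : Matrix (Fin 2) (Fin 2) R) :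
    thetaM175 (M.map φ) = (thetaM175 M).map φ := by
  ext i j
  fin_cases i <;> fin_cases j <;> simp [thetaM175]

end Theta

variable {K : Type} [Field K] [NumberField K]

/-- The anti-involution `θ` of `GL₂(𝔸_K)`. -/
def thetaG175 (g : G K) : G K :=
  ⟨thetaM175 (g : Matrix (Fin 2) (Fin 2) (Adl K)),
    thetaM175 ((g⁻¹ : G K) : Matrix (Fin 2) (Fin 2) (Adl K)),
    by rw [← thetaM175_mul, ← Units.val_mul, inv_mul_cancel, Units.val_one, thetaM175_one],
    by rw [← thetaM175_mul, ← Units.val_mul, mul_inv_cancel, Units.val_one, thetaM175_one]⟩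

theorem thetaG175_val (g : G K) :
    ((thetaG175 g : G K) : Matrix (Fin 2) (Fin 2) (Adl K))
      = thetaM175 (g : Matrix (Fin 2) (Fin 2) (Adl K)) := rfl

theorem thetaG175_mul (g h : G K) : thetaG175 (g * h) = thetaG175 h * thetaG175 g := by
  apply Units.ext
  rw [Units.val_mul, thetaG175_val, thetaG175_val, thetaG175_val, Units.val_mul, thetaM175_mul]

theorem thetaG175_thetaG175 (g : G K) : thetaG175 (thetaG175 g) = g := by
  apply Units.ext
  rw [thetaG175_val, thetaG175_val, thetaM175_thetaM175]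

theorem thetaG175_one : thetaG175 (1 : G K) = 1 := by
  apply Units.ext
  rw [thetaG175_val, Units.val_one, thetaM175_one]

theorem thetaG175_inv (g : G K) : thetaG175 g⁻¹ = (thetaG175 g)⁻¹ := by
  rw [eq_inv_iff_mul_eq_one, ← thetaG175_mul, mul_inv_cancel, thetaG175_one]

theorem finComp_thetaG175 (v : HeightOneSpectrum (𝓞 K)) (g : G K) :
    finComp v (thetaG175 g) = thetaM175 (finComp v g) := by
  rw [H228.finComp_eq228, H228.finComp_eq228, thetaG175_val]
  exact (thetaM175_map (H228.finEval228 v) _).symm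

theorem infComp_thetaG175 (w : InfinitePlace K) (g : G K) :
    infComp w (thetaG175 g) = thetaM175 (infComp w g) := by
  rw [H228.infComp_eq228, H228.infComp_eq228, thetaG175_val]
  exact (thetaM175_map (H228.infEmb228 w) _).symm

/-! ## 2. The four parts of `T2.22` -/

variable (K)

/-- `adj` preserves the test functions and the spherical test functions of type `τ`. -/
def AdjTestT175 (𝔫 : Ideal (𝓞 K)) (τ : G K → ℂ) : Prop :=
  (∀ f : G K → ℂ, IsTestT 𝔫 τ f → IsTestT 𝔫 τ (adj f)) ∧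
    (∀ f : G K → ℂ, IsSphTestT 𝔫 τ f → IsSphTestT 𝔫 τ (adj f))

/-- Convolution by a test function of type `τ` preserves `IsCuspT` and `IsAutT`. -/
def ConvStableT175 (𝔫 : Ideal (𝓞 K)) (τ : G K → ℂ) : Prop :=
  ∀ R : FrameR K,
    (∀ f φ : G K → ℂ, IsTestT 𝔫 τ f → IsCuspT 𝔫 τ R.r φ → IsCuspT 𝔫 τ R.r (conv R.F f φ)) ∧
    (∀ f ψ : G K → ℂ, IsTestT 𝔫 τ f → IsAutT 𝔫 τ R.r ψ → IsAutT 𝔫 τ R.r (conv R.F f ψ))

/-- The adjoint of `conv F f` on `IsAutT` is `conv F (adj f)`. -/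
def ConvAdjT175 (𝔫 : Ideal (𝓞 K)) (τ : G K → ℂ) : Prop :=
  ∀ (R : FrameR K) (f φ ψ : G K → ℂ), IsTestT 𝔫 τ f → IsAutT 𝔫 τ R.r φ → IsAutT 𝔫 τ R.r ψ →
    pair R.F (conv R.F f φ) ψ = pair R.F φ (conv R.F (adj f) ψ)

/-- Convolutions by spherical test functions of type `τ` commute on `IsAutT`. -/
def ConvCommT175 (𝔫 : Ideal (𝓞 K)) (τ : G K → ℂ) : Prop :=
  ∀ (R : FrameR K) (f₁ f₂ ψ : G K → ℂ), IsSphTestT 𝔫 τ f₁ → IsSphTestT 𝔫 τ f₂ →
    IsAutT 𝔫 τ R.r ψ → conv R.F f₁ (conv R.F f₂ ψ) = conv R.F f₂ (conv R.F f₁ ψ)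

/-- **T2.22a.** -/
def LeafT02a175 : Prop :=
  T1.T1Out K → ∀ (𝔫 : Ideal (𝓞 K)) (τ : G K → ℂ), 𝔫 ≠ ⊥ → IsKType τ → AdjTestT175 K 𝔫 τ

/-- **T2.22b.** -/
def LeafT02b175 : Prop :=
  T1.T1Out K → ∀ (𝔫 : Ideal (𝓞 K)) (τ : G K → ℂ), 𝔫 ≠ ⊥ → IsKType τ → ConvStableT175 K 𝔫 τ

/-- **T2.22c.** -/
def LeafT02c175 : Prop :=
  T1.T1Out K → ∀ (𝔫 : Ideal (𝓞 K)) (τ : G K → ℂ), 𝔫 ≠ ⊥ → IsKType τ → ConvAdjT175 K 𝔫 τ

/-- **T2.22d.** -/
def LeafT02d175 : Prop :=
  T1.T1Out K → ∀ (𝔫 : Ideal (𝓞 K)) (τ : G K → ℂ), 𝔫 ≠ ⊥ → IsKType τ → ConvCommT175 K 𝔫 τ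

variable {K}

/-- **TOP of T2.22**: `T2.LeafT02` from its four parts. -/
theorem leafT02_of_parts175 (ha : LeafT02a175 K) (hb : LeafT02b175 K) (hc : LeafT02c175 K)
    (hd : LeafT02d175 K) : T2.LeafT02 K := by
  intro hT1 𝔫 τ h𝔫 hτ R
  have A := ha hT1 𝔫 τ h𝔫 hτ
  have B := hb hT1 𝔫 τ h𝔫 hτ R
  exact ⟨A.1, A.2, B.1, B.2, fun f φ ψ hf hφ hψ => hc hT1 𝔫 τ h𝔫 hτ R f φ ψ hf hφ hψ,
    fun f₁ f₂ ψ h₁ h₂ hψ => hd hT1 𝔫 τ h𝔫 hτ R f₁ f₂ ψ h₁ h₂ hψ⟩

/-! ## 3. The cut of `T2.22d` -/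

/-- The SHAPE of a spherical test function of type `τ`: bi-invariance under `U(𝔫)`,
`f(k₁ g k₂) = τ(k₁)⁻¹ τ(k₂)⁻¹ f(g)` for the compact groups at the infinite places, support in
`U(𝔫)_v` at the places `v ∣ 𝔫`.  No regularity. -/
structure IsSphShapeT175 (𝔫 : Ideal (𝓞 K)) (τ : G K → ℂ) (f : G K → ℂ) : Prop where
  level_right : ∀ u : G K, InLevelGroup 𝔫 u → ∀ g : G K, f (g * u) = f g
  level_left : ∀ u : G K, InLevelGroup 𝔫 u → ∀ g : G K, f (u * g) = f g
  arch_right : ∀ (w : InfinitePlace K) (k : G K), IsArchCompact w k →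
    ∀ g : G K, f (g * k) = (τ k)⁻¹ * f g
  arch_left : ∀ (w : InfinitePlace K) (k : G K), IsArchCompact w k →
    ∀ g : G K, f (k * g) = (τ k)⁻¹ * f g
  bad_unit : ∀ g : G K, f g ≠ 0 → H724.IsBadUnit724 𝔫 g

theorem shapeT_of_sphTestT175 {𝔫 : Ideal (𝓞 K)} {τ : G K → ℂ} {f : G K → ℂ}
    (h : IsSphTestT 𝔫 τ f) : IsSphShapeT175 𝔫 τ f :=
  ⟨h.test.level_right, h.test.level_left, h.test.arch_right, h.test.arch_left, h.bad_unit⟩

/-- The subgroup of `GL₂(𝔸_K)` generated by the compact groups `K_w`, `w ∣ ∞`. -/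
def archGroup175 (K : Type) [Field K] [NumberField K] : Subgroup (G K) :=
  Subgroup.closure {k | ∃ w : InfinitePlace K, IsArchCompact w k}

variable (K)

/-- **T2.22d.1 SHAPE.**  The convolution kernel of two functions of spherical shape of type `τ`
has spherical shape of type `τ` (proof of `convShapeC833`, helper833; the substitution
`h ↦ k h` produces the factor `τ(k)⁻¹`; no integrability). -/
def ShapeTC175 : Prop :=
  T1.LocCompC K → ∀ (𝔫 : Ideal (𝓞 K)) (τ : G K → ℂ) (F : Frame K) (f₁ f₂ : G K → ℂ),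
    IsSphShapeT175 𝔫 τ f₁ → IsSphShapeT175 𝔫 τ f₂ →
      IsSphShapeT175 𝔫 τ (H724.convKer724 F f₁ f₂)

/-- **T2.22d.2 MEASURE.**  Every Haar measure of `GL₂(𝔸_K)` is invariant under `θ`
(`θ(g) = s · adjG724 g · s`, `s = [[0,1],[1,0]]`; `adjMeasC286` of helper286 for `adjG724`,
left and right invariance for the conjugation by `s`). -/
def ThetaMeasC175 : Prop :=
  T1.LocCompC K → T1.UnimodC K → ∀ μ : Measure (G K), μ.IsHaarMeasure →
    MeasurePreserving (thetaG175 (K := K)) μ μ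

/-- **T2.22d.3 SWAP.**  `(f₁ ⋆ f₂)(θ g) = ((f₂ ∘ θ) ⋆ (f₁ ∘ θ))(g)` for ALL functions (proof of
`convSwapC473`, helper473: only `thetaG175_mul`, `thetaG175_inv`, `thetaG175_thetaG175` and the
invariance of the measure under `θ` and `inv` are used). -/
def ThetaSwapC175 : Prop :=
  T1.LocCompC K → T1.UnimodC K → ∀ F : Frame K, MeasurePreserving (thetaG175 (K := K)) F.μ F.μ →
    ∀ (f₁ f₂ : G K → ℂ) (g : G K),
      H724.convKer724 F f₁ f₂ (thetaG175 g)
        = H724.convKer724 F (fun h => f₂ (thetaG175 h)) (fun h => f₁ (thetaG175 h)) g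

/-- **T2.22d.4 LOCAL, infinite places** (Mathlib only).  For every `M ∈ M₂(ℂ)` there is
`A ∈ SU(2)` with `θ(M) A = A M`; if `M` is real, `A` is real (so `A ∈ SO(2)`).
(`A = [[α, -β], [β, conj α]]` with `β` REAL, `|α|² + β² = 1` and `β (d - a) = α b + conj α · c`:
one complex = two real linear equations in three real unknowns; for real `M` take `α` real,
`(α, β)` proportional to `(d - a, b + c)`, or `(1, 0)`.) -/
def LocArchC175 : Prop :=
  ∀ M : Matrix (Fin 2) (Fin 2) ℂ,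
    ∃ A : Matrix (Fin 2) (Fin 2) ℂ,
      A * A.conjTranspose = 1 ∧ A.det = 1 ∧ thetaM175 M * A = A * M ∧
        ((∀ i j, (M i j).im = 0) → ∀ i j, (A i j).im = 0)

/-- **T2.22d.5 LOCAL, finite places**: for `M ∈ GL₂(K_v)` there are `A, B ∈ GL₂(𝒪_v)` with
`θ(M) = A M B` (`θ(M) = s (adjugate M) s`; `leafLocFin570` of helper570 for the adjugate). -/
def LocFinTC175 : Prop :=
  ∀ (v : HeightOneSpectrum (𝓞 K)) (M : Matrix (Fin 2) (Fin 2) (v.adicCompletion K)),
    M.det ≠ 0 →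
    ∃ A A' B B' : Matrix (Fin 2) (Fin 2) (v.adicCompletion K),
      A * A' = 1 ∧ B * B' = 1 ∧
      (∀ i j, Valued.v (A i j) ≤ 1) ∧ (∀ i j, Valued.v (A' i j) ≤ 1) ∧
      (∀ i j, Valued.v (B i j) ≤ 1) ∧ (∀ i j, Valued.v (B' i j) ≤ 1) ∧
      thetaM175 M = A * M * B

/-- **T2.22d.6 GLUE, finite places.**  For `g` in `U(𝔫)_v` at the places `v ∣ 𝔫` there are
`a, b ∈ U(𝔫)` with `θ(g)_v = a_v g_v b_v` at every finite place.
(At `v ∤ 𝔫`: `a_v, b_v` from `LocFinTC175`, `idealClosure 𝔫 v = 𝒪_v`; at `v ∣ 𝔫`: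
`a_v = θ(g_v) g_v⁻¹ ∈ U(𝔫)_v`, `b_v = 1`; every family of integral matrices is adelic.) -/
def FinGlueC175 : Prop :=
  LocFinTC175 K → ∀ 𝔫 : Ideal (𝓞 K), 𝔫 ≠ ⊥ → ∀ g : G K, H724.IsBadUnit724 𝔫 g →
    ∃ a b : G K, InLevelGroup 𝔫 a ∧ InLevelGroup 𝔫 b ∧
      ∀ v : HeightOneSpectrum (𝓞 K),
        finComp v (thetaG175 g) = finComp v a * finComp v g * finComp v b

/-- **T2.22d.7 GLUE, infinite places.**  For every `g` there is `c` in the group generated by the
`K_w`, trivial at the finite places, with `θ(g)_w c_w = c_w g_w` at every infinite place.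
(`c = ∏_w c_w`, `c_w` local at `w` with matrix `A_w` from `LocArchC175`; at a real place the
matrix of `g` is real.) -/
def InfGlueC175 : Prop :=
  LocArchC175 → ∀ g : G K, ∃ c ∈ archGroup175 K, (∀ v : HeightOneSpectrum (𝓞 K), TrivAtFin v c) ∧
    ∀ w : InfinitePlace K, infComp w (thetaG175 g) * infComp w c = infComp w c * infComp w g

variable {K}

/-! ## 4. Consequences (PROVED) -/

/-- Two elements of `GL₂(𝔸_K)` with the same components at all places are equal. -/
theorem ext_comp175 {g h : G K} (hinf : ∀ w : InfinitePlace K, infComp w g = infComp w h)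
    (hfin : ∀ v : HeightOneSpectrum (𝓞 K), finComp v g = finComp v h) : g = h := by
  apply Units.ext
  ext i j
  refine H228.adele_ext228 (fun w => ?_) (fun v => ?_)
  · have h1 := congrFun (congrFun (hinf w) i) j
    exact (InfinitePlace.Completion.extensionEmbedding w).injective h1
  · exact congrFun (congrFun (hfin v) i) j

theorem isArchCompact_one175 (w : InfinitePlace K) : IsArchCompact w (1 : G K) := by
  refine ⟨⟨fun w' _ => (H228.trivAtInf_iff228 w' 1).2
    (by unfold H228.infMat228; rw [Units.val_one, map_one]), fun v => H228.finComp_one228 v⟩,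
    ?_, ?_⟩
  · rw [H228.infComp_one228, Matrix.conjTranspose_one, mul_one]
  · intro _
    rw [H228.infComp_one228, Matrix.det_one]

theorem kType_map_one175 {τ : G K → ℂ} (hτ : IsKType τ) : τ 1 = 1 := by
  obtain ⟨w⟩ : Nonempty (InfinitePlace K) := inferInstance
  have h1 := hτ.mul w 1 1 (isArchCompact_one175 w) (isArchCompact_one175 w)
  rw [mul_one] at h1
  have h2 : τ (1 : G K) ≠ 0 := by
    intro h0
    have := hτ.norm_one w 1 (isArchCompact_one175 w)
    rw [h0, norm_zero] at this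
    exact zero_ne_one this
  have h3 : τ (1 : G K) * (τ 1 - 1) = 0 := by
    rw [mul_sub, mul_one, ← h1, sub_self]
  rcases mul_eq_zero.1 h3 with h | h
  · exact absurd h h2
  · exact sub_eq_zero.1 h

theorem kType_mul_inv175 {τ : G K → ℂ} (hτ : IsKType τ) {w : InfinitePlace K} {k : G K}
    (hk : IsArchCompact w k) : τ k * τ k⁻¹ = 1 := by
  rw [← hτ.mul w k k⁻¹ hk (H228.isArchCompact_inv228 hk), mul_inv_cancel, kType_map_one175 hτ]

/-- A function of spherical shape of type `τ` is invariant under the conjugation by the group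
generated by the `K_w`. -/
theorem conj_inv175 {𝔫 : Ideal (𝓞 K)} {τ : G K → ℂ} (hτ : IsKType τ) {f : G K → ℂ}
    (hf : IsSphShapeT175 𝔫 τ f) {c : G K} (hc : c ∈ archGroup175 K) (g : G K) :
    f (c * g * c⁻¹) = f g := by
  revert g
  refine Subgroup.closure_induction (p := fun c _ => ∀ g : G K, f (c * g * c⁻¹) = f g)
    ?_ ?_ ?_ ?_ hc
  · rintro k ⟨w, hk⟩ g
    rw [hf.arch_right w k⁻¹ (H228.isArchCompact_inv228 hk), hf.arch_left w k hk, ← mul_assoc,
      ← mul_inv, mul_comm (τ k⁻¹), kType_mul_inv175 hτ hk, inv_one, one_mul]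
  · intro g
    rw [one_mul, inv_one, mul_one]
  · intro x y _ _ hx hy g
    have e : x * y * g * (x * y)⁻¹ = x * (y * g * y⁻¹) * x⁻¹ := by group
    rw [e, hx, hy]
  · intro x _ hx g
    have := hx (x⁻¹ * g * x⁻¹⁻¹)
    rw [← this]
    congr 1
    group

/-- **The double coset statement for `θ`**, from the two glue leaves. -/
theorem theta_eq175 (hFG : FinGlueC175 K) (hIG : InfGlueC175 K) (hArch : LocArchC175)
    (hFin : LocFinTC175 K) {𝔫 : Ideal (𝓞 K)} (h𝔫 : 𝔫 ≠ ⊥) {g : G K}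
    (hg : H724.IsBadUnit724 𝔫 g) :
    ∃ a b c : G K, InLevelGroup 𝔫 a ∧ InLevelGroup 𝔫 b ∧ c ∈ archGroup175 K ∧
      thetaG175 g = a * (c * g * c⁻¹) * b := by
  obtain ⟨a, b, ha, hb, hab⟩ := hFG hFin 𝔫 h𝔫 g hg
  obtain ⟨c, hc, hcfin, hcinf⟩ := hIG hArch g
  refine ⟨a, b, c, ha, hb, hc, ext_comp175 (fun w => ?_) (fun v => ?_)⟩
  · rw [H228.infComp_mul228, H228.infComp_mul228, H228.infComp_mul228, H228.infComp_mul228,
      H228.infComp_eq_one_of_triv228 (ha.1 w), H228.infComp_eq_one_of_triv228 (hb.1 w), one_mul,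
      mul_one, ← hcinf w, mul_assoc, H228.infComp_mul_inv228, mul_one]
  · have h1 : finComp v c = 1 := hcfin v
    have h2 : finComp v c⁻¹ = 1 := H228.trivAtFin_inv228 (hcfin v)
    rw [H228.finComp_mul228, H228.finComp_mul228, H228.finComp_mul228, H228.finComp_mul228, h1,
      h2, one_mul, mul_one]
    exact hab v

theorem isBadUnit_theta175 {𝔫 : Ideal (𝓞 K)} {g : G K} (hg : H724.IsBadUnit724 𝔫 g) :
    H724.IsBadUnit724 𝔫 (thetaG175 g) := by
  intro v hv i j
  have key : ∀ (x : G K) (i j : Fin 2), (∀ i j, (finComp v x - 1) i j ∈ idealClosure 𝔫 v) →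
      (finComp v (thetaG175 x) - 1) i j ∈ idealClosure 𝔫 v := by
    intro x i j hx
    have hneg : ∀ y : v.adicCompletion K, y ∈ idealClosure 𝔫 v → -y ∈ idealClosure 𝔫 v := by
      intro y hy
      have hc : Continuous fun a : v.adicCompletion K => -a := continuous_neg
      refine map_mem_closure hc hy ?_
      rintro _ ⟨a, ha, rfl⟩
      exact ⟨-a, 𝔫.neg_mem ha, by simp⟩
    rw [finComp_thetaG175]
    have h00 := hx 0 0
    have h01 := hneg _ (hx 0 1)
    have h10 := hneg _ (hx 1 0)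
    have h11 := hx 1 1
    fin_cases i <;> fin_cases j
    · simpa [thetaM175, Matrix.sub_apply] using h00
    · simpa [thetaM175, Matrix.sub_apply] using h10
    · simpa [thetaM175, Matrix.sub_apply] using h01
    · simpa [thetaM175, Matrix.sub_apply] using h11
  refine ⟨key g i j fun i j => (hg v hv i j).1, ?_⟩
  rw [← thetaG175_inv]
  exact key g⁻¹ i j fun i j => (hg v hv i j).2

/-- `f ∘ θ = f` for every function of spherical shape of type `τ`. -/
theorem sphInvT175 (hFG : FinGlueC175 K) (hIG : InfGlueC175 K) (hArch : LocArchC175)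
    (hFin : LocFinTC175 K) {𝔫 : Ideal (𝓞 K)} (h𝔫 : 𝔫 ≠ ⊥) {τ : G K → ℂ} (hτ : IsKType τ)
    {f : G K → ℂ} (hf : IsSphShapeT175 𝔫 τ f) (g : G K) : f (thetaG175 g) = f g := by
  by_cases hg : H724.IsBadUnit724 𝔫 g
  · obtain ⟨a, b, c, ha, hb, hc, e⟩ := theta_eq175 hFG hIG hArch hFin h𝔫 hg
    rw [e, hf.level_right b hb, hf.level_left a ha, conj_inv175 hτ hf hc]
  · have h1 : f g = 0 := by
      by_contra h
      exact hg (hf.bad_unit g h)
    have h2 : f (thetaG175 g) = 0 := by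
      by_contra h
      have := isBadUnit_theta175 (hf.bad_unit _ h)
      rw [thetaG175_thetaG175] at this
      exact hg this
    rw [h1, h2]

/-- **TOP of T2.22d**: convolutions by spherical test functions of type `τ` commute. -/
theorem convCommT_of_leaves175 (hKer : H724.ConvKerC724 K) (hShape : ShapeTC175 K)
    (hMeas : ThetaMeasC175 K) (hSwap : ThetaSwapC175 K) (hArch : LocArchC175)
    (hFin : LocFinTC175 K) (hFG : FinGlueC175 K) (hIG : InfGlueC175 K) : LeafT02d175 K := by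
  intro hT1 𝔫 τ h𝔫 hτ R f₁ f₂ ψ h₁ h₂ hψ
  funext x
  have hLC := hT1.locComp
  have hμ : MeasurePreserving (thetaG175 (K := K)) R.F.μ R.F.μ :=
    hMeas hLC hT1.unimod R.F.μ R.F.haar
  rw [hKer hLC R.F f₁ f₂ ψ h₁.test.cont h₁.test.cpt h₂.test.cont h₂.test.cpt hψ.cont hψ.bdd x,
    hKer hLC R.F f₂ f₁ ψ h₂.test.cont h₂.test.cpt h₁.test.cont h₁.test.cpt hψ.cont hψ.bdd x]
  have hker : ∀ g : G K, H724.convKer724 R.F f₁ f₂ g = H724.convKer724 R.F f₂ f₁ g := by
    intro g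
    have s12 : IsSphShapeT175 𝔫 τ (H724.convKer724 R.F f₁ f₂) :=
      hShape hLC 𝔫 τ R.F f₁ f₂ (shapeT_of_sphTestT175 h₁) (shapeT_of_sphTestT175 h₂)
    have e1 : (fun h => f₂ (thetaG175 h)) = f₂ :=
      funext fun h => sphInvT175 hFG hIG hArch hFin h𝔫 hτ (shapeT_of_sphTestT175 h₂) h
    have e2 : (fun h => f₁ (thetaG175 h)) = f₁ :=
      funext fun h => sphInvT175 hFG hIG hArch hFin h𝔫 hτ (shapeT_of_sphTestT175 h₁) h
    rw [← sphInvT175 hFG hIG hArch hFin h𝔫 hτ s12 g, hSwap hLC hT1.unimod R.F hμ f₁ f₂ g, e1, e2]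
  simp_rw [hker]

end Fermat.Agent.LT.T2.H175

end

end
-- ===== PACK-END LT/T2/H175/TauSpec.lean

-- ===== PACK-BEGIN LT/T2/H196/CircleCommT.lean
section




/-!
# Row LT, tower T2, sub-leaf T2.27.20 `SubCommCircleCircleT291` (helper196)

OFF-MAIN.  On `LT/T2/H291/OpsSpecT.lean` (helper291@22c6ecc98, sha256 c8359c85), `LT/T2/Spec.lean`
(v3, b934629a), `LT/T2/SpecTau.lean` (4d2b0fc2), `LT/T1/Spec.lean` (e8ae48d6), `LT/H556/A0.lean`
(66d3374a) and the local elements of `LT/T8/H864/Local.lean` (helper864, 118083c7),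
byte-identical copies.

`subCommCircleCircleT196 : SubCommCircleCircleT291 K`, UNCONDITIONAL: two `τ`-twisted circle
means at real places commute on the cusp functions of the class `(𝔫, τ, r)`.

This is the `T`-form of T2.07.20; the proof follows the one of helper368
(`LT/T2/H368/CircleComm.lean`, whose elementary lemmas on `rotR`, `torR` are copied here with the
suffix `196`), with ONE change: for a non-trivial type `τ` the transposition is replaced by the
anti-involution `θ(x) = e xᵀ e`, `e = diag(1, -1)`, which fixes the rotations and the diagonal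
matrices:

* `exists_rot_theta196` : for every real matrix `x` there is a rotation `κ` with
  `θ(x) κ = κ x`;
* hence the `χ`-twisted left rotation average of a function with `ψ(m κ) = χ(κ) ψ(m)` is
  invariant under `θ` (the factors `χ(κ)`, `χ(κ)⁻¹` cancel);
* different places: the elements commute, Fubini on the square.
-/

set_option autoImplicit false

open MeasureTheory Set
open IsDedekindDomain NumberField
open scoped MatrixGroups

noncomputable section

namespace Fermat.Agent.LT.T2.H196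

/-- The rotation of angle `θ / 2`, as a real matrix. -/
def rotR196 (θ : ℝ) : Matrix (Fin 2) (Fin 2) ℝ :=
  !![Real.cos (θ / 2), -Real.sin (θ / 2); Real.sin (θ / 2), Real.cos (θ / 2)]

/-- `diag(e^{t/2}, e^{-t/2})`, as a real matrix. -/
def torR196 (t : ℝ) : Matrix (Fin 2) (Fin 2) ℝ :=
  !![Real.exp (t / 2), 0; 0, Real.exp (-(t / 2))]

theorem rotR196_add (a b : ℝ) : rotR196 (a + b) = rotR196 a * rotR196 b := by
  have h : (a + b) / 2 = a / 2 + b / 2 := by ring
  ext i j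
  fin_cases i <;> fin_cases j <;>
    simp [rotR196, h, Real.cos_add, Real.sin_add, Matrix.mul_apply, Fin.sum_univ_two] <;> ring

theorem rotR196_zero : rotR196 0 = 1 := by
  ext i j
  fin_cases i <;> fin_cases j <;> simp [rotR196]

theorem rotR196_two_pi : rotR196 (2 * Real.pi) = -1 := by
  have h : 2 * Real.pi / 2 = Real.pi := by ring
  ext i j
  fin_cases i <;> fin_cases j <;> simp [rotR196, h]

theorem rotR196_transpose (θ : ℝ) : (rotR196 θ).transpose = rotR196 (-θ) := by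
  have h : -θ / 2 = -(θ / 2) := by ring
  ext i j
  fin_cases i <;> fin_cases j <;> simp [rotR196, h, Matrix.transpose_apply]

theorem rotR196_det (θ : ℝ) : (rotR196 θ).det = 1 := by
  simp only [rotR196, Matrix.det_fin_two_of]
  have := Real.cos_sq_add_sin_sq (θ / 2)
  nlinarith [this]

theorem torR196_det (t : ℝ) : (torR196 t).det = 1 := by
  simp only [torR196, Matrix.det_fin_two_of]
  rw [mul_zero, sub_zero, ← Real.exp_add]
  simp

theorem torR196_transpose (t : ℝ) : (torR196 t).transpose = torR196 t := by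
  ext i j
  fin_cases i <;> fin_cases j <;> simp [torR196, Matrix.transpose_apply]

/-- The rotation as an element of `GL₂(ℝ)`. -/
def rotG196 (θ : ℝ) : GL (Fin 2) ℝ :=
  Matrix.GeneralLinearGroup.mkOfDetNeZero (rotR196 θ) (by rw [rotR196_det]; exact one_ne_zero)

/-- The torus element as an element of `GL₂(ℝ)`. -/
def torG196 (t : ℝ) : GL (Fin 2) ℝ :=
  Matrix.GeneralLinearGroup.mkOfDetNeZero (torR196 t) (by rw [torR196_det]; exact one_ne_zero)

@[simp] theorem coe_rotG196 (θ : ℝ) :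
    ((rotG196 θ : GL (Fin 2) ℝ) : Matrix (Fin 2) (Fin 2) ℝ) = rotR196 θ := rfl

@[simp] theorem coe_torG196 (t : ℝ) :
    ((torG196 t : GL (Fin 2) ℝ) : Matrix (Fin 2) (Fin 2) ℝ) = torR196 t := rfl

theorem rotG196_add (a b : ℝ) : rotG196 (a + b) = rotG196 a * rotG196 b :=
  Units.ext (by simp [rotR196_add])

theorem rotG196_zero : rotG196 0 = 1 :=
  Units.ext (by simp [rotR196_zero])

theorem rotG196_inv (a : ℝ) : (rotG196 a)⁻¹ = rotG196 (-a) := by
  rw [inv_eq_iff_eq_inv, eq_inv_iff_mul_eq_one, ← rotG196_add]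
  simp [rotG196_zero]

/-- `rotG196 (2π) = -1` is central. -/
theorem rotG196_two_pi_mul (x : GL (Fin 2) ℝ) :
    rotG196 (2 * Real.pi) * x = x * rotG196 (2 * Real.pi) :=
  Units.ext (by simp [rotR196_two_pi])

theorem continuous_rotR196 : Continuous rotR196 := by
  refine continuous_matrix fun i j => ?_
  fin_cases i <;> fin_cases j <;> simp [rotR196] <;> fun_prop

theorem continuous_rotG196 : Continuous rotG196 := by
  rw [Units.continuous_iff]
  refine ⟨continuous_rotR196, ?_⟩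
  have h : (fun a : ℝ => (((rotG196 a)⁻¹ : GL (Fin 2) ℝ) : Matrix (Fin 2) (Fin 2) ℝ))
      = fun a => rotR196 (-a) := by
    funext a
    rw [rotG196_inv]
    rfl
  show Continuous fun a : ℝ => (((rotG196 a)⁻¹ : GL (Fin 2) ℝ) : Matrix (Fin 2) (Fin 2) ℝ)
  rw [h]
  exact continuous_rotR196.comp continuous_neg


/-- `e = diag(1, -1)`. -/
def eR196 : Matrix (Fin 2) (Fin 2) ℝ := !![1, 0; 0, -1]

/-- The anti-involution `θ(x) = e xᵀ e`. -/
def thetaR196 (x : Matrix (Fin 2) (Fin 2) ℝ) : Matrix (Fin 2) (Fin 2) ℝ :=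
  eR196 * x.transpose * eR196

theorem thetaR196_apply (x : Matrix (Fin 2) (Fin 2) ℝ) :
    thetaR196 x = !![x 0 0, -x 1 0; -x 0 1, x 1 1] := by
  unfold thetaR196 eR196
  rw [Matrix.eta_fin_two x.transpose]
  simp only [Matrix.transpose_apply, Matrix.mul_fin_two]
  ext i j
  fin_cases i <;> fin_cases j <;> simp

theorem thetaR196_mul (x y : Matrix (Fin 2) (Fin 2) ℝ) :
    thetaR196 (x * y) = thetaR196 y * thetaR196 x := by
  have he : eR196 * eR196 = 1 := by
    ext i j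
    fin_cases i <;> fin_cases j <;> simp [eR196, Matrix.mul_apply, Fin.sum_univ_two]
  unfold thetaR196
  rw [Matrix.transpose_mul]
  calc eR196 * (y.transpose * x.transpose) * eR196
      = eR196 * y.transpose * 1 * x.transpose * eR196 := by simp only [mul_one, mul_assoc]
    _ = eR196 * y.transpose * (eR196 * eR196) * x.transpose * eR196 := by rw [he]
    _ = eR196 * y.transpose * eR196 * (eR196 * x.transpose * eR196) := by
        simp only [mul_assoc]

theorem thetaR196_rot (θ : ℝ) : thetaR196 (rotR196 θ) = rotR196 θ := by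
  rw [thetaR196_apply]
  ext i j
  fin_cases i <;> fin_cases j <;> simp [rotR196]

theorem thetaR196_tor (t : ℝ) : thetaR196 (torR196 t) = torR196 t := by
  rw [thetaR196_apply]
  ext i j
  fin_cases i <;> fin_cases j <;> simp [torR196]

/-- For every real `2 × 2` matrix `x` there is a rotation `κ` with `θ(x) κ = κ x`: the Cartan
decomposition in the form needed for Gelfand's trick with a type. -/
theorem exists_rot_theta196 (x : Matrix (Fin 2) (Fin 2) ℝ) :
    ∃ c : ℝ, thetaR196 x * rotR196 c = rotR196 c * x := by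
  -- `p (b + c) = q (d - a)` and `p² + q² = 1`
  obtain ⟨p, q, h1, h2⟩ : ∃ p q : ℝ, p * (x 0 1 + x 1 0) = q * (x 1 1 - x 0 0) ∧
      p ^ 2 + q ^ 2 = 1 := by
    by_cases h : (x 1 1 - x 0 0) ^ 2 + (x 0 1 + x 1 0) ^ 2 = 0
    · refine ⟨1, 0, ?_, by norm_num⟩
      have h0 : x 0 1 + x 1 0 = 0 := by
        nlinarith [sq_nonneg (x 1 1 - x 0 0), sq_nonneg (x 0 1 + x 1 0)]
      rw [h0]; ring
    · set r := Real.sqrt ((x 1 1 - x 0 0) ^ 2 + (x 0 1 + x 1 0) ^ 2) with hr
      have hpos : 0 < (x 1 1 - x 0 0) ^ 2 + (x 0 1 + x 1 0) ^ 2 :=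
        lt_of_le_of_ne (by positivity) (Ne.symm h)
      have hr0 : 0 < r := Real.sqrt_pos.2 hpos
      have hr2 : r ^ 2 = (x 1 1 - x 0 0) ^ 2 + (x 0 1 + x 1 0) ^ 2 := Real.sq_sqrt hpos.le
      refine ⟨(x 1 1 - x 0 0) / r, (x 0 1 + x 1 0) / r, by ring, ?_⟩
      rw [div_pow, div_pow, ← add_div, ← hr2, div_self (pow_ne_zero 2 hr0.ne')]
  -- the angle
  obtain ⟨c, hc1, hc2⟩ : ∃ c : ℝ, Real.cos (c / 2) = p ∧ Real.sin (c / 2) = q := by
    set z : ℂ := ⟨p, q⟩ with hz
    have hnorm : ‖z‖ = 1 := by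
      have : ‖z‖ ^ 2 = 1 := by
        rw [Complex.sq_norm, Complex.normSq_apply]
        simp only [hz]
        nlinarith [h2]
      have h0 : 0 ≤ ‖z‖ := norm_nonneg z
      nlinarith [this, h0]
    have hz0 : z ≠ 0 := by
      intro h
      rw [h, norm_zero] at hnorm
      exact zero_ne_one hnorm
    refine ⟨2 * Complex.arg z, ?_, ?_⟩
    · rw [mul_div_cancel_left₀ _ (two_ne_zero' ℝ), Complex.cos_arg hz0, hnorm, div_one]
    · rw [mul_div_cancel_left₀ _ (two_ne_zero' ℝ), Complex.sin_arg, hnorm, div_one]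
  refine ⟨c, ?_⟩
  rw [thetaR196_apply]
  ext i j
  fin_cases i <;> fin_cases j
  · simp only [rotR196, hc1, hc2, Matrix.mul_apply, Fin.sum_univ_two,
      Fin.zero_eta, Fin.isValue, Matrix.of_apply, Matrix.cons_val', Matrix.cons_val_zero,
      Matrix.cons_val_one, Matrix.cons_val_fin_one]
    ring
  · simp only [rotR196, hc1, hc2, Matrix.mul_apply, Fin.sum_univ_two,
      Fin.zero_eta, Fin.mk_one, Fin.isValue, Matrix.of_apply, Matrix.cons_val', Matrix.cons_val_zero,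
      Matrix.cons_val_one, Matrix.cons_val_fin_one]
    linear_combination (-1 : ℝ) * h1
  · simp only [rotR196, hc1, hc2, Matrix.mul_apply, Fin.sum_univ_two,
      Fin.zero_eta, Fin.mk_one, Fin.isValue, Matrix.of_apply, Matrix.cons_val', Matrix.cons_val_zero,
      Matrix.cons_val_one, Matrix.cons_val_fin_one]
    linear_combination (-1 : ℝ) * h1
  · simp only [rotR196, hc1, hc2, Matrix.mul_apply, Fin.sum_univ_two,
      Fin.mk_one, Fin.isValue, Matrix.of_apply, Matrix.cons_val', Matrix.cons_val_zero,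
      Matrix.cons_val_one, Matrix.cons_val_fin_one]
    ring

/-- Fubini for a continuous function on a rectangle, interval-integral form. -/
theorem intervalIntegral_swap196 {E : Type*} [NormedAddCommGroup E] [NormedSpace ℝ E]
    (f : ℝ → ℝ → E) (hf : Continuous (Function.uncurry f)) {a b c d : ℝ}
    (hab : a ≤ b) (hcd : c ≤ d) :
    (∫ x in a..b, ∫ y in c..d, f x y) = ∫ y in c..d, ∫ x in a..b, f x y := by
  simp only [intervalIntegral.integral_of_le hab, intervalIntegral.integral_of_le hcd]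
  apply MeasureTheory.integral_integral_swap
  rw [Measure.prod_restrict]
  have hK : IsCompact (Icc a b ×ˢ Icc c d) := isCompact_Icc.prod isCompact_Icc
  have h1 : IntegrableOn (Function.uncurry f) (Icc a b ×ˢ Icc c d) (volume.prod volume) :=
    hf.continuousOn.integrableOn_compact hK
  exact h1.mono_set (prod_mono Ioc_subset_Icc_self Ioc_subset_Icc_self)



/-! ## 2. Gelfand's trick on `GL₂(ℝ)` with a type -/

section Real

/-- A continuous non-vanishing character of `ℝ`. -/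
structure IsChar196 (χ : ℝ → ℂ) : Prop where
  add : ∀ a b : ℝ, χ (a + b) = χ a * χ b
  ne : ∀ a : ℝ, χ a ≠ 0
  cont : Continuous χ

variable (χ : ℝ → ℂ) (ψ : GL (Fin 2) ℝ → ℂ)

/-- The `χ`-twisted left average of `ψ` over the rotations. -/
def avgT196 (x : GL (Fin 2) ℝ) : ℂ :=
  ∫ a in (0 : ℝ)..(2 * Real.pi), (χ a)⁻¹ * ψ (rotG196 a * x)

variable {χ ψ}

theorem IsChar196.zero (hχ : IsChar196 χ) : χ 0 = 1 := by
  have h := hχ.add 0 0
  rw [add_zero] at h
  have h0 := hχ.ne 0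
  have h1 : 1 * χ 0 = χ 0 * χ 0 := by rw [one_mul]; exact h
  exact (mul_right_cancel₀ h0 h1).symm

theorem IsChar196.neg (hχ : IsChar196 χ) (a : ℝ) : χ (-a) = (χ a)⁻¹ := by
  have h := hχ.add a (-a)
  rw [add_neg_cancel, hχ.zero] at h
  exact eq_inv_of_mul_eq_one_right h.symm

theorem periodicT196 (hχ : IsChar196 χ)
    (hinv : ∀ (m : GL (Fin 2) ℝ) (c : ℝ), ψ (m * rotG196 c) = χ c * ψ m)
    (x y : GL (Fin 2) ℝ) :
    Function.Periodic (fun a : ℝ => (χ a)⁻¹ * ψ (x * (rotG196 a * y))) (2 * Real.pi) := by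
  intro a
  show (χ (a + 2 * Real.pi))⁻¹ * ψ (x * (rotG196 (a + 2 * Real.pi) * y))
    = (χ a)⁻¹ * ψ (x * (rotG196 a * y))
  have h : x * (rotG196 (a + 2 * Real.pi) * y)
      = x * (rotG196 a * y) * rotG196 (2 * Real.pi) := by
    rw [rotG196_add, mul_assoc (rotG196 a), rotG196_two_pi_mul y]
    simp only [mul_assoc]
  rw [h, hinv, hχ.add, mul_inv]
  have h1 := hχ.ne (2 * Real.pi)
  have h2 := hχ.ne a
  field_simp

theorem avgT196_rot_mul (hχ : IsChar196 χ)
    (hinv : ∀ (m : GL (Fin 2) ℝ) (c : ℝ), ψ (m * rotG196 c) = χ c * ψ m)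
    (c : ℝ) (x : GL (Fin 2) ℝ) : avgT196 χ ψ (rotG196 c * x) = χ c * avgT196 χ ψ x := by
  unfold avgT196
  have h1 : ∀ a : ℝ, (χ a)⁻¹ * ψ (rotG196 a * (rotG196 c * x))
      = χ c * ((χ (a + c))⁻¹ * ψ (1 * (rotG196 (a + c) * x))) := by
    intro a
    rw [rotG196_add, one_mul, mul_assoc, hχ.add, mul_inv]
    have h1 := hχ.ne c
    have h2 := hχ.ne a
    field_simp
  simp only [h1]
  rw [intervalIntegral.integral_const_mul]
  congr 1
  rw [intervalIntegral.integral_comp_add_right (fun a => (χ a)⁻¹ * ψ (1 * (rotG196 a * x))) c]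
  have hp := periodicT196 hχ hinv 1 x
  have := hp.intervalIntegral_add_eq (0 + c) 0
  simp only [zero_add] at this ⊢
  rw [add_comm (2 * Real.pi) c, this]
  simp only [one_mul]

theorem avgT196_mul_rot
    (hinv : ∀ (m : GL (Fin 2) ℝ) (c : ℝ), ψ (m * rotG196 c) = χ c * ψ m)
    (c : ℝ) (x : GL (Fin 2) ℝ) : avgT196 χ ψ (x * rotG196 c) = χ c * avgT196 χ ψ x := by
  unfold avgT196
  rw [← intervalIntegral.integral_const_mul]
  congr 1
  funext a
  rw [← mul_assoc (rotG196 a), hinv]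
  ring

/-- The twisted average is invariant under the anti-involution `θ`. -/
theorem avgT196_theta (hχ : IsChar196 χ)
    (hinv : ∀ (m : GL (Fin 2) ℝ) (c : ℝ), ψ (m * rotG196 c) = χ c * ψ m)
    (x y : GL (Fin 2) ℝ)
    (hxy : (y : Matrix (Fin 2) (Fin 2) ℝ) = thetaR196 (x : Matrix (Fin 2) (Fin 2) ℝ)) :
    avgT196 χ ψ y = avgT196 χ ψ x := by
  obtain ⟨c, hc⟩ := exists_rot_theta196 (x : Matrix (Fin 2) (Fin 2) ℝ)
  have h1 : y * rotG196 c = rotG196 c * x := by
    apply Units.ext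
    rw [Units.val_mul, Units.val_mul, hxy, coe_rotG196]
    exact hc
  have hy : y = rotG196 c * (x * rotG196 (-c)) := by
    calc y = y * rotG196 c * (rotG196 c)⁻¹ := by group
      _ = rotG196 c * x * (rotG196 c)⁻¹ := by rw [h1]
      _ = rotG196 c * (x * rotG196 (-c)) := by rw [rotG196_inv, mul_assoc]
  rw [hy, avgT196_rot_mul hχ hinv, avgT196_mul_rot hinv, hχ.neg, ← mul_assoc,
    mul_inv_cancel₀ (hχ.ne c), one_mul]

/-- **Gelfand's trick for `(GL₂(ℝ), SO(2))` with a type**: the two iterated twisted circle means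
of a continuous function of right type `χ` agree. -/
theorem circle_comm_realT196 (hχ : IsChar196 χ) (hc : Continuous ψ)
    (hinv : ∀ (m : GL (Fin 2) ℝ) (c : ℝ), ψ (m * rotG196 c) = χ c * ψ m)
    (A A' : GL (Fin 2) ℝ)
    (hA : thetaR196 (A : Matrix (Fin 2) (Fin 2) ℝ) = (A : Matrix (Fin 2) (Fin 2) ℝ))
    (hA' : thetaR196 (A' : Matrix (Fin 2) (Fin 2) ℝ) = (A' : Matrix (Fin 2) (Fin 2) ℝ)) :
    (∫ θ in (0 : ℝ)..(2 * Real.pi), (χ θ)⁻¹ * ∫ θ' in (0 : ℝ)..(2 * Real.pi),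
        (χ θ')⁻¹ * ψ (rotG196 θ * A * (rotG196 θ' * A')))
      = ∫ θ' in (0 : ℝ)..(2 * Real.pi), (χ θ')⁻¹ * ∫ θ in (0 : ℝ)..(2 * Real.pi),
        (χ θ)⁻¹ * ψ (rotG196 θ' * A' * (rotG196 θ * A)) := by
  have h2pi : (0 : ℝ) ≤ 2 * Real.pi := by positivity
  have hχi : Continuous fun a : ℝ => (χ a)⁻¹ := hχ.cont.inv₀ hχ.ne
  have hcont : ∀ B B' : GL (Fin 2) ℝ, Continuous (Function.uncurry
      (fun θ θ' : ℝ => (χ θ)⁻¹ * ((χ θ')⁻¹ * ψ (rotG196 θ * B * (rotG196 θ' * B'))))) := by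
    intro B B'
    have h1 : Continuous fun p : ℝ × ℝ => rotG196 p.1 := continuous_rotG196.comp continuous_fst
    have h2 : Continuous fun p : ℝ × ℝ => rotG196 p.2 := continuous_rotG196.comp continuous_snd
    have h3 : Continuous fun p : ℝ × ℝ => ψ (rotG196 p.1 * B * (rotG196 p.2 * B')) :=
      hc.comp ((h1.mul continuous_const).mul (h2.mul continuous_const))
    exact (hχi.comp continuous_fst).mul ((hχi.comp continuous_snd).mul h3)
  -- left side
  have hL : (∫ θ in (0 : ℝ)..(2 * Real.pi), (χ θ)⁻¹ * ∫ θ' in (0 : ℝ)..(2 * Real.pi),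
        (χ θ')⁻¹ * ψ (rotG196 θ * A * (rotG196 θ' * A')))
      = ∫ θ' in (0 : ℝ)..(2 * Real.pi), (χ θ')⁻¹ * avgT196 χ ψ (A * (rotG196 θ' * A')) := by
    simp only [← intervalIntegral.integral_const_mul]
    rw [intervalIntegral_swap196 _ (hcont A A') h2pi h2pi]
    congr 1
    funext θ'
    unfold avgT196
    rw [← intervalIntegral.integral_const_mul]
    congr 1
    funext θ
    rw [mul_assoc (rotG196 θ)]
    ring
  -- right side
  have hR : (∫ θ' in (0 : ℝ)..(2 * Real.pi), (χ θ')⁻¹ * ∫ θ in (0 : ℝ)..(2 * Real.pi),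
        (χ θ)⁻¹ * ψ (rotG196 θ' * A' * (rotG196 θ * A)))
      = ∫ θ in (0 : ℝ)..(2 * Real.pi), (χ θ)⁻¹ * avgT196 χ ψ (A' * (rotG196 θ * A)) := by
    simp only [← intervalIntegral.integral_const_mul]
    rw [intervalIntegral_swap196 _ (hcont A' A) h2pi h2pi]
    congr 1
    funext θ
    unfold avgT196
    rw [← intervalIntegral.integral_const_mul]
    congr 1
    funext θ'
    rw [mul_assoc (rotG196 θ')]
    ring
  rw [hL, hR]
  -- the anti-involution
  have hT : ∀ θ : ℝ, avgT196 χ ψ (A' * (rotG196 θ * A)) = avgT196 χ ψ (A * (rotG196 θ * A')) := by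
    intro θ
    refine avgT196_theta hχ hinv _ _ ?_
    simp only [Matrix.GeneralLinearGroup.coe_mul, coe_rotG196, thetaR196_mul, hA, hA',
      thetaR196_rot, mul_assoc]
  simp only [hT]

end Real


/-! ## 3. The adelic statement -/

section Adelic

open Fermat.Agent.LT.H556.A0 Fermat.Agent.LT.T2 Fermat.Agent.LT.T2.H291 Fermat.Agent.LT.T8.H864

variable {K : Type} [Field K] [NumberField K]

/-- Two elements supported at the same infinite place with the same complex matrix are equal. -/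
theorem eq_of_local196 {w : InfinitePlace K} {g g' : G K} (hg : IsLocalAtInf w g)
    (hg' : IsLocalAtInf w g') (h : infComp w g = infComp w g') : g = g' := by
  refine G_ext (fun w' => ?_) (fun v => ?_)
  · by_cases hw : w' = w
    · subst hw
      apply Units.ext
      rw [coe_infCompHom, coe_infCompHom]
      rw [infComp_eq_map, infComp_eq_map] at h
      exact Matrix.map_injective (InfinitePlace.Completion.extensionEmbedding w').injective h
    · rw [(trivAtInf_iff_hom w' g).1 (hg.1 w' hw), (trivAtInf_iff_hom w' g').1 (hg'.1 w' hw)]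
  · rw [(trivAtFin_iff_hom v g).1 (hg.2 v), (trivAtFin_iff_hom v g').1 (hg'.2 v)]

theorem rotY_eq196 (θ : ℝ) : rotY θ = (rotR196 θ).map (fun r : ℝ => (r : ℂ)) := by
  ext i j
  fin_cases i <;> fin_cases j <;> simp [rotY, rotR196]

theorem torus_eq196 (t : ℝ) : torus t = (torR196 t).map (fun r : ℝ => (r : ℂ)) := by
  ext i j
  fin_cases i <;> fin_cases j <;> simp [torus, torR196]

theorem map_ofReal_mul196 (M N : Matrix (Fin 2) (Fin 2) ℝ) :
    (M * N).map (fun r : ℝ => (r : ℂ))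
      = M.map (fun r : ℝ => (r : ℂ)) * N.map (fun r : ℝ => (r : ℂ)) :=
  Matrix.map_mul (f := Complex.ofRealHom)

/-- The rotations of `IsRotAt` are the images of the real rotations. -/
theorem rot_eq196 {w : InfinitePlace K} (hw : w.IsReal) {k : ℝ → G K} (hk : IsRotAt w k)
    (θ : ℝ) : k θ = locInfReal hw (rotG196 θ) := by
  refine eq_of_local196 (hk θ).1 (isLocalAtInf_locInfReal hw _) ?_
  rw [(hk θ).2, infComp_locInfReal, rotY_eq196]
  rfl

/-- The torus element of `IsTorusAt` is the image of the real torus element. -/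
theorem tor_eq196 {w : InfinitePlace K} (hw : w.IsReal) {t : ℝ} {a : G K}
    (ha : IsTorusAt w t a) : a = locInfReal hw (torG196 t) := by
  refine eq_of_local196 ha.1 (isLocalAtInf_locInfReal hw _) ?_
  rw [ha.2, infComp_locInfReal, torus_eq196]
  rfl

/-- The rotations lie in the compact group at `w`. -/
theorem isArchCompact_rot196 {w : InfinitePlace K} (hw : w.IsReal) (c : ℝ) :
    IsArchCompact w (locInfReal hw (rotG196 c)) := by
  have hmap : infComp w (locInfReal hw (rotG196 c))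
      = (rotR196 c).map (fun r : ℝ => (r : ℂ)) := by
    rw [infComp_locInfReal]; rfl
  refine ⟨isLocalAtInf_locInfReal hw _, ?_, fun _ => ?_⟩
  · rw [hmap]
    have h1 : ((rotR196 c).map (fun r : ℝ => (r : ℂ))).conjTranspose
        = ((rotR196 c).transpose).map (fun r : ℝ => (r : ℂ)) := by
      ext i j
      simp [Matrix.conjTranspose_apply, Matrix.transpose_apply]
    rw [h1, ← map_ofReal_mul196, rotR196_transpose, ← rotR196_add, add_neg_cancel, rotR196_zero]
    ext i j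
    fin_cases i <;> fin_cases j <;> simp
  · rw [hmap]
    have h2 : ((rotR196 c).map (fun r : ℝ => (r : ℂ))).det = (((rotR196 c).det : ℝ) : ℂ) := by
      simp only [Matrix.det_fin_two, Matrix.map_apply]
      push_cast
      ring
    rw [h2, rotR196_det]
    simp

/-- The character of the rotations defined by the type `τ` at the real place `w`. -/
def chi196 {w : InfinitePlace K} (hw : w.IsReal) (τ : G K → ℂ) (c : ℝ) : ℂ :=
  τ (locInfReal hw (rotG196 c))

theorem isChar_chi196 {w : InfinitePlace K} (hw : w.IsReal) {τ : G K → ℂ} (hτ : IsKType τ) :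
    IsChar196 (chi196 hw τ) where
  add a b := by
    unfold chi196
    rw [rotG196_add, map_mul]
    exact hτ.mul w _ _ (isArchCompact_rot196 hw a) (isArchCompact_rot196 hw b)
  ne a := by
    intro h
    have h1 := hτ.norm_one w _ (isArchCompact_rot196 hw a)
    unfold chi196 at h
    rw [h, norm_zero] at h1
    exact zero_ne_one h1
  cont := by
    unfold chi196
    have h1 : Continuous fun c : ℝ => locInfReal hw (rotG196 c) :=
      (continuous_locInfReal hw).comp continuous_rotG196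
    exact (hτ.cont w).comp_continuous h1 (fun c => isArchCompact_rot196 hw c)

variable {𝔫 : Ideal (𝓞 K)} {τ : G K → ℂ} {r : G K} {φ : G K → ℂ}

/-- The pull-back of a cusp function to `GL₂(ℝ)` at the real place `w`. -/
def pull196 {w : InfinitePlace K} (hw : w.IsReal) (φ : G K → ℂ) (g : G K) :
    GL (Fin 2) ℝ → ℂ := fun m => φ (g * locInfReal hw m)

theorem continuous_pull196 {w : InfinitePlace K} (hw : w.IsReal) (hφ : Continuous φ) (g : G K) :
    Continuous (pull196 hw φ g) :=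
  hφ.comp (continuous_const.mul (continuous_locInfReal hw))

theorem pull196_inv {w : InfinitePlace K} (hw : w.IsReal) (hφ : IsCuspT 𝔫 τ r φ) (g : G K)
    (m : GL (Fin 2) ℝ) (c : ℝ) :
    pull196 hw φ g (m * rotG196 c) = chi196 hw τ c * pull196 hw φ g m := by
  unfold pull196 chi196
  rw [map_mul, ← mul_assoc]
  exact hφ.aut.arch_compact w _ (isArchCompact_rot196 hw c) _

/-- Same place. -/
theorem circle_comm_sameT196 {w : InfinitePlace K} (hw : w.IsReal) (hτ : IsKType τ)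
    (hφ : IsCuspT 𝔫 τ r φ) {t t' : ℝ} {k k' : ℝ → G K} {a a' : G K}
    (hk : IsRotAt w k) (ha : IsTorusAt w t a) (hk' : IsRotAt w k') (ha' : IsTorusAt w t' a')
    (g : G K) :
    circleMeanT τ k a (circleMeanT τ k' a' φ) g = circleMeanT τ k' a' (circleMeanT τ k a φ) g := by
  have e1 : ∀ θ : ℝ, τ (k θ) = chi196 hw τ θ := fun θ => by rw [rot_eq196 hw hk θ]; rfl
  have e2 : ∀ θ : ℝ, τ (k' θ) = chi196 hw τ θ := fun θ => by rw [rot_eq196 hw hk' θ]; rfl
  have h1 : ∀ θ θ' : ℝ, φ (g * k θ * a * k' θ' * a')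
      = pull196 hw φ g (rotG196 θ * torG196 t * (rotG196 θ' * torG196 t')) := by
    intro θ θ'
    unfold pull196
    rw [rot_eq196 hw hk θ, rot_eq196 hw hk' θ', tor_eq196 hw ha, tor_eq196 hw ha']
    simp only [map_mul, mul_assoc]
  have h2 : ∀ θ θ' : ℝ, φ (g * k' θ' * a' * k θ * a)
      = pull196 hw φ g (rotG196 θ' * torG196 t' * (rotG196 θ * torG196 t)) := by
    intro θ θ'
    unfold pull196
    rw [rot_eq196 hw hk θ, rot_eq196 hw hk' θ', tor_eq196 hw ha, tor_eq196 hw ha']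
    simp only [map_mul, mul_assoc]
  show (∫ θ in (0 : ℝ)..(2 * Real.pi), (τ (k θ))⁻¹ * ∫ θ' in (0 : ℝ)..(2 * Real.pi),
      (τ (k' θ'))⁻¹ * φ (g * k θ * a * k' θ' * a'))
    = ∫ θ' in (0 : ℝ)..(2 * Real.pi), (τ (k' θ'))⁻¹ * ∫ θ in (0 : ℝ)..(2 * Real.pi),
      (τ (k θ))⁻¹ * φ (g * k' θ' * a' * k θ * a)
  simp only [h1, h2, e1, e2]
  exact circle_comm_realT196 (isChar_chi196 hw hτ) (continuous_pull196 hw hφ.aut.cont g)
    (pull196_inv hw hφ g) (torG196 t) (torG196 t') (thetaR196_tor t) (thetaR196_tor t')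

/-- Elements supported at two different infinite places commute. -/
theorem commute_of_local196 {w w' : InfinitePlace K} (h : w' ≠ w) {y y' : G K}
    (hy : IsLocalAtInf w y) (hy' : IsLocalAtInf w' y') : y * y' = y' * y := by
  refine commute_of_triv (fun w'' => ?_) (fun v => Or.inl ((trivAtFin_iff_hom v y).1 (hy.2 v)))
  by_cases h' : w'' = w
  · subst h'
    exact Or.inr ((trivAtInf_iff_hom w'' y').1 (hy'.1 w'' (Ne.symm h)))
  · exact Or.inl ((trivAtInf_iff_hom w'' y).1 (hy.1 w'' h'))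

/-- Different places. -/
theorem circle_comm_diffT196 {w w' : InfinitePlace K} (hw : w.IsReal) (hw' : w'.IsReal)
    (h : w' ≠ w) (hτ : IsKType τ) (hφ : IsCuspT 𝔫 τ r φ) {t t' : ℝ} {k k' : ℝ → G K}
    {a a' : G K} (hk : IsRotAt w k) (ha : IsTorusAt w t a) (hk' : IsRotAt w' k')
    (ha' : IsTorusAt w' t' a') (g : G K) :
    circleMeanT τ k a (circleMeanT τ k' a' φ) g = circleMeanT τ k' a' (circleMeanT τ k a φ) g := by
  have h2pi : (0 : ℝ) ≤ 2 * Real.pi := by positivity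
  have e1 : ∀ θ : ℝ, τ (k θ) = chi196 hw τ θ := fun θ => by rw [rot_eq196 hw hk θ]; rfl
  have e2 : ∀ θ : ℝ, τ (k' θ) = chi196 hw' τ θ := fun θ => by rw [rot_eq196 hw' hk' θ]; rfl
  have hY : ∀ θ : ℝ, k θ * a = locInfReal hw (rotG196 θ * torG196 t) := fun θ => by
    rw [rot_eq196 hw hk θ, tor_eq196 hw ha, map_mul]
  have hY' : ∀ θ : ℝ, k' θ * a' = locInfReal hw' (rotG196 θ * torG196 t') := fun θ => by
    rw [rot_eq196 hw' hk' θ, tor_eq196 hw' ha', map_mul]
  have hcomm : ∀ θ θ' : ℝ, g * k' θ' * a' * k θ * a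
      = g * locInfReal hw (rotG196 θ * torG196 t) * locInfReal hw' (rotG196 θ' * torG196 t') := by
    intro θ θ'
    calc g * k' θ' * a' * k θ * a = g * ((k' θ' * a') * (k θ * a)) := by simp only [mul_assoc]
      _ = g * ((k θ * a) * (k' θ' * a')) := by
          rw [hY, hY', commute_of_local196 h (isLocalAtInf_locInfReal hw _)
            (isLocalAtInf_locInfReal hw' _)]
      _ = _ := by rw [hY, hY', mul_assoc]
  have hcomm' : ∀ θ θ' : ℝ, g * k θ * a * k' θ' * a'
      = g * locInfReal hw (rotG196 θ * torG196 t) * locInfReal hw' (rotG196 θ' * torG196 t') := by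
    intro θ θ'
    calc g * k θ * a * k' θ' * a' = g * (k θ * a) * (k' θ' * a') := by simp only [mul_assoc]
      _ = _ := by rw [hY, hY']
  have hχ := isChar_chi196 hw hτ
  have hχ' := isChar_chi196 hw' hτ
  have hχi : Continuous fun a : ℝ => (chi196 hw τ a)⁻¹ := hχ.cont.inv₀ hχ.ne
  have hχi' : Continuous fun a : ℝ => (chi196 hw' τ a)⁻¹ := hχ'.cont.inv₀ hχ'.ne
  have hcont : Continuous (Function.uncurry (fun θ θ' : ℝ =>
      (chi196 hw τ θ)⁻¹ * ((chi196 hw' τ θ')⁻¹ * φ (g * locInfReal hw (rotG196 θ * torG196 t)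
        * locInfReal hw' (rotG196 θ' * torG196 t'))))) := by
    have h1 : Continuous fun p : ℝ × ℝ => locInfReal hw (rotG196 p.1 * torG196 t) :=
      (continuous_locInfReal hw).comp ((continuous_rotG196.comp continuous_fst).mul
        continuous_const)
    have h2 : Continuous fun p : ℝ × ℝ => locInfReal hw' (rotG196 p.2 * torG196 t') :=
      (continuous_locInfReal hw').comp ((continuous_rotG196.comp continuous_snd).mul
        continuous_const)
    have h3 : Continuous fun p : ℝ × ℝ => φ (g * locInfReal hw (rotG196 p.1 * torG196 t)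
        * locInfReal hw' (rotG196 p.2 * torG196 t')) :=
      hφ.aut.cont.comp ((continuous_const.mul h1).mul h2)
    exact (hχi.comp continuous_fst).mul ((hχi'.comp continuous_snd).mul h3)
  show (∫ θ in (0 : ℝ)..(2 * Real.pi), (τ (k θ))⁻¹ * ∫ θ' in (0 : ℝ)..(2 * Real.pi),
      (τ (k' θ'))⁻¹ * φ (g * k θ * a * k' θ' * a'))
    = ∫ θ' in (0 : ℝ)..(2 * Real.pi), (τ (k' θ'))⁻¹ * ∫ θ in (0 : ℝ)..(2 * Real.pi),
      (τ (k θ))⁻¹ * φ (g * k' θ' * a' * k θ * a)
  simp only [hcomm, hcomm', e1, e2, ← intervalIntegral.integral_const_mul]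
  rw [intervalIntegral_swap196 _ hcont h2pi h2pi]
  congr 1
  funext θ'
  congr 1
  funext θ
  ring

/-- **T2.27.20**: two `τ`-twisted circle means commute on the cusp functions of the class.
UNCONDITIONAL (of the standing hypotheses only `IsKType τ` is used). -/
theorem subCommCircleCircleT196 (K : Type) [Field K] [NumberField K] :
    SubCommCircleCircleT291 K := by
  intro 𝔫 τ ctx R w hw t _ k a hk ha w' hw' t' _ k' a' hk' ha' φ hφ
  funext g
  by_cases h : w' = w
  · subst h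
    exact circle_comm_sameT196 hw ctx.kt hφ hk ha hk' ha' g
  · exact circle_comm_diffT196 hw hw' h ctx.kt hφ hk ha hk' ha' g

end Adelic

end Fermat.Agent.LT.T2.H196

end

end
-- ===== PACK-END LT/T2/H196/CircleCommT.lean

-- ===== PACK-BEGIN LT/T2/H8/ConvBddT.lean
section



/-!
# Row LT, tower T2, sub-leaf T2.27.09 (`SubConvBddT291`, `T`-form of T2.07.09) — helper8, OFF-MAIN

`subConvBddT_of_h8 : SubTranslT291 K → SubConvBddT291 K`, verbatim against
`LT/T2/H291/OpsSpecT.lean` (helper291@22c6ecc98, sha256 c8359c85):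
`‖R(f) φ‖² ≤ ‖f‖₁² ‖φ‖²` on the cusp functions of the class `(𝔫, τ, r)`.

The proof is that of T2.07.09 (helper173, `LT/T2/H173/ConvBdd.lean`, sha256 f57dc29c): weighted
Cauchy--Schwarz, Fubini, and the KEY LEMMA (`SubTranslT291`) for `N = |φ|²`, which is left
invariant under `GL₂(K)` and right invariant under the ray generator `r` (field `ray` of `IsAutT`;
the section on `Z⁺` of T2.07.09 is not needed).  The two class-free lemmas of helper173 are
restated here (`sq_integral_mul_le_h8`, `nsq_eq_h8`) so that this file does not import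
`H429/OpsSpec.lean`.
-/

set_option autoImplicit false

open IsDedekindDomain NumberField MeasureTheory
open Fermat.Agent.LT.H556.A0
open Fermat.Agent.LT.T2
open Fermat.Agent.LT.T2.H291

noncomputable section

namespace Fermat.Agent.LT.T2.H8

variable {K : Type} [Field K] [NumberField K]

attribute [local instance] Fermat.Agent.LT.T2.borelG

/-! ## 1. Weighted Cauchy--Schwarz -/

/-- `(∫ u w)² ≤ (∫ w) (∫ u² w)` for a weight `w ≥ 0`. -/
theorem sq_integral_mul_le_h8 {α : Type*} [MeasurableSpace α] (μ : Measure α) (u w : α → ℝ)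
    (hw : ∀ a, 0 ≤ w a) (h0 : Integrable w μ) (h1 : Integrable (fun a => u a * w a) μ)
    (h2 : Integrable (fun a => u a ^ 2 * w a) μ) :
    (∫ a, u a * w a ∂μ) ^ 2 ≤ (∫ a, w a ∂μ) * ∫ a, u a ^ 2 * w a ∂μ := by
  have key : ∀ t : ℝ, 0 ≤ (∫ a, w a ∂μ) * (t * t) + (-2 * ∫ a, u a * w a ∂μ) * t
      + ∫ a, u a ^ 2 * w a ∂μ := by
    intro t
    have e : (fun a => (u a - t) ^ 2 * w a)
        = fun a => (t * t) * w a + ((-2 * t) * (u a * w a) + u a ^ 2 * w a) := by
      funext a; ring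
    have h3 : ∫ a, (u a - t) ^ 2 * w a ∂μ
        = (∫ a, w a ∂μ) * (t * t) + (-2 * ∫ a, u a * w a ∂μ) * t + ∫ a, u a ^ 2 * w a ∂μ := by
      rw [e]
      have i1 : Integrable (fun a => (t * t) * w a) μ := h0.const_mul _
      have i2 : Integrable (fun a => (-2 * t) * (u a * w a)) μ := h1.const_mul _
      have i3 : Integrable (fun a => (-2 * t) * (u a * w a) + u a ^ 2 * w a) μ := i2.add h2
      rw [integral_add i1 i3, integral_add i2 h2, integral_const_mul, integral_const_mul]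
      ring
    rw [← h3]
    exact integral_nonneg fun a => mul_nonneg (sq_nonneg _) (hw a)
  have h := discrim_le_zero key
  unfold discrim at h
  nlinarith

/-! ## 2. The square of the norm as a real integral -/

theorem nsq_eq_h8 (F : Frame K) (φ : G K → ℂ) :
    nsq F φ = ∫ g in F.D, Complex.normSq (φ g) ∂F.μ := by
  unfold nsq pair
  have e : (fun g => φ g * (starRingEnd ℂ) (φ g))
      = fun g => ((Complex.normSq (φ g) : ℝ) : ℂ) := by
    funext g; rw [Complex.mul_conj]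
  rw [e, integral_complex_ofReal, Complex.ofReal_re]

/-! ## 3. The bound -/

/-- **T2.27.09** from the KEY LEMMA T2.27.00. -/
theorem subConvBddT_of_h8 (hT : SubTranslT291 K) : SubConvBddT291 K := by
  intro 𝔫 τ c R f hf
  obtain ⟨-, hlc, ht2, hsc⟩ := c.t1.locComp
  have := hlc
  have := ht2
  have := hsc
  have : BorelSpace (G K) := ⟨rfl⟩
  have := R.F.haar
  have : IsFiniteMeasure (R.F.μ.restrict R.F.D) := ⟨by
    rw [Measure.restrict_apply MeasurableSet.univ, Set.univ_inter]; exact R.F.fin⟩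
  have hfc : Continuous f := hf.test.cont
  have hfs : HasCompactSupport f := hf.test.cpt
  -- the weight `w = |f|`
  set w : G K → ℝ := fun h => ‖f h‖ with hw
  have hwc : Continuous w := hfc.norm
  have hws : HasCompactSupport w := hfs.norm
  have hw0 : ∀ h, 0 ≤ w h := fun h => norm_nonneg _
  have hwi : Integrable w R.F.μ := hwc.integrable_of_hasCompactSupport hws
  set L : ℝ := ∫ h, w h ∂(R.F.μ) with hL
  have hL0 : 0 ≤ L := integral_nonneg hw0
  refine ⟨L ^ 2, fun φ hφ => ?_⟩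
  obtain ⟨B, hB⟩ := hφ.aut.bdd
  have hψ : IsCuspT 𝔫 τ R.r (conv R.F f φ) := (c.cc R).2.2.1 f φ hf.test hφ
  obtain ⟨B', hB'⟩ := hψ.aut.bdd
  rw [nsq_eq_h8, nsq_eq_h8]
  set N : G K → ℝ := fun g => Complex.normSq (φ g) with hN
  have hNc : Continuous N := Complex.continuous_normSq.comp hφ.aut.cont
  have hN0 : ∀ g, 0 ≤ N g := fun g => Complex.normSq_nonneg _
  have hNB : ∀ g, N g ≤ B ^ 2 := by
    intro g
    show Complex.normSq (φ g) ≤ B ^ 2
    rw [Complex.normSq_eq_norm_sq]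
    exact pow_le_pow_left₀ (norm_nonneg _) (hB g) 2
  -- the function on the product
  set Fn : G K × G K → ℝ := fun p => N (p.1 * p.2) * w p.2 with hFn
  have hFnc : Continuous Fn :=
    (hNc.comp (continuous_fst.mul continuous_snd)).mul (hwc.comp continuous_snd)
  have hFni : Integrable Fn ((R.F.μ.restrict R.F.D).prod R.F.μ) := by
    have hb : Integrable (fun p : G K × G K => (fun _ : G K => B ^ 2) p.1 * w p.2)
        ((R.F.μ.restrict R.F.D).prod R.F.μ) :=
      Integrable.mul_prod (integrable_const _) hwi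
    refine hb.mono' hFnc.aestronglyMeasurable (Filter.Eventually.of_forall fun p => ?_)
    show ‖N (p.1 * p.2) * w p.2‖ ≤ B ^ 2 * w p.2
    rw [Real.norm_eq_abs, abs_of_nonneg (mul_nonneg (hN0 _) (hw0 _))]
    exact mul_le_mul_of_nonneg_right (hNB _) (hw0 _)
  -- the KEY LEMMA for `N`
  have hkey : ∀ h : G K, ∫ x in R.F.D, N (x * h) ∂(R.F.μ) = ∫ x in R.F.D, N x ∂(R.F.μ) := by
    intro h
    have h1 := hT c.t1 R (fun g => ((N g : ℝ) : ℂ))
      (fun γ g => by
        show ((Complex.normSq (φ (T1.ratG K γ * g)) : ℝ) : ℂ) = ((Complex.normSq (φ g) : ℝ) : ℂ)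
        rw [show φ (T1.ratG K γ * g) = φ g from hφ.aut.left_inv γ g])
      (fun g => by
        show ((Complex.normSq (φ (g * R.r)) : ℝ) : ℂ) = ((Complex.normSq (φ g) : ℝ) : ℂ)
        rw [hφ.aut.ray g]) h
    have h2 : ∫ g in R.F.D, ((N (g * h) : ℝ) : ℂ) ∂(R.F.μ)
        = ∫ g in R.F.D, ((N g : ℝ) : ℂ) ∂(R.F.μ) := h1
    rw [integral_complex_ofReal, integral_complex_ofReal] at h2
    exact Complex.ofReal_injective h2
  -- pointwise Cauchy--Schwarz
  have hpt : ∀ x : G K, Complex.normSq (conv R.F f φ x) ≤ L * ∫ h, Fn (x, h) ∂(R.F.μ) := by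
    intro x
    set u : G K → ℝ := fun h => ‖φ (x * h)‖ with hu
    have huc : Continuous u := (hφ.aut.cont.comp (continuous_const.mul continuous_id)).norm
    have i1 : Integrable (fun a => u a * w a) R.F.μ :=
      (huc.mul hwc).integrable_of_hasCompactSupport hws.mul_left
    have i2 : Integrable (fun a => u a ^ 2 * w a) R.F.μ :=
      ((huc.pow 2).mul hwc).integrable_of_hasCompactSupport hws.mul_left
    have hcs := sq_integral_mul_le_h8 R.F.μ u w hw0 hwi i1 i2
    have e2 : (fun a => u a ^ 2 * w a) = fun h => Fn (x, h) := by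
      funext a
      show ‖φ (x * a)‖ ^ 2 * w a = Complex.normSq (φ (x * a)) * w a
      rw [Complex.normSq_eq_norm_sq]
    rw [e2] at hcs
    have h3 : ‖conv R.F f φ x‖ ≤ ∫ a, u a * w a ∂(R.F.μ) := by
      unfold conv
      refine (norm_integral_le_integral_norm _).trans (le_of_eq ?_)
      refine integral_congr_ae (Filter.Eventually.of_forall fun a => ?_)
      show ‖φ (x * a) * f a‖ = ‖φ (x * a)‖ * ‖f a‖
      exact norm_mul _ _
    rw [Complex.normSq_eq_norm_sq]
    calc ‖conv R.F f φ x‖ ^ 2 ≤ (∫ a, u a * w a ∂(R.F.μ)) ^ 2 :=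
          pow_le_pow_left₀ (norm_nonneg _) h3 2
      _ ≤ L * ∫ h, Fn (x, h) ∂(R.F.μ) := hcs
  -- integrate over the domain
  have hJi : Integrable (fun x => ∫ h, Fn (x, h) ∂(R.F.μ)) (R.F.μ.restrict R.F.D) :=
    hFni.integral_prod_left
  have hψi : Integrable (fun x => Complex.normSq (conv R.F f φ x)) (R.F.μ.restrict R.F.D) := by
    refine Integrable.mono' (integrable_const (B' ^ 2))
      (Complex.continuous_normSq.comp hψ.aut.cont).aestronglyMeasurable
      (Filter.Eventually.of_forall fun x => ?_)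
    rw [Real.norm_eq_abs, abs_of_nonneg (Complex.normSq_nonneg _), Complex.normSq_eq_norm_sq]
    exact pow_le_pow_left₀ (norm_nonneg _) (hB' x) 2
  have hswap : ∫ x in R.F.D, (∫ h, Fn (x, h) ∂(R.F.μ)) ∂(R.F.μ)
      = (∫ x in R.F.D, N x ∂(R.F.μ)) * L := by
    have h1 := integral_integral_swap (μ := R.F.μ.restrict R.F.D) (ν := R.F.μ)
      (f := fun x h => Fn (x, h)) hFni
    rw [h1]
    have h2 : (fun h => ∫ x in R.F.D, Fn (x, h) ∂(R.F.μ))
        = fun h => (∫ x in R.F.D, N x ∂(R.F.μ)) * w h := by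
      funext h
      show ∫ x in R.F.D, N (x * h) * w h ∂(R.F.μ) = _
      rw [integral_mul_const, hkey h]
    rw [h2, integral_const_mul]
  calc ∫ g in R.F.D, Complex.normSq (conv R.F f φ g) ∂(R.F.μ)
      ≤ ∫ x in R.F.D, L * ∫ h, Fn (x, h) ∂(R.F.μ) ∂(R.F.μ) :=
        integral_mono hψi (hJi.const_mul L) hpt
    _ = L * ((∫ x in R.F.D, N x ∂(R.F.μ)) * L) := by rw [integral_const_mul, hswap]
    _ = L ^ 2 * ∫ g in R.F.D, Complex.normSq (φ g) ∂(R.F.μ) := by ring

end Fermat.Agent.LT.T2.H8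

end

end
-- ===== PACK-END LT/T2/H8/ConvBddT.lean

-- ===== PACK-BEGIN LT/T2/H904/CommMeanHeckeT.lean
section




/-!
# Row LT, tower T2, sub-leaf T2.27.17 `SubCommMeanHeckeT291` (helper904, registry row 1399)

OFF-MAIN.  Sub-spec: `LT/T2/H291/OpsSpecT.lean` of helper291 (byte-identical copy, sha256
c8359c85, with its copies of `LT/H556/A0.lean`, `LT/T1/Spec.lean`, `LT/T2/Spec.lean` v3,
`LT/T2/SpecTau.lean`).  Tools: `LT/T2/H314/CommCore.lean` of helper314 (byte-identical copy,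
sha256 faaf37d0; Mathlib + A0 only).

`subCommMeanHeckeT904 K : SubCommMeanHeckeT291 K` VERBATIM: the sphere means and the
`τ`-twisted circle means commute with the Hecke sums on the cusp functions of the class.  Used:
the continuity of the cusp function, `IsLocalAtFin v h` for the elements of the coset system, and
for the twisted circle mean the continuity of `τ` on the rotations (`IsKType.cont`) together with
`‖τ k‖ = 1` (`IsKType.norm_one`).  The elements at an infinite place commute with the elements at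
a finite place (`commute_inf_fin314`), and the integral of a finite sum of continuous functions
is the sum of the integrals.
-/

set_option autoImplicit false

open IsDedekindDomain NumberField MeasureTheory
open Fermat.Agent.LT.H556.A0
open Fermat.Agent.LT.T2

noncomputable section

namespace Fermat.Agent.LT.T2.H904

variable {K : Type} [Field K] [NumberField K]

/-! ## 1. The rotations are in the compact group -/

theorem rot_unitary904 (c s : ℝ) (h : c ^ 2 + s ^ 2 = 1) :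
    (!![(c : ℂ), -(s : ℂ); (s : ℂ), (c : ℂ)] : Matrix (Fin 2) (Fin 2) ℂ)
      * (!![(c : ℂ), -(s : ℂ); (s : ℂ), (c : ℂ)] : Matrix (Fin 2) (Fin 2) ℂ).conjTranspose
      = 1 := by
  have hcs : (c : ℂ) * (c : ℂ) + (s : ℂ) * (s : ℂ) = 1 := by
    have h2 : ((c ^ 2 + s ^ 2 : ℝ) : ℂ) = 1 := by
      rw [h]; simp
    push_cast at h2
    rw [← h2]; ring
  ext i j
  fin_cases i <;> fin_cases j
  · simp [Matrix.mul_apply, Fin.sum_univ_two, Matrix.conjTranspose_apply, Complex.conj_ofReal]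
    linear_combination hcs
  · simp [Matrix.mul_apply, Fin.sum_univ_two, Matrix.conjTranspose_apply, Complex.conj_ofReal]
    ring
  · simp [Matrix.mul_apply, Fin.sum_univ_two, Matrix.conjTranspose_apply, Complex.conj_ofReal]
    ring
  · simp [Matrix.mul_apply, Fin.sum_univ_two, Matrix.conjTranspose_apply, Complex.conj_ofReal]
    linear_combination hcs

theorem rot_det904 (c s : ℝ) (h : c ^ 2 + s ^ 2 = 1) :
    (!![(c : ℂ), -(s : ℂ); (s : ℂ), (c : ℂ)] : Matrix (Fin 2) (Fin 2) ℂ).det = 1 := by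
  have hcs : (c : ℂ) * (c : ℂ) + (s : ℂ) * (s : ℂ) = 1 := by
    have h2 : ((c ^ 2 + s ^ 2 : ℝ) : ℂ) = 1 := by
      rw [h]; simp
    push_cast at h2
    rw [← h2]; ring
  rw [Matrix.det_fin_two]
  simp
  linear_combination hcs

theorem rotY_mul_conjTranspose904 (θ : ℝ) : rotY θ * (rotY θ).conjTranspose = 1 :=
  rot_unitary904 _ _ (Real.cos_sq_add_sin_sq (θ / 2))

theorem rotY_det904 (θ : ℝ) : (rotY θ).det = 1 :=
  rot_det904 _ _ (Real.cos_sq_add_sin_sq (θ / 2))

/-- A rotation at `w` is in the compact group at `w`. -/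
theorem isArchCompact_of_isRotAt904 {w : InfinitePlace K} {k : ℝ → G K} (hk : IsRotAt w k)
    (θ : ℝ) : IsArchCompact w (k θ) := by
  refine ⟨(hk θ).1, ?_, fun _ => ?_⟩
  · rw [(hk θ).2]; exact rotY_mul_conjTranspose904 θ
  · rw [(hk θ).2]; exact rotY_det904 θ

/-- The parametrisation of the rotations at `w` is continuous. -/
theorem continuous_rot904 {w : InfinitePlace K} {k : ℝ → G K} (hk : IsRotAt w k) :
    Continuous k := by
  refine H314.continuous_of_localAtInf314 w _ (fun θ => (hk θ).1) fun i j => ?_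
  have : (fun θ : ℝ => infComp w (k θ) i j) = fun θ : ℝ => rotY θ i j := by
    funext θ
    rw [(hk θ).2]
  rw [this]
  exact (continuous_apply_apply i j).comp H314.continuous_rotY314

/-- A `K_∞`-type is continuous along the rotations, and so is its inverse. -/
theorem continuous_tau_inv904 {τ : G K → ℂ} (hτ : IsKType τ) {w : InfinitePlace K}
    {k : ℝ → G K} (hk : IsRotAt w k) : Continuous fun θ : ℝ => (τ (k θ))⁻¹ := by
  have h1 : Continuous fun θ : ℝ => τ (k θ) :=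
    (hτ.cont w).comp_continuous (continuous_rot904 hk) fun θ =>
      isArchCompact_of_isRotAt904 hk θ
  refine h1.inv₀ fun θ => ?_
  have := hτ.norm_one w (k θ) (isArchCompact_of_isRotAt904 hk θ)
  intro h0
  rw [h0, norm_zero] at this
  exact zero_ne_one this

/-! ## 2. The twisted circle mean of a finite sum of translates -/

/-- **Twisted circle means commute with finite sums of right translations by elements supported
at a finite place**, on every continuous function. -/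
theorem circleT_sum_comm904 {τ : G K → ℂ} (hτ : IsKType τ) {w : InfinitePlace K} {t : ℝ}
    {k : ℝ → G K} {a : G K} (hk : IsRotAt w k) (ha : IsTorusAt w t a)
    {v : HeightOneSpectrum (𝓞 K)} (H : Finset (G K)) (hH : ∀ h ∈ H, IsLocalAtFin v h)
    {φ : G K → ℂ} (hφ : Continuous φ) (g : G K) :
    (∫ θ in (0 : ℝ)..(2 * Real.pi), (τ (k θ))⁻¹ * ∑ h ∈ H, φ (g * k θ * a * h))
      = ∑ h ∈ H, ∫ θ in (0 : ℝ)..(2 * Real.pi), (τ (k θ))⁻¹ * φ (g * h * k θ * a) := by
  have hkc := continuous_rot904 hk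
  have hτc := continuous_tau_inv904 hτ hk
  have e1 : ∀ θ : ℝ, (τ (k θ))⁻¹ * ∑ h ∈ H, φ (g * k θ * a * h)
      = ∑ h ∈ H, (τ (k θ))⁻¹ * φ (g * h * k θ * a) := by
    intro θ
    rw [Finset.mul_sum]
    refine Finset.sum_congr rfl fun h hh => ?_
    have e : g * k θ * a * h = g * h * k θ * a := by
      rw [mul_assoc (g * k θ), H314.commute_inf_fin314 ha.1 (hH h hh), ← mul_assoc,
        mul_assoc g, H314.commute_inf_fin314 (hk θ).1 (hH h hh), ← mul_assoc]
    rw [e]
  simp only [e1]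
  refine intervalIntegral.integral_finsetSum fun h _ => ?_
  have hc : Continuous fun θ : ℝ => (τ (k θ))⁻¹ * φ (g * h * k θ * a) :=
    hτc.mul (hφ.comp ((continuous_const.mul hkc).mul continuous_const))
  exact hc.intervalIntegrable _ _

/-- A twisted circle mean commutes with a sum of right translations by elements supported at a
finite place, on every continuous function. -/
theorem commCircleTHecke904 {τ : G K → ℂ} (hτ : IsKType τ) {w : InfinitePlace K} {t : ℝ}
    {k : ℝ → G K} {a : G K} (hk : IsRotAt w k) (ha : IsTorusAt w t a)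
    {v : HeightOneSpectrum (𝓞 K)} (H : Finset (G K)) (hH : ∀ h ∈ H, IsLocalAtFin v h)
    {φ : G K → ℂ} (hφ : Continuous φ) :
    circleMeanT τ k a (heckeSum H φ) = heckeSum H (circleMeanT τ k a φ) := by
  funext g
  exact circleT_sum_comm904 hτ hk ha H hH hφ g

/-- A sphere mean commutes with a sum of right translations by elements supported at a finite
place, on every continuous function. -/
theorem commSphereHecke904 {w : InfinitePlace K} {d : ℝ} {Y : ℝ → ℝ → G K}
    (hY : IsSphereAt w d Y) {v : HeightOneSpectrum (𝓞 K)} (H : Finset (G K))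
    (hH : ∀ h ∈ H, IsLocalAtFin v h) {φ : G K → ℂ} (hφ : Continuous φ) :
    sphereMean Y (heckeSum H φ) = heckeSum H (sphereMean Y φ) := by
  funext g
  exact H314.sphere_sum_comm314 hY H hH hφ g

/-! ## 3. The sub-leaf -/

/-- **T2.27.17** `SubCommMeanHeckeT291`, VERBATIM. -/
theorem subCommMeanHeckeT904 (K : Type) [Field K] [NumberField K] :
    H291.SubCommMeanHeckeT291 K := by
  intro 𝔫 τ c R v _ H hH
  have hloc : ∀ h ∈ H, IsLocalAtFin v h := fun h hh => (hH.2.1 h hh).1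
  refine ⟨?_, ?_⟩
  · intro w _ d _ Y hY φ hφ
    exact commSphereHecke904 hY H hloc hφ.aut.cont
  · intro w _ t _ k a hk ha φ hφ
    exact commCircleTHecke904 c.kt hk ha H hloc hφ.aut.cont

end Fermat.Agent.LT.T2.H904

end

end
-- ===== PACK-END LT/T2/H904/CommMeanHeckeT.lean

-- ===== PACK-BEGIN LT/T2/H420/MeanLinT.lean
section



/-!
# Row LT, tower T2, leaf T2.27.14 `SubMeanLinT291` (helper420), OFF-MAIN

Sphere means and `τ`-twisted circle means are additive and homogeneous on the cusp functions of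
the class `IsCuspT 𝔫 τ r`.  UNCONDITIONAL.

The parametrisations `Y`, `k` are continuous (`locCont472`, helper472: a family supported at one
infinite place with continuous complex components is continuous), a cusp function is continuous,
the type `τ` is continuous on the compact group at the place (`IsKType.cont`) and does not vanish
there (`IsKType.norm_one`); so all the integrands are continuous, hence interval integrable, and
the inner integral of the sphere mean is a continuous function of the outer variable.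

Same proof as `T2.07.14` (helper546, `LT/T2/H546/MeanLin.lean`), with `τ` as a parameter.
Mathlib + A0 + `T2/Spec.lean` (v3) + `T2/SpecTau.lean` + `T2/H291/OpsSpecT.lean` +
`T2/H472/LocCont.lean` only.
-/

set_option autoImplicit false

open IsDedekindDomain NumberField MeasureTheory
open Fermat.Agent.LT.H556.A0
open Fermat.Agent.LT.T2 Fermat.Agent.LT.T2.H291

noncomputable section

namespace Fermat.Agent.LT.T2.H420

variable {K : Type} [Field K] [NumberField K]

/-- `θ ↦ rotZ θ` is continuous. -/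
theorem continuous_rotZ420 : Continuous fun α : ℝ => rotZ α := by
  unfold rotZ
  apply continuous_matrix
  intro i j
  fin_cases i <;> fin_cases j <;> simp <;> fun_prop

/-- `θ ↦ rotY θ` is continuous. -/
theorem continuous_rotY420 : Continuous fun β : ℝ => rotY β := by
  unfold rotY
  apply continuous_matrix
  intro i j
  fin_cases i <;> fin_cases j <;> simp <;> fun_prop

/-- The entries of `rotZ α * rotY β * torus d` are continuous in `(α, β)`. -/
theorem continuous_sphere_entry420 (d : ℝ) (i j : Fin 2) :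
    Continuous fun p : ℝ × ℝ => (rotZ p.1 * rotY p.2 * torus d) i j := by
  have h1 : Continuous fun p : ℝ × ℝ => rotZ p.1 := continuous_rotZ420.comp continuous_fst
  have h2 : Continuous fun p : ℝ × ℝ => rotY p.2 := continuous_rotY420.comp continuous_snd
  have h3 : Continuous fun p : ℝ × ℝ => rotZ p.1 * rotY p.2 * torus d :=
    (h1.matrix_mul h2).matrix_mul continuous_const
  exact h3.matrix_elem i j

/-- The parametrisation of a sphere is continuous. -/
theorem continuous_sphere420 {w : InfinitePlace K} {d : ℝ}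
    {Y : ℝ → ℝ → G K} (hY : IsSphereAt w d Y) :
    Continuous fun p : ℝ × ℝ => Y p.1 p.2 := by
  apply H472.locCont472 K w (ℝ × ℝ) (fun p : ℝ × ℝ => Y p.1 p.2) (fun p => (hY p.1 p.2).1)
  intro i j
  have : (fun p : ℝ × ℝ => infComp w (Y p.1 p.2) i j)
      = fun p : ℝ × ℝ => (rotZ p.1 * rotY p.2 * torus d) i j := by
    funext p
    rw [(hY p.1 p.2).2]
  rw [this]
  exact continuous_sphere_entry420 d i j

/-- The parametrisation of the rotations is continuous. -/
theorem continuous_rot420 {w : InfinitePlace K} {k : ℝ → G K} (hk : IsRotAt w k) :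
    Continuous k := by
  apply H472.locCont472 K w ℝ k (fun θ => (hk θ).1)
  intro i j
  have : (fun θ : ℝ => infComp w (k θ) i j) = fun θ : ℝ => (rotY θ) i j := by
    funext θ
    rw [(hk θ).2]
  rw [this]
  exact continuous_rotY420.matrix_elem i j

/-- A real rotation matrix is unitary. -/
theorem rot_unitary420 (c s : ℝ) (h : c * c + s * s = 1) :
    (!![(c : ℂ), -(s : ℂ); (s : ℂ), (c : ℂ)] : Matrix (Fin 2) (Fin 2) ℂ)
      * (!![(c : ℂ), -(s : ℂ); (s : ℂ), (c : ℂ)] : Matrix (Fin 2) (Fin 2) ℂ).conjTranspose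
      = 1 := by
  have hc : (c : ℂ) * (c : ℂ) + (s : ℂ) * (s : ℂ) = 1 := by exact_mod_cast h
  ext i j
  fin_cases i <;> fin_cases j <;>
    simp [Matrix.mul_apply, Fin.sum_univ_two, Matrix.conjTranspose_apply,
      Complex.conj_ofReal] <;>
    first
      | linear_combination hc
      | ring

/-- A real rotation matrix has determinant `1`. -/
theorem rot_det420 (c s : ℝ) (h : c * c + s * s = 1) :
    (!![(c : ℂ), -(s : ℂ); (s : ℂ), (c : ℂ)] : Matrix (Fin 2) (Fin 2) ℂ).det = 1 := by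
  have hc : (c : ℂ) * (c : ℂ) + (s : ℂ) * (s : ℂ) = 1 := by exact_mod_cast h
  rw [Matrix.det_fin_two_of]
  linear_combination hc

theorem cos_sin_half420 (θ : ℝ) :
    Real.cos (θ / 2) * Real.cos (θ / 2) + Real.sin (θ / 2) * Real.sin (θ / 2) = 1 := by
  have h := Real.cos_sq_add_sin_sq (θ / 2)
  nlinarith [h]

/-- `rotY θ` is unitary. -/
theorem rotY_mul_conjTranspose420 (θ : ℝ) : rotY θ * (rotY θ).conjTranspose = 1 :=
  rot_unitary420 _ _ (cos_sin_half420 θ)

/-- `det (rotY θ) = 1`. -/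
theorem det_rotY420 (θ : ℝ) : (rotY θ).det = 1 :=
  rot_det420 _ _ (cos_sin_half420 θ)

/-- The rotations lie in the compact group at the place. -/
theorem isArchCompact_rot420 {w : InfinitePlace K} {k : ℝ → G K} (hk : IsRotAt w k) (θ : ℝ) :
    IsArchCompact w (k θ) := by
  refine ⟨(hk θ).1, ?_, fun _ => ?_⟩
  · rw [(hk θ).2]
    exact rotY_mul_conjTranspose420 θ
  · rw [(hk θ).2]
    exact det_rotY420 θ

/-- `θ ↦ τ(k_θ)⁻¹` is continuous. -/
theorem continuous_type_rot420 {τ : G K → ℂ} (hτ : IsKType τ) {w : InfinitePlace K}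
    {k : ℝ → G K} (hk : IsRotAt w k) : Continuous fun θ : ℝ => (τ (k θ))⁻¹ := by
  have h1 : Continuous fun θ : ℝ => τ (k θ) :=
    (hτ.cont w).comp_continuous (continuous_rot420 hk) (fun θ => isArchCompact_rot420 hk θ)
  refine h1.inv₀ fun θ h0 => ?_
  have h2 := hτ.norm_one w (k θ) (isArchCompact_rot420 hk θ)
  rw [h0, norm_zero] at h2
  exact zero_ne_one h2

/-- The integrand of the sphere mean is continuous in `(α, β)`. -/
theorem continuous_sphere_integrand420 {Y : ℝ → ℝ → G K}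
    (hY : Continuous fun p : ℝ × ℝ => Y p.1 p.2) {φ : G K → ℂ} (hφ : Continuous φ) (g : G K) :
    Continuous (Function.uncurry fun α β : ℝ => φ (g * Y α β) * ((Real.sin β : ℝ) : ℂ)) := by
  have h1 : Continuous fun p : ℝ × ℝ => φ (g * Y p.1 p.2) :=
    hφ.comp (continuous_const.mul hY)
  have h2 : Continuous fun p : ℝ × ℝ => ((Real.sin p.2 : ℝ) : ℂ) := by fun_prop
  exact h1.mul h2

/-- Additivity and homogeneity of an interval integral of continuous functions. -/
theorem intervalIntegral_lin420 {f₁ f₂ : ℝ → ℂ} (h1 : Continuous f₁) (h2 : Continuous f₂)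
    (c : ℂ) (a b : ℝ) :
    (∫ x in a..b, (f₁ x + c * f₂ x)) = (∫ x in a..b, f₁ x) + c * ∫ x in a..b, f₂ x := by
  have h2' : Continuous fun x => c * f₂ x := continuous_const.mul h2
  rw [intervalIntegral.integral_add (h1.intervalIntegrable a b) (h2'.intervalIntegrable a b),
    intervalIntegral.integral_const_mul]

/-- The sphere mean is additive and homogeneous on the continuous functions. -/
theorem sphereMean_lin420 {Y : ℝ → ℝ → G K} (hY : Continuous fun p : ℝ × ℝ => Y p.1 p.2)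
    {φ ψ : G K → ℂ} (hφ : Continuous φ) (hψ : Continuous ψ) (c : ℂ) :
    sphereMean Y (fun g => φ g + c * ψ g) = fun g => sphereMean Y φ g + c * sphereMean Y ψ g := by
  funext g
  have hcφ := continuous_sphere_integrand420 hY hφ g
  have hcψ := continuous_sphere_integrand420 hY hψ g
  obtain ⟨Fφ, hFφ⟩ : ∃ F : ℝ → ℝ → ℂ,
      F = fun α β : ℝ => φ (g * Y α β) * ((Real.sin β : ℝ) : ℂ) := ⟨_, rfl⟩
  obtain ⟨Fψ, hFψ⟩ : ∃ F : ℝ → ℝ → ℂ,
      F = fun α β : ℝ => ψ (g * Y α β) * ((Real.sin β : ℝ) : ℂ) := ⟨_, rfl⟩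
  rw [← hFφ] at hcφ
  rw [← hFψ] at hcψ
  have e1 : sphereMean Y (fun g => φ g + c * ψ g) g
      = ∫ α in (0 : ℝ)..(2 * Real.pi), ∫ β in (0 : ℝ)..Real.pi, (Fφ α β + c * Fψ α β) := by
    unfold sphereMean
    rw [hFφ, hFψ]
    congr 1
    funext α
    congr 1
    funext β
    ring
  have e2 : sphereMean Y φ g = ∫ α in (0 : ℝ)..(2 * Real.pi), ∫ β in (0 : ℝ)..Real.pi, Fφ α β := by
    unfold sphereMean
    rw [hFφ]
  have e3 : sphereMean Y ψ g = ∫ α in (0 : ℝ)..(2 * Real.pi), ∫ β in (0 : ℝ)..Real.pi, Fψ α β := by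
    unfold sphereMean
    rw [hFψ]
  rw [e1, e2, e3]
  have hin : ∀ α : ℝ, (∫ β in (0 : ℝ)..Real.pi, (Fφ α β + c * Fψ α β))
      = (∫ β in (0 : ℝ)..Real.pi, Fφ α β) + c * ∫ β in (0 : ℝ)..Real.pi, Fψ α β := by
    intro α
    exact intervalIntegral_lin420 (hcφ.comp (Continuous.prodMk_right α))
      (hcψ.comp (Continuous.prodMk_right α)) c 0 Real.pi
  have hin' : (fun α : ℝ => ∫ β in (0 : ℝ)..Real.pi, (Fφ α β + c * Fψ α β))
      = fun α : ℝ => (∫ β in (0 : ℝ)..Real.pi, Fφ α β) + c * ∫ β in (0 : ℝ)..Real.pi, Fψ α β :=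
    funext hin
  rw [hin']
  have hoφ : Continuous fun α : ℝ => ∫ β in (0 : ℝ)..Real.pi, Fφ α β :=
    intervalIntegral.continuous_parametric_intervalIntegral_of_continuous' hcφ 0 Real.pi
  have hoψ : Continuous fun α : ℝ => ∫ β in (0 : ℝ)..Real.pi, Fψ α β :=
    intervalIntegral.continuous_parametric_intervalIntegral_of_continuous' hcψ 0 Real.pi
  exact intervalIntegral_lin420 hoφ hoψ c 0 (2 * Real.pi)

/-- The `τ`-twisted circle mean is additive and homogeneous on the continuous functions. -/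
theorem circleMeanT_lin420 {τ : G K → ℂ} {k : ℝ → G K} (a : G K) (hk : Continuous k)
    (hτ : Continuous fun θ : ℝ => (τ (k θ))⁻¹)
    {φ ψ : G K → ℂ} (hφ : Continuous φ) (hψ : Continuous ψ) (c : ℂ) :
    circleMeanT τ k a (fun g => φ g + c * ψ g)
      = fun g => circleMeanT τ k a φ g + c * circleMeanT τ k a ψ g := by
  funext g
  have h1 : Continuous fun θ : ℝ => (τ (k θ))⁻¹ * φ (g * k θ * a) :=
    hτ.mul (hφ.comp ((continuous_const.mul hk).mul continuous_const))
  have h2 : Continuous fun θ : ℝ => (τ (k θ))⁻¹ * ψ (g * k θ * a) :=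
    hτ.mul (hψ.comp ((continuous_const.mul hk).mul continuous_const))
  have e1 : circleMeanT τ k a (fun g => φ g + c * ψ g) g
      = ∫ θ in (0 : ℝ)..(2 * Real.pi),
          ((τ (k θ))⁻¹ * φ (g * k θ * a) + c * ((τ (k θ))⁻¹ * ψ (g * k θ * a))) := by
    unfold circleMeanT
    congr 1
    funext θ
    ring
  rw [e1]
  exact intervalIntegral_lin420 h1 h2 c 0 (2 * Real.pi)

/-- **T2.27.14 `SubMeanLinT291`**, unconditional. -/
theorem subMeanLinT420 (K : Type) [Field K] [NumberField K] : SubMeanLinT291 K := by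
  intro 𝔫 τ hctx R
  refine ⟨?_, ?_⟩
  · intro w _ d _ Y hY φ ψ c hφ hψ
    exact sphereMean_lin420 (continuous_sphere420 hY) hφ.aut.cont hψ.aut.cont c
  · intro w _ t _ k a hk _ φ ψ c hφ hψ
    exact circleMeanT_lin420 a (continuous_rot420 hk) (continuous_type_rot420 hctx.kt hk)
      hφ.aut.cont hψ.aut.cont c

end Fermat.Agent.LT.T2.H420

end

end
-- ===== PACK-END LT/T2/H420/MeanLinT.lean

-- ===== PACK-BEGIN LT/T2/H907/Level.lean
section




/-!
# Row LT, tower T2, leaf T2.06 (helper907): the finite level condition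

`Pfin907 𝔫 g`: the finite components of `g` lie in the local level groups `U(𝔫)_v`.  It is the
membership in a subgroup which is open and closed in `GL₂(𝔸_K)` (for `𝔫 ≠ 0`).
-/

set_option autoImplicit false
set_option linter.unusedSectionVars false

open IsDedekindDomain NumberField Matrix
open scoped MatrixGroups Classical

noncomputable section

namespace Fermat.Agent.LT.T2.H907

open Fermat.Agent.LT.H556.A0 Fermat.Agent.LT.T8.H864 Fermat.Agent.LT.H51.MS4

variable {K : Type} [Field K] [NumberField K]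

/-! ## The closure of the ideal -/

theorem idealClosure_add907 (𝔫 : Ideal (𝓞 K)) (v : HeightOneSpectrum (𝓞 K))
    {x y : v.adicCompletion K} (hx : x ∈ idealClosure 𝔫 v) (hy : y ∈ idealClosure 𝔫 v) :
    x + y ∈ idealClosure 𝔫 v := by
  unfold idealClosure at hx hy ⊢
  refine map_mem_closure₂ continuous_add hx hy ?_
  rintro _ ⟨a, ha, rfl⟩ _ ⟨b, hb, rfl⟩
  exact ⟨a + b, 𝔫.add_mem ha hb, by simp⟩

theorem idealClosure_mul907 (𝔫 : Ideal (𝓞 K)) (v : HeightOneSpectrum (𝓞 K))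
    {x y : v.adicCompletion K} (hx : x ∈ idealClosure 𝔫 v) (hy : y ∈ idealClosure 𝔫 v) :
    x * y ∈ idealClosure 𝔫 v := by
  unfold idealClosure at hx hy ⊢
  refine map_mem_closure₂ continuous_mul hx hy ?_
  rintro _ ⟨a, ha, rfl⟩ _ ⟨b, hb, rfl⟩
  exact ⟨a * b, 𝔫.mul_mem_left a hb, by simp⟩

theorem idealClosure_subset_integers907 (𝔫 : Ideal (𝓞 K)) (v : HeightOneSpectrum (𝓞 K))
    {x : v.adicCompletion K} (hx : x ∈ idealClosure 𝔫 v) : x ∈ v.adicCompletionIntegers K := by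
  unfold idealClosure at hx
  have hcl : IsClosed ((v.adicCompletionIntegers K : Set (v.adicCompletion K))) :=
    Valued.isClosed_valuationSubring (v.adicCompletion K)
  refine closure_minimal ?_ hcl hx
  rintro _ ⟨a, -, rfl⟩
  rw [SetLike.mem_coe, HeightOneSpectrum.mem_adicCompletionIntegers, _root_.Fermat.Agent.LT.H51.MS4.valued_algebraMap]
  exact v.valuation_le_one a

/-! ## The local level group is a group -/

theorem locLevel_mul907 {𝔫 : Ideal (𝓞 K)} {v : HeightOneSpectrum (𝓞 K)}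
    {m m' : GL (Fin 2) (v.adicCompletion K)} (hm : LocLevel 𝔫 v m) (hm' : LocLevel 𝔫 v m') :
    LocLevel 𝔫 v (m * m') := by
  have key : ∀ A B : Matrix (Fin 2) (Fin 2) (v.adicCompletion K),
      (∀ i j, (A - 1) i j ∈ idealClosure 𝔫 v) → (∀ i j, (B - 1) i j ∈ idealClosure 𝔫 v) →
      ∀ i j, (A * B - 1) i j ∈ idealClosure 𝔫 v := by
    intro A B hA hB i j
    have e : A * B - 1 = (A - 1) * (B - 1) + (A - 1) + (B - 1) := by
      rw [Matrix.sub_mul, Matrix.mul_sub, Matrix.mul_sub, Matrix.mul_one, Matrix.one_mul,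
        Matrix.one_mul]
      abel
    rw [e, Matrix.add_apply, Matrix.add_apply, Matrix.mul_apply, Fin.sum_univ_two]
    exact idealClosure_add907 𝔫 v (idealClosure_add907 𝔫 v
      (idealClosure_add907 𝔫 v (idealClosure_mul907 𝔫 v (hA i 0) (hB 0 j))
        (idealClosure_mul907 𝔫 v (hA i 1) (hB 1 j))) (hA i j)) (hB i j)
  intro i j
  refine ⟨key _ _ (fun i j => (hm i j).1) (fun i j => (hm' i j).1) i j, ?_⟩
  rw [_root_.mul_inv_rev]
  exact key _ _ (fun i j => (hm' i j).2) (fun i j => (hm i j).2) i j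

theorem locLevel_inv907 {𝔫 : Ideal (𝓞 K)} {v : HeightOneSpectrum (𝓞 K)}
    {m : GL (Fin 2) (v.adicCompletion K)} (hm : LocLevel 𝔫 v m) : LocLevel 𝔫 v m⁻¹ := by
  intro i j
  refine ⟨(hm i j).2, ?_⟩
  rw [inv_inv]
  exact (hm i j).1

/-! ## The global condition -/

/-- The finite components of `g` lie in the level group. -/
def Pfin907 (𝔫 : Ideal (𝓞 K)) (g : G K) : Prop :=
  ∀ v : HeightOneSpectrum (𝓞 K), LocLevel 𝔫 v (finCompHom v g)

theorem pfin907_one (𝔫 : Ideal (𝓞 K)) : Pfin907 𝔫 (1 : G K) := fun v => by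
  rw [map_one]; exact locLevel_one 𝔫 v

theorem pfin907_mul {𝔫 : Ideal (𝓞 K)} {g h : G K} (hg : Pfin907 𝔫 g) (hh : Pfin907 𝔫 h) :
    Pfin907 𝔫 (g * h) := fun v => by
  rw [map_mul]; exact locLevel_mul907 (hg v) (hh v)

theorem pfin907_inv {𝔫 : Ideal (𝓞 K)} {g : G K} (hg : Pfin907 𝔫 g) : Pfin907 𝔫 g⁻¹ := fun v => by
  rw [map_inv]; exact locLevel_inv907 (hg v)

theorem pfin907_inv_iff {𝔫 : Ideal (𝓞 K)} {g : G K} : Pfin907 𝔫 g⁻¹ ↔ Pfin907 𝔫 g :=
  ⟨fun h => by simpa using pfin907_inv h, pfin907_inv⟩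

theorem pfin907_mul_right_iff {𝔫 : Ideal (𝓞 K)} {g h : G K} (hh : Pfin907 𝔫 h) :
    Pfin907 𝔫 (g * h) ↔ Pfin907 𝔫 g :=
  ⟨fun H => by simpa using pfin907_mul H (pfin907_inv hh), fun H => pfin907_mul H hh⟩

theorem pfin907_mul_left_iff {𝔫 : Ideal (𝓞 K)} {g h : G K} (hh : Pfin907 𝔫 h) :
    Pfin907 𝔫 (h * g) ↔ Pfin907 𝔫 g :=
  ⟨fun H => by simpa using pfin907_mul (pfin907_inv hh) H, fun H => pfin907_mul hh H⟩

theorem pfin907_of_inLevelGroup {𝔫 : Ideal (𝓞 K)} {u : G K} (hu : InLevelGroup 𝔫 u) :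
    Pfin907 𝔫 u :=
  ((inLevelGroup_iff 𝔫 u).1 hu).2

theorem pfin907_of_trivAtFin {𝔫 : Ideal (𝓞 K)} {h : G K}
    (hh : ∀ v : HeightOneSpectrum (𝓞 K), TrivAtFin v h) : Pfin907 𝔫 h := fun v => by
  rw [(trivAtFin_iff_hom v h).1 (hh v)]; exact locLevel_one 𝔫 v

/-- The level subgroup (finite components only). -/
def levelSubgroup907 (𝔫 : Ideal (𝓞 K)) : Subgroup (G K) where
  carrier := {g | Pfin907 𝔫 g}
  mul_mem' := fun hg hh => pfin907_mul hg hh
  one_mem' := pfin907_one 𝔫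
  inv_mem' := fun hg => pfin907_inv hg

theorem mem_levelSubgroup907 {𝔫 : Ideal (𝓞 K)} {g : G K} :
    g ∈ levelSubgroup907 𝔫 ↔ Pfin907 𝔫 g := Iff.rfl

/-! ## Openness -/

theorem snd_one_apply907 (v : HeightOneSpectrum (𝓞 K)) (i j : Fin 2) :
    ((1 : Matrix (Fin 2) (Fin 2) (Adl K)) i j).2 v
      = (1 : Matrix (Fin 2) (Fin 2) (v.adicCompletion K)) i j := by
  by_cases h : i = j
  · subst h
    rw [Matrix.one_apply_eq, Matrix.one_apply_eq]
    rfl
  · rw [Matrix.one_apply_ne h, Matrix.one_apply_ne h]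
    rfl

theorem snd_sub_one_apply907 (g : G K) (v : HeightOneSpectrum (𝓞 K)) (i j : Fin 2) :
    (((g : Matrix (Fin 2) (Fin 2) (Adl K)) i j).2
        - ((1 : Matrix (Fin 2) (Fin 2) (Adl K)) i j).2) v
      = ((finCompHom v g : Matrix (Fin 2) (Fin 2) (v.adicCompletion K)) - 1) i j := by
  rw [coe_finCompHom, Matrix.sub_apply, ← snd_one_apply907 v i j]
  rfl

/-- The finite adeles all of whose components have valuation at most that of `n₀`. -/
def smallSet907 (n₀ : 𝓞 K) : Set (FiniteAdeleRing (𝓞 K) K) :=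
  {x | ∀ v : HeightOneSpectrum (𝓞 K),
    Valued.v (x v) ≤ v.valuation K (algebraMap (𝓞 K) K n₀)}

theorem isOpen_smallSet907 {n₀ : 𝓞 K} (hn₀ : n₀ ≠ 0) : IsOpen (smallSet907 (K := K) n₀) := by
  have hk0 : (algebraMap (𝓞 K) K n₀) ≠ 0 := by
    rw [Ne, FaithfulSMul.algebraMap_eq_zero_iff]
    exact hn₀
  set a : FiniteAdeleRing (𝓞 K) K :=
    algebraMap K (FiniteAdeleRing (𝓞 K) K) (algebraMap (𝓞 K) K n₀)⁻¹ with ha
  have hopen : IsOpen {f : FiniteAdeleRing (𝓞 K) K |
      ∀ v : HeightOneSpectrum (𝓞 K), f v ∈ v.adicCompletionIntegers K} :=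
    RestrictedProduct.isOpen_forall_mem
      (fun v => Valued.isOpen_valuationSubring (v.adicCompletion K))
  have hcont : Continuous fun x : FiniteAdeleRing (𝓞 K) K => a * x :=
    continuous_const.mul continuous_id
  have hset : smallSet907 (K := K) n₀ = (fun x : FiniteAdeleRing (𝓞 K) K => a * x) ⁻¹'
      {f | ∀ v : HeightOneSpectrum (𝓞 K), f v ∈ v.adicCompletionIntegers K} := by
    ext x
    simp only [smallSet907, Set.mem_ofPred_eq, Set.mem_preimage]
    refine forall_congr' fun v => ?_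
    have hav : (a * x) v = algebraMap K (v.adicCompletion K) (algebraMap (𝓞 K) K n₀)⁻¹ * x v := by
      rfl
    rw [HeightOneSpectrum.mem_adicCompletionIntegers, hav, map_mul, _root_.Fermat.Agent.LT.H51.MS4.valued_algebraMap, map_inv₀]
    have hv0 : v.valuation K (algebraMap (𝓞 K) K n₀) ≠ 0 := by
      rw [Ne, map_eq_zero]; exact hk0
    rw [inv_mul_le_iff₀ (zero_lt_iff.mpr hv0), mul_one]
  rw [hset]
  exact hopen.preimage hcont

theorem isOpen_pfin907 {𝔫 : Ideal (𝓞 K)} (h𝔫 : 𝔫 ≠ ⊥) : IsOpen {g : G K | Pfin907 𝔫 g} := by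
  obtain ⟨n₀, hn₀, hn₀'⟩ := Submodule.exists_mem_ne_zero_of_ne_bot h𝔫
  have hsnd : ∀ i j : Fin 2, Continuous fun g : G K =>
      ((g : Matrix (Fin 2) (Fin 2) (Adl K)) i j).2
        - ((1 : Matrix (Fin 2) (Fin 2) (Adl K)) i j).2 := fun i j =>
    (continuous_snd.comp (continuous_entry907 i j)).sub continuous_const
  have hsnd' : ∀ i j : Fin 2, Continuous fun g : G K =>
      (((g⁻¹ : G K) : Matrix (Fin 2) (Fin 2) (Adl K)) i j).2
        - ((1 : Matrix (Fin 2) (Fin 2) (Adl K)) i j).2 := fun i j =>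
    (continuous_snd.comp ((continuous_entry907 i j).comp continuous_inv)).sub continuous_const
  set W : Set (G K) := {g | ∀ i j : Fin 2,
      (((g : Matrix (Fin 2) (Fin 2) (Adl K)) i j).2
        - ((1 : Matrix (Fin 2) (Fin 2) (Adl K)) i j).2) ∈ smallSet907 (K := K) n₀ ∧
      ((((g⁻¹ : G K) : Matrix (Fin 2) (Fin 2) (Adl K)) i j).2
        - ((1 : Matrix (Fin 2) (Fin 2) (Adl K)) i j).2) ∈ smallSet907 (K := K) n₀} with hW
  have hWopen : IsOpen W := by
    have : W = ⋂ i : Fin 2, ⋂ j : Fin 2,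
        ((fun g : G K => ((g : Matrix (Fin 2) (Fin 2) (Adl K)) i j).2
          - ((1 : Matrix (Fin 2) (Fin 2) (Adl K)) i j).2) ⁻¹' smallSet907 (K := K) n₀) ∩
        ((fun g : G K => (((g⁻¹ : G K) : Matrix (Fin 2) (Fin 2) (Adl K)) i j).2
          - ((1 : Matrix (Fin 2) (Fin 2) (Adl K)) i j).2) ⁻¹' smallSet907 (K := K) n₀) := by
      ext g
      simp only [hW, Set.mem_ofPred_eq, Set.mem_iInter, Set.mem_inter_iff, Set.mem_preimage]
    rw [this]
    exact isOpen_iInter_of_finite fun i => isOpen_iInter_of_finite fun j =>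
      ((isOpen_smallSet907 hn₀').preimage (hsnd i j)).inter
        ((isOpen_smallSet907 hn₀').preimage (hsnd' i j))
  have hW1 : (1 : G K) ∈ W := by
    intro i j
    constructor
    · rw [Units.val_one, sub_self]
      intro v
      change Valued.v (0 : v.adicCompletion K) ≤ _
      rw [map_zero]
      exact zero_le
    · rw [inv_one, Units.val_one, sub_self]
      intro v
      change Valued.v (0 : v.adicCompletion K) ≤ _
      rw [map_zero]
      exact zero_le
  have hWsub : W ⊆ {g : G K | Pfin907 𝔫 g} := by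
    intro g hg v
    refine locLevel_of_near v hn₀ fun i j => ⟨?_, ?_⟩
    · rw [← snd_sub_one_apply907]
      exact (hg i j).1 v
    · rw [← map_inv, ← snd_sub_one_apply907]
      exact (hg i j).2 v
  have hnhds : ((levelSubgroup907 𝔫 : Subgroup (G K)) : Set (G K)) ∈ nhds (1 : G K) :=
    Filter.mem_of_superset (hWopen.mem_nhds hW1) hWsub
  exact Subgroup.isOpen_of_mem_nhds (levelSubgroup907 𝔫) hnhds

theorem isClosed_pfin907 {𝔫 : Ideal (𝓞 K)} (h𝔫 : 𝔫 ≠ ⊥) : IsClosed {g : G K | Pfin907 𝔫 g} :=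
  Subgroup.isClosed_of_isOpen (levelSubgroup907 𝔫) (isOpen_pfin907 h𝔫)

/-! ## Integrality -/

theorem pfin907_integral {𝔫 : Ideal (𝓞 K)} {g : G K} (hg : Pfin907 𝔫 g)
    (v : HeightOneSpectrum (𝓞 K)) (i j : Fin 2) :
    finComp v g i j ∈ v.adicCompletionIntegers K := by
  have h1 := idealClosure_subset_integers907 𝔫 v (hg v i j).1
  rw [coe_finCompHom] at h1
  have h2 : finComp v g i j = (finComp v g - 1) i j
      + (1 : Matrix (Fin 2) (Fin 2) (v.adicCompletion K)) i j := by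
    rw [Matrix.sub_apply, sub_add_cancel]
  rw [h2]
  exact add_mem h1 (one_apply_mem_integers v i j)

end Fermat.Agent.LT.T2.H907

end

end
-- ===== PACK-END LT/T2/H907/Level.lean

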