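import Mathlib
import Fermat.Agent.Pack.LT3.E10L1
import Fermat.Agent.Pack.LT3.E8L0
import Fermat.Agent.Pack.LT3.E8L3
import Fermat.Agent.Pack.LT3.E11L2
import Fermat.Agent.Pack.LT2.E6L2
import Fermat.Agent.Pack.LT2.E0L2
import Fermat.Agent.Pack.LT2.E2L1
import Fermat.Agent.Pack.LT2.E5L3
import Fermat.Agent.Pack.LT2.E5L0
import Fermat.Agent.Pack.LT2.E6L0
import Fermat.Agent.Pack.LT3.E11L0
import Fermat.Agent.Pack.LT3.E5L3
import Fermat.Agent.Pack.LT3.E11L1
import Fermat.Agent.Pack.LT2.E6L1
import Fermat.Agent.Pack.LT2.E8L2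
import Fermat.Agent.Pack.LT3.E13L2

set_option linter.all false

-- ===== PACK-BEGIN LT/H129/HcZReg.lean
section


/-!
# Row LT, tower T6, leaf T6.21.2 `H830.HcZRegC` (SPARE of registry row 1637; helper129) -- OFF-MAIN

    hcZRegC129 : T6.H830.HcZRegC        (VERBATIM, UNCONDITIONAL)

`hcZ f r = ∫_ζ ∫_x f (bR ζ r x)` is a parametric integral of a continuous function with compact
support in `(r, ζ, x)` (`MelFubini.lean`: `continuous_bR129`, `exists_box_of_isCompact129`).
No weight, no smoothness is used.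
-/

set_option autoImplicit false

open scoped Matrix
open MeasureTheory

noncomputable section

namespace Fermat.Agent.LT.H129

open Fermat.Agent.LT.T6 Fermat.Agent.LT.T6.H830

/-- `hcZ f` is continuous with compact support, for every continuous `f` with compact support. -/
theorem hcZReg129 (f : GL (Fin 2) ℝ → ℂ) (hf : Continuous f) (hfs : HasCompactSupport f) :
    Continuous (hcZ f) ∧ HasCompactSupport (hcZ f) := by
  obtain ⟨L, D, hbox⟩ := exists_box_of_isCompact129 (tsupport f) hfs
  -- vanishing outside the box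
  have hzero : ∀ ζ r x : ℝ, ¬ (ζ ∈ Set.Icc (-L) L ∧ r ∈ Set.Icc (-L) L ∧ x ∈ Set.Icc (-D) D) →
      f (bR ζ r x) = 0 := by
    intro ζ r x h
    by_contra hne
    exact h (hbox ζ r x (subset_tsupport f hne))
  set s : Set (ℝ × ℝ) := Set.Icc (-L) L ×ˢ Set.Icc (-D) D with hs
  have hsc : IsCompact s := isCompact_Icc.prod isCompact_Icc
  set F : ℝ → ℝ × ℝ → ℂ := fun r p => f (bR p.1 r p.2) with hF
  have hFc : Continuous (Function.uncurry F) := by
    have h1 : Continuous (fun q : ℝ × (ℝ × ℝ) => ((q.2.1, q.1), q.2.2)) := by fun_prop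
    exact hf.comp (continuous_bR129.comp h1)
  -- `hcZ f r` as an integral over the compact box
  have hval : ∀ r : ℝ, hcZ f r = ∫ p in s, F r p ∂((volume : Measure ℝ).prod (volume : Measure ℝ)) := by
    intro r
    have hFr : Continuous (F r) := hFc.comp (Continuous.prodMk_right r)
    have hFrs : HasCompactSupport (F r) := by
      refine HasCompactSupport.intro hsc ?_
      intro p hp
      apply hzero
      intro h
      exact hp ⟨h.1, h.2.2⟩
    have hFri : Integrable (F r) ((volume : Measure ℝ).prod (volume : Measure ℝ)) :=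
      hFr.integrable_of_hasCompactSupport hFrs
    have h1 : hcZ f r = ∫ p, F r p ∂((volume : Measure ℝ).prod (volume : Measure ℝ)) := by
      rw [integral_prod _ hFri]
      rfl
    rw [h1]
    symm
    apply setIntegral_eq_integral_of_forall_compl_eq_zero
    intro p hp
    apply hzero
    intro h
    exact hp ⟨h.1, h.2.2⟩
  constructor
  · have hc := continuous_parametric_integral_of_continuous
      (μ := (volume : Measure ℝ).prod (volume : Measure ℝ)) hFc hsc
    have e : hcZ f = fun r => ∫ p in s, F r p ∂((volume : Measure ℝ).prod (volume : Measure ℝ)) :=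
      funext hval
    rw [e]
    exact hc
  · refine HasCompactSupport.intro (K := Set.Icc (-L) L) isCompact_Icc ?_
    intro r hr
    simp only [hcZ, hcR]
    have h0 : ∀ ζ : ℝ, (∫ x : ℝ, f (bR ζ r x)) = 0 := by
      intro ζ
      have : (fun x : ℝ => f (bR ζ r x)) = fun _ => (0 : ℂ) := by
        funext x
        apply hzero
        intro h
        exact hr h.2.1
      rw [this]
      simp
    simp [h0]

/-- **T6.21.2 HCZ-REG** (`H830.HcZRegC` VERBATIM). -/
theorem hcZRegC129 : HcZRegC := fun _ _ f hf => hcZReg129 f hf.cont hf.supp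

end Fermat.Agent.LT.H129

end

end
-- ===== PACK-END LT/H129/HcZReg.lean

-- ===== PACK-BEGIN LT/T6/H830/HCClosed2.lean
section





/-!
# Row LT, tower T6, station T6.29 `ArchSpec`: INTEGRATION v2 (helper830)

OFF-MAIN.  All leaves of the cut are closed except the Iwasawa integration formula (T6.23):

| leaf | owner | file |
|---|---|---|
| `SphAvgAtC` | helper510@cbc35879d | `T6/H510/SphAvgAt.lean` |
| `EisIntRC` | helper131@cd50da6542 | `T6/H131/EisInt.lean` |
| `IwasawaIntCC ⟸ H189.U2HaarC + H189.IwasawaCC` | helper682@b8fd091ac | `T6/H682/IwasawaIntC.lean` |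
| the others | see `HCClosed.lean` | |

* `archSpecC_of_iwasawa830 : IwasawaIntRC → IwasawaIntCC → ArchSpecC`;
* `hcTransRC_of_iwasawa830 : IwasawaIntRC → HCTransRC` (used by the cut of T6.21);
* `archSpecC_of_189_830 : IwasawaIntRC → H189.U2HaarC → H189.IwasawaCC → ArchSpecC`.
-/

set_option autoImplicit false

noncomputable section

namespace Fermat.Agent.LT.T6.H830

open Fermat.Agent.LT.T6

/-- The real side is closed up to the Iwasawa formula. -/
theorem hcTransRC_of_iwasawa830 (hIR : IwasawaIntRC) : HCTransRC :=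
  hcTransR_of_leaves830 (H162.sphAvgOfC162 H543.cartanRC_h543 H510.sphAvgAtC_h510)
    H131.eisIntRC_h131 H309.eisIwRC309 hIR

/-- **T6.29 from the Iwasawa integration formulas.** -/
theorem archSpecC_of_iwasawa830 (hIR : IwasawaIntRC) (hIC : IwasawaIntCC) : ArchSpecC :=
  archSpecC_of_open830 hIR hIC H510.sphAvgAtC_h510 H131.eisIntRC_h131

/-- **T6.20c from the Iwasawa integration formulas.** -/
theorem specRelC626_of_iwasawa830 (hIR : IwasawaIntRC) (hIC : IwasawaIntCC) :
    H626.SpecRelC626 :=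
  specRelC626_of_archSpec830 (archSpecC_of_iwasawa830 hIR hIC)

/-- **T6.29 from the Props of T6.23** (complex side through the adapter of helper682). -/
theorem archSpecC_of_189_830 (hIR : IwasawaIntRC) (hU : H189.U2HaarC) (hIC : H189.IwasawaCC) :
    ArchSpecC :=
  archSpecC_of_iwasawa830 hIR (H682.iwasawaIntCC_of189 hU hIC)

end Fermat.Agent.LT.T6.H830

end

end
-- ===== PACK-END LT/T6/H830/HCClosed2.lean

-- ===== PACK-BEGIN LT/H670/QOut/ApiInf.lean
section


/-!
# Row LT, T7.QOUT (helper670): API at the real place -- Iwasawa decomposition, slash formula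

OFF-MAIN.  Proved lemmas only.

* `iwasawa` : for `m ∈ GL₂(ℝ)`, `det m > 0`:
  `m * gzMat z = gzMat (m • z) * scalR ‖cz+d‖ * kTheta θ`, `e^{iθ} = ‖cz+d‖ / (cz+d)`.
* `slash_formula` : for `γ ∈ GL₂(ℚ)`, `det γ > 0`, `g` trivial at the real place:
  `famFn φ ((finPart γ)⁻¹ * g) z = √(det γ) * (famFn φ g ∣[1] toReal γ) z`.
-/

set_option autoImplicit false

open IsDedekindDomain NumberField AutomorphicForm
open UpperHalfPlane ModularForm
open scoped MatrixGroups ModularForm

noncomputable section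

namespace Fermat.Agent.LT.H670.QOut

open Fermat.Agent.LT.H556

theorem val_gzMat (z : ℍ) :
    ((gzMat z : GL (Fin 2) ℝ) : Matrix (Fin 2) (Fin 2) ℝ) = !![z.im, z.re; 0, 1] := rfl

theorem val_kTheta (θ : ℝ) :
    ((kTheta θ : GL (Fin 2) ℝ) : Matrix (Fin 2) (Fin 2) ℝ)
      = !![Real.cos θ, Real.sin θ; -Real.sin θ, Real.cos θ] := rfl

theorem val_scalR (r : ℝ) (hr : 0 < r) :
    ((scalR r hr : GL (Fin 2) ℝ) : Matrix (Fin 2) (Fin 2) ℝ) = !![r, 0; 0, r] := rfl

/-- **Iwasawa decomposition** of `m g_z`. -/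
theorem iwasawa (m : GL (Fin 2) ℝ) (hdet : 0 < m.det.val) (z : ℍ) :
    ∃ (r : ℝ) (hr : 0 < r) (θ : ℝ),
      m * gzMat z = gzMat (m • z) * scalR r hr * kTheta θ ∧
      r = ‖denom m z‖ ∧
      Complex.exp (Complex.I * ((θ : ℝ) : ℂ)) * denom m z = ((r : ℝ) : ℂ) := by
  set w : ℂ := denom m z with hw
  have hw0 : w ≠ 0 := denom_ne_zero m z
  have hr : 0 < ‖w‖ := norm_pos_iff.mpr hw0
  have hcos : Real.cos (-Complex.arg w) = w.re / ‖w‖ := by
    rw [Real.cos_neg, Complex.cos_arg hw0]
  have hsin : Real.sin (-Complex.arg w) = -(w.im / ‖w‖) := by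
    rw [Real.sin_neg, Complex.sin_arg]
  have hwre : w.re = m 1 0 * z.re + m 1 1 := by
    simp [hw, denom, Complex.add_re, Complex.mul_re]
  have hwim : w.im = m 1 0 * z.im := by
    simp [hw, denom, Complex.add_im, Complex.mul_im]
  -- the complex identity `z' w = a z + b`
  have hz' : ((m • z : ℍ) : ℂ) * w = num m z := by
    rw [coe_smul_of_det_pos hdet, hw, div_mul_cancel₀ _ hw0]
  have hre := congrArg Complex.re hz'
  have him := congrArg Complex.im hz'
  simp only [Complex.mul_re, Complex.mul_im, num, Complex.add_re, Complex.add_im,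
    Complex.ofReal_re, Complex.ofReal_im, UpperHalfPlane.coe_re, UpperHalfPlane.coe_im,
    zero_mul, sub_zero, add_zero] at hre him
  refine ⟨‖w‖, hr, -Complex.arg w, ?_, rfl, ?_⟩
  · apply Units.ext
    have hne : ‖w‖ ≠ 0 := hr.ne'
    ext i j
    rw [Units.val_mul, Units.val_mul, Units.val_mul, val_gzMat, val_gzMat, val_scalR, val_kTheta,
      hcos, hsin]
    fin_cases i <;> fin_cases j <;>
      simp [Matrix.mul_apply, Fin.sum_univ_two] <;> field_simp <;> linarith
  · have h := Complex.norm_mul_exp_arg_mul_I w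
    have e : Complex.exp (Complex.I * (((-Complex.arg w : ℝ)) : ℂ)) * w
        = Complex.exp (Complex.I * (((-Complex.arg w : ℝ)) : ℂ)) *
          (((‖w‖ : ℝ) : ℂ) * Complex.exp ((Complex.arg w : ℂ) * Complex.I)) := by
      rw [h]
    rw [e, mul_left_comm, ← Complex.exp_add]
    have : Complex.I * (((-Complex.arg w : ℝ)) : ℂ) + (Complex.arg w : ℂ) * Complex.I = 0 := by
      push_cast; ring
    rw [this, Complex.exp_zero, mul_one]

theorem famFn_apply (φ : A0.G ℚ → ℂ) (g : A0.G ℚ) (z : ℍ) :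
    famFn φ g z = (((Real.sqrt z.im : ℝ) : ℂ))⁻¹ * φ (locInf (gzMat z) * g) := rfl

theorem sqrt_im_ne_zero (z : ℍ) : ((Real.sqrt z.im : ℝ) : ℂ) ≠ 0 := by
  have : Real.sqrt z.im ≠ 0 := (Real.sqrt_pos.mpr z.im_pos).ne'
  exact_mod_cast this

/-- **Slash formula**: left translation by a rational matrix of positive determinant. -/
theorem slash_formula (φ : A0.G ℚ → ℂ)
    (hleft : ∀ (γ : GL (Fin 2) ℚ) (g : A0.G ℚ), φ (diagQ γ * g) = φ g)
    (hscal : ∀ (r : ℝ) (hr : 0 < r) (g : A0.G ℚ), φ (g * locInf (scalR r hr)) = φ g)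
    (hwt : ∀ (θ : ℝ) (g : A0.G ℚ),
      φ (g * locInf (kTheta θ)) = Complex.exp (Complex.I * ((θ : ℝ) : ℂ)) * φ g)
    (γ : GL (Fin 2) ℚ) (hdet : 0 < (toReal γ).det.val) (g : A0.G ℚ)
    (hg : ∀ w : InfinitePlace ℚ, A0.TrivAtInf w g) (z : ℍ) :
    famFn φ ((finPart γ)⁻¹ * g) z
      = ((Real.sqrt (toReal γ).det.val : ℝ) : ℂ) * ((famFn φ g) ∣[(1 : ℤ)] toReal γ) z := by
  set m := toReal γ with hm
  obtain ⟨r, hr, θ, hiw, hrn, hexp⟩ := iwasawa m hdet z
  set z' := m • z with hz'
  have hw0 : denom m z ≠ 0 := denom_ne_zero m z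
  -- the group identity
  have hfin := trivAtInf_inv (trivAtInf_finPart γ)
  have hkey : φ (locInf (gzMat z') * g) * Complex.exp (Complex.I * ((θ : ℝ) : ℂ))
      = φ (locInf (gzMat z) * ((finPart γ)⁻¹ * g)) := by
    have h1 : locInf (gzMat z') * g * locInf (scalR r hr) * locInf (kTheta θ)
        = diagQ γ * ((finPart γ)⁻¹ * (locInf (gzMat z) * g)) := by
      rw [diagQ_eq γ, ← hm]
      have e1 : locInf (gzMat z') * g * locInf (scalR r hr) * locInf (kTheta θ)
          = locInf (gzMat z' * scalR r hr * kTheta θ) * g := by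
        rw [map_mul, map_mul, mul_assoc (locInf (gzMat z')) g, ← locInf_comm _ hg,
          mul_assoc (locInf (gzMat z')), mul_assoc (locInf (scalR r hr)), ← locInf_comm _ hg]
        simp only [mul_assoc]
      rw [e1, ← hiw, map_mul]
      simp only [mul_assoc]
      rw [mul_inv_cancel_left]
    have h2 := hwt θ (locInf (gzMat z') * g * locInf (scalR r hr))
    rw [h1, hleft, hscal] at h2
    rw [mul_comm, ← h2, ← mul_assoc, ← mul_assoc, ← locInf_comm _ hfin]
  -- the analytic identity
  have hσ : UpperHalfPlane.σ m = ContinuousAlgEquiv.refl ℝ ℂ := by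
    rw [UpperHalfPlane.σ, if_pos hdet]
  have him : z'.im = m.det.val * z.im / r ^ 2 := by
    rw [hz', UpperHalfPlane.im_smul_eq_div_normSq, abs_of_pos hdet, hrn, Complex.sq_norm]
  have hsqrt : Real.sqrt z'.im = Real.sqrt m.det.val * Real.sqrt z.im / r := by
    rw [him, Real.sqrt_div (mul_nonneg hdet.le z.im_pos.le), Real.sqrt_sq hr.le,
      Real.sqrt_mul hdet.le]
  rw [ModularForm.slash_apply, hσ, famFn_apply, famFn_apply, ← hkey, hsqrt]
  have hrC : ((r : ℝ) : ℂ) ≠ 0 := by exact_mod_cast hr.ne'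
  have hyC := sqrt_im_ne_zero z
  have hdC : ((Real.sqrt m.det.val : ℝ) : ℂ) ≠ 0 := by
    have : Real.sqrt m.det.val ≠ 0 := (Real.sqrt_pos.mpr hdet).ne'
    exact_mod_cast this
  have hexp' : Complex.exp (Complex.I * ((θ : ℝ) : ℂ)) = ((r : ℝ) : ℂ) / denom m z := by
    rw [eq_div_iff hw0, hexp]
  rw [hexp']
  simp only [ContinuousAlgEquiv.refl_apply, sub_self, zpow_zero, mul_one, zpow_neg, zpow_one]
  push_cast
  field_simp
  rfl

end Fermat.Agent.LT.H670.QOut

end

end
-- ===== PACK-END LT/H670/QOut/ApiInf.lean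

-- ===== PACK-BEGIN LT/T2/H981/ConvAdjT.lean
section




/-!
# Row LT, tower T2: the adjoint of `conv F f`, CORE form and `T`-form (helper981)

OFF-MAIN.  Asset for `T2.22 LeafT02` (`ConvCuspT`, clause 5) of `Fermat/Agent/LT/T2/SpecTau.lean`
(helper130@e2e090185, sha256 `4d2b0fc2…`).

* `convAdj_core981`: for a frame `F`, a central `z` with `‖det z‖_𝔸 = 2`, `f` continuous with
  compact support and `φ`, `ψ` continuous, bounded, left invariant under `GL₂(K)` and invariant
  under `z`: `pair F (conv F f φ) ψ = pair F φ (conv F (adj f) ψ)`.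
* `ray_central981`, `ray_nrm981`: a ray generator (`IsRayGen`) is central of module `2`.
* `convAdjT_981`: clause 5 of `ConvCuspT K 𝔫 τ`, for every `τ` (no hypothesis on `τ`).
-/

set_option autoImplicit false

open IsDedekindDomain NumberField MeasureTheory AutomorphicForm
open Fermat.Agent.LT.H556.A0
open Fermat.Agent.LT

noncomputable section

namespace Fermat.Agent.LT.T2.H981

variable {K : Type} [Field K] [NumberField K]

attribute [local instance] Fermat.Agent.LT.T2.borelG

/-- A function left invariant under `GL₂(K)` and invariant under the central `z` is left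
invariant under `GL₂(K) · z^ℤ`. -/
theorem inv_delta_core981 {φ : G K → ℂ}
    (hΓ : ∀ (γ : GL (Fin 2) K) (g : G K), φ (T1.ratG K γ * g) = φ g)
    (z : G K) (hz : ∀ g : G K, z * g = g * z) (h1 : ∀ g : G K, φ (g * z) = φ g)
    (δ : delta981 z hz) (g : G K) :
    φ ((δ : G K) * g) = φ g := by
  obtain ⟨δ, γ, m, rfl⟩ := δ
  change φ (T1.ratG K γ * z ^ m * g) = φ g
  have h2 : ∀ x : G K, φ (x * z⁻¹) = φ x := by
    intro x
    have := h1 (x * z⁻¹)
    rw [inv_mul_cancel_right] at this
    exact this.symm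
  have hnat : ∀ (n : ℕ) (x : G K), φ (x * z ^ n) = φ x := by
    intro n
    induction n with
    | zero => intro x; rw [pow_zero, mul_one]
    | succ n ih => intro x; rw [pow_succ, ← mul_assoc, h1, ih]
  have hnat' : ∀ (n : ℕ) (x : G K), φ (x * (z⁻¹) ^ n) = φ x := by
    intro n
    induction n with
    | zero => intro x; rw [pow_zero, mul_one]
    | succ n ih => intro x; rw [pow_succ, ← mul_assoc, h2, ih]
  have hint : ∀ (k : ℤ) (x : G K), φ (x * z ^ k) = φ x := by
    intro k x
    cases k with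
    | ofNat n => simpa using hnat n x
    | negSucc n =>
      rw [zpow_negSucc, ← inv_pow]
      exact hnat' (n + 1) x
  have hc : z ^ m * g = g * z ^ m := Commute.zpow_left (hz g) m
  rw [mul_assoc, hc, hΓ, hint]

/-- **CORE**: the adjoint of `conv F f` is `conv F (adj f)` on the continuous bounded functions
which are left invariant under `GL₂(K)` and invariant under a central `z` of module `2`. -/
theorem convAdj_core981 (hLC : T1.LocCompC K) (hN : T1.AdNormC K) (F : Frame K) (z : G K)
    (hzc : ∀ g : G K, z * g = g * z) (hz2 : nrm981 z = 2) (f φ ψ : G K → ℂ)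
    (hfc : Continuous f) (hfs : HasCompactSupport f)
    (hφc : Continuous φ) (hφb : ∃ C : ℝ, ∀ g : G K, ‖φ g‖ ≤ C)
    (hφΓ : ∀ (γ : GL (Fin 2) K) (g : G K), φ (T1.ratG K γ * g) = φ g)
    (hφz : ∀ g : G K, φ (g * z) = φ g)
    (hψc : Continuous ψ) (hψb : ∃ C : ℝ, ∀ g : G K, ‖ψ g‖ ≤ C)
    (hψΓ : ∀ (γ : GL (Fin 2) K) (g : G K), ψ (T1.ratG K γ * g) = ψ g)
    (hψz : ∀ g : G K, ψ (g * z) = ψ g) :
    pair F (conv F f φ) ψ = pair F φ (conv F (adj f) ψ) := by
  obtain ⟨-, hLC', hT2, hSC⟩ := hLC
  have := hLC'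
  have := hT2
  have := hSC
  have : BorelSpace (G K) := ⟨rfl⟩
  have := F.haar
  have := countable_delta981 z hzc
  have : IsFiniteMeasure (F.μ.restrict F.D) :=
    ⟨by rw [Measure.restrict_apply_univ]; exact F.fin⟩
  set Φ : G K × G K → ℂ := fun p => φ p.2 * f (p.1⁻¹ * p.2) * (starRingEnd ℂ) (ψ p.1) with hΦ
  -- invariance
  have hΦinv : ∀ (δ : delta981 z hzc) (x y : G K),
      Φ ((δ : G K) * x, (δ : G K) * y) = Φ (x, y) := by
    intro δ x y
    simp only [hΦ]
    rw [inv_delta_core981 hφΓ z hzc hφz δ y, inv_delta_core981 hψΓ z hzc hψz δ x]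
    congr 3
    group
  -- continuity, bounds
  have hΦcont : Continuous Φ := by
    simp only [hΦ]
    have h1 : Continuous fun p : G K × G K => φ p.2 := hφc.comp continuous_snd
    have h2 : Continuous fun p : G K × G K => f (p.1⁻¹ * p.2) :=
      hfc.comp ((continuous_inv.comp continuous_fst).mul continuous_snd)
    have h3 : Continuous fun p : G K × G K => (starRingEnd ℂ) (ψ p.1) :=
      Complex.continuous_conj.comp (hψc.comp continuous_fst)
    exact (h1.mul h2).mul h3
  obtain ⟨Cφ, hCφ⟩ := hφb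
  obtain ⟨Cψ, hCψ⟩ := hψb
  have hCφ0 : 0 ≤ Cφ := le_trans (norm_nonneg _) (hCφ 1)
  have hfint : Integrable f F.μ := hfc.integrable_of_hasCompactSupport hfs
  -- integrability on `D × G`
  have hint : IntegrableOn Φ (F.D ×ˢ (Set.univ : Set (G K))) (F.μ.prod F.μ) := by
    unfold IntegrableOn
    rw [← Measure.prod_restrict, Measure.restrict_univ]
    have hg0 : Integrable (fun p : G K × G K => Cφ * Cψ * ‖f p.2‖)
        ((F.μ.restrict F.D).prod F.μ) :=
      ((hfint.norm.const_mul (Cφ * Cψ)).comp_snd (F.μ.restrict F.D))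
    have hS := measurePreserving_prod_inv_mul (F.μ.restrict F.D) F.μ
    have hg1 : Integrable ((fun p : G K × G K => Cφ * Cψ * ‖f p.2‖) ∘
        (fun z : G K × G K => (z.1, z.1⁻¹ * z.2))) ((F.μ.restrict F.D).prod F.μ) :=
      (hS.integrable_comp hg0.aestronglyMeasurable).2 hg0
    refine hg1.mono' hΦcont.aestronglyMeasurable (Filter.Eventually.of_forall fun p => ?_)
    simp only [hΦ, Function.comp_apply]
    rw [norm_mul, norm_mul, RCLike.norm_conj]
    calc ‖φ p.2‖ * ‖f (p.1⁻¹ * p.2)‖ * ‖ψ p.1‖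
        ≤ Cφ * ‖f (p.1⁻¹ * p.2)‖ * Cψ := by
          apply mul_le_mul _ (hCψ _) (norm_nonneg _)
          · exact mul_nonneg hCφ0 (norm_nonneg _)
          · exact mul_le_mul_of_nonneg_right (hCφ _) (norm_nonneg _)
      _ = Cφ * Cψ * ‖f (p.1⁻¹ * p.2)‖ := by ring
  have key := unfold981 F.μ (delta981 z hzc) F.D F.meas
    (strict981 hN F z hzc hz2) Φ hΦinv hint
  -- the two sides
  have hL : pair F (conv F f φ) ψ = ∫ x in F.D, ∫ y, Φ (x, y) ∂F.μ ∂F.μ := by
    unfold pair conv
    refine integral_congr_ae (Filter.Eventually.of_forall fun x => ?_)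
    simp only [hΦ]
    rw [integral_mul_const]
    congr 1
    have := integral_mul_left_eq_self (μ := F.μ) (fun y => φ y * f (x⁻¹ * y)) x
    rw [← this]
    refine integral_congr_ae (Filter.Eventually.of_forall fun h => ?_)
    simp only [inv_mul_cancel_left]
  have hR : pair F φ (conv F (adj f) ψ) = ∫ y in F.D, ∫ x, Φ (x, y) ∂F.μ ∂F.μ := by
    unfold pair conv adj
    refine integral_congr_ae (Filter.Eventually.of_forall fun x => ?_)
    simp only [hΦ]
    rw [← integral_conj, ← integral_const_mul]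
    have := integral_mul_left_eq_self (μ := F.μ)
      (fun y => φ x * f (y⁻¹ * x) * (starRingEnd ℂ) (ψ y)) x
    rw [← this]
    refine integral_congr_ae (Filter.Eventually.of_forall fun h => ?_)
    simp only [mul_inv_rev, inv_mul_cancel_right, map_mul, Complex.conj_conj]
    ring
  rw [hL, hR, key]

/-! ## Ray generators -/

/-- The matrix of a ray generator is the scalar matrix of an adele `c` with `c_w = t` at the
infinite places and `c_v = 1` at the finite places. -/
theorem ray_scalar981 {r : G K} (hr : IsRayGen r) :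
    ∃ (c : Adl K) (t : ℝ), 0 < t ∧ t ^ (2 * Module.finrank ℚ K) = 2 ∧
      (r : Matrix (Fin 2) (Fin 2) (Adl K)) = Matrix.scalar (Fin 2) c ∧
      (∀ w : InfinitePlace K, InfinitePlace.Completion.extensionEmbedding w (c.1 w) = (t : ℂ)) ∧
      ∀ v : HeightOneSpectrum (𝓞 K), c.2 v = 1 := by
  obtain ⟨hfin, t, ht, ht2, hinf⟩ := hr
  have hI : ∀ (w : InfinitePlace K) (i j : Fin 2),
      InfinitePlace.Completion.extensionEmbedding w
        (((r : Matrix (Fin 2) (Fin 2) (Adl K)) i j).1 w) = if i = j then (t : ℂ) else 0 := by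
    intro w i j
    have := congrFun (congrFun (hinf w) i) j
    rw [Matrix.diagonal_apply] at this
    exact this
  have hF : ∀ (v : HeightOneSpectrum (𝓞 K)) (i j : Fin 2),
      ((r : Matrix (Fin 2) (Fin 2) (Adl K)) i j).2 v
        = (1 : Matrix (Fin 2) (Fin 2) (v.adicCompletion K)) i j := by
    intro v i j
    exact congrFun (congrFun (hfin v) i) j
  refine ⟨(r : Matrix (Fin 2) (Fin 2) (Adl K)) 0 0, t, ht, ht2, ?_, ?_, ?_⟩
  · funext i j
    rw [Matrix.scalar_apply, Matrix.diagonal_apply]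
    by_cases hij : i = j
    · rw [if_pos hij]
      subst hij
      refine Prod.ext ?_ ?_
      · funext w
        apply (InfinitePlace.Completion.extensionEmbedding w).injective
        rw [hI, hI, if_pos rfl, if_pos rfl]
      · apply RestrictedProduct.ext
        intro v
        have a := hF v i i
        have b := hF v 0 0
        rw [Matrix.one_apply_eq] at a b
        exact a.trans b.symm
    · rw [if_neg hij]
      refine Prod.ext ?_ ?_
      · funext w
        apply (InfinitePlace.Completion.extensionEmbedding w).injective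
        rw [hI, if_neg hij]
        exact (map_zero _).symm
      · apply RestrictedProduct.ext
        intro v
        have a := hF v i j
        rw [Matrix.one_apply_ne hij] at a
        exact a
  · intro w
    rw [hI, if_pos rfl]
  · intro v
    rw [hF, Matrix.one_apply_eq]

/-- A ray generator is central. -/
theorem ray_central981 {r : G K} (hr : IsRayGen r) (g : G K) : r * g = g * r := by
  obtain ⟨c, t, -, -, hc, -, -⟩ := ray_scalar981 hr
  ext : 1
  rw [Units.val_mul, Units.val_mul, hc, Matrix.scalar_comm _ (Commute.all _)]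

/-- A ray generator has module `2`. -/
theorem ray_nrm981 {r : G K} (hr : IsRayGen r) : nrm981 r = 2 := by
  obtain ⟨c, t, ht, ht2, hc, hcI, hcF⟩ := ray_scalar981 hr
  unfold nrm981 T1.adNorm
  have hdet : Matrix.det (r : Matrix (Fin 2) (Fin 2) (Adl K)) = c * c := by
    rw [hc, Matrix.det_fin_two]
    simp [Matrix.scalar_apply]
  rw [hdet]
  have h1 : (∏ᶠ v : HeightOneSpectrum (𝓞 K), ‖(c * c).2 v‖) = 1 := by
    have : ∀ v : HeightOneSpectrum (𝓞 K), ‖(c * c).2 v‖ = 1 := by
      intro v
      have h : (c * c).2 v = c.2 v * c.2 v := rfl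
      rw [h, hcF, mul_one, norm_one]
    simp only [this]
    exact finprod_one
  rw [h1, mul_one]
  have h2 : ∀ w : InfinitePlace K, ‖(c * c).1 w‖ = t ^ 2 := by
    intro w
    have h : (c * c).1 w = c.1 w * c.1 w := rfl
    have hn : ‖c.1 w‖ = t := by
      have h := (InfinitePlace.Completion.isometry_extensionEmbedding w).norm_map_of_map_zero
        (map_zero _) (c.1 w)
      rw [← h, hcI, Complex.norm_real, Real.norm_eq_abs, abs_of_pos ht]
    rw [h, norm_mul, hn, pow_two]
  simp only [h2]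
  rw [Finset.prod_pow_eq_pow_sum, InfinitePlace.sum_mult_eq, ← pow_mul, ht2]

/-- **Clause 5 of `ConvCuspT`** (class of T5): the adjoint of `conv R.F f` on the automorphic
functions of the class `(𝔫, τ, r)` is `conv R.F (adj f)`. -/
theorem convAdjT_981 (hT1 : T1.T1Out K) (𝔫 : Ideal (𝓞 K)) (τ : G K → ℂ) (R : FrameR K)
    (f φ ψ : G K → ℂ) (hf : IsTestT 𝔫 τ f) (hφ : IsAutT 𝔫 τ R.r φ) (hψ : IsAutT 𝔫 τ R.r ψ) :
    pair R.F (conv R.F f φ) ψ = pair R.F φ (conv R.F (adj f) ψ) :=
  convAdj_core981 hT1.locComp hT1.adNorm R.F R.r (ray_central981 R.ray) (ray_nrm981 R.ray)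
    f φ ψ hf.cont hf.cpt hφ.cont hφ.bdd hφ.left_inv hφ.ray hψ.cont hψ.bdd hψ.left_inv hψ.ray

end Fermat.Agent.LT.T2.H981

end
end
-- ===== PACK-END LT/T2/H981/ConvAdjT.lean

-- ===== PACK-BEGIN LT/T2/H291/TranslT.lean
section










/-!
# Row LT, tower T2, sub-leaf T2.27.00 (helper291): THE KEY LEMMA, ray form

OFF-MAIN.  `translT291`: for ANY function `Φ` on `GL₂(𝔸_K)` which is left invariant under
`GL₂(K)` and right invariant under the ray generator `r` (`T2.IsRayGen r`), and for any frame `F`,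
`∫_D Φ(g h) dμ(g) = ∫_D Φ(g) dμ(g)` for every `h ∈ GL₂(𝔸_K)`.

Proof.  `r` is central and `‖det r‖ = 2`, so the domain `D` of a frame (a strict fundamental
domain of `GL₂(K)` in the slab `1 ≤ ‖det‖ < 2`) is a fundamental domain of the countable group
`GL₂(K) × ℤ` acting on `GL₂(𝔸_K)` by `(γ, m) • g = γ g r^m`, for the Haar measure itself; `D h` is
another one; `IsFundamentalDomain.setIntegral_eq`.

Hypotheses used: `T1.AdNormC K` and `T1.UnimodC K` only.  Assets (byte-identical copies):
helper919 `LT/T1/H919/SiegelTools.lean`, helper558 `LT/T1/H558/FundDom.lean`, helper129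
`LT/H129/{Comp,Local}.lean`, helper429 `LT/T2/H429/Loc.lean`.  The elementary facts on the
determinant module are those of helper429 `LT/T2/H429/Transl.lean` (same proofs, names `…T291`).

`subTranslT291 : SubTranslT291 K` closes the registry row T2.27.00.
-/

set_option autoImplicit false
set_option linter.style.haveILetI false
set_option linter.unusedSectionVars false

open IsDedekindDomain NumberField MeasureTheory
open Fermat.Agent.LT.H556.A0
open Fermat.Agent.LT.H129
open Fermat.Agent.LT.T2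
open Fermat.Agent.LT.T2.H429

noncomputable section

namespace Fermat.Agent.LT.T2.H291

variable {K : Type} [Field K] [NumberField K]

attribute [local instance] Fermat.Agent.LT.T2.borelG

/-! ## 1. Countability, the determinant module -/

theorem countable_fieldT291 (K : Type) [Field K] [NumberField K] : Countable K := by
  have e : K ≃ₗ[ℚ] (Fin (Module.finrank ℚ K) → ℚ) := (Module.finBasis ℚ K).equivFun
  exact e.toEquiv.injective.countable

theorem countable_glT291 (K : Type) [Field K] [NumberField K] : Countable (GL (Fin 2) K) := by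
  haveI := countable_fieldT291 K
  have hinj : Function.Injective
      (fun γ : GL (Fin 2) K => (γ : Matrix (Fin 2) (Fin 2) K)) := fun a b h => Units.ext h
  haveI : Countable (Matrix (Fin 2) (Fin 2) K) := by
    unfold Matrix
    infer_instance
  exact hinj.countable

theorem borelSpace_GT291 (K : Type) [Field K] [NumberField K] : BorelSpace (G K) := ⟨rfl⟩

/-- The determinant module `g ↦ ‖det g‖_𝔸`. -/
def dnT291 (g : G K) : ℝ := T1.adNorm K (Matrix.det (g : Matrix (Fin 2) (Fin 2) (Adl K)))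

theorem mem_slab_iffT291 (g : G K) : g ∈ T1.slab K ↔ 1 ≤ dnT291 g ∧ dnT291 g < 2 := Iff.rfl

theorem dn_mulT291 (hN : T1.AdNormC K) (g h : G K) :
    dnT291 (g * h) = dnT291 g * dnT291 h := by
  obtain ⟨-, hmul, -, -⟩ := hN
  have h1 : Matrix.det ((g * h : G K) : Matrix (Fin 2) (Fin 2) (Adl K))
      = ((Matrix.GeneralLinearGroup.det g * Matrix.GeneralLinearGroup.det h :
          (Adl K)ˣ) : Adl K) := by
    rw [Units.val_mul, Matrix.det_mul, Units.val_mul]
    rfl
  unfold dnT291
  rw [h1, hmul]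
  rfl

theorem dn_posT291 (hN : T1.AdNormC K) (g : G K) : 0 < dnT291 g :=
  hN.1 (Matrix.GeneralLinearGroup.det g)

theorem dn_oneT291 (hN : T1.AdNormC K) : dnT291 (1 : G K) = 1 := by
  have h := dn_mulT291 hN (1 : G K) 1
  rw [mul_one] at h
  have hp := dn_posT291 hN (1 : G K)
  nlinarith

theorem dn_invT291 (hN : T1.AdNormC K) (g : G K) : dnT291 g⁻¹ = (dnT291 g)⁻¹ := by
  have h := dn_mulT291 hN g g⁻¹
  rw [mul_inv_cancel, dn_oneT291 hN] at h
  have hp := dn_posT291 hN g
  field_simp
  linarith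

theorem dn_ratGT291 (hN : T1.AdNormC K) (γ : GL (Fin 2) K) (g : G K) :
    dnT291 (T1.ratG K γ * g) = dnT291 g :=
  T1.H558.adNorm_det_ratG_mul558 K hN γ g

/-- The determinant module as a homomorphism to the positive reals (as units). -/
theorem dn_zpowT291 (hN : T1.AdNormC K) (g : G K) (n : ℤ) :
    dnT291 (g ^ n) = dnT291 g ^ n := by
  induction n using Int.induction_on with
  | zero => simp [dn_oneT291 hN]
  | succ n ih =>
    rw [zpow_add_one, dn_mulT291 hN, ih, zpow_add_one₀ (dn_posT291 hN g).ne']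
  | pred n ih =>
    rw [zpow_sub_one, dn_mulT291 hN, ih, dn_invT291 hN, zpow_sub_one₀ (dn_posT291 hN g).ne']

/-! ## 2. The ray generator: central, of determinant module `2` -/

/-- The scalar matrix of the real number `s` at every infinite place, `1` at the finite
places. -/
def zposT291 (K : Type) [Field K] [NumberField K] (s : ℝˣ) : G K :=
  T1.H919.scalarG919 (Units.map (T1.H919.rayAdl919 K) s)

theorem zposT291_val (s : ℝˣ) :
    ((zposT291 K s : G K) : Matrix (Fin 2) (Fin 2) (Adl K))
      = Matrix.diagonal (fun _ => T1.H919.rayAdl919 K (s : ℝ)) :=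
  T1.H919.scalarG919_val _

theorem finComp_zposT291 (s : ℝˣ) (v : HeightOneSpectrum (𝓞 K)) :
    finComp v (zposT291 K s) = 1 := by
  refine Matrix.ext fun i j => ?_
  show (((zposT291 K s : G K) : Matrix (Fin 2) (Fin 2) (Adl K)) i j).2 v
    = (1 : Matrix (Fin 2) (Fin 2) (v.adicCompletion K)) i j
  rw [zposT291_val]
  by_cases hij : i = j
  · subst hij
    rw [Matrix.diagonal_apply_eq, Matrix.one_apply_eq]
    rfl
  · rw [Matrix.diagonal_apply_ne _ hij, Matrix.one_apply_ne hij]
    rfl

theorem infComp_zposT291 (s : ℝˣ) (w : InfinitePlace K) :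
    infComp w (zposT291 K s) = Matrix.diagonal (fun _ => (((s : ℝ) : ℝ) : ℂ)) := by
  refine Matrix.ext fun i j => ?_
  show InfinitePlace.Completion.extensionEmbedding w
    ((((zposT291 K s : G K) : Matrix (Fin 2) (Fin 2) (Adl K)) i j).1 w)
    = (Matrix.diagonal (fun _ => (((s : ℝ) : ℝ) : ℂ)) : Matrix (Fin 2) (Fin 2) ℂ) i j
  rw [zposT291_val]
  by_cases hij : i = j
  · subst hij
    rw [Matrix.diagonal_apply_eq, Matrix.diagonal_apply_eq, T1.H919.rayAdl919_inf,
      T1.H919.extensionEmbedding_realTo919]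
  · rw [Matrix.diagonal_apply_ne _ hij, Matrix.diagonal_apply_ne _ hij]
    exact map_zero _

theorem dn_zposT291 (s : ℝˣ) :
    dnT291 (zposT291 K s) = |(s : ℝ) * s| ^ Module.finrank ℚ K := by
  unfold dnT291
  rw [zposT291_val, Matrix.det_diagonal, Fin.prod_univ_two, ← map_mul,
    T1.H919.adNorm_rayAdl919]

/-- An element which is trivial at the finite places and the scalar `s` at every infinite place
is `zposT291 K s`. -/
theorem eq_zposT291 {z : G K} (hfin : ∀ v : HeightOneSpectrum (𝓞 K), TrivAtFin v z)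
    (s : ℝˣ) (hs : ∀ w : InfinitePlace K, infComp w z = Matrix.diagonal (fun _ => ((s : ℝ) : ℂ))) :
    z = zposT291 K s := by
  apply G_ext129
  · intro w
    apply gl_ext_of_map429
    rw [← infComp_eq429, ← infComp_eq429, hs w, infComp_zposT291]
  · intro v
    rw [(trivAtFin_iff129 v z).1 (hfin v)]
    exact ((trivAtFin_iff129 v _).1 (finComp_zposT291 s v)).symm

/-- The ray generator is central. -/
theorem rayGen_centralT291 {r : G K} (hr : IsRayGen r) (g : G K) : g * r = r * g := by
  obtain ⟨hfin, t, -, -, ht⟩ := hr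
  refine central_of_scalar_comp429 (fun w => ⟨((infCompHom129 w r : GL (Fin 2) w.Completion) :
    Matrix (Fin 2) (Fin 2) w.Completion) 0 0, ?_⟩) (fun v => ⟨1, ?_⟩) g
  · exact scalar_of_map_scalar429 _ (t : ℂ) (ht w)
  · rw [(trivAtFin_iff129 v r).1 (hfin v)]
    exact one_eq_diagonal429

/-- The ray generator has determinant module `2`. -/
theorem dn_rayGenT291 {r : G K} (hr : IsRayGen r) : dnT291 r = 2 := by
  obtain ⟨hfin, t, ht0, ht2, ht⟩ := hr
  have e : r = zposT291 K (Units.mk0 t ht0.ne') := eq_zposT291 hfin (Units.mk0 t ht0.ne') ht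
  rw [e, dn_zposT291]
  show |t * t| ^ Module.finrank ℚ K = 2
  rw [abs_of_pos (mul_pos ht0 ht0), ← ht2, ← pow_two, ← pow_mul]

/-! ## 3. The action of `GL₂(K) × ℤ` -/

/-- The action `(γ, m) • g = γ g r^m` of `GL₂(K) × ℤ` on `GL₂(𝔸_K)`. -/
@[reducible] def rayActT291 (r : G K) : MulAction (GL (Fin 2) K × Multiplicative ℤ) (G K) where
  smul p g := T1.ratG K p.1 * g * r ^ (Multiplicative.toAdd p.2)
  one_smul g := by
    show T1.ratG K 1 * g * r ^ (0 : ℤ) = g
    rw [map_one, one_mul, zpow_zero, mul_one]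
  mul_smul p q g := by
    show T1.ratG K (p.1 * q.1) * g * r ^ (Multiplicative.toAdd p.2 + Multiplicative.toAdd q.2)
      = T1.ratG K p.1 * (T1.ratG K q.1 * g * r ^ (Multiplicative.toAdd q.2))
        * r ^ (Multiplicative.toAdd p.2)
    rw [map_mul, add_comm, zpow_add]
    simp only [mul_assoc]

theorem smul_defT291 (r : G K) (p : GL (Fin 2) K × Multiplicative ℤ) (g : G K) :
    letI := rayActT291 r
    p • g = T1.ratG K p.1 * g * r ^ (Multiplicative.toAdd p.2) := rfl

theorem countable_prodT291 (K : Type) [Field K] [NumberField K] :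
    Countable (GL (Fin 2) K × Multiplicative ℤ) := by
  haveI := countable_glT291 K
  infer_instance

theorem measurableConstSMulT291 (r : G K) :
    letI := rayActT291 r
    MeasurableConstSMul (GL (Fin 2) K × Multiplicative ℤ) (G K) := by
  letI := rayActT291 r
  haveI := borelSpace_GT291 K
  refine ⟨fun c => ?_⟩
  have hc : Continuous fun g : G K => T1.ratG K c.1 * g * r ^ (Multiplicative.toAdd c.2) :=
    (continuous_const.mul continuous_id).mul continuous_const
  exact hc.measurable

theorem smulInvariantT291 (r : G K) (μ : Measure (G K)) [μ.IsMulLeftInvariant]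
    [μ.IsMulRightInvariant] :
    letI := rayActT291 r
    SMulInvariantMeasure (GL (Fin 2) K × Multiplicative ℤ) (G K) μ := by
  letI := rayActT291 r
  haveI := borelSpace_GT291 K
  refine ⟨fun c s _ => ?_⟩
  have hset : (fun g : G K => c • g) ⁻¹' s
      = (fun g : G K => T1.ratG K c.1 * g) ⁻¹'
        ((fun g : G K => g * r ^ (Multiplicative.toAdd c.2)) ⁻¹' s) := by
    ext g
    rfl
  rw [hset, measure_preimage_mul, measure_preimage_mul_right]

/-- `Φ` is invariant under the action. -/
theorem inv_smulT291 {r : G K} {Φ : G K → ℂ}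
    (hΓ : ∀ (γ : GL (Fin 2) K) (g : G K), Φ (T1.ratG K γ * g) = Φ g)
    (hr : ∀ g : G K, Φ (g * r) = Φ g) (p : GL (Fin 2) K × Multiplicative ℤ) (g : G K) :
    letI := rayActT291 r
    Φ (p • g) = Φ g := by
  letI := rayActT291 r
  have hz : ∀ (n : ℤ) (g : G K), Φ (g * r ^ n) = Φ g := by
    intro n
    induction n using Int.induction_on with
    | zero => intro g; rw [zpow_zero, mul_one]
    | succ n ih => intro g; rw [zpow_add_one, ← mul_assoc, hr, ih]
    | pred n ih =>
      intro g
      rw [zpow_sub_one, ← mul_assoc]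
      have := hr (g * r ^ (-(n : ℤ)) * r⁻¹)
      rw [inv_mul_cancel_right] at this
      rw [← this, ih]
  show Φ (T1.ratG K p.1 * g * r ^ (Multiplicative.toAdd p.2)) = Φ g
  rw [hz, hΓ]

/-! ## 4. The domain of a frame is a fundamental domain -/

section Fund

variable (hN : T1.AdNormC K) (μ : Measure (G K))

/-- For a positive real `a` there is an integer `n` with `1 ≤ a 2^n < 2`. -/
theorem exists_zpow_slabT291 {a : ℝ} (ha : 0 < a) : ∃ n : ℤ, 1 ≤ a * 2 ^ n ∧ a * 2 ^ n < 2 := by
  obtain ⟨m, hm1, hm2⟩ := exists_mem_Ico_zpow ha (one_lt_two : (1 : ℝ) < 2)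
  refine ⟨-m, ?_, ?_⟩
  · rw [zpow_neg, ← div_eq_mul_inv, le_div_iff₀ (zpow_pos two_pos m), one_mul]
    exact hm1
  · rw [zpow_neg, ← div_eq_mul_inv, div_lt_iff₀ (zpow_pos two_pos m)]
    rw [zpow_add_one₀ (two_ne_zero)] at hm2
    linarith

/-- If `x` and `x 2^n` both lie in `[1, 2)`, then `n = 0`. -/
theorem zpow_slab_uniqueT291 {x : ℝ} {n : ℤ} (h1 : 1 ≤ x) (h2 : x < 2)
    (h3 : 1 ≤ x * 2 ^ n) (h4 : x * 2 ^ n < 2) : n = 0 := by
  by_contra hne
  rcases lt_or_gt_of_ne hne with hlt | hgt
  · -- n ≤ -1 : 2^n ≤ 1/2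
    have hle : (2 : ℝ) ^ n ≤ 2 ^ (-1 : ℤ) :=
      zpow_le_zpow_right₀ (by norm_num) (by omega)
    have h5 : (2 : ℝ) ^ (-1 : ℤ) = 1 / 2 := by norm_num
    rw [h5] at hle
    have : x * 2 ^ n ≤ x * (1 / 2) := mul_le_mul_of_nonneg_left hle (by linarith)
    linarith
  · have hge : (2 : ℝ) ^ (1 : ℤ) ≤ 2 ^ n :=
      zpow_le_zpow_right₀ (by norm_num) (by omega)
    have h5 : (2 : ℝ) ^ (1 : ℤ) = 2 := by norm_num
    rw [h5] at hge
    have : x * 2 ≤ x * 2 ^ n := mul_le_mul_of_nonneg_left hge (by linarith)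
    linarith

include hN in
theorem isFundamentalDomainT291 {r : G K} (hr : IsRayGen r) {D : Set (G K)}
    (hm : MeasurableSet D) (hsub : D ⊆ T1.slab K)
    (hstrict : ∀ g ∈ T1.slab K, ∃! γ : GL (Fin 2) K, T1.ratG K γ * g ∈ D) :
    letI := rayActT291 r
    IsFundamentalDomain (GL (Fin 2) K × Multiplicative ℤ) D μ := by
  letI := rayActT291 r
  have hdr : dnT291 r = 2 := dn_rayGenT291 hr
  have hdn : ∀ (p : GL (Fin 2) K × Multiplicative ℤ) (g : G K),
      dnT291 (p • g) = dnT291 g * 2 ^ (Multiplicative.toAdd p.2) := by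
    intro p g
    show dnT291 (T1.ratG K p.1 * g * r ^ (Multiplicative.toAdd p.2)) = _
    rw [dn_mulT291 hN, dn_ratGT291 hN, dn_zpowT291 hN, hdr]
  refine ⟨hm.nullMeasurableSet, ?_, ?_⟩
  · refine Filter.Eventually.of_forall fun g => ?_
    obtain ⟨n, hn1, hn2⟩ := exists_zpow_slabT291 (dn_posT291 hN g)
    have hg : g * r ^ n ∈ T1.slab K := by
      rw [mem_slab_iffT291, dn_mulT291 hN, dn_zpowT291 hN, hdr]
      exact ⟨hn1, hn2⟩
    obtain ⟨γ, hγ, -⟩ := hstrict _ hg
    refine ⟨(γ, Multiplicative.ofAdd n), ?_⟩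
    show T1.ratG K γ * g * r ^ n ∈ D
    rw [mul_assoc]
    exact hγ
  · intro p q hne
    apply Disjoint.aedisjoint
    rw [Set.disjoint_left]
    rintro x ⟨d, hd, rfl⟩ ⟨d', hd', hx⟩
    apply hne
    have hx' : q • d' = p • d := hx
    -- the exponents agree
    have h1 := (mem_slab_iffT291 d).1 (hsub hd)
    have h1' := (mem_slab_iffT291 d').1 (hsub hd')
    have e1 : dnT291 d' * 2 ^ (Multiplicative.toAdd q.2)
        = dnT291 d * 2 ^ (Multiplicative.toAdd p.2) := by
      rw [← hdn, ← hdn, hx']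
    have e2 : dnT291 d' = dnT291 d * 2 ^ (Multiplicative.toAdd p.2 - Multiplicative.toAdd q.2) := by
      rw [zpow_sub₀ (two_ne_zero), ← mul_div_assoc, ← e1,
        mul_div_assoc, div_self (zpow_ne_zero _ two_ne_zero), mul_one]
    have e3 : Multiplicative.toAdd p.2 - Multiplicative.toAdd q.2 = 0 :=
      zpow_slab_uniqueT291 h1.1 h1.2 (e2 ▸ h1'.1) (e2 ▸ h1'.2)
    have e4 : Multiplicative.toAdd p.2 = Multiplicative.toAdd q.2 := by omega
    -- the rational parts agree
    have hx'' : T1.ratG K q.1 * d' * r ^ (Multiplicative.toAdd q.2)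
        = T1.ratG K p.1 * d * r ^ (Multiplicative.toAdd p.2) := hx'
    rw [e4] at hx''
    have hx3 : T1.ratG K q.1 * d' = T1.ratG K p.1 * d := mul_right_cancel hx''
    obtain ⟨δ, -, huniq⟩ := hstrict d (hsub hd)
    have u1 : (1 : GL (Fin 2) K) = δ := huniq 1 (by simpa using hd)
    have u2 : q.1⁻¹ * p.1 = δ := by
      apply huniq
      show T1.ratG K (q.1⁻¹ * p.1) * d ∈ D
      rw [map_mul, mul_assoc, ← hx3, ← mul_assoc, ← map_mul, inv_mul_cancel, map_one, one_mul]
      exact hd'
    have u3 : q.1⁻¹ * p.1 = 1 := u2.trans u1.symm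
    have u4 : p.1 = q.1 := by
      have := congrArg (fun t => q.1 * t) u3
      simpa using this
    exact Prod.ext u4 (Multiplicative.toAdd.injective e4)

end Fund

/-! ## 5. THE KEY LEMMA -/

/-- **KEY LEMMA, ray form**: the integral over the domain of a frame of a function which is left
invariant under `GL₂(K)` and right invariant under the ray generator is invariant under all right
translations. -/
theorem translT291 (hN : T1.AdNormC K) (hU : T1.UnimodC K) (R : FrameR K) (Φ : G K → ℂ)
    (hΓ : ∀ (γ : GL (Fin 2) K) (g : G K), Φ (T1.ratG K γ * g) = Φ g)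
    (hr : ∀ g : G K, Φ (g * R.r) = Φ g) (h : G K) :
    ∫ g in R.F.D, Φ (g * h) ∂(R.F.μ) = ∫ g in R.F.D, Φ g ∂(R.F.μ) := by
  haveI := R.F.haar
  haveI : R.F.μ.IsMulRightInvariant := hU R.F.μ R.F.haar
  letI := rayActT291 R.r
  haveI := borelSpace_GT291 K
  haveI := countable_prodT291 K
  haveI := measurableConstSMulT291 R.r
  haveI := smulInvariantT291 R.r R.F.μ
  have hF : IsFundamentalDomain (GL (Fin 2) K × Multiplicative ℤ) R.F.D R.F.μ :=
    isFundamentalDomainT291 hN R.F.μ R.ray R.F.meas R.F.sub R.F.strict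
  -- the translated domain
  set D' : Set (G K) := (fun g : G K => g * h⁻¹) ⁻¹' R.F.D with hD'
  have hpre : (fun g : G K => g * h) ⁻¹' D' = R.F.D := by
    ext g
    simp [hD', mul_assoc]
  have hcen : ∀ (n : ℤ) (g : G K), g * R.r ^ n = R.r ^ n * g := fun n g =>
    ((Commute.zpow_right (show Commute g R.r from rayGen_centralT291 R.ray g) n).eq)
  have hF' : IsFundamentalDomain (GL (Fin 2) K × Multiplicative ℤ) D' R.F.μ := by
    refine hF.preimage_of_equiv (f := fun g : G K => g * h⁻¹) (e := id)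
      (measurePreserving_mul_right R.F.μ h⁻¹).quasiMeasurePreserving
      Function.bijective_id ?_
    intro p g
    show T1.ratG K p.1 * g * R.r ^ (Multiplicative.toAdd p.2) * h⁻¹
      = T1.ratG K p.1 * (g * h⁻¹) * R.r ^ (Multiplicative.toAdd p.2)
    calc T1.ratG K p.1 * g * R.r ^ (Multiplicative.toAdd p.2) * h⁻¹
        = T1.ratG K p.1 * g * (R.r ^ (Multiplicative.toAdd p.2) * h⁻¹) := by rw [mul_assoc]
      _ = T1.ratG K p.1 * g * (h⁻¹ * R.r ^ (Multiplicative.toAdd p.2)) := by
          rw [← hcen (Multiplicative.toAdd p.2) h⁻¹]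
      _ = T1.ratG K p.1 * (g * h⁻¹) * R.r ^ (Multiplicative.toAdd p.2) := by
          simp only [mul_assoc]
  -- change of variables
  have h1 : ∫ g in R.F.D, Φ (g * h) ∂(R.F.μ) = ∫ g in D', Φ g ∂(R.F.μ) := by
    have := (measurePreserving_mul_right R.F.μ h).setIntegral_preimage_emb
      (measurableEmbedding_mulRight h) Φ D'
    rw [hpre] at this
    exact this
  have h2 := hF'.setIntegral_eq hF (f := Φ) (fun p g => inv_smulT291 hΓ hr p g)
  rw [h1, h2]

/-- **T2.27.00 CLOSED.** -/
theorem subTranslT291 (K : Type) [Field K] [NumberField K] : SubTranslT291 K :=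
  fun hT1 R Φ hΓ hr h => translT291 hT1.adNorm hT1.unimod R Φ hΓ hr h

end Fermat.Agent.LT.T2.H291

end

end
-- ===== PACK-END LT/T2/H291/TranslT.lean

-- ===== PACK-BEGIN LT/T2/H290/HeckeBddT.lean
section



/-!
# Row LT, tower T2, sub-leaf T2.27.03 `SubHeckeBddT291` (helper290)

OFF-MAIN.  `‖T_H φ‖² ≤ (#H)² ‖φ‖²` on the cusp functions of the class `(𝔫, τ, r)`, from the KEY
LEMMA in `T`-form `SubTranslT291` (T2.27.00): Cauchy--Schwarz pointwise, then
`∫_D |φ(g h)|² = ∫_D |φ(g)|²` for every `h` (`|φ|²` is left `GL₂(K)`-invariant and right invariant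
under the ray generator `r`, both fields of `IsAutT`).  For a Hecke coset system `#H = q_v + 1`.
Neither the type `τ` nor the hypotheses `CtxT291` other than `t1` are used.

`T`-form of `subHeckeBdd_of_transl91` (helper91, T2.07.03).

Frozen bytes: `LT/T2/H291/OpsSpecT.lean` (helper291@22c6ecc98, sha256 c8359c85).
-/

set_option autoImplicit false

open IsDedekindDomain NumberField MeasureTheory
open Fermat.Agent.LT.H556.A0
open Fermat.Agent.LT.T2
open Fermat.Agent.LT.T2.H291

noncomputable section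

namespace Fermat.Agent.LT.T2.H290

variable {K : Type} [Field K] [NumberField K]

attribute [local instance] Fermat.Agent.LT.T2.borelG

/-- The square of the `L²`-norm is the integral of `‖ψ‖²` (no integrability hypothesis). -/
theorem nsq_eq_integral290 (F : Frame K) (ψ : G K → ℂ) :
    nsq F ψ = ∫ g in F.D, ‖ψ g‖ ^ 2 ∂F.μ := by
  unfold nsq pair
  have h : (fun g => ψ g * (starRingEnd ℂ) (ψ g)) = fun g => (((‖ψ g‖ ^ 2 : ℝ)) : ℂ) := by
    funext g
    rw [Complex.mul_conj, Complex.normSq_eq_norm_sq]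
  rw [h, integral_complex_ofReal, Complex.ofReal_re]

/-- `g ↦ ‖φ(g h)‖²` is integrable on the domain of the frame, for `φ` continuous and bounded. -/
theorem integrable_sq_transl290 (F : Frame K) {φ : G K → ℂ} (hc : Continuous φ)
    {B : ℝ} (hB : ∀ g : G K, ‖φ g‖ ≤ B) (h : G K) :
    Integrable (fun g => ‖φ (g * h)‖ ^ 2) (F.μ.restrict F.D) := by
  have : BorelSpace (G K) := ⟨rfl⟩
  have : IsFiniteMeasure (F.μ.restrict F.D) := ⟨by rw [Measure.restrict_apply_univ]; exact F.fin⟩
  have hcont : Continuous fun g : G K => ‖φ (g * h)‖ ^ 2 :=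
    ((hc.comp (continuous_mul_const h)).norm).pow 2
  refine Integrable.of_bound hcont.aestronglyMeasurable (B ^ 2) ?_
  refine Filter.Eventually.of_forall fun g => ?_
  rw [Real.norm_of_nonneg (by positivity)]
  exact pow_le_pow_left₀ (norm_nonneg _) (hB _) 2

/-- The translation invariance of `∫_D ‖φ‖²` for a function `φ` which is continuous, left
`GL₂(K)`-invariant and right invariant under the ray generator, from the KEY LEMMA in `T`-form. -/
theorem integral_sq_transl290 (hT : SubTranslT291 K) (ht1 : T1.T1Out K) (R : FrameR K)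
    {φ : G K → ℂ}
    (hleft : ∀ (γ : GL (Fin 2) K) (g : G K), φ (T1.ratG K γ * g) = φ g)
    (hray : ∀ g : G K, φ (g * R.r) = φ g) (h : G K) :
    ∫ g in R.F.D, ‖φ (g * h)‖ ^ 2 ∂(R.F.μ) = ∫ g in R.F.D, ‖φ g‖ ^ 2 ∂(R.F.μ) := by
  have key := hT ht1 R (fun g => (((‖φ g‖ ^ 2 : ℝ)) : ℂ))
    (fun γ g => by rw [hleft γ g]) (fun g => by rw [hray g]) h
  have key' : ((∫ g in R.F.D, ‖φ (g * h)‖ ^ 2 ∂(R.F.μ) : ℝ) : ℂ)
      = ((∫ g in R.F.D, ‖φ g‖ ^ 2 ∂(R.F.μ) : ℝ) : ℂ) := by
    rw [← integral_complex_ofReal, ← integral_complex_ofReal]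
    exact key
  exact_mod_cast key'

/-- The bound with the explicit constant: `‖T_H φ‖² ≤ (#H)² ‖φ‖²` for every finite set `H` and
every bounded continuous `φ`, left `GL₂(K)`-invariant and right invariant under the ray
generator. -/
theorem nsq_heckeSum_le290 (hT : SubTranslT291 K) (ht1 : T1.T1Out K) (R : FrameR K)
    (H : Finset (G K)) {φ : G K → ℂ} (hc : Continuous φ) (hb : ∃ C : ℝ, ∀ g : G K, ‖φ g‖ ≤ C)
    (hleft : ∀ (γ : GL (Fin 2) K) (g : G K), φ (T1.ratG K γ * g) = φ g)
    (hray : ∀ g : G K, φ (g * R.r) = φ g) :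
    nsq R.F (heckeSum H φ) ≤ (H.card : ℝ) ^ 2 * nsq R.F φ := by
  have : BorelSpace (G K) := ⟨rfl⟩
  obtain ⟨B, hB⟩ := hb
  have htr := integral_sq_transl290 hT ht1 R hleft hray
  rw [nsq_eq_integral290, nsq_eq_integral290]
  -- Cauchy--Schwarz, pointwise
  have hpt : ∀ g : G K,
      ‖heckeSum H φ g‖ ^ 2 ≤ (H.card : ℝ) * ∑ h ∈ H, ‖φ (g * h)‖ ^ 2 := by
    intro g
    unfold heckeSum
    calc ‖∑ h ∈ H, φ (g * h)‖ ^ 2 ≤ (∑ h ∈ H, ‖φ (g * h)‖) ^ 2 :=
          pow_le_pow_left₀ (norm_nonneg _) (norm_sum_le _ _) 2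
      _ ≤ (H.card : ℝ) * ∑ h ∈ H, ‖φ (g * h)‖ ^ 2 := sq_sum_le_card_mul_sum_sq
  have hint : ∀ h : G K, Integrable (fun g => ‖φ (g * h)‖ ^ 2) (R.F.μ.restrict R.F.D) :=
    fun h => integrable_sq_transl290 R.F hc hB h
  calc ∫ g in R.F.D, ‖heckeSum H φ g‖ ^ 2 ∂(R.F.μ)
      ≤ ∫ g in R.F.D, (H.card : ℝ) * ∑ h ∈ H, ‖φ (g * h)‖ ^ 2 ∂(R.F.μ) := by
        apply integral_mono_of_nonneg
        · exact Filter.Eventually.of_forall (fun g => by positivity)
        · exact (integrable_finsetSum _ (fun h _ => hint h)).const_mul _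
        · exact Filter.Eventually.of_forall hpt
    _ = (H.card : ℝ) * ∑ h ∈ H, ∫ g in R.F.D, ‖φ (g * h)‖ ^ 2 ∂(R.F.μ) := by
        rw [integral_const_mul, integral_finsetSum _ (fun h _ => hint h)]
    _ = (H.card : ℝ) * ∑ _h ∈ H, ∫ g in R.F.D, ‖φ g‖ ^ 2 ∂(R.F.μ) := by
        simp only [htr]
    _ = (H.card : ℝ) ^ 2 * ∫ g in R.F.D, ‖φ g‖ ^ 2 ∂(R.F.μ) := by
        rw [Finset.sum_const, nsmul_eq_mul]
        ring

/-- **T2.27.03** from the KEY LEMMA T2.27.00 (`T`-form), with `C = (#H)²`. -/
theorem subHeckeBddT_of_transl290 (hT : SubTranslT291 K) : SubHeckeBddT291 K := by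
  intro 𝔫 τ c R v _ H _
  exact ⟨(H.card : ℝ) ^ 2, fun φ hφ =>
    nsq_heckeSum_le290 hT c.t1 R H hφ.aut.cont hφ.aut.bdd hφ.aut.left_inv hφ.aut.ray⟩

/-- The same for every finite set `H` (the bound does not use that `H` is a Hecke coset
system). -/
theorem bddT_heckeSum_of_transl290 (hT : SubTranslT291 K) (ht1 : T1.T1Out K)
    (𝔫 : Ideal (𝓞 K)) (τ : G K → ℂ) (R : FrameR K) (H : Finset (G K)) :
    BddT291 𝔫 τ R (heckeSum H) :=
  ⟨(H.card : ℝ) ^ 2, fun φ hφ =>
    nsq_heckeSum_le290 hT ht1 R H hφ.aut.cont hφ.aut.bdd hφ.aut.left_inv hφ.aut.ray⟩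

end Fermat.Agent.LT.T2.H290

end

end
-- ===== PACK-END LT/T2/H290/HeckeBddT.lean

-- ===== PACK-BEGIN LT/T2/H879/S2RotTLeaf.lean
section



/-!
# Row LT, tower T2, sub-leaf T2.27.31 `SubS2RotT291` (helper879): the leaf, VERBATIM

Prop of `LT/T2/H291/OpsSpecT.lean` (helper291@22c6ecc98, sha256 c8359c85).
-/

set_option autoImplicit false

namespace Fermat.Agent.LT.T2.H879

/-- **THE SUB-LEAF T2.27.31**, verbatim. -/
theorem subS2RotT879 : Fermat.Agent.LT.T2.H291.SubS2RotT291 :=
  fun ψ hψ hinv k₀ hk₀ hdet => subS2RotT_stmt879 ψ hψ hinv k₀ hk₀ hdet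

end Fermat.Agent.LT.T2.H879

end
-- ===== PACK-END LT/T2/H879/S2RotTLeaf.lean

-- ===== PACK-BEGIN LT/T2/H621/CirclePres.lean
section



/-!
# Row LT, tower T2, sub-leaf T2.07.13 `SubCirclePres429` (helper621)

OFF-MAIN.  The circle means at a real place preserve the cusp functions:
`subCirclePres_of621 : SubLocCont429 K → SubCirclePres429 K`.

* continuity: parametric interval integral of a jointly continuous function (`Y` is continuous by
  `SubLocCont429`);
* invariance under `U(𝔫)`, under the positive scalars and under the compact groups at the other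
  places: the elements commute with `Y θ`;
* invariance under `SO(2)` at the place of the mean: `k Y(θ) = Y(θ + θ₀)` and `θ ↦ φ(g Y(θ))` is
  `2π`-periodic (`rotY (θ + 2π) = - rotY θ`, `-1 ∈ SO(2)`);
* cuspidality: Fubini on `D × (0, 2π]` (`μ D < ∞` by `T1.AddFundDomC`).
-/

set_option autoImplicit false
set_option linter.unusedSectionVars false
set_option linter.style.haveILetI false

open IsDedekindDomain NumberField MeasureTheory
open Fermat.Agent.LT.H556.A0
open Fermat.Agent.LT.T2 Fermat.Agent.LT.T2.H429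
open scoped ComplexConjugate

noncomputable section

namespace Fermat.Agent.LT.T2.H621

open NumberField.InfinitePlace

variable {K : Type} [Field K] [NumberField K]

/-! ## Continuity of the parametrisations -/

theorem continuous_rotY621 : Continuous rotY := by
  refine continuous_matrix fun i j => ?_
  fin_cases i <;> fin_cases j
  · show Continuous fun β : ℝ => ((Real.cos (β / 2) : ℝ) : ℂ)
    fun_prop
  · show Continuous fun β : ℝ => -((Real.sin (β / 2) : ℝ) : ℂ)
    fun_prop
  · show Continuous fun β : ℝ => ((Real.sin (β / 2) : ℝ) : ℂ)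
    fun_prop
  · show Continuous fun β : ℝ => ((Real.cos (β / 2) : ℝ) : ℂ)
    fun_prop

theorem continuous_circle621 (hLC : SubLocCont429 K) (w : InfinitePlace K) (t : ℝ)
    (Y : ℝ → G K) (hY : IsCircleAt w t Y) : Continuous Y := by
  refine hLC w ℝ Y (fun θ => (hY θ).1) fun i j => ?_
  have h : (fun θ => infComp w (Y θ) i j) = fun θ => (rotY θ * torus t) i j :=
    funext fun θ => by rw [(hY θ).2]
  rw [h]
  exact (continuous_rotY621.matrix_mul continuous_const).matrix_elem i j

/-- The unipotent family is continuous. -/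
theorem continuous_unip621 (n : Adl K → G K)
    (hn : ∀ x : Adl K, (n x : Matrix (Fin 2) (Fin 2) (Adl K)) = !![1, x; 0, 1]) :
    Continuous n := by
  have hinv : ∀ x : Adl K,
      (((n x)⁻¹ : G K) : Matrix (Fin 2) (Fin 2) (Adl K)) = !![1, -x; 0, 1] := by
    intro x
    rw [Matrix.coe_units_inv, hn x]
    refine Matrix.inv_eq_left_inv ?_
    ext i j
    fin_cases i <;> fin_cases j <;> simp [Matrix.mul_apply, Fin.sum_univ_two]
  rw [Units.continuous_iff]
  constructor
  · have h : (Units.val ∘ n) = fun x : Adl K => !![1, x; 0, 1] := funext hn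
    rw [h]
    refine continuous_matrix fun i j => ?_
    fin_cases i <;> fin_cases j
    · exact continuous_const
    · exact continuous_id
    · exact continuous_const
    · exact continuous_const
  · have h : (fun x => (((n x)⁻¹ : G K) : Matrix (Fin 2) (Fin 2) (Adl K)))
        = fun x : Adl K => !![1, -x; 0, 1] := funext hinv
    rw [h]
    refine continuous_matrix fun i j => ?_
    fin_cases i <;> fin_cases j
    · exact continuous_const
    · exact continuous_neg
    · exact continuous_const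
    · exact continuous_const

/-! ## Periodicity and the action of `SO(2)` -/

theorem isArchCompact_neg_one621 (w : InfinitePlace K) (c : G K) (hloc : IsLocalAtInf w c)
    (hc : infComp w c = -1) : IsArchCompact w c := by
  refine ⟨hloc, ?_, fun _ => ?_⟩
  · rw [hc, Matrix.conjTranspose_neg, Matrix.conjTranspose_one, neg_mul_neg, one_mul]
  · rw [hc, Matrix.det_neg, Matrix.det_one]
    simp

/-- `θ ↦ φ (g Y(θ))` is `2π`-periodic. -/
theorem periodic_circle621 (φ : G K → ℂ)
    (hinv : ∀ (w : InfinitePlace K) (k : G K), IsArchCompact w k → ∀ g : G K, φ (g * k) = φ g)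
    (w : InfinitePlace K) (t : ℝ) (Y : ℝ → G K) (hY : IsCircleAt w t Y) (g : G K) :
    Function.Periodic (fun θ => φ (g * Y θ)) (2 * Real.pi) := by
  intro θ
  show φ (g * Y (θ + 2 * Real.pi)) = φ (g * Y θ)
  set c : G K := (Y θ)⁻¹ * Y (θ + 2 * Real.pi) with hc
  have hcloc : IsLocalAtInf w c :=
    isLocalAtInf_mul621' _ _ _ (isLocalAtInf_inv621' _ _ (hY θ).1) (hY _).1
  have hccomp : infComp w c = -1 := by
    rw [hc, infComp_mul621', (hY (θ + 2 * Real.pi)).2, rotY_add_two_pi621, Matrix.neg_mul,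
      Matrix.mul_neg, ← (hY θ).2, infComp_inv_mul621']
  have hYY : Y (θ + 2 * Real.pi) = Y θ * c := by
    rw [hc, mul_inv_cancel_left]
  rw [hYY, ← mul_assoc]
  exact hinv w c (isArchCompact_neg_one621 w c hcloc hccomp) _

/-- An element of `SO(2)` at the real place `w` translates the circle. -/
theorem exists_shift_circle621 (w : InfinitePlace K) (hw : w.IsReal) (t : ℝ) (Y : ℝ → G K)
    (hY : IsCircleAt w t Y) (k : G K) (hk : IsArchCompact w k) :
    ∃ θ₀ : ℝ, ∀ θ : ℝ, k * Y θ = Y (θ₀ + θ) := by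
  obtain ⟨θ₀, hθ₀⟩ := exists_rotY621 (infComp w k) (infComp_im621 w hw k) hk.2.1 (hk.2.2 hw)
  refine ⟨θ₀, fun θ => ?_⟩
  refine eq_of_local621 w (isLocalAtInf_mul621' _ _ _ hk.1 (hY θ).1) (hY _).1 ?_
  rw [infComp_mul621', hθ₀, (hY θ).2, (hY (θ₀ + θ)).2, rotY_add621, Matrix.mul_assoc]

/-! ## Countability -/

theorem countable_field621 (K : Type) [Field K] [NumberField K] : Countable K :=
  Function.Injective.countable (f := (Module.finBasis ℚ K).equivFun)
    (Module.finBasis ℚ K).equivFun.injective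

theorem countable_range621 (K : Type) [Field K] [NumberField K] :
    Countable ((algebraMap K (Adl K)).toAddMonoidHom.range) := by
  haveI := countable_field621 K
  exact Function.Surjective.countable
    (f := (algebraMap K (Adl K)).toAddMonoidHom.rangeRestrict)
    (algebraMap K (Adl K)).toAddMonoidHom.rangeRestrict_surjective

/-! ## The sub-leaf -/

/-- **T2.07.13 `SubCirclePres429`** from `SubLocCont429` (T2.07.30). -/
theorem subCirclePres_of621 (K : Type) [Field K] [NumberField K] (hLC : SubLocCont429 K) :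
    SubCirclePres429 K := by
  intro 𝔫 c w hw t _ Y hY φ hφ
  have hYc : Continuous Y := continuous_circle621 hLC w t Y hY
  have hper := periodic_circle621 φ hφ.arch_compact w t Y hY
  refine ⟨?_, ?_, ?_, ?_, ?_, ?_, ?_⟩
  · -- continuity
    have hf : Continuous (Function.uncurry fun (g : G K) (θ : ℝ) => φ (g * Y θ)) :=
      hφ.cont.comp (continuous_fst.mul (hYc.comp continuous_snd))
    exact intervalIntegral.continuous_parametric_intervalIntegral_of_continuous' hf 0
      (2 * Real.pi)
  · -- boundedness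
    obtain ⟨C, hC⟩ := hφ.bdd
    refine ⟨C * |2 * Real.pi - 0|, fun g => ?_⟩
    exact intervalIntegral.norm_integral_le_of_norm_le_const fun θ _ => hC _
  · -- left invariance
    intro γ g
    show (∫ θ in (0 : ℝ)..(2 * Real.pi),
        φ (Matrix.GeneralLinearGroup.map (algebraMap K (Adl K)) γ * g * Y θ))
      = ∫ θ in (0 : ℝ)..(2 * Real.pi), φ (g * Y θ)
    congr 1
    funext θ
    rw [mul_assoc]
    exact hφ.left_inv γ _
  · -- level
    intro u hu g
    show (∫ θ in (0 : ℝ)..(2 * Real.pi), φ (g * u * Y θ))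
      = ∫ θ in (0 : ℝ)..(2 * Real.pi), φ (g * Y θ)
    congr 1
    funext θ
    rw [mul_assoc, commute_of_trivInf621 w hu.1 (hY θ).1, ← mul_assoc]
    exact hφ.level_inv u hu _
  · -- positive scalars
    intro w' z hz g
    show (∫ θ in (0 : ℝ)..(2 * Real.pi), φ (g * z * Y θ))
      = ∫ θ in (0 : ℝ)..(2 * Real.pi), φ (g * Y θ)
    congr 1
    funext θ
    have hcomm : z * Y θ = Y θ * z := by
      by_cases h : w' = w
      · subst h
        obtain ⟨r, -, hr⟩ := hz.2
        exact commute_of_scalar621 _ hz.1 (hY θ).1 (r : ℂ) hr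
      · exact commute_of_ne621 h hz.1 (hY θ).1
    rw [mul_assoc, hcomm, ← mul_assoc]
    exact hφ.arch_scalar w' z hz _
  · -- compact groups
    intro w' k hk g
    show (∫ θ in (0 : ℝ)..(2 * Real.pi), φ (g * k * Y θ))
      = ∫ θ in (0 : ℝ)..(2 * Real.pi), φ (g * Y θ)
    by_cases h : w' = w
    · subst h
      obtain ⟨θ₀, hθ₀⟩ := exists_shift_circle621 _ hw t Y hY k hk
      have e1 : (fun θ => φ (g * k * Y θ)) = fun θ => (fun θ' => φ (g * Y θ')) (θ₀ + θ) := by
        funext θ
        show φ (g * k * Y θ) = φ (g * Y (θ₀ + θ))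
        rw [mul_assoc, hθ₀]
      rw [e1, intervalIntegral.integral_comp_add_left (fun θ' => φ (g * Y θ')) θ₀, add_zero]
      have e2 := (hper g).intervalIntegral_add_eq θ₀ 0
      rw [zero_add] at e2
      exact e2
    · congr 1
      funext θ
      rw [mul_assoc, commute_of_ne621 h hk.1 (hY θ).1, ← mul_assoc]
      exact hφ.arch_compact w' k hk _
  · -- cuspidality
    letI : MeasurableSpace (Adl K) := borel (Adl K)
    haveI : BorelSpace (Adl K) := ⟨rfl⟩
    intro μ hμ D hD n hn g
    haveI := hμ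
    haveI := countable_range621 K
    obtain ⟨D₀, -, hD₀, -, -, hfin⟩ := c.t1.addFundDom μ hμ
    have hD₀' : IsAddFundamentalDomain ((algebraMap K (Adl K)).toAddMonoidHom.range) D₀ μ := hD₀
    have hDfin : μ D < ⊤ := by
      rw [hD.measure_eq hD₀']
      exact hfin
    haveI : IsFiniteMeasure (μ.restrict D) := ⟨by rwa [Measure.restrict_apply_univ]⟩
    have hnc : Continuous n := continuous_unip621 n hn
    set f : Adl K → ℝ → ℂ := fun x θ => φ (n x * g * Y θ) with hf
    have hfc : Continuous (Function.uncurry f) :=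
      hφ.cont.comp
        (((hnc.comp continuous_fst).mul continuous_const).mul (hYc.comp continuous_snd))
    obtain ⟨C, hC⟩ := hφ.bdd
    have hint : Integrable (Function.uncurry f)
        ((μ.restrict D).prod (volume.restrict (Set.Ioc (0 : ℝ) (2 * Real.pi)))) :=
      Integrable.mono' (g := fun _ => C) (integrable_const C) hfc.aestronglyMeasurable
        (Filter.Eventually.of_forall fun p => hC _)
    have h1 : ∀ x : Adl K, circleMean Y φ (n x * g)
        = ∫ θ in Set.Ioc (0 : ℝ) (2 * Real.pi), f x θ := fun x =>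
      intervalIntegral.integral_of_le (by positivity)
    show ∫ x in D, circleMean Y φ (n x * g) ∂μ = 0
    simp only [h1]
    rw [integral_integral_swap hint]
    have h2 : ∀ θ : ℝ, ∫ x in D, f x θ ∂μ = 0 := fun θ => by
      have := hφ.cuspidal μ hμ D hD n hn (g * Y θ)
      simp only [hf, mul_assoc]
      exact this
    simp only [h2, integral_zero]

end Fermat.Agent.LT.T2.H621

end

end
-- ===== PACK-END LT/T2/H621/CirclePres.lean

-- ===== PACK-BEGIN LT/T2/H767/IntTools.lean
section




/-!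
# Row LT, tower T2, sub-leaf T2.03c.2 (helper767): tools for the integration step

OFF-MAIN.  Rational scalars at one infinite place (assets of helper245): centrality, module of the
determinant; a finite set of rational scalars which moves a compact interval of modules into the
open slab; counting lemma for sums of indicators.
-/

set_option autoImplicit false
set_option linter.unusedSectionVars false

open IsDedekindDomain NumberField MeasureTheory
open Fermat.Agent.LT.H556.A0
open Fermat.Agent.LT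

noncomputable section

namespace Fermat.Agent.LT.T2.H767

open Fermat.Agent.LT.T2 Fermat.Agent.LT.T2.H245

variable {K : Type} [Field K] [NumberField K]

/-- The rational scalars of helper245 are central. -/
theorem zScalar_comm767 (w : InfinitePlace K) (r : ℚ) (hr : r ≠ 0) (g : G K) :
    g * zScalar245 w r hr = zScalar245 w r hr * g := by
  apply Units.ext
  rw [Units.val_mul, Units.val_mul, zScalar245_val]
  have h := Matrix.scalar_commute (n := Fin 2) (cAdele245 w r) (fun r' => Commute.all _ r')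
    (g : Matrix (Fin 2) (Fin 2) (Adl K))
  exact h.eq.symm

theorem isCentral_zScalar767 (w : InfinitePlace K) (r : ℚ) (hr : r ≠ 0) :
    T1.IsCentral K (zScalar245 w r hr) :=
  ⟨cAdele245 w r, zScalar245_val w r hr⟩

/-- The inverse of a rational scalar is the rational scalar of the inverse. -/
theorem zScalar_inv767 (w : InfinitePlace K) (r : ℚ) (hr : r ≠ 0) :
    (zScalar245 w r hr)⁻¹ = zScalar245 w r⁻¹ (inv_ne_zero hr) := by
  apply Units.ext
  rfl

theorem detNorm_mul_zScalar767 (hN : T1.AdNormC K) (w : InfinitePlace K) (r : ℚ) (hr : 0 < r)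
    (g : G K) :
    detNorm245 (g * zScalar245 w r hr.ne') = detNorm245 g * (r : ℝ) ^ (w.mult * 2) := by
  have hrr : |(r : ℝ)| = (r : ℝ) := abs_of_pos (by exact_mod_cast hr)
  rw [detNorm245_mul hN, detNorm245_zScalar hN, hrr, ← pow_mul]

/-- A finite set of positive rationals whose `k`-th powers move every `N ∈ [m, M]` into `(1, 2)`. -/
theorem exists_finset_rat767 (m M : ℝ) (hm : 0 < m) (k : ℕ) (hk : k ≠ 0) :
    ∃ Q : Finset ℚ, (∀ r ∈ Q, 0 < r) ∧
      ∀ N ∈ Set.Icc m M, ∃ r ∈ Q, 1 < N * (r : ℝ) ^ k ∧ N * (r : ℝ) ^ k < 2 := by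
  classical
  have hcpt : IsCompact (Set.Icc m M) := isCompact_Icc
  let U : {r : ℚ // 0 < r} → Set ℝ := fun r => {N | 1 < N * ((r : ℚ) : ℝ) ^ k ∧ N * ((r : ℚ) : ℝ) ^ k < 2}
  have hUo : ∀ r, IsOpen (U r) := by
    intro r
    have h1 : IsOpen {N : ℝ | 1 < N * ((r : ℚ) : ℝ) ^ k} :=
      isOpen_lt continuous_const (continuous_id.mul continuous_const)
    have h2 : IsOpen {N : ℝ | N * ((r : ℚ) : ℝ) ^ k < 2} :=
      isOpen_lt (continuous_id.mul continuous_const) continuous_const
    exact h1.inter h2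
  have hcov : Set.Icc m M ⊆ ⋃ r, U r := by
    intro N hN
    have hNpos : 0 < N := lt_of_lt_of_le hm hN.1
    obtain ⟨r, hr, h1, h2⟩ := exists_rat_pow_between245 N hNpos k hk
    exact Set.mem_iUnion.mpr ⟨⟨r, hr⟩, h1, h2⟩
  obtain ⟨t, ht⟩ := hcpt.elim_finite_subcover U hUo hcov
  refine ⟨t.image Subtype.val, ?_, ?_⟩
  · intro r hr
    obtain ⟨r', -, rfl⟩ := Finset.mem_image.mp hr
    exact r'.2
  · intro N hN
    obtain ⟨r, hr, hNr⟩ := Set.mem_iUnion₂.mp (ht hN)
    exact ⟨r.1, Finset.mem_image_of_mem _ hr, hNr⟩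

/-- Counting: a sum of indicators over a countable family, every finite sub-sum of which is
bounded by `B`, is bounded by `B`. -/
theorem tsum_indicator_le767 {ι α : Type*} (S : ι → Set α) (a : α) (B : ℝ)
    (h : ∀ T : Finset ι, (∀ i ∈ T, a ∈ S i) → (T.card : ℝ) ≤ B) :
    ∑' i, (S i).indicator (fun _ => (1 : ENNReal)) a ≤ ENNReal.ofReal B := by
  classical
  rw [ENNReal.tsum_eq_iSup_sum]
  refine iSup_le fun s => ?_
  have hs : ∑ i ∈ s, (S i).indicator (fun _ => (1 : ENNReal)) a
      = ((s.filter fun i => a ∈ S i).card : ENNReal) := by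
    rw [Finset.card_eq_sum_ones, Finset.sum_filter]
    push_cast
    refine Finset.sum_congr rfl fun i _ => ?_
    by_cases hi : a ∈ S i
    · simp [hi]
    · simp [hi]
  rw [hs]
  have hB := h (s.filter fun i => a ∈ S i) (fun i hi => (Finset.mem_filter.mp hi).2)
  calc ((s.filter fun i => a ∈ S i).card : ENNReal)
      = ENNReal.ofReal ((s.filter fun i => a ∈ S i).card : ℝ) := by
        rw [ENNReal.ofReal_natCast]
    _ ≤ ENNReal.ofReal B := ENNReal.ofReal_le_ofReal hB

end Fermat.Agent.LT.T2.H767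

end

end
-- ===== PACK-END LT/T2/H767/IntTools.lean

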