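import Mathlib
import Fermat.Agent.Pack.LT3.E5L2
import Fermat.Agent.Pack.LT3.E10L0
import Fermat.Agent.Pack.LT3.E11L0
import Fermat.Agent.Pack.LT3.E5L3
import Fermat.Agent.Pack.LT3.E0L3
import Fermat.Agent.Pack.LT3.E8L2
import Fermat.Agent.Pack.LT3.E0L1
import Fermat.Agent.Pack.LT3.E3L3
import Fermat.Agent.Pack.LT3.E0L2
import Fermat.Agent.Pack.LT3.E3L2
import Fermat.Agent.Pack.LT3.E11L3
import Fermat.Agent.Pack.LT2.E0L2
import Fermat.Agent.Pack.LT2.E2L1
import Fermat.Agent.Pack.LT2.E5L3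
import Fermat.Agent.Pack.LT2.E3L0
import Fermat.Agent.Pack.LT3.E11L1
import Fermat.Agent.Pack.LT2.E8L3
import Fermat.Agent.Pack.LT2.E8L2
import Fermat.Agent.Pack.LT3.E13L3

set_option linter.all false

-- ===== PACK-BEGIN LT/T6/H673/IwasawaR.lean
section




/-!
# Row LT, tower T6, leaf T6.29.I1 `IwasawaIntRC` (helper673), part 4: the integration formula

OFF-MAIN.  Spec: `LT/T6/H830/HCSpec.lean` (helper830, sha256 c3e7d846), byte-identical copy,
over `LT/T6/SpecArch.lean` (003240b2) and `LT/T6/Spec.lean` v3 (8c5f2ae7).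

    iwasawaIntRC673 : H830.IwasawaIntRC

Proof.  The push-forward `ν` of `μ|_{det > 0}` under the Iwasawa projection
`proj673 : GL₂(ℝ) → B⁺` is a left invariant measure of the group `B⁺`
(`proj673 (b g) = b * proj673 g`), finite on compact sets (`{det > 0} ∩ proj673 ⁻¹' C` lies in
the compact set `C · SO(2)`), so `ν = c · dζ dr dx` by the uniqueness of the Haar measure of the
second countable locally compact group `B⁺`; `c ≠ 0` since `ν ≠ 0`.  A right
`SO(2)`-invariant `F` supported in `det > 0` is `F ∘ iota673 ∘ proj673` there; Fubini.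
-/

set_option autoImplicit false

open scoped Matrix
open MeasureTheory

noncomputable section

namespace Fermat.Agent.LT.T6.H673

open Fermat.Agent.LT.T6 Fermat.Agent.LT.T6.H830

/-- The Borel `σ`-algebra of `GL₂(ℝ)` (LOCAL instance of this file). -/
local instance borelGL673 : MeasurableSpace (GL (Fin 2) ℝ) := borel _

local instance borelSpaceGL673 : BorelSpace (GL (Fin 2) ℝ) := ⟨rfl⟩

theorem measurable_proj673 : Measurable proj673 := continuous_proj673.measurable

theorem measurableSet_gPos673 : MeasurableSet gPos673 := isOpen_gPos673.measurableSet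

/-- The push-forward of `μ|_{GL₂(ℝ)⁺}` to `B⁺`. -/
def pushBP673 (μ : Measure (GL (Fin 2) ℝ)) : Measure BP673 :=
  Measure.map proj673 (μ.restrict gPos673)

theorem pushBP_apply673 (μ : Measure (GL (Fin 2) ℝ)) {s : Set BP673} (hs : MeasurableSet s) :
    pushBP673 μ s = μ (proj673 ⁻¹' s ∩ gPos673) := by
  unfold pushBP673
  rw [Measure.map_apply measurable_proj673 hs,
    Measure.restrict_apply (measurable_proj673 hs)]

/-- `ν` is left invariant. -/
theorem isMulLeftInvariant_pushBP673 (μ : Measure (GL (Fin 2) ℝ)) [μ.IsMulLeftInvariant] :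
    (pushBP673 μ).IsMulLeftInvariant := by
  refine ⟨fun p => ?_⟩
  have hL : Measurable fun g : GL (Fin 2) ℝ => iota673 p * g :=
    (continuous_const_mul (iota673 p)).measurable
  have hM : Measurable fun q : BP673 => p * q := (continuous_const_mul p).measurable
  have h1 : Measure.map (fun g : GL (Fin 2) ℝ => iota673 p * g) (μ.restrict gPos673)
      = μ.restrict gPos673 := by
    have e : (fun g : GL (Fin 2) ℝ => iota673 p * g) ⁻¹' gPos673 = gPos673 := by
      ext g
      exact iota_mul_mem_gPos673 p g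
    have h2 := Measure.restrict_map hL measurableSet_gPos673 (μ := μ)
    rw [e, map_mul_left_eq_self] at h2
    exact h2.symm
  unfold pushBP673
  rw [Measure.map_map hM measurable_proj673]
  have h3 : Measure.map ((fun q : BP673 => p * q) ∘ proj673) (μ.restrict gPos673)
      = Measure.map (proj673 ∘ fun g : GL (Fin 2) ℝ => iota673 p * g) (μ.restrict gPos673) := by
    apply Measure.map_congr
    rw [Filter.EventuallyEq, ae_restrict_iff' measurableSet_gPos673]
    exact Filter.Eventually.of_forall fun g hg => (proj_mul673 p g hg).symm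
  rw [h3, ← Measure.map_map measurable_proj673 hL, h1]

/-- `ν` is finite on compact sets. -/
theorem isFiniteMeasureOnCompacts_pushBP673 (μ : Measure (GL (Fin 2) ℝ))
    [IsFiniteMeasureOnCompacts μ] : IsFiniteMeasureOnCompacts (pushBP673 μ) := by
  refine ⟨fun C hC => ?_⟩
  obtain ⟨T, hT, hsub⟩ := exists_compact_superset673 hC
  rw [pushBP_apply673 μ hC.measurableSet]
  exact lt_of_le_of_lt (measure_mono hsub) hT.measure_lt_top

theorem pushBP_univ673 (μ : Measure (GL (Fin 2) ℝ)) :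
    pushBP673 μ Set.univ = μ gPos673 := by
  rw [pushBP_apply673 μ MeasurableSet.univ, Set.preimage_univ, Set.univ_inter]

/-- A right `SO(2)`-invariant function is determined on `det > 0` by its restriction to `B⁺`. -/
theorem eq_comp_proj673 {F : GL (Fin 2) ℝ → ℂ}
    (hFK : ∀ k g : GL (Fin 2) ℝ, InSO2 k → F (g * k) = F g) {g : GL (Fin 2) ℝ}
    (hg : g ∈ gPos673) : F g = F (iota673 (proj673 g)) := by
  have h := eq_iota_mul_kOf673 g hg
  calc F g = F (iota673 (proj673 g) * kOf673 g) := by rw [← h]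
    _ = F (iota673 (proj673 g)) := hFK _ _ (inSO2_kOf673 g)

/-- Fubini in the coordinates of `B⁺`. -/
theorem integral_volBP673 {f : BP673 → ℂ} (hf : Continuous f) (hfs : HasCompactSupport f) :
    ∫ p, f p ∂volBP673 = ∫ ζ : ℝ, ∫ r : ℝ, ∫ x : ℝ, f (BP673.mk ζ r x) := by
  have hint : Integrable f volBP673 := hf.integrable_of_hasCompactSupport hfs
  have hint' : Integrable (fun p : (ℝ × ℝ) × ℝ => f p)
      (((volume : Measure ℝ).prod (volume : Measure ℝ)).prod (volume : Measure ℝ)) := hint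
  have h1 : ∫ p, f p ∂volBP673
      = ∫ q : ℝ × ℝ, (∫ x : ℝ, f (q, x)) ∂((volume : Measure ℝ).prod (volume : Measure ℝ)) :=
    integral_prod (fun p : (ℝ × ℝ) × ℝ => f p) hint'
  have h2 : Integrable (fun q : ℝ × ℝ => ∫ x : ℝ, f (q, x))
      ((volume : Measure ℝ).prod (volume : Measure ℝ)) := hint'.integral_prod_left
  rw [h1, integral_prod _ h2]
  rfl

/-- **T6.29.I1, the Iwasawa integration formula on `GL₂(ℝ)`** (`H830.IwasawaIntRC`). -/
theorem iwasawaIntRC673 : IwasawaIntRC := by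
  intro μ hμ
  have hμ' := hμ
  have h1 : (pushBP673 μ).IsMulLeftInvariant := isMulLeftInvariant_pushBP673 μ
  have h2 : IsFiniteMeasureOnCompacts (pushBP673 μ) := isFiniteMeasureOnCompacts_pushBP673 μ
  have hν : pushBP673 μ = Measure.haarScalarFactor (pushBP673 μ) volBP673 • volBP673 :=
    Measure.isMulLeftInvariant_eq_smul (pushBP673 μ) volBP673
  have hc0 : Measure.haarScalarFactor (pushBP673 μ) volBP673 ≠ 0 := by
    intro h0
    have h3 : pushBP673 μ Set.univ = 0 := by
      rw [hν, h0, zero_smul]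
      rfl
    rw [pushBP_univ673] at h3
    exact (isOpen_gPos673.measure_pos μ ⟨1, one_mem_gPos673⟩).ne' h3
  refine ⟨(Measure.haarScalarFactor (pushBP673 μ) volBP673 : ℝ),
    NNReal.coe_pos.2 (pos_iff_ne_zero.2 hc0), ?_⟩
  intro F hF hFs hFpos hFK
  have hzero : ∀ g : GL (Fin 2) ℝ, g ∉ gPos673 → F g = 0 := by
    intro g hg
    by_contra h
    exact hg (hFpos g h)
  have hcont : Continuous fun p : BP673 => F (iota673 p) := hF.comp continuous_iota673
  have hsupp : HasCompactSupport fun p : BP673 => F (iota673 p) :=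
    hFs.comp_isClosedEmbedding isClosedEmbedding_iota673
  calc ∫ g, F g ∂μ = ∫ g in gPos673, F g ∂μ :=
        (setIntegral_eq_integral_of_forall_compl_eq_zero hzero).symm
    _ = ∫ g in gPos673, F (iota673 (proj673 g)) ∂μ :=
        setIntegral_congr_fun measurableSet_gPos673 fun g hg => eq_comp_proj673 hFK hg
    _ = ∫ p, F (iota673 p) ∂(pushBP673 μ) :=
        (integral_map measurable_proj673.aemeasurable hcont.aestronglyMeasurable).symm
    _ = ∫ p, F (iota673 p) ∂(Measure.haarScalarFactor (pushBP673 μ) volBP673 • volBP673) := by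
        rw [← hν]
    _ = Measure.haarScalarFactor (pushBP673 μ) volBP673 • ∫ p, F (iota673 p) ∂volBP673 :=
        integral_smul_nnreal_measure _ _
    _ = ((Measure.haarScalarFactor (pushBP673 μ) volBP673 : ℝ) : ℂ) *
          ∫ ζ : ℝ, ∫ r : ℝ, ∫ x : ℝ, F (bR ζ r x) := by
        rw [integral_volBP673 hcont hsupp, NNReal.smul_def, Complex.real_smul]
        rfl

end Fermat.Agent.LT.T6.H673

end

end
-- ===== PACK-END LT/T6/H673/IwasawaR.lean

-- ===== PACK-BEGIN LT/T2/H166/TypeSU2.lean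
section





/-!
# Row LT, tower T2, tool T2.27.33 `SubTypeSU2T291` (helper166, OFF-MAIN)

`subTypeSU2T166 (K) : H291.SubTypeSU2T291 K` -- a `K_∞`-type `τ` is trivial on the elements of
`SU(2)` at a complex place.

Proof.  At a complex place `w` the group `K_w = {k | IsArchCompact w k}` is `U(2)`: the element
supported at `w` with a given unitary component exists and is unique (`exists_archCompact166`,
`local_unique166`, copies of helper878's lemmas).  So `σ(x) = τ(k_x)` is multiplicative and of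
absolute value `1` on the unitary matrices, and `sigma_eq_one166` (`SU2Comm.lean`, Mathlib only)
applies.  Only `IsKType.norm_one` and `IsKType.mul` are used (not the continuity).
-/

set_option autoImplicit false

open IsDedekindDomain NumberField
open scoped Matrix

noncomputable section

namespace Fermat.Agent.LT.T2.H166

open Fermat.Agent.LT.H556.A0
open Fermat.Agent.LT.T2

/-- **T2.27.33 `SubTypeSU2T291`.** -/
theorem subTypeSU2T166 (K : Type) [Field K] [NumberField K] : H291.SubTypeSU2T291 K := by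
  intro τ hτ w hw k hk hdet
  have hnr : ¬ w.IsReal := InfinitePlace.not_isReal_iff_isComplex.mpr hw
  have hex : ∀ x : Matrix (Fin 2) (Fin 2) ℂ, x * xᴴ = 1 →
      ∃ g : G K, IsArchCompact w g ∧ infComp w g = x :=
    fun x hx => exists_archCompact166 w x hx (fun h => absurd h hnr)
  classical
  obtain ⟨σ, hσdef⟩ : ∃ σ : Matrix (Fin 2) (Fin 2) ℂ → ℂ,
      ∀ x, ∀ hx : x * xᴴ = 1, σ x = τ (Classical.choose (hex x hx)) :=
    ⟨fun x => if hx : x * xᴴ = 1 then τ (Classical.choose (hex x hx)) else 0,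
      fun x hx => dif_pos hx⟩
  have hσ : ∀ g : G K, IsArchCompact w g → σ (infComp w g) = τ g := by
    intro g hg
    have hx : infComp w g * (infComp w g)ᴴ = 1 := hg.2.1
    rw [hσdef _ hx]
    have hsp := Classical.choose_spec (hex _ hx)
    rw [local_unique166 hsp.1.1 hg.1 hsp.2]
  have hmul : ∀ x y : Matrix (Fin 2) (Fin 2) ℂ, x * xᴴ = 1 → y * yᴴ = 1 →
      σ (x * y) = σ x * σ y := by
    intro x y hx hy
    obtain ⟨gx, hgx, rfl⟩ := hex x hx
    obtain ⟨gy, hgy, rfl⟩ := hex y hy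
    rw [← infComp_mul166, hσ _ (isArchCompact_mul166 hgx hgy), hσ _ hgx, hσ _ hgy]
    exact hτ.mul w gx gy hgx hgy
  have hne : ∀ x : Matrix (Fin 2) (Fin 2) ℂ, x * xᴴ = 1 → σ x ≠ 0 := by
    intro x hx
    obtain ⟨gx, hgx, rfl⟩ := hex x hx
    rw [hσ _ hgx]
    intro h0
    have h1 := hτ.norm_one w gx hgx
    rw [h0, norm_zero] at h1
    exact zero_ne_one h1
  rw [← hσ k hk]
  exact sigma_eq_one166 σ hmul hne _ hk.2.1 hdet

end Fermat.Agent.LT.T2.H166

end

end
-- ===== PACK-END LT/T2/H166/TypeSU2.lean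

-- ===== PACK-BEGIN LT/T2/H841/CommSphere.lean
section








/-!
# Row LT, tower T2, leaf T2.07.18 `SubCommSphereSphere429` (helper841)

OFF-MAIN.  Two sphere means commute on the cusp functions.

* Different places: the elements commute; Fubini on the box.
* Same place `w`: POINTWISE proof (no Petersson pairing, no frame).  For a cusp function `Q` the
  value `Q(g)` is the average of `Q(g · ι(qmat q))` over the annulus `qA` (right invariance under
  `U(2)` and `ℝ_{>0}`); Fubini moves the average to the innermost position, where it produces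
  `psi841`, which is bi-invariant under `U(2)`; hence
  `vol(qA) · (M_Y M_Y' φ)(g) = ∫∫ (∫∫ psi841(torus d · rotY β' · torus d') sin β') sin β`, and the
  right-hand side is symmetric in `(d, d')` (`psi841_mid_symm`: Cartan decomposition).

Inputs (sub-leaves of helper429's `OpsSpec.lean`, taken as hypotheses):
`SubSpherePres429 K` (T2.07.12), `SubLocCont429 K` (T2.07.30), `SubCartanInf429` (T2.07.32).
-/

set_option autoImplicit false
set_option linter.unusedSectionVars false

open IsDedekindDomain NumberField MeasureTheory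
open Fermat.Agent.LT.H556.A0
open Fermat.Agent.LT.T2 Fermat.Agent.LT.T2.H429

noncomputable section

namespace Fermat.Agent.LT.T2.H841

variable {K : Type} [Field K] [NumberField K]

section

variable (w : InfinitePlace K) (hw : w.IsComplex)

/-- A cusp function is invariant under `ι(qmat q)`, `q` in the annulus. -/
theorem avg_cusp841 {𝔫 : Ideal (𝓞 K)} {Q : G K → ℂ} (hQ : IsCuspFn 𝔫 Q) (g : G K)
    {q : ℂ × ℂ} (hq : q ∈ qA) : Q (g * iota841 w hw (qmat q)) = Q g := by
  obtain ⟨k, r, hr, hk, hqe⟩ := qmat_polar841 (qN_pos_of_mem hq)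
  have hdiag : (Matrix.diagonal (fun _ : Fin 2 => (r : ℂ))).det ≠ 0 := by
    rw [Matrix.det_diagonal]
    simp [hr.ne']
  rw [hqe, iota841_mul w hw (det_ne_zero_of_unitary841 hk) hdiag, ← mul_assoc,
    hQ.arch_scalar w _ (isArchPosScalar_iota841 w hw hr),
    hQ.arch_compact w _ (isArchCompact_iota841 w hw hk)]

/-- Fubini: the average over the annulus commutes with a sphere mean. -/
theorem fubini_sphere841 (hL : SubLocCont429 K) {Φ : G K → ℂ} (hc : Continuous Φ)
    (hb : ∃ C : ℝ, ∀ g : G K, ‖Φ g‖ ≤ C) {H₁ : ℂ × ℂ → G K} (hH : ContinuousOn H₁ qA)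
    {d : ℝ} {Y : ℝ → ℝ → G K} (hY : IsSphereAt w d Y) :
    (∫ q in qA, sphereMean Y Φ (H₁ q))
      = ∫ α in (0 : ℝ)..(2 * Real.pi), ∫ β in (0 : ℝ)..Real.pi,
          (∫ q in qA, Φ (H₁ q * Y α β)) * ((Real.sin β : ℝ) : ℂ) := by
  obtain ⟨C, hC⟩ := hb
  have hcont : ContinuousOn
      (fun p : (ℂ × ℂ) × ℝ × ℝ => Φ (H₁ p.1 * Y p.2.1 p.2.2) * ((Real.sin p.2.2 : ℝ) : ℂ))
      (qA ×ˢ Set.univ) := by
    have h1 : ContinuousOn (fun p : (ℂ × ℂ) × ℝ × ℝ => H₁ p.1) (qA ×ˢ Set.univ) :=
      hH.comp continuousOn_fst (fun p hp => hp.1)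
    have h2 : Continuous (fun p : (ℂ × ℂ) × ℝ × ℝ => Y p.2.1 p.2.2) :=
      (continuous_sphere841 w hL hY).comp continuous_snd
    have h3 : Continuous (fun p : (ℂ × ℂ) × ℝ × ℝ => ((Real.sin p.2.2 : ℝ) : ℂ)) :=
      Complex.continuous_ofReal.comp (Real.continuous_sin.comp
        (continuous_snd.comp continuous_snd))
    exact (hc.comp_continuousOn (h1.mul h2.continuousOn)).mul h3.continuousOn
  have hbd : ∃ C' : ℝ, ∀ (q : ℂ × ℂ) (α β : ℝ),
      ‖Φ (H₁ q * Y α β) * ((Real.sin β : ℝ) : ℂ)‖ ≤ C' := by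
    refine ⟨C, fun q α β => ?_⟩
    rw [norm_mul, Complex.norm_real, Real.norm_eq_abs]
    have h1 := hC (H₁ q * Y α β)
    have h2 := Real.abs_sin_le_one β
    have h3 := norm_nonneg (Φ (H₁ q * Y α β))
    calc ‖Φ (H₁ q * Y α β)‖ * |Real.sin β| ≤ ‖Φ (H₁ q * Y α β)‖ * 1 :=
          mul_le_mul_of_nonneg_left h2 h3
      _ ≤ C := by rw [mul_one]; exact h1
  have hint := integrable_box841 (volume : Measure (ℂ × ℂ)) measurableSet_qA volume_qA_lt_top
    (fun q α β => Φ (H₁ q * Y α β) * ((Real.sin β : ℝ) : ℂ)) (2 * Real.pi) Real.pi hcont hbd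
  have hsw := swap841 ((volume : Measure (ℂ × ℂ)).restrict qA)
    (fun q α β => Φ (H₁ q * Y α β) * ((Real.sin β : ℝ) : ℂ))
    (by positivity : (0 : ℝ) ≤ 2 * Real.pi) Real.pi_pos.le hint
  unfold sphereMean
  rw [hsw]
  refine intervalIntegral.integral_congr fun α _ => ?_
  refine intervalIntegral.integral_congr fun β _ => ?_
  exact integral_mul_const _ _

/-- **Key formula**: `vol(qA) · (M_Y M_Y' φ)(g)` in terms of the averaged function. -/
theorem key841 (hP : SubSpherePres429 K) (hL : SubLocCont429 K) {𝔫 : Ideal (𝓞 K)}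
    (c : Ctx429 K 𝔫) {φ : G K → ℂ} (hφ : IsCuspFn 𝔫 φ) {d d' : ℝ} (hd : 0 < d) (hd' : 0 < d')
    {Y Y' : ℝ → ℝ → G K} (hY : IsSphereAt w d Y) (hY' : IsSphereAt w d' Y') (g : G K) :
    ((((volume : Measure (ℂ × ℂ)) qA).toReal : ℝ) : ℂ) * sphereMean Y (sphereMean Y' φ) g
      = ∫ α in (0 : ℝ)..(2 * Real.pi), ∫ β in (0 : ℝ)..Real.pi,
          (∫ α' in (0 : ℝ)..(2 * Real.pi), ∫ β' in (0 : ℝ)..Real.pi,
            psi841 w hw φ g (midM841 d β' d') * ((Real.sin β' : ℝ) : ℂ))
          * ((Real.sin β : ℝ) : ℂ) := by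
  have h1 : IsCuspFn 𝔫 (sphereMean Y' φ) := hP 𝔫 c w hw d' hd' Y' hY' φ hφ
  have h2 : IsCuspFn 𝔫 (sphereMean Y (sphereMean Y' φ)) := hP 𝔫 c w hw d hd Y hY _ h1
  have s1 : (∫ q in qA, sphereMean Y (sphereMean Y' φ) (g * iota841 w hw (qmat q)))
      = ((((volume : Measure (ℂ × ℂ)) qA).toReal : ℝ) : ℂ)
        * sphereMean Y (sphereMean Y' φ) g := by
    rw [setIntegral_congr_fun measurableSet_qA (fun q hq => avg_cusp841 w hw h2 g hq),
      setIntegral_const]
    simp [Measure.real, Complex.real_smul]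
  rw [← s1, fubini_sphere841 w hL h1.cont h1.bdd
    (H₁ := fun q => g * iota841 w hw (qmat q))
    (continuous_const.continuousOn.mul (continuousOn_iota_qmat_one841 w hw hL)) hY]
  refine intervalIntegral.integral_congr fun α _ => ?_
  refine intervalIntegral.integral_congr fun β _ => ?_
  show (∫ q in qA, sphereMean Y' φ (g * iota841 w hw (qmat q) * Y α β))
      * ((Real.sin β : ℝ) : ℂ) = _
  congr 1
  have hH : ContinuousOn (fun q : ℂ × ℂ => g * iota841 w hw (qmat q) * Y α β) qA :=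
    (continuous_const.continuousOn.mul (continuousOn_iota_qmat_one841 w hw hL)).mul
      continuous_const.continuousOn
  rw [fubini_sphere841 w hL hφ.cont hφ.bdd
    (H₁ := fun q => g * iota841 w hw (qmat q) * Y α β) hH hY']
  refine intervalIntegral.integral_congr fun α' _ => ?_
  refine intervalIntegral.integral_congr fun β' _ => ?_
  show (∫ q in qA, φ (g * iota841 w hw (qmat q) * Y α β * Y' α' β'))
      * ((Real.sin β' : ℝ) : ℂ) = _
  congr 1
  rw [← psi841_sph_mul w hw φ g d d' α β α' β']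
  unfold psi841
  refine setIntegral_congr_fun measurableSet_qA (fun q hq => ?_)
  show φ (g * iota841 w hw (qmat q) * Y α β * Y' α' β')
    = φ (g * iota841 w hw (qmat q * (sphM841 d α β * sphM841 d' α' β')))
  have hS : (sphM841 d α β * sphM841 d' α' β').det ≠ 0 := by
    rw [Matrix.det_mul]
    exact mul_ne_zero (det_sphM841_ne _ _ _) (det_sphM841_ne _ _ _)
  rw [iota841_mul w hw (det_qmat_ne_zero hq) hS,
    iota841_mul w hw (det_sphM841_ne _ _ _) (det_sphM841_ne _ _ _),
    sphere_eq_iota841 w hw hY, sphere_eq_iota841 w hw hY']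
  simp only [mul_assoc]

include hw in
/-- Two sphere means at the SAME complex place commute on the cusp functions. -/
theorem comm_same841 (hP : SubSpherePres429 K) (hL : SubLocCont429 K) (hC : SubCartanInf429)
    {𝔫 : Ideal (𝓞 K)} (c : Ctx429 K 𝔫) {φ : G K → ℂ} (hφ : IsCuspFn 𝔫 φ) {d d' : ℝ}
    (hd : 0 < d) (hd' : 0 < d') {Y Y' : ℝ → ℝ → G K} (hY : IsSphereAt w d Y)
    (hY' : IsSphereAt w d' Y') (g : G K) :
    sphereMean Y (sphereMean Y' φ) g = sphereMean Y' (sphereMean Y φ) g := by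
  have k1 := key841 w hw hP hL c hφ hd hd' hY hY' g
  have k2 := key841 w hw hP hL c hφ hd' hd hY' hY g
  have hsym : ∀ β' : ℝ, psi841 w hw φ g (midM841 d β' d')
      = psi841 w hw φ g (midM841 d' β' d) :=
    fun β' => psi841_mid_symm w hw hC (hφ.arch_compact w) g d β' d'
  simp only [hsym] at k1
  have hv : ((((volume : Measure (ℂ × ℂ)) qA).toReal : ℝ) : ℂ) ≠ 0 := by
    have := ENNReal.toReal_pos volume_qA_pos.ne' volume_qA_lt_top.ne
    exact_mod_cast this.ne'
  exact mul_left_cancel₀ hv (k1.trans k2.symm)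

end

/-- Two sphere means at DIFFERENT places commute on continuous bounded functions. -/
theorem comm_diff841 (hL : SubLocCont429 K) {w w' : InfinitePlace K} (hww : w ≠ w')
    {φ : G K → ℂ} (hc : Continuous φ) (hb : ∃ C : ℝ, ∀ g : G K, ‖φ g‖ ≤ C) {d d' : ℝ}
    {Y Y' : ℝ → ℝ → G K} (hY : IsSphereAt w d Y) (hY' : IsSphereAt w' d' Y') (g : G K) :
    sphereMean Y (sphereMean Y' φ) g = sphereMean Y' (sphereMean Y φ) g := by
  obtain ⟨C, hC⟩ := hb
  have hcomm : ∀ α β α' β' : ℝ, Y' α' β' * Y α β = Y α β * Y' α' β' := fun α β α' β' =>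
    (commute_of_local841 hww (hY α β).1 (hY' α' β').1).symm
  have hYc := continuous_sphere841 w hL hY
  have hYc' := continuous_sphere841 w' hL hY'
  set F : ℝ → ℝ → ℝ → ℝ → ℂ := fun α β α' β' =>
    φ (g * Y α β * Y' α' β') * ((Real.sin β' : ℝ) : ℂ) * ((Real.sin β : ℝ) : ℂ) with hF
  have hFc : Continuous fun p : (ℝ × ℝ) × ℝ × ℝ => F p.1.1 p.1.2 p.2.1 p.2.2 := by
    have h1 : Continuous fun p : (ℝ × ℝ) × ℝ × ℝ => g * Y p.1.1 p.1.2 * Y' p.2.1 p.2.2 :=
      (continuous_const.mul (hYc.comp continuous_fst)).mul (hYc'.comp continuous_snd)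
    have h2 : Continuous fun p : (ℝ × ℝ) × ℝ × ℝ => ((Real.sin p.2.2 : ℝ) : ℂ) :=
      Complex.continuous_ofReal.comp (Real.continuous_sin.comp
        (continuous_snd.comp continuous_snd))
    have h3 : Continuous fun p : (ℝ × ℝ) × ℝ × ℝ => ((Real.sin p.1.2 : ℝ) : ℂ) :=
      Complex.continuous_ofReal.comp (Real.continuous_sin.comp
        (continuous_snd.comp continuous_fst))
    exact ((hc.comp h1).mul h2).mul h3
  have hFb : ∃ C' : ℝ, ∀ x y z t, ‖F x y z t‖ ≤ C' := by
    refine ⟨C, fun x y z t => ?_⟩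
    rw [hF]
    simp only [norm_mul, Complex.norm_real, Real.norm_eq_abs]
    have h1 := hC (g * Y x y * Y' z t)
    have h2 := Real.abs_sin_le_one t
    have h3 := Real.abs_sin_le_one y
    have h4 := norm_nonneg (φ (g * Y x y * Y' z t))
    have h5 := abs_nonneg (Real.sin t)
    have h6 := abs_nonneg (Real.sin y)
    calc ‖φ (g * Y x y * Y' z t)‖ * |Real.sin t| * |Real.sin y|
        ≤ ‖φ (g * Y x y * Y' z t)‖ * 1 * 1 := by
          apply mul_le_mul (mul_le_mul_of_nonneg_left h2 h4) h3 h6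
          exact mul_nonneg h4 zero_le_one
      _ ≤ C := by rw [mul_one, mul_one]; exact h1
  have hsw := swap4_841 F hFc hFb (by positivity : (0 : ℝ) ≤ 2 * Real.pi) Real.pi_pos.le
    (by positivity : (0 : ℝ) ≤ 2 * Real.pi) Real.pi_pos.le
  have eL : sphereMean Y (sphereMean Y' φ) g
      = ∫ α in (0 : ℝ)..(2 * Real.pi), ∫ β in (0 : ℝ)..Real.pi,
          ∫ α' in (0 : ℝ)..(2 * Real.pi), ∫ β' in (0 : ℝ)..Real.pi, F α β α' β' := by
    unfold sphereMean
    refine intervalIntegral.integral_congr fun α _ => ?_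
    refine intervalIntegral.integral_congr fun β _ => ?_
    show (∫ α' in (0 : ℝ)..(2 * Real.pi), ∫ β' in (0 : ℝ)..Real.pi,
        φ (g * Y α β * Y' α' β') * ((Real.sin β' : ℝ) : ℂ)) * ((Real.sin β : ℝ) : ℂ) = _
    rw [← intervalIntegral.integral_mul_const]
    refine intervalIntegral.integral_congr fun α' _ => ?_
    show (∫ β' in (0 : ℝ)..Real.pi,
        φ (g * Y α β * Y' α' β') * ((Real.sin β' : ℝ) : ℂ)) * ((Real.sin β : ℝ) : ℂ) = _
    rw [← intervalIntegral.integral_mul_const]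
  have eR : sphereMean Y' (sphereMean Y φ) g
      = ∫ α' in (0 : ℝ)..(2 * Real.pi), ∫ β' in (0 : ℝ)..Real.pi,
          ∫ α in (0 : ℝ)..(2 * Real.pi), ∫ β in (0 : ℝ)..Real.pi, F α β α' β' := by
    unfold sphereMean
    refine intervalIntegral.integral_congr fun α' _ => ?_
    refine intervalIntegral.integral_congr fun β' _ => ?_
    show (∫ α in (0 : ℝ)..(2 * Real.pi), ∫ β in (0 : ℝ)..Real.pi,
        φ (g * Y' α' β' * Y α β) * ((Real.sin β : ℝ) : ℂ)) * ((Real.sin β' : ℝ) : ℂ) = _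
    rw [← intervalIntegral.integral_mul_const]
    refine intervalIntegral.integral_congr fun α _ => ?_
    show (∫ β in (0 : ℝ)..Real.pi,
        φ (g * Y' α' β' * Y α β) * ((Real.sin β : ℝ) : ℂ)) * ((Real.sin β' : ℝ) : ℂ) = _
    rw [← intervalIntegral.integral_mul_const]
    refine intervalIntegral.integral_congr fun β _ => ?_
    show φ (g * Y' α' β' * Y α β) * ((Real.sin β : ℝ) : ℂ) * ((Real.sin β' : ℝ) : ℂ)
      = φ (g * Y α β * Y' α' β') * ((Real.sin β' : ℝ) : ℂ) * ((Real.sin β : ℝ) : ℂ)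
    rw [mul_assoc g, hcomm α β α' β', ← mul_assoc g]
    ring
  rw [eL, eR, hsw]

/-- **LEAF T2.07.18** `SubCommSphereSphere429`, from the sub-leaves T2.07.12 (`SubSpherePres429`),
T2.07.30 (`SubLocCont429`) and T2.07.32 (`SubCartanInf429`). -/
theorem subCommSphereSphere841 (hP : SubSpherePres429 K) (hL : SubLocCont429 K)
    (hC : SubCartanInf429) : SubCommSphereSphere429 K := by
  intro 𝔫 c w hw d hd Y hY w' hw' d' hd' Y' hY' φ hφ
  funext g
  by_cases hww : w = w'
  · subst hww
    exact comm_same841 w hw hP hL hC c hφ hd hd' hY hY' g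
  · exact comm_diff841 hL hww hφ.cont hφ.bdd hY hY' g

end Fermat.Agent.LT.T2.H841

end

end
-- ===== PACK-END LT/T2/H841/CommSphere.lean

-- ===== PACK-BEGIN LT/T2/H878/FamComm.lean
section









/-!
# Row LT, tower T2, sub-leaf T2.07.21 (helper878), part 3: families `Y_p = k_p a` at one place

OFF-MAIN.  A family `Y : P → GL₂(𝔸_K)` of elements supported at the infinite place `w`,
`Y_p = k_p a` with `k_p` in the compact group at `w` and `a` supported at `w` with a Hermitian
component (`Fam878`), and `Z_p = k_p a⁻¹`.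

* `fam_E1_878`: `∫ φ(x h Y_p) f(h) dh = ∫ φ(x h) f(h Z_p) dh` (right invariance of the measure,
  right invariance of `f` and `φ` under the compact group at `w`);
* `fam_E2_878`: the equality of the kernels, from Gelfand's trick (`biInv_star878`) and the
  invariance `RI` of the mean under the compact group;
* `comm_fam878`: the convolution by `f` commutes with the mean over the family.
-/

set_option autoImplicit false
set_option linter.unusedSectionVars false

open IsDedekindDomain NumberField MeasureTheory Set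
open scoped Matrix Pointwise

noncomputable section

namespace Fermat.Agent.LT.T2.H878

open Fermat.Agent.LT.H556.A0
open Fermat.Agent.LT.T2
open Fermat.Agent.LT.T2.H472

variable {K : Type} [Field K] [NumberField K]

attribute [local instance] Fermat.Agent.LT.T2.borelG

/-- A family `Y_p = k_p a` at the infinite place `w`. -/
structure Fam878 (w : InfinitePlace K) {P : Type} (Y : P → G K) where
  /-- the torus element -/
  a : G K
  a_loc : IsLocalAtInf w a
  a_herm : (infComp w a)ᴴ = infComp w a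
  /-- the compact parts -/
  k : P → G K
  k_cpt : ∀ p, IsArchCompact w (k p)
  Y_eq : ∀ p, Y p = k p * a

/-- The family `Z_p = k_p a⁻¹`. -/
def Fam878.Z {w : InfinitePlace K} {P : Type} {Y : P → G K} (D : Fam878 w Y) : P → G K :=
  fun p => D.k p * D.a⁻¹

theorem Fam878.Y_loc {w : InfinitePlace K} {P : Type} {Y : P → G K} (D : Fam878 w Y) (p : P) :
    IsLocalAtInf w (Y p) := by
  rw [D.Y_eq p]
  exact isLocalAtInf_mul878 (D.k_cpt p).1 D.a_loc

theorem Fam878.Z_loc {w : InfinitePlace K} {P : Type} {Y : P → G K} (D : Fam878 w Y) (p : P) :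
    IsLocalAtInf w (D.Z p) :=
  isLocalAtInf_mul878 (D.k_cpt p).1 (isLocalAtInf_inv472 D.a_loc)

/-- The component of `Z_p` is the conjugate transpose of the component of `Y_p⁻¹`. -/
theorem Fam878.Z_star {w : InfinitePlace K} {P : Type} {Y : P → G K} (D : Fam878 w Y) (p : P) :
    infComp w (D.Z p) = (infComp w (Y p)⁻¹)ᴴ := by
  have hu := (D.k_cpt p).2.1
  have hinv : (infComp w (D.k p))⁻¹ = (infComp w (D.k p))ᴴ := Matrix.inv_eq_right_inv hu
  rw [D.Y_eq p, mul_inv_rev, infComp_mul878, Fam878.Z, infComp_mul878, infComp_inv472,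
    infComp_inv472, Matrix.conjTranspose_mul, hinv, Matrix.conjTranspose_conjTranspose,
    Matrix.conjTranspose_nonsing_inv, D.a_herm]

section analysis878

variable (F : Frame K)

/-- `E1` for a family. -/
theorem fam_E1_878 [F.μ.IsMulRightInvariant] [MeasurableMul (G K)]
    {w : InfinitePlace K} {P : Type} {Y : P → G K}
    (D : Fam878 w Y) {f φ : G K → ℂ}
    (hfR : ∀ k : G K, IsArchCompact w k → ∀ g, f (g * k) = f g)
    (hφR : ∀ k : G K, IsArchCompact w k → ∀ g, φ (g * k) = φ g) (p : P) (x : G K) :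
    ∫ h, φ (x * h * Y p) * f h ∂F.μ = ∫ h, φ (x * h) * f (h * D.Z p) ∂F.μ := by
  have hki := isArchCompact_inv878 (D.k_cpt p)
  have h1 : ∫ h, φ (x * h * Y p) * f h ∂F.μ = ∫ h, φ (x * h * D.a) * f h ∂F.μ := by
    rw [← integral_mul_right_eq_self (μ := F.μ) (fun h => φ (x * h * Y p) * f h) (D.k p)⁻¹]
    refine integral_congr_ae (Filter.Eventually.of_forall fun h => ?_)
    show φ (x * (h * (D.k p)⁻¹) * Y p) * f (h * (D.k p)⁻¹) = φ (x * h * D.a) * f h
    rw [hfR _ hki, D.Y_eq p]
    congr 2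
    group
  have h2 : ∫ h, φ (x * h) * f (h * D.Z p) ∂F.μ = ∫ h, φ (x * h * D.a) * f h ∂F.μ := by
    rw [← integral_mul_right_eq_self (μ := F.μ) (fun h => φ (x * h) * f (h * D.Z p))
      (D.a * (D.k p)⁻¹)]
    refine integral_congr_ae (Filter.Eventually.of_forall fun h => ?_)
    show φ (x * (h * (D.a * (D.k p)⁻¹))) * f (h * (D.a * (D.k p)⁻¹) * D.Z p)
      = φ (x * h * D.a) * f h
    have e1 : x * (h * (D.a * (D.k p)⁻¹)) = x * h * D.a * (D.k p)⁻¹ := by group
    have e2 : h * (D.a * (D.k p)⁻¹) * D.Z p = h := by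
      unfold Fam878.Z
      group
    rw [e1, e2, hφR _ hki]
  rw [h1, h2]

/-- `E2` for a family: the equality of the kernels (Gelfand's trick). -/
theorem fam_E2_878 (hC : H429.SubCartanInf429)
    {w : InfinitePlace K} {P : Type} [MeasurableSpace P] (ν₀ : Measure P) (B' : Set P)
    {Y : P → G K} (D : Fam878 w Y) {f : G K → ℂ} (wt : P → ℂ)
    (hfR : ∀ k : G K, IsArchCompact w k → ∀ g, f (g * k) = f g)
    (hfL : ∀ k : G K, IsArchCompact w k → ∀ g, f (k * g) = f g)
    (RI : ∀ (h k' : G K), IsArchCompact w k' →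
      ∫ p in B', f (h * k' * D.Z p) * wt p ∂ν₀ = ∫ p in B', f (h * D.Z p) * wt p ∂ν₀)
    (h : G K) :
    ∫ p in B', f ((Y p)⁻¹ * h) * wt p ∂ν₀ = ∫ p in B', f (h * D.Z p) * wt p ∂ν₀ := by
  obtain ⟨h', hs, hh⟩ := exists_star878 w h
  have step1 : ∀ p, f ((Y p)⁻¹ * h) = f (h' * D.Z p) := by
    intro p
    have hsm := star_mul878 (y := (Y p)⁻¹) (z := D.Z p) (isLocalAtInf_inv472 (D.Y_loc p))
      (D.Z_loc p) (D.Z_star p) hs hh
    exact (biInv_star878 hC w f hfR hfL hsm.1 hsm.2).symm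
  have step2 : ∫ p in B', f (h' * D.Z p) * wt p ∂ν₀ = ∫ p in B', f (h * D.Z p) * wt p ∂ν₀ := by
    refine biInv_star878 hC w (fun g => ∫ p in B', f (g * D.Z p) * wt p ∂ν₀) ?_ ?_ hs hh
    · intro k' hk' g
      exact RI g k' hk'
    · intro k' hk' g
      show ∫ p in B', f (k' * g * D.Z p) * wt p ∂ν₀ = ∫ p in B', f (g * D.Z p) * wt p ∂ν₀
      refine integral_congr_ae (Filter.Eventually.of_forall fun p => ?_)
      show f (k' * g * D.Z p) * wt p = f (g * D.Z p) * wt p
      rw [mul_assoc, hfL k' hk']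
  rw [← step2]
  refine integral_congr_ae (Filter.Eventually.of_forall fun p => ?_)
  show f ((Y p)⁻¹ * h) * wt p = f (h' * D.Z p) * wt p
  rw [step1 p]

theorem Fam878.Z_eq {w : InfinitePlace K} {P : Type} {Y : P → G K} (D : Fam878 w Y) (p : P) :
    D.Z p = Y p * D.a⁻¹ * D.a⁻¹ := by
  rw [D.Y_eq p, Fam878.Z]
  group

/-- **The convolution by `f` commutes with the mean over the family.** -/
theorem comm_fam878 (hC : H429.SubCartanInf429) (ht1 : T1.T1Out K) (F : Frame K)
    {w : InfinitePlace K} {P : Type} [TopologicalSpace P] [T2Space P]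
    [SecondCountableTopology P] [MeasurableSpace P] [BorelSpace P] (ν₀ : Measure P)
    [IsFiniteMeasureOnCompacts ν₀] [SFinite ν₀]
    {B' B : Set P} (hB' : MeasurableSet B') (hB : IsCompact B) (hBB : B' ⊆ B)
    {Y : P → G K} (hY : Continuous Y) (D : Fam878 w Y) {wt : P → ℂ} (hwt : Continuous wt)
    {f φ : G K → ℂ} (hf : Continuous f) (hfc : HasCompactSupport f) (hφ : Continuous φ)
    (hfR : ∀ k : G K, IsArchCompact w k → ∀ g, f (g * k) = f g)
    (hfL : ∀ k : G K, IsArchCompact w k → ∀ g, f (k * g) = f g)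
    (hφR : ∀ k : G K, IsArchCompact w k → ∀ g, φ (g * k) = φ g)
    (RI : ∀ (h k' : G K), IsArchCompact w k' →
      ∫ p in B', f (h * k' * D.Z p) * wt p ∂ν₀ = ∫ p in B', f (h * D.Z p) * wt p ∂ν₀)
    (x : G K) :
    ∫ h, (∫ p in B', φ (x * h * Y p) * wt p ∂ν₀) * f h ∂F.μ
      = ∫ p in B', (∫ h, φ (x * Y p * h) * f h ∂F.μ) * wt p ∂ν₀ := by
  obtain ⟨-, hlc, ht2, hsc⟩ := ht1.locComp
  have := hlc
  have := ht2
  have := hsc
  have : BorelSpace (G K) := ⟨rfl⟩
  have := F.haar
  have : F.μ.IsMulRightInvariant := ht1.unimod F.μ F.haar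
  have hZ : Continuous D.Z := by
    have : D.Z = fun p => Y p * D.a⁻¹ * D.a⁻¹ := funext D.Z_eq
    rw [this]
    exact (hY.mul continuous_const).mul continuous_const
  exact comm_abstract878 F.μ ν₀ hf hfc hφ hY hZ hwt hB' hB hBB
    (fam_E1_878 F D hfR hφR) (fam_E2_878 hC ν₀ B' D wt hfR hfL RI) x

/-- Integrability of the mean of a convolution (for the conversion of the iterated integrals). -/
theorem fam_mean_conv_integrable878 (ht1 : T1.T1Out K) (F : Frame K)
    {P : Type} [TopologicalSpace P] [T2Space P]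
    [SecondCountableTopology P] [MeasurableSpace P] [BorelSpace P] (ν₀ : Measure P)
    [IsFiniteMeasureOnCompacts ν₀] [SFinite ν₀]
    {B' B : Set P} (hB' : MeasurableSet B') (hB : IsCompact B) (hBB : B' ⊆ B)
    {Y : P → G K} (hY : Continuous Y) {wt : P → ℂ} (hwt : Continuous wt)
    {f φ : G K → ℂ} (hf : Continuous f) (hfc : HasCompactSupport f) (hφ : Continuous φ)
    (x : G K) :
    IntegrableOn (fun p => (∫ h, φ (x * Y p * h) * f h ∂F.μ) * wt p) B' ν₀ := by
  obtain ⟨-, hlc, ht2, hsc⟩ := ht1.locComp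
  have := hlc
  have := ht2
  have := hsc
  have : BorelSpace (G K) := ⟨rfl⟩
  have := F.haar
  exact mean_conv_integrable878 F.μ ν₀ hf hfc hφ hY hwt hB' hB hBB x

/-- Integrability of the integrand of a mean. -/
theorem fam_mean_integrable878 (ht1 : T1.T1Out K)
    {P : Type} [TopologicalSpace P] [T2Space P]
    [SecondCountableTopology P] [MeasurableSpace P] [BorelSpace P] (ν₀ : Measure P)
    [IsFiniteMeasureOnCompacts ν₀]
    {B' B : Set P} (hB : IsCompact B) (hBB : B' ⊆ B)
    {Y : P → G K} (hY : Continuous Y) {wt : P → ℂ} (hwt : Continuous wt)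
    {φ : G K → ℂ} (hφ : Continuous φ) (x : G K) :
    IntegrableOn (fun p => φ (x * Y p) * wt p) B' ν₀ := by
  obtain ⟨-, hlc, ht2, hsc⟩ := ht1.locComp
  have hc : Continuous fun p => φ (x * Y p) * wt p :=
    (hφ.comp (continuous_const.mul hY)).mul hwt
  exact (hc.continuousOn.integrableOn_compact hB).mono_set hBB

end analysis878

end Fermat.Agent.LT.T2.H878

end

end
-- ===== PACK-END LT/T2/H878/FamComm.lean

-- ===== PACK-BEGIN LT/T2/H511/FDTop.lean
section



/-!
# Row LT, tower T2, leaf T2.03a = `H386.LeafFD` (owner helper511): THE TOP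

OFF-MAIN.  `leafFD_of_leaves511 : LeafContr K → LeafUnifSmooth K → LeafConjAlg K → LeafCpt K →
H386.LeafFD K` (VERBATIM the leaf of `LT/T2/H386/GPSSpec.lean`).
-/

set_option autoImplicit false

open IsDedekindDomain NumberField MeasureTheory
open Fermat.Agent.LT.H556.A0

noncomputable section

namespace Fermat.Agent.LT.T2.H511

open Fermat.Agent.LT.T2 Fermat.Agent.LT.T2.H386

variable {K : Type} [Field K] [NumberField K]

/-! ## 1. Algebra of `unip386` -/

theorem unip386_zero511 : unip386 (0 : Adl K) = 1 := by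
  apply Units.ext
  rw [unip386_coe]
  ext i j
  fin_cases i <;> fin_cases j <;> simp

theorem unip386_add511 (y y' : Adl K) : unip386 (y + y') = unip386 y * unip386 y' := by
  apply Units.ext
  rw [Units.val_mul, unip386_coe, unip386_coe, unip386_coe]
  ext i j
  fin_cases i <;> fin_cases j <;> simp [Matrix.mul_apply, Fin.sum_univ_two, add_comm]

/-- The conjugated one-parameter group `c(y) = ω⁻¹ n(y) ω`. -/
def cgrp511 (ω : G K) (y : Adl K) : G K := ω⁻¹ * unip386 y * ω

theorem cgrp511_zero (ω : G K) : cgrp511 ω 0 = 1 := by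
  simp [cgrp511, unip386_zero511]

theorem cgrp511_add (ω : G K) (y y' : Adl K) :
    cgrp511 ω (y + y') = cgrp511 ω y * cgrp511 ω y' := by
  simp only [cgrp511, unip386_add511]
  group

/-! ## 2. Expansion of the iterated backward difference -/

theorem bdiff511_eq_sum (us : List (Adl K)) :
    ∀ (Ψ : Adl K → ℂ) (y : Adl K),
      bdiff511 us Ψ y
        = ((us.sublists').map (fun l => (-1 : ℂ) ^ l.length * Ψ (y - l.sum))).sum := by
  induction us with
  | nil => intro Ψ y; simp [bdiff511]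
  | cons u us ih =>
    intro Ψ y
    have h1 : bdiff511 (u :: us) Ψ y = bdiff511 us (fun y => Ψ y - Ψ (y - u)) y := rfl
    rw [h1, ih, List.sublists'_cons, List.map_append, List.sum_append, List.map_map]
    rw [← List.sum_map_add]
    refine congrArg List.sum (List.map_congr_left fun l _ => ?_)
    simp only [Function.comp_apply, List.length_cons, List.sum_cons, pow_succ]
    have : y - l.sum - u = y - (u + l.sum) := by abel
    rw [this]
    ring

/-- Two functions with the same values at the relevant points have the same iterated difference,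
the steps being transformed by an additive map. -/
theorem bdiff511_congr (vs : List (Adl K)) (φ₁ φ₂ : Adl K → Adl K)
    (h₁ : ∀ l : List (Adl K), (l.map φ₁).sum = φ₁ l.sum)
    (h₂ : ∀ l : List (Adl K), (l.map φ₂).sum = φ₂ l.sum)
    (Ψ : Adl K → ℂ)
    (hΨ : ∀ l : List (Adl K), l.Sublist vs → Ψ (0 - φ₁ l.sum) = Ψ (0 - φ₂ l.sum)) :
    bdiff511 (vs.map φ₁) Ψ 0 = bdiff511 (vs.map φ₂) Ψ 0 := by
  rw [bdiff511_eq_sum, bdiff511_eq_sum, List.sublists'_map, List.sublists'_map, List.map_map,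
    List.map_map]
  refine congrArg List.sum (List.map_congr_left fun l hl => ?_)
  have hsub : l.Sublist vs := (List.mem_sublists'.1 hl)
  simp only [Function.comp_apply, List.length_map, h₁, h₂]
  rw [hΨ l hsub]

/-! ## 3. `fdiff386` along the orbit of the conjugated group -/

theorem fdiff386_eq_bdiff511 (x' ω : G K) (step : Adl K → Adl K)
    (hstep : ∀ v : Adl K, conjUnip386 x' (-v) = cgrp511 ω (-(step v)))
    (vs : List (Adl K)) :
    ∀ (g : G K → ℂ) (h : G K) (y : Adl K),
      fdiff386 x' vs g (cgrp511 ω y * h)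
        = bdiff511 (vs.map step) (fun y' => g (cgrp511 ω y' * h)) y := by
  induction vs with
  | nil => intro g h y; rfl
  | cons v vs ih =>
    intro g h y
    have h1 : fdiff386 x' (v :: vs) g = fdiff386 x' vs (diff386 x' v g) := rfl
    have h2 : bdiff511 ((v :: vs).map step) (fun y' => g (cgrp511 ω y' * h)) y
        = bdiff511 (vs.map step)
            (fun y' => g (cgrp511 ω y' * h) - g (cgrp511 ω (y' - step v) * h)) y := rfl
    rw [h1, h2, ih]
    congr 1
    funext y'
    simp only [diff386]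
    rw [hstep v, ← mul_assoc, ← cgrp511_add]
    have e : -(step v) + y' = y' - step v := by abel
    rw [e]

/-! ## 4. Infinite and finite parts -/

theorem infPart511_add_finPart511 (y : Adl K) : infPart511 y + finPart511 y = y := by
  refine Prod.ext ?_ ?_
  · show y.1 + 0 = y.1
    simp
  · show (0 : FiniteAdeleRing (𝓞 K) K) + y.2 = y.2
    simp

theorem infPart511_snd (y : Adl K) : (infPart511 y).2 = 0 := rfl

theorem infPart511_fst (y : Adl K) : (infPart511 y).1 = y.1 := rfl

theorem infPart511_neg (y : Adl K) : infPart511 (-y) = -infPart511 y := by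
  refine Prod.ext ?_ ?_
  · rfl
  · show (0 : FiniteAdeleRing (𝓞 K) K) = -0
    simp

theorem infPart511_zero : infPart511 (0 : Adl K) = 0 := rfl

theorem infPart511_add (y y' : Adl K) : infPart511 (y + y') = infPart511 y + infPart511 y' := by
  refine Prod.ext ?_ ?_
  · rfl
  · show (0 : FiniteAdeleRing (𝓞 K) K) = 0 + 0
    simp

theorem infPart511_sum (l : List (Adl K)) : (l.map infPart511).sum = infPart511 l.sum := by
  induction l with
  | nil => simp [infPart511_zero]
  | cons a l ih => simp [ih, infPart511_add]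

theorem finPart511_congr {y y' : Adl K} (h : y.2 = y'.2) : finPart511 y = finPart511 y' := by
  unfold finPart511
  rw [h]

/-! ## 5. THE TOP -/

/-- **T2.03a from its four sub-leaves.** -/
theorem leafFD_of_leaves511 (hA : LeafContr K) (hB : LeafUnifSmooth K) (hC : LeafConjAlg K)
    (hD : LeafCpt K) : H386.LeafFD K := by
  intro hT1 𝔫 h𝔫 f hf 𝒟 h𝒟 N
  obtain ⟨hcpt1, hcpt2, hcpt3, hcpt4⟩ := hD hT1
  obtain ⟨hAlg1, hAlg2, hAlg3⟩ := hC
  -- reduction theory
  obtain ⟨Ω, m₀, M₀, hΩ, hm₀, -, hSiegel⟩ := hT1.siegelCompact 1 one_pos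
  set n : ℕ := Module.finrank ℚ K with hn
  have hnpos : 0 < n := Module.finrank_pos
  set M : ℕ := n * N with hM
  -- the integer `m`
  have hneg : IsCompact (-𝒟) := h𝒟.neg
  obtain ⟨m, hm, hcontr⟩ := hA hT1 𝔫 h𝔫 Ω hΩ (sumsLE511 (-𝒟) M) (hcpt4 (-𝒟) hneg M)
  -- the bound `R` of the infinite components of `m 𝒟`
  have h𝒟m : IsCompact ((fun v : Adl K => (m : Adl K) * v) '' 𝒟) :=
    h𝒟.image (continuous_const.mul continuous_id)
  obtain ⟨R, hR0, hR⟩ := hcpt2 _ h𝒟m
  -- uniform smoothness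
  obtain ⟨C₁, hC₁0, hUS⟩ := hB hT1 𝔫 h𝔫 f hf Ω hΩ R M
  -- the compact set `W`
  have hW : IsCompact (conjSet511 Ω (box511 𝒟 R m)) := hcpt1 Ω hΩ _ (hcpt3 𝒟 h𝒟 R m)
  refine ⟨C₁ / m₀ ^ N, max 1 (1 / m₀), M, conjSet511 Ω (box511 𝒟 R m),
    div_nonneg hC₁0 (pow_nonneg hm₀.le N), lt_max_of_lt_left one_pos, hW, ?_⟩
  intro x t hx ht
  have ht1 : 1 ≤ t := le_trans (le_max_left _ _) ht
  have ht2 : 1 / m₀ ≤ t := le_trans (le_max_right _ _) ht
  have htpos : 0 < t := lt_of_lt_of_le one_pos ht1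
  obtain ⟨β₀, z, a, ω, s, hβ₀, hz, hs, ha, hω, hxeq, hs1, -⟩ := hSiegel x t hx ht1
  -- `s ≥ 1`
  have hsn : 1 ≤ s ^ n := by
    have : 1 ≤ m₀ * t := by
      have := mul_le_mul_of_nonneg_left ht2 hm₀.le
      rwa [mul_one_div_cancel hm₀.ne'] at this
    exact le_trans this hs1
  have hs_one : 1 ≤ s := by
    by_contra hlt
    rw [not_le] at hlt
    have : s ^ n < 1 := pow_lt_one₀ hs.le hlt hnpos.ne'
    exact absurd hsn (not_le.2 this)
  -- the conjugations
  obtain ⟨d, hd, hdconj⟩ := hAlg1 m hm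
  obtain ⟨σ, hσ2, hσn, haconj⟩ := hAlg3 a s hs ha
  have hzconj := hAlg2 z hz
  set x' : G K := (T1.ratG K d)⁻¹ * z * a * ω with hx'
  have hconj : ∀ v : Adl K, conjUnip386 x' v = cgrp511 ω ((m : Adl K) * v * σ) := by
    intro v
    have e1 : conjUnip386 x' v
        = ω⁻¹ * (a⁻¹ * (z⁻¹ * (T1.ratG K d * unip386 v * (T1.ratG K d)⁻¹) * z) * a) * ω := by
      simp only [conjUnip386, hx']
      group
    rw [e1, hdconj, hzconj, haconj]
    rfl
  -- the upper triangular rational element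
  have hβ : T1.IsUpperRat K (β₀ * d) := by
    unfold T1.IsUpperRat at hβ₀ hd ⊢
    rw [Matrix.GeneralLinearGroup.coe_mul, Matrix.mul_apply, Fin.sum_univ_two, hβ₀, hd]
    simp
  have hxβ : x = T1.ratG K (β₀ * d) * x' := by
    rw [hxeq, map_mul, hx']
    group
  refine ⟨β₀ * d, x', hβ, hxβ, ?_, ?_⟩
  · -- the conjugates lie in `W`
    intro v hv
    rw [hconj v]
    refine ⟨ω, hω, (m : Adl K) * v * σ, ⟨?_, v, hv, ?_⟩, rfl⟩
    · intro w
      have e : (((m : Adl K) * v * σ).1 w) = ((m : Adl K) * v).1 w * σ.1 w := rfl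
      rw [e, norm_mul, hσn w]
      have h1 := hR _ ⟨v, hv, rfl⟩ w
      have h2 : s⁻¹ ≤ 1 := inv_le_one_of_one_le₀ hs_one
      calc ‖((m : Adl K) * v).1 w‖ * s⁻¹ ≤ R * 1 :=
            mul_le_mul h1 h2 (inv_nonneg.2 hs.le) hR0
        _ = R := mul_one R
    · have e : (((m : Adl K) * v * σ).2) = ((m : Adl K) * v).2 * σ.2 := rfl
      rw [e, hσ2, mul_one]
  · -- the bound
    intro vs hvsM hvs h
    set step : Adl K → Adl K := fun v => (m : Adl K) * v * σ with hstep
    have hstepneg : ∀ v : Adl K, conjUnip386 x' (-v) = cgrp511 ω (-(step v)) := by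
      intro v
      rw [hconj (-v)]
      congr 1
      simp only [hstep]
      ring
    set Ψ : Adl K → ℂ := fun y => f (cgrp511 ω y * h) with hΨ
    have e0 : fdiff386 x' vs f h = bdiff511 (vs.map step) Ψ 0 := by
      have := fdiff386_eq_bdiff511 x' ω step hstepneg vs f h 0
      rwa [cgrp511_zero, one_mul] at this
    -- additivity of the steps
    have hsum₁ : ∀ l : List (Adl K), (l.map step).sum = step l.sum := by
      intro l
      induction l with
      | nil => simp [hstep]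
      | cons b l ih =>
        rw [List.map_cons, List.sum_cons, ih, List.sum_cons]
        show (m : Adl K) * b * σ + (m : Adl K) * l.sum * σ = (m : Adl K) * (b + l.sum) * σ
        ring
    have hsum₂ : ∀ l : List (Adl K),
        (l.map (fun v => infPart511 (step v))).sum = infPart511 (step l.sum) := by
      intro l
      have : l.map (fun v => infPart511 (step v)) = (l.map step).map infPart511 := by
        rw [List.map_map]; rfl
      rw [this, infPart511_sum, hsum₁]
    -- the finite parts of the steps can be dropped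
    have hdrop : ∀ l : List (Adl K), l.Sublist vs →
        Ψ (0 - step l.sum) = Ψ (0 - infPart511 (step l.sum)) := by
      intro l hl
      have hlM : l.length ≤ M := hvsM ▸ hl.length_le
      have hl𝒟 : ∀ v ∈ l, v ∈ 𝒟 := fun v hv => hvs v (hl.subset hv)
      set y : Adl K := 0 - step l.sum with hy
      have hy2 : 0 - infPart511 (step l.sum) = infPart511 y := by
        rw [hy, zero_sub, zero_sub, infPart511_neg]
      rw [hy2]
      have hdec : y = finPart511 y + infPart511 y := by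
        rw [add_comm]; exact (infPart511_add_finPart511 y).symm
      have hmem : -l.sum ∈ sumsLE511 (-𝒟) M := by
        refine ⟨l.map (fun x => -x), by simpa using hlM, ?_, List.sum_neg l⟩
        intro v hv
        obtain ⟨b, hb, rfl⟩ := List.mem_map.1 hv
        exact Set.neg_mem_neg.2 (hl𝒟 b hb)
      have hfin : finPart511 y = finPart511 ((m : Adl K) * (-l.sum)) := by
        apply finPart511_congr
        have e1 : y = (m : Adl K) * (-l.sum) * σ := by
          rw [hy, zero_sub]; simp only [hstep]; ring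
        have e2 : ((m : Adl K) * (-l.sum) * σ).2 = ((m : Adl K) * (-l.sum)).2 * σ.2 := rfl
        rw [e1, e2, hσ2, mul_one]
      have hlev : InLevelGroup 𝔫 (cgrp511 ω (finPart511 y)) := by
        rw [hfin]
        exact hcontr ω hω _ hmem
      show f (cgrp511 ω y * h) = f (cgrp511 ω (infPart511 y) * h)
      conv_lhs => rw [hdec, cgrp511_add, mul_assoc]
      exact hf.level_left _ hlev _
    have e1 : bdiff511 (vs.map step) Ψ 0
        = bdiff511 (vs.map (fun v => infPart511 (step v))) Ψ 0 :=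
      bdiff511_congr vs step (fun v => infPart511 (step v)) hsum₁ hsum₂ Ψ hdrop
    -- uniform smoothness with `ε = 1 / s`
    have hε0 : 0 < s⁻¹ := inv_pos.2 hs
    have hε1 : s⁻¹ ≤ 1 := inv_le_one_of_one_le₀ hs_one
    have hτ : ∀ τ ∈ vs.map (fun v => infPart511 (step v)),
        τ.2 = 0 ∧ ∀ w : InfinitePlace K, ‖τ.1 w‖ ≤ s⁻¹ * R := by
      intro τ hτ
      obtain ⟨v, hv, rfl⟩ := List.mem_map.1 hτ
      refine ⟨infPart511_snd _, fun w => ?_⟩
      rw [infPart511_fst]
      have e : ((step v).1 w) = ((m : Adl K) * v).1 w * σ.1 w := rfl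
      rw [e, norm_mul, hσn w, mul_comm]
      exact mul_le_mul_of_nonneg_left (hR _ ⟨v, hvs v hv, rfl⟩ w) hε0.le
    have hbound := hUS ω hω h s⁻¹ hε0 hε1 (vs.map (fun v => infPart511 (step v)))
      (by rw [List.length_map]; exact hvsM) hτ
    have hΨeq : (fun y => f (ω⁻¹ * unip386 y * ω * h)) = Ψ := rfl
    rw [hΨeq] at hbound
    rw [e0, e1]
    -- arithmetic
    have hsM : (s⁻¹) ^ M = ((s ^ n) ^ N)⁻¹ := by
      rw [hM, pow_mul, inv_pow, inv_pow]
    have hmt : (m₀ * t) ^ N ≤ (s ^ n) ^ N := pow_le_pow_left₀ (by positivity) hs1 N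
    have hpos1 : 0 < (m₀ * t) ^ N := by positivity
    have hpos2 : 0 < (s ^ n) ^ N := by positivity
    have h3 : ((s ^ n) ^ N)⁻¹ ≤ ((m₀ * t) ^ N)⁻¹ := inv_anti₀ hpos1 hmt
    calc ‖bdiff511 (vs.map (fun v => infPart511 (step v))) Ψ 0‖ * t ^ N
        ≤ (C₁ * (s⁻¹) ^ M) * t ^ N :=
          mul_le_mul_of_nonneg_right hbound (pow_nonneg htpos.le N)
      _ ≤ (C₁ * ((m₀ * t) ^ N)⁻¹) * t ^ N := by
          rw [hsM]
          exact mul_le_mul_of_nonneg_right (mul_le_mul_of_nonneg_left h3 hC₁0)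
            (pow_nonneg htpos.le N)
      _ = C₁ / m₀ ^ N := by
          rw [mul_pow]
          field_simp

end Fermat.Agent.LT.T2.H511

end

end
-- ===== PACK-END LT/T2/H511/FDTop.lean

-- ===== PACK-BEGIN LT/T2/H323/Count/Leaf.lean
section








/-!
# Row LT, tower T2, sub-leaf T2.03c.1 `LeafCount` (helper323), OFF-MAIN : THE COUNT

`leafCount323 K : Fermat.Agent.LT.T2.H767.LeafCount K`, VERBATIM against
`LT/T2/H767/LocalL2Spec.lean` (helper767, sha 50e6aa79), for every number field `K`: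
for a compact `C ⊆ GL₂(𝔸_K)` the number of `δ ∈ GL₂(K)` with `δ x ∈ x C` is `≤ B · H(x)` on
`{H ≥ 1}`.

Only `T1Out.siegelCompact` (with `c = 1`) is used.  `x = β z a ω₀`; `γ = β⁻¹ δ β` satisfies
`γ a = a ω₁`, `ω₁ = ω₀ ω ω₀⁻¹ ∈ C₁ = Ω C Ω⁻¹` (compact); the entries of the elements of `C₁` lie
in a compact set `E` of adeles, which has a common denominator `d` and a common bound `S` at the
infinite places (`Compact.lean`); so `d γ_ij ∈ 𝓞 K`, `|γ₀₀|_w, |γ₁₁|_w ≤ S`, `|γ₁₀|_w ≤ S / s`,
`|γ₀₁|_w ≤ s S` (`Alg.lean`), and the number of such entries is bounded by the count of lattice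
points in the integral basis (`Lattice.lean`): `(A S + 1)^n` twice, `(A S / s + 1)^n ≤
(A S / s₀ + 1)^n` and `(A s S + 1)^n = s^n (A S + 1/s)^n ≤ M t (A S + 1/s₀)^n`, `s₀ = min(1, m)`.
-/

set_option autoImplicit false
set_option linter.style.haveILetI false
set_option linter.unusedSectionVars false

open IsDedekindDomain NumberField
open Fermat.Agent.LT.H556.A0 Fermat.Agent.LT

noncomputable section

namespace Fermat.Agent.LT.T2.H323

variable (K : Type) [Field K] [NumberField K]

open scoped Classical in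
/-- A finite set of matrices has at most as many elements as the product of the numbers of its
entries. -/
theorem card_le_prod_entries323 (T : Finset (GL (Fin 2) K)) :
    T.card ≤ (T.image fun γ => γ.val 0 0).card * ((T.image fun γ => γ.val 0 1).card *
      ((T.image fun γ => γ.val 1 0).card * (T.image fun γ => γ.val 1 1).card)) := by
  classical
  have h : T.card ≤ ((T.image fun γ => γ.val 0 0) ×ˢ (T.image fun γ => γ.val 0 1) ×ˢ
      (T.image fun γ => γ.val 1 0) ×ˢ (T.image fun γ => γ.val 1 1)).card := by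
    refine Finset.card_le_card_of_injOn
      (fun γ => (γ.val 0 0, γ.val 0 1, γ.val 1 0, γ.val 1 1)) ?_ ?_
    · intro γ hγ
      have hγ' : γ ∈ T := hγ
      simp only [Finset.coe_product, Set.mem_prod, Finset.mem_coe]
      exact ⟨Finset.mem_image_of_mem _ hγ', Finset.mem_image_of_mem _ hγ',
        Finset.mem_image_of_mem _ hγ', Finset.mem_image_of_mem _ hγ'⟩
    · intro γ _ γ' _ h
      simp only [Prod.mk.injEq] at h
      apply Units.ext
      ext i j
      fin_cases i <;> fin_cases j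
      exacts [h.1, h.2.1, h.2.2.1, h.2.2.2]
  rw [Finset.card_product, Finset.card_product, Finset.card_product] at h
  exact h

/-- **T2.03c.1 THE COUNT.** -/
theorem leafCount323 : H767.LeafCount K := by
  intro hT C hC
  classical
  obtain ⟨Ω, m, M, hΩ, hm, hmM, hS⟩ := hT.siegelCompact 1 one_pos
  have hM : 0 < M := lt_of_lt_of_le hm hmM
  -- the compact set `C₁ = Ω C Ω⁻¹`
  set C₁ : Set (G K) :=
    (fun p : G K × G K × G K => p.1 * p.2.1 * p.2.2⁻¹) '' (Ω ×ˢ C ×ˢ Ω) with hC₁
  have hC₁c : IsCompact C₁ := (hΩ.prod (hC.prod hΩ)).image (by fun_prop)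
  -- the compact set of the entries
  set E : Set (Adl K) := ⋃ i : Fin 2, ⋃ j : Fin 2, (fun g : G K => g.val i j) '' C₁ with hE
  have hEc : IsCompact E := isCompact_iUnion fun i => isCompact_iUnion fun j =>
    hC₁c.image (Units.continuous_val.matrix_elem i j)
  obtain ⟨d, S, hd0, hS0, hb⟩ := exists_bound_of_isCompact323 K E hEc
  obtain ⟨A, hA0, hcount⟩ := exists_card_le_of_denom323 K d hd0
  have hn1 : 1 ≤ Module.finrank ℚ K := Module.finrank_pos
  set n : ℕ := Module.finrank ℚ K with hn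
  set s₀ : ℝ := min 1 m with hs₀
  have hs₀pos : 0 < s₀ := lt_min one_pos hm
  refine ⟨(A * S + 1) ^ n * ((A * S + 1 / s₀) ^ n * M) * (A * (S / s₀) + 1) ^ n *
    (A * S + 1) ^ n, 1, one_pos, fun x t hx ht T hTC => ?_⟩
  have ht0 : 0 < t := lt_of_lt_of_le one_pos ht
  obtain ⟨β, z, a, ω₀, s, hβ, hz, hs, ha, hω₀, hxeq, hms, hsM⟩ := hS x t hx ht
  -- `s ≥ s₀`
  have hss₀ : s₀ ≤ s := by
    by_cases h1 : 1 ≤ s
    · exact (min_le_left _ _).trans h1
    · rw [not_le] at h1
      have h2 : s ^ n ≤ s := by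
        calc s ^ n ≤ s ^ 1 := pow_le_pow_of_le_one hs.le h1.le hn1
          _ = s := pow_one s
      have h3 : m ≤ m * t := by nlinarith
      exact (min_le_right _ _).trans (h3.trans (hms.trans h2))
  -- the conjugated set
  set T' : Finset (GL (Fin 2) K) := T.image (fun δ => β⁻¹ * δ * β) with hT'
  have hcardT : T'.card = T.card := Finset.card_image_of_injective _ (by
    intro δ δ' h
    exact mul_left_cancel (mul_right_cancel h))
  have hent : ∀ γ ∈ T', ∃ ω₁ ∈ C₁, T1.ratG K γ * a = a * ω₁ := by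
    intro γ hγ
    obtain ⟨δ, hδ, rfl⟩ := Finset.mem_image.mp hγ
    obtain ⟨ω, hω, h⟩ := hTC δ hδ
    exact ⟨ω₀ * ω * ω₀⁻¹, ⟨(ω₀, ω, ω₀), ⟨hω₀, hω, hω₀⟩, rfl⟩, conj_ray_eq323 K hz hxeq h⟩
  have hfacts : ∀ γ ∈ T',
      (∀ (i j : Fin 2) (v : HeightOneSpectrum (𝓞 K)),
        Valued.v (algebraMap K (v.adicCompletion K) (algebraMap (𝓞 K) K d) *
          algebraMap K (v.adicCompletion K) (γ.val i j)) ≤ 1) ∧
      ∀ w : InfinitePlace K, w (γ.val 0 0) ≤ S ∧ w (γ.val 1 1) ≤ S ∧
        w (γ.val 0 1) ≤ s * S ∧ w (γ.val 1 0) ≤ S / s := by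
    intro γ hγ
    obtain ⟨ω₁, hω₁, h⟩ := hent γ hγ
    obtain ⟨hfin, hinf⟩ := entries_of_conj323 K hs ha γ h
    have hE' : ∀ i j : Fin 2, ω₁.val i j ∈ E := fun i j =>
      Set.mem_iUnion.mpr ⟨i, Set.mem_iUnion.mpr ⟨j, ⟨ω₁, hω₁, rfl⟩⟩⟩
    refine ⟨fun i j v => ?_, fun w => ?_⟩
    · have := (hb _ (hE' i j)).2 v
      rw [hfin v i j] at this
      exact this
    · obtain ⟨h00, h11, h01, h10⟩ := hinf w
      refine ⟨?_, ?_, ?_, ?_⟩
      · rw [← h00]; exact (hb _ (hE' 0 0)).1 w
      · rw [← h11]; exact (hb _ (hE' 1 1)).1 w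
      · rw [← h01]; exact mul_le_mul_of_nonneg_left ((hb _ (hE' 0 1)).1 w) hs.le
      · rw [le_div_iff₀ hs, ← h10]; exact (hb _ (hE' 1 0)).1 w
  -- the four counts
  have c00 : ((T'.image fun γ => γ.val 0 0).card : ℝ) ≤ (A * S + 1) ^ n := by
    apply hcount S hS0
    intro ξ hξ
    obtain ⟨γ, hγ, rfl⟩ := Finset.mem_image.mp hξ
    exact ⟨(hfacts γ hγ).1 0 0, fun w => ((hfacts γ hγ).2 w).1⟩
  have c11 : ((T'.image fun γ => γ.val 1 1).card : ℝ) ≤ (A * S + 1) ^ n := by
    apply hcount S hS0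
    intro ξ hξ
    obtain ⟨γ, hγ, rfl⟩ := Finset.mem_image.mp hξ
    exact ⟨(hfacts γ hγ).1 1 1, fun w => ((hfacts γ hγ).2 w).2.1⟩
  have c01 : ((T'.image fun γ => γ.val 0 1).card : ℝ) ≤ (A * (s * S) + 1) ^ n := by
    apply hcount (s * S) (mul_nonneg hs.le hS0)
    intro ξ hξ
    obtain ⟨γ, hγ, rfl⟩ := Finset.mem_image.mp hξ
    exact ⟨(hfacts γ hγ).1 0 1, fun w => ((hfacts γ hγ).2 w).2.2.1⟩
  have c10 : ((T'.image fun γ => γ.val 1 0).card : ℝ) ≤ (A * (S / s) + 1) ^ n := by
    apply hcount (S / s) (div_nonneg hS0 hs.le)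
    intro ξ hξ
    obtain ⟨γ, hγ, rfl⟩ := Finset.mem_image.mp hξ
    exact ⟨(hfacts γ hγ).1 1 0, fun w => ((hfacts γ hγ).2 w).2.2.2⟩
  -- the estimates in `s`
  have c01' : (A * (s * S) + 1) ^ n ≤ (A * S + 1 / s₀) ^ n * M * t := by
    have e : A * (s * S) + 1 = s * (A * S + 1 / s) := by
      field_simp
    rw [e, mul_pow]
    have h0 : 0 ≤ A * S := mul_nonneg hA0 hS0
    have h1 : (A * S + 1 / s) ^ n ≤ (A * S + 1 / s₀) ^ n := by
      apply pow_le_pow_left₀ (by positivity)
      have : 1 / s ≤ 1 / s₀ := one_div_le_one_div_of_le hs₀pos hss₀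
      linarith
    calc s ^ n * (A * S + 1 / s) ^ n ≤ (M * t) * (A * S + 1 / s₀) ^ n :=
          mul_le_mul hsM h1 (by positivity) (by positivity)
      _ = (A * S + 1 / s₀) ^ n * M * t := by ring
  have c10' : (A * (S / s) + 1) ^ n ≤ (A * (S / s₀) + 1) ^ n := by
    have h0 : 0 ≤ A * (S / s) := mul_nonneg hA0 (div_nonneg hS0 hs.le)
    apply pow_le_pow_left₀ (by positivity)
    have : S / s ≤ S / s₀ := div_le_div_of_nonneg_left hS0 hs₀pos hss₀
    have := mul_le_mul_of_nonneg_left this hA0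
    linarith
  -- conclusion
  have hprod := card_le_prod_entries323 K T'
  have hprodR : (T'.card : ℝ) ≤ ((T'.image fun γ => γ.val 0 0).card : ℝ) *
      (((T'.image fun γ => γ.val 0 1).card : ℝ) *
        (((T'.image fun γ => γ.val 1 0).card : ℝ) *
          ((T'.image fun γ => γ.val 1 1).card : ℝ))) := by
    exact_mod_cast hprod
  rw [← hcardT]
  have hAS : 0 ≤ A * S := mul_nonneg hA0 hS0
  have hAS0 : 0 ≤ A * (S / s₀) := mul_nonneg hA0 (div_nonneg hS0 hs₀pos.le)
  calc (T'.card : ℝ) ≤ ((T'.image fun γ => γ.val 0 0).card : ℝ) *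
      (((T'.image fun γ => γ.val 0 1).card : ℝ) *
        (((T'.image fun γ => γ.val 1 0).card : ℝ) *
          ((T'.image fun γ => γ.val 1 1).card : ℝ))) := hprodR
    _ ≤ (A * S + 1) ^ n * (((A * S + 1 / s₀) ^ n * M * t) *
          ((A * (S / s₀) + 1) ^ n * (A * S + 1) ^ n)) := by
        have k01 := c01.trans c01'
        have k10 := c10.trans c10'
        have p1 : (0 : ℝ) ≤ (A * S + 1) ^ n := by positivity
        have p2 : (0 : ℝ) ≤ (A * (S / s₀) + 1) ^ n := by positivity
        have p3 : (0 : ℝ) ≤ (A * S + 1 / s₀) ^ n * M * t := by positivity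
        apply mul_le_mul c00 _ (by positivity) p1
        apply mul_le_mul k01 _ (by positivity) p3
        exact mul_le_mul k10 c11 (by positivity) p2
    _ = (A * S + 1) ^ n * ((A * S + 1 / s₀) ^ n * M) * (A * (S / s₀) + 1) ^ n *
          (A * S + 1) ^ n * t := by ring

end Fermat.Agent.LT.T2.H323

end

end
-- ===== PACK-END LT/T2/H323/Count/Leaf.lean

-- ===== PACK-BEGIN LT/T2/H560/Core.lean
section




/-!
# Row LT, tower T2: GENERIC ASSEMBLY CORE for the leaves T2.09 / T2.29 (helper560)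

OFF-MAIN.  Vocabulary: `LT/H556/A0.lean`, `LT/T1/Spec.lean`, `LT/T2/Spec.lean` (v3) and the shared
asset `LT/T2/H886/CuspAlg.lean` of helper886 (pairing lemmas), byte-identical copies.

* `Cls560 K`: a frame `F` and a class `P` of continuous bounded functions on `GL₂(𝔸_K)`, closed
  under linear combinations, on which the pairing of the frame is definite.
* `V560 d`: the pre-Hilbert space of the class, `inner x y = pair F y x`.
* `spectral560`: the abstract spectral theorem `T2.AbstractSpectral` applied to `V560 d` and to a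
  family `Op` of operators with a sub-family `Cp` (Hilbert--Schmidt, regular, non-degenerate):
  an orthonormal complete family of joint eigenfunctions of `Op` in the class.

No automorphic content: the same statement serves the class of A0 (`T2.IsCuspFn`, `T2.IsOp`) and
the class of T5 (`T2.IsCuspT`, `T2.IsOpT`).
-/

set_option autoImplicit false

open IsDedekindDomain NumberField MeasureTheory
open Fermat.Agent.LT.H556.A0 Fermat.Agent.LT.T2 Fermat.Agent.LT.T2.H886

noncomputable section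

namespace Fermat.Agent.LT.T2.H560

variable {K : Type} [Field K] [NumberField K]

attribute [local instance] Fermat.Agent.LT.T2.borelG

/-! ## 1. The class and its pre-Hilbert space -/

/-- A frame and a class of continuous bounded functions, closed under linear combinations, on
which the pairing of the frame is definite. -/
structure Cls560 (K : Type) [Field K] [NumberField K] where
  F : Frame K
  P : (G K → ℂ) → Prop
  zero : P (fun _ => 0)
  add : ∀ {φ ψ : G K → ℂ}, P φ → P ψ → P (fun g => φ g + ψ g)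
  smul : ∀ (c : ℂ) {φ : G K → ℂ}, P φ → P (fun g => c * φ g)
  cont : ∀ {φ : G K → ℂ}, P φ → Continuous φ
  bdd : ∀ {φ : G K → ℂ}, P φ → ∃ C : ℝ, ∀ g : G K, ‖φ g‖ ≤ C
  definite : ∀ {φ : G K → ℂ}, P φ → pair F φ φ = 0 → ∀ g : G K, φ g = 0

/-- The `ℂ`-vector space of the class. -/
def sub560 (d : Cls560 K) : Submodule ℂ (G K → ℂ) where
  carrier := {φ | d.P φ}
  add_mem' := fun hφ hψ => d.add hφ hψ
  zero_mem' := d.zero
  smul_mem' := fun c _ hφ => d.smul c hφ

/-- The pre-Hilbert space of the class (a type synonym of the submodule, so that no topology is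
inherited from the functions). -/
def V560 (d : Cls560 K) : Type := sub560 d

instance instAddCommGroupV560 (d : Cls560 K) : AddCommGroup (V560 d) :=
  inferInstanceAs (AddCommGroup (sub560 d))

instance instModuleV560 (d : Cls560 K) : Module ℂ (V560 d) :=
  inferInstanceAs (Module ℂ (sub560 d))

/-- The underlying function. -/
def fn560 {d : Cls560 K} (x : V560 d) : G K → ℂ := (x : sub560 d).1

theorem fn560_mem {d : Cls560 K} (x : V560 d) : d.P (fn560 x) := (x : sub560 d).2

/-- The element of the space attached to a function of the class. -/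
def mk560 (d : Cls560 K) (φ : G K → ℂ) (h : d.P φ) : V560 d := (⟨φ, h⟩ : sub560 d)

@[simp] theorem fn560_mk560 (d : Cls560 K) (φ : G K → ℂ) (h : d.P φ) :
    fn560 (mk560 d φ h) = φ := rfl

theorem ext560 {d : Cls560 K} {x y : V560 d} (h : fn560 x = fn560 y) : x = y :=
  Subtype.ext h

theorem fn560_add {d : Cls560 K} (x y : V560 d) :
    fn560 (x + y) = fun g => fn560 x g + fn560 y g := rfl

theorem fn560_smul {d : Cls560 K} (c : ℂ) (x : V560 d) :
    fn560 (c • x) = fun g => c * fn560 x g := rfl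

theorem fn560_zero {d : Cls560 K} : fn560 (0 : V560 d) = fun _ => 0 := rfl

theorem fn560_neg {d : Cls560 K} (x : V560 d) : fn560 (-x) = fun g => -fn560 x g := rfl

theorem fn560_sub {d : Cls560 K} (x y : V560 d) :
    fn560 (x - y) = fun g => fn560 x g - fn560 y g := rfl

instance instCoreV560 (d : Cls560 K) : InnerProductSpace.Core ℂ (V560 d) where
  inner x y := pair d.F (fn560 y) (fn560 x)
  conj_inner_symm x y := pair_conj_symm886 d.F (fn560 x) (fn560 y)
  re_inner_nonneg x := nsq_nonneg886 d.F (fn560 x)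
  add_left x y z := by
    obtain ⟨C, hC⟩ := d.bdd (fn560_mem x)
    obtain ⟨C', hC'⟩ := d.bdd (fn560_mem y)
    obtain ⟨C'', hC''⟩ := d.bdd (fn560_mem z)
    exact pair_add_right886 d.F (d.cont (fn560_mem x)) hC (d.cont (fn560_mem y)) hC'
      (d.cont (fn560_mem z)) hC''
  smul_left x y r := pair_const_mul_right886 d.F r (fn560 x) (fn560 y)
  definite x hx := ext560 (funext (d.definite (fn560_mem x) hx))

instance instNormedAddCommGroupV560 (d : Cls560 K) : NormedAddCommGroup (V560 d) :=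
  InnerProductSpace.Core.toNormedAddCommGroup (𝕜 := ℂ)

instance instInnerProductSpaceV560 (d : Cls560 K) : InnerProductSpace ℂ (V560 d) :=
  InnerProductSpace.ofCore _

theorem inner560 {d : Cls560 K} (x y : V560 d) :
    inner ℂ x y = pair d.F (fn560 y) (fn560 x) := rfl

theorem norm_sq560 {d : Cls560 K} (x : V560 d) : ‖x‖ ^ 2 = nsq d.F (fn560 x) := by
  have h := @norm_sq_eq_re_inner ℂ (V560 d) _ _ _ x
  rw [h, inner560]
  rfl

/-! ## 2. Operators of the class -/

/-- `T` maps the class to itself and is additive and homogeneous there. -/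
structure IsLinOn560 (d : Cls560 K) (T : (G K → ℂ) → (G K → ℂ)) : Prop where
  pres : ∀ φ : G K → ℂ, d.P φ → d.P (T φ)
  lin : ∀ (φ ψ : G K → ℂ) (c : ℂ), d.P φ → d.P ψ →
    T (fun g => φ g + c * ψ g) = fun g => T φ g + c * T ψ g

theorem IsLinOn560.map_zero {d : Cls560 K} {T : (G K → ℂ) → (G K → ℂ)} (h : IsLinOn560 d T) :
    T (fun _ => 0) = fun _ => 0 := by
  have h1 := h.lin (fun _ => 0) (fun _ => 0) 1 d.zero d.zero
  have e : (fun _ : G K => (0 : ℂ) + 1 * 0) = fun _ => 0 := by
    funext g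
    simp
  rw [e] at h1
  funext g
  have h2 := congrFun h1 g
  simp only [one_mul] at h2
  have h3 : T (fun _ => 0) g + T (fun _ => 0) g = T (fun _ => 0) g + 0 := by
    rw [add_zero]
    exact h2.symm
  exact add_left_cancel h3

theorem IsLinOn560.map_add {d : Cls560 K} {T : (G K → ℂ) → (G K → ℂ)} (h : IsLinOn560 d T)
    {φ ψ : G K → ℂ} (hφ : d.P φ) (hψ : d.P ψ) :
    T (fun g => φ g + ψ g) = fun g => T φ g + T ψ g := by
  have h1 := h.lin φ ψ 1 hφ hψ
  simpa only [one_mul] using h1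

theorem IsLinOn560.map_smul {d : Cls560 K} {T : (G K → ℂ) → (G K → ℂ)} (h : IsLinOn560 d T)
    (c : ℂ) {φ : G K → ℂ} (hφ : d.P φ) :
    T (fun g => c * φ g) = fun g => c * T φ g := by
  have h1 := h.lin (fun _ => 0) φ c d.zero hφ
  rw [h.map_zero] at h1
  simpa only [zero_add] using h1

/-- The linear map of the pre-Hilbert space attached to an operator of the class. -/
def lin560 (d : Cls560 K) (T : (G K → ℂ) → (G K → ℂ)) (h : IsLinOn560 d T) :
    V560 d →ₗ[ℂ] V560 d where
  toFun x := mk560 d (T (fn560 x)) (h.pres _ (fn560_mem x))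
  map_add' x y := ext560 (by
    show T (fn560 (x + y)) = fun g => T (fn560 x) g + T (fn560 y) g
    rw [fn560_add]
    exact h.map_add (fn560_mem x) (fn560_mem y))
  map_smul' c x := ext560 (by
    show T (fn560 (c • x)) = fun g => c * T (fn560 x) g
    rw [fn560_smul]
    exact h.map_smul c (fn560_mem x))

theorem fn560_lin560 (d : Cls560 K) (T : (G K → ℂ) → (G K → ℂ)) (h : IsLinOn560 d T)
    (x : V560 d) : fn560 (lin560 d T h x) = T (fn560 x) := rfl

/-! ## 3. The spectral theorem for the class -/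

/-- **The abstract spectral theorem applied to a class.**  `Op` is a commuting family of
operators of the class, bounded in `L²`, closed under adjoints; `Cp ⊆ Op` is Hilbert--Schmidt,
regular and non-degenerate.  Then the class has an orthonormal complete family of joint
eigenfunctions of `Op`. -/
theorem spectral560 (hAbs : AbstractSpectral) (d : Cls560 K)
    (Op Cp : ((G K → ℂ) → (G K → ℂ)) → Prop)
    (hsub : ∀ T, Cp T → Op T)
    (hlin : ∀ T, Op T → IsLinOn560 d T)
    (hbdd : ∀ T, Op T → ∃ C : ℝ, ∀ φ : G K → ℂ, d.P φ → nsq d.F (T φ) ≤ C * nsq d.F φ)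
    (hcomm : ∀ S T, Op S → Op T → ∀ φ : G K → ℂ, d.P φ → S (T φ) = T (S φ))
    (hadj : ∀ T, Op T → ∃ T', Op T' ∧ ∀ φ ψ : G K → ℂ, d.P φ → d.P ψ →
      pair d.F (T φ) ψ = pair d.F φ (T' ψ))
    (hhs : ∀ T, Cp T → ∃ C : ℝ, ∀ (n : ℕ) (φ : Fin n → G K → ℂ), (∀ i, d.P (φ i)) →
      (∀ i j, pair d.F (φ i) (φ j) = if i = j then 1 else 0) →
      ∑ i, nsq d.F (T (φ i)) ≤ C)
    (hreg : ∀ T, Cp T → ∀ φ : ℕ → G K → ℂ, (∀ k, d.P (φ k)) →
      (∀ ε : ℝ, 0 < ε → ∃ N : ℕ, ∀ k ≥ N, ∀ l ≥ N,
        nsq d.F (fun g => φ k g - φ l g) < ε) →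
      ∃ ψ : G K → ℂ, d.P ψ ∧
        Filter.Tendsto (fun k => nsq d.F (fun g => T (φ k) g - ψ g)) Filter.atTop (nhds 0))
    (happ : ∀ φ : G K → ℂ, d.P φ → ∀ ε : ℝ, 0 < ε →
      ∃ T, Cp T ∧ nsq d.F (fun g => T φ g - φ g) < ε) :
    ∃ (ι : Type) (u : ι → G K → ℂ), (∀ j, d.P (u j)) ∧ (∀ j, pair d.F (u j) (u j) = 1) ∧
      (∀ i j, i ≠ j → pair d.F (u i) (u j) = 0) ∧
      (∀ T, Op T → ∀ j, ∃ c : ℂ, ∀ g : G K, T (u j) g = c * u j g) ∧
      ∀ φ : G K → ℂ, d.P φ → HasSum (fun j => ‖pair d.F φ (u j)‖ ^ 2) (nsq d.F φ) := by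
  classical
  let 𝒜 : Set (V560 d →ₗ[ℂ] V560 d) := {A | ∃ T, ∃ hT : Op T, A = lin560 d T (hlin T hT)}
  let 𝒞 : Set (V560 d →ₗ[ℂ] V560 d) :=
    {A | ∃ T, ∃ hT : Cp T, A = lin560 d T (hlin T (hsub T hT))}
  have h1 : 𝒞 ⊆ 𝒜 := by
    rintro A ⟨T, hT, rfl⟩
    exact ⟨T, hsub T hT, rfl⟩
  have h2 : ∀ A ∈ 𝒜, ∀ B ∈ 𝒜, A ∘ₗ B = B ∘ₗ A := by
    rintro A ⟨S, hS, rfl⟩ B ⟨T, hT, rfl⟩
    apply LinearMap.ext
    intro x
    apply ext560
    show S (T (fn560 x)) = T (S (fn560 x))
    exact hcomm S T hS hT _ (fn560_mem x)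
  have h3 : ∀ A ∈ 𝒜, ∃ B ∈ 𝒜, ∀ x y : V560 d, inner ℂ (A x) y = inner ℂ x (B y) := by
    rintro A ⟨T, hT, rfl⟩
    obtain ⟨T', hT', hadj'⟩ := hadj T hT
    refine ⟨lin560 d T' (hlin T' hT'), ⟨T', hT', rfl⟩, fun x y => ?_⟩
    show pair d.F (fn560 y) (T (fn560 x)) = pair d.F (T' (fn560 y)) (fn560 x)
    have e := hadj' (fn560 x) (fn560 y) (fn560_mem x) (fn560_mem y)
    rw [← pair_conj_symm886 d.F (T (fn560 x)) (fn560 y), e, pair_conj_symm886]
  have h4 : ∀ A ∈ 𝒜, ∃ C : ℝ, ∀ x : V560 d, ‖A x‖ ≤ C * ‖x‖ := by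
    rintro A ⟨T, hT, rfl⟩
    obtain ⟨C, hC⟩ := hbdd T hT
    refine ⟨Real.sqrt (max C 0), fun x => ?_⟩
    have e1 : ‖lin560 d T (hlin T hT) x‖ ^ 2 ≤ (Real.sqrt (max C 0) * ‖x‖) ^ 2 := by
      rw [mul_pow, Real.sq_sqrt (le_max_right _ _), norm_sq560, norm_sq560, fn560_lin560]
      exact (hC _ (fn560_mem x)).trans
        (mul_le_mul_of_nonneg_right (le_max_left _ _) (nsq_nonneg886 d.F _))
    exact (pow_le_pow_iff_left₀ (norm_nonneg _)
      (mul_nonneg (Real.sqrt_nonneg _) (norm_nonneg _)) two_ne_zero).1 e1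
  have h5 : ∀ A ∈ 𝒞, ∃ C : ℝ, ∀ (n : ℕ) (x : Fin n → V560 d), Orthonormal ℂ x →
      ∑ i, ‖A (x i)‖ ^ 2 ≤ C := by
    rintro A ⟨T, hT, rfl⟩
    obtain ⟨C, hC⟩ := hhs T hT
    refine ⟨C, fun n x hx => ?_⟩
    have hx' := orthonormal_iff_ite.1 hx
    have e := hC n (fun i => fn560 (x i)) (fun i => fn560_mem _) (fun i j => by
      have := hx' j i
      rw [inner560] at this
      rw [this]
      by_cases hij : i = j
      · rw [if_pos hij, if_pos hij.symm]
      · rw [if_neg hij, if_neg (fun h => hij h.symm)])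
    have e2 : ∀ i, ‖lin560 d T (hlin T (hsub T hT)) (x i)‖ ^ 2 = nsq d.F (T (fn560 (x i))) :=
      fun i => by rw [norm_sq560, fn560_lin560]
    simp only [e2]
    exact e
  have h6 : ∀ A ∈ 𝒞, ∀ x : ℕ → V560 d, CauchySeq x →
      ∃ y : V560 d, Filter.Tendsto (fun k => A (x k)) Filter.atTop (nhds y) := by
    rintro A ⟨T, hT, rfl⟩ x hx
    have hc : ∀ ε : ℝ, 0 < ε → ∃ N : ℕ, ∀ k ≥ N, ∀ l ≥ N,
        nsq d.F (fun g => fn560 (x k) g - fn560 (x l) g) < ε := by
      intro ε hε
      obtain ⟨N, hN⟩ := Metric.cauchySeq_iff.1 hx (Real.sqrt ε) (Real.sqrt_pos.2 hε)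
      refine ⟨N, fun k hk l hl => ?_⟩
      have h := hN k hk l hl
      rw [dist_eq_norm] at h
      have h' : ‖x k - x l‖ ^ 2 < (Real.sqrt ε) ^ 2 :=
        pow_lt_pow_left₀ h (norm_nonneg _) two_ne_zero
      rw [Real.sq_sqrt hε.le, norm_sq560, fn560_sub] at h'
      exact h'
    obtain ⟨ψ, hψ, hlim⟩ := hreg T hT (fun k => fn560 (x k)) (fun k => fn560_mem _) hc
    refine ⟨mk560 d ψ hψ, ?_⟩
    rw [tendsto_iff_norm_sub_tendsto_zero]
    have e : ∀ k, ‖lin560 d T (hlin T (hsub T hT)) (x k) - mk560 d ψ hψ‖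
        = Real.sqrt (nsq d.F (fun g => T (fn560 (x k)) g - ψ g)) := by
      intro k
      have e1 := norm_sq560 (lin560 d T (hlin T (hsub T hT)) (x k) - mk560 d ψ hψ)
      rw [fn560_sub] at e1
      have e2 : (fun g => fn560 (lin560 d T (hlin T (hsub T hT)) (x k)) g
          - fn560 (mk560 d ψ hψ) g) = fun g => T (fn560 (x k)) g - ψ g := rfl
      rw [e2] at e1
      rw [← e1, Real.sqrt_sq (norm_nonneg _)]
    simp only [e]
    have h0 := (Real.continuous_sqrt.tendsto 0).comp hlim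
    rw [Real.sqrt_zero] at h0
    exact h0
  have h7 : ∀ x : V560 d, ∀ ε : ℝ, 0 < ε → ∃ A ∈ 𝒞, ‖A x - x‖ < ε := by
    intro x ε hε
    obtain ⟨T, hT, h⟩ := happ (fn560 x) (fn560_mem x) (ε ^ 2) (by positivity)
    refine ⟨lin560 d T (hlin T (hsub T hT)), ⟨T, hT, rfl⟩, ?_⟩
    have e1 := norm_sq560 (lin560 d T (hlin T (hsub T hT)) x - x)
    rw [fn560_sub] at e1
    have e2 : (fun g => fn560 (lin560 d T (hlin T (hsub T hT)) x) g - fn560 x g)
        = fun g => T (fn560 x) g - fn560 x g := rfl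
    rw [e2] at e1
    rw [← e1] at h
    exact lt_of_pow_lt_pow_left₀ 2 hε.le h
  obtain ⟨ι, e, hon, heig, hpars⟩ := hAbs (V560 d) 𝒜 𝒞 h1 h2 h3 h4 h5 h6 h7
  have hon' := orthonormal_iff_ite.1 hon
  refine ⟨ι, fun j => fn560 (e j), fun j => fn560_mem _, fun j => ?_, fun i j hij => ?_,
    fun T hT j => ?_, fun φ hφ => ?_⟩
  · have := hon' j j
    rw [inner560, if_pos rfl] at this
    exact this
  · have := hon' j i
    rw [inner560, if_neg (fun h => hij h.symm)] at this
    exact this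
  · obtain ⟨c, hc⟩ := heig (lin560 d T (hlin T hT)) ⟨T, hT, rfl⟩ j
    refine ⟨c, fun g => ?_⟩
    have := congrArg fn560 hc
    rw [fn560_lin560, fn560_smul] at this
    exact congrFun this g
  · have := hpars (mk560 d φ hφ)
    rw [norm_sq560] at this
    exact this

end Fermat.Agent.LT.T2.H560

end

end
-- ===== PACK-END LT/T2/H560/Core.lean

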