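import Mathlib
import Fermat.Agent.Pack.LT3.E5L0
import Fermat.Agent.Pack.LT3.E12L0
import Fermat.Agent.Pack.LT3.E3L3
import Fermat.Agent.Pack.LT3.E3L2
import Fermat.Agent.Pack.LT3.E8L2
import Fermat.Agent.Pack.LT3.E12L3
import Fermat.Agent.Pack.LT3.E12L2
import Fermat.Agent.Pack.LT3.E9L1
import Fermat.Agent.Pack.LT3.E8L0
import Fermat.Agent.Pack.LT2.E0L1
import Fermat.Agent.Pack.LT3.E2L0
import Fermat.Agent.Pack.LT3.E0L2
import Fermat.Agent.Pack.LT3.E0L0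
import Fermat.Agent.Pack.LT3.E9L2
import Fermat.Agent.Pack.LT3.E13L2
import Fermat.Agent.Pack.LT3.E14L0

set_option linter.all false

-- ===== PACK-BEGIN LT/T6/H277/OrbEllUnfold.lean
section







/-!
# Row LT, tower T6, leaf T6.13.2: the unfolding datum of the normal form (helper277) -- OFF-MAIN

For `y` in normal form (`IsNF277`), `TorusC` and a section `σ` of the projection `π` onto the
vertices of the tree give the `UnfoldData` of helper227 (`Lam = ϖ^ℤ`, `X = range σ`), hence the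
orbit sum at `y` is the unweighted sum over the vertices.
-/

set_option autoImplicit false

open scoped Matrix

noncomputable section

namespace Fermat.Agent.LT.T6.H277

open Fermat.Agent.LT.T6 Fermat.Agent.LT.T6.H60 Fermat.Agent.LT.H129 Fermat.Agent.LT.T6.H227
  Fermat.Agent.LT.T6.H944

section Basic

variable {k : Type} [Field k]

theorem glAut_refl277 (g : GL (Fin 2) k) : glAut (RingEquiv.refl k) g = g := by
  apply Units.ext
  ext i j
  simp [glAut]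

/-- The scalar matrix `z` as an element of `GL₂`. -/
def scal277 (z : k) (hz : z ≠ 0) : GL (Fin 2) k :=
  mk277 (z • (1 : Matrix (Fin 2) (Fin 2) k)) (by
    rw [Matrix.det_smul, Matrix.det_one, mul_one]
    exact pow_ne_zero _ hz)

@[simp] theorem coe_scal277 (z : k) (hz : z ≠ 0) :
    ((scal277 z hz : GL (Fin 2) k) : Matrix (Fin 2) (Fin 2) k)
      = z • (1 : Matrix (Fin 2) (Fin 2) k) := rfl

theorem scal_mul277 (z : k) (hz : z ≠ 0) (g : GL (Fin 2) k) :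
    ((scal277 z hz * g : GL (Fin 2) k) : Matrix (Fin 2) (Fin 2) k)
      = z • (g : Matrix (Fin 2) (Fin 2) k) := by
  rw [Units.val_mul, coe_scal277, Matrix.smul_mul, Matrix.one_mul]

theorem scal_comm277 (z : k) (hz : z ≠ 0) (g : GL (Fin 2) k) :
    scal277 z hz * g = g * scal277 z hz := by
  apply Units.ext
  rw [Units.val_mul, Units.val_mul, coe_scal277, Matrix.smul_mul, Matrix.one_mul,
    Matrix.mul_smul, Matrix.mul_one]

/-- `g` is a scalar matrix `ϖ^n`. -/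
def Lam277 (ϖ : k) (g : GL (Fin 2) k) : Prop :=
  ∃ n : ℤ, (g : Matrix (Fin 2) (Fin 2) k) = ϖ ^ n • (1 : Matrix (Fin 2) (Fin 2) k)

theorem lam_eq_scal277 {ϖ : k} (hϖ : ϖ ≠ 0) {g : GL (Fin 2) k} {n : ℤ}
    (h : (g : Matrix (Fin 2) (Fin 2) k) = ϖ ^ n • (1 : Matrix (Fin 2) (Fin 2) k)) :
    g = scal277 (ϖ ^ n) (zpow_ne_zero _ hϖ) :=
  Units.ext h

theorem scal_one277 (h : (1 : k) ≠ 0) : scal277 (1 : k) h = 1 := by
  apply Units.ext
  rw [coe_scal277, one_smul, Units.val_one]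

theorem scal_mul_scal277 (z z' : k) (hz : z ≠ 0) (hz' : z' ≠ 0) :
    scal277 z hz * scal277 z' hz' = scal277 (z * z') (mul_ne_zero hz hz') := by
  apply Units.ext
  rw [scal_mul277, coe_scal277, coe_scal277, smul_smul]

theorem scal_inv277 (z : k) (hz : z ≠ 0) :
    (scal277 z hz)⁻¹ = scal277 z⁻¹ (inv_ne_zero hz) := by
  rw [inv_eq_iff_mul_eq_one, scal_mul_scal277]
  apply Units.ext
  rw [coe_scal277, mul_inv_cancel₀ hz, one_smul, Units.val_one]

theorem trace_inv277 (t : GL (Fin 2) k) :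
    ((t⁻¹ : GL (Fin 2) k) : Matrix (Fin 2) (Fin 2) k).trace
      = (t : Matrix (Fin 2) (Fin 2) k).trace * ((t : Matrix (Fin 2) (Fin 2) k).det)⁻¹ := by
  rw [Matrix.coe_units_inv, Matrix.inv_def, Matrix.trace_smul, Matrix.adjugate_fin_two,
    Matrix.trace_fin_two_of, Matrix.trace_fin_two, Ring.inverse_eq_inv', smul_eq_mul]
  ring

theorem det_inv277 (t : GL (Fin 2) k) :
    ((t⁻¹ : GL (Fin 2) k) : Matrix (Fin 2) (Fin 2) k).det
      = ((t : Matrix (Fin 2) (Fin 2) k).det)⁻¹ := by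
  have h : (t : Matrix (Fin 2) (Fin 2) k).det
      * ((t⁻¹ : GL (Fin 2) k) : Matrix (Fin 2) (Fin 2) k).det = 1 := by
    rw [← Matrix.det_mul, ← Units.val_mul, mul_inv_cancel, Units.val_one, Matrix.det_one]
  exact (eq_inv_of_mul_eq_one_right h)

end Basic

section Orb

variable {k : Type} [Field k] [Valued k Γ₀]

/-- The orbit sum only depends on the conjugacy class. -/
theorem isOrbSum_conj277 (n : ℕ) (φ : GL (Fin 2) k → ℂ) (γ x : GL (Fin 2) k) (c : ℂ)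
    (h : IsOrbSum n φ γ c) : IsOrbSum n φ (x⁻¹ * γ * x) c := by
  obtain ⟨R, h1, h2, h3, h4⟩ := h
  refine ⟨R, ?_, h2, ?_, h4⟩
  · intro y hy
    obtain ⟨g, hg⟩ := h1 y hy
    refine ⟨x⁻¹ * g, ?_⟩
    rw [hg, glAut_refl277, glAut_refl277]
    simp [mul_assoc]
  · intro y hy hφ
    obtain ⟨g, hg⟩ := hy
    apply h3 y ⟨x * g, ?_⟩ hφ
    rw [hg, glAut_refl277, glAut_refl277]
    simp [mul_assoc]

theorem inU_zero_one277 : InU 0 (1 : GL (Fin 2) k) := by
  rw [inU_zero_iff129]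
  exact isMaxCpt129_one _

theorem inU_zero_trace277 {u : GL (Fin 2) k} (hu : InU 0 u) :
    Valued.v (u : Matrix (Fin 2) (Fin 2) k).trace ≤ 1 := by
  rw [inU_zero_iff129] at hu
  rw [Matrix.trace_fin_two]
  exact le_trans (Valuation.map_add _ _ _) (max_le (hu.1 0 0) (hu.1 1 1))

theorem inU_zero_det277 {u : GL (Fin 2) k} (hu : InU 0 u) :
    Valued.v (u : Matrix (Fin 2) (Fin 2) k).det = 1 := by
  rw [inU_zero_iff129] at hu
  exact valued_det_of_isMaxCpt129 hu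

/-- A scalar unit lies in `U(0)`. -/
theorem inU_zero_scal277 (z : k) (hz : z ≠ 0) (hv : Valued.v z = 1) : InU 0 (scal277 z hz) := by
  apply inU_zero_of277
  · intro i j
    rw [coe_scal277]
    fin_cases i <;> fin_cases j <;> simp [hv]
  · rw [coe_scal277, Matrix.det_smul, Matrix.det_one, mul_one, map_pow, hv, one_pow]

/-- Every nonzero `z` is `ϖ^n ε` with `ε` a unit. -/
theorem exists_zpow_unit277 {ϖ : k} (hϖ : Valued.v ϖ = WithZero.exp (-1 : ℤ)) (z : k)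
    (hz : z ≠ 0) : ∃ (n : ℤ) (ε : k), Valued.v ε = 1 ∧ z = ϖ ^ n * ε := by
  have hvz : Valued.v z ≠ 0 := by rwa [ne_eq, map_eq_zero]
  have hϖ0 : ϖ ≠ 0 := unif_ne_zero277 hϖ
  refine ⟨- WithZero.log (Valued.v z), z / ϖ ^ (- WithZero.log (Valued.v z)), ?_, ?_⟩
  · rw [map_div₀, v_zpow277 hϖ, neg_neg, WithZero.exp_log hvz]
    exact div_self hvz
  · field_simp


theorem nf_det277 {ϖ : k} {j : ℤ} {r : ℕ} {a : k} {w u y : GL (Fin 2) k}
    (hNF : IsNF277 ϖ j r a w u y) :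
    Valued.v (y : Matrix (Fin 2) (Fin 2) k).det = WithZero.exp (-(2 * j)) := by
  rw [hNF.y_eq, Matrix.det_smul, map_mul, inU_zero_det277 hNF.u_int, mul_one, map_pow,
    v_zpow277 hNF.unif, ← WithZero.exp_nsmul]
  congr 1
  simp

/-- **The unfolding datum** of `y` in normal form. -/
theorem unfoldData277 (hT : TorusC) {ϖ : k} {j : ℤ} {r : ℕ} {a : k} {w u y : GL (Fin 2) k}
    (hNF : IsNF277 ϖ j r a w u y) {V : Type} (π : GL (Fin 2) k → V) (σ : V → GL (Fin 2) k)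
    (hσ : ∀ v, π (σ v) = v)
    (hπ : ∀ g h : GL (Fin 2) k, π g = π h ↔
      ∃ (z : k) (u : GL (Fin 2) k), InU 0 u ∧
        (h : Matrix (Fin 2) (Fin 2) k) = z • ((g * u : GL (Fin 2) k) : Matrix (Fin 2) (Fin 2) k)) :
    UnfoldData (glAut (RingEquiv.refl k)) (InU 0) (InTwCentC (RingEquiv.refl k)) y (Lam277 ϖ)
      (Set.range σ) := by
  have hϖ0 : ϖ ≠ 0 := unif_ne_zero277 hNF.unif
  obtain ⟨hT1, hT2⟩ := hT k ϖ j r a w u y hNF
  refine
    { U_one := inU_zero_one277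
      U_mul := inU_mul944 0
      U_inv := inU_inv944 0
      C_cent := fun t ht => ht.1
      C_mul := hT2
      C_inv := ?_
      C_conj := fun x t => inTwCentC_conj944 (RingEquiv.refl k) y x t
      U_C := ?_
      Lam_mul := ?_
      Lam_inv := ?_
      Lam_cent := ?_
      Lam_C := ?_
      decomp := ?_
      cover := ?_
      uniq := ?_ }
  · -- C_inv
    rintro t ⟨h1, h2, h3⟩
    refine ⟨?_, ?_, ?_⟩
    · unfold InTwCent at h1 ⊢
      rw [glAut_refl277] at h1 ⊢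
      rw [inv_inv]
      have : y = t * (t⁻¹ * y * t) * t⁻¹ := by simp [mul_assoc]
      rw [h1] at this
      exact this.symm
    · rw [trace_inv277, map_mul, map_inv₀, h3, inv_one, mul_one]; exact h2
    · rw [det_inv277, map_inv₀, h3, inv_one]
  · -- U_C
    intro x u hu h
    exact ⟨h, inU_zero_trace277 hu, inU_zero_det277 hu⟩
  · -- Lam_mul
    rintro g h ⟨n, hn⟩ ⟨m, hm⟩
    refine ⟨n + m, ?_⟩
    rw [Units.val_mul, hn, hm, Matrix.smul_mul, Matrix.one_mul, smul_smul, zpow_add₀ hϖ0]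
  · -- Lam_inv
    rintro g ⟨n, hn⟩
    refine ⟨-n, ?_⟩
    rw [lam_eq_scal277 hϖ0 hn, scal_inv277, coe_scal277, zpow_neg]
  · -- Lam_cent
    rintro l ⟨n, hn⟩
    rw [lam_eq_scal277 hϖ0 hn]
    unfold twc
    rw [glAut_refl277, mul_assoc, ← scal_comm277, ← mul_assoc, inv_mul_cancel, one_mul]
  · -- Lam_C
    rintro l ⟨n, hn⟩ ⟨-, -, h3⟩
    rw [hn, Matrix.det_smul, Matrix.det_one, mul_one, map_pow, v_zpow277 hNF.unif,
      ← WithZero.exp_nsmul, ← WithZero.exp_zero] at h3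
    have h4 := WithZero.exp_injective h3
    have hn0 : n = 0 := by
      simp at h4
      exact h4
    apply Units.ext
    rw [hn, hn0, zpow_zero, one_smul, Units.val_one]
  · -- decomp
    intro t ht
    have hcomm : t * y = y * t := by
      unfold twc at ht
      rw [glAut_refl277] at ht
      have : t * (t⁻¹ * y * t) = t * y := by rw [ht]
      rw [← this]; simp [mul_assoc]
    obtain ⟨n, κ, hκ, htκ⟩ := hT1 t hcomm
    refine ⟨scal277 (ϖ ^ n) (zpow_ne_zero _ hϖ0), κ, ⟨n, rfl⟩, hκ, ?_⟩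
    apply Units.ext
    rw [scal_mul277, htκ]
  · -- cover
    intro g
    refine ⟨σ (π g), ⟨π g, rfl⟩, ?_⟩
    obtain ⟨z, u', hu', hz⟩ := (hπ (σ (π g)) g).mp (hσ (π g))
    have hz0 : z ≠ 0 := by
      intro h0
      rw [h0, zero_smul] at hz
      have := (Matrix.isUnit_iff_isUnit_det (g : Matrix (Fin 2) (Fin 2) k)).mp g.isUnit
      rw [hz, Matrix.det_zero] at this
      exact not_isUnit_zero this
    obtain ⟨n, ε, hε, hzε⟩ := exists_zpow_unit277 hNF.unif z hz0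
    have hε0 : ε ≠ 0 := by
      intro h0
      rw [h0, map_zero] at hε
      exact zero_ne_one hε
    refine ⟨scal277 (ϖ ^ n) (zpow_ne_zero _ hϖ0), scal277 ε hε0 * u', ⟨n, rfl⟩,
      inU_mul944 0 _ _ (inU_zero_scal277 ε hε0 hε) hu', ?_⟩
    apply Units.ext
    rw [hz, mul_assoc, scal_mul277, ← mul_assoc, ← scal_comm277, mul_assoc, scal_mul277,
      smul_smul, hzε]
  · -- uniq
    rintro x ⟨v, rfl⟩ x' ⟨v', rfl⟩ ⟨l, u', ⟨n, hn⟩, hu', h⟩
    have : π (σ v) = π (σ v') := by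
      rw [hπ]
      refine ⟨ϖ ^ n, u', hu', ?_⟩
      rw [h, mul_assoc, lam_eq_scal277 hϖ0 hn, scal_mul277]
    rw [hσ, hσ] at this
    rw [this]

end Orb

end Fermat.Agent.LT.T6.H277

end
end
-- ===== PACK-END LT/T6/H277/OrbEllUnfold.lean

-- ===== PACK-BEGIN LT/T6/H338/GStep.lean
section


/-!
# Row LT, tower T6 — one step on the tree: `gd (g * diag(1, ϖ)) = gd g ± 1` (helper338, OFF-MAIN)

Helper lemmas for T6.10 / T6.13 / T6.14 (registry row T6.13b).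
-/

set_option autoImplicit false

open Matrix

noncomputable section

namespace Fermat.Agent.LT.H338

open Fermat.Agent.LT.T6 Fermat.Agent.LT.H129

variable {k : Type} [Field k] [Valued k Γ₀]

/-! ### Columns -/

/-- The largest valuation in the first column. -/
def c1max338 (g : GL (Fin 2) k) : Γ₀ :=
  max (Valued.v ((g : Matrix (Fin 2) (Fin 2) k) 0 0)) (Valued.v ((g : Matrix (Fin 2) (Fin 2) k) 1 0))

/-- The largest valuation in the second column. -/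
def c2max338 (g : GL (Fin 2) k) : Γ₀ :=
  max (Valued.v ((g : Matrix (Fin 2) (Fin 2) k) 0 1)) (Valued.v ((g : Matrix (Fin 2) (Fin 2) k) 1 1))

theorem entryMax_eq_max338 (g : GL (Fin 2) k) : entryMax g = max (c1max338 g) (c2max338 g) := by
  apply le_antisymm
  · apply entryMax_le129
    intro i j
    fin_cases i <;> fin_cases j <;> simp [c1max338, c2max338]
  · exact max_le (max_le (entry_le_entryMax129 g 0 0) (entry_le_entryMax129 g 1 0))
      (max_le (entry_le_entryMax129 g 0 1) (entry_le_entryMax129 g 1 1))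

theorem c1max_le338 (g : GL (Fin 2) k) : c1max338 g ≤ entryMax g := by
  rw [entryMax_eq_max338]; exact le_max_left _ _

theorem c2max_le338 (g : GL (Fin 2) k) : c2max338 g ≤ entryMax g := by
  rw [entryMax_eq_max338]; exact le_max_right _ _

theorem c2max_eq_of_c1max_lt338 {g : GL (Fin 2) k} (h : c1max338 g < entryMax g) :
    c2max338 g = entryMax g := by
  rw [entryMax_eq_max338] at h ⊢
  rcases le_total (c1max338 g) (c2max338 g) with h' | h'
  · rw [max_eq_right h']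
  · rw [max_eq_left h'] at h; exact absurd h (lt_irrefl _)

theorem entry_col1_le338 (g : GL (Fin 2) k) (i : Fin 2) :
    Valued.v ((g : Matrix (Fin 2) (Fin 2) k) i 0) ≤ c1max338 g := by
  fin_cases i <;> simp [c1max338]

theorem entry_col2_le338 (g : GL (Fin 2) k) (i : Fin 2) :
    Valued.v ((g : Matrix (Fin 2) (Fin 2) k) i 1) ≤ c2max338 g := by
  fin_cases i <;> simp [c2max338]

theorem exists_col2_eq338 (g : GL (Fin 2) k) :
    ∃ i : Fin 2, Valued.v ((g : Matrix (Fin 2) (Fin 2) k) i 1) = c2max338 g := by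
  rcases le_total (Valued.v ((g : Matrix (Fin 2) (Fin 2) k) 0 1))
    (Valued.v ((g : Matrix (Fin 2) (Fin 2) k) 1 1)) with h | h
  · exact ⟨1, by rw [c2max338, max_eq_right h]⟩
  · exact ⟨0, by rw [c2max338, max_eq_left h]⟩

/-! ### The step `diag(1, ϖ)` -/

/-- `diag(1, ϖ)`. -/
def dpi338 (ϖ : k) (hϖ : ϖ ≠ 0) : GL (Fin 2) k := diag129 1 ϖ one_ne_zero hϖ

section Step

variable (ϖ : k) (hne : ϖ ≠ 0)

omit [Valued k Γ₀] in
theorem mul_dpi_col1_338 (g : GL (Fin 2) k) (i : Fin 2) :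
    ((g * dpi338 ϖ hne : GL (Fin 2) k) : Matrix (Fin 2) (Fin 2) k) i 0 = g i 0 := by
  rw [Matrix.GeneralLinearGroup.coe_mul, Matrix.mul_apply, Fin.sum_univ_two]
  simp [dpi338, diag129]

omit [Valued k Γ₀] in
theorem mul_dpi_col2_338 (g : GL (Fin 2) k) (i : Fin 2) :
    ((g * dpi338 ϖ hne : GL (Fin 2) k) : Matrix (Fin 2) (Fin 2) k) i 1 = g i 1 * ϖ := by
  rw [Matrix.GeneralLinearGroup.coe_mul, Matrix.mul_apply, Fin.sum_univ_two]
  simp [dpi338, diag129]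

omit [Valued k Γ₀] in
theorem det_mul_dpi338 (g : GL (Fin 2) k) :
    ((g * dpi338 ϖ hne : GL (Fin 2) k) : Matrix (Fin 2) (Fin 2) k).det
      = (g : Matrix (Fin 2) (Fin 2) k).det * ϖ := by
  rw [det_eq338, det_eq338, mul_dpi_col1_338, mul_dpi_col1_338, mul_dpi_col2_338,
    mul_dpi_col2_338]
  ring

variable (hϖ : Valued.v ϖ = WithZero.exp (-1 : ℤ))

theorem c1max_mul_dpi338 (g : GL (Fin 2) k) : c1max338 (g * dpi338 ϖ hne) = c1max338 g := by
  unfold c1max338; rw [mul_dpi_col1_338, mul_dpi_col1_338]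

include hϖ in
theorem c2max_mul_dpi338 (g : GL (Fin 2) k) :
    c2max338 (g * dpi338 ϖ hne) = c2max338 g * WithZero.exp (-1 : ℤ) := by
  unfold c2max338
  rw [mul_dpi_col2_338, mul_dpi_col2_338, map_mul, map_mul, hϖ]
  rcases le_total (Valued.v ((g : Matrix (Fin 2) (Fin 2) k) 0 1))
    (Valued.v ((g : Matrix (Fin 2) (Fin 2) k) 1 1)) with h | h
  · rw [max_eq_right h, max_eq_right (mul_le_mul_left h _)]
  · rw [max_eq_left h, max_eq_left (mul_le_mul_left h _)]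

include hϖ in
/-- Case A: the first column attains the maximum. -/
theorem entryMax_mul_dpi_of_eq338 {g : GL (Fin 2) k} (h : c1max338 g = entryMax g) :
    entryMax (g * dpi338 ϖ hne) = entryMax g := by
  rw [entryMax_eq_max338 (g * dpi338 ϖ hne), c1max_mul_dpi338 ϖ hne,
    c2max_mul_dpi338 ϖ hne hϖ, h]
  apply max_eq_left
  calc c2max338 g * WithZero.exp (-1 : ℤ) ≤ entryMax g * 1 :=
        mul_le_mul' (c2max_le338 g) exp_neg_one_lt_one338.le
    _ = entryMax g := mul_one _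

include hϖ in
/-- Case B: the first column does not attain the maximum. -/
theorem entryMax_mul_dpi_of_lt338 {g : GL (Fin 2) k} (h : c1max338 g < entryMax g) :
    entryMax (g * dpi338 ϖ hne) = entryMax g * WithZero.exp (-1 : ℤ) := by
  rw [entryMax_eq_max338 (g * dpi338 ϖ hne), c1max_mul_dpi338 ϖ hne,
    c2max_mul_dpi338 ϖ hne hϖ, c2max_eq_of_c1max_lt338 h]
  exact max_eq_right ((lt_iff_le_mul_exp338 (entryMax_ne_zero338 g)).1 h)

include hϖ in
theorem gd338_mul_dpi_of_eq {g : GL (Fin 2) k} (h : c1max338 g = entryMax g) :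
    gd338 (g * dpi338 ϖ hne) = gd338 g + 1 := by
  unfold gd338
  rw [entryMax_mul_dpi_of_eq338 ϖ hne hϖ h, det_mul_dpi338, map_mul, hϖ,
    WithZero.log_mul (valued_det_ne_zero338 g) WithZero.exp_ne_zero, WithZero.log_exp]
  ring

include hϖ in
theorem gd338_mul_dpi_of_lt {g : GL (Fin 2) k} (h : c1max338 g < entryMax g) :
    gd338 (g * dpi338 ϖ hne) + 1 = gd338 g := by
  unfold gd338
  rw [entryMax_mul_dpi_of_lt338 ϖ hne hϖ h, det_mul_dpi338, map_mul, hϖ,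
    WithZero.log_mul (valued_det_ne_zero338 g) WithZero.exp_ne_zero,
    WithZero.log_mul (entryMax_ne_zero338 g) WithZero.exp_ne_zero, WithZero.log_exp]
  ring

include hϖ in
theorem gd338_mul_dpi (g : GL (Fin 2) k) :
    gd338 (g * dpi338 ϖ hne) = gd338 g + 1 ∨ gd338 (g * dpi338 ϖ hne) + 1 = gd338 g := by
  rcases (c1max_le338 g).lt_or_eq with h | h
  · right; exact gd338_mul_dpi_of_lt ϖ hne hϖ h
  · left; exact gd338_mul_dpi_of_eq ϖ hne hϖ h

include hϖ in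
/-- The step decreases `gd` exactly when the first column does not attain the maximum. -/
theorem gd338_mul_dpi_add_one_iff (g : GL (Fin 2) k) :
    gd338 (g * dpi338 ϖ hne) + 1 = gd338 g ↔ c1max338 g < entryMax g := by
  constructor
  · intro h
    rcases (c1max_le338 g).lt_or_eq with h' | h'
    · exact h'
    · have := gd338_mul_dpi_of_eq ϖ hne hϖ h'
      omega
  · exact gd338_mul_dpi_of_lt ϖ hne hϖ

include hϖ in
theorem gd338_dpi : gd338 (dpi338 ϖ hne) = 1 := by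
  have h1 : c1max338 (1 : GL (Fin 2) k) = entryMax (1 : GL (Fin 2) k) := by
    apply le_antisymm (c1max_le338 _)
    apply entryMax_le129
    intro i j
    have : Valued.v ((1 : Matrix (Fin 2) (Fin 2) k) i j) ≤ 1 := by
      by_cases hij : i = j
      · subst hij; simp
      · simp [hij]
    refine le_trans this ?_
    simp [c1max338]
  have := gd338_mul_dpi_of_eq ϖ hne hϖ h1
  rw [one_mul] at this
  rw [this, gd338_of_InU ((inU_zero_iff129 _).2 (isMaxCpt129_one _))]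
  norm_num

end Step

end Fermat.Agent.LT.H338

end

end
-- ===== PACK-END LT/T6/H338/GStep.lean

-- ===== PACK-BEGIN LT/T6/H3/F0Soft.lean
section



/-!
# Row LT, tower T6, leaf T6.20a.5 `F0SoftOfC626` (helper3, registry row 1686)

OFF-MAIN.  `f0SoftOf3 : Fermat.Agent.LT.T6.H626.F0SoftOfC626`: the closed form
`abelF0_626 c φ` of weight `0` is continuous, compactly supported and bi-`SO(2)`-invariant.

* invariance: `det` and `rhoR` are bi-`SO(2)`-invariant; `φ(M_v(y))` depends on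
  `(det y, rhoR y, v)` only (`famAlg626` + `CartanCC` + bi-`U(2)`-invariance of `φ`);
* support: on the support of `φ`, `ε ≤ |det| ≤ C` and `rhoC ≤ R`; so on the support of the closed
  form `ε² ≤ det y ≤ C²`, `rhoR y ≤ 2R²`: entries of `y` and of `y⁻¹` are bounded, and
  `Units.embedProduct` is a closed embedding;
* continuity: dominated convergence on the open set `det > 0` of `M₂(ℝ)` (the integrand is
  jointly continuous, bounded by `sup |φ|` and vanishes for `|v| > 2R`), `det > 0` is open and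
  closed in `GL₂(ℝ)`.
-/

set_option autoImplicit false

open scoped Matrix
open MeasureTheory

noncomputable section

namespace Fermat.Agent.LT.T6.H3

open Fermat.Agent.LT.T6 Fermat.Agent.LT.T6.H626 Fermat.Agent.LT.T6.H830

/-! ## A. Invariance of `det` and `rhoR` -/

theorem det_pos_gl3s (y : GL (Fin 2) ℝ) (h : ¬ 0 < (y : Matrix (Fin 2) (Fin 2) ℝ).det) :
    (y : Matrix (Fin 2) (Fin 2) ℝ).det < 0 := by
  have h0 : (y : Matrix (Fin 2) (Fin 2) ℝ).det ≠ 0 :=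
    ((Matrix.isUnit_iff_isUnit_det _).1 y.isUnit).ne_zero
  exact lt_of_le_of_ne (not_lt.1 h) h0

theorem so2_transpose_mul3s {k : GL (Fin 2) ℝ} (hk : InSO2 k) :
    (k : Matrix (Fin 2) (Fin 2) ℝ).transpose * (k : Matrix (Fin 2) (Fin 2) ℝ) = 1 :=
  mul_eq_one_comm.mp hk.1

theorem det_mul_left3s {k : GL (Fin 2) ℝ} (hk : InSO2 k) (g : GL (Fin 2) ℝ) :
    ((k * g : GL (Fin 2) ℝ) : Matrix (Fin 2) (Fin 2) ℝ).det
      = (g : Matrix (Fin 2) (Fin 2) ℝ).det := by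
  rw [Units.val_mul, Matrix.det_mul, hk.2, one_mul]

theorem det_mul_right3s {k : GL (Fin 2) ℝ} (hk : InSO2 k) (g : GL (Fin 2) ℝ) :
    ((g * k : GL (Fin 2) ℝ) : Matrix (Fin 2) (Fin 2) ℝ).det
      = (g : Matrix (Fin 2) (Fin 2) ℝ).det := by
  rw [Units.val_mul, Matrix.det_mul, hk.2, mul_one]

theorem rhoM_mul_left3s {k : GL (Fin 2) ℝ} (hk : InSO2 k) (g : GL (Fin 2) ℝ) :
    rhoM626 ((k * g : GL (Fin 2) ℝ) : Matrix (Fin 2) (Fin 2) ℝ)
      = rhoM626 (g : Matrix (Fin 2) (Fin 2) ℝ) := by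
  unfold rhoM626
  rw [det_mul_left3s hk]
  congr 2
  rw [Units.val_mul, Matrix.transpose_mul, Matrix.mul_assoc,
    ← Matrix.mul_assoc _ (k : Matrix (Fin 2) (Fin 2) ℝ), so2_transpose_mul3s hk, Matrix.one_mul]

theorem rhoM_mul_right3s {k : GL (Fin 2) ℝ} (hk : InSO2 k) (g : GL (Fin 2) ℝ) :
    rhoM626 ((g * k : GL (Fin 2) ℝ) : Matrix (Fin 2) (Fin 2) ℝ)
      = rhoM626 (g : Matrix (Fin 2) (Fin 2) ℝ) := by
  unfold rhoM626
  rw [det_mul_right3s hk]
  congr 1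
  rw [Units.val_mul, Matrix.transpose_mul, Matrix.mul_assoc, Matrix.trace_mul_comm,
    Matrix.mul_assoc, Matrix.mul_assoc, hk.1, Matrix.mul_one]

/-! ## B. `φ(M_v(y))` depends on `(det y, rhoR y, v)` only -/

theorem phi_fam_congr3s (hC : CartanCC) {φ : GL (Fin 2) ℂ → ℂ} (hφ : IsArchTestC φ)
    {y y' : Matrix (Fin 2) (Fin 2) ℝ} (hy : 0 < y.det) (hy' : 0 < y'.det)
    (hdet : y'.det = y.det) (hρ : rhoM626 y' = rhoM626 y) (v : ℝ) :
    φ (toGLC626 (famMat626 y' v)) = φ (toGLC626 (famMat626 y v)) := by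
  obtain ⟨-, -, hr, hn⟩ := famAlg626 y hy v
  obtain ⟨-, -, hr', hn'⟩ := famAlg626 y' hy' v
  obtain ⟨k, k', hk, hk', e⟩ := hC (toGLC626 (famMat626 y v)) (toGLC626 (famMat626 y' v))
    (by rw [hn, hn', hdet]) (by rw [hr, hr', hρ])
  rw [e, hφ.right _ _ hk', hφ.left _ _ hk]

theorem wtChar_zero3s (k : GL (Fin 2) ℝ) : wtChar 0 k = 1 := by
  unfold wtChar
  exact zpow_zero _

theorem abelF0_congr3s (hC : CartanCC) (c : ℂ) {φ : GL (Fin 2) ℂ → ℂ} (hφ : IsArchTestC φ)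
    (g g' : GL (Fin 2) ℝ)
    (hdet : (g' : Matrix (Fin 2) (Fin 2) ℝ).det = (g : Matrix (Fin 2) (Fin 2) ℝ).det)
    (hρ : rhoM626 (g' : Matrix (Fin 2) (Fin 2) ℝ) = rhoM626 (g : Matrix (Fin 2) (Fin 2) ℝ)) :
    abelF0_626 c φ g' = abelF0_626 c φ g := by
  unfold abelF0_626
  rw [hdet]
  by_cases h : 0 < (g : Matrix (Fin 2) (Fin 2) ℝ).det
  · rw [if_pos h, if_pos h]
    congr 1
    refine integral_congr_ae (Filter.Eventually.of_forall fun v => ?_)
    show φ (toGLC626 (famMat626 (g' : Matrix (Fin 2) (Fin 2) ℝ) v)) /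
        ((xv626 (rhoR g') v : ℝ) : ℂ)
      = φ (toGLC626 (famMat626 (g : Matrix (Fin 2) (Fin 2) ℝ) v)) /
        ((xv626 (rhoR g) v : ℝ) : ℂ)
    rw [rhoR_eq_rhoM626, rhoR_eq_rhoM626, hρ,
      phi_fam_congr3s hC hφ h (by rw [hdet]; exact h) hdet hρ v]
  · rw [if_neg h, if_neg h]

/-! ## C. Bounds on the support -/

theorem exists_bounds3s {φ : GL (Fin 2) ℂ → ℂ} (hφ : IsArchTestC φ) :
    ∃ ε C R : ℝ, 0 < ε ∧ ∀ g : GL (Fin 2) ℂ, φ g ≠ 0 →
      ε ≤ ‖(g : Matrix (Fin 2) (Fin 2) ℂ).det‖ ∧ ‖(g : Matrix (Fin 2) (Fin 2) ℂ).det‖ ≤ C ∧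
        rhoC g ≤ R := by
  have hK : IsCompact (tsupport φ) := hφ.supp
  have hval : Continuous fun y : GL (Fin 2) ℂ => (y : Matrix (Fin 2) (Fin 2) ℂ) :=
    Units.continuous_val
  have hdet : Continuous fun y : GL (Fin 2) ℂ => (y : Matrix (Fin 2) (Fin 2) ℂ).det :=
    hval.matrix_det
  obtain ⟨C, hCb⟩ := hK.exists_bound_of_continuousOn hdet.continuousOn
  obtain ⟨C', hC'b⟩ := hK.exists_bound_of_continuousOn (hdet.inv₀ det_ne_zero830).continuousOn
  obtain ⟨R, hRb⟩ := hK.exists_bound_of_continuousOn continuous_rhoC830.continuousOn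
  refine ⟨(max C' 1)⁻¹, C, R, by positivity, fun g hg => ?_⟩
  have hgK : g ∈ tsupport φ := subset_tsupport φ hg
  refine ⟨?_, hCb g hgK, (le_abs_self _).trans (hRb g hgK)⟩
  have h1 : ‖((g : Matrix (Fin 2) (Fin 2) ℂ).det)⁻¹‖ ≤ C' := hC'b g hgK
  rw [norm_inv] at h1
  have hpos : 0 < ‖(g : Matrix (Fin 2) (Fin 2) ℂ).det‖ := norm_pos_iff.2 (det_ne_zero830 g)
  rw [inv_le_comm₀ (by positivity) hpos]
  exact h1.trans (le_max_left _ _)

theorem fam_bounds3s {ε C R : ℝ} {φ : GL (Fin 2) ℂ → ℂ}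
    (hb : ∀ g : GL (Fin 2) ℂ, φ g ≠ 0 →
      ε ≤ ‖(g : Matrix (Fin 2) (Fin 2) ℂ).det‖ ∧ ‖(g : Matrix (Fin 2) (Fin 2) ℂ).det‖ ≤ C ∧
        rhoC g ≤ R) (hε : 0 < ε)
    {y : Matrix (Fin 2) (Fin 2) ℝ} (hy : 0 < y.det) {v : ℝ}
    (hv : φ (toGLC626 (famMat626 y v)) ≠ 0) :
    ε ^ 2 ≤ y.det ∧ y.det ≤ C ^ 2 ∧ rhoM626 y ≤ 2 * R ^ 2 ∧ |v| ≤ 2 * R ∧ 1 ≤ R := by
  obtain ⟨-, -, hr, hn⟩ := famAlg626 y hy v
  obtain ⟨h1, h2, h3⟩ := hb _ hv
  rw [hn] at h1 h2
  rw [hr] at h3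
  have hρ := one_le_rhoM626 y hy
  have hx := one_le_xv626 (rhoM626 y) v hρ
  have hx2 := xv_sq626 (rhoM626 y) v hρ
  have hsq : Real.sqrt y.det ^ 2 = y.det := Real.sq_sqrt hy.le
  have hs0 : 0 ≤ Real.sqrt y.det := Real.sqrt_nonneg _
  have hR1 : 1 ≤ R := hx.trans h3
  have hxR : xv626 (rhoM626 y) v ^ 2 ≤ R ^ 2 := by nlinarith
  have hv2 : v ^ 2 ≤ 2 * R ^ 2 := by nlinarith
  refine ⟨by nlinarith, by nlinarith, by nlinarith [sq_nonneg v], ?_, hR1⟩
  exact abs_le.2 ⟨by nlinarith, by nlinarith⟩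

/-! ## D. A compact subset of `GL₂(ℝ)` -/

theorem isCompact_box3s (b : ℝ) :
    IsCompact {M : Matrix (Fin 2) (Fin 2) ℝ | ∀ i j, |M i j| ≤ b} := by
  have h : IsCompact (Set.univ.pi fun _ : Fin 2 => Set.univ.pi fun _ : Fin 2 => Set.Icc (-b) b) :=
    isCompact_univ_pi fun _ => isCompact_univ_pi fun _ => isCompact_Icc
  have e : {M : Matrix (Fin 2) (Fin 2) ℝ | ∀ i j, |M i j| ≤ b}
      = (Set.univ.pi fun _ : Fin 2 => Set.univ.pi fun _ : Fin 2 => Set.Icc (-b) b) := by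
    ext M
    constructor
    · intro h i _ j _
      exact abs_le.1 (h i j)
    · intro h i j
      exact abs_le.2 (h i trivial j trivial)
  rw [e]
  exact h

/-- The elements of `GL₂(ℝ)` with entries bounded by `b` and entries of the inverse bounded by
`b'`. -/
def glBox3s (b b' : ℝ) : Set (GL (Fin 2) ℝ) :=
  {y | (∀ i j, |(y : Matrix (Fin 2) (Fin 2) ℝ) i j| ≤ b) ∧
    ∀ i j, |((y⁻¹ : GL (Fin 2) ℝ) : Matrix (Fin 2) (Fin 2) ℝ) i j| ≤ b'}

theorem isCompact_glBox3s (b b' : ℝ) : IsCompact (glBox3s b b') := by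
  have h1 := (isCompact_box3s b).prod ((isCompact_box3s b').image MulOpposite.continuous_op)
  have h2 := (Units.isClosedEmbedding_embedProduct
    (α := Matrix (Fin 2) (Fin 2) ℝ)).isCompact_preimage h1
  have e : glBox3s b b' = (Units.embedProduct (Matrix (Fin 2) (Fin 2) ℝ)) ⁻¹'
      ({M : Matrix (Fin 2) (Fin 2) ℝ | ∀ i j, |M i j| ≤ b} ×ˢ
        (MulOpposite.op '' {M : Matrix (Fin 2) (Fin 2) ℝ | ∀ i j, |M i j| ≤ b'})) := by
    ext y
    simp only [glBox3s, Set.mem_ofPred_eq, Set.mem_preimage, Units.embedProduct_apply,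
      Set.mem_prod, Set.mem_image]
    constructor
    · rintro ⟨h, h'⟩
      exact ⟨h, _, h', rfl⟩
    · rintro ⟨h, M, h', e⟩
      refine ⟨h, ?_⟩
      have : M = ((y⁻¹ : GL (Fin 2) ℝ) : Matrix (Fin 2) (Fin 2) ℝ) := MulOpposite.op_injective e
      rw [← this]
      exact h'
  rw [e]
  exact h2

theorem trace_sq3s (y : Matrix (Fin 2) (Fin 2) ℝ) :
    (y.transpose * y).trace = y 0 0 ^ 2 + y 0 1 ^ 2 + y 1 0 ^ 2 + y 1 1 ^ 2 := by
  rw [Matrix.trace_fin_two]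
  simp only [Matrix.mul_apply, Fin.sum_univ_two, Matrix.transpose_apply]
  ring

theorem abs_le_of_sq_le3s {t B : ℝ} (h : t ^ 2 ≤ B) : |t| ≤ B + 1 :=
  abs_le.2 ⟨by nlinarith [sq_nonneg (t + 1)], by nlinarith [sq_nonneg (t - 1)]⟩

theorem mem_glBox3s {y : GL (Fin 2) ℝ} {e B : ℝ} (he : 0 < e)
    (hdet : e ≤ (y : Matrix (Fin 2) (Fin 2) ℝ).det)
    (htr : ((y : Matrix (Fin 2) (Fin 2) ℝ).transpose * (y : Matrix (Fin 2) (Fin 2) ℝ)).trace ≤ B) :
    y ∈ glBox3s (B + 1) ((B + 1) / e) := by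
  rw [trace_sq3s] at htr
  have hd0 : 0 < (y : Matrix (Fin 2) (Fin 2) ℝ).det := lt_of_lt_of_le he hdet
  have hent : ∀ i j, |(y : Matrix (Fin 2) (Fin 2) ℝ) i j| ≤ B + 1 := by
    intro i j
    apply abs_le_of_sq_le3s
    fin_cases i <;> fin_cases j <;> simp only [Fin.zero_eta, Fin.mk_one] <;>
      nlinarith [sq_nonneg ((y : Matrix (Fin 2) (Fin 2) ℝ) 0 0),
        sq_nonneg ((y : Matrix (Fin 2) (Fin 2) ℝ) 0 1),
        sq_nonneg ((y : Matrix (Fin 2) (Fin 2) ℝ) 1 0),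
        sq_nonneg ((y : Matrix (Fin 2) (Fin 2) ℝ) 1 1)]
  have hB : 0 ≤ B + 1 := (abs_nonneg _).trans (hent 0 0)
  refine ⟨hent, ?_⟩
  have hinv : ((y⁻¹ : GL (Fin 2) ℝ) : Matrix (Fin 2) (Fin 2) ℝ)
      = ((y : Matrix (Fin 2) (Fin 2) ℝ).det)⁻¹ • (y : Matrix (Fin 2) (Fin 2) ℝ).adjugate := by
    rw [Matrix.coe_units_inv, Matrix.inv_def, Ring.inverse_eq_inv']
  have hadj : ∀ i j, |(y : Matrix (Fin 2) (Fin 2) ℝ).adjugate i j| ≤ B + 1 := by
    intro i j
    rw [Matrix.adjugate_fin_two]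
    fin_cases i <;> fin_cases j <;> simp <;> exact hent _ _
  intro i j
  rw [hinv, Matrix.smul_apply, smul_eq_mul, abs_mul, abs_inv, abs_of_pos hd0]
  calc ((y : Matrix (Fin 2) (Fin 2) ℝ).det)⁻¹ * |(y : Matrix (Fin 2) (Fin 2) ℝ).adjugate i j|
      ≤ e⁻¹ * (B + 1) :=
        mul_le_mul (inv_anti₀ he hdet) (hadj i j) (abs_nonneg _) (inv_nonneg.2 he.le)
    _ = (B + 1) / e := by rw [div_eq_mul_inv, mul_comm]

theorem hasCompactSupport_abelF03s (c : ℂ) {φ : GL (Fin 2) ℂ → ℂ} (hφ : IsArchTestC φ) :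
    HasCompactSupport (abelF0_626 c φ) := by
  obtain ⟨ε, C, R, hε, hb⟩ := exists_bounds3s hφ
  refine HasCompactSupport.intro
    (isCompact_glBox3s (4 * R ^ 2 * C ^ 2 + 1) ((4 * R ^ 2 * C ^ 2 + 1) / ε ^ 2)) ?_
  intro y hy
  by_contra hne
  have hpos : 0 < (y : Matrix (Fin 2) (Fin 2) ℝ).det := abelF0_pos626 c φ y hne
  have hex : ∃ v : ℝ, φ (toGLC626 (famMat626 (y : Matrix (Fin 2) (Fin 2) ℝ) v)) ≠ 0 := by
    by_contra hall
    simp only [not_exists, not_not] at hall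
    apply hne
    unfold abelF0_626
    rw [if_pos hpos]
    have : (fun v : ℝ => φ (toGLC626 (famMat626 (y : Matrix (Fin 2) (Fin 2) ℝ) v)) /
        ((xv626 (rhoR y) v : ℝ) : ℂ)) = fun _ => 0 := by
      funext v
      rw [hall v, zero_div]
    rw [this, integral_zero, mul_zero]
  obtain ⟨v, hv⟩ := hex
  obtain ⟨h1, h2, h3, -, hR1⟩ := fam_bounds3s hb hε hpos hv
  apply hy
  refine mem_glBox3s (pow_pos hε 2) h1 ?_
  have hρ : rhoM626 (y : Matrix (Fin 2) (Fin 2) ℝ)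
      = ((y : Matrix (Fin 2) (Fin 2) ℝ).transpose * (y : Matrix (Fin 2) (Fin 2) ℝ)).trace
        / (2 * (y : Matrix (Fin 2) (Fin 2) ℝ).det) := by
    unfold rhoM626
    rw [abs_of_pos hpos]
  rw [hρ, div_le_iff₀ (by positivity)] at h3
  have hR2 : 0 ≤ R ^ 2 := sq_nonneg R
  nlinarith

/-! ## E. Continuity -/

/-- Real matrices of positive determinant. -/
abbrev PosMat3s : Type := {M : Matrix (Fin 2) (Fin 2) ℝ // 0 < M.det}

theorem continuous_xv3s :
    Continuous fun p : PosMat3s × ℝ => xv626 (rhoM626 (p.1 : Matrix (Fin 2) (Fin 2) ℝ)) p.2 := by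
  have hM : Continuous fun p : PosMat3s × ℝ => (p.1 : Matrix (Fin 2) (Fin 2) ℝ) :=
    continuous_subtype_val.comp continuous_fst
  have hdet : Continuous fun p : PosMat3s × ℝ => (p.1 : Matrix (Fin 2) (Fin 2) ℝ).det :=
    hM.matrix_det
  have hρ : Continuous fun p : PosMat3s × ℝ => rhoM626 (p.1 : Matrix (Fin 2) (Fin 2) ℝ) := by
    unfold rhoM626
    refine Continuous.div ((hM.matrix_transpose.matrix_mul hM).matrix_trace)
      (continuous_const.mul hdet.abs) ?_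
    intro p
    have := p.1.2
    positivity
  unfold xv626
  exact Real.continuous_sqrt.comp (((hρ.add continuous_const).add
    (continuous_snd.pow 2)).div_const 2)

theorem continuous_famMat3s :
    Continuous fun p : PosMat3s × ℝ => famMat626 (p.1 : Matrix (Fin 2) (Fin 2) ℝ) p.2 := by
  have hM : Continuous fun p : PosMat3s × ℝ => (p.1 : Matrix (Fin 2) (Fin 2) ℝ) :=
    continuous_subtype_val.comp continuous_fst
  have hv : Continuous fun p : PosMat3s × ℝ => p.2 := continuous_snd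
  have hdet : Continuous fun p : PosMat3s × ℝ => (p.1 : Matrix (Fin 2) (Fin 2) ℝ).det :=
    hM.matrix_det
  have hx := continuous_xv3s
  have hs : Continuous fun p : PosMat3s × ℝ =>
      famScal626 (p.1 : Matrix (Fin 2) (Fin 2) ℝ)
        (xv626 (rhoM626 (p.1 : Matrix (Fin 2) (Fin 2) ℝ)) p.2) := by
    unfold famScal626
    refine Continuous.div (Real.continuous_sqrt.comp (Real.continuous_sqrt.comp hdet))
      (continuous_const.mul (Real.continuous_sqrt.comp (hx.add continuous_const))) ?_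
    intro p
    have h0 : 0 ≤ xv626 (rhoM626 (p.1 : Matrix (Fin 2) (Fin 2) ℝ)) p.2 := Real.sqrt_nonneg _
    have : 0 < Real.sqrt (xv626 (rhoM626 (p.1 : Matrix (Fin 2) (Fin 2) ℝ)) p.2 + 1) :=
      Real.sqrt_pos.2 (by linarith)
    positivity
  have hsq : ∀ p : PosMat3s × ℝ,
      Real.sqrt (2 * (p.1 : Matrix (Fin 2) (Fin 2) ℝ).det) ≠ 0 := by
    intro p
    have := p.1.2
    exact (Real.sqrt_pos.2 (by positivity)).ne'
  have hh1 : Continuous fun p : PosMat3s × ℝ => famH1_626 (p.1 : Matrix (Fin 2) (Fin 2) ℝ) := by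
    unfold famH1_626
    exact Continuous.div ((hM.matrix_elem 0 0).sub (hM.matrix_elem 1 1))
      (Real.continuous_sqrt.comp (continuous_const.mul hdet)) hsq
  have hh2 : Continuous fun p : PosMat3s × ℝ => famH2_626 (p.1 : Matrix (Fin 2) (Fin 2) ℝ) := by
    unfold famH2_626
    exact Continuous.div ((hM.matrix_elem 0 1).add (hM.matrix_elem 1 0))
      (Real.continuous_sqrt.comp (continuous_const.mul hdet)) hsq
  have hp : Continuous fun p : PosMat3s × ℝ =>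
      Real.sqrt 2 * (xv626 (rhoM626 (p.1 : Matrix (Fin 2) (Fin 2) ℝ)) p.2 + 1) :=
    continuous_const.mul (hx.add continuous_const)
  have c00 := Complex.continuous_ofReal.comp (hp.add hh1)
  have c11 := Complex.continuous_ofReal.comp (hp.sub hh1)
  have cvI : Continuous fun p : PosMat3s × ℝ => ((p.2 : ℝ) : ℂ) * Complex.I :=
    (Complex.continuous_ofReal.comp hv).mul continuous_const
  have c01 := (Complex.continuous_ofReal.comp hh2).sub cvI
  have c10 := (Complex.continuous_ofReal.comp hh2).add cvI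
  unfold famMat626
  refine Continuous.smul (Complex.continuous_ofReal.comp hs) ?_
  refine continuous_matrix fun i j => ?_
  fin_cases i <;> fin_cases j
  · exact c00
  · exact c01
  · exact c10
  · exact c11

theorem continuous_toGLC_fam3s :
    Continuous fun p : PosMat3s × ℝ =>
      toGLC626 (famMat626 (p.1 : Matrix (Fin 2) (Fin 2) ℝ) p.2) := by
  apply continuous_toGL830
  have e : (fun p : PosMat3s × ℝ =>
      ((toGLC626 (famMat626 (p.1 : Matrix (Fin 2) (Fin 2) ℝ) p.2) : GL (Fin 2) ℂ) :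
        Matrix (Fin 2) (Fin 2) ℂ))
      = fun p => famMat626 (p.1 : Matrix (Fin 2) (Fin 2) ℝ) p.2 := by
    funext p
    exact (famAlg626 (p.1 : Matrix (Fin 2) (Fin 2) ℝ) p.1.2 p.2).2.1
  rw [e]
  exact continuous_famMat3s

/-- The integrand. -/
def intg3s (φ : GL (Fin 2) ℂ → ℂ) (M : Matrix (Fin 2) (Fin 2) ℝ) (v : ℝ) : ℂ :=
  φ (toGLC626 (famMat626 M v)) / ((xv626 (rhoM626 M) v : ℝ) : ℂ)

theorem continuous_intg3s {φ : GL (Fin 2) ℂ → ℂ} (hφ : IsArchTestC φ) :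
    Continuous fun p : PosMat3s × ℝ => intg3s φ (p.1 : Matrix (Fin 2) (Fin 2) ℝ) p.2 := by
  unfold intg3s
  refine Continuous.div (hφ.cont.comp continuous_toGLC_fam3s)
    (Complex.continuous_ofReal.comp continuous_xv3s) ?_
  intro p
  have h1 := one_le_xv626 (rhoM626 (p.1 : Matrix (Fin 2) (Fin 2) ℝ)) p.2
    (one_le_rhoM626 _ p.1.2)
  exact Complex.ofReal_ne_zero.2 (by linarith)

theorem continuous_intg_left3s {φ : GL (Fin 2) ℂ → ℂ} (hφ : IsArchTestC φ) (M : PosMat3s) :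
    Continuous fun v : ℝ => intg3s φ (M : Matrix (Fin 2) (Fin 2) ℝ) v :=
  Continuous.comp (g := fun p : PosMat3s × ℝ => intg3s φ (p.1 : Matrix (Fin 2) (Fin 2) ℝ) p.2)
    (f := fun v : ℝ => ((M, v) : PosMat3s × ℝ)) (continuous_intg3s hφ)
    (Continuous.prodMk continuous_const continuous_id)

theorem continuous_intg_right3s {φ : GL (Fin 2) ℂ → ℂ} (hφ : IsArchTestC φ) (v : ℝ) :
    Continuous fun M : PosMat3s => intg3s φ (M : Matrix (Fin 2) (Fin 2) ℝ) v :=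
  Continuous.comp (g := fun p : PosMat3s × ℝ => intg3s φ (p.1 : Matrix (Fin 2) (Fin 2) ℝ) p.2)
    (f := fun M : PosMat3s => ((M, v) : PosMat3s × ℝ)) (continuous_intg3s hφ)
    (Continuous.prodMk continuous_id continuous_const)

theorem norm_intg_le3s {φ : GL (Fin 2) ℂ → ℂ} {ε C R Cφ : ℝ}
    (hb : ∀ g : GL (Fin 2) ℂ, φ g ≠ 0 →
      ε ≤ ‖(g : Matrix (Fin 2) (Fin 2) ℂ).det‖ ∧ ‖(g : Matrix (Fin 2) (Fin 2) ℂ).det‖ ≤ C ∧
        rhoC g ≤ R) (hε : 0 < ε) (hCφ : ∀ g, ‖φ g‖ ≤ Cφ) (hCφ0 : 0 ≤ Cφ)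
    (M : PosMat3s) (v : ℝ) :
    ‖intg3s φ (M : Matrix (Fin 2) (Fin 2) ℝ) v‖
      ≤ Set.indicator (Set.Icc (-(2 * R)) (2 * R)) (fun _ => Cφ) v := by
  by_cases hv : φ (toGLC626 (famMat626 (M : Matrix (Fin 2) (Fin 2) ℝ) v)) = 0
  · unfold intg3s
    rw [hv, zero_div, norm_zero]
    exact Set.indicator_nonneg (fun _ _ => hCφ0) v
  · obtain ⟨-, -, -, hvR, -⟩ := fam_bounds3s hb hε M.2 hv
    rw [Set.indicator_of_mem (show v ∈ Set.Icc (-(2 * R)) (2 * R) from abs_le.1 hvR)]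
    unfold intg3s
    have hx1 := one_le_xv626 (rhoM626 (M : Matrix (Fin 2) (Fin 2) ℝ)) v
      (one_le_rhoM626 _ M.2)
    rw [norm_div, Complex.norm_real, Real.norm_of_nonneg (by linarith)]
    exact (div_le_self (norm_nonneg _) hx1).trans (hCφ _)

theorem continuous_Fm3s {φ : GL (Fin 2) ℂ → ℂ} (hφ : IsArchTestC φ) :
    Continuous fun M : PosMat3s => ∫ v : ℝ, intg3s φ (M : Matrix (Fin 2) (Fin 2) ℝ) v := by
  have hfc : FirstCountableTopology (Matrix (Fin 2) (Fin 2) ℝ) :=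
    inferInstanceAs (FirstCountableTopology (Fin 2 → Fin 2 → ℝ))
  have hfc' : FirstCountableTopology PosMat3s :=
    Topology.IsEmbedding.firstCountableTopology (f := Subtype.val) Topology.IsEmbedding.subtypeVal
  obtain ⟨ε, C, R, hε, hb⟩ := exists_bounds3s hφ
  obtain ⟨Cφ, hCφ⟩ := hφ.supp.exists_bound_of_continuous hφ.cont
  have hCφ0 : 0 ≤ Cφ := (norm_nonneg _).trans (hCφ 1)
  refine continuous_of_dominated
    (F := fun (M : PosMat3s) (v : ℝ) => intg3s φ (M : Matrix (Fin 2) (Fin 2) ℝ) v)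
    (bound := Set.indicator (Set.Icc (-(2 * R)) (2 * R)) fun _ => Cφ) ?_ ?_ ?_ ?_
  · intro M
    exact (continuous_intg_left3s hφ M).aestronglyMeasurable
  · intro M
    exact Filter.Eventually.of_forall fun v => norm_intg_le3s hb hε hCφ hCφ0 M v
  · rw [integrable_indicator_iff measurableSet_Icc]
    exact continuous_const.integrableOn_Icc
  · exact Filter.Eventually.of_forall fun v => continuous_intg_right3s hφ v

theorem isOpen_posMat3s : IsOpen {M : Matrix (Fin 2) (Fin 2) ℝ | 0 < M.det} :=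
  isOpen_lt continuous_const (continuous_id.matrix_det)

theorem isOpen_negMat3s : IsOpen {M : Matrix (Fin 2) (Fin 2) ℝ | M.det < 0} :=
  isOpen_lt (continuous_id.matrix_det) continuous_const

theorem abelF0_eq3s (c : ℂ) (φ : GL (Fin 2) ℂ → ℂ) (y : GL (Fin 2) ℝ)
    (hy : 0 < (y : Matrix (Fin 2) (Fin 2) ℝ).det) :
    abelF0_626 c φ y = ((Real.sqrt 2 / 4 : ℝ) : ℂ) * c *
      ∫ v : ℝ, intg3s φ (y : Matrix (Fin 2) (Fin 2) ℝ) v := by
  unfold abelF0_626
  rw [if_pos hy]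
  rfl

theorem continuous_abelF03s (c : ℂ) {φ : GL (Fin 2) ℂ → ℂ} (hφ : IsArchTestC φ) :
    Continuous (abelF0_626 c φ) := by
  have hval : Continuous fun y : GL (Fin 2) ℝ => (y : Matrix (Fin 2) (Fin 2) ℝ) :=
    Units.continuous_val
  have hFon : ContinuousOn (fun M : Matrix (Fin 2) (Fin 2) ℝ => ∫ v : ℝ, intg3s φ M v)
      {M : Matrix (Fin 2) (Fin 2) ℝ | 0 < M.det} :=
    continuousOn_iff_continuous_domRestrict.2 (continuous_Fm3s hφ)
  rw [continuous_iff_continuousAt]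
  intro y₀
  by_cases h0 : 0 < (y₀ : Matrix (Fin 2) (Fin 2) ℝ).det
  · have hmem : {M : Matrix (Fin 2) (Fin 2) ℝ | 0 < M.det} ∈ nhds (y₀ : Matrix (Fin 2) (Fin 2) ℝ) :=
      isOpen_posMat3s.mem_nhds h0
    have h1 : ContinuousAt (fun M : Matrix (Fin 2) (Fin 2) ℝ => ∫ v : ℝ, intg3s φ M v)
        (y₀ : Matrix (Fin 2) (Fin 2) ℝ) := hFon.continuousAt hmem
    have h2 : ContinuousAt (fun y : GL (Fin 2) ℝ =>
        ((Real.sqrt 2 / 4 : ℝ) : ℂ) * c * ∫ v : ℝ, intg3s φ (y : Matrix (Fin 2) (Fin 2) ℝ) v) y₀ :=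
      continuousAt_const.mul (ContinuousAt.comp (f := fun y : GL (Fin 2) ℝ =>
        (y : Matrix (Fin 2) (Fin 2) ℝ)) h1 hval.continuousAt)
    refine h2.congr ?_
    have hnb : ∀ᶠ y : GL (Fin 2) ℝ in nhds y₀, 0 < (y : Matrix (Fin 2) (Fin 2) ℝ).det :=
      hval.continuousAt.eventually hmem
    exact hnb.mono fun y hy => (abelF0_eq3s c φ y hy).symm
  · have hneg := det_pos_gl3s y₀ h0
    have hnb : ∀ᶠ y : GL (Fin 2) ℝ in nhds y₀, (y : Matrix (Fin 2) (Fin 2) ℝ).det < 0 :=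
      hval.continuousAt.eventually (isOpen_negMat3s.mem_nhds hneg)
    refine (continuousAt_const (y := (0 : ℂ))).congr ?_
    refine hnb.mono fun y hy => ?_
    unfold abelF0_626
    rw [if_neg (not_lt.2 hy.le)]

/-! ## F. The leaf -/

/-- **T6.20a.5** `F0SoftOfC626`. -/
theorem f0SoftOf3 : F0SoftOfC626 := by
  intro hC c φ hφ
  refine ⟨continuous_abelF03s c hφ, hasCompactSupport_abelF03s c hφ, ?_, ?_⟩
  · intro k g hk
    rw [wtChar_zero3s, inv_one, one_mul]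
    exact abelF0_congr3s hC c hφ g (k * g) (det_mul_left3s hk g) (rhoM_mul_left3s hk g)
  · intro k g hk
    rw [wtChar_zero3s, inv_one, one_mul]
    exact abelF0_congr3s hC c hφ g (g * k) (det_mul_right3s hk g) (rhoM_mul_right3s hk g)

example : Fermat.Agent.LT.T6.H626.F0SoftOfC626 := f0SoftOf3

end Fermat.Agent.LT.T6.H3

end

end
-- ===== PACK-END LT/T6/H3/F0Soft.lean

-- ===== PACK-BEGIN LT/T6/H367/EllLift.lean
section




/-!
# Row LT, tower T6, leaf T6.14c `EllCountC` (helper367): lifting from `νⁿ` to `νⁿ⁺¹`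

OFF-MAIN.  No gaps, nothing assumed.

Even case (`v d₁ ≤ v d₀`).  `F(ξ)` = the `Π`-coordinate of `δ₀ s(x) x̄`, `x = 1 + ξ Π`,
`A(ξ)` = its `1`-coordinate.  The state of `ξ` at level `n`: `r = 0` if `ord F(ξ) ≥ J + n`
(`J = ord d₀`), and `r = J + n - ord F(ξ)` otherwise.
`F(ξ + νⁿ t) ≡ F(ξ) + νⁿ A(ξ) (s t - t)` modulo `νⁿ⁺¹ d₀`.
-/

set_option autoImplicit false

open scoped Matrix

noncomputable section

namespace Fermat.Agent.LT.T6.H367

open Fermat.Agent.LT.T6 Fermat.Agent.LT.T6.H847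

/-! ## 1. The value group, ultrametric inequalities -/

theorem mul_exp_le_iff367 (x y : Γ₀) (n : ℤ) :
    x * WithZero.exp n ≤ y ↔ x ≤ y * WithZero.exp (-n) := by
  rw [WithZero.exp_neg, le_mul_inv_iff₀ WithZero.exp_pos]

section Ultra

variable {K : Type} [Field K] [Valued K Γ₀]

theorem ultra367 (a b : K) (c : Γ₀) (h : Valued.v (a - b) ≤ c) :
    (Valued.v a ≤ c ↔ Valued.v b ≤ c) ∧ (¬ Valued.v b ≤ c → Valued.v a = Valued.v b) := by
  refine ⟨⟨fun ha => ?_, fun hb => ?_⟩, fun hb => ?_⟩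
  · have e : b = a - (a - b) := by ring
    rw [e]
    exact Valuation.map_sub_le _ ha h
  · have e : a = (a - b) + b := by ring
    rw [e]
    exact Valuation.map_add_le _ h hb
  · have hlt : Valued.v (a - b) < Valued.v b := lt_of_le_of_lt h (not_le.1 hb)
    have e : a = b + (a - b) := by ring
    rw [e, Valuation.map_add_eq_of_lt_left _ hlt]

theorem intA367 {x y : K} (hx : Valued.v x ≤ 1) (hy : Valued.v y ≤ 1) : Valued.v (x + y) ≤ 1 :=
  Valuation.map_add_le _ hx hy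

theorem intS367 {x y : K} (hx : Valued.v x ≤ 1) (hy : Valued.v y ≤ 1) : Valued.v (x - y) ≤ 1 :=
  Valuation.map_sub_le _ hx hy

theorem intM367 {x y : K} (hx : Valued.v x ≤ 1) (hy : Valued.v y ≤ 1) : Valued.v (x * y) ≤ 1 := by
  rw [Valuation.map_mul]
  exact mul_le_one' hx hy

theorem intN367 {x : K} (hx : Valued.v x ≤ 1) : Valued.v (-x) ≤ 1 := by
  rw [Valuation.map_neg]
  exact hx

end Ultra

/-! ## 2. The state -/

section State

variable {K : Type} [Field K] [Valued K Γ₀]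

open Classical in
/-- The state of `ξ` at level `n`: `0` if `ord F(ξ) ≥ J + n`, and `J + n - ord F(ξ)` otherwise. -/
def rr367 (s : K ≃+* K) (τ ν d₀ d₁ : K) (n : ℕ) (ξ : K) : ℕ :=
  if Valued.v (bNum367 τ ν d₀ d₁ ξ (s ξ)) * WithZero.exp ((n : ℤ)) ≤ Valued.v d₀ then 0
  else (ord847 d₀ + n - ord847 (bNum367 τ ν d₀ d₁ ξ (s ξ))).toNat

theorem ord_of_bad367 {d₀ : K} (hd₀ : d₀ ≠ 0) (x : K) (n : ℕ)
    (h : Valued.v d₀ < Valued.v x * WithZero.exp ((n : ℤ))) :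
    x ≠ 0 ∧ 0 < ord847 d₀ + n - ord847 x := by
  have hx : x ≠ 0 := by
    intro hx
    rw [hx, Valuation.map_zero, zero_mul] at h
    exact not_lt_bot h
  refine ⟨hx, ?_⟩
  rw [val_eq_exp_ord367 hd₀, val_eq_exp_ord367 hx, ← WithZero.exp_add, WithZero.exp_lt_exp] at h
  omega

namespace Ctx367

variable {s : K ≃+* K} {τ ν : K} (C : Ctx367 s τ ν)
include C

/-- **The lifting congruence**: `F(ξ + νⁿ t) ≡ F(ξ) + νⁿ A(ξ) (s t - t)` modulo `νⁿ⁺¹ d₀`. -/
theorem lip (d₀ d₁ : K) (hE : Valued.v d₁ ≤ Valued.v d₀) (hd₀ : d₀ ≠ 0) (n : ℕ) (ξ t : K)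
    (hξ : Valued.v ξ ≤ 1) (ht : Valued.v t ≤ 1) :
    Valued.v (bNum367 τ ν d₀ d₁ (ξ + ν ^ n * t) (s (ξ + ν ^ n * t))
        - bNum367 τ ν d₀ d₁ ξ (s ξ) - ν ^ n * aNum367 τ ν d₀ d₁ ξ (s ξ) * (s t - t))
      ≤ Valued.v d₀ * WithZero.exp (-((n + 1 : ℕ) : ℤ)) := by
  have hν0 := C.ν_ne
  obtain ⟨τ', hτ', hτeq⟩ : ∃ τ' : K, Valued.v τ' ≤ 1 ∧ τ = ν * τ' := by
    refine ⟨τ / ν, ?_, by field_simp⟩
    rw [map_div₀, C.val_ν]
    exact div_le_one_of_le₀ C.val_τ_le zero_le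
  obtain ⟨δ, hδ, hδeq⟩ : ∃ δ : K, Valued.v δ ≤ 1 ∧ d₁ = d₀ * δ := by
    refine ⟨d₁ / d₀, ?_, by field_simp⟩
    rw [map_div₀]
    exact div_le_one_of_le₀ hE zero_le
  have hsξ : Valued.v (s ξ) ≤ 1 := by rw [C.val_s]; exact hξ
  have hst : Valued.v (s t) ≤ 1 := by rw [C.val_s]; exact ht
  have hνn : Valued.v (ν ^ n) ≤ 1 := by rw [C.val_ν_pow]; exact exp_neg_le_one367 n
  have key : bNum367 τ ν d₀ d₁ (ξ + ν ^ n * t) (s (ξ + ν ^ n * t))
        - bNum367 τ ν d₀ d₁ ξ (s ξ) - ν ^ n * aNum367 τ ν d₀ d₁ ξ (s ξ) * (s t - t)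
      = ν ^ (n + 1) * d₀ * (-(τ' * ξ + ξ * s ξ) * (s t - t) + δ * (s ξ - ξ) * (s t - t)
          + δ * τ' * t + δ * (ξ * s t + t * s ξ + ν ^ n * t * s t) + τ' * δ * (s t - t)) := by
    unfold bNum367 aNum367
    rw [map_add, map_mul, map_pow, C.sν, hδeq, hτeq]
    ring
  have hP : Valued.v (-(τ' * ξ + ξ * s ξ) * (s t - t) + δ * (s ξ - ξ) * (s t - t)
          + δ * τ' * t + δ * (ξ * s t + t * s ξ + ν ^ n * t * s t) + τ' * δ * (s t - t)) ≤ 1 :=
    intA367 (intA367 (intA367 (intA367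
      (intM367 (intN367 (intA367 (intM367 hτ' hξ) (intM367 hξ hsξ))) (intS367 hst ht))
      (intM367 (intM367 hδ (intS367 hsξ hξ)) (intS367 hst ht)))
      (intM367 (intM367 hδ hτ') ht))
      (intM367 hδ (intA367 (intA367 (intM367 hξ hst) (intM367 ht hsξ))
        (intM367 (intM367 hνn ht) hst))))
      (intM367 (intM367 hτ' hδ) (intS367 hst ht))
  rw [key, Valuation.map_mul, Valuation.map_mul, C.val_ν_pow]
  calc WithZero.exp (-((n + 1 : ℕ) : ℤ)) * Valued.v d₀ * _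
      ≤ WithZero.exp (-((n + 1 : ℕ) : ℤ)) * Valued.v d₀ * 1 := mul_le_mul' le_rfl hP
    _ = _ := by rw [mul_one, mul_comm]

/-- The crude form: `F(ξ + νⁿ t) ≡ F(ξ)` modulo `νⁿ d₀`. -/
theorem lipC (d₀ d₁ : K) (hE : Valued.v d₁ ≤ Valued.v d₀) (hd₀ : d₀ ≠ 0) (n : ℕ) (ξ t : K)
    (hξ : Valued.v ξ ≤ 1) (ht : Valued.v t ≤ 1) :
    Valued.v (bNum367 τ ν d₀ d₁ (ξ + ν ^ n * t) (s (ξ + ν ^ n * t))
        - bNum367 τ ν d₀ d₁ ξ (s ξ))
      ≤ Valued.v d₀ * WithZero.exp (-(n : ℤ)) := by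
  have h1 := C.lip d₀ d₁ hE hd₀ n ξ t hξ ht
  have h2 : Valued.v (ν ^ n * aNum367 τ ν d₀ d₁ ξ (s ξ) * (s t - t))
      ≤ Valued.v d₀ * WithZero.exp (-(n : ℤ)) := by
    rw [Valuation.map_mul, Valuation.map_mul, C.val_ν_pow, C.val_aNum_even d₀ d₁ ξ hξ hE hd₀]
    calc WithZero.exp (-(n : ℤ)) * Valued.v d₀ * Valued.v (s t - t)
        ≤ WithZero.exp (-(n : ℤ)) * Valued.v d₀ * 1 := mul_le_mul' le_rfl (C.val_sub_le t ht)
      _ = _ := by rw [mul_one, mul_comm]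
  have e : bNum367 τ ν d₀ d₁ (ξ + ν ^ n * t) (s (ξ + ν ^ n * t)) - bNum367 τ ν d₀ d₁ ξ (s ξ)
      = (bNum367 τ ν d₀ d₁ (ξ + ν ^ n * t) (s (ξ + ν ^ n * t))
          - bNum367 τ ν d₀ d₁ ξ (s ξ) - ν ^ n * aNum367 τ ν d₀ d₁ ξ (s ξ) * (s t - t))
        + ν ^ n * aNum367 τ ν d₀ d₁ ξ (s ξ) * (s t - t) := by ring
  rw [e]
  exact Valuation.map_add_le _
    (le_trans h1 (mul_le_mul' le_rfl (exp_neg_succ_lt367 n).le)) h2

/-- The Cartan invariant in terms of the state. -/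
theorem cartan_rr (d₀ d₁ : K) (δ₀ : GL (Fin 2) K)
    (hδ : (δ₀ : Matrix (Fin 2) (Fin 2) K) = embMat τ ν d₀ d₁) (hE : Valued.v d₁ ≤ Valued.v d₀)
    (hd₀ : d₀ ≠ 0) (n : ℕ) (ξ : K) (hξ : Valued.v ξ ≤ 1) :
    cartan (conjGL367 s τ ν δ₀ n ξ)
      = (ord847 d₀ + (rr367 s τ ν d₀ d₁ n ξ : ℤ), ord847 d₀ - (rr367 s τ ν d₀ d₁ n ξ : ℤ)) := by
  by_cases hg : Valued.v (bNum367 τ ν d₀ d₁ ξ (s ξ)) * WithZero.exp ((n : ℤ)) ≤ Valued.v d₀
  · rw [C.cartan_even_good d₀ d₁ δ₀ hδ hE hd₀ n ξ hξ hg, rr367, if_pos hg]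
    simp
  · have hbad := not_le.1 hg
    obtain ⟨_, hpos⟩ := ord_of_bad367 hd₀ _ n hbad
    rw [C.cartan_even_bad d₀ d₁ δ₀ hδ hE hd₀ n ξ hξ hbad, rr367, if_neg hg,
      Int.toNat_of_nonneg hpos.le]
    ext
    · simp only; ring
    · simp only; ring

/-- The state at level `n` depends on `ξ` modulo `νⁿ` only. -/
theorem rr_congr (d₀ d₁ : K) (hE : Valued.v d₁ ≤ Valued.v d₀) (hd₀ : d₀ ≠ 0) (n : ℕ)
    (x y : K) (hx : Valued.v x ≤ 1) (hy : Valued.v y ≤ 1)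
    (hxy : Valued.v (x - y) ≤ WithZero.exp (-(n : ℤ))) :
    rr367 s τ ν d₀ d₁ n x = rr367 s τ ν d₀ d₁ n y := by
  have hνn0 : ν ^ n ≠ 0 := pow_ne_zero n C.ν_ne
  have ht : Valued.v ((x - y) / ν ^ n) ≤ 1 := by
    rw [map_div₀, C.val_ν_pow]
    exact div_le_one_of_le₀ hxy zero_le
  have hx' : x = y + ν ^ n * ((x - y) / ν ^ n) := by
    field_simp
    ring
  have hlip := C.lipC d₀ d₁ hE hd₀ n y _ hy ht
  rw [← hx'] at hlip
  obtain ⟨h1, h2⟩ := ultra367 _ _ _ hlip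
  unfold rr367
  by_cases hg : Valued.v (bNum367 τ ν d₀ d₁ y (s y)) * WithZero.exp ((n : ℤ)) ≤ Valued.v d₀
  · have hg' : Valued.v (bNum367 τ ν d₀ d₁ x (s x)) * WithZero.exp ((n : ℤ)) ≤ Valued.v d₀ :=
      (mul_exp_le_iff367 _ _ _).2 (h1.2 ((mul_exp_le_iff367 _ _ _).1 hg))
    rw [if_pos hg, if_pos hg']
  · have hb : ¬ Valued.v (bNum367 τ ν d₀ d₁ y (s y))
        ≤ Valued.v d₀ * WithZero.exp (-(n : ℤ)) := fun h => hg ((mul_exp_le_iff367 _ _ _).2 h)
    have hv := h2 hb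
    have hg' : ¬ Valued.v (bNum367 τ ν d₀ d₁ x (s x)) * WithZero.exp ((n : ℤ))
        ≤ Valued.v d₀ := by
      rw [hv]
      exact hg
    rw [if_neg hg, if_neg hg']
    have : ord847 (bNum367 τ ν d₀ d₁ x (s x)) = ord847 (bNum367 τ ν d₀ d₁ y (s y)) := by
      unfold ord847
      rw [hv]
    rw [this]

/-- Level `0`: the state is `0`. -/
theorem rr_zero (d₀ d₁ : K) (hE : Valued.v d₁ ≤ Valued.v d₀) (ξ : K) (hξ : Valued.v ξ ≤ 1) :
    rr367 s τ ν d₀ d₁ 0 ξ = 0 := by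
  unfold rr367
  rw [if_pos]
  simpa using C.val_bNum_even d₀ d₁ ξ hξ hE

/-- The children of a bad node are bad, the state increases by `1`. -/
theorem child_bad (d₀ d₁ : K) (hE : Valued.v d₁ ≤ Valued.v d₀) (hd₀ : d₀ ≠ 0) (n : ℕ)
    (ξ t : K) (hξ : Valued.v ξ ≤ 1) (ht : Valued.v t ≤ 1)
    (hb : ¬ Valued.v (bNum367 τ ν d₀ d₁ ξ (s ξ)) * WithZero.exp ((n : ℤ)) ≤ Valued.v d₀) :
    rr367 s τ ν d₀ d₁ (n + 1) (ξ + ν ^ n * t) = rr367 s τ ν d₀ d₁ n ξ + 1 := by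
  have hlip := C.lipC d₀ d₁ hE hd₀ n ξ t hξ ht
  obtain ⟨_, h2⟩ := ultra367 _ _ _ hlip
  have hb' : ¬ Valued.v (bNum367 τ ν d₀ d₁ ξ (s ξ))
      ≤ Valued.v d₀ * WithZero.exp (-(n : ℤ)) := fun h => hb ((mul_exp_le_iff367 _ _ _).2 h)
  have hv := h2 hb'
  have hbad := not_le.1 hb
  have hg' : ¬ Valued.v (bNum367 τ ν d₀ d₁ (ξ + ν ^ n * t) (s (ξ + ν ^ n * t)))
      * WithZero.exp (((n + 1 : ℕ) : ℤ)) ≤ Valued.v d₀ := by
    rw [hv]
    refine not_le.2 (lt_of_lt_of_le hbad (mul_le_mul' le_rfl (WithZero.exp_le_exp.2 ?_)))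
    push_cast
    omega
  obtain ⟨_, hpos⟩ := ord_of_bad367 hd₀ _ n hbad
  unfold rr367
  rw [if_neg hb, if_neg hg']
  have : ord847 (bNum367 τ ν d₀ d₁ (ξ + ν ^ n * t) (s (ξ + ν ^ n * t)))
      = ord847 (bNum367 τ ν d₀ d₁ ξ (s ξ)) := by
    unfold ord847
    rw [hv]
  rw [this]
  push_cast
  omega

/-- The children of a good node: the state is `0` if `s t - t ≡ ζ`, `ζ = - F(ξ) / (νⁿ A(ξ))`,
and `1` otherwise. -/
theorem child_good (d₀ d₁ : K) (hE : Valued.v d₁ ≤ Valued.v d₀) (hd₀ : d₀ ≠ 0) (n : ℕ)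
    (ξ t : K) (hξ : Valued.v ξ ≤ 1) (ht : Valued.v t ≤ 1)
    (hg : Valued.v (bNum367 τ ν d₀ d₁ ξ (s ξ)) * WithZero.exp ((n : ℤ)) ≤ Valued.v d₀) :
    Valued.v (-(bNum367 τ ν d₀ d₁ ξ (s ξ)) / (ν ^ n * aNum367 τ ν d₀ d₁ ξ (s ξ))) ≤ 1 ∧
    rr367 s τ ν d₀ d₁ (n + 1) (ξ + ν ^ n * t)
      = if Valued.v (s t - t
          - -(bNum367 τ ν d₀ d₁ ξ (s ξ)) / (ν ^ n * aNum367 τ ν d₀ d₁ ξ (s ξ))) < 1
        then 0 else 1 := by
  classical
  have hv₀ : Valued.v d₀ ≠ 0 := (Valuation.ne_zero_iff _).2 hd₀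
  have hνn0 : ν ^ n ≠ 0 := pow_ne_zero n C.ν_ne
  have hvA := C.val_aNum_even d₀ d₁ ξ hξ hE hd₀
  have hA0 : aNum367 τ ν d₀ d₁ ξ (s ξ) ≠ 0 := by
    intro h
    rw [h, Valuation.map_zero] at hvA
    exact hv₀ hvA.symm
  have hg1 := (mul_exp_le_iff367 _ _ _).1 hg
  set F := bNum367 τ ν d₀ d₁ ξ (s ξ) with hF
  set A := aNum367 τ ν d₀ d₁ ξ (s ξ) with hA
  set F' := bNum367 τ ν d₀ d₁ (ξ + ν ^ n * t) (s (ξ + ν ^ n * t)) with hF'
  set c := Valued.v d₀ * WithZero.exp (-(n : ℤ)) with hc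
  have hc0 : c ≠ 0 := mul_ne_zero hv₀ WithZero.exp_ne_zero
  have hc' : Valued.v d₀ * WithZero.exp (-((n + 1 : ℕ) : ℤ)) = WithZero.exp (-1 : ℤ) * c := by
    rw [exp_neg_succ367, hc]
    ac_rfl
  have hvνA : Valued.v (ν ^ n * A) = c := by
    rw [Valuation.map_mul, C.val_ν_pow, hvA, hc, mul_comm]
  have hζ : Valued.v (-F / (ν ^ n * A)) ≤ 1 := by
    rw [map_div₀, Valuation.map_neg, hvνA]
    exact div_le_one_of_le₀ hg1 zero_le
  refine ⟨hζ, ?_⟩
  set w := s t - t - -F / (ν ^ n * A) with hw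
  have hX : F + ν ^ n * A * (s t - t) = ν ^ n * A * w := by
    rw [hw]
    field_simp
    ring
  have hlip := C.lip d₀ d₁ hE hd₀ n ξ t hξ ht
  rw [← hF, ← hA, ← hF', hc'] at hlip
  have e : F' - F - ν ^ n * A * (s t - t) = F' - ν ^ n * A * w := by
    rw [← hX]
    ring
  rw [e] at hlip
  obtain ⟨h1, _⟩ := ultra367 _ _ _ hlip
  have hvX : Valued.v (ν ^ n * A * w) = c * Valued.v w := by
    rw [Valuation.map_mul, hvνA]
  have hlipC := C.lipC d₀ d₁ hE hd₀ n ξ t hξ ht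
  rw [← hF, ← hF', ← hc] at hlipC
  have hF'c : Valued.v F' ≤ c := (ultra367 _ _ _ hlipC).1.2 hg1
  by_cases hw1 : Valued.v w < 1
  · rw [if_pos hw1]
    have hXle : Valued.v (ν ^ n * A * w) ≤ WithZero.exp (-1 : ℤ) * c := by
      rw [hvX, mul_comm]
      exact mul_le_mul' (lt_one_iff367.1 hw1) le_rfl
    have hF'le := h1.2 hXle
    rw [← hc'] at hF'le
    unfold rr367
    rw [if_pos ((mul_exp_le_iff367 _ _ _).2 hF'le)]
  · rw [if_neg hw1]
    have hXnot : ¬ Valued.v (ν ^ n * A * w) ≤ WithZero.exp (-1 : ℤ) * c := by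
      rw [hvX]
      intro h
      have h3 : c * Valued.v w < c * 1 := by
        rw [mul_one]
        exact (lt_iff_le_exp_mul367 hc0).2 h
      exact hw1 ((mul_lt_mul_iff_right₀ (zero_lt_iff.2 hc0)).1 h3)
    have hF'not : ¬ Valued.v F' ≤ WithZero.exp (-1 : ℤ) * c := fun h => hXnot (h1.1 h)
    have hF'eq : Valued.v F' = c := by
      refine le_antisymm hF'c (not_lt.1 fun h => hF'not ((lt_iff_le_exp_mul367 hc0).1 h))
    have hbad : ¬ Valued.v F' * WithZero.exp (((n + 1 : ℕ) : ℤ)) ≤ Valued.v d₀ := by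
      intro h
      have := (mul_exp_le_iff367 _ _ _).1 h
      rw [hc'] at this
      exact hF'not this
    have hord : ord847 F' = ord847 d₀ + n := by
      apply ord_eq_of_val367
      rw [hF'eq, hc, val_eq_exp_ord367 hd₀, ← WithZero.exp_add]
      congr 1
      ring
    unfold rr367
    rw [← hF', if_neg hbad, hord]
    push_cast
    omega

/-- `v β' ≤ v α'` and `v α' = (v d₀) ^ l`. -/
theorem beta_le_alpha (l : ℕ) (hl : ∀ y : K, (s ^ l) y = y) (d₀ d₁ : K) (δ₀ γ' : GL (Fin 2) K)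
    (hδ : (δ₀ : Matrix (Fin 2) (Fin 2) K) = embMat τ ν d₀ d₁)
    (α' β' : K) (hγ : (γ' : Matrix (Fin 2) (Fin 2) K) = embMat τ ν α' β')
    (hN : twNorm s l δ₀ = γ') (hE : Valued.v d₁ ≤ Valued.v d₀) (hd₀ : d₀ ≠ 0) :
    Valued.v α' = Valued.v d₀ ^ l ∧ Valued.v β' ≤ Valued.v α' := by
  have h0 : Valued.v (0 : K) ≤ 1 := by simp
  have hF := C.val_bNum_even d₀ d₁ 0 h0 hE
  have hvA := C.val_aNum_even d₀ d₁ 0 h0 hE hd₀
  obtain ⟨hα, hβ⟩ := C.norm_even l hl d₀ d₁ δ₀ γ' hδ α' β' hγ hN hE hd₀ 0 h0 0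
    (by simpa using hF)
  refine ⟨hα, ?_⟩
  have hu : Valued.v (trS367 s l (bNum367 τ ν d₀ d₁ 0 (s 0) / aNum367 τ ν d₀ d₁ 0 (s 0))) ≤ 1 := by
    refine val_trS367_le s C.val_s l _ 1 ?_
    rw [map_div₀, hvA]
    exact div_le_one_of_le₀ hF zero_le
  have hβ' : Valued.v (β' - α' * trS367 s l
      (bNum367 τ ν d₀ d₁ 0 (s 0) / aNum367 τ ν d₀ d₁ 0 (s 0))) ≤ Valued.v α' := by
    refine le_trans hβ ?_
    calc Valued.v α' * WithZero.exp (-(((0 : ℕ) : ℤ) + 1)) ≤ Valued.v α' * 1 :=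
          mul_le_mul' le_rfl (by
            rw [← WithZero.exp_zero]
            exact WithZero.exp_le_exp.2 (by simp))
      _ = _ := mul_one _
  refine ((ultra367 _ _ _ hβ').1).2 ?_
  rw [Valuation.map_mul]
  calc Valued.v α' * _ ≤ Valued.v α' * 1 := mul_le_mul' le_rfl hu
    _ = _ := mul_one _

/-- **The trace criterion.**  For a good node `ξ` at level `n`:
`Tr ζ ≡ 0` iff `ord β' - ord α' ≥ n + 1`. -/
theorem trace_crit (l : ℕ) (hl : ∀ y : K, (s ^ l) y = y) (d₀ d₁ : K) (δ₀ γ' : GL (Fin 2) K)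
    (hδ : (δ₀ : Matrix (Fin 2) (Fin 2) K) = embMat τ ν d₀ d₁)
    (α' β' : K) (hγ : (γ' : Matrix (Fin 2) (Fin 2) K) = embMat τ ν α' β')
    (hN : twNorm s l δ₀ = γ') (hE : Valued.v d₁ ≤ Valued.v d₀) (hd₀ : d₀ ≠ 0) (n : ℕ)
    (ξ : K) (hξ : Valued.v ξ ≤ 1)
    (hg : Valued.v (bNum367 τ ν d₀ d₁ ξ (s ξ)) * WithZero.exp ((n : ℤ)) ≤ Valued.v d₀) :
    Valued.v (trS367 s l
        (-(bNum367 τ ν d₀ d₁ ξ (s ξ)) / (ν ^ n * aNum367 τ ν d₀ d₁ ξ (s ξ)))) < 1
      ↔ Valued.v β' ≤ Valued.v α' * WithZero.exp (-((n + 1 : ℕ) : ℤ)) := by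
  have hv₀ : Valued.v d₀ ≠ 0 := (Valuation.ne_zero_iff _).2 hd₀
  have hνn0 : ν ^ n ≠ 0 := pow_ne_zero n C.ν_ne
  have hvA := C.val_aNum_even d₀ d₁ ξ hξ hE hd₀
  have hA0 : aNum367 τ ν d₀ d₁ ξ (s ξ) ≠ 0 := by
    intro h
    rw [h, Valuation.map_zero] at hvA
    exact hv₀ hvA.symm
  obtain ⟨hα, hβ⟩ := C.norm_even l hl d₀ d₁ δ₀ γ' hδ α' β' hγ hN hE hd₀ ξ hξ n
    ((mul_exp_le_iff367 _ _ _).1 hg)
  have hvα : Valued.v α' ≠ 0 := by
    rw [hα]
    exact pow_ne_zero l hv₀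
  set F := bNum367 τ ν d₀ d₁ ξ (s ξ) with hF
  set A := aNum367 τ ν d₀ d₁ ξ (s ξ) with hA
  set u := trS367 s l (F / A) with hu
  have hsν : s (-(ν ^ n)⁻¹) = -(ν ^ n)⁻¹ := by
    rw [map_neg, map_inv₀, map_pow, C.sν]
  have e1 : -F / (ν ^ n * A) = -(ν ^ n)⁻¹ * (F / A) := by
    field_simp
  have hexp : (WithZero.exp (-((n + 1 : ℕ) : ℤ)) : Γ₀)
      = WithZero.exp (-((n : ℤ) + 1)) := by
    congr 1
  have hexp2 : (WithZero.exp (-((n + 1 : ℕ) : ℤ)) : Γ₀)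
      = WithZero.exp (-1 : ℤ) * WithZero.exp (-(n : ℤ)) := exp_neg_succ367 n
  rw [e1, trS367_mul_fix s l _ _ hsν, ← hu, Valuation.map_mul, Valuation.map_neg, map_inv₀,
    C.val_ν_pow, ← WithZero.exp_neg, neg_neg]
  rw [← hexp] at hβ
  have h1 := (ultra367 _ _ _ hβ).1
  rw [Valuation.map_mul, mul_le_mul_iff_right₀ (zero_lt_iff.2 hvα)] at h1
  rw [h1, hexp2]
  constructor
  · intro h
    have h2 : Valued.v u * WithZero.exp ((n : ℤ)) < 1 := by
      rw [mul_comm]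
      exact h
    have h3 := lt_one_iff367.1 h2
    have h4 := (mul_exp_le_iff367 _ _ _).1 h3
    exact h4
  · intro h
    have h3 := (mul_exp_le_iff367 _ _ _).2 h
    rw [mul_comm]
    exact lt_one_iff367.2 h3

end Ctx367

end State

end Fermat.Agent.LT.T6.H367

end

end
-- ===== PACK-END LT/T6/H367/EllLift.lean

-- ===== PACK-BEGIN LT/T6/H729/F1Smooth.lean
section




/-!
# Row LT, tower T6, leaf T6.20a.4 `F1SmoothOfC626` (helper729), OFF-MAIN

`f1SmoothOf729 : H626.F1SmoothOfC626`, i.e.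
`FamSmoothC626 → ParamIntC626 → ∀ c n, n = 1 ∨ n = -1 → ∀ φ, IsArchTestC φ →
  IsSmoothR626 (abelF1_626 c n φ)`
(frozen Props of `Fermat/Agent/LT/T6/H626/AbelCut.lean`, sha256 6a4d529b; algebra of the family
from `H626/FamAlg.lean`, sha256 9c407f7e; byte-identical copies).

Reusable (also for `F0SmoothOfC626`): `det_sign729` (constant sign of a nonvanishing continuous
function on `ℝ^m`), `exists_bound729` (uniform support in `v`), `contDiff_integrand729`,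
`contDiff_integral729` (the parametric integral `t ↦ ∫ φ(M_v(Y t)) dv` is smooth),
`contDiff_sqrt_det729`, `contDiff_rhoM729`.
-/

set_option autoImplicit false

open scoped Matrix ContDiff
open MeasureTheory

noncomputable section

namespace Fermat.Agent.LT.T6.H729

open Fermat.Agent.LT.T6 Fermat.Agent.LT.T6.H626

/-! ## 1. `rhoC` is continuous -/

theorem det_ne_zero729 (y : GL (Fin 2) ℂ) : (y : Matrix (Fin 2) (Fin 2) ℂ).det ≠ 0 :=
  ((Matrix.isUnit_iff_isUnit_det _).1 y.isUnit).ne_zero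

theorem continuous_rhoC729 : Continuous rhoC := by
  unfold rhoC
  have hval : Continuous fun y : GL (Fin 2) ℂ => (y : Matrix (Fin 2) (Fin 2) ℂ) :=
    Units.continuous_val
  have h1 : Continuous fun y : GL (Fin 2) ℂ =>
      (((y : Matrix (Fin 2) (Fin 2) ℂ).conjTranspose * (y : Matrix (Fin 2) (Fin 2) ℂ)).trace).re :=
    Complex.continuous_re.comp ((hval.matrix_conjTranspose.matrix_mul hval).matrix_trace)
  have h2 : Continuous fun y : GL (Fin 2) ℂ => 2 * ‖(y : Matrix (Fin 2) (Fin 2) ℂ).det‖ :=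
    continuous_const.mul hval.matrix_det.norm
  exact h1.div h2 fun y => mul_ne_zero two_ne_zero (norm_ne_zero_iff.2 (det_ne_zero729 y))

/-! ## 2. Constant sign -/

/-- A continuous nonvanishing real function on `ℝ^m` has a constant sign. -/
theorem det_sign729 {m : ℕ} (d : (Fin m → ℝ) → ℝ) (hc : Continuous d) (h0 : ∀ t, d t ≠ 0) :
    (∀ t, 0 < d t) ∨ (∀ t, d t < 0) := by
  by_contra hcon
  rw [not_or] at hcon
  obtain ⟨h1, h2⟩ := hcon
  rw [not_forall] at h1 h2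
  obtain ⟨t1, h1⟩ := h1
  obtain ⟨t2, h2⟩ := h2
  have hmem : (0 : ℝ) ∈ Set.range d :=
    mem_range_of_exists_le_of_exists_ge hc ⟨t1, not_lt.1 h1⟩ ⟨t2, not_lt.1 h2⟩
  obtain ⟨t, ht⟩ := hmem
  exact h0 t ht

/-! ## 3. The parametric integral -/

/-- Uniform support in `v` of `v ↦ φ(M_v(y))`. -/
theorem exists_bound729 {φ : GL (Fin 2) ℂ → ℂ} (hφ : IsArchTestC φ) :
    ∃ V : ℝ, ∀ (y : Matrix (Fin 2) (Fin 2) ℝ), 0 < y.det → ∀ v : ℝ, V < |v| →
      φ (toGLC626 (famMat626 y v)) = 0 := by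
  obtain ⟨R, hR⟩ := hφ.supp.isCompact.bddAbove_image continuous_rhoC729.continuousOn
  refine ⟨2 * (|R| + 1), fun y hy v hv => ?_⟩
  by_contra hne
  have hmem : toGLC626 (famMat626 y v) ∈ tsupport φ := subset_tsupport _ hne
  have hle : rhoC (toGLC626 (famMat626 y v)) ≤ R := hR ⟨_, hmem, rfl⟩
  rw [(famAlg626 y hy v).2.2.1] at hle
  have hρ := one_le_rhoM626 y hy
  have hx2 := xv_sq626 (rhoM626 y) v hρ
  have hx1 := one_le_xv626 (rhoM626 y) v hρ
  have hRabs : xv626 (rhoM626 y) v ≤ |R| := hle.trans (le_abs_self R)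
  have hv2 : v ^ 2 = |v| ^ 2 := (sq_abs v).symm
  have hR0 : 0 ≤ |R| := abs_nonneg R
  have hv0 : 0 ≤ |v| := abs_nonneg v
  have hxx : xv626 (rhoM626 y) v ^ 2 ≤ |R| ^ 2 := by nlinarith
  have hvv : (2 * (|R| + 1)) ^ 2 < |v| ^ 2 := by nlinarith
  nlinarith

/-- The integrand `(v, t) ↦ φ(M_v(Y t))` is smooth. -/
theorem contDiff_integrand729 (hFam : FamSmoothC626) {φ : GL (Fin 2) ℂ → ℂ} (hφ : IsArchTestC φ)
    {m : ℕ} (Y : (Fin m → ℝ) → Matrix (Fin 2) (Fin 2) ℝ)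
    (hY : ∀ i j : Fin 2, ContDiff ℝ ∞ fun t => Y t i j) (hpos : ∀ t, 0 < (Y t).det) :
    ContDiff ℝ ∞
      (fun p : Fin (m + 1) → ℝ => φ (toGLC626 (famMat626 (Y (Fin.tail p)) (p 0)))) := by
  have hent : ∀ i j : Fin 2, ContDiff ℝ ∞ (fun p : Fin (m + 1) → ℝ =>
      ((toGLC626 (famMat626 (Y (Fin.tail p)) (p 0)) : GL (Fin 2) ℂ) :
        Matrix (Fin 2) (Fin 2) ℂ) i j) := by
    intro i j
    have e : (fun p : Fin (m + 1) → ℝ =>
        ((toGLC626 (famMat626 (Y (Fin.tail p)) (p 0)) : GL (Fin 2) ℂ) :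
          Matrix (Fin 2) (Fin 2) ℂ) i j)
        = fun p : Fin (m + 1) → ℝ => famMat626 (Y (Fin.tail p)) (p 0) i j := by
      funext p
      rw [(famAlg626 _ (hpos _) _).2.1]
    rw [e]
    exact hFam m Y hY hpos i j
  have h1 := hφ.smooth (m + 1) (fun p => toGLC626 (famMat626 (Y (Fin.tail p)) (p 0))) hent 1
  simpa only [one_mul] using h1

/-- The parametric integral `t ↦ ∫ φ(M_v(Y t)) dv` is smooth. -/
theorem contDiff_integral729 (hFam : FamSmoothC626) (hPar : ParamIntC626)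
    {φ : GL (Fin 2) ℂ → ℂ} (hφ : IsArchTestC φ)
    {m : ℕ} (Y : (Fin m → ℝ) → Matrix (Fin 2) (Fin 2) ℝ)
    (hY : ∀ i j : Fin 2, ContDiff ℝ ∞ fun t => Y t i j) (hpos : ∀ t, 0 < (Y t).det) :
    ContDiff ℝ ∞ (fun t : Fin m → ℝ => ∫ v : ℝ, φ (toGLC626 (famMat626 (Y t) v))) := by
  obtain ⟨V, hV⟩ := exists_bound729 hφ
  have h := hPar m (fun p => φ (toGLC626 (famMat626 (Y (Fin.tail p)) (p 0))))
    (contDiff_integrand729 hFam hφ Y hY hpos) ⟨V, fun p hp => hV _ (hpos _) _ hp⟩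
  simpa only [Fin.tail_cons, Fin.cons_zero] using h

/-! ## 4. The prefactor -/

theorem contDiff_det729 {m : ℕ} (Y : (Fin m → ℝ) → Matrix (Fin 2) (Fin 2) ℝ)
    (hY : ∀ i j : Fin 2, ContDiff ℝ ∞ fun t => Y t i j) :
    ContDiff ℝ ∞ fun t => (Y t).det := by
  simp only [Matrix.det_fin_two]
  exact ((hY 0 0).mul (hY 1 1)).sub ((hY 0 1).mul (hY 1 0))

theorem contDiff_sqrt_det729 {m : ℕ} (Y : (Fin m → ℝ) → Matrix (Fin 2) (Fin 2) ℝ)
    (hY : ∀ i j : Fin 2, ContDiff ℝ ∞ fun t => Y t i j) (hpos : ∀ t, 0 < (Y t).det) :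
    ContDiff ℝ ∞ fun t => Real.sqrt (Y t).det :=
  (contDiff_det729 Y hY).sqrt fun t => (hpos t).ne'

theorem contDiff_rhoM729 {m : ℕ} (Y : (Fin m → ℝ) → Matrix (Fin 2) (Fin 2) ℝ)
    (hY : ∀ i j : Fin 2, ContDiff ℝ ∞ fun t => Y t i j) (hpos : ∀ t, 0 < (Y t).det) :
    ContDiff ℝ ∞ fun t => rhoM626 (Y t) := by
  have e : (fun t => rhoM626 (Y t)) = fun t =>
      (2 * (Y t).det + ((Y t 0 0 - Y t 1 1) ^ 2 + (Y t 0 1 + Y t 1 0) ^ 2)) *
        (2 * (Y t).det)⁻¹ := by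
    funext t
    unfold rhoM626
    rw [trace_transpose_mul626, abs_of_pos (hpos t), div_eq_mul_inv]
  rw [e]
  have hd := contDiff_det729 Y hY
  have hnum : ContDiff ℝ ∞ fun t =>
      2 * (Y t).det + ((Y t 0 0 - Y t 1 1) ^ 2 + (Y t 0 1 + Y t 1 0) ^ 2) :=
    (contDiff_const.mul hd).add ((((hY 0 0).sub (hY 1 1)).pow 2).add (((hY 0 1).add (hY 1 0)).pow 2))
  have hden : ContDiff ℝ ∞ fun t => (2 * (Y t).det)⁻¹ :=
    (contDiff_const.mul hd).inv fun t => (mul_pos two_pos (hpos t)).ne'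
  exact hnum.mul hden

theorem contDiff_holPart729 {m : ℕ} (H : (Fin m → ℝ) → GL (Fin 2) ℝ)
    (hH : ∀ i j : Fin 2, ContDiff ℝ ∞ fun t => ((H t : GL (Fin 2) ℝ) : Matrix (Fin 2) (Fin 2) ℝ) i j) :
    ContDiff ℝ ∞ fun t => holPart (H t) := by
  unfold holPart
  have hre : ContDiff ℝ ∞ fun t =>
      ((((H t : GL (Fin 2) ℝ) : Matrix (Fin 2) (Fin 2) ℝ) 0 0
        + ((H t : GL (Fin 2) ℝ) : Matrix (Fin 2) (Fin 2) ℝ) 1 1 : ℝ) : ℂ) :=
    Complex.ofRealCLM.contDiff.comp ((hH 0 0).add (hH 1 1))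
  have him : ContDiff ℝ ∞ fun t =>
      ((((H t : GL (Fin 2) ℝ) : Matrix (Fin 2) (Fin 2) ℝ) 1 0
        - ((H t : GL (Fin 2) ℝ) : Matrix (Fin 2) (Fin 2) ℝ) 0 1 : ℝ) : ℂ) :=
    Complex.ofRealCLM.contDiff.comp ((hH 1 0).sub (hH 0 1))
  exact (hre.add (him.mul contDiff_const)).div_const 2

theorem contDiff_jn729 (n : ℤ) {m : ℕ} (H : (Fin m → ℝ) → GL (Fin 2) ℝ)
    (hH : ∀ i j : Fin 2, ContDiff ℝ ∞ fun t => ((H t : GL (Fin 2) ℝ) : Matrix (Fin 2) (Fin 2) ℝ) i j) :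
    ContDiff ℝ ∞ fun t => jn626 n (H t) := by
  have hhol := contDiff_holPart729 H hH
  unfold jn626
  by_cases hn : n = 1
  · simp only [hn, if_true]
    have hc : ContDiff ℝ ∞ fun t => Complex.conjCLE (holPart (H t)) :=
      Complex.conjCLE.contDiff.comp hhol
    exact contDiff_const.mul hc
  · simp only [hn, if_false]
    exact contDiff_const.mul hhol

/-! ## 5. The leaf -/

/-- **T6.20a.4 F1-SMOOTH.** -/
theorem f1SmoothOf729 : F1SmoothOfC626 := by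
  intro hFam hPar c n _ φ hφ m h hh g
  -- the matrix family
  set Y : (Fin m → ℝ) → Matrix (Fin 2) (Fin 2) ℝ :=
    fun t => ((g * h t : GL (Fin 2) ℝ) : Matrix (Fin 2) (Fin 2) ℝ) with hYdef
  have hY : ∀ i j : Fin 2, ContDiff ℝ ∞ fun t => Y t i j := by
    intro i j
    have e : (fun t => Y t i j) = fun t =>
        (g : Matrix (Fin 2) (Fin 2) ℝ) i 0 * ((h t : GL (Fin 2) ℝ) : Matrix (Fin 2) (Fin 2) ℝ) 0 j
          + (g : Matrix (Fin 2) (Fin 2) ℝ) i 1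
            * ((h t : GL (Fin 2) ℝ) : Matrix (Fin 2) (Fin 2) ℝ) 1 j := by
      funext t
      simp only [hYdef, Matrix.GeneralLinearGroup.coe_mul, Matrix.mul_apply, Fin.sum_univ_two]
    rw [e]
    exact (contDiff_const.mul (hh 0 j)).add (contDiff_const.mul (hh 1 j))
  have hdet0 : ∀ t, (Y t).det ≠ 0 := fun t =>
    ((Matrix.isUnit_iff_isUnit_det _).1 (g * h t).isUnit).ne_zero
  have hdetc : Continuous fun t => (Y t).det := (contDiff_det729 Y hY).continuous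
  rcases det_sign729 (fun t => (Y t).det) hdetc hdet0 with hpos | hneg
  · -- positive determinant
    have e : (fun t => abelF1_626 c n φ (g * h t)) = fun t =>
        ((Real.sqrt 2 / 4 : ℝ) : ℂ) * c *
          (jn626 n (g * h t) *
            ((Real.sqrt (Y t).det * (rhoM626 (Y t) + 1) : ℝ) : ℂ)⁻¹) *
          ∫ v : ℝ, φ (toGLC626 (famMat626 (Y t) v)) := by
      funext t
      unfold abelF1_626
      rw [if_pos (hpos t), div_eq_mul_inv]
      rfl
    rw [e]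
    have hjn := contDiff_jn729 n (fun t => g * h t) hY
    have hden : ContDiff ℝ ∞ fun t =>
        ((Real.sqrt (Y t).det * (rhoM626 (Y t) + 1) : ℝ) : ℂ) :=
      Complex.ofRealCLM.contDiff.comp
        ((contDiff_sqrt_det729 Y hY hpos).mul ((contDiff_rhoM729 Y hY hpos).add contDiff_const))
    have hden0 : ∀ t, ((Real.sqrt (Y t).det * (rhoM626 (Y t) + 1) : ℝ) : ℂ) ≠ 0 := by
      intro t
      have h1 : 0 < Real.sqrt (Y t).det := Real.sqrt_pos.2 (hpos t)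
      have h2 : 1 ≤ rhoM626 (Y t) := one_le_rhoM626 (Y t) (hpos t)
      exact Complex.ofReal_ne_zero.2 (mul_pos h1 (by linarith)).ne'
    exact (contDiff_const.mul (hjn.mul (hden.inv hden0))).mul
      (contDiff_integral729 hFam hPar hφ Y hY hpos)
  · -- negative determinant: the function vanishes
    have e : (fun t => abelF1_626 c n φ (g * h t)) = fun _ => 0 := by
      funext t
      unfold abelF1_626
      rw [if_neg (not_lt.2 (hneg t).le)]
    rw [e]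
    exact contDiff_const

end Fermat.Agent.LT.T6.H729

end

end
-- ===== PACK-END LT/T6/H729/F1Smooth.lean

-- ===== PACK-BEGIN LT/T6/H75/EllTwSpec.lean
section









/-!
# Row LT, tower T6, leaf T6.20e.2e (`H634.EllTwC634`): THE CUT (helper75)

OFF-MAIN.  Definitions and Props only; nothing is assumed.  Byte-identical copies: `T6/Spec.lean`
v3 (8c5f2ae7), `T6/SpecArch.lean` (003240b2), `H626/ArchCut.lean` (fac998d4),
`H189/ArchIntSpec.lean` (4ac6c090), `H781/EllSpec.lean` (3217f43c), `H634/EllCut.lean` (d96dd710),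
`H634/EllCut2.lean` (07b34a13).

    (ArchIntOut → EllTwC634)  ⇐  CutIndepC75 + TorNormC75 + TwStdC75 + TorCommC75 + ProfC75
                                   + BoxCC75 + H781.EllUpC          (top: `H75/EllTwTop.lean`)

with the CORE `twEllOrbital75` (`H75/TwEll.lean`, PROVED): the twisted orbital integral at
`δ = k_{θ/2}` with the cut-off `h(log |det x|)` in Iwasawa coordinates (no Fermi coordinates).

## Route

`γ` elliptic, `D = det γ`, `θ = thetaOf634 γ`, `δ δ̄ = γ`, `T` = centraliser of `γ` in `GL₂(ℝ)`.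
1. `F(x) = φ(x⁻¹ δ x̄)` is continuous and invariant under `x ↦ t x`, `t ∈ T` (`TorCommC75`).
2. The integral `∫ F β' dμ'` is the same for all cut-off functions `β'` (`CutIndepC75`,
   unfolding; no integrability hypothesis: if one of the integrands is not integrable, none is).
3. `β₀(x) = h(log |det x| + s)` is a cut-off function if `∫ h = 1 / (π λ)`, `λ = lamT634 γ μT`
   (`TorNormC75`: the image of `μT` under `log det` is `π λ ·` Lebesgue).
4. `δ = y δ₀ ȳ⁻¹`, `δ₀ = D^{1/4} k_{θ/2}` (`TwStdC75`); substitute `x = y x'` (left invariance).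
5. `φ(D^{1/4} g) = Φ(rhoC g)` for `|det g| = 1`, `Φ = profC634 φ D` (`ProfC75`, Cartan).
6. The core `twEllOrbital75`; `EllUpC` (helper559); `μ'(boxC634) = π c` (`BoxCC75`).
-/

set_option autoImplicit false

open scoped Matrix ENNReal
open MeasureTheory

noncomputable section

namespace Fermat.Agent.LT.T6.H75

open Fermat.Agent.LT.T6 Fermat.Agent.LT.T6.H189 Fermat.Agent.LT.T6.H634
open Fermat.Agent.LT.T6.H781

/-- **T6.20e.2e.1 (independence of the cut-off, unfolding).**  `γ` elliptic, `T` its centraliser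
in `GL₂(ℝ)` with a Haar measure `μT`; `F` continuous on `GL₂(ℂ)`, invariant under left
translations by `T`; `β₁`, `β₂` cut-off functions (continuous, `≥ 0`, `∫_T β(t x) dμT(t) = 1` for
all `x`).  Then `∫ F β₁ dμ' = ∫ F β₂ dμ'` (Bochner integrals; no integrability hypothesis). -/
def CutIndepC75 : Prop :=
  ∀ (μ' : @Measure (GL (Fin 2) ℂ) (borel _)), @Measure.IsHaarMeasure _ _ _ (borel _) μ' →
    ∀ γ : GL (Fin 2) ℝ, disc γ < 0 →
    ∀ μT : @Measure (twCentSub (MonoidHom.id (GL (Fin 2) ℝ)) γ) (borel _),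
      @Measure.IsHaarMeasure _ _ _ (borel _) μT →
    ∀ F : GL (Fin 2) ℂ → ℂ, Continuous F →
      (∀ (t : twCentSub (MonoidHom.id (GL (Fin 2) ℝ)) γ) (x : GL (Fin 2) ℂ),
        F (Matrix.GeneralLinearGroup.map (algebraMap ℝ ℂ) (t : GL (Fin 2) ℝ) * x) = F x) →
    ∀ β₁ β₂ : GL (Fin 2) ℂ → ℝ,
      Continuous β₁ → (∀ x, 0 ≤ β₁ x) →
      (∀ x : GL (Fin 2) ℂ,
        @integral _ _ _ _ (borel _) μT
          (fun t : twCentSub (MonoidHom.id (GL (Fin 2) ℝ)) γ =>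
            β₁ (Matrix.GeneralLinearGroup.map (algebraMap ℝ ℂ) (t : GL (Fin 2) ℝ) * x)) = 1) →
      Continuous β₂ → (∀ x, 0 ≤ β₂ x) →
      (∀ x : GL (Fin 2) ℂ,
        @integral _ _ _ _ (borel _) μT
          (fun t : twCentSub (MonoidHom.id (GL (Fin 2) ℝ)) γ =>
            β₂ (Matrix.GeneralLinearGroup.map (algebraMap ℝ ℂ) (t : GL (Fin 2) ℝ) * x)) = 1) →
      @integral _ _ _ _ (borel _) μ' (fun x : GL (Fin 2) ℂ => F x * (β₁ x : ℂ))
        = @integral _ _ _ _ (borel _) μ' (fun x : GL (Fin 2) ℂ => F x * (β₂ x : ℂ))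

/-- **T6.20e.2e.2 (normalisation of the Haar measure of the elliptic torus).**  `γ` elliptic,
`μT` a Haar measure of its centraliser `T`, `λ = lamT634 γ μT = μT {1 ≤ det ≤ e²} / (2π)`.  Then
`λ > 0` and the image of `μT` under `t ↦ log det t` is `π λ` times the Lebesgue measure:
`∫_T h(log det t + s) dμT(t) = π λ ∫ h`. -/
def TorNormC75 : Prop :=
  ∀ γ : GL (Fin 2) ℝ, disc γ < 0 →
    ∀ μT : @Measure (twCentSub (MonoidHom.id (GL (Fin 2) ℝ)) γ) (borel _),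
      @Measure.IsHaarMeasure _ _ _ (borel _) μT →
      0 < lamT634 γ μT ∧
      ∀ h : ℝ → ℝ, Continuous h → HasCompactSupport h → ∀ s : ℝ,
        @integral _ _ _ _ (borel _) μT
          (fun t : twCentSub (MonoidHom.id (GL (Fin 2) ℝ)) γ =>
            h (Real.log ((t : GL (Fin 2) ℝ) : Matrix (Fin 2) (Fin 2) ℝ).det + s))
          = Real.pi * lamT634 γ μT * ∫ y : ℝ, h y

/-- **T6.20e.2e.3 (the standard representative of the twisted conjugacy class).**  If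
`δ δ̄ = γ` with `γ ∈ GL₂(ℝ)` elliptic, `D = det γ`, `θ = thetaOf634 γ`, then `δ` is twisted
conjugate to `δ₀ = D^{1/4} k_{θ/2}`: `y⁻¹ δ ȳ = δ₀` for some `y ∈ GL₂(ℂ)`. -/
def TwStdC75 : Prop :=
  ∀ γ : GL (Fin 2) ℝ, disc γ < 0 →
    ∀ δ : GL (Fin 2) ℂ,
      twNorm (starRingAut : ℂ ≃+* ℂ) 2 δ = Matrix.GeneralLinearGroup.map (algebraMap ℝ ℂ) γ →
      ∃ y : GL (Fin 2) ℂ,
        y⁻¹ * δ * glAut (starRingAut : ℂ ≃+* ℂ) y
          = sclC (Real.log (γ : Matrix (Fin 2) (Fin 2) ℝ).det / 4) *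
              Matrix.GeneralLinearGroup.map (algebraMap ℝ ℂ) (rotR (thetaOf634 γ / 2))

/-- **T6.20e.2e.4 (the torus commutes with `δ`).**  If `δ δ̄ = γ` with `γ ∈ GL₂(ℝ)` elliptic,
every `t` in the centraliser of `γ` in `GL₂(ℝ)` commutes with `δ`. -/
def TorCommC75 : Prop :=
  ∀ γ : GL (Fin 2) ℝ, disc γ < 0 →
    ∀ δ : GL (Fin 2) ℂ,
      twNorm (starRingAut : ℂ ≃+* ℂ) 2 δ = Matrix.GeneralLinearGroup.map (algebraMap ℝ ℂ) γ →
      ∀ t : twCentSub (MonoidHom.id (GL (Fin 2) ℝ)) γ,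
        Matrix.GeneralLinearGroup.map (algebraMap ℝ ℂ) (t : GL (Fin 2) ℝ) * δ
          = δ * Matrix.GeneralLinearGroup.map (algebraMap ℝ ℂ) (t : GL (Fin 2) ℝ)

/-- **T6.20e.2e.5 (the radial profile of a test function, Cartan decomposition).**  For a
bi-`U(2)`-invariant test function `φ` and `D > 0`: `profC634 φ D` is a profile and
`φ(D^{1/4} g) = profC634 φ D (rhoC g)` for all `g` with `|det g| = 1`. -/
def ProfC75 : Prop :=
  ∀ φ : GL (Fin 2) ℂ → ℂ, IsArchTestC φ → ∀ D : ℝ, 0 < D →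
    IsProfile (profC634 φ D) ∧
    ∀ g : GL (Fin 2) ℂ, ‖(g : Matrix (Fin 2) (Fin 2) ℂ).det‖ = 1 →
      φ (sclC (Real.log D / 4) * g) = profC634 φ D (rhoC g)

/-- **T6.20e.2e.6 (the measure of the Iwasawa unit box of `GL₂(ℂ)`).**  If
`μ' = c • (iwaC)_* (du₁ du₂ dw dκ)` then `μ' (boxC634) = π c`. -/
def BoxCC75 : Prop :=
  ∀ κ : @Measure (GL (Fin 2) ℂ) (borel _), IsU2Haar κ →
  ∀ (μ' : @Measure (GL (Fin 2) ℂ) (borel _)) (c : ℝ≥0∞),
    μ' = c • @Measure.map _ _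
        (@Prod.instMeasurableSpace _ _ _ (@Prod.instMeasurableSpace _ _ _
          (@Prod.instMeasurableSpace _ _ _ (borel _)))) (borel _) iwaC (iwaMC κ) →
    μ' boxC634 = c * ENNReal.ofReal Real.pi

/-- **The formal top of the cut** (proved in `H75/EllTwTop.lean`). -/
def EllTwTopC75 : Prop :=
  CutIndepC75 → TorNormC75 → TwStdC75 → TorCommC75 → ProfC75 → BoxCC75 → EllUpC →
    ArchIntOut → EllTwC634

end Fermat.Agent.LT.T6.H75

end

end
-- ===== PACK-END LT/T6/H75/EllTwSpec.lean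

-- ===== PACK-BEGIN LT/T6/H382/BaseOrbEx.lean
section


/-!
# Row LT, tower T6, leaf T6.18i.6c `BaseOrbExC385` (helper382), OFF-MAIN

`baseOrbExC_of_propBase382 : H385.PropBaseC385 → H385.BaseOrbExC385`
(registry row 1425; Spec = `LT/T6/H385/DescSpec.lean` of helper385, byte-identical copy).

Proof.  Let `F` be a finite set of cosets carrying the support of `φ` and `X₀` the finite set
given by `PropBaseC385` for `F`.  Every `y = x⁻¹ δ₀ σ(x)` with `φ y ≠ 0` has `x = d x₀ u`,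
`d` in the twisted centraliser of `δ₀`, `x₀ ∈ X₀`, `u ∈ U(n)`, so `y = u⁻¹ (x₀⁻¹ δ₀ σ(x₀)) σ(u)`.
The twisted conjugation by `U(n)` is an equivalence relation (`U(n)` is a subgroup); the set `R`
of the chosen representatives of the classes of the `x₀⁻¹ δ₀ σ(x₀)`, `x₀ ∈ X₀`, is finite, lies in
the twisted class of `δ₀`, consists of pairwise inequivalent elements and meets every class on
which `φ ≠ 0`.  GENERIC part: `exists_orbSumGen_of_cover382` (any group, any subgroup predicate).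
-/

set_option autoImplicit false

open scoped Matrix

noncomputable section

namespace Fermat.Agent.LT.T6.H382

open Fermat.Agent.LT.T6 Fermat.Agent.LT.T6.H783 Fermat.Agent.LT.T6.H385

/-! ## The generic statement -/

section Generic

variable {Γ : Type} [Group Γ]

/-- Twisted conjugation by the subgroup `U`, as a setoid. -/
def twSetoid382 (s : Γ →* Γ) (U : Γ → Prop) (h1 : U 1) (hmul : ∀ u v : Γ, U u → U v → U (u * v))
    (hinv : ∀ u : Γ, U u → U u⁻¹) : Setoid Γ where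
  r y y' := ∃ u : Γ, U u ∧ y' = u⁻¹ * y * s u
  iseqv := by
    refine ⟨fun y => ⟨1, h1, by simp⟩, ?_, ?_⟩
    · rintro y y' ⟨u, hu, rfl⟩
      refine ⟨u⁻¹, hinv u hu, ?_⟩
      simp only [inv_inv, map_inv]
      group
    · rintro y y' y'' ⟨u, hu, rfl⟩ ⟨v, hv, rfl⟩
      refine ⟨u * v, hmul u v hu hv, ?_⟩
      simp only [mul_inv_rev, map_mul]
      group

/-- **Existence of orbit sums from a finite covering family** (generic in `IsOrbSumGen`):
if the elements `y` of the `s`-conjugacy class of `δ` with `φ y ≠ 0` are all `U`-twisted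
conjugate to elements of a finite set `R₀` of the class, the orbit sum exists. -/
theorem exists_orbSumGen_of_cover382 (s : Γ →* Γ) (U : Γ → Prop) (C : Γ → Γ → Prop)
    (h1 : U 1) (hmul : ∀ u v : Γ, U u → U v → U (u * v)) (hinv : ∀ u : Γ, U u → U u⁻¹)
    (φ : Γ → ℂ) (δ : Γ) (R₀ : Finset Γ)
    (hR₀ : ∀ y ∈ R₀, ∃ x : Γ, y = x⁻¹ * δ * s x)
    (hcov : ∀ y : Γ, (∃ x : Γ, y = x⁻¹ * δ * s x) → φ y ≠ 0 →
      ∃ y' ∈ R₀, ∃ u : Γ, U u ∧ y = u⁻¹ * y' * s u) :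
    ∃ c : ℂ, IsOrbSumGen s U C φ δ c := by
  classical
  let S : Setoid Γ := twSetoid382 s U h1 hmul hinv
  let rep : Γ → Γ := fun y => Quotient.out (Quotient.mk S y)
  have hrep : ∀ y : Γ, ∃ u : Γ, U u ∧ rep y = u⁻¹ * y * s u := by
    intro y
    have h : S.r (rep y) y := Quotient.exact (Quotient.out_eq (Quotient.mk S y))
    exact S.iseqv.symm h
  have hrep' : ∀ y : Γ, ∃ u : Γ, U u ∧ y = u⁻¹ * rep y * s u := by
    intro y
    exact Quotient.exact (Quotient.out_eq (Quotient.mk S y))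
  refine ⟨∑ y ∈ R₀.image rep, φ y * (cIndex U C y : ℂ), R₀.image rep, ?_, ?_, ?_, rfl⟩
  · intro y hy
    obtain ⟨y₀, hy₀, rfl⟩ := Finset.mem_image.mp hy
    obtain ⟨x, rfl⟩ := hR₀ y₀ hy₀
    obtain ⟨u, -, hu⟩ := hrep (x⁻¹ * δ * s x)
    refine ⟨x * u, ?_⟩
    rw [hu]
    simp only [mul_inv_rev, map_mul]
    group
  · intro y hy y' hy' hyy'
    obtain ⟨y₀, -, rfl⟩ := Finset.mem_image.mp hy
    obtain ⟨y₁, -, rfl⟩ := Finset.mem_image.mp hy'
    have h : S.r (rep y₀) (rep y₁) := hyy'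
    have h2 : Quotient.mk S (rep y₀) = Quotient.mk S (rep y₁) := Quotient.sound h
    have h3 : Quotient.mk S y₀ = Quotient.mk S y₁ := by
      have e0 : Quotient.mk S (rep y₀) = Quotient.mk S y₀ := Quotient.out_eq _
      have e1 : Quotient.mk S (rep y₁) = Quotient.mk S y₁ := Quotient.out_eq _
      rw [← e0, ← e1]
      exact h2
    show Quotient.out (Quotient.mk S y₀) = Quotient.out (Quotient.mk S y₁)
    rw [h3]
  · intro y hy hφ
    obtain ⟨y', hy', u, hu, rfl⟩ := hcov y hy hφ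
    refine ⟨rep y', Finset.mem_image_of_mem rep hy', ?_⟩
    obtain ⟨v, hv, hv'⟩ := hrep' y'
    refine ⟨v * u, hmul v u hv hu, ?_⟩
    conv_lhs => rw [hv']
    simp only [mul_inv_rev, map_mul]
    group

end Generic

/-! ## `U(n)` is a subgroup -/

section InU

variable {k' : Type} [Field k'] [Valued k' Γ₀]

theorem exp_neg_le_one382 (n : ℕ) : (WithZero.exp (-(n : ℤ)) : Γ₀) ≤ 1 := by
  rw [← WithZero.exp_zero, WithZero.exp_le_exp]
  omega

/-- The entries of `A B - 1` are small if those of `A - 1` and `B - 1` are. -/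
theorem small_mul382 (n : ℕ) (A B : Matrix (Fin 2) (Fin 2) k')
    (hA : ∀ a b : Fin 2, Valued.v (A a b - (1 : Matrix (Fin 2) (Fin 2) k') a b)
      ≤ WithZero.exp (-(n : ℤ)))
    (hB : ∀ a b : Fin 2, Valued.v (B a b - (1 : Matrix (Fin 2) (Fin 2) k') a b)
      ≤ WithZero.exp (-(n : ℤ))) :
    ∀ a b : Fin 2, Valued.v ((A * B) a b - (1 : Matrix (Fin 2) (Fin 2) k') a b)
      ≤ WithZero.exp (-(n : ℤ)) := by
  intro a b
  have hε : (WithZero.exp (-(n : ℤ)) : Γ₀) ≤ 1 := exp_neg_le_one382 n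
  -- entries of `B` are integral
  have hB1 : ∀ c d : Fin 2, Valued.v (B c d) ≤ 1 := by
    intro c d
    have e : B c d = (B c d - (1 : Matrix (Fin 2) (Fin 2) k') c d)
        + (1 : Matrix (Fin 2) (Fin 2) k') c d := by ring
    rw [e]
    refine (Valuation.map_add_le_max' _ _ _).trans (max_le ((hB c d).trans hε) ?_)
    by_cases hcd : c = d
    · subst hcd
      simp
    · simp [Matrix.one_apply_ne hcd]
  have key : (A * B) a b - (1 : Matrix (Fin 2) (Fin 2) k') a b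
      = (A a 0 - (1 : Matrix (Fin 2) (Fin 2) k') a 0) * B 0 b
        + (A a 1 - (1 : Matrix (Fin 2) (Fin 2) k') a 1) * B 1 b
        + (B a b - (1 : Matrix (Fin 2) (Fin 2) k') a b) := by
    have hmat : A * B - 1 = (A - 1) * B + (B - 1) := by
      rw [sub_mul, one_mul]
      abel
    have h := congrFun (congrFun hmat a) b
    simp only [Matrix.sub_apply, Matrix.add_apply, Matrix.mul_apply, Fin.sum_univ_two] at h
    rw [Matrix.mul_apply, Fin.sum_univ_two]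
    exact h
  rw [key]
  have t0 : Valued.v ((A a 0 - (1 : Matrix (Fin 2) (Fin 2) k') a 0) * B 0 b)
      ≤ WithZero.exp (-(n : ℤ)) := by
    rw [Valuation.map_mul]
    calc Valued.v (A a 0 - (1 : Matrix (Fin 2) (Fin 2) k') a 0) * Valued.v (B 0 b)
        ≤ WithZero.exp (-(n : ℤ)) * 1 := mul_le_mul' (hA a 0) (hB1 0 b)
      _ = WithZero.exp (-(n : ℤ)) := mul_one _
  have t1 : Valued.v ((A a 1 - (1 : Matrix (Fin 2) (Fin 2) k') a 1) * B 1 b)
      ≤ WithZero.exp (-(n : ℤ)) := by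
    rw [Valuation.map_mul]
    calc Valued.v (A a 1 - (1 : Matrix (Fin 2) (Fin 2) k') a 1) * Valued.v (B 1 b)
        ≤ WithZero.exp (-(n : ℤ)) * 1 := mul_le_mul' (hA a 1) (hB1 1 b)
      _ = WithZero.exp (-(n : ℤ)) := mul_one _
  exact (Valuation.map_add_le_max' _ _ _).trans
    (max_le ((Valuation.map_add_le_max' _ _ _).trans (max_le t0 t1)) (hB a b))

theorem inU_one382 (n : ℕ) : InU n (1 : GL (Fin 2) k') := by
  intro a b
  simp

theorem inU_inv382 {n : ℕ} {g : GL (Fin 2) k'} (hg : InU n g) : InU n g⁻¹ := by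
  intro a b
  refine ⟨(hg a b).2, ?_⟩
  rw [inv_inv]
  exact (hg a b).1

theorem inU_mul382 {n : ℕ} {g h : GL (Fin 2) k'} (hg : InU n g) (hh : InU n h) :
    InU n (g * h) := by
  intro a b
  refine ⟨?_, ?_⟩
  · have := small_mul382 n (g : Matrix (Fin 2) (Fin 2) k') (h : Matrix (Fin 2) (Fin 2) k')
      (fun c d => (hg c d).1) (fun c d => (hh c d).1) a b
    simpa using this
  · have := small_mul382 n ((h⁻¹ : GL (Fin 2) k') : Matrix (Fin 2) (Fin 2) k')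
      ((g⁻¹ : GL (Fin 2) k') : Matrix (Fin 2) (Fin 2) k')
      (fun c d => (hh c d).2) (fun c d => (hg c d).2) a b
    rw [mul_inv_rev]
    simpa using this

end InU

/-! ## The leaf -/

/-- **Leaf T6.18i.6c** (registry row 1425): `PropBaseC385 → BaseOrbExC385`. -/
theorem baseOrbExC_of_propBase382 (hP : PropBaseC385) : BaseOrbExC385 := by
  intro k k' _ _ _ _ q e i s n φ hbad z hz hzn δ₀ hδ₀
  obtain ⟨F, hF⟩ := hbad.supp
  have hquad : QuadData385 k k' q e i s := ⟨hbad.hk, hbad.hk', hbad.ext⟩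
  obtain ⟨X₀, hX₀⟩ := hP k k' q e i s hquad z hz hzn n δ₀ hδ₀ F
  classical
  refine exists_orbSumGen_of_cover382 (glAut s) (InU n) (InTwCentC s) (inU_one382 n)
    (fun u v hu hv => inU_mul382 hu hv) (fun u hu => inU_inv382 hu) φ δ₀
    (X₀.image fun x₀ => x₀⁻¹ * δ₀ * glAut s x₀) ?_ ?_
  · intro y hy
    obtain ⟨x₀, -, rfl⟩ := Finset.mem_image.mp hy
    exact ⟨x₀, rfl⟩
  · rintro y ⟨x, rfl⟩ hφ
    obtain ⟨f, hf, u, hu, hfu⟩ := hF _ hφ
    obtain ⟨d, x₀, v, hd, hx₀, hv, rfl⟩ := hX₀ x ⟨f, hf, u, hu, hfu⟩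
    refine ⟨x₀⁻¹ * δ₀ * glAut s x₀, Finset.mem_image_of_mem _ hx₀, v, hv, ?_⟩
    have hd' : d⁻¹ * δ₀ * glAut s d = δ₀ := hd
    calc (d * x₀ * v)⁻¹ * δ₀ * glAut s (d * x₀ * v)
        = v⁻¹ * (x₀⁻¹ * (d⁻¹ * δ₀ * glAut s d) * glAut s x₀) * glAut s v := by
          simp only [mul_inv_rev, map_mul]
          group
      _ = v⁻¹ * (x₀⁻¹ * δ₀ * glAut s x₀) * glAut s v := by rw [hd']

end Fermat.Agent.LT.T6.H382

end

end
-- ===== PACK-END LT/T6/H382/BaseOrbEx.lean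

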