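import Mathlib
import Fermat.Agent.Pack.LT2.E5L3
import Fermat.Agent.Pack.LT3.E8L2
import Fermat.Agent.Pack.LT3.E11L0
import Fermat.Agent.Pack.LT3.E8L0
import Fermat.Agent.Pack.LT3.E12L2
import Fermat.Agent.Pack.LT2.E0L1
import Fermat.Agent.Pack.LT3.E5L1
import Fermat.Agent.Pack.LT3.E9L3
import Fermat.Agent.Pack.LT3.E0L3
import Fermat.Agent.Pack.LT3.E12L1
import Fermat.Agent.Pack.LT3.E13L2
import Fermat.Agent.Pack.LT3.E9L0
import Fermat.Agent.Pack.LT2.E8L0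
import Fermat.Agent.Pack.LT3.E6L2
import Fermat.Agent.Pack.LT3.E14L1

set_option linter.all false

-- ===== PACK-BEGIN LT/T2/H566/JointEig.lean
section





/-!
# Row LT, tower T2, leaf T2.09 (helper566): the joint eigenbasis of the cusp functions

OFF-MAIN.  `exists_jointEig566`: from `T2.AbstractSpectral` and the milestones `PairDefinite`,
`HSBound`, `ConvRegular`, `ApproxId`, `OpsGood`: an orthonormal family of cusp functions, joint
eigenfunctions of ALL operators `T2.IsOp`, with Parseval for every cusp function.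
-/

set_option autoImplicit false
set_option linter.unusedSectionVars false
set_option linter.style.haveILetI false

open IsDedekindDomain NumberField MeasureTheory
open Fermat.Agent.LT.H556.A0 Fermat.Agent.LT
open scoped ComplexConjugate

noncomputable section

namespace Fermat.Agent.LT.T2.H566

variable {K : Type} [Field K] [NumberField K]

attribute [local instance] Fermat.Agent.LT.T2.borelG

/-- The statement extracted from the abstract spectral theorem. -/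
def JointEig566 (𝔫 : Ideal (𝓞 K)) (F : Frame K) : Prop :=
  ∃ (ι : Type) (e : ι → G K → ℂ), (∀ j, IsCuspFn 𝔫 (e j)) ∧
    (∀ j, pair F (e j) (e j) = 1) ∧ (∀ i j, i ≠ j → pair F (e i) (e j) = 0) ∧
    (∀ T, IsOp 𝔫 F T → ∀ j, ∃ c : ℂ, T (e j) = c • e j) ∧
    ∀ φ : G K → ℂ, IsCuspFn 𝔫 φ → HasSum (fun j => ‖pair F φ (e j)‖ ^ 2) (nsq F φ)

section Ops

variable (hFD : T1.AddFundDomC K) (𝔫 : Ideal (𝓞 K)) (F : Frame K)

/-- An operator of the tower kills the zero function. -/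
theorem op_zero566 (hOG : OpsGood K 𝔫) {T : (G K → ℂ) → (G K → ℂ)} (hT : IsOp 𝔫 F T) :
    T (fun _ => 0) = fun _ => 0 := by
  have h := (hOG F).2.1 T hT (fun _ => 0) (fun _ => 0) 1 (isCuspFn_zero566 𝔫) (isCuspFn_zero566 𝔫)
  have e : (fun g : G K => (fun _ => (0 : ℂ)) g + 1 * (fun _ => (0 : ℂ)) g) = fun _ => 0 := by
    funext g
    simp
  rw [e] at h
  funext g
  have := congrFun h g
  simp only [one_mul] at this
  exact left_eq_add.mp this

theorem op_add566 (hOG : OpsGood K 𝔫) {T : (G K → ℂ) → (G K → ℂ)} (hT : IsOp 𝔫 F T)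
    {φ ψ : G K → ℂ}
    (hφ : IsCuspFn 𝔫 φ) (hψ : IsCuspFn 𝔫 ψ) : T (φ + ψ) = T φ + T ψ := by
  have h := (hOG F).2.1 T hT φ ψ 1 hφ hψ
  have e : (fun g : G K => φ g + 1 * ψ g) = φ + ψ := by
    funext g
    simp
  rw [e] at h
  rw [h]
  funext g
  simp

theorem op_smul566 (hOG : OpsGood K 𝔫) {T : (G K → ℂ) → (G K → ℂ)} (hT : IsOp 𝔫 F T) (c : ℂ)
    {φ : G K → ℂ}
    (hφ : IsCuspFn 𝔫 φ) : T (c • φ) = c • T φ := by
  have h := (hOG F).2.1 T hT (fun _ => 0) φ c (isCuspFn_zero566 𝔫) hφ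
  have e : (fun g : G K => (fun _ => (0 : ℂ)) g + c * φ g) = c • φ := by
    funext g
    simp
  rw [e] at h
  rw [h, op_zero566 𝔫 F hOG hT]
  funext g
  simp

/-- The operator of the tower as a linear map of the space of cusp functions. -/
def opLin566 (hOG : OpsGood K 𝔫) (T : (G K → ℂ) → (G K → ℂ)) (hT : IsOp 𝔫 F T) :
    CuspV566 hFD 𝔫 →ₗ[ℂ] CuspV566 hFD 𝔫 where
  toFun φ := CuspV566.mk (T φ.fn) ((hOG F).1 T hT φ.fn φ.isCuspFn)
  map_add' φ ψ := by
    apply CuspV566.ext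
    exact op_add566 𝔫 F hOG hT φ.isCuspFn ψ.isCuspFn
  map_smul' c φ := by
    apply CuspV566.ext
    exact op_smul566 𝔫 F hOG hT c φ.isCuspFn

@[simp]
theorem opLin566_coe (hOG : OpsGood K 𝔫) (T : (G K → ℂ) → (G K → ℂ)) (hT : IsOp 𝔫 F T)
    (φ : CuspV566 hFD 𝔫) :
    (opLin566 hFD 𝔫 F hOG T hT φ).fn = T φ.fn := rfl

end Ops

section Main

variable (hFD : T1.AddFundDomC K) (𝔫 : Ideal (𝓞 K)) (F : Frame K) (hPD : PairDefinite K 𝔫)

/-- The normed group structure of the space of cusp functions. -/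
@[instance_reducible]
def cuspNormed566 : NormedAddCommGroup (CuspV566 hFD 𝔫) :=
  @InnerProductSpace.Core.toNormedAddCommGroup ℂ (CuspV566 hFD 𝔫) _ _ _
    (cuspCore566 hFD 𝔫 F hPD)

/-- The inner product space structure of the space of cusp functions. -/
@[instance_reducible]
def cuspInner566 :
    @InnerProductSpace ℂ (CuspV566 hFD 𝔫) _
      (cuspNormed566 hFD 𝔫 F hPD).toSeminormedAddCommGroup :=
  InnerProductSpace.ofCore (cuspCore566 hFD 𝔫 F hPD).toCore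

theorem inner_eq566 (x y : CuspV566 hFD 𝔫) :
    @inner ℂ (CuspV566 hFD 𝔫) (cuspInner566 hFD 𝔫 F hPD).toInner x y = pair F y.fn x.fn := rfl

theorem norm_sq_eq566 (x : CuspV566 hFD 𝔫) :
    (@norm (CuspV566 hFD 𝔫) (cuspNormed566 hFD 𝔫 F hPD).toNorm x) ^ 2 = nsq F x.fn := by
  letI := cuspNormed566 hFD 𝔫 F hPD
  letI := cuspInner566 hFD 𝔫 F hPD
  rw [@norm_sq_eq_re_inner ℂ _ _ _ _ x, inner_eq566]
  rfl

theorem norm_eq_sqrt566 (x : CuspV566 hFD 𝔫) :
    @norm (CuspV566 hFD 𝔫) (cuspNormed566 hFD 𝔫 F hPD).toNorm x = Real.sqrt (nsq F x.fn) := by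
  rw [← norm_sq_eq566 hFD 𝔫 F hPD x, Real.sqrt_sq]
  exact @norm_nonneg _ (cuspNormed566 hFD 𝔫 F hPD).toSeminormedAddCommGroup.toSeminormedAddGroup x

theorem coe_sub566 (x y : CuspV566 hFD 𝔫) :
    (x - y).fn = fun g => x.fn g - y.fn g := rfl

include hFD hPD in
/-- **The joint eigenbasis** of the cusp functions. -/
theorem exists_jointEig566 (hAS : AbstractSpectral) (hHS : HSBound K 𝔫) (hCR : ConvRegular K 𝔫)
    (hAI : ApproxId K 𝔫) (hOG : OpsGood K 𝔫) : JointEig566 𝔫 F := by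
  letI iN : NormedAddCommGroup (CuspV566 hFD 𝔫) := cuspNormed566 hFD 𝔫 F hPD
  letI iI : InnerProductSpace ℂ (CuspV566 hFD 𝔫) := cuspInner566 hFD 𝔫 F hPD
  have hnorm : ∀ x : CuspV566 hFD 𝔫, ‖x‖ = Real.sqrt (nsq F x.fn) :=
    norm_eq_sqrt566 hFD 𝔫 F hPD
  have hinner : ∀ x y : CuspV566 hFD 𝔫, inner ℂ x y = pair F y.fn x.fn :=
    inner_eq566 hFD 𝔫 F hPD
  set 𝒜 : Set (CuspV566 hFD 𝔫 →ₗ[ℂ] CuspV566 hFD 𝔫) :=
    {A | ∃ T, ∃ hT : IsOp 𝔫 F T, A = opLin566 hFD 𝔫 F hOG T hT} with h𝒜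
  set 𝒞 : Set (CuspV566 hFD 𝔫 →ₗ[ℂ] CuspV566 hFD 𝔫) :=
    {A | ∃ f, ∃ hf : IsSphTestFn 𝔫 f,
      A = opLin566 hFD 𝔫 F hOG (conv F f) (IsOp.conv f hf)} with h𝒞
  have h1 : 𝒞 ⊆ 𝒜 := by
    rintro A ⟨f, hf, rfl⟩
    exact ⟨conv F f, IsOp.conv f hf, rfl⟩
  have h2 : ∀ A ∈ 𝒜, ∀ B ∈ 𝒜, A ∘ₗ B = B ∘ₗ A := by
    rintro A ⟨S, hS, rfl⟩ B ⟨T, hT, rfl⟩
    ext φ : 1
    apply CuspV566.ext
    exact (hOG F).2.2.2.1 S T hS hT φ.fn φ.isCuspFn
  have h3 : ∀ A ∈ 𝒜, ∃ B ∈ 𝒜, ∀ x y : CuspV566 hFD 𝔫,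
      inner ℂ (A x) y = inner ℂ x (B y) := by
    rintro A ⟨T, hT, rfl⟩
    obtain ⟨T', hT', hadj⟩ := (hOG F).2.2.2.2 T hT
    refine ⟨opLin566 hFD 𝔫 F hOG T' hT', ⟨T', hT', rfl⟩, fun x y => ?_⟩
    rw [hinner, hinner]
    have := hadj x.fn y.fn x.isCuspFn y.isCuspFn
    simp only [opLin566_coe]
    rw [← pair_conj566 F (T x.fn) y.fn, this, pair_conj566]
  have h4 : ∀ A ∈ 𝒜, ∃ C : ℝ, ∀ x : CuspV566 hFD 𝔫, ‖A x‖ ≤ C * ‖x‖ := by
    rintro A ⟨T, hT, rfl⟩
    obtain ⟨C, hC⟩ := (hOG F).2.2.1 T hT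
    refine ⟨Real.sqrt (max C 0), fun x => ?_⟩
    rw [hnorm, hnorm, ← Real.sqrt_mul (le_max_right C 0)]
    refine Real.sqrt_le_sqrt ?_
    calc nsq F (T x.fn) ≤ C * nsq F x.fn := hC x.fn x.isCuspFn
      _ ≤ max C 0 * nsq F x.fn :=
        mul_le_mul_of_nonneg_right (le_max_left C 0) (nsq_nonneg566 F _)
  have h5 : ∀ A ∈ 𝒞, ∃ C : ℝ, ∀ (n : ℕ) (x : Fin n → CuspV566 hFD 𝔫), Orthonormal ℂ x →
      ∑ i, ‖A (x i)‖ ^ 2 ≤ C := by
    rintro A ⟨f, hf, rfl⟩
    obtain ⟨C, hC⟩ := hHS F f hf.test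
    refine ⟨C, fun n x hx => ?_⟩
    have h := hC n (fun i => (x i).fn) (fun i => (x i).isCuspFn) (fun i j => by
      have := orthonormal_iff_ite.1 hx j i
      rw [hinner] at this
      rw [this]
      simp only [eq_comm])
    refine le_trans (le_of_eq ?_) h
    refine Finset.sum_congr rfl (fun i _ => ?_)
    rw [hnorm, Real.sq_sqrt (nsq_nonneg566 F _)]
    rfl
  have h6 : ∀ A ∈ 𝒞, ∀ x : ℕ → CuspV566 hFD 𝔫, CauchySeq x →
      ∃ y : CuspV566 hFD 𝔫, Filter.Tendsto (fun k => A (x k)) Filter.atTop (nhds y) := by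
    rintro A ⟨f, hf, rfl⟩ x hx
    have hcauchy : ∀ ε : ℝ, 0 < ε → ∃ N : ℕ, ∀ k ≥ N, ∀ l ≥ N,
        nsq F (fun g => (x k).fn g - (x l).fn g) < ε := by
      intro ε hε
      obtain ⟨N, hN⟩ := Metric.cauchySeq_iff.1 hx (Real.sqrt ε) (Real.sqrt_pos.2 hε)
      refine ⟨N, fun k hk l hl => ?_⟩
      have := hN k hk l hl
      rw [dist_eq_norm, hnorm, coe_sub566] at this
      exact (Real.sqrt_lt_sqrt_iff (nsq_nonneg566 F _)).1 this
    obtain ⟨ψ, hψ, hlim⟩ :=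
      hCR F f hf.test (fun k => (x k).fn) (fun k => (x k).isCuspFn) hcauchy
    refine ⟨CuspV566.mk ψ hψ, ?_⟩
    rw [tendsto_iff_norm_sub_tendsto_zero]
    have h0 : Filter.Tendsto (fun k => Real.sqrt (nsq F (fun g => conv F f (x k).fn g - ψ g)))
        Filter.atTop (nhds 0) := by
      have := (Real.continuous_sqrt.tendsto 0).comp hlim
      rw [Real.sqrt_zero] at this
      exact this
    refine h0.congr (fun k => ?_)
    rw [hnorm, coe_sub566]
    rfl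
  have h7 : ∀ x : CuspV566 hFD 𝔫, ∀ ε : ℝ, 0 < ε → ∃ A ∈ 𝒞, ‖A x - x‖ < ε := by
    intro x ε hε
    obtain ⟨f, hf, -, hlt⟩ := hAI F x.fn x.isCuspFn (ε ^ 2) (by positivity)
    refine ⟨opLin566 hFD 𝔫 F hOG (conv F f) (IsOp.conv f hf), ⟨f, hf, rfl⟩, ?_⟩
    rw [hnorm, coe_sub566]
    have : Real.sqrt (nsq F (fun g => conv F f x.fn g - x.fn g)) < Real.sqrt (ε ^ 2) :=
      Real.sqrt_lt_sqrt (nsq_nonneg566 F _) hlt
    rw [Real.sqrt_sq hε.le] at this
    exact this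
  obtain ⟨ι, e, he_on, he_eig, he_par⟩ := hAS (CuspV566 hFD 𝔫) 𝒜 𝒞 h1 h2 h3 h4 h5 h6 h7
  classical
  refine ⟨ι, fun j => (e j).fn, fun j => (e j).isCuspFn, fun j => ?_, fun i j hij => ?_,
    fun T hT j => ?_, fun φ hφ => ?_⟩
  · have := orthonormal_iff_ite.1 he_on j j
    rw [hinner] at this
    simpa using this
  · have := orthonormal_iff_ite.1 he_on j i
    rw [hinner] at this
    simpa [Ne.symm hij] using this
  · obtain ⟨c, hc⟩ := he_eig (opLin566 hFD 𝔫 F hOG T hT) ⟨T, hT, rfl⟩ j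
    exact ⟨c, congrArg CuspV566.fn hc⟩
  · have := he_par (CuspV566.mk φ hφ)
    rw [hnorm, Real.sq_sqrt (nsq_nonneg566 F _)] at this
    simp only [hinner] at this
    exact this

end Main

end Fermat.Agent.LT.T2.H566

end

end
-- ===== PACK-END LT/T2/H566/JointEig.lean

-- ===== PACK-BEGIN LT/T6/H290/F0Smooth.lean
section




/-!
# Row LT, tower T6, station T6.20a, leaf T6.20a.3 `F0SmoothOfC626` (helper290)

OFF-MAIN.  The closed form of weight `0`, `abelF0_626 c φ`, is smooth along every smooth family: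
`det (g h(t))` has a constant sign on `ℝ^m`; where it is positive, the integrand
`G(v, t) = φ(M_v(g h(t))) / x_v` is smooth on `ℝ^{m+1}` (`FamSmoothC626`, `IsArchTestC.smooth`) and
vanishes for `|v| > √2 |R|`, `R` a bound of `rhoC` on the support of `φ` (`famAlg626`); then
`ParamIntC626`.

Frozen bytes: `LT/T6/H626/AbelCut.lean` (helper626@f2abbd58e, sha256 6a4d529b), `FamAlg.lean`
(sha256 9c407f7e).
-/

set_option autoImplicit false

open scoped Matrix ContDiff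
open MeasureTheory

noncomputable section

namespace Fermat.Agent.LT.T6.H290

open Fermat.Agent.LT.T6 Fermat.Agent.LT.T6.H626

/-- `rhoC` is continuous on `GL₂(ℂ)`. -/
theorem continuous_rhoC290 : Continuous rhoC := by
  unfold rhoC
  have hval : Continuous fun y : GL (Fin 2) ℂ => (y : Matrix (Fin 2) (Fin 2) ℂ) :=
    Units.continuous_val
  refine Continuous.div ?_ ?_ ?_
  · exact Complex.continuous_re.comp ((hval.matrix_conjTranspose.matrix_mul hval).matrix_trace)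
  · exact continuous_const.mul (continuous_norm.comp hval.matrix_det)
  · intro y
    have h : (y : Matrix (Fin 2) (Fin 2) ℂ).det ≠ 0 := by
      have := (Matrix.GeneralLinearGroup.det y).ne_zero
      simpa using this
    have : 0 < ‖(y : Matrix (Fin 2) (Fin 2) ℂ).det‖ := norm_pos_iff.2 h
    positivity

/-- `rhoC` is bounded on the support of a compactly supported function. -/
theorem exists_rhoC_le290 {φ : GL (Fin 2) ℂ → ℂ} (hφ : HasCompactSupport φ) :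
    ∃ R : ℝ, ∀ y : GL (Fin 2) ℂ, φ y ≠ 0 → rhoC y ≤ R := by
  obtain ⟨R, hR⟩ := (hφ.isCompact.image continuous_rhoC290).bddAbove
  exact ⟨R, fun y hy => hR ⟨y, subset_tsupport _ hy, rfl⟩⟩

/-- The sign of a continuous nowhere vanishing function on `ℝ^m` is constant. -/
theorem pos_of_pos_zero290 {m : ℕ} {d : (Fin m → ℝ) → ℝ} (hc : Continuous d)
    (h0 : ∀ t, d t ≠ 0) (hp : 0 < d 0) (t : Fin m → ℝ) : 0 < d t := by
  by_contra hn
  have hlt : d t < 0 := lt_of_le_of_ne (not_lt.1 hn) (h0 t)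
  have := intermediate_value_univ t 0 hc (show (0 : ℝ) ∈ Set.Icc (d t) (d 0) from ⟨hlt.le, hp.le⟩)
  obtain ⟨s, hs⟩ := this
  exact h0 s hs

theorem neg_of_not_pos_zero290 {m : ℕ} {d : (Fin m → ℝ) → ℝ} (hc : Continuous d)
    (h0 : ∀ t, d t ≠ 0) (hp : ¬ 0 < d 0) (t : Fin m → ℝ) : ¬ 0 < d t := by
  intro ht
  have hlt : d 0 < 0 := lt_of_le_of_ne (not_lt.1 hp) (h0 0)
  have := intermediate_value_univ 0 t hc (show (0 : ℝ) ∈ Set.Icc (d 0) (d t) from ⟨hlt.le, ht.le⟩)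
  obtain ⟨s, hs⟩ := this
  exact h0 s hs

/-- The entries of `t ↦ g * h t` are smooth. -/
theorem contDiff_mul_entries290 {m : ℕ} (g : GL (Fin 2) ℝ) (h : (Fin m → ℝ) → GL (Fin 2) ℝ)
    (hh : ∀ i j : Fin 2,
      ContDiff ℝ ∞ (fun t => ((h t : GL (Fin 2) ℝ) : Matrix (Fin 2) (Fin 2) ℝ) i j))
    (i j : Fin 2) :
    ContDiff ℝ ∞ (fun t => ((g * h t : GL (Fin 2) ℝ) : Matrix (Fin 2) (Fin 2) ℝ) i j) := by
  have : (fun t => ((g * h t : GL (Fin 2) ℝ) : Matrix (Fin 2) (Fin 2) ℝ) i j)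
      = fun t =>
        (g : Matrix (Fin 2) (Fin 2) ℝ) i 0 *
            ((h t : GL (Fin 2) ℝ) : Matrix (Fin 2) (Fin 2) ℝ) 0 j
          + (g : Matrix (Fin 2) (Fin 2) ℝ) i 1 *
            ((h t : GL (Fin 2) ℝ) : Matrix (Fin 2) (Fin 2) ℝ) 1 j := by
    funext t
    simp [Matrix.mul_apply, Fin.sum_univ_two]
  rw [this]
  exact (contDiff_const.mul (hh 0 j)).add (contDiff_const.mul (hh 1 j))

/-- The determinant of a smooth family of `2 × 2` matrices is smooth. -/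
theorem contDiff_det290 {m : ℕ} {Y : (Fin m → ℝ) → Matrix (Fin 2) (Fin 2) ℝ}
    (hY : ∀ i j : Fin 2, ContDiff ℝ ∞ (fun t => Y t i j)) :
    ContDiff ℝ ∞ (fun t => (Y t).det) := by
  have : (fun t => (Y t).det) = fun t => Y t 0 0 * Y t 1 1 - Y t 0 1 * Y t 1 0 := by
    funext t
    rw [Matrix.det_fin_two]
  rw [this]
  exact ((hY 0 0).mul (hY 1 1)).sub ((hY 0 1).mul (hY 1 0))

/-- `ρ` of a smooth family of matrices of positive determinant is smooth. -/
theorem contDiff_rhoM290 {m : ℕ} {Y : (Fin m → ℝ) → Matrix (Fin 2) (Fin 2) ℝ}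
    (hY : ∀ i j : Fin 2, ContDiff ℝ ∞ (fun t => Y t i j)) (hpos : ∀ t, 0 < (Y t).det) :
    ContDiff ℝ ∞ (fun t => rhoM626 (Y t)) := by
  have : (fun t => rhoM626 (Y t))
      = fun t => (Y t 0 0 ^ 2 + Y t 0 1 ^ 2 + Y t 1 0 ^ 2 + Y t 1 1 ^ 2) / (2 * (Y t).det) := by
    funext t
    unfold rhoM626
    rw [abs_of_pos (hpos t)]
    congr 1
    simp [Matrix.trace, Matrix.mul_apply, Fin.sum_univ_two]
    ring
  rw [this]
  refine ContDiff.div ?_ (contDiff_const.mul (contDiff_det290 hY)) fun t => ?_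
  · exact ((((hY 0 0).pow 2).add ((hY 0 1).pow 2)).add ((hY 1 0).pow 2)).add ((hY 1 1).pow 2)
  · have := hpos t
    positivity

/-- `(v, t) ↦ x_v(ρ(Y t))` is smooth. -/
theorem contDiff_xv290 {m : ℕ} {Y : (Fin m → ℝ) → Matrix (Fin 2) (Fin 2) ℝ}
    (hY : ∀ i j : Fin 2, ContDiff ℝ ∞ (fun t => Y t i j)) (hpos : ∀ t, 0 < (Y t).det) :
    ContDiff ℝ ∞ (fun p : Fin (m + 1) → ℝ => xv626 (rhoM626 (Y (Fin.tail p))) (p 0)) := by
  unfold xv626
  have htail : ContDiff ℝ ∞ (fun p : Fin (m + 1) → ℝ => (Fin.tail p : Fin m → ℝ)) := by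
    refine contDiff_pi.2 fun i => ?_
    exact contDiff_apply ℝ ℝ (Fin.succ i)
  have h0 : ContDiff ℝ ∞ (fun p : Fin (m + 1) → ℝ => p 0) := contDiff_apply ℝ ℝ (0 : Fin (m + 1))
  have hρ : ContDiff ℝ ∞ (fun p : Fin (m + 1) → ℝ => rhoM626 (Y (Fin.tail p))) :=
    (contDiff_rhoM290 hY hpos).comp htail
  refine ContDiff.sqrt (((hρ.add contDiff_const).add (h0.pow 2)).div_const 2) fun p => ?_
  have h1 := one_le_rhoM626 (Y (Fin.tail p)) (hpos _)
  have h2 : 0 ≤ (p 0) ^ 2 := sq_nonneg _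
  have : 0 < (rhoM626 (Y (Fin.tail p)) + 1 + p 0 ^ 2) / 2 := by linarith
  exact this.ne'

/-- **T6.20a.3** `F0SmoothOfC626`. -/
theorem f0SmoothOfC290 : F0SmoothOfC626 := by
  intro hFam hPar c φ hφ m h hh g
  set Y : (Fin m → ℝ) → Matrix (Fin 2) (Fin 2) ℝ :=
    fun t => ((g * h t : GL (Fin 2) ℝ) : Matrix (Fin 2) (Fin 2) ℝ) with hYdef
  have hY : ∀ i j : Fin 2, ContDiff ℝ ∞ (fun t => Y t i j) := contDiff_mul_entries290 g h hh
  have hdc : Continuous fun t => (Y t).det := (contDiff_det290 hY).continuous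
  have hd0 : ∀ t, (Y t).det ≠ 0 := by
    intro t
    have := (Matrix.GeneralLinearGroup.det (g * h t)).ne_zero
    simpa [hYdef] using this
  by_cases hp : 0 < (Y 0).det
  · have hpos : ∀ t, 0 < (Y t).det := pos_of_pos_zero290 hdc hd0 hp
    -- the integrand
    set G : (Fin (m + 1) → ℝ) → ℂ := fun p =>
      φ (toGLC626 (famMat626 (Y (Fin.tail p)) (p 0))) /
        ((xv626 (rhoM626 (Y (Fin.tail p))) (p 0) : ℝ) : ℂ) with hGdef
    have hnum : ContDiff ℝ ∞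
        (fun p : Fin (m + 1) → ℝ => φ (toGLC626 (famMat626 (Y (Fin.tail p)) (p 0)))) := by
      have := hφ.smooth (m + 1) (fun p => toGLC626 (famMat626 (Y (Fin.tail p)) (p 0)))
        (fun i j => by
          have e : (fun p : Fin (m + 1) → ℝ =>
              ((toGLC626 (famMat626 (Y (Fin.tail p)) (p 0)) : GL (Fin 2) ℂ) :
                Matrix (Fin 2) (Fin 2) ℂ) i j)
              = fun p => famMat626 (Y (Fin.tail p)) (p 0) i j := by
            funext p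
            rw [(famAlg626 (Y (Fin.tail p)) (hpos _) (p 0)).2.1]
          rw [e]
          exact hFam m Y hY hpos i j) 1
      simpa using this
    have hden : ContDiff ℝ ∞
        (fun p : Fin (m + 1) → ℝ => ((xv626 (rhoM626 (Y (Fin.tail p))) (p 0) : ℝ) : ℂ)) :=
      Complex.ofRealCLM.contDiff.comp (contDiff_xv290 hY hpos)
    have hG : ContDiff ℝ ∞ G := by
      have hinv : ContDiff ℝ ∞ (fun p : Fin (m + 1) → ℝ =>
          (((xv626 (rhoM626 (Y (Fin.tail p))) (p 0) : ℝ) : ℂ))⁻¹) := by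
        refine hden.inv fun p => ?_
        have h1 := one_le_xv626 (rhoM626 (Y (Fin.tail p))) (p 0) (one_le_rhoM626 _ (hpos _))
        have : (0 : ℝ) < xv626 (rhoM626 (Y (Fin.tail p))) (p 0) := by linarith
        exact_mod_cast this.ne'
      have := hnum.mul hinv
      simpa only [hGdef, div_eq_mul_inv] using this
    -- the support in `v`
    obtain ⟨R, hR⟩ := exists_rhoC_le290 hφ.supp
    have hsupp : ∃ V : ℝ, ∀ p : Fin (m + 1) → ℝ, V < |p 0| → G p = 0 := by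
      refine ⟨Real.sqrt 2 * |R|, fun p hp => ?_⟩
      by_contra hne
      have hφne : φ (toGLC626 (famMat626 (Y (Fin.tail p)) (p 0))) ≠ 0 := by
        intro h0
        apply hne
        simp only [hGdef, h0, zero_div]
      have hle := hR _ hφne
      rw [(famAlg626 (Y (Fin.tail p)) (hpos _) (p 0)).2.2.1] at hle
      have hρ := one_le_rhoM626 (Y (Fin.tail p)) (hpos _)
      have hx1 := one_le_xv626 (rhoM626 (Y (Fin.tail p))) (p 0) hρ
      have hx2 := xv_sq626 (rhoM626 (Y (Fin.tail p))) (p 0) hρ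
      have hR0 : 0 ≤ R := by linarith
      rw [abs_of_nonneg hR0] at hp
      -- `|v|² > 2 R²` and `x_v² ≥ v²/2` contradict `x_v ≤ R`
      have h2 : Real.sqrt 2 ^ 2 = 2 := Real.sq_sqrt (by norm_num)
      have hs0 : 0 ≤ Real.sqrt 2 * R := by positivity
      have hsq : (Real.sqrt 2 * R) ^ 2 < |p 0| ^ 2 := by
        exact pow_lt_pow_left₀ hp hs0 (by norm_num)
      rw [sq_abs, mul_pow, h2] at hsq
      have hxR : xv626 (rhoM626 (Y (Fin.tail p))) (p 0) ^ 2 ≤ R ^ 2 :=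
        pow_le_pow_left₀ (by linarith) hle 2
      nlinarith
    have hint := hPar m G hG hsupp
    have hfun : (fun t => abelF0_626 c φ (g * h t))
        = fun t => ((Real.sqrt 2 / 4 : ℝ) : ℂ) * c *
            ∫ v : ℝ, G (Fin.cons v t : Fin (m + 1) → ℝ) := by
      funext t
      unfold abelF0_626
      rw [if_pos (hpos t)]
      congr 1
    rw [hfun]
    exact contDiff_const.mul hint
  · have hneg : ∀ t, ¬ 0 < (Y t).det := neg_of_not_pos_zero290 hdc hd0 hp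
    have hfun : (fun t => abelF0_626 c φ (g * h t)) = fun _ => (0 : ℂ) := by
      funext t
      unfold abelF0_626
      rw [if_neg (hneg t)]
    rw [hfun]
    exact contDiff_const

end Fermat.Agent.LT.T6.H290

end

end
-- ===== PACK-END LT/T6/H290/F0Smooth.lean

-- ===== PACK-BEGIN LT/T6/H502/FieldCase.lean
section








/-!
# Row LT, tower T6, sub-leaf T6.07 (helper502): the field case and the split case

OFF-MAIN.  Mathlib only + `T6/Spec.lean`.

`K'/K` cyclic of prime degree `l` (number fields) with generator `s`, `γ ∈ GL₂(K)` elliptic,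
`f` = characteristic polynomial of `γ` (irreducible over `K`), `L = K[X]/(f)`.
* `split502`: `f` reducible over `K'`: then `l = 2` and `γ` is a norm (explicit formula).
* `f` irreducible over `K'`: `M = K'[X]/(f)` is cyclic of degree `l` over `L` with generator `τ`;
  - `loc_fin502`, `loc_inf502`: a local norm relation in `GL₂(K' ⊗ K_v)` gives, for every place
    `u | v` of `L`, an element of `L_u ⊗_L M` of norm `θ`;
  - `field_main502`: `θ = N_{M/L}(y)` gives `δ = y(γ) ∈ GL₂(K')` with twisted norm `γ`.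
-/

set_option autoImplicit false
set_option linter.style.haveILetI false
set_option linter.unnecessarySimpa false
set_option linter.unusedSectionVars false
set_option maxHeartbeats 1000000

open scoped Matrix TensorProduct
open Polynomial IsDedekindDomain NumberField

noncomputable section

namespace Fermat.Agent.LT.T6.H502

open Fermat.Agent.LT.T6

section Aux

variable {K K' : Type} [Field K] [Field K'] [Algebra K K']

theorem charP_map502 (γ : GL (Fin 2) K) :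
    charP502 ((Matrix.GeneralLinearGroup.map (algebraMap K K') γ : GL (Fin 2) K') :
        Matrix (Fin 2) (Fin 2) K')
      = (charP502 (γ : Matrix (Fin 2) (Fin 2) K)).map (algebraMap K K') := by
  unfold charP502
  simp [Matrix.trace_fin_two, Matrix.det_fin_two, Polynomial.map_add, Polynomial.map_mul,
    Polynomial.map_pow]

theorem eval_charP502 (γ : Matrix (Fin 2) (Fin 2) K) (x : K) :
    eval x (charP502 γ) = x ^ 2 - γ.trace * x + γ.det := by
  have := eval₂_charP502 γ (RingHom.id K) x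
  simpa [eval₂_id] using this

theorem charP_natDegree502 (γ : Matrix (Fin 2) (Fin 2) K) : (charP502 γ).natDegree = 2 :=
  natDegree_eq_of_degree_eq_some (charP_degree502 γ)

theorem irreducible_charP502 (γ : GL (Fin 2) K) (hell : IsEll γ) :
    Irreducible (charP502 (γ : Matrix (Fin 2) (Fin 2) K)) := by
  rw [(charP_monic502 _).irreducible_iff_roots_eq_zero_of_degree_le_three
    (by rw [charP_natDegree502]) (by rw [charP_natDegree502]; norm_num)]
  apply Multiset.eq_zero_of_forall_notMem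
  intro x hx
  have h1 : IsRoot (charP502 (γ : Matrix (Fin 2) (Fin 2) K)) x := (mem_roots'.mp hx).2
  rw [IsRoot.def, eval_charP502] at h1
  exact hell.2 x h1

theorem det_ne_zero502 (γ : GL (Fin 2) K) : (γ : Matrix (Fin 2) (Fin 2) K).det ≠ 0 :=
  ((Matrix.isUnit_iff_isUnit_det _).mp γ.isUnit).ne_zero

theorem glAut_map502 (s : K' ≃ₐ[K] K') (γ : GL (Fin 2) K) :
    glAut (s : K' ≃+* K') (Matrix.GeneralLinearGroup.map (algebraMap K K') γ)
      = Matrix.GeneralLinearGroup.map (algebraMap K K') γ := by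
  apply Units.ext
  ext i j
  rw [coe_glAut502]
  simp [Matrix.GeneralLinearGroup.map_apply]

theorem isNormFrom_of_eq502 (s : K' ≃ₐ[K] K') (l : ℕ) (γ : GL (Fin 2) K)
    (h : ∃ δ : GL (Fin 2) K',
      twNorm (s : K' ≃+* K') l δ = Matrix.GeneralLinearGroup.map (algebraMap K K') γ) :
    IsNormFrom l (algebraMap K K') (s : K' ≃+* K') γ := by
  obtain ⟨δ, hδ⟩ := h
  exact ⟨δ, by rw [hδ]⟩

/-- The split case: the characteristic polynomial of `γ` is reducible over `K'`. -/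
theorem split502 [FiniteDimensional K K'] [IsGalois K K'] (s : K' ≃ₐ[K] K') (hs : ∀ t : K' ≃ₐ[K] K', t ∈ Subgroup.zpowers s)
    (l : ℕ) (hl : l.Prime) (hsl : s ^ l = 1) (γ : GL (Fin 2) K) (hell : IsEll γ)
    (hg : ¬ Irreducible ((charP502 (γ : Matrix (Fin 2) (Fin 2) K)).map (algebraMap K K'))) :
    ∃ δ : GL (Fin 2) K',
      twNorm (s : K' ≃+* K') l δ = Matrix.GeneralLinearGroup.map (algebraMap K K') γ := by
  have hmonic : ((charP502 (γ : Matrix (Fin 2) (Fin 2) K)).map (algebraMap K K')).Monic :=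
    (charP_monic502 _).map _
  have hdeg : ((charP502 (γ : Matrix (Fin 2) (Fin 2) K)).map (algebraMap K K')).natDegree
      = 2 := by
    rw [natDegree_map, charP_natDegree502]
  rw [hmonic.irreducible_iff_roots_eq_zero_of_degree_le_three (by rw [hdeg])
    (by rw [hdeg]; norm_num)] at hg
  obtain ⟨θ', hθ'⟩ := Multiset.exists_mem_of_ne_zero hg
  have h1 : IsRoot ((charP502 (γ : Matrix (Fin 2) (Fin 2) K)).map (algebraMap K K')) θ' :=
    (mem_roots'.mp hθ').2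
  rw [IsRoot.def, eval_map, eval₂_charP502] at h1
  exact split_case502 s hs l hl hsl γ hell θ' h1

/-- The group-theoretic facts on the generator `s`. -/
theorem gen_facts502 [FiniteDimensional K K'] [IsGalois K K'] (s : K' ≃ₐ[K] K')
    (hs : ∀ t : K' ≃ₐ[K] K', t ∈ Subgroup.zpowers s) :
    s ^ Module.finrank K K' = 1 ∧
      ∀ i j : ℕ, i < Module.finrank K K' → j < Module.finrank K K' → s ^ i = s ^ j → i = j := by
  have hcard : Nat.card (K' ≃ₐ[K] K') = Module.finrank K K' := IsGalois.card_aut_eq_finrank K K'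
  have hord : orderOf s = Module.finrank K K' := by
    rw [orderOf_eq_card_of_forall_mem_zpowers hs, hcard]
  refine ⟨by rw [← hord]; exact pow_orderOf_eq_one s, ?_⟩
  intro i j hi hj h
  exact pow_injOn_Iio_orderOf (by simpa [hord] using hi) (by simpa [hord] using hj) h

end Aux

section FieldCase

variable {K K' : Type} [Field K] [NumberField K] [Field K'] [NumberField K'] [Algebra K K']
  [IsGalois K K'] (f : K[X]) [hf : Fact (Irreducible f)]
  [hg : Fact (Irreducible (f.map (algebraMap K K')))]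

attribute [local instance] algLM502

theorem nf_L502 : NumberField (AdjoinRoot f) := by
  haveI : Module.Finite K (AdjoinRoot f) := finite_KL502 f
  exact NumberField.of_module_finite K _

theorem nf_M502 : NumberField (AdjoinRoot (f.map (algebraMap K K'))) := by
  haveI : Module.Finite K' (AdjoinRoot (f.map (algebraMap K K'))) := finite_K'M502 f
  exact NumberField.of_module_finite K' _

variable (s : K' ≃ₐ[K] K') (γ : GL (Fin 2) K) (l : ℕ)

theorem isCyclic_LM502 (hl : Module.finrank K K' = l) (hlp : l.Prime)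
    (hinj : ∀ i j : ℕ, i < l → j < l → s ^ i = s ^ j → i = j) :
    IsCyclic (AdjoinRoot (f.map (algebraMap K K')) ≃ₐ[AdjoinRoot f]
      AdjoinRoot (f.map (algebraMap K K'))) := by
  haveI : Fact l.Prime := ⟨hlp⟩
  exact isCyclic_of_prime_card (card_gal502 f s l hl hinj)

theorem root_eq502 (hfγ : f = charP502 (γ : Matrix (Fin 2) (Fin 2) K)) :
    AdjoinRoot.root f ^ 2
        - algebraMap K (AdjoinRoot f) (γ : Matrix (Fin 2) (Fin 2) K).trace * AdjoinRoot.root f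
        + algebraMap K (AdjoinRoot f) (γ : Matrix (Fin 2) (Fin 2) K).det = 0 := by
  subst hfγ
  have h1 := AdjoinRoot.eval₂_root (charP502 (γ : Matrix (Fin 2) (Fin 2) K))
  rw [eval₂_charP502] at h1
  exact h1

theorem root_ne_zero502 (hfγ : f = charP502 (γ : Matrix (Fin 2) (Fin 2) K)) :
    AdjoinRoot.root f ≠ 0 := by
  intro h0
  have hθ := root_eq502 f γ hfγ
  rw [h0] at hθ
  have h1 : algebraMap K (AdjoinRoot f) (γ : Matrix (Fin 2) (Fin 2) K).det = 0 := by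
    simpa using hθ
  exact det_ne_zero502 γ ((algebraMap K (AdjoinRoot f)).injective (by rw [h1, map_zero]))

/-- The local norm relation at a finite place of `L`. -/
theorem loc_fin502 [NumberField (AdjoinRoot f)]
    (hfγ : f = charP502 (γ : Matrix (Fin 2) (Fin 2) K))
    (hl : Module.finrank K K' = l) (hsl : s ^ l = 1)
    (hinj : ∀ i j : ℕ, i < l → j < l → s ^ i = s ^ j → i = j) (hreg : IsReg γ)
    (u : HeightOneSpectrum (𝓞 (AdjoinRoot f)))
    (h : IsLocNormFin s l (finUnder502 K u) γ) :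
    ∃ y : TensorProduct (AdjoinRoot f) (u.adicCompletion (AdjoinRoot f))
        (AdjoinRoot (f.map (algebraMap K K'))),
      Algebra.norm (u.adicCompletion (AdjoinRoot f))
        (S := TensorProduct (AdjoinRoot f) (u.adicCompletion (AdjoinRoot f))
          (AdjoinRoot (f.map (algebraMap K K')))) y
        = algebraMap (AdjoinRoot f) (u.adicCompletion (AdjoinRoot f)) (AdjoinRoot.root f) := by
  haveI : Module.Finite (AdjoinRoot f) (AdjoinRoot (f.map (algebraMap K K'))) := finite_LM502 f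
  haveI : IsGalois (AdjoinRoot f) (AdjoinRoot (f.map (algebraMap K K'))) :=
    isGalois_LM502 f s l hl hinj
  obtain ⟨δ, hδ⟩ := h
  exact locstep502 s l hsl (tau502 f s) (fun x => tau_of502 f s x)
    (tau_pow_bijective502 f s l hl hinj) γ hreg (AdjoinRoot.root f) (root_eq502 f γ hfγ)
    (finMap502 K u) (finMap_algebraMap502 K u) δ hδ

/-- The local norm relation at an infinite place of `L`. -/
theorem loc_inf502 [NumberField (AdjoinRoot f)]
    (hfγ : f = charP502 (γ : Matrix (Fin 2) (Fin 2) K))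
    (hl : Module.finrank K K' = l) (hsl : s ^ l = 1)
    (hinj : ∀ i j : ℕ, i < l → j < l → s ^ i = s ^ j → i = j) (hreg : IsReg γ)
    (u : InfinitePlace (AdjoinRoot f))
    (h : IsLocNormInf s l (infUnder502 K u) γ) :
    ∃ y : TensorProduct (AdjoinRoot f) u.Completion (AdjoinRoot (f.map (algebraMap K K'))),
      Algebra.norm u.Completion
        (S := TensorProduct (AdjoinRoot f) u.Completion
          (AdjoinRoot (f.map (algebraMap K K')))) y
        = algebraMap (AdjoinRoot f) u.Completion (AdjoinRoot.root f) := by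
  haveI : Module.Finite (AdjoinRoot f) (AdjoinRoot (f.map (algebraMap K K'))) := finite_LM502 f
  haveI : IsGalois (AdjoinRoot f) (AdjoinRoot (f.map (algebraMap K K'))) :=
    isGalois_LM502 f s l hl hinj
  obtain ⟨δ, hδ⟩ := h
  exact locstep502 s l hsl (tau502 f s) (fun x => tau_of502 f s x)
    (tau_pow_bijective502 f s l hl hinj) γ hreg (AdjoinRoot.root f) (root_eq502 f γ hfγ)
    (infMap502 K u) (infMap_algebraMap502 K u) δ hδ

/-- From a global norm relation `N_{M/L}(y) = θ` to `γ = N(δ)`. -/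
theorem field_main502 (hfγ : f = charP502 (γ : Matrix (Fin 2) (Fin 2) K))
    (hl : Module.finrank K K' = l)
    (hinj : ∀ i j : ℕ, i < l → j < l → s ^ i = s ^ j → i = j)
    (y : AdjoinRoot (f.map (algebraMap K K')))
    (hy : Algebra.norm (AdjoinRoot f) y = AdjoinRoot.root f) :
    ∃ δ : GL (Fin 2) K',
      twNorm (s : K' ≃+* K') l δ = Matrix.GeneralLinearGroup.map (algebraMap K K') γ := by
  classical
  haveI : Module.Finite (AdjoinRoot f) (AdjoinRoot (f.map (algebraMap K K'))) := finite_LM502 f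
  haveI : IsGalois (AdjoinRoot f) (AdjoinRoot (f.map (algebraMap K K'))) :=
    isGalois_LM502 f s l hl hinj
  have hbij := tau_pow_bijective502 f s l hl hinj
  have hθ0 : AdjoinRoot.root f ≠ 0 := root_ne_zero502 f γ hfγ
  have hnorm := Algebra.norm_eq_prod_automorphisms (AdjoinRoot f) y
  rw [hy] at hnorm
  have hΘ : algebraMap (AdjoinRoot f) (AdjoinRoot (f.map (algebraMap K K'))) (AdjoinRoot.root f)
      = AdjoinRoot.root (f.map (algebraMap K K')) := phi_root502 f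
  have hiter : ∀ (i : ℕ) (z : AdjoinRoot (f.map (algebraMap K K'))),
      (tauRing502 f s)^[i] z = (tau502 f s ^ i) z := by
    intro i
    induction i with
    | zero => intro z; simp
    | succ i ih =>
      intro z
      rw [Function.iterate_succ_apply', ih, pow_succ', AlgEquiv.mul_apply, tau_apply502]
  have hprod : ∏ σ : (AdjoinRoot (f.map (algebraMap K K')) ≃ₐ[AdjoinRoot f]
      AdjoinRoot (f.map (algebraMap K K'))), σ y
      = ∏ i ∈ Finset.range l, (tauRing502 f s)^[i] y := by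
    rw [Finset.prod_range]
    exact (Fintype.prod_bijective _ hbij
      (fun i : Fin l => (tauRing502 f s)^[(i : ℕ)] y)
      (fun σ => σ y) (fun i => hiter i y)).symm
  rw [hprod, hΘ] at hnorm
  have hy0 : y ≠ 0 := by
    intro h0
    rw [h0, Algebra.norm_zero] at hy
    exact hθ0 hy.symm
  have hmk : ∀ q : K'[X],
      eval₂ (AdjoinRoot.of (f.map (algebraMap K K')))
        (AdjoinRoot.root (f.map (algebraMap K K'))) q
        = AdjoinRoot.mk (f.map (algebraMap K K')) q := by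
    intro q
    rw [← AdjoinRoot.aeval_eq, aeval_def, AdjoinRoot.algebraMap_eq]
  refine exists_twNorm_eq502 (s : K' ≃+* K') l
    (Matrix.GeneralLinearGroup.map (algebraMap K K') γ) (glAut_map502 s γ)
    (AdjoinRoot.of (f.map (algebraMap K K')))
    (AdjoinRoot.root (f.map (algebraMap K K')))
    (tauRing502 f s) ?_ ?_ ?_ ?_ y y⁻¹
    (mul_inv_cancel₀ hy0) hnorm.symm
  · intro r
    rw [tauRing_of502]
    rfl
  · exact tauRing_root502 f s
  · intro q hq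
    rw [hmk, AdjoinRoot.mk_eq_zero] at hq
    obtain ⟨r, hr⟩ := hq
    rw [hr, hfγ, ← charP_map502, map_mul, aeval_charP502, zero_mul]
  · intro b
    obtain ⟨p, hp⟩ := AdjoinRoot.mk_surjective b
    exact ⟨p, by rw [hmk, hp]⟩

end FieldCase

end Fermat.Agent.LT.T6.H502

end

end
-- ===== PACK-END LT/T6/H502/FieldCase.lean

-- ===== PACK-BEGIN LT/T6/H769/Core.lean
section


/-!
# Row LT, T6.00q.7 `CoreC438` (helper769, OFF-MAIN): the leaf

`coreC769 : NormFC438 → CoreC438`: Hasse principle for "`ℚ(√d)` splits `(-3, c)_ℚ`", by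
Legendre's theorem, Dirichlet's theorem and Jacobi reciprocity.
-/

set_option autoImplicit false

namespace Fermat.Agent.LT.T6.H769

open Fermat.Agent.LT.T6.H438
open scoped NumberTheorySymbols

/-- The squarefree part `m` of `-3d`. -/
theorem sqfree_part769 (d : ℤ) (hd : Squarefree d) (hd3 : d ≠ -3) :
    ∃ m k₃ : ℤ, -3 * d = m * k₃ ^ 2 ∧ Squarefree m ∧ m ≠ 1 ∧
      ((k₃ = 1 ∧ ¬ (3 : ℤ) ∣ d ∧ (3 : ℤ) ∣ m) ∨ (k₃ = 3 ∧ (3 : ℤ) ∣ d ∧ ¬ (3 : ℤ) ∣ m)) := by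
  have h3p : Prime (3 : ℤ) := by
    have := Nat.prime_iff_prime_int.mp Nat.prime_three
    exact_mod_cast this
  by_cases h3 : (3 : ℤ) ∣ d
  · obtain ⟨d', hd'⟩ := h3
    refine ⟨-d', 3, by rw [hd']; ring, ?_, ?_, Or.inr ⟨rfl, ⟨d', hd'⟩, ?_⟩⟩
    · apply sqf_neg769
      rw [hd'] at hd
      exact hd.of_mul_right
    · intro h
      apply hd3
      rw [hd']
      linarith
    · rw [dvd_neg]
      rintro ⟨d'', hd''⟩
      have h1 : (3 : ℤ) * 3 ∣ d := ⟨d'', by rw [hd', hd'']; ring⟩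
      have h2 := hd 3 h1
      rw [Int.isUnit_iff] at h2
      omega
  · refine ⟨-3 * d, 1, by ring, ?_, ?_, Or.inl ⟨rfl, h3, ⟨-d, by ring⟩⟩⟩
    · have h1 : Squarefree ((3 : ℤ) * d) :=
        squarefree_mul_iff.mpr ⟨(h3p.coprime_iff_not_dvd.mpr h3).isRelPrime, h3p.squarefree, hd⟩
      have h2 := sqf_neg769 h1
      have h4 : -((3 : ℤ) * d) = -3 * d := by ring
      rw [h4] at h2
      exact h2
    · omega

/-- **Leaf T6.00q.7 (CORE).** -/
theorem coreC769 (hF : NormFC438) : CoreC438 := by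
  intro d c hd hd1 hd3 hc hR
  have h3p : Prime (3 : ℤ) := by
    have := Nat.prime_iff_prime_int.mp Nat.prime_three
    exact_mod_cast this
  -- the set `P` and `c₂`
  have hPmem : ∀ p, p ∈ Pset769 c ↔ p.Prime ∧ p % 3 = 2 ∧ Odd (padicValRat p c) :=
    mem_Pset769 hc
  obtain ⟨P, hPdef⟩ : ∃ P : Finset ℕ, P = Pset769 c := ⟨_, rfl⟩
  rw [← hPdef] at hPmem
  have hPprime : ∀ p ∈ P, p.Prime := fun p hp => ((hPmem p).mp hp).1
  have hP3 : ∀ p ∈ P, p % 3 = 2 := fun p hp => ((hPmem p).mp hp).2.1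
  obtain ⟨c₂, hc₂⟩ : ∃ c₂ : ℕ, c₂ = ∏ r ∈ P, r := ⟨_, rfl⟩
  have hc₂pos : 0 < c₂ := by
    rw [hc₂]
    exact Finset.prod_pos (fun p hp => (hPprime p hp).pos)
  have hc₂sq : Squarefree c₂ := by rw [hc₂]; exact sqf_prod769 hPprime
  have hc₂dvd : ∀ p : ℕ, p.Prime → (p ∣ c₂ ↔ p ∈ P) := by
    intro p hp
    rw [hc₂]
    exact prime_dvd_prod769 hPprime hp
  have hc₂3 : c₂ % 3 = if Even P.card then 1 else 2 := by
    rw [hc₂]
    exact prod_mod3_769 P hP3
  have hc₂val : ∀ p : ℕ, p.Prime → padicValNat p c₂ = if p ∈ P then 1 else 0 := by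
    intro p hp
    rw [hc₂]
    exact val_prod769 hPprime hp
  have h3c₂ : ¬ 3 ∣ c₂ := by
    intro h
    have := hP3 3 ((hc₂dvd 3 Nat.prime_three).mp h)
    omega
  -- the sign
  obtain ⟨s, hs, hspos⟩ : ∃ s : ℤ, (s = 1 ∨ s = -1) ∧ (s = 1 ↔ 0 < c) := by
    by_cases h : 0 < c
    · exact ⟨1, Or.inl rfl, by simp [h]⟩
    · exact ⟨-1, Or.inr rfl, by simp [h]⟩
  have hLam : d % 3 = 1 → (0 < c ↔ Even P.card) := by
    intro h
    obtain ⟨P', hP', hL⟩ := hR.atThree h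
    have : P' = P := by
      ext p
      rw [hP', hPmem]
    rw [this] at hL
    exact hL
  obtain ⟨m, k₃, hmk, hmsq, hm1, hm3⟩ := sqfree_part769 d hd hd3
  have hk₃ : k₃ = 1 ∨ k₃ = 3 := by
    rcases hm3 with h | h
    · exact Or.inl h.1
    · exact Or.inr h.1
  obtain ⟨T, hT, hT3, hT1⟩ : ∃ T : ℕ, (T = 1 ∨ T = 3) ∧
      (T = 3 → ¬ (3 : ℤ) ∣ d ∧ ¬ (0 < c ↔ Even P.card)) ∧
      (T = 1 → ¬ (3 : ℤ) ∣ d → (0 < c ↔ Even P.card)) := by
    by_cases h : ¬ (3 : ℤ) ∣ d ∧ ¬ (0 < c ↔ Even P.card)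
    · exact ⟨3, Or.inr rfl, fun _ => h, fun h' => by omega⟩
    · refine ⟨1, Or.inl rfl, fun h' => by omega, fun _ h3 => ?_⟩
      by_contra h'
      exact h ⟨h3, h'⟩
  have hT0 : 0 < T := by rcases hT with h | h <;> omega
  -- the integer `n₀`
  obtain ⟨n₀, hn₀⟩ : ∃ n₀ : ℤ, n₀ = s * c₂ * T := ⟨_, rfl⟩
  have hn₀abs : n₀.natAbs = c₂ * T := by
    rw [hn₀, Int.natAbs_mul, Int.natAbs_mul, Int.natAbs_natCast, Int.natAbs_natCast]
    rcases hs with h | h <;> rw [h] <;> simp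
  have hn₀sq : Squarefree n₀ := by
    rw [← Int.squarefree_natAbs, hn₀abs, Nat.squarefree_mul_iff]
    refine ⟨?_, hc₂sq, ?_⟩
    · rcases hT with h | h <;> rw [h]
      · exact Nat.coprime_one_right _
      · exact ((Nat.Prime.coprime_iff_not_dvd Nat.prime_three).mpr h3c₂).symm
    · rcases hT with h | h <;> rw [h]
      · exact squarefree_one
      · exact Nat.prime_three.squarefree
  have hn₀dvd : ∀ p : ℕ, p.Prime → (p : ℤ) ∣ n₀ → p ∣ c₂ ∨ p ∣ T := by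
    intro p hp h
    have h1 : p ∣ n₀.natAbs := Int.natCast_dvd.mp h
    rw [hn₀abs] at h1
    exact (Nat.Prime.dvd_mul hp).mp h1
  have hdm : ∀ p : ℕ, p.Prime → p ≠ 3 → (p : ℤ) ∣ d → (p : ℤ) ∣ m := by
    intro p hp hp3 h
    have hpz : Prime (p : ℤ) := Nat.prime_iff_prime_int.mp hp
    have h1 : (p : ℤ) ∣ m * k₃ ^ 2 := by
      rw [← hmk]
      exact h.mul_left _
    rcases hpz.dvd_or_dvd h1 with h2 | h2
    · exact h2
    · exfalso
      have h3 := hpz.dvd_of_dvd_pow h2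
      rcases hk₃ with h | h <;> rw [h] at h3
      · exact hpz.not_dvd_one h3
      · have h4 : p ∣ 3 := by exact_mod_cast h3
        exact hp3 ((Nat.prime_dvd_prime_iff_eq hp Nat.prime_three).mp h4)
  have hsign : ¬ (m < 0 ∧ n₀ < 0) := by
    rintro ⟨h1, h2⟩
    have hk0 : 0 < k₃ ^ 2 := by rcases hk₃ with h | h <;> rw [h] <;> norm_num
    have h3 : m * k₃ ^ 2 < 0 := mul_neg_of_neg_of_pos h1 hk0
    have hd0 : 0 < d := by linarith
    have hc0 := hR.atInf hd0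
    have hs1 : s = 1 := hspos.mpr hc0
    rw [hn₀, hs1] at h2
    have : (0 : ℤ) ≤ 1 * (c₂ : ℤ) * (T : ℤ) := by positivity
    linarith
  have hL1 : ∀ p : ℕ, p.Prime → p ≠ 2 → (p : ℤ) ∣ n₀ → ¬ (p : ℤ) ∣ m → J(m | p) = 1 := by
    intro p hp hp2 hpn hpm
    rcases hn₀dvd p hp hpn with h | h
    · have hpP := (hc₂dvd p hp).mp h
      obtain ⟨-, hp3, hodd⟩ := (hPmem p).mp hpP
      have hp3' : p ≠ 3 := by rintro rfl; omega
      have hpd : ¬ (p : ℤ) ∣ d := fun h' => hpm (hdm p hp hp3' h')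
      have hns := hR.atInert p hp hp3 hodd
      have : Fact p.Prime := ⟨hp⟩
      have hnsq : ¬ IsSquare ((d : ZMod p)) := fun hsq => hns (Or.inr ⟨hp2, hpd, hsq⟩)
      have hJd : J(d | p) = -1 := ZMod.nonsquare_iff_jacobiSym_eq_neg_one.mpr hnsq
      have hpodd : p % 2 = 1 := by
        rcases hp.eq_two_or_odd with h' | h'
        · exact absurd h' hp2
        · exact h'
      have hJ3 : J(-3 | p) = -1 := jac_neg_three769 hpodd hp3
      have h1 : J(-3 * d | p) = 1 := by rw [jacobiSym.mul_left, hJ3, hJd]; norm_num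
      rw [hmk, jacobiSym.mul_left, jacobiSym.pow_left] at h1
      have h2 : J(k₃ | p) ^ 2 = 1 := by
        apply jacobiSym.sq_one
        rcases hk₃ with h' | h' <;> rw [h']
        · simp
        · have : Nat.Coprime 3 p := (Nat.coprime_primes Nat.prime_three hp).mpr (Ne.symm hp3')
          exact_mod_cast this
      rw [h2, mul_one] at h1
      exact h1
    · exfalso
      rcases hT with h' | h'
      · rw [h'] at h
        exact hp.one_lt.ne' (Nat.dvd_one.mp h)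
      · rw [h'] at h
        have hp3 : p = 3 := (Nat.prime_dvd_prime_iff_eq hp Nat.prime_three).mp h
        have h3d := (hT3 h').1
        rcases hm3 with h'' | h''
        · apply hpm
          rw [hp3]
          exact_mod_cast h''.2.2
        · exact h3d h''.2.1
  have hL3 : (2 : ℤ) ∣ n₀ → ¬ (2 : ℤ) ∣ m → m % 8 ≠ 5 := by
    intro h2 _ hm5
    have h2' : 2 ∣ c₂ := by
      rcases hn₀dvd 2 Nat.prime_two (by exact_mod_cast h2) with h | h
      · exact h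
      · exfalso
        rcases hT with h' | h' <;> rw [h'] at h <;> omega
    have h2P := (hc₂dvd 2 Nat.prime_two).mp h2'
    obtain ⟨-, h23, hodd⟩ := (hPmem 2).mp h2P
    have hns := hR.atInert 2 Nat.prime_two h23 hodd
    apply hns
    refine Or.inl ⟨rfl, ?_⟩
    rcases hk₃ with h | h <;> rw [h] at hmk <;> omega
  -- `s c₂ mod 3`
  have hsc3 : (0 < c ↔ Even P.card) → (s * (c₂ : ℤ)) % 3 = 1 := by
    intro hiff
    by_cases h : 0 < c
    · have hs1 : s = 1 := hspos.mpr h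
      have hev := hiff.mp h
      rw [if_pos hev] at hc₂3
      rw [hs1]
      omega
    · have hs1 : s = -1 := by
        rcases hs with h' | h'
        · exact absurd (hspos.mp h') h
        · exact h'
      have hev : ¬ Even P.card := fun h' => h (hiff.mpr h')
      rw [if_neg hev] at hc₂3
      rw [hs1]
      omega
  have hsc3' : ¬ (0 < c ↔ Even P.card) → (s * (c₂ : ℤ)) % 3 = 2 := by
    intro hiff
    by_cases h : 0 < c
    · have hs1 : s = 1 := hspos.mpr h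
      have hev : ¬ Even P.card := fun h' => hiff ⟨fun _ => h', fun _ => h⟩
      rw [if_neg hev] at hc₂3
      rw [hs1]
      omega
    · have hs1 : s = -1 := by
        rcases hs with h' | h'
        · exact absurd (hspos.mp h') h
        · exact h'
      have hev : Even P.card := by
        by_contra h'
        exact hiff ⟨fun h'' => absurd h'' h, fun h'' => absurd h'' h'⟩
      rw [if_pos hev] at hc₂3
      rw [hs1]
      omega
  have h3n₀ : (3 : ℤ) ∣ n₀ → T = 3 := by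
    intro h
    rcases hn₀dvd 3 Nat.prime_three (by exact_mod_cast h) with h' | h'
    · exact absurd h' h3c₂
    · rcases hT with h'' | h''
      · rw [h''] at h'
        omega
      · exact h''
  have hL4a : (3 : ℤ) ∣ m → ¬ (3 : ℤ) ∣ n₀ → n₀ % 3 = 1 := by
    intro h3m h3n
    have h3d : ¬ (3 : ℤ) ∣ d := by
      rcases hm3 with h | h
      · exact h.2.1
      · exact absurd h3m h.2.2
    have hT1' : T = 1 := by
      rcases hT with h | h
      · exact h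
      · exfalso
        apply h3n
        rw [hn₀, h]
        exact ⟨s * c₂, by push_cast; ring⟩
    have := hsc3 (hT1 hT1' h3d)
    rw [hn₀, hT1']
    push_cast
    rw [mul_one]
    exact this
  have hL4b : (3 : ℤ) ∣ m → (3 : ℤ) ∣ n₀ → (-(m / 3) * (n₀ / 3)) % 3 = 1 := by
    intro h3m h3n
    have hT3' := h3n₀ h3n
    obtain ⟨h3d, hiff⟩ := hT3 hT3'
    have hk1 : k₃ = 1 := by
      rcases hm3 with h | h
      · exact h.1
      · exact absurd h.2.1 h3d
    have e1 : m / 3 = -d := by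
      have : m = 3 * (-d) := by rw [hk1] at hmk; linarith
      rw [this]
      exact Int.mul_ediv_cancel_left _ (by norm_num)
    have e2 : n₀ / 3 = s * c₂ := by
      have : n₀ = 3 * (s * c₂) := by rw [hn₀, hT3']; push_cast; ring
      rw [this]
      exact Int.mul_ediv_cancel_left _ (by norm_num)
    have hd3' : d % 3 = 2 := by
      have h1 : d % 3 ≠ 1 := fun h => hiff (hLam h)
      omega
    have h2 := hsc3' hiff
    rw [e1, e2, neg_neg, Int.mul_emod, hd3', h2]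
    norm_num
  obtain ⟨q, hqp, hq3, X, Y, Z, hZ, hE⟩ :=
    core_abs769 m n₀ hmsq hn₀sq hm1 hsign hL1 hL3 hL4a hL4b
  -- `c = c' n`, `n` a norm from `ℚ(√-3)`
  have hc'0 : ((s * c₂ : ℤ) : ℚ) ≠ 0 := by
    have : s * (c₂ : ℤ) ≠ 0 := by
      rcases hs with h | h <;> rw [h] <;> simp <;> omega
    exact_mod_cast this
  have hn : NormCondF438 (c / ((s * c₂ : ℤ) : ℚ)) := by
    constructor
    · by_cases h : 0 < c
      · have hs1 : s = 1 := hspos.mpr h
        rw [hs1]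
        have : (0 : ℚ) < ((1 * (c₂ : ℤ) : ℤ) : ℚ) := by
          have : (0 : ℤ) < 1 * (c₂ : ℤ) := by omega
          exact_mod_cast this
        exact div_pos h this
      · have hs1 : s = -1 := by
          rcases hs with h' | h'
          · exact absurd (hspos.mp h') h
          · exact h'
        rw [hs1]
        have h1 : ((-1 * (c₂ : ℤ) : ℤ) : ℚ) < 0 := by
          have : -1 * (c₂ : ℤ) < 0 := by omega
          exact_mod_cast this
        have h2 : c < 0 := lt_of_le_of_ne (not_lt.mp h) hc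
        exact div_pos_of_neg_of_neg h2 h1
    · intro p hp hp3
      have : Fact p.Prime := ⟨hp⟩
      rw [padicValRat.div hc hc'0, padicValRat.of_int, padicValInt]
      have e : (s * (c₂ : ℤ)).natAbs = c₂ := by
        rw [Int.natAbs_mul, Int.natAbs_natCast]
        rcases hs with h | h <;> rw [h] <;> simp
      rw [e, hc₂val p hp]
      by_cases hpP : p ∈ P
      · rw [if_pos hpP]
        obtain ⟨k, hk⟩ := ((hPmem p).mp hpP).2.2
        exact ⟨k, by rw [hk]; push_cast; ring⟩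
      · rw [if_neg hpP]
        have : ¬ Odd (padicValRat p c) := fun h => hpP ((hPmem p).mpr ⟨hp, hp3, h⟩)
        have := Int.not_odd_iff_even.mp this
        simpa using this
  obtain ⟨a₀, b₀, hab₀⟩ := hF _ hn
  -- `t = T q` is a norm from `ℚ(√-3)`
  have ht : NormCondF438 (((T * q : ℕ) : ℚ)) := by
    constructor
    · have : 0 < T * q := Nat.mul_pos hT0 hqp.pos
      exact_mod_cast this
    · intro p hp hp3
      rw [padicValRat.of_nat]
      have : ¬ p ∣ T * q := by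
        intro h
        rcases (Nat.Prime.dvd_mul hp).mp h with h' | h'
        · rcases hT with h'' | h'' <;> rw [h''] at h'
          · exact hp.one_lt.ne' (Nat.dvd_one.mp h')
          · have := (Nat.prime_dvd_prime_iff_eq hp Nat.prime_three).mp h'
            omega
        · have := (Nat.prime_dvd_prime_iff_eq hp hqp).mp h'
          omega
      rw [padicValNat.eq_zero_of_not_dvd this]
      simp
  obtain ⟨a₁, b₁, hab₁⟩ := hF _ ht
  -- the solution
  have hZq : (Z : ℚ) ≠ 0 := by exact_mod_cast hZ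
  have hkq : (k₃ : ℚ) ≠ 0 := by
    rcases hk₃ with h | h <;> rw [h] <;> norm_num
  have hEq : (X : ℚ) ^ 2 = m * Y ^ 2 + n₀ * q * Z ^ 2 := by exact_mod_cast hE
  have hmkq : -3 * (d : ℚ) = m * k₃ ^ 2 := by exact_mod_cast hmk
  have hn₀q : (n₀ : ℚ) = ((s * c₂ : ℤ) : ℚ) * T := by rw [hn₀]; push_cast; ring
  have hcn : c = ((s * c₂ : ℤ) : ℚ) * (a₀ ^ 2 + 3 * b₀ ^ 2) := by
    rw [← hab₀]
    field_simp
  have hval : ((X : ℚ) / Z) ^ 2 + 3 * (d : ℚ) * ((Y : ℚ) / (k₃ * Z)) ^ 2 =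
      ((s * c₂ : ℤ) : ℚ) * (a₁ ^ 2 + 3 * b₁ ^ 2) := by
    rw [← hab₁]
    have h3d : 3 * (d : ℚ) = -(m * k₃ ^ 2) := by linarith
    rw [h3d]
    field_simp
    rw [hn₀q] at hEq
    push_cast at hEq ⊢
    linear_combination hEq
  refine ⟨((s * c₂ : ℤ) : ℚ) * (a₀ * a₁ - 3 * b₀ * b₁), ((s * c₂ : ℤ) : ℚ) * (a₀ * b₁ + a₁ * b₀),
    (X : ℚ) / Z, (Y : ℚ) / (k₃ * Z), ?_, ?_⟩
  · by_contra hcon
    rw [not_or, not_not, not_not] at hcon
    obtain ⟨he, hf⟩ := hcon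
    rw [he, hf] at hval
    have h1 : ((s * c₂ : ℤ) : ℚ) * (a₁ ^ 2 + 3 * b₁ ^ 2) = 0 := by
      rw [← hval]
      ring
    rw [← hab₁] at h1
    rcases mul_eq_zero.mp h1 with h | h
    · exact hc'0 h
    · have : (0 : ℚ) < ((T * q : ℕ) : ℚ) := ht.1
      linarith
  · rw [hval]
    conv_lhs => rw [hcn]
    ring

end Fermat.Agent.LT.T6.H769

end
-- ===== PACK-END LT/T6/H769/Core.lean

-- ===== PACK-BEGIN LT/T6/H385/DescTop.lean
section


/-!
# Row LT, tower T6, leaf T6.18i.6 `TwDescOrbC385`: the PROVED tops (helper385)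

* `phiEq_of385 : PropBaseC385 → NormalSmallC385 → ConjSmallC385 → ShiftBackC385 → PhiEqC385`
* `twDescOrb_of385 : DescAbsC385 → QuatSettingC385 → PhiEqC385 → BaseOrbExC385 → TwDescOrbC385`
-/

set_option autoImplicit false

open scoped Matrix

noncomputable section

namespace Fermat.Agent.LT.T6.H385

open Fermat.Agent.LT.T6 Fermat.Agent.LT.T6.H783

/-! ## Small lemmas on `InU` -/

section InU

variable {k' : Type} [Field k'] [Valued k' Γ₀]

theorem inU_mono385 {m m' : ℕ} (h : m ≤ m') {g : GL (Fin 2) k'} (hg : InU m' g) : InU m g := by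
  intro a b
  have hle : WithZero.exp (-(m' : ℤ)) ≤ WithZero.exp (-(m : ℤ)) := by
    rw [WithZero.exp_le_exp]
    omega
  exact ⟨(hg a b).1.trans hle, (hg a b).2.trans hle⟩

theorem inU_inv385 {n : ℕ} {g : GL (Fin 2) k'} (hg : InU n g) : InU n g⁻¹ := by
  intro a b
  refine ⟨(hg a b).2, ?_⟩
  rw [inv_inv]
  exact (hg a b).1

theorem inU_one385 (n : ℕ) : InU n (1 : GL (Fin 2) k') := by
  intro a b
  simp

theorem inU_glAut385 {s : k' ≃+* k'} (hs : ∀ y : k', Valued.v (s y) = Valued.v y) {n : ℕ}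
    {g : GL (Fin 2) k'} (hg : InU n g) : InU n (glAut s g) := by
  have key : ∀ (h : GL (Fin 2) k') (a b : Fin 2),
      Valued.v (((glAut s h : GL (Fin 2) k') : Matrix (Fin 2) (Fin 2) k') a b
        - (1 : Matrix (Fin 2) (Fin 2) k') a b)
      = Valued.v ((h : Matrix (Fin 2) (Fin 2) k') a b - (1 : Matrix (Fin 2) (Fin 2) k') a b) := by
    intro h a b
    have e1 : ((glAut s h : GL (Fin 2) k') : Matrix (Fin 2) (Fin 2) k') a b
        = s ((h : Matrix (Fin 2) (Fin 2) k') a b) := rfl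
    have e2 : (1 : Matrix (Fin 2) (Fin 2) k') a b = s ((1 : Matrix (Fin 2) (Fin 2) k') a b) := by
      by_cases hab : a = b
      · subst hab
        simp
      · simp [Matrix.one_apply_ne hab]
    rw [e1]
    conv_lhs => rw [e2]
    rw [← map_sub, hs]
  intro a b
  refine ⟨?_, ?_⟩
  · rw [key]
    exact (hg a b).1
  · rw [← map_inv, key]
    exact (hg a b).2

end InU

/-! ## `phiEq_of385` -/

section PhiEq

variable {k' : Type} [Field k'] [Valued k' Γ₀]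

/-- The twisted conjugate of `w δ₀` by `d x₀ u`, `d` in the twisted centraliser of `δ₀`. -/
theorem twconj_split385 {Γ : Type} [Group Γ] (s : Γ →* Γ) (δ₀ w d x₀ u : Γ)
    (hd : d⁻¹ * δ₀ * s d = δ₀) :
    (d * x₀ * u)⁻¹ * (w * δ₀) * s (d * x₀ * u)
      = u⁻¹ * ((x₀⁻¹ * (d⁻¹ * w * d) * x₀) * (x₀⁻¹ * δ₀ * s x₀)) * s u := by
  have hd' : δ₀ * s d = d * δ₀ := by
    calc δ₀ * s d = d * (d⁻¹ * δ₀ * s d) := by group
      _ = d * δ₀ := by rw [hd]
  rw [map_mul, map_mul]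
  calc (d * x₀ * u)⁻¹ * (w * δ₀) * (s d * s x₀ * s u)
      = u⁻¹ * x₀⁻¹ * d⁻¹ * w * (δ₀ * s d) * s x₀ * s u := by group
    _ = u⁻¹ * x₀⁻¹ * d⁻¹ * w * (d * δ₀) * s x₀ * s u := by rw [hd']
    _ = u⁻¹ * ((x₀⁻¹ * (d⁻¹ * w * d) * x₀) * (x₀⁻¹ * δ₀ * s x₀)) * s u := by group

theorem twconj_split_one385 {Γ : Type} [Group Γ] (s : Γ →* Γ) (δ₀ d x₀ u : Γ)
    (hd : d⁻¹ * δ₀ * s d = δ₀) :
    (d * x₀ * u)⁻¹ * δ₀ * s (d * x₀ * u) = u⁻¹ * (x₀⁻¹ * δ₀ * s x₀) * s u := by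
  have h := twconj_split385 s δ₀ 1 d x₀ u hd
  simpa using h

theorem conjSmall_finset385 (hP3 : ConjSmallC385) (X : Finset (GL (Fin 2) k')) (n : ℕ) :
    ∃ M' : ℕ, ∀ x₀ ∈ X, ∀ g : GL (Fin 2) k', InU M' g → InU n (x₀⁻¹ * g * x₀) := by
  classical
  choose Mf hMf using fun x₀ : GL (Fin 2) k' => hP3 k' x₀ n
  refine ⟨X.sup Mf, ?_⟩
  intro x₀ hx₀ g hg
  exact hMf x₀ g (inU_mono385 (Finset.le_sup hx₀) hg)

end PhiEq

/-- **`PhiEqC385` from its four leaves.** -/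
theorem phiEq_of385 (hP1 : PropBaseC385) (hP2 : NormalSmallC385) (hP3 : ConjSmallC385)
    (hP4 : ShiftBackC385) : PhiEqC385 := by
  classical
  intro k k' _ _ _ _ q e i s n φ hbad z hz hnn δ₀ hδ₀
  have hq : QuadData385 k k' q e i s := ⟨hbad.hk, hbad.hk', hbad.ext⟩
  obtain ⟨F, hF⟩ := hbad.supp
  obtain ⟨M₂, F'', hSB⟩ := hP4 k k' q e i s hq z hz hnn n δ₀ hδ₀ F
  obtain ⟨X₁, hX₁⟩ := hP1 k k' q e i s hq z hz hnn n δ₀ hδ₀ F
  obtain ⟨X₂, hX₂⟩ := hP1 k k' q e i s hq z hz hnn n δ₀ hδ₀ F''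
  obtain ⟨M', hM'⟩ := conjSmall_finset385 hP3 (X₁ ∪ X₂) n
  obtain ⟨M₃, hM₃⟩ := hP2 k k' q e i s hq z hz hnn δ₀ hδ₀ M'
  refine ⟨max M₂ M₃, ?_⟩
  intro w hw hwU x
  have key : (∃ d x₀ u : GL (Fin 2) k', InTwCent s δ₀ d ∧ x₀ ∈ X₁ ∪ X₂ ∧ InU n u ∧
      x = d * x₀ * u) →
      φ (x⁻¹ * (w * δ₀) * glAut s x) = φ (x⁻¹ * δ₀ * glAut s x) := by
    rintro ⟨d, x₀, u, hd, hx₀, hu, rfl⟩
    have hsmall : InU n (x₀⁻¹ * (d⁻¹ * w * d) * x₀) :=
      hM' x₀ hx₀ _ (hM₃ w d hw hd (inU_mono385 (le_max_right _ _) hwU))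
    have hu1 : InU n u⁻¹ := inU_inv385 hu
    have hu2 : InU n (glAut s u) := inU_glAut385 hbad.ext.val_s hu
    rw [twconj_split385 (glAut s) δ₀ w d x₀ u hd, twconj_split_one385 (glAut s) δ₀ d x₀ u hd,
      hbad.inv _ _ _ hu1 hu2, hbad.inv _ _ _ hu1 hu2]
    have h1 := hbad.inv (x₀⁻¹ * (d⁻¹ * w * d) * x₀) 1 (x₀⁻¹ * δ₀ * glAut s x₀) hsmall
      (inU_one385 n)
    rw [mul_one] at h1
    exact h1
  by_cases h0 : φ (x⁻¹ * δ₀ * glAut s x) = 0
  · by_cases h1 : φ (x⁻¹ * (w * δ₀) * glAut s x) = 0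
    · rw [h0, h1]
    · have hg : InCosets385 n F (x⁻¹ * (w * δ₀) * glAut s x) := hF _ h1
      have hg0 := hSB w x hw (inU_mono385 (le_max_left _ _) hwU) hg
      obtain ⟨d, x₀, u, hd, hx₀, hu, hx⟩ := hX₂ x hg0
      exact key ⟨d, x₀, u, hd, Finset.mem_union_right _ hx₀, hu, hx⟩
  · have hg0 : InCosets385 n F (x⁻¹ * δ₀ * glAut s x) := hF _ h0
    obtain ⟨d, x₀, u, hd, hx₀, hu, hx⟩ := hX₁ x hg0
    exact key ⟨d, x₀, u, hd, Finset.mem_union_left _ hx₀, hu, hx⟩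

/-! ## `twDescOrb_of385` -/

theorem inTwCent_of_inQuat385 {k' : Type} [Field k'] {s : k' ≃+* k'} {δ₀ w : GL (Fin 2) k'}
    (h : InQuat385 s δ₀ w) : InTwCent s δ₀ w := by
  unfold InQuat385 at h
  unfold InTwCent
  calc w⁻¹ * δ₀ * glAut s w = w⁻¹ * (δ₀ * glAut s w) := by group
    _ = w⁻¹ * (w * δ₀) := by rw [h]
    _ = δ₀ := by group

/-- **`TwDescOrbC385` from its four leaves.** -/
theorem twDescOrb_of385 (habs : DescAbsC385) (hset : QuatSettingC385) (hphi : PhiEqC385)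
    (hex : BaseOrbExC385) : TwDescOrbC385 := by
  intro k k' _ _ _ _ q e i s n φ hbad z hz hnn
  have hq : QuadData385 k k' q e i s := ⟨hbad.hk, hbad.hk', hbad.ext⟩
  have hdet : (!![0, i z; 1, 0] : Matrix (Fin 2) (Fin 2) k').det ≠ 0 := by
    rw [Matrix.det_fin_two_of]
    simpa using (map_ne_zero i).2 hz
  obtain ⟨δs, hδs⟩ : ∃ δs : GL (Fin 2) k', IsQuatBase385 (i z) δs :=
    ⟨Matrix.GeneralLinearGroup.mkOfDetNeZero _ hdet, rfl⟩
  obtain ⟨M, hM⟩ := hphi k k' q e i s n φ hbad z hz hnn δs hδs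
  obtain ⟨c₀, hc₀⟩ := hex k k' q e i s n φ hbad z hz hnn δs hδs
  refine ⟨M, c₀, ?_⟩
  intro w δ₀ γ c hb hw hu hreg hell hconj hsum
  have hδ : δ₀ = δs := Units.ext (hb.trans hδs.symm)
  subst hδ
  have hw' : InTwCent s δ₀ w := inTwCent_of_inQuat385 hw
  have hS := hset k k' q e i s hq z hz hnn n w δ₀ γ hb hw' hreg hell hconj
  have h1 := habs (GL (Fin 2) k') (glAut s) (InU n) (InTwCentC s) δ₀ (w * δ₀)
    (quatMultNat385 k γ) hS φ hbad.inv (hM w hw' hu) c₀ c hc₀ hsum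
  rw [h1, quatMult385, if_neg hell, quatMultNat385, mul_comm]
  split_ifs <;> simp

end Fermat.Agent.LT.T6.H385

end

end
-- ===== PACK-END LT/T6/H385/DescTop.lean

-- ===== PACK-BEGIN LT/T6/H385/DescAbs.lean
section


/-!
# Row LT, tower T6, leaf T6.18i.6a `DescAbsC385` (the abstract descent), helper385, OFF-MAIN

`descAbs385 : DescAbsC385` (VERBATIM Prop of `H385/DescSpec.lean`).  Pure group theory.
-/

set_option autoImplicit false
set_option linter.unusedVariables false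
set_option linter.unusedSectionVars false

noncomputable section

namespace Fermat.Agent.LT.T6.H385

open Fermat.Agent.LT.T6

section Abs

variable {Γ : Type} [Group Γ]

/-- Twisted conjugation `x⁻¹ δ s(x)`. -/
def tw385 (s : Γ →* Γ) (x δ : Γ) : Γ := x⁻¹ * δ * s x

theorem tw_mul385 (s : Γ →* Γ) (a b δ : Γ) : tw385 s (a * b) δ = tw385 s b (tw385 s a δ) := by
  unfold tw385
  rw [map_mul]
  group

theorem tw_one385 (s : Γ →* Γ) (δ : Γ) : tw385 s 1 δ = δ := by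
  unfold tw385
  simp

theorem tw_inv385 (s : Γ →* Γ) (a δ : Γ) : tw385 s a⁻¹ (tw385 s a δ) = δ := by
  rw [← tw_mul385, mul_inv_cancel, tw_one385]

theorem tw_inv'385 (s : Γ →* Γ) (a δ : Γ) : tw385 s a (tw385 s a⁻¹ δ) = δ := by
  rw [← tw_mul385, inv_mul_cancel, tw_one385]

/-- The coset `a U` as a set. -/
def cos385 (U : Γ → Prop) (a : Γ) : Set Γ := {g : Γ | ∃ u : Γ, U u ∧ g = a * u}

/-- The set of cosets `t U`, `t ∈ T_y^c`. -/
def cosSet385 (U : Γ → Prop) (C : Γ → Γ → Prop) (y : Γ) : Set (Set Γ) :=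
  {c : Set Γ | ∃ t : Γ, C y t ∧ c = cos385 U t}

theorem cIndex_eq385 (U : Γ → Prop) (C : Γ → Γ → Prop) (y : Γ) :
    cIndex U C y = (cosSet385 U C y).ncard := rfl

variable {s : Γ →* Γ} {U : Γ → Prop} {C : Γ → Γ → Prop} {δ₀ δ₁ : Γ} {m : ℕ}

theorem mem_cos_self385 (hS : DescSetting385 s U C δ₀ δ₁ m) (a : Γ) : a ∈ cos385 U a :=
  ⟨1, hS.U_one, by simp⟩

theorem cos_eq_iff385 (hS : DescSetting385 s U C δ₀ δ₁ m) (a b : Γ) :
    cos385 U a = cos385 U b ↔ U (a⁻¹ * b) := by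
  constructor
  · intro h
    have hb : b ∈ cos385 U a := by
      rw [h]
      exact mem_cos_self385 hS b
    obtain ⟨u, hu, rfl⟩ := hb
    simpa using hu
  · intro h
    ext g
    constructor
    · rintro ⟨u, hu, rfl⟩
      refine ⟨(a⁻¹ * b)⁻¹ * u, hS.U_mul _ _ (hS.U_inv _ h) hu, by group⟩
    · rintro ⟨u, hu, rfl⟩
      exact ⟨a⁻¹ * b * u, hS.U_mul _ _ h hu, by group⟩

theorem cos_mul_right385 (hS : DescSetting385 s U C δ₀ δ₁ m) (a u : Γ) (hu : U u) :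
    cos385 U (a * u) = cos385 U a := by
  rw [cos_eq_iff385 hS]
  have : (a * u)⁻¹ * a = u⁻¹ := by group
  rw [this]
  exact hS.U_inv _ hu

/-- Left translation of a coset. -/
theorem image_cos385 (b a : Γ) : (fun g => b * g) '' cos385 U a = cos385 U (b * a) := by
  ext g
  constructor
  · rintro ⟨g', ⟨u, hu, rfl⟩, rfl⟩
    exact ⟨u, hu, by group⟩
  · rintro ⟨u, hu, rfl⟩
    exact ⟨a * u, ⟨u, hu, rfl⟩, by group⟩

theorem image_injective385 (b : Γ) :
    Function.Injective (fun c : Set Γ => (fun g => b * g) '' c) :=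
  Set.image_injective.2 (mul_right_injective b)

/-! ### The membership `C` along twisted conjugation -/

theorem C_tw_iff385 (hS : DescSetting385 s U C δ₀ δ₁ m) (δ x t : Γ) :
    C (tw385 s x δ) t ↔ C δ (x * t * x⁻¹) := by
  constructor
  · intro h
    have h1 := hS.C_conj _ _ x⁻¹ h
    have e1 : (x⁻¹)⁻¹ * tw385 s x δ * s x⁻¹ = δ := by
      have := tw_inv385 s x δ
      unfold tw385 at this ⊢
      exact this
    rw [e1] at h1
    simpa using h1
  · intro h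
    have h1 := hS.C_conj _ _ x h
    have e2 : x⁻¹ * (x * t * x⁻¹) * x = t := by group
    rw [e2] at h1
    exact h1

/-- `U`-twisted equivalence. -/
def Ueq385 (s : Γ →* Γ) (U : Γ → Prop) (y y' : Γ) : Prop := ∃ u : Γ, U u ∧ y' = u⁻¹ * y * s u

theorem Ueq_refl385 (hS : DescSetting385 s U C δ₀ δ₁ m) (y : Γ) : Ueq385 s U y y :=
  ⟨1, hS.U_one, by simp⟩

theorem Ueq_symm385 (hS : DescSetting385 s U C δ₀ δ₁ m) {y y' : Γ} (h : Ueq385 s U y y') :
    Ueq385 s U y' y := by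
  obtain ⟨u, hu, rfl⟩ := h
  refine ⟨u⁻¹, hS.U_inv _ hu, ?_⟩
  rw [map_inv]
  group

theorem Ueq_trans385 (hS : DescSetting385 s U C δ₀ δ₁ m) {y y' y'' : Γ}
    (h : Ueq385 s U y y') (h' : Ueq385 s U y' y'') : Ueq385 s U y y'' := by
  obtain ⟨u, hu, rfl⟩ := h
  obtain ⟨v, hv, rfl⟩ := h'
  refine ⟨u * v, hS.U_mul _ _ hu hv, ?_⟩
  rw [map_mul]
  group

theorem Ueq_tw385 (hS : DescSetting385 s U C δ₀ δ₁ m) (x u δ : Γ) (hu : U u) :
    Ueq385 s U (tw385 s x δ) (tw385 s (x * u) δ) :=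
  ⟨u, hu, by rw [tw_mul385]; rfl⟩

/-- `φ` is constant on the `U`-twisted classes. -/
theorem phi_Ueq385 (hS : DescSetting385 s U C δ₀ δ₁ m) {φ : Γ → ℂ} (hφ : IsBiInv U φ)
    {y y' : Γ} (h : Ueq385 s U y y') : φ y' = φ y := by
  obtain ⟨u, hu, rfl⟩ := h
  exact hφ _ _ _ (hS.U_inv _ hu) (hS.U_s _ hu)

/-- The index is constant on the `U`-twisted classes. -/
theorem cosSet_Ueq385 (hS : DescSetting385 s U C δ₀ δ₁ m) (y u : Γ) (hu : U u) :
    cosSet385 U C (u⁻¹ * y * s u) = (fun c : Set Γ => (fun g => u⁻¹ * g) '' c) '' cosSet385 U C y := by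
  ext c
  constructor
  · rintro ⟨t, ht, rfl⟩
    have ht' : C y (u * t * u⁻¹) := (C_tw_iff385 hS y u t).1 ht
    refine ⟨cos385 U (u * t * u⁻¹), ⟨_, ht', rfl⟩, ?_⟩
    show (fun g => u⁻¹ * g) '' cos385 U (u * t * u⁻¹) = cos385 U t
    rw [image_cos385]
    have e : u⁻¹ * (u * t * u⁻¹) = t * u⁻¹ := by group
    rw [e, cos_mul_right385 hS _ _ (hS.U_inv _ hu)]
  · rintro ⟨c', ⟨t, ht, rfl⟩, rfl⟩
    have ht' : C (u⁻¹ * y * s u) (u⁻¹ * t * u) := hS.C_conj _ _ u ht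
    refine ⟨u⁻¹ * t * u, ht', ?_⟩
    show (fun g => u⁻¹ * g) '' cos385 U t = cos385 U (u⁻¹ * t * u)
    rw [image_cos385, cos_mul_right385 hS _ _ hu]

theorem cIndex_Ueq385 (hS : DescSetting385 s U C δ₀ δ₁ m) {y y' : Γ} (h : Ueq385 s U y y') :
    cIndex U C y' = cIndex U C y := by
  obtain ⟨u, hu, rfl⟩ := h
  rw [cIndex_eq385, cIndex_eq385, cosSet_Ueq385 hS y u hu]
  exact Set.ncard_image_of_injective _ (image_injective385 u⁻¹)

/-! ### The groups `H`, `H^c`, `T`, `T^c` -/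

theorem tw_eq_iff385 (x x' δ : Γ) :
    tw385 s x' δ = tw385 s x δ ↔ tw385 s (x' * x⁻¹) δ = δ := by
  constructor
  · intro h
    have h1 : tw385 s x⁻¹ (tw385 s x' δ) = tw385 s x⁻¹ (tw385 s x δ) := by rw [h]
    rw [tw_inv385, ← tw_mul385] at h1
    exact h1
  · intro h
    have h1 : tw385 s x' δ = tw385 s x (tw385 s (x' * x⁻¹) δ) := by
      rw [← tw_mul385]
      congr 1
      group
    rw [h1, h]

theorem H_mul385 {δ a b : Γ} (ha : tw385 s a δ = δ) (hb : tw385 s b δ = δ) :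
    tw385 s (a * b) δ = δ := by
  rw [tw_mul385, ha, hb]

theorem H_inv385 {δ a : Γ} (ha : tw385 s a δ = δ) : tw385 s a⁻¹ δ = δ := by
  have := tw_inv385 s a δ
  rw [ha] at this
  exact this

theorem Hc_sub385 (hS : DescSetting385 s U C δ₀ δ₁ m) {o : Γ} (ho : C δ₀ o) :
    tw385 s o δ₀ = δ₀ := hS.C_cent _ _ ho

theorem T_sub385 (hS : DescSetting385 s U C δ₀ δ₁ m) {t : Γ} (ht : tw385 s t δ₁ = δ₁) :
    tw385 s t δ₀ = δ₀ := hS.sub t ht

theorem normal'385 (hS : DescSetting385 s U C δ₀ δ₁ m) {h o : Γ} (hh : tw385 s h δ₀ = δ₀)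
    (ho : C δ₀ o) : C δ₀ (h * o * h⁻¹) := by
  have := hS.normal h⁻¹ o (H_inv385 hh) ho
  simpa using this

/-- The cosets of `y₀ = x₀⁻¹ δ₀ s(x₀)`. -/
theorem cosSet_base385 (hS : DescSetting385 s U C δ₀ δ₁ m) (x₀ : Γ) :
    cosSet385 U C (tw385 s x₀ δ₀)
      = {c : Set Γ | ∃ o : Γ, C δ₀ o ∧ c = cos385 U (x₀⁻¹ * o * x₀)} := by
  ext c
  constructor
  · rintro ⟨t, ht, rfl⟩
    refine ⟨x₀ * t * x₀⁻¹, (C_tw_iff385 hS δ₀ x₀ t).1 ht, ?_⟩
    congr 1
    group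
  · rintro ⟨o, ho, rfl⟩
    refine ⟨x₀⁻¹ * o * x₀, (C_tw_iff385 hS δ₀ x₀ _).2 ?_, rfl⟩
    have e : x₀ * (x₀⁻¹ * o * x₀) * x₀⁻¹ = o := by group
    rw [e]
    exact ho

theorem cosSet_base_finite385 (hS : DescSetting385 s U C δ₀ δ₁ m) (x₀ : Γ) :
    (cosSet385 U C (tw385 s x₀ δ₀)).Finite := by
  rw [cosSet_base385 hS]
  exact hS.fin x₀

/-- The cosets of `y₁ = a⁻¹ δ₁ s(a)`. -/
theorem cosSet_one385 (hS : DescSetting385 s U C δ₀ δ₁ m) (a : Γ) :
    cosSet385 U C (tw385 s a δ₁)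
      = {c : Set Γ | ∃ t : Γ, C δ₁ t ∧ c = cos385 U (a⁻¹ * t * a)} := by
  ext c
  constructor
  · rintro ⟨t, ht, rfl⟩
    refine ⟨a * t * a⁻¹, (C_tw_iff385 hS δ₁ a t).1 ht, ?_⟩
    congr 1
    group
  · rintro ⟨o, ho, rfl⟩
    refine ⟨a⁻¹ * o * a, (C_tw_iff385 hS δ₁ a _).2 ?_, rfl⟩
    have e : a * (a⁻¹ * o * a) * a⁻¹ = o := by group
    rw [e]
    exact ho

/-- The translate by `b = x₀⁻¹ o x₀ u` of a coset of `y₁ = a⁻¹ δ₁ s(a)`, `a = r o x₀ u`. -/
theorem translate_cos385 (hS : DescSetting385 s U C δ₀ δ₁ m) (x₀ r o u t : Γ) (hu : U u) :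
    (fun g => (x₀⁻¹ * o * x₀ * u) * g) '' cos385 U ((r * o * x₀ * u)⁻¹ * t * (r * o * x₀ * u))
      = cos385 U (x₀⁻¹ * (r⁻¹ * t * r * o) * x₀) := by
  rw [image_cos385]
  have e : x₀⁻¹ * o * x₀ * u * ((r * o * x₀ * u)⁻¹ * t * (r * o * x₀ * u))
      = x₀⁻¹ * (r⁻¹ * t * r * o) * x₀ * u := by group
  rw [e, cos_mul_right385 hS _ _ hu]

/-! ### The count over one class of `δ₀` -/

theorem Ueq_iff_tw385 (y y' : Γ) : Ueq385 s U y y' ↔ ∃ u : Γ, U u ∧ y' = tw385 s u y := Iff.rfl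

/-- `tw x δ₀` only depends on `tw x δ₁`. -/
theorem tw_base_eq385 (hS : DescSetting385 s U C δ₀ δ₁ m) {x x' : Γ}
    (h : tw385 s x' δ₁ = tw385 s x δ₁) : tw385 s x' δ₀ = tw385 s x δ₀ := by
  rw [tw_eq_iff385] at h ⊢
  exact hS.sub _ h

open Classical in
theorem fibre_count385 (hS : DescSetting385 s U C δ₀ δ₁ m) (x₀ : Γ) (R₁ : Finset Γ)
    (hR₁ : ∀ y ∈ R₁, ∀ y' ∈ R₁, Ueq385 s U y y' → y = y')
    (hcov : ∀ h : Γ, tw385 s h δ₀ = δ₀ → ∃ y ∈ R₁, Ueq385 s U y (tw385 s (h * x₀) δ₁)) :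
    ∑ y₁ ∈ R₁.filter (fun y₁ => ∃ h u : Γ, tw385 s h δ₀ = δ₀ ∧ U u ∧
          y₁ = tw385 s (h * x₀ * u) δ₁),
        cIndex U C y₁ = m * cIndex U C (tw385 s x₀ δ₀) := by
  obtain ⟨Rm, hcard, hRmH, hRmcov, hRmuniq⟩ := hS.reps
  set Cs : Finset (Set Γ) := (cosSet_base_finite385 hS x₀).toFinset with hCs
  have hCs_mem : ∀ c : Set Γ, c ∈ Cs ↔ ∃ o : Γ, C δ₀ o ∧ c = cos385 U (x₀⁻¹ * o * x₀) := by
    intro c
    rw [hCs, Set.Finite.mem_toFinset, cosSet_base385 hS]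
    rfl
  have hCs_card : Cs.card = cIndex U C (tw385 s x₀ δ₀) := by
    rw [cIndex_eq385, Set.ncard_eq_toFinset_card _ (cosSet_base_finite385 hS x₀)]
  -- choice of `o`
  have hoEx : ∀ c : Set Γ, ∃ o : Γ, c ∈ Cs → (C δ₀ o ∧ c = cos385 U (x₀⁻¹ * o * x₀)) := by
    intro c
    by_cases hc : c ∈ Cs
    · obtain ⟨o, ho, hco⟩ := (hCs_mem c).1 hc
      exact ⟨o, fun _ => ⟨ho, hco⟩⟩
    · exact ⟨1, fun h => absurd h hc⟩
  choose oOf hoOf using hoEx
  -- choice of `y`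
  have hyEx : ∀ z : Γ, ∃ y : Γ, (∃ h : Γ, tw385 s h δ₀ = δ₀ ∧ z = tw385 s (h * x₀) δ₁) →
      (y ∈ R₁ ∧ Ueq385 s U y z) := by
    intro z
    by_cases hz : ∃ h : Γ, tw385 s h δ₀ = δ₀ ∧ z = tw385 s (h * x₀) δ₁
    · obtain ⟨h, hh, rfl⟩ := hz
      obtain ⟨y, hy, hyz⟩ := hcov h hh
      exact ⟨y, fun _ => ⟨hy, hyz⟩⟩
    · exact ⟨1, fun h => absurd h hz⟩
  choose yOf hyOf using hyEx
  set Ψ : Γ × Set Γ → Γ := fun p => yOf (tw385 s (p.1 * oOf p.2 * x₀) δ₁) with hΨ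
  -- `Ψ` on `B`
  have hΨB : ∀ r ∈ Rm, ∀ c ∈ Cs, Ψ (r, c) ∈ R₁ ∧
      Ueq385 s U (Ψ (r, c)) (tw385 s (r * oOf c * x₀) δ₁) := by
    intro r hr c hc
    have ho := (hoOf c hc).1
    exact hyOf _ ⟨r * oOf c, H_mul385 (hRmH r hr) (Hc_sub385 hS ho), rfl⟩
  have hmaps : ∀ p ∈ Rm ×ˢ Cs, Ψ p ∈ R₁.filter (fun y₁ => ∃ h u : Γ, tw385 s h δ₀ = δ₀ ∧ U u ∧
          y₁ = tw385 s (h * x₀ * u) δ₁) := by
    rintro ⟨r, c⟩ hp
    rw [Finset.mem_product] at hp
    obtain ⟨hr, hc⟩ := hp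
    obtain ⟨h1, h2⟩ := hΨB r hr c hc
    rw [Finset.mem_filter]
    refine ⟨h1, ?_⟩
    obtain ⟨u, hu, hu2⟩ := Ueq_symm385 hS h2
    have ho := (hoOf c hc).1
    refine ⟨r * oOf c, u, H_mul385 (hRmH r hr) (Hc_sub385 hS ho), hu, ?_⟩
    rw [tw_mul385]
    exact hu2
  have hcount := Finset.card_eq_sum_card_fiberwise hmaps
  rw [Finset.card_product, hcard, hCs_card] at hcount
  rw [hcount]
  refine Finset.sum_congr rfl ?_
  intro y₁ hy₁
  rw [Finset.mem_filter] at hy₁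
  obtain ⟨hy₁R, h, u, hh, hu, hy₁eq⟩ := hy₁
  obtain ⟨r₁, hr₁, t, o₁, ht, ho₁, hdec⟩ := hRmcov h hh
  have ht' : tw385 s t δ₁ = δ₁ := ht
  have hr₁H : tw385 s r₁ δ₀ = δ₀ := hRmH r₁ hr₁
  -- `y₁ = tw a δ₁`, `a = r₁ o₁ x₀ u`
  have hy₁a : y₁ = tw385 s (r₁ * o₁ * x₀ * u) δ₁ := by
    rw [hy₁eq, hdec]
    have e : t * r₁ * o₁ * x₀ * u = t * (r₁ * o₁ * x₀ * u) := by group
    rw [e, tw_mul385, ht']
  have hginj : Function.Injective
      (fun c' : Set Γ => ((r₁, (fun g => (x₀⁻¹ * o₁ * x₀ * u) * g) '' c') : Γ × Set Γ)) := by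
    intro c c' hcc
    have h2 := (Prod.mk.injEq _ _ _ _).mp hcc
    exact image_injective385 (x₀⁻¹ * o₁ * x₀ * u) h2.2
  have hset : ((Finset.filter (fun p => Ψ p = y₁) (Rm ×ˢ Cs) : Finset (Γ × Set Γ)) :
        Set (Γ × Set Γ))
      = (fun c' : Set Γ => ((r₁, (fun g => (x₀⁻¹ * o₁ * x₀ * u) * g) '' c') : Γ × Set Γ)) ''
          cosSet385 U C y₁ := by
    ext ⟨r, c⟩
    simp only [Finset.coe_filter, Finset.mem_product, Set.mem_ofPred_eq, Set.mem_image,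
      Prod.mk.injEq]
    constructor
    · rintro ⟨⟨hr, hc⟩, hΨrc⟩
      obtain ⟨ho, hco⟩ := hoOf c hc
      obtain ⟨-, hU⟩ := hΨB r hr c hc
      rw [hΨrc] at hU
      obtain ⟨u', hu', hu'eq⟩ := hU
      have hrH : tw385 s r δ₀ = δ₀ := hRmH r hr
      -- `tw (r o x₀) δ₁ = tw (a u') δ₁`
      have h1 : tw385 s (r * oOf c * x₀) δ₁ = tw385 s (r₁ * o₁ * x₀ * u * u') δ₁ := by
        rw [hu'eq, hy₁a, tw_mul385 s (r₁ * o₁ * x₀ * u) u']
        rfl
      have hT : tw385 s (r * oOf c * x₀ * (r₁ * o₁ * x₀ * u * u')⁻¹) δ₁ = δ₁ :=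
        (tw_eq_iff385 _ _ _).1 h1
      have hT0 : tw385 s (r * oOf c * x₀ * (r₁ * o₁ * x₀ * u * u')⁻¹) δ₀ = δ₀ := hS.sub _ hT
      -- `g₂ = o⁻¹ r⁻¹ t₂ r₁ o₁ = x₀ (u u')⁻¹ x₀⁻¹`
      have hg₂H : tw385 s (x₀ * (u * u')⁻¹ * x₀⁻¹) δ₀ = δ₀ := by
        have e : x₀ * (u * u')⁻¹ * x₀⁻¹
            = (oOf c)⁻¹ * (r⁻¹ * ((r * oOf c * x₀ * (r₁ * o₁ * x₀ * u * u')⁻¹) * (r₁ * o₁))) := by
          group
        rw [e]
        exact H_mul385 (H_inv385 (Hc_sub385 hS ho)) (H_mul385 (H_inv385 hrH)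
          (H_mul385 hT0 (H_mul385 hr₁H (Hc_sub385 hS ho₁))))
      have hg₂C : C δ₀ (x₀ * (u * u')⁻¹ * x₀⁻¹) := by
        refine hS.cpt _ x₀ hg₂H ?_
        have e : x₀⁻¹ * (x₀ * (u * u')⁻¹ * x₀⁻¹) * x₀ = (u * u')⁻¹ := by group
        rw [e]
        exact hS.U_inv _ (hS.U_mul _ _ hu hu')
      -- `o' = o g₂ o₁⁻¹ = r⁻¹ t₂ r₁`
      have ho' : C δ₀ (oOf c * (x₀ * (u * u')⁻¹ * x₀⁻¹) * o₁⁻¹) :=
        hS.C₀_mul _ _ (hS.C₀_mul _ _ ho hg₂C) (hS.C₀_inv _ ho₁)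
      have hrr : r = r₁ := by
        refine hRmuniq r hr r₁ hr₁ ⟨(r * oOf c * x₀ * (r₁ * o₁ * x₀ * u * u')⁻¹)⁻¹,
          oOf c * (x₀ * (u * u')⁻¹ * x₀⁻¹) * o₁⁻¹, H_inv385 hT, ho', ?_⟩
        group
      have ht₂C0 : C δ₀ (r * oOf c * x₀ * (r₁ * o₁ * x₀ * u * u')⁻¹) := by
        have e : r * oOf c * x₀ * (r₁ * o₁ * x₀ * u * u')⁻¹
            = r₁ * (oOf c * (x₀ * (u * u')⁻¹ * x₀⁻¹) * o₁⁻¹) * r₁⁻¹ := by
          rw [hrr]
          group
        rw [e]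
        exact normal'385 hS hr₁H ho'
      have ht₂C : C δ₁ (r * oOf c * x₀ * (r₁ * o₁ * x₀ * u * u')⁻¹) :=
        (hS.C₁_iff _).2 ⟨hT, ht₂C0⟩
      refine ⟨cos385 U ((r₁ * o₁ * x₀ * u)⁻¹ * (r * oOf c * x₀ * (r₁ * o₁ * x₀ * u * u')⁻¹)
        * (r₁ * o₁ * x₀ * u)), ?_, hrr.symm, ?_⟩
      · rw [hy₁a, cosSet_one385 hS]
        exact ⟨_, ht₂C, rfl⟩
      · rw [translate_cos385 hS x₀ r₁ o₁ u _ hu]
        refine Eq.trans ?_ hco.symm
        rw [cos_eq_iff385 hS]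
        have e : (x₀⁻¹ * (r₁⁻¹ * (r * oOf c * x₀ * (r₁ * o₁ * x₀ * u * u')⁻¹) * r₁ * o₁) * x₀)⁻¹
            * (x₀⁻¹ * oOf c * x₀) = u * u' := by
          rw [hrr]
          group
        rw [e]
        exact hS.U_mul _ _ hu hu'
    · rintro ⟨c', hc', rfl, rfl⟩
      rw [hy₁a, cosSet_one385 hS] at hc'
      obtain ⟨t', ht'C, rfl⟩ := hc'
      rw [translate_cos385 hS x₀ r₁ o₁ u t' hu]
      have ht'0 : C δ₀ t' := ((hS.C₁_iff t').1 ht'C).2
      have ht'T : tw385 s t' δ₁ = δ₁ := ((hS.C₁_iff t').1 ht'C).1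
      have ho'' : C δ₀ (r₁⁻¹ * t' * r₁ * o₁) :=
        hS.C₀_mul _ _ (hS.normal r₁ t' hr₁H ht'0) ho₁
      have hc : cos385 U (x₀⁻¹ * (r₁⁻¹ * t' * r₁ * o₁) * x₀) ∈ Cs :=
        (hCs_mem _).2 ⟨_, ho'', rfl⟩
      refine ⟨⟨hr₁, hc⟩, ?_⟩
      obtain ⟨ho, hco⟩ := hoOf _ hc
      obtain ⟨hΨR, hΨU⟩ := hΨB r₁ hr₁ _ hc
      have hv : U ((x₀⁻¹ * (r₁⁻¹ * t' * r₁ * o₁) * x₀)⁻¹ *
          (x₀⁻¹ * oOf (cos385 U (x₀⁻¹ * (r₁⁻¹ * t' * r₁ * o₁) * x₀)) * x₀)) :=
        (cos_eq_iff385 hS _ _).1 hco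
      refine (hR₁ y₁ hy₁R _ hΨR (Ueq_trans385 hS ?_ (Ueq_symm385 hS hΨU))).symm
      refine ⟨u⁻¹ * ((x₀⁻¹ * (r₁⁻¹ * t' * r₁ * o₁) * x₀)⁻¹ *
          (x₀⁻¹ * oOf (cos385 U (x₀⁻¹ * (r₁⁻¹ * t' * r₁ * o₁) * x₀)) * x₀)),
        hS.U_mul _ _ (hS.U_inv _ hu) hv, ?_⟩
      have e : r₁ * oOf (cos385 U (x₀⁻¹ * (r₁⁻¹ * t' * r₁ * o₁) * x₀)) * x₀
          = t' * ((r₁ * o₁ * x₀ * u) * (u⁻¹ * ((x₀⁻¹ * (r₁⁻¹ * t' * r₁ * o₁) * x₀)⁻¹ *
          (x₀⁻¹ * oOf (cos385 U (x₀⁻¹ * (r₁⁻¹ * t' * r₁ * o₁) * x₀)) * x₀)))) := by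
        group
      rw [e, tw_mul385, ht'T, tw_mul385, ← hy₁a]
      rfl
  rw [cIndex_eq385, ← Set.ncard_image_of_injective _ hginj, ← hset, Set.ncard_coe_finset]

/-- `φ` on the class of `δ₁` over `y₀ = tw x₀ δ₀`. -/
theorem phi_fibre385 (hS : DescSetting385 s U C δ₀ δ₁ m) {φ : Γ → ℂ} (hφ : IsBiInv U φ)
    (hE : ∀ x : Γ, φ (x⁻¹ * δ₁ * s x) = φ (x⁻¹ * δ₀ * s x)) (x₀ h u : Γ)
    (hh : tw385 s h δ₀ = δ₀) (hu : U u) :
    φ (tw385 s (h * x₀ * u) δ₁) = φ (tw385 s x₀ δ₀) := by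
  have h1 : φ (tw385 s (h * x₀ * u) δ₁) = φ (tw385 s (h * x₀ * u) δ₀) := hE _
  rw [h1]
  have e : h * x₀ * u = h * (x₀ * u) := by group
  rw [e, tw_mul385, hh]
  exact phi_Ueq385 hS hφ (Ueq_tw385 hS x₀ u δ₀ hu)

open Classical in
/-- **D1: the abstract descent.** -/
theorem descAbs385 : DescAbsC385 := by
  intro Γ _ s U C δ₀ δ₁ m hS φ hφ hE c₀ c h₀ h₁
  obtain ⟨R₀, hR₀cl, hR₀pw, hR₀cov, rfl⟩ := h₀
  obtain ⟨R₁, hR₁cl, hR₁pw, hR₁cov, rfl⟩ := h₁
  -- the map `F` from the classes of `δ₁` to the classes of `δ₀`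
  have hFex : ∀ y₁ : Γ, ∃ y₀ : Γ, (y₁ ∈ R₁ ∧ φ y₁ ≠ 0) →
      (y₀ ∈ R₀ ∧ ∃ x : Γ, y₁ = tw385 s x δ₁ ∧ Ueq385 s U y₀ (tw385 s x δ₀)) := by
    intro y₁
    by_cases h : y₁ ∈ R₁ ∧ φ y₁ ≠ 0
    · obtain ⟨x, hx⟩ := hR₁cl y₁ h.1
      have hne : φ (x⁻¹ * δ₀ * s x) ≠ 0 := by
        rw [← hE x, ← hx]
        exact h.2
      obtain ⟨y', hy', u, hu, hyu⟩ := hR₀cov _ ⟨x, rfl⟩ hne
      exact ⟨y', fun _ => ⟨hy', x, hx, u, hu, hyu⟩⟩
    · exact ⟨1, fun h' => absurd h' h⟩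
  choose F hF using hFex
  have hmapsF : ∀ y₁ ∈ R₁.filter (fun y => φ y ≠ 0), F y₁ ∈ R₀.filter (fun y => φ y ≠ 0) := by
    intro y₁ hy₁
    rw [Finset.mem_filter] at hy₁ ⊢
    obtain ⟨hF1, x, hx, hUe⟩ := hF y₁ hy₁
    refine ⟨hF1, ?_⟩
    have h1 : φ (tw385 s x δ₀) = φ (F y₁) := phi_Ueq385 hS hφ hUe
    rw [← h1]
    have h2 : φ (tw385 s x δ₀) = φ y₁ := by
      rw [hx]
      exact (hE x).symm
    rw [h2]
    exact hy₁.2
  have hc1 : ∑ y ∈ R₁, φ y * (cIndex U C y : ℂ)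
      = ∑ y ∈ R₁.filter (fun y => φ y ≠ 0), φ y * (cIndex U C y : ℂ) := by
    symm
    apply Finset.sum_filter_of_ne
    intro y _ hy h0
    apply hy
    rw [h0, zero_mul]
  have hc0 : ∑ y ∈ R₀, φ y * (cIndex U C y : ℂ)
      = ∑ y ∈ R₀.filter (fun y => φ y ≠ 0), φ y * (cIndex U C y : ℂ) := by
    symm
    apply Finset.sum_filter_of_ne
    intro y _ hy h0
    apply hy
    rw [h0, zero_mul]
  rw [hc1, hc0, ← Finset.sum_fiberwise_of_maps_to hmapsF, Finset.mul_sum]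
  refine Finset.sum_congr rfl ?_
  intro y₀ hy₀
  rw [Finset.mem_filter] at hy₀
  obtain ⟨hy₀R, hy₀φ⟩ := hy₀
  obtain ⟨x₀, hx₀⟩ := hR₀cl y₀ hy₀R
  have hx₀' : y₀ = tw385 s x₀ δ₀ := hx₀
  -- the fibre of `F`
  have hfilter : (R₁.filter (fun y => φ y ≠ 0)).filter (fun y₁ => F y₁ = y₀)
      = R₁.filter (fun y₁ => ∃ h u : Γ, tw385 s h δ₀ = δ₀ ∧ U u ∧
          y₁ = tw385 s (h * x₀ * u) δ₁) := by
    ext y₁
    simp only [Finset.mem_filter]
    constructor
    · rintro ⟨⟨hy₁R, hy₁φ⟩, hFy⟩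
      refine ⟨hy₁R, ?_⟩
      obtain ⟨-, x, hx, hUe⟩ := hF y₁ ⟨hy₁R, hy₁φ⟩
      rw [hFy, hx₀'] at hUe
      obtain ⟨u, hu, hueq⟩ := hUe
      have h1 : tw385 s x δ₀ = tw385 s (x₀ * u) δ₀ := by
        rw [tw_mul385]
        exact hueq
      have h2 : tw385 s (x * (x₀ * u)⁻¹) δ₀ = δ₀ := (tw_eq_iff385 _ _ _).1 h1
      refine ⟨x * (x₀ * u)⁻¹, u, h2, hu, ?_⟩
      rw [hx]
      congr 1
      group
    · rintro ⟨hy₁R, h, u, hh, hu, hy₁eq⟩
      have hφ1 : φ y₁ = φ y₀ := by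
        rw [hy₁eq, hx₀']
        exact phi_fibre385 hS hφ hE x₀ h u hh hu
      have hy₁φ : φ y₁ ≠ 0 := by
        rw [hφ1]
        exact hy₀φ
      refine ⟨⟨hy₁R, hy₁φ⟩, ?_⟩
      obtain ⟨hF1, x', hx', hUe⟩ := hF y₁ ⟨hy₁R, hy₁φ⟩
      have h1 : tw385 s x' δ₀ = tw385 s (h * x₀ * u) δ₀ := by
        apply tw_base_eq385 hS
        rw [← hx', hy₁eq]
      have h2 : tw385 s (h * x₀ * u) δ₀ = tw385 s u y₀ := by
        have e : h * x₀ * u = h * (x₀ * u) := by group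
        rw [e, tw_mul385, hh, tw_mul385, ← hx₀']
      rw [h1, h2] at hUe
      have h3 : Ueq385 s U y₀ (tw385 s u y₀) := ⟨u, hu, rfl⟩
      exact (hR₀pw y₀ hy₀R _ hF1 (Ueq_trans385 hS h3 (Ueq_symm385 hS hUe))).symm
  rw [hfilter]
  have hcovx : ∀ h : Γ, tw385 s h δ₀ = δ₀ →
      ∃ y ∈ R₁, Ueq385 s U y (tw385 s (h * x₀) δ₁) := by
    intro h hh
    have hne : φ (tw385 s (h * x₀) δ₁) ≠ 0 := by
      have := phi_fibre385 hS hφ hE x₀ h 1 hh hS.U_one
      rw [mul_one] at this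
      rw [this, ← hx₀']
      exact hy₀φ
    obtain ⟨y', hy', u, hu, hyu⟩ := hR₁cov _ ⟨h * x₀, rfl⟩ hne
    exact ⟨y', hy', u, hu, hyu⟩
  have hfc := fibre_count385 hS x₀ R₁ hR₁pw hcovx
  have hsum : ∑ y₁ ∈ R₁.filter (fun y₁ => ∃ h u : Γ, tw385 s h δ₀ = δ₀ ∧ U u ∧
          y₁ = tw385 s (h * x₀ * u) δ₁), φ y₁ * (cIndex U C y₁ : ℂ)
      = ∑ y₁ ∈ R₁.filter (fun y₁ => ∃ h u : Γ, tw385 s h δ₀ = δ₀ ∧ U u ∧
          y₁ = tw385 s (h * x₀ * u) δ₁), φ y₀ * (cIndex U C y₁ : ℂ) := by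
    refine Finset.sum_congr rfl ?_
    intro y₁ hy₁
    rw [Finset.mem_filter] at hy₁
    obtain ⟨-, h, u, hh, hu, hy₁eq⟩ := hy₁
    rw [hy₁eq, hx₀']
    rw [phi_fibre385 hS hφ hE x₀ h u hh hu]
  rw [hsum, ← Finset.mul_sum, ← Nat.cast_sum, hfc, ← hx₀']
  push_cast
  ring

end Abs

end Fermat.Agent.LT.T6.H385

end

end
-- ===== PACK-END LT/T6/H385/DescAbs.lean

-- ===== PACK-BEGIN LT/T6/H497/SqrtNear.lean
section




/-!
# Row LT, tower T6, sub-leaf T6.18i.2 `SqrtNearC385` (helper497) -- OFF-MAIN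

`sqrtNearC497 : H385.SqrtNearC385` (VERBATIM the Prop of `LT/T6/H385/QuatSpec.lean`).

For `γ ∈ GL₂(k)` in a small `χ`-ball around `(2z, z²)` the matrix `u = z⁻¹ γ` has a square root
`w = a + b γ ∈ k[γ]` with `tr w`, `det w` as close to `(2, 1)` as we want.

Proof (no Newton iteration in the 2-dimensional algebra; two scalar square roots):
`T = tr u`, `Δ = det u`.  `D = √Δ` near `1` (Hensel for `X² - Δ` at `1`, needs `|Δ - 1| < |2|²`),
`τ = √(T + 2 D)` near `2` (Hensel for `X² - (T + 2D)` at `2`, needs `|T + 2D - 4| < |4|²`),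
`w = (u + D) / τ`.  Cayley--Hamilton: `(u + D)² = (T + 2 D) u = τ² u`, `tr w = τ`, `det w = D`.
Hensel's lemma for quadratics: `H129.hensel_quad129` (helper129, byte-identical copy).
-/

set_option autoImplicit false

open scoped Matrix

noncomputable section

namespace Fermat.Agent.LT.T6.H497

open Fermat.Agent.LT.T6 Fermat.Agent.LT.T6.H783 Fermat.Agent.LT.T6.H385 Fermat.Agent.LT.H129

variable {k : Type} [Field k]

/-! ## Algebra of `2 × 2` matrices -/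

/-- Cayley--Hamilton for `2 × 2` matrices. -/
theorem mul_self_eq497 (g : Matrix (Fin 2) (Fin 2) k) :
    g * g = g.trace • g - g.det • (1 : Matrix (Fin 2) (Fin 2) k) := by
  ext i j
  fin_cases i <;> fin_cases j <;>
    simp [Matrix.mul_apply, Fin.sum_univ_two, Matrix.trace_fin_two, Matrix.det_fin_two] <;> ring

/-- The trace of `a + b g`. -/
theorem trace_lin497 (a b : k) (g : Matrix (Fin 2) (Fin 2) k) :
    (a • (1 : Matrix (Fin 2) (Fin 2) k) + b • g).trace = 2 * a + b * g.trace := by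
  simp [Matrix.trace_fin_two]
  ring

/-- The determinant of `a + b g`. -/
theorem det_lin497 (a b : k) (g : Matrix (Fin 2) (Fin 2) k) :
    (a • (1 : Matrix (Fin 2) (Fin 2) k) + b • g).det
      = a ^ 2 + a * b * g.trace + b ^ 2 * g.det := by
  simp [Matrix.det_fin_two, Matrix.trace_fin_two]
  ring

/-- The square of `a + b g`. -/
theorem sq_lin497 (a b : k) (g : Matrix (Fin 2) (Fin 2) k) :
    (a • (1 : Matrix (Fin 2) (Fin 2) k) + b • g) * (a • (1 : Matrix (Fin 2) (Fin 2) k) + b • g)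
      = (a ^ 2 - b ^ 2 * g.det) • (1 : Matrix (Fin 2) (Fin 2) k)
        + (2 * a * b + b ^ 2 * g.trace) • g := by
  have h := mul_self_eq497 g
  have e : (a • (1 : Matrix (Fin 2) (Fin 2) k) + b • g)
      * (a • (1 : Matrix (Fin 2) (Fin 2) k) + b • g)
      = (a ^ 2) • (1 : Matrix (Fin 2) (Fin 2) k) + (2 * a * b) • g + (b ^ 2) • (g * g) := by
    simp only [add_mul, mul_add, Matrix.smul_mul, Matrix.mul_smul, Matrix.one_mul,
      Matrix.mul_one, smul_smul]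
    have e1 : (b * a) • g = (a * b) • g := by rw [mul_comm]
    rw [e1]
    have e2 : (2 * a * b) • g = (a * b) • g + (a * b) • g := by
      rw [← add_smul]; congr 1; ring
    rw [e2, pow_two, pow_two]
    abel
  rw [e, h, smul_sub, smul_smul, smul_smul, sub_smul, add_smul]
  abel

/-! ## Scalar square roots (Hensel) -/

section Hensel

variable [Valued k Γ₀] [CompleteSpace k]

/-- Square roots near `1`. -/
theorem sqrt_near_one497 (x : k) (h : Valued.v (1 - x) < Valued.v (2 : k) ^ 2) :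
    ∃ y : k, y ^ 2 = x ∧ Valued.v (y - 1) * Valued.v (2 : k) ≤ Valued.v (1 - x) := by
  have h' : Valued.v ((1 : k) ^ 2 - 0 * 1 + -x) < Valued.v (2 * (1 : k) - 0) ^ 2 := by
    have e1 : (1 : k) ^ 2 - 0 * 1 + -x = 1 - x := by ring
    have e2 : 2 * (1 : k) - 0 = 2 := by ring
    rw [e1, e2]; exact h
  obtain ⟨y, hy, hle⟩ := hensel_quad129 (0 : k) (-x) 1 h'
  refine ⟨y, ?_, ?_⟩
  · have : y ^ 2 - x = 0 := by
      have e : y ^ 2 - 0 * y + -x = y ^ 2 - x := by ring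
      rw [← e]; exact hy
    exact sub_eq_zero.mp this
  · have e1 : (1 : k) ^ 2 - 0 * 1 + -x = 1 - x := by ring
    have e2 : 2 * (1 : k) - 0 = 2 := by ring
    rw [e1, e2] at hle
    exact hle

/-- Square roots near `2` (of elements near `4`). -/
theorem sqrt_near_two497 (x : k) (h : Valued.v (4 - x) < Valued.v (4 : k) ^ 2) :
    ∃ y : k, y ^ 2 = x ∧ Valued.v (y - 2) * Valued.v (4 : k) ≤ Valued.v (4 - x) := by
  have h' : Valued.v ((2 : k) ^ 2 - 0 * 2 + -x) < Valued.v (2 * (2 : k) - 0) ^ 2 := by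
    have e1 : (2 : k) ^ 2 - 0 * 2 + -x = 4 - x := by ring
    have e2 : 2 * (2 : k) - 0 = 4 := by ring
    rw [e1, e2]; exact h
  obtain ⟨y, hy, hle⟩ := hensel_quad129 (0 : k) (-x) 2 h'
  refine ⟨y, ?_, ?_⟩
  · have : y ^ 2 - x = 0 := by
      have e : y ^ 2 - 0 * y + -x = y ^ 2 - x := by ring
      rw [← e]; exact hy
    exact sub_eq_zero.mp this
  · have e1 : (2 : k) ^ 2 - 0 * 2 + -x = 4 - x := by ring
    have e2 : 2 * (2 : k) - 0 = 4 := by ring
    rw [e1, e2] at hle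
    exact hle

end Hensel

/-! ## Valuation bookkeeping in `ℤᵐ⁰` -/

section Val

variable [Valued k Γ₀]

theorem val_two_le_one497 : Valued.v (2 : k) ≤ 1 := by
  have : (2 : k) = 1 + 1 := by norm_num
  rw [this]
  exact le_trans (Valuation.map_add _ _ _) (by simp)

/-- `|x / y| ≤ exp (m - n)` from `|x| ≤ exp m` and `|y| = exp n`. -/
theorem val_div_le497 {x y : k} {m n : ℤ} (hx : Valued.v x ≤ WithZero.exp m)
    (hy : Valued.v y = WithZero.exp n) : Valued.v (x / y) ≤ WithZero.exp (m - n) := by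
  rw [map_div₀, hy, WithZero.exp_sub, div_eq_mul_inv, div_eq_mul_inv]
  exact mul_le_mul_left hx _

/-- From `|x| · exp n ≤ exp m`: `|x| ≤ exp (m - n)`. -/
theorem val_le_of_mul_le497 {x : k} {m n : ℤ}
    (h : Valued.v x * WithZero.exp n ≤ WithZero.exp m) :
    Valued.v x ≤ WithZero.exp (m - n) := by
  rw [WithZero.exp_sub, le_div_iff₀ WithZero.exp_pos]
  exact h

end Val

/-! ## The leaf -/

/-- **T6.18i.2 `SqrtNearC385`**, unconditional. -/
theorem sqrtNearC497 : SqrtNearC385 := by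
  intro k _ _ q hk z hz M
  have := hk.complete
  have := hk.char0
  have h2 : (2 : k) ≠ 0 := two_ne_zero
  have hv2 : Valued.v (2 : k) ≠ 0 := (Valuation.ne_zero_iff _).mpr h2
  have hvz : Valued.v z ≠ 0 := (Valuation.ne_zero_iff _).mpr hz
  obtain ⟨L2, e2⟩ : ∃ L2 : ℤ, Valued.v (2 : k) = WithZero.exp L2 :=
    ⟨WithZero.log (Valued.v (2 : k)), (WithZero.exp_log hv2).symm⟩
  obtain ⟨Lz, ez⟩ : ∃ Lz : ℤ, Valued.v z = WithZero.exp Lz :=
    ⟨WithZero.log (Valued.v z), (WithZero.exp_log hvz).symm⟩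
  have hL2 : L2 ≤ 0 := by
    have h := val_two_le_one497 (k := k)
    rw [e2, ← WithZero.exp_zero, WithZero.exp_le_exp] at h
    exact h
  have e4 : Valued.v (4 : k) = WithZero.exp (2 * L2) := by
    have : (4 : k) = 2 * 2 := by norm_num
    rw [this, map_mul, e2, ← WithZero.exp_add]
    congr 1; ring
  have ez2 : Valued.v (z ^ 2) = WithZero.exp (2 * Lz) := by
    rw [pow_two, map_mul, ez, ← WithZero.exp_add]
    congr 1; ring
  have a1 := le_abs_self Lz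
  have a2 := neg_abs_le Lz
  have a3 := neg_abs_le L2
  have a4 := abs_nonneg Lz
  have a5 := abs_nonneg L2
  have hM0 : (0 : ℤ) ≤ (M : ℤ) := Int.natCast_nonneg M
  -- the radius
  refine ⟨(M : ℤ) + 2 * |Lz| + 4 * |L2| + 1, ?_⟩
  set N : ℤ := (M : ℤ) + 2 * |Lz| + 4 * |L2| + 1 with hN
  intro γ hγ
  obtain ⟨htr, hdet⟩ := hγ
  set G : Matrix (Fin 2) (Fin 2) k := (γ : Matrix (Fin 2) (Fin 2) k) with hG
  set t : k := G.trace with ht
  set d : k := G.det with hd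
  have hd0 : d ≠ 0 := Matrix.GeneralLinearGroup.det_ne_zero γ
  have hz2 : z ^ 2 ≠ 0 := pow_ne_zero 2 hz
  -- the normalised invariants
  set T : k := t / z with hT
  set Δ : k := d / z ^ 2 with hΔ
  have hΔ0 : Δ ≠ 0 := div_ne_zero hd0 hz2
  have bT : Valued.v (T - 2) ≤ WithZero.exp (-N - Lz) := by
    have e : T - 2 = (t - 2 * z) / z := by rw [hT]; field_simp
    rw [e]
    exact val_div_le497 htr ez
  have bΔ : Valued.v (1 - Δ) ≤ WithZero.exp (-N - 2 * Lz) := by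
    have e : 1 - Δ = -((d - z ^ 2) / z ^ 2) := by rw [hΔ]; field_simp; ring
    rw [e, Valuation.map_neg]
    exact val_div_le497 hdet ez2
  -- Step 1: `D = √Δ` near `1`
  have c1 : Valued.v (1 - Δ) < Valued.v (2 : k) ^ 2 := by
    refine lt_of_le_of_lt bΔ ?_
    rw [e2, pow_two, ← WithZero.exp_add, WithZero.exp_lt_exp]
    omega
  obtain ⟨D, hD, hDle⟩ := sqrt_near_one497 Δ c1
  have hD0 : D ≠ 0 := by
    intro h
    rw [h] at hD
    exact hΔ0 (by rw [← hD]; ring)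
  have b2D : Valued.v (2 * (D - 1)) ≤ WithZero.exp (-N - 2 * Lz) := by
    rw [map_mul, mul_comm]
    exact le_trans hDle bΔ
  have bD : Valued.v (D - 1) ≤ WithZero.exp (-N - 2 * Lz - L2) := by
    apply val_le_of_mul_le497
    rw [← e2]
    exact le_trans hDle bΔ
  -- Step 2: `τ = √(T + 2 D)` near `2`
  set S : k := T + 2 * D with hS
  have bS : Valued.v (4 - S) ≤ WithZero.exp (-N + 2 * |Lz|) := by
    have e : 4 - S = -((T - 2) + 2 * (D - 1)) := by rw [hS]; ring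
    rw [e, Valuation.map_neg]
    refine le_trans (Valuation.map_add _ _ _) (max_le ?_ ?_)
    · refine le_trans bT ?_
      rw [WithZero.exp_le_exp]; omega
    · refine le_trans b2D ?_
      rw [WithZero.exp_le_exp]; omega
  have c2 : Valued.v (4 - S) < Valued.v (4 : k) ^ 2 := by
    refine lt_of_le_of_lt bS ?_
    rw [e4, pow_two, ← WithZero.exp_add, WithZero.exp_lt_exp]
    omega
  obtain ⟨τ, hτ, hτle⟩ := sqrt_near_two497 S c2
  have bτ : Valued.v (τ - 2) ≤ WithZero.exp (-N + 2 * |Lz| - 2 * L2) := by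
    apply val_le_of_mul_le497
    rw [← e4]
    exact le_trans hτle bS
  have hτ0 : τ ≠ 0 := by
    intro h
    rw [h] at hτ
    have hS0 : S = 0 := by rw [← hτ]; ring
    rw [hS0, sub_zero, e4, pow_two, ← WithZero.exp_add, WithZero.exp_lt_exp] at c2
    omega
  -- Step 3: `w = (u + D) / τ`
  set a : k := D / τ with ha
  set b : k := 1 / (τ * z) with hb
  set W : Matrix (Fin 2) (Fin 2) k := a • (1 : Matrix (Fin 2) (Fin 2) k) + b • G with hW
  have htd : t = T * z := by rw [hT]; field_simp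
  have hdd : d = Δ * z ^ 2 := by rw [hΔ]; field_simp
  have hSτ : T = τ ^ 2 - 2 * D := by rw [hτ, hS]; ring
  have hWtr : W.trace = τ := by
    rw [hW, trace_lin497, ← ht, htd, hSτ, ha, hb]
    field_simp
    ring
  have hWdet : W.det = D := by
    rw [hW, det_lin497, ← ht, ← hd, htd, hdd, hSτ, ← hD, ha, hb]
    field_simp
    ring
  have hWsq : W * W = z⁻¹ • G := by
    rw [hW, sq_lin497, ← ht, ← hd, htd, hdd, hSτ, ← hD, ha, hb]
    have e1 : (D / τ) ^ 2 - (1 / (τ * z)) ^ 2 * (D ^ 2 * z ^ 2) = 0 := by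
      field_simp
      ring
    have e2' : 2 * (D / τ) * (1 / (τ * z)) + (1 / (τ * z)) ^ 2 * ((τ ^ 2 - 2 * D) * z) = z⁻¹ := by
      field_simp
      ring
    rw [e1, e2', zero_smul, zero_add]
  have hWdet0 : W.det ≠ 0 := by rw [hWdet]; exact hD0
  refine ⟨Matrix.GeneralLinearGroup.mkOfDetNeZero W hWdet0, a, b, rfl, hWsq, ?_, ?_⟩
  · show Valued.v (W.trace - 2) ≤ WithZero.exp (-(M : ℤ))
    rw [hWtr]
    refine le_trans bτ ?_
    rw [WithZero.exp_le_exp]; omega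
  · show Valued.v (W.det - 1) ≤ WithZero.exp (-(M : ℤ))
    rw [hWdet]
    refine le_trans bD ?_
    rw [WithZero.exp_le_exp]; omega

end Fermat.Agent.LT.T6.H497

end

end
-- ===== PACK-END LT/T6/H497/SqrtNear.lean

-- ===== PACK-BEGIN LT/T6/H355/ShiftBack.lean
section



/-!
# Row LT, tower T6, leaf T6.18i.6g (helper355): `shiftBackC355 : H385.ShiftBackC385`

OFF-MAIN.  The frozen Prop of `LT/T6/H385/DescSpec.lean` (helper385@51fcfaf6f, sha256 ef4c48b7),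
unconditional.

`g = x⁻¹ (w δ₀) σ(x)`, `g₀ = x⁻¹ δ₀ σ(x)`, `w_x = x⁻¹ w x`: `g = w_x g₀` and
`g σ(g) = z · w_x²` (`δ₀ σ(w) = w δ₀`, `σ(δ₀) = δ₀`, `δ₀² = z`, `σ² = 1`).  Cayley–Hamilton:
`w_x² = t w_x - d`, `t = tr w`, `d = det w`, so `t · w_x = z⁻¹ g σ(g) + d`; `|t| = |2|` for
`w ∈ U(M₂)`, `exp(-M₂) < |2|`.  Hence `w_x`, `w_x⁻¹` and `g₀ = w_x⁻¹ g` are bounded on `F U(n)`,
`|det g₀| = |det g|`, and the bounded set is covered by finitely many cosets of `U(n)`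
(`cptG_core162`, helper162).
-/

set_option autoImplicit false

open scoped Matrix

noncomputable section

namespace Fermat.Agent.LT.T6.H355

open Fermat.Agent.LT.T6 Fermat.Agent.LT.T6.H162 Fermat.Agent.LT.T6.H385

variable {k : Type} [Field k]

theorem val_glAut355 (s : k ≃+* k) (g : GL (Fin 2) k) (i j : Fin 2) :
    ((glAut s g : GL (Fin 2) k) : Matrix (Fin 2) (Fin 2) k) i j
      = s ((g : Matrix (Fin 2) (Fin 2) k) i j) := rfl

theorem glAut_glAut355 (s : k ≃+* k) (hs2 : ∀ y : k, s (s y) = y) (g : GL (Fin 2) k) :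
    glAut s (glAut s g) = g := by
  apply Units.ext
  ext i j
  rw [val_glAut355, val_glAut355, hs2]

/-- the group identity `g σ(g) = w_x w_x (x⁻¹ δ₀² x)` -/
theorem key_group355 (s : k ≃+* k) (hs2 : ∀ y : k, s (s y) = y) (δ₀ w x : GL (Fin 2) k)
    (hδ : glAut s δ₀ = δ₀) (hw : InTwCent s δ₀ w) :
    (x⁻¹ * (w * δ₀) * glAut s x) * glAut s (x⁻¹ * (w * δ₀) * glAut s x)
      = (x⁻¹ * w * x) * (x⁻¹ * w * x) * (x⁻¹ * (δ₀ * δ₀) * x) := by
  have hw' : δ₀ * glAut s w = w * δ₀ := by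
    have h1 : w⁻¹ * δ₀ * glAut s w = δ₀ := hw
    calc δ₀ * glAut s w = w * (w⁻¹ * δ₀ * glAut s w) := by group
      _ = w * δ₀ := by rw [h1]
  rw [map_mul, map_mul, map_mul, map_inv, glAut_glAut355 s hs2, hδ]
  calc x⁻¹ * (w * δ₀) * glAut s x * ((glAut s x)⁻¹ * (glAut s w * δ₀) * x)
      = x⁻¹ * w * (δ₀ * glAut s w) * δ₀ * x := by group
    _ = x⁻¹ * w * (w * δ₀) * δ₀ * x := by rw [hw']
    _ = (x⁻¹ * w * x) * (x⁻¹ * w * x) * (x⁻¹ * (δ₀ * δ₀) * x) := by group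

theorem val_conj_scalar355 (x c : GL (Fin 2) k) (z : k)
    (hc : (c : Matrix (Fin 2) (Fin 2) k) = z • (1 : Matrix (Fin 2) (Fin 2) k)) :
    ((x⁻¹ * c * x : GL (Fin 2) k) : Matrix (Fin 2) (Fin 2) k)
      = z • (1 : Matrix (Fin 2) (Fin 2) k) := by
  rw [Units.val_mul, Units.val_mul, hc, Matrix.mul_smul, mul_one, Matrix.smul_mul,
    ← Units.val_mul, inv_mul_cancel, Units.val_one]

theorem quatBase_sq355 (δ₀ : GL (Fin 2) k) (z : k)
    (hδ : (δ₀ : Matrix (Fin 2) (Fin 2) k) = !![0, z; 1, 0]) :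
    ((δ₀ * δ₀ : GL (Fin 2) k) : Matrix (Fin 2) (Fin 2) k)
      = z • (1 : Matrix (Fin 2) (Fin 2) k) := by
  rw [Units.val_mul, hδ]
  ext i j
  fin_cases i <;> fin_cases j <;> simp [Matrix.mul_apply, Fin.sum_univ_two]

theorem quatBase_fixed355 (s : k ≃+* k) (δ₀ : GL (Fin 2) k) (z : k) (hz : s z = z)
    (hδ : (δ₀ : Matrix (Fin 2) (Fin 2) k) = !![0, z; 1, 0]) : glAut s δ₀ = δ₀ := by
  apply Units.ext
  ext i j
  rw [val_glAut355, hδ]
  fin_cases i <;> fin_cases j <;> simp [hz]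

theorem trace_conj355 (x w : GL (Fin 2) k) :
    ((x⁻¹ * w * x : GL (Fin 2) k) : Matrix (Fin 2) (Fin 2) k).trace
      = (w : Matrix (Fin 2) (Fin 2) k).trace := by
  rw [Units.val_mul, Matrix.trace_mul_comm, ← Units.val_mul, mul_inv_cancel_left]

theorem det_conj355 (x w : GL (Fin 2) k) :
    ((x⁻¹ * w * x : GL (Fin 2) k) : Matrix (Fin 2) (Fin 2) k).det
      = (w : Matrix (Fin 2) (Fin 2) k).det := by
  rw [Units.val_mul, Matrix.det_mul, mul_comm, ← Matrix.det_mul, ← Units.val_mul,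
    mul_inv_cancel_left]

variable [Valued k Γ₀]

/-- **The core**: the hypotheses on the field in explicit form. -/
theorem shiftBack_core355 {q : ℕ} (hk : IsLocalField k q) (s : k ≃+* k)
    (hs2 : ∀ y : k, s (s y) = y) (hsv : ∀ y : k, Valued.v (s y) = Valued.v y)
    (z : k) (hz0 : z ≠ 0) (hsz : s z = z) (n : ℕ) (δ₀ : GL (Fin 2) k)
    (hδ : (δ₀ : Matrix (Fin 2) (Fin 2) k) = !![0, z; 1, 0]) (F : Finset (GL (Fin 2) k)) :
    ∃ (M₂ : ℕ) (F'' : Finset (GL (Fin 2) k)),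
      ∀ w x : GL (Fin 2) k, InTwCent s δ₀ w → InU M₂ w →
        InCosets385 n F (x⁻¹ * (w * δ₀) * glAut s x) →
        InCosets385 n F'' (x⁻¹ * δ₀ * glAut s x) := by
  have : CharZero k := hk.char0
  obtain ⟨B, hB⟩ := exists_bound355 F
  have hvz : Valued.v z ≠ 0 := by rwa [Ne, Valuation.zero_iff]
  have h20 : (2 : k) ≠ 0 := two_ne_zero
  have hv2 : Valued.v (2 : k) ≠ 0 := by rwa [Ne, Valuation.zero_iff]
  obtain ⟨Az, hAz⟩ := exists_nat_le355 hvz
  obtain ⟨A2, hA2⟩ := exists_nat_le355 hv2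
  obtain ⟨F'', -, hF''⟩ := cptG_core162 hk (((2 * (2 * B + Az + A2) + B : ℕ) : ℕ) : ℤ) n
  refine ⟨A2 + 1, F'', ?_⟩
  rintro w x hw hwU ⟨f, hf, u, hu, hg⟩
  -- (a) the entries and the determinant of `g`
  have hGe : ∀ i j, Valued.v (((x⁻¹ * (w * δ₀) * glAut s x : GL (Fin 2) k) :
      Matrix (Fin 2) (Fin 2) k) i j) ≤ WithZero.exp ((B : ℕ) : ℤ) := by
    intro i j
    rw [hg, Units.val_mul]
    have h1 := val_mul_entry_le162 (f : Matrix (Fin 2) (Fin 2) k)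
      (u : Matrix (Fin 2) (Fin 2) k) (a := WithZero.exp ((B : ℕ) : ℤ)) (c := 1)
      (fun i j => (val_entry_le_entryMax162 f i j).trans (hB f hf).1)
      (fun i j => val_entry_le_one_of_inU355 hu i j) i j
    rwa [mul_one] at h1
  have hGd : WithZero.exp (-((B : ℕ) : ℤ))
      ≤ Valued.v ((x⁻¹ * (w * δ₀) * glAut s x : GL (Fin 2) k) :
        Matrix (Fin 2) (Fin 2) k).det := by
    rw [hg, Units.val_mul, Matrix.det_mul, map_mul, val_det_eq_one_of_inU355 hu, mul_one]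
    exact (hB f hf).2
  -- (b) the key identity
  have hkey := key_group355 s hs2 δ₀ w x (quatBase_fixed355 s δ₀ z hsz hδ) hw
  have hkeyM : ((x⁻¹ * (w * δ₀) * glAut s x * glAut s (x⁻¹ * (w * δ₀) * glAut s x) :
      GL (Fin 2) k) : Matrix (Fin 2) (Fin 2) k)
      = ((x⁻¹ * w * x * (x⁻¹ * w * x) * (x⁻¹ * (δ₀ * δ₀) * x) : GL (Fin 2) k) :
        Matrix (Fin 2) (Fin 2) k) := congrArg Units.val hkey
  rw [Units.val_mul ((x⁻¹ * w * x) * (x⁻¹ * w * x)),
    val_conj_scalar355 x (δ₀ * δ₀) z (quatBase_sq355 δ₀ z hδ), Matrix.mul_smul, mul_one,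
    Units.val_mul (x⁻¹ * w * x), cayley355, trace_conj355, det_conj355] at hkeyM
  -- (c) the entries of `w_x`
  have hGG : ∀ i j, Valued.v (((x⁻¹ * (w * δ₀) * glAut s x *
      glAut s (x⁻¹ * (w * δ₀) * glAut s x) : GL (Fin 2) k) : Matrix (Fin 2) (Fin 2) k) i j)
      ≤ WithZero.exp ((B : ℕ) : ℤ) * WithZero.exp ((B : ℕ) : ℤ) := by
    intro i j
    rw [Units.val_mul]
    exact val_mul_entry_le162 _ _ hGe
      (fun i j => by rw [val_glAut355, hsv]; exact hGe i j) i j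
  have htr : Valued.v (w : Matrix (Fin 2) (Fin 2) k).trace = Valued.v (2 : k) := by
    have h1 := val_trace_sub_two355 hwU
    have h2 : Valued.v ((w : Matrix (Fin 2) (Fin 2) k).trace - 2) < Valued.v (2 : k) := by
      refine lt_of_le_of_lt h1 (lt_of_lt_of_le ?_ hA2)
      rw [WithZero.exp_lt_exp]
      push_cast
      omega
    have e : (w : Matrix (Fin 2) (Fin 2) k).trace
        = 2 + ((w : Matrix (Fin 2) (Fin 2) k).trace - 2) := by ring
    rw [e]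
    exact Valuation.map_add_eq_of_lt_left _ h2
  have hdet : Valued.v (w : Matrix (Fin 2) (Fin 2) k).det = 1 := val_det_eq_one_of_inU355 hwU
  have hWx : ∀ i j, Valued.v (((x⁻¹ * w * x : GL (Fin 2) k) : Matrix (Fin 2) (Fin 2) k) i j)
      ≤ WithZero.exp (((2 * B + Az + A2 : ℕ) : ℕ) : ℤ) := by
    intro i j
    have h1 := congrFun (congrFun hkeyM i) j
    rw [Matrix.smul_apply, Matrix.sub_apply, Matrix.smul_apply, Matrix.smul_apply, smul_eq_mul,
      smul_eq_mul, smul_eq_mul] at h1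
    -- `t * Wx i j = z⁻¹ * (G Gs) i j + d * 1 i j`
    have h2 : (w : Matrix (Fin 2) (Fin 2) k).trace
        * ((x⁻¹ * w * x : GL (Fin 2) k) : Matrix (Fin 2) (Fin 2) k) i j
        = z⁻¹ * ((x⁻¹ * (w * δ₀) * glAut s x *
            glAut s (x⁻¹ * (w * δ₀) * glAut s x) : GL (Fin 2) k) :
              Matrix (Fin 2) (Fin 2) k) i j
          + (w : Matrix (Fin 2) (Fin 2) k).det * (1 : Matrix (Fin 2) (Fin 2) k) i j := by
      rw [h1]
      field_simp
      ring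
    have h3 : Valued.v (z⁻¹ * ((x⁻¹ * (w * δ₀) * glAut s x *
            glAut s (x⁻¹ * (w * δ₀) * glAut s x) : GL (Fin 2) k) :
              Matrix (Fin 2) (Fin 2) k) i j
          + (w : Matrix (Fin 2) (Fin 2) k).det * (1 : Matrix (Fin 2) (Fin 2) k) i j)
        ≤ WithZero.exp (((2 * B + Az : ℕ) : ℕ) : ℤ) := by
      refine (Valuation.map_add _ _ _).trans (max_le ?_ ?_)
      · rw [map_mul, map_inv₀]
        have hzi : (Valued.v z)⁻¹ ≤ WithZero.exp ((Az : ℕ) : ℤ) := by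
          have := inv_anti₀ WithZero.exp_pos hAz
          simpa using this
        calc (Valued.v z)⁻¹ * Valued.v (((x⁻¹ * (w * δ₀) * glAut s x *
                glAut s (x⁻¹ * (w * δ₀) * glAut s x) : GL (Fin 2) k) :
                  Matrix (Fin 2) (Fin 2) k) i j)
            ≤ WithZero.exp ((Az : ℕ) : ℤ)
                * (WithZero.exp ((B : ℕ) : ℤ) * WithZero.exp ((B : ℕ) : ℤ)) :=
              mul_le_mul' hzi (hGG i j)
          _ = WithZero.exp (((2 * B + Az : ℕ) : ℕ) : ℤ) := by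
              rw [← WithZero.exp_add, ← WithZero.exp_add]
              congr 1
              push_cast
              ring
      · rw [map_mul, hdet, one_mul]
        refine (val_one_apply_le355 i j).trans ?_
        rw [← WithZero.exp_zero, WithZero.exp_le_exp]
        exact Int.natCast_nonneg _
    rw [← h2, map_mul, htr] at h3
    have h2i : (Valued.v (2 : k))⁻¹ ≤ WithZero.exp ((A2 : ℕ) : ℤ) := by
      have := inv_anti₀ WithZero.exp_pos hA2
      simpa using this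
    calc Valued.v (((x⁻¹ * w * x : GL (Fin 2) k) : Matrix (Fin 2) (Fin 2) k) i j)
        = (Valued.v (2 : k))⁻¹ * (Valued.v (2 : k)
            * Valued.v (((x⁻¹ * w * x : GL (Fin 2) k) : Matrix (Fin 2) (Fin 2) k) i j)) := by
          rw [← mul_assoc, inv_mul_cancel₀ hv2, one_mul]
      _ ≤ WithZero.exp ((A2 : ℕ) : ℤ) * WithZero.exp (((2 * B + Az : ℕ) : ℕ) : ℤ) :=
          mul_le_mul' h2i h3
      _ = WithZero.exp (((2 * B + Az + A2 : ℕ) : ℕ) : ℤ) := by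
          rw [← WithZero.exp_add]
          congr 1
          push_cast
          ring
  -- (d) the entries and the determinant of `g₀ = w_x⁻¹ g`
  have hWxd : Valued.v ((x⁻¹ * w * x : GL (Fin 2) k) : Matrix (Fin 2) (Fin 2) k).det = 1 := by
    rw [det_conj355, hdet]
  have hWxi : ∀ i j, Valued.v ((((x⁻¹ * w * x)⁻¹ : GL (Fin 2) k) :
      Matrix (Fin 2) (Fin 2) k) i j)
      ≤ WithZero.exp (2 * (((2 * B + Az + A2 : ℕ) : ℕ) : ℤ)) := by
    intro i j
    refine val_inv_entry_le162 (x⁻¹ * w * x) (entryMax_le355 _ hWx) ?_ i j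
    rw [hWxd, ← WithZero.exp_zero, WithZero.exp_le_exp]
    have := Int.natCast_nonneg (2 * B + Az + A2)
    omega
  have hg₀ : x⁻¹ * δ₀ * glAut s x
      = (x⁻¹ * w * x)⁻¹ * (x⁻¹ * (w * δ₀) * glAut s x) := by group
  have hE : entryMax (x⁻¹ * δ₀ * glAut s x)
      ≤ WithZero.exp (((2 * (2 * B + Az + A2) + B : ℕ) : ℕ) : ℤ) := by
    refine entryMax_le355 _ (fun i j => ?_)
    rw [hg₀, Units.val_mul]
    have h1 := val_mul_entry_le162 _ _ hWxi hGe i j
    refine h1.trans (le_of_eq ?_)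
    have e : (2 * (((2 * B + Az + A2 : ℕ) : ℕ) : ℤ)) + ((B : ℕ) : ℤ)
        = (((2 * (2 * B + Az + A2) + B : ℕ) : ℕ) : ℤ) := by
      push_cast
      ring
    rw [← WithZero.exp_add, e]
  have hD : WithZero.exp (-((((2 * (2 * B + Az + A2) + B : ℕ) : ℕ) : ℤ)))
      ≤ Valued.v ((x⁻¹ * δ₀ * glAut s x : GL (Fin 2) k) : Matrix (Fin 2) (Fin 2) k).det := by
    have h1 : Valued.v ((x⁻¹ * δ₀ * glAut s x : GL (Fin 2) k) :
        Matrix (Fin 2) (Fin 2) k).det
        = Valued.v ((x⁻¹ * (w * δ₀) * glAut s x : GL (Fin 2) k) :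
          Matrix (Fin 2) (Fin 2) k).det := by
      have h2 : x⁻¹ * (w * δ₀) * glAut s x = (x⁻¹ * w * x) * (x⁻¹ * δ₀ * glAut s x) := by group
      rw [h2, Units.val_mul (x⁻¹ * w * x), Matrix.det_mul, map_mul, hWxd, one_mul]
    rw [h1]
    refine le_trans ?_ hGd
    rw [WithZero.exp_le_exp]
    push_cast
    omega
  exact hF'' _ hE hD

/-- **T6.18i.6g.** -/
theorem shiftBackC355 : ShiftBackC385 := by
  intro k k' _ _ _ _ q e i s hD z hz _ n δ₀ hδ F
  have hs2 : ∀ y : k', s (s y) = y := fun y => hD.ext.cyc.order y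
  exact shiftBack_core355 hD.hk' s hs2 hD.ext.val_s (i z) ((map_ne_zero i).2 hz)
    (hD.ext.cyc.fix_i z) n δ₀ hδ F

end Fermat.Agent.LT.T6.H355

end

end
-- ===== PACK-END LT/T6/H355/ShiftBack.lean

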