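import Mathlib
import Fermat.Agent.Pack.LT3.E12L2
import Fermat.Agent.Pack.LT3.E9L2
import Fermat.Agent.Pack.LT3.E10L1
import Fermat.Agent.Pack.LT3.E0L2
import Fermat.Agent.Pack.LT3.E6L0
import Fermat.Agent.Pack.LT2.E8L0
import Fermat.Agent.Pack.LT3.E4L1
import Fermat.Agent.Pack.LT3.E12L1
import Fermat.Agent.Pack.LT3.E13L2
import Fermat.Agent.Pack.LT3.E14L2

set_option linter.all false

-- ===== PACK-BEGIN LT/T6/H340/BTNbr.lean
section


/-!
# Row LT, tower T6, helper340: the `q + 1` neighbours in the tree of `GL₂(k)` (OFF-MAIN)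

`ϖ` is a uniformiser (`v ϖ = exp (-1)`).  The neighbours of the class of `g` are the classes of
`g * nbF340 ϖ c` (`c` in a system of representatives of the residue field) and `g * nbI340 ϖ`.

* `cdist340_nbF`, `cdist340_nbI` : these elements have Cartan distance `1`;
* `cdist340_diag_mul_nbF_unit`, `cdist340_diag_mul_nbF_small`, `cdist340_diag_mul_nbF_zero`,
  `cdist340_diag_mul_nbI` : the distance of `diag(a, b) * N` from the origin;
* `cdist340_nbF_inv_mul_nbF`, `cdist340_nbI_inv_mul_nbF`, `cdist340_nbF_inv_mul_nbI` :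
  distinct members of the family are at distance `2`;
* `exists_nb340` : every element of Cartan distance `1` lies in `N · k^× · GL₂(𝒪)` for a member
  `N` of the family.
-/

set_option autoImplicit false
set_option linter.unusedSectionVars false

open Matrix

noncomputable section

namespace Fermat.Agent.LT.T6.H340

open Fermat.Agent.LT.T6 Fermat.Agent.LT.H129

variable {k : Type} [Field k] [Valued k Γ₀]

theorem lt_one_iff340 (x : Γ₀) : x < 1 ↔ x ≤ WithZero.exp (-1 : ℤ) := by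
  have h := WithZero.lt_mul_exp_iff_le (x := x) (y := WithZero.exp (-1 : ℤ)) WithZero.exp_ne_zero
  rw [← WithZero.exp_add] at h
  simpa using h

theorem exp_nat_ge_one340 (n : ℕ) : (1 : Γ₀) ≤ WithZero.exp (n : ℤ) := by
  rw [← WithZero.exp_zero, WithZero.exp_le_exp]
  exact Int.natCast_nonneg n

theorem exp_neg_one_le_one340 : (WithZero.exp (-1 : ℤ) : Γ₀) ≤ 1 := by
  rw [← WithZero.exp_zero, WithZero.exp_le_exp]
  norm_num

theorem unif_ne_zero340 {ϖ : k} (hϖ : Valued.v ϖ = WithZero.exp (-1 : ℤ)) : ϖ ≠ 0 := by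
  intro h
  rw [h, map_zero] at hϖ
  exact WithZero.exp_ne_zero hϖ.symm

/-- The finite neighbours `!![ϖ, c; 0, 1]`. -/
def nbF340 (ϖ : k) (h0 : ϖ ≠ 0) (c : k) : GL (Fin 2) k :=
  mkGL129 ϖ c 0 1 (by simpa using h0)

/-- The neighbour at infinity `!![1, 0; 0, ϖ]`. -/
def nbI340 (ϖ : k) (h0 : ϖ ≠ 0) : GL (Fin 2) k :=
  mkGL129 1 0 0 ϖ (by simpa using h0)

section

variable {ϖ : k} (hϖ : Valued.v ϖ = WithZero.exp (-1 : ℤ))

include hϖ

theorem cdist340_nbF {c : k} (hc : Valued.v c ≤ 1) :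
    cdist340 (nbF340 ϖ (unif_ne_zero340 hϖ) c) = 1 := by
  unfold nbF340
  apply cdist340_mkGL (M := 1)
  · rw [hϖ]; exact exp_neg_one_le_one340
  · exact hc
  · simp
  · simp
  · right; right; right; simp
  · simp only [mul_one, mul_zero, sub_zero, hϖ, one_pow, Nat.cast_one]
    rw [← WithZero.exp_add]
    simp

theorem cdist340_nbI : cdist340 (nbI340 ϖ (unif_ne_zero340 hϖ)) = 1 := by
  unfold nbI340
  apply cdist340_mkGL (M := 1)
  · simp
  · simp
  · simp
  · rw [hϖ]; exact exp_neg_one_le_one340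
  · left; simp
  · simp only [one_mul, mul_zero, sub_zero, hϖ, one_pow, Nat.cast_one]
    rw [← WithZero.exp_add]
    simp

/-! ### Distance from the origin of `diag(a, b) * N` -/

theorem diag_mul_nbF340 {a b : k} (ha : a ≠ 0) (hb : b ≠ 0) (c : k) :
    diag129 a b ha hb * nbF340 ϖ (unif_ne_zero340 hϖ) c
      = mkGL129 (a * ϖ) (a * c) 0 b (by
          simpa using mul_ne_zero (mul_ne_zero ha (unif_ne_zero340 hϖ)) hb) := by
  apply ext_mat129
  simp [diag129, nbF340]

theorem diag_mul_nbI340 {a b : k} (ha : a ≠ 0) (hb : b ≠ 0) :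
    diag129 a b ha hb * nbI340 ϖ (unif_ne_zero340 hϖ)
      = mkGL129 a 0 0 (b * ϖ) (by
          simpa using mul_ne_zero ha (mul_ne_zero hb (unif_ne_zero340 hϖ))) := by
  apply ext_mat129
  simp [diag129, nbI340]

theorem cdist340_diag_mul_nbF_unit {a b : k} (ha : a ≠ 0) (hb : b ≠ 0) {n : ℕ}
    (hv : Valued.v a = Valued.v b * WithZero.exp (n : ℤ)) {c : k} (hc : Valued.v c = 1) :
    cdist340 (diag129 a b ha hb * nbF340 ϖ (unif_ne_zero340 hϖ) c) = n + 1 := by
  rw [diag_mul_nbF340 hϖ]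
  have hba : Valued.v b ≤ Valued.v a := by
    rw [hv]
    calc Valued.v b = Valued.v b * 1 := (mul_one _).symm
      _ ≤ _ := mul_le_mul' le_rfl (exp_nat_ge_one340 n)
  apply cdist340_mkGL (M := Valued.v a)
  · rw [map_mul, hϖ]
    calc Valued.v a * WithZero.exp (-1 : ℤ) ≤ Valued.v a * 1 :=
          mul_le_mul' le_rfl exp_neg_one_le_one340
      _ = Valued.v a := mul_one _
  · rw [map_mul, hc, mul_one]
  · simp
  · exact hba
  · right; left; rw [map_mul, hc, mul_one]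
  · simp only [mul_zero, sub_zero, map_mul, hϖ, Nat.cast_add, Nat.cast_one, WithZero.exp_add, sq]
    nth_rewrite 2 [hv]
    have e : (WithZero.exp (-1 : ℤ) : Γ₀) * WithZero.exp (1 : ℤ) = 1 := by
      rw [← WithZero.exp_add]; simp
    calc Valued.v a * (Valued.v b * WithZero.exp (n : ℤ))
        = Valued.v a * Valued.v b * WithZero.exp (n : ℤ)
            * (WithZero.exp (-1 : ℤ) * WithZero.exp (1 : ℤ)) := by
          rw [e, mul_one, mul_assoc]
      _ = _ := by simp only [mul_assoc, mul_comm, mul_left_comm]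

theorem cdist340_diag_mul_nbI {a b : k} (ha : a ≠ 0) (hb : b ≠ 0) {n : ℕ}
    (hv : Valued.v a = Valued.v b * WithZero.exp (n : ℤ)) :
    cdist340 (diag129 a b ha hb * nbI340 ϖ (unif_ne_zero340 hϖ)) = n + 1 := by
  rw [diag_mul_nbI340 hϖ]
  have hba : Valued.v b ≤ Valued.v a := by
    rw [hv]
    calc Valued.v b = Valued.v b * 1 := (mul_one _).symm
      _ ≤ _ := mul_le_mul' le_rfl (exp_nat_ge_one340 n)
  apply cdist340_mkGL (M := Valued.v a)
  · exact le_rfl
  · simp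
  · simp
  · rw [map_mul, hϖ]
    calc Valued.v b * WithZero.exp (-1 : ℤ) ≤ Valued.v b * 1 :=
          mul_le_mul' le_rfl exp_neg_one_le_one340
      _ = Valued.v b := mul_one _
      _ ≤ Valued.v a := hba
  · left; rfl
  · simp only [mul_zero, sub_zero, map_mul, hϖ, Nat.cast_add, Nat.cast_one, WithZero.exp_add, sq]
    nth_rewrite 2 [hv]
    have e : (WithZero.exp (-1 : ℤ) : Γ₀) * WithZero.exp (1 : ℤ) = 1 := by
      rw [← WithZero.exp_add]; simp
    calc Valued.v a * (Valued.v b * WithZero.exp (n : ℤ))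
        = Valued.v a * Valued.v b * WithZero.exp (n : ℤ)
            * (WithZero.exp (-1 : ℤ) * WithZero.exp (1 : ℤ)) := by
          rw [e, mul_one, mul_assoc]
      _ = _ := by simp only [mul_assoc, mul_comm, mul_left_comm]

theorem cdist340_diag_mul_nbF_zero {a b : k} (ha : a ≠ 0) (hb : b ≠ 0)
    (hv : Valued.v a = Valued.v b) {c : k} (hc : Valued.v c ≤ 1) :
    cdist340 (diag129 a b ha hb * nbF340 ϖ (unif_ne_zero340 hϖ) c) = 1 := by
  rw [diag_mul_nbF340 hϖ]
  apply cdist340_mkGL (M := Valued.v b)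
  · rw [map_mul, hϖ, hv]
    calc Valued.v b * WithZero.exp (-1 : ℤ) ≤ Valued.v b * 1 :=
          mul_le_mul' le_rfl exp_neg_one_le_one340
      _ = Valued.v b := mul_one _
  · rw [map_mul, hv]
    calc Valued.v b * Valued.v c ≤ Valued.v b * 1 := mul_le_mul' le_rfl hc
      _ = Valued.v b := mul_one _
  · simp
  · exact le_rfl
  · right; right; right; rfl
  · simp only [mul_zero, sub_zero, map_mul, hϖ, Nat.cast_one, sq, hv]
    have e : (WithZero.exp (-1 : ℤ) : Γ₀) * WithZero.exp (1 : ℤ) = 1 := by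
      rw [← WithZero.exp_add]; simp
    calc Valued.v b * Valued.v b
        = Valued.v b * Valued.v b * (WithZero.exp (-1 : ℤ) * WithZero.exp (1 : ℤ)) := by
          rw [e, mul_one]
      _ = _ := by simp only [mul_assoc, mul_comm, mul_left_comm]

theorem cdist340_diag_mul_nbF_small {a b : k} (ha : a ≠ 0) (hb : b ≠ 0) {m : ℕ}
    (hv : Valued.v a = Valued.v b * WithZero.exp ((m + 1 : ℕ) : ℤ)) {c : k}
    (hc : Valued.v c < 1) :
    cdist340 (diag129 a b ha hb * nbF340 ϖ (unif_ne_zero340 hϖ) c) = m := by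
  rw [diag_mul_nbF340 hϖ]
  have hc' : Valued.v c ≤ WithZero.exp (-1 : ℤ) := (lt_one_iff340 _).mp hc
  have e : (WithZero.exp (-1 : ℤ) : Γ₀) * WithZero.exp (1 : ℤ) = 1 := by
    rw [← WithZero.exp_add]; simp
  have hb' : Valued.v b = Valued.v a * WithZero.exp (-1 : ℤ) * WithZero.exp (-(m : ℤ)) := by
    rw [hv]
    have : (WithZero.exp ((m + 1 : ℕ) : ℤ) : Γ₀) * WithZero.exp (-1 : ℤ)
        * WithZero.exp (-(m : ℤ)) = 1 := by
      rw [← WithZero.exp_add, ← WithZero.exp_add]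
      simp
    rw [mul_assoc, mul_assoc, ← mul_assoc (WithZero.exp _), this, mul_one]
  apply cdist340_mkGL (M := Valued.v a * WithZero.exp (-1 : ℤ))
  · rw [map_mul, hϖ]
  · rw [map_mul]
    exact mul_le_mul' le_rfl hc'
  · simp
  · rw [hb']
    calc Valued.v a * WithZero.exp (-1 : ℤ) * WithZero.exp (-(m : ℤ))
        ≤ Valued.v a * WithZero.exp (-1 : ℤ) * 1 := by
          apply mul_le_mul' le_rfl
          rw [← WithZero.exp_zero, WithZero.exp_le_exp]
          omega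
      _ = _ := mul_one _
  · left; rw [map_mul, hϖ]
  · simp only [mul_zero, sub_zero, map_mul, hϖ, sq]
    rw [hb']
    have e2 : (WithZero.exp (-(m : ℤ)) : Γ₀) * WithZero.exp (m : ℤ) = 1 := by
      rw [← WithZero.exp_add]; simp
    calc Valued.v a * WithZero.exp (-1 : ℤ) * (Valued.v a * WithZero.exp (-1 : ℤ))
        = Valued.v a * WithZero.exp (-1 : ℤ) * (Valued.v a * WithZero.exp (-1 : ℤ))
            * (WithZero.exp (-(m : ℤ)) * WithZero.exp (m : ℤ)) := by rw [e2, mul_one]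
      _ = _ := by simp only [mul_assoc, mul_comm, mul_left_comm]

/-! ### Distinct members of the family are at distance `2` -/

theorem nbF340_eq_mul_upper (c c' : k) :
    nbF340 ϖ (unif_ne_zero340 hϖ) c'
      = nbF340 ϖ (unif_ne_zero340 hϖ) c * upperU129 ((c' - c) / ϖ) := by
  have h0 := unif_ne_zero340 hϖ
  apply ext_mat129
  simp only [nbF340, upperU129, Matrix.GeneralLinearGroup.coe_mul, coe_mkGL129]
  ext i j
  fin_cases i <;> fin_cases j <;> simp [Matrix.mul_apply, Fin.sum_univ_two]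
  field_simp
  ring

theorem cdist340_nbF_inv_mul_nbF {c c' : k} (hcc : Valued.v (c' - c) = 1) :
    cdist340 ((nbF340 ϖ (unif_ne_zero340 hϖ) c)⁻¹ * nbF340 ϖ (unif_ne_zero340 hϖ) c') = 2 := by
  rw [nbF340_eq_mul_upper hϖ c c', inv_mul_cancel_left]
  have hx : Valued.v ((c' - c) / ϖ) = WithZero.exp (1 : ℤ) := by
    rw [map_div₀, hcc, hϖ, one_div, ← WithZero.exp_neg]; simp
  unfold upperU129
  apply cdist340_mkGL (M := WithZero.exp (1 : ℤ))
  · simp only [map_one]
    rw [← WithZero.exp_zero, WithZero.exp_le_exp]; norm_num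
  · rw [hx]
  · simp
  · simp only [map_one]
    rw [← WithZero.exp_zero, WithZero.exp_le_exp]; norm_num
  · right; left; exact hx
  · simp only [mul_one, mul_zero, sub_zero, map_one, one_mul, sq, Nat.cast_ofNat]
    rw [← WithZero.exp_add]; norm_num

theorem nbF340_eq_nbI_mul (c : k) :
    nbF340 ϖ (unif_ne_zero340 hϖ) c
      = nbI340 ϖ (unif_ne_zero340 hϖ)
        * mkGL129 ϖ c 0 ϖ⁻¹ (by simp [unif_ne_zero340 hϖ]) := by
  have h0 := unif_ne_zero340 hϖ
  apply ext_mat129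
  simp only [nbF340, nbI340, Matrix.GeneralLinearGroup.coe_mul, coe_mkGL129]
  ext i j
  fin_cases i <;> fin_cases j <;> simp [Matrix.mul_apply, Fin.sum_univ_two, h0]

theorem cdist340_nbI_inv_mul_nbF {c : k} (hc : Valued.v c ≤ 1) :
    cdist340 ((nbI340 ϖ (unif_ne_zero340 hϖ))⁻¹ * nbF340 ϖ (unif_ne_zero340 hϖ) c) = 2 := by
  rw [nbF340_eq_nbI_mul hϖ c, inv_mul_cancel_left]
  have h1 : (1 : Γ₀) ≤ WithZero.exp (1 : ℤ) := by
    rw [← WithZero.exp_zero, WithZero.exp_le_exp]; norm_num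
  have hx : Valued.v (ϖ⁻¹) = WithZero.exp (1 : ℤ) := by
    rw [map_inv₀, hϖ, ← WithZero.exp_neg]; simp
  apply cdist340_mkGL (M := WithZero.exp (1 : ℤ))
  · rw [hϖ]; exact le_trans exp_neg_one_le_one340 h1
  · exact le_trans hc h1
  · simp
  · rw [hx]
  · right; right; right; exact hx
  · have h0 := unif_ne_zero340 hϖ
    simp only [mul_zero, sub_zero, mul_inv_cancel₀ h0, map_one, one_mul, sq, Nat.cast_ofNat]
    rw [← WithZero.exp_add]; norm_num

theorem cdist340_nbF_inv_mul_nbI {c : k} (hc : Valued.v c ≤ 1) :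
    cdist340 ((nbF340 ϖ (unif_ne_zero340 hϖ) c)⁻¹ * nbI340 ϖ (unif_ne_zero340 hϖ)) = 2 := by
  have e : (nbF340 ϖ (unif_ne_zero340 hϖ) c)⁻¹ * nbI340 ϖ (unif_ne_zero340 hϖ)
      = ((nbI340 ϖ (unif_ne_zero340 hϖ))⁻¹ * nbF340 ϖ (unif_ne_zero340 hϖ) c)⁻¹ := by group
  rw [e, cdist340_inv, cdist340_nbI_inv_mul_nbF hϖ hc]


/-! ### Completeness of the family -/

omit hϖ in
/-- An integral matrix with unit determinant lies in `U(0) = GL₂(𝒪)`. -/
theorem inU_zero_of_int340 {g : GL (Fin 2) k}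
    (hint : ∀ i j, Valued.v ((g : Matrix (Fin 2) (Fin 2) k) i j) ≤ 1)
    (hdet : Valued.v (g : Matrix (Fin 2) (Fin 2) k).det = 1) : InU 0 g := by
  rw [inU_zero_iff129]
  refine ⟨hint, isInt129_inv_of_det hint ?_⟩
  rw [mem_vO129, map_inv₀, hdet, inv_one]

theorem nbF340_inv (c : k) :
    (nbF340 ϖ (unif_ne_zero340 hϖ) c)⁻¹
      = mkGL129 ϖ⁻¹ (-(c / ϖ)) 0 1 (by simp [unif_ne_zero340 hϖ]) := by
  have h0 := unif_ne_zero340 hϖ
  rw [inv_eq_iff_mul_eq_one]
  apply ext_mat129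
  simp only [nbF340, Matrix.GeneralLinearGroup.coe_mul, coe_mkGL129]
  ext i j
  fin_cases i <;> fin_cases j <;> simp [Matrix.mul_apply, Fin.sum_univ_two, h0]
  field_simp
  ring

theorem nbI340_inv :
    (nbI340 ϖ (unif_ne_zero340 hϖ))⁻¹
      = mkGL129 1 0 0 ϖ⁻¹ (by simp [unif_ne_zero340 hϖ]) := by
  have h0 := unif_ne_zero340 hϖ
  rw [inv_eq_iff_mul_eq_one]
  apply ext_mat129
  simp only [nbI340, Matrix.GeneralLinearGroup.coe_mul, coe_mkGL129]
  ext i j
  fin_cases i <;> fin_cases j <;> simp [Matrix.mul_apply, Fin.sum_univ_two, h0]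

theorem vdet_nbF340 (c : k) :
    Valued.v ((nbF340 ϖ (unif_ne_zero340 hϖ) c : GL (Fin 2) k) :
      Matrix (Fin 2) (Fin 2) k).det = WithZero.exp (-1 : ℤ) := by
  unfold nbF340
  rw [det_mkGL340]
  simp [hϖ]

theorem vdet_nbI340 :
    Valued.v ((nbI340 ϖ (unif_ne_zero340 hϖ) : GL (Fin 2) k) :
      Matrix (Fin 2) (Fin 2) k).det = WithZero.exp (-1 : ℤ) := by
  unfold nbI340
  rw [det_mkGL340]
  simp [hϖ]

omit hϖ in
theorem vdet_inv_mul340 (N X : GL (Fin 2) k) :
    Valued.v ((N⁻¹ * X : GL (Fin 2) k) : Matrix (Fin 2) (Fin 2) k).det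
      = (Valued.v (N : Matrix (Fin 2) (Fin 2) k).det)⁻¹
        * Valued.v (X : Matrix (Fin 2) (Fin 2) k).det := by
  rw [Matrix.GeneralLinearGroup.coe_mul, Matrix.det_mul, map_mul, Matrix.coe_units_inv,
    Matrix.det_nonsing_inv, Ring.inverse_eq_inv', map_inv₀]

/-- The core of completeness: for `u ∈ GL₂(𝒪)` and `v β = exp (-1)` the element
`u * diag(1, β)` lies in `N · GL₂(𝒪)` for a member `N` of the family. -/
theorem exists_nb_core340 (T : Finset k)
    (hT : ∀ z : k, Valued.v z ≤ 1 → ∃ x ∈ T, Valued.v (z - x) < 1)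
    {u : GL (Fin 2) k} (hu : InU 0 u) {β : k} (hβ0 : β ≠ 0)
    (hβ : Valued.v β = WithZero.exp (-1 : ℤ)) :
    (∃ c ∈ T, InU 0 ((nbF340 ϖ (unif_ne_zero340 hϖ) c)⁻¹
        * (u * diag129 1 β one_ne_zero hβ0)))
      ∨ InU 0 ((nbI340 ϖ (unif_ne_zero340 hϖ))⁻¹ * (u * diag129 1 β one_ne_zero hβ0)) := by
  have h0 := unif_ne_zero340 hϖ
  have hum := (inU_zero_iff129 u).mp hu
  have hint : ∀ i j, Valued.v ((u : Matrix (Fin 2) (Fin 2) k) i j) ≤ 1 := hum.1
  have hdu : Valued.v (u : Matrix (Fin 2) (Fin 2) k).det = 1 := valued_det_of_isMaxCpt129 hum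
  have e1 : (WithZero.exp (-1 : ℤ) : Γ₀)⁻¹ * WithZero.exp (-1 : ℤ) = 1 :=
    inv_mul_cancel₀ WithZero.exp_ne_zero
  have hX0 : ∀ i, ((u * diag129 1 β one_ne_zero hβ0 : GL (Fin 2) k) :
      Matrix (Fin 2) (Fin 2) k) i 0 = (u : Matrix (Fin 2) (Fin 2) k) i 0 := by
    intro i
    simp [diag129, Matrix.mul_apply, Fin.sum_univ_two]
  have hX1 : ∀ i, ((u * diag129 1 β one_ne_zero hβ0 : GL (Fin 2) k) :
      Matrix (Fin 2) (Fin 2) k) i 1 = (u : Matrix (Fin 2) (Fin 2) k) i 1 * β := by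
    intro i
    simp [diag129, Matrix.mul_apply, Fin.sum_univ_two]
  have hdX : Valued.v ((u * diag129 1 β one_ne_zero hβ0 : GL (Fin 2) k) :
      Matrix (Fin 2) (Fin 2) k).det = WithZero.exp (-1 : ℤ) := by
    rw [Matrix.GeneralLinearGroup.coe_mul, Matrix.det_mul, map_mul, hdu, one_mul]
    have : ((diag129 1 β one_ne_zero hβ0 : GL (Fin 2) k) : Matrix (Fin 2) (Fin 2) k).det
        = β := by
      simp [diag129, Matrix.det_fin_two_of]
    rw [this, hβ]
  set X : GL (Fin 2) k := u * diag129 1 β one_ne_zero hβ0 with hX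
  have hβ1 : Valued.v β ≤ 1 := by rw [hβ]; exact exp_neg_one_le_one340
  have hvϖinv : Valued.v (ϖ⁻¹) = WithZero.exp (1 : ℤ) := by
    rw [map_inv₀, hϖ, ← WithZero.exp_neg]; simp
  have e2 : (WithZero.exp (1 : ℤ) : Γ₀) * WithZero.exp (-1 : ℤ) = 1 := by
    rw [← WithZero.exp_add]; simp
  rcases eq_or_lt_of_le (hint 1 0) with hr | hr
  · -- `r` is a unit
    have hr0 : (u : Matrix (Fin 2) (Fin 2) k) 1 0 ≠ 0 := by
      intro h
      rw [h, map_zero] at hr
      exact zero_ne_one hr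
    have hpr : Valued.v ((u : Matrix (Fin 2) (Fin 2) k) 0 0
        / (u : Matrix (Fin 2) (Fin 2) k) 1 0) ≤ 1 := by
      rw [map_div₀, hr, div_one]
      exact hint 0 0
    obtain ⟨c, hcT, hc⟩ := hT _ hpr
    have hc1 : Valued.v c ≤ 1 := by
      have : c = (u : Matrix (Fin 2) (Fin 2) k) 0 0 / (u : Matrix (Fin 2) (Fin 2) k) 1 0
          - ((u : Matrix (Fin 2) (Fin 2) k) 0 0 / (u : Matrix (Fin 2) (Fin 2) k) 1 0 - c) := by
        ring
      rw [this]
      exact le_trans (Valuation.map_sub _ _ _) (max_le hpr hc.le)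
    have hpc : Valued.v ((u : Matrix (Fin 2) (Fin 2) k) 0 0
        - c * (u : Matrix (Fin 2) (Fin 2) k) 1 0) ≤ WithZero.exp (-1 : ℤ) := by
      have : (u : Matrix (Fin 2) (Fin 2) k) 0 0 - c * (u : Matrix (Fin 2) (Fin 2) k) 1 0
          = (u : Matrix (Fin 2) (Fin 2) k) 1 0
            * ((u : Matrix (Fin 2) (Fin 2) k) 0 0 / (u : Matrix (Fin 2) (Fin 2) k) 1 0 - c) := by
        field_simp
      rw [this, map_mul, hr, one_mul]
      exact (lt_one_iff340 _).mp hc
    left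
    refine ⟨c, hcT, ?_⟩
    apply inU_zero_of_int340
    · intro i j
      rw [nbF340_inv hϖ, Matrix.GeneralLinearGroup.coe_mul, coe_mkGL129, Matrix.mul_apply,
        Fin.sum_univ_two]
      fin_cases i <;> fin_cases j
      · simp only [Fin.zero_eta, Fin.isValue, Matrix.of_apply, Matrix.cons_val', Matrix.cons_val_zero,
          Matrix.cons_val_fin_one, Matrix.cons_val_one, hX0]
        have : ϖ⁻¹ * (u : Matrix (Fin 2) (Fin 2) k) 0 0
            + -(c / ϖ) * (u : Matrix (Fin 2) (Fin 2) k) 1 0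
            = ϖ⁻¹ * ((u : Matrix (Fin 2) (Fin 2) k) 0 0
              - c * (u : Matrix (Fin 2) (Fin 2) k) 1 0) := by
          field_simp
          ring
        rw [this, map_mul, hvϖinv]
        calc WithZero.exp (1 : ℤ) * _ ≤ WithZero.exp (1 : ℤ) * WithZero.exp (-1 : ℤ) :=
              mul_le_mul' le_rfl hpc
          _ = 1 := e2
      · simp only [Fin.zero_eta, Fin.isValue, Fin.mk_one, Matrix.of_apply, Matrix.cons_val',
          Matrix.cons_val_zero, Matrix.cons_val_fin_one, Matrix.cons_val_one, hX1]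
        have : ϖ⁻¹ * ((u : Matrix (Fin 2) (Fin 2) k) 0 1 * β)
            + -(c / ϖ) * ((u : Matrix (Fin 2) (Fin 2) k) 1 1 * β)
            = (ϖ⁻¹ * β) * ((u : Matrix (Fin 2) (Fin 2) k) 0 1
              - c * (u : Matrix (Fin 2) (Fin 2) k) 1 1) := by
          field_simp
          ring
        rw [this, map_mul, map_mul, hvϖinv, hβ, e2, one_mul]
        refine le_trans (Valuation.map_sub _ _ _) (max_le (hint 0 1) ?_)
        rw [map_mul]
        calc Valued.v c * Valued.v ((u : Matrix (Fin 2) (Fin 2) k) 1 1) ≤ 1 * 1 :=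
              mul_le_mul' hc1 (hint 1 1)
          _ = 1 := one_mul _
      · simp only [Fin.mk_one, Fin.isValue, Fin.zero_eta, Matrix.of_apply, Matrix.cons_val',
          Matrix.cons_val_zero, Matrix.cons_val_fin_one, Matrix.cons_val_one, hX0, zero_mul,
          one_mul, zero_add]
        exact hint 1 0
      · simp only [Fin.mk_one, Fin.isValue, Matrix.of_apply, Matrix.cons_val',
          Matrix.cons_val_zero, Matrix.cons_val_fin_one, Matrix.cons_val_one, hX1, zero_mul,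
          one_mul, zero_add]
        rw [map_mul]
        calc _ ≤ (1 : Γ₀) * 1 := mul_le_mul' (hint 1 1) hβ1
          _ = 1 := one_mul _
    · rw [vdet_inv_mul340, vdet_nbF340 hϖ, hdX, e1]
  · -- `r` is not a unit
    have hr' : Valued.v ((u : Matrix (Fin 2) (Fin 2) k) 1 0) ≤ WithZero.exp (-1 : ℤ) :=
      (lt_one_iff340 _).mp hr
    right
    apply inU_zero_of_int340
    · intro i j
      rw [nbI340_inv hϖ, Matrix.GeneralLinearGroup.coe_mul, coe_mkGL129, Matrix.mul_apply,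
        Fin.sum_univ_two]
      fin_cases i <;> fin_cases j
      · simp only [Fin.zero_eta, Fin.isValue, Matrix.of_apply, Matrix.cons_val', Matrix.cons_val_zero,
          Matrix.cons_val_fin_one, Matrix.cons_val_one, hX0, one_mul, zero_mul, add_zero]
        exact hint 0 0
      · simp only [Fin.zero_eta, Fin.isValue, Fin.mk_one, Matrix.of_apply, Matrix.cons_val',
          Matrix.cons_val_zero, Matrix.cons_val_fin_one, Matrix.cons_val_one, hX1, one_mul,
          zero_mul, add_zero]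
        rw [map_mul]
        calc _ ≤ (1 : Γ₀) * 1 := mul_le_mul' (hint 0 1) hβ1
          _ = 1 := one_mul _
      · simp only [Fin.mk_one, Fin.isValue, Fin.zero_eta, Matrix.of_apply, Matrix.cons_val',
          Matrix.cons_val_zero, Matrix.cons_val_fin_one, Matrix.cons_val_one, hX0, zero_mul,
          zero_add]
        rw [map_mul, hvϖinv]
        calc WithZero.exp (1 : ℤ) * _ ≤ WithZero.exp (1 : ℤ) * WithZero.exp (-1 : ℤ) :=
              mul_le_mul' le_rfl hr'
          _ = 1 := e2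
      · simp only [Fin.mk_one, Fin.isValue, Matrix.of_apply, Matrix.cons_val',
          Matrix.cons_val_zero, Matrix.cons_val_fin_one, Matrix.cons_val_one, hX1, zero_mul,
          zero_add]
        rw [map_mul, map_mul, hvϖinv, hβ, mul_comm (Valued.v _), ← mul_assoc, e2, one_mul]
        exact hint 1 1
    · rw [vdet_inv_mul340, vdet_nbI340 hϖ, hdX, e1]

/-- **Completeness.**  Every element of Cartan distance `1` lies in `N · k^× · GL₂(𝒪)` for a
member `N` of the family. -/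
theorem exists_nb340 (T : Finset k)
    (hT : ∀ z : k, Valued.v z ≤ 1 → ∃ x ∈ T, Valued.v (z - x) < 1)
    {y : GL (Fin 2) k} (hy : cdist340 y = 1) :
    (∃ c ∈ T, cdist340 ((nbF340 ϖ (unif_ne_zero340 hϖ) c)⁻¹ * y) = 0)
      ∨ cdist340 ((nbI340 ϖ (unif_ne_zero340 hϖ))⁻¹ * y) = 0 := by
  obtain ⟨u, u', a, b, ha, hb, hu, hu', hg, hv⟩ := exists_decomp340 y
  rw [hy] at hv
  have hva : Valued.v a ≠ 0 := by rwa [ne_eq, map_eq_zero]
  have hβ0 : b / a ≠ 0 := div_ne_zero hb ha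
  have hβ : Valued.v (b / a) = WithZero.exp (-1 : ℤ) := by
    have hvb : Valued.v b ≠ 0 := by rwa [ne_eq, map_eq_zero]
    rw [map_div₀, hv, Nat.cast_one, div_eq_mul_inv, mul_inv, ← mul_assoc, mul_inv_cancel₀ hvb,
      one_mul, ← WithZero.exp_neg]
  have hdd : diag129 a b ha hb = scal340 a ha * diag129 1 (b / a) one_ne_zero hβ0 := by
    unfold scal340
    rw [diag129_mul]
    exact diag129_congr _ _ _ _ (by ring) (by field_simp)
  have key : ∀ N : GL (Fin 2) k,
      InU 0 (N⁻¹ * (u * diag129 1 (b / a) one_ne_zero hβ0)) → cdist340 (N⁻¹ * y) = 0 := by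
    intro N hN
    have e : N⁻¹ * y
        = scal340 a ha * (N⁻¹ * (u * diag129 1 (b / a) one_ne_zero hβ0)) * u' := by
      rw [hg, hdd]
      simp only [← mul_assoc]
      rw [scal340_comm a ha N⁻¹, mul_assoc N⁻¹ (scal340 a ha) u, scal340_comm a ha u]
      simp only [← mul_assoc]
    rw [e, cdist340_mul_right _ hu', cdist340_scal_mul, cdist340_of_inU hN]
  rcases exists_nb_core340 hϖ T hT hu hβ0 hβ with ⟨c, hcT, hc⟩ | h
  · exact Or.inl ⟨c, hcT, key _ hc⟩
  · exact Or.inr (key _ h)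

end

end Fermat.Agent.LT.T6.H340

end

end
-- ===== PACK-END LT/T6/H340/BTNbr.lean

-- ===== PACK-BEGIN LT/T6/H626/Running626.lean
section




/-!
# Row LT, tower T6, station T6.20 (`ArchMatchC`): RUNNING TOP (helper626, sub-architect)

OFF-MAIN.  ONE closure of byte-identical copies:

| part | file | owner |
|---|---|---|
| cut level 1+2 | `T6/H626/ArchCut.lean` (fac998d4) | helper626 |
| T6.20a route H | `T6/H626/AbelCut.lean` (6a4d529b), `FamAlg.lean` (9c407f7e) | helper626 |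
| T6.20d/e explicit constant | `T6/H634/EllCut.lean` | helper634 |
| T6.20c = T6.29 | `T6/H830/HCClosed.lean` + leaves | helper830 |

`archMatchC_running626` : `ArchMatchC` from the Props still OPEN.
-/

set_option autoImplicit false

noncomputable section

namespace Fermat.Agent.LT.T6.H626

open Fermat.Agent.LT.T6

/-- T6.20a from the ten leaves of route H (`CartanCC`, `WIntCC` are closed). -/
theorem abelExist_running626
    (hFam : FamSmoothC626) (hPar : ParamIntC626)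
    (hS0 : F0SmoothOfC626) (hS1 : F1SmoothOfC626)
    (hT0 : F0SoftOfC626) (hT1 : F1SoftOfC626)
    (hR0 : RadInt0C626) (hR1 : RadInt1C626)
    (hA0 : F0AbelOfC626) (hA1 : F1AbelOfC626) : AbelExistC626 :=
  abelExist_of_routeH626 H283.cartanCC283 (H841.wIntOf841 H283.cartanCC283)
    hFam hPar hS0 hS1 hT0 hT1 hR0 hR1 hA0 hA1

/-- **RUNNING TOP of the station T6.20**: `ArchMatchC` from the Props still open. -/
theorem archMatchC_running626
    (hFam : FamSmoothC626) (hPar : ParamIntC626)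
    (hS0 : F0SmoothOfC626) (hS1 : F1SmoothOfC626)
    (hT0 : F0SoftOfC626) (hT1 : F1SoftOfC626)
    (hR0 : RadInt0C626) (hR1 : RadInt1C626)
    (hA0 : F0AbelOfC626) (hA1 : F1AbelOfC626)
    (hH : H634.HypExplC634) (hE : H634.EllValueC634)
    (hIR : H830.IwasawaIntRC) (hIC : H830.IwasawaIntCC) (hAt : H830.SphAvgAtC)
    (hInt : H830.EisIntRC) : ArchMatchC :=
  H634.archMatchC_of_expl634
    (abelExist_running626 hFam hPar hS0 hS1 hT0 hT1 hR0 hR1 hA0 hA1) hH hE
    (H830.specRelC626_of_open830 hIR hIC hAt hInt)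

end Fermat.Agent.LT.T6.H626

end

end
-- ===== PACK-END LT/T6/H626/Running626.lean

-- ===== PACK-BEGIN LT/T6/H634/BoxPos.lean
section




/-!
# Row LT, tower T6, leaf T6.20e.2b `BoxPosC634` (registry 1730): PROVED from `H189.ArchIntOut`
(helper634)

OFF-MAIN.  `0 < (μ boxR634).toReal` for every Haar measure `μ` of `GL₂(ℝ)`:

* `μ boxR634 < ∞`: `boxR634` lies in the compact set `iwaR '' ([0,1]³ × [0, 2π])`;
* `0 < μ boxR634`: by the Iwasawa formula `μ|_{det>0} = c • (iwaR)_* (du₁ du₂ dx dθ)`, `c ≠ 0`,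
  `μ boxR634 ≥ c · vol ([0,1]³ × (0, 2π]) = 2π c`.
-/

set_option autoImplicit false

open scoped Matrix ENNReal
open MeasureTheory

noncomputable section

namespace Fermat.Agent.LT.T6.H634

open Fermat.Agent.LT.T6 Fermat.Agent.LT.T6.H189

/-! ## Continuity of the Iwasawa map -/

theorem continuous_mat634 {X : Type*} [TopologicalSpace X] {a b c d : X → ℝ}
    (ha : Continuous a) (hb : Continuous b) (hc : Continuous c) (hd : Continuous d) :
    Continuous fun x => (!![a x, b x; c x, d x] : Matrix (Fin 2) (Fin 2) ℝ) := by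
  apply continuous_matrix
  intro i j
  fin_cases i <;> fin_cases j
  · exact ha
  · exact hb
  · exact hc
  · exact hd

theorem dgR_val634 (u₁ u₂ : ℝ) :
    ((dgR u₁ u₂ : GL (Fin 2) ℝ) : Matrix (Fin 2) (Fin 2) ℝ)
      = !![Real.exp u₁, 0; 0, Real.exp u₂] := rfl

theorem unR_val634 (x : ℝ) :
    ((unR x : GL (Fin 2) ℝ) : Matrix (Fin 2) (Fin 2) ℝ) = !![1, x; 0, 1] := rfl

theorem rotR_val634 (θ : ℝ) :
    ((rotR θ : GL (Fin 2) ℝ) : Matrix (Fin 2) (Fin 2) ℝ)
      = !![Real.cos θ, -Real.sin θ; Real.sin θ, Real.cos θ] := rfl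

theorem dgR_inv634 (u₁ u₂ : ℝ) : (dgR u₁ u₂)⁻¹ = dgR (-u₁) (-u₂) := by
  apply inv_eq_of_mul_eq_one_right
  apply Units.ext
  rw [Matrix.GeneralLinearGroup.coe_mul, dgR_val634, dgR_val634]
  ext i j
  fin_cases i <;> fin_cases j <;>
    simp [Matrix.mul_apply, Fin.sum_univ_two, ← Real.exp_add]

theorem unR_inv634 (x : ℝ) : (unR x)⁻¹ = unR (-x) := by
  apply inv_eq_of_mul_eq_one_right
  apply Units.ext
  rw [Matrix.GeneralLinearGroup.coe_mul, unR_val634, unR_val634]
  ext i j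
  fin_cases i <;> fin_cases j <;> simp [Matrix.mul_apply, Fin.sum_univ_two]

theorem rotR_inv634 (θ : ℝ) : (rotR θ)⁻¹ = rotR (-θ) := by
  apply inv_eq_of_mul_eq_one_right
  apply Units.ext
  rw [Matrix.GeneralLinearGroup.coe_mul, rotR_val634, rotR_val634]
  have h := Real.cos_sq_add_sin_sq θ
  ext i j
  fin_cases i <;> fin_cases j <;>
    simp [Matrix.mul_apply, Fin.sum_univ_two] <;> nlinarith [h]

theorem continuous_dgR634 : Continuous fun p : ℝ × ℝ => dgR p.1 p.2 := by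
  rw [Units.continuous_iff]
  constructor
  · show Continuous fun p : ℝ × ℝ =>
      (!![Real.exp p.1, 0; 0, Real.exp p.2] : Matrix (Fin 2) (Fin 2) ℝ)
    exact continuous_mat634 (Real.continuous_exp.comp continuous_fst) continuous_const
      continuous_const (Real.continuous_exp.comp continuous_snd)
  · have e : (fun p : ℝ × ℝ => (((dgR p.1 p.2)⁻¹ : GL (Fin 2) ℝ) : Matrix (Fin 2) (Fin 2) ℝ))
        = fun p : ℝ × ℝ =>
          (!![Real.exp (-p.1), 0; 0, Real.exp (-p.2)] : Matrix (Fin 2) (Fin 2) ℝ) := by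
      funext p
      rw [dgR_inv634, dgR_val634]
    rw [e]
    exact continuous_mat634 (Real.continuous_exp.comp continuous_fst.neg) continuous_const
      continuous_const (Real.continuous_exp.comp continuous_snd.neg)

theorem continuous_unR634 : Continuous unR := by
  rw [Units.continuous_iff]
  constructor
  · show Continuous fun x : ℝ => (!![1, x; 0, 1] : Matrix (Fin 2) (Fin 2) ℝ)
    exact continuous_mat634 continuous_const continuous_id continuous_const continuous_const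
  · have e : (fun x : ℝ => (((unR x)⁻¹ : GL (Fin 2) ℝ) : Matrix (Fin 2) (Fin 2) ℝ))
        = fun x : ℝ => (!![1, -x; 0, 1] : Matrix (Fin 2) (Fin 2) ℝ) := by
      funext x
      rw [unR_inv634, unR_val634]
    rw [e]
    exact continuous_mat634 continuous_const continuous_neg continuous_const continuous_const

theorem continuous_rotR634 : Continuous rotR := by
  rw [Units.continuous_iff]
  constructor
  · show Continuous fun θ : ℝ =>
      (!![Real.cos θ, -Real.sin θ; Real.sin θ, Real.cos θ] : Matrix (Fin 2) (Fin 2) ℝ)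
    exact continuous_mat634 Real.continuous_cos Real.continuous_sin.neg Real.continuous_sin
      Real.continuous_cos
  · have e : (fun θ : ℝ => (((rotR θ)⁻¹ : GL (Fin 2) ℝ) : Matrix (Fin 2) (Fin 2) ℝ))
        = fun θ : ℝ =>
          (!![Real.cos (-θ), -Real.sin (-θ); Real.sin (-θ), Real.cos (-θ)] :
            Matrix (Fin 2) (Fin 2) ℝ) := by
      funext θ
      rw [rotR_inv634, rotR_val634]
    rw [e]
    exact continuous_mat634 (Real.continuous_cos.comp continuous_neg)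
      (Real.continuous_sin.comp continuous_neg).neg (Real.continuous_sin.comp continuous_neg)
      (Real.continuous_cos.comp continuous_neg)

theorem continuous_iwaR634 : Continuous iwaR := by
  unfold iwaR
  have h1 : Continuous fun p : ℝ × ℝ × ℝ × ℝ => dgR p.1 p.2.1 :=
    continuous_dgR634.comp (continuous_fst.prodMk (continuous_fst.comp continuous_snd))
  have h2 : Continuous fun p : ℝ × ℝ × ℝ × ℝ => unR p.2.2.1 :=
    continuous_unR634.comp (continuous_fst.comp (continuous_snd.comp continuous_snd))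
  have h3 : Continuous fun p : ℝ × ℝ × ℝ × ℝ => rotR p.2.2.2 :=
    continuous_rotR634.comp (continuous_snd.comp (continuous_snd.comp continuous_snd))
  exact (h1.mul h2).mul h3

/-! ## The box -/

/-- The parameter box `[0,1]³ × (0, 2π]`. -/
def pBox634 : Set (ℝ × ℝ × ℝ × ℝ) :=
  Set.Icc (0 : ℝ) 1 ×ˢ Set.Icc (0 : ℝ) 1 ×ˢ Set.Icc (0 : ℝ) 1 ×ˢ Set.Ioc (0 : ℝ) (2 * Real.pi)

theorem boxR_eq634 : boxR634 = iwaR '' pBox634 := rfl

theorem iwaMR_pBox634 : iwaMR pBox634 = ENNReal.ofReal (2 * Real.pi) := by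
  unfold iwaMR pBox634 angM
  rw [Measure.prod_prod, Measure.prod_prod, Measure.prod_prod, Measure.restrict_apply_self]
  simp [Real.volume_Icc, Real.volume_Ioc]

/-- `boxR634` lies in a compact set. -/
theorem boxR_subset_compact634 :
    ∃ K : Set (GL (Fin 2) ℝ), IsCompact K ∧ boxR634 ⊆ K := by
  refine ⟨iwaR '' (Set.Icc (0 : ℝ) 1 ×ˢ Set.Icc (0 : ℝ) 1 ×ˢ Set.Icc (0 : ℝ) 1 ×ˢ
    Set.Icc (0 : ℝ) (2 * Real.pi)), ?_, ?_⟩
  · exact ((isCompact_Icc.prod (isCompact_Icc.prod (isCompact_Icc.prod isCompact_Icc)))).image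
      continuous_iwaR634
  · rw [boxR_eq634]
    apply Set.image_mono
    intro p hp
    obtain ⟨h1, h2, h3, h4⟩ := hp
    exact ⟨h1, h2, h3, Set.Ioc_subset_Icc_self h4⟩

/-! ## The leaf -/

/-- Any Borel structure. -/
theorem boxPos_aux634 [MeasurableSpace (GL (Fin 2) ℝ)] [BorelSpace (GL (Fin 2) ℝ)]
    (μ : Measure (GL (Fin 2) ℝ)) [μ.IsHaarMeasure] (c : ℝ≥0∞) (hc0 : c ≠ 0)
    (hIw : μ.restrict posR = c • Measure.map iwaR iwaMR) :
    0 < (μ boxR634).toReal := by
  have hfin : μ boxR634 < ⊤ := by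
    obtain ⟨K, hK, hsub⟩ := boxR_subset_compact634
    exact lt_of_le_of_lt (measure_mono hsub) hK.measure_lt_top
  have hmeas : Measurable iwaR := continuous_iwaR634.measurable
  have hpos : 0 < μ boxR634 := by
    have h1 : (μ.restrict posR) boxR634 ≤ μ boxR634 := Measure.restrict_apply_le _ _
    have h2 : iwaMR pBox634 ≤ Measure.map iwaR iwaMR boxR634 := by
      calc iwaMR pBox634 ≤ iwaMR (iwaR ⁻¹' boxR634) := by
            apply measure_mono
            intro p hp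
            exact ⟨p, hp, rfl⟩
        _ ≤ Measure.map iwaR iwaMR boxR634 := Measure.le_map_apply hmeas.aemeasurable _
    have h3 : 0 < c * iwaMR pBox634 := by
      rw [iwaMR_pBox634]
      apply ENNReal.mul_pos hc0
      rw [Ne, ENNReal.ofReal_eq_zero, not_le]
      positivity
    calc 0 < c * iwaMR pBox634 := h3
      _ ≤ c * Measure.map iwaR iwaMR boxR634 := by gcongr
      _ = (μ.restrict posR) boxR634 := by rw [hIw]; rfl
      _ ≤ μ boxR634 := h1
  exact ENNReal.toReal_pos hpos.ne' hfin.ne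

/-- **T6.20e.2b**: `BoxPosC634` from the integration formulas. -/
theorem boxPosC634 (hInt : ArchIntOut) : BoxPosC634 := by
  intro μ hμ
  obtain ⟨c, hc0, -, hIw⟩ := hInt.iwaR μ hμ
  exact @boxPos_aux634 (borel (GL (Fin 2) ℝ)) (@BorelSpace.mk _ _ (borel _) rfl) μ hμ c hc0 hIw

end Fermat.Agent.LT.T6.H634

end

end
-- ===== PACK-END LT/T6/H634/BoxPos.lean

-- ===== PACK-BEGIN LT/T6/H717/BH90.lean
section


/-!
# Row LT, tower T6, leaf T6.18g2-P2 (bounded Hilbert 90), helper717: the theorem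

OFF-MAIN.  `bh90C717 : H783.BH90C783` (statement VERBATIM from helper783's `DescSpec.lean`).

* `descent717` : for a cyclic extension `k'/k` with generator `s` (`IsLocalExt`) and `A : ℤ` there
  is `C` such that every `x ∈ GL₂(k')` with cocycle `x⁻¹ s(x)` bounded by `A` is `x = g y'`,
  `g ∈ GL₂(k)`, `y'` and `y'⁻¹` bounded by `C`.
* `cover717` : the `C`-bounded elements of `GL₂(k')` lie in finitely many cosets `y U'(n)`.
-/

set_option autoImplicit false
set_option linter.unusedSectionVars false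
set_option linter.style.haveILetI false
set_option linter.unusedVariables false
set_option maxHeartbeats 1600000

open scoped Matrix

noncomputable section

namespace Fermat.Agent.LT.T6.H717

open Fermat.Agent.LT.T6 Fermat.Agent.LT.T6.H783 WithZero

variable {k k' : Type} [Field k] [Field k'] [Valued k Γ₀] [Valued k' Γ₀]

/-! ## Small matrix facts -/

lemma coe_mul_inv717 (x : GL (Fin 2) k') :
    (x : Matrix (Fin 2) (Fin 2) k') * ((x⁻¹ : GL (Fin 2) k') : Matrix (Fin 2) (Fin 2) k') = 1 := by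
  rw [← Matrix.GeneralLinearGroup.coe_mul, mul_inv_cancel]
  rfl

lemma coe_inv_mul717 (x : GL (Fin 2) k') :
    ((x⁻¹ : GL (Fin 2) k') : Matrix (Fin 2) (Fin 2) k') * (x : Matrix (Fin 2) (Fin 2) k') = 1 := by
  rw [← Matrix.GeneralLinearGroup.coe_mul, inv_mul_cancel]
  rfl

lemma coe_glAut717 (s : k' ≃+* k') (x : GL (Fin 2) k') :
    ((glAut s x : GL (Fin 2) k') : Matrix (Fin 2) (Fin 2) k')
      = (x : Matrix (Fin 2) (Fin 2) k').map s := by
  ext a b
  rfl

lemma coe_glMap717 (i : k →+* k') (g : GL (Fin 2) k) :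
    ((Matrix.GeneralLinearGroup.map i g : GL (Fin 2) k') : Matrix (Fin 2) (Fin 2) k')
      = (g : Matrix (Fin 2) (Fin 2) k).map i := by
  ext a b
  rfl

/-- `val(i α) ≤ 1` for integral `α`. -/
lemma val_i_le_one717 (e : ℕ) (i : k →+* k') (hi : ∀ x : k, Valued.v (i x) = Valued.v x ^ e)
    (α : k) (hα : Valued.v α ≤ 1) : Valued.v (i α) ≤ 1 := by
  rw [hi]
  exact pow_le_one' hα e

/-! ## The descent -/

theorem descent717 (l e : ℕ) (i : k →+* k') (s : k' ≃+* k') (hext : IsLocalExt k k' l e i s)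
    (A : ℤ) :
    ∃ C : ℤ, ∀ x : GL (Fin 2) k', EntryBdd783 A (x⁻¹ * glAut s x) →
      ∃ g : GL (Fin 2) k, EntryBdd783 C ((Matrix.GeneralLinearGroup.map i g)⁻¹ * x) := by
  classical
  have hcyc := hext.cyc
  have hl : 0 < l := hcyc.pos
  obtain ⟨ι, hι, a, b, hab⟩ := exists_partition717 s l hcyc.faithful
  obtain ⟨Ba, hBa0, hBa⟩ := exists_bound717 a
  obtain ⟨Bb, hBb0, hBb⟩ := exists_bound717 b
  set Ap : ℤ := max A 0 with hAp
  have hAp0 : 0 ≤ Ap := le_max_right _ _
  have hAAp : A ≤ Ap := le_max_left _ _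
  refine ⟨Ba + Bb + (l : ℤ) * Ap, fun x hx => ?_⟩
  set X : Matrix (Fin 2) (Fin 2) k' := (x : Matrix (Fin 2) (Fin 2) k') with hXdef
  set Xi : Matrix (Fin 2) (Fin 2) k' := ((x⁻¹ : GL (Fin 2) k') : Matrix (Fin 2) (Fin 2) k')
    with hXidef
  have hXXi : X * Xi = 1 := coe_mul_inv717 x
  have hXiX : Xi * X = 1 := coe_inv_mul717 x
  set cM : Matrix (Fin 2) (Fin 2) k' := Xi * X.map s with hcM
  have hcoe : ((x⁻¹ * glAut s x : GL (Fin 2) k') : Matrix (Fin 2) (Fin 2) k') = cM := by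
    rw [Matrix.GeneralLinearGroup.coe_mul, coe_glAut717]
  have hc : MBdd717 Ap cM := by
    intro r c
    have := (hx r c).1
    rw [hcoe] at this
    exact this.trans (exp_le_exp.2 hAAp)
  -- the matrices `N_m`
  have hN : ∀ m : ℕ, X.map (s ^ m) = X * Nmat717 s cM m := fun m => map_pow_eq717 s X Xi hXXi m
  have hNb : ∀ m : ℕ, m < l → MBdd717 ((l : ℤ) * Ap) (Nmat717 s cM m) := by
    intro m hm
    refine (Nmat_bdd717 s hext.val_s cM Ap hAp0 hc m).mono ?_
    have : (m : ℤ) ≤ (l : ℤ) := by exact_mod_cast hm.le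
    exact mul_le_mul_of_nonneg_right this hAp0
  -- the matrices `C_j`
  set Cj : ι → Matrix (Fin 2) (Fin 2) k' :=
    fun j => ∑ m ∈ Finset.range l, ((s ^ m) (b j)) • Nmat717 s cM m with hCj
  have hCjb : ∀ j, MBdd717 (Bb + (l : ℤ) * Ap) (Cj j) := by
    intro j
    refine MBdd717.sum _ _ (fun m hm => ?_)
    refine MBdd717.smul ?_ (hNb m (Finset.mem_range.1 hm))
    rw [val_pow717 s hext.val_s]
    exact hBb j
  -- the trace matrices `T_j = X C_j`
  have hT : ∀ j r c, (X * Cj j) r c = ∑ m ∈ Finset.range l, (s ^ m) (b j * X r c) := by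
    intro j r c
    have h1 : X * Cj j = ∑ m ∈ Finset.range l, ((s ^ m) (b j)) • X.map (s ^ m) := by
      rw [hCj]
      simp only
      rw [Finset.mul_sum]
      refine Finset.sum_congr rfl (fun m _ => ?_)
      rw [Matrix.mul_smul, ← hN m]
    rw [h1, Matrix.sum_apply]
    refine Finset.sum_congr rfl (fun m _ => ?_)
    rw [Matrix.smul_apply, Matrix.map_apply, smul_eq_mul, map_mul]
  have hTfix : ∀ j r c, s ((X * Cj j) r c) = (X * Cj j) r c := by
    intro j r c
    rw [hT]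
    exact trace_fixed717 s l hcyc.order _
  have hT0ex : ∀ j r c, ∃ t : k, i t = (X * Cj j) r c := fun j r c =>
    hcyc.fixed _ (hTfix j r c)
  choose T0 hT0 using hT0ex
  -- reconstruction of `X`
  have hXsum : ∀ r c, X r c = ∑ j, a j * i (T0 j r c) := by
    intro r c
    have h1 : ∑ j, a j * i (T0 j r c)
        = ∑ j, ∑ m ∈ Finset.range l, a j * (s ^ m) (b j) * (s ^ m) (X r c) := by
      refine Finset.sum_congr rfl (fun j _ => ?_)
      rw [hT0, hT, Finset.mul_sum]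
      refine Finset.sum_congr rfl (fun m _ => ?_)
      rw [map_mul, mul_assoc]
    rw [h1, Finset.sum_comm]
    have h2 : ∀ m ∈ Finset.range l, ∑ j, a j * (s ^ m) (b j) * (s ^ m) (X r c)
        = if m = 0 then X r c else 0 := by
      intro m hm
      rw [← Finset.sum_mul, hab m (Finset.mem_range.1 hm)]
      by_cases hm0 : m = 0
      · subst hm0
        rw [if_pos rfl, if_pos rfl, one_mul, pow_zero_apply717]
      · rw [if_neg hm0, if_neg hm0, zero_mul]
    rw [Finset.sum_congr rfl h2, Finset.sum_ite_eq' (Finset.range l) 0 (fun _ => X r c),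
      if_pos (Finset.mem_range.2 hl)]
  -- rank two
  have hdetX : X.det ≠ 0 := Matrix.GeneralLinearGroup.det_ne_zero x
  set w : ι × Fin 2 → Fin 2 → k := fun p r => T0 p.1 r p.2 with hw
  have hne : ∃ p p' : ι × Fin 2, w p 0 * w p' 1 - w p 1 * w p' 0 ≠ 0 := by
    by_contra hcon
    push_neg at hcon
    exact hdetX (det_eq_zero_of_cols717 i a T0 X hXsum hcon)
  obtain ⟨p1, p2, hD, hαβ⟩ := exists_cramer717 w hne
  choose α β hα hβ hwαβ using hαβ
  -- the matrix `g`
  set gM : Matrix (Fin 2) (Fin 2) k := Matrix.of (fun r c => if c = 0 then w p1 r else w p2 r)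
    with hgM
  have hgdet : gM.det ≠ 0 := by
    rw [Matrix.det_fin_two]
    simp only [hgM, Matrix.of_apply, if_pos, if_neg, Fin.isValue, one_ne_zero, if_false, if_true]
    intro h0
    apply hD
    rw [← h0]
    ring
  set g : GL (Fin 2) k := Matrix.GeneralLinearGroup.mkOfDetNeZero gM hgdet with hg
  have hgval : (g : Matrix (Fin 2) (Fin 2) k) = gM := rfl
  set G' : GL (Fin 2) k' := Matrix.GeneralLinearGroup.map i g with hG'
  have hG'val : (G' : Matrix (Fin 2) (Fin 2) k') = gM.map i := by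
    rw [hG', coe_glMap717, hgval]
  -- the matrices `P_j`
  set P : ι → Matrix (Fin 2) (Fin 2) k :=
    fun j => Matrix.of (fun r c => if r = 0 then α (j, c) else β (j, c)) with hP
  have hgP : ∀ j r c, (gM * P j) r c = T0 j r c := by
    intro j r c
    rw [Matrix.mul_apply, Fin.sum_univ_two]
    simp only [hgM, hP, Matrix.of_apply, Fin.isValue, one_ne_zero, if_false, if_true]
    exact (hwαβ (j, c) r).symm
  have hPb : ∀ j, MBdd717 0 ((P j).map i) := by
    intro j r c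
    rw [Matrix.map_apply, exp_zero]
    apply val_i_le_one717 e i hext.val_i
    simp only [hP, Matrix.of_apply]
    split_ifs
    · exact hα _
    · exact hβ _
  set yM : Matrix (Fin 2) (Fin 2) k' := ∑ j, a j • (P j).map i with hyM
  have hyMb : MBdd717 Ba yM := by
    refine MBdd717.sum _ _ (fun j _ => ?_)
    have := MBdd717.smul (hBa j) (hPb j)
    rwa [add_zero] at this
  have hXg : X = gM.map i * yM := by
    rw [hyM, Finset.mul_sum]
    ext r c
    rw [hXsum r c, Matrix.sum_apply]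
    refine Finset.sum_congr rfl (fun j _ => ?_)
    rw [Matrix.mul_smul, Matrix.smul_apply, smul_eq_mul]
    congr 1
    rw [← hgP j r c]
    have : (gM * P j).map i = gM.map i * (P j).map i := Matrix.map_mul (f := i)
    rw [← this, Matrix.map_apply]
  -- the two bounds
  have h1 : ((G'⁻¹ * x : GL (Fin 2) k') : Matrix (Fin 2) (Fin 2) k') = yM := by
    rw [Matrix.GeneralLinearGroup.coe_mul, ← hXdef, hXg, ← hG'val, ← mul_assoc,
      coe_inv_mul717, one_mul]
  have h2 : (((G'⁻¹ * x)⁻¹ : GL (Fin 2) k') : Matrix (Fin 2) (Fin 2) k') = Xi * gM.map i := by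
    rw [mul_inv_rev, inv_inv, Matrix.GeneralLinearGroup.coe_mul, hG'val]
  have h3 : ∀ r c, (Xi * gM.map i) r c
      = if c = 0 then Cj p1.1 r p1.2 else Cj p2.1 r p2.2 := by
    intro r c
    have hcol : ∀ (p : ι × Fin 2), (∑ t, Xi r t * i (w p t)) = Cj p.1 r p.2 := by
      intro p
      have : Cj p.1 = Xi * (X * Cj p.1) := by
        rw [← mul_assoc, hXiX, one_mul]
      rw [this, Matrix.mul_apply]
      refine Finset.sum_congr rfl (fun t _ => ?_)
      rw [hw]
      simp only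
      rw [hT0]
    rw [Matrix.mul_apply]
    by_cases hc0 : c = 0
    · rw [if_pos hc0, ← hcol p1]
      refine Finset.sum_congr rfl (fun t _ => ?_)
      rw [Matrix.map_apply, hgM, Matrix.of_apply, if_pos hc0]
    · rw [if_neg hc0, ← hcol p2]
      refine Finset.sum_congr rfl (fun t _ => ?_)
      rw [Matrix.map_apply, hgM, Matrix.of_apply, if_neg hc0]
  refine ⟨g, fun r c => ⟨?_, ?_⟩⟩
  · rw [h1]
    refine (hyMb r c).trans (exp_le_exp.2 ?_)
    have : 0 ≤ (l : ℤ) * Ap := mul_nonneg (by positivity) hAp0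
    linarith
  · rw [h2, h3]
    have hle : Bb + (l : ℤ) * Ap ≤ Ba + Bb + (l : ℤ) * Ap := by linarith
    split_ifs
    · exact (hCjb p1.1 r p1.2).trans (exp_le_exp.2 hle)
    · exact (hCjb p2.1 r p2.2).trans (exp_le_exp.2 hle)

/-! ## Finitely many cosets of `U'(n)` in a bounded set -/

lemma MBdd_sub717 {B : ℤ} {M M' : Matrix (Fin 2) (Fin 2) k'} (h : MBdd717 B M)
    (h' : MBdd717 B M') : MBdd717 B (M - M') := by
  intro r c
  rw [Matrix.sub_apply]
  exact (Valuation.map_sub _ _ _).trans (max_le (h r c) (h' r c))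

theorem cover717 (hunif : ∃ ϖ : k', Valued.v ϖ = exp (-1 : ℤ))
    (hres : ∃ T : Finset k', ∀ z : k', Valued.v z ≤ 1 → ∃ x ∈ T, Valued.v (z - x) < 1)
    (n : ℕ) (C : ℤ) :
    ∃ Y : Finset (GL (Fin 2) k'), ∀ y' : GL (Fin 2) k', EntryBdd783 C y' →
      ∃ y ∈ Y, ∃ u : GL (Fin 2) k', InU n u ∧ y' = y * u := by
  classical
  set M : ℤ := (n : ℤ) + max C 0 with hM
  have hCM : C + -M ≤ -(n : ℤ) := by
    have := le_max_left C 0
    rw [hM]
    linarith
  obtain ⟨R, hR⟩ := exists_reps717 hunif hres C M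
  -- the predicate
  set Q : (Fin 2 → Fin 2 → ↥R) → GL (Fin 2) k' → Prop := fun ρ y =>
    EntryBdd783 C y ∧ ∀ r c : Fin 2,
      Valued.v ((y : Matrix (Fin 2) (Fin 2) k') r c - (ρ r c : k')) ≤ exp (-M) with hQ
  set F : (Fin 2 → Fin 2 → ↥R) → GL (Fin 2) k' := fun ρ =>
    if h : ∃ y, Q ρ y then Classical.choose h else 1 with hF
  refine ⟨(Finset.univ : Finset (Fin 2 → Fin 2 → ↥R)).image F, fun y' hy' => ?_⟩
  have hex : ∀ r c : Fin 2, ∃ t : ↥R,
      Valued.v ((y' : Matrix (Fin 2) (Fin 2) k') r c - (t : k')) ≤ exp (-M) := by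
    intro r c
    obtain ⟨t, ht, htv⟩ := hR _ (hy' r c).1
    exact ⟨⟨t, ht⟩, htv⟩
  choose ρ hρ using hex
  have hQρ : ∃ y, Q ρ y := ⟨y', hy', hρ⟩
  set y : GL (Fin 2) k' := F ρ with hy
  have hyQ : Q ρ y := by
    rw [hy, hF]
    simp only
    rw [dif_pos hQρ]
    exact Classical.choose_spec hQρ
  refine ⟨y, Finset.mem_image.2 ⟨ρ, Finset.mem_univ _, rfl⟩, y⁻¹ * y', ?_, ?_⟩
  swap
  · rw [mul_inv_cancel_left]
  -- the difference is small
  set Ym : Matrix (Fin 2) (Fin 2) k' := (y : Matrix (Fin 2) (Fin 2) k') with hYm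
  set Ym' : Matrix (Fin 2) (Fin 2) k' := (y' : Matrix (Fin 2) (Fin 2) k') with hYm'
  set Yi : Matrix (Fin 2) (Fin 2) k' := ((y⁻¹ : GL (Fin 2) k') : Matrix (Fin 2) (Fin 2) k')
    with hYi
  set Yi' : Matrix (Fin 2) (Fin 2) k' := ((y'⁻¹ : GL (Fin 2) k') : Matrix (Fin 2) (Fin 2) k')
    with hYi'
  have hd1 : MBdd717 (-M) (Ym' - Ym) := by
    intro r c
    have e1 : (Ym' - Ym) r c = (Ym' r c - (ρ r c : k')) - (Ym r c - (ρ r c : k')) := by
      rw [Matrix.sub_apply]
      ring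
    rw [e1]
    exact (Valuation.map_sub _ _ _).trans (max_le (hρ r c) (hyQ.2 r c))
  have hd2 : MBdd717 (-M) (Ym - Ym') := by
    intro r c
    have e1 : (Ym - Ym') r c = (Ym r c - (ρ r c : k')) - (Ym' r c - (ρ r c : k')) := by
      rw [Matrix.sub_apply]
      ring
    rw [e1]
    exact (Valuation.map_sub _ _ _).trans (max_le (hyQ.2 r c) (hρ r c))
  have hYib : MBdd717 C Yi := fun r c => (hyQ.1 r c).2
  have hYib' : MBdd717 C Yi' := fun r c => (hy' r c).2
  have hu1 : ((y⁻¹ * y' : GL (Fin 2) k') : Matrix (Fin 2) (Fin 2) k') - 1 = Yi * (Ym' - Ym) := by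
    rw [Matrix.GeneralLinearGroup.coe_mul, mul_sub, hYi, hYm, coe_inv_mul717]
  have hu2 : (((y⁻¹ * y')⁻¹ : GL (Fin 2) k') : Matrix (Fin 2) (Fin 2) k') - 1
      = Yi' * (Ym - Ym') := by
    rw [mul_inv_rev, inv_inv, Matrix.GeneralLinearGroup.coe_mul, mul_sub, hYi', hYm',
      coe_inv_mul717]
  intro r c
  constructor
  · have := (hYib.mul hd1) r c
    rw [← hu1, Matrix.sub_apply] at this
    exact this.trans (exp_le_exp.2 hCM)
  · have := (hYib'.mul hd2) r c
    rw [← hu2, Matrix.sub_apply] at this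
    exact this.trans (exp_le_exp.2 hCM)

/-! ## Bounded Hilbert 90 -/

/-- **T6.18g2-P2 (bounded Hilbert 90).** -/
theorem bh90C717 : BH90C783 := by
  intro k k' _ _ _ _ q l e i s hk hk' hext hl n A
  obtain ⟨C, hC⟩ := descent717 l e i s hext A
  obtain ⟨T, -, -, -, hT⟩ := hk'.residue
  obtain ⟨Y, hY⟩ := cover717 hk'.unif ⟨T, hT⟩ n C
  refine ⟨Y, fun x hx => ?_⟩
  obtain ⟨g, hg⟩ := hC x hx
  obtain ⟨y, hy, u, hu, hyu⟩ := hY _ hg
  refine ⟨y, hy, g, u, hu, ?_⟩
  rw [mul_assoc, ← hyu, mul_inv_cancel_left]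

end Fermat.Agent.LT.T6.H717

end
end
-- ===== PACK-END LT/T6/H717/BH90.lean

-- ===== PACK-BEGIN LT/T6/H166/NormalForm.lean
section





/-!
# Row LT, tower T6, leaf T6.18f.1 `NormalFormC179` (helper166, OFF-MAIN)

`normalFormC166 : H179.NormalFormC179` -- the normal form near a regular point: if
`χ(γ) = (tr γ, det γ)` is close to `χ(γ₀)`, `γ₀` regular, then `γ` is conjugate in `GL₂(k)` to
`a + b γ₀` with `(a, b)` close to `(0, 1)`.

Proof.  `D₀ = disc γ₀ ≠ 0`, `D = disc γ`, `u = D / D₀` is close to `1`, so it has a square root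
`b` close to `1` (Hensel for `X² - u` at `x₀ = 1`, `hensel_quad129` of helper129); put
`a = (tr γ - b tr γ₀) / 2`.  Then `a + b γ₀` has the trace and the determinant of `γ`, and
two `2 × 2` matrices with the same characteristic polynomial of non-zero discriminant are
conjugate (both are conjugate to the companion matrix: `exists_cyclic166`,
`exists_conj_of_charpoly166`).

Imports: Mathlib, `T6/Spec` (v2), `H783/BadSpec`, `H179/LocRegSpec`, `H129/{Newton,HenselQuad}`
(and their `H159` specs), `H166/TwCent` (for `nonscalar_of_disc166`).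
-/

set_option autoImplicit false

open scoped Matrix

noncomputable section

namespace Fermat.Agent.LT.T6.H166

open Fermat.Agent.LT.T6 Fermat.Agent.LT.T6.H783 Fermat.Agent.LT.T6.H179

/-! ## 1. Conjugacy of `2 × 2` matrices with the same characteristic polynomial -/

section Companion

variable {F : Type} [Field F]

/-- A non-scalar `2 × 2` matrix has a cyclic vector `v`; in the basis `(v, M v)` it is the
companion matrix of its characteristic polynomial. -/
theorem exists_cyclic166 (M : Matrix (Fin 2) (Fin 2) F)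
    (h : M 0 1 ≠ 0 ∨ M 1 0 ≠ 0 ∨ M 0 0 - M 1 1 ≠ 0) :
    ∃ P : Matrix (Fin 2) (Fin 2) F, P.det ≠ 0 ∧
      M * P = P * !![0, -M.det; 1, M.trace] := by
  by_cases h10 : M 1 0 = 0
  · by_cases h01 : M 0 1 = 0
    · have h3 : M 0 0 - M 1 1 ≠ 0 := by tauto
      refine ⟨!![1, M 0 0; 1, M 1 1], ?_, ?_⟩
      · rw [Matrix.det_fin_two_of]
        intro h
        apply h3
        linear_combination -h
      · ext i j
        fin_cases i <;> fin_cases j <;>
          simp [Matrix.mul_apply, Fin.sum_univ_two, Matrix.det_fin_two, Matrix.trace_fin_two,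
            h10, h01] <;> ring
    · refine ⟨!![0, M 0 1; 1, M 1 1], ?_, ?_⟩
      · rw [Matrix.det_fin_two_of]
        intro h
        apply h01
        linear_combination -h
      · ext i j
        fin_cases i <;> fin_cases j <;>
          simp [Matrix.mul_apply, Fin.sum_univ_two, Matrix.det_fin_two, Matrix.trace_fin_two]
            <;> ring
  · refine ⟨!![1, M 0 0; 0, M 1 0], ?_, ?_⟩
    · rw [Matrix.det_fin_two_of]
      intro h
      apply h10
      linear_combination h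
    · ext i j
      fin_cases i <;> fin_cases j <;>
        simp [Matrix.mul_apply, Fin.sum_univ_two, Matrix.det_fin_two, Matrix.trace_fin_two]
          <;> ring

/-- A matrix with the trace and the determinant of `γ ∈ GL₂(F)`, `disc γ ≠ 0`, is conjugate to
`γ` in `GL₂(F)`. -/
theorem exists_conj_of_charpoly166 (γ : GL (Fin 2) F) (M' : Matrix (Fin 2) (Fin 2) F)
    (htr : M'.trace = (γ : Matrix (Fin 2) (Fin 2) F).trace)
    (hdet : M'.det = (γ : Matrix (Fin 2) (Fin 2) F).det)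
    (hD : (γ : Matrix (Fin 2) (Fin 2) F).trace ^ 2
      - 4 * (γ : Matrix (Fin 2) (Fin 2) F).det ≠ 0) :
    ∃ g : GL (Fin 2) F, ((g⁻¹ * γ * g : GL (Fin 2) F) : Matrix (Fin 2) (Fin 2) F) = M' := by
  obtain ⟨P, hP, hPC⟩ := exists_cyclic166 (γ : Matrix (Fin 2) (Fin 2) F)
    (nonscalar_of_disc166 _ hD)
  obtain ⟨P', hP', hPC'⟩ := exists_cyclic166 M'
    (nonscalar_of_disc166 _ (by rw [htr, hdet]; exact hD))
  rw [htr, hdet] at hPC'
  obtain ⟨G, hG⟩ : ∃ G : GL (Fin 2) F, (G : Matrix (Fin 2) (Fin 2) F) = P :=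
    ⟨Matrix.GeneralLinearGroup.mkOfDetNeZero P hP, rfl⟩
  obtain ⟨G', hG'⟩ : ∃ G' : GL (Fin 2) F, (G' : Matrix (Fin 2) (Fin 2) F) = P' :=
    ⟨Matrix.GeneralLinearGroup.mkOfDetNeZero P' hP', rfl⟩
  rw [← hG] at hPC
  rw [← hG'] at hPC'
  refine ⟨G * G'⁻¹, ?_⟩
  have e : ((G * G'⁻¹)⁻¹ * γ * (G * G'⁻¹) : GL (Fin 2) F) = G' * (G⁻¹ * (γ * G)) * G'⁻¹ := by
    group
  rw [e]
  simp only [Units.val_mul]
  rw [hPC, Units.inv_mul_cancel_left, ← hPC', Units.mul_inv_cancel_right]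

end Companion

/-! ## 2. The valuation estimates -/

section Val

variable {k : Type} [Field k] [Valued k Γ₀]

theorem v_two_le_one166 : Valued.v (2 : k) ≤ 1 := by
  have h : (2 : k) = 1 + 1 := by norm_num
  rw [h]
  exact Valuation.map_add_le _ (le_of_eq (map_one _)) (le_of_eq (map_one _))

theorem v_le_exp_abs_log166 (x : k) :
    Valued.v x ≤ WithZero.exp |WithZero.log (Valued.v x)| := by
  by_cases hx : Valued.v x = 0
  · rw [hx]
    exact zero_le
  · conv_lhs => rw [← WithZero.exp_log hx]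
    exact WithZero.exp_le_exp.mpr (le_abs_self _)

/-- The scalar form of the normal form: for `(t, d)` close to `(t₀, d₀)`, `t₀² - 4 d₀ ≠ 0`, there
are `a` close to `0` and `b` close to `1` with `2 a + b t₀ = t` and
`b² (t₀² - 4 d₀) = t² - 4 d`. -/
theorem normal_form_core166 [CharZero k] [CompleteSpace k] (t₀ d₀ : k)
    (hD₀ : t₀ ^ 2 - 4 * d₀ ≠ 0) (M : ℤ) :
    ∃ N : ℤ, ∀ t d : k, Valued.v (t - t₀) ≤ WithZero.exp (-N) →
      Valued.v (d - d₀) ≤ WithZero.exp (-N) →
      ∃ a b : k, Valued.v a ≤ WithZero.exp (-M) ∧ Valued.v (b - 1) ≤ WithZero.exp (-M) ∧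
        2 * a + b * t₀ = t ∧ b ^ 2 * (t₀ ^ 2 - 4 * d₀) = t ^ 2 - 4 * d ∧ b ≠ 0 := by
  have h2 : (2 : k) ≠ 0 := two_ne_zero
  have hv2 : Valued.v (2 : k) ≠ 0 := (Valuation.ne_zero_iff _).mpr h2
  have hvD₀ : Valued.v (t₀ ^ 2 - 4 * d₀) ≠ 0 := (Valuation.ne_zero_iff _).mpr hD₀
  obtain ⟨n2, e2⟩ : ∃ n2 : ℤ, Valued.v (2 : k) = WithZero.exp n2 :=
    ⟨_, (WithZero.exp_log hv2).symm⟩
  obtain ⟨nD, eD⟩ : ∃ nD : ℤ, Valued.v (t₀ ^ 2 - 4 * d₀) = WithZero.exp nD :=
    ⟨_, (WithZero.exp_log hvD₀).symm⟩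
  obtain ⟨nT, hnT0, eT⟩ : ∃ nT : ℤ, 0 ≤ nT ∧ Valued.v t₀ ≤ WithZero.exp nT :=
    ⟨_, abs_nonneg _, v_le_exp_abs_log166 t₀⟩
  have hn2le : n2 ≤ 0 := by
    have h := v_two_le_one166 (k := k)
    rw [e2, ← WithZero.exp_zero] at h
    exact WithZero.exp_le_exp.mp h
  obtain ⟨aM, haM0, haM⟩ : ∃ aM : ℤ, 0 ≤ aM ∧ M ≤ aM := ⟨_, abs_nonneg M, le_abs_self M⟩
  obtain ⟨aD, haD1, haD2⟩ : ∃ aD : ℤ, nD ≤ aD ∧ -nD ≤ aD :=
    ⟨_, le_abs_self nD, neg_le_abs nD⟩
  obtain ⟨N, hN⟩ : ∃ N : ℤ, N = aM + 2 * nT + aD - 2 * n2 + 1 := ⟨_, rfl⟩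
  refine ⟨N, ?_⟩
  intro t d htr hdet
  have h4 : Valued.v (4 : k) ≤ 1 := by
    have h : (4 : k) = 2 * 2 := by norm_num
    rw [h, map_mul]
    exact mul_le_one' v_two_le_one166 v_two_le_one166
  have h_tt : Valued.v (t + t₀) ≤ WithZero.exp nT := by
    have h : t + t₀ = (t - t₀) + 2 * t₀ := by ring
    rw [h]
    apply Valuation.map_add_le
    · exact htr.trans (WithZero.exp_le_exp.mpr (by omega))
    · rw [map_mul]
      calc Valued.v (2 : k) * Valued.v t₀ ≤ 1 * Valued.v t₀ :=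
            mul_le_mul' v_two_le_one166 le_rfl
        _ = Valued.v t₀ := one_mul _
        _ ≤ WithZero.exp nT := eT
  have hDD : Valued.v ((t ^ 2 - 4 * d) - (t₀ ^ 2 - 4 * d₀)) ≤ WithZero.exp (-N + nT) := by
    have h : (t ^ 2 - 4 * d) - (t₀ ^ 2 - 4 * d₀) = (t - t₀) * (t + t₀) - 4 * (d - d₀) := by
      ring
    rw [h]
    apply Valuation.map_sub_le
    · rw [map_mul, WithZero.exp_add]
      exact mul_le_mul' htr h_tt
    · rw [map_mul]
      calc Valued.v (4 : k) * Valued.v (d - d₀) ≤ 1 * WithZero.exp (-N) :=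
            mul_le_mul' h4 hdet
        _ = WithZero.exp (-N) := one_mul _
        _ ≤ WithZero.exp (-N + nT) := WithZero.exp_le_exp.mpr (by omega)
  obtain ⟨u, hu⟩ : ∃ u : k, u = (t ^ 2 - 4 * d) / (t₀ ^ 2 - 4 * d₀) := ⟨_, rfl⟩
  have huD : u * (t₀ ^ 2 - 4 * d₀) = t ^ 2 - 4 * d := by
    rw [hu]
    field_simp
  have hu1 : Valued.v (1 - u) ≤ WithZero.exp (-N + nT - nD) := by
    have h : 1 - u = -(((t ^ 2 - 4 * d) - (t₀ ^ 2 - 4 * d₀)) / (t₀ ^ 2 - 4 * d₀)) := by
      rw [hu]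
      field_simp
      ring
    rw [h, Valuation.map_neg, map_div₀, eD, div_le_iff₀ WithZero.exp_pos, ← WithZero.exp_add]
    have h' : -N + nT - nD + nD = -N + nT := by ring
    rw [h']
    exact hDD
  have e_f : (1 : k) ^ 2 - 0 * 1 + (-u) = 1 - u := by ring
  have e_f' : (2 : k) * 1 - 0 = 2 := by ring
  have hH : Valued.v ((1 : k) ^ 2 - 0 * 1 + (-u)) < Valued.v ((2 : k) * 1 - 0) ^ 2 := by
    rw [e_f, e_f', e2, pow_two, ← WithZero.exp_add]
    exact lt_of_le_of_lt hu1 (WithZero.exp_lt_exp.mpr (by omega))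
  obtain ⟨b, hb, hbv⟩ := Fermat.Agent.LT.H129.hensel_quad129 (0 : k) (-u) 1 hH
  have hbu : b ^ 2 = u := by linear_combination hb
  have hb1 : Valued.v (b - 1) ≤ WithZero.exp (-N + nT - nD - n2) := by
    rw [e_f, e_f', e2] at hbv
    have h := hbv.trans hu1
    have h' : WithZero.exp (-N + nT - nD)
        = WithZero.exp (-N + nT - nD - n2) * WithZero.exp n2 := by
      rw [← WithZero.exp_add]
      congr 1
      ring
    rw [h'] at h
    exact le_of_mul_le_mul_right h WithZero.exp_pos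
  have hb0 : b ≠ 0 := by
    intro h0
    rw [h0, zero_sub, Valuation.map_neg, map_one, ← WithZero.exp_zero] at hb1
    have := WithZero.exp_le_exp.mp hb1
    omega
  refine ⟨(t - b * t₀) / 2, b, ?_, ?_, ?_, ?_, hb0⟩
  · have h : t - b * t₀ = (t - t₀) - (b - 1) * t₀ := by ring
    rw [map_div₀, e2, div_le_iff₀ WithZero.exp_pos, ← WithZero.exp_add, h]
    apply Valuation.map_sub_le
    · exact htr.trans (WithZero.exp_le_exp.mpr (by omega))
    · rw [map_mul]
      calc Valued.v (b - 1) * Valued.v t₀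
          ≤ WithZero.exp (-N + nT - nD - n2) * WithZero.exp nT := mul_le_mul' hb1 eT
        _ = WithZero.exp (-N + nT - nD - n2 + nT) := (WithZero.exp_add _ _).symm
        _ ≤ WithZero.exp (-M + n2) := WithZero.exp_le_exp.mpr (by omega)
  · exact hb1.trans (WithZero.exp_le_exp.mpr (by omega))
  · field_simp
    ring
  · rw [hbu, huD]

end Val

/-! ## 3. The leaf -/

/-- **T6.18f.1 `NormalFormC179`.** -/
theorem normalFormC166 : NormalFormC179 := by
  intro k _ _ q hk γ₀ hreg M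
  have hc0 : CharZero k := hk.char0
  have hcs : CompleteSpace k := hk.complete
  have hD₀ : (γ₀ : Matrix (Fin 2) (Fin 2) k).trace ^ 2
      - 4 * (γ₀ : Matrix (Fin 2) (Fin 2) k).det ≠ 0 := hreg.ne_zero
  obtain ⟨N, hN⟩ := normal_form_core166 _ _ hD₀ M
  refine ⟨N, ?_⟩
  intro γ hγ
  obtain ⟨a, b, hva, hvb, htr, hdisc, hb0⟩ := hN _ _ hγ.1 hγ.2
  have h4 : (4 : k) ≠ 0 := by
    have h : ((4 : ℕ) : k) ≠ 0 := Nat.cast_ne_zero.mpr (by norm_num)
    exact_mod_cast h
  have htr' : (a • (1 : Matrix (Fin 2) (Fin 2) k)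
      + b • (γ₀ : Matrix (Fin 2) (Fin 2) k)).trace = (γ : Matrix (Fin 2) (Fin 2) k).trace := by
    rw [← htr, Matrix.trace_fin_two, Matrix.trace_fin_two]
    simp only [Matrix.add_apply, Matrix.smul_apply, Matrix.one_apply_eq, smul_eq_mul]
    ring
  have hdet' : (a • (1 : Matrix (Fin 2) (Fin 2) k)
      + b • (γ₀ : Matrix (Fin 2) (Fin 2) k)).det = (γ : Matrix (Fin 2) (Fin 2) k).det := by
    apply mul_left_cancel₀ h4
    have h01 : (1 : Matrix (Fin 2) (Fin 2) k) 0 1 = 0 := Matrix.one_apply_ne (by decide)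
    have h10 : (1 : Matrix (Fin 2) (Fin 2) k) 1 0 = 0 := Matrix.one_apply_ne (by decide)
    rw [Matrix.det_fin_two (a • (1 : Matrix (Fin 2) (Fin 2) k)
      + b • (γ₀ : Matrix (Fin 2) (Fin 2) k))]
    simp only [Matrix.add_apply, Matrix.smul_apply, Matrix.one_apply_eq, smul_eq_mul, h01, h10]
    rw [Matrix.trace_fin_two, Matrix.det_fin_two] at hdisc
    rw [Matrix.trace_fin_two] at htr
    linear_combination (2 * a + (γ : Matrix (Fin 2) (Fin 2) k).trace
      + b * ((γ₀ : Matrix (Fin 2) (Fin 2) k) 0 0 + (γ₀ : Matrix (Fin 2) (Fin 2) k) 1 1)) * htr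
      - hdisc
  have hD : (γ : Matrix (Fin 2) (Fin 2) k).trace ^ 2
      - 4 * (γ : Matrix (Fin 2) (Fin 2) k).det ≠ 0 := by
    rw [← hdisc]
    exact mul_ne_zero (pow_ne_zero 2 hb0) hD₀
  obtain ⟨g, hg⟩ := exists_conj_of_charpoly166 γ _ htr' hdet' hD
  exact ⟨g, a, b, hva, hvb, hg⟩

end Fermat.Agent.LT.T6.H166

end

end
-- ===== PACK-END LT/T6/H166/NormalForm.lean

-- ===== PACK-BEGIN LT/T6/H179/Tw.lean
section


/-!
# Row LT, tower T6, sub-leaf T6.18f.6 `TwC179` (twisted side), helper179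

OFF-MAIN.  `tw_of179 : NearC179 → NormInjC → TwCentC → OrbSumUniqC → TwC179` and, with the DONE
leaves `normInjC848`, `twCentC166`, `orbSumUniqC944` (vendored byte-identical),
`tw_of_near179 : NearC179 → TwC179`.
-/

set_option autoImplicit false
set_option linter.unusedSectionVars false

open scoped Matrix

noncomputable section

namespace Fermat.Agent.LT.T6.H179

open Fermat.Agent.LT.T6 Fermat.Agent.LT.T6.H783 Fermat.Agent.LT.T6.H944 Fermat.Agent.LT.T6.H420

section Aux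

variable {k k' : Type} [Field k] [Field k']

/-- Regularity passes to `GL₂(k')`. -/
theorem isReg_map179 (i : k →+* k') (γ : GL (Fin 2) k) (h : IsReg γ) :
    IsReg (Matrix.GeneralLinearGroup.map i γ) := by
  unfold IsReg disc at h ⊢
  have e : ((Matrix.GeneralLinearGroup.map i γ : GL (Fin 2) k') :
        Matrix (Fin 2) (Fin 2) k').trace ^ 2
      - 4 * ((Matrix.GeneralLinearGroup.map i γ : GL (Fin 2) k') :
        Matrix (Fin 2) (Fin 2) k').det
      = i ((γ : Matrix (Fin 2) (Fin 2) k).trace ^ 2 - 4 * (γ : Matrix (Fin 2) (Fin 2) k).det) := by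
    rw [Matrix.trace_fin_two, Matrix.det_fin_two, Matrix.trace_fin_two, Matrix.det_fin_two]
    simp only [Matrix.GeneralLinearGroup.map_apply, map_sub, map_mul, map_add, map_pow,
      map_ofNat]
  rw [e]
  exact isUnit_iff_ne_zero.mpr (fun h0 => h.ne_zero (i.injective (by rw [h0, map_zero])))

end Aux

section Bound

variable {k : Type} [Field k] [Valued k Γ₀]

theorem entryLe_mono179 {A : Matrix (Fin 2) (Fin 2) k} {M M' : Γ₀} (h : EntryLe A M)
    (hM : M ≤ M') : EntryLe A M' := fun p r => (h p r).trans hM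

/-- A function of finite support modulo `U(n)` is supported on a bounded set. -/
theorem exists_bound179 (n : ℕ) (φ : GL (Fin 2) k → ℂ) (h : HasFinSupp (InU n) φ) :
    ∃ Cb : Γ₀, 1 ≤ Cb ∧
      ∀ g : GL (Fin 2) k, φ g ≠ 0 → EntryLe (g : Matrix (Fin 2) (Fin 2) k) Cb := by
  obtain ⟨F, hF⟩ := h
  refine ⟨F.sup (fun x => entryMax x) ⊔ 1, le_sup_right, ?_⟩
  intro g hg
  obtain ⟨x, hx, u, hu, rfl⟩ := hF g hg
  have h1 : EntryLe (x : Matrix (Fin 2) (Fin 2) k) (F.sup (fun x => entryMax x) ⊔ 1) :=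
    entryLe_mono179 (entryLe_entryMax x)
      ((Finset.le_sup (f := fun x => entryMax x) hx).trans le_sup_left)
  have h2 := h1.mul (entryLe_of_inU hu)
  rw [mul_one] at h2
  rw [Units.val_mul]
  exact h2

end Bound

/-- **T6.18f.6 `TwC179`** from `NearC179` and the DONE leaves of Part A / B of the tower. -/
theorem tw_of179 (hNear : NearC179) (hNI : NormInjC) (hTC : TwCentC) (hUq : OrbSumUniqC) :
    TwC179 := by
  intro k k' _ _ _ _ q l e i s n φ hB γ₀ hreg
  have hcyc := hB.ext.cyc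
  have hvs := hB.ext.val_s
  have hvi := hB.ext.val_i
  have he := hB.ext.e_pos
  obtain ⟨Cb, hCb1, hCb⟩ := exists_bound179 n φ hB.supp
  -- the thresholds
  set n'' : ℕ := max n 1 with hn''
  set L : ℕ := (WithZero.log (Cb ^ l)).natAbs with hL
  have hCbL : Cb ^ l ≤ WithZero.exp (L : ℤ) := le_exp_natAbs_log (Cb ^ l)
  obtain ⟨N, hN⟩ := hNear k q hB.hk l hB.prime.pos γ₀ hreg ((n'' : ℤ) + L)
  have hM1 : (WithZero.exp (-((n'' : ℤ) + L)) : Γ₀) < 1 := by
    rw [← WithZero.exp_zero, WithZero.exp_lt_exp]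
    have : 1 ≤ n'' := le_max_right n 1
    omega
  have hMn : (WithZero.exp (-((n'' : ℤ) + L)) : Γ₀) ≤ WithZero.exp (-(n'' : ℤ)) := by
    rw [WithZero.exp_le_exp]; omega
  -- small elements of `k` stay small in `k'`
  have hsmall : ∀ x : k, Valued.v x ≤ WithZero.exp (-((n'' : ℤ) + L)) →
      Valued.v (i x) ≤ WithZero.exp (-((n'' : ℤ) + L)) := by
    intro x hx
    rw [hvi]
    have hx1 : Valued.v x ≤ 1 := hx.trans hM1.le
    calc Valued.v x ^ e ≤ Valued.v x ^ 1 := pow_le_pow_right_of_le_one' hx1 he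
      _ = Valued.v x := pow_one _
      _ ≤ _ := hx
  refine ⟨N, ?_⟩
  -- every admissible triple gives an orbit sum at a `δ₀` with `N δ₀ = i(γ₀)`
  have key : ∀ (γ : GL (Fin 2) k) (δ : GL (Fin 2) k') (c : ℂ), Near179 γ₀ N γ →
      IsConj (twNorm s l δ) (Matrix.GeneralLinearGroup.map i γ) → IsTwOrbSum s n φ δ c →
      ∃ δ₀ : GL (Fin 2) k', twNorm s l δ₀ = Matrix.GeneralLinearGroup.map i γ₀ ∧
        IsTwOrbSum s n φ δ₀ c := by
    intro γ δ c hnear hconj hc
    obtain ⟨g, t, a, b, A, B, ha, hb, hA, hBv, ht, hγ₁', hγ⟩ := hN γ hnear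
    set γ₁ : GL (Fin 2) k := t ^ l * γ₀ with hγ₁
    -- `B` is a unit
    have hBval : Valued.v B = 1 := by
      have h1 : B = 1 + (B - 1) := by ring
      rw [h1]
      exact Valuation.map_one_add_of_lt _ (lt_of_le_of_lt hBv hM1)
    have hBne : B ≠ 0 := by
      intro h0
      rw [h0, map_zero] at hBval
      exact zero_ne_one hBval
    have hreg₁ : IsReg γ₁ := isReg_lin179 γ₀ γ₁ A B hγ₁' hBne hreg
    -- `δ` is `s`-conjugate to `δ₁` with `N δ₁ = i(γ₁)`
    obtain ⟨z, hz⟩ := isConj_iff.mp hconj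
    set x : GL (Fin 2) k' := z⁻¹ * Matrix.GeneralLinearGroup.map i g with hx
    set δ₁ : GL (Fin 2) k' := x⁻¹ * δ * glAut s x with hδ₁
    have hNδ : twNorm s l δ = z⁻¹ * Matrix.GeneralLinearGroup.map i γ * z := by
      rw [← hz]; group
    have hN₁ : twNorm s l δ₁ = Matrix.GeneralLinearGroup.map i γ₁ := by
      rw [hδ₁, H848.twNorm_twConj848 s hcyc.order x δ, hNδ, hγ, hx]
      simp only [map_mul, map_inv]
      group
    have hc₁ : IsTwOrbSum s n φ δ₁ c :=
      orbSumGen_twConj179 (glAut s) (InU n) (InTwCentC s) φ δ x hc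
    -- `δ₁` commutes with `i(t)`
    have hfix1 : glAut s (Matrix.GeneralLinearGroup.map i γ₁)
        = Matrix.GeneralLinearGroup.map i γ₁ := H166.glAut_map166 i s hcyc.fix_i γ₁
    have h1 := H848.glAut_twNorm848 s hcyc.order δ₁
    rw [hN₁, hfix1] at h1
    have hc1 : δ₁ * Matrix.GeneralLinearGroup.map i γ₁
        = Matrix.GeneralLinearGroup.map i γ₁ * δ₁ := by
      calc δ₁ * Matrix.GeneralLinearGroup.map i γ₁
          = δ₁ * (δ₁⁻¹ * Matrix.GeneralLinearGroup.map i γ₁ * δ₁) := by rw [← h1]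
        _ = Matrix.GeneralLinearGroup.map i γ₁ * δ₁ := by group
    have htγ₀ : t * γ₀ = γ₀ * t := comm_of_lin179 γ₀ t a b ht
    have htγ₁ : t * γ₁ = γ₁ * t := by
      have hc' : Commute t γ₁ := by
        rw [hγ₁]
        exact ((Commute.refl t).pow_right l).mul_right htγ₀
      exact hc'.eq
    have hct : Matrix.GeneralLinearGroup.map i t * Matrix.GeneralLinearGroup.map i γ₁
        = Matrix.GeneralLinearGroup.map i γ₁ * Matrix.GeneralLinearGroup.map i t := by
      rw [← map_mul, ← map_mul, htγ₁]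
    have hcomm : δ₁ * Matrix.GeneralLinearGroup.map i t
        = Matrix.GeneralLinearGroup.map i t * δ₁ :=
      H166.gl_comm_of_comm166 _ δ₁ _ (H166.nonscalar_map166 i γ₁ hreg₁) hc1 hct
    -- `δ₀ = i(t)⁻¹ δ₁`
    set δ₀ : GL (Fin 2) k' := (Matrix.GeneralLinearGroup.map i t)⁻¹ * δ₁ with hδ₀
    have hδ₁' : Matrix.GeneralLinearGroup.map i t * δ₀ = δ₁ := by
      rw [hδ₀]; group
    have hfixt : glAut s (Matrix.GeneralLinearGroup.map i t)⁻¹
        = (Matrix.GeneralLinearGroup.map i t)⁻¹ := by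
      rw [map_inv, H166.glAut_map166 i s hcyc.fix_i t]
    have hcomm' : δ₁ * (Matrix.GeneralLinearGroup.map i t)⁻¹
        = (Matrix.GeneralLinearGroup.map i t)⁻¹ * δ₁ := by
      have hc' : Commute δ₁ (Matrix.GeneralLinearGroup.map i t) := hcomm
      exact hc'.inv_right.eq
    have hN₀ : twNorm s l δ₀ = Matrix.GeneralLinearGroup.map i γ₀ := by
      have h2 := twN_mul_fixed179 (glAut s) (Matrix.GeneralLinearGroup.map i t)⁻¹ δ₁ hfixt
        hcomm' l
      have h3 : twNorm s l δ₀ = twN (glAut s) l ((Matrix.GeneralLinearGroup.map i t)⁻¹ * δ₁) :=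
        rfl
      have h4 : twN (glAut s) l δ₁ = Matrix.GeneralLinearGroup.map i γ₁ := hN₁
      rw [h3, h2, h4, hγ₁, map_mul, map_pow]
      group
    refine ⟨δ₀, hN₀, ?_⟩
    -- the estimates
    have ha' : Valued.v (i a - 1) ≤ WithZero.exp (-((max n 1 : ℕ) : ℤ)) := by
      have h5 : i a - 1 = i (a - 1) := by rw [map_sub, map_one]
      rw [h5]
      exact (hsmall _ ha).trans hMn
    have hb' : Valued.v (i b) * Cb ^ l ≤ WithZero.exp (-((max n 1 : ℕ) : ℤ)) := by
      calc Valued.v (i b) * Cb ^ l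
          ≤ WithZero.exp (-((n'' : ℤ) + L)) * WithZero.exp (L : ℤ) :=
            mul_le_mul' (hsmall _ hb) hCbL
        _ = WithZero.exp (-(n'' : ℤ)) := by
            rw [← WithZero.exp_add]
            congr 1
            ring
    have hA' : Valued.v (i A) ≤ 1 := (hsmall _ hA).trans hM1.le
    have hB' : Valued.v (i B) = 1 := by rw [hvi, hBval, one_pow]
    refine core179 i s l hTC hcyc hvs n φ hB.inv Cb hCb1 hCb γ₀ t γ₁ a b A B ht hγ₁ hγ₁' hreg
      ha' hb' hA' hB' δ₀ hN₀ c ?_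
    rw [hδ₁']
    exact hc₁
  intro γ γ' δ δ' c c' hb hb' hconj hconj' hc hc'
  obtain ⟨δ₀, hN₀, hc₀⟩ := key γ δ c hb hconj hc
  obtain ⟨δ₀', hN₀', hc₀'⟩ := key γ' δ' c' hb' hconj' hc'
  have hregN : IsReg (twNorm s l δ₀) := by
    rw [hN₀]
    exact isReg_map179 i γ₀ hreg
  have hconjN : IsConj (twNorm s l δ₀) (twNorm s l δ₀') := by
    rw [hN₀, hN₀']
  obtain ⟨y, hy⟩ := hNI k k' l i s hcyc δ₀ δ₀' hregN hconjN
  have hc₀'' : IsTwOrbSum s n φ δ₀' c := by
    rw [hy]
    exact orbSumGen_twConj179 (glAut s) (InU n) (InTwCentC s) φ δ₀ y hc₀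
  exact hUq k' s hvs n φ hB.inv δ₀' c c' hc₀'' hc₀'

/-- **T6.18f.6 `TwC179`** from `NearC179` alone (DONE leaves plugged). -/
theorem tw_of_near179 (hNear : NearC179) : TwC179 :=
  tw_of179 hNear H848.normInjC848 H166.twCentC166 H944.orbSumUniqC944

end Fermat.Agent.LT.T6.H179

end

end
-- ===== PACK-END LT/T6/H179/Tw.lean

-- ===== PACK-BEGIN LT/T6/H706/Ord.lean
section



/-!
# Row LT, tower T6, leaf T6.18f.5 `OrdC179` (helper706, registry row 1242)

OFF-MAIN.  `ord_of706 : NormalFormC179 → OrbSumExC → OrbSumUniqC → OrdC179`, the Prop `OrdC179`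
VERBATIM as in `LT/T6/H179/LocRegSpec.lean` (helper179, sha256 4a0ec3cb).

`f₀` = the indicator of `Ω = U(1) γ₀ U(1)`, `κ = O_{γ₀}(f₀)` (exists by `OrbSumExC`).

* `γ` near `γ₀` is conjugate to `γ₁ = a + b γ₀`, `(a, b)` near `(0, 1)` (`NormalFormC179`);
* `y ↦ a + b y` is a bijection of the class of `γ₀` onto the class of `γ₁` which commutes with
  conjugation, has the same centralisers and preserves `Ω` (`om_stable706`); so a system of
  representatives for `O_{γ₀}(f₀)` is mapped to one for `O_{γ₁}(f₀)`, with the same sum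
  (`transport706`); `OrbSumUniqC` gives `c = κ`;
* `κ ≠ 0`: the terms are `≥ 0`, and the term of the class of `γ₀` is
  `[T^c : T^c ∩ U(1)] ≥ 1` (`cIndex_pos706`).
-/

set_option autoImplicit false

open scoped Matrix

noncomputable section

namespace Fermat.Agent.LT.T6.H706

open Fermat.Agent.LT.T6 Fermat.Agent.LT.T6.H783 Fermat.Agent.LT.T6.H125
  Fermat.Agent.LT.T6.H179

variable {k : Type} [Field k] [Valued k Γ₀]

/-! ## Conjugation -/

omit [Valued k Γ₀] in
theorem conj_affine706 (x A : GL (Fin 2) k) (a b : k) :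
    ((x⁻¹ : GL (Fin 2) k) : Matrix (Fin 2) (Fin 2) k)
        * (a • (1 : Matrix (Fin 2) (Fin 2) k) + b • (A : Matrix (Fin 2) (Fin 2) k))
        * (x : Matrix (Fin 2) (Fin 2) k)
      = a • (1 : Matrix (Fin 2) (Fin 2) k)
        + b • ((x⁻¹ * A * x : GL (Fin 2) k) : Matrix (Fin 2) (Fin 2) k) := by
  have h1 : ((x⁻¹ : GL (Fin 2) k) : Matrix (Fin 2) (Fin 2) k) * (x : Matrix (Fin 2) (Fin 2) k)
      = 1 := by
    rw [← Matrix.GeneralLinearGroup.coe_mul, inv_mul_cancel]
    rfl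
  rw [Matrix.GeneralLinearGroup.coe_mul, Matrix.GeneralLinearGroup.coe_mul, Matrix.mul_add,
    Matrix.add_mul, Matrix.mul_smul, Matrix.smul_mul, Matrix.mul_one, h1, Matrix.mul_smul,
    Matrix.smul_mul]

omit [Valued k Γ₀] in
theorem isReg_conj706 {γ : GL (Fin 2) k} (h : IsReg γ) (x : GL (Fin 2) k) :
    IsReg (x * γ * x⁻¹) := by
  unfold IsReg disc at h ⊢
  have e : ((x * γ * x⁻¹ : GL (Fin 2) k) : Matrix (Fin 2) (Fin 2) k)
      = ((x : (Matrix (Fin 2) (Fin 2) k)ˣ) : Matrix (Fin 2) (Fin 2) k)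
        * (γ : Matrix (Fin 2) (Fin 2) k)
        * ((x⁻¹ : (Matrix (Fin 2) (Fin 2) k)ˣ) : Matrix (Fin 2) (Fin 2) k) := by
    rw [Matrix.GeneralLinearGroup.coe_mul, Matrix.GeneralLinearGroup.coe_mul]
  rw [e, Matrix.trace_units_conj, Matrix.det_units_conj]
  exact h

/-! ## Orbit sums only depend on the conjugacy class -/

theorem isOrbSum_conj706 {m : ℕ} {f : GL (Fin 2) k → ℂ} {δ : GL (Fin 2) k} {κ : ℂ}
    (h : IsOrbSum m f δ κ) (g : GL (Fin 2) k) : IsOrbSum m f (g * δ * g⁻¹) κ := by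
  unfold IsOrbSum IsTwOrbSum IsOrbSumGen at h ⊢
  simp only [glAut_refl706] at h ⊢
  obtain ⟨R, h1, h2, h3, h4⟩ := h
  refine ⟨R, fun y hy => ?_, h2, fun y hy hfy => ?_, h4⟩
  · obtain ⟨x, rfl⟩ := h1 y hy
    exact ⟨g * x, by group⟩
  · obtain ⟨x, rfl⟩ := hy
    exact h3 _ ⟨g⁻¹ * x, by group⟩ hfy

/-! ## Transport along `y ↦ a + b y` -/

/-- Transport of an orbit-sum representation along `y ↦ a + b y` (`b ≠ 0`), for a function which
is invariant under this map on the class of `γ₀`. -/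
theorem transport706 {m : ℕ} {f : GL (Fin 2) k → ℂ} {γ₀ γ₁ : GL (Fin 2) k} {a b : k}
    (hb : b ≠ 0)
    (hγ₁ : (γ₁ : Matrix (Fin 2) (Fin 2) k)
      = a • (1 : Matrix (Fin 2) (Fin 2) k) + b • (γ₀ : Matrix (Fin 2) (Fin 2) k))
    (hf : ∀ y z : GL (Fin 2) k, (∃ x : GL (Fin 2) k, y = x⁻¹ * γ₀ * x) →
      (z : Matrix (Fin 2) (Fin 2) k)
        = a • (1 : Matrix (Fin 2) (Fin 2) k) + b • (y : Matrix (Fin 2) (Fin 2) k) →
      f z = f y)
    {κ : ℂ} (hκ : IsOrbSum m f γ₀ κ) : IsOrbSum m f γ₁ κ := by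
  classical
  unfold IsOrbSum IsTwOrbSum IsOrbSumGen at hκ ⊢
  simp only [glAut_refl706] at hκ ⊢
  obtain ⟨R₀, h1, h2, h3, h4⟩ := hκ
  let Ψ : GL (Fin 2) k → GL (Fin 2) k := fun y =>
    if h : ∃ x : GL (Fin 2) k, y = x⁻¹ * γ₀ * x then
      (Classical.choose h)⁻¹ * γ₁ * Classical.choose h else 1
  have hΨ : ∀ y : GL (Fin 2) k, (∃ x : GL (Fin 2) k, y = x⁻¹ * γ₀ * x) →
      ((Ψ y : GL (Fin 2) k) : Matrix (Fin 2) (Fin 2) k)
        = a • (1 : Matrix (Fin 2) (Fin 2) k) + b • (y : Matrix (Fin 2) (Fin 2) k) := by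
    intro y hy
    have hx := Classical.choose_spec hy
    simp only [Ψ, dif_pos hy]
    rw [Matrix.GeneralLinearGroup.coe_mul, Matrix.GeneralLinearGroup.coe_mul, hγ₁,
      conj_affine706, ← hx]
  have hΨcl : ∀ y : GL (Fin 2) k, (∃ x : GL (Fin 2) k, y = x⁻¹ * γ₀ * x) →
      ∃ x : GL (Fin 2) k, Ψ y = x⁻¹ * γ₁ * x := by
    intro y hy
    exact ⟨Classical.choose hy, by simp only [Ψ, dif_pos hy]⟩
  have hinj : ∀ y y' : GL (Fin 2) k, (∃ x : GL (Fin 2) k, y = x⁻¹ * γ₀ * x) →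
      (∃ x : GL (Fin 2) k, y' = x⁻¹ * γ₀ * x) → Ψ y = Ψ y' → y = y' := by
    intro y y' hy hy' h
    have e := congrArg (fun z : GL (Fin 2) k => (z : Matrix (Fin 2) (Fin 2) k)) h
    simp only [hΨ y hy, hΨ y' hy'] at e
    have e2 := add_left_cancel e
    have e3 : (y : Matrix (Fin 2) (Fin 2) k) = (y' : Matrix (Fin 2) (Fin 2) k) :=
      smul_right_injective _ hb e2
    exact Units.ext e3
  have hcl : ∀ (y u : GL (Fin 2) k), (∃ x : GL (Fin 2) k, y = x⁻¹ * γ₀ * x) →
      ∃ x : GL (Fin 2) k, u⁻¹ * y * u = x⁻¹ * γ₀ * x := by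
    rintro y u ⟨x, rfl⟩
    exact ⟨x * u, by group⟩
  have hequiv : ∀ (y u : GL (Fin 2) k), (∃ x : GL (Fin 2) k, y = x⁻¹ * γ₀ * x) →
      Ψ (u⁻¹ * y * u) = u⁻¹ * Ψ y * u := by
    intro y u hy
    apply Units.ext
    rw [hΨ _ (hcl y u hy)]
    rw [show ((u⁻¹ * Ψ y * u : GL (Fin 2) k) : Matrix (Fin 2) (Fin 2) k)
      = ((u⁻¹ : GL (Fin 2) k) : Matrix (Fin 2) (Fin 2) k)
        * ((Ψ y : GL (Fin 2) k) : Matrix (Fin 2) (Fin 2) k)
        * (u : Matrix (Fin 2) (Fin 2) k) from by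
        rw [Matrix.GeneralLinearGroup.coe_mul, Matrix.GeneralLinearGroup.coe_mul]]
    rw [hΨ y hy, conj_affine706]
  have hsurj : ∀ z : GL (Fin 2) k, (∃ x : GL (Fin 2) k, z = x⁻¹ * γ₁ * x) →
      ∃ y : GL (Fin 2) k, (∃ x : GL (Fin 2) k, y = x⁻¹ * γ₀ * x) ∧ Ψ y = z := by
    rintro z ⟨x, rfl⟩
    refine ⟨x⁻¹ * γ₀ * x, ⟨x, rfl⟩, ?_⟩
    apply Units.ext
    rw [hΨ _ ⟨x, rfl⟩]
    rw [show ((x⁻¹ * γ₁ * x : GL (Fin 2) k) : Matrix (Fin 2) (Fin 2) k)
      = ((x⁻¹ : GL (Fin 2) k) : Matrix (Fin 2) (Fin 2) k)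
        * (γ₁ : Matrix (Fin 2) (Fin 2) k)
        * (x : Matrix (Fin 2) (Fin 2) k) from by
        rw [Matrix.GeneralLinearGroup.coe_mul, Matrix.GeneralLinearGroup.coe_mul]]
    rw [hγ₁, conj_affine706]
  have hcent : ∀ y : GL (Fin 2) k, (∃ x : GL (Fin 2) k, y = x⁻¹ * γ₀ * x) →
      cIndex (InU m) (InTwCentC (RingEquiv.refl k)) (Ψ y)
        = cIndex (InU m) (InTwCentC (RingEquiv.refl k)) y := by
    intro y hy
    unfold cIndex
    congr 1
    ext c
    simp only [Set.mem_ofPred_eq]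
    refine exists_congr fun t => and_congr_left fun _ => ?_
    rw [inTwCentC_refl_iff706, inTwCentC_refl_iff706]
    refine and_congr_left fun _ => ?_
    rw [← hequiv y t hy]
    constructor
    · intro h
      exact hinj _ _ (hcl y t hy) hy h
    · intro h
      rw [h]
  have hfΨ : ∀ y : GL (Fin 2) k, (∃ x : GL (Fin 2) k, y = x⁻¹ * γ₀ * x) → f (Ψ y) = f y :=
    fun y hy => hf y (Ψ y) hy (hΨ y hy)
  refine ⟨R₀.image Ψ, ?_, ?_, ?_, ?_⟩
  · intro z hz
    obtain ⟨y, hy, rfl⟩ := Finset.mem_image.1 hz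
    exact hΨcl y (h1 y hy)
  · intro z hz z' hz' hzz'
    obtain ⟨y, hy, rfl⟩ := Finset.mem_image.1 hz
    obtain ⟨y', hy', rfl⟩ := Finset.mem_image.1 hz'
    obtain ⟨u, hu, huz⟩ := hzz'
    rw [← hequiv y u (h1 y hy)] at huz
    have e := hinj _ _ (h1 y' hy') (hcl y u (h1 y hy)) huz
    rw [h2 y hy y' hy' ⟨u, hu, e⟩]
  · intro z hz hfz
    obtain ⟨y, hy, rfl⟩ := hsurj z hz
    rw [hfΨ y hy] at hfz
    obtain ⟨y', hy', u, hu, rfl⟩ := h3 y hy hfz
    exact ⟨Ψ y', Finset.mem_image_of_mem Ψ hy', u, hu, hequiv y' u (h1 y' hy')⟩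
  · rw [h4, Finset.sum_image]
    · refine Finset.sum_congr rfl fun y hy => ?_
      rw [hfΨ y (h1 y hy), hcent y (h1 y hy)]
    · intro y hy y' hy' h
      exact hinj y y' (h1 y hy) (h1 y' hy') h

/-! ## The leaf -/

theorem isLocalExt_refl706 : IsLocalExt k k 1 1 (RingHom.id k) (RingEquiv.refl k) where
  cyc :=
    { pos := Nat.one_pos
      fix_i := fun _ => rfl
      fixed := fun y _ => ⟨y, rfl⟩
      order := fun _ => rfl
      faithful := fun m h0 h1 => absurd h1 (by omega) }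
  e_pos := Nat.one_pos
  val_i := fun x => by simp
  val_s := fun _ => rfl

omit [Valued k Γ₀] in
theorem twNorm_one706 (δ : GL (Fin 2) k) : twNorm (RingEquiv.refl k) 1 δ = δ := by
  simp [twNorm, twN]

/-- **T6.18f.5** `OrdC179` from `NormalFormC179`, `OrbSumExC`, `OrbSumUniqC`. -/
theorem ord_of706 (hNF : NormalFormC179) (hEx : OrbSumExC) (hUq : OrbSumUniqC) : OrdC179 := by
  intro k _ _ q hk γ₀ hreg
  classical
  obtain ⟨B₀, hB₀0, hB₀⟩ := exists_entry_bound706 (γ₀ : Matrix (Fin 2) (Fin 2) k)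
  obtain ⟨B₀', hB₀'0, hB₀'⟩ :=
    exists_entry_bound706 ((γ₀⁻¹ : GL (Fin 2) k) : Matrix (Fin 2) (Fin 2) k)
  obtain ⟨N, hN⟩ := hNF k q hk γ₀ hreg (B₀ + B₀' + 1)
  have hk1 : IsLocalField k (q ^ (1 / 1)) := by simpa using hk
  have hinv := ind_biInv706 1 γ₀
  have hsupp := ind_finSupp706 hk 1 γ₀
  obtain ⟨κ, hκ⟩ := hEx k k q 1 1 (RingHom.id k) (RingEquiv.refl k) hk hk1 isLocalExt_refl706
    1 (ind706 1 γ₀) hinv hsupp γ₀ (by rw [twNorm_one706]; exact hreg)
  have hκ' : IsOrbSum 1 (ind706 1 γ₀) γ₀ κ := hκ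
  refine ⟨N, 1, ind706 1 γ₀, κ, ?_, hinv, hsupp, ?_⟩
  · -- `κ ≠ 0`
    have hκ2 := hκ'
    unfold IsOrbSum IsTwOrbSum IsOrbSumGen at hκ2
    simp only [glAut_refl706] at hκ2
    obtain ⟨R₀, h1, h2, h3, h4⟩ := hκ2
    obtain ⟨y', hy'R, u, hu, hyu⟩ := h3 γ₀ ⟨1, by group⟩
      (ind_ne_zero_iff706.2 (om_self706 1 γ₀))
    have hy' : y' = u * γ₀ * u⁻¹ := by rw [hyu]; group
    have hΩ : Om706 1 γ₀ y' := by
      rw [hy']
      exact om_mul706 (om_self706 1 γ₀) hu (inU_inv706 hu)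
    have hregy' : IsReg y' := by
      rw [hy']
      exact isReg_conj706 hreg u
    have hpos := cIndex_pos706 hk 1 hregy'
    have hterm : ∀ y : GL (Fin 2) k, ind706 1 γ₀ y
        * (cIndex (InU 1) (InTwCentC (RingEquiv.refl k)) y : ℂ)
        = (((if Om706 1 γ₀ y then cIndex (InU 1) (InTwCentC (RingEquiv.refl k)) y else 0 : ℕ)
          : ℕ) : ℂ) := by
      intro y
      unfold ind706
      by_cases h : Om706 1 γ₀ y
      · simp [h]
      · simp [h]
    rw [h4, Finset.sum_congr rfl (fun y _ => hterm y), ← Nat.cast_sum, Nat.cast_ne_zero]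
    apply ne_of_gt
    refine lt_of_lt_of_le ?_ (Finset.single_le_sum
      (f := fun y => if Om706 1 γ₀ y then cIndex (InU 1) (InTwCentC (RingEquiv.refl k)) y else 0)
      (fun _ _ => Nat.zero_le _) hy'R)
    simp only [hΩ, if_true]
    exact hpos
  · intro γ c hnear hc
    obtain ⟨g, a, b, ha, hb, hmat⟩ := hN γ hnear
    have hM1 : (WithZero.exp (-(B₀ + B₀' + 1)) : Γ₀) < 1 := by
      rw [← WithZero.exp_zero]
      exact WithZero.exp_lt_exp.2 (by omega)
    have hvb : Valued.v b = 1 := by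
      have e : b = 1 + (b - 1) := by ring
      rw [e]
      exact Valuation.map_one_add_of_lt _ (lt_of_le_of_lt hb hM1)
    have hb0 : b ≠ 0 := by
      intro h
      rw [h, map_zero] at hvb
      exact zero_ne_one hvb
    -- the perturbation is small
    have hsmall : ∀ (w : Matrix (Fin 2) (Fin 2) k),
        (∀ i j, Valued.v (w i j) ≤ WithZero.exp B₀) → ∀ i j,
        Valued.v (a * (1 : Matrix (Fin 2) (Fin 2) k) i j + (b - 1) * w i j)
          ≤ WithZero.exp (-(B₀' + 1)) := by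
      intro w hw i j
      refine v_add_le125 ?_ ?_
      · have := v_mul_le125 ha (v_one_entry125 (k := k) i j)
        rw [mul_one] at this
        exact this.trans (WithZero.exp_le_exp.2 (by omega))
      · have := v_mul_le125 hb (hw i j)
        rw [← WithZero.exp_add] at this
        exact this.trans (WithZero.exp_le_exp.2 (by omega))
    have hf : ∀ y z : GL (Fin 2) k, (∃ x : GL (Fin 2) k, y = x⁻¹ * γ₀ * x) →
        (z : Matrix (Fin 2) (Fin 2) k)
          = a • (1 : Matrix (Fin 2) (Fin 2) k) + b • (y : Matrix (Fin 2) (Fin 2) k) →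
        ind706 1 γ₀ z = ind706 1 γ₀ y := by
      intro y z _ hz
      have hzij : ∀ i j, (z : Matrix (Fin 2) (Fin 2) k) i j
          = a * (1 : Matrix (Fin 2) (Fin 2) k) i j
            + b * (y : Matrix (Fin 2) (Fin 2) k) i j := by
        intro i j
        rw [hz]
        simp [Matrix.add_apply, Matrix.smul_apply]
      apply ind_eq_of_iff706
      constructor
      · -- `z ∈ Ω → y ∈ Ω`
        intro hzΩ
        refine om_stable706 (le_refl 1) hB₀' (L := B₀' + 1) (by push_cast; omega) hzΩ ?_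
        intro i j
        have e : (y : Matrix (Fin 2) (Fin 2) k) i j - (z : Matrix (Fin 2) (Fin 2) k) i j
            = b⁻¹ * -(a * (1 : Matrix (Fin 2) (Fin 2) k) i j
              + (b - 1) * (z : Matrix (Fin 2) (Fin 2) k) i j) := by
          rw [hzij i j]
          field_simp
          ring
        rw [e, map_mul, map_inv₀, hvb, inv_one, one_mul, Valuation.map_neg]
        exact hsmall _ (om_entry706 hB₀ hzΩ) i j
      · -- `y ∈ Ω → z ∈ Ω`
        intro hyΩ
        refine om_stable706 (le_refl 1) hB₀' (L := B₀' + 1) (by push_cast; omega) hyΩ ?_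
        intro i j
        have e : (z : Matrix (Fin 2) (Fin 2) k) i j - (y : Matrix (Fin 2) (Fin 2) k) i j
            = a * (1 : Matrix (Fin 2) (Fin 2) k) i j
              + (b - 1) * (y : Matrix (Fin 2) (Fin 2) k) i j := by
          rw [hzij i j]
          ring
        rw [e]
        exact hsmall _ (om_entry706 hB₀ hyΩ) i j
    have h1 : IsOrbSum 1 (ind706 1 γ₀) (g⁻¹ * γ * g) κ := transport706 hb0 hmat hf hκ'
    have h2 : IsOrbSum 1 (ind706 1 γ₀) γ κ := by
      have := isOrbSum_conj706 h1 g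
      have e : g * (g⁻¹ * γ * g) * g⁻¹ = γ := by group
      rwa [e] at this
    exact hUq k (RingEquiv.refl k) (fun _ => rfl) 1 (ind706 1 γ₀) hinv γ c κ hc h2

end Fermat.Agent.LT.T6.H706

end

end
-- ===== PACK-END LT/T6/H706/Ord.lean

-- ===== PACK-BEGIN LT/T6/H886/ConjSmall.lean
section


/-!
# Row LT, tower T6, leaf T6.18i.6f `ConjSmallC385` (helper886, registry 1428)

OFF-MAIN.  Imports (byte-identical copy): `LT/T6/H385/DescSpec.lean` (helper385@51fcfaf6f,
sha256 ef4c48b7...) with its closure (`QuatSpec`, `T6/Spec` v3, `H783/BadSpec`, `H288/HypSpec`,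
`H159/{NormSpec,VanishSpec}`).

**Conjugation by a fixed element is continuous at `1`**: for every `x₀ ∈ GL₂(k')` and every `n`
there is `M'` with `x₀⁻¹ U(M') x₀ ⊂ U(n)`.

* `conjSmallC886 : H385.ConjSmallC385` (VERBATIM).

Proof.  The entries of `x₀` and of `x₀⁻¹` have valuation `≤ exp B`; `M' = n + 2 B`;
`x₀⁻¹ g x₀ - 1 = x₀⁻¹ (g - 1) x₀` and `(x₀⁻¹ g x₀)⁻¹ - 1 = x₀⁻¹ (g⁻¹ - 1) x₀`, ultrametric
inequality.  Any field with a valuation in `ℤᵐ⁰` (no completeness, no discreteness).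
-/

set_option autoImplicit false

open scoped Matrix

noncomputable section

namespace Fermat.Agent.LT.T6.H886

open Fermat.Agent.LT.T6 Fermat.Agent.LT.T6.H385

/-- Every element of `ℤᵐ⁰` is bounded by `exp B` for some natural number `B`. -/
theorem exists_nat_le_exp886 (γ : Γ₀) : ∃ B : ℕ, γ ≤ WithZero.exp (B : ℤ) := by
  rcases eq_or_ne γ 0 with h | h
  · exact ⟨0, by rw [h]; exact zero_le⟩
  · refine ⟨(WithZero.log γ).toNat, ?_⟩
    calc γ = WithZero.exp (WithZero.log γ) := (WithZero.exp_log h).symm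
      _ ≤ WithZero.exp (((WithZero.log γ).toNat : ℕ) : ℤ) :=
        WithZero.exp_le_exp.mpr (Int.self_le_toNat _)

variable {k : Type} [Field k] [Valued k Γ₀]

/-- The entries of a `2 × 2` matrix are bounded by `exp B` for some natural number `B`. -/
theorem exists_entry_bound886 (A : Matrix (Fin 2) (Fin 2) k) :
    ∃ B : ℕ, ∀ i j : Fin 2, Valued.v (A i j) ≤ WithZero.exp (B : ℤ) := by
  choose b hb using fun p : Fin 2 × Fin 2 => exists_nat_le_exp886 (Valued.v (A p.1 p.2))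
  refine ⟨∑ p : Fin 2 × Fin 2, b p, fun i j => (hb (i, j)).trans ?_⟩
  refine WithZero.exp_le_exp.mpr ?_
  have : b (i, j) ≤ ∑ p : Fin 2 × Fin 2, b p :=
    Finset.single_le_sum (f := b) (fun _ _ => Nat.zero_le _) (Finset.mem_univ (i, j))
  exact_mod_cast this

/-- The ultrametric estimate for a product of three matrices. -/
theorem valued_mul_mul_le886 (X D Y : Matrix (Fin 2) (Fin 2) k) (B M : ℕ)
    (hX : ∀ i j : Fin 2, Valued.v (X i j) ≤ WithZero.exp (B : ℤ))
    (hY : ∀ i j : Fin 2, Valued.v (Y i j) ≤ WithZero.exp (B : ℤ))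
    (hD : ∀ i j : Fin 2, Valued.v (D i j) ≤ WithZero.exp (-(M : ℤ))) (i j : Fin 2) :
    Valued.v ((X * D * Y) i j) ≤ WithZero.exp ((B : ℤ) + -(M : ℤ) + (B : ℤ)) := by
  rw [Matrix.mul_apply]
  refine Valuation.map_sum_le _ fun b _ => ?_
  rw [map_mul, Matrix.mul_apply, WithZero.exp_add]
  refine mul_le_mul' ?_ (hY b j)
  refine Valuation.map_sum_le _ fun a _ => ?_
  rw [map_mul, WithZero.exp_add]
  exact mul_le_mul' (hX i a) (hD a b)

omit [Valued k Γ₀] in
/-- Conjugation and subtraction of `1`. -/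
theorem conj_sub_one886 (x g : GL (Fin 2) k) :
    ((x⁻¹ * g * x : GL (Fin 2) k) : Matrix (Fin 2) (Fin 2) k) - 1
      = ((x⁻¹ : GL (Fin 2) k) : Matrix (Fin 2) (Fin 2) k)
        * ((g : Matrix (Fin 2) (Fin 2) k) - 1) * (x : Matrix (Fin 2) (Fin 2) k) := by
  have h1 : ((x⁻¹ : GL (Fin 2) k) : Matrix (Fin 2) (Fin 2) k) * (x : Matrix (Fin 2) (Fin 2) k)
      = 1 := by
    rw [← Matrix.GeneralLinearGroup.coe_mul, inv_mul_cancel]
    rfl
  rw [Matrix.GeneralLinearGroup.coe_mul, Matrix.GeneralLinearGroup.coe_mul, Matrix.mul_sub,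
    Matrix.sub_mul, Matrix.mul_one, h1]

/-- **Leaf T6.18i.6f** (helper385 `DescSpec.lean`), VERBATIM: conjugation by a fixed element is
continuous at `1`. -/
theorem conjSmallC886 : ConjSmallC385 := by
  intro k' _ _ x₀ n
  obtain ⟨B₁, hB₁⟩ := exists_entry_bound886 (x₀ : Matrix (Fin 2) (Fin 2) k')
  obtain ⟨B₂, hB₂⟩ :=
    exists_entry_bound886 ((x₀⁻¹ : GL (Fin 2) k') : Matrix (Fin 2) (Fin 2) k')
  have hX : ∀ i j : Fin 2, Valued.v (((x₀⁻¹ : GL (Fin 2) k') : Matrix (Fin 2) (Fin 2) k') i j)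
      ≤ WithZero.exp (((B₁ + B₂ : ℕ) : ℕ) : ℤ) := fun i j =>
    (hB₂ i j).trans (WithZero.exp_le_exp.mpr (by push_cast; omega))
  have hY : ∀ i j : Fin 2, Valued.v ((x₀ : Matrix (Fin 2) (Fin 2) k') i j)
      ≤ WithZero.exp (((B₁ + B₂ : ℕ) : ℕ) : ℤ) := fun i j =>
    (hB₁ i j).trans (WithZero.exp_le_exp.mpr (by push_cast; omega))
  refine ⟨n + 2 * (B₁ + B₂), fun g hg => ?_⟩
  have key : ∀ h : GL (Fin 2) k',
      (∀ i j : Fin 2, Valued.v ((h : Matrix (Fin 2) (Fin 2) k') i j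
        - (1 : Matrix (Fin 2) (Fin 2) k') i j)
          ≤ WithZero.exp (-((n + 2 * (B₁ + B₂) : ℕ) : ℤ))) →
      ∀ i j : Fin 2, Valued.v (((x₀⁻¹ * h * x₀ : GL (Fin 2) k') : Matrix (Fin 2) (Fin 2) k') i j
        - (1 : Matrix (Fin 2) (Fin 2) k') i j) ≤ WithZero.exp (-(n : ℤ)) := by
    intro h hh i j
    have e : ((x₀⁻¹ * h * x₀ : GL (Fin 2) k') : Matrix (Fin 2) (Fin 2) k') i j
        - (1 : Matrix (Fin 2) (Fin 2) k') i j
        = (((x₀⁻¹ : GL (Fin 2) k') : Matrix (Fin 2) (Fin 2) k')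
          * ((h : Matrix (Fin 2) (Fin 2) k') - 1) * (x₀ : Matrix (Fin 2) (Fin 2) k')) i j := by
      rw [← conj_sub_one886, Matrix.sub_apply]
    rw [e]
    refine (valued_mul_mul_le886 _ _ _ (B₁ + B₂) (n + 2 * (B₁ + B₂)) hX hY
      (fun a b => by rw [Matrix.sub_apply]; exact hh a b) i j).trans ?_
    refine WithZero.exp_le_exp.mpr ?_
    push_cast
    omega
  intro i j
  refine ⟨key g (fun a b => (hg a b).1) i j, ?_⟩
  have e2 : (x₀⁻¹ * g * x₀)⁻¹ = x₀⁻¹ * g⁻¹ * x₀ := by group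
  rw [e2]
  exact key g⁻¹ (fun a b => (hg a b).2) i j

end Fermat.Agent.LT.T6.H886

end
end
-- ===== PACK-END LT/T6/H886/ConjSmall.lean

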