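import Mathlib
import Fermat.Agent.Pack.LT3.E8L2
import Fermat.Agent.Pack.LT3.E12L3
import Fermat.Agent.Pack.LT3.E12L0
import Fermat.Agent.Pack.LT3.E9L1
import Fermat.Agent.Pack.LT3.E9L2
import Fermat.Agent.Pack.LT2.E0L1
import Fermat.Agent.Pack.LT3.E12L2
import Fermat.Agent.Pack.LT3.E9L3
import Fermat.Agent.Pack.LT3.E4L2
import Fermat.Agent.Pack.LT3.E12L1
import Fermat.Agent.Pack.LT3.E9L0
import Fermat.Agent.Pack.LT2.E8L0
import Fermat.Agent.Pack.LT3.E13L2
import Fermat.Agent.Pack.LT3.E6L1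
import Fermat.Agent.Pack.LT3.E14L3

set_option linter.all false

-- ===== PACK-BEGIN LT/T2/H90/SpherePres.lean
section




/-!
# Row LT, tower T2, sub-leaf T2.07.12 `SubSpherePres429` (helper90) -- OFF-MAIN

`subSpherePres_h90 : SubS2Rot429 → SubLocCont429 K → SubSpherePres429 K`:
sphere means at a complex place preserve the cusp functions of level `U(𝔫)`.

Inputs: the auxiliary sub-leaves T2.07.30 (`SubLocCont429`) and T2.07.31 (`SubS2Rot429`) of
`LT/T2/H429/OpsSpec.lean`, as announced in the doc-comment of T2.07.12.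
-/

set_option autoImplicit false
set_option linter.unusedSectionVars false
set_option linter.style.haveILetI false

open IsDedekindDomain NumberField MeasureTheory
open Fermat.Agent.LT.H556.A0
open Fermat.Agent.LT.T2 Fermat.Agent.LT.T2.H429
open scoped Pointwise

noncomputable section

namespace Fermat.Agent.LT.T2.H90

variable {K : Type} [Field K] [NumberField K]

/-! ## 4. Continuity of the parametrisation -/

theorem continuous_rotZ_h90 : Continuous rotZ := by
  unfold rotZ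
  refine continuous_matrix ?_
  intro i j
  fin_cases i <;> fin_cases j <;> simp <;> fun_prop

theorem continuous_rotY_h90 : Continuous rotY := by
  unfold rotY
  refine continuous_matrix ?_
  intro i j
  fin_cases i <;> fin_cases j <;> simp <;> fun_prop

/-- The parametrisation of a sphere is continuous. -/
theorem continuous_sphere_h90 (hLC : SubLocCont429 K) {w : InfinitePlace K} {d : ℝ}
    {Y : ℝ → ℝ → G K} (hY : IsSphereAt w d Y) :
    Continuous fun p : ℝ × ℝ => Y p.1 p.2 := by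
  refine hLC w (ℝ × ℝ) _ (fun p => (hY p.1 p.2).1) ?_
  intro i j
  have h : (fun p : ℝ × ℝ => infComp w (Y p.1 p.2) i j)
      = fun p : ℝ × ℝ => (rotZ p.1 * rotY p.2 * torus d) i j := by
    funext p
    rw [(hY p.1 p.2).2]
  rw [h]
  have h1 : Continuous fun p : ℝ × ℝ => rotZ p.1 * rotY p.2 * torus d :=
    ((continuous_rotZ_h90.comp continuous_fst).mul (continuous_rotY_h90.comp continuous_snd)).mul
      continuous_const
  exact (continuous_apply_apply i j).comp h1

/-! ## 5. Continuity and boundedness of the mean -/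

theorem continuous_integrand_h90 {X : Type} [TopologicalSpace X] {a : X → G K}
    (ha : Continuous a) {φ : G K → ℂ} (hφ : Continuous φ) {Y : ℝ → ℝ → G K}
    (hYc : Continuous fun p : ℝ × ℝ => Y p.1 p.2) :
    Continuous fun q : (X × ℝ) × ℝ => φ (a q.1.1 * Y q.1.2 q.2) * ((Real.sin q.2 : ℝ) : ℂ) := by
  have h0 : Continuous fun q : (X × ℝ) × ℝ => a q.1.1 :=
    ha.comp (continuous_fst.comp continuous_fst)
  have h1 : Continuous fun q : (X × ℝ) × ℝ => Y q.1.2 q.2 :=
    hYc.comp ((continuous_snd.comp continuous_fst).prodMk continuous_snd)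
  have h2 : Continuous fun q : (X × ℝ) × ℝ => a q.1.1 * Y q.1.2 q.2 := h0.mul h1
  exact (hφ.comp h2).mul
    (Complex.continuous_ofReal.comp (Real.continuous_sin.comp continuous_snd))

theorem continuous_inner_h90 {X : Type} [TopologicalSpace X] {a : X → G K}
    (ha : Continuous a) {φ : G K → ℂ} (hφ : Continuous φ) {Y : ℝ → ℝ → G K}
    (hYc : Continuous fun p : ℝ × ℝ => Y p.1 p.2) :
    Continuous fun p : X × ℝ =>
      ∫ β in (0 : ℝ)..Real.pi, φ (a p.1 * Y p.2 β) * ((Real.sin β : ℝ) : ℂ) :=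
  intervalIntegral.continuous_parametric_intervalIntegral_of_continuous'
    (f := fun (p : X × ℝ) (β : ℝ) => φ (a p.1 * Y p.2 β) * ((Real.sin β : ℝ) : ℂ))
    (continuous_integrand_h90 ha hφ hYc) 0 Real.pi

theorem continuous_outer_h90 {X : Type} [TopologicalSpace X] {a : X → G K}
    (ha : Continuous a) {φ : G K → ℂ} (hφ : Continuous φ) {Y : ℝ → ℝ → G K}
    (hYc : Continuous fun p : ℝ × ℝ => Y p.1 p.2) :
    Continuous fun x : X => ∫ α in (0 : ℝ)..(2 * Real.pi),
      ∫ β in (0 : ℝ)..Real.pi, φ (a x * Y α β) * ((Real.sin β : ℝ) : ℂ) :=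
  intervalIntegral.continuous_parametric_intervalIntegral_of_continuous'
    (f := fun (x : X) (α : ℝ) =>
      ∫ β in (0 : ℝ)..Real.pi, φ (a x * Y α β) * ((Real.sin β : ℝ) : ℂ))
    (continuous_inner_h90 ha hφ hYc) 0 (2 * Real.pi)

theorem continuous_sphereMean_h90 {φ : G K → ℂ} (hφ : Continuous φ) {Y : ℝ → ℝ → G K}
    (hYc : Continuous fun p : ℝ × ℝ => Y p.1 p.2) : Continuous (sphereMean Y φ) :=
  continuous_outer_h90 (a := fun g : G K => g) continuous_id hφ hYc

theorem norm_inner_le_h90 {φ : G K → ℂ} {C : ℝ} (hC : ∀ g : G K, ‖φ g‖ ≤ C)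
    (Y : ℝ → ℝ → G K) (g : G K) (α : ℝ) :
    ‖∫ β in (0 : ℝ)..Real.pi, φ (g * Y α β) * ((Real.sin β : ℝ) : ℂ)‖ ≤ C * Real.pi := by
  have h := intervalIntegral.norm_integral_le_of_norm_le_const (a := (0 : ℝ)) (b := Real.pi)
    (C := C) (f := fun β => φ (g * Y α β) * ((Real.sin β : ℝ) : ℂ)) (by
      intro β _
      rw [norm_mul, Complex.norm_real]
      have h1 : ‖Real.sin β‖ ≤ 1 := by
        rw [Real.norm_eq_abs]
        exact Real.abs_sin_le_one β
      have h0 : 0 ≤ C := (norm_nonneg _).trans (hC 1)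
      calc ‖φ (g * Y α β)‖ * ‖Real.sin β‖ ≤ C * 1 :=
            mul_le_mul (hC _) h1 (norm_nonneg _) h0
        _ = C := mul_one C)
  rwa [sub_zero, abs_of_pos Real.pi_pos] at h

theorem bdd_sphereMean_h90 {φ : G K → ℂ} (hφ : ∃ C : ℝ, ∀ g : G K, ‖φ g‖ ≤ C)
    (Y : ℝ → ℝ → G K) : ∃ C : ℝ, ∀ g : G K, ‖sphereMean Y φ g‖ ≤ C := by
  obtain ⟨C, hC⟩ := hφ
  refine ⟨C * Real.pi * (2 * Real.pi), fun g => ?_⟩
  have h := intervalIntegral.norm_integral_le_of_norm_le_const (a := (0 : ℝ))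
    (b := 2 * Real.pi) (C := C * Real.pi)
    (f := fun α => ∫ β in (0 : ℝ)..Real.pi, φ (g * Y α β) * ((Real.sin β : ℝ) : ℂ))
    (fun α _ => norm_inner_le_h90 hC Y g α)
  rwa [sub_zero, abs_of_pos (by positivity : (0 : ℝ) < 2 * Real.pi)] at h

/-! ## 6. The invariances which follow from commutation -/

theorem sphereMean_congr_h90 {φ : G K → ℂ} {Y : ℝ → ℝ → G K} {g g' : G K}
    (h : ∀ α β : ℝ, φ (g * Y α β) = φ (g' * Y α β)) :
    sphereMean Y φ g = sphereMean Y φ g' := by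
  unfold sphereMean
  simp only [h]

theorem sphereMean_right_h90 {φ : G K → ℂ} {Y : ℝ → ℝ → G K} {u : G K}
    (hcomm : ∀ α β : ℝ, u * Y α β = Y α β * u) (hinv : ∀ g : G K, φ (g * u) = φ g) (g : G K) :
    sphereMean Y φ (g * u) = sphereMean Y φ g := by
  refine sphereMean_congr_h90 fun α β => ?_
  rw [mul_assoc, hcomm α β, ← mul_assoc, hinv]

/-! ## 7. Invariance under `U(2)` at the place of the mean -/

theorem infComp_one_h90 (w : InfinitePlace K) : infComp w (1 : G K) = 1 := by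
  rw [infComp_eq_map_h90]
  have h : infRaw_h90 w (1 : G K) = 1 := by
    unfold infRaw_h90
    rw [Units.val_one, Matrix.map_one _ (map_zero _) (map_one _)]
  rw [h, Matrix.map_one _ (map_zero _) (map_one _)]

theorem det_infComp_ne_zero_h90 (w : InfinitePlace K) (y : G K) : (infComp w y).det ≠ 0 := by
  have h : infComp w y * infComp w y⁻¹ = 1 := by
    rw [← infComp_mul_h90, mul_inv_cancel, infComp_one_h90]
  exact (Matrix.isUnit_det_of_right_inverse h).ne_zero

theorem det_ne_zero_of_unitary_h90 {k : Matrix (Fin 2) (Fin 2) ℂ}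
    (hk : k * k.conjTranspose = 1) : k.det ≠ 0 :=
  (Matrix.isUnit_det_of_right_inverse hk).ne_zero

open Classical in
/-- The function `m ↦ φ(g · m_w)` on `GL₂(ℂ)`, extended by `0`. -/
def psi_h90 {w : InfinitePlace K} (hw : w.IsComplex) (φ : G K → ℂ) (g : G K)
    (m : Matrix (Fin 2) (Fin 2) ℂ) : ℂ :=
  if h : m.det ≠ 0 then φ (g * locG_h90 hw (Matrix.GeneralLinearGroup.mkOfDetNeZero m h)) else 0

theorem psi_of_det_ne_zero_h90 {w : InfinitePlace K} (hw : w.IsComplex) (φ : G K → ℂ) (g : G K)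
    {m : Matrix (Fin 2) (Fin 2) ℂ} (h : m.det ≠ 0) :
    psi_h90 hw φ g m = φ (g * locG_h90 hw (Matrix.GeneralLinearGroup.mkOfDetNeZero m h)) := by
  unfold psi_h90
  rw [dif_pos h]

theorem psi_of_det_eq_zero_h90 {w : InfinitePlace K} (hw : w.IsComplex) (φ : G K → ℂ) (g : G K)
    {m : Matrix (Fin 2) (Fin 2) ℂ} (h : m.det = 0) : psi_h90 hw φ g m = 0 := by
  unfold psi_h90
  rw [dif_neg (not_not.2 h)]

/-- An element supported at `w` is the element `locG_h90` of its component. -/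
theorem eq_locG_h90 {w : InfinitePlace K} (hw : w.IsComplex) {y : G K} (hy : IsLocalAtInf w y)
    {m : Matrix (Fin 2) (Fin 2) ℂ} (hm : infComp w y = m) (h : m.det ≠ 0) :
    y = locG_h90 hw (Matrix.GeneralLinearGroup.mkOfDetNeZero m h) := by
  refine eq_of_local_h90 hy (locG_isLocal_h90 hw _) ?_
  rw [infComp_locG_h90, hm]
  rfl

theorem psi_of_local_h90 {w : InfinitePlace K} (hw : w.IsComplex) (φ : G K → ℂ) (g : G K)
    {y : G K} (hy : IsLocalAtInf w y) {m : Matrix (Fin 2) (Fin 2) ℂ} (hm : infComp w y = m) :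
    φ (g * y) = psi_h90 hw φ g m := by
  have h : m.det ≠ 0 := hm ▸ det_infComp_ne_zero_h90 w y
  rw [psi_of_det_ne_zero_h90 hw φ g h, ← eq_locG_h90 hw hy hm h]

/-- `ψ` is right invariant under `U(2)`. -/
theorem psi_unitary_h90 {w : InfinitePlace K} (hw : w.IsComplex) {φ : G K → ℂ}
    (hφ : ∀ k : G K, IsArchCompact w k → ∀ g : G K, φ (g * k) = φ g) (g : G K)
    (m k : Matrix (Fin 2) (Fin 2) ℂ) (hk : k * k.conjTranspose = 1) :
    psi_h90 hw φ g (m * k) = psi_h90 hw φ g m := by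
  have hkd : k.det ≠ 0 := det_ne_zero_of_unitary_h90 hk
  by_cases h : m.det = 0
  · rw [psi_of_det_eq_zero_h90 hw φ g h,
      psi_of_det_eq_zero_h90 hw φ g (by rw [Matrix.det_mul, h, zero_mul])]
  · have hmk : (m * k).det ≠ 0 := by
      rw [Matrix.det_mul]
      exact mul_ne_zero h hkd
    have h1 : Matrix.GeneralLinearGroup.mkOfDetNeZero (m * k) hmk
        = Matrix.GeneralLinearGroup.mkOfDetNeZero m h
          * Matrix.GeneralLinearGroup.mkOfDetNeZero k hkd := by
      apply Units.ext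
      rfl
    have h2 : IsArchCompact w (locG_h90 (K := K) hw
        (Matrix.GeneralLinearGroup.mkOfDetNeZero k hkd)) := by
      refine ⟨locG_isLocal_h90 hw _, ?_, fun hr => ?_⟩
      · rw [infComp_locG_h90]
        exact hk
      · exact absurd hr (InfinitePlace.not_isReal_iff_isComplex.2 hw)
    rw [psi_of_det_ne_zero_h90 hw φ g hmk, psi_of_det_ne_zero_h90 hw φ g h, h1, locG_mul_h90,
      ← mul_assoc, hφ _ h2]

/-- `ψ` is continuous on `GL₂(ℂ)`. -/
theorem psi_continuousOn_h90 (hLC : SubLocCont429 K) {w : InfinitePlace K} (hw : w.IsComplex)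
    {φ : G K → ℂ} (hφ : Continuous φ) (g : G K) :
    ContinuousOn (psi_h90 hw φ g) {m | m.det ≠ 0} := by
  rw [continuousOn_iff_continuous_domRestrict]
  have h1 : Continuous fun m : {m : Matrix (Fin 2) (Fin 2) ℂ | m.det ≠ 0} =>
      locG_h90 (K := K) hw (Matrix.GeneralLinearGroup.mkOfDetNeZero m.1 m.2) := by
    refine hLC w _ _ (fun m => locG_isLocal_h90 hw _) ?_
    intro i j
    have h : (fun m : {m : Matrix (Fin 2) (Fin 2) ℂ | m.det ≠ 0} =>
        infComp w (locG_h90 (K := K) hw (Matrix.GeneralLinearGroup.mkOfDetNeZero m.1 m.2)) i j)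
        = fun m : {m : Matrix (Fin 2) (Fin 2) ℂ | m.det ≠ 0} => m.1 i j := by
      funext m
      rw [infComp_locG_h90]
      rfl
    rw [h]
    exact (continuous_apply_apply i j).comp continuous_subtype_val
  have h2 : Set.domRestrict {m : Matrix (Fin 2) (Fin 2) ℂ | m.det ≠ 0} (psi_h90 hw φ g)
      = fun m : {m : Matrix (Fin 2) (Fin 2) ℂ | m.det ≠ 0} =>
        φ (g * locG_h90 (K := K) hw (Matrix.GeneralLinearGroup.mkOfDetNeZero m.1 m.2)) := by
    funext m
    exact psi_of_det_ne_zero_h90 hw φ g m.2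
  rw [h2]
  exact hφ.comp (continuous_const.mul h1)

theorem sphereMean_eq_h90 {φ : G K → ℂ} {Y : ℝ → ℝ → G K} {g : G K} {F : ℝ → ℝ → ℂ}
    (h : ∀ α β : ℝ, φ (g * Y α β) = F α β) :
    sphereMean Y φ g = ∫ α in (0 : ℝ)..(2 * Real.pi), ∫ β in (0 : ℝ)..Real.pi,
      F α β * ((Real.sin β : ℝ) : ℂ) := by
  unfold sphereMean
  simp only [h]

/-- The sphere mean of a function which is right invariant under `U(2)` at `w` is right
invariant under `U(2)` at `w`. -/
theorem sphereMean_unitary_h90 (hS2 : SubS2Rot429) (hLC : SubLocCont429 K)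
    {w : InfinitePlace K} (hw : w.IsComplex) {d : ℝ} {Y : ℝ → ℝ → G K} (hY : IsSphereAt w d Y)
    {φ : G K → ℂ} (hφc : Continuous φ)
    (hφ : ∀ k : G K, IsArchCompact w k → ∀ g : G K, φ (g * k) = φ g)
    (k : G K) (hk : IsArchCompact w k) (g : G K) :
    sphereMean Y φ (g * k) = sphereMean Y φ g := by
  have e1 : sphereMean Y φ (g * k) = ∫ α in (0 : ℝ)..(2 * Real.pi), ∫ β in (0 : ℝ)..Real.pi,
      psi_h90 hw φ g (infComp w k * (rotZ α * rotY β * torus d))
        * ((Real.sin β : ℝ) : ℂ) := by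
    refine sphereMean_eq_h90 fun α β => ?_
    rw [mul_assoc]
    refine psi_of_local_h90 hw φ g (isLocal_mul_h90 hk.1 (hY α β).1) ?_
    rw [infComp_mul_h90, (hY α β).2]
  have e2 : sphereMean Y φ g = ∫ α in (0 : ℝ)..(2 * Real.pi), ∫ β in (0 : ℝ)..Real.pi,
      psi_h90 hw φ g (rotZ α * rotY β * torus d) * ((Real.sin β : ℝ) : ℂ) :=
    sphereMean_eq_h90 fun α β => psi_of_local_h90 hw φ g (hY α β).1 (hY α β).2
  rw [e1, e2]
  exact hS2 (psi_h90 hw φ g) (psi_continuousOn_h90 hLC hw hφc g)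
    (psi_unitary_h90 hw hφ g) (infComp w k) hk.2.1 d

/-! ## 8. Cuspidality -/

/-- A number field is countable. -/
theorem countable_field_h90 (K : Type) [Field K] [NumberField K] : Countable K := by
  have : Module.Finite ℚ K := inferInstance
  let b := Module.finBasis ℚ K
  exact b.equivFun.toEquiv.injective.countable

/-- The principal adeles (the group of `A0.IsCuspidalFn`). -/
abbrev princ_h90 (K : Type) [Field K] [NumberField K] : AddSubgroup (Adl K) :=
  (algebraMap K (Adl K)).toAddMonoidHom.range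

theorem countable_princ_h90 (K : Type) [Field K] [NumberField K] : Countable (princ_h90 K) := by
  have := countable_field_h90 K
  have : Function.Surjective
      (fun ξ : K => (⟨algebraMap K (Adl K) ξ, ⟨ξ, rfl⟩⟩ : princ_h90 K)) := by
    rintro ⟨x, ξ, rfl⟩
    exact ⟨ξ, rfl⟩
  exact this.countable

/-- Cocompactness gives finite covolume. -/
theorem measure_fundDom_lt_top_h90 [MeasurableSpace (Adl K)] [BorelSpace (Adl K)]
    (μ : Measure (Adl K)) [μ.IsAddHaarMeasure]
    (hcoc : ∃ C : Set (Adl K), IsCompact C ∧ ∀ x : Adl K, ∃ ξ : K, x - algebraMap K (Adl K) ξ ∈ C)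
    (D : Set (Adl K)) (hD : IsAddFundamentalDomain (princ_h90 K) D μ) : μ D < ⊤ := by
  haveI := countable_princ_h90 K
  obtain ⟨C, hC, hcov⟩ := hcoc
  have h1 : μ C = ∑' g : princ_h90 K, μ ((g +ᵥ C) ∩ D) := hD.measure_eq_tsum C
  have h2 : D ⊆ ⋃ g : princ_h90 K, (g +ᵥ C) ∩ D := by
    intro x hx
    obtain ⟨ξ, hξ⟩ := hcov x
    refine Set.mem_iUnion.2 ⟨⟨algebraMap K (Adl K) ξ, ⟨ξ, rfl⟩⟩, ?_, hx⟩
    refine ⟨x - algebraMap K (Adl K) ξ, hξ, ?_⟩
    change algebraMap K (Adl K) ξ + (x - algebraMap K (Adl K) ξ) = x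
    abel
  calc μ D ≤ μ (⋃ g : princ_h90 K, (g +ᵥ C) ∩ D) := measure_mono h2
    _ ≤ ∑' g : princ_h90 K, μ ((g +ᵥ C) ∩ D) := measure_iUnion_le _
    _ = μ C := h1.symm
    _ < ⊤ := hC.measure_lt_top

/-- The unipotent element `n(x)`. -/
def unip_h90 (x : Adl K) : G K :=
  ⟨!![1, x; 0, 1], !![1, -x; 0, 1],
    by ext i j; fin_cases i <;> fin_cases j <;> simp [Matrix.mul_apply, Fin.sum_univ_two],
    by ext i j; fin_cases i <;> fin_cases j <;> simp [Matrix.mul_apply, Fin.sum_univ_two]⟩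

theorem continuous_unip_h90 : Continuous (unip_h90 (K := K)) := by
  rw [Units.continuous_iff]
  constructor
  · change Continuous fun x : Adl K => (!![1, x; 0, 1] : Matrix (Fin 2) (Fin 2) (Adl K))
    refine continuous_matrix ?_
    intro i j
    fin_cases i <;> fin_cases j <;> simp <;> fun_prop
  · change Continuous fun x : Adl K => (!![1, -x; 0, 1] : Matrix (Fin 2) (Fin 2) (Adl K))
    refine continuous_matrix ?_
    intro i j
    fin_cases i <;> fin_cases j <;> simp <;> fun_prop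

theorem continuous_of_unip_h90 {n : Adl K → G K}
    (hn : ∀ x : Adl K, (n x : Matrix (Fin 2) (Fin 2) (Adl K)) = !![1, x; 0, 1]) :
    Continuous n := by
  have h : n = unip_h90 := by
    funext x
    apply Units.ext
    rw [hn x]
    rfl
  rw [h]
  exact continuous_unip_h90

/-- Fubini: the constant term of the sphere mean is the sphere mean of the constant term. -/
theorem cusp_aux_h90 [MeasurableSpace (Adl K)] [BorelSpace (Adl K)]
    {φ : G K → ℂ} (hφc : Continuous φ) {C : ℝ} (hC : ∀ g : G K, ‖φ g‖ ≤ C)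
    {Y : ℝ → ℝ → G K} (hYc : Continuous fun p : ℝ × ℝ => Y p.1 p.2)
    (μ : Measure (Adl K)) (D : Set (Adl K)) (hDfin : μ D < ⊤)
    (n : Adl K → G K) (hn : Continuous n) (g : G K)
    (hcusp : ∀ g' : G K, ∫ x in D, φ (n x * g') ∂μ = 0) :
    ∫ x in D, sphereMean Y φ (n x * g) ∂μ = 0 := by
  haveI : IsFiniteMeasure (μ.restrict D) := ⟨by rw [Measure.restrict_apply_univ]; exact hDfin⟩
  have hpi : (0 : ℝ) ≤ Real.pi := Real.pi_pos.le
  have h2pi : (0 : ℝ) ≤ 2 * Real.pi := by positivity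
  have hng : Continuous fun x : Adl K => n x * g := hn.mul continuous_const
  -- the integrand and the inner integral are continuous
  have hGc : Continuous fun p : Adl K × ℝ =>
      ∫ β in (0 : ℝ)..Real.pi, φ (n p.1 * g * Y p.2 β) * ((Real.sin β : ℝ) : ℂ) :=
    continuous_inner_h90 hng hφc hYc
  have h0 : 0 ≤ C := (norm_nonneg _).trans (hC 1)
  -- first exchange
  have h1 : ∫ x in D, sphereMean Y φ (n x * g) ∂μ
      = ∫ x in D, (∫ α in Set.Ioc (0 : ℝ) (2 * Real.pi),
          (∫ β in (0 : ℝ)..Real.pi, φ (n x * g * Y α β) * ((Real.sin β : ℝ) : ℂ))) ∂μ := by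
    refine integral_congr_ae (Filter.Eventually.of_forall fun x => ?_)
    show sphereMean Y φ (n x * g) = _
    unfold sphereMean
    rw [intervalIntegral.integral_of_le h2pi]
  have hint1 : Integrable (Function.uncurry fun (x : Adl K) (α : ℝ) =>
      ∫ β in (0 : ℝ)..Real.pi, φ (n x * g * Y α β) * ((Real.sin β : ℝ) : ℂ))
      ((μ.restrict D).prod (volume.restrict (Set.Ioc (0 : ℝ) (2 * Real.pi)))) := by
    refine Integrable.of_bound hGc.aestronglyMeasurable (C * Real.pi)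
      (Filter.Eventually.of_forall ?_)
    rintro ⟨x, α⟩
    exact norm_inner_le_h90 hC Y (n x * g) α
  rw [h1, integral_integral_swap hint1]
  -- second exchange
  have h2 : ∀ α : ℝ, ∫ x in D,
      (∫ β in (0 : ℝ)..Real.pi, φ (n x * g * Y α β) * ((Real.sin β : ℝ) : ℂ)) ∂μ = 0 := by
    intro α
    have h3 : ∫ x in D,
        (∫ β in (0 : ℝ)..Real.pi, φ (n x * g * Y α β) * ((Real.sin β : ℝ) : ℂ)) ∂μ
        = ∫ x in D, (∫ β in Set.Ioc (0 : ℝ) Real.pi,
            φ (n x * g * Y α β) * ((Real.sin β : ℝ) : ℂ)) ∂μ := by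
      refine integral_congr_ae (Filter.Eventually.of_forall fun x => ?_)
      show (∫ β in (0 : ℝ)..Real.pi, φ (n x * g * Y α β) * ((Real.sin β : ℝ) : ℂ)) = _
      rw [intervalIntegral.integral_of_le hpi]
    have hFc' : Continuous fun p : Adl K × ℝ =>
        φ (n p.1 * g * Y α p.2) * ((Real.sin p.2 : ℝ) : ℂ) := by
      have h7 : Continuous fun p : Adl K × ℝ => Y α p.2 :=
        hYc.comp (continuous_const.prodMk continuous_snd)
      have h8 : Continuous fun p : Adl K × ℝ => n p.1 * g * Y α p.2 :=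
        (hng.comp continuous_fst).mul h7
      exact (hφc.comp h8).mul
        (Complex.continuous_ofReal.comp (Real.continuous_sin.comp continuous_snd))
    have hint2 : Integrable (Function.uncurry fun (x : Adl K) (β : ℝ) =>
        φ (n x * g * Y α β) * ((Real.sin β : ℝ) : ℂ))
        ((μ.restrict D).prod (volume.restrict (Set.Ioc (0 : ℝ) Real.pi))) := by
      refine Integrable.of_bound hFc'.aestronglyMeasurable C (Filter.Eventually.of_forall ?_)
      rintro ⟨x, β⟩
      show ‖φ (n x * g * Y α β) * ((Real.sin β : ℝ) : ℂ)‖ ≤ C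
      rw [norm_mul, Complex.norm_real]
      have h4 : ‖Real.sin β‖ ≤ 1 := by
        rw [Real.norm_eq_abs]
        exact Real.abs_sin_le_one β
      calc ‖φ (n x * g * Y α β)‖ * ‖Real.sin β‖ ≤ C * 1 :=
            mul_le_mul (hC _) h4 (norm_nonneg _) h0
        _ = C := mul_one C
    rw [h3, integral_integral_swap hint2]
    have h5 : ∀ β : ℝ, ∫ x in D, φ (n x * g * Y α β) * ((Real.sin β : ℝ) : ℂ) ∂μ = 0 := by
      intro β
      rw [integral_mul_const]
      have h6 : ∫ x in D, φ (n x * g * Y α β) ∂μ = 0 := by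
        have := hcusp (g * Y α β)
        simpa only [mul_assoc] using this
      rw [h6, zero_mul]
    simp only [h5, integral_zero]
  simp only [h2, integral_zero]

/-! ## 9. The sub-leaf -/

/-- **T2.07.12 `SubSpherePres429`** from the auxiliary sub-leaves T2.07.31 (`SubS2Rot429`) and
T2.07.30 (`SubLocCont429`): sphere means preserve the cusp functions. -/
theorem subSpherePres_h90 (hS2 : SubS2Rot429) (hLC : SubLocCont429 K) : SubSpherePres429 K := by
  intro 𝔫 c w hw d _ Y hY φ hφ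
  have hYc : Continuous fun p : ℝ × ℝ => Y p.1 p.2 := continuous_sphere_h90 hLC hY
  refine ⟨continuous_sphereMean_h90 hφ.cont hYc, bdd_sphereMean_h90 hφ.bdd Y, ?_, ?_, ?_, ?_, ?_⟩
  · -- left invariance under `GL₂(K)`
    intro γ g
    refine sphereMean_congr_h90 fun α β => ?_
    rw [mul_assoc, hφ.left_inv]
  · -- right invariance under `U(𝔫)`
    intro u hu g
    exact sphereMean_right_h90 (fun α β => commute_level_local_h90 hu.1 (hY α β).1)
      (hφ.level_inv u hu) g
  · -- right invariance under the positive scalars at the infinite places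
    intro w' z hz g
    obtain ⟨r, _, hr⟩ := hz.2
    exact sphereMean_right_h90
      (fun α β => commute_local_local_h90 hz.1 (hY α β).1 (Or.inr ⟨(r : ℂ), hr⟩))
      (hφ.arch_scalar w' z hz) g
  · -- right invariance under the compact groups at the infinite places
    intro w' k hk g
    by_cases h : w' = w
    · subst h
      exact sphereMean_unitary_h90 hS2 hLC hw hY hφ.cont (hφ.arch_compact w') k hk g
    · exact sphereMean_right_h90
        (fun α β => commute_local_local_h90 hk.1 (hY α β).1 (Or.inl h))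
        (hφ.arch_compact w' k hk) g
  · -- cuspidality
    intro μ hμ D hD n hn g
    letI : MeasurableSpace (Adl K) := borel (Adl K)
    haveI : BorelSpace (Adl K) := ⟨rfl⟩
    haveI : μ.IsAddHaarMeasure := hμ
    obtain ⟨C, hC⟩ := hφ.bdd
    have hDfin : μ D < ⊤ := measure_fundDom_lt_top_h90 μ c.t1.adeleLattice.2.2 D hD
    exact cusp_aux_h90 hφ.cont hC hYc μ D hDfin n (continuous_of_unip_h90 hn) g
      (fun g' => hφ.cuspidal μ hμ D hD n hn g')

end Fermat.Agent.LT.T2.H90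

end
end
-- ===== PACK-END LT/T2/H90/SpherePres.lean

-- ===== PACK-BEGIN LT/T2/H91/HeckeBdd.lean
section



/-!
# Row LT, tower T2, sub-leaf T2.07.03 `SubHeckeBdd429` (helper91)

OFF-MAIN.  `‖T_H φ‖² ≤ (#H)² ‖φ‖²` on the cusp functions, from the KEY LEMMA `SubTransl429`
(T2.07.00): Cauchy--Schwarz pointwise, then `∫_D |φ(g h)|² = ∫_D |φ(g)|²` for every `h`
(`|φ|²` is continuous, bounded, left `GL₂(K)`-invariant and right `Z⁺`-invariant,
`cuspFn_diagPos91`).  For a Hecke coset system `#H = q_v + 1`.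

Frozen bytes: `LT/T2/H429/OpsSpec.lean` (helper429@dcf706097, sha256 657e0d9a).
-/

set_option autoImplicit false

open IsDedekindDomain NumberField MeasureTheory
open Fermat.Agent.LT.H556.A0
open Fermat.Agent.LT.T2
open Fermat.Agent.LT.T2.H429

noncomputable section

namespace Fermat.Agent.LT.T2.H91

variable {K : Type} [Field K] [NumberField K]

attribute [local instance] Fermat.Agent.LT.T2.borelG

/-- The square of the `L²`-norm is the integral of `‖ψ‖²` (no integrability hypothesis). -/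
theorem nsq_eq_integral91 (F : Frame K) (ψ : G K → ℂ) :
    nsq F ψ = ∫ g in F.D, ‖ψ g‖ ^ 2 ∂F.μ := by
  unfold nsq pair
  have h : (fun g => ψ g * (starRingEnd ℂ) (ψ g)) = fun g => (((‖ψ g‖ ^ 2 : ℝ)) : ℂ) := by
    funext g
    rw [Complex.mul_conj, Complex.normSq_eq_norm_sq]
  rw [h, integral_complex_ofReal, Complex.ofReal_re]

/-- `g ↦ ‖φ(g h)‖²` is integrable on the domain of the frame, for `φ` continuous and bounded. -/
theorem integrable_sq_transl91 (F : Frame K) {φ : G K → ℂ} (hc : Continuous φ)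
    {B : ℝ} (hB : ∀ g : G K, ‖φ g‖ ≤ B) (h : G K) :
    Integrable (fun g => ‖φ (g * h)‖ ^ 2) (F.μ.restrict F.D) := by
  have : BorelSpace (G K) := ⟨rfl⟩
  have : IsFiniteMeasure (F.μ.restrict F.D) := ⟨by rw [Measure.restrict_apply_univ]; exact F.fin⟩
  have hcont : Continuous fun g : G K => ‖φ (g * h)‖ ^ 2 :=
    ((hc.comp (continuous_mul_right h)).norm).pow 2
  refine Integrable.of_bound hcont.aestronglyMeasurable (B ^ 2) ?_
  refine Filter.Eventually.of_forall fun g => ?_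
  rw [Real.norm_of_nonneg (by positivity)]
  exact pow_le_pow_left₀ (norm_nonneg _) (hB _) 2

/-- **T2.07.03** from the KEY LEMMA T2.07.00. -/
theorem subHeckeBdd_of_transl91 (hT : SubTransl429 K) : SubHeckeBdd429 K := by
  intro 𝔫 c F v _ H _
  refine ⟨(H.card : ℝ) ^ 2, fun φ hφ => ?_⟩
  have : BorelSpace (G K) := ⟨rfl⟩
  obtain ⟨B, hB⟩ := hφ.bdd
  have hB0 : 0 ≤ B := (norm_nonneg _).trans (hB 1)
  -- translation invariance of `∫_D ‖φ‖²`
  have htr : ∀ h : G K,
      ∫ g in F.D, ‖φ (g * h)‖ ^ 2 ∂F.μ = ∫ g in F.D, ‖φ g‖ ^ 2 ∂F.μ := by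
    intro h
    have hcont : Continuous fun g : G K => (((‖φ g‖ ^ 2 : ℝ)) : ℂ) :=
      Complex.continuous_ofReal.comp ((hφ.cont.norm).pow 2)
    have hbdd : ∃ C : ℝ, ∀ g : G K, ‖(((‖φ g‖ ^ 2 : ℝ)) : ℂ)‖ ≤ C := by
      refine ⟨B ^ 2, fun g => ?_⟩
      rw [Complex.norm_real, Real.norm_of_nonneg (by positivity)]
      exact pow_le_pow_left₀ (norm_nonneg _) (hB _) 2
    have hleft : ∀ (γ : GL (Fin 2) K) (g : G K),
        (((‖φ (T1.ratG K γ * g)‖ ^ 2 : ℝ)) : ℂ) = (((‖φ g‖ ^ 2 : ℝ)) : ℂ) := by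
      intro γ g
      have : φ (T1.ratG K γ * g) = φ g := hφ.left_inv γ g
      rw [this]
    have hright : ∀ z : G K, IsDiagPosScalar z → ∀ g : G K,
        (((‖φ (g * z)‖ ^ 2 : ℝ)) : ℂ) = (((‖φ g‖ ^ 2 : ℝ)) : ℂ) := by
      intro z hz g
      rw [cuspFn_diagPos91 hφ hz g]
    have key := hT c.t1 F (fun g => (((‖φ g‖ ^ 2 : ℝ)) : ℂ)) hcont hbdd hleft hright h
    have key' : ((∫ g in F.D, ‖φ (g * h)‖ ^ 2 ∂F.μ : ℝ) : ℂ)
        = ((∫ g in F.D, ‖φ g‖ ^ 2 ∂F.μ : ℝ) : ℂ) := by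
      rw [← integral_complex_ofReal, ← integral_complex_ofReal]
      exact key
    exact_mod_cast key'
  rw [nsq_eq_integral91, nsq_eq_integral91]
  -- Cauchy--Schwarz, pointwise
  have hpt : ∀ g : G K,
      ‖heckeSum H φ g‖ ^ 2 ≤ (H.card : ℝ) * ∑ h ∈ H, ‖φ (g * h)‖ ^ 2 := by
    intro g
    unfold heckeSum
    calc ‖∑ h ∈ H, φ (g * h)‖ ^ 2 ≤ (∑ h ∈ H, ‖φ (g * h)‖) ^ 2 :=
          pow_le_pow_left₀ (norm_nonneg _) (norm_sum_le _ _) 2
      _ ≤ (H.card : ℝ) * ∑ h ∈ H, ‖φ (g * h)‖ ^ 2 := sq_sum_le_card_mul_sum_sq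
  have hint : ∀ h : G K, Integrable (fun g => ‖φ (g * h)‖ ^ 2) (F.μ.restrict F.D) :=
    fun h => integrable_sq_transl91 F hφ.cont hB h
  calc ∫ g in F.D, ‖heckeSum H φ g‖ ^ 2 ∂F.μ
      ≤ ∫ g in F.D, (H.card : ℝ) * ∑ h ∈ H, ‖φ (g * h)‖ ^ 2 ∂F.μ := by
        apply integral_mono_of_nonneg
        · exact Filter.Eventually.of_forall (fun g => by positivity)
        · exact (integrable_finset_sum _ (fun h _ => hint h)).const_mul _
        · exact Filter.Eventually.of_forall hpt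
    _ = (H.card : ℝ) * ∑ h ∈ H, ∫ g in F.D, ‖φ (g * h)‖ ^ 2 ∂F.μ := by
        rw [integral_const_mul, integral_finset_sum _ (fun h _ => hint h)]
    _ = (H.card : ℝ) * ∑ _h ∈ H, ∫ g in F.D, ‖φ g‖ ^ 2 ∂F.μ := by
        simp only [htr]
    _ = (H.card : ℝ) ^ 2 * ∫ g in F.D, ‖φ g‖ ^ 2 ∂F.μ := by
        rw [Finset.sum_const, nsmul_eq_mul]
        ring

end Fermat.Agent.LT.T2.H91

end

end
-- ===== PACK-END LT/T2/H91/HeckeBdd.lean

-- ===== PACK-BEGIN LT/T6/H367/EllRes.lean
section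






/-!
# Row LT, tower T6, leaf T6.14c `EllCountC` (helper367): the count in the residue field

OFF-MAIN.  No gaps, nothing assumed.  Uses the closed leaves `resFaithful400` (helper400),
`resFixedC_of_resFaithfulC_h131` (helper131) and `dedekind555` (helper555), byte-identical copies.

`k'/k` unramified cyclic of degree `l` with generator `s`, `T` a residue system of `k'`:
`#{t ∈ T : s t - t ≡ ζ mod 𝔪'} = q` if `Tr ζ ≡ 0`, and `0` otherwise.
-/

set_option autoImplicit false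

noncomputable section

namespace Fermat.Agent.LT.T6.H367

open Fermat.Agent.LT.T6 Fermat.Agent.LT.T6.H847

section Res

variable {k k' : Type} [Field k] [Field k'] [Valued k Γ₀] [Valued k' Γ₀]
  {q l : ℕ} {i : k →+* k'} {s : k' ≃+* k'}

/-- There is an integral `θ` whose trace is a unit. -/
theorem exists_trace_unit367 (hk : IsLocalField k q) (hk' : IsLocalField k' (q ^ l))
    (hext : IsLocalExt k k' l 1 i s) :
    ∃ θ : k', Valued.v θ ≤ 1 ∧ Valued.v (trS367 s l θ) = 1 := by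
  classical
  have hF : ∀ m : ℕ, 0 < m → m < l →
      ∃ x : k', Valued.v x ≤ 1 ∧ Valued.v ((s ^ m) x - x) = 1 :=
    fun m hm hml => H400.resFaithful400 k k' q l i s hk hk' hext m hm hml
  have hl : 0 < l := hext.cyc.pos
  obtain ⟨θ, hθ, hθ1⟩ := H555.dedekind555 s hext.val_s l hF l (Finset.range l) (fun _ => 1)
    (fun j hj => Finset.mem_range.1 hj) (fun j _ => by simp)
    (by simp) hl
  refine ⟨θ, hθ, ?_⟩
  unfold trS367
  simpa using hθ1

/-- `s` fixes the trace. -/
theorem s_trS367 (hext : IsLocalExt k k' l 1 i s) (x : k') :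
    s (trS367 s l x) = trS367 s l x := by
  have h3 : trS367 s l (s x) = s (trS367 s l x) := by
    unfold trS367
    rw [map_sum]
    refine Finset.sum_congr rfl fun j _ => ?_
    rw [← RingAut.mul_apply, ← RingAut.mul_apply, ← pow_succ, ← pow_succ']
  rw [← h3]
  exact trS367_apply_s s l hext.cyc.order x

/-- **Additive Hilbert 90 modulo the maximal ideal.** -/
theorem additive_hilbert90_367 (hk : IsLocalField k q) (hk' : IsLocalField k' (q ^ l))
    (hext : IsLocalExt k k' l 1 i s) (ζ : k') (hζ : Valued.v ζ ≤ 1)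
    (htr : Valued.v (trS367 s l ζ) < 1) :
    ∃ η : k', Valued.v η ≤ 1 ∧ Valued.v (s η - η - ζ) < 1 := by
  obtain ⟨θ, hθ, hθ1⟩ := exists_trace_unit367 hk hk' hext
  have hs := hext.val_s
  set u := trS367 s l θ with hu
  have hu0 : u ≠ 0 := by
    intro h
    rw [h, Valuation.map_zero] at hθ1
    exact zero_ne_one hθ1
  have hsu : s u = u := s_trS367 hext θ
  -- the auxiliary sequence
  set g : ℕ → k' := fun j => (trS367 s j ζ - ζ) * (s ^ j) θ with hg
  set η : k' := -(u⁻¹ * ∑ j ∈ Finset.range l, trS367 s j ζ * (s ^ j) θ) with hη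
  have hsum1 : ∑ j ∈ Finset.range l, trS367 s j ζ * (s ^ j) θ
      = ∑ j ∈ Finset.range l, g j + ζ * u := by
    rw [hu]
    unfold trS367
    rw [Finset.mul_sum, ← Finset.sum_add_distrib]
    refine Finset.sum_congr rfl fun j _ => ?_
    rw [hg]
    simp only
    unfold trS367
    ring
  have hsum2 : s (∑ j ∈ Finset.range l, trS367 s j ζ * (s ^ j) θ)
      = ∑ j ∈ Finset.range l, g (j + 1) := by
    rw [map_sum]
    refine Finset.sum_congr rfl fun j _ => ?_
    rw [hg]
    simp only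
    rw [map_mul, trS367_succ, pow_succ', RingAut.mul_apply]
    ring
  have hsum3 : ∑ j ∈ Finset.range l, g (j + 1)
      = ∑ j ∈ Finset.range l, g j + trS367 s l ζ * θ := by
    have h1 := Finset.sum_range_succ' g l
    have h2 := Finset.sum_range_succ g l
    have hg0 : g 0 = -(ζ * θ) := by
      rw [hg]
      simp only
      rw [trS367_zero, pow_zero, RingAut.one_apply]
      ring
    have hgl : g l = (trS367 s l ζ - ζ) * θ := by
      rw [hg]
      simp only
      rw [hext.cyc.order]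
    have := h1.symm.trans h2
    rw [hg0, hgl] at this
    linear_combination this
  have key : s η - η - ζ = -(u⁻¹ * (trS367 s l ζ * θ)) := by
    rw [hη, map_neg, map_mul, map_inv₀, hsu, hsum2, hsum3, hsum1]
    field_simp
    ring
  refine ⟨η, ?_, ?_⟩
  · rw [hη, Valuation.map_neg, Valuation.map_mul, map_inv₀, hθ1, inv_one, one_mul]
    by_cases hl0 : l = 0
    · subst hl0; simp
    · refine Valuation.map_sum_le _ fun j _ => ?_
      rw [Valuation.map_mul, val_pow367 s hs]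
      exact mul_le_one' (val_trS367_le s hs j ζ 1 hζ) hθ
  · rw [key, Valuation.map_neg, Valuation.map_mul, map_inv₀, hθ1, inv_one, one_mul,
      Valuation.map_mul]
    calc Valued.v (trS367 s l ζ) * Valued.v θ ≤ Valued.v (trS367 s l ζ) * 1 :=
          mul_le_mul' le_rfl hθ
      _ = Valued.v (trS367 s l ζ) := mul_one _
      _ < 1 := htr

theorem val_i367 (hext : IsLocalExt k k' l 1 i s) (x : k) : Valued.v (i x) = Valued.v x := by
  have := hext.val_i x
  rw [pow_one] at this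
  exact this

/-- **The count in the residue field.** -/
theorem res_count367 (hk : IsLocalField k q) (hk' : IsLocalField k' (q ^ l))
    (hext : IsLocalExt k k' l 1 i s) (T : Finset k') (hT1 : ∀ x ∈ T, Valued.v x ≤ 1)
    (hT2 : ∀ x ∈ T, ∀ y ∈ T, x ≠ y → Valued.v (x - y) = 1)
    (hT3 : ∀ z : k', Valued.v z ≤ 1 → ∃ x ∈ T, Valued.v (z - x) < 1)
    (ζ : k') (hζ : Valued.v ζ ≤ 1) :
    (T.filter (fun t => Valued.v (s t - t - ζ) < 1)).card
      = if Valued.v (trS367 s l ζ) < 1 then q else 0 := by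
  classical
  have hs := hext.val_s
  by_cases htr : Valued.v (trS367 s l ζ) < 1
  · rw [if_pos htr]
    obtain ⟨η₀, hη₀, hη₀1⟩ := additive_hilbert90_367 hk hk' hext ζ hζ htr
    obtain ⟨Tk, hcard, hTk1, hTk2, hTk3⟩ := hk.residue
    have hint : ∀ a ∈ Tk, Valued.v (η₀ + i a) ≤ 1 := fun a ha =>
      Valuation.map_add_le _ hη₀ (by rw [val_i367 hext]; exact hTk1 a ha)
    rw [← hcard]
    symm
    refine Finset.card_bij (fun a ha => Classical.choose (hT3 (η₀ + i a) (hint a ha)))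
      ?_ ?_ ?_
    · intro a ha
      obtain ⟨h1, h2⟩ := Classical.choose_spec (hT3 (η₀ + i a) (hint a ha))
      set t := Classical.choose (hT3 (η₀ + i a) (hint a ha)) with ht
      rw [Finset.mem_filter]
      refine ⟨h1, ?_⟩
      have e : s t - t - ζ = (s η₀ - η₀ - ζ) + (η₀ + i a - t) - s (η₀ + i a - t) := by
        rw [map_sub, map_add, hext.cyc.fix_i]
        ring
      rw [e]
      refine lt_of_le_of_lt (Valuation.map_sub _ _ _) (max_lt ?_ ?_)
      · exact lt_of_le_of_lt (Valuation.map_add _ _ _) (max_lt hη₀1 h2)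
      · rw [hs]; exact h2
    · intro a ha a' ha' h
      obtain ⟨h1, h2⟩ := Classical.choose_spec (hT3 (η₀ + i a) (hint a ha))
      obtain ⟨h1', h2'⟩ := Classical.choose_spec (hT3 (η₀ + i a') (hint a' ha'))
      rw [← h] at h2'
      by_contra hne
      have h3 := hTk2 a ha a' ha' hne
      have e : i (a - a') = (η₀ + i a - Classical.choose (hT3 (η₀ + i a) (hint a ha)))
          - (η₀ + i a' - Classical.choose (hT3 (η₀ + i a) (hint a ha))) := by
        rw [map_sub]; ring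
      have h4 : Valued.v (i (a - a')) < 1 := by
        rw [e]
        exact lt_of_le_of_lt (Valuation.map_sub _ _ _) (max_lt h2 h2')
      rw [val_i367 hext, h3] at h4
      exact lt_irrefl _ h4
    · intro t ht
      rw [Finset.mem_filter] at ht
      obtain ⟨htT, ht1⟩ := ht
      have hx : Valued.v (t - η₀) ≤ 1 := Valuation.map_sub_le _ (hT1 t htT) hη₀
      have hsx : Valued.v (s (t - η₀) - (t - η₀)) < 1 := by
        have e : s (t - η₀) - (t - η₀) = (s t - t - ζ) - (s η₀ - η₀ - ζ) := by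
          rw [map_sub]; ring
        rw [e]
        exact lt_of_le_of_lt (Valuation.map_sub _ _ _) (max_lt ht1 hη₀1)
      obtain ⟨a₁, ha₁, ha₁'⟩ := H131.resFixedC_of_resFaithfulC_h131 H400.resFaithful400
        k k' q l i s hk hk' hext (t - η₀) hx hsx
      obtain ⟨a, ha, ha'⟩ := hTk3 a₁ ha₁
      refine ⟨a, ha, ?_⟩
      obtain ⟨h1, h2⟩ := Classical.choose_spec (hT3 (η₀ + i a) (hint a ha))
      by_contra hne
      have h3 := hT2 _ h1 t htT hne
      have e : Classical.choose (hT3 (η₀ + i a) (hint a ha)) - t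
          = -(η₀ + i a - Classical.choose (hT3 (η₀ + i a) (hint a ha)))
            + (-(t - η₀ - i a₁) + -(i (a₁ - a))) := by
        rw [map_sub]; ring
      have h4 : Valued.v (Classical.choose (hT3 (η₀ + i a) (hint a ha)) - t) < 1 := by
        rw [e]
        refine lt_of_le_of_lt (Valuation.map_add _ _ _) (max_lt ?_ ?_)
        · rw [Valuation.map_neg]; exact h2
        · refine lt_of_le_of_lt (Valuation.map_add _ _ _) (max_lt ?_ ?_)
          · rw [Valuation.map_neg]; exact ha₁'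
          · rw [Valuation.map_neg, val_i367 hext]; exact ha'
      rw [h3] at h4
      exact lt_irrefl _ h4
  · rw [if_neg htr, Finset.card_eq_zero, Finset.filter_eq_empty_iff]
    intro t _ ht1
    apply htr
    have h1 : Valued.v (trS367 s l (s t - t - ζ)) ≤ WithZero.exp (-1 : ℤ) :=
      val_trS367_le s hs l _ _ (lt_one_iff367.1 ht1)
    rw [trS367_sub, trS367_sub, trS367_apply_s s l hext.cyc.order, sub_self, zero_sub,
      Valuation.map_neg] at h1
    exact lt_one_iff367.2 h1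

end Res

end Fermat.Agent.LT.T6.H367

end

end
-- ===== PACK-END LT/T6/H367/EllRes.lean

-- ===== PACK-BEGIN LT/T6/H634/EllNorm.lean
section




/-!
# Row LT, tower T6, leaf T6.20e.2a `EllNormC634` (registry 1729): PROVED (helper634)

OFF-MAIN.  Every `γ ∈ GL₂(ℝ)` with negative discriminant is a norm from `GL₂(ℂ)`:
with `D = det γ > 0`, `t = tr γ`, `t + 2 √D > 0` the REAL matrix
`δ = (γ + √D) / √(t + 2 √D)` satisfies `δ² = γ` (Cayley–Hamilton), and `δ δ̄ = δ²`.
-/

set_option autoImplicit false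

open scoped Matrix

noncomputable section

namespace Fermat.Agent.LT.T6.H634

open Fermat.Agent.LT.T6

/-- Cayley–Hamilton for `2 × 2` matrices. -/
theorem sq_eq_cayley634 (M : Matrix (Fin 2) (Fin 2) ℝ) :
    M * M = M.trace • M - M.det • (1 : Matrix (Fin 2) (Fin 2) ℝ) := by
  ext i j
  fin_cases i <;> fin_cases j <;>
    simp [Matrix.mul_apply, Fin.sum_univ_two, Matrix.trace_fin_two, Matrix.det_fin_two] <;> ring

/-- The real square root of an elliptic matrix, as a matrix. -/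
def sqrtMat634 (M : Matrix (Fin 2) (Fin 2) ℝ) : Matrix (Fin 2) (Fin 2) ℝ :=
  (Real.sqrt (M.trace + 2 * Real.sqrt M.det))⁻¹ •
    (M + Real.sqrt M.det • (1 : Matrix (Fin 2) (Fin 2) ℝ))

theorem sqrtMat_mul_self634 (M : Matrix (Fin 2) (Fin 2) ℝ) (hD : 0 < M.det)
    (ht : 0 < M.trace + 2 * Real.sqrt M.det) : sqrtMat634 M * sqrtMat634 M = M := by
  have hs : Real.sqrt M.det * Real.sqrt M.det = M.det := Real.mul_self_sqrt hD.le
  have hr : Real.sqrt (M.trace + 2 * Real.sqrt M.det) *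
      Real.sqrt (M.trace + 2 * Real.sqrt M.det) = M.trace + 2 * Real.sqrt M.det :=
    Real.mul_self_sqrt ht.le
  have hr0 : Real.sqrt (M.trace + 2 * Real.sqrt M.det) ≠ 0 := (Real.sqrt_pos.mpr ht).ne'
  have hCH := sq_eq_cayley634 M
  unfold sqrtMat634
  rw [Matrix.smul_mul, Matrix.mul_smul, smul_smul]
  have hexp : (M + Real.sqrt M.det • (1 : Matrix (Fin 2) (Fin 2) ℝ)) *
      (M + Real.sqrt M.det • (1 : Matrix (Fin 2) (Fin 2) ℝ))
      = (M.trace + 2 * Real.sqrt M.det) • M := by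
    rw [Matrix.add_mul, Matrix.mul_add, Matrix.mul_add, hCH]
    simp only [Matrix.smul_mul, Matrix.mul_smul, Matrix.one_mul, Matrix.mul_one, smul_smul, hs]
    ext i j
    simp only [Matrix.add_apply, Matrix.sub_apply, Matrix.smul_apply, smul_eq_mul]
    ring
  rw [hexp, smul_smul]
  have hc : (Real.sqrt (M.trace + 2 * Real.sqrt M.det))⁻¹ *
      (Real.sqrt (M.trace + 2 * Real.sqrt M.det))⁻¹ * (M.trace + 2 * Real.sqrt M.det) = 1 := by
    have h1 : (Real.sqrt (M.trace + 2 * Real.sqrt M.det))⁻¹ *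
        (Real.sqrt (M.trace + 2 * Real.sqrt M.det))⁻¹ *
        (Real.sqrt (M.trace + 2 * Real.sqrt M.det) *
          Real.sqrt (M.trace + 2 * Real.sqrt M.det)) = 1 := by
      field_simp
    rwa [hr] at h1
  rw [hc, one_smul]

/-- **T6.20e.2a**: `EllNormC634`. -/
theorem ellNormC634 : EllNormC634 := by
  intro γ hdisc
  have hD := det_pos_of_disc_neg634 γ hdisc
  set M : Matrix (Fin 2) (Fin 2) ℝ := (γ : Matrix (Fin 2) (Fin 2) ℝ) with hM
  have hs : 0 < Real.sqrt M.det := Real.sqrt_pos.mpr hD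
  have hsq : Real.sqrt M.det * Real.sqrt M.det = M.det := Real.mul_self_sqrt hD.le
  have hlt : M.trace ^ 2 < 4 * M.det := by
    have : M.trace ^ 2 - 4 * M.det < 0 := hdisc
    linarith
  have ht : 0 < M.trace + 2 * Real.sqrt M.det := by
    by_contra hcon
    have hcon := not_lt.mp hcon
    have h1 : 2 * Real.sqrt M.det ≤ -M.trace := by linarith
    have h2 : (2 * Real.sqrt M.det) ^ 2 ≤ (-M.trace) ^ 2 :=
      pow_le_pow_left₀ (by positivity) h1 2
    nlinarith
  have hmul := sqrtMat_mul_self634 M hD ht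
  have hdet : (sqrtMat634 M).det ≠ 0 := by
    intro h0
    have : (sqrtMat634 M * sqrtMat634 M).det = 0 := by rw [Matrix.det_mul, h0, zero_mul]
    rw [hmul] at this
    exact hD.ne' this
  set δR : GL (Fin 2) ℝ := Matrix.GeneralLinearGroup.mkOfDetNeZero (sqrtMat634 M) hdet with hδR
  have hδsq : δR * δR = γ := by
    apply Units.ext
    change sqrtMat634 M * sqrtMat634 M = M
    exact hmul
  refine ⟨Matrix.GeneralLinearGroup.map (algebraMap ℝ ℂ) δR, ?_⟩
  have hfix : glAut (starRingAut : ℂ ≃+* ℂ) (Matrix.GeneralLinearGroup.map (algebraMap ℝ ℂ) δR)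
      = Matrix.GeneralLinearGroup.map (algebraMap ℝ ℂ) δR := by
    apply Units.ext
    ext i j
    simp [glAut, Matrix.GeneralLinearGroup.map, Matrix.map_apply]
  have hN : twNorm (starRingAut : ℂ ≃+* ℂ) 2 (Matrix.GeneralLinearGroup.map (algebraMap ℝ ℂ) δR)
      = Matrix.GeneralLinearGroup.map (algebraMap ℝ ℂ) γ := by
    unfold twNorm
    simp only [twN, map_one, mul_one]
    rw [hfix, ← map_mul, hδsq]
  rw [hN]

end Fermat.Agent.LT.T6.H634

end

end
-- ===== PACK-END LT/T6/H634/EllNorm.lean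

-- ===== PACK-BEGIN LT/T6/H846/DecompGlue.lean
section








/-!
# Row LT, tower T6, leaf T6.18g2-D0 `DecompGlueC783` (helper846), OFF-MAIN

`decompGlueC846 : Fermat.Agent.LT.T6.H783.DecompGlueC783` VERBATIM (sub-spec of helper783,
`DescSpec.lean` sha256 efb33450):
`FibreC783 → GenLvlC783 → OrbSumExC → OrbSumUniqC → AddC783 → DecompC783`.

Proof: prune `Y` to representatives `Y'` of distinct double cosets `G y U'(n)`; `A` a common
bound of the entries of the `y ∈ Y'`, `m = n + 2 A`; then `U(m) ⊆ Γ_y`, `φ_y` is bi-`U(m)`-invariant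
of finite support (local finiteness), `Γ_y` is a bounded subgroup with integral traces and unit
determinants; `ψ = ∑_{y ∈ Y'} κ_y⁻¹ φ_y` with the `κ_y` of `GenLvlC783`.
-/

set_option autoImplicit false
set_option linter.unusedSectionVars false
set_option linter.style.haveILetI false

open scoped Matrix
open WithZero

noncomputable section

namespace Fermat.Agent.LT.T6.H846

open Fermat.Agent.LT.T6 Fermat.Agent.LT.T6.H783

section Conj

variable {K : Type} [Field K]

theorem trace_conj846 (x t : GL (Fin 2) K) :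
    ((x⁻¹ * t * x : GL (Fin 2) K) : Matrix (Fin 2) (Fin 2) K).trace
      = (t : Matrix (Fin 2) (Fin 2) K).trace := by
  rw [Units.val_mul, Units.val_mul, Matrix.trace_mul_cycle, ← Units.val_mul, mul_inv_cancel]
  simp

theorem det_conj846 (x t : GL (Fin 2) K) :
    ((x⁻¹ * t * x : GL (Fin 2) K) : Matrix (Fin 2) (Fin 2) K).det
      = (t : Matrix (Fin 2) (Fin 2) K).det := by
  rw [Units.val_mul, Units.val_mul, Matrix.det_mul, Matrix.det_mul, mul_comm, ← mul_assoc,
    ← Matrix.det_mul, ← Units.val_mul, mul_inv_cancel]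
  simp

end Conj

section DC

variable {k k' : Type} [Field k] [Field k'] [Valued k' Γ₀]

theorem inDC_refl846 (i : k →+* k') (n : ℕ) (y : GL (Fin 2) k') : InDC783 i n y y :=
  ⟨1, 1, inU_one846 n, by simp⟩

theorem inDC_symm846 (i : k →+* k') (n : ℕ) (y x : GL (Fin 2) k') (h : InDC783 i n y x) :
    InDC783 i n x y := by
  obtain ⟨g, u, hu, hx⟩ := h
  refine ⟨g⁻¹, u⁻¹, inU_inv846 n u hu, ?_⟩
  rw [hx, map_inv]
  group

theorem inDC_trans846 (i : k →+* k') (n : ℕ) (a b c : GL (Fin 2) k') (h : InDC783 i n a b)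
    (h' : InDC783 i n b c) : InDC783 i n a c := by
  obtain ⟨g, u, hu, hb⟩ := h
  obtain ⟨g', u', hu', hc⟩ := h'
  refine ⟨g' * g, u * u', inU_mul846 n u u' hu hu', ?_⟩
  rw [hc, hb, map_mul]
  group

end DC

section PerY

variable {k k' : Type} [Field k] [Field k'] [Valued k Γ₀] [Valued k' Γ₀]

/-- the data of the local extension used below -/
structure ExtData846 (i : k →+* k') (s : k' ≃+* k') (e : ℕ) : Prop where
  e_pos : 0 < e
  val_i : ∀ x : k, Valued.v (i x) = Valued.v x ^ e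
  val_s : ∀ y : k', Valued.v (s y) = Valued.v y
  fix_i : ∀ x : k, s (i x) = i x

variable {i : k →+* k'} {s : k' ≃+* k'} {e : ℕ}

theorem ExtData846.conj_mem (E : ExtData846 i s e) (A n : ℕ) (y : GL (Fin 2) k')
    (hy : EntryBdd783 (A : ℤ) y) (u : GL (Fin 2) k) (hu : InU (n + 2 * A) u) :
    InU n (y⁻¹ * Matrix.GeneralLinearGroup.map i u * y) :=
  inU_conj846 A n y _ hy (inU_map846 i e E.e_pos E.val_i _ u hu)

theorem ExtData846.glAut_conj (E : ExtData846 i s e) (y : GL (Fin 2) k') (g : GL (Fin 2) k) :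
    glAut s (y⁻¹ * Matrix.GeneralLinearGroup.map i g * y)
      = (glAut s y)⁻¹ * Matrix.GeneralLinearGroup.map i g * glAut s y := by
  rw [map_mul, map_mul, map_inv, glAut_map846 i s E.fix_i]

theorem ExtData846.conj_mem' (E : ExtData846 i s e) (n : ℕ) (y : GL (Fin 2) k')
    (g : GL (Fin 2) k) (h : InU n (y⁻¹ * Matrix.GeneralLinearGroup.map i g * y)) :
    InU n ((glAut s y)⁻¹ * Matrix.GeneralLinearGroup.map i g * glAut s y) := by
  rw [← E.glAut_conj]
  exact inU_glAut846 s E.val_s n _ h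

theorem phiY_eq846 (i : k →+* k') (s : k' ≃+* k') (φ : GL (Fin 2) k' → ℂ)
    (y : GL (Fin 2) k') (u g u' : GL (Fin 2) k) :
    phiY783 i s φ y (u * g * u')
      = φ ((y⁻¹ * Matrix.GeneralLinearGroup.map i u * y)
        * (y⁻¹ * Matrix.GeneralLinearGroup.map i g * glAut s y)
        * ((glAut s y)⁻¹ * Matrix.GeneralLinearGroup.map i u' * glAut s y)) := by
  unfold phiY783
  congr 1
  rw [map_mul, map_mul]
  group

theorem ExtData846.phiY_biInv (E : ExtData846 i s e) (A n : ℕ) (φ : GL (Fin 2) k' → ℂ)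
    (hφ : IsBiInv (InU n) φ) (y : GL (Fin 2) k') (hy : EntryBdd783 (A : ℤ) y) :
    IsBiInv (InU (n + 2 * A)) (phiY783 i s φ y) := by
  intro u u' g hu hu'
  rw [phiY_eq846]
  exact hφ _ _ _ (E.conj_mem A n y hy u hu) (E.conj_mem' n y u' (E.conj_mem A n y hy u' hu'))

theorem ExtData846.phiY_conj (E : ExtData846 i s e) (n : ℕ) (φ : GL (Fin 2) k' → ℂ)
    (hφ : IsBiInv (InU n) φ) (y : GL (Fin 2) k') (g x : GL (Fin 2) k)
    (hg : GamY783 i n y g) : phiY783 i s φ y (g⁻¹ * x * g) = phiY783 i s φ y x := by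
  rw [phiY_eq846]
  have h1 : InU n (y⁻¹ * Matrix.GeneralLinearGroup.map i g⁻¹ * y) := by
    have e1 : y⁻¹ * Matrix.GeneralLinearGroup.map i g⁻¹ * y
        = (y⁻¹ * Matrix.GeneralLinearGroup.map i g * y)⁻¹ := by
      rw [map_inv]
      group
    rw [e1]
    exact inU_inv846 n _ hg
  exact hφ _ _ _ h1 (E.conj_mem' n y g hg)

theorem ExtData846.phiY_bdd (E : ExtData846 i s e) (A A' n : ℕ) (φ : GL (Fin 2) k' → ℂ)
    (F' : Finset (GL (Fin 2) k'))
    (hF' : ∀ g : GL (Fin 2) k', φ g ≠ 0 → ∃ x ∈ F', ∃ u : GL (Fin 2) k', InU n u ∧ g = x * u)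
    (hA' : ∀ x ∈ F', EntryBdd783 (A' : ℤ) x)
    (y : GL (Fin 2) k') (hy : EntryBdd783 (A : ℤ) y) (g : GL (Fin 2) k)
    (hne : phiY783 i s φ y g ≠ 0) : EntryBdd783 ((A + A' + A : ℕ) : ℤ) g := by
  obtain ⟨x, hx, u, hu, hw⟩ := hF' _ hne
  have h1 : EntryBdd783 ((A' : ℤ) + 0) (x * u) :=
    entryBdd_mul846 _ _ _ _ (hA' x hx) (entryBdd_of_inU846 n u hu)
  have h2 : Matrix.GeneralLinearGroup.map i g = y * (x * u) * (glAut s y)⁻¹ := by
    rw [← hw]
    group
  have h3 : EntryBdd783 ((A : ℤ) + ((A' : ℤ) + 0) + (A : ℤ))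
      (Matrix.GeneralLinearGroup.map i g) := by
    rw [h2]
    exact entryBdd_mul846 _ _ _ _ (entryBdd_mul846 _ _ _ _ hy h1)
      (entryBdd_inv846 _ _ (entryBdd_glAut846 s E.val_s _ y hy))
  refine entryBdd_of_map846 i e E.e_pos E.val_i _ g ?_
  have e4 : ((A + A' + A : ℕ) : ℤ) = (A : ℤ) + ((A' : ℤ) + 0) + (A : ℤ) := by
    push_cast
    ring
  rw [e4]
  exact h3

theorem ExtData846.gam_bdd (E : ExtData846 i s e) (A n : ℕ) (y : GL (Fin 2) k')
    (hy : EntryBdd783 (A : ℤ) y) (g : GL (Fin 2) k) (hg : GamY783 i n y g) :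
    EntryBdd783 ((A + A : ℕ) : ℤ) g := by
  have h2 : Matrix.GeneralLinearGroup.map i g
      = y * (y⁻¹ * Matrix.GeneralLinearGroup.map i g * y) * y⁻¹ := by group
  have h3 : EntryBdd783 ((A : ℤ) + 0 + (A : ℤ)) (Matrix.GeneralLinearGroup.map i g) := by
    rw [h2]
    exact entryBdd_mul846 _ _ _ _ (entryBdd_mul846 _ _ _ _ hy (entryBdd_of_inU846 n _ hg))
      (entryBdd_inv846 _ _ hy)
  refine entryBdd_of_map846 i e E.e_pos E.val_i _ g ?_
  have e4 : ((A + A : ℕ) : ℤ) = (A : ℤ) + 0 + (A : ℤ) := by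
    push_cast
    ring
  rw [e4]
  exact h3

theorem ExtData846.gam_int (E : ExtData846 i s e) (n : ℕ) (y : GL (Fin 2) k')
    (g : GL (Fin 2) k) (hg : GamY783 i n y g) :
    Valued.v (g : Matrix (Fin 2) (Fin 2) k).trace ≤ 1 ∧
      Valued.v (g : Matrix (Fin 2) (Fin 2) k).det = 1 := by
  have h1 := trace_le_of_entLe846 _ (entLe_of_inU846 n _ hg)
  have h2 := det_eq_one_of_inU846 n _ hg
  rw [trace_conj846, trace_map846, E.val_i] at h1
  rw [det_conj846, det_map846, E.val_i] at h2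
  exact ⟨le_one_of_pow_le_one846 _ e E.e_pos h1, eq_one_of_pow_eq_one846 _ e E.e_pos h2⟩

theorem gam_one846 (i : k →+* k') (n : ℕ) (y : GL (Fin 2) k') : GamY783 i n y 1 := by
  unfold GamY783
  rw [map_one, mul_one, inv_mul_cancel]
  exact inU_one846 n

theorem gam_mul846 (i : k →+* k') (n : ℕ) (y : GL (Fin 2) k') (g g' : GL (Fin 2) k)
    (hg : GamY783 i n y g) (hg' : GamY783 i n y g') : GamY783 i n y (g * g') := by
  unfold GamY783 at *
  have e1 : y⁻¹ * Matrix.GeneralLinearGroup.map i (g * g') * y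
      = (y⁻¹ * Matrix.GeneralLinearGroup.map i g * y)
        * (y⁻¹ * Matrix.GeneralLinearGroup.map i g' * y) := by
    rw [map_mul]
    group
  rw [e1]
  exact inU_mul846 n _ _ hg hg'

theorem gam_inv846 (i : k →+* k') (n : ℕ) (y : GL (Fin 2) k') (g : GL (Fin 2) k)
    (hg : GamY783 i n y g) : GamY783 i n y g⁻¹ := by
  unfold GamY783 at *
  have e1 : y⁻¹ * Matrix.GeneralLinearGroup.map i g⁻¹ * y
      = (y⁻¹ * Matrix.GeneralLinearGroup.map i g * y)⁻¹ := by
    rw [map_inv]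
    group
  rw [e1]
  exact inU_inv846 n _ hg

end PerY

/-- **T6.18g2-D0: the glue of the orbit decomposition.** -/
theorem decompGlueC846 : DecompGlueC783 := by
  intro hF hG hEx hUq hAdd
  intro k k' _ _ _ _ q l e i s n φ hB N₀ Y hcov
  classical
  have E : ExtData846 i s e :=
    ⟨hB.ext.e_pos, hB.ext.val_i, hB.ext.val_s, hB.ext.cyc.fix_i⟩
  -- Step 1: prune `Y`
  obtain ⟨Y', -, hdist, hcovY⟩ := prune846 (InDC783 i n) (inDC_refl846 i n)
    (inDC_symm846 i n) (inDC_trans846 i n) Y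
  -- Step 2: bounds
  obtain ⟨A, hA⟩ := exists_entryBdd_finset846 Y'
  obtain ⟨F', hF'⟩ := hB.supp
  obtain ⟨A', hA'⟩ := exists_entryBdd_finset846 F'
  set m : ℕ := n + 2 * A with hm
  -- Step 3: the functions `φ_y`
  have hinvY : ∀ y ∈ Y', IsBiInv (InU m) (phiY783 i s φ y) := fun y hy =>
    E.phiY_biInv A n φ hB.inv y (hA y hy)
  have hsuppY : ∀ y ∈ Y', HasFinSupp (InU m) (phiY783 i s φ y) := by
    intro y hy
    obtain ⟨F, hFc⟩ := localFinite846 hB.hk (A + A' + A) m
    exact ⟨F, fun g hg => hFc g (E.phiY_bdd A A' n φ F' hF' hA' y (hA y hy) g hg)⟩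
  -- Step 4: the constants of `GenLvlC783`
  have hκ : ∀ y ∈ Y', ∃ κ : ℕ, κ ≠ 0 ∧ ∀ ψ : GL (Fin 2) k → ℂ, IsBiInv (InU m) ψ →
      (∀ g x, GamY783 i n y g → ψ (g⁻¹ * x * g) = ψ x) →
      ∀ (h : GL (Fin 2) k) (c' : ℂ), IsReg h → IsOrbSum m ψ h c' →
        ∃ c : ℂ, IsOrbSumGam783 (GamY783 i n y) ψ h c ∧ c' = (κ : ℂ) * c := by
    intro y hy
    refine hG k q hB.hk m (GamY783 i n y) (gam_one846 i n y) (gam_mul846 i n y)
      (gam_inv846 i n y) (fun g hg => E.conj_mem A n y (hA y hy) g hg)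
      (fun g hg => E.gam_int n y g hg) ?_
    obtain ⟨F, hFc⟩ := localFinite846 hB.hk (A + A) m
    exact ⟨F, fun g hg => hFc g (E.gam_bdd A n y (hA y hy) g hg)⟩
  choose! κ hκ0 hκ1 using hκ
  -- Step 5: the function `ψ`
  refine ⟨m, ∑ y ∈ Y', fun g => ((κ y : ℂ))⁻¹ * phiY783 i s φ y g, ?_, ?_, ?_⟩
  · exact isBiInv_sum846 _ Y' _ fun y hy => isBiInv_smul846 _ _ _ (hinvY y hy)
  · exact hasFinSupp_sum846 _ Y' _ fun y hy => hasFinSupp_smul846 _ _ _ (hsuppY y hy)
  -- Step 6: the identity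
  intro h c c' hball hreg hc hc'
  have hregh : IsReg h := isReg_of_pow846 h l hreg
  have hex : ∀ y ∈ Y', ∃ c₁ : ℂ, IsOrbSum m (phiY783 i s φ y) h c₁ := fun y hy =>
    exists_orbSum846 hEx hB.hk m _ (hinvY y hy) (hsuppY y hy) h hregh
  choose! c₁ hc₁ using hex
  have hgen : ∀ y ∈ Y', ∃ c₂ : ℂ, IsOrbSumGam783 (GamY783 i n y) (phiY783 i s φ y) h c₂ ∧
      c₁ y = (κ y : ℂ) * c₂ := fun y hy =>
    hκ1 y hy _ (hinvY y hy) (fun g x hg => E.phiY_conj n φ hB.inv y g x hg) h (c₁ y) hregh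
      (hc₁ y hy)
  choose! c₂ hc₂ hc₁₂ using hgen
  have hcover : ∀ x : GL (Fin 2) k',
      φ (x⁻¹ * Matrix.GeneralLinearGroup.map i h * glAut s x) ≠ 0 →
        ∃ y ∈ Y', InDC783 i n y x := by
    intro x hx
    obtain ⟨y, hy, hyx⟩ := hcov h x hball hx
    obtain ⟨y', hy', hy'y⟩ := hcovY y hy
    exact ⟨y', hy', inDC_trans846 i n _ _ _ hy'y hyx⟩
  have hfib : c = ∑ y ∈ Y', c₂ y :=
    hF k k' q l e i s n φ hB Y' hdist h hreg hcover c c₂ hc hc₂
  have hsum : IsOrbSum m (∑ y ∈ Y', fun g => ((κ y : ℂ))⁻¹ * phiY783 i s φ y g) h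
      (∑ y ∈ Y', ((κ y : ℂ))⁻¹ * c₁ y) :=
    isOrbSum_sum846 hAdd m Y' _ _ h
      (fun y hy => isBiInv_smul846 _ _ _ (hinvY y hy))
      (fun y hy => isOrbSumGen_smul846 _ _ _ _ _ _ _
        (inv_ne_zero (Nat.cast_ne_zero.2 (hκ0 y hy))) (hc₁ y hy))
  have huniq := orbSum_unique846 hUq m _
    (isBiInv_sum846 _ Y' _ fun y hy => isBiInv_smul846 _ _ _ (hinvY y hy)) h _ _ hc' hsum
  rw [huniq, hfib]
  refine (Finset.sum_congr rfl fun y hy => ?_).symm
  rw [hc₁₂ y hy, ← mul_assoc, inv_mul_cancel₀ (Nat.cast_ne_zero.2 (hκ0 y hy)), one_mul]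

example : Fermat.Agent.LT.T6.H783.DecompGlueC783 := decompGlueC846

end Fermat.Agent.LT.T6.H846

end

end
-- ===== PACK-END LT/T6/H846/DecompGlue.lean

-- ===== PACK-BEGIN LT/T6/H122/HypNonNorm.lean
section




/-!
# Row LT, tower T6, sub-leaf T6.18i.1 `HypNonNormC385` (helper122), OFF-MAIN

Near a central non-norm `z` the hyperbolic regular elements of `GL₂(k)` are not norms.

Proof.  Let `γ` be regular with an eigenvalue `t ∈ k`, `γ ∼ N δ = δ σ(δ)`.

* ALGEBRA (`eigen_isNorm122`, any fields, no valuation): `t` is a norm from `k'`.  Let `v ≠ 0` be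
  an eigenvector of `A = δ σ(δ)` for `t`, `F x = δ σ(x)`.  Then `F² = A`, `A F = F A` and `F` is
  `σ`-semilinear, so `F v` is an eigenvector for `σ(t) = t`; the eigenspace is a line (`γ` is
  regular), `F v = c v`, and `t v = A v = F (F v) = σ(c) c v`.
* ESTIMATE: `(t - z)² = t (tr γ - 2 z) - (det γ - z²)`, so `|t - z| < |4 z|` in a small `χ`-ball.
* HENSEL (`H129.hensel_quad129`): `t / z` is a square `x²` in `k`, hence
  `z = t / x² = N (c / x)` is a norm.
-/

set_option autoImplicit false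

open scoped Matrix

noncomputable section

namespace Fermat.Agent.LT.T6.H122

open Fermat.Agent.LT.T6 Fermat.Agent.LT.T6.H783 Fermat.Agent.LT.T6.H385

/-! ## Algebra -/

section Algebra

variable {k k' : Type} [Field k] [Field k']

theorem twNorm_two122 (s : k' ≃+* k') (δ : GL (Fin 2) k') :
    twNorm s 2 δ = δ * glAut s δ := by
  show twN (glAut s) 2 δ = _
  simp [twN]

theorem glAut_coe122 (s : k' ≃+* k') (δ : GL (Fin 2) k') :
    ((glAut s δ : GL (Fin 2) k') : Matrix (Fin 2) (Fin 2) k')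
      = (δ : Matrix (Fin 2) (Fin 2) k').map s := rfl

/-- `σ` applied to a matrix-vector product. -/
theorem map_mulVec122 (s : k' ≃+* k') (M : Matrix (Fin 2) (Fin 2) k') (v : Fin 2 → k') :
    (fun j => s ((M *ᵥ v) j)) = (M.map s) *ᵥ (fun j => s (v j)) := by
  funext j
  have := RingHom.map_mulVec (s : k' →+* k') M v j
  simpa [Function.comp_def] using this

/-- An eigenvalue in `k` of a regular element of `GL₂(k)` which is a norm from `GL₂(k')`
(`k'/k` quadratic) is a norm from `k'`. -/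
theorem eigen_isNorm122 (i : k →+* k') (s : k' ≃+* k')
    (hfix : ∀ x : k, s (i x) = i x) (hord : ∀ y : k', s (s y) = y)
    (γ : GL (Fin 2) k) (hreg : disc γ ≠ 0) (t : k)
    (ht : t ^ 2 - (γ : Matrix (Fin 2) (Fin 2) k).trace * t
      + (γ : Matrix (Fin 2) (Fin 2) k).det = 0)
    (δ : GL (Fin 2) k')
    (hconj : IsConj (twNorm s 2 δ) (Matrix.GeneralLinearGroup.map i γ)) :
    ∃ c : k', i t = c * s c := by
  classical
  set G : Matrix (Fin 2) (Fin 2) k := (γ : Matrix (Fin 2) (Fin 2) k) with hG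
  set D : Matrix (Fin 2) (Fin 2) k' := (δ : Matrix (Fin 2) (Fin 2) k') with hD
  -- an eigenvector of `γ`
  have hdet : (G - t • (1 : Matrix (Fin 2) (Fin 2) k)).det = 0 := by
    rw [Matrix.det_fin_two]
    rw [Matrix.trace_fin_two, Matrix.det_fin_two] at ht
    simp only [Matrix.sub_apply, Matrix.smul_apply, Matrix.one_apply_eq, smul_eq_mul, mul_one,
      Matrix.one_apply_ne, ne_eq, zero_ne_one, one_ne_zero, not_false_eq_true, mul_zero,
      sub_zero]
    linear_combination ht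
  obtain ⟨w, hw0, hw⟩ := Matrix.exists_mulVec_eq_zero_iff.mpr hdet
  have hGw : G *ᵥ w = t • w := by
    rw [Matrix.sub_mulVec, Matrix.smul_mulVec, Matrix.one_mulVec, sub_eq_zero] at hw
    exact hw
  -- in `k'`
  set B : Matrix (Fin 2) (Fin 2) k' := G.map i with hB
  have hBcoe : ((Matrix.GeneralLinearGroup.map i γ : GL (Fin 2) k') :
      Matrix (Fin 2) (Fin 2) k') = B := rfl
  set w' : Fin 2 → k' := fun j => i (w j) with hw'
  have hBw : B *ᵥ w' = i t • w' := by
    funext j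
    have h1 := RingHom.map_mulVec i G w j
    have h2 : (fun j => i (w j)) = (i ∘ w) := rfl
    rw [hw', h2, hB, ← h1, hGw]
    simp
  have hw'0 : w' ≠ 0 := by
    intro h
    apply hw0
    funext j
    have := congrFun h j
    exact i.injective (by simpa [hw'] using this)
  -- the conjugating element
  obtain ⟨C, hC⟩ := isConj_iff.mp hconj
  set Cm : Matrix (Fin 2) (Fin 2) k' := (C : Matrix (Fin 2) (Fin 2) k') with hCm
  set Ci : Matrix (Fin 2) (Fin 2) k' := ((C⁻¹ : GL (Fin 2) k') : Matrix (Fin 2) (Fin 2) k')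
    with hCi
  have hCCi : Cm * Ci = 1 := by
    rw [hCm, hCi, ← Matrix.GeneralLinearGroup.coe_mul, mul_inv_cancel]; rfl
  have hCiC : Ci * Cm = 1 := by
    rw [hCm, hCi, ← Matrix.GeneralLinearGroup.coe_mul, inv_mul_cancel]; rfl
  set A : Matrix (Fin 2) (Fin 2) k' := D * D.map s with hA
  have hAcoe : ((twNorm s 2 δ : GL (Fin 2) k') : Matrix (Fin 2) (Fin 2) k') = A := by
    rw [twNorm_two122, Matrix.GeneralLinearGroup.coe_mul, glAut_coe122]
  have hCAC : Cm * A * Ci = B := by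
    have h := congrArg (fun g : GL (Fin 2) k' => (g : Matrix (Fin 2) (Fin 2) k')) hC
    simp only [Matrix.GeneralLinearGroup.coe_mul] at h
    rw [hAcoe, hBcoe] at h
    exact h
  have hA_eq : A = Ci * B * Cm := by
    rw [← hCAC]
    calc A = (Ci * Cm) * A * (Ci * Cm) := by rw [hCiC, Matrix.one_mul, Matrix.mul_one]
      _ = Ci * (Cm * A * Ci) * Cm := by simp only [Matrix.mul_assoc]
  -- the eigenvector of `A`
  set v : Fin 2 → k' := Ci *ᵥ w' with hv
  have hAv : A *ᵥ v = i t • v := by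
    rw [hA_eq, hv, Matrix.mulVec_mulVec, Matrix.mul_assoc, Matrix.mul_assoc, hCCi, Matrix.mul_one,
      ← Matrix.mulVec_mulVec, hBw, Matrix.mulVec_smul]
  have hv0 : v ≠ 0 := by
    intro h
    apply hw'0
    have : Cm *ᵥ v = w' := by
      rw [hv, Matrix.mulVec_mulVec, hCCi, Matrix.one_mulVec]
    rw [← this, h, Matrix.mulVec_zero]
  -- the semilinear map
  set sv : Fin 2 → k' := fun j => s (v j) with hsv
  set Fv : Fin 2 → k' := D *ᵥ sv with hFv
  have hss : (D.map s).map s = D := by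
    ext a b
    simp [Matrix.map_apply, hord]
  have hsAv : (D.map s * D) *ᵥ sv = i t • sv := by
    have h1 := map_mulVec122 s A v
    rw [hAv] at h1
    have h2 : A.map s = D.map s * D := by
      rw [hA, Matrix.map_mul, hss]
    rw [h2] at h1
    rw [← h1]
    funext j
    simp [hsv, hfix]
  have hAFv : A *ᵥ Fv = i t • Fv := by
    rw [hFv, hA, Matrix.mulVec_mulVec, Matrix.mul_assoc, ← Matrix.mulVec_mulVec, hsAv,
      Matrix.mulVec_smul]
  -- `F (F v) = A v`
  have hFF : D *ᵥ (fun j => s (Fv j)) = i t • v := by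
    have h1 := map_mulVec122 s D sv
    have h2 : (fun j => s (sv j)) = v := by
      funext j
      simp [hsv, hord]
    rw [h2] at h1
    rw [h1, Matrix.mulVec_mulVec, ← hAv]
  -- dependence
  have hdep : v 0 * Fv 1 - v 1 * Fv 0 = 0 := by
    by_contra hne
    -- then `A` is scalar
    have hv_a : ∀ a, A a 0 * v 0 + A a 1 * v 1 = i t * v a := by
      intro a
      have := congrFun hAv a
      simpa [Matrix.mulVec, dotProduct, Fin.sum_univ_two] using this
    have hF_a : ∀ a, A a 0 * Fv 0 + A a 1 * Fv 1 = i t * Fv a := by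
      intro a
      have := congrFun hAFv a
      simpa [Matrix.mulVec, dotProduct, Fin.sum_univ_two] using this
    have hA00 : A 0 0 = i t := by
      have h1 := hv_a 0
      have h2 := hF_a 0
      have : (A 0 0 - i t) * (v 0 * Fv 1 - v 1 * Fv 0) = 0 := by
        linear_combination Fv 1 * h1 - v 1 * h2
      rcases mul_eq_zero.mp this with h | h
      · exact sub_eq_zero.mp h
      · exact absurd h hne
    have hA01 : A 0 1 = 0 := by
      have h1 := hv_a 0
      have h2 := hF_a 0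
      have : A 0 1 * (v 0 * Fv 1 - v 1 * Fv 0) = 0 := by
        linear_combination v 0 * h2 - Fv 0 * h1
      rcases mul_eq_zero.mp this with h | h
      · exact h
      · exact absurd h hne
    have hA10 : A 1 0 = 0 := by
      have h1 := hv_a 1
      have h2 := hF_a 1
      have : A 1 0 * (v 0 * Fv 1 - v 1 * Fv 0) = 0 := by
        linear_combination Fv 1 * h1 - v 1 * h2
      rcases mul_eq_zero.mp this with h | h
      · exact h
      · exact absurd h hne
    have hA11 : A 1 1 = i t := by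
      have h1 := hv_a 1
      have h2 := hF_a 1
      have : (A 1 1 - i t) * (v 0 * Fv 1 - v 1 * Fv 0) = 0 := by
        linear_combination v 0 * h2 - Fv 0 * h1
      rcases mul_eq_zero.mp this with h | h
      · exact sub_eq_zero.mp h
      · exact absurd h hne
    have hAsc : A = i t • (1 : Matrix (Fin 2) (Fin 2) k') := by
      ext a b
      fin_cases a <;> fin_cases b <;> simp [hA00, hA01, hA10, hA11]
    have hBsc : B = i t • (1 : Matrix (Fin 2) (Fin 2) k') := by
      rw [← hCAC, hAsc, Matrix.mul_smul, Matrix.mul_one, Matrix.smul_mul, hCCi]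
    have hG00 : G 0 0 = t := i.injective (by
      have := congrFun (congrFun hBsc 0) 0
      simpa [hB] using this)
    have hG11 : G 1 1 = t := i.injective (by
      have := congrFun (congrFun hBsc 1) 1
      simpa [hB] using this)
    have hG01 : G 0 1 = 0 := i.injective (by
      have := congrFun (congrFun hBsc 0) 1
      simpa [hB] using this)
    apply hreg
    show (γ : Matrix (Fin 2) (Fin 2) k).trace ^ 2 - 4 * (γ : Matrix (Fin 2) (Fin 2) k).det = 0
    rw [Matrix.trace_fin_two, Matrix.det_fin_two, ← hG, hG00, hG11, hG01]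
    ring
  -- `F v = c v`
  obtain ⟨c, hc⟩ : ∃ c : k', Fv = c • v := by
    by_cases h0 : v 0 = 0
    · have h1 : v 1 ≠ 0 := by
        intro h1
        apply hv0
        funext j
        fin_cases j
        · exact h0
        · exact h1
      refine ⟨Fv 1 / v 1, ?_⟩
      funext j
      fin_cases j
      · show Fv 0 = Fv 1 / v 1 * v 0
        rw [h0, mul_zero]
        rw [h0, zero_mul, zero_sub, neg_eq_zero] at hdep
        rcases mul_eq_zero.mp hdep with h | h
        · exact absurd h h1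
        · exact h
      · show Fv 1 = Fv 1 / v 1 * v 1
        field_simp
    · refine ⟨Fv 0 / v 0, ?_⟩
      funext j
      fin_cases j
      · show Fv 0 = Fv 0 / v 0 * v 0
        field_simp
      · show Fv 1 = Fv 0 / v 0 * v 1
        field_simp
        linear_combination hdep
  -- conclusion
  have hkey : i t • v = (c * s c) • v := by
    rw [← hFF]
    have h1 : (fun j => s (Fv j)) = s c • sv := by
      funext j
      rw [hc]
      simp [hsv]
    rw [h1, Matrix.mulVec_smul, ← hFv, hc, smul_smul, mul_comm]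
  obtain ⟨j, hj⟩ : ∃ j, v j ≠ 0 := by
    by_contra h
    exact hv0 (funext fun j => by_contra fun hj => h ⟨j, hj⟩)
  have := congrFun hkey j
  simp only [Pi.smul_apply, smul_eq_mul] at this
  exact ⟨c, mul_right_cancel₀ hj this⟩

end Algebra

/-! ## The value group -/

theorem exists_exp_lt122 (g : Γ₀) (hg : g ≠ 0) : ∃ N : ℤ, WithZero.exp (-N) < g := by
  refine ⟨-(WithZero.log g) + 1, ?_⟩
  conv_rhs => rw [← WithZero.exp_log hg]
  rw [WithZero.exp_lt_exp]
  omega

/-! ## The estimate -/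

section Main

variable {k : Type} [Field k] [Valued k Γ₀]

/-- If `(t - z)² = t a - b` with `a`, `b` small, then `t - z` is small. -/
theorem root_near122 (z t a b : k) (r ε : Γ₀) (hr : r ≠ 0)
    (hε1 : ε < r) (hε2 : ε < r ^ 2) (hε3 : ε * Valued.v z < r ^ 2)
    (ha : Valued.v a ≤ ε) (hb : Valued.v b ≤ ε)
    (hw : (t - z) ^ 2 = ((t - z) + z) * a - b) : Valued.v (t - z) < r := by
  by_contra h
  rw [not_lt] at h
  have hw0 : 0 < Valued.v (t - z) := lt_of_lt_of_le (zero_lt_iff.mpr hr) h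
  have hsq : r ^ 2 ≤ Valued.v (t - z) ^ 2 := by
    rw [sq, sq]; exact mul_le_mul' h h
  have h1 : Valued.v ((t - z) ^ 2) = Valued.v (t - z) ^ 2 := map_pow _ _ _
  have h2 : Valued.v (((t - z) + z) * a - b)
      ≤ max (Valued.v (((t - z) + z) * a)) (Valued.v b) := Valuation.map_sub _ _ _
  have h3 : Valued.v (((t - z) + z) * a) ≤ max (Valued.v (t - z)) (Valued.v z) * ε := by
    rw [map_mul]
    exact mul_le_mul' (Valuation.map_add _ _ _) ha
  have key : Valued.v (t - z) ^ 2 ≤ max (max (Valued.v (t - z)) (Valued.v z) * ε) ε := by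
    rw [← h1, hw]
    exact h2.trans (max_le_max h3 hb)
  rcases le_max_iff.mp key with h' | h'
  · rcases le_total (Valued.v (t - z)) (Valued.v z) with hle | hle
    · rw [max_eq_right hle, mul_comm] at h'
      exact absurd (lt_of_lt_of_le hε3 hsq) (not_lt.mpr h')
    · rw [max_eq_left hle] at h'
      have h5 : Valued.v (t - z) * ε < Valued.v (t - z) * Valued.v (t - z) :=
        mul_lt_mul_of_pos_left (lt_of_lt_of_le hε1 h) hw0
      rw [sq] at h'
      exact absurd h5 (not_lt.mpr h')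
  · exact absurd (lt_of_lt_of_le hε2 hsq) (not_lt.mpr h')

end Main

/-! ## The leaf -/

/-- **T6.18i.1 `HypNonNormC385`.** -/
theorem hypNonNormC122 : HypNonNormC385 := by
  intro k k' _ _ _ _ q e i s hQ z hz hnn
  have : CompleteSpace k := hQ.hk.complete
  have : CharZero k := hQ.hk.char0
  have h4 : (4 : k) ≠ 0 := by norm_num
  set r : Γ₀ := Valued.v (4 * z) with hr
  have hr0 : r ≠ 0 := by
    rw [hr]; exact (Valuation.ne_zero_iff _).mpr (mul_ne_zero h4 hz)
  have hvz : Valued.v z ≠ 0 := (Valuation.ne_zero_iff _).mpr hz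
  have hg : min r (min (r ^ 2) (r ^ 2 / Valued.v z)) ≠ 0 := by
    have h1 : (0 : Γ₀) < r := zero_lt_iff.mpr hr0
    have h2 : (0 : Γ₀) < r ^ 2 := zero_lt_iff.mpr (pow_ne_zero 2 hr0)
    have h3 : (0 : Γ₀) < r ^ 2 / Valued.v z :=
      zero_lt_iff.mpr (div_ne_zero (pow_ne_zero 2 hr0) hvz)
    exact (lt_min h1 (lt_min h2 h3)).ne'
  obtain ⟨N, hN⟩ := exists_exp_lt122 _ hg
  refine ⟨N, ?_⟩
  intro γ hreg hball heig hnorm
  obtain ⟨t, ht⟩ := heig
  obtain ⟨δ, hδ⟩ := hnorm
  have hord : ∀ y : k', s (s y) = y := fun y => by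
    have := hQ.ext.cyc.order y
    simpa [pow_two] using this
  obtain ⟨c, hc⟩ := eigen_isNorm122 i s hQ.ext.cyc.fix_i hord γ hreg.ne_zero t ht δ hδ
  -- the estimate
  have hε1 : WithZero.exp (-N) < r := lt_of_lt_of_le hN (min_le_left _ _)
  have hε2 : WithZero.exp (-N) < r ^ 2 :=
    lt_of_lt_of_le hN ((min_le_right _ _).trans (min_le_left _ _))
  have hε3' : WithZero.exp (-N) < r ^ 2 / Valued.v z :=
    lt_of_lt_of_le hN ((min_le_right _ _).trans (min_le_right _ _))
  have hε3 : WithZero.exp (-N) * Valued.v z < r ^ 2 :=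
    (lt_div_iff₀ (zero_lt_iff.mpr hvz)).mp hε3'
  have hnear : Valued.v (t - z) < r := by
    refine root_near122 z t ((γ : Matrix (Fin 2) (Fin 2) k).trace - 2 * z)
      ((γ : Matrix (Fin 2) (Fin 2) k).det - z ^ 2) r _ hr0 hε1 hε2 hε3 hball.1 hball.2 ?_
    linear_combination ht
  -- Hensel: `t / z` is a square
  have hu : Valued.v ((1 : k) ^ 2 - 0 * 1 + -(t / z)) < Valued.v (2 * 1 - 0 : k) ^ 2 := by
    have e1 : (1 : k) ^ 2 - 0 * 1 + -(t / z) = -((t - z) / z) := by
      field_simp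
      ring
    have e2 : Valued.v (2 * 1 - 0 : k) ^ 2 = Valued.v (4 : k) := by
      rw [← map_pow]
      congr 1
      norm_num
    rw [e1, e2, Valuation.map_neg, map_div₀, div_lt_iff₀ (zero_lt_iff.mpr hvz), ← map_mul]
    exact hnear
  obtain ⟨x, hx, -⟩ := Fermat.Agent.LT.H129.hensel_quad129 (0 : k) (-(t / z)) 1 hu
  have hx2 : x ^ 2 = t / z := by linear_combination hx
  have ht0 : t ≠ 0 := by
    rintro rfl
    have hdet : (γ : Matrix (Fin 2) (Fin 2) k).det ≠ 0 := (Matrix.isUnits_det_units γ).ne_zero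
    apply hdet
    linear_combination ht
  have hx0 : x ≠ 0 := by
    rintro rfl
    rw [zero_pow two_ne_zero] at hx2
    exact div_ne_zero ht0 hz hx2.symm
  -- `z` is a norm: contradiction
  apply hnn
  refine ⟨c / i x, ?_⟩
  have hz_eq : z = t / x ^ 2 := by
    rw [hx2]
    field_simp
  have hix : i x ≠ 0 := (map_ne_zero i).mpr hx0
  have hprod : ∏ j ∈ Finset.range 2, (s ^ j) (c / i x) = (c / i x) * s (c / i x) := by
    rw [Finset.prod_range_succ, Finset.prod_range_succ, Finset.prod_range_zero]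
    simp
  rw [hprod, map_div₀, hQ.ext.cyc.fix_i]
  conv_lhs => rw [hz_eq]
  rw [map_div₀, map_pow, hc]
  field_simp

end Fermat.Agent.LT.T6.H122

end

end
-- ===== PACK-END LT/T6/H122/HypNonNorm.lean

-- ===== PACK-BEGIN LT/T6/H665/PropBase.lean
section




/-!
# Row LT, tower T6, sub-leaf T6.18i.6d `H385.PropBaseC385` (helper665) -- OFF-MAIN

`propBaseC665 : H385.PropBaseC385` (VERBATIM, unconditional): properness of the twisted orbit map
`x ↦ x⁻¹ δ₀ σ(x)` at `δ₀ = [[0, z], [1, 0]]` modulo the twisted centraliser `D^×`.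

Proof.  `g₀ = x⁻¹ δ₀ σ(x)` satisfies `g₀ σ(g₀) = z`.  With `g₀ = [[p, r], [t, u]]`:
`p σ(p) + r σ(t) = z`, `t σ(p) + u σ(t) = 0`, so `y = [[1, p], [0, t]]` satisfies
`g₀ σ(y) = y δ₀` and `x y ∈ D^×`.  `z` is not a norm, squares near `1` are norms (Hensel,
asset of helper129), so `|N p - z| > exp(-N₀) |z|`: `t` is bounded from below on `F U'(n)`.
The matrices `y⁻¹ = [[1, -p/t], [0, 1/t]]` lie in finitely many cosets `x₀ U'(n)` (finite nets
of balls: asset of helper965).

Imports: `T6/H385/DescSpec.lean` (helper385), `H129/HenselQuad.lean` (helper129),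
`T6/H965/Cover.lean` (helper965), byte-identical copies.
-/

set_option autoImplicit false

open scoped Matrix

noncomputable section

namespace Fermat.Agent.LT.T6.H665

open Fermat.Agent.LT.T6 Fermat.Agent.LT.T6.H783 Fermat.Agent.LT.T6.H385

/-! ## 1. Valuations -/

section Val

variable {k : Type} [Field k] [Valued k Γ₀]

/-- Squares near `1` (Hensel). -/
theorem sq_near_one665 [CompleteSpace k] [CharZero k] :
    ∃ N₀ : ℤ, 1 ≤ N₀ ∧ ∀ t : k, Valued.v (t - 1) ≤ WithZero.exp (-N₀) → ∃ r : k, r ^ 2 = t := by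
  have h2 : (2 : k) ≠ 0 := two_ne_zero
  have hv2 : Valued.v (2 : k) ≠ 0 := (Valuation.ne_zero_iff _).2 h2
  refine ⟨max 1 (1 - 2 * WithZero.log (Valued.v (2 : k))), le_max_left _ _, fun t ht => ?_⟩
  have hlt : Valued.v ((1 : k) ^ 2 - 0 * 1 + (-t)) < Valued.v (2 * (1 : k) - 0) ^ 2 := by
    have e1 : (1 : k) ^ 2 - 0 * 1 + (-t) = -(t - 1) := by ring
    have e2 : 2 * (1 : k) - 0 = 2 := by ring
    rw [e1, e2, Valuation.map_neg]
    refine lt_of_le_of_lt ht ?_
    have e3 : Valued.v (2 : k) ^ 2 = WithZero.exp (2 * WithZero.log (Valued.v (2 : k))) := by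
      conv_lhs => rw [← WithZero.exp_log hv2]
      rw [pow_two, ← WithZero.exp_add]
      congr 1
      ring
    rw [e3, WithZero.exp_lt_exp]
    have := le_max_right (1 : ℤ) (1 - 2 * WithZero.log (Valued.v (2 : k)))
    omega
  obtain ⟨x, hx, -⟩ := Fermat.Agent.LT.H129.hensel_quad129 0 (-t) 1 hlt
  exact ⟨x, by linear_combination hx⟩

/-- A finite set is bounded. -/
theorem exists_bound665 (S : Finset k) :
    ∃ B : ℤ, 0 ≤ B ∧ ∀ x ∈ S, Valued.v x ≤ WithZero.exp B := by
  classical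
  induction S using Finset.induction_on with
  | empty => exact ⟨0, le_rfl, by simp⟩
  | insert a S _ ih =>
    obtain ⟨B, hB0, hB⟩ := ih
    rcases eq_or_ne (Valued.v a) 0 with h0 | h0
    · refine ⟨B, hB0, fun x hx => ?_⟩
      rcases Finset.mem_insert.1 hx with rfl | hx
      · rw [h0]; exact zero_le
      · exact hB x hx
    · refine ⟨max B (WithZero.log (Valued.v a)), le_max_of_le_left hB0, fun x hx => ?_⟩
      rcases Finset.mem_insert.1 hx with rfl | hx
      · conv_lhs => rw [← WithZero.exp_log h0]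
        exact WithZero.exp_le_exp.2 (le_max_right _ _)
      · exact (hB x hx).trans (WithZero.exp_le_exp.2 (le_max_left _ _))

/-- The entries of the elements of a finite subset of `GL₂` are bounded. -/
theorem exists_entry_bound665 (F : Finset (GL (Fin 2) k)) :
    ∃ B : ℤ, 0 ≤ B ∧ ∀ f ∈ F, ∀ a b : Fin 2,
      Valued.v ((f : Matrix (Fin 2) (Fin 2) k) a b) ≤ WithZero.exp B := by
  classical
  obtain ⟨B, hB0, hB⟩ := exists_bound665
    (F.biUnion fun f => (Finset.univ : Finset (Fin 2 × Fin 2)).image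
      fun p => (f : Matrix (Fin 2) (Fin 2) k) p.1 p.2)
  refine ⟨B, hB0, fun f hf a b => hB _ ?_⟩
  exact Finset.mem_biUnion.2 ⟨f, hf, Finset.mem_image.2 ⟨(a, b), Finset.mem_univ _, rfl⟩⟩

theorem exp_neg_nat_le_one665 (n : ℕ) : WithZero.exp (-(n : ℤ)) ≤ (1 : Γ₀) := by
  rw [← WithZero.exp_zero, WithZero.exp_le_exp]
  omega

/-- The entries of an element of `U(n)` are integral. -/
theorem inU_entry_le665 {n : ℕ} {u : GL (Fin 2) k} (hu : InU n u) (a b : Fin 2) :
    Valued.v ((u : Matrix (Fin 2) (Fin 2) k) a b) ≤ 1 := by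
  have h := (hu a b).1
  have h1 : Valued.v ((1 : Matrix (Fin 2) (Fin 2) k) a b) ≤ 1 := by
    by_cases hab : a = b
    · subst hab; simp
    · simp [Matrix.one_apply_ne hab]
  have e : (u : Matrix (Fin 2) (Fin 2) k) a b
      = ((u : Matrix (Fin 2) (Fin 2) k) a b - (1 : Matrix (Fin 2) (Fin 2) k) a b)
        + (1 : Matrix (Fin 2) (Fin 2) k) a b := by ring
  rw [e]
  exact (Valuation.map_add _ _ _).trans (max_le (h.trans (exp_neg_nat_le_one665 n)) h1)

/-- The entries of `f u`, `u ∈ U(n)`, are bounded by the entries of `f`. -/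
theorem entry_mul_le665 {n : ℕ} {f u : GL (Fin 2) k} (hu : InU n u) {B : ℤ}
    (hf : ∀ a b, Valued.v ((f : Matrix (Fin 2) (Fin 2) k) a b) ≤ WithZero.exp B) (a b : Fin 2) :
    Valued.v (((f * u : GL (Fin 2) k) : Matrix (Fin 2) (Fin 2) k) a b) ≤ WithZero.exp B := by
  rw [Units.val_mul, Matrix.mul_apply, Fin.sum_univ_two]
  refine (Valuation.map_add _ _ _).trans (max_le ?_ ?_)
  · rw [map_mul]
    calc Valued.v ((f : Matrix (Fin 2) (Fin 2) k) a 0) * Valued.v ((u : Matrix (Fin 2) (Fin 2) k) 0 b)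
        ≤ WithZero.exp B * 1 := mul_le_mul' (hf a 0) (inU_entry_le665 hu 0 b)
      _ = WithZero.exp B := mul_one _
  · rw [map_mul]
    calc Valued.v ((f : Matrix (Fin 2) (Fin 2) k) a 1) * Valued.v ((u : Matrix (Fin 2) (Fin 2) k) 1 b)
        ≤ WithZero.exp B * 1 := mul_le_mul' (hf a 1) (inU_entry_le665 hu 1 b)
      _ = WithZero.exp B := mul_one _

end Val

/-! ## 2. The upper triangular matrices `[[1, a], [0, b]]` -/

section Up

variable {k : Type} [Field k]

/-- `[[1, a], [0, b]]`, `b ≠ 0`. -/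
def up665 (a b : k) (hb : b ≠ 0) : GL (Fin 2) k :=
  Matrix.GeneralLinearGroup.mkOfDetNeZero !![1, a; 0, b]
    (by rw [Matrix.det_fin_two_of]; simpa using hb)

theorem up_coe665 (a b : k) (hb : b ≠ 0) :
    ((up665 a b hb : GL (Fin 2) k) : Matrix (Fin 2) (Fin 2) k) = !![1, a; 0, b] := rfl

theorem up_mul665 (a b a' b' : k) (hb : b ≠ 0) (hb' : b' ≠ 0) :
    up665 a b hb * up665 a' b' hb' = up665 (a' + a * b') (b * b') (mul_ne_zero hb hb') := by
  apply Units.ext
  rw [Units.val_mul, up_coe665, up_coe665, up_coe665]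
  ext x y
  fin_cases x <;> fin_cases y <;> simp [Matrix.mul_apply, Fin.sum_univ_two]

theorem up_one665 : up665 (0 : k) 1 one_ne_zero = 1 := by
  apply Units.ext
  rw [up_coe665, Units.val_one]
  ext x y
  fin_cases x <;> fin_cases y <;> simp

theorem up_congr665 {a b a' b' : k} (hb : b ≠ 0) (hb' : b' ≠ 0) (ha : a = a') (hbb : b = b') :
    up665 a b hb = up665 a' b' hb' := by
  subst ha; subst hbb; rfl

theorem up_inv665 (a b : k) (hb : b ≠ 0) :
    (up665 a b hb)⁻¹ = up665 (-a / b) (1 / b) (one_div_ne_zero hb) := by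
  rw [inv_eq_iff_mul_eq_one, up_mul665, ← up_one665]
  apply up_congr665
  · field_simp; ring
  · field_simp

theorem up_sub_one665 (a b : k) (hb : b ≠ 0) (x y : Fin 2) :
    ((up665 a b hb : GL (Fin 2) k) : Matrix (Fin 2) (Fin 2) k) x y
      - (1 : Matrix (Fin 2) (Fin 2) k) x y
      = (!![0, a; 0, b - 1] : Matrix (Fin 2) (Fin 2) k) x y := by
  rw [up_coe665]
  fin_cases x <;> fin_cases y <;> simp

end Up

section UpVal

variable {k : Type} [Field k] [Valued k Γ₀]

theorem small_entries665 (n : ℕ) (a c : k) (ha : Valued.v a ≤ WithZero.exp (-(n : ℤ)))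
    (hc : Valued.v c ≤ WithZero.exp (-(n : ℤ))) (x y : Fin 2) :
    Valued.v ((!![0, a; 0, c] : Matrix (Fin 2) (Fin 2) k) x y) ≤ WithZero.exp (-(n : ℤ)) := by
  have h0 : Valued.v (0 : k) ≤ WithZero.exp (-(n : ℤ)) := by rw [map_zero]; exact zero_le
  fin_cases x <;> fin_cases y
  · exact h0
  · exact ha
  · exact h0
  · exact hc

/-- `[[1, a], [0, b]] ∈ U(n)` if `a` and `b - 1` are small and `b` is a unit. -/
theorem up_inU665 (n : ℕ) (a b : k) (hb : b ≠ 0) (ha : Valued.v a ≤ WithZero.exp (-(n : ℤ)))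
    (hb1 : Valued.v (b - 1) ≤ WithZero.exp (-(n : ℤ))) (hbu : Valued.v b = 1) :
    InU n (up665 a b hb) := by
  have hinv : Valued.v (1 / b - 1) ≤ WithZero.exp (-(n : ℤ)) := by
    have e : 1 / b - 1 = -(b - 1) / b := by field_simp; ring
    rw [e, map_div₀, Valuation.map_neg, hbu, div_one]
    exact hb1
  have hainv : Valued.v (-a / b) ≤ WithZero.exp (-(n : ℤ)) := by
    rw [map_div₀, Valuation.map_neg, hbu, div_one]
    exact ha
  intro x y
  constructor
  · rw [up_sub_one665]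
    exact small_entries665 n a (b - 1) ha hb1 x y
  · rw [up_inv665, up_sub_one665]
    exact small_entries665 n (-a / b) (1 / b - 1) hainv hinv x y

end UpVal

/-! ## 3. Algebra: the frame `y = [[1, p], [0, t]]` -/

section Alg

variable {k' : Type} [Field k']

theorem glAut_coe665 (s : k' ≃+* k') (g : GL (Fin 2) k') :
    ((glAut s g : GL (Fin 2) k') : Matrix (Fin 2) (Fin 2) k')
      = (g : Matrix (Fin 2) (Fin 2) k').map s := rfl

theorem glAut_glAut665 (s : k' ≃+* k') (h2 : ∀ y, s (s y) = y) (g : GL (Fin 2) k') :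
    glAut s (glAut s g) = g := by
  apply Units.ext
  ext a b
  simp [glAut_coe665, h2]

/-- `g₀ σ(g₀) = c` for `g₀ = x⁻¹ δ₀ σ(x)`, `δ₀ = [[0, c], [1, 0]]`, `σ c = c`, `σ² = 1`. -/
theorem base_norm665 (s : k' ≃+* k') (h2 : ∀ y, s (s y) = y) (c : k') (hc : s c = c)
    (δ₀ x : GL (Fin 2) k') (hδ : IsQuatBase385 c δ₀) :
    ((x⁻¹ * δ₀ * glAut s x : GL (Fin 2) k') : Matrix (Fin 2) (Fin 2) k')
      * ((x⁻¹ * δ₀ * glAut s x : GL (Fin 2) k') : Matrix (Fin 2) (Fin 2) k').map s
      = c • (1 : Matrix (Fin 2) (Fin 2) k') := by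
  have h1 : (x⁻¹ * δ₀ * glAut s x) * glAut s (x⁻¹ * δ₀ * glAut s x)
      = x⁻¹ * (δ₀ * glAut s δ₀) * x := by
    simp only [map_mul, map_inv, glAut_glAut665 s h2]
    group
  have h3 : ((δ₀ * glAut s δ₀ : GL (Fin 2) k') : Matrix (Fin 2) (Fin 2) k')
      = c • (1 : Matrix (Fin 2) (Fin 2) k') := by
    have hδ' : (δ₀ : Matrix (Fin 2) (Fin 2) k') = !![0, c; 1, 0] := hδ
    rw [Units.val_mul, glAut_coe665, hδ']
    ext a b
    fin_cases a <;> fin_cases b <;> simp [Matrix.mul_apply, Fin.sum_univ_two, hc]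
  rw [← glAut_coe665, ← Units.val_mul, h1, Units.val_mul, Units.val_mul, h3,
    Matrix.mul_smul, Matrix.mul_one, Matrix.smul_mul, ← Units.val_mul, inv_mul_cancel,
    Units.val_one]

/-- The frame: `g₀ σ(y) = y δ₀` for `y = [[1, p], [0, t]]`, the first column of `g₀` being
`(p, t)`. -/
theorem frame665 (s : k' ≃+* k') (c : k') (g₀ δ₀ : GL (Fin 2) k') (hδ : IsQuatBase385 c δ₀)
    (hg : (g₀ : Matrix (Fin 2) (Fin 2) k') * (g₀ : Matrix (Fin 2) (Fin 2) k').map s
      = c • (1 : Matrix (Fin 2) (Fin 2) k'))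
    (ht : (g₀ : Matrix (Fin 2) (Fin 2) k') 1 0 ≠ 0) :
    g₀ * glAut s (up665 ((g₀ : Matrix (Fin 2) (Fin 2) k') 0 0)
        ((g₀ : Matrix (Fin 2) (Fin 2) k') 1 0) ht)
      = up665 ((g₀ : Matrix (Fin 2) (Fin 2) k') 0 0)
        ((g₀ : Matrix (Fin 2) (Fin 2) k') 1 0) ht * δ₀ := by
  have h00 := congrFun (congrFun hg 0) 0
  have h10 := congrFun (congrFun hg 1) 0
  simp only [Matrix.mul_apply, Fin.sum_univ_two, Matrix.map_apply, Matrix.smul_apply,
    Matrix.one_apply_eq, smul_eq_mul, mul_one] at h00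
  simp only [Matrix.mul_apply, Fin.sum_univ_two, Matrix.map_apply, Matrix.smul_apply,
    smul_eq_mul] at h10
  have h10' : (g₀ : Matrix (Fin 2) (Fin 2) k') 1 0 * s ((g₀ : Matrix (Fin 2) (Fin 2) k') 0 0)
      + (g₀ : Matrix (Fin 2) (Fin 2) k') 1 1 * s ((g₀ : Matrix (Fin 2) (Fin 2) k') 1 0) = 0 := by
    rw [h10]
    simp
  have hδ' : (δ₀ : Matrix (Fin 2) (Fin 2) k') = !![0, c; 1, 0] := hδ
  apply Units.ext
  rw [Units.val_mul, Units.val_mul, glAut_coe665, up_coe665, hδ']
  ext a b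
  fin_cases a <;> fin_cases b <;>
    simp [Matrix.mul_apply, Fin.sum_univ_two, h00, h10']

/-- `x y` lies in the twisted centraliser of `δ₀` if `g₀ σ(y) = y δ₀`, `g₀ = x⁻¹ δ₀ σ(x)`. -/
theorem inTwCent_of_frame665 (s : k' ≃+* k') (δ₀ x y : GL (Fin 2) k')
    (hy : (x⁻¹ * δ₀ * glAut s x) * glAut s y = y * δ₀) : InTwCent s δ₀ (x * y) := by
  unfold InTwCent
  rw [map_mul]
  calc (x * y)⁻¹ * δ₀ * (glAut s x * glAut s y)
      = y⁻¹ * ((x⁻¹ * δ₀ * glAut s x) * glAut s y) := by group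
    _ = y⁻¹ * (y * δ₀) := by rw [hy]
    _ = δ₀ := by group

end Alg

/-! ## 4. Norms stay away from a non-norm -/

section Far

variable {k k' : Type} [Field k] [Field k'] [Valued k Γ₀]

/-- If `z` is not a norm and the elements of `1 + ϖ^{N₀} 𝒪` are squares, then
`|N p - z| > exp(-N₀) |z|` for every `p`. -/
theorem norm_far665 (i : k →+* k') (s : k' ≃+* k') (hfix : ∀ x : k, s (i x) = i x)
    (z : k) (hz : z ≠ 0) (hnn : ¬ IsFieldNorm783 2 i s z)
    (N₀ : ℤ) (hN₀ : 1 ≤ N₀)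
    (hsq : ∀ t : k, Valued.v (t - 1) ≤ WithZero.exp (-N₀) → ∃ r : k, r ^ 2 = t)
    (p : k') (A : k) (hA : i A = p * s p) :
    WithZero.exp (-N₀) * Valued.v z < Valued.v (A - z) := by
  by_contra hcon
  rw [not_lt] at hcon
  have hvz : Valued.v z ≠ 0 := (Valuation.ne_zero_iff _).2 hz
  have ht : Valued.v (A / z - 1) ≤ WithZero.exp (-N₀) := by
    have e : A / z - 1 = (A - z) / z := by field_simp
    rw [e, map_div₀, div_le_iff₀ (zero_lt_iff.2 hvz)]
    exact hcon
  obtain ⟨r, hr⟩ := hsq _ ht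
  have ht1 : Valued.v (A / z - 1) < 1 := by
    refine lt_of_le_of_lt ht ?_
    rw [← WithZero.exp_zero, WithZero.exp_lt_exp]
    omega
  have hvt : Valued.v (A / z) = 1 := by
    have := Valuation.map_one_add_of_lt (v := (Valued.v : Valuation k Γ₀)) ht1
    rwa [add_sub_cancel] at this
  have hr0 : r ≠ 0 := by
    rintro rfl
    rw [zero_pow two_ne_zero] at hr
    rw [← hr, map_zero] at hvt
    exact zero_ne_one hvt
  have hir0 : i r ≠ 0 := (map_ne_zero i).2 hr0
  have hAeq : A = r ^ 2 * z := by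
    rw [hr]
    field_simp
  apply hnn
  refine ⟨p / i r, ?_⟩
  rw [Finset.prod_range_succ, Finset.prod_range_one, pow_zero, pow_one]
  have e1 : (1 : k' ≃+* k') (p / i r) = p / i r := rfl
  rw [e1, map_div₀, hfix]
  have hiA : p * s p = (i r) ^ 2 * i z := by
    rw [← hA, hAeq, map_mul, map_pow]
  field_simp
  rw [hiA]
  ring

end Far

/-! ## 5. The leaf -/

section Main

variable {k : Type} [Field k] [Valued k Γ₀]

theorem val_mul_le665 {x y : k} {A B : ℤ} (hx : Valued.v x ≤ WithZero.exp A)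
    (hy : Valued.v y ≤ WithZero.exp B) : Valued.v (x * y) ≤ WithZero.exp (A + B) := by
  rw [map_mul, WithZero.exp_add]
  exact mul_le_mul' hx hy

theorem val_inv_le665 {x : k} {A : ℤ} (hx : WithZero.exp A ≤ Valued.v x) :
    Valued.v x⁻¹ ≤ WithZero.exp (-A) := by
  have hpos : (0 : Γ₀) < WithZero.exp A := zero_lt_iff.2 WithZero.exp_ne_zero
  rw [map_inv₀, WithZero.exp_neg]
  exact inv_anti₀ hpos hx

theorem val_le_of_le665 {x : k} {A B : ℤ} (hx : Valued.v x ≤ WithZero.exp A) (hAB : A ≤ B) :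
    Valued.v x ≤ WithZero.exp B :=
  hx.trans (WithZero.exp_le_exp.2 hAB)

end Main

/-- **T6.18i.6d `PropBaseC385`** (VERBATIM): properness of the twisted orbit map at `δ₀`. -/
theorem propBaseC665 : PropBaseC385 := by
  intro k k' _ _ _ _ q e i s hq z hz hnn n δ₀ hδ F
  classical
  have hfix := hq.ext.cyc.fix_i
  have h2 : ∀ y, s (s y) = y := fun y => by
    have := hq.ext.cyc.order y
    rwa [pow_two] at this
  have hfixed := hq.ext.cyc.fixed
  have hvi := hq.ext.val_i
  have hvs := hq.ext.val_s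
  have he := hq.ext.e_pos
  have hcomp : CompleteSpace k := hq.hk.complete
  have hchar : CharZero k := hq.hk.char0
  obtain ⟨N₀, hN₀, hsq⟩ := sq_near_one665 (k := k)
  obtain ⟨B, hB0, hB⟩ := exists_entry_bound665 F
  have hvz : Valued.v z ≠ 0 := (Valuation.ne_zero_iff _).2 hz
  -- `exp(-L) = (exp(-N₀) |z|)^e`
  obtain ⟨L, hL⟩ : ∃ L : ℤ, (WithZero.exp (-N₀) * Valued.v z) ^ e = WithZero.exp (-L) := by
    refine ⟨-((e : ℤ) * (-N₀ + WithZero.log (Valued.v z))), ?_⟩
    conv_lhs => rw [← WithZero.exp_log hvz, ← WithZero.exp_add, ← WithZero.exp_nsmul]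
    congr 1
    simp
  set B₁ : ℤ := max 0 (L + B) with hB₁
  have hB₁0 : 0 ≤ B₁ := le_max_left _ _
  have hB₁L : L + B ≤ B₁ := le_max_right _ _
  set M : ℤ := n + 2 * B + B₁ + 1 with hM
  obtain ⟨Sa, hSa⟩ := H965.net_ball965 hq.hk' (B + B₁) M
  obtain ⟨Sb, hSb⟩ := H965.net_ball965 hq.hk' B₁ M
  refine ⟨(Sa ×ˢ Sb).image (fun ab => if h : ab.2 ≠ 0 then up665 ab.1 ab.2 h else 1), ?_⟩
  intro x hx
  obtain ⟨f, hf, u, hu, hg⟩ := hx
  obtain ⟨g₀, hg₀⟩ : ∃ g₀ : GL (Fin 2) k', g₀ = x⁻¹ * δ₀ * glAut s x := ⟨_, rfl⟩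
  rw [← hg₀] at hg
  have hent : ∀ a b, Valued.v ((g₀ : Matrix (Fin 2) (Fin 2) k') a b) ≤ WithZero.exp B := by
    intro a b
    rw [hg]
    exact entry_mul_le665 hu (hB f hf) a b
  have hnorm : (g₀ : Matrix (Fin 2) (Fin 2) k') * (g₀ : Matrix (Fin 2) (Fin 2) k').map s
      = (i z) • (1 : Matrix (Fin 2) (Fin 2) k') := by
    rw [hg₀]
    exact base_norm665 s h2 (i z) (hfix z) δ₀ x hδ
  -- the entries
  set p : k' := (g₀ : Matrix (Fin 2) (Fin 2) k') 0 0 with hp
  set r : k' := (g₀ : Matrix (Fin 2) (Fin 2) k') 0 1 with hr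
  set t : k' := (g₀ : Matrix (Fin 2) (Fin 2) k') 1 0 with ht
  have h00 : p * s p + r * s t = i z := by
    have h := congrFun (congrFun hnorm 0) 0
    simpa [Matrix.mul_apply, Fin.sum_univ_two] using h
  obtain ⟨A, hA⟩ := hfixed (p * s p) (by rw [map_mul, h2, mul_comm])
  have hfar := norm_far665 i s hfix z hz hnn N₀ hN₀ hsq p A hA
  have hiAz : i (A - z) = -(r * s t) := by
    rw [map_sub, hA, ← h00]
    ring
  -- `|r σ(t)| > exp(-L)`
  have hrt : WithZero.exp (-L) < Valued.v r * Valued.v t := by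
    have h1 : Valued.v (i (A - z)) = Valued.v r * Valued.v t := by
      rw [hiAz, Valuation.map_neg, map_mul, hvs]
    rw [← h1, hvi, ← hL]
    exact pow_lt_pow_left₀ hfar zero_le (Nat.pos_iff_ne_zero.1 he)
  have hrB : Valued.v r ≤ WithZero.exp B := hent 0 1
  have hpB : Valued.v p ≤ WithZero.exp B := hent 0 0
  have htB : Valued.v t ≤ WithZero.exp B := hent 1 0
  -- `|t| ≥ exp(-B₁)`
  have htlow : WithZero.exp (-B₁) ≤ Valued.v t := by
    by_contra hcon
    rw [not_le] at hcon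
    have h1 : Valued.v r * Valued.v t ≤ WithZero.exp B * WithZero.exp (-B₁) :=
      mul_le_mul' hrB hcon.le
    rw [← WithZero.exp_add] at h1
    have h3 := lt_of_lt_of_le hrt h1
    rw [WithZero.exp_lt_exp] at h3
    omega
  have htv0 : Valued.v t ≠ 0 := by
    intro h0
    rw [h0] at htlow
    exact WithZero.exp_ne_zero (le_antisymm htlow zero_le)
  have ht0 : t ≠ 0 := (Valuation.ne_zero_iff _).1 htv0
  -- `a = -p/t`, `b = 1/t`
  have hbne : (1 / t : k') ≠ 0 := one_div_ne_zero ht0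
  have hyinv : (up665 p t ht0)⁻¹ = up665 (-p / t) (1 / t) hbne := up_inv665 p t ht0
  have hva : Valued.v (-p / t) ≤ WithZero.exp (B + B₁) := by
    rw [div_eq_mul_inv]
    refine val_mul_le665 (by rw [Valuation.map_neg]; exact hpB) ?_
    have := val_inv_le665 htlow
    rwa [neg_neg] at this
  have hvb : Valued.v (1 / t) ≤ WithZero.exp B₁ := by
    rw [one_div]
    have := val_inv_le665 htlow
    rwa [neg_neg] at this
  have hvblow : WithZero.exp (-B) ≤ Valued.v (1 / t) := by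
    rw [one_div, map_inv₀, WithZero.exp_neg]
    exact inv_anti₀ (zero_lt_iff.2 htv0) htB
  obtain ⟨a₀, ha₀S, ha₀⟩ := hSa (-p / t) hva
  obtain ⟨b₀, hb₀S, hb₀⟩ := hSb (1 / t) hvb
  -- `|b₀| = |b|`
  have hb₀v : Valued.v b₀ = Valued.v (1 / t) := by
    have hlt : Valued.v (1 / t - b₀) < Valued.v (1 / t) := by
      refine lt_of_le_of_lt hb₀ (lt_of_lt_of_le ?_ hvblow)
      rw [WithZero.exp_lt_exp]
      omega
    have e : b₀ = 1 / t - (1 / t - b₀) := by ring
    rw [e]
    exact Valuation.map_sub_eq_of_lt_left _ hlt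
  have hb₀v0 : Valued.v b₀ ≠ 0 := by
    rw [hb₀v]
    exact (Valuation.ne_zero_iff _).2 hbne
  have hb₀0 : b₀ ≠ 0 := (Valuation.ne_zero_iff _).1 hb₀v0
  have hb₀low : WithZero.exp (-B) ≤ Valued.v b₀ := by rw [hb₀v]; exact hvblow
  have hb₀inv : Valued.v b₀⁻¹ ≤ WithZero.exp B := by
    have := val_inv_le665 hb₀low
    rwa [neg_neg] at this
  have ha₀v : Valued.v a₀ ≤ WithZero.exp (B + B₁) := by
    have e : a₀ = -p / t - (-p / t - a₀) := by ring
    rw [e]
    refine (Valuation.map_sub _ _ _).trans (max_le hva (val_le_of_le665 ha₀ ?_))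
    omega
  -- the element of `U(n)`
  have hune : 1 / b₀ * (1 / t) ≠ 0 := mul_ne_zero (one_div_ne_zero hb₀0) hbne
  have hu' : (up665 a₀ b₀ hb₀0)⁻¹ * (up665 p t ht0)⁻¹
      = up665 (-p / t + -a₀ / b₀ * (1 / t)) (1 / b₀ * (1 / t)) hune := by
    rw [hyinv, up_inv665 a₀ b₀ hb₀0, up_mul665]
  have hU : InU n ((up665 a₀ b₀ hb₀0)⁻¹ * (up665 p t ht0)⁻¹) := by
    rw [hu']
    apply up_inU665
    · have e : -p / t + -a₀ / b₀ * (1 / t)
          = (-p / t - a₀) - a₀ * ((1 / t - b₀) * b₀⁻¹) := by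
        field_simp
        ring
      rw [e]
      refine (Valuation.map_sub _ _ _).trans (max_le (val_le_of_le665 ha₀ ?_) ?_)
      · omega
      · refine val_le_of_le665 (val_mul_le665 ha₀v (val_mul_le665 hb₀ hb₀inv)) ?_
        omega
    · have e : 1 / b₀ * (1 / t) - 1 = (1 / t - b₀) * b₀⁻¹ := by
        field_simp
      rw [e]
      refine val_le_of_le665 (val_mul_le665 hb₀ hb₀inv) ?_
      omega
    · rw [map_mul, one_div, map_inv₀, hb₀v]
      exact inv_mul_cancel₀ ((Valuation.ne_zero_iff _).2 hbne)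
  -- the frame
  have hframe : g₀ * glAut s (up665 p t ht0) = up665 p t ht0 * δ₀ :=
    frame665 s (i z) g₀ δ₀ hδ hnorm ht0
  rw [hg₀] at hframe
  refine ⟨x * up665 p t ht0, up665 a₀ b₀ hb₀0,
    (up665 a₀ b₀ hb₀0)⁻¹ * (up665 p t ht0)⁻¹, inTwCent_of_frame665 s δ₀ x _ hframe, ?_, hU, ?_⟩
  · refine Finset.mem_image.2 ⟨(a₀, b₀), Finset.mem_product.2 ⟨ha₀S, hb₀S⟩, ?_⟩
    simp only
    rw [dif_pos hb₀0]
  · group

end Fermat.Agent.LT.T6.H665

end

end
-- ===== PACK-END LT/T6/H665/PropBase.lean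

-- ===== PACK-BEGIN LT/T6/H621/NormalSmall.lean
section



/-!
# Row LT, tower T6, leaf T6.18i.6e `NormalSmallC385` (helper621), OFF-MAIN

    normalSmallC621 : H385.NormalSmallC385                  (VERBATIM, no hypothesis)

Spec: `LT/T6/H385/DescSpec.lean` (helper385, sha256 ef4c48b7ce18), byte-identical.
Asset used: `LT/H129/HenselQuad.lean` (helper129, `hensel_quad129`), byte-identical.

## The proof

`D = {x : x δ₀ = δ₀ σ(x)} = {[[a, z σ(c)], [c, σ(a)]]}`, `δ₀ = [[0, z], [1, 0]]`.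

* `aniso621`: the reduced norm is ANISOTROPIC WITH A CONSTANT,
  `|4| · max(|a|², |z| |c|²) ≤ |N a - z N c|`.
  Otherwise `|N a| = |z N c| ≠ 0` and `u = N a / (z N c) ∈ k` has `|u - 1| < |4|`, so `u = y²`
  (`sqrt_near_one621`, Hensel for `X² - u` at `1`) and `z = N (a / (c y))` is a norm.
* `det (d⁻¹ w d - 1) = det (w - 1)`, and `d⁻¹ w d - 1`, `w - 1` have the shape of `D`; so the
  entries of `d⁻¹ w d - 1` are bounded by the entries of `w - 1`, up to the constant
  `|4|⁻¹ max(1, |z|)² max(1, |z|⁻¹)` (`conj_small621`).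
* The same for `w⁻¹`.
-/

set_option autoImplicit false

open scoped Matrix

noncomputable section

namespace Fermat.Agent.LT.T6.H621

open Fermat.Agent.LT.T6 Fermat.Agent.LT.T6.H783 Fermat.Agent.LT.T6.H385

/-! ## Square roots near `1` -/

section Field

/-- `|4| ≤ 1`. -/
theorem val_four_le_one621 (k : Type) [Field k] [Valued k Γ₀] : Valued.v (4 : k) ≤ 1 := by
  have h2 : Valued.v (2 : k) ≤ 1 := by
    have e : (2 : k) = 1 + 1 := by norm_num
    rw [e]
    exact Valuation.map_add_le _ (by simp) (by simp)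
  have e : (4 : k) = 2 * 2 := by norm_num
  rw [e, map_mul]
  exact mul_le_one' h2 h2

/-- In a complete field valued in `ℤᵐ⁰`, every `u` with `|u - 1| < |4|` is a square. -/
theorem sqrt_near_one621 {k : Type} [Field k] [Valued k Γ₀] [CompleteSpace k] (u : k)
    (h : Valued.v (u - 1) < Valued.v (4 : k)) : ∃ y : k, y ^ 2 = u := by
  obtain ⟨x, hx, -⟩ := H129.hensel_quad129 (0 : k) (-u) 1 (by
    have e1 : (1 : k) ^ 2 - 0 * 1 + -u = -(u - 1) := by ring
    have e2 : (2 * 1 - 0 : k) ^ 2 = 4 := by norm_num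
    rw [e1, Valuation.map_neg, ← map_pow, e2]
    exact h)
  exact ⟨x, by linear_combination hx⟩

end Field

/-! ## The reduced norm is anisotropic, with a constant -/

section Aniso

variable {k k' : Type} [Field k] [Field k'] [Valued k Γ₀] [Valued k' Γ₀]

/-- `σ² = 1`. -/
theorem s_s621 {e : ℕ} {i : k →+* k'} {s : k' ≃+* k'} (hext : IsLocalExt k k' 2 e i s)
    (y : k') : s (s y) = y := by
  have h := hext.cyc.order y
  rwa [pow_two] at h

/-- The norm `y σ(y)` comes from `k`. -/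
theorem exists_norm621 {e : ℕ} {i : k →+* k'} {s : k' ≃+* k'} (hext : IsLocalExt k k' 2 e i s)
    (y : k') : ∃ x : k, i x = y * s y :=
  hext.cyc.fixed (y * s y) (by rw [map_mul, s_s621 hext, mul_comm])

/-- **Anisotropy with a constant**: `|4| max(|a|², |z| |b|²) ≤ |N a - z N b|` if `z` is not a
norm. -/
theorem aniso621 [CompleteSpace k] {e : ℕ} {i : k →+* k'} {s : k' ≃+* k'}
    (hext : IsLocalExt k k' 2 e i s) {z : k} (hz : z ≠ 0)
    (hnn : ¬ IsFieldNorm783 2 i s z) (a b : k') :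
    Valued.v (i 4) * max (Valued.v a ^ 2) (Valued.v (i z) * Valued.v b ^ 2)
      ≤ Valued.v (a * s a - i z * (b * s b)) := by
  by_contra hlt
  rw [not_le] at hlt
  obtain ⟨xa, hxa⟩ := exists_norm621 hext a
  obtain ⟨xb, hxb⟩ := exists_norm621 hext b
  have hvA : Valued.v (a * s a) = Valued.v a ^ 2 := by rw [map_mul, hext.val_s, sq]
  have hvB : Valued.v (b * s b) = Valued.v b ^ 2 := by rw [map_mul, hext.val_s, sq]
  rw [← hvA, ← hvB, ← map_mul, ← hxa, ← hxb] at hlt
  have hiz : i z ≠ 0 := (map_ne_zero i).mpr hz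
  have h4 : Valued.v (i 4) ≤ 1 := by
    have e4 : (i 4 : k') = 4 := map_ofNat i 4
    rw [e4]; exact val_four_le_one621 k'
  have hixb' : Valued.v (i 4) * max (Valued.v (i xa)) (Valued.v (i z * i xb))
      ≤ max (Valued.v (i xa)) (Valued.v (i z * i xb)) := by
    calc Valued.v (i 4) * max (Valued.v (i xa)) (Valued.v (i z * i xb))
        ≤ 1 * max (Valued.v (i xa)) (Valued.v (i z * i xb)) := mul_le_mul' h4 le_rfl
      _ = max (Valued.v (i xa)) (Valued.v (i z * i xb)) := one_mul _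
  have hlt' : Valued.v (i xa - i z * i xb) < max (Valued.v (i xa)) (Valued.v (i z * i xb)) :=
    lt_of_lt_of_le hlt hixb'
  have heq : Valued.v (i xa) = Valued.v (i z * i xb) := by
    by_contra hne
    rcases lt_or_gt_of_ne hne with h | h
    · have h1 := Valuation.map_sub_eq_of_lt_right (Valued.v : Valuation k' Γ₀) h
      rw [h1, max_eq_right h.le] at hlt'
      exact lt_irrefl _ hlt'
    · have h1 := Valuation.map_sub_eq_of_lt_left (Valued.v : Valuation k' Γ₀) h
      rw [h1, max_eq_left h.le] at hlt'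
      exact lt_irrefl _ hlt'
  rw [heq, max_self] at hlt
  have hm0 : Valued.v (i z * i xb) ≠ 0 := by
    intro h0
    rw [h0, mul_zero] at hlt
    exact not_lt_zero hlt
  have hB0 : i z * i xb ≠ 0 := by
    intro h0
    rw [h0, map_zero] at hm0
    exact hm0 rfl
  have hixb : i xb ≠ 0 := right_ne_zero_of_mul hB0
  have hxb0 : xb ≠ 0 := (map_ne_zero i).mp hixb
  have hixa : i xa ≠ 0 := by
    intro h0
    rw [h0, map_zero] at heq
    exact hm0 heq.symm
  have hxa0 : xa ≠ 0 := (map_ne_zero i).mp hixa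
  have hb0 : b ≠ 0 := by
    intro h0
    rw [h0, zero_mul] at hxb
    exact hixb hxb
  -- the unit `u = xa / (z xb)` of `k`
  have hzxb : z * xb ≠ 0 := mul_ne_zero hz hxb0
  have hu1 : Valued.v (i (xa / (z * xb) - 1)) < Valued.v (i 4) := by
    have e1 : i (xa / (z * xb) - 1) = (i xa - i z * i xb) / (i z * i xb) := by
      rw [map_sub, map_div₀, map_mul, map_one]
      field_simp
    rw [e1, map_div₀, div_lt_iff₀ (zero_lt_iff.mpr hm0)]
    exact hlt
  have hu2 : Valued.v (xa / (z * xb) - 1) < Valued.v (4 : k) := by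
    rw [hext.val_i, hext.val_i] at hu1
    by_contra hle
    rw [not_lt] at hle
    exact absurd (pow_le_pow_left₀ zero_le hle e) (not_le.mpr hu1)
  obtain ⟨y, hy⟩ := sqrt_near_one621 (xa / (z * xb)) hu2
  have hu0 : xa / (z * xb) ≠ 0 := div_ne_zero hxa0 hzxb
  have hy0 : y ≠ 0 := by
    intro h0
    rw [h0] at hy
    exact hu0 (by rw [← hy]; ring)
  apply hnn
  refine ⟨a / (i y * b), ?_⟩
  have hiy : i y ≠ 0 := (map_ne_zero i).mpr hy0
  have hsiy : s (i y) = i y := hext.cyc.fix_i y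
  have hsb : s b ≠ 0 := (map_ne_zero s).mpr hb0
  have hprod : ∏ j ∈ Finset.range 2, (s ^ j) (a / (i y * b))
      = (a / (i y * b)) * s (a / (i y * b)) := by
    rw [Finset.prod_range_succ, Finset.prod_range_one, pow_zero, pow_one]
    rfl
  rw [hprod, map_div₀, map_mul, hsiy]
  have e2 : a / (i y * b) * (s a / (i y * s b)) = (a * s a) / (i y ^ 2 * (b * s b)) := by
    field_simp
  rw [e2, ← hxa, ← hxb, ← map_pow, hy, map_div₀, map_mul]
  field_simp

end Aniso

/-! ## The twisted centraliser of `δ₀` -/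

section Quat

variable {k' : Type} [Field k']

/-- `x` lies in the twisted centraliser of `δ` iff `σ(x) = δ⁻¹ x δ`. -/
theorem twCent_iff621 (s : k' ≃+* k') (δ x : GL (Fin 2) k') :
    InTwCent s δ x ↔ glAut s x = δ⁻¹ * x * δ := by
  unfold InTwCent
  constructor
  · intro h
    calc glAut s x = (x⁻¹ * δ)⁻¹ * (x⁻¹ * δ * glAut s x) := by group
      _ = (x⁻¹ * δ)⁻¹ * δ := by rw [h]
      _ = δ⁻¹ * x * δ := by group
  · intro h
    rw [h]; group

theorem twCent_conj621 (s : k' ≃+* k') {δ w d : GL (Fin 2) k'} (hw : InTwCent s δ w)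
    (hd : InTwCent s δ d) : InTwCent s δ (d⁻¹ * w * d) := by
  rw [twCent_iff621] at hw hd ⊢
  rw [map_mul, map_mul, map_inv, hw, hd]; group

theorem twCent_inv621 (s : k' ≃+* k') {δ w : GL (Fin 2) k'} (hw : InTwCent s δ w) :
    InTwCent s δ w⁻¹ := by
  rw [twCent_iff621] at hw ⊢
  rw [map_inv, hw]; group

/-- The shape of the elements of `D`: `x = [[a, z σ(c)], [c, σ(a)]]`. -/
theorem quat_shape621 (s : k' ≃+* k') {Z : k'} {δ₀ x : GL (Fin 2) k'}
    (hδ : IsQuatBase385 Z δ₀) (hx : InTwCent s δ₀ x) :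
    (x : Matrix (Fin 2) (Fin 2) k') 0 1 = Z * s ((x : Matrix (Fin 2) (Fin 2) k') 1 0) ∧
      (x : Matrix (Fin 2) (Fin 2) k') 1 1 = s ((x : Matrix (Fin 2) (Fin 2) k') 0 0) := by
  rw [twCent_iff621] at hx
  have h1 : δ₀ * glAut s x = x * δ₀ := by rw [hx]; group
  have h2 : (δ₀ : Matrix (Fin 2) (Fin 2) k')
        * ((glAut s x : GL (Fin 2) k') : Matrix (Fin 2) (Fin 2) k')
      = (x : Matrix (Fin 2) (Fin 2) k') * (δ₀ : Matrix (Fin 2) (Fin 2) k') := by
    have h3 := congrArg (fun g : GL (Fin 2) k' => (g : Matrix (Fin 2) (Fin 2) k')) h1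
    simpa using h3
  have e00 := congrFun (congrFun h2 0) 0
  have e10 := congrFun (congrFun h2 1) 0
  rw [Matrix.mul_apply, Matrix.mul_apply, Fin.sum_univ_two, Fin.sum_univ_two] at e00 e10
  unfold IsQuatBase385 at hδ
  rw [hδ] at e00 e10
  simp [glAut, Matrix.GeneralLinearGroup.map_apply] at e00 e10
  exact ⟨e00.symm, e10.symm⟩

end Quat

/-! ## Conjugation by `D^×` -/

section Main

variable {k k' : Type} [Field k] [Field k'] [Valued k Γ₀] [Valued k' Γ₀]

omit [Valued k' Γ₀] in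
/-- `det (x - 1) = N (a - 1) - z N c` for `x = [[a, z σ(c)], [c, σ(a)]]`. -/
theorem det_sub_one621 (s : k' ≃+* k') {Z : k'} {δ₀ x : GL (Fin 2) k'}
    (hδ : IsQuatBase385 Z δ₀) (hx : InTwCent s δ₀ x) :
    ((x : Matrix (Fin 2) (Fin 2) k') - 1).det
      = ((x : Matrix (Fin 2) (Fin 2) k') 0 0 - 1) * s ((x : Matrix (Fin 2) (Fin 2) k') 0 0 - 1)
        - Z * ((x : Matrix (Fin 2) (Fin 2) k') 1 0 * s ((x : Matrix (Fin 2) (Fin 2) k') 1 0)) := by
  obtain ⟨h01, h11⟩ := quat_shape621 s hδ hx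
  rw [Matrix.det_fin_two]
  simp only [Matrix.sub_apply, Matrix.one_apply_eq, ne_eq, zero_ne_one, one_ne_zero,
    not_false_eq_true, Matrix.one_apply_ne, sub_zero]
  rw [h01, h11, map_sub, map_one]
  ring

omit [Valued k' Γ₀] in
/-- `det (d⁻¹ w d - 1) = det (w - 1)`. -/
theorem det_conj_sub_one621 (w d : GL (Fin 2) k') :
    (((d⁻¹ * w * d : GL (Fin 2) k') : Matrix (Fin 2) (Fin 2) k') - 1).det
      = ((w : Matrix (Fin 2) (Fin 2) k') - 1).det := by
  have h1 : ((d⁻¹ : GL (Fin 2) k') : Matrix (Fin 2) (Fin 2) k')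
      * (d : Matrix (Fin 2) (Fin 2) k') = 1 := by
    rw [← Units.val_mul, inv_mul_cancel]; rfl
  have e : ((d⁻¹ * w * d : GL (Fin 2) k') : Matrix (Fin 2) (Fin 2) k') - 1
      = ((d⁻¹ : GL (Fin 2) k') : Matrix (Fin 2) (Fin 2) k')
        * ((w : Matrix (Fin 2) (Fin 2) k') - 1) * (d : Matrix (Fin 2) (Fin 2) k') := by
    rw [Matrix.mul_sub, Matrix.sub_mul, mul_one, h1, Units.val_mul, Units.val_mul]
  have h2 : (((d⁻¹ : GL (Fin 2) k') : Matrix (Fin 2) (Fin 2) k')).det
      * (d : Matrix (Fin 2) (Fin 2) k').det = 1 := by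
    rw [← Matrix.det_mul, h1, Matrix.det_one]
  rw [e, Matrix.det_mul, Matrix.det_mul]
  linear_combination ((w : Matrix (Fin 2) (Fin 2) k') - 1).det * h2

/-- The constant of the estimate: `|4|⁻¹ max(1, |z|)² max(1, |z|⁻¹)`. -/
def quatConst621 (i : k →+* k') (z : k) : Γ₀ :=
  (Valued.v (i 4))⁻¹ * (max 1 (Valued.v (i z)) * (max 1 (Valued.v (i z))
    * max 1 (Valued.v (i z))⁻¹))

omit [Valued k Γ₀] in
theorem quatConst_ne_zero621 [CharZero k] (i : k →+* k') (z : k) :
    quatConst621 i z ≠ 0 := by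
  have h4 : (i 4 : k') ≠ 0 := (map_ne_zero i).mpr (by norm_num)
  have hv4 : Valued.v (i 4) ≠ 0 := (Valuation.ne_zero_iff _).mpr h4
  have h1 : (max 1 (Valued.v (i z)) : Γ₀) ≠ 0 :=
    (lt_of_lt_of_le zero_lt_one (le_max_left _ _)).ne'
  have h2 : (max 1 (Valued.v (i z))⁻¹ : Γ₀) ≠ 0 :=
    (lt_of_lt_of_le zero_lt_one (le_max_left _ _)).ne'
  exact mul_ne_zero (inv_ne_zero hv4) (mul_ne_zero h1 (mul_ne_zero h1 h2))

/-- **The estimate**: the entries of `d⁻¹ w d - 1` are bounded by the entries of `w - 1`. -/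
theorem conj_entries621 [CompleteSpace k] [CharZero k] {e : ℕ} {i : k →+* k'} {s : k' ≃+* k'}
    (hext : IsLocalExt k k' 2 e i s) {z : k} (hz : z ≠ 0)
    (hnn : ¬ IsFieldNorm783 2 i s z) {δ₀ : GL (Fin 2) k'} (hδ : IsQuatBase385 (i z) δ₀)
    {w d : GL (Fin 2) k'} (hw : InTwCent s δ₀ w) (hd : InTwCent s δ₀ d) {B : Γ₀}
    (hB : ∀ p q : Fin 2, Valued.v ((w : Matrix (Fin 2) (Fin 2) k') p q
      - (1 : Matrix (Fin 2) (Fin 2) k') p q) ≤ B) (p q : Fin 2) :
    Valued.v (((d⁻¹ * w * d : GL (Fin 2) k') : Matrix (Fin 2) (Fin 2) k') p q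
      - (1 : Matrix (Fin 2) (Fin 2) k') p q) ^ 2 ≤ quatConst621 i z * B ^ 2 := by
  have hg : InTwCent s δ₀ (d⁻¹ * w * d) := twCent_conj621 s hw hd
  obtain ⟨g01, g11⟩ := quat_shape621 s hδ hg
  have hdet := det_conj_sub_one621 w d
  rw [det_sub_one621 s hδ hg, det_sub_one621 s hδ hw] at hdet
  set ag : k' := ((d⁻¹ * w * d : GL (Fin 2) k') : Matrix (Fin 2) (Fin 2) k') 0 0 - 1 with hag
  set cg : k' := ((d⁻¹ * w * d : GL (Fin 2) k') : Matrix (Fin 2) (Fin 2) k') 1 0 with hcg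
  set aw : k' := (w : Matrix (Fin 2) (Fin 2) k') 0 0 - 1 with haw
  set cw : k' := (w : Matrix (Fin 2) (Fin 2) k') 1 0 with hcw
  set V : Γ₀ := Valued.v (i z) with hV
  set F : Γ₀ := Valued.v (i 4) with hF
  have hV0 : V ≠ 0 := (Valuation.ne_zero_iff _).mpr ((map_ne_zero i).mpr hz)
  have hF0 : F ≠ 0 := (Valuation.ne_zero_iff _).mpr ((map_ne_zero i).mpr (by norm_num))
  have hm1 : (1 : Γ₀) ≤ max 1 V := le_max_left _ _
  have hm2 : (1 : Γ₀) ≤ max 1 V⁻¹ := le_max_left _ _
  -- the entries of `w - 1`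
  have haB : Valued.v aw ≤ B := by
    have h := hB 0 0
    rwa [Matrix.one_apply_eq] at h
  have hcB : Valued.v cw ≤ B := by
    have h := hB 1 0
    rwa [Matrix.one_apply_ne (by decide), sub_zero] at h
  -- upper bound for the reduced norm
  have hup : Valued.v (aw * s aw - i z * (cw * s cw)) ≤ max 1 V * B ^ 2 := by
    refine Valuation.map_sub_le _ ?_ ?_
    · rw [map_mul, hext.val_s, ← sq]
      calc Valued.v aw ^ 2 ≤ B ^ 2 := pow_le_pow_left₀ zero_le haB 2
        _ = 1 * B ^ 2 := (one_mul _).symm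
        _ ≤ max 1 V * B ^ 2 := mul_le_mul' hm1 le_rfl
    · rw [map_mul, map_mul, hext.val_s, ← sq]
      exact mul_le_mul' (le_max_right _ _) (pow_le_pow_left₀ zero_le hcB 2)
  -- lower bound
  have hlow := aniso621 hext hz hnn ag cg
  rw [hdet] at hlow
  have hmax : max (Valued.v ag ^ 2) (V * Valued.v cg ^ 2) ≤ F⁻¹ * (max 1 V * B ^ 2) := by
    have h1 := le_trans hlow hup
    calc max (Valued.v ag ^ 2) (V * Valued.v cg ^ 2)
        = F⁻¹ * (F * max (Valued.v ag ^ 2) (V * Valued.v cg ^ 2)) := by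
          rw [inv_mul_cancel_left₀ hF0]
      _ ≤ F⁻¹ * (max 1 V * B ^ 2) := mul_le_mul' le_rfl h1
  have hA : Valued.v ag ^ 2 ≤ F⁻¹ * (max 1 V * B ^ 2) := le_trans (le_max_left _ _) hmax
  have hC : V * Valued.v cg ^ 2 ≤ F⁻¹ * (max 1 V * B ^ 2) := le_trans (le_max_right _ _) hmax
  -- comparison of the constants
  have hc0 : F⁻¹ * (max 1 V * B ^ 2) ≤ quatConst621 i z * B ^ 2 := by
    have h1 : max 1 V ≤ max 1 V * (max 1 V * max 1 V⁻¹) :=
      le_mul_of_one_le_right' (le_trans hm1 (le_mul_of_one_le_right' hm2))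
    calc F⁻¹ * (max 1 V * B ^ 2) = F⁻¹ * max 1 V * B ^ 2 := by rw [mul_assoc]
      _ ≤ F⁻¹ * (max 1 V * (max 1 V * max 1 V⁻¹)) * B ^ 2 :=
          mul_le_mul' (mul_le_mul' le_rfl h1) le_rfl
  have hc1 : V * (F⁻¹ * (max 1 V * B ^ 2)) ≤ quatConst621 i z * B ^ 2 := by
    have h1 : V * max 1 V ≤ max 1 V * (max 1 V * max 1 V⁻¹) := by
      calc V * max 1 V ≤ max 1 V * max 1 V := mul_le_mul' (le_max_right _ _) le_rfl
        _ ≤ max 1 V * (max 1 V * max 1 V⁻¹) :=
            mul_le_mul' le_rfl (le_mul_of_one_le_right' hm2)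
    calc V * (F⁻¹ * (max 1 V * B ^ 2)) = F⁻¹ * (V * max 1 V) * B ^ 2 := by ac_rfl
      _ ≤ F⁻¹ * (max 1 V * (max 1 V * max 1 V⁻¹)) * B ^ 2 :=
          mul_le_mul' (mul_le_mul' le_rfl h1) le_rfl
  have hc2 : V⁻¹ * (F⁻¹ * (max 1 V * B ^ 2)) ≤ quatConst621 i z * B ^ 2 := by
    have h1 : V⁻¹ * max 1 V ≤ max 1 V * (max 1 V * max 1 V⁻¹) := by
      calc V⁻¹ * max 1 V ≤ max 1 V⁻¹ * max 1 V := mul_le_mul' (le_max_right _ _) le_rfl
        _ = 1 * (max 1 V * max 1 V⁻¹) := by rw [one_mul, mul_comm]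
        _ ≤ max 1 V * (max 1 V * max 1 V⁻¹) := mul_le_mul' hm1 le_rfl
    calc V⁻¹ * (F⁻¹ * (max 1 V * B ^ 2)) = F⁻¹ * (V⁻¹ * max 1 V) * B ^ 2 := by ac_rfl
      _ ≤ F⁻¹ * (max 1 V * (max 1 V * max 1 V⁻¹)) * B ^ 2 :=
          mul_le_mul' (mul_le_mul' le_rfl h1) le_rfl
  -- the four entries
  fin_cases p <;> fin_cases q
  · -- (0, 0)
    show Valued.v (((d⁻¹ * w * d : GL (Fin 2) k') : Matrix (Fin 2) (Fin 2) k') 0 0
      - (1 : Matrix (Fin 2) (Fin 2) k') 0 0) ^ 2 ≤ _
    rw [Matrix.one_apply_eq]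
    exact le_trans hA hc0
  · -- (0, 1)
    show Valued.v (((d⁻¹ * w * d : GL (Fin 2) k') : Matrix (Fin 2) (Fin 2) k') 0 1
      - (1 : Matrix (Fin 2) (Fin 2) k') 0 1) ^ 2 ≤ _
    rw [Matrix.one_apply_ne (by decide), sub_zero, g01, map_mul, hext.val_s]
    calc (V * Valued.v cg) ^ 2 = V * (V * Valued.v cg ^ 2) := by
          rw [mul_pow, sq V, mul_assoc]
      _ ≤ V * (F⁻¹ * (max 1 V * B ^ 2)) := mul_le_mul' le_rfl hC
      _ ≤ _ := hc1
  · -- (1, 0)
    show Valued.v (((d⁻¹ * w * d : GL (Fin 2) k') : Matrix (Fin 2) (Fin 2) k') 1 0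
      - (1 : Matrix (Fin 2) (Fin 2) k') 1 0) ^ 2 ≤ _
    rw [Matrix.one_apply_ne (by decide), sub_zero]
    calc Valued.v cg ^ 2 = V⁻¹ * (V * Valued.v cg ^ 2) := by
          rw [inv_mul_cancel_left₀ hV0]
      _ ≤ V⁻¹ * (F⁻¹ * (max 1 V * B ^ 2)) := mul_le_mul' le_rfl hC
      _ ≤ _ := hc2
  · -- (1, 1)
    show Valued.v (((d⁻¹ * w * d : GL (Fin 2) k') : Matrix (Fin 2) (Fin 2) k') 1 1
      - (1 : Matrix (Fin 2) (Fin 2) k') 1 1) ^ 2 ≤ _
    rw [Matrix.one_apply_eq, g11]
    have e1 : s (((d⁻¹ * w * d : GL (Fin 2) k') : Matrix (Fin 2) (Fin 2) k') 0 0) - 1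
        = s ag := by rw [hag, map_sub, map_one]
    rw [e1, hext.val_s]
    exact le_trans hA hc0

/-- **T6.18i.6e `NormalSmallC385`**, VERBATIM. -/
theorem normalSmallC621 : NormalSmallC385 := by
  intro k k' _ _ _ _ q e i s hQ z hz hnn δ₀ hδ M'
  have hext := hQ.ext
  have : CompleteSpace k := hQ.hk.complete
  have : CharZero k := hQ.hk.char0
  have hC0 := quatConst_ne_zero621 i z
  set C : Γ₀ := quatConst621 i z with hC
  set n : ℤ := WithZero.log C with hn
  have hCe : C = WithZero.exp n := (WithZero.exp_log hC0).symm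
  have key : C * WithZero.exp (-((M' + n.toNat : ℕ) : ℤ)) ^ 2
      ≤ WithZero.exp (-(M' : ℤ)) ^ 2 := by
    rw [hCe, ← WithZero.exp_nsmul, ← WithZero.exp_nsmul, ← WithZero.exp_add,
      WithZero.exp_le_exp]
    have h1 : n ≤ (n.toNat : ℤ) := Int.self_le_toNat n
    simp only [nsmul_eq_mul, Nat.cast_add, Nat.cast_ofNat]
    linarith
  refine ⟨M' + n.toNat, fun w d hw hd hU => ?_⟩
  intro p q'
  constructor
  · refine le_of_pow_le_pow_left₀ two_ne_zero zero_le ?_
    exact le_trans (conj_entries621 hext hz hnn hδ hw hd (fun a b => (hU a b).1) p q') key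
  · have e1 : (d⁻¹ * w * d)⁻¹ = d⁻¹ * w⁻¹ * d := by group
    rw [e1]
    refine le_of_pow_le_pow_left₀ two_ne_zero zero_le ?_
    exact le_trans (conj_entries621 hext hz hnn hδ (twCent_inv621 s hw) hd
      (fun a b => (hU a b).2) p q') key

end Main

end Fermat.Agent.LT.T6.H621

end

end
-- ===== PACK-END LT/T6/H621/NormalSmall.lean

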