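import Mathlib
import Fermat.Agent.Pack.LT3.E6L0
import Fermat.Agent.Pack.LT3.E13L0
import Fermat.Agent.Pack.LT3.E8L2
import Fermat.Agent.Pack.LT3.E4L1
import Fermat.Agent.Pack.LT3.E13L3
import Fermat.Agent.Pack.LT3.E13L2
import Fermat.Agent.Pack.LT3.E12L2
import Fermat.Agent.Pack.LT3.E8L0
import Fermat.Agent.Pack.LT3.E1L1
import Fermat.Agent.Pack.LT3.E1L2
import Fermat.Agent.Pack.LT3.E15L0

set_option linter.all false

-- ===== PACK-BEGIN LT/H129/EllParamTop.lean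
section





/-!
# Row LT, tower T6, leaf T6.14b `EllParamC` (helper129): THE TOP -- OFF-MAIN

`ellParamC_of_leaves129 :
  LatDecompC129 → LatRigidC129 → LatOrbitExC129 → LatOrbitUniqC129 → ReprFinC129 → EllParamC`

(`T6.TwCentC` = `twCentC166` of helper166, vendored byte-identical.)

The `U`-`s`-classes in the `s`-conjugacy class of `δ₀` are the `E^×`-orbits of lattices; the
fibre of `(n, ξ) ↦ class of Y(n, ξ)` over the class of `y` is in bijection with the set of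
cosets `t U`, `t` in the maximal compact subgroup of the twisted centraliser of `y`.
-/

set_option autoImplicit false

open scoped Matrix

noncomputable section

namespace Fermat.Agent.LT.H129

open Fermat.Agent.LT.T6 Fermat.Agent.LT.T6.H847 Fermat.Agent.LT.T6.H166

/-! ## A. Twisted conjugacy in a group -/

section Grp

variable {Γ : Type} [Group Γ] (σ : Γ →* Γ)

theorem twRel_iff129 (δ x x₀ u : Γ) :
    x⁻¹ * δ * σ x = u⁻¹ * (x₀⁻¹ * δ * σ x₀) * σ u ↔
      (x * u⁻¹ * x₀⁻¹)⁻¹ * δ * σ (x * u⁻¹ * x₀⁻¹) = δ := by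
  have e : (x * u⁻¹ * x₀⁻¹)⁻¹ * δ * σ (x * u⁻¹ * x₀⁻¹)
      = x₀ * u * (x⁻¹ * δ * σ x) * (σ u)⁻¹ * (σ x₀)⁻¹ := by
    simp only [map_mul, map_inv, mul_inv_rev, inv_inv, mul_assoc]
  rw [e]
  constructor
  · intro h
    rw [h]; group
  · intro h
    have h' : x⁻¹ * δ * σ x
        = u⁻¹ * x₀⁻¹ * (x₀ * u * (x⁻¹ * δ * σ x) * (σ u)⁻¹ * (σ x₀)⁻¹) * σ x₀ * σ u := by
      group
    rw [h', h]; group

/-- The twisted centraliser of `x⁻¹ δ σ(x)` is the conjugate of the one of `δ`. -/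
theorem twCent_conj129 (δ x t : Γ) :
    t⁻¹ * (x⁻¹ * δ * σ x) * σ t = x⁻¹ * δ * σ x ↔
      (x * t * x⁻¹)⁻¹ * δ * σ (x * t * x⁻¹) = δ := by
  have e : (x * t * x⁻¹)⁻¹ * δ * σ (x * t * x⁻¹)
      = x * (t⁻¹ * (x⁻¹ * δ * σ x) * σ t) * (σ x)⁻¹ := by
    simp only [map_mul, map_inv, mul_inv_rev, inv_inv, mul_assoc]
  rw [e]
  constructor
  · intro h
    rw [h]; group
  · intro h
    have h' : t⁻¹ * (x⁻¹ * δ * σ x) * σ t
        = x⁻¹ * (x * (t⁻¹ * (x⁻¹ * δ * σ x) * σ t) * (σ x)⁻¹) * σ x := by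
      group
    rw [h', h]

/-- The coset `g U`. -/
def coset129 (U : Γ → Prop) (g : Γ) : Set Γ := {g' | ∃ u : Γ, U u ∧ g' = g * u}

theorem cIndex_eq129 (U : Γ → Prop) (C : Γ → Γ → Prop) (y : Γ) :
    cIndex U C y = Set.ncard {c : Set Γ | ∃ t : Γ, C y t ∧ c = coset129 U t} := rfl

end Grp

/-! ## B. The group `U = GL₂(𝒪)` -/

section U

variable {k : Type} [Field k] [Valued k Γ₀]

theorem inU_zero_one129 : InU 0 (1 : GL (Fin 2) k) := by
  rw [inU_zero_iff129]
  exact ⟨isInt129_one _, by rw [inv_one]; exact isInt129_one _⟩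

theorem inU_glAut129 (s : k ≃+* k) (hs : ∀ y : k, Valued.v (s y) = Valued.v y)
    {u : GL (Fin 2) k} (hu : InU 0 u) : InU 0 (glAut s u) := by
  rw [inU_zero_iff129] at *
  refine ⟨fun a b => ?_, fun a b => ?_⟩
  · show Valued.v ((glAut s u : Matrix (Fin 2) (Fin 2) k) a b) ≤ 1
    rw [glAut_apply166, hs]; exact hu.1 a b
  · show Valued.v ((((glAut s u)⁻¹ : GL (Fin 2) k) : Matrix (Fin 2) (Fin 2) k) a b) ≤ 1
    rw [← map_inv, glAut_apply166, hs]; exact hu.2 a b

theorem coset_mul129 (g u : GL (Fin 2) k) (hu : InU 0 u) :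
    coset129 (InU (k := k) 0) (g * u) = coset129 (InU 0) g := by
  ext g'
  constructor
  · rintro ⟨u', hu', rfl⟩
    exact ⟨u * u', inU_zero_mul129 hu hu', by rw [mul_assoc]⟩
  · rintro ⟨u', hu', rfl⟩
    exact ⟨u⁻¹ * u', inU_zero_mul129 (inU_zero_inv129 hu) hu', by group⟩

theorem mem_coset_self129 (g : GL (Fin 2) k) : g ∈ coset129 (InU (k := k) 0) g :=
  ⟨1, inU_zero_one129, by rw [mul_one]⟩

theorem val_det_of_inU129 {u : GL (Fin 2) k} (hu : InU 0 u) :
    Valued.v (u : Matrix (Fin 2) (Fin 2) k).det = 1 :=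
  valued_det_of_isMaxCpt129 ((inU_zero_iff129 u).mp hu)

end U

/-! ## C. The twisted centraliser of `δ₀` -/

section Cent

variable {k k' : Type} [Field k] [Field k'] [Valued k Γ₀] [Valued k' Γ₀] {q l : ℕ}
  {i : k →+* k'} {s : k' ≃+* k'} {τ ν α β : k} {d₀ d₁ : k'} {γ₀ : GL (Fin 2) k}
  {δ₀ : GL (Fin 2) k'}

theorem val_i129 (hext : IsLocalExt k k' l 1 i s) (x : k) : Valued.v (i x) = Valued.v x := by
  rw [hext.val_i, pow_one]

theorem val_two_le129 {F : Type} [Field F] [Valued F Γ₀] : Valued.v (2 : F) ≤ 1 := by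
  have : (2 : F) = 1 + 1 := by norm_num
  rw [this]
  exact le_trans (Valuation.map_add _ _ _) (by simp)

/-- `τ² ≠ 4 ν` (parity of the valuation). -/
theorem disc_ne_zero129 (hk : IsLocalField k q) (hν : Valued.v ν = WithZero.exp (-1 : ℤ)) :
    τ ^ 2 - 4 * ν ≠ 0 := by
  have := hk.char0
  intro h
  have h1 : τ ^ 2 = 2 ^ 2 * ν := by linear_combination h
  have h2 := congrArg (Valued.v : k → Γ₀) h1
  rw [map_pow, map_mul, map_pow, hν] at h2
  have h20 : Valued.v (2 : k) ≠ 0 := (map_ne_zero _).mpr two_ne_zero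
  have hτ0 : Valued.v τ ≠ 0 := by
    intro h0
    rw [h0] at h2
    have : (0 : Γ₀) ^ 2 = 0 := by simp
    rw [this] at h2
    exact (mul_ne_zero (pow_ne_zero 2 h20) WithZero.exp_ne_zero) h2.symm
  have h3 := congrArg WithZero.log h2
  rw [WithZero.log_pow, WithZero.log_mul (pow_ne_zero 2 h20) WithZero.exp_ne_zero,
    WithZero.log_pow, WithZero.log_exp] at h3
  simp only [nsmul_eq_mul, Nat.cast_ofNat] at h3
  omega

theorem isReg_ell129 (hk : IsLocalField k q)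
    (hD : EllData k k' l i s τ ν α β d₀ d₁ γ₀ δ₀) : IsReg γ₀ := by
  unfold IsReg disc
  rw [hD.γ₀_eq, trace_embMat129, det_embMat129, isUnit_iff_ne_zero]
  have : (2 * α + τ * β) ^ 2 - 4 * (α ^ 2 + τ * α * β + ν * β ^ 2)
      = β ^ 2 * (τ ^ 2 - 4 * ν) := by ring
  rw [this]
  exact mul_ne_zero (pow_ne_zero 2 hD.β_ne) (disc_ne_zero129 hk hD.val_ν)

theorem gl_det_ne_zero129 {F : Type} [Field F] (t : GL (Fin 2) F) :
    (t : Matrix (Fin 2) (Fin 2) F).det ≠ 0 :=
  isUnit_iff_ne_zero.mp ((Matrix.isUnit_iff_isUnit_det _).mp t.isUnit)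

/-- The twisted centraliser of `δ₀` is `E^×`. -/
theorem twCent_iff129 (hk : IsLocalField k q) (hext : IsLocalExt k k' l 1 i s)
    (hD : EllData k k' l i s τ ν α β d₀ d₁ γ₀ δ₀) (t : GL (Fin 2) k') :
    InTwCent s δ₀ t ↔
      ∃ a b : k, (t : Matrix (Fin 2) (Fin 2) k') = embMat (i τ) (i ν) (i a) (i b) := by
  rw [twCentC166 k k' l i s hext.cyc δ₀ γ₀ (isReg_ell129 hk hD) hD.norm_eq t]
  constructor
  · rintro ⟨t₀, hcomm, rfl⟩
    have h1 : (t₀ : Matrix (Fin 2) (Fin 2) k) * embMat τ ν α β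
        = embMat τ ν α β * (t₀ : Matrix (Fin 2) (Fin 2) k) := by
      have := congrArg (fun g : GL (Fin 2) k => (g : Matrix (Fin 2) (Fin 2) k)) hcomm
      simpa [hD.γ₀_eq] using this
    have h2 := cent_embMat129 τ ν hD.β_ne _ h1
    refine ⟨(t₀ : Matrix (Fin 2) (Fin 2) k) 0 0, (t₀ : Matrix (Fin 2) (Fin 2) k) 1 0, ?_⟩
    rw [← embMat_map129, ← h2]
    rfl
  · rintro ⟨a, b, ht⟩
    have hdet : (embMat τ ν a b).det ≠ 0 := by
      intro h0
      have h1 : ((embMat τ ν a b).map i).det = 0 := by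
        have h2 := RingHom.map_det i (embMat τ ν a b)
        rw [RingHom.mapMatrix_apply] at h2
        rw [← h2, h0, map_zero]
      rw [embMat_map129, ← ht] at h1
      exact gl_det_ne_zero129 t h1
    refine ⟨Matrix.GeneralLinearGroup.mkOfDetNeZero _ hdet, ?_, ?_⟩
    · apply Units.ext
      show embMat τ ν a b * (γ₀ : Matrix (Fin 2) (Fin 2) k)
        = (γ₀ : Matrix (Fin 2) (Fin 2) k) * embMat τ ν a b
      rw [hD.γ₀_eq, embMat_comm129]
    · apply Units.ext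
      show (t : Matrix (Fin 2) (Fin 2) k') = (embMat τ ν a b).map i
      rw [ht, embMat_map129]

/-- The maximal compact subgroup of the twisted centraliser of `δ₀` is `𝒪_E^×`. -/
theorem twCentC_iff129 (hk : IsLocalField k q) (hext : IsLocalExt k k' l 1 i s)
    (hD : EllData k k' l i s τ ν α β d₀ d₁ γ₀ δ₀) (t : GL (Fin 2) k') :
    InTwCentC s δ₀ t ↔
      ∃ a b : k, (t : Matrix (Fin 2) (Fin 2) k') = embMat (i τ) (i ν) (i a) (i b) ∧
        Valued.v (i a) = 1 ∧ Valued.v (i b) ≤ 1 := by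
  have hν' : Valued.v (i ν) = WithZero.exp (-1 : ℤ) := by rw [val_i129 hext, hD.val_ν]
  have hτ' : Valued.v (i τ) < 1 := by rw [val_i129 hext]; exact hD.val_τ
  unfold InTwCentC
  rw [twCent_iff129 hk hext hD]
  constructor
  · rintro ⟨⟨a, b, ht⟩, -, hdet⟩
    refine ⟨a, b, ht, ?_⟩
    rw [ht, det_embMat129] at hdet
    exact (val_norm_eq_one_iff129 hν' hτ' _ _).mp hdet
  · rintro ⟨a, b, ht, ha, hb⟩
    refine ⟨⟨a, b, ht⟩, ?_, ?_⟩
    · rw [ht, trace_embMat129]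
      refine le_trans (Valuation.map_add _ _ _) (max_le ?_ ?_)
      · rw [map_mul, ha, mul_one]; exact val_two_le129
      · rw [map_mul]
        calc Valued.v (i τ) * Valued.v (i b) ≤ 1 * 1 := mul_le_mul' hτ'.le hb
          _ = 1 := one_mul _
    · rw [ht, det_embMat129]
      exact (val_norm_eq_one_iff129 hν' hτ' _ _).mpr ⟨ha, hb⟩

end Cent

/-! ## D. The fibres -/

section Fibre

variable {k k' : Type} [Field k] [Field k'] [Valued k Γ₀] [Valued k' Γ₀] {q l : ℕ}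
  {i : k →+* k'} {s : k' ≃+* k'} {τ ν α β : k} {d₀ d₁ : k'} {γ₀ : GL (Fin 2) k}
  {δ₀ : GL (Fin 2) k'}

/-- `Y(n, ξ) = (x_ξ g_n)⁻¹ δ₀ s(x_ξ g_n)`. -/
def ellY129 (s : k' ≃+* k') (τ' ν' : k') (δ₀ : GL (Fin 2) k') (p : ℕ × k') : GL (Fin 2) k' :=
  (latGL τ' ν' p.1 p.2)⁻¹ * δ₀ * glAut s (latGL τ' ν' p.1 p.2)

theorem inTwCentC_conj129 (s : k' ≃+* k') (δ x t : GL (Fin 2) k') :
    InTwCentC s (x⁻¹ * δ * glAut s x) t ↔ InTwCentC s δ (x * t * x⁻¹) := by
  unfold InTwCentC InTwCent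
  rw [twCent_conj129 (glAut s) δ x t]
  have h1 : ((x * t * x⁻¹ : GL (Fin 2) k') : Matrix (Fin 2) (Fin 2) k').trace
      = (t : Matrix (Fin 2) (Fin 2) k').trace := by
    have := Matrix.trace_units_conj x (t : Matrix (Fin 2) (Fin 2) k')
    simpa using this
  have h2 : ((x * t * x⁻¹ : GL (Fin 2) k') : Matrix (Fin 2) (Fin 2) k').det
      = (t : Matrix (Fin 2) (Fin 2) k').det := by
    have := Matrix.det_units_conj x (t : Matrix (Fin 2) (Fin 2) k')
    simpa using this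
  rw [h1, h2]

/-- `U`-`s`-conjugacy of `x⁻¹ δ₀ s(x)` and `x₀⁻¹ δ₀ s(x₀)` means `x ∈ E^× x₀ U`. -/
theorem twRel_ell129 (hk : IsLocalField k q) (hext : IsLocalExt k k' l 1 i s)
    (hD : EllData k k' l i s τ ν α β d₀ d₁ γ₀ δ₀) (x x₀ u : GL (Fin 2) k') :
    x⁻¹ * δ₀ * glAut s x = u⁻¹ * (x₀⁻¹ * δ₀ * glAut s x₀) * glAut s u ↔
      ∃ (a b : k) (t : GL (Fin 2) k'),
        (t : Matrix (Fin 2) (Fin 2) k') = embMat (i τ) (i ν) (i a) (i b) ∧ x = t * x₀ * u := by
  rw [twRel_iff129 (glAut s) δ₀ x x₀ u]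
  have key := twCent_iff129 hk hext hD (x * u⁻¹ * x₀⁻¹)
  unfold InTwCent at key
  rw [key]
  constructor
  · rintro ⟨a, b, ht⟩
    exact ⟨a, b, x * u⁻¹ * x₀⁻¹, ht, by group⟩
  · rintro ⟨a, b, t, ht, rfl⟩
    refine ⟨a, b, ?_⟩
    rw [← ht]
    congr 1
    group

theorem isReprMod_unique129 {n : ℕ} {B : Set k'} (hB : IsReprMod n B) {ξ ξ' : k'}
    (hξ : ξ ∈ B) (hξ' : ξ' ∈ B) (h : Valued.v (ξ' - ξ) ≤ WithZero.exp (-(n : ℤ))) : ξ' = ξ := by
  obtain ⟨b, -, hb⟩ := hB.2 ξ' (hB.1 ξ' hξ')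
  have e1 : ξ' = b := hb ξ' ⟨hξ', by simp⟩
  have e2 : ξ = b := hb ξ ⟨hξ, h⟩
  rw [e1, e2]

/-- **The fibre lemma.**  For `y = x⁻¹ δ₀ s(x)`, `x = latGL n₀ ξ₀ · u₀`: the set of the `(n, ξ)`,
`ξ ∈ B n`, with `Y(n, ξ)` `U`-`s`-conjugate to `y` is finite, and its cardinality is `cIndex y`. -/
theorem fiber_card129 (h2 : LatRigidC129) (h3 : LatOrbitExC129) (h4 : LatOrbitUniqC129)
    (h5 : ReprFinC129) (hk : IsLocalField k q) (hk' : IsLocalField k' (q ^ l))
    (hext : IsLocalExt k k' l 1 i s) (hD : EllData k k' l i s τ ν α β d₀ d₁ γ₀ δ₀)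
    (B : ℕ → Set k') (hB : ∀ n, IsReprMod n (B n))
    (n₀ : ℕ) (ξ₀ : k') (hξ₀ : ξ₀ ∈ B n₀) (u₀ : GL (Fin 2) k') (hu₀ : InU 0 u₀)
    (x y : GL (Fin 2) k') (hx : x = latGL (i τ) (i ν) n₀ ξ₀ * u₀)
    (hy : y = x⁻¹ * δ₀ * glAut s x) :
    {p : ℕ × k' | p.2 ∈ B p.1 ∧
        ∃ u, InU 0 u ∧ ellY129 s (i τ) (i ν) δ₀ p = u⁻¹ * y * glAut s u}.Finite ∧
      {p : ℕ × k' | p.2 ∈ B p.1 ∧
        ∃ u, InU 0 u ∧ ellY129 s (i τ) (i ν) δ₀ p = u⁻¹ * y * glAut s u}.ncard
        = cIndex (InU 0) (InTwCentC s) y := by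
  have hν' : Valued.v (i ν) = WithZero.exp (-1 : ℤ) := by rw [val_i129 hext, hD.val_ν]
  have hτ' : Valued.v (i τ) < 1 := by rw [val_i129 hext]; exact hD.val_τ
  set F : Set (ℕ × k') := {p : ℕ × k' | p.2 ∈ B p.1 ∧
        ∃ u, InU 0 u ∧ ellY129 s (i τ) (i ν) δ₀ p = u⁻¹ * y * glAut s u} with hF
  -- the structure of the elements of `F`
  have hstr : ∀ p ∈ F, p.1 = n₀ ∧ p.2 ∈ B n₀ ∧ ∃ (a b : k) (t u : GL (Fin 2) k'),
      (t : Matrix (Fin 2) (Fin 2) k') = embMat (i τ) (i ν) (i a) (i b) ∧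
      Valued.v (i a) = 1 ∧ Valued.v (i b) ≤ 1 ∧ InU 0 u ∧
      latGL (i τ) (i ν) p.1 p.2 = t * x * u := by
    rintro ⟨n, ξ⟩ ⟨hξ, u, hu, hYu⟩
    have hrel : (latGL (i τ) (i ν) n ξ)⁻¹ * δ₀ * glAut s (latGL (i τ) (i ν) n ξ)
        = u⁻¹ * (x⁻¹ * δ₀ * glAut s x) * glAut s u := by
      rw [← hy]; exact hYu
    obtain ⟨a, b, t, ht, hxt⟩ := (twRel_ell129 hk hext hD _ _ _).mp hrel
    have hxt' : latGL (i τ) (i ν) n ξ = t * latGL (i τ) (i ν) n₀ ξ₀ * (u₀ * u) := by
      rw [hxt, hx]; group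
    obtain ⟨hn, ha, hb⟩ := h2 k' (i τ) (i ν) hν' hτ' n₀ n ξ₀ ξ (i a) (i b) t (u₀ * u)
      ((hB n₀).1 ξ₀ hξ₀) ((hB n).1 ξ hξ) ht (inU_zero_mul129 hu₀ hu) hxt'
    subst hn
    exact ⟨rfl, hξ, a, b, t, u, ht, ha, hb, hu, hxt⟩
  have hfin : F.Finite := by
    refine Set.Finite.subset ((h5 k' (q ^ l) hk' n₀ (B n₀) (hB n₀)).image
      (fun ξ => ((n₀, ξ) : ℕ × k'))) ?_
    rintro ⟨n, ξ⟩ hp
    obtain ⟨hn, hξ, -⟩ := hstr _ hp
    exact ⟨ξ, hξ, by simp only at hn; rw [hn]⟩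
  refine ⟨hfin, ?_⟩
  -- the bijection with the cosets
  rw [cIndex_eq129]
  set φ : ℕ × k' → Set (GL (Fin 2) k') :=
    fun p => coset129 (InU 0) (x⁻¹ * latGL (i τ) (i ν) p.1 p.2) with hφ
  have himg : {c : Set (GL (Fin 2) k') | ∃ t : GL (Fin 2) k', InTwCentC s y t ∧
      c = coset129 (InU 0) t} = φ '' F := by
    ext c
    constructor
    · rintro ⟨t', ht', rfl⟩
      rw [hy, inTwCentC_conj129] at ht'
      obtain ⟨a, b, ht, ha, hb⟩ := (twCentC_iff129 hk hext hD _).mp ht'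
      obtain ⟨ξ', hξ', u₁, hu₁, he⟩ := h3 k' (i τ) (i ν) hν' hτ' n₀ (B n₀) (hB n₀) ξ₀ (i a) (i b)
        (x * t' * x⁻¹) ((hB n₀).1 ξ₀ hξ₀) ha hb ht
      have hxp : latGL (i τ) (i ν) n₀ ξ' = (x * t' * x⁻¹) * x * (u₀⁻¹ * u₁⁻¹) := by
        have : latGL (i τ) (i ν) n₀ ξ'
            = (x * t' * x⁻¹) * latGL (i τ) (i ν) n₀ ξ₀ * u₁⁻¹ := by
          rw [he]; group
        rw [this, hx]; group
      have hU : InU 0 (u₀⁻¹ * u₁⁻¹) :=
        inU_zero_mul129 (inU_zero_inv129 hu₀) (inU_zero_inv129 hu₁)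
      refine ⟨(n₀, ξ'), ⟨hξ', (u₀⁻¹ * u₁⁻¹), hU, ?_⟩, ?_⟩
      · show (latGL (i τ) (i ν) n₀ ξ')⁻¹ * δ₀ * glAut s (latGL (i τ) (i ν) n₀ ξ')
          = (u₀⁻¹ * u₁⁻¹)⁻¹ * y * glAut s (u₀⁻¹ * u₁⁻¹)
        rw [hy]
        exact (twRel_ell129 hk hext hD _ _ _).mpr ⟨a, b, _, ht, hxp⟩
      · show coset129 (InU 0) (x⁻¹ * latGL (i τ) (i ν) n₀ ξ') = coset129 (InU 0) t'
        have : x⁻¹ * latGL (i τ) (i ν) n₀ ξ' = t' * (u₀⁻¹ * u₁⁻¹) := by
          rw [hxp]; group
        rw [this, coset_mul129 _ _ hU]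
    · rintro ⟨p, hp, rfl⟩
      obtain ⟨-, -, a, b, t, u, ht, ha, hb, hu, hxt⟩ := hstr p hp
      refine ⟨x⁻¹ * t * x, ?_, ?_⟩
      · rw [hy, inTwCentC_conj129]
        have e : x * (x⁻¹ * t * x) * x⁻¹ = t := by group
        rw [e]
        exact (twCentC_iff129 hk hext hD t).mpr ⟨a, b, ht, ha, hb⟩
      · show coset129 (InU 0) (x⁻¹ * latGL (i τ) (i ν) p.1 p.2)
          = coset129 (InU 0) (x⁻¹ * t * x)
        have : x⁻¹ * latGL (i τ) (i ν) p.1 p.2 = (x⁻¹ * t * x) * u := by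
          rw [hxt]; group
        rw [this, coset_mul129 _ _ hu]
  have hinj : Set.InjOn φ F := by
    rintro ⟨n, ξ⟩ hp ⟨n', ξ'⟩ hp' hpp
    obtain ⟨hn, hξ, -⟩ := hstr _ hp
    obtain ⟨hn', hξ', -⟩ := hstr _ hp'
    simp only at hn hn' hξ hξ'
    have hmem : x⁻¹ * latGL (i τ) (i ν) n' ξ' ∈ φ (n, ξ) := by
      rw [hpp]; exact mem_coset_self129 _
    obtain ⟨u, hu, hxu⟩ := hmem
    have hxu' : latGL (i τ) (i ν) n₀ ξ' = latGL (i τ) (i ν) n₀ ξ * u := by
      have := congrArg (fun g => x * g) hxu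
      simp only [mul_assoc, mul_inv_cancel_left] at this
      rw [hn, hn'] at this
      exact this
    have hv := h4 k' (i τ) (i ν) hν' hτ' n₀ ξ ξ' u ((hB n₀).1 ξ hξ) ((hB n₀).1 ξ' hξ') hu hxu'
    have := isReprMod_unique129 (hB n₀) hξ hξ' hv
    rw [this, hn, hn']
  rw [himg, Set.InjOn.ncard_image hinj]

end Fibre

/-! ## E. The top -/

/-- **T6.14b `EllParamC`** from the five lattice leaves. -/
theorem ellParamC_of_leaves129 (h1 : LatDecompC129) (h2 : LatRigidC129) (h3 : LatOrbitExC129)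
    (h4 : LatOrbitUniqC129) (h5 : ReprFinC129) : EllParamC := by
  classical
  intro k k' _ _ _ _ q l i s hk hk' hext τ ν α β d₀ d₁ γ₀ δ₀ hD Φ hΦ c hsum B hB
  obtain ⟨R, hR1, hR2, hR3, hc⟩ := hsum
  have hν' : Valued.v (i ν) = WithZero.exp (-1 : ℤ) := by rw [val_i129 hext, hD.val_ν]
  have hτ' : Valued.v (i τ) < 1 := by rw [val_i129 hext]; exact hD.val_τ
  set Y : ℕ × k' → GL (Fin 2) k' := ellY129 s (i τ) (i ν) δ₀ with hY
  set F : GL (Fin 2) k' → Set (ℕ × k') := fun y =>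
    {p : ℕ × k' | p.2 ∈ B p.1 ∧ ∃ u, InU 0 u ∧ Y p = u⁻¹ * y * glAut s u} with hF
  -- (1) the fibres over `R`
  have hcard : ∀ y ∈ R, (F y).Finite ∧ (F y).ncard = cIndex (InU 0) (InTwCentC s) y := by
    intro y hy
    obtain ⟨x, hx⟩ := hR1 y hy
    obtain ⟨t, m, n₀, ξ₀, u₀, ht, hξ₀, hu₀, hxd⟩ := h1 k' (i τ) (i ν) hν' hτ' B hB x
    have htT : InTwCent s δ₀ t := (twCent_iff129 hk hext hD t).mpr (by
      rcases ht with ht | ht
      · exact ⟨ν ^ m, 0, by rw [ht, map_zpow₀, map_zero]⟩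
      · exact ⟨0, ν ^ m, by rw [ht, map_zpow₀, map_zero]⟩)
    have hy' : y = (latGL (i τ) (i ν) n₀ ξ₀ * u₀)⁻¹ * δ₀
        * glAut s (latGL (i τ) (i ν) n₀ ξ₀ * u₀) := by
      rw [hx, hxd]
      unfold InTwCent at htT
      have e : (t * latGL (i τ) (i ν) n₀ ξ₀ * u₀)⁻¹ * δ₀
            * glAut s (t * latGL (i τ) (i ν) n₀ ξ₀ * u₀)
          = (latGL (i τ) (i ν) n₀ ξ₀ * u₀)⁻¹ * (t⁻¹ * δ₀ * glAut s t)
            * glAut s (latGL (i τ) (i ν) n₀ ξ₀ * u₀) := by
        simp only [map_mul, mul_inv_rev, mul_assoc]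
      rw [e, htT]
    exact fiber_card129 h2 h3 h4 h5 hk hk' hext hD B hB n₀ ξ₀ hξ₀ u₀ hu₀ _ y rfl hy'
  -- (2) `Φ` is constant on the fibres
  have hΦF : ∀ y, ∀ p ∈ F y, Φ (Y p) = Φ y := by
    rintro y p ⟨-, u, hu, hYu⟩
    rw [hYu]
    exact hΦ u⁻¹ (glAut s u) y (inU_zero_inv129 hu) (inU_glAut129 s hext.val_s hu)
  -- (3) the fibres are disjoint
  have hdisj : ∀ y ∈ R, ∀ y' ∈ R, ∀ p, p ∈ F y → p ∈ F y' → y = y' := by
    rintro y hy y' hy' p ⟨-, u, hu, hYu⟩ ⟨-, u', hu', hYu'⟩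
    refine hR2 y hy y' hy' ⟨u * u'⁻¹, inU_zero_mul129 hu (inU_zero_inv129 hu'), ?_⟩
    have e1 : y' = u' * Y p * (glAut s u')⁻¹ := by rw [hYu']; group
    rw [e1, hYu]
    simp only [map_mul, map_inv, mul_inv_rev, inv_inv, mul_assoc]
  -- (4) the support
  have hsupp : ∀ p : ℕ × k', p.2 ∈ B p.1 → Φ (Y p) ≠ 0 → ∃ y ∈ R, p ∈ F y := by
    intro p hp hne
    obtain ⟨y', hy', u, hu, hYu⟩ := hR3 (Y p) ⟨latGL (i τ) (i ν) p.1 p.2, rfl⟩ hne
    exact ⟨y', hy', hp, u, hu, hYu⟩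
  -- (5) the sum
  set f : ℕ × k' → ℂ := fun p => if p.2 ∈ B p.1 then Φ (Y p) else 0 with hf
  set G : GL (Fin 2) k' → Finset (ℕ × k') := fun y =>
    if h : (F y).Finite then h.toFinset else ∅ with hG
  have hGF : ∀ y ∈ R, ∀ p, p ∈ G y ↔ p ∈ F y := by
    intro y hy p
    simp only [hG, dif_pos (hcard y hy).1, Set.Finite.mem_toFinset]
  have hGcard : ∀ y ∈ R, (G y).card = cIndex (InU 0) (InTwCentC s) y := by
    intro y hy
    rw [← (hcard y hy).2, Set.ncard_eq_toFinset_card (F y) (hcard y hy).1]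
    simp only [hG, dif_pos (hcard y hy).1]
  have hfsupp : Function.support f ⊆ ↑(R.biUnion G) := by
    intro p hp
    have hp' : f p ≠ 0 := hp
    simp only [hf] at hp'
    by_cases hpB : p.2 ∈ B p.1
    · rw [if_pos hpB] at hp'
      obtain ⟨y, hy, hpy⟩ := hsupp p hpB hp'
      simp only [Finset.coe_biUnion, Set.mem_iUnion, Finset.mem_coe]
      exact ⟨y, hy, (hGF y hy p).mpr hpy⟩
    · rw [if_neg hpB] at hp'
      exact absurd rfl hp'
  have hfin : (Function.support f).Finite :=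
    Set.Finite.subset (Finset.finite_toSet _) hfsupp
  have e1 : (∑ᶠ n : ℕ, ∑ᶠ ξ ∈ B n,
        Φ ((latGL (i τ) (i ν) n ξ)⁻¹ * δ₀ * glAut s (latGL (i τ) (i ν) n ξ)))
      = ∑ᶠ n : ℕ, ∑ᶠ ξ : k', f (n, ξ) := by
    refine finsum_congr (fun n => finsum_congr (fun ξ => ?_))
    rw [finsum_eq_if]
    rfl
  rw [e1, ← finsum_curry f hfin, finsum_eq_sum_of_support_subset f hfsupp,
    Finset.sum_biUnion, hc]
  · refine Finset.sum_congr rfl (fun y hy => ?_)
    have e2 : ∀ p ∈ G y, f p = Φ y := by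
      intro p hp
      have hpF := (hGF y hy p).mp hp
      simp only [hf]
      rw [if_pos hpF.1]
      exact hΦF y p hpF
    rw [Finset.sum_congr rfl e2, Finset.sum_const, hGcard y hy, nsmul_eq_mul, mul_comm]
  · intro y hy y' hy' hne
    rw [Function.onFun, Finset.disjoint_left]
    intro p hp hp'
    exact hne (hdisj y hy y' hy' p ((hGF y hy p).mp hp) ((hGF y' hy' p).mp hp'))

end Fermat.Agent.LT.H129

end

end
-- ===== PACK-END LT/H129/EllParamTop.lean

-- ===== PACK-BEGIN LT/T6/H855/HypTop.lean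
section



/-!
# Row LT, tower T6, T6.25 `ArchHyp` (helper855): TOPOLOGY of `GL₂(ℝ)`, `GL₂(ℂ)`

OFF-MAIN.  Second countability, local compactness, continuity of the parametrisations.
-/

set_option autoImplicit false

open scoped Matrix
open MeasureTheory

noncomputable section

namespace Fermat.Agent.LT.T6.H855

open Fermat.Agent.LT.T6

section Field

variable (𝕜 : Type) [RCLike 𝕜]

theorem scMat855 : SecondCountableTopology (Matrix (Fin 2) (Fin 2) 𝕜) :=
  inferInstanceAs (SecondCountableTopology (Fin 2 → Fin 2 → 𝕜))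

theorem lcMat855 : LocallyCompactSpace (Matrix (Fin 2) (Fin 2) 𝕜) :=
  inferInstanceAs (LocallyCompactSpace (Fin 2 → Fin 2 → 𝕜))

theorem scGL855 : SecondCountableTopology (GL (Fin 2) 𝕜) := by
  have := scMat855 𝕜
  have : SecondCountableTopology (Matrix (Fin 2) (Fin 2) 𝕜)ᵐᵒᵖ :=
    MulOpposite.opHomeomorph.symm.secondCountableTopology
  exact Units.isEmbedding_embedProduct.secondCountableTopology

theorem lcGL855 : LocallyCompactSpace (GL (Fin 2) 𝕜) := by
  have := lcMat855 𝕜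
  infer_instance

variable {𝕜}

theorem continuous_entry855 (i j : Fin 2) :
    Continuous (fun g : GL (Fin 2) 𝕜 => (g : Matrix (Fin 2) (Fin 2) 𝕜) i j) :=
  (Units.continuous_val (M := Matrix (Fin 2) (Fin 2) 𝕜)).matrix_elem i j

theorem continuous_inv_entry855 (i j : Fin 2) :
    Continuous (fun g : GL (Fin 2) 𝕜 => ((g⁻¹ : GL (Fin 2) 𝕜) : Matrix (Fin 2) (Fin 2) 𝕜) i j) :=
  (continuous_entry855 i j).comp continuous_inv

/-- Continuity of a map into `GL₂` from the continuity of the entries of the matrix and of its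
inverse. -/
theorem continuous_GL_of_entries855 {X : Type} [TopologicalSpace X] (f : X → GL (Fin 2) 𝕜)
    (h1 : ∀ i j, Continuous (fun x => (f x : Matrix (Fin 2) (Fin 2) 𝕜) i j))
    (h2 : ∀ i j, Continuous (fun x => (((f x)⁻¹ : GL (Fin 2) 𝕜) : Matrix (Fin 2) (Fin 2) 𝕜) i j)) :
    Continuous f := by
  rw [Units.continuous_iff]
  constructor
  · exact continuous_matrix h1
  · exact continuous_matrix h2

theorem continuous_nU855 : Continuous (nU855 : 𝕜 → GL (Fin 2) 𝕜) := by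
  apply continuous_GL_of_entries855
  · intro i j
    fin_cases i <;> fin_cases j <;> simp <;> fun_prop
  · intro i j
    simp only [nU_inv_coe855]
    fin_cases i <;> fin_cases j <;> simp <;> fun_prop

end Field

theorem continuous_dgR855 : Continuous (fun u : ℝ × ℝ => H189.dgR u.1 u.2) := by
  apply continuous_GL_of_entries855
  · intro i j
    simp only [dgR_eq855, dgU_coe855]
    fin_cases i <;> fin_cases j <;> simp <;> fun_prop
  · intro i j
    simp only [dgR_eq855, dgU_inv_coe855]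
    fin_cases i <;> fin_cases j <;> simp <;>
      fun_prop (disch := intro x; exact Real.exp_ne_zero _)

theorem rotR_inv_coe855 (θ : ℝ) :
    (((H189.rotR θ)⁻¹ : GL (Fin 2) ℝ) : Matrix (Fin 2) (Fin 2) ℝ)
      = !![Real.cos θ, Real.sin θ; -Real.sin θ, Real.cos θ] := by
  rw [inv_coe_of_inSO2_855 (rotR_inSO2_855 θ), rotR_coe855]
  ext i j
  fin_cases i <;> fin_cases j <;> simp

theorem continuous_rotR855 : Continuous H189.rotR := by
  apply continuous_GL_of_entries855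
  · intro i j
    simp only [rotR_coe855]
    fin_cases i <;> fin_cases j <;> simp <;> fun_prop
  · intro i j
    simp only [rotR_inv_coe855]
    fin_cases i <;> fin_cases j <;> simp <;> fun_prop

theorem continuous_iota855 : Continuous (iotaC855 : GL (Fin 2) ℝ → GL (Fin 2) ℂ) := by
  apply continuous_GL_of_entries855
  · intro i j
    simp only [iota_coe855]
    exact Complex.continuous_ofReal.comp (continuous_entry855 i j)
  · intro i j
    simp only [← map_inv, iota_coe855]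
    exact Complex.continuous_ofReal.comp (continuous_inv_entry855 i j)

theorem continuous_glAut855 :
    Continuous (glAut (starRingAut : ℂ ≃+* ℂ) : GL (Fin 2) ℂ → GL (Fin 2) ℂ) := by
  apply continuous_GL_of_entries855
  · intro i j
    simp only [glAut_coe855]
    exact Complex.continuous_conj.comp (continuous_entry855 i j)
  · intro i j
    simp only [← map_inv, glAut_coe855]
    exact Complex.continuous_conj.comp (continuous_inv_entry855 i j)

end Fermat.Agent.LT.T6.H855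

end

end
-- ===== PACK-END LT/T6/H855/HypTop.lean

-- ===== PACK-BEGIN LT/T6/H888/AvgODE.lean
section



/-!
# Row LT, tower T6, leaf T6.22 (helper888): SHARED LEMMA for the leaves T6.22.B and T6.22.D

`avg_volterra888`: if `h(t, φ)` is twice differentiable in `t` (jointly continuous derivatives)
and `A h_tt + A' h_t = A k + ∂_φ Ψ` with `Ψ(t, ·)` of equal values at `0` and `2π`, then the
angular integral `p(t) = ∫₀^{2π} h(t, φ) dφ` satisfies
`p(T) = p(0) + gL888 n (fun q => ∫₀^{2π} k(q, φ) dφ) T` for `T ≥ 0`.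
-/

set_option autoImplicit false

open MeasureTheory Set

noncomputable section

namespace Fermat.Agent.LT.T6.H888

/-- The derivative of the radial weight. -/
def wtA'888 (n : ℤ) (t : ℝ) : ℝ :=
  if n = 0 then Real.cosh t else Real.cosh t * (1 + Real.cosh t) + Real.sinh t * Real.sinh t

theorem wtA_hasDerivAt888 (n : ℤ) (t : ℝ) : HasDerivAt (wtA888 n) (wtA'888 n t) t := by
  by_cases h : n = 0
  · have e1 : wtA888 n = fun t => Real.sinh t := by funext t; simp [wtA888, h]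
    have e2 : wtA'888 n t = Real.cosh t := by simp [wtA'888, h]
    rw [e1, e2]
    exact Real.hasDerivAt_sinh t
  · have e1 : wtA888 n = fun t => Real.sinh t * (1 + Real.cosh t) := by
      funext t; simp [wtA888, h]
    have e2 : wtA'888 n t = Real.cosh t * (1 + Real.cosh t) + Real.sinh t * Real.sinh t := by
      simp [wtA'888, h]
    rw [e1, e2]
    have := (Real.hasDerivAt_sinh t).mul ((Real.hasDerivAt_cosh t).const_add 1)
    exact this

theorem wtA'_cont888 (n : ℤ) : Continuous (wtA'888 n) := by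
  by_cases h : n = 0
  · have : wtA'888 n = fun t => Real.cosh t := by funext t; simp [wtA'888, h]
    rw [this]; fun_prop
  · have : wtA'888 n = fun t => Real.cosh t * (1 + Real.cosh t) + Real.sinh t * Real.sinh t := by
      funext t; simp [wtA'888, h]
    rw [this]; fun_prop

/-- Differentiation under the integral sign, for jointly continuous derivatives. -/
theorem hasDerivAt_pint888 {h h1 : ℝ → ℝ → ℂ}
    (hh : ∀ t φ, HasDerivAt (fun t => h t φ) (h1 t φ) t)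
    (ch : Continuous (Function.uncurry h)) (ch1 : Continuous (Function.uncurry h1))
    (a b t₀ : ℝ) :
    HasDerivAt (fun t => ∫ φ in a..b, h t φ) (∫ φ in a..b, h1 t₀ φ) t₀ := by
  obtain ⟨C, hC⟩ := ((isCompact_Icc (a := t₀ - 1) (b := t₀ + 1)).prod
    (isCompact_uIcc (a := a) (b := b))).exists_bound_of_continuousOn ch1.continuousOn
  have cs : ∀ t, Continuous (h t) := fun t =>
    ch.comp (continuous_const.prodMk continuous_id)
  have cs1 : ∀ t, Continuous (h1 t) := fun t =>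
    ch1.comp (continuous_const.prodMk continuous_id)
  have := intervalIntegral.hasDerivAt_integral_of_dominated_loc_of_deriv_le (μ := volume)
    (F := h) (F' := h1) (x₀ := t₀) (s := Icc (t₀ - 1) (t₀ + 1)) (bound := fun _ => C)
    (a := a) (b := b)
    (Icc_mem_nhds (by linarith) (by linarith))
    (Filter.Eventually.of_forall (fun t => (cs t).aestronglyMeasurable))
    ((cs t₀).intervalIntegrable a b)
    ((cs1 t₀).aestronglyMeasurable)
    (Filter.Eventually.of_forall (fun φ hφ t ht => hC (t, φ) ⟨ht, uIoc_subset_uIcc hφ⟩))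
    intervalIntegrable_const
    (Filter.Eventually.of_forall (fun φ _ t _ => hh t φ))
  exact this.2

theorem cont_pint888 {k : ℝ → ℝ → ℂ} (ck : Continuous (Function.uncurry k)) (a b : ℝ) :
    Continuous (fun t => ∫ φ in a..b, k t φ) :=
  intervalIntegral.continuous_parametric_intervalIntegral_of_continuous' ck a b

/-- **The shared lemma**: from the pointwise identity to the Volterra form. -/
theorem avg_volterra888 (n : ℤ) {h h1 h2 k Ψ Ψ' : ℝ → ℝ → ℂ}
    (hh : ∀ t φ, HasDerivAt (fun t => h t φ) (h1 t φ) t)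
    (hh1 : ∀ t φ, HasDerivAt (fun t => h1 t φ) (h2 t φ) t)
    (ch : Continuous (Function.uncurry h)) (ch1 : Continuous (Function.uncurry h1))
    (ch2 : Continuous (Function.uncurry h2)) (ck : Continuous (Function.uncurry k))
    (hΨ : ∀ t φ, HasDerivAt (fun φ => Ψ t φ) (Ψ' t φ) φ)
    (cΨ' : ∀ t, Continuous (Ψ' t))
    (hper : ∀ t, Ψ t (2 * Real.pi) = Ψ t 0)
    (hid : ∀ t φ, ((wtA888 n t : ℝ) : ℂ) * h2 t φ + ((wtA'888 n t : ℝ) : ℂ) * h1 t φ
      = ((wtA888 n t : ℝ) : ℂ) * k t φ + Ψ' t φ) :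
    ∀ T : ℝ, 0 ≤ T →
      (∫ φ in (0:ℝ)..(2 * Real.pi), h T φ)
        = (∫ φ in (0:ℝ)..(2 * Real.pi), h 0 φ)
          + gL888 n (fun q => ∫ φ in (0:ℝ)..(2 * Real.pi), k q φ) T := by
  intro T hT
  have cs1 : ∀ t, Continuous (h1 t) := fun t =>
    ch1.comp (continuous_const.prodMk continuous_id)
  have cs2 : ∀ t, Continuous (h2 t) := fun t =>
    ch2.comp (continuous_const.prodMk continuous_id)
  have csk : ∀ t, Continuous (k t) := fun t =>
    ck.comp (continuous_const.prodMk continuous_id)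
  have hp : ∀ t, HasDerivAt (fun t => ∫ φ in (0:ℝ)..(2 * Real.pi), h t φ)
      (∫ φ in (0:ℝ)..(2 * Real.pi), h1 t φ) t := fun t => hasDerivAt_pint888 hh ch ch1 _ _ t
  have hp1 : ∀ t, HasDerivAt (fun t => ∫ φ in (0:ℝ)..(2 * Real.pi), h1 t φ)
      (∫ φ in (0:ℝ)..(2 * Real.pi), h2 t φ) t := fun t => hasDerivAt_pint888 hh1 ch1 ch2 _ _ t
  have cp1 := cont_pint888 ch1 0 (2 * Real.pi)
  have ckb := cont_pint888 ck 0 (2 * Real.pi)
  -- the averaged identity
  have hav : ∀ t, ((wtA888 n t : ℝ) : ℂ) * (∫ φ in (0:ℝ)..(2 * Real.pi), h2 t φ)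
      + ((wtA'888 n t : ℝ) : ℂ) * (∫ φ in (0:ℝ)..(2 * Real.pi), h1 t φ)
      = ((wtA888 n t : ℝ) : ℂ) * ∫ φ in (0:ℝ)..(2 * Real.pi), k t φ := by
    intro t
    have e0 : (∫ φ in (0:ℝ)..(2 * Real.pi), Ψ' t φ) = 0 := by
      rw [intervalIntegral.integral_eq_sub_of_hasDerivAt (fun φ _ => hΨ t φ)
        ((cΨ' t).intervalIntegrable _ _), hper t, sub_self]
    rw [← intervalIntegral.integral_const_mul, ← intervalIntegral.integral_const_mul,
      ← intervalIntegral.integral_const_mul,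
      ← intervalIntegral.integral_add (((cs2 t).const_mul _).intervalIntegrable _ _)
        (((cs1 t).const_mul _).intervalIntegrable _ _)]
    have e1 : (∫ φ in (0:ℝ)..(2 * Real.pi), ((wtA888 n t : ℝ) : ℂ) * k t φ)
        = (∫ φ in (0:ℝ)..(2 * Real.pi), ((wtA888 n t : ℝ) : ℂ) * k t φ)
          + ∫ φ in (0:ℝ)..(2 * Real.pi), Ψ' t φ := by rw [e0, add_zero]
    rw [e1, ← intervalIntegral.integral_add (((csk t).const_mul _).intervalIntegrable _ _)
      ((cΨ' t).intervalIntegrable _ _)]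
    exact intervalIntegral.integral_congr (fun φ _ => hid t φ)
  -- `A p'` is a primitive of `A k̄`
  have hAp : ∀ t, HasDerivAt
      (fun t => ((wtA888 n t : ℝ) : ℂ) * ∫ φ in (0:ℝ)..(2 * Real.pi), h1 t φ)
      (((wtA888 n t : ℝ) : ℂ) * ∫ φ in (0:ℝ)..(2 * Real.pi), k t φ) t := by
    intro t
    have hA : HasDerivAt (fun t => ((wtA888 n t : ℝ) : ℂ)) ((wtA'888 n t : ℝ) : ℂ) t :=
      (wtA_hasDerivAt888 n t).ofReal_comp
    have := hA.mul (hp1 t)
    exact this.congr_deriv (by rw [← hav t]; ring)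
  have cAk : Continuous
      (fun t => ((wtA888 n t : ℝ) : ℂ) * ∫ φ in (0:ℝ)..(2 * Real.pi), k t φ) :=
    (Complex.continuous_ofReal.comp (wtA_cont888 n)).mul ckb
  have hin : ∀ r, ((wtA888 n r : ℝ) : ℂ) * (∫ φ in (0:ℝ)..(2 * Real.pi), h1 r φ)
      = gLin888 n (fun q => ∫ φ in (0:ℝ)..(2 * Real.pi), k q φ) r := by
    intro r
    unfold gLin888
    rw [intervalIntegral.integral_eq_sub_of_hasDerivAt (fun t _ => hAp t)
      (cAk.intervalIntegrable _ _), wtA_zero888]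
    simp
  have hker : ∀ r, 0 < r → (∫ φ in (0:ℝ)..(2 * Real.pi), h1 r φ)
      = gLker888 n (fun q => ∫ φ in (0:ℝ)..(2 * Real.pi), k q φ) r := by
    intro r hr
    unfold gLker888
    rw [← hin r, ← mul_assoc]
    have hA : ((wtA888 n r : ℝ) : ℂ) ≠ 0 := by exact_mod_cast (wtA_pos888 n hr).ne'
    push_cast
    field_simp
  have hfin : (∫ r in (0:ℝ)..T, ∫ φ in (0:ℝ)..(2 * Real.pi), h1 r φ)
      = (∫ φ in (0:ℝ)..(2 * Real.pi), h T φ) - ∫ φ in (0:ℝ)..(2 * Real.pi), h 0 φ :=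
    intervalIntegral.integral_eq_sub_of_hasDerivAt (fun t _ => hp t) (cp1.intervalIntegrable _ _)
  have hcong : (∫ r in (0:ℝ)..T,
      gLker888 n (fun q => ∫ φ in (0:ℝ)..(2 * Real.pi), k q φ) r)
      = ∫ r in (0:ℝ)..T, ∫ φ in (0:ℝ)..(2 * Real.pi), h1 r φ := by
    apply intervalIntegral.integral_congr_ae
    refine Filter.Eventually.of_forall (fun r hr => ?_)
    rw [uIoc_of_le hT] at hr
    exact (hker r hr.1).symm
  rw [gL_eq888, hcong, hfin]
  ring

end Fermat.Agent.LT.T6.H888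

end

end
-- ===== PACK-END LT/T6/H888/AvgODE.lean

-- ===== PACK-BEGIN LT/T6/H922/F1Soft.lean
section



/-!
# Row LT, tower T6, leaf T6.20a.6 `F1SoftOfC626` (helper922), OFF-MAIN

Proof of the frozen leaf `H626.F1SoftOfC626` of `LT/T6/H626/AbelCut.lean` (helper626, sha256
6a4d529b): the closed form of weight `n = ±1`, `abelF1_626 c n φ`, is continuous, compactly
supported and of weight `n` on both sides.

* invariance: `det`, `rhoR` are bi-`SO(2)`-invariant, `φ(M_v(y))` depends on `(det y, rhoR y, v)`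
  only (`famAlg626` + `CartanCC`), `holPart (k y) = holPart k · holPart y = holPart (y k)`;
* continuity: `det > 0` is open and closed in `GL₂(ℝ)`; parametric integral of a jointly
  continuous integrand with uniformly compact support in `v`
  (`continuousOn_integral_of_compact_support`);
* support: `φ(M_v(y)) ≠ 0` bounds `√(det y)` from both sides and `rhoR y` from above; such `y`
  form a compact set (continuous image of a closed box of matrices).
-/

set_option autoImplicit false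

open scoped Matrix ContDiff
open MeasureTheory

noncomputable section

namespace Fermat.Agent.LT.T6.H922

open Fermat.Agent.LT.T6 Fermat.Agent.LT.T6.H626

/-! ## 1. `SO(2)`: entries, `holPart`, `det`, `rhoR` -/

theorem so2_entries922 {k : GL (Fin 2) ℝ} (hk : InSO2 k) :
    (k : Matrix (Fin 2) (Fin 2) ℝ) 1 1 = (k : Matrix (Fin 2) (Fin 2) ℝ) 0 0 ∧
    (k : Matrix (Fin 2) (Fin 2) ℝ) 0 1 = -(k : Matrix (Fin 2) (Fin 2) ℝ) 1 0 ∧
    (k : Matrix (Fin 2) (Fin 2) ℝ) 0 0 ^ 2 + (k : Matrix (Fin 2) (Fin 2) ℝ) 1 0 ^ 2 = 1 := by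
  obtain ⟨h1, h2⟩ := hk
  have e00 := congrFun (congrFun h1 0) 0
  have e11 := congrFun (congrFun h1 1) 1
  rw [Matrix.det_fin_two] at h2
  simp only [Matrix.mul_apply, Fin.sum_univ_two, Matrix.transpose_apply, Matrix.one_apply_eq]
    at e00 e11
  set a := (k : Matrix (Fin 2) (Fin 2) ℝ) 0 0
  set b := (k : Matrix (Fin 2) (Fin 2) ℝ) 0 1
  set c := (k : Matrix (Fin 2) (Fin 2) ℝ) 1 0
  set d := (k : Matrix (Fin 2) (Fin 2) ℝ) 1 1
  have hs : (a - d) ^ 2 + (b + c) ^ 2 = 0 := by nlinarith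
  have h3 : a - d = 0 := by nlinarith [sq_nonneg (a - d), sq_nonneg (b + c)]
  have h4 : b + c = 0 := by nlinarith [sq_nonneg (a - d), sq_nonneg (b + c)]
  have hd : d = a := by linarith
  have hb : b = -c := by linarith
  refine ⟨hd, hb, ?_⟩
  rw [hb] at e00
  nlinarith

theorem holPart_re922 (y : GL (Fin 2) ℝ) :
    (holPart y).re = ((y : Matrix (Fin 2) (Fin 2) ℝ) 0 0 + (y : Matrix (Fin 2) (Fin 2) ℝ) 1 1) / 2 := by
  unfold holPart
  simp

theorem holPart_im922 (y : GL (Fin 2) ℝ) :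
    (holPart y).im = ((y : Matrix (Fin 2) (Fin 2) ℝ) 1 0 - (y : Matrix (Fin 2) (Fin 2) ℝ) 0 1) / 2 := by
  unfold holPart
  simp

theorem holPart_so2_mul922 {k : GL (Fin 2) ℝ} (hk : InSO2 k) (g : GL (Fin 2) ℝ) :
    holPart (k * g) = holPart k * holPart g := by
  obtain ⟨h1, h2, -⟩ := so2_entries922 hk
  apply Complex.ext
  · rw [Complex.mul_re, holPart_re922, holPart_re922, holPart_re922, holPart_im922,
      holPart_im922]
    simp only [Matrix.GeneralLinearGroup.coe_mul, Matrix.mul_apply, Fin.sum_univ_two]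
    rw [h1, h2]
    ring
  · rw [Complex.mul_im, holPart_re922, holPart_re922, holPart_im922, holPart_im922,
      holPart_im922]
    simp only [Matrix.GeneralLinearGroup.coe_mul, Matrix.mul_apply, Fin.sum_univ_two]
    rw [h1, h2]
    ring

theorem holPart_mul_so2_922 {k : GL (Fin 2) ℝ} (hk : InSO2 k) (g : GL (Fin 2) ℝ) :
    holPart (g * k) = holPart k * holPart g := by
  obtain ⟨h1, h2, -⟩ := so2_entries922 hk
  apply Complex.ext
  · rw [Complex.mul_re, holPart_re922, holPart_re922, holPart_re922, holPart_im922,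
      holPart_im922]
    simp only [Matrix.GeneralLinearGroup.coe_mul, Matrix.mul_apply, Fin.sum_univ_two]
    rw [h1, h2]
    ring
  · rw [Complex.mul_im, holPart_re922, holPart_re922, holPart_im922, holPart_im922,
      holPart_im922]
    simp only [Matrix.GeneralLinearGroup.coe_mul, Matrix.mul_apply, Fin.sum_univ_two]
    rw [h1, h2]
    ring

theorem holPart_so2_normSq922 {k : GL (Fin 2) ℝ} (hk : InSO2 k) :
    Complex.normSq (holPart k) = 1 := by
  obtain ⟨h1, h2, h3⟩ := so2_entries922 hk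
  rw [Complex.normSq_apply, holPart_re922, holPart_im922, h1, h2]
  nlinarith

theorem holPart_so2_inv922 {k : GL (Fin 2) ℝ} (hk : InSO2 k) :
    (holPart k)⁻¹ = (starRingEnd ℂ) (holPart k) := by
  rw [Complex.inv_def, holPart_so2_normSq922 hk]
  simp

/-- `j_n (k y) = (wtChar n k)⁻¹ j_n (y)` for `n = ±1`, `k ∈ SO(2)`, and the same on the right. -/
theorem jn_so2_922 {n : ℤ} (hn : n = 1 ∨ n = -1) {k : GL (Fin 2) ℝ} (hk : InSO2 k)
    (g : GL (Fin 2) ℝ) :
    jn626 n (k * g) = (wtChar n k)⁻¹ * jn626 n g ∧ jn626 n (g * k) = (wtChar n k)⁻¹ * jn626 n g := by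
  rcases hn with rfl | rfl
  · have hw : (wtChar 1 k)⁻¹ = (starRingEnd ℂ) (holPart k) := by
      unfold wtChar
      rw [zpow_one, holPart_so2_inv922 hk]
    unfold jn626
    rw [if_pos rfl, if_pos rfl, if_pos rfl, hw, holPart_so2_mul922 hk, holPart_mul_so2_922 hk,
      map_mul]
    constructor <;> ring
  · have hw : (wtChar (-1) k)⁻¹ = holPart k := by
      unfold wtChar
      rw [zpow_neg, zpow_one, inv_inv]
    have hne : ¬ ((-1 : ℤ) = 1) := by norm_num
    unfold jn626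
    rw [if_neg hne, if_neg hne, if_neg hne, hw, holPart_so2_mul922 hk, holPart_mul_so2_922 hk]
    constructor <;> ring

theorem so2_transpose_mul922 {k : GL (Fin 2) ℝ} (hk : InSO2 k) :
    (k : Matrix (Fin 2) (Fin 2) ℝ).transpose * (k : Matrix (Fin 2) (Fin 2) ℝ) = 1 :=
  mul_eq_one_comm.mp hk.1

theorem det_so2_mul922 {k : GL (Fin 2) ℝ} (hk : InSO2 k) (g : GL (Fin 2) ℝ) :
    ((k * g : GL (Fin 2) ℝ) : Matrix (Fin 2) (Fin 2) ℝ).det
      = (g : Matrix (Fin 2) (Fin 2) ℝ).det := by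
  rw [Matrix.GeneralLinearGroup.coe_mul, Matrix.det_mul, hk.2, one_mul]

theorem det_mul_so2_922 {k : GL (Fin 2) ℝ} (hk : InSO2 k) (g : GL (Fin 2) ℝ) :
    ((g * k : GL (Fin 2) ℝ) : Matrix (Fin 2) (Fin 2) ℝ).det
      = (g : Matrix (Fin 2) (Fin 2) ℝ).det := by
  rw [Matrix.GeneralLinearGroup.coe_mul, Matrix.det_mul, hk.2, mul_one]

theorem rhoM_so2_mul922 {k : GL (Fin 2) ℝ} (hk : InSO2 k) (g : GL (Fin 2) ℝ) :
    rhoM626 ((k * g : GL (Fin 2) ℝ) : Matrix (Fin 2) (Fin 2) ℝ)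
      = rhoM626 (g : Matrix (Fin 2) (Fin 2) ℝ) := by
  unfold rhoM626
  rw [det_so2_mul922 hk, Matrix.GeneralLinearGroup.coe_mul, Matrix.transpose_mul,
    Matrix.mul_assoc, ← Matrix.mul_assoc (k : Matrix (Fin 2) (Fin 2) ℝ).transpose,
    so2_transpose_mul922 hk, Matrix.one_mul]

theorem rhoM_mul_so2_922 {k : GL (Fin 2) ℝ} (hk : InSO2 k) (g : GL (Fin 2) ℝ) :
    rhoM626 ((g * k : GL (Fin 2) ℝ) : Matrix (Fin 2) (Fin 2) ℝ)
      = rhoM626 (g : Matrix (Fin 2) (Fin 2) ℝ) := by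
  unfold rhoM626
  rw [det_mul_so2_922 hk, Matrix.GeneralLinearGroup.coe_mul, Matrix.transpose_mul,
    Matrix.mul_assoc, Matrix.trace_mul_comm, Matrix.mul_assoc, Matrix.mul_assoc, hk.1,
    Matrix.mul_one]

/-! ## 2. `φ (M_v(y))` depends on `(det y, rhoR y, v)` only -/

theorem phi_fam_congr922 (hC : H830.CartanCC) {φ : GL (Fin 2) ℂ → ℂ} (hφ : IsArchTestC φ)
    {y y' : Matrix (Fin 2) (Fin 2) ℝ} (hy : 0 < y.det) (hy' : 0 < y'.det) (hd : y.det = y'.det)
    (hr : rhoM626 y = rhoM626 y') (v : ℝ) :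
    φ (toGLC626 (famMat626 y v)) = φ (toGLC626 (famMat626 y' v)) := by
  obtain ⟨-, -, h3, h4⟩ := famAlg626 y hy v
  obtain ⟨-, -, h3', h4'⟩ := famAlg626 y' hy' v
  obtain ⟨k, k', hk, hk', he⟩ := hC (toGLC626 (famMat626 y v)) (toGLC626 (famMat626 y' v))
    (by rw [h4, h4', hd]) (by rw [h3, h3', hr])
  rw [he, hφ.right k' _ hk', hφ.left k _ hk]

/-! ## 3. Continuity into `GL₂` -/

/-- A map into `GL₂(𝕜)` is continuous on `s` if its matrix is. -/
theorem continuousOn_toGL922 {𝕜 : Type*} [NormedField 𝕜] {X : Type*} [TopologicalSpace X]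
    {s : Set X} (f : X → GL (Fin 2) 𝕜)
    (hf : ContinuousOn (fun x => (f x : Matrix (Fin 2) (Fin 2) 𝕜)) s) : ContinuousOn f s := by
  have hf' : Continuous fun x : s => (f x : Matrix (Fin 2) (Fin 2) 𝕜) :=
    continuousOn_iff_continuous_domRestrict.1 hf
  have hg : Continuous fun x : s => f x := by
    rw [Units.continuous_iff]
    refine ⟨hf', ?_⟩
    have hdet : ∀ x : s, (f x : Matrix (Fin 2) (Fin 2) 𝕜).det ≠ 0 := fun x =>
      ((Matrix.isUnit_iff_isUnit_det _).1 (f x).isUnit).ne_zero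
    have h : (fun x : s => (((f x)⁻¹ : GL (Fin 2) 𝕜) : Matrix (Fin 2) (Fin 2) 𝕜))
        = fun x : s => ((f x : Matrix (Fin 2) (Fin 2) 𝕜).det)⁻¹ •
            (f x : Matrix (Fin 2) (Fin 2) 𝕜).adjugate := by
      funext x
      rw [Matrix.coe_units_inv, Matrix.inv_def, Ring.inverse_eq_inv']
    change Continuous (fun x : s => (((f x)⁻¹ : GL (Fin 2) 𝕜) : Matrix (Fin 2) (Fin 2) 𝕜))
    rw [h]
    exact (hf'.matrix_det.inv₀ hdet).smul hf'.matrix_adjugate
  exact continuousOn_iff_continuous_domRestrict.2 hg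

/-- The element of `GL₂(ℝ)` with matrix `M` (`1` if `det M = 0`). -/
def toGLR922 (M : Matrix (Fin 2) (Fin 2) ℝ) : GL (Fin 2) ℝ :=
  if h : M.det ≠ 0 then Matrix.GeneralLinearGroup.mkOfDetNeZero M h else 1

theorem coe_toGLR922 {M : Matrix (Fin 2) (Fin 2) ℝ} (h : M.det ≠ 0) :
    ((toGLR922 M : GL (Fin 2) ℝ) : Matrix (Fin 2) (Fin 2) ℝ) = M := by
  unfold toGLR922
  rw [dif_pos h]
  rfl

theorem toGLR_coe922 (y : GL (Fin 2) ℝ) : toGLR922 (y : Matrix (Fin 2) (Fin 2) ℝ) = y := by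
  have h : (y : Matrix (Fin 2) (Fin 2) ℝ).det ≠ 0 :=
    ((Matrix.isUnit_iff_isUnit_det _).1 y.isUnit).ne_zero
  exact Units.ext (coe_toGLR922 h)

theorem continuousOn_toGLR922 : ContinuousOn toGLR922 {M | M.det ≠ 0} := by
  apply continuousOn_toGL922
  refine continuousOn_id.congr fun M hM => ?_
  exact coe_toGLR922 hM

/-- Closed boxes of matrices with determinant bounded below are compact in `GL₂(ℝ)`. -/
theorem isCompact_glBox922 (b d : ℝ) (hd : 0 < d) :
    IsCompact (toGLR922 '' {M : Matrix (Fin 2) (Fin 2) ℝ | (∀ i j, M i j ∈ Set.Icc (-b) b) ∧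
      d ≤ M.det}) := by
  have h1 : IsCompact {M : Matrix (Fin 2) (Fin 2) ℝ | ∀ i j, M i j ∈ Set.Icc (-b) b} := by
    have : {M : Matrix (Fin 2) (Fin 2) ℝ | ∀ i j, M i j ∈ Set.Icc (-b) b}
        = Set.pi Set.univ (fun _ : Fin 2 => Set.pi Set.univ (fun _ : Fin 2 => Set.Icc (-b) b)) := by
      ext M
      constructor
      · intro h i _ j _
        exact h i j
      · intro h i j
        exact h i (Set.mem_univ i) j (Set.mem_univ j)
    rw [this]
    exact isCompact_univ_pi fun _ => isCompact_univ_pi fun _ => isCompact_Icc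
  have h2 : IsClosed {M : Matrix (Fin 2) (Fin 2) ℝ | d ≤ M.det} :=
    isClosed_le continuous_const (continuous_id.matrix_det)
  have h3 : IsCompact ({M : Matrix (Fin 2) (Fin 2) ℝ | ∀ i j, M i j ∈ Set.Icc (-b) b} ∩
      {M | d ≤ M.det}) := h1.inter_right h2
  have h4 : {M : Matrix (Fin 2) (Fin 2) ℝ | (∀ i j, M i j ∈ Set.Icc (-b) b) ∧ d ≤ M.det}
      = {M : Matrix (Fin 2) (Fin 2) ℝ | ∀ i j, M i j ∈ Set.Icc (-b) b} ∩ {M | d ≤ M.det} := rfl
  rw [h4]
  refine h3.image_of_continuousOn (continuousOn_toGLR922.mono ?_)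
  intro M hM
  have : d ≤ M.det := hM.2
  exact (lt_of_lt_of_le hd this).ne'

/-! ## 4. Continuity of the Hermitian family -/

/-- The domain `det > 0` in `GL₂(ℝ) × ℝ`. -/
def posDom922 : Set (GL (Fin 2) ℝ × ℝ) := {p | 0 < (p.1 : Matrix (Fin 2) (Fin 2) ℝ).det}

theorem continuous_val_fst922 :
    Continuous fun p : GL (Fin 2) ℝ × ℝ => (p.1 : Matrix (Fin 2) (Fin 2) ℝ) :=
  Units.continuous_val.comp continuous_fst

theorem continuous_det_fst922 :
    Continuous fun p : GL (Fin 2) ℝ × ℝ => (p.1 : Matrix (Fin 2) (Fin 2) ℝ).det :=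
  continuous_val_fst922.matrix_det

theorem continuousOn_rho922 :
    ContinuousOn (fun p : GL (Fin 2) ℝ × ℝ => rhoM626 (p.1 : Matrix (Fin 2) (Fin 2) ℝ))
      posDom922 := by
  unfold rhoM626
  refine ContinuousOn.div ?_ ?_ ?_
  · exact ((continuous_val_fst922.matrix_transpose.matrix_mul
      continuous_val_fst922).matrix_trace).continuousOn
  · exact (continuous_const.mul continuous_det_fst922.abs).continuousOn
  · intro p hp
    have : 0 < (p.1 : Matrix (Fin 2) (Fin 2) ℝ).det := hp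
    have h2 : 0 < |(p.1 : Matrix (Fin 2) (Fin 2) ℝ).det| := abs_pos.2 this.ne'
    positivity

theorem continuousOn_xv922 :
    ContinuousOn (fun p : GL (Fin 2) ℝ × ℝ =>
      xv626 (rhoM626 (p.1 : Matrix (Fin 2) (Fin 2) ℝ)) p.2) posDom922 := by
  unfold xv626
  refine Real.continuous_sqrt.comp_continuousOn ?_
  exact ((continuousOn_rho922.add continuousOn_const).add
    (continuous_snd.pow 2).continuousOn).div_const 2

theorem xv_nonneg922 (ρ v : ℝ) : 0 ≤ xv626 ρ v := Real.sqrt_nonneg _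

theorem continuousOn_scal922 :
    ContinuousOn (fun p : GL (Fin 2) ℝ × ℝ =>
      famScal626 (p.1 : Matrix (Fin 2) (Fin 2) ℝ)
        (xv626 (rhoM626 (p.1 : Matrix (Fin 2) (Fin 2) ℝ)) p.2)) posDom922 := by
  unfold famScal626
  refine ContinuousOn.div ?_ ?_ ?_
  · exact (Real.continuous_sqrt.comp (Real.continuous_sqrt.comp
      continuous_det_fst922)).continuousOn
  · exact continuousOn_const.mul
      (Real.continuous_sqrt.comp_continuousOn (continuousOn_xv922.add continuousOn_const))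
  · intro p _
    have h1 : 0 < xv626 (rhoM626 (p.1 : Matrix (Fin 2) (Fin 2) ℝ)) p.2 + 1 := by
      have := xv_nonneg922 (rhoM626 (p.1 : Matrix (Fin 2) (Fin 2) ℝ)) p.2
      linarith
    have h2 := Real.sqrt_pos.2 h1
    positivity

theorem sqrt_two_det_ne922 {p : GL (Fin 2) ℝ × ℝ} (hp : p ∈ posDom922) :
    Real.sqrt (2 * (p.1 : Matrix (Fin 2) (Fin 2) ℝ).det) ≠ 0 := by
  have : 0 < (p.1 : Matrix (Fin 2) (Fin 2) ℝ).det := hp
  exact (Real.sqrt_pos.2 (by positivity)).ne'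

theorem continuousOn_h1_922 :
    ContinuousOn (fun p : GL (Fin 2) ℝ × ℝ => famH1_626 (p.1 : Matrix (Fin 2) (Fin 2) ℝ))
      posDom922 := by
  unfold famH1_626
  refine ContinuousOn.div ?_ ?_ fun p hp => sqrt_two_det_ne922 hp
  · exact ((continuous_val_fst922.matrix_elem 0 0).sub
      (continuous_val_fst922.matrix_elem 1 1)).continuousOn
  · exact (Real.continuous_sqrt.comp (continuous_const.mul continuous_det_fst922)).continuousOn

theorem continuousOn_h2_922 :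
    ContinuousOn (fun p : GL (Fin 2) ℝ × ℝ => famH2_626 (p.1 : Matrix (Fin 2) (Fin 2) ℝ))
      posDom922 := by
  unfold famH2_626
  refine ContinuousOn.div ?_ ?_ fun p hp => sqrt_two_det_ne922 hp
  · exact ((continuous_val_fst922.matrix_elem 0 1).add
      (continuous_val_fst922.matrix_elem 1 0)).continuousOn
  · exact (Real.continuous_sqrt.comp (continuous_const.mul continuous_det_fst922)).continuousOn

theorem continuousOn_famMat922 :
    ContinuousOn (fun p : GL (Fin 2) ℝ × ℝ =>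
      famMat626 (p.1 : Matrix (Fin 2) (Fin 2) ℝ) p.2) posDom922 := by
  have hs := continuousOn_scal922
  have hx := continuousOn_xv922
  have h1 := continuousOn_h1_922
  have h2 := continuousOn_h2_922
  have hv : ContinuousOn (fun p : GL (Fin 2) ℝ × ℝ => ((p.2 : ℝ) : ℂ) * Complex.I) posDom922 :=
    ((Complex.continuous_ofReal.comp continuous_snd).mul continuous_const).continuousOn
  have hA : ContinuousOn (fun p : GL (Fin 2) ℝ × ℝ =>
      Real.sqrt 2 * (xv626 (rhoM626 (p.1 : Matrix (Fin 2) (Fin 2) ℝ)) p.2 + 1)) posDom922 :=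
    continuousOn_const.mul (hx.add continuousOn_const)
  unfold famMat626
  refine ContinuousOn.smul (Complex.continuous_ofReal.comp_continuousOn hs) ?_
  refine continuousOn_pi.2 fun i => continuousOn_pi.2 fun j => ?_
  fin_cases i <;> fin_cases j
  · exact Complex.continuous_ofReal.comp_continuousOn (hA.add h1)
  · exact (Complex.continuous_ofReal.comp_continuousOn h2).sub hv
  · exact (Complex.continuous_ofReal.comp_continuousOn h2).add hv
  · exact Complex.continuous_ofReal.comp_continuousOn (hA.sub h1)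

/-- The family `(y, v) ↦ toGLC626 (M_v(y))` is continuous on `det > 0`. -/
theorem continuousOn_famGL922 :
    ContinuousOn (fun p : GL (Fin 2) ℝ × ℝ =>
      toGLC626 (famMat626 (p.1 : Matrix (Fin 2) (Fin 2) ℝ) p.2)) posDom922 := by
  apply continuousOn_toGL922
  refine continuousOn_famMat922.congr fun p hp => ?_
  exact (famAlg626 _ hp p.2).2.1

/-! ## 5. Bounds on the support -/

theorem det_ne_zeroC922 (y : GL (Fin 2) ℂ) : (y : Matrix (Fin 2) (Fin 2) ℂ).det ≠ 0 :=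
  ((Matrix.isUnit_iff_isUnit_det _).1 y.isUnit).ne_zero

theorem continuous_normDetC922 :
    Continuous fun y : GL (Fin 2) ℂ => ‖(y : Matrix (Fin 2) (Fin 2) ℂ).det‖ :=
  (Units.continuous_val.matrix_det).norm

theorem continuous_rhoC922 : Continuous rhoC := by
  unfold rhoC
  have hval : Continuous fun y : GL (Fin 2) ℂ => (y : Matrix (Fin 2) (Fin 2) ℂ) :=
    Units.continuous_val
  have h1 : Continuous fun y : GL (Fin 2) ℂ =>
      (((y : Matrix (Fin 2) (Fin 2) ℂ).conjTranspose * (y : Matrix (Fin 2) (Fin 2) ℂ)).trace).re :=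
    Complex.continuous_re.comp ((hval.matrix_conjTranspose.matrix_mul hval).matrix_trace)
  have h2 : Continuous fun y : GL (Fin 2) ℂ => 2 * ‖(y : Matrix (Fin 2) (Fin 2) ℂ).det‖ :=
    continuous_const.mul hval.matrix_det.norm
  exact h1.div h2 fun y => mul_ne_zero two_ne_zero (norm_ne_zero_iff.2 (det_ne_zeroC922 y))

/-- On the support of a test function `rhoC` is bounded and `‖det‖` is bounded from both
sides. -/
theorem supp_bounds922 {φ : GL (Fin 2) ℂ → ℂ} (hφ : IsArchTestC φ) :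
    ∃ M d₁ d₂ : ℝ, 0 < d₁ ∧ ∀ g : GL (Fin 2) ℂ, φ g ≠ 0 →
      rhoC g ≤ M ∧ d₁ ≤ ‖(g : Matrix (Fin 2) (Fin 2) ℂ).det‖ ∧
        ‖(g : Matrix (Fin 2) (Fin 2) ℂ).det‖ ≤ d₂ := by
  obtain ⟨M, hM⟩ := hφ.supp.isCompact.bddAbove_image continuous_rhoC922.continuousOn
  obtain ⟨d₂, hd₂⟩ := hφ.supp.isCompact.bddAbove_image continuous_normDetC922.continuousOn
  have hinv : Continuous fun y : GL (Fin 2) ℂ => ‖(y : Matrix (Fin 2) (Fin 2) ℂ).det‖⁻¹ :=
    continuous_normDetC922.inv₀ fun y => norm_ne_zero_iff.2 (det_ne_zeroC922 y)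
  obtain ⟨B, hB⟩ := hφ.supp.isCompact.bddAbove_image hinv.continuousOn
  have hB1 : 0 < max B 1 := lt_of_lt_of_le one_pos (le_max_right _ _)
  refine ⟨M, (max B 1)⁻¹, d₂, inv_pos.2 hB1, fun g hg => ?_⟩
  have hmem : g ∈ tsupport φ := subset_tsupport _ hg
  refine ⟨hM ⟨g, hmem, rfl⟩, ?_, hd₂ ⟨g, hmem, rfl⟩⟩
  have h1 : ‖(g : Matrix (Fin 2) (Fin 2) ℂ).det‖⁻¹ ≤ max B 1 :=
    le_trans (hB ⟨g, hmem, rfl⟩) (le_max_left _ _)
  have h2 : 0 < ‖(g : Matrix (Fin 2) (Fin 2) ℂ).det‖ := norm_pos_iff.2 (det_ne_zeroC922 g)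
  exact (inv_le_comm₀ hB1 h2).2 h1

theorem trace_sq922 (y : Matrix (Fin 2) (Fin 2) ℝ) :
    (y.transpose * y).trace = y 0 0 ^ 2 + y 0 1 ^ 2 + y 1 0 ^ 2 + y 1 1 ^ 2 := by
  rw [Matrix.trace_fin_two]
  simp only [Matrix.mul_apply, Fin.sum_univ_two, Matrix.transpose_apply]
  ring

/-- The consequences of `φ (M_v(y)) ≠ 0`. -/
theorem fam_bounds922 {φ : GL (Fin 2) ℂ → ℂ} (hφ : IsArchTestC φ) :
    ∃ V b d : ℝ, 0 < d ∧ ∀ y : Matrix (Fin 2) (Fin 2) ℝ, 0 < y.det → ∀ v : ℝ,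
      φ (toGLC626 (famMat626 y v)) ≠ 0 →
        |v| ≤ V ∧ (∀ i j, y i j ∈ Set.Icc (-b) b) ∧ d ≤ y.det := by
  obtain ⟨M, d₁, d₂, hd₁, h⟩ := supp_bounds922 hφ
  refine ⟨2 * M, 2 * d₂ * M, d₁ ^ 2, by positivity, fun y hy v hv => ?_⟩
  obtain ⟨-, -, h3, h4⟩ := famAlg626 y hy v
  obtain ⟨hM, hl, hu⟩ := h _ hv
  rw [h3] at hM
  rw [h4] at hl hu
  have hρ := one_le_rhoM626 y hy
  have hx1 := one_le_xv626 (rhoM626 y) v hρ
  have hx2 := xv_sq626 (rhoM626 y) v hρ
  have hsq : Real.sqrt y.det ^ 2 = y.det := Real.sq_sqrt hy.le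
  have hM1 : 1 ≤ M := le_trans hx1 hM
  have hd2 : 0 < d₂ := lt_of_lt_of_le hd₁ (le_trans hl hu)
  set x := xv626 (rhoM626 y) v
  set D := Real.sqrt y.det
  have hxM : x ^ 2 ≤ M ^ 2 := pow_le_pow_left₀ (by linarith) hM 2
  have hv2 : v ^ 2 ≤ (2 * M) ^ 2 := by nlinarith
  have hρM : rhoM626 y ≤ 2 * M ^ 2 := by nlinarith [sq_nonneg v]
  have hDl : d₁ ^ 2 ≤ y.det := by
    rw [← hsq]
    exact pow_le_pow_left₀ hd₁.le hl 2
  have hDu : y.det ≤ d₂ ^ 2 := by
    rw [← hsq]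
    exact pow_le_pow_left₀ (Real.sqrt_nonneg _) hu 2
  have htr : (y.transpose * y).trace = 2 * y.det * rhoM626 y := by
    unfold rhoM626
    rw [abs_of_pos hy]
    field_simp
  have htr2 : y 0 0 ^ 2 + y 0 1 ^ 2 + y 1 0 ^ 2 + y 1 1 ^ 2 ≤ (2 * d₂ * M) ^ 2 := by
    rw [← trace_sq922, htr]
    have e1 : 2 * y.det * rhoM626 y ≤ 2 * d₂ ^ 2 * (2 * M ^ 2) := by
      have : 0 ≤ rhoM626 y := by linarith
      calc 2 * y.det * rhoM626 y ≤ 2 * d₂ ^ 2 * rhoM626 y := by
            apply mul_le_mul_of_nonneg_right _ this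
            linarith
        _ ≤ 2 * d₂ ^ 2 * (2 * M ^ 2) := by
            apply mul_le_mul_of_nonneg_left hρM
            positivity
    calc 2 * y.det * rhoM626 y ≤ 2 * d₂ ^ 2 * (2 * M ^ 2) := e1
      _ = (2 * d₂ * M) ^ 2 := by ring
  have hb0 : 0 ≤ 2 * d₂ * M := by positivity
  have hent : ∀ t : ℝ, t ^ 2 ≤ (2 * d₂ * M) ^ 2 → t ∈ Set.Icc (-(2 * d₂ * M)) (2 * d₂ * M) := by
    intro t ht
    have := abs_le_of_sq_le_sq' ht hb0
    exact ⟨this.1, this.2⟩
  refine ⟨?_, ?_, hDl⟩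
  · have := abs_le_of_sq_le_sq' hv2 (by positivity)
    exact abs_le.2 ⟨this.1, this.2⟩
  · intro i j
    apply hent
    fin_cases i <;> fin_cases j <;>
      simp only [Fin.zero_eta, Fin.mk_one, Fin.isValue] <;>
      nlinarith [sq_nonneg (y 0 0), sq_nonneg (y 0 1), sq_nonneg (y 1 0), sq_nonneg (y 1 1)]

/-! ## 6. The integral `∫ φ (M_v(y)) dv` -/

/-- `I(y) = ∫ φ (M_v(y)) dv`. -/
def famInt922 (φ : GL (Fin 2) ℂ → ℂ) (y : GL (Fin 2) ℝ) : ℂ :=
  ∫ v : ℝ, φ (toGLC626 (famMat626 (y : Matrix (Fin 2) (Fin 2) ℝ) v))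

/-- The domain `det > 0` in `GL₂(ℝ)`. -/
def posSet922 : Set (GL (Fin 2) ℝ) := {y | 0 < (y : Matrix (Fin 2) (Fin 2) ℝ).det}

theorem continuous_detR922 :
    Continuous fun y : GL (Fin 2) ℝ => (y : Matrix (Fin 2) (Fin 2) ℝ).det :=
  Units.continuous_val.matrix_det

theorem isOpen_posSet922 : IsOpen posSet922 :=
  isOpen_lt continuous_const continuous_detR922

theorem continuousOn_famInt922 {φ : GL (Fin 2) ℂ → ℂ} (hφ : IsArchTestC φ) :
    ContinuousOn (famInt922 φ) posSet922 := by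
  obtain ⟨V, b, d, -, h⟩ := fam_bounds922 hφ
  unfold famInt922
  refine continuousOn_integral_of_compact_support (k := Set.Icc (-V) V) isCompact_Icc ?_ ?_
  · have h1 : ContinuousOn (fun p : GL (Fin 2) ℝ × ℝ =>
        φ (toGLC626 (famMat626 (p.1 : Matrix (Fin 2) (Fin 2) ℝ) p.2))) (posSet922 ×ˢ Set.univ) :=
      hφ.cont.comp_continuousOn (continuousOn_famGL922.mono fun p hp => hp.1)
    exact h1
  · intro y v hy hv
    by_contra hne
    have := (h _ hy v hne).1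
    exact hv ⟨(abs_le.1 this).1, (abs_le.1 this).2⟩

theorem famInt_so2_mul922 (hC : H830.CartanCC) {φ : GL (Fin 2) ℂ → ℂ} (hφ : IsArchTestC φ)
    {k : GL (Fin 2) ℝ} (hk : InSO2 k) {g : GL (Fin 2) ℝ}
    (hg : 0 < (g : Matrix (Fin 2) (Fin 2) ℝ).det) :
    famInt922 φ (k * g) = famInt922 φ g ∧ famInt922 φ (g * k) = famInt922 φ g := by
  unfold famInt922
  constructor
  · refine integral_congr_ae (Filter.Eventually.of_forall fun v => ?_)
    exact phi_fam_congr922 hC hφ (by rw [det_so2_mul922 hk]; exact hg) hg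
      (det_so2_mul922 hk g) (rhoM_so2_mul922 hk g) v
  · refine integral_congr_ae (Filter.Eventually.of_forall fun v => ?_)
    exact phi_fam_congr922 hC hφ (by rw [det_mul_so2_922 hk]; exact hg) hg
      (det_mul_so2_922 hk g) (rhoM_mul_so2_922 hk g) v

/-! ## 7. The closed form of weight `±1` -/

theorem abelF1_eq922 (c : ℂ) (n : ℤ) (φ : GL (Fin 2) ℂ → ℂ) (y : GL (Fin 2) ℝ) :
    abelF1_626 c n φ y =
      if 0 < (y : Matrix (Fin 2) (Fin 2) ℝ).det then
        ((Real.sqrt 2 / 4 : ℝ) : ℂ) * c *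
          (jn626 n y /
            ((Real.sqrt (y : Matrix (Fin 2) (Fin 2) ℝ).det *
              (rhoM626 (y : Matrix (Fin 2) (Fin 2) ℝ) + 1) : ℝ) : ℂ)) * famInt922 φ y
      else 0 := rfl

theorem continuousOn_rhoR922 :
    ContinuousOn (fun y : GL (Fin 2) ℝ => rhoM626 (y : Matrix (Fin 2) (Fin 2) ℝ))
      posSet922 := by
  have hval : Continuous fun y : GL (Fin 2) ℝ => (y : Matrix (Fin 2) (Fin 2) ℝ) :=
    Units.continuous_val
  unfold rhoM626
  refine ContinuousOn.div ?_ ?_ ?_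
  · exact ((hval.matrix_transpose.matrix_mul hval).matrix_trace).continuousOn
  · exact (continuous_const.mul continuous_detR922.abs).continuousOn
  · intro y hy
    have : 0 < (y : Matrix (Fin 2) (Fin 2) ℝ).det := hy
    have h2 : 0 < |(y : Matrix (Fin 2) (Fin 2) ℝ).det| := abs_pos.2 this.ne'
    positivity

theorem continuous_holPart922 : Continuous holPart := by
  have he : ∀ i j : Fin 2, Continuous fun y : GL (Fin 2) ℝ =>
      (y : Matrix (Fin 2) (Fin 2) ℝ) i j := fun i j => Units.continuous_val.matrix_elem i j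
  unfold holPart
  exact ((Complex.continuous_ofReal.comp ((he 0 0).add (he 1 1))).add
    ((Complex.continuous_ofReal.comp ((he 1 0).sub (he 0 1))).mul continuous_const)).div_const 2

theorem continuous_jn922 (n : ℤ) : Continuous (jn626 n) := by
  unfold jn626
  by_cases h : n = 1
  · simp only [h, if_true]
    exact continuous_const.mul (Complex.continuous_conj.comp continuous_holPart922)
  · simp only [h, if_false]
    exact continuous_const.mul continuous_holPart922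

theorem continuous_abelF1_922 (c : ℂ) (n : ℤ) {φ : GL (Fin 2) ℂ → ℂ} (hφ : IsArchTestC φ) :
    Continuous (abelF1_626 c n φ) := by
  have hrho : ContinuousOn (fun y : GL (Fin 2) ℝ => rhoM626 (y : Matrix (Fin 2) (Fin 2) ℝ))
      posSet922 := continuousOn_rhoR922
  have hden : ContinuousOn (fun y : GL (Fin 2) ℝ =>
      ((Real.sqrt (y : Matrix (Fin 2) (Fin 2) ℝ).det *
        (rhoM626 (y : Matrix (Fin 2) (Fin 2) ℝ) + 1) : ℝ) : ℂ)) posSet922 :=
    Complex.continuous_ofReal.comp_continuousOn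
      ((Real.continuous_sqrt.comp continuous_detR922).continuousOn.mul
        (hrho.add continuousOn_const))
  have hden0 : ∀ y ∈ posSet922, ((Real.sqrt (y : Matrix (Fin 2) (Fin 2) ℝ).det *
        (rhoM626 (y : Matrix (Fin 2) (Fin 2) ℝ) + 1) : ℝ) : ℂ) ≠ 0 := by
    intro y hy
    have h1 : 0 < Real.sqrt (y : Matrix (Fin 2) (Fin 2) ℝ).det := Real.sqrt_pos.2 hy
    have h2 := one_le_rhoM626 _ hy
    have h3 : 0 < Real.sqrt (y : Matrix (Fin 2) (Fin 2) ℝ).det *
        (rhoM626 (y : Matrix (Fin 2) (Fin 2) ℝ) + 1) := by positivity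
    exact_mod_cast h3.ne'
  have hg : ContinuousOn (fun y : GL (Fin 2) ℝ =>
      ((Real.sqrt 2 / 4 : ℝ) : ℂ) * c *
        (jn626 n y /
          ((Real.sqrt (y : Matrix (Fin 2) (Fin 2) ℝ).det *
            (rhoM626 (y : Matrix (Fin 2) (Fin 2) ℝ) + 1) : ℝ) : ℂ)) * famInt922 φ y)
      posSet922 :=
    (continuousOn_const.mul ((continuous_jn922 n).continuousOn.div hden hden0)).mul
      (continuousOn_famInt922 hφ)
  rw [continuous_iff_continuousAt]
  intro y
  by_cases hy : 0 < (y : Matrix (Fin 2) (Fin 2) ℝ).det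
  · have hnh : posSet922 ∈ nhds y := isOpen_posSet922.mem_nhds hy
    refine (hg.continuousAt hnh).congr ?_
    filter_upwards [hnh] with z hz
    have hz' : 0 < (z : Matrix (Fin 2) (Fin 2) ℝ).det := hz
    rw [abelF1_eq922, if_pos hz']
  · have hne : (y : Matrix (Fin 2) (Fin 2) ℝ).det ≠ 0 :=
      ((Matrix.isUnit_iff_isUnit_det _).1 y.isUnit).ne_zero
    have hlt : (y : Matrix (Fin 2) (Fin 2) ℝ).det < 0 :=
      lt_of_le_of_ne (not_lt.1 hy) hne
    have hopen : IsOpen {z : GL (Fin 2) ℝ | (z : Matrix (Fin 2) (Fin 2) ℝ).det < 0} :=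
      isOpen_lt continuous_detR922 continuous_const
    have hnh : {z : GL (Fin 2) ℝ | (z : Matrix (Fin 2) (Fin 2) ℝ).det < 0} ∈ nhds y :=
      hopen.mem_nhds hlt
    refine (continuousAt_const (y := (0 : ℂ))).congr ?_
    filter_upwards [hnh] with z hz
    have hz' : ¬ 0 < (z : Matrix (Fin 2) (Fin 2) ℝ).det := not_lt.2 (le_of_lt hz)
    rw [abelF1_eq922, if_neg hz']

theorem hasCompactSupport_abelF1_922 (c : ℂ) (n : ℤ) {φ : GL (Fin 2) ℂ → ℂ}
    (hφ : IsArchTestC φ) : HasCompactSupport (abelF1_626 c n φ) := by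
  obtain ⟨V, b, d, hd, h⟩ := fam_bounds922 hφ
  refine HasCompactSupport.intro (isCompact_glBox922 b d hd) fun y hy => ?_
  by_contra hne
  have hpos : 0 < (y : Matrix (Fin 2) (Fin 2) ℝ).det := abelF1_pos626 c n φ y hne
  have hI : famInt922 φ y ≠ 0 := by
    intro h0
    apply hne
    rw [abelF1_eq922, if_pos hpos, h0, mul_zero]
  have hex : ∃ v : ℝ, φ (toGLC626 (famMat626 (y : Matrix (Fin 2) (Fin 2) ℝ) v)) ≠ 0 := by
    by_contra hno
    apply hI
    unfold famInt922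
    have : (fun v : ℝ => φ (toGLC626 (famMat626 (y : Matrix (Fin 2) (Fin 2) ℝ) v)))
        = fun _ => 0 := by
      funext v
      by_contra hv
      exact hno ⟨v, hv⟩
    rw [this, integral_zero]
  obtain ⟨v, hv⟩ := hex
  obtain ⟨-, h2, h3⟩ := h _ hpos v hv
  exact hy ⟨(y : Matrix (Fin 2) (Fin 2) ℝ), ⟨h2, h3⟩, toGLR_coe922 y⟩

theorem weight_abelF1_922 (hC : H830.CartanCC) (c : ℂ) {n : ℤ} (hn : n = 1 ∨ n = -1)
    {φ : GL (Fin 2) ℂ → ℂ} (hφ : IsArchTestC φ) (k g : GL (Fin 2) ℝ) (hk : InSO2 k) :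
    abelF1_626 c n φ (k * g) = (wtChar n k)⁻¹ * abelF1_626 c n φ g ∧
      abelF1_626 c n φ (g * k) = (wtChar n k)⁻¹ * abelF1_626 c n φ g := by
  by_cases hg : 0 < (g : Matrix (Fin 2) (Fin 2) ℝ).det
  · have hkg : 0 < ((k * g : GL (Fin 2) ℝ) : Matrix (Fin 2) (Fin 2) ℝ).det := by
      rw [det_so2_mul922 hk]; exact hg
    have hgk : 0 < ((g * k : GL (Fin 2) ℝ) : Matrix (Fin 2) (Fin 2) ℝ).det := by
      rw [det_mul_so2_922 hk]; exact hg
    obtain ⟨hI1, hI2⟩ := famInt_so2_mul922 hC hφ hk hg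
    obtain ⟨hj1, hj2⟩ := jn_so2_922 hn hk g
    constructor
    · rw [abelF1_eq922, abelF1_eq922, if_pos hkg, if_pos hg, hI1, hj1, det_so2_mul922 hk,
        rhoM_so2_mul922 hk]
      ring
    · rw [abelF1_eq922, abelF1_eq922, if_pos hgk, if_pos hg, hI2, hj2, det_mul_so2_922 hk,
        rhoM_mul_so2_922 hk]
      ring
  · have hkg : ¬ 0 < ((k * g : GL (Fin 2) ℝ) : Matrix (Fin 2) (Fin 2) ℝ).det := by
      rw [det_so2_mul922 hk]; exact hg
    have hgk : ¬ 0 < ((g * k : GL (Fin 2) ℝ) : Matrix (Fin 2) (Fin 2) ℝ).det := by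
      rw [det_mul_so2_922 hk]; exact hg
    constructor
    · rw [abelF1_eq922, abelF1_eq922, if_neg hkg, if_neg hg, mul_zero]
    · rw [abelF1_eq922, abelF1_eq922, if_neg hgk, if_neg hg, mul_zero]

/-- **T6.20a.6 F1-SOFT** (`H626.F1SoftOfC626`, verbatim). -/
theorem f1SoftOfC922 : F1SoftOfC626 := by
  intro hC c n hn φ hφ
  exact ⟨continuous_abelF1_922 c n hφ, hasCompactSupport_abelF1_922 c n hφ,
    fun k g hk => (weight_abelF1_922 hC c hn hφ k g hk).1,
    fun k g hk => (weight_abelF1_922 hC c hn hφ k g hk).2⟩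

end Fermat.Agent.LT.T6.H922

end

end
-- ===== PACK-END LT/T6/H922/F1Soft.lean

-- ===== PACK-BEGIN LT/T6/Inf/BridgeReg.lean
section





/-!
# Row LT, sub-tower T6inf (helper19): ONE regularity leaf for BOTH weights

OFF-MAIN.  Everything here is PROVED.

`regC59_of_smooth19 : H811.ExtC811 → H811.SmoothC811 → H59.RegC59`

The leaf `SmoothC811` of the station of helper811 (the eigenvalue function of a continuous joint
eigenfunction of weight `n` which does not vanish at `1` is `C²`; ALL weights `n`) gives the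
regularisation leaf `RegC59` of the station of helper59 (weight `0`) with `E = e`: for
`e' = e (g₀ ·)` the circle means around `g₀` are `prof59 e g₀ t = mExt811 m t · e g₀`.
-/

set_option autoImplicit false

open MeasureTheory
open scoped Matrix ContDiff

noncomputable section

namespace Fermat.Agent.LT.T6.Inf

theorem kR59_eq_rotG19 (θ : ℝ) : H59.kR59 θ = H811.rotG811 θ := Units.ext rfl

theorem aR59_eq_torG19 (t : ℝ) : H59.aR59 t = H811.torG811 t := Units.ext rfl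

/-- **`RegC59` from `ExtC811` and `SmoothC811`.** -/
theorem regC59_of_smooth19 (hExt : H811.ExtC811) (hSm : H811.SmoothC811) : H59.RegC59 := by
  intro e m hec hw hm g₀ hg₀
  refine ⟨e, hec, hg₀, hw, hm, ?_⟩
  set e' : GR → ℂ := fun g => e (g₀ * g) with he'
  have hec' : Continuous e' := hec.comp (continuous_const.mul continuous_id)
  have h1 : e' 1 ≠ 0 := by
    simpa [he'] using hg₀
  have hw' : HasWeight 0 e' := by
    intro θ k g hk
    simp only [he']
    rw [← mul_assoc]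
    exact hw θ k (g₀ * g) hk
  have hm' : MeanEig 0 e' m := by
    intro t ht Y hY g
    simp only [he']
    have := hm t ht Y hY (g₀ * g)
    simpa only [mul_assoc] using this
  have hcm := hExt 0 e' m hec' hw' hm'
  have hM : ContDiff ℝ 2 (H811.mExt811 m) := hSm 0 e' (H811.mExt811 m) hec' h1 hw' hcm
  have hprof : (fun t : ℝ => H59.prof59 e g₀ t) = fun t => H811.mExt811 m t * e g₀ := by
    funext t
    have h := hcm t 1
    simp only [he', mul_one] at h
    rw [← h]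
    unfold H59.prof59 H811.circMean811
    refine intervalIntegral.integral_congr ?_
    intro θ _
    have hwt : wt (-0) θ = 1 := by simp [wt]
    simp only [hwt, one_mul, one_mul, kR59_eq_rotG19, aR59_eq_torG19, mul_assoc]
  rw [hprof]
  exact hM.mul contDiff_const

end Fermat.Agent.LT.T6.Inf

end

end
-- ===== PACK-END LT/T6/Inf/BridgeReg.lean

-- ===== PACK-BEGIN LT/T6/Inf/H166/Cartan.lean
section



/-!
# Row LT, tower T6 (archimedean part), leaf T6inf.04.3a `CartanC811` (helper166, OFF-MAIN)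

`cartanC166 : H811.CartanC811` -- the Cartan decomposition of `SL₂(ℝ)`:
`g = k_α a_T k_β`, `T ≥ 0`, in the conventions of `T6/Inf/Spec.lean`
(`k_θ = [[cos θ, sin θ], [-sin θ, cos θ]]`, `a_t = diag(e^{t/2}, e^{-t/2})`).

Proof.  For `g = [[a, b], [c, d]]` put `A = ((a + d) + i (b - c)) / 2 = ρ e^{iφ}` and
`B = ((a - d) - i (b + c)) / 2 = r e^{iψ}`; `ρ² - r² = det g = 1`, so `ρ = cosh (T / 2)`,
`r = sinh (T / 2)` with `T = 2 arsinh r ≥ 0`; `α = (φ + ψ) / 2`, `β = (φ - ψ) / 2`.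
Core (Mathlib only): `exists_polar166`, `cartan_core166`.
-/

set_option autoImplicit false

open scoped Matrix

noncomputable section

namespace Fermat.Agent.LT.T6.Inf.H166

open Fermat.Agent.LT.T6.Inf Fermat.Agent.LT.T6.Inf.H811

/-- Polar coordinates in the plane. -/
theorem exists_polar166 (x y : ℝ) :
    ∃ ρ θ : ℝ, 0 ≤ ρ ∧ ρ ^ 2 = x ^ 2 + y ^ 2 ∧ x = ρ * Real.cos θ ∧ y = ρ * Real.sin θ := by
  refine ⟨‖(⟨x, y⟩ : ℂ)‖, Complex.arg ⟨x, y⟩, norm_nonneg _, ?_, ?_, ?_⟩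
  · rw [← Complex.normSq_eq_norm_sq, Complex.normSq_mk]
    ring
  · exact (Complex.norm_mul_cos_arg (⟨x, y⟩ : ℂ)).symm
  · exact (Complex.norm_mul_sin_arg (⟨x, y⟩ : ℂ)).symm

/-- The Cartan decomposition of a real `2 × 2` matrix of determinant `1`, entrywise. -/
theorem cartan_core166 (a b c d : ℝ) (h : a * d - b * c = 1) :
    ∃ α β T : ℝ, 0 ≤ T ∧
      a = Real.cos α * Real.exp (T / 2) * Real.cos β
          - Real.sin α * Real.exp (-(T / 2)) * Real.sin β ∧
      b = Real.cos α * Real.exp (T / 2) * Real.sin β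
          + Real.sin α * Real.exp (-(T / 2)) * Real.cos β ∧
      c = -(Real.sin α * Real.exp (T / 2) * Real.cos β)
          - Real.cos α * Real.exp (-(T / 2)) * Real.sin β ∧
      d = -(Real.sin α * Real.exp (T / 2) * Real.sin β)
          + Real.cos α * Real.exp (-(T / 2)) * Real.cos β := by
  obtain ⟨ρ, φ, hρ0, hρ2, hP, hQ⟩ := exists_polar166 ((a + d) / 2) ((b - c) / 2)
  obtain ⟨r, ψ, hr0, hr2, hR, hS⟩ := exists_polar166 ((a - d) / 2) (-(b + c) / 2)
  have hρr : ρ ^ 2 = 1 + r ^ 2 := by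
    rw [hρ2, hr2]
    linear_combination h
  have hρ : Real.sqrt (1 + r ^ 2) = ρ := by
    rw [← hρr]
    exact Real.sqrt_sq hρ0
  obtain ⟨T, hT⟩ : ∃ T : ℝ, T = 2 * Real.arsinh r := ⟨_, rfl⟩
  have hT2 : T / 2 = Real.arsinh r := by rw [hT]; ring
  have hT0 : 0 ≤ T := by
    rw [hT]
    have := Real.arsinh_nonneg_iff.mpr hr0
    linarith
  have hsh : Real.sinh (T / 2) = r := by rw [hT2]; exact Real.sinh_arsinh r
  have hch : Real.cosh (T / 2) = ρ := by rw [hT2, Real.cosh_arsinh, hρ]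
  have he1 : Real.exp (T / 2) = ρ + r := by rw [← Real.cosh_add_sinh, hch, hsh]
  have he2 : Real.exp (-(T / 2)) = ρ - r := by rw [← Real.cosh_sub_sinh, hch, hsh]
  obtain ⟨α, hα⟩ : ∃ α : ℝ, α = (φ + ψ) / 2 := ⟨_, rfl⟩
  obtain ⟨β, hβ⟩ : ∃ β : ℝ, β = (φ - ψ) / 2 := ⟨_, rfl⟩
  have hφ : φ = α + β := by rw [hα, hβ]; ring
  have hψ : ψ = α - β := by rw [hα, hβ]; ring
  rw [hφ, Real.cos_add] at hP
  rw [hφ, Real.sin_add] at hQ
  rw [hψ, Real.cos_sub] at hR
  rw [hψ, Real.sin_sub] at hS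
  refine ⟨α, β, T, hT0, ?_, ?_, ?_, ?_⟩
  · rw [he1, he2]
    linear_combination hP + hR
  · rw [he1, he2]
    linear_combination hQ - hS
  · rw [he1, he2]
    linear_combination -hQ - hS
  · rw [he1, he2]
    linear_combination hP - hR

/-- **T6inf.04.3a `CartanC811`.** -/
theorem cartanC166 : CartanC811 := by
  intro g hdet
  have h : (g : Matrix (Fin 2) (Fin 2) ℝ) 0 0 * (g : Matrix (Fin 2) (Fin 2) ℝ) 1 1
      - (g : Matrix (Fin 2) (Fin 2) ℝ) 0 1 * (g : Matrix (Fin 2) (Fin 2) ℝ) 1 0 = 1 := by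
    rw [← Matrix.det_fin_two]
    exact hdet
  obtain ⟨α, β, T, hT0, h00, h01, h10, h11⟩ := cartan_core166 _ _ _ _ h
  refine ⟨α, β, T, hT0, ?_⟩
  apply Units.ext
  rw [Units.val_mul, Units.val_mul, rotG_coe811, torG_coe811, rotG_coe811]
  ext i j
  fin_cases i <;> fin_cases j
  · simp only [rotR, torR, Matrix.mul_apply, Fin.sum_univ_two, Fin.zero_eta, Fin.isValue,
      Matrix.of_apply, Matrix.cons_val', Matrix.cons_val_zero, Matrix.cons_val_one,
      Matrix.cons_val_fin_one]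
    rw [h00]
    ring
  · simp only [rotR, torR, Matrix.mul_apply, Fin.sum_univ_two, Fin.zero_eta, Fin.mk_one,
      Fin.isValue, Matrix.of_apply, Matrix.cons_val', Matrix.cons_val_zero, Matrix.cons_val_one,
      Matrix.cons_val_fin_one]
    rw [h01]
    ring
  · simp only [rotR, torR, Matrix.mul_apply, Fin.sum_univ_two, Fin.zero_eta, Fin.mk_one,
      Fin.isValue, Matrix.of_apply, Matrix.cons_val', Matrix.cons_val_zero, Matrix.cons_val_one,
      Matrix.cons_val_fin_one]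
    rw [h10]
    ring
  · simp only [rotR, torR, Matrix.mul_apply, Fin.sum_univ_two, Fin.mk_one,
      Fin.isValue, Matrix.of_apply, Matrix.cons_val', Matrix.cons_val_zero, Matrix.cons_val_one,
      Matrix.cons_val_fin_one]
    rw [h11]
    ring

end Fermat.Agent.LT.T6.Inf.H166

end

end
-- ===== PACK-END LT/T6/Inf/H166/Cartan.lean

-- ===== PACK-BEGIN LT/T6/Inf/H439/PsOde.lean
section




/-!
# Row LT, sub-tower T6inf, leaf T6inf.03e `PsOdeC59` (helper439, OFF-MAIN)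

`psOdeC_h439 : H59.PsOdeC59`, VERBATIM against `LT/T6/Inf/H59/Class0Spec.lean`
(helper59@a69802d26, sha256 8ff4539241786322): `P_s(0) = 1`, `P_s` is continuous, and
`P_s'' + coth t · P_s' = (s² - 1/4) P_s` on `t > 0` (in fact `P_s` is twice differentiable on `ℝ`
and the equation holds wherever `sinh t ≠ 0`).  The calculus is in `PsOdeCore.lean` (Mathlib only):
`2π P_s = L_ν`, `ν = s - 1/2`, `ν (ν + 1) = s² - 1/4`.
-/

set_option autoImplicit false

open MeasureTheory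

noncomputable section

namespace Fermat.Agent.LT.T6.Inf.H439

open Fermat.Agent.LT.T6.Inf

/-- `P_s = (1/2π) L_{s - 1/2}`. -/
theorem sphP_eq439 (s : ℂ) (t : ℝ) :
    sphP s t = ((1 / (2 * Real.pi) : ℝ) : ℂ) * leg0_439 (s - 1 / 2) t := by
  unfold sphP leg0_439
  congr 1
  apply intervalIntegral.integral_congr
  intro u _
  exact pw_eq_cpow439 (s - 1 / 2) t u

/-- `P_s` is differentiable on `ℝ`. -/
theorem hasDerivAt_sphP439 (s : ℂ) (t : ℝ) :
    HasDerivAt (fun t : ℝ => sphP s t)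
      (((1 / (2 * Real.pi) : ℝ) : ℂ) * leg1_439 (s - 1 / 2) t) t := by
  have hfun : (fun t : ℝ => sphP s t)
      = fun t => ((1 / (2 * Real.pi) : ℝ) : ℂ) * leg0_439 (s - 1 / 2) t :=
    funext (sphP_eq439 s)
  rw [hfun]
  exact (hasDerivAt_leg0_439 (s - 1 / 2) t).const_mul _

theorem sphP_zero439 (s : ℂ) : sphP s 0 = 1 := by
  rw [sphP_eq439, leg0_zero439, ← Complex.ofReal_mul]
  have h : (1 / (2 * Real.pi) : ℝ) * (2 * Real.pi) = 1 := by
    have := Real.pi_ne_zero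
    field_simp
  rw [h, Complex.ofReal_one]

/-- **T6inf.03e `PsOdeC59`** (VERBATIM). -/
theorem psOdeC_h439 : Fermat.Agent.LT.T6.Inf.H59.PsOdeC59 := by
  intro s
  refine ⟨sphP_zero439 s,
    continuous_iff_continuousAt.2 fun t => (hasDerivAt_sphP439 s t).continuousAt,
    fun t => ((1 / (2 * Real.pi) : ℝ) : ℂ) * leg1_439 (s - 1 / 2) t,
    fun t _ => hasDerivAt_sphP439 s t, fun t ht => ?_⟩
  have hs : Real.sinh t ≠ 0 := (Real.sinh_pos_iff.2 ht).ne'
  have h2 := (hasDerivAt_leg1_439 (s - 1 / 2) t).const_mul ((1 / (2 * Real.pi) : ℝ) : ℂ)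
  have e : ((1 / (2 * Real.pi) : ℝ) : ℂ) * leg2_439 (s - 1 / 2) t
      = (s ^ 2 - 1 / 4) * sphP s t
        - ((Real.cosh t / Real.sinh t : ℝ) : ℂ)
          * (((1 / (2 * Real.pi) : ℝ) : ℂ) * leg1_439 (s - 1 / 2) t) := by
    rw [leg_ode439 _ hs, sphP_eq439]
    ring
  rw [e] at h2
  exact h2

end Fermat.Agent.LT.T6.Inf.H439

end

end
-- ===== PACK-END LT/T6/Inf/H439/PsOde.lean

-- ===== PACK-BEGIN LT/T6/Inf/H864/OdeUniq59.lean
section



/-!
# Row LT, sub-tower T6inf, leaf T6inf.03f `OdeUniqC59` (helper864)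

OFF-MAIN.  `odeUniqC864_59 : Fermat.Agent.LT.T6.Inf.H59.OdeUniqC59`, VERBATIM against helper59's
`Class0Spec.lean`; the proof is the Mathlib-only core `ode_sing_uniq864` of `OdeSing.lean`.
-/

set_option autoImplicit false

namespace Fermat.Agent.LT.T6.Inf.H864

/-- Leaf T6inf.03f: uniqueness of the regular solution at the singular point `t = 0`. -/
theorem odeUniqC864_59 : Fermat.Agent.LT.T6.Inf.H59.OdeUniqC59 :=
  fun lam y y' hy0 hy00 hd hd' => ode_sing_uniq864 lam y y' hy0 hy00 hd hd'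

end Fermat.Agent.LT.T6.Inf.H864

end
-- ===== PACK-END LT/T6/Inf/H864/OdeUniq59.lean

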