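import Mathlib
import Fermat.Agent.Pack.LT3.E13L2
import Fermat.Agent.Pack.LT3.E6L3
import Fermat.Agent.Pack.LT2.E0L1
import Fermat.Agent.Pack.LT2.E2L1
import Fermat.Agent.Pack.LT2.E3L1
import Fermat.Agent.Pack.LT3.E7L1
import Fermat.Agent.Pack.LT3.E13L3
import Fermat.Agent.Pack.LT3.E10L0
import Fermat.Agent.Pack.LT3.E12L2
import Fermat.Agent.Pack.LT3.E8L2
import Fermat.Agent.Pack.LT3.E8L0
import Fermat.Agent.Pack.LT3.E13L0
import Fermat.Agent.Pack.LT3.E15L1

set_option linter.all false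

-- ===== PACK-BEGIN LT/T6/H558/QuatSetSpec.lean
section



/-!
# Row LT, tower T6, leaf T6.18i.6b `QuatSettingC385` (registry 1424, owner helper558): SUB-SPEC

OFF-MAIN.  Definitions + frozen sub-leaf Props.  The PROVED top is in `QuatSetTop.lean`:

* `quatSetting_of558 : H159.NewtonC → H305.CptGC305 → QuatBddC558 → QuatSubC558 →
    QuatUnifC558 → QuatTorusC558 → H385.QuatSettingC385`

Imports: byte-identical copies of `T6/Spec.lean` (helper22, sha256 `8c5f2ae7…`),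
`H783/BadSpec.lean` (`c79abacc…`), `H385/{QuatSpec, DescSpec}.lean` (`03a0bab8…`, `ef4c48b7…`),
`H159/{NormSpec, VanishSpec}.lean`, `H288/HypSpec.lean`, `H305/CenNormSpec.lean` (`f00c68bd…`).

## Setting

`k'/k` quadratic extension of local fields (`QuadData385`), `σ = s`, `z ∈ k^×` NOT a norm,
`δ₀ = [[0, z], [1, 0]]`.  `D = {d ∈ M₂(k') : d δ₀ = δ₀ σ(d)} = {[[a, z σ(c)], [c, σ(a)]]}`,
`Nrd d = det d = N a - z N c ∈ k`, `Trd d = tr d = a + σ(a) ∈ k`.  `H = D^×` is the twisted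
centraliser of `δ₀` (`InTwCent s δ₀`), `H^c = {t ∈ H : |tr t| ≤ 1, |det t| = 1}`
(`InTwCentC s δ₀`).

## The sub-leaves (all TRUE statements; proofs sketched in the doc-comments)

* `QuatBddC558`   (S2): `H^c` is bounded.
* `QuatSubC558`   (S3): the twisted centraliser of `w δ₀` is contained in `H`.
* `QuatUnifC558`  (S4): `Nrd : H → k^×` takes a value of valuation `exp (-1)`.
* `QuatTorusC558` (S5): `Nrd` on the twisted centraliser `T` of `δ₁` with `N δ₁ ∼ γ`: it takes a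
  value of valuation `exp (-1)` if `k[γ]/k` is ramified, only values of even order otherwise.

Proved in `QuatSetTop.lean` (owner): `D` is a division algebra, `Nrd t` a unit ⇒ `Trd t`
integral (`H159.NewtonC`), all group-theoretic fields, the finiteness field (`H305.CptGC305`),
the representatives of `T \ H / H^c`.
-/

set_option autoImplicit false

open scoped Matrix

noncomputable section

namespace Fermat.Agent.LT.T6.H558

open Fermat.Agent.LT.T6 Fermat.Agent.LT.T6.H783 Fermat.Agent.LT.T6.H385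

/-- **S2 (`H^c` is bounded).**  There is `B` such that every `t ∈ D^×` with `|det t| = 1` has all
entries of absolute value `≤ exp B`.

Proof.  `t = [[a, z σ(c)], [c, σ(a)]]` (compare the entries of `t δ₀ = δ₀ σ(t)`; `σ² = 1`,
`z ≠ 0`), `det t = N a - z N c`.  ANISOTROPY WITH A CONSTANT:
`|N a - z N c| ≥ |4| · max (|N a|, |z N c|)`.  (If `|N a| ≠ |z N c|` the left side is the
maximum.  If `|N a| = |z N c| ≠ 0`, then `ρ = N(a/c)/z` is fixed by `σ`, `ρ = i ρ₀`, and
`|ρ₀ - 1| < |4|` would make `ρ₀ = y²` a square in `k` (Hensel / Newton for `X² - ρ₀` at `X = 1`,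
`k` complete), so that `z = N(a / (c · i y))` would be a norm.)  Hence `|a|² ≤ 1/|4|`,
`|c|² ≤ 1/|4 z|`. -/
def QuatBddC558 : Prop :=
  ∀ (k k' : Type) [Field k] [Field k'] [Valued k Γ₀] [Valued k' Γ₀] (q e : ℕ)
    (i : k →+* k') (s : k' ≃+* k'), QuadData385 k k' q e i s →
    ∀ z : k, z ≠ 0 → ¬ IsFieldNorm783 2 i s z →
    ∀ δ₀ : GL (Fin 2) k', IsQuatBase385 (i z) δ₀ →
      ∃ B : ℤ, ∀ t : GL (Fin 2) k', InTwCent s δ₀ t →
        Valued.v (t : Matrix (Fin 2) (Fin 2) k').det = 1 → entryMax t ≤ WithZero.exp B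

/-- **S3 (`T ⊂ H`).**  If `w ∈ H` and `N (w δ₀) = (w δ₀) σ(w δ₀)` is conjugate to a regular
`γ ∈ GL₂(k)`, then the twisted centraliser of `w δ₀` is contained in the twisted centraliser of
`δ₀`.

Proof.  `σ(δ₀) = δ₀`, `δ₀ σ(w) = w δ₀`, `δ₀² = z`, so `N (w δ₀) = z w²`, which is regular, hence
NOT a scalar matrix.  If `t⁻¹ (w δ₀) σ(t) = w δ₀` then `t` commutes with `N (w δ₀)` (`σ² = 1`);
`w` commutes with it as well, and the centraliser of a non-scalar `2 × 2` matrix over a field is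
commutative.  So `t w = w t` and `t⁻¹ δ₀ σ(t) = w⁻¹ t⁻¹ (w δ₀) σ(t) = δ₀`. -/
def QuatSubC558 : Prop :=
  ∀ (k k' : Type) [Field k] [Field k'] [Valued k Γ₀] [Valued k' Γ₀] (q e : ℕ)
    (i : k →+* k') (s : k' ≃+* k'), QuadData385 k k' q e i s →
    ∀ z : k, z ≠ 0 →
    ∀ (w δ₀ : GL (Fin 2) k') (γ : GL (Fin 2) k),
      IsQuatBase385 (i z) δ₀ → InTwCent s δ₀ w → IsReg γ →
      IsConj (twNorm s 2 (w * δ₀)) (Matrix.GeneralLinearGroup.map i γ) →
      ∀ t : GL (Fin 2) k', InTwCent s (w * δ₀) t → InTwCent s δ₀ t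

/-- **S4 (`ord Nrd (D^×) = ℤ`).**  There is `ρ ∈ D^×` whose reduced norm `det ρ = i ν` has
`|ν| = exp (-1)` in `k`.

Proof.  `e ∈ {1, 2}` (`e ≥ 3` gives a residue system of `k'` with `q ^ 0 = 1` element, which is
impossible).  `e = 2`: `ρ = diag (ϖ', σ ϖ')`, `ϖ'` a uniformiser of `k'`: `det ρ = N ϖ' = i ν`
(fixed by `σ`) and `|ν|² = |N ϖ'| = exp (-2)`.  `e = 1`: `ord z` is ODD: otherwise
`z = ϖ^{2j} u`, `u` a unit, and `u` is a norm (`H159.QuadUnitNormC` for the scalar matrix `u`), so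
`z` is a norm; with `ord z = 2 j + 1`: `ρ = δ₀ · (i ϖ)^{-j}`, `det ρ = i (- z ϖ^{-2j})`. -/
def QuatUnifC558 : Prop :=
  ∀ (k k' : Type) [Field k] [Field k'] [Valued k Γ₀] [Valued k' Γ₀] (q e : ℕ)
    (i : k →+* k') (s : k' ≃+* k'), QuadData385 k k' q e i s →
    ∀ z : k, z ≠ 0 → ¬ IsFieldNorm783 2 i s z →
    ∀ δ₀ : GL (Fin 2) k', IsQuatBase385 (i z) δ₀ →
      ∃ (ρ : GL (Fin 2) k') (ν : k), InTwCent s δ₀ ρ ∧
        (ρ : Matrix (Fin 2) (Fin 2) k').det = i ν ∧ Valued.v ν = WithZero.exp (-1 : ℤ)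

/-- **S5 (`Nrd` on the twisted centraliser of `δ₁`, `N δ₁ ∼ γ` regular).**  If `k[γ]/k` is
ramified (`HasRamUnif`) the twisted centraliser `T` of `δ₁` contains an element whose determinant
is `i ν` with `|ν| = exp (-1)`; otherwise the determinant of every element of `T` is `i ν` with
`ord ν` EVEN.

Proof.  `c (N δ₁) c⁻¹ = i γ`; `δ' = c δ₁ σ(c)⁻¹` has `N δ' = i γ` exactly (`σ² = 1`) and
`t ∈ T ⇔ c t c⁻¹` lies in the twisted centraliser of `δ'`, which is the image of the centraliser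
of `γ` in `GL₂(k)` (`T6.TwCentC`, proved by helper166).  So `T = c⁻¹ · i(Cent γ) · c` and
`det t = i (det t₀)`.  If `ord det t₀ = 2 j + 1` were odd, `ϖ^{-j} t₀` would commute with `γ` and
have determinant of valuation `exp (-1)`: `HasRamUnif`. -/
def QuatTorusC558 : Prop :=
  ∀ (k k' : Type) [Field k] [Field k'] [Valued k Γ₀] [Valued k' Γ₀] (q e : ℕ)
    (i : k →+* k') (s : k' ≃+* k'), QuadData385 k k' q e i s →
    ∀ (δ₁ : GL (Fin 2) k') (γ : GL (Fin 2) k), IsReg γ →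
      IsConj (twNorm s 2 δ₁) (Matrix.GeneralLinearGroup.map i γ) →
      (HasRamUnif k γ → ∃ (t : GL (Fin 2) k') (ν : k), InTwCent s δ₁ t ∧
          (t : Matrix (Fin 2) (Fin 2) k').det = i ν ∧ Valued.v ν = WithZero.exp (-1 : ℤ)) ∧
      (¬ HasRamUnif k γ → ∀ (t : GL (Fin 2) k') (ν : k), InTwCent s δ₁ t →
          (t : Matrix (Fin 2) (Fin 2) k').det = i ν → ∃ j : ℤ, Valued.v ν = WithZero.exp (2 * j))

/-! ## The leaves (hypothesis-parametrised on PROVED leaves of T6) -/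

/-- T6.18i.6b.2 (≈ 300 lines; Mathlib + T6 defs; Hensel for `X² = ρ₀` near `1`, e.g.
helper826 `exists_root826`, helper962 `exists_rootA962`). -/
def LeafQuatBdd558 : Prop := QuatBddC558

/-- T6.18i.6b.3 (≈ 200 lines; pure algebra of `2 × 2` matrices). -/
def LeafQuatSub558 : Prop := QuatSubC558

/-- T6.18i.6b.4 (≈ 250 lines; `H159.QuadUnitNormC` is PROVED: helper821 `quadUnitNormC821`). -/
def LeafQuatUnif558 : Prop := H159.QuadUnitNormC → QuatUnifC558

/-- T6.18i.6b.5 (≈ 200 lines; `T6.TwCentC` is PROVED: helper166 `twCentC166`). -/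
def LeafQuatTorus558 : Prop := TwCentC → QuatTorusC558

end Fermat.Agent.LT.T6.H558

end

end
-- ===== PACK-END LT/T6/H558/QuatSetSpec.lean

-- ===== PACK-BEGIN LT/T6/H288/IndexTop.lean
section


/-!
# Row LT, tower T6, leaf T6.12g `IndexC` (THE JACOBIAN) from `TwistKerC`, `BallIndexC`,
`ReprCardC` (helper288)

`#{b ∈ k'/𝒪' : d₁ s(b) - d₂ b ∈ ϖ^j 𝒪'} = q ^ (ord(t₁ - t₂) - l j)`, `j ≤ min(ord d₁, ord d₂)`.

* `ord d₁ ≠ ord d₂`: `v(d₁ s b - d₂ b) = max(v d₁, v d₂) v(b)`, the set is a ball, and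
  `ord(t₁ - t₂) = l min(ord d₁, ord d₂)`;
* `ord d₁ = ord d₂ = m`: `c = d₂ / d₁` is a unit with `N c = i (t₂ / t₁)`, the set is
  `ϖ^{-(m - j)} {x : s x - c x ∈ 𝒪'}` and `TwistKerC` applies.
-/

set_option autoImplicit false

noncomputable section

namespace Fermat.Agent.LT.T6.H288

open Fermat.Agent.LT.T6

section Aux

variable {k : Type} [Field k] [Valued k Γ₀]

theorem exp_mul_le_exp_iff {a b : ℤ} {w : Γ₀} :
    WithZero.exp a * w ≤ WithZero.exp b ↔ w ≤ WithZero.exp (b - a) := by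
  by_cases hw : w = 0
  · simp [hw]
  · rw [← WithZero.exp_log hw, ← WithZero.exp_add, WithZero.exp_le_exp, WithZero.exp_le_exp]
    constructor <;> intro h <;> omega

theorem v_sub_of_ordv_lt {a b : k} (ha : a ≠ 0) (hb : b ≠ 0) (h : ordv a < ordv b) :
    Valued.v (a - b) = Valued.v a := by
  apply Valuation.map_sub_eq_of_lt_left
  rw [v_eq_exp_neg_ordv ha, v_eq_exp_neg_ordv hb, WithZero.exp_lt_exp]
  omega

theorem v_sub_of_ordv_gt {a b : k} (ha : a ≠ 0) (hb : b ≠ 0) (h : ordv b < ordv a) :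
    Valued.v (a - b) = Valued.v b := by
  apply Valuation.map_sub_eq_of_lt_right
  rw [v_eq_exp_neg_ordv ha, v_eq_exp_neg_ordv hb, WithZero.exp_lt_exp]
  omega

theorem ordv_eq_of_v_eq {k₁ k₂ : Type} [Field k₁] [Field k₂] [Valued k₁ Γ₀] [Valued k₂ Γ₀]
    {x : k₁} {y : k₂} (h : Valued.v x = Valued.v y) : ordv x = ordv y := by
  unfold ordv
  rw [h]

/-- The additive subgroup `{x : v(d₁ s x - d₂ x) ≤ exp n}`. -/
def jacBall (s : k ≃+* k) (d₁ d₂ : k) (n : ℤ) : AddSubgroup k where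
  carrier := {x | Valued.v (d₁ * s x - d₂ * x) ≤ WithZero.exp n}
  zero_mem' := by simp
  add_mem' := fun {x y} hx hy => by
    have : d₁ * s (x + y) - d₂ * (x + y) = (d₁ * s x - d₂ * x) + (d₁ * s y - d₂ * y) := by
      rw [map_add]; ring
    change Valued.v (d₁ * s (x + y) - d₂ * (x + y)) ≤ WithZero.exp n
    rw [this]
    exact le_trans (Valuation.map_add _ _ _) (max_le hx hy)
  neg_mem' := fun {x} hx => by
    have : d₁ * s (-x) - d₂ * (-x) = -(d₁ * s x - d₂ * x) := by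
      rw [map_neg]; ring
    change Valued.v (d₁ * s (-x) - d₂ * (-x)) ≤ WithZero.exp n
    rw [this, Valuation.map_neg]
    exact hx

theorem mem_jacBall {s : k ≃+* k} {d₁ d₂ : k} {n : ℤ} {x : k} :
    x ∈ jacBall s d₁ d₂ n ↔ Valued.v (d₁ * s x - d₂ * x) ≤ WithZero.exp n := Iff.rfl

/-- Scaling by an `s`-fixed `g`, `v g = exp a`, maps `twistBall s c n` onto
`twistBall s c (n + a)`. -/
theorem map_mulLeft_twistBall {s : k ≃+* k} {c g : k} {a : ℤ}
    (hg : Valued.v g = WithZero.exp a) (hsg : s g = g) (n : ℤ) :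
    (twistBall s c n).map (AddMonoidHom.mulLeft g) = twistBall s c (n + a) := by
  have hg0 : g ≠ 0 := by
    intro h
    rw [h, map_zero] at hg
    exact WithZero.exp_ne_zero hg.symm
  ext y
  constructor
  · rintro ⟨x, hx, rfl⟩
    have hx' : Valued.v (s x - c * x) ≤ WithZero.exp n := hx
    change Valued.v (s (g * x) - c * (g * x)) ≤ WithZero.exp (n + a)
    have e : s (g * x) - c * (g * x) = g * (s x - c * x) := by
      rw [map_mul, hsg]; ring
    rw [e, map_mul, hg, exp_mul_le_exp_iff]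
    have : n + a - a = n := by ring
    rw [this]
    exact hx'
  · intro hy
    have hy' : Valued.v (s y - c * y) ≤ WithZero.exp (n + a) := hy
    refine ⟨g⁻¹ * y, ?_, ?_⟩
    · change Valued.v (s (g⁻¹ * y) - c * (g⁻¹ * y)) ≤ WithZero.exp n
      have e : s (g⁻¹ * y) - c * (g⁻¹ * y) = g⁻¹ * (s y - c * y) := by
        rw [map_mul, map_inv₀, hsg]; ring
      rw [e, map_mul, map_inv₀, hg, ← WithZero.exp_neg, exp_mul_le_exp_iff]
      have : n - -a = n + a := by ring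
      rw [this]
      exact hy'
    · change g * (g⁻¹ * y) = y
      rw [← mul_assoc, mul_inv_cancel₀ hg0, one_mul]

theorem ball_le_twistBall {s : k ≃+* k} (hs : ∀ y : k, Valued.v (s y) = Valued.v y) {c : k}
    (hc : Valued.v c = 1) (n : ℤ) : ball k n ≤ twistBall s c n := by
  intro x hx
  have hx' : Valued.v x ≤ WithZero.exp n := hx
  change Valued.v (s x - c * x) ≤ WithZero.exp n
  refine Valuation.map_sub_le _ ?_ ?_
  · rw [hs]; exact hx'
  · rw [map_mul, hc, one_mul]; exact hx'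

end Aux

section Main

variable {k k' : Type} [Field k] [Field k'] [Valued k Γ₀] [Valued k' Γ₀] {q l : ℕ}
  {i : k →+* k'} {s : k' ≃+* k'}

theorem ordv_i (hext : IsLocalExt k k' l 1 i s) (x : k) : ordv (i x) = ordv x :=
  ordv_eq_of_v_eq (v_i hext x)

theorem ordv_s (hext : IsLocalExt k k' l 1 i s) (x : k') : ordv (s x) = ordv x :=
  ordv_eq_of_v_eq (hext.val_s x)

omit [Valued k Γ₀] [Valued k' Γ₀] in
theorem ne_zero_of_norm_eq {d : k'} {t : k} (hd : d ≠ 0) (hN : fNorm s l d = i t) :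
    t ≠ 0 := by
  rintro rfl
  rw [map_zero] at hN
  exact fNorm_ne_zero s hd l hN

theorem ordv_of_norm_eq (hext : IsLocalExt k k' l 1 i s) {d : k'} {t : k} (hd : d ≠ 0)
    (hN : fNorm s l d = i t) : ordv t = (l : ℤ) * ordv d := by
  rw [← ordv_i hext, ← hN, ordv_fNorm s hext.val_s hd]

/-- The case `ord d₁ < ord d₂`. -/
theorem jacBall_relIndex_lt (hball : BallIndexC) (hk' : IsLocalField k' (q ^ l))
    (hext : IsLocalExt k k' l 1 i s) {d₁ d₂ : k'} {t₁ t₂ : k} (hd₁ : d₁ ≠ 0) (hd₂ : d₂ ≠ 0)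
    (hN₁ : fNorm s l d₁ = i t₁) (hN₂ : fNorm s l d₂ = i t₂) {j : ℤ}
    (hj : j ≤ ordv d₁) (hlt : ordv d₁ < ordv d₂) :
    0 ≤ ordv (t₁ - t₂) - (l : ℤ) * j ∧
      (ball k' 0).relIndex (jacBall s d₁ d₂ (-j))
        = q ^ (ordv (t₁ - t₂) - (l : ℤ) * j).toNat := by
  have hl : 0 < l := hext.cyc.pos
  have ht₁ : t₁ ≠ 0 := ne_zero_of_norm_eq hd₁ hN₁
  have ht₂ : t₂ ≠ 0 := ne_zero_of_norm_eq hd₂ hN₂
  have ho₁ := ordv_of_norm_eq hext hd₁ hN₁
  have ho₂ := ordv_of_norm_eq hext hd₂ hN₂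
  have hlt' : ordv t₁ < ordv t₂ := by
    rw [ho₁, ho₂]
    exact mul_lt_mul_of_pos_left hlt (by exact_mod_cast hl)
  have hvt : Valued.v (t₁ - t₂) = Valued.v t₁ := v_sub_of_ordv_lt ht₁ ht₂ hlt'
  have hot : ordv (t₁ - t₂) = (l : ℤ) * ordv d₁ := by
    rw [ordv_eq_of_v_eq hvt, ho₁]
  have hJ : jacBall s d₁ d₂ (-j) = ball k' (ordv d₁ - j) := by
    ext x
    rw [mem_jacBall, mem_ball]
    by_cases hx : x = 0
    · simp [hx]
    · have hsx : s x ≠ 0 := by simpa using hx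
      have h1 : d₁ * s x ≠ 0 := mul_ne_zero hd₁ hsx
      have h2 : d₂ * x ≠ 0 := mul_ne_zero hd₂ hx
      have h3 : ordv (d₁ * s x) < ordv (d₂ * x) := by
        rw [ordv_mul hd₁ hsx, ordv_mul hd₂ hx, ordv_s hext]
        omega
      rw [v_sub_of_ordv_lt h1 h2 h3, map_mul, hext.val_s, v_eq_exp_neg_ordv hd₁,
        exp_mul_le_exp_iff]
      have : -j - -ordv d₁ = ordv d₁ - j := by ring
      rw [this]
  have hn : (0 : ℤ) ≤ ordv d₁ - j := by omega
  refine ⟨?_, ?_⟩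
  · rw [hot]
    have : (l : ℤ) * ordv d₁ - (l : ℤ) * j = (l : ℤ) * (ordv d₁ - j) := by ring
    rw [this]
    positivity
  · rw [hJ, hball k' (q ^ l) hk' (ordv d₁ - j) 0 hn, hot, ← pow_mul]
    congr 1
    have h1 : (l : ℤ) * ordv d₁ - (l : ℤ) * j = (l : ℤ) * (ordv d₁ - j) := by ring
    rw [h1, sub_zero]
    zify
    rw [Int.toNat_of_nonneg hn, Int.toNat_of_nonneg (by positivity)]

/-- The case `ord d₂ < ord d₁`. -/
theorem jacBall_relIndex_gt (hball : BallIndexC) (hk' : IsLocalField k' (q ^ l))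
    (hext : IsLocalExt k k' l 1 i s) {d₁ d₂ : k'} {t₁ t₂ : k} (hd₁ : d₁ ≠ 0) (hd₂ : d₂ ≠ 0)
    (hN₁ : fNorm s l d₁ = i t₁) (hN₂ : fNorm s l d₂ = i t₂) {j : ℤ}
    (hj : j ≤ ordv d₂) (hlt : ordv d₂ < ordv d₁) :
    0 ≤ ordv (t₁ - t₂) - (l : ℤ) * j ∧
      (ball k' 0).relIndex (jacBall s d₁ d₂ (-j))
        = q ^ (ordv (t₁ - t₂) - (l : ℤ) * j).toNat := by
  have hl : 0 < l := hext.cyc.pos
  have ht₁ : t₁ ≠ 0 := ne_zero_of_norm_eq hd₁ hN₁
  have ht₂ : t₂ ≠ 0 := ne_zero_of_norm_eq hd₂ hN₂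
  have ho₁ := ordv_of_norm_eq hext hd₁ hN₁
  have ho₂ := ordv_of_norm_eq hext hd₂ hN₂
  have hlt' : ordv t₂ < ordv t₁ := by
    rw [ho₁, ho₂]
    exact mul_lt_mul_of_pos_left hlt (by exact_mod_cast hl)
  have hvt : Valued.v (t₁ - t₂) = Valued.v t₂ := v_sub_of_ordv_gt ht₁ ht₂ hlt'
  have hot : ordv (t₁ - t₂) = (l : ℤ) * ordv d₂ := by
    rw [ordv_eq_of_v_eq hvt, ho₂]
  have hJ : jacBall s d₁ d₂ (-j) = ball k' (ordv d₂ - j) := by
    ext x
    rw [mem_jacBall, mem_ball]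
    by_cases hx : x = 0
    · simp [hx]
    · have hsx : s x ≠ 0 := by simpa using hx
      have h1 : d₁ * s x ≠ 0 := mul_ne_zero hd₁ hsx
      have h2 : d₂ * x ≠ 0 := mul_ne_zero hd₂ hx
      have h3 : ordv (d₂ * x) < ordv (d₁ * s x) := by
        rw [ordv_mul hd₁ hsx, ordv_mul hd₂ hx, ordv_s hext]
        omega
      rw [v_sub_of_ordv_gt h1 h2 h3, map_mul, v_eq_exp_neg_ordv hd₂, exp_mul_le_exp_iff]
      have : -j - -ordv d₂ = ordv d₂ - j := by ring
      rw [this]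
  have hn : (0 : ℤ) ≤ ordv d₂ - j := by omega
  refine ⟨?_, ?_⟩
  · rw [hot]
    have : (l : ℤ) * ordv d₂ - (l : ℤ) * j = (l : ℤ) * (ordv d₂ - j) := by ring
    rw [this]
    positivity
  · rw [hJ, hball k' (q ^ l) hk' (ordv d₂ - j) 0 hn, hot, ← pow_mul]
    congr 1
    have h1 : (l : ℤ) * ordv d₂ - (l : ℤ) * j = (l : ℤ) * (ordv d₂ - j) := by ring
    rw [h1, sub_zero]
    zify
    rw [Int.toNat_of_nonneg hn, Int.toNat_of_nonneg (by positivity)]

/-- The case `ord d₁ = ord d₂`. -/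
theorem jacBall_relIndex_eq (htw : TwistKerC) (hball : BallIndexC) (hk : IsLocalField k q)
    (hk' : IsLocalField k' (q ^ l))
    (hext : IsLocalExt k k' l 1 i s) {d₁ d₂ : k'} {t₁ t₂ : k} (hd₁ : d₁ ≠ 0) (hd₂ : d₂ ≠ 0)
    (ht : t₁ ≠ t₂)
    (hN₁ : fNorm s l d₁ = i t₁) (hN₂ : fNorm s l d₂ = i t₂) {j : ℤ}
    (hj : j ≤ ordv d₁) (heq : ordv d₁ = ordv d₂) :
    0 ≤ ordv (t₁ - t₂) - (l : ℤ) * j ∧
      (ball k' 0).relIndex (jacBall s d₁ d₂ (-j))
        = q ^ (ordv (t₁ - t₂) - (l : ℤ) * j).toNat := by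
  have hl : 0 < l := hext.cyc.pos
  have ht₁ : t₁ ≠ 0 := ne_zero_of_norm_eq hd₁ hN₁
  have ht₂ : t₂ ≠ 0 := ne_zero_of_norm_eq hd₂ hN₂
  have ho₁ := ordv_of_norm_eq hext hd₁ hN₁
  -- the unit `c` and its norm `ν`
  set c : k' := d₂ / d₁ with hcdef
  set ν : k := t₂ / t₁ with hνdef
  have hd₁c : d₁ * c = d₂ := by rw [hcdef, mul_div_cancel₀ _ hd₁]
  have hvc : Valued.v c = 1 := by
    rw [hcdef, map_div₀, v_eq_exp_neg_ordv hd₁, v_eq_exp_neg_ordv hd₂, heq]
    exact div_self WithZero.exp_ne_zero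
  have hNc : fNorm s l c = i ν := by
    rw [hcdef, fNorm_div, hN₁, hN₂, hνdef, map_div₀]
  have hν : ν ≠ 1 := by
    intro h
    rw [hνdef, div_eq_one_iff_eq ht₁] at h
    exact ht h.symm
  have h1ν : (1 : k) - ν ≠ 0 := sub_ne_zero.2 (Ne.symm hν)
  have hvν : Valued.v ν = 1 := by
    rw [← v_i hext, ← hNc]; exact v_fNorm_of_unit hext hvc l
  have hord : 0 ≤ ordv (1 - ν) := by
    have hv1ν : Valued.v (1 - ν) ≤ WithZero.exp (-(0 : ℤ)) := by
      rw [neg_zero, WithZero.exp_zero]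
      refine Valuation.map_sub_le _ ?_ ?_
      · simp
      · rw [hvν]
    rcases v_le_exp_neg_iff.1 hv1ν with h | h
    · exact absurd h h1ν
    · exact h
  have hmul : t₁ - t₂ = (1 - ν) * t₁ := by
    rw [hνdef]; field_simp
  have hot : ordv (t₁ - t₂) = ordv (1 - ν) + (l : ℤ) * ordv d₁ := by
    rw [hmul, ordv_mul h1ν ht₁, ho₁]
  -- the scaling element
  have hn : (0 : ℤ) ≤ ordv d₁ - j := by omega
  obtain ⟨ϖ₀, hϖ₀⟩ := hk.unif
  set N : ℕ := (ordv d₁ - j).toNat with hNdef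
  have hNn : (N : ℤ) = ordv d₁ - j := Int.toNat_of_nonneg hn
  set g : k' := ((i ϖ₀) ^ N)⁻¹ with hgdef
  have hsg : s g = g := by
    rw [hgdef, map_inv₀, map_pow, hext.cyc.fix_i]
  have hvg : Valued.v g = WithZero.exp (ordv d₁ - j) := by
    rw [hgdef, map_inv₀, map_pow, v_i hext, hϖ₀, ← WithZero.exp_nsmul, ← WithZero.exp_neg,
      ← hNn]
    simp
  -- the set is a scaled twisted ball
  have hJ : jacBall s d₁ d₂ (-j) = twistBall s c (ordv d₁ - j) := by
    ext x
    rw [mem_jacBall, mem_twistBall]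
    have e : d₁ * s x - d₂ * x = d₁ * (s x - c * x) := by
      rw [← hd₁c]; ring
    rw [e, map_mul, v_eq_exp_neg_ordv hd₁, exp_mul_le_exp_iff]
    have : -j - -ordv d₁ = ordv d₁ - j := by ring
    rw [this]
  have hT : twistBall s c (ordv d₁ - j) = (twistBall s c 0).map (AddMonoidHom.mulLeft g) := by
    rw [map_mulLeft_twistBall hvg hsg, zero_add]
  have hBn : ball k' (ordv d₁ - j) = (ball k' 0).map (AddMonoidHom.mulLeft g) := by
    rw [map_mulLeft_ball hvg, zero_add]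
  have hg0 : g ≠ 0 := by
    intro h
    rw [h, map_zero] at hvg
    exact WithZero.exp_ne_zero hvg.symm
  have hstep : (ball k' (ordv d₁ - j)).relIndex (twistBall s c (ordv d₁ - j))
      = q ^ (ordv (1 - ν)).toNat := by
    rw [hT, hBn, AddSubgroup.relIndex_map_map_of_injective _ _ (mulLeft_injective hg0)]
    exact htw k k' q l i s hk hk' hext c ν hvc hNc hν
  have h01 : ball k' 0 ≤ ball k' (ordv d₁ - j) := ball_mono hn
  have h12 : ball k' (ordv d₁ - j) ≤ twistBall s c (ordv d₁ - j) :=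
    ball_le_twistBall hext.val_s hvc _
  refine ⟨?_, ?_⟩
  · rw [hot]
    have : ordv (1 - ν) + (l : ℤ) * ordv d₁ - (l : ℤ) * j
        = ordv (1 - ν) + (l : ℤ) * (ordv d₁ - j) := by ring
    rw [this]
    positivity
  · rw [hJ, ← AddSubgroup.relIndex_mul_relIndex _ _ _ h01 h12, hstep,
      hball k' (q ^ l) hk' (ordv d₁ - j) 0 hn, ← pow_mul, ← pow_add, hot]
    congr 1
    have h1 : ordv (1 - ν) + (l : ℤ) * ordv d₁ - (l : ℤ) * j
        = ordv (1 - ν) + (l : ℤ) * (ordv d₁ - j) := by ring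
    rw [h1, sub_zero]
    zify
    rw [Int.toNat_of_nonneg hn, Int.toNat_of_nonneg hord, Int.toNat_of_nonneg (by positivity)]
    ring

theorem jacBall_relIndex (htw : TwistKerC) (hball : BallIndexC) (hk : IsLocalField k q)
    (hk' : IsLocalField k' (q ^ l))
    (hext : IsLocalExt k k' l 1 i s) {d₁ d₂ : k'} {t₁ t₂ : k} (hd₁ : d₁ ≠ 0) (hd₂ : d₂ ≠ 0)
    (ht : t₁ ≠ t₂)
    (hN₁ : fNorm s l d₁ = i t₁) (hN₂ : fNorm s l d₂ = i t₂) {j : ℤ}
    (hj : j ≤ min (ordv d₁) (ordv d₂)) :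
    0 ≤ ordv (t₁ - t₂) - (l : ℤ) * j ∧
      (ball k' 0).relIndex (jacBall s d₁ d₂ (-j))
        = q ^ (ordv (t₁ - t₂) - (l : ℤ) * j).toNat := by
  have hj₁ : j ≤ ordv d₁ := le_trans hj (min_le_left _ _)
  have hj₂ : j ≤ ordv d₂ := le_trans hj (min_le_right _ _)
  rcases lt_trichotomy (ordv d₁) (ordv d₂) with h | h | h
  · exact jacBall_relIndex_lt hball hk' hext hd₁ hd₂ hN₁ hN₂ hj₁ h
  · exact jacBall_relIndex_eq htw hball hk hk' hext hd₁ hd₂ ht hN₁ hN₂ hj₁ h
  · exact jacBall_relIndex_gt hball hk' hext hd₁ hd₂ hN₁ hN₂ hj₂ h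

theorem ball_le_jacBall (hext : IsLocalExt k k' l 1 i s) {d₁ d₂ : k'} (hd₁ : d₁ ≠ 0)
    (hd₂ : d₂ ≠ 0) {j : ℤ} (hj : j ≤ min (ordv d₁) (ordv d₂)) :
    ball k' 0 ≤ jacBall s d₁ d₂ (-j) := by
  have hj₁ : j ≤ ordv d₁ := le_trans hj (min_le_left _ _)
  have hj₂ : j ≤ ordv d₂ := le_trans hj (min_le_right _ _)
  intro x hx
  have hx' : Valued.v x ≤ WithZero.exp 0 := hx
  rw [mem_jacBall]
  refine Valuation.map_sub_le _ ?_ ?_
  · rw [map_mul, hext.val_s, v_eq_exp_neg_ordv hd₁, exp_mul_le_exp_iff]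
    refine le_trans hx' (WithZero.exp_le_exp.2 ?_)
    omega
  · rw [map_mul, v_eq_exp_neg_ordv hd₂, exp_mul_le_exp_iff]
    refine le_trans hx' (WithZero.exp_le_exp.2 ?_)
    omega

end Main

/-- **T6.12g `IndexC`** from `TwistKerC`, `BallIndexC` and `ReprCardC`. -/
theorem index_of (htw : TwistKerC) (hball : BallIndexC) (hrep : ReprCardC) : IndexC := by
  intro k k' _ _ _ _ q l i s hk hk' hext d₁ d₂ t₁ t₂ hd₁ hd₂ ht hN₁ hN₂ B hB j hj
  obtain ⟨hnn, hidx⟩ := jacBall_relIndex htw hball hk hk' hext hd₁ hd₂ ht hN₁ hN₂ hj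
  have hq : 1 < q := one_lt_of_isLocalField hk
  have hset : {b : k' | b ∈ B ∧ (d₁ * s b - d₂ * b = 0 ∨ j ≤ ordv (d₁ * s b - d₂ * b))}
      = {b : k' | b ∈ B ∧ b ∈ jacBall s d₁ d₂ (-j)} := by
    ext b
    constructor
    · rintro ⟨h1, h2⟩
      exact ⟨h1, v_le_exp_neg_iff.2 h2⟩
    · rintro ⟨h1, h2⟩
      exact ⟨h1, v_le_exp_neg_iff.1 h2⟩
  have hle : ball k' 0 ≤ jacBall s d₁ d₂ (-j) := ball_le_jacBall hext hd₁ hd₂ hj
  have hne : (ball k' 0).relIndex (jacBall s d₁ d₂ (-j)) ≠ 0 := by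
    rw [hidx]
    exact pow_ne_zero _ (by omega)
  obtain ⟨hfin, hcard⟩ := hrep k' B hB _ hle hne
  rw [hset]
  refine ⟨hfin, ?_⟩
  rw [hcard, hidx]
  push_cast
  rw [← zpow_natCast, Int.toNat_of_nonneg hnn]

/-- `IndexC` from the six basic sub-leaves. -/
theorem index_of_basic (hfix : FixedModC) (h90 : Hilbert90ModC) (hball : BallIndexC)
    (hrep : ReprCardC) : IndexC :=
  index_of (twistKer_of hfix h90 hball) hball hrep

end Fermat.Agent.LT.T6.H288

end

end
-- ===== PACK-END LT/T6/H288/IndexTop.lean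

-- ===== PACK-BEGIN LT/T6/H159/Vanish.lean
section







/-!
# Row LT, tower T6, leaf T6.15 `FLVanishC` (owner helper159): current state of the assembly

`FLVanishC` is reduced to the four open sub-leaves `HypVanishC` (T6.15b), `NewtonC` (T6.15c2),
`QuadUnitNormC` (T6.15c3), `Unr2C` (T6.15c4); `SupportC` (T6.15a) and the glue are proved.
-/

set_option autoImplicit false

noncomputable section

namespace Fermat.Agent.LT.T6.H159

open Fermat.Agent.LT.T6

/-- **T6.15 `FLVanishC`** from the four open sub-leaves. -/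
theorem flVanish_of_open (hb : HypVanishC) (hNw : NewtonC) (hQ : QuadUnitNormC) (hU : Unr2C) :
    FLVanishC :=
  flVanish_of supportC hb (normCrit_of hNw hQ hU)

end Fermat.Agent.LT.T6.H159

end

end
-- ===== PACK-END LT/T6/H159/Vanish.lean

-- ===== PACK-BEGIN LT/T6/H842/EllConj.lean
section




/-!
# Row LT, tower T6, leaf T6.27 (helper842): conjugation of an elliptic element to `z_u k_θ`

OFF-MAIN.  `exists_conj842`: every `γ ∈ GL₂(ℝ)` with `disc γ < 0` is `h (z_u k_θ) h⁻¹` with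
`u = log (det γ) / 2` and `θ = thetaOf634 γ = arccos (tr γ / (2 √(det γ)))`.
-/

set_option autoImplicit false

open scoped Matrix
open MeasureTheory

noncomputable section

namespace Fermat.Agent.LT.T6.H842

open Fermat.Agent.LT.T6.H634

/-- The data of an elliptic element: `e^u cos θ = tr γ / 2`, `(e^u sin θ)² = det γ - (tr γ / 2)²`,
`e^u sin θ > 0`, `e^{2u} = det γ`. -/
theorem ell_data842 (γ : GL (Fin 2) ℝ) (hγ : disc γ < 0) :
    Real.exp (Real.log (γ : Matrix (Fin 2) (Fin 2) ℝ).det / 2) * Real.cos (thetaOf634 γ)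
        = (γ : Matrix (Fin 2) (Fin 2) ℝ).trace / 2 ∧
      0 < Real.exp (Real.log (γ : Matrix (Fin 2) (Fin 2) ℝ).det / 2) *
        Real.sin (thetaOf634 γ) ∧
      (Real.exp (Real.log (γ : Matrix (Fin 2) (Fin 2) ℝ).det / 2) *
        Real.sin (thetaOf634 γ)) ^ 2
          = (γ : Matrix (Fin 2) (Fin 2) ℝ).det - ((γ : Matrix (Fin 2) (Fin 2) ℝ).trace / 2) ^ 2 ∧
      Real.exp (Real.log (γ : Matrix (Fin 2) (Fin 2) ℝ).det / 2) ^ 2
          = (γ : Matrix (Fin 2) (Fin 2) ℝ).det := by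
  have hD := det_pos_of_disc_neg634 γ hγ
  set D := (γ : Matrix (Fin 2) (Fin 2) ℝ).det with hDdef
  set t := (γ : Matrix (Fin 2) (Fin 2) ℝ).trace with htdef
  have hs : 0 < Real.sqrt D := Real.sqrt_pos.mpr hD
  have hsq : Real.sqrt D ^ 2 = D := Real.sq_sqrt hD.le
  have hE : Real.exp (Real.log D / 2) = Real.sqrt D := by
    have h1 : Real.exp (Real.log D / 2) ^ 2 = D := by
      rw [← Real.exp_nat_mul]
      have : ((2 : ℕ) : ℝ) * (Real.log D / 2) = Real.log D := by push_cast; ring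
      rw [this, Real.exp_log hD]
    have h2 : 0 ≤ Real.exp (Real.log D / 2) := (Real.exp_pos _).le
    rw [← Real.sqrt_sq h2, h1]
  have hlt : t ^ 2 < 4 * D := by
    have : t ^ 2 - 4 * D < 0 := hγ
    linarith
  have hq : (t / (2 * Real.sqrt D)) ^ 2 < 1 := by
    rw [div_pow, div_lt_one (by positivity)]
    nlinarith
  have habs : |t / (2 * Real.sqrt D)| < 1 := (sq_lt_one_iff_abs_lt_one _).mp hq
  have h1 : -1 < t / (2 * Real.sqrt D) := (abs_lt.mp habs).1
  have h2 : t / (2 * Real.sqrt D) < 1 := (abs_lt.mp habs).2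
  have hcos : Real.cos (thetaOf634 γ) = t / (2 * Real.sqrt D) := by
    unfold thetaOf634
    exact Real.cos_arccos h1.le h2.le
  have hsin : Real.sin (thetaOf634 γ) = Real.sqrt (1 - (t / (2 * Real.sqrt D)) ^ 2) := by
    unfold thetaOf634
    exact Real.sin_arccos _
  have hpos : 0 < 1 - (t / (2 * Real.sqrt D)) ^ 2 := by linarith
  have hsinpos : 0 < Real.sin (thetaOf634 γ) := by rw [hsin]; exact Real.sqrt_pos.mpr hpos
  have hsinsq : Real.sin (thetaOf634 γ) ^ 2 = 1 - (t / (2 * Real.sqrt D)) ^ 2 := by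
    rw [hsin, Real.sq_sqrt hpos.le]
  rw [hE]
  refine ⟨?_, mul_pos hs hsinpos, ?_, hsq⟩
  · rw [hcos]; field_simp
  · rw [mul_pow, hsinsq, hsq]
    have hD0 : D ≠ 0 := hD.ne'
    have : (t / (2 * Real.sqrt D)) ^ 2 = t ^ 2 / (4 * D) := by
      rw [div_pow, mul_pow, hsq]; norm_num
    rw [this]
    field_simp
    ring

/-- **Every elliptic element is conjugate to `z_u k_θ`** (`u = log det / 2`,
`θ = thetaOf634 γ`). -/
theorem exists_conj842 (γ : GL (Fin 2) ℝ) (hγ : disc γ < 0) :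
    ∃ h : GL (Fin 2) ℝ,
      γ = h * zk (Real.log (γ : Matrix (Fin 2) (Fin 2) ℝ).det / 2) (thetaOf634 γ) * h⁻¹ := by
  obtain ⟨hp, hspos, hs2, -⟩ := ell_data842 γ hγ
  set u := Real.log (γ : Matrix (Fin 2) (Fin 2) ℝ).det / 2 with hu
  set θ := thetaOf634 γ with hθ
  set s := Real.exp u * Real.sin θ with hs
  set a := (γ : Matrix (Fin 2) (Fin 2) ℝ) 0 0 with ha
  set b := (γ : Matrix (Fin 2) (Fin 2) ℝ) 0 1 with hb
  set c := (γ : Matrix (Fin 2) (Fin 2) ℝ) 1 0 with hc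
  set d := (γ : Matrix (Fin 2) (Fin 2) ℝ) 1 1 with hd
  have htr : (γ : Matrix (Fin 2) (Fin 2) ℝ).trace = a + d := by
    rw [Matrix.trace_fin_two]
  have hdet : (γ : Matrix (Fin 2) (Fin 2) ℝ).det = a * d - b * c := by
    rw [Matrix.det_fin_two]
  rw [htr] at hp hs2
  rw [hdet] at hs2
  have hs0 : s ≠ 0 := hspos.ne'
  have hc0 : c ≠ 0 := by
    intro h0
    rw [h0] at hs2
    have : s ^ 2 = -((a - d) / 2) ^ 2 := by rw [hs2]; ring
    nlinarith [sq_nonneg ((a - d) / 2), sq_pos_of_pos hspos]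
  have hdetM : (!![1, (a - d) / (2 * s); 0, c / s] : Matrix (Fin 2) (Fin 2) ℝ).det ≠ 0 := by
    rw [Matrix.det_fin_two_of]
    simp only [one_mul, mul_zero, sub_zero]
    exact div_ne_zero hc0 hs0
  refine ⟨Matrix.GeneralLinearGroup.mkOfDetNeZero _ hdetM, ?_⟩
  rw [eq_mul_inv_iff_mul_eq]
  apply Units.ext
  rw [Units.val_mul, Units.val_mul]
  change (γ : Matrix (Fin 2) (Fin 2) ℝ) * !![1, (a - d) / (2 * s); 0, c / s]
    = !![1, (a - d) / (2 * s); 0, c / s] * zkMat u θ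
  have hγm : (γ : Matrix (Fin 2) (Fin 2) ℝ) = !![a, b; c, d] := by
    ext i j
    fin_cases i <;> fin_cases j <;> rfl
  have hzm : zkMat u θ = !![(a + d) / 2, -s; s, (a + d) / 2] := by
    unfold zkMat
    rw [hp]
  rw [hγm, hzm]
  ext i j
  fin_cases i <;> fin_cases j <;>
    simp only [Matrix.mul_apply, Fin.sum_univ_two, Matrix.of_apply, Matrix.cons_val',
      Matrix.cons_val_zero, Matrix.cons_val_one, Matrix.empty_val', Matrix.cons_val_fin_one,
      Fin.zero_eta, Fin.mk_one, Fin.isValue]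
  · field_simp
    ring
  · field_simp
    linear_combination (4 : ℝ) * hs2
  · field_simp
    ring
  · field_simp
    ring

end Fermat.Agent.LT.T6.H842

end

end
-- ===== PACK-END LT/T6/H842/EllConj.lean

-- ===== PACK-BEGIN LT/T6/H888/VolterraUniq.lean
section



/-!
# Row LT, tower T6, leaf T6.22.E (helper888): uniqueness for the Volterra equation

`volterraUniqC888 : VolterraUniqC888`.
-/

set_option autoImplicit false

open MeasureTheory Set

noncomputable section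

namespace Fermat.Agent.LT.T6.H888

/-- The iteration step. -/
theorem volterra_step888 (n : ℤ) (c : ℂ) {D : ℝ → ℂ} (_hD : Continuous D) {T : ℝ}
    (hV : ∀ t, 0 ≤ t → t ≤ T → D t = c * gL888 n D t) {K : ℝ} (hK : 0 ≤ K) (j : ℕ)
    (hb : ∀ t, 0 ≤ t → t ≤ T → ‖D t‖ ≤ K * t ^ j) :
    ∀ t, 0 ≤ t → t ≤ T → ‖D t‖ ≤ ‖c‖ * K / (j + 2) * t ^ (j + 2) := by
  intro t ht htT
  rw [hV t ht htT, norm_mul, gL_eq888]
  have h1 : ‖∫ r in (0:ℝ)..t, gLker888 n D r‖ ≤ ∫ r in (0:ℝ)..t, K * r ^ (j + 1) := by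
    apply intervalIntegral.norm_integral_le_of_norm_le ht
    · refine Filter.Eventually.of_forall (fun r hr => ?_)
      have h2 : ∀ q ∈ Ioc (0:ℝ) r, ‖D q‖ ≤ K * r ^ j := by
        intro q hq
        refine (hb q hq.1.le (hq.2.trans (hr.2.trans htT))).trans ?_
        exact mul_le_mul_of_nonneg_left (pow_le_pow_left₀ hq.1.le hq.2 j) hK
      refine (gLker_bound888 n D hr.1 h2).trans_eq ?_
      ring
    · exact Continuous.intervalIntegrable (by fun_prop) _ _
  have h3 : (∫ r in (0:ℝ)..t, K * r ^ (j + 1)) = K * t ^ (j + 2) / (j + 2) := by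
    rw [intervalIntegral.integral_const_mul, integral_pow]
    simp only [zero_pow (Nat.succ_ne_zero _), sub_zero]
    push_cast
    ring
  rw [h3] at h1
  calc ‖c‖ * ‖∫ r in (0:ℝ)..t, gLker888 n D r‖
      ≤ ‖c‖ * (K * t ^ (j + 2) / (j + 2)) := mul_le_mul_of_nonneg_left h1 (norm_nonneg _)
    _ = ‖c‖ * K / (j + 2) * t ^ (j + 2) := by ring

theorem volterra_iter888 (n : ℤ) (c : ℂ) {D : ℝ → ℂ} (hD : Continuous D) {T : ℝ}
    (hV : ∀ t, 0 ≤ t → t ≤ T → D t = c * gL888 n D t) {M : ℝ} (hM : 0 ≤ M)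
    (hb : ∀ t, 0 ≤ t → t ≤ T → ‖D t‖ ≤ M) (k : ℕ) :
    ∀ t, 0 ≤ t → t ≤ T → ‖D t‖ ≤ M * ((‖c‖ / 2) ^ k / k.factorial) * t ^ (2 * k) := by
  induction k with
  | zero => intro t ht htT; simpa using hb t ht htT
  | succ k ih =>
    intro t ht htT
    have hK : 0 ≤ M * ((‖c‖ / 2) ^ k / k.factorial) := by positivity
    have h1 := volterra_step888 n c hD hV hK (2 * k) ih t ht htT
    refine h1.trans_eq ?_
    rw [Nat.factorial_succ]
    push_cast
    have hk : (k : ℝ) + 1 ≠ 0 := by positivity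
    have hf : (k.factorial : ℝ) ≠ 0 := by positivity
    have e : 2 * (k + 1) = 2 * k + 2 := by ring
    rw [e]
    field_simp
    ring

theorem volterra_zero888 (n : ℤ) (c : ℂ) {D : ℝ → ℂ} (hD : Continuous D)
    (hV : ∀ t, 0 ≤ t → D t = c * gL888 n D t) : ∀ t, 0 ≤ t → D t = 0 := by
  intro T hT
  obtain ⟨M, hM⟩ := (isCompact_Icc (a := (0:ℝ)) (b := T)).exists_bound_of_continuousOn
    hD.continuousOn
  have hM0 : 0 ≤ M := (norm_nonneg _).trans (hM 0 ⟨le_refl _, hT⟩)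
  have h1 : ∀ k : ℕ, ‖D T‖ ≤ M * ((‖c‖ / 2 * T ^ 2) ^ k / k.factorial) := by
    intro k
    have := volterra_iter888 n c hD (T := T) (fun t ht _ => hV t ht) hM0
      (fun t ht htT => hM t ⟨ht, htT⟩) k T hT (le_refl _)
    refine this.trans_eq ?_
    rw [mul_pow, ← pow_mul]
    ring
  have h2 : Filter.Tendsto (fun k : ℕ => M * ((‖c‖ / 2 * T ^ 2) ^ k / k.factorial))
      Filter.atTop (nhds 0) := by
    have := (FloorSemiring.tendsto_pow_div_factorial_atTop (‖c‖ / 2 * T ^ 2)).const_mul M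
    simpa using this
  have h3 : ‖D T‖ ≤ 0 := ge_of_tendsto' h2 h1
  exact norm_le_zero_iff.mp h3

/-- **Leaf T6.22.E.** -/
theorem volterraUniqC888 : VolterraUniqC888 := by
  intro n _ c f g hf hg hVf hVg t ht
  have hfc := extC_cont888 hf
  have hgc := extC_cont888 hg
  have hD : Continuous (fun q => extC888 f q - extC888 g q) := hfc.sub hgc
  have hV : ∀ t, 0 ≤ t →
      (fun q => extC888 f q - extC888 g q) t
        = c * gL888 n (fun q => extC888 f q - extC888 g q) t := by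
    intro t ht
    simp only
    rw [gL_sub888 n hfc hgc ht, gL_ext888 n f ht, gL_ext888 n g ht, extC_eq888 f ht,
      extC_eq888 g ht, hVf t ht, hVg t ht]
    ring
  have h0 := volterra_zero888 n c hD hV t ht
  simp only [extC_eq888 f ht, extC_eq888 g ht] at h0
  exact sub_eq_zero.mp h0

end Fermat.Agent.LT.T6.H888

end

end
-- ===== PACK-END LT/T6/H888/VolterraUniq.lean

-- ===== PACK-BEGIN LT/T6/H904/F0Abel.lean
section





/-!
# Row LT, tower T6, sub-leaf T6.20a.9 `F0AbelOfC626` (helper904, registry row 1690)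

OFF-MAIN.  Cut: `LT/T6/H626/AbelCut.lean` of helper626 (byte-identical copy, sha256 6a4d529b)
and `H626/FamAlg.lean` (9c407f7e).  Assets (byte-identical copies): `LT/T6/H830/HCTransC.lean`
of helper830 (c283e776: `continuous_toGL830`, `rhoC_bC_zero830`, `continuous_profile830`,
`hasCompactSupport_profile830`), `LT/T6/H841/WInt.lean` of helper841 (14e77825: `rhoC_bC841`,
`norm_det_bC841`).

`f0AbelOfC904 : H626.F0AbelOfC626` VERBATIM: the Abel relation for the closed form of weight `0`.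

For `y = !![a, a x; 0, b]`: `det y = a b`, `x_v² = A² + (a/(4b)) x² + v²/2`,
`A = (a + b)/(2 √(ab))`.  With `e^ζ = √(ab)`, `e^r = √(a/b)` and the profile
`Φ(X) = φ(bC ζ 0 √(2 (max X 1 - 1)))` (an element with `|det| = e^ζ`, `rhoC = max X 1`):
`φ(M_v(y)) = Φ(x_v)` and `φ(bC ζ u 0) = Φ(cosh u)` (`CartanCC`).  The left side is
`(√2 c/4) ∫∫ Φ(x_v)/x_v dv dx = 2π c √(b/a) ∫_{X > A} Φ` (`RadInt0C626`), the right side is
`c ∫_ℂ φ(bC ζ r w) dw = 2π c e^{-r} ∫_{u > |r|} Φ(cosh u) sinh u du` (`WIntCC` with `Ψ = 1`), and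
`X = cosh u`, `cosh r = A`.
-/

set_option autoImplicit false

open scoped Matrix
open MeasureTheory

noncomputable section

namespace Fermat.Agent.LT.T6.H904

open Fermat.Agent.LT.T6 Fermat.Agent.LT.T6.H626 Fermat.Agent.LT.T6.H830

/-! ## 1. The profile -/

/-- The parameter `√(2 (max X 1 - 1))`. -/
def profT904 (X : ℝ) : ℝ := Real.sqrt (2 * (max X 1 - 1))

theorem continuous_profT904 : Continuous profT904 := by
  unfold profT904
  fun_prop

theorem profT_sq904 (X : ℝ) : profT904 X ^ 2 = 2 * (max X 1 - 1) := by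
  unfold profT904
  rw [Real.sq_sqrt]
  have : (1 : ℝ) ≤ max X 1 := le_max_right _ _
  linarith

/-- The profile `Φ(X) = φ(bC ζ 0 √(2 (max X 1 - 1)))`. -/
def prof904 (φ : GL (Fin 2) ℂ → ℂ) (ζ : ℝ) (X : ℝ) : ℂ :=
  φ (bC ζ 0 ((profT904 X : ℝ) : ℂ))

theorem continuous_bC_w904 (ζ r : ℝ) : Continuous fun w : ℂ => bC ζ r w := by
  apply continuous_toGL830
  simp only [coe_bC830]
  refine continuous_matrix fun i j => ?_
  fin_cases i <;> fin_cases j <;> simp <;> fun_prop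

theorem continuous_prof904 {φ : GL (Fin 2) ℂ → ℂ} (hφ : IsArchTestC φ) (ζ : ℝ) :
    Continuous (prof904 φ ζ) :=
  hφ.cont.comp ((continuous_bC_w904 ζ 0).comp
    (Complex.continuous_ofReal.comp continuous_profT904))

theorem rhoC_profEl904 (ζ X : ℝ) :
    rhoC (bC ζ 0 ((profT904 X : ℝ) : ℂ)) = max X 1 := by
  rw [H841.rhoC_bC841, Real.cosh_zero, Real.exp_zero, Complex.norm_real, Real.norm_eq_abs,
    sq_abs, profT_sq904]
  ring

/-- The profile vanishes for large `X`. -/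
theorem prof_eq_zero904 {φ : GL (Fin 2) ℂ → ℂ} (hφ : IsArchTestC φ) (ζ : ℝ) :
    ∃ R : ℝ, ∀ X : ℝ, R < X → prof904 φ ζ X = 0 := by
  obtain ⟨M, hM⟩ := (hφ.supp.isCompact.bddAbove_image continuous_rhoC830.continuousOn)
  have hM' : ∀ g, φ g ≠ 0 → rhoC g ≤ M := fun g hg =>
    hM ⟨g, subset_tsupport _ hg, rfl⟩
  refine ⟨max M 1, fun X hX => ?_⟩
  by_contra hne
  have h1 := hM' _ hne
  rw [rhoC_profEl904] at h1
  have h2 : M < X := lt_of_le_of_lt (le_max_left _ _) hX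
  have h3 : X ≤ max X 1 := le_max_left _ _
  linarith

/-- `φ` at an element with `|det| = e^ζ` is the profile at `rhoC`. -/
theorem phi_eq_prof904 (hC : CartanCC) {φ : GL (Fin 2) ℂ → ℂ} (hφ : IsArchTestC φ) (ζ : ℝ)
    (y : GL (Fin 2) ℂ) (hd : ‖(y : Matrix (Fin 2) (Fin 2) ℂ).det‖ = Real.exp ζ) :
    φ y = prof904 φ ζ (rhoC y) := by
  have h1 : rhoC (bC ζ 0 ((profT904 (rhoC y) : ℝ) : ℂ)) = rhoC y := by
    rw [rhoC_profEl904, max_eq_left (one_le_rhoC830 y)]
  obtain ⟨k, k', hk, hk', e⟩ := hC (bC ζ 0 ((profT904 (rhoC y) : ℝ) : ℂ)) y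
    (by rw [H841.norm_det_bC841, hd]) h1
  unfold prof904
  conv_lhs => rw [e]
  rw [hφ.right k' _ hk', hφ.left k _ hk]

theorem profile_eq_prof904 (hC : CartanCC) {φ : GL (Fin 2) ℂ → ℂ} (hφ : IsArchTestC φ)
    (ζ u : ℝ) : φ (bC ζ u 0) = prof904 φ ζ (Real.cosh u) := by
  rw [phi_eq_prof904 hC hφ ζ (bC ζ u 0) (H841.norm_det_bC841 ζ u 0), rhoC_bC_zero830]

/-! ## 2. Integrability and the substitution `X = cosh u` -/

theorem integrableOn_Ici_of_zero904 {g : ℝ → ℂ} (hg : Continuous g) {R : ℝ}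
    (h0 : ∀ X : ℝ, R < X → g X = 0) (A : ℝ) : IntegrableOn g (Set.Ici A) := by
  have h1 : IntegrableOn g (Set.Icc A (max A R)) := hg.integrableOn_Icc
  have h2 : IntegrableOn g (Set.Ioi (max A R)) := by
    refine (integrableOn_zero (s := Set.Ioi (max A R))).congr_fun ?_ measurableSet_Ioi
    intro x hx
    exact (h0 x (lt_of_le_of_lt (le_max_right _ _) hx)).symm
  refine (h1.union h2).mono_set ?_
  intro x hx
  by_cases hxR : x ≤ max A R
  · exact Or.inl ⟨hx, hxR⟩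
  · exact Or.inr (not_le.1 hxR)

theorem tendsto_cosh_atTop904 : Filter.Tendsto Real.cosh Filter.atTop Filter.atTop := by
  have h1 : Filter.Tendsto (fun x : ℝ => (x + 1) / 2) Filter.atTop Filter.atTop :=
    (Filter.tendsto_atTop_add_const_right _ 1 Filter.tendsto_id).atTop_div_const two_pos
  refine Filter.tendsto_atTop_mono (fun x => ?_) h1
  rw [Real.cosh_eq]
  have h2 := Real.add_one_le_exp x
  have h3 := Real.exp_pos (-x)
  linarith

/-- The substitution `X = cosh u` on `(ρ, ∞)`, `ρ ≥ 0`. -/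
theorem integral_cosh_subst904 {g : ℝ → ℂ} (hg : Continuous g) {R : ℝ}
    (h0 : ∀ X : ℝ, R < X → g X = 0) (ρ : ℝ) :
    (∫ u in Set.Ioi ρ, g (Real.cosh u) * ((Real.sinh u : ℝ) : ℂ))
      = ∫ X in Set.Ioi (Real.cosh ρ), g X := by
  have hsub := integral_deriv_smul_comp_Ioi (f := Real.cosh) (f' := Real.sinh) (g := g) (a := ρ)
    Real.continuous_cosh.continuousOn tendsto_cosh_atTop904
    (fun x _ => (Real.hasDerivAt_cosh x).hasDerivWithinAt)
    hg.continuousOn
    ((integrableOn_Ici_of_zero904 hg h0 1).mono_set (by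
      rintro _ ⟨x, _, rfl⟩
      exact Real.one_le_cosh x))
    (by
      have hc : Continuous fun x : ℝ => Real.sinh x • (g ∘ Real.cosh) x :=
        Real.continuous_sinh.smul (hg.comp Real.continuous_cosh)
      -- zero for large `x`
      have hz : ∀ x : ℝ, max R 1 * 2 < x → Real.sinh x • (g ∘ Real.cosh) x = 0 := by
        intro x hx
        have h1 : R < Real.cosh x := by
          have h2 := Real.add_one_le_exp x
          have h3 := Real.exp_pos (-x)
          have h4 : R ≤ max R 1 := le_max_left _ _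
          have h5 : (1 : ℝ) ≤ max R 1 := le_max_right _ _
          rw [Real.cosh_eq]
          nlinarith
        show Real.sinh x • g (Real.cosh x) = 0
        rw [h0 _ h1, smul_zero]
      have h1 : IntegrableOn (fun x : ℝ => Real.sinh x • (g ∘ Real.cosh) x)
          (Set.Icc ρ (max ρ (max R 1 * 2))) := hc.integrableOn_Icc
      have h2 : IntegrableOn (fun x : ℝ => Real.sinh x • (g ∘ Real.cosh) x)
          (Set.Ioi (max ρ (max R 1 * 2))) := by
        refine (integrableOn_zero (s := Set.Ioi (max ρ (max R 1 * 2)))).congr_fun ?_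
          measurableSet_Ioi
        intro x hx
        exact (hz x (lt_of_le_of_lt (le_max_right _ _) hx)).symm
      refine (h1.union h2).mono_set ?_
      intro x hx
      by_cases hxR : x ≤ max ρ (max R 1 * 2)
      · exact Or.inl ⟨hx, hxR⟩
      · exact Or.inr (not_le.1 hxR))
  rw [← hsub]
  refine setIntegral_congr_fun measurableSet_Ioi fun u _ => ?_
  show g (Real.cosh u) * ((Real.sinh u : ℝ) : ℂ) = Real.sinh u • g (Real.cosh u)
  rw [Complex.real_smul, mul_comm]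

/-! ## 3. The algebra at `y = !![a, a x; 0, b]` -/

theorem det_upper904 (a b x : ℝ) : (!![a, a * x; 0, b] : Matrix (Fin 2) (Fin 2) ℝ).det = a * b := by
  rw [Matrix.det_fin_two_of]
  ring

theorem xv_upper904 {a b : ℝ} (ha : 0 < a) (hb : 0 < b) (x v : ℝ) :
    xv626 (rhoM626 !![a, a * x; 0, b]) v
      = Real.sqrt (((a + b) / (2 * Real.sqrt (a * b))) ^ 2 + a / (4 * b) * x ^ 2
          + 1 / 2 * v ^ 2) := by
  have hab : 0 < a * b := mul_pos ha hb
  unfold xv626 rhoM626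
  congr 1
  rw [trace_transpose_mul626, det_upper904, abs_of_pos hab, div_pow, mul_pow,
    Real.sq_sqrt hab.le]
  simp only [Matrix.of_apply, Matrix.cons_val', Matrix.cons_val_zero, Matrix.cons_val_one,
    Matrix.empty_val', Matrix.cons_val_fin_one]
  field_simp
  ring

/-! ## 4. The leaf -/

/-- **T6.20a.9** `F0AbelOfC626`, VERBATIM. -/
theorem f0AbelOfC904 : F0AbelOfC626 := by
  intro hC hW hR c φ hφ a b ha hb u u' hu hu'
  have hab : 0 < a * b := mul_pos ha hb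
  have hsa : 0 < Real.sqrt a := Real.sqrt_pos.2 ha
  have hsb : 0 < Real.sqrt b := Real.sqrt_pos.2 hb
  have hsa2 : Real.sqrt a * Real.sqrt a = a := Real.mul_self_sqrt ha.le
  have hsb2 : Real.sqrt b * Real.sqrt b = b := Real.mul_self_sqrt hb.le
  have hsab : Real.sqrt (a * b) = Real.sqrt a * Real.sqrt b := Real.sqrt_mul ha.le b
  set ζ : ℝ := Real.log (Real.sqrt a) + Real.log (Real.sqrt b) with hζ
  set r : ℝ := Real.log (Real.sqrt a) - Real.log (Real.sqrt b) with hr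
  have e1 : Real.exp ((ζ + r) / 2) = Real.sqrt a := by
    have : (ζ + r) / 2 = Real.log (Real.sqrt a) := by rw [hζ, hr]; ring
    rw [this, Real.exp_log hsa]
  have e2 : Real.exp ((ζ - r) / 2) = Real.sqrt b := by
    have : (ζ - r) / 2 = Real.log (Real.sqrt b) := by rw [hζ, hr]; ring
    rw [this, Real.exp_log hsb]
  have eζ : Real.exp ζ = Real.sqrt (a * b) := by
    rw [hζ, Real.exp_add, Real.exp_log hsa, Real.exp_log hsb, hsab]
  have er : Real.exp r = Real.sqrt a / Real.sqrt b := by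
    rw [hr, Real.exp_sub, Real.exp_log hsa, Real.exp_log hsb]
  have ern : Real.exp (-r) = Real.sqrt b / Real.sqrt a := by
    rw [Real.exp_neg, er, inv_div]
  have hcosh : Real.cosh r = (a + b) / (2 * Real.sqrt (a * b)) := by
    rw [Real.cosh_eq, er, ern, hsab]
    have key : (Real.sqrt a / Real.sqrt b + Real.sqrt b / Real.sqrt a) / 2
        = (Real.sqrt a * Real.sqrt a + Real.sqrt b * Real.sqrt b)
          / (2 * (Real.sqrt a * Real.sqrt b)) := by
      field_simp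
    rw [key, hsa2, hsb2]
  have hA : 0 < (a + b) / (2 * Real.sqrt (a * b)) := by positivity
  have hα : 0 < a / (4 * b) := by positivity
  have hβ : (0 : ℝ) < 1 / 2 := by norm_num
  -- the profile
  have hΦc := continuous_prof904 hφ ζ
  obtain ⟨R, hΦR⟩ := prof_eq_zero904 hφ ζ
  -- the right side
  have hu'eq : ∀ w : ℂ, u' w = bC ζ r w := by
    intro w
    apply Units.ext
    rw [hu' w, coe_bC830, e1, e2]
  have hRHS : (∫ w : ℂ, φ (u' w))
      = ((2 * Real.pi * Real.exp (-r) : ℝ) : ℂ) *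
        ∫ X in Set.Ioi ((a + b) / (2 * Real.sqrt (a * b))), prof904 φ ζ X := by
    have h1 := hW φ hφ (fun _ => 1) continuousOn_const ζ r
    simp only [mul_one] at h1
    simp only [hu'eq]
    rw [h1]
    congr 1
    have h2 := integral_cosh_subst904 hΦc hΦR |r|
    rw [Real.cosh_abs, hcosh] at h2
    rw [← h2]
    refine setIntegral_congr_fun measurableSet_Ioi fun t _ => ?_
    show φ (bC ζ t 0) * ((Real.sinh t : ℝ) : ℂ) = _
    rw [profile_eq_prof904 hC hφ]
  -- the left side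
  have hdet : ∀ x : ℝ, 0 < ((u x : GL (Fin 2) ℝ) : Matrix (Fin 2) (Fin 2) ℝ).det := by
    intro x
    rw [hu x, det_upper904]
    exact hab
  have hLHS : ∀ x : ℝ, abelF0_626 c φ (u x)
      = ((Real.sqrt 2 / 4 : ℝ) : ℂ) * c *
        ∫ v : ℝ, prof904 φ ζ (Real.sqrt (((a + b) / (2 * Real.sqrt (a * b))) ^ 2
            + a / (4 * b) * x ^ 2 + 1 / 2 * v ^ 2)) /
          ((Real.sqrt (((a + b) / (2 * Real.sqrt (a * b))) ^ 2
            + a / (4 * b) * x ^ 2 + 1 / 2 * v ^ 2) : ℝ) : ℂ) := by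
    intro x
    unfold abelF0_626
    rw [if_pos (hdet x)]
    congr 1
    refine integral_congr_ae (Filter.Eventually.of_forall fun v => ?_)
    obtain ⟨-, -, hrho, hnorm⟩ := famAlg626 _ (hdet x) v
    have hxv : xv626 (rhoR (u x)) v
        = Real.sqrt (((a + b) / (2 * Real.sqrt (a * b))) ^ 2 + a / (4 * b) * x ^ 2
          + 1 / 2 * v ^ 2) := by
      rw [rhoR_eq_rhoM626, hu x, xv_upper904 ha hb]
    have hd : ‖((toGLC626 (famMat626 ((u x : GL (Fin 2) ℝ) : Matrix (Fin 2) (Fin 2) ℝ) v)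
        : GL (Fin 2) ℂ) : Matrix (Fin 2) (Fin 2) ℂ).det‖ = Real.exp ζ := by
      rw [hnorm, hu x, det_upper904, eζ]
    show φ (toGLC626 (famMat626 ((u x : GL (Fin 2) ℝ) : Matrix (Fin 2) (Fin 2) ℝ) v)) /
        ((xv626 (rhoR (u x)) v : ℝ) : ℂ) = _
    rw [phi_eq_prof904 hC hφ ζ _ hd, hrho, ← rhoR_eq_rhoM626, hxv]
  simp only [hLHS]
  rw [integral_const_mul, hR (prof904 φ ζ) hΦc ⟨R, hΦR⟩ _ _ _ hA hα hβ, hRHS]
  -- the constants
  have hsq : Real.sqrt (a / (4 * b) * (1 / 2))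
      = Real.sqrt a / (2 * Real.sqrt 2 * Real.sqrt b) := by
    have h2 : Real.sqrt 2 * Real.sqrt 2 = 2 := Real.mul_self_sqrt (by norm_num)
    have key : (Real.sqrt a / (2 * Real.sqrt 2 * Real.sqrt b)) ^ 2
        = (Real.sqrt a * Real.sqrt a)
          / (4 * (Real.sqrt 2 * Real.sqrt 2) * (Real.sqrt b * Real.sqrt b)) := by
      rw [div_pow]
      congr 1 <;> ring
    have key2 : a / (4 * b) * (1 / 2) = (Real.sqrt a / (2 * Real.sqrt 2 * Real.sqrt b)) ^ 2 := by
      rw [key, hsa2, h2, hsb2]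
      field_simp
    rw [key2, Real.sqrt_sq (by positivity)]
  have hconst : Real.sqrt 2 / 4 * (2 * Real.pi / Real.sqrt (a / (4 * b) * (1 / 2)))
      = 2 * Real.pi * Real.exp (-r) := by
    have h2 : Real.sqrt 2 * Real.sqrt 2 = 2 := Real.mul_self_sqrt (by norm_num)
    rw [hsq, ern]
    have hs2 : 0 < Real.sqrt 2 := Real.sqrt_pos.2 (by norm_num)
    field_simp
    linear_combination (2 : ℝ) * h2
  rw [← hconst]
  push_cast
  ring

end Fermat.Agent.LT.T6.H904

end

end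
-- ===== PACK-END LT/T6/H904/F0Abel.lean

-- ===== PACK-BEGIN LT/T6/Inf/H833/CartanR.lean
section




/-!
# Row LT, sub-tower T6inf, sub-leaf T6inf.03b `CartanRC59` (helper833) -- OFF-MAIN

Spec bytes: `T6/Inf/H59/Class0Spec.lean` = helper59@a69802d26 (sha256 8ff45392),
`T6/Inf/Spec.lean` (sha256 1c79e0f3), `T6/Spec.lean` (sha256 8c5f2ae7), `H670/QOut/{Api,Spec}`,
`H556/A0.lean` (sha256 66d3374a), byte-identical copies.

PROVED here: `cartanRC833 : H59.CartanRC59`, VERBATIM: every `g ∈ GL₂(ℝ)` of determinant `1` is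
`k_α a_D k_β` with `D = arcosh (chR g)`.

Proof (no diagonalisation): for `g = [[a, b], [c, d]]` put
`x₁ = (a + d) / 2`, `y₁ = (b - c) / 2`, `x₂ = (a - d) / 2`, `y₂ = (b + c) / 2`
(`g` acts on `ℂ = ℝ²` as `z ↦ A z + B z̄`, and these are the real and imaginary parts of `A`, `B`).
With `S = a² + b² + c² + d²` and `a d - b c = 1`: `x₁² + y₁² = (S + 2) / 4 = cosh² (D / 2)`,
`x₂² + y₂² = (S - 2) / 4 = sinh² (D / 2)`, because `cosh D = S / 2`.  So
`(x₁, y₁) = cosh (D / 2) (cos σ, sin σ)`, `(x₂, -y₂) = sinh (D / 2) (cos δ, sin δ)`, and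
`α = (σ + δ) / 2`, `β = (σ - δ) / 2` do it: the entries of `k_α a_D k_β` are
`cosh (D / 2) cos (α + β) ± sinh (D / 2) cos (α - β)`,
`± cosh (D / 2) sin (α + β) - sinh (D / 2) sin (α - β)`.
-/

set_option autoImplicit false

open scoped Matrix

noncomputable section

namespace Fermat.Agent.LT.T6.Inf.H833

open Fermat.Agent.LT.T6.Inf Fermat.Agent.LT.T6.Inf.H59

/-- A point of the unit circle has an angle. -/
theorem exists_angle833 (x y : ℝ) (h : x ^ 2 + y ^ 2 = 1) :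
    ∃ θ : ℝ, Real.cos θ = x ∧ Real.sin θ = y := by
  have hz : ‖(⟨x, y⟩ : ℂ)‖ = 1 := by
    rw [Complex.norm_eq_sqrt_sq_add_sq]
    simp only
    rw [h, Real.sqrt_one]
  obtain ⟨θ, hθ⟩ := (Complex.norm_eq_one_iff _).1 hz
  refine ⟨θ, ?_, ?_⟩
  · have := congrArg Complex.re hθ
    rw [Complex.exp_ofReal_mul_I_re] at this
    exact this
  · have := congrArg Complex.im hθ
    rw [Complex.exp_ofReal_mul_I_im] at this
    exact this

/-- A point of the circle of radius `|ρ|` has an angle. -/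
theorem exists_angle_radius833 (ρ x y : ℝ) (h : x ^ 2 + y ^ 2 = ρ ^ 2) :
    ∃ θ : ℝ, x = ρ * Real.cos θ ∧ y = ρ * Real.sin θ := by
  by_cases hρ : ρ = 0
  · subst hρ
    have hx : x = 0 := by nlinarith [sq_nonneg x, sq_nonneg y]
    have hy : y = 0 := by nlinarith [sq_nonneg x, sq_nonneg y]
    exact ⟨0, by simp [hx], by simp [hy]⟩
  · have h1 : (x / ρ) ^ 2 + (y / ρ) ^ 2 = 1 := by
      field_simp
      linarith
    obtain ⟨θ, hc, hs⟩ := exists_angle833 _ _ h1
    refine ⟨θ, ?_, ?_⟩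
    · rw [hc]; field_simp
    · rw [hs]; field_simp

/-- **T6inf.03b `CartanRC59`**, VERBATIM. -/
theorem cartanRC833 : CartanRC59 := by
  intro g hdet
  set a : ℝ := (g : Matrix (Fin 2) (Fin 2) ℝ) 0 0 with ha
  set b : ℝ := (g : Matrix (Fin 2) (Fin 2) ℝ) 0 1 with hb
  set c : ℝ := (g : Matrix (Fin 2) (Fin 2) ℝ) 1 0 with hc
  set d : ℝ := (g : Matrix (Fin 2) (Fin 2) ℝ) 1 1 with hd
  have hdet' : a * d - b * c = 1 := by
    rw [Matrix.det_fin_two] at hdet
    exact hdet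
  have hch : chR g = (a ^ 2 + b ^ 2 + c ^ 2 + d ^ 2) / 2 := by
    unfold chR
    rw [hdet, abs_one, mul_one]
    simp only [Fin.sum_univ_two]
    rw [← ha, ← hb, ← hc, ← hd]
    ring
  have hge : 1 ≤ chR g := by
    rw [hch]
    nlinarith [sq_nonneg (a - d), sq_nonneg (b + c)]
  set D : ℝ := Real.arcosh (chR g) with hD
  have hcosh : Real.cosh D = (a ^ 2 + b ^ 2 + c ^ 2 + d ^ 2) / 2 := by
    rw [hD, Real.cosh_arcosh hge, hch]
  set C : ℝ := Real.cosh (D / 2) with hC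
  set Sh : ℝ := Real.sinh (D / 2) with hSh
  have h2 : Real.cosh D = C ^ 2 + Sh ^ 2 := by
    have : D = 2 * (D / 2) := by ring
    rw [this, Real.cosh_two_mul]
  have h3 : C ^ 2 = Sh ^ 2 + 1 := Real.cosh_sq (D / 2)
  have hE : Real.exp (D / 2) = C + Sh := (Real.cosh_add_sinh (D / 2)).symm
  have hE' : Real.exp (-(D / 2)) = C - Sh := (Real.cosh_sub_sinh (D / 2)).symm
  have hA : ((a + d) / 2) ^ 2 + ((b - c) / 2) ^ 2 = C ^ 2 := by nlinarith
  have hB : ((a - d) / 2) ^ 2 + (-((b + c) / 2)) ^ 2 = Sh ^ 2 := by nlinarith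
  obtain ⟨σ, hσ1, hσ2⟩ := exists_angle_radius833 C _ _ hA
  obtain ⟨δ, hδ1, hδ2⟩ := exists_angle_radius833 Sh _ _ hB
  refine ⟨(σ + δ) / 2, (σ - δ) / 2, ?_⟩
  have eσ : σ = (σ + δ) / 2 + (σ - δ) / 2 := by ring
  have eδ : δ = (σ + δ) / 2 - (σ - δ) / 2 := by ring
  set α : ℝ := (σ + δ) / 2 with hα
  set β : ℝ := (σ - δ) / 2 with hβ
  rw [eσ, Real.cos_add] at hσ1
  rw [eσ, Real.sin_add] at hσ2
  rw [eδ, Real.cos_sub] at hδ1
  rw [eδ, Real.sin_sub] at hδ2
  apply Units.ext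
  rw [Units.val_mul, Units.val_mul, coe_kR59, coe_kR59, coe_aR59]
  ext i j
  fin_cases i <;> fin_cases j
  · show a = _
    simp only [rotR, torR, Matrix.mul_apply, Fin.sum_univ_two, Matrix.of_apply, Matrix.cons_val',
      Matrix.cons_val_zero, Matrix.cons_val_one, Matrix.cons_val_fin_one, Fin.zero_eta, Fin.mk_one]
    rw [hE, hE']
    linear_combination hσ1 + hδ1
  · show b = _
    simp only [rotR, torR, Matrix.mul_apply, Fin.sum_univ_two, Matrix.of_apply, Matrix.cons_val',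
      Matrix.cons_val_zero, Matrix.cons_val_one, Matrix.cons_val_fin_one, Fin.zero_eta, Fin.mk_one]
    rw [hE, hE']
    linear_combination hσ2 - hδ2
  · show c = _
    simp only [rotR, torR, Matrix.mul_apply, Fin.sum_univ_two, Matrix.of_apply, Matrix.cons_val',
      Matrix.cons_val_zero, Matrix.cons_val_one, Matrix.cons_val_fin_one, Fin.zero_eta, Fin.mk_one]
    rw [hE, hE']
    linear_combination -hσ2 - hδ2
  · show d = _
    simp only [rotR, torR, Matrix.mul_apply, Fin.sum_univ_two, Matrix.of_apply, Matrix.cons_val',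
      Matrix.cons_val_zero, Matrix.cons_val_one, Matrix.cons_val_fin_one, Fin.zero_eta, Fin.mk_one]
    rw [hE, hE']
    linear_combination hσ1 - hδ1

end Fermat.Agent.LT.T6.Inf.H833

end

end
-- ===== PACK-END LT/T6/Inf/H833/CartanR.lean

-- ===== PACK-BEGIN LT/T6/Inf/H841/SphQDD0.lean
section



/-!
# Row LT, sub-tower T6inf, leaf T6inf.04.9 `SphQDD0C811` (helper841, registry 1573)

OFF-MAIN.  `sphQDD0_841 : Fermat.Agent.LT.T6.Inf.H811.SphQDD0C811`, i.e.
`∀ s, deriv (deriv (fun t => sphQ s t)) 0 = s ^ 2 / 2 - 1 / 4`, VERBATIM vs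
`T6/Inf/H811/ClassCut.lean` (helper811@3472547ae, sha256 `fb653191…`).

Proof: differentiate twice under the integral sign.  With `a = cosh t + sinh t cos u > 0`,
`q = ∂_t a / a` (so `∂_t q = 1 - q²`), `b = cosh (t/2) + sinh (t/2) cos u`, `c = s - 1`,
`E = a^c = exp (c log a)`:

    I  = E b,   ∂_t I = E (c q b + b'),
    ∂_t² I = E (c q (c q b + b') + c ((1 - q²) b + q b') + b / 4),

and at `t = 0`: `∂_t² I = c² cos² u + c + 1/4`, with mean `c²/2 + c + 1/4 = s²/2 - 1/4`.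
Also exported: `deriv_sphQ841` (the first derivative as an integral, all `t`).
-/

set_option autoImplicit false

open MeasureTheory

noncomputable section

namespace Fermat.Agent.LT.T6.Inf.H841

open Fermat.Agent.LT.T6.Inf

/-! ## 0. Differentiation under the interval integral (jointly continuous derivative) -/

theorem hasDerivAt_intervalIntegral841 (F F' : ℝ → ℝ → ℂ)
    (hF : ∀ t u, HasDerivAt (fun x => F x u) (F' t u) t)
    (hFc : ∀ t, Continuous (F t))
    (hF'c : Continuous (Function.uncurry F')) (a b t₀ : ℝ) :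
    HasDerivAt (fun t => ∫ u in a..b, F t u) (∫ u in a..b, F' t₀ u) t₀ := by
  have hK : IsCompact (Metric.closedBall t₀ 1 ×ˢ Set.uIcc a b) :=
    (isCompact_closedBall _ _).prod isCompact_uIcc
  obtain ⟨C, hC⟩ := hK.exists_bound_of_continuousOn (f := Function.uncurry F') hF'c.continuousOn
  refine (intervalIntegral.hasDerivAt_integral_of_dominated_loc_of_deriv_le
    (F := F) (F' := F') (bound := fun _ => C) (s := Metric.closedBall t₀ 1)
    (Metric.closedBall_mem_nhds _ one_pos) ?_ ?_ ?_ ?_ ?_ ?_).2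
  · exact Filter.Eventually.of_forall fun t => (hFc t).aestronglyMeasurable
  · exact (hFc t₀).intervalIntegrable _ _
  · have h : Continuous (F' t₀) := hF'c.comp (Continuous.prodMk continuous_const continuous_id)
    exact h.aestronglyMeasurable
  · refine Filter.Eventually.of_forall fun u hu t ht => ?_
    exact hC (t, u) ⟨ht, Set.uIoc_subset_uIcc hu⟩
  · exact intervalIntegrable_const
  · exact Filter.Eventually.of_forall fun u _ t _ => hF t u

/-! ## 1. The building blocks -/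

/-- `a = cosh t + sinh t cos u`. -/
def aF841 (t u : ℝ) : ℝ := Real.cosh t + Real.sinh t * Real.cos u

/-- `∂_t a = sinh t + cosh t cos u`. -/
def aD841 (t u : ℝ) : ℝ := Real.sinh t + Real.cosh t * Real.cos u

/-- `b = cosh (t/2) + sinh (t/2) cos u`. -/
def bF841 (t u : ℝ) : ℝ := Real.cosh (t / 2) + Real.sinh (t / 2) * Real.cos u

/-- `∂_t b = (sinh (t/2) + cosh (t/2) cos u) / 2`. -/
def bD841 (t u : ℝ) : ℝ := (Real.sinh (t / 2) + Real.cosh (t / 2) * Real.cos u) / 2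

/-- `q = ∂_t a / a`. -/
def qF841 (t u : ℝ) : ℝ := aD841 t u / aF841 t u

/-- `E = a ^ c = exp (log a · c)`. -/
def eF841 (c : ℂ) (t u : ℝ) : ℂ := Complex.exp (((Real.log (aF841 t u) : ℝ) : ℂ) * c)

/-- The integrand of `sphQ` (`c = s - 1`). -/
def i0F841 (c : ℂ) (t u : ℝ) : ℂ := eF841 c t u * ((bF841 t u : ℝ) : ℂ)

/-- Its first `t`-derivative. -/
def i1F841 (c : ℂ) (t u : ℝ) : ℂ :=
  eF841 c t u * (c * ((qF841 t u * bF841 t u : ℝ) : ℂ) + ((bD841 t u : ℝ) : ℂ))

/-- Its second `t`-derivative. -/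
def i2F841 (c : ℂ) (t u : ℝ) : ℂ :=
  eF841 c t u * (c * ((qF841 t u : ℝ) : ℂ) *
      (c * ((qF841 t u * bF841 t u : ℝ) : ℂ) + ((bD841 t u : ℝ) : ℂ))
    + (c * (((1 - qF841 t u ^ 2) * bF841 t u + qF841 t u * bD841 t u : ℝ) : ℂ)
      + ((bF841 t u / 4 : ℝ) : ℂ)))

theorem aF_pos841 (t u : ℝ) : 0 < aF841 t u := by
  unfold aF841
  have h1 : |Real.sinh t * Real.cos u| ≤ |Real.sinh t| := by
    rw [abs_mul]
    exact mul_le_of_le_one_right (abs_nonneg _) (Real.abs_cos_le_one u)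
  have h2 : |Real.sinh t| < Real.cosh t := by
    have h3 : Real.sinh t ^ 2 < Real.cosh t ^ 2 := by
      rw [Real.cosh_sq]; linarith
    have := abs_lt_of_sq_lt_sq h3 (Real.cosh_pos t).le
    exact this
  have h4 := neg_abs_le (Real.sinh t * Real.cos u)
  linarith

theorem aF_ne841 (t u : ℝ) : aF841 t u ≠ 0 := (aF_pos841 t u).ne'

/-! ## 2. Derivatives in `t` -/

theorem hasDerivAt_aF841 (t u : ℝ) : HasDerivAt (fun x => aF841 x u) (aD841 t u) t := by
  unfold aF841 aD841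
  exact (Real.hasDerivAt_cosh t).add ((Real.hasDerivAt_sinh t).mul_const _)

theorem hasDerivAt_aD841 (t u : ℝ) : HasDerivAt (fun x => aD841 x u) (aF841 t u) t := by
  unfold aF841 aD841
  exact (Real.hasDerivAt_sinh t).add ((Real.hasDerivAt_cosh t).mul_const _)

theorem hasDerivAt_half841 (t : ℝ) : HasDerivAt (fun x : ℝ => x / 2) (1 / 2) t := by
  simpa using (hasDerivAt_id t).div_const 2

theorem hasDerivAt_bF841 (t u : ℝ) : HasDerivAt (fun x => bF841 x u) (bD841 t u) t := by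
  unfold bF841 bD841
  have h1 : HasDerivAt (fun x : ℝ => Real.cosh (x / 2)) (Real.sinh (t / 2) * (1 / 2)) t :=
    (hasDerivAt_half841 t).cosh
  have h2 : HasDerivAt (fun x : ℝ => Real.sinh (x / 2)) (Real.cosh (t / 2) * (1 / 2)) t :=
    (hasDerivAt_half841 t).sinh
  have h := h1.add (h2.mul_const (Real.cos u))
  refine h.congr_deriv ?_
  ring

theorem hasDerivAt_bD841 (t u : ℝ) : HasDerivAt (fun x => bD841 x u) (bF841 t u / 4) t := by
  unfold bF841 bD841
  have h1 : HasDerivAt (fun x : ℝ => Real.cosh (x / 2)) (Real.sinh (t / 2) * (1 / 2)) t :=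
    (hasDerivAt_half841 t).cosh
  have h2 : HasDerivAt (fun x : ℝ => Real.sinh (x / 2)) (Real.cosh (t / 2) * (1 / 2)) t :=
    (hasDerivAt_half841 t).sinh
  have h := (h2.add (h1.mul_const (Real.cos u))).div_const 2
  refine h.congr_deriv ?_
  ring

theorem hasDerivAt_qF841 (t u : ℝ) : HasDerivAt (fun x => qF841 x u) (1 - qF841 t u ^ 2) t := by
  have h := (hasDerivAt_aD841 t u).div (hasDerivAt_aF841 t u) (aF_ne841 t u)
  unfold qF841
  refine h.congr_deriv ?_
  have := aF_ne841 t u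
  field_simp

theorem hasDerivAt_eF841 (c : ℂ) (t u : ℝ) :
    HasDerivAt (fun x => eF841 c x u) (eF841 c t u * (c * ((qF841 t u : ℝ) : ℂ))) t := by
  have h1 : HasDerivAt (fun x => Real.log (aF841 x u)) (qF841 t u) t := by
    have := (hasDerivAt_aF841 t u).log (aF_ne841 t u)
    exact this
  have h2 : HasDerivAt (fun x => ((Real.log (aF841 x u) : ℝ) : ℂ) * c)
      (((qF841 t u : ℝ) : ℂ) * c) t := (h1.ofReal_comp).mul_const c
  have h3 := h2.cexp
  unfold eF841
  refine h3.congr_deriv ?_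
  ring

theorem hasDerivAt_i0F841 (c : ℂ) (t u : ℝ) :
    HasDerivAt (fun x => i0F841 c x u) (i1F841 c t u) t := by
  have h := (hasDerivAt_eF841 c t u).mul ((hasDerivAt_bF841 t u).ofReal_comp)
  unfold i0F841 i1F841
  refine h.congr_deriv ?_
  push_cast
  ring

theorem hasDerivAt_i1F841 (c : ℂ) (t u : ℝ) :
    HasDerivAt (fun x => i1F841 c x u) (i2F841 c t u) t := by
  have hqb : HasDerivAt (fun x => qF841 x u * bF841 x u)
      ((1 - qF841 t u ^ 2) * bF841 t u + qF841 t u * bD841 t u) t :=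
    (hasDerivAt_qF841 t u).mul (hasDerivAt_bF841 t u)
  have hP : HasDerivAt
      (fun x => c * ((qF841 x u * bF841 x u : ℝ) : ℂ) + ((bD841 x u : ℝ) : ℂ))
      (c * (((1 - qF841 t u ^ 2) * bF841 t u + qF841 t u * bD841 t u : ℝ) : ℂ)
        + ((bF841 t u / 4 : ℝ) : ℂ)) t :=
    ((hqb.ofReal_comp).const_mul c).add ((hasDerivAt_bD841 t u).ofReal_comp)
  have h := (hasDerivAt_eF841 c t u).mul hP
  unfold i1F841 i2F841
  refine h.congr_deriv ?_
  ring

/-! ## 3. Joint continuity -/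

theorem continuous_aF841 : Continuous (fun p : ℝ × ℝ => aF841 p.1 p.2) := by
  unfold aF841
  fun_prop

theorem continuous_aD841 : Continuous (fun p : ℝ × ℝ => aD841 p.1 p.2) := by
  unfold aD841
  fun_prop

theorem continuous_bF841 : Continuous (fun p : ℝ × ℝ => bF841 p.1 p.2) := by
  unfold bF841
  fun_prop

theorem continuous_bD841 : Continuous (fun p : ℝ × ℝ => bD841 p.1 p.2) := by
  unfold bD841
  fun_prop

theorem continuous_qF841 : Continuous (fun p : ℝ × ℝ => qF841 p.1 p.2) := by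
  unfold qF841
  exact continuous_aD841.div continuous_aF841 (fun p => aF_ne841 p.1 p.2)

theorem continuous_eF841 (c : ℂ) : Continuous (fun p : ℝ × ℝ => eF841 c p.1 p.2) := by
  unfold eF841
  exact Complex.continuous_exp.comp
    ((Complex.continuous_ofReal.comp
      (continuous_aF841.log (fun p => aF_ne841 p.1 p.2))).mul continuous_const)

theorem continuous_i0F841 (c : ℂ) : Continuous (fun p : ℝ × ℝ => i0F841 c p.1 p.2) := by
  unfold i0F841
  exact (continuous_eF841 c).mul (Complex.continuous_ofReal.comp continuous_bF841)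

theorem continuous_i1F841 (c : ℂ) : Continuous (fun p : ℝ × ℝ => i1F841 c p.1 p.2) := by
  unfold i1F841
  exact (continuous_eF841 c).mul
    ((continuous_const.mul
      (Complex.continuous_ofReal.comp (continuous_qF841.mul continuous_bF841))).add
      (Complex.continuous_ofReal.comp continuous_bD841))

theorem continuous_i2F841 (c : ℂ) : Continuous (fun p : ℝ × ℝ => i2F841 c p.1 p.2) := by
  unfold i2F841
  have hq : Continuous (fun p : ℝ × ℝ => ((qF841 p.1 p.2 : ℝ) : ℂ)) :=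
    Complex.continuous_ofReal.comp continuous_qF841
  have h1 : Continuous (fun p : ℝ × ℝ =>
      c * ((qF841 p.1 p.2 * bF841 p.1 p.2 : ℝ) : ℂ) + ((bD841 p.1 p.2 : ℝ) : ℂ)) :=
    (continuous_const.mul
      (Complex.continuous_ofReal.comp (continuous_qF841.mul continuous_bF841))).add
      (Complex.continuous_ofReal.comp continuous_bD841)
  have h2 : Continuous (fun p : ℝ × ℝ =>
      (((1 - qF841 p.1 p.2 ^ 2) * bF841 p.1 p.2 + qF841 p.1 p.2 * bD841 p.1 p.2 : ℝ) : ℂ)) :=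
    Complex.continuous_ofReal.comp
      ((((continuous_const.sub (continuous_qF841.pow 2)).mul continuous_bF841)).add
        (continuous_qF841.mul continuous_bD841))
  have h3 : Continuous (fun p : ℝ × ℝ => ((bF841 p.1 p.2 / 4 : ℝ) : ℂ)) :=
    Complex.continuous_ofReal.comp (continuous_bF841.div_const 4)
  exact (continuous_eF841 c).mul
    (((continuous_const.mul hq).mul h1).add ((continuous_const.mul h2).add h3))

theorem continuous_slice841 {G : ℝ → ℝ → ℂ} (h : Continuous (fun p : ℝ × ℝ => G p.1 p.2))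
    (t : ℝ) : Continuous (G t) :=
  h.comp (Continuous.prodMk continuous_const continuous_id)

/-! ## 4. `sphQ` and its derivatives as integrals -/

theorem cpow_eq_eF841 (c : ℂ) (t u : ℝ) :
    (((Real.cosh t + Real.sinh t * Real.cos u : ℝ) : ℂ)) ^ c = eF841 c t u := by
  have hpos : 0 < Real.cosh t + Real.sinh t * Real.cos u := aF_pos841 t u
  have hne : (((Real.cosh t + Real.sinh t * Real.cos u : ℝ) : ℂ)) ≠ 0 :=
    Complex.ofReal_ne_zero.2 hpos.ne'
  rw [Complex.cpow_def_of_ne_zero hne, ← Complex.ofReal_log hpos.le]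
  rfl

theorem sphQ_eq841 (s : ℂ) (t : ℝ) :
    sphQ s t = (((1 / (2 * Real.pi) : ℝ)) : ℂ) * ∫ u in (0 : ℝ)..(2 * Real.pi), i0F841 (s - 1) t u := by
  unfold sphQ
  congr 1
  refine intervalIntegral.integral_congr fun u _ => ?_
  simp only [i0F841, bF841]
  rw [cpow_eq_eF841]

theorem hasDerivAt_int_i0F841 (c : ℂ) (t : ℝ) :
    HasDerivAt (fun x => ∫ u in (0 : ℝ)..(2 * Real.pi), i0F841 c x u)
      (∫ u in (0 : ℝ)..(2 * Real.pi), i1F841 c t u) t :=
  hasDerivAt_intervalIntegral841 (i0F841 c) (i1F841 c) (hasDerivAt_i0F841 c)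
    (continuous_slice841 (continuous_i0F841 c)) (continuous_i1F841 c) _ _ t

theorem hasDerivAt_int_i1F841 (c : ℂ) (t : ℝ) :
    HasDerivAt (fun x => ∫ u in (0 : ℝ)..(2 * Real.pi), i1F841 c x u)
      (∫ u in (0 : ℝ)..(2 * Real.pi), i2F841 c t u) t :=
  hasDerivAt_intervalIntegral841 (i1F841 c) (i2F841 c) (hasDerivAt_i1F841 c)
    (continuous_slice841 (continuous_i1F841 c)) (continuous_i2F841 c) _ _ t

/-- The first derivative of `sphQ s` (all `t`). -/
theorem hasDerivAt_sphQ841 (s : ℂ) (t : ℝ) :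
    HasDerivAt (fun x : ℝ => sphQ s x)
      ((((1 / (2 * Real.pi) : ℝ)) : ℂ) * ∫ u in (0 : ℝ)..(2 * Real.pi), i1F841 (s - 1) t u) t := by
  have h := (hasDerivAt_int_i0F841 (s - 1) t).const_mul (((1 / (2 * Real.pi) : ℝ)) : ℂ)
  have e : (fun x : ℝ => sphQ s x)
      = fun x => (((1 / (2 * Real.pi) : ℝ)) : ℂ) * ∫ u in (0 : ℝ)..(2 * Real.pi), i0F841 (s - 1) x u :=
    funext fun x => sphQ_eq841 s x
  rw [e]
  exact h

theorem deriv_sphQ841 (s : ℂ) :
    deriv (fun x : ℝ => sphQ s x)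
      = fun t => (((1 / (2 * Real.pi) : ℝ)) : ℂ) *
          ∫ u in (0 : ℝ)..(2 * Real.pi), i1F841 (s - 1) t u :=
  funext fun t => (hasDerivAt_sphQ841 s t).deriv

/-- The second derivative of `sphQ s` (all `t`). -/
theorem hasDerivAt_deriv_sphQ841 (s : ℂ) (t : ℝ) :
    HasDerivAt (deriv (fun x : ℝ => sphQ s x))
      ((((1 / (2 * Real.pi) : ℝ)) : ℂ) * ∫ u in (0 : ℝ)..(2 * Real.pi), i2F841 (s - 1) t u) t := by
  rw [deriv_sphQ841]
  exact (hasDerivAt_int_i1F841 (s - 1) t).const_mul _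

/-! ## 5. The value at `t = 0` -/

theorem i2F_zero841 (c : ℂ) (u : ℝ) :
    i2F841 c 0 u = c ^ 2 * ((Real.cos u ^ 2 : ℝ) : ℂ) + (c + 1 / 4) := by
  have ha : aF841 0 u = 1 := by simp [aF841]
  have hq : qF841 0 u = Real.cos u := by simp [qF841, aD841, ha]
  have hb : bF841 0 u = 1 := by simp [bF841]
  have hbd : bD841 0 u = Real.cos u / 2 := by simp [bD841]
  have he : eF841 c 0 u = 1 := by simp [eF841, ha]
  unfold i2F841
  rw [he, hq, hb, hbd]
  push_cast
  ring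

theorem integral_i2F_zero841 (c : ℂ) :
    (∫ u in (0 : ℝ)..(2 * Real.pi), i2F841 c 0 u)
      = c ^ 2 * (Real.pi : ℂ) + (c + 1 / 4) * ((2 * Real.pi : ℝ) : ℂ) := by
  have e : (fun u => i2F841 c 0 u)
      = fun u => c ^ 2 * ((Real.cos u ^ 2 : ℝ) : ℂ) + (c + 1 / 4) :=
    funext fun u => i2F_zero841 c u
  have hcos : (∫ u in (0 : ℝ)..(2 * Real.pi), Real.cos u ^ 2) = Real.pi := by
    rw [integral_cos_sq]
    simp
  have hint : IntervalIntegrable (fun u : ℝ => c ^ 2 * ((Real.cos u ^ 2 : ℝ) : ℂ))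
      volume 0 (2 * Real.pi) := by
    apply Continuous.intervalIntegrable
    fun_prop
  rw [e, intervalIntegral.integral_add hint intervalIntegrable_const,
    intervalIntegral.integral_const_mul, intervalIntegral.integral_ofReal, hcos,
    intervalIntegral.integral_const]
  simp only [sub_zero, Complex.real_smul]
  ring

/-- **T6inf.04.9 DD0.**  `(sphQ s)''(0) = s²/2 - 1/4`. -/
theorem sphQDD0_841 : H811.SphQDD0C811 := by
  intro s
  rw [(hasDerivAt_deriv_sphQ841 s 0).deriv, integral_i2F_zero841]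
  have hpi : (Real.pi : ℂ) ≠ 0 := by exact_mod_cast Real.pi_ne_zero
  push_cast
  field_simp
  ring

end Fermat.Agent.LT.T6.Inf.H841

end

end
-- ===== PACK-END LT/T6/Inf/H841/SphQDD0.lean

-- ===== PACK-BEGIN LT/T6/Inf/H965/ProdAlg.lean
section


/-!
# Row LT, sub-tower T6inf, leaf T6inf.04.3b `H811.ProdOfCartanC811` (helper965), part 1: algebra
— OFF-MAIN

* `k_θ` is a continuous one-parameter group of period `2π`, `a_t` is continuous;
* `N(g) = ∑ g_{ij}²` is invariant under the rotations on both sides, `N(a_T) = 2 cosh T`,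
  `N(a_u k_θ a_t) = 2 chX811 u t θ`;
* `j(g) = (g₀₀ + g₁₁) + i (g₀₁ - g₁₀)`: `j(k_a g) = j(g k_a) = e^{ia} j(g)`,
  `j(a_T) = 2 cosh(T/2)`, `j(a_u k_θ a_t) = 2 [cosh((u+t)/2) cos θ + i cosh((u-t)/2) sin θ]`.
-/

set_option autoImplicit false

open MeasureTheory
open scoped Matrix

noncomputable section

namespace Fermat.Agent.LT.T6.Inf.H965

open Fermat.Agent.LT.T6.Inf Fermat.Agent.LT.T6.Inf.H811

/-! ## The rotations and the torus -/

theorem rotR_add965 (a b : ℝ) : rotR (a + b) = rotR a * rotR b := by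
  unfold rotR
  ext i j
  fin_cases i <;> fin_cases j <;>
    simp [Matrix.mul_apply, Fin.sum_univ_two, Real.cos_add, Real.sin_add] <;> ring

theorem torR_add965 (a b : ℝ) : torR (a + b) = torR a * torR b := by
  unfold torR
  have h1 : Real.exp ((a + b) / 2) = Real.exp (a / 2) * Real.exp (b / 2) := by
    rw [← Real.exp_add]; congr 1; ring
  have h2 : Real.exp (-((a + b) / 2)) = Real.exp (-(a / 2)) * Real.exp (-(b / 2)) := by
    rw [← Real.exp_add]; congr 1; ring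
  ext i j
  fin_cases i <;> fin_cases j <;> simp [Matrix.mul_apply, Fin.sum_univ_two, h1, h2]

theorem rotR_zero965 : rotR 0 = 1 := by
  unfold rotR
  ext i j
  fin_cases i <;> fin_cases j <;> simp

theorem torR_zero965 : torR 0 = 1 := by
  unfold torR
  ext i j
  fin_cases i <;> fin_cases j <;> simp

theorem rotG_add965 (a b : ℝ) : rotG811 (a + b) = rotG811 a * rotG811 b :=
  Units.ext (rotR_add965 a b)

theorem torG_add965 (a b : ℝ) : torG811 (a + b) = torG811 a * torG811 b :=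
  Units.ext (torR_add965 a b)

theorem rotG_zero965 : rotG811 0 = 1 := Units.ext rotR_zero965

theorem torG_zero965 : torG811 0 = 1 := Units.ext torR_zero965

theorem rotG_inv965 (a : ℝ) : (rotG811 a)⁻¹ = rotG811 (-a) := by
  apply inv_eq_of_mul_eq_one_right
  rw [← rotG_add965, add_neg_cancel, rotG_zero965]

theorem torG_inv965 (a : ℝ) : (torG811 a)⁻¹ = torG811 (-a) := by
  apply inv_eq_of_mul_eq_one_right
  rw [← torG_add965, add_neg_cancel, torG_zero965]

theorem rotG_periodic965 (a : ℝ) : rotG811 (a + 2 * Real.pi) = rotG811 a := by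
  apply Units.ext
  show rotR (a + 2 * Real.pi) = rotR a
  unfold rotR
  rw [Real.cos_add_two_pi, Real.sin_add_two_pi]

theorem continuous_rotR965 : Continuous rotR := by
  unfold rotR
  refine continuous_matrix fun i j => ?_
  fin_cases i <;> fin_cases j <;> simp <;> fun_prop

theorem continuous_torR965 : Continuous torR := by
  unfold torR
  refine continuous_matrix fun i j => ?_
  fin_cases i <;> fin_cases j <;> simp <;> fun_prop

theorem continuous_rotG965 : Continuous rotG811 := by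
  refine Units.continuous_iff.2 ⟨continuous_rotR965, ?_⟩
  have e : (fun x : ℝ => (((rotG811 x)⁻¹ : GR) : Matrix (Fin 2) (Fin 2) ℝ))
      = fun x => rotR (-x) := by
    funext x
    rw [rotG_inv965]
    rfl
  rw [e]
  exact continuous_rotR965.comp continuous_neg

theorem continuous_torG965 : Continuous torG811 := by
  refine Units.continuous_iff.2 ⟨continuous_torR965, ?_⟩
  have e : (fun x : ℝ => (((torG811 x)⁻¹ : GR) : Matrix (Fin 2) (Fin 2) ℝ))
      = fun x => torR (-x) := by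
    funext x
    rw [torG_inv965]
    rfl
  rw [e]
  exact continuous_torR965.comp continuous_neg

/-! ## The weight characters -/

theorem wt_one965 (a : ℝ) :
    wt 1 a = ((Real.cos a : ℝ) : ℂ) + ((Real.sin a : ℝ) : ℂ) * Complex.I := by
  unfold wt
  rw [Int.cast_one, one_mul, Complex.exp_mul_I, Complex.ofReal_cos, Complex.ofReal_sin]

theorem wt_neg_one965 (a : ℝ) :
    wt (-1) a = ((Real.cos a : ℝ) : ℂ) - ((Real.sin a : ℝ) : ℂ) * Complex.I := by
  unfold wt
  have e : (((-1 : ℤ) : ℤ) : ℂ) * ((a : ℝ) : ℂ) * Complex.I = ((-a : ℝ) : ℂ) * Complex.I := by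
    push_cast
    ring
  rw [e, Complex.exp_mul_I, ← Complex.ofReal_cos, ← Complex.ofReal_sin, Real.cos_neg,
    Real.sin_neg]
  push_cast
  ring

theorem wt_add965 (n : ℤ) (a b : ℝ) : wt n (a + b) = wt n a * wt n b := by
  unfold wt
  rw [← Complex.exp_add]
  congr 1
  push_cast
  ring

theorem wt_mul_neg965 (a : ℝ) : wt 1 a * wt (-1) a = 1 := by
  unfold wt
  rw [← Complex.exp_add]
  have : ((1 : ℤ) : ℂ) * ((a : ℝ) : ℂ) * Complex.I + ((-1 : ℤ) : ℂ) * ((a : ℝ) : ℂ) * Complex.I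
      = 0 := by
    push_cast
    ring
  rw [this, Complex.exp_zero]

theorem wt_periodic965 (n : ℤ) (a : ℝ) : wt n (a + 2 * Real.pi) = wt n a := by
  unfold wt
  have e : ((n : ℤ) : ℂ) * ((a + 2 * Real.pi : ℝ) : ℂ) * Complex.I
      = ((n : ℤ) : ℂ) * ((a : ℝ) : ℂ) * Complex.I + n * (2 * Real.pi * Complex.I) := by
    push_cast
    ring
  rw [e, Complex.exp_add, Complex.exp_int_mul_two_pi_mul_I, mul_one]

theorem continuous_wt965 (n : ℤ) : Continuous (wt n) := by
  unfold wt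
  fun_prop

/-! ## The function `N` -/

/-- `N(g) = ∑ g_{ij}² = tr(g gᵀ)`. -/
def nrm965 (g : Matrix (Fin 2) (Fin 2) ℝ) : ℝ := g 0 0 ^ 2 + g 0 1 ^ 2 + g 1 0 ^ 2 + g 1 1 ^ 2

theorem nrm_rot_mul965 (a : ℝ) (g : Matrix (Fin 2) (Fin 2) ℝ) :
    nrm965 (rotR a * g) = nrm965 g := by
  unfold nrm965 rotR
  simp only [Matrix.mul_apply, Fin.sum_univ_two, Matrix.of_apply, Matrix.cons_val', Matrix.cons_val_zero,
    Matrix.cons_val_one, Matrix.cons_val_fin_one]
  linear_combination (g 0 0 ^ 2 + g 0 1 ^ 2 + g 1 0 ^ 2 + g 1 1 ^ 2) * Real.sin_sq_add_cos_sq a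

theorem nrm_mul_rot965 (g : Matrix (Fin 2) (Fin 2) ℝ) (b : ℝ) :
    nrm965 (g * rotR b) = nrm965 g := by
  unfold nrm965 rotR
  simp only [Matrix.mul_apply, Fin.sum_univ_two, Matrix.of_apply, Matrix.cons_val', Matrix.cons_val_zero,
    Matrix.cons_val_one, Matrix.cons_val_fin_one]
  linear_combination (g 0 0 ^ 2 + g 0 1 ^ 2 + g 1 0 ^ 2 + g 1 1 ^ 2) * Real.sin_sq_add_cos_sq b

theorem exp_half_sq965 (T : ℝ) : Real.exp (T / 2) ^ 2 = Real.exp T := by
  rw [sq, ← Real.exp_add]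
  congr 1
  ring

theorem exp_neg_half_sq965 (T : ℝ) : Real.exp (-(T / 2)) ^ 2 = Real.exp (-T) := by
  rw [sq, ← Real.exp_add]
  congr 1
  ring

theorem exp_half_mul965 (T : ℝ) : Real.exp (T / 2) * Real.exp (-(T / 2)) = 1 := by
  rw [← Real.exp_add, add_neg_cancel, Real.exp_zero]

theorem nrm_tor965 (T : ℝ) : nrm965 (torR T) = 2 * Real.cosh T := by
  unfold nrm965 torR
  simp only [Matrix.of_apply, Matrix.cons_val', Matrix.cons_val_zero, Matrix.cons_val_one,
    Matrix.cons_val_fin_one]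
  rw [Real.cosh_eq, exp_half_sq965, exp_neg_half_sq965]
  ring

theorem nrm_aka965 (u t θ : ℝ) :
    nrm965 (torR u * rotR θ * torR t) = 2 * chX811 u t θ := by
  unfold nrm965 torR rotR chX811
  simp only [Matrix.mul_apply, Fin.sum_univ_two, Matrix.of_apply, Matrix.cons_val', Matrix.cons_val_zero,
    Matrix.cons_val_one, Matrix.cons_val_fin_one]
  rw [Real.cosh_eq u, Real.cosh_eq t, Real.sinh_eq u, Real.sinh_eq t, Real.cos_two_mul,
    ← exp_half_sq965 u, ← exp_half_sq965 t, ← exp_neg_half_sq965 u, ← exp_neg_half_sq965 t]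
  linear_combination (Real.exp (u / 2) ^ 2 * Real.exp (-(t / 2)) ^ 2
    + Real.exp (-(u / 2)) ^ 2 * Real.exp (t / 2) ^ 2) * Real.sin_sq_add_cos_sq θ

/-! ## The function `j` -/

/-- `j(g) = (g₀₀ + g₁₁) + i (g₀₁ - g₁₀)`. -/
def jM965 (g : Matrix (Fin 2) (Fin 2) ℝ) : ℂ :=
  ((g 0 0 + g 1 1 : ℝ) : ℂ) + Complex.I * ((g 0 1 - g 1 0 : ℝ) : ℂ)

theorem jM_rot_mul965 (a : ℝ) (g : Matrix (Fin 2) (Fin 2) ℝ) :
    jM965 (rotR a * g) = wt 1 a * jM965 g := by
  rw [wt_one965]
  unfold jM965 rotR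
  simp only [Matrix.mul_apply, Fin.sum_univ_two, Matrix.of_apply, Matrix.cons_val', Matrix.cons_val_zero,
    Matrix.cons_val_one, Matrix.cons_val_fin_one]
  simp only [Complex.ofReal_add, Complex.ofReal_sub, Complex.ofReal_mul, Complex.ofReal_neg]
  linear_combination (-((g 0 1 : ℂ) - g 1 0)) * (Real.sin a : ℂ) * Complex.I_sq

theorem jM_mul_rot965 (g : Matrix (Fin 2) (Fin 2) ℝ) (b : ℝ) :
    jM965 (g * rotR b) = wt 1 b * jM965 g := by
  rw [wt_one965]
  unfold jM965 rotR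
  simp only [Matrix.mul_apply, Fin.sum_univ_two, Matrix.of_apply, Matrix.cons_val', Matrix.cons_val_zero,
    Matrix.cons_val_one, Matrix.cons_val_fin_one]
  simp only [Complex.ofReal_add, Complex.ofReal_sub, Complex.ofReal_mul, Complex.ofReal_neg]
  linear_combination (-((g 0 1 : ℂ) - g 1 0)) * (Real.sin b : ℂ) * Complex.I_sq

theorem jM_tor965 (T : ℝ) : jM965 (torR T) = ((2 * Real.cosh (T / 2) : ℝ) : ℂ) := by
  unfold jM965 torR
  simp only [Matrix.of_apply, Matrix.cons_val', Matrix.cons_val_zero, Matrix.cons_val_one,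
    Matrix.cons_val_fin_one]
  rw [Real.cosh_eq]
  push_cast
  ring

theorem cosh_half_add965 (u t : ℝ) :
    2 * Real.cosh ((u + t) / 2)
      = Real.exp (u / 2) * Real.exp (t / 2) + Real.exp (-(u / 2)) * Real.exp (-(t / 2)) := by
  have e1 : (u + t) / 2 = u / 2 + t / 2 := by ring
  rw [Real.cosh_eq, e1, neg_add, Real.exp_add, Real.exp_add]
  ring

theorem cosh_half_sub965 (u t : ℝ) :
    2 * Real.cosh ((u - t) / 2)
      = Real.exp (u / 2) * Real.exp (-(t / 2)) + Real.exp (-(u / 2)) * Real.exp (t / 2) := by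
  have e1 : (u - t) / 2 = u / 2 + -(t / 2) := by ring
  rw [Real.cosh_eq, e1, neg_add, neg_neg, Real.exp_add, Real.exp_add]
  ring

theorem jM_aka965 (u t θ : ℝ) :
    jM965 (torR u * rotR θ * torR t)
      = ((2 * Real.cosh ((u + t) / 2) * Real.cos θ : ℝ) : ℂ)
        + Complex.I * ((2 * Real.cosh ((u - t) / 2) * Real.sin θ : ℝ) : ℂ) := by
  rw [cosh_half_add965, cosh_half_sub965]
  unfold jM965 torR rotR
  simp only [Matrix.mul_apply, Fin.sum_univ_two, Matrix.of_apply, Matrix.cons_val', Matrix.cons_val_zero,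
    Matrix.cons_val_one, Matrix.cons_val_fin_one]
  simp only [Complex.ofReal_add, Complex.ofReal_sub, Complex.ofReal_mul, Complex.ofReal_neg,
    Complex.ofReal_zero]
  ring

/-- `e^{-iθ} j(a_u k_θ a_t) = 2 (K + i L)`. -/
theorem wt_mul_jM_aka965 (u t θ : ℝ) :
    wt (-1) θ * jM965 (torR u * rotR θ * torR t)
      = 2 * (((Real.cosh ((u + t) / 2) * Real.cos θ ^ 2
            + Real.cosh ((u - t) / 2) * Real.sin θ ^ 2 : ℝ) : ℂ)
          + Complex.I * (((Real.cosh ((u - t) / 2) - Real.cosh ((u + t) / 2))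
            * Real.sin θ * Real.cos θ : ℝ) : ℂ)) := by
  rw [wt_neg_one965, jM_aka965]
  simp only [Complex.ofReal_add, Complex.ofReal_sub, Complex.ofReal_mul, Complex.ofReal_neg,
    Complex.ofReal_pow, Complex.ofReal_ofNat]
  linear_combination (-(2 : ℂ)) * (Real.cosh ((u - t) / 2) : ℂ) * (Real.sin θ : ℂ) ^ 2
    * Complex.I_sq

end Fermat.Agent.LT.T6.Inf.H965

end

end
-- ===== PACK-END LT/T6/Inf/H965/ProdAlg.lean

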