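import Mathlib
import Fermat.Agent.Pack.LT3.E13L0
import Fermat.Agent.Pack.LT3.E12L2
import Fermat.Agent.Pack.LT3.E6L0
import Fermat.Agent.Pack.LT3.E5L1
import Fermat.Agent.Pack.LT3.E6L2
import Fermat.Agent.Pack.LT3.E6L1
import Fermat.Agent.Pack.LT3.E13L2
import Fermat.Agent.Pack.LT3.E13L3
import Fermat.Agent.Pack.LT2.E0L1
import Fermat.Agent.Pack.LT3.E2L0
import Fermat.Agent.Pack.LT3.E5L0
import Fermat.Agent.Pack.LT3.E5L2
import Fermat.Agent.Pack.LT3.E8L2
import Fermat.Agent.Pack.LT3.E8L0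
import Fermat.Agent.Pack.LT3.E13L1
import Fermat.Agent.Pack.LT3.E15L2

set_option linter.all false

-- ===== PACK-BEGIN LT/T6/H675/QuatCoreTop.lean
section


/-!
# Row LT, tower T6, leaf T6.18i.5 `QuatCoreRamC385` (owner helper675): the ALGEBRA and the TOP

`quatCoreRam_of_leaves675 : QcRamOddC675 → QcTameArithC675 → QcWildC675 → QuatCoreRamC385`.
OFF-MAIN.  No hole, nothing assumed.
-/

set_option autoImplicit false

open scoped Matrix

noncomputable section

namespace Fermat.Agent.LT.T6.H675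

open Fermat.Agent.LT.T6 Fermat.Agent.LT.T6.H783 Fermat.Agent.LT.T6.H385

/-! ## The commutative algebra `k'[Γ]` inside `M₂(k')` -/

section Alg

variable {F : Type} [Field F]

/-- `a + b Γ`. -/
def el675 (Γ : Matrix (Fin 2) (Fin 2) F) (a b : F) : Matrix (Fin 2) (Fin 2) F :=
  a • (1 : Matrix (Fin 2) (Fin 2) F) + b • Γ

/-- Cayley–Hamilton for `2 × 2` matrices. -/
theorem sq_eq675 (Γ : Matrix (Fin 2) (Fin 2) F) :
    Γ * Γ = Γ.trace • Γ - Γ.det • (1 : Matrix (Fin 2) (Fin 2) F) := by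
  ext i j
  fin_cases i <;> fin_cases j <;>
    simp [Matrix.mul_apply, Fin.sum_univ_two, Matrix.trace, Matrix.det_fin_two] <;> ring

theorem el675_mul (Γ : Matrix (Fin 2) (Fin 2) F) (a b a' b' : F) :
    el675 Γ a b * el675 Γ a' b'
      = el675 Γ (a * a' - Γ.det * (b * b')) (a * b' + b * a' + Γ.trace * (b * b')) := by
  unfold el675
  simp only [add_mul, mul_add, Matrix.smul_mul, Matrix.mul_smul, Matrix.one_mul, Matrix.mul_one,
    smul_smul, sq_eq675 Γ, smul_sub, add_smul, sub_smul]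
  module

theorem el675_comm (Γ : Matrix (Fin 2) (Fin 2) F) (a b a' b' : F) :
    el675 Γ a b * el675 Γ a' b' = el675 Γ a' b' * el675 Γ a b := by
  rw [el675_mul, el675_mul]
  congr 1 <;> ring

theorem el675_scalar (Γ : Matrix (Fin 2) (Fin 2) F) (w : F) :
    el675 Γ w 0 = w • (1 : Matrix (Fin 2) (Fin 2) F) := by
  unfold el675
  rw [zero_smul, add_zero]

theorem el675_map (Γ : Matrix (Fin 2) (Fin 2) F) (s : F ≃+* F) (hΓ : Γ.map s = Γ) (a b : F) :
    (el675 Γ a b).map s = el675 Γ (s a) (s b) := by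
  unfold el675
  ext i j
  have h := congrFun (congrFun hΓ i) j
  simp only [Matrix.map_apply] at h
  simp only [Matrix.map_apply, Matrix.add_apply, Matrix.smul_apply, smul_eq_mul, map_add,
    map_mul, h, Matrix.one_apply]
  split_ifs <;> simp

/-- `w = A σ(A)` with `A = a + b Γ`. -/
def IsNm675 (Γ : Matrix (Fin 2) (Fin 2) F) (s : F ≃+* F) (w : F) : Prop :=
  ∃ a b : F, el675 Γ a b * el675 Γ (s a) (s b) = w • (1 : Matrix (Fin 2) (Fin 2) F)

theorem isNm675_iff (Γ : Matrix (Fin 2) (Fin 2) F) (s : F ≃+* F) (w : F) (a b : F)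
    (h1 : a * s a - Γ.det * (b * s b) = w)
    (h2 : a * s b + b * s a + Γ.trace * (b * s b) = 0) : IsNm675 Γ s w := by
  refine ⟨a, b, ?_⟩
  rw [el675_mul, h1, h2, el675_scalar]

theorem IsNm675.mul {Γ : Matrix (Fin 2) (Fin 2) F} {s : F ≃+* F} (hΓ : Γ.map s = Γ) {w w' : F}
    (h : IsNm675 Γ s w) (h' : IsNm675 Γ s w') : IsNm675 Γ s (w * w') := by
  obtain ⟨a, b, hab⟩ := h
  obtain ⟨a', b', hab'⟩ := h'
  refine ⟨a * a' - Γ.det * (b * b'), a * b' + b * a' + Γ.trace * (b * b'), ?_⟩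
  have e1 : el675 Γ (s (a * a' - Γ.det * (b * b'))) (s (a * b' + b * a' + Γ.trace * (b * b')))
      = el675 Γ (s a) (s b) * el675 Γ (s a') (s b') := by
    rw [← el675_map Γ s hΓ, ← el675_mul, Matrix.map_mul, el675_map Γ s hΓ, el675_map Γ s hΓ]
  rw [e1, ← el675_mul]
  calc el675 Γ a b * el675 Γ a' b' * (el675 Γ (s a) (s b) * el675 Γ (s a') (s b'))
      = el675 Γ a b * (el675 Γ a' b' * el675 Γ (s a) (s b)) * el675 Γ (s a') (s b') := by
        simp only [mul_assoc]
    _ = el675 Γ a b * (el675 Γ (s a) (s b) * el675 Γ a' b') * el675 Γ (s a') (s b') := by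
        rw [el675_comm Γ a' b']
    _ = (el675 Γ a b * el675 Γ (s a) (s b)) * (el675 Γ a' b' * el675 Γ (s a') (s b')) := by
        simp only [mul_assoc]
    _ = (w * w') • (1 : Matrix (Fin 2) (Fin 2) F) := by
        rw [hab, hab', Matrix.smul_mul, Matrix.one_mul, smul_smul]

theorem IsNm675.one (Γ : Matrix (Fin 2) (Fin 2) F) (s : F ≃+* F) : IsNm675 Γ s 1 :=
  isNm675_iff Γ s 1 1 0 (by simp) (by simp)

theorem IsNm675.pow {Γ : Matrix (Fin 2) (Fin 2) F} {s : F ≃+* F} (hΓ : Γ.map s = Γ) {w : F}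
    (h : IsNm675 Γ s w) (n : ℕ) : IsNm675 Γ s (w ^ n) := by
  induction n with
  | zero => rw [pow_zero]; exact IsNm675.one Γ s
  | succ n ih => rw [pow_succ]; exact ih.mul hΓ h

end Alg

/-! ## The special norms -/

section Norms

variable {k k' : Type} [Field k] [Field k']

/-- The matrix `Γ = i(γ)`. -/
def gam675 (i : k →+* k') (γ : GL (Fin 2) k) : Matrix (Fin 2) (Fin 2) k' :=
  ((Matrix.GeneralLinearGroup.map i γ : GL (Fin 2) k') : Matrix (Fin 2) (Fin 2) k')

theorem gam675_apply (i : k →+* k') (γ : GL (Fin 2) k) (a b : Fin 2) :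
    gam675 i γ a b = i ((γ : Matrix (Fin 2) (Fin 2) k) a b) := rfl

theorem gam675_map (i : k →+* k') (s : k' ≃+* k') (hs : ∀ x : k, s (i x) = i x)
    (γ : GL (Fin 2) k) : (gam675 i γ).map s = gam675 i γ := by
  ext a b
  rw [Matrix.map_apply, gam675_apply, hs]

theorem gam675_trace (i : k →+* k') (γ : GL (Fin 2) k) :
    (gam675 i γ).trace = i (γ : Matrix (Fin 2) (Fin 2) k).trace := by
  simp only [Matrix.trace, Matrix.diag_apply, Fin.sum_univ_two, gam675_apply, map_add]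

theorem gam675_det (i : k →+* k') (γ : GL (Fin 2) k) :
    (gam675 i γ).det = i (γ : Matrix (Fin 2) (Fin 2) k).det := by
  simp only [Matrix.det_fin_two, gam675_apply, map_sub, map_mul]

/-- From `IsNm675` to the conclusion of `QuatCoreRamC385`. -/
theorem isCoreNorm_of_isNm675 (i : k →+* k') (s : k' ≃+* k') (hs : ∀ x : k, s (i x) = i x)
    (γ : GL (Fin 2) k) (z : k) (hz : i z ≠ 0) (h : IsNm675 (gam675 i γ) s (i z)) :
    IsCoreNorm675 i s γ z := by
  obtain ⟨a, b, hab⟩ := h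
  have hAB : el675 (gam675 i γ) a b * ((i z)⁻¹ • el675 (gam675 i γ) (s a) (s b)) = 1 := by
    rw [Matrix.mul_smul, hab, smul_smul, inv_mul_cancel₀ hz, one_smul]
  have hBA : ((i z)⁻¹ • el675 (gam675 i γ) (s a) (s b)) * el675 (gam675 i γ) a b = 1 := by
    rw [Matrix.smul_mul, el675_comm, hab, smul_smul, inv_mul_cancel₀ hz, one_smul]
  refine ⟨⟨el675 (gam675 i γ) a b, (i z)⁻¹ • el675 (gam675 i γ) (s a) (s b), hAB, hBA⟩,
    a, b, rfl, ?_⟩
  have e : ((glAut s ⟨el675 (gam675 i γ) a b, (i z)⁻¹ • el675 (gam675 i γ) (s a) (s b),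
      hAB, hBA⟩ : GL (Fin 2) k') : Matrix (Fin 2) (Fin 2) k')
      = (el675 (gam675 i γ) a b).map s := rfl
  rw [e, el675_map _ s (gam675_map i s hs γ)]
  exact hab

variable (i : k →+* k') (s : k' ≃+* k') (γ : GL (Fin 2) k)

/-- Squares of elements of `k`. -/
theorem isNm_sq675 (hs : ∀ x : k, s (i x) = i x) (m : k) :
    IsNm675 (gam675 i γ) s (i (m ^ 2)) :=
  isNm675_iff _ s _ (i m) 0 (by rw [hs, map_pow]; ring) (by simp)

/-- `-c = θ σ(θ)`. -/
theorem isNm_theta675 (θ : k') (c : k) (hθ : s θ = -θ) (hc : θ ^ 2 = i c) :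
    IsNm675 (gam675 i γ) s (i (-c)) :=
  isNm675_iff _ s _ θ 0 (by rw [hθ, map_neg, ← hc]; ring) (by simp)

/-- The discriminant `Δ = (2γ - t)²`. -/
theorem isNm_disc675 (hs : ∀ x : k, s (i x) = i x) :
    IsNm675 (gam675 i γ) s (i (disc γ)) := by
  refine isNm675_iff _ s _ (-(i (γ : Matrix (Fin 2) (Fin 2) k).trace)) 2 ?_ ?_
  · rw [gam675_det, map_neg, hs, map_ofNat, disc]
    simp only [map_sub, map_mul, map_pow, map_ofNat]
    ring
  · rw [gam675_trace, map_neg, hs, map_ofNat]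
    ring

/-- The norms of the third quadratic subalgebra: `x² - (Δ/c) y²`. -/
theorem isNm_third675 (hs : ∀ x : k, s (i x) = i x) (θ : k') (c : k) (hθ0 : θ ≠ 0)
    (hθ : s θ = -θ) (hc : θ ^ 2 = i c) (x y : k) :
    IsNm675 (gam675 i γ) s (i (x ^ 2 - disc γ / c * y ^ 2)) := by
  have hc0 : i c ≠ 0 := by rw [← hc]; exact pow_ne_zero 2 hθ0
  have hθi : s θ⁻¹ = -θ⁻¹ := by rw [map_inv₀, hθ, inv_neg]
  refine isNm675_iff _ s _ (i x - i y * θ⁻¹ * i (γ : Matrix (Fin 2) (Fin 2) k).trace)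
    (2 * i y * θ⁻¹) ?_ ?_
  · rw [gam675_det]
    simp only [map_sub, map_mul, hs, hθi, map_ofNat, disc, map_div₀, map_pow, ← hc]
    field_simp
    ring
  · rw [gam675_trace]
    simp only [map_sub, map_mul, hs, hθi, map_ofNat]
    ring

/-- The case of a root in `k'`. -/
theorem isNm_root675 (hs : ∀ x : k, s (i x) = i x) (hss : ∀ y : k', s (s y) = y)
    (lam : k') (hlam : lam ^ 2 - i (γ : Matrix (Fin 2) (Fin 2) k).trace * lam
      + i (γ : Matrix (Fin 2) (Fin 2) k).det = 0) (hne : s lam ≠ lam) (z : k) :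
    IsNm675 (gam675 i γ) s (i z) := by
  have hmu : (s lam) ^ 2 - i (γ : Matrix (Fin 2) (Fin 2) k).trace * s lam
      + i (γ : Matrix (Fin 2) (Fin 2) k).det = 0 := by
    have := congrArg s hlam
    simpa only [map_add, map_sub, map_mul, map_pow, hs, map_zero] using this
  have hd : lam - s lam ≠ 0 := sub_ne_zero.mpr (Ne.symm hne)
  -- Vieta
  have hsum : lam + s lam = i (γ : Matrix (Fin 2) (Fin 2) k).trace := by
    have h : (lam - s lam) * (lam + s lam - i (γ : Matrix (Fin 2) (Fin 2) k).trace) = 0 := by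
      linear_combination hlam - hmu
    rcases mul_eq_zero.mp h with h | h
    · exact absurd h hd
    · linear_combination h
  have hprod : lam * s lam = i (γ : Matrix (Fin 2) (Fin 2) k).det := by
    linear_combination (-1 : k') * hlam + lam * hsum
  have hsb : s ((i z - 1) / (lam - s lam)) = -((i z - 1) / (lam - s lam)) := by
    rw [map_div₀, map_sub, map_sub, hs, map_one, hss, ← neg_sub lam (s lam), div_neg]
  refine isNm675_iff _ s _ (1 - (i z - 1) / (lam - s lam) * s lam) ((i z - 1) / (lam - s lam))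
    ?_ ?_
  · rw [gam675_det, map_sub, map_mul, hsb, hss, map_one, ← hprod]
    field_simp
    ring
  · rw [gam675_trace, map_sub, map_mul, hsb, hss, map_one, ← hsum]
    field_simp
    ring

end Norms

/-! ## The top -/

/-- **`QuatCoreRamC385` from the three leaves.** -/
theorem quatCoreRam_of_leaves675 (h1 : QcRamOddC675) (h2 : QcTameArithC675)
    (h3 : QcWildC675) : QuatCoreRamC385 := by
  rw [quatCoreRamC385_iff675]
  intro k k' _ _ _ _ q i s hQ z hz γ hreg hell
  have hcyc := hQ.ext.cyc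
  have hs : ∀ x : k, s (i x) = i x := hcyc.fix_i
  have hss : ∀ y : k', s (s y) = y := fun y => by
    have := hcyc.order y
    rwa [pow_two] at this
  have : CharZero k := hQ.hk.char0
  have : CharZero k' := hQ.hk'.char0
  have hiz : i z ≠ 0 := (map_ne_zero i).mpr hz
  have h2k : (2 : k) ≠ 0 := two_ne_zero
  have h2k' : (2 : k') ≠ 0 := two_ne_zero
  refine isCoreNorm_of_isNm675 i s hs γ z hiz ?_
  by_cases hroot : ∃ x : k', x ^ 2 - i (γ : Matrix (Fin 2) (Fin 2) k).trace * x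
      + i (γ : Matrix (Fin 2) (Fin 2) k).det = 0
  · -- the characteristic polynomial has a root in `k'`
    obtain ⟨lam, hlam⟩ := hroot
    have hne : s lam ≠ lam := by
      intro hfix
      obtain ⟨x, hx⟩ := hcyc.fixed lam hfix
      apply hell
      refine ⟨x, i.injective ?_⟩
      rw [map_zero, map_add, map_sub, map_mul, map_pow, hx]
      exact hlam
    exact isNm_root675 i s γ hs hss lam hlam hne z
  · rw [not_exists] at hroot
    rcases Nat.even_or_odd q with hq | hq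
    · -- wild
      obtain ⟨ζ, a, b, hζ, hn⟩ := h3 k k' q i s hQ hq z hz γ hreg hell hroot
      refine ⟨a, b, ?_⟩
      have e : ((glAut s ζ : GL (Fin 2) k') : Matrix (Fin 2) (Fin 2) k')
          = (ζ : Matrix (Fin 2) (Fin 2) k').map s := rfl
      have hζ' : (ζ : Matrix (Fin 2) (Fin 2) k') = el675 (gam675 i γ) a b := hζ
      rw [e, hζ', el675_map _ s (gam675_map i s hs γ)] at hn
      exact hn
    · -- tame
      obtain ⟨y, hy⟩ := hcyc.faithful 1 one_pos one_lt_two
      rw [pow_one] at hy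
      have hθ0 : y - s y ≠ 0 := sub_ne_zero.mpr (Ne.symm hy)
      have hθ : s (y - s y) = -(y - s y) := by rw [map_sub, hss]; ring
      have hfix : s ((y - s y) ^ 2) = (y - s y) ^ 2 := by rw [map_pow, hθ]; ring
      obtain ⟨c, hc⟩ := hcyc.fixed _ hfix
      have hc0 : c ≠ 0 := by
        intro h0
        rw [h0, map_zero] at hc
        exact hθ0 ((pow_eq_zero_iff two_ne_zero).mp hc.symm)
      have hΔ0 : disc γ ≠ 0 := hreg.ne_zero
      have hΔsq : ¬ IsSquare (disc γ) := by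
        rintro ⟨r, hr⟩
        apply hell
        refine ⟨((γ : Matrix (Fin 2) (Fin 2) k).trace + r) / 2, ?_⟩
        unfold disc at hr
        field_simp
        linear_combination (-1 : k) * hr
      have hΔcsq : ¬ IsSquare (disc γ * c) := by
        rintro ⟨r, hr⟩
        apply hroot ((i (γ : Matrix (Fin 2) (Fin 2) k).trace + i r / (y - s y)) / 2)
        have hr' : i (disc γ) * (y - s y) ^ 2 = i r * i r := by
          rw [← hc, ← map_mul, ← map_mul, hr]
        unfold disc at hr'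
        simp only [map_sub, map_mul, map_pow, map_ofNat] at hr'
        field_simp
        linear_combination (-1 : k') * hr'
      have hodd := h1 k k' q i s hQ hq (y - s y) c hθ0 hθ hc.symm
      obtain ⟨n₁, n₂, m, x, w, hzz⟩ := h2 k q hQ.hk hq c (disc γ) hc0 hodd hΔ0 hΔsq hΔcsq z hz
      have hΓ := gam675_map i s hs γ
      rw [hzz, map_mul, map_mul, map_mul, map_pow _ (-c), map_pow _ (disc γ)]
      exact (((isNm_sq675 i s γ hs m).mul hΓ ((isNm_theta675 i s γ _ c hθ hc.symm).pow hΓ n₁)).mul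
        hΓ ((isNm_disc675 i s γ hs).pow hΓ n₂)).mul hΓ
        (isNm_third675 i s γ hs _ c hθ0 hθ hc.symm x w)

end Fermat.Agent.LT.T6.H675

end

end
-- ===== PACK-END LT/T6/H675/QuatCoreTop.lean

-- ===== PACK-BEGIN LT/T6/H833/ProfBasic.lean
section







/-!
# Row LT, tower T6, leaf T6.20e.2c `ProfAbelC634`, part 1 (helper833) -- OFF-MAIN

Spec bytes: `T6/H634/EllCut2.lean` = helper634@2bcabb618 (sha256 07b34a13) and its closure,
byte-identical.  Assets (byte-identical copies, all unconditional):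
`T6/H281/CartanR.lean` (cf11533e, `cartanRC_h281`), `T6/H514/CartanCC.lean` (78ef6b97,
`cartanCC514`; with `T2/H555/CartanInf.lean` 48c6cc47), `T6/H569/IwaHomeoR.lean` (de62075e,
continuity of `dgR`, `unR`), `T6/H441/PolCBasic.lean` (f292b111, continuity of `dgC`, `unC`,
`ρ` of the Borel elements).

PROVED here (the group-theoretic half of the leaf):
* `realProf833` : a test function `f` of weight `n` on `GL₂(ℝ)` is
  `f g = (wtPhase n g)⁻¹ · prof0_634 f (det g) (rhoP g)` on `det > 0`;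
* `cplxProf833` : a bi-`U(2)`-invariant `φ` on `GL₂(ℂ)` is
  `φ M = profC634 φ (‖det M‖²) (rhoQ M)`;
* `isProfile_prof0_833`, `isProfile_prof1_833`, `isProfile_profC833` : the three profiles are
  profiles in the sense of `H781`.
-/

set_option autoImplicit false

open scoped Matrix
open MeasureTheory

noncomputable section

namespace Fermat.Agent.LT.T6.H833

open Fermat.Agent.LT.T6 Fermat.Agent.LT.T6.H189 Fermat.Agent.LT.T6.H634
open Fermat.Agent.LT.T6.H781 Fermat.Agent.LT.T6.H569 Fermat.Agent.LT.T6.H441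

/-! ## The diagonal elements -/

theorem radT_eq_arcosh833 (ρ : ℝ) : radT634 ρ = Real.arcosh ρ := rfl

theorem dgR_mul833 (u₁ u₂ v₁ v₂ : ℝ) : dgR u₁ u₂ * dgR v₁ v₂ = dgR (u₁ + v₁) (u₂ + v₂) := by
  apply Units.ext
  rw [Units.val_mul, dgR_val569, dgR_val569, dgR_val569]
  simp only [Matrix.mul_fin_two, mul_zero, zero_mul, add_zero, zero_add, Real.exp_add]

theorem sclR_mul_atR833 (r t : ℝ) : sclR r * atR t = dgR (r + t / 2) (r - t / 2) := by
  unfold sclR atR
  rw [dgR_mul833, sub_eq_add_neg]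

theorem sclC_mul_atC833 (r t : ℝ) : sclC r * atC t = dgC (r + t / 2) (r - t / 2) := by
  unfold sclC atC
  rw [dgC_mul441, sub_eq_add_neg]

/-- The positive scalars are central in `GL₂(ℝ)`. -/
theorem sclR_comm833 (r : ℝ) (g : GL (Fin 2) ℝ) : g * sclR r = sclR r * g := by
  apply Units.ext
  rw [Units.val_mul, Units.val_mul]
  have h : (sclR r : Matrix (Fin 2) (Fin 2) ℝ)
      = Real.exp r • (1 : Matrix (Fin 2) (Fin 2) ℝ) := by
    unfold sclR
    rw [dgR_val569]
    ext i j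
    fin_cases i <;> fin_cases j <;> simp
  rw [h, Matrix.mul_smul, Matrix.smul_mul, Matrix.mul_one, Matrix.one_mul]

theorem prof0_eq833 (f : GL (Fin 2) ℝ → ℂ) (D ρ : ℝ) :
    prof0_634 f D ρ = f (sclR (Real.log D / 2) * atR (Real.arcosh ρ)) := by
  rw [sclR_mul_atR833]
  rfl

theorem profC_eq833 (φ : GL (Fin 2) ℂ → ℂ) (D ρ : ℝ) :
    profC634 φ D ρ = φ (sclC (Real.log D / 4) * atC (Real.arcosh ρ)) := by
  rw [sclC_mul_atC833]
  rfl

/-! ## The rotations and the phase -/

theorem rotR_val833 (θ : ℝ) :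
    (rotR θ : Matrix (Fin 2) (Fin 2) ℝ)
      = !![Real.cos θ, -Real.sin θ; Real.sin θ, Real.cos θ] := rfl

theorem inSO2_rotR833 (θ : ℝ) : InSO2 (rotR θ) := by
  have h := Real.cos_sq_add_sin_sq θ
  constructor
  · rw [rotR_val833]
    ext i j
    fin_cases i <;> fin_cases j <;>
      simp [Matrix.mul_apply, Fin.sum_univ_two, Matrix.transpose_apply] <;> nlinarith [h]
  · rw [rotR_val833, Matrix.det_fin_two_of]
    nlinarith [h]

/-- `e^{iθ}`. -/
def cis833 (θ : ℝ) : ℂ := ((Real.cos θ : ℝ) : ℂ) + ((Real.sin θ : ℝ) : ℂ) * Complex.I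

theorem cis_add833 (θ₁ θ₂ : ℝ) : cis833 (θ₁ + θ₂) = cis833 θ₁ * cis833 θ₂ := by
  unfold cis833
  rw [Real.cos_add, Real.sin_add]
  simp only [Complex.ofReal_sub, Complex.ofReal_add, Complex.ofReal_mul]
  linear_combination (-((Real.sin θ₁ : ℝ) : ℂ) * ((Real.sin θ₂ : ℝ) : ℂ)) * Complex.I_sq

theorem norm_cis833 (θ : ℝ) : ‖cis833 θ‖ = 1 := by
  unfold cis833
  rw [Complex.norm_add_mul_I, Real.cos_sq_add_sin_sq, Real.sqrt_one]

theorem holPart_rotR833 (θ : ℝ) : holPart (rotR θ) = cis833 θ := by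
  unfold holPart cis833
  rw [rotR_val833]
  simp only [Matrix.of_apply, Matrix.cons_val', Matrix.cons_val_zero, Matrix.cons_val_one,
    Matrix.cons_val_fin_one]
  push_cast
  ring

/-- The holomorphic part of `e^r k_{θ₁} a_t k_{θ₂}`. -/
theorem holPart_pol833 (r θ₁ t θ₂ : ℝ) :
    holPart (sclR r * rotR θ₁ * atR t * rotR θ₂)
      = ((Real.exp r * Real.cosh (t / 2) : ℝ) : ℂ) * cis833 (θ₁ + θ₂) := by
  unfold holPart cis833
  rw [H281.polEntries281, Real.cos_add, Real.sin_add, Real.cosh_eq]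
  simp only [Matrix.of_apply, Matrix.cons_val', Matrix.cons_val_zero, Matrix.cons_val_one,
    Matrix.cons_val_fin_one]
  push_cast
  ring

theorem wtPhase_pol833 (n : ℤ) (r θ₁ t θ₂ : ℝ) :
    wtPhase n (sclR r * rotR θ₁ * atR t * rotR θ₂)
      = wtChar n (rotR θ₁) * wtChar n (rotR θ₂) := by
  unfold wtPhase wtChar
  rw [holPart_pol833, holPart_rotR833, holPart_rotR833, ← mul_zpow, ← cis_add833]
  have hpos : 0 < Real.exp r * Real.cosh (t / 2) := mul_pos (Real.exp_pos _) (Real.cosh_pos _)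
  have hne : ((Real.exp r * Real.cosh (t / 2) : ℝ) : ℂ) ≠ 0 := by exact_mod_cast hpos.ne'
  rw [norm_mul, norm_cis833, mul_one, Complex.norm_real, Real.norm_eq_abs, abs_of_pos hpos]
  congr 1
  field_simp

/-! ## The profile formulas -/

/-- **The real profile formula.** -/
theorem realProf833 {n : ℤ} {f : GL (Fin 2) ℝ → ℂ} (hf : IsArchTestR n f)
    (g : GL (Fin 2) ℝ) (hg : 0 < (g : Matrix (Fin 2) (Fin 2) ℝ).det) :
    f g = (wtPhase n g)⁻¹ *
      prof0_634 f (g : Matrix (Fin 2) (Fin 2) ℝ).det (rhoP g) := by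
  obtain ⟨-, θ₁, θ₂, hdec⟩ := H281.cartanRC_h281 g hg
  set r : ℝ := Real.log (g : Matrix (Fin 2) (Fin 2) ℝ).det / 2 with hr
  set t : ℝ := Real.arcosh (rhoP g) with ht
  have e1 : sclR r * rotR θ₁ * atR t * rotR θ₂ = rotR θ₁ * ((sclR r * atR t) * rotR θ₂) := by
    rw [← sclR_comm833 r (rotR θ₁)]
    group
  have hval : f g = (wtChar n (rotR θ₁))⁻¹ * ((wtChar n (rotR θ₂))⁻¹ * f (sclR r * atR t)) := by
    conv_lhs => rw [hdec, e1]
    rw [hf.left _ _ (inSO2_rotR833 θ₁), hf.right _ _ (inSO2_rotR833 θ₂)]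
  have hph : wtPhase n g = wtChar n (rotR θ₁) * wtChar n (rotR θ₂) := by
    conv_lhs => rw [hdec]
    exact wtPhase_pol833 n r θ₁ t θ₂
  rw [hval, hph, prof0_eq833, mul_inv, mul_assoc]

/-- **The complex profile formula.** -/
theorem cplxProf833 {φ : GL (Fin 2) ℂ → ℂ} (hφ : IsArchTestC φ) (M : GL (Fin 2) ℂ) :
    φ M = profC634 φ (‖(M : Matrix (Fin 2) (Fin 2) ℂ).det‖ ^ 2) (rhoQ M) := by
  obtain ⟨-, k₁, hk₁, k₂, hk₂, hdec⟩ := H514.cartanCC514 M
  set r : ℝ := Real.log ‖(M : Matrix (Fin 2) (Fin 2) ℂ).det‖ / 2 with hr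
  set t : ℝ := Real.arcosh (rhoQ M) with ht
  have e1 : sclC r * k₁ * atC t * k₂ = k₁ * ((sclC r * atC t) * k₂) := by
    rw [← sclC_comm441 r k₁]
    group
  have hval : φ M = φ (sclC r * atC t) := by
    conv_lhs => rw [hdec, e1]
    rw [hφ.left _ _ hk₁, hφ.right _ _ hk₂]
  have hlog : Real.log (‖(M : Matrix (Fin 2) (Fin 2) ℂ).det‖ ^ 2) / 4 = r := by
    rw [Real.log_pow, hr]
    push_cast
    ring
  rw [hval, profC_eq833, hlog]

/-! ## The profiles are profiles -/

/-- A compactly supported function on `GL₂(ℝ)` vanishes where the entry `(i, j)` is large. -/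
theorem exists_entry_boundR833 {f : GL (Fin 2) ℝ → ℂ} (hf : HasCompactSupport f) (i j : Fin 2) :
    ∃ C : ℝ, ∀ g : GL (Fin 2) ℝ, C < |(g : Matrix (Fin 2) (Fin 2) ℝ) i j| → f g = 0 := by
  have hcont : Continuous fun g : GL (Fin 2) ℝ => (g : Matrix (Fin 2) (Fin 2) ℝ) i j :=
    (continuous_id.matrix_elem i j).comp Units.continuous_val
  obtain ⟨C, hC⟩ := hf.isCompact.exists_bound_of_continuousOn hcont.continuousOn
  refine ⟨C, fun g hg => ?_⟩
  by_contra h
  have h1 : g ∈ tsupport f := subset_tsupport f h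
  have h2 := hC g h1
  rw [Real.norm_eq_abs] at h2
  linarith

/-- A compactly supported function on `GL₂(ℂ)` vanishes where the entry `(0, 0)` is large. -/
theorem exists_entry_boundC833 {φ : GL (Fin 2) ℂ → ℂ} (hφ : HasCompactSupport φ) :
    ∃ C : ℝ, ∀ g : GL (Fin 2) ℂ, C < ‖(g : Matrix (Fin 2) (Fin 2) ℂ) 0 0‖ → φ g = 0 := by
  have hcont : Continuous fun g : GL (Fin 2) ℂ => (g : Matrix (Fin 2) (Fin 2) ℂ) 0 0 :=
    (continuous_id.matrix_elem 0 0).comp Units.continuous_val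
  obtain ⟨C, hC⟩ := hφ.isCompact.exists_bound_of_continuousOn hcont.continuousOn
  refine ⟨C, fun g hg => ?_⟩
  by_contra h
  have h1 : g ∈ tsupport φ := subset_tsupport φ h
  have h2 := hC g h1
  linarith

/-- `C < e^{m + arcosh(y) / 2}` for `y` large. -/
theorem exists_radius833 (m C : ℝ) :
    ∃ R : ℝ, ∀ y : ℝ, R ≤ y → C < Real.exp (m + Real.arcosh y / 2) := by
  refine ⟨max 1 (C ^ 2 / Real.exp (2 * m) + 1), fun y hy => ?_⟩
  have hy1 : 1 ≤ y := (le_max_left _ _).trans hy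
  have hy2 : C ^ 2 / Real.exp (2 * m) + 1 ≤ y := (le_max_right _ _).trans hy
  have hm : 0 < Real.exp (2 * m) := Real.exp_pos _
  have h1 : C ^ 2 < Real.exp (2 * m) * y := by
    have : C ^ 2 / Real.exp (2 * m) < y := by linarith
    rw [div_lt_iff₀ hm] at this
    linarith
  have h2 : y ≤ Real.exp (Real.arcosh y) := by
    rw [Real.exp_arcosh hy1]
    linarith [Real.sqrt_nonneg (y ^ 2 - 1)]
  have h3 : Real.exp (m + Real.arcosh y / 2) ^ 2 = Real.exp (2 * m) * Real.exp (Real.arcosh y) := by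
    rw [← Real.exp_nat_mul, ← Real.exp_add]
    congr 1
    push_cast
    ring
  have h4 : C ^ 2 < Real.exp (m + Real.arcosh y / 2) ^ 2 := by
    rw [h3]
    exact h1.trans_le (mul_le_mul_of_nonneg_left h2 hm.le)
  have h5 : 0 < Real.exp (m + Real.arcosh y / 2) := Real.exp_pos _
  nlinarith

theorem isProfile_prof0_833 {n : ℤ} {f : GL (Fin 2) ℝ → ℂ} (hf : IsArchTestR n f) (D : ℝ) :
    IsProfile (prof0_634 f D) := by
  constructor
  · have h1 : ContinuousOn (fun ρ : ℝ => Real.log D / 2 + radT634 ρ / 2) (Set.Ici 1) :=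
      continuousOn_const.add (Real.continuousOn_arcosh.div_const 2)
    have h2 : ContinuousOn (fun ρ : ℝ => Real.log D / 2 - radT634 ρ / 2) (Set.Ici 1) :=
      continuousOn_const.sub (Real.continuousOn_arcosh.div_const 2)
    have h3 : ContinuousOn ((fun p : ℝ × ℝ => dgR p.1 p.2) ∘ (fun ρ : ℝ =>
        (Real.log D / 2 + radT634 ρ / 2, Real.log D / 2 - radT634 ρ / 2))) (Set.Ici 1) :=
      continuous_dgR569.comp_continuousOn (h1.prodMk h2)
    have h4 : ContinuousOn (f ∘ ((fun p : ℝ × ℝ => dgR p.1 p.2) ∘ (fun ρ : ℝ =>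
        (Real.log D / 2 + radT634 ρ / 2, Real.log D / 2 - radT634 ρ / 2)))) (Set.Ici 1) :=
      hf.cont.comp_continuousOn h3
    exact h4
  · obtain ⟨C, hC⟩ := exists_entry_boundR833 hf.supp 0 0
    obtain ⟨R, hR⟩ := exists_radius833 (Real.log D / 2) C
    refine ⟨R, fun y hy => ?_⟩
    have e : ((dgR (Real.log D / 2 + radT634 y / 2) (Real.log D / 2 - radT634 y / 2) :
        GL (Fin 2) ℝ) : Matrix (Fin 2) (Fin 2) ℝ) 0 0
        = Real.exp (Real.log D / 2 + Real.arcosh y / 2) := by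
      rw [dgR_val569, radT_eq_arcosh833]
      simp only [Matrix.of_apply, Matrix.cons_val', Matrix.cons_val_zero,
        Matrix.cons_val_fin_one]
    have h := hR y hy
    rw [← abs_of_pos (Real.exp_pos (Real.log D / 2 + Real.arcosh y / 2)), ← e] at h
    exact hC (dgR (Real.log D / 2 + radT634 y / 2) (Real.log D / 2 - radT634 y / 2)) h

theorem isProfile_prof1_833 {n : ℤ} {f : GL (Fin 2) ℝ → ℂ} (hf : IsArchTestR n f) (D : ℝ) :
    IsProfile (prof1_634 f D) := by
  obtain ⟨hc, R, hR⟩ := isProfile_prof0_833 hf D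
  constructor
  · refine ContinuousOn.div hc ?_ ?_
    · exact (Complex.continuous_ofReal.comp
        (Real.continuous_sqrt.comp (continuous_id.add continuous_const))).continuousOn
    · intro ρ hρ
      have hρ' : (1 : ℝ) ≤ ρ := hρ
      have : 0 < Real.sqrt (ρ + 1) := Real.sqrt_pos.2 (by linarith)
      exact_mod_cast this.ne'
  · refine ⟨R, fun y hy => ?_⟩
    unfold prof1_634
    rw [hR y hy, zero_div]

theorem isProfile_profC833 {φ : GL (Fin 2) ℂ → ℂ} (hφ : IsArchTestC φ) (D : ℝ) :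
    IsProfile (profC634 φ D) := by
  constructor
  · have h1 : ContinuousOn (fun ρ : ℝ => Real.log D / 4 + radT634 ρ / 2) (Set.Ici 1) :=
      continuousOn_const.add (Real.continuousOn_arcosh.div_const 2)
    have h2 : ContinuousOn (fun ρ : ℝ => Real.log D / 4 - radT634 ρ / 2) (Set.Ici 1) :=
      continuousOn_const.sub (Real.continuousOn_arcosh.div_const 2)
    have h3 : ContinuousOn ((fun p : ℝ × ℝ => dgC p.1 p.2) ∘ (fun ρ : ℝ =>
        (Real.log D / 4 + radT634 ρ / 2, Real.log D / 4 - radT634 ρ / 2))) (Set.Ici 1) :=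
      continuous_dgC441.comp_continuousOn (h1.prodMk h2)
    have h4 : ContinuousOn (φ ∘ ((fun p : ℝ × ℝ => dgC p.1 p.2) ∘ (fun ρ : ℝ =>
        (Real.log D / 4 + radT634 ρ / 2, Real.log D / 4 - radT634 ρ / 2)))) (Set.Ici 1) :=
      hφ.cont.comp_continuousOn h3
    exact h4
  · obtain ⟨C, hC⟩ := exists_entry_boundC833 hφ.supp
    obtain ⟨R, hR⟩ := exists_radius833 (Real.log D / 4) C
    refine ⟨R, fun y hy => ?_⟩
    have e : ‖((dgC (Real.log D / 4 + radT634 y / 2) (Real.log D / 4 - radT634 y / 2) :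
        GL (Fin 2) ℂ) : Matrix (Fin 2) (Fin 2) ℂ) 0 0‖
        = Real.exp (Real.log D / 4 + Real.arcosh y / 2) := by
      rw [dgC_val441, radT_eq_arcosh833]
      simp only [Matrix.of_apply, Matrix.cons_val', Matrix.cons_val_zero,
        Matrix.cons_val_fin_one]
      rw [Complex.norm_real, Real.norm_eq_abs, abs_of_pos (Real.exp_pos _)]
    have h := hR y hy
    rw [← e] at h
    exact hC (dgC (Real.log D / 4 + radT634 y / 2) (Real.log D / 4 - radT634 y / 2)) h

end Fermat.Agent.LT.T6.H833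

end

end
-- ===== PACK-END LT/T6/H833/ProfBasic.lean

-- ===== PACK-BEGIN LT/T6/H842/EllMeas.lean
section



/-!
# Row LT, tower T6, leaf T6.27 (helper842): the parameter measures

OFF-MAIN.  Integrals against `sinhMeas`, `fermiMeas`, `radMeas`, `torMeas`.
-/

set_option autoImplicit false

open scoped Matrix
open MeasureTheory

noncomputable section

namespace Fermat.Agent.LT.T6.H842

instance sFinite_sinhMeas842 : SFinite sinhMeas := by
  unfold sinhMeas; infer_instance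

instance sFinite_fermiMeas842 : SFinite fermiMeas := by
  unfold fermiMeas; infer_instance

instance sFinite_radMeas842 : SFinite radMeas := by
  unfold radMeas; infer_instance

instance sFinite_torMeas842 : SFinite torMeas := by
  unfold torMeas; infer_instance

/-- The angular measure `dβ|_{(0,2π]}` is finite of mass `2π`. -/
theorem angMeas_real_univ842 :
    ((volume : Measure ℝ).restrict (Set.Ioc 0 (2 * Real.pi))).real Set.univ = 2 * Real.pi := by
  rw [measureReal_restrict_apply_univ, Real.volume_real_Ioc_of_le (by positivity)]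
  ring

theorem sinhMeas_eq842 :
    sinhMeas = ((volume : Measure ℝ).restrict (Set.Ioi 0)).withDensity
      (fun τ => ((Real.toNNReal (Real.sinh τ) : NNReal) : ENNReal)) := rfl

theorem fermiMeas_eq842 :
    fermiMeas = (volume : Measure ℝ).withDensity
      (fun b => ((Real.toNNReal (Real.cosh (2 * b) ^ 2) : NNReal) : ENNReal)) := rfl

theorem measurable_sinh_toNNReal842 : Measurable fun τ : ℝ => Real.toNNReal (Real.sinh τ) :=
  (continuous_real_toNNReal.comp Real.continuous_sinh).measurable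

theorem measurable_cosh_toNNReal842 :
    Measurable fun b : ℝ => Real.toNNReal (Real.cosh (2 * b) ^ 2) :=
  (continuous_real_toNNReal.comp (by fun_prop)).measurable

/-- `∫ g d(sinh τ dτ|_{τ>0}) = ∫_{τ>0} g(τ) sinh τ dτ`. -/
theorem integral_sinhMeas842 {E : Type*} [NormedAddCommGroup E] [NormedSpace ℝ E]
    (g : ℝ → E) :
    ∫ τ, g τ ∂sinhMeas = ∫ τ in Set.Ioi (0 : ℝ), Real.sinh τ • g τ := by
  rw [sinhMeas_eq842, integral_withDensity_eq_integral_smul measurable_sinh_toNNReal842]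
  refine setIntegral_congr_fun measurableSet_Ioi fun τ hτ => ?_
  have : 0 ≤ Real.sinh τ := (Real.sinh_pos_iff.mpr hτ).le
  simp only [NNReal.smul_def, Real.coe_toNNReal _ this]

/-- `∫ g d(cosh²(2b) db) = ∫ g(b) cosh²(2b) db`. -/
theorem integral_fermiMeas842 {E : Type*} [NormedAddCommGroup E] [NormedSpace ℝ E]
    (g : ℝ → E) :
    ∫ b, g b ∂fermiMeas = ∫ b : ℝ, (Real.cosh (2 * b) ^ 2) • g b := by
  rw [fermiMeas_eq842, integral_withDensity_eq_integral_smul measurable_cosh_toNNReal842]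
  refine integral_congr_ae (Filter.Eventually.of_forall fun b => ?_)
  have : 0 ≤ Real.cosh (2 * b) ^ 2 := by positivity
  simp only [NNReal.smul_def, Real.coe_toNNReal _ this]

/-- A continuous function with compact support is integrable for `sinh τ dτ|_{τ>0}`. -/
theorem integrable_sinhMeas842 {E : Type*} [NormedAddCommGroup E] [NormedSpace ℝ E]
    (g : ℝ → E) (hg : Continuous g) (hgs : HasCompactSupport g) : Integrable g sinhMeas := by
  rw [sinhMeas_eq842,
    integrable_withDensity_iff_integrable_smul₀ measurable_sinh_toNNReal842.aemeasurable]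
  have hc : Continuous fun τ : ℝ => Real.toNNReal (Real.sinh τ) • g τ :=
    (continuous_real_toNNReal.comp Real.continuous_sinh).smul hg
  have hs : HasCompactSupport fun τ : ℝ => Real.toNNReal (Real.sinh τ) • g τ :=
    hgs.smul_left
  exact (hc.integrable_of_hasCompactSupport hs).restrict

/-- A continuous function with compact support is integrable for `cosh²(2b) db`. -/
theorem integrable_fermiMeas842 {E : Type*} [NormedAddCommGroup E] [NormedSpace ℝ E]
    (g : ℝ → E) (hg : Continuous g) (hgs : HasCompactSupport g) : Integrable g fermiMeas := by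
  rw [fermiMeas_eq842,
    integrable_withDensity_iff_integrable_smul₀ measurable_cosh_toNNReal842.aemeasurable]
  have hc : Continuous fun b : ℝ => Real.toNNReal (Real.cosh (2 * b) ^ 2) • g b :=
    (continuous_real_toNNReal.comp (by fun_prop)).smul hg
  have hs : HasCompactSupport fun b : ℝ => Real.toNNReal (Real.cosh (2 * b) ^ 2) • g b :=
    hgs.smul_left
  exact hc.integrable_of_hasCompactSupport hs

end Fermat.Agent.LT.T6.H842

end

end
-- ===== PACK-END LT/T6/H842/EllMeas.lean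

-- ===== PACK-BEGIN LT/T6/H820/CStar.lean
section



/-!
# Row LT, tower T6, station T6.20e: the value of `cStar634` (helper820)

OFF-MAIN.  ASSET + ADAPTER for the explicit route of helper634 (`EllCut.lean`).

* `cStar_eq820` : if `μ|_{det > 0} = c • (iwaR)_* iwaMR` and `μ' = c' • (iwaC)_* (iwaMC κ)`
  (`κ` the Haar probability measure of `U(2)`), then
  `cStar634 μ μ' = c'.toReal / (8 * π * c.toReal)`  (`= c_I' / (8π c_I)`).
* `cStar_pos820` : `0 < cStar634 μ μ'` if moreover `c, c' ∉ {0, ⊤}`;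
  `cStar_pos_of_iwasawa820 : IwasawaRC → U2HaarC → IwasawaCC → ∀ Haar μ μ', 0 < cStar634 μ μ'`.
* `HypIwaC820` : the hyperbolic matching in the form in which the computation produces it
  (for ALL constants `c`, `c'` of the two Iwasawa formulas, `c' / (8π c)` is a matching constant
  on `{disc > 0}`), and the PROVED adapter
  `hypExpl_of_iwa820 : IwasawaRC → U2HaarC → IwasawaCC → HypIwaC820 → HypExplC634`;
  likewise `EllIwaC820` and `ellValue_of_iwa820 : … → EllIwaC820 → EllValueC634`.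
-/

set_option autoImplicit false

open MeasureTheory
open scoped Matrix ENNReal

noncomputable section

namespace Fermat.Agent.LT.T6.H820

open Fermat.Agent.LT.T6 Fermat.Agent.LT.T6.H189 Fermat.Agent.LT.T6.H634 Fermat.Agent.LT.T6.H626

/-- **The value of `cStar634`** in terms of the constants of the two Iwasawa formulas. -/
theorem cStar_eq820 (μ : @Measure (GL (Fin 2) ℝ) (borel _))
    (κ μ' : @Measure (GL (Fin 2) ℂ) (borel _)) (hκ : IsU2Haar κ) (c c' : ℝ≥0∞)
    (hR : @Measure.restrict _ (borel _) μ posR = c • @Measure.map _ _ _ (borel _) iwaR iwaMR)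
    (hC : μ' = c' • @Measure.map _ _
        (@Prod.instMeasurableSpace _ _ _ (@Prod.instMeasurableSpace _ _ _
          (@Prod.instMeasurableSpace _ _ _ (borel _)))) (borel _) iwaC (iwaMC κ)) :
    cStar634 μ μ' = c'.toReal / (8 * Real.pi * c.toReal) := by
  unfold cStar634
  rw [boxR_measure820 μ c hR, boxC_measure820 κ μ' hκ c' hC]
  rw [ENNReal.toReal_mul, ENNReal.toReal_mul, ENNReal.toReal_ofReal Real.pi_pos.le,
    ENNReal.toReal_ofReal (by positivity)]
  have hpi : Real.pi ≠ 0 := Real.pi_ne_zero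
  by_cases hc : c.toReal = 0
  · rw [hc]
    simp
  · field_simp
    ring

/-- `cStar634` is positive. -/
theorem cStar_pos820 (μ : @Measure (GL (Fin 2) ℝ) (borel _))
    (κ μ' : @Measure (GL (Fin 2) ℂ) (borel _)) (hκ : IsU2Haar κ) (c c' : ℝ≥0∞)
    (hc0 : c ≠ 0) (hc1 : c ≠ ⊤) (hc0' : c' ≠ 0) (hc1' : c' ≠ ⊤)
    (hR : @Measure.restrict _ (borel _) μ posR = c • @Measure.map _ _ _ (borel _) iwaR iwaMR)
    (hC : μ' = c' • @Measure.map _ _
        (@Prod.instMeasurableSpace _ _ _ (@Prod.instMeasurableSpace _ _ _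
          (@Prod.instMeasurableSpace _ _ _ (borel _)))) (borel _) iwaC (iwaMC κ)) :
    0 < cStar634 μ μ' := by
  rw [cStar_eq820 μ κ μ' hκ c c' hR hC]
  have h1 : 0 < c.toReal := ENNReal.toReal_pos hc0 hc1
  have h2 : 0 < c'.toReal := ENNReal.toReal_pos hc0' hc1'
  have hpi := Real.pi_pos
  positivity

/-- `cStar634` is positive for all Haar measures, from the Iwasawa formulas of T6.23. -/
theorem cStar_pos_of_iwasawa820 (hR : IwasawaRC) (hU : U2HaarC) (hC : IwasawaCC)
    (μ : @Measure (GL (Fin 2) ℝ) (borel _)) (μ' : @Measure (GL (Fin 2) ℂ) (borel _))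
    (hμ : @Measure.IsHaarMeasure _ _ _ (borel _) μ)
    (hμ' : @Measure.IsHaarMeasure _ _ _ (borel _) μ') : 0 < cStar634 μ μ' := by
  obtain ⟨κ, hκ⟩ := hU
  obtain ⟨c, hc0, hc1, hcR⟩ := hR μ hμ
  obtain ⟨c', hc0', hc1', hcC⟩ := hC κ hκ μ' hμ'
  exact cStar_pos820 μ κ μ' hκ c c' hc0 hc1 hc0' hc1' hcR hcC

/-- **The matching with the constants of the Iwasawa formulas** on the regular elements with
`P`: for ALL constants `c`, `c'` of the two Iwasawa formulas, `c' / (8π c)` is a matching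
constant.  (This is the form in which the computation of the orbital integrals produces the
constant.) -/
def MatchIwaOn820 (P : GL (Fin 2) ℝ → Prop) : Prop :=
  ∀ (μ : @Measure (GL (Fin 2) ℝ) (borel _)) (κ μ' : @Measure (GL (Fin 2) ℂ) (borel _)),
    @Measure.IsHaarMeasure _ _ _ (borel _) μ → @Measure.IsHaarMeasure _ _ _ (borel _) μ' →
    IsU2Haar κ → ∀ c c' : ℝ≥0∞, c ≠ 0 → c ≠ ⊤ → c' ≠ 0 → c' ≠ ⊤ →
    @Measure.restrict _ (borel _) μ posR = c • @Measure.map _ _ _ (borel _) iwaR iwaMR →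
    μ' = c' • @Measure.map _ _
        (@Prod.instMeasurableSpace _ _ _ (@Prod.instMeasurableSpace _ _ _
          (@Prod.instMeasurableSpace _ _ _ (borel _)))) (borel _) iwaC (iwaMC κ) →
    IsMatchConstOn626 P μ μ' (c'.toReal / (8 * Real.pi * c.toReal))

/-- The hyperbolic matching with the constants of the Iwasawa formulas. -/
def HypIwaC820 : Prop := MatchIwaOn820 (fun γ => 0 < disc γ)

/-- The elliptic matching with the constants of the Iwasawa formulas. -/
def EllIwaC820 : Prop := MatchIwaOn820 (fun γ => disc γ < 0)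

/-- The matching with `cStar634` from the matching with the Iwasawa constants. -/
theorem matchStar_of_iwa820 (P : GL (Fin 2) ℝ → Prop) (hR : IwasawaRC) (hU : U2HaarC)
    (hC : IwasawaCC) (hM : MatchIwaOn820 P)
    (μ : @Measure (GL (Fin 2) ℝ) (borel _)) (μ' : @Measure (GL (Fin 2) ℂ) (borel _))
    (hμ : @Measure.IsHaarMeasure _ _ _ (borel _) μ)
    (hμ' : @Measure.IsHaarMeasure _ _ _ (borel _) μ') :
    IsMatchConstOn626 P μ μ' (cStar634 μ μ') := by
  obtain ⟨κ, hκ⟩ := hU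
  obtain ⟨c, hc0, hc1, hcR⟩ := hR μ hμ
  obtain ⟨c', hc0', hc1', hcC⟩ := hC κ hκ μ' hμ'
  rw [cStar_eq820 μ κ μ' hκ c c' hcR hcC]
  exact hM μ κ μ' hμ hμ' hκ c c' hc0 hc1 hc0' hc1' hcR hcC

/-- **ADAPTER**: `HypExplC634` (VERBATIM) from the hyperbolic matching with the Iwasawa
constants. -/
theorem hypExpl_of_iwa820 (hR : IwasawaRC) (hU : U2HaarC) (hC : IwasawaCC) (hM : HypIwaC820) :
    HypExplC634 :=
  fun μ μ' hμ hμ' =>
    ⟨cStar_pos_of_iwasawa820 hR hU hC μ μ' hμ hμ',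
      matchStar_of_iwa820 _ hR hU hC hM μ μ' hμ hμ'⟩

/-- **ADAPTER**: `EllValueC634` (VERBATIM) from the elliptic matching with the Iwasawa
constants. -/
theorem ellValue_of_iwa820 (hR : IwasawaRC) (hU : U2HaarC) (hC : IwasawaCC) (hM : EllIwaC820) :
    EllValueC634 :=
  fun μ μ' hμ hμ' => matchStar_of_iwa820 _ hR hU hC hM μ μ' hμ hμ'

/-- **`GeoMatchC626` (VERBATIM)** from the two matchings with the Iwasawa constants. -/
theorem geoMatch_of_iwa820 (hR : IwasawaRC) (hU : U2HaarC) (hC : IwasawaCC) (hH : HypIwaC820)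
    (hE : EllIwaC820) : GeoMatchC626 :=
  geoMatch_of_expl634 (hypExpl_of_iwa820 hR hU hC hH) (ellValue_of_iwa820 hR hU hC hE)

end Fermat.Agent.LT.T6.H820

end

end
-- ===== PACK-END LT/T6/H820/CStar.lean

-- ===== PACK-BEGIN LT/T6/H944/F1Abel.lean
section









/-!
# Row LT, tower T6, sub-leaf T6.20a.10 `F1AbelOfC626`: CLOSED (helper944)

OFF-MAIN.  Sub-spec: `LT/T6/H626/AbelCut.lean` (helper626, sha256 6a4d529b) and
`LT/T6/H626/FamAlg.lean` (9c407f7e), on `LT/T6/H626/ArchCut.lean` (fac998d4),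
`LT/T6/H830/HCSpec.lean` (helper830, c3e7d846), `LT/T6/SpecArch.lean` (helper22, 003240b2),
`LT/T6/Spec.lean` (v3, 8c5f2ae7); asset `LT/T6/H830/HCTransC.lean` (helper830, c283e776):
byte-identical copies.  Nothing is assumed.

`f1AbelOf944 : F1AbelOfC626`, i.e.
`H830.CartanCC → H830.WIntCC → RadInt1C626 → ∀ c n, n = 1 ∨ n = -1 → ∀ φ, IsArchTestC φ →
IsAbelHalf626 c φ (abelF1_626 c n φ)` (VERBATIM; the hypothesis `n = ±1` is not used).

## Proof

`ζ = log √(ab)`, `r = log √(a/b)`, `A = cosh r = (a + b) / (2 √a √b)`, `α = a / (4b)`, `β = 1/2`,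
`Φ = profX944 φ ζ` = the profile of `φ` on `|det| = e^ζ` as a function of `X = rhoC`
(`Φ (rhoC g) = φ g` by `CartanCC`, `Φ (cosh s) = φ (bC ζ s 0)`; continuous, `0` for large `X`).

* Left side: for `y = !![a, a x; 0, b]`, `ρ + 1 = 2 (A² + α x²)`, `x_v = √(A² + α x² + β v²)`,
  `j_n(y) = (a + b) ± i a x`, `φ(M_v(y)) = Φ(x_v)` (`famAlg626`), so the integrand is
  `(p + q x) ∫ Φ(√(A² + α x² + β v²)) / (A² + α x²) dv`; the part `q x` is odd
  (`integral_affine_mul944`: the kernel is continuous with compact support on `ℝ²`), the rest is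
  `RadInt1C626`.
* Right side: `u' w = bC ζ r w`, `WIntCC` with `Ψ = 1`, and the substitution `X = cosh s`
  (`integral_cosh_subst944`).
* Constants: `(√2/4) A (2π / (A √(αβ))) = 2π e^{-r}`.

Reusable for T6.20a.9 (`F0AbelOfC626`): sections 1-3 (`profX944`, `profX_rhoC944`,
`profX_cosh944`, `profX_eq_zero944`, `integral_cosh_subst944`, `rhoM_upper944`, `xv_upper944`).
-/

set_option autoImplicit false

open scoped Matrix
open MeasureTheory

noncomputable section

namespace Fermat.Agent.LT.T6.H944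

open Fermat.Agent.LT.T6 Fermat.Agent.LT.T6.H626 Fermat.Agent.LT.T6.H830

/-! ## 1. The radial profile as a function of `X = rhoC` -/

/-- The radial profile of `φ` on `|det| = e^ζ` as a function of `X = rhoC`. -/
def profX944 (φ : GL (Fin 2) ℂ → ℂ) (ζ : ℝ) (X : ℝ) : ℂ :=
  φ (bC ζ (Real.arcosh (max X 1)) 0)

theorem continuous_profX944 {φ : GL (Fin 2) ℂ → ℂ} (hφ : IsArchTestC φ) (ζ : ℝ) :
    Continuous (profX944 φ ζ) := by
  have h1 : Continuous fun X : ℝ => Real.arcosh (max X 1) :=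
    Real.continuousOn_arcosh.comp_continuous (continuous_id.max continuous_const)
      (fun X => le_max_right X 1)
  exact (continuous_profile830 hφ ζ).comp h1

theorem norm_det_bC944 (ζ s : ℝ) (w : ℂ) :
    ‖((bC ζ s w : GL (Fin 2) ℂ) : Matrix (Fin 2) (Fin 2) ℂ).det‖ = Real.exp ζ := by
  rw [coe_bC830, Matrix.det_fin_two_of, mul_zero, sub_zero, ← Complex.ofReal_mul,
    Complex.norm_real, Real.norm_eq_abs, abs_of_pos (mul_pos (Real.exp_pos _) (Real.exp_pos _)),
    ← Real.exp_add]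
  congr 1
  ring

/-- `φ` is a function of `rhoC` on `|det| = e^ζ` (`CartanCC`). -/
theorem profX_rhoC944 (hC : CartanCC) {φ : GL (Fin 2) ℂ → ℂ} (hφ : IsArchTestC φ) (ζ : ℝ)
    (g : GL (Fin 2) ℂ) (hg : ‖(g : Matrix (Fin 2) (Fin 2) ℂ).det‖ = Real.exp ζ) :
    φ g = profX944 φ ζ (rhoC g) := by
  have h1 : 1 ≤ rhoC g := one_le_rhoC830 g
  unfold profX944
  rw [max_eq_left h1]
  obtain ⟨k, k', hk, hk', e⟩ := hC g (bC ζ (Real.arcosh (rhoC g)) 0)
    (by rw [hg, norm_det_bC944]) (by rw [rhoC_bC_zero830, Real.cosh_arcosh h1])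
  rw [e, hφ.right _ _ hk', hφ.left _ _ hk]

theorem profX_cosh944 (hC : CartanCC) {φ : GL (Fin 2) ℂ → ℂ} (hφ : IsArchTestC φ) (ζ s : ℝ) :
    profX944 φ ζ (Real.cosh s) = φ (bC ζ s 0) := by
  rw [profX_rhoC944 hC hφ ζ (bC ζ s 0) (norm_det_bC944 ζ s 0), rhoC_bC_zero830]

theorem profX_eq_zero944 {φ : GL (Fin 2) ℂ → ℂ} (hφ : IsArchTestC φ) (ζ : ℝ) :
    ∃ R : ℝ, ∀ X : ℝ, R < X → profX944 φ ζ X = 0 := by
  obtain ⟨M, hM⟩ := (hφ.supp.isCompact.bddAbove_image continuous_rhoC830.continuousOn)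
  have hM' : ∀ g, φ g ≠ 0 → rhoC g ≤ M := fun g hg => hM ⟨g, subset_tsupport _ hg, rfl⟩
  refine ⟨max M 1, fun X hX => ?_⟩
  by_contra hne
  have h1 : (1 : ℝ) ≤ X := le_trans (le_max_right M 1) hX.le
  have h2 := hM' _ hne
  rw [rhoC_bC_zero830, max_eq_left h1, Real.cosh_arcosh h1] at h2
  exact absurd (lt_of_le_of_lt (le_max_left M 1) hX) (not_lt.2 h2)

/-! ## 2. Real analysis (Mathlib only) -/

theorem tendsto_cosh_atTop944 : Filter.Tendsto Real.cosh Filter.atTop Filter.atTop := by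
  refine Filter.tendsto_atTop_mono (f := fun x => Real.exp x / 2) (fun x => ?_)
    (Real.tendsto_exp_atTop.atTop_div_const (by norm_num))
  rw [Real.cosh_eq]
  have := Real.exp_pos (-x)
  linarith

/-- `s ↦ Φ (cosh s)` has compact support if `Φ` vanishes on `(R, ∞)`. -/
theorem hasCompactSupport_comp_cosh944 (Φ : ℝ → ℂ) (hR : ∃ R : ℝ, ∀ X : ℝ, R < X → Φ X = 0) :
    HasCompactSupport fun s : ℝ => Φ (Real.cosh s) := by
  obtain ⟨R, hR⟩ := hR
  set S := Real.arcosh (max R 1) with hS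
  have hS0 : 0 ≤ S := Real.arcosh_nonneg (le_max_right R 1)
  refine HasCompactSupport.intro (isCompact_Icc (a := -S) (b := S)) (fun s hs => hR _ ?_)
  have h1 : |S| < |s| := by
    rw [abs_of_nonneg hS0]
    by_contra h
    rw [not_lt] at h
    exact hs ⟨by linarith [neg_abs_le s], by linarith [le_abs_self s]⟩
  have h2 : Real.cosh S < Real.cosh s := Real.cosh_lt_cosh.2 h1
  rw [hS, Real.cosh_arcosh (le_max_right R 1)] at h2
  exact lt_of_le_of_lt (le_max_left R 1) h2

/-- The substitution `X = cosh s` on a half line. -/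
theorem integral_cosh_subst944 (Φ : ℝ → ℂ) (hΦ : Continuous Φ)
    (hR : ∃ R : ℝ, ∀ X : ℝ, R < X → Φ X = 0) (t : ℝ) :
    (∫ s in Set.Ioi t, Φ (Real.cosh s) * ((Real.sinh s : ℝ) : ℂ))
      = ∫ X in Set.Ioi (Real.cosh t), Φ X := by
  have hcs := hasCompactSupport_comp_cosh944 Φ hR
  obtain ⟨R, hR⟩ := hR
  have hg1 : IntegrableOn Φ (Set.Ici 1) := by
    have h0 : IntegrableOn Φ (Set.Icc 1 (max R 1)) := hΦ.continuousOn.integrableOn_Icc
    refine h0.of_forall_sdiff_eq_zero measurableSet_Ici (fun x hx => hR x ?_)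
    have hx1 : (1 : ℝ) ≤ x := hx.1
    have hx2 : ¬ x ≤ max R 1 := fun h => hx.2 ⟨hx1, h⟩
    exact lt_of_le_of_lt (le_max_left R 1) (not_le.1 hx2)
  have hk : Continuous fun s : ℝ => Real.sinh s • (Φ ∘ Real.cosh) s :=
    Real.continuous_sinh.smul (hΦ.comp Real.continuous_cosh)
  have hkc : HasCompactSupport fun s : ℝ => Real.sinh s • (Φ ∘ Real.cosh) s := by
    have := hcs.smul_left (f := Real.sinh)
    exact this
  have hg2 : IntegrableOn (fun s : ℝ => Real.sinh s • (Φ ∘ Real.cosh) s) (Set.Ici t) :=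
    (hk.integrable_of_hasCompactSupport hkc).integrableOn
  have key := MeasureTheory.integral_deriv_smul_comp_Ioi (f := Real.cosh) (f' := Real.sinh)
    (g := Φ) (a := t) Real.continuous_cosh.continuousOn tendsto_cosh_atTop944
    (fun x _ => (Real.hasDerivAt_cosh x).hasDerivWithinAt) hΦ.continuousOn
    (hg1.mono_set (by
      rintro _ ⟨s, -, rfl⟩
      exact Real.one_le_cosh s)) hg2
  rw [← key]
  refine setIntegral_congr_fun measurableSet_Ioi (fun s _ => ?_)
  simp only [Function.comp_apply, Complex.real_smul]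
  ring

/-- The function `(x, v) ↦ Φ(√(A² + α x² + β v²)) / (A² + α x²)`. -/
def radKer944 (Φ : ℝ → ℂ) (A α β : ℝ) (z : ℝ × ℝ) : ℂ :=
  Φ (Real.sqrt (A ^ 2 + α * z.1 ^ 2 + β * z.2 ^ 2)) / ((A ^ 2 + α * z.1 ^ 2 : ℝ) : ℂ)

theorem continuous_radKer944 (Φ : ℝ → ℂ) (hΦ : Continuous Φ) (A α β : ℝ) (hA : 0 < A)
    (hα : 0 < α) : Continuous (radKer944 Φ A α β) := by
  unfold radKer944
  refine Continuous.div (hΦ.comp (Real.continuous_sqrt.comp (by fun_prop)))
    (Complex.continuous_ofReal.comp (by fun_prop)) (fun z => ?_)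
  have : 0 < A ^ 2 + α * z.1 ^ 2 := by positivity
  exact Complex.ofReal_ne_zero.2 this.ne'

theorem radKer_eq_zero944 (Φ : ℝ → ℂ) {R : ℝ} (hR0 : 0 ≤ R) (hR : ∀ X : ℝ, R < X → Φ X = 0)
    (A α β : ℝ) (hα : 0 < α) (hβ : 0 < β) (z : ℝ × ℝ)
    (hz : z ∉ Set.Icc (-(1 + R ^ 2 / α)) (1 + R ^ 2 / α) ×ˢ
      Set.Icc (-(1 + R ^ 2 / β)) (1 + R ^ 2 / β)) :
    radKer944 Φ A α β z = 0 := by
  have hbig : ∀ (γ t : ℝ), 0 < γ → ¬ (t ∈ Set.Icc (-(1 + R ^ 2 / γ)) (1 + R ^ 2 / γ)) →
      R ^ 2 < γ * t ^ 2 := by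
    intro γ t hγ ht
    have h1 : 1 + R ^ 2 / γ < |t| := by
      by_contra h
      rw [not_lt] at h
      exact ht ⟨by linarith [neg_abs_le t], by linarith [le_abs_self t]⟩
    have h0 : 0 ≤ R ^ 2 / γ := by positivity
    have h2 : |t| ≤ t ^ 2 := by
      rw [← sq_abs t]
      nlinarith [abs_nonneg t]
    have h3 : R ^ 2 / γ < t ^ 2 := by linarith
    rw [div_lt_iff₀ hγ] at h3
    linarith
  have hS : R ^ 2 < A ^ 2 + α * z.1 ^ 2 + β * z.2 ^ 2 := by
    by_cases h1 : z.1 ∈ Set.Icc (-(1 + R ^ 2 / α)) (1 + R ^ 2 / α)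
    · have h2 : ¬ z.2 ∈ Set.Icc (-(1 + R ^ 2 / β)) (1 + R ^ 2 / β) := fun h2 => hz ⟨h1, h2⟩
      have := hbig β z.2 hβ h2
      nlinarith [sq_nonneg A, mul_nonneg hα.le (sq_nonneg z.1)]
    · have := hbig α z.1 hα h1
      nlinarith [sq_nonneg A, mul_nonneg hβ.le (sq_nonneg z.2)]
  unfold radKer944
  rw [hR _ ((Real.lt_sqrt hR0).2 hS), zero_div]

theorem hasCompactSupport_radKer944 (Φ : ℝ → ℂ) (hR : ∃ R : ℝ, ∀ X : ℝ, R < X → Φ X = 0)
    (A α β : ℝ) (hα : 0 < α) (hβ : 0 < β) : HasCompactSupport (radKer944 Φ A α β) := by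
  obtain ⟨R, hR⟩ := hR
  have hR' : ∀ X : ℝ, max R 0 < X → Φ X = 0 := fun X hX =>
    hR X (lt_of_le_of_lt (le_max_left R 0) hX)
  exact HasCompactSupport.intro (isCompact_Icc.prod isCompact_Icc)
    (fun z hz => radKer_eq_zero944 Φ (le_max_right R 0) hR' A α β hα hβ z hz)

/-- The odd part of the `x`-integral vanishes. -/
theorem integral_affine_mul944 (Φ : ℝ → ℂ) (hΦ : Continuous Φ)
    (hR : ∃ R : ℝ, ∀ X : ℝ, R < X → Φ X = 0) (A α β : ℝ) (hA : 0 < A) (hα : 0 < α)
    (hβ : 0 < β) (p q : ℂ) :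
    (∫ x : ℝ, (p + q * ((x : ℝ) : ℂ)) *
        ∫ v : ℝ, Φ (Real.sqrt (A ^ 2 + α * x ^ 2 + β * v ^ 2)) / ((A ^ 2 + α * x ^ 2 : ℝ) : ℂ))
      = p * ∫ x : ℝ, ∫ v : ℝ,
          Φ (Real.sqrt (A ^ 2 + α * x ^ 2 + β * v ^ 2)) / ((A ^ 2 + α * x ^ 2 : ℝ) : ℂ) := by
  have hc := continuous_radKer944 Φ hΦ A α β hA hα
  have hs := hasCompactSupport_radKer944 Φ hR A α β hα hβ
  have hi : Integrable (radKer944 Φ A α β) ((volume : Measure ℝ).prod (volume : Measure ℝ)) :=
    hc.integrable_of_hasCompactSupport hs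
  have hc2 : Continuous fun z : ℝ × ℝ => ((z.1 : ℝ) : ℂ) * radKer944 Φ A α β z :=
    (Complex.continuous_ofReal.comp continuous_fst).mul hc
  have hs2 : HasCompactSupport fun z : ℝ × ℝ => ((z.1 : ℝ) : ℂ) * radKer944 Φ A α β z := by
    have := hs.mul_left (f := fun z : ℝ × ℝ => ((z.1 : ℝ) : ℂ))
    exact this
  have hi2 : Integrable (fun z : ℝ × ℝ => ((z.1 : ℝ) : ℂ) * radKer944 Φ A α β z)
      ((volume : Measure ℝ).prod (volume : Measure ℝ)) :=
    hc2.integrable_of_hasCompactSupport hs2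
  set H : ℝ → ℂ := fun x => ∫ v : ℝ, radKer944 Φ A α β (x, v) with hH
  have hHi : Integrable H := hi.integral_prod_left
  have hxHi : Integrable fun x : ℝ => ((x : ℝ) : ℂ) * H x := by
    have := hi2.integral_prod_left
    refine this.congr (Filter.Eventually.of_forall fun x => ?_)
    simp only [hH]
    rw [← integral_const_mul]
  have hodd : (∫ x : ℝ, ((x : ℝ) : ℂ) * H x) = 0 := by
    have h1 := integral_neg_eq_self (fun x : ℝ => ((x : ℝ) : ℂ) * H x) volume
    have h2 : (fun x : ℝ => (((-x : ℝ) : ℝ) : ℂ) * H (-x))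
        = fun x : ℝ => -(((x : ℝ) : ℂ) * H x) := by
      funext x
      have : H (-x) = H x := by
        simp only [hH, radKer944, neg_sq]
      rw [this]
      push_cast
      ring
    rw [h2, integral_neg] at h1
    have h3 : (2 : ℂ) * ∫ x : ℝ, ((x : ℝ) : ℂ) * H x = 0 := by
      linear_combination -h1
    rcases mul_eq_zero.1 h3 with h | h
    · exact absurd h two_ne_zero
    · exact h
  show (∫ x : ℝ, (p + q * ((x : ℝ) : ℂ)) * H x) = p * ∫ x : ℝ, H x
  have e : (fun x : ℝ => (p + q * ((x : ℝ) : ℂ)) * H x)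
      = fun x : ℝ => p * H x + q * (((x : ℝ) : ℂ) * H x) := by
    funext x
    ring
  rw [e, integral_add (hHi.const_mul p) (hxHi.const_mul q), integral_const_mul,
    integral_const_mul, hodd, mul_zero, add_zero]

/-! ## 3. The upper triangular matrices `!![a, a x; 0, b]` -/

theorem det_upper944 (a b x : ℝ) :
    (!![a, a * x; 0, b] : Matrix (Fin 2) (Fin 2) ℝ).det = a * b := by
  rw [Matrix.det_fin_two_of]
  ring

/-- `ρ + 1 = 2 (A² + α x²)`, `A = (a + b) / (2 √a √b)`, `α = a / (4 b)`. -/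
theorem rhoM_upper944 (a b x : ℝ) (ha : 0 < a) (hb : 0 < b) :
    rhoM626 !![a, a * x; 0, b] + 1
      = 2 * (((a + b) / (2 * (Real.sqrt a * Real.sqrt b))) ^ 2 + a / (4 * b) * x ^ 2) := by
  have hsa : Real.sqrt a ^ 2 = a := Real.sq_sqrt ha.le
  have hsb : Real.sqrt b ^ 2 = b := Real.sq_sqrt hb.le
  have hsa0 : Real.sqrt a ≠ 0 := (Real.sqrt_pos.2 ha).ne'
  have hsb0 : Real.sqrt b ≠ 0 := (Real.sqrt_pos.2 hb).ne'
  unfold rhoM626
  rw [trace_transpose_mul626, det_upper944, abs_of_pos (mul_pos ha hb)]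
  simp only [Matrix.of_apply, Matrix.cons_val', Matrix.cons_val_zero, Matrix.cons_val_one,
    Matrix.empty_val', Matrix.cons_val_fin_one]
  rw [div_pow, mul_pow, mul_pow, hsa, hsb]
  field_simp
  ring

/-- `x_v = √(A² + α x² + v²/2)`. -/
theorem xv_upper944 (a b x v : ℝ) (ha : 0 < a) (hb : 0 < b) :
    xv626 (rhoM626 !![a, a * x; 0, b]) v
      = Real.sqrt (((a + b) / (2 * (Real.sqrt a * Real.sqrt b))) ^ 2 + a / (4 * b) * x ^ 2
          + 1 / 2 * v ^ 2) := by
  unfold xv626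
  congr 1
  have := rhoM_upper944 a b x ha hb
  linarith

/-- `j_n = (a + b) ± i a x`. -/
theorem jn_upper944 (n : ℤ) (a b x : ℝ) (y : GL (Fin 2) ℝ)
    (hy : (y : Matrix (Fin 2) (Fin 2) ℝ) = !![a, a * x; 0, b]) :
    jn626 n y = ((a + b : ℝ) : ℂ)
      + (if n = 1 then (1 : ℂ) else -1) * ((a : ℝ) : ℂ) * Complex.I * ((x : ℝ) : ℂ) := by
  have h : holPart y = (((a + b : ℝ) : ℂ) + ((0 - a * x : ℝ) : ℂ) * Complex.I) / 2 := by
    unfold holPart
    rw [hy]
    simp only [Matrix.of_apply, Matrix.cons_val', Matrix.cons_val_zero, Matrix.cons_val_one,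
      Matrix.empty_val', Matrix.cons_val_fin_one]
  unfold jn626
  rw [h]
  split_ifs with hn
  · simp only [map_div₀, map_add, map_mul, Complex.conj_ofReal, Complex.conj_I, map_ofNat]
    push_cast
    ring
  · push_cast
    ring

/-! ## 4. The leaf -/

/-- **T6.20a.10** (`F1AbelOfC626`, VERBATIM): the Abel relation for the closed form of weight
`n = ±1`. -/
theorem f1AbelOf944 : F1AbelOfC626 := by
  intro hC hW hR1 c n _ φ hφ a b ha hb u u' hu hu'
  have hsa : 0 < Real.sqrt a := Real.sqrt_pos.2 ha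
  have hsb : 0 < Real.sqrt b := Real.sqrt_pos.2 hb
  have hsa2 : Real.sqrt a ^ 2 = a := Real.sq_sqrt ha.le
  have hsb2 : Real.sqrt b ^ 2 = b := Real.sq_sqrt hb.le
  have hsab : Real.sqrt (a * b) = Real.sqrt a * Real.sqrt b := Real.sqrt_mul ha.le b
  set sa := Real.sqrt a with hsadef
  set sb := Real.sqrt b with hsbdef
  set ζ : ℝ := (Real.log a + Real.log b) / 2 with hζ
  set r : ℝ := (Real.log a - Real.log b) / 2 with hr
  have hea : Real.exp (Real.log a / 2) = sa := by
    rw [Real.exp_half, Real.exp_log ha]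
  have heb : Real.exp (Real.log b / 2) = sb := by
    rw [Real.exp_half, Real.exp_log hb]
  have he1 : Real.exp ((ζ + r) / 2) = sa := by
    rw [← hea]; congr 1; rw [hζ, hr]; ring
  have he2 : Real.exp ((ζ - r) / 2) = sb := by
    rw [← heb]; congr 1; rw [hζ, hr]; ring
  have heζ : Real.exp ζ = sa * sb := by
    rw [← hea, ← heb, ← Real.exp_add]; congr 1; rw [hζ]; ring
  have her : Real.exp r = sa / sb := by
    rw [← hea, ← heb, ← Real.exp_sub]; congr 1; rw [hr]; ring
  have her' : Real.exp (-r) = sb / sa := by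
    rw [Real.exp_neg, her, inv_div]
  set A : ℝ := (a + b) / (2 * (sa * sb)) with hAdef
  have hA : 0 < A := by positivity
  have hAr : Real.cosh r = A := by
    rw [Real.cosh_eq, her, her', hAdef]
    field_simp
    rw [hsa2, hsb2]
  set α : ℝ := a / (4 * b) with hαdef
  have hα : 0 < α := by positivity
  have hβ : (0 : ℝ) < 1 / 2 := by norm_num
  set Φ : ℝ → ℂ := profX944 φ ζ with hΦdef
  have hΦc : Continuous Φ := continuous_profX944 hφ ζ
  have hΦ0 : ∃ R : ℝ, ∀ X : ℝ, R < X → Φ X = 0 := profX_eq_zero944 hφ ζ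
  -- the right side
  have hRHS : (∫ w : ℂ, φ (u' w))
      = ((2 * Real.pi * Real.exp (-r) : ℝ) : ℂ) * ∫ X in Set.Ioi A, Φ X := by
    have e1 : ∀ w : ℂ, u' w = bC ζ r w := fun w => by
      apply Units.ext
      rw [hu' w, coe_bC830, he1, he2]
    have e2 := hW φ hφ (fun _ => 1) continuousOn_const ζ r
    simp only [mul_one] at e2
    simp_rw [e1]
    rw [e2]
    congr 1
    rw [← hAr, ← Real.cosh_abs r, ← integral_cosh_subst944 Φ hΦc hΦ0 |r|]
    refine setIntegral_congr_fun measurableSet_Ioi (fun s _ => ?_)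
    simp only [hΦdef]
    rw [profX_cosh944 hC hφ]
  -- the left side
  set ε : ℂ := if n = 1 then (1 : ℂ) else -1 with hε
  set p : ℂ := ((Real.sqrt 2 / 4 : ℝ) : ℂ) * c * (((a + b : ℝ) : ℂ) / ((2 * (sa * sb) : ℝ) : ℂ))
    with hp
  set q : ℂ := ((Real.sqrt 2 / 4 : ℝ) : ℂ) * c *
    (ε * ((a : ℝ) : ℂ) * Complex.I / ((2 * (sa * sb) : ℝ) : ℂ)) with hq
  have hLHS : ∀ x : ℝ, abelF1_626 c n φ (u x)
      = (p + q * ((x : ℝ) : ℂ)) *
        ∫ v : ℝ, Φ (Real.sqrt (A ^ 2 + α * x ^ 2 + 1 / 2 * v ^ 2)) /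
          ((A ^ 2 + α * x ^ 2 : ℝ) : ℂ) := by
    intro x
    have hdet : ((u x : GL (Fin 2) ℝ) : Matrix (Fin 2) (Fin 2) ℝ).det = a * b := by
      rw [hu x, det_upper944]
    have hpos : 0 < ((u x : GL (Fin 2) ℝ) : Matrix (Fin 2) (Fin 2) ℝ).det := by
      rw [hdet]; positivity
    have hρ : rhoR (u x) + 1 = 2 * (A ^ 2 + α * x ^ 2) := by
      rw [rhoR_eq_rhoM626, hu x, rhoM_upper944 a b x ha hb]
    have hD : 0 < A ^ 2 + α * x ^ 2 := by positivity
    have hint : ∀ v : ℝ, φ (toGLC626 (famMat626 ((u x : GL (Fin 2) ℝ) :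
        Matrix (Fin 2) (Fin 2) ℝ) v)) = Φ (Real.sqrt (A ^ 2 + α * x ^ 2 + 1 / 2 * v ^ 2)) := by
      intro v
      obtain ⟨-, -, h3, h4⟩ := famAlg626 ((u x : GL (Fin 2) ℝ) : Matrix (Fin 2) (Fin 2) ℝ) hpos v
      rw [profX_rhoC944 hC hφ ζ _ (by rw [h4, hdet, hsab, heζ]), h3, hu x,
        xv_upper944 a b x v ha hb]
    unfold abelF1_626
    rw [if_pos hpos, hdet, hsab, hρ, jn_upper944 n a b x (u x) (hu x)]
    simp_rw [hint]
    rw [integral_div]
    have hDc : ((A ^ 2 + α * x ^ 2 : ℝ) : ℂ) ≠ 0 := Complex.ofReal_ne_zero.2 hD.ne'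
    have hsc : ((2 * (sa * sb) : ℝ) : ℂ) ≠ 0 :=
      Complex.ofReal_ne_zero.2 (by positivity)
    rw [hp, hq]
    push_cast
    push_cast at hDc hsc
    field_simp
    ring
  have hfun : (fun x : ℝ => abelF1_626 c n φ (u x))
      = fun x : ℝ => (p + q * ((x : ℝ) : ℂ)) *
        ∫ v : ℝ, Φ (Real.sqrt (A ^ 2 + α * x ^ 2 + 1 / 2 * v ^ 2)) /
          ((A ^ 2 + α * x ^ 2 : ℝ) : ℂ) := funext hLHS
  rw [hfun, integral_affine_mul944 Φ hΦc hΦ0 A α (1 / 2) hA hα hβ p q,
    hR1 Φ hΦc hΦ0 A α (1 / 2) hA hα hβ, hRHS]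
  -- the constants
  have hs2 : Real.sqrt 2 ^ 2 = 2 := Real.sq_sqrt (by norm_num)
  have hs20 : 0 < Real.sqrt 2 := Real.sqrt_pos.2 (by norm_num)
  have hsαβ : Real.sqrt (α * (1 / 2)) = sa / (2 * Real.sqrt 2 * sb) := by
    rw [Real.sqrt_eq_iff_mul_self_eq (by positivity) (by positivity), hαdef]
    field_simp
    rw [hsa2, hsb2, hs2]
    ring
  have hconst : Real.sqrt 2 / 4 * ((a + b) / (2 * (sa * sb))) *
      (2 * Real.pi / (A * Real.sqrt (α * (1 / 2)))) = 2 * Real.pi * Real.exp (-r) := by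
    rw [hsαβ, her', hAdef]
    field_simp
    rw [hs2]
    ring
  rw [← hconst, hp]
  push_cast
  ring

end Fermat.Agent.LT.T6.H944

end

end
-- ===== PACK-END LT/T6/H944/F1Abel.lean

-- ===== PACK-BEGIN LT/T6/Inf/H19/SphValues.lean
section





/-!
# Row LT, sub-tower T6inf (helper19): leaf T6inf.10 `SphValuesC`

OFF-MAIN.  Mathlib + `T6/SpecArch.lean` + `T6/Inf/Spec.lean` only.

* `sphR0_zero_cosh19` : `2π · sphR0 0 (cosh t)` is the constant of `A0.MeanValueReal`;
* `sphR1_zero_cosh19` : `sphR1 0 (cosh t) = 1 / cosh (t/2)` (mean value property of the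
  holomorphic function `w ↦ 1 / (cosh (t/2) - sinh (t/2) w)` on the unit circle);
* `sphValuesC19`      : `Inf.SphValuesC`.
-/

set_option autoImplicit false

open MeasureTheory

noncomputable section

namespace Fermat.Agent.LT.T6.Inf.H19

open Fermat.Agent.LT.T6

/-! ## Weight `0` -/

theorem base_pos19 (t u : ℝ) : 0 < Real.cosh t + Real.sinh t * Real.cos u := by
  have h1 : |Real.sinh t * Real.cos u| ≤ |Real.sinh t| := by
    rw [abs_mul]
    calc |Real.sinh t| * |Real.cos u| ≤ |Real.sinh t| * 1 :=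
          mul_le_mul_of_nonneg_left (Real.abs_cos_le_one u) (abs_nonneg _)
      _ = |Real.sinh t| := mul_one _
  have h2 : |Real.sinh t| < Real.cosh t := by
    have ha := Real.sinh_lt_cosh t
    have hb := Real.sinh_lt_cosh (-t)
    rw [Real.sinh_neg, Real.cosh_neg] at hb
    exact abs_lt.mpr ⟨by linarith, ha⟩
  have h3 := neg_abs_le (Real.sinh t * Real.cos u)
  linarith

theorem sphR0_zero_cosh19 {t : ℝ} (ht : 0 < t) :
    ((2 * Real.pi : ℝ) : ℂ) * sphR0 0 (Real.cosh t)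
      = ((∫ θ in (0 : ℝ)..(2 * Real.pi),
          (Real.cosh t + Real.sinh t * Real.cos θ) ^ (-(1 / 2 : ℝ)) : ℝ) : ℂ) := by
  set h : ℝ → ℝ := fun θ => (Real.cosh t + Real.sinh t * Real.cos θ) ^ (-(1 / 2 : ℝ)) with hdef
  have hper : Function.Periodic h (2 * Real.pi) := by
    intro θ
    simp only [hdef, Real.cos_add_two_pi]
  unfold sphR0
  rw [sqrt_cosh_sq_sub_one19 ht]
  have hint : (∫ u in (0 : ℝ)..(2 * Real.pi),
      ((Real.cosh t - Real.cos u * Real.sinh t : ℝ) : ℂ) ^ (-(0 : ℂ) - 1 / 2))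
      = ((∫ u in (0 : ℝ)..(2 * Real.pi), h (u + Real.pi) : ℝ) : ℂ) := by
    rw [← intervalIntegral.integral_ofReal]
    refine intervalIntegral.integral_congr ?_
    intro u _
    have hb : Real.cosh t - Real.cos u * Real.sinh t
        = Real.cosh t + Real.sinh t * Real.cos (u + Real.pi) := by
      rw [Real.cos_add_pi]; ring
    have hpos : 0 ≤ Real.cosh t + Real.sinh t * Real.cos (u + Real.pi) :=
      (base_pos19 t (u + Real.pi)).le
    simp only [hdef]
    rw [Complex.ofReal_cpow hpos, hb]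
    congr 1
    push_cast
    ring
  rw [hint, intervalIntegral.integral_comp_add_right (f := h) Real.pi]
  have hshift : (∫ x in (0 : ℝ) + Real.pi..2 * Real.pi + Real.pi, h x)
      = ∫ x in (0 : ℝ)..(2 * Real.pi), h x := by
    have := hper.intervalIntegral_add_eq ((0 : ℝ) + Real.pi) 0
    have e1 : (0 : ℝ) + Real.pi + 2 * Real.pi = 2 * Real.pi + Real.pi := by ring
    have e2 : (0 : ℝ) + 2 * Real.pi = 2 * Real.pi := by ring
    rw [e1, e2] at this
    exact this
  rw [hshift, ← mul_assoc, ← Complex.ofReal_mul]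
  have hpi : (2 * Real.pi) * (1 / (2 * Real.pi)) = 1 := by
    field_simp
  rw [hpi, Complex.ofReal_one, one_mul]

/-! ## Weight `1` -/

theorem cosh_half19 (t : ℝ) : (Real.cosh t + 1) / 2 = Real.cosh (t / 2) ^ 2 := by
  have h := Real.cosh_two_mul (t / 2)
  have h2 := Real.cosh_sq (t / 2)
  have e : 2 * (t / 2) = t := by ring
  rw [e] at h
  nlinarith

theorem sinh_half19 (t : ℝ) : (Real.cosh t - 1) / 2 = Real.sinh (t / 2) ^ 2 := by
  have h := Real.cosh_two_mul (t / 2)
  have h2 := Real.cosh_sq (t / 2)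
  have e : 2 * (t / 2) = t := by ring
  rw [e] at h
  nlinarith

theorem sinh_double19 (t : ℝ) : Real.sinh t = 2 * Real.sinh (t / 2) * Real.cosh (t / 2) := by
  have h := Real.sinh_two_mul (t / 2)
  have e : 2 * (t / 2) = t := by ring
  rw [e] at h
  exact h

theorem cosh_double19 (t : ℝ) : Real.cosh t = Real.cosh (t / 2) ^ 2 + Real.sinh (t / 2) ^ 2 := by
  have h := Real.cosh_two_mul (t / 2)
  have e : 2 * (t / 2) = t := by ring
  rw [e] at h
  exact h

/-- The mean of `1 / (c - σ e^{iu})` over the unit circle is `1 / c` (`0 ≤ σ < c`). -/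
theorem circle_mean_inv19 {c σ : ℝ} (hσ : 0 ≤ σ) (hc : σ < c) :
    (∫ u in (0 : ℝ)..(2 * Real.pi), (((c : ℂ) - (σ : ℂ) * circleMap 0 1 u)⁻¹ : ℂ))
      = ((2 * Real.pi / c : ℝ) : ℂ) := by
  have hcpos : 0 < c := lt_of_le_of_lt hσ hc
  have hne : ∀ w : ℂ, ‖w‖ ≤ 1 → (c : ℂ) - (σ : ℂ) * w ≠ 0 := by
    intro w hw h0
    have h1 : (c : ℂ) = (σ : ℂ) * w := sub_eq_zero.mp h0
    have h2 : ‖(c : ℂ)‖ = ‖(σ : ℂ) * w‖ := by rw [h1]
    rw [norm_mul, Complex.norm_real, Complex.norm_real, Real.norm_of_nonneg hcpos.le,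
      Real.norm_of_nonneg hσ] at h2
    have : σ * ‖w‖ ≤ σ * 1 := mul_le_mul_of_nonneg_left hw hσ
    linarith
  have hmean := circleAverage_of_differentiable_on_off_countable
    (f := fun w : ℂ => ((c : ℂ) - (σ : ℂ) * w)⁻¹) (c := (0 : ℂ)) (R := (1 : ℝ))
    (s := (∅ : Set ℂ)) Set.countable_empty
    (by
      intro w hw
      have hw' : ‖w‖ ≤ 1 := by
        have := Metric.mem_closedBall.mp hw
        simpa [dist_zero_right] using this
      have : ContinuousAt (fun w : ℂ => ((c : ℂ) - (σ : ℂ) * w)⁻¹) w :=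
        ContinuousAt.inv₀ (by fun_prop) (hne w hw')
      exact this.continuousWithinAt)
    (by
      intro w hw
      have hw' : ‖w‖ ≤ 1 := by
        have := Metric.mem_ball.mp hw.1
        rw [dist_zero_right, abs_one] at this
        exact this.le
      exact DifferentiableAt.inv (by fun_prop) (hne w hw'))
  rw [Real.circleAverage_def] at hmean
  simp only [mul_zero, sub_zero] at hmean
  have hpi : (2 * Real.pi) ≠ 0 := by positivity
  have h3 : (∫ u in (0 : ℝ)..(2 * Real.pi), (((c : ℂ) - (σ : ℂ) * circleMap 0 1 u)⁻¹ : ℂ))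
      = (2 * Real.pi) • ((c : ℂ))⁻¹ := by
    rw [← hmean, smul_smul, mul_inv_cancel₀ hpi, one_smul]
  rw [h3, Complex.real_smul]
  push_cast
  field_simp

theorem re_inv_circle19 (c σ u : ℝ) (hD : c ^ 2 + σ ^ 2 - 2 * c * σ * Real.cos u ≠ 0) :
    ((((c : ℂ) - (σ : ℂ) * circleMap 0 1 u)⁻¹ : ℂ)).re
      = (c - σ * Real.cos u) / (c ^ 2 + σ ^ 2 - 2 * c * σ * Real.cos u) := by
  have hz : (c : ℂ) - (σ : ℂ) * circleMap 0 1 u
      = ((c - σ * Real.cos u : ℝ) : ℂ) + ((-(σ * Real.sin u) : ℝ) : ℂ) * Complex.I := by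
    rw [circleMap_zero]
    have : Complex.exp ((u : ℂ) * Complex.I)
        = (Real.cos u : ℂ) + (Real.sin u : ℂ) * Complex.I := by
      rw [Complex.exp_mul_I, Complex.ofReal_cos, Complex.ofReal_sin]
    rw [this]
    push_cast
    ring
  rw [hz, Complex.inv_re]
  have hns : Complex.normSq (((c - σ * Real.cos u : ℝ) : ℂ)
      + ((-(σ * Real.sin u) : ℝ) : ℂ) * Complex.I)
      = c ^ 2 + σ ^ 2 - 2 * c * σ * Real.cos u := by
    rw [Complex.normSq_add_mul_I]
    have := Real.sin_sq_add_cos_sq u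
    nlinarith
  rw [hns]
  simp only [Complex.add_re, Complex.ofReal_re, Complex.re_ofReal_mul, Complex.I_re, mul_zero,
    add_zero]

theorem sphR1_zero_cosh19 {t : ℝ} (ht : 0 < t) :
    sphR1 0 (Real.cosh t) = ((1 / Real.cosh (t / 2) : ℝ) : ℂ) := by
  set c : ℝ := Real.cosh (t / 2) with hcdef
  set σ : ℝ := Real.sinh (t / 2) with hσdef
  have hcpos : 0 < c := Real.cosh_pos _
  have hσpos : 0 < σ := Real.sinh_pos_iff.mpr (by linarith)
  have hσc : σ < c := Real.sinh_lt_cosh _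
  have hD : ∀ u : ℝ, 0 < c ^ 2 + σ ^ 2 - 2 * c * σ * Real.cos u := by
    intro u
    have h1 : Real.cos u ≤ 1 := Real.cos_le_one u
    have h2 : 0 < c * σ := mul_pos hcpos hσpos
    nlinarith [sq_nonneg (c - σ), sq_pos_of_pos (sub_pos.mpr hσc)]
  unfold sphR1
  rw [sqrt_cosh_sq_sub_one19 ht, cosh_half19, sinh_half19, Real.sqrt_sq hcpos.le,
    Real.sqrt_sq hσpos.le]
  have hint : (∫ u in (0 : ℝ)..(2 * Real.pi),
      ((c - Real.cos u * σ : ℝ) : ℂ) *
        ((Real.cosh t - Real.cos u * Real.sinh t : ℝ) : ℂ) ^ (-(0 : ℂ) - 1))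
      = ((∫ u in (0 : ℝ)..(2 * Real.pi),
          ((((c : ℂ) - (σ : ℂ) * circleMap 0 1 u)⁻¹ : ℂ)).re : ℝ) : ℂ) := by
    rw [← intervalIntegral.integral_ofReal]
    refine intervalIntegral.integral_congr ?_
    intro u _
    simp only []
    rw [re_inv_circle19 c σ u (hD u).ne']
    have e1 : Real.cosh t - Real.cos u * Real.sinh t
        = c ^ 2 + σ ^ 2 - 2 * c * σ * Real.cos u := by
      rw [cosh_double19 t, sinh_double19 t]; ring
    rw [e1]
    have e2 : (-(0 : ℂ) - 1) = -1 := by ring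
    rw [e2, Complex.cpow_neg_one]
    push_cast
    have hDne : ((c : ℂ) ^ 2 + (σ : ℂ) ^ 2 - 2 * (c : ℂ) * (σ : ℂ) * Complex.cos (u : ℂ)) ≠ 0 := by
      have := (hD u).ne'
      have h' : (((c ^ 2 + σ ^ 2 - 2 * c * σ * Real.cos u : ℝ)) : ℂ) ≠ 0 := by
        exact_mod_cast this
      simpa using h'
    field_simp
  have hre : (∫ u in (0 : ℝ)..(2 * Real.pi),
      ((((c : ℂ) - (σ : ℂ) * circleMap 0 1 u)⁻¹ : ℂ)).re)
      = (∫ u in (0 : ℝ)..(2 * Real.pi), (((c : ℂ) - (σ : ℂ) * circleMap 0 1 u)⁻¹ : ℂ)).re := by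
    have hcont : Continuous fun u : ℝ => (((c : ℂ) - (σ : ℂ) * circleMap 0 1 u)⁻¹ : ℂ) := by
      refine Continuous.inv₀ (by fun_prop) ?_
      intro u h0
      have h1 := re_inv_circle19 c σ u (hD u).ne'
      rw [h0, inv_zero, Complex.zero_re] at h1
      have h2 : 0 < (c - σ * Real.cos u) / (c ^ 2 + σ ^ 2 - 2 * c * σ * Real.cos u) := by
        apply div_pos _ (hD u)
        have : σ * Real.cos u ≤ σ * 1 :=
          mul_le_mul_of_nonneg_left (Real.cos_le_one u) hσpos.le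
        linarith
      linarith
    have := Complex.reCLM.intervalIntegral_comp_comm
      (hcont.intervalIntegrable (μ := MeasureTheory.volume) 0 (2 * Real.pi))
    simpa using this
  rw [hint, hre, circle_mean_inv19 hσpos.le hσc, Complex.ofReal_re, ← Complex.ofReal_mul]
  congr 1
  have hpi : (2 * Real.pi) ≠ 0 := by positivity
  field_simp

/-- **T6inf.10** `SphValuesC`. -/
theorem sphValuesC19 : Inf.SphValuesC :=
  ⟨fun _ hd => sphC_zero_cosh19 hd, fun _ ht => sphR0_zero_cosh19 ht,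
    fun _ ht => sphR1_zero_cosh19 ht⟩

end Fermat.Agent.LT.T6.Inf.H19

end

end
-- ===== PACK-END LT/T6/Inf/H19/SphValues.lean

-- ===== PACK-BEGIN LT/T6/Inf/H543/Ext.lean
section


/-!
# Row LT, sub-tower T6inf, leaf T6inf.04.1 = EXT (helper543)

OFF-MAIN.  `extC_h543 : H811.ExtC811`, VERBATIM (`LT/T6/Inf/H811/ClassCut.lean`, helper811):
the eigen-equation of the circle means for ALL real `t`, with the even extension `mExt811 m`.

* `t > 0`: `MeanEig` with `Y θ = k_θ a_t`.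
* `t = 0`: `a_0 = 1`, `e (g k_θ) = e^{inθ} e g`, the integrand is constant.
* `t < 0`: `a_t = k_{π/2} a_{-t} k_{-π/2}`, `k_θ k_{π/2} = k_{θ + π/2}`, weight, and the shift
  `θ ↦ θ + π/2` of a `2π`-periodic integrand.
-/

set_option autoImplicit false

open MeasureTheory
open scoped Matrix

noncomputable section

namespace Fermat.Agent.LT.T6.Inf.H543

open Fermat.Agent.LT.T6.Inf Fermat.Agent.LT.T6.Inf.H811

/-! ## Rotations and the torus -/

theorem rotR_add543 (θ φ : ℝ) : rotR (θ + φ) = rotR θ * rotR φ := by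
  unfold rotR
  ext i j
  fin_cases i <;> fin_cases j <;>
    simp [Matrix.mul_apply, Fin.sum_univ_two, Real.cos_add, Real.sin_add] <;> ring

theorem rotG_add543 (θ φ : ℝ) : rotG811 (θ + φ) = rotG811 θ * rotG811 φ := by
  apply Units.ext
  rw [Units.val_mul, rotG_coe811, rotG_coe811, rotG_coe811, rotR_add543]

theorem rotR_periodic543 (θ : ℝ) : rotR (θ + 2 * Real.pi) = rotR θ := by
  unfold rotR
  rw [Real.cos_add_two_pi, Real.sin_add_two_pi]

theorem rotG_periodic543 (θ : ℝ) : rotG811 (θ + 2 * Real.pi) = rotG811 θ := by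
  apply Units.ext
  rw [rotG_coe811, rotG_coe811, rotR_periodic543]

theorem torG_zero543 : torG811 0 = 1 := by
  apply Units.ext
  rw [torG_coe811, Units.val_one]
  unfold torR
  ext i j
  fin_cases i <;> fin_cases j <;> simp

/-- `a_t = k_{π/2} a_{-t} k_{-π/2}`. -/
theorem torG_neg543 (t : ℝ) :
    torG811 t = rotG811 (Real.pi / 2) * torG811 (-t) * rotG811 (-(Real.pi / 2)) := by
  apply Units.ext
  rw [Units.val_mul, Units.val_mul, rotG_coe811, rotG_coe811, torG_coe811, torG_coe811]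
  unfold rotR torR
  ext i j
  fin_cases i <;> fin_cases j <;>
    simp [Matrix.mul_apply, Fin.sum_univ_two, Real.cos_pi_div_two, Real.sin_pi_div_two] <;>
    ring

/-! ## The character -/

theorem wt_add543 (n : ℤ) (θ φ : ℝ) : wt n (θ + φ) = wt n θ * wt n φ := by
  unfold wt
  rw [← Complex.exp_add]
  congr 1
  push_cast
  ring

theorem wt_neg_mul543 (n : ℤ) (θ : ℝ) : wt (-n) θ * wt n θ = 1 := by
  unfold wt
  rw [← Complex.exp_add]
  have : ((-n : ℤ) : ℂ) * (θ : ℂ) * Complex.I + (n : ℂ) * (θ : ℂ) * Complex.I = 0 := by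
    push_cast
    ring
  rw [this, Complex.exp_zero]

theorem wt_neg_arg543 (n : ℤ) (θ : ℝ) : wt n (-θ) = wt (-n) θ := by
  unfold wt
  congr 1
  push_cast
  ring

theorem wt_periodic543 (n : ℤ) (θ : ℝ) : wt n (θ + 2 * Real.pi) = wt n θ := by
  unfold wt
  have : ((n : ℤ) : ℂ) * ((θ + 2 * Real.pi : ℝ) : ℂ) * Complex.I
      = (n : ℂ) * (θ : ℂ) * Complex.I + n * (2 * Real.pi * Complex.I) := by
    push_cast
    ring
  rw [this, Complex.exp_add, Complex.exp_int_mul_two_pi_mul_I, mul_one]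

/-! ## The leaf -/

/-- **T6inf.04.1 = EXT**, verbatim. -/
theorem extC_h543 : ExtC811 := by
  intro n e m _ hw hm t g
  unfold circMean811
  rcases lt_trichotomy 0 t with ht | ht | ht
  · -- `t > 0`
    rw [mExt_pos811 m ht]
    exact hm t ht (fun θ => rotG811 θ * torG811 t) (fun θ => rfl) g
  · -- `t = 0`
    subst ht
    rw [mExt_zero811, torG_zero543]
    have h1 : ∀ θ : ℝ, wt (-n) θ * e (g * (rotG811 θ * 1)) = e g := by
      intro θ
      rw [mul_one, hw θ (rotG811 θ) g rfl, ← mul_assoc, wt_neg_mul543, one_mul]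
    simp_rw [h1]
    rw [intervalIntegral.integral_const]
    simp
  · -- `t < 0`
    have hnt : 0 < -t := by linarith
    have hmext : mExt811 m t = m (-t) := by
      unfold mExt811
      rw [if_neg (not_lt.mpr ht.le), if_neg ht.ne]
    rw [hmext]
    set F : ℝ → ℂ := fun θ => wt (-n) θ * e (g * (rotG811 θ * torG811 (-t))) with hF
    have hFper : Function.Periodic F (2 * Real.pi) := by
      intro θ
      simp only [hF]
      rw [wt_periodic543, rotG_periodic543]
    have h1 : ∀ θ : ℝ, wt (-n) θ * e (g * (rotG811 θ * torG811 t)) = F (θ + Real.pi / 2) := by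
      intro θ
      simp only [hF]
      rw [torG_neg543 t]
      have e1 : g * (rotG811 θ * (rotG811 (Real.pi / 2) * torG811 (-t)
            * rotG811 (-(Real.pi / 2))))
          = (g * (rotG811 (θ + Real.pi / 2) * torG811 (-t))) * rotG811 (-(Real.pi / 2)) := by
        rw [rotG_add543]
        group
      rw [e1, hw (-(Real.pi / 2)) (rotG811 (-(Real.pi / 2))) _ rfl, wt_add543 (-n) θ,
        wt_neg_arg543 n (Real.pi / 2)]
      ring
    simp_rw [h1]
    rw [intervalIntegral.integral_comp_add_right F (Real.pi / 2)]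
    have h2 : (∫ θ in (0 : ℝ) + Real.pi / 2..2 * Real.pi + Real.pi / 2, F θ)
        = ∫ θ in (0 : ℝ)..2 * Real.pi, F θ := by
      have h3 := hFper.intervalIntegral_add_eq (0 + Real.pi / 2) 0
      rw [zero_add (2 * Real.pi)] at h3
      rw [← h3]
      congr 1
      ring
    rw [h2]
    exact hm (-t) hnt (fun θ => rotG811 θ * torG811 (-t)) (fun θ => rfl) g

end Fermat.Agent.LT.T6.Inf.H543

end

end
-- ===== PACK-END LT/T6/Inf/H543/Ext.lean

-- ===== PACK-BEGIN LT/T6/Inf/H59/Class0Top.lean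
section



/-!
# Row LT, sub-tower T6inf, leaf T6inf.03 `ClassR0C`: the PROVED top (helper59), OFF-MAIN

`classR0_of_leaves59 : RegC59 → CartanRC59 → FunEqC59 → OdeC59 → PsOdeC59 → OdeUniqC59 →
  Inf.ClassR0C` (`Inf.ClassR0C` VERBATIM, `LT/T6/Inf/Spec.lean` of helper19).
-/

set_option autoImplicit false

open MeasureTheory
open scoped ContDiff Matrix

noncomputable section

namespace Fermat.Agent.LT.T6.Inf.H59

open Fermat.Agent.LT.T6.Inf

theorem wt_zero59 (θ : ℝ) : wt 0 θ = 1 := by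
  simp [wt]

theorem wt_neg_zero59 (θ : ℝ) : wt (-0) θ = 1 := by
  simp [wt]

theorem aR_zero59 : aR59 0 = 1 := by
  apply Units.ext
  show torR 0 = 1
  ext i j
  fin_cases i <;> fin_cases j <;> simp [torR]

/-- The circle mean of radius `0`. -/
theorem prof_zero59 (E : GR → ℂ) (hw : HasWeight 0 E) (g : GR) :
    prof59 E g 0 = ((2 * Real.pi : ℝ) : ℂ) * E g := by
  unfold prof59
  have h : ∀ θ : ℝ, E (g * kR59 θ * aR59 0) = E g := by
    intro θ
    rw [aR_zero59, mul_one, hw θ (kR59 θ) g rfl, wt_zero59, one_mul]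
  simp only [h]
  rw [intervalIntegral.integral_const, sub_zero]
  simp

/-- The circle mean of radius `t > 0` of a joint eigenfunction. -/
theorem prof_pos59 (E : GR → ℂ) (m : ℝ → ℂ) (hm : MeanEig 0 E m) (g : GR) (t : ℝ)
    (ht : 0 < t) : prof59 E g t = m t * E g := by
  unfold prof59
  have h := hm t ht (fun θ => kR59 θ * aR59 t) (fun θ => rfl) g
  simp only [wt_neg_zero59, one_mul, ← mul_assoc] at h
  exact h

/-- **TOP of T6inf.03.** -/
theorem classR0_of_leaves59 (hReg : RegC59) (hCar : CartanRC59) (hFun : FunEqC59)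
    (hOde : OdeC59) (hPs : PsOdeC59) (hUniq : OdeUniqC59) : ClassR0C := by
  intro e m hec hne hw hm
  obtain ⟨g₀, hg₀⟩ := hne
  obtain ⟨E, hEc, hE0, hEw, hEm, hsm⟩ := hReg e m hec hw hm g₀ hg₀
  set M : ℝ → ℂ := fun t => prof59 E g₀ t / E g₀ with hM
  have hM2 : ContDiff ℝ 2 M := hsm.div_const _
  have hM0 : M 0 = ((2 * Real.pi : ℝ) : ℂ) := by
    simp only [hM]
    rw [prof_zero59 E hEw g₀, mul_div_assoc, div_self hE0, mul_one]
  have hMm : ∀ t : ℝ, 0 < t → M t = m t := by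
    intro t ht
    simp only [hM]
    rw [prof_pos59 E m hEm g₀ t ht, mul_div_assoc, div_self hE0, mul_one]
  have hFE : IsSph59 M := hFun hCar E m hEc hEw hEm g₀ hE0
  obtain ⟨lam, hlam⟩ := hOde M hM2 hM0 hFE
  obtain ⟨s, hs⟩ : ∃ s : ℂ, s ^ 2 = lam + 1 / 4 :=
    IsAlgClosed.exists_pow_nat_eq (lam + 1 / 4) (by norm_num)
  have hs' : s ^ 2 - 1 / 4 = lam := by rw [hs]; ring
  obtain ⟨hP0, hPc, P', hP1, hP2⟩ := hPs s
  refine ⟨s, ?_⟩
  -- derivatives of `M`
  have hMd : Differentiable ℝ M := hM2.differentiable (by norm_num)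
  have hM1 : ContDiff ℝ 1 (deriv M) := by
    have : ContDiff ℝ (1 + 1) M := by
      rw [one_add_one_eq_two]; exact hM2
    exact (contDiff_succ_iff_deriv.mp this).2.2
  have hMdd : Differentiable ℝ (deriv M) := hM1.differentiable (by norm_num)
  have hit : ∀ t : ℝ, iteratedDeriv 2 M t = deriv (deriv M) t := by
    intro t
    rw [iteratedDeriv_succ, iteratedDeriv_one]
  -- the difference
  set c : ℂ := ((2 * Real.pi : ℝ) : ℂ) with hc
  have key := hUniq lam (fun t => M t - c * sphP s t) (fun t => deriv M t - c * P' t) ?_ ?_ ?_ ?_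
  · intro t ht
    have := key t ht
    rw [← hMm t ht]
    exact sub_eq_zero.mp this
  · exact ((hM2.continuous.sub (continuous_const.mul hPc)).continuousAt).continuousWithinAt
  · show M 0 - c * sphP s 0 = 0
    rw [hM0, hP0, mul_one, sub_self]
  · intro t ht
    exact (hMd t).hasDerivAt.sub ((hP1 t ht).const_mul c)
  · intro t ht
    have h1 : HasDerivAt (deriv M) (lam * M t
        - ((Real.cosh t / Real.sinh t : ℝ) : ℂ) * deriv M t) t := by
      have := (hMdd t).hasDerivAt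
      rw [← hit t] at this
      have e : iteratedDeriv 2 M t
          = lam * M t - ((Real.cosh t / Real.sinh t : ℝ) : ℂ) * deriv M t := by
        rw [← hlam t ht]; ring
      rw [e] at this
      exact this
    have h2 := (hP2 t ht).const_mul c
    have h3 := h1.sub h2
    refine h3.congr_deriv ?_
    rw [hs']
    ring

end Fermat.Agent.LT.T6.Inf.H59

end

end
-- ===== PACK-END LT/T6/Inf/H59/Class0Top.lean

-- ===== PACK-BEGIN LT/T6/Inf/H988/SphQ.lean
section


/-!
# Row LT, sub-tower T6inf, sub-leaves T6inf.04.7 + T6inf.04.8 (helper988), OFF-MAIN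

* `sphQEvenC988 : H811.SphQEvenC811` -- `sphQ s (-t) = sphQ s t`
  (`cosh`, `sinh` parity and the shift `u ↦ u + π` of a `2π`-periodic integrand);
* `sphQZeroC988 : H811.SphQZeroC811` -- `sphQ s 0 = 1` (`Complex.one_cpow`).

Bytes typed against `LT/T6/Inf/H811/ClassCut.lean` (sha256 fb653191) of
`origin/helper811@3472547ae`.
-/

set_option autoImplicit false

open MeasureTheory

noncomputable section

namespace Fermat.Agent.LT.T6.Inf.H988

open Fermat.Agent.LT.T6.Inf Fermat.Agent.LT.T6.Inf.H811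

/-- The integrand of `sphQ s t`. -/
def sphQInt988 (s : ℂ) (t u : ℝ) : ℂ :=
  (((Real.cosh t + Real.sinh t * Real.cos u : ℝ) : ℂ)) ^ (s - 1) *
    ((Real.cosh (t / 2) + Real.sinh (t / 2) * Real.cos u : ℝ) : ℂ)

theorem sphQ_eq988 (s : ℂ) (t : ℝ) :
    sphQ s t = (1 / (2 * Real.pi) : ℝ) * ∫ u in (0 : ℝ)..(2 * Real.pi), sphQInt988 s t u := rfl

/-- The integrand is `2π`-periodic. -/
theorem sphQInt_periodic988 (s : ℂ) (t : ℝ) :
    Function.Periodic (sphQInt988 s t) (2 * Real.pi) := by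
  intro u
  unfold sphQInt988
  rw [Real.cos_add_two_pi]

/-- The integrand at `-t` is the integrand at `t` shifted by `π`. -/
theorem sphQInt_neg988 (s : ℂ) (t u : ℝ) : sphQInt988 s (-t) u = sphQInt988 s t (u + Real.pi) := by
  unfold sphQInt988
  rw [Real.cosh_neg, Real.sinh_neg, neg_div, Real.cosh_neg, Real.sinh_neg, Real.cos_add_pi]
  simp only [neg_mul, mul_neg]

/-- **T6inf.04.7** `sphQ s` is even. -/
theorem sphQEvenC988 : SphQEvenC811 := by
  intro s t
  rw [sphQ_eq988, sphQ_eq988]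
  congr 1
  have h1 : (∫ u in (0 : ℝ)..(2 * Real.pi), sphQInt988 s (-t) u)
      = ∫ u in (0 : ℝ)..(2 * Real.pi), sphQInt988 s t (u + Real.pi) := by
    congr 1
    funext u
    exact sphQInt_neg988 s t u
  rw [h1, intervalIntegral.integral_comp_add_right (fun u => sphQInt988 s t u) Real.pi]
  have h2 := (sphQInt_periodic988 s t).intervalIntegral_add_eq (0 + Real.pi) 0
  rw [zero_add, zero_add] at h2
  rw [zero_add]
  have h3 : 2 * Real.pi + Real.pi = Real.pi + 2 * Real.pi := by ring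
  rw [h3, h2]

/-- **T6inf.04.8** `sphQ s 0 = 1`. -/
theorem sphQZeroC988 : SphQZeroC811 := by
  intro s
  rw [sphQ_eq988]
  have h : ∀ u : ℝ, sphQInt988 s 0 u = 1 := by
    intro u
    unfold sphQInt988
    simp
  simp only [h]
  rw [intervalIntegral.integral_const]
  have hpi : (Real.pi : ℂ) ≠ 0 := by exact_mod_cast Real.pi_ne_zero
  simp only [sub_zero, Complex.real_smul, mul_one]
  push_cast
  field_simp

end Fermat.Agent.LT.T6.Inf.H988

end

end
-- ===== PACK-END LT/T6/Inf/H988/SphQ.lean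

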