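import Mathlib
import Fermat.Agent.Pack.LT3.E2L0
import Fermat.Agent.Pack.LT3.E12L2
import Fermat.Agent.Pack.LT3.E10L3
import Fermat.Agent.Pack.LT3.E13L3
import Fermat.Agent.Pack.LT3.E13L2
import Fermat.Agent.Pack.LT3.E13L0
import Fermat.Agent.Pack.LT3.E10L1
import Fermat.Agent.Pack.LT3.E1L2
import Fermat.Agent.Pack.LT3.E15L3

set_option linter.all false

-- ===== PACK-BEGIN LT/T6/H623/Profile.lean
section





/-!
# Row LT, tower T6, station T6.20e.2d (step S5 of helper842): THE PROFILE FORMULA (helper623, spare)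

OFF-MAIN.  For a function `f` of weight `n` on both sides (`f (k g) = (wtChar n k)⁻¹ f g`,
`f (g k) = (wtChar n k)⁻¹ f g` for `k ∈ SO(2)`) and `g ∈ GL₂(ℝ)` with `det g > 0`:

  `f g = wtPhase (-n) g * f (sclR (log (det g) / 2) * atR (arcosh (rhoR g)))`
       `= wtPhase (-n) g * prof0_634 f (det g) (rhoR g)`,

from the Cartan decomposition `H189.CartanRC` (closed by helper189: `cartanRC189`).
No hole; the only hypothesis is `H189.CartanRC`.
-/

set_option autoImplicit false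

open scoped Matrix
open MeasureTheory

noncomputable section

namespace Fermat.Agent.LT.T6.H623

open Fermat.Agent.LT.T6 Fermat.Agent.LT.T6.H189 Fermat.Agent.LT.T6.H634

theorem coe_rotR623 (θ : ℝ) :
    ((rotR θ : GL (Fin 2) ℝ) : Matrix (Fin 2) (Fin 2) ℝ)
      = !![Real.cos θ, -Real.sin θ; Real.sin θ, Real.cos θ] := rfl

theorem coe_dgR623 (u₁ u₂ : ℝ) :
    ((dgR u₁ u₂ : GL (Fin 2) ℝ) : Matrix (Fin 2) (Fin 2) ℝ)
      = !![Real.exp u₁, 0; 0, Real.exp u₂] := rfl

theorem inSO2_rotR623 (θ : ℝ) : InSO2 (rotR θ) := by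
  have h := Real.cos_sq_add_sin_sq θ
  constructor
  · rw [coe_rotR623]
    ext i j
    fin_cases i <;> fin_cases j <;>
      simp [Matrix.mul_apply, Fin.sum_univ_two, Matrix.transpose_apply] <;> nlinarith [h]
  · rw [coe_rotR623, Matrix.det_fin_two_of]
    nlinarith [h]

/-- `e^r a_t = diag(e^{r + t/2}, e^{r - t/2})`. -/
theorem sclR_mul_atR623 (r t : ℝ) : sclR r * atR t = dgR (r + t / 2) (r - t / 2) := by
  apply Units.ext
  rw [Units.val_mul]
  unfold sclR atR
  rw [coe_dgR623, coe_dgR623, coe_dgR623]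
  ext i j
  fin_cases i <;> fin_cases j <;>
    simp [Matrix.mul_apply, Fin.sum_univ_two, ← Real.exp_add, sub_eq_add_neg]

/-- Scalars are central. -/
theorem sclR_comm623 (r : ℝ) (x : GL (Fin 2) ℝ) : sclR r * x = x * sclR r := by
  apply Units.ext
  rw [Units.val_mul, Units.val_mul]
  unfold sclR
  rw [coe_dgR623]
  ext i j
  fin_cases i <;> fin_cases j <;>
    simp [Matrix.mul_apply, Fin.sum_univ_two, mul_comm]

/-- The holomorphic part of `e^r a_t` is real and positive. -/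
theorem holPart_dgR623 (u₁ u₂ : ℝ) :
    holPart (dgR u₁ u₂) = (((Real.exp u₁ + Real.exp u₂) / 2 : ℝ) : ℂ) := by
  rw [← aM_eq_holPart]
  apply Complex.ext <;> simp [aM, coe_dgR623, Complex.exp_ofReal_re]

theorem rhoR_eq_rhoP623 (g : GL (Fin 2) ℝ) (hg : 0 < (g : Matrix (Fin 2) (Fin 2) ℝ).det) :
    rhoR g = rhoP g := by
  unfold rhoR rhoP
  rw [abs_of_pos hg]

/-- **S5, the profile formula.** -/
theorem profile_formula623 (hC : CartanRC) (n : ℤ) (f : GL (Fin 2) ℝ → ℂ)
    (hl : ∀ k g : GL (Fin 2) ℝ, InSO2 k → f (k * g) = (wtChar n k)⁻¹ * f g)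
    (hr : ∀ k g : GL (Fin 2) ℝ, InSO2 k → f (g * k) = (wtChar n k)⁻¹ * f g)
    (g : GL (Fin 2) ℝ) (hg : 0 < (g : Matrix (Fin 2) (Fin 2) ℝ).det) :
    f g = wtPhase (-n) g *
      f (sclR (Real.log (g : Matrix (Fin 2) (Fin 2) ℝ).det / 2) * atR (Real.arcosh (rhoR g))) := by
  obtain ⟨-, θ₁, θ₂, hdec⟩ := hC g hg
  rw [← rhoR_eq_rhoP623 g hg] at hdec
  set r := Real.log (g : Matrix (Fin 2) (Fin 2) ℝ).det / 2 with hr0
  set t := Real.arcosh (rhoR g) with ht0
  set a := sclR r * atR t with ha0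
  have hk1 := inSO2_rotR623 θ₁
  have hk2 := inSO2_rotR623 θ₂
  have hg' : g = rotR θ₁ * a * rotR θ₂ := by
    rw [hdec, ha0, sclR_comm623 r (rotR θ₁)]
    simp only [mul_assoc]
  -- the value of `f`
  have hf : f g = (wtChar n (rotR θ₁))⁻¹ * (wtChar n (rotR θ₂))⁻¹ * f a := by
    conv_lhs => rw [hg']
    rw [hr _ _ hk2, hl _ _ hk1]
    ring
  -- the phase
  have hp : 0 < (Real.exp (r + t / 2) + Real.exp (r - t / 2)) / 2 := by positivity
  have ha : holPart a = (((Real.exp (r + t / 2) + Real.exp (r - t / 2)) / 2 : ℝ) : ℂ) := by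
    rw [ha0, sclR_mul_atR623, holPart_dgR623]
  have hh : holPart g = holPart (rotR θ₁) * holPart (rotR θ₂) *
      (((Real.exp (r + t / 2) + Real.exp (r - t / 2)) / 2 : ℝ) : ℂ) := by
    conv_lhs => rw [hg']
    rw [← aM_eq_holPart, aM_mul_rot hk2, aM_rot_mul hk1, aM_eq_holPart, ha]
    ring
  have hn1 : ‖holPart (rotR θ₁)‖ = 1 := by
    have := normSq_holPart_rot hk1
    rw [Complex.normSq_eq_norm_sq] at this
    nlinarith [norm_nonneg (holPart (rotR θ₁)), norm_nonneg (holPart (rotR θ₂))]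
  have hn2 : ‖holPart (rotR θ₂)‖ = 1 := by
    have := normSq_holPart_rot hk2
    rw [Complex.normSq_eq_norm_sq] at this
    nlinarith [norm_nonneg (holPart (rotR θ₁)), norm_nonneg (holPart (rotR θ₂))]
  have hnorm : ‖holPart g‖ = (Real.exp (r + t / 2) + Real.exp (r - t / 2)) / 2 := by
    rw [hh, norm_mul, norm_mul, hn1, hn2, one_mul, one_mul, Complex.norm_real,
      Real.norm_eq_abs, abs_of_pos hp]
  have hphase : wtPhase (-n) g = (wtChar n (rotR θ₁))⁻¹ * (wtChar n (rotR θ₂))⁻¹ := by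
    unfold wtPhase wtChar
    rw [hnorm]
    have hpc : (((Real.exp (r + t / 2) + Real.exp (r - t / 2)) / 2 : ℝ) : ℂ) ≠ 0 := by
      exact_mod_cast hp.ne'
    have : holPart g / (((Real.exp (r + t / 2) + Real.exp (r - t / 2)) / 2 : ℝ) : ℂ)
        = holPart (rotR θ₁) * holPart (rotR θ₂) := by
      rw [hh, mul_div_assoc, div_self hpc, mul_one]
    rw [this, zpow_neg, mul_zpow, mul_inv]
  rw [hf, hphase]

/-- **S5 in the vocabulary of `H634`**: `f g = wtPhase (-n) g * prof0_634 f (det g) (rhoR g)`. -/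
theorem profile_prof0_623 (hC : CartanRC) (n : ℤ) (f : GL (Fin 2) ℝ → ℂ)
    (hl : ∀ k g : GL (Fin 2) ℝ, InSO2 k → f (k * g) = (wtChar n k)⁻¹ * f g)
    (hr : ∀ k g : GL (Fin 2) ℝ, InSO2 k → f (g * k) = (wtChar n k)⁻¹ * f g)
    (g : GL (Fin 2) ℝ) (hg : 0 < (g : Matrix (Fin 2) (Fin 2) ℝ).det) :
    f g = wtPhase (-n) g * prof0_634 f (g : Matrix (Fin 2) (Fin 2) ℝ).det (rhoR g) := by
  rw [profile_formula623 hC n f hl hr g hg, sclR_mul_atR623]
  rfl

/-- The same for test functions. -/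
theorem profile_test623 (hC : CartanRC) (n : ℤ) (f : GL (Fin 2) ℝ → ℂ) (hf : IsArchTestR n f)
    (g : GL (Fin 2) ℝ) (hg : 0 < (g : Matrix (Fin 2) (Fin 2) ℝ).det) :
    f g = wtPhase (-n) g * prof0_634 f (g : Matrix (Fin 2) (Fin 2) ℝ).det (rhoR g) :=
  profile_prof0_623 hC n f hf.left hf.right g hg

end Fermat.Agent.LT.T6.H623

end

end
-- ===== PACK-END LT/T6/H623/Profile.lean

-- ===== PACK-BEGIN LT/T6/H863/GL2.lean
section



/-!
# Row LT, tower T6, leaf T6.16 (`SplitMatchC`) -- helper863, OFF-MAIN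

Part 7: the instance `G = GL₂(k)`, `k` a field with a valuation in `ℤᵐ⁰`.

* `Ugrp863 n`   : the principal congruence subgroup `U(n)` as a `Subgroup` (`InU n` is its carrier);
* `Cpt863`      : integral trace, unit determinant;
* `cptData_863` : `Cpt863` is conjugation invariant, contains `U(n)`, is closed under inverses;
* `cptMul_863`  : `Cpt863` is closed under multiplication on the centraliser of a regular element
  (the centraliser is `k[z]`; `X = tr (t t')` is a root of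
  `X² - τ τ' X + (Δ τ'² + Δ' τ² - 4 Δ Δ')`, hence integral).

Mathlib + `T6/Spec.lean` (frozen) only; every proof is complete.
-/

set_option autoImplicit false

open scoped Classical

noncomputable section

namespace Fermat.Agent.LT.T6.H863

open Fermat.Agent.LT.T6

set_option linter.unusedSectionVars false

variable {k : Type} [Field k] [Valued k Γ₀]

/-! ### Valuations -/

theorem exp_neg_le_one_863 (n : ℕ) : WithZero.exp (-(n : ℤ)) ≤ (1 : Γ₀) := by
  rw [← WithZero.exp_zero, WithZero.exp_le_exp]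
  omega

/-- A root of a monic quadratic polynomial with integral coefficients is integral. -/
theorem val_le_one_of_quad_863 (X s p : k) (hs : Valued.v s ≤ 1) (hp : Valued.v p ≤ 1)
    (h : X ^ 2 - s * X + p = 0) : Valued.v X ≤ 1 := by
  by_contra hX
  rw [not_le] at hX
  have hX0 : (0 : Γ₀) < Valued.v X := lt_trans zero_lt_one hX
  have h1 : X ^ 2 = s * X - p := by linear_combination h
  have h2 : Valued.v (X ^ 2) ≤ Valued.v X := by
    rw [h1]
    refine Valuation.map_sub_le _ ?_ (hp.trans hX.le)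
    rw [map_mul]
    calc Valued.v s * Valued.v X ≤ 1 * Valued.v X := mul_le_mul_left hs _
      _ = Valued.v X := one_mul _
  have h3 : Valued.v X < Valued.v (X ^ 2) := by
    rw [pow_two, map_mul]
    calc Valued.v X = Valued.v X * 1 := (mul_one _).symm
      _ < Valued.v X * Valued.v X := by
        exact mul_lt_mul_of_pos_left hX hX0
  exact absurd h2 (not_le.mpr h3)

theorem val_four_le_one_863 : Valued.v (4 : k) ≤ 1 := by
  have h1 : Valued.v (1 : k) ≤ 1 := le_of_eq (map_one _)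
  have h2 : Valued.v ((1 : k) + 1) ≤ 1 := Valuation.map_add_le _ h1 h1
  have h4 : Valued.v (((1 : k) + 1) + (1 + 1)) ≤ 1 := Valuation.map_add_le _ h2 h2
  have : (4 : k) = ((1 : k) + 1) + (1 + 1) := by norm_num
  rw [this]
  exact h4

/-- `a b = 1`, `a ≤ 1`, `b ≤ 1` in `ℤᵐ⁰` force `a = 1`. -/
theorem eq_one_of_mul_eq_one_863 (a b : Γ₀) (ha : a ≤ 1) (hb : b ≤ 1) (hab : a * b = 1) :
    a = 1 := by
  refine le_antisymm ha ?_
  calc (1 : Γ₀) = a * b := hab.symm
    _ ≤ a * 1 := mul_le_mul_right hb a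
    _ = a := mul_one a

/-! ### Matrices close to `1` -/

/-- `A ≡ 1 mod ϖⁿ` entrywise. -/
def NearOne863 (n : ℕ) (A : Matrix (Fin 2) (Fin 2) k) : Prop :=
  ∀ i j : Fin 2, Valued.v (A i j - (1 : Matrix (Fin 2) (Fin 2) k) i j) ≤ WithZero.exp (-(n : ℤ))

theorem nearOne_one_863 (n : ℕ) : NearOne863 n (1 : Matrix (Fin 2) (Fin 2) k) := by
  intro i j
  rw [sub_self, map_zero]
  exact zero_le

theorem nearOne_mul_863 (n : ℕ) (A B : Matrix (Fin 2) (Fin 2) k) (hA : NearOne863 n A)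
    (hB : NearOne863 n B) : NearOne863 n (A * B) := by
  intro i j
  have hmat : A * B - 1 = (A - 1) + (B - 1) + (A - 1) * (B - 1) := by noncomm_ring
  have key : (A * B) i j - (1 : Matrix (Fin 2) (Fin 2) k) i j
      = (A i j - (1 : Matrix (Fin 2) (Fin 2) k) i j) + (B i j - (1 : Matrix (Fin 2) (Fin 2) k) i j)
        + ∑ m : Fin 2, (A i m - (1 : Matrix (Fin 2) (Fin 2) k) i m)
            * (B m j - (1 : Matrix (Fin 2) (Fin 2) k) m j) := by
    have := congrFun (congrFun hmat i) j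
    simpa only [Matrix.sub_apply, Matrix.add_apply, Matrix.mul_apply] using this
  rw [key]
  refine Valuation.map_add_le _ (Valuation.map_add_le _ (hA i j) (hB i j)) ?_
  refine Valuation.map_sum_le _ (fun m _ => ?_)
  rw [map_mul]
  calc Valued.v (A i m - (1 : Matrix (Fin 2) (Fin 2) k) i m)
        * Valued.v (B m j - (1 : Matrix (Fin 2) (Fin 2) k) m j)
      ≤ WithZero.exp (-(n : ℤ)) * 1 :=
        mul_le_mul' (hA i m) ((hB m j).trans (exp_neg_le_one_863 n))
    _ = WithZero.exp (-(n : ℤ)) := mul_one _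

/-- The entries of a matrix close to `1` are integral. -/
theorem nearOne_entry_863 (n : ℕ) (A : Matrix (Fin 2) (Fin 2) k) (hA : NearOne863 n A)
    (i j : Fin 2) : Valued.v (A i j) ≤ 1 := by
  have h1 : Valued.v ((1 : Matrix (Fin 2) (Fin 2) k) i j) ≤ 1 := by
    by_cases hij : i = j
    · rw [hij, Matrix.one_apply_eq, map_one]
    · rw [Matrix.one_apply_ne hij, map_zero]
      exact zero_le
  have h2 : A i j = (A i j - (1 : Matrix (Fin 2) (Fin 2) k) i j)
      + (1 : Matrix (Fin 2) (Fin 2) k) i j := by ring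
  rw [h2]
  exact Valuation.map_add_le _ ((hA i j).trans (exp_neg_le_one_863 n)) h1

theorem val_trace_le_863 (A : Matrix (Fin 2) (Fin 2) k) (hA : ∀ i j, Valued.v (A i j) ≤ 1) :
    Valued.v A.trace ≤ 1 := by
  rw [Matrix.trace_fin_two]
  exact Valuation.map_add_le _ (hA 0 0) (hA 1 1)

theorem val_det_le_863 (A : Matrix (Fin 2) (Fin 2) k) (hA : ∀ i j, Valued.v (A i j) ≤ 1) :
    Valued.v A.det ≤ 1 := by
  rw [Matrix.det_fin_two]
  refine Valuation.map_sub_le _ ?_ ?_
  · rw [map_mul]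
    exact mul_le_one' (hA 0 0) (hA 1 1)
  · rw [map_mul]
    exact mul_le_one' (hA 0 1) (hA 1 0)

/-! ### The subgroup `U(n)` -/

theorem inU_iff_863 (n : ℕ) (g : GL (Fin 2) k) :
    InU n g ↔ NearOne863 n (g : Matrix (Fin 2) (Fin 2) k)
      ∧ NearOne863 n ((g⁻¹ : GL (Fin 2) k) : Matrix (Fin 2) (Fin 2) k) := by
  constructor
  · intro h
    exact ⟨fun i j => (h i j).1, fun i j => (h i j).2⟩
  · rintro ⟨h1, h2⟩ i j
    exact ⟨h1 i j, h2 i j⟩

/-- The principal congruence subgroup `U(n)`. -/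
def Ugrp863 (n : ℕ) : Subgroup (GL (Fin 2) k) where
  carrier := {g | InU n g}
  one_mem' := by
    show InU n 1
    rw [inU_iff_863]
    refine ⟨nearOne_one_863 n, ?_⟩
    rw [inv_one]
    exact nearOne_one_863 n
  mul_mem' := by
    intro a b ha hb
    have ha' : InU n a := ha
    have hb' : InU n b := hb
    show InU n (a * b)
    rw [inU_iff_863] at ha' hb' ⊢
    refine ⟨?_, ?_⟩
    · rw [Matrix.GeneralLinearGroup.coe_mul]
      exact nearOne_mul_863 n _ _ ha'.1 hb'.1
    · rw [mul_inv_rev, Matrix.GeneralLinearGroup.coe_mul]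
      exact nearOne_mul_863 n _ _ hb'.2 ha'.2
  inv_mem' := by
    intro a ha
    have ha' : InU n a := ha
    show InU n a⁻¹
    rw [inU_iff_863] at ha' ⊢
    refine ⟨ha'.2, ?_⟩
    rw [inv_inv]
    exact ha'.1

theorem mem_Ugrp863 (n : ℕ) (g : GL (Fin 2) k) : g ∈ Ugrp863 (k := k) n ↔ InU n g := Iff.rfl

/-! ### The compactness predicate -/

/-- Integral trace, unit determinant. -/
def Cpt863 (t : GL (Fin 2) k) : Prop :=
  Valued.v (t : Matrix (Fin 2) (Fin 2) k).trace ≤ 1 ∧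
    Valued.v (t : Matrix (Fin 2) (Fin 2) k).det = 1

theorem coe_mul_inv_863 (g : GL (Fin 2) k) :
    (g : Matrix (Fin 2) (Fin 2) k) * ((g⁻¹ : GL (Fin 2) k) : Matrix (Fin 2) (Fin 2) k) = 1 := by
  rw [← Matrix.GeneralLinearGroup.coe_mul, mul_inv_cancel]
  rfl

theorem coe_inv_mul_863 (g : GL (Fin 2) k) :
    ((g⁻¹ : GL (Fin 2) k) : Matrix (Fin 2) (Fin 2) k) * (g : Matrix (Fin 2) (Fin 2) k) = 1 := by
  rw [← Matrix.GeneralLinearGroup.coe_mul, inv_mul_cancel]
  rfl

theorem trace_conj_863 (g t : GL (Fin 2) k) :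
    ((g⁻¹ * t * g : GL (Fin 2) k) : Matrix (Fin 2) (Fin 2) k).trace
      = (t : Matrix (Fin 2) (Fin 2) k).trace := by
  rw [Matrix.GeneralLinearGroup.coe_mul, Matrix.GeneralLinearGroup.coe_mul,
    Matrix.trace_mul_comm, ← Matrix.mul_assoc, coe_mul_inv_863, Matrix.one_mul]

theorem det_conj_863 (g t : GL (Fin 2) k) :
    ((g⁻¹ * t * g : GL (Fin 2) k) : Matrix (Fin 2) (Fin 2) k).det
      = (t : Matrix (Fin 2) (Fin 2) k).det := by
  rw [Matrix.GeneralLinearGroup.coe_mul, Matrix.GeneralLinearGroup.coe_mul, Matrix.det_mul,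
    Matrix.det_mul]
  have h : ((g⁻¹ : GL (Fin 2) k) : Matrix (Fin 2) (Fin 2) k).det
      * (g : Matrix (Fin 2) (Fin 2) k).det = 1 := by
    rw [← Matrix.det_mul, coe_inv_mul_863, Matrix.det_one]
  linear_combination (t : Matrix (Fin 2) (Fin 2) k).det * h

theorem disc_conj_863 (g t : GL (Fin 2) k) : disc (g⁻¹ * t * g) = disc t := by
  unfold disc
  rw [trace_conj_863, det_conj_863]

theorem det_inv_mul_863 (t : GL (Fin 2) k) :
    (t : Matrix (Fin 2) (Fin 2) k).det
      * ((t⁻¹ : GL (Fin 2) k) : Matrix (Fin 2) (Fin 2) k).det = 1 := by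
  rw [← Matrix.det_mul, coe_mul_inv_863, Matrix.det_one]

/-- `tr (t⁻¹) · det t = tr t` for `2 × 2` matrices. -/
theorem trace_inv_mul_863 (t : GL (Fin 2) k) :
    ((t⁻¹ : GL (Fin 2) k) : Matrix (Fin 2) (Fin 2) k).trace * (t : Matrix (Fin 2) (Fin 2) k).det
      = (t : Matrix (Fin 2) (Fin 2) k).trace := by
  have h' := coe_inv_mul_863 t
  set A : Matrix (Fin 2) (Fin 2) k := (t : Matrix (Fin 2) (Fin 2) k) with hA
  set B : Matrix (Fin 2) (Fin 2) k := ((t⁻¹ : GL (Fin 2) k) : Matrix (Fin 2) (Fin 2) k) with hB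
  have f00 := congrFun (congrFun h' 0) 0
  have f11 := congrFun (congrFun h' 1) 1
  have f01 := congrFun (congrFun h' 0) 1
  have f10 := congrFun (congrFun h' 1) 0
  simp only [Matrix.mul_apply, Fin.sum_univ_two, Matrix.one_apply_eq, ne_eq, zero_ne_one,
    not_false_eq_true, one_ne_zero, Matrix.one_apply_ne] at f00 f11 f01 f10
  rw [Matrix.trace_fin_two, Matrix.trace_fin_two, Matrix.det_fin_two]
  linear_combination (A 1 1) * f00 - (A 1 0) * f01 + (A 0 0) * f11 - (A 0 1) * f10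

theorem cpt_ofU_863 (n : ℕ) (u : GL (Fin 2) k) (hu : InU n u) : Cpt863 u := by
  rw [inU_iff_863] at hu
  have h1 := nearOne_entry_863 n _ hu.1
  have h2 := nearOne_entry_863 n _ hu.2
  refine ⟨val_trace_le_863 _ h1, ?_⟩
  refine eq_one_of_mul_eq_one_863 _ _ (val_det_le_863 _ h1) (val_det_le_863 _ h2) ?_
  rw [← map_mul, det_inv_mul_863, map_one]

theorem cpt_inv_863 (t : GL (Fin 2) k) (ht : Cpt863 t) : Cpt863 t⁻¹ := by
  obtain ⟨h1, h2⟩ := ht
  have hd : Valued.v ((t⁻¹ : GL (Fin 2) k) : Matrix (Fin 2) (Fin 2) k).det = 1 := by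
    have h := congrArg Valued.v (det_inv_mul_863 t)
    rw [map_mul, h2, one_mul, map_one] at h
    exact h
  refine ⟨?_, hd⟩
  have h := congrArg Valued.v (trace_inv_mul_863 t)
  rw [map_mul, h2, mul_one] at h
  rw [h]
  exact h1

theorem cptData_863 (n : ℕ) : CptData863 (Ugrp863 (k := k) n) Cpt863 where
  conj := by
    intro g t ht
    unfold Cpt863 at ht ⊢
    rw [trace_conj_863, det_conj_863]
    exact ht
  ofU := fun u hu => cpt_ofU_863 n u hu
  inv := cpt_inv_863

/-! ### The centraliser of a regular element -/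

/-- The centraliser of a regular `2 × 2` matrix `z`: the traceless part of a commuting matrix is
proportional to the traceless part of `z`. -/
theorem centraliser_863 (a b c d p q r s : k)
    (hreg : (a + d) ^ 2 - 4 * (a * d - b * c) ≠ 0)
    (h1 : b * r = q * c) (h2 : q * (a - d) = b * (p - s)) (h3 : c * (p - s) = r * (a - d)) :
    ∃ β : k, q = β * b ∧ r = β * c ∧ p - s = β * (a - d) := by
  by_cases hb : b = 0
  · by_cases hc : c = 0
    · have had : a - d ≠ 0 := by
        intro had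
        apply hreg
        rw [hb, hc]
        have : a = d := by linear_combination had
        rw [this]
        ring
      refine ⟨(p - s) / (a - d), ?_, ?_, ?_⟩
      · rw [hb, mul_zero]
        have : q * (a - d) = 0 := by rw [h2, hb, zero_mul]
        rcases mul_eq_zero.mp this with h | h
        · exact h
        · exact absurd h had
      · rw [hc, mul_zero]
        have : r * (a - d) = 0 := by rw [← h3, hc, zero_mul]
        rcases mul_eq_zero.mp this with h | h
        · exact h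
        · exact absurd h had
      · field_simp
    · refine ⟨r / c, ?_, ?_, ?_⟩
      · field_simp
        linear_combination -h1
      · field_simp
      · field_simp
        linear_combination h3
  · refine ⟨q / b, ?_, ?_, ?_⟩
    · field_simp
    · field_simp
      linear_combination h1
    · field_simp
      linear_combination -h2

/-- The quadratic relation satisfied by `X = tr (t t')` for `t, t'` in the centraliser. -/
theorem quad_identity_863 (a b c d p q r s p' q' r' s' β β' : k)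
    (hq : q = β * b) (hr : r = β * c) (hp : p - s = β * (a - d))
    (hq' : q' = β' * b) (hr' : r' = β' * c) (hp' : p' - s' = β' * (a - d)) :
    (p * p' + q * r' + (r * q' + s * s')) ^ 2
      - ((p + s) * (p' + s')) * (p * p' + q * r' + (r * q' + s * s'))
      + ((p * s - q * r) * (p' + s') ^ 2 + (p' * s' - q' * r') * (p + s) ^ 2
          - 4 * (p * s - q * r) * (p' * s' - q' * r')) = 0 := by
  have hp1 : p = s + β * (a - d) := by linear_combination hp
  have hp1' : p' = s' + β' * (a - d) := by linear_combination hp'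
  subst hq hr hq' hr' hp1 hp1'
  ring

/-- Commutation in `GL₂` in terms of the entries. -/
theorem comm_entries_863 (z t : GL (Fin 2) k) (h : t⁻¹ * z * t = z) :
    (z : Matrix (Fin 2) (Fin 2) k) 0 1 * (t : Matrix (Fin 2) (Fin 2) k) 1 0
        = (t : Matrix (Fin 2) (Fin 2) k) 0 1 * (z : Matrix (Fin 2) (Fin 2) k) 1 0 ∧
      (t : Matrix (Fin 2) (Fin 2) k) 0 1
          * ((z : Matrix (Fin 2) (Fin 2) k) 0 0 - (z : Matrix (Fin 2) (Fin 2) k) 1 1)
        = (z : Matrix (Fin 2) (Fin 2) k) 0 1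
          * ((t : Matrix (Fin 2) (Fin 2) k) 0 0 - (t : Matrix (Fin 2) (Fin 2) k) 1 1) ∧
      (z : Matrix (Fin 2) (Fin 2) k) 1 0
          * ((t : Matrix (Fin 2) (Fin 2) k) 0 0 - (t : Matrix (Fin 2) (Fin 2) k) 1 1)
        = (t : Matrix (Fin 2) (Fin 2) k) 1 0
          * ((z : Matrix (Fin 2) (Fin 2) k) 0 0 - (z : Matrix (Fin 2) (Fin 2) k) 1 1) := by
  have hcomm : z * t = t * z := by
    calc z * t = t * (t⁻¹ * z * t) := by group
      _ = t * z := by rw [h]
  have hm : (z : Matrix (Fin 2) (Fin 2) k) * (t : Matrix (Fin 2) (Fin 2) k)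
      = (t : Matrix (Fin 2) (Fin 2) k) * (z : Matrix (Fin 2) (Fin 2) k) := by
    rw [← Matrix.GeneralLinearGroup.coe_mul, ← Matrix.GeneralLinearGroup.coe_mul, hcomm]
  set Z : Matrix (Fin 2) (Fin 2) k := (z : Matrix (Fin 2) (Fin 2) k) with hZ
  set T : Matrix (Fin 2) (Fin 2) k := (t : Matrix (Fin 2) (Fin 2) k) with hT
  have e00 := congrFun (congrFun hm 0) 0
  have e01 := congrFun (congrFun hm 0) 1
  have e10 := congrFun (congrFun hm 1) 0
  simp only [Matrix.mul_apply, Fin.sum_univ_two] at e00 e01 e10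
  refine ⟨?_, ?_, ?_⟩
  · linear_combination e00
  · linear_combination e01
  · linear_combination e10

/-- **`Cpt863` is closed under multiplication on the centraliser of a regular element.** -/
theorem cptMul_863 (z : GL (Fin 2) k) (hz : IsReg z) : CptMul863 (Cpt863 (k := k)) z := by
  intro t t' ht ht' hc hc'
  obtain ⟨hc1, hc2⟩ := hc
  obtain ⟨hc1', hc2'⟩ := hc'
  have hdet : Valued.v ((t * t' : GL (Fin 2) k) : Matrix (Fin 2) (Fin 2) k).det = 1 := by
    rw [Matrix.GeneralLinearGroup.coe_mul, Matrix.det_mul, map_mul, hc2, hc2', one_mul]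
  refine ⟨?_, hdet⟩
  have hreg : ((z : Matrix (Fin 2) (Fin 2) k) 0 0 + (z : Matrix (Fin 2) (Fin 2) k) 1 1) ^ 2
      - 4 * ((z : Matrix (Fin 2) (Fin 2) k) 0 0 * (z : Matrix (Fin 2) (Fin 2) k) 1 1
        - (z : Matrix (Fin 2) (Fin 2) k) 0 1 * (z : Matrix (Fin 2) (Fin 2) k) 1 0) ≠ 0 := by
    have h := hz.ne_zero
    unfold disc at h
    rw [Matrix.trace_fin_two, Matrix.det_fin_two] at h
    exact h
  obtain ⟨e1, e2, e3⟩ := comm_entries_863 z t ht
  obtain ⟨e1', e2', e3'⟩ := comm_entries_863 z t' ht'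
  obtain ⟨β, hq, hr, hp⟩ := centraliser_863 _ _ _ _ _ _ _ _ hreg e1 e2 e3
  obtain ⟨β', hq', hr', hp'⟩ := centraliser_863 _ _ _ _ _ _ _ _ hreg e1' e2' e3'
  have hquad := quad_identity_863 _ _ _ _ _ _ _ _ _ _ _ _ β β' hq hr hp hq' hr' hp'
  rw [Matrix.trace_fin_two] at hc1 hc1'
  rw [Matrix.det_fin_two] at hc2 hc2'
  rw [Matrix.GeneralLinearGroup.coe_mul, Matrix.trace_fin_two]
  simp only [Matrix.mul_apply, Fin.sum_univ_two]
  set T : Matrix (Fin 2) (Fin 2) k := (t : Matrix (Fin 2) (Fin 2) k) with hT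
  set T' : Matrix (Fin 2) (Fin 2) k := (t' : Matrix (Fin 2) (Fin 2) k) with hT'
  refine val_le_one_of_quad_863 _ ((T 0 0 + T 1 1) * (T' 0 0 + T' 1 1))
    ((T 0 0 * T 1 1 - T 0 1 * T 1 0) * (T' 0 0 + T' 1 1) ^ 2
      + (T' 0 0 * T' 1 1 - T' 0 1 * T' 1 0) * (T 0 0 + T 1 1) ^ 2
      - 4 * (T 0 0 * T 1 1 - T 0 1 * T 1 0) * (T' 0 0 * T' 1 1 - T' 0 1 * T' 1 0)) ?_ ?_ hquad
  · rw [map_mul]
    exact mul_le_one' hc1 hc1'
  · refine Valuation.map_sub_le _ (Valuation.map_add_le _ ?_ ?_) ?_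
    · rw [map_mul, map_pow, hc2, one_mul]
      exact pow_le_one' hc1' 2
    · rw [map_mul, map_pow, hc2', one_mul]
      exact pow_le_one' hc1 2
    · rw [map_mul, map_mul, hc2, hc2', mul_one, mul_one]
      exact val_four_le_one_863

end Fermat.Agent.LT.T6.H863

end

end
-- ===== PACK-END LT/T6/H863/GL2.lean

-- ===== PACK-BEGIN LT/T6/H888/GreenInj.lean
section



/-!
# Row LT, tower T6, leaf T6.22.I (helper888): the Green operator does not kill `f`, `f 0 = 1`

`gLInjC888 : GLInjC888`.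
-/

set_option autoImplicit false

open MeasureTheory Set

noncomputable section

namespace Fermat.Agent.LT.T6.H888

theorem gLker_zero_of888 (n : ℤ) {f : ℝ → ℂ} (hf : Continuous f)
    (h : ∀ t, 0 < t → gL888 n f t = 0) : ∀ t, 0 < t → gLker888 n f t = 0 := by
  intro t₀ ht₀
  have hc : ContinuousOn (gLker888 n f) (Ioi 0) := gLker_contOn888 n hf
  have h1 : HasDerivAt (fun u => ∫ r in (0:ℝ)..u, gLker888 n f r) (gLker888 n f t₀) t₀ :=
    intervalIntegral.integral_hasDerivAt_right (gLker_intble888 n hf ht₀.le)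
      (hc.stronglyMeasurableAtFilter isOpen_Ioi t₀ ht₀)
      (hc.continuousAt (Ioi_mem_nhds ht₀))
  have h2 : (fun u => ∫ r in (0:ℝ)..u, gLker888 n f r) =ᶠ[nhds t₀] fun _ => (0 : ℂ) := by
    filter_upwards [Ioi_mem_nhds ht₀] with u hu
    exact h u hu
  exact (h1.congr_of_eventuallyEq h2.symm).unique (hasDerivAt_const t₀ (0 : ℂ))

theorem gLin_zero_imp888 (n : ℤ) {f : ℝ → ℂ} (hf : Continuous f)
    (h : ∀ t, 0 < t → gLin888 n f t = 0) : ∀ t, 0 < t → f t = 0 := by
  intro t₀ ht₀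
  have hc : Continuous (fun q => ((wtA888 n q : ℝ) : ℂ) * f q) :=
    (Complex.continuous_ofReal.comp (wtA_cont888 n)).mul hf
  have h1 : HasDerivAt (fun u => ∫ q in (0:ℝ)..u, ((wtA888 n q : ℝ) : ℂ) * f q)
      (((wtA888 n t₀ : ℝ) : ℂ) * f t₀) t₀ :=
    intervalIntegral.integral_hasDerivAt_right (hc.intervalIntegrable _ _)
      (hc.stronglyMeasurableAtFilter _ _) hc.continuousAt
  have h2 : (fun u => ∫ q in (0:ℝ)..u, ((wtA888 n q : ℝ) : ℂ) * f q)
      =ᶠ[nhds t₀] fun _ => (0 : ℂ) := by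
    filter_upwards [Ioi_mem_nhds ht₀] with u hu
    exact h u hu
  have h3 := (h1.congr_of_eventuallyEq h2.symm).unique (hasDerivAt_const t₀ (0 : ℂ))
  rcases mul_eq_zero.mp h3 with h4 | h4
  · exact absurd (Complex.ofReal_eq_zero.mp h4) (wtA_pos888 n ht₀).ne'
  · exact h4

/-- **Leaf T6.22.I.** -/
theorem gLInjC888 : GLInjC888 := by
  intro n _ f hf hf0
  by_contra hcon
  push Not at hcon
  have hfc := extC_cont888 hf
  have h0 : ∀ t, 0 < t → gL888 n (extC888 f) t = 0 := by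
    intro t ht
    rw [gL_ext888 n f ht.le]
    exact hcon t ht
  have h1 := gLker_zero_of888 n hfc h0
  have h2 : ∀ t, 0 < t → gLin888 n (extC888 f) t = 0 := by
    intro t ht
    have := h1 t ht
    unfold gLker888 at this
    rcases mul_eq_zero.mp this with h4 | h4
    · exact absurd (Complex.ofReal_eq_zero.mp h4) (inv_ne_zero (wtA_pos888 n ht).ne')
    · exact h4
  have h3 := gLin_zero_imp888 n hfc h2
  have h4 : Ici (0:ℝ) ⊆ {x | extC888 f x = 0} := by
    rw [← closure_Ioi (0:ℝ)]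
    exact closure_minimal (fun x hx => h3 x hx) (isClosed_eq hfc continuous_const)
  have h5 : extC888 f 0 = 0 := h4 (le_refl (0:ℝ))
  rw [extC_eq888 f (le_refl _), hf0] at h5
  exact one_ne_zero h5

end Fermat.Agent.LT.T6.H888

end

end
-- ===== PACK-END LT/T6/H888/GreenInj.lean

-- ===== PACK-BEGIN LT/T6/Inf/H176/Ode.lean
section


/-!
# Row LT, sub-tower T6inf, sub-leaf T6inf.04.4 `OdeC811` (helper176)

OFF-MAIN.  `odeC176 : H811.OdeC811`: a `C²` solution `M` of the product formula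
`M(u) M(t) = ∫₀^{2π} K(u,t,θ) / cosh(T/2) · M(T) dθ` (`cosh T = chX811 u t θ`) gives a solution
`G = M / (2π cosh(·/2))` of the radial equation
`G'' + (coth u + tanh(u/2)) G' + (1/2 - M''(0)/π) G = 0` on `u > 0`.

Proof: `∂_t²` at `t = 0` under the integral sign.  For `|t| < u`: `chX811 u t θ ≥ cosh(u - |t|) > 1`,
so `T = arcosh (chX811 u t θ)` is smooth in `t`; `T' = h'/√(h² - 1)`, `T'' = h (h² - 1 - h'²)/√(h² - 1)³`
(`h = chX811 u · θ`, `h'' = h`).  At `t = 0`: `T = u`, `T' = cos 2θ`, `T'' = coth u sin² 2θ`,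
`K = cosh(u/2)`, `K' = sinh(u/2) cos(2θ)/2`, `K'' = cosh(u/2)/4`; `∫ cos² 2θ = ∫ sin² 2θ = π`.

Imports: byte-identical copy of `LT/T6/Inf/H811/ClassCut.lean` (helper811@3472547ae, sha256
fb653191) on `LT/T6/Inf/Spec.lean` (helper19@846d5fb56, sha256 1c79e0f3).  Mathlib only otherwise.
-/

set_option autoImplicit false

open MeasureTheory Real Set
open scoped Topology

noncomputable section

namespace Fermat.Agent.LT.T6.Inf.H176

open Fermat.Agent.LT.T6.Inf Fermat.Agent.LT.T6.Inf.H811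

/-! ## 1. The function `h = chX811 u · θ` -/

/-- `∂_t chX811`. -/
def hX1_176 (u t θ : ℝ) : ℝ := cosh u * sinh t + sinh u * cosh t * cos (2 * θ)

theorem hasDerivAt_hX176 (u t θ : ℝ) :
    HasDerivAt (fun t => chX811 u t θ) (hX1_176 u t θ) t := by
  unfold chX811 hX1_176
  have h1 := (Real.hasDerivAt_cosh t).const_mul (cosh u)
  have h2 := ((Real.hasDerivAt_sinh t).const_mul (sinh u)).mul_const (cos (2 * θ))
  exact h1.add h2

theorem hasDerivAt_hX1_176 (u t θ : ℝ) :
    HasDerivAt (fun t => hX1_176 u t θ) (chX811 u t θ) t := by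
  unfold chX811 hX1_176
  have h1 := (Real.hasDerivAt_sinh t).const_mul (cosh u)
  have h2 := ((Real.hasDerivAt_cosh t).const_mul (sinh u)).mul_const (cos (2 * θ))
  exact h1.add h2

theorem one_lt_hX176 {u t : ℝ} (ht : |t| < u) (θ : ℝ) : 1 < chX811 u t θ := by
  have hu : 0 < u := lt_of_le_of_lt (abs_nonneg t) ht
  have hsu : 0 < sinh u := Real.sinh_pos_iff.mpr hu
  have h1 : 1 < cosh (u - |t|) := Real.one_lt_cosh.mpr (by linarith)
  have h2 : cosh (u - |t|) = cosh u * cosh t - sinh u * |sinh t| := by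
    rw [Real.cosh_sub, Real.cosh_abs, Real.abs_sinh]
  have h3 : -|sinh t| ≤ sinh t * cos (2 * θ) := by
    have h4 : |sinh t * cos (2 * θ)| ≤ |sinh t| := by
      rw [abs_mul]
      exact mul_le_of_le_one_right (abs_nonneg _) (Real.abs_cos_le_one _)
    exact (abs_le.mp h4).1
  have h5 : sinh u * sinh t * cos (2 * θ) = sinh u * (sinh t * cos (2 * θ)) := by ring
  unfold chX811
  rw [h5]
  nlinarith [mul_le_mul_of_nonneg_left h3 hsu.le]

/-- `√(h² - 1)`. -/
def sX176 (u t θ : ℝ) : ℝ := √(chX811 u t θ ^ 2 - 1)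

theorem sq_sub_one_pos176 {u t : ℝ} (ht : |t| < u) (θ : ℝ) : 0 < chX811 u t θ ^ 2 - 1 := by
  have h := one_lt_hX176 ht θ
  nlinarith

theorem sX_pos176 {u t : ℝ} (ht : |t| < u) (θ : ℝ) : 0 < sX176 u t θ :=
  Real.sqrt_pos.mpr (sq_sub_one_pos176 ht θ)

theorem sX_sq176 {u t : ℝ} (ht : |t| < u) (θ : ℝ) :
    sX176 u t θ ^ 2 = chX811 u t θ ^ 2 - 1 :=
  Real.sq_sqrt (sq_sub_one_pos176 ht θ).le

theorem hasDerivAt_sX176 {u t : ℝ} (ht : |t| < u) (θ : ℝ) :
    HasDerivAt (fun t => sX176 u t θ) (chX811 u t θ * hX1_176 u t θ / sX176 u t θ) t := by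
  have h1 : HasDerivAt (fun t => chX811 u t θ ^ 2 - 1)
      (2 * chX811 u t θ ^ 1 * hX1_176 u t θ) t :=
    (((hasDerivAt_hX176 u t θ).pow 2).sub_const 1)
  have h2 := h1.sqrt (sq_sub_one_pos176 ht θ).ne'
  have hs : √(chX811 u t θ ^ 2 - 1) ≠ 0 := (sX_pos176 ht θ).ne'
  refine HasDerivAt.congr_deriv (f := fun t => sX176 u t θ) h2 ?_
  unfold sX176
  field_simp

/-- `T = arcosh h`. -/
def tX176 (u t θ : ℝ) : ℝ := arcosh (chX811 u t θ)

/-- `∂_t T`. -/
def tX1_176 (u t θ : ℝ) : ℝ := hX1_176 u t θ / sX176 u t θ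

/-- `∂_t² T`. -/
def tX2_176 (u t θ : ℝ) : ℝ :=
  chX811 u t θ * (chX811 u t θ ^ 2 - 1 - hX1_176 u t θ ^ 2) / sX176 u t θ ^ 3

theorem hasDerivAt_tX176 {u t : ℝ} (ht : |t| < u) (θ : ℝ) :
    HasDerivAt (fun t => tX176 u t θ) (tX1_176 u t θ) t := by
  have h1 : HasDerivAt arcosh (√(chX811 u t θ ^ 2 - 1))⁻¹ (chX811 u t θ) :=
    Real.hasDerivAt_arcosh (one_lt_hX176 ht θ)
  have h2 := h1.comp t (hasDerivAt_hX176 u t θ)
  refine HasDerivAt.congr_deriv (f := fun t => tX176 u t θ) h2 ?_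
  unfold tX1_176 sX176
  rw [div_eq_inv_mul]

theorem hasDerivAt_tX1_176 {u t : ℝ} (ht : |t| < u) (θ : ℝ) :
    HasDerivAt (fun t => tX1_176 u t θ) (tX2_176 u t θ) t := by
  have hs := (sX_pos176 ht θ).ne'
  have h1 := (hasDerivAt_hX1_176 u t θ).div (hasDerivAt_sX176 ht θ) hs
  refine HasDerivAt.congr_deriv (f := fun t => tX1_176 u t θ) h1 ?_
  unfold tX2_176
  have hsq := sX_sq176 ht θ
  field_simp
  rw [← hsq]

/-! ## 2. The function `K` -/

/-- `K(u, t, θ) = cosh((u+t)/2) cos² θ + cosh((u-t)/2) sin² θ`. -/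
def kX176 (u t θ : ℝ) : ℝ := cosh ((u + t) / 2) * cos θ ^ 2 + cosh ((u - t) / 2) * sin θ ^ 2

/-- `∂_t K`. -/
def kX1_176 (u t θ : ℝ) : ℝ :=
  sinh ((u + t) / 2) / 2 * cos θ ^ 2 - sinh ((u - t) / 2) / 2 * sin θ ^ 2

/-- `∂_t² K`. -/
def kX2_176 (u t θ : ℝ) : ℝ :=
  cosh ((u + t) / 2) / 4 * cos θ ^ 2 + cosh ((u - t) / 2) / 4 * sin θ ^ 2

theorem hasDerivAt_kX176 (u t θ : ℝ) :
    HasDerivAt (fun t => kX176 u t θ) (kX1_176 u t θ) t := by
  have a1 : HasDerivAt (fun t : ℝ => (u + t) / 2) (1 / 2) t := by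
    simpa using ((hasDerivAt_id t).const_add u).div_const 2
  have a2 : HasDerivAt (fun t : ℝ => (u - t) / 2) (-1 / 2) t := by
    simpa using ((hasDerivAt_id t).const_sub u).div_const 2
  have h1 := ((Real.hasDerivAt_cosh ((u + t) / 2)).comp t a1).mul_const (cos θ ^ 2)
  have h2 := ((Real.hasDerivAt_cosh ((u - t) / 2)).comp t a2).mul_const (sin θ ^ 2)
  refine HasDerivAt.congr_deriv (f := fun t => kX176 u t θ) (h1.add h2) ?_
  unfold kX1_176
  ring

theorem hasDerivAt_kX1_176 (u t θ : ℝ) :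
    HasDerivAt (fun t => kX1_176 u t θ) (kX2_176 u t θ) t := by
  have a1 : HasDerivAt (fun t : ℝ => (u + t) / 2) (1 / 2) t := by
    simpa using ((hasDerivAt_id t).const_add u).div_const 2
  have a2 : HasDerivAt (fun t : ℝ => (u - t) / 2) (-1 / 2) t := by
    simpa using ((hasDerivAt_id t).const_sub u).div_const 2
  have h1 := (((Real.hasDerivAt_sinh ((u + t) / 2)).comp t a1).div_const 2).mul_const (cos θ ^ 2)
  have h2 := (((Real.hasDerivAt_sinh ((u - t) / 2)).comp t a2).div_const 2).mul_const (sin θ ^ 2)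
  refine HasDerivAt.congr_deriv (f := fun t => kX1_176 u t θ) (h1.sub h2) ?_
  unfold kX2_176
  ring

/-! ## 3. The integrand `F = K · G(T)` and its derivatives in `t` -/

/-- The integrand. -/
def fX176 (G : ℝ → ℂ) (u t θ : ℝ) : ℂ := (kX176 u t θ : ℂ) * G (tX176 u t θ)

/-- `∂_t F`. -/
def fX1_176 (G : ℝ → ℂ) (u t θ : ℝ) : ℂ :=
  (kX1_176 u t θ : ℂ) * G (tX176 u t θ)
    + (kX176 u t θ : ℂ) * ((tX1_176 u t θ : ℂ) * deriv G (tX176 u t θ))

/-- `∂_t² F`. -/
def fX2_176 (G : ℝ → ℂ) (u t θ : ℝ) : ℂ :=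
  (kX2_176 u t θ : ℂ) * G (tX176 u t θ)
    + (kX1_176 u t θ : ℂ) * ((tX1_176 u t θ : ℂ) * deriv G (tX176 u t θ))
    + ((kX1_176 u t θ : ℂ) * ((tX1_176 u t θ : ℂ) * deriv G (tX176 u t θ))
      + (kX176 u t θ : ℂ) * ((tX2_176 u t θ : ℂ) * deriv G (tX176 u t θ)
          + (tX1_176 u t θ : ℂ) * ((tX1_176 u t θ : ℂ) * deriv (deriv G) (tX176 u t θ))))

theorem hasDerivAt_of_contDiff176 {G : ℝ → ℂ} (hG : ContDiff ℝ 2 G) (x : ℝ) :
    HasDerivAt G (deriv G x) x :=
  ((hG.differentiable (by norm_num)) x).hasDerivAt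

theorem contDiff_deriv176 {G : ℝ → ℂ} (hG : ContDiff ℝ 2 G) : ContDiff ℝ 1 (deriv G) := by
  have h : ContDiff ℝ (1 + 1) G := by
    have e : ((1 : WithTop ℕ∞) + 1) = 2 := by norm_num
    rw [e]
    exact hG
  exact (contDiff_succ_iff_deriv.mp h).2.2

theorem hasDerivAt_deriv176 {G : ℝ → ℂ} (hG : ContDiff ℝ 2 G) (x : ℝ) :
    HasDerivAt (deriv G) (deriv (deriv G) x) x :=
  (((contDiff_deriv176 hG).differentiable (by norm_num)) x).hasDerivAt

theorem hasDerivAt_comp_tX176 {g : ℝ → ℂ} {g' : ℝ → ℂ} (hg : ∀ x, HasDerivAt g (g' x) x)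
    {u t : ℝ} (ht : |t| < u) (θ : ℝ) :
    HasDerivAt (fun t => g (tX176 u t θ)) ((tX1_176 u t θ : ℂ) * g' (tX176 u t θ)) t := by
  have h := HasDerivAt.scomp t (hg (tX176 u t θ)) (hasDerivAt_tX176 ht θ)
  refine HasDerivAt.congr_deriv (f := fun t => g (tX176 u t θ)) h ?_
  rw [Complex.real_smul]

theorem hasDerivAt_fX176 {G : ℝ → ℂ} (hG : ContDiff ℝ 2 G) {u t : ℝ} (ht : |t| < u) (θ : ℝ) :
    HasDerivAt (fun t => fX176 G u t θ) (fX1_176 G u t θ) t := by
  have h1 : HasDerivAt (fun t => (kX176 u t θ : ℂ)) (kX1_176 u t θ : ℂ) t :=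
    (hasDerivAt_kX176 u t θ).ofReal_comp
  have h2 := hasDerivAt_comp_tX176 (hasDerivAt_of_contDiff176 hG) ht θ
  exact h1.mul h2

theorem hasDerivAt_fX1_176 {G : ℝ → ℂ} (hG : ContDiff ℝ 2 G) {u t : ℝ} (ht : |t| < u)
    (θ : ℝ) : HasDerivAt (fun t => fX1_176 G u t θ) (fX2_176 G u t θ) t := by
  have k0 : HasDerivAt (fun t => (kX176 u t θ : ℂ)) (kX1_176 u t θ : ℂ) t :=
    (hasDerivAt_kX176 u t θ).ofReal_comp
  have k1 : HasDerivAt (fun t => (kX1_176 u t θ : ℂ)) (kX2_176 u t θ : ℂ) t :=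
    (hasDerivAt_kX1_176 u t θ).ofReal_comp
  have t1 : HasDerivAt (fun t => (tX1_176 u t θ : ℂ)) (tX2_176 u t θ : ℂ) t :=
    (hasDerivAt_tX1_176 ht θ).ofReal_comp
  have g0 := hasDerivAt_comp_tX176 (hasDerivAt_of_contDiff176 hG) ht θ
  have g1 := hasDerivAt_comp_tX176 (hasDerivAt_deriv176 hG) ht θ
  exact (k1.mul g0).add (k0.mul (t1.mul g1))

/-! ## 4. Continuity in `(t, θ)` on `|t| < u` -/

/-- The strip `|t| < u`. -/
def strip176 (u : ℝ) : Set (ℝ × ℝ) := {p | |p.1| < u}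

theorem continuous_hX176 (u : ℝ) : Continuous (fun p : ℝ × ℝ => chX811 u p.1 p.2) := by
  unfold chX811
  fun_prop

theorem continuous_hX1_176 (u : ℝ) : Continuous (fun p : ℝ × ℝ => hX1_176 u p.1 p.2) := by
  unfold hX1_176
  fun_prop

theorem continuous_kX176 (u : ℝ) : Continuous (fun p : ℝ × ℝ => kX176 u p.1 p.2) := by
  unfold kX176
  fun_prop

theorem continuous_kX1_176 (u : ℝ) : Continuous (fun p : ℝ × ℝ => kX1_176 u p.1 p.2) := by
  unfold kX1_176
  fun_prop

theorem continuous_kX2_176 (u : ℝ) : Continuous (fun p : ℝ × ℝ => kX2_176 u p.1 p.2) := by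
  unfold kX2_176
  fun_prop

theorem continuous_sX176 (u : ℝ) : Continuous (fun p : ℝ × ℝ => sX176 u p.1 p.2) := by
  unfold sX176
  exact Real.continuous_sqrt.comp (((continuous_hX176 u).pow 2).sub continuous_const)

theorem continuousOn_tX176 (u : ℝ) :
    ContinuousOn (fun p : ℝ × ℝ => tX176 u p.1 p.2) (strip176 u) := by
  unfold tX176
  refine Real.continuousOn_arcosh.comp (continuous_hX176 u).continuousOn ?_
  intro p hp
  exact (one_lt_hX176 hp p.2).le

theorem continuousOn_tX1_176 (u : ℝ) :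
    ContinuousOn (fun p : ℝ × ℝ => tX1_176 u p.1 p.2) (strip176 u) := by
  unfold tX1_176
  exact (continuous_hX1_176 u).continuousOn.div (continuous_sX176 u).continuousOn
    (fun p hp => (sX_pos176 hp p.2).ne')

theorem continuousOn_tX2_176 (u : ℝ) :
    ContinuousOn (fun p : ℝ × ℝ => tX2_176 u p.1 p.2) (strip176 u) := by
  unfold tX2_176
  refine ContinuousOn.div ?_ ((continuous_sX176 u).pow 3).continuousOn
    (fun p hp => pow_ne_zero 3 (sX_pos176 hp p.2).ne')
  exact ((continuous_hX176 u).mul ((((continuous_hX176 u).pow 2).sub continuous_const).sub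
    ((continuous_hX1_176 u).pow 2))).continuousOn

theorem continuousOn_ofReal176 {f : ℝ × ℝ → ℝ} {s : Set (ℝ × ℝ)} (hf : ContinuousOn f s) :
    ContinuousOn (fun p => ((f p : ℝ) : ℂ)) s :=
  Complex.continuous_ofReal.comp_continuousOn hf

theorem continuousOn_comp_tX176 {g : ℝ → ℂ} (hg : Continuous g) (u : ℝ) :
    ContinuousOn (fun p : ℝ × ℝ => g (tX176 u p.1 p.2)) (strip176 u) :=
  hg.comp_continuousOn (continuousOn_tX176 u)

theorem continuousOn_fX176 {G : ℝ → ℂ} (hG : ContDiff ℝ 2 G) (u : ℝ) :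
    ContinuousOn (fun p : ℝ × ℝ => fX176 G u p.1 p.2) (strip176 u) := by
  unfold fX176
  exact (continuousOn_ofReal176 (continuous_kX176 u).continuousOn).mul
    (continuousOn_comp_tX176 hG.continuous u)

theorem continuousOn_fX1_176 {G : ℝ → ℂ} (hG : ContDiff ℝ 2 G) (u : ℝ) :
    ContinuousOn (fun p : ℝ × ℝ => fX1_176 G u p.1 p.2) (strip176 u) := by
  unfold fX1_176
  have hG1 : Continuous (deriv G) := (contDiff_deriv176 hG).continuous
  exact ((continuousOn_ofReal176 (continuous_kX1_176 u).continuousOn).mul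
    (continuousOn_comp_tX176 hG.continuous u)).add
    ((continuousOn_ofReal176 (continuous_kX176 u).continuousOn).mul
      ((continuousOn_ofReal176 (continuousOn_tX1_176 u)).mul (continuousOn_comp_tX176 hG1 u)))

theorem continuousOn_fX2_176 {G : ℝ → ℂ} (hG : ContDiff ℝ 2 G) (u : ℝ) :
    ContinuousOn (fun p : ℝ × ℝ => fX2_176 G u p.1 p.2) (strip176 u) := by
  unfold fX2_176
  have hG1 : Continuous (deriv G) := (contDiff_deriv176 hG).continuous
  have hG2 : Continuous (deriv (deriv G)) :=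
    (contDiff_deriv176 hG).continuous_deriv (by norm_num)
  have c0 := continuousOn_comp_tX176 hG.continuous u
  have c1 := continuousOn_comp_tX176 hG1 u
  have c2 := continuousOn_comp_tX176 hG2 u
  have k0 := continuousOn_ofReal176 (s := strip176 u) (continuous_kX176 u).continuousOn
  have k1 := continuousOn_ofReal176 (s := strip176 u) (continuous_kX1_176 u).continuousOn
  have k2 := continuousOn_ofReal176 (s := strip176 u) (continuous_kX2_176 u).continuousOn
  have t1 := continuousOn_ofReal176 (continuousOn_tX1_176 u)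
  have t2 := continuousOn_ofReal176 (continuousOn_tX2_176 u)
  exact ((k2.mul c0).add (k1.mul (t1.mul c1))).add
    ((k1.mul (t1.mul c1)).add (k0.mul ((t2.mul c1).add (t1.mul (t1.mul c2)))))

/-- Uniform bound of a function continuous on the strip, on a closed rectangle inside. -/
theorem exists_bound176 {F : ℝ × ℝ → ℂ} {u : ℝ} (hF : ContinuousOn F (strip176 u)) {r : ℝ}
    (hr : r < u) :
    ∃ C : ℝ, ∀ t ∈ Icc (-r) r, ∀ θ ∈ Icc (0 : ℝ) (2 * π), ‖F (t, θ)‖ ≤ C := by
  have hK : IsCompact (Icc (-r) r ×ˢ Icc (0 : ℝ) (2 * π)) := isCompact_Icc.prod isCompact_Icc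
  have hsub : Icc (-r) r ×ˢ Icc (0 : ℝ) (2 * π) ⊆ strip176 u := by
    rintro ⟨t, θ⟩ ⟨ht, -⟩
    show |t| < u
    exact lt_of_le_of_lt (abs_le.mpr ⟨ht.1, ht.2⟩) hr
  obtain ⟨C, hC⟩ := hK.exists_bound_of_continuousOn (hF.mono hsub)
  exact ⟨C, fun t ht θ hθ => hC (t, θ) ⟨ht, hθ⟩⟩

theorem continuousOn_section176 {F : ℝ × ℝ → ℂ} {u : ℝ} (hF : ContinuousOn F (strip176 u))
    {t : ℝ} (ht : |t| < u) : Continuous (fun θ : ℝ => F (t, θ)) := by
  have h : Continuous (fun θ : ℝ => ((t, θ) : ℝ × ℝ)) := by fun_prop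
  have h2 : ContinuousOn (F ∘ fun θ : ℝ => ((t, θ) : ℝ × ℝ)) univ :=
    hF.comp h.continuousOn (fun θ _ => ht)
  exact continuousOn_univ.mp h2

/-! ## 5. Differentiation under the integral sign -/

theorem hasDerivAt_integral176 {F F' : ℝ × ℝ → ℂ} {u : ℝ}
    (hF : ContinuousOn F (strip176 u)) (hF' : ContinuousOn F' (strip176 u))
    (hd : ∀ t θ : ℝ, |t| < u → HasDerivAt (fun t => F (t, θ)) (F' (t, θ)) t)
    {t₀ : ℝ} (ht₀ : |t₀| < u) :
    HasDerivAt (fun t => ∫ θ in (0 : ℝ)..(2 * π), F (t, θ))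
      (∫ θ in (0 : ℝ)..(2 * π), F' (t₀, θ)) t₀ := by
  set r : ℝ := (|t₀| + u) / 2 with hr
  have hr1 : |t₀| < r := by rw [hr]; linarith
  have hr2 : r < u := by rw [hr]; linarith
  have hε : 0 < r - |t₀| := by linarith
  obtain ⟨C, hC⟩ := exists_bound176 hF' hr2
  have hball : ∀ x ∈ Metric.ball t₀ (r - |t₀|), |x| ≤ r := by
    intro x hx
    rw [Metric.mem_ball, Real.dist_eq] at hx
    have h1 : |x| ≤ |x - t₀| + |t₀| := by
      have := abs_add_le (x - t₀) t₀
      simpa using this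
    linarith
  have hπ : (0 : ℝ) ≤ 2 * π := by positivity
  refine (intervalIntegral.hasDerivAt_integral_of_dominated_loc_of_deriv_le
    (F := fun t θ => F (t, θ)) (F' := fun t θ => F' (t, θ)) (bound := fun _ => C)
    (s := Metric.ball t₀ (r - |t₀|)) (Metric.ball_mem_nhds t₀ hε)
    ?_ ?_ ?_ ?_ ?_ ?_).2
  · filter_upwards [Metric.ball_mem_nhds t₀ hε] with x hx
    exact (continuousOn_section176 hF
      (lt_of_le_of_lt (hball x hx) hr2)).aestronglyMeasurable
  · exact (continuousOn_section176 hF ht₀).intervalIntegrable _ _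
  · exact (continuousOn_section176 hF' ht₀).aestronglyMeasurable
  · refine Filter.Eventually.of_forall (fun θ hθ x hx => ?_)
    rw [uIoc_of_le hπ] at hθ
    have hx' := hball x hx
    exact hC x (abs_le.mp hx') θ ⟨hθ.1.le, hθ.2⟩
  · exact intervalIntegrable_const
  · refine Filter.Eventually.of_forall (fun θ _ x hx => ?_)
    exact hd x θ (lt_of_le_of_lt (hball x hx) hr2)

/-- The second derivative at `0` of the parametric integral. -/
theorem deriv2_integral176 {G : ℝ → ℂ} (hG : ContDiff ℝ 2 G) {u : ℝ} (hu : 0 < u) :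
    deriv (deriv (fun t => ∫ θ in (0 : ℝ)..(2 * π), fX176 G u t θ)) 0
      = ∫ θ in (0 : ℝ)..(2 * π), fX2_176 G u 0 θ := by
  have h1 : ∀ t : ℝ, |t| < u →
      HasDerivAt (fun t => ∫ θ in (0 : ℝ)..(2 * π), fX176 G u t θ)
        (∫ θ in (0 : ℝ)..(2 * π), fX1_176 G u t θ) t := fun t ht =>
    hasDerivAt_integral176 (F := fun p => fX176 G u p.1 p.2)
      (F' := fun p => fX1_176 G u p.1 p.2) (continuousOn_fX176 hG u)
      (continuousOn_fX1_176 hG u) (fun t θ ht => hasDerivAt_fX176 hG ht θ) ht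
  have h0 : |(0 : ℝ)| < u := by simpa using hu
  have h2 : HasDerivAt (fun t => ∫ θ in (0 : ℝ)..(2 * π), fX1_176 G u t θ)
      (∫ θ in (0 : ℝ)..(2 * π), fX2_176 G u 0 θ) 0 :=
    hasDerivAt_integral176 (F := fun p => fX1_176 G u p.1 p.2)
      (F' := fun p => fX2_176 G u p.1 p.2) (continuousOn_fX1_176 hG u)
      (continuousOn_fX2_176 hG u) (fun t θ ht => hasDerivAt_fX1_176 hG ht θ) h0
  have h3 : deriv (fun t => ∫ θ in (0 : ℝ)..(2 * π), fX176 G u t θ)
      =ᶠ[𝓝 0] fun t => ∫ θ in (0 : ℝ)..(2 * π), fX1_176 G u t θ := by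
    filter_upwards [Metric.ball_mem_nhds (0 : ℝ) hu] with t ht
    rw [Metric.mem_ball, Real.dist_eq, sub_zero] at ht
    exact (h1 t ht).deriv
  rw [h3.deriv_eq]
  exact h2.deriv

/-! ## 6. The values at `t = 0` -/

theorem hX_zero176 (u θ : ℝ) : chX811 u 0 θ = cosh u := by
  unfold chX811
  simp

theorem hX1_zero176 (u θ : ℝ) : hX1_176 u 0 θ = sinh u * cos (2 * θ) := by
  unfold hX1_176
  simp

theorem sX_zero176 {u : ℝ} (hu : 0 < u) (θ : ℝ) : sX176 u 0 θ = sinh u := by
  unfold sX176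
  rw [hX_zero176, Real.cosh_sq, add_sub_cancel_right,
    Real.sqrt_sq (Real.sinh_pos_iff.mpr hu).le]

theorem tX_zero176 {u : ℝ} (hu : 0 < u) (θ : ℝ) : tX176 u 0 θ = u := by
  unfold tX176
  rw [hX_zero176, Real.arcosh_cosh hu.le]

theorem tX1_zero176 {u : ℝ} (hu : 0 < u) (θ : ℝ) : tX1_176 u 0 θ = cos (2 * θ) := by
  unfold tX1_176
  rw [hX1_zero176, sX_zero176 hu]
  field_simp [(Real.sinh_pos_iff.mpr hu).ne']

theorem tX2_zero176 {u : ℝ} (hu : 0 < u) (θ : ℝ) :
    tX2_176 u 0 θ = cosh u / sinh u * sin (2 * θ) ^ 2 := by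
  unfold tX2_176
  rw [hX1_zero176, sX_zero176 hu, hX_zero176]
  have hs := (Real.sinh_pos_iff.mpr hu).ne'
  have h1 := Real.cosh_sq u
  have h2 := Real.sin_sq_add_cos_sq (2 * θ)
  field_simp
  rw [h1]
  have h3 : sin (2 * θ) ^ 2 = 1 - cos (2 * θ) ^ 2 := by linarith
  rw [h3]
  ring

theorem kX_zero176 (u θ : ℝ) : kX176 u 0 θ = cosh (u / 2) := by
  unfold kX176
  have h := Real.sin_sq_add_cos_sq θ
  simp only [add_zero, sub_zero]
  have : cosh (u / 2) * cos θ ^ 2 + cosh (u / 2) * sin θ ^ 2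
      = cosh (u / 2) * (sin θ ^ 2 + cos θ ^ 2) := by ring
  rw [this, h, mul_one]

theorem kX1_zero176 (u θ : ℝ) : kX1_176 u 0 θ = sinh (u / 2) / 2 * cos (2 * θ) := by
  unfold kX1_176
  have h := Real.sin_sq_add_cos_sq θ
  simp only [add_zero, sub_zero]
  rw [Real.cos_two_mul]
  have h3 : sin θ ^ 2 = 1 - cos θ ^ 2 := by linarith
  rw [h3]
  ring

theorem kX2_zero176 (u θ : ℝ) : kX2_176 u 0 θ = cosh (u / 2) / 4 := by
  unfold kX2_176
  have h := Real.sin_sq_add_cos_sq θ
  simp only [add_zero, sub_zero]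
  have : cosh (u / 2) / 4 * cos θ ^ 2 + cosh (u / 2) / 4 * sin θ ^ 2
      = cosh (u / 2) / 4 * (sin θ ^ 2 + cos θ ^ 2) := by ring
  rw [this, h, mul_one]

/-- `∂_t² F` at `t = 0`. -/
theorem fX2_zero176 (G : ℝ → ℂ) {u : ℝ} (hu : 0 < u) (θ : ℝ) :
    fX2_176 G u 0 θ
      = ((cosh (u / 2) / 4 : ℝ) : ℂ) * G u
        + ((cos (2 * θ) ^ 2 : ℝ) : ℂ)
            * (((sinh (u / 2) : ℝ) : ℂ) * deriv G u
                + ((cosh (u / 2) : ℝ) : ℂ) * deriv (deriv G) u)
        + ((sin (2 * θ) ^ 2 : ℝ) : ℂ)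
            * (((cosh (u / 2) * (cosh u / sinh u) : ℝ) : ℂ) * deriv G u) := by
  unfold fX2_176
  rw [tX_zero176 hu, tX1_zero176 hu, tX2_zero176 hu, kX_zero176, kX1_zero176, kX2_zero176]
  push_cast
  ring

/-! ## 7. The two trigonometric integrals -/

theorem integral_cos_two_mul_sq176 : ∫ θ in (0 : ℝ)..(2 * π), cos (2 * θ) ^ 2 = π := by
  have h := intervalIntegral.integral_comp_mul_left (a := (0 : ℝ)) (b := 2 * π)
    (fun x : ℝ => cos x ^ 2) (two_ne_zero (α := ℝ))
  rw [h, integral_cos_sq]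
  have h1 : sin (2 * (2 * π)) = 0 := by
    rw [Real.sin_two_mul, Real.sin_two_pi]
    ring
  simp only [mul_zero, Real.sin_zero, h1, smul_eq_mul]
  ring

theorem integral_sin_two_mul_sq176 : ∫ θ in (0 : ℝ)..(2 * π), sin (2 * θ) ^ 2 = π := by
  have h := intervalIntegral.integral_comp_mul_left (a := (0 : ℝ)) (b := 2 * π)
    (fun x : ℝ => sin x ^ 2) (two_ne_zero (α := ℝ))
  rw [h, integral_sin_sq]
  have h1 : sin (2 * (2 * π)) = 0 := by
    rw [Real.sin_two_mul, Real.sin_two_pi]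
    ring
  simp only [mul_zero, Real.sin_zero, h1, smul_eq_mul]
  ring

/-- The integral of `∂_t² F` at `t = 0`. -/
theorem integral_fX2_zero176 (G : ℝ → ℂ) {u : ℝ} (hu : 0 < u) :
    ∫ θ in (0 : ℝ)..(2 * π), fX2_176 G u 0 θ
      = ((2 * π : ℝ) : ℂ) * (((cosh (u / 2) / 4 : ℝ) : ℂ) * G u)
        + ((π : ℝ) : ℂ) * (((sinh (u / 2) : ℝ) : ℂ) * deriv G u
                + ((cosh (u / 2) : ℝ) : ℂ) * deriv (deriv G) u)
        + ((π : ℝ) : ℂ) * (((cosh (u / 2) * (cosh u / sinh u) : ℝ) : ℂ) * deriv G u) := by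
  simp_rw [fX2_zero176 G hu]
  have c1 : Continuous (fun θ : ℝ => ((cos (2 * θ) ^ 2 : ℝ) : ℂ)) := by fun_prop
  have c2 : Continuous (fun θ : ℝ => ((sin (2 * θ) ^ 2 : ℝ) : ℂ)) := by fun_prop
  rw [intervalIntegral.integral_add, intervalIntegral.integral_add,
    intervalIntegral.integral_const, intervalIntegral.integral_mul_const,
    intervalIntegral.integral_mul_const, intervalIntegral.integral_ofReal,
    intervalIntegral.integral_ofReal, integral_cos_two_mul_sq176, integral_sin_two_mul_sq176]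
  · simp only [sub_zero, Complex.real_smul]
  · exact intervalIntegrable_const
  · exact (c1.mul continuous_const).intervalIntegrable _ _
  · exact (continuous_const.add (c1.mul continuous_const)).intervalIntegrable _ _
  · exact (c2.mul continuous_const).intervalIntegrable _ _

/-! ## 8. The sub-leaf -/

/-- The integrand of the product formula is `2π F`. -/
theorem prodForm_integrand176 (M : ℝ → ℂ) (u t θ : ℝ) :
    (((cosh ((u + t) / 2) * cos θ ^ 2 + cosh ((u - t) / 2) * sin θ ^ 2)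
        / cosh (arcosh (chX811 u t θ) / 2) : ℝ) : ℂ) * M (arcosh (chX811 u t θ))
      = ((2 * π : ℝ) : ℂ) * fX176 (gOf811 M) u t θ := by
  unfold fX176 gOf811 kX176 tX176
  have hc : ((cosh (arcosh (chX811 u t θ) / 2) : ℝ) : ℂ) ≠ 0 := by
    exact_mod_cast (Real.cosh_pos _).ne'
  have hπ : ((π : ℝ) : ℂ) ≠ 0 := by exact_mod_cast Real.pi_ne_zero
  push_cast
  field_simp

/-- The final algebra. -/
theorem ode_algebra176 {c s C S : ℝ} (hc : c ≠ 0) (hS : S ≠ 0) {g0 g1 g2 m2 : ℂ}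
    (key : ((2 * π * c : ℝ) : ℂ) * g0 * m2
      = ((2 * π : ℝ) : ℂ) * (((2 * π : ℝ) : ℂ) * (((c / 4 : ℝ) : ℂ) * g0)
        + ((π : ℝ) : ℂ) * (((s : ℝ) : ℂ) * g1 + ((c : ℝ) : ℂ) * g2)
        + ((π : ℝ) : ℂ) * (((c * (C / S) : ℝ) : ℂ) * g1))) :
    g2 + ((C / S + s / c : ℝ) : ℂ) * g1 + (1 / 2 - m2 / (π : ℂ)) * g0 = 0 := by
  have hc' : (c : ℂ) ≠ 0 := by exact_mod_cast hc
  have hS' : (S : ℂ) ≠ 0 := by exact_mod_cast hS
  have hπ : ((π : ℝ) : ℂ) ≠ 0 := by exact_mod_cast Real.pi_ne_zero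
  push_cast at key ⊢
  field_simp at key ⊢
  linear_combination (-1 / 2 : ℂ) * key

/-- **T6inf.04.4 `OdeC811`**: the radial equation from the product formula. -/
theorem odeC176 : OdeC811 := by
  intro M hM hP u hu
  have hG : ContDiff ℝ 2 (gOf811 M) := contDiff_gOf811 hM
  -- the product formula as an identity of functions of `t`
  have hfun : (fun t => M u * M t)
      = fun t => ((2 * π : ℝ) : ℂ) * ∫ θ in (0 : ℝ)..(2 * π), fX176 (gOf811 M) u t θ := by
    funext t
    rw [hP u t, ← intervalIntegral.integral_const_mul]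
    congr 1
    funext θ
    exact prodForm_integrand176 M u t θ
  -- second derivatives at `0`
  have hL : deriv (deriv (fun t => M u * M t)) 0 = M u * deriv (deriv M) 0 := by
    have e1 : deriv (fun t => M u * M t) = fun t => M u * deriv M t := by
      funext t
      exact deriv_const_mul_field _
    rw [e1]
    exact deriv_const_mul_field _
  have hR : deriv (deriv (fun t => ((2 * π : ℝ) : ℂ)
        * ∫ θ in (0 : ℝ)..(2 * π), fX176 (gOf811 M) u t θ)) 0
      = ((2 * π : ℝ) : ℂ) * ∫ θ in (0 : ℝ)..(2 * π), fX2_176 (gOf811 M) u 0 θ := by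
    have e1 : deriv (fun t => ((2 * π : ℝ) : ℂ)
          * ∫ θ in (0 : ℝ)..(2 * π), fX176 (gOf811 M) u t θ)
        = fun t => ((2 * π : ℝ) : ℂ)
          * deriv (fun t => ∫ θ in (0 : ℝ)..(2 * π), fX176 (gOf811 M) u t θ) t := by
      funext t
      exact deriv_const_mul_field _
    rw [e1, deriv_const_mul_field, deriv2_integral176 hG hu]
  have key : M u * deriv (deriv M) 0
      = ((2 * π : ℝ) : ℂ) * ∫ θ in (0 : ℝ)..(2 * π), fX2_176 (gOf811 M) u 0 θ := by
    rw [← hL, hfun, hR]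
  rw [integral_fX2_zero176 (gOf811 M) hu] at key
  have hMu : M u = ((2 * π * cosh (u / 2) : ℝ) : ℂ) * gOf811 M u := by
    have hd := denom_ne_zero811 u
    unfold gOf811
    field_simp
  rw [hMu] at key
  exact ode_algebra176 (Real.cosh_pos (u / 2)).ne' (Real.sinh_pos_iff.mpr hu).ne' key

end Fermat.Agent.LT.T6.Inf.H176

end

end
-- ===== PACK-END LT/T6/Inf/H176/Ode.lean

-- ===== PACK-BEGIN LT/T6/Inf/H201/FunEq.lean
section



/-!
# Row LT, sub-tower T6inf, leaf T6inf.03c `FunEqC59` (helper201), OFF-MAIN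

`funEqC201 : H59.FunEqC59` VERBATIM (`LT/T6/Inf/H59/Class0Spec.lean`, helper59@a69802d26,
sha256 8ff4539241786322).

Route (header of `Class0Spec.lean`, step 2): the circle means of `E` around ANY point `g` are
`prof59 E g t = M(t) E(g)` for ALL real `t` (`t > 0`: eigen-equation; `t = 0`: right invariance;
`t < 0`: `a_t = k_{π/2} a_{-t} k_{-π/2}` and periodicity).  Then
`M(t) M(r) E(g₀) = ∫_η ∫_θ E(g₀ k_η a_r k_θ a_t) dθ dη` and, in the other order, with
`a_r k_θ a_t = k_α a_D k_β`, `D = dist59 r t θ`, the inner integral is `prof59 E g₀ D`.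
-/

set_option autoImplicit false
set_option linter.unusedSectionVars false

open MeasureTheory
open scoped ContDiff Matrix

noncomputable section

namespace Fermat.Agent.LT.T6.Inf.H201

open Fermat.Agent.LT.T6.Inf Fermat.Agent.LT.T6.Inf.H59

/-! ## Algebra of `k_θ`, `a_t` -/

theorem kR_add201 (θ α : ℝ) : kR59 θ * kR59 α = kR59 (θ + α) := by
  apply Units.ext
  show rotR θ * rotR α = rotR (θ + α)
  ext i j
  fin_cases i <;> fin_cases j <;>
    simp [rotR, Matrix.mul_apply, Fin.sum_univ_two, Real.cos_add, Real.sin_add] <;> ring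

theorem kR_periodic201 (θ : ℝ) : kR59 (θ + 2 * Real.pi) = kR59 θ := by
  apply Units.ext
  show rotR (θ + 2 * Real.pi) = rotR θ
  simp [rotR]

theorem aR_zero201 : aR59 0 = 1 := by
  apply Units.ext
  show torR 0 = 1
  ext i j
  fin_cases i <;> fin_cases j <;> simp [torR]

theorem aR_conj201 (t : ℝ) : aR59 t = kR59 (Real.pi / 2) * aR59 (-t) * kR59 (-(Real.pi / 2)) := by
  apply Units.ext
  show torR t = rotR (Real.pi / 2) * torR (-t) * rotR (-(Real.pi / 2))
  ext i j
  fin_cases i <;> fin_cases j <;>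
    simp [rotR, torR, Matrix.mul_apply, Fin.sum_univ_two] <;> ring

theorem wt_zero201 (θ : ℝ) : wt 0 θ = 1 := by
  simp [wt]

theorem continuous_kR201 : Continuous kR59 := by
  rw [Units.continuous_iff]
  constructor
  · show Continuous fun θ => rotR θ
    unfold rotR
    refine continuous_matrix fun i j => ?_
    fin_cases i <;> fin_cases j <;> simp <;> fun_prop
  · show Continuous fun θ => rotR (-θ)
    unfold rotR
    refine continuous_matrix fun i j => ?_
    fin_cases i <;> fin_cases j <;> simp <;> fun_prop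

theorem det_kR201 (θ : ℝ) : ((kR59 θ : GR) : Matrix (Fin 2) (Fin 2) ℝ).det = 1 := by
  show (rotR θ).det = 1
  simp [rotR, Matrix.det_fin_two]
  nlinarith [Real.sin_sq_add_cos_sq θ]

theorem det_aR201 (t : ℝ) : ((aR59 t : GR) : Matrix (Fin 2) (Fin 2) ℝ).det = 1 := by
  show (torR t).det = 1
  simp [torR, Matrix.det_fin_two, ← Real.exp_add]

/-! ## The radius of `a_r k_θ a_t` -/

theorem chR_arka201 (r t θ : ℝ) :
    chR (aR59 r * kR59 θ * aR59 t)
      = Real.cosh r * Real.cosh t + Real.sinh r * Real.sinh t * Real.cos (2 * θ) := by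
  have hdet : ((aR59 r * kR59 θ * aR59 t : GR) : Matrix (Fin 2) (Fin 2) ℝ).det = 1 := by
    rw [Units.val_mul, Units.val_mul, Matrix.det_mul, Matrix.det_mul, det_aR201, det_kR201,
      det_aR201]
    norm_num
  unfold chR
  rw [hdet]
  have hmat : ((aR59 r * kR59 θ * aR59 t : GR) : Matrix (Fin 2) (Fin 2) ℝ)
      = torR r * rotR θ * torR t := rfl
  rw [hmat]
  have ha : Real.exp (r / 2) * Real.exp (-(r / 2)) = 1 := by
    rw [← Real.exp_add]; simp
  have hb : Real.exp (t / 2) * Real.exp (-(t / 2)) = 1 := by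
    rw [← Real.exp_add]; simp
  have hr1 : Real.exp r = Real.exp (r / 2) ^ 2 := by
    rw [← Real.exp_nat_mul]; congr 1; ring
  have hr2 : Real.exp (-r) = Real.exp (-(r / 2)) ^ 2 := by
    rw [← Real.exp_nat_mul]; congr 1; ring
  have ht1 : Real.exp t = Real.exp (t / 2) ^ 2 := by
    rw [← Real.exp_nat_mul]; congr 1; ring
  have ht2 : Real.exp (-t) = Real.exp (-(t / 2)) ^ 2 := by
    rw [← Real.exp_nat_mul]; congr 1; ring
  have hcs : Real.sin θ ^ 2 + Real.cos θ ^ 2 = 1 := Real.sin_sq_add_cos_sq θ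
  rw [Real.cosh_eq, Real.cosh_eq, Real.sinh_eq, Real.sinh_eq, Real.cos_two_mul, hr1, hr2, ht1,
    ht2]
  simp only [rotR, torR, Matrix.mul_apply, Fin.sum_univ_two, Matrix.of_apply, Matrix.cons_val',
    Matrix.cons_val_zero, Matrix.cons_val_one, Matrix.empty_val', Matrix.cons_val_fin_one,
    abs_one, mul_one, mul_zero, zero_mul, add_zero, zero_add]
  set a := Real.exp (r / 2)
  set a' := Real.exp (-(r / 2))
  set b := Real.exp (t / 2)
  set b' := Real.exp (-(t / 2))
  set c := Real.cos θ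
  set s := Real.sin θ
  have hs2 : s ^ 2 = 1 - c ^ 2 := by linarith
  have h1 : a ^ 2 * a' ^ 2 = 1 := by rw [← mul_pow, ha]; norm_num
  have h2 : b ^ 2 * b' ^ 2 = 1 := by rw [← mul_pow, hb]; norm_num
  field_simp
  ring_nf
  rw [hs2]
  ring

/-! ## The circle means -/

theorem right_inv201 {E : GR → ℂ} (hw : HasWeight 0 E) (g : GR) (β : ℝ) :
    E (g * kR59 β) = E g := by
  have h := hw β (kR59 β) g rfl
  rw [wt_zero201, one_mul] at h
  exact h

theorem continuous_integrand201 {E : GR → ℂ} (hE : Continuous E) (g h : GR) :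
    Continuous fun θ : ℝ => E (g * kR59 θ * h) :=
  hE.comp ((continuous_const.mul continuous_kR201).mul continuous_const)

theorem periodic_integrand201 (E : GR → ℂ) (g h : GR) :
    Function.Periodic (fun θ : ℝ => E (g * kR59 θ * h)) (2 * Real.pi) := by
  intro θ
  show E (g * kR59 (θ + 2 * Real.pi) * h) = E (g * kR59 θ * h)
  rw [kR_periodic201]

/-- The circle integral is invariant under a shift of the angle. -/
theorem integral_shift201 (E : GR → ℂ) (g h : GR) (α : ℝ) :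
    (∫ θ in (0 : ℝ)..(2 * Real.pi), E (g * kR59 (θ + α) * h))
      = ∫ θ in (0 : ℝ)..(2 * Real.pi), E (g * kR59 θ * h) := by
  have hper := periodic_integrand201 E g h
  have h1 := intervalIntegral.integral_comp_add_right (a := (0 : ℝ)) (b := 2 * Real.pi)
    (fun θ : ℝ => E (g * kR59 θ * h)) α
  have h2 := hper.intervalIntegral_add_eq (0 + α) 0
  rw [h1]
  have h3 : 2 * Real.pi + α = 0 + α + 2 * Real.pi := by ring
  rw [h3, h2, zero_add]

theorem prof_pos201 {E : GR → ℂ} {m : ℝ → ℂ} (hm : MeanEig 0 E m) (g : GR) {t : ℝ}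
    (ht : 0 < t) : prof59 E g t = m t * E g := by
  have h := hm t ht (fun θ => kR59 θ * aR59 t) (fun θ => rfl) g
  unfold prof59
  rw [← h]
  refine intervalIntegral.integral_congr fun θ _ => ?_
  show E (g * kR59 θ * aR59 t) = wt (-0) θ * E (g * (kR59 θ * aR59 t))
  rw [neg_zero, wt_zero201, one_mul, mul_assoc]

theorem prof_zero201 {E : GR → ℂ} (hw : HasWeight 0 E) (g : GR) :
    prof59 E g 0 = ((2 * Real.pi : ℝ) : ℂ) * E g := by
  unfold prof59
  have h : ∀ θ : ℝ, E (g * kR59 θ * aR59 0) = E g := by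
    intro θ
    rw [aR_zero201, mul_one, right_inv201 hw]
  simp_rw [h]
  rw [intervalIntegral.integral_const]
  simp

theorem prof_neg201 {E : GR → ℂ} (hw : HasWeight 0 E) (g : GR) (t : ℝ) :
    prof59 E g t = prof59 E g (-t) := by
  unfold prof59
  have h : ∀ θ : ℝ, E (g * kR59 θ * aR59 t) = E (g * kR59 (θ + Real.pi / 2) * aR59 (-t)) := by
    intro θ
    have e1 : g * kR59 θ * aR59 t
        = g * kR59 (θ + Real.pi / 2) * aR59 (-t) * kR59 (-(Real.pi / 2)) := by
      conv_lhs => rw [aR_conj201 t]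
      rw [← kR_add201]
      simp only [mul_assoc]
    rw [e1, right_inv201 hw]
  simp_rw [h]
  exact integral_shift201 E g (aR59 (-t)) (Real.pi / 2)

/-- **The circle means around every point**: `prof59 E g t = M(t) E(g)` for ALL real `t`. -/
theorem prof_all201 {E : GR → ℂ} {m : ℝ → ℂ} (hw : HasWeight 0 E) (hm : MeanEig 0 E m)
    (g₀ : GR) (hg₀ : E g₀ ≠ 0) (g : GR) (t : ℝ) :
    prof59 E g t = prof59 E g₀ t / E g₀ * E g := by
  rcases lt_trichotomy t 0 with ht | ht | ht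
  · have ht' : 0 < -t := by linarith
    rw [prof_neg201 hw g t, prof_neg201 hw g₀ t, prof_pos201 hm g ht', prof_pos201 hm g₀ ht']
    field_simp
  · subst ht
    rw [prof_zero201 hw g, prof_zero201 hw g₀]
    field_simp
  · rw [prof_pos201 hm g ht, prof_pos201 hm g₀ ht]
    field_simp

/-! ## Fubini on the square -/

theorem integral_swap201 (F : ℝ → ℝ → ℂ) (hF : Continuous (Function.uncurry F)) (a b : ℝ)
    (hab : a ≤ b) :
    (∫ x in a..b, ∫ y in a..b, F x y) = ∫ y in a..b, ∫ x in a..b, F x y := by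
  simp only [intervalIntegral.integral_of_le hab]
  refine integral_integral_swap ?_
  rw [Measure.prod_restrict]
  have hK : IsCompact (Set.Icc a b ×ˢ Set.Icc a b : Set (ℝ × ℝ)) :=
    isCompact_Icc.prod isCompact_Icc
  have h1 : IntegrableOn (Function.uncurry F) (Set.Icc a b ×ˢ Set.Icc a b)
      ((volume : Measure ℝ).prod (volume : Measure ℝ)) :=
    hF.continuousOn.integrableOn_compact hK
  exact h1.mono_set (Set.prod_mono Set.Ioc_subset_Icc_self Set.Ioc_subset_Icc_self)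

/-! ## The functional equation -/

/-- **T6inf.03c FUN-EQ**, VERBATIM. -/
theorem funEqC201 : FunEqC59 := by
  intro hCartan E m hE hw hm g₀ hg₀ r t
  show prof59 E g₀ r / E g₀ * (prof59 E g₀ t / E g₀)
    = ∫ θ in (0 : ℝ)..(2 * Real.pi), prof59 E g₀ (dist59 r t θ) / E g₀
  -- the inner integral in the variable `η`
  have hinner : ∀ θ : ℝ,
      (∫ η in (0 : ℝ)..(2 * Real.pi), E (g₀ * kR59 η * aR59 r * kR59 θ * aR59 t))
        = prof59 E g₀ (dist59 r t θ) := by
    intro θ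
    have hdet : ((aR59 r * kR59 θ * aR59 t : GR) : Matrix (Fin 2) (Fin 2) ℝ).det = 1 := by
      rw [Units.val_mul, Units.val_mul, Matrix.det_mul, Matrix.det_mul, det_aR201, det_kR201,
        det_aR201]
      norm_num
    obtain ⟨α, β, hαβ⟩ := hCartan (aR59 r * kR59 θ * aR59 t) hdet
    rw [chR_arka201] at hαβ
    have hD : Real.arcosh (Real.cosh r * Real.cosh t + Real.sinh r * Real.sinh t *
        Real.cos (2 * θ)) = dist59 r t θ := rfl
    rw [hD] at hαβ
    have h : ∀ η : ℝ, E (g₀ * kR59 η * aR59 r * kR59 θ * aR59 t)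
        = E (g₀ * kR59 (η + α) * aR59 (dist59 r t θ)) := by
      intro η
      have e1 : g₀ * kR59 η * aR59 r * kR59 θ * aR59 t
          = g₀ * kR59 η * (aR59 r * kR59 θ * aR59 t) := by
        simp only [mul_assoc]
      rw [e1, hαβ, ← kR_add201]
      have e2 : g₀ * kR59 η * (kR59 α * aR59 (dist59 r t θ) * kR59 β)
          = g₀ * (kR59 η * kR59 α) * aR59 (dist59 r t θ) * kR59 β := by
        simp only [mul_assoc]
      rw [e2, right_inv201 hw]
    simp_rw [h]
    exact integral_shift201 E g₀ (aR59 (dist59 r t θ)) α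
  -- the inner integral in the variable `θ`
  have houter : ∀ η : ℝ,
      (∫ θ in (0 : ℝ)..(2 * Real.pi), E (g₀ * kR59 η * aR59 r * kR59 θ * aR59 t))
        = prof59 E g₀ t / E g₀ * E (g₀ * kR59 η * aR59 r) := by
    intro η
    exact prof_all201 hw hm g₀ hg₀ (g₀ * kR59 η * aR59 r) t
  -- Fubini
  have hcont : Continuous (Function.uncurry
      (fun η θ : ℝ => E (g₀ * kR59 η * aR59 r * kR59 θ * aR59 t))) := by
    refine hE.comp ?_
    have h1 : Continuous fun p : ℝ × ℝ => kR59 p.1 := continuous_kR201.comp continuous_fst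
    have h2 : Continuous fun p : ℝ × ℝ => kR59 p.2 := continuous_kR201.comp continuous_snd
    exact ((((continuous_const.mul h1).mul continuous_const).mul h2).mul continuous_const)
  have hswap := integral_swap201
    (fun η θ : ℝ => E (g₀ * kR59 η * aR59 r * kR59 θ * aR59 t)) hcont 0 (2 * Real.pi)
    (by positivity)
  simp only [houter, hinner] at hswap
  rw [intervalIntegral.integral_const_mul] at hswap
  -- `hswap : M t * ∫ η, E (g₀ k_η a_r) = ∫ θ, prof59 E g₀ (dist59 r t θ)`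
  have hprof : (∫ η in (0 : ℝ)..(2 * Real.pi), E (g₀ * kR59 η * aR59 r)) = prof59 E g₀ r := rfl
  rw [hprof] at hswap
  rw [intervalIntegral.integral_div, ← hswap]
  field_simp

end Fermat.Agent.LT.T6.Inf.H201

end
end
-- ===== PACK-END LT/T6/Inf/H201/FunEq.lean

-- ===== PACK-BEGIN LT/T6/Inf/H434/Smooth811.lean
section



/-!
# Row LT, sub-tower T6inf, leaf T6inf.04.2 `SmoothC811` (registry 1574) -- SPARE (helper434)

OFF-MAIN.  `smoothC434 : H811.SmoothC811` VERBATIM (the Prop of `LT/T6/Inf/H811/ClassCut.lean`,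
helper811@3472547ae, sha256 fb653191c433, byte-identical copy), from the Mathlib-only core
`smooth_core434` (`SmoothCore.lean`).  In fact the eigenvalue function is `C^∞`.
-/

set_option autoImplicit false

open scoped ContDiff

noncomputable section

namespace Fermat.Agent.LT.T6.Inf.H434

open Fermat.Agent.LT.T6.Inf

/-- The eigenvalue function is `C^∞` (hypotheses of `H811.SmoothC811`). -/
theorem smooth_top434 (n : ℤ) (e : GR → ℂ) (M : ℝ → ℂ) (hc : Continuous e) (h1 : e 1 ≠ 0)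
    (hw : HasWeight n e)
    (hM : ∀ (t : ℝ) (g : GR), H811.circMean811 n e g t = M t * e g) : ContDiff ℝ ∞ M :=
  smooth_core434 n e M H811.rotG811 H811.torG811 (fun θ => H811.rotG_coe811 θ)
    (fun t => H811.torG_coe811 t) hc h1 hw hM

/-- **T6inf.04.2 `SmoothC811`, VERBATIM.** -/
theorem smoothC434 : H811.SmoothC811 := by
  intro n e M hc h1 hw hM
  have h := contDiff_infty.1 (smooth_top434 n e M hc h1 hw hM) 2
  exact_mod_cast h

end Fermat.Agent.LT.T6.Inf.H434

end


end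
-- ===== PACK-END LT/T6/Inf/H434/Smooth811.lean

-- ===== PACK-BEGIN LT/T6/Inf/H771/Family.lean
section


/-!
# Row LT, sub-tower T6inf, leaf T6inf.04.6 `FamilyC811` (registry 1571) -- helper771

OFF-MAIN.  `familyC771 : H811.FamilyC811`, VERBATIM (frozen Prop of
`LT/T6/Inf/H811/ClassCut.lean`, helper811@3472547ae, sha256 fb653191), no hole, nothing assumed.

The explicit eigenfunction: `E_s(g) = (d - i c) (c² + d²)^{s-1}` for `g = [[a, b], [c, d]]`.

* weight one: the bottom row of `g k_θ` is `(c cos θ - d sin θ, c sin θ + d cos θ)`;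
* circle means: with `d - i c = r e^{iβ}` the bottom row of `g k_θ a_t` is
  `r (- sin φ e^{t/2}, cos φ e^{-t/2})`, `φ = β + θ`, so
  `e^{-iθ} E_s(g k_θ a_t) = E_s(g) F(φ)`,
  `F(φ) = (cosh t - sinh t cos 2φ)^{s-1} (cosh (t/2) - sinh (t/2) cos 2φ + i sinh (t/2) sin 2φ)`;
  `F` is periodic; `u = 2φ + π`; the odd part integrates to `0`.
-/

set_option autoImplicit false

open MeasureTheory
open scoped Matrix

noncomputable section

namespace Fermat.Agent.LT.T6.Inf.H771

open Fermat.Agent.LT.T6.Inf Fermat.Agent.LT.T6.Inf.H811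

/-- The entry `c` of `g = [[a, b], [c, d]]`. -/
def cOf771 (g : GR) : ℝ := (g : Matrix (Fin 2) (Fin 2) ℝ) 1 0

/-- The entry `d` of `g = [[a, b], [c, d]]`. -/
def dOf771 (g : GR) : ℝ := (g : Matrix (Fin 2) (Fin 2) ℝ) 1 1

/-- The model function on pairs: `(d - i c) (c² + d²)^{s-1}`. -/
def famPair771 (s : ℂ) (c d : ℝ) : ℂ :=
  (((d : ℝ) : ℂ) - Complex.I * ((c : ℝ) : ℂ)) * (((c ^ 2 + d ^ 2 : ℝ)) : ℂ) ^ (s - 1)

/-- **The explicit weight-one eigenfunction** `E_s(g) = (d - i c) (c² + d²)^{s-1}`. -/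
def famE771 (s : ℂ) (g : GR) : ℂ := famPair771 s (cOf771 g) (dOf771 g)

theorem row_pos771 (g : GR) : 0 < cOf771 g ^ 2 + dOf771 g ^ 2 := by
  have hdet := Matrix.GeneralLinearGroup.det_ne_zero g
  rw [Matrix.det_fin_two] at hdet
  have hne : ¬ (cOf771 g = 0 ∧ dOf771 g = 0) := by
    rintro ⟨hc, hd⟩
    apply hdet
    unfold cOf771 at hc
    unfold dOf771 at hd
    rw [hc, hd]
    ring
  by_contra hcon
  apply hne
  have h1 := sq_nonneg (cOf771 g)
  have h2 := sq_nonneg (dOf771 g)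
  have hc0 : cOf771 g ^ 2 = 0 := by linarith
  have hd0 : dOf771 g ^ 2 = 0 := by linarith
  exact ⟨pow_eq_zero_iff (two_ne_zero) |>.1 hc0, pow_eq_zero_iff (two_ne_zero) |>.1 hd0⟩

theorem continuous_cOf771 : Continuous cOf771 :=
  (Units.continuous_val (M := Matrix (Fin 2) (Fin 2) ℝ)).matrix_elem 1 0

theorem continuous_dOf771 : Continuous dOf771 :=
  (Units.continuous_val (M := Matrix (Fin 2) (Fin 2) ℝ)).matrix_elem 1 1

theorem continuous_famE771 (s : ℂ) : Continuous (famE771 s) := by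
  unfold famE771 famPair771
  refine Continuous.mul ?_ ?_
  · exact (Complex.continuous_ofReal.comp continuous_dOf771).sub
      (continuous_const.mul (Complex.continuous_ofReal.comp continuous_cOf771))
  · refine Continuous.cpow ?_ continuous_const ?_
    · exact Complex.continuous_ofReal.comp
        ((continuous_cOf771.pow 2).add (continuous_dOf771.pow 2))
    · intro g
      exact Complex.ofReal_mem_slitPlane.2 (row_pos771 g)

theorem cOf_one771 : cOf771 1 = 0 := by
  simp [cOf771]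

theorem dOf_one771 : dOf771 1 = 1 := by
  simp [dOf771]

theorem famE_one771 (s : ℂ) : famE771 s 1 = 1 := by
  unfold famE771 famPair771
  rw [cOf_one771, dOf_one771]
  simp

/-- The bottom row of `g · k` for `k = k_θ`. -/
theorem cOf_mul_rot771 (g k : GR) (θ : ℝ) (hk : (k : Matrix (Fin 2) (Fin 2) ℝ) = rotR θ) :
    cOf771 (g * k) = cOf771 g * Real.cos θ - dOf771 g * Real.sin θ := by
  unfold cOf771 dOf771
  rw [Matrix.GeneralLinearGroup.coe_mul, hk, Matrix.mul_apply, Fin.sum_univ_two]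
  simp [rotR]
  ring

theorem dOf_mul_rot771 (g k : GR) (θ : ℝ) (hk : (k : Matrix (Fin 2) (Fin 2) ℝ) = rotR θ) :
    dOf771 (g * k) = cOf771 g * Real.sin θ + dOf771 g * Real.cos θ := by
  unfold cOf771 dOf771
  rw [Matrix.GeneralLinearGroup.coe_mul, hk, Matrix.mul_apply, Fin.sum_univ_two]
  simp [rotR]

theorem wt_one771 (θ : ℝ) :
    wt 1 θ = ((Real.cos θ : ℝ) : ℂ) + ((Real.sin θ : ℝ) : ℂ) * Complex.I := by
  unfold wt
  rw [Int.cast_one, one_mul, Complex.exp_mul_I, Complex.ofReal_cos, Complex.ofReal_sin]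

theorem wt_neg_one771 (θ : ℝ) :
    wt (-1) θ = ((Real.cos θ : ℝ) : ℂ) - ((Real.sin θ : ℝ) : ℂ) * Complex.I := by
  unfold wt
  have h : (((-1 : ℤ) : ℂ)) * ((θ : ℝ) : ℂ) * Complex.I = (((-θ : ℝ)) : ℂ) * Complex.I := by
    push_cast
    ring
  rw [h, Complex.exp_mul_I, ← Complex.ofReal_cos, ← Complex.ofReal_sin, Real.cos_neg,
    Real.sin_neg]
  push_cast
  ring

theorem hasWeight_famE771 (s : ℂ) : HasWeight 1 (famE771 s) := by
  intro θ k g hk
  unfold famE771 famPair771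
  rw [cOf_mul_rot771 g k θ hk, dOf_mul_rot771 g k θ hk, wt_one771]
  have h1 : (cOf771 g * Real.cos θ - dOf771 g * Real.sin θ) ^ 2
      + (cOf771 g * Real.sin θ + dOf771 g * Real.cos θ) ^ 2 = cOf771 g ^ 2 + dOf771 g ^ 2 := by
    have := Real.sin_sq_add_cos_sq θ
    nlinarith [Real.sin_sq_add_cos_sq θ]
  rw [h1]
  have h2 : (((cOf771 g * Real.sin θ + dOf771 g * Real.cos θ : ℝ) : ℂ)
        - Complex.I * ((cOf771 g * Real.cos θ - dOf771 g * Real.sin θ : ℝ) : ℂ))
      = (((Real.cos θ : ℝ) : ℂ) + ((Real.sin θ : ℝ) : ℂ) * Complex.I)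
        * (((dOf771 g : ℝ) : ℂ) - Complex.I * ((cOf771 g : ℝ) : ℂ)) := by
    simp only [Complex.ofReal_add, Complex.ofReal_sub, Complex.ofReal_mul]
    linear_combination (((cOf771 g : ℝ) : ℂ) * ((Real.sin θ : ℝ) : ℂ)) * Complex.I_sq
  rw [h2]
  ring

/-! ## The circle means -/

/-- The matrix `k_θ a_t`. -/
theorem rot_mul_tor771 (θ t : ℝ) :
    rotR θ * torR t = !![Real.cos θ * Real.exp (t / 2), Real.sin θ * Real.exp (-(t / 2));
      -Real.sin θ * Real.exp (t / 2), Real.cos θ * Real.exp (-(t / 2))] := by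
  unfold rotR torR
  ext i j
  fin_cases i <;> fin_cases j <;> simp [Matrix.mul_apply, Fin.sum_univ_two]

/-- The bottom row of `g · k_θ a_t`. -/
theorem cOf_mul_rt771 (g Y : GR) (θ t : ℝ)
    (hY : (Y : Matrix (Fin 2) (Fin 2) ℝ) = rotR θ * torR t) :
    cOf771 (g * Y) = (cOf771 g * Real.cos θ - dOf771 g * Real.sin θ) * Real.exp (t / 2) := by
  unfold cOf771 dOf771
  rw [Matrix.GeneralLinearGroup.coe_mul, hY, rot_mul_tor771, Matrix.mul_apply, Fin.sum_univ_two]
  simp
  ring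

theorem dOf_mul_rt771 (g Y : GR) (θ t : ℝ)
    (hY : (Y : Matrix (Fin 2) (Fin 2) ℝ) = rotR θ * torR t) :
    dOf771 (g * Y) = (cOf771 g * Real.sin θ + dOf771 g * Real.cos θ) * Real.exp (-(t / 2)) := by
  unfold cOf771 dOf771
  rw [Matrix.GeneralLinearGroup.coe_mul, hY, rot_mul_tor771, Matrix.mul_apply, Fin.sum_univ_two]
  simp
  ring

/-- `h(u) = (cosh t + sinh t cos u)^{s-1}`. -/
def hFn771 (s : ℂ) (t u : ℝ) : ℂ :=
  (((Real.cosh t + Real.sinh t * Real.cos u : ℝ)) : ℂ) ^ (s - 1)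

theorem base_pos771 (t u : ℝ) : 0 < Real.cosh t + Real.sinh t * Real.cos u := by
  have h1 : Real.cosh t + Real.sinh t * Real.cos u
      = Real.exp t * ((1 + Real.cos u) / 2) + Real.exp (-t) * ((1 - Real.cos u) / 2) := by
    rw [Real.cosh_eq, Real.sinh_eq]
    ring
  rw [h1]
  have hx := Real.exp_pos t
  have hy := Real.exp_pos (-t)
  have hc1 := Real.neg_one_le_cos u
  have hc2 := Real.cos_le_one u
  rcases le_or_gt 0 (Real.cos u) with hc | hc
  · have h2 : 0 < Real.exp t * ((1 + Real.cos u) / 2) := by positivity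
    have h3 : 0 ≤ Real.exp (-t) * ((1 - Real.cos u) / 2) :=
      mul_nonneg hy.le (by linarith)
    linarith
  · have h2 : 0 ≤ Real.exp t * ((1 + Real.cos u) / 2) :=
      mul_nonneg hx.le (by linarith)
    have h3 : 0 < Real.exp (-t) * ((1 - Real.cos u) / 2) :=
      mul_pos hy (by linarith)
    linarith

theorem continuous_hFn771 (s : ℂ) (t : ℝ) : Continuous (hFn771 s t) := by
  unfold hFn771
  refine Continuous.cpow ?_ continuous_const ?_
  · exact Complex.continuous_ofReal.comp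
      (continuous_const.add (continuous_const.mul Real.continuous_cos))
  · intro u
    exact Complex.ofReal_mem_slitPlane.2 (base_pos771 t u)

/-- The even part of the integrand. -/
def gEven771 (s : ℂ) (t u : ℝ) : ℂ :=
  hFn771 s t u * ((Real.cosh (t / 2) + Real.sinh (t / 2) * Real.cos u : ℝ) : ℂ)

/-- The odd part of the integrand. -/
def gOdd771 (s : ℂ) (t u : ℝ) : ℂ := hFn771 s t u * ((Real.sin u : ℝ) : ℂ)

/-- The full integrand in the variable `u = 2φ + π`. -/
def gFn771 (s : ℂ) (t u : ℝ) : ℂ :=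
  gEven771 s t u - Complex.I * ((Real.sinh (t / 2) : ℝ) : ℂ) * gOdd771 s t u

theorem continuous_gEven771 (s : ℂ) (t : ℝ) : Continuous (gEven771 s t) := by
  unfold gEven771
  exact (continuous_hFn771 s t).mul (Complex.continuous_ofReal.comp
    (continuous_const.add (continuous_const.mul Real.continuous_cos)))

theorem continuous_gOdd771 (s : ℂ) (t : ℝ) : Continuous (gOdd771 s t) := by
  unfold gOdd771
  exact (continuous_hFn771 s t).mul (Complex.continuous_ofReal.comp Real.continuous_sin)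

theorem continuous_gFn771 (s : ℂ) (t : ℝ) : Continuous (gFn771 s t) := by
  unfold gFn771
  exact (continuous_gEven771 s t).sub (continuous_const.mul (continuous_gOdd771 s t))

theorem periodic_gFn771 (s : ℂ) (t : ℝ) : Function.Periodic (gFn771 s t) (2 * Real.pi) := by
  intro u
  unfold gFn771 gEven771 gOdd771 hFn771
  rw [Real.cos_add_two_pi, Real.sin_add_two_pi]

/-- The odd part integrates to `0`. -/
theorem integral_gOdd771 (s : ℂ) (t : ℝ) :
    (∫ u in (0 : ℝ)..(2 * Real.pi), gOdd771 s t u) = 0 := by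
  have h := intervalIntegral.integral_comp_sub_left (a := (0 : ℝ)) (b := 2 * Real.pi)
    (fun u => gOdd771 s t u) (2 * Real.pi)
  have h2 : ∀ x : ℝ, gOdd771 s t (2 * Real.pi - x) = -gOdd771 s t x := by
    intro x
    unfold gOdd771 hFn771
    rw [Real.cos_two_pi_sub, Real.sin_two_pi_sub]
    push_cast
    ring
  simp only [h2, intervalIntegral.integral_neg, sub_self, sub_zero] at h
  have h3 : (2 : ℂ) * (∫ u in (0 : ℝ)..(2 * Real.pi), gOdd771 s t u) = 0 := by
    rw [two_mul]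
    nth_rewrite 1 [← h]
    simp
  simpa using h3

/-- `∫₀^{2π} G = 2π sphQ s t`. -/
theorem integral_gFn771 (s : ℂ) (t : ℝ) :
    (∫ u in (0 : ℝ)..(2 * Real.pi), gFn771 s t u)
      = ((2 * Real.pi : ℝ) : ℂ) * sphQ s t := by
  have hI1 : IntervalIntegrable (gEven771 s t) volume 0 (2 * Real.pi) :=
    (continuous_gEven771 s t).intervalIntegrable _ _
  have hI2 : IntervalIntegrable
      (fun u => Complex.I * ((Real.sinh (t / 2) : ℝ) : ℂ) * gOdd771 s t u) volume 0
      (2 * Real.pi) :=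
    (continuous_const.mul (continuous_gOdd771 s t)).intervalIntegrable _ _
  have h1 : (∫ u in (0 : ℝ)..(2 * Real.pi), gFn771 s t u)
      = (∫ u in (0 : ℝ)..(2 * Real.pi), gEven771 s t u)
        - ∫ u in (0 : ℝ)..(2 * Real.pi),
            Complex.I * ((Real.sinh (t / 2) : ℝ) : ℂ) * gOdd771 s t u := by
    unfold gFn771
    exact intervalIntegral.integral_sub hI1 hI2
  rw [h1, intervalIntegral.integral_const_mul, integral_gOdd771, mul_zero, sub_zero]
  unfold sphQ gEven771 hFn771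
  rw [← mul_assoc]
  have hpi : ((2 * Real.pi : ℝ) : ℂ) * ((1 / (2 * Real.pi) : ℝ) : ℂ) = 1 := by
    rw [← Complex.ofReal_mul]
    have : (2 * Real.pi) * (1 / (2 * Real.pi)) = 1 := by
      have := Real.pi_pos
      field_simp
    rw [this, Complex.ofReal_one]
  rw [hpi, one_mul]

/-- The integrand in the variable `φ = θ + β`. -/
def fFn771 (s : ℂ) (t φ : ℝ) : ℂ := gFn771 s t (2 * φ + Real.pi)

theorem periodic_fFn771 (s : ℂ) (t : ℝ) : Function.Periodic (fFn771 s t) (2 * Real.pi) := by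
  intro φ
  unfold fFn771
  have h : 2 * (φ + 2 * Real.pi) + Real.pi = (2 * φ + Real.pi) + 2 * Real.pi + 2 * Real.pi := by
    ring
  rw [h, periodic_gFn771 s t, periodic_gFn771 s t]

theorem continuous_fFn771 (s : ℂ) (t : ℝ) : Continuous (fFn771 s t) := by
  unfold fFn771
  exact (continuous_gFn771 s t).comp ((continuous_const.mul continuous_id).add continuous_const)

/-- `∫₀^{2π} F = ∫₀^{2π} G` (substitution `u = 2φ + π`, periodicity). -/
theorem integral_fFn771 (s : ℂ) (t : ℝ) :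
    (∫ φ in (0 : ℝ)..(2 * Real.pi), fFn771 s t φ) = ((2 * Real.pi : ℝ) : ℂ) * sphQ s t := by
  unfold fFn771
  rw [intervalIntegral.integral_comp_mul_add (f := gFn771 s t) (two_ne_zero) Real.pi]
  have e1 : 2 * (0 : ℝ) + Real.pi = Real.pi := by ring
  have e2 : 2 * (2 * Real.pi) + Real.pi = (Real.pi + 2 * Real.pi) + 2 * Real.pi := by ring
  rw [e1, e2]
  have hI : ∀ a b : ℝ, IntervalIntegrable (gFn771 s t) volume a b :=
    fun a b => (continuous_gFn771 s t).intervalIntegrable a b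
  rw [← intervalIntegral.integral_add_adjacent_intervals (hI Real.pi (Real.pi + 2 * Real.pi))
    (hI (Real.pi + 2 * Real.pi) (Real.pi + 2 * Real.pi + 2 * Real.pi))]
  have p1 := (periodic_gFn771 s t).intervalIntegral_add_eq Real.pi 0
  have p2 := (periodic_gFn771 s t).intervalIntegral_add_eq (Real.pi + 2 * Real.pi) 0
  rw [p1, p2, zero_add, integral_gFn771]
  rw [← two_smul ℝ, smul_smul]
  norm_num

/-- The algebraic core of the circle-mean computation. -/
theorem stepA771 (S C x y : ℝ) (h : S ^ 2 + C ^ 2 = 1) :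
    (((C : ℝ) : ℂ) - ((S : ℝ) : ℂ) * Complex.I)
        * (((C * y : ℝ) : ℂ) + Complex.I * ((S * x : ℝ) : ℂ))
      = (((x + y) / 2 + (x - y) / 2 * (S ^ 2 - C ^ 2) : ℝ) : ℂ)
        - Complex.I * (((x - y) / 2 : ℝ) : ℂ) * (((-(2 * S * C) : ℝ)) : ℂ) := by
  have hc : ((S : ℝ) : ℂ) ^ 2 + ((C : ℝ) : ℂ) ^ 2 = 1 := by exact_mod_cast h
  push_cast
  linear_combination (-(((S : ℝ) : ℂ) ^ 2 * ((x : ℝ) : ℂ))) * Complex.I_sq
    + ((((x : ℝ) : ℂ) + ((y : ℝ) : ℂ)) / 2) * hc

/-- `z = d - i c`. -/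
def zOf771 (g : GR) : ℂ := ((dOf771 g : ℝ) : ℂ) - Complex.I * ((cOf771 g : ℝ) : ℂ)

theorem zOf_re771 (g : GR) : (zOf771 g).re = dOf771 g := by
  simp [zOf771]

theorem zOf_im771 (g : GR) : (zOf771 g).im = -cOf771 g := by
  simp [zOf771]

theorem zOf_ne_zero771 (g : GR) : zOf771 g ≠ 0 := by
  intro h
  have h1 := zOf_re771 g
  have h2 := zOf_im771 g
  rw [h] at h1 h2
  simp only [Complex.zero_re, Complex.zero_im] at h1 h2
  have h3 := row_pos771 g
  have hc : cOf771 g = 0 := by linarith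
  rw [← h1, hc] at h3
  simp at h3

/-- **The pointwise identity**: `e^{-iθ} E_s(g k_θ a_t) = E_s(g) F(θ + β)`, `β = arg (d - i c)`. -/
theorem key771 (s : ℂ) (t : ℝ) (g Y : GR) (θ : ℝ)
    (hY : (Y : Matrix (Fin 2) (Fin 2) ℝ) = rotR θ * torR t) :
    wt (-1) θ * famE771 s (g * Y)
      = famE771 s g * fFn771 s t (θ + Complex.arg (zOf771 g)) := by
  have hz0 := zOf_ne_zero771 g
  have hr0 : 0 < ‖zOf771 g‖ := norm_pos_iff.2 hz0
  have hd : dOf771 g = ‖zOf771 g‖ * Real.cos (Complex.arg (zOf771 g)) := by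
    rw [Complex.cos_arg hz0, zOf_re771]
    field_simp
  have hc : cOf771 g = -(‖zOf771 g‖ * Real.sin (Complex.arg (zOf771 g))) := by
    rw [Complex.sin_arg, zOf_im771]
    field_simp
  generalize Complex.arg (zOf771 g) = β at hd hc ⊢
  generalize ‖zOf771 g‖ = r at hd hc hr0 ⊢
  have hr2 : cOf771 g ^ 2 + dOf771 g ^ 2 = r ^ 2 := by
    rw [hc, hd]
    have := Real.sin_sq_add_cos_sq β
    linear_combination (r ^ 2) * this
  have hc'' : cOf771 (g * Y) = -(r * Real.sin (θ + β) * Real.exp (t / 2)) := by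
    rw [cOf_mul_rt771 g Y θ t hY, hc, hd, Real.sin_add]
    ring
  have hd'' : dOf771 (g * Y) = r * Real.cos (θ + β) * Real.exp (-(t / 2)) := by
    rw [dOf_mul_rt771 g Y θ t hY, hc, hd, Real.cos_add]
    ring
  have hx2 : Real.exp (t / 2) ^ 2 = Real.cosh t + Real.sinh t := by
    rw [Real.cosh_add_sinh, ← Real.exp_nat_mul]
    congr 1
    push_cast
    ring
  have hy2 : Real.exp (-(t / 2)) ^ 2 = Real.cosh t - Real.sinh t := by
    rw [Real.cosh_sub_sinh, ← Real.exp_nat_mul]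
    congr 1
    push_cast
    ring
  have hsc := Real.sin_sq_add_cos_sq (θ + β)
  have hcu : Real.cos (2 * (θ + β) + Real.pi)
      = Real.sin (θ + β) ^ 2 - Real.cos (θ + β) ^ 2 := by
    rw [Real.cos_add_pi, Real.cos_two_mul]
    linarith
  have hsu : Real.sin (2 * (θ + β) + Real.pi)
      = -(2 * Real.sin (θ + β) * Real.cos (θ + β)) := by
    rw [Real.sin_add_pi, Real.sin_two_mul]
  have hA : cOf771 (g * Y) ^ 2 + dOf771 (g * Y) ^ 2
      = r ^ 2 * (Real.cosh t + Real.sinh t * Real.cos (2 * (θ + β) + Real.pi)) := by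
    rw [hc'', hd'', hcu]
    have e1 : (-(r * Real.sin (θ + β) * Real.exp (t / 2))) ^ 2
        + (r * Real.cos (θ + β) * Real.exp (-(t / 2))) ^ 2
        = r ^ 2 * (Real.sin (θ + β) ^ 2 * Real.exp (t / 2) ^ 2
          + Real.cos (θ + β) ^ 2 * Real.exp (-(t / 2)) ^ 2) := by ring
    rw [e1, hx2, hy2]
    linear_combination (r ^ 2 * Real.cosh t) * hsc
  have hch : Real.cosh (t / 2) = (Real.exp (t / 2) + Real.exp (-(t / 2))) / 2 := Real.cosh_eq _
  have hsh : Real.sinh (t / 2) = (Real.exp (t / 2) - Real.exp (-(t / 2))) / 2 := Real.sinh_eq _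
  -- the weight factor
  have hw : wt (-1) θ = Complex.exp (((β : ℝ) : ℂ) * Complex.I) * wt (-1) (θ + β) := by
    unfold wt
    rw [← Complex.exp_add]
    congr 1
    push_cast
    ring
  -- `z = r e^{iβ}`
  have hzr : (((dOf771 g : ℝ) : ℂ) - Complex.I * ((cOf771 g : ℝ) : ℂ))
      = ((r : ℝ) : ℂ) * Complex.exp (((β : ℝ) : ℂ) * Complex.I) := by
    rw [Complex.exp_mul_I, ← Complex.ofReal_cos, ← Complex.ofReal_sin, hc, hd]
    simp only [Complex.ofReal_mul, Complex.ofReal_neg]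
    ring
  have hstep := stepA771 (Real.sin (θ + β)) (Real.cos (θ + β)) (Real.exp (t / 2))
    (Real.exp (-(t / 2))) hsc
  rw [← hcu, ← hsu, ← hch, ← hsh, ← wt_neg_one771] at hstep
  unfold famE771 famPair771 fFn771 gFn771 gEven771 gOdd771 hFn771
  rw [hA, hr2, hzr, hw]
  rw [Complex.ofReal_mul (r ^ 2), Complex.mul_cpow_ofReal_nonneg (sq_nonneg r)
    (base_pos771 t _).le]
  have hpair : (((dOf771 (g * Y) : ℝ) : ℂ) - Complex.I * ((cOf771 (g * Y) : ℝ) : ℂ))
      = ((r : ℝ) : ℂ) * (((Real.cos (θ + β) * Real.exp (-(t / 2)) : ℝ) : ℂ)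
          + Complex.I * ((Real.sin (θ + β) * Real.exp (t / 2) : ℝ) : ℂ)) := by
    rw [hc'', hd'']
    simp only [Complex.ofReal_mul, Complex.ofReal_neg]
    ring
  rw [hpair]
  linear_combination (Complex.exp (((β : ℝ) : ℂ) * Complex.I) * ((r : ℝ) : ℂ)
    * ((r ^ 2 : ℝ) : ℂ) ^ (s - 1)
    * (((Real.cosh t + Real.sinh t * Real.cos (2 * (θ + β) + Real.pi) : ℝ)) : ℂ) ^ (s - 1))
    * hstep

theorem meanEig_famE771 (s : ℂ) :
    MeanEig 1 (famE771 s) (fun t => ((2 * Real.pi : ℝ) : ℂ) * sphQ s t) := by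
  intro t _ Y hY g
  have h1 : ∀ θ : ℝ, wt (-(1 : ℤ)) θ * famE771 s (g * Y θ)
      = famE771 s g * fFn771 s t (θ + Complex.arg (zOf771 g)) :=
    fun θ => key771 s t g (Y θ) θ (hY θ)
  simp only [h1]
  rw [intervalIntegral.integral_const_mul]
  rw [intervalIntegral.integral_comp_add_right (fun φ => fFn771 s t φ)
    (Complex.arg (zOf771 g))]
  have hp := (periodic_fFn771 s t).intervalIntegral_add_eq (0 + Complex.arg (zOf771 g)) 0
  have e : 2 * Real.pi + Complex.arg (zOf771 g)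
      = 0 + Complex.arg (zOf771 g) + 2 * Real.pi := by ring
  rw [e, hp, zero_add, integral_fFn771]
  ring

/-- **T6inf.04.6 `FamilyC811`**, VERBATIM. -/
theorem familyC771 : FamilyC811 := by
  intro s
  refine ⟨famE771 s, continuous_famE771 s, ?_, hasWeight_famE771 s, meanEig_famE771 s⟩
  rw [famE_one771]
  exact one_ne_zero

end Fermat.Agent.LT.T6.Inf.H771

end

end
-- ===== PACK-END LT/T6/Inf/H771/Family.lean

-- ===== PACK-BEGIN LT/T6/Inf/H905/Uniq.lean
section



/-!
# Row LT, sub-tower T6inf, leaf T6inf.04.5 `H811.UniqC811` (registry row 1570) -- helper905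

OFF-MAIN.  `uniqC905 : H811.UniqC811`, VERBATIM against `LT/T6/Inf/H811/ClassCut.lean`
(helper811@3472547ae, sha256 fb653191c433).  The proof is `ode_uniq_core905` (Mathlib only,
`UniqCore.lean`) applied to `D = G₁ - G₂`.
-/

set_option autoImplicit false

noncomputable section

namespace Fermat.Agent.LT.T6.Inf.H905

open Fermat.Agent.LT.T6.Inf.H811

/-- **LEAF T6inf.04.5 `UniqC811`**: uniqueness for the radial equation. -/
theorem uniqC905 : UniqC811 := by
  intro μ G₁ G₂ hG₁ hG₂ h0 h1 h2 ho1 ho2 u hu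
  have hD : ContDiff ℝ 2 (fun x => G₁ x - G₂ x) := hG₁.sub hG₂
  have hd1 : Differentiable ℝ G₁ := hG₁.differentiable (by norm_num)
  have hd2 : Differentiable ℝ G₂ := hG₂.differentiable (by norm_num)
  have hderiv : deriv (fun x => G₁ x - G₂ x) = fun x => deriv G₁ x - deriv G₂ x := by
    funext x
    exact deriv_fun_sub (hd1 x) (hd2 x)
  have hderiv2 : deriv (deriv (fun x => G₁ x - G₂ x))
      = fun x => deriv (deriv G₁) x - deriv (deriv G₂) x := by
    rw [hderiv]
    funext x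
    exact deriv_fun_sub (hG₁.differentiable_deriv_two x) (hG₂.differentiable_deriv_two x)
  have key := ode_uniq_core905 μ (fun x => G₁ x - G₂ x) hD (by simp [h0])
    (by rw [hderiv]; simp [h1, h2])
    (fun v hv => by
      rw [hderiv2, hderiv]
      have e1 := ho1 v hv
      have e2 := ho2 v hv
      unfold odeCoef811 at e1 e2
      linear_combination e1 - e2) u hu
  exact sub_eq_zero.mp key

end Fermat.Agent.LT.T6.Inf.H905

end
end
-- ===== PACK-END LT/T6/Inf/H905/Uniq.lean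

-- ===== PACK-BEGIN LT/T6/Inf/H922/Ode.lean
section



/-!
# Row LT, sub-tower T6inf, leaf T6inf.03d `OdeC59` (helper922), OFF-MAIN

Proof of the frozen leaf `OdeC59` of `LT/T6/Inf/H59/Class0Spec.lean` (helper59, sha256 8ff45392):
a `C²` solution `M` of the functional equation `M(r) M(t) = ∫₀^{2π} M(dist59 r t θ) dθ`
satisfies `M'' + coth t · M' = λ M` on `t > 0`, with `λ = M''(0) / π`.

Method: with `φ = M ∘ arcosh` (of class `C²` on `(1, ∞)`) and
`u(r, θ) = cosh r cosh t + sinh r sinh t cos 2θ` (`> 1` for `|r| < t`), the right-hand side is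
`∫ φ(u(r, θ)) dθ`; two differentiations under the integral sign in `r` (dominated by constants,
compactness of `[-t/2, t/2] × [0, 2π]`), `u_r = sinh r cosh t + cosh r sinh t cos 2θ`, `u_rr = u`:
`M''(0) M(t) = ∫ (cosh t φ'(cosh t) + sinh² t cos² 2θ φ''(cosh t)) dθ
            = π (2 cosh t φ'(cosh t) + sinh² t φ''(cosh t))`,
and `M = φ ∘ cosh` on `t > 0`: `M' = sinh t φ'(cosh t)`,
`M'' = sinh² t φ''(cosh t) + cosh t φ'(cosh t)`.
-/

set_option autoImplicit false

open MeasureTheory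
open scoped ContDiff Topology Matrix

noncomputable section

namespace Fermat.Agent.LT.T6.Inf.H922

open Fermat.Agent.LT.T6.Inf Fermat.Agent.LT.T6.Inf.H59

/-- `cosh r cosh t + sinh r sinh t cos 2θ` (the `cosh` of the radius of `a_r k_θ a_t`). -/
def uF922 (t r θ : ℝ) : ℝ :=
  Real.cosh r * Real.cosh t + Real.sinh r * Real.sinh t * Real.cos (2 * θ)

/-- The `r`-derivative of `uF922`. -/
def uR922 (t r θ : ℝ) : ℝ :=
  Real.sinh r * Real.cosh t + Real.cosh r * Real.sinh t * Real.cos (2 * θ)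

theorem hasDerivAt_uF922 (t r θ : ℝ) : HasDerivAt (fun r => uF922 t r θ) (uR922 t r θ) r := by
  unfold uF922 uR922
  exact ((Real.hasDerivAt_cosh r).mul_const _).add
    (((Real.hasDerivAt_sinh r).mul_const _).mul_const _)

theorem hasDerivAt_uR922 (t r θ : ℝ) : HasDerivAt (fun r => uR922 t r θ) (uF922 t r θ) r := by
  unfold uF922 uR922
  exact ((Real.hasDerivAt_sinh r).mul_const _).add
    (((Real.hasDerivAt_cosh r).mul_const _).mul_const _)

theorem uF922_zero (t θ : ℝ) : uF922 t 0 θ = Real.cosh t := by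
  simp [uF922]

theorem uR922_zero (t θ : ℝ) : uR922 t 0 θ = Real.sinh t * Real.cos (2 * θ) := by
  simp [uR922]

theorem continuous_uF922 (t : ℝ) : Continuous (fun p : ℝ × ℝ => uF922 t p.1 p.2) := by
  unfold uF922
  fun_prop

theorem continuous_uR922 (t : ℝ) : Continuous (fun p : ℝ × ℝ => uR922 t p.1 p.2) := by
  unfold uR922
  fun_prop

/-- For `|r| < t` the argument of `arcosh` stays in `(1, ∞)`. -/
theorem one_lt_uF922 {t r : ℝ} (hr : |r| < t) (θ : ℝ) : 1 < uF922 t r θ := by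
  have ht : 0 < t := lt_of_le_of_lt (abs_nonneg r) hr
  have h1 : 1 < Real.cosh (t - |r|) := by
    rw [Real.one_lt_cosh]
    exact (sub_pos.mpr hr).ne'
  have h2 : Real.cosh (t - |r|) = Real.cosh t * Real.cosh r - Real.sinh t * |Real.sinh r| := by
    rw [Real.cosh_sub, Real.cosh_abs, Real.abs_sinh]
  have h3 : |Real.sinh r * Real.cos (2 * θ)| ≤ |Real.sinh r| := by
    rw [abs_mul]
    exact mul_le_of_le_one_right (abs_nonneg _) (Real.abs_cos_le_one _)
  have h4 : 0 < Real.sinh t := Real.sinh_pos_iff.mpr ht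
  have h5 : -|Real.sinh r| ≤ Real.sinh r * Real.cos (2 * θ) :=
    (abs_le.mp h3).1
  unfold uF922
  nlinarith [mul_le_mul_of_nonneg_left h5 h4.le]

theorem integral_cos_two_mul_sq922 :
    ∫ θ in (0:ℝ)..(2 * Real.pi), Real.cos (2 * θ) ^ 2 = Real.pi := by
  have h := intervalIntegral.integral_comp_mul_left (a := 0) (b := 2 * Real.pi)
    (fun x => Real.cos x ^ 2) (c := 2) (by norm_num)
  rw [h, integral_cos_sq]
  have h4 : Real.sin (2 * (2 * Real.pi)) = 0 := by
    have := Real.sin_nat_mul_pi 4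
    push_cast at this
    rw [← this]
    congr 1
    ring
  simp [h4]
theorem iteratedDeriv_two922 (M : ℝ → ℂ) : iteratedDeriv 2 M = deriv (deriv M) := by
  rw [show (2 : ℕ) = 1 + 1 from rfl, iteratedDeriv_succ, iteratedDeriv_one]

/-- The key identity: `M''(0) M(t) = π (M''(t) + coth t M'(t))`, in a division-free form. -/
theorem key922 (M : ℝ → ℂ) (hM : ContDiff ℝ 2 M) (hsph : IsSph59 M) (t : ℝ) (ht : 0 < t) :
    ∃ A B : ℂ, deriv M t = Real.sinh t • A ∧
      deriv (deriv M) t = Real.sinh t • (Real.sinh t • B) + Real.cosh t • A ∧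
      deriv (deriv M) 0 * M t =
        ∫ θ in (0:ℝ)..(2 * Real.pi),
          (Real.cosh t • A + (Real.sinh t * Real.cos (2 * θ)) •
            ((Real.sinh t * Real.cos (2 * θ)) • B)) := by
  -- the profile in the variable `x = cosh s`
  set φ : ℝ → ℂ := fun x => M (Real.arcosh x) with hφdef
  have hφ : ContDiffOn ℝ 2 φ (Set.Ioi 1) := hM.comp_contDiffOn Real.contDiffOn_arcosh
  have hφ1 : ContDiffOn ℝ 1 (deriv φ) (Set.Ioi 1) :=
    hφ.deriv_of_isOpen isOpen_Ioi (by norm_num)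
  have hd0 : ∀ x ∈ Set.Ioi (1:ℝ), HasDerivAt φ (deriv φ x) x := fun x hx =>
    ((hφ.differentiableOn (by norm_num)).differentiableAt (Ioi_mem_nhds hx)).hasDerivAt
  have hd1 : ∀ x ∈ Set.Ioi (1:ℝ), HasDerivAt (deriv φ) (deriv (deriv φ) x) x := fun x hx =>
    ((hφ1.differentiableOn (by norm_num)).differentiableAt (Ioi_mem_nhds hx)).hasDerivAt
  have hc0 : ContinuousOn φ (Set.Ioi 1) := hφ.continuousOn
  have hc1 : ContinuousOn (deriv φ) (Set.Ioi 1) := hφ1.continuousOn
  have hc2 : ContinuousOn (deriv (deriv φ)) (Set.Ioi 1) :=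
    hφ1.continuousOn_deriv_of_isOpen isOpen_Ioi le_rfl
  -- `M = φ ∘ cosh` on `s > 0`
  have hMφ : ∀ s : ℝ, 0 < s → HasDerivAt M (Real.sinh s • deriv φ (Real.cosh s)) s := by
    intro s hs
    have h1 : HasDerivAt (φ ∘ Real.cosh) (Real.sinh s • deriv φ (Real.cosh s)) s :=
      HasDerivAt.scomp (g₁ := φ) (h := Real.cosh) s
        (hd0 _ (Real.one_lt_cosh.mpr hs.ne')) (Real.hasDerivAt_cosh s)
    refine h1.congr_of_eventuallyEq ?_
    filter_upwards [Ioi_mem_nhds hs] with x hx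
    simp only [Function.comp, hφdef]
    rw [Real.arcosh_cosh (le_of_lt hx)]
  have hM1 : ∀ s : ℝ, 0 < s → deriv M s = Real.sinh s • deriv φ (Real.cosh s) :=
    fun s hs => (hMφ s hs).deriv
  have hM2 : HasDerivAt (deriv M)
      (Real.sinh t • (Real.sinh t • deriv (deriv φ) (Real.cosh t)) +
        Real.cosh t • deriv φ (Real.cosh t)) t := by
    have h2 : HasDerivAt (fun s => Real.sinh s • deriv φ (Real.cosh s))
        (Real.sinh t • (Real.sinh t • deriv (deriv φ) (Real.cosh t)) +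
          Real.cosh t • deriv φ (Real.cosh t)) t :=
      (Real.hasDerivAt_sinh t).smul
        (HasDerivAt.scomp (g₁ := deriv φ) (h := Real.cosh) t
          (hd1 _ (Real.one_lt_cosh.mpr ht.ne')) (Real.hasDerivAt_cosh t))
    refine h2.congr_of_eventuallyEq ?_
    filter_upwards [Ioi_mem_nhds ht] with x hx
    exact hM1 x hx
  -- the parametric integral
  have ht2 : 0 < t / 2 := by positivity
  have hball : ∀ r ∈ Metric.closedBall (0:ℝ) (t/2), ∀ θ : ℝ, uF922 t r θ ∈ Set.Ioi (1:ℝ) := by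
    intro r hr θ
    refine one_lt_uF922 ?_ θ
    rw [Metric.mem_closedBall, Real.dist_eq, sub_zero] at hr
    linarith
  set K : Set (ℝ × ℝ) := Metric.closedBall (0:ℝ) (t/2) ×ˢ Set.Icc 0 (2 * Real.pi) with hK
  have hKc : IsCompact K := (isCompact_closedBall 0 (t/2)).prod isCompact_Icc
  have hmaps : Set.MapsTo (fun p : ℝ × ℝ => uF922 t p.1 p.2) K (Set.Ioi 1) :=
    fun p hp => hball p.1 hp.1 p.2
  have hg1 : ContinuousOn
      (fun p : ℝ × ℝ => uR922 t p.1 p.2 • deriv φ (uF922 t p.1 p.2)) K :=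
    (continuous_uR922 t).continuousOn.smul (hc1.comp (continuous_uF922 t).continuousOn hmaps)
  have hg2 : ContinuousOn
      (fun p : ℝ × ℝ => uR922 t p.1 p.2 • (uR922 t p.1 p.2 • deriv (deriv φ) (uF922 t p.1 p.2)) +
        uF922 t p.1 p.2 • deriv φ (uF922 t p.1 p.2)) K :=
    ((continuous_uR922 t).continuousOn.smul ((continuous_uR922 t).continuousOn.smul
      (hc2.comp (continuous_uF922 t).continuousOn hmaps))).add
      ((continuous_uF922 t).continuousOn.smul (hc1.comp (continuous_uF922 t).continuousOn hmaps))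
  obtain ⟨C1, hC1⟩ := hKc.exists_bound_of_continuousOn hg1
  obtain ⟨C2, hC2⟩ := hKc.exists_bound_of_continuousOn hg2
  have hcu : ∀ r : ℝ, Continuous fun θ : ℝ => uF922 t r θ := fun r => by
    unfold uF922; fun_prop
  have hcr : ∀ r : ℝ, Continuous fun θ : ℝ => uR922 t r θ := fun r => by
    unfold uR922; fun_prop
  have hcG : ∀ r ∈ Metric.closedBall (0:ℝ) (t/2), Continuous fun θ => φ (uF922 t r θ) :=
    fun r hr => hc0.comp_continuous (hcu r) (fun θ => hball r hr θ)
  have hcG1 : ∀ r ∈ Metric.closedBall (0:ℝ) (t/2),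
      Continuous fun θ => uR922 t r θ • deriv φ (uF922 t r θ) :=
    fun r hr => (hcr r).smul (hc1.comp_continuous (hcu r) (fun θ => hball r hr θ))
  have hcG2 : ∀ r ∈ Metric.closedBall (0:ℝ) (t/2),
      Continuous fun θ => uR922 t r θ • (uR922 t r θ • deriv (deriv φ) (uF922 t r θ)) +
        uF922 t r θ • deriv φ (uF922 t r θ) :=
    fun r hr => ((hcr r).smul ((hcr r).smul
      (hc2.comp_continuous (hcu r) (fun θ => hball r hr θ)))).add
      ((hcu r).smul (hc1.comp_continuous (hcu r) (fun θ => hball r hr θ)))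
  have hpi : (0:ℝ) ≤ 2 * Real.pi := by positivity
  have hA : ∀ r ∈ Metric.ball (0:ℝ) (t/2),
      HasDerivAt (fun r => ∫ θ in (0:ℝ)..(2 * Real.pi), φ (uF922 t r θ))
        (∫ θ in (0:ℝ)..(2 * Real.pi), uR922 t r θ • deriv φ (uF922 t r θ)) r := by
    intro r0 hr0
    refine (intervalIntegral.hasDerivAt_integral_of_dominated_loc_of_deriv_le
      (μ := volume) (F := fun r θ => φ (uF922 t r θ))
      (F' := fun r θ => uR922 t r θ • deriv φ (uF922 t r θ))
      (s := Metric.ball 0 (t/2)) (bound := fun _ => C1)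
      (Metric.isOpen_ball.mem_nhds hr0) ?_ ?_ ?_ ?_ ?_ ?_).2
    · filter_upwards [Metric.isOpen_ball.mem_nhds hr0] with r hr
      exact (hcG r (Metric.ball_subset_closedBall hr)).aestronglyMeasurable
    · exact (hcG r0 (Metric.ball_subset_closedBall hr0)).intervalIntegrable _ _
    · exact (hcG1 r0 (Metric.ball_subset_closedBall hr0)).aestronglyMeasurable
    · refine Filter.Eventually.of_forall fun θ hθ r hr => ?_
      rw [Set.uIoc_of_le hpi] at hθ
      exact hC1 (r, θ) ⟨Metric.ball_subset_closedBall hr, Set.Ioc_subset_Icc_self hθ⟩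
    · exact intervalIntegrable_const
    · refine Filter.Eventually.of_forall fun θ _ r hr => ?_
      exact HasDerivAt.scomp (g₁ := φ) (h := fun r => uF922 t r θ) r
        (hd0 _ (hball r (Metric.ball_subset_closedBall hr) θ)) (hasDerivAt_uF922 t r θ)
  have h0 : (0:ℝ) ∈ Metric.ball (0:ℝ) (t/2) := Metric.mem_ball_self ht2
  have hB : HasDerivAt (fun r => ∫ θ in (0:ℝ)..(2 * Real.pi), uR922 t r θ • deriv φ (uF922 t r θ))
      (∫ θ in (0:ℝ)..(2 * Real.pi),
        (uR922 t 0 θ • (uR922 t 0 θ • deriv (deriv φ) (uF922 t 0 θ)) +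
          uF922 t 0 θ • deriv φ (uF922 t 0 θ))) 0 := by
    refine (intervalIntegral.hasDerivAt_integral_of_dominated_loc_of_deriv_le
      (μ := volume) (F := fun r θ => uR922 t r θ • deriv φ (uF922 t r θ))
      (F' := fun r θ => uR922 t r θ • (uR922 t r θ • deriv (deriv φ) (uF922 t r θ)) +
          uF922 t r θ • deriv φ (uF922 t r θ))
      (s := Metric.ball 0 (t/2)) (bound := fun _ => C2)
      (Metric.isOpen_ball.mem_nhds h0) ?_ ?_ ?_ ?_ ?_ ?_).2
    · filter_upwards [Metric.isOpen_ball.mem_nhds h0] with r hr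
      exact (hcG1 r (Metric.ball_subset_closedBall hr)).aestronglyMeasurable
    · exact (hcG1 0 (Metric.ball_subset_closedBall h0)).intervalIntegrable _ _
    · exact (hcG2 0 (Metric.ball_subset_closedBall h0)).aestronglyMeasurable
    · refine Filter.Eventually.of_forall fun θ hθ r hr => ?_
      rw [Set.uIoc_of_le hpi] at hθ
      exact hC2 (r, θ) ⟨Metric.ball_subset_closedBall hr, Set.Ioc_subset_Icc_self hθ⟩
    · exact intervalIntegrable_const
    · refine Filter.Eventually.of_forall fun θ _ r hr => ?_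
      exact (hasDerivAt_uR922 t r θ).smul
        (HasDerivAt.scomp (g₁ := deriv φ) (h := fun r => uF922 t r θ) r
          (hd1 _ (hball r (Metric.ball_subset_closedBall hr) θ)) (hasDerivAt_uF922 t r θ))
  have hF : ∀ r : ℝ, M r * M t = ∫ θ in (0:ℝ)..(2 * Real.pi), φ (uF922 t r θ) :=
    fun r => hsph r t
  have hI1 : ∀ r ∈ Metric.ball (0:ℝ) (t/2), deriv M r * M t =
      ∫ θ in (0:ℝ)..(2 * Real.pi), uR922 t r θ • deriv φ (uF922 t r θ) := by
    intro r hr
    have h1 : HasDerivAt (fun r => M r * M t) (deriv M r * M t) r :=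
      ((hM.differentiable (by norm_num)).differentiableAt.hasDerivAt).mul_const (M t)
    have h2 : (fun r => M r * M t) =
        fun r => ∫ θ in (0:ℝ)..(2 * Real.pi), φ (uF922 t r θ) := funext hF
    rw [h2] at h1
    exact h1.unique (hA r hr)
  have hB' : HasDerivAt (fun r => deriv M r * M t)
      (∫ θ in (0:ℝ)..(2 * Real.pi),
        (uR922 t 0 θ • (uR922 t 0 θ • deriv (deriv φ) (uF922 t 0 θ)) +
          uF922 t 0 θ • deriv φ (uF922 t 0 θ))) 0 := by
    refine hB.congr_of_eventuallyEq ?_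
    filter_upwards [Metric.isOpen_ball.mem_nhds h0] with r hr
    exact hI1 r hr
  have hB'' : HasDerivAt (fun r => deriv M r * M t) (deriv (deriv M) 0 * M t) 0 :=
    (hM.differentiable_deriv_two.differentiableAt.hasDerivAt).mul_const (M t)
  refine ⟨deriv φ (Real.cosh t), deriv (deriv φ) (Real.cosh t), hM1 t ht, hM2.deriv, ?_⟩
  rw [hB''.unique hB']
  refine intervalIntegral.integral_congr fun θ _ => ?_
  simp only [uF922_zero, uR922_zero]
  exact add_comm _ _

/-- The integral of the second `r`-derivative at `r = 0`. -/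
theorem integral_second922 (t : ℝ) (A B : ℂ) :
    ∫ θ in (0:ℝ)..(2 * Real.pi),
        (Real.cosh t • A + (Real.sinh t * Real.cos (2 * θ)) •
          ((Real.sinh t * Real.cos (2 * θ)) • B)) =
      (Real.pi : ℂ) * (2 * (Real.cosh t : ℂ) * A + (Real.sinh t : ℂ) ^ 2 * B) := by
  have h1 : ∀ θ : ℝ, Real.cosh t • A + (Real.sinh t * Real.cos (2 * θ)) •
      ((Real.sinh t * Real.cos (2 * θ)) • B) =
      (Real.cosh t : ℂ) * A + ((Real.sinh t : ℂ) ^ 2 * B) * ((Real.cos (2 * θ) ^ 2 : ℝ) : ℂ) := by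
    intro θ
    simp only [Complex.real_smul]
    push_cast
    ring
  simp only [h1]
  have hc : Continuous fun θ : ℝ => ((Real.cos (2 * θ) ^ 2 : ℝ) : ℂ) := by fun_prop
  have h2 := intervalIntegral.integral_add (μ := volume) (a := 0) (b := 2 * Real.pi)
    (f := fun _ : ℝ => (Real.cosh t : ℂ) * A)
    (g := fun θ : ℝ => ((Real.sinh t : ℂ) ^ 2 * B) * ((Real.cos (2 * θ) ^ 2 : ℝ) : ℂ))
    intervalIntegrable_const ((continuous_const.mul hc).intervalIntegrable _ _)
  have h3 : ∫ θ in (0:ℝ)..(2 * Real.pi), ((Real.cos (2 * θ) ^ 2 : ℝ) : ℂ) = (Real.pi : ℂ) := by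
    rw [intervalIntegral.integral_ofReal, integral_cos_two_mul_sq922]
  rw [h2, intervalIntegral.integral_const, intervalIntegral.integral_const_mul, h3]
  simp only [sub_zero, Complex.real_smul]
  push_cast
  ring

/-- The ODE, without the (unused) normalisation `M 0 = 2π`. -/
theorem odeC922_aux (M : ℝ → ℂ) (hM : ContDiff ℝ 2 M) (hsph : IsSph59 M) :
    ∃ lam : ℂ, ∀ t : ℝ, 0 < t →
      iteratedDeriv 2 M t + ((Real.cosh t / Real.sinh t : ℝ) : ℂ) * deriv M t = lam * M t := by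
  refine ⟨iteratedDeriv 2 M 0 / (Real.pi : ℂ), fun t ht => ?_⟩
  obtain ⟨A, B, h1, h2, h3⟩ := key922 M hM hsph t ht
  rw [integral_second922] at h3
  have hsh : (Real.sinh t : ℂ) ≠ 0 := by
    exact_mod_cast (Real.sinh_pos_iff.mpr ht).ne'
  have hpi : (Real.pi : ℂ) ≠ 0 := by
    exact_mod_cast Real.pi_ne_zero
  rw [iteratedDeriv_two922, div_mul_eq_mul_div, h3, h1, h2]
  simp only [Complex.real_smul, Complex.ofReal_div]
  field_simp
  ring

/-- **T6inf.03d ODE** (`OdeC59`, verbatim). -/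
theorem odeC922 : OdeC59 := fun M hM _ hsph => odeC922_aux M hM hsph

end Fermat.Agent.LT.T6.Inf.H922

end

end
-- ===== PACK-END LT/T6/Inf/H922/Ode.lean

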