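import Mathlib
import Fermat.Agent.Pack.LT3.E14L2
import Fermat.Agent.Pack.LT3.E8L3
import Fermat.Agent.Pack.LT2.E10L0
import Fermat.Agent.Pack.LT3.E14L1
import Fermat.Agent.Pack.LT3.E11L2
import Fermat.Agent.Pack.LT2.E0L2
import Fermat.Agent.Pack.LT2.E2L1
import Fermat.Agent.Pack.LT2.E5L3
import Fermat.Agent.Pack.LT3.E0L1
import Fermat.Agent.Pack.LT3.E15L1
import Fermat.Agent.Pack.LT2.E3L1
import Fermat.Agent.Pack.LT2.E8L2
import Fermat.Agent.Pack.LT2.E9L2
import Fermat.Agent.Pack.LT3.E5L2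
import Fermat.Agent.Pack.LT3.E16L0
import Fermat.Agent.Pack.LT3.E16L3

set_option linter.all false

-- ===== PACK-BEGIN LT/H670/D3/Kernel.lean
section


/-!
# Row LT, T6inf.08 = D3 (helper670, SZEGO-KERNEL route): the local part

OFF-MAIN.  Proved lemmas only (Mathlib + the concrete elements `kTheta`, `gzMat`, `scalR` of
`QOut/SpecA.lean`).

* `aT t = diag(e^{t/2}, e^{-t/2})`, `jj h = (a + d) + i (c - b)`, `Q0 h = 2 √(det h) / jj h`
  (the spherical function of weight one and parameter `0`);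
* `kak` : Cartan decomposition in `GL₂(ℝ)⁺` with the value of `Q0`;
* `biK_eq` : a function on `GL₂(ℝ)` which is bi-equivariant of weight one under `SO(2)`, invariant
  under the positive scalars and equal to `m 1 / cosh (t/2)` at `a_t` is `m 1 * Q0`;
* `Q0_gRel` : `Q0 (g_{z'}⁻¹ g_z) = 2 i √(y y') / (z - conj z')` (the Szegő kernel);
* `cauchy_szego`, `differentiableOn_of_cauchy` : Cauchy's formula for the kernel, and holomorphy
  of a continuous function which satisfies Cauchy's formula on every disc.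
-/

set_option autoImplicit false

open UpperHalfPlane
open scoped MatrixGroups Real

noncomputable section

namespace Fermat.Agent.LT.H670.D3

open Fermat.Agent.LT.H670.QOut

/-! ## 1. The elements -/

/-- `a_t = diag(e^{t/2}, e^{-t/2})` -/
def aT (t : ℝ) : GL (Fin 2) ℝ :=
  Matrix.GeneralLinearGroup.mkOfDetNeZero !![Real.exp (t / 2), 0; 0, Real.exp (-(t / 2))]
    (by
      rw [Matrix.det_fin_two_of, mul_zero, sub_zero, ← Real.exp_add, add_neg_cancel,
        Real.exp_zero]
      exact one_ne_zero)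

theorem val_aT (t : ℝ) :
    ((aT t : GL (Fin 2) ℝ) : Matrix (Fin 2) (Fin 2) ℝ)
      = !![Real.exp (t / 2), 0; 0, Real.exp (-(t / 2))] := rfl

/-- `J(h) = (a + d) + i (c - b)` -/
def jj (h : GL (Fin 2) ℝ) : ℂ :=
  ((h 0 0 + h 1 1 : ℝ) : ℂ) + Complex.I * ((h 1 0 - h 0 1 : ℝ) : ℂ)

/-- the spherical function of weight one and parameter `0` -/
def Q0 (h : GL (Fin 2) ℝ) : ℂ := 2 * ((Real.sqrt h.det.val : ℝ) : ℂ) / jj h

theorem det_val (h : GL (Fin 2) ℝ) : h.det.val = h 0 0 * h 1 1 - h 0 1 * h 1 0 := by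
  rw [Matrix.GeneralLinearGroup.val_det_apply, Matrix.det_fin_two]

theorem kTheta_add (α β : ℝ) : kTheta (α + β) = kTheta α * kTheta β := by
  apply Units.ext
  ext i j
  rw [Units.val_mul, val_kTheta, val_kTheta, val_kTheta, Real.cos_add, Real.sin_add]
  fin_cases i <;> fin_cases j <;> simp [Matrix.mul_apply, Fin.sum_univ_two] <;> ring

theorem kTheta_zero : kTheta 0 = 1 := by
  apply Units.ext
  ext i j
  rw [val_kTheta]
  fin_cases i <;> fin_cases j <;> simp

theorem kTheta_neg (α : ℝ) : kTheta (-α) = (kTheta α)⁻¹ := by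
  rw [eq_inv_iff_mul_eq_one, ← kTheta_add, neg_add_cancel, kTheta_zero]

theorem aT_zero : aT 0 = 1 := by
  apply Units.ext
  ext i j
  rw [val_aT]
  fin_cases i <;> fin_cases j <;> simp

/-! ## 2. Cartan decomposition -/

theorem exp_I_mul (x : ℝ) :
    Complex.exp (Complex.I * ((x : ℝ) : ℂ)) = ((Real.cos x : ℝ) : ℂ) + Complex.I * ((Real.sin x : ℝ) : ℂ) := by
  rw [mul_comm, Complex.exp_mul_I, ← Complex.ofReal_cos, ← Complex.ofReal_sin, mul_comm]

/-- **Cartan decomposition** in `GL₂(ℝ)⁺`, with the value of `Q0`. -/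
theorem kak (h : GL (Fin 2) ℝ) (hdet : 0 < h.det.val) :
    ∃ (α β t r : ℝ) (hr : 0 < r), 0 ≤ t ∧
      kTheta α * h * kTheta β = scalR r hr * aT t ∧
      Q0 h * (Complex.exp (Complex.I * ((α + β : ℝ) : ℂ)) * ((Real.cosh (t / 2) : ℝ) : ℂ)) = 1 := by
  have hD : h.det.val = h 0 0 * h 1 1 - h 0 1 * h 1 0 := det_val h
  set a := h 0 0 with ha
  set b := h 0 1 with hb
  set c := h 1 0 with hc
  set d := h 1 1 with hd
  set U : ℂ := ⟨a + d, b - c⟩ with hU
  set V : ℂ := ⟨a - d, -(b + c)⟩ with hV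
  set ρ := ‖U‖ with hρ
  set ρ' := ‖V‖ with hρ'
  have hρ2 : ρ ^ 2 = (a + d) ^ 2 + (b - c) ^ 2 := by
    rw [hρ, Complex.sq_norm, Complex.normSq_mk]; ring
  have hρ'2 : ρ' ^ 2 = (a - d) ^ 2 + (b + c) ^ 2 := by
    rw [hρ', Complex.sq_norm, Complex.normSq_mk]; ring
  have h4 : ρ ^ 2 - ρ' ^ 2 = 4 * h.det.val := by rw [hρ2, hρ'2, hD]; ring
  have hρ'0 : 0 ≤ ρ' := norm_nonneg _
  have hρ0 : 0 ≤ ρ := norm_nonneg _
  have hlt : ρ' < ρ :=
    (pow_lt_pow_iff_left₀ hρ'0 hρ0 two_ne_zero).1 (by linarith)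
  have hρpos : 0 < ρ := lt_of_le_of_lt hρ'0 hlt
  set φ := Complex.arg U with hφ
  set ψ := Complex.arg V with hψ
  have hc1 : ρ * Real.cos φ = a + d := Complex.norm_mul_cos_arg U
  have hs1 : ρ * Real.sin φ = b - c := Complex.norm_mul_sin_arg U
  have hc2 : ρ' * Real.cos ψ = a - d := Complex.norm_mul_cos_arg V
  have hs2 : ρ' * Real.sin ψ = -(b + c) := Complex.norm_mul_sin_arg V
  have t1 := Real.sin_sq_add_cos_sq φ
  have t2 := Real.sin_sq_add_cos_sq ψ
  set α := -(φ + ψ) / 2 with hα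
  set β := -(φ - ψ) / 2 with hβ
  have hab : α + β = -φ := by rw [hα, hβ]; ring
  have hab' : α - β = -ψ := by rw [hα, hβ]; ring
  have e1 : Real.cos α * Real.cos β - Real.sin α * Real.sin β = Real.cos φ := by
    rw [← Real.cos_add, hab, Real.cos_neg]
  have e2 : Real.sin α * Real.cos β + Real.cos α * Real.sin β = -Real.sin φ := by
    rw [← Real.sin_add, hab, Real.sin_neg]
  have e3 : Real.cos α * Real.cos β + Real.sin α * Real.sin β = Real.cos ψ := by
    rw [← Real.cos_sub, hab', Real.cos_neg]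
  have e4 : Real.sin α * Real.cos β - Real.cos α * Real.sin β = -Real.sin ψ := by
    rw [← Real.sin_sub, hab', Real.sin_neg]
  set r := Real.sqrt h.det.val with hr
  have hrpos : 0 < r := Real.sqrt_pos.2 hdet
  have hr2 : r ^ 2 = h.det.val := Real.sq_sqrt hdet.le
  have h4r : (ρ + ρ') * (ρ - ρ') = 4 * r ^ 2 := by rw [hr2, ← h4]; ring
  set E := (ρ + ρ') / (2 * r) with hE
  have hEpos : 0 < E := by positivity
  have h5 : (2 * r) ^ 2 ≤ (ρ + ρ') ^ 2 := by
    nlinarith [mul_nonneg hρ'0 (add_nonneg hρ0 hρ'0)]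
  have h6 : 2 * r ≤ ρ + ρ' :=
    (pow_le_pow_iff_left₀ (by positivity) (by positivity) two_ne_zero).1 h5
  have hE1 : 1 ≤ E := by
    rw [hE, le_div_iff₀ (by positivity)]
    linarith
  set t := 2 * Real.log E with ht
  have ht0 : 0 ≤ t := by
    have := Real.log_nonneg hE1
    rw [ht]; linarith
  have hexp : Real.exp (t / 2) = E := by
    rw [ht, mul_div_cancel_left₀ _ (two_ne_zero), Real.exp_log hEpos]
  have hexpn : Real.exp (-(t / 2)) = (ρ - ρ') / (2 * r) := by
    rw [Real.exp_neg, hexp, hE, inv_div, div_eq_div_iff (by positivity) (by positivity)]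
    linear_combination -h4r
  refine ⟨α, β, t, r, hrpos, ht0, ?_, ?_⟩
  · apply Units.ext
    have hh : ((h : GL (Fin 2) ℝ) : Matrix (Fin 2) (Fin 2) ℝ) = !![a, b; c, d] :=
      Matrix.eta_fin_two _
    ext i j
    rw [Units.val_mul, Units.val_mul, Units.val_mul, val_kTheta, val_kTheta, val_scalR, val_aT,
      hexp, hexpn, hE, hh]
    have hr0 : r ≠ 0 := hrpos.ne'
    fin_cases i <;> fin_cases j
    · simp [Matrix.mul_apply, Fin.sum_univ_two]
      field_simp
      linear_combination ((a + d)) * e1 + ((a - d)) * e3 + (c - b) * e2 + (c + b) * e4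
        - Real.cos φ * hc1 - Real.sin φ * hs1 + ρ * t1 - Real.cos ψ * hc2 - Real.sin ψ * hs2
        + ρ' * t2
    · simp [Matrix.mul_apply, Fin.sum_univ_two]
      linear_combination ((a + d) / 2) * e2 + ((b - c) / 2) * e1 - ((a - d) / 2) * e4
        + ((b + c) / 2) * e3 + (Real.sin φ / 2) * hc1 - (Real.cos φ / 2) * hs1
        - (Real.sin ψ / 2) * hc2 + (Real.cos ψ / 2) * hs2
    · simp [Matrix.mul_apply, Fin.sum_univ_two]
      linear_combination -((a + d) / 2) * e2 - ((b - c) / 2) * e1 - ((a - d) / 2) * e4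
        + ((b + c) / 2) * e3 - (Real.sin φ / 2) * hc1 + (Real.cos φ / 2) * hs1
        - (Real.sin ψ / 2) * hc2 + (Real.cos ψ / 2) * hs2
    · simp [Matrix.mul_apply, Fin.sum_univ_two]
      field_simp
      linear_combination (a + d) * e1 - (b - c) * e2 - (a - d) * e3 - (b + c) * e4
        - Real.cos φ * hc1 - Real.sin φ * hs1 + ρ * t1 + Real.cos ψ * hc2 + Real.sin ψ * hs2
        - ρ' * t2
  · have hjj : jj h = ((ρ : ℝ) : ℂ) * Complex.exp (Complex.I * ((α + β : ℝ) : ℂ)) := by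
      rw [exp_I_mul, hab, Real.cos_neg, Real.sin_neg]
      have hj : jj h = (((a + d : ℝ)) : ℂ) + Complex.I * (((c - b : ℝ)) : ℂ) := rfl
      rw [hj, ← hc1, show c - b = -(ρ * Real.sin φ) by rw [hs1]; ring]
      push_cast
      ring
    have hcosh : Real.cosh (t / 2) = ρ / (2 * r) := by
      rw [Real.cosh_eq, hexp, hexpn, hE]
      field_simp
      ring
    have hexp0 : Complex.exp (Complex.I * ((α + β : ℝ) : ℂ)) ≠ 0 := Complex.exp_ne_zero _
    have hρC : ((ρ : ℝ) : ℂ) ≠ 0 := by exact_mod_cast hρpos.ne'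
    have hrC : ((r : ℝ) : ℂ) ≠ 0 := by exact_mod_cast hrpos.ne'
    unfold Q0
    rw [hjj, hcosh, ← hr]
    push_cast
    field_simp

theorem scalR_mul_aT (r : ℝ) (hr : 0 < r) (t : ℝ) : scalR r hr * aT t = aT t * scalR r hr := by
  apply Units.ext
  ext i j
  rw [Units.val_mul, Units.val_mul, val_scalR, val_aT]
  fin_cases i <;> fin_cases j <;> simp [Matrix.mul_apply, Fin.sum_univ_two] <;> ring

/-- A function on `GL₂(ℝ)` which is bi-equivariant of weight one under `SO(2)`, invariant under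
the positive scalars, and equal to `m 1 / cosh (t/2)` at `a_t` (`t > 0`) is `m 1 * Q0` on
`GL₂(ℝ)⁺`. -/
theorem biK_eq (m : GL (Fin 2) ℝ → ℂ)
    (hL : ∀ (θ : ℝ) (h : GL (Fin 2) ℝ),
      m (kTheta θ * h) = Complex.exp (Complex.I * ((θ : ℝ) : ℂ)) * m h)
    (hR : ∀ (θ : ℝ) (h : GL (Fin 2) ℝ),
      m (h * kTheta θ) = Complex.exp (Complex.I * ((θ : ℝ) : ℂ)) * m h)
    (hS : ∀ (r : ℝ) (hr : 0 < r) (h : GL (Fin 2) ℝ), m (h * scalR r hr) = m h)
    (hA : ∀ t : ℝ, 0 < t → m (aT t) = m 1 / ((Real.cosh (t / 2) : ℝ) : ℂ))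
    (h : GL (Fin 2) ℝ) (hdet : 0 < h.det.val) : m h = m 1 * Q0 h := by
  obtain ⟨α, β, t, r, hr, ht, hkak, hQ⟩ := kak h hdet
  have hA' : m (aT t) = m 1 / ((Real.cosh (t / 2) : ℝ) : ℂ) := by
    rcases ht.lt_or_eq with h1 | h1
    · exact hA t h1
    · rw [← h1, aT_zero]
      simp
  have h1 : m (kTheta α * h * kTheta β)
      = Complex.exp (Complex.I * ((α + β : ℝ) : ℂ)) * m h := by
    rw [hR, mul_assoc] at *
    rw [hL, ← mul_assoc, ← Complex.exp_add]
    congr 2
    push_cast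
    ring
  rw [hkak, scalR_mul_aT, hS, hA'] at h1
  have hcosh : ((Real.cosh (t / 2) : ℝ) : ℂ) ≠ 0 := by
    exact_mod_cast (Real.cosh_pos _).ne'
  have hexp0 : Complex.exp (Complex.I * ((α + β : ℝ) : ℂ)) ≠ 0 := Complex.exp_ne_zero _
  have hQ' : Q0 h = (Complex.exp (Complex.I * ((α + β : ℝ) : ℂ)) *
      ((Real.cosh (t / 2) : ℝ) : ℂ))⁻¹ := eq_inv_of_mul_eq_one_left hQ
  have h2 : m h = m 1 / ((Real.cosh (t / 2) : ℝ) : ℂ) /
      Complex.exp (Complex.I * ((α + β : ℝ) : ℂ)) := by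
    rw [h1]
    field_simp
  rw [h2, hQ']
  field_simp

/-! ## 3. The Szegő kernel -/

/-- `g_{z'}⁻¹ g_z = [[y/y', (x - x')/y'], [0, 1]]` -/
def gRel (z z' : ℍ) : GL (Fin 2) ℝ :=
  Matrix.GeneralLinearGroup.mkOfDetNeZero !![z.im / z'.im, (z.re - z'.re) / z'.im; 0, 1]
    (by
      rw [Matrix.det_fin_two_of]
      simpa using (div_pos z.im_pos z'.im_pos).ne')

theorem val_gRel (z z' : ℍ) :
    ((gRel z z' : GL (Fin 2) ℝ) : Matrix (Fin 2) (Fin 2) ℝ)
      = !![z.im / z'.im, (z.re - z'.re) / z'.im; 0, 1] := rfl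

theorem gzMat_mul_gRel (z z' : ℍ) : gzMat z' * gRel z z' = gzMat z := by
  apply Units.ext
  have hy : z'.im ≠ 0 := z'.im_pos.ne'
  ext i j
  rw [Units.val_mul, val_gzMat, val_gRel, val_gzMat]
  fin_cases i <;> fin_cases j <;> simp [Matrix.mul_apply, Fin.sum_univ_two] <;> field_simp
  ring

theorem gzMat_inv_mul (z z' : ℍ) : (gzMat z')⁻¹ * gzMat z = gRel z z' := by
  rw [inv_mul_eq_iff_eq_mul, gzMat_mul_gRel]

theorem det_gRel (z z' : ℍ) : (gRel z z').det.val = z.im / z'.im := by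
  rw [Matrix.GeneralLinearGroup.val_det_apply, val_gRel, Matrix.det_fin_two_of]
  ring

theorem det_gRel_pos (z z' : ℍ) : 0 < (gRel z z').det.val := by
  rw [det_gRel]
  exact div_pos z.im_pos z'.im_pos

/-- **The Szegő kernel.** -/
theorem Q0_gRel (z z' : ℍ) :
    (((Real.sqrt z.im : ℝ) : ℂ))⁻¹ * (((Real.sqrt z'.im : ℝ) : ℂ))⁻¹ * Q0 (gRel z z')
      = 2 * Complex.I / ((z : ℂ) - (starRingEnd ℂ) (z' : ℂ)) := by
  have hy : 0 < z.im := z.im_pos
  have hy' : 0 < z'.im := z'.im_pos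
  have hsy : ((Real.sqrt z.im : ℝ) : ℂ) ≠ 0 := sqrt_im_ne_zero z
  have hsy' : ((Real.sqrt z'.im : ℝ) : ℂ) ≠ 0 := sqrt_im_ne_zero z'
  have hyC : ((z'.im : ℝ) : ℂ) ≠ 0 := by exact_mod_cast hy'.ne'
  have hsq : ((Real.sqrt z'.im : ℝ) : ℂ) * ((Real.sqrt z'.im : ℝ) : ℂ) = ((z'.im : ℝ) : ℂ) := by
    rw [← Complex.ofReal_mul, Real.mul_self_sqrt hy'.le]
  have hden : (z : ℂ) - (starRingEnd ℂ) (z' : ℂ) ≠ 0 := by
    intro h0
    have := congrArg Complex.im h0
    simp at this
    linarith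
  have hjj : jj (gRel z z') * (Complex.I * ((z'.im : ℝ) : ℂ))
      = (z : ℂ) - (starRingEnd ℂ) (z' : ℂ) := by
    have hj : jj (gRel z z') = (((z.im / z'.im + 1 : ℝ)) : ℂ)
        + Complex.I * (((0 - (z.re - z'.re) / z'.im : ℝ)) : ℂ) := rfl
    rw [hj]
    apply Complex.ext
    · simp
      field_simp
    · simp
      field_simp
  have hjj0 : jj (gRel z z') ≠ 0 := by
    intro h0
    rw [h0, zero_mul] at hjj
    exact hden hjj.symm
  unfold Q0
  rw [det_gRel, Real.sqrt_div hy.le, ← hjj]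
  push_cast
  field_simp
  rw [← hsq]
  ring_nf

/-! ## 4. Cauchy's formula -/

open Metric in
/-- Cauchy's formula for the kernel `z ↦ (z - p)⁻¹`, `p` outside the closed disc. -/
theorem cauchy_szego {c : ℂ} {R : ℝ} {z₀ p : ℂ} (hz₀ : z₀ ∈ ball c R)
    (hp : p ∉ closedBall c R) :
    ((2 * π * Complex.I : ℂ)⁻¹ • ∮ z in C(c, R), (z - z₀)⁻¹ • (z - p)⁻¹) = (z₀ - p)⁻¹ := by
  refine Complex.two_pi_I_inv_smul_circleIntegral_sub_inv_smul_of_differentiable_on_off_countable
    (f := fun z => (z - p)⁻¹) Set.countable_empty hz₀ ?_ ?_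
  · exact ContinuousOn.inv₀ (by fun_prop) (fun z hz => sub_ne_zero.2 (fun h => hp (h ▸ hz)))
  · intro x hx
    have hne : x - p ≠ 0 := sub_ne_zero.2 (fun h => hp (h ▸ ball_subset_closedBall hx.1))
    exact (differentiableAt_id.sub_const p).inv hne

open Metric in
/-- A continuous function which satisfies Cauchy's integral formula on every closed disc of an
open set is holomorphic there. -/
theorem differentiableOn_of_cauchy {U : Set ℂ} (hU : IsOpen U) {f : ℂ → ℂ}
    (hf : ContinuousOn f U)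
    (h : ∀ (c : ℂ) (R : ℝ), 0 < R → closedBall c R ⊆ U → ∀ w ∈ ball c R,
      ((2 * π * Complex.I : ℂ)⁻¹ • ∮ z in C(c, R), (z - w)⁻¹ • f z) = f w) :
    DifferentiableOn ℂ f U := by
  intro x hx
  obtain ⟨R, hR, hRU⟩ := Metric.nhds_basis_closedBall.mem_iff.1 (hU.mem_nhds hx)
  have hci : CircleIntegrable f x R :=
    (hf.mono (sphere_subset_closedBall.trans hRU)).circleIntegrable hR.le
  lift R to NNReal using hR.le
  have hR' : (0 : NNReal) < R := by exact_mod_cast hR
  have hps := hasFPowerSeriesOn_cauchy_integral hci hR'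
  have han := hps.analyticAt
  have heq : f =ᶠ[nhds x]
      fun w => (2 * π * Complex.I : ℂ)⁻¹ • ∮ z in C(x, R), (z - w)⁻¹ • f z := by
    filter_upwards [ball_mem_nhds x hR] with w hw
    exact (h x R hR hRU w hw).symm
  exact (han.differentiableAt.congr_of_eventuallyEq heq).differentiableWithinAt

end Fermat.Agent.LT.H670.D3

end

end
-- ===== PACK-END LT/H670/D3/Kernel.lean

-- ===== PACK-BEGIN LT/H670/QOut/ClassA3M.lean
section


/-!
# Row LT, T7.QOUT (helper670): the CUSP-FORM HALF of leaf `QA3`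

`cuspOfLevelForm : IsLevelForm N a b φ → CuspForm (Gamma N) 1` with underlying function
`famFn φ 1` (`z ↦ y^{-1/2} φ(g_z)`), and `cuspOfLevelForm_ne_zero`.  OFF-MAIN.

Modularity: slash formula + right `U(N)`-invariance.  Cusps: `|famFn φ g z| ≤ C / √y` for every
member of the family (no cuspidality hypothesis on `φ`).
-/

set_option autoImplicit false

open IsDedekindDomain NumberField AutomorphicForm
open UpperHalfPlane ModularForm CongruenceSubgroup Matrix.SpecialLinearGroup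
open scoped MatrixGroups ModularForm Manifold

noncomputable section

namespace Fermat.Agent.LT.H670.QOut

open Fermat.Agent.LT.H556

/-- every member of the family tends to `0` at `i∞` -/
theorem isZeroAtImInfty_famFn (φ : A0.G ℚ → ℂ) (hbdd : ∃ C : ℝ, ∀ g : A0.G ℚ, ‖φ g‖ ≤ C)
    (g : A0.G ℚ) : IsZeroAtImInfty (famFn φ g) := by
  obtain ⟨C, hC⟩ := hbdd
  rw [isZeroAtImInfty_iff]
  intro ε hε
  set C₁ : ℝ := |C| + 1 with hC₁
  have hC₁pos : 0 < C₁ := by positivity
  refine ⟨(C₁ / ε) ^ 2, fun z hz => ?_⟩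
  have hy : 0 < z.im := z.im_pos
  have hsq : C₁ / ε ≤ Real.sqrt z.im := by
    rw [← Real.sqrt_sq (div_pos hC₁pos hε).le]
    exact Real.sqrt_le_sqrt hz
  have hsqpos : 0 < Real.sqrt z.im := Real.sqrt_pos.mpr hy
  rw [famFn_apply, norm_mul, norm_inv, Complex.norm_real, Real.norm_eq_abs,
    abs_of_pos hsqpos]
  have h1 : ‖φ (locInf (gzMat z) * g)‖ ≤ C₁ := (hC _).trans ((le_abs_self C).trans (by linarith))
  calc (Real.sqrt z.im)⁻¹ * ‖φ (locInf (gzMat z) * g)‖
      ≤ (Real.sqrt z.im)⁻¹ * C₁ := by gcongr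
    _ = C₁ / Real.sqrt z.im := by ring
    _ ≤ ε := by
        rw [div_le_iff₀ hsqpos]
        have := (div_le_iff₀ hε).mp hsq
        linarith

theorem toReal_mapGL (σ : SL(2, ℤ)) : toReal (mapGL ℚ σ) = mapGL ℝ σ := by
  apply Units.ext
  ext i j
  simp [toReal]

theorem det_mapGL_real (σ : SL(2, ℤ)) : ((mapGL ℝ σ : GL (Fin 2) ℝ).det : ℝˣ).val = 1 := by
  simp

/-- the slash action of `SL₂(ℤ)` on the family -/
theorem famFn_slash_SL (φ : A0.G ℚ → ℂ)
    (hleft : ∀ (γ : GL (Fin 2) ℚ) (g : A0.G ℚ), φ (diagQ γ * g) = φ g)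
    (hscal : ∀ (r : ℝ) (hr : 0 < r) (g : A0.G ℚ), φ (g * locInf (scalR r hr)) = φ g)
    (hwt : ∀ (θ : ℝ) (g : A0.G ℚ),
      φ (g * locInf (kTheta θ)) = Complex.exp (Complex.I * ((θ : ℝ) : ℂ)) * φ g)
    (σ : SL(2, ℤ)) (g : A0.G ℚ) (hg : ∀ w : InfinitePlace ℚ, A0.TrivAtInf w g) :
    (famFn φ g) ∣[(1 : ℤ)] (mapGL ℝ σ : GL (Fin 2) ℝ)
      = famFn φ ((finPart (mapGL ℚ σ))⁻¹ * g) := by
  funext z
  have hdet : 0 < (toReal (mapGL ℚ σ)).det.val := by
    rw [toReal_mapGL, det_mapGL_real]; exact one_pos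
  have h := slash_formula φ hleft hscal hwt (mapGL ℚ σ) hdet g hg z
  rw [toReal_mapGL, det_mapGL_real, Real.sqrt_one, Complex.ofReal_one, one_mul] at h
  exact h.symm

/-- integers divisible by `N` lie in the closure of `(N)` -/
theorem intCast_mem_idealClosure (N : ℕ) (v : HeightOneSpectrum (𝓞 ℚ)) {k : ℤ}
    (hk : (N : ℤ) ∣ k) : ((k : ℤ) : v.adicCompletion ℚ) ∈ A0.idealClosure (lvl N) v := by
  obtain ⟨k', rfl⟩ := hk
  refine subset_closure ⟨((N : ℕ) : 𝓞 ℚ) * ((k' : ℤ) : 𝓞 ℚ), ?_, ?_⟩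
  · exact Ideal.mul_mem_right _ _ (Ideal.subset_span (Set.mem_singleton _))
  · simp only [map_mul, map_natCast, map_intCast]
    push_cast
    rfl

theorem Gamma_entry_dvd (N : ℕ) {σ : SL(2, ℤ)} (hσ : σ ∈ Gamma N) (i j : Fin 2) :
    (N : ℤ) ∣ σ i j - (1 : Matrix (Fin 2) (Fin 2) ℤ) i j := by
  obtain ⟨h00, h01, h10, h11⟩ := Gamma_mem.mp hσ
  rw [← ZMod.intCast_zmod_eq_zero_iff_dvd]
  fin_cases i <;> fin_cases j <;> simp [h00, h01, h10, h11]

theorem finPart_sub_one_mem (N : ℕ) {σ : SL(2, ℤ)} (hσ : σ ∈ Gamma N)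
    (v : HeightOneSpectrum (𝓞 ℚ)) (i j : Fin 2) :
    (A0.finComp v (finPart (mapGL ℚ σ)) - 1) i j ∈ A0.idealClosure (lvl N) v := by
  have h := intCast_mem_idealClosure N v (Gamma_entry_dvd N hσ i j)
  have e : (A0.finComp v (finPart (mapGL ℚ σ)) - 1) i j
      = ((σ i j - (1 : Matrix (Fin 2) (Fin 2) ℤ) i j : ℤ) : v.adicCompletion ℚ) := by
    rw [finComp_finPart, Matrix.sub_apply, Matrix.map_apply]
    by_cases hij : i = j
    · subst hij
      simp
    · simp [Matrix.one_apply_ne hij]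
  rw [e]
  exact h

/-- the finite part of an element of `Γ(N)` is in the level group `U(N)` -/
theorem inLevel_finPart_Gamma (N : ℕ) {σ : SL(2, ℤ)} (hσ : σ ∈ Gamma N) :
    A0.InLevelGroup (lvl N) (finPart (mapGL ℚ σ)) := by
  refine ⟨trivAtInf_finPart _, fun v i j => ⟨finPart_sub_one_mem N hσ v i j, ?_⟩⟩
  rw [← finPart_inv, ← map_inv]
  exact finPart_sub_one_mem N ((Gamma N).inv_mem hσ) v i j

/-- **The classical function of a form of level `U(N)` is a cusp form on `Γ(N)`.** -/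
def cuspOfLevelForm (N : ℕ) [NeZero N] (a b : Nat.Primes → ℂ) (φ : A0.G ℚ → ℂ)
    (hφ : IsLevelForm N a b φ) : CuspForm (Gamma N) 1 where
  toFun := famFn φ 1
  slash_action_eq' γ hγ := by
    obtain ⟨σ, hσ, rfl⟩ := hγ
    rw [famFn_slash_SL φ hφ.left_inv hφ.arch_scalar hφ.weight_one σ 1 trivAtInf_one]
    funext z
    rw [famFn_apply, famFn_apply, mul_one, mul_one]
    have hu : A0.InLevelGroup (lvl N) (finPart (mapGL ℚ σ))⁻¹ := by
      rw [← finPart_inv, ← map_inv]
      exact inLevel_finPart_Gamma N ((Gamma N).inv_mem hσ)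
    rw [hφ.level_inv _ hu]
  holo' := hφ.holo 1 trivAtInf_one
  zero_at_cusps' {c} hc := by
    have hc' : IsCusp c 𝒮ℒ := (Subgroup.IsArithmetic.isCusp_iff_isCusp_SL2Z _).mp hc
    rw [OnePoint.isZeroAt_iff_forall_SL2Z hc']
    intro σ _
    rw [SL_slash]
    have h := famFn_slash_SL φ hφ.left_inv hφ.arch_scalar hφ.weight_one σ 1 trivAtInf_one
    have h2 : IsZeroAtImInfty ((famFn φ 1) ∣[(1 : ℤ)] (mapGL ℝ σ : GL (Fin 2) ℝ)) := by
      rw [h]
      exact isZeroAtImInfty_famFn φ hφ.bdd _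
    exact h2

theorem coe_cuspOfLevelForm (N : ℕ) [NeZero N] (a b : Nat.Primes → ℂ) (φ : A0.G ℚ → ℂ)
    (hφ : IsLevelForm N a b φ) : ⇑(cuspOfLevelForm N a b φ hφ) = famFn φ 1 := rfl

theorem cuspOfLevelForm_ne_zero (N : ℕ) [NeZero N] (a b : Nat.Primes → ℂ) (φ : A0.G ℚ → ℂ)
    (hφ : IsLevelForm N a b φ) : cuspOfLevelForm N a b φ hφ ≠ 0 := by
  obtain ⟨z, hz⟩ := hφ.based
  intro h0
  have h : (cuspOfLevelForm N a b φ hφ) z = (0 : CuspForm (Gamma N) 1) z := by rw [h0]
  rw [coe_cuspOfLevelForm, famFn_apply, mul_one] at h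
  have h2 : (0 : CuspForm (Gamma N) 1) z = 0 := rfl
  rw [h2] at h
  rcases mul_eq_zero.mp h with h | h
  · exact sqrt_im_ne_zero z (inv_eq_zero.mp h)
  · exact hz h

end Fermat.Agent.LT.H670.QOut

end

end
-- ===== PACK-END LT/H670/QOut/ClassA3M.lean

-- ===== PACK-BEGIN LT/T1/H930/AdeleAutAll.lean
section



/-!
# Row LT: `T5.AutPreserves` for EVERY `T5.AdelicAut` (helper930)

OFF-MAIN.  Imports `AdeleAutT5.lean` (helper930: `autPreserves930` for the constructed
automorphism `adelicAut930 σ`) and helper415's uniqueness `T5/H415/AutT5.lean`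
(`adelicAut_ext415 : s.σ = s'.σ → s.σA = s'.σA`), byte-identical.

* `adelicAut_eq930 : s = adelicAut930 s.σ` for every `s : T5.AdelicAut K`;
* `autPreserves_all930` : for every `s : T5.AdelicAut K`, every `s.σ`-stable level `𝔫`, every
  Haar measure `μ` of `GL₂(𝔸_K)` and every ray generator `r`:  `T5.AutPreserves s 𝔫 μ r`.
  (This is the remark in `T5/Spec.lean`: "All of this is TRUE for every `AdelicAut` and a
  `σ`-stable level".)
-/

set_option autoImplicit false

open IsDedekindDomain NumberField MeasureTheory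

noncomputable section

namespace Fermat.Agent.LT.T1.H930

open Fermat.Agent.LT.H556 Fermat.Agent.LT

variable {K : Type} [Field K] [NumberField K]

/-- Every `T5.AdelicAut` is the constructed one. -/
theorem adelicAut_eq930 (s : T5.AdelicAut K) : s = adelicAut930 s.σ := by
  have h : s.σA = (adelicAut930 s.σ).σA := T5.H415.adelicAut_ext415 s (adelicAut930 s.σ) rfl
  cases s
  simp only [adelicAut930] at h ⊢
  subst h
  rfl

/-- **`T5.AutPreserves` for every adelic automorphism** and every stable level. -/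
theorem autPreserves_all930 (hLC : LocallyCompactSpace (A0.G K))
    (hSC : SecondCountableTopology (A0.G K)) (s : T5.AdelicAut K) (𝔫 : Ideal (𝓞 K))
    (h𝔫 : 𝔫.map (RingOfIntegers.mapRingEquiv s.σ) = 𝔫)
    (μ : @Measure (A0.G K) Fermat.Agent.LT.T5.instMeasurableSpaceG)
    (hμ : @Measure.IsHaarMeasure (A0.G K) _ _ Fermat.Agent.LT.T5.instMeasurableSpaceG μ)
    (r : A0.G K) (hr : T5.IsRayGen r) :
    T5.AutPreserves s 𝔫 μ r := by
  rw [adelicAut_eq930 s]
  exact autPreserves930' hLC hSC s.σ 𝔫 h𝔫 μ hμ r hr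

end Fermat.Agent.LT.T1.H930

end
end
-- ===== PACK-END LT/T1/H930/AdeleAutAll.lean

-- ===== PACK-BEGIN LT/T2/H887/LeafT02c.lean
section




/-!
# Row LT, tower T2, leaf T2.22c `LeafT02c175` (helper887), OFF-MAIN

Registry row 1345 (cut of helper175, `LT/T2/H175/TauSpec.lean`, sha256 da27a6e8).

The adjoint of `conv R.F f` on the automorphic functions of the class `(𝔫, τ, r)` is
`conv R.F (adj f)`.  This is the asset `convAdjT_981` of helper981
(`LT/T2/H981/ConvAdjT.lean`, origin/helper981@b544b5bf4: core `convAdj_core981` with the ray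
generator as the central element, `ray_central981`, `ray_nrm981`), vendored byte-identical; the
hypotheses `𝔫 ≠ ⊥` and `IsKType τ` of the leaf are not needed.
-/

set_option autoImplicit false

open IsDedekindDomain NumberField

noncomputable section

namespace Fermat.Agent.LT.T2.H887

/-- **T2.22c `LeafT02c175`**, VERBATIM, from `convAdjT_981`. -/
theorem leafT02c887 (K : Type) [Field K] [NumberField K] :
    Fermat.Agent.LT.T2.H175.LeafT02c175 K :=
  fun hT1 𝔫 τ _ _ R f φ ψ hf hφ hψ =>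
    Fermat.Agent.LT.T2.H981.convAdjT_981 hT1 𝔫 τ R f φ ψ hf hφ hψ

end Fermat.Agent.LT.T2.H887

end

end
-- ===== PACK-END LT/T2/H887/LeafT02c.lean

-- ===== PACK-BEGIN LT/T2/H79/ShapeT.lean
section




/-!
# Row LT, tower T2, sub-leaf T2.22d.1 `ShapeTC175` (SHAPE, type `τ`) -- helper79, registry 1346

OFF-MAIN.  `shapeTC_79 K : H175.ShapeTC175 K`, VERBATIM against `LT/T2/H175/TauSpec.lean`
(helper175@f81a7bf74, sha256 `da27a6e8…`).

The convolution kernel `(f₁ ⋆ f₂)(g) = ∫ f₁(h) f₂(h⁻¹ g) dμ(h)` of two functions of spherical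
shape of type `τ` has spherical shape of type `τ`.  This is the proof of `convShapeC833`
(helper833, `LT/T2/H833/ConvShape.lean`, byte-identical copy, imported) with the factor `τ(k)⁻¹`:

* on the right: pointwise equality of the integrands and `integral_const_mul`;
* on the left: `integral_mul_left_eq_self` (left invariance of the Haar measure, valid for every
  function) and `integral_const_mul`;
* support: `exists_of_convKer_ne_zero833`, `isBadUnit_mul833`.

No regularity and no integrability is used; `T1.LocCompC K` is not needed; `τ` is arbitrary.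
-/

set_option autoImplicit false

open IsDedekindDomain NumberField MeasureTheory AutomorphicForm
open Fermat.Agent.LT.H556.A0

noncomputable section

namespace Fermat.Agent.LT.T2.H79

open Fermat.Agent.LT.T2 Fermat.Agent.LT.T2.H724 Fermat.Agent.LT.T2.H175

variable {K : Type} [Field K] [NumberField K]

attribute [local instance] Fermat.Agent.LT.T2.borelG

/-- `f₁(u g) = c f₁(g)` for all `g` gives `(f₁ ⋆ f₂)(u g) = c (f₁ ⋆ f₂)(g)`. -/
theorem convKer_leftT79 (F : Frame K) (f₁ f₂ : G K → ℂ) (u : G K) (c : ℂ)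
    (hu : ∀ g : G K, f₁ (u * g) = c * f₁ g) (g : G K) :
    convKer724 F f₁ f₂ (u * g) = c * convKer724 F f₁ f₂ g := by
  have : BorelSpace (G K) := ⟨rfl⟩
  have := F.haar
  unfold convKer724
  rw [← integral_mul_left_eq_self (μ := F.μ) (fun h => f₁ h * f₂ (h⁻¹ * (u * g))) u,
    ← integral_const_mul]
  refine integral_congr_ae (Filter.Eventually.of_forall fun h => ?_)
  simp only
  rw [hu h, mul_inv_rev, mul_assoc c, mul_assoc h⁻¹, inv_mul_cancel_left]

/-- `f₂(g u) = c f₂(g)` for all `g` gives `(f₁ ⋆ f₂)(g u) = c (f₁ ⋆ f₂)(g)`. -/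
theorem convKer_rightT79 (F : Frame K) (f₁ f₂ : G K → ℂ) (u : G K) (c : ℂ)
    (hu : ∀ g : G K, f₂ (g * u) = c * f₂ g) (g : G K) :
    convKer724 F f₁ f₂ (g * u) = c * convKer724 F f₁ f₂ g := by
  unfold convKer724
  rw [← integral_const_mul]
  refine integral_congr_ae (Filter.Eventually.of_forall fun h => ?_)
  simp only
  rw [← mul_assoc h⁻¹ g u, hu, mul_left_comm]

/-- **T2.22d.1 SHAPE, type `τ`** (registry row 1346), VERBATIM. -/
theorem shapeTC_79 (K : Type) [Field K] [NumberField K] : ShapeTC175 K := by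
  intro _ 𝔫 τ F f₁ f₂ h₁ h₂
  refine ⟨?_, ?_, ?_, ?_, ?_⟩
  · intro u hu g
    exact H833.convKer_right833 F f₁ f₂ u (h₂.level_right u hu) g
  · intro u hu g
    exact H833.convKer_left833 F f₁ f₂ u (h₁.level_left u hu) g
  · intro w k hk g
    exact convKer_rightT79 F f₁ f₂ k (τ k)⁻¹ (h₂.arch_right w k hk) g
  · intro w k hk g
    exact convKer_leftT79 F f₁ f₂ k (τ k)⁻¹ (h₁.arch_left w k hk) g
  · intro g hg
    obtain ⟨h, hh1, hh2⟩ := H833.exists_of_convKer_ne_zero833 F f₁ f₂ g hg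
    have e : g = h * (h⁻¹ * g) := by rw [mul_inv_cancel_left]
    rw [e]
    exact H833.isBadUnit_mul833 (h₁.bad_unit h hh1) (h₂.bad_unit _ hh2)

end Fermat.Agent.LT.T2.H79

end

end
-- ===== PACK-END LT/T2/H79/ShapeT.lean

-- ===== PACK-BEGIN LT/T2/H729/ThetaMeasLeaf.lean
section







/-!
# Row LT, tower T2, leaf T2.22d, sub-leaf T2.22d.2 (helper729): the leaf, VERBATIM

OFF-MAIN.  `thetaMeasC729 K : H175.ThetaMeasC175 K` against `LT/T2/H175/TauSpec.lean`
(helper175, sha256 da27a6e8).  The proof is `measurePreserving_antiInvolution729` of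
`ThetaMeas.lean` (Mathlib only) applied to `θ = thetaG175`, which is continuous
(`continuous_thetaG729`), involutive and anti-multiplicative (`TauSpec`).  No use of `adjG724`.
-/

set_option autoImplicit false

open IsDedekindDomain NumberField MeasureTheory
open Fermat.Agent.LT.H556.A0

namespace Fermat.Agent.LT.T2.H729

attribute [local instance] Fermat.Agent.LT.T2.borelG

variable (K : Type) [Field K] [NumberField K]

theorem continuous_thetaM729 {X : Type*} [TopologicalSpace X]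
    {f : X → Matrix (Fin 2) (Fin 2) (Adl K)} (hf : Continuous f) :
    Continuous fun x => Fermat.Agent.LT.T2.H175.thetaM175 (f x) := by
  refine continuous_matrix (fun i j => ?_)
  fin_cases i <;> fin_cases j
  · exact hf.matrix_elem 0 0
  · exact (hf.matrix_elem 1 0).neg
  · exact (hf.matrix_elem 0 1).neg
  · exact hf.matrix_elem 1 1

/-- `θ` is continuous on `GL₂(𝔸_K)`. -/
theorem continuous_thetaG729 :
    Continuous (Fermat.Agent.LT.T2.H175.thetaG175 (K := K)) := by
  have hval : Continuous fun g : G K => (g : Matrix (Fin 2) (Fin 2) (Adl K)) :=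
    Units.continuous_val
  have hinv : Continuous fun g : G K => ((g⁻¹ : G K) : Matrix (Fin 2) (Fin 2) (Adl K)) :=
    Units.continuous_coe_inv
  rw [Units.continuous_iff]
  exact ⟨continuous_thetaM729 K hval, continuous_thetaM729 K hinv⟩

/-- **T2.22d.2 MEASURE, VERBATIM.** -/
theorem thetaMeasC729 : Fermat.Agent.LT.T2.H175.ThetaMeasC175 K := by
  intro hLC hU μ hμ
  obtain ⟨-, hlc, _ht2, hsc⟩ := hLC
  have := hlc
  have := hsc
  have : BorelSpace (G K) := ⟨rfl⟩
  have := hμ
  have : μ.IsMulRightInvariant := hU μ hμ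
  exact measurePreserving_antiInvolution729 μ _ (continuous_thetaG729 K)
    Fermat.Agent.LT.T2.H175.thetaG175_thetaG175
    Fermat.Agent.LT.T2.H175.thetaG175_mul

end Fermat.Agent.LT.T2.H729

end
-- ===== PACK-END LT/T2/H729/ThetaMeasLeaf.lean

-- ===== PACK-BEGIN LT/T2/H566/Assembly.lean
section





/-!
# Row LT, tower T2, leaf T2.09 (helper566): ASSEMBLY, `leaf09_566 : T2.Leaf09 K`

OFF-MAIN.  From the joint eigenbasis `exists_jointEig566` (abstract spectral theorem applied to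
the pre-Hilbert space of cusp functions) to `T2.CuspSpec K 𝔫`:

* the Hecke eigenvalue does not depend on the coset system, the shift eigenvalue does not depend
  on the scalar uniformiser (`heckeSum_indep566`, `shift_indep566`);
* the sphere (circle) of radius `d` at `w` has at most one parametrisation
  (`isSphereAt_unique566`, `isCircleAt_unique566`);
* `‖b‖ = 1` from `OpsAdj` (the shift is an isometry), `conj a = a conj b` from `OpsAdj`
  (`T_H* = S_z⁻¹ T_H`), `√q ‖a‖ ≤ q + 1` from the boundedness of the eigenfunction, the sphere and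
  circle eigenvalues are real by `OpsAdj`.
-/

set_option autoImplicit false
set_option linter.unusedSectionVars false
set_option linter.style.haveILetI false

open IsDedekindDomain NumberField MeasureTheory
open Fermat.Agent.LT.H556.A0 Fermat.Agent.LT Fermat.Agent.LT.T2
open scoped ComplexConjugate

noncomputable section

namespace Fermat.Agent.LT.T2.H566

variable {K : Type} [Field K] [NumberField K]

attribute [local instance] Fermat.Agent.LT.T2.borelG

section One

variable (𝔫 : Ideal (𝓞 K)) (F : Frame K) {e : G K → ℂ}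

/-- A function of norm one does not vanish identically. -/
theorem exists_ne_zero566 (h1 : pair F e e = 1) : ∃ g : G K, e g ≠ 0 := by
  by_contra hcon
  push Not at hcon
  have : pair F e e = 0 := by
    unfold pair
    simp [hcon]
  rw [this] at h1
  exact zero_ne_one h1

/-- The eigenvalue of a self-adjoint operator on a vector of norm one is real. -/
theorem im_eq_zero_of_selfAdj566 (h1 : pair F e e = 1) {T : (G K → ℂ) → (G K → ℂ)} {c : ℂ}
    (hc : T e = c • e) (hsa : pair F (T e) e = pair F e (T e)) : c.im = 0 := by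
  rw [hc, pair_smul_left566, pair_smul_right566, h1, mul_one, mul_one] at hsa
  exact Complex.conj_eq_iff_im.1 hsa.symm

/-- The bound of an eigenvalue of a finite sum of translations on a bounded function. -/
theorem norm_le_card_of_sum566 (hb : ∃ C : ℝ, ∀ g : G K, ‖e g‖ ≤ C) (hne : ∃ g : G K, e g ≠ 0)
    (H : Finset (G K)) {c : ℂ} (hc : ∀ g : G K, ∑ h ∈ H, e (g * h) = c * e g) :
    ‖c‖ ≤ (H.card : ℝ) := by
  obtain ⟨C, hC⟩ := hb
  obtain ⟨g₀, hg₀⟩ := hne
  have hbdd : BddAbove (Set.range fun g : G K => ‖e g‖) := ⟨C, by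
    rintro _ ⟨g, rfl⟩
    exact hC g⟩
  set M : ℝ := ⨆ g : G K, ‖e g‖ with hM
  have hle : ∀ g : G K, ‖e g‖ ≤ M := fun g => le_ciSup hbdd g
  have hMpos : 0 < M := lt_of_lt_of_le (norm_pos_iff.2 hg₀) (hle g₀)
  have hkey : ∀ g : G K, ‖c‖ * ‖e g‖ ≤ (H.card : ℝ) * M := by
    intro g
    rw [← norm_mul, ← hc g]
    calc ‖∑ h ∈ H, e (g * h)‖ ≤ ∑ h ∈ H, ‖e (g * h)‖ := norm_sum_le _ _
      _ ≤ ∑ _h ∈ H, M := Finset.sum_le_sum fun h _ => hle (g * h)
      _ = (H.card : ℝ) * M := by rw [Finset.sum_const, nsmul_eq_mul]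
  by_contra hcon
  push Not at hcon
  have hcpos : 0 < ‖c‖ := lt_of_le_of_lt (Nat.cast_nonneg _) hcon
  have hM2 : M ≤ (H.card : ℝ) * M / ‖c‖ := by
    refine ciSup_le fun g => ?_
    rw [le_div_iff₀ hcpos, mul_comm]
    exact hkey g
  rw [le_div_iff₀ hcpos] at hM2
  have : ‖c‖ ≤ (H.card : ℝ) := by
    have h3 : M * ‖c‖ ≤ M * (H.card : ℝ) := by
      rw [mul_comm M (H.card : ℝ)]
      exact hM2
    exact le_of_mul_le_mul_left h3 hMpos
  exact absurd this (not_le.2 hcon)

end One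

section Pack

variable (hHC : T1.HeckeCosetC K) (𝔫 : Ideal (𝓞 K)) (F : Frame K) (hOA : OpsAdj K 𝔫)
  {e : G K → ℂ} (he : IsCuspFn 𝔫 e) (h1 : pair F e e = 1)
  (heig : ∀ T, IsOp 𝔫 F T → ∃ c : ℂ, T e = c • e)

include hHC hOA he h1 heig in
/-- The Hecke data of a joint eigenfunction at a place prime to the level. -/
theorem hecke_pack566 (v : HeightOneSpectrum (𝓞 K)) (hv : ¬ v.asIdeal ∣ 𝔫) :
    ∃ a b : ℂ, IsHeckeEigenAt e v a b ∧ ‖b‖ = 1 ∧ conj a = a * conj b ∧
      ‖a‖ * Real.sqrt (Ideal.absNorm v.asIdeal : ℝ) ≤ (Ideal.absNorm v.asIdeal : ℝ) + 1 := by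
  obtain ⟨⟨H₀, hH₀⟩, -, ⟨z₀, hz₀⟩⟩ := hHC v
  obtain ⟨cH, hcH⟩ := heig (heckeSum H₀) (IsOp.hecke v hv H₀ hH₀)
  obtain ⟨cz, hcz⟩ := heig (shift z₀) (IsOp.shift v hv z₀ hz₀)
  have hq0 : (Ideal.absNorm v.asIdeal : ℝ) ≠ 0 := by
    have : Ideal.absNorm v.asIdeal ≠ 0 := fun h => v.ne_bot (Ideal.absNorm_eq_zero_iff.1 h)
    exact_mod_cast this
  have hqpos : 0 < (Ideal.absNorm v.asIdeal : ℝ) :=
    lt_of_le_of_ne (Nat.cast_nonneg _) (Ne.symm hq0)
  set sq : ℝ := Real.sqrt (Ideal.absNorm v.asIdeal : ℝ) with hsq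
  have hsqpos : 0 < sq := Real.sqrt_pos.2 hqpos
  have hsq0 : (sq : ℂ) ≠ 0 := Complex.ofReal_ne_zero.2 hsqpos.ne'
  -- pointwise forms
  have hHpt : ∀ g : G K, ∑ h ∈ H₀, e (g * h) = cH * e g := fun g => congrFun hcH g
  have hzpt : ∀ g : G K, e (g * z₀) = cz * e g := fun g => congrFun hcz g
  -- the shift is unitary
  have hczcz : cz * conj cz = 1 := by
    have := (hOA F).1 v hv z₀ hz₀ e e he he
    rw [hcz, pair_smul_left566, pair_smul_right566, h1, mul_one] at this
    exact this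
  have hcz0 : cz ≠ 0 := by
    intro h
    rw [h, zero_mul] at hczcz
    exact zero_ne_one hczcz
  have hnorm : ‖cz‖ = 1 := by
    have h2 : ((Complex.normSq cz : ℝ) : ℂ) = 1 := by
      rw [← Complex.mul_conj]
      exact hczcz
    have h3 : Complex.normSq cz = 1 := by exact_mod_cast h2
    rw [Complex.normSq_eq_norm_sq] at h3
    have h4 : ‖cz‖ ^ 2 = 1 ^ 2 := by rw [h3, one_pow]
    exact (pow_left_inj₀ (norm_nonneg _) zero_le_one (by norm_num)).1 h4
  -- the inverse shift
  have hzinv : ∀ g : G K, e (g * z₀⁻¹) = cz⁻¹ * e g := by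
    intro g
    have := hzpt (g * z₀⁻¹)
    rw [inv_mul_cancel_right] at this
    rw [this, ← mul_assoc, inv_mul_cancel₀ hcz0, one_mul]
  -- the adjoint of the Hecke sum
  have hadj : cH = conj cH * cz := by
    have := (hOA F).2.1 v hv H₀ z₀ hH₀ hz₀ e e he he
    have e2 : shift z₀⁻¹ (heckeSum H₀ e) = (cH * cz⁻¹) • e := by
      rw [hcH]
      funext g
      simp only [shift, Pi.smul_apply, smul_eq_mul]
      rw [hzinv g, mul_assoc]
    rw [e2, hcH, pair_smul_left566, pair_smul_right566, h1, mul_one, mul_one, map_mul,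
      map_inv₀] at this
    have h5 : (conj cz)⁻¹ = cz := (eq_inv_of_mul_eq_one_left hczcz).symm
    rw [h5] at this
    exact this
  refine ⟨cH / (sq : ℂ), cz, ⟨?_, ?_⟩, hnorm, ?_, ?_⟩
  · intro H hH g
    have hind : heckeSum H e = heckeSum H₀ e :=
      heckeSum_indep566 hHC 𝔫 v hv hH₀ hH he.level_inv
    have := congrFun hind g
    simp only [heckeSum] at this
    rw [this, hHpt g, mul_div_cancel₀ _ hsq0]
  · intro z hz g
    have hind : shift z e = shift z₀ e := shift_indep566 𝔫 v hv hz₀ hz he.level_inv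
    have := congrFun hind g
    simp only [shift] at this
    rw [this, hzpt g]
  · rw [map_div₀, Complex.conj_ofReal]
    have h6 : conj cH = cH * conj cz := by
      conv_rhs => rw [hadj]
      rw [mul_assoc, hczcz, mul_one]
    rw [h6]
    ring
  · rw [norm_div, Complex.norm_real, Real.norm_of_nonneg hsqpos.le,
      div_mul_cancel₀ _ hsqpos.ne']
    have hb := norm_le_card_of_sum566 he.bdd (exists_ne_zero566 F h1) H₀ hHpt
    rw [hH₀.1] at hb
    push_cast at hb
    exact hb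

include hOA he h1 heig in
/-- The archimedean data of a joint eigenfunction. -/
theorem mean_pack566 (w : InfinitePlace K) (d : ℝ) :
    ∃ c : ℂ, c.im = 0 ∧
      (w.IsComplex → 0 < d → ∀ Y : ℝ → ℝ → G K, IsSphereAt w d Y →
        ∀ g : G K, sphereMean Y e g = c * e g) ∧
      (w.IsReal → 0 < d → ∀ Y : ℝ → G K, IsCircleAt w d Y →
        ∀ g : G K, circleMean Y e g = c * e g) := by
  by_cases hd : 0 < d
  · by_cases hw : w.IsComplex
    · have hnr : ¬ w.IsReal := InfinitePlace.not_isReal_iff_isComplex.2 hw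
      by_cases hex : ∃ Y : ℝ → ℝ → G K, IsSphereAt w d Y
      · obtain ⟨Y₀, hY₀⟩ := hex
        obtain ⟨c, hc⟩ := heig (sphereMean Y₀) (IsOp.sphere w hw d hd Y₀ hY₀)
        refine ⟨c, ?_, fun _ _ Y hY g => ?_, fun h => absurd h hnr⟩
        · exact im_eq_zero_of_selfAdj566 F h1 hc ((hOA F).2.2.1 w hw d hd Y₀ hY₀ e e he he)
        · rw [isSphereAt_unique566 hY₀ hY, hc]
          rfl
      · exact ⟨0, rfl, fun _ _ Y hY => absurd ⟨Y, hY⟩ hex, fun h => absurd h hnr⟩
    · have hr : w.IsReal := InfinitePlace.not_isComplex_iff_isReal.1 hw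
      by_cases hex : ∃ Y : ℝ → G K, IsCircleAt w d Y
      · obtain ⟨Y₀, hY₀⟩ := hex
        obtain ⟨c, hc⟩ := heig (circleMean Y₀) (IsOp.circle w hr d hd Y₀ hY₀)
        refine ⟨c, ?_, fun h => absurd h hw, fun _ _ Y hY g => ?_⟩
        · exact im_eq_zero_of_selfAdj566 F h1 hc ((hOA F).2.2.2 w hr d hd Y₀ hY₀ e e he he)
        · rw [isCircleAt_unique566 hY₀ hY, hc]
          rfl
      · exact ⟨0, rfl, fun h => absurd h hw, fun _ _ Y hY => absurd ⟨Y, hY⟩ hex⟩
  · exact ⟨0, rfl, fun _ h => absurd h hd, fun _ h => absurd h hd⟩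

end Pack

/-- **Leaf T2.09** (assembly): the discreteness of the cuspidal spectrum, eigenfunction form, from
the abstract spectral theorem and the milestones of the tower. -/
theorem leaf09_566 : Leaf09 K := by
  intro hT1 hAS 𝔫 _ hPD _ hHS hCR hAI hOG hOA F
  obtain ⟨ι, e, hcusp, hone, horth, heig, hpar⟩ :=
    exists_jointEig566 hT1.addFundDom 𝔫 F hPD hAS hHS hCR hAI hOG
  have hH : ∀ (j : ι) (v : HeightOneSpectrum (𝓞 K)), ∃ ab : ℂ × ℂ, ¬ v.asIdeal ∣ 𝔫 →
      (IsHeckeEigenAt (e j) v ab.1 ab.2 ∧ ‖ab.2‖ = 1 ∧ conj ab.1 = ab.1 * conj ab.2 ∧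
        ‖ab.1‖ * Real.sqrt (Ideal.absNorm v.asIdeal : ℝ)
          ≤ (Ideal.absNorm v.asIdeal : ℝ) + 1) := by
    intro j v
    by_cases hv : ¬ v.asIdeal ∣ 𝔫
    · obtain ⟨a, b, h⟩ := hecke_pack566 hT1.heckeCoset 𝔫 F hOA (hcusp j) (hone j)
        (fun T hT => heig T hT j) v hv
      exact ⟨(a, b), fun _ => h⟩
    · exact ⟨(0, 0), fun h => absurd h hv⟩
  choose ab hab using hH
  have hM : ∀ (j : ι) (w : InfinitePlace K) (d : ℝ), ∃ c : ℂ, c.im = 0 ∧
      (w.IsComplex → 0 < d → ∀ Y : ℝ → ℝ → G K, IsSphereAt w d Y →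
        ∀ g : G K, sphereMean Y (e j) g = c * e j g) ∧
      (w.IsReal → 0 < d → ∀ Y : ℝ → G K, IsCircleAt w d Y →
        ∀ g : G K, circleMean Y (e j) g = c * e j g) := fun j w d =>
    mean_pack566 𝔫 F hOA (hcusp j) (hone j) (fun T hT => heig T hT j) w d
  choose m hm using hM
  refine ⟨ι, e, m, fun j v => (ab j v).1, fun j v => (ab j v).2, ?_⟩
  exact
    { cusp := hcusp
      norm_one := hone
      orth := horth
      eig_complex := fun j w hw d hd Y hY g => (hm j w d).2.1 hw hd Y hY g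
      eig_real := fun j w hw d hd Y hY g => (hm j w d).2.2 hw hd Y hY g
      hecke := fun j v hv => (hab j v hv).1
      unit_b := fun j v hv => (hab j v hv).2.1
      conj_a := fun j v hv => (hab j v hv).2.2.1
      bound_a := fun j v hv => (hab j v hv).2.2.2
      real_m := fun j w d _ => (hm j w d).1
      parseval := hpar }

end Fermat.Agent.LT.T2.H566

end

end
-- ===== PACK-END LT/T2/H566/Assembly.lean

-- ===== PACK-BEGIN LT/T7/H277/TranslInv.lean
section





/-!
# Row LT, tower T7, ASSET for T7.L2.1 PROJ / KILL (helper277): translation invariance of `∫_F`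

For a frame `(μ, F)` with ray generator `r` and a continuous bounded function `Θ` on
`GL₂(𝔸_K)` which is left `GL₂(K)`-invariant and right `r`-invariant,

    ∫_F Θ(x h) dμ(x) = ∫_F Θ(x) dμ(x)        for EVERY `h ∈ GL₂(𝔸_K)`

(`F h` is cut by the tiling `GL₂(𝔸_K) = ⨆ γ F rᵐ` and reassembled).  Consequences for `T5.innerD`:
right translations are unitary on automorphic functions, `⟨R(h) ψ, χ⟩ = ⟨ψ, R(h⁻¹) χ⟩`.
Inputs: `T1.AdNormC` (product formula).  OFF-MAIN.
-/

set_option autoImplicit false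
open IsDedekindDomain NumberField MeasureTheory
open scoped MatrixGroups ComplexConjugate
open Fermat.Agent.LT.H556.A0 Fermat.Agent.LT.T5

noncomputable section
namespace Fermat.Agent.LT.T7.H277

open Fermat.Agent.LT.T5.H277

variable {K : Type} [Field K] [NumberField K]

attribute [local instance] Fermat.Agent.LT.T5.instMeasurableSpaceG

variable {μ : Measure (G K)} {r : G K} {F : Set (G K)}

theorem zpow_inv_of_ray277 {Θ : G K → ℂ} (hray : ∀ g : G K, Θ (g * r) = Θ g) (m : ℤ)
    (g : G K) : Θ (g * r ^ m) = Θ g := by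
  have hn : ∀ (n : ℕ) (g : G K), Θ (g * r ^ n) = Θ g := by
    intro n
    induction n with
    | zero => intro g; simp
    | succ n ih =>
      intro g
      rw [pow_succ, ← mul_assoc, hray, ih]
  cases m with
  | ofNat n => simpa using hn n g
  | negSucc n =>
    have := hn (n + 1) (g * r ^ (Int.negSucc n))
    rw [← this, mul_assoc, zpow_negSucc, inv_mul_cancel, mul_one]

theorem tile_id277 (i : GL (Fin 2) K × ℤ) (y : G K) :
    tile277 (AdelicAut.id K) r i y = ratG i.1 * y * r ^ i.2 := by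
  unfold tile277
  rw [onG_id]

/-- **Translation invariance of the integral over the fundamental domain.** -/
theorem setIntegral_mul_right277 (hN : T1.AdNormC K) (hF : IsFrame μ F) (hr : IsRayGen r)
    {Θ : G K → ℂ} (hc : Continuous Θ) (hb : ∃ C : ℝ, ∀ g : G K, ‖Θ g‖ ≤ C)
    (hl : ∀ (γ : GL (Fin 2) K) (g : G K), Θ (ratG γ * g) = Θ g)
    (hray : ∀ g : G K, Θ (g * r) = Θ g) (h : G K) :
    ∫ x in F, Θ (x * h) ∂μ = ∫ x in F, Θ x ∂μ := by
  have : BorelSpace (G K) := borelSpaceG277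
  have : Countable (GL (Fin 2) K) := countable_GL277 K
  have hP := autPreserves_id (⊤ : Ideal (𝓞 K)) μ r
  obtain ⟨C, hC⟩ := hb
  have hfin : μ F < ⊤ := hF.finite
  -- the translate of `F`
  have hmeasmap : Measurable (fun x : G K => x * h) := (continuous_mul_const _).measurable
  have hmp : MeasurePreserving (fun x : G K => x * h) μ μ := by
    refine ⟨hmeasmap, ?_⟩
    ext A hA
    rw [Measure.map_apply hmeasmap hA]
    exact hF.right_inv _ A hA
  have hemb : MeasurableEmbedding (fun x : G K => x * h) :=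
    (Homeomorph.mulRight h).measurableEmbedding
  set B : Set (G K) := (fun x : G K => x * h) '' F with hB
  have hBm : MeasurableSet B := hemb.measurableSet_image.mpr hF.meas
  have hBfin : μ B < ⊤ := by
    have : μ B = μ F := by
      rw [hB, ← hmp.measure_preimage_emb hemb]
      congr 1
      exact Set.preimage_image_eq _ (mul_left_injective h)
    rw [this]; exact hfin
  have e1 : ∫ x in F, Θ (x * h) ∂μ = ∫ y in B, Θ y ∂μ :=
    (hmp.setIntegral_image_emb hemb Θ F).symm
  -- integrability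
  have hΘB : IntegrableOn Θ B μ :=
    Measure.integrableOn_of_bounded hBfin.ne hc.aestronglyMeasurable
      (Filter.Eventually.of_forall hC)
  have hΘF : IntegrableOn Θ F μ :=
    Measure.integrableOn_of_bounded hfin.ne hc.aestronglyMeasurable
      (Filter.Eventually.of_forall hC)
  have hΦ : Integrable (B.indicator Θ) μ := hΘB.integrable_indicator hBm
  -- unfold along the tiling
  have e2 := integral_eq_tsum_tile277 (s := AdelicAut.id K) hN hF hr hP hΦ
  rw [integral_indicator hBm] at e2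
  -- the pieces of `F`
  set Cs : GL (Fin 2) K × ℤ → Set (G K) := fun i =>
    F ∩ (tile277 (AdelicAut.id K) r i) ⁻¹' B with hCs
  have hCm : ∀ i, MeasurableSet (Cs i) := fun i =>
    hF.meas.inter ((tile_emb277 hP i).measurable hBm)
  have hterm : ∀ i : GL (Fin 2) K × ℤ,
      ∫ y in F, B.indicator Θ (tile277 (AdelicAut.id K) r i y) ∂μ = ∫ y in Cs i, Θ y ∂μ := by
    intro i
    have hfun : (fun y => B.indicator Θ (tile277 (AdelicAut.id K) r i y))
        = ((tile277 (AdelicAut.id K) r i) ⁻¹' B).indicator Θ := by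
      funext y
      by_cases hy : tile277 (AdelicAut.id K) r i y ∈ B
      · rw [Set.indicator_of_mem hy, Set.indicator_of_mem (show y ∈ _ ⁻¹' B from hy),
          tile_id277, mul_assoc, hl, zpow_inv_of_ray277 hray]
      · rw [Set.indicator_of_notMem hy, Set.indicator_of_notMem (show y ∉ _ ⁻¹' B from hy)]
    rw [hfun, setIntegral_indicator ((tile_emb277 hP i).measurable hBm)]
  have hdisj : Pairwise (Function.onFun Disjoint Cs) := by
    intro i j hij
    rw [Function.onFun, Set.disjoint_left]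
    rintro y ⟨-, x, hx, hxe⟩ ⟨-, x', hx', hxe'⟩
    apply hij
    -- `y h⁻¹ = tile (i₁⁻¹, -i₂) x = tile (j₁⁻¹, -j₂) x'`
    have hxe1 : x * h = ratG i.1 * y * r ^ i.2 := by rw [← tile_id277]; exact hxe
    have hxe2 : x' * h = ratG j.1 * y * r ^ j.2 := by rw [← tile_id277]; exact hxe'
    have k1 : tile277 (AdelicAut.id K) r (i.1⁻¹, -i.2) x = y * h⁻¹ := by
      rw [tile_id277]
      have : x = ratG i.1 * y * r ^ i.2 * h⁻¹ := by rw [← hxe1]; group
      rw [this]
      have hcomm := ray_zpow_comm277 hr h⁻¹ i.2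
      simp only [map_inv]
      calc (ratG i.1)⁻¹ * (ratG i.1 * y * r ^ i.2 * h⁻¹) * r ^ (-i.2)
          = y * (r ^ i.2 * h⁻¹) * r ^ (-i.2) := by group
        _ = y * (h⁻¹ * r ^ i.2) * r ^ (-i.2) := by rw [hcomm]
        _ = y * h⁻¹ := by group
    have k2 : tile277 (AdelicAut.id K) r (j.1⁻¹, -j.2) x' = y * h⁻¹ := by
      rw [tile_id277]
      have : x' = ratG j.1 * y * r ^ j.2 * h⁻¹ := by rw [← hxe2]; group
      rw [this]
      have hcomm := ray_zpow_comm277 hr h⁻¹ j.2
      simp only [map_inv]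
      calc (ratG j.1)⁻¹ * (ratG j.1 * y * r ^ j.2 * h⁻¹) * r ^ (-j.2)
          = y * (r ^ j.2 * h⁻¹) * r ^ (-j.2) := by group
        _ = y * (h⁻¹ * r ^ j.2) * r ^ (-j.2) := by rw [hcomm]
        _ = y * h⁻¹ := by group
    have k3 := tile_unique277 hN hF hr hP hx hx' (k1.trans k2.symm)
    have k4 : i.1⁻¹ = j.1⁻¹ := congrArg Prod.fst k3
    have k5 : -i.2 = -j.2 := congrArg Prod.snd k3
    exact Prod.ext (inv_injective k4) (neg_injective k5)
  have hunion : (⋃ i, Cs i) = F := by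
    apply Set.Subset.antisymm
    · intro y hy
      obtain ⟨i, hi⟩ := Set.mem_iUnion.1 hy
      exact hi.1
    · intro y hy
      obtain ⟨i, x, hx, hxe⟩ := tile_cover277 hN hF hr hP (y * h⁻¹)
      rw [tile_id277] at hxe
      refine Set.mem_iUnion.2 ⟨(i.1⁻¹, -i.2), hy, x, hx, ?_⟩
      rw [tile_id277]
      have hcomm := ray_zpow_comm277 hr h (-i.2)
      simp only [map_inv]
      have hy' : y = ratG i.1 * x * r ^ i.2 * h := by rw [hxe]; group
      calc x * h = (ratG i.1)⁻¹ * (ratG i.1 * x * r ^ i.2 * h) * r ^ (-i.2) := by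
            have : (ratG i.1)⁻¹ * (ratG i.1 * x * r ^ i.2 * h) * r ^ (-i.2)
                = x * r ^ i.2 * (h * r ^ (-i.2)) := by group
            rw [this, ← hcomm]; group
        _ = (ratG i.1)⁻¹ * y * r ^ (-i.2) := by rw [← hy']
  have e3 : ∫ y in F, Θ y ∂μ = ∑' i, ∫ y in Cs i, Θ y ∂μ := by
    have := integral_iUnion (μ := μ) (f := Θ) hCm hdisj (by rw [hunion]; exact hΘF)
    rw [hunion] at this
    exact this
  rw [e1, e2, e3]
  exact tsum_congr hterm

/-- The inner product of T5 is invariant under simultaneous right translation. -/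
theorem innerD_mul_right277 (hN : T1.AdNormC K) (hF : IsFrame μ F) (hr : IsRayGen r)
    {ψ χ : G K → ℂ} (hψc : Continuous ψ) (hχc : Continuous χ)
    (hψb : ∃ C : ℝ, ∀ g : G K, ‖ψ g‖ ≤ C) (hχb : ∃ C : ℝ, ∀ g : G K, ‖χ g‖ ≤ C)
    (hψl : ∀ (γ : GL (Fin 2) K) (g : G K), ψ (ratG γ * g) = ψ g)
    (hχl : ∀ (γ : GL (Fin 2) K) (g : G K), χ (ratG γ * g) = χ g)
    (hψr : ∀ g : G K, ψ (g * r) = ψ g) (hχr : ∀ g : G K, χ (g * r) = χ g) (h : G K) :
    innerD μ F (fun x => ψ (x * h)) (fun x => χ (x * h)) = innerD μ F ψ χ := by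
  obtain ⟨C₁, h₁⟩ := hψb
  obtain ⟨C₂, h₂⟩ := hχb
  have hcont : Continuous fun x => ψ x * conj (χ x) :=
    hψc.mul (Complex.continuous_conj.comp hχc)
  have hbd : ∃ C : ℝ, ∀ g : G K, ‖ψ g * conj (χ g)‖ ≤ C := by
    refine ⟨C₁ * C₂, fun g => ?_⟩
    rw [norm_mul, RCLike.norm_conj]
    exact mul_le_mul (h₁ g) (h₂ g) (norm_nonneg _) ((norm_nonneg _).trans (h₁ g))
  exact setIntegral_mul_right277 hN hF hr (Θ := fun x => ψ x * conj (χ x)) hcont hbd
    (fun γ g => by simp only [hψl, hχl]) (fun g => by simp only [hψr, hχr]) h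

/-- Right translations have the inverse translation as adjoint. -/
theorem innerD_mul_right_adjoint277 (hN : T1.AdNormC K) (hF : IsFrame μ F) (hr : IsRayGen r)
    {ψ χ : G K → ℂ} (hψc : Continuous ψ) (hχc : Continuous χ)
    (hψb : ∃ C : ℝ, ∀ g : G K, ‖ψ g‖ ≤ C) (hχb : ∃ C : ℝ, ∀ g : G K, ‖χ g‖ ≤ C)
    (hψl : ∀ (γ : GL (Fin 2) K) (g : G K), ψ (ratG γ * g) = ψ g)
    (hχl : ∀ (γ : GL (Fin 2) K) (g : G K), χ (ratG γ * g) = χ g)
    (hψr : ∀ g : G K, ψ (g * r) = ψ g) (hχr : ∀ g : G K, χ (g * r) = χ g) (h : G K) :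
    innerD μ F (fun x => ψ (x * h)) χ = innerD μ F ψ (fun x => χ (x * h⁻¹)) := by
  have hχ'c : Continuous fun x => χ (x * h⁻¹) := hχc.comp (continuous_mul_const _)
  have hχ'b : ∃ C : ℝ, ∀ g : G K, ‖χ (g * h⁻¹)‖ ≤ C := by
    obtain ⟨C, hC⟩ := hχb
    exact ⟨C, fun g => hC _⟩
  have hχ'l : ∀ (γ : GL (Fin 2) K) (g : G K), χ (ratG γ * g * h⁻¹) = χ (g * h⁻¹) := by
    intro γ g
    rw [mul_assoc, hχl]
  have hχ'r : ∀ g : G K, χ (g * r * h⁻¹) = χ (g * h⁻¹) := by
    intro g
    have hcomm : r * h⁻¹ = h⁻¹ * r := ray_comm277 hr h⁻¹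
    rw [mul_assoc, hcomm, ← mul_assoc, hχr]
  have := innerD_mul_right277 hN hF hr hψc hχ'c hψb hχ'b hψl hχ'l hψr hχ'r h
  rw [← this]
  congr 1
  funext x
  rw [mul_assoc, mul_inv_cancel, mul_one]

end Fermat.Agent.LT.T7.H277
end

end
-- ===== PACK-END LT/T7/H277/TranslInv.lean

-- ===== PACK-BEGIN LT/T7/H662/NormProd.lean
section





/-!
# Row LT, tower T7, leaf C2.7.13.3 `LocEqSplitC340` (helper662): THE NORM AT A SPLIT PLACE

OFF-MAIN.  Complete proofs, nothing assumed.  Asset: helper415 `valuation_sigma415`.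

`v` a finite place of `K`, `w 0, w 1, …` places of `K'` with `w j = σ (w (j+1))`
(`T5.PlaceRel`), `i j : K_v ≃ K'_{w j}` compatible with the embeddings of `K` and with the
valuations.  In the coordinates of `K_v` (`e j = (i j)⁻¹ ∘ (K' → K'_{w j})`):

    e j ∘ σ = e (j+1)                                   (`emb_sigma662`, by density of `K` in `K_v`)
    δ_0 δ_1 ⋯ δ_{l-1} = γ_v   for `N δ = γ`, `δ_j = e j (δ)`      (`prodFrom_eq662`)
-/

set_option autoImplicit false
set_option linter.unusedSectionVars false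

open IsDedekindDomain NumberField

noncomputable section

namespace Fermat.Agent.LT.T7.H662

open Fermat.Agent.LT Fermat.Agent.LT.T7.H159

section GLmap

variable {A B C : Type} [CommRing A] [CommRing B] [CommRing C]

theorem glmap_apply662 (f : A →+* B) (g : GL (Fin 2) A) (a b : Fin 2) :
    ((Matrix.GeneralLinearGroup.map f g : GL (Fin 2) B) : Matrix (Fin 2) (Fin 2) B) a b
      = f ((g : Matrix (Fin 2) (Fin 2) A) a b) := rfl

theorem glmap_congr662 {f f' : A →+* B} (h : ∀ x, f x = f' x) (g : GL (Fin 2) A) :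
    Matrix.GeneralLinearGroup.map f g = Matrix.GeneralLinearGroup.map f' g := by
  apply Units.ext
  ext a b
  rw [glmap_apply662, glmap_apply662, h]

theorem glmap_glmap662 (f : A →+* B) (f' : B →+* C) (g : GL (Fin 2) A) :
    Matrix.GeneralLinearGroup.map f' (Matrix.GeneralLinearGroup.map f g)
      = Matrix.GeneralLinearGroup.map (f'.comp f) g := by
  apply Units.ext
  ext a b
  rfl

end GLmap

variable {K K' : Type} [Field K] [NumberField K] [Field K'] [NumberField K'] [Algebra K K']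

/-- The embedding `K' → K'_{w} ≃ K_v`. -/
def emb662 {v : HeightOneSpectrum (𝓞 K)} {w : HeightOneSpectrum (𝓞 K')}
    (i : v.adicCompletion K ≃+* w.adicCompletion K') : K' →+* v.adicCompletion K :=
  ((i.symm : w.adicCompletion K' ≃+* v.adicCompletion K) :
    w.adicCompletion K' →+* v.adicCompletion K).comp (algebraMap K' (w.adicCompletion K'))

theorem emb662_apply {v : HeightOneSpectrum (𝓞 K)} {w : HeightOneSpectrum (𝓞 K')}
    (i : v.adicCompletion K ≃+* w.adicCompletion K') (y : K') :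
    emb662 i y = i.symm (algebraMap K' (w.adicCompletion K') y) := rfl

theorem valued_symm662 {v : HeightOneSpectrum (𝓞 K)} {w : HeightOneSpectrum (𝓞 K')}
    (i : v.adicCompletion K ≃+* w.adicCompletion K')
    (hv : ∀ x : v.adicCompletion K, Valued.v (i x) = Valued.v x) (y : w.adicCompletion K') :
    Valued.v (i.symm y) = Valued.v y := by
  have h := hv (i.symm y)
  rw [RingEquiv.apply_symm_apply] at h
  exact h.symm

theorem valued_emb662 {v : HeightOneSpectrum (𝓞 K)} {w : HeightOneSpectrum (𝓞 K')}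
    (i : v.adicCompletion K ≃+* w.adicCompletion K')
    (hv : ∀ x : v.adicCompletion K, Valued.v (i x) = Valued.v x) (y : K') :
    Valued.v (emb662 i y) = w.valuation K' y := by
  rw [emb662_apply, valued_symm662 i hv]
  exact HeightOneSpectrum.valuedAdicCompletion_eq_valuation' w y

theorem emb_base662 {v : HeightOneSpectrum (𝓞 K)} {w : HeightOneSpectrum (𝓞 K')}
    (i : v.adicCompletion K ≃+* w.adicCompletion K')
    (hi : ∀ x : K, i (algebraMap K (v.adicCompletion K) x)
      = algebraMap K' (w.adicCompletion K') (algebraMap K K' x)) (x : K) :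
    emb662 i (algebraMap K K' x) = algebraMap K (v.adicCompletion K) x := by
  rw [emb662_apply, ← hi x, RingEquiv.symm_apply_apply]

/-- Density of `K` in `K_v`, in terms of the valuation. -/
theorem exists_close662 (v : HeightOneSpectrum (𝓞 K)) (a d : v.adicCompletion K) (hd : d ≠ 0) :
    ∃ x : K, Valued.v (a - algebraMap K (v.adicCompletion K) x) < Valued.v d := by
  have hdr := HeightOneSpectrum.denseRange_algebraMap K v
  have hball : IsOpen {c : v.adicCompletion K | Valued.v c < Valued.v d} := by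
    have h := Valued.isOpen_ball (v.adicCompletion K)
      ((Valued.v : Valuation (v.adicCompletion K) (WithZero (Multiplicative ℤ))).restrict d)
    convert h using 1
    ext c
    exact (Valuation.restrict_lt_iff
      (v := (Valued.v : Valuation (v.adicCompletion K) (WithZero (Multiplicative ℤ))))).symm
  have hopen : IsOpen {b : v.adicCompletion K | Valued.v (a - b) < Valued.v d} :=
    hball.preimage (continuous_const.sub continuous_id)
  have hne : ({b : v.adicCompletion K | Valued.v (a - b) < Valued.v d}).Nonempty :=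
    ⟨a, by
      show Valued.v (a - a) < Valued.v d
      rw [sub_self, map_zero]
      exact zero_lt_iff.2 ((Valuation.ne_zero_iff _).2 hd)⟩
  obtain ⟨x, hx⟩ := hdr.exists_mem_open hopen hne
  exact ⟨x, hx⟩

/-- **`e j ∘ σ = e (j+1)`**: two embeddings of `K'` in `K_v` over `K` which induce the same place
are equal. -/
theorem emb_eq_of_val662 {v : HeightOneSpectrum (𝓞 K)} (w : HeightOneSpectrum (𝓞 K'))
    (τ₁ τ₂ : K' →+* v.adicCompletion K)
    (h₁ : ∀ y : K', Valued.v (τ₁ y) = w.valuation K' y)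
    (h₂ : ∀ y : K', Valued.v (τ₂ y) = w.valuation K' y)
    (b₁ : ∀ x : K, τ₁ (algebraMap K K' x) = algebraMap K (v.adicCompletion K) x)
    (b₂ : ∀ x : K, τ₂ (algebraMap K K' x) = algebraMap K (v.adicCompletion K) x) (y : K') :
    τ₁ y = τ₂ y := by
  by_contra hne
  have hd : τ₁ y - τ₂ y ≠ 0 := sub_ne_zero.2 hne
  obtain ⟨x, hx⟩ := exists_close662 v (τ₂ y) (τ₁ y - τ₂ y) hd
  have e2 : τ₂ y - algebraMap K (v.adicCompletion K) x = τ₂ (y - algebraMap K K' x) := by
    rw [map_sub, b₂]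
  have e1 : τ₁ y - algebraMap K (v.adicCompletion K) x = τ₁ (y - algebraMap K K' x) := by
    rw [map_sub, b₁]
  have hx1 : Valued.v (τ₁ y - algebraMap K (v.adicCompletion K) x)
      < Valued.v (τ₁ y - τ₂ y) := by
    rw [e1, h₁, ← h₂, ← e2]
    exact hx
  have hsplit : τ₁ y - τ₂ y
      = (τ₁ y - algebraMap K (v.adicCompletion K) x)
        - (τ₂ y - algebraMap K (v.adicCompletion K) x) := by ring
  have hle := Valuation.map_sub (Valued.v : Valuation (v.adicCompletion K) _)
    (τ₁ y - algebraMap K (v.adicCompletion K) x) (τ₂ y - algebraMap K (v.adicCompletion K) x)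
  rw [← hsplit] at hle
  exact absurd hle (not_le.2 (max_lt hx1 hx))

section Split

variable (s : T5.AdelicAut K')
  (hfix : ∀ x : K, s.σ (algebraMap K K' x) = algebraMap K K' x)
  (v : HeightOneSpectrum (𝓞 K)) (w : ℕ → HeightOneSpectrum (𝓞 K'))
  (i : ∀ j : ℕ, v.adicCompletion K ≃+* (w j).adicCompletion K')
  (hrel : ∀ j : ℕ, T5.PlaceRel s (w (j + 1)) (w j))
  (hi : ∀ (j : ℕ) (x : K), i j (algebraMap K (v.adicCompletion K) x)
    = algebraMap K' ((w j).adicCompletion K') (algebraMap K K' x))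
  (hv : ∀ (j : ℕ) (x : v.adicCompletion K), Valued.v (i j x) = Valued.v x)

include hfix hrel hi hv in
theorem emb_sigma662 (j : ℕ) (y : K') : emb662 (i j) (s.σ y) = emb662 (i (j + 1)) y := by
  refine emb_eq_of_val662 (w (j + 1)) ((emb662 (i j)).comp (s.σ : K' →+* K')) (emb662 (i (j + 1)))
    ?_ ?_ ?_ ?_ y
  · intro z
    show Valued.v (emb662 (i j) (s.σ z)) = _
    rw [valued_emb662 (i j) (hv j)]
    exact H415.valuation_sigma415 s.σ (w (j + 1)) (w j) (hrel j) z
  · intro z
    exact valued_emb662 (i (j + 1)) (hv (j + 1)) z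
  · intro x
    show emb662 (i j) (s.σ (algebraMap K K' x)) = _
    rw [hfix, emb_base662 (i j) (hi j)]
  · intro x
    exact emb_base662 (i (j + 1)) (hi (j + 1)) x

theorem normUpTo_succ662 (n : ℕ) (δ : GL (Fin 2) K') :
    s.normUpTo (n + 1) δ = δ * s.onRat (s.normUpTo n δ) := rfl

theorem normUpTo_zero662 (δ : GL (Fin 2) K') : s.normUpTo 0 δ = 1 := rfl

theorem prodFrom_zero662 {H : Type} [Group H] (d : ℕ → H) (a : ℕ) : prodFrom159 d 0 a = 1 := rfl

theorem prodFrom_succ662 {H : Type} [Group H] (d : ℕ → H) (n a : ℕ) :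
    prodFrom159 d (n + 1) a = d a * prodFrom159 d n (a + 1) := rfl

include hfix hrel hi hv in
theorem map_normUpTo662 (δ : GL (Fin 2) K') (n : ℕ) :
    ∀ a : ℕ, Matrix.GeneralLinearGroup.map (emb662 (i a)) (s.normUpTo n δ)
      = prodFrom159 (fun j => Matrix.GeneralLinearGroup.map (emb662 (i j)) δ) n a := by
  induction n with
  | zero =>
    intro a
    rw [normUpTo_zero662, prodFrom_zero662, map_one]
  | succ n ih =>
    intro a
    rw [normUpTo_succ662, prodFrom_succ662, map_mul, ← ih (a + 1)]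
    congr 1
    show Matrix.GeneralLinearGroup.map (emb662 (i a))
        (Matrix.GeneralLinearGroup.map (s.σ : K' →+* K') (s.normUpTo n δ)) = _
    rw [glmap_glmap662]
    exact glmap_congr662 (fun y => emb_sigma662 s hfix v w i hrel hi hv a y) _

include hfix hrel hi hv in
/-- **The norm at a split place**: `δ_0 δ_1 ⋯ δ_{l-1} = γ_v`. -/
theorem prodFrom_eq662 (δ : GL (Fin 2) K') (γ : GL (Fin 2) K) (l : ℕ)
    (hN : s.normUpTo l δ = Matrix.GeneralLinearGroup.map (algebraMap K K') γ) :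
    prodFrom159 (fun j => Matrix.GeneralLinearGroup.map
        (((i j).symm : (w j).adicCompletion K' ≃+* v.adicCompletion K) :
          (w j).adicCompletion K' →+* v.adicCompletion K)
        (Matrix.GeneralLinearGroup.map (algebraMap K' ((w j).adicCompletion K')) δ)) l 0
      = Matrix.GeneralLinearGroup.map (algebraMap K (v.adicCompletion K)) γ := by
  have h1 : (fun j => Matrix.GeneralLinearGroup.map
        (((i j).symm : (w j).adicCompletion K' ≃+* v.adicCompletion K) :
          (w j).adicCompletion K' →+* v.adicCompletion K)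
        (Matrix.GeneralLinearGroup.map (algebraMap K' ((w j).adicCompletion K')) δ))
      = fun j => Matrix.GeneralLinearGroup.map (emb662 (i j)) δ := by
    funext j
    exact glmap_glmap662 _ _ _
  rw [h1, ← map_normUpTo662 s hfix v w i hrel hi hv δ l 0, hN, glmap_glmap662]
  exact glmap_congr662 (fun x => emb_base662 (i 0) (hi 0) x) γ

end Split

/-! ## Appendix: the equation lemmas of the definitions of this file are realised HERE -/

theorem eqns_realised_normProd662 : True := by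
  have _a1 := @emb662.eq_1
  have _a2 := @emb662.eq_def
  have _a3 := @emb662.eq_unfold
  trivial

end Fermat.Agent.LT.T7.H662

end

end
-- ===== PACK-END LT/T7/H662/NormProd.lean

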