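import Mathlib
import Fermat.Agent.Pack.LT3.E14L1
import Fermat.Agent.Pack.LT3.E14L0
import Fermat.Agent.Pack.LT3.E11L3
import Fermat.Agent.Pack.LT2.E0L2
import Fermat.Agent.Pack.LT2.E9L3
import Fermat.Agent.Pack.LT2.E2L3
import Fermat.Agent.Pack.LT2.E2L1
import Fermat.Agent.Pack.LT2.E5L3
import Fermat.Agent.Pack.LT2.E6L2
import Fermat.Agent.Pack.LT3.E11L0
import Fermat.Agent.Pack.LT3.E14L2
import Fermat.Agent.Pack.LT2.E3L0
import Fermat.Agent.Pack.LT3.E14L3
import Fermat.Agent.Pack.LT2.E10L0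
import Fermat.Agent.Pack.LT2.E10L1
import Fermat.Agent.Pack.LT2.E10L2
import Fermat.Agent.Pack.LT3.E8L2
import Fermat.Agent.Pack.LT2.E0L1
import Fermat.Agent.Pack.LT3.E13L1
import Fermat.Agent.Pack.LT3.E16L1

set_option linter.all false

-- ===== PACK-BEGIN LT/T2/H175/AdjT.lean
section




/-!
# Row LT, tower T2, leaf T2.22a (helper175): `adj` preserves the (spherical) test functions of
# type `τ`

OFF-MAIN.  `leafT02a_175 : LeafT02a175 K` (cut `LT/T2/H175/TauSpec.lean`).  The regularity fields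
are those of helper228 (`adj_cont228`, `adj_cpt228`, `adj_smooth228`, byte-identical copy of
`LT/T2/H228/AdjTest.lean`); the type: `conj τ(k⁻¹) = τ(k)` for a unitary character.
-/

set_option autoImplicit false

open IsDedekindDomain NumberField MeasureTheory AutomorphicForm
open Fermat.Agent.LT.H556.A0

noncomputable section

namespace Fermat.Agent.LT.T2.H175

open Fermat.Agent.LT.T2

variable {K : Type} [Field K] [NumberField K]

/-- `τ(k⁻¹) = τ(k)⁻¹` on the compact groups. -/
theorem kType_inv175 {τ : G K → ℂ} (hτ : IsKType τ) {w : InfinitePlace K} {k : G K}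
    (hk : IsArchCompact w k) : τ k⁻¹ = (τ k)⁻¹ :=
  eq_inv_of_mul_eq_one_right (kType_mul_inv175 hτ hk)

/-- `conj τ(k) = τ(k)⁻¹` on the compact groups. -/
theorem kType_conj175 {τ : G K → ℂ} (hτ : IsKType τ) {w : InfinitePlace K} {k : G K}
    (hk : IsArchCompact w k) : (starRingEnd ℂ) (τ k) = (τ k)⁻¹ := by
  have h1 : ‖τ k‖ = 1 := hτ.norm_one w k hk
  have h2 : τ k * (starRingEnd ℂ) (τ k) = 1 := by
    rw [Complex.mul_conj, Complex.normSq_eq_norm_sq, h1]
    norm_num
  exact eq_inv_of_mul_eq_one_right h2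

theorem adj_arch_right175 {τ : G K → ℂ} (hτ : IsKType τ) {f : G K → ℂ} {w : InfinitePlace K}
    {k : G K} (hk : IsArchCompact w k)
    (hf : ∀ g : G K, f (k⁻¹ * g) = (τ k⁻¹)⁻¹ * f g) (g : G K) :
    adj f (g * k) = (τ k)⁻¹ * adj f g := by
  rw [H228.adj_apply228, H228.adj_apply228, mul_inv_rev, hf, map_mul, map_inv₀,
    kType_conj175 hτ (H228.isArchCompact_inv228 hk), kType_inv175 hτ hk, inv_inv]

theorem adj_arch_left175 {τ : G K → ℂ} (hτ : IsKType τ) {f : G K → ℂ} {w : InfinitePlace K}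
    {k : G K} (hk : IsArchCompact w k)
    (hf : ∀ g : G K, f (g * k⁻¹) = (τ k⁻¹)⁻¹ * f g) (g : G K) :
    adj f (k * g) = (τ k)⁻¹ * adj f g := by
  rw [H228.adj_apply228, H228.adj_apply228, mul_inv_rev, hf, map_mul, map_inv₀,
    kType_conj175 hτ (H228.isArchCompact_inv228 hk), kType_inv175 hτ hk, inv_inv]

theorem adj_isTestT175 {𝔫 : Ideal (𝓞 K)} {τ : G K → ℂ} (hτ : IsKType τ) {f : G K → ℂ}
    (hf : IsTestT 𝔫 τ f) : IsTestT 𝔫 τ (adj f) :=
  { cont := H228.adj_cont228 hf.cont
    smooth := H228.adj_smooth228 hf.smooth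
    cpt := H228.adj_cpt228 hf.cpt
    level_right := fun u hu g =>
      H228.adj_right228 (fun g' => hf.level_left u⁻¹ (H228.inLevelGroup_inv228 hu) g') g
    level_left := fun u hu g =>
      H228.adj_left228 (fun g' => hf.level_right u⁻¹ (H228.inLevelGroup_inv228 hu) g') g
    arch_right := fun w k hk g =>
      adj_arch_right175 hτ hk
        (fun g' => hf.arch_left w k⁻¹ (H228.isArchCompact_inv228 hk) g') g
    arch_left := fun w k hk g =>
      adj_arch_left175 hτ hk
        (fun g' => hf.arch_right w k⁻¹ (H228.isArchCompact_inv228 hk) g') g }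

theorem adj_isSphTestT175 {𝔫 : Ideal (𝓞 K)} {τ : G K → ℂ} (hτ : IsKType τ) {f : G K → ℂ}
    (hf : IsSphTestT 𝔫 τ f) : IsSphTestT 𝔫 τ (adj f) := by
  refine ⟨adj_isTestT175 hτ hf.test, ?_⟩
  intro g hg v hv i j
  have hfne : f g⁻¹ ≠ 0 := by
    intro h; apply hg; rw [H228.adj_apply228, h, map_zero]
  have := hf.bad_unit g⁻¹ hfne v hv i j
  rw [inv_inv] at this
  exact ⟨this.2, this.1⟩

/-- **T2.22a**: `adj` preserves the test functions and the spherical test functions of type
`τ`. -/
theorem leafT02a_175 (K : Type) [Field K] [NumberField K] : LeafT02a175 K :=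
  fun _ _ _ _ hτ => ⟨fun _ hf => adj_isTestT175 hτ hf, fun _ hf => adj_isSphTestT175 hτ hf⟩

end Fermat.Agent.LT.T2.H175

end

end
-- ===== PACK-END LT/T2/H175/AdjT.lean

-- ===== PACK-BEGIN LT/T2/H175/ThetaSwap.lean
section




/-!
# Row LT, tower T2, leaf T2.22d.3 `ThetaSwapC175` (SWAP for `θ`): PROVED (helper175, spare)

OFF-MAIN.  Proof of `convSwapC473` (helper473, byte-identical copy of `LT/T2/H473/ConvSwap.lean`,
of which `isInvInvariant_G473` is used) with `thetaG175` in place of `adjG724`.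
-/

set_option autoImplicit false

open IsDedekindDomain NumberField MeasureTheory AutomorphicForm
open Fermat.Agent.LT.H556.A0

noncomputable section

namespace Fermat.Agent.LT.T2.H175

open Fermat.Agent.LT.T2 Fermat.Agent.LT.T2.H724

variable {K : Type} [Field K] [NumberField K]

attribute [local instance] Fermat.Agent.LT.T2.borelG

/-- **T2.22d.3 SWAP for `θ`.** -/
theorem thetaSwapC_175 (K : Type) [Field K] [NumberField K] : ThetaSwapC175 K := by
  intro hLC hU F hι f₁ f₂ g
  have : BorelSpace (G K) := ⟨rfl⟩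
  have : LocallyCompactSpace (G K) := hLC.2.1
  have : SecondCountableTopology (G K) := hLC.2.2.2
  have : F.μ.IsHaarMeasure := F.haar
  have : F.μ.IsInvInvariant := H473.isInvInvariant_G473 hLC hU F.μ F.haar
  let e : G K ≃ᵐ G K :=
    { toFun := thetaG175
      invFun := thetaG175
      left_inv := thetaG175_thetaG175
      right_inv := thetaG175_thetaG175
      measurable_toFun := hι.measurable
      measurable_invFun := hι.measurable }
  have he : MeasurePreserving e F.μ F.μ := hι
  unfold convKer724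
  have hR : ∫ h, f₂ (thetaG175 h) * f₁ (thetaG175 (h⁻¹ * g)) ∂F.μ
      = ∫ h, f₂ h * f₁ (thetaG175 g / h) ∂F.μ := by
    have := he.integral_comp' (fun h => f₂ h * f₁ (thetaG175 g / h))
    rw [← this]
    refine integral_congr_ae (Filter.Eventually.of_forall fun h => ?_)
    show f₂ (thetaG175 h) * f₁ (thetaG175 (h⁻¹ * g))
      = f₂ (thetaG175 h) * f₁ (thetaG175 g / thetaG175 h)
    rw [thetaG175_mul, thetaG175_inv, div_eq_mul_inv]
  have hL : ∫ h, f₁ h * f₂ (h⁻¹ * thetaG175 g) ∂F.μ
      = ∫ h, f₂ h * f₁ (thetaG175 g / h) ∂F.μ := by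
    rw [← integral_div_left_eq_self (fun h => f₁ h * f₂ (h⁻¹ * thetaG175 g)) F.μ (thetaG175 g)]
    refine integral_congr_ae (Filter.Eventually.of_forall fun h => ?_)
    show f₁ (thetaG175 g / h) * f₂ ((thetaG175 g / h)⁻¹ * thetaG175 g)
      = f₂ h * f₁ (thetaG175 g / h)
    rw [inv_div, div_mul_cancel, mul_comm]
  rw [hL, hR]

end Fermat.Agent.LT.T2.H175

end

end
-- ===== PACK-END LT/T2/H175/ThetaSwap.lean

-- ===== PACK-BEGIN LT/T2/H756/HeckeLocal.lean
section





/-!
# Row LT, tower T2, sub-leaf T2.07.04 (helper756): the local algebra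

OFF-MAIN.  On `LT/H556/A0.lean` (helper556) and the local library of helper129
(`LT/H129/{Cartan, HeckeLevel}.lean` and their imports), byte-identical copies.

* `hecke_doubleCoset756` : over `K_v`, an integral matrix whose determinant is a uniformiser lies
  in `GL₂(𝒪_v) diag(1, ϖ) GL₂(𝒪_v)`;
* `IsHeckeAt756 v g` : `g ∈ GL₂(𝔸_K)` is supported at `v`, integral at `v`, with determinant a
  uniformiser at `v` (the elements of the coset systems of A0);
* `exists_maxCpt_mul756` : two such elements differ by elements of `GL₂(𝒪_v)` on both sides;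
* `isHeckeAt_inv_mul756` : if `h` is such an element and `z` a scalar uniformiser at `v`, then
  `h⁻¹ z` is such an element;
* `biInv_eq756` : a function on `GL₂(𝔸_K)` which is left and right invariant under `GL₂(𝒪_v)`
  takes the same value at `h` and at `h⁻¹ z`.
-/

set_option autoImplicit false

open IsDedekindDomain NumberField IsDedekindDomain.HeightOneSpectrum
open Fermat.Agent.LT.H556.A0 Fermat.Agent.LT.H129

noncomputable section

namespace Fermat.Agent.LT.T2.H756

variable {K : Type} [Field K] [NumberField K] (v : HeightOneSpectrum (𝓞 K))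

/-! ## 1. Local algebra over `K_v` -/

theorem valued_mul_eq_one756 {a b : v.adicCompletion K} (ha : Valued.v a ≤ 1)
    (hb : Valued.v b ≤ 1) (hab : a * b = 1) : Valued.v a = 1 := by
  have h1 : Valued.v a * Valued.v b = 1 := by rw [← map_mul, hab, map_one]
  have h2 : Valued.v a * Valued.v b ≤ Valued.v a * 1 := mul_le_mul' le_rfl hb
  rw [h1, mul_one] at h2
  exact le_antisymm ha h2

/-- The determinant of an element of `GL₂(𝒪_v)` is a unit. -/
theorem valued_det_maxCpt756 {k : GL (Fin 2) (v.adicCompletion K)}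
    (hk : IsMaxCpt129 (v.adicCompletionIntegers K) k) :
    Valued.v (k : Matrix (Fin 2) (Fin 2) (v.adicCompletion K)).det = 1 := by
  have h1 : Valued.v (k : Matrix (Fin 2) (Fin 2) (v.adicCompletion K)).det ≤ 1 :=
    (mem_adicCompletionIntegers _ _ _).mp (det_mem_of_isInt129 hk.1)
  have h2 : Valued.v ((k⁻¹ : GL (Fin 2) (v.adicCompletion K)) :
      Matrix (Fin 2) (Fin 2) (v.adicCompletion K)).det ≤ 1 :=
    (mem_adicCompletionIntegers _ _ _).mp (det_mem_of_isInt129 hk.2)
  have h3 : (k : Matrix (Fin 2) (Fin 2) (v.adicCompletion K)).det *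
      ((k⁻¹ : GL (Fin 2) (v.adicCompletion K)) :
        Matrix (Fin 2) (Fin 2) (v.adicCompletion K)).det = 1 := by
    rw [← Matrix.det_mul, ← Matrix.GeneralLinearGroup.coe_mul, mul_inv_cancel]
    simp
  exact valued_mul_eq_one756 v h1 h2 h3

theorem coe_diag129_756 {F : Type*} [Field F] (x y : F) (hx : x ≠ 0) (hy : y ≠ 0) :
    ((diag129 x y hx hy : GL (Fin 2) F) : Matrix (Fin 2) (Fin 2) F) = !![x, 0; 0, y] := rfl

theorem diag129_mul756 {F : Type*} [Field F] (x y x' y' : F) (hx : x ≠ 0) (hy : y ≠ 0)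
    (hx' : x' ≠ 0) (hy' : y' ≠ 0) :
    diag129 x y hx hy * diag129 x' y' hx' hy'
      = diag129 (x * x') (y * y') (mul_ne_zero hx hx') (mul_ne_zero hy hy') := by
  apply ext_mat129
  rw [Matrix.GeneralLinearGroup.coe_mul, coe_diag129_756, coe_diag129_756, coe_diag129_756]
  ext i j
  fin_cases i <;> fin_cases j <;> simp [Matrix.mul_apply, Fin.sum_univ_two]

theorem diag129_congr756 {F : Type*} [Field F] {x y x' y' : F} (hx : x ≠ 0) (hy : y ≠ 0)
    (hx' : x' ≠ 0) (hy' : y' ≠ 0) (ex : x = x') (ey : y = y') :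
    diag129 x y hx hy = diag129 x' y' hx' hy' := by
  subst ex; subst ey; rfl

/-- A diagonal matrix with unit entries lies in `GL₂(𝒪_v)`. -/
theorem isMaxCpt_diag_unit756 {x y : v.adicCompletion K} (hx : x ≠ 0) (hy : y ≠ 0)
    (hvx : Valued.v x = 1) (hvy : Valued.v y = 1) :
    IsMaxCpt129 (v.adicCompletionIntegers K) (diag129 x y hx hy) := by
  have hint : IsInt129 (v.adicCompletionIntegers K) (diag129 x y hx hy) := by
    intro i j
    rw [coe_diag129_756]
    fin_cases i <;> fin_cases j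
    · simpa [mem_adicCompletionIntegers] using hvx.le
    · simp
    · simp
    · simpa [mem_adicCompletionIntegers] using hvy.le
  refine ⟨hint, isInt129_inv_of_det hint ?_⟩
  rw [coe_diag129_756, Matrix.det_fin_two_of, mul_zero, sub_zero, mem_adicCompletionIntegers,
    map_inv₀, map_mul, hvx, hvy, mul_one, inv_one]

/-- **The double coset of the Hecke operator**: an integral matrix whose determinant is a
uniformiser lies in `GL₂(𝒪_v) diag(1, ϖ) GL₂(𝒪_v)`. -/
theorem hecke_doubleCoset756 {g : GL (Fin 2) (v.adicCompletion K)}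
    (hg : IsInt129 (v.adicCompletionIntegers K) g)
    (hdet : Valued.v (g : Matrix (Fin 2) (Fin 2) (v.adicCompletion K)).det
      = WithZero.exp (-1 : ℤ))
    {ϖ : v.adicCompletion K} (hϖ : Valued.v ϖ = WithZero.exp (-1 : ℤ)) :
    ∃ k₁ k₂ : GL (Fin 2) (v.adicCompletion K),
      IsMaxCpt129 (v.adicCompletionIntegers K) k₁ ∧
      IsMaxCpt129 (v.adicCompletionIntegers K) k₂ ∧
      g = k₁ * diag129 1 ϖ one_ne_zero (unif_ne_zero129 v hϖ) * k₂ := by
  obtain ⟨k₁, k₂, x, y, hx, hy, h1, h2, hxy, hgeq⟩ := cartan129 (v.adicCompletionIntegers K) g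
  have hϖ0 : ϖ ≠ 0 := unif_ne_zero129 v hϖ
  -- the diagonal part is integral
  have hD : diag129 x y hx hy = k₁⁻¹ * g * k₂⁻¹ := by rw [hgeq]; group
  have hDint : IsInt129 (v.adicCompletionIntegers K) (diag129 x y hx hy) := by
    rw [hD]
    exact isInt129_mul (isInt129_mul h1.2 hg) h2.2
  have hvx : Valued.v x ≤ 1 := by
    have := hDint 0 0
    rw [coe_diag129_756] at this
    simpa [mem_adicCompletionIntegers] using this
  have hvy : Valued.v y ≤ 1 := by
    have := hDint 1 1
    rw [coe_diag129_756] at this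
    simpa [mem_adicCompletionIntegers] using this
  have hvx0 : Valued.v x ≠ 0 := by rw [ne_eq, map_eq_zero]; exact hx
  have hvyx : Valued.v y ≤ Valued.v x := by
    have h := (mem_adicCompletionIntegers _ _ _).mp hxy
    rw [map_div₀] at h
    exact (div_le_one₀ (zero_lt_iff.mpr hvx0)).mp h
  -- the determinant
  have hdet' : Valued.v x * Valued.v y = WithZero.exp (-1 : ℤ) := by
    have e : (g : Matrix (Fin 2) (Fin 2) (v.adicCompletion K)).det
        = (k₁ : Matrix (Fin 2) (Fin 2) (v.adicCompletion K)).det * (x * y)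
          * (k₂ : Matrix (Fin 2) (Fin 2) (v.adicCompletion K)).det := by
      rw [hgeq, Matrix.GeneralLinearGroup.coe_mul, Matrix.GeneralLinearGroup.coe_mul,
        Matrix.det_mul, Matrix.det_mul, coe_diag129_756, Matrix.det_fin_two_of]
      ring
    rw [e, map_mul, map_mul, map_mul, valued_det_maxCpt756 v h1, valued_det_maxCpt756 v h2,
      one_mul, mul_one] at hdet
    exact hdet
  have hx1 : Valued.v x = 1 := by
    by_contra hne
    have hlt : Valued.v x < 1 := lt_of_le_of_ne hvx hne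
    have h3 : Valued.v x ≤ WithZero.exp (-1 : ℤ) := withZero_le_exp_neg_one129 hlt
    have h4 : Valued.v y ≤ WithZero.exp (-1 : ℤ) := hvyx.trans h3
    have h5 : Valued.v x * Valued.v y ≤ WithZero.exp (-1 : ℤ) * WithZero.exp (-1 : ℤ) :=
      mul_le_mul' h3 h4
    rw [hdet', ← WithZero.exp_add, WithZero.exp_le_exp] at h5
    omega
  have hy1 : Valued.v y = WithZero.exp (-1 : ℤ) := by rw [hx1, one_mul] at hdet'; exact hdet'
  have hyϖ0 : y / ϖ ≠ 0 := div_ne_zero hy hϖ0
  have hyϖ : Valued.v (y / ϖ) = 1 := by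
    rw [map_div₀, hy1, hϖ]
    exact div_self WithZero.exp_ne_zero
  refine ⟨k₁ * diag129 x (y / ϖ) hx hyϖ0, k₂,
    isMaxCpt129_mul h1 (isMaxCpt_diag_unit756 v hx hyϖ0 hx1 hyϖ), h2, ?_⟩
  have e : diag129 x y hx hy
      = diag129 x (y / ϖ) hx hyϖ0 * diag129 1 ϖ one_ne_zero hϖ0 := by
    rw [diag129_mul756]
    exact diag129_congr756 _ _ _ _ (mul_one x).symm (div_mul_cancel₀ y hϖ0).symm
  rw [hgeq, e]
  group

/-! ## 2. The elements of the Hecke coset systems -/

/-- `g ∈ GL₂(𝔸_K)` is supported at `v`, integral at `v`, with determinant a uniformiser at `v`. -/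
def IsHeckeAt756 (v : HeightOneSpectrum (𝓞 K)) (g : G K) : Prop :=
  IsLocalAtFin v g ∧ IsIntegralAt v g ∧
    Valued.v (finComp v g).det = WithZero.exp (-1 : ℤ)

variable {v}

theorem isHeckeAt_of_mem756 {H : Finset (G K)} (hH : IsHeckeCosetSystem v H) {h : G K}
    (hh : h ∈ H) : IsHeckeAt756 v h :=
  hH.2.1 h hh

theorem isLocalMaxCptAt_locFin756 {k : GL (Fin 2) (v.adicCompletion K)}
    (hk : IsMaxCpt129 (v.adicCompletionIntegers K) k) :
    IsLocalMaxCptAt129 v (locFin129 v k) := by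
  refine ⟨isLocalAtFin_locFin129 v k, ?_, ?_⟩
  · rw [← isInt129_finCompHom_iff, finCompHom129_locFin129]
    exact hk.1
  · rw [← map_inv, ← isInt129_finCompHom_iff, finCompHom129_locFin129]
    exact hk.2

/-- Two Hecke elements at `v` differ by elements of `GL₂(𝒪_v)` on both sides. -/
theorem exists_maxCpt_mul756 {g g' : G K} (hg : IsHeckeAt756 v g) (hg' : IsHeckeAt756 v g') :
    ∃ u₁ u₂ : G K, IsLocalMaxCptAt129 v u₁ ∧ IsLocalMaxCptAt129 v u₂ ∧ g' = u₁ * g * u₂ := by
  obtain ⟨ϖ, hϖ⟩ := exists_unif129 (K := K) v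
  obtain ⟨k₁, k₂, h1, h2, e⟩ := hecke_doubleCoset756 v (g := finCompHom129 v g)
    ((isInt129_finCompHom_iff v g).mpr hg.2.1) hg.2.2 hϖ
  obtain ⟨k₁', k₂', h1', h2', e'⟩ := hecke_doubleCoset756 v (g := finCompHom129 v g')
    ((isInt129_finCompHom_iff v g').mpr hg'.2.1) hg'.2.2 hϖ
  refine ⟨locFin129 v (k₁' * k₁⁻¹), locFin129 v (k₂⁻¹ * k₂'),
    isLocalMaxCptAt_locFin756 (isMaxCpt129_mul h1' (isMaxCpt129_inv h1)),
    isLocalMaxCptAt_locFin756 (isMaxCpt129_mul (isMaxCpt129_inv h2) h2'), ?_⟩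
  have eg : g = locFin129 v (finCompHom129 v g) := eq_locFin129_of_isLocalAtFin hg.1
  have eg' : g' = locFin129 v (finCompHom129 v g') := eq_locFin129_of_isLocalAtFin hg'.1
  rw [eg', eg, ← map_mul, ← map_mul]
  congr 1
  rw [e', e]
  group

/-- If `h` is a Hecke element at `v` and `z` a scalar uniformiser at `v`, then `h⁻¹ z` is a
Hecke element at `v`. -/
theorem isHeckeAt_inv_mul756 {h z : G K} (hh : IsHeckeAt756 v h)
    (hz : IsScalarUniformizerAt v z) : IsHeckeAt756 v (h⁻¹ * z) := by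
  obtain ⟨hzloc, c, hc, hzc⟩ := hz
  obtain ⟨hloc, hint, hdet⟩ := hh
  have hz' : ((finCompHom129 v z : GL (Fin 2) (v.adicCompletion K)) :
      Matrix (Fin 2) (Fin 2) (v.adicCompletion K)) = Matrix.diagonal (fun _ => c) := hzc
  have hdet' : Valued.v ((finCompHom129 v h : GL (Fin 2) (v.adicCompletion K)) :
      Matrix (Fin 2) (Fin 2) (v.adicCompletion K)).det = WithZero.exp (-1 : ℤ) := hdet
  have hint' : IsInt129 (v.adicCompletionIntegers K) (finCompHom129 v h) :=
    (isInt129_finCompHom_iff v h).mpr hint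
  have hcd : Valued.v (c / ((finCompHom129 v h : GL (Fin 2) (v.adicCompletion K)) :
      Matrix (Fin 2) (Fin 2) (v.adicCompletion K)).det) = 1 := by
    rw [map_div₀, hc, hdet']
    exact div_self WithZero.exp_ne_zero
  refine ⟨isLocalAtFin_mul129 (isLocalAtFin_inv129 hloc) hzloc, ?_, ?_⟩
  · rw [← isInt129_finCompHom_iff, map_mul, map_inv]
    intro i j
    rw [inv_mul_apply129, hz', Matrix.mul_diagonal, mul_div_assoc, mem_adicCompletionIntegers,
      map_mul, hcd, mul_one, Matrix.adjugate_fin_two]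
    fin_cases i <;> fin_cases j
    · simpa [mem_adicCompletionIntegers] using hint' 1 1
    · simpa [mem_adicCompletionIntegers] using hint' 0 1
    · simpa [mem_adicCompletionIntegers] using hint' 1 0
    · simpa [mem_adicCompletionIntegers] using hint' 0 0
  · have e : finComp v (h⁻¹ * z)
        = ((finCompHom129 v h)⁻¹ * finCompHom129 v z : GL (Fin 2) (v.adicCompletion K)) := by
      rw [← map_inv, ← map_mul]; rfl
    rw [e, Matrix.GeneralLinearGroup.coe_mul, Matrix.det_mul, hz', Matrix.det_diagonal,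
      Fin.prod_univ_two, Matrix.coe_units_inv, Matrix.det_nonsing_inv, Ring.inverse_eq_inv',
      map_mul, map_inv₀, map_mul, hc, hdet', ← WithZero.exp_add, ← WithZero.exp_neg,
      ← WithZero.exp_add]
    norm_num

/-- **A bi-`GL₂(𝒪_v)`-invariant function takes the same value at `h` and at `h⁻¹ z`.** -/
theorem biInv_eq756 {M : Type*} (B : G K → M)
    (hl : ∀ u : G K, IsLocalMaxCptAt129 v u → ∀ g : G K, B (u * g) = B g)
    (hr : ∀ u : G K, IsLocalMaxCptAt129 v u → ∀ g : G K, B (g * u) = B g)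
    {h z : G K} (hh : IsHeckeAt756 v h) (hz : IsScalarUniformizerAt v z) :
    B (h⁻¹ * z) = B h := by
  obtain ⟨u₁, u₂, h1, h2, e⟩ := exists_maxCpt_mul756 hh (isHeckeAt_inv_mul756 hh hz)
  rw [e, hr u₂ h2, hl u₁ h1]

end Fermat.Agent.LT.T2.H756

end

end
-- ===== PACK-END LT/T2/H756/HeckeLocal.lean

-- ===== PACK-BEGIN LT/T2/H944/CommHeckeHeckeT.lean
section








/-!
# Row LT, tower T2, sub-leaf T2.27.10 `SubCommHeckeHeckeT291`: CLOSED, unconditional (helper944)

OFF-MAIN.  Sub-spec: `LT/T2/H291/OpsSpecT.lean` (helper291, sha256 c8359c85, byte-identical copy)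
on `LT/T2/Spec.lean` (v3, sha256 b934629a), `LT/T2/SpecTau.lean` (sha256 4d2b0fc2),
`LT/T1/Spec.lean` (v1, sha256 e8ae48d6), `LT/H556/A0.lean` (sha256 66d3374a).  Assets: `LT/H129/*`
of helper129 (byte-identical copies; `heckeSum_indep129`, `G_ext129`,
`inLevelGroup_of_localMaxCpt129`).  Nothing is assumed; in particular `CtxT291 K 𝔫 τ` is not used
and the type `τ` and the ray generator `r` play no role: only the right invariance of the
functions of the class under the level group `U(𝔫)` (`IsCuspT.aut.level_inv`) enters.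

This is the `T`-form of the sub-leaf T2.07.10 (`SubCommHeckeHecke429`, closed by helper75 in
`LT/T2/H75/CommHeckeHecke.lean`): SAME proof.  The lemmas of helper75 are restated here (suffix
`944`) so that this file does not import the sub-spec `LT/T2/H429/OpsSpec.lean` of `T2.Leaf07`
(which lives on an earlier version of `LT/T2/Spec.lean`).

* `mul_comm_of_isLocalAtFin_ne944` : elements supported at two DIFFERENT finite places commute;
* `isHeckeCosetSystem_image944` : the left translate `u H` of a Hecke coset system at `v` by an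
  element `u` of `GL₂(𝒪_v)` supported at `v` is a Hecke coset system at `v`;
* `heckeSum_localInv944` : hence the Hecke sum of a function which is right invariant under the
  elements of `GL₂(𝒪_v)` supported at `v` is again right invariant under these elements;
* `heckeSum_comm_same944` : same place, two coset systems `H`, `H'`: `T_H T_H' φ = T_H' T_H φ`
  (both are `T_H T_H φ`, by the independence of the coset system `heckeSum_indep129`);
* `heckeSum_comm_ne944` : different places: `Finset.sum_comm` and the commutation of the elements;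
* `heckeSum_comm_level944` : two Hecke sums at places prime to the level commute on the
  functions which are right invariant under `U(𝔫)`;
* `subCommHeckeHeckeT944 : SubCommHeckeHeckeT291 K` (VERBATIM, registry row T2.27.10).
-/

set_option autoImplicit false

open IsDedekindDomain NumberField IsDedekindDomain.HeightOneSpectrum
open Fermat.Agent.LT.H556.A0
open Fermat.Agent.LT.T2
open Fermat.Agent.LT.T2.H291
open Fermat.Agent.LT.H129

noncomputable section

namespace Fermat.Agent.LT.T2.H944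

variable {K : Type} [Field K] [NumberField K]

/-- Elements of `G K` supported at two different finite places commute. -/
theorem mul_comm_of_isLocalAtFin_ne944 {v v' : HeightOneSpectrum (𝓞 K)} (hvv' : v ≠ v')
    {h h' : G K} (hh : IsLocalAtFin v h) (hh' : IsLocalAtFin v' h') : h * h' = h' * h := by
  rw [isLocalAtFin_iff129] at hh hh'
  apply G_ext129
  · intro w
    rw [map_mul, map_mul, hh.1 w, hh'.1 w]
  · intro u
    rw [map_mul, map_mul]
    by_cases hu : u = v
    · have e : finCompHom129 u h' = 1 := hh'.2 u (fun e => hvv' (hu.symm.trans e))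
      rw [e, mul_one, one_mul]
    · have e : finCompHom129 u h = 1 := hh.2 u hu
      rw [e, mul_one, one_mul]

/-- The determinant at `v` of an element of `GL₂(𝒪_v)` is a unit. -/
theorem valued_det_eq_one944 {v : HeightOneSpectrum (𝓞 K)} {u : G K}
    (hu : IsLocalMaxCptAt129 v u) : Valued.v (finComp v u).det = 1 := by
  obtain ⟨-, hi, hi'⟩ := hu
  have h1 : Valued.v (finComp v u).det ≤ 1 := by
    have := det_mem_of_isInt129 (O := v.adicCompletionIntegers K) (g := finCompHom129 v u) hi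
    rw [coe_finCompHom129] at this
    exact (mem_adicCompletionIntegers (K := K) (v := v)).mp this
  have h2 : Valued.v (finComp v u⁻¹).det ≤ 1 := by
    have := det_mem_of_isInt129 (O := v.adicCompletionIntegers K) (g := finCompHom129 v u⁻¹) hi'
    rw [coe_finCompHom129] at this
    exact (mem_adicCompletionIntegers (K := K) (v := v)).mp this
  have h3 : Valued.v (finComp v u).det * Valued.v (finComp v u⁻¹).det = 1 := by
    rw [← map_mul, ← Matrix.det_mul, ← coe_finCompHom129, ← coe_finCompHom129,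
      ← Matrix.GeneralLinearGroup.coe_mul, ← map_mul, mul_inv_cancel, map_one]
    simp
  refine le_antisymm h1 ?_
  by_contra hlt
  rw [not_le] at hlt
  have h4 : Valued.v (finComp v u).det * Valued.v (finComp v u⁻¹).det < 1 := by
    calc Valued.v (finComp v u).det * Valued.v (finComp v u⁻¹).det
        ≤ Valued.v (finComp v u).det * 1 := mul_le_mul_right h2 _
      _ = Valued.v (finComp v u).det := mul_one _
      _ < 1 := hlt
  rw [h3] at h4
  exact lt_irrefl _ h4

/-- The left translate of a Hecke coset system at `v` by an element of `GL₂(𝒪_v)` supported at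
`v` is a Hecke coset system at `v`. -/
theorem isHeckeCosetSystem_image944 [DecidableEq (G K)] {v : HeightOneSpectrum (𝓞 K)}
    {H : Finset (G K)} (hH : IsHeckeCosetSystem v H) {u : G K} (hu : IsLocalMaxCptAt129 v u) :
    IsHeckeCosetSystem v (H.image (fun h => u * h)) := by
  obtain ⟨hcard, hmem, hne⟩ := hH
  refine ⟨?_, ?_, ?_⟩
  · rw [Finset.card_image_of_injective _ (mul_right_injective u), hcard]
  · intro x hx
    obtain ⟨h, hh, rfl⟩ := Finset.mem_image.mp hx
    obtain ⟨hl, hi, hd⟩ := hmem h hh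
    refine ⟨isLocalAtFin_mul129 hu.1 hl, ?_, ?_⟩
    · have := isInt129_mul (O := v.adicCompletionIntegers K)
        (g := finCompHom129 v u) (h := finCompHom129 v h) hu.2.1 hi
      rw [← map_mul] at this
      exact this
    · have e : finComp v (u * h) = finComp v u * finComp v h := by
        rw [← coe_finCompHom129, map_mul, Matrix.GeneralLinearGroup.coe_mul,
          coe_finCompHom129, coe_finCompHom129]
      rw [e, Matrix.det_mul, map_mul, valued_det_eq_one944 hu, one_mul, hd]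
  · intro x hx y hy hxy
    obtain ⟨h, hh, rfl⟩ := Finset.mem_image.mp hx
    obtain ⟨h', hh', rfl⟩ := Finset.mem_image.mp hy
    have e : (u * h)⁻¹ * (u * h') = h⁻¹ * h' := by group
    rw [e]
    exact hne h hh h' hh' (fun e' => hxy (by rw [e']))

/-- The Hecke sum of a function which is right invariant under the elements of `GL₂(𝒪_v)`
supported at `v` is right invariant under these elements. -/
theorem heckeSum_localInv944 {v : HeightOneSpectrum (𝓞 K)} {H : Finset (G K)}
    (hH : IsHeckeCosetSystem v H) {M : Type*} [AddCommMonoid M] (φ : G K → M)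
    (hφ : ∀ u : G K, IsLocalMaxCptAt129 v u → ∀ g : G K, φ (g * u) = φ g)
    (u : G K) (hu : IsLocalMaxCptAt129 v u) (g : G K) :
    ∑ h ∈ H, φ (g * u * h) = ∑ h ∈ H, φ (g * h) := by
  classical
  have h1 := heckeSum_indep129 (isHeckeCosetSystem_image944 hH hu) hH φ hφ g
  rw [Finset.sum_image (fun a _ b _ e => mul_right_injective u e)] at h1
  rw [← h1]
  exact Finset.sum_congr rfl (fun h _ => by rw [mul_assoc])

/-- Same place, two coset systems: the Hecke sums commute on the functions which are right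
invariant under the elements of `GL₂(𝒪_v)` supported at `v`. -/
theorem heckeSum_comm_same944 {v : HeightOneSpectrum (𝓞 K)} {H H' : Finset (G K)}
    (hH : IsHeckeCosetSystem v H) (hH' : IsHeckeCosetSystem v H') (φ : G K → ℂ)
    (hφ : ∀ u : G K, IsLocalMaxCptAt129 v u → ∀ g : G K, φ (g * u) = φ g) :
    heckeSum H (heckeSum H' φ) = heckeSum H' (heckeSum H φ) := by
  have e : heckeSum H' φ = heckeSum H φ := by
    funext g
    exact heckeSum_indep129 hH' hH φ hφ g
  rw [e]
  funext g
  exact heckeSum_indep129 hH hH' (heckeSum H φ)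
    (fun u hu g => heckeSum_localInv944 hH φ hφ u hu g) g

/-- Different places: the Hecke sums commute on all functions. -/
theorem heckeSum_comm_ne944 {v v' : HeightOneSpectrum (𝓞 K)} (hvv' : v ≠ v')
    {H H' : Finset (G K)} (hH : IsHeckeCosetSystem v H) (hH' : IsHeckeCosetSystem v' H')
    (φ : G K → ℂ) : heckeSum H (heckeSum H' φ) = heckeSum H' (heckeSum H φ) := by
  funext g
  show ∑ h ∈ H, ∑ h' ∈ H', φ (g * h * h') = ∑ h' ∈ H', ∑ h ∈ H, φ (g * h' * h)
  rw [Finset.sum_comm]
  refine Finset.sum_congr rfl (fun h' hh' => Finset.sum_congr rfl (fun h hh => ?_))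
  rw [mul_assoc, mul_assoc,
    mul_comm_of_isLocalAtFin_ne944 hvv' (hH.2.1 h hh).1 (hH'.2.1 h' hh').1]

/-- Two Hecke sums at places prime to the level commute on the functions which are right
invariant under the level group `U(𝔫)`. -/
theorem heckeSum_comm_level944 {𝔫 : Ideal (𝓞 K)} {v v' : HeightOneSpectrum (𝓞 K)}
    (hv : ¬ v.asIdeal ∣ 𝔫) {H H' : Finset (G K)}
    (hH : IsHeckeCosetSystem v H) (hH' : IsHeckeCosetSystem v' H') (φ : G K → ℂ)
    (hφ : ∀ u : G K, InLevelGroup 𝔫 u → ∀ g : G K, φ (g * u) = φ g) :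
    heckeSum H (heckeSum H' φ) = heckeSum H' (heckeSum H φ) := by
  by_cases hvv' : v = v'
  · subst hvv'
    exact heckeSum_comm_same944 hH hH' φ
      (fun u hu => hφ u (inLevelGroup_of_localMaxCpt129 hv hu))
  · exact heckeSum_comm_ne944 hvv' hH hH' φ

/-- **T2.27.10** (`SubCommHeckeHeckeT291`, VERBATIM): two Hecke sums commute on the cusp
functions of the class `(𝔫, τ, r)`.  Unconditional. -/
theorem subCommHeckeHeckeT944 (K : Type) [Field K] [NumberField K] :
    SubCommHeckeHeckeT291 K := by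
  intro 𝔫 τ _ R v hv H hH v' _ H' hH' φ hφ
  exact heckeSum_comm_level944 hv hH hH' φ hφ.aut.level_inv

end Fermat.Agent.LT.T2.H944

end

end
-- ===== PACK-END LT/T2/H944/CommHeckeHeckeT.lean

-- ===== PACK-BEGIN LT/T2/H271/CirclePresT.lean
section





/-!
# Row LT, tower T2, sub-leaf T2.27.13 `SubCirclePresT291` (helper271)

OFF-MAIN.  The `τ`-twisted circle means at a real place preserve the cusp functions of the class
`(𝔫, τ, r)`: `subCirclePresT271 K : H291.SubCirclePresT291 K`, exact type of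
`LT/T2/H291/OpsSpecT.lean` (helper291@22c6ecc98, sha256 c8359c85).  `T`-form of the proof of
helper621 (`LT/T2/H621/CirclePres.lean`, T2.07.13), with the type `τ` and the ray generator `r`.

* continuity: parametric interval integral of a jointly continuous function (`k` is continuous by
  `locCont472`, `τ` is continuous on `SO(2)`);
* boundedness: `‖τ(k_θ)‖ = 1`;
* invariance under `U(𝔫)` and under the compact groups at the other places (with the type): the
  elements commute with `k_θ` and `a`;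
* invariance under the ray generator: `r` is central;
* the type under `SO(2)` at the place of the mean: `k' = k_{θ₀}`, `k_{θ₀} k_θ = k_{θ₀ + θ}`,
  `τ` is multiplicative and `θ ↦ τ(k_θ)⁻¹ φ(g k_θ a)` is `2π`-periodic (`k_{θ + 2π} = k_θ c`,
  `c = -1 ∈ SO(2)` central at the place);
* cuspidality: Fubini on `D × (0, 2π]` (`μ D < ∞` by `T1.AddFundDomC`).
-/

set_option autoImplicit false
set_option linter.unusedSectionVars false
set_option linter.style.haveILetI false

open IsDedekindDomain NumberField MeasureTheory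
open Fermat.Agent.LT.H556.A0
open Fermat.Agent.LT.T2 Fermat.Agent.LT.T2.H291 Fermat.Agent.LT.T2.H621
open scoped ComplexConjugate

noncomputable section

namespace Fermat.Agent.LT.T2.H271

open NumberField.InfinitePlace

variable {K : Type} [Field K] [NumberField K]

/-! ## The rotations -/

theorem rot_unitary_aux271 (c s : ℂ) (hc : (starRingEnd ℂ) c = c) (hs : (starRingEnd ℂ) s = s)
    (h : c * c + s * s = 1) :
    (!![c, -s; s, c] : Matrix (Fin 2) (Fin 2) ℂ)
      * (!![c, -s; s, c] : Matrix (Fin 2) (Fin 2) ℂ).conjTranspose = 1 := by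
  ext i j
  fin_cases i <;> fin_cases j
  · simp only [Matrix.mul_apply, Fin.sum_univ_two, Matrix.conjTranspose_apply]
    simp [hc, hs]
    linear_combination h
  · simp only [Matrix.mul_apply, Fin.sum_univ_two, Matrix.conjTranspose_apply]
    simp [hc, hs]
    ring
  · simp only [Matrix.mul_apply, Fin.sum_univ_two, Matrix.conjTranspose_apply]
    simp [hc, hs]
    ring
  · simp only [Matrix.mul_apply, Fin.sum_univ_two, Matrix.conjTranspose_apply]
    simp [hc, hs]
    linear_combination h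

theorem rotY_mul_conjTranspose271 (θ : ℝ) : rotY θ * (rotY θ).conjTranspose = 1 := by
  have h := Real.cos_sq_add_sin_sq (θ / 2)
  have hc : ((Real.cos (θ / 2) : ℝ) : ℂ) * ((Real.cos (θ / 2) : ℝ) : ℂ)
      + ((Real.sin (θ / 2) : ℝ) : ℂ) * ((Real.sin (θ / 2) : ℝ) : ℂ) = 1 := by
    rw [← Complex.ofReal_mul, ← Complex.ofReal_mul, ← Complex.ofReal_add]
    have : Real.cos (θ / 2) * Real.cos (θ / 2) + Real.sin (θ / 2) * Real.sin (θ / 2) = 1 := by
      nlinarith [h]
    rw [this, Complex.ofReal_one]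
  exact rot_unitary_aux271 _ _ (Complex.conj_ofReal _) (Complex.conj_ofReal _) hc

theorem rotY_det271 (θ : ℝ) : (rotY θ).det = 1 := by
  have h := Real.cos_sq_add_sin_sq (θ / 2)
  have hc : ((Real.cos (θ / 2) : ℝ) : ℂ) * ((Real.cos (θ / 2) : ℝ) : ℂ)
      + ((Real.sin (θ / 2) : ℝ) : ℂ) * ((Real.sin (θ / 2) : ℝ) : ℂ) = 1 := by
    rw [← Complex.ofReal_mul, ← Complex.ofReal_mul, ← Complex.ofReal_add]
    have : Real.cos (θ / 2) * Real.cos (θ / 2) + Real.sin (θ / 2) * Real.sin (θ / 2) = 1 := by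
      nlinarith [h]
    rw [this, Complex.ofReal_one]
  rw [rotY, Matrix.det_fin_two_of]
  linear_combination hc

/-- The rotations are in `SO(2)`. -/
theorem isArchCompact_rot271 (w : InfinitePlace K) (k : ℝ → G K) (hk : IsRotAt w k) (θ : ℝ) :
    IsArchCompact w (k θ) := by
  refine ⟨(hk θ).1, ?_, fun _ => ?_⟩
  · rw [(hk θ).2]
    exact rotY_mul_conjTranspose271 θ
  · rw [(hk θ).2]
    exact rotY_det271 θ

theorem continuous_rot271 (w : InfinitePlace K) (k : ℝ → G K) (hk : IsRotAt w k) :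
    Continuous k := by
  refine Fermat.Agent.LT.T2.H472.locCont472 K w ℝ k (fun θ => (hk θ).1) fun i j => ?_
  have h : (fun θ => infComp w (k θ) i j) = fun θ => rotY θ i j :=
    funext fun θ => by rw [(hk θ).2]
  rw [h]
  exact continuous_rotY621.matrix_elem i j

theorem rot_add271 (w : InfinitePlace K) (k : ℝ → G K) (hk : IsRotAt w k) (θ₀ θ : ℝ) :
    k θ₀ * k θ = k (θ₀ + θ) := by
  refine eq_of_local621 w (isLocalAtInf_mul621' _ _ _ (hk θ₀).1 (hk θ).1) (hk _).1 ?_
  rw [infComp_mul621', (hk θ₀).2, (hk θ).2, (hk (θ₀ + θ)).2, rotY_add621]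

/-- An element of `SO(2)` at the real place `w` is a rotation. -/
theorem exists_rot271 (w : InfinitePlace K) (hw : w.IsReal) (k : ℝ → G K) (hk : IsRotAt w k)
    (k' : G K) (hk' : IsArchCompact w k') : ∃ θ₀ : ℝ, k' = k θ₀ := by
  obtain ⟨θ₀, hθ₀⟩ := exists_rotY621 (infComp w k') (infComp_im621 w hw k') hk'.2.1 (hk'.2.2 hw)
  refine ⟨θ₀, eq_of_local621 w hk'.1 (hk θ₀).1 ?_⟩
  rw [hθ₀, (hk θ₀).2]

/-! ## The type -/

theorem tau_ne_zero271 {τ : G K → ℂ} (hτ : IsKType τ) (w : InfinitePlace K) (k : G K)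
    (hk : IsArchCompact w k) : τ k ≠ 0 := by
  intro h
  have h1 := hτ.norm_one w k hk
  rw [h, norm_zero] at h1
  exact zero_ne_one h1

theorem continuous_tau_rot271 {τ : G K → ℂ} (hτ : IsKType τ) (w : InfinitePlace K)
    (k : ℝ → G K) (hk : IsRotAt w k) : Continuous fun θ => (τ (k θ))⁻¹ := by
  have h1 : Continuous fun θ => τ (k θ) :=
    (hτ.cont w).comp_continuous (continuous_rot271 w k hk) fun θ => isArchCompact_rot271 w k hk θ
  exact h1.inv₀ fun θ => tau_ne_zero271 hτ w (k θ) (isArchCompact_rot271 w k hk θ)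

theorem norm_tau_inv271 {τ : G K → ℂ} (hτ : IsKType τ) (w : InfinitePlace K) (k : G K)
    (hk : IsArchCompact w k) : ‖(τ k)⁻¹‖ = 1 := by
  rw [norm_inv, hτ.norm_one w k hk, inv_one]

/-! ## The ray generator is central -/

theorem rayGen_central271 {r : G K} (hr : IsRayGen r) (y : G K) : r * y = y * r := by
  obtain ⟨hfin, t, -, -, hinf⟩ := hr
  refine commute_of_comp621 (fun w => ?_) fun v => ?_
  · rw [hinf w]
    ext i j
    simp [Matrix.diagonal_mul, Matrix.mul_diagonal, mul_comm]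
  · have h : finComp v r = 1 := hfin v
    rw [h, one_mul, mul_one]

/-! ## Periodicity -/

/-- `θ ↦ τ(k_θ)⁻¹ φ(g k_θ a)` is `2π`-periodic. -/
theorem periodic_circleT271 {τ : G K → ℂ} (hτ : IsKType τ) (φ : G K → ℂ)
    (hinv : ∀ (w : InfinitePlace K) (k : G K), IsArchCompact w k →
      ∀ g : G K, φ (g * k) = τ k * φ g)
    (w : InfinitePlace K) (t : ℝ) (k : ℝ → G K) (a : G K) (hk : IsRotAt w k)
    (ha : IsTorusAt w t a) (g : G K) :
    Function.Periodic (fun θ => (τ (k θ))⁻¹ * φ (g * k θ * a)) (2 * Real.pi) := by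
  intro θ
  show (τ (k (θ + 2 * Real.pi)))⁻¹ * φ (g * k (θ + 2 * Real.pi) * a)
    = (τ (k θ))⁻¹ * φ (g * k θ * a)
  set c : G K := (k θ)⁻¹ * k (θ + 2 * Real.pi) with hc
  have hcloc : IsLocalAtInf w c :=
    isLocalAtInf_mul621' _ _ _ (isLocalAtInf_inv621' _ _ (hk θ).1) (hk _).1
  have hccomp : infComp w c = -1 := by
    rw [hc, infComp_mul621', (hk (θ + 2 * Real.pi)).2, rotY_add_two_pi621, Matrix.mul_neg,
      ← (hk θ).2, infComp_inv_mul621']
  have hcK : IsArchCompact w c := isArchCompact_neg_one621 w c hcloc hccomp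
  have hkk : k (θ + 2 * Real.pi) = k θ * c := by
    rw [hc, mul_inv_cancel_left]
  have hcd : infComp w c = Matrix.diagonal (fun _ => (-1 : ℂ)) := by
    rw [hccomp]
    ext i j
    fin_cases i <;> fin_cases j <;> simp
  have hca : c * a = a * c := commute_of_scalar621 w hcloc ha.1 (-1) hcd
  have hτc : τ c ≠ 0 := tau_ne_zero271 hτ w c hcK
  have hτk : τ (k θ) ≠ 0 := tau_ne_zero271 hτ w (k θ) (isArchCompact_rot271 w k hk θ)
  have e1 : g * (k θ * c) * a = g * k θ * a * c := by
    rw [mul_assoc g (k θ * c) a, mul_assoc (k θ) c a, hca]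
    simp only [mul_assoc]
  rw [hkk, hτ.mul w (k θ) c (isArchCompact_rot271 w k hk θ) hcK, e1, hinv w c hcK]
  field_simp

/-! ## The sub-leaf -/

/-- **T2.27.13 `SubCirclePresT291`.** -/
theorem subCirclePresT271 (K : Type) [Field K] [NumberField K] : SubCirclePresT291 K := by
  intro 𝔫 τ c R w hw t _ k a hk ha φ hφ
  have hτ : IsKType τ := c.kt
  have hkc : Continuous k := continuous_rot271 w k hk
  have hτc : Continuous fun θ => (τ (k θ))⁻¹ := continuous_tau_rot271 hτ w k hk
  have hkK : ∀ θ, IsArchCompact w (k θ) := isArchCompact_rot271 w k hk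
  have hper := periodic_circleT271 hτ φ hφ.aut.arch_compact w t k a hk ha
  refine ⟨⟨?_, ?_, ?_, ?_, ?_, ?_⟩, ?_⟩
  · -- continuity
    have hf : Continuous (Function.uncurry fun (g : G K) (θ : ℝ) =>
        (τ (k θ))⁻¹ * φ (g * k θ * a)) :=
      (hτc.comp continuous_snd).mul
        (hφ.aut.cont.comp ((continuous_fst.mul (hkc.comp continuous_snd)).mul continuous_const))
    exact intervalIntegral.continuous_parametric_intervalIntegral_of_continuous' hf 0
      (2 * Real.pi)
  · -- boundedness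
    obtain ⟨C, hC⟩ := hφ.aut.bdd
    refine ⟨C * |2 * Real.pi - 0|, fun g => ?_⟩
    refine intervalIntegral.norm_integral_le_of_norm_le_const fun θ _ => ?_
    rw [norm_mul, norm_tau_inv271 hτ w (k θ) (hkK θ), one_mul]
    exact hC _
  · -- left invariance
    intro γ g
    show (∫ θ in (0 : ℝ)..(2 * Real.pi), (τ (k θ))⁻¹ *
        φ (Matrix.GeneralLinearGroup.map (algebraMap K (Adl K)) γ * g * k θ * a))
      = ∫ θ in (0 : ℝ)..(2 * Real.pi), (τ (k θ))⁻¹ * φ (g * k θ * a)
    congr 1
    funext θ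
    rw [mul_assoc _ g, mul_assoc _ (g * k θ)]
    rw [hφ.aut.left_inv γ (g * k θ * a)]
  · -- level
    intro u hu g
    show (∫ θ in (0 : ℝ)..(2 * Real.pi), (τ (k θ))⁻¹ * φ (g * u * k θ * a))
      = ∫ θ in (0 : ℝ)..(2 * Real.pi), (τ (k θ))⁻¹ * φ (g * k θ * a)
    congr 1
    funext θ
    have e : g * u * k θ * a = g * k θ * a * u := by
      rw [mul_assoc g u, commute_of_trivInf621 w hu.1 (hk θ).1, mul_assoc g (k θ * u),
        mul_assoc (k θ) u, commute_of_trivInf621 w hu.1 ha.1]
      simp only [mul_assoc]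
    rw [e, hφ.aut.level_inv u hu]
  · -- the type under the compact groups
    intro w' k' hk' g
    show (∫ θ in (0 : ℝ)..(2 * Real.pi), (τ (k θ))⁻¹ * φ (g * k' * k θ * a))
      = τ k' * ∫ θ in (0 : ℝ)..(2 * Real.pi), (τ (k θ))⁻¹ * φ (g * k θ * a)
    by_cases h : w' = w
    · subst h
      obtain ⟨θ₀, rfl⟩ := exists_rot271 _ hw k hk k' hk'
      have e1 : (fun θ => (τ (k θ))⁻¹ * φ (g * k θ₀ * k θ * a))
          = fun θ => τ (k θ₀) * (fun θ' => (τ (k θ'))⁻¹ * φ (g * k θ' * a)) (θ₀ + θ) := by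
        funext θ
        show (τ (k θ))⁻¹ * φ (g * k θ₀ * k θ * a)
          = τ (k θ₀) * ((τ (k (θ₀ + θ)))⁻¹ * φ (g * k (θ₀ + θ) * a))
        have h0 : τ (k θ₀) ≠ 0 := tau_ne_zero271 hτ _ _ (hkK θ₀)
        have h1 : τ (k θ) ≠ 0 := tau_ne_zero271 hτ _ _ (hkK θ)
        rw [mul_assoc g (k θ₀), rot_add271 _ k hk θ₀ θ, ← rot_add271 _ k hk θ₀ θ,
          hτ.mul _ (k θ₀) (k θ) (hkK θ₀) (hkK θ)]
        field_simp
      rw [e1, intervalIntegral.integral_const_mul,
        intervalIntegral.integral_comp_add_left (fun θ' => (τ (k θ'))⁻¹ * φ (g * k θ' * a)) θ₀,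
        add_zero]
      have e2 := (hper g).intervalIntegral_add_eq θ₀ 0
      rw [zero_add] at e2
      rw [e2]
    · rw [← intervalIntegral.integral_const_mul]
      congr 1
      funext θ
      have e : g * k' * k θ * a = g * k θ * a * k' := by
        rw [mul_assoc g k', commute_of_ne621 h hk'.1 (hk θ).1, mul_assoc g (k θ * k'),
          mul_assoc (k θ) k', commute_of_ne621 h hk'.1 ha.1]
        simp only [mul_assoc]
      rw [e, hφ.aut.arch_compact w' k' hk']
      ring
  · -- the ray generator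
    intro g
    show (∫ θ in (0 : ℝ)..(2 * Real.pi), (τ (k θ))⁻¹ * φ (g * R.r * k θ * a))
      = ∫ θ in (0 : ℝ)..(2 * Real.pi), (τ (k θ))⁻¹ * φ (g * k θ * a)
    congr 1
    funext θ
    have e : g * R.r * k θ * a = g * k θ * a * R.r := by
      rw [mul_assoc g R.r, rayGen_central271 R.ray (k θ), mul_assoc g (k θ * R.r),
        mul_assoc (k θ) R.r, rayGen_central271 R.ray a]
      simp only [mul_assoc]
    rw [e, hφ.aut.ray]
  · -- cuspidality
    letI : MeasurableSpace (Adl K) := borel (Adl K)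
    haveI : BorelSpace (Adl K) := ⟨rfl⟩
    intro μ hμ D hD n hn g
    haveI := hμ
    haveI := countable_range621 K
    obtain ⟨D₀, -, hD₀, -, -, hfin⟩ := c.t1.addFundDom μ hμ
    have hD₀' : IsAddFundamentalDomain ((algebraMap K (Adl K)).toAddMonoidHom.range) D₀ μ := hD₀
    have hDfin : μ D < ⊤ := by
      rw [hD.measure_eq hD₀']
      exact hfin
    haveI : IsFiniteMeasure (μ.restrict D) := ⟨by rwa [Measure.restrict_apply_univ]⟩
    have hnc : Continuous n := continuous_unip621 n hn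
    set f : Adl K → ℝ → ℂ := fun x θ => (τ (k θ))⁻¹ * φ (n x * g * k θ * a) with hf
    have hfc : Continuous (Function.uncurry f) :=
      (hτc.comp continuous_snd).mul
        (hφ.aut.cont.comp
          ((((hnc.comp continuous_fst).mul continuous_const).mul
            (hkc.comp continuous_snd)).mul continuous_const))
    obtain ⟨C, hC⟩ := hφ.aut.bdd
    have hint : Integrable (Function.uncurry f)
        ((μ.restrict D).prod (volume.restrict (Set.Ioc (0 : ℝ) (2 * Real.pi)))) := by
      refine Integrable.mono' (g := fun _ => C) (integrable_const C) hfc.aestronglyMeasurable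
        (Filter.Eventually.of_forall fun p => ?_)
      show ‖(τ (k p.2))⁻¹ * φ (n p.1 * g * k p.2 * a)‖ ≤ C
      rw [norm_mul, norm_tau_inv271 hτ w (k p.2) (hkK p.2), one_mul]
      exact hC _
    have h1 : ∀ x : Adl K, circleMeanT τ k a φ (n x * g)
        = ∫ θ in Set.Ioc (0 : ℝ) (2 * Real.pi), f x θ := fun x =>
      intervalIntegral.integral_of_le (by positivity)
    show ∫ x in D, circleMeanT τ k a φ (n x * g) ∂μ = 0
    simp only [h1]
    rw [integral_integral_swap hint]
    have h2 : ∀ θ : ℝ, ∫ x in D, f x θ ∂μ = 0 := fun θ => by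
      have := hφ.cuspidal μ hμ D hD n hn (g * k θ * a)
      simp only [hf]
      rw [integral_const_mul]
      have e : (fun x => φ (n x * g * k θ * a)) = fun x => φ (n x * (g * k θ * a)) :=
        funext fun x => by simp only [mul_assoc]
      rw [e, this, mul_zero]
    simp only [h2, integral_zero]

end Fermat.Agent.LT.T2.H271

end

end
-- ===== PACK-END LT/T2/H271/CirclePresT.lean

-- ===== PACK-BEGIN LT/T2/H511/FDPartial.lean
section






/-!
# Row LT, tower T2, leaf T2.03a = `H386.LeafFD` (owner helper511): PARTIAL CLOSURE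

OFF-MAIN.  Three of the four sub-leaves are proved (rows 1224 helper729, 1226 helper988,
1227 helper793); `H386.LeafFD K` follows from the one open sub-leaf `LeafUnifSmooth K`
(row 1225, helper437).
-/

set_option autoImplicit false

open IsDedekindDomain NumberField
open Fermat.Agent.LT.H556.A0

namespace Fermat.Agent.LT.T2.H511

open Fermat.Agent.LT.T2 Fermat.Agent.LT.T2.H386

/-- **T2.03a from T2.03a.2 alone.** -/
theorem leafFD_of_us511 (K : Type) [Field K] [NumberField K] (hB : LeafUnifSmooth K) :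
    H386.LeafFD K :=
  leafFD_of_leaves511 (Fermat.Agent.LT.T2.H729.leafContr729 K) hB
    (Fermat.Agent.LT.T2.H988.leafConjAlg988 K) (Fermat.Agent.LT.T2.H793.leafCpt793 K)

end Fermat.Agent.LT.T2.H511

end
-- ===== PACK-END LT/T2/H511/FDPartial.lean

-- ===== PACK-BEGIN LT/T2/H429/Leaf07.lean
section







/-!
# Row LT, tower T2, leaf T2.07 (helper429): `T2.Leaf07` of Spec v3 from the sub-leaves

OFF-MAIN.  `T2/Spec.lean` v3 (sha256 b934629a): `Leaf07 K` concludes `OpsGood K 𝔫 ∧ OpsAdj K 𝔫`.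

* `opsAdj_of_sub429`: `OpsAdj` from `SubHeckeAdj429`, `SubMeanAdj429` and the unitarity of the
  right translations (`pair_shift_shift429`, from the KEY LEMMA `transl429`);
* `leaf07_of_sub429 : Sub429 K → T2.Leaf07 K`.
-/

set_option autoImplicit false

open IsDedekindDomain NumberField MeasureTheory
open Fermat.Agent.LT.H556.A0
open Fermat.Agent.LT.T2

noncomputable section

namespace Fermat.Agent.LT.T2.H429

variable {K : Type} [Field K] [NumberField K]

attribute [local instance] Fermat.Agent.LT.T2.borelG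

/-- `OpsAdj` from the sub-leaves. -/
theorem opsAdj_of_sub429 (hHA : SubHeckeAdj429 K) (hMA : SubMeanAdj429 K) {𝔫 : Ideal (𝓞 K)}
    (c : Ctx429 K 𝔫) : OpsAdj K 𝔫 := fun F =>
  ⟨fun _ _ z _ _ _ hφ hψ =>
      pair_shift_shift429 c.t1.adNorm c.t1.unimod F (cusp_isAut429 hφ) (cusp_isAut429 hψ) z,
    fun v hv H z hH hz φ ψ hφ hψ => hHA 𝔫 c F v hv H hH z hz φ ψ hφ hψ,
    fun w hw d hd Y hY φ ψ hφ hψ => (hMA 𝔫 c F).1 w hw d hd Y hY φ ψ hφ hψ,
    fun w hw t ht Y hY φ ψ hφ hψ => (hMA 𝔫 c F).2 w hw t ht Y hY φ ψ hφ hψ⟩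

/-- **THE LEAF `T2.07` (Spec v3) FROM ITS SUB-LEAVES.** -/
theorem leaf07_of_sub429 (S : Sub429 K) : Leaf07 K := fun hT1 𝔫 h𝔫 hP hC =>
  ⟨opsGood_of_sub429 S hT1 𝔫 h𝔫 hP hC,
    opsAdj_of_sub429 S.heckeAdj S.meanAdj ⟨hT1, h𝔫, hP, hC⟩⟩

end Fermat.Agent.LT.T2.H429

end

end
-- ===== PACK-END LT/T2/H429/Leaf07.lean

-- ===== PACK-BEGIN LT/T2/H560/LeafT09.lean
section






/-!
# Row LT, tower T2, leaf T2.29 `LeafT09` (assembly `⇒ CuspSpecT`, class of T5): PROOF (helper560)

OFF-MAIN.  `leafT09_560 K : T2.LeafT09 K` VERBATIM against `LT/T2/SpecTau.lean`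
(helper130@e2e090185, sha256 4d2b0fc2).  Imports: Mathlib, byte-identical copies of A0, T1/Spec,
T2/Spec (v3), T2/SpecTau, the assets `LT/T2/H886/CuspAlg.lean` (helper886) and
`LT/H129/HeckeLevel.lean` (helper129), and the generic core `LT/T2/H560/Core.lean`.

Route: the cusp functions of the class `(𝔫, τ, r)` form a pre-Hilbert space (`clsT560`);
`spectral560` (the abstract spectral theorem, hypothesis `AbstractSpectral`) gives an orthonormal
complete family of joint eigenfunctions of all `IsOpT`; the eigen-data are read off pointwise: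
Hecke eigenvalues from ONE coset system and ONE scalar uniformiser (`isHeckeEigenAt_of_one129`),
the means from the unique parametrisation of the sphere / circle, the central characters from the
central shifts; the unitarity relations from `OpsAdjT`; `bound_a` from the sup norm.
`T1.T1Out`, `ConvCuspT`, `𝔫 ≠ ⊥` and `IsKType τ` are not used.
-/

set_option autoImplicit false

open IsDedekindDomain NumberField MeasureTheory AutomorphicForm
open Fermat.Agent.LT.H556.A0 Fermat.Agent.LT.T2 Fermat.Agent.LT.T2.H886 Fermat.Agent.LT.H129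

noncomputable section

namespace Fermat.Agent.LT.T2.H560

variable {K : Type} [Field K] [NumberField K]

attribute [local instance] Fermat.Agent.LT.T2.borelG

/-! ## 1. The class of T5 is closed under linear combinations -/

theorem isCuspT_zero560 (𝔫 : Ideal (𝓞 K)) (τ : G K → ℂ) (r : G K) :
    IsCuspT 𝔫 τ r (fun _ => 0) where
  aut :=
    { cont := continuous_const
      bdd := ⟨0, fun _ => by simp⟩
      left_inv := fun _ _ => rfl
      level_inv := fun _ _ _ => rfl
      arch_compact := fun _ _ _ _ => by simp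
      ray := fun _ => rfl }
  cuspidal := isCuspidalFn_zero886

theorem isCuspT_add560 {𝔫 : Ideal (𝓞 K)} {τ : G K → ℂ} {r : G K} {φ ψ : G K → ℂ}
    (hφ : IsCuspT 𝔫 τ r φ) (hψ : IsCuspT 𝔫 τ r ψ) : IsCuspT 𝔫 τ r (fun g => φ g + ψ g) := by
  obtain ⟨C, hC⟩ := hφ.aut.bdd
  obtain ⟨C', hC'⟩ := hψ.aut.bdd
  refine ⟨⟨hφ.aut.cont.add hψ.aut.cont, ⟨C + C', fun g => ?_⟩, fun γ g => ?_, fun u hu g => ?_,
    fun w k hk g => ?_, fun g => ?_⟩,
    isCuspidalFn_add886 hφ.aut.cont hC hψ.aut.cont hC' hφ.cuspidal hψ.cuspidal⟩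
  · exact (norm_add_le _ _).trans (add_le_add (hC g) (hC' g))
  · show φ _ + ψ _ = φ g + ψ g
    rw [hφ.aut.left_inv, hψ.aut.left_inv]
  · show φ _ + ψ _ = φ g + ψ g
    rw [hφ.aut.level_inv u hu, hψ.aut.level_inv u hu]
  · show φ _ + ψ _ = τ k * (φ g + ψ g)
    rw [hφ.aut.arch_compact w k hk, hψ.aut.arch_compact w k hk, mul_add]
  · show φ _ + ψ _ = φ g + ψ g
    rw [hφ.aut.ray, hψ.aut.ray]

theorem isCuspT_smul560 {𝔫 : Ideal (𝓞 K)} {τ : G K → ℂ} {r : G K} (c : ℂ) {φ : G K → ℂ}
    (hφ : IsCuspT 𝔫 τ r φ) : IsCuspT 𝔫 τ r (fun g => c * φ g) := by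
  obtain ⟨C, hC⟩ := hφ.aut.bdd
  refine ⟨⟨continuous_const.mul hφ.aut.cont, ⟨‖c‖ * C, fun g => ?_⟩, fun γ g => ?_,
    fun u hu g => ?_, fun w k hk g => ?_, fun g => ?_⟩,
    isCuspidalFn_const_mul886 c hφ.cuspidal⟩
  · rw [norm_mul]
    exact mul_le_mul_of_nonneg_left (hC g) (norm_nonneg _)
  · show c * φ _ = c * φ g
    rw [hφ.aut.left_inv]
  · show c * φ _ = c * φ g
    rw [hφ.aut.level_inv u hu]
  · show c * φ _ = τ k * (c * φ g)
    rw [hφ.aut.arch_compact w k hk, mul_left_comm]
  · show c * φ _ = c * φ g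
    rw [hφ.aut.ray]

/-- The class of T5 as a `Cls560`. -/
def clsT560 (𝔫 : Ideal (𝓞 K)) (τ : G K → ℂ) (R : FrameR K) (hP : PairDefiniteT K 𝔫 τ) :
    Cls560 K where
  F := R.F
  P := IsCuspT 𝔫 τ R.r
  zero := isCuspT_zero560 𝔫 τ R.r
  add := fun hφ hψ => isCuspT_add560 hφ hψ
  smul := fun c _ hφ => isCuspT_smul560 c hφ
  cont := fun h => h.aut.cont
  bdd := fun h => h.aut.bdd
  definite := fun h h0 => (hP R _ h).2 h0

/-! ## 2. Elements supported at one infinite place -/

/-- An element supported at the infinite place `w` is determined by its matrix at `w`. -/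
theorem eq_of_localAtInf560 {w : InfinitePlace K} {g h : G K} (hg : IsLocalAtInf w g)
    (hh : IsLocalAtInf w h) (e : infComp w g = infComp w h) : g = h := by
  apply G_ext129
  · intro w'
    by_cases hw : w' = w
    · subst hw
      apply Units.ext
      apply Matrix.ext
      intro i j
      have h1 := congrFun (congrFun e i) j
      exact (InfinitePlace.Completion.extensionEmbedding w').injective h1
    · rw [(trivAtInf_iff129 w' g).1 (hg.1 w' hw), (trivAtInf_iff129 w' h).1 (hh.1 w' hw)]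
  · intro v
    rw [(trivAtFin_iff129 v g).1 (hg.2 v), (trivAtFin_iff129 v h).1 (hh.2 v)]

theorem isSphereAt_unique560 {w : InfinitePlace K} {d : ℝ} {Y Y' : ℝ → ℝ → G K}
    (hY : IsSphereAt w d Y) (hY' : IsSphereAt w d Y') : Y = Y' := by
  funext α β
  exact eq_of_localAtInf560 (hY α β).1 (hY' α β).1 ((hY α β).2.trans (hY' α β).2.symm)

theorem isRotAt_unique560 {w : InfinitePlace K} {k k' : ℝ → G K}
    (hk : IsRotAt w k) (hk' : IsRotAt w k') : k = k' := by
  funext θ
  exact eq_of_localAtInf560 (hk θ).1 (hk' θ).1 ((hk θ).2.trans (hk' θ).2.symm)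

theorem isTorusAt_unique560 {w : InfinitePlace K} {t : ℝ} {a a' : G K}
    (ha : IsTorusAt w t a) (ha' : IsTorusAt w t a') : a = a' :=
  eq_of_localAtInf560 ha.1 ha'.1 (ha.2.trans ha'.2.symm)

/-! ## 3. Eigenvalues of a function of norm one -/

section Eigen

variable (F : Frame K) {u : G K → ℂ}

/-- A function of norm one does not vanish identically. -/
theorem exists_ne_zero560 (hn : pair F u u = 1) : ∃ g : G K, u g ≠ 0 := by
  by_contra hcon
  have e : u = fun _ => 0 := funext fun g => by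
    by_contra h
    exact hcon ⟨g, h⟩
  rw [e] at hn
  unfold pair at hn
  simp at hn

/-- The eigenvalue of an isometry has absolute value one. -/
theorem norm_eq_one_of_isometry560 (hn : pair F u u = 1) {b : ℂ}
    (h : pair F (fun g => b * u g) (fun g => b * u g) = pair F u u) : ‖b‖ = 1 := by
  rw [pair_const_mul_left886, pair_const_mul_right886, hn, mul_one, Complex.mul_conj] at h
  have h1 : Complex.normSq b = 1 := by exact_mod_cast h
  rw [Complex.normSq_eq_norm_sq] at h1
  have h2 : ‖b‖ ^ 2 = 1 ^ 2 := by rw [h1, one_pow]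
  exact (pow_left_inj₀ (norm_nonneg _) zero_le_one two_ne_zero).1 h2

/-- The eigenvalue of a self-adjoint operator is real. -/
theorem im_eq_zero_of_selfAdjoint560 (hn : pair F u u = 1) {m : ℂ}
    (h : pair F (fun g => m * u g) u = pair F u (fun g => m * u g)) : m.im = 0 := by
  rw [pair_const_mul_left886, pair_const_mul_right886, hn, mul_one, mul_one] at h
  exact Complex.conj_eq_iff_im.1 h.symm

/-- `T_v* = S_v⁻¹ T_v` on an eigenfunction: `conj c = c · conj b`. -/
theorem conj_eq_of_heckeAdj560 (hn : pair F u u = 1) {b c : ℂ} (hb : ‖b‖ = 1)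
    (h : pair F (fun g => c * u g) u = pair F u (fun g => c * b⁻¹ * u g)) :
    (starRingEnd ℂ) c = c * (starRingEnd ℂ) b := by
  rw [pair_const_mul_left886, pair_const_mul_right886, hn, mul_one, mul_one] at h
  have hb0 : b ≠ 0 := by
    intro h0
    rw [h0, norm_zero] at hb
    exact zero_ne_one hb
  have hcb : (starRingEnd ℂ) b ≠ 0 := by
    intro h0
    exact hb0 ((map_eq_zero _).1 h0)
  rw [map_mul, map_inv₀] at h
  have h2 : c * (starRingEnd ℂ) b
      = (starRingEnd ℂ) c * ((starRingEnd ℂ) b)⁻¹ * (starRingEnd ℂ) b :=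
    congrArg (fun x => x * (starRingEnd ℂ) b) h
  rw [mul_assoc, inv_mul_cancel₀ hcb, mul_one] at h2
  exact h2.symm

/-- The eigenvalue of a sum of `N` right translations on a bounded function has absolute value
at most `N`. -/
theorem norm_le_card_of_eigen560 {C : ℝ} (hb : ∀ g : G K, ‖u g‖ ≤ C) {g₀ : G K}
    (h0 : u g₀ ≠ 0) (H : Finset (G K)) (c : ℂ)
    (hc : ∀ g : G K, ∑ h ∈ H, u (g * h) = c * u g) : ‖c‖ ≤ (H.card : ℝ) := by
  have hbdd : BddAbove (Set.range fun g : G K => ‖u g‖) := by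
    refine ⟨C, ?_⟩
    rintro _ ⟨g, rfl⟩
    exact hb g
  have hle : ∀ g : G K, ‖u g‖ ≤ ⨆ g : G K, ‖u g‖ := fun g => le_ciSup hbdd g
  have hMpos : 0 < ⨆ g : G K, ‖u g‖ := lt_of_lt_of_le (norm_pos_iff.2 h0) (hle g₀)
  have key : ∀ g : G K, ‖c‖ * ‖u g‖ ≤ (H.card : ℝ) * ⨆ g : G K, ‖u g‖ := by
    intro g
    rw [← norm_mul, ← hc g]
    calc ‖∑ h ∈ H, u (g * h)‖ ≤ ∑ h ∈ H, ‖u (g * h)‖ := norm_sum_le _ _
      _ ≤ ∑ _h ∈ H, ⨆ g : G K, ‖u g‖ := Finset.sum_le_sum (fun h _ => hle _)
      _ = (H.card : ℝ) * ⨆ g : G K, ‖u g‖ := by rw [Finset.sum_const, nsmul_eq_mul]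
  by_contra hcon
  rw [not_le] at hcon
  have hcpos : 0 < ‖c‖ := lt_of_le_of_lt (Nat.cast_nonneg _) hcon
  have h1 : (⨆ g : G K, ‖u g‖) ≤ (H.card : ℝ) * (⨆ g : G K, ‖u g‖) / ‖c‖ := by
    apply ciSup_le
    intro g
    rw [le_div_iff₀ hcpos, mul_comm]
    exact key g
  have h2 : (⨆ g : G K, ‖u g‖) * ‖c‖ ≤ (H.card : ℝ) * ⨆ g : G K, ‖u g‖ :=
    (le_div_iff₀ hcpos).1 h1
  nlinarith

end Eigen

/-! ## 4. The assembly -/

/-- **T2.29** `LeafT09`: the assembly for the class of T5. -/
theorem leafT09_560 (K : Type) [Field K] [NumberField K] : LeafT09 K := by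
  intro _hT1 hAbs 𝔫 τ _h𝔫 _hτ hP _hC hHS hReg hApp hOG hOA R
  classical
  obtain ⟨hpres, hlin, hbdd, hcomm, hadj⟩ := hOG R
  obtain ⟨hadjS, hadjC, hadjH, hadjM, hadjMR⟩ := hOA R
  obtain ⟨ι, u, hu0, hnorm0, horth0, heig, hpars0⟩ := spectral560 hAbs (clsT560 𝔫 τ R hP)
    (IsOpT 𝔫 τ R.F) (fun T => ∃ f, IsSphTestT 𝔫 τ f ∧ T = conv R.F f)
    (by
      rintro T ⟨f, hf, rfl⟩
      exact IsOpT.conv f hf)
    (fun T hT => ⟨hpres T hT, hlin T hT⟩)
    hbdd hcomm hadj
    (by
      rintro T ⟨f, hf, rfl⟩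
      exact hHS R f hf.test)
    (by
      rintro T ⟨f, hf, rfl⟩
      exact hReg R f hf.test)
    (by
      intro φ hφ ε hε
      obtain ⟨f, hf, _, h⟩ := hApp R φ hφ ε hε
      exact ⟨conv R.F f, ⟨f, hf, rfl⟩, h⟩)
  have hu : ∀ j, IsCuspT 𝔫 τ R.r (u j) := hu0
  have hnorm : ∀ j, pair R.F (u j) (u j) = 1 := hnorm0
  have horth : ∀ i j, i ≠ j → pair R.F (u i) (u j) = 0 := horth0
  have hpars : ∀ φ : G K → ℂ, IsCuspT 𝔫 τ R.r φ →
      HasSum (fun j => ‖pair R.F φ (u j)‖ ^ 2) (nsq R.F φ) := hpars0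
  choose ev hev using heig
  choose H0 hH0 using fun v : HeightOneSpectrum (𝓞 K) => exists_heckeCosetSystem129 (K := K) v
  choose z0 hz0 using fun v : HeightOneSpectrum (𝓞 K) => exists_scalarUniformizer129 (K := K) v
  -- the square root of the norm of a place
  have hq0 : ∀ v : HeightOneSpectrum (𝓞 K),
      0 < Real.sqrt (Ideal.absNorm v.asIdeal : ℝ) := by
    intro v
    apply Real.sqrt_pos.2
    have h1 : Ideal.absNorm v.asIdeal ≠ 0 := by
      rw [Ne, Ideal.absNorm_eq_zero_iff]
      exact v.ne_bot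
    exact_mod_cast Nat.pos_of_ne_zero h1
  have hqC : ∀ v : HeightOneSpectrum (𝓞 K),
      ((Real.sqrt (Ideal.absNorm v.asIdeal : ℝ) : ℝ) : ℂ) ≠ 0 := by
    intro v
    exact_mod_cast (hq0 v).ne'
  -- the eigenvalues
  have exA : ∀ (j : ι) (v : HeightOneSpectrum (𝓞 K)), ∃ x : ℂ, ∀ hv : ¬ v.asIdeal ∣ 𝔫,
      x = ev (heckeSum (H0 v)) (IsOpT.hecke v hv (H0 v) (hH0 v)) j
          / ((Real.sqrt (Ideal.absNorm v.asIdeal : ℝ) : ℝ) : ℂ) := by
    intro j v
    by_cases hv : ¬ v.asIdeal ∣ 𝔫
    · exact ⟨ev (heckeSum (H0 v)) (IsOpT.hecke v hv (H0 v) (hH0 v)) j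
          / ((Real.sqrt (Ideal.absNorm v.asIdeal : ℝ) : ℝ) : ℂ), fun _ => rfl⟩
    · exact ⟨0, fun hv' => absurd hv' hv⟩
  choose a ha using exA
  have exB : ∀ (j : ι) (v : HeightOneSpectrum (𝓞 K)), ∃ x : ℂ, ∀ hv : ¬ v.asIdeal ∣ 𝔫,
      x = ev (shift (z0 v)) (IsOpT.shift v hv (z0 v) (hz0 v)) j := by
    intro j v
    by_cases hv : ¬ v.asIdeal ∣ 𝔫
    · exact ⟨ev (shift (z0 v)) (IsOpT.shift v hv (z0 v) (hz0 v)) j, fun _ => rfl⟩
    · exact ⟨1, fun hv' => absurd hv' hv⟩
  choose b hb using exB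
  have exC : ∀ (j : ι) (z : G K), ∃ x : ℂ, ∀ (w : InfinitePlace K)
      (hz : IsArchPosScalar w z), x = ev (shift z) (IsOpT.central w z hz) j := by
    intro j z
    by_cases h : ∃ w : InfinitePlace K, IsArchPosScalar w z
    · obtain ⟨w₀, hz₀⟩ := h
      exact ⟨ev (shift z) (IsOpT.central w₀ z hz₀) j, fun _ _ => rfl⟩
    · exact ⟨1, fun w hz => absurd ⟨w, hz⟩ h⟩
  choose c hc0 using exC
  have hc : ∀ j (w : InfinitePlace K) (z : G K) (hz : IsArchPosScalar w z), c j z
        = ev (shift z) (IsOpT.central w z hz) j := fun j w z hz => hc0 j z w hz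
  have exM : ∀ (j : ι) (w : InfinitePlace K) (d : ℝ), ∃ x : ℂ,
      (∀ (hw : w.IsComplex) (hd : 0 < d) (Y : ℝ → ℝ → G K) (hY : IsSphereAt w d Y),
        x = ev (sphereMean Y) (IsOpT.sphere w hw d hd Y hY) j) ∧
      (∀ (hw : w.IsReal) (ht : 0 < d) (k : ℝ → G K) (y : G K)
        (hk : IsRotAt w k) (hy : IsTorusAt w d y),
        x = ev (circleMeanT τ k y) (IsOpT.circle w hw d ht k y hk hy) j) ∧
      ((w.IsComplex → ¬ ∃ Y : ℝ → ℝ → G K, IsSphereAt w d Y) →
        (w.IsReal → ¬ ∃ kx : (ℝ → G K) × G K, IsRotAt w kx.1 ∧ IsTorusAt w d kx.2) →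
        x = 0) := by
    intro j w d
    by_cases hd : 0 < d
    · by_cases hw : w.IsComplex
      · have hr : ¬ w.IsReal := fun hr => (InfinitePlace.not_isComplex_iff_isReal.2 hr) hw
        by_cases hex : ∃ Y : ℝ → ℝ → G K, IsSphereAt w d Y
        · obtain ⟨Y₀, hY₀⟩ := hex
          refine ⟨ev (sphereMean Y₀) (IsOpT.sphere w hw d hd Y₀ hY₀) j, ?_, ?_, ?_⟩
          · intro _ _ Y hY
            obtain rfl : Y₀ = Y := isSphereAt_unique560 hY₀ hY
            rfl
          · intro hr' _ _ _ _ _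
            exact absurd hr' hr
          · intro h1 _
            exact absurd ⟨Y₀, hY₀⟩ (h1 hw)
        · refine ⟨0, ?_, ?_, ?_⟩
          · intro _ _ Y hY
            exact absurd ⟨Y, hY⟩ hex
          · intro hr' _ _ _ _ _
            exact absurd hr' hr
          · intro _ _
            rfl
      · have hr : w.IsReal := InfinitePlace.not_isComplex_iff_isReal.1 hw
        by_cases hex : ∃ kx : (ℝ → G K) × G K, IsRotAt w kx.1 ∧ IsTorusAt w d kx.2
        · obtain ⟨⟨k₀, y₀⟩, hk₀, hy₀⟩ := hex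
          refine ⟨ev (circleMeanT τ k₀ y₀) (IsOpT.circle w hr d hd k₀ y₀ hk₀ hy₀) j, ?_, ?_, ?_⟩
          · intro hw' _ _ _
            exact absurd hw' hw
          · intro _ _ k y hk hy
            obtain rfl : k₀ = k := isRotAt_unique560 hk₀ hk
            obtain rfl : y₀ = y := isTorusAt_unique560 hy₀ hy
            rfl
          · intro _ h2
            exact absurd ⟨(k₀, y₀), hk₀, hy₀⟩ (h2 hr)
        · refine ⟨0, ?_, ?_, ?_⟩
          · intro hw' _ _ _
            exact absurd hw' hw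
          · intro _ _ k y hk hy
            exact absurd ⟨(k, y), hk, hy⟩ hex
          · intro _ _
            rfl
    · refine ⟨0, ?_, ?_, ?_⟩
      · intro _ hd' _ _
        exact absurd hd' hd
      · intro _ hd' _ _ _ _
        exact absurd hd' hd
      · intro _ _
        rfl
  choose m hm using exM
  have hmC : ∀ j (w : InfinitePlace K) (hw : w.IsComplex) (d : ℝ) (hd : 0 < d)
      (Y : ℝ → ℝ → G K) (hY : IsSphereAt w d Y),
      m j w d = ev (sphereMean Y) (IsOpT.sphere w hw d hd Y hY) j :=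
    fun j w hw d hd Y hY => (hm j w d).1 hw hd Y hY
  have hmR : ∀ j (w : InfinitePlace K) (hw : w.IsReal) (t : ℝ) (ht : 0 < t) (k : ℝ → G K)
      (x : G K) (hk : IsRotAt w k) (hx : IsTorusAt w t x),
      m j w t = ev (circleMeanT τ k x) (IsOpT.circle w hw t ht k x hk hx) j :=
    fun j w hw t ht k x hk hx => (hm j w t).2.1 hw ht k x hk hx
  have hm0 : ∀ j (w : InfinitePlace K) (d : ℝ),
      (w.IsComplex → ¬ ∃ Y : ℝ → ℝ → G K, IsSphereAt w d Y) →
      (w.IsReal → ¬ ∃ kx : (ℝ → G K) × G K, IsRotAt w kx.1 ∧ IsTorusAt w d kx.2) →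
      0 < d → m j w d = 0 :=
    fun j w d h1 h2 _ => (hm j w d).2.2 h1 h2
  -- the eigen-equations at the finite places
  have hA : ∀ j v (hv : ¬ v.asIdeal ∣ 𝔫) (g : G K), ∑ h ∈ H0 v, u j (g * h)
      = ((Real.sqrt (Ideal.absNorm v.asIdeal : ℝ) : ℝ) : ℂ) * a j v * u j g := by
    intro j v hv g
    have h1 := hev (heckeSum (H0 v)) (IsOpT.hecke v hv (H0 v) (hH0 v)) j g
    rw [ha j v hv, mul_div_cancel₀ _ (hqC v)]
    exact h1
  have hB : ∀ j v (hv : ¬ v.asIdeal ∣ 𝔫) (g : G K), u j (g * z0 v) = b j v * u j g := by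
    intro j v hv g
    rw [hb j v hv]
    exact hev (shift (z0 v)) (IsOpT.shift v hv (z0 v) (hz0 v)) j g
  have hub : ∀ j v, ¬ v.asIdeal ∣ 𝔫 → ‖b j v‖ = 1 := by
    intro j v hv
    apply norm_eq_one_of_isometry560 R.F (hnorm j)
    have h1 := hadjS v hv (z0 v) (hz0 v) (u j) (u j) (hu j) (hu j)
    have e : shift (z0 v) (u j) = fun g => b j v * u j g := funext (hB j v hv)
    rw [e] at h1
    exact h1
  refine ⟨ι, u, m, a, b, c,
    { cusp := hu
      norm_one := hnorm
      orth := horth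
      eig_complex := ?_
      eig_real := ?_
      hecke := ?_
      central := ?_
      unit_c := ?_
      unit_b := hub
      conj_a := ?_
      bound_a := ?_
      real_m := ?_
      parseval := hpars }⟩
  · -- eig_complex
    intro j w hw d hd Y hY g
    rw [hmC j w hw d hd Y hY]
    exact hev (sphereMean Y) (IsOpT.sphere w hw d hd Y hY) j g
  · -- eig_real
    intro j w hw t ht k x hk hx g
    rw [hmR j w hw t ht k x hk hx]
    exact hev (circleMeanT τ k x) (IsOpT.circle w hw t ht k x hk hx) j g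
  · -- hecke
    intro j v hv
    exact isHeckeEigenAt_of_one129 hv (u j) (hu j).aut.level_inv (a j v) (b j v) (hH0 v)
      (hA j v hv) (hz0 v) (hB j v hv)
  · -- central
    intro j w z hz g
    rw [hc j w z hz]
    exact hev (shift z) (IsOpT.central w z hz) j g
  · -- unit_c
    intro j w z hz
    apply norm_eq_one_of_isometry560 R.F (hnorm j)
    have h1 := hadjC w z hz (u j) (u j) (hu j) (hu j)
    have e : shift z (u j) = fun g => c j z * u j g := by
      funext g
      rw [hc j w z hz]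
      exact hev (shift z) (IsOpT.central w z hz) j g
    rw [e] at h1
    exact h1
  · -- conj_a
    intro j v hv
    have hb1 := hub j v hv
    have hb0 : b j v ≠ 0 := by
      intro h0
      rw [h0, norm_zero] at hb1
      exact zero_ne_one hb1
    have hinv : ∀ g : G K, u j (g * (z0 v)⁻¹) = (b j v)⁻¹ * u j g := by
      intro g
      have h1 := hB j v hv (g * (z0 v)⁻¹)
      rw [inv_mul_cancel_right] at h1
      rw [h1, ← mul_assoc, inv_mul_cancel₀ hb0, one_mul]
    have h2 := hadjH v hv (H0 v) (z0 v) (hH0 v) (hz0 v) (u j) (u j) (hu j) (hu j)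
    have e1 : heckeSum (H0 v) (u j)
        = fun g => ((Real.sqrt (Ideal.absNorm v.asIdeal : ℝ) : ℝ) : ℂ) * a j v * u j g :=
      funext (hA j v hv)
    have e2 : shift (z0 v)⁻¹ (fun g =>
          ((Real.sqrt (Ideal.absNorm v.asIdeal : ℝ) : ℝ) : ℂ) * a j v * u j g)
        = fun g => ((Real.sqrt (Ideal.absNorm v.asIdeal : ℝ) : ℝ) : ℂ) * a j v * (b j v)⁻¹
            * u j g := by
      funext g
      show ((Real.sqrt (Ideal.absNorm v.asIdeal : ℝ) : ℝ) : ℂ) * a j v * u j (g * (z0 v)⁻¹) = _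
      rw [hinv g]
      ring
    rw [e1, e2] at h2
    have h3 := conj_eq_of_heckeAdj560 R.F (hnorm j) hb1 h2
    rw [map_mul, Complex.conj_ofReal] at h3
    have h4 : ((Real.sqrt (Ideal.absNorm v.asIdeal : ℝ) : ℝ) : ℂ) * (starRingEnd ℂ) (a j v)
        = ((Real.sqrt (Ideal.absNorm v.asIdeal : ℝ) : ℝ) : ℂ)
          * (a j v * (starRingEnd ℂ) (b j v)) := by
      rw [h3]
      ring
    exact mul_left_cancel₀ (hqC v) h4
  · -- bound_a
    intro j v hv
    obtain ⟨C, hC⟩ := (hu j).aut.bdd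
    obtain ⟨g₀, hg₀⟩ := exists_ne_zero560 R.F (hnorm j)
    have h1 := norm_le_card_of_eigen560 hC hg₀ (H0 v)
      (((Real.sqrt (Ideal.absNorm v.asIdeal : ℝ) : ℝ) : ℂ) * a j v) (hA j v hv)
    rw [(hH0 v).1, norm_mul, Complex.norm_real, Real.norm_eq_abs, abs_of_pos (hq0 v)] at h1
    rw [mul_comm]
    exact_mod_cast h1
  · -- real_m
    intro j w d hd
    by_cases hw : w.IsComplex
    · by_cases hex : ∃ Y : ℝ → ℝ → G K, IsSphereAt w d Y
      · obtain ⟨Y, hY⟩ := hex
        apply im_eq_zero_of_selfAdjoint560 R.F (hnorm j)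
        have h1 := hadjM w hw d hd Y hY (u j) (u j) (hu j) (hu j)
        have e : sphereMean Y (u j) = fun g => m j w d * u j g := by
          funext g
          rw [hmC j w hw d hd Y hY]
          exact hev (sphereMean Y) (IsOpT.sphere w hw d hd Y hY) j g
        rw [e] at h1
        exact h1
      · rw [hm0 j w d (fun _ => hex)
          (fun hr => absurd hw (InfinitePlace.not_isComplex_iff_isReal.2 hr)) hd]
        rfl
    · have hr : w.IsReal := InfinitePlace.not_isComplex_iff_isReal.1 hw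
      by_cases hex : ∃ kx : (ℝ → G K) × G K, IsRotAt w kx.1 ∧ IsTorusAt w d kx.2
      · obtain ⟨⟨k, x⟩, hk, hx⟩ := hex
        apply im_eq_zero_of_selfAdjoint560 R.F (hnorm j)
        have h1 := hadjMR w hr d hd k x hk hx (u j) (u j) (hu j) (hu j)
        have e : circleMeanT τ k x (u j) = fun g => m j w d * u j g := by
          funext g
          rw [hmR j w hr d hd k x hk hx]
          exact hev (circleMeanT τ k x) (IsOpT.circle w hr d hd k x hk hx) j g
        rw [e] at h1
        exact h1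
      · rw [hm0 j w d (fun hc' => absurd hc' hw) (fun _ => hex) hd]
        rfl

end Fermat.Agent.LT.T2.H560

end

end
-- ===== PACK-END LT/T2/H560/LeafT09.lean

-- ===== PACK-BEGIN LT/T6/H584/OrbIntegrable.lean
section




/-!
# Row LT, tower T6/T7, asset (helper584), OFF-MAIN: THE LOCAL ORBITAL INTEGRAND IS INTEGRABLE

`T6.OrbSumIntC` gives the VALUE of the Bochner integral
`∫ φ(x⁻¹ δ s(x)) β(x) dμ(x) = c`; Fubini (the split places of `FactUpC305`, the sums over the
ray) needs the INTEGRABILITY of the integrand.  Under the hypotheses of `T6.OrbSumIntC`: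

    orbIntegrable584 : Integrable (fun x => φ (x⁻¹ * δ * glAut s x) * (β x : ℂ)) μ

(the integrand is the finite sum of the functions `φ(y) β 1_{T x_y U}`, `y` in the finite set of
representatives of the orbit sum, and `β` is integrable on every double coset `T x U`:
`integral_dcoset584`).  Imports: `T6/Spec.lean` (version of record), `T6/H584/OrbSumInt.lean`
(helper584, spare proof of `T6.OrbSumIntC`) and its imports.
-/

set_option autoImplicit false
set_option linter.unusedSectionVars false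
set_option linter.style.haveILetI false
set_option linter.deprecated false
set_option linter.unusedVariables false

open MeasureTheory Set
open scoped ENNReal

noncomputable section

namespace Fermat.Agent.LT.T6.H584

open Fermat.Agent.LT.T6 Fermat.Agent.LT.T6.H420

section CoreI

variable {k : Type} [Field k] [Valued k Γ₀]
  [MeasurableSpace (GL (Fin 2) k)] [BorelSpace (GL (Fin 2) k)]

/-- **Integrability of the local orbital integrand, core form** (instances as arguments). -/
theorem orbInt_integrable_core584 {q : ℕ} (hk : IsLocalField k q) (l : ℕ) (s : k ≃+* k)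
    (hs : ∀ y : k, Valued.v (s y) = Valued.v y) (hsl : ∀ y : k, (s ^ l) y = y)
    (n : ℕ) (φ : GL (Fin 2) k → ℂ) (hφ : IsBiInv (InU n) φ)
    (δ : GL (Fin 2) k) (c : ℂ) (hreg : IsReg (twNorm s l δ)) (horb : IsTwOrbSum s n φ δ c)
    (μ : Measure (GL (Fin 2) k)) [μ.IsHaarMeasure] (hμU : μ {g | InU n g} = 1)
    (T : Subgroup (GL (Fin 2) k)) (hT : ∀ x, x ∈ T ↔ x⁻¹ * δ * glAut s x = δ)
    [MeasurableSpace T] [BorelSpace T] (μT : Measure T) [μT.IsHaarMeasure]
    (hμTc : μT {t | Valued.v ((t : GL (Fin 2) k) : Matrix (Fin 2) (Fin 2) k).trace ≤ 1 ∧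
        Valued.v ((t : GL (Fin 2) k) : Matrix (Fin 2) (Fin 2) k).det = 1} = 1)
    (β : GL (Fin 2) k → ℝ) (hβc : Continuous β) (hβ0 : ∀ x, 0 ≤ β x)
    (hβint : ∀ x : GL (Fin 2) k, ∫ t : T, β ((t : GL (Fin 2) k) * x) ∂μT = 1) :
    Integrable (fun x => φ (x⁻¹ * δ * glAut s x) * (β x : ℂ)) μ := by
  classical
  obtain ⟨ϖ, hϖ⟩ := hk.unif
  have hUo := isOpen_subU (k := k) hϖ n
  have hT' : ∀ x, x ∈ T ↔ x ∈ twCentSub (glAut s) δ := hT
  obtain ⟨R, hR1, hR2, hR3, hc⟩ := horb
  choose! xr hxr using hR1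
  -- the double cosets
  set D : GL (Fin 2) k → Set (GL (Fin 2) k) :=
    fun y => dcoset584 T.subtype (subU n) (xr y) with hD
  have hDopen : ∀ y, IsOpen (D y) := by
    intro y
    rw [hD]
    simp only
    rw [dcoset_eq_iUnion584]
    exact isOpen_iUnion fun q => isOpen_cosetU584 (subU n) hUo _
  -- the value of the twisted conjugate on `D y`
  have hDtw : ∀ y ∈ R, ∀ x ∈ D y, ∃ u, InU n u ∧ x⁻¹ * δ * glAut s x = u⁻¹ * y * glAut s u := by
    intro y hy x hx
    obtain ⟨t, u, hu, rfl⟩ := hx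
    refine ⟨u, hu, ?_⟩
    have := tw_of_dcoset584 (glAut s) δ (xr y) (t : GL (Fin 2) k) u ((hT' _).1 t.2)
    rw [← hxr y hy] at this
    exact this
  have hDφ : ∀ y ∈ R, ∀ x ∈ D y, φ (x⁻¹ * δ * glAut s x) = φ y := by
    intro y hy x hx
    obtain ⟨u, hu, hxu⟩ := hDtw y hy x hx
    rw [hxu]
    exact hφ u⁻¹ (glAut s u) y ((subU n).inv_mem hu) (inU_glAut584 s hs n u hu)
  have hDdisj : ∀ y ∈ R, ∀ y' ∈ R, y ≠ y' → Disjoint (D y) (D y') := by
    intro y hy y' hy' hne
    rw [Set.disjoint_left]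
    intro x hx hx'
    apply hne
    obtain ⟨u, hu, hxu⟩ := hDtw y hy x hx
    obtain ⟨u', hu', hxu'⟩ := hDtw y' hy' x hx'
    refine hR2 y hy y' hy' ⟨u * u'⁻¹, (subU n).mul_mem hu ((subU n).inv_mem hu'), ?_⟩
    have e : u⁻¹ * y * glAut s u = u'⁻¹ * y' * glAut s u' := by rw [← hxu, ← hxu']
    have e' : y' = u' * (u⁻¹ * y * glAut s u) * (glAut s u')⁻¹ := by
      rw [e]; group
    rw [e']
    simp only [map_mul, map_inv, mul_inv_rev, inv_inv]
    group
  have hzero : ∀ x, (∀ y ∈ R, x ∉ D y) → φ (x⁻¹ * δ * glAut s x) = 0 := by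
    intro x hx
    by_contra hne
    obtain ⟨y', hy', u, hu, hxu⟩ := hR3 (x⁻¹ * δ * glAut s x) ⟨x, rfl⟩ hne
    apply hx y' hy'
    have hz : x⁻¹ * δ * glAut s x
        = (xr y' * u)⁻¹ * δ * glAut s (xr y' * u) := by
      rw [hxu]
      conv_lhs => rw [hxr y' hy']
      simp only [map_mul, mul_inv_rev]
      group
    have ht : x * (xr y' * u)⁻¹ ∈ T := (hT' _).2 (mem_twCent_of_eq584 _ _ _ _ hz)
    exact ⟨⟨x * (xr y' * u)⁻¹, ht⟩, u, hu, by
      show x = x * (xr y' * u)⁻¹ * xr y' * u
      group⟩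
  -- the integrals over the double cosets
  have hint : ∀ y ∈ R, IntegrableOn β (D y) μ ∧
      ∫ x in D y, β x ∂μ = (cIndex (InU n) (InTwCentC s) y : ℝ) := by
    intro y hy
    have := integral_dcoset584 hk l s hs hsl n δ hreg μ hμU T hT μT hμTc β hβc hβ0 hβint (xr y)
    rw [← hxr y hy] at this
    exact this
  -- pointwise decomposition
  have hpt : ∀ x, φ (x⁻¹ * δ * glAut s x) * (β x : ℂ)
      = ∑ y ∈ R, (D y).indicator (fun x => φ y * (β x : ℂ)) x := by
    intro x
    by_cases hx : ∃ y ∈ R, x ∈ D y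
    · obtain ⟨y₀, hy₀, hxy₀⟩ := hx
      rw [Finset.sum_eq_single y₀]
      · rw [indicator_of_mem hxy₀, hDφ y₀ hy₀ x hxy₀]
      · intro y hy hne
        have : x ∉ D y := fun h =>
          (Set.disjoint_left.1 (hDdisj y hy y₀ hy₀ hne)) h hxy₀
        exact indicator_of_notMem this _
      · intro h
        exact absurd hy₀ h
    · push Not at hx
      rw [hzero x hx, zero_mul]
      symm
      apply Finset.sum_eq_zero
      intro y hy
      exact indicator_of_notMem (hx y hy) _
  have hI : ∀ y ∈ R, Integrable ((D y).indicator (fun x => φ y * (β x : ℂ))) μ := by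
    intro y hy
    rw [integrable_indicator_iff (hDopen y).measurableSet]
    exact ((hint y hy).1.ofReal (𝕜 := ℂ)).const_mul (φ y)
  exact (integrable_finset_sum R hI).congr (ae_of_all _ fun x => (hpt x).symm)

end CoreI

/-- **Integrability of the local orbital integrand** (the hypotheses of `T6.OrbSumIntC`,
Borel `σ`-algebras). -/
theorem orbIntegrable584 (k : Type) [Field k] [Valued k Γ₀] (q l : ℕ) (s : k ≃+* k)
    (hk : IsLocalField k q) (hs : ∀ y : k, Valued.v (s y) = Valued.v y) (_hl : 0 < l)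
    (hsl : ∀ y : k, (s ^ l) y = y) (n : ℕ) (φ : GL (Fin 2) k → ℂ)
    (hφ : IsBiInv (InU n) φ) (_hfs : HasFinSupp (InU n) φ) (δ : GL (Fin 2) k) (c : ℂ)
    (hreg : IsReg (twNorm s l δ)) (horb : IsTwOrbSum s n φ δ c)
    (μ : @Measure (GL (Fin 2) k) (borel _))
    (hμ : @Measure.IsHaarMeasure _ _ _ (borel _) μ) (hμU : μ {g | InU n g} = 1)
    (μT : @Measure (twCentSub (glAut s) δ) (borel _))
    (hμT : @Measure.IsHaarMeasure _ _ _ (borel _) μT)
    (hμTc : μT {t | Valued.v ((t : GL (Fin 2) k) : Matrix (Fin 2) (Fin 2) k).trace ≤ 1 ∧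
        Valued.v ((t : GL (Fin 2) k) : Matrix (Fin 2) (Fin 2) k).det = 1} = 1)
    (β : GL (Fin 2) k → ℝ) (hβc : Continuous β) (hβ0 : ∀ x, 0 ≤ β x)
    (hβint : ∀ x : GL (Fin 2) k,
      @integral _ _ _ _ (borel _) μT
        (fun t : twCentSub (glAut s) δ => β ((t : GL (Fin 2) k) * x)) = 1) :
    letI : MeasurableSpace (GL (Fin 2) k) := borel _
    Integrable (fun x : GL (Fin 2) k => φ (x⁻¹ * δ * glAut s x) * (β x : ℂ)) μ :=
  @orbInt_integrable_core584 k _ _ (borel (GL (Fin 2) k))
    (@BorelSpace.mk (GL (Fin 2) k) _ (borel (GL (Fin 2) k)) rfl) q hk l s hs hsl n φ hφ δ c hreg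
    horb μ hμ hμU (twCentSub (glAut s) δ) (fun _ => Iff.rfl) (borel (twCentSub (glAut s) δ))
    (@BorelSpace.mk (twCentSub (glAut s) δ) _ (borel (twCentSub (glAut s) δ)) rfl) μT hμT hμTc
    β hβc hβ0 hβint

end Fermat.Agent.LT.T6.H584

end

end
-- ===== PACK-END LT/T6/H584/OrbIntegrable.lean

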