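import Mathlib
import Fermat.Agent.Pack.LT3.E14L2
import Fermat.Agent.Pack.LT3.E14L3
import Fermat.Agent.Pack.LT3.E5L3
import Fermat.Agent.Pack.LT3.E5L2
import Fermat.Agent.Pack.LT3.E5L1
import Fermat.Agent.Pack.LT3.E2L3
import Fermat.Agent.Pack.LT3.E5L0
import Fermat.Agent.Pack.LT3.E14L1
import Fermat.Agent.Pack.LT3.E11L2
import Fermat.Agent.Pack.LT2.E10L1
import Fermat.Agent.Pack.LT3.E14L0
import Fermat.Agent.Pack.LT3.E11L0
import Fermat.Agent.Pack.LT2.E9L3
import Fermat.Agent.Pack.LT3.E11L1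
import Fermat.Agent.Pack.LT2.E0L2
import Fermat.Agent.Pack.LT2.E2L1
import Fermat.Agent.Pack.LT2.E5L3
import Fermat.Agent.Pack.LT2.E6L2
import Fermat.Agent.Pack.LT2.E3L0
import Fermat.Agent.Pack.LT2.E7L1
import Fermat.Agent.Pack.LT2.E3L1
import Fermat.Agent.Pack.LT2.E7L3
import Fermat.Agent.Pack.LT3.E16L2

set_option linter.all false

-- ===== PACK-BEGIN LT/T6/H830/HCClosed3.lean
section








/-!
# Row LT, tower T6, station T6.29 `ArchSpec`: CLOSED (helper830, integration v3)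

OFF-MAIN.  `archSpecC830 : ArchSpecC` and `specRelC626_830 : H626.SpecRelC626` (= T6.20c),
`hcTransRC830 : HCTransRC`, `hcTransCC830 : HCTransCC`, UNCONDITIONAL, in ONE closure of
byte-identical copies:

| Prop | owner | file |
|---|---|---|
| `IwasawaIntRC` | helper673@9cc963c0a | `T6/H673/{IwGroup,IwCoord,IwTop,IwasawaR}.lean` |
| `IwasawaIntCC ⟸ H189.U2HaarC + H189.IwasawaCC` | helper682@b8fd091ac | `T6/H682/IwasawaIntC.lean` |
| `H189.IwaOfCC` | helper848@73a8358de | `T6/H848/IwaC.lean` (+ `H189/{ArchIntCut,HaarEmb}` of helper189) |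
| `H189.U2HaarOfC` | helper216@c94b60e12 | `T6/H216/U2HaarOf.lean` |
| `H189.U2CompactC` | helper965@cf8acfb81 | `T6/H965/U2Compact.lean` |
| `H189.RightInvCC` | helper8@272c880d8 | `T6/H8/{RightInvCC,Unimod}.lean` |
| `H189.IwaHomeoCC` | helper905@93dc50ef5 | `T6/H905/IwaHomeoC.lean` |
| the leaves of the cut | see `HCClosed.lean`, `HCClosed2.lean` | |
-/

set_option autoImplicit false

noncomputable section

namespace Fermat.Agent.LT.T6.H830

open Fermat.Agent.LT.T6

/-- `U(2)` has a Haar probability measure (T6.23). -/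
theorem u2HaarC830 : H189.U2HaarC := H216.u2HaarOf216 H965.u2CompactC965

/-- The Iwasawa integration formula on `GL₂(ℂ)`, measure form (T6.23). -/
theorem iwasawaCC830 : H189.IwasawaCC :=
  H848.iwaOfCC848 H8.rightInvCC_h8 H905.iwaHomeoCC905 H965.u2CompactC965

/-- The Iwasawa integration formula on `GL₂(ℂ)`, right-`U(2)`-invariant integral form. -/
theorem iwasawaIntCC830 : IwasawaIntCC := H682.iwasawaIntCC_of189 u2HaarC830 iwasawaCC830

/-- **HC-TRANS-R**, unconditional. -/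
theorem hcTransRC830 : HCTransRC := hcTransRC_of_iwasawa830 H673.iwasawaIntRC673

/-- **HC-TRANS-C**, unconditional. -/
theorem hcTransCC830 : HCTransCC := hcTransCC_of_iwasawa830 iwasawaIntCC830

/-- **T6.29 (the spectral relation), unconditional.** -/
theorem archSpecC830 : ArchSpecC :=
  archSpecC_of_iwasawa830 H673.iwasawaIntRC673 iwasawaIntCC830

/-- **T6.20c (`SpecRelC626` of helper626), unconditional.** -/
theorem specRelC626_830 : H626.SpecRelC626 := specRelC626_of_archSpec830 archSpecC830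

end Fermat.Agent.LT.T6.H830

end

end
-- ===== PACK-END LT/T6/H830/HCClosed3.lean

-- ===== PACK-BEGIN LT/T2/H776/LocFinT.lean
section




/-!
# Row LT, tower T2, leaf T2.22d.5 `LocFinTC175` (helper776)

OFF-MAIN.  `locFinTC776 K : T2.H175.LocFinTC175 K`, VERBATIM against
`LT/T2/H175/TauSpec.lean` (helper175, sha256 da27a6e8), unconditional.

`θ(M) = s · adjugate M · s` with `s = [[0,1],[1,0]]` (integral, `s · s = 1`), and
`adjugate M = A M B` with `A, B ∈ GL₂(𝒪_v)` by `leafLocFin570` (helper570, T2.02d.5a); so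
`θ(M) = (s A) M (B s)`.
-/

set_option autoImplicit false

open IsDedekindDomain NumberField

namespace Fermat.Agent.LT.T2.H776

/-- The swap matrix `s = [[0,1],[1,0]]`. -/
def swapM776 (R : Type*) [CommRing R] : Matrix (Fin 2) (Fin 2) R := !![0, 1; 1, 0]

theorem swapM776_mul_self (R : Type*) [CommRing R] : swapM776 R * swapM776 R = 1 := by
  ext i j
  fin_cases i <;> fin_cases j <;> simp [swapM776, Matrix.mul_apply, Fin.sum_univ_two]

/-- `θ(M) = s · adjugate M · s`. -/
theorem thetaM_eq_swap_adjugate776 {R : Type*} [CommRing R] (M : Matrix (Fin 2) (Fin 2) R) :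
    Fermat.Agent.LT.T2.H175.thetaM175 M = swapM776 R * M.adjugate * swapM776 R := by
  ext i j
  fin_cases i <;> fin_cases j <;>
    simp [Fermat.Agent.LT.T2.H175.thetaM175, swapM776, Matrix.mul_apply, Fin.sum_univ_two,
      Matrix.adjugate_fin_two]

/-- Left multiplication by the swap keeps the entries integral. -/
theorem swap_mul_int776 {L : Type*} [Field L] {Γ₀ : Type*}
    [LinearOrderedCommGroupWithZero Γ₀] (ν : Valuation L Γ₀) {A : Matrix (Fin 2) (Fin 2) L}
    (hA : ∀ i j, ν (A i j) ≤ 1) : ∀ i j, ν ((swapM776 L * A) i j) ≤ 1 := by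
  intro i j
  fin_cases i <;> simp [swapM776, Matrix.mul_apply, Fin.sum_univ_two] <;> exact hA _ _

/-- Right multiplication by the swap keeps the entries integral. -/
theorem mul_swap_int776 {L : Type*} [Field L] {Γ₀ : Type*}
    [LinearOrderedCommGroupWithZero Γ₀] (ν : Valuation L Γ₀) {A : Matrix (Fin 2) (Fin 2) L}
    (hA : ∀ i j, ν (A i j) ≤ 1) : ∀ i j, ν ((A * swapM776 L) i j) ≤ 1 := by
  intro i j
  fin_cases j <;> simp [swapM776, Matrix.mul_apply, Fin.sum_univ_two] <;> exact hA _ _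

/-- **T2.22d.5**: for `M ∈ GL₂(K_v)` there are `A, B ∈ GL₂(𝒪_v)` with `θ(M) = A M B`. -/
theorem locFinTC776 (K : Type) [Field K] [NumberField K] :
    Fermat.Agent.LT.T2.H175.LocFinTC175 K := by
  intro v M hM
  obtain ⟨A, A', B, B', hAA', hBB', hA, hA', hB, hB', hadj⟩ :=
    Fermat.Agent.LT.T2.H570.leafLocFin570 K v M hM
  have hs := swapM776_mul_self (v.adicCompletion K)
  refine ⟨swapM776 _ * A, A' * swapM776 _, B * swapM776 _, swapM776 _ * B', ?_, ?_,
    swap_mul_int776 _ hA, mul_swap_int776 _ hA', mul_swap_int776 _ hB, swap_mul_int776 _ hB', ?_⟩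
  · calc swapM776 _ * A * (A' * swapM776 _)
        = swapM776 _ * (A * A') * swapM776 _ := by simp only [Matrix.mul_assoc]
      _ = 1 := by rw [hAA', Matrix.mul_one, hs]
  · calc B * swapM776 _ * (swapM776 _ * B')
        = B * (swapM776 _ * swapM776 _) * B' := by simp only [Matrix.mul_assoc]
      _ = 1 := by rw [hs, Matrix.mul_one, hBB']
  · rw [thetaM_eq_swap_adjugate776, hadj]
    simp only [Matrix.mul_assoc]

end Fermat.Agent.LT.T2.H776

end
-- ===== PACK-END LT/T2/H776/LocFinT.lean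

-- ===== PACK-BEGIN LT/T2/H793/FinGlue.lean
section




/-!
# Row LT, tower T2, leaf T2.22d.6 `FinGlueC175` (helper793, OFF-MAIN)

The finite part of the double coset statement for the anti-involution `θ(g) = e gᵀ e`:
`finGlueC793 K : H175.FinGlueC175 K`, VERBATIM vs `LT/T2/H175/TauSpec.lean`
(helper175@f81a7bf74, sha256 da27a6e8).

Tools (byte-identical copies of helper724@670e68d67): `LT/T2/H724/IdealCl.lean` (dcde775d:
the closure `𝔫 𝒪_v` is an ideal of `𝒪_v`, equal to `𝒪_v` for `v ∤ 𝔫`) and `LT/T2/H724/Glue.lean`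
(1e1307a3: `mkG724`, `InCl724`).  The proof is the proof of `exists_fin724` with `θ` in place of
the adjugate.
-/

set_option autoImplicit false

open IsDedekindDomain NumberField
open Fermat.Agent.LT.H556.A0
open Fermat.Agent.LT.T2 Fermat.Agent.LT.T2.H724 Fermat.Agent.LT.T2.H175 Fermat.Agent.LT.T1.H724

noncomputable section

namespace Fermat.Agent.LT.T2.H793

variable {K : Type} [Field K] [NumberField K]

section FinChoice

variable {v : HeightOneSpectrum (𝓞 K)} {𝔫 : Ideal (𝓞 K)}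

/-- `θ` preserves the congruence `≡ 1 mod 𝔫 𝒪_v`. -/
theorem inCl_theta793 {X : Matrix (Fin 2) (Fin 2) (v.adicCompletion K)}
    (hX : InCl724 v 𝔫 (X - 1)) : InCl724 v 𝔫 (thetaM175 X - 1) := by
  have h00 := hX 0 0
  have h01 := hX 0 1
  have h10 := hX 1 0
  have h11 := hX 1 1
  simp only [Matrix.sub_apply, Matrix.one_apply_eq, Matrix.one_apply_ne, ne_eq, one_ne_zero,
    not_false_eq_true, zero_ne_one, sub_zero] at h00 h01 h10 h11
  intro i j
  fin_cases i <;> fin_cases j
  · simpa [thetaM175] using h00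
  · simpa [thetaM175] using neg_mem_idealClosure724 v 𝔫 h10
  · simpa [thetaM175] using neg_mem_idealClosure724 v 𝔫 h01
  · simpa [thetaM175] using h11

/-- the local choice at a finite place, for `θ` -/
theorem exists_finT793 (hFin : LocFinTC175 K) (𝔫 : Ideal (𝓞 K)) (g : G K)
    (hg : IsBadUnit724 𝔫 g) (v : HeightOneSpectrum (𝓞 K)) :
    ∃ A A' B B' : Matrix (Fin 2) (Fin 2) (v.adicCompletion K),
      A * A' = 1 ∧ B * B' = 1 ∧
      (InCl724 v 𝔫 (A - 1) ∧ InCl724 v 𝔫 (A' - 1)) ∧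
      (InCl724 v 𝔫 (B - 1) ∧ InCl724 v 𝔫 (B' - 1)) ∧
      thetaM175 (finComp v g) = A * finComp v g * B := by
  by_cases hv : v.asIdeal ∣ 𝔫
  · have hM : InCl724 v 𝔫 (finComp v g - 1) := fun i j => (hg v hv i j).1
    have hM' : InCl724 v 𝔫 (finComp v g⁻¹ - 1) := fun i j => (hg v hv i j).2
    have h1 : InCl724 v 𝔫 ((1 : Matrix (Fin 2) (Fin 2) (v.adicCompletion K)) - 1) := by
      rw [sub_self]
      exact inCl_zero724
    refine ⟨thetaM175 (finComp v g) * finComp v g⁻¹,
      finComp v g * thetaM175 (finComp v g⁻¹), 1, 1, ?_, one_mul 1,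
      ⟨inCl_prod724 (inCl_theta793 hM) hM', inCl_prod724 hM (inCl_theta793 hM')⟩,
      ⟨h1, h1⟩, ?_⟩
    · rw [mul_assoc, ← mul_assoc (finComp v g⁻¹), finComp_inv_mul724, one_mul,
        ← thetaM175_mul, finComp_inv_mul724, thetaM175_one]
    · rw [mul_one, mul_assoc, finComp_inv_mul724, mul_one]
  · have hdet : (finComp v g).det ≠ 0 := by
      intro h0
      have := congrArg Matrix.det (finComp_mul_inv724 v g)
      rw [Matrix.det_mul, h0, zero_mul, Matrix.det_one] at this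
      exact zero_ne_one this
    obtain ⟨A, A', B, B', hA, hB, iA, iA', iB, iB', e⟩ := hFin v (finComp v g) hdet
    exact ⟨A, A', B, B', hA, hB, ⟨inCl_of_int724 hv iA, inCl_of_int724 hv iA'⟩,
      ⟨inCl_of_int724 hv iB, inCl_of_int724 hv iB'⟩, e⟩

end FinChoice

/-- An element with trivial components at infinity and components `≡ 1 mod 𝔫 𝒪_v` (with
inverse) at the finite places lies in `U(𝔫)`. -/
theorem inLevelGroup_mkG793 (𝔫 : Ideal (𝓞 K))
    (Mf Nf : ∀ v : HeightOneSpectrum (𝓞 K), Matrix (Fin 2) (Fin 2) (v.adicCompletion K))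
    (hM : ∀ v i j, Valued.v (Mf v i j) ≤ 1) (hN : ∀ v i j, Valued.v (Nf v i j) ≤ 1)
    (h3 : ∀ v, Mf v * Nf v = 1)
    (hcl : ∀ v, InCl724 v 𝔫 (Mf v - 1) ∧ InCl724 v 𝔫 (Nf v - 1)) :
    InLevelGroup 𝔫 (mkG724 (fun _ => 1) (fun _ => 1) Mf Nf hM hN (fun _ => mul_one 1) h3) := by
  refine ⟨fun w => ?_, fun v i j => ?_⟩
  · rw [trivAtInf_iff_cInf724, cInf_mkG724]
  · rw [finComp_mkG724, finComp_mkG_inv724]
    exact ⟨(hcl v).1 i j, (hcl v).2 i j⟩

/-- **T2.22d.6 = `FinGlueC175`**, verbatim. -/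
theorem finGlueC793 (K : Type) [Field K] [NumberField K] : FinGlueC175 K := by
  intro hFin 𝔫 _ g hg
  choose Af Af' Bf Bf' hAf hBf hAcl hBcl hef using exists_finT793 hFin 𝔫 g hg
  have iA : ∀ v i j, Valued.v (Af v i j) ≤ 1 := fun v => int_of_inCl724 (hAcl v).1
  have iA' : ∀ v i j, Valued.v (Af' v i j) ≤ 1 := fun v => int_of_inCl724 (hAcl v).2
  have iB : ∀ v i j, Valued.v (Bf v i j) ≤ 1 := fun v => int_of_inCl724 (hBcl v).1
  have iB' : ∀ v i j, Valued.v (Bf' v i j) ≤ 1 := fun v => int_of_inCl724 (hBcl v).2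
  refine ⟨mkG724 (fun _ => 1) (fun _ => 1) Af Af' iA iA' (fun _ => mul_one 1) hAf,
    mkG724 (fun _ => 1) (fun _ => 1) Bf Bf' iB iB' (fun _ => mul_one 1) hBf,
    inLevelGroup_mkG793 𝔫 Af Af' iA iA' hAf hAcl,
    inLevelGroup_mkG793 𝔫 Bf Bf' iB iB' hBf hBcl, fun v => ?_⟩
  rw [finComp_thetaG175, finComp_mkG724, finComp_mkG724]
  exact hef v

end Fermat.Agent.LT.T2.H793

end

end
-- ===== PACK-END LT/T2/H793/FinGlue.lean

-- ===== PACK-BEGIN LT/T2/H228/Unfold.lean
section



/-!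
# Row LT, tower T2, leaf T2.02c (helper228), part 1: the unfolding group

OFF-MAIN.  Vocabulary: `T2/Spec.lean` v3 (sha256 b934629a).

* `slabFn228 K g = ‖det g‖_𝔸`, multiplicative and positive (`T1.AdNormC`), `= 1` on `GL₂(K)`;
* `z₀`: a positive scalar at ONE infinite place `w₀` with `‖det z₀‖_𝔸 = 2`; it is central;
* `unfGrp228 z₀ = GL₂(K) · z₀^ℤ`, a countable subgroup of `G K`;
* for a frame `F` (strict fundamental domain `D` of `GL₂(K)` in the slab): for every `a : G K`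
  there is EXACTLY ONE `h ∈ GL₂(K) · z₀^ℤ` with `h a ∈ D`.
-/

set_option autoImplicit false
set_option linter.unusedSectionVars false

open IsDedekindDomain NumberField MeasureTheory AutomorphicForm
open Fermat.Agent.LT.H556.A0

noncomputable section

namespace Fermat.Agent.LT.T2.H228

open Fermat.Agent.LT.T2

variable {K : Type} [Field K] [NumberField K]

/-! ## The function `‖det g‖_𝔸` -/

/-- The function `g ↦ ‖det g‖_𝔸`. -/
def slabFn228 (K : Type) [Field K] [NumberField K] (g : G K) : ℝ :=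
  T1.adNorm K (Matrix.det (g : Matrix (Fin 2) (Fin 2) (Adl K)))

theorem slabFn228_eq (g : G K) :
    slabFn228 K g = T1.adNorm K ((Matrix.GeneralLinearGroup.det g : (Adl K)ˣ) : Adl K) := by
  simp [slabFn228]

theorem slabFn228_mul (h : T1.AdNormC K) (g g' : G K) :
    slabFn228 K (g * g') = slabFn228 K g * slabFn228 K g' := by
  rw [slabFn228_eq, slabFn228_eq, slabFn228_eq, map_mul]
  exact h.2.1 _ _

theorem slabFn228_pos (h : T1.AdNormC K) (g : G K) : 0 < slabFn228 K g := by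
  rw [slabFn228_eq]; exact h.1 _

theorem mem_slab_iff228 (g : G K) : g ∈ T1.slab K ↔ 1 ≤ slabFn228 K g ∧ slabFn228 K g < 2 :=
  Iff.rfl

theorem slabFn228_one (h : T1.AdNormC K) : slabFn228 K (1 : G K) = 1 := by
  have h1 := slabFn228_mul h (1 : G K) 1
  rw [mul_one] at h1
  have h2 := slabFn228_pos h (1 : G K)
  nlinarith

theorem slabFn228_inv (h : T1.AdNormC K) (g : G K) :
    slabFn228 K g⁻¹ = (slabFn228 K g)⁻¹ := by
  have h1 : slabFn228 K g * slabFn228 K g⁻¹ = 1 := by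
    rw [← slabFn228_mul h, mul_inv_cancel, slabFn228_one h]
  exact eq_inv_of_mul_eq_one_right h1

theorem slabFn228_zpow (h : T1.AdNormC K) (g : G K) (n : ℤ) :
    slabFn228 K (g ^ n) = slabFn228 K g ^ n := by
  induction n using Int.induction_on with
  | zero => rw [zpow_zero, zpow_zero, slabFn228_one h]
  | succ n ih =>
    rw [zpow_add_one, slabFn228_mul h, ih, zpow_add_one₀ (slabFn228_pos h g).ne']
  | pred n ih =>
    rw [zpow_sub_one, slabFn228_mul h, ih, slabFn228_inv h,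
      zpow_sub_one₀ (slabFn228_pos h g).ne']

/-- Product formula: `‖det γ‖_𝔸 = 1` for `γ ∈ GL₂(K)`. -/
theorem slabFn228_ratG (h : T1.AdNormC K) (γ : GL (Fin 2) K) :
    slabFn228 K (T1.ratG K γ) = 1 := by
  have h3 := h.2.2.1 (Matrix.GeneralLinearGroup.det γ)
  rw [slabFn228]
  have : Matrix.det ((T1.ratG K γ : G K) : Matrix (Fin 2) (Fin 2) (Adl K))
      = ((T1.ratUnit K (Matrix.GeneralLinearGroup.det γ) : (Adl K)ˣ) : Adl K) := by
    change Matrix.det ((algebraMap K (Adl K)).mapMatrix (γ : Matrix (Fin 2) (Fin 2) K)) = _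
    rw [← RingHom.map_det]
    rfl
  rw [this]
  exact h3

theorem slabFn228_formula (g : G K) :
    slabFn228 K g = (∏ w : InfinitePlace K, ‖(infComp w g).det‖ ^ w.mult) *
      ∏ᶠ v : HeightOneSpectrum (𝓞 K), ‖(finComp v g).det‖ := by
  unfold slabFn228 T1.adNorm
  have h1 : ∀ w : InfinitePlace K,
      ‖(Matrix.det (g : Matrix (Fin 2) (Fin 2) (Adl K))).1 w‖ ^ w.mult
        = ‖(infComp w g).det‖ ^ w.mult := fun w => by rw [norm_det_inf228]
  have h2 : ∀ v : HeightOneSpectrum (𝓞 K),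
      ‖(Matrix.det (g : Matrix (Fin 2) (Fin 2) (Adl K))).2 v‖ = ‖(finComp v g).det‖ :=
    fun v => by rw [det_finComp228]
  rw [Finset.prod_congr rfl (fun w _ => h1 w), finprod_congr h2]

/-! ## A positive scalar at one infinite place -/

theorem exists_archC228 (w : InfinitePlace K) (r : ℝ) :
    ∃ c : w.Completion, InfinitePlace.Completion.extensionEmbedding w c = (r : ℂ) := by
  by_cases hw : w.IsReal
  · obtain ⟨c, hc⟩ := InfinitePlace.Completion.surjective_extensionEmbeddingOfIsReal hw r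
    refine ⟨c, ?_⟩
    rw [← InfinitePlace.Completion.extensionEmbeddingOfIsReal_apply hw, hc]
  · exact InfinitePlace.Completion.surjective_extensionEmbedding_of_isComplex
      (InfinitePlace.not_isReal_iff_isComplex.1 hw) (r : ℂ)

/-- The element of the completion at `w` which embeds to the real number `r`. -/
def archC228 (w : InfinitePlace K) (r : ℝ) : w.Completion := Classical.choose (exists_archC228 w r)

theorem archC228_spec (w : InfinitePlace K) (r : ℝ) :
    InfinitePlace.Completion.extensionEmbedding w (archC228 w r) = (r : ℂ) :=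
  Classical.choose_spec (exists_archC228 w r)

theorem archC228_mul (w : InfinitePlace K) (r s : ℝ) :
    archC228 w r * archC228 w s = archC228 w (r * s) := by
  apply (InfinitePlace.Completion.extensionEmbedding w).injective
  rw [map_mul, archC228_spec, archC228_spec, archC228_spec, Complex.ofReal_mul]

theorem archC228_one (w : InfinitePlace K) : archC228 w 1 = 1 := by
  apply (InfinitePlace.Completion.extensionEmbedding w).injective
  rw [archC228_spec, map_one, Complex.ofReal_one]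

open Classical in
/-- The adele which is `r` at the infinite place `w₀` and `1` at every other place. -/
def locA228 (w₀ : InfinitePlace K) (r : ℝ) : Adl K :=
  (fun w => if w = w₀ then archC228 w r else 1, 1)

theorem locA228_inf_self (w₀ : InfinitePlace K) (r : ℝ) :
    (locA228 w₀ r).1 w₀ = archC228 w₀ r := by
  unfold locA228
  exact if_pos rfl

theorem locA228_inf_ne (w₀ : InfinitePlace K) (r : ℝ) {w : InfinitePlace K} (hw : w ≠ w₀) :
    (locA228 w₀ r).1 w = 1 := by
  unfold locA228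
  exact if_neg hw

theorem locA228_fin (w₀ : InfinitePlace K) (r : ℝ) (v : HeightOneSpectrum (𝓞 K)) :
    (locA228 w₀ r).2 v = 1 := rfl

theorem locA228_mul (w₀ : InfinitePlace K) (r s : ℝ) :
    locA228 w₀ r * locA228 w₀ s = locA228 w₀ (r * s) := by
  refine adele_ext228 (fun w => ?_) (fun v => ?_)
  · change (locA228 w₀ r).1 w * (locA228 w₀ s).1 w = _
    by_cases hw : w = w₀
    · subst hw
      rw [locA228_inf_self, locA228_inf_self, locA228_inf_self, archC228_mul]
    · rw [locA228_inf_ne _ _ hw, locA228_inf_ne _ _ hw, locA228_inf_ne _ _ hw, one_mul]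
  · change (1 : v.adicCompletion K) * 1 = 1
    rw [one_mul]

theorem locA228_one (w₀ : InfinitePlace K) : locA228 w₀ 1 = (1 : Adl K) := by
  refine adele_ext228 (fun w => ?_) (fun v => rfl)
  by_cases hw : w = w₀
  · subst hw
    rw [locA228_inf_self, archC228_one]; rfl
  · rw [locA228_inf_ne _ _ hw]; rfl

/-- The scalar matrix of parameter `r ≠ 0` at the infinite place `w₀`. -/
def locG228 (w₀ : InfinitePlace K) (r : ℝ) (hr : r ≠ 0) : G K where
  val := Matrix.scalar (Fin 2) (locA228 w₀ r)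
  inv := Matrix.scalar (Fin 2) (locA228 w₀ r⁻¹)
  val_inv := by rw [← map_mul, locA228_mul, mul_inv_cancel₀ hr, locA228_one, map_one]
  inv_val := by rw [← map_mul, locA228_mul, inv_mul_cancel₀ hr, locA228_one, map_one]

theorem locG228_apply (w₀ : InfinitePlace K) (r : ℝ) (hr : r ≠ 0) (i j : Fin 2) :
    ((locG228 w₀ r hr : G K) : Matrix (Fin 2) (Fin 2) (Adl K)) i j
      = if i = j then locA228 w₀ r else 0 := by
  change (Matrix.scalar (Fin 2) (locA228 w₀ r)) i j = _
  by_cases hij : i = j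
  · subst hij
    rw [if_pos rfl, Matrix.scalar_apply, Matrix.diagonal_apply_eq]
  · rw [if_neg hij, Matrix.scalar_apply, Matrix.diagonal_apply_ne _ hij]

theorem infComp_locG228_self (w₀ : InfinitePlace K) (r : ℝ) (hr : r ≠ 0) :
    infComp w₀ (locG228 w₀ r hr) = Matrix.diagonal (fun _ => (r : ℂ)) := by
  refine Matrix.ext fun i j => ?_
  change InfinitePlace.Completion.extensionEmbedding w₀
    ((((locG228 w₀ r hr : G K) : Matrix (Fin 2) (Fin 2) (Adl K)) i j).1 w₀) = _
  rw [locG228_apply]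
  by_cases hij : i = j
  · subst hij
    rw [if_pos rfl, Matrix.diagonal_apply_eq, locA228_inf_self]
    exact archC228_spec w₀ r
  · rw [if_neg hij, Matrix.diagonal_apply_ne _ hij]
    exact map_zero _

theorem trivAtInf_locG228 (w₀ : InfinitePlace K) (r : ℝ) (hr : r ≠ 0) {w : InfinitePlace K}
    (hw : w ≠ w₀) : TrivAtInf w (locG228 w₀ r hr) := by
  intro i j
  rw [locG228_apply]
  by_cases hij : i = j
  · subst hij
    rw [if_pos rfl, Matrix.one_apply_eq, locA228_inf_ne _ _ hw]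
  · rw [if_neg hij, Matrix.one_apply_ne hij]; rfl

theorem trivAtFin_locG228 (w₀ : InfinitePlace K) (r : ℝ) (hr : r ≠ 0)
    (v : HeightOneSpectrum (𝓞 K)) : TrivAtFin v (locG228 w₀ r hr) := by
  refine Matrix.ext fun i j => ?_
  change ((((locG228 w₀ r hr : G K) : Matrix (Fin 2) (Fin 2) (Adl K)) i j).2 v) = _
  rw [locG228_apply]
  by_cases hij : i = j
  · subst hij
    rw [if_pos rfl, Matrix.one_apply_eq]; rfl
  · rw [if_neg hij, Matrix.one_apply_ne hij]; rfl

theorem isArchPosScalar_locG228 (w₀ : InfinitePlace K) (r : ℝ) (hr : 0 < r) :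
    IsArchPosScalar w₀ (locG228 w₀ r hr.ne') :=
  ⟨⟨fun _ hw => trivAtInf_locG228 w₀ r hr.ne' hw, fun v => trivAtFin_locG228 w₀ r hr.ne' v⟩,
    r, hr, infComp_locG228_self w₀ r hr.ne'⟩

/-- `‖det z‖_𝔸 = (r²)^{[K_w₀ : ℝ]}` for the scalar `z` of parameter `r` at `w₀`. -/
theorem slabFn228_locG (w₀ : InfinitePlace K) (r : ℝ) (hr : r ≠ 0) :
    slabFn228 K (locG228 w₀ r hr) = (r ^ 2) ^ w₀.mult := by
  rw [slabFn228_formula]
  have h1 : ∀ w : InfinitePlace K, w ≠ w₀ →
      ‖(infComp w (locG228 w₀ r hr)).det‖ ^ w.mult = 1 := by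
    intro w hw
    rw [infComp_eq_one_of_triv228 (trivAtInf_locG228 w₀ r hr hw), Matrix.det_one, norm_one,
      one_pow]
  have h0 : ‖(infComp w₀ (locG228 w₀ r hr)).det‖ ^ w₀.mult = (r ^ 2) ^ w₀.mult := by
    rw [infComp_locG228_self, Matrix.det_diagonal]
    simp only [Finset.prod_const, Finset.card_univ, Fintype.card_fin, norm_pow,
      Complex.norm_real, Real.norm_eq_abs, sq_abs]
  have h2 : ∀ v : HeightOneSpectrum (𝓞 K), ‖(finComp v (locG228 w₀ r hr)).det‖ = 1 := by
    intro v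
    have := trivAtFin_locG228 w₀ r hr v
    unfold TrivAtFin at this
    rw [this, Matrix.det_one, norm_one]
  rw [finprod_eq_one_of_forall_eq_one h2, mul_one,
    Finset.prod_eq_single w₀ (fun w _ hw => h1 w hw) (fun h => absurd (Finset.mem_univ _) h), h0]

/-- There is a positive scalar `z₀` at one infinite place with `‖det z₀‖_𝔸 = 2`. -/
theorem exists_scalar_two228 (K : Type) [Field K] [NumberField K] :
    ∃ (w₀ : InfinitePlace K) (z₀ : G K), IsArchPosScalar w₀ z₀ ∧ slabFn228 K z₀ = 2 := by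
  have w₀ : InfinitePlace K := Classical.arbitrary _
  set N : ℕ := w₀.mult with hN
  have hNpos : 0 < N := InfinitePlace.mult_pos
  set r : ℝ := (2 : ℝ) ^ ((1 : ℝ) / (2 * N)) with hr
  have hrpos : 0 < r := Real.rpow_pos_of_pos (by norm_num) _
  refine ⟨w₀, locG228 w₀ r hrpos.ne', isArchPosScalar_locG228 w₀ r hrpos, ?_⟩
  rw [slabFn228_locG, ← pow_mul, hr, ← Real.rpow_natCast, ← Real.rpow_mul (by norm_num)]
  have : (1 : ℝ) / (2 * N) * ((2 * N : ℕ) : ℝ) = 1 := by
    have hN0 : (N : ℝ) ≠ 0 := by exact_mod_cast hNpos.ne'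
    push_cast
    field_simp
  rw [this, Real.rpow_one]

/-! ## The unfolding group `GL₂(K) · z₀^ℤ` -/

/-- The subgroup `GL₂(K) · z₀^ℤ` of `G K`, for a central `z₀`. -/
def unfGrp228 (z₀ : G K) (hz : ∀ y : G K, z₀ * y = y * z₀) : Subgroup (G K) :=
  (MonoidHom.noncommCoprod (T1.ratG K) (zpowersHom (G K) z₀)
    (fun γ _ => ((Commute.zpow_right (show Commute (T1.ratG K γ) z₀ from (hz _).symm) _)))).range

theorem mem_unfGrp228 {z₀ : G K} {hz : ∀ y : G K, z₀ * y = y * z₀} {h : G K} :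
    h ∈ unfGrp228 z₀ hz ↔ ∃ (γ : GL (Fin 2) K) (n : ℤ), T1.ratG K γ * z₀ ^ n = h := by
  unfold unfGrp228
  rw [MonoidHom.mem_range]
  constructor
  · rintro ⟨⟨γ, n⟩, rfl⟩
    exact ⟨γ, Multiplicative.toAdd n, rfl⟩
  · rintro ⟨γ, n, rfl⟩
    exact ⟨(γ, Multiplicative.ofAdd n), rfl⟩

theorem countable_GL228 : Countable (GL (Fin 2) K) := by
  have : Countable K := countable_K228
  have : Countable (Matrix (Fin 2) (Fin 2) K) := by
    unfold Matrix; infer_instance
  exact Function.Injective.countable (f := fun g : GL (Fin 2) K =>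
    (g : Matrix (Fin 2) (Fin 2) K)) Units.val_injective

theorem countable_unfGrp228 (z₀ : G K) (hz : ∀ y : G K, z₀ * y = y * z₀) :
    Countable (unfGrp228 z₀ hz) := by
  have := countable_GL228 (K := K)
  unfold unfGrp228
  exact (Set.countable_range _).to_subtype

/-- **Unfolding**: for every `a` there is exactly one `h ∈ GL₂(K) · z₀^ℤ` with `h a ∈ D`. -/
theorem existsUnique_unf228 (hA : T1.AdNormC K) (F : Frame K) {z₀ : G K}
    (hz : ∀ y : G K, z₀ * y = y * z₀) (hz2 : slabFn228 K z₀ = 2) (a : G K) :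
    ∃! h : unfGrp228 z₀ hz, (h : G K) * a ∈ F.D := by
  have hpos := slabFn228_pos hA a
  -- existence
  obtain ⟨n, hn1, hn2⟩ := exists_mem_Ico_zpow (y := (2 : ℝ)) hpos (by norm_num)
  have hslab : z₀ ^ (-n) * a ∈ T1.slab K := by
    rw [mem_slab_iff228, slabFn228_mul hA, slabFn228_zpow hA, hz2, zpow_neg]
    have h2n : (0 : ℝ) < 2 ^ n := zpow_pos (by norm_num) n
    constructor
    · rw [inv_mul_eq_div, le_div_iff₀ h2n, one_mul]; exact hn1
    · rw [inv_mul_eq_div, div_lt_iff₀ h2n]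
      rw [zpow_add_one₀ (by norm_num : (2 : ℝ) ≠ 0)] at hn2
      linarith
  obtain ⟨γ, hγ, -⟩ := F.strict _ hslab
  have hmem : T1.ratG K γ * z₀ ^ (-n) ∈ unfGrp228 z₀ hz := mem_unfGrp228.2 ⟨γ, -n, rfl⟩
  refine ⟨⟨_, hmem⟩, ?_, ?_⟩
  · change T1.ratG K γ * z₀ ^ (-n) * a ∈ F.D
    rw [mul_assoc]; exact hγ
  · rintro ⟨h, hh⟩ hha
    change h * a ∈ F.D at hha
    obtain ⟨γ', n', rfl⟩ := mem_unfGrp228.1 hh
    have hs' : T1.ratG K γ' * z₀ ^ n' * a ∈ T1.slab K := F.sub hha
    rw [mem_slab_iff228, slabFn228_mul hA, slabFn228_mul hA, slabFn228_ratG hA, one_mul,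
      slabFn228_zpow hA, hz2] at hs'
    -- `n' = -n`
    have hnn : n' = -n := by
      by_contra hne
      rcases lt_or_gt_of_ne hne with hlt | hgt
      · -- n' < -n : 2^n' * s ≤ 2^(-n-1) * s < 1
        have h1 : n' + 1 ≤ -n := hlt
        have h2 : (2 : ℝ) ^ (n' + 1) ≤ 2 ^ (-n) := zpow_le_zpow_right₀ (by norm_num) h1
        rw [zpow_add_one₀ (by norm_num : (2 : ℝ) ≠ 0)] at h2
        have h3 : (2 : ℝ) ^ (-n) * slabFn228 K a < 2 := by
          rw [zpow_neg, inv_mul_eq_div, div_lt_iff₀ (zpow_pos (by norm_num) n)]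
          rw [zpow_add_one₀ (by norm_num : (2 : ℝ) ≠ 0)] at hn2
          linarith
        have h4 : (2 : ℝ) ^ n' * 2 * slabFn228 K a ≤ 2 ^ (-n) * slabFn228 K a :=
          mul_le_mul_of_nonneg_right h2 hpos.le
        nlinarith [hs'.1]
      · have h1 : -n + 1 ≤ n' := hgt
        have h2 : (2 : ℝ) ^ (-n + 1) ≤ 2 ^ n' := zpow_le_zpow_right₀ (by norm_num) h1
        rw [zpow_add_one₀ (by norm_num : (2 : ℝ) ≠ 0)] at h2
        have h3 : 1 ≤ (2 : ℝ) ^ (-n) * slabFn228 K a := by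
          rw [zpow_neg, inv_mul_eq_div, le_div_iff₀ (zpow_pos (by norm_num) n), one_mul]
          exact hn1
        have h4 : (2 : ℝ) ^ (-n) * 2 * slabFn228 K a ≤ 2 ^ n' * slabFn228 K a :=
          mul_le_mul_of_nonneg_right h2 hpos.le
        nlinarith [hs'.2]
    subst hnn
    have hγ' : T1.ratG K γ' * (z₀ ^ (-n) * a) ∈ F.D := by
      rw [← mul_assoc]; exact hha
    have huniq := (F.strict _ hslab).unique hγ' hγ
    apply Subtype.ext
    change T1.ratG K γ' * z₀ ^ (-n) = T1.ratG K γ * z₀ ^ (-n)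
    rw [huniq]

end Fermat.Agent.LT.T2.H228

end

end
-- ===== PACK-END LT/T2/H228/Unfold.lean

-- ===== PACK-BEGIN LT/T2/H79/CommConvHeckeT.lean
section




/-!
# Row LT, tower T2, sub-leaf T2.27.11 `SubCommConvHeckeT291` -- helper79, registry 1393

OFF-MAIN.  `subCommConvHeckeT_79 K : H291.SubCommConvHeckeT291 K`, VERBATIM against
`LT/T2/H291/OpsSpecT.lean` (helper291@22c6ecc98, sha256 `c8359c85…`).

A convolution by a spherical test function of type `τ` commutes with a Hecke sum at a place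
`v ∤ 𝔫`, on the cusp functions of the class `(𝔫, τ, r)`.  This is the Spec-independent core
`H972.conv_hecke_comm972` of helper972 (`LT/H972/GelfandCore.lean`, byte-identical copy, imported:
Gelfand's trick at `v`) applied to the Haar measure of the frame: it is right invariant by
`T1.UnimodC`; a function of level `U(𝔫)` is invariant under `GL₂(𝒪_v)` at `v ∤ 𝔫`
(`H129.inLevelGroup_of_localMaxCpt129`).  The type `τ`, the ray generator `r` and cuspidality play
no role.
-/

set_option autoImplicit false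

open IsDedekindDomain NumberField MeasureTheory AutomorphicForm
open Fermat.Agent.LT.H556.A0

noncomputable section

namespace Fermat.Agent.LT.T2.H79

open Fermat.Agent.LT Fermat.Agent.LT.T2 Fermat.Agent.LT.T2.H291 Fermat.Agent.LT.H129

attribute [local instance] Fermat.Agent.LT.T2.borelG

/-- **T2.27.11** (registry row 1393), VERBATIM. -/
theorem subCommConvHeckeT_79 (K : Type) [Field K] [NumberField K] : SubCommConvHeckeT291 K := by
  intro 𝔫 τ c R f hf v hv H hH φ hφ
  have : BorelSpace (G K) := ⟨rfl⟩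
  have := R.F.haar
  have : R.F.μ.IsMulRightInvariant := c.t1.unimod R.F.μ R.F.haar
  funext x
  change ∫ y, (∑ h ∈ H, φ (x * y * h)) * f y ∂(R.F.μ)
    = ∑ h ∈ H, ∫ y, φ (x * h * y) * f y ∂(R.F.μ)
  exact H972.conv_hecke_comm972 hH R.F.μ hφ.aut.cont
    (fun u hu g => hφ.aut.level_inv u (inLevelGroup_of_localMaxCpt129 hv hu) g)
    hf.test.cont hf.test.cpt
    ⟨fun u hu g => hf.test.level_right u (inLevelGroup_of_localMaxCpt129 hv hu) g,
      fun u hu g => hf.test.level_left u (inLevelGroup_of_localMaxCpt129 hv hu) g⟩ x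

end Fermat.Agent.LT.T2.H79

end

end
-- ===== PACK-END LT/T2/H79/CommConvHeckeT.lean

-- ===== PACK-BEGIN LT/T2/H378/CommSphereT.lean
section






/-!
# Row LT, tower T2, leaf T2.27.18 `SubCommSphereSphereT291` (helper378)

OFF-MAIN.  Two sphere means commute on the cusp functions of the class `(𝔫, τ, r)`.

The proof is the POINTWISE proof of helper841 for `T2.07.18` (files `LT/T2/H841/*.lean`, imported
byte-identical), with ONE change.  A function of the class is right invariant under `SU(2)` at a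
complex place (`τ` is trivial on `SU(2)`: `SubTypeSU2T291`, T2.27.33) but NOT under the positive
scalars at that place, so the average over the annulus `qA` is taken over the NORMALISED
quaternion `nq378 q = qmat (q / √(qN q)) ∈ SU(2)` instead of `qmat q ∈ ℝ_{>0} · SU(2)`:

    psiT378 φ g m = ∫_{qA} φ(g · ι(nq378 q · m)) dq

is left invariant under `SU(2)` (the Lebesgue measure of `ℂ²` and `qN` are invariant under right
multiplication by `SU(2)`), right invariant under `SU(2)`, hence invariant under the transposition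
of real matrices of determinant `≠ 0` (Cartan decomposition, helper555); all matrices which occur
(`rotZ`, `rotY`, `torus`) have determinant `1`.

Inputs taken as hypotheses: `SubSpherePresT291 K` (T2.27.12), `SubTypeSU2T291 K` (T2.27.33).
Closed inputs: `subLocCont472` (helper472), `subCartanInf555` (helper555), the files of helper841.
-/

set_option autoImplicit false
set_option linter.unusedSectionVars false

open IsDedekindDomain NumberField MeasureTheory
open Fermat.Agent.LT.H556.A0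
open Fermat.Agent.LT.T2 Fermat.Agent.LT.T2.H429 Fermat.Agent.LT.T2.H291
open Fermat.Agent.LT.T2.H841

noncomputable section

namespace Fermat.Agent.LT.T2.H378

variable {K : Type} [Field K] [NumberField K]

/-! ## 1. The normalised quaternion -/

/-- `qmat q · (qmat q)ᴴ = qN q`. -/
theorem qmat_mul_conjTranspose378 (q : ℂ × ℂ) :
    qmat q * (qmat q).conjTranspose = ((qN q : ℝ) : ℂ) • (1 : Matrix (Fin 2) (Fin 2) ℂ) := by
  unfold qmat qN
  ext i j
  fin_cases i <;> fin_cases j <;>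
  simp [Matrix.mul_apply, Fin.sum_univ_two, Matrix.conjTranspose_apply,
    Complex.normSq_eq_conj_mul_self] <;> ring

theorem qN_smul378 (r : ℝ) (q : ℂ × ℂ) : qN (r • q) = r ^ 2 * qN q := by
  unfold qN
  simp only [Prod.smul_fst, Prod.smul_snd, Complex.real_smul, Complex.normSq_mul,
    Complex.normSq_ofReal]
  ring

/-- The normalised vector `q / √(qN q)`. -/
def nv378 (q : ℂ × ℂ) : ℂ × ℂ := ((Real.sqrt (qN q))⁻¹ : ℝ) • q

/-- The normalised quaternion, an element of `SU(2)` for `q ≠ 0`. -/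
def nq378 (q : ℂ × ℂ) : Matrix (Fin 2) (Fin 2) ℂ := qmat (nv378 q)

theorem qN_nv378 {q : ℂ × ℂ} (hq : 0 < qN q) : qN (nv378 q) = 1 := by
  unfold nv378
  rw [qN_smul378, inv_pow, Real.sq_sqrt hq.le]
  exact inv_mul_cancel₀ hq.ne'

theorem nq_unitary378 {q : ℂ × ℂ} (hq : 0 < qN q) :
    nq378 q * (nq378 q).conjTranspose = 1 := by
  unfold nq378
  rw [qmat_mul_conjTranspose378, qN_nv378 hq]
  simp

theorem det_nq378 {q : ℂ × ℂ} (hq : 0 < qN q) : (nq378 q).det = 1 := by
  unfold nq378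
  rw [det_qmat, qN_nv378 hq]
  simp

theorem det_nq_ne378 {q : ℂ × ℂ} (hq : 0 < qN q) : (nq378 q).det ≠ 0 := by
  rw [det_nq378 hq]; exact one_ne_zero

theorem nq_qT378 (a c : ℂ) (h : Complex.normSq a + Complex.normSq c = 1) (q : ℂ × ℂ) :
    nq378 (qT a c q) = nq378 q * suMat a c := by
  unfold nq378 nv378
  rw [qN_qT a c h, ← qmat_qT, map_smul]

theorem continuousOn_nq378 : ContinuousOn nq378 qA := by
  unfold nq378 nv378
  have h1 : ContinuousOn (fun q : ℂ × ℂ => ((Real.sqrt (qN q))⁻¹ : ℝ)) qA := by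
    refine ContinuousOn.inv₀ (Real.continuous_sqrt.comp continuous_qN).continuousOn ?_
    intro q hq
    exact (Real.sqrt_pos.mpr (qN_pos_of_mem hq)).ne'
  have h2 : ContinuousOn (fun q : ℂ × ℂ => ((Real.sqrt (qN q))⁻¹ : ℝ) • q) qA :=
    h1.smul continuousOn_id
  exact continuous_qmat.comp_continuousOn h2

section

variable (w : InfinitePlace K) (hw : w.IsComplex)

/-! ## 2. The averaged function -/

theorem det_nq_mul_ne378 {q : ℂ × ℂ} (hq : q ∈ qA) {m : Matrix (Fin 2) (Fin 2) ℂ}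
    (hm : m.det ≠ 0) : (nq378 q * m).det ≠ 0 := by
  rw [Matrix.det_mul]
  exact mul_ne_zero (det_nq_ne378 (qN_pos_of_mem hq)) hm

/-- `q ↦ ι(nq378 q · m)` is continuous on the annulus. -/
theorem continuousOn_iota_nq378 {m : Matrix (Fin 2) (Fin 2) ℂ} (hm : m.det ≠ 0) :
    ContinuousOn (fun q : ℂ × ℂ => iota841 w hw (nq378 q * m)) qA := by
  rw [continuousOn_iff_continuous_domRestrict]
  refine H472.subLocCont472 K w qA (qA.domRestrict fun q => iota841 w hw (nq378 q * m))
    (fun q => isLocalAtInf_iota841 w hw _) (fun i j => ?_)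
  have h : (fun q : qA => infComp w (qA.domRestrict (fun q => iota841 w hw (nq378 q * m)) q) i j)
      = fun q : qA => (nq378 q.1 * m) i j := by
    funext q
    rw [Set.domRestrict_apply, infComp_iota841 w hw (det_nq_mul_ne378 q.2 hm)]
  rw [h]
  have h3 : Continuous fun q : qA => nq378 q.1 :=
    continuousOn_nq378.comp_continuous continuous_subtype_val (fun q => q.2)
  exact (h3.matrix_mul continuous_const).matrix_elem i j

theorem continuousOn_iota_nq_one378 :
    ContinuousOn (fun q : ℂ × ℂ => iota841 w hw (nq378 q)) qA := by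
  have h := continuousOn_iota_nq378 w hw (m := 1) (by simp)
  simpa only [mul_one] using h

/-- The averaged function. -/
def psiT378 (φ : G K → ℂ) (g : G K) (m : Matrix (Fin 2) (Fin 2) ℂ) : ℂ :=
  ∫ q in qA, φ (g * iota841 w hw (nq378 q * m))

/-- Right invariance under `SU(2)`. -/
theorem psiT_mul_su378 {φ : G K → ℂ}
    (hφ : ∀ k : Matrix (Fin 2) (Fin 2) ℂ, k * k.conjTranspose = 1 → k.det = 1 →
      ∀ g : G K, φ (g * iota841 w hw k) = φ g) (g : G K)
    {m : Matrix (Fin 2) (Fin 2) ℂ} (hm : m.det ≠ 0) {k : Matrix (Fin 2) (Fin 2) ℂ}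
    (hk : k * k.conjTranspose = 1) (hd : k.det = 1) :
    psiT378 w hw φ g (m * k) = psiT378 w hw φ g m := by
  unfold psiT378
  refine setIntegral_congr_fun measurableSet_qA (fun q hq => ?_)
  show φ (g * iota841 w hw (nq378 q * (m * k))) = φ (g * iota841 w hw (nq378 q * m))
  rw [← mul_assoc, iota841_mul w hw (det_nq_mul_ne378 hq hm) (det_ne_zero_of_unitary841 hk),
    ← mul_assoc]
  exact hφ k hk hd _

/-- Left invariance under `SU(2)`, in the form `suMat`. -/
theorem psiT_suMat_mul378 (φ : G K → ℂ) (g : G K) (a c : ℂ)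
    (h : Complex.normSq a + Complex.normSq c = 1) (m : Matrix (Fin 2) (Fin 2) ℂ) :
    psiT378 w hw φ g (suMat a c * m) = psiT378 w hw φ g m := by
  unfold psiT378
  have h1 := setIntegral_qA_comp_qT a c h (fun q => φ (g * iota841 w hw (nq378 q * m)))
  rw [← h1]
  refine setIntegral_congr_fun measurableSet_qA (fun q _ => ?_)
  show φ (g * iota841 w hw (nq378 q * (suMat a c * m)))
    = φ (g * iota841 w hw (nq378 (qT a c q) * m))
  rw [nq_qT378 a c h, mul_assoc]

/-- Left invariance under `SU(2)`. -/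
theorem psiT_su_mul378 (φ : G K → ℂ) (g : G K) {k : Matrix (Fin 2) (Fin 2) ℂ}
    (hk : k * k.conjTranspose = 1) (hd : k.det = 1) (m : Matrix (Fin 2) (Fin 2) ℂ) :
    psiT378 w hw φ g (k * m) = psiT378 w hw φ g m := by
  obtain ⟨hs, hn⟩ := su_shape841 hk hd
  rw [hs]
  exact psiT_suMat_mul378 w hw φ g _ _ hn m

/-- Invariance under the transposition of real matrices (Cartan decomposition). -/
theorem psiT_transpose378 {φ : G K → ℂ}
    (hφ : ∀ k : Matrix (Fin 2) (Fin 2) ℂ, k * k.conjTranspose = 1 → k.det = 1 →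
      ∀ g : G K, φ (g * iota841 w hw k) = φ g) (g : G K)
    {X : Matrix (Fin 2) (Fin 2) ℂ} (hX : X.det ≠ 0) (hr : ∀ i j, (X i j).im = 0) :
    psiT378 w hw φ g X.transpose = psiT378 w hw φ g X := by
  obtain ⟨k₁, k₂, a, b, hk₁, hk₂, hXe, hreal⟩ := H555.subCartanInf555 X hX
  obtain ⟨-, -, hd₁, hd₂, -, -⟩ := hreal hr
  have hD : (Matrix.diagonal ![a, b]).det ≠ 0 := by
    intro h0
    apply hX
    rw [hXe, Matrix.det_mul, Matrix.det_mul, h0]
    simp
  have e1 : psiT378 w hw φ g X = psiT378 w hw φ g (Matrix.diagonal ![a, b]) := by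
    rw [hXe, mul_assoc, psiT_su_mul378 w hw φ g hk₁ hd₁,
      psiT_mul_su378 w hw hφ g hD hk₂ hd₂]
  have hT : X.transpose = k₂.transpose * (Matrix.diagonal ![a, b] * k₁.transpose) := by
    rw [hXe, Matrix.transpose_mul, Matrix.transpose_mul, Matrix.diagonal_transpose]
  have e2 : psiT378 w hw φ g X.transpose = psiT378 w hw φ g (Matrix.diagonal ![a, b]) := by
    rw [hT, psiT_su_mul378 w hw φ g (conjTranspose_transpose_unitary841 hk₂)
        (by rw [Matrix.det_transpose]; exact hd₂),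
      psiT_mul_su378 w hw hφ g hD (conjTranspose_transpose_unitary841 hk₁)
        (by rw [Matrix.det_transpose]; exact hd₁)]
  rw [e1, e2]

theorem det_dmatInv378 : dmatInv841.det = 1 := by
  unfold dmatInv841
  rw [Matrix.det_fin_two_of]
  simp

/-- **Symmetry** of the averaged function on the middle matrices. -/
theorem psiT_mid_symm378 {φ : G K → ℂ}
    (hφ : ∀ k : Matrix (Fin 2) (Fin 2) ℂ, k * k.conjTranspose = 1 → k.det = 1 →
      ∀ g : G K, φ (g * iota841 w hw k) = φ g) (g : G K) (d β d' : ℝ) :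
    psiT378 w hw φ g (midM841 d β d') = psiT378 w hw φ g (midM841 d' β d) := by
  have hdet : ∀ x y z : ℝ, (midM841 x y z).det ≠ 0 := fun x y z => by
    rw [det_midM841]; exact one_ne_zero
  rw [← psiT_transpose378 w hw hφ g (hdet d β d') (midM841_real d β d'),
    midM841_transpose, mul_assoc]
  unfold dmat841
  rw [psiT_suMat_mul378 w hw φ g _ _ normSq_dmat841,
    psiT_mul_su378 w hw hφ g (hdet d' β d) dmatInv841_unitary det_dmatInv378]

/-- The averaged function on a product of two sphere matrices. -/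
theorem psiT_sph_mul378 (φ : G K → ℂ) (g : G K) (d d' α β α' β' : ℝ) :
    psiT378 w hw φ g (sphM841 d α β * sphM841 d' α' β')
      = psiT378 w hw φ g (midM841 d β' d') := by
  have e : sphM841 d α β * sphM841 d' α' β'
      = rotZ α * (rotY β * (rotZ α' * midM841 d β' d')) := by
    unfold sphM841 midM841
    have h := rotZ_mul_torus841 α' d
    calc rotZ α * rotY β * torus d * (rotZ α' * rotY β' * torus d')
        = rotZ α * rotY β * ((torus d * rotZ α') * rotY β' * torus d') := by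
          simp only [mul_assoc]
      _ = rotZ α * rotY β * ((rotZ α' * torus d) * rotY β' * torus d') := by rw [h]
      _ = rotZ α * (rotY β * (rotZ α' * (torus d * rotY β' * torus d'))) := by
          simp only [mul_assoc]
  rw [e, rotZ_eq_suMat841 α, psiT_suMat_mul378 w hw φ g _ _ (normSq_rotZ841 α),
    rotY_eq_suMat841 β, psiT_suMat_mul378 w hw φ g _ _ (normSq_rotY841 β),
    rotZ_eq_suMat841 α', psiT_suMat_mul378 w hw φ g _ _ (normSq_rotZ841 α')]

/-! ## 3. The class -/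

/-- A function of the class is right invariant under `SU(2)` at the complex place `w`. -/
theorem su_inv378 (hS : SubTypeSU2T291 K) {𝔫 : Ideal (𝓞 K)} {τ : G K → ℂ} (hτ : IsKType τ)
    {r : G K} {Q : G K → ℂ} (hQ : IsCuspT 𝔫 τ r Q) (k : Matrix (Fin 2) (Fin 2) ℂ)
    (hk : k * k.conjTranspose = 1) (hd : k.det = 1) (g : G K) :
    Q (g * iota841 w hw k) = Q g := by
  have hc : IsArchCompact w (iota841 w hw k) := isArchCompact_iota841 w hw hk
  have h1 : τ (iota841 w hw k) = 1 := by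
    refine hS τ hτ w hw _ hc ?_
    rw [infComp_iota841 w hw (det_ne_zero_of_unitary841 hk)]
    exact hd
  rw [hQ.aut.arch_compact w _ hc g, h1, one_mul]

/-- A function of the class is invariant under `ι(nq378 q)`, `q` in the annulus. -/
theorem avg_cuspT378 (hS : SubTypeSU2T291 K) {𝔫 : Ideal (𝓞 K)} {τ : G K → ℂ} (hτ : IsKType τ)
    {r : G K} {Q : G K → ℂ} (hQ : IsCuspT 𝔫 τ r Q) (g : G K) {q : ℂ × ℂ} (hq : q ∈ qA) :
    Q (g * iota841 w hw (nq378 q)) = Q g :=
  su_inv378 w hw hS hτ hQ _ (nq_unitary378 (qN_pos_of_mem hq)) (det_nq378 (qN_pos_of_mem hq)) g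

/-- **Key formula**: `vol(qA) · (M_Y M_Y' φ)(g)` in terms of the averaged function. -/
theorem keyT378 (hP : SubSpherePresT291 K) (hS : SubTypeSU2T291 K) {𝔫 : Ideal (𝓞 K)}
    {τ : G K → ℂ} (c : CtxT291 K 𝔫 τ) (R : FrameR K) {φ : G K → ℂ} (hφ : IsCuspT 𝔫 τ R.r φ)
    {d d' : ℝ} (hd : 0 < d) (hd' : 0 < d')
    {Y Y' : ℝ → ℝ → G K} (hY : IsSphereAt w d Y) (hY' : IsSphereAt w d' Y') (g : G K) :
    ((((volume : Measure (ℂ × ℂ)) qA).toReal : ℝ) : ℂ) * sphereMean Y (sphereMean Y' φ) g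
      = ∫ α in (0 : ℝ)..(2 * Real.pi), ∫ β in (0 : ℝ)..Real.pi,
          (∫ α' in (0 : ℝ)..(2 * Real.pi), ∫ β' in (0 : ℝ)..Real.pi,
            psiT378 w hw φ g (midM841 d β' d') * ((Real.sin β' : ℝ) : ℂ))
          * ((Real.sin β : ℝ) : ℂ) := by
  have hL : SubLocCont429 K := H472.subLocCont472 K
  have h1 : IsCuspT 𝔫 τ R.r (sphereMean Y' φ) := hP 𝔫 τ c R w hw d' hd' Y' hY' φ hφ
  have h2 : IsCuspT 𝔫 τ R.r (sphereMean Y (sphereMean Y' φ)) :=
    hP 𝔫 τ c R w hw d hd Y hY _ h1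
  have s1 : (∫ q in qA, sphereMean Y (sphereMean Y' φ) (g * iota841 w hw (nq378 q)))
      = ((((volume : Measure (ℂ × ℂ)) qA).toReal : ℝ) : ℂ)
        * sphereMean Y (sphereMean Y' φ) g := by
    rw [setIntegral_congr_fun measurableSet_qA
        (fun q hq => avg_cuspT378 w hw hS c.kt h2 g hq), setIntegral_const]
    simp [Measure.real, Complex.real_smul]
  rw [← s1, fubini_sphere841 w hL h1.aut.cont h1.aut.bdd
    (H₁ := fun q => g * iota841 w hw (nq378 q))
    (continuous_const.continuousOn.mul (continuousOn_iota_nq_one378 w hw)) hY]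
  refine intervalIntegral.integral_congr fun α _ => ?_
  refine intervalIntegral.integral_congr fun β _ => ?_
  show (∫ q in qA, sphereMean Y' φ (g * iota841 w hw (nq378 q) * Y α β))
      * ((Real.sin β : ℝ) : ℂ) = _
  congr 1
  have hH : ContinuousOn (fun q : ℂ × ℂ => g * iota841 w hw (nq378 q) * Y α β) qA :=
    (continuous_const.continuousOn.mul (continuousOn_iota_nq_one378 w hw)).mul
      continuous_const.continuousOn
  rw [fubini_sphere841 w hL hφ.aut.cont hφ.aut.bdd
    (H₁ := fun q => g * iota841 w hw (nq378 q) * Y α β) hH hY']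
  refine intervalIntegral.integral_congr fun α' _ => ?_
  refine intervalIntegral.integral_congr fun β' _ => ?_
  show (∫ q in qA, φ (g * iota841 w hw (nq378 q) * Y α β * Y' α' β'))
      * ((Real.sin β' : ℝ) : ℂ) = _
  congr 1
  rw [← psiT_sph_mul378 w hw φ g d d' α β α' β']
  unfold psiT378
  refine setIntegral_congr_fun measurableSet_qA (fun q hq => ?_)
  show φ (g * iota841 w hw (nq378 q) * Y α β * Y' α' β')
    = φ (g * iota841 w hw (nq378 q * (sphM841 d α β * sphM841 d' α' β')))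
  have hS' : (sphM841 d α β * sphM841 d' α' β').det ≠ 0 := by
    rw [Matrix.det_mul]
    exact mul_ne_zero (det_sphM841_ne _ _ _) (det_sphM841_ne _ _ _)
  rw [iota841_mul w hw (det_nq_ne378 (qN_pos_of_mem hq)) hS',
    iota841_mul w hw (det_sphM841_ne _ _ _) (det_sphM841_ne _ _ _),
    sphere_eq_iota841 w hw hY, sphere_eq_iota841 w hw hY']
  simp only [mul_assoc]

include hw in
/-- Two sphere means at the SAME complex place commute on the cusp functions of the class. -/
theorem comm_sameT378 (hP : SubSpherePresT291 K) (hS : SubTypeSU2T291 K) {𝔫 : Ideal (𝓞 K)}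
    {τ : G K → ℂ} (c : CtxT291 K 𝔫 τ) (R : FrameR K) {φ : G K → ℂ} (hφ : IsCuspT 𝔫 τ R.r φ)
    {d d' : ℝ} (hd : 0 < d) (hd' : 0 < d') {Y Y' : ℝ → ℝ → G K} (hY : IsSphereAt w d Y)
    (hY' : IsSphereAt w d' Y') (g : G K) :
    sphereMean Y (sphereMean Y' φ) g = sphereMean Y' (sphereMean Y φ) g := by
  have k1 := keyT378 w hw hP hS c R hφ hd hd' hY hY' g
  have k2 := keyT378 w hw hP hS c R hφ hd' hd hY' hY g
  have hsym : ∀ β' : ℝ, psiT378 w hw φ g (midM841 d β' d')
      = psiT378 w hw φ g (midM841 d' β' d) :=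
    fun β' => psiT_mid_symm378 w hw (fun k hk hdk g' => su_inv378 w hw hS c.kt hφ k hk hdk g')
      g d β' d'
  simp only [hsym] at k1
  have hv : ((((volume : Measure (ℂ × ℂ)) qA).toReal : ℝ) : ℂ) ≠ 0 := by
    have := ENNReal.toReal_pos volume_qA_pos.ne' volume_qA_lt_top.ne
    exact_mod_cast this.ne'
  exact mul_left_cancel₀ hv (k1.trans k2.symm)

end

/-- **LEAF T2.27.18** `SubCommSphereSphereT291`, from the sub-leaves T2.27.12
(`SubSpherePresT291`) and T2.27.33 (`SubTypeSU2T291`). -/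
theorem subCommSphereSphereT378 (hP : SubSpherePresT291 K) (hS : SubTypeSU2T291 K) :
    SubCommSphereSphereT291 K := by
  intro 𝔫 τ c R w hw d hd Y hY w' hw' d' hd' Y' hY' φ hφ
  funext g
  by_cases hww : w = w'
  · subst hww
    exact comm_sameT378 w hw hP hS c R hφ hd hd' hY hY' g
  · exact comm_diff841 (H472.subLocCont472 K) hww hφ.aut.cont hφ.aut.bdd hY hY' g

end Fermat.Agent.LT.T2.H378

end

end
-- ===== PACK-END LT/T2/H378/CommSphereT.lean

-- ===== PACK-BEGIN LT/T2/H899/MeanCoreT.lean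
section









/-!
# Row LT, tower T2, sub-leaves T2.27.15 / T2.27.16 (helper899): common core of the `T`-forms

OFF-MAIN.  Vocabulary: `LT/H556/A0.lean`, `LT/T1/Spec.lean`, `LT/T2/Spec.lean` (v3),
`LT/T2/SpecTau.lean`, `LT/T2/H291/OpsSpecT.lean` (helper291, sha256 c8359c85), byte-identical
copies; assets `locCont472` (helper472) and the component calculus / matrix identities of
helper770 (`LT/T2/H770/{Comp,MeanAdj}.lean`), byte-identical copies.  Nothing is assumed, no opaque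
constant, no placeholder proof.

* `TranslInvT899 R` = the statement of T2.27.00 (`SubTranslT291`) for the frame `R`.
* `rayGen_central899`: the ray generator is central.
* `isArchCompact_rot899`, `continuous_rot899`, `continuous_sphereT899`: the parametrisations.
* `tau_ne_zero899`, `norm_tau_inv899`, `conj_tau_inv899`, `continuous_tau_rot899`: the type on
  the compact group at `w`.
-/

set_option autoImplicit false
set_option linter.unusedSectionVars false

open IsDedekindDomain NumberField MeasureTheory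
open Fermat.Agent.LT.H556.A0
open Fermat.Agent.LT.T2 Fermat.Agent.LT.T2.H472 Fermat.Agent.LT.T2.H770
open scoped ComplexConjugate

noncomputable section

namespace Fermat.Agent.LT.T2.H899

variable {K : Type} [Field K] [NumberField K]

attribute [local instance] Fermat.Agent.LT.T2.borelG

/-! ## 1. The KEY LEMMA for one frame -/

/-- The statement of T2.27.00 (`SubTranslT291`) for one frame. -/
def TranslInvT899 (R : FrameR K) : Prop :=
  ∀ (Φ : G K → ℂ),
    (∀ (γ : GL (Fin 2) K) (g : G K), Φ (T1.ratG K γ * g) = Φ g) →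
    (∀ g : G K, Φ (g * R.r) = Φ g) →
    ∀ h : G K, ∫ g in R.F.D, Φ (g * h) ∂(R.F.μ) = ∫ g in R.F.D, Φ g ∂(R.F.μ)

theorem translInvT_of_sub899 (hT : H291.SubTranslT291 K) (h1 : T1.T1Out K) (R : FrameR K) :
    TranslInvT899 R := fun Φ hl hr h => hT h1 R Φ hl hr h

/-! ## 2. The ray generator -/

theorem rayGen_diagPos899 {r : G K} (hr : IsRayGen r) : IsDiagPosScalar r := by
  obtain ⟨hfin, t, ht, -, hinf⟩ := hr
  exact ⟨hfin, t, ht, hinf⟩

/-- The ray generator is central. -/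
theorem rayGen_central899 {r : G K} (hr : IsRayGen r) (g : G K) : g * r = r * g :=
  diagPos_central770 (rayGen_diagPos899 hr) g

/-! ## 3. The parametrisations -/

theorem isArchCompact_rot899 {w : InfinitePlace K} {k : ℝ → G K} (hk : IsRotAt w k) (θ : ℝ) :
    IsArchCompact w (k θ) :=
  ⟨(hk θ).1, by rw [(hk θ).2]; exact rotY_unitary770 θ, fun _ => by
    rw [(hk θ).2]; exact rotY_det770 θ⟩

theorem continuous_rotY899 : Continuous rotY := by
  refine continuous_matrix fun i j => ?_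
  fin_cases i <;> fin_cases j <;> simp [rotY] <;> fun_prop

theorem continuous_rotZ899 : Continuous rotZ := by
  refine continuous_matrix fun i j => ?_
  fin_cases i <;> fin_cases j <;> simp [rotZ] <;> fun_prop

/-- The parametrisation of the rotations at a real place is continuous. -/
theorem continuous_rot899 {w : InfinitePlace K} {k : ℝ → G K} (hk : IsRotAt w k) :
    Continuous k := by
  refine locCont472 K w ℝ k (fun θ => (hk θ).1) (fun i j => ?_)
  have h1 : (fun θ : ℝ => infComp w (k θ) i j) = fun θ : ℝ => rotY θ i j := by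
    funext θ
    rw [(hk θ).2]
  rw [h1]
  exact continuous_rotY899.matrix_elem i j

/-- The parametrisation of a sphere is continuous. -/
theorem continuous_sphereT899 {w : InfinitePlace K} {d : ℝ} {Y : ℝ → ℝ → G K}
    (hY : IsSphereAt w d Y) : Continuous (fun p : ℝ × ℝ => Y p.1 p.2) := by
  refine locCont472 K w (ℝ × ℝ) _ (fun p => (hY p.1 p.2).1) (fun i j => ?_)
  have h1 : (fun p : ℝ × ℝ => infComp w (Y p.1 p.2) i j)
      = fun p : ℝ × ℝ => (rotZ p.1 * rotY p.2 * torus d) i j := by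
    funext p
    rw [(hY p.1 p.2).2]
  rw [h1]
  have h2 : Continuous (fun p : ℝ × ℝ => rotZ p.1 * rotY p.2 * torus d) :=
    ((continuous_rotZ899.comp continuous_fst).matrix_mul
      (continuous_rotY899.comp continuous_snd)).matrix_mul continuous_const
  exact h2.matrix_elem i j

/-! ## 4. The type on the compact group at `w` -/

theorem tau_ne_zero899 {τ : G K → ℂ} (hτ : IsKType τ) {w : InfinitePlace K} {k : G K}
    (hk : IsArchCompact w k) : τ k ≠ 0 := by
  intro h
  have := hτ.norm_one w k hk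
  rw [h, norm_zero] at this
  exact zero_ne_one this

theorem norm_tau_inv899 {τ : G K → ℂ} (hτ : IsKType τ) {w : InfinitePlace K} {k : G K}
    (hk : IsArchCompact w k) : ‖(τ k)⁻¹‖ = 1 := by
  rw [norm_inv, hτ.norm_one w k hk, inv_one]

/-- `conj τ(k) = τ(k)⁻¹`. -/
theorem conj_tau899 {τ : G K → ℂ} (hτ : IsKType τ) {w : InfinitePlace K} {k : G K}
    (hk : IsArchCompact w k) : conj (τ k) = (τ k)⁻¹ := by
  have h0 := tau_ne_zero899 hτ hk
  have h1 : τ k * conj (τ k) = 1 := by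
    rw [Complex.mul_conj, Complex.normSq_eq_norm_sq, hτ.norm_one w k hk]
    simp
  field_simp
  rw [mul_comm]
  exact h1

/-- `conj (τ(k)⁻¹) = τ(k)`. -/
theorem conj_tau_inv899 {τ : G K → ℂ} (hτ : IsKType τ) {w : InfinitePlace K} {k : G K}
    (hk : IsArchCompact w k) : conj ((τ k)⁻¹) = τ k := by
  rw [map_inv₀, conj_tau899 hτ hk, inv_inv]

/-- `θ ↦ τ(k_θ)` is continuous. -/
theorem continuous_tau_rot899 {τ : G K → ℂ} (hτ : IsKType τ) {w : InfinitePlace K}
    {k : ℝ → G K} (hk : IsRotAt w k) : Continuous (fun θ => τ (k θ)) := by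
  have h1 : ContinuousOn τ {x : G K | IsArchCompact w x} := hτ.cont w
  have h2 : Continuous k := continuous_rot899 hk
  have h3 : ∀ θ, k θ ∈ {x : G K | IsArchCompact w x} := fun θ => isArchCompact_rot899 hk θ
  exact h1.comp_continuous h2 h3

/-- `θ ↦ τ(k_θ)⁻¹` is continuous. -/
theorem continuous_tau_rot_inv899 {τ : G K → ℂ} (hτ : IsKType τ) {w : InfinitePlace K}
    {k : ℝ → G K} (hk : IsRotAt w k) : Continuous (fun θ => (τ (k θ))⁻¹) :=
  (continuous_tau_rot899 hτ hk).inv₀ (fun θ => tau_ne_zero899 hτ (isArchCompact_rot899 hk θ))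

end Fermat.Agent.LT.T2.H899

end

end
-- ===== PACK-END LT/T2/H899/MeanCoreT.lean

-- ===== PACK-BEGIN LT/T2/H767/Int.lean
section



/-!
# Row LT, tower T2, sub-leaf T2.03c.2 = `LeafInt` (helper767): the integration step

OFF-MAIN.  `leafInt767 : LeafInt K` for every number field `K`: the count `CountC` gives the local
`L²` bound `H386.LocalL2`.  Nothing assumed.
-/

set_option autoImplicit false
set_option linter.unusedSectionVars false

open IsDedekindDomain NumberField MeasureTheory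
open Fermat.Agent.LT.H556.A0
open Fermat.Agent.LT

noncomputable section

namespace Fermat.Agent.LT.T2.H767

open Fermat.Agent.LT.T2 Fermat.Agent.LT.T2.H245

/-- **Covering lemma.**  `μ` a left and right invariant measure on a group `H`, `Γ` a countable
group acting by left translations through `ρ`, `f ≥ 0` measurable, left `Γ`-invariant and right
`z`-invariant; if every point of `x S z` has a `Γ`-translate in `D` and at most `Bt` elements of
`Γ` lie in `x Ω Ω⁻¹ x⁻¹`, then `∫_{Ω ∩ S} f(x h) dμ(h) ≤ Bt ∫_D f dμ`. -/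
theorem lintegral_cover_le767 {H Γ : Type*} [Group H] [Group Γ] [Countable Γ]
    [MeasurableSpace H] [MeasurableMul H] (μ : Measure H) [μ.IsMulLeftInvariant]
    [μ.IsMulRightInvariant] (ρ : Γ →* H) (D Ω S : Set H) (hD : MeasurableSet D)
    (hΩ : MeasurableSet Ω) (f : H → ENNReal) (hf : Measurable f)
    (hfl : ∀ (γ : Γ) (g : H), f (ρ γ * g) = f g) (x z : H) (hfz : ∀ g : H, f (g * z) = f g)
    (hS : ∀ h ∈ S, ∃ γ : Γ, ρ γ * (x * h * z) ∈ D) (Bt : ℝ)
    (hcount : ∀ T : Finset Γ,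
      (∀ δ ∈ T, ∃ a ∈ Ω, ∃ b ∈ Ω, ρ δ * x = x * (a * b⁻¹)) → (T.card : ℝ) ≤ Bt) :
    ∫⁻ h in Ω ∩ S, f (x * h) ∂μ ≤ ENNReal.ofReal Bt * ∫⁻ g in D, f g ∂μ := by
  classical
  let P : Γ → Set H := fun γ => {h | ρ γ * x * h * z ∈ D}
  have hPm : ∀ γ, MeasurableSet (P γ) := fun γ =>
    hD.preimage ((measurable_const_mul (ρ γ * x)).mul_const z)
  have hsub : Ω ∩ S ⊆ ⋃ γ, Ω ∩ P γ := by
    rintro h ⟨hΩh, hSh⟩
    obtain ⟨γ, hγ⟩ := hS h hSh
    refine Set.mem_iUnion.2 ⟨γ, hΩh, ?_⟩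
    show ρ γ * x * h * z ∈ D
    have : ρ γ * x * h * z = ρ γ * (x * h * z) := by group
    rw [this]
    exact hγ
  let Q : Γ → Set H := fun γ => {g | x⁻¹ * (ρ γ)⁻¹ * g * z⁻¹ ∈ Ω}
  let u : Γ → H → ENNReal :=
    fun γ g => D.indicator f g * (Q γ).indicator (fun _ => (1 : ENNReal)) g
  have hQm : ∀ γ, MeasurableSet (Q γ) := fun γ =>
    hΩ.preimage ((measurable_const_mul (x⁻¹ * (ρ γ)⁻¹)).mul_const z⁻¹)
  have hum : ∀ γ, Measurable (u γ) := fun γ =>
    (hf.indicator hD).mul (measurable_const.indicator (hQm γ))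
  have hterm : ∀ γ, ∫⁻ h in Ω ∩ P γ, f (x * h) ∂μ = ∫⁻ g, u γ g ∂μ := by
    intro γ
    rw [← lintegral_indicator (hΩ.inter (hPm γ))]
    have h1 : ∀ h, (Ω ∩ P γ).indicator (fun h => f (x * h)) h = u γ (ρ γ * x * h * z) := by
      intro h
      have hq : x⁻¹ * (ρ γ)⁻¹ * (ρ γ * x * h * z) * z⁻¹ = h := by group
      have hfv : f (ρ γ * x * h * z) = f (x * h) := by
        rw [hfz, mul_assoc, hfl]
      have hQh : (ρ γ * x * h * z ∈ Q γ) ↔ h ∈ Ω := by
        show x⁻¹ * (ρ γ)⁻¹ * (ρ γ * x * h * z) * z⁻¹ ∈ Ω ↔ h ∈ Ω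
        rw [hq]
      have hPh : (h ∈ P γ) ↔ ρ γ * x * h * z ∈ D := Iff.rfl
      show (Ω ∩ P γ).indicator (fun h => f (x * h)) h
        = D.indicator f (ρ γ * x * h * z)
          * (Q γ).indicator (fun _ => (1 : ENNReal)) (ρ γ * x * h * z)
      by_cases h1 : h ∈ Ω
      · by_cases h2 : ρ γ * x * h * z ∈ D
        · rw [Set.indicator_of_mem (Set.mem_inter h1 (hPh.2 h2)),
            Set.indicator_of_mem h2, Set.indicator_of_mem (hQh.2 h1), mul_one, hfv]
        · rw [Set.indicator_of_notMem (fun hh : h ∈ Ω ∩ P γ => h2 (hPh.1 hh.2)),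
            Set.indicator_of_notMem h2, zero_mul]
      · rw [Set.indicator_of_notMem (fun hh : h ∈ Ω ∩ P γ => h1 hh.1),
          Set.indicator_of_notMem (fun hh => h1 (hQh.1 hh)), mul_zero]
    rw [lintegral_congr h1]
    have h2 := lintegral_mul_right_eq_self (μ := μ) (fun h => u γ (ρ γ * x * h)) z
    have h3 := lintegral_mul_left_eq_self (μ := μ) (u γ) (ρ γ * x)
    rw [← h3, ← h2]
    refine lintegral_congr fun h => ?_
    show u γ (ρ γ * x * h * z) = u γ (ρ γ * x * (h * z))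
    rw [mul_assoc (ρ γ * x) h z]
  have hcnt : ∀ g, ∑' γ, (Q γ).indicator (fun _ => (1 : ENNReal)) g ≤ ENNReal.ofReal Bt := by
    intro g
    refine tsum_indicator_le767 Q g Bt fun T hT => ?_
    rcases T.eq_empty_or_nonempty with rfl | ⟨γ₁, hγ₁⟩
    · exact hcount ∅ (fun δ hδ => absurd hδ (Finset.notMem_empty δ))
    · have hinj : Function.Injective (fun γ : Γ => γ⁻¹ * γ₁) := by
        intro a b hab
        exact inv_injective (mul_right_cancel hab)
      have hcard : (T.image fun γ => γ⁻¹ * γ₁).card = T.card :=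
        Finset.card_image_of_injective T hinj
      rw [← hcard]
      refine hcount _ fun δ hδ => ?_
      obtain ⟨γ, hγ, rfl⟩ := Finset.mem_image.mp hδ
      refine ⟨x⁻¹ * (ρ γ)⁻¹ * g * z⁻¹, hT γ hγ, x⁻¹ * (ρ γ₁)⁻¹ * g * z⁻¹, hT γ₁ hγ₁, ?_⟩
      rw [map_mul, map_inv]
      group
  calc ∫⁻ h in Ω ∩ S, f (x * h) ∂μ
      ≤ ∫⁻ h in ⋃ γ, Ω ∩ P γ, f (x * h) ∂μ := lintegral_mono_set hsub
    _ ≤ ∑' γ, ∫⁻ h in Ω ∩ P γ, f (x * h) ∂μ := lintegral_iUnion_le _ _
    _ = ∑' γ, ∫⁻ g, u γ g ∂μ := tsum_congr hterm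
    _ = ∫⁻ g, ∑' γ, u γ g ∂μ := (lintegral_tsum fun γ => (hum γ).aemeasurable).symm
    _ ≤ ∫⁻ g, D.indicator (fun g => ENNReal.ofReal Bt * f g) g ∂μ := by
        refine lintegral_mono fun g => ?_
        show ∑' γ, D.indicator f g * (Q γ).indicator (fun _ => (1 : ENNReal)) g
          ≤ D.indicator (fun g => ENNReal.ofReal Bt * f g) g
        rw [ENNReal.tsum_mul_left]
        by_cases hg : g ∈ D
        · rw [Set.indicator_of_mem hg, Set.indicator_of_mem hg, mul_comm]
          exact mul_le_mul_left (hcnt g) _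
        · rw [Set.indicator_of_notMem hg, Set.indicator_of_notMem hg, zero_mul]
    _ = ∫⁻ g in D, ENNReal.ofReal Bt * f g ∂μ := lintegral_indicator hD _
    _ = ENNReal.ofReal Bt * ∫⁻ g in D, f g ∂μ := lintegral_const_mul _ hf


variable {K : Type} [Field K] [NumberField K]

attribute [local instance] Fermat.Agent.LT.T2.borelG

/-- The set `Ω Ω⁻¹`. -/
def quotSet767 (Ω : Set (G K)) : Set (G K) :=
  (fun p : G K × G K => p.1 * p.2⁻¹) '' (Ω ×ˢ Ω)

theorem isCompact_quotSet767 {Ω : Set (G K)} (hΩ : IsCompact Ω) : IsCompact (quotSet767 Ω) :=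
  (hΩ.prod hΩ).image (continuous_fst.mul continuous_snd.inv)

/-- The square of the `L²`-norm is the integral of `‖ψ‖²` over the domain. -/
theorem nsq_eq767 (F : Frame K) (ψ : G K → ℂ) :
    nsq F ψ = ∫ g in F.D, ‖ψ g‖ ^ 2 ∂F.μ := by
  unfold nsq pair
  have hreal : ∀ g, ψ g * (starRingEnd ℂ) (ψ g) = ((‖ψ g‖ ^ 2 : ℝ) : ℂ) := by
    intro g
    rw [Complex.mul_conj, Complex.normSq_eq_norm_sq]
  simp only [hreal]
  have h2 : ∫ g in F.D, (((‖ψ g‖ ^ 2 : ℝ)) : ℂ) ∂F.μ
      = ((∫ g in F.D, ‖ψ g‖ ^ 2 ∂F.μ : ℝ) : ℂ) := integral_ofReal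
  rw [h2]
  exact Complex.ofReal_re _

theorem nsq_nonneg767 (F : Frame K) (ψ : G K → ℂ) : 0 ≤ nsq F ψ := by
  rw [nsq_eq767]
  exact integral_nonneg fun g => by positivity

/-- The square of the `L²`-norm as a lower integral. -/
theorem lintegral_enorm_sq_eq_nsq767 (F : Frame K) {𝔫 : Ideal (𝓞 K)} {ψ : G K → ℂ}
    (hψ : IsAutFn 𝔫 ψ) :
    ∫⁻ g in F.D, ‖ψ g‖ₑ ^ 2 ∂F.μ = ENNReal.ofReal (nsq F ψ) := by
  have : BorelSpace (G K) := ⟨rfl⟩
  obtain ⟨C, hC⟩ := hψ.bdd
  have hcont : Continuous (fun g => ‖ψ g‖ ^ 2) := (continuous_norm.comp hψ.cont).pow 2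
  have hint : IntegrableOn (fun g => ‖ψ g‖ ^ 2) F.D F.μ := by
    refine Measure.integrableOn_of_bounded (M := C * C) F.fin.ne hcont.aestronglyMeasurable
      (Filter.Eventually.of_forall fun g => ?_)
    rw [Real.norm_eq_abs, abs_of_nonneg (by positivity), sq]
    exact mul_le_mul (hC g) (hC g) (norm_nonneg _) ((norm_nonneg _).trans (hC g))
  rw [nsq_eq767, ofReal_integral_eq_lintegral_ofReal hint
    (Filter.Eventually.of_forall fun g => by positivity)]
  refine lintegral_congr fun g => ?_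
  rw [ENNReal.ofReal_pow (norm_nonneg _), ofReal_norm]

/-- **T2.03c.2**: the count gives the local `L²` bound. -/
theorem leafInt767 (K : Type) [Field K] [NumberField K] : LeafInt K := by
  intro hT hCount 𝔫 _ F Ω hΩ
  classical
  obtain ⟨-, hlc, ht2, hsc⟩ := hT.locComp
  have : BorelSpace (G K) := ⟨rfl⟩
  have := hlc
  have := ht2
  have := hsc
  have := F.haar
  have : F.μ.IsMulRightInvariant := hT.unimod F.μ F.haar
  have hN := hT.adNorm
  have hH := hT.height
  have := countable_GL245 K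
  rcases Ω.eq_empty_or_nonempty with rfl | hne
  · refine ⟨0, 1, one_pos, fun ψ _ x t _ _ => ?_⟩
    simp
  -- bounds for the module on `Ω`
  obtain ⟨g₁, hg₁, hmin⟩ := hΩ.exists_isMinOn hne (continuous_detNorm245 hN).continuousOn
  obtain ⟨g₂, hg₂, hmax⟩ := hΩ.exists_isMaxOn hne (continuous_detNorm245 hN).continuousOn
  have hmpos : 0 < detNorm245 g₁ := detNorm245_pos hN g₁
  obtain ⟨w₀⟩ : Nonempty (InfinitePlace K) := inferInstance
  have hk : w₀.mult * 2 ≠ 0 := by
    have := w₀.mult_pos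
    omega
  obtain ⟨Q₀, hQpos, hQ⟩ :=
    exists_finset_rat767 (detNorm245 g₁) (2 * detNorm245 g₂) hmpos (w₀.mult * 2) hk
  obtain ⟨B, c, hc, hB⟩ := hCount (quotSet767 Ω) (isCompact_quotSet767 hΩ)
  have hΩm : MeasurableSet Ω := hΩ.measurableSet
  have hμΩ : F.μ Ω < ⊤ := hΩ.measure_lt_top
  refine ⟨Real.sqrt (Q₀.card * |B| * (F.μ Ω).toReal), max c 1, lt_max_of_lt_left hc, ?_⟩
  intro ψ hψ x t hx ht
  have htc : c ≤ t := le_trans (le_max_left _ _) ht
  have ht1 : 1 ≤ t := le_trans (le_max_right _ _) ht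
  have htpos : 0 < t := lt_of_lt_of_le one_pos ht1
  -- normalisation of `x`
  obtain ⟨r₀, hr₀, h1, h2⟩ := exists_rat_pow_between245 (detNorm245 x) (detNorm245_pos hN x)
    (w₀.mult * 2) hk
  have hx'N : detNorm245 (x * zScalar245 w₀ r₀ hr₀.ne')
      = detNorm245 x * (r₀ : ℝ) ^ (w₀.mult * 2) := detNorm_mul_zScalar767 hN w₀ r₀ hr₀ x
  have hx' : T1.HasHeight K (x * zScalar245 w₀ r₀ hr₀.ne') t := by
    rw [zScalar_comm767 w₀ r₀ hr₀.ne' x]
    exact hH.2.2.1 _ (isCentral_zScalar767 w₀ r₀ hr₀.ne') x t hx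
  have hψx : ∀ h, ψ (x * h) = ψ (x * zScalar245 w₀ r₀ hr₀.ne' * h) := by
    intro h
    have e : x * zScalar245 w₀ r₀ hr₀.ne' * h = x * h * zScalar245 w₀ r₀ hr₀.ne' := by
      rw [mul_assoc, ← zScalar_comm767 w₀ r₀ hr₀.ne' h, mul_assoc]
    rw [e, hψ.arch_scalar w₀ _ (isArchPosScalar_zScalar245 w₀ r₀ hr₀) (x * h)]
  generalize x * zScalar245 w₀ r₀ hr₀.ne' = x' at hx'N hx' hψx
  have hx'1 : 1 < detNorm245 x' := by rw [hx'N]; exact h1
  have hx'2 : detNorm245 x' < 2 := by rw [hx'N]; exact h2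
  -- the function
  let f : G K → ENNReal := fun g => ‖ψ g‖ₑ ^ 2
  have hfm : Measurable f := hψ.cont.measurable.enorm.pow_const 2
  have hfl : ∀ (γ : GL (Fin 2) K) (g : G K), f (T1.ratG K γ * g) = f g := by
    intro γ g
    show ‖ψ (T1.ratG K γ * g)‖ₑ ^ 2 = ‖ψ g‖ₑ ^ 2
    rw [show ψ (T1.ratG K γ * g) = ψ g from hψ.left_inv γ g]
  -- the count for `x'`
  have hBt := hB x' t hx' htc
  have hBt0 : 0 ≤ B * t := by
    have := hBt ∅ (fun δ hδ => absurd hδ (Finset.notMem_empty δ))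
    simpa using this
  have hB0 : 0 ≤ B := nonneg_of_mul_nonneg_left hBt0 htpos
  -- the bound for one rational scalar
  have hper : ∀ (r : ℚ) (hr : 0 < r),
      ∫⁻ h in Ω ∩ {h | x' * h * zScalar245 w₀ r hr.ne' ∈ T1.slab K}, f (x' * h) ∂F.μ
        ≤ ENNReal.ofReal (B * t) * ∫⁻ g in F.D, f g ∂F.μ := by
    intro r hr
    refine lintegral_cover_le767 F.μ (T1.ratG K) F.D Ω _ F.meas hΩm f hfm hfl x'
      (zScalar245 w₀ r hr.ne') ?_ ?_ (B * t) ?_
    · intro g
      show ‖ψ (g * _)‖ₑ ^ 2 = ‖ψ g‖ₑ ^ 2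
      rw [hψ.arch_scalar w₀ _ (isArchPosScalar_zScalar245 w₀ r hr) g]
    · intro h hh
      obtain ⟨γ, hγ, -⟩ := F.strict _ hh
      exact ⟨γ, hγ⟩
    · intro T hT
      refine hBt T fun δ hδ => ?_
      obtain ⟨a, ha, b, hb, hab⟩ := hT δ hδ
      exact ⟨a * b⁻¹, ⟨(a, b), ⟨ha, hb⟩, rfl⟩, hab⟩
  -- the covering of `Ω`
  let A : {r : ℚ // r ∈ Q₀} → Set (G K) := fun i =>
    Ω ∩ {h | x' * h * zScalar245 w₀ i.1 (hQpos i.1 i.2).ne' ∈ T1.slab K}
  have hcover : Ω ⊆ ⋃ i, A i := by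
    intro h hh
    have hhm : detNorm245 g₁ ≤ detNorm245 h := hmin hh
    have hhM : detNorm245 h ≤ detNorm245 g₂ := hmax hh
    have hNval : detNorm245 (x' * h) = detNorm245 x' * detNorm245 h := detNorm245_mul hN x' h
    have hmem : detNorm245 (x' * h) ∈ Set.Icc (detNorm245 g₁) (2 * detNorm245 g₂) := by
      rw [hNval]
      have hhpos : 0 < detNorm245 h := detNorm245_pos hN h
      constructor
      · nlinarith
      · nlinarith
    obtain ⟨r, hr, hr1, hr2⟩ := hQ _ hmem
    refine Set.mem_iUnion.2 ⟨⟨r, hr⟩, hh, ?_⟩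
    show x' * h * zScalar245 w₀ r (hQpos r hr).ne' ∈ T1.slab K
    apply openSlab245_subset_slab
    show 1 < detNorm245 (x' * h * zScalar245 w₀ r (hQpos r hr).ne') ∧
      detNorm245 (x' * h * zScalar245 w₀ r (hQpos r hr).ne') < 2
    rw [detNorm_mul_zScalar767 hN w₀ r (hQpos r hr) (x' * h)]
    exact ⟨hr1, hr2⟩
  have hmain : ∫⁻ h in Ω, f (x' * h) ∂F.μ
      ≤ ENNReal.ofReal (Q₀.card * (B * t) * nsq F ψ) := by
    calc ∫⁻ h in Ω, f (x' * h) ∂F.μ
        ≤ ∫⁻ h in ⋃ i, A i, f (x' * h) ∂F.μ := lintegral_mono_set hcover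
      _ ≤ ∑' i, ∫⁻ h in A i, f (x' * h) ∂F.μ := lintegral_iUnion_le _ _
      _ ≤ ∑' _i : {r : ℚ // r ∈ Q₀}, ENNReal.ofReal (B * t) * ∫⁻ g in F.D, f g ∂F.μ :=
          ENNReal.tsum_le_tsum fun i => hper i.1 (hQpos i.1 i.2)
      _ = ENNReal.ofReal (Q₀.card * (B * t) * nsq F ψ) := by
          rw [tsum_fintype, Finset.sum_const, Finset.card_univ, Fintype.card_coe,
            lintegral_enorm_sq_eq_nsq767 F hψ, nsmul_eq_mul,
            ← ENNReal.ofReal_mul hBt0, ← ENNReal.ofReal_natCast,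
            ← ENNReal.ofReal_mul (Nat.cast_nonneg _)]
          congr 1
          ring
  -- Cauchy--Schwarz
  have hnn : 0 ≤ nsq F ψ := nsq_nonneg767 F ψ
  have hV : F.μ Ω = ENNReal.ofReal (F.μ Ω).toReal := (ENNReal.ofReal_toReal hμΩ.ne).symm
  have hV0 : 0 ≤ (F.μ Ω).toReal := ENNReal.toReal_nonneg
  have hcard0 : (0 : ℝ) ≤ (Q₀.card : ℝ) := Nat.cast_nonneg _
  have hR0 : 0 ≤ (Q₀.card : ℝ) * (B * t) * nsq F ψ :=
    mul_nonneg (mul_nonneg hcard0 hBt0) hnn
  have hLHS : ∫ h in Ω, ‖ψ (x * h)‖ ∂F.μ = (∫⁻ h in Ω, ‖ψ (x' * h)‖ₑ ∂F.μ).toReal := by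
    have hcx : Continuous (fun h => ψ (x * h)) :=
      hψ.cont.comp (continuous_const.mul continuous_id)
    have e := integral_norm_eq_lintegral_enorm (f := fun h => ψ (x * h))
      (μ := F.μ.restrict Ω) hcx.aestronglyMeasurable
    rw [e]
    simp_rw [hψx]
  rw [hLHS]
  refine ENNReal.toReal_le_of_le_ofReal
    (mul_nonneg (mul_nonneg (Real.sqrt_nonneg _) htpos.le) (Real.sqrt_nonneg _)) ?_
  have hcx' : Continuous (fun h => ψ (x' * h)) :=
    hψ.cont.comp (continuous_const.mul continuous_id)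
  have hCS := ENNReal.lintegral_mul_le_Lp_mul_Lq (F.μ.restrict Ω) Real.HolderConjugate.two_two
    (f := fun h => ‖ψ (x' * h)‖ₑ) (g := fun _ => (1 : ENNReal))
    hcx'.measurable.enorm.aemeasurable aemeasurable_const
  have hCS' : ∫⁻ h in Ω, ‖ψ (x' * h)‖ₑ ∂F.μ
      ≤ (∫⁻ h in Ω, f (x' * h) ∂F.μ) ^ ((1 : ℝ) / 2) * (F.μ Ω) ^ ((1 : ℝ) / 2) := by
    simpa [f] using hCS
  have e1 : Real.sqrt ((Q₀.card : ℝ) * (B * t) * nsq F ψ)
      = Real.sqrt ((Q₀.card : ℝ) * (B * t)) * Real.sqrt (nsq F ψ) :=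
    Real.sqrt_mul (mul_nonneg hcard0 hBt0) _
  have e2 : Real.sqrt ((Q₀.card : ℝ) * (B * t)) * Real.sqrt (F.μ Ω).toReal
      = Real.sqrt ((Q₀.card : ℝ) * |B| * (F.μ Ω).toReal) * Real.sqrt t := by
    rw [← Real.sqrt_mul (mul_nonneg hcard0 hBt0),
      ← Real.sqrt_mul (mul_nonneg (mul_nonneg hcard0 (abs_nonneg B)) hV0), abs_of_nonneg hB0]
    congr 1
    ring
  have e3 : Real.sqrt t ≤ t := by
    rw [Real.sqrt_le_iff]
    exact ⟨htpos.le, by nlinarith⟩
  have hreal : Real.sqrt ((Q₀.card : ℝ) * (B * t) * nsq F ψ) * Real.sqrt (F.μ Ω).toReal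
      ≤ Real.sqrt ((Q₀.card : ℝ) * |B| * (F.μ Ω).toReal) * t * Real.sqrt (nsq F ψ) := by
    calc Real.sqrt ((Q₀.card : ℝ) * (B * t) * nsq F ψ) * Real.sqrt (F.μ Ω).toReal
        = (Real.sqrt ((Q₀.card : ℝ) * (B * t)) * Real.sqrt (F.μ Ω).toReal)
            * Real.sqrt (nsq F ψ) := by rw [e1]; ring
      _ = Real.sqrt ((Q₀.card : ℝ) * |B| * (F.μ Ω).toReal) * Real.sqrt t
            * Real.sqrt (nsq F ψ) := by rw [e2]
      _ ≤ Real.sqrt ((Q₀.card : ℝ) * |B| * (F.μ Ω).toReal) * t * Real.sqrt (nsq F ψ) :=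
          mul_le_mul_of_nonneg_right
            (mul_le_mul_of_nonneg_left e3 (Real.sqrt_nonneg _)) (Real.sqrt_nonneg _)
  calc ∫⁻ h in Ω, ‖ψ (x' * h)‖ₑ ∂F.μ
      ≤ (∫⁻ h in Ω, f (x' * h) ∂F.μ) ^ ((1 : ℝ) / 2) * (F.μ Ω) ^ ((1 : ℝ) / 2) := hCS'
    _ ≤ (ENNReal.ofReal ((Q₀.card : ℝ) * (B * t) * nsq F ψ)) ^ ((1 : ℝ) / 2)
          * (ENNReal.ofReal (F.μ Ω).toReal) ^ ((1 : ℝ) / 2) := by
        rw [← hV]
        exact mul_le_mul_left (ENNReal.rpow_le_rpow hmain (by norm_num)) _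
    _ = ENNReal.ofReal (Real.sqrt ((Q₀.card : ℝ) * (B * t) * nsq F ψ)
          * Real.sqrt (F.μ Ω).toReal) := by
        rw [ENNReal.ofReal_rpow_of_nonneg hR0 (by norm_num),
          ENNReal.ofReal_rpow_of_nonneg hV0 (by norm_num),
          ← ENNReal.ofReal_mul (Real.rpow_nonneg hR0 _), ← Real.sqrt_eq_rpow,
          ← Real.sqrt_eq_rpow]
    _ ≤ ENNReal.ofReal (Real.sqrt ((Q₀.card : ℝ) * |B| * (F.μ Ω).toReal) * t
          * Real.sqrt (nsq F ψ)) := ENNReal.ofReal_le_ofReal hreal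

end Fermat.Agent.LT.T2.H767

end

end
-- ===== PACK-END LT/T2/H767/Int.lean

-- ===== PACK-BEGIN LT/T7/H83/IwLocal.lean
section


/-!
# Row LT, tower T7, asset IW-KIT (helper83), part 1: the Iwahori subgroup of `GL₂(F)` and the
# double coset `I diag(ϖ, 1) I`, local algebra

OFF-MAIN.  `F` a field with a valuation `val : Valuation F ℤᵐ⁰`.  No holes, nothing assumed.

* `IwL val x`  : `x ∈ I` (integral entries, `val (det x) = 1`, `val (x 1 0) < 1`);
  group laws `iwL_one83`, `iwL_mul83`, `iwL_inv83`; `iwL_iff83` (integral, integral inverse).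
* `CosL val x` : the shape of the elements of `I diag(c, 1) I`, `val c = exp (-1)`;
  `cosL_of_mul83` (`I t I ⊆ CosL`), `iwL_inv_mul_of_cosL83` (`CosL ⊆ ⋃_r [[ϖ, r], [0, 1]] I`),
  `val_sub_lt_of_iwL83` (the classes of `[[ϖ, r], [0, 1]]`, `r` modulo `ϖ`, are distinct).
-/

set_option autoImplicit false
set_option linter.unusedSectionVars false
set_option linter.unusedSimpArgs false
set_option linter.unusedVariables false

open Matrix
open Fermat.Agent.LT.H129

noncomputable section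

namespace Fermat.Agent.LT.T7.H83

variable {F : Type*} [Field F] (val : Valuation F (WithZero (Multiplicative ℤ)))

/-- `x` lies in the Iwahori subgroup: integral entries, unit determinant, lower left entry in the
maximal ideal. -/
def IwL (x : GL (Fin 2) F) : Prop :=
  (∀ i j, val ((x : Matrix (Fin 2) (Fin 2) F) i j) ≤ 1) ∧
    val (x : Matrix (Fin 2) (Fin 2) F).det = 1 ∧ val ((x : Matrix (Fin 2) (Fin 2) F) 1 0) < 1

/-- The shape of the elements of `I diag(c, 1) I`, `c` a uniformiser. -/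
def CosL (x : GL (Fin 2) F) : Prop :=
  val ((x : Matrix (Fin 2) (Fin 2) F) 0 0) < 1 ∧ val ((x : Matrix (Fin 2) (Fin 2) F) 0 1) ≤ 1 ∧
    val ((x : Matrix (Fin 2) (Fin 2) F) 1 0) < 1 ∧ val ((x : Matrix (Fin 2) (Fin 2) F) 1 1) = 1 ∧
    val (x : Matrix (Fin 2) (Fin 2) F).det = WithZero.exp (-1 : ℤ)

variable {val}

theorem val_add_le_one83 {a b : F} (ha : val a ≤ 1) (hb : val b ≤ 1) : val (a + b) ≤ 1 :=
  le_trans (val.map_add a b) (max_le ha hb)

theorem val_mul_le_one83 {a b : F} (ha : val a ≤ 1) (hb : val b ≤ 1) : val (a * b) ≤ 1 := by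
  rw [map_mul]
  exact mul_le_one' ha hb

theorem val_mul_lt_one_left83 {a b : F} (ha : val a < 1) (hb : val b ≤ 1) : val (a * b) < 1 := by
  rw [map_mul]
  exact lt_of_le_of_lt (mul_le_of_le_one_right' hb) ha

theorem val_mul_lt_one_right83 {a b : F} (ha : val a ≤ 1) (hb : val b < 1) : val (a * b) < 1 := by
  rw [mul_comm]
  exact val_mul_lt_one_left83 hb ha

theorem val_add_lt_one83 {a b : F} (ha : val a < 1) (hb : val b < 1) : val (a + b) < 1 :=
  lt_of_le_of_lt (val.map_add a b) (max_lt ha hb)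

theorem val_sub_lt_one83 {a b : F} (ha : val a < 1) (hb : val b < 1) : val (a - b) < 1 := by
  rw [sub_eq_add_neg]
  exact val_add_lt_one83 ha (by rwa [Valuation.map_neg])

theorem val_sub_le_one83 {a b : F} (ha : val a ≤ 1) (hb : val b ≤ 1) : val (a - b) ≤ 1 := by
  rw [sub_eq_add_neg]
  exact val_add_le_one83 ha (by rwa [Valuation.map_neg])

/-- `val (a + b) = 1` if `val a < 1` and `val b = 1`. -/
theorem val_add_eq_one83 {a b : F} (ha : val a < 1) (hb : val b = 1) : val (a + b) = 1 := by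
  have h : val a < val b := by rwa [hb]
  rw [Valuation.map_add_eq_of_lt_right val h, hb]

/-- Two integral elements with a product of valuation `1` have valuation `1`. -/
theorem val_eq_one_of_mul83 {a b : F} (ha : val a ≤ 1) (hb : val b ≤ 1) (h : val (a * b) = 1) :
    val a = 1 ∧ val b = 1 := by
  rw [map_mul] at h
  constructor
  · refine le_antisymm ha ?_
    calc (1 : WithZero (Multiplicative ℤ)) = val a * val b := h.symm
      _ ≤ val a * 1 := mul_le_mul' le_rfl hb
      _ = val a := mul_one _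
  · refine le_antisymm hb ?_
    calc (1 : WithZero (Multiplicative ℤ)) = val a * val b := h.symm
      _ ≤ 1 * val b := mul_le_mul' ha le_rfl
      _ = val b := one_mul _

/-- The diagonal entries of an element of the Iwahori subgroup are units. -/
theorem IwL.diag83 {x : GL (Fin 2) F} (hx : IwL val x) :
    val ((x : Matrix (Fin 2) (Fin 2) F) 0 0) = 1 ∧ val ((x : Matrix (Fin 2) (Fin 2) F) 1 1) = 1 := by
  obtain ⟨hint, hdet, hlow⟩ := hx
  rw [Matrix.det_fin_two] at hdet
  have h2 : val ((x : Matrix (Fin 2) (Fin 2) F) 0 1 * (x : Matrix (Fin 2) (Fin 2) F) 1 0) < 1 :=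
    val_mul_lt_one_right83 (hint 0 1) hlow
  have h3 : val ((x : Matrix (Fin 2) (Fin 2) F) 0 0 * (x : Matrix (Fin 2) (Fin 2) F) 1 1) = 1 := by
    have e : (x : Matrix (Fin 2) (Fin 2) F) 0 0 * (x : Matrix (Fin 2) (Fin 2) F) 1 1
        = (x : Matrix (Fin 2) (Fin 2) F) 0 1 * (x : Matrix (Fin 2) (Fin 2) F) 1 0
          + ((x : Matrix (Fin 2) (Fin 2) F) 0 0 * (x : Matrix (Fin 2) (Fin 2) F) 1 1
            - (x : Matrix (Fin 2) (Fin 2) F) 0 1 * (x : Matrix (Fin 2) (Fin 2) F) 1 0) := by ring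
    rw [e]
    exact val_add_eq_one83 h2 hdet
  exact val_eq_one_of_mul83 (hint 0 0) (hint 1 1) h3

theorem iwL_one83 : IwL val (1 : GL (Fin 2) F) := by
  refine ⟨fun i j => ?_, by simp, by simp⟩
  fin_cases i <;> fin_cases j <;> simp

theorem iwL_mul83 {x y : GL (Fin 2) F} (hx : IwL val x) (hy : IwL val y) : IwL val (x * y) := by
  obtain ⟨hxi, hxd, hxl⟩ := hx
  obtain ⟨hyi, hyd, hyl⟩ := hy
  refine ⟨fun i j => ?_, ?_, ?_⟩
  · rw [Matrix.GeneralLinearGroup.coe_mul, Matrix.mul_apply, Fin.sum_univ_two]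
    exact val_add_le_one83 (val_mul_le_one83 (hxi _ _) (hyi _ _))
      (val_mul_le_one83 (hxi _ _) (hyi _ _))
  · rw [Matrix.GeneralLinearGroup.coe_mul, Matrix.det_mul, map_mul, hxd, hyd, one_mul]
  · rw [Matrix.GeneralLinearGroup.coe_mul, Matrix.mul_apply, Fin.sum_univ_two]
    exact val_add_lt_one83 (val_mul_lt_one_left83 hxl (hyi _ _))
      (val_mul_lt_one_right83 (hxi _ _) hyl)

theorem iwL_inv83 {x : GL (Fin 2) F} (hx : IwL val x) : IwL val x⁻¹ := by
  obtain ⟨hxi, hxd, hxl⟩ := hx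
  have hent : ∀ i j, val (((x⁻¹ : GL (Fin 2) F) : Matrix (Fin 2) (Fin 2) F) i j)
      = val ((Matrix.adjugate (x : Matrix (Fin 2) (Fin 2) F)) i j) := by
    intro i j
    rw [inv_apply129, map_div₀, hxd, div_one]
  refine ⟨fun i j => ?_, ?_, ?_⟩
  · rw [hent, Matrix.adjugate_fin_two]
    fin_cases i <;> fin_cases j
    · simpa using hxi 1 1
    · simpa using hxi 0 1
    · simpa using hxi 1 0
    · simpa using hxi 0 0
  · rw [Matrix.coe_units_inv, Matrix.det_nonsing_inv, Ring.inverse_eq_inv', map_inv₀, hxd, inv_one]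
  · rw [hent, Matrix.adjugate_fin_two]
    simpa using hxl

/-- The Iwahori subgroup in the form "integral with integral inverse". -/
theorem iwL_iff83 (x : GL (Fin 2) F) :
    IwL val x ↔ (∀ i j, val ((x : Matrix (Fin 2) (Fin 2) F) i j) ≤ 1) ∧
      (∀ i j, val (((x⁻¹ : GL (Fin 2) F) : Matrix (Fin 2) (Fin 2) F) i j) ≤ 1) ∧
      val ((x : Matrix (Fin 2) (Fin 2) F) 1 0) < 1 := by
  constructor
  · intro h
    exact ⟨h.1, (iwL_inv83 h).1, h.2.2⟩
  · rintro ⟨h1, h2, h3⟩
    refine ⟨h1, ?_, h3⟩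
    have hd1 : val (x : Matrix (Fin 2) (Fin 2) F).det ≤ 1 := by
      rw [Matrix.det_fin_two]
      exact val_sub_le_one83 (val_mul_le_one83 (h1 _ _) (h1 _ _))
        (val_mul_le_one83 (h1 _ _) (h1 _ _))
    have hd2 : val ((x⁻¹ : GL (Fin 2) F) : Matrix (Fin 2) (Fin 2) F).det ≤ 1 := by
      rw [Matrix.det_fin_two]
      exact val_sub_le_one83 (val_mul_le_one83 (h2 _ _) (h2 _ _))
        (val_mul_le_one83 (h2 _ _) (h2 _ _))
    have hprod : val ((x : Matrix (Fin 2) (Fin 2) F).det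
        * ((x⁻¹ : GL (Fin 2) F) : Matrix (Fin 2) (Fin 2) F).det) = 1 := by
      rw [← Matrix.det_mul, ← Matrix.GeneralLinearGroup.coe_mul, mul_inv_cancel]
      simp
    exact (val_eq_one_of_mul83 hd1 hd2 hprod).1

/-- `I diag(c, 1) I` has the shape `CosL`. -/
theorem cosL_of_mul83 {a b t : GL (Fin 2) F} {c : F} (ha : IwL val a) (hb : IwL val b)
    (hc : val c = WithZero.exp (-1 : ℤ)) (ht : (t : Matrix (Fin 2) (Fin 2) F) = !![c, 0; 0, 1]) :
    CosL val (a * t * b) := by
  have hc1 : val c < 1 := by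
    rw [hc, ← WithZero.exp_zero, WithZero.exp_lt_exp]
    norm_num
  obtain ⟨ha0, ha1⟩ := ha.diag83
  obtain ⟨hb0, hb1⟩ := hb.diag83
  obtain ⟨hai, had, hal⟩ := ha
  obtain ⟨hbi, hbd, hbl⟩ := hb
  have hent : ∀ i j, ((a * t * b : GL (Fin 2) F) : Matrix (Fin 2) (Fin 2) F) i j
      = (a : Matrix (Fin 2) (Fin 2) F) i 0 * c * (b : Matrix (Fin 2) (Fin 2) F) 0 j
        + (a : Matrix (Fin 2) (Fin 2) F) i 1 * (b : Matrix (Fin 2) (Fin 2) F) 1 j := by
    intro i j
    rw [Matrix.GeneralLinearGroup.coe_mul, Matrix.GeneralLinearGroup.coe_mul, ht]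
    simp [Matrix.mul_apply, Fin.sum_univ_two]
  have hsmall : ∀ i j, val ((a : Matrix (Fin 2) (Fin 2) F) i 0 * c
      * (b : Matrix (Fin 2) (Fin 2) F) 0 j) < 1 := fun i j =>
    val_mul_lt_one_left83 (val_mul_lt_one_right83 (hai _ _) hc1) (hbi _ _)
  refine ⟨?_, ?_, ?_, ?_, ?_⟩
  · rw [hent]
    exact val_add_lt_one83 (hsmall _ _) (val_mul_lt_one_right83 (hai _ _) hbl)
  · rw [hent]
    exact val_add_le_one83 (hsmall _ _).le (val_mul_le_one83 (hai _ _) (hbi _ _))
  · rw [hent]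
    exact val_add_lt_one83 (hsmall _ _) (val_mul_lt_one_right83 (hai _ _) hbl)
  · rw [hent]
    refine val_add_eq_one83 (hsmall _ _) ?_
    rw [map_mul, ha1, hb1, one_mul]
  · rw [Matrix.GeneralLinearGroup.coe_mul, Matrix.GeneralLinearGroup.coe_mul, Matrix.det_mul,
      Matrix.det_mul, ht, Matrix.det_fin_two_of, map_mul, map_mul, had, hbd]
    simpa using hc

/-- Discreteness: `val x < 1` implies `val x ≤ val ϖ`. -/
theorem val_div_le_one83 {π x : F} (hπ : val π = WithZero.exp (-1 : ℤ)) (hx : val x < 1) :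
    val (x / π) ≤ 1 := by
  have hπ0 : val π ≠ 0 := by
    rw [hπ]; exact WithZero.exp_ne_zero
  rw [map_div₀, div_le_iff₀ (zero_lt_iff.2 hπ0), one_mul, hπ]
  exact withZero_le_exp_neg_one129 hx

/-- `CosL ⊆ ⋃_r [[ϖ, r], [0, 1]] I`: the class of `g` is the class of `r ≡ g₀₁ / g₁₁`. -/
theorem iwL_inv_mul_of_cosL83 {g : GL (Fin 2) F} {π r : F} (hg : CosL val g)
    (hπ : val π = WithZero.exp (-1 : ℤ)) (hπ0 : π * 1 - r * 0 ≠ 0) (hr : val r ≤ 1)
    (hrg : val ((g : Matrix (Fin 2) (Fin 2) F) 0 1 - r * (g : Matrix (Fin 2) (Fin 2) F) 1 1) < 1) :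
    IwL val ((mkGL129 π r 0 1 hπ0)⁻¹ * g) := by
  obtain ⟨h00, h01, h10, h11, hdet⟩ := hg
  have hπne : val π ≠ 0 := by
    rw [hπ]; exact WithZero.exp_ne_zero
  have hent : ∀ i j, (((mkGL129 π r 0 1 hπ0)⁻¹ * g : GL (Fin 2) F) :
      Matrix (Fin 2) (Fin 2) F) i j
      = (!![((g : Matrix (Fin 2) (Fin 2) F) 0 0 - r * (g : Matrix (Fin 2) (Fin 2) F) 1 0) / π,
            ((g : Matrix (Fin 2) (Fin 2) F) 0 1 - r * (g : Matrix (Fin 2) (Fin 2) F) 1 1) / π;
            (g : Matrix (Fin 2) (Fin 2) F) 1 0, (g : Matrix (Fin 2) (Fin 2) F) 1 1] :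
          Matrix (Fin 2) (Fin 2) F) i j := by
    intro i j
    have hπF : π ≠ 0 := by
      intro h
      rw [h, map_zero] at hπne
      exact hπne rfl
    rw [inv_mul_apply129]
    simp only [coe_mkGL129, Matrix.adjugate_fin_two_of, Matrix.det_fin_two_of, Matrix.mul_apply,
      Fin.sum_univ_two]
    fin_cases i <;> fin_cases j <;> simp <;> field_simp <;> ring
  refine ⟨fun i j => ?_, ?_, ?_⟩
  · rw [hent]
    fin_cases i <;> fin_cases j
    · simp only [Fin.zero_eta, Fin.isValue, Matrix.of_apply, Matrix.cons_val', Matrix.cons_val_zero,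
        Matrix.cons_val_fin_one]
      exact val_div_le_one83 hπ (val_sub_lt_one83 h00 (val_mul_lt_one_right83 hr h10))
    · simp only [Fin.zero_eta, Fin.isValue, Fin.mk_one, Matrix.of_apply, Matrix.cons_val',
        Matrix.cons_val_one, Matrix.cons_val_zero, Matrix.cons_val_fin_one]
      exact val_div_le_one83 hπ hrg
    · simp only [Fin.mk_one, Fin.isValue, Fin.zero_eta, Matrix.of_apply, Matrix.cons_val',
        Matrix.cons_val_zero, Matrix.cons_val_one, Matrix.cons_val_fin_one]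
      exact h10.le
    · simp only [Fin.mk_one, Fin.isValue, Matrix.of_apply, Matrix.cons_val', Matrix.cons_val_one,
        Matrix.cons_val_fin_one]
      exact h11.le
  · rw [Matrix.GeneralLinearGroup.coe_mul, Matrix.det_mul, Matrix.coe_units_inv,
      Matrix.det_nonsing_inv, Ring.inverse_eq_inv', coe_mkGL129, Matrix.det_fin_two_of, map_mul,
      map_inv₀, hdet]
    simp only [mul_one, mul_zero, sub_zero]
    rw [hπ, inv_mul_cancel₀ WithZero.exp_ne_zero]
  · rw [hent]
    simpa using h10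

/-- The classes of `[[ϖ, r], [0, 1]]` and `[[ϖ, r'], [0, 1]]` modulo `I` are equal only if
`r ≡ r'` modulo the maximal ideal. -/
theorem val_sub_lt_of_iwL83 {π r r' : F} (hπ : val π = WithZero.exp (-1 : ℤ)) (hπ0 : π ≠ 0)
    (h : IwL val ((mkGL129 π r 0 1 (by simpa using hπ0))⁻¹
      * mkGL129 π r' 0 1 (by simpa using hπ0))) : val (r' - r) < 1 := by
  have h01 := h.1 0 1
  rw [upper_inv_mul_upper129 hπ0, map_div₀, hπ,
    div_le_iff₀ (zero_lt_iff.2 WithZero.exp_ne_zero), one_mul] at h01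
  refine lt_of_le_of_lt h01 ?_
  rw [← WithZero.exp_zero, WithZero.exp_lt_exp]
  norm_num

/-- The standard representative `[[ϖ, r], [0, 1]] = n(r) diag(ϖ, 1)`. -/
theorem mkGL_eq_mul83 {π r : F} (hπ0 : π ≠ 0) :
    mkGL129 π r 0 1 (by simpa using hπ0)
      = mkGL129 1 r 0 1 (by simp) * mkGL129 π 0 0 1 (by simpa using hπ0) * 1 := by
  apply ext_mat129
  rw [Matrix.GeneralLinearGroup.coe_mul, Matrix.GeneralLinearGroup.coe_mul, coe_mkGL129,
    coe_mkGL129, coe_mkGL129]
  ext i j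
  fin_cases i <;> fin_cases j <;> simp [Matrix.mul_apply, Fin.sum_univ_two]

theorem iwL_upper83 {r : F} (hr : val r ≤ 1) : IwL val (mkGL129 1 r 0 1 (by simp)) := by
  refine ⟨fun i j => ?_, ?_, ?_⟩
  · rw [coe_mkGL129]
    fin_cases i <;> fin_cases j <;> simp [hr]
  · rw [coe_mkGL129, Matrix.det_fin_two_of]
    simp
  · rw [coe_mkGL129]
    simp

end Fermat.Agent.LT.T7.H83

end

end
-- ===== PACK-END LT/T7/H83/IwLocal.lean

-- ===== PACK-BEGIN LT/T7/H816/UnitGal.lean
section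





/-!
# Row LT, tower T7, leaf C2.7.11 UNIT-MATCH: GLOBAL PART, the places over a split place
(helper816, OFF-MAIN)

`K'/K` Galois of prime degree `l`, `σ` a generator (`CycHyp816`), `v` a finite place of `K`.

* `sigPl816 τ w` : the image of the place `w` under the automorphism `τ`
  (`T5.PlaceRel s w (sigPl816 s.σ w)`); the action of the powers (after helper54,
  `T7/H54/OntoGalois.lean`: `sigPl54`, `gal_pow54`, `transFin54`, `sigPl_pow_ne54`);
* `enum816 σ w₀ j = σ^{-j} w₀` : THE ENUMERATION of the places over a split place, with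
  `w j = σ(w (j+1))` (`enum_rel816`), over `v` (`enum_over816`), `w j ≠ w 0` for `0 < j < l`
  (`enum_ne816`, if there are two places over `v`);
* `absNorm_eq_of_split816` : residue degree one at a place which splits (`e f g = l`).
-/

set_option autoImplicit false

open IsDedekindDomain NumberField

noncomputable section

namespace Fermat.Agent.LT.T7.H816U

open Fermat.Agent.LT Fermat.Agent.LT.T7 Fermat.Agent.LT.T7.H557

variable (K : Type) {K' : Type} [Field K] [NumberField K] [Field K'] [NumberField K']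
  [Algebra K K']

/-- The hypotheses on the automorphism `σ` of `K'`: prime order `l`, fixed field `K`. -/
structure CycHyp816 (σ : K' ≃+* K') (l : ℕ) : Prop where
  prime : l.Prime
  pow_eq : ∀ x : K', (σ ^ l) x = x
  fixed : ∀ x : K', σ x = x ↔ ∃ y : K, algebraMap K K' y = x
  faithful : ∃ x : K', σ x ≠ x

variable {K}

/-- The hypotheses of the comparison give `CycHyp816`. -/
theorem cycHyp_of816 (s : T5.AdelicAut K') (l : ℕ) (k : Subfield K')
    (hcyc : T5.IsCyclicOfDegree s l k)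
    (hbase : ∀ x : K', x ∈ k ↔ ∃ y : K, algebraMap K K' y = x) (hl : l.Prime) :
    CycHyp816 K s.σ l where
  prime := hl
  pow_eq := hcyc.pow_eq
  fixed x := by rw [← hcyc.fixed, hbase]
  faithful := by
    obtain ⟨x, hx⟩ := hcyc.faithful 1 one_pos hl.one_lt
    exact ⟨x, by simpa using hx⟩

theorem CycHyp816.map_alg {σ : K' ≃+* K'} {l : ℕ} (h : CycHyp816 K σ l) (y : K) :
    σ (algebraMap K K' y) = algebraMap K K' y :=
  (h.fixed _).2 ⟨y, rfl⟩

theorem CycHyp816.pow_eq_one {σ : K' ≃+* K'} {l : ℕ} (h : CycHyp816 K σ l) : σ ^ l = 1 :=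
  RingEquiv.ext h.pow_eq

/-! ## The action on the finite places -/

/-- The image of the finite place `w` under the automorphism `τ`. -/
def sigPl816 (τ : K' ≃+* K') (w : HeightOneSpectrum (𝓞 K')) : HeightOneSpectrum (𝓞 K') where
  asIdeal := Ideal.map (RingOfIntegers.mapRingEquiv τ) w.asIdeal
  isPrime := Ideal.map_isPrime_of_equiv _
  ne_bot := by
    intro h
    rw [Ideal.map_eq_bot_iff_of_injective (RingOfIntegers.mapRingEquiv τ).injective] at h
    exact w.ne_bot h

theorem placeRel_sigPl816 (s : T5.AdelicAut K') (w : HeightOneSpectrum (𝓞 K')) :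
    T5.PlaceRel s w (sigPl816 s.σ w) := rfl

theorem mem_sigPl816 (τ : K' ≃+* K') (w : HeightOneSpectrum (𝓞 K')) (x : 𝓞 K') :
    x ∈ (sigPl816 τ w).asIdeal ↔ RingOfIntegers.mapRingEquiv τ.symm x ∈ w.asIdeal := by
  show x ∈ Ideal.map (RingOfIntegers.mapRingEquiv τ) w.asIdeal ↔ _
  rw [Ideal.mem_map_of_equiv]
  constructor
  · rintro ⟨y, hy, rfl⟩
    have : RingOfIntegers.mapRingEquiv τ.symm (RingOfIntegers.mapRingEquiv τ y) = y := by
      apply Subtype.ext
      exact τ.symm_apply_apply _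
    rw [this]
    exact hy
  · intro hx
    refine ⟨_, hx, ?_⟩
    apply Subtype.ext
    exact τ.apply_symm_apply _

theorem sigPl_one816 (w : HeightOneSpectrum (𝓞 K')) : sigPl816 (1 : K' ≃+* K') w = w := by
  refine HeightOneSpectrum.ext (Ideal.ext fun x => ?_)
  rw [mem_sigPl816]
  rfl

theorem sigPl_mul816 (τ₁ τ₂ : K' ≃+* K') (w : HeightOneSpectrum (𝓞 K')) :
    sigPl816 (τ₁ * τ₂) w = sigPl816 τ₁ (sigPl816 τ₂ w) := by
  refine HeightOneSpectrum.ext (Ideal.ext fun x => ?_)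
  rw [mem_sigPl816, mem_sigPl816, mem_sigPl816]
  rfl

/-- If `τ` fixes `w`, so do its powers. -/
theorem sigPl_pow_fix816 (τ : K' ≃+* K') (w : HeightOneSpectrum (𝓞 K'))
    (h : sigPl816 τ w = w) (n : ℕ) : sigPl816 (τ ^ n) w = w := by
  induction n with
  | zero => rw [pow_zero, sigPl_one816]
  | succ n ih => rw [pow_succ', sigPl_mul816, ih, h]

/-- If `τ^j` fixes `w` for some `0 < j < l`, then `τ` fixes `w` (`l` prime, `τ^l = 1`). -/
theorem sigPl_pow_ne816 {τ : K' ≃+* K'} {l : ℕ} (hl : l.Prime) (hτ : τ ^ l = 1)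
    (w : HeightOneSpectrum (𝓞 K')) (hw : sigPl816 τ w ≠ w) (j : ℕ) (hj0 : 0 < j) (hjl : j < l) :
    sigPl816 (τ ^ j) w ≠ w := by
  intro hfix
  apply hw
  have hcop : Nat.Coprime j l := (Nat.coprime_of_lt_prime hj0.ne' hjl hl).symm
  obtain ⟨m, -, hm⟩ := Nat.exists_mul_mod_eq_one_of_coprime hcop hl.one_lt
  have e : (τ ^ j) ^ m = τ := by
    rw [← pow_mul, ← Nat.div_add_mod (j * m) l, hm, pow_add, pow_mul, hτ, one_pow,
      one_mul, pow_one]
  have := sigPl_pow_fix816 (τ ^ j) w hfix m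
  rw [e] at this
  exact this

/-- An automorphism which fixes `K` preserves the place below. -/
theorem placeOver_sigPl816 (τ : K' ≃+* K') (hτ : ∀ y : K, τ (algebraMap K K' y) = algebraMap K K' y)
    {v : HeightOneSpectrum (𝓞 K)} {w : HeightOneSpectrum (𝓞 K')} (h : PlaceOver K K' v w) :
    PlaceOver K K' v (sigPl816 τ w) := by
  intro x y hxy
  rw [mem_sigPl816]
  refine h x _ ?_
  show τ.symm (y : K') = algebraMap K K' (x : K)
  rw [hxy, RingEquiv.symm_apply_eq, hτ]

/-! ## The Galois group -/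

/-- Every element of `Gal(K'/K)` is a power of `σ`. -/
theorem gal_pow816 [IsGalois K K'] {σ : K' ≃+* K'} {l : ℕ} (h : CycHyp816 K σ l)
    (hdeg : Module.finrank K K' = l) (ρ : K' ≃ₐ[K] K') :
    ∃ j : ℕ, ∀ x : K', ρ x = (σ ^ j) x := by
  let σ' : K' ≃ₐ[K] K' := AlgEquiv.ofRingEquiv (f := σ) (fun x => h.map_alg x)
  haveI : Fact l.Prime := ⟨h.prime⟩
  have hcard : Nat.card (K' ≃ₐ[K] K') = l := by rw [IsGalois.card_aut_eq_finrank, hdeg]
  have hne : σ' ≠ 1 := by
    obtain ⟨x, hx⟩ := h.faithful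
    intro e
    apply hx
    exact congrArg (fun f : K' ≃ₐ[K] K' => f x) e
  have htop := zpowers_eq_top_of_prime_card hcard hne
  have hρ : ρ ∈ Subgroup.zpowers σ' := by rw [htop]; trivial
  haveI : Finite (K' ≃ₐ[K] K') :=
    Nat.finite_of_card_ne_zero (by rw [hcard]; exact h.prime.ne_zero)
  rw [← mem_powers_iff_mem_zpowers] at hρ
  obtain ⟨j, rfl⟩ := hρ
  refine ⟨j, fun x => ?_⟩
  induction j generalizing x with
  | zero => rfl
  | succ n ih =>
    show (σ' ^ (n + 1)) x = (σ ^ (n + 1)) x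
    rw [pow_succ', pow_succ']
    show σ' ((σ' ^ n) x) = σ ((σ ^ n) x)
    have := ih x
    rw [show (σ' ^ n) x = (σ ^ n) x from this]
    rfl

/-- Two finite places of `K'` over the same place of `K` are linked by a power of `σ`. -/
theorem transFin816 [IsGalois K K'] {σ : K' ≃+* K'} {l : ℕ} (h : CycHyp816 K σ l)
    (hdeg : Module.finrank K K' = l) {v : HeightOneSpectrum (𝓞 K)}
    {w w' : HeightOneSpectrum (𝓞 K')} (hw : PlaceOver K K' v w) (hw' : PlaceOver K K' v w') :
    ∃ j : ℕ, w' = sigPl816 (σ ^ j) w := by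
  haveI : w.asIdeal.LiesOver v.asIdeal := placeOver_liesOver_557 hw
  haveI : w'.asIdeal.LiesOver v.asIdeal := placeOver_liesOver_557 hw'
  haveI := v.isPrime
  haveI := w.isPrime
  haveI := w'.isPrime
  haveI : v.asIdeal.IsMaximal := v.isMaximal
  obtain ⟨τ, hτ⟩ := Ideal.exists_smul_eq_of_isGaloisGroup v.asIdeal
    w.asIdeal w'.asIdeal (K' ≃ₐ[K] K')
  obtain ⟨j, hj⟩ := gal_pow816 h hdeg τ
  refine ⟨j, HeightOneSpectrum.ext ?_⟩
  rw [← hτ]
  ext x
  rw [Ideal.mem_pointwise_smul_iff_inv_smul_mem, mem_sigPl816]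
  have : τ⁻¹ • x = RingOfIntegers.mapRingEquiv (σ ^ j).symm x := by
    apply Subtype.ext
    show τ⁻¹ (x : K') = (σ ^ j).symm (x : K')
    apply (σ ^ j).injective
    rw [RingEquiv.apply_symm_apply, ← hj]
    exact AlgEquiv.apply_symm_apply τ _
  rw [this]

/-- If `σ` fixes a place over `v`, it is the only place over `v`. -/
theorem unique_of_fix816 [IsGalois K K'] {σ : K' ≃+* K'} {l : ℕ} (h : CycHyp816 K σ l)
    (hdeg : Module.finrank K K' = l) {v : HeightOneSpectrum (𝓞 K)}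
    {w w' : HeightOneSpectrum (𝓞 K')} (hw : PlaceOver K K' v w) (hw' : PlaceOver K K' v w')
    (hfix : sigPl816 σ w = w) : w' = w := by
  obtain ⟨j, hj⟩ := transFin816 h hdeg hw hw'
  rw [hj, sigPl_pow_fix816 σ w hfix j]

/-! ## The enumeration of the places over a split place -/

/-- THE ENUMERATION `w j = σ^{-j} w₀`. -/
def enum816 (σ : K' ≃+* K') (w₀ : HeightOneSpectrum (𝓞 K')) (j : ℕ) :
    HeightOneSpectrum (𝓞 K') :=
  sigPl816 (σ⁻¹ ^ j) w₀

theorem enum_zero816 (σ : K' ≃+* K') (w₀ : HeightOneSpectrum (𝓞 K')) : enum816 σ w₀ 0 = w₀ := by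
  show sigPl816 (σ⁻¹ ^ 0) w₀ = w₀
  rw [pow_zero, sigPl_one816]

theorem enum_succ816 (σ : K' ≃+* K') (w₀ : HeightOneSpectrum (𝓞 K')) (j : ℕ) :
    sigPl816 σ (enum816 σ w₀ (j + 1)) = enum816 σ w₀ j := by
  show sigPl816 σ (sigPl816 (σ⁻¹ ^ (j + 1)) w₀) = sigPl816 (σ⁻¹ ^ j) w₀
  rw [← sigPl_mul816, pow_succ', mul_inv_cancel_left]

/-- `w j = σ(w (j+1))`. -/
theorem enum_rel816 (s : T5.AdelicAut K') (w₀ : HeightOneSpectrum (𝓞 K')) (j : ℕ) :
    T5.PlaceRel s (enum816 s.σ w₀ (j + 1)) (enum816 s.σ w₀ j) := by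
  have h := placeRel_sigPl816 s (enum816 s.σ w₀ (j + 1))
  rw [enum_succ816] at h
  exact h

theorem enum_over816 {σ : K' ≃+* K'} {l : ℕ} (h : CycHyp816 K σ l)
    {v : HeightOneSpectrum (𝓞 K)} {w₀ : HeightOneSpectrum (𝓞 K')} (hw : PlaceOver K K' v w₀)
    (j : ℕ) : PlaceOver K K' v (enum816 σ w₀ j) := by
  refine placeOver_sigPl816 (σ⁻¹ ^ j) (fun y => ?_) hw
  induction j with
  | zero => rfl
  | succ n ih =>
    rw [pow_succ']
    show σ⁻¹ ((σ⁻¹ ^ n) (algebraMap K K' y)) = algebraMap K K' y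
    rw [ih]
    show σ.symm (algebraMap K K' y) = algebraMap K K' y
    rw [RingEquiv.symm_apply_eq, h.map_alg]

/-- The places `w j`, `0 < j < l`, are different from `w 0` if `v` splits. -/
theorem enum_ne816 [IsGalois K K'] {σ : K' ≃+* K'} {l : ℕ} (h : CycHyp816 K σ l)
    (hdeg : Module.finrank K K' = l) {v : HeightOneSpectrum (𝓞 K)}
    {w₀ w₁ w₂ : HeightOneSpectrum (𝓞 K')} (hw : PlaceOver K K' v w₀)
    (h1 : PlaceOver K K' v w₁) (h2 : PlaceOver K K' v w₂) (h12 : w₁ ≠ w₂)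
    (j : ℕ) (hj0 : 0 < j) (hjl : j < l) : enum816 σ w₀ j ≠ enum816 σ w₀ 0 := by
  rw [enum_zero816]
  have hinv : σ⁻¹ ^ l = 1 := by rw [inv_pow, h.pow_eq_one, inv_one]
  refine sigPl_pow_ne816 h.prime hinv w₀ ?_ j hj0 hjl
  intro hfix
  have hfix' : sigPl816 σ w₀ = w₀ := by
    have := congrArg (sigPl816 σ) hfix
    rw [← sigPl_mul816, mul_inv_cancel, sigPl_one816] at this
    exact this.symm
  exact h12 ((unique_of_fix816 h hdeg hw h1 hfix').trans
    (unique_of_fix816 h hdeg hw h2 hfix').symm)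

/-! ## Residue degree one at a split place -/

/-- At a place which splits in `K'` (Galois of prime degree) the residue degree is one. -/
theorem absNorm_eq_of_split816 {l : ℕ} (hcyc : IsCycExt K K' l) {v : HeightOneSpectrum (𝓞 K)}
    {w w₁ w₂ : HeightOneSpectrum (𝓞 K')} (hw : PlaceOver K K' v w)
    (h1 : PlaceOver K K' v w₁) (h2 : PlaceOver K K' v w₂) (h12 : w₁ ≠ w₂) :
    Ideal.absNorm w.asIdeal = Ideal.absNorm v.asIdeal := by
  haveI := hcyc.galois
  haveI : w.asIdeal.LiesOver v.asIdeal := placeOver_liesOver_557 hw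
  haveI := v.isPrime
  haveI := w.isPrime
  haveI : v.asIdeal.IsMaximal := v.isMaximal
  haveI : w.asIdeal.IsMaximal := w.isMaximal
  have hN := Ideal.absNorm_eq_pow_inertiaDeg'_of_liesOver w.asIdeal v.asIdeal v.isPrime v.ne_bot
  have e1 : v.asIdeal.inertiaDeg' w.asIdeal = w.asIdeal.inertiaDeg (𝓞 K) :=
    Ideal.inertiaDeg'_eq_inertiaDeg v.asIdeal w.asIdeal
  have e2 : v.asIdeal.inertiaDegIn (𝓞 K') = w.asIdeal.inertiaDeg (𝓞 K) :=
    Ideal.inertiaDegIn_eq_inertiaDeg v.asIdeal w.asIdeal Gal(K'/K)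
  have e3 := Ideal.ncard_primesOver_mul_ramificationIdxIn_mul_inertiaDegIn v.asIdeal (𝓞 K')
    Gal(K'/K)
  rw [IsGalois.card_aut_eq_finrank, hcyc.degree] at e3
  -- at least two primes over `v`
  have hfin : (v.asIdeal.primesOver (𝓞 K')).Finite := Algebra.QuasiFinite.finite_primesOver _
  have hmem : ∀ u : HeightOneSpectrum (𝓞 K'), PlaceOver K K' v u →
      u.asIdeal ∈ v.asIdeal.primesOver (𝓞 K') :=
    fun u hu => ⟨u.isPrime, placeOver_liesOver_557 hu⟩
  have hgt : 1 < (v.asIdeal.primesOver (𝓞 K')).ncard := by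
    rw [Set.one_lt_ncard_iff hfin]
    exact ⟨w₁.asIdeal, w₂.asIdeal, hmem w₁ h1, hmem w₂ h2,
      fun e => h12 (HeightOneSpectrum.ext e)⟩
  have hdvd : (v.asIdeal.primesOver (𝓞 K')).ncard ∣ l := ⟨_, e3.symm⟩
  have hcard : (v.asIdeal.primesOver (𝓞 K')).ncard = l := by
    rcases (Nat.dvd_prime hcyc.prime).1 hdvd with h | h
    · omega
    · exact h
  rw [hcard] at e3
  have hef : v.asIdeal.ramificationIdxIn (𝓞 K') * v.asIdeal.inertiaDegIn (𝓞 K') = 1 := by
    have hl0 : 0 < l := hcyc.prime.pos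
    exact Nat.eq_of_mul_eq_mul_left hl0 (by rw [e3, mul_one])
  have hf : v.asIdeal.inertiaDegIn (𝓞 K') = 1 := Nat.eq_one_of_mul_eq_one_left hef
  rw [hN, e1, ← e2, hf, pow_one]

end Fermat.Agent.LT.T7.H816U

end

end
-- ===== PACK-END LT/T7/H816/UnitGal.lean

-- ===== PACK-BEGIN LT/T7/H276/IwCore.lean
section



/-!
# Row LT, tower T7, node T7.L2.2.B4 `OpsC561` (helper276, OFF-MAIN): local matrix algebra

Mathlib + the assets of helper129 (`locFin129`, `rep129`) + `T5/Spec` (`InIwahori`).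

* `iw_inv_mul276` : `!![a,1;1,0]⁻¹ !![a',1;1,0] = !![1,0;a'-a,1]`;
* `iw_mul_omega276` : `!![a,1;1,0] !![0,1;c,0] = !![c,a;0,1]`;
* `omega_sq276` : `!![0,1;c,0]² = diag(c, c)`;
* `iw_conj276` : `(h ω)⁻¹ (h' ω) = !![1,(a'-a)/c;0,1]`;
* `iwRep276`, `iwOmega276` : the explicit elements of `GL₂(𝔸_K)`.
-/

set_option autoImplicit false

open IsDedekindDomain NumberField IsDedekindDomain.HeightOneSpectrum
open Fermat.Agent.LT.H556.A0 Fermat.Agent.LT.H129

noncomputable section

namespace Fermat.Agent.LT.T7.H276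

section Generic

variable {F : Type*} [Field F]

theorem iw_inv_mul276 (g g' : GL (Fin 2) F) (a a' : F)
    (hg : (g : Matrix (Fin 2) (Fin 2) F) = !![a, 1; 1, 0])
    (hg' : (g' : Matrix (Fin 2) (Fin 2) F) = !![a', 1; 1, 0]) :
    ((g⁻¹ * g' : GL (Fin 2) F) : Matrix (Fin 2) (Fin 2) F) = !![1, 0; a' - a, 1] := by
  ext i j
  rw [inv_mul_apply129, hg, hg']
  fin_cases i <;> fin_cases j <;>
    simp [Matrix.adjugate_fin_two_of, Matrix.det_fin_two_of, Matrix.mul_apply,
      Fin.sum_univ_two]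
  ring

theorem iw_mul_omega276 (a c : F) :
    (!![a, 1; 1, 0] : Matrix (Fin 2) (Fin 2) F) * !![0, 1; c, 0] = !![c, a; 0, 1] := by
  ext i j
  fin_cases i <;> fin_cases j <;> simp [Matrix.mul_apply, Fin.sum_univ_two]

theorem omega_sq276 (c : F) :
    (!![0, 1; c, 0] : Matrix (Fin 2) (Fin 2) F) * !![0, 1; c, 0]
      = Matrix.diagonal (fun _ => c) := by
  ext i j
  fin_cases i <;> fin_cases j <;> simp [Matrix.mul_apply, Fin.sum_univ_two]

theorem iw_split276 (a c : F) :
    (!![c, a; 0, 1] : Matrix (Fin 2) (Fin 2) F) = !![1, a; 0, 1] * !![c, 0; 0, 1] := by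
  ext i j
  fin_cases i <;> fin_cases j <;> simp [Matrix.mul_apply, Fin.sum_univ_two]

theorem iw_conj276 (g g' : GL (Fin 2) F) (a a' c : F)
    (hg : (g : Matrix (Fin 2) (Fin 2) F) = !![c, a; 0, 1])
    (hg' : (g' : Matrix (Fin 2) (Fin 2) F) = !![c, a'; 0, 1]) :
    ((g⁻¹ * g' : GL (Fin 2) F) : Matrix (Fin 2) (Fin 2) F) 0 1 = (a' - a) / c := by
  rw [inv_mul_apply129, hg, hg']
  simp [Matrix.adjugate_fin_two_of, Matrix.det_fin_two_of, Matrix.mul_apply,
      Fin.sum_univ_two]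
  ring

end Generic

variable {K : Type} [Field K] [NumberField K] (v : HeightOneSpectrum (𝓞 K))

/-- The element supported at `v` with component `!![a, 1; 1, 0]`, `a` the representative of the
residue class `c`. -/
def iwRep276 (c : 𝓞 K ⧸ v.asIdeal) : G K :=
  locFin129 v (mkGL129 (rep129 v c) 1 1 0 (by simp))

/-- The element supported at `v` with component `!![0, 1; π, 0]`. -/
def iwOmega276 (π : v.adicCompletion K) (hπ : π ≠ 0) : G K :=
  locFin129 v (mkGL129 0 1 π 0 (by simpa using hπ))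

theorem finComp_iwRep276 (c : 𝓞 K ⧸ v.asIdeal) :
    finComp v (iwRep276 v c) = !![rep129 v c, 1; 1, 0] := by
  rw [iwRep276, finComp_locFin129, coe_mkGL129]

theorem finComp_iwOmega276 (π : v.adicCompletion K) (hπ : π ≠ 0) :
    finComp v (iwOmega276 v π hπ) = !![0, 1; π, 0] := by
  rw [iwOmega276, finComp_locFin129, coe_mkGL129]

/-- The component of `h⁻¹ h'` at `v`. -/
theorem finComp_inv_mul276 (h h' : G K) :
    finComp v (h⁻¹ * h')
      = (((finCompHom129 v h)⁻¹ * finCompHom129 v h' : GL (Fin 2) (v.adicCompletion K)) :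
          Matrix (Fin 2) (Fin 2) (v.adicCompletion K)) := by
  rw [← coe_finCompHom129, map_mul, map_inv]

/-- The component of a product at `v`. -/
theorem finComp_mul276 (h h' : G K) :
    finComp v (h * h') = finComp v h * finComp v h' := by
  rw [← coe_finCompHom129, map_mul, Matrix.GeneralLinearGroup.coe_mul, coe_finCompHom129,
    coe_finCompHom129]

/-- `h⁻¹ h'` is not in the Iwahori subgroup if the residues differ. -/
theorem not_inIwahori_of_val276 {h h' : G K} {a a' : v.adicCompletion K}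
    (hh : finComp v h = !![a, 1; 1, 0]) (hh' : finComp v h' = !![a', 1; 1, 0])
    (hv : Valued.v (a' - a) = 1) : ¬ T5.InIwahori v (h⁻¹ * h') := by
  intro hI
  have h3 := hI.2.2
  rw [finComp_inv_mul276, iw_inv_mul276 _ _ a a' hh hh'] at h3
  simp only [Matrix.of_apply, Matrix.cons_val', Matrix.cons_val_one, Matrix.cons_val_zero,
    Matrix.cons_val_fin_one] at h3
  rw [hv] at h3
  exact lt_irrefl _ h3

/-- Conversely: if `h⁻¹ h'` is not in the Iwahori subgroup (`a`, `a'` integral), the residues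
differ. -/
theorem val_of_not_inIwahori276 {h h' : G K} {a a' : v.adicCompletion K}
    (ha : a ∈ v.adicCompletionIntegers K) (ha' : a' ∈ v.adicCompletionIntegers K)
    (hh : finComp v h = !![a, 1; 1, 0]) (hh' : finComp v h' = !![a', 1; 1, 0])
    (hI : ¬ T5.InIwahori v (h⁻¹ * h')) : 1 ≤ Valued.v (a' - a) := by
  by_contra hlt
  rw [not_le] at hlt
  apply hI
  have hsub : a' - a ∈ v.adicCompletionIntegers K :=
    (v.adicCompletionIntegers K).sub_mem ha' ha
  have hsub' : a - a' ∈ v.adicCompletionIntegers K :=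
    (v.adicCompletionIntegers K).sub_mem ha ha'
  have h1 : (1 : v.adicCompletion K) ∈ v.adicCompletionIntegers K :=
    (v.adicCompletionIntegers K).one_mem
  have h0 : (0 : v.adicCompletion K) ∈ v.adicCompletionIntegers K :=
    (v.adicCompletionIntegers K).zero_mem
  have e1 : finComp v (h⁻¹ * h') = !![1, 0; a' - a, 1] := by
    rw [finComp_inv_mul276, iw_inv_mul276 _ _ a a' hh hh']
  have e2 : finComp v (h⁻¹ * h')⁻¹ = !![1, 0; a - a', 1] := by
    have : (h⁻¹ * h')⁻¹ = h'⁻¹ * h := by group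
    rw [this, finComp_inv_mul276, iw_inv_mul276 _ _ a' a hh' hh]
  refine ⟨?_, ?_, ?_⟩
  · intro i j
    rw [e1]
    fin_cases i <;> fin_cases j <;> simp <;> assumption
  · intro i j
    rw [e2]
    fin_cases i <;> fin_cases j <;> simp <;> assumption
  · rw [e1]
    simpa using hlt

/-! ## Appendix: the equation lemmas of the definitions are realised HERE -/

theorem eqns_realisedIw276 : True := by
  have _a1 := @iwRep276.eq_1
  have _a2 := @iwRep276.eq_def
  have _a3 := @iwRep276.eq_unfold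
  have _b1 := @iwOmega276.eq_1
  have _b2 := @iwOmega276.eq_def
  have _b3 := @iwOmega276.eq_unfold
  trivial

end Fermat.Agent.LT.T7.H276

end

end
-- ===== PACK-END LT/T7/H276/IwCore.lean

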