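import Mathlib
import Fermat.Agent.Pack.LT3.E0L0
import Fermat.Agent.Pack.LT3.E13L0
import Fermat.Agent.Pack.LT3.E14L1
import Fermat.Agent.Pack.LT3.E0L1
import Fermat.Agent.Pack.LT2.E0L2
import Fermat.Agent.Pack.LT2.E2L1
import Fermat.Agent.Pack.LT2.E5L3
import Fermat.Agent.Pack.LT2.E6L2
import Fermat.Agent.Pack.LT2.E6L0
import Fermat.Agent.Pack.LT3.E11L0
import Fermat.Agent.Pack.LT3.E14L2
import Fermat.Agent.Pack.LT2.E9L3
import Fermat.Agent.Pack.LT3.E8L2
import Fermat.Agent.Pack.LT2.E3L0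
import Fermat.Agent.Pack.LT3.E11L1
import Fermat.Agent.Pack.LT3.E3L0
import Fermat.Agent.Pack.LT3.E14L3
import Fermat.Agent.Pack.LT2.E2L3
import Fermat.Agent.Pack.LT2.E7L1
import Fermat.Agent.Pack.LT3.E16L3
import Fermat.Agent.Pack.LT3.E16L0

set_option linter.all false

-- ===== PACK-BEGIN LT/CFT/H137/Parity.lean
section



/-!
# Row LT, tower CFT, sub-tower EX, row E1.C.7 `ParityC` (registry 1950, SPARE), helper137, OFF-MAIN

`parityC137 : EQ.ParityC` VERBATIM vs `LT/CFT/H476/EQSpec.lean` (sha256 9f9ec67e), unconditional.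
Mathlib + the Spec only.

Proof: the valuation vector modulo `2`, `ord2_137 : Kˣ → (ℤ/2)^S`, is onto with kernel of index
`2 ^ #S` (`index_ker_ord2_137`), and its kernel is contained in `sqG ⊔ unitAtG S`
(`exists_int_rep137`: an element with even valuations on `S` is a square times `a / ε`, with
`a`, `ε` integers prime to `S`).
-/

set_option autoImplicit false
set_option linter.unusedSectionVars false

open IsDedekindDomain NumberField

namespace Fermat.Agent.LT.CFT.H137

variable {K : Type*} [Field K] [NumberField K]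

/-- The subgroup generated by the integers prime to `T`. -/
def unitAtSub137 (K : Type*) [Field K] [NumberField K]
    (T : Finset (HeightOneSpectrum (𝓞 K))) : Subgroup Kˣ :=
  Subgroup.closure {x : Kˣ | ∃ a : 𝓞 K, (∀ v ∈ T, a ∉ v.asIdeal) ∧
    (x : K) = algebraMap (𝓞 K) K a}

theorem toKx_mem_unitAtSub137 (T : Finset (HeightOneSpectrum (𝓞 K))) (a : 𝓞 K) (ha : a ≠ 0)
    (h : ∀ v ∈ T, a ∉ v.asIdeal) : toKx137 a ha ∈ unitAtSub137 K T :=
  Subgroup.subset_closure ⟨a, h, rfl⟩

theorem k1Sub_le_unitAtSub137 (T : Finset (HeightOneSpectrum (𝓞 K)))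
    (k : HeightOneSpectrum (𝓞 K) → ℕ) (hk : ∀ v ∈ T, 1 ≤ k v) :
    k1Sub137 K (modM137 K T k) ≤ unitAtSub137 K T := by
  unfold k1Sub137
  rw [Subgroup.closure_le]
  rintro x ⟨a, ha, hxa⟩
  exact Subgroup.subset_closure ⟨a, fun v hv => notMem_of_sub_one_mem137 T k hk ha hv, hxa⟩

/-- For `T = ∅` the integers generate `Kˣ`. -/
theorem unitAtSub_empty137 : unitAtSub137 K (∅ : Finset (HeightOneSpectrum (𝓞 K))) = ⊤ := by
  rw [eq_top_iff]
  intro x _
  obtain ⟨n, d, hd, hx⟩ := IsFractionRing.div_surjective (A := 𝓞 K) (x : K)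
  have hd0 : d ≠ 0 := nonZeroDivisors.ne_zero hd
  have hn0 : n ≠ 0 := by
    rintro rfl
    rw [map_zero, zero_div] at hx
    exact x.ne_zero hx.symm
  have e : x = toKx137 n hn0 * (toKx137 d hd0)⁻¹ := by
    apply Units.ext
    rw [Units.val_mul, Units.val_inv_eq_inv_val, toKx_val137, toKx_val137, ← hx, div_eq_mul_inv]
  rw [e]
  exact (unitAtSub137 K ∅).mul_mem (toKx_mem_unitAtSub137 ∅ n hn0 (by simp))
    ((unitAtSub137 K ∅).inv_mem (toKx_mem_unitAtSub137 ∅ d hd0 (by simp)))

theorem ker_ord2_le137 (T : Finset (HeightOneSpectrum (𝓞 K))) :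
    (ord2_137 K T).ker ≤ (powMonoidHom 2 : Kˣ →* Kˣ).range ⊔ unitAtSub137 K T := by
  rcases T.eq_empty_or_nonempty with rfl | hT
  · rw [unitAtSub_empty137]
    exact le_trans le_top le_sup_right
  · intro x hx
    obtain ⟨a, ha, haT, hmem⟩ := exists_int_rep137 T hT (fun _ => 1) (fun _ _ => le_rfl) x hx
    have h1 : h1Sub137 K (modM137 K T (fun _ => 1)) ≤
        (powMonoidHom 2 : Kˣ →* Kˣ).range ⊔ unitAtSub137 K T := by
      unfold h1Sub137
      rw [sup_le_iff]
      exact ⟨le_trans (k1Sub_le_unitAtSub137 T _ (fun _ _ => le_rfl)) le_sup_right, le_sup_left⟩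
    have h2 : toKx137 a ha ∈ (powMonoidHom 2 : Kˣ →* Kˣ).range ⊔ unitAtSub137 K T :=
      (le_sup_right : unitAtSub137 K T ≤ _) (toKx_mem_unitAtSub137 T a ha haT)
    have h3 := Subgroup.mul_mem _ h2 (h1 hmem)
    rwa [mul_inv_cancel_left] at h3

/-- **Parity bound**, any finite set of primes. -/
theorem index_sq_sup_unitAt137 (T : Finset (HeightOneSpectrum (𝓞 K))) :
    ((powMonoidHom 2 : Kˣ →* Kˣ).range ⊔ unitAtSub137 K T).index ≠ 0 ∧
      ((powMonoidHom 2 : Kˣ →* Kˣ).range ⊔ unitAtSub137 K T).index ≤ 2 ^ T.card := by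
  have h1 := Subgroup.index_dvd_of_le (ker_ord2_le137 T)
  rw [index_ker_ord2_137] at h1
  have h2 : 0 < 2 ^ T.card := by positivity
  refine ⟨?_, Nat.le_of_dvd h2 h1⟩
  intro h0
  rw [h0, zero_dvd_iff] at h1
  omega

/-- **Row E1.C.7 `ParityC`**, VERBATIM, unconditional. -/
theorem parityC137 : EQ.ParityC := by
  intro K _ _ S
  exact index_sq_sup_unitAt137 S

end Fermat.Agent.LT.CFT.H137

end
-- ===== PACK-END LT/CFT/H137/Parity.lean

-- ===== PACK-BEGIN LT/T2/H355/LocArch.lean
section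



/-!
# Row LT, tower T2, leaf T2.22d.4 (helper355): `locArchC355 : H175.LocArchC175`

OFF-MAIN.  The frozen Prop of `LT/T2/H175/TauSpec.lean` (helper175@f81a7bf74, sha256 da27a6e8),
unconditional; the linear algebra is in `LocArchCore.lean` (Mathlib only).
-/

set_option autoImplicit false

namespace Fermat.Agent.LT.T2.H355

/-- **T2.22d.4.** -/
theorem locArchC355 : Fermat.Agent.LT.T2.H175.LocArchC175 := by
  intro M
  exact locArch355 M

end Fermat.Agent.LT.T2.H355

end
-- ===== PACK-END LT/T2/H355/LocArch.lean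

-- ===== PACK-BEGIN LT/T2/H488/InfGlue.lean
section


/-!
# Row LT, tower T2, leaf T2.22d.7 `H175.InfGlueC175` (helper488): GLUE at the infinite places

OFF-MAIN.  `infGlueC175_488 (K) : H175.InfGlueC175 K`, VERBATIM the `Prop` of
`LT/T2/H175/TauSpec.lean` (helper175@f81a7bf74, sha256 da27a6e8).  Complete proofs, nothing
assumed.

* `archHom488 : (Π w, GL₂(K_w)) →* GL₂(𝔸_K)` — the element with matrix `B w` at the infinite place
  `w` and `1` at every finite place;
* for `M_w = infComp w g` take `A_w ∈ SU(2)` from `LocArchC175` (real if `w` is real), lift it to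
  `B_w ∈ GL₂(K_w)` (`extensionEmbedding` is onto `ℂ` at a complex place and onto `ℝ` at a real
  place) and put `c = archHom488 B`;
* `c` lies in the group generated by the `K_w`: induction on the set of places where `B ≠ 1`.
-/

set_option autoImplicit false

open IsDedekindDomain NumberField AutomorphicForm
open scoped MatrixGroups

noncomputable section

namespace Fermat.Agent.LT.T2.H488

open Fermat.Agent.LT.H556.A0 Fermat.Agent.LT.T2 Fermat.Agent.LT.T2.H175 Fermat.Agent.LT.T2.H228

variable {K : Type} [Field K] [NumberField K]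

/-! ## Matrices over the adeles, by components -/

theorem adele_ext488 {x y : Adl K} (hI : ∀ w : InfinitePlace K, x.1 w = y.1 w)
    (hF : ∀ v : HeightOneSpectrum (𝓞 K), x.2 v = y.2 v) : x = y :=
  Prod.ext (funext hI) (RestrictedProduct.ext _ _ hF)

theorem adeleMatrix_ext488 {A B : Matrix (Fin 2) (Fin 2) (Adl K)}
    (hI : ∀ w : InfinitePlace K, A.map (infEval228 w) = B.map (infEval228 w))
    (hF : ∀ v : HeightOneSpectrum (𝓞 K), A.map (finEval228 v) = B.map (finEval228 v)) :
    A = B := by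
  refine Matrix.ext fun i j => adele_ext488 (fun w => ?_) (fun v => ?_)
  · exact congrFun (congrFun (hI w) i) j
  · exact congrFun (congrFun (hF v) i) j

/-- The adelic matrix with component `B w` at the infinite place `w` and `1` at the finite
places. -/
def archMat488 (B : ∀ w : InfinitePlace K, Matrix (Fin 2) (Fin 2) w.Completion) :
    Matrix (Fin 2) (Fin 2) (Adl K) :=
  fun i j => ((fun w => B w i j : InfiniteAdeleRing K),
    (1 : Matrix (Fin 2) (Fin 2) (FiniteAdeleRing (𝓞 K) K)) i j)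

theorem archMat488_map_inf (B : ∀ w : InfinitePlace K, Matrix (Fin 2) (Fin 2) w.Completion)
    (w : InfinitePlace K) : (archMat488 B).map (infEval228 w) = B w :=
  Matrix.ext fun _ _ => rfl

theorem archMat488_map_fin (B : ∀ w : InfinitePlace K, Matrix (Fin 2) (Fin 2) w.Completion)
    (v : HeightOneSpectrum (𝓞 K)) : (archMat488 B).map (finEval228 v) = 1 := by
  refine Matrix.ext fun i j => ?_
  simp only [Matrix.map_apply, archMat488]
  by_cases hij : i = j
  · subst hij; simp only [Matrix.one_apply_eq]; rfl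
  · simp only [Matrix.one_apply_ne hij]; rfl

theorem one_map_inf488 (w : InfinitePlace K) :
    (1 : Matrix (Fin 2) (Fin 2) (Adl K)).map (infEval228 w) = 1 :=
  Matrix.map_one _ (map_zero _) (map_one _)

theorem one_map_fin488 (v : HeightOneSpectrum (𝓞 K)) :
    (1 : Matrix (Fin 2) (Fin 2) (Adl K)).map (finEval228 v) = 1 :=
  Matrix.map_one _ (map_zero _) (map_one _)

theorem archMat488_one :
    archMat488 (fun w : InfinitePlace K => (1 : Matrix (Fin 2) (Fin 2) w.Completion)) = 1 := by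
  apply adeleMatrix_ext488
  · intro w
    rw [archMat488_map_inf, one_map_inf488]
  · intro v
    rw [archMat488_map_fin, one_map_fin488]

theorem archMat488_mul (B B' : ∀ w : InfinitePlace K, Matrix (Fin 2) (Fin 2) w.Completion) :
    archMat488 (fun w => B w * B' w) = archMat488 B * archMat488 B' := by
  apply adeleMatrix_ext488
  · intro w
    rw [Matrix.map_mul, archMat488_map_inf, archMat488_map_inf, archMat488_map_inf]
  · intro v
    rw [Matrix.map_mul, archMat488_map_fin, archMat488_map_fin, archMat488_map_fin, mul_one]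

/-- **The archimedean embedding** `Π_w GL₂(K_w) →* GL₂(𝔸_K)`. -/
def archHom488 : (∀ w : InfinitePlace K, GL (Fin 2) w.Completion) →* G K where
  toFun B :=
    { val := archMat488 fun w => ((B w : GL (Fin 2) w.Completion) :
        Matrix (Fin 2) (Fin 2) w.Completion)
      inv := archMat488 fun w => (((B w)⁻¹ : GL (Fin 2) w.Completion) :
        Matrix (Fin 2) (Fin 2) w.Completion)
      val_inv := by
        rw [← archMat488_mul]
        have : (fun w : InfinitePlace K => ((B w : GL (Fin 2) w.Completion) :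
            Matrix (Fin 2) (Fin 2) w.Completion) * (((B w)⁻¹ : GL (Fin 2) w.Completion) :
            Matrix (Fin 2) (Fin 2) w.Completion)) = fun w => 1 := by
          funext w
          rw [← Units.val_mul, mul_inv_cancel, Units.val_one]
        rw [this]
        exact archMat488_one
      inv_val := by
        rw [← archMat488_mul]
        have : (fun w : InfinitePlace K => (((B w)⁻¹ : GL (Fin 2) w.Completion) :
            Matrix (Fin 2) (Fin 2) w.Completion) * ((B w : GL (Fin 2) w.Completion) :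
            Matrix (Fin 2) (Fin 2) w.Completion)) = fun w => 1 := by
          funext w
          rw [← Units.val_mul, inv_mul_cancel, Units.val_one]
        rw [this]
        exact archMat488_one }
  map_one' := Units.ext archMat488_one
  map_mul' B B' := Units.ext (archMat488_mul _ _)

theorem coe_archHom488 (B : ∀ w : InfinitePlace K, GL (Fin 2) w.Completion) :
    ((archHom488 B : G K) : Matrix (Fin 2) (Fin 2) (Adl K))
      = archMat488 fun w => ((B w : GL (Fin 2) w.Completion) :
        Matrix (Fin 2) (Fin 2) w.Completion) := rfl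

theorem finComp_archHom488 (B : ∀ w : InfinitePlace K, GL (Fin 2) w.Completion)
    (v : HeightOneSpectrum (𝓞 K)) : finComp v (archHom488 B) = 1 := by
  rw [finComp_eq228, coe_archHom488]
  exact archMat488_map_fin _ v

theorem infEntry_archHom488 (B : ∀ w : InfinitePlace K, GL (Fin 2) w.Completion)
    (w : InfinitePlace K) (i j : Fin 2) :
    (((archHom488 B : G K) : Matrix (Fin 2) (Fin 2) (Adl K)) i j).1 w
      = ((B w : GL (Fin 2) w.Completion) : Matrix (Fin 2) (Fin 2) w.Completion) i j := rfl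

theorem infComp_archHom488 (B : ∀ w : InfinitePlace K, GL (Fin 2) w.Completion)
    (w : InfinitePlace K) :
    infComp w (archHom488 B)
      = ((B w : GL (Fin 2) w.Completion) : Matrix (Fin 2) (Fin 2) w.Completion).map
          (InfinitePlace.Completion.extensionEmbedding w) :=
  Matrix.ext fun _ _ => rfl

theorem trivAtFin_archHom488 (B : ∀ w : InfinitePlace K, GL (Fin 2) w.Completion)
    (v : HeightOneSpectrum (𝓞 K)) : TrivAtFin v (archHom488 B) :=
  finComp_archHom488 B v

open scoped Classical in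
theorem trivAtInf_archHom_single488 (a : InfinitePlace K) (x : GL (Fin 2) a.Completion)
    {w : InfinitePlace K} (hw : w ≠ a) :
    TrivAtInf w (archHom488 (Pi.mulSingle a x)) := by
  intro i j
  rw [infEntry_archHom488, Pi.mulSingle_eq_of_ne hw]
  rfl

open scoped Classical in
theorem isLocalAtInf_archHom_single488 (a : InfinitePlace K) (x : GL (Fin 2) a.Completion) :
    IsLocalAtInf a (archHom488 (Pi.mulSingle a x)) :=
  ⟨fun _ hw => trivAtInf_archHom_single488 a x hw, fun v => trivAtFin_archHom488 _ v⟩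

open scoped Classical in
theorem infComp_archHom_single488 (a : InfinitePlace K) (x : GL (Fin 2) a.Completion) :
    infComp a (archHom488 (Pi.mulSingle a x))
      = (x : Matrix (Fin 2) (Fin 2) a.Completion).map
          (InfinitePlace.Completion.extensionEmbedding a) := by
  rw [infComp_archHom488, Pi.mulSingle_eq_same]

/-! ## Membership in the group generated by the `K_w` -/

/-- `x ∈ GL₂(K_w)` lies in the maximal compact subgroup. -/
def IsCpt488 (w : InfinitePlace K) (x : GL (Fin 2) w.Completion) : Prop :=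
  (x : Matrix (Fin 2) (Fin 2) w.Completion).map (InfinitePlace.Completion.extensionEmbedding w)
      * ((x : Matrix (Fin 2) (Fin 2) w.Completion).map
          (InfinitePlace.Completion.extensionEmbedding w)).conjTranspose = 1 ∧
    ((x : Matrix (Fin 2) (Fin 2) w.Completion).map
      (InfinitePlace.Completion.extensionEmbedding w)).det = 1

open scoped Classical in
theorem isArchCompact_single488 (a : InfinitePlace K) (x : GL (Fin 2) a.Completion)
    (hx : IsCpt488 a x) : IsArchCompact a (archHom488 (Pi.mulSingle a x)) := by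
  refine ⟨isLocalAtInf_archHom_single488 a x, ?_, fun _ => ?_⟩
  · rw [infComp_archHom_single488]; exact hx.1
  · rw [infComp_archHom_single488]; exact hx.2

open scoped Classical in
theorem archHom_mem_archGroup488 (B : ∀ w : InfinitePlace K, GL (Fin 2) w.Completion)
    (hB : ∀ w, IsCpt488 w (B w)) : archHom488 B ∈ archGroup175 K := by
  have key : ∀ S : Finset (InfinitePlace K),
      archHom488 (fun w => if w ∈ S then B w else 1) ∈ archGroup175 K := by
    intro S
    induction S using Finset.induction_on with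
    | empty =>
      have : (fun w : InfinitePlace K => if w ∈ (∅ : Finset (InfinitePlace K)) then B w else 1)
          = 1 := by
        funext w
        simp
      rw [this, map_one]
      exact Subgroup.one_mem _
    | insert a S ha ih =>
      have : (fun w : InfinitePlace K => if w ∈ insert a S then B w else 1)
          = Pi.mulSingle a (B a) * fun w => if w ∈ S then B w else 1 := by
        funext w
        rw [Pi.mul_apply]
        by_cases hwa : w = a
        · subst hwa
          rw [Pi.mulSingle_eq_same, if_pos (Finset.mem_insert_self _ _), if_neg ha, mul_one]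
        · rw [Pi.mulSingle_eq_of_ne hwa, one_mul]
          by_cases hwS : w ∈ S
          · rw [if_pos hwS, if_pos (Finset.mem_insert_of_mem hwS)]
          · rw [if_neg hwS, if_neg]
            intro h
            rcases Finset.mem_insert.1 h with h | h
            · exact hwa h
            · exact hwS h
      rw [this, map_mul]
      refine Subgroup.mul_mem _ ?_ ih
      exact Subgroup.subset_closure ⟨a, isArchCompact_single488 a (B a) (hB a)⟩
  have h := key Finset.univ
  have hu : (fun w : InfinitePlace K => if w ∈ (Finset.univ : Finset (InfinitePlace K))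
      then B w else 1) = B := by
    funext w
    simp
  rwa [hu] at h

/-! ## Lifting matrices from `ℂ` to `K_w` -/

theorem exists_lift_entry488 (w : InfinitePlace K) (z : ℂ) (hz : w.IsReal → z.im = 0) :
    ∃ y : w.Completion, InfinitePlace.Completion.extensionEmbedding w y = z := by
  rcases w.isReal_or_isComplex with hw | hw
  · obtain ⟨y, hy⟩ := InfinitePlace.Completion.surjective_extensionEmbeddingOfIsReal hw z.re
    refine ⟨y, ?_⟩
    rw [← InfinitePlace.Completion.extensionEmbeddingOfIsReal_apply hw, hy]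
    exact Complex.ext rfl (by simpa using (hz hw).symm)
  · exact InfinitePlace.Completion.surjective_extensionEmbedding_of_isComplex hw z

theorem im_infComp_of_isReal488 {w : InfinitePlace K} (hw : w.IsReal) (g : G K) (i j : Fin 2) :
    (infComp w g i j).im = 0 := by
  have : infComp w g i j = InfinitePlace.Completion.extensionEmbedding w
      (((g : Matrix (Fin 2) (Fin 2) (Adl K)) i j).1 w) := rfl
  rw [this, ← InfinitePlace.Completion.extensionEmbeddingOfIsReal_apply hw]
  exact Complex.ofReal_im _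

theorem exists_lift_matrix488 (w : InfinitePlace K) (A : Matrix (Fin 2) (Fin 2) ℂ)
    (hA : w.IsReal → ∀ i j, (A i j).im = 0) (hdet : A.det = 1) :
    ∃ x : GL (Fin 2) w.Completion,
      (x : Matrix (Fin 2) (Fin 2) w.Completion).map
        (InfinitePlace.Completion.extensionEmbedding w) = A := by
  have h : ∀ i j, ∃ y : w.Completion,
      InfinitePlace.Completion.extensionEmbedding w y = A i j :=
    fun i j => exists_lift_entry488 w (A i j) (fun hw => hA hw i j)
  choose Y hY using h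
  have hmap : (Matrix.of Y).map (InfinitePlace.Completion.extensionEmbedding w) = A :=
    Matrix.ext fun i j => hY i j
  have hd : (Matrix.of Y).det = 1 := by
    apply (InfinitePlace.Completion.extensionEmbedding w).injective
    rw [RingHom.map_det, RingHom.mapMatrix_apply, hmap, hdet, map_one]
  have hu : IsUnit (Matrix.of Y).det := by rw [hd]; exact isUnit_one
  exact ⟨Matrix.GeneralLinearGroup.mk'' (Matrix.of Y) hu, hmap⟩

/-! ## The leaf -/

/-- **T2.22d.7 GLUE, infinite places**, verbatim `H175.InfGlueC175 K`. -/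
theorem infGlueC175_488 (K : Type) [Field K] [NumberField K] : InfGlueC175 K := by
  intro hArch g
  have h : ∀ w : InfinitePlace K, ∃ x : GL (Fin 2) w.Completion,
      IsCpt488 w x ∧
      thetaM175 (infComp w g) * (x : Matrix (Fin 2) (Fin 2) w.Completion).map
          (InfinitePlace.Completion.extensionEmbedding w)
        = (x : Matrix (Fin 2) (Fin 2) w.Completion).map
          (InfinitePlace.Completion.extensionEmbedding w) * infComp w g := by
    intro w
    obtain ⟨A, hu, hdet, hcomm, hreal⟩ := hArch (infComp w g)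
    obtain ⟨x, hx⟩ := exists_lift_matrix488 w A
      (fun hw => hreal (fun i j => im_infComp_of_isReal488 hw g i j)) hdet
    refine ⟨x, ⟨?_, ?_⟩, ?_⟩
    · rw [hx]; exact hu
    · rw [hx]; exact hdet
    · rw [hx]; exact hcomm
  choose B hB hcomm using h
  refine ⟨archHom488 B, archHom_mem_archGroup488 B hB, fun v => trivAtFin_archHom488 B v,
    fun w => ?_⟩
  rw [infComp_thetaG175, infComp_archHom488]
  exact hcomm w

end Fermat.Agent.LT.T2.H488

end

end
-- ===== PACK-END LT/T2/H488/InfGlue.lean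

-- ===== PACK-BEGIN LT/T2/H291/AutT.lean
section









/-!
# Row LT, tower T2, sub-leaves T2.27.01, T2.27.05, T2.27.06 (helper291)

OFF-MAIN.  The class of T5 (`IsCuspT 𝔫 τ r`) and the pairing under right translations.

* `subCentralT291` (T2.27.01): scalar uniformisers and positive scalars at one infinite place are
  central;
* `IsAutRT291 r φ`: left invariant under `GL₂(K)`, right invariant under `r`;
  `pair_shift_shiftT291`, `pair_shift_leftT291`, `nsq_shiftT291`: right translations are unitary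
  for the pairing of a frame with ray generator (consequences of the KEY LEMMA `translT291`);
* `subShiftPresT291` (T2.27.05), `subShiftIsoT291` (T2.27.06).

The proofs are those of helper429 `LT/T2/H429/Aut.lean` with the ray invariance in the place of
the `Z⁺`-invariance.
-/

set_option autoImplicit false
set_option linter.style.haveILetI false
set_option linter.unusedSectionVars false

open IsDedekindDomain NumberField MeasureTheory
open Fermat.Agent.LT.H556.A0
open Fermat.Agent.LT.H129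
open Fermat.Agent.LT.T2
open Fermat.Agent.LT.T2.H429

noncomputable section

namespace Fermat.Agent.LT.T2.H291

variable {K : Type} [Field K] [NumberField K]

attribute [local instance] Fermat.Agent.LT.T2.borelG

/-! ## 1. Central elements -/

/-- A scalar uniformiser is central. -/
theorem scalarUnif_centralT291 {v : HeightOneSpectrum (𝓞 K)} {z : G K}
    (hz : IsScalarUniformizerAt v z) (g : G K) : g * z = z * g := by
  obtain ⟨hloc, c, -, hc⟩ := hz
  rw [isLocalAtFin_iff129] at hloc
  refine central_of_scalar_comp429 (fun w => ⟨1, ?_⟩) (fun v' => ?_) g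
  · rw [hloc.1 w]
    exact one_eq_diagonal429
  · by_cases h : v' = v
    · subst h
      exact ⟨c, hc⟩
    · refine ⟨1, ?_⟩
      rw [hloc.2 v' h]
      exact one_eq_diagonal429

/-- A positive scalar at one infinite place is central. -/
theorem archPos_centralT291 {w : InfinitePlace K} {z : G K}
    (hz : IsArchPosScalar w z) (g : G K) : g * z = z * g := by
  obtain ⟨hloc, r, -, hr⟩ := hz
  rw [isLocalAtInf_iff429] at hloc
  refine central_of_scalar_comp429 (fun w' => ?_) (fun v => ⟨1, ?_⟩) g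
  · by_cases h : w' = w
    · subst h
      exact ⟨((infCompHom129 w' z : GL (Fin 2) w'.Completion) :
        Matrix (Fin 2) (Fin 2) w'.Completion) 0 0, scalar_of_map_scalar429 _ (r : ℂ) hr⟩
    · refine ⟨1, ?_⟩
      rw [hloc.1 w' h]
      exact one_eq_diagonal429
  · rw [hloc.2 v]
    exact one_eq_diagonal429

/-- **T2.27.01 CLOSED.** -/
theorem subCentralT291 (K : Type) [Field K] [NumberField K] : SubCentralT291 K :=
  ⟨fun _ _ hz g => scalarUnif_centralT291 hz g, fun _ _ hz g => archPos_centralT291 hz g⟩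

/-! ## 2. The invariance class -/

/-- Left invariant under `GL₂(K)` and right invariant under `r`. -/
structure IsAutRT291 (r : G K) (φ : G K → ℂ) : Prop where
  left_inv : ∀ (γ : GL (Fin 2) K) (g : G K), φ (T1.ratG K γ * g) = φ g
  ray_inv : ∀ g : G K, φ (g * r) = φ g

theorem isAutT_isAutRT291 {𝔫 : Ideal (𝓞 K)} {τ : G K → ℂ} {r : G K} {φ : G K → ℂ}
    (hφ : IsAutT 𝔫 τ r φ) : IsAutRT291 r φ :=
  ⟨fun γ g => hφ.left_inv γ g, fun g => hφ.ray g⟩

theorem cusp_isAutRT291 {𝔫 : Ideal (𝓞 K)} {τ : G K → ℂ} {r : G K} {φ : G K → ℂ}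
    (hφ : IsCuspT 𝔫 τ r φ) : IsAutRT291 r φ :=
  isAutT_isAutRT291 hφ.aut

theorem IsAutRT291.shift {r : G K} (hr : ∀ g : G K, g * r = r * g) {φ : G K → ℂ}
    (hφ : IsAutRT291 r φ) (h : G K) : IsAutRT291 r (shift h φ) := by
  refine ⟨fun γ g => ?_, fun g => ?_⟩
  · show φ (T1.ratG K γ * g * h) = φ (g * h)
    rw [mul_assoc, hφ.left_inv]
  · show φ (g * r * h) = φ (g * h)
    rw [mul_assoc, ← hr h, ← mul_assoc, hφ.ray_inv]

theorem IsAutRT291.mul_conj {r : G K} {φ ψ : G K → ℂ} (hφ : IsAutRT291 r φ)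
    (hψ : IsAutRT291 r ψ) : IsAutRT291 r (fun g => φ g * (starRingEnd ℂ) (ψ g)) := by
  refine ⟨fun γ g => ?_, fun g => ?_⟩
  · show φ _ * (starRingEnd ℂ) (ψ _) = _
    rw [hφ.left_inv, hψ.left_inv]
  · show φ _ * (starRingEnd ℂ) (ψ _) = _
    rw [hφ.ray_inv, hψ.ray_inv]

/-! ## 3. The pairing under translations -/

section Pair

variable (hN : T1.AdNormC K) (hU : T1.UnimodC K) (R : FrameR K)

include hN hU in
/-- Right translations are unitary. -/
theorem pair_shift_shiftT291 {φ ψ : G K → ℂ} (hφ : IsAutRT291 R.r φ) (hψ : IsAutRT291 R.r ψ)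
    (h : G K) : pair R.F (shift h φ) (shift h ψ) = pair R.F φ ψ := by
  have hΦ := hφ.mul_conj hψ
  exact translT291 hN hU R (fun g => φ g * (starRingEnd ℂ) (ψ g)) hΦ.left_inv hΦ.ray_inv h

include hN hU in
/-- The adjoint of the right translation by `h` is the right translation by `h⁻¹`. -/
theorem pair_shift_leftT291 {φ ψ : G K → ℂ} (hφ : IsAutRT291 R.r φ) (hψ : IsAutRT291 R.r ψ)
    (h : G K) : pair R.F (shift h φ) ψ = pair R.F φ (shift h⁻¹ ψ) := by
  have := pair_shift_shiftT291 hN hU R hφ (hψ.shift (rayGen_centralT291 R.ray) h⁻¹) h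
  rw [shift_shiftT291, mul_inv_cancel, shift_oneT291] at this
  exact this

include hN hU in
theorem nsq_shiftT291 {φ : G K → ℂ} (hφ : IsAutRT291 R.r φ) (h : G K) :
    nsq R.F (shift h φ) = nsq R.F φ := by
  unfold nsq
  rw [pair_shift_shiftT291 hN hU R hφ hφ h]

end Pair

/-! ## 4. Shifts by central elements preserve the class -/

theorem pres_shift_centralT291 (𝔫 : Ideal (𝓞 K)) (τ : G K → ℂ) (r : G K) {z : G K}
    (hz : ∀ g : G K, g * z = z * g) : PresT291 𝔫 τ r (shift z) := by
  intro φ hφ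
  have key : ∀ g u : G K, g * u * z = g * z * u := fun g u => by
    rw [mul_assoc, hz u, ← mul_assoc]
  refine ⟨⟨?_, ?_, ?_, ?_, ?_, ?_⟩, ?_⟩
  · exact hφ.aut.cont.comp (continuous_mul_const z)
  · obtain ⟨C, hC⟩ := hφ.aut.bdd
    exact ⟨C, fun g => hC _⟩
  · intro γ g
    show φ (_ * g * z) = φ (g * z)
    rw [mul_assoc, hφ.aut.left_inv]
  · intro u hu g
    show φ (g * u * z) = φ (g * z)
    rw [key, hφ.aut.level_inv u hu]
  · intro w u hu g
    show φ (g * u * z) = τ u * φ (g * z)
    rw [key, hφ.aut.arch_compact w u hu]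
  · intro g
    show φ (g * r * z) = φ (g * z)
    rw [key, hφ.aut.ray]
  · intro μ hμ D hD n hn g
    have := hφ.cuspidal μ hμ D hD n hn (g * z)
    simp only [shift]
    simpa only [mul_assoc] using this

/-- **T2.27.05 CLOSED.** -/
theorem subShiftPresT291 (K : Type) [Field K] [NumberField K] : SubShiftPresT291 K :=
  fun 𝔫 τ r _ hz => pres_shift_centralT291 𝔫 τ r hz

/-- **T2.27.06 CLOSED.** -/
theorem subShiftIsoT291 (K : Type) [Field K] [NumberField K] : SubShiftIsoT291 K :=
  fun _ _ c R z _ _ hφ hψ =>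
    pair_shift_shiftT291 c.t1.adNorm c.t1.unimod R (cusp_isAutRT291 hφ) (cusp_isAutRT291 hψ) z

end Fermat.Agent.LT.T2.H291

end

end
-- ===== PACK-END LT/T2/H291/AutT.lean

-- ===== PACK-BEGIN LT/T2/H833/HeckePresT.lean
section








/-!
# Row LT, tower T2, sub-leaf T2.27.02 `SubHeckePresT291` (helper833) -- OFF-MAIN

Spec bytes: `T2/H291/OpsSpecT.lean` = helper291@22c6ecc98 (sha256 c8359c85), `T2/Spec.lean` v3
(sha256 b934629a), `T2/SpecTau.lean` (sha256 4d2b0fc2), `T1/Spec.lean` (sha256 e8ae48d6),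
`H556/A0.lean` (sha256 66d3374a); asset `H129/*` = helper129@c463dcb1c (byte-identical copies).

PROVED here: `subHeckePresT833 : T2.H291.SubHeckePresT291 K`, VERBATIM: Hecke sums at `v ∤ 𝔫`
preserve the cusp functions of the class `(𝔫, τ, r)`.

This is the `T`-form of row `T2.07.02`; the lemmas on the level group, on the permutation of the
cosets and on the constant term are those of helper655 (`LT/T2/H655/HeckePres.lean`,
helper655@e92b55ca7, which is typed against the older `T2/Spec` 43969e81), re-typed here against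
the `T`-vocabulary, with fresh names (suffix `833`).

* level invariance: for `u ∈ U(𝔫)` and `h ∈ H` there is a unique `h' ∈ H` with
  `h'⁻¹ u h ∈ U(𝔫)` (completeness of the coset system, `H129.heckeCosetSystem_complete129`), and
  `h ↦ h'` is a permutation of `H`;
* type `τ` under the compact groups at infinity and invariance under the ray generator `r`: an
  element which is trivial at the finite places commutes with an element which is trivial at the
  infinite places (`commute_inf_fin833`);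
* cuspidality: the constant term is an integral over a set of finite measure
  (`T1.AddFundDomC` and `IsAddFundamentalDomain.measure_eq`), so it commutes with the finite sum.

Of the standing hypotheses `CtxT291` only `t1.addFundDom` is used.
-/

set_option autoImplicit false

open IsDedekindDomain NumberField MeasureTheory
open Fermat.Agent.LT.H556.A0 Fermat.Agent.LT.T2 Fermat.Agent.LT.H129

noncomputable section

namespace Fermat.Agent.LT.T2.H833

variable {K : Type} [Field K] [NumberField K]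

/-! ## Integrality of the level group -/

/-- The closure of an ideal lies in `𝒪_v`. -/
theorem valued_le_one_of_mem_idealClosure833 {𝔫 : Ideal (𝓞 K)} {v : HeightOneSpectrum (𝓞 K)}
    {x : v.adicCompletion K} (hx : x ∈ idealClosure 𝔫 v) : Valued.v x ≤ 1 := by
  have hcl : IsClosed ((v.adicCompletionIntegers K : Set (v.adicCompletion K))) :=
    Valued.isClosed_valuationSubring (v.adicCompletion K)
  have hsub : ((fun x : 𝓞 K => algebraMap K (v.adicCompletion K) (algebraMap (𝓞 K) K x)) ''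
      (𝔫 : Set (𝓞 K))) ⊆ (v.adicCompletionIntegers K : Set (v.adicCompletion K)) := by
    rintro _ ⟨a, -, rfl⟩
    show Valued.v (algebraMap K (v.adicCompletion K) (algebraMap (𝓞 K) K a)) ≤ 1
    have h1 : Valued.v (algebraMap K (v.adicCompletion K) (algebraMap (𝓞 K) K a))
        = v.valuation K (algebraMap (𝓞 K) K a) :=
      HeightOneSpectrum.valuedAdicCompletion_eq_valuation' v _
    rw [h1]
    exact HeightOneSpectrum.valuation_le_one v a
  exact closure_minimal hsub hcl hx

/-- The elements of the level group are integral at every finite place. -/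
theorem isIntegralAt_of_inLevelGroup833 {𝔫 : Ideal (𝓞 K)} {u : G K} (hu : InLevelGroup 𝔫 u)
    (v : HeightOneSpectrum (𝓞 K)) : IsIntegralAt v u ∧ IsIntegralAt v u⁻¹ := by
  have h1 : ∀ i j : Fin 2,
      Valued.v ((1 : Matrix (Fin 2) (Fin 2) (v.adicCompletion K)) i j) ≤ 1 := by
    intro i j
    by_cases hij : i = j
    · subst hij; simp
    · simp [hij]
  have key : ∀ (M : Matrix (Fin 2) (Fin 2) (v.adicCompletion K)) (i j : Fin 2),
      (M - 1) i j ∈ idealClosure 𝔫 v → Valued.v (M i j) ≤ 1 := by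
    intro M i j h
    have h2 := valued_le_one_of_mem_idealClosure833 h
    have e : M i j = (M - 1) i j + (1 : Matrix (Fin 2) (Fin 2) (v.adicCompletion K)) i j := by
      rw [Matrix.sub_apply, sub_add_cancel]
    rw [e]
    exact le_trans (Valuation.map_add _ _ _) (max_le h2 (h1 i j))
  exact ⟨fun i j => key _ i j (hu.2 v i j).1, fun i j => key _ i j (hu.2 v i j).2⟩


/-! ## The level group permutes the cosets -/

/-- The determinant of an element of `GL₂(𝒪_v)` is a unit. -/
theorem valued_det_eq_one833 {v : HeightOneSpectrum (𝓞 K)} {x : GL (Fin 2) (v.adicCompletion K)}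
    (hx : IsInt129 (v.adicCompletionIntegers K) x)
    (hx' : IsInt129 (v.adicCompletionIntegers K) x⁻¹) :
    Valued.v (x : Matrix (Fin 2) (Fin 2) (v.adicCompletion K)).det = 1 := by
  have h1 : Valued.v (x : Matrix (Fin 2) (Fin 2) (v.adicCompletion K)).det ≤ 1 :=
    det_mem_of_isInt129 hx
  have h2 : Valued.v ((x⁻¹ : GL (Fin 2) (v.adicCompletion K)) :
      Matrix (Fin 2) (Fin 2) (v.adicCompletion K)).det ≤ 1 := det_mem_of_isInt129 hx'
  have h3 : (x : Matrix (Fin 2) (Fin 2) (v.adicCompletion K)).det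
      * ((x⁻¹ : GL (Fin 2) (v.adicCompletion K)) :
        Matrix (Fin 2) (Fin 2) (v.adicCompletion K)).det = 1 := by
    rw [← Matrix.det_mul, ← Matrix.GeneralLinearGroup.coe_mul, mul_inv_cancel]
    simp
  have h4 := congrArg (Valued.v : v.adicCompletion K → _) h3
  rw [map_mul, map_one] at h4
  refine le_antisymm h1 ?_
  calc (1 : WithZero (Multiplicative ℤ))
      = Valued.v (x : Matrix (Fin 2) (Fin 2) (v.adicCompletion K)).det
        * Valued.v ((x⁻¹ : GL (Fin 2) (v.adicCompletion K)) :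
          Matrix (Fin 2) (Fin 2) (v.adicCompletion K)).det := h4.symm
    _ ≤ Valued.v (x : Matrix (Fin 2) (Fin 2) (v.adicCompletion K)).det * 1 :=
        mul_le_mul_right h2 _
    _ = Valued.v (x : Matrix (Fin 2) (Fin 2) (v.adicCompletion K)).det := mul_one _

/-- For `u ∈ U(𝔫)` and `h` in a Hecke coset system at `v ∤ 𝔫` there is `h'` in the system with
`h'⁻¹ u h ∈ U(𝔫)`. -/
theorem exists_mem_levelGroup833 {𝔫 : Ideal (𝓞 K)} {v : HeightOneSpectrum (𝓞 K)}
    (hv : ¬ v.asIdeal ∣ 𝔫) {H : Finset (G K)} (hH : IsHeckeCosetSystem v H) {u : G K}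
    (hu : InLevelGroup 𝔫 u) {h : G K} (hh : h ∈ H) :
    ∃ h' ∈ H, InLevelGroup 𝔫 (h'⁻¹ * (u * h)) := by
  obtain ⟨hu1, hu2⟩ := isIntegralAt_of_inLevelGroup833 hu v
  have hhH := hH.2.1 h hh
  have hint : IsIntegralAt v (u * h) := by
    rw [← isInt129_finCompHom_iff, map_mul]
    exact isInt129_mul hu1 hhH.2.1
  have hdet : Valued.v (finComp v (u * h)).det = WithZero.exp (-1 : ℤ) := by
    rw [← coe_finCompHom129, map_mul, Matrix.GeneralLinearGroup.coe_mul, Matrix.det_mul, map_mul,
      valued_det_eq_one833 (x := finCompHom129 v u) hu1 (by rw [← map_inv]; exact hu2), one_mul]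
    exact hhH.2.2
  obtain ⟨h', hh', hi1, hi2, -⟩ := heckeCosetSystem_complete129 hH hint hdet
  have hh'H := hH.2.1 h' hh'
  refine ⟨h', hh', fun w => ?_, fun v' i j => ?_⟩
  · rw [trivAtInf_iff129, map_mul, map_mul, map_inv,
      (trivAtInf_iff129 w h').1 (hh'H.1.1 w), (trivAtInf_iff129 w u).1 (hu.1 w),
      (trivAtInf_iff129 w h).1 (hhH.1.1 w)]
    simp
  · have h1 : ∀ i j : Fin 2,
        Valued.v ((1 : Matrix (Fin 2) (Fin 2) (v'.adicCompletion K)) i j) ≤ 1 := by
      intro i j
      by_cases hij : i = j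
      · subst hij; simp
      · simp [hij]
    by_cases hv' : v' = v
    · subst hv'
      have e : (h'⁻¹ * (u * h))⁻¹ = (u * h)⁻¹ * h' := by group
      constructor
      · apply dense_ideal129 hv
        rw [Matrix.sub_apply]
        exact le_trans (Valuation.map_sub _ _ _) (max_le (hi1 i j) (h1 i j))
      · apply dense_ideal129 hv
        rw [Matrix.sub_apply, e]
        exact le_trans (Valuation.map_sub _ _ _) (max_le (hi2 i j) (h1 i j))
    · have e1 : finCompHom129 v' (h'⁻¹ * (u * h)) = finCompHom129 v' u := by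
        rw [map_mul, map_mul, map_inv, (trivAtFin_iff129 v' h').1 (hh'H.1.2 v' hv'),
          (trivAtFin_iff129 v' h).1 (hhH.1.2 v' hv')]
        simp
      have e2 : finComp v' (h'⁻¹ * (u * h)) = finComp v' u := by
        rw [← coe_finCompHom129, e1]
        rfl
      have e3 : finComp v' (h'⁻¹ * (u * h))⁻¹ = finComp v' u⁻¹ := by
        rw [← coe_finCompHom129, map_inv, e1, ← map_inv]
        rfl
      rw [e2, e3]
      exact hu.2 v' i j

/-- **Level invariance of the Hecke sum.** -/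
theorem heckeSum_level_inv833 {𝔫 : Ideal (𝓞 K)} {v : HeightOneSpectrum (𝓞 K)}
    (hv : ¬ v.asIdeal ∣ 𝔫) {H : Finset (G K)} (hH : IsHeckeCosetSystem v H) {φ : G K → ℂ}
    (hφ : ∀ u : G K, InLevelGroup 𝔫 u → ∀ g : G K, φ (g * u) = φ g) {u : G K}
    (hu : InLevelGroup 𝔫 u) (g : G K) :
    ∑ h ∈ H, φ (g * u * h) = ∑ h ∈ H, φ (g * h) := by
  classical
  have key : ∀ h ∈ H, ∃ h' ∈ H, InLevelGroup 𝔫 (h'⁻¹ * (u * h)) :=
    fun h hh => exists_mem_levelGroup833 hv hH hu hh
  choose! σ hσ using key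
  have hinj : Set.InjOn σ (H : Set (G K)) := by
    intro h₁ hh₁ h₂ hh₂ he
    by_contra hne
    have k₁ := isIntegralAt_of_inLevelGroup833 (hσ h₁ hh₁).2 v
    have k₂ := isIntegralAt_of_inLevelGroup833 (hσ h₂ hh₂).2 v
    have e : h₁⁻¹ * h₂ = ((σ h₁)⁻¹ * (u * h₁))⁻¹ * ((σ h₂)⁻¹ * (u * h₂)) := by
      rw [he]; group
    apply hH.2.2 h₁ hh₁ h₂ hh₂ hne
    rw [e, ← isInt129_finCompHom_iff, map_mul]
    exact isInt129_mul ((isInt129_finCompHom_iff v _).2 k₁.2) ((isInt129_finCompHom_iff v _).2 k₂.1)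
  have hmaps : ∀ h ∈ H, σ h ∈ H := fun h hh => (hσ h hh).1
  have hsurj : Set.SurjOn σ (H : Set (G K)) (H : Set (G K)) :=
    Finset.surjOn_of_injOn_of_card_le σ hmaps hinj le_rfl
  refine Finset.sum_nbij σ hmaps hinj hsurj fun h hh => ?_
  have e : g * u * h = g * σ h * ((σ h)⁻¹ * (u * h)) := by group
  rw [e, hφ _ (hσ h hh).2]


/-! ## Archimedean invariance -/

/-- An element which is trivial at the finite places commutes with an element which is trivial at
the infinite places. -/
theorem commute_inf_fin833 {z h : G K} (hz : ∀ v : HeightOneSpectrum (𝓞 K), TrivAtFin v z)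
    (hh : ∀ w : InfinitePlace K, TrivAtInf w h) : z * h = h * z := by
  apply G_ext129
  · intro w'
    rw [map_mul, map_mul, (trivAtInf_iff129 w' h).1 (hh w'), mul_one, one_mul]
  · intro v'
    rw [map_mul, map_mul, (trivAtFin_iff129 v' z).1 (hz v'), mul_one, one_mul]

/-! ## Cuspidality -/

/-- A number field is countable. -/
theorem countable_numberField833 (K : Type) [Field K] [NumberField K] : Countable K :=
  (Module.finBasis ℚ K).equivFun.toEquiv.injective.countable

/-- Every fundamental domain of `K` in `𝔸_K` has finite Haar measure. -/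
theorem measure_fundDom_lt_top833 (hT : T1.AddFundDomC K) :
    letI : MeasurableSpace (Adl K) := borel (Adl K)
    ∀ μ : Measure (Adl K), μ.IsAddHaarMeasure → ∀ D : Set (Adl K),
      IsAddFundamentalDomain ((algebraMap K (Adl K)).toAddMonoidHom.range) D μ → μ D < ⊤ := by
  let _ : MeasurableSpace (Adl K) := borel (Adl K)
  have : BorelSpace (Adl K) := ⟨rfl⟩
  intro μ hμ D hD
  obtain ⟨D₀, -, hD₀, -, -, hfin⟩ := hT μ hμ
  have : Countable K := countable_numberField833 K
  have : Countable ((algebraMap K (Adl K)).toAddMonoidHom.range) :=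
    (Set.countable_range _).to_subtype
  have e : μ D = μ D₀ := hD.measure_eq hD₀
  rw [e]
  exact hfin

/-- The unipotent family is continuous. -/
theorem continuous_unip833 {n : Adl K → G K}
    (hn : ∀ x : Adl K, (n x : Matrix (Fin 2) (Fin 2) (Adl K)) = !![1, x; 0, 1]) :
    Continuous n := by
  have hinv : ∀ x : Adl K,
      (((n x)⁻¹ : G K) : Matrix (Fin 2) (Fin 2) (Adl K)) = !![1, -x; 0, 1] := by
    intro x
    apply Units.inv_eq_of_mul_eq_one_right
    rw [hn x]
    ext i j
    fin_cases i <;> fin_cases j <;> simp [Matrix.mul_apply, Fin.sum_univ_two]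
  rw [Units.continuous_iff]
  constructor
  · have e : (Units.val ∘ n) = fun x : Adl K => (!![1, x; 0, 1] : Matrix (Fin 2) (Fin 2) (Adl K)) :=
      funext hn
    rw [e]
    refine continuous_matrix fun i j => ?_
    fin_cases i <;> fin_cases j <;> simp <;> fun_prop
  · have e : (fun x : Adl K => (((n x)⁻¹ : G K) : Matrix (Fin 2) (Fin 2) (Adl K)))
        = fun x : Adl K => (!![1, -x; 0, 1] : Matrix (Fin 2) (Fin 2) (Adl K)) := funext hinv
    rw [e]
    refine continuous_matrix fun i j => ?_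
    fin_cases i <;> fin_cases j <;> simp <;> fun_prop

/-- The Hecke sum of a continuous bounded cuspidal function is cuspidal. -/
theorem cuspidal_heckeSum833 (hT : T1.AddFundDomC K) (H : Finset (G K)) {φ : G K → ℂ}
    (hc : Continuous φ) (hb : ∃ C : ℝ, ∀ g : G K, ‖φ g‖ ≤ C) (hcusp : IsCuspidalFn φ) :
    IsCuspidalFn (heckeSum H φ) := by
  let _ : MeasurableSpace (Adl K) := borel (Adl K)
  have : BorelSpace (Adl K) := ⟨rfl⟩
  intro μ hμ D hD n hn g
  have hfin : μ D < ⊤ := measure_fundDom_lt_top833 hT μ hμ D hD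
  have hncont : Continuous n := continuous_unip833 hn
  obtain ⟨C, hC⟩ := hb
  have : IsFiniteMeasure (μ.restrict D) :=
    ⟨by rw [Measure.restrict_apply_univ]; exact hfin⟩
  have hint : ∀ h ∈ H, Integrable (fun x : Adl K => φ (n x * g * h)) (μ.restrict D) := by
    intro h _
    refine Integrable.of_bound ?_ C (Filter.Eventually.of_forall fun x => hC _)
    exact (hc.comp ((hncont.mul continuous_const).mul continuous_const)).aestronglyMeasurable
  show ∫ x in D, (∑ h ∈ H, φ (n x * g * h)) ∂μ = 0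
  rw [integral_finsetSum _ hint]
  refine Finset.sum_eq_zero fun h _ => ?_
  have h0 := hcusp μ hμ D hD n hn (g * h)
  simp only [← mul_assoc] at h0
  exact h0

/-! ## The leaf -/

/-- **T2.27.02 `SubHeckePresT291`**, VERBATIM. -/
theorem subHeckePresT833 (K : Type) [Field K] [NumberField K] : T2.H291.SubHeckePresT291 K := by
  intro 𝔫 τ ctx R v hv H hH φ hφ
  refine ⟨⟨?_, ?_, ?_, ?_, ?_, ?_⟩, ?_⟩
  · exact continuous_finsetSum H fun h _ => hφ.aut.cont.comp (continuous_mul_const h)
  · obtain ⟨C, hC⟩ := hφ.aut.bdd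
    refine ⟨H.card * C, fun g => ?_⟩
    calc ‖heckeSum H φ g‖ = ‖∑ h ∈ H, φ (g * h)‖ := rfl
      _ ≤ ∑ h ∈ H, ‖φ (g * h)‖ := norm_sum_le _ _
      _ ≤ ∑ _h ∈ H, C := Finset.sum_le_sum fun h _ => hC _
      _ = H.card * C := by rw [Finset.sum_const, nsmul_eq_mul]
  · intro γ g
    show ∑ h ∈ H, φ (_ * g * h) = ∑ h ∈ H, φ (g * h)
    refine Finset.sum_congr rfl fun h _ => ?_
    rw [mul_assoc, hφ.aut.left_inv]
  · intro u hu g
    exact heckeSum_level_inv833 hv hH hφ.aut.level_inv hu g
  · intro w k hk g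
    show ∑ h ∈ H, φ (g * k * h) = τ k * ∑ h ∈ H, φ (g * h)
    rw [Finset.mul_sum]
    refine Finset.sum_congr rfl fun h hh => ?_
    rw [mul_assoc, commute_inf_fin833 hk.1.2 (hH.2.1 h hh).1.1, ← mul_assoc,
      hφ.aut.arch_compact w k hk]
  · intro g
    show ∑ h ∈ H, φ (g * R.r * h) = ∑ h ∈ H, φ (g * h)
    refine Finset.sum_congr rfl fun h hh => ?_
    rw [mul_assoc, commute_inf_fin833 R.ray.1 (hH.2.1 h hh).1.1, ← mul_assoc, hφ.aut.ray]
  · exact cuspidal_heckeSum833 ctx.t1.addFundDom H hφ.aut.cont hφ.aut.bdd hφ.cuspidal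

end Fermat.Agent.LT.T2.H833

end

end
-- ===== PACK-END LT/T2/H833/HeckePresT.lean

-- ===== PACK-BEGIN LT/T2/H878/CommConvMean.lean
section











/-!
# Row LT, tower T2, sub-leaf T2.07.21 `SubCommConvMean429` (helper878)

OFF-MAIN.  A convolution by a spherical test function commutes with the sphere means (complex
places) and with the circle means (real places):

`subCommConvMean878 : SubS2Rot429 → SubCartanInf429 → SubCommConvMean429 K`.

Inputs: the auxiliary sub-leaves T2.07.31 `SubS2Rot429` (rotation invariance of `sin β dβ dα`;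
used at the complex places only) and T2.07.32 `SubCartanInf429` (Cartan decomposition), and the
proved T2.07.30 (`locCont472`, helper472).  Of the context `Ctx429` only `t1.locComp` and
`t1.unimod` are used; `PairDefinite` is not needed: the commutation is proved pointwise.

Proof (`comm_abstract878`, `comm_fam878`): with `Y_p = k_p a`, `Z_p = k_p a⁻¹`,
`R(f) M φ (x) = ∫ φ(x h) B(h) dh` and `M R(f) φ (x) = ∫ φ(x h) A(h) dh` with the kernels
`B(h) = ∫ f(h Z_p) dp`, `A(h) = ∫ f(Y_p⁻¹ h) dp` (Fubini, left and right invariance of the Haar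
measure, right invariance of `f` and `φ` under the compact group at `w`); `A = B` by Gelfand's
trick (`biInv_star878`): `f(Y_p⁻¹ h) = f(h* Z_p)` for the conjugate transpose `h*` of `h` at `w`,
and `B(h*) = B(h)` because `B` is bi-invariant under the compact group at `w`.
-/

set_option autoImplicit false
set_option linter.unusedSectionVars false
set_option linter.style.haveILetI false

open IsDedekindDomain NumberField MeasureTheory Set
open scoped Matrix Pointwise

noncomputable section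

namespace Fermat.Agent.LT.T2.H878

open Fermat.Agent.LT.H556.A0
open Fermat.Agent.LT.T2
open Fermat.Agent.LT.T2.H472

variable {K : Type} [Field K] [NumberField K]

attribute [local instance] Fermat.Agent.LT.T2.borelG

/-! ## 1. The complex places -/

/-- The box of the Euler angles. -/
def boxS878 : Set (ℝ × ℝ) := Ioc 0 (2 * Real.pi) ×ˢ Ioc 0 Real.pi

/-- The closed box of the Euler angles. -/
def boxSc878 : Set (ℝ × ℝ) := Icc 0 (2 * Real.pi) ×ˢ Icc 0 Real.pi

/-- The density `sin β`. -/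
def wtS878 : ℝ × ℝ → ℂ := fun p => ((Real.sin p.2 : ℝ) : ℂ)

theorem continuous_wtS878 : Continuous wtS878 := by
  unfold wtS878
  fun_prop

theorem measurableSet_boxS878 : MeasurableSet boxS878 :=
  measurableSet_Ioc.prod measurableSet_Ioc

theorem isCompact_boxSc878 : IsCompact boxSc878 := isCompact_Icc.prod isCompact_Icc

theorem boxS_subset878 : boxS878 ⊆ boxSc878 :=
  prod_mono Ioc_subset_Icc_self Ioc_subset_Icc_self

/-- The iterated interval integrals are an integral over the box. -/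
theorem sphere_conv878 (Ψ : ℝ × ℝ → ℂ) (h : IntegrableOn Ψ boxS878 volume) :
    ∫ α in (0 : ℝ)..(2 * Real.pi), ∫ β in (0 : ℝ)..Real.pi, Ψ (α, β) = ∫ p in boxS878, Ψ p := by
  have h2 : (0 : ℝ) ≤ 2 * Real.pi := by positivity
  rw [intervalIntegral.integral_of_le h2]
  simp_rw [intervalIntegral.integral_of_le Real.pi_pos.le]
  rw [boxS878, Measure.volume_eq_prod] at h ⊢
  exact (setIntegral_prod Ψ h).symm

/-- The parametrisation of a sphere is continuous. -/
theorem continuous_sphere878 {w : InfinitePlace K} {d : ℝ} {Y : ℝ → ℝ → G K}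
    (hY : IsSphereAt w d Y) : Continuous fun p : ℝ × ℝ => Y p.1 p.2 := by
  refine locCont472 K w (ℝ × ℝ) (fun p => Y p.1 p.2) (fun p => (hY p.1 p.2).1) ?_
  intro i j
  have h : (fun p : ℝ × ℝ => infComp w (Y p.1 p.2) i j)
      = fun p : ℝ × ℝ => (rotZ p.1 * rotY p.2 * torus d) i j := by
    funext p
    rw [(hY p.1 p.2).2]
  rw [h]
  have hc : Continuous fun p : ℝ × ℝ => rotZ p.1 * rotY p.2 * torus d :=
    ((continuous_rotZ878.comp continuous_fst).matrix_mul
      (continuous_rotY878.comp continuous_snd)).matrix_mul continuous_const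
  exact hc.matrix_elem i j

theorem comp_sphere_zero878 {w : InfinitePlace K} {d : ℝ} {Y : ℝ → ℝ → G K}
    (hY : IsSphereAt w d Y) : infComp w (Y 0 0) = torus d := by
  rw [(hY 0 0).2, rotZ_zero878, rotY_zero878, one_mul, one_mul]

theorem comp_sphere_k878 {w : InfinitePlace K} {d : ℝ} {Y : ℝ → ℝ → G K}
    (hY : IsSphereAt w d Y) (p : ℝ × ℝ) :
    infComp w (Y p.1 p.2 * (Y 0 0)⁻¹) = rotZ p.1 * rotY p.2 := by
  rw [infComp_mul878, infComp_inv472, comp_sphere_zero878 hY, (hY p.1 p.2).2, mul_assoc,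
    Matrix.mul_nonsing_inv _ (IsUnit.mk0 _ (det_torus878 d)), mul_one]

/-- The family of a sphere. -/
def sphereFam878 {w : InfinitePlace K} (hw : w.IsComplex) {d : ℝ} {Y : ℝ → ℝ → G K}
    (hY : IsSphereAt w d Y) : Fam878 w (fun p : ℝ × ℝ => Y p.1 p.2) where
  a := Y 0 0
  a_loc := (hY 0 0).1
  a_herm := by rw [comp_sphere_zero878 hY, torus_herm878]
  k := fun p => Y p.1 p.2 * (Y 0 0)⁻¹
  k_cpt := fun p => by
    refine ⟨isLocalAtInf_mul878 (hY p.1 p.2).1 (isLocalAtInf_inv472 (hY 0 0).1), ?_,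
      fun hr => absurd hr (InfinitePlace.not_isReal_iff_isComplex.2 hw)⟩
    rw [comp_sphere_k878 hY, Matrix.conjTranspose_mul]
    calc rotZ p.1 * rotY p.2 * ((rotY p.2)ᴴ * (rotZ p.1)ᴴ)
        = rotZ p.1 * (rotY p.2 * (rotY p.2)ᴴ) * (rotZ p.1)ᴴ := by simp only [mul_assoc]
      _ = 1 := by rw [rotY_unitary878, mul_one, rotZ_unitary878]
  Y_eq := fun p => by
    show Y p.1 p.2 = Y p.1 p.2 * (Y 0 0)⁻¹ * Y 0 0
    rw [inv_mul_cancel_right]

theorem sphereFam_Z_comp878 {w : InfinitePlace K} (hw : w.IsComplex) {d : ℝ}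
    {Y : ℝ → ℝ → G K} (hY : IsSphereAt w d Y) (p : ℝ × ℝ) :
    infComp w ((sphereFam878 hw hY).Z p) = rotZ p.1 * rotY p.2 * torus (-d) := by
  show infComp w (Y p.1 p.2 * (Y 0 0)⁻¹ * (Y 0 0)⁻¹) = _
  rw [infComp_mul878, comp_sphere_k878 hY, infComp_inv472, comp_sphere_zero878 hY,
    torus_inv878]

/-- The element supported at the complex place `w` with component `m`. -/
def locC878 (w : InfinitePlace K) (hw : w.IsComplex)
    (m : {m : Matrix (Fin 2) (Fin 2) ℂ // m.det ≠ 0}) : G K :=
  Classical.choose (exists_local878 (K := K) w m.1 m.2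
    (fun hr => absurd hr (InfinitePlace.not_isReal_iff_isComplex.2 hw)))

theorem locC_loc878 (w : InfinitePlace K) (hw : w.IsComplex)
    (m : {m : Matrix (Fin 2) (Fin 2) ℂ // m.det ≠ 0}) : IsLocalAtInf w (locC878 w hw m) :=
  (Classical.choose_spec (exists_local878 (K := K) w m.1 m.2
    (fun hr => absurd hr (InfinitePlace.not_isReal_iff_isComplex.2 hw)))).1

theorem locC_comp878 (w : InfinitePlace K) (hw : w.IsComplex)
    (m : {m : Matrix (Fin 2) (Fin 2) ℂ // m.det ≠ 0}) : infComp w (locC878 w hw m) = m.1 :=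
  (Classical.choose_spec (exists_local878 (K := K) w m.1 m.2
    (fun hr => absurd hr (InfinitePlace.not_isReal_iff_isComplex.2 hw)))).2

theorem continuous_locC878 (w : InfinitePlace K) (hw : w.IsComplex) :
    Continuous (locC878 (K := K) w hw) := by
  refine locCont472 K w _ (locC878 w hw) (locC_loc878 w hw) ?_
  intro i j
  have h : (fun m : {m : Matrix (Fin 2) (Fin 2) ℂ // m.det ≠ 0} =>
      infComp w (locC878 (K := K) w hw m) i j) = fun m => m.1 i j := by
    funext m
    rw [locC_comp878]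
  rw [h]
  exact continuous_subtype_val.matrix_elem i j

/-- The function on `GL₂(ℂ)` attached to `g ↦ f(h g)`. -/
def psi878 (w : InfinitePlace K) (hw : w.IsComplex) (f : G K → ℂ) (h : G K) :
    Matrix (Fin 2) (Fin 2) ℂ → ℂ :=
  fun m => if hm : m.det ≠ 0 then f (h * locC878 w hw ⟨m, hm⟩) else 0

theorem psi_eq878 {w : InfinitePlace K} (hw : w.IsComplex) (f : G K → ℂ) (h g : G K)
    (hg : IsLocalAtInf w g) : psi878 w hw f h (infComp w g) = f (h * g) := by
  have hdet : (infComp w g).det ≠ 0 := det_infComp_ne_zero472 w g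
  unfold psi878
  rw [dif_pos hdet]
  congr 2
  exact local_unique878 (locC_loc878 w hw _) hg (locC_comp878 w hw _)

theorem continuousOn_psi878 {w : InfinitePlace K} (hw : w.IsComplex) {f : G K → ℂ}
    (hf : Continuous f) (h : G K) :
    ContinuousOn (psi878 w hw f h) {m | m.det ≠ 0} := by
  rw [continuousOn_iff_continuous_domRestrict]
  have e : ({m : Matrix (Fin 2) (Fin 2) ℂ | m.det ≠ 0}.domRestrict (psi878 w hw f h))
      = fun m => f (h * locC878 w hw m) := by
    funext m
    show psi878 w hw f h m.1 = _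
    unfold psi878
    exact dif_pos (show (m : Matrix (Fin 2) (Fin 2) ℂ).det ≠ 0 from m.2)
  rw [e]
  exact hf.comp (continuous_const.mul (continuous_locC878 w hw))

theorem psi_inv878 {w : InfinitePlace K} (hw : w.IsComplex) {f : G K → ℂ}
    (hfR : ∀ k : G K, IsArchCompact w k → ∀ g, f (g * k) = f g) (h : G K)
    (m k : Matrix (Fin 2) (Fin 2) ℂ) (hk : k * kᴴ = 1) :
    psi878 w hw f h (m * k) = psi878 w hw f h m := by
  have hkdet : k.det ≠ 0 := by
    have h1 := congrArg Matrix.det hk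
    rw [Matrix.det_mul, Matrix.det_one] at h1
    exact left_ne_zero_of_mul_eq_one h1
  by_cases hm : m.det ≠ 0
  · obtain ⟨Kk, hKk, hKkc⟩ := exists_archCompact878 (K := K) w k hk
      (fun hr => absurd hr (InfinitePlace.not_isReal_iff_isComplex.2 hw))
    have e1 : m = infComp w (locC878 (K := K) w hw ⟨m, hm⟩) :=
      (locC_comp878 w hw ⟨m, hm⟩).symm
    have e2 : m * k = infComp w (locC878 (K := K) w hw ⟨m, hm⟩ * Kk) := by
      rw [infComp_mul878, hKkc, ← e1]
    rw [e2, psi_eq878 hw f h _ (isLocalAtInf_mul878 (locC_loc878 w hw _) hKk.1), ← mul_assoc,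
      hfR Kk hKk]
    conv_rhs => rw [e1]
    rw [psi_eq878 hw f h _ (locC_loc878 w hw _)]
  · have hmk : ¬ (m * k).det ≠ 0 := by
      rw [Matrix.det_mul]
      intro h1
      exact hm (left_ne_zero_of_mul h1)
    unfold psi878
    rw [dif_neg hm, dif_neg hmk]

/-- **The invariance `RI` at a complex place**, from the rotation invariance of the measure
`sin β dβ dα`. -/
theorem sphere_RI878 (hrot : H429.SubS2Rot429) {w : InfinitePlace K} (hw : w.IsComplex)
    {d : ℝ} {Y : ℝ → ℝ → G K} (hY : IsSphereAt w d Y) {f : G K → ℂ} (hf : Continuous f)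
    (hfR : ∀ k : G K, IsArchCompact w k → ∀ g, f (g * k) = f g) (h k' : G K)
    (hk' : IsArchCompact w k') :
    ∫ p in boxS878, f (h * k' * (sphereFam878 hw hY).Z p) * wtS878 p
      = ∫ p in boxS878, f (h * (sphereFam878 hw hY).Z p) * wtS878 p := by
  have hZcont : Continuous (sphereFam878 hw hY).Z := by
    have : (sphereFam878 hw hY).Z = fun p => Y p.1 p.2 * (Y 0 0)⁻¹ * (Y 0 0)⁻¹ := rfl
    rw [this]
    exact ((continuous_sphere878 hY).mul continuous_const).mul continuous_const
  have key := hrot (psi878 w hw f h) (continuousOn_psi878 hw hf h) (psi_inv878 hw hfR h)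
    (infComp w k') hk'.2.1 (-d)
  have e1 : ∀ α β : ℝ, psi878 w hw f h (infComp w k' * (rotZ α * rotY β * torus (-d)))
      = f (h * k' * (sphereFam878 hw hY).Z (α, β)) := by
    intro α β
    rw [← sphereFam_Z_comp878 hw hY (α, β), ← infComp_mul878,
      psi_eq878 hw f h _ (isLocalAtInf_mul878 hk'.1 ((sphereFam878 hw hY).Z_loc _)), mul_assoc]
  have e2 : ∀ α β : ℝ, psi878 w hw f h (rotZ α * rotY β * torus (-d))
      = f (h * (sphereFam878 hw hY).Z (α, β)) := by
    intro α β
    rw [← sphereFam_Z_comp878 hw hY (α, β),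
      psi_eq878 hw f h _ ((sphereFam878 hw hY).Z_loc _)]
  simp_rw [e1, e2] at key
  have hc1 : Continuous fun p => f (h * k' * (sphereFam878 hw hY).Z p) * wtS878 p :=
    (hf.comp (continuous_const.mul hZcont)).mul continuous_wtS878
  have hc2 : Continuous fun p => f (h * (sphereFam878 hw hY).Z p) * wtS878 p :=
    (hf.comp (continuous_const.mul hZcont)).mul continuous_wtS878
  rw [← sphere_conv878 _ ((hc1.continuousOn.integrableOn_compact isCompact_boxSc878).mono_set
      boxS_subset878),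
    ← sphere_conv878 _ ((hc2.continuousOn.integrableOn_compact isCompact_boxSc878).mono_set
      boxS_subset878)]
  exact key

/-- **T2.07.21, complex places.** -/
theorem comm_sphere878 (hrot : H429.SubS2Rot429) (hC : H429.SubCartanInf429)
    {𝔫 : Ideal (𝓞 K)} (hctx : H429.Ctx429 K 𝔫) (F : Frame K) {f : G K → ℂ}
    (hf : IsSphTestFn 𝔫 f) {w : InfinitePlace K} (hw : w.IsComplex) {d : ℝ}
    {Y : ℝ → ℝ → G K} (hY : IsSphereAt w d Y) :
    H429.Comm429 𝔫 (conv F f) (sphereMean Y) := by
  intro φ hφ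
  funext x
  have hYc := continuous_sphere878 hY
  have main := comm_fam878 hC hctx.t1 F (volume : Measure (ℝ × ℝ)) measurableSet_boxS878
    isCompact_boxSc878 boxS_subset878 hYc (sphereFam878 hw hY) continuous_wtS878
    hf.test.cont hf.test.cpt hφ.cont (hf.test.arch_right w) (hf.test.arch_left w)
    (hφ.arch_compact w) (sphere_RI878 hrot hw hY hf.test.cont (hf.test.arch_right w)) x
  have hL : conv F f (sphereMean Y φ) x
      = ∫ h, (∫ p in boxS878, φ (x * h * Y p.1 p.2) * wtS878 p) * f h ∂F.μ := by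
    show ∫ h, sphereMean Y φ (x * h) * f h ∂F.μ = _
    refine integral_congr_ae (Filter.Eventually.of_forall fun h => ?_)
    show sphereMean Y φ (x * h) * f h = _
    congr 1
    exact sphere_conv878 (fun p => φ (x * h * Y p.1 p.2) * wtS878 p)
      (fam_mean_integrable878 hctx.t1 volume isCompact_boxSc878 boxS_subset878 hYc
        continuous_wtS878 hφ.cont (x * h))
  have hR : sphereMean Y (conv F f φ) x
      = ∫ p in boxS878, (∫ h, φ (x * Y p.1 p.2 * h) * f h ∂F.μ) * wtS878 p :=
    sphere_conv878 (fun p => (∫ h, φ (x * Y p.1 p.2 * h) * f h ∂F.μ) * wtS878 p)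
      (fam_mean_conv_integrable878 hctx.t1 F volume measurableSet_boxS878 isCompact_boxSc878
        boxS_subset878 hYc continuous_wtS878 hf.test.cont hf.test.cpt hφ.cont x)
  rw [hL, hR]
  exact main

/-! ## 2. The real places -/

/-- The parametrisation of a circle is continuous. -/
theorem continuous_circle878 {w : InfinitePlace K} {t : ℝ} {Y : ℝ → G K}
    (hY : IsCircleAt w t Y) : Continuous Y := by
  refine locCont472 K w ℝ Y (fun θ => (hY θ).1) ?_
  intro i j
  have h : (fun θ : ℝ => infComp w (Y θ) i j) = fun θ : ℝ => (rotY θ * torus t) i j := by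
    funext θ
    rw [(hY θ).2]
  rw [h]
  have hc : Continuous fun θ : ℝ => rotY θ * torus t :=
    continuous_rotY878.matrix_mul continuous_const
  exact hc.matrix_elem i j

theorem comp_circle_zero878 {w : InfinitePlace K} {t : ℝ} {Y : ℝ → G K}
    (hY : IsCircleAt w t Y) : infComp w (Y 0) = torus t := by
  rw [(hY 0).2, rotY_zero878, one_mul]

theorem comp_circle_k878 {w : InfinitePlace K} {t : ℝ} {Y : ℝ → G K}
    (hY : IsCircleAt w t Y) (θ : ℝ) :
    infComp w (Y θ * (Y 0)⁻¹) = rotY θ := by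
  rw [infComp_mul878, infComp_inv472, comp_circle_zero878 hY, (hY θ).2, mul_assoc,
    Matrix.mul_nonsing_inv _ (IsUnit.mk0 _ (det_torus878 t)), mul_one]

/-- The family of a circle. -/
def circleFam878 {w : InfinitePlace K} {t : ℝ} {Y : ℝ → G K}
    (hY : IsCircleAt w t Y) : Fam878 w Y where
  a := Y 0
  a_loc := (hY 0).1
  a_herm := by rw [comp_circle_zero878 hY, torus_herm878]
  k := fun θ => Y θ * (Y 0)⁻¹
  k_cpt := fun θ => by
    refine ⟨isLocalAtInf_mul878 (hY θ).1 (isLocalAtInf_inv472 (hY 0).1), ?_, fun _ => ?_⟩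
    · rw [comp_circle_k878 hY]
      exact rotY_unitary878 θ
    · rw [comp_circle_k878 hY]
      exact rotY_det878 θ
  Y_eq := fun θ => by
    show Y θ = Y θ * (Y 0)⁻¹ * Y 0
    rw [inv_mul_cancel_right]

theorem circleFam_Z_comp878 {w : InfinitePlace K} {t : ℝ} {Y : ℝ → G K}
    (hY : IsCircleAt w t Y) (θ : ℝ) :
    infComp w ((circleFam878 hY).Z θ) = rotY θ * torus (-t) := by
  show infComp w (Y θ * (Y 0)⁻¹ * (Y 0)⁻¹) = _
  rw [infComp_mul878, comp_circle_k878 hY, infComp_inv472, comp_circle_zero878 hY,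
    torus_inv878]

/-- **The invariance `RI` at a real place**: the rotations act by translations of the angle. -/
theorem circle_RI878 {w : InfinitePlace K} (hw : w.IsReal)
    {t : ℝ} {Y : ℝ → G K} (hY : IsCircleAt w t Y) {f : G K → ℂ}
    (hfR : ∀ k : G K, IsArchCompact w k → ∀ g, f (g * k) = f g) (h k' : G K)
    (hk' : IsArchCompact w k') :
    ∫ θ in Ioc 0 (2 * Real.pi), f (h * k' * (circleFam878 hY).Z θ) * (1 : ℂ)
      = ∫ θ in Ioc 0 (2 * Real.pi), f (h * (circleFam878 hY).Z θ) * (1 : ℂ) := by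
  have h2 : (0 : ℝ) ≤ 2 * Real.pi := by positivity
  obtain ⟨θ₀, hθ₀⟩ := so2_eq_rotY878 (infComp w k') hk'.2.1
    (fun i j => infComp_real878 hw k' i j) (hk'.2.2 hw)
  -- the rotation translates the angle
  have e1 : ∀ θ : ℝ, k' * (circleFam878 hY).Z θ = (circleFam878 hY).Z (θ₀ + θ) := by
    intro θ
    refine local_unique878 (isLocalAtInf_mul878 hk'.1 ((circleFam878 hY).Z_loc θ))
      ((circleFam878 hY).Z_loc _) ?_
    rw [infComp_mul878, circleFam_Z_comp878, circleFam_Z_comp878, hθ₀, ← mul_assoc,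
      rotY_add878]
  -- periodicity
  have e2 : ∀ θ : ℝ, (circleFam878 hY).Z (θ + 2 * Real.pi)
      = (circleFam878 hY).Z θ * (circleFam878 hY).k (2 * Real.pi) := by
    intro θ
    refine local_unique878 ((circleFam878 hY).Z_loc _)
      (isLocalAtInf_mul878 ((circleFam878 hY).Z_loc θ) ((circleFam878 hY).k_cpt _).1) ?_
    have hk : infComp w ((circleFam878 hY).k (2 * Real.pi)) = rotY (2 * Real.pi) :=
      comp_circle_k878 hY _
    rw [infComp_mul878, circleFam_Z_comp878, circleFam_Z_comp878, hk, rotY_add_two_pi878,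
      rotY_two_pi878]
    simp
  have hper : Function.Periodic (fun θ => f (h * (circleFam878 hY).Z θ)) (2 * Real.pi) := by
    intro θ
    show f (h * (circleFam878 hY).Z (θ + 2 * Real.pi)) = f (h * (circleFam878 hY).Z θ)
    rw [e2, ← mul_assoc, hfR _ ((circleFam878 hY).k_cpt _)]
  simp only [mul_one]
  rw [← intervalIntegral.integral_of_le h2, ← intervalIntegral.integral_of_le h2]
  have e3 : ∀ θ : ℝ, f (h * k' * (circleFam878 hY).Z θ)
      = (fun θ => f (h * (circleFam878 hY).Z θ)) (θ₀ + θ) := by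
    intro θ
    show f (h * k' * (circleFam878 hY).Z θ) = f (h * (circleFam878 hY).Z (θ₀ + θ))
    rw [mul_assoc, e1]
  simp_rw [e3]
  rw [intervalIntegral.integral_comp_add_left (fun θ => f (h * (circleFam878 hY).Z θ)) θ₀,
    add_zero]
  have := hper.intervalIntegral_add_eq θ₀ 0
  rw [zero_add] at this
  exact this

/-- **T2.07.21, real places.** -/
theorem comm_circle878 (hC : H429.SubCartanInf429)
    {𝔫 : Ideal (𝓞 K)} (hctx : H429.Ctx429 K 𝔫) (F : Frame K) {f : G K → ℂ}
    (hf : IsSphTestFn 𝔫 f) {w : InfinitePlace K} (hw : w.IsReal) {t : ℝ}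
    {Y : ℝ → G K} (hY : IsCircleAt w t Y) :
    H429.Comm429 𝔫 (conv F f) (circleMean Y) := by
  intro φ hφ
  funext x
  have h2 : (0 : ℝ) ≤ 2 * Real.pi := by positivity
  have hYc := continuous_circle878 hY
  have main := comm_fam878 hC hctx.t1 F (volume : Measure ℝ)
    (measurableSet_Ioc : MeasurableSet (Ioc (0 : ℝ) (2 * Real.pi)))
    (isCompact_Icc : IsCompact (Icc (0 : ℝ) (2 * Real.pi))) Ioc_subset_Icc_self hYc
    (circleFam878 hY) (continuous_const : Continuous fun _ : ℝ => (1 : ℂ))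
    hf.test.cont hf.test.cpt hφ.cont (hf.test.arch_right w) (hf.test.arch_left w)
    (hφ.arch_compact w) (circle_RI878 hw hY (hf.test.arch_right w)) x
  simp only [mul_one] at main
  have hL : conv F f (circleMean Y φ) x
      = ∫ h, (∫ θ in Ioc 0 (2 * Real.pi), φ (x * h * Y θ)) * f h ∂F.μ := by
    show ∫ h, circleMean Y φ (x * h) * f h ∂F.μ = _
    refine integral_congr_ae (Filter.Eventually.of_forall fun h => ?_)
    show circleMean Y φ (x * h) * f h = _
    congr 1
    exact intervalIntegral.integral_of_le h2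
  have hR : circleMean Y (conv F f φ) x
      = ∫ θ in Ioc 0 (2 * Real.pi), (∫ h, φ (x * Y θ * h) * f h ∂F.μ) :=
    intervalIntegral.integral_of_le h2
  rw [hL, hR]
  exact main

/-! ## 3. The leaf -/

/-- **T2.07.21** `SubCommConvMean429`, from the auxiliary sub-leaves T2.07.31 (rotation
invariance of `sin β dβ dα`) and T2.07.32 (Cartan decomposition at the infinite places). -/
theorem subCommConvMean878 (hrot : H429.SubS2Rot429) (hC : H429.SubCartanInf429) :
    H429.SubCommConvMean429 K := by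
  intro 𝔫 hctx F f hf
  exact ⟨fun w hw d _ Y hY => comm_sphere878 hrot hC hctx F hf hw hY,
    fun w hw t _ Y hY => comm_circle878 hC hctx F hf hw hY⟩

end Fermat.Agent.LT.T2.H878

end

end
-- ===== PACK-END LT/T2/H878/CommConvMean.lean

-- ===== PACK-BEGIN LT/T2/H907/Stab.lean
section



/-!
# Row LT, tower T2, leaf T2.06 (helper907): the zero set of the defect stabilises automorphic
functions

If the finite components of `y` lie in the level group and the defect of `y` vanishes, then
`y ∈ U(𝔫) · K_∞`, hence `φ (x * y) = φ x` for every function `φ` which is right invariant under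
the level group and under the compact groups at the infinite places.
-/

set_option autoImplicit false
set_option linter.unusedSectionVars false

open IsDedekindDomain NumberField Matrix
open scoped MatrixGroups Classical

noncomputable section

namespace Fermat.Agent.LT.T2.H907

open Fermat.Agent.LT.H556.A0 Fermat.Agent.LT.T8.H864 Fermat.Agent.LT.H51.MS4

variable {K : Type} [Field K] [NumberField K]

/-- Elements supported at the infinite places in `S`, unitary there (determinant `1` at the real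
places), act trivially on the right. -/
theorem stab_arch907 {φ : G K → ℂ}
    (harch : ∀ (w : InfinitePlace K) (k : G K), IsArchCompact w k → ∀ g : G K, φ (g * k) = φ g)
    (S : Finset (InfinitePlace K)) :
    ∀ b : G K, (∀ v : HeightOneSpectrum (𝓞 K), finCompHom v b = 1) →
      (∀ w : InfinitePlace K, w ∉ S → infCompHom w b = 1) →
      (∀ w : InfinitePlace K, infComp w b * (infComp w b)ᴴ = 1) →
      (∀ w : InfinitePlace K, w.IsReal → (infComp w b).det = 1) →
      ∀ x : G K, φ (x * b) = φ x := by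
  induction S using Finset.induction_on with
  | empty =>
    intro b hfin hinf _ _ x
    have hb : b = 1 := by
      refine G_ext (fun w => ?_) (fun v => ?_)
      · rw [hinf w (Finset.notMem_empty w), map_one]
      · rw [hfin v, map_one]
    rw [hb, mul_one]
  | insert w₀ S hw₀ ih =>
    intro b hfin hinf hU hdet x
    set k : G K := locInf w₀ (infCompHom w₀ b) with hk
    have hkcomp : infComp w₀ k = infComp w₀ b := by
      rw [hk, infComp_locInf_self, infComp_eq_infCompHom]
    have hkarch : IsArchCompact w₀ k :=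
      ⟨isLocalAtInf_locInf w₀ _, by rw [hkcomp]; exact hU w₀, fun hw => by
        rw [hkcomp]; exact hdet w₀ hw⟩
    set b' : G K := b * k⁻¹ with hb'
    have hbb' : b = b' * k := by rw [hb']; group
    have hb'inf : ∀ w, infCompHom w b' = if w = w₀ then 1 else infCompHom w b := by
      intro w
      rw [hb', map_mul, map_inv]
      split_ifs with h
      · subst h
        rw [hk, infCompHom_locInf_self, mul_inv_cancel]
      · rw [hk, infCompHom_locInf_of_ne h, inv_one, mul_one]
    have hb'comp : ∀ w, infComp w b' = if w = w₀ then 1 else infComp w b := by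
      intro w
      rw [infComp_eq_infCompHom, hb'inf w]
      split_ifs with h
      · rw [Units.val_one, Matrix.map_one _ (map_zero _) (map_one _)]
      · rfl
    have h1 : φ (x * b') = φ x := by
      refine ih b' (fun v => ?_) (fun w hw => ?_) (fun w => ?_) (fun w hwr => ?_) x
      · rw [hb', map_mul, map_inv, hfin v, hk, finCompHom_locInf, inv_one, mul_one]
      · rw [hb'inf w]
        split_ifs with h
        · rfl
        · exact hinf w (by
            rw [Finset.mem_insert, not_or]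
            exact ⟨h, hw⟩)
      · rw [hb'comp w]
        split_ifs with h
        · simp
        · exact hU w
      · rw [hb'comp w]
        split_ifs with h
        · simp
        · exact hdet w hwr
    rw [hbb', ← mul_assoc, harch w₀ k hkarch, h1]

/-- **The zero set of the defect stabilises `φ`.** -/
theorem stab907 {𝔫 : Ideal (𝓞 K)} {φ : G K → ℂ}
    (hlevel : ∀ u : G K, InLevelGroup 𝔫 u → ∀ g : G K, φ (g * u) = φ g)
    (harch : ∀ (w : InfinitePlace K) (k : G K), IsArchCompact w k → ∀ g : G K, φ (g * k) = φ g)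
    {y : G K} (hP : Pfin907 𝔫 y) (hD : defect907 y = 0) (x : G K) : φ (x * y) = φ x := by
  set u : G K := cut Set.univ False y with hu
  set a : G K := cut ∅ True y with ha
  have hya : y = a * u := by
    refine G_ext (fun w => ?_) (fun v => ?_)
    · rw [map_mul, hu, ha, infCompHom_cut_false, infCompHom_cut_true, mul_one]
    · rw [map_mul, hu, ha, finCompHom_cut_of_mem _ _ (Set.mem_univ v),
        finCompHom_cut_of_notMem _ _ (Set.notMem_empty v), one_mul]
  have huL : InLevelGroup 𝔫 u := by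
    rw [inLevelGroup_iff]
    refine ⟨fun w => ?_, fun v => ?_⟩
    · rw [hu, infCompHom_cut_false]
    · rw [hu, finCompHom_cut_of_mem _ _ (Set.mem_univ v)]
      exact hP v
  have hacomp : ∀ w, infComp w a = infComp w y := by
    intro w
    rw [infComp_eq_infCompHom, infComp_eq_infCompHom, ha, infCompHom_cut_true]
  have hUy := unitary_of_defect907_eq_zero hD
  have h1 : φ (x * a) = φ x := by
    refine stab_arch907 harch Finset.univ a (fun v => ?_) (fun w hw => ?_) (fun w => ?_)
      (fun w hwr => ?_) x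
    · rw [ha, finCompHom_cut_of_notMem _ _ (Set.notMem_empty v)]
    · exact absurd (Finset.mem_univ w) hw
    · rw [hacomp w]
      exact (hUy w).1
    · rw [hacomp w]
      exact (hUy w).2 hwr
  rw [hya, ← mul_assoc, hlevel u huL, h1]

end Fermat.Agent.LT.T2.H907

end

end
-- ===== PACK-END LT/T2/H907/Stab.lean

-- ===== PACK-BEGIN LT/T2/H511/FDAt.lean
section



/-!
# Row LT, tower T2, leaf T2.03a: THE TOP, PER FUNCTION (for the core classes of helper465)

OFF-MAIN, ADDITIVE (nothing of `FDSpec.lean` / `FDTop.lean` changes).  The proof of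
`leafFD_of_leaves511` uses of the test function `f` ONLY its left invariance under `U(𝔫)` and the
uniform smoothness bound of T2.03a.2 FOR THIS `f`.  So the statement is proved per function:

* `UnifSmoothAt511 f` : the conclusion of `UnifSmoothC` for one function `f`;
* `FDBoundAt511 f`    : the conclusion of `H386.FDBound` for one function `f`;
* `fdBoundAt_of511`   : `T1Out`, `ContrC K 𝔫`, `ConjAlgC K`, `CptC K`, `f` left `U(𝔫)`-invariant,
  `UnifSmoothAt511 f`  ⟹  `FDBoundAt511 f`.

`H386.FDBound K 𝔫` is `∀ f, IsTestFn 𝔫 f → FDBoundAt511 f` and `UnifSmoothC K 𝔫` is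
`∀ f, IsTestFn 𝔫 f → UnifSmoothAt511 f` BY DEFINITION (`fdBound_iff_at511`,
`unifSmoothC_iff_at511`, both `Iff.rfl`); the same holds for every other class of functions
(`H465.FDBoundCore K 𝔫` is `∀ f, IsTestCore 𝔫 f → FDBoundAt511 f` by definition).
-/

set_option autoImplicit false

open IsDedekindDomain NumberField MeasureTheory
open Fermat.Agent.LT.H556.A0

noncomputable section

namespace Fermat.Agent.LT.T2.H511

open Fermat.Agent.LT.T2 Fermat.Agent.LT.T2.H386

variable {K : Type} [Field K] [NumberField K]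

/-- The conclusion of `UnifSmoothC` for ONE function. -/
def UnifSmoothAt511 (f : G K → ℂ) : Prop :=
  ∀ Ω : Set (G K), IsCompact Ω → ∀ (R : ℝ) (M : ℕ),
    ∃ C : ℝ, 0 ≤ C ∧ ∀ ω ∈ Ω, ∀ h : G K, ∀ ε : ℝ, 0 < ε → ε ≤ 1 →
      ∀ τs : List (Adl K), τs.length = M →
        (∀ τ ∈ τs, τ.2 = 0 ∧ ∀ w : InfinitePlace K, ‖τ.1 w‖ ≤ ε * R) →
        ‖bdiff511 τs (fun y => f (ω⁻¹ * unip386 y * ω * h)) 0‖ ≤ C * ε ^ M

/-- The conclusion of `H386.FDBound` for ONE function. -/
def FDBoundAt511 (f : G K → ℂ) : Prop :=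
  ∀ 𝒟 : Set (Adl K), IsCompact 𝒟 → ∀ N : ℕ,
    ∃ (C c : ℝ) (M : ℕ) (W : Set (G K)), 0 ≤ C ∧ 0 < c ∧ IsCompact W ∧
      ∀ (x : G K) (t : ℝ), T1.HasHeight K x t → c ≤ t →
        ∃ (β : GL (Fin 2) K) (x' : G K), T1.IsUpperRat K β ∧ x = T1.ratG K β * x' ∧
          (∀ v ∈ 𝒟, conjUnip386 x' v ∈ W) ∧
          ∀ vs : List (Adl K), vs.length = M → (∀ v ∈ vs, v ∈ 𝒟) →
            ∀ h : G K, ‖fdiff386 x' vs f h‖ * t ^ N ≤ C

theorem unifSmoothC_iff_at511 (𝔫 : Ideal (𝓞 K)) :
    UnifSmoothC K 𝔫 ↔ ∀ f : G K → ℂ, IsTestFn 𝔫 f → UnifSmoothAt511 f := Iff.rfl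

theorem fdBound_iff_at511 (𝔫 : Ideal (𝓞 K)) :
    H386.FDBound K 𝔫 ↔ ∀ f : G K → ℂ, IsTestFn 𝔫 f → FDBoundAt511 f := Iff.rfl

/-- **T2.03a, per function.** -/
theorem fdBoundAt_of511 (hT1 : T1.T1Out K) {𝔫 : Ideal (𝓞 K)} (hA : ContrC K 𝔫)
    (hC : ConjAlgC K) (hD : CptC K) (f : G K → ℂ)
    (hleft : ∀ u : G K, InLevelGroup 𝔫 u → ∀ g : G K, f (u * g) = f g)
    (hB : UnifSmoothAt511 f) : FDBoundAt511 f := by
  intro 𝒟 h𝒟 N
  obtain ⟨hcpt1, hcpt2, hcpt3, hcpt4⟩ := hD
  obtain ⟨hAlg1, hAlg2, hAlg3⟩ := hC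
  -- reduction theory
  obtain ⟨Ω, m₀, M₀, hΩ, hm₀, -, hSiegel⟩ := hT1.siegelCompact 1 one_pos
  set n : ℕ := Module.finrank ℚ K with hn
  have hnpos : 0 < n := Module.finrank_pos
  set M : ℕ := n * N with hM
  -- the integer `m`
  have hneg : IsCompact (-𝒟) := h𝒟.neg
  obtain ⟨m, hm, hcontr⟩ := hA Ω hΩ (sumsLE511 (-𝒟) M) (hcpt4 (-𝒟) hneg M)
  -- the bound `R` of the infinite components of `m 𝒟`
  have h𝒟m : IsCompact ((fun v : Adl K => (m : Adl K) * v) '' 𝒟) :=
    h𝒟.image (continuous_const.mul continuous_id)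
  obtain ⟨R, hR0, hR⟩ := hcpt2 _ h𝒟m
  -- uniform smoothness
  obtain ⟨C₁, hC₁0, hUS⟩ := hB Ω hΩ R M
  -- the compact set `W`
  have hW : IsCompact (conjSet511 Ω (box511 𝒟 R m)) := hcpt1 Ω hΩ _ (hcpt3 𝒟 h𝒟 R m)
  refine ⟨C₁ / m₀ ^ N, max 1 (1 / m₀), M, conjSet511 Ω (box511 𝒟 R m),
    div_nonneg hC₁0 (pow_nonneg hm₀.le N), lt_max_of_lt_left one_pos, hW, ?_⟩
  intro x t hx ht
  have ht1 : 1 ≤ t := le_trans (le_max_left _ _) ht
  have ht2 : 1 / m₀ ≤ t := le_trans (le_max_right _ _) ht
  have htpos : 0 < t := lt_of_lt_of_le one_pos ht1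
  obtain ⟨β₀, z, a, ω, s, hβ₀, hz, hs, ha, hω, hxeq, hs1, -⟩ := hSiegel x t hx ht1
  -- `s ≥ 1`
  have hsn : 1 ≤ s ^ n := by
    have : 1 ≤ m₀ * t := by
      have := mul_le_mul_of_nonneg_left ht2 hm₀.le
      rwa [mul_one_div_cancel hm₀.ne'] at this
    exact le_trans this hs1
  have hs_one : 1 ≤ s := by
    by_contra hlt
    rw [not_le] at hlt
    have : s ^ n < 1 := pow_lt_one₀ hs.le hlt hnpos.ne'
    exact absurd hsn (not_le.2 this)
  -- the conjugations
  obtain ⟨d, hd, hdconj⟩ := hAlg1 m hm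
  obtain ⟨σ, hσ2, hσn, haconj⟩ := hAlg3 a s hs ha
  have hzconj := hAlg2 z hz
  set x' : G K := (T1.ratG K d)⁻¹ * z * a * ω with hx'
  have hconj : ∀ v : Adl K, conjUnip386 x' v = cgrp511 ω ((m : Adl K) * v * σ) := by
    intro v
    have e1 : conjUnip386 x' v
        = ω⁻¹ * (a⁻¹ * (z⁻¹ * (T1.ratG K d * unip386 v * (T1.ratG K d)⁻¹) * z) * a) * ω := by
      simp only [conjUnip386, hx']
      group
    rw [e1, hdconj, hzconj, haconj]
    rfl
  -- the upper triangular rational element
  have hβ : T1.IsUpperRat K (β₀ * d) := by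
    unfold T1.IsUpperRat at hβ₀ hd ⊢
    rw [Matrix.GeneralLinearGroup.coe_mul, Matrix.mul_apply, Fin.sum_univ_two, hβ₀, hd]
    simp
  have hxβ : x = T1.ratG K (β₀ * d) * x' := by
    rw [hxeq, map_mul, hx']
    group
  refine ⟨β₀ * d, x', hβ, hxβ, ?_, ?_⟩
  · -- the conjugates lie in `W`
    intro v hv
    rw [hconj v]
    refine ⟨ω, hω, (m : Adl K) * v * σ, ⟨?_, v, hv, ?_⟩, rfl⟩
    · intro w
      have e : (((m : Adl K) * v * σ).1 w) = ((m : Adl K) * v).1 w * σ.1 w := rfl
      rw [e, norm_mul, hσn w]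
      have h1 := hR _ ⟨v, hv, rfl⟩ w
      have h2 : s⁻¹ ≤ 1 := inv_le_one_of_one_le₀ hs_one
      calc ‖((m : Adl K) * v).1 w‖ * s⁻¹ ≤ R * 1 :=
            mul_le_mul h1 h2 (inv_nonneg.2 hs.le) hR0
        _ = R := mul_one R
    · have e : (((m : Adl K) * v * σ).2) = ((m : Adl K) * v).2 * σ.2 := rfl
      rw [e, hσ2, mul_one]
  · -- the bound
    intro vs hvsM hvs h
    set step : Adl K → Adl K := fun v => (m : Adl K) * v * σ with hstep
    have hstepneg : ∀ v : Adl K, conjUnip386 x' (-v) = cgrp511 ω (-(step v)) := by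
      intro v
      rw [hconj (-v)]
      congr 1
      simp only [hstep]
      ring
    set Ψ : Adl K → ℂ := fun y => f (cgrp511 ω y * h) with hΨ
    have e0 : fdiff386 x' vs f h = bdiff511 (vs.map step) Ψ 0 := by
      have := fdiff386_eq_bdiff511 x' ω step hstepneg vs f h 0
      rwa [cgrp511_zero, one_mul] at this
    -- additivity of the steps
    have hsum₁ : ∀ l : List (Adl K), (l.map step).sum = step l.sum := by
      intro l
      induction l with
      | nil => simp [hstep]
      | cons b l ih =>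
        rw [List.map_cons, List.sum_cons, ih, List.sum_cons]
        show (m : Adl K) * b * σ + (m : Adl K) * l.sum * σ = (m : Adl K) * (b + l.sum) * σ
        ring
    have hsum₂ : ∀ l : List (Adl K),
        (l.map (fun v => infPart511 (step v))).sum = infPart511 (step l.sum) := by
      intro l
      have : l.map (fun v => infPart511 (step v)) = (l.map step).map infPart511 := by
        rw [List.map_map]; rfl
      rw [this, infPart511_sum, hsum₁]
    -- the finite parts of the steps can be dropped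
    have hdrop : ∀ l : List (Adl K), l.Sublist vs →
        Ψ (0 - step l.sum) = Ψ (0 - infPart511 (step l.sum)) := by
      intro l hl
      have hlM : l.length ≤ M := hvsM ▸ hl.length_le
      have hl𝒟 : ∀ v ∈ l, v ∈ 𝒟 := fun v hv => hvs v (hl.subset hv)
      set y : Adl K := 0 - step l.sum with hy
      have hy2 : 0 - infPart511 (step l.sum) = infPart511 y := by
        rw [hy, zero_sub, zero_sub, infPart511_neg]
      rw [hy2]
      have hdec : y = finPart511 y + infPart511 y := by
        rw [add_comm]; exact (infPart511_add_finPart511 y).symm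
      have hmem : -l.sum ∈ sumsLE511 (-𝒟) M := by
        refine ⟨l.map (fun x => -x), by simpa using hlM, ?_, List.sum_neg l⟩
        intro v hv
        obtain ⟨b, hb, rfl⟩ := List.mem_map.1 hv
        exact Set.neg_mem_neg.2 (hl𝒟 b hb)
      have hfin : finPart511 y = finPart511 ((m : Adl K) * (-l.sum)) := by
        apply finPart511_congr
        have e1 : y = (m : Adl K) * (-l.sum) * σ := by
          rw [hy, zero_sub]; simp only [hstep]; ring
        have e2 : ((m : Adl K) * (-l.sum) * σ).2 = ((m : Adl K) * (-l.sum)).2 * σ.2 := rfl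
        rw [e1, e2, hσ2, mul_one]
      have hlev : InLevelGroup 𝔫 (cgrp511 ω (finPart511 y)) := by
        rw [hfin]
        exact hcontr ω hω _ hmem
      show f (cgrp511 ω y * h) = f (cgrp511 ω (infPart511 y) * h)
      conv_lhs => rw [hdec, cgrp511_add, mul_assoc]
      exact hleft _ hlev _
    have e1 : bdiff511 (vs.map step) Ψ 0
        = bdiff511 (vs.map (fun v => infPart511 (step v))) Ψ 0 :=
      bdiff511_congr vs step (fun v => infPart511 (step v)) hsum₁ hsum₂ Ψ hdrop
    -- uniform smoothness with `ε = 1 / s`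
    have hε0 : 0 < s⁻¹ := inv_pos.2 hs
    have hε1 : s⁻¹ ≤ 1 := inv_le_one_of_one_le₀ hs_one
    have hτ : ∀ τ ∈ vs.map (fun v => infPart511 (step v)),
        τ.2 = 0 ∧ ∀ w : InfinitePlace K, ‖τ.1 w‖ ≤ s⁻¹ * R := by
      intro τ hτ
      obtain ⟨v, hv, rfl⟩ := List.mem_map.1 hτ
      refine ⟨infPart511_snd _, fun w => ?_⟩
      rw [infPart511_fst]
      have e : ((step v).1 w) = ((m : Adl K) * v).1 w * σ.1 w := rfl
      rw [e, norm_mul, hσn w, mul_comm]
      exact mul_le_mul_of_nonneg_left (hR _ ⟨v, hvs v hv, rfl⟩ w) hε0.le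
    have hbound := hUS ω hω h s⁻¹ hε0 hε1 (vs.map (fun v => infPart511 (step v)))
      (by rw [List.length_map]; exact hvsM) hτ
    have hΨeq : (fun y => f (ω⁻¹ * unip386 y * ω * h)) = Ψ := rfl
    rw [hΨeq] at hbound
    rw [e0, e1]
    -- arithmetic
    have hsM : (s⁻¹) ^ M = ((s ^ n) ^ N)⁻¹ := by
      rw [hM, pow_mul, inv_pow, inv_pow]
    have hmt : (m₀ * t) ^ N ≤ (s ^ n) ^ N := pow_le_pow_left₀ (by positivity) hs1 N
    have hpos1 : 0 < (m₀ * t) ^ N := by positivity
    have hpos2 : 0 < (s ^ n) ^ N := by positivity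
    have h3 : ((s ^ n) ^ N)⁻¹ ≤ ((m₀ * t) ^ N)⁻¹ := inv_anti₀ hpos1 hmt
    calc ‖bdiff511 (vs.map (fun v => infPart511 (step v))) Ψ 0‖ * t ^ N
        ≤ (C₁ * (s⁻¹) ^ M) * t ^ N :=
          mul_le_mul_of_nonneg_right hbound (pow_nonneg htpos.le N)
      _ ≤ (C₁ * ((m₀ * t) ^ N)⁻¹) * t ^ N := by
          rw [hsM]
          exact mul_le_mul_of_nonneg_right (mul_le_mul_of_nonneg_left h3 hC₁0)
            (pow_nonneg htpos.le N)
      _ = C₁ / m₀ ^ N := by
          rw [mul_pow]
          field_simp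


/-- `leafFD_of_leaves511` again, through the per-function form. -/
theorem leafFD_of_leaves_at511 (hA : LeafContr K) (hB : LeafUnifSmooth K) (hC : LeafConjAlg K)
    (hD : LeafCpt K) : H386.LeafFD K :=
  fun hT1 𝔫 h𝔫 f hf =>
    fdBoundAt_of511 hT1 (hA hT1 𝔫 h𝔫) hC (hD hT1) f hf.level_left (hB hT1 𝔫 h𝔫 f hf)

end Fermat.Agent.LT.T2.H511

end

end
-- ===== PACK-END LT/T2/H511/FDAt.lean

-- ===== PACK-BEGIN LT/T2/H621/CirclePresTop.lean
section




/-!
# Row LT, tower T2, sub-leaf T2.07.13 `SubCirclePres429`: UNCONDITIONAL (helper621)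

OFF-MAIN.  `subCirclePres621 K : SubCirclePres429 K`, with `SubLocCont429` of helper472
(`LT/T2/H472/LocContLeaf.lean`, byte-identical copy).
-/

set_option autoImplicit false

namespace Fermat.Agent.LT.T2.H621

/-- **T2.07.13 `SubCirclePres429`, PROVED** (no hypothesis). -/
theorem subCirclePres621 (K : Type) [Field K] [NumberField K] :
    Fermat.Agent.LT.T2.H429.SubCirclePres429 K :=
  subCirclePres_of621 K (Fermat.Agent.LT.T2.H472.subLocCont472 K)

end Fermat.Agent.LT.T2.H621

end
-- ===== PACK-END LT/T2/H621/CirclePresTop.lean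

-- ===== PACK-BEGIN LT/T7/H142/SphLocal.lean
section




/-!
# Row LT, tower T7, node `SimpleC`, leaf `StepSphC` of helper963: THE LOCAL CORE (helper142)

OFF-MAIN.  Mathlib + the local toolkit `LT/H129` (helper129, byte-identical copies).

`sph_vanish142`: a function `Φ` on `GL₂(K_v)` which is bi-invariant under `GL₂(𝒪_v)`, satisfies
the Hecke relation `∑_c Φ(x [[π, c], [0, 1]]) + Φ(x diag(1, π)) = A Φ(x)` and
`Φ(x diag(π, π)) = b Φ(x)`, and vanishes at `1`, vanishes identically.

Proof: `E_d = Φ(diag(π^d, 1))`; `(q + 1) E_1 = A E_0`, `q E_{d+1} + b E_{d-1} = A E_d`, so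
`E_d = 0` for all `d`; Cartan decomposition; the scalars act through `b` (if `b = 0` then
`Φ = 0` at once).
-/

set_option autoImplicit false

open IsDedekindDomain NumberField Matrix
open IsDedekindDomain.HeightOneSpectrum

noncomputable section

namespace Fermat.Agent.LT.T7.H142

open Fermat.Agent.LT.H129

variable {K : Type} [Field K] [NumberField K] (v : HeightOneSpectrum (𝓞 K))

/-- The diagonal matrix `diag(x, y)`. -/
def dg142 (x y : v.adicCompletion K) (hx : x ≠ 0) (hy : y ≠ 0) :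
    GL (Fin 2) (v.adicCompletion K) :=
  mkGL129 x 0 0 y (by simpa using mul_ne_zero hx hy)

/-- The upper triangular Hecke element `[[π, c], [0, 1]]`. -/
def up142 (π c : v.adicCompletion K) (hπ : π ≠ 0) : GL (Fin 2) (v.adicCompletion K) :=
  mkGL129 π c 0 1 (by simpa using hπ)

variable {v}

theorem coe_dg142 (x y : v.adicCompletion K) (hx : x ≠ 0) (hy : y ≠ 0) :
    ((dg142 v x y hx hy : GL (Fin 2) (v.adicCompletion K)) :
      Matrix (Fin 2) (Fin 2) (v.adicCompletion K)) = !![x, 0; 0, y] := rfl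

theorem coe_up142 (π c : v.adicCompletion K) (hπ : π ≠ 0) :
    ((up142 v π c hπ : GL (Fin 2) (v.adicCompletion K)) :
      Matrix (Fin 2) (Fin 2) (v.adicCompletion K)) = !![π, c; 0, 1] := rfl

theorem dg142_mul (x y x' y' : v.adicCompletion K) (hx : x ≠ 0) (hy : y ≠ 0) (hx' : x' ≠ 0)
    (hy' : y' ≠ 0) :
    dg142 v x y hx hy * dg142 v x' y' hx' hy'
      = dg142 v (x * x') (y * y') (mul_ne_zero hx hx') (mul_ne_zero hy hy') := by
  apply ext_mat129
  rw [Matrix.GeneralLinearGroup.coe_mul, coe_dg142, coe_dg142, coe_dg142]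
  ext i j
  fin_cases i <;> fin_cases j <;> simp [Matrix.mul_apply, Fin.sum_univ_two]

theorem dg142_congr {x y x' y' : v.adicCompletion K} (hx : x ≠ 0) (hy : y ≠ 0) (hx' : x' ≠ 0)
    (hy' : y' ≠ 0) (ex : x = x') (ey : y = y') : dg142 v x y hx hy = dg142 v x' y' hx' hy' := by
  subst ex; subst ey; rfl

theorem dg142_one : dg142 v 1 1 one_ne_zero one_ne_zero = 1 := by
  apply ext_mat129
  rw [coe_dg142]
  ext i j
  fin_cases i <;> fin_cases j <;> simp

/-- `diag(x, y) ∈ GL₂(𝒪_v)` for units `x, y`. -/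
theorem isMaxCpt_dg142 {x y : v.adicCompletion K} (hx : x ≠ 0) (hy : y ≠ 0)
    (hvx : Valued.v x = 1) (hvy : Valued.v y = 1) :
    IsMaxCpt129 (v.adicCompletionIntegers K) (dg142 v x y hx hy) := by
  have h0 : (0 : v.adicCompletion K) ∈ v.adicCompletionIntegers K :=
    (v.adicCompletionIntegers K).zero_mem
  have hinv : (dg142 v x y hx hy)⁻¹ = dg142 v x⁻¹ y⁻¹ (inv_ne_zero hx) (inv_ne_zero hy) := by
    rw [inv_eq_iff_mul_eq_one, dg142_mul, ← dg142_one]
    exact dg142_congr _ _ _ _ (mul_inv_cancel₀ hx) (mul_inv_cancel₀ hy)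
  refine ⟨isInt129_mkGL _ ?_ h0 h0 ?_, ?_⟩
  · rw [mem_adicCompletionIntegers, hvx]
  · rw [mem_adicCompletionIntegers, hvy]
  · rw [hinv]
    refine isInt129_mkGL _ ?_ h0 h0 ?_
    · rw [mem_adicCompletionIntegers, map_inv₀, hvx, inv_one]
    · rw [mem_adicCompletionIntegers, map_inv₀, hvy, inv_one]

/-- `diag(x, y) = w diag(y, x) w`. -/
theorem dg142_swap (x y : v.adicCompletion K) (hx : x ≠ 0) (hy : y ≠ 0) :
    dg142 v x y hx hy = weyl129 * dg142 v y x hy hx * weyl129 := by
  apply ext_mat129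
  simp only [Matrix.GeneralLinearGroup.coe_mul, coe_dg142, weyl129, coe_mkGL129]
  ext i j
  fin_cases i <;> fin_cases j <;> simp [Matrix.mul_apply, Fin.sum_univ_two]

/-- `diag(p, 1) [[π, c], [0, 1]] = n(p c) diag(p π, 1)`. -/
theorem dg142_mul_up (p π c : v.adicCompletion K) (hp : p ≠ 0) (hπ : π ≠ 0) :
    dg142 v p 1 hp one_ne_zero * up142 v π c hπ
      = upperU129 (p * c) * dg142 v (p * π) 1 (mul_ne_zero hp hπ) one_ne_zero := by
  apply ext_mat129
  rw [Matrix.GeneralLinearGroup.coe_mul, Matrix.GeneralLinearGroup.coe_mul, coe_dg142,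
    coe_dg142, coe_up142]
  simp only [upperU129, coe_mkGL129]
  ext i j
  fin_cases i <;> fin_cases j <;> simp [Matrix.mul_apply, Fin.sum_univ_two]

/-- A non-zero element of valuation `≤ 1` has valuation `exp (-d)`, `d : ℕ`. -/
theorem exists_nat_val142 {t : v.adicCompletion K} (ht : t ≠ 0) (hle : Valued.v t ≤ 1) :
    ∃ d : ℕ, Valued.v t = WithZero.exp (-(d : ℤ)) := by
  have hne : Valued.v t ≠ 0 := (Valuation.ne_zero_iff _).mpr ht
  have hlog : WithZero.log (Valued.v t) ≤ 0 := by
    have h1 : Valued.v t ≤ WithZero.exp (0 : ℤ) := by simpa using hle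
    rwa [← WithZero.exp_log hne, WithZero.exp_le_exp] at h1
  refine ⟨(-(WithZero.log (Valued.v t))).toNat, ?_⟩
  rw [Int.toNat_of_nonneg (by omega), neg_neg]
  exact (WithZero.exp_log hne).symm

/-- A non-zero element has valuation `exp k`, `k : ℤ`. -/
theorem exists_int_val142 {t : v.adicCompletion K} (ht : t ≠ 0) :
    ∃ k : ℤ, Valued.v t = WithZero.exp k :=
  ⟨WithZero.log (Valued.v t), (WithZero.exp_log ((Valuation.ne_zero_iff _).mpr ht)).symm⟩

theorem val_pow142 {π : v.adicCompletion K} (hπ : Valued.v π = WithZero.exp (-1 : ℤ)) (d : ℕ) :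
    Valued.v (π ^ d) = WithZero.exp (-(d : ℤ)) := by
  rw [map_pow, hπ, ← WithZero.exp_nsmul]
  first | rfl | (congr 1; simp)

section Core

variable [Fintype (𝓞 K ⧸ v.asIdeal)]
variable {π : v.adicCompletion K} (hπ : Valued.v π = WithZero.exp (-1 : ℤ))
variable (Φ : GL (Fin 2) (v.adicCompletion K) → ℂ) (A b : ℂ)

include hπ in
/-- The values on the diagonal elements `diag(π^d, 1)` vanish. -/
theorem sph_diag142
    (hR : ∀ x k, IsMaxCpt129 (v.adicCompletionIntegers K) k → Φ (x * k) = Φ x)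
    (hL : ∀ x k, IsMaxCpt129 (v.adicCompletionIntegers K) k → Φ (k * x) = Φ x)
    (hT : ∀ x, (∑ c : 𝓞 K ⧸ v.asIdeal, Φ (x * up142 v π (rep129 v c) (unif_ne_zero129 v hπ)))
      + Φ (x * dg142 v 1 π one_ne_zero (unif_ne_zero129 v hπ)) = A * Φ x)
    (hS : ∀ x, Φ (x * dg142 v π π (unif_ne_zero129 v hπ) (unif_ne_zero129 v hπ)) = b * Φ x)
    (h0 : Φ 1 = 0) (d : ℕ) :
    Φ (dg142 v (π ^ d) 1 (pow_ne_zero d (unif_ne_zero129 v hπ)) one_ne_zero) = 0 := by
  have hπ0 := unif_ne_zero129 v hπ
  have hπm : π ∈ v.adicCompletionIntegers K := unif_mem129 v hπ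
  -- the upper terms of the Hecke relation
  have hup : ∀ (d : ℕ) (c : 𝓞 K ⧸ v.asIdeal),
      Φ (dg142 v (π ^ d) 1 (pow_ne_zero d hπ0) one_ne_zero * up142 v π (rep129 v c) hπ0)
        = Φ (dg142 v (π ^ (d + 1)) 1 (pow_ne_zero (d + 1) hπ0) one_ne_zero) := by
    intro d c
    rw [dg142_mul_up, hL]
    · exact congrArg Φ (dg142_congr _ _ _ _ (pow_succ π d).symm rfl)
    · apply isMaxCpt129_upperU
      exact (v.adicCompletionIntegers K).mul_mem _ _
        ((v.adicCompletionIntegers K).pow_mem hπm d) (rep129_mem v c)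
  have hsum : ∀ d : ℕ,
      (∑ c : 𝓞 K ⧸ v.asIdeal,
        Φ (dg142 v (π ^ d) 1 (pow_ne_zero d hπ0) one_ne_zero * up142 v π (rep129 v c) hπ0))
        = (Fintype.card (𝓞 K ⧸ v.asIdeal) : ℂ)
          * Φ (dg142 v (π ^ (d + 1)) 1 (pow_ne_zero (d + 1) hπ0) one_ne_zero) := by
    intro d
    rw [Finset.sum_congr rfl (fun c _ => hup d c), Finset.sum_const, Finset.card_univ,
      nsmul_eq_mul]
  have hq : (Fintype.card (𝓞 K ⧸ v.asIdeal) : ℂ) ≠ 0 := by
    have : 0 < Fintype.card (𝓞 K ⧸ v.asIdeal) := Fintype.card_pos_iff.mpr ⟨0⟩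
    exact_mod_cast this.ne'
  -- two-step induction
  have key : ∀ d : ℕ,
      Φ (dg142 v (π ^ d) 1 (pow_ne_zero d hπ0) one_ne_zero) = 0 ∧
      Φ (dg142 v (π ^ (d + 1)) 1 (pow_ne_zero (d + 1) hπ0) one_ne_zero) = 0 := by
    intro d
    induction d with
    | zero =>
      have e0 : dg142 v (π ^ 0) 1 (pow_ne_zero 0 hπ0) one_ne_zero = 1 := by
        rw [← dg142_one]
        exact dg142_congr _ _ _ _ (pow_zero π) rfl
      have hE0 : Φ (dg142 v (π ^ 0) 1 (pow_ne_zero 0 hπ0) one_ne_zero) = 0 := by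
        rw [e0, h0]
      refine ⟨hE0, ?_⟩
      have hrel := hT (dg142 v (π ^ 0) 1 (pow_ne_zero 0 hπ0) one_ne_zero)
      rw [hsum 0, hE0, mul_zero] at hrel
      -- the last term: `diag(1, π) = w diag(π, 1) w`
      have elast : dg142 v (π ^ 0) 1 (pow_ne_zero 0 hπ0) one_ne_zero
          * dg142 v 1 π one_ne_zero hπ0
          = weyl129 * dg142 v (π ^ (0 + 1)) 1 (pow_ne_zero (0 + 1) hπ0) one_ne_zero
            * weyl129 := by
        rw [e0, one_mul, dg142_swap]
        congr 2
        exact dg142_congr _ _ _ _ (by simp) rfl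
      rw [elast, hR _ _ (isMaxCpt129_weyl _), hL _ _ (isMaxCpt129_weyl _)] at hrel
      have h2 : ((Fintype.card (𝓞 K ⧸ v.asIdeal) : ℂ) + 1)
          * Φ (dg142 v (π ^ (0 + 1)) 1 (pow_ne_zero (0 + 1) hπ0) one_ne_zero) = 0 := by
        rw [add_mul, one_mul]
        exact hrel
      rcases mul_eq_zero.mp h2 with h3 | h3
      · exact absurd h3 (Nat.cast_add_one_ne_zero _)
      · exact h3
    | succ d ih =>
      refine ⟨ih.2, ?_⟩
      have hrel := hT (dg142 v (π ^ (d + 1)) 1 (pow_ne_zero (d + 1) hπ0) one_ne_zero)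
      rw [hsum (d + 1), ih.2, mul_zero] at hrel
      -- the last term: `diag(π^(d+1), π) = diag(π^d, 1) diag(π, π)`
      have elast : dg142 v (π ^ (d + 1)) 1 (pow_ne_zero (d + 1) hπ0) one_ne_zero
          * dg142 v 1 π one_ne_zero hπ0
          = dg142 v (π ^ d) 1 (pow_ne_zero d hπ0) one_ne_zero * dg142 v π π hπ0 hπ0 := by
        rw [dg142_mul, dg142_mul]
        exact dg142_congr _ _ _ _ (by rw [mul_one, pow_succ]) rfl
      rw [elast, hS, ih.1, mul_zero, add_zero] at hrel
      exact (mul_eq_zero.mp hrel).resolve_left hq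
  exact (key d).1

include hπ in
/-- **The local core**: a bi-invariant Hecke eigenfunction which vanishes at `1` vanishes. -/
theorem sph_vanish142
    (hR : ∀ x k, IsMaxCpt129 (v.adicCompletionIntegers K) k → Φ (x * k) = Φ x)
    (hL : ∀ x k, IsMaxCpt129 (v.adicCompletionIntegers K) k → Φ (k * x) = Φ x)
    (hT : ∀ x, (∑ c : 𝓞 K ⧸ v.asIdeal, Φ (x * up142 v π (rep129 v c) (unif_ne_zero129 v hπ)))
      + Φ (x * dg142 v 1 π one_ne_zero (unif_ne_zero129 v hπ)) = A * Φ x)
    (hS : ∀ x, Φ (x * dg142 v π π (unif_ne_zero129 v hπ) (unif_ne_zero129 v hπ)) = b * Φ x)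
    (h0 : Φ 1 = 0) (x : GL (Fin 2) (v.adicCompletion K)) : Φ x = 0 := by
  have hπ0 := unif_ne_zero129 v hπ
  by_cases hb : b = 0
  · -- `Φ(x) = Φ(x Z⁻¹ Z) = b Φ(x Z⁻¹) = 0`
    have h := hS (x * (dg142 v π π hπ0 hπ0)⁻¹)
    rw [inv_mul_cancel_right, hb, zero_mul] at h
    exact h
  -- the scalars
  have hscal : ∀ k : ℤ, ∀ c : v.adicCompletion K, ∀ hc : c ≠ 0, Valued.v c = WithZero.exp k →
      ∀ g, Φ g = 0 → Φ (g * dg142 v c c hc hc) = 0 := by
    intro k
    induction k using Int.induction_on with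
    | zero =>
      intro c hc hv g hg
      rw [hR _ _ (isMaxCpt_dg142 hc hc (by simpa using hv) (by simpa using hv))]
      exact hg
    | succ n ih =>
      -- `c π` has valuation `exp n`
      intro c hc hv g hg
      have hcπ : c * π ≠ 0 := mul_ne_zero hc hπ0
      have hv' : Valued.v (c * π) = WithZero.exp (n : ℤ) := by
        rw [map_mul, hv, hπ, ← WithZero.exp_add]
        congr 1
        ring
      have h1 := ih (c * π) hcπ hv' g hg
      have e : g * dg142 v (c * π) (c * π) hcπ hcπ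
          = g * dg142 v c c hc hc * dg142 v π π hπ0 hπ0 := by
        rw [mul_assoc, dg142_mul]
      rw [e, hS] at h1
      exact (mul_eq_zero.mp h1).resolve_left hb
    | pred n ih =>
      -- `c / π` has valuation `exp (-n)`
      intro c hc hv g hg
      have hcπ : c / π ≠ 0 := div_ne_zero hc hπ0
      have hv' : Valued.v (c / π) = WithZero.exp (-(n : ℤ)) := by
        rw [map_div₀, hv, hπ, ← WithZero.exp_sub]
        congr 1
        ring
      have h1 := ih (c / π) hcπ hv' g hg
      have e : g * dg142 v c c hc hc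
          = g * dg142 v (c / π) (c / π) hcπ hcπ * dg142 v π π hπ0 hπ0 := by
        rw [mul_assoc, dg142_mul]
        congr 1
        exact dg142_congr _ _ _ _ (by field_simp) (by field_simp)
      rw [e, hS, h1, mul_zero]
  -- the diagonal elements `diag(t, 1)`, `t` integral
  have hdiag : ∀ t : v.adicCompletion K, ∀ ht : t ≠ 0, Valued.v t ≤ 1 →
      Φ (dg142 v t 1 ht one_ne_zero) = 0 := by
    intro t ht hle
    obtain ⟨d, hd⟩ := exists_nat_val142 ht hle
    have hpd : π ^ d ≠ 0 := pow_ne_zero d hπ0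
    have hu : t / π ^ d ≠ 0 := div_ne_zero ht hpd
    have hvu : Valued.v (t / π ^ d) = 1 := by
      rw [map_div₀, hd, val_pow142 hπ]
      exact div_self WithZero.exp_ne_zero
    have e : dg142 v t 1 ht one_ne_zero
        = dg142 v (π ^ d) 1 hpd one_ne_zero * dg142 v (t / π ^ d) 1 hu one_ne_zero := by
      rw [dg142_mul]
      exact dg142_congr _ _ _ _ (by field_simp) (by rw [mul_one])
    rw [e, hR _ _ (isMaxCpt_dg142 hu one_ne_zero hvu (by simp))]
    exact sph_diag142 hπ Φ A b hR hL hT hS h0 d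
  -- Cartan decomposition
  obtain ⟨k₁, k₂, x₁, y₁, hx₁, hy₁, hk₁, hk₂, hxy, rfl⟩ :=
    cartan129 (v.adicCompletionIntegers K) x
  have hd : diag129 x₁ y₁ hx₁ hy₁ = dg142 v x₁ y₁ hx₁ hy₁ := rfl
  rw [hd, hR _ _ hk₂, hL _ _ hk₁, dg142_swap, hR _ _ (isMaxCpt129_weyl _),
    hL _ _ (isMaxCpt129_weyl _)]
  have hyx : y₁ / x₁ ≠ 0 := div_ne_zero hy₁ hx₁
  have e : dg142 v y₁ x₁ hy₁ hx₁
      = dg142 v (y₁ / x₁) 1 hyx one_ne_zero * dg142 v x₁ x₁ hx₁ hx₁ := by
    rw [dg142_mul]
    exact dg142_congr _ _ _ _ (by field_simp) (by rw [one_mul])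
  obtain ⟨k, hk⟩ := exists_int_val142 hx₁
  rw [e]
  exact hscal k x₁ hx₁ hk _ (hdiag _ hyx ((mem_adicCompletionIntegers _ _ _).mp hxy))

end Core

end Fermat.Agent.LT.T7.H142

end

end
-- ===== PACK-END LT/T7/H142/SphLocal.lean

-- ===== PACK-BEGIN LT/T7/H340/IwLocal.lean
section


/-!
# Row LT, tower T7, helper340: the Iwahori subgroup of `GL₂` of a discretely valued field and
# the double coset `I diag(ϖ, 1) I` (local algebra for the operator `𝒰` of `T7/Level2.lean`)

OFF-MAIN.  Imports only helper129's local kit (byte-identical copies).  General field `F` with a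
valuation `v : Valuation F ℤᵐ⁰`.

* `IsIwG340 v M` : `M` and `M⁻¹` integral, lower left entry of valuation `< 1`; a group
  (`isIwG340_one/_mul/_inv`); units on the diagonal (`IsIwG340.val_00/_11`), `v (det M) = 1`.
* `IsIwT340 v M` : the SHAPE of the elements of `I diag(ϖ, 1) I`: integral, `v (det M) = exp (-1)`,
  `v (M 0 0) < 1`, `v (M 1 0) < 1`, `v (M 1 1) = 1`;  `isIwT340_of_mul` : `A T B` has this shape.
* `isIwG340_inv_mul` : two elements of that shape with `v (M 0 1 * M' 1 1 - M' 0 1 * M 1 1) < 1`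
  (same residue of `M 0 1 / M 1 1`) differ by an element of the Iwahori subgroup on the right.
-/

set_option autoImplicit false

noncomputable section

namespace Fermat.Agent.LT.T7.H340

open Fermat.Agent.LT.H129

variable {F : Type*} [Field F] (v : Valuation F (WithZero (Multiplicative ℤ)))

/-- The Iwahori subgroup: `M`, `M⁻¹` integral, lower left entry in the maximal ideal. -/
def IsIwG340 (M : GL (Fin 2) F) : Prop :=
  (∀ i j, v ((M : Matrix (Fin 2) (Fin 2) F) i j) ≤ 1) ∧
    (∀ i j, v (((M⁻¹ : GL (Fin 2) F) : Matrix (Fin 2) (Fin 2) F) i j) ≤ 1) ∧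
    v ((M : Matrix (Fin 2) (Fin 2) F) 1 0) < 1

/-- The shape of the elements of `I diag(ϖ, 1) I`. -/
def IsIwT340 (M : GL (Fin 2) F) : Prop :=
  (∀ i j, v ((M : Matrix (Fin 2) (Fin 2) F) i j) ≤ 1) ∧
    v (M : Matrix (Fin 2) (Fin 2) F).det = WithZero.exp (-1 : ℤ) ∧
    v ((M : Matrix (Fin 2) (Fin 2) F) 0 0) < 1 ∧
    v ((M : Matrix (Fin 2) (Fin 2) F) 1 0) < 1 ∧
    v ((M : Matrix (Fin 2) (Fin 2) F) 1 1) = 1

variable {v}

theorem val_det_le340 {M : GL (Fin 2) F}
    (h : ∀ i j, v ((M : Matrix (Fin 2) (Fin 2) F) i j) ≤ 1) :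
    v (M : Matrix (Fin 2) (Fin 2) F).det ≤ 1 := by
  rw [Matrix.det_fin_two]
  refine le_trans (Valuation.map_sub _ _ _) (max_le ?_ ?_)
  · rw [map_mul]; exact mul_le_one' (h 0 0) (h 1 1)
  · rw [map_mul]; exact mul_le_one' (h 0 1) (h 1 0)

theorem val_det_eq_one340 {M : GL (Fin 2) F}
    (h : ∀ i j, v ((M : Matrix (Fin 2) (Fin 2) F) i j) ≤ 1)
    (h' : ∀ i j, v (((M⁻¹ : GL (Fin 2) F) : Matrix (Fin 2) (Fin 2) F) i j) ≤ 1) :
    v (M : Matrix (Fin 2) (Fin 2) F).det = 1 := by
  have h1 := val_det_le340 h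
  have h2 := val_det_le340 h'
  have hmul : (M : Matrix (Fin 2) (Fin 2) F).det
      * ((M⁻¹ : GL (Fin 2) F) : Matrix (Fin 2) (Fin 2) F).det = 1 := by
    rw [← Matrix.det_mul, ← Matrix.GeneralLinearGroup.coe_mul, mul_inv_cancel]
    simp
  have hv : v (M : Matrix (Fin 2) (Fin 2) F).det
      * v ((M⁻¹ : GL (Fin 2) F) : Matrix (Fin 2) (Fin 2) F).det = 1 := by
    rw [← map_mul, hmul, map_one]
  refine le_antisymm h1 ?_
  calc (1 : WithZero (Multiplicative ℤ))
      = v (M : Matrix (Fin 2) (Fin 2) F).det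
        * v ((M⁻¹ : GL (Fin 2) F) : Matrix (Fin 2) (Fin 2) F).det := hv.symm
    _ ≤ v (M : Matrix (Fin 2) (Fin 2) F).det * 1 := mul_le_mul' le_rfl h2
    _ = v (M : Matrix (Fin 2) (Fin 2) F).det := mul_one _

theorem IsIwG340.val_det {M : GL (Fin 2) F} (h : IsIwG340 v M) :
    v (M : Matrix (Fin 2) (Fin 2) F).det = 1 :=
  val_det_eq_one340 h.1 h.2.1

/-- The product of the diagonal entries of an element of the Iwahori subgroup is a unit. -/
theorem IsIwG340.val_diag {M : GL (Fin 2) F} (h : IsIwG340 v M) :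
    v ((M : Matrix (Fin 2) (Fin 2) F) 0 0 * (M : Matrix (Fin 2) (Fin 2) F) 1 1) = 1 := by
  have hd := h.val_det
  rw [Matrix.det_fin_two] at hd
  have hlt : v ((M : Matrix (Fin 2) (Fin 2) F) 0 1 * (M : Matrix (Fin 2) (Fin 2) F) 1 0) < 1 := by
    rw [map_mul]
    calc v ((M : Matrix (Fin 2) (Fin 2) F) 0 1) * v ((M : Matrix (Fin 2) (Fin 2) F) 1 0)
        ≤ 1 * v ((M : Matrix (Fin 2) (Fin 2) F) 1 0) := mul_le_mul' (h.1 0 1) le_rfl
      _ = v ((M : Matrix (Fin 2) (Fin 2) F) 1 0) := one_mul _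
      _ < 1 := h.2.2
  by_contra hne
  have hle : v ((M : Matrix (Fin 2) (Fin 2) F) 0 0 * (M : Matrix (Fin 2) (Fin 2) F) 1 1) ≤ 1 := by
    rw [map_mul]; exact mul_le_one' (h.1 0 0) (h.1 1 1)
  have hlt2 := lt_of_le_of_ne hle hne
  have : v ((M : Matrix (Fin 2) (Fin 2) F) 0 0 * (M : Matrix (Fin 2) (Fin 2) F) 1 1
      - (M : Matrix (Fin 2) (Fin 2) F) 0 1 * (M : Matrix (Fin 2) (Fin 2) F) 1 0) < 1 :=
    lt_of_le_of_lt (Valuation.map_sub _ _ _) (max_lt hlt2 hlt)
  rw [hd] at this
  exact lt_irrefl _ this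

theorem IsIwG340.val_00 {M : GL (Fin 2) F} (h : IsIwG340 v M) :
    v ((M : Matrix (Fin 2) (Fin 2) F) 0 0) = 1 := by
  have hd := h.val_diag
  rw [map_mul] at hd
  refine le_antisymm (h.1 0 0) ?_
  calc (1 : WithZero (Multiplicative ℤ))
      = v ((M : Matrix (Fin 2) (Fin 2) F) 0 0) * v ((M : Matrix (Fin 2) (Fin 2) F) 1 1) := hd.symm
    _ ≤ v ((M : Matrix (Fin 2) (Fin 2) F) 0 0) * 1 := mul_le_mul' le_rfl (h.1 1 1)
    _ = _ := mul_one _

theorem IsIwG340.val_11 {M : GL (Fin 2) F} (h : IsIwG340 v M) :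
    v ((M : Matrix (Fin 2) (Fin 2) F) 1 1) = 1 := by
  have hd := h.val_diag
  rw [map_mul] at hd
  refine le_antisymm (h.1 1 1) ?_
  calc (1 : WithZero (Multiplicative ℤ))
      = v ((M : Matrix (Fin 2) (Fin 2) F) 0 0) * v ((M : Matrix (Fin 2) (Fin 2) F) 1 1) := hd.symm
    _ ≤ 1 * v ((M : Matrix (Fin 2) (Fin 2) F) 1 1) := mul_le_mul' (h.1 0 0) le_rfl
    _ = _ := one_mul _

theorem isIwG340_one : IsIwG340 v (1 : GL (Fin 2) F) := by
  have h1 : ∀ i j : Fin 2, v ((1 : Matrix (Fin 2) (Fin 2) F) i j) ≤ 1 := by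
    intro i j
    fin_cases i <;> fin_cases j <;> simp
  refine ⟨by simpa using h1, by simpa using h1, by simp⟩

theorem val_mul_entry_le340 {A B : GL (Fin 2) F}
    (hA : ∀ i j, v ((A : Matrix (Fin 2) (Fin 2) F) i j) ≤ 1)
    (hB : ∀ i j, v ((B : Matrix (Fin 2) (Fin 2) F) i j) ≤ 1) (i j : Fin 2) :
    v (((A * B : GL (Fin 2) F) : Matrix (Fin 2) (Fin 2) F) i j) ≤ 1 := by
  rw [Matrix.GeneralLinearGroup.coe_mul, Matrix.mul_apply, Fin.sum_univ_two]
  refine le_trans (Valuation.map_add _ _ _) (max_le ?_ ?_)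
  · rw [map_mul]; exact mul_le_one' (hA i 0) (hB 0 j)
  · rw [map_mul]; exact mul_le_one' (hA i 1) (hB 1 j)

theorem isIwG340_mul {A B : GL (Fin 2) F} (hA : IsIwG340 v A) (hB : IsIwG340 v B) :
    IsIwG340 v (A * B) := by
  refine ⟨val_mul_entry_le340 hA.1 hB.1, ?_, ?_⟩
  · rw [_root_.mul_inv_rev]
    exact val_mul_entry_le340 hB.2.1 hA.2.1
  · rw [Matrix.GeneralLinearGroup.coe_mul, Matrix.mul_apply, Fin.sum_univ_two]
    refine lt_of_le_of_lt (Valuation.map_add _ _ _) (max_lt ?_ ?_)
    · rw [map_mul]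
      calc v ((A : Matrix (Fin 2) (Fin 2) F) 1 0) * v ((B : Matrix (Fin 2) (Fin 2) F) 0 0)
          ≤ v ((A : Matrix (Fin 2) (Fin 2) F) 1 0) * 1 := mul_le_mul' le_rfl (hB.1 0 0)
        _ = v ((A : Matrix (Fin 2) (Fin 2) F) 1 0) := mul_one _
        _ < 1 := hA.2.2
    · rw [map_mul]
      calc v ((A : Matrix (Fin 2) (Fin 2) F) 1 1) * v ((B : Matrix (Fin 2) (Fin 2) F) 1 0)
          ≤ 1 * v ((B : Matrix (Fin 2) (Fin 2) F) 1 0) := mul_le_mul' (hA.1 1 1) le_rfl
        _ = v ((B : Matrix (Fin 2) (Fin 2) F) 1 0) := one_mul _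
        _ < 1 := hB.2.2

theorem inv_apply_10_340 (M : GL (Fin 2) F) :
    ((M⁻¹ : GL (Fin 2) F) : Matrix (Fin 2) (Fin 2) F) 1 0
      = -(M : Matrix (Fin 2) (Fin 2) F) 1 0 / (M : Matrix (Fin 2) (Fin 2) F).det := by
  rw [Matrix.coe_units_inv, Matrix.inv_def, Matrix.smul_apply, smul_eq_mul,
    Ring.inverse_eq_inv', Matrix.adjugate_fin_two]
  simp only [Matrix.of_apply, Matrix.cons_val', Matrix.cons_val_zero, Matrix.cons_val_one,
    Matrix.cons_val_fin_one]
  rw [div_eq_inv_mul]

theorem isIwG340_inv {A : GL (Fin 2) F} (hA : IsIwG340 v A) : IsIwG340 v A⁻¹ := by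
  refine ⟨hA.2.1, by rw [inv_inv]; exact hA.1, ?_⟩
  rw [inv_apply_10_340, map_div₀, hA.val_det, div_one, Valuation.map_neg]
  exact hA.2.2

/-! ## The shape of `I diag(ϖ, 1) I` -/

theorem mul_diag_mul_apply340 (A T B : GL (Fin 2) F) {c : F}
    (hT : (T : Matrix (Fin 2) (Fin 2) F) = !![c, 0; 0, 1]) (i j : Fin 2) :
    ((A * T * B : GL (Fin 2) F) : Matrix (Fin 2) (Fin 2) F) i j
      = (A : Matrix (Fin 2) (Fin 2) F) i 0 * c * (B : Matrix (Fin 2) (Fin 2) F) 0 j
        + (A : Matrix (Fin 2) (Fin 2) F) i 1 * (B : Matrix (Fin 2) (Fin 2) F) 1 j := by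
  rw [Matrix.GeneralLinearGroup.coe_mul, Matrix.GeneralLinearGroup.coe_mul, hT,
    Matrix.mul_apply, Fin.sum_univ_two, Matrix.mul_apply, Matrix.mul_apply, Fin.sum_univ_two,
    Fin.sum_univ_two]
  simp

theorem exp_neg_one_lt_one340 : (WithZero.exp (-1 : ℤ) : WithZero (Multiplicative ℤ)) < 1 := by
  rw [← WithZero.exp_zero, WithZero.exp_lt_exp]
  norm_num

theorem isIwT340_of_mul {A T B : GL (Fin 2) F} {c : F} (hA : IsIwG340 v A)
    (hB : IsIwG340 v B) (hc : v c = WithZero.exp (-1 : ℤ))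
    (hT : (T : Matrix (Fin 2) (Fin 2) F) = !![c, 0; 0, 1]) : IsIwT340 v (A * T * B) := by
  have hc1 : v c < 1 := by rw [hc]; exact exp_neg_one_lt_one340
  have hcle : v c ≤ 1 := hc1.le
  -- a product containing `c` has valuation `< 1`
  have hterm : ∀ a b : F, v a ≤ 1 → v b ≤ 1 → v (a * c * b) < 1 := by
    intro a b ha hb
    rw [map_mul, map_mul]
    calc v a * v c * v b ≤ 1 * v c * 1 := mul_le_mul' (mul_le_mul' ha le_rfl) hb
      _ = v c := by rw [one_mul, mul_one]
      _ < 1 := hc1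
  refine ⟨?_, ?_, ?_, ?_, ?_⟩
  · intro i j
    rw [mul_diag_mul_apply340 A T B hT]
    refine le_trans (Valuation.map_add _ _ _) (max_le (hterm _ _ (hA.1 i 0) (hB.1 0 j)).le ?_)
    rw [map_mul]
    exact mul_le_one' (hA.1 i 1) (hB.1 1 j)
  · rw [Matrix.GeneralLinearGroup.coe_mul, Matrix.GeneralLinearGroup.coe_mul, Matrix.det_mul,
      Matrix.det_mul, map_mul, map_mul, hA.val_det, hB.val_det, hT, Matrix.det_fin_two_of]
    simp [hc]
  · rw [mul_diag_mul_apply340 A T B hT]
    refine lt_of_le_of_lt (Valuation.map_add _ _ _) (max_lt (hterm _ _ (hA.1 0 0) (hB.1 0 0)) ?_)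
    rw [map_mul]
    calc v ((A : Matrix (Fin 2) (Fin 2) F) 0 1) * v ((B : Matrix (Fin 2) (Fin 2) F) 1 0)
        ≤ 1 * v ((B : Matrix (Fin 2) (Fin 2) F) 1 0) := mul_le_mul' (hA.1 0 1) le_rfl
      _ = v ((B : Matrix (Fin 2) (Fin 2) F) 1 0) := one_mul _
      _ < 1 := hB.2.2
  · rw [mul_diag_mul_apply340 A T B hT]
    refine lt_of_le_of_lt (Valuation.map_add _ _ _) (max_lt (hterm _ _ (hA.1 1 0) (hB.1 0 0)) ?_)
    rw [map_mul]
    calc v ((A : Matrix (Fin 2) (Fin 2) F) 1 1) * v ((B : Matrix (Fin 2) (Fin 2) F) 1 0)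
        ≤ 1 * v ((B : Matrix (Fin 2) (Fin 2) F) 1 0) := mul_le_mul' (hA.1 1 1) le_rfl
      _ = v ((B : Matrix (Fin 2) (Fin 2) F) 1 0) := one_mul _
      _ < 1 := hB.2.2
  · rw [mul_diag_mul_apply340 A T B hT]
    have h2 : v ((A : Matrix (Fin 2) (Fin 2) F) 1 1 * (B : Matrix (Fin 2) (Fin 2) F) 1 1) = 1 := by
      rw [map_mul, hA.val_11, hB.val_11, one_mul]
    have h1 := hterm _ _ (hA.1 1 0) (hB.1 0 1)
    rw [Valuation.map_add_eq_of_lt_right _ (by rw [h2]; exact h1), h2]

/-! ## Two elements of the same shape with the same residue are equivalent -/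

theorem le_exp_neg_one_of_lt_one340 {y : WithZero (Multiplicative ℤ)} (hy : y < 1) :
    y ≤ WithZero.exp (-1 : ℤ) := by
  rw [← WithZero.lt_mul_exp_iff_le (by simp), ← WithZero.exp_add]
  simpa using hy

theorem val_div_det_le340 {x d : F} (hd : v d = WithZero.exp (-1 : ℤ)) (hx : v x < 1) :
    v (x / d) ≤ 1 := by
  rw [map_div₀, hd, div_le_one₀ (by simp)]
  exact le_exp_neg_one_of_lt_one340 hx

theorem val_mul_lt340 {a b : F} (ha : v a < 1) (hb : v b ≤ 1) : v (a * b) < 1 := by
  rw [map_mul]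
  calc v a * v b ≤ v a * 1 := mul_le_mul' le_rfl hb
    _ = v a := mul_one _
    _ < 1 := ha

theorem val_mul_lt340' {a b : F} (ha : v a ≤ 1) (hb : v b < 1) : v (a * b) < 1 := by
  rw [mul_comm]; exact val_mul_lt340 hb ha

theorem adj_mul_apply340 (M M' : GL (Fin 2) F) :
    (Matrix.adjugate (M : Matrix (Fin 2) (Fin 2) F) * (M' : Matrix (Fin 2) (Fin 2) F))
      = !![(M : Matrix (Fin 2) (Fin 2) F) 1 1 * (M' : Matrix (Fin 2) (Fin 2) F) 0 0
            - (M : Matrix (Fin 2) (Fin 2) F) 0 1 * (M' : Matrix (Fin 2) (Fin 2) F) 1 0,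
          (M : Matrix (Fin 2) (Fin 2) F) 1 1 * (M' : Matrix (Fin 2) (Fin 2) F) 0 1
            - (M : Matrix (Fin 2) (Fin 2) F) 0 1 * (M' : Matrix (Fin 2) (Fin 2) F) 1 1;
          (M : Matrix (Fin 2) (Fin 2) F) 0 0 * (M' : Matrix (Fin 2) (Fin 2) F) 1 0
            - (M : Matrix (Fin 2) (Fin 2) F) 1 0 * (M' : Matrix (Fin 2) (Fin 2) F) 0 0,
          (M : Matrix (Fin 2) (Fin 2) F) 0 0 * (M' : Matrix (Fin 2) (Fin 2) F) 1 1
            - (M : Matrix (Fin 2) (Fin 2) F) 1 0 * (M' : Matrix (Fin 2) (Fin 2) F) 0 1] := by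
  rw [Matrix.adjugate_fin_two]
  ext i j
  fin_cases i <;> fin_cases j <;>
    simp [Matrix.mul_apply, Fin.sum_univ_two] <;> ring

/-- Integrality of `M⁻¹ M'` and the lower left entry. -/
theorem inv_mul_entries340 {M M' : GL (Fin 2) F} (hM : IsIwT340 v M) (hM' : IsIwT340 v M')
    (hρ : v ((M : Matrix (Fin 2) (Fin 2) F) 0 1 * (M' : Matrix (Fin 2) (Fin 2) F) 1 1
      - (M' : Matrix (Fin 2) (Fin 2) F) 0 1 * (M : Matrix (Fin 2) (Fin 2) F) 1 1) < 1) :
    (∀ i j, v (((M⁻¹ * M' : GL (Fin 2) F) : Matrix (Fin 2) (Fin 2) F) i j) ≤ 1) ∧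
      v (((M⁻¹ * M' : GL (Fin 2) F) : Matrix (Fin 2) (Fin 2) F) 1 0) < 1 := by
  obtain ⟨hint, hdet, h00, h10, h11⟩ := hM
  obtain ⟨hint', hdet', h00', h10', h11'⟩ := hM'
  have e00 : v ((M : Matrix (Fin 2) (Fin 2) F) 1 1 * (M' : Matrix (Fin 2) (Fin 2) F) 0 0
      - (M : Matrix (Fin 2) (Fin 2) F) 0 1 * (M' : Matrix (Fin 2) (Fin 2) F) 1 0) < 1 :=
    lt_of_le_of_lt (Valuation.map_sub _ _ _)
      (max_lt (val_mul_lt340' (hint 1 1) h00') (val_mul_lt340' (hint 0 1) h10'))
  have e01 : v ((M : Matrix (Fin 2) (Fin 2) F) 1 1 * (M' : Matrix (Fin 2) (Fin 2) F) 0 1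
      - (M : Matrix (Fin 2) (Fin 2) F) 0 1 * (M' : Matrix (Fin 2) (Fin 2) F) 1 1) < 1 := by
    have : (M : Matrix (Fin 2) (Fin 2) F) 1 1 * (M' : Matrix (Fin 2) (Fin 2) F) 0 1
        - (M : Matrix (Fin 2) (Fin 2) F) 0 1 * (M' : Matrix (Fin 2) (Fin 2) F) 1 1
        = -((M : Matrix (Fin 2) (Fin 2) F) 0 1 * (M' : Matrix (Fin 2) (Fin 2) F) 1 1
          - (M' : Matrix (Fin 2) (Fin 2) F) 0 1 * (M : Matrix (Fin 2) (Fin 2) F) 1 1) := by ring
    rw [this, Valuation.map_neg]
    exact hρ
  have e11 : v ((M : Matrix (Fin 2) (Fin 2) F) 0 0 * (M' : Matrix (Fin 2) (Fin 2) F) 1 1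
      - (M : Matrix (Fin 2) (Fin 2) F) 1 0 * (M' : Matrix (Fin 2) (Fin 2) F) 0 1) < 1 :=
    lt_of_le_of_lt (Valuation.map_sub _ _ _)
      (max_lt (val_mul_lt340 h00 (hint' 1 1)) (val_mul_lt340 h10 (hint' 0 1)))
  have hsq : ∀ a b : F, v a < 1 → v b < 1 → v (a * b) ≤ WithZero.exp (-2 : ℤ) := by
    intro a b ha hb
    rw [map_mul]
    calc v a * v b ≤ WithZero.exp (-1 : ℤ) * WithZero.exp (-1 : ℤ) :=
          mul_le_mul' (le_exp_neg_one_of_lt_one340 ha) (le_exp_neg_one_of_lt_one340 hb)
      _ = WithZero.exp (-2 : ℤ) := by rw [← WithZero.exp_add]; norm_num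
  have e10 : v ((M : Matrix (Fin 2) (Fin 2) F) 0 0 * (M' : Matrix (Fin 2) (Fin 2) F) 1 0
      - (M : Matrix (Fin 2) (Fin 2) F) 1 0 * (M' : Matrix (Fin 2) (Fin 2) F) 0 0)
      ≤ WithZero.exp (-2 : ℤ) :=
    le_trans (Valuation.map_sub _ _ _) (max_le (hsq _ _ h00 h10') (hsq _ _ h10 h00'))
  have hentry : ∀ i j, ((M⁻¹ * M' : GL (Fin 2) F) : Matrix (Fin 2) (Fin 2) F) i j
      = (Matrix.adjugate (M : Matrix (Fin 2) (Fin 2) F) * (M' : Matrix (Fin 2) (Fin 2) F)) i j
        / (M : Matrix (Fin 2) (Fin 2) F).det := fun i j => inv_mul_apply129 M M' i j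
  constructor
  · intro i j
    rw [hentry, adj_mul_apply340]
    fin_cases i <;> fin_cases j
    · exact val_div_det_le340 hdet e00
    · exact val_div_det_le340 hdet e01
    · refine val_div_det_le340 hdet (lt_of_le_of_lt e10 ?_)
      rw [← WithZero.exp_zero, WithZero.exp_lt_exp]; norm_num
    · exact val_div_det_le340 hdet e11
  · rw [hentry, adj_mul_apply340]
    show v (_ / _) < 1
    rw [map_div₀, hdet, div_lt_one₀ (by simp)]
    refine lt_of_le_of_lt e10 ?_
    rw [WithZero.exp_lt_exp]; norm_num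

/-- **Same residue ⇒ equivalent modulo the Iwahori subgroup on the right.** -/
theorem isIwG340_inv_mul {M M' : GL (Fin 2) F} (hM : IsIwT340 v M) (hM' : IsIwT340 v M')
    (hρ : v ((M : Matrix (Fin 2) (Fin 2) F) 0 1 * (M' : Matrix (Fin 2) (Fin 2) F) 1 1
      - (M' : Matrix (Fin 2) (Fin 2) F) 0 1 * (M : Matrix (Fin 2) (Fin 2) F) 1 1) < 1) :
    IsIwG340 v (M⁻¹ * M') := by
  have hρ' : v ((M' : Matrix (Fin 2) (Fin 2) F) 0 1 * (M : Matrix (Fin 2) (Fin 2) F) 1 1
      - (M : Matrix (Fin 2) (Fin 2) F) 0 1 * (M' : Matrix (Fin 2) (Fin 2) F) 1 1) < 1 := by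
    rw [← Valuation.map_neg, neg_sub]
    exact hρ
  have h1 := inv_mul_entries340 hM hM' hρ
  have h2 := inv_mul_entries340 hM' hM hρ'
  refine ⟨h1.1, ?_, h1.2⟩
  have e : (M⁻¹ * M')⁻¹ = M'⁻¹ * M := by group
  rw [e]
  exact h2.1

end Fermat.Agent.LT.T7.H340

end

end
-- ===== PACK-END LT/T7/H340/IwLocal.lean

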