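import Mathlib
import Fermat.Agent.Pack.LT3.E5L0
import Fermat.Agent.Pack.LT3.E8L3
import Fermat.Agent.Pack.LT3.E12L0
import Fermat.Agent.Pack.LT3.E15L0
import Fermat.Agent.Pack.LT3.E3L1
import Fermat.Agent.Pack.LT3.E3L3
import Fermat.Agent.Pack.LT3.E15L1
import Fermat.Agent.Pack.LT3.E16L1
import Fermat.Agent.Pack.LT3.E16L0
import Fermat.Agent.Pack.LT3.E9L0
import Fermat.Agent.Pack.LT3.E9L2
import Fermat.Agent.Pack.LT3.E9L3
import Fermat.Agent.Pack.LT3.E10L3
import Fermat.Agent.Pack.LT3.E1L3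
import Fermat.Agent.Pack.LT3.E16L2
import Fermat.Agent.Pack.LT3.E6L2
import Fermat.Agent.Pack.LT2.E10L0
import Fermat.Agent.Pack.LT2.E3L1
import Fermat.Agent.Pack.LT2.E2L1
import Fermat.Agent.Pack.LT3.E17L0

set_option linter.all false

-- ===== PACK-BEGIN LT/T6/H277/OrbEllTop.lean
section







/-!
# Row LT, tower T6, leaf T6.13.2 `OrbEllUnrC` from its sub-leaves (helper277) -- OFF-MAIN

`orbEllUnr_of_leaves : PolyNFC → DiscUnitC → CompanionC → FixBallC → TorusC → BTTreeC →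
BallCountC → H60.OrbEllUnrC`, and `orbEllUnr_of_leaves' ` with `CompanionC` discharged.

The orbit sum at `γ` is the orbit sum at the normal form `y` (`isOrbSum_conj277`), which unfolds
(helper227 `orbSum_unfold`, datum `unfoldData277`) to the sum of `f (cartan (x⁻¹ y x))` over the
vertices `[x]` of the tree; the number of vertices with a given Cartan invariant is computed by
helper338 `ncard_disp_even338` from the number `ballCard q r` of fixed vertices (`FixBallC`,
`BallCountC`).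
-/

set_option autoImplicit false

open scoped Matrix

noncomputable section

namespace Fermat.Agent.LT.T6.H277

open Fermat.Agent.LT.T6 Fermat.Agent.LT.T6.H60 Fermat.Agent.LT.H129 Fermat.Agent.LT.T6.H227
  Fermat.Agent.LT.T6.H944 Fermat.Agent.LT.H338

section Count

variable {k : Type} [Field k] [Valued k Γ₀]

theorem cartan_sum277 (g : GL (Fin 2) k) :
    (cartan g).1 + (cartan g).2
      = - WithZero.log (Valued.v (g : Matrix (Fin 2) (Fin 2) k).det) := by
  unfold cartan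
  ring

omit [Valued k Γ₀] in
theorem det_conj277 (x y : GL (Fin 2) k) :
    ((x⁻¹ * y * x : GL (Fin 2) k) : Matrix (Fin 2) (Fin 2) k).det
      = (y : Matrix (Fin 2) (Fin 2) k).det := by
  rw [Units.val_mul, Units.val_mul, Matrix.det_mul, Matrix.det_mul, det_inv277]
  have h0 : (x : Matrix (Fin 2) (Fin 2) k).det ≠ 0 :=
    ((Matrix.isUnit_iff_isUnit_det _).mp x.isUnit).ne_zero
  field_simp

theorem ballCard_pos277 (q r : ℕ) : 0 < ballCard q r := by
  unfold ballCard
  omega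

/-- **The count.**  The number of vertices `v` with `cartan ((σ v)⁻¹ y (σ v)) = lam` is
`wGeo q r j lam`. -/
theorem count277 (hF : FixBallC) (hN : BallCountC) {q : ℕ} (hq : 1 < q)
    {ϖ : k} {j : ℤ} {r : ℕ} {a : k} {w u y : GL (Fin 2) k}
    (hNF : IsNF277 ϖ j r a w u y) {V : Type} (π : GL (Fin 2) k → V) (σ : V → GL (Fin 2) k)
    (hσ : ∀ v, π (σ v) = v) (d : V → V → ℕ)
    (hdπ : ∀ g h : GL (Fin 2) k, (d (π g) (π h) : ℤ) = gd277 (g⁻¹ * h))
    (hd : IsTreeDist338 d) (hreg : ∀ v : V, {w | d v w = 1}.ncard = q + 1) (lam : ℤ × ℤ) :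
    {v : V | cartan ((σ v)⁻¹ * y * σ v) = lam}.Finite ∧
      (({v : V | cartan ((σ v)⁻¹ * y * σ v) = lam}.ncard : ℕ) : ℂ) = wGeo q r j lam := by
  set g : V → V := fun v => π (y * σ v) with hgdef
  have hgd : ∀ v, (d v (g v) : ℤ) = gd277 ((σ v)⁻¹ * y * σ v) := by
    intro v
    have := hdπ (σ v) (y * σ v)
    rw [hσ, ← mul_assoc] at this
    exact this
  have hg : ∀ v v', d (g v) (g v') = d v v' := by
    intro v v'
    have h1 := hdπ (y * σ v) (y * σ v')
    have h2 := hdπ (σ v) (σ v')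
    rw [hσ, hσ] at h2
    have e : (y * σ v)⁻¹ * (y * σ v') = (σ v)⁻¹ * σ v' := by
      rw [mul_inv_rev, mul_assoc, inv_mul_cancel_left]
    rw [e] at h1
    have : ((d (g v) (g v') : ℕ) : ℤ) = (d v v' : ℤ) := by rw [h2]; exact h1
    exact_mod_cast this
  set o : V := π 1 with ho
  have hfix_iff : ∀ v, g v = v ↔ d o v ≤ r := by
    intro v
    have h1 : g v = v ↔ d v (g v) = 0 := by
      rw [hd.eq_zero]; exact eq_comm
    have h2 : (d v (g v) = 0) ↔ gd277 ((σ v)⁻¹ * y * σ v) = 0 := by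
      rw [← hgd v]; exact Int.natCast_eq_zero.symm
    have h3 := hF k ϖ j r a w u y hNF (σ v)
    have h4 : (d o v : ℤ) = gd277 (σ v) := by
      have := hdπ 1 (σ v)
      rw [hσ, inv_one, one_mul] at this
      exact this
    rw [h1, h2, h3, ← h4]
    exact Int.ofNat_le
  have hfixset : {v | g v = v} = {v | d o v ≤ r} := by
    ext v; exact hfix_iff v
  have hcard : {v | g v = v}.ncard = ballCard q r := by
    rw [hfixset]; exact hN V d q hd hreg o r
  have hfin : {v | g v = v}.Finite :=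
    Set.finite_of_ncard_ne_zero (by rw [hcard]; exact (ballCard_pos277 q r).ne')
  have hoo : g o = o := by
    rw [hfix_iff, (hd.eq_zero o o).mpr rfl]; exact Nat.zero_le r
  have hsum : ∀ v, (cartan ((σ v)⁻¹ * y * σ v)).1 + (cartan ((σ v)⁻¹ * y * σ v)).2 = 2 * j := by
    intro v
    rw [cartan_sum277, det_conj277, nf_det277 hNF, WithZero.log_exp]
    ring
  have hiff : ∀ v, cartan ((σ v)⁻¹ * y * σ v) = lam ↔
      (lam.1 + lam.2 = 2 * j ∧ (d v (g v) : ℤ) = lam.1 - lam.2) := by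
    intro v
    have h1 := hsum v
    have h2 := hgd v
    unfold gd277 at h2
    constructor
    · intro h
      rw [h] at h1 h2
      exact ⟨h1, h2⟩
    · rintro ⟨h3, h4⟩
      apply Prod.ext
      · omega
      · omega
  have hq0 : 0 < q := by omega
  by_cases hs : lam.1 + lam.2 = 2 * j
  · rcases lt_trichotomy lam.2 lam.1 with hlt | heq | hgt
    · -- `lam.2 < lam.1`
      obtain ⟨e, he⟩ : ∃ e : ℕ, lam.1 - j = (e : ℤ) + 1 := by
        refine ⟨(lam.1 - j - 1).toNat, ?_⟩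
        rw [Int.toNat_of_nonneg (by omega)]; ring
      have hset : {v : V | cartan ((σ v)⁻¹ * y * σ v) = lam} = {v | d v (g v) = 2 * (e + 1)} := by
        ext v
        rw [Set.mem_ofPred_eq, Set.mem_ofPred_eq, hiff]
        constructor
        · rintro ⟨-, h⟩
          omega
        · intro h
          refine ⟨hs, ?_⟩
          omega
      have hcnt := ncard_disp_even338 hd q hreg g hg o hoo hfin e
      rw [hcard] at hcnt
      have hle : ballCard q r ≤ q * ballCard q r + 2 := by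
        have := Nat.le_mul_of_pos_left (ballCard q r) hq0
        omega
      have hpos : 0 < (q * ballCard q r + 2 - ballCard q r) * q ^ e := by
        apply Nat.mul_pos
        · have := Nat.le_mul_of_pos_left (ballCard q r) hq0
          omega
        · exact pow_pos hq0 e
      rw [hset]
      refine ⟨Set.finite_of_ncard_ne_zero (by rw [hcnt]; exact hpos.ne'), ?_⟩
      rw [hcnt]
      unfold wGeo wFix
      rw [if_pos hs, if_neg (by omega), if_pos hlt]
      have he' : (lam.1 - j).toNat - 1 = e := by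
        rw [he]; omega
      rw [he']
      push_cast [Nat.cast_sub hle]
      ring
    · -- `lam.1 = lam.2`
      have hset : {v : V | cartan ((σ v)⁻¹ * y * σ v) = lam} = {v | g v = v} := by
        ext v
        rw [Set.mem_ofPred_eq, Set.mem_ofPred_eq, hiff]
        have h1 : g v = v ↔ d v (g v) = 0 := by
          rw [hd.eq_zero]; exact eq_comm
        rw [h1]
        constructor
        · rintro ⟨-, h⟩
          omega
        · intro h
          refine ⟨hs, ?_⟩
          omega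
      rw [hset]
      refine ⟨hfin, ?_⟩
      rw [hcard]
      unfold wGeo wFix
      rw [if_pos hs, if_pos heq.symm]
    · -- `lam.1 < lam.2`
      have hset : {v : V | cartan ((σ v)⁻¹ * y * σ v) = lam} = ∅ := by
        ext v
        rw [Set.mem_ofPred_eq, hiff]
        simp only [Set.mem_empty_iff_false, iff_false]
        rintro ⟨-, h⟩
        omega
      rw [hset]
      refine ⟨Set.finite_empty, ?_⟩
      unfold wGeo wFix
      rw [if_pos hs, if_neg (by omega), if_neg (by omega)]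
      simp
  · have hset : {v : V | cartan ((σ v)⁻¹ * y * σ v) = lam} = ∅ := by
      ext v
      rw [Set.mem_ofPred_eq, hiff]
      simp only [Set.mem_empty_iff_false, iff_false]
      rintro ⟨h, -⟩
      exact hs h
    rw [hset]
    refine ⟨Set.finite_empty, ?_⟩
    unfold wGeo wFix
    rw [if_neg hs]
    simp

end Count

/-- **T6.13.2 `OrbEllUnrC` from its sub-leaves.** -/
theorem orbEllUnr_of_leaves (hP : PolyNFC) (hD : DiscUnitC) (hC : CompanionC) (hF : FixBallC)
    (hT : TorusC) (hB : BTTreeC) (hN : BallCountC) : OrbEllUnrC := by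
  intro k _ _ q hk γ _hreg hE hR
  obtain ⟨ϖ, j, r, a, w, u, y, x, hNF, hy, hdet, hdisc⟩ := exists_nf277 hP hC hD hk γ hE hR
  refine ⟨j, r, hdet, hdisc, ?_⟩
  intro f c' hc'
  have hc'' : IsOrbSum 0 (fun g => f (cartan g)) y c' := by
    rw [hy]; exact isOrbSum_conj277 0 _ γ x c' hc'
  obtain ⟨V, π, d, hsurj, hπ, hdπ, hd, hreg⟩ := hB k q hk
  set σ := Function.surjInv hsurj with hσdef
  have hσ : ∀ v, π (σ v) = v := Function.surjInv_eq hsurj
  have hσinj : Function.Injective σ := Function.injective_surjInv hsurj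
  have D := unfoldData277 hT hNF π σ hσ hπ
  have hq := one_lt_of_isLocalField hk
  have hcount := count277 hF hN hq hNF π σ hσ d hdπ hd hreg
  set F : V → ℤ × ℤ := fun v => cartan ((σ v)⁻¹ * y * σ v) with hFdef
  have hfinS : {v : V | F v ∈ f.support}.Finite := by
    have : {v : V | F v ∈ f.support} = ⋃ lam ∈ f.support, {v | F v = lam} := by
      ext v; simp
    rw [this]
    exact Set.Finite.biUnion f.support.finite_toSet (fun lam _ => (hcount lam).1)
  classical
  set Sv : Finset V := hfinS.toFinset with hSv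
  have hmemSv : ∀ v, v ∈ Sv ↔ F v ∈ f.support := by
    intro v
    rw [hSv, Set.Finite.mem_toFinset]; rfl
  have hφ : ∀ u' y' : GL (Fin 2) k, InU 0 u' →
      (fun g => f (cartan g)) (u'⁻¹ * y' * glAut (RingEquiv.refl k) u')
        = (fun g => f (cartan g)) y' := by
    intro u' y' hu'
    simp only
    rw [glAut_refl277, cartan_mul129 (inU_zero_inv129 hu') hu']
  have hunf := orbSum_unfold D (fun g => f (cartan g)) hφ c' hc'' (Sv.image σ)
    (by
      intro x hx
      obtain ⟨v, -, rfl⟩ := Finset.mem_image.mp hx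
      exact ⟨v, rfl⟩)
    (by
      rintro x ⟨v, rfl⟩ hne
      apply Finset.mem_image_of_mem
      rw [hmemSv, Finsupp.mem_support_iff]
      simp only [glAut_refl277] at hne
      exact hne)
  rw [hunf, Finset.sum_image (fun a _ b _ h => hσinj h)]
  simp only [glAut_refl277]
  have hmaps : ∀ v ∈ Sv, F v ∈ f.support := fun v hv => (hmemSv v).mp hv
  rw [← Finset.sum_fiberwise_of_maps_to hmaps (fun v => f (F v))]
  unfold Finsupp.sum
  apply Finset.sum_congr rfl
  intro lam hlam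
  have h1 : ∀ v ∈ Sv.filter (fun v => F v = lam), f (F v) = f lam := by
    intro v hv
    rw [(Finset.mem_filter.mp hv).2]
  rw [Finset.sum_congr rfl h1, Finset.sum_const, nsmul_eq_mul, mul_comm]
  congr 1
  rw [← (hcount lam).2]
  congr 1
  rw [← Set.ncard_coe_finset]
  congr 1
  ext v
  simp only [Finset.coe_filter, Set.mem_ofPred_eq]
  constructor
  · rintro ⟨-, h⟩; exact h
  · intro h
    refine ⟨?_, h⟩
    rw [hmemSv]
    have : F v = lam := h
    rw [this]; exact hlam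

/-- **T6.13.2 `OrbEllUnrC`** from the sub-leaves which are still open (`CompanionC` is
`companionC277`). -/
theorem orbEllUnr_of_leaves' (hP : PolyNFC) (hD : DiscUnitC) (hF : FixBallC)
    (hT : TorusC) (hB : BTTreeC) (hN : BallCountC) : OrbEllUnrC :=
  orbEllUnr_of_leaves hP hD companionC277 hF hT hB hN

end Fermat.Agent.LT.T6.H277

end
end
-- ===== PACK-END LT/T6/H277/OrbEllTop.lean

-- ===== PACK-BEGIN LT/T6/H769/CoreU.lean
section



/-!
# Row LT, T6.00q.7 `CoreC438` (helper769, OFF-MAIN): unconditional form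

`coreC_uncond769 : CoreC438`, from `coreC769 : NormFC438 → CoreC438` and helper166's
`normFC166 : NormFC438` (vendored byte copy of `LT/T6/H166/NormF.lean`).
-/

set_option autoImplicit false

namespace Fermat.Agent.LT.T6.H769

/-- **Leaf T6.00q.7 (CORE)**, unconditional. -/
theorem coreC_uncond769 : Fermat.Agent.LT.T6.H438.CoreC438 :=
  coreC769 Fermat.Agent.LT.T6.H166.normFC166

end Fermat.Agent.LT.T6.H769

end
-- ===== PACK-END LT/T6/H769/CoreU.lean

-- ===== PACK-BEGIN LT/T6/H558/QuatSetTop.lean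
section


/-!
# Row LT, tower T6, leaf T6.18i.6b `QuatSettingC385` (registry 1424, owner helper558): the TOP

OFF-MAIN.  No hole, nothing assumed beyond the hypotheses of the theorem.

`quatSetting_of558 : H159.NewtonC → H305.CptGC305 → QuatBddC558 → QuatSubC558 → QuatUnifC558 →
    QuatTorusC558 → H385.QuatSettingC385`

Proved here: the congruence groups `U(n)` (group, `σ`-stable, integral entries, unit
determinant), the twisted centraliser as a subgroup (`twCentSub558`), the quaternion algebra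
`D = {M : M δ₀ = δ₀ σ(M)}` (`InD558`; entries, trace and determinant lie in `k`), `D` is a
division algebra (`eq_zero_of_det558`), `Nrd` a unit ⇒ `Trd` integral (`trace_integral558`, from
`H159.NewtonC` and Cayley--Hamilton), the finiteness field (`fin_field558`, from
`H305.CptGC305` and the bound `QuatBddC558`), the representatives of `T \ H / H^c`
(`reps_field558`: `H / H^c = ℤ` by `ord Nrd`, image of `T` = `ℤ` or `2ℤ`).
-/

set_option autoImplicit false
set_option linter.unusedSectionVars false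

open scoped Matrix

noncomputable section

namespace Fermat.Agent.LT.T6.H558

open Fermat.Agent.LT.T6 Fermat.Agent.LT.T6.H783 Fermat.Agent.LT.T6.H385

section Basics

variable {k : Type} [Field k] [Valued k Γ₀]

theorem exp_neg_le_one558 (n : ℕ) : (WithZero.exp (-(n : ℤ)) : Γ₀) ≤ 1 := by
  rw [← WithZero.exp_zero]
  exact WithZero.exp_le_exp.mpr (by omega)

theorem val_add_le558 {a b : k} {c : Γ₀} (ha : Valued.v a ≤ c) (hb : Valued.v b ≤ c) :
    Valued.v (a + b) ≤ c :=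
  (Valued.v.map_add a b).trans (max_le ha hb)

theorem val_sub_le558 {a b : k} {c : Γ₀} (ha : Valued.v a ≤ c) (hb : Valued.v b ≤ c) :
    Valued.v (a - b) ≤ c :=
  (Valued.v.map_sub a b).trans (max_le ha hb)

theorem val_mul_le558 {a b : k} {c d : Γ₀} (ha : Valued.v a ≤ c) (hb : Valued.v b ≤ d) :
    Valued.v (a * b) ≤ c * d := by
  rw [Valued.v.map_mul]
  exact mul_le_mul' ha hb

theorem val_one_apply558 (i j : Fin 2) :
    Valued.v ((1 : Matrix (Fin 2) (Fin 2) k) i j) ≤ 1 := by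
  by_cases h : i = j
  · subst h; simp
  · simp [Matrix.one_apply_ne h]

/-- entries of `A * B - 1` in terms of `A - 1`, `B - 1`. -/
theorem mul_sub_one_apply558 (A B : Matrix (Fin 2) (Fin 2) k) (i j : Fin 2) :
    (A * B) i j - (1 : Matrix (Fin 2) (Fin 2) k) i j
      = (∑ l : Fin 2, (A i l - (1 : Matrix (Fin 2) (Fin 2) k) i l)
          * (B l j - (1 : Matrix (Fin 2) (Fin 2) k) l j))
        + (A i j - (1 : Matrix (Fin 2) (Fin 2) k) i j)
        + (B i j - (1 : Matrix (Fin 2) (Fin 2) k) i j) := by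
  have h : A * B - 1 = (A - 1) * (B - 1) + (A - 1) + (B - 1) := by
    noncomm_ring
  have := congrFun (congrFun h i) j
  simpa [Matrix.mul_apply, Matrix.sub_apply, Matrix.add_apply] using this

theorem val_mul_sub_one558 {A B : Matrix (Fin 2) (Fin 2) k} {c : Γ₀} (hc : c ≤ 1)
    (hA : ∀ i j, Valued.v (A i j - (1 : Matrix (Fin 2) (Fin 2) k) i j) ≤ c)
    (hB : ∀ i j, Valued.v (B i j - (1 : Matrix (Fin 2) (Fin 2) k) i j) ≤ c) (i j : Fin 2) :
    Valued.v ((A * B) i j - (1 : Matrix (Fin 2) (Fin 2) k) i j) ≤ c := by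
  rw [mul_sub_one_apply558]
  refine val_add_le558 (val_add_le558 ?_ (hA i j)) (hB i j)
  rw [Fin.sum_univ_two]
  have hcc : c * c ≤ c := by
    calc c * c ≤ c * 1 := mul_le_mul' le_rfl hc
      _ = c := mul_one c
  exact val_add_le558 ((val_mul_le558 (hA i 0) (hB 0 j)).trans hcc)
    ((val_mul_le558 (hA i 1) (hB 1 j)).trans hcc)

theorem inU_one558 (n : ℕ) : InU n (1 : GL (Fin 2) k) := by
  intro i j
  simp

theorem inU_inv558 {n : ℕ} {u : GL (Fin 2) k} (hu : InU n u) : InU n u⁻¹ := by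
  intro i j
  refine ⟨(hu i j).2, ?_⟩
  rw [inv_inv]
  exact (hu i j).1

theorem inU_mul558 {n : ℕ} {u v : GL (Fin 2) k} (hu : InU n u) (hv : InU n v) :
    InU n (u * v) := by
  intro i j
  constructor
  · have := val_mul_sub_one558 (exp_neg_le_one558 n) (fun i j => (hu i j).1)
      (fun i j => (hv i j).1) i j
    simpa using this
  · have := val_mul_sub_one558 (exp_neg_le_one558 n) (fun i j => (hv i j).2)
      (fun i j => (hu i j).2) i j
    simpa [mul_inv_rev] using this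

theorem glAut_apply558 (s : k ≃+* k) (u : GL (Fin 2) k) (i j : Fin 2) :
    ((glAut s u : GL (Fin 2) k) : Matrix (Fin 2) (Fin 2) k) i j
      = s ((u : Matrix (Fin 2) (Fin 2) k) i j) := rfl

theorem inU_glAut558 {n : ℕ} (s : k ≃+* k) (hs : ∀ y : k, Valued.v (s y) = Valued.v y)
    {u : GL (Fin 2) k} (hu : InU n u) : InU n (glAut s u) := by
  have key : ∀ (g : GL (Fin 2) k) (i j : Fin 2),
      ((glAut s g : GL (Fin 2) k) : Matrix (Fin 2) (Fin 2) k) i j
          - (1 : Matrix (Fin 2) (Fin 2) k) i j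
        = s ((g : Matrix (Fin 2) (Fin 2) k) i j - (1 : Matrix (Fin 2) (Fin 2) k) i j) := by
    intro g i j
    rw [glAut_apply558, map_sub]
    congr 1
    by_cases h : i = j
    · subst h; simp
    · simp [Matrix.one_apply_ne h]
  intro i j
  constructor
  · rw [key, hs]; exact (hu i j).1
  · rw [← map_inv, key, hs]; exact (hu i j).2

theorem val_entry_le_one558 {n : ℕ} {u : GL (Fin 2) k} (hu : InU n u) (i j : Fin 2) :
    Valued.v ((u : Matrix (Fin 2) (Fin 2) k) i j) ≤ 1 := by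
  have h1 := (hu i j).1.trans (exp_neg_le_one558 n)
  have := val_add_le558 h1 (val_one_apply558 (k := k) i j)
  simpa using this

theorem val_det_le_one558 {A : Matrix (Fin 2) (Fin 2) k} (hA : ∀ i j, Valued.v (A i j) ≤ 1) :
    Valued.v A.det ≤ 1 := by
  rw [Matrix.det_fin_two]
  have h1 := val_mul_le558 (hA 0 0) (hA 1 1)
  have h2 := val_mul_le558 (hA 0 1) (hA 1 0)
  rw [one_mul] at h1 h2
  exact val_sub_le558 h1 h2

theorem val_trace_le_one558 {A : Matrix (Fin 2) (Fin 2) k} (hA : ∀ i j, Valued.v (A i j) ≤ 1) :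
    Valued.v A.trace ≤ 1 := by
  rw [Matrix.trace_fin_two]
  exact val_add_le558 (hA 0 0) (hA 1 1)

theorem val_det_eq_one558 {n : ℕ} {u : GL (Fin 2) k} (hu : InU n u) :
    Valued.v (u : Matrix (Fin 2) (Fin 2) k).det = 1 := by
  have h1 : Valued.v (u : Matrix (Fin 2) (Fin 2) k).det ≤ 1 :=
    val_det_le_one558 (val_entry_le_one558 hu)
  have h2 : Valued.v ((u⁻¹ : GL (Fin 2) k) : Matrix (Fin 2) (Fin 2) k).det ≤ 1 :=
    val_det_le_one558 (val_entry_le_one558 (inU_inv558 hu))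
  have h3 : (u : Matrix (Fin 2) (Fin 2) k).det
      * ((u⁻¹ : GL (Fin 2) k) : Matrix (Fin 2) (Fin 2) k).det = 1 := by
    rw [← Matrix.det_mul, ← Matrix.GeneralLinearGroup.coe_mul, mul_inv_cancel]
    simp
  have h4 : Valued.v (u : Matrix (Fin 2) (Fin 2) k).det
      * Valued.v ((u⁻¹ : GL (Fin 2) k) : Matrix (Fin 2) (Fin 2) k).det = 1 := by
    rw [← Valued.v.map_mul, h3, Valued.v.map_one]
  refine le_antisymm h1 ?_
  calc (1 : Γ₀) = Valued.v (u : Matrix (Fin 2) (Fin 2) k).det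
        * Valued.v ((u⁻¹ : GL (Fin 2) k) : Matrix (Fin 2) (Fin 2) k).det := h4.symm
    _ ≤ Valued.v (u : Matrix (Fin 2) (Fin 2) k).det * 1 := mul_le_mul' le_rfl h2
    _ = _ := mul_one _

end Basics

section TwCent

variable {R : Type} [CommRing R]

theorem glAut_apply558' (s : R ≃+* R) (u : GL (Fin 2) R) (i j : Fin 2) :
    ((glAut s u : GL (Fin 2) R) : Matrix (Fin 2) (Fin 2) R) i j
      = s ((u : Matrix (Fin 2) (Fin 2) R) i j) := rfl

theorem inTwCent_iff558 (s : R ≃+* R) (δ x : GL (Fin 2) R) :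
    InTwCent s δ x ↔ δ * glAut s x = x * δ := by
  unfold InTwCent
  constructor
  · intro h
    calc δ * glAut s x = x * (x⁻¹ * δ * glAut s x) := by group
      _ = x * δ := by rw [h]
  · intro h
    calc x⁻¹ * δ * glAut s x = x⁻¹ * (δ * glAut s x) := by group
      _ = x⁻¹ * (x * δ) := by rw [h]
      _ = δ := by group

/-- The twisted centraliser as a subgroup. -/
def twCentSub558 (s : R ≃+* R) (δ : GL (Fin 2) R) : Subgroup (GL (Fin 2) R) where
  carrier := {x | InTwCent s δ x}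
  one_mem' := by
    show InTwCent s δ 1
    rw [inTwCent_iff558]; simp
  mul_mem' := by
    intro x y hx hy
    have hx' := (inTwCent_iff558 s δ x).mp hx
    have hy' := (inTwCent_iff558 s δ y).mp hy
    show InTwCent s δ (x * y)
    rw [inTwCent_iff558, map_mul, ← mul_assoc, hx', mul_assoc, hy', mul_assoc]
  inv_mem' := by
    intro x hx
    have hx' := (inTwCent_iff558 s δ x).mp hx
    show InTwCent s δ x⁻¹
    rw [inTwCent_iff558, map_inv]
    calc δ * (glAut s x)⁻¹ = x⁻¹ * (x * δ) * (glAut s x)⁻¹ := by group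
      _ = x⁻¹ * (δ * glAut s x) * (glAut s x)⁻¹ := by rw [hx']
      _ = x⁻¹ * δ := by group

theorem mem_twCentSub558 (s : R ≃+* R) (δ x : GL (Fin 2) R) :
    x ∈ twCentSub558 s δ ↔ InTwCent s δ x := Iff.rfl

theorem inTwCent_conj558 (s : R ≃+* R) {y t : GL (Fin 2) R} (x : GL (Fin 2) R)
    (h : InTwCent s y t) : InTwCent s (x⁻¹ * y * glAut s x) (x⁻¹ * t * x) := by
  have h' := (inTwCent_iff558 s y t).mp h
  rw [inTwCent_iff558]
  simp only [map_mul, map_inv]
  calc x⁻¹ * y * glAut s x * ((glAut s x)⁻¹ * glAut s t * glAut s x)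
      = x⁻¹ * (y * glAut s t) * glAut s x := by group
    _ = x⁻¹ * (t * y) * glAut s x := by rw [h']
    _ = x⁻¹ * t * x * (x⁻¹ * y * glAut s x) := by group

end TwCent

section Quat

variable {k k' : Type} [Field k] [Field k']

/-- `M` lies in the quaternion algebra `D = {M : M δ₀ = δ₀ σ(M)}`, `δ₀ = [[0, Z], [1, 0]]`. -/
def InD558 (s : k' ≃+* k') (Z : k') (M : Matrix (Fin 2) (Fin 2) k') : Prop :=
  M * !![0, Z; 1, 0] = !![0, Z; 1, 0] * M.map s

theorem InD558.e01 {s : k' ≃+* k'} {Z : k'} {M : Matrix (Fin 2) (Fin 2) k'}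
    (h : InD558 s Z M) : M 0 1 = Z * s (M 1 0) := by
  have := congrFun (congrFun h 0) 0
  simpa [Matrix.mul_apply, Fin.sum_univ_two] using this

theorem InD558.e11 {s : k' ≃+* k'} {Z : k'} {M : Matrix (Fin 2) (Fin 2) k'}
    (h : InD558 s Z M) : M 1 1 = s (M 0 0) := by
  have := congrFun (congrFun h 1) 0
  simpa [Matrix.mul_apply, Fin.sum_univ_two] using this

theorem InD558.det_eq {s : k' ≃+* k'} {Z : k'} {M : Matrix (Fin 2) (Fin 2) k'}
    (h : InD558 s Z M) : M.det = M 0 0 * s (M 0 0) - Z * (s (M 1 0) * M 1 0) := by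
  rw [Matrix.det_fin_two, h.e01, h.e11]; ring

theorem InD558.trace_eq {s : k' ≃+* k'} {Z : k'} {M : Matrix (Fin 2) (Fin 2) k'}
    (h : InD558 s Z M) : M.trace = M 0 0 + s (M 0 0) := by
  rw [Matrix.trace_fin_two, h.e11]

theorem InD558.sub {s : k' ≃+* k'} {Z : k'} {M N : Matrix (Fin 2) (Fin 2) k'}
    (hM : InD558 s Z M) (hN : InD558 s Z N) : InD558 s Z (M - N) := by
  unfold InD558 at *
  rw [Matrix.sub_mul, hM, hN, ← Matrix.mul_sub]
  congr 1
  ext a b
  simp [Matrix.map_apply]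

theorem inD_scalar558 {s : k' ≃+* k'} (Z : k') {c : k'} (hc : s c = c) :
    InD558 s Z (c • (1 : Matrix (Fin 2) (Fin 2) k')) := by
  unfold InD558
  ext a b
  fin_cases a <;> fin_cases b <;>
    simp [Matrix.mul_apply, Fin.sum_univ_two, Matrix.map_apply, Matrix.one_apply, hc, mul_comm]

theorem inD_of_inTwCent558 {s : k' ≃+* k'} {Z : k'} {δ₀ t : GL (Fin 2) k'}
    (hδ₀ : IsQuatBase385 Z δ₀) (ht : InTwCent s δ₀ t) :
    InD558 s Z (t : Matrix (Fin 2) (Fin 2) k') := by
  have h := (inTwCent_iff558 s δ₀ t).mp ht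
  have h2 := congrArg (fun g : GL (Fin 2) k' => (g : Matrix (Fin 2) (Fin 2) k')) h
  simp only [Matrix.GeneralLinearGroup.coe_mul] at h2
  unfold InD558
  rw [← hδ₀]
  exact h2.symm

/-- `D` is a division algebra when `Z = i z` and `z` is not a norm. -/
theorem eq_zero_of_det558 {i : k →+* k'} {s : k' ≃+* k'} {z : k}
    (hzn : ¬ IsFieldNorm783 2 i s z) {M : Matrix (Fin 2) (Fin 2) k'}
    (h : InD558 s (i z) M) (hdet : M.det = 0) : M = 0 := by
  have hd := h.det_eq
  rw [hdet] at hd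
  have hc : M 1 0 = 0 := by
    by_contra hc
    apply hzn
    refine ⟨M 0 0 / M 1 0, ?_⟩
    rw [Finset.prod_range_succ, Finset.prod_range_one]
    have hsc : s (M 1 0) ≠ 0 := by simpa using hc
    simp only [pow_zero, pow_one, RingAut.one_apply, map_div₀]
    field_simp
    linear_combination hd
  have ha : M 0 0 = 0 := by
    rw [hc] at hd
    simp only [map_zero, mul_zero, sub_zero] at hd
    rcases mul_eq_zero.mp hd.symm with h0 | h0
    · exact h0
    · simpa using h0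
  ext a b
  fin_cases a <;> fin_cases b
  · simpa using ha
  · simp [h.e01, hc]
  · simpa using hc
  · simp [h.e11, ha]

end Quat

section Gamma0

theorem g0_pow_eq_one558 {x : Γ₀} {e : ℕ} (he : 0 < e) (h : x ^ e = 1) : x = 1 := by
  rcases lt_trichotomy x 1 with h1 | h1 | h1
  · exact absurd h (ne_of_lt (pow_lt_one₀ zero_le h1 he.ne'))
  · exact h1
  · exact absurd h (ne_of_gt (one_lt_pow₀ h1 he.ne'))

theorem g0_one_lt_of_pow558 {x : Γ₀} {e : ℕ} (h : 1 < x ^ e) : 1 < x := by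
  by_contra hx
  rw [not_lt] at hx
  exact absurd h (not_lt.mpr (pow_le_one₀ zero_le hx))

theorem g0_exists_exp558 {x : Γ₀} (hx : x ≠ 0) : ∃ j : ℤ, x = WithZero.exp j :=
  ⟨WithZero.log x, (WithZero.exp_log hx).symm⟩

end Gamma0

section Quat2

variable {k k' : Type} [Field k] [Field k'] [Valued k Γ₀] [Valued k' Γ₀]

theorem cayleyQ558 {R : Type} [CommRing R] (M : Matrix (Fin 2) (Fin 2) R) :
    M * M - M.trace • M + M.det • (1 : Matrix (Fin 2) (Fin 2) R) = 0 := by
  ext a b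
  fin_cases a <;> fin_cases b <;>
    simp [Matrix.mul_apply, Fin.sum_univ_two, Matrix.trace_fin_two, Matrix.det_fin_two] <;> ring

theorem s_s558 {i : k →+* k'} {s : k' ≃+* k'} (hc : IsCyclicData k k' 2 i s) (y : k') :
    s (s y) = y := by
  have := hc.order y
  simpa [pow_two] using this

theorem val_two_le558 : Valued.v (2 : k') ≤ 1 := by
  have : (2 : k') = 1 + 1 := by norm_num
  rw [this]
  exact val_add_le558 (by simp) (by simp)

theorem InD558.exists_trace {i : k →+* k'} {s : k' ≃+* k'} (hc : IsCyclicData k k' 2 i s)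
    {Z : k'} {M : Matrix (Fin 2) (Fin 2) k'} (h : InD558 s Z M) : ∃ τ : k, i τ = M.trace := by
  apply hc.fixed
  rw [h.trace_eq, map_add, s_s558 hc]; ring

theorem InD558.exists_det {i : k →+* k'} {s : k' ≃+* k'} (hc : IsCyclicData k k' 2 i s)
    {z : k} {M : Matrix (Fin 2) (Fin 2) k'} (h : InD558 s (i z) M) : ∃ ν : k, i ν = M.det := by
  apply hc.fixed
  rw [h.det_eq, map_sub, map_mul, map_mul, map_mul, s_s558 hc, s_s558 hc, hc.fix_i]; ring

/-- `Nrd` a unit ⇒ `Trd` integral. -/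
theorem trace_integral558 (hN : H159.NewtonC) {q e : ℕ} {i : k →+* k'} {s : k' ≃+* k'}
    (hQ : QuadData385 k k' q e i s) {z : k} (hzn : ¬ IsFieldNorm783 2 i s z)
    {M : Matrix (Fin 2) (Fin 2) k'} (hM : InD558 s (i z) M) (hdet : Valued.v M.det = 1) :
    Valued.v M.trace ≤ 1 := by
  by_contra htr
  rw [not_le] at htr
  have hc := hQ.ext.cyc
  obtain ⟨τ, hτ⟩ := hM.exists_trace hc
  obtain ⟨ν, hν⟩ := hM.exists_det hc
  have hvν : Valued.v ν = 1 := by
    have := hQ.ext.val_i ν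
    rw [hν, hdet] at this
    exact g0_pow_eq_one558 hQ.ext.e_pos this.symm
  have hvτ : 1 < Valued.v τ := by
    have := hQ.ext.val_i τ
    rw [hτ] at this
    rw [this] at htr
    exact g0_one_lt_of_pow558 htr
  obtain ⟨x, hx⟩ := hN k q hQ.hk τ ν hvν hvτ
  -- the two factors
  have h1 : InD558 s (i z) (M - (i x) • (1 : Matrix (Fin 2) (Fin 2) k')) :=
    hM.sub (inD_scalar558 _ (hc.fix_i x))
  have h2 : InD558 s (i z) (M - (i (τ - x)) • (1 : Matrix (Fin 2) (Fin 2) k')) :=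
    hM.sub (inD_scalar558 _ (hc.fix_i (τ - x)))
  have hprod : (M - (i x) • (1 : Matrix (Fin 2) (Fin 2) k'))
      * (M - (i (τ - x)) • (1 : Matrix (Fin 2) (Fin 2) k')) = 0 := by
    have hC := cayleyQ558 M
    have hxi : i x * i (τ - x) = M.det := by
      rw [← hν, ← map_mul]; congr 1; linear_combination -hx
    have hsum : i x + i (τ - x) = M.trace := by
      rw [← hτ, ← map_add]; congr 1; ring
    rw [← hC, ← hxi, ← hsum]
    simp only [Matrix.sub_mul, Matrix.mul_sub, Matrix.smul_mul, Matrix.mul_smul, Matrix.one_mul,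
      Matrix.mul_one, add_smul]
    rw [smul_sub, smul_smul, mul_comm (i (τ - x)) (i x)]
    abel
  have hdet0 : (M - (i x) • (1 : Matrix (Fin 2) (Fin 2) k')).det
      * (M - (i (τ - x)) • (1 : Matrix (Fin 2) (Fin 2) k')).det = 0 := by
    rw [← Matrix.det_mul, hprod, Matrix.det_zero]
  have hscal : ∃ c : k', M = c • (1 : Matrix (Fin 2) (Fin 2) k') := by
    rcases mul_eq_zero.mp hdet0 with h0 | h0
    · exact ⟨i x, sub_eq_zero.mp (eq_zero_of_det558 hzn h1 h0)⟩
    · exact ⟨i (τ - x), sub_eq_zero.mp (eq_zero_of_det558 hzn h2 h0)⟩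
  obtain ⟨c, hMc⟩ := hscal
  have hd : M.det = c ^ 2 := by
    rw [hMc, Matrix.det_fin_two]; simp; ring
  have ht : M.trace = 2 * c := by
    rw [hMc, Matrix.trace_fin_two]; simp; ring
  have hvc : Valued.v c = 1 := by
    rw [hd, map_pow] at hdet
    exact g0_pow_eq_one558 (by norm_num) hdet
  rw [ht, map_mul, hvc, mul_one] at htr
  exact absurd htr (not_lt.mpr val_two_le558)

end Quat2

section Conj

variable {R : Type} [CommRing R]

theorem trace_conj558 (x t : GL (Fin 2) R) :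
    ((x⁻¹ * t * x : GL (Fin 2) R) : Matrix (Fin 2) (Fin 2) R).trace
      = (t : Matrix (Fin 2) (Fin 2) R).trace := by
  simp only [Matrix.GeneralLinearGroup.coe_mul]
  rw [Matrix.trace_mul_comm, ← Matrix.mul_assoc, ← Matrix.GeneralLinearGroup.coe_mul,
    mul_inv_cancel]
  simp

theorem det_conj558 (x t : GL (Fin 2) R) :
    ((x⁻¹ * t * x : GL (Fin 2) R) : Matrix (Fin 2) (Fin 2) R).det
      = (t : Matrix (Fin 2) (Fin 2) R).det := by
  have h3 : ((x⁻¹ : GL (Fin 2) R) : Matrix (Fin 2) (Fin 2) R).det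
      * (x : Matrix (Fin 2) (Fin 2) R).det = 1 := by
    rw [← Matrix.det_mul, ← Matrix.GeneralLinearGroup.coe_mul, inv_mul_cancel]
    simp
  simp only [Matrix.GeneralLinearGroup.coe_mul, Matrix.det_mul]
  calc ((x⁻¹ : GL (Fin 2) R) : Matrix (Fin 2) (Fin 2) R).det
        * (t : Matrix (Fin 2) (Fin 2) R).det * (x : Matrix (Fin 2) (Fin 2) R).det
      = (t : Matrix (Fin 2) (Fin 2) R).det
        * (((x⁻¹ : GL (Fin 2) R) : Matrix (Fin 2) (Fin 2) R).det
          * (x : Matrix (Fin 2) (Fin 2) R).det) := by ring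
    _ = _ := by rw [h3, mul_one]

end Conj

section Fields

variable {k k' : Type} [Field k] [Field k'] [Valued k Γ₀] [Valued k' Γ₀]

theorem inTwCentC_conj558 (s : k' ≃+* k') {y t : GL (Fin 2) k'} (x : GL (Fin 2) k')
    (h : InTwCentC s y t) : InTwCentC s (x⁻¹ * y * glAut s x) (x⁻¹ * t * x) := by
  refine ⟨inTwCent_conj558 s x h.1, ?_, ?_⟩
  · rw [trace_conj558]; exact h.2.1
  · rw [det_conj558]; exact h.2.2

/-- membership in `H^c` from `Nrd` a unit -/
theorem inTwCentC_of558 (hN : H159.NewtonC) {q e : ℕ} {i : k →+* k'} {s : k' ≃+* k'}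
    (hQ : QuadData385 k k' q e i s) {z : k} (hzn : ¬ IsFieldNorm783 2 i s z)
    {δ₀ t : GL (Fin 2) k'} (hδ₀ : IsQuatBase385 (i z) δ₀) (ht : InTwCent s δ₀ t)
    (hdet : Valued.v (t : Matrix (Fin 2) (Fin 2) k').det = 1) : InTwCentC s δ₀ t :=
  ⟨ht, trace_integral558 hN hQ hzn (inD_of_inTwCent558 hδ₀ ht) hdet, hdet⟩

theorem le_entryMax558 (g : GL (Fin 2) k') (a b : Fin 2) :
    Valued.v ((g : Matrix (Fin 2) (Fin 2) k') a b) ≤ entryMax g :=
  Finset.le_sup' (fun p : Fin 2 × Fin 2 => Valued.v ((g : Matrix (Fin 2) (Fin 2) k') p.1 p.2))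
    (Finset.mem_univ (a, b))

theorem entryMax_le558 (g : GL (Fin 2) k') {c : Γ₀}
    (h : ∀ a b, Valued.v ((g : Matrix (Fin 2) (Fin 2) k') a b) ≤ c) : entryMax g ≤ c :=
  Finset.sup'_le _ _ (fun p _ => h p.1 p.2)

theorem val_mul_apply_le558 {A B : Matrix (Fin 2) (Fin 2) k'} {a b : Γ₀}
    (hA : ∀ i j, Valued.v (A i j) ≤ a) (hB : ∀ i j, Valued.v (B i j) ≤ b) (i j : Fin 2) :
    Valued.v ((A * B) i j) ≤ a * b := by
  rw [Matrix.mul_apply, Fin.sum_univ_two]
  exact val_add_le558 (val_mul_le558 (hA i 0) (hB 0 j)) (val_mul_le558 (hA i 1) (hB 1 j))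

theorem g0_le_exp558 (x : Γ₀) : ∃ j : ℤ, x ≤ WithZero.exp j := by
  by_cases hx : x = 0
  · exact ⟨0, by rw [hx]; exact zero_le⟩
  · obtain ⟨j, hj⟩ := g0_exists_exp558 hx
    exact ⟨j, hj.le⟩

/-- the finiteness field -/
theorem fin_field558 (hCpt : H305.CptGC305) {q' : ℕ} (hk' : IsLocalField k' q')
    {s : k' ≃+* k'} {δ₀ : GL (Fin 2) k'} (n : ℕ) (B : ℤ)
    (hB : ∀ t : GL (Fin 2) k', InTwCent s δ₀ t →
      Valued.v (t : Matrix (Fin 2) (Fin 2) k').det = 1 → entryMax t ≤ WithZero.exp B)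
    (x : GL (Fin 2) k') :
    {c : Set (GL (Fin 2) k') | ∃ t : GL (Fin 2) k', InTwCentC s δ₀ t ∧
      c = {g : GL (Fin 2) k' | ∃ u : GL (Fin 2) k', InU n u ∧ g = x⁻¹ * t * x * u}}.Finite := by
  obtain ⟨B₁, hB₁⟩ := g0_le_exp558 (entryMax x⁻¹ * WithZero.exp B * entryMax x)
  set B₂ : ℤ := max B₁ 0 with hB₂
  obtain ⟨F, hF⟩ := hCpt k' q' hk' B₂ n
  refine Set.Finite.subset
    ((Finset.finite_toSet F).image
      (fun f : GL (Fin 2) k' => {g : GL (Fin 2) k' | ∃ u : GL (Fin 2) k', InU n u ∧ g = f * u}))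
    ?_
  rintro c ⟨t, ht, rfl⟩
  have hbound : entryMax (x⁻¹ * t * x) ≤ WithZero.exp B₂ := by
    refine entryMax_le558 _ (fun a b => ?_)
    have h1 : ∀ a b, Valued.v (((x⁻¹ * t : GL (Fin 2) k') : Matrix (Fin 2) (Fin 2) k') a b)
        ≤ entryMax x⁻¹ * WithZero.exp B := by
      intro a b
      rw [Matrix.GeneralLinearGroup.coe_mul]
      exact val_mul_apply_le558 (le_entryMax558 x⁻¹)
        (fun a b => (le_entryMax558 t a b).trans (hB t ht.1 ht.2.2)) a b
    rw [Matrix.GeneralLinearGroup.coe_mul]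
    refine (val_mul_apply_le558 h1 (le_entryMax558 x) a b).trans (hB₁.trans ?_)
    exact WithZero.exp_le_exp.mpr (le_max_left _ _)
  have hdet : WithZero.exp (-B₂) ≤
      Valued.v ((x⁻¹ * t * x : GL (Fin 2) k') : Matrix (Fin 2) (Fin 2) k').det := by
    rw [det_conj558, ht.2.2, ← WithZero.exp_zero]
    exact WithZero.exp_le_exp.mpr (by simp [hB₂])
  obtain ⟨f, hfF, u₀, hu₀, hfu⟩ := hF (x⁻¹ * t * x) hbound hdet
  refine ⟨f, hfF, ?_⟩
  ext g
  constructor
  · rintro ⟨u, hu, rfl⟩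
    refine ⟨u₀⁻¹ * u, inU_mul558 (inU_inv558 hu₀) hu, ?_⟩
    rw [hfu]; group
  · rintro ⟨u, hu, rfl⟩
    refine ⟨u₀ * u, inU_mul558 hu₀ hu, ?_⟩
    rw [hfu]; group

end Fields

section Nrd

variable {k k' : Type} [Field k] [Field k'] [Valued k Γ₀] [Valued k' Γ₀]

/-- `det t = i ν` with `|ν| = g`. -/
def NrdVal558 (i : k →+* k') (t : GL (Fin 2) k') (g : Γ₀) : Prop :=
  ∃ ν : k, (t : Matrix (Fin 2) (Fin 2) k').det = i ν ∧ Valued.v ν = g

theorem nrdVal_one558 (i : k →+* k') : NrdVal558 i 1 1 :=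
  ⟨1, by simp, by simp⟩

theorem NrdVal558.mul {i : k →+* k'} {t t' : GL (Fin 2) k'} {g g' : Γ₀}
    (h : NrdVal558 i t g) (h' : NrdVal558 i t' g') : NrdVal558 i (t * t') (g * g') := by
  obtain ⟨ν, h1, h2⟩ := h
  obtain ⟨ν', h1', h2'⟩ := h'
  exact ⟨ν * ν', by rw [Matrix.GeneralLinearGroup.coe_mul, Matrix.det_mul, h1, h1', map_mul],
    by rw [map_mul, h2, h2']⟩

theorem det_inv558 {R : Type} [Field R] (t : GL (Fin 2) R) :
    ((t⁻¹ : GL (Fin 2) R) : Matrix (Fin 2) (Fin 2) R).det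
      = ((t : Matrix (Fin 2) (Fin 2) R).det)⁻¹ := by
  have h3 : (t : Matrix (Fin 2) (Fin 2) R).det
      * ((t⁻¹ : GL (Fin 2) R) : Matrix (Fin 2) (Fin 2) R).det = 1 := by
    rw [← Matrix.det_mul, ← Matrix.GeneralLinearGroup.coe_mul, mul_inv_cancel]
    simp
  exact eq_inv_of_mul_eq_one_right h3

theorem det_ne_zero558 {R : Type} [Field R] (t : GL (Fin 2) R) :
    (t : Matrix (Fin 2) (Fin 2) R).det ≠ 0 := by
  intro h
  have h3 : (t : Matrix (Fin 2) (Fin 2) R).det
      * ((t⁻¹ : GL (Fin 2) R) : Matrix (Fin 2) (Fin 2) R).det = 1 := by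
    rw [← Matrix.det_mul, ← Matrix.GeneralLinearGroup.coe_mul, mul_inv_cancel]
    simp
  rw [h, zero_mul] at h3
  exact zero_ne_one h3

theorem NrdVal558.inv {i : k →+* k'} {t : GL (Fin 2) k'} {g : Γ₀}
    (h : NrdVal558 i t g) : NrdVal558 i t⁻¹ g⁻¹ := by
  obtain ⟨ν, h1, h2⟩ := h
  exact ⟨ν⁻¹, by rw [det_inv558, h1, map_inv₀], by rw [map_inv₀, h2]⟩

theorem NrdVal558.unique {i : k →+* k'} {t : GL (Fin 2) k'} {g g' : Γ₀}
    (h : NrdVal558 i t g) (h' : NrdVal558 i t g') : g = g' := by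
  obtain ⟨ν, h1, h2⟩ := h
  obtain ⟨ν', h1', h2'⟩ := h'
  have : ν = ν' := i.injective (h1.symm.trans h1')
  rw [← h2, ← h2', this]

theorem NrdVal558.pow {i : k →+* k'} {t : GL (Fin 2) k'} {g : Γ₀}
    (h : NrdVal558 i t g) (n : ℕ) : NrdVal558 i (t ^ n) (g ^ n) := by
  induction n with
  | zero => simpa using nrdVal_one558 i
  | succ n ih => rw [pow_succ, pow_succ]; exact ih.mul h

theorem NrdVal558.zpow {i : k →+* k'} {t : GL (Fin 2) k'} {g : Γ₀}
    (h : NrdVal558 i t g) (m : ℤ) : NrdVal558 i (t ^ m) (g ^ m) := by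
  cases m with
  | ofNat n => simpa using h.pow n
  | negSucc n => simpa [zpow_negSucc] using (h.pow (n + 1)).inv

/-- elements of `H` have a reduced norm in `k` -/
theorem nrdVal_exists558 {i : k →+* k'} {s : k' ≃+* k'} (hc : IsCyclicData k k' 2 i s)
    {z : k} {δ₀ t : GL (Fin 2) k'} (hδ₀ : IsQuatBase385 (i z) δ₀) (ht : InTwCent s δ₀ t) :
    ∃ j : ℤ, NrdVal558 i t (WithZero.exp j) := by
  obtain ⟨ν, hν⟩ := (inD_of_inTwCent558 hδ₀ ht).exists_det hc
  have hν0 : ν ≠ 0 := by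
    rintro rfl
    rw [map_zero] at hν
    exact det_ne_zero558 t hν.symm
  obtain ⟨j, hj⟩ := g0_exists_exp558 ((Valuation.ne_zero_iff _).mpr hν0)
  exact ⟨j, ν, hν.symm, hj⟩

theorem val_det_of_nrdVal558 {e : ℕ} {i : k →+* k'}
    (hvi : ∀ x : k, Valued.v (i x) = Valued.v x ^ e) {t : GL (Fin 2) k'}
    (h : NrdVal558 i t 1) : Valued.v (t : Matrix (Fin 2) (Fin 2) k').det = 1 := by
  obtain ⟨ν, h1, h2⟩ := h
  rw [h1, hvi, h2, one_pow]

theorem nrdVal_of_inTwCentC558 {e : ℕ} (he : 0 < e) {i : k →+* k'} {s : k' ≃+* k'}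
    (hc : IsCyclicData k k' 2 i s) (hvi : ∀ x : k, Valued.v (i x) = Valued.v x ^ e)
    {z : k} {δ₀ t : GL (Fin 2) k'} (hδ₀ : IsQuatBase385 (i z) δ₀) (ht : InTwCentC s δ₀ t) :
    NrdVal558 i t 1 := by
  obtain ⟨ν, hν⟩ := (inD_of_inTwCent558 hδ₀ ht.1).exists_det hc
  refine ⟨ν, hν.symm, ?_⟩
  have := ht.2.2
  rw [← hν, hvi] at this
  exact g0_pow_eq_one558 he this

/-- the scalar matrix `c` as an element of `GL₂` -/
def scal558 {R : Type} [Field R] (c : R) (hc : c ≠ 0) : GL (Fin 2) R :=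
  Matrix.GeneralLinearGroup.mkOfDetNeZero !![c, 0; 0, c]
    (by rw [Matrix.det_fin_two_of]; simpa using hc)

theorem coe_scal558 {R : Type} [Field R] (c : R) (hc : c ≠ 0) :
    ((scal558 c hc : GL (Fin 2) R) : Matrix (Fin 2) (Fin 2) R) = !![c, 0; 0, c] := rfl

theorem inTwCent_scal558 {R : Type} [Field R] (s : R ≃+* R) (δ : GL (Fin 2) R) (c : R)
    (hc : c ≠ 0) (hs : s c = c) : InTwCent s δ (scal558 c hc) := by
  rw [inTwCent_iff558]
  apply Matrix.GeneralLinearGroup.ext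
  intro a b
  rw [Matrix.GeneralLinearGroup.coe_mul, Matrix.GeneralLinearGroup.coe_mul]
  have h1 : ((glAut s (scal558 c hc) : GL (Fin 2) R) : Matrix (Fin 2) (Fin 2) R)
      = !![c, 0; 0, c] := by
    ext a b
    rw [glAut_apply558', coe_scal558]
    fin_cases a <;> fin_cases b <;> simp [hs]
  rw [h1, coe_scal558]
  fin_cases a <;> fin_cases b <;> simp [Matrix.mul_apply, Fin.sum_univ_two, mul_comm]

theorem nrdVal_scal558 (i : k →+* k') (y : k) (hy : y ≠ 0) :
    NrdVal558 i (scal558 (i y) ((map_ne_zero i).mpr hy)) (Valued.v y ^ 2) :=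
  ⟨y ^ 2, by rw [coe_scal558, Matrix.det_fin_two_of]; simp; ring, by rw [map_pow]⟩

end Nrd

section Top

variable {k k' : Type} [Field k] [Field k'] [Valued k Γ₀] [Valued k' Γ₀]

/-- `h = t r o` with `o ∈ H^c`, from the reduced norms. -/
theorem exists_o558 (hN : H159.NewtonC) {q e : ℕ} {i : k →+* k'} {s : k' ≃+* k'}
    (hQ : QuadData385 k k' q e i s) {z : k} (hzn : ¬ IsFieldNorm783 2 i s z)
    {δ₀ : GL (Fin 2) k'} (hδ₀ : IsQuatBase385 (i z) δ₀) {h t r : GL (Fin 2) k'}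
    (hh : InTwCent s δ₀ h) (ht : InTwCent s δ₀ t) (hr : InTwCent s δ₀ r) {a b c : ℤ}
    (nh : NrdVal558 i h (WithZero.exp a)) (nt : NrdVal558 i t (WithZero.exp b))
    (nr : NrdVal558 i r (WithZero.exp c)) (habc : a = b + c) :
    ∃ o : GL (Fin 2) k', InTwCentC s δ₀ o ∧ h = t * r * o := by
  refine ⟨r⁻¹ * t⁻¹ * h, ?_, by group⟩
  have ho : InTwCent s δ₀ (r⁻¹ * t⁻¹ * h) :=
    (twCentSub558 s δ₀).mul_mem
      ((twCentSub558 s δ₀).mul_mem ((twCentSub558 s δ₀).inv_mem hr)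
        ((twCentSub558 s δ₀).inv_mem ht)) hh
  have no : NrdVal558 i (r⁻¹ * t⁻¹ * h) 1 := by
    have := (nr.inv.mul nt.inv).mul nh
    have e1 : (WithZero.exp c : Γ₀)⁻¹ * (WithZero.exp b)⁻¹ * WithZero.exp a = 1 := by
      rw [← WithZero.exp_neg, ← WithZero.exp_neg, ← WithZero.exp_add, ← WithZero.exp_add,
        ← WithZero.exp_zero]
      congr 1
      omega
    rwa [e1] at this
  exact inTwCentC_of558 hN hQ hzn hδ₀ ho (val_det_of_nrdVal558 hQ.ext.val_i no)

theorem exp_neg_one_zpow558 (m : ℤ) :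
    ((WithZero.exp (-1 : ℤ) : Γ₀)) ^ m = WithZero.exp (-m) := by
  rw [← WithZero.exp_zsmul]
  congr 1
  simp

/-- the field `reps` -/
theorem reps_field558 (hN : H159.NewtonC) (hS : QuatSubC558) (hU : QuatUnifC558)
    (hT : QuatTorusC558) {q e : ℕ} {i : k →+* k'} {s : k' ≃+* k'}
    (hQ : QuadData385 k k' q e i s) {z : k} (hz : z ≠ 0) (hzn : ¬ IsFieldNorm783 2 i s z)
    {w δ₀ : GL (Fin 2) k'} {γ : GL (Fin 2) k} (hδ₀ : IsQuatBase385 (i z) δ₀)
    (hw : InTwCent s δ₀ w) (hreg : IsReg γ)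
    (hconj : IsConj (twNorm s 2 (w * δ₀)) (Matrix.GeneralLinearGroup.map i γ)) :
    ∃ Rm : Finset (GL (Fin 2) k'), Rm.card = quatMultNat385 k γ ∧
      (∀ r ∈ Rm, r⁻¹ * δ₀ * glAut s r = δ₀) ∧
      (∀ h : GL (Fin 2) k', h⁻¹ * δ₀ * glAut s h = δ₀ →
        ∃ r ∈ Rm, ∃ t o : GL (Fin 2) k', t⁻¹ * (w * δ₀) * glAut s t = w * δ₀ ∧
          InTwCentC s δ₀ o ∧ h = t * r * o) ∧
      ∀ r ∈ Rm, ∀ r' ∈ Rm,
        (∃ t o : GL (Fin 2) k', t⁻¹ * (w * δ₀) * glAut s t = w * δ₀ ∧
          InTwCentC s δ₀ o ∧ r' = t * r * o) → r = r' := by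
  classical
  have hc := hQ.ext.cyc
  have hvi := hQ.ext.val_i
  have he := hQ.ext.e_pos
  have hsub : ∀ t : GL (Fin 2) k', InTwCent s (w * δ₀) t → InTwCent s δ₀ t :=
    hS k k' q e i s hQ z hz w δ₀ γ hδ₀ hw hreg hconj
  obtain ⟨hT1, hT2⟩ := hT k k' q e i s hQ (w * δ₀) γ hreg hconj
  have h1H : InTwCent s δ₀ 1 := (twCentSub558 s δ₀).one_mem
  by_cases hR : HasRamUnif k γ
  · -- ramified: one double coset
    obtain ⟨t₁, ν₁, ht₁, hd₁, hv₁⟩ := hT1 hR
    have n₁ : NrdVal558 i t₁ (WithZero.exp (-1 : ℤ)) := ⟨ν₁, hd₁, hv₁⟩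
    refine ⟨{1}, ?_, ?_, ?_, ?_⟩
    · unfold quatMultNat385; rw [if_pos hR]; simp
    · intro r hr
      rw [Finset.mem_singleton] at hr
      subst hr
      exact h1H
    · intro h hh
      obtain ⟨j, nh⟩ := nrdVal_exists558 hc hδ₀ hh
      have htT : InTwCent s (w * δ₀) (t₁ ^ (-j)) :=
        (twCentSub558 s (w * δ₀)).zpow_mem ht₁ (-j)
      have nt : NrdVal558 i (t₁ ^ (-j)) (WithZero.exp j) := by
        have := n₁.zpow (-j)
        rwa [exp_neg_one_zpow558, neg_neg] at this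
      have n1 : NrdVal558 i (1 : GL (Fin 2) k') (WithZero.exp 0) := by
        simpa using nrdVal_one558 i
      obtain ⟨o, ho, hho⟩ := exists_o558 hN hQ hzn hδ₀ hh (hsub _ htT) h1H nh nt n1 (by omega)
      exact ⟨1, Finset.mem_singleton_self 1, t₁ ^ (-j), o, htT, ho, hho⟩
    · intro r hr r' hr' _
      rw [Finset.mem_singleton] at hr hr'
      rw [hr, hr']
  · -- unramified: two double cosets
    obtain ⟨ρ, νρ, hρ, hdρ, hvρ⟩ := hU k k' q e i s hQ z hz hzn δ₀ hδ₀
    have nρ : NrdVal558 i ρ (WithZero.exp (-1 : ℤ)) := ⟨νρ, hdρ, hvρ⟩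
    have n1 : NrdVal558 i (1 : GL (Fin 2) k') (WithZero.exp 0) := by
      simpa using nrdVal_one558 i
    have hne : (1 : GL (Fin 2) k') ≠ ρ := by
      intro h
      rw [← h] at nρ
      have := n1.unique nρ
      rw [WithZero.exp_inj] at this
      omega
    obtain ⟨ϖ, hϖ⟩ := hQ.hk.unif
    have hϖ0 : ϖ ≠ 0 := by
      rintro rfl
      rw [map_zero] at hϖ
      exact WithZero.exp_ne_zero hϖ.symm
    -- scalars
    have hscal : ∀ a : ℤ, ∃ t : GL (Fin 2) k', InTwCent s (w * δ₀) t ∧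
        NrdVal558 i t (WithZero.exp (-(2 * a))) := by
      intro a
      have hy : ϖ ^ a ≠ 0 := zpow_ne_zero a hϖ0
      refine ⟨scal558 (i (ϖ ^ a)) ((map_ne_zero i).mpr hy),
        inTwCent_scal558 s _ _ _ (hc.fix_i _), ?_⟩
      have := nrdVal_scal558 i (ϖ ^ a) hy
      have e1 : Valued.v (ϖ ^ a) ^ 2 = (WithZero.exp (-(2 * a)) : Γ₀) := by
        rw [map_zpow₀, hϖ, exp_neg_one_zpow558, ← WithZero.exp_nsmul]
        congr 1
        simp
      rwa [e1] at this
    refine ⟨{1, ρ}, ?_, ?_, ?_, ?_⟩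
    · unfold quatMultNat385; rw [if_neg hR]
      exact Finset.card_pair hne
    · intro r hr
      rw [Finset.mem_insert, Finset.mem_singleton] at hr
      rcases hr with rfl | rfl
      · exact h1H
      · exact hρ
    · intro h hh
      obtain ⟨j, nh⟩ := nrdVal_exists558 hc hδ₀ hh
      rcases Int.even_or_odd' j with ⟨m, hm | hm⟩
      · obtain ⟨t, htT, nt⟩ := hscal (-m)
        obtain ⟨o, ho, hho⟩ := exists_o558 hN hQ hzn hδ₀ hh (hsub _ htT) h1H nh nt n1
          (by omega)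
        exact ⟨1, by simp, t, o, htT, ho, hho⟩
      · obtain ⟨t, htT, nt⟩ := hscal (-(m + 1))
        obtain ⟨o, ho, hho⟩ := exists_o558 hN hQ hzn hδ₀ hh (hsub _ htT) hρ nh nt nρ
          (by omega)
        exact ⟨ρ, by simp, t, o, htT, ho, hho⟩
    · intro r hr r' hr' hex
      obtain ⟨t, o, htT, ho, hro⟩ := hex
      have no := nrdVal_of_inTwCentC558 he hc hvi hδ₀ ho
      obtain ⟨νt, hνt⟩ := (inD_of_inTwCent558 hδ₀ (hsub t htT)).exists_det hc
      obtain ⟨j', hj'⟩ := hT2 hR t νt htT hνt.symm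
      have nt : NrdVal558 i t (WithZero.exp (2 * j')) := ⟨νt, hνt.symm, hj'⟩
      rw [Finset.mem_insert, Finset.mem_singleton] at hr hr'
      rcases hr with rfl | rfl <;> rcases hr' with rfl | rfl
      · rfl
      · exfalso
        have h3 := (nt.mul n1).mul no
        rw [← hro] at h3
        have := nρ.unique h3
        rw [mul_one, ← WithZero.exp_add, WithZero.exp_inj] at this
        omega
      · exfalso
        have h3 := (nt.mul nρ).mul no
        rw [← hro] at h3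
        have := n1.unique h3
        rw [mul_one, ← WithZero.exp_add, WithZero.exp_inj] at this
        omega
      · rfl

/-- **T6.18i.6b: the group theory of `D^×`** (top of the cut). -/
theorem quatSetting_of558 (hN : H159.NewtonC) (hCpt : H305.CptGC305) (hB : QuatBddC558)
    (hS : QuatSubC558) (hU : QuatUnifC558) (hT : QuatTorusC558) : QuatSettingC385 := by
  intro k k' _ _ _ _ q e i s hQ z hz hzn n w δ₀ γ hδ₀ hw hreg _ hconj
  have hc := hQ.ext.cyc
  have hsub : ∀ t : GL (Fin 2) k', InTwCent s (w * δ₀) t → InTwCent s δ₀ t :=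
    hS k k' q e i s hQ z hz w δ₀ γ hδ₀ hw hreg hconj
  obtain ⟨B, hBd⟩ := hB k k' q e i s hQ z hz hzn δ₀ hδ₀
  have hC0 : ∀ t : GL (Fin 2) k', InTwCent s δ₀ t →
      Valued.v (t : Matrix (Fin 2) (Fin 2) k').det = 1 → InTwCentC s δ₀ t :=
    fun t ht hd => inTwCentC_of558 hN hQ hzn hδ₀ ht hd
  exact
    { U_one := inU_one558 n
      U_mul := fun u v hu hv => inU_mul558 hu hv
      U_inv := fun u hu => inU_inv558 hu
      U_s := fun u hu => inU_glAut558 s hQ.ext.val_s hu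
      C_cent := fun y t h => h.1
      C_conj := fun y t x h => inTwCentC_conj558 s x h
      C₀_one := hC0 1 (twCentSub558 s δ₀).one_mem (by simp)
      C₀_mul := fun t t' ht ht' =>
        hC0 (t * t') ((twCentSub558 s δ₀).mul_mem ht.1 ht'.1)
          (by rw [Matrix.GeneralLinearGroup.coe_mul, Matrix.det_mul, map_mul, ht.2.2, ht'.2.2,
            one_mul])
      C₀_inv := fun t ht =>
        hC0 t⁻¹ ((twCentSub558 s δ₀).inv_mem ht.1)
          (by rw [det_inv558, map_inv₀, ht.2.2, inv_one])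
      sub := hsub
      C₁_iff := fun t =>
        ⟨fun h => ⟨h.1, hsub t h.1, h.2⟩, fun h => ⟨h.1, h.2.2⟩⟩
      normal := fun h o hh ho =>
        hC0 (h⁻¹ * o * h)
          ((twCentSub558 s δ₀).mul_mem
            ((twCentSub558 s δ₀).mul_mem ((twCentSub558 s δ₀).inv_mem hh) ho.1) hh)
          (by rw [det_conj558]; exact ho.2.2)
      cpt := fun h x hh hU' =>
        ⟨hh, by
          rw [← trace_conj558 x h]
          exact val_trace_le_one558 (val_entry_le_one558 hU'), by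
          rw [← det_conj558 x h]
          exact val_det_eq_one558 hU'⟩
      fin := fun x => fin_field558 hCpt hQ.hk' n B hBd x
      reps := reps_field558 hN hS hU hT hQ hz hzn hδ₀ hw hreg hconj }

end Top

end Fermat.Agent.LT.T6.H558

end

end
-- ===== PACK-END LT/T6/H558/QuatSetTop.lean

-- ===== PACK-BEGIN LT/T6/H372/QuatUnif.lean
section


/-!
# Row LT, tower T6, leaf T6.18i.6b.4 `LeafQuatUnif558` (helper372)

OFF-MAIN.  Leaf `LeafQuatUnif558 = H159.QuadUnitNormC → QuatUnifC558` of the sub-spec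
`LT/T6/H558/QuatSetSpec.lean` (helper558, bytes frozen, imported verbatim).
-/

set_option autoImplicit false

open scoped Matrix

noncomputable section

namespace Fermat.Agent.LT.T6.H372

open Fermat.Agent.LT.T6 Fermat.Agent.LT.T6.H783 Fermat.Agent.LT.T6.H385
open Fermat.Agent.LT.T6.H558

section Val

variable {k : Type} [Field k] [Valued k Γ₀]

theorem val_eq_exp372 {x : k} (hx : x ≠ 0) : ∃ n : ℤ, Valued.v x = WithZero.exp n :=
  ⟨WithZero.log (Valued.v x), (WithZero.exp_log ((Valuation.ne_zero_iff _).mpr hx)).symm⟩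

theorem val_zpow372 {ϖ : k} (hϖ : Valued.v ϖ = WithZero.exp (-1 : ℤ)) (m : ℤ) :
    Valued.v (ϖ ^ m) = WithZero.exp (-m) := by
  rw [map_zpow₀, hϖ, ← WithZero.exp_zsmul]
  congr 1
  simp

/-- A residue system of a local field has at least two elements. -/
theorem not_isLocalField_one372 (h : IsLocalField k 1) : False := by
  obtain ⟨T, hcard, -, -, hT⟩ := h.residue
  obtain ⟨x, rfl⟩ := Finset.card_eq_one.mp hcard
  obtain ⟨y, hy, h0⟩ := hT 0 (by rw [map_zero]; exact zero_le)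
  obtain ⟨y', hy', h1⟩ := hT 1 (by rw [map_one])
  rw [Finset.mem_singleton] at hy hy'
  rw [hy] at h0
  rw [hy'] at h1
  have h2 : Valued.v ((1 - x) - (0 - x)) < 1 := Valuation.map_sub_lt _ h1 h0
  have h3 : (1 - x) - (0 - x) = 1 := by ring
  rw [h3, map_one] at h2
  exact lt_irrefl _ h2

end Val

section Ext

variable {k k' : Type} [Field k] [Field k'] [Valued k Γ₀] [Valued k' Γ₀]

theorem val_two_le372 : Valued.v (2 : k) ≤ 1 := by
  have h : (2 : k) = 1 + 1 := by norm_num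
  rw [h]
  exact Valuation.map_add_le _ (by rw [map_one]) (by rw [map_one])

omit [Valued k Γ₀] [Valued k' Γ₀] in
/-- `σ² = 1`. -/
theorem s_s372 {i : k →+* k'} {s : k' ≃+* k'} (h : IsCyclicData k k' 2 i s) (y : k') :
    s (s y) = y := by
  have h2 := h.order y
  rwa [pow_two] at h2

/-- Unit norm surjectivity for scalars, from `QuadUnitNormC` for the scalar matrix `u`. -/
theorem unit_norm372 (hQ : H159.QuadUnitNormC) {q : ℕ} {i : k →+* k'} {s : k' ≃+* k'}
    (hk : IsLocalField k q) (hk' : IsLocalField k' (q ^ 2)) (hext : IsLocalExt k k' 2 1 i s)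
    (u : k) (hu : Valued.v u = 1) : ∃ c : k', c * s c = i u := by
  have hu0 : u ≠ 0 := by
    rintro rfl
    rw [map_zero] at hu
    exact zero_ne_one hu
  have hdet : (Matrix.diagonal fun _ : Fin 2 => u).det ≠ 0 := by
    rw [Matrix.det_diagonal, Fin.prod_univ_two]
    exact mul_ne_zero hu0 hu0
  set U : GL (Fin 2) k := Matrix.GeneralLinearGroup.mkOfDetNeZero _ hdet with hU
  have hUc : (U : Matrix (Fin 2) (Fin 2) k) = Matrix.diagonal fun _ : Fin 2 => u := rfl
  have htr : Valued.v (U : Matrix (Fin 2) (Fin 2) k).trace ≤ 1 := by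
    rw [hUc, Matrix.trace_diagonal, Fin.sum_univ_two, ← two_mul, map_mul, hu, mul_one]
    exact val_two_le372
  have hdt : Valued.v (U : Matrix (Fin 2) (Fin 2) k).det = 1 := by
    rw [hUc, Matrix.det_diagonal, Fin.prod_univ_two, map_mul, hu, mul_one]
  obtain ⟨x, a, b, hx, hN⟩ := hQ k k' q 2 i s hk hk' hext Nat.prime_two U htr hdt
  have hM : ∀ p r : Fin 2, ((Matrix.GeneralLinearGroup.map i U : GL (Fin 2) k') :
      Matrix (Fin 2) (Fin 2) k') p r = if p = r then i u else 0 := by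
    intro p r
    rw [Matrix.GeneralLinearGroup.map_apply, hUc, Matrix.diagonal_apply]
    split_ifs
    · rfl
    · exact map_zero i
  have hx' : ∀ p r : Fin 2, (x : Matrix (Fin 2) (Fin 2) k') p r
      = if p = r then a + b * i u else 0 := by
    intro p r
    rw [hx, Matrix.add_apply, Matrix.smul_apply, Matrix.smul_apply, hM, Matrix.one_apply]
    split_ifs <;> simp
  refine ⟨a + b * i u, ?_⟩
  have hN2 : twNorm s 2 x = x * glAut s x := by
    simp [twNorm, twN]
  rw [hN2] at hN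
  have h00 := congrArg (fun g : GL (Fin 2) k' => (g : Matrix (Fin 2) (Fin 2) k') 0 0) hN
  simp only [Units.val_mul, Matrix.mul_apply, Fin.sum_univ_two, glAut,
    Matrix.GeneralLinearGroup.map_apply, hx', hM] at h00
  simpa using h00

omit [Valued k' Γ₀] in
/-- The twisted centraliser condition in the form `δ₀ σ(ρ) = ρ δ₀`. -/
theorem inTwCent_of372 {s : k' ≃+* k'} {δ₀ ρ : GL (Fin 2) k'}
    (h : δ₀ * glAut s ρ = ρ * δ₀) : InTwCent s δ₀ ρ := by
  unfold InTwCent
  rw [mul_assoc, h, ← mul_assoc, inv_mul_cancel, one_mul]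

/-- The case `e = 2`: `ρ = diag (ϖ', σ ϖ')`. -/
theorem quatUnif_ram372 {q : ℕ} {i : k →+* k'} {s : k' ≃+* k'}
    (hk' : IsLocalField k' q) (hext : IsLocalExt k k' 2 2 i s) (z : k)
    (δ₀ : GL (Fin 2) k') (hδ : IsQuatBase385 (i z) δ₀) :
    ∃ (ρ : GL (Fin 2) k') (ν : k), InTwCent s δ₀ ρ ∧
      (ρ : Matrix (Fin 2) (Fin 2) k').det = i ν ∧ Valued.v ν = WithZero.exp (-1 : ℤ) := by
  obtain ⟨ϖ, hϖ⟩ := hk'.unif
  have hϖ0 : ϖ ≠ 0 := by
    rintro rfl
    rw [map_zero] at hϖ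
    exact WithZero.exp_ne_zero hϖ.symm
  have hsϖ0 : s ϖ ≠ 0 := (map_ne_zero s).mpr hϖ0
  have hss : s (s ϖ) = ϖ := s_s372 hext.cyc ϖ
  have hdet : (!![ϖ, 0; 0, s ϖ] : Matrix (Fin 2) (Fin 2) k').det ≠ 0 := by
    rw [Matrix.det_fin_two_of]
    simpa using mul_ne_zero hϖ0 hsϖ0
  obtain ⟨ν, hν⟩ := hext.cyc.fixed (ϖ * s ϖ) (by rw [map_mul, hss, mul_comm])
  refine ⟨Matrix.GeneralLinearGroup.mkOfDetNeZero _ hdet, ν, inTwCent_of372 ?_, ?_, ?_⟩
  · apply Units.ext
    ext p r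
    have hρ : ((Matrix.GeneralLinearGroup.mkOfDetNeZero _ hdet : GL (Fin 2) k') :
        Matrix (Fin 2) (Fin 2) k') = !![ϖ, 0; 0, s ϖ] := rfl
    unfold IsQuatBase385 at hδ
    simp only [Units.val_mul, Matrix.mul_apply, Fin.sum_univ_two, glAut,
      Matrix.GeneralLinearGroup.map_apply, hρ, hδ]
    fin_cases p <;> fin_cases r <;> simp [hss, mul_comm]
  · show (!![ϖ, 0; 0, s ϖ] : Matrix (Fin 2) (Fin 2) k').det = i ν
    rw [Matrix.det_fin_two_of, hν]
    ring
  · have hν0 : ν ≠ 0 := by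
      rintro rfl
      rw [map_zero] at hν
      exact mul_ne_zero hϖ0 hsϖ0 hν.symm
    obtain ⟨n, hn⟩ := val_eq_exp372 hν0
    have h1 : Valued.v (i ν) = WithZero.exp (-1 : ℤ) * WithZero.exp (-1 : ℤ) := by
      rw [hν, map_mul, hext.val_s, hϖ]
    rw [hext.val_i, hn, pow_two, ← WithZero.exp_add, ← WithZero.exp_add, WithZero.exp_inj] at h1
    rw [hn, WithZero.exp_inj]
    omega

/-- The case `e = 1`: the order of `z` is odd and `ρ = δ₀ · ϖ^(m+1)`. -/
theorem quatUnif_unr372 (hQ : H159.QuadUnitNormC) {q : ℕ} {i : k →+* k'} {s : k' ≃+* k'}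
    (hk : IsLocalField k q) (hk' : IsLocalField k' (q ^ 2)) (hext : IsLocalExt k k' 2 1 i s)
    (z : k) (hz0 : z ≠ 0) (hz : ¬ IsFieldNorm783 2 i s z)
    (δ₀ : GL (Fin 2) k') (hδ : IsQuatBase385 (i z) δ₀) :
    ∃ (ρ : GL (Fin 2) k') (ν : k), InTwCent s δ₀ ρ ∧
      (ρ : Matrix (Fin 2) (Fin 2) k').det = i ν ∧ Valued.v ν = WithZero.exp (-1 : ℤ) := by
  obtain ⟨ϖ, hϖ⟩ := hk.unif
  have hϖ0 : ϖ ≠ 0 := by
    rintro rfl
    rw [map_zero] at hϖ
    exact WithZero.exp_ne_zero hϖ.symm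
  obtain ⟨n, hn⟩ := val_eq_exp372 hz0
  have hi0 : ∀ x : k, x ≠ 0 → i x ≠ 0 := fun x hx => (map_ne_zero i).mpr hx
  rcases Int.even_or_odd' n with ⟨m, hm | hm⟩
  · -- even order: `z` would be a norm
    exfalso
    apply hz
    set p : k := ϖ ^ m with hp
    have hp0 : p ≠ 0 := zpow_ne_zero m hϖ0
    have hvp : Valued.v p = WithZero.exp (-m) := val_zpow372 hϖ m
    have hu : Valued.v (z * p ^ 2) = 1 := by
      rw [map_mul, map_pow, hn, hvp, pow_two, ← WithZero.exp_add, ← WithZero.exp_add,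
        ← WithZero.exp_zero, WithZero.exp_inj]
      omega
    obtain ⟨c, hc⟩ := unit_norm372 hQ hk hk' hext (z * p ^ 2) hu
    refine ⟨c * (i p)⁻¹, ?_⟩
    have hip0 : i p ≠ 0 := hi0 p hp0
    rw [Finset.prod_range_succ, Finset.prod_range_succ, Finset.prod_range_zero, one_mul,
      pow_zero, pow_one]
    show i z = c * (i p)⁻¹ * s (c * (i p)⁻¹)
    rw [map_mul, map_inv₀, hext.cyc.fix_i]
    have h1 : c * (i p)⁻¹ * (s c * (i p)⁻¹) = c * s c * ((i p)⁻¹ * (i p)⁻¹) := by ring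
    rw [h1, hc, map_mul, map_pow]
    field_simp
  · -- odd order
    set p : k := ϖ ^ (m + 1) with hp
    have hp0 : p ≠ 0 := zpow_ne_zero (m + 1) hϖ0
    have hvp : Valued.v p = WithZero.exp (-(m + 1)) := val_zpow372 hϖ (m + 1)
    have hip0 : i p ≠ 0 := hi0 p hp0
    have hiz0 : i z ≠ 0 := hi0 z hz0
    have hdet : (!![0, i z * i p; i p, 0] : Matrix (Fin 2) (Fin 2) k').det ≠ 0 := by
      rw [Matrix.det_fin_two_of, zero_mul, zero_sub, neg_ne_zero]
      exact mul_ne_zero (mul_ne_zero hiz0 hip0) hip0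
    refine ⟨Matrix.GeneralLinearGroup.mkOfDetNeZero _ hdet, -(z * p ^ 2),
      inTwCent_of372 ?_, ?_, ?_⟩
    · apply Units.ext
      ext a r
      have hρ : ((Matrix.GeneralLinearGroup.mkOfDetNeZero _ hdet : GL (Fin 2) k') :
          Matrix (Fin 2) (Fin 2) k') = !![0, i z * i p; i p, 0] := rfl
      unfold IsQuatBase385 at hδ
      simp only [Units.val_mul, Matrix.mul_apply, Fin.sum_univ_two, glAut,
        Matrix.GeneralLinearGroup.map_apply, hρ, hδ]
      fin_cases a <;> fin_cases r <;> simp [hext.cyc.fix_i, mul_comm]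
    · show (!![0, i z * i p; i p, 0] : Matrix (Fin 2) (Fin 2) k').det = i (-(z * p ^ 2))
      rw [Matrix.det_fin_two_of, map_neg, map_mul, map_pow]
      ring
    · rw [Valuation.map_neg, map_mul, map_pow, hn, hvp, pow_two, ← WithZero.exp_add,
        ← WithZero.exp_add, WithZero.exp_inj]
      omega

/-- **Leaf T6.18i.6b.4 (S4)**: `Nrd : D^× → k^×` takes a value of valuation `exp (-1)`. -/
theorem leafQuatUnif372 : LeafQuatUnif558 := by
  intro hQ k k' _ _ _ _ q e i s hD z hz0 hz δ₀ hδ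
  have he := hD.ext.e_pos
  obtain ⟨hk, hk', hext⟩ := hD
  rcases Nat.lt_or_ge e 3 with h3 | h3
  · interval_cases e
    · rw [show (2 : ℕ) / 1 = 2 from rfl] at hk'
      exact quatUnif_unr372 hQ hk hk' hext z hz0 hz δ₀ hδ
    · rw [show (2 : ℕ) / 2 = 1 from rfl, pow_one] at hk'
      exact quatUnif_ram372 hk' hext z δ₀ hδ
  · exfalso
    rw [Nat.div_eq_of_lt (by omega), pow_zero] at hk'
    exact not_isLocalField_one372 hk'

end Ext

end Fermat.Agent.LT.T6.H372

end

end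
-- ===== PACK-END LT/T6/H372/QuatUnif.lean

-- ===== PACK-BEGIN LT/T6/H197/QuatTorus.lean
section


/-!
# Row LT, tower T6, sub-leaf T6.18i.6b.5 (helper197): `LeafQuatTorus558`

`leafQuatTorus197 : H558.LeafQuatTorus558 = T6.TwCentC → H558.QuatTorusC558`, against the
byte-identical copy of `LT/T6/H558/QuatSetSpec.lean` (helper558, sha256 `3a49f9f1…`).

Proof.  `c (N δ₁) c⁻¹ = i γ`; `δ' = c δ₁ σ(c)⁻¹` has `N δ' = i γ` (`σ² = 1`), and `t` lies in the
twisted centraliser of `δ₁` iff `c t c⁻¹` lies in the one of `δ'`, which is the image of the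
centraliser of `γ` (`TwCentC`).  If `ord det t₀ = 2 j + 1`, then `ϖ^(-(j+1))`-scaled `t₀`
commutes with `γ` and has determinant of valuation `exp (-1)`.
-/

set_option autoImplicit false

open scoped Matrix

namespace Fermat.Agent.LT.T6.H197

open Fermat.Agent.LT.T6 Fermat.Agent.LT.T6.H783 Fermat.Agent.LT.T6.H385 Fermat.Agent.LT.T6.H558

theorem twNorm_two197 {R : Type} [CommRing R] (s : R ≃+* R) (δ : GL (Fin 2) R) :
    twNorm s 2 δ = δ * glAut s δ := by
  simp [twNorm, twN]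

theorem glAut_glAut197 {R : Type} [CommRing R] (s : R ≃+* R) (h : ∀ y : R, (s ^ 2) y = y)
    (x : GL (Fin 2) R) : glAut s (glAut s x) = x := by
  apply Matrix.GeneralLinearGroup.ext
  intro a b
  have := h ((x : Matrix (Fin 2) (Fin 2) R) a b)
  simpa [glAut, pow_two] using this

/-- Transport of the twisted centraliser under twisted conjugation. -/
theorem inTwCent_conj197 {R : Type} [CommRing R] (s : R ≃+* R) (c δ t : GL (Fin 2) R) :
    InTwCent s (c * δ * (glAut s c)⁻¹) (c * t * c⁻¹) ↔ InTwCent s δ t := by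
  unfold InTwCent
  have hgen : (c * t * c⁻¹)⁻¹ * (c * δ * (glAut s c)⁻¹) * glAut s (c * t * c⁻¹)
      = c * (t⁻¹ * δ * glAut s t) * (glAut s c)⁻¹ := by
    simp only [map_mul, map_inv]
    group
  rw [hgen, mul_left_inj, mul_right_inj]

theorem det_map197 {k k' : Type} [Field k] [Field k'] (i : k →+* k') (t : GL (Fin 2) k) :
    ((Matrix.GeneralLinearGroup.map i t : GL (Fin 2) k') : Matrix (Fin 2) (Fin 2) k').det
      = i (t : Matrix (Fin 2) (Fin 2) k).det := by
  rw [RingHom.map_det]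
  rfl

theorem det_conj197 {R : Type} [CommRing R] (c t : GL (Fin 2) R) :
    ((c * t * c⁻¹ : GL (Fin 2) R) : Matrix (Fin 2) (Fin 2) R).det
      = (t : Matrix (Fin 2) (Fin 2) R).det := by
  have h1 : ((c⁻¹ : GL (Fin 2) R) : Matrix (Fin 2) (Fin 2) R).det
      * (c : Matrix (Fin 2) (Fin 2) R).det = 1 := by
    rw [← Matrix.det_mul, ← Matrix.GeneralLinearGroup.coe_mul, inv_mul_cancel]
    simp
  simp only [Matrix.GeneralLinearGroup.coe_mul, Matrix.det_mul]
  linear_combination (t : Matrix (Fin 2) (Fin 2) R).det * h1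

/-- **T6.18i.6b.5** (registry row 1535). -/
theorem quatTorus_of_twCent197 (hTw : TwCentC) : QuatTorusC558 := by
  intro k k' _ _ _ _ q e i s hQ δ₁ γ hreg hconj
  have hcyc : IsCyclicData k k' 2 i s := hQ.ext.cyc
  obtain ⟨c, hc⟩ := isConj_iff.mp hconj
  rw [twNorm_two197] at hc
  -- the twisted conjugate with norm exactly `i γ`
  set δ' : GL (Fin 2) k' := c * δ₁ * (glAut s c)⁻¹ with hδ'
  have hN : twNorm s 2 δ' = Matrix.GeneralLinearGroup.map i γ := by
    rw [twNorm_two197, ← hc, hδ']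
    simp only [map_mul, map_inv, glAut_glAut197 s hcyc.order]
    group
  have hcent := hTw k k' 2 i s hcyc δ' γ hreg hN
  have hinj : Function.Injective i := i.injective
  constructor
  · rintro ⟨t₀, hcomm, hv⟩
    refine ⟨c⁻¹ * Matrix.GeneralLinearGroup.map i t₀ * c, (t₀ : Matrix (Fin 2) (Fin 2) k).det,
      ?_, ?_, hv⟩
    · have h1 : InTwCent s δ' (Matrix.GeneralLinearGroup.map i t₀) :=
        (hcent _).mpr ⟨t₀, hcomm, rfl⟩
      have h2 : c * (c⁻¹ * Matrix.GeneralLinearGroup.map i t₀ * c) * c⁻¹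
          = Matrix.GeneralLinearGroup.map i t₀ := by group
      rw [← h2] at h1
      exact (inTwCent_conj197 s c δ₁ _).mp h1
    · have h := det_conj197 c⁻¹ (Matrix.GeneralLinearGroup.map i t₀)
      rw [inv_inv] at h
      rw [h, det_map197]
  · intro hnr t ν ht hdet
    have h1 : InTwCent s δ' (c * t * c⁻¹) := (inTwCent_conj197 s c δ₁ t).mpr ht
    obtain ⟨t₀, hcomm, hx⟩ := (hcent _).mp h1
    have hdet0 : (t₀ : Matrix (Fin 2) (Fin 2) k).det = ν := by
      apply hinj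
      rw [← det_map197, ← hx, det_conj197, hdet]
    have hν0 : ν ≠ 0 := by
      rw [← hdet0]
      exact ((Matrix.isUnit_iff_isUnit_det _).mp ⟨t₀, rfl⟩).ne_zero
    have hv0 : Valued.v ν ≠ 0 := (Valuation.ne_zero_iff _).mpr hν0
    obtain ⟨j, hj | hj⟩ := Int.even_or_odd' (WithZero.log (Valued.v ν))
    · exact ⟨j, by rw [← hj, WithZero.exp_log hv0]⟩
    · exfalso
      obtain ⟨ϖ, hϖ⟩ := hQ.hk.unif
      have hϖ0 : ϖ ≠ 0 := by
        intro h
        rw [h, map_zero] at hϖ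
        exact WithZero.exp_ne_zero hϖ.symm
      have hdetM : ((ϖ ^ (j + 1)) • (t₀ : Matrix (Fin 2) (Fin 2) k)).det
          = (ϖ ^ (j + 1)) ^ 2 * ν := by
        rw [Matrix.det_smul, Fintype.card_fin, hdet0]
      have hne : ((ϖ ^ (j + 1)) • (t₀ : Matrix (Fin 2) (Fin 2) k)).det ≠ 0 := by
        rw [hdetM]
        exact mul_ne_zero (pow_ne_zero _ (zpow_ne_zero _ hϖ0)) hν0
      apply hnr
      refine ⟨Matrix.GeneralLinearGroup.mkOfDetNeZero _ hne, ?_, ?_⟩
      · apply Units.ext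
        have hc' := congrArg (fun g : GL (Fin 2) k => (g : Matrix (Fin 2) (Fin 2) k)) hcomm
        simp only [Matrix.GeneralLinearGroup.coe_mul] at hc'
        show ((ϖ ^ (j + 1)) • (t₀ : Matrix (Fin 2) (Fin 2) k)) * (γ : Matrix (Fin 2) (Fin 2) k)
          = (γ : Matrix (Fin 2) (Fin 2) k) * ((ϖ ^ (j + 1)) • (t₀ : Matrix (Fin 2) (Fin 2) k))
        rw [Matrix.smul_mul, Matrix.mul_smul, hc']
      · show Valued.v ((ϖ ^ (j + 1)) • (t₀ : Matrix (Fin 2) (Fin 2) k)).det = WithZero.exp (-1 : ℤ)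
        rw [hdetM, map_mul, map_pow, map_zpow₀, hϖ, ← WithZero.exp_log hv0, hj,
          ← WithZero.exp_zsmul, ← WithZero.exp_nsmul, ← WithZero.exp_add]
        congr 1
        simp only [smul_eq_mul, nsmul_eq_mul]
        push_cast
        ring

/-- **T6.18i.6b.5 `LeafQuatTorus558`, VERBATIM.** -/
theorem leafQuatTorus197 : LeafQuatTorus558 :=
  fun hTw => quatTorus_of_twCent197 hTw

end Fermat.Agent.LT.T6.H197

end
-- ===== PACK-END LT/T6/H197/QuatTorus.lean

-- ===== PACK-BEGIN LT/H129/EllParamClosed.lean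
section







/-!
# Row LT, tower T6, leaf T6.14b `EllParamC` (helper129): CLOSED -- OFF-MAIN

`ellParamC129 : Fermat.Agent.LT.T6.H847.EllParamC`, VERBATIM against
`LT/T6/H847/EllRamSpec.lean` (helper847@9a9979e8f, sha256 3578c164…), unconditional.

Integration of the top `ellParamC_of_leaves129` (`EllParamTop.lean`) with the five leaves
(vendored byte-identical):

* L1 `LatDecompC129`   : `T6.H420.latDecompC420`      (helper420, `LT/T6/H420/LatDecomp.lean`)
* L2 `LatRigidC129`    : `latRigidC286`               (helper286, `LT/T6/H286/LatRigid.lean`)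
* L3 `LatOrbitExC129`  : `latOrbitExC952`             (helper952, `LT/T6/H952/LatOrbitEx.lean`)
* L4 `LatOrbitUniqC129`: `latOrbitUniq75`             (helper75,  `LT/T6/H75/LatOrbitUniq.lean`)
* L5 `ReprFinC129`     : `reprFinC129_holds437`       (helper437, `LT/T6/H437/ReprFin.lean`)
* `T6.TwCentC`         : `T6.H166.twCentC166`         (helper166, `LT/T6/H166/TwCent.lean`)
-/

set_option autoImplicit false

namespace Fermat.Agent.LT.H129

open Fermat.Agent.LT.T6 Fermat.Agent.LT.T6.H847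

/-- **T6.14b `EllParamC`**, unconditional. -/
theorem ellParamC129 : EllParamC :=
  ellParamC_of_leaves129 Fermat.Agent.LT.T6.H420.latDecompC420
    Fermat.Agent.LT.T6.H286.latRigidC286 Fermat.Agent.LT.T6.H952.latOrbitExC952
    Fermat.Agent.LT.T6.H75.latOrbitUniq75 Fermat.Agent.LT.T6.H437.reprFinC129_holds437

end Fermat.Agent.LT.H129

end
-- ===== PACK-END LT/H129/EllParamClosed.lean

-- ===== PACK-BEGIN LT/T6/H842/EllReal.lean
section




/-!
# Row LT, tower T6, leaf T6.27 (helper842): the REAL side, `EllRealC`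

OFF-MAIN.  `ellReal842 : EllRealC` (unconditional: the polar decomposition `PolarRC μ c` and
the normalisation `IsTorNorm u θ μT m` are hypotheses INSIDE the Prop).
-/

set_option autoImplicit false

open scoped Matrix
open MeasureTheory

noncomputable section

namespace Fermat.Agent.LT.T6.H842

/-! ## 1. The conjugation identities -/

theorem conj_polar_one842 (u θ : ℝ) (p : (ℝ × ℝ) × (ℝ × ℝ)) :
    (polarMap 1 p)⁻¹ * zk u θ * polarMap 1 p
      = (zk 0 p.1.2)⁻¹ * ellY u θ p.1.1 * zk 0 p.1.2 := by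
  have hcomm : (zk p.2.1 p.2.2)⁻¹ * zk u θ * zk p.2.1 p.2.2 = zk u θ := by
    rw [mul_assoc, inv_mul_eq_iff_eq_mul]; exact zk_comm842 _ _ _ _
  unfold polarMap ellY
  rw [mul_one]
  calc (zk p.2.1 p.2.2 * aR p.1.1 * zk 0 p.1.2)⁻¹ * zk u θ *
        (zk p.2.1 p.2.2 * aR p.1.1 * zk 0 p.1.2)
      = (zk 0 p.1.2)⁻¹ * ((aR p.1.1)⁻¹ * ((zk p.2.1 p.2.2)⁻¹ * zk u θ * zk p.2.1 p.2.2) *
          aR p.1.1) * zk 0 p.1.2 := by
        simp only [mul_inv_rev, mul_assoc]
    _ = (zk 0 p.1.2)⁻¹ * ((aR p.1.1)⁻¹ * zk u θ * aR p.1.1) * zk 0 p.1.2 := by rw [hcomm]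

theorem polarMap_wR842 (p : (ℝ × ℝ) × (ℝ × ℝ)) : polarMap wR p = polarMap 1 p * wR := by
  unfold polarMap; rw [mul_one]

theorem conj_polar_wR842 (u θ : ℝ) (p : (ℝ × ℝ) × (ℝ × ℝ)) :
    (polarMap wR p)⁻¹ * zk u θ * polarMap wR p
      = (zk 0 (-p.1.2))⁻¹ * ellY u (-θ) p.1.1 * zk 0 (-p.1.2) := by
  have h1 : (polarMap wR p)⁻¹ * zk u θ * polarMap wR p
      = wR * ((polarMap 1 p)⁻¹ * zk u θ * polarMap 1 p) * wR := by
    rw [polarMap_wR842, mul_inv_rev, wR_inv842]
    simp only [mul_assoc]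
  have hk : wR * (zk 0 p.1.2)⁻¹ * wR = (zk 0 (-p.1.2))⁻¹ := by
    rw [← wR_zk_wR842, mul_inv_rev, mul_inv_rev, wR_inv842, mul_assoc]
  rw [h1, conj_polar_one842, ← ellY_wR842, ← hk, ← wR_zk_wR842]
  have hw : ∀ x : GL (Fin 2) ℝ, wR * (wR * x) = x := fun x => by
    rw [← mul_assoc, wR_mul_self842, one_mul]
  simp only [mul_assoc, hw]

/-! ## 2. Support -/

/-- `τ ↦ f(Y(u,θ,τ))` has compact support if `f` has and `sin θ ≠ 0`. -/
theorem hasCompactSupport_ellY842 {E : Type*} [Zero E] (f : GL (Fin 2) ℝ → E)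
    (hfs : HasCompactSupport f) (u θ : ℝ) (hθ : Real.sin θ ≠ 0) :
    HasCompactSupport fun τ : ℝ => f (ellY u θ τ) := by
  obtain ⟨M1, hM1⟩ := hfs.isCompact.exists_bound_of_continuousOn
    (continuous_entry842 (K := ℝ) 1 0).continuousOn
  obtain ⟨M0, hM0⟩ := hfs.isCompact.exists_bound_of_continuousOn
    (continuous_entry842 (K := ℝ) 0 1).continuousOn
  set A : ℝ := max M1 M0 / (Real.exp u * |Real.sin θ|) with hA
  have hpos : 0 < Real.exp u * |Real.sin θ| := mul_pos (Real.exp_pos u) (abs_pos.mpr hθ)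
  refine HasCompactSupport.intro (isCompact_Icc : IsCompact (Set.Icc (-Real.log A) (Real.log A)))
    fun τ hτ => ?_
  by_contra hne
  have hmem : ellY u θ τ ∈ tsupport f := subset_tsupport f hne
  have h1 := hM1 _ hmem
  have h0 := hM0 _ hmem
  simp only [coe_ellY842, Matrix.of_apply, Matrix.cons_val', Matrix.cons_val_zero,
    Matrix.cons_val_one, Matrix.empty_val', Matrix.cons_val_fin_one] at h1 h0
  rw [Real.norm_eq_abs] at h1 h0
  rw [abs_mul, abs_mul, abs_of_pos (Real.exp_pos _), abs_of_pos (Real.exp_pos _)] at h1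
  rw [abs_neg, abs_mul, abs_mul, abs_of_pos (Real.exp_pos _), abs_of_pos (Real.exp_pos _)] at h0
  have e1 : Real.exp τ ≤ A := by
    rw [hA, le_div_iff₀ hpos]
    calc Real.exp τ * (Real.exp u * |Real.sin θ|)
        = Real.exp u * (Real.exp τ * |Real.sin θ|) := by ring
      _ ≤ M1 := h1
      _ ≤ max M1 M0 := le_max_left _ _
  have e0 : Real.exp (-τ) ≤ A := by
    rw [hA, le_div_iff₀ hpos]
    calc Real.exp (-τ) * (Real.exp u * |Real.sin θ|)
        = Real.exp u * (Real.exp (-τ) * |Real.sin θ|) := by ring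
      _ ≤ M0 := h0
      _ ≤ max M1 M0 := le_max_right _ _
  have hApos : 0 < A := lt_of_lt_of_le (Real.exp_pos τ) e1
  apply hτ
  constructor
  · have := (Real.le_log_iff_exp_le hApos).mpr e0
    linarith
  · exact (Real.le_log_iff_exp_le hApos).mpr e1

/-! ## 3. The cut-off in coordinates -/

/-- The cut-off property in the coordinates `(v, α)` of the torus. -/
theorem cutoff_coord842 {Γ : Type} [Group Γ] [TopologicalSpace Γ] [IsTopologicalGroup Γ]
    (u θ : ℝ)
    (μT : @Measure (twCentSub (MonoidHom.id (GL (Fin 2) ℝ)) (zk u θ)) (borel _)) (m : ℝ)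
    (hm : IsTorNorm u θ μT m) (j : GL (Fin 2) ℝ →* Γ) (hj : Continuous j) (β : Γ → ℝ)
    (hβ : IsCutoff (zk u θ) μT j β) (x : Γ) :
    Integrable (fun y : ℝ × ℝ => β (j (zk y.1 y.2) * x)) torMeas ∧
      ∫ y : ℝ × ℝ, β (j (zk y.1 y.2) * x) ∂torMeas = 1 / m := by
  let _ : MeasurableSpace (twCentSub (MonoidHom.id (GL (Fin 2) ℝ)) (zk u θ)) := borel _
  have : BorelSpace (twCentSub (MonoidHom.id (GL (Fin 2) ℝ)) (zk u θ)) := ⟨rfl⟩
  obtain ⟨hm0, hμT⟩ := hm
  obtain ⟨hβc, -, hβ1⟩ := hβ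
  have hι : Continuous (torIota u θ) := by
    unfold torIota
    exact Continuous.subtype_mk continuous_zk842 _
  have hg : Continuous fun t : twCentSub (MonoidHom.id (GL (Fin 2) ℝ)) (zk u θ) =>
      β (j (t : GL (Fin 2) ℝ) * x) :=
    hβc.comp ((hj.comp continuous_subtype_val).mul continuous_const)
  have h1 := hβ1 x
  rw [hμT, integral_smul_measure, ENNReal.toReal_ofReal hm0.le,
    integral_map hι.measurable.aemeasurable hg.aestronglyMeasurable] at h1
  have h2 : (∫ y : ℝ × ℝ, β (j (zk y.1 y.2) * x) ∂torMeas) = 1 / m := by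
    have h3 : m * ∫ y : ℝ × ℝ, β (j (zk y.1 y.2) * x) ∂torMeas = 1 := h1
    field_simp
    linarith
  refine ⟨?_, h2⟩
  by_contra hni
  rw [integral_undef hni] at h2
  have : (0 : ℝ) < 1 / m := by positivity
  linarith

/-! ## 4. The real side -/

/-- **T6.27, real side.** -/
theorem ellReal842 : EllRealC := by
  intro μ c hμ u θ hθ μT m hm f hf hfs hfk β hβ
  let _ : MeasurableSpace (GL (Fin 2) ℝ) := borel _
  have : BorelSpace (GL (Fin 2) ℝ) := ⟨rfl⟩
  obtain ⟨hc, hμeq⟩ := hμ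
  have hm0 : 0 < m := hm.1
  -- the orbital function
  have hΩc : Continuous fun x : GL (Fin 2) ℝ => f (x⁻¹ * zk u θ * x) :=
    hf.comp ((continuous_inv.mul continuous_const).mul continuous_id)
  have hβc : Continuous β := hβ.1
  -- the two profiles
  have hω : ∀ θ' : ℝ, Real.sin θ' ≠ 0 →
      Integrable (fun p : ℝ × ℝ => f (ellY u θ' p.1)) radMeas := by
    intro θ' hθ'
    have : Integrable (fun τ : ℝ => f (ellY u θ' τ)) sinhMeas :=
      integrable_sinhMeas842 _ (hf.comp (continuous_ellY842 u θ'))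
        (hasCompactSupport_ellY842 f hfs u θ' hθ')
    exact this.comp_fst _
  have hθn : Real.sin (-θ) ≠ 0 := by rw [Real.sin_neg]; exact neg_ne_zero.mpr hθ
  have hIω : ∀ θ' : ℝ, ∫ p : ℝ × ℝ, f (ellY u θ' p.1) ∂radMeas
      = ((2 * Real.pi : ℝ) : ℂ) * ∫ τ in Set.Ioi (0 : ℝ), f (ellY u θ' τ) * (Real.sinh τ : ℂ) := by
    intro θ'
    unfold radMeas
    rw [integral_fun_fst (fun τ : ℝ => f (ellY u θ' τ)), angMeas_real_univ842,
      integral_sinhMeas842, Complex.real_smul]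
    congr 1
    refine setIntegral_congr_fun measurableSet_Ioi fun τ _ => ?_
    simp only [Complex.real_smul]
    ring
  -- the cut-off
  have hcut := fun x => cutoff_coord842 u θ μT m hm (MonoidHom.id _) continuous_id β hβ x
  -- the two pieces
  have key1 := unfold_core842 radMeas torMeas (polarMap 1)
    (continuous_polarMap842 1).measurable (fun x => f (x⁻¹ * zk u θ * x)) hΩc.measurable β
    hβc.measurable hβ.2.1 (fun p => f (ellY u θ p.1)) (hω θ hθ)
    (Filter.Eventually.of_forall fun p y => by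
      rw [conj_polar_one842]
      exact hfk _ _ (inSO2_zk842 _))
    (1 / m)
    (fun p => by
      have := (hcut (aR p.1 * zk 0 p.2 * 1)).1
      refine this.congr (Filter.Eventually.of_forall fun y => ?_)
      simp only [polarMap, MonoidHom.id_apply, mul_assoc])
    (fun p => by
      have := (hcut (aR p.1 * zk 0 p.2 * 1)).2
      rw [← this]
      refine integral_congr_ae (Filter.Eventually.of_forall fun y => ?_)
      simp only [polarMap, MonoidHom.id_apply, mul_assoc])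
  have key2 := unfold_core842 radMeas torMeas (polarMap wR)
    (continuous_polarMap842 wR).measurable (fun x => f (x⁻¹ * zk u θ * x)) hΩc.measurable β
    hβc.measurable hβ.2.1 (fun p => f (ellY u (-θ) p.1)) (hω (-θ) hθn)
    (Filter.Eventually.of_forall fun p y => by
      rw [conj_polar_wR842]
      exact hfk _ _ (inSO2_zk842 _))
    (1 / m)
    (fun p => by
      have := (hcut (aR p.1 * zk 0 p.2 * wR)).1
      refine this.congr (Filter.Eventually.of_forall fun y => ?_)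
      simp only [polarMap, MonoidHom.id_apply, mul_assoc])
    (fun p => by
      have := (hcut (aR p.1 * zk 0 p.2 * wR)).2
      rw [← this]
      refine integral_congr_ae (Filter.Eventually.of_forall fun y => ?_)
      simp only [polarMap, MonoidHom.id_apply, mul_assoc])
  -- assembly
  have hμeq' : μ = ENNReal.ofReal c •
      (Measure.map (polarMap 1) (radMeas.prod torMeas) +
        Measure.map (polarMap wR) (radMeas.prod torMeas)) := hμeq
  have hint : Integrable (fun x : GL (Fin 2) ℝ => f (x⁻¹ * zk u θ * x) * (β x : ℂ)) μ := by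
    rw [hμeq']
    exact (key1.1.add_measure key2.1).smul_measure ENNReal.ofReal_ne_top
  refine ⟨hint, ?_⟩
  have hval : ∫ x : GL (Fin 2) ℝ, f (x⁻¹ * zk u θ * x) * (β x : ℂ) ∂μ
      = ((2 * Real.pi * c / m : ℝ) : ℂ) * ellIntR f u θ := by
    rw [hμeq', integral_smul_measure, integral_add_measure key1.1 key2.1, key1.2, key2.2,
      hIω θ, hIω (-θ), ENNReal.toReal_ofReal hc.le]
    unfold ellIntR
    have hi1 : IntegrableOn (fun τ : ℝ => f (ellY u θ τ) * (Real.sinh τ : ℂ)) (Set.Ioi 0) :=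
      ((hf.comp (continuous_ellY842 u θ)).mul
        (Complex.continuous_ofReal.comp Real.continuous_sinh)).integrable_of_hasCompactSupport
        (hasCompactSupport_ellY842 f hfs u θ hθ).mul_right |>.integrableOn
    have hi2 : IntegrableOn (fun τ : ℝ => f (ellY u (-θ) τ) * (Real.sinh τ : ℂ)) (Set.Ioi 0) :=
      ((hf.comp (continuous_ellY842 u (-θ))).mul
        (Complex.continuous_ofReal.comp Real.continuous_sinh)).integrable_of_hasCompactSupport
        (hasCompactSupport_ellY842 f hfs u (-θ) hθn).mul_right |>.integrableOn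
    have hsum : ∫ τ in Set.Ioi (0 : ℝ), (f (ellY u θ τ) + f (ellY u (-θ) τ)) * (Real.sinh τ : ℂ)
        = (∫ τ in Set.Ioi (0 : ℝ), f (ellY u θ τ) * (Real.sinh τ : ℂ)) +
          ∫ τ in Set.Ioi (0 : ℝ), f (ellY u (-θ) τ) * (Real.sinh τ : ℂ) := by
      rw [← integral_add hi1 hi2]
      refine integral_congr_ae (Filter.Eventually.of_forall fun τ => ?_)
      simp only [add_mul]
    rw [hsum, Complex.real_smul]
    push_cast
    field_simp
  exact hval

end Fermat.Agent.LT.T6.H842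

end

end
-- ===== PACK-END LT/T6/H842/EllReal.lean

-- ===== PACK-BEGIN LT/T6/H842/EllTorus.lean
section




/-!
# Row LT, tower T6, leaf T6.27 (helper842): the Haar measures of the elliptic tori

OFF-MAIN.  For `γ = h (z_u k_θ) h⁻¹` (`sin θ ≠ 0`) the centraliser of `γ` is
`{h z_v k_α h⁻¹}`, and every Haar measure `μT` of it is `m` times the image of
`dv ⊗ dα|_{(0,2π]}`, with `m = μT {t | 1 ≤ det t ≤ e²} / (2π)` (`torusHaar842`).
`torusHaarC842 : TorusHaarC` is the case `h = 1`.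
-/

set_option autoImplicit false

open scoped Matrix
open MeasureTheory

noncomputable section

namespace Fermat.Agent.LT.T6.H842

/-! ## 1. The centraliser -/

/-- The centraliser of `z_u k_θ` (`sin θ ≠ 0`) consists of the `z_v k_α`. -/
theorem exists_zk_of_comm842 (u θ : ℝ) (hθ : Real.sin θ ≠ 0) (t : GL (Fin 2) ℝ)
    (ht : zk u θ * t = t * zk u θ) : ∃ v α : ℝ, t = zk v α := by
  have hmat : zkMat u θ * (t : Matrix (Fin 2) (Fin 2) ℝ)
      = (t : Matrix (Fin 2) (Fin 2) ℝ) * zkMat u θ := by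
    have := congrArg (fun g : GL (Fin 2) ℝ => (g : Matrix (Fin 2) (Fin 2) ℝ)) ht
    simpa using this
  have he : Real.exp u ≠ 0 := (Real.exp_pos u).ne'
  set a := (t : Matrix (Fin 2) (Fin 2) ℝ) 0 0 with ha
  set b := (t : Matrix (Fin 2) (Fin 2) ℝ) 0 1 with hb
  set c := (t : Matrix (Fin 2) (Fin 2) ℝ) 1 0 with hc
  set d := (t : Matrix (Fin 2) (Fin 2) ℝ) 1 1 with hd
  have h00 := congrFun (congrFun hmat 0) 0
  have h10 := congrFun (congrFun hmat 1) 0
  simp only [zkMat, Matrix.mul_apply, Fin.sum_univ_two, Matrix.of_apply, Matrix.cons_val',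
    Matrix.cons_val_zero, Matrix.cons_val_one, Matrix.empty_val', Matrix.cons_val_fin_one]
    at h00 h10
  have hbc : b = -c := by
    have h : Real.exp u * Real.sin θ * (b + c) = 0 := by
      simp only [← ha, ← hb, ← hc] at h00
      linarith
    have := (mul_eq_zero.mp h).resolve_left (mul_ne_zero he hθ)
    linarith
  have had : a = d := by
    have h : Real.exp u * Real.sin θ * (a - d) = 0 := by
      simp only [← ha, ← hc, ← hd] at h10
      linarith
    have := (mul_eq_zero.mp h).resolve_left (mul_ne_zero he hθ)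
    linarith
  have hdet : (t : Matrix (Fin 2) (Fin 2) ℝ).det = a ^ 2 + c ^ 2 := by
    rw [Matrix.det_fin_two, ← ha, ← hb, ← hc, ← hd, hbc, ← had]; ring
  have hdet0 : a ^ 2 + c ^ 2 ≠ 0 := by
    rw [← hdet]; exact Matrix.GeneralLinearGroup.det_ne_zero t
  have hpos : 0 < a ^ 2 + c ^ 2 := lt_of_le_of_ne (by positivity) (Ne.symm hdet0)
  set x : ℂ := ⟨a, c⟩ with hx
  have hx0 : x ≠ 0 := by
    intro h0
    have h1 := congrArg Complex.re h0
    have h2 := congrArg Complex.im h0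
    simp only [hx, Complex.zero_re, Complex.zero_im] at h1 h2
    apply hdet0; rw [h1, h2]; ring
  have hnx : 0 < ‖x‖ := norm_pos_iff.mpr hx0
  refine ⟨Real.log ‖x‖, Complex.arg x, ?_⟩
  apply Units.ext
  have hcos : Real.cos (Complex.arg x) = a / ‖x‖ := Complex.cos_arg hx0
  have hsin : Real.sin (Complex.arg x) = c / ‖x‖ := Complex.sin_arg x
  have hexp : Real.exp (Real.log ‖x‖) = ‖x‖ := Real.exp_log hnx
  ext i j
  fin_cases i <;> fin_cases j <;>
    simp only [coe_zk842, zkMat, Matrix.of_apply, Matrix.cons_val', Matrix.cons_val_zero,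
      Matrix.cons_val_one, Matrix.empty_val', Matrix.cons_val_fin_one, Fin.zero_eta,
      Fin.mk_one, Fin.isValue, hexp, hcos, hsin]
  · change a = _; field_simp
  · change b = _; rw [hbc]; field_simp
  · change c = _; field_simp
  · change d = _; rw [← had]; field_simp

/-- `h z_v k_α h⁻¹` as an element of the centraliser of `γ = h z_u k_θ h⁻¹`. -/
def torIotaH (h : GL (Fin 2) ℝ) (u θ : ℝ) (γ : GL (Fin 2) ℝ) (hγ : γ = h * zk u θ * h⁻¹)
    (p : ℝ × ℝ) : twCentSub (MonoidHom.id (GL (Fin 2) ℝ)) γ :=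
  ⟨h * zk p.1 p.2 * h⁻¹, by
    change (h * zk p.1 p.2 * h⁻¹)⁻¹ * γ * (h * zk p.1 p.2 * h⁻¹) = γ
    rw [hγ]
    have hc : zk p.1 p.2 * zk u θ = zk u θ * zk p.1 p.2 := zk_comm842 _ _ _ _
    calc (h * zk p.1 p.2 * h⁻¹)⁻¹ * (h * zk u θ * h⁻¹) * (h * zk p.1 p.2 * h⁻¹)
        = h * ((zk p.1 p.2)⁻¹ * (zk u θ * zk p.1 p.2)) * h⁻¹ := by
          simp only [mul_inv_rev, inv_inv, mul_assoc, inv_mul_cancel_left]
      _ = h * zk u θ * h⁻¹ := by rw [← hc, inv_mul_cancel_left]⟩

@[simp] theorem coe_torIotaH842 (h : GL (Fin 2) ℝ) (u θ : ℝ) (γ : GL (Fin 2) ℝ)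
    (hγ : γ = h * zk u θ * h⁻¹) (p : ℝ × ℝ) :
    ((torIotaH h u θ γ hγ p : twCentSub (MonoidHom.id (GL (Fin 2) ℝ)) γ) : GL (Fin 2) ℝ)
      = h * zk p.1 p.2 * h⁻¹ := rfl

theorem continuous_torIotaH842 (h : GL (Fin 2) ℝ) (u θ : ℝ) (γ : GL (Fin 2) ℝ)
    (hγ : γ = h * zk u θ * h⁻¹) : Continuous (torIotaH h u θ γ hγ) := by
  unfold torIotaH
  exact Continuous.subtype_mk ((continuous_const.mul continuous_zk842).mul continuous_const) _

/-- Every element of the centraliser is some `h z_v k_α h⁻¹`. -/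
theorem torIotaH_surj842 (h : GL (Fin 2) ℝ) (u θ : ℝ) (hθ : Real.sin θ ≠ 0) (γ : GL (Fin 2) ℝ)
    (hγ : γ = h * zk u θ * h⁻¹) (t : twCentSub (MonoidHom.id (GL (Fin 2) ℝ)) γ) :
    ∃ p : ℝ × ℝ, torIotaH h u θ γ hγ p = t := by
  obtain ⟨g, hg⟩ : ∃ g : GL (Fin 2) ℝ, g = (t : GL (Fin 2) ℝ) := ⟨_, rfl⟩
  have ht : g⁻¹ * γ * g = γ := by rw [hg]; exact t.2
  have h1 : γ * g = g * γ := by
    rw [mul_assoc, inv_mul_eq_iff_eq_mul] at ht
    exact ht
  have h2 : (h * zk u θ * h⁻¹) * g = g * (h * zk u θ * h⁻¹) := by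
    rw [← hγ]; exact h1
  have hcomm : zk u θ * (h⁻¹ * g * h) = (h⁻¹ * g * h) * zk u θ := by
    calc zk u θ * (h⁻¹ * g * h)
        = h⁻¹ * ((h * zk u θ * h⁻¹) * g) * h := by
          simp only [mul_assoc, inv_mul_cancel_left]
      _ = h⁻¹ * (g * (h * zk u θ * h⁻¹)) * h := by rw [h2]
      _ = (h⁻¹ * g * h) * zk u θ := by
          simp only [mul_assoc, inv_mul_cancel, mul_one]
  obtain ⟨v, α, hv⟩ := exists_zk_of_comm842 u θ hθ _ hcomm
  refine ⟨(v, α), Subtype.ext ?_⟩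
  rw [coe_torIotaH842, ← hg, ← hv]
  simp only [mul_assoc, mul_inv_cancel, mul_one, mul_inv_cancel_left]

theorem torIotaH_mul842 (h : GL (Fin 2) ℝ) (u θ : ℝ) (γ : GL (Fin 2) ℝ)
    (hγ : γ = h * zk u θ * h⁻¹) (p q : ℝ × ℝ) :
    torIotaH h u θ γ hγ p * torIotaH h u θ γ hγ q
      = torIotaH h u θ γ hγ (q.1 + p.1, q.2 + p.2) := by
  apply Subtype.ext
  rw [Subgroup.coe_mul, coe_torIotaH842, coe_torIotaH842, coe_torIotaH842]
  have : zk p.1 p.2 * zk q.1 q.2 = zk (q.1 + p.1) (q.2 + p.2) := by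
    rw [zk_mul842, add_comm p.1, add_comm p.2]
  rw [← this]
  simp only [mul_assoc, inv_mul_cancel_left]

theorem torIotaH_periodic842 (h : GL (Fin 2) ℝ) (u θ : ℝ) (γ : GL (Fin 2) ℝ)
    (hγ : γ = h * zk u θ * h⁻¹) (v α : ℝ) :
    torIotaH h u θ γ hγ (v, α + 2 * Real.pi) = torIotaH h u θ γ hγ (v, α) := by
  apply Subtype.ext
  rw [coe_torIotaH842, coe_torIotaH842, zk_add_two_pi842]

theorem det_torIotaH842 (h : GL (Fin 2) ℝ) (u θ : ℝ) (γ : GL (Fin 2) ℝ)
    (hγ : γ = h * zk u θ * h⁻¹) (p : ℝ × ℝ) :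
    (((torIotaH h u θ γ hγ p : twCentSub (MonoidHom.id (GL (Fin 2) ℝ)) γ) : GL (Fin 2) ℝ) :
      Matrix (Fin 2) (Fin 2) ℝ).det = Real.exp (2 * p.1) := by
  rw [coe_torIotaH842, Units.val_mul, Units.val_mul, Matrix.det_mul, Matrix.det_mul, coe_zk842,
    det_zkMat]
  have h1 : (h : Matrix (Fin 2) (Fin 2) ℝ).det * ((h⁻¹ : GL (Fin 2) ℝ) :
      Matrix (Fin 2) (Fin 2) ℝ).det = 1 := by
    rw [← Matrix.det_mul, ← Units.val_mul, mul_inv_cancel]; simp
  have h2 : Real.exp (2 * p.1) = Real.exp p.1 ^ 2 := by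
    rw [← Real.exp_nat_mul]; norm_num
  rw [h2]
  linear_combination (Real.exp p.1 ^ 2) * h1


/-! ## 2. The image of `dv ⊗ dα` is a left invariant measure, finite on compact sets -/

section Haar

variable (h : GL (Fin 2) ℝ) (u θ : ℝ) (γ : GL (Fin 2) ℝ) (hγ : γ = h * zk u θ * h⁻¹)
  [MeasurableSpace (twCentSub (MonoidHom.id (GL (Fin 2) ℝ)) γ)]
  [BorelSpace (twCentSub (MonoidHom.id (GL (Fin 2) ℝ)) γ)]

theorem measurable_torIotaH842 : Measurable (torIotaH h u θ γ hγ) :=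
  (continuous_torIotaH842 h u θ γ hγ).measurable

/-- The lower integral against the image measure, as an iterated integral. -/
theorem lintegral_torLam842 (F : twCentSub (MonoidHom.id (GL (Fin 2) ℝ)) γ → ENNReal)
    (hF : Measurable F) :
    ∫⁻ t, F t ∂(Measure.map (torIotaH h u θ γ hγ) torMeas)
      = ∫⁻ v : ℝ, ∫⁻ α : ℝ, F (torIotaH h u θ γ hγ (v, α))
          ∂((volume : Measure ℝ).restrict (Set.Ioc 0 (2 * Real.pi))) := by
  rw [lintegral_map hF (measurable_torIotaH842 h u θ γ hγ)]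
  unfold torMeas
  exact lintegral_prod (fun p => F (torIotaH h u θ γ hγ p))
    (hF.comp (measurable_torIotaH842 h u θ γ hγ)).aemeasurable

/-- The image of `dv ⊗ dα|_{(0,2π]}` is left invariant. -/
theorem torLam_map_mul_left842 (hθ : Real.sin θ ≠ 0)
    (t₀ : twCentSub (MonoidHom.id (GL (Fin 2) ℝ)) γ) :
    Measure.map (fun t => t₀ * t) (Measure.map (torIotaH h u θ γ hγ) torMeas)
      = Measure.map (torIotaH h u θ γ hγ) torMeas := by
  obtain ⟨p₀, hp₀⟩ := torIotaH_surj842 h u θ hθ γ hγ t₀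
  refine Measure.ext_of_lintegral _ fun F hF => ?_
  have hm : Measurable fun t : twCentSub (MonoidHom.id (GL (Fin 2) ℝ)) γ => t₀ * t :=
    (continuous_const.mul continuous_id).measurable
  rw [lintegral_map hF hm, lintegral_torLam842 h u θ γ hγ (fun t => F (t₀ * t)) (hF.comp hm),
    lintegral_torLam842 h u θ γ hγ _ hF]
  have h1 : ∀ v α : ℝ, F (t₀ * torIotaH h u θ γ hγ (v, α))
      = F (torIotaH h u θ γ hγ (v + p₀.1, α + p₀.2)) := by
    intro v α
    rw [← hp₀, torIotaH_mul842]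
  simp only [h1]
  have h2 : ∀ v : ℝ, ∫⁻ α : ℝ, F (torIotaH h u θ γ hγ (v + p₀.1, α + p₀.2))
        ∂((volume : Measure ℝ).restrict (Set.Ioc 0 (2 * Real.pi)))
      = ∫⁻ α : ℝ, F (torIotaH h u θ γ hγ (v + p₀.1, α))
        ∂((volume : Measure ℝ).restrict (Set.Ioc 0 (2 * Real.pi))) := by
    intro v
    exact Fermat.Agent.LT.T6.H915.lintegral_angM_add915
      (fun α => F (torIotaH h u θ γ hγ (v + p₀.1, α)))
      (fun α => by
        change F (torIotaH h u θ γ hγ (v + p₀.1, α + 2 * Real.pi)) = _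
        rw [torIotaH_periodic842]) p₀.2
  simp only [h2]
  exact lintegral_add_right_eq_self
    (fun v => ∫⁻ α : ℝ, F (torIotaH h u θ γ hγ (v, α))
      ∂((volume : Measure ℝ).restrict (Set.Ioc 0 (2 * Real.pi)))) p₀.1

omit [MeasurableSpace (twCentSub (MonoidHom.id (GL (Fin 2) ℝ)) γ)]
  [BorelSpace (twCentSub (MonoidHom.id (GL (Fin 2) ℝ)) γ)] in
theorem continuous_log_det_tor842 :
    Continuous fun t : twCentSub (MonoidHom.id (GL (Fin 2) ℝ)) γ =>
      Real.log ((t : GL (Fin 2) ℝ) : Matrix (Fin 2) (Fin 2) ℝ).det := by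
  refine Continuous.log ?_ fun t => Matrix.GeneralLinearGroup.det_ne_zero _
  exact (Units.continuous_val.comp continuous_subtype_val).matrix_det

/-- The image of `dv ⊗ dα|_{(0,2π]}` is finite on compact sets. -/
theorem torLam_lt_top842 (C : Set (twCentSub (MonoidHom.id (GL (Fin 2) ℝ)) γ))
    (hC : IsCompact C) :
    (Measure.map (torIotaH h u θ γ hγ) torMeas) C < ⊤ := by
  obtain ⟨M, hM⟩ := hC.exists_bound_of_continuousOn
    (continuous_log_det_tor842 γ).continuousOn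
  have hsub : torIotaH h u θ γ hγ ⁻¹' C ⊆ Set.Icc (-(M / 2)) (M / 2) ×ˢ Set.univ := by
    intro p hp
    have := hM _ hp
    rw [det_torIotaH842, Real.log_exp, Real.norm_eq_abs, abs_le] at this
    exact ⟨⟨by linarith [this.1], by linarith [this.2]⟩, Set.mem_univ _⟩
  rw [Measure.map_apply (measurable_torIotaH842 h u θ γ hγ) hC.isClosed.measurableSet]
  refine lt_of_le_of_lt (measure_mono hsub) ?_
  unfold torMeas
  rw [Measure.prod_prod]
  exact ENNReal.mul_lt_top measure_Icc_lt_top (measure_lt_top _ _)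

/-- The mass of the box `1 ≤ det ≤ e²`. -/
theorem torLam_box842 :
    (Measure.map (torIotaH h u θ γ hγ) torMeas)
        {t | 1 ≤ ((t : GL (Fin 2) ℝ) : Matrix (Fin 2) (Fin 2) ℝ).det ∧
          ((t : GL (Fin 2) ℝ) : Matrix (Fin 2) (Fin 2) ℝ).det ≤ Real.exp 2}
      = ENNReal.ofReal (2 * Real.pi) := by
  have hdet : Continuous fun t : twCentSub (MonoidHom.id (GL (Fin 2) ℝ)) γ =>
      ((t : GL (Fin 2) ℝ) : Matrix (Fin 2) (Fin 2) ℝ).det :=
    (Units.continuous_val.comp continuous_subtype_val).matrix_det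
  have hms : MeasurableSet {t : twCentSub (MonoidHom.id (GL (Fin 2) ℝ)) γ |
      1 ≤ ((t : GL (Fin 2) ℝ) : Matrix (Fin 2) (Fin 2) ℝ).det ∧
        ((t : GL (Fin 2) ℝ) : Matrix (Fin 2) (Fin 2) ℝ).det ≤ Real.exp 2} :=
    ((isClosed_le continuous_const hdet).inter (isClosed_le hdet continuous_const)).measurableSet
  have hpre : torIotaH h u θ γ hγ ⁻¹' {t | 1 ≤ ((t : GL (Fin 2) ℝ) :
      Matrix (Fin 2) (Fin 2) ℝ).det ∧
        ((t : GL (Fin 2) ℝ) : Matrix (Fin 2) (Fin 2) ℝ).det ≤ Real.exp 2}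
      = Set.Icc (0 : ℝ) 1 ×ˢ Set.univ := by
    ext p
    simp only [Set.mem_preimage, Set.mem_ofPred_eq, det_torIotaH842, Set.mem_prod, Set.mem_Icc,
      Set.mem_univ, and_true]
    rw [Real.one_le_exp_iff, Real.exp_le_exp]
    constructor
    · rintro ⟨h1, h2⟩; exact ⟨by linarith, by linarith⟩
    · rintro ⟨h1, h2⟩; exact ⟨by linarith, by linarith⟩
  rw [Measure.map_apply (measurable_torIotaH842 h u θ γ hγ) hms, hpre]
  unfold torMeas
  rw [Measure.prod_prod, Real.volume_Icc, Measure.restrict_apply_univ, Real.volume_Ioc]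
  simp

end Haar

/-! ## 3. Every Haar measure of the torus is a multiple of the image of `dv ⊗ dα` -/

theorem isClosed_twCent842 (γ : GL (Fin 2) ℝ) :
    IsClosed ((twCentSub (MonoidHom.id (GL (Fin 2) ℝ)) γ : Subgroup (GL (Fin 2) ℝ)) :
      Set (GL (Fin 2) ℝ)) := by
  have : ((twCentSub (MonoidHom.id (GL (Fin 2) ℝ)) γ : Subgroup (GL (Fin 2) ℝ)) :
      Set (GL (Fin 2) ℝ)) = {x | x⁻¹ * γ * x = γ} := rfl
  rw [this]
  exact isClosed_eq ((continuous_inv.mul continuous_const).mul continuous_id) continuous_const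

/-- **The Haar measures of the elliptic tori.**  `γ = h (z_u k_θ) h⁻¹`, `sin θ ≠ 0`, `μT` a Haar
measure of the centraliser of `γ`, `m = μT {1 ≤ det ≤ e²} / (2π)`.  Then `0 < m` and
`μT = m • (image of dv ⊗ dα|_{(0,2π]} under (v, α) ↦ h z_v k_α h⁻¹)`. -/
theorem torusHaar842 (h : GL (Fin 2) ℝ) (u θ : ℝ) (hθ : Real.sin θ ≠ 0) (γ : GL (Fin 2) ℝ)
    (hγ : γ = h * zk u θ * h⁻¹)
    (μT : @Measure (twCentSub (MonoidHom.id (GL (Fin 2) ℝ)) γ) (borel _))
    (hμT : @Measure.IsHaarMeasure _ _ _ (borel _) μT) :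
    0 < (μT {t | 1 ≤ ((t : GL (Fin 2) ℝ) : Matrix (Fin 2) (Fin 2) ℝ).det ∧
          ((t : GL (Fin 2) ℝ) : Matrix (Fin 2) (Fin 2) ℝ).det ≤ Real.exp 2}).toReal /
        (2 * Real.pi) ∧
      μT = ENNReal.ofReal
          ((μT {t | 1 ≤ ((t : GL (Fin 2) ℝ) : Matrix (Fin 2) (Fin 2) ℝ).det ∧
            ((t : GL (Fin 2) ℝ) : Matrix (Fin 2) (Fin 2) ℝ).det ≤ Real.exp 2}).toReal /
          (2 * Real.pi)) •
        @Measure.map _ _ _ (borel _) (torIotaH h u θ γ hγ) torMeas := by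
  let _ : MeasurableSpace (twCentSub (MonoidHom.id (GL (Fin 2) ℝ)) γ) := borel _
  have : BorelSpace (twCentSub (MonoidHom.id (GL (Fin 2) ℝ)) γ) := ⟨rfl⟩
  have := secondCountable_GL842 ℝ
  have := locallyCompact_GR842
  have : LocallyCompactSpace (twCentSub (MonoidHom.id (GL (Fin 2) ℝ)) γ) :=
    (isClosed_twCent842 γ).locallyCompactSpace
  have : SecondCountableTopology (twCentSub (MonoidHom.id (GL (Fin 2) ℝ)) γ) :=
    Topology.IsEmbedding.subtypeVal.secondCountableTopology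
  have : Measure.IsHaarMeasure μT := hμT
  set lam : Measure (twCentSub (MonoidHom.id (GL (Fin 2) ℝ)) γ) :=
    Measure.map (torIotaH h u θ γ hγ) torMeas with hlam
  have : lam.IsMulLeftInvariant :=
    ⟨fun t₀ => torLam_map_mul_left842 h u θ γ hγ hθ t₀⟩
  have : IsFiniteMeasureOnCompacts lam :=
    ⟨fun C hC => torLam_lt_top842 h u θ γ hγ C hC⟩
  have huniq : lam = lam.haarScalarFactor μT • μT := Measure.isMulLeftInvariant_eq_smul lam μT
  set s : NNReal := lam.haarScalarFactor μT with hs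
  set B : Set (twCentSub (MonoidHom.id (GL (Fin 2) ℝ)) γ) :=
    {t | 1 ≤ ((t : GL (Fin 2) ℝ) : Matrix (Fin 2) (Fin 2) ℝ).det ∧
      ((t : GL (Fin 2) ℝ) : Matrix (Fin 2) (Fin 2) ℝ).det ≤ Real.exp 2} with hB
  have hbox : lam B = ENNReal.ofReal (2 * Real.pi) := torLam_box842 h u θ γ hγ
  have hbox2 : (s : ENNReal) * μT B = ENNReal.ofReal (2 * Real.pi) := by
    rw [← hbox, huniq]
    rfl
  have hpi : (0 : ℝ) < 2 * Real.pi := by positivity
  have hs0 : s ≠ 0 := by
    intro h0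
    rw [h0] at hbox2
    simp only [ENNReal.coe_zero, zero_mul] at hbox2
    exact absurd hbox2.symm (by simpa using hpi)
  have hs0' : (s : ENNReal) ≠ 0 := by exact_mod_cast hs0
  have hμB : μT B = ENNReal.ofReal (2 * Real.pi) / (s : ENNReal) := by
    rw [ENNReal.eq_div_iff hs0' ENNReal.coe_ne_top, hbox2]
  have hμBreal : (μT B).toReal / (2 * Real.pi) = ((s : ℝ))⁻¹ := by
    rw [hμB, ENNReal.toReal_div, ENNReal.toReal_ofReal hpi.le, ENNReal.coe_toReal]
    field_simp
  have hspos : (0 : ℝ) < s := by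
    have : (0 : NNReal) < s := pos_iff_ne_zero.mpr hs0
    exact_mod_cast this
  refine ⟨by rw [hμBreal]; positivity, ?_⟩
  rw [hμBreal]
  have hinv : ENNReal.ofReal ((s : ℝ))⁻¹ = ((s : ENNReal))⁻¹ := by
    rw [ENNReal.ofReal_inv_of_pos hspos, ENNReal.ofReal_coe_nnreal]
  rw [hinv]
  change μT = ((s : ENNReal))⁻¹ • lam
  rw [huniq]
  refine Measure.ext fun A _ => ?_
  rw [Measure.smul_apply, Measure.smul_apply, smul_eq_mul, ENNReal.smul_def, smul_eq_mul,
    ← mul_assoc, ENNReal.inv_mul_cancel hs0' ENNReal.coe_ne_top, one_mul]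


/-- **`TorusHaarC`** (the case `h = 1`). -/
theorem torusHaarC842 : TorusHaarC := by
  intro u θ hθ μT hμT
  have hγ : zk u θ = 1 * zk u θ * (1 : GL (Fin 2) ℝ)⁻¹ := by simp
  obtain ⟨hpos, heq⟩ := torusHaar842 1 u θ hθ (zk u θ) hγ μT hμT
  refine ⟨_, hpos, ?_⟩
  have hι : torIotaH 1 u θ (zk u θ) hγ = torIota u θ := by
    funext p
    apply Subtype.ext
    rw [coe_torIotaH842]
    simp [torIota]
  rw [hι] at heq
  exact heq

end Fermat.Agent.LT.T6.H842

end

end
-- ===== PACK-END LT/T6/H842/EllTorus.lean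

-- ===== PACK-BEGIN LT/T6/H855/HypFub.lean
section



/-!
# Row LT, tower T6, T6.25 `ArchHyp` (helper855): FUBINI with a cut-off function

OFF-MAIN.  `fiber_cutoff855`: if `∫ B(Φ(u, y)) dm₁(u) = r` for all `y` then
`∫ h(y) B(Φ(u, y)) d(m₁ ⊗ m₂) = r ∫ h dm₂`.
-/

set_option autoImplicit false

open scoped Matrix
open MeasureTheory

noncomputable section

namespace Fermat.Agent.LT.T6.H855

open Fermat.Agent.LT.T6

/-- **Fubini with a cut-off function.** -/
theorem fiber_cutoff855 {U Y X : Type*} [MeasurableSpace U] [MeasurableSpace Y]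
    [MeasurableSpace X] (m₁ : Measure U) (m₂ : Measure Y) [SFinite m₁] [SFinite m₂]
    (Φ : U × Y → X) (hΦ : Measurable Φ)
    (h : Y → ℂ) (hh : Integrable h m₂)
    (B : X → ℝ) (hB : Measurable B) (hB0 : ∀ x, 0 ≤ B x) (r : ℝ)
    (hint : ∀ y, Integrable (fun u => B (Φ (u, y))) m₁)
    (hr : ∀ y, ∫ u, B (Φ (u, y)) ∂m₁ = r) :
    Integrable (fun z : U × Y => h z.2 * (B (Φ z) : ℂ)) (m₁.prod m₂) ∧
      ∫ z, h z.2 * (B (Φ z) : ℂ) ∂(m₁.prod m₂) = (r : ℂ) * ∫ y, h y ∂m₂ := by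
  have hmeas : AEStronglyMeasurable (fun z : U × Y => h z.2 * (B (Φ z) : ℂ)) (m₁.prod m₂) := by
    apply AEStronglyMeasurable.mul
    · exact hh.1.comp_snd
    · exact (Complex.measurable_ofReal.comp (hB.comp hΦ)).aestronglyMeasurable
  have hinner : ∀ y, ∫ u, h y * (B (Φ (u, y)) : ℂ) ∂m₁ = h y * (r : ℂ) := by
    intro y
    rw [integral_const_mul, integral_complex_ofReal, hr y]
  have hnorm : ∀ y, ∫ u, ‖h y * (B (Φ (u, y)) : ℂ)‖ ∂m₁ = ‖h y‖ * r := by
    intro y
    have : ∀ u, ‖h y * (B (Φ (u, y)) : ℂ)‖ = ‖h y‖ * B (Φ (u, y)) := by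
      intro u
      rw [norm_mul, Complex.norm_real, Real.norm_of_nonneg (hB0 _)]
    simp_rw [this]
    rw [integral_const_mul, hr y]
  have hI : Integrable (fun z : U × Y => h z.2 * (B (Φ z) : ℂ)) (m₁.prod m₂) := by
    rw [integrable_prod_iff' hmeas]
    constructor
    · refine Filter.Eventually.of_forall (fun y => ?_)
      exact ((hint y).ofReal (𝕜 := ℂ)).const_mul (h y)
    · simp_rw [hnorm]
      exact hh.norm.mul_const r
  refine ⟨hI, ?_⟩
  rw [integral_prod_symm _ hI]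
  simp_rw [hinner]
  rw [integral_mul_const, mul_comm]

end Fermat.Agent.LT.T6.H855

end

end
-- ===== PACK-END LT/T6/H855/HypFub.lean

-- ===== PACK-BEGIN LT/T5/H32/EKIdeal.lean
section


/-!
# Row LT, tower T5 (helper32): Eisenstein-killing functions form a two-sided ideal

OFF-MAIN, ADDITIVE.  Vocabulary of `T5/Spec.lean` v4 only (`T5.IsEK`, `T5.conv`, `T5.adjointFn`,
`T5.Rconv`, `T5.IsFrame`).  Input for the field `ekprod_up` / `ekprod_down` of `T7.IsL2Data`
(ruling of helper797, 15:22Z).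

* `support_conv_subset32` : `supp (φ₁ ⋆ φ₂) ⊆ supp φ₁ · supp φ₂` (no hypothesis);
* `continuous_conv32`, `hasCompactSupport_conv32`;
* `isEK_conv_right32` : `φ` EK ⟹ `β ⋆ φ` EK;
* `isEK_conv_left32`  : `φ` EK ⟹ `φ ⋆ β` EK  (`R(β) Ψ` is again Borel invariant);
* `adjointFn_conv32`  : `(φ₁ ⋆ φ₂)* = φ₂* ⋆ φ₁*`;
* `adjointFn_adjointFn32`, `continuous_adjointFn32`, `hasCompactSupport_adjointFn32`;
* `isEK_adjoint_conv_left32`, `isEK_adjoint_conv_right32` : the adjoints of `φ ⋆ β`, `β ⋆ φ` are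
  EK if the adjoint of `φ` is;
* `conv_assoc32` : `(a ⋆ b) ⋆ c = a ⋆ (b ⋆ c)`.
-/

set_option autoImplicit false
open IsDedekindDomain NumberField MeasureTheory
open scoped MatrixGroups ComplexConjugate Pointwise
open Fermat.Agent.LT.H556.A0 Fermat.Agent.LT.T5

noncomputable section
namespace Fermat.Agent.LT.T5.H32

variable {K : Type} [Field K] [NumberField K]

attribute [local instance] Fermat.Agent.LT.T5.instMeasurableSpaceG

variable {μ : Measure (G K)} {F : Set (G K)}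

/-! ## Support, continuity -/

/-- The support of a convolution is contained in the product of the supports. -/
theorem support_conv_subset32 (μ : Measure (G K)) (φ₁ φ₂ : G K → ℂ) :
    Function.support (conv μ φ₁ φ₂) ⊆ Function.support φ₁ * Function.support φ₂ := by
  intro g hg
  by_contra hcon
  apply hg
  unfold conv
  have h0 : (fun y => φ₁ y * φ₂ (y⁻¹ * g)) = fun _ => (0 : ℂ) := by
    funext y
    by_cases h1 : φ₁ y = 0
    · rw [h1, zero_mul]
    · by_cases h2 : φ₂ (y⁻¹ * g) = 0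
      · rw [h2, mul_zero]
      · exact absurd ⟨y, h1, y⁻¹ * g, h2, by simp⟩ hcon
  rw [h0]
  simp

/-- Pointwise form: a point of the support of `φ₁ ⋆ φ₂` is a product. -/
theorem exists_of_conv_ne_zero32 {φ₁ φ₂ : G K → ℂ} {g : G K} (hg : conv μ φ₁ φ₂ g ≠ 0) :
    ∃ y z : G K, φ₁ y ≠ 0 ∧ φ₂ z ≠ 0 ∧ g = y * z := by
  obtain ⟨y, hy, z, hz, hyz⟩ := support_conv_subset32 μ φ₁ φ₂ hg
  exact ⟨y, z, hy, hz, hyz.symm⟩

theorem hasCompactSupport_conv32 {φ₁ φ₂ : G K → ℂ} (h₁s : HasCompactSupport φ₁)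
    (h₂s : HasCompactSupport φ₂) : HasCompactSupport (conv μ φ₁ φ₂) := by
  have hK : IsCompact (tsupport φ₁ * tsupport φ₂) := h₁s.isCompact.mul h₂s.isCompact
  refine HasCompactSupport.intro hK ?_
  intro g hg
  by_contra hne
  apply hg
  obtain ⟨y, z, hy, hz, rfl⟩ := exists_of_conv_ne_zero32 hne
  exact ⟨y, subset_tsupport _ hy, z, subset_tsupport _ hz, rfl⟩

theorem continuous_conv32 (hF : IsFrame μ F) {φ₁ φ₂ : G K → ℂ} (h₁c : Continuous φ₁)
    (h₁s : HasCompactSupport φ₁) (h₂c : Continuous φ₂) : Continuous (conv μ φ₁ φ₂) := by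
  have : BorelSpace (G K) := H277.borelSpaceG277
  have := hF.haar
  rw [← continuousOn_univ]
  unfold conv
  apply continuousOn_integral_of_compact_support (k := tsupport φ₁) h₁s.isCompact
  · apply Continuous.continuousOn
    have c1 : Continuous fun p : G K × G K => φ₁ p.2 := h₁c.comp continuous_snd
    have c2 : Continuous fun p : G K × G K => φ₂ (p.2⁻¹ * p.1) :=
      h₂c.comp ((continuous_inv.comp continuous_snd).mul continuous_fst)
    exact c1.mul c2
  · intro p y _ hy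
    rw [image_eq_zero_of_notMem_tsupport hy]
    simp

/-! ## The adjoint -/

theorem adjointFn_adjointFn32 (φ : G K → ℂ) : adjointFn (adjointFn φ) = φ := by
  funext g
  simp [adjointFn]

theorem continuous_adjointFn32 {φ : G K → ℂ} (h : Continuous φ) : Continuous (adjointFn φ) := by
  unfold adjointFn
  exact Complex.continuous_conj.comp (h.comp continuous_inv)

theorem hasCompactSupport_adjointFn32 {φ : G K → ℂ} (h : HasCompactSupport φ) :
    HasCompactSupport (adjointFn φ) := by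
  have h1 : HasCompactSupport (fun g : G K => φ g⁻¹) :=
    h.comp_homeomorph (Homeomorph.inv (G K))
  have h2 : adjointFn φ = (fun z : ℂ => conj z) ∘ (fun g : G K => φ g⁻¹) := rfl
  rw [h2]
  exact h1.comp_left (by simp)

/-- `(φ₁ ⋆ φ₂)* = φ₂* ⋆ φ₁*` (left invariance of the Haar measure). -/
theorem adjointFn_conv32 (hF : IsFrame μ F) (φ₁ φ₂ : G K → ℂ) :
    adjointFn (conv μ φ₁ φ₂) = conv μ (adjointFn φ₂) (adjointFn φ₁) := by
  have : BorelSpace (G K) := H277.borelSpaceG277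
  have := hF.haar
  funext g
  unfold adjointFn conv
  rw [← integral_conj]
  have h := integral_mul_left_eq_self (μ := μ)
    (fun y => conj (φ₂ y⁻¹) * conj (φ₁ (y⁻¹ * g)⁻¹)) g
  rw [← h]
  congr 1
  funext y
  simp only [map_mul, mul_inv_rev, inv_inv, inv_mul_cancel_left]
  rw [mul_comm]

/-! ## The two-sided ideal -/

/-- `R(β) Ψ` is Borel invariant if `Ψ` is. -/
theorem isBorelInvariantFn_Rconv32 (hF : IsFrame μ F) {β Ψ : G K → ℂ} (hβc : Continuous β)
    (hβs : HasCompactSupport β) (hΨ : IsBorelInvariantFn Ψ) :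
    IsBorelInvariantFn (Rconv μ β Ψ) := by
  refine ⟨H277.continuous_Rconv277 hF hβc hβs hΨ.cont, ?_, ?_, ?_⟩
  · intro n x hn g
    unfold Rconv
    congr 1
    funext y
    rw [mul_assoc, hΨ.unip n x hn]
  · intro t a b ht g
    unfold Rconv
    congr 1
    funext y
    rw [mul_assoc, hΨ.torus t a b ht]
  · obtain ⟨r, hr, hΨr⟩ := hΨ.ray
    refine ⟨r, hr, fun g => ?_⟩
    unfold Rconv
    congr 1
    funext y
    rw [mul_assoc, H277.ray_comm277 hr y, ← mul_assoc, hΨr]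

/-- **Left ideal**: `φ` Eisenstein-killing ⟹ `β ⋆ φ` Eisenstein-killing. -/
theorem isEK_conv_right32 (hF : IsFrame μ F) {β φ : G K → ℂ} (hβc : Continuous β)
    (hβs : HasCompactSupport β) (hφc : Continuous φ) (hφs : HasCompactSupport φ)
    (hφ : IsEK μ φ) : IsEK μ (conv μ β φ) := by
  intro Ψ hΨ x
  rw [← H277.Rconv_Rconv277 hF hβc hβs hφc hφs hΨ.cont x]
  unfold Rconv
  have h0 : (fun y => β y * ∫ u, φ u * Ψ (x * y * u) ∂μ) = fun _ => (0 : ℂ) := by
    funext y
    have := hφ Ψ hΨ (x * y)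
    unfold Rconv at this
    rw [this, mul_zero]
  rw [h0]
  simp

/-- **Right ideal**: `φ` Eisenstein-killing ⟹ `φ ⋆ β` Eisenstein-killing. -/
theorem isEK_conv_left32 (hF : IsFrame μ F) {β φ : G K → ℂ} (hβc : Continuous β)
    (hβs : HasCompactSupport β) (hφc : Continuous φ) (hφs : HasCompactSupport φ)
    (hφ : IsEK μ φ) : IsEK μ (conv μ φ β) := by
  intro Ψ hΨ x
  rw [← H277.Rconv_Rconv277 hF hφc hφs hβc hβs hΨ.cont x]
  exact hφ (Rconv μ β Ψ) (isBorelInvariantFn_Rconv32 hF hβc hβs hΨ) x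

/-- The adjoint of `φ ⋆ β` is Eisenstein-killing if the adjoint of `φ` is. -/
theorem isEK_adjoint_conv_left32 (hF : IsFrame μ F) {β φ : G K → ℂ} (hβc : Continuous β)
    (hβs : HasCompactSupport β) (hφc : Continuous φ) (hφs : HasCompactSupport φ)
    (hφ : IsEK μ (adjointFn φ)) : IsEK μ (adjointFn (conv μ φ β)) := by
  rw [adjointFn_conv32 hF]
  exact isEK_conv_right32 hF (continuous_adjointFn32 hβc) (hasCompactSupport_adjointFn32 hβs)
    (continuous_adjointFn32 hφc) (hasCompactSupport_adjointFn32 hφs) hφ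

/-- The adjoint of `β ⋆ φ` is Eisenstein-killing if the adjoint of `φ` is. -/
theorem isEK_adjoint_conv_right32 (hF : IsFrame μ F) {β φ : G K → ℂ} (hβc : Continuous β)
    (hβs : HasCompactSupport β) (hφc : Continuous φ) (hφs : HasCompactSupport φ)
    (hφ : IsEK μ (adjointFn φ)) : IsEK μ (adjointFn (conv μ β φ)) := by
  rw [adjointFn_conv32 hF]
  exact isEK_conv_left32 hF (continuous_adjointFn32 hβc) (hasCompactSupport_adjointFn32 hβs)
    (continuous_adjointFn32 hφc) (hasCompactSupport_adjointFn32 hφs) hφ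

/-! ## Associativity -/

/-- `(a ⋆ b) ⋆ c = a ⋆ (b ⋆ c)` for continuous functions, `a` and `b` with compact support. -/
theorem conv_assoc32 (hF : IsFrame μ F) {a b c : G K → ℂ} (hac : Continuous a)
    (has : HasCompactSupport a) (hbc : Continuous b) (hbs : HasCompactSupport b)
    (hcc : Continuous c) : conv μ (conv μ a b) c = conv μ a (conv μ b c) := by
  have : BorelSpace (G K) := H277.borelSpaceG277
  have := hF.haar
  funext g
  -- `(a ⋆ (b ⋆ c)) g = R(a) (R(b) ψ) 1` and `((a ⋆ b) ⋆ c) g = R(a ⋆ b) ψ 1`, `ψ x = c (x⁻¹ g)`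
  have key := H277.Rconv_Rconv277 hF hac has hbc hbs
    (ψ := fun x => c (x⁻¹ * g)) (hcc.comp (continuous_inv.mul continuous_const)) 1
  unfold Rconv at key
  simp only [one_mul] at key
  unfold conv
  unfold conv at key
  rw [← key]
  congr 1
  funext y
  congr 2
  funext u
  simp only [mul_inv_rev, mul_assoc]

end Fermat.Agent.LT.T5.H32

end

end
-- ===== PACK-END LT/T5/H32/EKIdeal.lean

-- ===== PACK-BEGIN LT/T7/H16/Pair.lean
section





/-!
# Row LT, tower T7, asset T7.L2.R (helper16): matrix coefficients of right translates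

OFF-MAIN.  For a continuous bounded function `ψ` on `GL₂(𝔸_K)` which is left invariant under
`GL₂(K)` and right invariant under the ray generator, and a frame `(μ, F)`:

    P16 μ F ψ a b = ⟨R(a) ψ, R(b) ψ⟩ = ∫_F ψ(x a) conj ψ(x b) dμ(x).

* `P16_mul_left` : `P (h a) (h b) = P a b` (translation invariance of `∫_F`, helper277);
* `P16_conj` : `conj (P a b) = P b a`;
* `P16_self` : `P a a = N` (a real number `≥ 0`), `norm_P16_le` : `‖P a b‖ ≤ N`;
* `innerD_sum_left16`, `innerD_sum_right16`, `innerD_const_mul_left16`,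
  `innerD_const_mul_right16` : sesquilinearity of `T5.innerD` on continuous bounded functions.
-/

set_option autoImplicit false

open IsDedekindDomain NumberField MeasureTheory
open scoped ComplexConjugate

noncomputable section

namespace Fermat.Agent.LT.T7.H16

open Fermat.Agent.LT.H556.A0 Fermat.Agent.LT.T5

attribute [local instance] Fermat.Agent.LT.T5.instMeasurableSpaceG

variable {K : Type} [Field K] [NumberField K]

/-- Continuous bounded functions on `GL₂(K) ⟨r⟩ \ GL₂(𝔸_K)`. -/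
structure IsAutBdd16 (r : G K) (ψ : G K → ℂ) : Prop where
  cont : Continuous ψ
  bdd : ∃ C : ℝ, ∀ g : G K, ‖ψ g‖ ≤ C
  left_inv : ∀ (γ : GL (Fin 2) K) (g : G K), ψ (ratG γ * g) = ψ g
  ray : ∀ g : G K, ψ (g * r) = ψ g

theorem isAutBdd16_of_cusp {𝔫 : Ideal (𝓞 K)} {τ : G K → ℂ} {r : G K} {ψ : G K → ℂ}
    (h : IsCuspFn 𝔫 τ r ψ) : IsAutBdd16 r ψ :=
  ⟨h.cont, h.bdd, h.aut.left_inv, h.aut.ray⟩

theorem IsAutBdd16.translate {r : G K} {ψ : G K → ℂ} (hψ : IsAutBdd16 r ψ) (hr : IsRayGen r)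
    (a : G K) : IsAutBdd16 r (fun x => ψ (x * a)) where
  cont := hψ.cont.comp (continuous_mul_const a)
  bdd := by
    obtain ⟨C, hC⟩ := hψ.bdd
    exact ⟨C, fun g => hC _⟩
  left_inv := fun γ g => by rw [mul_assoc, hψ.left_inv]
  ray := fun g => by
    have hcomm : r * a = a * r := T5.H277.ray_comm277 hr a
    rw [mul_assoc, hcomm, ← mul_assoc, hψ.ray]

theorem IsAutBdd16.const_mul {r : G K} {ψ : G K → ℂ} (hψ : IsAutBdd16 r ψ) (c : ℂ) :
    IsAutBdd16 r (fun x => c * ψ x) where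
  cont := continuous_const.mul hψ.cont
  bdd := by
    obtain ⟨C, hC⟩ := hψ.bdd
    refine ⟨‖c‖ * C, fun g => ?_⟩
    rw [norm_mul]
    exact mul_le_mul_of_nonneg_left (hC g) (norm_nonneg _)
  left_inv := fun γ g => by rw [hψ.left_inv]
  ray := fun g => by rw [hψ.ray]

variable {μ : Measure (G K)} {F : Set (G K)} {r : G K}

/-! ## Sesquilinearity of `innerD` -/

theorem integrableOn_mul_conj16 (hfin : μ F < ⊤) {e f : G K → ℂ} (hec : Continuous e)
    (hfc : Continuous f) (heb : ∃ C : ℝ, ∀ g : G K, ‖e g‖ ≤ C)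
    (hfb : ∃ C : ℝ, ∀ g : G K, ‖f g‖ ≤ C) :
    IntegrableOn (fun x => e x * conj (f x)) F μ := by
  have : BorelSpace (G K) := T5.H277.borelSpaceG277
  obtain ⟨C₁, h₁⟩ := heb
  obtain ⟨C₂, h₂⟩ := hfb
  have hcont : Continuous fun x => e x * conj (f x) :=
    hec.mul (Complex.continuous_conj.comp hfc)
  refine Measure.integrableOn_of_bounded (M := C₁ * C₂) hfin.ne hcont.aestronglyMeasurable
    (Filter.Eventually.of_forall fun g => ?_)
  rw [norm_mul, RCLike.norm_conj]
  exact mul_le_mul (h₁ g) (h₂ g) (norm_nonneg _) ((norm_nonneg _).trans (h₁ g))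

theorem innerD_sum_left16 (hfin : μ F < ⊤) {ι : Type*} (H : Finset ι) (e : ι → G K → ℂ)
    {χ : G K → ℂ} (he : ∀ i ∈ H, Continuous (e i) ∧ ∃ C : ℝ, ∀ g : G K, ‖e i g‖ ≤ C)
    (hχc : Continuous χ) (hχb : ∃ C : ℝ, ∀ g : G K, ‖χ g‖ ≤ C) :
    innerD μ F (fun x => ∑ i ∈ H, e i x) χ = ∑ i ∈ H, innerD μ F (e i) χ := by
  unfold innerD
  simp only [Finset.sum_mul]
  rw [integral_finsetSum]
  intro i hi
  exact integrableOn_mul_conj16 hfin (he i hi).1 hχc (he i hi).2 hχb

theorem innerD_sum_right16 (hfin : μ F < ⊤) {ι : Type*} (H : Finset ι) (e : ι → G K → ℂ)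
    {χ : G K → ℂ} (he : ∀ i ∈ H, Continuous (e i) ∧ ∃ C : ℝ, ∀ g : G K, ‖e i g‖ ≤ C)
    (hχc : Continuous χ) (hχb : ∃ C : ℝ, ∀ g : G K, ‖χ g‖ ≤ C) :
    innerD μ F χ (fun x => ∑ i ∈ H, e i x) = ∑ i ∈ H, innerD μ F χ (e i) := by
  unfold innerD
  simp only [map_sum, Finset.mul_sum]
  rw [integral_finsetSum]
  intro i hi
  exact integrableOn_mul_conj16 hfin hχc (he i hi).1 hχb (he i hi).2

theorem innerD_const_mul_left16 (c : ℂ) (e f : G K → ℂ) :
    innerD μ F (fun x => c * e x) f = c * innerD μ F e f := by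
  unfold innerD
  simp only [mul_assoc]
  exact integral_const_mul c _

theorem innerD_const_mul_right16 (c : ℂ) (e f : G K → ℂ) :
    innerD μ F e (fun x => c * f x) = conj c * innerD μ F e f := by
  unfold innerD
  have : (fun x => e x * conj (c * f x)) = fun x => conj c * (e x * conj (f x)) := by
    funext x
    rw [map_mul]
    ring
  rw [this]
  exact integral_const_mul (conj c) _

theorem innerD_conj16 (e f : G K → ℂ) : conj (innerD μ F e f) = innerD μ F f e := by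
  unfold innerD
  rw [← integral_conj]
  congr 1
  funext x
  rw [map_mul, Complex.conj_conj, mul_comm]

/-- `⟨e, e⟩` is the integral of `‖e‖²`. -/
theorem innerD_self16 (e : G K → ℂ) :
    innerD μ F e e = ((∫ x in F, ‖e x‖ ^ 2 ∂μ : ℝ) : ℂ) := by
  unfold innerD
  rw [← integral_complex_ofReal]
  congr 1
  funext x
  rw [Complex.mul_conj']
  push_cast
  rfl

theorem norm_innerD_le16 (hfin : μ F < ⊤) {e f : G K → ℂ} (hec : Continuous e)
    (hfc : Continuous f) (heb : ∃ C : ℝ, ∀ g : G K, ‖e g‖ ≤ C)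
    (hfb : ∃ C : ℝ, ∀ g : G K, ‖f g‖ ≤ C) :
    ‖innerD μ F e f‖ ≤ ((∫ x in F, ‖e x‖ ^ 2 ∂μ) + ∫ x in F, ‖f x‖ ^ 2 ∂μ) / 2 := by
  have : BorelSpace (G K) := T5.H277.borelSpaceG277
  have hsq : ∀ {u : G K → ℂ}, Continuous u → (∃ C : ℝ, ∀ g : G K, ‖u g‖ ≤ C) →
      IntegrableOn (fun x => ‖u x‖ ^ 2) F μ := by
    intro u huc hub
    obtain ⟨C, hC⟩ := hub
    have hcont : Continuous fun x => ‖u x‖ ^ 2 := (continuous_norm.comp huc).pow 2
    refine Measure.integrableOn_of_bounded (M := C ^ 2) hfin.ne hcont.aestronglyMeasurable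
      (Filter.Eventually.of_forall fun g => ?_)
    rw [Real.norm_eq_abs, abs_of_nonneg (by positivity)]
    exact pow_le_pow_left₀ (norm_nonneg _) (hC g) 2
  have h1 : ‖innerD μ F e f‖ ≤ ∫ x in F, ‖e x * conj (f x)‖ ∂μ :=
    norm_integral_le_integral_norm _
  have h2 : ∫ x in F, ‖e x * conj (f x)‖ ∂μ
      ≤ ∫ x in F, (‖e x‖ ^ 2 + ‖f x‖ ^ 2) / 2 ∂μ := by
    apply integral_mono
    · exact (integrableOn_mul_conj16 hfin hec hfc heb hfb).norm
    · exact ((hsq hec heb).add (hsq hfc hfb)).div_const 2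
    · intro x
      show ‖e x * conj (f x)‖ ≤ (‖e x‖ ^ 2 + ‖f x‖ ^ 2) / 2
      rw [norm_mul, RCLike.norm_conj]
      nlinarith [sq_nonneg (‖e x‖ - ‖f x‖)]
  have h3 : ∫ x in F, (‖e x‖ ^ 2 + ‖f x‖ ^ 2) / 2 ∂μ
      = ((∫ x in F, ‖e x‖ ^ 2 ∂μ) + ∫ x in F, ‖f x‖ ^ 2 ∂μ) / 2 := by
    rw [integral_div, integral_add (hsq hec heb) (hsq hfc hfb)]
  rw [← h3]
  exact h1.trans h2

/-! ## The matrix coefficients -/

/-- `⟨R(a) ψ, R(b) ψ⟩`. -/
def P16 (μ : Measure (G K)) (F : Set (G K)) (ψ : G K → ℂ) (a b : G K) : ℂ :=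
  innerD μ F (fun x => ψ (x * a)) (fun x => ψ (x * b))

theorem P16_one_one (ψ : G K → ℂ) : P16 μ F ψ 1 1 = innerD μ F ψ ψ := by
  unfold P16
  simp only [mul_one]

theorem P16_mul_left (hN : T1.AdNormC K) (hF : IsFrame μ F) (hr : IsRayGen r) {ψ : G K → ℂ}
    (hψ : IsAutBdd16 r ψ) (h a b : G K) : P16 μ F ψ (h * a) (h * b) = P16 μ F ψ a b := by
  have ha := hψ.translate hr a
  have hb := hψ.translate hr b
  have := T7.H277.innerD_mul_right277 hN hF hr ha.cont hb.cont ha.bdd hb.bdd ha.left_inv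
    hb.left_inv ha.ray hb.ray h
  unfold P16
  simp only [mul_assoc] at this
  exact this

theorem P16_conj (ψ : G K → ℂ) (a b : G K) : conj (P16 μ F ψ a b) = P16 μ F ψ b a :=
  innerD_conj16 _ _

theorem P16_congr_left {ψ : G K → ℂ} {a a' : G K} (h : ∀ x : G K, ψ (x * a) = ψ (x * a'))
    (b : G K) : P16 μ F ψ a b = P16 μ F ψ a' b := by
  unfold P16
  congr 1
  funext x
  exact h x

theorem P16_congr_right {ψ : G K → ℂ} {b b' : G K} (h : ∀ x : G K, ψ (x * b) = ψ (x * b'))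
    (a : G K) : P16 μ F ψ a b = P16 μ F ψ a b' := by
  unfold P16
  congr 1
  funext x
  exact h x

/-- `⟨R(a) ψ, R(a) ψ⟩ = ⟨ψ, ψ⟩`. -/
theorem P16_self (hN : T1.AdNormC K) (hF : IsFrame μ F) (hr : IsRayGen r) {ψ : G K → ℂ}
    (hψ : IsAutBdd16 r ψ) (a : G K) : P16 μ F ψ a a = innerD μ F ψ ψ := by
  have := P16_mul_left hN hF hr hψ a 1 1
  rw [mul_one] at this
  rw [this, P16_one_one]

theorem norm_P16_le (hN : T1.AdNormC K) (hF : IsFrame μ F) (hr : IsRayGen r) {ψ : G K → ℂ}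
    (hψ : IsAutBdd16 r ψ) (a b : G K) :
    ‖P16 μ F ψ a b‖ ≤ ∫ x in F, ‖ψ x‖ ^ 2 ∂μ := by
  have ha := hψ.translate hr a
  have hb := hψ.translate hr b
  have h := norm_innerD_le16 hF.finite ha.cont hb.cont ha.bdd hb.bdd
  have e : ∀ c : G K, ∫ x in F, ‖ψ (x * c)‖ ^ 2 ∂μ = ∫ x in F, ‖ψ x‖ ^ 2 ∂μ := by
    intro c
    have h1 := P16_self hN hF hr hψ c
    unfold P16 at h1
    rw [innerD_self16, innerD_self16] at h1
    exact Complex.ofReal_injective h1
  rw [e a, e b] at h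
  unfold P16
  linarith

end Fermat.Agent.LT.T7.H16

end

end
-- ===== PACK-END LT/T7/H16/Pair.lean

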