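import Mathlib
import Fermat.Agent.Pack.LT3.E8L2
import Fermat.Agent.Pack.LT2.E9L3
import Fermat.Agent.Pack.LT2.E2L3
import Fermat.Agent.Pack.LT3.E15L0
import Fermat.Agent.Pack.LT3.E3L1
import Fermat.Agent.Pack.LT2.E0L1
import Fermat.Agent.Pack.LT3.E15L1
import Fermat.Agent.Pack.LT3.E0L0
import Fermat.Agent.Pack.LT3.E9L1
import Fermat.Agent.Pack.LT3.E5L1
import Fermat.Agent.Pack.LT3.E5L0
import Fermat.Agent.Pack.LT3.E15L2
import Fermat.Agent.Pack.LT3.E9L0
import Fermat.Agent.Pack.LT3.E9L3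
import Fermat.Agent.Pack.LT3.E16L2
import Fermat.Agent.Pack.LT3.E12L3
import Fermat.Agent.Pack.LT3.E13L2
import Fermat.Agent.Pack.LT3.E12L2
import Fermat.Agent.Pack.LT3.E16L0
import Fermat.Agent.Pack.LT3.E16L3
import Fermat.Agent.Pack.LT3.E17L1

set_option linter.all false

-- ===== PACK-BEGIN LT/T2/H972/CommConvHecke.lean
section




/-!
# Row LT, tower T2, sub-leaf T2.07.11 `SubCommConvHecke429` (helper972)

OFF-MAIN.  On `LT/T2/H429/OpsSpec.lean` (helper429, sha256 657e0d9a), `LT/T2/Spec.lean`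
(helper130, 43969e81), `LT/T1/Spec.lean` (eba1c6dc), `LT/H556/A0.lean` (66d3374a) and the library
`LT/H129/*` of helper129 (origin/helper129@6c248c692), all byte-identical copies.

`subCommConvHecke972 : SubCommConvHecke429 K` — a convolution by a spherical test function commutes
with a Hecke sum at a place `v ∤ 𝔫`, on the cusp functions of level `U(𝔫)`.

Proof (Gelfand's trick at `v`).
* `tr972` is the transposition of `GL₂(K_v)`; by the Cartan decomposition (`cartan129`) a function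
  on `GL₂(𝔸_K)` which is bi-invariant under `GL₂(𝒪_v)` is invariant under the transposition of
  the component at `v` (`tau_inv972`).
* every Hecke coset system can be moved, by right multiplication with elements of `GL₂(𝒪_v)`, to
  a coset system of SYMMETRIC elements `k₁ d k₁ᵀ` (`exists_sym972`); the Hecke sum of a function
  of level `U(𝔫)` does not depend on the system (`heckeSum_indep_level129`).
* for a symmetric system `S` and a bi-`GL₂(𝒪_v)`-invariant `f`:
  `∑_{h ∈ S} f (y h⁻¹) = ∑_{h ∈ S} f (h⁻¹ y)` for every `y` (`sym_sum972`).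
* the Haar measure is left and right invariant (`T1.UnimodC`), and the integrands are continuous
  with compact support, so the finite sums and the integral may be exchanged.
-/

set_option autoImplicit false

open IsDedekindDomain NumberField MeasureTheory
open Fermat.Agent.LT.H556.A0
open Fermat.Agent.LT.T2
open Fermat.Agent.LT.T2.H429
open Fermat.Agent.LT.H129

noncomputable section

namespace Fermat.Agent.LT.T2.H972

/-! ## 1. The transposition of `GL₂(F)` -/

section Local

variable {F : Type*} [Field F]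

/-- The transposition of `GL₂(F)`. -/
def tr972 (g : GL (Fin 2) F) : GL (Fin 2) F where
  val := (g : Matrix (Fin 2) (Fin 2) F).transpose
  inv := ((g⁻¹ : GL (Fin 2) F) : Matrix (Fin 2) (Fin 2) F).transpose
  val_inv := by
    rw [← Matrix.transpose_mul, ← Matrix.GeneralLinearGroup.coe_mul, inv_mul_cancel]
    simp
  inv_val := by
    rw [← Matrix.transpose_mul, ← Matrix.GeneralLinearGroup.coe_mul, mul_inv_cancel]
    simp

theorem coe_tr972 (g : GL (Fin 2) F) :
    ((tr972 g : GL (Fin 2) F) : Matrix (Fin 2) (Fin 2) F)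
      = (g : Matrix (Fin 2) (Fin 2) F).transpose := rfl

theorem tr972_mul (a b : GL (Fin 2) F) : tr972 (a * b) = tr972 b * tr972 a := by
  apply Units.ext
  simp only [coe_tr972, Matrix.transpose_mul, Units.val_mul]

theorem tr972_one : tr972 (1 : GL (Fin 2) F) = 1 := by
  apply Units.ext
  simp [coe_tr972]

theorem tr972_inv (a : GL (Fin 2) F) : tr972 a⁻¹ = (tr972 a)⁻¹ := by
  rw [eq_inv_iff_mul_eq_one, ← tr972_mul, mul_inv_cancel, tr972_one]

theorem tr972_tr972 (a : GL (Fin 2) F) : tr972 (tr972 a) = a := by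
  apply Units.ext
  simp [coe_tr972]

theorem isInt129_tr972 {O : ValuationSubring F} {g : GL (Fin 2) F} (hg : IsInt129 O g) :
    IsInt129 O (tr972 g) := fun i j => hg j i

theorem isMaxCpt129_tr972 {O : ValuationSubring F} {g : GL (Fin 2) F} (hg : IsMaxCpt129 O g) :
    IsMaxCpt129 O (tr972 g) := by
  refine ⟨isInt129_tr972 hg.1, ?_⟩
  rw [← tr972_inv]
  exact isInt129_tr972 hg.2

theorem tr972_diag129 (x y : F) (hx : x ≠ 0) (hy : y ≠ 0) :
    tr972 (diag129 x y hx hy) = diag129 x y hx hy := by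
  apply Units.ext
  rw [coe_tr972]
  simp only [diag129, coe_mkGL129]
  ext i j
  fin_cases i <;> fin_cases j <;> simp

end Local

/-! ## 2. Elements of `GL₂(𝔸_K)` supported at `v`, bi-invariant functions -/

section Adelic

variable {K : Type} [Field K] [NumberField K] {v : HeightOneSpectrum (𝓞 K)}

/-- An element supported at `v` commutes with an element which is trivial at `v`. -/
theorem comm_local_triv972 {a b : G K} (ha : IsLocalAtFin v a) (hb : TrivAtFin v b) :
    a * b = b * a := by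
  rw [isLocalAtFin_iff129] at ha
  rw [trivAtFin_iff129] at hb
  apply G_ext129
  · intro w
    rw [map_mul, map_mul, ha.1 w, one_mul, mul_one]
  · intro v'
    rw [map_mul, map_mul]
    by_cases h : v' = v
    · subst h
      rw [hb, one_mul, mul_one]
    · rw [ha.2 v' h, one_mul, mul_one]

/-- `y = loc(y_v) · y'` with `y'` trivial at `v`. -/
theorem trivAtFin_quot972 (y : G K) :
    TrivAtFin v ((locFin129 v (finCompHom129 v y))⁻¹ * y) := by
  rw [trivAtFin_iff129, map_mul, map_inv, finCompHom129_locFin129, inv_mul_cancel]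

theorem isIntegralAt_mul972 {a b : G K} (ha : IsIntegralAt v a) (hb : IsIntegralAt v b) :
    IsIntegralAt v (a * b) := by
  rw [← isInt129_finCompHom_iff] at *
  rw [map_mul]
  exact isInt129_mul ha hb

theorem isLocalMaxCptAt_loc972 {k : GL (Fin 2) (v.adicCompletion K)}
    (hk : IsMaxCpt129 (v.adicCompletionIntegers K) k) :
    IsLocalMaxCptAt129 v (locFin129 v k) := by
  refine ⟨isLocalAtFin_locFin129 v k, ?_, ?_⟩
  · rw [← isInt129_finCompHom_iff, finCompHom129_locFin129]
    exact hk.1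
  · rw [← map_inv, ← isInt129_finCompHom_iff, finCompHom129_locFin129]
    exact hk.2

theorem isLocalMaxCptAt_inv972 {u : G K} (hu : IsLocalMaxCptAt129 v u) :
    IsLocalMaxCptAt129 v u⁻¹ :=
  ⟨isLocalAtFin_inv129 hu.1, hu.2.2, by rw [inv_inv]; exact hu.2.1⟩

theorem isLocalMaxCptAt_mul972 {u u' : G K} (hu : IsLocalMaxCptAt129 v u)
    (hu' : IsLocalMaxCptAt129 v u') : IsLocalMaxCptAt129 v (u * u') :=
  ⟨isLocalAtFin_mul129 hu.1 hu'.1, isIntegralAt_mul972 hu.2.1 hu'.2.1, by
    rw [mul_inv_rev]; exact isIntegralAt_mul972 hu'.2.2 hu.2.2⟩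

theorem finComp_mul972 (a b : G K) : finComp v (a * b) = finComp v a * finComp v b := by
  rw [← coe_finCompHom129, ← coe_finCompHom129, ← coe_finCompHom129, map_mul]
  rfl

/-- The determinant of an element of `GL₂(𝒪_v)` is a unit. -/
theorem valued_det_maxCpt972 {u : G K} (hu : IsLocalMaxCptAt129 v u) :
    Valued.v (finComp v u).det = 1 := by
  have h1 : Valued.v (finComp v u).det ≤ 1 := by
    have := det_mem_of_isInt129 ((isInt129_finCompHom_iff v u).mpr hu.2.1)
    exact (HeightOneSpectrum.mem_adicCompletionIntegers (𝓞 K) K v).mp this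
  have h2 : Valued.v (finComp v u⁻¹).det ≤ 1 := by
    have := det_mem_of_isInt129 ((isInt129_finCompHom_iff v u⁻¹).mpr hu.2.2)
    exact (HeightOneSpectrum.mem_adicCompletionIntegers (𝓞 K) K v).mp this
  have h3 : Valued.v (finComp v u).det * Valued.v (finComp v u⁻¹).det = 1 := by
    rw [← map_mul, ← Matrix.det_mul, ← finComp_mul972, mul_inv_cancel]
    have : finComp v (1 : G K) = 1 := by
      rw [← coe_finCompHom129, map_one]
      rfl
    rw [this, Matrix.det_one, map_one]
  refine le_antisymm h1 ?_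
  calc (1 : WithZero (Multiplicative ℤ))
      = Valued.v (finComp v u).det * Valued.v (finComp v u⁻¹).det := h3.symm
    _ ≤ Valued.v (finComp v u).det := mul_le_of_le_one_right' h2

/-- Bi-invariance under `GL₂(𝒪_v)`. -/
def BiInv972 (v : HeightOneSpectrum (𝓞 K)) (Φ : G K → ℂ) : Prop :=
  (∀ u : G K, IsLocalMaxCptAt129 v u → ∀ g : G K, Φ (g * u) = Φ g) ∧
    ∀ u : G K, IsLocalMaxCptAt129 v u → ∀ g : G K, Φ (u * g) = Φ g

/-- **Gelfand's trick**: a function which is bi-invariant under `GL₂(𝒪_v)` is invariant under the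
transposition of the component at `v` (Cartan decomposition). -/
theorem tau_inv972 {Φ : G K → ℂ} (hΦ : BiInv972 v Φ) (x : GL (Fin 2) (v.adicCompletion K))
    {y' : G K} (hy' : TrivAtFin v y') :
    Φ (locFin129 v (tr972 x) * y') = Φ (locFin129 v x * y') := by
  obtain ⟨k₁, k₂, a, b, ha, hb, hk₁, hk₂, -, hx⟩ := cartan129 (v.adicCompletionIntegers K) x
  have key : ∀ (u₁ u₂ d : GL (Fin 2) (v.adicCompletion K)),
      IsMaxCpt129 (v.adicCompletionIntegers K) u₁ →
      IsMaxCpt129 (v.adicCompletionIntegers K) u₂ →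
      Φ (locFin129 v (u₁ * d * u₂) * y') = Φ (locFin129 v d * y') := by
    intro u₁ u₂ d h₁ h₂
    rw [map_mul, map_mul, mul_assoc, mul_assoc, hΦ.2 _ (isLocalMaxCptAt_loc972 h₁),
      comm_local_triv972 (isLocalAtFin_locFin129 v u₂) hy', ← mul_assoc,
      hΦ.1 _ (isLocalMaxCptAt_loc972 h₂)]
  rw [hx, tr972_mul, tr972_mul, tr972_diag129, ← mul_assoc,
    key _ _ _ (isMaxCpt129_tr972 hk₂) (isMaxCpt129_tr972 hk₁), key _ _ _ hk₁ hk₂]

/-! ## 3. Translates of Hecke coset systems -/

open scoped Classical in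
/-- The left translate of a Hecke coset system by an element of `GL₂(𝒪_v)`. -/
theorem isHeckeCosetSystem_left972 {H : Finset (G K)} (hH : IsHeckeCosetSystem v H) {u : G K}
    (hu : IsLocalMaxCptAt129 v u) : IsHeckeCosetSystem v (H.image fun h => u * h) := by
  obtain ⟨hcard, hmem, hne⟩ := hH
  refine ⟨?_, ?_, ?_⟩
  · rw [Finset.card_image_of_injective _ (mul_right_injective u), hcard]
  · intro g hg
    obtain ⟨h, hh, rfl⟩ := Finset.mem_image.mp hg
    obtain ⟨h1, h2, h3⟩ := hmem h hh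
    refine ⟨isLocalAtFin_mul129 hu.1 h1, isIntegralAt_mul972 hu.2.1 h2, ?_⟩
    rw [finComp_mul972, Matrix.det_mul, map_mul, valued_det_maxCpt972 hu, one_mul, h3]
  · intro g hg g' hg' hgg'
    obtain ⟨h, hh, rfl⟩ := Finset.mem_image.mp hg
    obtain ⟨h', hh', rfl⟩ := Finset.mem_image.mp hg'
    have e : (u * h)⁻¹ * (u * h') = h⁻¹ * h' := by group
    rw [e]
    exact hne h hh h' hh' (fun e' => hgg' (by rw [e']))

open scoped Classical in
/-- A right translate of a Hecke coset system by elements of `GL₂(𝒪_v)`. -/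
theorem isHeckeCosetSystem_right972 {H : Finset (G K)} (hH : IsHeckeCosetSystem v H)
    (u : G K → G K) (hu : ∀ h ∈ H, IsLocalMaxCptAt129 v (u h)) :
    IsHeckeCosetSystem v (H.image fun h => h * u h) := by
  obtain ⟨hcard, hmem, hne⟩ := hH
  have hinj : Set.InjOn (fun h => h * u h) (H : Set (G K)) := by
    intro h hh h' hh' e
    by_contra hcon
    apply hne h hh h' hh' hcon
    have e' : h⁻¹ * h' = u h * (u h')⁻¹ := by
      have e1 : h * u h = h' * u h' := e
      calc h⁻¹ * h' = h⁻¹ * (h' * u h') * (u h')⁻¹ := by group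
        _ = h⁻¹ * (h * u h) * (u h')⁻¹ := by rw [e1]
        _ = u h * (u h')⁻¹ := by group
    rw [e']
    exact isIntegralAt_mul972 (hu h hh).2.1 (hu h' hh').2.2
  refine ⟨?_, ?_, ?_⟩
  · rw [Finset.card_image_of_injOn hinj, hcard]
  · intro g hg
    obtain ⟨h, hh, rfl⟩ := Finset.mem_image.mp hg
    obtain ⟨h1, h2, h3⟩ := hmem h hh
    refine ⟨isLocalAtFin_mul129 h1 (hu h hh).1, isIntegralAt_mul972 h2 (hu h hh).2.1, ?_⟩
    rw [finComp_mul972, Matrix.det_mul, map_mul, valued_det_maxCpt972 (hu h hh), mul_one, h3]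
  · intro g hg g' hg' hgg' hint
    obtain ⟨h, hh, rfl⟩ := Finset.mem_image.mp hg
    obtain ⟨h', hh', rfl⟩ := Finset.mem_image.mp hg'
    have hh_ne : h ≠ h' := fun e' => hgg' (by rw [e'])
    apply hne h hh h' hh' hh_ne
    have e : h⁻¹ * h' = u h * ((h * u h)⁻¹ * (h' * u h')) * (u h')⁻¹ := by group
    rw [e]
    exact isIntegralAt_mul972 (isIntegralAt_mul972 (hu h hh).2.1 hint) (hu h' hh').2.2

/-- **Symmetric Hecke coset systems exist**: `k₁ d k₂ ↦ k₁ d k₁ᵀ`. -/
theorem exists_sym972 {H : Finset (G K)} (hH : IsHeckeCosetSystem v H) :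
    ∃ S : Finset (G K), IsHeckeCosetSystem v S ∧
      ∀ h ∈ S, tr972 (finCompHom129 v h) = finCompHom129 v h := by
  classical
  have key : ∀ h : G K, ∃ u : G K, IsLocalMaxCptAt129 v u ∧
      tr972 (finCompHom129 v (h * u)) = finCompHom129 v (h * u) := by
    intro h
    obtain ⟨k₁, k₂, a, b, ha, hb, hk₁, hk₂, -, hx⟩ :=
      cartan129 (v.adicCompletionIntegers K) (finCompHom129 v h)
    refine ⟨locFin129 v (k₂⁻¹ * tr972 k₁),
      isLocalMaxCptAt_loc972 (isMaxCpt129_mul (isMaxCpt129_inv hk₂) (isMaxCpt129_tr972 hk₁)), ?_⟩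
    have e : finCompHom129 v (h * locFin129 v (k₂⁻¹ * tr972 k₁))
        = k₁ * diag129 a b ha hb * tr972 k₁ := by
      rw [map_mul, finCompHom129_locFin129, hx]
      group
    rw [e, tr972_mul, tr972_mul, tr972_tr972, tr972_diag129, mul_assoc]
  choose u hu hsym using key
  refine ⟨H.image fun h => h * u h, isHeckeCosetSystem_right972 hH u (fun h _ => hu h), ?_⟩
  intro g hg
  obtain ⟨h, -, rfl⟩ := Finset.mem_image.mp hg
  exact hsym h

/-! ## 4. The identity for a symmetric coset system -/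

/-- `y ↦ ∑_{h ∈ H} f (h⁻¹ y)` is bi-invariant under `GL₂(𝒪_v)`. -/
theorem biInv_leftSum972 {H : Finset (G K)} (hH : IsHeckeCosetSystem v H) {f : G K → ℂ}
    (hf : BiInv972 v f) : BiInv972 v (fun y => ∑ h ∈ H, f (h⁻¹ * y)) := by
  classical
  refine ⟨fun u hu g => ?_, fun u hu g => ?_⟩
  · refine Finset.sum_congr rfl fun h _ => ?_
    rw [← mul_assoc, hf.1 u hu]
  · have hθ : ∀ w : G K, IsLocalMaxCptAt129 v w → ∀ a : G K,
        (fun a => f (a⁻¹ * g)) (a * w) = (fun a => f (a⁻¹ * g)) a := by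
      intro w hw a
      show f ((a * w)⁻¹ * g) = f (a⁻¹ * g)
      rw [mul_inv_rev, mul_assoc, hf.2 _ (isLocalMaxCptAt_inv972 hw)]
    have h1 := heckeSum_indep129 (isHeckeCosetSystem_left972 hH (isLocalMaxCptAt_inv972 hu)) hH
      (fun a => f (a⁻¹ * g)) hθ 1
    rw [Finset.sum_image (fun a _ b _ e => mul_right_injective _ e)] at h1
    simp only [one_mul] at h1
    show ∑ h ∈ H, f (h⁻¹ * (u * g)) = ∑ h ∈ H, f (h⁻¹ * g)
    rw [← h1]
    refine Finset.sum_congr rfl fun h _ => ?_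
    congr 1
    group

/-- **The identity of Gelfand's trick** for a coset system of symmetric elements. -/
theorem sym_sum972 {S : Finset (G K)} (hS : IsHeckeCosetSystem v S)
    (hsym : ∀ h ∈ S, tr972 (finCompHom129 v h) = finCompHom129 v h) {f : G K → ℂ}
    (hf : BiInv972 v f) (y : G K) :
    ∑ h ∈ S, f (y * h⁻¹) = ∑ h ∈ S, f (h⁻¹ * y) := by
  obtain ⟨x, y', hy, ht⟩ : ∃ (x : GL (Fin 2) (v.adicCompletion K)) (y' : G K),
      y = locFin129 v x * y' ∧ TrivAtFin v y' :=
    ⟨finCompHom129 v y, (locFin129 v (finCompHom129 v y))⁻¹ * y, by group,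
      trivAtFin_quot972 y⟩
  have h1 : ∀ h ∈ S, f (y * h⁻¹) = f (h⁻¹ * (locFin129 v (tr972 x) * y')) := by
    intro h hh
    obtain ⟨s, hs⟩ : ∃ s : GL (Fin 2) (v.adicCompletion K), h = locFin129 v s :=
      ⟨_, eq_locFin129_of_isLocalAtFin (hS.2.1 h hh).1⟩
    have hss : tr972 s = s := by
      have := hsym h hh
      rwa [hs, finCompHom129_locFin129] at this
    have hc : y' * (locFin129 v s)⁻¹ = (locFin129 v s)⁻¹ * y' :=
      (comm_local_triv972 (isLocalAtFin_inv129 (isLocalAtFin_locFin129 v s)) ht).symm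
    calc f (y * h⁻¹) = f (locFin129 v x * y' * (locFin129 v s)⁻¹) := by rw [hy, hs]
      _ = f (locFin129 v (x * s⁻¹) * y') := by
          rw [mul_assoc, hc, ← mul_assoc, map_mul, map_inv]
      _ = f (locFin129 v (tr972 (x * s⁻¹)) * y') := (tau_inv972 hf _ ht).symm
      _ = f (locFin129 v (s⁻¹ * tr972 x) * y') := by rw [tr972_mul, tr972_inv, hss]
      _ = f (h⁻¹ * (locFin129 v (tr972 x) * y')) := by
          rw [map_mul, map_inv, ← hs, mul_assoc]
  rw [Finset.sum_congr rfl h1]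
  have h2 : ∑ h ∈ S, f (h⁻¹ * (locFin129 v (tr972 x) * y'))
      = ∑ h ∈ S, f (h⁻¹ * (locFin129 v x * y')) :=
    tau_inv972 (biInv_leftSum972 hS hf) x ht
  rw [h2, ← hy]

end Adelic

/-! ## 5. The commutation -/

section Main

variable {K : Type} [Field K] [NumberField K]

attribute [local instance] Fermat.Agent.LT.T2.borelG

/-- (continuous) `×` (continuous with compact support) is integrable. -/
theorem integrable_mul972 (μ : Measure (G K)) [IsFiniteMeasureOnCompacts μ] {a b : G K → ℂ}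
    (ha : Continuous a) (hb : Continuous b) (hc : HasCompactSupport b) :
    Integrable (fun y => a y * b y) μ := by
  have : BorelSpace (G K) := ⟨rfl⟩
  exact (ha.mul hb).integrable_of_hasCompactSupport (hc.mul_left (f := a))

/-- **T2.07.11**: a convolution by a spherical test function commutes with a Hecke sum. -/
theorem subCommConvHecke972 (K : Type) [Field K] [NumberField K] : SubCommConvHecke429 K := by
  intro 𝔫 c F f hf v hv H hH φ hφ
  classical
  have : BorelSpace (G K) := ⟨rfl⟩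
  have := F.haar
  have : F.μ.IsMulRightInvariant := c.t1.unimod F.μ F.haar
  obtain ⟨S, hS, hsym⟩ := exists_sym972 hH
  have hψ : IsCuspFn 𝔫 (conv F f φ) := (c.cc F).2.2.1 f φ hf.test hφ
  have e1 : heckeSum H φ = heckeSum S φ := by
    funext g
    exact heckeSum_indep_level129 hv hH hS φ hφ.level_inv g
  have e2 : heckeSum H (conv F f φ) = heckeSum S (conv F f φ) := by
    funext g
    exact heckeSum_indep_level129 hv hH hS _ hψ.level_inv g
  rw [e1, e2]
  funext x
  show ∫ y, (∑ h ∈ S, φ (x * y * h)) * f y ∂F.μ = ∑ h ∈ S, ∫ y, φ (x * h * y) * f y ∂F.μ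
  have hfb : BiInv972 v f :=
    ⟨fun u hu g => hf.test.level_right u (inLevelGroup_of_localMaxCpt129 hv hu) g,
      fun u hu g => hf.test.level_left u (inLevelGroup_of_localMaxCpt129 hv hu) g⟩
  have hφx : Continuous fun y => φ (x * y) := hφ.cont.comp (continuous_const.mul continuous_id)
  have hL : ∫ y, (∑ h ∈ S, φ (x * y * h)) * f y ∂F.μ
      = ∫ y, φ (x * y) * ∑ h ∈ S, f (y * h⁻¹) ∂F.μ := by
    have i1 : ∀ h ∈ S, Integrable (fun y => φ (x * y * h) * f y) F.μ := fun h _ =>
      integrable_mul972 F.μ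
        (hφ.cont.comp ((continuous_const.mul continuous_id).mul continuous_const))
        hf.test.cont hf.test.cpt
    have i2 : ∀ h ∈ S, Integrable (fun y => φ (x * y) * f (y * h⁻¹)) F.μ := fun h _ =>
      integrable_mul972 F.μ hφx
        (hf.test.cont.comp (continuous_id.mul continuous_const))
        (hf.test.cpt.comp_homeomorph (Homeomorph.mulRight h⁻¹))
    simp only [Finset.sum_mul, Finset.mul_sum]
    rw [integral_finsetSum _ i1, integral_finsetSum _ i2]
    refine Finset.sum_congr rfl fun h _ => ?_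
    have := integral_mul_right_eq_self (μ := F.μ) (fun y => φ (x * y) * f (y * h⁻¹)) h
    rw [← this]
    congr 1
    funext y
    rw [mul_assoc x y h, mul_inv_cancel_right]
  have hR : ∑ h ∈ S, ∫ y, φ (x * h * y) * f y ∂F.μ
      = ∫ y, φ (x * y) * ∑ h ∈ S, f (h⁻¹ * y) ∂F.μ := by
    have i2 : ∀ h ∈ S, Integrable (fun y => φ (x * y) * f (h⁻¹ * y)) F.μ := fun h _ =>
      integrable_mul972 F.μ hφx
        (hf.test.cont.comp (continuous_const.mul continuous_id))
        (hf.test.cpt.comp_homeomorph (Homeomorph.mulLeft h⁻¹))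
    simp only [Finset.mul_sum]
    rw [integral_finsetSum _ i2]
    refine Finset.sum_congr rfl fun h _ => ?_
    have := integral_mul_left_eq_self (μ := F.μ) (fun y => φ (x * y) * f (h⁻¹ * y)) h
    rw [← this]
    congr 1
    funext y
    rw [mul_assoc x h y, inv_mul_cancel_left]
  rw [hL, hR]
  congr 1
  funext y
  rw [sym_sum972 hS hsym hfb y]

end Main

end Fermat.Agent.LT.T2.H972

end

end
-- ===== PACK-END LT/T2/H972/CommConvHecke.lean

-- ===== PACK-BEGIN LT/T6/H338/GTree.lean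
section



/-!
# Row LT, tower T6 — `GL₂(k) / k^× GL₂(𝒪)` is a tree (helper338, OFF-MAIN)

Registry row T6.13b.  `k` a field with `Valued k ℤᵐ⁰` and an element of valuation `exp (-1)`.
`gD338 x y = a - b` for `cartan (x⁻¹ y) = (a, b)` is a pre-tree-distance in the sense of
`LT/H338/TreeQuot.lean`: the quotient of `GL₂(k)` by `gD = 0` (the relation
`x⁻¹ y ∈ k^× GL₂(𝒪)`) carries a tree distance (`IsTreeDist338`).
-/

set_option autoImplicit false

open Matrix

noncomputable section

namespace Fermat.Agent.LT.H338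

open Fermat.Agent.LT.T6 Fermat.Agent.LT.H129

variable {k : Type} [Field k] [Valued k Γ₀]

theorem inU_one338 : InU 0 (1 : GL (Fin 2) k) := (inU_zero_iff129 _).2 (isMaxCpt129_one _)

theorem gd338_one : gd338 (1 : GL (Fin 2) k) = 0 := gd338_of_InU inU_one338

/-- Left invariance under the elements with `gd = 0`. -/
theorem gd338_mul_left_of_eq_zero (g : GL (Fin 2) k) {h : GL (Fin 2) k} (hh : gd338 h = 0) :
    gd338 (h * g) = gd338 g := by
  rw [← gd338_inv (h * g), _root_.mul_inv_rev,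
    gd338_mul_right_of_eq_zero _ (by rw [gd338_inv]; exact hh), gd338_inv]

theorem entryMax_mul_right_U338 (g : GL (Fin 2) k) {u : GL (Fin 2) k} (hu : InU 0 u) :
    entryMax (g * u) = entryMax g :=
  entryMax_mul_right129 ((inU_zero_iff129 _).1 hu)

theorem valued_det_of_InU338 {u : GL (Fin 2) k} (hu : InU 0 u) :
    Valued.v (u : Matrix (Fin 2) (Fin 2) k).det = 1 :=
  valued_det_of_isMaxCpt129 ((inU_zero_iff129 _).1 hu)

theorem entry_le_one_of_InU338 {u : GL (Fin 2) k} (hu : InU 0 u) (i j : Fin 2) :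
    Valued.v ((u : Matrix (Fin 2) (Fin 2) k) i j) ≤ 1 :=
  ((inU_zero_iff129 _).1 hu).1 i j

section Step

variable (ϖ : k) (hne : ϖ ≠ 0) (hϖ : Valued.v ϖ = WithZero.exp (-1 : ℤ))

include hϖ in
/-- An element with `gd = 1` is `u * diag(1, ϖ) * h` with `u ∈ GL₂(𝒪)` and `gd h = 0`. -/
theorem exists_of_gd_eq_one338 {n : GL (Fin 2) k} (h : gd338 n = 1) :
    ∃ u h' : GL (Fin 2) k, InU 0 u ∧ gd338 h' = 0 ∧ n = u * dpi338 ϖ hne * h' := by
  obtain ⟨u, u', x, y, hx, hy, hu, hu', hxy, hg, hc⟩ := exists_cartan_diag129 n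
  have hvx : Valued.v x ≠ 0 := by rwa [ne_eq, map_eq_zero]
  have hvy : Valued.v y ≠ 0 := by rwa [ne_eq, map_eq_zero]
  have h1 : WithZero.log (Valued.v x) - WithZero.log (Valued.v y) = 1 := by
    rw [gd338_eq_cartan, hc] at h
    simp only at h
    omega
  have hy' : y / ϖ ≠ 0 := div_ne_zero hy hne
  have hvy' : Valued.v (y / ϖ) = Valued.v x := by
    apply log_inj129 (by rwa [ne_eq, map_eq_zero]) hvx
    rw [map_div₀, hϖ, WithZero.log_div hvy WithZero.exp_ne_zero, WithZero.log_exp]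
    omega
  have e : diag129 x y hx hy = dpi338 ϖ hne * diag129 x (y / ϖ) hx hy' := by
    rw [dpi338, diag129_mul]
    apply diag129_congr
    · rw [one_mul]
    · field_simp
  refine ⟨u, diag129 x (y / ϖ) hx hy' * u', hu, ?_, ?_⟩
  · rw [gd338_mul_right_U _ hu', gd338_eq_cartan, cartan_diag129 hx hy' hvy'.le, hvy']
    simp
  · rw [hg, e]; group

include hϖ in
theorem ne_zero_of_unif338 : ϖ ≠ 0 := by
  intro e; rw [e, map_zero] at hϖ; exact WithZero.exp_ne_zero hϖ.symm

include hϖ in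
/-- **Step**: right multiplication by an element with `gd = 1` changes `gd` by `± 1`. -/
theorem gd338_step (g : GL (Fin 2) k) {n : GL (Fin 2) k} (h : gd338 n = 1) :
    gd338 (g * n) = gd338 g + 1 ∨ gd338 (g * n) + 1 = gd338 g := by
  have hne : ϖ ≠ 0 := ne_zero_of_unif338 ϖ hϖ
  obtain ⟨u, h', hu, hh', rfl⟩ := exists_of_gd_eq_one338 ϖ hne hϖ h
  have e : g * (u * dpi338 ϖ hne * h') = (g * u) * dpi338 ϖ hne * h' := by group
  rw [e, gd338_mul_right_of_eq_zero _ hh']
  have := gd338_mul_dpi ϖ hne hϖ (g * u)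
  rwa [gd338_mul_right_U g hu] at this

omit [Valued k Γ₀] in
theorem dpi_inv338 : (dpi338 ϖ hne)⁻¹ = diag129 1 ϖ⁻¹ one_ne_zero (inv_ne_zero hne) := by
  rw [inv_eq_iff_mul_eq_one, dpi338, diag129_mul]
  apply ext_mat129
  ext i j
  fin_cases i <;> fin_cases j <;> simp [diag129, hne]

omit [Valued k Γ₀] in
theorem conj_dpi_apply338 (w : GL (Fin 2) k) :
    (((dpi338 ϖ hne)⁻¹ * w * dpi338 ϖ hne : GL (Fin 2) k) : Matrix (Fin 2) (Fin 2) k)
      = !![w 0 0, w 0 1 * ϖ; ϖ⁻¹ * w 1 0, w 1 1] := by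
  rw [dpi_inv338, dpi338]
  simp only [Matrix.GeneralLinearGroup.coe_mul, diag129, coe_mkGL129]
  conv_lhs => rw [eta129 w]
  ext i j
  fin_cases i <;> fin_cases j <;> simp [Matrix.mul_apply, Fin.sum_univ_two]
  field_simp

omit [Valued k Γ₀] in
theorem det_conj_dpi338 (w : GL (Fin 2) k) :
    (((dpi338 ϖ hne)⁻¹ * w * dpi338 ϖ hne : GL (Fin 2) k) : Matrix (Fin 2) (Fin 2) k).det
      = (w : Matrix (Fin 2) (Fin 2) k).det := by
  rw [conj_dpi_apply338, Matrix.det_fin_two_of, det_eq338]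
  field_simp

include hϖ in
/-- **Lemma C**: for `w ∈ GL₂(𝒪)`, `diag(1, ϖ)⁻¹ w diag(1, ϖ) ∈ k^× GL₂(𝒪)` iff `ϖ ∣ w₁₀`. -/
theorem gd338_conj_dpi_eq_zero_iff {w : GL (Fin 2) k} (hw : InU 0 w) :
    gd338 ((dpi338 ϖ hne)⁻¹ * w * dpi338 ϖ hne) = 0
      ↔ Valued.v ((w : Matrix (Fin 2) (Fin 2) k) 1 0) < 1 := by
  have hvϖ : Valued.v ϖ ≠ 0 := by rwa [ne_eq, map_eq_zero]
  constructor
  · intro h
    have h0 := (gd338_eq_zero_iff _).1 h
    rw [det_conj_dpi338, valued_det_of_InU338 hw] at h0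
    set M := entryMax ((dpi338 ϖ hne)⁻¹ * w * dpi338 ϖ hne) with hM
    have hM0 : M ≠ 0 := entryMax_ne_zero338 _
    have hM1 : M = 1 := by
      apply log_inj129 hM0 one_ne_zero
      have := congrArg WithZero.log h0
      rw [WithZero.log_mul hM0 hM0, WithZero.log_one] at this
      rw [WithZero.log_one]; omega
    have h10 := entry_le_entryMax129 ((dpi338 ϖ hne)⁻¹ * w * dpi338 ϖ hne) 1 0
    rw [← hM, hM1, conj_dpi_apply338] at h10
    simp only [Matrix.of_apply, Matrix.cons_val', Matrix.cons_val_zero, Matrix.cons_val_one,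
      Matrix.cons_val_fin_one] at h10
    rw [map_mul, map_inv₀, hϖ] at h10
    have : Valued.v ((w : Matrix (Fin 2) (Fin 2) k) 1 0) ≤ WithZero.exp (-1 : ℤ) := by
      have h2 := mul_le_mul' (le_refl (WithZero.exp (-1 : ℤ) : Γ₀)) h10
      rwa [← mul_assoc, mul_inv_cancel₀ WithZero.exp_ne_zero, one_mul, mul_one] at h2
    exact lt_of_le_of_lt this exp_neg_one_lt_one338
  · intro h
    apply gd338_of_InU
    rw [inU_zero_iff129]
    have hint : IsInt129 (vO129 k) ((dpi338 ϖ hne)⁻¹ * w * dpi338 ϖ hne) := by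
      intro i j
      rw [conj_dpi_apply338, mem_vO129]
      fin_cases i <;> fin_cases j
      · simpa using entry_le_one_of_InU338 hw 0 0
      · simp only [Fin.zero_eta, Fin.mk_one, Matrix.of_apply, Matrix.cons_val', Matrix.cons_val_zero,
          Matrix.cons_val_one, Matrix.cons_val_fin_one]
        rw [map_mul, hϖ]
        calc _ ≤ (1 : Γ₀) * 1 :=
              mul_le_mul' (entry_le_one_of_InU338 hw 0 1) exp_neg_one_lt_one338.le
          _ = 1 := mul_one _
      · simp only [Fin.zero_eta, Fin.mk_one, Matrix.of_apply, Matrix.cons_val', Matrix.cons_val_zero,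
          Matrix.cons_val_one, Matrix.cons_val_fin_one]
        rw [map_mul, map_inv₀, hϖ]
        have h2 := (lt_iff_le_mul_exp338 (one_ne_zero (α := Γ₀))).1 h
        rw [one_mul] at h2
        calc _ ≤ (WithZero.exp (-1 : ℤ) : Γ₀)⁻¹ * WithZero.exp (-1 : ℤ) := mul_le_mul' le_rfl h2
          _ = 1 := inv_mul_cancel₀ WithZero.exp_ne_zero
      · simpa using entry_le_one_of_InU338 hw 1 1
    refine ⟨hint, isInt129_inv_of_det hint ?_⟩
    rw [mem_vO129, map_inv₀, det_conj_dpi338, valued_det_of_InU338 hw, inv_one]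

end Step

/-! ### Towards a given point -/

/-- If `gd g ≠ 0` some `u ∈ GL₂(𝒪)` makes the first column of `g u` non-maximal. -/
theorem exists_col_lt338 {g : GL (Fin 2) k} (hg : gd338 g ≠ 0) :
    ∃ u : GL (Fin 2) k, InU 0 u ∧ c1max338 (g * u) < entryMax g := by
  have hdet := (gd338_ne_zero_iff g).1 hg
  have hM := entryMax_ne_zero338 g
  by_cases hc : c2max338 g = entryMax g
  · obtain ⟨i, hi⟩ := exists_col2_eq338 g
    rw [hc] at hi
    have hgi : (g : Matrix (Fin 2) (Fin 2) k) i 1 ≠ 0 := by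
      intro e; rw [e, map_zero] at hi; exact hM hi.symm
    set t : k := - (g : Matrix (Fin 2) (Fin 2) k) i 0 / (g : Matrix (Fin 2) (Fin 2) k) i 1 with ht
    have hvt : Valued.v t ≤ 1 := by
      rw [ht, map_div₀, Valuation.map_neg, hi]
      rw [div_le_one₀ (zero_lt_iff.mpr hM)]
      exact entry_le_entryMax129 g i 0
    refine ⟨lowerU129 t, (inU_zero_iff129 _).2 (isMaxCpt129_lowerU ((mem_vO129 t).2 hvt)), ?_⟩
    have hcol : ∀ j : Fin 2, ((g * lowerU129 t : GL (Fin 2) k) : Matrix (Fin 2) (Fin 2) k) j 0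
        = g j 0 + g j 1 * t := by
      intro j
      rw [Matrix.GeneralLinearGroup.coe_mul, Matrix.mul_apply, Fin.sum_univ_two]
      simp [lowerU129]
    have hlt : Valued.v ((g : Matrix (Fin 2) (Fin 2) k).det / (g : Matrix (Fin 2) (Fin 2) k) i 1)
        < entryMax g := by
      rw [map_div₀, hi, div_lt_iff₀ (zero_lt_iff.mpr hM)]
      exact hdet
    have hpos : (0 : Γ₀) < entryMax g := zero_lt_iff.mpr hM
    unfold c1max338
    rw [hcol, hcol, max_lt_iff]
    fin_cases i
    · simp only [Fin.zero_eta] at ht hgi hlt hi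
      constructor
      · have : (g : Matrix (Fin 2) (Fin 2) k) 0 0 + g 0 1 * t = 0 := by
          rw [ht]; field_simp; ring
        rw [this, map_zero]; exact hpos
      · have : (g : Matrix (Fin 2) (Fin 2) k) 1 0 + g 1 1 * t
            = - ((g : Matrix (Fin 2) (Fin 2) k).det / g 0 1) := by
          rw [ht, det_eq338]; field_simp; ring
        rw [this, Valuation.map_neg]; exact hlt
    · simp only [Fin.mk_one] at ht hgi hlt hi
      constructor
      · have : (g : Matrix (Fin 2) (Fin 2) k) 0 0 + g 0 1 * t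
            = (g : Matrix (Fin 2) (Fin 2) k).det / g 1 1 := by
          rw [ht, det_eq338]; field_simp; ring
        rw [this]; exact hlt
      · have : (g : Matrix (Fin 2) (Fin 2) k) 1 0 + g 1 1 * t = 0 := by
          rw [ht]; field_simp; ring
        rw [this, map_zero]; exact hpos
  · refine ⟨weyl129, (inU_zero_iff129 _).2 (isMaxCpt129_weyl _), ?_⟩
    have h2 : c2max338 g < entryMax g := lt_of_le_of_ne (c2max_le338 g) hc
    have : c1max338 (g * weyl129) = c2max338 g := by
      unfold c1max338 c2max338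
      rw [coe_mul_weyl129]
      simp
    rw [this]; exact h2

/-- Two elements of `GL₂(𝒪)` which both make the first column non-maximal differ by an element
with `ϖ ∣ w₁₀`. -/
theorem col_lt_unique338 {g u u' : GL (Fin 2) k} (hu : InU 0 u) (hu' : InU 0 u')
    (h1 : c1max338 (g * u) < entryMax g) (h2 : c1max338 (g * u') < entryMax g) :
    Valued.v (((u⁻¹ * u' : GL (Fin 2) k) : Matrix (Fin 2) (Fin 2) k) 1 0) < 1 := by
  have hM := entryMax_ne_zero338 g
  have hw : InU 0 (u⁻¹ * u') := inU_zero_mul129 (inU_zero_inv129 hu) hu'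
  have e : g * u' = (g * u) * (u⁻¹ * u') := by group
  have hMh : entryMax (g * u) = entryMax g := entryMax_mul_right_U338 g hu
  rw [← hMh] at h1
  have hc2 := c2max_eq_of_c1max_lt338 h1
  obtain ⟨i, hi⟩ := exists_col2_eq338 (g * u)
  rw [hc2, hMh] at hi
  rw [hMh] at h1
  have h3 : Valued.v (((g * u') : GL (Fin 2) k) i 0) < entryMax g :=
    lt_of_le_of_lt (entry_col1_le338 _ i) h2
  rw [e, Matrix.GeneralLinearGroup.coe_mul, Matrix.mul_apply, Fin.sum_univ_two] at h3
  have h4 : Valued.v (((g * u : GL (Fin 2) k) : Matrix (Fin 2) (Fin 2) k) i 0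
      * ((u⁻¹ * u' : GL (Fin 2) k) : Matrix (Fin 2) (Fin 2) k) 0 0) < entryMax g := by
    rw [map_mul]
    calc _ ≤ Valued.v (((g * u : GL (Fin 2) k) : Matrix (Fin 2) (Fin 2) k) i 0) * 1 :=
          mul_le_mul' le_rfl (entry_le_one_of_InU338 hw 0 0)
      _ = _ := mul_one _
      _ ≤ c1max338 (g * u) := entry_col1_le338 _ i
      _ < entryMax g := h1
  have h5 : Valued.v (((g * u : GL (Fin 2) k) : Matrix (Fin 2) (Fin 2) k) i 1
      * ((u⁻¹ * u' : GL (Fin 2) k) : Matrix (Fin 2) (Fin 2) k) 1 0) < entryMax g := by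
    have e5 : ((g * u : GL (Fin 2) k) : Matrix (Fin 2) (Fin 2) k) i 1
        * ((u⁻¹ * u' : GL (Fin 2) k) : Matrix (Fin 2) (Fin 2) k) 1 0
        = (((g * u : GL (Fin 2) k) : Matrix (Fin 2) (Fin 2) k) i 0
            * ((u⁻¹ * u' : GL (Fin 2) k) : Matrix (Fin 2) (Fin 2) k) 0 0
          + ((g * u : GL (Fin 2) k) : Matrix (Fin 2) (Fin 2) k) i 1
            * ((u⁻¹ * u' : GL (Fin 2) k) : Matrix (Fin 2) (Fin 2) k) 1 0)
          - ((g * u : GL (Fin 2) k) : Matrix (Fin 2) (Fin 2) k) i 0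
            * ((u⁻¹ * u' : GL (Fin 2) k) : Matrix (Fin 2) (Fin 2) k) 0 0 := by ring
    rw [e5]
    exact lt_of_le_of_lt (Valuation.map_sub _ _ _) (max_lt h3 h4)
  rw [map_mul, hi] at h5
  by_contra hcon
  rw [not_lt] at hcon
  have : entryMax g * 1 ≤ entryMax g
      * Valued.v (((u⁻¹ * u' : GL (Fin 2) k) : Matrix (Fin 2) (Fin 2) k) 1 0) :=
    mul_le_mul' le_rfl hcon
  rw [mul_one] at this
  exact lt_irrefl _ (lt_of_le_of_lt this h5)

/-! ### The pre-tree-distance -/

/-- `gD x y = a - b` for `cartan (x⁻¹ y) = (a, b)`. -/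
def gD338 (x y : GL (Fin 2) k) : ℕ := (gd338 (x⁻¹ * y)).toNat

theorem gD338_cast (x y : GL (Fin 2) k) : ((gD338 x y : ℕ) : ℤ) = gd338 (x⁻¹ * y) :=
  Int.toNat_of_nonneg (gd338_nonneg _)

theorem gD338_eq_iff (x y : GL (Fin 2) k) (n : ℕ) : gD338 x y = n ↔ gd338 (x⁻¹ * y) = n := by
  rw [← gD338_cast]; exact Nat.cast_inj.symm

/-- **`gD` is a pre-tree-distance.** -/
theorem isPreTreeDist_gD338 (hk : ∃ ϖ : k, Valued.v ϖ = WithZero.exp (-1 : ℤ)) :
    IsPreTreeDist338 (gD338 (k := k)) := by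
  obtain ⟨ϖ, hϖ⟩ := hk
  have hne : ϖ ≠ 0 := by
    intro e; rw [e, map_zero] at hϖ; exact WithZero.exp_ne_zero hϖ.symm
  refine ⟨?_, ?_, ?_, ?_, ?_, ?_⟩
  · intro x
    rw [gD338_eq_iff, inv_mul_cancel, gd338_one]; rfl
  · intro x y
    unfold gD338
    rw [← gd338_inv (x⁻¹ * y), _root_.mul_inv_rev, inv_inv]
  · intro x y h z
    have h0 : gd338 (x⁻¹ * y) = 0 := by rw [gD338_eq_iff] at h; simpa using h
    unfold gD338
    have e : z⁻¹ * y = (z⁻¹ * x) * (x⁻¹ * y) := by group
    rw [e, gd338_mul_right_of_eq_zero _ h0]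
  · intro u v w h
    have h1 : gd338 (v⁻¹ * w) = 1 := by rw [gD338_eq_iff] at h; simpa using h
    have e : u⁻¹ * w = (u⁻¹ * v) * (v⁻¹ * w) := by group
    have hs := gd338_step ϖ hϖ (u⁻¹ * v) h1
    rw [← e, ← gD338_cast, ← gD338_cast] at hs
    omega
  · intro u v h
    have h0 : gd338 (u⁻¹ * v) ≠ 0 := by
      intro e; apply h; rw [gD338_eq_iff, e]; rfl
    obtain ⟨u₁, hu₁, hc⟩ := exists_col_lt338 h0
    refine ⟨v * (u₁ * dpi338 ϖ hne), ?_, ?_⟩
    · rw [gD338_eq_iff, inv_mul_cancel_left, gd338_mul_left_U _ hu₁, gd338_dpi ϖ hne hϖ]; rfl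
    · have e : u⁻¹ * (v * (u₁ * dpi338 ϖ hne)) = (u⁻¹ * v * u₁) * dpi338 ϖ hne := by group
      have h2 := gd338_mul_dpi_of_lt ϖ hne hϖ (g := u⁻¹ * v * u₁)
        (by rw [entryMax_mul_right_U338 _ hu₁]; exact hc)
      rw [gd338_mul_right_U _ hu₁, ← e, ← gD338_cast, ← gD338_cast] at h2
      omega
  · intro u v w w' hw hw' hd hd'
    have h1 : gd338 (v⁻¹ * w) = 1 := by rw [gD338_eq_iff] at hw; simpa using hw
    have h1' : gd338 (v⁻¹ * w') = 1 := by rw [gD338_eq_iff] at hw'; simpa using hw'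
    obtain ⟨u₁, a, hu₁, ha, e₁⟩ := exists_of_gd_eq_one338 ϖ hne hϖ h1
    obtain ⟨u₁', a', hu₁', ha', e₁'⟩ := exists_of_gd_eq_one338 ϖ hne hϖ h1'
    -- the two columns
    have key : ∀ (w₀ u₀ a₀ : GL (Fin 2) k), InU 0 u₀ → gd338 a₀ = 0 →
        v⁻¹ * w₀ = u₀ * dpi338 ϖ hne * a₀ → gD338 u w₀ + 1 = gD338 u v →
        c1max338 (u⁻¹ * v * u₀) < entryMax (u⁻¹ * v) := by
      intro w₀ u₀ a₀ hu₀ ha₀ e₀ hd₀
      have e : u⁻¹ * w₀ = (u⁻¹ * v * u₀) * dpi338 ϖ hne * a₀ := by
        have : u⁻¹ * w₀ = (u⁻¹ * v) * (v⁻¹ * w₀) := by group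
        rw [this, e₀]; group
      have h2 : gd338 ((u⁻¹ * v * u₀) * dpi338 ϖ hne) + 1 = gd338 (u⁻¹ * v * u₀) := by
        rw [gd338_mul_right_U _ hu₀, ← gd338_mul_right_of_eq_zero _ ha₀, ← e, ← gD338_cast,
          ← gD338_cast]
        omega
      have := (gd338_mul_dpi_add_one_iff ϖ hne hϖ _).1 h2
      rwa [entryMax_mul_right_U338 _ hu₀] at this
    have hc := key w u₁ a hu₁ ha e₁ hd
    have hc' := key w' u₁' a' hu₁' ha' e₁' hd'
    have hlt := col_lt_unique338 hu₁ hu₁' hc hc'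
    have hw0 : InU 0 (u₁⁻¹ * u₁') := inU_zero_mul129 (inU_zero_inv129 hu₁) hu₁'
    have hz := (gd338_conj_dpi_eq_zero_iff ϖ hne hϖ hw0).2 hlt
    rw [gD338_eq_iff]
    have e : w⁻¹ * w' = a⁻¹ * ((dpi338 ϖ hne)⁻¹ * (u₁⁻¹ * u₁') * dpi338 ϖ hne) * a' := by
      have : w⁻¹ * w' = (v⁻¹ * w)⁻¹ * (v⁻¹ * w') := by group
      rw [this, e₁, e₁']; group
    rw [e, gd338_mul_right_of_eq_zero _ ha',
      gd338_mul_left_of_eq_zero _ (by rw [gd338_inv]; exact ha), hz]
    rfl

end Fermat.Agent.LT.H338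

end

end
-- ===== PACK-END LT/T6/H338/GTree.lean

-- ===== PACK-BEGIN LT/T6/H502/NormImage.lean
section




/-!
# Row LT, tower T6, sub-leaves T6.07a / T6.07b (helper502): the local-global principle for norms

OFF-MAIN.  Mathlib only + `T6/Spec.lean` v3 (sha256 `8c5f2ae7…`, helper22@83fb5972b).

* `normImageTC_of_hasse502 : T6.HasseNormTCC → T6.NormImageTCC`   (T6.07a, totally complex base)
* `normImageQ_of_hasse502  : T6.HasseNormQC → T6.NormImageQC`     (T6.07b, quadratic step over `ℚ`)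
* `normImage_of_hasse502   : T6.HasseNormC → T6.NormImageC`       (the general statement)

([L] §4): for `K'/K` cyclic of prime degree `l` (number fields), an elliptic regular `γ ∈ GL₂(K)`
which is a norm at every place is a norm.

Proof.  `f` = characteristic polynomial of `γ` (irreducible over `K`), `L = K[X]/(f)`.
* `f` has a root in `K'`: then `l = 2` and `γ` is a norm by an explicit formula (`Split.lean`).
* `f` irreducible over `K'`: `M = K'[X]/(f)` is a cyclic extension of `L` of degree `l` with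
  generator `τ` = "`s` on the coefficients" (`Galois.lean`).  A local norm relation in
  `GL₂(K' ⊗ K_v)` gives, for every place `u | v` of `L`, an element of `L_u ⊗_L M` of norm `θ`
  (`LocStep.lean`, with `NormProd.lean`: norm = product over the Galois group after base
  change).  Hasse: `θ = N_{M/L}(y)`.  Then `δ = y(γ) ∈ GL₂(K')` has twisted norm `γ` (`Core.lean`).
  In the totally complex case `L` is totally complex; in the quadratic case `[L : ℚ] = 2`,
  `[M : L] = 2` and `√-3 ∈ M` is not in `L` (it is moved by `τ`).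
-/

set_option autoImplicit false
set_option linter.style.haveILetI false
set_option linter.unnecessarySimpa false
set_option linter.unusedSectionVars false
set_option maxHeartbeats 1000000

open scoped Matrix TensorProduct
open Polynomial IsDedekindDomain NumberField

noncomputable section

namespace Fermat.Agent.LT.T6.H502

open Fermat.Agent.LT.T6

attribute [local instance] algLM502

/-- **The general statement.**  The local-global principle for norms in `GL₂` from the Hasse
norm theorem. -/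
theorem normImage_of_hasse502 : HasseNormC → NormImageC := by
  intro hasse K K' _ _ _ _ _ _ s hs hl γ hell hfin hinf
  classical
  obtain ⟨hsl, hinj⟩ := gen_facts502 s hs
  apply isNormFrom_of_eq502
  obtain ⟨f, hfγ⟩ : ∃ f : K[X], f = charP502 (γ : Matrix (Fin 2) (Fin 2) K) := ⟨_, rfl⟩
  by_cases hg : Irreducible (f.map (algebraMap K K'))
  · haveI : Fact (Irreducible f) := ⟨hfγ ▸ irreducible_charP502 γ hell⟩
    haveI : Fact (Irreducible (f.map (algebraMap K K'))) := ⟨hg⟩
    haveI : NumberField (AdjoinRoot f) := nf_L502 f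
    haveI : NumberField (AdjoinRoot (f.map (algebraMap K K'))) := nf_M502 f
    haveI : IsGalois (AdjoinRoot f) (AdjoinRoot (f.map (algebraMap K K'))) :=
      isGalois_LM502 f s _ rfl hinj
    obtain ⟨y, hy⟩ := hasse (AdjoinRoot f) (AdjoinRoot (f.map (algebraMap K K')))
      (isCyclic_LM502 f s _ rfl hl hinj) (by rw [finrank_LM502]; exact hl)
      (AdjoinRoot.root f) (root_ne_zero502 f γ hfγ)
      (fun u => loc_fin502 f s γ _ hfγ rfl hsl hinj hell.1 u (hfin _))
      (fun u => loc_inf502 f s γ _ hfγ rfl hsl hinj hell.1 u (hinf _))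
    exact field_main502 f s γ _ hfγ rfl hinj y hy
  · exact split502 s hs _ hl hsl γ hell (hfγ ▸ hg)

/-- An extension of a totally complex field is totally complex. -/
theorem isComplex_of_under502 {K L : Type} [Field K] [Field L] [Algebra K L]
    (h : ∀ w : InfinitePlace K, w.IsComplex) (u : InfinitePlace L) : u.IsComplex := by
  by_contra hu
  have hr : u.IsReal := InfinitePlace.not_isComplex_iff_isReal.mp hu
  exact InfinitePlace.not_isReal_iff_isComplex.mpr (h _) (hr.comap (algebraMap K L))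

/-- **T6.07a.**  The totally complex case. -/
theorem normImageTC_of_hasse502 : HasseNormTCC → NormImageTCC := by
  intro hasse K K' _ _ _ _ _ _ s hs hl hTC γ hell hfin
  classical
  obtain ⟨hsl, hinj⟩ := gen_facts502 s hs
  apply isNormFrom_of_eq502
  obtain ⟨f, hfγ⟩ : ∃ f : K[X], f = charP502 (γ : Matrix (Fin 2) (Fin 2) K) := ⟨_, rfl⟩
  by_cases hg : Irreducible (f.map (algebraMap K K'))
  · haveI : Fact (Irreducible f) := ⟨hfγ ▸ irreducible_charP502 γ hell⟩
    haveI : Fact (Irreducible (f.map (algebraMap K K'))) := ⟨hg⟩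
    haveI : NumberField (AdjoinRoot f) := nf_L502 f
    haveI : NumberField (AdjoinRoot (f.map (algebraMap K K'))) := nf_M502 f
    haveI : IsGalois (AdjoinRoot f) (AdjoinRoot (f.map (algebraMap K K'))) :=
      isGalois_LM502 f s _ rfl hinj
    obtain ⟨y, hy⟩ := hasse (AdjoinRoot f) (AdjoinRoot (f.map (algebraMap K K')))
      (isCyclic_LM502 f s _ rfl hl hinj) (by rw [finrank_LM502]; exact hl)
      (isComplex_of_under502 (K := K) hTC)
      (AdjoinRoot.root f) (root_ne_zero502 f γ hfγ)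
      (fun u => loc_fin502 f s γ _ hfγ rfl hsl hinj hell.1 u (hfin _))
    exact field_main502 f s γ _ hfγ rfl hinj y hy
  · exact split502 s hs _ hl hsl γ hell (hfγ ▸ hg)

section Quad

variable {K K' : Type} [Field K] [NumberField K] [Field K'] [NumberField K'] [Algebra K K']
  [IsGalois K K'] (f : K[X]) [hf : Fact (Irreducible f)]
  [hg : Fact (Irreducible (f.map (algebraMap K K')))]

/-- An element of `K'` outside `K` is not in `L` (inside `M`): it is moved by `τ`. -/
theorem notMem_L502 (s : K' ≃ₐ[K] K') (hs : ∀ t : K' ≃ₐ[K] K', t ∈ Subgroup.zpowers s)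
    (z : K') (hz : ∀ a : K, algebraMap K K' a ≠ z) (x : AdjoinRoot f) :
    algebraMap (AdjoinRoot f) (AdjoinRoot (f.map (algebraMap K K'))) x
      ≠ AdjoinRoot.of (f.map (algebraMap K K')) z := by
  intro hx
  have h1 : tau502 f s (AdjoinRoot.of (f.map (algebraMap K K')) z)
      = AdjoinRoot.of (f.map (algebraMap K K')) z := by
    rw [← hx]
    exact (tau502 f s).commutes x
  rw [tau_of502] at h1
  have h2 : s z = z := AdjoinRoot.coe_injective' (f := f.map (algebraMap K K')) h1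
  have h3 : ∀ t : K' ≃ₐ[K] K', t z = z := by
    intro t
    obtain ⟨n, rfl⟩ := Subgroup.mem_zpowers_iff.mp (hs t)
    have h4 : ∀ m : ℕ, (s ^ m) z = z := by
      intro m
      induction m with
      | zero => simp
      | succ m ih => rw [pow_succ, AlgEquiv.mul_apply, h2, ih]
    rcases Int.eq_nat_or_neg n with ⟨m, rfl | rfl⟩
    · rw [zpow_natCast]; exact h4 m
    · rw [zpow_neg, zpow_natCast]
      have h5 := h4 m
      calc (s ^ m)⁻¹ z = (s ^ m)⁻¹ ((s ^ m) z) := by rw [h5]
        _ = z := by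
          rw [← AlgEquiv.mul_apply, inv_mul_cancel, AlgEquiv.one_apply]
  obtain ⟨a, ha⟩ := (IsGalois.mem_range_algebraMap_iff_fixed (F := K) (E := K') z).mpr h3
  exact hz a ha

end Quad

/-- `-3` is not a square in `ℚ`. -/
theorem neg_three_not_sq502 {K' : Type} [Field K'] [Algebra ℚ K'] (z : K') (hz : z ^ 2 = -3)
    (a : ℚ) : algebraMap ℚ K' a ≠ z := by
  intro ha
  rw [← ha, ← map_pow] at hz
  have h1 : algebraMap ℚ K' (a ^ 2) = algebraMap ℚ K' (-3) := by
    rw [hz, map_neg, map_ofNat]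
  have h2 : a ^ 2 = -3 := (algebraMap ℚ K').injective h1
  nlinarith [sq_nonneg a]

/-- The degree of `ℚ[X]/(f)` over `ℚ` (for any `ℚ`-module structure). -/
theorem finrank_QL502 (f : ℚ[X]) (hf0 : f ≠ 0) (hdeg : f.natDegree = 2)
    (inst : Module ℚ (AdjoinRoot f)) : @Module.finrank ℚ (AdjoinRoot f) _ _ inst = 2 := by
  have h : inst = Algebra.toModule := Subsingleton.elim _ _
  subst h
  rw [(AdjoinRoot.powerBasis hf0).finrank, AdjoinRoot.powerBasis_dim, hdeg]

/-- **T6.07b.**  The quadratic step over `ℚ`. -/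
theorem normImageQ_of_hasse502 : HasseNormQC → NormImageQC := by
  intro hasse K' _ _ _ s hs h2 hz γ hell hfin hinf
  classical
  obtain ⟨z, hz⟩ := hz
  obtain ⟨hsl, hinj⟩ := gen_facts502 s hs
  rw [h2] at hsl hinj
  have hl : (2 : ℕ).Prime := Nat.prime_two
  apply isNormFrom_of_eq502
  obtain ⟨f, hfγ⟩ : ∃ f : ℚ[X], f = charP502 (γ : Matrix (Fin 2) (Fin 2) ℚ) := ⟨_, rfl⟩
  by_cases hg : Irreducible (f.map (algebraMap ℚ K'))
  · haveI : Fact (Irreducible f) := ⟨hfγ ▸ irreducible_charP502 γ hell⟩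
    haveI : Fact (Irreducible (f.map (algebraMap ℚ K'))) := ⟨hg⟩
    haveI : NumberField (AdjoinRoot f) := nf_L502 f
    haveI : NumberField (AdjoinRoot (f.map (algebraMap ℚ K'))) := nf_M502 f
    haveI : IsGalois (AdjoinRoot f) (AdjoinRoot (f.map (algebraMap ℚ K'))) :=
      isGalois_LM502 f s 2 h2 hinj
    obtain ⟨y, hy⟩ := hasse (AdjoinRoot f) (AdjoinRoot (f.map (algebraMap ℚ K')))
      (finrank_QL502 f (Fact.out : Irreducible f).ne_zero
        (by rw [hfγ]; exact charP_natDegree502 _) _)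
      (by rw [finrank_LM502]; exact h2)
      ⟨AdjoinRoot.of (f.map (algebraMap ℚ K')) z, by
          rw [← map_pow, hz, map_neg, map_ofNat],
        notMem_L502 f s hs z (neg_three_not_sq502 z hz)⟩
      (AdjoinRoot.root f) (root_ne_zero502 f γ hfγ)
      (fun u => loc_fin502 f s γ 2 hfγ h2 hsl hinj hell.1 u (hfin _))
      (fun u => loc_inf502 f s γ 2 hfγ h2 hsl hinj hell.1 u (hinf _))
    exact field_main502 f s γ 2 hfγ h2 hinj y hy
  · exact split502 s hs 2 hl hsl γ hell (hfγ ▸ hg)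

end Fermat.Agent.LT.T6.H502

end

end
-- ===== PACK-END LT/T6/H502/NormImage.lean

-- ===== PACK-BEGIN LT/T6/H75/CutIndep.lean
section





/-!
# Row LT, tower T6, leaf T6.20e.2e.1 `CutIndepC75` (SPARE of the owner of the cut, helper75)

OFF-MAIN.  No hole.  `cutIndepC75 : CutIndepC75` VERBATIM, unconditional: the general unfolding
lemma `unfold_cutoff75` (`H75/Unfold.lean`, Mathlib only) for `G = GL₂(ℂ)`, `H` = the centraliser
of an elliptic `γ` in `GL₂(ℝ)` (`H75/TorusTop.lean`).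
-/

set_option autoImplicit false
set_option linter.style.haveILetI false

open MeasureTheory

noncomputable section

namespace Fermat.Agent.LT.T6.H75

open Fermat.Agent.LT.T6

/-- **T6.20e.2e.1: independence of the cut-off.** -/
theorem cutIndepC75 : CutIndepC75 := by
  intro μ' hμ' γ hdisc μT hμT F hFc hFinv β₁ β₂ hβ₁c hβ₁0 hβ₁1 hβ₂c hβ₂0 hβ₂1
  letI : MeasurableSpace (GL (Fin 2) ℂ) := borel _
  haveI : BorelSpace (GL (Fin 2) ℂ) := ⟨rfl⟩
  letI : MeasurableSpace (twCentSub (MonoidHom.id (GL (Fin 2) ℝ)) γ) := borel _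
  haveI : BorelSpace (twCentSub (MonoidHom.id (GL (Fin 2) ℝ)) γ) := ⟨rfl⟩
  haveI : μ'.IsHaarMeasure := hμ'
  haveI : μT.IsHaarMeasure := hμT
  haveI : SigmaFinite μ' := sigmaFinite_GL2C75 μ' hμ'
  haveI : SigmaFinite μT := sigmaFinite_torus75 γ μT hμT
  haveI : μT.IsInvInvariant := invInvariant_torus75 γ hdisc.ne μT hμT
  exact unfold_cutoff75 μ' μT (torIncl75 γ) (measurable_torAct75 γ) F hFc.measurable hFinv
    β₁ β₂ hβ₁c.measurable hβ₁0 hβ₁1 hβ₂c.measurable hβ₂0 hβ₂1

end Fermat.Agent.LT.T6.H75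

end

end
-- ===== PACK-END LT/T6/H75/CutIndep.lean

-- ===== PACK-BEGIN LT/T6/H771/Prof.lean
section



/-!
# Row LT, tower T6, leaf T6.20e.2e.5 `ProfC75` (registry 1792) -- helper771

OFF-MAIN.  `profC771 : H75.ProfC75`, VERBATIM (frozen Prop of `LT/T6/H75/EllTwSpec.lean`,
helper75@d1103eba8, sha256 18e9b693), unconditional.  Imports: byte copies of the Spec closure of
helper75 and of `LT/T6/H514/CartanCC.lean` (78ef6b97, helper189@82225c074: `cartanCC514`).

Route: Cartan `g = k₁ a_d k₂` for `|det g| = 1` (`d = arcosh ρ(g) = radT634 (rhoC g)`), the scalar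
`sclC` is central, `φ` is bi-`U(2)`-invariant; `(u₁, u₂) ↦ dgC u₁ u₂` is continuous into `GL₂(ℂ)`;
`rhoC (dgC u₁ u₂) = cosh (u₁ - u₂)`, `rhoC` is continuous and `φ` has compact support.
-/

set_option autoImplicit false

open scoped Matrix
open MeasureTheory

noncomputable section

namespace Fermat.Agent.LT.T6.H771

open Fermat.Agent.LT.T6 Fermat.Agent.LT.T6.H189 Fermat.Agent.LT.T6.H634
open Fermat.Agent.LT.T6.H781 Fermat.Agent.LT.T6.H75 Fermat.Agent.LT.T6.H514

theorem dgC_coe771 (u₁ u₂ : ℝ) :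
    ((dgC u₁ u₂ : GL (Fin 2) ℂ) : Matrix (Fin 2) (Fin 2) ℂ)
      = !![(Real.exp u₁ : ℂ), 0; 0, (Real.exp u₂ : ℂ)] := rfl

theorem dgC_mul771 (a b c d : ℝ) : dgC a b * dgC c d = dgC (a + c) (b + d) := by
  apply Units.ext
  rw [Units.val_mul]
  show ((dgC a b : GL (Fin 2) ℂ) : Matrix (Fin 2) (Fin 2) ℂ)
      * ((dgC c d : GL (Fin 2) ℂ) : Matrix (Fin 2) (Fin 2) ℂ)
    = ((dgC (a + c) (b + d) : GL (Fin 2) ℂ) : Matrix (Fin 2) (Fin 2) ℂ)
  rw [dgC_coe771, dgC_coe771, dgC_coe771]
  ext i j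
  fin_cases i <;> fin_cases j <;>
    simp [Matrix.mul_apply, Fin.sum_univ_two, Real.exp_add]

theorem dgC_zero771 : dgC 0 0 = 1 := by
  apply Units.ext
  show ((dgC 0 0 : GL (Fin 2) ℂ) : Matrix (Fin 2) (Fin 2) ℂ) = 1
  rw [dgC_coe771]
  ext i j
  fin_cases i <;> fin_cases j <;> simp

theorem dgC_inv771 (a b : ℝ) : (dgC a b)⁻¹ = dgC (-a) (-b) := by
  apply inv_eq_of_mul_eq_one_right
  rw [dgC_mul771, add_neg_cancel, add_neg_cancel, dgC_zero771]

/-- `sclC r` is central. -/
theorem sclC_comm771 (r : ℝ) (k : GL (Fin 2) ℂ) : sclC r * k = k * sclC r := by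
  apply Units.ext
  rw [Units.val_mul, Units.val_mul]
  show ((sclC r : GL (Fin 2) ℂ) : Matrix (Fin 2) (Fin 2) ℂ) * (k : Matrix (Fin 2) (Fin 2) ℂ)
    = (k : Matrix (Fin 2) (Fin 2) ℂ) * ((sclC r : GL (Fin 2) ℂ) : Matrix (Fin 2) (Fin 2) ℂ)
  rw [sclC_coe514]
  exact scl_comm514 _ _

theorem sclC_mul_atC771 (r d : ℝ) : sclC r * atC d = dgC (r + d / 2) (r - d / 2) := by
  unfold sclC atC
  rw [dgC_mul771, sub_eq_add_neg]

theorem radT_eq_arcosh771 (ρ : ℝ) : radT634 ρ = Real.arcosh ρ := rfl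

theorem rhoQ_eq_rhoC771 (g : GL (Fin 2) ℂ) : rhoQ g = rhoC g := rfl

/-- The second clause of `ProfC75`. -/
theorem prof_value771 (φ : GL (Fin 2) ℂ → ℂ) (hφ : IsArchTestC φ) (D : ℝ)
    (g : GL (Fin 2) ℂ) (hg : ‖(g : Matrix (Fin 2) (Fin 2) ℂ).det‖ = 1) :
    φ (sclC (Real.log D / 4) * g) = profC634 φ D (rhoC g) := by
  obtain ⟨-, k₁, hk₁, k₂, hk₂, hgk⟩ := cartanCC514 g
  rw [hg, Real.log_one, zero_div] at hgk
  have h0 : sclC 0 = 1 := dgC_zero771
  rw [h0, one_mul] at hgk
  have e : sclC (Real.log D / 4) * g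
      = k₁ * (sclC (Real.log D / 4) * atC (Real.arcosh (rhoQ g))) * k₂ := by
    conv_lhs => rw [hgk]
    rw [← mul_assoc, ← mul_assoc, sclC_comm771 _ k₁]
    simp only [mul_assoc]
  rw [e, hφ.right k₂ _ hk₂, hφ.left k₁ _ hk₁, sclC_mul_atC771]
  rfl

/-! ## The profile -/

theorem continuous_dgC_val771 :
    Continuous fun p : ℝ × ℝ => ((dgC p.1 p.2 : GL (Fin 2) ℂ) : Matrix (Fin 2) (Fin 2) ℂ) := by
  simp only [dgC_coe771]
  refine continuous_matrix fun i j => ?_
  fin_cases i <;> fin_cases j <;> simp <;> fun_prop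

/-- `(u₁, u₂) ↦ diag(e^{u₁}, e^{u₂})` is continuous into `GL₂(ℂ)`. -/
theorem continuous_dgC771 : Continuous fun p : ℝ × ℝ => dgC p.1 p.2 := by
  rw [Units.continuous_iff]
  refine ⟨continuous_dgC_val771, ?_⟩
  have h : (fun p : ℝ × ℝ => (((dgC p.1 p.2)⁻¹ : GL (Fin 2) ℂ) : Matrix (Fin 2) (Fin 2) ℂ))
      = (fun p : ℝ × ℝ => ((dgC p.1 p.2 : GL (Fin 2) ℂ) : Matrix (Fin 2) (Fin 2) ℂ))
        ∘ fun p : ℝ × ℝ => (-p.1, -p.2) := by
    funext p
    simp only [Function.comp_apply, dgC_inv771]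
  rw [h]
  exact continuous_dgC_val771.comp (by fun_prop)

theorem continuous_rhoC771 : Continuous rhoC := by
  unfold rhoC
  have hv : Continuous fun y : GL (Fin 2) ℂ => (y : Matrix (Fin 2) (Fin 2) ℂ) :=
    Units.continuous_val
  refine Continuous.div ?_ ?_ ?_
  · exact Complex.continuous_re.comp (hv.matrix_conjTranspose.matrix_mul hv).matrix_trace
  · exact continuous_const.mul (continuous_norm.comp hv.matrix_det)
  · intro y
    have := norm_pos_iff.2 (gl_det_ne_zero514 y)
    positivity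

set_option linter.unusedSimpArgs false in
theorem rhoC_dgC771 (u₁ u₂ : ℝ) : rhoC (dgC u₁ u₂) = Real.cosh (u₁ - u₂) := by
  unfold rhoC
  rw [dgC_coe771]
  have h1 : ((!![(Real.exp u₁ : ℂ), 0; 0, (Real.exp u₂ : ℂ)]ᴴ
      * !![(Real.exp u₁ : ℂ), 0; 0, (Real.exp u₂ : ℂ)]).trace).re
      = Real.exp u₁ * Real.exp u₁ + Real.exp u₂ * Real.exp u₂ := by
    simp [Matrix.trace_fin_two, Matrix.mul_apply, Fin.sum_univ_two, Matrix.conjTranspose_apply,
      ← Complex.ofReal_exp, Complex.conj_ofReal]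
  have h2 : ‖(!![(Real.exp u₁ : ℂ), 0; 0, (Real.exp u₂ : ℂ)]).det‖
      = Real.exp u₁ * Real.exp u₂ := by
    rw [Matrix.det_fin_two_of, mul_zero, sub_zero, norm_mul, Complex.norm_real,
      Complex.norm_real, Real.norm_of_nonneg (Real.exp_pos u₁).le,
      Real.norm_of_nonneg (Real.exp_pos u₂).le]
  rw [h1, h2, Real.cosh_eq]
  have e1 : Real.exp (u₁ - u₂) = Real.exp u₁ / Real.exp u₂ := Real.exp_sub u₁ u₂
  have e2 : Real.exp (-(u₁ - u₂)) = Real.exp u₂ / Real.exp u₁ := by
    rw [neg_sub, Real.exp_sub]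
  rw [e1, e2]
  have hx := (Real.exp_pos u₁).ne'
  have hy := (Real.exp_pos u₂).ne'
  field_simp

theorem continuousOn_radT771 : ContinuousOn radT634 (Set.Ici 1) := by
  unfold radT634
  refine ContinuousOn.log ?_ ?_
  · exact (continuous_id.add (Real.continuous_sqrt.comp
      ((continuous_id.pow 2).sub continuous_const))).continuousOn
  · intro ρ hρ
    have h1 : (1 : ℝ) ≤ ρ := hρ
    have h2 := Real.sqrt_nonneg (ρ ^ 2 - 1)
    have : 0 < ρ + Real.sqrt (ρ ^ 2 - 1) := by linarith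
    exact this.ne'

/-- The first clause of `ProfC75`. -/
theorem prof_isProfile771 (φ : GL (Fin 2) ℂ → ℂ) (hφ : IsArchTestC φ) (D : ℝ) :
    IsProfile (profC634 φ D) := by
  refine ⟨?_, ?_⟩
  · have h1 : ContinuousOn (fun ρ : ℝ =>
        ((Real.log D / 4 + radT634 ρ / 2, Real.log D / 4 - radT634 ρ / 2) : ℝ × ℝ))
        (Set.Ici 1) :=
      (continuousOn_const.add (continuousOn_radT771.div_const 2)).prodMk
        (continuousOn_const.sub (continuousOn_radT771.div_const 2))
    have hc : Continuous (fun p : ℝ × ℝ => φ (dgC p.1 p.2)) := hφ.cont.comp continuous_dgC771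
    have h2 : ContinuousOn ((fun p : ℝ × ℝ => φ (dgC p.1 p.2)) ∘ (fun ρ : ℝ =>
        ((Real.log D / 4 + radT634 ρ / 2, Real.log D / 4 - radT634 ρ / 2) : ℝ × ℝ)))
        (Set.Ici 1) := hc.comp_continuousOn h1
    have h3 : profC634 φ D = ((fun p : ℝ × ℝ => φ (dgC p.1 p.2)) ∘ (fun ρ : ℝ =>
        ((Real.log D / 4 + radT634 ρ / 2, Real.log D / 4 - radT634 ρ / 2) : ℝ × ℝ))) := by
      funext ρ
      rfl
    rw [h3]
    exact h2
  · obtain ⟨M, hM⟩ := hφ.supp.isCompact.bddAbove_image continuous_rhoC771.continuousOn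
    have hM' : ∀ g, φ g ≠ 0 → rhoC g ≤ M := fun g hg =>
      hM ⟨g, subset_tsupport _ hg, rfl⟩
    refine ⟨max 1 (M + 1), fun y hy => ?_⟩
    have hy1 : (1 : ℝ) ≤ y := le_trans (le_max_left _ _) hy
    have hyM : M < y := by
      have := le_trans (le_max_right 1 (M + 1)) hy
      linarith
    by_contra hne
    have h := hM' _ hne
    rw [rhoC_dgC771] at h
    have e : Real.log D / 4 + radT634 y / 2 - (Real.log D / 4 - radT634 y / 2)
        = Real.arcosh y := by
      rw [radT_eq_arcosh771]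
      ring
    rw [e, Real.cosh_arcosh hy1] at h
    linarith

/-- **T6.20e.2e.5 `ProfC75`**, VERBATIM. -/
theorem profC771 : ProfC75 :=
  fun φ hφ D _ => ⟨prof_isProfile771 φ hφ D, fun g hg => prof_value771 φ hφ D g hg⟩

end Fermat.Agent.LT.T6.H771

end

end
-- ===== PACK-END LT/T6/H771/Prof.lean

-- ===== PACK-BEGIN LT/T6/H142/BoxC.lean
section




/-!
# Row LT, tower T6, leaf T6.20e.2e.6 `H75.BoxCC75` (helper142): THE PROOF

OFF-MAIN.  `boxCC142 : H75.BoxCC75`, VERBATIM the `Prop` of `LT/T6/H75/EllTwSpec.lean`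
(helper75@d1103eba8, sha256 18e9b693).  Complete proofs, nothing assumed.

`iwaC` is continuous, hence measurable; the parameter box `B = [0,1] × [0,1] × D̄ × U(2)` is compact
(`H965.isCompact_U2965`), so `boxC634 = iwaC '' B` is compact, closed, Borel.  By the uniqueness of
the Iwasawa decomposition (`H905.iwaHomeo905`) `B ⊆ iwaC⁻¹(boxC634) ⊆ B ∪ {k ∉ U(2)}`, and the
last set is a null set (`IsU2Haar.supp`).  `vol (D̄) = π`, `κ (U(2)) = 1`.
-/

set_option autoImplicit false

open scoped Matrix ENNReal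
open MeasureTheory

noncomputable section

namespace Fermat.Agent.LT.T6.H142

open Fermat.Agent.LT.T6 Fermat.Agent.LT.T6.H189 Fermat.Agent.LT.T6.H634
open Fermat.Agent.LT.T6.H905 Fermat.Agent.LT.T6.H965

/-- `iwaC` in terms of the Borel part. -/
theorem iwaC_eq142 (p : ℝ × ℝ × ℂ × GL (Fin 2) ℂ) :
    iwaC p = bor905 (p.1, p.2.1, p.2.2.1) * p.2.2.2 := rfl

theorem continuous_iwaC142 : Continuous iwaC := by
  have h1 : Continuous fun p : ℝ × ℝ × ℂ × GL (Fin 2) ℂ => bor905 (p.1, p.2.1, p.2.2.1) :=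
    continuous_bor905.comp (continuous_fst.prodMk
      ((continuous_fst.comp continuous_snd).prodMk
        (continuous_fst.comp (continuous_snd.comp continuous_snd))))
  have h2 : Continuous fun p : ℝ × ℝ × ℂ × GL (Fin 2) ℂ => p.2.2.2 :=
    continuous_snd.comp (continuous_snd.comp continuous_snd)
  exact h1.mul h2

/-- The parameter box. -/
def pBox142 : Set (ℝ × ℝ × ℂ × GL (Fin 2) ℂ) :=
  Set.Icc (0 : ℝ) 1 ×ˢ Set.Icc (0 : ℝ) 1 ×ˢ Metric.closedBall (0 : ℂ) 1 ×ˢ U2

theorem boxC634_eq142 : boxC634 = iwaC '' pBox142 := rfl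

theorem isCompact_pBox142 : IsCompact pBox142 :=
  isCompact_Icc.prod (isCompact_Icc.prod ((isCompact_closedBall (0 : ℂ) 1).prod isCompact_U2965))

theorem t2Space_GL142 : T2Space (GL (Fin 2) ℂ) := isEmbedding_valGL905.t2Space

theorem isClosed_boxC142 : IsClosed boxC634 := by
  haveI := t2Space_GL142
  rw [boxC634_eq142]
  exact (isCompact_pBox142.image continuous_iwaC142).isClosed

/-- Uniqueness of the Iwasawa decomposition: the preimage of the box is the box, up to the
parameters with `k ∉ U(2)`. -/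
theorem preimage_box_subset142 :
    iwaC ⁻¹' boxC634 ⊆ pBox142 ∪ {p | p.2.2.2 ∉ U2} := by
  intro p hp
  by_cases hk : p.2.2.2 ∈ U2
  · left
    obtain ⟨p', hp', hpp'⟩ := hp
    obtain ⟨h1, h2, h3, h4⟩ := hp'
    have hinj := iwaHomeo905.injective
    have e : jC (p'.1, p'.2.1, p'.2.2.1, ⟨p'.2.2.2, h4⟩) = jC (p.1, p.2.1, p.2.2.1, ⟨p.2.2.2, hk⟩) :=
      hpp'
    have e2 := hinj e
    simp only [Prod.mk.injEq, Subtype.mk.injEq] at e2
    obtain ⟨e1, e2, e3, e4⟩ := e2
    refine ⟨?_, ?_, ?_, ?_⟩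
    · rw [← e1]; exact h1
    · rw [← e2]; exact h2
    · rw [← e3]; exact h3
    · rw [← e4]; exact h4
  · right
    exact hk

/-- **T6.20e.2e.6**, verbatim `H75.BoxCC75`. -/
theorem boxCC142 : H75.BoxCC75 := by
  intro κ hκ μ' c hμ'
  letI : MeasurableSpace (GL (Fin 2) ℂ) := borel _
  haveI : BorelSpace (GL (Fin 2) ℂ) := ⟨rfl⟩
  haveI : IsFiniteMeasure κ := ⟨by rw [hκ.prob]; exact ENNReal.one_lt_top⟩
  have hmeas : Measurable iwaC := continuous_iwaC142.measurable
  have hbox : MeasurableSet boxC634 := isClosed_boxC142.measurableSet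
  -- `κ (U2) = 1`
  have hU2 : κ U2 = 1 := by
    apply le_antisymm
    · rw [← hκ.prob]; exact measure_mono (Set.subset_univ _)
    · have h1 : κ Set.univ ≤ κ U2 + κ U2ᶜ := by
        rw [← Set.union_compl_self U2]; exact measure_union_le _ _
      rw [hκ.prob, hκ.supp, add_zero] at h1
      exact h1
  -- the measure of the parameter box
  have hB : (iwaMC κ) pBox142 = ENNReal.ofReal Real.pi := by
    unfold iwaMC pBox142
    rw [Measure.prod_prod, Measure.prod_prod, Measure.prod_prod, Real.volume_Icc,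
      Complex.volume_closedBall, hU2]
    simp only [sub_zero, ENNReal.ofReal_one, one_pow, one_mul, mul_one]
    rw [← NNReal.coe_real_pi, ENNReal.ofReal_coe_nnreal]
  -- the null set
  have hN : (iwaMC κ) {p | p.2.2.2 ∉ U2} = 0 := by
    have e : {p : ℝ × ℝ × ℂ × GL (Fin 2) ℂ | p.2.2.2 ∉ U2}
        = Set.univ ×ˢ Set.univ ×ˢ Set.univ ×ˢ U2ᶜ := by
      ext p
      simp
    rw [e]
    unfold iwaMC
    rw [Measure.prod_prod, Measure.prod_prod, Measure.prod_prod, hκ.supp, mul_zero, mul_zero,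
      mul_zero]
  have hP : (iwaMC κ) (iwaC ⁻¹' boxC634) = ENNReal.ofReal Real.pi := by
    apply le_antisymm
    · calc (iwaMC κ) (iwaC ⁻¹' boxC634)
          ≤ (iwaMC κ) (pBox142 ∪ {p | p.2.2.2 ∉ U2}) := measure_mono preimage_box_subset142
        _ ≤ (iwaMC κ) pBox142 + (iwaMC κ) {p | p.2.2.2 ∉ U2} := measure_union_le _ _
        _ = ENNReal.ofReal Real.pi := by rw [hB, hN, add_zero]
    · rw [← hB]
      apply measure_mono
      rw [boxC634_eq142]
      exact Set.subset_preimage_image _ _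
  rw [hμ', Measure.smul_apply, Measure.map_apply hmeas hbox, hP, smul_eq_mul]

example : H75.BoxCC75 := boxCC142

end Fermat.Agent.LT.T6.H142

end

end
-- ===== PACK-END LT/T6/H142/BoxC.lean

-- ===== PACK-BEGIN LT/T6/H179/LocRegOpen.lean
section







/-!
# Row LT, tower T6, leaf T6.18f `LocRegC783`: running top (helper179, integration)

OFF-MAIN.  ONE import closure with byte-identical copies of the DONE sub-leaves:
`NormalFormC179` (helper166), `RootC179` (helper962), `NearC179` glue (helper568),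
`NormOpenC179` (helper227), `TwC179` (helper179).  OPEN: `OrdC179` only.
-/

set_option autoImplicit false

namespace Fermat.Agent.LT.T6.H179

open Fermat.Agent.LT.T6 Fermat.Agent.LT.T6.H783

theorem nearC179 : NearC179 :=
  H568.nearC_of568 H166.normalFormC166 H962.rootC962

theorem normOpenC179 : NormOpenC179 := H227.normOpen_of227 nearC179

theorem twC179 : TwC179 := tw_of_near179 nearC179

/-- **`LocRegC783` is open in `OrdC179` only.** -/
theorem locReg_of_ord179 (h : OrdC179) : LocRegC783 :=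
  locReg_of_leaves179 normOpenC179 h twC179

end Fermat.Agent.LT.T6.H179

end
-- ===== PACK-END LT/T6/H179/LocRegOpen.lean

-- ===== PACK-BEGIN LT/T6/H842/EllPolar.lean
section






/-!
# Row LT, tower T6, leaf T6.27 (helper842): the polar decomposition with THE constant

OFF-MAIN.  `polarRC842`: for every Haar measure `μ` of `GL₂(ℝ)`, `PolarRC μ (cR634 μ)`
(`EllSpec.lean`), i.e. the polar decomposition on BOTH components with the constant
`c_I = μ(boxR634) / (2π)` of `H634`.  Inputs (all PROVED, byte-identical copies):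
`H189.iwasawaRC189`, `H189.rightInvRC189`, `H915.lintegral_polar915` (polar constant = Iwasawa
constant), `H820.boxR_measure820`.
-/

set_option autoImplicit false

open scoped Matrix
open MeasureTheory

noncomputable section

namespace Fermat.Agent.LT.T6.H842

open Fermat.Agent.LT.T6.H189 Fermat.Agent.LT.T6.H634

/-! ## 1. Dictionary -/

theorem zk_eq_scl_rot842 (v α : ℝ) : zk v α = sclR v * rotR α := by
  apply Units.ext
  ext i j
  fin_cases i <;> fin_cases j <;>
    simp [zkMat, sclR, dgR, rotR, Matrix.mul_apply, Fin.sum_univ_two]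

theorem aR_eq_atR842 (τ : ℝ) : aR τ = atR τ := by
  apply Units.ext
  ext i j
  fin_cases i <;> fin_cases j <;> simp [aMat, atR, dgR]

theorem zk_zero_eq_rot842 (β : ℝ) : zk 0 β = rotR β := by
  apply Units.ext
  ext i j
  fin_cases i <;> fin_cases j <;> simp [zkMat, rotR]

/-- The reordering of the coordinates `((τ, β), (v, α)) ↦ (v, α, τ, β)`. -/
def reord842 (q : (ℝ × ℝ) × (ℝ × ℝ)) : ℝ × ℝ × ℝ × ℝ := (q.2.1, q.2.2, q.1.1, q.1.2)

theorem measurable_reord842 : Measurable reord842 := by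
  unfold reord842
  fun_prop

theorem polR_reord842 (q : (ℝ × ℝ) × (ℝ × ℝ)) : polR (reord842 q) = polarMap 1 q := by
  unfold polR reord842 polarMap
  rw [zk_eq_scl_rot842 q.2.1 q.2.2, aR_eq_atR842, zk_zero_eq_rot842, mul_one]

theorem map_reord842 : Measure.map reord842 (radMeas.prod torMeas) = polMR := by
  have h1 : reord842 = (MeasurableEquiv.prodAssoc : (ℝ × ℝ) × (ℝ × ℝ) ≃ᵐ ℝ × ℝ × (ℝ × ℝ)) ∘
      (Prod.swap : (ℝ × ℝ) × (ℝ × ℝ) → (ℝ × ℝ) × (ℝ × ℝ)) := by
    funext q; rfl
  rw [h1, ← Measure.map_map MeasurableEquiv.prodAssoc.measurable measurable_swap,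
    Measure.prod_swap]
  unfold torMeas radMeas
  rw [Measure.prodAssoc_prod]
  rfl

/-! ## 2. The two components -/

theorem posR_compl_preimage842 :
    (fun x : GL (Fin 2) ℝ => x * wR) ⁻¹' posRᶜ = posR := by
  ext x
  simp only [Set.mem_preimage, Set.mem_compl_iff, posR, Set.mem_ofPred_eq, Units.val_mul,
    Matrix.det_mul, coe_wR842, det_wMat]
  have hx : (x : Matrix (Fin 2) (Fin 2) ℝ).det ≠ 0 := Matrix.GeneralLinearGroup.det_ne_zero x
  constructor
  · intro h
    rcases lt_or_gt_of_ne hx with h1 | h1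
    · exact absurd (by linarith : 0 < (x : Matrix (Fin 2) (Fin 2) ℝ).det * -1) h
    · exact h1
  · intro h h2
    linarith

/-- **The polar decomposition of a Haar measure of `GL₂(ℝ)`, both components, with the
constant `cR634 μ`.** -/
theorem polarRC842 (μ : @Measure (GL (Fin 2) ℝ) (borel _))
    (hμ : @Measure.IsHaarMeasure _ _ _ (borel _) μ) : 0 < cR634 μ ∧ _root_.Fermat.Agent.LT.T6.H842.PolarRC μ (cR634 μ) := by
  let _ : MeasurableSpace (GL (Fin 2) ℝ) := borel _
  have : BorelSpace (GL (Fin 2) ℝ) := ⟨rfl⟩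
  have : Measure.IsHaarMeasure μ := hμ
  obtain ⟨c, hc0, hct, hI⟩ := iwasawaRC189 μ hμ
  have hbox : μ boxR634 = c * ENNReal.ofReal (2 * Real.pi) :=
    Fermat.Agent.LT.T6.H820.boxR_measure820 μ c hI
  have hpi : (0 : ℝ) < 2 * Real.pi := by positivity
  have hcR : cR634 μ = c.toReal := by
    unfold cR634
    rw [hbox, ENNReal.toReal_mul, ENNReal.toReal_ofReal hpi.le]
    field_simp
  have hcpos : 0 < c.toReal := ENNReal.toReal_pos hc0 hct
  have hcof : ENNReal.ofReal (cR634 μ) = c := by rw [hcR, ENNReal.ofReal_toReal hct]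
  refine ⟨by rw [hcR]; exact hcpos, by rw [hcR]; exact hcpos, ?_⟩
  rw [hcof]
  have hpol := Fermat.Agent.LT.T6.H915.lintegral_polar915 cartanRC189 abelAreaRC189 μ c hct hI
  have hright : Measure.map (fun x : GL (Fin 2) ℝ => x * wR) μ = μ := (rightInvRC189 μ hμ).1 wR
  have hmw : Measurable fun x : GL (Fin 2) ℝ => x * wR :=
    (continuous_id.mul continuous_const).measurable
  have hposm : MeasurableSet posR := Fermat.Agent.LT.T6.H915.measurableSet_posR915
  have hpm1 : Measurable (polarMap 1) := (continuous_polarMap842 1).measurable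
  have hpmw : Measurable (polarMap wR) := (continuous_polarMap842 wR).measurable
  have key : ∀ F : GL (Fin 2) ℝ → ENNReal, Measurable F →
      ∫⁻ g in posR, F g ∂μ = c * ∫⁻ q, F (polarMap 1 q) ∂(radMeas.prod torMeas) := by
    intro F hF
    rw [hpol F hF, ← map_reord842,
      lintegral_map (f := fun p => F (polR p))
        (hF.comp Fermat.Agent.LT.T6.H915.measurable_polR915) measurable_reord842]
    simp only [polR_reord842]
  change μ = c • (Measure.map (polarMap 1) (radMeas.prod torMeas) +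
    Measure.map (polarMap wR) (radMeas.prod torMeas))
  refine Measure.ext_of_lintegral _ fun F hF => ?_
  rw [lintegral_smul_measure, lintegral_add_measure, lintegral_map hF hpm1,
    lintegral_map hF hpmw, smul_eq_mul, mul_add, ← lintegral_add_compl F hposm, key F hF]
  congr 1
  have h1 : ∫⁻ x in posRᶜ, F x ∂μ = ∫⁻ x in posR, F (x * wR) ∂μ := by
    conv_lhs => rw [← hright]
    rw [setLIntegral_map hposm.compl hF hmw, posR_compl_preimage842]
  rw [h1, key (fun x => F (x * wR)) (hF.comp hmw)]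
  congr 1
  refine lintegral_congr fun q => ?_
  simp only [polarMap, mul_one]

end Fermat.Agent.LT.T6.H842

end

end
-- ===== PACK-END LT/T6/H842/EllPolar.lean

-- ===== PACK-BEGIN LT/T6/H855/HypAbel.lean
section



/-!
# Row LT, tower T6, T6.25 `ArchHyp` (helper855): THE ABEL INTEGRALS

OFF-MAIN.  `x ↦ f(γ₀ n(x))` is continuous with compact support; linear changes of variables on
`ℝ` and on `ℂ` (the `ℝ`-linear map `w ↦ A w + B w̄` has determinant `|A|² - |B|²`).
-/

set_option autoImplicit false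

open scoped Matrix ENNReal
open MeasureTheory

noncomputable section

namespace Fermat.Agent.LT.T6.H855

open Fermat.Agent.LT.T6

section Field

variable {𝕜 : Type} [RCLike 𝕜]

theorem continuous_abel855 (f : GL (Fin 2) 𝕜 → ℂ) (hf : Continuous f) (γ₀ : GL (Fin 2) 𝕜) :
    Continuous (fun x : 𝕜 => f (γ₀ * nU855 x)) :=
  hf.comp (continuous_const.mul continuous_nU855)

theorem hasCompactSupport_abel855 (f : GL (Fin 2) 𝕜 → ℂ) (hf : HasCompactSupport f)
    (γ₀ : GL (Fin 2) 𝕜) : HasCompactSupport (fun x : 𝕜 => f (γ₀ * nU855 x)) := by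
  have hcont : Continuous (fun y : GL (Fin 2) 𝕜 =>
      ((γ₀⁻¹ * y : GL (Fin 2) 𝕜) : Matrix (Fin 2) (Fin 2) 𝕜) 0 1) :=
    (continuous_entry855 0 1).comp (continuous_const.mul continuous_id)
  obtain ⟨C, hC⟩ := hf.isCompact.exists_bound_of_continuousOn hcont.continuousOn
  refine HasCompactSupport.intro (isCompact_closedBall (0 : 𝕜) C) ?_
  intro x hx
  by_contra hne
  apply hx
  have hmem : γ₀ * nU855 x ∈ tsupport f := subset_tsupport f hne
  have h1 := hC _ hmem
  have h2 : ((γ₀⁻¹ * (γ₀ * nU855 x) : GL (Fin 2) 𝕜) : Matrix (Fin 2) (Fin 2) 𝕜) 0 1 = x := by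
    rw [inv_mul_cancel_left]
    simp
  rw [h2] at h1
  simpa [Metric.mem_closedBall, dist_zero_right] using h1

theorem integrable_abel855 [MeasurableSpace 𝕜] [BorelSpace 𝕜] (μ : Measure 𝕜)
    [IsFiniteMeasureOnCompacts μ] (f : GL (Fin 2) 𝕜 → ℂ) (hf : Continuous f)
    (hfs : HasCompactSupport f) (γ₀ : GL (Fin 2) 𝕜) :
    Integrable (fun x : 𝕜 => f (γ₀ * nU855 x)) μ :=
  (continuous_abel855 f hf γ₀).integrable_of_hasCompactSupport
    (hasCompactSupport_abel855 f hfs γ₀)

end Field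

/-! ## The real change of variables -/

theorem integrable_comp_mul855 (h : ℝ → ℂ) (hh : Integrable h) (c : ℝ) (hc : c ≠ 0) :
    Integrable (fun x : ℝ => h (c * x)) :=
  hh.comp_mul_left' hc

theorem integral_comp_mul855 (h : ℝ → ℂ) (c : ℝ) :
    ∫ x : ℝ, h (c * x) = ((|c|⁻¹ : ℝ) : ℂ) * ∫ v : ℝ, h v := by
  rw [Measure.integral_comp_mul_left, abs_inv]
  simp

/-! ## The complex change of variables -/

/-- The `ℝ`-linear map `w ↦ A w + B w̄` of `ℂ`. -/
def lAB855 (A B : ℂ) : ℂ →ₗ[ℝ] ℂ where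
  toFun w := A * w + B * (starRingEnd ℂ) w
  map_add' x y := by simp only [map_add]; ring
  map_smul' r x := by
    simp only [Complex.real_smul, map_mul, Complex.conj_ofReal, RingHom.id_apply]
    ring

@[simp] theorem lAB_apply855 (A B w : ℂ) : lAB855 A B w = A * w + B * (starRingEnd ℂ) w := rfl

theorem det_lAB855 (A B : ℂ) :
    LinearMap.det (lAB855 A B) = Complex.normSq A - Complex.normSq B := by
  rw [← LinearMap.det_toMatrix Complex.basisOneI, Matrix.det_fin_two]
  simp only [LinearMap.toMatrix_apply, Complex.coe_basisOneI_repr, Complex.coe_basisOneI,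
    lAB_apply855]
  simp [Complex.normSq_apply]
  ring

theorem map_lAB855 (A B : ℂ) (h : Complex.normSq A - Complex.normSq B ≠ 0) :
    Measure.map (lAB855 A B) (volume : Measure ℂ)
      = ENNReal.ofReal |(Complex.normSq A - Complex.normSq B)⁻¹| • (volume : Measure ℂ) := by
  have := Measure.map_linearMap_addHaar_eq_smul_addHaar (volume : Measure ℂ)
    (f := lAB855 A B) (by rw [det_lAB855]; exact h)
  rw [det_lAB855] at this
  exact this

theorem measurable_lAB855 (A B : ℂ) : Measurable (lAB855 A B) :=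
  (LinearMap.continuous_of_finiteDimensional (lAB855 A B)).measurable

theorem integrable_comp_lAB855 (h : ℂ → ℂ) (hc : Continuous h) (hh : Integrable h) (A B : ℂ)
    (hd : Complex.normSq A - Complex.normSq B ≠ 0) :
    Integrable (fun w : ℂ => h (A * w + B * (starRingEnd ℂ) w)) := by
  have h1 : Integrable h (Measure.map (lAB855 A B) (volume : Measure ℂ)) := by
    rw [map_lAB855 A B hd]
    exact hh.smul_measure ENNReal.ofReal_ne_top
  exact (integrable_map_measure hc.aestronglyMeasurable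
    (measurable_lAB855 A B).aemeasurable).mp h1

theorem integral_comp_lAB855 (h : ℂ → ℂ) (hc : Continuous h) (A B : ℂ)
    (hd : Complex.normSq A - Complex.normSq B ≠ 0) :
    ∫ w : ℂ, h (A * w + B * (starRingEnd ℂ) w)
      = ((|Complex.normSq A - Complex.normSq B|⁻¹ : ℝ) : ℂ) * ∫ z : ℂ, h z := by
  have h1 : ∫ z, h z ∂(Measure.map (lAB855 A B) (volume : Measure ℂ))
      = ∫ w : ℂ, h (lAB855 A B w) :=
    integral_map (measurable_lAB855 A B).aemeasurable hc.aestronglyMeasurable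
  simp only [lAB_apply855] at h1
  rw [← h1, map_lAB855 A B hd, integral_smul_measure,
    ENNReal.toReal_ofReal (abs_nonneg _), abs_inv]
  simp

end Fermat.Agent.LT.T6.H855

end

end
-- ===== PACK-END LT/T6/H855/HypAbel.lean

-- ===== PACK-BEGIN LT/T6/H863/SplitMatch.lean
section



/-!
# Row LT, tower T6, leaf T6.16 (`SplitMatchC`) -- helper863, OFF-MAIN

Part 8: **`splitMatchC_863 : Fermat.Agent.LT.T6.SplitMatchC`**, VERBATIM against the frozen
`Fermat/Agent/LT/T6/Spec.lean` (helper22, sha256 89f8f8b8...).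

Matching at a split place: for `δ = (δ_0, …, δ_{l-1}) ∈ GL₂(k)^l` with regular norm
`γ = δ_0 δ_1 ⋯ δ_{l-1}`, bi-`U(n)`-invariant `φ_j` of finite support and
`f = φ_0 * ⋯ * φ_{l-1}`, the twisted orbit sum of `φ_0 ⊗ ⋯ ⊗ φ_{l-1}` at `δ` (cyclic shift on
`GL₂(k)^l`) equals the orbit sum of `f` at `γ`.

The proof is the abstract theorem `split_match_abs_863` (any group, `Assemble.lean`) applied to
`G = GL₂(k)`, `U = U(n)`, `Cpt = ` integral trace and unit determinant (`GL2.lean`).  The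
hypothesis `IsLocalField k q` is not used.

Mathlib + `T6/Spec.lean` (frozen) only; every proof is complete.
-/

set_option autoImplicit false

open scoped Classical

noncomputable section

namespace Fermat.Agent.LT.T6.H863

open Fermat.Agent.LT.T6

theorem glAut_refl_863 (k : Type) [Field k] :
    glAut (RingEquiv.refl k) = MonoidHom.id (GL (Fin 2) k) := by
  unfold glAut
  exact Matrix.GeneralLinearGroup.map_id

theorem inTwCentC_refl_863 (k : Type) [Field k] [Valued k Γ₀] :
    InTwCentC (RingEquiv.refl k)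
      = fun (z t : GL (Fin 2) k) => t⁻¹ * z * t = z ∧ Cpt863 t := by
  funext z t
  apply propext
  unfold InTwCentC InTwCent Cpt863
  rw [glAut_refl_863]
  rfl

/-- **T6.16, `SplitMatchC`.** -/
theorem splitMatchC_863 : SplitMatchC := by
  intro k _ _ q l _ _ n φ f hbi hfs hf δ c c' hreg hc hc'
  have hmul : ∀ z : GL (Fin 2) k, (∃ g : GL (Fin 2) k, z = g⁻¹ * nm863 δ * g) →
      CptMul863 (Cpt863 (k := k)) z := by
    rintro z ⟨g, rfl⟩
    apply cptMul_863
    unfold IsReg
    rw [disc_conj_863]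
    exact hreg
  have hc1 : IsOrbSumGen (shift863 l)
      (fun u : Fin l → GL (Fin 2) k => ∀ j, u j ∈ Ugrp863 (k := k) n)
      (fun y t => t⁻¹ * y * shift863 l t = y ∧ ∀ j, Cpt863 (t j)) (tensor863 φ l) δ c := hc
  have hc2 : IsOrbSumGen (MonoidHom.id (GL (Fin 2) k)) (fun u => u ∈ Ugrp863 (k := k) n)
      (fun z t => t⁻¹ * z * t = z ∧ Cpt863 t) f (nm863 δ) c' := by
    have h := hc'
    unfold IsOrbSum IsTwOrbSum at h
    rw [inTwCentC_refl_863, glAut_refl_863] at h
    exact h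
  exact split_match_abs_863 (Ugrp863 (k := k) n) Cpt863 (cptData_863 n) φ f hbi hfs hf δ hmul
    c c' hc1 hc2

end Fermat.Agent.LT.T6.H863

end

end
-- ===== PACK-END LT/T6/H863/SplitMatch.lean

-- ===== PACK-BEGIN LT/T6/H888/PowReal.lean
section



/-!
# Row LT, tower T6, leaf T6.22.D (helper888): complex powers of positive reals, the function `η`

`pw888 c x = exp (c log x)` (`= (x : ℂ) ^ c` for `x > 0`), `eta888 t φ = cosh t - cos φ sinh t`.
-/

set_option autoImplicit false

open MeasureTheory Set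

noncomputable section

namespace Fermat.Agent.LT.T6.H888

/-- `x ^ c` for `x > 0` real and `c` complex. -/
def pw888 (c : ℂ) (x : ℝ) : ℂ := Complex.exp (c * ((Real.log x : ℝ) : ℂ))

theorem pw_eq_cpow888 (c : ℂ) {x : ℝ} (hx : 0 < x) : ((x : ℝ) : ℂ) ^ c = pw888 c x := by
  rw [Complex.cpow_def_of_ne_zero (by exact_mod_cast hx.ne'), ← Complex.ofReal_log hx.le,
    mul_comm]
  rfl

theorem pw_add888 (c d : ℂ) (x : ℝ) : pw888 (c + d) x = pw888 c x * pw888 d x := by
  unfold pw888; rw [add_mul, Complex.exp_add]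

theorem pw_one888 {x : ℝ} (hx : 0 < x) : pw888 1 x = x := by
  unfold pw888; rw [one_mul, ← Complex.ofReal_exp, Real.exp_log hx]

theorem pw_succ888 (c : ℂ) {x : ℝ} (hx : 0 < x) : pw888 (c + 1) x = x * pw888 c x := by
  rw [pw_add888, pw_one888 hx, mul_comm]

theorem pw_at_one888 (c : ℂ) : pw888 c 1 = 1 := by simp [pw888]

/-- `x^(c-1) = x · x^(c-2)`, in the form used below. -/
theorem pw_m1_888 (c : ℂ) {x : ℝ} (hx : 0 < x) : pw888 (c - 1) x = x * pw888 (c - 2) x := by
  have := pw_succ888 (c - 2) hx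
  rw [← this]; congr 1; ring

theorem pw_m0_888 (c : ℂ) {x : ℝ} (hx : 0 < x) :
    pw888 c x = (x : ℂ) ^ 2 * pw888 (c - 2) x := by
  have h1 := pw_succ888 (c - 1) hx
  rw [sub_add_cancel] at h1
  rw [h1, pw_m1_888 c hx]; ring

theorem pw_hasDerivAt888 (c : ℂ) {f : ℝ → ℝ} {f' x : ℝ} (hf : HasDerivAt f f' x)
    (hpos : 0 < f x) :
    HasDerivAt (fun t => pw888 c (f t)) (c * pw888 (c - 1) (f x) * f') x := by
  have h1 : HasDerivAt (fun t => ((Real.log (f t) : ℝ) : ℂ)) (((f' / f x : ℝ)) : ℂ) x :=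
    (hf.log hpos.ne').ofReal_comp
  have h2 := (h1.const_mul c).cexp
  refine h2.congr_deriv ?_
  have e : pw888 c (f x) = (f x : ℂ) * pw888 (c - 1) (f x) := by
    have := pw_succ888 (c - 1) hpos
    rwa [sub_add_cancel] at this
  have e' : Complex.exp (c * ((Real.log (f x) : ℝ) : ℂ)) = (f x : ℂ) * pw888 (c - 1) (f x) := e
  rw [e']
  have hne : ((f x : ℝ) : ℂ) ≠ 0 := by exact_mod_cast hpos.ne'
  push_cast
  field_simp

theorem pw_cont888 (c : ℂ) {X : Type*} [TopologicalSpace X] {f : X → ℝ} (hf : Continuous f)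
    (hpos : ∀ x, 0 < f x) : Continuous (fun x => pw888 c (f x)) := by
  unfold pw888
  exact Complex.continuous_exp.comp (continuous_const.mul
    (Complex.continuous_ofReal.comp (hf.log (fun x => (hpos x).ne'))))

/-- `η(t, φ) = cosh t - cos φ sinh t`. -/
def eta888 (t φ : ℝ) : ℝ := Real.cosh t - Real.cos φ * Real.sinh t

/-- `∂η/∂t`. -/
def etaT888 (t φ : ℝ) : ℝ := Real.sinh t - Real.cos φ * Real.cosh t

theorem eta_pos888 (t φ : ℝ) : 0 < eta888 t φ := by
  unfold eta888
  have h1 := Real.exp_pos t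
  have h2 := Real.exp_pos (-t)
  have h3 := Real.neg_one_le_cos φ
  have h4 := Real.cos_le_one φ
  rw [Real.cosh_eq, Real.sinh_eq]
  have e : (Real.exp t + Real.exp (-t)) / 2 - Real.cos φ * ((Real.exp t - Real.exp (-t)) / 2)
      = (1 - Real.cos φ) / 2 * Real.exp t + (1 + Real.cos φ) / 2 * Real.exp (-t) := by ring
  rw [e]
  rcases eq_or_lt_of_le h4 with h5 | h5
  · rw [h5]; norm_num; exact h2
  · have : 0 < (1 - Real.cos φ) / 2 * Real.exp t := by
      apply mul_pos _ h1; linarith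
    have : 0 ≤ (1 + Real.cos φ) / 2 * Real.exp (-t) := by
      apply mul_nonneg _ h2.le; linarith
    linarith

theorem eta_zero888 (φ : ℝ) : eta888 0 φ = 1 := by simp [eta888]

theorem eta_hasDerivAt888 (t φ : ℝ) : HasDerivAt (fun t => eta888 t φ) (etaT888 t φ) t := by
  unfold eta888 etaT888
  exact (Real.hasDerivAt_cosh t).sub ((Real.hasDerivAt_sinh t).const_mul _)

theorem etaT_hasDerivAt888 (t φ : ℝ) : HasDerivAt (fun t => etaT888 t φ) (eta888 t φ) t := by
  unfold eta888 etaT888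
  exact (Real.hasDerivAt_sinh t).sub ((Real.hasDerivAt_cosh t).const_mul _)

theorem eta_hasDerivAt_phi888 (t φ : ℝ) :
    HasDerivAt (fun φ => eta888 t φ) (Real.sin φ * Real.sinh t) φ := by
  unfold eta888
  have := ((Real.hasDerivAt_cos φ).mul_const (Real.sinh t)).const_sub (Real.cosh t)
  refine this.congr_deriv ?_
  ring

theorem eta_cont888 : Continuous (fun p : ℝ × ℝ => eta888 p.1 p.2) := by
  unfold eta888; fun_prop

theorem etaT_cont888 : Continuous (fun p : ℝ × ℝ => etaT888 p.1 p.2) := by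
  unfold etaT888; fun_prop

end Fermat.Agent.LT.T6.H888

end

end
-- ===== PACK-END LT/T6/H888/PowReal.lean

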