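import Mathlib
import Fermat.Agent.Pack.LT2.E0L2
import Fermat.Agent.Pack.LT2.E2L1
import Fermat.Agent.Pack.LT2.E5L3
import Fermat.Agent.Pack.LT3.E8L2
import Fermat.Agent.Pack.LT2.E9L3
import Fermat.Agent.Pack.LT3.E12L1
import Fermat.Agent.Pack.LT3.E15L0
import Fermat.Agent.Pack.LT3.E3L0
import Fermat.Agent.Pack.LT3.E0L3
import Fermat.Agent.Pack.LT3.E9L0
import Fermat.Agent.Pack.LT2.E10L1
import Fermat.Agent.Pack.LT3.E16L2
import Fermat.Agent.Pack.LT3.E16L1
import Fermat.Agent.Pack.LT3.E2L0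
import Fermat.Agent.Pack.LT3.E8L0
import Fermat.Agent.Pack.LT3.E17L2
import Fermat.Agent.Pack.LT3.E17L3

set_option linter.all false

-- ===== PACK-BEGIN LT/T2/H655/HeckePres.lean
section







/-!
# Row LT, tower T2, sub-leaf T2.07.02 `SubHeckePres429` (helper655) — OFF-MAIN

Spec bytes: `T2/H429/OpsSpec.lean` = helper429@dcf706097 (sha256 657e0d9a), `T2/Spec.lean`
(sha256 43969e81), `T1/Spec.lean` (sha256 e8ae48d6), `H556/A0.lean` (sha256 66d3374a);
asset `H129/*` = helper129@c463dcb1c (byte-identical copies).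

PROVED here: `subHeckePres655 : T2.H429.SubHeckePres429 K`, VERBATIM: Hecke sums at `v ∤ 𝔫`
preserve the cusp functions of level `U(𝔫)`.

* level invariance: for `u ∈ U(𝔫)` and `h ∈ H` there is a unique `h' ∈ H` with
  `h'⁻¹ u h ∈ U(𝔫)` (completeness of the coset system, `H129.heckeCosetSystem_complete129`), and
  `h ↦ h'` is a permutation of `H`;
* archimedean invariance: elements supported at an infinite place commute with elements
  supported at `v`;
* cuspidality: the constant term is an integral over a set of finite measure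
  (`T1.AddFundDomC` and `IsAddFundamentalDomain.measure_eq`), so it commutes with the finite sum.
-/

set_option autoImplicit false

open IsDedekindDomain NumberField MeasureTheory
open Fermat.Agent.LT.H556.A0 Fermat.Agent.LT.T2 Fermat.Agent.LT.H129

noncomputable section

namespace Fermat.Agent.LT.T2.H655

variable {K : Type} [Field K] [NumberField K]

/-! ## Integrality of the level group -/

/-- The closure of an ideal lies in `𝒪_v`. -/
theorem valued_le_one_of_mem_idealClosure655 {𝔫 : Ideal (𝓞 K)} {v : HeightOneSpectrum (𝓞 K)}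
    {x : v.adicCompletion K} (hx : x ∈ idealClosure 𝔫 v) : Valued.v x ≤ 1 := by
  have hcl : IsClosed ((v.adicCompletionIntegers K : Set (v.adicCompletion K))) :=
    Valued.isClosed_valuationSubring (v.adicCompletion K)
  have hsub : ((fun x : 𝓞 K => algebraMap K (v.adicCompletion K) (algebraMap (𝓞 K) K x)) ''
      (𝔫 : Set (𝓞 K))) ⊆ (v.adicCompletionIntegers K : Set (v.adicCompletion K)) := by
    rintro _ ⟨a, -, rfl⟩
    show Valued.v (algebraMap K (v.adicCompletion K) (algebraMap (𝓞 K) K a)) ≤ 1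
    have h1 : Valued.v (algebraMap K (v.adicCompletion K) (algebraMap (𝓞 K) K a))
        = v.valuation K (algebraMap (𝓞 K) K a) :=
      HeightOneSpectrum.valuedAdicCompletion_eq_valuation' v _
    rw [h1]
    exact HeightOneSpectrum.valuation_le_one v a
  exact closure_minimal hsub hcl hx

/-- The elements of the level group are integral at every finite place. -/
theorem isIntegralAt_of_inLevelGroup655 {𝔫 : Ideal (𝓞 K)} {u : G K} (hu : InLevelGroup 𝔫 u)
    (v : HeightOneSpectrum (𝓞 K)) : IsIntegralAt v u ∧ IsIntegralAt v u⁻¹ := by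
  have h1 : ∀ i j : Fin 2,
      Valued.v ((1 : Matrix (Fin 2) (Fin 2) (v.adicCompletion K)) i j) ≤ 1 := by
    intro i j
    by_cases hij : i = j
    · subst hij; simp
    · simp [hij]
  have key : ∀ (M : Matrix (Fin 2) (Fin 2) (v.adicCompletion K)) (i j : Fin 2),
      (M - 1) i j ∈ idealClosure 𝔫 v → Valued.v (M i j) ≤ 1 := by
    intro M i j h
    have h2 := valued_le_one_of_mem_idealClosure655 h
    have e : M i j = (M - 1) i j + (1 : Matrix (Fin 2) (Fin 2) (v.adicCompletion K)) i j := by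
      rw [Matrix.sub_apply, sub_add_cancel]
    rw [e]
    exact le_trans (Valuation.map_add _ _ _) (max_le h2 (h1 i j))
  exact ⟨fun i j => key _ i j (hu.2 v i j).1, fun i j => key _ i j (hu.2 v i j).2⟩


/-! ## The level group permutes the cosets -/

/-- The determinant of an element of `GL₂(𝒪_v)` is a unit. -/
theorem valued_det_eq_one655 {v : HeightOneSpectrum (𝓞 K)} {x : GL (Fin 2) (v.adicCompletion K)}
    (hx : IsInt129 (v.adicCompletionIntegers K) x)
    (hx' : IsInt129 (v.adicCompletionIntegers K) x⁻¹) :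
    Valued.v (x : Matrix (Fin 2) (Fin 2) (v.adicCompletion K)).det = 1 := by
  have h1 : Valued.v (x : Matrix (Fin 2) (Fin 2) (v.adicCompletion K)).det ≤ 1 :=
    det_mem_of_isInt129 hx
  have h2 : Valued.v ((x⁻¹ : GL (Fin 2) (v.adicCompletion K)) :
      Matrix (Fin 2) (Fin 2) (v.adicCompletion K)).det ≤ 1 := det_mem_of_isInt129 hx'
  have h3 : (x : Matrix (Fin 2) (Fin 2) (v.adicCompletion K)).det
      * ((x⁻¹ : GL (Fin 2) (v.adicCompletion K)) :
        Matrix (Fin 2) (Fin 2) (v.adicCompletion K)).det = 1 := by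
    rw [← Matrix.det_mul, ← Matrix.GeneralLinearGroup.coe_mul, mul_inv_cancel]
    simp
  have h4 := congrArg (Valued.v : v.adicCompletion K → _) h3
  rw [map_mul, map_one] at h4
  refine le_antisymm h1 ?_
  calc (1 : WithZero (Multiplicative ℤ))
      = Valued.v (x : Matrix (Fin 2) (Fin 2) (v.adicCompletion K)).det
        * Valued.v ((x⁻¹ : GL (Fin 2) (v.adicCompletion K)) :
          Matrix (Fin 2) (Fin 2) (v.adicCompletion K)).det := h4.symm
    _ ≤ Valued.v (x : Matrix (Fin 2) (Fin 2) (v.adicCompletion K)).det * 1 :=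
        mul_le_mul_right h2 _
    _ = Valued.v (x : Matrix (Fin 2) (Fin 2) (v.adicCompletion K)).det := mul_one _

/-- For `u ∈ U(𝔫)` and `h` in a Hecke coset system at `v ∤ 𝔫` there is `h'` in the system with
`h'⁻¹ u h ∈ U(𝔫)`. -/
theorem exists_mem_levelGroup655 {𝔫 : Ideal (𝓞 K)} {v : HeightOneSpectrum (𝓞 K)}
    (hv : ¬ v.asIdeal ∣ 𝔫) {H : Finset (G K)} (hH : IsHeckeCosetSystem v H) {u : G K}
    (hu : InLevelGroup 𝔫 u) {h : G K} (hh : h ∈ H) :
    ∃ h' ∈ H, InLevelGroup 𝔫 (h'⁻¹ * (u * h)) := by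
  obtain ⟨hu1, hu2⟩ := isIntegralAt_of_inLevelGroup655 hu v
  have hhH := hH.2.1 h hh
  have hint : IsIntegralAt v (u * h) := by
    rw [← isInt129_finCompHom_iff, map_mul]
    exact isInt129_mul hu1 hhH.2.1
  have hdet : Valued.v (finComp v (u * h)).det = WithZero.exp (-1 : ℤ) := by
    rw [← coe_finCompHom129, map_mul, Matrix.GeneralLinearGroup.coe_mul, Matrix.det_mul, map_mul,
      valued_det_eq_one655 (x := finCompHom129 v u) hu1 (by rw [← map_inv]; exact hu2), one_mul]
    exact hhH.2.2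
  obtain ⟨h', hh', hi1, hi2, -⟩ := heckeCosetSystem_complete129 hH hint hdet
  have hh'H := hH.2.1 h' hh'
  refine ⟨h', hh', fun w => ?_, fun v' i j => ?_⟩
  · rw [trivAtInf_iff129, map_mul, map_mul, map_inv,
      (trivAtInf_iff129 w h').1 (hh'H.1.1 w), (trivAtInf_iff129 w u).1 (hu.1 w),
      (trivAtInf_iff129 w h).1 (hhH.1.1 w)]
    simp
  · have h1 : ∀ i j : Fin 2,
        Valued.v ((1 : Matrix (Fin 2) (Fin 2) (v'.adicCompletion K)) i j) ≤ 1 := by
      intro i j
      by_cases hij : i = j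
      · subst hij; simp
      · simp [hij]
    by_cases hv' : v' = v
    · subst hv'
      have e : (h'⁻¹ * (u * h))⁻¹ = (u * h)⁻¹ * h' := by group
      constructor
      · apply dense_ideal129 hv
        rw [Matrix.sub_apply]
        exact le_trans (Valuation.map_sub _ _ _) (max_le (hi1 i j) (h1 i j))
      · apply dense_ideal129 hv
        rw [Matrix.sub_apply, e]
        exact le_trans (Valuation.map_sub _ _ _) (max_le (hi2 i j) (h1 i j))
    · have e1 : finCompHom129 v' (h'⁻¹ * (u * h)) = finCompHom129 v' u := by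
        rw [map_mul, map_mul, map_inv, (trivAtFin_iff129 v' h').1 (hh'H.1.2 v' hv'),
          (trivAtFin_iff129 v' h).1 (hhH.1.2 v' hv')]
        simp
      have e2 : finComp v' (h'⁻¹ * (u * h)) = finComp v' u := by
        rw [← coe_finCompHom129, e1]
        rfl
      have e3 : finComp v' (h'⁻¹ * (u * h))⁻¹ = finComp v' u⁻¹ := by
        rw [← coe_finCompHom129, map_inv, e1, ← map_inv]
        rfl
      rw [e2, e3]
      exact hu.2 v' i j

/-- **Level invariance of the Hecke sum.** -/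
theorem heckeSum_level_inv655 {𝔫 : Ideal (𝓞 K)} {v : HeightOneSpectrum (𝓞 K)}
    (hv : ¬ v.asIdeal ∣ 𝔫) {H : Finset (G K)} (hH : IsHeckeCosetSystem v H) {φ : G K → ℂ}
    (hφ : ∀ u : G K, InLevelGroup 𝔫 u → ∀ g : G K, φ (g * u) = φ g) {u : G K}
    (hu : InLevelGroup 𝔫 u) (g : G K) :
    ∑ h ∈ H, φ (g * u * h) = ∑ h ∈ H, φ (g * h) := by
  classical
  have key : ∀ h ∈ H, ∃ h' ∈ H, InLevelGroup 𝔫 (h'⁻¹ * (u * h)) :=
    fun h hh => exists_mem_levelGroup655 hv hH hu hh
  choose! σ hσ using key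
  have hinj : Set.InjOn σ (H : Set (G K)) := by
    intro h₁ hh₁ h₂ hh₂ he
    by_contra hne
    have k₁ := isIntegralAt_of_inLevelGroup655 (hσ h₁ hh₁).2 v
    have k₂ := isIntegralAt_of_inLevelGroup655 (hσ h₂ hh₂).2 v
    have e : h₁⁻¹ * h₂ = ((σ h₁)⁻¹ * (u * h₁))⁻¹ * ((σ h₂)⁻¹ * (u * h₂)) := by
      rw [he]; group
    apply hH.2.2 h₁ hh₁ h₂ hh₂ hne
    rw [e, ← isInt129_finCompHom_iff, map_mul]
    exact isInt129_mul ((isInt129_finCompHom_iff v _).2 k₁.2) ((isInt129_finCompHom_iff v _).2 k₂.1)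
  have hmaps : ∀ h ∈ H, σ h ∈ H := fun h hh => (hσ h hh).1
  have hsurj : Set.SurjOn σ (H : Set (G K)) (H : Set (G K)) :=
    Finset.surjOn_of_injOn_of_card_le σ hmaps hinj le_rfl
  refine Finset.sum_nbij σ hmaps hinj hsurj fun h hh => ?_
  have e : g * u * h = g * σ h * ((σ h)⁻¹ * (u * h)) := by group
  rw [e, hφ _ (hσ h hh).2]


/-! ## Archimedean invariance -/

/-- Elements supported at an infinite place commute with elements supported at a finite place. -/
theorem commute_inf_fin655 {w : InfinitePlace K} {v : HeightOneSpectrum (𝓞 K)} {z h : G K}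
    (hz : IsLocalAtInf w z) (hh : IsLocalAtFin v h) : z * h = h * z := by
  apply G_ext129
  · intro w'
    rw [map_mul, map_mul, (trivAtInf_iff129 w' h).1 (hh.1 w'), mul_one, one_mul]
  · intro v'
    rw [map_mul, map_mul, (trivAtFin_iff129 v' z).1 (hz.2 v'), mul_one, one_mul]

/-! ## Cuspidality -/

/-- A number field is countable. -/
theorem countable_numberField655 (K : Type) [Field K] [NumberField K] : Countable K :=
  (Module.finBasis ℚ K).equivFun.toEquiv.injective.countable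

/-- Every fundamental domain of `K` in `𝔸_K` has finite Haar measure. -/
theorem measure_fundDom_lt_top655 (hT : T1.AddFundDomC K) :
    letI : MeasurableSpace (Adl K) := borel (Adl K)
    ∀ μ : Measure (Adl K), μ.IsAddHaarMeasure → ∀ D : Set (Adl K),
      IsAddFundamentalDomain ((algebraMap K (Adl K)).toAddMonoidHom.range) D μ → μ D < ⊤ := by
  let _ : MeasurableSpace (Adl K) := borel (Adl K)
  have : BorelSpace (Adl K) := ⟨rfl⟩
  intro μ hμ D hD
  obtain ⟨D₀, -, hD₀, -, -, hfin⟩ := hT μ hμ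
  have : Countable K := countable_numberField655 K
  have : Countable ((algebraMap K (Adl K)).toAddMonoidHom.range) :=
    (Set.countable_range _).to_subtype
  have e : μ D = μ D₀ := hD.measure_eq hD₀
  rw [e]
  exact hfin

/-- The unipotent family is continuous. -/
theorem continuous_unip655 {n : Adl K → G K}
    (hn : ∀ x : Adl K, (n x : Matrix (Fin 2) (Fin 2) (Adl K)) = !![1, x; 0, 1]) :
    Continuous n := by
  have hinv : ∀ x : Adl K,
      (((n x)⁻¹ : G K) : Matrix (Fin 2) (Fin 2) (Adl K)) = !![1, -x; 0, 1] := by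
    intro x
    apply Units.inv_eq_of_mul_eq_one_right
    rw [hn x]
    ext i j
    fin_cases i <;> fin_cases j <;> simp [Matrix.mul_apply, Fin.sum_univ_two]
  rw [Units.continuous_iff]
  constructor
  · have e : (Units.val ∘ n) = fun x : Adl K => (!![1, x; 0, 1] : Matrix (Fin 2) (Fin 2) (Adl K)) :=
      funext hn
    rw [e]
    refine continuous_matrix fun i j => ?_
    fin_cases i <;> fin_cases j <;> simp <;> fun_prop
  · have e : (fun x : Adl K => (((n x)⁻¹ : G K) : Matrix (Fin 2) (Fin 2) (Adl K)))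
        = fun x : Adl K => (!![1, -x; 0, 1] : Matrix (Fin 2) (Fin 2) (Adl K)) := funext hinv
    rw [e]
    refine continuous_matrix fun i j => ?_
    fin_cases i <;> fin_cases j <;> simp <;> fun_prop

/-- The Hecke sum of a continuous bounded cuspidal function is cuspidal. -/
theorem cuspidal_heckeSum655 (hT : T1.AddFundDomC K) (H : Finset (G K)) {φ : G K → ℂ}
    (hc : Continuous φ) (hb : ∃ C : ℝ, ∀ g : G K, ‖φ g‖ ≤ C) (hcusp : IsCuspidalFn φ) :
    IsCuspidalFn (heckeSum H φ) := by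
  let _ : MeasurableSpace (Adl K) := borel (Adl K)
  have : BorelSpace (Adl K) := ⟨rfl⟩
  intro μ hμ D hD n hn g
  have hfin : μ D < ⊤ := measure_fundDom_lt_top655 hT μ hμ D hD
  have hncont : Continuous n := continuous_unip655 hn
  obtain ⟨C, hC⟩ := hb
  have : IsFiniteMeasure (μ.restrict D) :=
    ⟨by rw [Measure.restrict_apply_univ]; exact hfin⟩
  have hint : ∀ h ∈ H, Integrable (fun x : Adl K => φ (n x * g * h)) (μ.restrict D) := by
    intro h _
    refine Integrable.of_bound ?_ C (Filter.Eventually.of_forall fun x => hC _)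
    exact (hc.comp ((hncont.mul continuous_const).mul continuous_const)).aestronglyMeasurable
  show ∫ x in D, (∑ h ∈ H, φ (n x * g * h)) ∂μ = 0
  rw [integral_finsetSum _ hint]
  refine Finset.sum_eq_zero fun h _ => ?_
  have h0 := hcusp μ hμ D hD n hn (g * h)
  simp only [← mul_assoc] at h0
  exact h0

/-! ## The leaf -/

/-- **T2.07.02 `SubHeckePres429`**, VERBATIM. -/
theorem subHeckePres655 (K : Type) [Field K] [NumberField K] : T2.H429.SubHeckePres429 K := by
  intro 𝔫 ctx v hv H hH φ hφ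
  refine ⟨?_, ?_, ?_, ?_, ?_, ?_, ?_⟩
  · exact continuous_finsetSum H fun h _ => hφ.cont.comp (continuous_mul_const h)
  · obtain ⟨C, hC⟩ := hφ.bdd
    refine ⟨H.card * C, fun g => ?_⟩
    calc ‖heckeSum H φ g‖ = ‖∑ h ∈ H, φ (g * h)‖ := rfl
      _ ≤ ∑ h ∈ H, ‖φ (g * h)‖ := norm_sum_le _ _
      _ ≤ ∑ _h ∈ H, C := Finset.sum_le_sum fun h _ => hC _
      _ = H.card * C := by rw [Finset.sum_const, nsmul_eq_mul]
  · intro γ g
    show ∑ h ∈ H, φ (_ * g * h) = ∑ h ∈ H, φ (g * h)
    refine Finset.sum_congr rfl fun h _ => ?_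
    rw [mul_assoc, hφ.left_inv]
  · intro u hu g
    exact heckeSum_level_inv655 hv hH hφ.level_inv hu g
  · intro w z hz g
    show ∑ h ∈ H, φ (g * z * h) = ∑ h ∈ H, φ (g * h)
    refine Finset.sum_congr rfl fun h hh => ?_
    rw [mul_assoc, commute_inf_fin655 hz.1 (hH.2.1 h hh).1, ← mul_assoc, hφ.arch_scalar w z hz]
  · intro w k hk g
    show ∑ h ∈ H, φ (g * k * h) = ∑ h ∈ H, φ (g * h)
    refine Finset.sum_congr rfl fun h hh => ?_
    rw [mul_assoc, commute_inf_fin655 hk.1 (hH.2.1 h hh).1, ← mul_assoc, hφ.arch_compact w k hk]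
  · exact cuspidal_heckeSum655 ctx.t1.addFundDom H hφ.cont hφ.bdd hφ.cuspidal

end Fermat.Agent.LT.T2.H655

end

end
-- ===== PACK-END LT/T2/H655/HeckePres.lean

-- ===== PACK-BEGIN LT/T2/H75/CommHeckeHecke.lean
section







/-!
# Row LT, tower T2, sub-leaf T2.07.10 `SubCommHeckeHecke429`: CLOSED, unconditional (helper75)

OFF-MAIN.  Sub-spec: `LT/T2/H429/OpsSpec.lean` (helper429, sha256 657e0d9a, byte-identical copy)
on `LT/T2/Spec.lean` (v2, sha256 43969e81), `LT/H556/A0.lean`.  Assets: `LT/H129/*` of helper129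
(byte-identical copies; `heckeSum_indep129`, `G_ext129`, `inLevelGroup_of_localMaxCpt129`).
Nothing is assumed; in particular `Ctx429 K 𝔫` is not used and `SubHeckePres429` is not needed.

Two Hecke sums commute on the functions which are right invariant under the level group:

* `mul_comm_of_isLocalAtFin_ne75` : elements supported at two DIFFERENT finite places commute;
* `isHeckeCosetSystem_image75` : the left translate `u H` of a Hecke coset system at `v` by an
  element `u` of `GL₂(𝒪_v)` supported at `v` is a Hecke coset system at `v`;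
* `heckeSum_localInv75` : hence the Hecke sum of a function which is right invariant under the
  elements of `GL₂(𝒪_v)` supported at `v` is again right invariant under these elements;
* `heckeSum_comm_same75` : same place, two coset systems `H`, `H'`: `T_H T_H' φ = T_H' T_H φ`
  (both are `T_H T_H φ`, by the independence of the coset system `heckeSum_indep129`);
* `heckeSum_comm_ne75` : different places: `Finset.sum_comm` and the commutation of the elements;
* `subCommHeckeHecke75 : SubCommHeckeHecke429 K` (VERBATIM, registry row T2.07.10).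
-/

set_option autoImplicit false

open IsDedekindDomain NumberField IsDedekindDomain.HeightOneSpectrum
open Fermat.Agent.LT.H556.A0
open Fermat.Agent.LT.T2
open Fermat.Agent.LT.T2.H429
open Fermat.Agent.LT.H129

noncomputable section

namespace Fermat.Agent.LT.T2.H75

variable {K : Type} [Field K] [NumberField K]

/-- Elements of `G K` supported at two different finite places commute. -/
theorem mul_comm_of_isLocalAtFin_ne75 {v v' : HeightOneSpectrum (𝓞 K)} (hvv' : v ≠ v')
    {h h' : G K} (hh : IsLocalAtFin v h) (hh' : IsLocalAtFin v' h') : h * h' = h' * h := by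
  rw [isLocalAtFin_iff129] at hh hh'
  apply G_ext129
  · intro w
    rw [map_mul, map_mul, hh.1 w, hh'.1 w]
  · intro u
    rw [map_mul, map_mul]
    by_cases hu : u = v
    · have e : finCompHom129 u h' = 1 := hh'.2 u (fun e => hvv' (hu.symm.trans e))
      rw [e, mul_one, one_mul]
    · have e : finCompHom129 u h = 1 := hh.2 u hu
      rw [e, mul_one, one_mul]

/-- The determinant at `v` of an element of `GL₂(𝒪_v)` is a unit. -/
theorem valued_det_eq_one75 {v : HeightOneSpectrum (𝓞 K)} {u : G K}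
    (hu : IsLocalMaxCptAt129 v u) : Valued.v (finComp v u).det = 1 := by
  obtain ⟨-, hi, hi'⟩ := hu
  have h1 : Valued.v (finComp v u).det ≤ 1 := by
    have := det_mem_of_isInt129 (O := v.adicCompletionIntegers K) (g := finCompHom129 v u) hi
    rw [coe_finCompHom129] at this
    exact (mem_adicCompletionIntegers (K := K) (v := v)).mp this
  have h2 : Valued.v (finComp v u⁻¹).det ≤ 1 := by
    have := det_mem_of_isInt129 (O := v.adicCompletionIntegers K) (g := finCompHom129 v u⁻¹) hi'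
    rw [coe_finCompHom129] at this
    exact (mem_adicCompletionIntegers (K := K) (v := v)).mp this
  have h3 : Valued.v (finComp v u).det * Valued.v (finComp v u⁻¹).det = 1 := by
    rw [← map_mul, ← Matrix.det_mul, ← coe_finCompHom129, ← coe_finCompHom129,
      ← Matrix.GeneralLinearGroup.coe_mul, ← map_mul, mul_inv_cancel, map_one]
    simp
  refine le_antisymm h1 ?_
  by_contra hlt
  rw [not_le] at hlt
  have h4 : Valued.v (finComp v u).det * Valued.v (finComp v u⁻¹).det < 1 := by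
    calc Valued.v (finComp v u).det * Valued.v (finComp v u⁻¹).det
        ≤ Valued.v (finComp v u).det * 1 := mul_le_mul_right h2 _
      _ = Valued.v (finComp v u).det := mul_one _
      _ < 1 := hlt
  rw [h3] at h4
  exact lt_irrefl _ h4

/-- The left translate of a Hecke coset system at `v` by an element of `GL₂(𝒪_v)` supported at
`v` is a Hecke coset system at `v`. -/
theorem isHeckeCosetSystem_image75 [DecidableEq (G K)] {v : HeightOneSpectrum (𝓞 K)}
    {H : Finset (G K)} (hH : IsHeckeCosetSystem v H) {u : G K} (hu : IsLocalMaxCptAt129 v u) :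
    IsHeckeCosetSystem v (H.image (fun h => u * h)) := by
  obtain ⟨hcard, hmem, hne⟩ := hH
  refine ⟨?_, ?_, ?_⟩
  · rw [Finset.card_image_of_injective _ (mul_right_injective u), hcard]
  · intro x hx
    obtain ⟨h, hh, rfl⟩ := Finset.mem_image.mp hx
    obtain ⟨hl, hi, hd⟩ := hmem h hh
    refine ⟨isLocalAtFin_mul129 hu.1 hl, ?_, ?_⟩
    · have := isInt129_mul (O := v.adicCompletionIntegers K)
        (g := finCompHom129 v u) (h := finCompHom129 v h) hu.2.1 hi
      rw [← map_mul] at this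
      exact this
    · have e : finComp v (u * h) = finComp v u * finComp v h := by
        rw [← coe_finCompHom129, map_mul, Matrix.GeneralLinearGroup.coe_mul,
          coe_finCompHom129, coe_finCompHom129]
      rw [e, Matrix.det_mul, map_mul, valued_det_eq_one75 hu, one_mul, hd]
  · intro x hx y hy hxy
    obtain ⟨h, hh, rfl⟩ := Finset.mem_image.mp hx
    obtain ⟨h', hh', rfl⟩ := Finset.mem_image.mp hy
    have e : (u * h)⁻¹ * (u * h') = h⁻¹ * h' := by group
    rw [e]
    exact hne h hh h' hh' (fun e' => hxy (by rw [e']))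

/-- The Hecke sum of a function which is right invariant under the elements of `GL₂(𝒪_v)`
supported at `v` is right invariant under these elements. -/
theorem heckeSum_localInv75 {v : HeightOneSpectrum (𝓞 K)} {H : Finset (G K)}
    (hH : IsHeckeCosetSystem v H) {M : Type*} [AddCommMonoid M] (φ : G K → M)
    (hφ : ∀ u : G K, IsLocalMaxCptAt129 v u → ∀ g : G K, φ (g * u) = φ g)
    (u : G K) (hu : IsLocalMaxCptAt129 v u) (g : G K) :
    ∑ h ∈ H, φ (g * u * h) = ∑ h ∈ H, φ (g * h) := by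
  classical
  have h1 := heckeSum_indep129 (isHeckeCosetSystem_image75 hH hu) hH φ hφ g
  rw [Finset.sum_image (fun a _ b _ e => mul_right_injective u e)] at h1
  rw [← h1]
  exact Finset.sum_congr rfl (fun h _ => by rw [mul_assoc])

/-- Same place, two coset systems: the Hecke sums commute on the functions which are right
invariant under the elements of `GL₂(𝒪_v)` supported at `v`. -/
theorem heckeSum_comm_same75 {v : HeightOneSpectrum (𝓞 K)} {H H' : Finset (G K)}
    (hH : IsHeckeCosetSystem v H) (hH' : IsHeckeCosetSystem v H') (φ : G K → ℂ)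
    (hφ : ∀ u : G K, IsLocalMaxCptAt129 v u → ∀ g : G K, φ (g * u) = φ g) :
    heckeSum H (heckeSum H' φ) = heckeSum H' (heckeSum H φ) := by
  have e : heckeSum H' φ = heckeSum H φ := by
    funext g
    exact heckeSum_indep129 hH' hH φ hφ g
  rw [e]
  funext g
  exact heckeSum_indep129 hH hH' (heckeSum H φ)
    (fun u hu g => heckeSum_localInv75 hH φ hφ u hu g) g

/-- Different places: the Hecke sums commute on all functions. -/
theorem heckeSum_comm_ne75 {v v' : HeightOneSpectrum (𝓞 K)} (hvv' : v ≠ v')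
    {H H' : Finset (G K)} (hH : IsHeckeCosetSystem v H) (hH' : IsHeckeCosetSystem v' H')
    (φ : G K → ℂ) : heckeSum H (heckeSum H' φ) = heckeSum H' (heckeSum H φ) := by
  funext g
  show ∑ h ∈ H, ∑ h' ∈ H', φ (g * h * h') = ∑ h' ∈ H', ∑ h ∈ H, φ (g * h' * h)
  rw [Finset.sum_comm]
  refine Finset.sum_congr rfl (fun h' hh' => Finset.sum_congr rfl (fun h hh => ?_))
  rw [mul_assoc, mul_assoc,
    mul_comm_of_isLocalAtFin_ne75 hvv' (hH.2.1 h hh).1 (hH'.2.1 h' hh').1]

/-- Two Hecke sums at places prime to the level commute on the functions which are right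
invariant under the level group `U(𝔫)`. -/
theorem heckeSum_comm_level75 {𝔫 : Ideal (𝓞 K)} {v v' : HeightOneSpectrum (𝓞 K)}
    (hv : ¬ v.asIdeal ∣ 𝔫) {H H' : Finset (G K)}
    (hH : IsHeckeCosetSystem v H) (hH' : IsHeckeCosetSystem v' H') (φ : G K → ℂ)
    (hφ : ∀ u : G K, InLevelGroup 𝔫 u → ∀ g : G K, φ (g * u) = φ g) :
    heckeSum H (heckeSum H' φ) = heckeSum H' (heckeSum H φ) := by
  by_cases hvv' : v = v'
  · subst hvv'
    exact heckeSum_comm_same75 hH hH' φ
      (fun u hu => hφ u (inLevelGroup_of_localMaxCpt129 hv hu))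
  · exact heckeSum_comm_ne75 hvv' hH hH' φ

/-- **T2.07.10** (`SubCommHeckeHecke429`, VERBATIM): two Hecke sums commute on the cusp
functions.  Unconditional. -/
theorem subCommHeckeHecke75 (K : Type) [Field K] [NumberField K] : SubCommHeckeHecke429 K := by
  intro 𝔫 _ v hv H hH v' _ H' hH' φ hφ
  exact heckeSum_comm_level75 hv hH hH' φ hφ.level_inv

end Fermat.Agent.LT.T2.H75

end

end
-- ===== PACK-END LT/T2/H75/CommHeckeHecke.lean

-- ===== PACK-BEGIN LT/T6/H75/EllTwTop.lean
section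




/-!
# Row LT, tower T6, leaf T6.20e.2e (`H634.EllTwC634`): THE TOP of the cut (helper75)

OFF-MAIN.  No hole, nothing assumed beyond the hypotheses written in the statements.

`ellTwTop75 : EllTwTopC75`, i.e.

    CutIndepC75 → TorNormC75 → TwStdC75 → TorCommC75 → ProfC75 → BoxCC75 → H781.EllUpC →
      H189.ArchIntOut → H634.EllTwC634

from the core `twEllOrbital75` (`H75/TwEll.lean`).  Route: header of `H75/EllTwSpec.lean`.
-/

set_option autoImplicit false

open MeasureTheory Real Set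
open scoped Matrix ENNReal

noncomputable section

namespace Fermat.Agent.LT.T6.H75

open Fermat.Agent.LT.T6 Fermat.Agent.LT.T6.H189 Fermat.Agent.LT.T6.H517
open Fermat.Agent.LT.T6.H634 Fermat.Agent.LT.T6.H781

/-! ## Small facts -/

/-- `∫ f(|x|) dx = 2 ∫_{x>0} f(x) dx` for complex-valued functions (no integrability
hypothesis). -/
theorem integral_comp_abs75 {f : ℝ → ℂ} :
    ∫ x, f |x| = 2 * ∫ x in Ioi (0 : ℝ), f x := by
  have eq : ∫ (x : ℝ) in Ioi 0, f |x| = ∫ (x : ℝ) in Ioi 0, f x := by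
    refine setIntegral_congr_fun measurableSet_Ioi (fun _ hx => ?_)
    rw [abs_eq_self.mpr (le_of_lt (by exact hx))]
  by_cases hf : IntegrableOn (fun x => f |x|) (Ioi 0)
  · have int_Iic : IntegrableOn (fun x ↦ f |x|) (Iic 0) := by
      rw [← Measure.map_neg_eq_self (volume : Measure ℝ)]
      let m : MeasurableEmbedding fun x : ℝ => -x := (Homeomorph.neg ℝ).measurableEmbedding
      rw [m.integrableOn_map_iff]
      simp_rw [Function.comp_def, abs_neg, neg_preimage, neg_Iic, neg_zero]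
      exact Iff.mpr integrableOn_Ici_iff_integrableOn_Ioi hf
    calc
      _ = (∫ x in Iic 0, f |x|) + ∫ x in Ioi 0, f |x| := by
        rw [← setIntegral_union (Iic_disjoint_Ioi le_rfl) measurableSet_Ioi int_Iic hf,
          Iic_union_Ioi, Measure.restrict_univ]
      _ = 2 * ∫ x in Ioi 0, f x := by
        rw [two_mul, eq]
        congr! 1
        rw [← neg_zero, ← integral_comp_neg_Iic, neg_zero]
        refine setIntegral_congr_fun measurableSet_Iic (fun _ hx => ?_)
        rw [abs_eq_neg_self.mpr (by exact hx)]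
  · have : ¬ Integrable (fun x => f |x|) := by
      contrapose hf
      exact hf.integrableOn
    rw [← eq, integral_undef hf, integral_undef this, mul_zero]

/-- `rhoC ≥ 1`. -/
theorem one_le_rhoC75 (g : GL (Fin 2) ℂ) : 1 ≤ rhoC g := by
  have hdet : (g : Matrix (Fin 2) (Fin 2) ℂ).det ≠ 0 := Matrix.GeneralLinearGroup.det_ne_zero g
  have hpos : 0 < ‖(g : Matrix (Fin 2) (Fin 2) ℂ).det‖ := norm_pos_iff.mpr hdet
  rw [rhoC_eq75 g rfl, le_div_iff₀ (by positivity), one_mul]
  set M := (g : Matrix (Fin 2) (Fin 2) ℂ) with hM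
  have h1 : ‖M.det‖ ≤ ‖M 0 0‖ * ‖M 1 1‖ + ‖M 0 1‖ * ‖M 1 0‖ := by
    rw [Matrix.det_fin_two]
    calc ‖M 0 0 * M 1 1 - M 0 1 * M 1 0‖ ≤ ‖M 0 0 * M 1 1‖ + ‖M 0 1 * M 1 0‖ := norm_sub_le _ _
      _ = ‖M 0 0‖ * ‖M 1 1‖ + ‖M 0 1‖ * ‖M 1 0‖ := by rw [norm_mul, norm_mul]
  simp only [Complex.normSq_eq_norm_sq]
  nlinarith [sq_nonneg (‖M 0 0‖ - ‖M 1 1‖), sq_nonneg (‖M 0 1‖ - ‖M 1 0‖)]

/-- The positive real scalars are central in `GL₂(ℂ)`. -/
theorem sclC_mul_comm75 (r : ℝ) (g : GL (Fin 2) ℂ) : sclC r * g = g * sclC r := by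
  apply Units.ext
  rw [Units.val_mul, Units.val_mul]
  ext i j
  fin_cases i <;> fin_cases j <;>
    simp [sclC, dgC, Matrix.mul_apply, Fin.sum_univ_two, mul_comm]

/-- The complex conjugation fixes the real matrices. -/
theorem conjGL_map75 (t : GL (Fin 2) ℝ) :
    glAut (starRingAut : ℂ ≃+* ℂ) (Matrix.GeneralLinearGroup.map (algebraMap ℝ ℂ) t)
      = Matrix.GeneralLinearGroup.map (algebraMap ℝ ℂ) t := by
  apply Units.ext
  ext i j
  simp [glAut]

/-- `|det (map t)| = |det t|`. -/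
theorem norm_det_map75 (t : GL (Fin 2) ℝ) :
    ‖((Matrix.GeneralLinearGroup.map (algebraMap ℝ ℂ) t : GL (Fin 2) ℂ) :
      Matrix (Fin 2) (Fin 2) ℂ).det‖ = |(t : Matrix (Fin 2) (Fin 2) ℝ).det| := by
  have : ((Matrix.GeneralLinearGroup.map (algebraMap ℝ ℂ) t : GL (Fin 2) ℂ) :
      Matrix (Fin 2) (Fin 2) ℂ).det = (((t : Matrix (Fin 2) (Fin 2) ℝ).det : ℝ) : ℂ) := by
    rw [Matrix.det_fin_two, Matrix.det_fin_two]
    simp
  rw [this, Complex.norm_real, Real.norm_eq_abs]

/-- The tent function. -/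
def tent75 (u : ℝ) : ℝ := max 0 (1 - |u|)

theorem continuous_tent75 : Continuous tent75 := by
  unfold tent75
  fun_prop

theorem tent_nonneg75 (u : ℝ) : 0 ≤ tent75 u := le_max_left _ _

theorem tent_eq_zero75 {u : ℝ} (hu : 1 ≤ |u|) : tent75 u = 0 := by
  unfold tent75
  exact max_eq_left (by linarith)

theorem hasCompactSupport_tent75 : HasCompactSupport tent75 := by
  refine HasCompactSupport.intro (isCompact_Icc (a := (-1 : ℝ)) (b := 1)) ?_
  intro u hu
  apply tent_eq_zero75
  by_contra hcon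
  rw [not_le] at hcon
  exact hu ⟨(abs_lt.mp hcon).1.le, (abs_lt.mp hcon).2.le⟩

theorem integral_tent75 : ∫ u, tent75 u = 1 := by
  have key : ∫ u, tent75 u = 2 * ∫ v in Ioi (0 : ℝ), max 0 (1 - v) :=
    integral_comp_abs (f := fun v : ℝ => max 0 (1 - v))
  rw [key]
  have h1 : ∫ v in Ioi (0 : ℝ), max 0 (1 - v) = ∫ v in (0 : ℝ)..1, (1 - v) := by
    rw [intervalIntegral.integral_of_le zero_le_one,
      ← integral_indicator measurableSet_Ioi, ← integral_indicator measurableSet_Ioc]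
    congr 1
    funext v
    by_cases hv : v ∈ Ioi (0 : ℝ)
    · by_cases hv1 : v ≤ 1
      · rw [indicator_of_mem hv, indicator_of_mem (show v ∈ Ioc (0 : ℝ) 1 from ⟨hv, hv1⟩)]
        exact max_eq_right (by linarith)
      · rw [indicator_of_mem hv, indicator_of_notMem (fun h => hv1 h.2)]
        exact max_eq_left (by linarith [not_le.mp hv1])
    · rw [indicator_of_notMem hv, indicator_of_notMem (fun h => hv h.1)]
  rw [h1, intervalIntegral.integral_sub (by simp) (by simp)]
  simp [integral_id]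
  norm_num

/-- Left invariance of a Haar measure of `GL₂(ℂ)` (Borel σ-algebra passed explicitly). -/
theorem integral_mul_left_borel75 (μ' : @Measure (GL (Fin 2) ℂ) (borel _))
    (hμ' : @Measure.IsHaarMeasure _ _ _ (borel _) μ') (G : GL (Fin 2) ℂ → ℂ)
    (y : GL (Fin 2) ℂ) :
    @integral _ _ _ _ (borel _) μ' (fun x => G (y * x)) = @integral _ _ _ _ (borel _) μ' G := by
  let _ : MeasurableSpace (GL (Fin 2) ℂ) := borel _
  have : BorelSpace (GL (Fin 2) ℂ) := ⟨rfl⟩
  have : μ'.IsHaarMeasure := hμ'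
  exact integral_mul_left_eq_self G y

/-- The integral over `ℝ` of the elliptic kernel is twice `ellKer`. -/
theorem integral_ellKer75 (Ψ : ℝ → ℂ) (θ : ℝ) :
    ∫ σ : ℝ, (Real.cosh σ - Real.cos θ)⁻¹ • Ψ (Real.cosh σ) = 2 * ellKer Ψ θ := by
  have h := integral_comp_abs75
    (f := fun v : ℝ => (Real.cosh v - Real.cos θ)⁻¹ • Ψ (Real.cosh v))
  simp only [Real.cosh_abs] at h
  rw [h]
  congr 1
  unfold ellKer
  refine setIntegral_congr_fun measurableSet_Ioi (fun v _ => ?_)
  simp only [Complex.real_smul, Complex.ofReal_inv]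
  rw [div_eq_mul_inv, mul_comm]

/-! ## The top -/

/-- **THE TOP of the cut of `EllTwC634`.** -/
theorem ellTwTop75 : EllTwTopC75 := by
  intro h1 h2 h3a h3b h4 h5 h6 hInt μ' hμ' φ hφ γ hdisc μT hμT δ hδ β' hβ'c hβ'0 hβ'1
  -- the data
  obtain ⟨κ, hκ⟩ := hInt.haarU
  obtain ⟨c, hc0, hctop, hIw⟩ := hInt.iwaC κ hκ μ' hμ'
  have hD := det_pos_of_disc_neg634 γ hdisc
  have hsin := sin_thetaOf_ne_zero634 γ hdisc
  obtain ⟨hlam, hT⟩ := h2 γ hdisc μT hμT
  obtain ⟨y, hy⟩ := h3a γ hdisc δ hδ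
  obtain ⟨hprof, hΦ⟩ := h4 φ hφ _ hD
  have hbox := h5 κ hκ μ' c hIw
  set D : ℝ := (γ : Matrix (Fin 2) (Fin 2) ℝ).det with hDdef
  set θ : ℝ := thetaOf634 γ with hθdef
  set lam : ℝ := lamT634 γ μT with hlamdef
  have hcos : Real.cos θ < 1 := by
    rcases (Real.cos_le_one θ).lt_or_eq with h | h
    · exact h
    · exfalso
      have := Real.sin_sq_add_cos_sq θ
      rw [h] at this
      have h0 : Real.sin θ ^ 2 = 0 := by linarith
      exact hsin ((pow_eq_zero_iff (two_ne_zero)).mp h0)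
  have hpl : 0 < Real.pi * lam := mul_pos Real.pi_pos hlam
  -- the function `F`
  set F : GL (Fin 2) ℂ → ℂ := fun x => φ (x⁻¹ * δ * glAut (starRingAut : ℂ ≃+* ℂ) x) with hF
  have hFc : Continuous F := by
    have h1 : Continuous (fun x : GL (Fin 2) ℂ => x⁻¹ * δ * glAut (starRingAut : ℂ ≃+* ℂ) x) :=
      (continuous_id.inv.mul continuous_const).mul continuous_conjGL75
    exact hφ.cont.comp h1
  have hFinv : ∀ (t : twCentSub (MonoidHom.id (GL (Fin 2) ℝ)) γ) (x : GL (Fin 2) ℂ),
      F (Matrix.GeneralLinearGroup.map (algebraMap ℝ ℂ) (t : GL (Fin 2) ℝ) * x) = F x := by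
    intro t x
    simp only [hF]
    congr 1
    rw [map_mul, conjGL_map75, mul_inv_rev]
    have hcomm := h3b γ hdisc δ hδ t
    calc x⁻¹ * (Matrix.GeneralLinearGroup.map (algebraMap ℝ ℂ) (t : GL (Fin 2) ℝ))⁻¹ * δ *
          (Matrix.GeneralLinearGroup.map (algebraMap ℝ ℂ) (t : GL (Fin 2) ℝ) *
            glAut (starRingAut : ℂ ≃+* ℂ) x)
        = x⁻¹ * ((Matrix.GeneralLinearGroup.map (algebraMap ℝ ℂ) (t : GL (Fin 2) ℝ))⁻¹ *
            (δ * Matrix.GeneralLinearGroup.map (algebraMap ℝ ℂ) (t : GL (Fin 2) ℝ))) *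
            glAut (starRingAut : ℂ ≃+* ℂ) x := by simp only [mul_assoc]
      _ = x⁻¹ * δ * glAut (starRingAut : ℂ ≃+* ℂ) x := by
        rw [← hcomm, inv_mul_cancel_left]
  -- the cut-off `β₀`
  set h : ℝ → ℝ := fun u => tent75 u / (Real.pi * lam) with hh
  have hhc : Continuous h := continuous_tent75.div_const _
  have hhs : HasCompactSupport h := by
    refine HasCompactSupport.intro (isCompact_Icc (a := (-1 : ℝ)) (b := 1)) ?_
    intro u hu
    have : tent75 u = 0 := by
      apply tent_eq_zero75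
      by_contra hcon
      rw [not_le] at hcon
      exact hu ⟨(abs_lt.mp hcon).1.le, (abs_lt.mp hcon).2.le⟩
    simp only [hh, this, zero_div]
  have hhI : ∫ u, h u = 1 / (Real.pi * lam) := by
    simp only [hh]
    rw [integral_div, integral_tent75]
  set s₀ : ℝ := -Real.log ‖(y : Matrix (Fin 2) (Fin 2) ℂ).det‖ with hs₀
  set β₀ : GL (Fin 2) ℂ → ℝ :=
    fun x => h (Real.log ‖(x : Matrix (Fin 2) (Fin 2) ℂ).det‖ + s₀) with hβ₀
  have hβ₀c : Continuous β₀ := hhc.comp (continuous_log_norm_det75.add continuous_const)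
  have hβ₀0 : ∀ x, 0 ≤ β₀ x := fun x => div_nonneg (tent_nonneg75 _) hpl.le
  have hβ₀1 : ∀ x : GL (Fin 2) ℂ,
      @integral _ _ _ _ (borel _) μT
        (fun t : twCentSub (MonoidHom.id (GL (Fin 2) ℝ)) γ =>
          β₀ (Matrix.GeneralLinearGroup.map (algebraMap ℝ ℂ) (t : GL (Fin 2) ℝ) * x)) = 1 := by
    intro x
    have e : (fun t : twCentSub (MonoidHom.id (GL (Fin 2) ℝ)) γ =>
          β₀ (Matrix.GeneralLinearGroup.map (algebraMap ℝ ℂ) (t : GL (Fin 2) ℝ) * x))
        = fun t : twCentSub (MonoidHom.id (GL (Fin 2) ℝ)) γ =>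
          h (Real.log ((t : GL (Fin 2) ℝ) : Matrix (Fin 2) (Fin 2) ℝ).det
            + (Real.log ‖(x : Matrix (Fin 2) (Fin 2) ℂ).det‖ + s₀)) := by
      funext t
      simp only [hβ₀]
      congr 1
      rw [Matrix.GeneralLinearGroup.coe_mul, Matrix.det_mul, norm_mul, norm_det_map75,
        Real.log_mul (abs_ne_zero.mpr (Matrix.GeneralLinearGroup.det_ne_zero _))
          (norm_ne_zero_iff.mpr (Matrix.GeneralLinearGroup.det_ne_zero _)), Real.log_abs]
      ring_nf
    rw [e, hT h hhc hhs, hhI]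
    field_simp
  -- independence of the cut-off
  rw [h1 μ' hμ' γ hdisc μT hμT F hFc hFinv β' β₀ hβ'c hβ'0 hβ'1 hβ₀c hβ₀0 hβ₀1]
  -- left translation by `y`
  rw [← integral_mul_left_borel75 μ' hμ' (fun x => F x * (β₀ x : ℂ)) y]
  -- the radial profile
  set Φ : ℝ → ℂ := fun ρ => profC634 φ D (max ρ 1) with hΦdef
  have hΦc : Continuous Φ := by
    refine hprof.1.comp_continuous (continuous_id.max continuous_const) ?_
    intro ρ
    exact Set.mem_Ici.mpr (le_max_right ρ 1)
  obtain ⟨R, hR⟩ := hprof.2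
  have hΦM : VanishesAbove517 Φ R := by
    intro x hx
    exact hR _ (le_trans hx (le_max_left _ _))
  have hφz : ∀ g : GL (Fin 2) ℂ, ‖(g : Matrix (Fin 2) (Fin 2) ℂ).det‖ = 1 →
      (fun g => φ (sclC (Real.log D / 4) * g)) g = Φ (rhoC g) := by
    intro g hg
    simp only [hΦdef]
    rw [max_eq_left (one_le_rhoC75 g)]
    exact hΦ g hg
  have key := twEllOrbital75 κ hκ μ' hμ' c hIw (φ := fun g => φ (sclC (Real.log D / 4) * g))
    hΦc hΦM hφz hhc hhs hcos
  have e2 : (fun x : GL (Fin 2) ℂ => (fun x => F x * (β₀ x : ℂ)) (y * x))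
      = fun x : GL (Fin 2) ℂ =>
        (fun g => φ (sclC (Real.log D / 4) * g))
          (x⁻¹ * rotC75 (θ / 2) * glAut (starRingAut : ℂ ≃+* ℂ) x)
          * (h (Real.log ‖(x : Matrix (Fin 2) (Fin 2) ℂ).det‖) : ℂ) := by
    funext x
    simp only [hF, hβ₀]
    congr 2
    · rw [map_mul, mul_inv_rev]
      calc x⁻¹ * y⁻¹ * δ * (glAut (starRingAut : ℂ ≃+* ℂ) y * glAut (starRingAut : ℂ ≃+* ℂ) x)
          = x⁻¹ * (y⁻¹ * δ * glAut (starRingAut : ℂ ≃+* ℂ) y)
              * glAut (starRingAut : ℂ ≃+* ℂ) x := by simp only [mul_assoc]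
        _ = sclC (Real.log D / 4) *
              (x⁻¹ * rotC75 (θ / 2) * glAut (starRingAut : ℂ ≃+* ℂ) x) := by
          rw [hy]
          have hc := sclC_mul_comm75 (Real.log D / 4) x⁻¹
          unfold rotC75
          rw [← mul_assoc x⁻¹, ← hc]
          simp only [mul_assoc]
    · rw [Matrix.GeneralLinearGroup.coe_mul, Matrix.det_mul, norm_mul,
        Real.log_mul (norm_ne_zero_iff.mpr (Matrix.GeneralLinearGroup.det_ne_zero _))
          (norm_ne_zero_iff.mpr (Matrix.GeneralLinearGroup.det_ne_zero _))]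
      simp only [hs₀]
      ring_nf
  rw [e2, key, hhI, integral_ellKer75]
  -- the tail of `Φ` is the tail of the profile on `[1, ∞)`
  have htail : ellKer (twTail75 Φ) θ = ellKer (tailI (profC634 φ D)) θ := by
    unfold ellKer
    refine setIntegral_congr_fun measurableSet_Ioi (fun v _ => ?_)
    congr 1
    unfold twTail75 tailI
    refine setIntegral_congr_fun measurableSet_Ioi (fun x hx => ?_)
    simp only [hΦdef]
    rw [max_eq_left]
    exact le_trans (Real.one_le_cosh v) (le_of_lt hx)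
  rw [htail, h6 (profC634 φ D) hprof θ hsin]
  -- the constants
  have hcC : cC634 μ' = c.toReal := by
    unfold cC634
    rw [hbox, ENNReal.toReal_mul, ENNReal.toReal_ofReal Real.pi_pos.le]
    field_simp
  rw [hcC]
  have hpi : ((Real.pi : ℝ) : ℂ) ≠ 0 := by exact_mod_cast Real.pi_ne_zero
  have hlamC : ((lam : ℝ) : ℂ) ≠ 0 := by exact_mod_cast hlam.ne'
  push_cast
  field_simp
  ring

end Fermat.Agent.LT.T6.H75

end

end
-- ===== PACK-END LT/T6/H75/EllTwTop.lean

-- ===== PACK-BEGIN LT/T6/H967/TorNorm.lean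
section



/-!
# Row LT, tower T6, leaf T6.20e.2e.2 `H75.TorNormC75` (helper967), part 2: THE LEAF

OFF-MAIN.  `torNormC967 : H75.TorNormC75` VERBATIM (spec `H75/EllTwSpec.lean`, helper75).

`γ ∈ GL₂(ℝ)` elliptic, `T` its centraliser, `μT` a Haar measure of `T`, `f = log det : T → ℝ`.
The image `P = f_* μT` is invariant under translations (translate by the scalar `e^{s/2}`) and
finite on compact sets (the determinant bands are compact: `TorAlg.lean`), hence
`P = P [0,1] · Lebesgue` (uniqueness of the Haar measure of `ℝ`), and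
`P [0,2] = μT {1 ≤ det ≤ e²} = 2 π λ`.
-/

set_option autoImplicit false
set_option linter.style.haveILetI false

open scoped Matrix ENNReal
open MeasureTheory Topology

noncomputable section

namespace Fermat.Agent.LT.T6.H967

open Fermat.Agent.LT.T6 Fermat.Agent.LT.T6.H634 Fermat.Agent.LT.T6.H75

/-- `log det` on the centraliser. -/
def logDet967 (γ : GL (Fin 2) ℝ) (t : twCentSub (MonoidHom.id (GL (Fin 2) ℝ)) γ) : ℝ :=
  Real.log ((t : GL (Fin 2) ℝ) : Matrix (Fin 2) (Fin 2) ℝ).det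

theorem continuous_logDet967 (γ : GL (Fin 2) ℝ) (hγ : disc γ < 0) :
    Continuous (logDet967 γ) := by
  have h1 : Continuous fun t : twCentSub (MonoidHom.id (GL (Fin 2) ℝ)) γ =>
      ((t : GL (Fin 2) ℝ) : Matrix (Fin 2) (Fin 2) ℝ).det :=
    (Units.continuous_val.comp continuous_subtype_val).matrix_det
  exact h1.log fun t => (det_pos967 γ hγ t).ne'

/-- The scalar matrix `e^{s/2}` as an element of `GL₂(ℝ)`. -/
def scalG967 (s : ℝ) : GL (Fin 2) ℝ :=
  Matrix.GeneralLinearGroup.mkOfDetNeZero !![Real.exp (s / 2), 0; 0, Real.exp (s / 2)]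
    (by simp [Matrix.det_fin_two, Real.exp_ne_zero])

theorem scalG_mem967 (γ : GL (Fin 2) ℝ) (s : ℝ) :
    scalG967 s ∈ twCentSub (MonoidHom.id (GL (Fin 2) ℝ)) γ := by
  rw [mem_twCent_iff967]
  ext i j
  fin_cases i <;> fin_cases j <;>
    simp [scalG967, Matrix.mul_apply, Fin.sum_univ_two, mul_comm]

/-- The scalar `e^{s/2}` as an element of the centraliser. -/
def scal967 (γ : GL (Fin 2) ℝ) (s : ℝ) : twCentSub (MonoidHom.id (GL (Fin 2) ℝ)) γ :=
  ⟨scalG967 s, scalG_mem967 γ s⟩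

theorem det_scalG967 (s : ℝ) :
    ((scalG967 s : GL (Fin 2) ℝ) : Matrix (Fin 2) (Fin 2) ℝ).det = Real.exp s := by
  show (!![Real.exp (s / 2), 0; 0, Real.exp (s / 2)] : Matrix (Fin 2) (Fin 2) ℝ).det
    = Real.exp s
  rw [Matrix.det_fin_two_of, mul_zero, sub_zero, ← Real.exp_add]
  congr 1
  ring

theorem logDet_scal_mul967 (γ : GL (Fin 2) ℝ) (hγ : disc γ < 0) (s : ℝ)
    (t : twCentSub (MonoidHom.id (GL (Fin 2) ℝ)) γ) :
    logDet967 γ (scal967 γ s * t) = s + logDet967 γ t := by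
  have h1 : (((scal967 γ s * t : twCentSub (MonoidHom.id (GL (Fin 2) ℝ)) γ) : GL (Fin 2) ℝ) :
      Matrix (Fin 2) (Fin 2) ℝ)
      = ((scalG967 s : GL (Fin 2) ℝ) : Matrix (Fin 2) (Fin 2) ℝ)
        * ((t : GL (Fin 2) ℝ) : Matrix (Fin 2) (Fin 2) ℝ) := rfl
  unfold logDet967
  rw [h1, Matrix.det_mul, det_scalG967,
    Real.log_mul (Real.exp_ne_zero s) (det_pos967 γ hγ t).ne', Real.log_exp]

/-- The preimage of an interval under `log det` is a determinant band. -/
theorem logDet_preimage_Icc967 (γ : GL (Fin 2) ℝ) (hγ : disc γ < 0) (A B : ℝ) :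
    logDet967 γ ⁻¹' Set.Icc A B
      = {t : twCentSub (MonoidHom.id (GL (Fin 2) ℝ)) γ |
          Real.exp A ≤ ((t : GL (Fin 2) ℝ) : Matrix (Fin 2) (Fin 2) ℝ).det ∧
            ((t : GL (Fin 2) ℝ) : Matrix (Fin 2) (Fin 2) ℝ).det ≤ Real.exp B} := by
  ext t
  have hp := det_pos967 γ hγ t
  constructor
  · rintro ⟨h1, h2⟩
    exact ⟨(Real.le_log_iff_exp_le hp).1 h1, (Real.log_le_iff_le_exp hp).1 h2⟩
  · rintro ⟨h1, h2⟩
    exact ⟨(Real.le_log_iff_exp_le hp).2 h1, (Real.log_le_iff_le_exp hp).2 h2⟩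

/-- **T6.20e.2e.2**: the normalisation of the Haar measure of the elliptic torus. -/
theorem torNormC967 : TorNormC75 := by
  intro γ hγ μT hμT
  letI : MeasurableSpace (twCentSub (MonoidHom.id (GL (Fin 2) ℝ)) γ) := borel _
  haveI : BorelSpace (twCentSub (MonoidHom.id (GL (Fin 2) ℝ)) γ) := ⟨rfl⟩
  haveI : μT.IsHaarMeasure := hμT
  have hf : Continuous (logDet967 γ) := continuous_logDet967 γ hγ
  have hfm : Measurable (logDet967 γ) := hf.measurable
  -- the image measure
  obtain ⟨P, hPdef⟩ : ∃ P : Measure ℝ, P = Measure.map (logDet967 γ) μT := ⟨_, rfl⟩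
  have hPapp : ∀ S : Set ℝ, MeasurableSet S → P S = μT (logDet967 γ ⁻¹' S) := by
    intro S hS
    rw [hPdef, Measure.map_apply hfm hS]
  -- invariance under translations
  haveI : P.IsAddLeftInvariant := by
    refine ⟨fun s => ?_⟩
    have hc : Measurable fun t : twCentSub (MonoidHom.id (GL (Fin 2) ℝ)) γ => scal967 γ s * t :=
      (continuous_const_mul (scal967 γ s)).measurable
    have e : (fun y : ℝ => s + y) ∘ logDet967 γ
        = logDet967 γ ∘ fun t => scal967 γ s * t := by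
      funext t
      exact (logDet_scal_mul967 γ hγ s t).symm
    rw [hPdef, Measure.map_map (measurable_const_add s) hfm, e, ← Measure.map_map hfm hc,
      map_mul_left_eq_self]
  -- finiteness on the intervals
  have hfin : ∀ A B : ℝ, P (Set.Icc A B) < ⊤ := by
    intro A B
    rw [hPapp _ measurableSet_Icc, logDet_preimage_Icc967 γ hγ]
    exact (isCompact_detBand967 γ hγ _ _ (Real.exp_pos A)).measure_lt_top
  haveI : IsFiniteMeasureOnCompacts P := by
    refine ⟨fun K hK => ?_⟩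
    obtain ⟨r, hr⟩ := (Metric.isBounded_iff_subset_closedBall (0 : ℝ)).1 hK.isBounded
    rw [Real.closedBall_eq_Icc] at hr
    exact lt_of_le_of_lt (measure_mono hr) (hfin _ _)
  -- uniqueness of the Haar measure of `ℝ`
  obtain ⟨c, hc⟩ : ∃ c : ℝ≥0∞, P = c • (volume : Measure ℝ) := by
    refine ⟨P TopologicalSpace.PositiveCompacts.Icc01, ?_⟩
    have h := Measure.addHaarMeasure_unique P TopologicalSpace.PositiveCompacts.Icc01
    rwa [addHaarMeasure_eq_volume] at h
  -- the band of `lamT634`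
  have hS : μT {t | 1 ≤ ((t : GL (Fin 2) ℝ) : Matrix (Fin 2) (Fin 2) ℝ).det ∧
      ((t : GL (Fin 2) ℝ) : Matrix (Fin 2) (Fin 2) ℝ).det ≤ Real.exp 2} = c * 2 := by
    have h1 := hPapp (Set.Icc 0 2) measurableSet_Icc
    rw [logDet_preimage_Icc967 γ hγ, Real.exp_zero] at h1
    rw [← h1, hc, Measure.smul_apply, Real.volume_Icc, smul_eq_mul]
    norm_num
  have hSfin : μT {t | 1 ≤ ((t : GL (Fin 2) ℝ) : Matrix (Fin 2) (Fin 2) ℝ).det ∧
      ((t : GL (Fin 2) ℝ) : Matrix (Fin 2) (Fin 2) ℝ).det ≤ Real.exp 2} < ⊤ :=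
    (isCompact_detBand967 γ hγ _ _ one_pos).measure_lt_top
  have hSpos : 0 < μT {t | 1 ≤ ((t : GL (Fin 2) ℝ) : Matrix (Fin 2) (Fin 2) ℝ).det ∧
      ((t : GL (Fin 2) ℝ) : Matrix (Fin 2) (Fin 2) ℝ).det ≤ Real.exp 2} := by
    have hopen : IsOpen (logDet967 γ ⁻¹' Set.Ioo 0 2) := isOpen_Ioo.preimage hf
    have hne : (logDet967 γ ⁻¹' Set.Ioo 0 2).Nonempty := by
      refine ⟨scal967 γ 1, ?_⟩
      have h1 : logDet967 γ (scal967 γ 1) = 1 := by
        have := logDet_scal_mul967 γ hγ 1 1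
        rw [mul_one] at this
        rw [this]
        simp [logDet967]
      show logDet967 γ (scal967 γ 1) ∈ Set.Ioo (0 : ℝ) 2
      rw [h1]
      constructor <;> norm_num
    have hsub : logDet967 γ ⁻¹' Set.Ioo 0 2 ⊆
        {t | 1 ≤ ((t : GL (Fin 2) ℝ) : Matrix (Fin 2) (Fin 2) ℝ).det ∧
          ((t : GL (Fin 2) ℝ) : Matrix (Fin 2) (Fin 2) ℝ).det ≤ Real.exp 2} := by
      have h2 := logDet_preimage_Icc967 γ hγ 0 2
      rw [Real.exp_zero] at h2
      rw [← h2]
      exact Set.preimage_mono Set.Ioo_subset_Icc_self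
    exact lt_of_lt_of_le (hopen.measure_pos μT hne) (measure_mono hsub)
  have hlam : lamT634 γ μT = c.toReal / Real.pi := by
    unfold lamT634
    rw [hS, ENNReal.toReal_mul]
    have hpi : Real.pi ≠ 0 := Real.pi_ne_zero
    simp only [ENNReal.toReal_ofNat]
    field_simp
  have hcpos : 0 < c.toReal := by
    have h1 : c * 2 ≠ 0 := by rw [← hS]; exact hSpos.ne'
    have h2 : c * 2 ≠ ⊤ := by rw [← hS]; exact hSfin.ne
    have h3 : c ≠ 0 := fun h0 => h1 (by rw [h0, zero_mul])
    have h4 : c ≠ ⊤ := fun h0 => h2 (by rw [h0]; simp)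
    exact ENNReal.toReal_pos h3 h4
  refine ⟨?_, ?_⟩
  · rw [hlam]
    exact div_pos hcpos Real.pi_pos
  · intro h hh _ s
    have hg : Continuous fun y : ℝ => h (y + s) := hh.comp (continuous_id.add continuous_const)
    have e1 : ∫ t, h (Real.log ((t : GL (Fin 2) ℝ) : Matrix (Fin 2) (Fin 2) ℝ).det + s) ∂μT
        = ∫ y, h (y + s) ∂P := by
      rw [hPdef]
      exact (integral_map hfm.aemeasurable hg.aestronglyMeasurable).symm
    have e2 : ∫ y, h (y + s) ∂P = c.toReal * ∫ y, h y := by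
      rw [hc, integral_smul_measure, integral_add_right_eq_self, smul_eq_mul]
    have e3 : Real.pi * lamT634 γ μT = c.toReal := by
      rw [hlam]
      field_simp
    rw [e3]
    exact e1.trans e2

end Fermat.Agent.LT.T6.H967

end

end
-- ===== PACK-END LT/T6/H967/TorNorm.lean

-- ===== PACK-BEGIN LT/T6/H379/TwStd.lean
section




/-!
# Row LT, tower T6, leaf T6.20e.2e.3 `TwStdC75` (helper379)

OFF-MAIN.  `twStdC379 : H75.TwStdC75`, unconditional: if `δ δ̄ = γ` with `γ ∈ GL₂(ℝ)` elliptic,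
`D = det γ`, `θ = thetaOf634 γ`, then `y⁻¹ δ ȳ = D^{1/4} k_{θ/2}` for some `y ∈ GL₂(ℂ)`.

The algebra is `twStd_core379` (`TwStdCore.lean`, Mathlib only); here the half-angle formulas
(`half_angle379`) and the translation between `GL₂` and coordinates.
-/

set_option autoImplicit false

open scoped Matrix ComplexConjugate

noncomputable section

namespace Fermat.Agent.LT.T6.H379

open Fermat.Agent.LT.T6 Fermat.Agent.LT.T6.H189 Fermat.Agent.LT.T6.H634 Fermat.Agent.LT.T6.H75

/-- The half-angle formulas: `(D^{1/4} e^{iθ/2})² = m + i √(D - m²)`, `θ = arccos (m / √D)`. -/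
theorem half_angle379 (D m : ℝ) (hD : 0 < D) (hm : m ^ 2 < D) :
    (Real.exp (Real.log D / 4) * Real.cos (Real.arccos (m / Real.sqrt D) / 2)) ^ 2
        - (Real.exp (Real.log D / 4) * Real.sin (Real.arccos (m / Real.sqrt D) / 2)) ^ 2 = m ∧
      2 * (Real.exp (Real.log D / 4) * Real.cos (Real.arccos (m / Real.sqrt D) / 2))
        * (Real.exp (Real.log D / 4) * Real.sin (Real.arccos (m / Real.sqrt D) / 2))
        = Real.sqrt (D - m ^ 2) := by
  set r : ℝ := Real.exp (Real.log D / 4) with hr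
  set θ : ℝ := Real.arccos (m / Real.sqrt D) with hθ
  have hsD : 0 < Real.sqrt D := Real.sqrt_pos.2 hD
  have hsD2 : Real.sqrt D ^ 2 = D := Real.sq_sqrt hD.le
  -- `r² = √D`
  have hr2 : r ^ 2 = Real.sqrt D := by
    have h1 : (r ^ 2) ^ 2 = D := by
      rw [hr, ← Real.exp_nat_mul, ← Real.exp_nat_mul]
      have : ((2 : ℕ) : ℝ) * (((2 : ℕ) : ℝ) * (Real.log D / 4)) = Real.log D := by
        push_cast; ring
      rw [this, Real.exp_log hD]
    have h2 : 0 ≤ r ^ 2 := sq_nonneg r
    rw [← h1, Real.sqrt_sq h2]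
  -- `x = m / √D`
  have hx2 : (m / Real.sqrt D) ^ 2 < 1 := by
    rw [div_pow, hsD2, div_lt_one hD]
    exact hm
  have hx1 : -1 ≤ m / Real.sqrt D := by
    nlinarith [sq_nonneg (m / Real.sqrt D + 1), sq_nonneg (m / Real.sqrt D - 1)]
  have hx1' : m / Real.sqrt D ≤ 1 := by
    nlinarith [sq_nonneg (m / Real.sqrt D + 1), sq_nonneg (m / Real.sqrt D - 1)]
  have hcos : Real.cos θ = m / Real.sqrt D := Real.cos_arccos hx1 hx1'
  have hsin : Real.sin θ = Real.sqrt (1 - (m / Real.sqrt D) ^ 2) := Real.sin_arccos _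
  have hc2 : Real.cos θ = Real.cos (θ / 2) ^ 2 - Real.sin (θ / 2) ^ 2 := by
    have h := Real.cos_two_mul (θ / 2)
    have h' := Real.sin_sq_add_cos_sq (θ / 2)
    have e : 2 * (θ / 2) = θ := by ring
    rw [e] at h
    nlinarith
  have hs2 : Real.sin θ = 2 * Real.sin (θ / 2) * Real.cos (θ / 2) := by
    have h := Real.sin_two_mul (θ / 2)
    have e : 2 * (θ / 2) = θ := by ring
    rw [e] at h
    exact h
  constructor
  · have : (r * Real.cos (θ / 2)) ^ 2 - (r * Real.sin (θ / 2)) ^ 2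
        = r ^ 2 * (Real.cos (θ / 2) ^ 2 - Real.sin (θ / 2) ^ 2) := by ring
    rw [this, ← hc2, hcos, hr2]
    field_simp
  · have : 2 * (r * Real.cos (θ / 2)) * (r * Real.sin (θ / 2))
        = r ^ 2 * (2 * Real.sin (θ / 2) * Real.cos (θ / 2)) := by ring
    rw [this, ← hs2, hsin, hr2, ← Real.sqrt_mul hD.le]
    congr 1
    rw [div_pow, hsD2]
    field_simp

/-- **Leaf T6.20e.2e.3 `TwStdC75`.** -/
theorem twStdC379 : TwStdC75 := by
  intro γ hγ δ hδ
  -- the relation `δ δ̄ = γ`
  have h2 : δ * glAut (starRingAut : ℂ ≃+* ℂ) δ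
      = Matrix.GeneralLinearGroup.map (algebraMap ℝ ℂ) γ := by
    rw [← hδ]
    simp [twNorm, twN]
  have hent : ∀ i j : Fin 2,
      δ i 0 * conj (δ 0 j) + δ i 1 * conj (δ 1 j) = ((γ i j : ℝ) : ℂ) := by
    intro i j
    have := congrArg (fun g : GL (Fin 2) ℂ => g i j) h2
    simpa [Matrix.mul_apply, Fin.sum_univ_two, glAut] using this
  -- the real data
  have hdisc : (γ 0 0 + γ 1 1) ^ 2 - 4 * (γ 0 0 * γ 1 1 - γ 0 1 * γ 1 0) < 0 := by
    have := hγ
    unfold disc at this
    rw [Matrix.trace_fin_two, Matrix.det_fin_two] at this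
    exact this
  have hdetγ : (γ : Matrix (Fin 2) (Fin 2) ℝ).det = γ 0 0 * γ 1 1 - γ 0 1 * γ 1 0 :=
    Matrix.det_fin_two _
  set D : ℝ := γ 0 0 * γ 1 1 - γ 0 1 * γ 1 0 with hDdef
  set m : ℝ := (γ 0 0 + γ 1 1) / 2 with hmdef
  have hmD : m ^ 2 < D := by
    rw [hmdef]
    nlinarith
  have hD : 0 < D := lt_of_le_of_lt (sq_nonneg m) hmD
  have hθ : thetaOf634 γ = Real.arccos (m / Real.sqrt D) := by
    unfold thetaOf634
    rw [Matrix.trace_fin_two, hdetγ, hmdef]
    congr 1
    have : Real.sqrt D ≠ 0 := (Real.sqrt_pos.2 hD).ne'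
    field_simp
  obtain ⟨hu, hw⟩ := half_angle379 D m hD hmD
  have hnpos : 0 < Real.sqrt (D - m ^ 2) := Real.sqrt_pos.2 (by linarith)
  have hn2 : Real.sqrt (D - m ^ 2) ^ 2
      = γ 0 0 * γ 1 1 - γ 0 1 * γ 1 0 - ((γ 0 0 + γ 1 1) / 2) ^ 2 := by
    rw [Real.sq_sqrt (by linarith)]
  have hdetδ : δ 0 0 * δ 1 1 - δ 0 1 * δ 1 0 ≠ 0 := by
    have h := (Matrix.isUnits_det_units δ).ne_zero
    rwa [Matrix.det_fin_two] at h
  obtain ⟨y11, y12, y21, y22, hy, e11, e12, e21, e22⟩ :=
    twStd_core379 (γ 0 0) (γ 0 1) (γ 1 0) (γ 1 1) (Real.sqrt (D - m ^ 2))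
      (Real.exp (Real.log D / 4) * Real.cos (Real.arccos (m / Real.sqrt D) / 2))
      (Real.exp (Real.log D / 4) * Real.sin (Real.arccos (m / Real.sqrt D) / 2))
      (δ 0 0) (δ 0 1) (δ 1 0) (δ 1 1) hnpos.ne' hn2 hu hw hdetδ
      (hent 0 0) (hent 0 1) (hent 1 0) (hent 1 1)
  refine ⟨Matrix.GeneralLinearGroup.mkOfDetNeZero !![y11, y12; y21, y22]
    (by rwa [Matrix.det_fin_two_of]), ?_⟩
  rw [mul_assoc, inv_mul_eq_iff_eq_mul, hdetγ, hθ]
  apply Matrix.GeneralLinearGroup.ext
  intro i j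
  fin_cases i <;> fin_cases j
  · simp [Matrix.mul_apply, Fin.sum_univ_two, glAut, sclC, dgC, rotR, Matrix.vecMul,
      dotProduct]
    push_cast at e11 ⊢
    linear_combination e11
  · simp [Matrix.mul_apply, Fin.sum_univ_two, glAut, sclC, dgC, rotR, Matrix.vecMul,
      dotProduct]
    push_cast at e12 ⊢
    linear_combination e12
  · simp [Matrix.mul_apply, Fin.sum_univ_two, glAut, sclC, dgC, rotR, Matrix.vecMul,
      dotProduct]
    push_cast at e21 ⊢
    linear_combination e21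
  · simp [Matrix.mul_apply, Fin.sum_univ_two, glAut, sclC, dgC, rotR, Matrix.vecMul,
      dotProduct]
    push_cast at e22 ⊢
    linear_combination e22

end Fermat.Agent.LT.T6.H379

end
end
-- ===== PACK-END LT/T6/H379/TwStd.lean

-- ===== PACK-BEGIN LT/T6/H820/TorComm.lean
section


/-!
# Row LT, tower T6, leaf T6.20e.2e.4 `H75.TorCommC75` (helper820)

OFF-MAIN.  If `δ δ̄ = γ` with `γ ∈ GL₂(ℝ)` elliptic, every `t` in the centraliser of `γ` in
`GL₂(ℝ)` commutes with `δ`.

`δ δ̄ = γ` real gives `δ̄ δ = γ`, so `δ` commutes with `γ`; `γ₀₁ ≠ 0` (`disc γ < 0`), and two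
matrices commuting with a `2 × 2` matrix `G` with `G₀₁ ≠ 0` commute (`comm_of_comm820`, any field).
-/

set_option autoImplicit false

open scoped Matrix

noncomputable section

namespace Fermat.Agent.LT.T6.H820

open Fermat.Agent.LT.T6

/-- Two matrices commuting with a `2 × 2` matrix `G`, `G₀₁ ≠ 0`, commute (any field). -/
theorem comm_of_comm820 {F : Type*} [Field F] (G T D : Matrix (Fin 2) (Fin 2) F)
    (hb : G 0 1 ≠ 0) (hT : T * G = G * T) (hD : D * G = G * D) : T * D = D * T := by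
  have eT00 := congrFun (congrFun hT 0) 0
  have eT01 := congrFun (congrFun hT 0) 1
  have eD00 := congrFun (congrFun hD 0) 0
  have eD01 := congrFun (congrFun hD 0) 1
  simp only [Matrix.mul_apply, Fin.sum_univ_two] at eT00 eT01 eD00 eD01
  ext i j
  fin_cases i <;> fin_cases j
  · simp only [Matrix.mul_apply, Fin.sum_univ_two, Fin.zero_eta]
    apply mul_left_cancel₀ hb
    linear_combination (D 0 1) * eT00 - (T 0 1) * eD00
  · simp only [Matrix.mul_apply, Fin.sum_univ_two, Fin.zero_eta, Fin.mk_one]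
    apply mul_left_cancel₀ hb
    linear_combination (D 0 1) * eT01 - (T 0 1) * eD01
  · simp only [Matrix.mul_apply, Fin.sum_univ_two, Fin.zero_eta, Fin.mk_one]
    apply mul_left_cancel₀ hb
    apply mul_left_cancel₀ hb
    linear_combination (-(G 0 1 * (D 0 0 - D 1 1))) * eT00 - (D 0 1 * G 1 0) * eT01
      + (G 0 1 * (T 0 0 - T 1 1)) * eD00 + (T 0 1 * G 1 0) * eD01
  · simp only [Matrix.mul_apply, Fin.sum_univ_two, Fin.mk_one]
    apply mul_left_cancel₀ hb
    linear_combination (T 0 1) * eD00 - (D 0 1) * eT00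

/-- The matrix of the image in `GL₂(ℂ)` of a real matrix. -/
theorem coe_mapC820 (g : GL (Fin 2) ℝ) :
    ((Matrix.GeneralLinearGroup.map (algebraMap ℝ ℂ) g : GL (Fin 2) ℂ) :
        Matrix (Fin 2) (Fin 2) ℂ)
      = (g : Matrix (Fin 2) (Fin 2) ℝ).map (algebraMap ℝ ℂ) := rfl

/-- The complex conjugation fixes the image of `GL₂(ℝ)`. -/
theorem glAut_mapC820 (g : GL (Fin 2) ℝ) :
    glAut (starRingAut : ℂ ≃+* ℂ) (Matrix.GeneralLinearGroup.map (algebraMap ℝ ℂ) g)
      = Matrix.GeneralLinearGroup.map (algebraMap ℝ ℂ) g := by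
  apply Units.ext
  ext i j
  show (starRingAut : ℂ ≃+* ℂ) ((algebraMap ℝ ℂ) ((g : Matrix (Fin 2) (Fin 2) ℝ) i j))
    = (algebraMap ℝ ℂ) ((g : Matrix (Fin 2) (Fin 2) ℝ) i j)
  simp

/-- The complex conjugation is an involution of `GL₂(ℂ)`. -/
theorem glAut_glAut820 (x : GL (Fin 2) ℂ) :
    glAut (starRingAut : ℂ ≃+* ℂ) (glAut (starRingAut : ℂ ≃+* ℂ) x) = x := by
  apply Units.ext
  ext i j
  show (starRingAut : ℂ ≃+* ℂ) ((starRingAut : ℂ ≃+* ℂ) ((x : Matrix (Fin 2) (Fin 2) ℂ) i j))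
    = (x : Matrix (Fin 2) (Fin 2) ℂ) i j
  simp

theorem twNorm_two820 (δ : GL (Fin 2) ℂ) :
    twNorm (starRingAut : ℂ ≃+* ℂ) 2 δ = δ * glAut (starRingAut : ℂ ≃+* ℂ) δ := by
  unfold twNorm
  simp [twN]

/-- `disc γ < 0` forces `γ₀₁ ≠ 0`. -/
theorem entry_ne_zero_of_disc_neg820 (γ : GL (Fin 2) ℝ) (h : disc γ < 0) :
    (γ : Matrix (Fin 2) (Fin 2) ℝ) 0 1 ≠ 0 := by
  intro hb
  unfold disc at h
  rw [Matrix.trace_fin_two, Matrix.det_fin_two, hb] at h
  nlinarith [sq_nonneg ((γ : Matrix (Fin 2) (Fin 2) ℝ) 0 0 - (γ : Matrix (Fin 2) (Fin 2) ℝ) 1 1)]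

/-- **Leaf T6.20e.2e.4 `TorCommC75`.** -/
theorem torCommC820 : Fermat.Agent.LT.T6.H75.TorCommC75 := by
  intro γ hγ δ hδ t
  set Γ : GL (Fin 2) ℂ := Matrix.GeneralLinearGroup.map (algebraMap ℝ ℂ) γ with hΓ
  set T : GL (Fin 2) ℂ := Matrix.GeneralLinearGroup.map (algebraMap ℝ ℂ) (t : GL (Fin 2) ℝ)
    with hT
  rw [twNorm_two820] at hδ
  -- `δ̄ δ = γ`
  have h1 : glAut (starRingAut : ℂ ≃+* ℂ) δ * δ = Γ := by
    have := congrArg (glAut (starRingAut : ℂ ≃+* ℂ)) hδ
    rw [map_mul, glAut_glAut820, hΓ, glAut_mapC820] at this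
    exact this
  -- `δ` commutes with `γ`
  have hδΓ : δ * Γ = Γ * δ := by
    calc δ * Γ = δ * (glAut (starRingAut : ℂ ≃+* ℂ) δ * δ) := by rw [h1]
      _ = (δ * glAut (starRingAut : ℂ ≃+* ℂ) δ) * δ := by rw [mul_assoc]
      _ = Γ * δ := by rw [hδ]
  -- `t` commutes with `γ`
  have ht : (t : GL (Fin 2) ℝ)⁻¹ * γ * (t : GL (Fin 2) ℝ) = γ := t.2
  have htγ : (t : GL (Fin 2) ℝ) * γ = γ * (t : GL (Fin 2) ℝ) := by
    calc (t : GL (Fin 2) ℝ) * γ
        = (t : GL (Fin 2) ℝ) * ((t : GL (Fin 2) ℝ)⁻¹ * γ * (t : GL (Fin 2) ℝ)) := by rw [ht]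
      _ = γ * (t : GL (Fin 2) ℝ) := by simp [mul_assoc]
  have hTΓ : T * Γ = Γ * T := by
    rw [hT, hΓ, ← map_mul, ← map_mul, htγ]
  -- the entry
  have hb : (Γ : Matrix (Fin 2) (Fin 2) ℂ) 0 1 ≠ 0 := by
    rw [hΓ, coe_mapC820]
    show (algebraMap ℝ ℂ) ((γ : Matrix (Fin 2) (Fin 2) ℝ) 0 1) ≠ 0
    have := entry_ne_zero_of_disc_neg820 γ hγ
    simpa using this
  apply Units.ext
  rw [Matrix.GeneralLinearGroup.coe_mul, Matrix.GeneralLinearGroup.coe_mul]
  refine comm_of_comm820 (Γ : Matrix (Fin 2) (Fin 2) ℂ) _ _ hb ?_ ?_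
  · rw [← Matrix.GeneralLinearGroup.coe_mul, ← Matrix.GeneralLinearGroup.coe_mul, hTΓ]
  · rw [← Matrix.GeneralLinearGroup.coe_mul, ← Matrix.GeneralLinearGroup.coe_mul, hδΓ]

end Fermat.Agent.LT.T6.H820

end

end
-- ===== PACK-END LT/T6/H820/TorComm.lean

-- ===== PACK-BEGIN LT/T6/H392/SphFinSupp.lean
section



/-!
# Row LT, tower T6, sub-leaf T6.18i.0 `SphFinSuppC385` (helper392, registry row 1303) — OFF-MAIN

`sphFinSuppC392 : H385.SphFinSuppC385`, VERBATIM against `T6/H385/QuatSpec.lean`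
(sha256 `03a0bab8904d…`, helper385@3e19135ad) on `T6/Spec.lean` `8c5f2ae7a3cd…`.

Proof.  The Cartan invariant is dominant (`v(det g) ≤ entryMax g ^ 2`), so a `g` with
`F (cartan g) ≠ 0` has `cartan g = (n + b, b)` with `(n + b, b)` in the finite support of `F`, and
the Hermite normal form of helper305 (`T6/H305/Sys.lean`, `ResData.fam_cover`, byte-identical
copies of origin/helper305@21100fca5: `Basic` `43b683a7…`, `Digits` `0b08096c…`, `Mat` `95520e09…`,
`Hnf` `875cfd02…`, `Sys` `de1fcb16…`) puts `g` into one of the finitely many cosets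
`ϖ^b [[ϖ^i, r], [0, ϖ^j]] GL₂(𝒪)`, `i + j = n`, `r` in the digit system `R i`.
-/

set_option autoImplicit false

open scoped Matrix

noncomputable section

namespace Fermat.Agent.LT.T6.H392

open Fermat.Agent.LT.T6 Fermat.Agent.LT.T6.H305

variable {k : Type} [Field k] [Valued k Γ₀]

/-- The valuation of the determinant is at most the square of the largest valuation of an
entry. -/
theorem val_det_le_entryMax_sq392 (g : GL (Fin 2) k) :
    Valued.v (g : Matrix (Fin 2) (Fin 2) k).det ≤ entryMax g * entryMax g := by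
  rw [Matrix.det_fin_two]
  refine Valuation.map_sub_le _ ?_ ?_
  · rw [map_mul]; exact mul_le_mul' (le_entryMax g 0 0) (le_entryMax g 1 1)
  · rw [map_mul]; exact mul_le_mul' (le_entryMax g 0 1) (le_entryMax g 1 0)

/-- The Cartan invariant is dominant. -/
theorem cartan_dominant392 (g : GL (Fin 2) k) : (cartan g).2 ≤ (cartan g).1 := by
  have h1 : WithZero.log (Valued.v (g : Matrix (Fin 2) (Fin 2) k).det)
      ≤ WithZero.log (entryMax g * entryMax g) :=
    (WithZero.log_le_log (val_det_ne_zero g)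
      (mul_ne_zero (entryMax_ne_zero g) (entryMax_ne_zero g))).2 (val_det_le_entryMax_sq392 g)
  rw [WithZero.log_mul (entryMax_ne_zero g) (entryMax_ne_zero g)] at h1
  show - WithZero.log (entryMax g)
    ≤ WithZero.log (entryMax g) - WithZero.log (Valued.v (g : Matrix (Fin 2) (Fin 2) k).det)
  omega

/-- Every `g` lies in one of the explicit cosets of its Cartan type. -/
theorem exists_fam392 (D : ResData k) (g : GL (Fin 2) k) :
    ∃ x ∈ D.Idx ((cartan g).1 - (cartan g).2).toNat,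
      InU 0 ((D.fam (cartan g).2 x)⁻¹ * g) := by
  have hdom := cartan_dominant392 g
  have hc : cartan g
      = (((((cartan g).1 - (cartan g).2).toNat : ℕ) : ℤ) + (cartan g).2, (cartan g).2) := by
    rw [Int.toNat_of_nonneg (by omega)]
    exact Prod.ext (by simp) rfl
  obtain ⟨x, hx, hK⟩ := D.fam_cover (cartan g).2 ((cartan g).1 - (cartan g).2).toNat g hc
  exact ⟨x, hx, (inU_zero_iff _).2 hK⟩

/-- **T6.18i.0 `SphFinSuppC385`**: a function of the Cartan invariant with finite support on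
`ℤ × ℤ` is supported on finitely many cosets `x GL₂(𝒪)`. -/
theorem sphFinSuppC392 : H385.SphFinSuppC385 := by
  intro k _ _ q hk F
  obtain ⟨D, -⟩ := exists_resData hk
  classical
  refine ⟨F.support.biUnion
    (fun lam => (D.Idx (lam.1 - lam.2).toNat).image (D.fam lam.2)), ?_⟩
  intro g hg
  have hmem : cartan g ∈ F.support := Finsupp.mem_support_iff.mpr hg
  obtain ⟨x, hx, hU⟩ := exists_fam392 D g
  refine ⟨D.fam (cartan g).2 x, ?_, (D.fam (cartan g).2 x)⁻¹ * g, hU,
    (mul_inv_cancel_left _ _).symm⟩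
  exact Finset.mem_biUnion.2 ⟨cartan g, hmem, Finset.mem_image.2 ⟨x, hx, rfl⟩⟩

end Fermat.Agent.LT.T6.H392

end

end
-- ===== PACK-END LT/T6/H392/SphFinSupp.lean

-- ===== PACK-BEGIN LT/T6/H675/QuatCoreHilbert.lean
section


/-!
# Row LT, tower T6, leaf T6.18i.5 `QuatCoreRamC385` (owner helper675): SECOND ROUTE through the
# norm index of quadratic extensions (ALL residue characteristics) — OFF-MAIN

`NormIdxC675` : for a local field `k` and a non-square `D`, the nonzero values of `x² - D y²`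
(the norms from `k(√D)`) form a subgroup of index `2` of `k^×`, in elementwise form:
(i) some `a ≠ 0` is not a value, (ii) `a b` is a value iff (`a` is a value iff `b` is a value).
(= `h526_norm_exists_non`, `h526_norm_mul_iff` of helper526 `LT/T6/H526/NormIdx.lean`, at
`t = 0`, `n = -D`; from the local class field theory of main.)

`quatCoreRam_of_normIdx675 : NormIdxC675 → H385.QuatCoreRamC385` (no case distinction on `q`),
hence also `qcWild_of_normIdx675 : NormIdxC675 → QcWildC675`.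

Proof (Hilbert symbol, elementary).  `V_D` = values of `x² - D y²`.  SYMMETRY: `a ∈ V_b ⟺
b ∈ V_a`.  With `θ² = c`, `Δ = disc γ`: `N ⊇ V_c` (norms from `k'`), `N ⊇ V_{Δ/c}` (third
field), `N` is closed under products.  Take `a ∉ V_Δ`; then `Δ ∉ V_a`, so exactly one of `c`,
`Δ/c` lies in `V_a`, i.e. `a` lies in exactly one of `V_c`, `V_{Δ/c}`; if `z` is not in the other
one, `z a` is (product of two non-norms), and `z = (z a) · a · (a⁻¹)²`.
-/

set_option autoImplicit false

open scoped Matrix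

noncomputable section

namespace Fermat.Agent.LT.T6.H675

open Fermat.Agent.LT.T6 Fermat.Agent.LT.T6.H783 Fermat.Agent.LT.T6.H385

/-- `a` is a value of the norm form `x² - D y²`. -/
def IsVal675 {k : Type} [Field k] (D a : k) : Prop := ∃ x y : k, a = x ^ 2 - D * y ^ 2

/-- **The norm index of a quadratic extension of a local field is `2`** (elementwise form). -/
def NormIdxC675 : Prop :=
  ∀ (k : Type) [Field k] [Valued k Γ₀] (q : ℕ), IsLocalField k q →
    ∀ D : k, ¬ IsSquare D →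
      (∃ a : k, a ≠ 0 ∧ ¬ IsVal675 D a) ∧
      ∀ a b : k, a ≠ 0 → b ≠ 0 → (IsVal675 D (a * b) ↔ (IsVal675 D a ↔ IsVal675 D b))

section Sym

variable {k : Type} [Field k]

/-- Symmetry of the Hilbert symbol. -/
theorem isVal_symm675 (h2 : (2 : k) ≠ 0) {a b : k} (ha : a ≠ 0) (h : IsVal675 b a) :
    IsVal675 a b := by
  obtain ⟨x, y, hxy⟩ := h
  by_cases hy : y = 0
  · have hx : x ≠ 0 := by
      rintro rfl
      apply ha
      rw [hxy, hy]
      ring
    refine ⟨(b + 1) / 2, (1 - b) / (2 * x), ?_⟩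
    rw [hxy, hy]
    field_simp
    ring
  · refine ⟨x / y, 1 / y, ?_⟩
    rw [hxy]
    field_simp
    ring

theorem isVal_sq675 (D : k) {r : k} : IsVal675 D (r ^ 2) := ⟨r, 0, by ring⟩

end Sym

section Norms

variable {k k' : Type} [Field k] [Field k']
variable (i : k →+* k') (s : k' ≃+* k') (γ : GL (Fin 2) k)

/-- The norms from `k' = k(θ)`: `x² - c y²`. -/
theorem isNm_first675 (hs : ∀ x : k, s (i x) = i x) (θ : k') (c : k)
    (hθ : s θ = -θ) (hc : θ ^ 2 = i c) (x y : k) :
    IsNm675 (gam675 i γ) s (i (x ^ 2 - c * y ^ 2)) := by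
  refine isNm675_iff _ s _ (i x + i y * θ) 0 ?_ (by simp)
  simp only [map_add, map_mul, hs, hθ, map_sub, map_pow, ← hc, map_zero]
  ring

theorem isNm_of_isVal_first675 (hs : ∀ x : k, s (i x) = i x) (θ : k') (c : k)
    (hθ : s θ = -θ) (hc : θ ^ 2 = i c) {a : k} (h : IsVal675 c a) :
    IsNm675 (gam675 i γ) s (i a) := by
  obtain ⟨x, y, rfl⟩ := h
  exact isNm_first675 i s γ hs θ c hθ hc x y

theorem isNm_of_isVal_third675 (hs : ∀ x : k, s (i x) = i x) (θ : k') (c : k) (hθ0 : θ ≠ 0)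
    (hθ : s θ = -θ) (hc : θ ^ 2 = i c) {a : k} (h : IsVal675 (disc γ / c) a) :
    IsNm675 (gam675 i γ) s (i a) := by
  obtain ⟨x, y, rfl⟩ := h
  exact isNm_third675 i s γ hs θ c hθ0 hθ hc x y

end Norms

/-- **`QuatCoreRamC385` from the norm index theorem** (all residue characteristics). -/
theorem quatCoreRam_of_normIdx675 (hN : NormIdxC675) : QuatCoreRamC385 := by
  rw [quatCoreRamC385_iff675]
  intro k k' _ _ _ _ q i s hQ z hz γ hreg hell
  have hcyc := hQ.ext.cyc
  have hs : ∀ x : k, s (i x) = i x := hcyc.fix_i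
  have hss : ∀ y : k', s (s y) = y := fun y => by
    have := hcyc.order y
    rwa [pow_two] at this
  have : CharZero k := hQ.hk.char0
  have : CharZero k' := hQ.hk'.char0
  have hiz : i z ≠ 0 := (map_ne_zero i).mpr hz
  have h2k : (2 : k) ≠ 0 := two_ne_zero
  have h2k' : (2 : k') ≠ 0 := two_ne_zero
  refine isCoreNorm_of_isNm675 i s hs γ z hiz ?_
  by_cases hroot : ∃ x : k', x ^ 2 - i (γ : Matrix (Fin 2) (Fin 2) k).trace * x
      + i (γ : Matrix (Fin 2) (Fin 2) k).det = 0
  · obtain ⟨lam, hlam⟩ := hroot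
    have hne : s lam ≠ lam := by
      intro hfix
      obtain ⟨x, hx⟩ := hcyc.fixed lam hfix
      apply hell
      refine ⟨x, i.injective ?_⟩
      rw [map_zero, map_add, map_sub, map_mul, map_pow, hx]
      exact hlam
    exact isNm_root675 i s γ hs hss lam hlam hne z
  · rw [not_exists] at hroot
    obtain ⟨y, hy⟩ := hcyc.faithful 1 one_pos one_lt_two
    rw [pow_one] at hy
    have hθ0 : y - s y ≠ 0 := sub_ne_zero.mpr (Ne.symm hy)
    have hθ : s (y - s y) = -(y - s y) := by rw [map_sub, hss]; ring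
    have hfix : s ((y - s y) ^ 2) = (y - s y) ^ 2 := by rw [map_pow, hθ]; ring
    obtain ⟨c, hc⟩ := hcyc.fixed _ hfix
    have hc0 : c ≠ 0 := by
      intro h0
      rw [h0, map_zero] at hc
      exact hθ0 ((pow_eq_zero_iff two_ne_zero).mp hc.symm)
    have hΔ0 : disc γ ≠ 0 := hreg.ne_zero
    have hΔsq : ¬ IsSquare (disc γ) := by
      rintro ⟨r, hr⟩
      apply hell
      refine ⟨((γ : Matrix (Fin 2) (Fin 2) k).trace + r) / 2, ?_⟩
      unfold disc at hr
      field_simp
      linear_combination (-1 : k) * hr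
    have hΔcsq : ¬ IsSquare (disc γ * c) := by
      rintro ⟨r, hr⟩
      apply hroot ((i (γ : Matrix (Fin 2) (Fin 2) k).trace + i r / (y - s y)) / 2)
      have hr' : i (disc γ) * (y - s y) ^ 2 = i r * i r := by
        rw [← hc, ← map_mul, ← map_mul, hr]
      unfold disc at hr'
      simp only [map_sub, map_mul, map_pow, map_ofNat] at hr'
      field_simp
      linear_combination (-1 : k') * hr'
    -- `c` and `Δ / c` are not squares
    have hcsq : ¬ IsSquare c := by
      rintro ⟨r, hr⟩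
      have h1 : (y - s y - i r) * (y - s y + i r) = 0 := by
        have : (y - s y) ^ 2 = i r * i r := by rw [← hc, hr, map_mul]
        linear_combination this
      have hfix' : s (y - s y) = y - s y := by
        rcases mul_eq_zero.mp h1 with h | h
        · have : y - s y = i r := by linear_combination h
          rw [this, hs]
        · have : y - s y = i (-r) := by rw [map_neg]; linear_combination h
          rw [this, hs]
      rw [hθ] at hfix'
      apply hθ0
      have h2 : (2 : k') * (y - s y) = 0 := by linear_combination -hfix'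
      exact (mul_eq_zero.mp h2).resolve_left h2k'
    have hdsq : ¬ IsSquare (disc γ / c) := by
      rintro ⟨r, hr⟩
      apply hΔcsq
      refine ⟨r * c, ?_⟩
      have : disc γ = r * r * c := by
        field_simp at hr
        linear_combination hr
      rw [this]
      ring
    have hd0 : disc γ / c ≠ 0 := div_ne_zero hΔ0 hc0
    have hΓ := gam675_map i s hs γ
    -- a non-norm of `k(√Δ)`
    obtain ⟨a, ha0, haΔ⟩ := (hN k q hQ.hk (disc γ) hΔsq).1
    have hasq : ¬ IsSquare a := by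
      rintro ⟨r, hr⟩
      exact haΔ ⟨r, 0, by rw [hr]; ring⟩
    have hΔa : ¬ IsVal675 a (disc γ) := fun h => haΔ (isVal_symm675 h2k hΔ0 h)
    have hsplit := (hN k q hQ.hk a hasq).2 c (disc γ / c) hc0 hd0
    rw [mul_div_cancel₀ _ hc0] at hsplit
    have hne : ¬ (IsVal675 a c ↔ IsVal675 a (disc γ / c)) := fun h => hΔa (hsplit.mpr h)
    have hai : i a ≠ 0 := (map_ne_zero i).mpr ha0
    -- `z = (z a) · a · (a⁻¹)²`
    have hzdecomp : i z = i (z * a) * i a * i (a⁻¹ ^ 2) := by
      rw [← map_mul, ← map_mul]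
      congr 1
      field_simp
    have hsqinv : IsNm675 (gam675 i γ) s (i (a⁻¹ ^ 2)) := isNm_sq675 i s γ hs a⁻¹
    have hza0 : z * a ≠ 0 := mul_ne_zero hz ha0
    by_cases hac : IsVal675 a c
    · -- `a ∈ V_c`, `a ∉ V_{Δ/c}`
      have had : ¬ IsVal675 a (disc γ / c) := fun h => hne ⟨fun _ => h, fun _ => hac⟩
      have h1 : IsVal675 c a := isVal_symm675 h2k hc0 hac
      have h2 : ¬ IsVal675 (disc γ / c) a := fun h => had (isVal_symm675 h2k ha0 h)
      by_cases hzv : IsVal675 (disc γ / c) z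
      · exact isNm_of_isVal_third675 i s γ hs _ c hθ0 hθ hc.symm hzv
      · have h3 : IsVal675 (disc γ / c) (z * a) :=
          ((hN k q hQ.hk (disc γ / c) hdsq).2 z a hz ha0).mpr
            ⟨fun h => absurd h hzv, fun h => absurd h h2⟩
        rw [hzdecomp]
        exact ((isNm_of_isVal_third675 i s γ hs _ c hθ0 hθ hc.symm h3).mul hΓ
          (isNm_of_isVal_first675 i s γ hs _ c hθ hc.symm h1)).mul hΓ hsqinv
    · -- `a ∉ V_c`, `a ∈ V_{Δ/c}`
      have had : IsVal675 a (disc γ / c) := by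
        by_contra had
        exact hne ⟨fun h => absurd h hac, fun h => absurd h had⟩
      have h1 : IsVal675 (disc γ / c) a := isVal_symm675 h2k hd0 had
      have h2 : ¬ IsVal675 c a := fun h => hac (isVal_symm675 h2k ha0 h)
      by_cases hzv : IsVal675 c z
      · exact isNm_of_isVal_first675 i s γ hs _ c hθ hc.symm hzv
      · have h3 : IsVal675 c (z * a) :=
          ((hN k q hQ.hk c hcsq).2 z a hz ha0).mpr
            ⟨fun h => absurd h hzv, fun h => absurd h h2⟩
        rw [hzdecomp]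
        exact ((isNm_of_isVal_first675 i s γ hs _ c hθ hc.symm h3).mul hΓ
          (isNm_of_isVal_third675 i s γ hs _ c hθ0 hθ hc.symm h1)).mul hΓ hsqinv

/-- The dyadic leaf from the norm index theorem. -/
theorem qcWild_of_normIdx675 (hN : NormIdxC675) : QcWildC675 :=
  fun k k' _ _ _ _ q i s hQ _ z hz γ hreg hell _ =>
    (quatCoreRamC385_iff675.mp (quatCoreRam_of_normIdx675 hN)) k k' q i s hQ z hz γ hreg hell

end Fermat.Agent.LT.T6.H675

end

end
-- ===== PACK-END LT/T6/H675/QuatCoreHilbert.lean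

-- ===== PACK-BEGIN LT/T6/H276/QuatBdd.lean
section


/-!
# Row LT, tower T6, sub-leaf T6.18i.6b.2 `QuatBddC558` (registry 1532, helper276), OFF-MAIN

`quatBddC276 : Fermat.Agent.LT.T6.H558.QuatBddC558`, VERBATIM against
`LT/T6/H558/QuatSetSpec.lean` (helper558, sha256 `3a49f9f1…`) on `LT/T6/Spec.lean`
(helper22, sha256 `8c5f2ae7…`).  Mathlib + the spec closure only.

Route (as in the doc-comment of the Prop):
* `t δ₀ = δ₀ σ(t)` gives `t = [[a, z σ(c)], [c, σ(a)]]` (`twCent_entries276`), so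
  `det t = N a - z N c`;
* ANISOTROPY WITH A CONSTANT (`aniso276`): `|N a|, |z N c| ≤ max (1, 1/|4|)` when
  `|N a - z N c| = 1`: if `|N a| ≠ |z N c|` the valuation of the difference is the maximum; if
  they are equal, `ρ = N a / (z N c)` is fixed by `σ`, `ρ = i ρ₀`, and `|ρ₀ - 1| < |4|` would make
  `ρ₀` a square in `k` (`exists_sqrt276`, Newton for `W ↦ W² + c`; the ONLY use of
  completeness), so that `z` would be a norm;
* the four entries are then bounded by `max (1, 1/|4|) · max (1, 1/|z|) · max (1, |z|)`.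
-/

set_option autoImplicit false

open scoped Matrix

noncomputable section

namespace Fermat.Agent.LT.T6.H276

open Fermat.Agent.LT.T6 Fermat.Agent.LT.T6.H783 Fermat.Agent.LT.T6.H385
  Fermat.Agent.LT.T6.H558

/-! ## 1. Square roots near `1` (the only use of completeness) -/

section Root

open Filter Topology

/-- In `ℤᵐ⁰`, `x < 1` implies `x ≤ exp (-1)`. -/
theorem le_exp_neg_one_qb276 {x : Γ₀} (h : x < 1) : x ≤ WithZero.exp (-1 : ℤ) := by
  by_cases hx : x = 0
  · rw [hx]; exact zero_le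
  · rw [← WithZero.exp_log hx] at h ⊢
    rw [← WithZero.exp_zero, WithZero.exp_lt_exp] at h
    rw [WithZero.exp_le_exp]
    omega

variable {k : Type} [Field k] [Valued k Γ₀]

/-- The iteration `Y ↦ Y² + c` from `0`. -/
def sqSeq276 (c : k) : ℕ → k
  | 0 => 0
  | (n + 1) => (sqSeq276 c n) ^ 2 + c

theorem sqSeq_val276 (c : k) (hc : Valued.v c < 1) (n : ℕ) :
    Valued.v (sqSeq276 c n) ≤ Valued.v c := by
  induction n with
  | zero => simp [sqSeq276]
  | succ n ih =>
    show Valued.v ((sqSeq276 c n) ^ 2 + c) ≤ Valued.v c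
    refine le_trans (Valuation.map_add _ _ _) (max_le ?_ le_rfl)
    rw [Valuation.map_pow, pow_two]
    calc Valued.v (sqSeq276 c n) * Valued.v (sqSeq276 c n)
        ≤ Valued.v c * 1 := mul_le_mul' ih (le_trans ih hc.le)
      _ = Valued.v c := mul_one _

theorem sqSeq_step276 (c : k) (hc : Valued.v c < 1) (n : ℕ) :
    Valued.v (sqSeq276 c (n + 1) - sqSeq276 c n) ≤ Valued.v c ^ (n + 1) := by
  induction n with
  | zero => simp [sqSeq276]
  | succ n ih =>
    have h1 : sqSeq276 c (n + 1 + 1) - sqSeq276 c (n + 1)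
        = (sqSeq276 c (n + 1) - sqSeq276 c n) * (sqSeq276 c (n + 1) + sqSeq276 c n) := by
      show (sqSeq276 c (n + 1)) ^ 2 + c - ((sqSeq276 c n) ^ 2 + c) = _
      ring
    rw [h1, Valuation.map_mul, pow_succ (Valued.v c) (n + 1)]
    refine mul_le_mul' ih ?_
    exact le_trans (Valuation.map_add _ _ _)
      (max_le (sqSeq_val276 c hc _) (sqSeq_val276 c hc _))

theorem sqSeq_diff276 (c : k) (hc : Valued.v c < 1) (n m : ℕ) (h : n ≤ m) :
    Valued.v (sqSeq276 c m - sqSeq276 c n) ≤ Valued.v c ^ (n + 1) := by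
  induction m, h using Nat.le_induction with
  | base => simp
  | succ m hm ih =>
    have h1 : sqSeq276 c (m + 1) - sqSeq276 c n
        = (sqSeq276 c (m + 1) - sqSeq276 c m) + (sqSeq276 c m - sqSeq276 c n) := by ring
    rw [h1]
    refine le_trans (Valuation.map_add _ _ _) (max_le ?_ ih)
    refine le_trans (sqSeq_step276 c hc m) ?_
    exact pow_le_pow_right_of_le_one' hc.le (by omega)

theorem sqSeq_cauchy276 (c : k) (hc : Valued.v c < 1) : CauchySeq (sqSeq276 c) := by
  rw [(Valued.hasBasis_uniformity k Γ₀).cauchySeq_iff]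
  intro γ _
  set g : Γ₀ := MonoidWithZeroHom.ValueGroup₀.embedding γ.1 with hg
  have hγ : g ≠ 0 := by
    rw [hg]; exact (map_ne_zero _).mpr γ.ne_zero
  set a : ℤ := WithZero.log g with ha
  have hbound : ∀ n : ℕ, (-a).toNat ≤ n → Valued.v c ^ (n + 1) < g := by
    intro n hn
    have h1 : Valued.v c ^ (n + 1) ≤ WithZero.exp (-1 : ℤ) ^ (n + 1) :=
      pow_le_pow_left' (le_exp_neg_one_qb276 hc) _
    have h2 : WithZero.exp (-1 : ℤ) ^ (n + 1) = WithZero.exp (((n + 1 : ℕ)) • (-1 : ℤ)) :=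
      (WithZero.exp_nsmul _ _).symm
    have h3 : WithZero.exp (((n + 1 : ℕ)) • (-1 : ℤ)) < g := by
      rw [← WithZero.exp_log hγ, WithZero.exp_lt_exp]
      have := Int.self_le_toNat (-a)
      simp only [nsmul_eq_mul, Nat.cast_add, Nat.cast_one]
      omega
    exact lt_of_le_of_lt (h1.trans h2.le) h3
  refine ⟨(-a).toNat, fun m hm n hn => ?_⟩
  show Valued.v.restrict (sqSeq276 c n - sqSeq276 c m) < γ.1
  rw [Valuation.restrict_lt_iff_lt_embedding]
  rcases le_total m n with hmn | hnm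
  · exact lt_of_le_of_lt (sqSeq_diff276 c hc m n hmn) (hbound m hm)
  · have h1 : sqSeq276 c n - sqSeq276 c m = -(sqSeq276 c m - sqSeq276 c n) := by ring
    rw [h1, Valuation.map_neg]
    exact lt_of_le_of_lt (sqSeq_diff276 c hc n m hnm) (hbound n hn)

/-- A fixed point of `Y ↦ Y² + c` for `v c < 1` in a complete valued field. -/
theorem exists_sqfix276 [CompleteSpace k] (c : k) (hc : Valued.v c < 1) :
    ∃ Y : k, Y = Y ^ 2 + c := by
  obtain ⟨Y, hY⟩ := cauchySeq_tendsto_of_complete (sqSeq_cauchy276 c hc)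
  refine ⟨Y, ?_⟩
  have h1 : Tendsto (fun n => sqSeq276 c (n + 1)) atTop (𝓝 Y) :=
    hY.comp (tendsto_add_atTop_nat 1)
  have h2 : Tendsto (fun n => sqSeq276 c (n + 1)) atTop (𝓝 (Y ^ 2 + c)) := by
    have : Tendsto (fun n => (sqSeq276 c n) ^ 2 + c) atTop (𝓝 (Y ^ 2 + c)) :=
      (hY.pow 2).add tendsto_const_nhds
    exact this
  exact tendsto_nhds_unique h1 h2

/-- **Square roots near `1`.**  In a complete valued field with `4 ≠ 0`, every `ρ` with
`|ρ - 1| < |4|` is a square. -/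
theorem exists_sqrt276 [CompleteSpace k] (h4 : (4 : k) ≠ 0) (ρ : k)
    (h : Valued.v (ρ - 1) < Valued.v (4 : k)) : ∃ y : k, y ^ 2 = ρ := by
  have hv4 : Valued.v (4 : k) ≠ 0 := (Valuation.ne_zero_iff _).mpr h4
  have hc : Valued.v (-((ρ - 1) / 4)) < 1 := by
    rw [Valuation.map_neg, map_div₀, div_lt_iff₀ (zero_lt_iff.mpr hv4), one_mul]
    exact h
  obtain ⟨W, hW⟩ := exists_sqfix276 (-((ρ - 1) / 4)) hc
  refine ⟨1 - 2 * W, ?_⟩
  have h1 : 4 * W = 4 * W ^ 2 - (ρ - 1) := by
    have : 4 * W = 4 * (W ^ 2 + -((ρ - 1) / 4)) := by rw [← hW]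
    rw [this]; field_simp; ring
  linear_combination -h1

end Root

/-! ## 2. Order arithmetic in `ℤᵐ⁰` -/

theorem le_of_sq_le276 {x M : Γ₀} (hM : 1 ≤ M) (h : x ^ 2 ≤ M) : x ≤ M := by
  by_contra hx
  rw [not_le] at hx
  have h1 : (1 : Γ₀) ≤ x := hM.trans hx.le
  have h2 : x ≤ x ^ 2 := by
    rw [pow_two]
    calc x = x * 1 := (mul_one x).symm
      _ ≤ x * x := mul_le_mul' le_rfl h1
  exact absurd (h2.trans h) (not_le.mpr hx)

/-! ## 3. The entries of an element of the twisted centraliser of `δ₀` -/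

theorem glAut_apply276 {R : Type} [CommRing R] (s : R ≃+* R) (g : GL (Fin 2) R) (a b : Fin 2) :
    (glAut s g : Matrix (Fin 2) (Fin 2) R) a b = s ((g : Matrix (Fin 2) (Fin 2) R) a b) := by
  unfold glAut
  rw [Matrix.GeneralLinearGroup.map_apply]
  rfl

/-- `t δ₀ = δ₀ σ(t)` with `δ₀ = [[0, w], [1, 0]]`: `t = [[a, w σ(c)], [c, σ(a)]]`. -/
theorem twCent_entries276 {F : Type} [Field F] (s : F ≃+* F) (w : F) (δ₀ t : GL (Fin 2) F)
    (hδ : IsQuatBase385 w δ₀) (ht : InTwCent s δ₀ t) :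
    (t : Matrix (Fin 2) (Fin 2) F) 0 1 = w * s ((t : Matrix (Fin 2) (Fin 2) F) 1 0) ∧
    (t : Matrix (Fin 2) (Fin 2) F) 1 1 = s ((t : Matrix (Fin 2) (Fin 2) F) 0 0) := by
  have h1 : δ₀ * glAut s t = t * δ₀ := by
    unfold InTwCent at ht
    calc δ₀ * glAut s t = t * (t⁻¹ * δ₀ * glAut s t) := by group
      _ = t * δ₀ := by rw [ht]
  have h2 : (δ₀ : Matrix (Fin 2) (Fin 2) F) * (glAut s t : Matrix (Fin 2) (Fin 2) F)
      = (t : Matrix (Fin 2) (Fin 2) F) * (δ₀ : Matrix (Fin 2) (Fin 2) F) := by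
    have := congrArg (fun g : GL (Fin 2) F => (g : Matrix (Fin 2) (Fin 2) F)) h1
    simpa using this
  unfold IsQuatBase385 at hδ
  rw [hδ] at h2
  have e00 := congrFun (congrFun h2 0) 0
  have e10 := congrFun (congrFun h2 1) 0
  simp [Matrix.mul_apply, Fin.sum_univ_two, glAut_apply276] at e00 e10
  exact ⟨e00.symm, e10.symm⟩

/-! ## 4. Anisotropy with a constant -/

/-- If `|N a - z N c| = 1` and `z` is not a norm, then `|N a|, |z N c| ≤ max (1, 1/|4|)`. -/
theorem aniso276 {k k' : Type} [Field k] [Field k'] [Valued k Γ₀] [Valued k' Γ₀] (q e : ℕ)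
    (i : k →+* k') (s : k' ≃+* k') (hQ : QuadData385 k k' q e i s) (z : k)
    (hn : ¬ IsFieldNorm783 2 i s z) (a c : k')
    (hdet : Valued.v (a * s a - i z * s c * c) = 1) :
    Valued.v a ^ 2 ≤ max 1 (Valued.v (4 : k'))⁻¹ ∧
      Valued.v (i z) * Valued.v c ^ 2 ≤ max 1 (Valued.v (4 : k'))⁻¹ := by
  have _hc0 : CharZero k := hQ.hk.char0
  have _hcs : CompleteSpace k := hQ.hk.complete
  have _hc0' : CharZero k' := hQ.hk'.char0
  have hs2 : ∀ y, s (s y) = y := fun y => by
    have := hQ.ext.cyc.order y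
    simpa [pow_two] using this
  have hfix := hQ.ext.cyc.fix_i
  have hvs := hQ.ext.val_s
  have hvi := hQ.ext.val_i
  have h4 : (4 : k) ≠ 0 := by norm_num
  have h4' : (4 : k') ≠ 0 := by norm_num
  have hv4' : Valued.v (4 : k') ≠ 0 := (Valuation.ne_zero_iff _).mpr h4'
  have hvP : Valued.v (a * s a) = Valued.v a ^ 2 := by
    rw [Valuation.map_mul, hvs, pow_two]
  have hvQ : Valued.v (i z * s c * c) = Valued.v (i z) * Valued.v c ^ 2 := by
    rw [Valuation.map_mul, Valuation.map_mul, hvs, pow_two, mul_assoc]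
  rw [← hvP, ← hvQ]
  generalize hP : a * s a = P at hdet ⊢
  generalize hQd : i z * s c * c = Q at hdet ⊢
  by_cases hPQ : Valued.v P = Valued.v Q
  · have hQ0 : Q ≠ 0 := by
      intro h0
      have hP0 : P = 0 := by
        have : Valued.v P = 0 := by rw [hPQ, h0, Valuation.map_zero]
        exact (Valuation.zero_iff _).mp this
      rw [hP0, h0, sub_zero, Valuation.map_zero] at hdet
      exact zero_ne_one hdet
    have hP0 : P ≠ 0 := by
      intro h0
      apply hQ0
      have : Valued.v Q = 0 := by rw [← hPQ, h0, Valuation.map_zero]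
      exact (Valuation.zero_iff _).mp this
    have hsP : s P = P := by rw [← hP, map_mul, hs2, mul_comm]
    have hsQ : s Q = Q := by rw [← hQd, map_mul, map_mul, hfix, hs2]; ring
    obtain ⟨ρ₀, hρ⟩ := hQ.ext.cyc.fixed (P / Q) (by rw [map_div₀, hsP, hsQ])
    have hdet' : P - Q = Q * i (ρ₀ - 1) := by
      rw [map_sub, map_one, hρ]; field_simp
    rw [hdet', Valuation.map_mul, hvi] at hdet
    have hnear : Valued.v (4 : k) ≤ Valued.v (ρ₀ - 1) := by
      by_contra hlt
      rw [not_le] at hlt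
      obtain ⟨y, hy⟩ := exists_sqrt276 h4 ρ₀ hlt
      have hρ0 : ρ₀ ≠ 0 := by
        intro h0; rw [h0, map_zero] at hρ
        exact (div_ne_zero hP0 hQ0) hρ.symm
      have hy0 : y ≠ 0 := by
        intro h0; rw [h0] at hy; exact hρ0 (by rw [← hy]; ring)
      have hiy : i y ≠ 0 := (map_ne_zero i).mpr hy0
      have hc0 : c ≠ 0 := by intro h0; apply hQ0; rw [← hQd, h0]; ring
      have hsc0 : s c ≠ 0 := (map_ne_zero s).mpr hc0
      have hiz0 : i z ≠ 0 := by intro h0; apply hQ0; rw [← hQd, h0]; ring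
      apply hn
      refine ⟨a / (c * i y), ?_⟩
      have hprod : ∏ j ∈ Finset.range 2, (s ^ j) (a / (c * i y))
          = a / (c * i y) * s (a / (c * i y)) := by
        rw [Finset.prod_range_succ, Finset.prod_range_one, pow_zero, pow_one]
        rfl
      rw [hprod, map_div₀, map_mul, hfix]
      have hyy : i y ^ 2 = P / Q := by rw [← map_pow, hy, hρ]
      rw [← hP, ← hQd] at hyy
      field_simp
      field_simp at hyy
      linear_combination hyy
    have h5 : Valued.v (4 : k') ≤ Valued.v (ρ₀ - 1) ^ e := by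
      have : (4 : k') = i 4 := (map_ofNat i 4).symm
      rw [this, hvi]
      exact pow_le_pow_left' hnear e
    have h6 : Valued.v Q ≤ (Valued.v (4 : k'))⁻¹ := by
      rw [← one_div, le_div_iff₀ (zero_lt_iff.mpr hv4'), ← hdet]
      exact mul_le_mul' le_rfl h5
    exact ⟨(hPQ.le.trans h6).trans (le_max_right _ _), h6.trans (le_max_right _ _)⟩
  · have hmax : Valued.v (P - Q) = max (Valued.v P) (Valued.v Q) := by
      have hPQ' : Valued.v P ≠ Valued.v (-Q) := by rwa [Valuation.map_neg]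
      rw [sub_eq_add_neg, Valuation.map_add_of_distinct_val _ hPQ', Valuation.map_neg]
    rw [hmax] at hdet
    have h1 : Valued.v P ≤ 1 := hdet ▸ le_max_left _ _
    have h2 : Valued.v Q ≤ 1 := hdet ▸ le_max_right _ _
    exact ⟨h1.trans (le_max_left _ _), h2.trans (le_max_left _ _)⟩

/-! ## 5. The leaf -/

/-- **T6.18i.6b.2 (`H^c` is bounded).** -/
theorem quatBddC276 : QuatBddC558 := by
  intro k k' _ _ _ _ q e i s hQ z hz hn δ₀ hδ₀
  have hvs := hQ.ext.val_s
  set A : Γ₀ := max 1 (Valued.v (4 : k'))⁻¹ with hA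
  set Z : Γ₀ := Valued.v (i z) with hZ
  have hZ0 : Z ≠ 0 := (Valuation.ne_zero_iff _).mpr ((map_ne_zero i).mpr hz)
  have hA1 : 1 ≤ A := le_max_left _ _
  have hZi1 : (1 : Γ₀) ≤ max 1 Z⁻¹ := le_max_left _ _
  have hZ1 : (1 : Γ₀) ≤ max 1 Z := le_max_left _ _
  set M : Γ₀ := A * max 1 Z⁻¹ * max 1 Z with hM
  have hM1 : 1 ≤ M := one_le_mul_of_one_le_of_one_le (one_le_mul_of_one_le_of_one_le hA1 hZi1) hZ1
  have hM0 : M ≠ 0 := fun h0 => by rw [h0] at hM1; exact absurd hM1 (by simp)
  refine ⟨WithZero.log M, fun t ht hdet => ?_⟩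
  rw [WithZero.exp_log hM0]
  obtain ⟨e01, e11⟩ := twCent_entries276 s (i z) δ₀ t hδ₀ ht
  rw [Matrix.det_fin_two, e01, e11] at hdet
  obtain ⟨ha, hc⟩ := aniso276 q e i s hQ z hn _ _ hdet
  have hva : Valued.v ((t : Matrix (Fin 2) (Fin 2) k') 0 0) ≤ A := le_of_sq_le276 hA1 ha
  have hvc : Valued.v ((t : Matrix (Fin 2) (Fin 2) k') 1 0) ≤ A * max 1 Z⁻¹ := by
    apply le_of_sq_le276 (one_le_mul_of_one_le_of_one_le hA1 hZi1)
    calc Valued.v ((t : Matrix (Fin 2) (Fin 2) k') 1 0) ^ 2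
        = Z⁻¹ * (Z * Valued.v ((t : Matrix (Fin 2) (Fin 2) k') 1 0) ^ 2) := by
          rw [← mul_assoc, inv_mul_cancel₀ hZ0, one_mul]
      _ ≤ max 1 Z⁻¹ * A := mul_le_mul' (le_max_right _ _) hc
      _ = A * max 1 Z⁻¹ := mul_comm _ _
  have hAM : A ≤ M := by
    calc A ≤ A * max 1 Z⁻¹ := le_mul_of_one_le_right' hZi1
      _ ≤ M := le_mul_of_one_le_right' hZ1
  unfold entryMax
  apply Finset.sup'_le
  rintro ⟨x, y⟩ -
  fin_cases x <;> fin_cases y
  · exact hva.trans hAM
  · show Valued.v ((t : Matrix (Fin 2) (Fin 2) k') 0 1) ≤ M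
    rw [e01, Valuation.map_mul, hvs, mul_comm]
    exact mul_le_mul' hvc (le_max_right _ _)
  · exact hvc.trans (le_mul_of_one_le_right' hZ1)
  · show Valued.v ((t : Matrix (Fin 2) (Fin 2) k') 1 1) ≤ M
    rw [e11, hvs]
    exact hva.trans hAM

end Fermat.Agent.LT.T6.H276

end

end
-- ===== PACK-END LT/T6/H276/QuatBdd.lean

-- ===== PACK-BEGIN LT/T6/Inf/BridgeClass.lean
section





/-!
# Row LT, sub-tower T6inf (helper19): THE ADAPTER `ClassR0C → ClassR1C → T6.ArchClassC`

OFF-MAIN.  Everything here is PROVED (no hole, nothing assumed).  Imports: Mathlib,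
`T6/SpecArch.lean` (helper22, 003240b2), `T6/Inf/Spec.lean` v3, `T6/Inf/H19/SphValues.lean`.

`archClassC_of_classR19 : Inf.ClassR0C → Inf.ClassR1C → T6.ArchClassC`

connects the two classification nodes of Part B of `Inf/Spec.lean` (sub-towers of helper59,
weight `0`, and of helper811, weight `1`) with the Prop `T6.ArchClassC` of `SpecArch.lean`
(weights `0, 1, -1`), which is the one consumed by `T6.T6ArchOut` and `Inf.T6InfOut`.

Dictionary (all proved below):
* `K19 θ`, `A19 t`, `W19` : the elements `k_θ = rotR θ`, `a_t = torR t`, `w = diag(1, -1)` of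
  `GL₂(ℝ)`; `w k_θ w = k_{-θ}`, `w a_t w = a_t`, `w² = 1`;
* `holPart_K19 : holPart (k_θ) = e^{-iθ}`, `wtChar_K19 : wtChar n (k_θ) = wt (-n) θ`: the weight
  `n` of `SpecArch` is the weight `-n` of Part B;
* `arch_mean19` + `meanEig_of_arch19` : the conjugated circle means `∫ e (x k_{-θ} a_t k_θ) dθ =
  2π m(t) e(x)` of `SpecArch` give `MeanEig n' e (2π m)` of Part B for `e` of weight `n'`
  (substitution `θ ↦ -θ`, `integral_neg_periodic19`);
* `sphR0_neg_cosh19 : sphR0 (-s) (cosh t) = sphP s t`,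
  `sphR1_neg_cosh19 : sphR1 (-s) (cosh t) = sphQ s t` (`t > 0`, shift `u ↦ u + π`);
* weight `1` of `SpecArch` (= weight `-1` of Part B): the function `g ↦ e (w g w)` has weight `1`
  in the sense of Part B and the same eigenvalue function.

The hypothesis "invariant under the positive scalars" of `T6.ArchClassC` is NOT used.
-/

set_option autoImplicit false

open MeasureTheory
open scoped Matrix

noncomputable section

namespace Fermat.Agent.LT.T6.Inf

open Fermat.Agent.LT.T6

/-! ## 1. The elements `k_θ`, `a_t`, `w` -/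

theorem det_rotR19 (θ : ℝ) : (rotR θ).det = 1 := by
  rw [rotR, Matrix.det_fin_two_of]
  nlinarith [Real.cos_sq_add_sin_sq θ]

theorem det_torR19 (t : ℝ) : (torR t).det = 1 := by
  rw [torR, Matrix.det_fin_two_of, mul_zero, sub_zero, ← Real.exp_add, add_neg_cancel,
    Real.exp_zero]

/-- `diag(1, -1)`. -/
def wMat19 : Matrix (Fin 2) (Fin 2) ℝ := !![1, 0; 0, -1]

theorem det_wMat19 : wMat19.det = -1 := by
  rw [wMat19, Matrix.det_fin_two_of]
  norm_num

/-- `k_θ` as an element of `GL₂(ℝ)`. -/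
def K19 (θ : ℝ) : GR :=
  Matrix.GeneralLinearGroup.mkOfDetNeZero (rotR θ) (by rw [det_rotR19]; exact one_ne_zero)

/-- `a_t` as an element of `GL₂(ℝ)`. -/
def A19 (t : ℝ) : GR :=
  Matrix.GeneralLinearGroup.mkOfDetNeZero (torR t) (by rw [det_torR19]; exact one_ne_zero)

/-- `w = diag(1, -1)` as an element of `GL₂(ℝ)`. -/
def W19 : GR :=
  Matrix.GeneralLinearGroup.mkOfDetNeZero wMat19 (by rw [det_wMat19]; norm_num)

theorem coe_K19 (θ : ℝ) : ((K19 θ : GR) : Matrix (Fin 2) (Fin 2) ℝ) = rotR θ := rfl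

theorem coe_A19 (t : ℝ) : ((A19 t : GR) : Matrix (Fin 2) (Fin 2) ℝ) = torR t := rfl

theorem coe_W19 : ((W19 : GR) : Matrix (Fin 2) (Fin 2) ℝ) = wMat19 := rfl

theorem K19_add_two_pi (θ : ℝ) : K19 (θ + 2 * Real.pi) = K19 θ := by
  apply Units.ext
  show rotR (θ + 2 * Real.pi) = rotR θ
  simp [rotR, Real.cos_add_two_pi, Real.sin_add_two_pi]

theorem W19_mul_self : W19 * W19 = 1 := by
  apply Units.ext
  show wMat19 * wMat19 = 1
  ext i j
  fin_cases i <;> fin_cases j <;> simp [wMat19, Matrix.mul_apply, Fin.sum_univ_two]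

theorem W19_K19_W19 (θ : ℝ) : W19 * K19 θ * W19 = K19 (-θ) := by
  apply Units.ext
  show wMat19 * rotR θ * wMat19 = rotR (-θ)
  ext i j
  fin_cases i <;> fin_cases j <;>
    simp [wMat19, rotR, Matrix.mul_apply, Fin.sum_univ_two, Real.cos_neg, Real.sin_neg]

theorem W19_A19_W19 (t : ℝ) : W19 * A19 t * W19 = A19 t := by
  apply Units.ext
  show wMat19 * torR t * wMat19 = torR t
  ext i j
  fin_cases i <;> fin_cases j <;>
    simp [wMat19, torR, Matrix.mul_apply, Fin.sum_univ_two]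

/-- Conjugation by `w` is multiplicative. -/
theorem conj_W19 (a b : GR) : W19 * (a * b) * W19 = (W19 * a * W19) * (W19 * b * W19) := by
  calc W19 * (a * b) * W19 = W19 * a * 1 * b * W19 := by group
    _ = W19 * a * (W19 * W19) * b * W19 := by rw [W19_mul_self]
    _ = (W19 * a * W19) * (W19 * b * W19) := by group

theorem inSO2_K19 (θ : ℝ) : InSO2 (K19 θ) := by
  constructor
  · show rotR θ * (rotR θ).transpose = 1
    ext i j
    fin_cases i <;> fin_cases j <;>
      simp [rotR, Matrix.mul_apply, Fin.sum_univ_two] <;>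
      nlinarith [Real.sin_sq_add_cos_sq θ]
  · exact det_rotR19 θ

/-- `holPart (k_θ) = e^{-iθ}`. -/
theorem holPart_K19 (θ : ℝ) : holPart (K19 θ) = Complex.exp (-(((θ : ℝ) : ℂ) * Complex.I)) := by
  have e : Complex.exp (-(((θ : ℝ) : ℂ) * Complex.I))
      = Complex.cos (θ : ℂ) - Complex.sin (θ : ℂ) * Complex.I := by
    rw [← neg_mul, Complex.exp_mul_I, Complex.cos_neg, Complex.sin_neg]
    ring
  rw [e, holPart, coe_K19, rotR]
  simp only [Matrix.of_apply, Matrix.cons_val', Matrix.cons_val_zero, Matrix.cons_val_one,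
    Matrix.cons_val_fin_one]
  push_cast
  ring

/-- `wtChar n (k_θ) = e^{-inθ}`: the weight `n` of `SpecArch` is the weight `-n` of Part B. -/
theorem wtChar_K19 (n : ℤ) (θ : ℝ) : wtChar n (K19 θ) = wt (-n) θ := by
  rw [wtChar, holPart_K19, ← Complex.exp_int_mul, wt]
  congr 1
  push_cast
  ring

theorem wt_periodic19 (n : ℤ) (θ : ℝ) : wt n (θ + 2 * Real.pi) = wt n θ := by
  unfold wt
  have e : ((n : ℤ) : ℂ) * (((θ + 2 * Real.pi : ℝ)) : ℂ) * Complex.I
      = ((n : ℤ) : ℂ) * ((θ : ℝ) : ℂ) * Complex.I + (n : ℤ) * (2 * (Real.pi : ℂ) * Complex.I) := by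
    push_cast
    ring
  rw [e, Complex.exp_add, Complex.exp_int_mul_two_pi_mul_I, mul_one]

theorem wt_neg_arg19 (n : ℤ) (θ : ℝ) : wt n (-θ) = wt (-n) θ := by
  unfold wt
  congr 1
  push_cast
  ring

theorem wt_zero19 (θ : ℝ) : wt 0 θ = 1 := by
  simp [wt]

/-! ## 2. The substitution `θ ↦ -θ` -/

/-- `∫₀^{2π} F(-θ) dθ = ∫₀^{2π} F(θ) dθ` for a `2π`-periodic `F`. -/
theorem integral_neg_periodic19 (F : ℝ → ℂ) (hF : Function.Periodic F (2 * Real.pi)) :
    (∫ θ in (0 : ℝ)..(2 * Real.pi), F (-θ)) = ∫ θ in (0 : ℝ)..(2 * Real.pi), F θ := by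
  have h1 : (∫ θ in (0 : ℝ)..(2 * Real.pi), F (-θ)) = ∫ θ in (-(2 * Real.pi))..(-0), F θ :=
    intervalIntegral.integral_comp_neg (fun θ : ℝ => F θ)
  rw [h1, neg_zero]
  have h2 := hF.intervalIntegral_add_eq (-(2 * Real.pi)) 0
  simp only [neg_add_cancel, zero_add] at h2
  exact h2

/-! ## 3. The hypotheses of `T6.ArchClassC` give the hypotheses of Part B -/

/-- The mean hypothesis of `T6.ArchClassC` in terms of `K19`, `A19`. -/
theorem arch_mean19 (e : GR → ℂ) (m : ℝ → ℂ)
    (hM : ∀ t : ℝ, 0 < t → ∀ Y : ℝ → GL (Fin 2) ℝ,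
        (∀ θ : ℝ, ((Y θ : GL (Fin 2) ℝ) : Matrix (Fin 2) (Fin 2) ℝ)
          = !![Real.cos θ, -Real.sin θ; Real.sin θ, Real.cos θ]
            * !![Real.exp (t / 2), 0; 0, Real.exp (-(t / 2))]
            * !![Real.cos θ, Real.sin θ; -Real.sin θ, Real.cos θ]) →
        ∀ x : GL (Fin 2) ℝ,
          (∫ θ in (0 : ℝ)..(2 * Real.pi), e (x * Y θ)) = ((2 * Real.pi : ℝ) : ℂ) * m t * e x)
    (t : ℝ) (ht : 0 < t) (x : GR) :
    (∫ θ in (0 : ℝ)..(2 * Real.pi), e (x * (K19 (-θ) * A19 t * K19 θ)))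
      = ((2 * Real.pi : ℝ) : ℂ) * m t * e x := by
  refine hM t ht (fun θ => K19 (-θ) * A19 t * K19 θ) (fun θ => ?_) x
  show rotR (-θ) * torR t * rotR θ = _
  simp [rotR, torR, Real.cos_neg, Real.sin_neg]

/-- A function of weight `n'` (Part B) whose conjugated circle means (`T6.ArchClassC`) have the
eigenvalues `m t` is a joint eigenfunction of the circle means of Part B with the eigenvalue
function `2π m`. -/
theorem meanEig_of_arch19 (n' : ℤ) (e : GR → ℂ) (m : ℝ → ℂ)
    (hW : ∀ (φ : ℝ) (g : GR), e (g * K19 φ) = wt n' φ * e g)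
    (hM : ∀ t : ℝ, 0 < t → ∀ x : GR,
      (∫ θ in (0 : ℝ)..(2 * Real.pi), e (x * (K19 (-θ) * A19 t * K19 θ)))
        = ((2 * Real.pi : ℝ) : ℂ) * m t * e x) :
    HasWeight n' e ∧ MeanEig n' e (fun t => ((2 * Real.pi : ℝ) : ℂ) * m t) := by
  refine ⟨?_, ?_⟩
  · intro θ k g hk
    have hk' : k = K19 θ := Units.ext hk
    rw [hk', hW]
  · intro t ht Y hY g
    have hYe : ∀ θ, Y θ = K19 θ * A19 t := fun θ => Units.ext (hY θ)
    simp only [hYe]
    set F : ℝ → ℂ := fun θ => wt (-n') θ * e (g * (K19 θ * A19 t)) with hF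
    have hper : Function.Periodic F (2 * Real.pi) := by
      intro θ
      simp only [hF, wt_periodic19, K19_add_two_pi]
    have h1 : ∀ θ : ℝ, e (g * (K19 (-θ) * A19 t * K19 θ)) = F (-θ) := by
      intro θ
      have : g * (K19 (-θ) * A19 t * K19 θ) = (g * (K19 (-θ) * A19 t)) * K19 θ := by group
      rw [this, hW, hF]
      simp only [wt_neg_arg19, neg_neg]
    have h2 := hM t ht g
    simp only [h1] at h2
    rw [integral_neg_periodic19 F hper] at h2
    exact h2

/-! ## 4. The spherical functions -/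

/-- `sphR0 (-s) (cosh t) = sphP s t` for `t > 0` (shift `u ↦ u + π`). -/
theorem sphR0_neg_cosh19 (s : ℂ) {t : ℝ} (ht : 0 < t) :
    sphR0 (-s) (Real.cosh t) = sphP s t := by
  unfold sphR0 sphP
  have hexp : -(-s) - 1 / 2 = s - 1 / 2 := by ring
  rw [H19.sqrt_cosh_sq_sub_one19 ht, hexp]
  congr 1
  set f : ℝ → ℂ := fun u =>
    (((Real.cosh t + Real.sinh t * Real.cos u : ℝ) : ℂ)) ^ (s - 1 / 2) with hf
  have hper : Function.Periodic f (2 * Real.pi) := by
    intro u
    simp only [hf, Real.cos_add_two_pi]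
  have h1 : (∫ u in (0 : ℝ)..(2 * Real.pi),
      ((Real.cosh t - Real.cos u * Real.sinh t : ℝ) : ℂ) ^ (s - 1 / 2))
      = ∫ u in (0 : ℝ)..(2 * Real.pi), f (u + Real.pi) := by
    refine intervalIntegral.integral_congr ?_
    intro u _
    simp only [hf, Real.cos_add_pi]
    congr 2
    ring
  rw [h1, intervalIntegral.integral_comp_add_right (fun u => f u) Real.pi, zero_add]
  have h2 := hper.intervalIntegral_add_eq Real.pi 0
  simp only [zero_add] at h2
  have e : 2 * Real.pi + Real.pi = Real.pi + 2 * Real.pi := by ring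
  rw [e]
  exact h2

/-- `sphR1 (-s) (cosh t) = sphQ s t` for `t > 0` (shift `u ↦ u + π`). -/
theorem sphR1_neg_cosh19 (s : ℂ) {t : ℝ} (ht : 0 < t) :
    sphR1 (-s) (Real.cosh t) = sphQ s t := by
  unfold sphR1 sphQ
  have hexp : -(-s) - 1 = s - 1 := by ring
  have hc : 0 ≤ Real.cosh (t / 2) := (Real.cosh_pos _).le
  have hs : 0 ≤ Real.sinh (t / 2) := (Real.sinh_pos_iff.mpr (by linarith)).le
  rw [H19.sqrt_cosh_sq_sub_one19 ht, H19.cosh_half19, H19.sinh_half19, Real.sqrt_sq hc,
    Real.sqrt_sq hs, hexp]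
  congr 1
  set f : ℝ → ℂ := fun u =>
    (((Real.cosh t + Real.sinh t * Real.cos u : ℝ) : ℂ)) ^ (s - 1) *
      ((Real.cosh (t / 2) + Real.sinh (t / 2) * Real.cos u : ℝ) : ℂ) with hf
  have hper : Function.Periodic f (2 * Real.pi) := by
    intro u
    simp only [hf, Real.cos_add_two_pi]
  have h1 : (∫ u in (0 : ℝ)..(2 * Real.pi),
      ((Real.cosh (t / 2) - Real.cos u * Real.sinh (t / 2) : ℝ) : ℂ) *
        ((Real.cosh t - Real.cos u * Real.sinh t : ℝ) : ℂ) ^ (s - 1))
      = ∫ u in (0 : ℝ)..(2 * Real.pi), f (u + Real.pi) := by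
    refine intervalIntegral.integral_congr ?_
    intro u _
    simp only [hf, Real.cos_add_pi]
    rw [mul_comm]
    congr 2
    · congr 1
      ring
    · ring
  rw [h1, intervalIntegral.integral_comp_add_right (fun u => f u) Real.pi, zero_add]
  have h2 := hper.intervalIntegral_add_eq Real.pi 0
  simp only [zero_add] at h2
  have e : 2 * Real.pi + Real.pi = Real.pi + 2 * Real.pi := by ring
  rw [e]
  exact h2

theorem two_pi_ne_zero19 : (((2 * Real.pi : ℝ)) : ℂ) ≠ 0 := by
  have : (2 * Real.pi : ℝ) ≠ 0 := by positivity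
  exact_mod_cast this

/-! ## 5. THE ADAPTER -/

/-- **`T6.ArchClassC` (helper22, `SpecArch.lean`) from the two classification Props of Part B.**
Weight `0`: directly.  Weight `-1` of `SpecArch` = weight `1` of Part B: directly.  Weight `1` of
`SpecArch`: the function `g ↦ e (w g w)`, `w = diag(1, -1)`, has weight `1` in the sense of
Part B and the same eigenvalues.  The parameter is `-s`. -/
theorem archClassC_of_classR19 (h0 : ClassR0C) (h1 : ClassR1C) : T6.ArchClassC := by
  intro n hn e m hec hne hK _ hM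
  have hM' := arch_mean19 e m hM
  rcases hn with rfl | rfl | rfl
  · -- weight `0`
    have hW : ∀ (φ : ℝ) (g : GR), e (g * K19 φ) = wt 0 φ * e g := by
      intro φ g
      rw [hK (K19 φ) g (inSO2_K19 φ), wtChar_K19, neg_zero]
    obtain ⟨hw, hm⟩ := meanEig_of_arch19 0 e m hW hM'
    obtain ⟨s, hs⟩ := h0 e _ hec hne hw hm
    refine ⟨-s, fun t ht => ?_⟩
    have h := hs t ht
    have h' : m t = sphP s t := mul_left_cancel₀ two_pi_ne_zero19 h
    rw [h', sphRad, if_pos rfl, sphR0_neg_cosh19 s ht]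
  · -- weight `1` of `SpecArch`: conjugate by `w`
    set e' : GR → ℂ := fun g => e (W19 * g * W19) with he'
    have hec' : Continuous e' :=
      hec.comp ((continuous_const.mul continuous_id).mul continuous_const)
    have hne' : ∃ g : GR, e' g ≠ 0 := by
      obtain ⟨g₀, hg₀⟩ := hne
      refine ⟨W19 * g₀ * W19, ?_⟩
      have : W19 * (W19 * g₀ * W19) * W19 = g₀ := by
        calc W19 * (W19 * g₀ * W19) * W19 = (W19 * W19) * g₀ * (W19 * W19) := by group
          _ = g₀ := by rw [W19_mul_self, one_mul, mul_one]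
      simp only [he', this]
      exact hg₀
    have hW : ∀ (φ : ℝ) (g : GR), e' (g * K19 φ) = wt 1 φ * e' g := by
      intro φ g
      have : W19 * (g * K19 φ) * W19 = (W19 * g * W19) * K19 (-φ) := by
        rw [conj_W19, W19_K19_W19]
      simp only [he', this]
      rw [hK (K19 (-φ)) _ (inSO2_K19 _), wtChar_K19, wt_neg_arg19, neg_neg]
    have hM'' : ∀ t : ℝ, 0 < t → ∀ x : GR,
        (∫ θ in (0 : ℝ)..(2 * Real.pi), e' (x * (K19 (-θ) * A19 t * K19 θ)))
          = ((2 * Real.pi : ℝ) : ℂ) * m t * e' x := by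
      intro t ht x
      set G : ℝ → ℂ := fun θ => e (W19 * x * W19 * (K19 (-θ) * A19 t * K19 θ)) with hG
      have hper : Function.Periodic G (2 * Real.pi) := by
        intro θ
        have : -(θ + 2 * Real.pi) = -θ - 2 * Real.pi := by ring
        have h2 : K19 (-θ - 2 * Real.pi) = K19 (-θ) := by
          have := K19_add_two_pi (-θ - 2 * Real.pi)
          rw [sub_add_cancel] at this
          exact this.symm
        simp only [hG, K19_add_two_pi, this, h2]
      have hint : ∀ θ : ℝ, e' (x * (K19 (-θ) * A19 t * K19 θ)) = G (-θ) := by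
        intro θ
        have : W19 * (x * (K19 (-θ) * A19 t * K19 θ)) * W19
            = W19 * x * W19 * (K19 (- -θ) * A19 t * K19 (-θ)) := by
          rw [conj_W19 x, conj_W19 (K19 (-θ) * A19 t), conj_W19 (K19 (-θ)), W19_K19_W19,
            W19_K19_W19, W19_A19_W19]
        simp only [he', hG, this]
      simp only [hint]
      rw [integral_neg_periodic19 G hper]
      exact hM' t ht (W19 * x * W19)
    obtain ⟨hw, hm⟩ := meanEig_of_arch19 1 e' m hW hM''
    obtain ⟨s, hs⟩ := h1 e' _ hec' hne' hw hm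
    refine ⟨-s, fun t ht => ?_⟩
    have h := hs t ht
    have h' : m t = sphQ s t := mul_left_cancel₀ two_pi_ne_zero19 h
    rw [h', sphRad, if_neg (by norm_num), sphR1_neg_cosh19 s ht]
  · -- weight `-1` of `SpecArch` = weight `1` of Part B
    have hW : ∀ (φ : ℝ) (g : GR), e (g * K19 φ) = wt 1 φ * e g := by
      intro φ g
      rw [hK (K19 φ) g (inSO2_K19 φ), wtChar_K19, neg_neg]
    obtain ⟨hw, hm⟩ := meanEig_of_arch19 1 e m hW hM'
    obtain ⟨s, hs⟩ := h1 e _ hec hne hw hm
    refine ⟨-s, fun t ht => ?_⟩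
    have h := hs t ht
    have h' : m t = sphQ s t := mul_left_cancel₀ two_pi_ne_zero19 h
    rw [h', sphRad, if_neg (by norm_num), sphR1_neg_cosh19 s ht]

end Fermat.Agent.LT.T6.Inf

end

end
-- ===== PACK-END LT/T6/Inf/BridgeClass.lean

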