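import Mathlib
import Fermat.Agent.Pack.LT3.E8L2
import Fermat.Agent.Pack.LT3.E11L1
import Fermat.Agent.Pack.LT3.E12L1
import Fermat.Agent.Pack.LT3.E15L3
import Fermat.Agent.Pack.LT3.E15L2
import Fermat.Agent.Pack.LT3.E0L1
import Fermat.Agent.Pack.LT3.E15L0
import Fermat.Agent.Pack.LT3.E0L0
import Fermat.Agent.Pack.LT3.E16L1
import Fermat.Agent.Pack.LT3.E5L0
import Fermat.Agent.Pack.LT3.E10L3
import Fermat.Agent.Pack.LT3.E10L1
import Fermat.Agent.Pack.LT3.E9L1
import Fermat.Agent.Pack.LT3.E9L2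
import Fermat.Agent.Pack.LT2.E0L1
import Fermat.Agent.Pack.LT2.E2L1
import Fermat.Agent.Pack.LT2.E3L1
import Fermat.Agent.Pack.LT3.E7L1
import Fermat.Agent.Pack.LT3.E13L3
import Fermat.Agent.Pack.LT3.E10L0
import Fermat.Agent.Pack.LT3.E10L2
import Fermat.Agent.Pack.LT3.E3L1
import Fermat.Agent.Pack.LT3.E7L3
import Fermat.Agent.Pack.LT3.E16L2
import Fermat.Agent.Pack.LT3.E16L0
import Fermat.Agent.Pack.LT2.E10L1
import Fermat.Agent.Pack.LT3.E17L3
import Fermat.Agent.Pack.LT3.E17L2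

set_option linter.all false

-- ===== PACK-BEGIN LT/T2/H90/SpherePresClosed.lean
section






/-!
# Row LT, tower T2, sub-leaf T2.07.12 `SubSpherePres429` (helper90), CLOSED -- OFF-MAIN

* `subSpherePres_of_s2Rot_h90 (K) : SubS2Rot429 → SubSpherePres429 K`: T2.07.12 with the input
  T2.07.30 discharged by `subLocCont472` (helper472@e9c950742);
* `subSpherePresClosed_h90 (K) : SubSpherePres429 K`: UNCONDITIONAL, with the input T2.07.31
  discharged by `subS2Rot197` (helper197@95fdc5e47).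

Byte-identical copies of `LT/T2/H472/{LocCont,LocContLeaf}.lean` and of
`LT/T2/H197/{S2Core,S2Rot,S2RotLeaf}.lean`.
-/

set_option autoImplicit false

open IsDedekindDomain NumberField
open Fermat.Agent.LT.H556.A0
open Fermat.Agent.LT.T2 Fermat.Agent.LT.T2.H429

namespace Fermat.Agent.LT.T2.H90

/-- **T2.07.12** from T2.07.31 alone. -/
theorem subSpherePres_of_s2Rot_h90 (K : Type) [Field K] [NumberField K] (hS2 : SubS2Rot429) :
    SubSpherePres429 K :=
  subSpherePres_h90 hS2 (Fermat.Agent.LT.T2.H472.subLocCont472 K)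

/-- **T2.07.12 `SubSpherePres429`, UNCONDITIONAL.** -/
theorem subSpherePresClosed_h90 (K : Type) [Field K] [NumberField K] : SubSpherePres429 K :=
  subSpherePres_of_s2Rot_h90 K Fermat.Agent.LT.T2.H197.subS2Rot197

end Fermat.Agent.LT.T2.H90

end
-- ===== PACK-END LT/T2/H90/SpherePresClosed.lean

-- ===== PACK-BEGIN LT/T6/H340/BTTree.lean
section



/-!
# Row LT, tower T6, helper340: the tree of `GL₂(k)` in the vocabulary of `T6/Spec.lean` (OFF-MAIN)

`k` a field with `Valued k ℤᵐ⁰` which is a local field in the sense of `T6.IsLocalField k q`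
(only the uniformiser and the system of representatives of the residue field are used; no
completeness, no characteristic).

* `BTVert340 k` : the vertices, `GL₂(k) / k^× GL₂(𝒪)` (a `Quotient`);
* `btDist340` : the distance, `btDist340 ⟦g⟧ ⟦h⟧ = a - b` for the Cartan invariant `(a, b)` of
  `g⁻¹ h` (`btDist340_mk`);
* `isTreeDist_btDist340 : IsLocalField k q → IsTreeDist338 (btDist340 (k := k))`
  (the four properties of a tree distance of helper338, `LT/H338/TreeDist.lean`);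
* `ncard_nb_btDist340 : IsLocalField k q → {w | btDist340 v w = 1}.ncard = q + 1`;
* `btMul340 g`, `btAut340 s hs`, `btTw340 s hs δ` : left translation, the action of a ring
  automorphism preserving the valuation, and the twisted action `x ↦ δ s(x)`; they preserve the
  distance, and `btDist340_tw_mk : btDist340 ⟦x⟧ (btTw340 s hs δ ⟦x⟧) = cdist340 (x⁻¹ δ s(x))`.
-/

set_option autoImplicit false
set_option linter.unusedSectionVars false

open Matrix

noncomputable section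

namespace Fermat.Agent.LT.T6.H340

open Fermat.Agent.LT.T6 Fermat.Agent.LT.H129 Fermat.Agent.LT.H338

variable {k : Type} [Field k] [Valued k Γ₀]

/-! ### The step property on group elements -/

section Step

variable {ϖ : k} (hϖ : Valued.v ϖ = WithZero.exp (-1 : ℤ)) (T : Finset k)
  (hT : ∀ z : k, Valued.v z ≤ 1 → ∃ x ∈ T, Valued.v (z - x) < 1)

include hϖ hT

/-- Integrality of the representatives follows from the covering property only for those that
occur; we use the following form. -/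
theorem exists_nb_int340 {y : GL (Fin 2) k} (hy : cdist340 y = 1) :
    (∃ c : k, Valued.v c ≤ 1 ∧ cdist340 ((nbF340 ϖ (unif_ne_zero340 hϖ) c)⁻¹ * y) = 0)
      ∨ cdist340 ((nbI340 ϖ (unif_ne_zero340 hϖ))⁻¹ * y) = 0 := by
  -- replace `T` by its integral part
  classical
  have hT' : ∀ z : k, Valued.v z ≤ 1 →
      ∃ x ∈ T.filter (fun x => Valued.v x ≤ 1), Valued.v (z - x) < 1 := by
    intro z hz
    obtain ⟨x, hx, hzx⟩ := hT z hz
    refine ⟨x, Finset.mem_filter.mpr ⟨hx, ?_⟩, hzx⟩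
    have : x = z - (z - x) := by ring
    rw [this]
    exact le_trans (Valuation.map_sub _ _ _) (max_le hz hzx.le)
  rcases exists_nb340 hϖ _ hT' hy with ⟨c, hc, h⟩ | h
  · exact Or.inl ⟨c, (Finset.mem_filter.mp hc).2, h⟩
  · exact Or.inr h

/-- The distance from the origin of `D * y`, `D = diag(a, b)` and `y` of distance `1`. -/
theorem cdist340_diag_mul {a b : k} (ha : a ≠ 0) (hb : b ≠ 0) {n : ℕ}
    (hv : Valued.v a = Valued.v b * WithZero.exp (n : ℤ)) {y : GL (Fin 2) k}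
    (hy : cdist340 y = 1) :
    cdist340 (diag129 a b ha hb * y) = n + 1 ∨
      (cdist340 (diag129 a b ha hb * y) + 1 = n ∧
        ∃ c : k, Valued.v c < 1 ∧ cdist340 ((nbF340 ϖ (unif_ne_zero340 hϖ) c)⁻¹ * y) = 0) := by
  rcases exists_nb_int340 hϖ T hT hy with ⟨c, hc1, hc⟩ | h
  · have e : diag129 a b ha hb * y
        = diag129 a b ha hb * nbF340 ϖ (unif_ne_zero340 hϖ) c
          * ((nbF340 ϖ (unif_ne_zero340 hϖ) c)⁻¹ * y) := by group
    rw [e, cdist340_mul_of_zero_right hc]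
    rcases eq_or_lt_of_le hc1 with hcu | hcs
    · exact Or.inl (cdist340_diag_mul_nbF_unit hϖ ha hb hv hcu)
    · cases n with
      | zero =>
        left
        simp only [CharP.cast_eq_zero, WithZero.exp_zero, mul_one] at hv
        rw [cdist340_diag_mul_nbF_zero hϖ ha hb hv hc1]
      | succ m =>
        right
        exact ⟨by rw [cdist340_diag_mul_nbF_small hϖ ha hb hv hcs], c, hcs, hc⟩
  · have e : diag129 a b ha hb * y
        = diag129 a b ha hb * nbI340 ϖ (unif_ne_zero340 hϖ)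
          * ((nbI340 ϖ (unif_ne_zero340 hϖ))⁻¹ * y) := by group
    rw [e, cdist340_mul_of_zero_right h]
    exact Or.inl (cdist340_diag_mul_nbI hϖ ha hb hv)

/-- **Step.**  Multiplication by an element of distance `1` changes the distance from the origin
by exactly `1`. -/
theorem cdist340_mul_step (x : GL (Fin 2) k) {y : GL (Fin 2) k} (hy : cdist340 y = 1) :
    cdist340 (x * y) = cdist340 x + 1 ∨ cdist340 (x * y) + 1 = cdist340 x := by
  obtain ⟨u, u', a, b, ha, hb, hu, hu', hg, hv⟩ := exists_decomp340 x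
  have hy' : cdist340 (u' * y) = 1 := by rw [cdist340_mul_left _ hu', hy]
  have e : x * y = u * (diag129 a b ha hb * (u' * y)) := by rw [hg]; group
  rw [e, cdist340_mul_left _ hu]
  rcases cdist340_diag_mul hϖ T hT ha hb hv hy' with h | ⟨h, -⟩
  · exact Or.inl h
  · exact Or.inr h

end Step

omit [Valued k Γ₀] in
theorem upperU129_eq340 (x : k) : upperU129 x = mkGL129 1 x 0 1 (by simp) := rfl

theorem cdist340_nbF_inv_mul_nbF_zero {ϖ : k} (hϖ : Valued.v ϖ = WithZero.exp (-1 : ℤ))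
    {c c' : k} (hcc : Valued.v (c' - c) < 1) :
    cdist340 ((nbF340 ϖ (unif_ne_zero340 hϖ) c)⁻¹ * nbF340 ϖ (unif_ne_zero340 hϖ) c') = 0 := by
  rw [nbF340_eq_mul_upper hϖ c c', inv_mul_cancel_left]
  apply cdist340_of_inU
  rw [inU_zero_iff129]
  apply isMaxCpt129_upperU
  rw [mem_vO129, map_div₀, hϖ, div_eq_mul_inv, ← WithZero.exp_neg]
  have h1 := (lt_one_iff340 _).mp hcc
  calc Valued.v (c' - c) * WithZero.exp (-(-1 : ℤ))
      ≤ WithZero.exp (-1 : ℤ) * WithZero.exp (-(-1 : ℤ)) := mul_le_mul' h1 le_rfl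
    _ = 1 := by rw [← WithZero.exp_add]; simp

/-! ### The vertices and the distance -/

variable (k)

/-- `g` and `h` define the same vertex: `g⁻¹ h ∈ k^× GL₂(𝒪)`. -/
def btSetoid340 : Setoid (GL (Fin 2) k) where
  r g h := cdist340 (g⁻¹ * h) = 0
  iseqv :=
    { refl := fun g => by rw [inv_mul_cancel]; exact cdist340_one
      symm := fun {g h} hgh => by
        have e : h⁻¹ * g = (g⁻¹ * h)⁻¹ := by group
        rw [e, cdist340_inv]; exact hgh
      trans := fun {g h j} hgh hhj => by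
        have e : g⁻¹ * j = (g⁻¹ * h) * (h⁻¹ * j) := by group
        rw [e, cdist340_mul_of_zero_left hgh]; exact hhj }

/-- The vertices of the tree of `GL₂(k)`: `GL₂(k) / k^× GL₂(𝒪)`. -/
def BTVert340 : Type := Quotient (btSetoid340 k)

variable {k}

/-- The vertex of `g`. -/
def btMk340 (g : GL (Fin 2) k) : BTVert340 k := Quotient.mk (btSetoid340 k) g

theorem btMk340_eq_iff (g h : GL (Fin 2) k) :
    btMk340 g = btMk340 h ↔ cdist340 (g⁻¹ * h) = 0 :=
  Quotient.eq (r := btSetoid340 k)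

theorem btMk340_surjective : Function.Surjective (btMk340 (k := k)) :=
  Quotient.mk_surjective

theorem cdist340_congr {g g' h h' : GL (Fin 2) k} (hg : cdist340 (g⁻¹ * g') = 0)
    (hh : cdist340 (h⁻¹ * h') = 0) : cdist340 (g⁻¹ * h) = cdist340 (g'⁻¹ * h') := by
  have hg' : cdist340 (g'⁻¹ * g) = 0 := by
    have e : g'⁻¹ * g = (g⁻¹ * g')⁻¹ := by group
    rw [e, cdist340_inv]; exact hg
  have e : g'⁻¹ * h' = (g'⁻¹ * g) * ((g⁻¹ * h) * (h⁻¹ * h')) := by group
  rw [e, cdist340_mul_of_zero_left hg', cdist340_mul_of_zero_right hh]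

/-- The distance on the vertices. -/
def btDist340 : BTVert340 k → BTVert340 k → ℕ :=
  Quotient.lift₂ (s₁ := btSetoid340 k) (s₂ := btSetoid340 k)
    (fun g h => cdist340 (g⁻¹ * h))
    (fun _ _ _ _ hg hh => cdist340_congr hg hh)

theorem btDist340_mk (g h : GL (Fin 2) k) :
    btDist340 (btMk340 g) (btMk340 h) = cdist340 (g⁻¹ * h) := rfl

theorem btDist340_eq_zero (x y : BTVert340 k) : btDist340 x y = 0 ↔ x = y := by
  obtain ⟨g, rfl⟩ := btMk340_surjective x
  obtain ⟨h, rfl⟩ := btMk340_surjective y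
  rw [btDist340_mk, btMk340_eq_iff]

theorem btDist340_symm (x y : BTVert340 k) : btDist340 x y = btDist340 y x := by
  obtain ⟨g, rfl⟩ := btMk340_surjective x
  obtain ⟨h, rfl⟩ := btMk340_surjective y
  rw [btDist340_mk, btDist340_mk]
  have e : h⁻¹ * g = (g⁻¹ * h)⁻¹ := by group
  rw [e, cdist340_inv]

/-! ### The tree properties -/

section Tree

variable {ϖ : k} (hϖ : Valued.v ϖ = WithZero.exp (-1 : ℤ)) (T : Finset k)
  (hT : ∀ z : k, Valued.v z ≤ 1 → ∃ x ∈ T, Valued.v (z - x) < 1)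

include hϖ hT

theorem btDist340_step (u v w : BTVert340 k) (h : btDist340 v w = 1) :
    btDist340 u v = btDist340 u w + 1 ∨ btDist340 u w = btDist340 u v + 1 := by
  obtain ⟨g₀, rfl⟩ := btMk340_surjective u
  obtain ⟨g, rfl⟩ := btMk340_surjective v
  obtain ⟨j, rfl⟩ := btMk340_surjective w
  rw [btDist340_mk] at h
  rw [btDist340_mk, btDist340_mk]
  have e : g₀⁻¹ * j = (g₀⁻¹ * g) * (g⁻¹ * j) := by group
  rw [e]
  rcases cdist340_mul_step hϖ T hT (g₀⁻¹ * g) h with h1 | h1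
  · exact Or.inr h1
  · exact Or.inl h1.symm

theorem btDist340_toward (u v : BTVert340 k) (huv : u ≠ v) :
    ∃! w, btDist340 v w = 1 ∧ btDist340 u w + 1 = btDist340 u v := by
  obtain ⟨g₀, rfl⟩ := btMk340_surjective u
  obtain ⟨g, rfl⟩ := btMk340_surjective v
  have h0 := unif_ne_zero340 hϖ
  obtain ⟨u₁, u₂, a, b, ha, hb, hu₁, hu₂, hg, hv⟩ := exists_decomp340 (g₀⁻¹ * g)
  have hn : cdist340 (g₀⁻¹ * g) ≠ 0 := fun h => huv ((btMk340_eq_iff _ _).mpr h)
  obtain ⟨m, hm⟩ := Nat.exists_eq_succ_of_ne_zero hn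
  rw [hm] at hv
  obtain ⟨c₀, -, hc₀⟩ := hT 0 (by simp)
  have hc₀' : Valued.v c₀ < 1 := by
    rw [zero_sub, Valuation.map_neg] at hc₀
    exact hc₀
  have hgD : g = g₀ * u₁ * diag129 a b ha hb * u₂ := by
    have : g = g₀ * (g₀⁻¹ * g) := by group
    rw [this, hg]; group
  refine ⟨btMk340 (g₀ * u₁ * diag129 a b ha hb * nbF340 ϖ h0 c₀), ⟨?_, ?_⟩, ?_⟩
  · rw [btDist340_mk]
    have e : g⁻¹ * (g₀ * u₁ * diag129 a b ha hb * nbF340 ϖ h0 c₀)
        = u₂⁻¹ * nbF340 ϖ h0 c₀ := by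
      rw [hgD]; group
    rw [e, cdist340_mul_left _ (inU_zero_inv129 hu₂)]
    exact cdist340_nbF hϖ hc₀'.le
  · rw [btDist340_mk, btDist340_mk, hm]
    have e : g₀⁻¹ * (g₀ * u₁ * diag129 a b ha hb * nbF340 ϖ h0 c₀)
        = u₁ * (diag129 a b ha hb * nbF340 ϖ h0 c₀) := by group
    rw [e, cdist340_mul_left _ hu₁, cdist340_diag_mul_nbF_small hϖ ha hb hv hc₀']
  · intro w ⟨hw1, hw2⟩
    obtain ⟨j, rfl⟩ := btMk340_surjective w
    rw [btDist340_mk] at hw1
    rw [btDist340_mk, btDist340_mk, hm] at hw2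
    rw [btMk340_eq_iff]
    -- `y' = u₂ * (g⁻¹ * j)` has distance `1`, and `g₀⁻¹ j = u₁ D y'`
    have hy' : cdist340 (u₂ * (g⁻¹ * j)) = 1 := by rw [cdist340_mul_left _ hu₂, hw1]
    have e1 : g₀⁻¹ * j = u₁ * (diag129 a b ha hb * (u₂ * (g⁻¹ * j))) := by
      rw [hgD]; group
    rw [e1, cdist340_mul_left _ hu₁] at hw2
    rcases cdist340_diag_mul hϖ T hT ha hb hv hy' with h | ⟨-, c, hc, hcz⟩
    · omega
    · have e2 : j⁻¹ * (g₀ * u₁ * diag129 a b ha hb * nbF340 ϖ h0 c₀)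
          = ((nbF340 ϖ h0 c)⁻¹ * (u₂ * (g⁻¹ * j)))⁻¹
            * ((nbF340 ϖ h0 c)⁻¹ * nbF340 ϖ h0 c₀) := by
        rw [hgD]; group
      have hcz' : cdist340 (((nbF340 ϖ h0 c)⁻¹ * (u₂ * (g⁻¹ * j)))⁻¹) = 0 := by
        rw [cdist340_inv]; exact hcz
      rw [e2, cdist340_mul_of_zero_left hcz']
      apply cdist340_nbF_inv_mul_nbF_zero hϖ
      have : c₀ - c = (c₀ - 0) - (c - 0) := by ring
      rw [this]
      refine lt_of_le_of_lt (Valuation.map_sub _ _ _) (max_lt ?_ ?_)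
      · simpa using hc₀'
      · simpa using hc

/-- The Cartan distance on `GL₂(k) / k^× GL₂(𝒪)` is a tree distance. -/
theorem isTreeDist_btDist340_of : IsTreeDist338 (btDist340 (k := k)) where
  eq_zero := btDist340_eq_zero
  symm := btDist340_symm
  step := btDist340_step hϖ T hT
  toward := btDist340_toward hϖ T hT

end Tree

/-- **The tree of `GL₂(k)`.**  For a local field `k` (in the sense of `T6/Spec.lean`) the Cartan
distance on `GL₂(k) / k^× GL₂(𝒪)` is a tree distance. -/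
theorem isTreeDist_btDist340 {q : ℕ} (hk : IsLocalField k q) :
    IsTreeDist338 (btDist340 (k := k)) := by
  obtain ⟨ϖ, hϖ⟩ := hk.unif
  obtain ⟨T, -, -, -, hT⟩ := hk.residue
  exact isTreeDist_btDist340_of hϖ T hT

/-! ### Every vertex has exactly `q + 1` neighbours -/

section Regular

variable {ϖ : k} (hϖ : Valued.v ϖ = WithZero.exp (-1 : ℤ)) (T : Finset k)
  (hT1 : ∀ x ∈ T, Valued.v x ≤ 1)
  (hT2 : ∀ x ∈ T, ∀ y ∈ T, x ≠ y → Valued.v (x - y) = 1)
  (hT : ∀ z : k, Valued.v z ≤ 1 → ∃ x ∈ T, Valued.v (z - x) < 1)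

include hϖ hT1 hT2 hT

theorem ncard_nb_btDist340_of (v : BTVert340 k) :
    {w | btDist340 v w = 1}.ncard = T.card + 1 := by
  classical
  obtain ⟨g, rfl⟩ := btMk340_surjective v
  have h0 := unif_ne_zero340 hϖ
  set fF : k → BTVert340 k := fun c => btMk340 (g * nbF340 ϖ h0 c) with hfF
  set wI : BTVert340 k := btMk340 (g * nbI340 ϖ h0) with hwI
  have hinj : Set.InjOn fF (T : Set k) := by
    intro c hc c' hc' h
    by_contra hne
    rw [hfF] at h
    simp only at h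
    rw [btMk340_eq_iff] at h
    have e : (g * nbF340 ϖ h0 c)⁻¹ * (g * nbF340 ϖ h0 c')
        = (nbF340 ϖ h0 c)⁻¹ * nbF340 ϖ h0 c' := by group
    rw [e, cdist340_nbF_inv_mul_nbF hϖ (hT2 c' hc' c hc (Ne.symm hne))] at h
    exact absurd h (by norm_num)
  have hnot : wI ∉ T.image fF := by
    intro h
    obtain ⟨c, hc, hcw⟩ := Finset.mem_image.mp h
    rw [hwI, hfF] at hcw
    simp only at hcw
    rw [btMk340_eq_iff] at hcw
    have e : (g * nbF340 ϖ h0 c)⁻¹ * (g * nbI340 ϖ h0)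
        = (nbF340 ϖ h0 c)⁻¹ * nbI340 ϖ h0 := by group
    rw [e, cdist340_nbF_inv_mul_nbI hϖ (hT1 c hc)] at hcw
    exact absurd hcw (by norm_num)
  have hset : {w | btDist340 (btMk340 g) w = 1} = ↑(insert wI (T.image fF)) := by
    ext w
    simp only [Set.mem_ofPred_eq, Finset.coe_insert, Finset.coe_image, Set.mem_insert_iff,
      Set.mem_image, Finset.mem_coe]
    constructor
    · intro hw
      obtain ⟨j, rfl⟩ := btMk340_surjective w
      rw [btDist340_mk] at hw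
      rcases exists_nb340 hϖ T hT hw with ⟨c, hcT, hc⟩ | h
      · right
        refine ⟨c, hcT, ?_⟩
        rw [hfF]
        simp only
        rw [btMk340_eq_iff]
        have e : (g * nbF340 ϖ h0 c)⁻¹ * j = (nbF340 ϖ h0 c)⁻¹ * (g⁻¹ * j) := by group
        rw [e]; exact hc
      · left
        rw [hwI]
        symm
        rw [btMk340_eq_iff]
        have e : (g * nbI340 ϖ h0)⁻¹ * j = (nbI340 ϖ h0)⁻¹ * (g⁻¹ * j) := by group
        rw [e]; exact h
    · rintro (rfl | ⟨c, hcT, rfl⟩)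
      · rw [hwI, btDist340_mk, inv_mul_cancel_left]
        exact cdist340_nbI hϖ
      · rw [hfF]
        simp only
        rw [btDist340_mk, inv_mul_cancel_left]
        exact cdist340_nbF hϖ (hT1 c hcT)
  rw [hset, Set.ncard_coe_finset, Finset.card_insert_of_notMem hnot,
    Finset.card_image_of_injOn hinj]

end Regular

/-- **Regularity.**  Every vertex of the tree of a local field with residue field of `q`
elements has exactly `q + 1` neighbours. -/
theorem ncard_nb_btDist340 {q : ℕ} (hk : IsLocalField k q) (v : BTVert340 k) :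
    {w | btDist340 v w = 1}.ncard = q + 1 := by
  obtain ⟨ϖ, hϖ⟩ := hk.unif
  obtain ⟨T, hcard, hT1, hT2, hT⟩ := hk.residue
  rw [ncard_nb_btDist340_of hϖ T hT1 hT2 hT v, hcard]

/-! ### Isometries: left translations, valuation preserving automorphisms, twisted action -/

/-- Left translation by `g` on the vertices. -/
def btMul340 (g : GL (Fin 2) k) : BTVert340 k → BTVert340 k :=
  Quotient.map (sa := btSetoid340 k) (sb := btSetoid340 k) (fun x => g * x)
    (fun x y (h : cdist340 (x⁻¹ * y) = 0) => by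
      show cdist340 ((g * x)⁻¹ * (g * y)) = 0
      have e : (g * x)⁻¹ * (g * y) = x⁻¹ * y := by group
      rw [e]; exact h)

theorem btMul340_mk (g x : GL (Fin 2) k) : btMul340 g (btMk340 x) = btMk340 (g * x) := rfl

theorem btDist340_mul (g : GL (Fin 2) k) (x y : BTVert340 k) :
    btDist340 (btMul340 g x) (btMul340 g y) = btDist340 x y := by
  obtain ⟨x, rfl⟩ := btMk340_surjective x
  obtain ⟨y, rfl⟩ := btMk340_surjective y
  rw [btMul340_mk, btMul340_mk, btDist340_mk, btDist340_mk]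
  have e : (g * x)⁻¹ * (g * y) = x⁻¹ * y := by group
  rw [e]

theorem btMul340_mul (g h : GL (Fin 2) k) (x : BTVert340 k) :
    btMul340 (g * h) x = btMul340 g (btMul340 h x) := by
  obtain ⟨x, rfl⟩ := btMk340_surjective x
  rw [btMul340_mk, btMul340_mk, btMul340_mk, mul_assoc]

theorem btMul340_one (x : BTVert340 k) : btMul340 1 x = x := by
  obtain ⟨x, rfl⟩ := btMk340_surjective x
  rw [btMul340_mk, one_mul]

/-- The displacement of the vertex of `x` under `γ` is the Cartan distance of `x⁻¹ γ x`. -/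
theorem btDist340_mul_mk (γ x : GL (Fin 2) k) :
    btDist340 (btMk340 x) (btMul340 γ (btMk340 x)) = cdist340 (x⁻¹ * γ * x) := by
  rw [btMul340_mk, btDist340_mk, mul_assoc]

theorem glAut_inv_mul340 (s : k ≃+* k) (x y : GL (Fin 2) k) :
    (glAut s x)⁻¹ * glAut s y = glAut s (x⁻¹ * y) := by
  rw [map_mul, map_inv]

/-- The action of a ring automorphism preserving the valuation on the vertices. -/
def btAut340 (s : k ≃+* k) (hs : ∀ y : k, Valued.v (s y) = Valued.v y) :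
    BTVert340 k → BTVert340 k :=
  Quotient.map (sa := btSetoid340 k) (sb := btSetoid340 k) (fun x => glAut s x)
    (fun x y (h : cdist340 (x⁻¹ * y) = 0) => by
      show cdist340 ((glAut s x)⁻¹ * glAut s y) = 0
      rw [glAut_inv_mul340, cdist340_glAut s hs]; exact h)

theorem btAut340_mk (s : k ≃+* k) (hs : ∀ y : k, Valued.v (s y) = Valued.v y)
    (x : GL (Fin 2) k) : btAut340 s hs (btMk340 x) = btMk340 (glAut s x) := rfl

theorem btDist340_aut (s : k ≃+* k) (hs : ∀ y : k, Valued.v (s y) = Valued.v y)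
    (x y : BTVert340 k) : btDist340 (btAut340 s hs x) (btAut340 s hs y) = btDist340 x y := by
  obtain ⟨x, rfl⟩ := btMk340_surjective x
  obtain ⟨y, rfl⟩ := btMk340_surjective y
  rw [btAut340_mk, btAut340_mk, btDist340_mk, btDist340_mk, glAut_inv_mul340,
    cdist340_glAut s hs]

/-- The twisted action `x ↦ δ s(x)` on the vertices. -/
def btTw340 (s : k ≃+* k) (hs : ∀ y : k, Valued.v (s y) = Valued.v y) (δ : GL (Fin 2) k) :
    BTVert340 k → BTVert340 k :=
  fun x => btMul340 δ (btAut340 s hs x)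

theorem btTw340_mk (s : k ≃+* k) (hs : ∀ y : k, Valued.v (s y) = Valued.v y)
    (δ x : GL (Fin 2) k) : btTw340 s hs δ (btMk340 x) = btMk340 (δ * glAut s x) := rfl

theorem btDist340_tw (s : k ≃+* k) (hs : ∀ y : k, Valued.v (s y) = Valued.v y)
    (δ : GL (Fin 2) k) (x y : BTVert340 k) :
    btDist340 (btTw340 s hs δ x) (btTw340 s hs δ y) = btDist340 x y := by
  unfold btTw340
  rw [btDist340_mul, btDist340_aut]

/-- The displacement of the vertex of `x` under the twisted action of `δ` is the Cartan distance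
of `x⁻¹ δ s(x)`. -/
theorem btDist340_tw_mk (s : k ≃+* k) (hs : ∀ y : k, Valued.v (s y) = Valued.v y)
    (δ x : GL (Fin 2) k) :
    btDist340 (btMk340 x) (btTw340 s hs δ (btMk340 x)) = cdist340 (x⁻¹ * δ * glAut s x) := by
  rw [btTw340_mk, btDist340_mk, mul_assoc]

/-! ### The Cartan invariant from the distance and the determinant -/

theorem cartan_fst_sub_snd340 (g : GL (Fin 2) k) :
    (cartan g).1 - (cartan g).2 = (cdist340 g : ℤ) := by
  have he := entryMax_ne_zero340 g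
  have hd := vdet_ne_zero340 g
  have hlog : WithZero.log (Valued.v (g : Matrix (Fin 2) (Fin 2) k).det)
      ≤ 2 * WithZero.log (entryMax g) := by
    have := (WithZero.log_le_log hd (pow_ne_zero 2 he)).mpr (vdet_le_sq340 g)
    rw [WithZero.log_pow] at this
    simpa using this
  have hval : (cartan g).1 - (cartan g).2
      = 2 * WithZero.log (entryMax g)
        - WithZero.log (Valued.v (g : Matrix (Fin 2) (Fin 2) k).det) := by
    unfold cartan
    ring
  unfold cdist340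
  rw [hval]
  omega

theorem cartan_fst_add_snd340 (g : GL (Fin 2) k) :
    (cartan g).1 + (cartan g).2
      = - WithZero.log (Valued.v (g : Matrix (Fin 2) (Fin 2) k).det) := by
  unfold cartan
  ring

/-- The Cartan invariant is determined by the Cartan distance and the valuation of the
determinant. -/
theorem cartan_eq_of340 {g h : GL (Fin 2) k} (hd : cdist340 g = cdist340 h)
    (hdet : Valued.v (g : Matrix (Fin 2) (Fin 2) k).det
      = Valued.v (h : Matrix (Fin 2) (Fin 2) k).det) : cartan g = cartan h := by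
  have h1 := cartan_fst_sub_snd340 g
  have h2 := cartan_fst_sub_snd340 h
  have h3 := cartan_fst_add_snd340 g
  have h4 := cartan_fst_add_snd340 h
  rw [hd] at h1
  rw [hdet] at h3
  ext
  · omega
  · omega

end Fermat.Agent.LT.T6.H340

end

end
-- ===== PACK-END LT/T6/H340/BTTree.lean

-- ===== PACK-BEGIN LT/T6/H367/EllCount.lean
section





/-!
# Row LT, tower T6, leaf T6.14c `EllCountC` (helper367): THE COUNT

OFF-MAIN.  No gaps, nothing assumed.

`ellCountC367 : Fermat.Agent.LT.T6.H847.EllCountC`.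
-/

set_option autoImplicit false

open scoped Matrix

noncomputable section

namespace Fermat.Agent.LT.T6.H367

open Fermat.Agent.LT.T6 Fermat.Agent.LT.T6.H847

/-! ## 1. The weights -/

theorem ellWeight_ne_zero367 {Q : ℕ} {lam : ℤ × ℤ} {j : ℤ} {Θ : ℂ}
    (h : ellWeight Q lam j Θ ≠ 0) : lam.1 + lam.2 = j ∧ lam.2 ≤ lam.1 := by
  by_contra hc
  apply h
  unfold ellWeight
  rw [if_neg hc]

theorem ellWeight_odd367 (Q : ℕ) (h : ℤ) (n : ℕ) (Θ : ℂ) :
    ellWeight Q (h + n + 1, h - n) (2 * h + 1) Θ = (Q : ℂ) ^ n := by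
  unfold ellWeight
  have h1 : (h + n + 1, h - (n : ℤ)).1 + (h + n + 1, h - (n : ℤ)).2 = 2 * h + 1 ∧
      (h + n + 1, h - (n : ℤ)).2 ≤ (h + n + 1, h - (n : ℤ)).1 := by
    constructor
    · simp only; ring
    · simp only; omega
  have h2 : (2 * h + 1) % 2 = 1 := by omega
  rw [if_pos h1, if_pos h2]
  have h3 : ((h + n + 1, h - (n : ℤ)).1 - (h + n + 1, h - (n : ℤ)).2 - 1) / 2 = (n : ℤ) := by
    simp only
    omega
  rw [h3, zpow_natCast]

theorem ellWeight_even_zero367 (Q : ℕ) (J : ℤ) (Θ : ℂ) :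
    ellWeight Q (J + ((0 : ℕ) : ℤ), J - ((0 : ℕ) : ℤ)) (2 * J) Θ = Θ := by
  unfold ellWeight
  have h1 : (J + ((0 : ℕ) : ℤ), J - ((0 : ℕ) : ℤ)).1 + (J + ((0 : ℕ) : ℤ), J - ((0 : ℕ) : ℤ)).2
      = 2 * J ∧
      (J + ((0 : ℕ) : ℤ), J - ((0 : ℕ) : ℤ)).2 ≤ (J + ((0 : ℕ) : ℤ), J - ((0 : ℕ) : ℤ)).1 := by
    constructor
    · simp only; push_cast; ring
    · simp only; push_cast; omega
  have h2 : ¬ (2 * J) % 2 = 1 := by omega
  have h3 : (J + ((0 : ℕ) : ℤ), J - ((0 : ℕ) : ℤ)).1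
      = (J + ((0 : ℕ) : ℤ), J - ((0 : ℕ) : ℤ)).2 := by
    simp only; push_cast; ring
  rw [if_pos h1, if_neg h2, if_pos h3]

theorem ellWeight_even_succ367 (Q : ℕ) (J : ℤ) (r : ℕ) (Θ : ℂ) :
    ellWeight Q (J + ((r + 1 : ℕ) : ℤ), J - ((r + 1 : ℕ) : ℤ)) (2 * J) Θ
      = (Q : ℂ) ^ r * (1 + ((Q : ℂ) - 1) * Θ) := by
  unfold ellWeight
  have h1 : (J + ((r + 1 : ℕ) : ℤ), J - ((r + 1 : ℕ) : ℤ)).1
        + (J + ((r + 1 : ℕ) : ℤ), J - ((r + 1 : ℕ) : ℤ)).2 = 2 * J ∧
      (J + ((r + 1 : ℕ) : ℤ), J - ((r + 1 : ℕ) : ℤ)).2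
        ≤ (J + ((r + 1 : ℕ) : ℤ), J - ((r + 1 : ℕ) : ℤ)).1 := by
    constructor
    · simp only; push_cast; ring
    · simp only; push_cast; omega
  have h2 : ¬ (2 * J) % 2 = 1 := by omega
  have h3 : ¬ (J + ((r + 1 : ℕ) : ℤ), J - ((r + 1 : ℕ) : ℤ)).1
      = (J + ((r + 1 : ℕ) : ℤ), J - ((r + 1 : ℕ) : ℤ)).2 := by
    simp only; push_cast; omega
  have h4 : ((J + ((r + 1 : ℕ) : ℤ), J - ((r + 1 : ℕ) : ℤ)).1
      - (J + ((r + 1 : ℕ) : ℤ), J - ((r + 1 : ℕ) : ℤ)).2) / 2 - 1 = (r : ℤ) := by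
    simp only; push_cast; omega
  rw [if_pos h1, if_neg h2, if_neg h3, h4, zpow_natCast]

/-! ## 2. Reindexing a sum over `ℤ × ℤ` -/

theorem finsupp_sum_reindex367 (φ : (ℤ × ℤ) →₀ ℂ) (w : ℤ × ℤ → ℂ) (e : ℕ → ℤ × ℤ)
    (he : Function.Injective e) (hw : ∀ lam, w lam ≠ 0 → ∃ r, e r = lam) :
    (φ.sum fun lam a => a * w lam) = ∑ᶠ r : ℕ, φ (e r) * w (e r) := by
  have h1 : (φ.sum fun lam a => a * w lam) = ∑ᶠ lam, φ lam * w lam := by
    unfold Finsupp.sum
    rw [finsum_eq_sum_of_support_subset]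
    intro lam hlam
    rw [Function.mem_support] at hlam
    simp only [Finset.mem_coe, Finsupp.mem_support_iff]
    intro h0
    apply hlam
    rw [h0, zero_mul]
  rw [h1, ← finsum_mem_range (f := fun lam => φ lam * w lam) he, ← finsum_mem_univ]
  refine finsum_mem_inter_support_eq _ _ _ ?_
  ext lam
  simp only [Set.mem_inter_iff, Set.mem_univ, true_and, Function.mem_support, Set.mem_range]
  constructor
  · intro h
    exact ⟨hw lam (right_ne_zero_of_mul h), h⟩
  · intro h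
    exact h.2

/-- A bound for the support along an injective sequence. -/
theorem exists_bound367 (φ : (ℤ × ℤ) →₀ ℂ) (J : ℤ) :
    ∃ R : ℕ, ∀ r : ℕ, R ≤ r → φ (J + (r : ℤ), J - (r : ℤ)) = 0 := by
  refine ⟨φ.support.sup (fun lam => (lam.1 - J).toNat) + 1, fun r hr => ?_⟩
  by_contra h
  have hmem : (J + (r : ℤ), J - (r : ℤ)) ∈ φ.support := Finsupp.mem_support_iff.2 h
  have := Finset.le_sup (f := fun lam : ℤ × ℤ => (lam.1 - J).toNat) hmem
  have e : (J + (r : ℤ) - J).toNat = r := by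
    have : J + (r : ℤ) - J = (r : ℤ) := by ring
    rw [this]
    exact Int.toNat_natCast r
  rw [e] at this
  omega

/-! ## 3. The odd case -/

section Odd

variable {K : Type} [Field K] [Valued K Γ₀]

theorem odd_case367 {s : K ≃+* K} {τ ν : K} (C : Ctx367 s τ ν) (d₀ d₁ : K) (δ₀ : GL (Fin 2) K)
    (hδ : (δ₀ : Matrix (Fin 2) (Fin 2) K) = embMat τ ν d₀ d₁) (hO : Valued.v d₀ < Valued.v d₁)
    (Q : ℕ) (Bf : ℕ → Finset K) (hint : ∀ n, ∀ ξ ∈ Bf n, Valued.v ξ ≤ 1)
    (hcard : ∀ n, (Bf n).card = Q ^ n) (φ : (ℤ × ℤ) →₀ ℂ) (Θ : ℂ) :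
    ∑ᶠ n : ℕ, ∑ ξ ∈ Bf n, φ (cartan (Ctx367.conjGL367 s τ ν δ₀ n ξ))
      = φ.sum fun lam a => a * ellWeight Q lam
          (ord847 (δ₀ : Matrix (Fin 2) (Fin 2) K).det) Θ := by
  have hj : ord847 (δ₀ : Matrix (Fin 2) (Fin 2) K).det = 2 * ord847 d₁ + 1 := by
    apply ord_eq_of_val367
    rw [hδ]
    exact C.val_det_odd d₀ d₁ hO
  rw [hj]
  set h := ord847 d₁ with hh
  have he : Function.Injective (fun n : ℕ => ((h + n + 1, h - n) : ℤ × ℤ)) := by
    intro n m hnm
    simp only [Prod.mk.injEq] at hnm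
    omega
  rw [finsupp_sum_reindex367 φ (fun lam => ellWeight Q lam (2 * h + 1) Θ) _ he]
  · refine finsum_congr fun n => ?_
    rw [ellWeight_odd367]
    have h1 : ∑ ξ ∈ Bf n, φ (cartan (Ctx367.conjGL367 s τ ν δ₀ n ξ))
        = ∑ ξ ∈ Bf n, φ (h + n + 1, h - n) := by
      refine Finset.sum_congr rfl fun ξ hξ => ?_
      rw [C.cartan_odd d₀ d₁ δ₀ hδ hO n ξ (hint n ξ hξ)]
    rw [h1, Finset.sum_const, hcard, nsmul_eq_mul]
    push_cast
    ring
  · intro lam hlam
    obtain ⟨h1, h2⟩ := ellWeight_ne_zero367 hlam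
    refine ⟨(lam.1 - h - 1).toNat, ?_⟩
    have h3 : 0 ≤ lam.1 - h - 1 := by omega
    show ((h + ((lam.1 - h - 1).toNat : ℤ) + 1, h - ((lam.1 - h - 1).toNat : ℤ)) : ℤ × ℤ) = lam
    rw [Int.toNat_of_nonneg h3]
    ext
    · simp only; ring
    · simp only; omega

end Odd

/-! ## 4. The even case -/

section Even

variable {k k' : Type} [Field k] [Field k'] [Valued k Γ₀] [Valued k' Γ₀]
  {q l : ℕ} {i : k →+* k'} {s : k' ≃+* k'}

theorem even_case367 (hk : IsLocalField k q) (hk' : IsLocalField k' (q ^ l))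
    (hext : IsLocalExt k k' l 1 i s) {τ ν : k'} (C : Ctx367 s τ ν) (d₀ d₁ : k')
    (δ₀ γ' : GL (Fin 2) k')
    (hδ : (δ₀ : Matrix (Fin 2) (Fin 2) k') = embMat τ ν d₀ d₁)
    (α' β' : k') (hγ : (γ' : Matrix (Fin 2) (Fin 2) k') = embMat τ ν α' β')
    (hN : twNorm s l δ₀ = γ') (hβ' : β' ≠ 0) (hE : Valued.v d₁ ≤ Valued.v d₀) (hd₀ : d₀ ≠ 0)
    (T : Finset k') (hT : IsResSys367 T) (hTcard : T.card = q ^ l)
    (Bf : ℕ → Finset k') (hint : ∀ n, ∀ ξ ∈ Bf n, Valued.v ξ ≤ 1)
    (hB0 : ∃ b₀ : k', Bf 0 = {b₀})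
    (hfib : ∀ (n : ℕ) (h : k' → ℂ), (∀ x y : k', Valued.v x ≤ 1 → Valued.v y ≤ 1 →
          Valued.v (x - y) ≤ WithZero.exp (-((n + 1 : ℕ) : ℤ)) → h x = h y) →
        ∑ b ∈ Bf (n + 1), h b = ∑ ξ ∈ Bf n, ∑ t ∈ T, h (ξ + ν ^ n * t))
    (φ : (ℤ × ℤ) →₀ ℂ) :
    ∑ᶠ n : ℕ, ∑ ξ ∈ Bf n, φ (cartan (Ctx367.conjGL367 s τ ν δ₀ n ξ))
      = φ.sum fun lam a => a * ellWeight (q ^ l) lam
          (ord847 (δ₀ : Matrix (Fin 2) (Fin 2) k').det) (theta q (ord847 β' - ord847 α')) := by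
  classical
  have hl := hext.cyc.order
  have hj : ord847 (δ₀ : Matrix (Fin 2) (Fin 2) k').det = 2 * ord847 d₀ := by
    apply ord_eq_of_val367
    rw [hδ]
    exact C.val_det_even d₀ d₁ hE hd₀
  rw [hj]
  set J := ord847 d₀ with hJ
  set cN := (ord847 β' - ord847 α').toNat with hcN
  set Θ := theta q (ord847 β' - ord847 α') with hΘ
  have hΘeq : Θ = ∑ n ∈ Finset.range (cN + 1), (q : ℂ) ^ n := rfl
  set Q : ℂ := ((q ^ l : ℕ) : ℂ) with hQ
  obtain ⟨hα, hβα⟩ := C.beta_le_alpha l hl d₀ d₁ δ₀ γ' hδ α' β' hγ hN hE hd₀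
  have hv₀ : Valued.v d₀ ≠ 0 := (Valuation.ne_zero_iff _).2 hd₀
  have hα0 : α' ≠ 0 := by
    intro h
    rw [h, Valuation.map_zero] at hα
    exact pow_ne_zero l hv₀ hα.symm
  have hord : ord847 α' ≤ ord847 β' := by
    rw [val_eq_exp_ord367 hβ', val_eq_exp_ord367 hα0, WithZero.exp_le_exp] at hβα
    omega
  have hP : ∀ m : ℕ, Valued.v β' ≤ Valued.v α' * WithZero.exp (-(m : ℤ)) ↔ m ≤ cN := by
    intro m
    rw [val_eq_exp_ord367 hβ', val_eq_exp_ord367 hα0, ← WithZero.exp_add, WithZero.exp_le_exp]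
    omega
  -- the state sums
  set a : ℕ → ℂ := fun r => φ (J + (r : ℤ), J - (r : ℤ)) with ha
  set S : ℕ → (ℕ → ℂ) → ℂ := fun n b => ∑ ξ ∈ Bf n, b (rr367 s τ ν d₀ d₁ n ξ) with hS
  set qn : ℕ → ℂ := fun n => if n + 1 ≤ cN then (q : ℂ) else 0 with hqn
  have hLHS : ∀ n, ∑ ξ ∈ Bf n, φ (cartan (Ctx367.conjGL367 s τ ν δ₀ n ξ)) = S n a := by
    intro n
    refine Finset.sum_congr rfl fun ξ hξ => ?_
    rw [C.cartan_rr d₀ d₁ δ₀ hδ hE hd₀ n ξ (hint n ξ hξ)]
  have hS0 : ∀ b : ℕ → ℂ, S 0 b = nSeq367 q cN 0 * b 0 := by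
    intro b
    obtain ⟨b₀, hb₀⟩ := hB0
    have hb₀int : Valued.v b₀ ≤ 1 := hint 0 b₀ (by rw [hb₀]; exact Finset.mem_singleton_self b₀)
    simp only [hS]
    rw [hb₀, Finset.sum_singleton, C.rr_zero d₀ d₁ hE b₀ hb₀int]
    unfold nSeq367
    rw [if_pos (Nat.zero_le _), pow_zero, one_mul]
  have hNrec : ∀ n, nSeq367 q cN (n + 1) = qn n * nSeq367 q cN n := by
    intro n
    simp only [hqn]
    unfold nSeq367
    by_cases h : n + 1 ≤ cN
    · rw [if_pos h, if_pos h, if_pos (by omega), pow_succ]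
      ring
    · rw [if_neg h, if_neg h, zero_mul]
  have hSrec : ∀ (n : ℕ) (b : ℕ → ℂ), S (n + 1) b
      = S n (fun r => if r = 0 then qn n * b 0 + (Q - qn n) * b 1 else Q * b (r + 1)) := by
    intro n b
    simp only [hS]
    rw [hfib n (fun x => b (rr367 s τ ν d₀ d₁ (n + 1) x))
      (fun x y hx hy hxy => by rw [C.rr_congr d₀ d₁ hE hd₀ (n + 1) x y hx hy hxy])]
    refine Finset.sum_congr rfl fun ξ hξ => ?_
    have hξi := hint n ξ hξ
    by_cases hg : Valued.v (bNum367 τ ν d₀ d₁ ξ (s ξ)) * WithZero.exp ((n : ℤ)) ≤ Valued.v d₀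
    · have hr0 : rr367 s τ ν d₀ d₁ n ξ = 0 := by
        unfold rr367
        rw [if_pos hg]
      rw [hr0, if_pos rfl]
      set ζ := -(bNum367 τ ν d₀ d₁ ξ (s ξ)) / (ν ^ n * aNum367 τ ν d₀ d₁ ξ (s ξ)) with hζ
      have hζi : Valued.v ζ ≤ 1 :=
        (C.child_good d₀ d₁ hE hd₀ n ξ 0 hξi (by simp) hg).1
      have h1 : ∑ t ∈ T, b (rr367 s τ ν d₀ d₁ (n + 1) (ξ + ν ^ n * t))
          = ∑ t ∈ T, if Valued.v (s t - t - ζ) < 1 then b 0 else b 1 := by
        refine Finset.sum_congr rfl fun t ht => ?_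
        rw [(C.child_good d₀ d₁ hE hd₀ n ξ t hξi (hT.int t ht) hg).2, ← hζ]
        split_ifs <;> rfl
      have hcount := res_count367 hk hk' hext T hT.int hT.sep hT.cov ζ hζi
      have hcrit := C.trace_crit l hl d₀ d₁ δ₀ γ' hδ α' β' hγ hN hE hd₀ n ξ hξi hg
      rw [← hζ, hP (n + 1)] at hcrit
      have hcount' : ((T.filter (fun t => Valued.v (s t - t - ζ) < 1)).card : ℂ) = qn n := by
        rw [hcount]
        simp only [hqn]
        by_cases h : n + 1 ≤ cN
        · rw [if_pos (hcrit.2 h), if_pos h]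
        · rw [if_neg (fun h' => h (hcrit.1 h')), if_neg h]
          simp
      have hcompl : ((T.filter (fun t => ¬ Valued.v (s t - t - ζ) < 1)).card : ℂ)
          = Q - qn n := by
        have := Finset.card_filter_add_card_filter_not (s := T)
          (fun t => Valued.v (s t - t - ζ) < 1)
        rw [← hcount', hQ, ← hTcard, ← this]
        push_cast
        ring
      rw [h1, Finset.sum_ite, Finset.sum_const, Finset.sum_const, nsmul_eq_mul, nsmul_eq_mul,
        hcount', hcompl]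
    · have hpos := (ord_of_bad367 hd₀ _ n (not_le.1 hg)).2
      have hr0 : rr367 s τ ν d₀ d₁ n ξ ≠ 0 := by
        unfold rr367
        rw [if_neg hg]
        omega
      rw [if_neg hr0]
      have h1 : ∑ t ∈ T, b (rr367 s τ ν d₀ d₁ (n + 1) (ξ + ν ^ n * t))
          = ∑ t ∈ T, b (rr367 s τ ν d₀ d₁ n ξ + 1) := by
        refine Finset.sum_congr rfl fun t ht => ?_
        rw [C.child_bad d₀ d₁ hE hd₀ n ξ t hξi (hT.int t ht) hg]
      rw [h1, Finset.sum_const, nsmul_eq_mul, hTcard]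
  have hclosed := comb367 Q (nSeq367 q cN) qn hNrec S hS0 hSrec
  obtain ⟨R, hR⟩ := exists_bound367 φ J
  have htot := total367 Q q cN S hclosed a R hR (R + cN + 2) le_rfl
  -- the left hand side
  have hL : ∑ᶠ n : ℕ, ∑ ξ ∈ Bf n, φ (cartan (Ctx367.conjGL367 s τ ν δ₀ n ξ))
      = ∑ n ∈ Finset.range (R + cN + 2), S n a := by
    rw [finsum_congr hLHS]
    refine finsum_eq_sum_of_support_subset _ ?_
    intro n hn
    rw [Function.mem_support] at hn
    simp only [Finset.coe_range, Set.mem_Iio]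
    by_contra h
    exact hn (htot.1 n (by omega))
  rw [hL, htot.2]
  -- the right hand side
  have he : Function.Injective (fun r : ℕ => ((J + (r : ℤ), J - (r : ℤ)) : ℤ × ℤ)) := by
    intro n m hnm
    simp only [Prod.mk.injEq] at hnm
    omega
  rw [finsupp_sum_reindex367 φ (fun lam => ellWeight (q ^ l) lam (2 * J) Θ) _ he]
  · have hR' : ∑ᶠ r : ℕ, φ (J + (r : ℤ), J - (r : ℤ))
          * ellWeight (q ^ l) (J + (r : ℤ), J - (r : ℤ)) (2 * J) Θ
        = ∑ r ∈ Finset.range (R + cN + 2 + 1), a r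
          * ellWeight (q ^ l) (J + (r : ℤ), J - (r : ℤ)) (2 * J) Θ := by
      refine finsum_eq_sum_of_support_subset _ ?_
      intro r hr
      rw [Function.mem_support] at hr
      simp only [Finset.coe_range, Set.mem_Iio]
      by_contra h
      apply hr
      rw [hR r (by omega), zero_mul]
    have h2 : ∑ r ∈ Finset.range (R + cN + 2), a (r + 1)
          * ellWeight (q ^ l) (J + ((r + 1 : ℕ) : ℤ), J - ((r + 1 : ℕ) : ℤ)) (2 * J) Θ
        = ∑ r ∈ Finset.range (R + cN + 2), Q ^ r * (1 + (Q - 1) * Θ) * a (r + 1) := by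
      refine Finset.sum_congr rfl fun r _ => ?_
      rw [ellWeight_even_succ367]
      ring
    rw [hR', Finset.sum_range_succ'
      (fun r => a r * ellWeight (q ^ l) (J + (r : ℤ), J - (r : ℤ)) (2 * J) Θ) (R + cN + 2),
      ellWeight_even_zero367, h2, ← hΘeq]
    ring
  · intro lam hlam
    obtain ⟨h1, h2⟩ := ellWeight_ne_zero367 hlam
    refine ⟨(lam.1 - J).toNat, ?_⟩
    have h3 : 0 ≤ lam.1 - J := by omega
    show ((J + ((lam.1 - J).toNat : ℤ), J - ((lam.1 - J).toNat : ℤ)) : ℤ × ℤ) = lam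
    rw [Int.toNat_of_nonneg h3]
    ext
    · simp only; ring
    · simp only; omega

end Even

/-! ## 5. The count -/

theorem ellCountC367 : EllCountC := by
  intro k k' _ _ _ _ q l i s hk hk' hext τ ν α β d₀ d₁ γ₀ δ₀ hD φ B hB
  classical
  have C : Ctx367 s (i τ) (i ν) :=
    { val_s := hext.val_s
      sτ := hext.cyc.fix_i τ
      sν := hext.cyc.fix_i ν
      val_ν := by rw [val_i367 hext]; exact hD.val_ν
      val_τ := by rw [val_i367 hext]; exact hD.val_τ }
  obtain ⟨T, hTcard, hT1, hT2, hT3⟩ := hk'.residue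
  have hT : IsResSys367 T := ⟨hT1, hT2, hT3⟩
  obtain ⟨Bf, hBf, hB0, hcard, hfib⟩ := reprFin367 C.val_ν T hT B hB
  have hint : ∀ n, ∀ ξ ∈ Bf n, Valued.v ξ ≤ 1 := by
    intro n ξ hξ
    refine (hB n).1 ξ ?_
    rw [← hBf n]
    exact Finset.mem_coe.2 hξ
  have hLHS : (∑ᶠ n : ℕ, ∑ᶠ ξ ∈ B n,
        φ (cartan ((latGL (i τ) (i ν) n ξ)⁻¹ * δ₀ * glAut s (latGL (i τ) (i ν) n ξ))))
      = ∑ᶠ n : ℕ, ∑ ξ ∈ Bf n, φ (cartan (Ctx367.conjGL367 s (i τ) (i ν) δ₀ n ξ)) := by
    refine finsum_congr fun n => ?_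
    rw [← hBf n, finsum_mem_coe_finset]
    rfl
  rw [hLHS]
  have hdet : (embMat (i τ) (i ν) d₀ d₁).det ≠ 0 := by
    rw [← hD.δ₀_eq]
    exact Matrix.GeneralLinearGroup.det_ne_zero δ₀
  rcases le_or_gt (Valued.v d₁) (Valued.v d₀) with hE | hO
  · have hd₀ : d₀ ≠ 0 := by
      intro h
      rw [h, Valuation.map_zero] at hE
      have hd₁ : d₁ = 0 := (Valuation.zero_iff _).1 (le_antisymm hE bot_le)
      apply hdet
      rw [embMat_det367, h, hd₁]
      ring
    have hγ : ((Matrix.GeneralLinearGroup.map i γ₀ : GL (Fin 2) k') : Matrix (Fin 2) (Fin 2) k')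
        = embMat (i τ) (i ν) (i α) (i β) := by
      have : ((Matrix.GeneralLinearGroup.map i γ₀ : GL (Fin 2) k')
          : Matrix (Fin 2) (Fin 2) k') = (γ₀ : Matrix (Fin 2) (Fin 2) k).map i := rfl
      rw [this, hD.γ₀_eq, embMat_map367]
    have hβ' : i β ≠ 0 := by
      intro h
      exact hD.β_ne ((map_eq_zero i).1 h)
    have hordβ : ord847 (i β) = ord847 β := by
      unfold ord847
      rw [val_i367 hext]
    have hordα : ord847 (i α) = ord847 α := by
      unfold ord847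
      rw [val_i367 hext]
    have := even_case367 hk hk' hext C d₀ d₁ δ₀ _ hD.δ₀_eq (i α) (i β) hγ hD.norm_eq hβ' hE hd₀
      T hT hTcard Bf hint hB0 hfib φ
    rw [hordβ, hordα] at this
    exact this
  · have := odd_case367 C d₀ d₁ δ₀ hD.δ₀_eq hO (q ^ l) Bf hint
      (fun n => by rw [hcard n, hTcard]) φ (theta q (ord847 β - ord847 α))
    exact this

end Fermat.Agent.LT.T6.H367

end

end
-- ===== PACK-END LT/T6/H367/EllCount.lean

-- ===== PACK-BEGIN LT/T6/H560/QuatSub.lean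
section



/-!
# Row LT, tower T6, leaf T6.18i.6b.3 `QuatSubC558` (registry 1533): PROOF (helper560)

OFF-MAIN.  `quatSubC560 : H558.QuatSubC558` VERBATIM against `LT/T6/H558/QuatSetSpec.lean`
(helper558@66ec864fb, sha256 3a49f9f1), imports = Mathlib + the byte-identical closure of that file.

Proof (pure `2 × 2` algebra, no valuations).  `σ(δ₀) = δ₀`, `δ₀ σ(w) = w δ₀`, `δ₀² = z`, so
`N = N(w δ₀) = z w²`; `disc N = z² (tr w)² disc w`, and `disc N ≠ 0` because `N` is conjugate to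
the regular `i(γ)`; hence `tr w ≠ 0` and, by Cayley--Hamilton, `w = (z tr w)⁻¹ N + (det w / tr w)`
is a polynomial in `N`.  If `t⁻¹ (w δ₀) σ(t) = w δ₀` then `t` commutes with `N` (`σ² = 1`), so
`t` commutes with `w`, and `t⁻¹ δ₀ σ(t) = w⁻¹ (t⁻¹ (w δ₀) σ(t)) = δ₀`.
Only `IsCyclicData.fix_i` and `IsCyclicData.order` of the field data are used.
-/

set_option autoImplicit false

open scoped Matrix

noncomputable section

namespace Fermat.Agent.LT.T6.H560

open Fermat.Agent.LT.T6 Fermat.Agent.LT.T6.H783 Fermat.Agent.LT.T6.H385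

section Algebra

variable {F : Type} [Field F]

/-- Cayley--Hamilton for `2 × 2` matrices. -/
theorem sq_eq_cayley560 (W : Matrix (Fin 2) (Fin 2) F) :
    W * W = W.trace • W - W.det • (1 : Matrix (Fin 2) (Fin 2) F) := by
  ext i j
  fin_cases i <;> fin_cases j <;>
    simp [Matrix.mul_apply, Fin.sum_univ_two, Matrix.trace_fin_two, Matrix.det_fin_two] <;> ring

/-- The discriminant of `c W²` is `c² (tr W)² disc W`. -/
theorem disc_smul_sq560 (c : F) (W : Matrix (Fin 2) (Fin 2) F) :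
    (c • (W * W)).trace ^ 2 - 4 * (c • (W * W)).det
      = c ^ 2 * W.trace ^ 2 * (W.trace ^ 2 - 4 * W.det) := by
  simp [Matrix.mul_apply, Fin.sum_univ_two, Matrix.trace_fin_two, Matrix.det_fin_two]
  ring

/-- A matrix which commutes with `c W²` commutes with `W`, if `c ≠ 0` and `tr W ≠ 0`. -/
theorem commute_of_commute_smul_sq560 {c : F} (hc : c ≠ 0) {W T : Matrix (Fin 2) (Fin 2) F}
    (htr : W.trace ≠ 0) (h : T * (c • (W * W)) = c • (W * W) * T) : T * W = W * T := by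
  rw [sq_eq_cayley560 W] at h
  have h1 : (c * W.trace) • (T * W) = (c * W.trace) • (W * T) := by
    have e1 : T * (c • (W.trace • W - W.det • (1 : Matrix (Fin 2) (Fin 2) F)))
        = (c * W.trace) • (T * W) - (c * W.det) • T := by
      rw [Matrix.mul_smul, Matrix.mul_sub, Matrix.mul_smul, Matrix.mul_smul, Matrix.mul_one,
        smul_sub, smul_smul, smul_smul]
    have e2 : c • (W.trace • W - W.det • (1 : Matrix (Fin 2) (Fin 2) F)) * T
        = (c * W.trace) • (W * T) - (c * W.det) • T := by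
      rw [Matrix.smul_mul, Matrix.sub_mul, Matrix.smul_mul, Matrix.smul_mul, Matrix.one_mul,
        smul_sub, smul_smul, smul_smul]
    rw [e1, e2] at h
    exact sub_left_injective h
  exact smul_right_injective _ (mul_ne_zero hc htr) h1

end Algebra

section Conj

variable {F : Type} [Field F]

/-- The discriminant is invariant under conjugation. -/
theorem disc_conj560 (c N : GL (Fin 2) F) : disc (c * N * c⁻¹) = disc N := by
  have h1 : ((c⁻¹ : GL (Fin 2) F) : Matrix (Fin 2) (Fin 2) F) * (c : Matrix (Fin 2) (Fin 2) F)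
      = 1 := by
    rw [← Units.val_mul, inv_mul_cancel, Units.val_one]
  have htr : ((c * N * c⁻¹ : GL (Fin 2) F) : Matrix (Fin 2) (Fin 2) F).trace
      = (N : Matrix (Fin 2) (Fin 2) F).trace := by
    rw [Units.val_mul, Units.val_mul, Matrix.trace_mul_comm, ← Matrix.mul_assoc, h1,
      Matrix.one_mul]
  have hdet : ((c * N * c⁻¹ : GL (Fin 2) F) : Matrix (Fin 2) (Fin 2) F).det
      = (N : Matrix (Fin 2) (Fin 2) F).det := by
    rw [Units.val_mul, Units.val_mul, Matrix.det_mul, Matrix.det_mul, mul_comm, ← mul_assoc,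
      ← Matrix.det_mul, h1, Matrix.det_one, one_mul]
  unfold disc
  rw [htr, hdet]

/-- The discriminant commutes with a homomorphism of fields. -/
theorem disc_map560 {F' : Type} [Field F'] (i : F →+* F') (γ : GL (Fin 2) F) :
    disc (Matrix.GeneralLinearGroup.map i γ) = i (disc γ) := by
  unfold disc
  simp only [Matrix.trace_fin_two, Matrix.det_fin_two, Matrix.GeneralLinearGroup.map_apply,
    map_sub, map_mul, map_pow, map_add, map_ofNat]

end Conj

/-- **T6.18i.6b.3** `QuatSubC558`: the twisted centraliser of `w δ₀` lies in `D^×`. -/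
theorem quatSubC560 : H558.QuatSubC558 := by
  intro k k' _ _ _ _ q e i s hQ z hz w δ₀ γ hδ₀ hw hγ hconj t ht
  have hcyc := hQ.ext.cyc
  have hδ₀' : (δ₀ : Matrix (Fin 2) (Fin 2) k') = !![0, i z; 1, 0] := hδ₀
  have hiz : i z ≠ 0 := (map_ne_zero i).2 hz
  -- `σ(δ₀) = δ₀`
  have hσδ : glAut s δ₀ = δ₀ := by
    apply Units.ext
    ext a b
    show (glAut s δ₀ : Matrix (Fin 2) (Fin 2) k') a b = (δ₀ : Matrix (Fin 2) (Fin 2) k') a b
    unfold glAut
    rw [Matrix.GeneralLinearGroup.map_apply, hδ₀']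
    fin_cases a <;> fin_cases b <;> simp [hcyc.fix_i]
  -- `σ² = 1`
  have hσσ : ∀ x : GL (Fin 2) k', glAut s (glAut s x) = x := by
    intro x
    apply Units.ext
    ext a b
    show (glAut s (glAut s x) : Matrix (Fin 2) (Fin 2) k') a b
      = (x : Matrix (Fin 2) (Fin 2) k') a b
    unfold glAut
    rw [Matrix.GeneralLinearGroup.map_apply, Matrix.GeneralLinearGroup.map_apply]
    have h := hcyc.order ((x : Matrix (Fin 2) (Fin 2) k') a b)
    rw [pow_two] at h
    exact h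
  -- the twisted centraliser conditions
  have hw' : δ₀ * glAut s w = w * δ₀ := by
    have h := congrArg (fun x => w * x) hw
    simp only [mul_assoc, mul_inv_cancel_left] at h
    exact h
  have ht' : w * δ₀ * glAut s t = t * (w * δ₀) := by
    have h := congrArg (fun x => t * x) ht
    simp only [mul_assoc, mul_inv_cancel_left] at h
    simp only [mul_assoc]
    exact h
  -- the norm
  have hNdef : twNorm s 2 (w * δ₀) = w * δ₀ * glAut s (w * δ₀) := by
    simp [twNorm, twN]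
  have hN : twNorm s 2 (w * δ₀) = w * w * (δ₀ * δ₀) := by
    rw [hNdef, map_mul, hσδ]
    calc w * δ₀ * (glAut s w * δ₀) = w * (δ₀ * glAut s w) * δ₀ := by simp only [mul_assoc]
      _ = w * (w * δ₀) * δ₀ := by rw [hw']
      _ = w * w * (δ₀ * δ₀) := by simp only [mul_assoc]
  have hσt : glAut s (w * δ₀) * t = glAut s t * glAut s (w * δ₀) := by
    have h := congrArg (glAut s) ht'
    rw [map_mul (glAut s) (w * δ₀) (glAut s t), hσσ, map_mul (glAut s) t (w * δ₀)] at h
    exact h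
  have hNt : t * twNorm s 2 (w * δ₀) = twNorm s 2 (w * δ₀) * t := by
    rw [hNdef]
    calc t * (w * δ₀ * glAut s (w * δ₀)) = t * (w * δ₀) * glAut s (w * δ₀) := by
          simp only [mul_assoc]
      _ = w * δ₀ * glAut s t * glAut s (w * δ₀) := by rw [ht']
      _ = w * δ₀ * (glAut s t * glAut s (w * δ₀)) := by simp only [mul_assoc]
      _ = w * δ₀ * (glAut s (w * δ₀) * t) := by rw [hσt]
      _ = w * δ₀ * glAut s (w * δ₀) * t := by simp only [mul_assoc]
  -- matrices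
  have hδδ : (δ₀ : Matrix (Fin 2) (Fin 2) k') * (δ₀ : Matrix (Fin 2) (Fin 2) k')
      = (i z) • (1 : Matrix (Fin 2) (Fin 2) k') := by
    rw [hδ₀']
    ext a b
    fin_cases a <;> fin_cases b <;> simp [Matrix.mul_apply, Fin.sum_univ_two]
  have hNmat : ((twNorm s 2 (w * δ₀) : GL (Fin 2) k') : Matrix (Fin 2) (Fin 2) k')
      = (i z) • ((w : Matrix (Fin 2) (Fin 2) k') * (w : Matrix (Fin 2) (Fin 2) k')) := by
    rw [hN, Units.val_mul, Units.val_mul, Units.val_mul, hδδ, Matrix.mul_smul, Matrix.mul_one]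
  -- `N` is regular, so `tr w ≠ 0`
  have hdiscN : disc (twNorm s 2 (w * δ₀)) ≠ 0 := by
    obtain ⟨c, hc⟩ := isConj_iff.1 hconj
    have h1 : disc (twNorm s 2 (w * δ₀)) = i (disc γ) := by
      rw [← disc_conj560 c, hc, disc_map560]
    rw [h1]
    exact (map_ne_zero i).2 hγ.ne_zero
  have htr : (w : Matrix (Fin 2) (Fin 2) k').trace ≠ 0 := by
    intro h0
    apply hdiscN
    unfold disc
    rw [hNmat, disc_smul_sq560, h0]
    ring
  -- `t` commutes with `w`
  have hcomm : t * w = w * t := by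
    apply Units.ext
    rw [Units.val_mul, Units.val_mul]
    apply commute_of_commute_smul_sq560 hiz htr
    rw [← hNmat, ← Units.val_mul, ← Units.val_mul, hNt]
  have hcomm' : t⁻¹ * w = w * t⁻¹ := by
    have h := congrArg (fun x => t⁻¹ * x * t⁻¹) hcomm
    simp only [mul_assoc, mul_inv_cancel, mul_one, inv_mul_cancel_left] at h
    exact h.symm
  -- conclusion
  show t⁻¹ * δ₀ * glAut s t = δ₀
  have h1 : w * (t⁻¹ * δ₀ * glAut s t) = w * δ₀ := by
    calc w * (t⁻¹ * δ₀ * glAut s t) = w * t⁻¹ * δ₀ * glAut s t := by simp only [mul_assoc]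
      _ = t⁻¹ * w * δ₀ * glAut s t := by rw [hcomm']
      _ = t⁻¹ * (w * δ₀) * glAut s t := by simp only [mul_assoc]
      _ = w * δ₀ := ht
  exact mul_left_cancel h1

end Fermat.Agent.LT.T6.H560

end

end
-- ===== PACK-END LT/T6/H560/QuatSub.lean

-- ===== PACK-BEGIN LT/T6/H277/Torus.lean
section




/-!
# Row LT, tower T6, sub-leaf T6.13.2.5 `TorusC` (helper277, spare of row 1113) -- OFF-MAIN

For `y = ϖ^j (a + ϖ^r w)` in normal form the centraliser of `y` is `{x + z w}`, the determinant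
of `x + z w` has valuation `max (|x|, |z|)²`, hence the centraliser is `ϖ^ℤ × T^c` and
`T^c = {x + z w : max (|x|, |z|) = 1}` is closed under multiplication.
-/

set_option autoImplicit false

open scoped Matrix

noncomputable section

namespace Fermat.Agent.LT.T6.H277

open Fermat.Agent.LT.T6 Fermat.Agent.LT.T6.H60 Fermat.Agent.LT.H129

section

variable {k : Type} [Field k] [Valued k Γ₀]

/-- The valuation of the norm form of a quadratic polynomial without root modulo `ϖ`. -/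
theorem v_norm277 {t n : k} (ht : Valued.v t ≤ 1) (hn : Valued.v n ≤ 1)
    (hirr : ∀ b : k, Valued.v b ≤ 1 → Valued.v (chi277 t n b) = 1) (x z : k) :
    Valued.v (x ^ 2 + t * x * z + n * z ^ 2) = (max (Valued.v x) (Valued.v z)) ^ 2 := by
  rcases le_or_gt (Valued.v x) (Valued.v z) with h | h
  · rw [max_eq_right h]
    by_cases hz : z = 0
    · subst hz
      rw [map_zero] at h
      have hx : x = 0 := by
        have : Valued.v x = 0 := le_antisymm h zero_le
        exact (map_eq_zero _).mp this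
      subst hx
      simp
    · have hvz : Valued.v z ≠ 0 := by rwa [ne_eq, map_eq_zero]
      have hb : Valued.v (-x / z) ≤ 1 := by
        rw [map_div₀, Valuation.map_neg, div_le_one₀ (zero_lt_iff.mpr hvz)]
        exact h
      have e : x ^ 2 + t * x * z + n * z ^ 2 = z ^ 2 * chi277 t n (-x / z) := by
        unfold chi277
        field_simp
        ring
      rw [e, map_mul, hirr _ hb, mul_one, map_pow]
  · rw [max_eq_left h.le]
    have hx : x ≠ 0 := by
      intro hx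
      rw [hx, map_zero] at h
      exact not_lt.mpr zero_le h
    have hvx : Valued.v x ≠ 0 := by rwa [ne_eq, map_eq_zero]
    have hc : Valued.v (z / x) < 1 := by
      rw [map_div₀, div_lt_one₀ (zero_lt_iff.mpr hvx)]
      exact h
    have he : Valued.v (t * (z / x) + n * (z / x) ^ 2) < 1 := by
      refine lt_of_le_of_lt (Valuation.map_add _ _ _) (max_lt ?_ ?_)
      · rw [map_mul]
        exact lt_of_le_of_lt (mul_le_mul' ht le_rfl) (by rwa [one_mul])
      · rw [map_mul, map_pow]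
        have h2 : Valued.v (z / x) ^ 2 < 1 := by
          calc Valued.v (z / x) ^ 2 = Valued.v (z / x) * Valued.v (z / x) := sq _
            _ ≤ 1 * Valued.v (z / x) := mul_le_mul' hc.le le_rfl
            _ = Valued.v (z / x) := one_mul _
            _ < 1 := hc
        exact lt_of_le_of_lt (mul_le_mul' hn le_rfl) (by rwa [one_mul])
    have e : x ^ 2 + t * x * z + n * z ^ 2 = x ^ 2 * (1 + (t * (z / x) + n * (z / x) ^ 2)) := by
      field_simp
      ring
    rw [e, map_mul, Valuation.map_one_add_of_lt _ he, mul_one, map_pow]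

theorem sq_eq_one277 {m : Γ₀} (h : m ^ 2 = 1) : m = 1 := by
  rcases lt_trichotomy m 1 with h1 | h1 | h1
  · exfalso
    have : m ^ 2 < 1 := by
      calc m ^ 2 = m * m := sq m
        _ ≤ 1 * m := mul_le_mul' h1.le le_rfl
        _ = m := one_mul m
        _ < 1 := h1
    rw [h] at this
    exact lt_irrefl _ this
  · exact h1
  · exfalso
    have : 1 < m ^ 2 := one_lt_pow' h1 (by norm_num)
    rw [h] at this
    exact lt_irrefl _ this

end

/-- **T6.13.2.5 `TorusC`.** -/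
theorem torusC277 : TorusC := by
  intro k _ _ ϖ j r a w u y hNF
  have hϖ0 : ϖ ≠ 0 := unif_ne_zero277 hNF.unif
  set W : Matrix (Fin 2) (Fin 2) k := (w : Matrix (Fin 2) (Fin 2) k) with hW
  have hWint : ∀ i j, Valued.v (W i j) ≤ 1 := by
    have := (inU_zero_iff129 w).mp hNF.w_int
    exact fun i j => this.1 i j
  have htr : W.trace = W 0 0 + W 1 1 := Matrix.trace_fin_two W
  have hdet : W.det = W 0 0 * W 1 1 - W 0 1 * W 1 0 := Matrix.det_fin_two W
  have htrint : Valued.v W.trace ≤ 1 := inU_zero_trace277 hNF.w_int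
  have hdetint : Valued.v W.det ≤ 1 := (inU_zero_det277 hNF.w_int).le
  have hirr := hNF.w_irr
  have hoff : Valued.v (W 0 1 * W 1 0) = 1 := by
    have h := hirr (W 0 0) (hWint 0 0)
    have e : chi277 W.trace W.det (W 0 0) = - (W 0 1 * W 1 0) := by
      unfold chi277; rw [htr, hdet]; ring
    rw [e, Valuation.map_neg] at h
    exact h
  have h01 : W 0 1 ≠ 0 := by
    intro h
    rw [h, zero_mul, map_zero] at hoff
    exact zero_ne_one hoff
  have h10 : W 1 0 ≠ 0 := by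
    intro h
    rw [h, mul_zero, map_zero] at hoff
    exact zero_ne_one hoff
  have hP0 : ϖ ^ j * ϖ ^ r ≠ 0 := mul_ne_zero (zpow_ne_zero _ hϖ0) (pow_ne_zero _ hϖ0)
  have hY : (y : Matrix (Fin 2) (Fin 2) k)
      = (ϖ ^ j * a) • (1 : Matrix (Fin 2) (Fin 2) k) + (ϖ ^ j * ϖ ^ r) • W := by
    rw [hNF.y_eq, hNF.u_eq, smul_add, smul_smul, smul_smul]
  -- commuting with `y` is commuting with `W`
  have hcomm : ∀ T : Matrix (Fin 2) (Fin 2) k,
      T * (y : Matrix (Fin 2) (Fin 2) k) = (y : Matrix (Fin 2) (Fin 2) k) * T ↔ T * W = W * T := by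
    intro T
    rw [hY]
    simp only [Matrix.mul_add, Matrix.add_mul, Matrix.mul_smul, Matrix.smul_mul, Matrix.mul_one,
      Matrix.one_mul]
    constructor
    · intro h
      have h2 : (ϖ ^ j * ϖ ^ r) • (T * W) = (ϖ ^ j * ϖ ^ r) • (W * T) := add_left_cancel h
      have h3 := congrArg (fun M => (ϖ ^ j * ϖ ^ r)⁻¹ • M) h2
      simp only [smul_smul, inv_mul_cancel₀ hP0, one_smul] at h3
      exact h3
    · intro h
      rw [h]
  -- the centraliser of `W`
  have hcent : ∀ T : Matrix (Fin 2) (Fin 2) k, T * W = W * T →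
      ∃ x z : k, T = x • (1 : Matrix (Fin 2) (Fin 2) k) + z • W := by
    intro T hT
    have e00 := congrFun (congrFun hT 0) 0
    have e01 := congrFun (congrFun hT 0) 1
    simp only [Matrix.mul_apply, Fin.sum_univ_two] at e00 e01
    refine ⟨T 0 0 - T 0 1 / W 0 1 * W 0 0, T 0 1 / W 0 1, ?_⟩
    ext i j
    fin_cases i <;> fin_cases j
    · simp [Matrix.add_apply, Matrix.smul_apply]
    · simp [Matrix.add_apply, Matrix.smul_apply]
      field_simp
    · simp [Matrix.add_apply, Matrix.smul_apply]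
      field_simp
      linear_combination (-1 : k) * e00
    · simp [Matrix.add_apply, Matrix.smul_apply]
      field_simp
      linear_combination (-1 : k) * e01
  have hNdet : ∀ x z : k, (x • (1 : Matrix (Fin 2) (Fin 2) k) + z • W).det
      = x ^ 2 + W.trace * x * z + W.det * z ^ 2 := by
    intro x z
    rw [Matrix.det_fin_two, htr, hdet]
    simp [Matrix.add_apply, Matrix.smul_apply]
    ring
  have hNv : ∀ x z : k, Valued.v (x • (1 : Matrix (Fin 2) (Fin 2) k) + z • W).det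
      = (max (Valued.v x) (Valued.v z)) ^ 2 := by
    intro x z
    rw [hNdet]
    exact v_norm277 htrint hdetint hirr x z
  have hWW : ∀ x z : k, (x • (1 : Matrix (Fin 2) (Fin 2) k) + z • W) * W
      = W * (x • (1 : Matrix (Fin 2) (Fin 2) k) + z • W) := by
    intro x z
    simp only [Matrix.mul_add, Matrix.add_mul, Matrix.mul_smul, Matrix.smul_mul, Matrix.mul_one,
      Matrix.one_mul]
  -- `InTwCent` for the identity is commutation
  have hcent_iff : ∀ t : GL (Fin 2) k, InTwCent (RingEquiv.refl k) y t ↔ t * y = y * t := by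
    intro t
    unfold InTwCent
    rw [glAut_refl277]
    constructor
    · intro h
      have : t * (t⁻¹ * y * t) = t * y := by rw [h]
      rw [← this]; simp [mul_assoc]
    · intro h
      rw [mul_assoc, ← h, ← mul_assoc, inv_mul_cancel, one_mul]
  have hcommGL : ∀ t : GL (Fin 2) k, t * y = y * t ↔
      (t : Matrix (Fin 2) (Fin 2) k) * W = W * (t : Matrix (Fin 2) (Fin 2) k) := by
    intro t
    rw [← hcomm]
    constructor
    · intro h
      have := congrArg (fun g : GL (Fin 2) k => (g : Matrix (Fin 2) (Fin 2) k)) h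
      simpa [Units.val_mul] using this
    · intro h
      apply Units.ext
      rw [Units.val_mul, Units.val_mul]
      exact h
  -- elements of `T^c` are `x + z W` with `x, z` integral
  have hTc : ∀ t : GL (Fin 2) k, InTwCentC (RingEquiv.refl k) y t →
      ∀ i j, Valued.v ((t : Matrix (Fin 2) (Fin 2) k) i j) ≤ 1 := by
    rintro t ⟨h1, -, h3⟩
    obtain ⟨x, z, hxz⟩ := hcent _ ((hcommGL t).mp ((hcent_iff t).mp h1))
    have hv := hNv x z
    rw [← hxz, h3] at hv
    have hmax : max (Valued.v x) (Valued.v z) = 1 := sq_eq_one277 hv.symm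
    have hx : Valued.v x ≤ 1 := hmax ▸ le_max_left _ _
    have hz : Valued.v z ≤ 1 := hmax ▸ le_max_right _ _
    intro i j
    rw [hxz]
    simp only [Matrix.add_apply, Matrix.smul_apply, smul_eq_mul]
    refine le_trans (Valuation.map_add _ _ _) (max_le ?_ ?_)
    · rw [map_mul]
      refine mul_le_one' hx ?_
      by_cases hij : i = j
      · rw [Matrix.one_apply, if_pos hij, map_one]
      · rw [Matrix.one_apply, if_neg hij, map_zero]; exact zero_le
    · rw [map_mul]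
      exact mul_le_one' hz (hWint i j)
  refine ⟨?_, ?_⟩
  · -- decomposition
    intro t ht
    obtain ⟨x, z, hxz⟩ := hcent _ ((hcommGL t).mp ht)
    have hv := hNv x z
    rw [← hxz] at hv
    have hdet0 : (t : Matrix (Fin 2) (Fin 2) k).det ≠ 0 :=
      ((Matrix.isUnit_iff_isUnit_det _).mp t.isUnit).ne_zero
    have hm0 : max (Valued.v x) (Valued.v z) ≠ 0 := by
      intro h0
      rw [h0] at hv
      simp at hv
      exact hdet0 hv
    set n : ℤ := - WithZero.log (max (Valued.v x) (Valued.v z)) with hn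
    have hvn : Valued.v (ϖ ^ n) = max (Valued.v x) (Valued.v z) := by
      rw [v_zpow277 hNF.unif, hn, neg_neg, WithZero.exp_log hm0]
    have hpn0 : ϖ ^ n ≠ 0 := zpow_ne_zero _ hϖ0
    set K : Matrix (Fin 2) (Fin 2) k :=
      (x / ϖ ^ n) • (1 : Matrix (Fin 2) (Fin 2) k) + (z / ϖ ^ n) • W with hK
    have hmax1 : max (Valued.v (x / ϖ ^ n)) (Valued.v (z / ϖ ^ n)) = 1 := by
      rw [map_div₀, map_div₀, hvn]
      have hpos : (0 : Γ₀) < max (Valued.v x) (Valued.v z) := zero_lt_iff.mpr hm0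
      rcases le_total (Valued.v x) (Valued.v z) with h | h
      · rw [max_eq_right h] at hpos ⊢
        rw [max_eq_right ((div_le_div_iff_of_pos_right hpos).mpr h)]
        exact div_self hpos.ne'
      · rw [max_eq_left h] at hpos ⊢
        rw [max_eq_left ((div_le_div_iff_of_pos_right hpos).mpr h)]
        exact div_self hpos.ne'
    have hKv : Valued.v K.det = 1 := by
      rw [hK, hNv, hmax1, one_pow]
    have hK0 : K.det ≠ 0 := by
      intro h
      rw [h, map_zero] at hKv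
      exact zero_ne_one hKv
    have htK : (t : Matrix (Fin 2) (Fin 2) k) = ϖ ^ n • K := by
      rw [hxz, hK, smul_add, smul_smul, smul_smul, mul_div_cancel₀ _ hpn0,
        mul_div_cancel₀ _ hpn0]
    refine ⟨n, mk277 K hK0, ⟨?_, ?_, ?_⟩, ?_⟩
    · rw [hcent_iff, hcommGL, coe_mk277, hK]
      exact hWW _ _
    · rw [coe_mk277, hK, Matrix.trace_add, Matrix.trace_smul, Matrix.trace_smul, Matrix.trace_one]
      have hx1 : Valued.v (x / ϖ ^ n) ≤ 1 := hmax1 ▸ le_max_left _ _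
      have hz1 : Valued.v (z / ϖ ^ n) ≤ 1 := hmax1 ▸ le_max_right _ _
      refine le_trans (Valuation.map_add _ _ _) (max_le ?_ ?_)
      · simp only [Fintype.card_fin, smul_eq_mul, map_mul]
        refine mul_le_one' hx1 ?_
        have : ((2 : ℕ) : k) = 1 + 1 := by norm_num
        rw [this]
        exact le_trans (Valuation.map_add _ _ _) (max_le (by simp) (by simp))
      · simp only [smul_eq_mul, map_mul]
        exact mul_le_one' hz1 htrint
    · rw [coe_mk277]; exact hKv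
    · rw [coe_mk277]; exact htK
  · -- closed under multiplication
    rintro t t' ht ht'
    have hi := hTc t ht
    have hi' := hTc t' ht'
    obtain ⟨h1, -, h3⟩ := ht
    obtain ⟨h1', -, h3'⟩ := ht'
    refine ⟨?_, ?_, ?_⟩
    · rw [hcent_iff] at h1 h1' ⊢
      rw [mul_assoc, h1', ← mul_assoc, h1, mul_assoc]
    · rw [Units.val_mul, Matrix.trace_fin_two]
      simp only [Matrix.mul_apply, Fin.sum_univ_two]
      have hmul : ∀ a b c d : k, Valued.v a ≤ 1 → Valued.v b ≤ 1 → Valued.v c ≤ 1 →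
          Valued.v d ≤ 1 → Valued.v (a * b + c * d) ≤ 1 := by
        intro a b c d ha hb hc hd
        refine le_trans (Valuation.map_add _ _ _) (max_le ?_ ?_)
        · rw [map_mul]; exact mul_le_one' ha hb
        · rw [map_mul]; exact mul_le_one' hc hd
      refine le_trans (Valuation.map_add _ _ _) (max_le ?_ ?_)
      · exact hmul _ _ _ _ (hi 0 0) (hi' 0 0) (hi 0 1) (hi' 1 0)
      · exact hmul _ _ _ _ (hi 1 0) (hi' 0 1) (hi 1 1) (hi' 1 1)
    · rw [Units.val_mul, Matrix.det_mul, map_mul, h3, h3', one_mul]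

end Fermat.Agent.LT.T6.H277

end
end
-- ===== PACK-END LT/T6/H277/Torus.lean

-- ===== PACK-BEGIN LT/T6/H288/IndexClosed.lean
section








/-!
# Row LT, tower T6, leaf T6.12g `IndexC` (THE JACOBIAN): CLOSED (helper288, assembly)

`#{b ∈ k'/𝒪' : d₁ s(b) - d₂ b ∈ ϖ^j 𝒪'} = q ^ (ord(t₁ - t₂) - l j)`, UNCONDITIONAL.
Sub-leaves (all vendored byte-identical from the owners' branches):
`BallIndexC` (helper459), `ReprCardC` (helper272), `ResFaithfulC` (helper400),
`ResFixedC` (helper131), `FixedModC` (helper82), `Hilbert90ModC` (helper555);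
`TwistKerC` and the assembly are in `TwistKer.lean`, `IndexTop.lean`.
-/

set_option autoImplicit false

namespace Fermat.Agent.LT.T6.H288

theorem resFaithfulC_closed : ResFaithfulC := H400.resFaithful400

theorem resFixedC_closed : ResFixedC :=
  H131.resFixedC_of_resFaithfulC_h131 resFaithfulC_closed

theorem fixedModC_closed : FixedModC := H82.fixedModC_of_resFixed82 resFixedC_closed

theorem hilbert90ModC_closed : Hilbert90ModC := H555.hilbert90ModC_of555 resFaithfulC_closed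

theorem ballIndexC_closed : BallIndexC := H459.ballIndexC459

theorem reprCardC_closed : ReprCardC := H272.reprCardC272

theorem twistKerC_closed : TwistKerC :=
  twistKer_of fixedModC_closed hilbert90ModC_closed ballIndexC_closed

/-- **T6.12g `IndexC`, closed.** -/
theorem indexC_closed : IndexC :=
  index_of twistKerC_closed ballIndexC_closed reprCardC_closed

end Fermat.Agent.LT.T6.H288

end
-- ===== PACK-END LT/T6/H288/IndexClosed.lean

-- ===== PACK-BEGIN LT/T6/H159/FLVanish.lean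
section












/-!
# Row LT, tower T6, leaf T6.15 `FLVanishC` (owner helper159): the assembly

Closed sub-leaves (byte-identical vendored files):

* T6.15a `SupportC`: `H159.supportC` (helper159, `H159/Support.lean`);
* T6.15b `HypVanishC`: `H848.hypVanish_of848 : H288.SatClosedC → H288.OrbSumDiagC → HypVanishC`
  (helper848, `H848/HypVanish.lean`; the two premises are sub-leaves of T6.12, helper288);
* T6.15c glue: `H159.normCrit_of` (helper159, `H159/NormGlue.lean`);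
* T6.15c2 `NewtonC`: `H98.newtonC98` (helper98; second copy `H129.newtonC129`, helper129);
* T6.15c4 `Unr2C`: `H98.unr2C98` (helper98).

Open: T6.15c3 `QuadUnitNormC` (helper313) and the two T6.12 sub-leaves of helper288.
-/

set_option autoImplicit false

noncomputable section

namespace Fermat.Agent.LT.T6.H159

open Fermat.Agent.LT.T6

/-- **T6.15c `NormCritC`** from `QuadUnitNormC` alone. -/
theorem normCrit_of_quad (hQ : QuadUnitNormC) : NormCritC :=
  normCrit_of H98.newtonC98 hQ H98.unr2C98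

/-- **T6.15 `FLVanishC`** from `QuadUnitNormC` and the two sub-leaves of T6.12. -/
theorem flVanish_of_quad (hS : H288.SatClosedC) (hO : H288.OrbSumDiagC) (hQ : QuadUnitNormC) :
    FLVanishC :=
  flVanish_of supportC (H848.hypVanish_of848 hS hO) (normCrit_of_quad hQ)

end Fermat.Agent.LT.T6.H159

end

end
-- ===== PACK-END LT/T6/H159/FLVanish.lean

-- ===== PACK-BEGIN LT/T6/H833/ProfAbel.lean
section



/-!
# Row LT, tower T6, leaf T6.20e.2c `ProfAbelC634` (helper833) -- OFF-MAIN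

Spec bytes: `T6/H634/EllCut2.lean` = helper634@2bcabb618 (sha256 07b34a13), byte-identical.
Part 1 (`ProfBasic.lean`): the profile formulas and the three `IsProfile`.

PROVED here: `profAbelC833 : H634.ProfAbelC634`, VERBATIM.

For `D > 0`, `x ≥ 1`: `t = arcosh x`, `p = log D / 2 + t / 2`, `q = log D / 2 - t / 2`,
`a = e^p`, `b = e^q` (`a b = D`, `a / b = e^t`), sections `u ξ = diag(a, b) n(ξ)`,
`u' w = diag(√a, √b) n(w)`.
* `f₀(u ξ) = g₀(x + e^t ξ² / 2)`, so `∫ f₀(u ξ) dξ = √2 e^{-t/2} (A g₀)(x)`;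
* `φ(u' w) = Φ(cosh (t/2) + e^{t/2} |w|² / 2)`, so `∫ φ(u' w) dw = 2π e^{-t/2} Ψ(cosh (t/2))`
  (polar coordinates; no hypothesis on `Φ`);
* `f₁(u ξ) + f₁(u (-ξ)) = 2 √2 cosh (t/2) G₁(x + e^t ξ² / 2)` (the imaginary part of the phase is
  odd in `ξ`), so `∫ f₁(u ξ) dξ = 2 cosh (t/2) e^{-t/2} (A G₁)(x)`.
-/

set_option autoImplicit false

open scoped Matrix
open MeasureTheory

noncomputable section

namespace Fermat.Agent.LT.T6.H833

open Fermat.Agent.LT.T6 Fermat.Agent.LT.T6.H189 Fermat.Agent.LT.T6.H634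
open Fermat.Agent.LT.T6.H781 Fermat.Agent.LT.T6.H569 Fermat.Agent.LT.T6.H441
open Fermat.Agent.LT.T6.H626

/-! ## Two integrals -/

/-- The radial substitution `τ = c₁ + a₁ r² / 2` (no hypothesis on `Φ`). -/
theorem integral_radial_quad833 (Φ : ℝ → ℂ) (c₁ : ℝ) {a₁ : ℝ} (ha : 0 < a₁) :
    (∫ r in Set.Ioi (0 : ℝ), r • Φ (c₁ + a₁ * r ^ 2 / 2))
      = ((a₁⁻¹ : ℝ) : ℂ) * ∫ τ in Set.Ioi c₁, Φ τ := by
  have hinj : Set.InjOn (fun r : ℝ => c₁ + a₁ * r ^ 2 / 2) (Set.Ioi 0) := by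
    intro r hr s hs h
    have hr' : 0 < r := hr
    have hs' : 0 < s := hs
    have h2 : a₁ * r ^ 2 = a₁ * s ^ 2 := by
      have : c₁ + a₁ * r ^ 2 / 2 = c₁ + a₁ * s ^ 2 / 2 := h
      linarith
    have h3 : r ^ 2 = s ^ 2 := mul_left_cancel₀ ha.ne' h2
    exact (sq_eq_sq₀ hr'.le hs'.le).1 h3
  have himg : (fun r : ℝ => c₁ + a₁ * r ^ 2 / 2) '' Set.Ioi 0 = Set.Ioi c₁ := by
    ext τ
    constructor
    · rintro ⟨r, hr, rfl⟩
      have hr' : 0 < r := hr
      show c₁ < c₁ + a₁ * r ^ 2 / 2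
      have : 0 < a₁ * r ^ 2 / 2 := by positivity
      linarith
    · intro hτ
      have hτ' : c₁ < τ := hτ
      have h1 : 0 < 2 * (τ - c₁) / a₁ := by
        apply div_pos _ ha
        linarith
      refine ⟨Real.sqrt (2 * (τ - c₁) / a₁), Real.sqrt_pos.2 h1, ?_⟩
      show c₁ + a₁ * Real.sqrt (2 * (τ - c₁) / a₁) ^ 2 / 2 = τ
      rw [Real.sq_sqrt h1.le]
      field_simp
      ring
  have hder : ∀ r ∈ Set.Ioi (0 : ℝ), HasDerivWithinAt (fun r : ℝ => c₁ + a₁ * r ^ 2 / 2)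
      (a₁ * r) (Set.Ioi 0) r := by
    intro r _
    have h1 : HasDerivAt (fun r : ℝ => c₁ + a₁ * r ^ 2 / 2) (a₁ * (2 * r) / 2) r := by
      have h0 : HasDerivAt (fun r : ℝ => r ^ 2) (2 * r) r := by
        simpa using hasDerivAt_pow 2 r
      exact ((h0.const_mul a₁).div_const 2).const_add c₁
    have e : a₁ * (2 * r) / 2 = a₁ * r := by ring
    rw [e] at h1
    exact h1.hasDerivWithinAt
  have h := integral_image_eq_integral_abs_deriv_smul (s := Set.Ioi (0 : ℝ))
    (f := fun r : ℝ => c₁ + a₁ * r ^ 2 / 2) (f' := fun r : ℝ => a₁ * r) measurableSet_Ioi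
    hder hinj Φ
  rw [himg] at h
  rw [h, ← integral_const_mul]
  refine setIntegral_congr_fun measurableSet_Ioi fun r hr => ?_
  have hr' : 0 < r := hr
  show r • Φ (c₁ + a₁ * r ^ 2 / 2) = ((a₁⁻¹ : ℝ) : ℂ) * (|a₁ * r| • Φ (c₁ + a₁ * r ^ 2 / 2))
  rw [abs_of_pos (mul_pos ha hr'), Complex.real_smul, Complex.real_smul, ← mul_assoc,
    ← Complex.ofReal_mul, ← mul_assoc, inv_mul_cancel₀ ha.ne', one_mul]

/-- `∫_ℂ Φ(c₁ + a₁ |w|² / 2) dw = (2π / a₁) ∫_{τ > c₁} Φ(τ) dτ` (no hypothesis on `Φ`). -/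
theorem integral_cplx_quad833 (Φ : ℝ → ℂ) (c₁ : ℝ) {a₁ : ℝ} (ha : 0 < a₁) :
    (∫ w : ℂ, Φ (c₁ + a₁ * ‖w‖ ^ 2 / 2))
      = ((2 * Real.pi / a₁ : ℝ) : ℂ) * tailI Φ c₁ := by
  rw [← Complex.integral_comp_polarCoord_symm]
  have hP : (∫ q in polarCoord.target,
        q.1 • Φ (c₁ + a₁ * ‖Complex.polarCoord.symm q‖ ^ 2 / 2))
      = ∫ q in polarCoord.target,
          (q.1 • Φ (c₁ + a₁ * q.1 ^ 2 / 2)) * (fun _ : ℝ => (1 : ℂ)) q.2 := by
    refine integral_congr_ae (Filter.Eventually.of_forall fun q => ?_)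
    show q.1 • Φ (c₁ + a₁ * ‖Complex.polarCoord.symm q‖ ^ 2 / 2) = _
    rw [Complex.norm_polarCoord_symm, sq_abs]
    exact (mul_one _).symm
  rw [hP]
  have hT2 : polarCoord.target = Set.Ioi (0 : ℝ) ×ˢ Set.Ioo (-Real.pi) Real.pi := rfl
  rw [hT2, Measure.volume_eq_prod, ← Measure.prod_restrict,
    integral_prod_mul (μ := volume.restrict (Set.Ioi (0 : ℝ)))
      (ν := volume.restrict (Set.Ioo (-Real.pi) Real.pi))
      (fun r : ℝ => r • Φ (c₁ + a₁ * r ^ 2 / 2)) (fun _ : ℝ => (1 : ℂ)),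
    integral_radial_quad833 Φ c₁ ha]
  have hpi : (0 : ℝ) ≤ Real.pi - -Real.pi := by linarith [Real.pi_pos]
  simp only [integral_const, Measure.real, Measure.restrict_apply MeasurableSet.univ,
    Set.univ_inter, Real.volume_Ioo, ENNReal.toReal_ofReal hpi, Complex.real_smul, tailI]
  push_cast
  ring

/-- The linear substitution of the Abel transform. -/
theorem integral_abel_subst833 (g : ℝ → ℂ) (x : ℝ) {κ : ℝ} (hκ : 0 < κ) :
    (∫ ξ : ℝ, g (x + (κ * ξ) ^ 2)) = ((κ⁻¹ : ℝ) : ℂ) * abelT g x := by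
  have h := Measure.integral_comp_mul_left (fun v : ℝ => g (x + v ^ 2)) κ
  rw [h, abs_of_pos (inv_pos.2 hκ), Complex.real_smul]
  rfl

/-! ## The sections -/

/-- `diag(e^p, e^q) n(ξ)`. -/
def uR833 (p q ξ : ℝ) : GL (Fin 2) ℝ := dgR p q * unR ξ

/-- `diag(e^{p/2}, e^{q/2}) n(w)`. -/
def uC833 (p q : ℝ) (w : ℂ) : GL (Fin 2) ℂ := dgC (p / 2) (q / 2) * unC w

theorem coe_uR833 (p q ξ : ℝ) :
    (uR833 p q ξ : Matrix (Fin 2) (Fin 2) ℝ)
      = !![Real.exp p, Real.exp p * ξ; 0, Real.exp q] := by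
  unfold uR833
  rw [Units.val_mul, dgR_val569, unR_val569]
  simp only [Matrix.mul_fin_two, mul_zero, zero_mul, add_zero, zero_add, mul_one]

theorem coe_uC833 (p q : ℝ) (w : ℂ) :
    (uC833 p q w : Matrix (Fin 2) (Fin 2) ℂ)
      = !![((Real.sqrt (Real.exp p) : ℝ) : ℂ), ((Real.sqrt (Real.exp p) : ℝ) : ℂ) * w;
          0, ((Real.sqrt (Real.exp q) : ℝ) : ℂ)] := by
  unfold uC833
  rw [Units.val_mul, dgC_val441, unC_val441, ← Real.exp_half, ← Real.exp_half]
  simp only [Matrix.mul_fin_two, mul_zero, zero_mul, add_zero, zero_add, mul_one]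

theorem continuous_uR833 (p q : ℝ) : Continuous (uR833 p q) :=
  continuous_const.mul continuous_unR569

theorem det_uR833 (p q ξ : ℝ) :
    (uR833 p q ξ : Matrix (Fin 2) (Fin 2) ℝ).det = Real.exp (p + q) := by
  rw [coe_uR833, Matrix.det_fin_two_of, Real.exp_add]
  ring

theorem rhoP_uR833 (p q ξ : ℝ) :
    rhoP (uR833 p q ξ) = Real.cosh (p - q) + Real.exp (p - q) * ξ ^ 2 / 2 := by
  rw [H281.rhoP_entries281, coe_uR833]
  simp only [Matrix.of_apply, Matrix.cons_val', Matrix.cons_val_zero, Matrix.cons_val_one,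
    Matrix.cons_val_fin_one]
  rw [Real.cosh_eq, neg_sub, Real.exp_sub, Real.exp_sub]
  have h1 := Real.exp_pos p
  have h2 := Real.exp_pos q
  field_simp
  ring

theorem holPart_uR833 (p q ξ : ℝ) :
    holPart (uR833 p q ξ)
      = (((Real.exp p + Real.exp q) / 2 : ℝ) : ℂ)
        + ((-(Real.exp p * ξ) / 2 : ℝ) : ℂ) * Complex.I := by
  unfold holPart
  rw [coe_uR833]
  simp only [Matrix.of_apply, Matrix.cons_val', Matrix.cons_val_zero, Matrix.cons_val_one,
    Matrix.cons_val_fin_one]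
  push_cast
  ring

theorem normdet_uC833 (p q : ℝ) (w : ℂ) :
    ‖(uC833 p q w : Matrix (Fin 2) (Fin 2) ℂ).det‖ ^ 2 = Real.exp (p + q) := by
  unfold uC833
  rw [det_dgC_unC441, Complex.norm_real, Real.norm_eq_abs, abs_of_pos (Real.exp_pos _),
    ← Real.exp_nat_mul]
  congr 1
  push_cast
  ring

theorem rhoQ_uC833 (p q : ℝ) (w : ℂ) :
    rhoQ (uC833 p q w)
      = Real.cosh ((p - q) / 2) + Real.exp ((p - q) / 2) * ‖w‖ ^ 2 / 2 := by
  unfold uC833
  rw [rhoQ_dgC_unC441]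
  have e : p / 2 - q / 2 = (p - q) / 2 := by ring
  rw [e]

/-! ## The three integrals along the sections -/

theorem kappa_sq833 (t ξ : ℝ) :
    Real.exp t * ξ ^ 2 / 2 = (Real.exp (t / 2) / Real.sqrt 2 * ξ) ^ 2 := by
  have h1 : Real.exp (t / 2) ^ 2 = Real.exp t := by
    rw [← Real.exp_nat_mul]
    congr 1
    push_cast
    ring
  rw [mul_pow, div_pow, Real.sq_sqrt (by norm_num : (0 : ℝ) ≤ 2), h1]
  ring

/-- Weight `0`: `∫ f₀(u ξ) dξ = κ⁻¹ (A g₀)(x)`, `κ = e^{t/2} / √2`. -/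
theorem int_f0_833 {f₀ : GL (Fin 2) ℝ → ℂ} (hf₀ : IsArchTestR 0 f₀) (p q : ℝ) :
    (∫ ξ : ℝ, f₀ (uR833 p q ξ))
      = (((Real.exp ((p - q) / 2) / Real.sqrt 2)⁻¹ : ℝ) : ℂ) *
          abelT (prof0_634 f₀ (Real.exp (p + q))) (Real.cosh (p - q)) := by
  have hκ : 0 < Real.exp ((p - q) / 2) / Real.sqrt 2 := by positivity
  rw [← integral_abel_subst833 _ _ hκ]
  refine integral_congr_ae (Filter.Eventually.of_forall fun ξ => ?_)
  show f₀ (uR833 p q ξ) = prof0_634 f₀ (Real.exp (p + q))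
    (Real.cosh (p - q) + (Real.exp ((p - q) / 2) / Real.sqrt 2 * ξ) ^ 2)
  have hdet : 0 < (uR833 p q ξ : Matrix (Fin 2) (Fin 2) ℝ).det := by
    rw [det_uR833]
    exact Real.exp_pos _
  rw [realProf833 hf₀ _ hdet, det_uR833, rhoP_uR833, ← kappa_sq833]
  unfold wtPhase
  rw [zpow_zero, inv_one, one_mul]

/-- The complex side: `∫ φ(u' w) dw = (2π / e^{t/2}) Ψ(cosh (t/2))`. -/
theorem int_phi833 {φ : GL (Fin 2) ℂ → ℂ} (hφ : IsArchTestC φ) (p q : ℝ) :
    (∫ w : ℂ, φ (uC833 p q w))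
      = ((2 * Real.pi / Real.exp ((p - q) / 2) : ℝ) : ℂ) *
          tailI (profC634 φ (Real.exp (p + q))) (Real.cosh ((p - q) / 2)) := by
  rw [← integral_cplx_quad833 _ _ (Real.exp_pos _)]
  refine integral_congr_ae (Filter.Eventually.of_forall fun w => ?_)
  show φ (uC833 p q w) = profC634 φ (Real.exp (p + q))
    (Real.cosh ((p - q) / 2) + Real.exp ((p - q) / 2) * ‖w‖ ^ 2 / 2)
  rw [cplxProf833 hφ, normdet_uC833, rhoQ_uC833]

/-! ## Weight `±1` -/

/-- The sum of the two conjugate phases. -/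
theorem phase_sum833 {n : ℤ} (hn : n = 1 ∨ n = -1) (x y : ℝ) (hx : 0 < x) :
    ((((x : ℂ) + (y : ℂ) * Complex.I) / ((Real.sqrt (x ^ 2 + y ^ 2) : ℝ) : ℂ)) ^ n)⁻¹
      + ((((x : ℂ) + ((-y : ℝ) : ℂ) * Complex.I) / ((Real.sqrt (x ^ 2 + y ^ 2) : ℝ) : ℂ)) ^ n)⁻¹
      = ((2 * x / Real.sqrt (x ^ 2 + y ^ 2) : ℝ) : ℂ) := by
  have hpos : 0 < x ^ 2 + y ^ 2 := by positivity
  have hN : 0 < Real.sqrt (x ^ 2 + y ^ 2) := Real.sqrt_pos.2 hpos
  have hN2' : ((Real.sqrt (x ^ 2 + y ^ 2) : ℝ) : ℂ) ^ 2 = (x : ℂ) ^ 2 + (y : ℂ) ^ 2 := by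
    have := Real.sq_sqrt hpos.le
    exact_mod_cast this
  have hA0 : (x : ℂ) + (y : ℂ) * Complex.I ≠ 0 := by
    intro h
    have := congrArg Complex.re h
    simp at this
    exact hx.ne' this
  have hA0' : (x : ℂ) + ((-y : ℝ) : ℂ) * Complex.I ≠ 0 := by
    intro h
    have := congrArg Complex.re h
    simp at this
    exact hx.ne' this
  have hprod0 : ((x : ℂ) + (y : ℂ) * Complex.I) * ((x : ℂ) + ((-y : ℝ) : ℂ) * Complex.I)
      = ((Real.sqrt (x ^ 2 + y ^ 2) : ℝ) : ℂ) ^ 2 := by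
    rw [hN2']
    push_cast
    linear_combination (-(y : ℂ) ^ 2) * Complex.I_sq
  have hsum0 : ((x : ℂ) + (y : ℂ) * Complex.I) + ((x : ℂ) + ((-y : ℝ) : ℂ) * Complex.I)
      = 2 * (x : ℂ) := by
    push_cast
    ring
  have hrhs : ((2 * x / Real.sqrt (x ^ 2 + y ^ 2) : ℝ) : ℂ)
      = 2 * (x : ℂ) / ((Real.sqrt (x ^ 2 + y ^ 2) : ℝ) : ℂ) := by
    push_cast
    ring
  rw [hrhs]
  generalize hAdef : (x : ℂ) + (y : ℂ) * Complex.I = A at *
  generalize hAdef' : (x : ℂ) + ((-y : ℝ) : ℂ) * Complex.I = A' at *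
  generalize hNdef : ((Real.sqrt (x ^ 2 + y ^ 2) : ℝ) : ℂ) = N at *
  have hNc : N ≠ 0 := by
    rw [← hNdef]
    exact_mod_cast hN.ne'
  rcases hn with rfl | rfl
  · rw [zpow_one, zpow_one, inv_div, inv_div]
    field_simp
    linear_combination (N ^ 2) * hsum0 - (2 * (x : ℂ)) * hprod0
  · rw [zpow_neg_one, zpow_neg_one, inv_inv, inv_inv]
    field_simp
    linear_combination hsum0

/-- The real form of the phase sum along the section. -/
theorem phase_real833 (p q ξ : ℝ) :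
    2 * ((Real.exp p + Real.exp q) / 2) /
        Real.sqrt (((Real.exp p + Real.exp q) / 2) ^ 2 + (-(Real.exp p * ξ) / 2) ^ 2)
      = 2 * Real.sqrt 2 * Real.cosh ((p - q) / 2) /
          Real.sqrt (Real.cosh (p - q) + Real.exp (p - q) * ξ ^ 2 / 2 + 1) := by
  have ha := Real.exp_pos p
  have hb := Real.exp_pos q
  set m : ℝ := Real.exp ((p + q) / 2) with hm
  have hmpos : 0 < m := Real.exp_pos _
  have hm2 : m ^ 2 = Real.exp p * Real.exp q := by
    rw [hm, ← Real.exp_nat_mul, ← Real.exp_add]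
    congr 1
    push_cast
    ring
  have hx : (Real.exp p + Real.exp q) / 2 = m * Real.cosh ((p - q) / 2) := by
    rw [Real.cosh_eq, hm]
    have e1 : Real.exp ((p + q) / 2) * Real.exp ((p - q) / 2) = Real.exp p := by
      rw [← Real.exp_add]
      congr 1
      ring
    have e2 : Real.exp ((p + q) / 2) * Real.exp (-((p - q) / 2)) = Real.exp q := by
      rw [← Real.exp_add]
      congr 1
      ring
    rw [← e1, ← e2]
    ring
  set ρ : ℝ := Real.cosh (p - q) + Real.exp (p - q) * ξ ^ 2 / 2 with hρ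
  have hρ1 : 0 < ρ + 1 := by
    have h1 : 0 < Real.cosh (p - q) := Real.cosh_pos _
    have h2 : 0 ≤ Real.exp (p - q) * ξ ^ 2 / 2 := by positivity
    linarith
  have hkey : ((Real.exp p + Real.exp q) / 2) ^ 2 + (-(Real.exp p * ξ) / 2) ^ 2
      = (m * Real.sqrt (ρ + 1) / Real.sqrt 2) ^ 2 := by
    have hR : (m * Real.sqrt (ρ + 1) / Real.sqrt 2) ^ 2 = m ^ 2 * (ρ + 1) / 2 := by
      rw [div_pow, mul_pow, Real.sq_sqrt hρ1.le, Real.sq_sqrt (by norm_num : (0 : ℝ) ≤ 2)]
    rw [hR, hm2, hρ, Real.cosh_eq, neg_sub, Real.exp_sub, Real.exp_sub]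
    field_simp
    ring
  have hnn : 0 ≤ m * Real.sqrt (ρ + 1) / Real.sqrt 2 := by positivity
  rw [hkey, Real.sqrt_sq hnn, hx]
  have h2 : 0 < Real.sqrt 2 := Real.sqrt_pos.2 (by norm_num)
  have h3 : 0 < Real.sqrt (ρ + 1) := Real.sqrt_pos.2 hρ1
  field_simp

/-- The symmetrised integrand of weight `±1`. -/
theorem f1_sym833 {n : ℤ} (hn : n = 1 ∨ n = -1) {f₁ : GL (Fin 2) ℝ → ℂ}
    (hf₁ : IsArchTestR n f₁) (p q ξ : ℝ) :
    f₁ (uR833 p q ξ) + f₁ (uR833 p q (-ξ))
      = ((2 * Real.sqrt 2 * Real.cosh ((p - q) / 2) : ℝ) : ℂ) *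
          prof1_634 f₁ (Real.exp (p + q))
            (Real.cosh (p - q) + Real.exp (p - q) * ξ ^ 2 / 2) := by
  have hdet : ∀ ξ' : ℝ, 0 < (uR833 p q ξ' : Matrix (Fin 2) (Fin 2) ℝ).det := by
    intro ξ'
    rw [det_uR833]
    exact Real.exp_pos _
  have hx : 0 < (Real.exp p + Real.exp q) / 2 := by positivity
  have hph : ∀ ξ' : ℝ, wtPhase n (uR833 p q ξ')
      = ((((((Real.exp p + Real.exp q) / 2 : ℝ) : ℂ)
          + ((-(Real.exp p * ξ') / 2 : ℝ) : ℂ) * Complex.I)
        / ((Real.sqrt (((Real.exp p + Real.exp q) / 2) ^ 2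
            + (-(Real.exp p * ξ') / 2) ^ 2) : ℝ) : ℂ)) ^ n) := by
    intro ξ'
    unfold wtPhase
    rw [holPart_uR833, Complex.norm_add_mul_I]
  have e1 : -(Real.exp p * -ξ) / 2 = -(-(Real.exp p * ξ) / 2) := by ring
  have e2 : (-(-(Real.exp p * ξ) / 2)) ^ 2 = (-(Real.exp p * ξ) / 2) ^ 2 := neg_sq _
  rw [realProf833 hf₁ _ (hdet ξ), realProf833 hf₁ _ (hdet (-ξ)), det_uR833, det_uR833,
    rhoP_uR833, rhoP_uR833, neg_sq, hph ξ, hph (-ξ), e1, e2, ← add_mul,
    phase_sum833 hn _ _ hx, phase_real833]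
  unfold prof1_634
  set ρ : ℝ := Real.cosh (p - q) + Real.exp (p - q) * ξ ^ 2 / 2 with hρ
  have hρ1 : 0 < ρ + 1 := by
    have h1 : 0 < Real.cosh (p - q) := Real.cosh_pos _
    have h2 : 0 ≤ Real.exp (p - q) * ξ ^ 2 / 2 := by positivity
    linarith
  have h3 : ((Real.sqrt (ρ + 1) : ℝ) : ℂ) ≠ 0 := by
    exact_mod_cast (Real.sqrt_pos.2 hρ1).ne'
  push_cast
  field_simp

/-- `ξ ↦ f(u ξ)` is integrable. -/
theorem integrable_section833 {n : ℤ} {f : GL (Fin 2) ℝ → ℂ} (hf : IsArchTestR n f)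
    (p q : ℝ) : Integrable (fun ξ : ℝ => f (uR833 p q ξ)) := by
  have hcont : Continuous (fun ξ : ℝ => f (uR833 p q ξ)) := hf.cont.comp (continuous_uR833 p q)
  obtain ⟨C, hC⟩ := exists_entry_boundR833 hf.supp 0 1
  refine hcont.integrable_of_hasCompactSupport ?_
  refine HasCompactSupport.intro (isCompact_closedBall (0 : ℝ) (|C| / Real.exp p)) fun ξ hξ => ?_
  apply hC
  have hξ' : |C| / Real.exp p < |ξ| := by
    simpa [Metric.mem_closedBall, Real.dist_eq] using hξ
  have e : (uR833 p q ξ : Matrix (Fin 2) (Fin 2) ℝ) 0 1 = Real.exp p * ξ := by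
    rw [coe_uR833]
    rfl
  rw [e, abs_mul, abs_of_pos (Real.exp_pos p)]
  rw [div_lt_iff₀ (Real.exp_pos p)] at hξ'
  calc C ≤ |C| := le_abs_self C
    _ < |ξ| * Real.exp p := hξ'
    _ = Real.exp p * |ξ| := mul_comm _ _

/-- Weight `±1`: `∫ f₁(u ξ) dξ = √2 cosh (t/2) κ⁻¹ (A G₁)(x)`, `κ = e^{t/2} / √2`. -/
theorem int_f1_833 {n : ℤ} (hn : n = 1 ∨ n = -1) {f₁ : GL (Fin 2) ℝ → ℂ}
    (hf₁ : IsArchTestR n f₁) (p q : ℝ) :
    (∫ ξ : ℝ, f₁ (uR833 p q ξ))
      = ((Real.sqrt 2 * Real.cosh ((p - q) / 2) *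
            (Real.exp ((p - q) / 2) / Real.sqrt 2)⁻¹ : ℝ) : ℂ) *
          abelT (prof1_634 f₁ (Real.exp (p + q))) (Real.cosh (p - q)) := by
  have hκ : 0 < Real.exp ((p - q) / 2) / Real.sqrt 2 := by positivity
  have hint := integrable_section833 hf₁ p q
  have e1 : (∫ ξ : ℝ, f₁ (uR833 p q (-ξ))) = ∫ ξ : ℝ, f₁ (uR833 p q ξ) :=
    integral_neg_eq_self (fun ξ : ℝ => f₁ (uR833 p q ξ)) volume
  have e2 : (∫ ξ : ℝ, (f₁ (uR833 p q ξ) + f₁ (uR833 p q (-ξ))))
      = (∫ ξ : ℝ, f₁ (uR833 p q ξ)) + ∫ ξ : ℝ, f₁ (uR833 p q (-ξ)) :=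
    integral_add hint hint.comp_neg
  have e3 : (∫ ξ : ℝ, (f₁ (uR833 p q ξ) + f₁ (uR833 p q (-ξ))))
      = ((2 * Real.sqrt 2 * Real.cosh ((p - q) / 2) : ℝ) : ℂ) *
          ((((Real.exp ((p - q) / 2) / Real.sqrt 2)⁻¹ : ℝ) : ℂ) *
            abelT (prof1_634 f₁ (Real.exp (p + q))) (Real.cosh (p - q))) := by
    rw [← integral_abel_subst833 _ _ hκ, ← integral_const_mul]
    refine integral_congr_ae (Filter.Eventually.of_forall fun ξ => ?_)
    show f₁ (uR833 p q ξ) + f₁ (uR833 p q (-ξ)) = _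
    rw [f1_sym833 hn hf₁ p q ξ, kappa_sq833]
  rw [e1] at e2
  rw [e2] at e3
  push_cast at e3 ⊢
  linear_combination (1 / 2 : ℂ) * e3

/-! ## The leaf -/

theorem cosh_half_arcosh833 {x : ℝ} (hx : 1 ≤ x) :
    Real.cosh (Real.arcosh x / 2) = Real.sqrt ((x + 1) / 2) := by
  have h1 : Real.cosh (Real.arcosh x) = x := Real.cosh_arcosh hx
  have h2 : Real.cosh (Real.arcosh x) = 2 * Real.cosh (Real.arcosh x / 2) ^ 2 - 1 := by
    have e : Real.arcosh x = 2 * (Real.arcosh x / 2) := by ring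
    conv_lhs => rw [e, Real.cosh_two_mul]
    have := Real.cosh_sq (Real.arcosh x / 2)
    linarith
  have h3 : (x + 1) / 2 = Real.cosh (Real.arcosh x / 2) ^ 2 := by
    rw [h1] at h2
    linarith
  rw [h3, Real.sqrt_sq (Real.cosh_pos _).le]

theorem alg0_833 (E R2 X c π' Ψ : ℂ) (hE : E ≠ 0) (hR : R2 ≠ 0)
    (h : (E / R2)⁻¹ * X = c * (2 * π' / E * Ψ)) : X = 2 * π' * c * Ψ / R2 := by
  field_simp at h ⊢
  linear_combination h

theorem alg1_833 (E R2 S X c π' Ψ : ℂ) (hE : E ≠ 0) (hR : R2 ≠ 0) (hS : S ≠ 0)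
    (h22 : R2 ^ 2 = 2) (h : R2 * S * (E / R2)⁻¹ * X = c * (2 * π' / E * Ψ)) :
    X = 2 * π' * c * Ψ / (2 * S) := by
  field_simp at h ⊢
  linear_combination (1 / 2 : ℂ) * h - (1 / 2 : ℂ) * S * X * h22

/-- **T6.20e.2c `ProfAbelC634`**, VERBATIM. -/
theorem profAbelC833 : ProfAbelC634 := by
  intro c n hn φ f₀ f₁ hφ hf₀ hf₁ hA D hD
  have key : ∀ x : ℝ, 1 ≤ x →
      abelT (prof0_634 f₀ D) x
          = ((2 * Real.pi : ℝ) : ℂ) * c * tailI (profC634 φ D) (Real.sqrt ((x + 1) / 2)) /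
              ((Real.sqrt 2 : ℝ) : ℂ) ∧
        abelT (prof1_634 f₁ D) x
          = ((2 * Real.pi : ℝ) : ℂ) * c * tailI (profC634 φ D) (Real.sqrt ((x + 1) / 2)) /
              ((2 * Real.sqrt ((x + 1) / 2) : ℝ) : ℂ) := by
    intro x hx
    set t : ℝ := Real.arcosh x with ht
    set p : ℝ := Real.log D / 2 + t / 2 with hp
    set q : ℝ := Real.log D / 2 - t / 2 with hq
    have hpq : p + q = Real.log D := by rw [hp, hq]; ring
    have hpq' : p - q = t := by rw [hp, hq]; ring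
    have hexp : Real.exp (p + q) = D := by rw [hpq, Real.exp_log hD]
    have hcosh : Real.cosh (p - q) = x := by rw [hpq', ht, Real.cosh_arcosh hx]
    have hhalf : Real.cosh ((p - q) / 2) = Real.sqrt ((x + 1) / 2) := by
      rw [hpq', ht, cosh_half_arcosh833 hx]
    obtain ⟨h0, h1⟩ := hA (Real.exp p) (Real.exp q) (Real.exp_pos p) (Real.exp_pos q)
      (uR833 p q) (uC833 p q) (coe_uR833 p q) (coe_uC833 p q)
    rw [int_f0_833 hf₀ p q, int_phi833 hφ p q, hexp, hcosh, hhalf] at h0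
    rw [int_f1_833 hn hf₁ p q, int_phi833 hφ p q, hexp, hcosh, hhalf] at h1
    have hE : ((Real.exp ((p - q) / 2) : ℝ) : ℂ) ≠ 0 := by
      exact_mod_cast (Real.exp_pos _).ne'
    have h2 : ((Real.sqrt 2 : ℝ) : ℂ) ≠ 0 := by
      exact_mod_cast (Real.sqrt_pos.2 (by norm_num : (0 : ℝ) < 2)).ne'
    have h22 : ((Real.sqrt 2 : ℝ) : ℂ) ^ 2 = 2 := by
      have := Real.sq_sqrt (by norm_num : (0 : ℝ) ≤ 2)
      exact_mod_cast this
    have hS : ((Real.sqrt ((x + 1) / 2) : ℝ) : ℂ) ≠ 0 := by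
      have : 0 < (x + 1) / 2 := by linarith
      exact_mod_cast (Real.sqrt_pos.2 this).ne'
    simp only [Complex.ofReal_mul, Complex.ofReal_div, Complex.ofReal_inv,
      Complex.ofReal_ofNat] at h0 h1 ⊢
    exact ⟨alg0_833 _ _ _ _ _ _ hE h2 h0, alg1_833 _ _ _ _ _ _ _ hE h2 hS h22 h1⟩
  exact ⟨isProfile_prof0_833 hf₀ D, isProfile_prof1_833 hf₁ D, isProfile_profC833 hφ D,
    fun x hx => (key x hx).1, fun x hx => (key x hx).2⟩

end Fermat.Agent.LT.T6.H833

end

end
-- ===== PACK-END LT/T6/H833/ProfAbel.lean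

-- ===== PACK-BEGIN LT/T6/H855/HypTorus.lean
section



/-!
# Row LT, tower T6, T6.25 `ArchHyp` (helper855): THE TORUS

OFF-MAIN.  The centraliser `T` of `γ = g diag(a, b) g⁻¹` (`a ≠ b`) is parametrised by
`(s, u) ↦ g · diag(±1, ±1) · diag(e^{u₁}, e^{u₂}) · g⁻¹`; every Haar measure of `T` is a multiple of
the image of `counting ⊗ du₁ du₂` (`torus_integral855`).
-/

set_option autoImplicit false

open scoped Matrix ENNReal
open MeasureTheory

noncomputable section

namespace Fermat.Agent.LT.T6.H855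

open Fermat.Agent.LT.T6

/-- The parametrisation of the centraliser of `g diag(a, b) g⁻¹`. -/
def torusPar855 (g : GL (Fin 2) ℝ) (s : ℤˣ × ℤˣ) (u : ℝ × ℝ) : GL (Fin 2) ℝ :=
  g * (sgE855 s * H189.dgR u.1 u.2) * g⁻¹

theorem sgE_comm_dgU855 (s : ℤˣ × ℤˣ) (a b : ℝˣ) :
    sgE855 s * dgU855 a b = dgU855 a b * sgE855 s := dgU_comm855 _ _ _ _

theorem dgR_comm_dgU855 (u₁ u₂ : ℝ) (a b : ℝˣ) :
    H189.dgR u₁ u₂ * dgU855 a b = dgU855 a b * H189.dgR u₁ u₂ := by
  rw [dgR_eq855]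
  exact dgU_comm855 _ _ _ _

theorem dgR_add855 (u v : ℝ × ℝ) :
    H189.dgR (u.1 + v.1) (u.2 + v.2) = H189.dgR u.1 u.2 * H189.dgR v.1 v.2 := by
  rw [dgR_eq855, dgR_eq855, dgR_eq855, dgU_mul855, expU_add855, expU_add855]

theorem sgE_comm_dgR855 (s : ℤˣ × ℤˣ) (u₁ u₂ : ℝ) :
    sgE855 s * H189.dgR u₁ u₂ = H189.dgR u₁ u₂ * sgE855 s := by
  rw [dgR_eq855]
  exact dgU_comm855 _ _ _ _

theorem torusPar_mul855 (g : GL (Fin 2) ℝ) (s t : ℤˣ × ℤˣ) (u v : ℝ × ℝ) :
    torusPar855 g s u * torusPar855 g t v = torusPar855 g (s * t) (u + v) := by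
  unfold torusPar855
  have h : sgE855 s * H189.dgR u.1 u.2 * (sgE855 t * H189.dgR v.1 v.2)
      = sgE855 (s * t) * H189.dgR (u + v).1 (u + v).2 := by
    rw [sgE_mul855, Prod.fst_add, Prod.snd_add, dgR_add855]
    calc sgE855 s * H189.dgR u.1 u.2 * (sgE855 t * H189.dgR v.1 v.2)
        = sgE855 s * (H189.dgR u.1 u.2 * sgE855 t) * H189.dgR v.1 v.2 := by group
      _ = sgE855 s * (sgE855 t * H189.dgR u.1 u.2) * H189.dgR v.1 v.2 := by
          rw [sgE_comm_dgR855]
      _ = sgE855 s * sgE855 t * (H189.dgR u.1 u.2 * H189.dgR v.1 v.2) := by group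
  calc g * (sgE855 s * H189.dgR u.1 u.2) * g⁻¹ * (g * (sgE855 t * H189.dgR v.1 v.2) * g⁻¹)
      = g * (sgE855 s * H189.dgR u.1 u.2 * (sgE855 t * H189.dgR v.1 v.2)) * g⁻¹ := by group
    _ = _ := by rw [h]

theorem torusPar_mem855 (g : GL (Fin 2) ℝ) (a b : ℝˣ) (s : ℤˣ × ℤˣ) (u : ℝ × ℝ) :
    torusPar855 g s u ∈ twCentSub (MonoidHom.id (GL (Fin 2) ℝ)) (g * dgU855 a b * g⁻¹) := by
  change (torusPar855 g s u)⁻¹ * (g * dgU855 a b * g⁻¹) * MonoidHom.id _ (torusPar855 g s u)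
    = g * dgU855 a b * g⁻¹
  rw [MonoidHom.id_apply]
  unfold torusPar855
  have h : (sgE855 s * H189.dgR u.1 u.2)⁻¹ * dgU855 a b * (sgE855 s * H189.dgR u.1 u.2)
      = dgU855 a b := by
    have hc : dgU855 a b * (sgE855 s * H189.dgR u.1 u.2)
        = (sgE855 s * H189.dgR u.1 u.2) * dgU855 a b := by
      calc dgU855 a b * (sgE855 s * H189.dgR u.1 u.2)
          = (dgU855 a b * sgE855 s) * H189.dgR u.1 u.2 := by rw [mul_assoc]
        _ = (sgE855 s * dgU855 a b) * H189.dgR u.1 u.2 := by rw [sgE_comm_dgU855]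
        _ = sgE855 s * (dgU855 a b * H189.dgR u.1 u.2) := by rw [mul_assoc]
        _ = sgE855 s * (H189.dgR u.1 u.2 * dgU855 a b) := by rw [dgR_comm_dgU855]
        _ = (sgE855 s * H189.dgR u.1 u.2) * dgU855 a b := by rw [mul_assoc]
    rw [mul_assoc, hc, ← mul_assoc, inv_mul_cancel, one_mul]
  calc (g * (sgE855 s * H189.dgR u.1 u.2) * g⁻¹)⁻¹ * (g * dgU855 a b * g⁻¹)
        * (g * (sgE855 s * H189.dgR u.1 u.2) * g⁻¹)
      = g * ((sgE855 s * H189.dgR u.1 u.2)⁻¹ * dgU855 a b * (sgE855 s * H189.dgR u.1 u.2))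
          * g⁻¹ := by group
    _ = _ := by rw [h]

/-- A matrix commuting with `diag(a, b)`, `a ≠ b`, is diagonal. -/
theorem diag_of_comm855 (a b : ℝˣ) (hab : a ≠ b) (d : GL (Fin 2) ℝ)
    (h : d * dgU855 a b = dgU855 a b * d) :
    ∃ x₁ x₂ : ℝˣ, d = dgU855 x₁ x₂ := by
  have hab' : (a : ℝ) ≠ (b : ℝ) := fun hh => hab (Units.ext hh)
  have hM := congrArg (fun x : GL (Fin 2) ℝ => (x : Matrix (Fin 2) (Fin 2) ℝ)) h
  simp only [Units.val_mul] at hM
  have e01 := congrFun (congrFun hM 0) 1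
  have e10 := congrFun (congrFun hM 1) 0
  simp only [Matrix.mul_apply, Fin.sum_univ_two, dgU_coe855] at e01 e10
  simp only [Matrix.of_apply, Matrix.cons_val', Matrix.cons_val_zero, Matrix.cons_val_one,
    Matrix.cons_val_fin_one, mul_zero, zero_mul, zero_add, add_zero] at e01 e10
  have hq : (d : Matrix (Fin 2) (Fin 2) ℝ) 0 1 = 0 := by
    have h1 : (d : Matrix (Fin 2) (Fin 2) ℝ) 0 1 * ((b : ℝ) - (a : ℝ)) = 0 := by
      linear_combination e01
    rcases mul_eq_zero.mp h1 with h2 | h2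
    · exact h2
    · exfalso; apply hab'; linarith
  have hr : (d : Matrix (Fin 2) (Fin 2) ℝ) 1 0 = 0 := by
    have h1 : (d : Matrix (Fin 2) (Fin 2) ℝ) 1 0 * ((a : ℝ) - (b : ℝ)) = 0 := by
      linear_combination e10
    rcases mul_eq_zero.mp h1 with h2 | h2
    · exact h2
    · exfalso; apply hab'; linarith
  have hdet := det_ne_zero855 d
  rw [hq, hr] at hdet
  simp only [mul_zero, sub_zero] at hdet
  have h0 : (d : Matrix (Fin 2) (Fin 2) ℝ) 0 0 ≠ 0 := left_ne_zero_of_mul hdet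
  have h1 : (d : Matrix (Fin 2) (Fin 2) ℝ) 1 1 ≠ 0 := right_ne_zero_of_mul hdet
  refine ⟨Units.mk0 _ h0, Units.mk0 _ h1, ?_⟩
  apply Matrix.GeneralLinearGroup.ext
  intro i j
  fin_cases i <;> fin_cases j <;> simp [hq, hr]

/-- A real unit is a sign times an exponential. -/
theorem unit_eq_sign_exp855 (x : ℝˣ) : ∃ (s : ℤˣ) (u : ℝ), x = sgnU855 s * expU855 u := by
  have hx : (x : ℝ) ≠ 0 := x.ne_zero
  rcases lt_or_gt_of_ne hx with h | h
  · refine ⟨-1, Real.log (-(x : ℝ)), ?_⟩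
    apply Units.ext
    have h2 : Real.exp (Real.log (-(x : ℝ))) = -(x : ℝ) := Real.exp_log (neg_pos.mpr h)
    simp only [Units.val_mul, expU_coe855, h2]
    simp [sgnU855]
  · refine ⟨1, Real.log (x : ℝ), ?_⟩
    apply Units.ext
    simp [sgnU855, Real.exp_log h]

theorem dgU_eq_sgE_dgR855 (x₁ x₂ : ℝˣ) :
    ∃ (s : ℤˣ × ℤˣ) (u : ℝ × ℝ), dgU855 x₁ x₂ = sgE855 s * H189.dgR u.1 u.2 := by
  obtain ⟨s₁, u₁, h₁⟩ := unit_eq_sign_exp855 x₁
  obtain ⟨s₂, u₂, h₂⟩ := unit_eq_sign_exp855 x₂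
  refine ⟨(s₁, s₂), (u₁, u₂), ?_⟩
  rw [dgR_eq855]
  unfold sgE855
  rw [dgU_mul855, h₁, h₂]

/-- The parametrisation is onto the centraliser. -/
theorem torusPar_surj855 (g : GL (Fin 2) ℝ) (a b : ℝˣ) (hab : a ≠ b) (t : GL (Fin 2) ℝ)
    (ht : t ∈ twCentSub (MonoidHom.id (GL (Fin 2) ℝ)) (g * dgU855 a b * g⁻¹)) :
    ∃ (s : ℤˣ × ℤˣ) (u : ℝ × ℝ), t = torusPar855 g s u := by
  change t⁻¹ * (g * dgU855 a b * g⁻¹) * MonoidHom.id _ t = g * dgU855 a b * g⁻¹ at ht
  rw [MonoidHom.id_apply] at ht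
  have hc : (g⁻¹ * t * g) * dgU855 a b = dgU855 a b * (g⁻¹ * t * g) := by
    have h1 : (g * dgU855 a b * g⁻¹) * t = t * (g * dgU855 a b * g⁻¹) := by
      calc (g * dgU855 a b * g⁻¹) * t
          = t * (t⁻¹ * (g * dgU855 a b * g⁻¹) * t) := by group
        _ = t * (g * dgU855 a b * g⁻¹) := by rw [ht]
    calc (g⁻¹ * t * g) * dgU855 a b
        = g⁻¹ * (t * (g * dgU855 a b * g⁻¹)) * g := by group
      _ = g⁻¹ * ((g * dgU855 a b * g⁻¹) * t) * g := by rw [h1]
      _ = dgU855 a b * (g⁻¹ * t * g) := by group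
  obtain ⟨x₁, x₂, hd⟩ := diag_of_comm855 a b hab _ hc
  obtain ⟨s, u, hsu⟩ := dgU_eq_sgE_dgR855 x₁ x₂
  refine ⟨s, u, ?_⟩
  unfold torusPar855
  rw [← hsu, ← hd]
  group

/-- The entries of the diagonal part: `g⁻¹ t g = diag(± e^{u₁}, ± e^{u₂})`. -/
theorem torusPar_entry855 (g : GL (Fin 2) ℝ) (s : ℤˣ × ℤˣ) (u : ℝ × ℝ) :
    |((g⁻¹ * torusPar855 g s u * g : GL (Fin 2) ℝ) : Matrix (Fin 2) (Fin 2) ℝ) 0 0|
        = Real.exp u.1 ∧
    |((g⁻¹ * torusPar855 g s u * g : GL (Fin 2) ℝ) : Matrix (Fin 2) (Fin 2) ℝ) 1 1|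
        = Real.exp u.2 := by
  have h : g⁻¹ * torusPar855 g s u * g = sgE855 s * H189.dgR u.1 u.2 := by
    unfold torusPar855
    group
  rw [h, dgR_eq855]
  unfold sgE855
  rw [dgU_mul855]
  have hs : ∀ e : ℤˣ, |(((e : ℤ) : ℝ))| = 1 := by
    intro e
    rcases Int.units_eq_one_or e with h | h <;> simp [h]
  constructor
  · simp [abs_mul, hs, abs_of_pos (Real.exp_pos _)]
  · simp [abs_mul, hs, abs_of_pos (Real.exp_pos _)]

end Fermat.Agent.LT.T6.H855

end

end
-- ===== PACK-END LT/T6/H855/HypTorus.lean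

-- ===== PACK-BEGIN LT/T6/Inf/H965/ProdCartan.lean
section


/-!
# Row LT, sub-tower T6inf, leaf T6inf.04.3b `H811.ProdOfCartanC811` (helper965), part 2: THE LEAF
— OFF-MAIN

`prodOfCartanC965 : H811.ProdOfCartanC811`, i.e. `CartanC811 → ProductC811`.

`M(u) M(t) e(1) = ∫_α ∫_θ e^{-iα} e^{-iθ} e(k_α a_u k_θ a_t)` (eigen-equation at `g = k_α a_u`,
then at `g = 1`); Fubini; for `h = a_u k_θ a_t = k_{a₁} a_T k_{b₁}` (Cartan) the inner integral is
`e^{i(a₁+b₁)} M(T) e(1)` (weight one, periodic shift), `T = arcosh(N(h)/2)`,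
`e^{i(a₁+b₁)} = j(h) / (2 cosh(T/2))`; `e^{-iθ} j(h) = 2 (K + i L)` with `L` odd in `θ`.
-/

set_option autoImplicit false

open MeasureTheory
open scoped Matrix

noncomputable section

namespace Fermat.Agent.LT.T6.Inf.H965

open Fermat.Agent.LT.T6.Inf Fermat.Agent.LT.T6.Inf.H811

/-! ## The elements `a_u k_θ a_t` -/

/-- `h_θ = a_u k_θ a_t`. -/
def hAKA965 (u t θ : ℝ) : GR := torG811 u * rotG811 θ * torG811 t

theorem coe_hAKA965 (u t θ : ℝ) :
    ((hAKA965 u t θ : GR) : Matrix (Fin 2) (Fin 2) ℝ) = torR u * rotR θ * torR t := rfl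

theorem det_hAKA965 (u t θ : ℝ) : ((hAKA965 u t θ : GR) : Matrix (Fin 2) (Fin 2) ℝ).det = 1 := by
  rw [coe_hAKA965, Matrix.det_mul, Matrix.det_mul, det_torR811, det_rotR811, det_torR811]
  norm_num

theorem continuous_hAKA965 (u t : ℝ) : Continuous (hAKA965 u t) := by
  unfold hAKA965
  exact (continuous_const.mul continuous_rotG965).mul continuous_const

theorem nrm_hAKA965 (u t θ : ℝ) :
    nrm965 ((hAKA965 u t θ : GR) : Matrix (Fin 2) (Fin 2) ℝ) / 2 = chX811 u t θ := by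
  rw [coe_hAKA965, nrm_aka965]
  ring

/-- `N(g) ≥ 2` for `det g = 1`. -/
theorem two_le_nrm965 (g : Matrix (Fin 2) (Fin 2) ℝ) (hg : g.det = 1) : 2 ≤ nrm965 g := by
  rw [Matrix.det_fin_two] at hg
  unfold nrm965
  nlinarith [sq_nonneg (g 0 0 - g 1 1), sq_nonneg (g 0 1 + g 1 0)]

theorem one_le_chX965 (u t θ : ℝ) : 1 ≤ chX811 u t θ := by
  rw [← nrm_hAKA965]
  have := two_le_nrm965 _ (det_hAKA965 u t θ)
  linarith

theorem continuous_chX965 (u t : ℝ) : Continuous (chX811 u t) := by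
  unfold chX811
  fun_prop

/-- `T(θ) = arcosh(chX811 u t θ)`. -/
def tOf965 (u t θ : ℝ) : ℝ := Real.arcosh (chX811 u t θ)

theorem continuous_tOf965 (u t : ℝ) : Continuous (tOf965 u t) :=
  Real.continuousOn_arcosh.comp_continuous (continuous_chX965 u t)
    (fun θ => Set.mem_Ici.2 (one_le_chX965 u t θ))

theorem chX_sub965 (u t θ : ℝ) : chX811 u t (2 * Real.pi - θ) = chX811 u t θ := by
  unfold chX811
  have : Real.cos (2 * (2 * Real.pi - θ)) = Real.cos (2 * θ) := by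
    have e : 2 * (2 * Real.pi - θ) = -(2 * θ) + (2 : ℕ) * (2 * Real.pi) := by
      push_cast
      ring
    rw [e, Real.cos_add_nat_mul_two_pi, Real.cos_neg]
  rw [this]

theorem tOf_sub965 (u t θ : ℝ) : tOf965 u t (2 * Real.pi - θ) = tOf965 u t θ := by
  unfold tOf965
  rw [chX_sub965]

/-! ## The inner integral -/

theorem cosh_cast_ne_zero965 (T : ℝ) : ((2 * Real.cosh (T / 2) : ℝ) : ℂ) ≠ 0 := by
  have : (0 : ℝ) < 2 * Real.cosh (T / 2) := by
    have := Real.cosh_pos (T / 2)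
    positivity
  exact_mod_cast this.ne'

/-- The function `α ↦ e^{-iα} e(k_α a_T)` is `2π`-periodic. -/
theorem periodic_circ965 (e : GR → ℂ) (T : ℝ) :
    Function.Periodic (fun x : ℝ => wt (-1) x * e (1 * (rotG811 x * torG811 T)))
      (2 * Real.pi) := by
  intro x
  show wt (-1) (x + 2 * Real.pi) * e (1 * (rotG811 (x + 2 * Real.pi) * torG811 T))
    = wt (-1) x * e (1 * (rotG811 x * torG811 T))
  rw [wt_periodic965, rotG_periodic965]

/-- **The inner integral** at `h ∈ SL₂(ℝ)`. -/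
theorem inner_of_cartan965 (hC : CartanC811) {e : GR → ℂ} {M : ℝ → ℂ} (hw : HasWeight 1 e)
    (hmean : ∀ (t : ℝ) (g : GR), circMean811 1 e g t = M t * e g) (h : GR)
    (hdet : (h : Matrix (Fin 2) (Fin 2) ℝ).det = 1) :
    (∫ α in (0 : ℝ)..(2 * Real.pi), wt (-1) α * e (rotG811 α * h))
      = jM965 (h : Matrix (Fin 2) (Fin 2) ℝ)
          / ((2 * Real.cosh (Real.arcosh (nrm965 (h : Matrix (Fin 2) (Fin 2) ℝ) / 2) / 2) : ℝ) : ℂ)
          * (M (Real.arcosh (nrm965 (h : Matrix (Fin 2) (Fin 2) ℝ) / 2)) * e 1) := by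
  obtain ⟨a1, b1, T, hT, hh⟩ := hC h hdet
  have hcoe : (h : Matrix (Fin 2) (Fin 2) ℝ) = rotR a1 * torR T * rotR b1 := by
    rw [hh]
    rfl
  have hn : nrm965 (h : Matrix (Fin 2) (Fin 2) ℝ) = 2 * Real.cosh T := by
    rw [hcoe, nrm_mul_rot965, nrm_rot_mul965, nrm_tor965]
  have hT' : Real.arcosh (nrm965 (h : Matrix (Fin 2) (Fin 2) ℝ) / 2) = T := by
    rw [hn, mul_div_cancel_left₀ _ (two_ne_zero' ℝ), Real.arcosh_cosh hT]
  have hj : jM965 (h : Matrix (Fin 2) (Fin 2) ℝ)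
      = wt 1 a1 * wt 1 b1 * ((2 * Real.cosh (T / 2) : ℝ) : ℂ) := by
    rw [hcoe, jM_mul_rot965, jM_rot_mul965, jM_tor965]
    ring
  rw [hT', hj, mul_div_assoc, div_self (cosh_cast_ne_zero965 T), mul_one]
  -- the integrand
  have hG : ∀ α : ℝ, wt (-1) α * e (rotG811 α * h)
      = wt 1 a1 * wt 1 b1
        * (wt (-1) (α + a1) * e (1 * (rotG811 (α + a1) * torG811 T))) := by
    intro α
    have e1 : rotG811 α * h = (1 * (rotG811 (α + a1) * torG811 T)) * rotG811 b1 := by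
      rw [hh, rotG_add965, one_mul, mul_assoc, mul_assoc, mul_assoc]
    rw [e1, hw b1 (rotG811 b1) _ rfl, wt_add965]
    have h3 := wt_mul_neg965 a1
    linear_combination (-(wt 1 b1 * wt (-1) α
      * e (1 * (rotG811 (α + a1) * torG811 T)))) * h3
  have hper := (periodic_circ965 e T).intervalIntegral_add_eq (0 + a1) 0
  calc (∫ α in (0 : ℝ)..(2 * Real.pi), wt (-1) α * e (rotG811 α * h))
      = ∫ α in (0 : ℝ)..(2 * Real.pi), wt 1 a1 * wt 1 b1
          * (wt (-1) (α + a1) * e (1 * (rotG811 (α + a1) * torG811 T))) :=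
        intervalIntegral.integral_congr (fun α _ => hG α)
    _ = wt 1 a1 * wt 1 b1 * ∫ α in (0 : ℝ)..(2 * Real.pi),
          (wt (-1) (α + a1) * e (1 * (rotG811 (α + a1) * torG811 T))) :=
        intervalIntegral.integral_const_mul _ _
    _ = wt 1 a1 * wt 1 b1 * ∫ x in (0 + a1)..(2 * Real.pi + a1),
          (wt (-1) x * e (1 * (rotG811 x * torG811 T))) := by
        rw [intervalIntegral.integral_comp_add_right
          (fun x => wt (-1) x * e (1 * (rotG811 x * torG811 T))) a1]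
    _ = wt 1 a1 * wt 1 b1 * ∫ x in (0 : ℝ)..(2 * Real.pi),
          (wt (-1) x * e (1 * (rotG811 x * torG811 T))) := by
        have e2 : 2 * Real.pi + a1 = 0 + a1 + 2 * Real.pi := by ring
        rw [e2, hper, zero_add]
    _ = wt 1 a1 * wt 1 b1 * (M T * e 1) := by
        rw [← hmean T 1]
        rfl

/-! ## Continuity of the eigenvalue function -/

theorem continuous_M965 {e : GR → ℂ} {M : ℝ → ℂ} (hcont : Continuous e) (h1 : e 1 ≠ 0)
    (hmean : ∀ (t : ℝ) (g : GR), circMean811 1 e g t = M t * e g) : Continuous M := by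
  have hM : M = fun t => circMean811 1 e 1 t / e 1 := by
    funext t
    rw [hmean t 1, mul_div_assoc, div_self h1, mul_one]
  rw [hM]
  refine Continuous.div_const ?_ _
  unfold circMean811
  apply intervalIntegral.continuous_parametric_intervalIntegral_of_continuous'
  show Continuous (fun p : ℝ × ℝ => wt (-(1 : ℤ)) p.2 * e (1 * (rotG811 p.2 * torG811 p.1)))
  exact ((continuous_wt965 _).comp continuous_snd).mul
    (hcont.comp (continuous_const.mul
      ((continuous_rotG965.comp continuous_snd).mul (continuous_torG965.comp continuous_fst))))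

/-! ## The kernel -/

/-- `K(θ)`. -/
def kK965 (u t θ : ℝ) : ℝ :=
  Real.cosh ((u + t) / 2) * Real.cos θ ^ 2 + Real.cosh ((u - t) / 2) * Real.sin θ ^ 2

/-- `L(θ)`. -/
def kL965 (u t θ : ℝ) : ℝ :=
  (Real.cosh ((u - t) / 2) - Real.cosh ((u + t) / 2)) * Real.sin θ * Real.cos θ

theorem continuous_kK965 (u t : ℝ) : Continuous (kK965 u t) := by
  unfold kK965
  fun_prop

theorem continuous_kL965 (u t : ℝ) : Continuous (kL965 u t) := by
  unfold kL965
  fun_prop

theorem kL_sub965 (u t θ : ℝ) : kL965 u t (2 * Real.pi - θ) = -kL965 u t θ := by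
  unfold kL965
  rw [Real.sin_two_pi_sub, Real.cos_two_pi_sub]
  ring

theorem continuous_cosh_tOf965 (u t : ℝ) :
    Continuous fun θ => Real.cosh (tOf965 u t θ / 2) :=
  Real.continuous_cosh.comp ((continuous_tOf965 u t).div_const 2)

/-- The even part of the integrand. -/
def fK965 (M : ℝ → ℂ) (u t θ : ℝ) : ℂ :=
  ((kK965 u t θ / Real.cosh (tOf965 u t θ / 2) : ℝ) : ℂ) * M (tOf965 u t θ)

/-- The odd part of the integrand. -/
def fL965 (M : ℝ → ℂ) (u t θ : ℝ) : ℂ :=
  ((kL965 u t θ / Real.cosh (tOf965 u t θ / 2) : ℝ) : ℂ) * M (tOf965 u t θ)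

theorem continuous_fK965 {M : ℝ → ℂ} (hM : Continuous M) (u t : ℝ) :
    Continuous (fK965 M u t) := by
  unfold fK965
  refine Continuous.mul ?_ (hM.comp (continuous_tOf965 u t))
  exact Complex.continuous_ofReal.comp
    ((continuous_kK965 u t).div (continuous_cosh_tOf965 u t)
      (fun θ => (Real.cosh_pos _).ne'))

theorem continuous_fL965 {M : ℝ → ℂ} (hM : Continuous M) (u t : ℝ) :
    Continuous (fL965 M u t) := by
  unfold fL965
  refine Continuous.mul ?_ (hM.comp (continuous_tOf965 u t))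
  exact Complex.continuous_ofReal.comp
    ((continuous_kL965 u t).div (continuous_cosh_tOf965 u t)
      (fun θ => (Real.cosh_pos _).ne'))

theorem fL_sub965 (M : ℝ → ℂ) (u t θ : ℝ) :
    fL965 M u t (2 * Real.pi - θ) = -fL965 M u t θ := by
  unfold fL965
  rw [tOf_sub965, kL_sub965, neg_div]
  push_cast
  ring

/-- The odd part integrates to `0`. -/
theorem integral_fL965 (M : ℝ → ℂ) (u t : ℝ) :
    (∫ θ in (0 : ℝ)..(2 * Real.pi), fL965 M u t θ) = 0 := by
  have h1 := intervalIntegral.integral_comp_sub_left (a := (0 : ℝ)) (b := 2 * Real.pi)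
    (fun θ => fL965 M u t θ) (2 * Real.pi)
  rw [sub_self, sub_zero] at h1
  have h2 : (∫ θ in (0 : ℝ)..(2 * Real.pi), fL965 M u t (2 * Real.pi - θ))
      = -∫ θ in (0 : ℝ)..(2 * Real.pi), fL965 M u t θ := by
    rw [← intervalIntegral.integral_neg]
    exact intervalIntegral.integral_congr (fun θ _ => fL_sub965 M u t θ)
  rw [h2] at h1
  have h3 : (2 : ℂ) * ∫ θ in (0 : ℝ)..(2 * Real.pi), fL965 M u t θ = 0 := by
    linear_combination -h1
  exact (mul_eq_zero.1 h3).resolve_left two_ne_zero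

/-! ## The leaf -/

/-- **T6inf.04.3b PRODUCT from CARTAN** (`H811.ProdOfCartanC811`). -/
theorem prodOfCartanC965 : ProdOfCartanC811 := by
  intro hC e M hcont h1 hw hmean u t
  have hMc : Continuous M := continuous_M965 hcont h1 hmean
  -- Step 1: the double integral
  have h2 : ∀ α : ℝ, wt (-1) α * (M t * e (1 * (rotG811 α * torG811 u)))
      = ∫ θ in (0 : ℝ)..(2 * Real.pi),
          wt (-1) α * (wt (-1) θ * e (rotG811 α * hAKA965 u t θ)) := by
    intro α
    rw [← hmean t (1 * (rotG811 α * torG811 u))]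
    unfold circMean811
    rw [← intervalIntegral.integral_const_mul]
    refine intervalIntegral.integral_congr (fun θ _ => ?_)
    have e1 : 1 * (rotG811 α * torG811 u) * (rotG811 θ * torG811 t)
        = rotG811 α * hAKA965 u t θ := by
      unfold hAKA965
      simp only [one_mul, mul_assoc]
    show wt (-1) α * (wt (-(1 : ℤ)) θ
      * e (1 * (rotG811 α * torG811 u) * (rotG811 θ * torG811 t)))
      = wt (-1) α * (wt (-1) θ * e (rotG811 α * hAKA965 u t θ))
    rw [e1]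
  have hE1 : M u * M t * e 1 = ∫ α in (0 : ℝ)..(2 * Real.pi), ∫ θ in (0 : ℝ)..(2 * Real.pi),
      wt (-1) α * (wt (-1) θ * e (rotG811 α * hAKA965 u t θ)) := by
    have h3 : M u * e 1 = ∫ α in (0 : ℝ)..(2 * Real.pi),
        wt (-1) α * e (1 * (rotG811 α * torG811 u)) := by
      rw [← hmean u 1]
      rfl
    calc M u * M t * e 1 = M t * (M u * e 1) := by ring
      _ = M t * ∫ α in (0 : ℝ)..(2 * Real.pi),
            wt (-1) α * e (1 * (rotG811 α * torG811 u)) := by rw [h3]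
      _ = ∫ α in (0 : ℝ)..(2 * Real.pi),
            M t * (wt (-1) α * e (1 * (rotG811 α * torG811 u))) :=
          (intervalIntegral.integral_const_mul _ _).symm
      _ = ∫ α in (0 : ℝ)..(2 * Real.pi), ∫ θ in (0 : ℝ)..(2 * Real.pi),
            wt (-1) α * (wt (-1) θ * e (rotG811 α * hAKA965 u t θ)) := by
          refine intervalIntegral.integral_congr (fun α _ => ?_)
          show M t * (wt (-1) α * e (1 * (rotG811 α * torG811 u))) = _
          rw [← h2 α]
          ring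
  -- Step 2: Fubini
  have hF : Continuous (Function.uncurry fun α θ : ℝ =>
      wt (-1) α * (wt (-1) θ * e (rotG811 α * hAKA965 u t θ))) := by
    show Continuous (fun p : ℝ × ℝ =>
      wt (-1) p.1 * (wt (-1) p.2 * e (rotG811 p.1 * hAKA965 u t p.2)))
    exact ((continuous_wt965 _).comp continuous_fst).mul
      (((continuous_wt965 _).comp continuous_snd).mul
        (hcont.comp ((continuous_rotG965.comp continuous_fst).mul
          ((continuous_hAKA965 u t).comp continuous_snd))))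
  have hFi : IntegrableOn (Function.uncurry fun α θ : ℝ =>
      wt (-1) α * (wt (-1) θ * e (rotG811 α * hAKA965 u t θ)))
      (Set.uIoc 0 (2 * Real.pi) ×ˢ Set.uIoc 0 (2 * Real.pi)) :=
    (hF.continuousOn.integrableOn_compact
      (isCompact_uIcc.prod isCompact_uIcc)).mono_set
      (Set.prod_mono Set.uIoc_subset_uIcc Set.uIoc_subset_uIcc)
  rw [intervalIntegral_intervalIntegral_swap hFi] at hE1
  -- Step 3: the inner integrals
  have hin : ∀ θ : ℝ, (∫ α in (0 : ℝ)..(2 * Real.pi),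
      wt (-1) α * (wt (-1) θ * e (rotG811 α * hAKA965 u t θ)))
      = e 1 * (fK965 M u t θ + Complex.I * fL965 M u t θ) := by
    intro θ
    have e3 : (∫ α in (0 : ℝ)..(2 * Real.pi),
        wt (-1) α * (wt (-1) θ * e (rotG811 α * hAKA965 u t θ)))
        = wt (-1) θ * ∫ α in (0 : ℝ)..(2 * Real.pi),
            wt (-1) α * e (rotG811 α * hAKA965 u t θ) := by
      rw [← intervalIntegral.integral_const_mul]
      refine intervalIntegral.integral_congr (fun α _ => ?_)
      show wt (-1) α * (wt (-1) θ * e (rotG811 α * hAKA965 u t θ))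
        = wt (-1) θ * (wt (-1) α * e (rotG811 α * hAKA965 u t θ))
      ring
    rw [e3, inner_of_cartan965 hC hw hmean (hAKA965 u t θ) (det_hAKA965 u t θ),
      nrm_hAKA965]
    have hj := wt_mul_jM_aka965 u t θ
    rw [← coe_hAKA965] at hj
    unfold fK965 fL965 kK965 kL965 tOf965
    rw [Complex.ofReal_div, Complex.ofReal_div]
    have e4 : ((2 * Real.cosh (Real.arcosh (chX811 u t θ) / 2) : ℝ) : ℂ)
        = 2 * ((Real.cosh (Real.arcosh (chX811 u t θ) / 2) : ℝ) : ℂ) :=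
      Complex.ofReal_mul _ _
    rw [e4]
    calc wt (-1) θ * (jM965 ((hAKA965 u t θ : GR) : Matrix (Fin 2) (Fin 2) ℝ)
          / (2 * ((Real.cosh (Real.arcosh (chX811 u t θ) / 2) : ℝ) : ℂ))
          * (M (Real.arcosh (chX811 u t θ)) * e 1))
        = (wt (-1) θ * jM965 ((hAKA965 u t θ : GR) : Matrix (Fin 2) (Fin 2) ℝ))
          * (M (Real.arcosh (chX811 u t θ)) * e 1)
          / (2 * ((Real.cosh (Real.arcosh (chX811 u t θ) / 2) : ℝ) : ℂ)) := by ring
      _ = (2 * (((Real.cosh ((u + t) / 2) * Real.cos θ ^ 2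
            + Real.cosh ((u - t) / 2) * Real.sin θ ^ 2 : ℝ) : ℂ)
          + Complex.I * (((Real.cosh ((u - t) / 2) - Real.cosh ((u + t) / 2))
            * Real.sin θ * Real.cos θ : ℝ) : ℂ)))
          * (M (Real.arcosh (chX811 u t θ)) * e 1)
          / (2 * ((Real.cosh (Real.arcosh (chX811 u t θ) / 2) : ℝ) : ℂ)) := by rw [hj]
      _ = _ := by ring
  have hI1 : IntervalIntegrable (fun θ => fK965 M u t θ) volume 0 (2 * Real.pi) :=
    (continuous_fK965 hMc u t).intervalIntegrable _ _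
  have hI2 : IntervalIntegrable (fun θ => Complex.I * fL965 M u t θ) volume 0 (2 * Real.pi) :=
    (continuous_const.mul (continuous_fL965 hMc u t)).intervalIntegrable _ _
  rw [intervalIntegral.integral_congr (fun θ _ => hin θ),
    intervalIntegral.integral_const_mul, intervalIntegral.integral_add hI1 hI2,
    intervalIntegral.integral_const_mul, integral_fL965, mul_zero, add_zero] at hE1
  -- conclusion
  have hfin : M u * M t = ∫ θ in (0 : ℝ)..(2 * Real.pi), fK965 M u t θ := by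
    apply mul_right_cancel₀ h1
    rw [hE1]
    ring
  rw [hfin]
  rfl

end Fermat.Agent.LT.T6.Inf.H965

end

end
-- ===== PACK-END LT/T6/Inf/H965/ProdCartan.lean

-- ===== PACK-BEGIN LT/T7/H228/AvgOrb.lean
section



/-!
# Row LT, tower T7, leaf `AvgMatchC893` (helper228 spare): CONVERGENCE of the elliptic orbital
# integrals WITHOUT σ-regularity of the function

OFF-MAIN.  Vocabulary and tools: tower T5, leaf T5.07 of helper29 (`T5/H29/TwSpec.lean`,
`TwFinite.lean`, `TwClosed.lean`, byte-identical copies of the master tree).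

`T5.LeafTwFinite` gives the integrability of `x ↦ φ♭(x⁻¹ δ σ(x))` on a strict fundamental
domain of the σ-centraliser for σ-REGULAR test functions.  Here the regularity is asked of the
CLASS, not of the function: `P` is a set of elements of `GL₂(K)` which is stable under
σ-conjugation and whose members have elliptic regular norm.  Then for EVERY continuous function
`φ` with compact support and every `δ ∈ P`

    integrableOn_twTermP228 : IntegrableOn (twTerm r s φ δ) Fδ μ.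

The proofs are the proofs of `twBound_of_leaves` and `leafTwFinite_of_twBound` (helper29) with
the class predicate threaded through.
-/

set_option autoImplicit false

open IsDedekindDomain NumberField MeasureTheory
open scoped MatrixGroups Pointwise ENNReal

noncomputable section

namespace Fermat.Agent.LT.T7.H228

open Fermat.Agent.LT.H556.A0 Fermat.Agent.LT.T5 Fermat.Agent.LT Fermat.Agent.LT.T5.H29

attribute [local instance] Fermat.Agent.LT.T5.instMeasurableSpaceG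
attribute [local instance] Fermat.Agent.LT.T5.H29.ratAction29

variable {K : Type} [Field K] [NumberField K]

/-- **The uniform bound for a class with elliptic regular norm** (no hypothesis on `φ` but the
compact support). -/
theorem twBoundP228 (s : AdelicAut K) (l : ℕ) (k : Subfield K) (𝔫 : Ideal (𝓞 K))
    (hT : T1.T1Out K) (L : TwLeaves s l k 𝔫) (hcyc : IsCyclicOfDegree s l k)
    (μ : Measure (G K)) (r : G K) (hr : IsRayGen r) (hP : AutPreserves s 𝔫 μ r)
    (φ : G K → ℂ) (ht : HasCompactSupport φ)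
    (P : GL (Fin 2) K → Prop)
    (hPc : ∀ γ δ : GL (Fin 2) K, P δ → P (γ * δ * (s.onRat γ)⁻¹))
    (hPr : ∀ δ : GL (Fin 2) K, P δ → IsEllRegOver k (s.normUpTo l δ)) :
    ∃ (S : Finset (GL (Fin 2) K)) (M : ℕ),
      (∀ (x : G K) (δ : GL (Fin 2) K) (m : ℤ),
        φ (x⁻¹ * ratG δ * s.onG x * r ^ m) ≠ 0 → m.natAbs ≤ M) ∧
      ∀ x : G K, ∃ γ₀ : GL (Fin 2) K,
        ∀ (δ : GL (Fin 2) K) (m : ℤ), P δ → φ (x⁻¹ * ratG δ * s.onG x * r ^ m) ≠ 0 →
          γ₀⁻¹ * δ * s.onRat γ₀ ∈ S := by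
  obtain ⟨M, hM⟩ := L.rayBound hT.adNorm μ r hr hP φ ht
  obtain ⟨c₁, hc₁⟩ := L.siegelTw hT L.box μ r hr hP φ ht M
  obtain ⟨c₀, hc₀pos, hred⟩ := hT.reduction
  obtain ⟨Ω, hΩ, hΩcov⟩ := L.mahler hT c₀ c₁ hc₀pos
  obtain ⟨hray, hslabinv⟩ := L.raySlab hT.adNorm
  obtain ⟨hrc, hrcr, hrslab⟩ := hray r hr
  have hC : IsCompact (tsupport φ) := ht
  have hRfin : {m : ℤ | m.natAbs ≤ M}.Finite := by
    refine (Set.finite_Icc (-(M : ℤ)) (M : ℤ)).subset fun m hm => ?_
    simp only [Set.mem_ofPred_eq] at hm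
    rw [Set.mem_Icc]
    constructor <;> omega
  have hR : IsCompact ((fun m : ℤ => r ^ (-m)) '' {m : ℤ | m.natAbs ≤ M}) :=
    (hRfin.image _).isCompact
  have hT2 : T2Space (G K) := hT.locComp.2.2.1
  have hΩ' : IsCompact (s.onG '' Ω)⁻¹ := (hΩ.image hP.cont).inv
  have hC₂ : IsCompact
      (Ω * tsupport φ * ((fun m : ℤ => r ^ (-m)) '' {m : ℤ | m.natAbs ≤ M}) * (s.onG '' Ω)⁻¹) :=
    ((hΩ.mul hC).mul hR).mul hΩ'
  have hfin := L.ratFinite hT.discrete _ hC₂
  refine ⟨hfin.toFinset, M, hM, fun x => ?_⟩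
  by_cases hx : ∃ (δ : GL (Fin 2) K) (m : ℤ), P δ ∧ φ (x⁻¹ * ratG δ * s.onG x * r ^ m) ≠ 0
  · obtain ⟨δ₁, m₁, hPδ₁, h₁⟩ := hx
    obtain ⟨j, hj⟩ := hrslab x
    obtain ⟨γ, t, hht, hct⟩ := hred (x * r ^ j)
    have key : ∀ (γ' : GL (Fin 2) K) (δ : GL (Fin 2) K) (m : ℤ),
        twArg s r (ratG γ' * (x * r ^ j)) (γ' * δ * (s.onRat γ')⁻¹) m = twArg s r x δ m :=
      fun γ' δ m => (twArg_rat29 hP γ' (x * r ^ j) δ m).trans (twArg_ray29 hP hrc x j δ m)
    have htc : t ≤ c₁ := by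
      by_contra hlt
      push Not at hlt
      have h2 := hc₁ (T1.ratG K γ * (x * r ^ j)) t hht hlt (γ * δ₁ * (s.onRat γ)⁻¹) m₁
        (hM x δ₁ m₁ h₁) (by
          have := key γ δ₁ m₁
          rw [twArg_def29, twArg_def29] at this
          show φ ((ratG γ * (x * r ^ j))⁻¹ * ratG (γ * δ₁ * (s.onRat γ)⁻¹) *
            s.onG (ratG γ * (x * r ^ j)) * r ^ m₁) ≠ 0
          rw [this]
          exact h₁)
      exact L.upperNotReg hcyc _ h2 (hPr _ (hPc γ δ₁ hPδ₁))
    have hyslab : ratG γ * (x * r ^ j) ∈ slab K := hslabinv γ _ hj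
    obtain ⟨γ', hγ'⟩ := hΩcov (ratG γ * (x * r ^ j)) hyslab t hht hct htc
    have hω : ratG (γ' * γ) * (x * r ^ j) ∈ Ω := by
      rw [map_mul, mul_assoc]
      exact hγ'
    refine ⟨(γ' * γ)⁻¹, fun δ m _ hδ => ?_⟩
    rw [Set.Finite.mem_toFinset, Set.mem_ofPred_eq]
    have hg : twArg s r x δ m ∈ tsupport φ := subset_tsupport _ hδ
    have e1 : ratG ((γ' * γ)⁻¹⁻¹ * δ * s.onRat (γ' * γ)⁻¹)
        = ratG (γ' * γ) * (x * r ^ j)
          * twArg s r (ratG (γ' * γ) * (x * r ^ j)) ((γ' * γ) * δ * (s.onRat (γ' * γ))⁻¹) m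
          * r ^ (-m) * (s.onG (ratG (γ' * γ) * (x * r ^ j)))⁻¹ := by
      rw [← ratG_eq_of_twArg29, inv_inv, map_inv]
    rw [e1, key]
    exact Set.mul_mem_mul (Set.mul_mem_mul (Set.mul_mem_mul hω hg)
      (Set.mem_image_of_mem _ (hM x δ m hδ)))
      (Set.inv_mem_inv.2 (Set.mem_image_of_mem _ hω))
  · push Not at hx
    exact ⟨1, fun δ m hPδ h => absurd (hx δ m hPδ) h⟩

/-- **Convergence of the orbital integral of a class with elliptic regular norm**: for every
continuous function `φ` with compact support, `x ↦ φ♭(x⁻¹ δ σ(x))` is integrable on every strict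
fundamental domain of the σ-centraliser of `δ ∈ P` in the slab. -/
theorem integrableOn_twTermP228 (s : AdelicAut K) (l : ℕ) (k : Subfield K) (𝔫 : Ideal (𝓞 K))
    (hT : T1.T1Out K) (L : TwLeaves s l k 𝔫) (hcyc : IsCyclicOfDegree s l k)
    (μ : Measure (G K)) (F : Set (G K)) (r : G K) (hF : IsFrame μ F) (hr : IsRayGen r)
    (hP : AutPreserves s 𝔫 μ r)
    (φ : G K → ℂ) (hφc : Continuous φ) (ht : HasCompactSupport φ)
    (P : GL (Fin 2) K → Prop)
    (hPc : ∀ γ δ : GL (Fin 2) K, P δ → P (γ * δ * (s.onRat γ)⁻¹))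
    (hPr : ∀ δ : GL (Fin 2) K, P δ → IsEllRegOver k (s.normUpTo l δ))
    (δ : GL (Fin 2) K) (hδ : P δ) (Fδ : Set (G K)) (hFδ : IsTwDomain s δ Fδ) :
    IntegrableOn (twTerm r s φ δ) Fδ μ := by
  classical
  obtain ⟨S, M, hM, hSM⟩ := twBoundP228 s l k 𝔫 hT L hcyc μ r hr hP φ ht P hPc hPr
  have hconj : ∀ x : G K, ∃ γ₀ : GL (Fin 2) K, ∀ δ' : GL (Fin 2) K, P δ' →
      twTerm r s φ δ' x ≠ 0 → γ₀⁻¹ * δ' * s.onRat γ₀ ∈ S := fun x => by
    obtain ⟨γ₀, hγ₀⟩ := hSM x
    refine ⟨γ₀, fun δ' hPδ' hδ' => ?_⟩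
    obtain ⟨m, hm⟩ := exists_ne_zero_of_twTerm29 hM δ' x hδ'
    exact hγ₀ δ' m hPδ' hm
  have hBorel : BorelSpace (G K) := borelSpace_G29 K
  have hcount : Countable (GL (Fin 2) K) := countable_GL29 K
  have hcountΔ : Countable (TwAct29 s) := countable_twAct29 s
  have hMC : MeasurableConstSMul (GL (Fin 2) K) (G K) := measurableConstSMul29 K
  have hSC : SecondCountableTopology (G K) := hT.locComp.2.2.2
  obtain ⟨-, hslab⟩ := L.raySlab hT.adNorm
  have hHaar : μ.IsHaarMeasure := hF.haar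
  have hinv : SMulInvariantMeasure (GL (Fin 2) K) (G K) (μ.restrict (slab K)) :=
    smulInvariant_restrict29 hslab μ
  have hFD : IsFundamentalDomain (GL (Fin 2) K) F (μ.restrict (slab K)) :=
    isFundamentalDomain_of_strict_top29 hT.adNorm μ hF.meas hF.sub hF.strict
  have hstrict' : ∀ g ∈ slab K,
      ∃! γ : MulAction.stabilizer (GL (Fin 2) K) (⟨δ⟩ : TwAct29 s),
        ratG (γ : GL (Fin 2) K) * g ∈ Fδ := by
    intro g hg
    obtain ⟨γ, hγ, hu⟩ := hFδ.strict g hg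
    refine ⟨⟨γ.1, (mem_stabilizer_iff29 s δ γ.1).2 γ.2⟩, hγ, fun γ' hγ' => ?_⟩
    have h := hu ⟨γ'.1, (mem_stabilizer_iff29 s δ γ'.1).1 γ'.2⟩ hγ'
    have h' : (γ' : GL (Fin 2) K) = (γ : GL (Fin 2) K) := congrArg Subtype.val h
    exact Subtype.ext h'
  have hFDδ : IsFundamentalDomain (MulAction.stabilizer (GL (Fin 2) K) (⟨δ⟩ : TwAct29 s)) Fδ
      (μ.restrict (slab K)) :=
    isFundamentalDomain_of_strict29 hT.adNorm μ _ hFδ.meas hFδ.sub hstrict'
  have hunf := Fermat.Agent.LT.H29.lintegral_enorm_orbit_unfold29 (μ := μ.restrict (slab K)) hFD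
    (fun (δ' : TwAct29 s) (x : G K) => twTerm r s φ δ'.val x)
    (fun γ δ' x => twTerm_smul29 hP γ δ' x) ⟨δ⟩ hFDδ
  obtain ⟨C, hC⟩ : ∃ C : ℝ, ∀ g : G K, ‖φ g‖ ≤ C :=
    hφc.bounded_above_of_compact_support ht
  have hcont : ∀ δ' : GL (Fin 2) K, Continuous (twTerm r s φ δ') := fun δ' =>
    continuous_twTerm29 hP hφc hM δ'
  -- the members of the orbit are in the class
  have hPorb : ∀ δ' : MulAction.orbit (GL (Fin 2) K) (⟨δ⟩ : TwAct29 s),
      P (δ' : TwAct29 s).val := by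
    rintro ⟨δ', γ, rfl⟩
    exact hPc γ δ hδ
  -- the summands cut off outside the class
  let g : TwAct29 s → G K → ℝ≥0∞ := fun δ' x => if P δ'.val then ‖twTerm r s φ δ'.val x‖ₑ else 0
  have hgmeas : ∀ δ' : TwAct29 s,
      AEMeasurable (g δ') ((μ.restrict (slab K)).restrict F) := by
    intro δ'
    by_cases hδ' : P δ'.val
    · have : g δ' = fun x => ‖twTerm r s φ δ'.val x‖ₑ := by
        funext x
        simp only [g, if_pos hδ']
      rw [this]
      exact (hcont δ'.val).measurable.enorm.aemeasurable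
    · have : g δ' = fun _ => 0 := by
        funext x
        simp only [g, if_neg hδ']
      rw [this]
      exact aemeasurable_const
  have hptw : ∀ x : G K, ∑' δ' : TwAct29 s, g δ' x
      ≤ S.card * ENNReal.ofReal ((2 * M + 1 : ℕ) * C) := by
    intro x
    obtain ⟨γ₀, hγ₀⟩ := hconj x
    let T : Finset (TwAct29 s) :=
      S.image fun η => (⟨γ₀ * η * (s.onRat γ₀)⁻¹⟩ : TwAct29 s)
    have hT0 : ∀ δ' : TwAct29 s, δ' ∉ T → g δ' x = 0 := by
      intro δ' hδ'
      by_cases hPδ' : P δ'.val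
      · simp only [g, if_pos hPδ']
        by_contra h
        apply hδ'
        have h' : twTerm r s φ δ'.val x ≠ 0 := fun h0 => h (by rw [h0, enorm_zero])
        rw [Finset.mem_image]
        refine ⟨γ₀⁻¹ * δ'.val * s.onRat γ₀, hγ₀ δ'.val hPδ' h', ?_⟩
        apply TwAct29.ext'
        show γ₀ * (γ₀⁻¹ * δ'.val * s.onRat γ₀) * (s.onRat γ₀)⁻¹ = δ'.val
        simp [mul_assoc]
      · simp only [g, if_neg hPδ']
    rw [tsum_eq_sum hT0]
    calc ∑ δ' ∈ T, g δ' x
        ≤ ∑ _δ' ∈ T, ENNReal.ofReal ((2 * M + 1 : ℕ) * C) := by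
          refine Finset.sum_le_sum fun δ' _ => ?_
          by_cases hPδ' : P δ'.val
          · simp only [g, if_pos hPδ']
            rw [← ofReal_norm]
            exact ENNReal.ofReal_le_ofReal (norm_twTerm_le29 hC hM δ'.val x)
          · simp only [g, if_neg hPδ']
            exact bot_le
      _ = T.card * ENNReal.ofReal ((2 * M + 1 : ℕ) * C) := by
          rw [Finset.sum_const, nsmul_eq_mul]
      _ ≤ S.card * ENNReal.ofReal ((2 * M + 1 : ℕ) * C) := by
          gcongr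
          exact Finset.card_image_le
  have hres : (μ.restrict (slab K)).restrict Fδ = μ.restrict Fδ := by
    rw [Measure.restrict_restrict hFδ.meas, Set.inter_eq_left.2 hFδ.sub]
  refine ⟨(hcont δ).aestronglyMeasurable, ?_⟩
  rw [hasFiniteIntegral_iff_enorm, ← hres]
  have h1 : ∫⁻ x in Fδ, ‖twTerm r s φ δ x‖ₑ ∂(μ.restrict (slab K))
      = ∑' δ' : MulAction.orbit (GL (Fin 2) K) (⟨δ⟩ : TwAct29 s),
          ∫⁻ x in F, ‖twTerm r s φ (δ' : TwAct29 s).val x‖ₑ ∂(μ.restrict (slab K)) :=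
    hunf.symm
  rw [h1]
  have h2 : ∀ δ' : MulAction.orbit (GL (Fin 2) K) (⟨δ⟩ : TwAct29 s),
      ∫⁻ x in F, ‖twTerm r s φ (δ' : TwAct29 s).val x‖ₑ ∂(μ.restrict (slab K))
        = ∫⁻ x in F, g (δ' : TwAct29 s) x ∂(μ.restrict (slab K)) := by
    intro δ'
    refine lintegral_congr fun x => ?_
    simp only [g, if_pos (hPorb δ')]
  calc ∑' δ' : MulAction.orbit (GL (Fin 2) K) (⟨δ⟩ : TwAct29 s),
        ∫⁻ x in F, ‖twTerm r s φ (δ' : TwAct29 s).val x‖ₑ ∂(μ.restrict (slab K))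
      = ∑' δ' : MulAction.orbit (GL (Fin 2) K) (⟨δ⟩ : TwAct29 s),
          ∫⁻ x in F, g (δ' : TwAct29 s) x ∂(μ.restrict (slab K)) :=
        tsum_congr h2
    _ ≤ ∑' δ' : TwAct29 s, ∫⁻ x in F, g δ' x ∂(μ.restrict (slab K)) :=
        ENNReal.tsum_comp_le_tsum_of_injective Subtype.val_injective
          (fun δ' : TwAct29 s => ∫⁻ x in F, g δ' x ∂(μ.restrict (slab K)))
    _ = ∫⁻ x in F, ∑' δ' : TwAct29 s, g δ' x ∂(μ.restrict (slab K)) :=
        (lintegral_tsum hgmeas).symm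
    _ ≤ ∫⁻ _x in F, S.card * ENNReal.ofReal ((2 * M + 1 : ℕ) * C) ∂(μ.restrict (slab K)) :=
        lintegral_mono fun x => hptw x
    _ = S.card * ENNReal.ofReal ((2 * M + 1 : ℕ) * C) * (μ.restrict (slab K)) F := by
        rw [lintegral_const, Measure.restrict_apply MeasurableSet.univ, Set.univ_inter]
    _ < ⊤ := by
        refine ENNReal.mul_lt_top
          (ENNReal.mul_lt_top (ENNReal.natCast_lt_top _) ENNReal.ofReal_lt_top) ?_
        exact lt_of_le_of_lt (Measure.restrict_apply_le _ _) hF.finite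

end Fermat.Agent.LT.T7.H228

end

end
-- ===== PACK-END LT/T7/H228/AvgOrb.lean

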