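import Mathlib
import Fermat.Agent.Pack.LT3.E17L0
import Fermat.Agent.Pack.LT3.E14L1
import Fermat.Agent.Pack.LT3.E11L2
import Fermat.Agent.Pack.LT2.E12L3
import Fermat.Agent.Pack.LT2.E8L0
import Fermat.Agent.Pack.LT2.E7L2
import Fermat.Agent.Pack.LT2.E1L2
import Fermat.Agent.Pack.LT2.E10L2
import Fermat.Agent.Pack.LT2.E10L3
import Fermat.Agent.Pack.LT2.E13L2
import Fermat.Agent.Pack.LT3.E0L0
import Fermat.Agent.Pack.LT3.E3L2
import Fermat.Agent.Pack.LT3.E18L3
import Fermat.Agent.Pack.LT3.E7L1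
import Fermat.Agent.Pack.LT3.E7L2
import Fermat.Agent.Pack.LT3.E10L3
import Fermat.Agent.Pack.LT3.E6L0
import Fermat.Agent.Pack.LT3.E18L1
import Fermat.Agent.Pack.LT3.E18L0

set_option linter.all false

-- ===== PACK-BEGIN LT/H670/QOut/Top3.lean
section



/-!
# Row LT, T7.QOUT (helper670): `QA3` from its HECKE HALF

`QA3H` = the Hecke identities of `famFn φ₂ 1` (leaf, claimed by helper698 / helper237);
the cusp-form half is PROVED (`ClassA3M.lean`).  `qa3_of_hecke : QA3H → QA3`.  OFF-MAIN.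
-/

set_option autoImplicit false

open CongruenceSubgroup
open scoped MatrixGroups

namespace Fermat.Agent.LT.H670.QOut

open Fermat.Agent.LT.H556

/-- **Leaf QA3H (the Hecke half of QA3).** -/
def QA3H : Prop :=
  ∀ (N : ℕ) (_ : NeZero N) (a b : Nat.Primes → ℂ) (ψ₁ ψ₂ : DirichletCharacter ℂ N)
    (φ₂ : A0.G ℚ → ℂ), IsLevelForm N a b φ₂ → TorusEquiv N ψ₁ ψ₂ φ₂ →
    FnHecke N ψ₁ ψ₂ a b (famFn φ₂ 1)

/-- **QA3 from its Hecke half.** -/
theorem qa3_of_hecke (hH : QA3H) : QA3 := by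
  intro N hN a b ψ₁ ψ₂ φ₂ hφ hT
  have : NeZero N := hN
  exact ⟨cuspOfLevelForm N a b φ₂ hφ, cuspOfLevelForm_ne_zero N a b φ₂ hφ,
    hH N hN a b ψ₁ ψ₂ φ₂ hφ hT⟩

/-- **QOUT from QA1, QA2 and the Hecke half of QA3.** -/
theorem qOut_of_hecke (h1 : QA1) (h2 : QA2) (hH : QA3H) : QOutC :=
  qOut_of_three h1 h2 (qa3_of_hecke hH)

end Fermat.Agent.LT.H670.QOut

end
-- ===== PACK-END LT/H670/QOut/Top3.lean

-- ===== PACK-BEGIN LT/H670/QOut/Final.lean
section




/-!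
# Row LT, T7.QOUT (helper670): the sub-tower QOUT is CLOSED, unconditionally

`qOutC : QOutC` -- every class datum `ClassOut π` (a holomorphic weight-one cuspidal automorphic
form `φ` on `GL₂(𝔸_ℚ)` in the A0 vocabulary, of some level, with Hecke eigenvalues `π.a`, `π.b`
away from the level) yields a classical weight-one cusp form on `Γ₁(M)` with nebentypus,
normalised, with the twisted Hecke eigen-equations (`TwistedEigen`).

Leaves and their provers (all OFF-MAIN, complete proofs, standard axioms only):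

* `QA1` (base point / sign / Iwasawa / level): helper698, `LT/T7/H698/QA1.lean` `qa1_698`;
* `QA2` (torus eigen-projection): helper237, `LT/T7/H237/QA2.lean` `qa2_237`;
* `QA3` cusp-form half: helper670, `ClassA3M.lean` `cuspOfLevelForm`;
* `QA3` Hecke half (`QA3H`): helper237, `LT/T7/H237/QA3Hecke.lean` `fnHecke237`;
* `QA4` (rescaling to `Γ₁(N²)`): helper670, `ClassA4.lean` `qA4`;
* `QN` (classical normalisation / untwisting): helper670, `ClassN.lean` `qN`.
-/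

set_option autoImplicit false

namespace Fermat.Agent.LT.H670.QOut

open Fermat.Agent.LT.H556

/-- The Hecke half of `QA3` (helper237's `fnHecke237`). -/
theorem qa3h : QA3H := by
  intro N hN a b ψ₁ ψ₂ φ₂ hφ hT
  have : NeZero N := hN
  exact Fermat.Agent.LT.T7.H237.fnHecke237 hφ hT

/-- Leaf `QA3`, unconditional. -/
theorem qa3 : QA3 := qa3_of_hecke qa3h

/-- **T7.QOUT, unconditional.** -/
theorem qOutC : QOutC :=
  qOut_of_hecke Fermat.Agent.LT.T7.H698.qa1_698 Fermat.Agent.LT.T7.H237.qa2_237 qa3h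

end Fermat.Agent.LT.H670.QOut

end
-- ===== PACK-END LT/H670/QOut/Final.lean

-- ===== PACK-BEGIN LT/T3/M/Spec.lean
section



/-!
# Row LT, tower T3, station T3.18M (architect helper14): the MULTI-PLACE Eisenstein-killing
# test function -- THE CUT

OFF-MAIN.  Definitions and frozen Props only (the proved tops are `M/Top.lean`).  No hole, no
opaque constant, nothing assumed.  ADDITIVE: every file of the closed tower T3
(`origin/helper14@21d8599e0`) is unchanged and is imported as it is.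

## Why (ruling of helper797, `T7/EKM.lean`, `GoodEKM`; request #17026)

The single-place datum `(v₀, a₀, n)`, `(a₀) = 𝔭_{v₀}ⁿ`, needs the existence theorem of class field
theory.  The Eisenstein-killing device only needs a RATIONAL element `a₀ ≡ 1 mod 𝔫` whose ideal
is a product `∏_{v ∈ P} 𝔭_v^{e_v}` of primes not dividing `𝔫` (Chebotarev over `ℚ`: `a₀ = -p`).
This station delivers the test function for such a datum:

    `P` finite, non-empty, `v ∤ 𝔫`, `e_v > 0` (`v ∈ P`), `(a₀) = ∏_{v ∈ P} 𝔭_v^{e_v}`, `a₀ - 1 ∈ 𝔫`.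

## The coordinates

`CoordM K P = (ℤ²)^P × (ℝ²)^{S_∞}`, `c₀ = ((e_v, 0)_v, (log |α|_w, 0)_w)`.  Pure tensors
`f = ⊗_{v ∈ P} f₀_v ⊗ ⊗_w F_w ⊗ 1_{U^{S'}}`, `S' = P ∪ S_∞`, `Φ = ⊗_v A_v ⊗ ⊗_w β_w`.
Everything LOCAL is the closed single-place station (`AS.SatakeLocC`, `AS.AbelCplxSmoothC`,
`N893.IwasawaFormC`, `N893.AffineC`, `N893.LocValInfC`); `EKKillC`, `EKStarC`, `ConstTermTC` and
the bridge to T5 hold for every `α ∈ Kˣ` and every test function and are used as they are.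

## The leaves (each is the closed single-place proof with `v₀` replaced by `P`)

| leaf | Prop | single-place model (closed) |
|---|---|---|
| M.1 | `EKCoreC` (MATHLIB + this file) | `H732.exists_ekPhi732` (helper732) |
| M.2 | `FtPureC` (MATHLIB + this file) | `AS.ftCoord_pure` (helper736) |
| M.3 | `PureRegMC K` | `AS.PureRegC` (helper245) |
| M.4 | `ROpMC K` | `AS.ROpC` (helper57) |
| M.5 | `PureUpperMC K` | N.2 `PureUpperC` (helper846) |
| M.6 | `OutsideCosetMC K` | N.3 `OutsideCosetC` (helper922) |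
| M.7 | `SplitMC K` | N.5 `SplitC` (helper129 on 497, 322, 250, 904, 800) |
| M.8 | `LocValFinMC K` | N.6 `LocValFinC` (helper848) |
| M.9 | `ProdFormMC K` | N.8 `ProdFormC` (helper915) |

Tops (PROVED in `M/Top.lean`): `nIntM_of`, `abelSatakeSmoothM_of`, `ekExistSmoothM_of`,
`ekOpExistSmoothM_of`, `exists_testFn_T5_M`.

Every leaf may be delivered in the form `T1.T1Out K → Leaf` (tower T1 is closed).
-/

set_option autoImplicit false
set_option linter.style.haveILetI false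

open IsDedekindDomain NumberField MeasureTheory
open Fermat.Agent.LT.H556.A0

noncomputable section

namespace Fermat.Agent.LT.T3.M

open Fermat.Agent.LT.T3.AS Fermat.Agent.LT.T3.AS.N893

/-! ## 0. Coordinates (no number field) -/

section Crd

variable (ι₁ ι₂ : Type)

/-- The coordinate group `(ℤ²)^{ι₁} × (ℝ²)^{ι₂}`. -/
abbrev Crd : Type := (ι₁ → ℤ × ℤ) × (ι₂ → ℝ × ℝ)

variable {ι₁ ι₂}

/-- The element `c₀ = ((e_i, 0)_i, (ℓ_w, 0)_w)`. -/
def c0 (e : ι₁ → ℕ) (ℓ : ι₂ → ℝ) : Crd ι₁ ι₂ :=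
  (fun i => (((e i : ℕ) : ℤ), 0), fun w => (ℓ w, 0))

/-- The pure tensor `Φ(m, x) = ∏_i A_i(m_i) ∏_w β_w(x_w)`. -/
def pureCrd [Fintype ι₁] [Fintype ι₂] (A : ι₁ → ℤ × ℤ → ℂ) (β : ι₂ → ℝ × ℝ → ℂ) :
    Crd ι₁ ι₂ → ℂ :=
  fun p => (∏ i, A i (p.1 i)) * ∏ w, β w (p.2 w)

variable (ι₁ ι₂)

/-- A symmetric pure tensor. -/
def IsSymPureCrd [Fintype ι₁] [Fintype ι₂] (Φ : Crd ι₁ ι₂ → ℂ) : Prop :=
  ∃ (A : ι₁ → ℤ × ℤ → ℂ) (β : ι₂ → ℝ × ℝ → ℂ),
    (∀ i, IsSymFin (A i)) ∧ (∀ w, IsSymBump (β w)) ∧ Φ = pureCrd A β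

/-- The span of the symmetric pure tensors. -/
def SymSpanCrd [Fintype ι₁] [Fintype ι₂] : Submodule ℂ (Crd ι₁ ι₂ → ℂ) :=
  Submodule.span ℂ {Φ | IsSymPureCrd ι₁ ι₂ Φ}

variable {ι₁ ι₂}

/-- The Fourier--Laplace transform at the unramified character with Satake parameters
`(z₁ i, z₂ i)` at `i ∈ ι₁`, trivial at `ι₂`:
`Φ^(z₁, z₂) = ∑_m (∫ Φ(m, x) dx) ∏_i z₁ᵢ^{m_{i,1}} z₂ᵢ^{m_{i,2}}`. -/
def ftCrd [Fintype ι₁] [Fintype ι₂] (Φ : Crd ι₁ ι₂ → ℂ) (z₁ z₂ : ι₁ → ℂ) : ℂ :=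
  ∑ᶠ m : ι₁ → ℤ × ℤ, (∫ x : ι₂ → ℝ × ℝ, Φ (m, x)) * ∏ i, (z₁ i ^ (m i).1 * z₂ i ^ (m i).2)

/-- **M.1 (the core; pure algebra in the group algebra of the coordinate group; MATHLIB + the
definitions above).**  `Φ₁ = ⊗_i δ_{(0,0)} ⊗ ⊗_w (bump ⊗ bump)`,
`Φ = ∏_{c ∈ W c₀} (1 - τ_c) Φ₁`, `W = {swaps}^{ι₁ ⊔ ι₂}` (product over the `2^{|ι₁| + |ι₂|}`
sign choices, with multiplicity): `Φ ∈ SymSpanCrd` (average over `W`), `Φ = (1 - τ_{c₀}) Φ₂`
telescopes (finite sums because `e_i > 0` and `ι₁ ≠ ∅`), and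
`Φ^(z₁,z₂) = (∫ bump)^{2 |ι₂|} ∏_{s ∈ W} (1 - ∏_i z_{s_i, i}^{e_i})`.
Model: `H732.exists_ekPhi732` (helper732, `LT/T3/H732/EKCore.lean`), which is the case
`ι₁ = Unit`. -/
def EKCoreC : Prop :=
  ∀ (ι₁ ι₂ : Type) [Fintype ι₁] [Fintype ι₂] [Nonempty ι₁] (e : ι₁ → ℕ) (ℓ : ι₂ → ℝ),
    (∀ i, 0 < e i) →
    ∃ Φ : Crd ι₁ ι₂ → ℂ, Φ ∈ SymSpanCrd ι₁ ι₂ ∧
      (∀ Δ : Crd ι₁ ι₂, HasSum (fun j : ℤ => Φ (Δ + j • c0 e ℓ)) 0) ∧
      ∀ z₁ z₂ : ι₁ → ℂ, (∀ i, z₁ i ≠ 0) → (∀ i, z₂ i ≠ 0) →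
        (∀ z : ι₁ → ℂ, (∀ i, z i = z₁ i ∨ z i = z₂ i) → ∏ i, z i ^ e i ≠ 1) →
        ftCrd Φ z₁ z₂ ≠ 0

/-- **M.2 (`ftCrd` of a pure tensor; MATHLIB + the definitions above).**
`∑_{m ∈ (ℤ²)^{ι₁}} ∏_i = ∏_i ∑_{m_i ∈ ℤ²}` for finitely supported factors
(`Finset.prod_univ_sum` on `Fintype.piFinset`), `integral_fintype_prod_volume_eq_prod`.
Model: `AS.ftCoord_pure` (helper736, `LT/T3/H736/ASTop.lean`). -/
def FtPureC : Prop :=
  ∀ (ι₁ ι₂ : Type) [Fintype ι₁] [Fintype ι₂] (A : ι₁ → ℤ × ℤ → ℂ) (β : ι₂ → ℝ × ℝ → ℂ),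
    (∀ i, (Function.support (A i)).Finite) →
    ∀ z₁ z₂ : ι₁ → ℂ,
      ftCrd (pureCrd A β) z₁ z₂
        = (∏ i, laurent (A i) (z₁ i) (z₂ i)) * ∏ w, ∫ x : ℝ × ℝ, β w x

end Crd

variable (K : Type) [Field K] [NumberField K]

/-! ## 1. Vocabulary over the number field -/

/-- The coordinate group at `S' = P ∪ S_∞`: `(ℤ²)^P × (ℝ²)^{S_∞}`. -/
abbrev CoordM (P : Finset (HeightOneSpectrum (𝓞 K))) : Type :=
  Crd P (InfinitePlace K)

/-- The coordinates `c₀` of `γ₀ = diag(α, 1)` when `(α) = ∏_{v ∈ P} 𝔭_v^{e_v}`. -/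
def coordTorM (P : Finset (HeightOneSpectrum (𝓞 K))) (e : HeightOneSpectrum (𝓞 K) → ℕ)
    (α : Kˣ) : CoordM K P :=
  c0 (fun v : P => e v) (fun w : InfinitePlace K => Real.log (w (α : K)))

/-- The pure tensor on the coordinate group for families indexed by ALL places (only the
places of `P` are used). -/
def pureCoordM (P : Finset (HeightOneSpectrum (𝓞 K)))
    (A : HeightOneSpectrum (𝓞 K) → ℤ × ℤ → ℂ) (β : InfinitePlace K → ℝ × ℝ → ℂ) :
    CoordM K P → ℂ :=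
  pureCrd (fun v : P => A v) β

/-- `ftCrd` for families of Satake parameters indexed by ALL places. -/
def ftCoordM (P : Finset (HeightOneSpectrum (𝓞 K))) (Φ : CoordM K P → ℂ)
    (z₁ z₂ : HeightOneSpectrum (𝓞 K) → ℂ) : ℂ :=
  ftCrd Φ (fun v : P => z₁ v) (fun v : P => z₂ v)

/-- The span of the symmetric pure tensors on `CoordM K P`. -/
abbrev SymSpanM (P : Finset (HeightOneSpectrum (𝓞 K))) : Submodule ℂ (CoordM K P → ℂ) :=
  SymSpanCrd P (InfinitePlace K)

/-- At every finite place `v ∉ P` the component of `h` lies in `U(𝔫)_v`. -/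
def OutsideUM (𝔫 : Ideal (𝓞 K)) (P : Finset (HeightOneSpectrum (𝓞 K))) (h : G K) : Prop :=
  ∀ v : HeightOneSpectrum (𝓞 K), v ∉ P → ∀ i j : Fin 2,
    (finComp v h - 1) i j ∈ idealClosure 𝔫 v ∧ (finComp v h⁻¹ - 1) i j ∈ idealClosure 𝔫 v

/-- `f` is supported at `P ∪ S_∞`. -/
def IsSuppAtM (𝔫 : Ideal (𝓞 K)) (P : Finset (HeightOneSpectrum (𝓞 K))) (f : G K → ℂ) : Prop :=
  ∀ h : G K, f h ≠ 0 → OutsideUM K 𝔫 P h

open Classical in
/-- THE PURE TENSOR `⊗_{v ∈ P} f₀_v ⊗ ⊗_w F_w ⊗ 1_{U^{S'}}`, `S' = P ∪ S_∞`. -/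
def pureFnM (𝔫 : Ideal (𝓞 K)) (P : Finset (HeightOneSpectrum (𝓞 K)))
    (f₀ : ∀ v : HeightOneSpectrum (𝓞 K), GL (Fin 2) (v.adicCompletion K) → ℂ)
    (F : InfinitePlace K → GL (Fin 2) ℂ → ℂ) (h : G K) : ℂ :=
  if OutsideUM K 𝔫 P h then
    (∏ v ∈ P, f₀ v (finGL K v h)) * ∏ w : InfinitePlace K, F w (infGL K w h)
  else 0

/-- The open subgroup `E₀ = {X : X_v ∈ 𝔫 𝒪_v for all finite v ∉ P}` of `𝔸_K`. -/
def outGrpM (𝔫 : Ideal (𝓞 K)) (P : Finset (HeightOneSpectrum (𝓞 K))) : Set (Adl K) :=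
  {X | ∀ v : HeightOneSpectrum (𝓞 K), v ∉ P → finHom K v X ∈ idealClosure 𝔫 v}

/-- THE MULTI-PLACE DATUM `(𝔫, P, e, a₀, α)`:
`P ≠ ∅`, `v ∤ 𝔫` and `e_v > 0` for `v ∈ P`, `(a₀) = ∏_{v ∈ P} 𝔭_v^{e_v}`, `a₀ ≡ 1 mod 𝔫`,
`α = a₀` in `Kˣ`.  (The clauses of `T7.GoodEKM`.) -/
structure FrameM (𝔫 : Ideal (𝓞 K)) (P : Finset (HeightOneSpectrum (𝓞 K)))
    (e : HeightOneSpectrum (𝓞 K) → ℕ) (a₀ : 𝓞 K) (α : Kˣ) : Prop where
  level : 𝔫 ≠ ⊥
  nonempty : P.Nonempty
  prime : ∀ v ∈ P, ¬ v.asIdeal ∣ 𝔫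
  pos : ∀ v ∈ P, 0 < e v
  span : Ideal.span {a₀} = ∏ v ∈ P, v.asIdeal ^ e v
  cong : a₀ - 1 ∈ 𝔫
  coe : (α : K) = algebraMap (𝓞 K) K a₀

/-! ## 2. The global leaves of the Abel--Satake pair -/

/-- **M.3 (regularity of the pure tensor).**  Model: `AS.PureRegC` (helper245). -/
def PureRegMC : Prop :=
  ∀ 𝔫 : Ideal (𝓞 K), 𝔫 ≠ ⊥ → ∀ P : Finset (HeightOneSpectrum (𝓞 K)),
    (∀ v ∈ P, ¬ v.asIdeal ∣ 𝔫) →
  ∀ (f₀ : ∀ v : HeightOneSpectrum (𝓞 K), GL (Fin 2) (v.adicCompletion K) → ℂ)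
    (F : InfinitePlace K → GL (Fin 2) ℂ → ℂ),
    (∀ v ∈ P, IsBiIntInv v (f₀ v)) →
    (∀ v ∈ P, ∃ R : Finset (GL (Fin 2) (v.adicCompletion K)), IsRepSys v (f₀ v) R) →
    (∀ w, IsCplxTest (F w)) →
    Continuous (pureFnM K 𝔫 P f₀ F) ∧ HasCompactSupport (pureFnM K 𝔫 P f₀ F) ∧
      IsBiInv K 𝔫 (pureFnM K 𝔫 P f₀ F) ∧ IsSuppAtM K 𝔫 P (pureFnM K 𝔫 P f₀ F)

/-- **AS.4 in the multi-place form (NODE; top `nIntM_of` in `M/Top.lean`).**
`∫_{𝔸_K} f(g⁻¹ n(x) γ₀ʲ g') dν(x) = κ(g,g') Φ(Δ(g,g') + j c₀)` for the pure tensors, `κ` and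
`Δ` independent of the pure tensor. -/
def NIntMC : Prop :=
  letI : MeasurableSpace (Adl K) := borel (Adl K)
  (∀ w : InfinitePlace K, w.IsComplex) →
  ∀ ν : Measure (Adl K), ν.IsAddHaarMeasure →
  ∀ (𝔫 : Ideal (𝓞 K)) (P : Finset (HeightOneSpectrum (𝓞 K)))
    (e : HeightOneSpectrum (𝓞 K) → ℕ) (a₀ : 𝓞 K) (α : Kˣ), FrameM K 𝔫 P e a₀ α →
    ∃ (κ : G K → G K → ℂ) (Δ : G K → G K → CoordM K P),
      ∀ (A : HeightOneSpectrum (𝓞 K) → ℤ × ℤ → ℂ) (β : InfinitePlace K → ℝ × ℝ → ℂ)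
        (f₀ : ∀ v : HeightOneSpectrum (𝓞 K), GL (Fin 2) (v.adicCompletion K) → ℂ)
        (F : InfinitePlace K → GL (Fin 2) ℂ → ℂ),
        (∀ v ∈ P, IsBiIntInv v (f₀ v)) →
        (∀ v ∈ P, ∃ R : Finset (GL (Fin 2) (v.adicCompletion K)), IsRepSys v (f₀ v) R) →
        (∀ v ∈ P, HasSatakeN v (f₀ v) (A v)) →
        (∀ w, IsCplxTest (F w)) → (∀ w, HasAbelN (F w) (β w)) →
        ∀ (g g' : G K) (j : ℤ),
          Integrable (fun x => pureFnM K 𝔫 P f₀ F (g⁻¹ * unip K x * torK K α ^ j * g')) ν ∧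
          ∫ x, pureFnM K 𝔫 P f₀ F (g⁻¹ * unip K x * torK K α ^ j * g') ∂ν
            = κ g g' * pureCoordM K P A β (Δ g g' + j • coordTorM K P e α)

/-- **M.4 (the operator of a pure tensor).**  Model: `AS.ROpC` (helper57): the coset sums at the
places of `P` one after the other (`HasSatakeEigen` at each `v ∈ P`), then the infinite
places. -/
def ROpMC : Prop :=
  letI : MeasurableSpace (G K) := borel (G K)
  letI : MeasurableSpace (GL (Fin 2) ℂ) := borel (GL (Fin 2) ℂ)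
  (∀ w : InfinitePlace K, w.IsComplex) →
  ∀ μ : Measure (G K), μ.IsHaarMeasure →
  ∀ μc : Measure (GL (Fin 2) ℂ), μc.IsHaarMeasure →
  ∀ 𝔫 : Ideal (𝓞 K), 𝔫 ≠ ⊥ → ∀ P : Finset (HeightOneSpectrum (𝓞 K)),
    (∀ v ∈ P, ¬ v.asIdeal ∣ 𝔫) →
    ∃ κ₁ : ℂ, κ₁ ≠ 0 ∧
      ∀ (A : HeightOneSpectrum (𝓞 K) → ℤ × ℤ → ℂ) (C : InfinitePlace K → ℂ)
        (f₀ : ∀ v : HeightOneSpectrum (𝓞 K), GL (Fin 2) (v.adicCompletion K) → ℂ)
        (F : InfinitePlace K → GL (Fin 2) ℂ → ℂ),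
        (∀ v ∈ P, IsBiIntInv v (f₀ v)) →
        (∀ v ∈ P, ∃ R : Finset (GL (Fin 2) (v.adicCompletion K)), IsRepSys v (f₀ v) R) →
        (∀ v ∈ P, HasSatakeEigen v (f₀ v) (A v)) →
        (∀ w, IsCplxTest (F w)) → (∀ w, ActsBy μc (F w) (C w)) →
        ∀ φ : G K → ℂ, IsSph0Level K 𝔫 φ →
        ∀ a b z₁ z₂ : HeightOneSpectrum (𝓞 K) → ℂ,
          (∀ v ∈ P, IsHeckeEigenAt φ v (a v) (b v)) →
          (∀ v ∈ P, z₁ v + z₂ v = a v) → (∀ v ∈ P, z₁ v * z₂ v = b v) → (∀ v ∈ P, b v ≠ 0) →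
          ∀ g : G K, Rop K μ (pureFnM K 𝔫 P f₀ F) φ g
            = κ₁ * (∏ v ∈ P, laurent (A v) (z₁ v) (z₂ v)) * (∏ w : InfinitePlace K, C w) * φ g

/-! ## 3. The sub-leaves of `NIntMC` (the cut of helper893, multi-place) -/

open Classical in
/-- **M.5 = N.2 multi (the pure tensor on `K⁰ B K⁰`).**  Model: `N893.PureUpperC`
(helper846). -/
def PureUpperMC : Prop :=
  ∀ (𝔫 : Ideal (𝓞 K)) (P : Finset (HeightOneSpectrum (𝓞 K)))
    (f₀ : ∀ v : HeightOneSpectrum (𝓞 K), GL (Fin 2) (v.adicCompletion K) → ℂ)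
    (F : InfinitePlace K → GL (Fin 2) ℂ → ℂ),
    (∀ v ∈ P, IsBiIntInv v (f₀ v)) → (∀ w, IsCplxTest (F w)) →
    ∀ (k₁ k' : G K), T1.IsStdCompact K k₁ → T1.IsStdCompact K k' →
    ∀ (c₁ c₂ : (Adl K)ˣ) (X : Adl K),
      pureFnM K 𝔫 P f₀ F (k₁ * upperGL c₁ c₂ X * k')
        = (if OutsideUM K 𝔫 P (k₁ * upperGL c₁ c₂ X * k') then (1 : ℂ) else 0)
          * (∏ v ∈ P, f₀ v (upperGL (finU K v c₁) (finU K v c₂) (finHom K v X)))
          * ∏ w : InfinitePlace K, F w (upperGL (infU K w c₁) (infU K w c₂) (infHom K w X))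

/-- **M.6 = N.3 multi (the condition outside `S'`).**  Model: `N893.OutsideCosetC`
(helper922): `α` is a unit at every `v ∉ P` and `α ≡ 1 mod 𝔫`. -/
def OutsideCosetMC : Prop :=
  ∀ (𝔫 : Ideal (𝓞 K)) (P : Finset (HeightOneSpectrum (𝓞 K)))
    (e : HeightOneSpectrum (𝓞 K) → ℕ) (a₀ : 𝓞 K) (α : Kˣ), FrameM K 𝔫 P e a₀ α →
    ∀ (k₁ k' : G K), T1.IsStdCompact K k₁ → T1.IsStdCompact K k' →
    ∀ (c₁ c₂ : (Adl K)ˣ) (j j' : ℤ) (X X' : Adl K),
      OutsideUM K 𝔫 P (k₁ * upperGL (c₁ * T1.ratUnit K α ^ j) c₂ X * k') →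
      (OutsideUM K 𝔫 P (k₁ * upperGL (c₁ * T1.ratUnit K α ^ j') c₂ X' * k')
        ↔ X' - X ∈ outGrpM K 𝔫 P)

/-- **M.7 = N.5 multi (splitting of the Haar measure at `S' = P ∪ S_∞`).**  Model:
`N893.SplitC` (helper129).  `E₀ = ∏_w K_w × ∏_{v ∈ P} K_v × ∏_{v ∉ P} 𝔫 𝒪_v`; the image of
`ν|_{E₀}` under `X ↦ ((X_v)_{v ∈ P}, (X_w)_w)` is a Haar measure of `∏_{v ∈ P} K_v × ∏_w ℂ`. -/
def SplitMC : Prop :=
  letI : MeasurableSpace (Adl K) := borel (Adl K)
  (∀ w : InfinitePlace K, w.IsComplex) →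
  ∀ ν : Measure (Adl K), ν.IsAddHaarMeasure →
  ∀ 𝔫 : Ideal (𝓞 K), 𝔫 ≠ ⊥ → ∀ P : Finset (HeightOneSpectrum (𝓞 K)),
    ∃ ν₀ : ∀ v : HeightOneSpectrum (𝓞 K),
        @Measure (v.adicCompletion K) (borel (v.adicCompletion K)),
      (∀ v : HeightOneSpectrum (𝓞 K),
        @Measure.IsAddHaarMeasure (v.adicCompletion K) _ _ (borel (v.adicCompletion K))
          (ν₀ v)) ∧
      ∃ c₀ : ℂ,
      ∀ (φ₀ : ∀ v : HeightOneSpectrum (𝓞 K), v.adicCompletion K → ℂ)
        (φ : InfinitePlace K → ℂ → ℂ),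
        (∀ v ∈ P, Continuous (φ₀ v)) → (∀ v ∈ P, HasCompactSupport (φ₀ v)) →
        (∀ w, Continuous (φ w)) → (∀ w, HasCompactSupport (φ w)) →
        Integrable (fun X : Adl K => (outGrpM K 𝔫 P).indicator (fun _ => (1 : ℂ)) X
          * (∏ v ∈ P, φ₀ v (finHom K v X)) * ∏ w : InfinitePlace K, φ w (infHom K w X)) ν ∧
        ∫ X, (outGrpM K 𝔫 P).indicator (fun _ => (1 : ℂ)) X
            * (∏ v ∈ P, φ₀ v (finHom K v X)) * ∏ w : InfinitePlace K, φ w (infHom K w X) ∂ν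
          = c₀ * (∏ v ∈ P, ∫ x, φ₀ v x ∂(ν₀ v)) * ∏ w : InfinitePlace K, ∫ z : ℂ, φ w z

/-- **M.8 = N.6 multi (the local `N`-integral at `v ∈ P`).**  Model: `N893.LocValFinC`
(helper848) with `ordv_v α = e_v`. -/
def LocValFinMC : Prop :=
  ∀ (𝔫 : Ideal (𝓞 K)) (P : Finset (HeightOneSpectrum (𝓞 K)))
    (e : HeightOneSpectrum (𝓞 K) → ℕ) (a₀ : 𝓞 K) (α : Kˣ), FrameM K 𝔫 P e a₀ α →
    ∀ v ∈ P,
    ∀ ν₀ : @Measure (v.adicCompletion K) (borel (v.adicCompletion K)),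
      @Measure.IsAddHaarMeasure (v.adicCompletion K) _ _ (borel (v.adicCompletion K)) ν₀ →
    ∀ (f₀ : GL (Fin 2) (v.adicCompletion K) → ℂ) (A : ℤ × ℤ → ℂ),
      IsBiIntInv v f₀ → (∃ R : Finset (GL (Fin 2) (v.adicCompletion K)), IsRepSys v f₀ R) →
      HasSatakeN v f₀ A →
      ∀ (c₁ c₂ : (Adl K)ˣ) (j : ℤ) (t : v.adicCompletion K),
        Continuous (fun x : v.adicCompletion K =>
          f₀ (upperGL (finU K v (c₁ * T1.ratUnit K α ^ j)) (finU K v c₂) (x + t))) ∧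
        HasCompactSupport (fun x : v.adicCompletion K =>
          f₀ (upperGL (finU K v (c₁ * T1.ratUnit K α ^ j)) (finU K v c₂) (x + t))) ∧
        ∫ x, f₀ (upperGL (finU K v (c₁ * T1.ratUnit K α ^ j)) (finU K v c₂) (x + t)) ∂ν₀
          = ((ν₀ (v.adicCompletionIntegers K : Set (v.adicCompletion K))).toReal : ℂ)
            * (((Ideal.absNorm v.asIdeal : ℝ) ^
                (-(((ordA K v c₁ + ordA K v c₂ : ℤ) : ℝ)) / 2) : ℝ) : ℂ)
            * ((((Ideal.absNorm v.asIdeal : ℝ) ^ (-(e v : ℝ) / 2)) ^ j : ℝ) : ℂ)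
            * A (ordA K v c₁ + j * e v, ordA K v c₂)

/-- **M.9 = N.8 multi (product formula).**  `∏_w (w α)² = |N_{K/ℚ} α| = ∏_{v ∈ P} N(𝔭_v)^{e_v}`
for a totally complex field.  Model: `N893.ProdFormC` (helper915). -/
def ProdFormMC : Prop :=
  (∀ w : InfinitePlace K, w.IsComplex) →
  ∀ (𝔫 : Ideal (𝓞 K)) (P : Finset (HeightOneSpectrum (𝓞 K)))
    (e : HeightOneSpectrum (𝓞 K) → ℕ) (a₀ : 𝓞 K) (α : Kˣ), FrameM K 𝔫 P e a₀ α →
    (∏ v ∈ P, (Ideal.absNorm v.asIdeal : ℝ) ^ (-(e v : ℝ) / 2))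
      * ∏ w : InfinitePlace K, w (α : K) = 1

/-! ## 4. The nodes and the output -/

/-- **T3.18a, multi-place, smooth form** (NODE; top `abelSatakeSmoothM_of`). -/
def AbelSatakeSmoothMC : Prop :=
  letI : MeasurableSpace (Adl K) := borel (Adl K)
  letI : MeasurableSpace (G K) := borel (G K)
  (∀ w : InfinitePlace K, w.IsComplex) →
  ∀ μ : Measure (G K), μ.IsHaarMeasure → ∀ ν : Measure (Adl K), ν.IsAddHaarMeasure →
  ∀ (𝔫 : Ideal (𝓞 K)) (P : Finset (HeightOneSpectrum (𝓞 K)))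
    (e : HeightOneSpectrum (𝓞 K) → ℕ) (a₀ : 𝓞 K) (α : Kˣ), FrameM K 𝔫 P e a₀ α →
    ∃ (κ : G K → G K → ℂ) (Δ : G K → G K → CoordM K P) (κ₀ : ℂ), κ₀ ≠ 0 ∧
      ∀ Φ : CoordM K P → ℂ, Φ ∈ SymSpanM K P →
        ∃ f : G K → ℂ, Continuous f ∧ HasCompactSupport f ∧
          IsBiInv K 𝔫 f ∧ IsSuppAtM K 𝔫 P f ∧ IsSmoothInf K f ∧
          (∀ (g g' : G K) (j : ℤ),
            ∫ x, f (g⁻¹ * unip K x * torK K α ^ j * g') ∂ν
              = κ g g' * Φ (Δ g g' + j • coordTorM K P e α)) ∧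
          ∀ φ : G K → ℂ, IsSph0Level K 𝔫 φ →
          ∀ a b z₁ z₂ : HeightOneSpectrum (𝓞 K) → ℂ,
            (∀ v ∈ P, IsHeckeEigenAt φ v (a v) (b v)) →
            (∀ v ∈ P, z₁ v + z₂ v = a v) → (∀ v ∈ P, z₁ v * z₂ v = b v) →
            (∀ v ∈ P, b v ≠ 0) →
            ∀ g : G K, Rop K μ f φ g = κ₀ * ftCoordM K P Φ z₁ z₂ * φ g

/-- The non-vanishing criterion, VERBATIM the last clause of `T7.GoodEKM`: for every choice of
roots `z_v` of `X² - a_v X + b_v` (`v ∈ P`): `∏_{v ∈ P} z_v^{e_v} ≠ 1`. -/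
def GoodParamM (P : Finset (HeightOneSpectrum (𝓞 K))) (e : HeightOneSpectrum (𝓞 K) → ℕ)
    (a b : HeightOneSpectrum (𝓞 K) → ℂ) : Prop :=
  ∀ z : HeightOneSpectrum (𝓞 K) → ℂ,
    (∀ v ∈ P, z v ^ 2 - a v * z v + b v = 0) → ∏ v ∈ P, z v ^ e v ≠ 1

/-- **T3.18, multi-place, integral form, smooth** (NODE; top `ekExistSmoothM_of`). -/
def EKExistSmoothMC : Prop :=
  letI : MeasurableSpace (Adl K) := borel (Adl K)
  letI : MeasurableSpace (G K) := borel (G K)
  (∀ w : InfinitePlace K, w.IsComplex) →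
  ∀ μ : Measure (G K), μ.IsHaarMeasure → ∀ ν : Measure (Adl K), ν.IsAddHaarMeasure →
  ∀ (𝔫 : Ideal (𝓞 K)) (P : Finset (HeightOneSpectrum (𝓞 K)))
    (e : HeightOneSpectrum (𝓞 K) → ℕ) (a₀ : 𝓞 K) (α : Kˣ), FrameM K 𝔫 P e a₀ α →
    ∃ f : G K → ℂ, Continuous f ∧ HasCompactSupport f ∧ IsSmoothInf K f ∧ IsEK K ν f α ∧
      IsBiInv K 𝔫 f ∧ IsSuppAtM K 𝔫 P f ∧
      ∃ c : (HeightOneSpectrum (𝓞 K) → ℂ) → (HeightOneSpectrum (𝓞 K) → ℂ) → ℂ,
        (∀ a b : HeightOneSpectrum (𝓞 K) → ℂ, GoodParamM K P e a b → c a b ≠ 0) ∧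
        ∀ φ : G K → ℂ, IsSph0Level K 𝔫 φ → ∀ a b : HeightOneSpectrum (𝓞 K) → ℂ,
          (∀ v ∈ P, IsHeckeEigenAt φ v (a v) (b v)) →
          ∀ g : G K, Rop K μ f φ g = c a b * φ g

/-- **THE OUTPUT of station T3.18M: existence in operator form, smooth** (consumed by T5 / T7;
`M/Top.lean` gives it in the vocabulary of T5: `exists_testFn_T5_M`).
`K` totally complex, `(𝔫, P, e, a₀)` as in `T7.GoodEKM`: there is `f`, continuous, of compact
support, smooth at infinity, bi-invariant under `U(𝔫) K_∞`, supported at `P ∪ S_∞`, such that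
`R(f)` and `R(f^*)` kill every `IsBorelInv` function and `R(f) φ = c(a,b) φ` for every `φ`
spherical of parameter `0` of level `𝔫`, Hecke-eigen at every `v ∈ P` with eigenvalues
`(a_v, b_v)`; `c(a,b) ≠ 0` under `GoodParamM`. -/
def EKOpExistSmoothMC : Prop :=
  letI : MeasurableSpace (G K) := borel (G K)
  (∀ w : InfinitePlace K, w.IsComplex) →
  ∀ μ : Measure (G K), μ.IsHaarMeasure →
  ∀ (𝔫 : Ideal (𝓞 K)) (P : Finset (HeightOneSpectrum (𝓞 K)))
    (e : HeightOneSpectrum (𝓞 K) → ℕ) (a₀ : 𝓞 K),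
    𝔫 ≠ ⊥ → P.Nonempty → (∀ v ∈ P, ¬ v.asIdeal ∣ 𝔫 ∧ 0 < e v) →
    Ideal.span {a₀} = ∏ v ∈ P, v.asIdeal ^ e v → a₀ - 1 ∈ 𝔫 →
    ∃ f : G K → ℂ, Continuous f ∧ HasCompactSupport f ∧ IsSmoothInf K f ∧
      IsEKop K μ f ∧ IsEKop K μ (starG K f) ∧
      IsBiInv K 𝔫 f ∧ IsSuppAtM K 𝔫 P f ∧
      ∃ c : (HeightOneSpectrum (𝓞 K) → ℂ) → (HeightOneSpectrum (𝓞 K) → ℂ) → ℂ,
        (∀ a b : HeightOneSpectrum (𝓞 K) → ℂ, GoodParamM K P e a b → c a b ≠ 0) ∧
        ∀ φ : G K → ℂ, IsSph0Level K 𝔫 φ → ∀ a b : HeightOneSpectrum (𝓞 K) → ℂ,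
          (∀ v ∈ P, IsHeckeEigenAt φ v (a v) (b v)) →
          ∀ g : G K, Rop K μ f φ g = c a b * φ g

/-- The leaves of the station which depend on the number field. -/
structure LeavesM : Prop where
  pureReg : PureRegMC K
  rOp : ROpMC K
  pureUpper : PureUpperMC K
  outsideCoset : OutsideCosetMC K
  split : SplitMC K
  locValFin : LocValFinMC K
  prodForm : ProdFormMC K

end Fermat.Agent.LT.T3.M

end

end
-- ===== PACK-END LT/T3/M/Spec.lean

-- ===== PACK-BEGIN LT/T3/M/GenSpec.lean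
section


/-!
# Row LT, tower T3, station T3.18M (architect helper14): GENERAL ARCHIMEDEAN PARAMETER

OFF-MAIN.  Definitions and frozen Props only (tops: `M/GenTop.lean`).  No hole, nothing assumed.
ADDITIVE (new names only); `M/Spec.lean` (sha256 bf15afa4) is unchanged.

## Why (request of helper797, `T7/Level2.lean`, clause `op_up` of `IsL2Data`, note #17385)

The spectral side of the trace identity runs over ALL cusp functions of the level, with
arbitrary eigenvalue functions `m_w` of the sphere means at the infinite places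
(`T7.MeanEig ψ w (C.m w)`), not only over the functions of parameter `0`.  The Eisenstein-killing
test function must act on every such joint eigenfunction by a scalar `c(a, b, m)`; the
non-vanishing is needed only when `m_w(d) = 4π d / sinh d` for `d > 0` (the class of `Φ`).

## The two new leaves

| leaf | Prop | model (closed) |
|---|---|---|
| G.1 | `MeanActsC` (MATHLIB + ASSpec; `GL₂(ℂ)` only) | `H315.AvgC` = K-average (helper694 `AvgCore`, helper203 `Cartan`, helper572 `UnitaryHaar`) |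
| G.2 | `ROpMeanMC K` | `AS.ROpC` (helper57) / `M.ROpMC` |

`ROpMC K` (M.4) is the case `m = sphM` of `ROpMeanMC K`: `rOpM_of_mean` in `M/GenTop.lean`.
-/

set_option autoImplicit false
set_option linter.style.haveILetI false

open IsDedekindDomain NumberField MeasureTheory
open Fermat.Agent.LT.H556.A0

noncomputable section

namespace Fermat.Agent.LT.T3.M

open Fermat.Agent.LT.T3.AS

/-! ## 1. The complex place -/

/-- The eigenvalue function of the sphere means on the functions of parameter `0`: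
`d ↦ 4π d / sinh d` (`= T7.sph0`, the constant of `A0.MeanValueComplex`). -/
def sphM : ℝ → ℂ := fun d => ((4 * Real.pi * (d / Real.sinh d) : ℝ) : ℂ)

/-- A function on `GL₂(ℂ)`: continuous, right invariant under `U(2)` and under the positive
scalars, eigenfunction of the sphere means with eigenvalue function `m`
(`AS.IsLocSph0` is the case `m = sphM`). -/
structure IsLocMean (m : ℝ → ℂ) (Ψ : GL (Fin 2) ℂ → ℂ) : Prop where
  cont : Continuous Ψ
  unitary : ∀ k y : GL (Fin 2) ℂ, IsUnitary2 k → Ψ (y * k) = Ψ y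
  scalar : ∀ (z : GL (Fin 2) ℂ) (r : ℝ), 0 < r →
    (z : Matrix (Fin 2) (Fin 2) ℂ) = Matrix.diagonal (fun _ => (r : ℂ)) →
    ∀ y : GL (Fin 2) ℂ, Ψ (y * z) = Ψ y
  mean : ∀ d : ℝ, 0 < d → ∀ Y : ℝ → ℝ → GL (Fin 2) ℂ,
    (∀ α β : ℝ, ((Y α β : GL (Fin 2) ℂ) : Matrix (Fin 2) (Fin 2) ℂ)
      = rotZ α * rotY β * torus d) →
    ∀ y : GL (Fin 2) ℂ,
      (∫ α in (0 : ℝ)..(2 * Real.pi), ∫ β in (0 : ℝ)..Real.pi,
          Ψ (y * Y α β) * ((Real.sin β : ℝ) : ℂ))
        = m d * Ψ y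

/-- `R(F)` acts on the eigenfunctions of the sphere means with eigenvalue function `m` by the
scalar `C`. -/
def ActsByMean {mc : MeasurableSpace (GL (Fin 2) ℂ)} (μc : Measure (GL (Fin 2) ℂ))
    (F : GL (Fin 2) ℂ → ℂ) (m : ℝ → ℂ) (C : ℂ) : Prop :=
  ∀ Ψ : GL (Fin 2) ℂ → ℂ, IsLocMean m Ψ → ∀ y : GL (Fin 2) ℂ,
    ∫ h, Ψ (y * h) * F h ∂μc = C * Ψ y

/-- **G.1 (complex place; K-average), MATHLIB + ASSpec.**  A continuous bi-`U(2)`-invariant
function of compact support acts on the eigenfunctions of the sphere means by a scalar.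
Proof (the K-average of helper694, `H315.AvgC`, with `m(d) / 4π` in place of `d / sinh d`):
`∫ Ψ(y h) F(h) dμ = ∫ A_{Ψ,y}(h) F(h) dμ`, `A_{Ψ,y}(h) = ∫_{U(2)} Ψ(y k h) dk`
(left invariance of `μ`, `F(k h) = F(h)`, Fubini with the Haar probability measure of `U(2)`:
`H315.UnitaryHaarC`, closed by helper572); Cartan `h = k₁ torus(d) z k₂` (`H315.CartanC`, closed by
helper203): `A_{Ψ,y}(h) = φ(h) Ψ(y)` with `φ(h) = m(d) / 4π` (`d > 0`), `= 1` (`d = 0`),
INDEPENDENT of `Ψ, y`.  If every `Ψ` of the class vanishes, `C = 0`; otherwise take `Ψ₀(y₀) ≠ 0`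
and `C = (∫ Ψ₀(y₀ h) F(h) dμ) / Ψ₀(y₀)`: then `A_{Ψ,y} = A_{Ψ₀,y₀} Ψ(y) / Ψ₀(y₀)` pointwise
(NO measurability of `m` is needed). -/
def MeanActsC : Prop :=
  letI : MeasurableSpace (GL (Fin 2) ℂ) := borel (GL (Fin 2) ℂ)
  ∀ μc : Measure (GL (Fin 2) ℂ), μc.IsHaarMeasure →
  ∀ F : GL (Fin 2) ℂ → ℂ, IsCplxTest F → ∀ m : ℝ → ℂ, ∃ C : ℂ, ActsByMean μc F m C

variable (K : Type) [Field K] [NumberField K]

/-! ## 2. The global class -/

/-- `φ` is an eigenfunction of the sphere means at the place `w` with eigenvalue function `m`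
(`= T7.MeanEig`, verbatim; `A0.MeanValueComplex` is the case `m = sphM`). -/
def MeanEigM (φ : G K → ℂ) (w : InfinitePlace K) (m : ℝ → ℂ) : Prop :=
  ∀ d : ℝ, 0 < d → ∀ Y : ℝ → ℝ → G K,
    (∀ α β : ℝ, IsLocalAtInf w (Y α β) ∧ infComp w (Y α β) = rotZ α * rotY β * torus d) →
    ∀ g : G K,
      (∫ α in (0 : ℝ)..(2 * Real.pi), ∫ β in (0 : ℝ)..Real.pi,
          φ (g * Y α β) * ((Real.sin β : ℝ) : ℂ)) = m d * φ g

/-- `φ` is continuous, right invariant under `U(𝔫)`, under the positive scalars and the maximal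
compact subgroups at infinity, and a joint eigenfunction of the sphere means with eigenvalue
functions `m_w` (`T3.IsSph0Level` is the case `m_w = sphM`, `K` totally complex). -/
structure IsMeanLevel (𝔫 : Ideal (𝓞 K)) (m : InfinitePlace K → ℝ → ℂ) (φ : G K → ℂ) :
    Prop where
  cont : Continuous φ
  level_inv : ∀ u : G K, InLevelGroup 𝔫 u → ∀ g : G K, φ (g * u) = φ g
  arch_scalar : ∀ (w : InfinitePlace K) (z : G K), IsArchPosScalar w z →
    ∀ g : G K, φ (g * z) = φ g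
  arch_compact : ∀ (w : InfinitePlace K) (k : G K), IsArchCompact w k →
    ∀ g : G K, φ (g * k) = φ g
  mean : ∀ w : InfinitePlace K, MeanEigM K φ w (m w)

/-- `m` is the eigenvalue function of parameter `0` at the positive radii. -/
def IsSph0Param (m : InfinitePlace K → ℝ → ℂ) : Prop :=
  ∀ (w : InfinitePlace K) (d : ℝ), 0 < d → m w d = sphM d

/-- **G.2 (the operator of a pure tensor on the joint eigenfunctions).**  As `ROpMC`, with
`ActsByMean` and `IsMeanLevel` in place of `ActsBy` and `IsSph0Level`.  Model: `AS.ROpC`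
(helper57): the local function `y ↦ φ(g ŷ)` at the infinite place `w` is `IsLocMean (m w)`. -/
def ROpMeanMC : Prop :=
  letI : MeasurableSpace (G K) := borel (G K)
  letI : MeasurableSpace (GL (Fin 2) ℂ) := borel (GL (Fin 2) ℂ)
  (∀ w : InfinitePlace K, w.IsComplex) →
  ∀ μ : Measure (G K), μ.IsHaarMeasure →
  ∀ μc : Measure (GL (Fin 2) ℂ), μc.IsHaarMeasure →
  ∀ 𝔫 : Ideal (𝓞 K), 𝔫 ≠ ⊥ → ∀ P : Finset (HeightOneSpectrum (𝓞 K)),
    (∀ v ∈ P, ¬ v.asIdeal ∣ 𝔫) →
    ∃ κ₁ : ℂ, κ₁ ≠ 0 ∧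
      ∀ (A : HeightOneSpectrum (𝓞 K) → ℤ × ℤ → ℂ) (C : InfinitePlace K → ℂ)
        (m : InfinitePlace K → ℝ → ℂ)
        (f₀ : ∀ v : HeightOneSpectrum (𝓞 K), GL (Fin 2) (v.adicCompletion K) → ℂ)
        (F : InfinitePlace K → GL (Fin 2) ℂ → ℂ),
        (∀ v ∈ P, IsBiIntInv v (f₀ v)) →
        (∀ v ∈ P, ∃ R : Finset (GL (Fin 2) (v.adicCompletion K)), IsRepSys v (f₀ v) R) →
        (∀ v ∈ P, HasSatakeEigen v (f₀ v) (A v)) →
        (∀ w, IsCplxTest (F w)) → (∀ w, ActsByMean μc (F w) (m w) (C w)) →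
        ∀ φ : G K → ℂ, IsMeanLevel K 𝔫 m φ →
        ∀ a b z₁ z₂ : HeightOneSpectrum (𝓞 K) → ℂ,
          (∀ v ∈ P, IsHeckeEigenAt φ v (a v) (b v)) →
          (∀ v ∈ P, z₁ v + z₂ v = a v) → (∀ v ∈ P, z₁ v * z₂ v = b v) → (∀ v ∈ P, b v ≠ 0) →
          ∀ g : G K, Rop K μ (pureFnM K 𝔫 P f₀ F) φ g
            = κ₁ * (∏ v ∈ P, laurent (A v) (z₁ v) (z₂ v)) * (∏ w : InfinitePlace K, C w) * φ g

/-! ## 3. The nodes and the output -/

/-- **T3.18a, multi-place, smooth, general archimedean parameter** (NODE; top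
`abelSatakeGenM_of`).  As `AbelSatakeSmoothMC`, and in addition `R(f)` acts on every joint
eigenfunction by a scalar `c(z₁, z₂, m)`, with `c = κ₀ Φ^(z₁, z₂)` when `m` is of parameter `0`. -/
def AbelSatakeGenMC : Prop :=
  letI : MeasurableSpace (Adl K) := borel (Adl K)
  letI : MeasurableSpace (G K) := borel (G K)
  (∀ w : InfinitePlace K, w.IsComplex) →
  ∀ μ : Measure (G K), μ.IsHaarMeasure → ∀ ν : Measure (Adl K), ν.IsAddHaarMeasure →
  ∀ (𝔫 : Ideal (𝓞 K)) (P : Finset (HeightOneSpectrum (𝓞 K)))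
    (e : HeightOneSpectrum (𝓞 K) → ℕ) (a₀ : 𝓞 K) (α : Kˣ), FrameM K 𝔫 P e a₀ α →
    ∃ (κ : G K → G K → ℂ) (Δ : G K → G K → CoordM K P) (κ₀ : ℂ), κ₀ ≠ 0 ∧
      ∀ Φ : CoordM K P → ℂ, Φ ∈ SymSpanM K P →
        ∃ f : G K → ℂ, Continuous f ∧ HasCompactSupport f ∧
          IsBiInv K 𝔫 f ∧ IsSuppAtM K 𝔫 P f ∧ IsSmoothInf K f ∧
          (∀ (g g' : G K) (j : ℤ),
            ∫ x, f (g⁻¹ * unip K x * torK K α ^ j * g') ∂ν
              = κ g g' * Φ (Δ g g' + j • coordTorM K P e α)) ∧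
          ∃ c : (HeightOneSpectrum (𝓞 K) → ℂ) → (HeightOneSpectrum (𝓞 K) → ℂ) →
              (InfinitePlace K → ℝ → ℂ) → ℂ,
            (∀ (z₁ z₂ : HeightOneSpectrum (𝓞 K) → ℂ) (m : InfinitePlace K → ℝ → ℂ),
              IsSph0Param K m → c z₁ z₂ m = κ₀ * ftCoordM K P Φ z₁ z₂) ∧
            ∀ (φ : G K → ℂ) (m : InfinitePlace K → ℝ → ℂ), IsMeanLevel K 𝔫 m φ →
            ∀ a b z₁ z₂ : HeightOneSpectrum (𝓞 K) → ℂ,
              (∀ v ∈ P, IsHeckeEigenAt φ v (a v) (b v)) →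
              (∀ v ∈ P, z₁ v + z₂ v = a v) → (∀ v ∈ P, z₁ v * z₂ v = b v) →
              (∀ v ∈ P, b v ≠ 0) →
              ∀ g : G K, Rop K μ f φ g = c z₁ z₂ m * φ g

/-- **THE OUTPUT of station T3.18M for the Supply node of T7** (operator form, smooth, general
archimedean parameter).  As `EKOpExistSmoothMC`; `R(f) φ = c(a, b, m) φ` for EVERY joint
eigenfunction `φ` (`IsMeanLevel`, Hecke-eigen at every `v ∈ P`), and `c(a, b, m) ≠ 0` when
`GoodParamM` holds and `m` is of parameter `0` at the positive radii. -/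
def EKOpExistGenMC : Prop :=
  letI : MeasurableSpace (G K) := borel (G K)
  (∀ w : InfinitePlace K, w.IsComplex) →
  ∀ μ : Measure (G K), μ.IsHaarMeasure →
  ∀ (𝔫 : Ideal (𝓞 K)) (P : Finset (HeightOneSpectrum (𝓞 K)))
    (e : HeightOneSpectrum (𝓞 K) → ℕ) (a₀ : 𝓞 K),
    𝔫 ≠ ⊥ → P.Nonempty → (∀ v ∈ P, ¬ v.asIdeal ∣ 𝔫 ∧ 0 < e v) →
    Ideal.span {a₀} = ∏ v ∈ P, v.asIdeal ^ e v → a₀ - 1 ∈ 𝔫 →
    ∃ f : G K → ℂ, Continuous f ∧ HasCompactSupport f ∧ IsSmoothInf K f ∧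
      IsEKop K μ f ∧ IsEKop K μ (starG K f) ∧
      IsBiInv K 𝔫 f ∧ IsSuppAtM K 𝔫 P f ∧
      ∃ c : (HeightOneSpectrum (𝓞 K) → ℂ) → (HeightOneSpectrum (𝓞 K) → ℂ) →
          (InfinitePlace K → ℝ → ℂ) → ℂ,
        (∀ (a b : HeightOneSpectrum (𝓞 K) → ℂ) (m : InfinitePlace K → ℝ → ℂ),
          GoodParamM K P e a b → IsSph0Param K m → c a b m ≠ 0) ∧
        ∀ (φ : G K → ℂ) (m : InfinitePlace K → ℝ → ℂ), IsMeanLevel K 𝔫 m φ →
        ∀ a b : HeightOneSpectrum (𝓞 K) → ℂ,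
          (∀ v ∈ P, IsHeckeEigenAt φ v (a v) (b v)) →
          ∀ g : G K, Rop K μ f φ g = c a b m * φ g

end Fermat.Agent.LT.T3.M

end

end
-- ===== PACK-END LT/T3/M/GenSpec.lean

-- ===== PACK-BEGIN LT/T3/M/Top.lean
section



/-!
# Row LT, tower T3, station T3.18M (architect helper14): THE PROVED TOPS (Abel--Satake level)

OFF-MAIN.  Complete proofs, nothing assumed.

* `abelSatakeSmoothM_of : AS.SatakeLocC K → AS.AbelCplxSmoothC → FtPureC → PureRegMC K →
  NIntMC K → ROpMC K → AbelSatakeSmoothMC K`   (the top of helper736 with `P` in place of `v₀`);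
* `ekExistSmoothM_of : AbelSatakeSmoothMC K → EKCoreC → InScalarUnifC K → EKExistSmoothMC K`
  (the proof of helper732 with `P` in place of `v₀`);
* `ekOpExistSmoothM_of : EKKillC K → EKStarC K → EKExistSmoothMC K → InAddHaarC K →
  EKOpExistSmoothMC K`.
-/

set_option autoImplicit false
set_option linter.style.haveILetI false

open IsDedekindDomain NumberField MeasureTheory
open Fermat.Agent.LT.H556.A0

noncomputable section

namespace Fermat.Agent.LT.T3.M

open Fermat.Agent.LT.T3.AS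

/-! ## 0. Linearity of `ftCrd` -/

section Crd

variable {ι₁ ι₂ : Type} [Fintype ι₁] [Fintype ι₂]

theorem ftCrd_summand_finite {Φ : Crd ι₁ ι₂ → ℂ}
    (h : ∃ M : Finset (ι₁ → ℤ × ℤ), ∀ m : ι₁ → ℤ × ℤ, m ∉ M →
      ∀ x : ι₂ → ℝ × ℝ, Φ (m, x) = 0) (z₁ z₂ : ι₁ → ℂ) :
    (Function.support fun m : ι₁ → ℤ × ℤ =>
      (∫ x : ι₂ → ℝ × ℝ, Φ (m, x)) * ∏ i, (z₁ i ^ (m i).1 * z₂ i ^ (m i).2)).Finite := by
  obtain ⟨M, hM⟩ := h
  refine M.finite_toSet.subset fun m hm => ?_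
  by_contra hmM
  apply hm
  have : (fun x : ι₂ → ℝ × ℝ => Φ (m, x)) = fun _ => 0 := funext (hM m hmM)
  simp [this]

theorem ftCrd_zero (z₁ z₂ : ι₁ → ℂ) : ftCrd (0 : Crd ι₁ ι₂ → ℂ) z₁ z₂ = 0 := by
  simp [ftCrd]

theorem ftCrd_add {Φ₁ Φ₂ : Crd ι₁ ι₂ → ℂ}
    (h₁ : ∃ M : Finset (ι₁ → ℤ × ℤ), ∀ m : ι₁ → ℤ × ℤ, m ∉ M →
      ∀ x : ι₂ → ℝ × ℝ, Φ₁ (m, x) = 0)
    (h₂ : ∃ M : Finset (ι₁ → ℤ × ℤ), ∀ m : ι₁ → ℤ × ℤ, m ∉ M →
      ∀ x : ι₂ → ℝ × ℝ, Φ₂ (m, x) = 0)
    (i₁ : ∀ m : ι₁ → ℤ × ℤ, Integrable (fun x : ι₂ → ℝ × ℝ => Φ₁ (m, x)))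
    (i₂ : ∀ m : ι₁ → ℤ × ℤ, Integrable (fun x : ι₂ → ℝ × ℝ => Φ₂ (m, x)))
    (z₁ z₂ : ι₁ → ℂ) :
    ftCrd (Φ₁ + Φ₂) z₁ z₂ = ftCrd Φ₁ z₁ z₂ + ftCrd Φ₂ z₁ z₂ := by
  unfold ftCrd
  rw [← finsum_add_distrib (ftCrd_summand_finite h₁ z₁ z₂) (ftCrd_summand_finite h₂ z₁ z₂)]
  refine finsum_congr fun m => ?_
  simp only [Pi.add_apply]
  rw [integral_add (i₁ m) (i₂ m)]
  ring

theorem ftCrd_smul (c : ℂ) (Φ : Crd ι₁ ι₂ → ℂ) (z₁ z₂ : ι₁ → ℂ) :
    ftCrd (c • Φ) z₁ z₂ = c * ftCrd Φ z₁ z₂ := by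
  unfold ftCrd
  rw [mul_finsum]
  refine finsum_congr fun m => ?_
  simp only [Pi.smul_apply, smul_eq_mul]
  rw [integral_const_mul]
  ring

end Crd

variable (K : Type) [Field K] [NumberField K]

/-! ## 1. The induction predicate -/

/-- The induction predicate: `f` is a test function for `Φ`. -/
structure IsASPairM {mG : MeasurableSpace (G K)} {mA : MeasurableSpace (Adl K)}
    (μ : Measure (G K)) (ν : Measure (Adl K)) (𝔫 : Ideal (𝓞 K))
    (P : Finset (HeightOneSpectrum (𝓞 K))) (e : HeightOneSpectrum (𝓞 K) → ℕ) (α : Kˣ)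
    (κ : G K → G K → ℂ) (Δ : G K → G K → CoordM K P) (κ₀ : ℂ)
    (Φ : CoordM K P → ℂ) (f : G K → ℂ) : Prop where
  fin_m : ∃ M : Finset (P → ℤ × ℤ), ∀ m : P → ℤ × ℤ, m ∉ M →
    ∀ x : InfinitePlace K → ℝ × ℝ, Φ (m, x) = 0
  int_x : ∀ m : P → ℤ × ℤ, Integrable (fun x : InfinitePlace K → ℝ × ℝ => Φ (m, x))
  cont : Continuous f
  supp : HasCompactSupport f
  bi_inv : IsBiInv K 𝔫 f
  supp_at : IsSuppAtM K 𝔫 P f
  smooth : IsSmoothInf K f
  n_integrable : ∀ (g g' : G K) (j : ℤ),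
    Integrable (fun x => f (g⁻¹ * unip K x * torK K α ^ j * g')) ν
  n_int : ∀ (g g' : G K) (j : ℤ),
    ∫ x, f (g⁻¹ * unip K x * torK K α ^ j * g') ∂ν
      = κ g g' * Φ (Δ g g' + j • coordTorM K P e α)
  op : ∀ φ : G K → ℂ, IsSph0Level K 𝔫 φ →
    ∀ a b z₁ z₂ : HeightOneSpectrum (𝓞 K) → ℂ,
      (∀ v ∈ P, IsHeckeEigenAt φ v (a v) (b v)) →
      (∀ v ∈ P, z₁ v + z₂ v = a v) → (∀ v ∈ P, z₁ v * z₂ v = b v) →
      (∀ v ∈ P, b v ≠ 0) →
      ∀ g : G K, Rop K μ f φ g = κ₀ * ftCoordM K P Φ z₁ z₂ * φ g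

variable {K}

section Linear

variable {mG : MeasurableSpace (G K)} {mA : MeasurableSpace (Adl K)}
  {μ : Measure (G K)} {ν : Measure (Adl K)} {𝔫 : Ideal (𝓞 K)}
  {P : Finset (HeightOneSpectrum (𝓞 K))} {e : HeightOneSpectrum (𝓞 K) → ℕ}
  {α : Kˣ} {κ : G K → G K → ℂ} {Δ : G K → G K → CoordM K P} {κ₀ : ℂ}

theorem IsASPairM.zero : IsASPairM K μ ν 𝔫 P e α κ Δ κ₀ 0 0 where
  fin_m := ⟨∅, fun _ _ _ => rfl⟩
  int_x := fun m => by
    have : (fun x : InfinitePlace K → ℝ × ℝ => (0 : CoordM K P → ℂ) (m, x)) = fun _ => 0 := rfl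
    rw [this]
    exact integrable_zero _ _ _
  cont := continuous_const
  supp := HasCompactSupport.zero
  bi_inv := ⟨fun _ _ _ => ⟨rfl, rfl⟩, fun _ _ _ _ => ⟨rfl, rfl⟩⟩
  supp_at := fun _ hh => absurd rfl hh
  smooth := IsSmoothInf.zero
  n_integrable := fun g g' j => by
    have : (fun x => (0 : G K → ℂ) (g⁻¹ * unip K x * torK K α ^ j * g')) = fun _ => 0 := rfl
    rw [this]
    exact integrable_zero _ _ _
  n_int := fun g g' j => by simp
  op := fun φ _ a b z₁ z₂ _ _ _ _ g => by simp [Rop, ftCoordM, ftCrd_zero]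

theorem IsASPairM.add [OpensMeasurableSpace (G K)] [IsFiniteMeasureOnCompacts μ]
    {Φ₁ Φ₂ : CoordM K P → ℂ} {f₁ f₂ : G K → ℂ}
    (h₁ : IsASPairM K μ ν 𝔫 P e α κ Δ κ₀ Φ₁ f₁) (h₂ : IsASPairM K μ ν 𝔫 P e α κ Δ κ₀ Φ₂ f₂) :
    IsASPairM K μ ν 𝔫 P e α κ Δ κ₀ (Φ₁ + Φ₂) (f₁ + f₂) where
  fin_m := by
    classical
    obtain ⟨M₁, hM₁⟩ := h₁.fin_m
    obtain ⟨M₂, hM₂⟩ := h₂.fin_m
    refine ⟨M₁ ∪ M₂, fun m hm x => ?_⟩
    rw [Finset.mem_union, not_or] at hm
    simp [hM₁ m hm.1 x, hM₂ m hm.2 x]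
  int_x := fun m => (h₁.int_x m).add (h₂.int_x m)
  cont := h₁.cont.add h₂.cont
  supp := h₁.supp.add h₂.supp
  bi_inv := by
    refine ⟨fun u hu h => ⟨?_, ?_⟩, fun w k hk h => ⟨?_, ?_⟩⟩
    · simp only [Pi.add_apply, (h₁.bi_inv.1 u hu h).1, (h₂.bi_inv.1 u hu h).1]
    · simp only [Pi.add_apply, (h₁.bi_inv.1 u hu h).2, (h₂.bi_inv.1 u hu h).2]
    · simp only [Pi.add_apply, (h₁.bi_inv.2 w k hk h).1, (h₂.bi_inv.2 w k hk h).1]
    · simp only [Pi.add_apply, (h₁.bi_inv.2 w k hk h).2, (h₂.bi_inv.2 w k hk h).2]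
  supp_at := fun h hh => by
    by_cases h1 : f₁ h = 0
    · have h2 : f₂ h ≠ 0 := fun h2 => hh (by simp [h1, h2])
      exact h₂.supp_at h h2
    · exact h₁.supp_at h h1
  smooth := h₁.smooth.add h₂.smooth
  n_integrable := fun g g' j => (h₁.n_integrable g g' j).add (h₂.n_integrable g g' j)
  n_int := fun g g' j => by
    simp only [Pi.add_apply]
    rw [integral_add (h₁.n_integrable g g' j) (h₂.n_integrable g g' j), h₁.n_int, h₂.n_int]
    ring
  op := fun φ hφ a b z₁ z₂ he hz₁ hz₂ hb g => by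
    have e₁ := h₁.op φ hφ a b z₁ z₂ he hz₁ hz₂ hb g
    have e₂ := h₂.op φ hφ a b z₁ z₂ he hz₁ hz₂ hb g
    unfold Rop at e₁ e₂ ⊢
    have : (fun h => φ (g * h) * (f₁ + f₂) h)
        = fun h => φ (g * h) * f₁ h + φ (g * h) * f₂ h := by
      funext h
      simp only [Pi.add_apply]
      ring
    rw [this, integral_add (rop_integrable μ hφ.cont h₁.cont h₁.supp g)
      (rop_integrable μ hφ.cont h₂.cont h₂.supp g), e₁, e₂]
    unfold ftCoordM
    rw [ftCrd_add h₁.fin_m h₂.fin_m h₁.int_x h₂.int_x]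
    ring

theorem IsASPairM.smul {Φ : CoordM K P → ℂ} {f : G K → ℂ}
    (h : IsASPairM K μ ν 𝔫 P e α κ Δ κ₀ Φ f) (c : ℂ) :
    IsASPairM K μ ν 𝔫 P e α κ Δ κ₀ (c • Φ) (c • f) where
  fin_m := by
    obtain ⟨M, hM⟩ := h.fin_m
    exact ⟨M, fun m hm x => by simp [hM m hm x]⟩
  int_x := fun m => (h.int_x m).const_mul c
  cont := h.cont.const_smul c
  supp := h.supp.mono fun x hx => by
    rw [Function.mem_support] at hx ⊢
    intro h0
    exact hx (by simp [h0])
  bi_inv := by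
    refine ⟨fun u hu y => ⟨?_, ?_⟩, fun w k hk y => ⟨?_, ?_⟩⟩
    · simp only [Pi.smul_apply, (h.bi_inv.1 u hu y).1]
    · simp only [Pi.smul_apply, (h.bi_inv.1 u hu y).2]
    · simp only [Pi.smul_apply, (h.bi_inv.2 w k hk y).1]
    · simp only [Pi.smul_apply, (h.bi_inv.2 w k hk y).2]
  supp_at := fun y hy => by
    have h1 : f y ≠ 0 := fun h1 => hy (by simp [h1])
    exact h.supp_at y h1
  smooth := h.smooth.smul c
  n_integrable := fun g g' j => (h.n_integrable g g' j).const_mul c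
  n_int := fun g g' j => by
    simp only [Pi.smul_apply, smul_eq_mul]
    rw [integral_const_mul, h.n_int]
    ring
  op := fun φ hφ a b z₁ z₂ he hz₁ hz₂ hb g => by
    have e := h.op φ hφ a b z₁ z₂ he hz₁ hz₂ hb g
    unfold Rop at e ⊢
    have : (fun y => φ (g * y) * (c • f) y) = fun y => c * (φ (g * y) * f y) := by
      funext y
      simp only [Pi.smul_apply, smul_eq_mul]
      ring
    rw [this, integral_const_mul, e]
    unfold ftCoordM
    rw [ftCrd_smul]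
    ring

end Linear

/-! ## 2. The pure tensor is smooth at infinity -/

theorem outsideUM_mul_triv (𝔫 : Ideal (𝓞 K)) (P : Finset (HeightOneSpectrum (𝓞 K)))
    (g h : G K) (hh : ∀ v : HeightOneSpectrum (𝓞 K), TrivAtFin v h) :
    OutsideUM K 𝔫 P (g * h) ↔ OutsideUM K 𝔫 P g := by
  have e1 : ∀ v : HeightOneSpectrum (𝓞 K), finComp v (g * h) = finComp v g := fun v => by
    rw [← finGL_coe, ← finGL_coe, map_mul, finGL_eq_one_of_triv v (hh v), mul_one]
  have e2 : ∀ v : HeightOneSpectrum (𝓞 K), finComp v (g * h)⁻¹ = finComp v g⁻¹ := fun v => by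
    rw [← finGL_coe, ← finGL_coe, mul_inv_rev, map_mul, map_inv,
      finGL_eq_one_of_triv v (hh v), inv_one, one_mul]
  unfold OutsideUM
  simp only [e1, e2]

/-- **The multi-place pure tensor is smooth at infinity** if every `F_w` is smooth. -/
theorem pureSmoothM (𝔫 : Ideal (𝓞 K)) (P : Finset (HeightOneSpectrum (𝓞 K)))
    (f₀ : ∀ v : HeightOneSpectrum (𝓞 K), GL (Fin 2) (v.adicCompletion K) → ℂ)
    (F : InfinitePlace K → GL (Fin 2) ℂ → ℂ)
    (hF : ∀ w, IsCplxSmooth (F w)) : IsSmoothInf K (pureFnM K 𝔫 P f₀ F) := by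
  intro n h hfin hinf g
  have key : ∀ c : ℂ, ContDiff ℝ ((⊤ : ℕ∞) : WithTop ℕ∞)
      (fun t => c * ∏ w : InfinitePlace K, F w (infGL K w g * infGL K w (h t))) := by
    intro c
    refine contDiff_const.mul (contDiff_prod fun w _ => ?_)
    refine hF w n (fun t => infGL K w g * infGL K w (h t)) fun i j => ?_
    have : (fun t => ((infGL K w g * infGL K w (h t) : GL (Fin 2) ℂ) :
        Matrix (Fin 2) (Fin 2) ℂ) i j)
        = fun t => ∑ k : Fin 2, infComp w g i k * infComp w (h t) k j := by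
      funext t
      rw [Units.val_mul, infGL_coe, infGL_coe, Matrix.mul_apply]
    rw [this]
    exact ContDiff.sum fun k _ => contDiff_const.mul (hinf w k j)
  by_cases hg : OutsideUM K 𝔫 P g
  · have e : (fun t => pureFnM K 𝔫 P f₀ F (g * h t))
        = fun t => (∏ v ∈ P, f₀ v (finGL K v g))
            * ∏ w : InfinitePlace K, F w (infGL K w g * infGL K w (h t)) := by
      funext t
      unfold pureFnM
      rw [if_pos ((outsideUM_mul_triv 𝔫 P g (h t) (hfin t)).2 hg)]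
      congr 1
      · refine Finset.prod_congr rfl fun v _ => ?_
        rw [map_mul, finGL_eq_one_of_triv v (hfin t v), mul_one]
      · simp only [map_mul]
    rw [e]
    exact key _
  · have e : (fun t => pureFnM K 𝔫 P f₀ F (g * h t)) = fun _ => 0 := by
      funext t
      unfold pureFnM
      rw [if_neg fun h' => hg ((outsideUM_mul_triv 𝔫 P g (h t) (hfin t)).1 h')]
    rw [e]
    exact contDiff_const

/-! ## 3. The top of the Abel--Satake pair -/

variable (K)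

/-- **T3.18a, multi-place, the top in the smooth form.** -/
theorem abelSatakeSmoothM_of (h1 : SatakeLocC K) (h2 : AbelCplxSmoothC) (hft : FtPureC)
    (h3 : PureRegMC K) (h4 : NIntMC K) (h5 : ROpMC K) : AbelSatakeSmoothMC K := by
  let _ : MeasurableSpace (Adl K) := borel (Adl K)
  let _ : MeasurableSpace (G K) := borel (G K)
  let _ : MeasurableSpace (GL (Fin 2) ℂ) := borel (GL (Fin 2) ℂ)
  have _ : BorelSpace (G K) := ⟨rfl⟩
  intro hcx μ hμ ν hν 𝔫 P e a₀ α hfr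
  obtain ⟨μc, hμc, κc, hκc, hAbel⟩ := h2
  obtain ⟨κ, Δ, hN⟩ := h4 hcx ν hν 𝔫 P e a₀ α hfr
  obtain ⟨κ₁, hκ₁, hR⟩ := h5 hcx μ hμ μc hμc 𝔫 hfr.level P hfr.prime
  refine ⟨κ, Δ, κ₁ * κc ^ Fintype.card (InfinitePlace K),
    mul_ne_zero hκ₁ (pow_ne_zero _ hκc), ?_⟩
  intro Φ hΦ
  suffices h : ∃ f : G K → ℂ,
      IsASPairM K μ ν 𝔫 P e α κ Δ (κ₁ * κc ^ Fintype.card (InfinitePlace K)) Φ f by
    obtain ⟨f, hf⟩ := h
    exact ⟨f, hf.cont, hf.supp, hf.bi_inv, hf.supp_at, hf.smooth, hf.n_int, hf.op⟩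
  induction hΦ using Submodule.span_induction with
  | zero => exact ⟨0, IsASPairM.zero⟩
  | add Φ₁ Φ₂ _ _ ih₁ ih₂ =>
    obtain ⟨f₁, hf₁⟩ := ih₁
    obtain ⟨f₂, hf₂⟩ := ih₂
    exact ⟨f₁ + f₂, hf₁.add hf₂⟩
  | smul c Φ _ ih =>
    obtain ⟨f, hf⟩ := ih
    exact ⟨c • f, hf.smul c⟩
  | mem Φ hΦ =>
    classical
    obtain ⟨A', β, hA', hβ, hΦ⟩ := hΦ
    -- the total family of Satake coefficients
    set A : HeightOneSpectrum (𝓞 K) → ℤ × ℤ → ℂ :=
      fun v => if h : v ∈ P then A' ⟨v, h⟩ else 0 with hAdef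
    have hAA' : (fun v : P => A v) = A' := by
      funext v
      simp only [hAdef, dif_pos v.2, Subtype.coe_eta]
    have hAsym : ∀ v, IsSymFin (A v) := by
      intro v
      by_cases hv : v ∈ P
      · simp only [hAdef, dif_pos hv]
        exact hA' ⟨v, hv⟩
      · simp only [hAdef, dif_neg hv]
        exact ⟨by simp, fun _ _ => rfl⟩
    have hΦ' : Φ = pureCoordM K P A β := by
      rw [hΦ]
      unfold pureCoordM
      rw [hAA']
    subst hΦ'
    choose f₀ hpair using fun v : HeightOneSpectrum (𝓞 K) => h1 v (A v) (hAsym v)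
    choose F hF1 hFs hF2 hF3 using fun w : InfinitePlace K => hAbel (β w) (hβ w)
    obtain ⟨r1, r2, r3, r4⟩ := h3 𝔫 hfr.level P hfr.prime f₀ F
      (fun v _ => (hpair v).bi_inv) (fun v _ => (hpair v).fin_supp) hF1
    have hNN := hN A β f₀ F (fun v _ => (hpair v).bi_inv) (fun v _ => (hpair v).fin_supp)
      (fun v _ => (hpair v).n_int) hF1 hF2
    refine ⟨pureFnM K 𝔫 P f₀ F, ?_⟩
    refine
      { fin_m := ⟨Fintype.piFinset fun i : P => (hAsym i).1.toFinset, fun m hm x => ?_⟩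
        int_x := fun m => ?_
        cont := r1
        supp := r2
        bi_inv := r3
        supp_at := r4
        smooth := pureSmoothM 𝔫 P f₀ F hFs
        n_integrable := fun g g' j => (hNN g g' j).1
        n_int := fun g g' j => (hNN g g' j).2
        op := fun φ hφ a b z₁ z₂ he hz₁ hz₂ hb g => ?_ }
    · rw [Fintype.mem_piFinset, not_forall] at hm
      obtain ⟨i, hi⟩ := hm
      rw [Set.Finite.mem_toFinset, Function.mem_support, not_not] at hi
      have : ∏ v : P, A v (m v) = 0 := Finset.prod_eq_zero (Finset.mem_univ i) hi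
      show (∏ v : P, A v (m v)) * ∏ w : InfinitePlace K, β w (x w) = 0
      rw [this, zero_mul]
    · have : (fun x : InfinitePlace K → ℝ × ℝ => pureCoordM K P A β (m, x))
          = fun x => (∏ v : P, A v (m v)) * ∏ w : InfinitePlace K, β w (x w) := rfl
      rw [this]
      refine Integrable.const_mul ?_ _
      exact Integrable.fintype_prod (f := β) (μ := fun _ => volume) fun w =>
        (hβ w).1.continuous.integrable_of_hasCompactSupport (hβ w).2.1
    · rw [hR A (fun w => κc * ∫ x : ℝ × ℝ, β w x) f₀ F (fun v _ => (hpair v).bi_inv)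
        (fun v _ => (hpair v).fin_supp) (fun v _ => (hpair v).eigen)
        hF1 hF3 φ hφ a b z₁ z₂ he hz₁ hz₂ hb g]
      unfold ftCoordM pureCoordM
      rw [hft P (InfinitePlace K) (fun v : P => A v) β (fun i => (hAsym i).1)
        (fun v : P => z₁ v) (fun v : P => z₂ v), Finset.prod_mul_distrib,
        Finset.prod_const, Finset.card_univ,
        Finset.prod_coe_sort P (fun v => laurent (A v) (z₁ v) (z₂ v))]
      ring

/-! ## 4. The EK function -/

/-- **T3.18b, multi-place, smooth form** (the proof of helper732 with `P` in place of `v₀`). -/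
theorem ekExistSmoothM_of (hAS : AbelSatakeSmoothMC K) (hcore : EKCoreC)
    (hSU : InScalarUnifC K) : EKExistSmoothMC K := by
  intro hcplx μ hμ ν hν 𝔫 P e a₀ α hfr
  obtain ⟨κ, Δ, κ₀, hκ₀, hΦall⟩ := hAS hcplx μ hμ ν hν 𝔫 P e a₀ α hfr
  haveI : Nonempty P := hfr.nonempty.to_subtype
  obtain ⟨Φ, hΦmem, hΦsum, hΦft⟩ :=
    hcore P (InfinitePlace K) (fun v : P => e v) (fun w => Real.log (w (α : K)))
      (fun v => hfr.pos v v.2)
  obtain ⟨f, hfc, hfs, hfbi, hfsupp, hsm, hfi, hfii⟩ := hΦall Φ hΦmem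
  refine ⟨f, hfc, hfs, hsm, ?_, hfbi, hfsupp, ?_⟩
  · -- `IsEK`
    intro g g'
    have h1 : (fun j : ℤ => ∫ x, f (g⁻¹ * unip K x * torK K α ^ j * g') ∂ν)
        = fun j : ℤ => κ g g' * Φ (Δ g g' + j • coordTorM K P e α) := by
      funext j
      exact hfi g g' j
    rw [h1]
    have h2 := (hΦsum (Δ g g')).mul_left (κ g g')
    rw [mul_zero] at h2
    exact h2
  · -- the eigenvalue
    classical
    refine ⟨fun a b => if ∃ v ∈ P, b v = 0 then 1 else
      κ₀ * ftCoordM K P Φ (fun v => H732.root1_732 (a v) (b v))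
        (fun v => H732.root2_732 (a v) (b v)), ?_, ?_⟩
    · intro a b hgood
      by_cases hb : ∃ v ∈ P, b v = 0
      · simp only [if_pos hb]
        exact one_ne_zero
      · simp only [if_neg hb]
        simp only [not_exists, not_and] at hb
        have hr₁ : ∀ v : P, H732.root1_732 (a v) (b v) ≠ 0 := fun v h =>
          hb v v.2 (by rw [← (H732.roots_spec732 (a v) (b v)).2, h, zero_mul])
        have hr₂ : ∀ v : P, H732.root2_732 (a v) (b v) ≠ 0 := fun v h =>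
          hb v v.2 (by rw [← (H732.roots_spec732 (a v) (b v)).2, h, mul_zero])
        refine mul_ne_zero hκ₀ (hΦft _ _ hr₁ hr₂ ?_)
        intro z hz
        -- extend `z` to all places and use `GoodParamM`
        have key := hgood (fun v => if h : v ∈ P then z ⟨v, h⟩ else 0) ?_
        · rw [← Finset.prod_coe_sort P] at key
          have e1 : ∀ v : P, (if h : (v : HeightOneSpectrum (𝓞 K)) ∈ P then
              z ⟨v, h⟩ else 0) = z v := fun v => by
            simp only [dif_pos v.2, Subtype.coe_eta]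
          simpa only [e1] using key
        · intro v hv
          simp only [dif_pos hv]
          obtain ⟨hs, hp⟩ := H732.roots_spec732 (a v) (b v)
          rcases hz ⟨v, hv⟩ with h | h
          · rw [h]
            linear_combination (H732.root1_732 (a v) (b v)) * hs - hp
          · rw [h]
            linear_combination (H732.root2_732 (a v) (b v)) * hs - hp
    · intro φ hφ a b hecke g
      by_cases hb : ∃ v ∈ P, b v = 0
      · simp only [if_pos hb, one_mul]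
        obtain ⟨v, hv, hbv⟩ := hb
        have hecke' := hecke v hv
        rw [hbv] at hecke'
        have hzero : ∀ g : G K, φ g = 0 := H732.eq_zero_of_b_eq_zero732 K hSU hecke'
        rw [hzero g]
        unfold Rop
        simp only [hzero, zero_mul, integral_zero]
      · simp only [if_neg hb]
        simp only [not_exists, not_and] at hb
        exact hfii φ hφ a b _ _ hecke (fun v _ => (H732.roots_spec732 (a v) (b v)).1)
          (fun v _ => (H732.roots_spec732 (a v) (b v)).2) hb g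

/-- Existence in operator form (smooth, multi-place) from existence in integral form, FACT 1
and the adjoint leaf. -/
theorem ekOpExistSmoothM_of (h1 : EKKillC K) (h5 : EKStarC K) (h8 : EKExistSmoothMC K)
    (hν : InAddHaarC K) : EKOpExistSmoothMC K := by
  intro hK μ hμ 𝔫 P e a₀ h𝔫 hP hPe hspan hmem
  obtain ⟨ν, hνH⟩ := hν
  have ha₀ : algebraMap (𝓞 K) K a₀ ≠ 0 := by
    intro h0
    have h0' : a₀ = 0 :=
      (map_eq_zero_iff (algebraMap (𝓞 K) K) (FaithfulSMul.algebraMap_injective (𝓞 K) K)).1 h0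
    rw [h0'] at hspan
    have hbot : (∏ v ∈ P, v.asIdeal ^ e v) = ⊥ := by rw [← hspan]; simp
    rw [← Ideal.zero_eq_bot, Finset.prod_eq_zero_iff] at hbot
    obtain ⟨v, hvP, hv⟩ := hbot
    exact v.ne_bot ((pow_eq_zero_iff (Nat.pos_iff_ne_zero.1 (hPe v hvP).2)).1 hv)
  have hfr : FrameM K 𝔫 P e a₀ (Units.mk0 _ ha₀) :=
    ⟨h𝔫, hP, fun v hv => (hPe v hv).1, fun v hv => (hPe v hv).2, hspan, hmem, rfl⟩
  obtain ⟨f, hf, hfc, hsm, hEK, hbi, hsupp, c, hc, hact⟩ :=
    h8 hK μ hμ ν hνH 𝔫 P e a₀ (Units.mk0 _ ha₀) hfr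
  refine ⟨f, hf, hfc, hsm, ekOp_of_int K h1 hμ hνH hf hfc hEK, ?_, hbi, hsupp, c, hc, hact⟩
  have hstar : IsEK K ν (starG K f) (Units.mk0 _ ha₀) := h5 ν hνH _ f hf hfc hEK
  have hsc : Continuous (starG K f) := by
    unfold starG
    exact (Complex.continuous_conj).comp (hf.comp continuous_inv)
  have hscc : HasCompactSupport (starG K f) := by
    unfold starG
    have h1 : HasCompactSupport (fun h : G K => f h⁻¹) := by
      have := hfc.comp_homeomorph (Homeomorph.inv (G K))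
      simpa [Function.comp_def] using this
    exact h1.comp_left (g := (starRingEnd ℂ)) (map_zero _)
  exact ekOp_of_int K h1 hμ hνH hsc hscc hstar

end Fermat.Agent.LT.T3.M

end

end
-- ===== PACK-END LT/T3/M/Top.lean

-- ===== PACK-BEGIN LT/T3/M/H162/EKCoreA.lean
section




/-!
# Row LT, tower T3, station T3.18M, leaf M.1 `EKCoreC` (helper162), part A -- OFF-MAIN

The multi-place version of `LT/T3/H732/EKCore.lean` (helper732, the case `ι₁ = Unit`; imported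
byte-identically for the one-variable material: `sw732`, `B732`, `A732`, `beta732`, `J732`).

Coordinate group `Crd ι₁ ι₂ = (ℤ²)^{ι₁} × (ℝ²)^{ι₂}` (`M/Spec.lean`, helper14), swap group
`Sw162 ι₁ ι₂ = Bool^{ι₁} × Bool^{ι₂}`, `Φ₁ = δ_0 ⊗ ⊗_w (bump ⊗ bump)`,
`Φ = ∏_{t ∈ S} (1 - τ_{t c₀}) Φ₁ = ∑_{T ⊆ S} (-1)^{|T|} Φ₁(· - ∑_{t ∈ T} t c₀)`.

Part A: the definitions, invariance under the swap group, the telescoping sum
(`Phi162_hasSum`).
-/

set_option autoImplicit false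
set_option linter.unusedSectionVars false

open MeasureTheory Finset
open scoped Classical

noncomputable section

namespace Fermat.Agent.LT.T3.M.H162

open Fermat.Agent.LT.T3.H732 Fermat.Agent.LT.T3.M

variable {ι₁ ι₂ : Type}

/-- The swap group. -/
abbrev Sw162 (ι₁ ι₂ : Type) : Type := (ι₁ → Bool) × (ι₂ → Bool)

/-- The action of the swap group on the coordinate group. -/
def act162 (s : Sw162 ι₁ ι₂) : Crd ι₁ ι₂ →+ Crd ι₁ ι₂ where
  toFun y := (fun i => sw732 (s.1 i) (y.1 i), fun w => sw732 (s.2 w) (y.2 w))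
  map_zero' := by
    refine Prod.ext ?_ ?_
    · funext i
      exact map_zero _
    · funext w
      exact map_zero _
  map_add' y y' := by
    refine Prod.ext ?_ ?_
    · funext i
      exact map_add _ _ _
    · funext w
      exact map_add _ _ _

@[simp] lemma act162_fst (s : Sw162 ι₁ ι₂) (y : Crd ι₁ ι₂) (i : ι₁) :
    (act162 s y).1 i = sw732 (s.1 i) (y.1 i) := rfl

@[simp] lemma act162_snd (s : Sw162 ι₁ ι₂) (y : Crd ι₁ ι₂) (w : ι₂) :
    (act162 s y).2 w = sw732 (s.2 w) (y.2 w) := rfl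

/-- The product of the swap group. -/
def sx162 (s t : Sw162 ι₁ ι₂) : Sw162 ι₁ ι₂ :=
  (fun i => xor (s.1 i) (t.1 i), fun w => xor (s.2 w) (t.2 w))

lemma sx162_sx162 (s t : Sw162 ι₁ ι₂) : sx162 s (sx162 s t) = t := by
  refine Prod.ext ?_ ?_
  · funext i
    simp [sx162]
  · funext w
    simp [sx162]

/-- Left multiplication in the swap group, as a permutation. -/
def sxEquiv162 (s : Sw162 ι₁ ι₂) : Sw162 ι₁ ι₂ ≃ Sw162 ι₁ ι₂ where
  toFun := sx162 s
  invFun := sx162 s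
  left_inv := sx162_sx162 s
  right_inv := sx162_sx162 s

lemma act162_act162 (s t : Sw162 ι₁ ι₂) (y : Crd ι₁ ι₂) :
    act162 s (act162 t y) = act162 (sx162 s t) y := by
  refine Prod.ext ?_ ?_
  · funext i
    exact sw732_sw732 _ _ _
  · funext w
    exact sw732_sw732 _ _ _

/-- The unit element of the swap group. -/
def one162 (ι₁ ι₂ : Type) : Sw162 ι₁ ι₂ := (fun _ => false, fun _ => false)

lemma act162_one (y : Crd ι₁ ι₂) : act162 (one162 ι₁ ι₂) y = y := rfl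

lemma act162_fst_eq_zero (s : Sw162 ι₁ ι₂) (y : Crd ι₁ ι₂) : (act162 s y).1 = 0 ↔ y.1 = 0 := by
  constructor
  · intro h
    funext i
    exact (sw732_eq_zero _ _).mp (congrFun h i)
  · intro h
    funext i
    exact (sw732_eq_zero (s.1 i) (y.1 i)).mpr (congrFun h i)

variable [Fintype ι₁] [Fintype ι₂]

/-- `Φ₁ = δ_0 ⊗ ⊗_w (bump ⊗ bump)`. -/
def Phi1_162 (y : Crd ι₁ ι₂) : ℂ := (if y.1 = 0 then 1 else 0) * ∏ w, B732 (y.2 w)

lemma Phi1_162_act (s : Sw162 ι₁ ι₂) (y : Crd ι₁ ι₂) :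
    Phi1_162 (act162 s y) = Phi1_162 y := by
  unfold Phi1_162
  simp only [act162_snd, B732_sw, act162_fst_eq_zero]

/-- The sum of the translates `t c₀`, `t ∈ T`. -/
def cT162 (e : ι₁ → ℕ) (ℓ : ι₂ → ℝ) (T : Finset (Sw162 ι₁ ι₂)) : Crd ι₁ ι₂ :=
  ∑ t ∈ T, act162 t (c0 e ℓ)

/-- `Φ = ∏_{t ∈ S} (1 - τ_{t c₀}) Φ₁`, expanded. -/
def Phi162 (e : ι₁ → ℕ) (ℓ : ι₂ → ℝ) (y : Crd ι₁ ι₂) : ℂ :=
  ∑ T : Finset (Sw162 ι₁ ι₂), (-1) ^ T.card * Phi1_162 (y - cT162 e ℓ T)

/-! ## Invariance under the swap group -/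

lemma cT162_map (e : ι₁ → ℕ) (ℓ : ι₂ → ℝ) (s : Sw162 ι₁ ι₂) (T : Finset (Sw162 ι₁ ι₂)) :
    cT162 e ℓ (T.map (sxEquiv162 s).toEmbedding) = act162 s (cT162 e ℓ T) := by
  unfold cT162
  rw [Finset.sum_map, map_sum]
  refine Finset.sum_congr rfl fun t _ => ?_
  rw [act162_act162]
  rfl

lemma Phi162_act (e : ι₁ → ℕ) (ℓ : ι₂ → ℝ) (s : Sw162 ι₁ ι₂) (y : Crd ι₁ ι₂) :
    Phi162 e ℓ (act162 s y) = Phi162 e ℓ y := by
  unfold Phi162
  rw [← Equiv.sum_comp (Equiv.finsetCongr (sxEquiv162 s))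
    (fun T => (-1) ^ T.card * Phi1_162 (act162 s y - cT162 e ℓ T))]
  refine Finset.sum_congr rfl fun T _ => ?_
  have h : (Equiv.finsetCongr (sxEquiv162 s)) T = T.map (sxEquiv162 s).toEmbedding := rfl
  rw [h, Finset.card_map, cT162_map, ← map_sub, Phi1_162_act]

/-! ## Telescoping along `c₀` -/

/-- `Φ₂ = ∏_{t ≠ 1} (1 - τ_{t c₀}) Φ₁`, expanded. -/
def Phi2_162 (e : ι₁ → ℕ) (ℓ : ι₂ → ℝ) (y : Crd ι₁ ι₂) : ℂ :=
  ∑ T ∈ ((Finset.univ : Finset (Sw162 ι₁ ι₂)).erase (one162 ι₁ ι₂)).powerset,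
    (-1) ^ T.card * Phi1_162 (y - cT162 e ℓ T)

lemma Phi162_eq_sub (e : ι₁ → ℕ) (ℓ : ι₂ → ℝ) (y : Crd ι₁ ι₂) :
    Phi162 e ℓ y = Phi2_162 e ℓ y - Phi2_162 e ℓ (y - c0 e ℓ) := by
  unfold Phi162 Phi2_162
  have h1 : (Finset.univ : Finset (Finset (Sw162 ι₁ ι₂)))
      = (insert (one162 ι₁ ι₂)
          ((Finset.univ : Finset (Sw162 ι₁ ι₂)).erase (one162 ι₁ ι₂))).powerset := by
    rw [Finset.insert_erase (Finset.mem_univ _), Finset.powerset_univ]
  rw [h1, Finset.sum_powerset_insert (Finset.notMem_erase _ _), sub_eq_add_neg,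
    ← Finset.sum_neg_distrib]
  congr 1
  refine Finset.sum_congr rfl fun T hT => ?_
  have hT' : one162 ι₁ ι₂ ∉ T := fun h =>
    Finset.notMem_erase (one162 ι₁ ι₂) Finset.univ (Finset.mem_powerset.mp hT h)
  have h2 : cT162 e ℓ (insert (one162 ι₁ ι₂) T) = c0 e ℓ + cT162 e ℓ T := by
    unfold cT162
    rw [Finset.sum_insert hT', act162_one]
  rw [Finset.card_insert_of_notMem hT', pow_succ, h2, sub_add_eq_sub_sub]
  ring

lemma Phi1_162_eq_zero {y : Crd ι₁ ι₂} (h : y.1 ≠ 0) : Phi1_162 y = 0 := by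
  simp [Phi1_162, h]

lemma Phi2_162_ne_zero (e : ι₁ → ℕ) (ℓ : ι₂ → ℝ) {y : Crd ι₁ ι₂}
    (h : Phi2_162 e ℓ y ≠ 0) :
    ∃ T : Finset (Sw162 ι₁ ι₂), y.1 = (cT162 e ℓ T).1 := by
  unfold Phi2_162 at h
  obtain ⟨T, _, hT⟩ := Finset.exists_ne_zero_of_sum_ne_zero h
  refine ⟨T, ?_⟩
  by_contra hne
  refine hT ?_
  rw [Phi1_162_eq_zero, mul_zero]
  intro h0
  exact hne (sub_eq_zero.mp h0)

lemma Phi2_162_finite [Nonempty ι₁] (e : ι₁ → ℕ) (he : ∀ i, 0 < e i) (ℓ : ι₂ → ℝ)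
    (Δ : Crd ι₁ ι₂) :
    (Function.support fun j : ℤ => Phi2_162 e ℓ (Δ + j • c0 e ℓ)).Finite := by
  obtain ⟨i₀⟩ := ‹Nonempty ι₁›
  have hsub : (Function.support fun j : ℤ => Phi2_162 e ℓ (Δ + j • c0 e ℓ)) ⊆
      ⋃ T : Finset (Sw162 ι₁ ι₂),
        {j : ℤ | (Δ.1 i₀).1 + j * (e i₀ : ℤ) = ((cT162 e ℓ T).1 i₀).1} := by
    intro j hj
    obtain ⟨T, hT⟩ := Phi2_162_ne_zero e ℓ (Function.mem_support.mp hj)
    refine Set.mem_iUnion.mpr ⟨T, ?_⟩
    have := congrArg Prod.fst (congrFun hT i₀)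
    simpa [c0] using this
  refine Set.Finite.subset (Set.finite_iUnion fun T => ?_) hsub
  refine Set.Subsingleton.finite ?_
  intro j hj j' hj'
  have hj : (Δ.1 i₀).1 + j * (e i₀ : ℤ) = ((cT162 e ℓ T).1 i₀).1 := hj
  have hj' : (Δ.1 i₀).1 + j' * (e i₀ : ℤ) = ((cT162 e ℓ T).1 i₀).1 := hj'
  have hn' : (e i₀ : ℤ) ≠ 0 := by exact_mod_cast (he i₀).ne'
  have : j * (e i₀ : ℤ) = j' * (e i₀ : ℤ) := by linarith
  exact mul_right_cancel₀ hn' this

omit [Fintype ι₁] [Fintype ι₂] in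
lemma smul_sub_c0_162 (e : ι₁ → ℕ) (ℓ : ι₂ → ℝ) (Δ : Crd ι₁ ι₂) (j : ℤ) :
    Δ + j • c0 e ℓ - c0 e ℓ = Δ + (j - 1) • c0 e ℓ := by
  rw [sub_smul, one_smul, add_sub_assoc]

/-- **The telescoping sum**: `∑_{j ∈ ℤ} Φ(Δ + j c₀) = 0`. -/
theorem Phi162_hasSum [Nonempty ι₁] (e : ι₁ → ℕ) (he : ∀ i, 0 < e i) (ℓ : ι₂ → ℝ)
    (Δ : Crd ι₁ ι₂) :
    HasSum (fun j : ℤ => Phi162 e ℓ (Δ + j • c0 e ℓ)) 0 := by
  set g : ℤ → ℂ := fun j => Phi2_162 e ℓ (Δ + j • c0 e ℓ) with hgdef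
  have hg : Summable g := summable_of_hasFiniteSupport (Phi2_162_finite e he ℓ Δ)
  have h1 : HasSum g (∑' j, g j) := hg.hasSum
  have h2 : HasSum (g ∘ (Equiv.subRight (1 : ℤ))) (∑' j, g j) :=
    (Equiv.hasSum_iff (Equiv.subRight (1 : ℤ))).mpr h1
  have h3 : HasSum (fun j => g j - (g ∘ (Equiv.subRight (1 : ℤ))) j) (∑' j, g j - ∑' j, g j) :=
    h1.sub h2
  rw [sub_self] at h3
  have hfun : (fun j : ℤ => Phi162 e ℓ (Δ + j • c0 e ℓ))
      = fun j => g j - (g ∘ (Equiv.subRight (1 : ℤ))) j := by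
    funext j
    rw [Phi162_eq_sub, smul_sub_c0_162]
    rfl
  rw [hfun]
  exact h3

end Fermat.Agent.LT.T3.M.H162

end

end
-- ===== PACK-END LT/T3/M/H162/EKCoreA.lean

-- ===== PACK-BEGIN LT/T3/M/H250/LocValFinM.lean
section




/-!
# Row LT, tower T3, station T3.18M, leaf M.8 `M.LocValFinMC` (registry row 1809; helper250)

OFF-MAIN.  Typed against byte-identical copies of `LT/T3/M/Spec.lean` (helper14, sha256
`bf15afa4…`), `LT/T3/H848/LocValFin.lean` (helper848, `0393d9da…`, the single-place model) and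
their closure (closed T3 of `origin/helper14`).

`locValFinMC250 K : Fermat.Agent.LT.T3.M.LocValFinMC K` VERBATIM, UNCONDITIONAL.

The only new point against the single-place model: `ordv_v α = e v` for `v ∈ P` when
`(a₀) = ∏_{w ∈ P} 𝔭_w^{e w}` (`ordv_of_span_prod250`).
-/

set_option autoImplicit false
set_option linter.style.haveILetI false

open IsDedekindDomain NumberField MeasureTheory
open Fermat.Agent.LT.H556.A0

noncomputable section

namespace Fermat.Agent.LT.T3.M.H250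

open Fermat.Agent.LT.T3 Fermat.Agent.LT.T3.AS Fermat.Agent.LT.T3.AS.N893

variable {K : Type} [Field K] [NumberField K]

open Classical in
/-- The multiplicity of `𝔭_v` in `∏_{w ∈ P} 𝔭_w^{e w}`. -/
theorem count_prod_pow250 (v : HeightOneSpectrum (𝓞 K)) (e : HeightOneSpectrum (𝓞 K) → ℕ)
    (P : Finset (HeightOneSpectrum (𝓞 K))) :
    (Associates.mk v.asIdeal).count (Associates.mk (∏ w ∈ P, w.asIdeal ^ e w)).factors
      = if v ∈ P then e v else 0 := by
  classical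
  induction P using Finset.induction_on with
  | empty =>
    rw [Finset.prod_empty, Associates.mk_one, Associates.factors_one, if_neg (Finset.notMem_empty v)]
    exact Associates.count_zero v.associates_irreducible
  | insert w₀ P hw₀ ih =>
    have h1 : Associates.mk (w₀.asIdeal ^ e w₀) ≠ 0 :=
      Associates.mk_ne_zero.mpr (pow_ne_zero _ w₀.ne_bot)
    have h2 : Associates.mk (∏ w ∈ P, w.asIdeal ^ e w) ≠ 0 := by
      refine Associates.mk_ne_zero.mpr ?_
      exact Finset.prod_ne_zero_iff.mpr fun w _ => pow_ne_zero _ w.ne_bot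
    rw [Finset.prod_insert hw₀, Associates.mk_mul_mk.symm,
      Associates.count_mul h1 h2 v.associates_irreducible, ih, Associates.mk_pow,
      Associates.count_pow (Associates.mk_ne_zero.mpr w₀.ne_bot) v.associates_irreducible]
    by_cases hv : v = w₀
    · subst hv
      rw [Associates.count_self v.associates_irreducible, if_neg hw₀,
        if_pos (Finset.mem_insert_self v P), mul_one, add_zero]
    · have hne : Associates.mk v.asIdeal ≠ Associates.mk w₀.asIdeal := by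
        intro h
        apply hv
        have h' : v.asIdeal = w₀.asIdeal := by
          rwa [Associates.mk_eq_mk_iff_associated, associated_iff_eq] at h
        exact HeightOneSpectrum.ext h'
      rw [Associates.count_eq_zero_of_ne v.associates_irreducible w₀.associates_irreducible hne,
        mul_zero, zero_add]
      by_cases hvP : v ∈ P
      · rw [if_pos hvP, if_pos (Finset.mem_insert_of_mem hvP)]
      · rw [if_neg hvP, if_neg (by simp [hv, hvP])]

/-- `ordv_v a₀ = e v` for `v ∈ P` when `(a₀) = ∏_{w ∈ P} 𝔭_w^{e w}`. -/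
theorem ordv_of_span_prod250 (P : Finset (HeightOneSpectrum (𝓞 K)))
    (e : HeightOneSpectrum (𝓞 K) → ℕ) (a₀ : 𝓞 K)
    (h : Ideal.span {a₀} = ∏ w ∈ P, w.asIdeal ^ e w) (v : HeightOneSpectrum (𝓞 K))
    (hv : v ∈ P) :
    ordv v ((algebraMap (𝓞 K) K a₀ : K) : v.adicCompletion K) = e v := by
  classical
  have ha : a₀ ≠ 0 := by
    intro h0
    rw [h0, Ideal.span_singleton_eq_bot.mpr rfl] at h
    exact (Finset.prod_ne_zero_iff.mpr fun w _ => pow_ne_zero (e w) w.ne_bot) h.symm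
  unfold ordv
  rw [HeightOneSpectrum.valuedAdicCompletion_eq_valuation', HeightOneSpectrum.valuation_of_algebraMap,
    HeightOneSpectrum.intValuation_if_neg v ha, WithZero.log_exp, neg_neg, h,
    count_prod_pow250, if_pos hv]

/-- The order of the component at `v ∈ P` of `c₁ αʲ`. -/
theorem ordA_mul_zpowM250 {𝔫 : Ideal (𝓞 K)} {P : Finset (HeightOneSpectrum (𝓞 K))}
    {e : HeightOneSpectrum (𝓞 K) → ℕ} {a₀ : 𝓞 K} {α : Kˣ} (hF : FrameM K 𝔫 P e a₀ α)
    {v : HeightOneSpectrum (𝓞 K)} (hv : v ∈ P) (c₁ : (Adl K)ˣ) (j : ℤ) :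
    ordv v ((finU K v (c₁ * T1.ratUnit K α ^ j) : (v.adicCompletion K)ˣ) :
      v.adicCompletion K) = ordA K v c₁ + j * e v := by
  rw [map_mul, map_zpow, Units.val_mul, Units.val_zpow_eq_zpow_val,
    H848.ordv_mul848 v (Units.ne_zero _) (zpow_ne_zero _ (Units.ne_zero _)), H848.ordv_zpow848]
  have h1 : ((finU K v (T1.ratUnit K α) : (v.adicCompletion K)ˣ) : v.adicCompletion K)
      = ((algebraMap (𝓞 K) K a₀ : K) : v.adicCompletion K) := by
    rw [← hF.coe]
    rfl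
  rw [h1, ordv_of_span_prod250 P e a₀ hF.span v hv]
  rfl

/-- **M.8 = N.6 multi.** -/
theorem locValFinMC250 (K : Type) [Field K] [NumberField K] : LocValFinMC K := by
  intro 𝔫 P e a₀ α hF v hv ν₀ hν₀ f₀ A hbi hRex hSat c₁ c₂ j t
  obtain ⟨R, hR⟩ := hRex
  refine ⟨H848.continuous_f848 v hbi _ _ t, H848.hasCompactSupport_f848 v hR _ _ t, ?_⟩
  letI : MeasurableSpace (v.adicCompletion K) := borel (v.adicCompletion K)
  haveI : BorelSpace (v.adicCompletion K) := ⟨rfl⟩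
  haveI : ν₀.IsAddHaarMeasure := hν₀
  have hq : (0 : ℝ) < (Ideal.absNorm v.asIdeal : ℝ) := by
    have : Ideal.absNorm v.asIdeal ≠ 0 := fun h => v.ne_bot (Ideal.absNorm_eq_zero_iff.mp h)
    exact_mod_cast Nat.pos_of_ne_zero this
  have h1 := integral_add_right_eq_self (μ := ν₀)
    (fun x : v.adicCompletion K =>
      f₀ (upperGL (finU K v (c₁ * T1.ratUnit K α ^ j)) (finU K v c₂) x)) t
  have h2 := hSat ν₀ hν₀ (finU K v (c₁ * T1.ratUnit K α ^ j)) (finU K v c₂)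
  rw [ordA_mul_zpowM250 hF hv c₁ j] at h2
  have h3 : ordv v ((finU K v c₂ : (v.adicCompletion K)ˣ) : v.adicCompletion K)
      = ordA K v c₂ := rfl
  rw [h3] at h2
  rw [h1, h2, H848.rpow_split848 hq]
  push_cast
  ring

/-- Type check against the frozen Prop. -/
example (K : Type) [Field K] [NumberField K] : Fermat.Agent.LT.T3.M.LocValFinMC K :=
  locValFinMC250 K

end Fermat.Agent.LT.T3.M.H250

end

end
-- ===== PACK-END LT/T3/M/H250/LocValFinM.lean

-- ===== PACK-BEGIN LT/T3/M/H286/FtPure.lean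
section


/-!
# Row LT, tower T3, station T3.18M, leaf M.2 `M.FtPureC` (helper286)

OFF-MAIN.  `ftCrd` of a pure tensor: the finite sum over `(ℤ²)^{ι₁}` of a product of finitely
supported factors is the product of the sums (`Finset.prod_univ_sum` on `Fintype.piFinset` of
the supports), and the integral over `(ℝ²)^{ι₂}` of a product is the product of the integrals
(`integral_fintype_prod_volume_eq_prod`).
-/

set_option autoImplicit false

open MeasureTheory

noncomputable section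

namespace Fermat.Agent.LT.T3.M.H286

open Fermat.Agent.LT.T3.AS Fermat.Agent.LT.T3.M

/-- The `finsum` over a finite product of types of a product of finitely supported factors. -/
theorem finsum_pi_prod286 {ι : Type} [Fintype ι] {α : Type} (g : ι → α → ℂ)
    (hg : ∀ i, (Function.support (g i)).Finite) :
    ∑ᶠ m : ι → α, ∏ i, g i (m i) = ∏ i, ∑ᶠ a : α, g i a := by
  classical
  have h1 : ∀ i, ∑ᶠ a : α, g i a = ∑ a ∈ (hg i).toFinset, g i a := fun i =>
    finsum_eq_sum_of_support_subset _ (by simp)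
  have h2 : ∑ᶠ m : ι → α, ∏ i, g i (m i)
      = ∑ m ∈ Fintype.piFinset (fun i => (hg i).toFinset), ∏ i, g i (m i) := by
    refine finsum_eq_sum_of_support_subset _ ?_
    intro m hm
    rw [Function.mem_support] at hm
    rw [Finset.mem_coe, Fintype.mem_piFinset]
    intro i
    rw [Set.Finite.mem_toFinset, Function.mem_support]
    intro h0
    exact hm (Finset.prod_eq_zero (Finset.mem_univ i) h0)
  rw [h2, Finset.prod_congr rfl (fun i _ => h1 i), Finset.prod_univ_sum]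

/-- **Leaf M.2 `M.FtPureC`.** -/
theorem ftPureC286 : FtPureC := by
  intro ι₁ ι₂ _ _ A β hA z₁ z₂
  unfold ftCrd laurent
  have hint : ∀ m : ι₁ → ℤ × ℤ, (∫ x : ι₂ → ℝ × ℝ, pureCrd A β (m, x))
      = (∏ i, A i (m i)) * ∏ w, ∫ x : ℝ × ℝ, β w x := by
    intro m
    have e : (fun x : ι₂ → ℝ × ℝ => pureCrd A β (m, x))
        = fun x => (∏ i, A i (m i)) * ∏ w, β w (x w) := rfl
    rw [e, integral_const_mul, integral_fintype_prod_volume_eq_prod]
  have hsupp : ∀ i, (Function.support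
      (fun m : ℤ × ℤ => A i m * z₁ i ^ m.1 * z₂ i ^ m.2)).Finite := by
    intro i
    refine (hA i).subset ?_
    intro m hm
    rw [Function.mem_support] at hm ⊢
    intro h0
    apply hm
    rw [h0, zero_mul, zero_mul]
  rw [← finsum_pi_prod286 (fun i (m : ℤ × ℤ) => A i m * z₁ i ^ m.1 * z₂ i ^ m.2) hsupp,
    finsum_mul]
  refine finsum_congr fun m => ?_
  have e2 : ∀ i, A i (m i) * (z₁ i ^ (m i).1 * z₂ i ^ (m i).2)
      = A i (m i) * z₁ i ^ (m i).1 * z₂ i ^ (m i).2 := fun i => (mul_assoc _ _ _).symm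
  rw [hint m, mul_right_comm, ← Finset.prod_mul_distrib,
    Finset.prod_congr rfl (fun i _ => e2 i)]

end Fermat.Agent.LT.T3.M.H286

end

end
-- ===== PACK-END LT/T3/M/H286/FtPure.lean

-- ===== PACK-BEGIN LT/T3/M/H474/OutsideCosetM.lean
section




/-!
# Row LT, tower T3, station T3.18M, leaf M.6 `OutsideCosetMC` (helper474, SPARE, OFF-MAIN)

`outsideCosetMC474 (K) : M.OutsideCosetMC K` = the frozen Prop of `LT/T3/M/Spec.lean`
(helper14@7627ebb18, sha256 bf15afa4), VERBATIM, unconditional.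

The single-place proof of helper922 (`outsideCosetC922`, local core `inU_coset922`) with
`v ≠ v₀` replaced by `v ∉ P`: under `FrameM`, `(a₀) = ∏_{w ∈ P} 𝔭_w^{e_w}`, so `a₀ ∉ 𝔭_v` for
`v ∉ P` (a prime containing a product contains a factor), and `a₀ ≡ 1 mod 𝔫`; hence `α` and
`α⁻¹` are `≡ 1 mod 𝔫 𝒪_v` at every `v ∉ P`.
-/

set_option autoImplicit false
set_option linter.style.haveILetI false

open IsDedekindDomain NumberField MeasureTheory
open Fermat.Agent.LT.H556.A0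
open scoped MatrixGroups

noncomputable section

namespace Fermat.Agent.LT.T3.M.H474

open Fermat.Agent.LT.T3.AS Fermat.Agent.LT.T3.AS.N893 Fermat.Agent.LT.T1
open Fermat.Agent.LT.T3.H922

variable {K : Type} [Field K] [NumberField K]

theorem outsideUM_iff474 (𝔫 : Ideal (𝓞 K)) (P : Finset (HeightOneSpectrum (𝓞 K))) (h : G K) :
    M.OutsideUM K 𝔫 P h ↔
      ∀ v : HeightOneSpectrum (𝓞 K), v ∉ P → InU922 (idealClosure 𝔫 v) (finGL K v h) := by
  constructor
  · intro H v hv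
    refine ⟨fun i j => (H v hv i j).1, fun i j => ?_⟩
    rw [← map_inv]
    exact (H v hv i j).2
  · intro H v hv i j
    refine ⟨(H v hv).1 i j, ?_⟩
    have h2 := (H v hv).2 i j
    rw [← map_inv] at h2
    exact h2

/-- Under `FrameM`, `a₀` does not lie in the primes `v ∉ P`. -/
theorem a0_not_mem474 {𝔫 : Ideal (𝓞 K)} {P : Finset (HeightOneSpectrum (𝓞 K))}
    {e : HeightOneSpectrum (𝓞 K) → ℕ} {a₀ : 𝓞 K} {α : Kˣ} (hF : M.FrameM K 𝔫 P e a₀ α)
    {v : HeightOneSpectrum (𝓞 K)} (hv : v ∉ P) : a₀ ∉ v.asIdeal := by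
  intro ha
  have h1 : ∏ w ∈ P, w.asIdeal ^ e w ≤ v.asIdeal := by
    rw [← hF.span, Ideal.span_le]
    intro x hx
    rw [Set.mem_singleton_iff] at hx
    rw [hx]
    exact ha
  obtain ⟨w, hw, hle⟩ := (Ideal.IsPrime.prod_le v.isPrime).1 h1
  have h2 : w.asIdeal ≤ v.asIdeal := v.isPrime.le_of_pow_le hle
  have h3 : w.asIdeal = v.asIdeal := w.isMaximal.eq_of_le v.isPrime.ne_top h2
  have h4 : w = v := HeightOneSpectrum.ext h3
  exact hv (h4 ▸ hw)

/-- `α ≡ 1` and `α⁻¹ ≡ 1` modulo `𝔫 𝒪_v` at `v ∉ P`. -/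
theorem alpha_mem_unitsOne474 {𝔫 : Ideal (𝓞 K)} {P : Finset (HeightOneSpectrum (𝓞 K))}
    {e : HeightOneSpectrum (𝓞 K) → ℕ} {a₀ : 𝓞 K} {α : Kˣ} (hF : M.FrameM K 𝔫 P e a₀ α)
    {v : HeightOneSpectrum (𝓞 K)} (hv : v ∉ P) :
    finU K v (ratUnit K α) ∈ unitsOne922 (isIdl_idealClosure922 𝔫 v) := by
  have hI := isIdl_idealClosure922 𝔫 v
  have hu : ((finU K v (ratUnit K α) : (v.adicCompletion K)ˣ) : v.adicCompletion K)
      = imO922 v a₀ := by
    rw [finU_ratUnit_coe922, hF.coe]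
    rfl
  have h1 : ((finU K v (ratUnit K α) : (v.adicCompletion K)ˣ) : v.adicCompletion K) - 1
      ∈ idealClosure 𝔫 v := by
    have h2 : imO922 v a₀ - 1 = imO922 v (a₀ - 1) := by
      unfold imO922
      rw [map_sub, map_sub, map_one, map_one]
    rw [hu, h2]
    exact imO_mem_idealClosure922 𝔫 v hF.cong
  have hval : Valued.v (imO922 v a₀) = 1 := by
    rw [valued_imO922]
    refine le_antisymm (v.valuation_le_one a₀) ?_
    by_contra hlt
    rw [not_le] at hlt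
    exact a0_not_mem474 hF hv ((v.valuation_lt_one_iff_mem a₀).mp hlt)
  have hinvO : (((finU K v (ratUnit K α))⁻¹ : (v.adicCompletion K)ˣ) : v.adicCompletion K)
      ∈ intO922 v := by
    show _ ∈ v.adicCompletionIntegers K
    rw [HeightOneSpectrum.mem_adicCompletionIntegers, Units.val_inv_eq_inv_val, map_inv₀, hu,
      hval, inv_one]
  refine ⟨h1, ?_⟩
  have h3 : (((finU K v (ratUnit K α))⁻¹ : (v.adicCompletion K)ˣ) : v.adicCompletion K) - 1
      = -((((finU K v (ratUnit K α))⁻¹ : (v.adicCompletion K)ˣ) : v.adicCompletion K)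
          * (((finU K v (ratUnit K α) : (v.adicCompletion K)ˣ) : v.adicCompletion K) - 1)) := by
    rw [mul_sub, Units.inv_mul, mul_one]
    ring
  rw [h3]
  exact hI.neg (hI.smul hinvO h1)

/-- **M.6 = N.3 multi (the condition outside `P ∪ S_∞`).** -/
theorem outsideCosetMC474 (K : Type) [Field K] [NumberField K] : M.OutsideCosetMC K := by
  intro 𝔫 P e a₀ α hF k₁ k' hk₁ hk' c₁ c₂ j j' X X' hout
  rw [outsideUM_iff474] at hout ⊢
  have key : ∀ v : HeightOneSpectrum (𝓞 K), v ∉ P →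
      (InU922 (idealClosure 𝔫 v)
          (finGL K v (k₁ * upperGL (c₁ * ratUnit K α ^ j') c₂ X' * k'))
        ↔ finHom K v (X' - X) ∈ idealClosure 𝔫 v) := by
    intro v hv
    have hI := isIdl_idealClosure922 𝔫 v
    have h0 := hout v hv
    rw [map_mul, map_mul, finGL_upperGL922, map_mul, map_zpow] at h0
    rw [map_mul, map_mul, finGL_upperGL922, map_mul, map_zpow, map_sub]
    have ha := Subgroup.zpow_mem _ (alpha_mem_unitsOne474 hF hv) (j' - j)
    have hfac : finU K v c₁ * finU K v (ratUnit K α) ^ j'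
        = (finU K v c₁ * finU K v (ratUnit K α) ^ j) * finU K v (ratUnit K α) ^ (j' - j) := by
      rw [mul_assoc, ← zpow_add]
      congr 2
      ring
    rw [hfac]
    exact inU_coset922 hI (inGLO_of_stdCompact922 hk₁ v) (inGLO_of_stdCompact922 hk' v) _ _ _ _ _
      ha.1 ha.2 h0
  constructor
  · intro H v hv
    exact (key v hv).mp (H v hv)
  · intro H v hv
    exact (key v hv).mpr (H v hv)

example (K : Type) [Field K] [NumberField K] : M.OutsideCosetMC K := outsideCosetMC474 K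

end Fermat.Agent.LT.T3.M.H474

end

end
-- ===== PACK-END LT/T3/M/H474/OutsideCosetM.lean

-- ===== PACK-BEGIN LT/T3/M/H474/PureUpperM.lean
section



/-!
# Row LT, tower T3, station T3.18M, leaf M.5 `PureUpperMC` (helper474, SPARE, OFF-MAIN)

`pureUpperMC474 (K) : M.PureUpperMC K` = the frozen Prop of `LT/T3/M/Spec.lean`
(helper14@7627ebb18, sha256 bf15afa4), VERBATIM, unconditional.

The single-place proof of helper846 (`pureUpperC846`) with the factor at `v₀` replaced by the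
product over `v ∈ P`: `finGL`, `infGL` are multiplicative and map `upperGL` to `upperGL`
(`finGL_upperGL846`, `infGL_upperGL846`); bi-invariance of `f₀ v` (`v ∈ P`) and of `F w`.
-/

set_option autoImplicit false
set_option linter.style.haveILetI false
set_option linter.unusedSectionVars false

open IsDedekindDomain NumberField MeasureTheory
open Fermat.Agent.LT.H556.A0
open Fermat.Agent.LT.T3.AS Fermat.Agent.LT.T3.AS.N893 Fermat.Agent.LT.T3.AS.N893.H846

noncomputable section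

namespace Fermat.Agent.LT.T3.M.H474

variable (K : Type) [Field K] [NumberField K]

/-- **M.5 = N.2 multi (the pure tensor on `K⁰ B K⁰`).** -/
theorem pureUpperMC474 : M.PureUpperMC K := by
  intro 𝔫 P f₀ F hf₀ hF k₁ k' hk₁ hk' c₁ c₂ X
  have h0 : ∀ v ∈ P, f₀ v (finGL K v (k₁ * upperGL c₁ c₂ X * k'))
      = f₀ v (upperGL (finU K v c₁) (finU K v c₂) (finHom K v X)) := by
    intro v hv
    rw [map_mul, map_mul, finGL_upperGL846]
    exact hf₀ v hv _ _ _ (isIntGL_finGL846 K v k₁ hk₁) (isIntGL_finGL846 K v k' hk')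
  have hw : ∀ w : InfinitePlace K, F w (infGL K w (k₁ * upperGL c₁ c₂ X * k'))
      = F w (upperGL (infU K w c₁) (infU K w c₂) (infHom K w X)) := by
    intro w
    rw [map_mul, map_mul, infGL_upperGL846]
    exact (hF w).bi_inv _ _ _ (isUnitary2_infGL846 K w k₁ hk₁) (isUnitary2_infGL846 K w k' hk')
  unfold M.pureFnM
  by_cases h : M.OutsideUM K 𝔫 P (k₁ * upperGL c₁ c₂ X * k')
  · rw [if_pos h, if_pos h, one_mul, Finset.prod_congr rfl h0]
    congr 1
    exact Finset.prod_congr rfl (fun w _ => hw w)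
  · rw [if_neg h, if_neg h, zero_mul, zero_mul]

example : M.PureUpperMC K := pureUpperMC474 K

end Fermat.Agent.LT.T3.M.H474

end

end
-- ===== PACK-END LT/T3/M/H474/PureUpperM.lean

-- ===== PACK-BEGIN LT/T3/M/H474/ROpM.lean
section




/-!
# Row LT, tower T3, station T3.18M, leaf M.4 `ROpMC` (helper474, SPARE, OFF-MAIN)

`rOpMC474 (K) : M.ROpMC K` = the frozen Prop of `LT/T3/M/Spec.lean` (helper14@7627ebb18,
sha256 bf15afa4), VERBATIM, unconditional.

Route: INDUCTION ON `P`, the constant `κ₁` is the constant `c` of `pushforward_haar57`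
(helper57; it does not depend on `P`).  For every finite set `Q` of places prime to `𝔫` and
every `y`:

  `∫ φ(y x) pureFnM_Q(x) dμ(x) = c (∏_{v ∈ Q} laurent (A v) (z₁ v) (z₂ v)) (∏_w C_w) φ(y)`.

* `Q = ∅`: `pureFnM_∅ = pureOne57` and `integral_pureOne57` (helper57).
* `Q = {v₀} ∪ Q'`: `pureFnM_Q(x) = ∑_{h ∈ R_{v₀}} f₀_{v₀}(h) pureFnM_{Q'}(ι₀(h)⁻¹ x)`
  (`pureFnM_insert474`), left invariance of `μ`, the induction hypothesis at `y ι₀(h)`, and
  `AS.HasSatakeEigen` at `v₀` for the local eigenfunction `h ↦ φ(y ι₀(h))` (`isLocEigen_of57`).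
-/

set_option autoImplicit false
set_option linter.style.haveILetI false
set_option linter.unusedSectionVars false

open IsDedekindDomain NumberField Topology MeasureTheory
open Fermat.Agent.LT.H556.A0
open Fermat.Agent.LT.T1 Fermat.Agent.LT.T1.H724 Fermat.Agent.LT.T1.H793
open Fermat.Agent.LT.T3
open Fermat.Agent.LT.T3.H57
open scoped ENNReal

noncomputable section

namespace Fermat.Agent.LT.T3.M.H474

variable {K : Type} [Field K] [NumberField K]

/-- `OutsideUM` in terms of the local components. -/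
theorem outsideUM_iff_loc474 (𝔫 : Ideal (𝓞 K)) (P : Finset (HeightOneSpectrum (𝓞 K)))
    (x : G K) :
    M.OutsideUM K 𝔫 P x ↔
      ∀ v : HeightOneSpectrum (𝓞 K), v ∉ P → LocU57 𝔫 v (AS.finGL K v x) := by
  constructor
  · intro h v hv i j
    rw [finGL_val57, finGL_inv_val57]
    exact h v hv i j
  · intro h v hv i j
    have := h v hv i j
    rwa [finGL_val57, finGL_inv_val57] at this

/-- For `P = ∅` the pure tensor is `pureOne57`. -/
theorem pureFnM_empty474 (𝔫 : Ideal (𝓞 K))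
    (f₀ : ∀ v : HeightOneSpectrum (𝓞 K), GL (Fin 2) (v.adicCompletion K) → ℂ)
    (F : InfinitePlace K → GL (Fin 2) ℂ → ℂ) (x : G K) :
    M.pureFnM K 𝔫 ∅ f₀ F x = pureOne57 𝔫 F x := by
  classical
  have hiff : M.OutsideUM K 𝔫 ∅ x ↔ InU057 𝔫 x := by
    rw [outsideUM_iff_loc474, inU0_iff_loc57]
    constructor
    · intro h v
      exact h v (Finset.notMem_empty v)
    · intro h v _
      exact h v
  unfold M.pureFnM pureOne57
  by_cases hx : InU057 𝔫 x
  · rw [if_pos (hiff.2 hx), if_pos hx, Finset.prod_empty, one_mul]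
  · rw [if_neg (fun h => hx (hiff.1 h)), if_neg hx]

/-- The condition outside `P` after a translation at `v₀ ∉ P`, `v₀ ∤ 𝔫`. -/
theorem outsideUM_finEmb_inv_mul_iff474 [DecidableEq (HeightOneSpectrum (𝓞 K))]
    (𝔫 : Ideal (𝓞 K))
    (P : Finset (HeightOneSpectrum (𝓞 K))) (v₀ : HeightOneSpectrum (𝓞 K)) (hv₀P : v₀ ∉ P)
    (hv₀ : ¬ v₀.asIdeal ∣ 𝔫) (h : GL (Fin 2) (v₀.adicCompletion K)) (x : G K) :
    M.OutsideUM K 𝔫 P ((finEmb57 v₀ h)⁻¹ * x) ↔
      M.OutsideUM K 𝔫 (insert v₀ P) x ∧ AS.IsIntGL v₀ (h⁻¹ * AS.finGL K v₀ x) := by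
  rw [outsideUM_iff_loc474, outsideUM_iff_loc474]
  have hne : ∀ v, v ≠ v₀ → AS.finGL K v ((finEmb57 v₀ h)⁻¹ * x) = AS.finGL K v x := by
    intro v hv
    rw [map_mul, map_inv, finGL_finEmb_ne57 v₀ h v hv, inv_one, one_mul]
  have heq : AS.finGL K v₀ ((finEmb57 v₀ h)⁻¹ * x) = h⁻¹ * AS.finGL K v₀ x := by
    rw [map_mul, map_inv, finGL_finEmb57]
  constructor
  · intro hall
    refine ⟨fun v hv => ?_, ?_⟩
    · have hv' : v ≠ v₀ ∧ v ∉ P := by
        rw [Finset.mem_insert, not_or] at hv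
        exact hv
      rw [← hne v hv'.1]
      exact hall v hv'.2
    · rw [← heq, ← locU_iff_isIntGL57 𝔫 v₀ hv₀]
      exact hall v₀ hv₀P
  · rintro ⟨hout, hint⟩ v hv
    by_cases hvv : v = v₀
    · subst hvv
      rw [heq, locU_iff_isIntGL57 𝔫 v hv₀]
      exact hint
    · rw [hne v hvv]
      refine hout v ?_
      rw [Finset.mem_insert, not_or]
      exact ⟨hvv, hv⟩

/-- `pureFnM_{{v₀} ∪ P} = ∑_{h ∈ R} f₀_{v₀}(h) L_{ι₀(h)} pureFnM_P`. -/
theorem pureFnM_insert474 [DecidableEq (HeightOneSpectrum (𝓞 K))]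
    (𝔫 : Ideal (𝓞 K)) (P : Finset (HeightOneSpectrum (𝓞 K)))
    (v₀ : HeightOneSpectrum (𝓞 K)) (hv₀P : v₀ ∉ P) (hv₀ : ¬ v₀.asIdeal ∣ 𝔫)
    (f₀ : ∀ v : HeightOneSpectrum (𝓞 K), GL (Fin 2) (v.adicCompletion K) → ℂ)
    (F : InfinitePlace K → GL (Fin 2) ℂ → ℂ) (hf₀ : AS.IsBiIntInv v₀ (f₀ v₀))
    (R : Finset (GL (Fin 2) (v₀.adicCompletion K))) (hR : AS.IsRepSys v₀ (f₀ v₀) R) (x : G K) :
    M.pureFnM K 𝔫 (insert v₀ P) f₀ F x
      = ∑ h ∈ R, f₀ v₀ h * M.pureFnM K 𝔫 P f₀ F ((finEmb57 v₀ h)⁻¹ * x) := by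
  classical
  have hinf : ∀ (h : GL (Fin 2) (v₀.adicCompletion K)) (w : InfinitePlace K),
      AS.infGL K w ((finEmb57 v₀ h)⁻¹ * x) = AS.infGL K w x := by
    intro h w
    rw [map_mul, map_inv, infGL_finEmb57, inv_one, one_mul]
  have hfin : ∀ (h : GL (Fin 2) (v₀.adicCompletion K)),
      ∏ v ∈ P, f₀ v (AS.finGL K v ((finEmb57 v₀ h)⁻¹ * x)) = ∏ v ∈ P, f₀ v (AS.finGL K v x) := by
    intro h
    refine Finset.prod_congr rfl fun v hv => ?_
    have hvv : v ≠ v₀ := fun hh => hv₀P (hh ▸ hv)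
    rw [map_mul, map_inv, finGL_finEmb_ne57 v₀ h v hvv, inv_one, one_mul]
  obtain ⟨T, hT⟩ : ∃ T : ℂ, T = (∏ v ∈ P, f₀ v (AS.finGL K v x))
      * ∏ w : InfinitePlace K, F w (AS.infGL K w x) := ⟨_, rfl⟩
  have hterm : ∀ h : GL (Fin 2) (v₀.adicCompletion K),
      M.pureFnM K 𝔫 P f₀ F ((finEmb57 v₀ h)⁻¹ * x)
        = if M.OutsideUM K 𝔫 (insert v₀ P) x ∧ AS.IsIntGL v₀ (h⁻¹ * AS.finGL K v₀ x)
          then T else 0 := by
    intro h
    unfold M.pureFnM
    simp only [outsideUM_finEmb_inv_mul_iff474 𝔫 P v₀ hv₀P hv₀, hinf, hfin, hT]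
  have hlhs : M.pureFnM K 𝔫 (insert v₀ P) f₀ F x
      = if M.OutsideUM K 𝔫 (insert v₀ P) x then f₀ v₀ (AS.finGL K v₀ x) * T else 0 := by
    unfold M.pureFnM
    rw [Finset.prod_insert hv₀P, hT, mul_assoc]
  simp only [hterm]
  rw [hlhs]
  by_cases hout : M.OutsideUM K 𝔫 (insert v₀ P) x
  · simp only [hout, true_and, if_true]
    have hval : ∀ h : GL (Fin 2) (v₀.adicCompletion K),
        AS.IsIntGL v₀ (h⁻¹ * AS.finGL K v₀ x) → f₀ v₀ h = f₀ v₀ (AS.finGL K v₀ x) := by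
      intro h hint
      have := hf₀ 1 (h⁻¹ * AS.finGL K v₀ x) h (isIntGL_one57 v₀) hint
      rw [one_mul, mul_inv_cancel_left] at this
      exact this.symm
    by_cases h0 : f₀ v₀ (AS.finGL K v₀ x) = 0
    · rw [h0, zero_mul]
      symm
      refine Finset.sum_eq_zero fun h _ => ?_
      split_ifs with hint
      · rw [hval h hint, h0, zero_mul]
      · rw [mul_zero]
    · obtain ⟨h₀, hh₀, hint₀⟩ := hR.2 _ h0
      rw [Finset.sum_eq_single h₀]
      · rw [if_pos hint₀, hval h₀ hint₀]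
      · intro h hh hne
        rw [if_neg, mul_zero]
        intro hint
        apply hne
        refine hR.1 h hh h₀ hh₀ ?_
        have := isIntGL_mul57 v₀ hint (isIntGL_inv57 v₀ hint₀)
        rwa [mul_inv_rev, inv_inv, mul_assoc, mul_inv_cancel_left] at this
      · intro hh
        exact absurd hh₀ hh
  · simp only [hout, false_and, if_false, mul_zero, Finset.sum_const_zero]

/-- **M.4 `ROpMC`, unconditional.** -/
theorem rOpMC474 (K : Type) [Field K] [NumberField K] : M.ROpMC K := by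
  classical
  letI : MeasurableSpace (G K) := borel (G K)
  haveI : BorelSpace (G K) := ⟨rfl⟩
  letI : MeasurableSpace (GL (Fin 2) ℂ) := borel (GL (Fin 2) ℂ)
  haveI : BorelSpace (GL (Fin 2) ℂ) := ⟨rfl⟩
  haveI := secondCountable_GL2C57
  haveI := locallyCompact_GL2C57
  intro hK μ hμ μc hμc 𝔫 h𝔫 P hP
  haveI := hμ
  haveI := hμc
  obtain ⟨n, ⟨e⟩⟩ : ∃ n, Nonempty (InfinitePlace K ≃ Fin n) := ⟨_, ⟨Fintype.equivFin _⟩⟩
  obtain ⟨c, hc0, hc⟩ := pushforward_haar57 μ (Measure.pi fun _ : Fin n => μc)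
    {x : G K | InU057 𝔫 x} (isOpen_inU057 𝔫 h𝔫) (piInf57 e) (continuous_piInf57 e)
    (embFin57 hK e) (piInf_embFin57 hK e) (fun t x hx => inU0_embFin_mul57 hK e 𝔫 t x hx)
    (inU0_one57 𝔫) (fun C hC => measure_lt_top57 hK e 𝔫 μ C hC)
  refine ⟨(c : ℂ), by exact_mod_cast hc0.ne', ?_⟩
  intro A C f₀ F hf₀ hRex hA hF hC φ hφ a b z₁ z₂ he hab hb hb0 g
  have hB := fun y => integral_pureOne57 hK e 𝔫 h𝔫 μ μc c hc F hF C hC φ hφ y
  have key : ∀ Q : Finset (HeightOneSpectrum (𝓞 K)), Q ⊆ P → ∀ y : G K,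
      Integrable (fun x => φ (y * x) * M.pureFnM K 𝔫 Q f₀ F x) μ ∧
        ∫ x, φ (y * x) * M.pureFnM K 𝔫 Q f₀ F x ∂μ
          = (c : ℂ) * (∏ v ∈ Q, AS.laurent (A v) (z₁ v) (z₂ v)) * (∏ w, C w) * φ y := by
    intro Q
    induction Q using Finset.induction_on with
    | empty =>
      intro _ y
      have hfun : (fun x => φ (y * x) * M.pureFnM K 𝔫 ∅ f₀ F x)
          = fun x => φ (y * x) * pureOne57 𝔫 F x := by
        funext x
        rw [pureFnM_empty474]
      rw [hfun, Finset.prod_empty, mul_one]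
      exact hB y
    | insert v₀ Q hv₀Q ih =>
      intro hsub y
      have hv₀P : v₀ ∈ P := hsub (Finset.mem_insert_self v₀ Q)
      have hQP : Q ⊆ P := fun v hv => hsub (Finset.mem_insert_of_mem hv)
      have hv₀ : ¬ v₀.asIdeal ∣ 𝔫 := hP v₀ hv₀P
      obtain ⟨R, hR⟩ := hRex v₀ hv₀P
      have ihQ := ih hQP
      have hsum : ∀ x, φ (y * x) * M.pureFnM K 𝔫 (insert v₀ Q) f₀ F x
          = ∑ h ∈ R, f₀ v₀ h
              * (φ (y * x) * M.pureFnM K 𝔫 Q f₀ F ((finEmb57 v₀ h)⁻¹ * x)) := by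
        intro x
        rw [pureFnM_insert474 𝔫 Q v₀ hv₀Q hv₀ f₀ F (hf₀ v₀ hv₀P) R hR x, Finset.mul_sum]
        exact Finset.sum_congr rfl fun h _ => by ring
      have hterm_int : ∀ h : GL (Fin 2) (v₀.adicCompletion K),
          Integrable (fun x => φ (y * x)
            * M.pureFnM K 𝔫 Q f₀ F ((finEmb57 v₀ h)⁻¹ * x)) μ := by
        intro h
        have := ((ihQ (y * finEmb57 v₀ h)).1).comp_mul_left (finEmb57 v₀ h)⁻¹
        refine this.congr (Filter.Eventually.of_forall fun x => ?_)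
        simp only [mul_assoc, mul_inv_cancel_left]
      have hterm : ∀ h : GL (Fin 2) (v₀.adicCompletion K),
          ∫ x, φ (y * x) * M.pureFnM K 𝔫 Q f₀ F ((finEmb57 v₀ h)⁻¹ * x) ∂μ
            = (c : ℂ) * (∏ v ∈ Q, AS.laurent (A v) (z₁ v) (z₂ v)) * (∏ w, C w)
                * φ (y * finEmb57 v₀ h) := by
        intro h
        rw [← (ihQ (y * finEmb57 v₀ h)).2,
          ← integral_mul_left_eq_self
            (fun x => φ (y * finEmb57 v₀ h * x) * M.pureFnM K 𝔫 Q f₀ F x) (finEmb57 v₀ h)⁻¹]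
        refine integral_congr_ae (Filter.Eventually.of_forall fun x => ?_)
        simp only [mul_assoc, mul_inv_cancel_left]
      have hfun : (fun x => φ (y * x) * M.pureFnM K 𝔫 (insert v₀ Q) f₀ F x)
          = fun x => ∑ h ∈ R, f₀ v₀ h
              * (φ (y * x) * M.pureFnM K 𝔫 Q f₀ F ((finEmb57 v₀ h)⁻¹ * x)) := by
        funext x
        exact hsum x
      rw [hfun]
      refine ⟨integrable_finsetSum _ fun h _ => (hterm_int h).const_mul _, ?_⟩
      rw [integral_finsetSum _ (fun h _ => (hterm_int h).const_mul _)]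
      simp_rw [integral_const_mul, hterm]
      have hS := hA v₀ hv₀P (fun u => φ (y * finEmb57 v₀ u)) (a v₀) (b v₀) (z₁ v₀) (z₂ v₀)
        (isLocEigen_of57 𝔫 v₀ hv₀ φ hφ (a v₀) (b v₀) (he v₀ hv₀P) y) (hab v₀ hv₀P)
        (hb v₀ hv₀P) (hb0 v₀ hv₀P) R hR 1
      simp only [one_mul, map_one, mul_one] at hS
      rw [Finset.prod_insert hv₀Q]
      calc ∑ h ∈ R, f₀ v₀ h * ((c : ℂ) * (∏ v ∈ Q, AS.laurent (A v) (z₁ v) (z₂ v))
              * (∏ w, C w) * φ (y * finEmb57 v₀ h))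
          = (c : ℂ) * (∏ v ∈ Q, AS.laurent (A v) (z₁ v) (z₂ v)) * (∏ w, C w)
              * ∑ h ∈ R, f₀ v₀ h * φ (y * finEmb57 v₀ h) := by
            rw [Finset.mul_sum]
            exact Finset.sum_congr rfl fun h _ => by ring
        _ = (c : ℂ) * (AS.laurent (A v₀) (z₁ v₀) (z₂ v₀)
              * ∏ v ∈ Q, AS.laurent (A v) (z₁ v) (z₂ v)) * (∏ w, C w) * φ y := by
            rw [hS]
            ring
  unfold Rop
  exact (key P (Finset.Subset.refl P) g).2

end Fermat.Agent.LT.T3.M.H474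

end

end
-- ===== PACK-END LT/T3/M/H474/ROpM.lean

-- ===== PACK-BEGIN LT/T3/M/H719/SplitM.lean
section




/-!
# Row LT, tower T3, station T3.18M, leaf M.7 `M.SplitMC` (helper719) -- OFF-MAIN

`splitMC719 K : M.SplitMC K`, VERBATIM the Prop of `LT/T3/M/Spec.lean` (helper14, sha256
`bf15afa4075803ee`), UNCONDITIONAL.

The closed single-place proof (`H129.splitC129`, helper129 on 497, 322, 250, 904, 800) with `v₀`
replaced by the finite set `P`:

* `E₀ = outGrpM K 𝔫 P` is an open additive subgroup of `𝔸_K` (proof of helper497);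
* `p = projM719 : 𝔸_K → (∀ v : P, K_v) × (S_∞ → ℂ)` maps `E₀` onto the target (the adele with the
  given components at `P` and at the infinite places and `0` elsewhere);
* `E₀ ∩ p⁻¹ (∏_{v ∈ P} 𝒪_v × unit balls)` lies in the compact box `T1.H919.box919 K 1`;
* hence `p_* (ν|_{E₀})` is a Haar measure (proof of helper904), and `prodHaarM719` applies.
-/

set_option autoImplicit false
set_option linter.style.haveILetI false

open IsDedekindDomain NumberField MeasureTheory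
open Fermat.Agent.LT.H556.A0 Fermat.Agent.LT.T3.AS Fermat.Agent.LT.T3.AS.N893

noncomputable section

namespace Fermat.Agent.LT.T3.M.H719

variable (K : Type) [Field K] [NumberField K]

/-- The projection `X ↦ ((X_v)_{v ∈ P}, (X_w)_w)`. -/
def projM719 (P : Finset (HeightOneSpectrum (𝓞 K))) (X : Adl K) :
    (∀ v : P, (v : HeightOneSpectrum (𝓞 K)).adicCompletion K) × (InfinitePlace K → ℂ) :=
  (fun v => finHom K v X, fun w => infHom K w X)

theorem continuous_projM719 (P : Finset (HeightOneSpectrum (𝓞 K))) :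
    Continuous (projM719 K P) := by
  unfold projM719
  exact (continuous_pi fun v : P =>
      Fermat.Agent.LT.T3.H904.continuous_finHom904 K (v : HeightOneSpectrum (𝓞 K))).prodMk
    (continuous_pi fun w => Fermat.Agent.LT.T3.H904.continuous_infHom904 K w)

theorem projM_add719 (P : Finset (HeightOneSpectrum (𝓞 K))) (X Y : Adl K) :
    projM719 K P (X + Y) = projM719 K P X + projM719 K P Y :=
  Prod.ext (funext fun v => map_add (finHom K v) X Y) (funext fun w => map_add (infHom K w) X Y)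

theorem projM_zero719 (P : Finset (HeightOneSpectrum (𝓞 K))) : projM719 K P 0 = 0 :=
  Prod.ext (funext fun v => map_zero (finHom K v)) (funext fun w => map_zero (infHom K w))

/-! ## `E₀` is an open additive subgroup -/

theorem zero_mem_outGrpM719 (𝔫 : Ideal (𝓞 K)) (P : Finset (HeightOneSpectrum (𝓞 K))) :
    (0 : Adl K) ∈ outGrpM K 𝔫 P := by
  intro v _
  rw [map_zero, Fermat.Agent.LT.T3.H904.idealClosure_eq904]
  exact zero_mem _

theorem add_mem_outGrpM719 (𝔫 : Ideal (𝓞 K)) (P : Finset (HeightOneSpectrum (𝓞 K)))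
    {X Y : Adl K} (hX : X ∈ outGrpM K 𝔫 P) (hY : Y ∈ outGrpM K 𝔫 P) :
    X + Y ∈ outGrpM K 𝔫 P := by
  intro v hv
  have h1 := hX v hv
  have h2 := hY v hv
  rw [Fermat.Agent.LT.T3.H904.idealClosure_eq904] at h1 h2 ⊢
  rw [map_add]
  exact add_mem h1 h2

theorem neg_mem_outGrpM719 (𝔫 : Ideal (𝓞 K)) (P : Finset (HeightOneSpectrum (𝓞 K)))
    {X : Adl K} (hX : X ∈ outGrpM K 𝔫 P) : -X ∈ outGrpM K 𝔫 P := by
  intro v hv
  have h1 := hX v hv
  rw [Fermat.Agent.LT.T3.H904.idealClosure_eq904] at h1 ⊢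
  rw [map_neg]
  exact neg_mem h1

theorem preimage_add_outGrpM719 (𝔫 : Ideal (𝓞 K)) (P : Finset (HeightOneSpectrum (𝓞 K)))
    {X₀ : Adl K} (hX₀ : X₀ ∈ outGrpM K 𝔫 P) :
    (fun X : Adl K => X₀ + X) ⁻¹' outGrpM K 𝔫 P = outGrpM K 𝔫 P := by
  ext X
  constructor
  · intro h
    have h' : X₀ + X ∈ outGrpM K 𝔫 P := h
    have := add_mem_outGrpM719 K 𝔫 P (neg_mem_outGrpM719 K 𝔫 P hX₀) h'
    rwa [neg_add_cancel_left] at this
  · intro h
    exact add_mem_outGrpM719 K 𝔫 P hX₀ h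

/-- `E₀` is open (proof of helper497, `T3.H497.splitOpenC497`). -/
theorem isOpen_outGrpM719 (𝔫 : Ideal (𝓞 K)) (h𝔫 : 𝔫 ≠ ⊥)
    (P : Finset (HeightOneSpectrum (𝓞 K))) : IsOpen (outGrpM K 𝔫 P) := by
  obtain ⟨a, ha, ha0⟩ : ∃ a ∈ 𝔫, a ≠ 0 := Submodule.exists_mem_ne_zero_of_ne_bot h𝔫
  have hα : algebraMap (𝓞 K) K a ≠ 0 := by
    intro h
    exact ha0 ((FaithfulSMul.algebraMap_injective (𝓞 K) K) (by rw [h, map_zero]))
  set α : K := algebraMap (𝓞 K) K a with hαdef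
  rw [isOpen_iff_mem_nhds]
  intro X hX
  have hcont : Continuous (fun Y : Adl K => algebraMap K (Adl K) α⁻¹ * (Y - X)) :=
    continuous_const.mul (continuous_id.sub continuous_const)
  have hU : {Y : Adl K | ∀ v : HeightOneSpectrum (𝓞 K),
      Valued.v (finHom K v (algebraMap K (Adl K) α⁻¹ * (Y - X))) ≤ 1} ∈ nhds X := by
    refine ((Fermat.Agent.LT.T3.H497.isOpen_intAdl497 (K := K)).preimage hcont).mem_nhds ?_
    intro v
    show Valued.v (finHom K v (algebraMap K (Adl K) α⁻¹ * (X - X))) ≤ 1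
    rw [sub_self, mul_zero, map_zero, map_zero]
    exact zero_le_one
  refine Filter.mem_of_superset hU ?_
  intro Y hY v hv
  have hYv := hY v
  have e0 : algebraMap K (Adl K) α * (algebraMap K (Adl K) α⁻¹ * (Y - X)) = Y - X := by
    rw [← mul_assoc, ← map_mul, mul_inv_cancel₀ hα, map_one, one_mul]
  have e1 : finHom K v (algebraMap K (Adl K) α) = algebraMap K (v.adicCompletion K) α := rfl
  have e : finHom K v Y = finHom K v X
      + algebraMap K (v.adicCompletion K) α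
        * finHom K v (algebraMap K (Adl K) α⁻¹ * (Y - X)) := by
    rw [← e1, ← map_mul, e0, map_sub]
    ring
  show finHom K v Y ∈ idealClosure 𝔫 v
  rw [e]
  exact Fermat.Agent.LT.T3.H497.add_mem_idealClosure497 𝔫 v (hX v hv)
    (Fermat.Agent.LT.T3.H497.mul_int_mem_idealClosure497 v ha hYv)

/-! ## The section -/

open scoped Classical in
/-- The finite adele with the components `x v` at `v ∈ P` and `0` elsewhere. -/
def finFamily719 (P : Finset (HeightOneSpectrum (𝓞 K)))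
    (x : ∀ v : P, (v : HeightOneSpectrum (𝓞 K)).adicCompletion K) :
    FiniteAdeleRing (𝓞 K) K :=
  ⟨fun v => if h : v ∈ P then x ⟨v, h⟩ else 0, by
    rw [Filter.eventually_cofinite]
    refine P.finite_toSet.subset ?_
    intro v hv
    by_contra hvP
    apply hv
    have hvP' : v ∉ P := hvP
    simp only [dif_neg hvP']
    exact zero_mem _⟩

open scoped Classical in
theorem finFamily719_mem (P : Finset (HeightOneSpectrum (𝓞 K)))
    (x : ∀ v : P, (v : HeightOneSpectrum (𝓞 K)).adicCompletion K) (v : P) :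
    finFamily719 K P x (v : HeightOneSpectrum (𝓞 K)) = x v := by
  show (if h : (v : HeightOneSpectrum (𝓞 K)) ∈ P then x ⟨v, h⟩ else 0) = x v
  rw [dif_pos v.2]

open scoped Classical in
theorem finFamily719_not_mem (P : Finset (HeightOneSpectrum (𝓞 K)))
    (x : ∀ v : P, (v : HeightOneSpectrum (𝓞 K)).adicCompletion K)
    {v : HeightOneSpectrum (𝓞 K)} (hv : v ∉ P) : finFamily719 K P x v = 0 := by
  show (if h : v ∈ P then x ⟨v, h⟩ else (0 : v.adicCompletion K)) = 0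
  rw [dif_neg hv]

/-- Every element of the target is the projection of an element of `E₀`. -/
theorem exists_section719 (hcpx : ∀ w : InfinitePlace K, w.IsComplex) (𝔫 : Ideal (𝓞 K))
    (P : Finset (HeightOneSpectrum (𝓞 K)))
    (h : (∀ v : P, (v : HeightOneSpectrum (𝓞 K)).adicCompletion K) × (InfinitePlace K → ℂ)) :
    ∃ X : Adl K, X ∈ outGrpM K 𝔫 P ∧ projM719 K P X = h := by
  choose y hy using fun w : InfinitePlace K =>
    InfinitePlace.Completion.surjective_extensionEmbedding_of_isComplex (hcpx w) (h.2 w)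
  refine ⟨((y : InfiniteAdeleRing K), finFamily719 K P h.1), ?_, ?_⟩
  · intro v hv
    have h1 : finHom K v (((y : InfiniteAdeleRing K), finFamily719 K P h.1) : Adl K)
        = finFamily719 K P h.1 v := rfl
    rw [h1, finFamily719_not_mem K P h.1 hv]
    exact Fermat.Agent.LT.T3.H322.zero_mem_idealClosure322 K 𝔫 v
  · refine Prod.ext (funext fun v => ?_) (funext fun w => ?_)
    · have h1 : finHom K v (((y : InfiniteAdeleRing K), finFamily719 K P h.1) : Adl K)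
          = finFamily719 K P h.1 v := rfl
      show finHom K v (((y : InfiniteAdeleRing K), finFamily719 K P h.1) : Adl K) = h.1 v
      rw [h1, finFamily719_mem]
    · have h1 : infHom K w (((y : InfiniteAdeleRing K), finFamily719 K P h.1) : Adl K)
          = InfinitePlace.Completion.extensionEmbedding w (y w) := rfl
      show infHom K w (((y : InfiniteAdeleRing K), finFamily719 K P h.1) : Adl K) = h.2 w
      rw [h1, hy w]

/-! ## The box -/

/-- The elements of `E₀` which are integral at `P` and of norm `≤ 1` at the infinite places lie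
in the compact box. -/
theorem mem_box_of_outGrpM719 (𝔫 : Ideal (𝓞 K)) (P : Finset (HeightOneSpectrum (𝓞 K)))
    {X : Adl K} (hX : X ∈ outGrpM K 𝔫 P)
    (hP : ∀ v ∈ P, Valued.v (finHom K v X) ≤ 1)
    (hinf : ∀ w : InfinitePlace K, ‖infHom K w X‖ ≤ 1) :
    X ∈ Fermat.Agent.LT.T1.H919.box919 K 1 := by
  refine ⟨fun w => ?_, fun v => ?_⟩
  · have h := hinf w
    have e : infHom K w X = InfinitePlace.Completion.extensionEmbedding w (X.1 w) := rfl
    rw [e, Fermat.Agent.LT.T1.H793.norm_extensionEmbedding793] at h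
    exact h
  · by_cases hv : v ∈ P
    · have h := hP v hv
      have e : finHom K v X = X.2 v := rfl
      rw [e] at h
      exact (HeightOneSpectrum.mem_adicCompletionIntegers (R := 𝓞 K) (K := K) (v := v)).2 h
    · exact Fermat.Agent.LT.T3.H250.idealClosure_subset_integers250 K 𝔫 v (hX v hv)

/-! ## The Haar property (proof of helper904, `T3.H904.splitHaar_of904`) -/

/-- The image of `ν|_{E₀}` under the projection is a Haar measure of
`(∀ v : P, K_v) × (S_∞ → ℂ)`. -/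
theorem splitHaarM719 (hcpx : ∀ w : InfinitePlace K, w.IsComplex)
    [MeasurableSpace (Adl K)] [BorelSpace (Adl K)]
    [∀ v : HeightOneSpectrum (𝓞 K), MeasurableSpace (v.adicCompletion K)]
    [∀ v : HeightOneSpectrum (𝓞 K), BorelSpace (v.adicCompletion K)]
    (ν : Measure (Adl K)) [ν.IsAddHaarMeasure] (𝔫 : Ideal (𝓞 K)) (h𝔫 : 𝔫 ≠ ⊥)
    (P : Finset (HeightOneSpectrum (𝓞 K))) :
    (Measure.map (projM719 K P) (ν.restrict (outGrpM K 𝔫 P))).IsAddHaarMeasure := by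
  haveI : ∀ v : HeightOneSpectrum (𝓞 K), SecondCountableTopology (v.adicCompletion K) :=
    fun v => Fermat.Agent.LT.H11.SC.secondCountableTopology_adicCompletion_h11 K v
  have hE₀open : IsOpen (outGrpM K 𝔫 P) := isOpen_outGrpM719 K 𝔫 h𝔫 P
  have hE₀meas : MeasurableSet (outGrpM K 𝔫 P) := hE₀open.measurableSet
  have hpc : Continuous (projM719 K P) := continuous_projM719 K P
  have hpm : Measurable (projM719 K P) := hpc.measurable
  -- invariance
  haveI hinv : (Measure.map (projM719 K P) (ν.restrict (outGrpM K 𝔫 P))).IsAddLeftInvariant := by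
    refine ⟨fun h => ?_⟩
    obtain ⟨Xh, hXh, hpX⟩ := exists_section719 K hcpx 𝔫 P h
    rw [Measure.map_map (measurable_const_add h) hpm]
    have hcomp : (fun x => h + x) ∘ projM719 K P
        = projM719 K P ∘ (fun X : Adl K => Xh + X) := by
      funext X
      show h + projM719 K P X = projM719 K P (Xh + X)
      rw [projM_add719, hpX]
    rw [hcomp, ← Measure.map_map hpm (measurable_const_add Xh)]
    congr 1
    have hpre := preimage_add_outGrpM719 K 𝔫 P hXh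
    calc Measure.map (fun X : Adl K => Xh + X) (ν.restrict (outGrpM K 𝔫 P))
        = Measure.map (fun X : Adl K => Xh + X)
            (ν.restrict ((fun X : Adl K => Xh + X) ⁻¹' outGrpM K 𝔫 P)) := by rw [hpre]
      _ = (Measure.map (fun X : Adl K => Xh + X) ν).restrict (outGrpM K 𝔫 P) :=
          (Measure.restrict_map (measurable_const_add Xh) hE₀meas).symm
      _ = ν.restrict (outGrpM K 𝔫 P) := by rw [map_add_left_eq_self]
  -- the compact neighbourhood of `0`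
  set O : Set (∀ v : P, (v : HeightOneSpectrum (𝓞 K)).adicCompletion K) :=
    Set.pi Set.univ (fun v : P =>
      (((v : HeightOneSpectrum (𝓞 K)).adicCompletionIntegers K :
        Set ((v : HeightOneSpectrum (𝓞 K)).adicCompletion K)))) with hO
  have hOc : IsCompact O :=
    isCompact_univ_pi fun v : P =>
      Fermat.Agent.LT.H11.LC.isCompact_integers_h11 K (v : HeightOneSpectrum (𝓞 K))
  have hOo : IsOpen O :=
    isOpen_set_pi Set.finite_univ fun v _ =>
      Valued.isOpen_valuationSubring ((v : HeightOneSpectrum (𝓞 K)).adicCompletion K)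
  have hK0c : IsCompact (O ×ˢ Metric.closedBall (0 : InfinitePlace K → ℂ) 1) :=
    hOc.prod (isCompact_closedBall 0 1)
  have hUo : IsOpen (O ×ˢ Metric.ball (0 : InfinitePlace K → ℂ) 1) :=
    hOo.prod Metric.isOpen_ball
  have hUsub : (O ×ˢ Metric.ball (0 : InfinitePlace K → ℂ) 1) ⊆
      (O ×ˢ Metric.closedBall (0 : InfinitePlace K → ℂ) 1) :=
    Set.prod_mono le_rfl Metric.ball_subset_closedBall
  have h0O : (0 : ∀ v : P, (v : HeightOneSpectrum (𝓞 K)).adicCompletion K) ∈ O :=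
    fun v _ => zero_mem _
  have h0U : (0 : (∀ v : P, (v : HeightOneSpectrum (𝓞 K)).adicCompletion K)
      × (InfinitePlace K → ℂ)) ∈ (O ×ˢ Metric.ball (0 : InfinitePlace K → ℂ) 1) :=
    ⟨h0O, Metric.mem_ball_self one_pos⟩
  have hK0i : (interior (O ×ˢ Metric.closedBall (0 : InfinitePlace K → ℂ) 1)).Nonempty :=
    ⟨0, interior_maximal hUsub hUo h0U⟩
  -- positivity
  have hpos : Measure.map (projM719 K P) (ν.restrict (outGrpM K 𝔫 P))
      (O ×ˢ Metric.closedBall (0 : InfinitePlace K → ℂ) 1) ≠ 0 := by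
    have hle := measure_mono (μ := Measure.map (projM719 K P) (ν.restrict (outGrpM K 𝔫 P)))
      hUsub
    have hU : Measure.map (projM719 K P) (ν.restrict (outGrpM K 𝔫 P))
        (O ×ˢ Metric.ball (0 : InfinitePlace K → ℂ) 1) ≠ 0 := by
      rw [Measure.map_apply hpm hUo.measurableSet,
        Measure.restrict_apply (hpm hUo.measurableSet)]
      have hopen : IsOpen (projM719 K P ⁻¹'
          (O ×ˢ Metric.ball (0 : InfinitePlace K → ℂ) 1) ∩ outGrpM K 𝔫 P) :=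
        (hUo.preimage hpc).inter hE₀open
      have hne : (projM719 K P ⁻¹'
          (O ×ˢ Metric.ball (0 : InfinitePlace K → ℂ) 1) ∩ outGrpM K 𝔫 P).Nonempty := by
        refine ⟨0, ?_, zero_mem_outGrpM719 K 𝔫 P⟩
        show projM719 K P 0 ∈ (O ×ˢ Metric.ball (0 : InfinitePlace K → ℂ) 1)
        rw [projM_zero719]
        exact h0U
      exact (hopen.measure_pos ν hne).ne'
    intro h0
    rw [h0] at hle
    exact hU (le_antisymm hle bot_le)
  -- finiteness
  have hfin : Measure.map (projM719 K P) (ν.restrict (outGrpM K 𝔫 P))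
      (O ×ˢ Metric.closedBall (0 : InfinitePlace K → ℂ) 1) ≠ ⊤ := by
    have hK0m : MeasurableSet (O ×ˢ Metric.closedBall (0 : InfinitePlace K → ℂ) 1) :=
      hK0c.isClosed.measurableSet
    rw [Measure.map_apply hpm hK0m, Measure.restrict_apply (hpm hK0m)]
    refine ((measure_mono ?_).trans_lt
      (Fermat.Agent.LT.T1.H919.isCompact_box919 (K := K) 1).measure_lt_top).ne
    rintro X ⟨hX1, hX2⟩
    have hX1' : projM719 K P X ∈ (O ×ˢ Metric.closedBall (0 : InfinitePlace K → ℂ) 1) := hX1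
    refine mem_box_of_outGrpM719 K 𝔫 P hX2 ?_ ?_
    · intro v hv
      have hmem := hX1'.1 ⟨v, hv⟩ (Set.mem_univ _)
      exact (HeightOneSpectrum.mem_adicCompletionIntegers (R := 𝓞 K) (K := K) (v := v)).1 hmem
    · intro w
      have hb : (fun w => infHom K w X) ∈ Metric.closedBall (0 : InfinitePlace K → ℂ) 1 :=
        hX1'.2
      rw [mem_closedBall_zero_iff] at hb
      exact (norm_le_pi_norm (fun w => infHom K w X) w).trans hb
  exact Measure.isAddHaarMeasure_of_isCompact_nonempty_interior _ _ hK0c hK0i hpos hfin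

/-- `E₀` is closed in `𝔸_K`. -/
theorem isClosed_outGrpM719 (𝔫 : Ideal (𝓞 K)) (P : Finset (HeightOneSpectrum (𝓞 K))) :
    IsClosed (outGrpM K 𝔫 P) := by
  have e : outGrpM K 𝔫 P
      = ⋂ v : HeightOneSpectrum (𝓞 K), ⋂ _ : v ∉ P,
          (fun X : Adl K => finHom K v X) ⁻¹' idealClosure 𝔫 v := by
    ext X
    simp only [outGrpM, Set.mem_ofPred_eq, Set.mem_iInter, Set.mem_preimage]
  rw [e]
  refine isClosed_iInter fun v => isClosed_iInter fun _ => ?_
  exact IsClosed.preimage (Fermat.Agent.LT.T3.H904.continuous_finHom904 K v) isClosed_closure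

/-! ## The leaf -/

/-- **T3.18M.7 = M.7 `SplitMC`**, VERBATIM, UNCONDITIONAL. -/
theorem splitMC719 : SplitMC K := by
  letI : MeasurableSpace (Adl K) := borel (Adl K)
  haveI : BorelSpace (Adl K) := ⟨rfl⟩
  intro hcx ν hν 𝔫 h𝔫 P
  letI mv : ∀ v : HeightOneSpectrum (𝓞 K), MeasurableSpace (v.adicCompletion K) :=
    fun v => borel (v.adicCompletion K)
  haveI : ∀ v : HeightOneSpectrum (𝓞 K), BorelSpace (v.adicCompletion K) := fun v => ⟨rfl⟩
  haveI : ∀ v : HeightOneSpectrum (𝓞 K), LocallyCompactSpace (v.adicCompletion K) :=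
    fun v => Fermat.Agent.LT.H11.LC.locallyCompactSpace_adicCompletion_h11 K v
  haveI : ∀ v : HeightOneSpectrum (𝓞 K), SecondCountableTopology (v.adicCompletion K) :=
    fun v => Fermat.Agent.LT.H11.SC.secondCountableTopology_adicCompletion_h11 K v
  refine ⟨fun v => (Measure.addHaar : Measure (v.adicCompletion K)), fun v => inferInstance, ?_⟩
  have hμ : (Measure.map (projM719 K P) (ν.restrict (outGrpM K 𝔫 P))).IsAddHaarMeasure :=
    splitHaarM719 K hcx ν 𝔫 h𝔫 P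
  obtain ⟨c₀, h⟩ := prodHaarM719
    (fun v : P => (v : HeightOneSpectrum (𝓞 K)).adicCompletion K) (InfinitePlace K) _ hμ
  refine ⟨c₀, ?_⟩
  intro φ₀ φ hφ₀ hφ₀c hφ hφc
  obtain ⟨hint, hval⟩ := h (fun v : P => φ₀ (v : HeightOneSpectrum (𝓞 K))) φ
    (fun v => hφ₀ v v.2) (fun v => hφ₀c v v.2) hφ hφc
  have hE : MeasurableSet (outGrpM K 𝔫 P) := (isClosed_outGrpM719 K 𝔫 P).measurableSet
  have hp : Measurable (projM719 K P) := (continuous_projM719 K P).measurable
  have hfc : Continuous (fun h : (∀ v : P, (v : HeightOneSpectrum (𝓞 K)).adicCompletion K)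
        × (InfinitePlace K → ℂ) =>
      (∏ v : P, φ₀ (v : HeightOneSpectrum (𝓞 K)) (h.1 v))
        * ∏ w : InfinitePlace K, φ w (h.2 w)) := by
    refine (continuous_finsetProd _ fun v _ => ?_).mul (continuous_finsetProd _ fun w _ => ?_)
    · exact (hφ₀ v v.2).comp ((continuous_apply v).comp continuous_fst)
    · exact (hφ w).comp ((continuous_apply w).comp continuous_snd)
  have hfun : (fun X : Adl K => (outGrpM K 𝔫 P).indicator (fun _ => (1 : ℂ)) X
        * (∏ v ∈ P, φ₀ v (finHom K v X)) * ∏ w : InfinitePlace K, φ w (infHom K w X))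
      = (outGrpM K 𝔫 P).indicator
          ((fun h : (∀ v : P, (v : HeightOneSpectrum (𝓞 K)).adicCompletion K)
              × (InfinitePlace K → ℂ) =>
            (∏ v : P, φ₀ (v : HeightOneSpectrum (𝓞 K)) (h.1 v))
              * ∏ w : InfinitePlace K, φ w (h.2 w)) ∘ projM719 K P) := by
    funext X
    have hprod : (∏ v ∈ P, φ₀ v (finHom K v X))
        = ∏ v : P, φ₀ (v : HeightOneSpectrum (𝓞 K)) (finHom K (v : HeightOneSpectrum (𝓞 K)) X) :=
      (Finset.prod_coe_sort P (fun v => φ₀ v (finHom K v X))).symm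
    by_cases hX : X ∈ outGrpM K 𝔫 P
    · rw [Set.indicator_of_mem hX, Set.indicator_of_mem hX, one_mul, hprod]
      rfl
    · rw [Set.indicator_of_notMem hX, Set.indicator_of_notMem hX, zero_mul, zero_mul]
  have hprodI : (∏ v ∈ P, ∫ x, φ₀ v x ∂(Measure.addHaar : Measure (v.adicCompletion K)))
      = ∏ v : P, ∫ x, φ₀ (v : HeightOneSpectrum (𝓞 K)) x
          ∂(Measure.addHaar : Measure ((v : HeightOneSpectrum (𝓞 K)).adicCompletion K)) :=
    (Finset.prod_coe_sort P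
      (fun v => ∫ x, φ₀ v x ∂(Measure.addHaar : Measure (v.adicCompletion K)))).symm
  rw [hfun]
  constructor
  · rw [integrable_indicator_iff hE]
    exact (integrable_map_measure hfc.aestronglyMeasurable hp.aemeasurable).mp hint
  · rw [integral_indicator hE, hprodI, ← hval]
    exact (integral_map hp.aemeasurable hfc.aestronglyMeasurable).symm

example : SplitMC K := splitMC719 K

end Fermat.Agent.LT.T3.M.H719

end

end
-- ===== PACK-END LT/T3/M/H719/SplitM.lean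

-- ===== PACK-BEGIN LT/T3/M/H793/ProdFormM.lean
section


/-!
# Row LT, tower T3, station T3.18M, leaf M.9 `M.ProdFormMC` (helper793)

OFF-MAIN.  On `LT/T3/M/Spec.lean` (helper14@7627ebb18, byte-identical copy, sha256 bf15afa4...).
No hole, nothing assumed.

    prodFormMC793 (K) : Fermat.Agent.LT.T3.M.ProdFormMC K

For a totally complex field `∏_w (w α)² = |N_{K/ℚ} α|` (`InfinitePlace.prod_eq_abs_norm`,
`mult w = 2`), and `|N_{K/ℚ} a₀| = N((a₀)) = ∏_{v ∈ P} N(𝔭_v)^{e_v}`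
(`Ideal.absNorm_span_singleton`, `map_prod`, `map_pow`), hence
`∏_w w α = ∏_{v ∈ P} N(𝔭_v)^{e_v/2}`.  Multi-place form of `H915.prodFormC915` (helper915).
-/

set_option autoImplicit false

open IsDedekindDomain NumberField

noncomputable section

namespace Fermat.Agent.LT.T3.M.H793

open Fermat.Agent.LT.T3.M

/-- `∏_w (w x)² = |N_{K/ℚ} x|` for a totally complex field. -/
theorem prod_sq_eq_abs_norm793 (K : Type) [Field K] [NumberField K]
    (hcpx : ∀ w : InfinitePlace K, w.IsComplex) (x : K) :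
    (∏ w : InfinitePlace K, w x) ^ 2 = ((|Algebra.norm ℚ x| : ℚ) : ℝ) := by
  rw [← Finset.prod_pow, ← InfinitePlace.prod_eq_abs_norm]
  refine Finset.prod_congr rfl fun w _ => ?_
  have hm : w.mult = 2 := by
    unfold InfinitePlace.mult
    rw [if_neg (InfinitePlace.not_isReal_iff_isComplex.mpr (hcpx w))]
  rw [hm]

/-- `|N_{K/ℚ} a₀| = ∏_{v ∈ P} N(𝔭_v)^{e_v}` if `(a₀) = ∏_{v ∈ P} 𝔭_v^{e_v}`. -/
theorem abs_norm_eq_prod793 (K : Type) [Field K] [NumberField K]
    (P : Finset (HeightOneSpectrum (𝓞 K))) (e : HeightOneSpectrum (𝓞 K) → ℕ) (a₀ : 𝓞 K)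
    (hspan : Ideal.span {a₀} = ∏ v ∈ P, v.asIdeal ^ e v) :
    ((|Algebra.norm ℚ (algebraMap (𝓞 K) K a₀)| : ℚ) : ℝ)
      = ∏ v ∈ P, (Ideal.absNorm v.asIdeal : ℝ) ^ e v := by
  have h1 : Ideal.absNorm (Ideal.span {a₀}) = ∏ v ∈ P, Ideal.absNorm v.asIdeal ^ e v := by
    rw [hspan, map_prod]
    exact Finset.prod_congr rfl fun v _ => map_pow _ _ _
  rw [Ideal.absNorm_span_singleton] at h1
  have h2 : (Algebra.norm ℚ (algebraMap (𝓞 K) K a₀) : ℚ) = ((Algebra.norm ℤ a₀ : ℤ) : ℚ) :=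
    (Algebra.coe_norm_int a₀).symm
  have h3 : (|Algebra.norm ℤ a₀| : ℤ) = ((∏ v ∈ P, Ideal.absNorm v.asIdeal ^ e v : ℕ) : ℤ) := by
    rw [← h1]
    exact (Int.natCast_natAbs _).symm
  rw [h2, ← Int.cast_abs, h3]
  push_cast
  rfl

/-- **T3.18M.9 (M.9 = N.8 multi, product formula).** -/
theorem prodFormMC793 (K : Type) [Field K] [NumberField K] : ProdFormMC K := by
  intro hcpx 𝔫 P e a₀ α hF
  have hq : ∀ v : HeightOneSpectrum (𝓞 K), (0 : ℝ) < (Ideal.absNorm v.asIdeal : ℝ) := by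
    intro v
    have hq0 : Ideal.absNorm v.asIdeal ≠ 0 := fun h =>
      v.ne_bot (Ideal.absNorm_eq_zero_iff.mp h)
    exact_mod_cast Nat.pos_of_ne_zero hq0
  have hP0 : 0 ≤ ∏ w : InfinitePlace K, w (α : K) :=
    Finset.prod_nonneg fun w _ => apply_nonneg w _
  have hsq : (∏ w : InfinitePlace K, w (α : K)) ^ 2
      = ∏ v ∈ P, (Ideal.absNorm v.asIdeal : ℝ) ^ e v := by
    rw [prod_sq_eq_abs_norm793 K hcpx, hF.coe, abs_norm_eq_prod793 K P e a₀ hF.span]
  have hR0 : 0 ≤ ∏ v ∈ P, (Ideal.absNorm v.asIdeal : ℝ) ^ ((e v : ℝ) / 2) :=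
    Finset.prod_nonneg fun v _ => Real.rpow_nonneg (hq v).le _
  have hP : ∏ w : InfinitePlace K, w (α : K)
      = ∏ v ∈ P, (Ideal.absNorm v.asIdeal : ℝ) ^ ((e v : ℝ) / 2) := by
    have h1 : (∏ v ∈ P, (Ideal.absNorm v.asIdeal : ℝ) ^ ((e v : ℝ) / 2)) ^ 2
        = ∏ v ∈ P, (Ideal.absNorm v.asIdeal : ℝ) ^ e v := by
      rw [← Finset.prod_pow]
      refine Finset.prod_congr rfl fun v _ => ?_
      rw [← Real.rpow_natCast, ← Real.rpow_mul (hq v).le]
      have : (e v : ℝ) / 2 * ((2 : ℕ) : ℝ) = (e v : ℝ) := by push_cast; ring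
      rw [this, Real.rpow_natCast]
    exact (pow_left_inj₀ hP0 hR0 two_ne_zero).mp (hsq.trans h1.symm)
  rw [hP, ← Finset.prod_mul_distrib]
  refine Finset.prod_eq_one fun v _ => ?_
  rw [← Real.rpow_add (hq v)]
  have : -(e v : ℝ) / 2 + (e v : ℝ) / 2 = 0 := by ring
  rw [this, Real.rpow_zero]

end Fermat.Agent.LT.T3.M.H793

end

end
-- ===== PACK-END LT/T3/M/H793/ProdFormM.lean

-- ===== PACK-BEGIN LT/T6/H60/EllUnrSpec2.lean
section




/-!
# Row LT, tower T6, leaf T6.13 -- finer sub-spec on the tree of helper340 (helper60), OFF-MAIN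

The two orbit-sum leaves `OrbEllUnrC` (T6.13.2) and `TwOrbEllUnrC` (T6.13.3) of
`EllUnrSpec.lean` are cut, on the tree `BTVert340` of helper340
(`Fermat/Agent/LT/T6/H340/BTTree.lean`), into

* `VertSumGeoC` (T6.13.2a) / `VertSumTwC` (T6.13.3a): the (twisted) orbit sum is the PLAIN sum
  over the vertices `v` of `f (inv (v, γ v))` (unfolding: the centraliser is `ϖ^ℤ × T^c`);
* `FixGeoC` (T6.13.2b): `ord det γ = 2 j`, `ord disc γ = 2 j + 2 r` and `γ` fixes exactly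
  `ballCard q r` vertices of the tree of `k`;
* `FixTwC` (T6.13.3b): if `δ σ` fixes a vertex of the tree of `k'`, it fixes exactly
  `ballCard q r` vertices.

The assembly (`EllUnrAsm.lean`) proves `VertSumGeoC → FixGeoC → OrbEllUnrC` and
`VertSumTwC → FixGeoC → FixTwC → TwOrbEllUnrC` from the displacement counts of helper338
(`ncard_disp_even338`, `ncard_disp_odd338`, `fixed_or_inv338`).

`inv (v, γ v)` is written `invOf60 (ordDet γ) (btDist340 v (btMul340 γ v))`: the Cartan invariant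
`(a, b)` with `a + b = ord det γ` and `a - b` = the displacement
(`cartan (x⁻¹ γ x) = invOf60 (ordDet γ) (btDist340 [x] (γ [x]))`, proved in `EllUnrAsm.lean`:
`cartan_conj60`, `cartan_twconj60`).
-/

set_option autoImplicit false

open scoped Matrix

noncomputable section

namespace Fermat.Agent.LT.T6.H60

open Fermat.Agent.LT.T6 Fermat.Agent.LT.T6.H340

/-- The Cartan invariant `(a, b)` with `a + b = D`, `a - b = d`. -/
def invOf60 (D : ℤ) (d : ℕ) : ℤ × ℤ := ((D + d) / 2, (D - d) / 2)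

/-- **T6.13.2a (VertSumGeo).**  The orbital integral at a regular elliptic `γ` with `k[γ]/k`
unramified is the plain sum over the vertices of the tree of `k`. -/
def VertSumGeoC : Prop :=
  ∀ (k : Type) [Field k] [Valued k Γ₀] (q : ℕ), IsLocalField k q →
    ∀ γ : GL (Fin 2) k, IsReg γ → ¬ HasEigen k γ → ¬ HasRamUnif k γ →
      ∀ (f : (ℤ × ℤ) →₀ ℂ) (c' : ℂ), IsOrbSum 0 (fun g => f (cartan g)) γ c' →
        ∀ S : Finset (BTVert340 k),
          (∀ v : BTVert340 k,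
            f (invOf60 (ordDet γ) (btDist340 v (btMul340 γ v))) ≠ 0 → v ∈ S) →
          c' = ∑ v ∈ S, f (invOf60 (ordDet γ) (btDist340 v (btMul340 γ v)))

/-- **T6.13.3a (VertSumTw).**  The twisted orbital integral at `δ`, `N δ ∼ γ` regular elliptic
with `k[γ]/k` unramified, is the plain sum over the vertices of the tree of `k'`. -/
def VertSumTwC : Prop :=
  ∀ (k k' : Type) [Field k] [Field k'] [Valued k Γ₀] [Valued k' Γ₀] (q l : ℕ)
    (i : k →+* k') (s : k' ≃+* k'),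
    IsLocalField k q → IsLocalField k' (q ^ l) → ∀ hext : IsLocalExt k k' l 1 i s, l.Prime →
    ∀ (δ : GL (Fin 2) k') (γ : GL (Fin 2) k), IsReg γ → ¬ HasEigen k γ → ¬ HasRamUnif k γ →
      IsConj (twNorm s l δ) (Matrix.GeneralLinearGroup.map i γ) →
      ∀ (φ : (ℤ × ℤ) →₀ ℂ) (c : ℂ), IsTwOrbSum s 0 (fun g => φ (cartan g)) δ c →
        ∀ S : Finset (BTVert340 k'),
          (∀ v : BTVert340 k',
            φ (invOf60 (ordDet δ) (btDist340 v (btTw340 s hext.val_s δ v))) ≠ 0 → v ∈ S) →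
          c = ∑ v ∈ S, φ (invOf60 (ordDet δ) (btDist340 v (btTw340 s hext.val_s δ v)))

/-- **T6.13.2b (FixGeo).**  A regular elliptic `γ` with `k[γ]/k` unramified has
`ord det γ = 2 j`, `ord disc γ = 2 j + 2 r`, and fixes exactly the `ballCard q r` vertices of a
ball of radius `r` of the tree of `k`. -/
def FixGeoC : Prop :=
  ∀ (k : Type) [Field k] [Valued k Γ₀] (q : ℕ), IsLocalField k q →
    ∀ γ : GL (Fin 2) k, IsReg γ → ¬ HasEigen k γ → ¬ HasRamUnif k γ →
      ∃ (j : ℤ) (r : ℕ), ordDet γ = 2 * j ∧ ordDisc γ = 2 * j + 2 * (r : ℤ) ∧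
        {v : BTVert340 k | btMul340 γ v = v}.ncard = ballCard q r

/-- **T6.13.3b (FixTw).**  If `δ σ` (`N δ ∼ γ` regular elliptic, `k[γ]/k` unramified,
`ord disc γ - ord det γ = 2 r`) fixes a vertex of the tree of `k'`, then it fixes exactly
`ballCard q r` vertices. -/
def FixTwC : Prop :=
  ∀ (k k' : Type) [Field k] [Field k'] [Valued k Γ₀] [Valued k' Γ₀] (q l : ℕ)
    (i : k →+* k') (s : k' ≃+* k'),
    IsLocalField k q → IsLocalField k' (q ^ l) → ∀ hext : IsLocalExt k k' l 1 i s, l.Prime →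
    ∀ (δ : GL (Fin 2) k') (γ : GL (Fin 2) k), IsReg γ → ¬ HasEigen k γ → ¬ HasRamUnif k γ →
      IsConj (twNorm s l δ) (Matrix.GeneralLinearGroup.map i γ) →
      ∀ (j : ℤ) (r : ℕ), ordDet γ = 2 * j → ordDisc γ = 2 * j + 2 * (r : ℤ) →
        (∃ v : BTVert340 k', btTw340 s hext.val_s δ v = v) →
        {v : BTVert340 k' | btTw340 s hext.val_s δ v = v}.ncard = ballCard q r

end Fermat.Agent.LT.T6.H60

end
end
-- ===== PACK-END LT/T6/H60/EllUnrSpec2.lean

-- ===== PACK-BEGIN LT/T6/H288/HypAssembled.lean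
section







/-!
# Row LT, tower T6, leaf T6.12 `FLHypC` (fundamental lemma, `γ` hyperbolic): ASSEMBLY
(helper288)

Everything is closed except `OrbitParamC` (T6.12e, the parametrisation of the twisted orbit sum
at a diagonal element by `k'/𝒪'`): `flHypC_of_orbitParam : OrbitParamC → T6.FLHypC`.
-/

set_option autoImplicit false

namespace Fermat.Agent.LT.T6.H288

theorem cartanUpperC_closed : CartanUpperC := H176.cartanUpperC176

theorem cartanInvC_closed : CartanInvC := H687.cartanInvC_h687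

theorem coeffCompareC_closed : CoeffCompareC := H770.coeffCompareC770

theorem diagReduceC_closed : DiagReduceC := H888.diagReduceC888

/-- **T6.12h `LayerCountC`, closed.** -/
theorem layerCountC_closed : LayerCountC :=
  H830.layerCountC_of830 indexC_closed cartanUpperC_closed

/-- **T6.12 `FLHypC`** from the only remaining sub-leaf `OrbitParamC`. -/
theorem flHypC_of_orbitParam (hpar : OrbitParamC) : Fermat.Agent.LT.T6.FLHypC :=
  flHyp_of_leaves coeffCompareC_closed diagReduceC_closed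
    (orbSumDiag_of cartanInvC_closed hpar layerCountC_closed)

end Fermat.Agent.LT.T6.H288

end
-- ===== PACK-END LT/T6/H288/HypAssembled.lean

-- ===== PACK-BEGIN LT/T6/H855/HypTorusMeas.lean
section



/-!
# Row LT, tower T6, T6.25 `ArchHyp` (helper855): THE HAAR MEASURE OF THE TORUS

OFF-MAIN.  `torus_integral855`: for `γ = g diag(a, b) g⁻¹`, `a ≠ b`, and every Haar measure `μT` of
the centraliser `T` of `γ` there is `c > 0` with
`∑_{s ∈ {±1}²} ∫_{ℝ²} B(g s diag(e^{u₁}, e^{u₂}) g⁻¹) du = c ∫_T B dμT`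
for every continuous `B` integrable on `T`.
-/

set_option autoImplicit false

open scoped Matrix ENNReal
open MeasureTheory

noncomputable section

namespace Fermat.Agent.LT.T6.H855

open Fermat.Agent.LT.T6

section TorusMeas

local instance borelGLR2_855 : MeasurableSpace (GL (Fin 2) ℝ) := borel _
local instance borelSpaceGLR2_855 : BorelSpace (GL (Fin 2) ℝ) := ⟨rfl⟩
local instance secondCountableGLR2_855 : SecondCountableTopology (GL (Fin 2) ℝ) := scGL855 ℝ
local instance locallyCompactGLR2_855 : LocallyCompactSpace (GL (Fin 2) ℝ) := lcGL855 ℝ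
local instance borelT855 (γ : GL (Fin 2) ℝ) :
    MeasurableSpace (twCentSub (MonoidHom.id (GL (Fin 2) ℝ)) γ) := borel _
local instance borelSpaceT855 (γ : GL (Fin 2) ℝ) :
    BorelSpace (twCentSub (MonoidHom.id (GL (Fin 2) ℝ)) γ) := ⟨rfl⟩

/-- The centraliser of `g diag(a, b) g⁻¹`. -/
abbrev torT855 (g : GL (Fin 2) ℝ) (a b : ℝˣ) : Subgroup (GL (Fin 2) ℝ) :=
  twCentSub (MonoidHom.id (GL (Fin 2) ℝ)) (g * dgU855 a b * g⁻¹)

variable (g : GL (Fin 2) ℝ) (a b : ℝˣ)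

/-- The parametrisation, with values in the centraliser. -/
def torusParT855 (s : ℤˣ × ℤˣ) (u : ℝ × ℝ) : torT855 g a b :=
  ⟨torusPar855 g s u, torusPar_mem855 g a b s u⟩

theorem continuous_torusPar855 (s : ℤˣ × ℤˣ) : Continuous (torusPar855 g s) := by
  unfold torusPar855
  exact (continuous_const.mul (continuous_const.mul continuous_dgR855)).mul continuous_const

theorem continuous_torusParT855 (s : ℤˣ × ℤˣ) : Continuous (torusParT855 g a b s) :=
  (continuous_torusPar855 g s).subtype_mk _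

theorem torusParT_mul855 (s t : ℤˣ × ℤˣ) (u v : ℝ × ℝ) :
    torusParT855 g a b s u * torusParT855 g a b t v = torusParT855 g a b (s * t) (u + v) :=
  Subtype.ext (torusPar_mul855 g s t u v)

/-- The image of `counting ⊗ Lebesgue` on the centraliser. -/
def torusNu855 : Measure (torT855 g a b) :=
  ∑ s : ℤˣ × ℤˣ, Measure.map (torusParT855 g a b s) (volume : Measure (ℝ × ℝ))

theorem torusNu_leftInv855 (hab : a ≠ b) : (torusNu855 g a b).IsMulLeftInvariant := by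
  refine ⟨fun t₀ => ?_⟩
  obtain ⟨s₀, u₀, h₀⟩ := torusPar_surj855 g a b hab t₀ t₀.2
  have ht₀ : t₀ = torusParT855 g a b s₀ u₀ := Subtype.ext h₀
  have hL : Measurable (fun t : torT855 g a b => t₀ * t) := measurable_const_mul t₀
  unfold torusNu855
  rw [← Measure.mapₗ_apply_of_measurable hL, map_sum]
  have hterm : ∀ s : ℤˣ × ℤˣ,
      (Measure.mapₗ (fun t : torT855 g a b => t₀ * t))
          (Measure.map (torusParT855 g a b s) (volume : Measure (ℝ × ℝ)))
        = Measure.map (torusParT855 g a b (s₀ * s)) (volume : Measure (ℝ × ℝ)) := by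
    intro s
    rw [Measure.mapₗ_apply_of_measurable hL,
      Measure.map_map hL (continuous_torusParT855 g a b s).measurable]
    have hcomp : (fun t : torT855 g a b => t₀ * t) ∘ torusParT855 g a b s
        = torusParT855 g a b (s₀ * s) ∘ (fun u : ℝ × ℝ => u₀ + u) := by
      funext u
      simp only [Function.comp_apply]
      rw [ht₀, torusParT_mul855]
    rw [hcomp, ← Measure.map_map (continuous_torusParT855 g a b (s₀ * s)).measurable
      (measurable_const_add u₀), map_add_left_eq_self]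
  simp_rw [hterm]
  exact Fintype.sum_equiv (Equiv.mulLeft s₀) _ _ (fun _ => rfl)

theorem torusPar_inv855 (s : ℤˣ × ℤˣ) (u : ℝ × ℝ) :
    (torusPar855 g s u)⁻¹ = torusPar855 g s⁻¹ (-u) := by
  rw [inv_eq_iff_mul_eq_one, torusPar_mul855]
  simp only [mul_inv_cancel, add_neg_cancel]
  unfold torusPar855
  simp [sgE_one855, dgR_eq855, expU855, dgU_one855]

theorem torusNu_finiteOnCompacts855 : IsFiniteMeasureOnCompacts (torusNu855 g a b) := by
  refine ⟨fun K hK => ?_⟩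
  unfold torusNu855
  rw [Measure.finsetSum_apply, ENNReal.sum_lt_top]
  intro s _
  rw [Measure.map_apply (continuous_torusParT855 g a b s).measurable hK.isClosed.measurableSet]
  -- bound of the entries on `K`
  have hcont : Continuous (fun t : torT855 g a b =>
      |((g⁻¹ * (t : GL (Fin 2) ℝ) * g : GL (Fin 2) ℝ) : Matrix (Fin 2) (Fin 2) ℝ) 0 0|
      + |((g⁻¹ * (t : GL (Fin 2) ℝ)⁻¹ * g : GL (Fin 2) ℝ) : Matrix (Fin 2) (Fin 2) ℝ) 0 0|
      + |((g⁻¹ * (t : GL (Fin 2) ℝ) * g : GL (Fin 2) ℝ) : Matrix (Fin 2) (Fin 2) ℝ) 1 1|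
      + |((g⁻¹ * (t : GL (Fin 2) ℝ)⁻¹ * g : GL (Fin 2) ℝ) : Matrix (Fin 2) (Fin 2) ℝ) 1 1|) := by
    have e1 : Continuous (fun t : torT855 g a b => (g⁻¹ * (t : GL (Fin 2) ℝ) * g : GL (Fin 2) ℝ)) :=
      (continuous_const.mul continuous_subtype_val).mul continuous_const
    have e2 : Continuous (fun t : torT855 g a b =>
        (g⁻¹ * (t : GL (Fin 2) ℝ)⁻¹ * g : GL (Fin 2) ℝ)) :=
      (continuous_const.mul continuous_subtype_val.inv).mul continuous_const
    exact ((((continuous_entry855 0 0).comp e1).abs.add ((continuous_entry855 0 0).comp e2).abs).add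
      ((continuous_entry855 1 1).comp e1).abs).add ((continuous_entry855 1 1).comp e2).abs
  obtain ⟨C, hC⟩ := hK.exists_bound_of_continuousOn hcont.continuousOn
  have hsub : torusParT855 g a b s ⁻¹' K ⊆ Metric.closedBall (0 : ℝ × ℝ) (Real.log (|C| + 1)) := by
    intro u hu
    have hb := hC _ hu
    simp only [torusParT855] at hb
    obtain ⟨h1, h2⟩ := torusPar_entry855 g s u
    have h34 := torusPar_entry855 g s⁻¹ (-u)
    rw [← torusPar_inv855] at h34
    obtain ⟨h3, h4⟩ := h34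
    rw [h1, h2, h3, h4, Real.norm_eq_abs] at hb
    simp only [Prod.fst_neg, Prod.snd_neg] at hb
    have hp1 := Real.exp_pos u.1
    have hp2 := Real.exp_pos u.2
    have hp3 := Real.exp_pos (-u.1)
    have hp4 := Real.exp_pos (-u.2)
    have hb' : Real.exp u.1 + Real.exp (-u.1) + Real.exp u.2 + Real.exp (-u.2) ≤ |C| :=
      le_trans (le_abs_self _) (le_trans hb (le_abs_self C))
    have hC1 : (0 : ℝ) < |C| + 1 := by positivity
    have key : ∀ x : ℝ, Real.exp x ≤ |C| → x ≤ Real.log (|C| + 1) := by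
      intro x hx
      rw [Real.le_log_iff_exp_le hC1]
      linarith
    rw [Metric.mem_closedBall, dist_zero_right, Prod.norm_def, max_le_iff, Real.norm_eq_abs,
      Real.norm_eq_abs, abs_le, abs_le]
    refine ⟨⟨?_, ?_⟩, ⟨?_, ?_⟩⟩
    · have := key (-u.1) (by linarith)
      linarith
    · exact key u.1 (by linarith)
    · have := key (-u.2) (by linarith)
      linarith
    · exact key u.2 (by linarith)
  exact lt_of_le_of_lt (measure_mono hsub) (isCompact_closedBall _ _).measure_lt_top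

theorem map_le_torusNu855 (s : ℤˣ × ℤˣ) :
    Measure.map (torusParT855 g a b s) (volume : Measure (ℝ × ℝ)) ≤ torusNu855 g a b := by
  unfold torusNu855
  rw [← Finset.add_sum_erase Finset.univ _ (Finset.mem_univ s)]
  exact Measure.le_add_right le_rfl

theorem torusNu_ne_zero855 : torusNu855 g a b ≠ 0 := by
  intro h
  have h1 := map_le_torusNu855 g a b 1
  rw [h] at h1
  have h2 : Measure.map (torusParT855 g a b 1) (volume : Measure (ℝ × ℝ)) Set.univ = 0 :=
    le_antisymm (by simpa using h1 Set.univ) zero_le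
  rw [Measure.map_apply (continuous_torusParT855 g a b 1).measurable MeasurableSet.univ,
    Set.preimage_univ] at h2
  simp at h2

theorem isClosed_torT855 : IsClosed (torT855 g a b : Set (GL (Fin 2) ℝ)) := by
  have : (torT855 g a b : Set (GL (Fin 2) ℝ))
      = {x | x⁻¹ * (g * dgU855 a b * g⁻¹) * x = g * dgU855 a b * g⁻¹} := by
    ext x
    rfl
  rw [this]
  exact isClosed_eq ((continuous_inv.mul continuous_const).mul continuous_id) continuous_const

theorem locallyCompact_torT855 : LocallyCompactSpace (torT855 g a b) :=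
  (isClosed_torT855 g a b).isClosedEmbedding_subtypeVal.locallyCompactSpace

/-- **The Haar measure of the torus.** -/
theorem torus_integral855 (hab : a ≠ b) (μT : Measure (torT855 g a b)) [μT.IsHaarMeasure] :
    ∃ c : ℝ, 0 < c ∧ ∀ B : GL (Fin 2) ℝ → ℝ, Continuous B →
      Integrable (fun t : torT855 g a b => B t) μT →
      (∀ s : ℤˣ × ℤˣ, Integrable (fun u : ℝ × ℝ => B (torusPar855 g s u))) ∧
        ∑ s : ℤˣ × ℤˣ, ∫ u : ℝ × ℝ, B (torusPar855 g s u)
          = c * ∫ t : torT855 g a b, B t ∂μT := by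
  have := torusNu_leftInv855 g a b hab
  have := torusNu_finiteOnCompacts855 g a b
  have := locallyCompact_torT855 g a b
  have : SecondCountableTopology (torT855 g a b) :=
    TopologicalSpace.Subtype.secondCountableTopology _
  have hν : torusNu855 g a b = (torusNu855 g a b).haarScalarFactor μT • μT :=
    Measure.isMulLeftInvariant_eq_smul (torusNu855 g a b) μT
  set c := (torusNu855 g a b).haarScalarFactor μT with hc
  have hc0 : c ≠ 0 := by
    intro h0
    apply torusNu_ne_zero855 g a b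
    rw [hν, h0, zero_smul]
  refine ⟨(c : ℝ), by positivity, ?_⟩
  intro B hB hBi
  have hBν : Integrable (fun t : torT855 g a b => B t) (torusNu855 g a b) := by
    rw [hν]
    exact hBi.smul_measure_nnreal
  have hBc : Continuous (fun t : torT855 g a b => B t) := hB.comp continuous_subtype_val
  have hBs : ∀ s : ℤˣ × ℤˣ, Integrable (fun t : torT855 g a b => B t)
      (Measure.map (torusParT855 g a b s) (volume : Measure (ℝ × ℝ))) :=
    fun s => hBν.mono_measure (map_le_torusNu855 g a b s)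
  have hBs' : ∀ s : ℤˣ × ℤˣ, Integrable (fun u : ℝ × ℝ => B (torusPar855 g s u)) := by
    intro s
    have := (integrable_map_measure hBc.aestronglyMeasurable
      (continuous_torusParT855 g a b s).measurable.aemeasurable).mp (hBs s)
    exact this
  refine ⟨hBs', ?_⟩
  have h1 : ∫ t : torT855 g a b, B t ∂(torusNu855 g a b)
      = ∑ s : ℤˣ × ℤˣ, ∫ u : ℝ × ℝ, B (torusPar855 g s u) := by
    unfold torusNu855
    rw [integral_finsetSum_measure (fun s _ => hBs s)]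
    refine Finset.sum_congr rfl (fun s _ => ?_)
    rw [integral_map (continuous_torusParT855 g a b s).measurable.aemeasurable
      hBc.aestronglyMeasurable]
    rfl
  rw [← h1]
  conv_lhs => rw [hν]
  rw [integral_smul_nnreal_measure]
  rfl

end TorusMeas

end Fermat.Agent.LT.T6.H855

end

end
-- ===== PACK-END LT/T6/H855/HypTorusMeas.lean

-- ===== PACK-BEGIN LT/T6/H888/Sph0.lean
section



/-!
# Row LT, tower T6, leaf T6.22.D (helper888): the weight `0` case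

`sph0_volterra888`: `ps(t) = (1/2π) ∫₀^{2π} η(t, φ)^e dφ` satisfies
`ps = 1 + e (e + 1) · gL888 0 ps` on `[0, ∞)`.
-/

set_option autoImplicit false

open MeasureTheory Set

noncomputable section

namespace Fermat.Agent.LT.T6.H888

/-- The algebraic identity behind the weight `0` case (`E = η^(e-2)`). -/
theorem sph0_alg888 (C S c sn e E : ℂ) (h1 : S ^ 2 = C ^ 2 - 1) (h2 : sn ^ 2 = 1 - c ^ 2) :
    S * (e * ((e - 1) * E * (S - c * C) * (S - c * C) + ((C - c * S) * E) * (C - c * S)))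
      + C * (e * ((C - c * S) * E) * (S - c * C))
    = S * (e * (e + 1) * ((C - c * S) ^ 2 * E))
      + (-e) * ((e - 1) * E * (sn * S) * sn + ((C - c * S) * E) * c) := by
  linear_combination (E * (C*c*e + (-1)*S*c^2*e^2 + (-1)*S*e + S*e^2)) * h1
    + (E * ((-1)*S*e + S*e^2)) * h2

/-- The integrand. -/
def s0h888 (e : ℂ) (t φ : ℝ) : ℂ := pw888 e (eta888 t φ)

/-- Its first `t`-derivative. -/
def s0h1_888 (e : ℂ) (t φ : ℝ) : ℂ := e * pw888 (e - 1) (eta888 t φ) * ((etaT888 t φ : ℝ) : ℂ)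

/-- Its second `t`-derivative. -/
def s0h2_888 (e : ℂ) (t φ : ℝ) : ℂ :=
  e * ((e - 1) * pw888 (e - 1 - 1) (eta888 t φ) * ((etaT888 t φ : ℝ) : ℂ)
      * ((etaT888 t φ : ℝ) : ℂ)
    + pw888 (e - 1) (eta888 t φ) * ((eta888 t φ : ℝ) : ℂ))

/-- The `φ`-potential. -/
def s0Psi888 (e : ℂ) (t φ : ℝ) : ℂ :=
  (-e) * (pw888 (e - 1) (eta888 t φ) * ((Real.sin φ : ℝ) : ℂ))

/-- Its `φ`-derivative. -/
def s0Psi'888 (e : ℂ) (t φ : ℝ) : ℂ :=
  (-e) * ((e - 1) * pw888 (e - 1 - 1) (eta888 t φ) * ((Real.sin φ * Real.sinh t : ℝ) : ℂ)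
      * ((Real.sin φ : ℝ) : ℂ)
    + pw888 (e - 1) (eta888 t φ) * ((Real.cos φ : ℝ) : ℂ))

theorem s0h_hasDerivAt888 (e : ℂ) (t φ : ℝ) :
    HasDerivAt (fun t => s0h888 e t φ) (s0h1_888 e t φ) t :=
  pw_hasDerivAt888 e (eta_hasDerivAt888 t φ) (eta_pos888 t φ)

theorem s0h1_hasDerivAt888 (e : ℂ) (t φ : ℝ) :
    HasDerivAt (fun t => s0h1_888 e t φ) (s0h2_888 e t φ) t := by
  have h1 := pw_hasDerivAt888 (e - 1) (eta_hasDerivAt888 t φ) (eta_pos888 t φ)
  have h2 : HasDerivAt (fun t => ((etaT888 t φ : ℝ) : ℂ)) ((eta888 t φ : ℝ) : ℂ) t :=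
    (etaT_hasDerivAt888 t φ).ofReal_comp
  have h3 := (h1.const_mul e).mul h2
  refine (h3.congr_deriv ?_)
  unfold s0h2_888
  ring

theorem s0Psi_hasDerivAt888 (e : ℂ) (t φ : ℝ) :
    HasDerivAt (fun φ => s0Psi888 e t φ) (s0Psi'888 e t φ) φ := by
  have h1 := pw_hasDerivAt888 (e - 1) (eta_hasDerivAt_phi888 t φ) (eta_pos888 t φ)
  have h2 : HasDerivAt (fun φ => ((Real.sin φ : ℝ) : ℂ)) ((Real.cos φ : ℝ) : ℂ) φ :=
    (Real.hasDerivAt_sin φ).ofReal_comp
  have h3 := (h1.mul h2).const_mul (-e)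
  refine (h3.congr_deriv ?_)
  unfold s0Psi'888
  ring

theorem s0h_cont888 (e : ℂ) : Continuous (Function.uncurry (s0h888 e)) := by
  have : Function.uncurry (s0h888 e) = fun p : ℝ × ℝ => pw888 e (eta888 p.1 p.2) := by
    funext ⟨t, φ⟩; rfl
  rw [this]
  exact pw_cont888 e eta_cont888 (fun p => eta_pos888 p.1 p.2)

theorem s0h1_cont888 (e : ℂ) : Continuous (Function.uncurry (s0h1_888 e)) := by
  have : Function.uncurry (s0h1_888 e) = fun p : ℝ × ℝ =>
      e * pw888 (e - 1) (eta888 p.1 p.2) * ((etaT888 p.1 p.2 : ℝ) : ℂ) := by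
    funext ⟨t, φ⟩; rfl
  rw [this]
  exact (continuous_const.mul (pw_cont888 _ eta_cont888 (fun p => eta_pos888 p.1 p.2))).mul
    (Complex.continuous_ofReal.comp etaT_cont888)

theorem s0h2_cont888 (e : ℂ) : Continuous (Function.uncurry (s0h2_888 e)) := by
  have : Function.uncurry (s0h2_888 e) = fun p : ℝ × ℝ =>
      e * ((e - 1) * pw888 (e - 1 - 1) (eta888 p.1 p.2) * ((etaT888 p.1 p.2 : ℝ) : ℂ)
          * ((etaT888 p.1 p.2 : ℝ) : ℂ)
        + pw888 (e - 1) (eta888 p.1 p.2) * ((eta888 p.1 p.2 : ℝ) : ℂ)) := by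
    funext ⟨t, φ⟩; rfl
  rw [this]
  have c1 := pw_cont888 (e - 1 - 1) eta_cont888 (fun p => eta_pos888 p.1 p.2)
  have c2 := pw_cont888 (e - 1) eta_cont888 (fun p => eta_pos888 p.1 p.2)
  have c3 := Complex.continuous_ofReal.comp etaT_cont888
  have c4 := Complex.continuous_ofReal.comp eta_cont888
  exact continuous_const.mul ((((continuous_const.mul c1).mul c3).mul c3).add (c2.mul c4))

theorem s0Psi'_cont888 (e : ℂ) (t : ℝ) : Continuous (s0Psi'888 e t) := by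
  have c0 : Continuous (fun φ : ℝ => eta888 t φ) := by unfold eta888; fun_prop
  have c1 := pw_cont888 (e - 1 - 1) c0 (fun φ => eta_pos888 t φ)
  have c2 := pw_cont888 (e - 1) c0 (fun φ => eta_pos888 t φ)
  have c3 : Continuous (fun φ : ℝ => ((Real.sin φ * Real.sinh t : ℝ) : ℂ)) :=
    Complex.continuous_ofReal.comp (by fun_prop)
  have c4 : Continuous (fun φ : ℝ => ((Real.sin φ : ℝ) : ℂ)) :=
    Complex.continuous_ofReal.comp (by fun_prop)
  have c5 : Continuous (fun φ : ℝ => ((Real.cos φ : ℝ) : ℂ)) :=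
    Complex.continuous_ofReal.comp (by fun_prop)
  unfold s0Psi'888
  exact continuous_const.mul ((((continuous_const.mul c1).mul c3).mul c4).add (c2.mul c5))

theorem s0_id888 (e : ℂ) (t φ : ℝ) :
    ((wtA888 0 t : ℝ) : ℂ) * s0h2_888 e t φ + ((wtA'888 0 t : ℝ) : ℂ) * s0h1_888 e t φ
      = ((wtA888 0 t : ℝ) : ℂ) * (e * (e + 1) * s0h888 e t φ) + s0Psi'888 e t φ := by
  have hA : wtA888 0 t = Real.sinh t := by simp [wtA888]
  have hA' : wtA'888 0 t = Real.cosh t := by simp [wtA'888]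
  have hpos := eta_pos888 t φ
  have e1 : pw888 (e - 1) (eta888 t φ)
      = ((eta888 t φ : ℝ) : ℂ) * pw888 (e - 1 - 1) (eta888 t φ) := by
    have := pw_succ888 (e - 1 - 1) hpos
    rwa [sub_add_cancel] at this
  have e0 : pw888 e (eta888 t φ)
      = ((eta888 t φ : ℝ) : ℂ) ^ 2 * pw888 (e - 1 - 1) (eta888 t φ) := by
    have := pw_succ888 (e - 1) hpos
    rw [sub_add_cancel] at this
    rw [this, e1]; ring
  have r1 : ((Real.sinh t : ℝ) : ℂ) ^ 2 = ((Real.cosh t : ℝ) : ℂ) ^ 2 - 1 := by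
    have := Real.cosh_sq t
    have h : Real.sinh t ^ 2 = Real.cosh t ^ 2 - 1 := by linarith
    exact_mod_cast h
  have r2 : ((Real.sin φ : ℝ) : ℂ) ^ 2 = 1 - ((Real.cos φ : ℝ) : ℂ) ^ 2 := by
    have := Real.sin_sq_add_cos_sq φ
    have h : Real.sin φ ^ 2 = 1 - Real.cos φ ^ 2 := by linarith
    exact_mod_cast h
  have key := sph0_alg888 (Real.cosh t) (Real.sinh t) (Real.cos φ) (Real.sin φ) e
    (pw888 (e - 1 - 1) (eta888 t φ)) r1 r2
  unfold s0h2_888 s0h1_888 s0h888 s0Psi'888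
  rw [hA, hA', e0, e1]
  have c1 : ((eta888 t φ : ℝ) : ℂ)
      = ((Real.cosh t : ℝ) : ℂ) - ((Real.cos φ : ℝ) : ℂ) * ((Real.sinh t : ℝ) : ℂ) := by
    unfold eta888; push_cast; ring
  have c2 : ((etaT888 t φ : ℝ) : ℂ)
      = ((Real.sinh t : ℝ) : ℂ) - ((Real.cos φ : ℝ) : ℂ) * ((Real.cosh t : ℝ) : ℂ) := by
    unfold etaT888; push_cast; ring
  have c3 : ((Real.sin φ * Real.sinh t : ℝ) : ℂ)
      = ((Real.sin φ : ℝ) : ℂ) * ((Real.sinh t : ℝ) : ℂ) := by push_cast; ring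
  rw [c1, c2, c3]
  exact key

/-- The normalised spherical function of weight `0` (exponent `e = -s - 1/2`). -/
def ps0_888 (e : ℂ) (t : ℝ) : ℂ :=
  ((1 / (2 * Real.pi) : ℝ) : ℂ) * ∫ φ in (0:ℝ)..(2 * Real.pi), s0h888 e t φ

theorem ps0_cont888 (e : ℂ) : Continuous (ps0_888 e) :=
  continuous_const.mul (cont_pint888 (s0h_cont888 e) 0 (2 * Real.pi))

theorem sph0_volterra888 (e : ℂ) (T : ℝ) (hT : 0 ≤ T) :
    ps0_888 e T = 1 + e * (e + 1) * gL888 0 (ps0_888 e) T := by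
  have hk : Continuous (Function.uncurry (fun t φ => e * (e + 1) * s0h888 e t φ)) := by
    have := (s0h_cont888 e)
    exact continuous_const.mul this
  have hper : ∀ t, s0Psi888 e t (2 * Real.pi) = s0Psi888 e t 0 := by
    intro t; simp [s0Psi888]
  have main := avg_volterra888 0 (h := s0h888 e) (h1 := s0h1_888 e) (h2 := s0h2_888 e)
    (k := fun t φ => e * (e + 1) * s0h888 e t φ) (Ψ := s0Psi888 e) (Ψ' := s0Psi'888 e)
    (s0h_hasDerivAt888 e) (s0h1_hasDerivAt888 e) (s0h_cont888 e) (s0h1_cont888 e)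
    (s0h2_cont888 e) hk (s0Psi_hasDerivAt888 e) (s0Psi'_cont888 e) hper (s0_id888 e) T hT
  have h0 : (∫ φ in (0:ℝ)..(2 * Real.pi), s0h888 e 0 φ) = ((2 * Real.pi : ℝ) : ℂ) := by
    have : ∀ φ, s0h888 e 0 φ = 1 := fun φ => by
      unfold s0h888; rw [eta_zero888, pw_at_one888]
    simp only [this]
    simp
  have hg : (fun q => ∫ φ in (0:ℝ)..(2 * Real.pi), e * (e + 1) * s0h888 e q φ)
      = fun q => (e * (e + 1) * ((2 * Real.pi : ℝ) : ℂ)) * ps0_888 e q := by
    funext q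
    rw [intervalIntegral.integral_const_mul]
    unfold ps0_888
    have hpi : ((2 * Real.pi : ℝ) : ℂ) ≠ 0 := by
      exact_mod_cast (by positivity : (2 * Real.pi : ℝ) ≠ 0)
    push_cast
    push_cast at hpi
    field_simp
  rw [hg, gL_const_mul888, h0] at main
  have e2 : ps0_888 e T
      = ((1 / (2 * Real.pi) : ℝ) : ℂ) * ∫ φ in (0:ℝ)..(2 * Real.pi), s0h888 e T φ := rfl
  rw [e2, main]
  have hpi : ((2 * Real.pi : ℝ) : ℂ) ≠ 0 := by
    exact_mod_cast (by positivity : (2 * Real.pi : ℝ) ≠ 0)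
  push_cast
  push_cast at hpi
  field_simp

end Fermat.Agent.LT.T6.H888

end

end
-- ===== PACK-END LT/T6/H888/Sph0.lean

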