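import Mathlib
import Fermat.Agent.Pack.LT3.E14L2
import Fermat.Agent.Pack.LT3.E10L3
import Fermat.Agent.Pack.LT3.E17L2
import Fermat.Agent.Pack.LT3.E10L2
import Fermat.Agent.Pack.LT3.E10L1
import Fermat.Agent.Pack.LT3.E11L3
import Fermat.Agent.Pack.LT3.E11L1
import Fermat.Agent.Pack.LT3.E17L0
import Fermat.Agent.Pack.LT3.E8L1
import Fermat.Agent.Pack.LT2.E0L2
import Fermat.Agent.Pack.LT2.E2L1
import Fermat.Agent.Pack.LT2.E5L3
import Fermat.Agent.Pack.LT2.E6L2
import Fermat.Agent.Pack.LT3.E11L0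
import Fermat.Agent.Pack.LT2.E12L3
import Fermat.Agent.Pack.LT2.E3L1
import Fermat.Agent.Pack.LT3.E18L1
import Fermat.Agent.Pack.LT3.E15L2
import Fermat.Agent.Pack.LT3.E12L2
import Fermat.Agent.Pack.LT3.E18L0
import Fermat.Agent.Pack.LT3.E18L3

set_option linter.all false

-- ===== PACK-BEGIN LT/H129/ArchInjClosed.lean
section









/-!
# Row LT, tower T6, leaf T6.21 `T6.ArchInjC`: THE PLUG (helper129) -- OFF-MAIN

    archInjC129 : T6.ArchInjC            (VERBATIM, UNCONDITIONAL)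

from the top `archInjC_of_leaves830` (helper830, `T6/H830/InjTop.lean`), `hcTransRC830`
(helper830, `T6/H830/HCClosed3.lean`: T6.29 closed) and the leaves of the cut
`T6/H830/InjSpec.lean`, byte-identical copies of the authors' files:

* `CartanRC`           : `T6.H543.cartanRC_h543`        (helper543)
* T6.21.1 `MelFubiniC` : `H129.melFubiniC129`           (helper129)
* T6.21.2 `HcZRegC`    : `H129.hcZRegC129`              (helper129; also helper372, row 1637)
* T6.21.3 `FourierUniqC` : `T6.H426.fourierUniqC426`    (helper426)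
* T6.21.4 `HcZFormC`   : `T6.H848.hcZFormC848`          (helper848)
* T6.21.5 `TorTRegC`   : `T6.H492.torTRegC492`          (helper492)
* T6.21.6 `AbelInj1C`  : `T6.H964.abelInj1C964`         (helper964)
* T6.21.7 `CentAvgOfTorusC` : `T6.H792.centAvgOfTorusC792` (helper792)
-/

set_option autoImplicit false

noncomputable section

namespace Fermat.Agent.LT.H129

open Fermat.Agent.LT.T6 Fermat.Agent.LT.T6.H830

/-- **T6.21 `ArchInjC`**, unconditional. -/
theorem archInjC129 : ArchInjC :=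
  archInjC_of_leaves830 hcTransRC830 Fermat.Agent.LT.T6.H543.cartanRC_h543 melFubiniC129
    hcZRegC129 Fermat.Agent.LT.T6.H426.fourierUniqC426 Fermat.Agent.LT.T6.H848.hcZFormC848
    Fermat.Agent.LT.T6.H492.torTRegC492 Fermat.Agent.LT.T6.H964.abelInj1C964
    Fermat.Agent.LT.T6.H792.centAvgOfTorusC792

end Fermat.Agent.LT.H129

end

end
-- ===== PACK-END LT/H129/ArchInjClosed.lean

-- ===== PACK-BEGIN LT/T1/H930/RsigOrder.lean
section



/-!
# Row LT, asset RSIG part 2 (helper930): `R(σ)` has finite order and moves the Hecke eigenvalues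

OFF-MAIN.  For EVERY `s : T5.AdelicAut K` (through `adelicAut_eq930 : s = adelicAut930 s.σ`):

* `onG_eq_glAdeleEquiv930`, `onGinv_eq_glAdeleEquiv930` : `s.onG = glAdeleEquiv930 s.σ`;
* `onG_iterate_eq930`, `Rsig_iterate_eq930`, `Rsig_iterate_of_cyclic930` : `σ^l = 1` on `K` gives
  `σ^l = 1` on `GL₂(𝔸_K)` and `R(σ)^l = 1` (so `R(σ)` is unitary of finite order, memo of
  helper797 par. C5a);
* `placeRel_finPull930`, `placeRel_iff930` : `T5.PlaceRel s w w' ↔ w' = finPull930 s.σ.symm w`;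
* `isHeckeEigenAt_Rsig930` : `PlaceRel s w w' → (A0.IsHeckeEigenAt (Rsig s φ) w' a b ↔
  A0.IsHeckeEigenAt φ w a b)`: `R(σ)` maps the joint eigenspace of the eigen-data `C` onto the
  joint eigenspace of `C ∘ σ⁻¹`, in particular it preserves `V(C₀)` when `C₀ ∘ σ = C₀`.
-/

set_option autoImplicit false

open IsDedekindDomain NumberField MeasureTheory
open scoped MatrixGroups ComplexConjugate

noncomputable section

namespace Fermat.Agent.LT.T1.H930

open Fermat.Agent.LT.H556.A0 Fermat.Agent.LT.T5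

variable {K : Type} [Field K] [NumberField K]

/-! ## 1. `R(σ)` has finite order -/

theorem onG_eq_glAdeleEquiv930 (s : AdelicAut K) (g : G K) :
    s.onG g = glAdeleEquiv930 s.σ g := by
  conv_lhs => rw [adelicAut_eq930 s]
  exact adelicAut930_onG s.σ g

theorem onGinv_eq_glAdeleEquiv930 (s : AdelicAut K) (g : G K) :
    s.onGinv g = glAdeleEquiv930 s.σ.symm g := by
  conv_lhs => rw [adelicAut_eq930 s]
  exact adelicAut930_onGinv s.σ g

theorem glAdeleEquiv930_pow (σ : K ≃+* K) (n : ℕ) (g : G K) :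
    glAdeleEquiv930 ((σ : RingAut K) ^ n) g = (glAdeleEquiv930 σ)^[n] g := by
  induction n generalizing g with
  | zero => exact glAdeleEquiv930_refl g
  | succ n ih =>
    rw [Function.iterate_succ_apply, ← ih, pow_succ]
    exact glAdeleEquiv930_trans σ ((σ : RingAut K) ^ n) g

theorem onG_iterate930 (s : AdelicAut K) (n : ℕ) (g : G K) :
    (s.onG)^[n] g = glAdeleEquiv930 ((s.σ : RingAut K) ^ n) g := by
  rw [glAdeleEquiv930_pow]
  congr 1
  funext x
  exact onG_eq_glAdeleEquiv930 s x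

/-- If `σ^l = 1` on `K` then `σ^l = 1` on `GL₂(𝔸_K)`. -/
theorem onG_iterate_eq930 (s : AdelicAut K) (l : ℕ) (h : ∀ x : K, (s.σ ^ l) x = x) (g : G K) :
    (s.onG)^[l] g = g := by
  rw [onG_iterate930]
  have h1 : (s.σ : RingAut K) ^ l = RingEquiv.refl K := RingEquiv.ext h
  rw [h1]
  exact glAdeleEquiv930_refl g

theorem onGinv_iterate_eq930 (s : AdelicAut K) (l : ℕ) (h : ∀ x : K, (s.σ ^ l) x = x) (g : G K) :
    (s.onGinv)^[l] g = g := by
  have h1 : ∀ n : ℕ, ∀ x : G K, (s.onGinv)^[n] ((s.onG)^[n] x) = x := fun n =>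
    Function.LeftInverse.iterate (onGinv_onG930 s) n
  have h2 := h1 l g
  rw [onG_iterate_eq930 s l h] at h2
  exact h2

theorem Rsig_iterate930 (s : AdelicAut K) (n : ℕ) (e : G K → ℂ) :
    (Rsig s)^[n] e = fun x => e ((s.onGinv)^[n] x) := by
  induction n generalizing e with
  | zero => rfl
  | succ n ih =>
    rw [Function.iterate_succ_apply, ih]
    funext x
    show e (s.onGinv ((s.onGinv)^[n] x)) = e ((s.onGinv)^[n + 1] x)
    rw [Function.iterate_succ_apply']

/-- **`R(σ)` has finite order**: `R(σ)^l = 1` if `σ^l = 1`. -/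
theorem Rsig_iterate_eq930 (s : AdelicAut K) (l : ℕ) (h : ∀ x : K, (s.σ ^ l) x = x)
    (e : G K → ℂ) : (Rsig s)^[l] e = e := by
  rw [Rsig_iterate930]
  funext x
  rw [onGinv_iterate_eq930 s l h]

theorem Rsig_iterate_of_cyclic930 {s : AdelicAut K} {l : ℕ} {k : Subfield K}
    (hc : IsCyclicOfDegree s l k) (e : G K → ℂ) : (Rsig s)^[l] e = e :=
  Rsig_iterate_eq930 s l hc.pow_eq e

/-! ## 2. `R(σ)` and the Hecke operators -/

/-- The place `σ(w)` (as `finPull930 σ⁻¹ w`) is the image of `w` in the sense of `T5.PlaceRel`. -/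
theorem placeRel_finPull930 (s : AdelicAut K) (w : HeightOneSpectrum (𝓞 K)) :
    PlaceRel s w (finPull930 s.σ.symm w) := by
  show (finPull930 s.σ.symm w).asIdeal = Ideal.map (RingOfIntegers.mapRingEquiv s.σ) w.asIdeal
  have h := Ideal.map_symm (I := w.asIdeal) (f := (RingOfIntegers.mapRingEquiv s.σ).symm)
  exact h.symm

theorem placeRel_iff930 (s : AdelicAut K) (w w' : HeightOneSpectrum (𝓞 K)) :
    PlaceRel s w w' ↔ w' = finPull930 s.σ.symm w := by
  constructor
  · intro h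
    apply HeightOneSpectrum.ext
    rw [h]
    exact (placeRel_finPull930 s w).symm
  · rintro rfl
    exact placeRel_finPull930 s w

/-- **`R(σ)` moves the Hecke eigenvalues at `w` to the place `σ(w)`.** -/
theorem isHeckeEigenAt_Rsig930 (s : AdelicAut K) {w w' : HeightOneSpectrum (𝓞 K)}
    (h : PlaceRel s w w') (φ : G K → ℂ) (a b : ℂ) :
    IsHeckeEigenAt (Rsig s φ) w' a b ↔ IsHeckeEigenAt φ w a b := by
  rw [(placeRel_iff930 s w w').1 h]
  have key := isHeckeEigenAt_comp_glAdeleEquiv930 s.σ.symm w φ a b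
  have e1 : (fun g => φ (glAdeleEquiv930 s.σ.symm g)) = Rsig s φ := by
    funext g
    show φ (glAdeleEquiv930 s.σ.symm g) = φ (s.onGinv g)
    rw [onGinv_eq_glAdeleEquiv930]
  rw [e1] at key
  exact key

/-- If `σ` fixes the place `w`, `R(σ)` preserves the Hecke eigenfunctions at `w`. -/
theorem isHeckeEigenAt_Rsig_of_fixed930 (s : AdelicAut K) {w : HeightOneSpectrum (𝓞 K)}
    (h : PlaceRel s w w) {φ : G K → ℂ} {a b : ℂ} (hφ : IsHeckeEigenAt φ w a b) :
    IsHeckeEigenAt (Rsig s φ) w a b :=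
  (isHeckeEigenAt_Rsig930 s h φ a b).2 hφ

end Fermat.Agent.LT.T1.H930

end
end
-- ===== PACK-END LT/T1/H930/RsigOrder.lean

-- ===== PACK-BEGIN LT/T2/H899/MeanBddT.lean
section









/-!
# Row LT, tower T2, sub-leaf T2.27.15 `SubMeanBddT291` (helper899): the sphere means and the
`τ`-twisted circle means are bounded in `L²` on the cusp functions of the class `(𝔫, τ, r)`

OFF-MAIN.  `T`-form of T2.07.15 (helper322): SAME proof with `τ`, `r` as parameters.
Spec: `LT/T2/H291/OpsSpecT.lean` (helper291, sha256 c8359c85), byte-identical copy.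
Assets (byte-identical copies): `abs_mean_bound322`, `nsq_le322`, `nsq_eq322`,
`norm_sphereMean_le322`, `rhoS322`, `rhoC322` (helper322), `locCont472` (helper472).
Nothing is assumed, no opaque constant, no placeholder proof.

* `int_sq_translT899`: `∫_D |φ(g h)|² = ∫_D |φ(g)|²` for an automorphic function of the class
  (KEY LEMMA T2.27.00 for `|φ|²`, which is left invariant under `GL₂(K)` and right invariant under
  the ray generator).
* `meanBdd_generalT899`: for ANY finite measure `ρ` on a second countable space `P`, any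
  continuous `Y : P → G K` and any `v` with `|v(g)| ≤ ∫ |φ(g Y(p))| dρ(p)`:
  `‖v‖² ≤ ρ(P)² ‖φ‖²`.
* `norm_circleMeanT_le899`: `|M_τ φ(g)| ≤ ∫ |φ(g k_θ a)| dθ` (`|τ(k_θ)| = 1`).
* `subMeanBddT899 : SubTranslT291 K → SubMeanBddT291 K`, VERBATIM.
-/

set_option autoImplicit false
set_option linter.unusedSectionVars false

open IsDedekindDomain NumberField MeasureTheory
open Fermat.Agent.LT.H556.A0
open Fermat.Agent.LT.T2 Fermat.Agent.LT.T2.H322

noncomputable section

namespace Fermat.Agent.LT.T2.H899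

variable {K : Type} [Field K] [NumberField K]

attribute [local instance] Fermat.Agent.LT.T2.borelG

/-! ## 1. The KEY LEMMA for `|φ|²` -/

theorem int_sq_translT899 {𝔫 : Ideal (𝓞 K)} {τ : G K → ℂ} (R : FrameR K)
    (hTr : TranslInvT899 R) {φ : G K → ℂ} (hφ : IsAutT 𝔫 τ R.r φ) (h : G K) :
    ∫ g in R.F.D, ‖φ (g * h)‖ ^ 2 ∂(R.F.μ) = ∫ g in R.F.D, ‖φ g‖ ^ 2 ∂(R.F.μ) := by
  have key := hTr (fun g => ((‖φ g‖ ^ 2 : ℝ) : ℂ))
    (fun γ g => by
      have := hφ.left_inv γ g
      show ((‖φ (T1.ratG K γ * g)‖ ^ 2 : ℝ) : ℂ) = ((‖φ g‖ ^ 2 : ℝ) : ℂ)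
      unfold T1.ratG
      rw [this])
    (fun g => by
      show ((‖φ (g * R.r)‖ ^ 2 : ℝ) : ℂ) = ((‖φ g‖ ^ 2 : ℝ) : ℂ)
      rw [hφ.ray g]) h
  have e1 : ∫ g in R.F.D, ((‖φ (g * h)‖ ^ 2 : ℝ) : ℂ) ∂(R.F.μ)
      = ((∫ g in R.F.D, ‖φ (g * h)‖ ^ 2 ∂(R.F.μ) : ℝ) : ℂ) := integral_ofReal
  have e2 : ∫ g in R.F.D, ((‖φ g‖ ^ 2 : ℝ) : ℂ) ∂(R.F.μ)
      = ((∫ g in R.F.D, ‖φ g‖ ^ 2 ∂(R.F.μ) : ℝ) : ℂ) := integral_ofReal
  have key' : ∫ g in R.F.D, ((‖φ (g * h)‖ ^ 2 : ℝ) : ℂ) ∂(R.F.μ)
      = ∫ g in R.F.D, ((‖φ g‖ ^ 2 : ℝ) : ℂ) ∂(R.F.μ) := key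
  rw [e1, e2] at key'
  exact Complex.ofReal_injective key'

/-! ## 2. The bound for a general finite parameter space -/

/-- The general bound: `P` a second countable space with a finite measure `ρ`, `Y : P → G K`
continuous, `v` dominated by the `ρ`-mean of `|φ(g Y(p))|`. -/
theorem meanBdd_generalT899 {𝔫 : Ideal (𝓞 K)} {τ : G K → ℂ} (R : FrameR K)
    (hTr : TranslInvT899 R)
    {P : Type} [TopologicalSpace P] [SecondCountableTopology P] [MeasurableSpace P]
    [OpensMeasurableSpace P] (ρ : Measure P) [IsFiniteMeasure ρ]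
    (Y : P → G K) (hY : Continuous Y) {φ : G K → ℂ} (hφ : IsAutT 𝔫 τ R.r φ)
    (v : G K → ℂ) (hv : ∀ g, ‖v g‖ ≤ ∫ p, ‖φ (g * Y p)‖ ∂ρ) :
    nsq R.F v ≤ ρ.real Set.univ ^ 2 * nsq R.F φ := by
  have := borelSpaceG322 (K := K)
  have := isFinite_restrict322 R.F
  obtain ⟨B, hB⟩ := hφ.bdd
  have hcont : Continuous (Function.uncurry fun (g : G K) (p : P) => φ (g * Y p)) :=
    hφ.cont.comp (continuous_fst.mul (hY.comp continuous_snd))
  have hmain := abs_mean_bound322 (R.F.μ.restrict R.F.D) ρ (fun g p => φ (g * Y p))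
    hcont.measurable B (fun g p => hB _) (∫ g in R.F.D, ‖φ g‖ ^ 2 ∂(R.F.μ))
    (fun p => le_of_eq (int_sq_translT899 R hTr hφ (Y p))) v hv
  rw [nsq_eq322 R.F hφ.cont hφ.bdd]
  exact (nsq_le322 R.F v).trans hmain

/-! ## 3. The pointwise bound for the twisted circle mean -/

/-- The `τ`-twisted circle mean is dominated by the mean of `|φ|`. -/
theorem norm_circleMeanT_le899 {τ : G K → ℂ} (hτ : IsKType τ) {w : InfinitePlace K}
    {k : ℝ → G K} (hk : IsRotAt w k) (a : G K) (φ : G K → ℂ) (g : G K) :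
    ‖circleMeanT τ k a φ g‖ ≤ ∫ θ, ‖φ (g * (k θ * a))‖ ∂rhoC322 := by
  have e1 : circleMeanT τ k a φ g = ∫ θ, (τ (k θ))⁻¹ * φ (g * k θ * a) ∂rhoC322 := by
    unfold circleMeanT rhoC322
    rw [intervalIntegral.integral_of_le (by positivity)]
  have e2 : (fun θ => ‖(τ (k θ))⁻¹ * φ (g * k θ * a)‖) = fun θ => ‖φ (g * (k θ * a))‖ := by
    funext θ
    rw [norm_mul, norm_tau_inv899 hτ (isArchCompact_rot899 hk θ), one_mul, mul_assoc]
  rw [e1]
  refine (norm_integral_le_integral_norm _).trans (le_of_eq ?_)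
  rw [e2]

/-! ## 4. The two clauses of `SubMeanBddT291` -/

/-- **Sphere means are bounded on the cusp functions of the class.** -/
theorem sphereBddT899 {𝔫 : Ideal (𝓞 K)} {τ : G K → ℂ} (R : FrameR K) (hTr : TranslInvT899 R)
    (w : InfinitePlace K) (d : ℝ) (Y : ℝ → ℝ → G K) (hY : IsSphereAt w d Y) :
    H291.BddT291 𝔫 τ R (sphereMean Y) := by
  have hYc := continuous_sphereT899 hY
  exact ⟨rhoS322.real Set.univ ^ 2, fun φ hφ =>
    meanBdd_generalT899 R hTr rhoS322 (fun p : ℝ × ℝ => Y p.1 p.2) hYc hφ.aut _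
      (norm_sphereMean_le322 Y hYc hφ.aut.cont hφ.aut.bdd)⟩

/-- **Twisted circle means are bounded on the cusp functions of the class.** -/
theorem circleBddT899 {𝔫 : Ideal (𝓞 K)} {τ : G K → ℂ} (hτ : IsKType τ) (R : FrameR K)
    (hTr : TranslInvT899 R) (w : InfinitePlace K) (k : ℝ → G K) (a : G K) (hk : IsRotAt w k) :
    H291.BddT291 𝔫 τ R (circleMeanT τ k a) := by
  have hYc : Continuous (fun θ : ℝ => k θ * a) := (continuous_rot899 hk).mul continuous_const
  exact ⟨rhoC322.real Set.univ ^ 2, fun φ hφ =>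
    meanBdd_generalT899 R hTr rhoC322 (fun θ : ℝ => k θ * a) hYc hφ.aut _
      (norm_circleMeanT_le899 hτ hk a φ)⟩

/-- **T2.27.15** `SubMeanBddT291` from the KEY LEMMA T2.27.00 (`SubTranslT291`), VERBATIM.
(T2.07.30 is `locCont472` of helper472; of `CtxT291` only `t1` and `kt` are used.) -/
theorem subMeanBddT899 (hTr : H291.SubTranslT291 K) : H291.SubMeanBddT291 K := by
  intro 𝔫 τ c R
  have hTrR : TranslInvT899 R := translInvT_of_sub899 hTr c.t1 R
  exact ⟨fun w _ d _ Y hY => sphereBddT899 R hTrR w d Y hY,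
    fun w _ t _ k a hk _ => circleBddT899 c.kt R hTrR w k a hk⟩

example (hTr : H291.SubTranslT291 K) : H291.SubMeanBddT291 K := subMeanBddT899 hTr

end Fermat.Agent.LT.T2.H899

end

end
-- ===== PACK-END LT/T2/H899/MeanBddT.lean

-- ===== PACK-BEGIN LT/T3/BridgeT5.lean
section



/-!
# Row LT, tower T3 (architect helper14): the output of T3 in the vocabulary of T5

OFF-MAIN.  Complete proofs, nothing assumed.  `T5/Spec.lean` = v4 of helper32 (byte-identical copy,
sha256 f2d97e70548f; `IsBorelInvariantFn` with the field `ray`, ruling R2 of the chief).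

* `isBorelInv_of_T5`   : `T5.IsBorelInvariantFn Ψ → T3.IsBorelInv K Ψ` (the class of T5 is SMALLER).
* `isEK_T5`            : `T3.IsEKop K μ f → T5.IsEK μ f` (so T3 delivers MORE than T5 asks; no
  averaging over `A_∞ / ⟨r⟩` is needed).
* `isTestFn_T5`        : a continuous, compactly supported, smooth, bi-invariant function is a
  test function of T5 of trivial `K_∞`-type.
* `exists_testFn_T5`   : `EKOpExistSmoothC K` in the vocabulary of T5: for `K` totally complex,
  `(a₀) = 𝔭_{v₀}ⁿ`, `a₀ ≡ 1 mod 𝔫`, there is `f` with `T5.IsTestFn 𝔫 trivType f`, `T5.IsEK μ f`,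
  `T5.IsEK μ (T5.adjointFn f)`, supported at `{v₀} ∪ S_∞`, acting on the spherical Hecke
  eigenfunctions of parameter `0` by `c(a,b)`, `c(a,b) ≠ 0` when `z₁ⁿ ≠ 1 ≠ z₂ⁿ`.
-/

set_option autoImplicit false

open IsDedekindDomain NumberField MeasureTheory
open Fermat.Agent.LT.H556.A0

noncomputable section

namespace Fermat.Agent.LT.T3

variable (K : Type) [Field K] [NumberField K]

theorem isBorelInv_of_T5 {Ψ : G K → ℂ} (h : T5.IsBorelInvariantFn Ψ) : IsBorelInv K Ψ where
  cont := h.cont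
  unip := fun x g => h.unip (unip K x) x (unip_coe K x) g
  torus := fun t a b ht g => h.torus t a b ht g

theorem isEK_T5 {μ : @Measure (G K) (borel (G K))} {f : G K → ℂ} (h : IsEKop K μ f) :
    T5.IsEK μ f := by
  intro Ψ hΨ x
  have := h Ψ (isBorelInv_of_T5 K hΨ) x
  unfold Rop at this
  unfold T5.Rconv
  rw [← this]
  refine integral_congr_ae (Filter.Eventually.of_forall fun y => ?_)
  exact mul_comm _ _

theorem adjointFn_T5 (f : G K → ℂ) : T5.adjointFn f = starG K f := rfl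

theorem isTestFn_T5 {𝔫 : Ideal (𝓞 K)} {f : G K → ℂ} (h1 : Continuous f)
    (h2 : HasCompactSupport f) (h3 : AS.IsSmoothInf K f) (h4 : IsBiInv K 𝔫 f) :
    T5.IsTestFn 𝔫 T5.trivType f where
  ktype := T5.isKType_triv
  cont := h1
  supp := h2
  smooth := h3
  inv :=
    { level_right := fun u hu g => (h4.1 u hu g).2
      level_left := fun u hu g => (h4.1 u hu g).1
      arch_right := fun w k hk g => by
        rw [(h4.2 w k hk g).2]
        simp [T5.trivType]
      arch_left := fun w k hk g => by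
        rw [(h4.2 w k hk g).1]
        simp [T5.trivType] }

/-- **The output of T3 for T5 / T7**: existence of an Eisenstein-killing test function of T5. -/
theorem exists_testFn_T5 (h : EKOpExistSmoothC K) (hK : ∀ w : InfinitePlace K, w.IsComplex)
    (μ : @Measure (G K) (borel (G K)))
    (hμ : @Measure.IsHaarMeasure (G K) _ _ (borel (G K)) μ)
    (𝔫 : Ideal (𝓞 K)) (h𝔫 : 𝔫 ≠ ⊥) (v₀ : HeightOneSpectrum (𝓞 K)) (hv₀ : ¬ v₀.asIdeal ∣ 𝔫)
    (a₀ : 𝓞 K) (n : ℕ) (hn : 0 < n) (hspan : Ideal.span {a₀} = v₀.asIdeal ^ n)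
    (hmem : a₀ - 1 ∈ 𝔫) :
    ∃ f : G K → ℂ, T5.IsTestFn 𝔫 T5.trivType f ∧ T5.IsEK μ f ∧ T5.IsEK μ (T5.adjointFn f) ∧
      IsSuppAt K 𝔫 v₀ f ∧
      ∃ c : ℂ → ℂ → ℂ,
        (∀ a b z₁ z₂ : ℂ, z₁ + z₂ = a → z₁ * z₂ = b → z₁ ^ n ≠ 1 → z₂ ^ n ≠ 1 → c a b ≠ 0) ∧
        ∀ φ : G K → ℂ, IsSph0Level K 𝔫 φ → ∀ a b : ℂ, IsHeckeEigenAt φ v₀ a b →
          ∀ g : G K, T5.Rconv μ f φ g = c a b * φ g := by
  obtain ⟨f, h1, h2, h3, h4, h5, h6, h7, c, hc, hact⟩ :=
    h hK μ hμ 𝔫 h𝔫 v₀ hv₀ a₀ n hn hspan hmem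
  refine ⟨f, isTestFn_T5 K h1 h2 h3 h6, isEK_T5 K h4, isEK_T5 K h5, h7, c, hc, ?_⟩
  intro φ hφ a b he g
  rw [← hact φ hφ a b he g]
  unfold Rop T5.Rconv
  refine integral_congr_ae (Filter.Eventually.of_forall fun y => ?_)
  exact mul_comm _ _

end Fermat.Agent.LT.T3

end

end
-- ===== PACK-END LT/T3/BridgeT5.lean

-- ===== PACK-BEGIN LT/T6/H338/LatticeTree.lean
section


/-!
# Row LT, tower T6 — the tree of `GL₂(k)` (helper338, OFF-MAIN)

Registry row T6.13b.  `k` a field with `Valued k ℤᵐ⁰`, `hk : ∃ ϖ, v ϖ = exp (-1)`.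

* `BT338 hk` : the quotient of `GL₂(k)` by `x⁻¹ y ∈ k^× GL₂(𝒪)` (`btMk338_eq_iff`);
* `btDist338 hk` : `a - b` for `cartan (x⁻¹ y) = (a, b)` (`btDist338_mk`);
* `isTreeDist_bt338` : `btDist338` is a tree distance (`IsTreeDist338` of `LT/H338/TreeDist.lean`);
* `ncard_nb_bt338` : for `IsLocalField k q` every vertex has exactly `q + 1` neighbours;
* `btLeft338 γ`, `btTw338 s hs δ` : the maps `x ↦ γ x` and `x ↦ δ s(x)` (`s` a ring automorphism
  preserving the valuation) on the vertices; they preserve the distance.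
-/

set_option autoImplicit false

open Matrix

open scoped Classical

noncomputable section

namespace Fermat.Agent.LT.H338

open Fermat.Agent.LT.T6 Fermat.Agent.LT.H129

variable {k : Type} [Field k] [Valued k Γ₀]

/-! ### Maps induced on the quotient of a pre-tree-distance -/

section QuotMap

variable {G : Type*} {D : G → G → ℕ} (hD : IsPreTreeDist338 D)

/-- The map induced on the quotient by a `D`-preserving map. -/
def preMap338 (f : G → G) (hf : ∀ x y, D (f x) (f y) = D x y) : PreQuot338 hD → PreQuot338 hD :=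
  Quotient.map (sa := preSetoid338 hD) (sb := preSetoid338 hD) f (by
    intro x y h
    show D (f x) (f y) = 0
    rw [hf]; exact h)

theorem preMap338_mk (f : G → G) (hf : ∀ x y, D (f x) (f y) = D x y) (x : G) :
    preMap338 hD f hf (preMk338 hD x) = preMk338 hD (f x) := rfl

theorem quotDist338_preMap (f : G → G) (hf : ∀ x y, D (f x) (f y) = D x y)
    (x y : PreQuot338 hD) :
    quotDist338 hD (preMap338 hD f hf x) (preMap338 hD f hf y) = quotDist338 hD x y := by
  obtain ⟨x, rfl⟩ := preMk338_surj hD x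
  obtain ⟨y, rfl⟩ := preMk338_surj hD y
  rw [preMap338_mk, preMap338_mk, quotDist338_mk, quotDist338_mk, hf]

end QuotMap

/-! ### The tree -/

section Tree

variable (hk : ∃ ϖ : k, Valued.v ϖ = WithZero.exp (-1 : ℤ))

/-- The vertices of the tree of `GL₂(k)`: `GL₂(k) / k^× GL₂(𝒪)`. -/
def BT338 : Type := PreQuot338 (isPreTreeDist_gD338 hk)

/-- The vertex `g · [𝒪 ⊕ 𝒪]`. -/
def btMk338 (g : GL (Fin 2) k) : BT338 hk := preMk338 (isPreTreeDist_gD338 hk) g

/-- The distance on the tree. -/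
def btDist338 : BT338 hk → BT338 hk → ℕ := quotDist338 (isPreTreeDist_gD338 hk)

theorem btMk338_surj (x : BT338 hk) : ∃ g, btMk338 hk g = x :=
  preMk338_surj (isPreTreeDist_gD338 hk) x

theorem btDist338_mk' (x y : GL (Fin 2) k) :
    btDist338 hk (btMk338 hk x) (btMk338 hk y) = gD338 x y := rfl

theorem btDist338_cast (x y : GL (Fin 2) k) :
    ((btDist338 hk (btMk338 hk x) (btMk338 hk y) : ℕ) : ℤ) = gd338 (x⁻¹ * y) := by
  rw [btDist338_mk', gD338_cast]

/-- The distance is `a - b` for the Cartan invariant `(a, b)` of `x⁻¹ y`. -/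
theorem btDist338_mk (x y : GL (Fin 2) k) :
    ((btDist338 hk (btMk338 hk x) (btMk338 hk y) : ℕ) : ℤ)
      = (cartan (x⁻¹ * y)).1 - (cartan (x⁻¹ * y)).2 := by
  rw [btDist338_cast, gd338_eq_cartan]

theorem btMk338_eq_iff_gd (x y : GL (Fin 2) k) :
    btMk338 hk x = btMk338 hk y ↔ gd338 (x⁻¹ * y) = 0 := by
  exact (preMk338_eq_iff (isPreTreeDist_gD338 hk) x y).trans (by rw [gD338_eq_iff]; rfl)

/-- Two elements give the same vertex iff they differ by an element of `k^× GL₂(𝒪)`. -/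
theorem btMk338_eq_iff (x y : GL (Fin 2) k) :
    btMk338 hk x = btMk338 hk y
      ↔ ∃ (z : k) (hz : z ≠ 0) (u : GL (Fin 2) k), InU 0 u ∧ y = x * (sc338 z hz * u) := by
  rw [btMk338_eq_iff_gd]
  constructor
  · intro h
    obtain ⟨z, hz, u, hu, e⟩ := exists_sc_of_gd_eq_zero338 h
    exact ⟨z, hz, u, hu, by rw [← e]; group⟩
  · rintro ⟨z, hz, u, hu, rfl⟩
    rw [inv_mul_cancel_left, gd338_sc_mul, gd338_of_InU hu]

/-- **The tree of `GL₂(k)`**: `btDist338` is a tree distance. -/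
theorem isTreeDist_bt338 : IsTreeDist338 (btDist338 hk) :=
  isTreeDist_quot338 (isPreTreeDist_gD338 hk)

end Tree

/-! ### Representatives of the neighbours -/

/-- `none ↦ w = !![0, 1; 1, 0]`, `some t ↦ !![1, 0; t, 1]`. -/
def rho338 : Option k → GL (Fin 2) k
  | none => weyl129
  | some t => lowerU129 t

theorem inU_rho338 {o : Option k} (ho : ∀ t ∈ o, Valued.v t ≤ 1) : InU 0 (rho338 o) := by
  rw [inU_zero_iff129]
  cases o with
  | none => exact isMaxCpt129_weyl _
  | some t => exact isMaxCpt129_lowerU ((mem_vO129 t).2 (ho t rfl))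

omit [Valued k Γ₀] in
theorem lowerU_inv_mul_apply338 (t : k) (u : GL (Fin 2) k) :
    (((lowerU129 t)⁻¹ * u : GL (Fin 2) k) : Matrix (Fin 2) (Fin 2) k) 1 0 = u 1 0 - t * u 0 0 := by
  rw [lowerU129_inv, Matrix.GeneralLinearGroup.coe_mul, Matrix.mul_apply, Fin.sum_univ_two]
  simp [lowerU129]
  ring

omit [Valued k Γ₀] in
theorem weyl_inv_mul_apply338 (u : GL (Fin 2) k) :
    (((weyl129 : GL (Fin 2) k)⁻¹ * u : GL (Fin 2) k) : Matrix (Fin 2) (Fin 2) k) 1 0 = u 0 0 := by
  rw [weyl129_inv, coe_weyl129_mul]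
  simp

/-- Separation: distinct representatives are not congruent. -/
theorem rho338_sep {T : Finset k}
    (hT : ∀ x ∈ T, ∀ y ∈ T, x ≠ y → Valued.v (x - y) = 1) {o o' : Option k}
    (ho : ∀ t ∈ o, t ∈ T) (ho' : ∀ t ∈ o', t ∈ T)
    (h : Valued.v ((((rho338 o)⁻¹ * rho338 o' : GL (Fin 2) k) :
      Matrix (Fin 2) (Fin 2) k) 1 0) < 1) : o = o' := by
  cases o with
  | none =>
    cases o' with
    | none => rfl
    | some t' =>
      exfalso
      simp only [rho338] at h
      rw [weyl_inv_mul_apply338] at h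
      simp [lowerU129] at h
  | some t =>
    cases o' with
    | none =>
      exfalso
      simp only [rho338] at h
      rw [lowerU_inv_mul_apply338] at h
      simp [weyl129] at h
    | some t' =>
      simp only [rho338] at h
      rw [lowerU_inv_mul_apply338] at h
      simp only [lowerU129, coe_mkGL129, Matrix.of_apply, Matrix.cons_val', Matrix.cons_val_zero,
        Matrix.cons_val_one, Matrix.cons_val_fin_one, mul_one] at h
      by_contra hne
      have hne' : t' ≠ t := fun e => hne (by rw [e])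
      have := hT t' (ho' t' rfl) t (ho t rfl) hne'
      rw [this] at h
      exact lt_irrefl _ h

/-- Exhaustion: every element of `GL₂(𝒪)` is congruent to a representative. -/
theorem rho338_exh {T : Finset k}
    (hT : ∀ z : k, Valued.v z ≤ 1 → ∃ x ∈ T, Valued.v (z - x) < 1)
    {u : GL (Fin 2) k} (hu : InU 0 u) :
    ∃ o : Option k, (∀ t ∈ o, t ∈ T) ∧
      Valued.v ((((rho338 o)⁻¹ * u : GL (Fin 2) k) : Matrix (Fin 2) (Fin 2) k) 1 0) < 1 := by
  by_cases ha : Valued.v ((u : Matrix (Fin 2) (Fin 2) k) 0 0) = 1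
  · have ha0 : (u : Matrix (Fin 2) (Fin 2) k) 0 0 ≠ 0 := by
      intro e; rw [e, map_zero] at ha; exact zero_ne_one ha
    have hz : Valued.v ((u : Matrix (Fin 2) (Fin 2) k) 1 0 / (u : Matrix (Fin 2) (Fin 2) k) 0 0)
        ≤ 1 := by
      rw [map_div₀, ha, div_one]
      exact entry_le_one_of_InU338 hu 1 0
    obtain ⟨t, ht, hlt⟩ := hT _ hz
    refine ⟨some t, ?_, ?_⟩
    · intro t' ht'
      cases ht'
      exact ht
    · simp only [rho338]
      rw [lowerU_inv_mul_apply338]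
      have e : (u : Matrix (Fin 2) (Fin 2) k) 1 0 - t * (u : Matrix (Fin 2) (Fin 2) k) 0 0
          = (u : Matrix (Fin 2) (Fin 2) k) 0 0
            * ((u : Matrix (Fin 2) (Fin 2) k) 1 0 / (u : Matrix (Fin 2) (Fin 2) k) 0 0 - t) := by
        field_simp
      rw [e, map_mul, ha, one_mul]
      exact hlt
  · refine ⟨none, ?_, ?_⟩
    · intro t ht
      cases ht
    · simp only [rho338]
      rw [weyl_inv_mul_apply338]
      exact lt_of_le_of_ne (entry_le_one_of_InU338 hu 0 0) ha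

/-! ### Regularity -/

/-- **Every vertex of the tree of `GL₂(k)` has exactly `q + 1` neighbours.** -/
theorem ncard_nb_bt338 {q : ℕ} (hk : IsLocalField k q) (x : BT338 hk.unif) :
    {w : BT338 hk.unif | btDist338 hk.unif x w = 1}.ncard = q + 1 := by
  obtain ⟨g₀, rfl⟩ := btMk338_surj hk.unif x
  obtain ⟨ϖ, hϖ⟩ := hk.unif
  have hne : ϖ ≠ 0 := ne_zero_of_unif338 ϖ hϖ
  obtain ⟨T, hTq, hT1, hTsep, hTexh⟩ := hk.residue
  set S : Finset (Option k) := Finset.insertNone T with hS
  have hSmem : ∀ o ∈ S, ∀ t ∈ o, t ∈ T := fun o ho => Finset.mem_insertNone.1 ho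
  have hSU : ∀ o ∈ S, InU 0 (rho338 o) := fun o ho =>
    inU_rho338 (fun t ht => hT1 t (hSmem o ho t ht))
  set f : Option k → GL (Fin 2) k := fun o => g₀ * (rho338 o * dpi338 ϖ hne) with hf
  have hconj : ∀ o o' : Option k, (f o)⁻¹ * f o'
      = (dpi338 ϖ hne)⁻¹ * ((rho338 o)⁻¹ * rho338 o') * dpi338 ϖ hne := by
    intro o o'; simp only [hf]; group
  have hsep : ∀ o ∈ S, ∀ o' ∈ S, gd338 ((f o)⁻¹ * f o') = 0 → o = o' := by
    intro o ho o' ho' h
    rw [hconj, gd338_conj_dpi_eq_zero_iff ϖ hne hϖ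
      (inU_zero_mul129 (inU_zero_inv129 (hSU o ho)) (hSU o' ho'))] at h
    exact rho338_sep hTsep (hSmem o ho) (hSmem o' ho') h
  have hinj : Set.InjOn f (S : Set (Option k)) := by
    intro o ho o' ho' e
    apply hsep o ho o' ho'
    rw [e, inv_mul_cancel, gd338_one]
  have hcard : (S.image f).card = q + 1 := by
    rw [Finset.card_image_of_injOn hinj, hS, Finset.card_insertNone, hTq]
  rw [← hcard]
  refine ncard_nb_quot338 (isPreTreeDist_gD338 hk.unif) g₀ (S.image f) ?_ ?_ ?_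
  · intro r hr
    obtain ⟨o, ho, rfl⟩ := Finset.mem_image.1 hr
    rw [gD338_eq_iff]
    simp only [hf]
    rw [inv_mul_cancel_left, gd338_mul_left_U _ (hSU o ho), gd338_dpi ϖ hne hϖ]; rfl
  · intro r hr r' hr' h
    obtain ⟨o, ho, rfl⟩ := Finset.mem_image.1 hr
    obtain ⟨o', ho', rfl⟩ := Finset.mem_image.1 hr'
    rw [gD338_eq_iff] at h
    rw [hsep o ho o' ho' (by simpa using h)]
  · intro w hw
    have h1 : gd338 (g₀⁻¹ * w) = 1 := by rw [gD338_eq_iff] at hw; simpa using hw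
    obtain ⟨u₁, a, hu₁, ha, e₁⟩ := exists_of_gd_eq_one338 ϖ hne hϖ h1
    obtain ⟨o, ho, hlt⟩ := rho338_exh hTexh hu₁
    have hoS : o ∈ S := Finset.mem_insertNone.2 ho
    refine ⟨f o, Finset.mem_image_of_mem f hoS, ?_⟩
    rw [gD338_eq_iff]
    have e : (f o)⁻¹ * w
        = (dpi338 ϖ hne)⁻¹ * ((rho338 o)⁻¹ * u₁) * dpi338 ϖ hne * a := by
      have : (f o)⁻¹ * w = (rho338 o * dpi338 ϖ hne)⁻¹ * (g₀⁻¹ * w) := by
        simp only [hf]; group
      rw [this, e₁]; group
    rw [e, gd338_mul_right_of_eq_zero _ ha]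
    rw [(gd338_conj_dpi_eq_zero_iff ϖ hne hϖ
      (inU_zero_mul129 (inU_zero_inv129 (hSU o hoS)) hu₁)).2 hlt]
    rfl

/-! ### The actions -/

theorem gD338_left (γ x y : GL (Fin 2) k) : gD338 (γ * x) (γ * y) = gD338 x y := by
  unfold gD338
  congr 2
  group

theorem entryMax_glAut338 (s : k ≃+* k) (hs : ∀ y : k, Valued.v (s y) = Valued.v y)
    (g : GL (Fin 2) k) : entryMax (glAut s g) = entryMax g := by
  unfold entryMax
  congr 1
  funext p
  exact hs _

omit [Valued k Γ₀] in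
theorem det_glAut338 (s : k ≃+* k) (g : GL (Fin 2) k) :
    ((glAut s g : GL (Fin 2) k) : Matrix (Fin 2) (Fin 2) k).det
      = s (g : Matrix (Fin 2) (Fin 2) k).det := by
  rw [det_eq338, det_eq338]
  simp [glAut]

theorem gd338_glAut (s : k ≃+* k) (hs : ∀ y : k, Valued.v (s y) = Valued.v y)
    (g : GL (Fin 2) k) : gd338 (glAut s g) = gd338 g := by
  unfold gd338
  rw [entryMax_glAut338 s hs, det_glAut338, hs]

theorem cartan_glAut338 (s : k ≃+* k) (hs : ∀ y : k, Valued.v (s y) = Valued.v y)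
    (g : GL (Fin 2) k) : cartan (glAut s g) = cartan g := by
  unfold cartan
  rw [entryMax_glAut338 s hs, det_glAut338, hs]

theorem gD338_tw (s : k ≃+* k) (hs : ∀ y : k, Valued.v (s y) = Valued.v y)
    (δ x y : GL (Fin 2) k) : gD338 (δ * glAut s x) (δ * glAut s y) = gD338 x y := by
  rw [gD338_left]
  unfold gD338
  rw [← map_inv, ← map_mul, gd338_glAut s hs]

section Actions

variable (hk : ∃ ϖ : k, Valued.v ϖ = WithZero.exp (-1 : ℤ))

/-- The action of `γ ∈ GL₂(k)` on the vertices: `x ↦ γ x`. -/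
def btLeft338 (γ : GL (Fin 2) k) : BT338 hk → BT338 hk :=
  preMap338 (isPreTreeDist_gD338 hk) (fun x => γ * x) (gD338_left γ)

/-- The twisted action: `x ↦ δ s(x)`. -/
def btTw338 (s : k ≃+* k) (hs : ∀ y : k, Valued.v (s y) = Valued.v y) (δ : GL (Fin 2) k) :
    BT338 hk → BT338 hk :=
  preMap338 (isPreTreeDist_gD338 hk) (fun x => δ * glAut s x) (gD338_tw s hs δ)

theorem btLeft338_mk (γ x : GL (Fin 2) k) :
    btLeft338 hk γ (btMk338 hk x) = btMk338 hk (γ * x) := rfl

theorem btTw338_mk (s : k ≃+* k) (hs : ∀ y : k, Valued.v (s y) = Valued.v y)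
    (δ x : GL (Fin 2) k) : btTw338 hk s hs δ (btMk338 hk x) = btMk338 hk (δ * glAut s x) := rfl

theorem btDist338_left (γ : GL (Fin 2) k) (x y : BT338 hk) :
    btDist338 hk (btLeft338 hk γ x) (btLeft338 hk γ y) = btDist338 hk x y :=
  quotDist338_preMap _ _ _ x y

theorem btDist338_tw (s : k ≃+* k) (hs : ∀ y : k, Valued.v (s y) = Valued.v y)
    (δ : GL (Fin 2) k) (x y : BT338 hk) :
    btDist338 hk (btTw338 hk s hs δ x) (btTw338 hk s hs δ y) = btDist338 hk x y :=
  quotDist338_preMap _ _ _ x y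

/-- The displacement of `x ↦ γ x` at the vertex of `x` is `a - b` for
`cartan (x⁻¹ γ x) = (a, b)`. -/
theorem btDist338_left_disp (γ x : GL (Fin 2) k) :
    ((btDist338 hk (btMk338 hk x) (btLeft338 hk γ (btMk338 hk x)) : ℕ) : ℤ)
      = (cartan (x⁻¹ * γ * x)).1 - (cartan (x⁻¹ * γ * x)).2 := by
  rw [btLeft338_mk, btDist338_mk, mul_assoc]

/-- The displacement of `x ↦ δ s(x)` at the vertex of `x` is `a - b` for
`cartan (x⁻¹ δ s(x)) = (a, b)`. -/
theorem btDist338_tw_disp (s : k ≃+* k) (hs : ∀ y : k, Valued.v (s y) = Valued.v y)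
    (δ x : GL (Fin 2) k) :
    ((btDist338 hk (btMk338 hk x) (btTw338 hk s hs δ (btMk338 hk x)) : ℕ) : ℤ)
      = (cartan (x⁻¹ * δ * glAut s x)).1 - (cartan (x⁻¹ * δ * glAut s x)).2 := by
  rw [btTw338_mk, btDist338_mk, mul_assoc]

theorem btLeft338_mul (γ γ' : GL (Fin 2) k) (x : BT338 hk) :
    btLeft338 hk (γ * γ') x = btLeft338 hk γ (btLeft338 hk γ' x) := by
  obtain ⟨x, rfl⟩ := btMk338_surj hk x
  rw [btLeft338_mk, btLeft338_mk, btLeft338_mk, mul_assoc]

theorem btLeft338_one (x : BT338 hk) : btLeft338 hk 1 x = x := by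
  obtain ⟨x, rfl⟩ := btMk338_surj hk x
  rw [btLeft338_mk, one_mul]

omit [Valued k Γ₀] in
theorem twN_succ_right338 {Γ : Type} [Group Γ] (s : Γ →* Γ) (n : ℕ) (δ : Γ) :
    twN s (n + 1) δ = twN s n δ * s^[n] δ := by
  induction n with
  | zero => simp [twN]
  | succ n ih =>
    calc twN s (n + 1 + 1) δ = δ * s (twN s (n + 1) δ) := rfl
      _ = δ * s (twN s n δ * s^[n] δ) := by rw [ih]
      _ = (δ * s (twN s n δ)) * s (s^[n] δ) := by rw [map_mul, mul_assoc]
      _ = twN s (n + 1) δ * s^[n + 1] δ := by rw [Function.iterate_succ_apply']; rfl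

/-- The `l`-th iterate of `x ↦ δ s(x)` is `x ↦ N(δ) s^l(x)`, `N δ = δ s(δ) ⋯ s^{l-1}(δ)`. -/
theorem btTw338_iterate (s : k ≃+* k) (hs : ∀ y : k, Valued.v (s y) = Valued.v y)
    (δ : GL (Fin 2) k) (l : ℕ) (x : GL (Fin 2) k) :
    (btTw338 hk s hs δ)^[l] (btMk338 hk x)
      = btMk338 hk (twNorm s l δ * (glAut s)^[l] x) := by
  induction l generalizing x with
  | zero => simp [twNorm, twN]
  | succ n ih =>
    rw [Function.iterate_succ_apply, btTw338_mk, ih]
    congr 1
    rw [Function.iterate_succ_apply, iterate_map_mul, twNorm, twNorm, twN_succ_right338,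
      mul_assoc]

omit [Valued k Γ₀] in
theorem glAut_iterate338 (s : k ≃+* k) (l : ℕ) (hl : ∀ y : k, (s ^ l) y = y)
    (x : GL (Fin 2) k) : (glAut s)^[l] x = x := by
  have h : ∀ (n : ℕ) (g : GL (Fin 2) k) (i j : Fin 2),
      (((glAut s)^[n] g : GL (Fin 2) k) : Matrix (Fin 2) (Fin 2) k) i j = (s ^ n) (g i j) := by
    intro n
    induction n with
    | zero => intro g i j; simp
    | succ n ih =>
      intro g i j
      rw [Function.iterate_succ_apply', pow_succ']
      show s ((((glAut s)^[n] g : GL (Fin 2) k) : Matrix (Fin 2) (Fin 2) k) i j)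
        = s ((s ^ n) (g i j))
      rw [ih]
  apply ext_mat129
  ext i j
  rw [h, hl]

/-- If `s^l = 1` the `l`-th iterate of `x ↦ δ s(x)` is the action of the norm `N δ`. -/
theorem btTw338_iterate_eq_left (s : k ≃+* k) (hs : ∀ y : k, Valued.v (s y) = Valued.v y)
    (δ : GL (Fin 2) k) (l : ℕ) (hl : ∀ y : k, (s ^ l) y = y) (x : BT338 hk) :
    (btTw338 hk s hs δ)^[l] x = btLeft338 hk (twNorm s l δ) x := by
  obtain ⟨x, rfl⟩ := btMk338_surj hk x
  rw [btTw338_iterate, glAut_iterate338 s l hl, btLeft338_mk]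

end Actions

end Fermat.Agent.LT.H338

end

end
-- ===== PACK-END LT/T6/H338/LatticeTree.lean

-- ===== PACK-BEGIN LT/T6/H227/LocRegClosed.lean
section




/-!
# Row LT, tower T6, leaf T6.18f `LocRegC783` CLOSED: cross-check build (helper227) -- OFF-MAIN

`locRegC227 : H783.LocRegC783`, unconditional, assembled in ONE tree from the delivered sub-leaves
(all files of the owners byte-identical):

* `H179.locReg_of_ord179 : OrdC179 → LocRegC783` (helper179; plugs `normalFormC166` (helper166),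
  `rootC962` (helper962), `nearC_of568` (helper568), `normOpen_of227` (helper227),
  `tw_of_near179` (helper179));
* `H706.ord_of706 : NormalFormC179 → OrbSumExC → OrbSumUniqC → OrdC179` (helper706);
* `H420.orbSumExC420 : OrbSumExC` (helper420), `H944.orbSumUniqC944 : OrbSumUniqC` (helper944).
-/

set_option autoImplicit false

namespace Fermat.Agent.LT.T6.H227

open Fermat.Agent.LT.T6

/-- **T6.18f.5** `OrdC179`, unconditional. -/
theorem ordC227 : H179.OrdC179 :=
  H706.ord_of706 H166.normalFormC166 H420.orbSumExC420 H944.orbSumUniqC944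

/-- **T6.18f** `LocRegC783` (local matching at a regular point), unconditional. -/
theorem locRegC227 : H783.LocRegC783 :=
  H179.locReg_of_ord179 ordC227

end Fermat.Agent.LT.T6.H227

end
-- ===== PACK-END LT/T6/H227/LocRegClosed.lean

-- ===== PACK-BEGIN LT/T6/H855/HypReal.lean
section



/-!
# Row LT, tower T6, T6.25 `ArchHyp` (helper855): THE REAL SIDE

OFF-MAIN.  `real_side855`: from the Iwasawa integration formula of `GL₂(ℝ)⁺`
(`H189.IwasawaRC`, as a hypothesis on `μ`): for `F` continuous, left invariant under the diagonal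
matrices and right invariant under `SO(2)`, and a cut-off function `B ≥ 0` with
`∫ B(diag(e^{u₁}, e^{u₂}) y) du = r`:
`∫ F B dμ = 2 · c · 2π · r ∫_ℝ F(n(x)) dx`.
-/

set_option autoImplicit false

open scoped Matrix ENNReal
open MeasureTheory

noncomputable section

namespace Fermat.Agent.LT.T6.H855

open Fermat.Agent.LT.T6

section Real

local instance borelGLR855 : MeasurableSpace (GL (Fin 2) ℝ) := borel _
local instance borelSpaceGLR855 : BorelSpace (GL (Fin 2) ℝ) := ⟨rfl⟩
local instance secondCountableGLR855 : SecondCountableTopology (GL (Fin 2) ℝ) := scGL855 ℝ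

theorem continuous_det855 :
    Continuous (fun g : GL (Fin 2) ℝ => (g : Matrix (Fin 2) (Fin 2) ℝ).det) := by
  simp_rw [Matrix.det_fin_two]
  exact ((continuous_entry855 0 0).mul (continuous_entry855 1 1)).sub
    ((continuous_entry855 0 1).mul (continuous_entry855 1 0))

theorem posR_isOpen855 : IsOpen H189.posR :=
  isOpen_lt continuous_const continuous_det855

theorem posR_measurable855 : MeasurableSet H189.posR := posR_isOpen855.measurableSet

theorem epsR_coe855 :
    ((H189.epsR : GL (Fin 2) ℝ) : Matrix (Fin 2) (Fin 2) ℝ) = !![-1, 0; 0, 1] := rfl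

theorem det_epsR_mul855 (x : GL (Fin 2) ℝ) :
    ((H189.epsR * x : GL (Fin 2) ℝ) : Matrix (Fin 2) (Fin 2) ℝ).det
      = -(x : Matrix (Fin 2) (Fin 2) ℝ).det := by
  rw [Units.val_mul, Matrix.det_mul, epsR_coe855, Matrix.det_fin_two_of]
  ring

theorem epsR_preimage_compl855 :
    (fun x : GL (Fin 2) ℝ => H189.epsR * x) ⁻¹' H189.posRᶜ = H189.posR := by
  ext x
  simp only [Set.mem_preimage, Set.mem_compl_iff, H189.posR, Set.mem_ofPred_eq, det_epsR_mul855]
  have h := Matrix.GeneralLinearGroup.det_ne_zero x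
  constructor
  · intro h1
    rcases lt_or_gt_of_ne h with h2 | h2
    · exfalso; apply h1; linarith
    · exact h2
  · intro h1 h2
    linarith

/-- The Iwasawa parametrisation with the variables grouped as `(u, (x, θ))`. -/
def iwaG855 (z : (ℝ × ℝ) × (ℝ × ℝ)) : GL (Fin 2) ℝ :=
  H189.dgR z.1.1 z.1.2 * H189.unR z.2.1 * H189.rotR z.2.2

theorem continuous_iwaG855 : Continuous iwaG855 := by
  unfold iwaG855
  refine Continuous.mul (Continuous.mul ?_ ?_) ?_
  · exact continuous_dgR855.comp continuous_fst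
  · have : (fun z : (ℝ × ℝ) × (ℝ × ℝ) => H189.unR z.2.1)
        = (nU855 : ℝ → GL (Fin 2) ℝ) ∘ (fun z : (ℝ × ℝ) × (ℝ × ℝ) => z.2.1) := by
      funext z; exact unR_eq855 _
    rw [this]
    exact continuous_nU855.comp (continuous_fst.comp continuous_snd)
  · exact continuous_rotR855.comp (continuous_snd.comp continuous_snd)

theorem angM_finite855 : IsFiniteMeasure H189.angM := by
  unfold H189.angM
  exact ⟨by rw [Measure.restrict_apply_univ, Real.volume_Ioc]; exact ENNReal.ofReal_lt_top⟩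

theorem angM_univ855 : H189.angM Set.univ = ENNReal.ofReal (2 * Real.pi) := by
  unfold H189.angM
  simp

theorem map_iwaR_eq855 :
    Measure.map H189.iwaR H189.iwaMR
      = Measure.map iwaG855 ((volume : Measure (ℝ × ℝ)).prod
          ((volume : Measure ℝ).prod H189.angM)) := by
  have := angM_finite855
  have h1 : H189.iwaMR = Measure.map (MeasurableEquiv.prodAssoc)
      (((volume : Measure ℝ).prod (volume : Measure ℝ)).prod
        ((volume : Measure ℝ).prod H189.angM)) := by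
    rw [Measure.prodAssoc_prod]
    rfl
  rw [h1, Measure.map_map]
  · rfl
  · have : Continuous H189.iwaR := by
      have : H189.iwaR = iwaG855 ∘ (MeasurableEquiv.prodAssoc (α := ℝ) (β := ℝ) (γ := ℝ × ℝ)).symm := by
        funext p
        rfl
      rw [this]
      exact continuous_iwaG855.comp (by
        change Continuous (fun p : ℝ × ℝ × ℝ × ℝ => ((p.1, p.2.1), p.2.2))
        fun_prop)
    exact this.measurable
  · exact MeasurableEquiv.measurable _

/-- **The real side.** -/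
theorem real_side855 (μ : Measure (GL (Fin 2) ℝ)) [μ.IsHaarMeasure] (c : ℝ≥0∞) (hc : c ≠ ⊤)
    (hμ : μ.restrict H189.posR = c • Measure.map H189.iwaR H189.iwaMR)
    (F : GL (Fin 2) ℝ → ℂ) (hF : Continuous F)
    (hFd : ∀ (u₁ u₂ : ℝ) (x : GL (Fin 2) ℝ), F (H189.dgR u₁ u₂ * x) = F x)
    (hFe : ∀ x : GL (Fin 2) ℝ, F (H189.epsR * x) = F x)
    (hFk : ∀ (θ : ℝ) (x : GL (Fin 2) ℝ), F (x * H189.rotR θ) = F x)
    (hFi : Integrable (fun x : ℝ => F (nU855 x)))
    (B : GL (Fin 2) ℝ → ℝ) (hB : Continuous B) (hB0 : ∀ x, 0 ≤ B x)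
    (hBe : ∀ x : GL (Fin 2) ℝ, B (H189.epsR * x) = B x)
    (r : ℝ) (hBi : ∀ y : GL (Fin 2) ℝ, Integrable (fun u : ℝ × ℝ => B (H189.dgR u.1 u.2 * y)))
    (hBr : ∀ y : GL (Fin 2) ℝ, ∫ u : ℝ × ℝ, B (H189.dgR u.1 u.2 * y) = r) :
    Integrable (fun x => F x * (B x : ℂ)) μ ∧
      ∫ x, F x * (B x : ℂ) ∂μ
        = ((2 * c.toReal * (2 * Real.pi) * r : ℝ) : ℂ) * ∫ x : ℝ, F (nU855 x) := by
  have := angM_finite855
  set H : GL (Fin 2) ℝ → ℂ := fun x => F x * (B x : ℂ) with hH
  have hHc : Continuous H := hF.mul (Complex.continuous_ofReal.comp hB)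
  -- the integrand in the Iwasawa coordinates
  have hHG : ∀ z : (ℝ × ℝ) × (ℝ × ℝ), H (iwaG855 z) = F (nU855 z.2.1) * (B (iwaG855 z) : ℂ) := by
    intro z
    simp only [hH]
    congr 1
    unfold iwaG855
    rw [hFk, hFd, unR_eq855]
  -- Fubini
  have hh : Integrable (fun y : ℝ × ℝ => F (nU855 y.1)) ((volume : Measure ℝ).prod H189.angM) := by
    have := hFi.mul_prod (integrable_const (1 : ℂ) (μ := H189.angM))
    simpa using this
  have hhval : ∫ y : ℝ × ℝ, F (nU855 y.1) ∂((volume : Measure ℝ).prod H189.angM)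
      = ((2 * Real.pi : ℝ) : ℂ) * ∫ x : ℝ, F (nU855 x) := by
    have := integral_prod_mul (μ := (volume : Measure ℝ)) (ν := H189.angM)
      (fun x : ℝ => F (nU855 x)) (fun _ : ℝ => (1 : ℂ))
    simp only [mul_one] at this
    rw [this, integral_const, Measure.real, angM_univ855,
      ENNReal.toReal_ofReal Real.two_pi_pos.le]
    simp only [Complex.real_smul, mul_one]
    ring
  obtain ⟨hI, hval⟩ := fiber_cutoff855 (volume : Measure (ℝ × ℝ))
    ((volume : Measure ℝ).prod H189.angM) iwaG855 continuous_iwaG855.measurable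
    (fun y : ℝ × ℝ => F (nU855 y.1)) hh B hB.measurable hB0 r
    (fun y => by
      have := hBi (H189.unR y.1 * H189.rotR y.2)
      simpa [iwaG855, mul_assoc] using this)
    (fun y => by
      have := hBr (H189.unR y.1 * H189.rotR y.2)
      simpa [iwaG855, mul_assoc] using this)
  -- the positive component
  have hpos : Integrable H (μ.restrict H189.posR) ∧
      ∫ x, H x ∂(μ.restrict H189.posR)
        = ((c.toReal * (2 * Real.pi) * r : ℝ) : ℂ) * ∫ x : ℝ, F (nU855 x) := by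
    rw [hμ, map_iwaR_eq855]
    have hmI : Integrable H (Measure.map iwaG855 ((volume : Measure (ℝ × ℝ)).prod
          ((volume : Measure ℝ).prod H189.angM))) := by
      rw [integrable_map_measure hHc.aestronglyMeasurable continuous_iwaG855.measurable.aemeasurable]
      refine hI.congr (Filter.Eventually.of_forall (fun z => ?_))
      exact (hHG z).symm
    refine ⟨hmI.smul_measure hc, ?_⟩
    rw [integral_smul_measure, integral_map continuous_iwaG855.measurable.aemeasurable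
      hHc.aestronglyMeasurable]
    simp_rw [hHG]
    rw [hval, hhval]
    simp only [Complex.real_smul]
    push_cast
    ring
  -- the negative component
  have hmapε : Measure.map (fun x : GL (Fin 2) ℝ => H189.epsR * x) (μ.restrict H189.posR)
      = μ.restrict H189.posRᶜ := by
    have h1 := Measure.restrict_map (μ := μ) (measurable_const_mul H189.epsR)
      posR_measurable855.compl
    rw [map_mul_left_eq_self, epsR_preimage_compl855] at h1
    exact h1.symm
  have hHε : ∀ x, H (H189.epsR * x) = H x := by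
    intro x
    simp only [hH, hFe, hBe]
  have hneg : Integrable H (μ.restrict H189.posRᶜ) ∧
      ∫ x, H x ∂(μ.restrict H189.posRᶜ) = ∫ x, H x ∂(μ.restrict H189.posR) := by
    rw [← hmapε]
    constructor
    · rw [integrable_map_measure hHc.aestronglyMeasurable
        (measurable_const_mul H189.epsR).aemeasurable]
      refine hpos.1.congr (Filter.Eventually.of_forall (fun x => ?_))
      exact (hHε x).symm
    · rw [integral_map (measurable_const_mul H189.epsR).aemeasurable hHc.aestronglyMeasurable]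
      simp_rw [hHε]
  have hInt : Integrable H μ := by
    have h1 : IntegrableOn H (H189.posR ∪ H189.posRᶜ) μ :=
      IntegrableOn.union (show IntegrableOn H H189.posR μ from hpos.1)
        (show IntegrableOn H H189.posRᶜ μ from hneg.1)
    rwa [Set.union_compl_self, integrableOn_univ] at h1
  refine ⟨hInt, ?_⟩
  rw [← integral_add_compl posR_measurable855 hInt, hneg.2, hpos.2]
  push_cast
  ring

end Real

end Fermat.Agent.LT.T6.H855

end

end
-- ===== PACK-END LT/T6/H855/HypReal.lean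

-- ===== PACK-BEGIN LT/T6/H340/VertexSum.lean
section


/-!
# Row LT, tower T6, helper340: orbit sum = vertex sum on the tree (OFF-MAIN)

Step (c) of the elliptic cases of the fundamental lemma (registry T6.13.2, T6.13.3, T6.14).

`k` a field with `Valued k ℤᵐ⁰`, `s : k ≃+* k` preserving the valuation, `δ ∈ GL₂(k)`
(for the untwisted orbital integrals: `s = RingEquiv.refl k`).

* `twInv340 s hs δ : BTVert340 k → ℤ × ℤ`, `twInv340 ⟦x⟧ = cartan (x⁻¹ δ s(x))`;
* `twInv340_eq_iff` : `twInv340 p = lam ↔ btDist340 p (δ s(p)) = lam.1 - lam.2` and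
  `lam.1 + lam.2 = - log v (det δ)`;
* `twOrbSum_eq_vertexSum340` : if every `z ≠ 0` has the valuation of an `s`-fixed element
  (`k/k^s` unramified) and every element of the twisted centraliser of `δ` is an `s`-fixed scalar
  times an element of its compact part (`T = ϖ^ℤ × T^c`: elliptic, `k[γ]` unramified), then the
  twisted orbit sum `c` of `ϕ ∘ cartan` at `δ` is the sum of `ϕ (twInv340 p)` over the vertices.
* `twOrbSum_eq_countSum340` : the same as `∑ ϕ(lam) · #{p : twInv340 p = lam}`.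
-/

set_option autoImplicit false
set_option linter.unusedSectionVars false

open Matrix

open scoped Classical

noncomputable section

namespace Fermat.Agent.LT.T6.H340

open Fermat.Agent.LT.T6 Fermat.Agent.LT.H129

variable {k : Type} [Field k] [Valued k Γ₀]

/-! ### Twisted conjugation -/

/-- The twisted conjugate `x⁻¹ δ s(x)`. -/
def twc340 (s : k ≃+* k) (δ x : GL (Fin 2) k) : GL (Fin 2) k := x⁻¹ * δ * glAut s x

theorem twc340_mul (s : k ≃+* k) (δ x y : GL (Fin 2) k) :
    twc340 s δ (x * y) = twc340 s (twc340 s δ x) y := by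
  unfold twc340
  rw [map_mul]
  group

theorem twc340_one (s : k ≃+* k) (δ : GL (Fin 2) k) : twc340 s δ 1 = δ := by
  simp [twc340]

theorem twc340_mul_inv_cancel (s : k ≃+* k) (δ x : GL (Fin 2) k) :
    twc340 s (twc340 s δ x) x⁻¹ = δ := by
  rw [← twc340_mul, mul_inv_cancel, twc340_one]

theorem inTwCent_iff340 (s : k ≃+* k) (δ t : GL (Fin 2) k) :
    InTwCent s δ t ↔ twc340 s δ t = δ := Iff.rfl

theorem scal340_mul_scal (a b : k) (ha : a ≠ 0) (hb : b ≠ 0) :
    scal340 a ha * scal340 b hb = scal340 (a * b) (mul_ne_zero ha hb) := by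
  unfold scal340
  rw [diag129_mul]

theorem scal340_inv (a : k) (ha : a ≠ 0) :
    (scal340 a ha)⁻¹ = scal340 a⁻¹ (inv_ne_zero ha) := by
  unfold scal340
  rw [diag129_inv340]

theorem scal340_congr {a b : k} (ha : a ≠ 0) (hb : b ≠ 0) (h : a = b) :
    scal340 a ha = scal340 b hb := by
  subst h; rfl

theorem inU_zero_scal340 {z : k} (hz : z ≠ 0) (hv : Valued.v z = 1) : InU 0 (scal340 z hz) :=
  (inU_zero_iff129 _).mpr (isMaxCpt129_diag_unit hz hz hv hv)

theorem glAut_scal340 (s : k ≃+* k) (z : k) (hz : z ≠ 0) :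
    glAut s (scal340 z hz)
      = scal340 (s z) (by simpa using hz) := by
  apply ext_mat129
  ext i j
  rw [coe_glAut340, coe_scal340, coe_scal340]
  fin_cases i <;> fin_cases j <;> simp

theorem twc340_scal (s : k ≃+* k) (y : GL (Fin 2) k) (z : k) (hz : z ≠ 0) :
    twc340 s y (scal340 z hz)
      = y * scal340 (s z / z) (div_ne_zero (by simpa using hz) hz) := by
  unfold twc340
  rw [glAut_scal340, scal340_inv, scal340_comm _ _ y, mul_assoc, scal340_mul_scal]
  congr 1
  exact scal340_congr _ _ (by rw [div_eq_mul_inv, mul_comm])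

theorem twc340_scal_fixed (s : k ≃+* k) (y : GL (Fin 2) k) {z : k} (hz : z ≠ 0)
    (hsz : s z = z) : twc340 s y (scal340 z hz) = y := by
  rw [twc340_scal]
  have h1 : scal340 (s z / z) (div_ne_zero (by simpa using hz) hz) = 1 := by
    have e : s z / z = 1 := by rw [hsz, div_self hz]
    rw [scal340_congr _ one_ne_zero e]
    apply ext_mat129
    simp [scal340, diag129, Matrix.one_fin_two]
  rw [h1, mul_one]

section

variable (s : k ≃+* k) (hs : ∀ y : k, Valued.v (s y) = Valued.v y)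

include hs

theorem inU_zero_glAut340 {u : GL (Fin 2) k} (hu : InU 0 u) : InU 0 (glAut s u) := by
  rw [inU_zero_iff129] at hu ⊢
  refine ⟨fun i j => ?_, fun i j => ?_⟩
  · have := hu.1 i j
    rw [mem_vO129] at this ⊢
    rw [coe_glAut340, hs]; exact this
  · have := hu.2 i j
    rw [mem_vO129] at this ⊢
    rw [← map_inv, coe_glAut340, hs]; exact this

theorem cartan_twc_inU340 (y : GL (Fin 2) k) {u : GL (Fin 2) k} (hu : InU 0 u) :
    cartan (twc340 s y u) = cartan y := by
  unfold twc340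
  exact cartan_mul129 (inU_zero_inv129 hu) (inU_zero_glAut340 s hs hu)

theorem cartan_twc_scal340 (y : GL (Fin 2) k) (z : k) (hz : z ≠ 0) :
    cartan (twc340 s y (scal340 z hz)) = cartan y := by
  rw [twc340_scal]
  have hv : Valued.v (s z / z) = 1 := by
    have hvz : Valued.v z ≠ 0 := by rwa [ne_eq, map_eq_zero]
    rw [map_div₀, hs, div_self hvz]
  have := cartan_mul129 (g := y) inU_zero_one340
    (inU_zero_scal340 (div_ne_zero (by simpa using hz) hz) hv)
  rwa [one_mul] at this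

/-- The twisted conjugates of `δ` by two elements defining the same vertex have the same Cartan
invariant. -/
theorem cartan_twc_congr340 (δ : GL (Fin 2) k) {x x' : GL (Fin 2) k}
    (h : cdist340 (x⁻¹ * x') = 0) : cartan (twc340 s δ x) = cartan (twc340 s δ x') := by
  obtain ⟨z, hz, u, hu, e⟩ := (cdist340_eq_zero_iff _).mp h
  have e' : x' = x * scal340 z hz * u := by
    rw [mul_assoc, ← e]; group
  rw [e', twc340_mul, twc340_mul, cartan_twc_inU340 s hs _ hu, cartan_twc_scal340 s hs]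

/-- The invariant of a vertex under the twisted action of `δ`:
`twInv340 ⟦x⟧ = cartan (x⁻¹ δ s(x))`. -/
def twInv340 (δ : GL (Fin 2) k) : BTVert340 k → ℤ × ℤ :=
  Quotient.lift (s := btSetoid340 k) (fun x => cartan (twc340 s δ x))
    (fun _ _ h => cartan_twc_congr340 s hs δ h)

theorem twInv340_mk (δ x : GL (Fin 2) k) :
    twInv340 s hs δ (btMk340 x) = cartan (x⁻¹ * δ * glAut s x) := rfl

theorem vdet_twc340 (δ x : GL (Fin 2) k) :
    Valued.v ((twc340 s δ x : GL (Fin 2) k) : Matrix (Fin 2) (Fin 2) k).det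
      = Valued.v (δ : Matrix (Fin 2) (Fin 2) k).det := by
  have h2 : ((glAut s x : GL (Fin 2) k) : Matrix (Fin 2) (Fin 2) k).det
      = s (x : Matrix (Fin 2) (Fin 2) k).det := by
    rw [Matrix.det_fin_two, Matrix.det_fin_two]
    simp only [coe_glAut340, map_sub, map_mul]
  have hx : Valued.v (x : Matrix (Fin 2) (Fin 2) k).det ≠ 0 := vdet_ne_zero340 x
  unfold twc340
  rw [Matrix.GeneralLinearGroup.coe_mul, Matrix.GeneralLinearGroup.coe_mul, Matrix.det_mul,
    Matrix.det_mul, map_mul, map_mul, h2, hs, Matrix.coe_units_inv, Matrix.det_nonsing_inv,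
    Ring.inverse_eq_inv', map_inv₀, mul_comm _ (Valued.v (δ : Matrix (Fin 2) (Fin 2) k).det),
    mul_assoc, inv_mul_cancel₀ hx, mul_one]

/-- The invariant of a vertex is determined by its displacement and the determinant of `δ`. -/
theorem twInv340_eq_iff (δ : GL (Fin 2) k) (p : BTVert340 k) (lam : ℤ × ℤ) :
    twInv340 s hs δ p = lam ↔
      ((btDist340 p (btTw340 s hs δ p) : ℕ) : ℤ) = lam.1 - lam.2 ∧
        lam.1 + lam.2 = - WithZero.log (Valued.v (δ : Matrix (Fin 2) (Fin 2) k).det) := by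
  obtain ⟨x, rfl⟩ := btMk340_surjective p
  rw [twInv340_mk, btDist340_tw_mk]
  have h1 := cartan_fst_sub_snd340 (x⁻¹ * δ * glAut s x)
  have h2 := cartan_fst_add_snd340 (x⁻¹ * δ * glAut s x)
  have h3 := vdet_twc340 s hs δ x
  unfold twc340 at h3
  rw [h3] at h2
  constructor
  · rintro rfl
    exact ⟨h1.symm, h2⟩
  · rintro ⟨e1, e2⟩
    ext
    · omega
    · omega

end

/-! ### The fibres of the vertices over the `U`-twisted classes -/

section Main

variable (s : k ≃+* k) (hs : ∀ y : k, Valued.v (s y) = Valued.v y)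
  (hfix : ∀ z : k, z ≠ 0 → ∃ z₀ : k, z₀ ≠ 0 ∧ s z₀ = z₀ ∧ Valued.v z₀ = Valued.v z)
  (δ : GL (Fin 2) k)

/-- The fibre of the `U`-twisted class of `y` over the vertices. -/
def fib340 (y : GL (Fin 2) k) : Set (BTVert340 k) :=
  {p | ∃ g, p = btMk340 g ∧ ∃ u, InU 0 u ∧ twc340 s δ g = twc340 s y u}

include hs hfix

/-- Two elements defining the same vertex give `U`-twisted conjugate elements. -/
theorem twc_same_vertex340 {g g' : GL (Fin 2) k} (h : cdist340 (g⁻¹ * g') = 0) :
    ∃ w, InU 0 w ∧ twc340 s δ g' = twc340 s (twc340 s δ g) w := by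
  obtain ⟨z, hz, u, hu, e⟩ := (cdist340_eq_zero_iff _).mp h
  obtain ⟨z₀, hz₀, hsz₀, hvz₀⟩ := hfix z hz
  have hvz : Valued.v z ≠ 0 := by rwa [ne_eq, map_eq_zero]
  have hε0 : z / z₀ ≠ 0 := div_ne_zero hz hz₀
  have hε : Valued.v (z / z₀) = 1 := by rw [map_div₀, hvz₀, div_self hvz]
  refine ⟨scal340 (z / z₀) hε0 * u, inU_zero_mul129 (inU_zero_scal340 hε0 hε) hu, ?_⟩
  have e' : g' = g * scal340 z₀ hz₀ * (scal340 (z / z₀) hε0 * u) := by
    have e1 : scal340 z₀ hz₀ * scal340 (z / z₀) hε0 = scal340 z hz := by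
      rw [scal340_mul_scal]
      exact scal340_congr _ _ (by field_simp)
    rw [mul_assoc g, ← mul_assoc (scal340 z₀ hz₀), e1, ← e]
    group
  rw [e', twc340_mul s δ (g * scal340 z₀ hz₀), twc340_mul s δ g, twc340_scal_fixed s _ hz₀ hsz₀]

theorem mem_fib340_iff (y g : GL (Fin 2) k) :
    btMk340 g ∈ fib340 s δ y ↔ ∃ u, InU 0 u ∧ twc340 s δ g = twc340 s y u := by
  constructor
  · rintro ⟨g', hgg', u, hu, h⟩
    have h0 : cdist340 (g'⁻¹ * g) = 0 := (btMk340_eq_iff g' g).mp hgg'.symm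
    obtain ⟨w, hw, e⟩ := twc_same_vertex340 s hs hfix δ h0
    refine ⟨u * w, inU_zero_mul129 hu hw, ?_⟩
    rw [e, h, twc340_mul]
  · rintro ⟨u, hu, h⟩
    exact ⟨g, rfl, u, hu, h⟩

theorem twInv_of_mem_fib340 {y : GL (Fin 2) k} {p : BTVert340 k} (hp : p ∈ fib340 s δ y) :
    twInv340 s hs δ p = cartan y := by
  obtain ⟨g, rfl, u, hu, h⟩ := hp
  show cartan (twc340 s δ g) = cartan y
  rw [h, cartan_twc_inU340 s hs y hu]

theorem fib340_conj {y y' : GL (Fin 2) k} {p : BTVert340 k} (hp : p ∈ fib340 s δ y)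
    (hp' : p ∈ fib340 s δ y') : ∃ u, InU 0 u ∧ y' = twc340 s y u := by
  obtain ⟨g, rfl⟩ := btMk340_surjective p
  obtain ⟨u, hu, h⟩ := (mem_fib340_iff s hs hfix δ y g).mp hp
  obtain ⟨u', hu', h'⟩ := (mem_fib340_iff s hs hfix δ y' g).mp hp'
  refine ⟨u * u'⁻¹, inU_zero_mul129 hu (inU_zero_inv129 hu'), ?_⟩
  rw [twc340_mul, ← h, h', twc340_mul_inv_cancel]

omit hs hfix in
/-- Transport of the decomposition of the twisted centraliser along the twisted class. -/
theorem hdec_twc340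
    (hdec : ∀ t, InTwCent s δ t →
      ∃ (z : k) (hz : z ≠ 0), s z = z ∧ InTwCentC s δ (scal340 z hz * t))
    (x t : GL (Fin 2) k) (ht : InTwCent s (twc340 s δ x) t) :
    ∃ (z : k) (hz : z ≠ 0), s z = z ∧ InTwCentC s (twc340 s δ x) (scal340 z hz * t) := by
  have hτ : InTwCent s δ (x * t * x⁻¹) := by
    rw [inTwCent_iff340, twc340_mul, twc340_mul, (inTwCent_iff340 s _ t).mp ht,
      twc340_mul_inv_cancel]
  obtain ⟨z, hz, hsz, hC⟩ := hdec _ hτ
  have e0 : x⁻¹ * (scal340 z hz * (x * t * x⁻¹)) * x = scal340 z hz * t := by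
    rw [scal340_comm z hz (x * t * x⁻¹)]
    have e1 : x⁻¹ * (x * t * x⁻¹ * scal340 z hz) * x = t * (x⁻¹ * (scal340 z hz * x)) := by
      group
    rw [e1, scal340_comm z hz x, inv_mul_cancel_left, scal340_comm]
  refine ⟨z, hz, hsz, ?_, ?_, ?_⟩
  · rw [inTwCent_iff340, twc340_mul, twc340_scal_fixed s _ hz hsz]
    exact ht
  · have e : ((scal340 z hz * t : GL (Fin 2) k) : Matrix (Fin 2) (Fin 2) k)
        = ((x⁻¹ : GL (Fin 2) k) : Matrix (Fin 2) (Fin 2) k)
          * ((scal340 z hz * (x * t * x⁻¹) : GL (Fin 2) k) : Matrix (Fin 2) (Fin 2) k)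
          * (x : Matrix (Fin 2) (Fin 2) k) := by
      rw [← Matrix.GeneralLinearGroup.coe_mul, ← Matrix.GeneralLinearGroup.coe_mul, e0]
    rw [e, Matrix.trace_units_conj']
    exact hC.2.1
  · have e : ((scal340 z hz * t : GL (Fin 2) k) : Matrix (Fin 2) (Fin 2) k)
        = ((x⁻¹ : GL (Fin 2) k) : Matrix (Fin 2) (Fin 2) k)
          * ((scal340 z hz * (x * t * x⁻¹) : GL (Fin 2) k) : Matrix (Fin 2) (Fin 2) k)
          * (x : Matrix (Fin 2) (Fin 2) k) := by
      rw [← Matrix.GeneralLinearGroup.coe_mul, ← Matrix.GeneralLinearGroup.coe_mul, e0]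
    rw [e, Matrix.det_units_conj']
    exact hC.2.2

omit hs hfix in
theorem vdet_scal_mul340 (z : k) (hz : z ≠ 0) (u : GL (Fin 2) k) :
    Valued.v ((scal340 z hz * u : GL (Fin 2) k) : Matrix (Fin 2) (Fin 2) k).det
      = Valued.v z * Valued.v z * Valued.v (u : Matrix (Fin 2) (Fin 2) k).det := by
  rw [Matrix.GeneralLinearGroup.coe_mul, Matrix.det_mul, det_scal340, map_mul, map_mul]

omit hs hfix in
theorem coset_eq340 {t t' w : GL (Fin 2) k} (hw : InU 0 w) (h : t' = t * w) :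
    {g : GL (Fin 2) k | ∃ u, InU 0 u ∧ g = t' * u} = {g | ∃ u, InU 0 u ∧ g = t * u} := by
  ext g
  constructor
  · rintro ⟨u, hu, rfl⟩
    exact ⟨w * u, inU_zero_mul129 hw hu, by rw [h, mul_assoc]⟩
  · rintro ⟨u, hu, rfl⟩
    exact ⟨w⁻¹ * u, inU_zero_mul129 (inU_zero_inv129 hw) hu, by rw [h]; group⟩

/-- **Fibre count.**  If the twisted centraliser of `δ` is generated by its compact part and
`s`-fixed scalars, the number of vertices over the `U`-twisted class of `y = x⁻¹ δ s(x)` is the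
index `[T_y^c : T_y^c ∩ U]`. -/
theorem ncard_fib340
    (hdec : ∀ t, InTwCent s δ t →
      ∃ (z : k) (hz : z ≠ 0), s z = z ∧ InTwCentC s δ (scal340 z hz * t))
    (x : GL (Fin 2) k) :
    (fib340 s δ (twc340 s δ x)).ncard = cIndex (InU 0) (InTwCentC s) (twc340 s δ x) := by
  unfold cIndex
  symm
  refine Set.ncard_congr (fun c hc => btMk340 (x * hc.choose)) ?_ ?_ ?_
  · intro c hc
    obtain ⟨ht, -⟩ := hc.choose_spec
    refine ⟨x * hc.choose, rfl, 1, inU_zero_one340, ?_⟩
    rw [twc340_mul, (inTwCent_iff340 s _ _).mp ht.1, twc340_one]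
  · intro c c' hc hc' h
    obtain ⟨ht, hct⟩ := hc.choose_spec
    obtain ⟨ht', hct'⟩ := hc'.choose_spec
    set t := hc.choose with htdef
    set t' := hc'.choose with ht'def
    have h0 : cdist340 (t⁻¹ * t') = 0 := by
      have := (btMk340_eq_iff _ _).mp h
      have e : (x * t)⁻¹ * (x * t') = t⁻¹ * t' := by group
      rwa [e] at this
    obtain ⟨z, hz, u, hu, e⟩ := (cdist340_eq_zero_iff _).mp h0
    have hvz : Valued.v z = 1 := by
      have hd : Valued.v ((t⁻¹ * t' : GL (Fin 2) k) : Matrix (Fin 2) (Fin 2) k).det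
          = Valued.v ((scal340 z hz * u : GL (Fin 2) k) : Matrix (Fin 2) (Fin 2) k).det := by
        rw [e]
      rw [vdet_inv_mul340, ht.2.2, ht'.2.2, inv_one, one_mul, vdet_scal_mul340,
        valued_det_of_isMaxCpt129 ((inU_zero_iff129 u).mp hu), mul_one] at hd
      rcases lt_trichotomy (Valued.v z) 1 with hlt | heq | hgt
      · exfalso
        have : Valued.v z * Valued.v z < 1 := by
          calc Valued.v z * Valued.v z ≤ Valued.v z * 1 := mul_le_mul' le_rfl hlt.le
            _ = Valued.v z := mul_one _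
            _ < 1 := hlt
        rw [← hd] at this
        exact lt_irrefl _ this
      · exact heq
      · exfalso
        have : 1 < Valued.v z * Valued.v z := by
          calc (1 : Γ₀) < Valued.v z := hgt
            _ = Valued.v z * 1 := (mul_one _).symm
            _ ≤ Valued.v z * Valued.v z := mul_le_mul' le_rfl hgt.le
        rw [← hd] at this
        exact lt_irrefl _ this
    have hw : InU 0 (scal340 z hz * u) := inU_zero_mul129 (inU_zero_scal340 hz hvz) hu
    have ht't : t' = t * (scal340 z hz * u) := by rw [← e]; group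
    rw [hct, hct']
    exact (coset_eq340 hw ht't).symm
  · intro p hp
    obtain ⟨g, rfl, u, hu, h⟩ := hp
    -- `t = x⁻¹ g u⁻¹` lies in the twisted centraliser of `y`
    have ht : InTwCent s (twc340 s δ x) (x⁻¹ * (g * u⁻¹)) := by
      rw [inTwCent_iff340, ← twc340_mul, mul_inv_cancel_left, twc340_mul, h,
        twc340_mul_inv_cancel]
    obtain ⟨z, hz, hsz, hC⟩ := hdec_twc340 s δ hdec x _ ht
    have hc : ∃ t, InTwCentC s (twc340 s δ x) t ∧
        {g' : GL (Fin 2) k | ∃ u' : GL (Fin 2) k, InU 0 u' ∧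
            g' = scal340 z hz * (x⁻¹ * (g * u⁻¹)) * u'}
          = {g' | ∃ u' : GL (Fin 2) k, InU 0 u' ∧ g' = t * u'} := ⟨_, hC, rfl⟩
    refine ⟨_, hc, ?_⟩
    obtain ⟨-, hct⟩ := hc.choose_spec
    set t'' := hc.choose with ht''
    have hmem : t'' ∈ {g' : GL (Fin 2) k | ∃ u' : GL (Fin 2) k, InU 0 u' ∧ g' = t'' * u'} :=
      ⟨1, inU_zero_one340, (mul_one _).symm⟩
    rw [← hct] at hmem
    obtain ⟨u₂, hu₂, e₂⟩ := hmem
    show btMk340 (x * t'') = btMk340 g
    symm
    rw [btMk340_eq_iff]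
    have e3 : g⁻¹ * (x * t'') = scal340 z hz * (u⁻¹ * u₂) := by
      calc g⁻¹ * (x * t'')
          = g⁻¹ * (x * ((x⁻¹ * (g * u⁻¹)) * scal340 z hz * u₂)) := by
            rw [e₂, scal340_comm z hz (x⁻¹ * (g * u⁻¹))]
        _ = u⁻¹ * (scal340 z hz * u₂) := by group
        _ = scal340 z hz * (u⁻¹ * u₂) := by
            rw [← mul_assoc, ← scal340_comm z hz u⁻¹, mul_assoc]
    rw [e3, cdist340_scal_mul]
    exact cdist340_of_inU (inU_zero_mul129 (inU_zero_inv129 hu) hu₂)

/-- **Orbit sum = vertex sum** (Finset form).  `k / k^s` unramified (`hfix`), the twisted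
centraliser of `δ` is generated by its compact part and the `s`-fixed scalars (`hdec`): the
twisted orbit sum of `ϕ ∘ cartan` at `δ` is the sum of `ϕ (twInv340 p)` over any finite set of
vertices containing those with `ϕ (twInv340 p) ≠ 0`. -/
theorem twOrbSum_eq_vertexSum340
    (hdec : ∀ t, InTwCent s δ t →
      ∃ (z : k) (hz : z ≠ 0), s z = z ∧ InTwCentC s δ (scal340 z hz * t))
    (ϕ : ℤ × ℤ → ℂ) (c : ℂ) (hc : IsTwOrbSum s 0 (fun g => ϕ (cartan g)) δ c)
    (S : Finset (BTVert340 k)) (hS : ∀ p, ϕ (twInv340 s hs δ p) ≠ 0 → p ∈ S) :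
    c = ∑ p ∈ S, ϕ (twInv340 s hs δ p) := by
  obtain ⟨R, h1, h2, h3, rfl⟩ := hc
  have hA : ∀ p ∈ S, ϕ (twInv340 s hs δ p)
      = ∑ y ∈ R, if p ∈ fib340 s δ y then ϕ (cartan y) else 0 := by
    intro p _
    by_cases hp0 : ϕ (twInv340 s hs δ p) = 0
    · rw [hp0]
      symm
      apply Finset.sum_eq_zero
      intro y _
      split_ifs with hy
      · rw [← twInv_of_mem_fib340 s hs hfix δ hy, hp0]
      · rfl
    · obtain ⟨g, rfl⟩ := btMk340_surjective p
      obtain ⟨y', hy'R, u', hu', he'⟩ := h3 (twc340 s δ g) ⟨g, rfl⟩ hp0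
      have hmem : btMk340 g ∈ fib340 s δ y' := ⟨g, rfl, u', hu', he'⟩
      rw [Finset.sum_eq_single y']
      · rw [if_pos hmem, twInv_of_mem_fib340 s hs hfix δ hmem]
      · intro y hyR hne
        rw [if_neg]
        intro hy
        obtain ⟨u, hu, e⟩ := fib340_conj s hs hfix δ hy hmem
        exact hne (h2 y hyR y' hy'R ⟨u, hu, e⟩)
      · intro hn; exact absurd hy'R hn
  rw [Finset.sum_congr rfl hA, Finset.sum_comm]
  apply Finset.sum_congr rfl
  intro y hyR
  show ϕ (cartan y) * (cIndex (InU 0) (InTwCentC s) y : ℂ) = _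
  rw [Finset.sum_ite, Finset.sum_const, Finset.sum_const_zero, add_zero, nsmul_eq_mul,
    mul_comm (ϕ (cartan y))]
  by_cases hy0 : ϕ (cartan y) = 0
  · rw [hy0, mul_zero, mul_zero]
  · congr 1
    obtain ⟨x, rfl⟩ := h1 y hyR
    have hfib : (↑(S.filter fun p => p ∈ fib340 s δ (x⁻¹ * δ * glAut s x)) :
        Set (BTVert340 k)) = fib340 s δ (twc340 s δ x) := by
      ext p
      simp only [Finset.coe_filter, Set.mem_ofPred_eq]
      constructor
      · rintro ⟨-, hp⟩
        exact hp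
      · intro hp
        refine ⟨hS p ?_, hp⟩
        rw [twInv_of_mem_fib340 s hs hfix δ hp]
        exact hy0
    have := ncard_fib340 s hs hfix δ hdec x
    rw [← hfib, Set.ncard_coe_finset] at this
    exact_mod_cast this.symm

end Main

/-! ### Count form, the unramified hypothesis, the untwisted case -/

section Count

variable (s : k ≃+* k) (hs : ∀ y : k, Valued.v (s y) = Valued.v y)
  (hfix : ∀ z : k, z ≠ 0 → ∃ z₀ : k, z₀ ≠ 0 ∧ s z₀ = z₀ ∧ Valued.v z₀ = Valued.v z)
  (δ : GL (Fin 2) k)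

include hfix in
/-- **Orbit sum = vertex sum** (count form): `c = ∑ ϕ(lam) · #{p : twInv340 p = lam}`. -/
theorem twOrbSum_eq_countSum340
    (hdec : ∀ t, InTwCent s δ t →
      ∃ (z : k) (hz : z ≠ 0), s z = z ∧ InTwCentC s δ (scal340 z hz * t))
    (ϕ : (ℤ × ℤ) →₀ ℂ) (c : ℂ) (hc : IsTwOrbSum s 0 (fun g => ϕ (cartan g)) δ c)
    (hfin : ∀ lam ∈ ϕ.support, {p | twInv340 s hs δ p = lam}.Finite) :
    c = ϕ.sum fun lam a => a * (({p | twInv340 s hs δ p = lam}.ncard : ℕ) : ℂ) := by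
  set S : Finset (BTVert340 k) :=
    ϕ.support.attach.biUnion fun lam => (hfin lam.1 lam.2).toFinset with hSdef
  have hmemS : ∀ p, p ∈ S ↔ twInv340 s hs δ p ∈ ϕ.support := by
    intro p
    rw [hSdef, Finset.mem_biUnion]
    constructor
    · rintro ⟨lam, -, hp⟩
      rw [Set.Finite.mem_toFinset] at hp
      have hp' : twInv340 s hs δ p = lam.1 := hp
      rw [hp']
      exact lam.2
    · intro hp
      refine ⟨⟨_, hp⟩, Finset.mem_attach _ _, ?_⟩
      rw [Set.Finite.mem_toFinset]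
      rfl
  have h0 := twOrbSum_eq_vertexSum340 s hs hfix δ hdec (fun lam => ϕ lam) c hc S
    (fun p hp => (hmemS p).mpr (Finsupp.mem_support_iff.mpr hp))
  rw [h0, Finsupp.sum]
  rw [← Finset.sum_fiberwise_of_maps_to (g := fun p => twInv340 s hs δ p)
    (fun p hp => (hmemS p).mp hp)]
  apply Finset.sum_congr rfl
  intro lam hlam
  have e1 : ∀ p ∈ S.filter (fun p => twInv340 s hs δ p = lam),
      (fun lam => ϕ lam) (twInv340 s hs δ p) = ϕ lam := by
    intro p hp
    rw [(Finset.mem_filter.mp hp).2]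
  rw [Finset.sum_congr rfl e1, Finset.sum_const, nsmul_eq_mul, mul_comm]
  congr 2
  rw [← Set.ncard_coe_finset]
  congr 1
  ext p
  simp only [Finset.coe_filter, Set.mem_ofPred_eq]
  constructor
  · rintro ⟨-, hp⟩
    exact hp
  · intro hp
    refine ⟨(hmemS p).mpr ?_, hp⟩
    have hp' : twInv340 s hs δ p = lam := hp
    rw [hp']
    exact hlam

omit hfix in
/-- The unramified hypothesis from an `s`-fixed uniformiser. -/
theorem hfix_of_unif340 {ϖ : k} (hϖ : Valued.v ϖ = WithZero.exp (-1 : ℤ)) (hsϖ : s ϖ = ϖ) :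
    ∀ z : k, z ≠ 0 → ∃ z₀ : k, z₀ ≠ 0 ∧ s z₀ = z₀ ∧ Valued.v z₀ = Valued.v z := by
  intro z hz
  have h0 := unif_ne_zero340 hϖ
  have hvz : Valued.v z ≠ 0 := by rwa [ne_eq, map_eq_zero]
  refine ⟨ϖ ^ (- WithZero.log (Valued.v z)), zpow_ne_zero _ h0, ?_, ?_⟩
  · rw [map_zpow₀, hsϖ]
  · rw [map_zpow₀, hϖ, ← WithZero.exp_zsmul]
    simp only [smul_eq_mul, mul_neg, mul_one, neg_neg]
    exact WithZero.exp_log hvz

end Count

section Untwisted

theorem glAut_refl340 (x : GL (Fin 2) k) : glAut (RingEquiv.refl k) x = x := by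
  apply ext_mat129
  ext i j
  rw [coe_glAut340]
  rfl

/-- The invariant of a vertex under `γ`: `inv340 γ ⟦x⟧ = cartan (x⁻¹ γ x)`. -/
def inv340 (γ : GL (Fin 2) k) : BTVert340 k → ℤ × ℤ :=
  twInv340 (RingEquiv.refl k) (fun _ => rfl) γ

theorem inv340_mk (γ x : GL (Fin 2) k) : inv340 γ (btMk340 x) = cartan (x⁻¹ * γ * x) := by
  unfold inv340
  rw [twInv340_mk, glAut_refl340]

theorem btTw340_refl (γ : GL (Fin 2) k) (p : BTVert340 k) :
    btTw340 (RingEquiv.refl k) (fun _ => rfl) γ p = btMul340 γ p := by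
  obtain ⟨x, rfl⟩ := btMk340_surjective p
  rw [btTw340_mk, btMul340_mk, glAut_refl340]

theorem inv340_eq_iff (γ : GL (Fin 2) k) (p : BTVert340 k) (lam : ℤ × ℤ) :
    inv340 γ p = lam ↔
      ((btDist340 p (btMul340 γ p) : ℕ) : ℤ) = lam.1 - lam.2 ∧
        lam.1 + lam.2 = - WithZero.log (Valued.v (γ : Matrix (Fin 2) (Fin 2) k).det) := by
  unfold inv340
  rw [twInv340_eq_iff, btTw340_refl]

theorem inTwCent_refl_iff340 (γ t : GL (Fin 2) k) :
    InTwCent (RingEquiv.refl k) γ t ↔ t * γ = γ * t := by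
  unfold InTwCent
  rw [glAut_refl340]
  constructor
  · intro h
    have : t * (t⁻¹ * γ * t) = t * γ := by rw [h]
    rw [← this]; group
  · intro h
    have : t⁻¹ * γ * t = t⁻¹ * (γ * t) := by group
    rw [this, ← h]; group

/-- **Orbit sum = vertex sum, untwisted** (Finset form).  If every element of the centraliser of
`γ` is a scalar times an element of its compact part (elliptic `γ` with `k[γ]` unramified), the
orbit sum of `ϕ ∘ cartan` at `γ` is the sum of `ϕ (inv340 γ p)` over the vertices. -/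
theorem orbSum_eq_vertexSum340 (γ : GL (Fin 2) k)
    (hdec : ∀ t : GL (Fin 2) k, t * γ = γ * t →
      ∃ (z : k) (hz : z ≠ 0), InTwCentC (RingEquiv.refl k) γ (scal340 z hz * t))
    (ϕ : ℤ × ℤ → ℂ) (c : ℂ) (hc : IsOrbSum 0 (fun g => ϕ (cartan g)) γ c)
    (S : Finset (BTVert340 k)) (hS : ∀ p, ϕ (inv340 γ p) ≠ 0 → p ∈ S) :
    c = ∑ p ∈ S, ϕ (inv340 γ p) :=
  twOrbSum_eq_vertexSum340 (RingEquiv.refl k) (fun _ => rfl)
    (fun z hz => ⟨z, hz, rfl, rfl⟩) γ
    (fun t ht => by
      obtain ⟨z, hz, h⟩ := hdec t ((inTwCent_refl_iff340 γ t).mp ht)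
      exact ⟨z, hz, rfl, h⟩)
    ϕ c hc S hS

/-- **Orbit sum = vertex sum, untwisted** (count form). -/
theorem orbSum_eq_countSum340 (γ : GL (Fin 2) k)
    (hdec : ∀ t : GL (Fin 2) k, t * γ = γ * t →
      ∃ (z : k) (hz : z ≠ 0), InTwCentC (RingEquiv.refl k) γ (scal340 z hz * t))
    (ϕ : (ℤ × ℤ) →₀ ℂ) (c : ℂ) (hc : IsOrbSum 0 (fun g => ϕ (cartan g)) γ c)
    (hfin : ∀ lam ∈ ϕ.support, {p | inv340 γ p = lam}.Finite) :
    c = ϕ.sum fun lam a => a * (({p | inv340 γ p = lam}.ncard : ℕ) : ℂ) :=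
  twOrbSum_eq_countSum340 (RingEquiv.refl k) (fun _ => rfl)
    (fun z hz => ⟨z, hz, rfl, rfl⟩) γ
    (fun t ht => by
      obtain ⟨z, hz, h⟩ := hdec t ((inTwCent_refl_iff340 γ t).mp ht)
      exact ⟨z, hz, rfl, h⟩)
    ϕ c hc hfin

end Untwisted

end Fermat.Agent.LT.T6.H340

end

end
-- ===== PACK-END LT/T6/H340/VertexSum.lean

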