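import Mathlib
import Fermat.Agent.Pack.LT3.E17L0
import Fermat.Agent.Pack.LT3.E11L0
import Fermat.Agent.Pack.LT2.E6L1
import Fermat.Agent.Pack.LT2.E0L2
import Fermat.Agent.Pack.LT2.E2L1
import Fermat.Agent.Pack.LT2.E5L3
import Fermat.Agent.Pack.LT2.E6L2
import Fermat.Agent.Pack.LT3.E14L0
import Fermat.Agent.Pack.LT3.E17L2
import Fermat.Agent.Pack.LT2.E13L3
import Fermat.Agent.Pack.LT2.E11L3
import Fermat.Agent.Pack.LT2.E11L1
import Fermat.Agent.Pack.LT2.E10L2
import Fermat.Agent.Pack.LT3.E17L3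
import Fermat.Agent.Pack.LT2.E10L0
import Fermat.Agent.Pack.LT2.E10L1
import Fermat.Agent.Pack.LT3.E12L1
import Fermat.Agent.Pack.LT3.E13L2
import Fermat.Agent.Pack.LT3.E15L1
import Fermat.Agent.Pack.LT3.E18L2
import Fermat.Agent.Pack.LT3.E15L3
import Fermat.Agent.Pack.LT3.E13L0
import Fermat.Agent.Pack.LT3.E15L0
import Fermat.Agent.Pack.LT3.E15L2
import Fermat.Agent.Pack.LT3.E18L0
import Fermat.Agent.Pack.LT3.E18L1
import Fermat.Agent.Pack.LT3.E16L1
import Fermat.Agent.Pack.LT3.E16L3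
import Fermat.Agent.Pack.LT2.E12L1
import Fermat.Agent.Pack.LT3.E5L3
import Fermat.Agent.Pack.LT3.E2L2
import Fermat.Agent.Pack.LT3.E2L0

set_option linter.all false

-- ===== PACK-BEGIN LT/H670/D3/Frame.lean
section




/-!
# Row LT, T6inf.08 = D3 (helper670, SZEGO-KERNEL route): the frame

OFF-MAIN.  Proved lemmas only.  Assets (byte-identical copies): `T2/Spec.lean` (helper130),
`T2/H429/Transl.lean` (helper429, `transl429`), `T2/H245/Leaf01.lean` (helper245, open slab).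

* continuity of `locInf`, `gzMat`, `kTheta`; `eq_locInf` (a local element at the real place is
  `locInf` of its real matrix);
* `IsAut670` : bounded continuous functions on `GL₂(𝔸_ℚ)`, left invariant under `GL₂(ℚ)`, right
  invariant under the positive real scalars; stable under right translation by `locInf h`;
* `pair_shift670` : the pairing of a frame is invariant under right translations;
* `definite670` : the pairing is definite on `IsAut670`;
* `pair_integral670` : Fubini for a parametric interval integral in the first variable.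
-/

set_option autoImplicit false

open IsDedekindDomain NumberField MeasureTheory
open UpperHalfPlane
open scoped MatrixGroups Real

noncomputable section

namespace Fermat.Agent.LT.H670.D3

open Fermat.Agent.LT.H556 Fermat.Agent.LT.H670.QOut Fermat.Agent.LT

attribute [local instance] Fermat.Agent.LT.T2.borelG

/-! ## 1. Topology -/

theorem continuous_realToInf : Continuous (realToInf : ℝ → Ainf) := by
  refine continuous_pi fun w => ?_
  exact (InfinitePlace.Completion.isometryEquivRealOfIsReal (isReal_place w)).symm.continuous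

theorem continuous_matInf :
    Continuous (matInf : Matrix (Fin 2) (Fin 2) ℝ → Matrix (Fin 2) (Fin 2) (A0.Adl ℚ)) := by
  refine continuous_matrix fun i j => ?_
  have h1 : Continuous fun m : Matrix (Fin 2) (Fin 2) ℝ => realToInf (m i j) :=
    continuous_realToInf.comp (continuous_id.matrix_elem i j)
  exact Continuous.prodMk h1 continuous_const

theorem continuous_locInf : Continuous (locInf : GL (Fin 2) ℝ → A0.G ℚ) :=
  Continuous.units_map matInf continuous_matInf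

/-- continuity of a map into `GL₂(ℝ)` given by matrices of determinant `≠ 0` -/
theorem continuous_mkOfDetNeZero {X : Type*} [TopologicalSpace X]
    (M : X → Matrix (Fin 2) (Fin 2) ℝ) (hM : ∀ x, (M x).det ≠ 0) (hc : Continuous M) :
    Continuous fun x => Matrix.GeneralLinearGroup.mkOfDetNeZero (M x) (hM x) := by
  rw [Units.continuous_iff]
  refine ⟨hc, ?_⟩
  have h2 : (fun x => ((Matrix.GeneralLinearGroup.mkOfDetNeZero (M x) (hM x))⁻¹ :
      GL (Fin 2) ℝ).val) = fun x => (M x)⁻¹ := by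
    funext x
    rw [Matrix.coe_units_inv]
    rfl
  show Continuous fun x => ((Matrix.GeneralLinearGroup.mkOfDetNeZero (M x) (hM x))⁻¹ :
      GL (Fin 2) ℝ).val
  rw [h2]
  have h3 : (fun x => (M x)⁻¹) = fun x => ((M x).det)⁻¹ • (M x).adjugate := by
    funext x
    rw [Matrix.inv_def, Ring.inverse_eq_inv']
  rw [h3]
  exact ((hc.matrix_det).inv₀ hM).smul hc.matrix_adjugate

theorem continuous_gzMat : Continuous (gzMat : ℍ → GL (Fin 2) ℝ) := by
  refine continuous_mkOfDetNeZero (fun z : ℍ => !![z.im, z.re; 0, 1]) _ ?_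
  refine continuous_matrix fun i j => ?_
  fin_cases i <;> fin_cases j <;> simp <;> fun_prop

theorem continuous_kTheta : Continuous (kTheta : ℝ → GL (Fin 2) ℝ) := by
  refine continuous_mkOfDetNeZero
    (fun θ : ℝ => !![Real.cos θ, Real.sin θ; -Real.sin θ, Real.cos θ]) _ ?_
  refine continuous_matrix fun i j => ?_
  fin_cases i <;> fin_cases j <;> simp <;> fun_prop

/-! ## 2. Local elements at the real place -/

/-- an element supported at the real place is `locInf` of its real matrix -/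
theorem eq_locInf (w : InfinitePlace ℚ) {g : A0.G ℚ} (M : GL (Fin 2) ℝ)
    (hloc : A0.IsLocalAtInf w g)
    (hcomp : A0.infComp w g = (M : Matrix (Fin 2) (Fin 2) ℝ).map (fun r : ℝ => (r : ℂ))) :
    g = locInf M := by
  refine G_ext ?_ (fun v => ?_)
  · refine Matrix.ext fun i j => ?_
    funext w'
    have hw' : w' = w := Subsingleton.elim _ _
    subst hw'
    have h1 := congrFun (congrFun hcomp i) j
    have h2 := congrFun (congrFun (infComp_locInf w' M) i) j
    have h3 : InfinitePlace.Completion.extensionEmbedding w'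
        (((g : Matrix (Fin 2) (Fin 2) (A0.Adl ℚ)) i j).1 w')
        = InfinitePlace.Completion.extensionEmbedding w'
          ((((locInf M : A0.G ℚ) : Matrix (Fin 2) (Fin 2) (A0.Adl ℚ)) i j).1 w') :=
      h1.trans h2.symm
    exact (InfinitePlace.Completion.extensionEmbedding w').injective h3
  · rw [finComp_locInf]
    exact hloc.2 v

theorem infComp_kTheta (w : InfinitePlace ℚ) (θ : ℝ) :
    A0.infComp w (locInf (kTheta θ)) = rotC θ := by
  rw [infComp_locInf, val_kTheta]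
  ext i j
  fin_cases i <;> fin_cases j <;> simp [rotC]

theorem infComp_gzMat (w : InfinitePlace ℚ) (z : ℍ) :
    A0.infComp w (locInf (gzMat z)) = gzC z := by
  rw [infComp_locInf, val_gzMat]
  ext i j
  fin_cases i <;> fin_cases j <;> simp [gzC]

theorem infComp_kTheta_aT (w : InfinitePlace ℚ) (θ t : ℝ) :
    A0.infComp w (locInf (kTheta θ * aT t)) = rotC θ * A0.torus t := by
  rw [infComp_locInf, Units.val_mul, val_kTheta, val_aT]
  ext i j
  fin_cases i <;> fin_cases j <;> simp [rotC, A0.torus, Matrix.mul_apply, Fin.sum_univ_two]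

theorem isArchPosScalar_scalR (w : InfinitePlace ℚ) (r : ℝ) (hr : 0 < r) :
    A0.IsArchPosScalar w (locInf (scalR r hr)) := by
  refine ⟨isLocalAtInf_locInf w _, r, hr, ?_⟩
  rw [infComp_locInf, val_scalR]
  ext i j
  fin_cases i <;> fin_cases j <;> simp [Matrix.diagonal]

/-- a positive scalar at the real place is `locInf (scalR r)` -/
theorem eq_scalR_of_isArchPosScalar {w : InfinitePlace ℚ} {z : A0.G ℚ}
    (hz : A0.IsArchPosScalar w z) : ∃ (r : ℝ) (hr : 0 < r), z = locInf (scalR r hr) := by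
  obtain ⟨hloc, r, hr, hcomp⟩ := hz
  refine ⟨r, hr, eq_locInf w _ hloc ?_⟩
  rw [hcomp, val_scalR]
  ext i j
  fin_cases i <;> fin_cases j <;> simp [Matrix.diagonal]

theorem scalR_comm (r : ℝ) (hr : 0 < r) (h : GL (Fin 2) ℝ) : scalR r hr * h = h * scalR r hr := by
  apply Units.ext
  have hh : ((h : GL (Fin 2) ℝ) : Matrix (Fin 2) (Fin 2) ℝ) = !![h 0 0, h 0 1; h 1 0, h 1 1] :=
    Matrix.eta_fin_two _
  ext i j
  rw [Units.val_mul, Units.val_mul, val_scalR, hh]
  fin_cases i <;> fin_cases j <;> simp [Matrix.mul_apply, Fin.sum_univ_two] <;> ring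

theorem isDiagPosScalar_iff (z : A0.G ℚ) (w : InfinitePlace ℚ) :
    T2.IsDiagPosScalar z ↔ A0.IsArchPosScalar w z := by
  constructor
  · rintro ⟨hfin, r, hr, hinf⟩
    exact ⟨⟨fun w' h => absurd (Subsingleton.elim w' w) h, hfin⟩, r, hr, hinf w⟩
  · rintro ⟨⟨-, hfin⟩, r, hr, hinf⟩
    refine ⟨hfin, r, hr, fun w' => ?_⟩
    rw [Subsingleton.elim w' w]
    exact hinf

/-! ## 3. The class of functions -/

/-- bounded continuous functions on `GL₂(𝔸_ℚ)`, left invariant under `GL₂(ℚ)` and right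
invariant under the positive real scalars -/
structure IsAut670 (f : A0.G ℚ → ℂ) : Prop where
  cont : Continuous f
  bdd : ∃ C : ℝ, ∀ g : A0.G ℚ, ‖f g‖ ≤ C
  left_inv : ∀ (γ : GL (Fin 2) ℚ) (g : A0.G ℚ),
    f (Matrix.GeneralLinearGroup.map (algebraMap ℚ (A0.Adl ℚ)) γ * g) = f g
  arch_scalar : ∀ (w : InfinitePlace ℚ) (z : A0.G ℚ), A0.IsArchPosScalar w z →
    ∀ g : A0.G ℚ, f (g * z) = f g

theorem IsAut670.shift {f : A0.G ℚ → ℂ} (hf : IsAut670 f) (h : GL (Fin 2) ℝ) :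
    IsAut670 (fun g => f (g * locInf h)) where
  cont := hf.cont.comp (continuous_mul_const _)
  bdd := by
    obtain ⟨C, hC⟩ := hf.bdd
    exact ⟨C, fun g => hC _⟩
  left_inv γ g := by
    show f (_ * g * locInf h) = f (g * locInf h)
    rw [mul_assoc]
    exact hf.left_inv γ _
  arch_scalar w z hz g := by
    obtain ⟨r, hr, rfl⟩ := eq_scalR_of_isArchPosScalar hz
    show f (g * locInf (scalR r hr) * locInf h) = f (g * locInf h)
    rw [mul_assoc, ← map_mul, scalR_comm, map_mul, ← mul_assoc]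
    exact hf.arch_scalar w _ (isArchPosScalar_scalR w r hr) _

theorem IsAut670.sub {f₁ f₂ : A0.G ℚ → ℂ} (h1 : IsAut670 f₁) (h2 : IsAut670 f₂) :
    IsAut670 (fun g => f₁ g - f₂ g) where
  cont := h1.cont.sub h2.cont
  bdd := by
    obtain ⟨C1, hC1⟩ := h1.bdd
    obtain ⟨C2, hC2⟩ := h2.bdd
    exact ⟨C1 + C2, fun g => (norm_sub_le _ _).trans (add_le_add (hC1 g) (hC2 g))⟩
  left_inv γ g := by
    show f₁ _ - f₂ _ = _
    rw [h1.left_inv, h2.left_inv]
  arch_scalar w z hz g := by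
    show f₁ _ - f₂ _ = _
    rw [h1.arch_scalar w z hz, h2.arch_scalar w z hz]

theorem IsAut670.const_mul {f : A0.G ℚ → ℂ} (hf : IsAut670 f) (c : ℂ) :
    IsAut670 (fun g => c * f g) where
  cont := continuous_const.mul hf.cont
  bdd := by
    obtain ⟨C, hC⟩ := hf.bdd
    refine ⟨‖c‖ * C, fun g => ?_⟩
    rw [norm_mul]
    exact mul_le_mul_of_nonneg_left (hC g) (norm_nonneg _)
  left_inv γ g := by
    show c * f _ = _
    rw [hf.left_inv]
  arch_scalar w z hz g := by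
    show c * f _ = _
    rw [hf.arch_scalar w z hz]

/-- joint continuity of the integrand of a parametric mean -/
theorem continuous_family670 {f : A0.G ℚ → ℂ} (hf : Continuous f) {wt : ℝ → ℂ}
    (hw : Continuous wt) {h : ℝ → GL (Fin 2) ℝ} (hh : Continuous h) :
    Continuous (Function.uncurry fun (g : A0.G ℚ) (θ : ℝ) => wt θ * f (g * locInf (h θ))) := by
  have h1 : Continuous fun p : A0.G ℚ × ℝ => p.1 * locInf (h p.2) :=
    continuous_fst.mul (continuous_locInf.comp (hh.comp continuous_snd))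
  exact (hw.comp continuous_snd).mul (hf.comp h1)

theorem IsAut670.integral {f : A0.G ℚ → ℂ} (hf : IsAut670 f) {wt : ℝ → ℂ}
    (hw : Continuous wt) {h : ℝ → GL (Fin 2) ℝ} (hh : Continuous h) (a b : ℝ) :
    IsAut670 (fun g => ∫ θ in a..b, wt θ * f (g * locInf (h θ))) where
  cont := intervalIntegral.continuous_parametric_intervalIntegral_of_continuous'
    (continuous_family670 hf.cont hw hh) a b
  bdd := by
    obtain ⟨C, hC⟩ := hf.bdd
    obtain ⟨W, hW⟩ := (isCompact_uIcc (a := a) (b := b)).exists_bound_of_continuousOn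
      hw.continuousOn
    have hC0 : 0 ≤ C := (norm_nonneg _).trans (hC 1)
    refine ⟨W * C * |b - a|, fun g => ?_⟩
    refine intervalIntegral.norm_integral_le_of_norm_le_const fun θ hθ => ?_
    rw [norm_mul]
    exact mul_le_mul (hW θ (Set.uIoc_subset_uIcc hθ)) (hC _) (norm_nonneg _)
      ((norm_nonneg _).trans (hW θ (Set.uIoc_subset_uIcc hθ)))
  left_inv γ g := by
    refine intervalIntegral.integral_congr fun θ _ => ?_
    show wt θ * f (_ * g * locInf (h θ)) = _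
    rw [(hf.shift (h θ)).left_inv γ g]
  arch_scalar w z hz g := by
    refine intervalIntegral.integral_congr fun θ _ => ?_
    show wt θ * f (g * z * locInf (h θ)) = _
    rw [(hf.shift (h θ)).arch_scalar w z hz g]

/-! ## 4. The pairing -/

theorem IsAut670.integrableOn_mul_conj (F : T2.Frame ℚ) {f₁ f₂ : A0.G ℚ → ℂ}
    (h1 : IsAut670 f₁) (h2 : IsAut670 f₂) :
    IntegrableOn (fun g => f₁ g * (starRingEnd ℂ) (f₂ g)) F.D F.μ := by
  have : BorelSpace (A0.G ℚ) := ⟨rfl⟩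
  obtain ⟨C1, hC1⟩ := h1.bdd
  obtain ⟨C2, hC2⟩ := h2.bdd
  have hcont : Continuous (fun g => f₁ g * (starRingEnd ℂ) (f₂ g)) :=
    h1.cont.mul (Complex.continuous_conj.comp h2.cont)
  refine Measure.integrableOn_of_bounded (M := C1 * C2) F.fin.ne hcont.aestronglyMeasurable
    (Filter.Eventually.of_forall fun g => ?_)
  rw [norm_mul, RCLike.norm_conj]
  exact mul_le_mul (hC1 g) (hC2 g) (norm_nonneg _) ((norm_nonneg _).trans (hC1 g))

/-- the pairing is invariant under right translations -/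
theorem pair_shift670 (hN : T1.AdNormC ℚ) (hU : T1.UnimodC ℚ) (F : T2.Frame ℚ)
    {f₁ f₂ : A0.G ℚ → ℂ} (h1 : IsAut670 f₁) (h2 : IsAut670 f₂) (x : A0.G ℚ) :
    T2.pair F (fun g => f₁ (g * x)) (fun g => f₂ (g * x)) = T2.pair F f₁ f₂ := by
  have key := T2.H429.transl429 hN hU F (fun g => f₁ g * (starRingEnd ℂ) (f₂ g))
    (fun γ g => by
      show f₁ _ * (starRingEnd ℂ) (f₂ _) = _
      rw [show T1.ratG ℚ γ = Matrix.GeneralLinearGroup.map (algebraMap ℚ (A0.Adl ℚ)) γ from rfl,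
        h1.left_inv, h2.left_inv])
    (fun z hz g => by
      have hz' := (isDiagPosScalar_iff z Rat.infinitePlace).1 hz
      show f₁ _ * (starRingEnd ℂ) (f₂ _) = _
      rw [h1.arch_scalar _ z hz', h2.arch_scalar _ z hz']) x
  exact key

theorem pair_sub670 (F : T2.Frame ℚ) {f₁ f₂ ψ : A0.G ℚ → ℂ}
    (h1 : IsAut670 f₁) (h2 : IsAut670 f₂) (hψ : IsAut670 ψ) :
    T2.pair F (fun g => f₁ g - f₂ g) ψ = T2.pair F f₁ ψ - T2.pair F f₂ ψ := by
  unfold T2.pair
  rw [← integral_sub (h1.integrableOn_mul_conj F hψ) (h2.integrableOn_mul_conj F hψ)]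
  refine integral_congr_ae (Filter.Eventually.of_forall fun g => ?_)
  show (f₁ g - f₂ g) * _ = _
  ring

theorem pair_const_mul670 (F : T2.Frame ℚ) (c : ℂ) (f ψ : A0.G ℚ → ℂ) :
    T2.pair F (fun g => c * f g) ψ = c * T2.pair F f ψ := by
  unfold T2.pair
  rw [← integral_const_mul]
  refine integral_congr_ae (Filter.Eventually.of_forall fun g => ?_)
  show c * f g * _ = _
  ring

theorem pair_conj670 (F : T2.Frame ℚ) (f ψ : A0.G ℚ → ℂ) :
    T2.pair F ψ f = (starRingEnd ℂ) (T2.pair F f ψ) := by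
  unfold T2.pair
  rw [← integral_conj]
  refine integral_congr_ae (Filter.Eventually.of_forall fun g => ?_)
  show ψ g * (starRingEnd ℂ) (f g) = (starRingEnd ℂ) (f g * (starRingEnd ℂ) (ψ g))
  rw [map_mul, Complex.conj_conj, mul_comm]

/-- **Definiteness** of the pairing (proof of helper245 `pairDefinite245`, for `IsAut670`). -/
theorem definite670 (hN : T1.AdNormC ℚ) (F : T2.Frame ℚ) {φ : A0.G ℚ → ℂ} (hφ : IsAut670 φ)
    (h0 : T2.pair F φ φ = 0) : ∀ g : A0.G ℚ, φ g = 0 := by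
  have : BorelSpace (A0.G ℚ) := ⟨rfl⟩
  have := F.haar
  have hint := hφ.integrableOn_mul_conj F hφ
  have hreal : ∀ g, φ g * (starRingEnd ℂ) (φ g) = ((Complex.normSq (φ g) : ℝ) : ℂ) :=
    fun g => Complex.mul_conj (φ g)
  have hintR : IntegrableOn (fun g => Complex.normSq (φ g)) F.D F.μ := by
    have := hint.re
    refine this.congr (Filter.Eventually.of_forall fun g => ?_)
    show (φ g * (starRingEnd ℂ) (φ g)).re = Complex.normSq (φ g)
    rw [hreal, Complex.ofReal_re]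
  have h0R : ∫ g in F.D, Complex.normSq (φ g) ∂F.μ = 0 := by
    have h1 : T2.pair F φ φ = ((∫ g in F.D, Complex.normSq (φ g) ∂F.μ : ℝ) : ℂ) := by
      unfold T2.pair
      simp only [hreal]
      exact integral_ofReal
    rw [h1] at h0
    exact_mod_cast h0
  have hae : (fun g => Complex.normSq (φ g)) =ᵐ[F.μ.restrict F.D] 0 :=
    (setIntegral_eq_zero_iff_of_nonneg_ae
      (Filter.Eventually.of_forall fun g => Complex.normSq_nonneg _) hintR).1 h0R
  have hVopen : IsOpen {g : A0.G ℚ | φ g ≠ 0} := isOpen_ne_fun hφ.cont continuous_const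
  have hVD : F.μ ({g : A0.G ℚ | φ g ≠ 0} ∩ F.D) = 0 := by
    have h2 : F.μ.restrict F.D {g : A0.G ℚ | φ g ≠ 0} = 0 := by
      have h3 : ∀ᵐ g ∂(F.μ.restrict F.D), Complex.normSq (φ g) = 0 := hae
      rw [ae_iff] at h3
      have h4 : {g : A0.G ℚ | φ g ≠ 0} = {g : A0.G ℚ | ¬ Complex.normSq (φ g) = 0} := by
        ext g
        show φ g ≠ 0 ↔ ¬ Complex.normSq (φ g) = 0
        rw [Complex.normSq_eq_zero]
      rw [h4]
      exact h3
    rwa [Measure.restrict_apply hVopen.measurableSet] at h2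
  have hVslab : F.μ ({g : A0.G ℚ | φ g ≠ 0} ∩ T1.slab ℚ) = 0 := by
    have hcnt := T2.H245.countable_GL245 ℚ
    have hsub : {g : A0.G ℚ | φ g ≠ 0} ∩ T1.slab ℚ ⊆
        ⋃ γ : GL (Fin 2) ℚ, (fun g : A0.G ℚ => T1.ratG ℚ γ * g) ⁻¹'
          ({g : A0.G ℚ | φ g ≠ 0} ∩ F.D) := by
      rintro g ⟨hg, hgs⟩
      obtain ⟨γ, hγ, -⟩ := F.strict g hgs
      refine Set.mem_iUnion.2 ⟨γ, ?_, hγ⟩
      show φ (T1.ratG ℚ γ * g) ≠ 0
      have := hφ.left_inv γ g
      rw [show T1.ratG ℚ γ * g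
        = Matrix.GeneralLinearGroup.map (algebraMap ℚ (A0.Adl ℚ)) γ * g from rfl, this]
      exact hg
    refine measure_mono_null hsub ?_
    refine measure_iUnion_null fun γ => ?_
    rw [measure_preimage_mul]
    exact hVD
  have hempty : {g : A0.G ℚ | φ g ≠ 0} ∩ T2.H245.openSlab245 ℚ = ∅ := by
    have hop : IsOpen ({g : A0.G ℚ | φ g ≠ 0} ∩ T2.H245.openSlab245 ℚ) :=
      hVopen.inter (T2.H245.isOpen_openSlab245 hN)
    rw [← hop.measure_eq_zero_iff F.μ]
    exact measure_mono_null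
      (Set.inter_subset_inter_right _ T2.H245.openSlab245_subset_slab) hVslab
  intro g
  by_contra hg
  obtain ⟨w, z, hz, hgz⟩ := T2.H245.exists_scalar_openSlab245 hN g
  have hmem : g * z ∈ {g : A0.G ℚ | φ g ≠ 0} ∩ T2.H245.openSlab245 ℚ := by
    refine ⟨?_, hgz⟩
    show φ (g * z) ≠ 0
    rw [hφ.arch_scalar w z hz g]
    exact hg
  rw [hempty] at hmem
  exact hmem

/-! ## 5. Fubini -/

theorem integrable_family670 (F : T2.Frame ℚ) {f ψ : A0.G ℚ → ℂ} (hf : IsAut670 f)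
    (hψ : IsAut670 ψ) {wt : ℝ → ℂ} (hw : Continuous wt) {h : ℝ → GL (Fin 2) ℝ}
    (hh : Continuous h) (a b : ℝ) :
    Integrable (Function.uncurry fun (θ : ℝ) (g : A0.G ℚ) =>
        wt θ * f (g * locInf (h θ)) * (starRingEnd ℂ) (ψ g))
      ((volume.restrict (Set.uIoc a b)).prod (F.μ.restrict F.D)) := by
  have : BorelSpace (A0.G ℚ) := ⟨rfl⟩
  have : IsFiniteMeasure (F.μ.restrict F.D) :=
    ⟨by rw [Measure.restrict_apply_univ]; exact F.fin⟩
  have : IsFiniteMeasure (volume.restrict (Set.uIoc a b)) :=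
    ⟨by rw [Measure.restrict_apply_univ, Real.volume_uIoc]; exact ENNReal.ofReal_lt_top⟩
  obtain ⟨C, hC⟩ := hf.bdd
  obtain ⟨C', hC'⟩ := hψ.bdd
  obtain ⟨W, hW⟩ := (isCompact_uIcc (a := a) (b := b)).exists_bound_of_continuousOn
    hw.continuousOn
  have hcont : Continuous (Function.uncurry fun (θ : ℝ) (g : A0.G ℚ) =>
      wt θ * f (g * locInf (h θ)) * (starRingEnd ℂ) (ψ g)) := by
    have h1 : Continuous fun p : ℝ × A0.G ℚ => p.2 * locInf (h p.1) :=
      continuous_snd.mul (continuous_locInf.comp (hh.comp continuous_fst))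
    exact ((hw.comp continuous_fst).mul (hf.cont.comp h1)).mul
      (Complex.continuous_conj.comp (hψ.cont.comp continuous_snd))
  refine Integrable.of_bound hcont.aestronglyMeasurable (W * C * C') ?_
  have hS : ∀ᵐ p ∂((volume.restrict (Set.uIoc a b)).prod (F.μ.restrict F.D)),
      p.1 ∈ Set.uIoc a b := by
    rw [ae_iff]
    have hset : {p : ℝ × A0.G ℚ | ¬ p.1 ∈ Set.uIoc a b} = (Set.uIoc a b)ᶜ ×ˢ Set.univ := by
      ext p
      simp
    rw [hset, Measure.prod_prod, Measure.restrict_apply measurableSet_uIoc.compl,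
      Set.compl_inter_self, measure_empty, zero_mul]
  filter_upwards [hS] with p hp
  show ‖wt p.1 * f (p.2 * locInf (h p.1)) * (starRingEnd ℂ) (ψ p.2)‖ ≤ W * C * C'
  rw [norm_mul, norm_mul, RCLike.norm_conj]
  have hW0 : 0 ≤ W := (norm_nonneg _).trans (hW p.1 (Set.uIoc_subset_uIcc hp))
  have hC0 : 0 ≤ C := (norm_nonneg _).trans (hC 1)
  exact mul_le_mul (mul_le_mul (hW p.1 (Set.uIoc_subset_uIcc hp)) (hC _) (norm_nonneg _) hW0)
    (hC' _) (norm_nonneg _) (mul_nonneg hW0 hC0)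

/-- **Fubini**: the pairing commutes with a parametric interval integral. -/
theorem pair_integral670 (F : T2.Frame ℚ) {f ψ : A0.G ℚ → ℂ} (hf : IsAut670 f)
    (hψ : IsAut670 ψ) {wt : ℝ → ℂ} (hw : Continuous wt) {h : ℝ → GL (Fin 2) ℝ}
    (hh : Continuous h) (a b : ℝ) :
    T2.pair F (fun g => ∫ θ in a..b, wt θ * f (g * locInf (h θ))) ψ
      = ∫ θ in a..b, wt θ * T2.pair F (fun g => f (g * locInf (h θ))) ψ := by
  have : BorelSpace (A0.G ℚ) := ⟨rfl⟩
  have : IsFiniteMeasure (F.μ.restrict F.D) :=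
    ⟨by rw [Measure.restrict_apply_univ]; exact F.fin⟩
  unfold T2.pair
  have e1 : ∀ g : A0.G ℚ, (∫ θ in a..b, wt θ * f (g * locInf (h θ))) * (starRingEnd ℂ) (ψ g)
      = ∫ θ in a..b, wt θ * f (g * locInf (h θ)) * (starRingEnd ℂ) (ψ g) :=
    fun g => (intervalIntegral.integral_mul_const _ _).symm
  have e2 : ∀ θ : ℝ, wt θ * ∫ g in F.D, f (g * locInf (h θ)) * (starRingEnd ℂ) (ψ g) ∂F.μ
      = ∫ g in F.D, wt θ * f (g * locInf (h θ)) * (starRingEnd ℂ) (ψ g) ∂F.μ := by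
    intro θ
    rw [← integral_const_mul]
    refine integral_congr_ae (Filter.Eventually.of_forall fun g => ?_)
    show wt θ * (f _ * _) = _
    ring
  simp_rw [e1, e2]
  exact (intervalIntegral_integral_swap (integrable_family670 F hf hψ hw hh a b)).symm

end Fermat.Agent.LT.H670.D3

end

end
-- ===== PACK-END LT/H670/D3/Frame.lean

-- ===== PACK-BEGIN LT/H670/D3/Main.lean
section


/-!
# Row LT, T6inf.08 = D3 (helper670, SZEGO-KERNEL route): the global argument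

OFF-MAIN.  Proved lemmas only.

`e` : bounded continuous on `GL₂(𝔸_ℚ)`, left `GL₂(ℚ)`-invariant, invariant under the positive real
scalars (`IsAut670 e`), of weight one (`hwt`), with the weight-one mean-value property of
parameter `0` (`hmv`).  `F` a frame (Haar measure + strict fundamental domain of finite volume).

* `mc F e h = ⟨R_h e, e⟩` : the matrix coefficient; `mc_eq : mc F e h = mc F e 1 * Q0 h`;
* `pair_vF : ⟨v_z, v_z'⟩ = mc F e 1 * (2 i / (z - conj z'))`, `v_z = y^{-1/2} R_{g_z} e`;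
* `cauchy_vF` : every `z ↦ v_z(g)` satisfies Cauchy's integral formula on every closed disc of `ℍ`;
* `mdifferentiable_vF` : `z ↦ y^{-1/2} e(g g_z)` is holomorphic on `ℍ`, for EVERY `g`.
-/

set_option autoImplicit false

open IsDedekindDomain NumberField MeasureTheory
open UpperHalfPlane
open scoped MatrixGroups Real Manifold

noncomputable section

namespace Fermat.Agent.LT.H670.D3

open Fermat.Agent.LT.H556 Fermat.Agent.LT.H670.QOut Fermat.Agent.LT

attribute [local instance] Fermat.Agent.LT.T2.borelG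

/-- the right translate of `e` by `locInf h` -/
def eR (e : A0.G ℚ → ℂ) (h : GL (Fin 2) ℝ) : A0.G ℚ → ℂ := fun g => e (g * locInf h)

/-- the matrix coefficient `⟨R_h e, e⟩` -/
def mc (F : T2.Frame ℚ) (e : A0.G ℚ → ℂ) (h : GL (Fin 2) ℝ) : ℂ := T2.pair F (eR e h) e

theorem eR_one (e : A0.G ℚ → ℂ) : eR e 1 = e := by
  funext g
  show e (g * locInf 1) = e g
  rw [map_one, mul_one]

theorem IsAut670.eR {e : A0.G ℚ → ℂ} (he : IsAut670 e) (h : GL (Fin 2) ℝ) : IsAut670 (eR e h) :=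
  he.shift h

section Coeff

variable (hN : T1.AdNormC ℚ) (hU : T1.UnimodC ℚ) (F : T2.Frame ℚ) {e : A0.G ℚ → ℂ}
  (he : IsAut670 e)

include hN hU he in
theorem pair_eR (h₁ h₂ : GL (Fin 2) ℝ) :
    T2.pair F (eR e h₁) (eR e h₂) = mc F e (h₂⁻¹ * h₁) := by
  have key := pair_shift670 hN hU F (he.eR h₁) (he.eR h₂) (locInf h₂⁻¹)
  rw [← key]
  have e1 : (fun g => eR e h₁ (g * locInf h₂⁻¹)) = eR e (h₂⁻¹ * h₁) := by
    funext g
    show e (g * locInf h₂⁻¹ * locInf h₁) = e (g * locInf (h₂⁻¹ * h₁))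
    rw [map_mul, mul_assoc]
  have e2 : (fun g => eR e h₂ (g * locInf h₂⁻¹)) = e := by
    funext g
    show e (g * locInf h₂⁻¹ * locInf h₂) = e g
    rw [mul_assoc, ← map_mul, inv_mul_cancel, map_one, mul_one]
  rw [e1, e2]
  rfl

variable (hwt : ∀ (θ : ℝ) (g : A0.G ℚ),
    e (g * locInf (kTheta θ)) = Complex.exp (Complex.I * ((θ : ℝ) : ℂ)) * e g)

include hwt in
theorem eR_mul_kTheta (h : GL (Fin 2) ℝ) (θ : ℝ) :
    eR e (h * kTheta θ) = fun g => Complex.exp (Complex.I * ((θ : ℝ) : ℂ)) * eR e h g := by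
  funext g
  show e (g * locInf (h * kTheta θ)) = _ * e (g * locInf h)
  rw [map_mul, ← mul_assoc, hwt]

include hwt in
theorem mc_mul_kTheta (h : GL (Fin 2) ℝ) (θ : ℝ) :
    mc F e (h * kTheta θ) = Complex.exp (Complex.I * ((θ : ℝ) : ℂ)) * mc F e h := by
  unfold mc
  rw [eR_mul_kTheta hwt, pair_const_mul670]

include hN hU he hwt in
theorem mc_kTheta_mul (h : GL (Fin 2) ℝ) (θ : ℝ) :
    mc F e (kTheta θ * h) = Complex.exp (Complex.I * ((θ : ℝ) : ℂ)) * mc F e h := by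
  have h1 := pair_eR hN hU F he h (kTheta (-θ))
  rw [kTheta_neg, inv_inv] at h1
  rw [← h1, ← kTheta_neg]
  have h2 : eR e (kTheta (-θ))
      = fun g => Complex.exp (Complex.I * (((-θ : ℝ)) : ℂ)) * eR e 1 g := by
    rw [← eR_mul_kTheta hwt, one_mul]
  rw [h2, eR_one, pair_conj670, pair_const_mul670, map_mul, ← pair_conj670]
  unfold mc
  congr 1
  rw [← Complex.exp_conj]
  congr 1
  simp

include he in
theorem mc_mul_scalR (h : GL (Fin 2) ℝ) (r : ℝ) (hr : 0 < r) :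
    mc F e (h * scalR r hr) = mc F e h := by
  unfold mc
  congr 1
  funext g
  show e (g * locInf (h * scalR r hr)) = e (g * locInf h)
  rw [map_mul, ← mul_assoc]
  exact he.arch_scalar Rat.infinitePlace _ (isArchPosScalar_scalR _ r hr) _

end Coeff

section MeanValue

variable (hN : T1.AdNormC ℚ) (hU : T1.UnimodC ℚ) (F : T2.Frame ℚ) {e : A0.G ℚ → ℂ}
  (he : IsAut670 e)
  (hwt : ∀ (θ : ℝ) (g : A0.G ℚ),
    e (g * locInf (kTheta θ)) = Complex.exp (Complex.I * ((θ : ℝ) : ℂ)) * e g)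
  (hmv : ∀ t : ℝ, 0 < t → ∀ g : A0.G ℚ,
    (∫ θ in (0 : ℝ)..(2 * π),
      Complex.exp (-(Complex.I * ((θ : ℝ) : ℂ))) * e (g * locInf (kTheta θ * aT t)))
      = ((2 * π / Real.cosh (t / 2) : ℝ) : ℂ) * e g)

include hN hU he hwt hmv in
theorem mc_aT (t : ℝ) (ht : 0 < t) :
    mc F e (aT t) = mc F e 1 / ((Real.cosh (t / 2) : ℝ) : ℂ) := by
  have hw : Continuous fun θ : ℝ => Complex.exp (-(Complex.I * ((θ : ℝ) : ℂ))) := by fun_prop
  have hh : Continuous fun θ : ℝ => kTheta θ * aT t := continuous_kTheta.mul continuous_const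
  have key := pair_integral670 F he he hw hh 0 (2 * π)
  have hL : (fun g => ∫ θ in (0 : ℝ)..(2 * π),
      Complex.exp (-(Complex.I * ((θ : ℝ) : ℂ))) * e (g * locInf (kTheta θ * aT t)))
      = fun g => ((2 * π / Real.cosh (t / 2) : ℝ) : ℂ) * e g := by
    funext g
    exact hmv t ht g
  rw [hL, pair_const_mul670] at key
  have hR : ∀ θ : ℝ, Complex.exp (-(Complex.I * ((θ : ℝ) : ℂ))) *
      T2.pair F (fun g => e (g * locInf (kTheta θ * aT t))) e = mc F e (aT t) := by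
    intro θ
    have h1 : T2.pair F (fun g => e (g * locInf (kTheta θ * aT t))) e
        = mc F e (kTheta θ * aT t) := rfl
    rw [h1, mc_kTheta_mul hN hU F he hwt, ← mul_assoc, ← Complex.exp_add, neg_add_cancel,
      Complex.exp_zero, one_mul]
  simp_rw [hR] at key
  rw [intervalIntegral.integral_const, sub_zero] at key
  have h1 : T2.pair F e e = mc F e 1 := by
    unfold mc
    rw [eR_one]
  rw [h1] at key
  have hcosh : ((Real.cosh (t / 2) : ℝ) : ℂ) ≠ 0 := by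
    exact_mod_cast (Real.cosh_pos _).ne'
  have hpi : ((2 * π : ℝ) : ℂ) ≠ 0 := by
    exact_mod_cast (by positivity : (2 * π : ℝ) ≠ 0)
  rw [Complex.real_smul, Complex.ofReal_div] at key
  have key' : ((2 * π : ℝ) : ℂ) * (mc F e 1 / ((Real.cosh (t / 2) : ℝ) : ℂ))
      = ((2 * π : ℝ) : ℂ) * mc F e (aT t) := by
    rw [← key]
    field_simp
  exact (mul_left_cancel₀ hpi key').symm

include hN hU he hwt hmv in
/-- **The matrix coefficient is the spherical function.** -/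
theorem mc_eq (h : GL (Fin 2) ℝ) (hdet : 0 < h.det.val) : mc F e h = mc F e 1 * Q0 h :=
  biK_eq (mc F e) (fun θ h => mc_kTheta_mul hN hU F he hwt h θ)
    (fun θ h => mc_mul_kTheta F hwt h θ) (fun r hr h => mc_mul_scalR F he h r hr)
    (fun t ht => mc_aT hN hU F he hwt hmv t ht) h hdet

end MeanValue

/-! ## The Szegő kernel -/

/-- `v_z = y^{-1/2} R_{g_z} e` -/
def vF (e : A0.G ℚ → ℂ) (z : ℍ) : A0.G ℚ → ℂ :=
  fun g => (((Real.sqrt z.im : ℝ) : ℂ))⁻¹ * e (g * locInf (gzMat z))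

theorem IsAut670.vF {e : A0.G ℚ → ℂ} (he : IsAut670 e) (z : ℍ) : IsAut670 (vF e z) :=
  (he.eR (gzMat z)).const_mul _

theorem continuous_vF {e : A0.G ℚ → ℂ} (he : Continuous e) (g : A0.G ℚ) :
    Continuous fun z : ℍ => vF e z g := by
  have h1 : Continuous fun z : ℍ => (((Real.sqrt z.im : ℝ) : ℂ))⁻¹ := by
    refine Continuous.inv₀ ?_ (fun z => sqrt_im_ne_zero z)
    exact Complex.continuous_ofReal.comp (Real.continuous_sqrt.comp UpperHalfPlane.continuous_im)
  have h2 : Continuous fun z : ℍ => e (g * locInf (gzMat z)) :=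
    he.comp (continuous_const.mul (continuous_locInf.comp continuous_gzMat))
  exact h1.mul h2

section Kernel

variable (hN : T1.AdNormC ℚ) (hU : T1.UnimodC ℚ) (F : T2.Frame ℚ) {e : A0.G ℚ → ℂ}
  (he : IsAut670 e)
  (hwt : ∀ (θ : ℝ) (g : A0.G ℚ),
    e (g * locInf (kTheta θ)) = Complex.exp (Complex.I * ((θ : ℝ) : ℂ)) * e g)
  (hmv : ∀ t : ℝ, 0 < t → ∀ g : A0.G ℚ,
    (∫ θ in (0 : ℝ)..(2 * π),
      Complex.exp (-(Complex.I * ((θ : ℝ) : ℂ))) * e (g * locInf (kTheta θ * aT t)))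
      = ((2 * π / Real.cosh (t / 2) : ℝ) : ℂ) * e g)

include hN hU he hwt hmv in
/-- **The reproducing kernel of the translates is the Szegő kernel.** -/
theorem pair_vF (z z' : ℍ) :
    T2.pair F (vF e z) (vF e z')
      = mc F e 1 * (2 * Complex.I / ((z : ℂ) - (starRingEnd ℂ) (z' : ℂ))) := by
  have h1 : vF e z = fun g => (((Real.sqrt z.im : ℝ) : ℂ))⁻¹ * eR e (gzMat z) g := rfl
  have h2 : vF e z' = fun g => (((Real.sqrt z'.im : ℝ) : ℂ))⁻¹ * eR e (gzMat z') g := rfl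
  rw [h1, pair_const_mul670, h2, pair_conj670, pair_const_mul670, map_mul, ← pair_conj670,
    pair_eR hN hU F he, gzMat_inv_mul, mc_eq hN hU F he hwt hmv _ (det_gRel_pos z z'),
    ← Q0_gRel z z']
  have hc : (starRingEnd ℂ) (((Real.sqrt z'.im : ℝ) : ℂ))⁻¹ = (((Real.sqrt z'.im : ℝ) : ℂ))⁻¹ := by
    rw [map_inv₀, Complex.conj_ofReal]
  rw [hc]
  ring

end Kernel

/-! ## Cauchy's integral formula for the translates -/

section Circle

open Metric

/-- the point of the circle, as an element of `ℍ` -/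
def zH (c : ℂ) (R : ℝ) (θ : ℝ) : ℍ := ofComplex (circleMap c R θ)

variable {c : ℂ} {R : ℝ}

theorem im_circleMap_pos (hR : 0 < R) (hcl : closedBall c R ⊆ {z : ℂ | 0 < z.im}) (θ : ℝ) :
    0 < (circleMap c R θ).im :=
  hcl (sphere_subset_closedBall (circleMap_mem_sphere c hR.le θ))

theorem coe_zH (hR : 0 < R) (hcl : closedBall c R ⊆ {z : ℂ | 0 < z.im}) (θ : ℝ) :
    ((zH c R θ : ℍ) : ℂ) = circleMap c R θ := by
  rw [zH, ofComplex_apply_of_im_pos (im_circleMap_pos hR hcl θ)]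

theorem continuous_zH (hR : 0 < R) (hcl : closedBall c R ⊆ {z : ℂ | 0 < z.im}) :
    Continuous (zH c R) := by
  refine continuous_iff_continuousAt.2 fun θ => ?_
  have h1 : ContinuousAt ofComplex (circleMap c R θ) :=
    (contMDiffAt_ofComplex (n := 0) (im_circleMap_pos hR hcl θ)).continuousAt
  exact ContinuousAt.comp (f := circleMap c R) (g := ofComplex) h1
    (continuous_circleMap c R).continuousAt

/-- the weight of the Cauchy integral -/
def wtC (c : ℂ) (R : ℝ) (z₀ : ℂ) (θ : ℝ) : ℂ :=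
  circleMap 0 R θ * Complex.I * (circleMap c R θ - z₀)⁻¹ *
    (((Real.sqrt (zH c R θ).im : ℝ) : ℂ))⁻¹

theorem continuous_wtC (hR : 0 < R) (hcl : closedBall c R ⊆ {z : ℂ | 0 < z.im}) {z₀ : ℂ}
    (hz₀ : z₀ ∈ ball c R) : Continuous (wtC c R z₀) := by
  have h1 : Continuous fun θ : ℝ => (circleMap c R θ - z₀)⁻¹ :=
    Continuous.inv₀ ((continuous_circleMap c R).sub continuous_const)
      (fun θ => sub_ne_zero.2 (circleMap_ne_mem_ball hz₀ θ))
  have h2 : Continuous fun θ : ℝ => (((Real.sqrt (zH c R θ).im : ℝ) : ℂ))⁻¹ := by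
    refine Continuous.inv₀ ?_ (fun θ => sqrt_im_ne_zero _)
    exact Complex.continuous_ofReal.comp
      (Real.continuous_sqrt.comp (UpperHalfPlane.continuous_im.comp (continuous_zH hR hcl)))
  exact (((continuous_circleMap 0 R).mul continuous_const).mul h1).mul h2

/-- the Cauchy integral of the family `z ↦ v_z`, as a function on the group -/
def AF (e : A0.G ℚ → ℂ) (c : ℂ) (R : ℝ) (z₀ : ℂ) : A0.G ℚ → ℂ :=
  fun g => (2 * π * Complex.I : ℂ)⁻¹ *
    ∫ θ in (0 : ℝ)..(2 * π), wtC c R z₀ θ * e (g * locInf (gzMat (zH c R θ)))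

theorem circleIntegral_eq_AF (e : A0.G ℚ → ℂ) (c : ℂ) (R : ℝ) (z₀ : ℂ) (g : A0.G ℚ) :
    ((2 * π * Complex.I : ℂ)⁻¹ • ∮ z in C(c, R), (z - z₀)⁻¹ • vF e (ofComplex z) g)
      = AF e c R z₀ g := by
  unfold circleIntegral AF
  rw [smul_eq_mul]
  congr 1
  refine intervalIntegral.integral_congr fun θ _ => ?_
  simp only [deriv_circleMap, smul_eq_mul, vF, wtC, zH]
  ring

/-- the defect of Cauchy's formula -/
def DF (e : A0.G ℚ → ℂ) (c : ℂ) (R : ℝ) (z₀ : ℂ) : A0.G ℚ → ℂ :=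
  fun g => vF e (ofComplex z₀) g - AF e c R z₀ g

theorem IsAut670.AF {e : A0.G ℚ → ℂ} (he : IsAut670 e) (hR : 0 < R)
    (hcl : closedBall c R ⊆ {z : ℂ | 0 < z.im}) {z₀ : ℂ} (hz₀ : z₀ ∈ ball c R) :
    IsAut670 (AF e c R z₀) :=
  (he.integral (continuous_wtC hR hcl hz₀) (continuous_gzMat.comp (continuous_zH hR hcl))
    0 (2 * π)).const_mul _

theorem IsAut670.DF {e : A0.G ℚ → ℂ} (he : IsAut670 e) (hR : 0 < R)
    (hcl : closedBall c R ⊆ {z : ℂ | 0 < z.im}) {z₀ : ℂ} (hz₀ : z₀ ∈ ball c R) :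
    IsAut670 (DF e c R z₀) :=
  (he.vF _).sub (he.AF hR hcl hz₀)

end Circle

section Cauchy

open Metric

variable (hN : T1.AdNormC ℚ) (hU : T1.UnimodC ℚ) (F : T2.Frame ℚ) {e : A0.G ℚ → ℂ}
  (he : IsAut670 e)
  (hwt : ∀ (θ : ℝ) (g : A0.G ℚ),
    e (g * locInf (kTheta θ)) = Complex.exp (Complex.I * ((θ : ℝ) : ℂ)) * e g)
  (hmv : ∀ t : ℝ, 0 < t → ∀ g : A0.G ℚ,
    (∫ θ in (0 : ℝ)..(2 * π),
      Complex.exp (-(Complex.I * ((θ : ℝ) : ℂ))) * e (g * locInf (kTheta θ * aT t)))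
      = ((2 * π / Real.cosh (t / 2) : ℝ) : ℂ) * e g)
  {c : ℂ} {R : ℝ} (hR : 0 < R) (hcl : closedBall c R ⊆ {z : ℂ | 0 < z.im}) {z₀ : ℂ}
  (hz₀ : z₀ ∈ ball c R)

include hN hU he hwt hmv hR hcl hz₀ in
/-- the pairing of the Cauchy integral with `v_z` (Fubini + Cauchy for the Szegő kernel) -/
theorem pair_AF_vF (z : ℍ) :
    T2.pair F (AF e c R z₀) (vF e z)
      = mc F e 1 * (2 * Complex.I / (z₀ - (starRingEnd ℂ) (z : ℂ))) := by
  have hw := continuous_wtC hR hcl hz₀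
  have hh : Continuous fun θ : ℝ => gzMat (zH c R θ) :=
    continuous_gzMat.comp (continuous_zH hR hcl)
  have h1 : AF e c R z₀ = fun g => (2 * π * Complex.I : ℂ)⁻¹ *
      ∫ θ in (0 : ℝ)..(2 * π), wtC c R z₀ θ * e (g * locInf (gzMat (zH c R θ))) := rfl
  rw [h1, pair_const_mul670, pair_integral670 F he (he.vF z) hw hh 0 (2 * π)]
  have hp : (starRingEnd ℂ) (z : ℂ) ∉ closedBall c R := by
    intro hmem
    have h2 : 0 < ((starRingEnd ℂ) (z : ℂ)).im := hcl hmem
    rw [Complex.conj_im] at h2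
    have := z.im_pos
    simp at h2
    linarith
  have hθ : ∀ θ : ℝ, wtC c R z₀ θ *
      T2.pair F (fun g => e (g * locInf (gzMat (zH c R θ)))) (vF e z)
      = (mc F e 1 * (2 * Complex.I)) * (deriv (circleMap c R) θ •
          ((circleMap c R θ - z₀)⁻¹ • (circleMap c R θ - (starRingEnd ℂ) (z : ℂ))⁻¹)) := by
    intro θ
    have h3 := pair_vF hN hU F he hwt hmv (zH c R θ) z
    have h4 : vF e (zH c R θ) = fun g => (((Real.sqrt (zH c R θ).im : ℝ) : ℂ))⁻¹ *
        e (g * locInf (gzMat (zH c R θ))) := rfl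
    rw [h4, pair_const_mul670, coe_zH hR hcl] at h3
    have h5 : wtC c R z₀ θ * T2.pair F (fun g => e (g * locInf (gzMat (zH c R θ)))) (vF e z)
        = circleMap 0 R θ * Complex.I * (circleMap c R θ - z₀)⁻¹ *
          ((((Real.sqrt (zH c R θ).im : ℝ) : ℂ))⁻¹ *
            T2.pair F (fun g => e (g * locInf (gzMat (zH c R θ)))) (vF e z)) := by
      unfold wtC
      ring
    rw [h5, h3, deriv_circleMap, smul_eq_mul, smul_eq_mul]
    ring
  simp_rw [hθ]
  rw [intervalIntegral.integral_const_mul]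
  have hC := cauchy_szego hz₀ hp
  unfold circleIntegral at hC
  rw [smul_eq_mul] at hC
  have hfin : (2 * π * Complex.I : ℂ)⁻¹ * (mc F e 1 * (2 * Complex.I) *
      ∫ θ in (0 : ℝ)..(2 * π), deriv (circleMap c R) θ •
        ((circleMap c R θ - z₀)⁻¹ • (circleMap c R θ - (starRingEnd ℂ) (z : ℂ))⁻¹))
      = mc F e 1 * (2 * Complex.I) * ((2 * π * Complex.I : ℂ)⁻¹ *
        ∫ θ in (0 : ℝ)..(2 * π), deriv (circleMap c R) θ •
          ((circleMap c R θ - z₀)⁻¹ • (circleMap c R θ - (starRingEnd ℂ) (z : ℂ))⁻¹)) := by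
    ring
  rw [hfin, hC]
  ring

include hN hU he hwt hmv hR hcl hz₀ in
theorem pair_DF_vF (z : ℍ) : T2.pair F (DF e c R z₀) (vF e z) = 0 := by
  have hz₀im : 0 < z₀.im := hcl (ball_subset_closedBall hz₀)
  have h1 : DF e c R z₀ = fun g => vF e (ofComplex z₀) g - AF e c R z₀ g := rfl
  rw [h1, pair_sub670 F (he.vF _) (he.AF hR hcl hz₀) (he.vF z),
    pair_vF hN hU F he hwt hmv, pair_AF_vF hN hU F he hwt hmv hR hcl hz₀,
    ofComplex_apply_of_im_pos hz₀im]
  exact sub_self _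

include hN hU he hwt hmv hR hcl hz₀ in
theorem pair_vF_DF (z : ℍ) : T2.pair F (vF e z) (DF e c R z₀) = 0 := by
  rw [pair_conj670, pair_DF_vF hN hU F he hwt hmv hR hcl hz₀, map_zero]

include hN hU he hwt hmv hR hcl hz₀ in
theorem pair_AF_DF : T2.pair F (AF e c R z₀) (DF e c R z₀) = 0 := by
  have hw := continuous_wtC hR hcl hz₀
  have hh : Continuous fun θ : ℝ => gzMat (zH c R θ) :=
    continuous_gzMat.comp (continuous_zH hR hcl)
  have h1 : AF e c R z₀ = fun g => (2 * π * Complex.I : ℂ)⁻¹ *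
      ∫ θ in (0 : ℝ)..(2 * π), wtC c R z₀ θ * e (g * locInf (gzMat (zH c R θ))) := rfl
  rw [h1, pair_const_mul670, pair_integral670 F he (he.DF hR hcl hz₀) hw hh 0 (2 * π)]
  have hθ : ∀ θ : ℝ, wtC c R z₀ θ *
      T2.pair F (fun g => e (g * locInf (gzMat (zH c R θ)))) (DF e c R z₀) = 0 := by
    intro θ
    have h3 := pair_vF_DF hN hU F he hwt hmv hR hcl hz₀ (zH c R θ)
    have h4 : vF e (zH c R θ) = fun g => (((Real.sqrt (zH c R θ).im : ℝ) : ℂ))⁻¹ *
        e (g * locInf (gzMat (zH c R θ))) := rfl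
    rw [h4, pair_const_mul670] at h3
    rcases mul_eq_zero.1 h3 with h6 | h6
    · exact absurd h6 (inv_ne_zero (sqrt_im_ne_zero _))
    · rw [h6, mul_zero]
  simp_rw [hθ]
  simp

include hN hU F he hwt hmv hR hcl hz₀ in
/-- **The defect of Cauchy's formula vanishes identically.** -/
theorem DF_eq_zero (g : A0.G ℚ) : DF e c R z₀ g = 0 := by
  refine definite670 hN F (he.DF hR hcl hz₀) ?_ g
  have h1 := pair_sub670 F (he.vF (ofComplex z₀)) (he.AF hR hcl hz₀) (he.DF hR hcl hz₀)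
  have h2 : T2.pair F (DF e c R z₀) (DF e c R z₀)
      = T2.pair F (fun g => vF e (ofComplex z₀) g - AF e c R z₀ g) (DF e c R z₀) := rfl
  rw [h2, h1, pair_vF_DF hN hU F he hwt hmv hR hcl hz₀,
    pair_AF_DF hN hU F he hwt hmv hR hcl hz₀, sub_zero]

include hN hU F he hwt hmv hR hcl hz₀ in
/-- **Cauchy's integral formula** for `z ↦ y^{-1/2} e(g g_z)`. -/
theorem cauchy_vF (g : A0.G ℚ) :
    ((2 * π * Complex.I : ℂ)⁻¹ • ∮ z in C(c, R), (z - z₀)⁻¹ • vF e (ofComplex z) g)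
      = vF e (ofComplex z₀) g := by
  rw [circleIntegral_eq_AF]
  have := DF_eq_zero hN hU F he hwt hmv hR hcl hz₀ g
  unfold DF at this
  exact (sub_eq_zero.1 this).symm

end Cauchy

section Final

variable (hN : T1.AdNormC ℚ) (hU : T1.UnimodC ℚ) (F : T2.Frame ℚ) {e : A0.G ℚ → ℂ}
  (he : IsAut670 e)
  (hwt : ∀ (θ : ℝ) (g : A0.G ℚ),
    e (g * locInf (kTheta θ)) = Complex.exp (Complex.I * ((θ : ℝ) : ℂ)) * e g)
  (hmv : ∀ t : ℝ, 0 < t → ∀ g : A0.G ℚ,
    (∫ θ in (0 : ℝ)..(2 * π),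
      Complex.exp (-(Complex.I * ((θ : ℝ) : ℂ))) * e (g * locInf (kTheta θ * aT t)))
      = ((2 * π / Real.cosh (t / 2) : ℝ) : ℂ) * e g)

include hN hU F he hwt hmv in
/-- **D3, concrete form**: `z ↦ y^{-1/2} e(g g_z)` is holomorphic on `ℍ`, for every `g`. -/
theorem mdifferentiable_vF (g : A0.G ℚ) :
    MDifferentiable 𝓘(ℂ) 𝓘(ℂ) (fun z : ℍ => vF e z g) := by
  rw [UpperHalfPlane.mdifferentiable_iff]
  refine differentiableOn_of_cauchy isOpen_upperHalfPlaneSet ?_ ?_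
  · intro z hz
    have h1 : ContinuousAt ofComplex z := (contMDiffAt_ofComplex (n := 0) hz).continuousAt
    exact (ContinuousAt.comp (f := ofComplex) (g := fun z : ℍ => vF e z g)
      (continuous_vF he.cont g).continuousAt h1).continuousWithinAt
  · intro c R hR hcl w hw
    exact cauchy_vF hN hU F he hwt hmv hR hcl hw g

end Final

end Fermat.Agent.LT.H670.D3

end

end
-- ===== PACK-END LT/H670/D3/Main.lean

-- ===== PACK-BEGIN LT/T2/H899/MeanAdjT.lean
section









/-!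
# Row LT, tower T2, sub-leaf T2.27.16 `SubMeanAdjT291` (helper899): the sphere means and the
`τ`-twisted circle means are self-adjoint on the cusp functions of the class `(𝔫, τ, r)`

OFF-MAIN.  `T`-form of T2.07.16 (helper770): SAME proof with `τ`, `r` as parameters.
Spec: `LT/T2/H291/OpsSpecT.lean` (helper291, sha256 c8359c85), byte-identical copy.
Assets (byte-identical copies): `B770`, `mean_adj_abstract770`, `sphereMean_eq770`, `nuS770`,
`nuC770`, the component calculus and the matrix identities of helper770; `locCont472`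
(helper472).  Nothing is assumed, no opaque constant, no placeholder proof.

Proof.  `B(h) = ∫_D φ(g h) conj ψ(g) dμ(g)`.
* KEY LEMMA T2.27.00 applied to `Φ(g) = φ(g h₂⁻¹ h₁) conj ψ(g)` (left invariant under `GL₂(K)`,
  right invariant under the ray generator `r`, which is central):
  `∫_D φ(g h₁) conj ψ(g h₂) = B(h₂⁻¹ h₁)` (`translT899`).
* `B(k h) = τ(k) B(h)`, `B(h k⁻¹) = τ(k)⁻¹ B(h)` for `k` in the compact group at `w`
  (`B_leftT899`, `B_rightT899`; `conj τ(k)⁻¹ = τ(k)`).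
* For `y = κ a` (`κ` compact at `w`, `a` of component `torus d`):
  `∫_D φ(g y) conj ψ(g) = τ(κ) B(a)` and `∫_D φ(g) conj ψ(g y) = τ(κ)⁻¹ B(a)`
  (`pointwiseT899`; `a⁻¹ = J a J⁻¹`, the factors `τ(J)`, `τ(J)⁻¹` cancel).
* Complex place: `τ(κ) = 1` for `κ` of component `rotZ α * rotY β` (`tau_sphere899`): a
  one-parameter group `κ_γ` with `J κ_{-γ} = κ_γ J` has `τ(κ_γ)² = 1`, hence
  `τ(κ_γ) = τ(κ_{γ/2})² = 1` (`tau_one_of_flip899`); all the elements are taken from the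
  parametrisation `Y` itself.  Then Fubini (`mean_adj_abstract770`).
* Real place: Fubini with the complex weight `τ(k_θ)⁻¹` (`mean_adj_abstractC899`).
-/

set_option autoImplicit false
set_option linter.unusedSectionVars false

open IsDedekindDomain NumberField MeasureTheory
open Fermat.Agent.LT.H556.A0
open Fermat.Agent.LT.T2 Fermat.Agent.LT.T2.H472 Fermat.Agent.LT.T2.H770
open scoped ComplexConjugate

noncomputable section

namespace Fermat.Agent.LT.T2.H899

variable {K : Type} [Field K] [NumberField K]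

attribute [local instance] Fermat.Agent.LT.T2.borelG

/-! ## 1. The abstract Fubini argument with a complex weight -/

/-- If `s(p) ∫_D φ(g y_p) conj ψ(g) = conj s(p) ∫_D φ(g) conj ψ(g y_p)` for every point of a
continuous family, then the mean over the family (finite measure `ν`, bounded continuous complex
weight `s`) is self-adjoint on the bounded continuous functions. -/
theorem mean_adj_abstractC899 {G P : Type*} [Group G] [TopologicalSpace G]
    [IsTopologicalGroup G] [MeasurableSpace G] [BorelSpace G] [TopologicalSpace P]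
    [SecondCountableTopology P] [MeasurableSpace P] [BorelSpace P] (μ : Measure G) (D : Set G)
    (hD : μ D < ⊤) (ν : Measure P) [IsFiniteMeasure ν] {φ ψ : G → ℂ} (hφ : Continuous φ)
    (hψ : Continuous ψ) {Cφ Cψ : ℝ} (hCφ : ∀ g, ‖φ g‖ ≤ Cφ) (hCψ : ∀ g, ‖ψ g‖ ≤ Cψ)
    {y : P → G} (hy : Continuous y) {s : P → ℂ} (hs : Continuous s) {Cs : ℝ}
    (hCs : ∀ p, ‖s p‖ ≤ Cs)
    (hpt : ∀ p, s p * ∫ g in D, φ (g * y p) * conj (ψ g) ∂μ
      = conj (s p) * ∫ g in D, φ g * conj (ψ (g * y p)) ∂μ) :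
    ∫ g in D, (∫ p, s p * φ (g * y p) ∂ν) * conj (ψ g) ∂μ
      = ∫ g in D, φ g * conj (∫ p, s p * ψ (g * y p) ∂ν) ∂μ := by
  have : IsFiniteMeasure (μ.restrict D) := ⟨by rw [Measure.restrict_apply_univ]; exact hD⟩
  have hCφ0 : 0 ≤ Cφ := (norm_nonneg _).trans (hCφ 1)
  have hCψ0 : 0 ≤ Cψ := (norm_nonneg _).trans (hCψ 1)
  have hmul : Continuous fun q : G × P => q.1 * y q.2 :=
    continuous_fst.mul (hy.comp continuous_snd)
  have hsC : Continuous fun q : G × P => s q.2 := hs.comp continuous_snd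
  have hc1 : Continuous fun q : G × P => s q.2 * φ (q.1 * y q.2) * conj (ψ q.1) :=
    (hsC.mul (hφ.comp hmul)).mul (Complex.continuous_conj.comp (hψ.comp continuous_fst))
  have hc2 : Continuous fun q : G × P => φ q.1 * conj (s q.2 * ψ (q.1 * y q.2)) :=
    (hφ.comp continuous_fst).mul (Complex.continuous_conj.comp (hsC.mul (hψ.comp hmul)))
  have hi1 : Integrable (Function.uncurry fun (g : G) (p : P) =>
      s p * φ (g * y p) * conj (ψ g)) ((μ.restrict D).prod ν) := by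
    refine Integrable.of_bound hc1.aestronglyMeasurable (Cs * Cφ * Cψ)
      (Filter.Eventually.of_forall fun q => ?_)
    show ‖s q.2 * φ (q.1 * y q.2) * conj (ψ q.1)‖ ≤ _
    rw [norm_mul, norm_mul, RCLike.norm_conj]
    have h0 : 0 ≤ Cs := (norm_nonneg _).trans (hCs q.2)
    exact mul_le_mul (mul_le_mul (hCs _) (hCφ _) (norm_nonneg _) h0) (hCψ _) (norm_nonneg _)
      (mul_nonneg h0 hCφ0)
  have hi2 : Integrable (Function.uncurry fun (g : G) (p : P) =>
      φ g * conj (s p * ψ (g * y p))) ((μ.restrict D).prod ν) := by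
    refine Integrable.of_bound hc2.aestronglyMeasurable (Cφ * (Cs * Cψ))
      (Filter.Eventually.of_forall fun q => ?_)
    show ‖φ q.1 * conj (s q.2 * ψ (q.1 * y q.2))‖ ≤ _
    rw [norm_mul, RCLike.norm_conj, norm_mul]
    have h0 : 0 ≤ Cs := (norm_nonneg _).trans (hCs q.2)
    exact mul_le_mul (hCφ _) (mul_le_mul (hCs _) (hCψ _) (norm_nonneg _) h0)
      (mul_nonneg (norm_nonneg _) (norm_nonneg _)) hCφ0
  calc ∫ g in D, (∫ p, s p * φ (g * y p) ∂ν) * conj (ψ g) ∂μ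
      = ∫ g in D, ∫ p, s p * φ (g * y p) * conj (ψ g) ∂ν ∂μ := by
        congr 1
        funext g
        rw [integral_mul_const]
    _ = ∫ p, ∫ g in D, s p * φ (g * y p) * conj (ψ g) ∂μ ∂ν :=
        integral_integral_swap hi1
    _ = ∫ p, s p * ∫ g in D, φ (g * y p) * conj (ψ g) ∂μ ∂ν := by
        congr 1
        funext p
        rw [← integral_const_mul]
        congr 1
        funext g
        ring
    _ = ∫ p, conj (s p) * ∫ g in D, φ g * conj (ψ (g * y p)) ∂μ ∂ν := by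
        congr 1
        funext p
        rw [hpt p]
    _ = ∫ p, ∫ g in D, φ g * conj (s p * ψ (g * y p)) ∂μ ∂ν := by
        congr 1
        funext p
        rw [← integral_const_mul]
        congr 1
        funext g
        rw [map_mul]
        ring
    _ = ∫ g in D, ∫ p, φ g * conj (s p * ψ (g * y p)) ∂ν ∂μ :=
        (integral_integral_swap hi2).symm
    _ = ∫ g in D, φ g * conj (∫ p, s p * ψ (g * y p) ∂ν) ∂μ := by
        congr 1
        funext g
        rw [integral_const_mul, integral_conj]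

/-! ## 2. The KEY LEMMA on the class -/

/-- The KEY LEMMA on the automorphic functions of the class:
`∫_D φ(g h₁) conj ψ(g h₂) = B(h₂⁻¹ h₁)`. -/
theorem translT899 (R : FrameR K) (hTr : TranslInvT899 R) {𝔫 : Ideal (𝓞 K)} {τ : G K → ℂ}
    {φ ψ : G K → ℂ} (hφ : IsAutT 𝔫 τ R.r φ) (hψ : IsAutT 𝔫 τ R.r ψ) (h₁ h₂ : G K) :
    ∫ g in R.F.D, φ (g * h₁) * conj (ψ (g * h₂)) ∂(R.F.μ) = B770 R.F φ ψ (h₂⁻¹ * h₁) := by
  have hleft : ∀ (γ : GL (Fin 2) K) (g : G K),
      φ (T1.ratG K γ * g * (h₂⁻¹ * h₁)) * conj (ψ (T1.ratG K γ * g))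
        = φ (g * (h₂⁻¹ * h₁)) * conj (ψ g) := by
    intro γ g
    rw [mul_assoc,
      show φ (T1.ratG K γ * (g * (h₂⁻¹ * h₁))) = φ (g * (h₂⁻¹ * h₁)) from hφ.left_inv γ _,
      show ψ (T1.ratG K γ * g) = ψ g from hψ.left_inv γ g]
  have hray : ∀ g : G K,
      φ (g * R.r * (h₂⁻¹ * h₁)) * conj (ψ (g * R.r)) = φ (g * (h₂⁻¹ * h₁)) * conj (ψ g) := by
    intro g
    have e : g * R.r * (h₂⁻¹ * h₁) = g * (h₂⁻¹ * h₁) * R.r := by
      rw [mul_assoc, ← rayGen_central899 R.ray (h₂⁻¹ * h₁), ← mul_assoc]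
    rw [e, hφ.ray, hψ.ray]
  have key := hTr (fun g => φ (g * (h₂⁻¹ * h₁)) * conj (ψ g)) hleft hray h₂
  unfold B770
  rw [← key]
  congr 1
  funext g
  show φ (g * h₁) * conj (ψ (g * h₂)) = φ (g * h₂ * (h₂⁻¹ * h₁)) * conj (ψ (g * h₂))
  rw [show g * h₂ * (h₂⁻¹ * h₁) = g * h₁ by group]

/-- `B(k h) = τ(k) B(h)` for `k` in the compact group at `w`. -/
theorem B_leftT899 (R : FrameR K) (hTr : TranslInvT899 R) {𝔫 : Ideal (𝓞 K)} {τ : G K → ℂ}
    (hτ : IsKType τ) {φ ψ : G K → ℂ} (hφ : IsAutT 𝔫 τ R.r φ) (hψ : IsAutT 𝔫 τ R.r ψ)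
    {w : InfinitePlace K} {k : G K} (hk : IsArchCompact w k) (h : G K) :
    B770 R.F φ ψ (k * h) = τ k * B770 R.F φ ψ h := by
  have key := translT899 R hTr hφ hψ h k⁻¹
  rw [inv_inv] at key
  rw [← key]
  unfold B770
  rw [← integral_const_mul]
  congr 1
  funext g
  have e : ψ (g * k⁻¹ * k) = τ k * ψ (g * k⁻¹) := hψ.arch_compact w k hk (g * k⁻¹)
  rw [inv_mul_cancel_right] at e
  have h0 := tau_ne_zero899 hτ hk
  show φ (g * h) * conj (ψ (g * k⁻¹)) = τ k * (φ (g * h) * conj (ψ g))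
  rw [e, map_mul, conj_tau899 hτ hk]
  field_simp

/-- `B(h k⁻¹) = τ(k)⁻¹ B(h)` for `k` in the compact group at `w`. -/
theorem B_rightT899 (R : FrameR K) {𝔫 : Ideal (𝓞 K)} {τ : G K → ℂ} (hτ : IsKType τ)
    {φ : G K → ℂ} (ψ : G K → ℂ) (hφ : IsAutT 𝔫 τ R.r φ) {w : InfinitePlace K} {k : G K}
    (hk : IsArchCompact w k) (h : G K) :
    B770 R.F φ ψ (h * k⁻¹) = (τ k)⁻¹ * B770 R.F φ ψ h := by
  unfold B770
  rw [← integral_const_mul]
  congr 1
  funext g
  have e : φ (g * (h * k⁻¹) * k) = τ k * φ (g * (h * k⁻¹)) :=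
    hφ.arch_compact w k hk (g * (h * k⁻¹))
  rw [show g * (h * k⁻¹) * k = g * h by group] at e
  have h0 := tau_ne_zero899 hτ hk
  show φ (g * (h * k⁻¹)) * conj (ψ g) = (τ k)⁻¹ * (φ (g * h) * conj (ψ g))
  rw [e]
  field_simp

/-! ## 3. The pointwise identities -/

/-- **Pointwise identities.**  `y = κ · torus d` at `w` with `κ` in the compact group, `a` and
`j` the elements of components `torus d`, `rotY π · torus d`:
`∫_D φ(g y) conj ψ(g) = τ(y a⁻¹) B(a)` and `∫_D φ(g) conj ψ(g y) = τ(y a⁻¹)⁻¹ B(a)`. -/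
theorem pointwiseT899 (R : FrameR K) (hTr : TranslInvT899 R) {𝔫 : Ideal (𝓞 K)} {τ : G K → ℂ}
    (hτ : IsKType τ) {φ ψ : G K → ℂ} (hφ : IsAutT 𝔫 τ R.r φ) (hψ : IsAutT 𝔫 τ R.r ψ)
    {w : InfinitePlace K} {d : ℝ} {y a j : G K} {κ : Matrix (Fin 2) (Fin 2) ℂ}
    (hκ : κ * κ.conjTranspose = 1) (hκdet : w.IsReal → κ.det = 1)
    (hy : IsLocalAtInf w y) (hyc : infComp w y = κ * torus d)
    (ha : IsLocalAtInf w a) (hac : infComp w a = torus d)
    (hj : IsLocalAtInf w j) (hjc : infComp w j = rotY Real.pi * torus d) :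
    ∫ g in R.F.D, φ (g * y) * conj (ψ g) ∂(R.F.μ) = τ (y * a⁻¹) * B770 R.F φ ψ a ∧
      ∫ g in R.F.D, φ g * conj (ψ (g * y)) ∂(R.F.μ) = (τ (y * a⁻¹))⁻¹ * B770 R.F φ ψ a := by
  have ha' : IsLocalAtInf w a⁻¹ := isLocalAtInf_inv472 ha
  have hta : torus d * infComp w a⁻¹ = 1 := by
    rw [← hac]
    exact infComp_mul_inv770 w a
  have hkc : infComp w (y * a⁻¹) = κ := by
    rw [infComp_mul770, hyc, mul_assoc, hta, mul_one]
  have hk : IsArchCompact w (y * a⁻¹) :=
    ⟨isLocalAtInf_mul770 hy ha', by rw [hkc]; exact hκ, fun hw => by rw [hkc]; exact hκdet hw⟩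
  have hJc : infComp w (j * a⁻¹) = rotY Real.pi := by
    rw [infComp_mul770, hjc, mul_assoc, hta, mul_one]
  have hJ : IsArchCompact w (j * a⁻¹) :=
    ⟨isLocalAtInf_mul770 hj ha', by rw [hJc]; exact rotY_unitary770 _,
      fun _ => by rw [hJc]; exact rotY_det770 _⟩
  have haJa : a * (j * a⁻¹) * a = j * a⁻¹ := by
    apply eq_of_local770 (isLocalAtInf_mul770 (isLocalAtInf_mul770 ha hJ.1) ha) hJ.1
    rw [infComp_mul770, infComp_mul770, hJc, hac, torus_rotY_pi770]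
  have hyk : y = (y * a⁻¹) * a := by group
  have hainv : a⁻¹ = (j * a⁻¹) * a * (j * a⁻¹)⁻¹ := by
    have h' : (j * a⁻¹)⁻¹ = (a * (j * a⁻¹) * a)⁻¹ := by rw [haJa]
    rw [h']
    group
  have h0 := tau_ne_zero899 hτ hk
  have hJ0 := tau_ne_zero899 hτ hJ
  have e1 : B770 R.F φ ψ y = τ (y * a⁻¹) * B770 R.F φ ψ a := by
    conv_lhs => rw [hyk]
    exact B_leftT899 R hTr hτ hφ hψ hk a
  have e2 : B770 R.F φ ψ y⁻¹ = (τ (y * a⁻¹))⁻¹ * B770 R.F φ ψ a⁻¹ := by
    have e : y⁻¹ = a⁻¹ * (y * a⁻¹)⁻¹ := by group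
    conv_lhs => rw [e]
    exact B_rightT899 R hτ ψ hφ hk a⁻¹
  have e3 : B770 R.F φ ψ a⁻¹ = B770 R.F φ ψ a := by
    conv_lhs => rw [hainv]
    rw [B_rightT899 R hτ ψ hφ hJ ((j * a⁻¹) * a), B_leftT899 R hTr hτ hφ hψ hJ a,
      ← mul_assoc, inv_mul_cancel₀ hJ0, one_mul]
  have e4 : ∫ g in R.F.D, φ g * conj (ψ (g * y)) ∂(R.F.μ) = B770 R.F φ ψ y⁻¹ := by
    have key := translT899 R hTr hφ hψ 1 y
    rw [mul_one] at key
    rw [← key]
    congr 1
    funext g
    rw [mul_one]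
  refine ⟨e1, ?_⟩
  rw [e4, e2, e3]

/-! ## 4. The type is trivial on the elements of the sphere -/

theorem tau_one899 {τ : G K → ℂ} (hτ : IsKType τ) {w : InfinitePlace K}
    (h1 : IsArchCompact w (1 : G K)) : τ (1 : G K) = 1 := by
  have h0 := tau_ne_zero899 hτ h1
  have h := hτ.mul w 1 1 h1 h1
  rw [mul_one] at h
  have h' : τ (1 : G K) * 1 = τ (1 : G K) * τ (1 : G K) := by rw [mul_one]; exact h
  exact (mul_left_cancel₀ h0 h').symm

/-- A one-parameter group `κ` in the compact group at `w` which is inverted by an element `J` of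
the compact group (`J κ_{-γ} = κ_γ J`) lies in the kernel of every `K_∞`-type. -/
theorem tau_one_of_flip899 {τ : G K → ℂ} (hτ : IsKType τ) {w : InfinitePlace K}
    {κ : ℝ → G K} (hκ : ∀ γ, IsArchCompact w (κ γ))
    (hadd : ∀ α β, κ (α + β) = κ α * κ β) {J : G K} (hJ : IsArchCompact w J)
    (hflip : ∀ γ, J * κ (-γ) = κ γ * J) (α : ℝ) : τ (κ α) = 1 := by
  have hκ0 : κ 0 = 1 := by
    have h := hadd 0 0
    rw [add_zero] at h
    exact (mul_eq_left.1 h.symm)
  have h1 : IsArchCompact w (1 : G K) := hκ0 ▸ hκ 0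
  have hJ0 := tau_ne_zero899 hτ hJ
  have hneg : ∀ γ, τ (κ (-γ)) = τ (κ γ) := by
    intro γ
    have h := congrArg τ (hflip γ)
    rw [hτ.mul w _ _ hJ (hκ _), hτ.mul w _ _ (hκ _) hJ, mul_comm (τ (κ γ))] at h
    exact mul_left_cancel₀ hJ0 h
  have hsq : ∀ γ, τ (κ γ) * τ (κ γ) = 1 := by
    intro γ
    have h := hadd γ (-γ)
    rw [add_neg_cancel, hκ0] at h
    have h' := congrArg τ h
    rw [tau_one899 hτ h1, hτ.mul w _ _ (hκ _) (hκ _), hneg] at h'
    exact h'.symm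
  have h := hadd (α / 2) (α / 2)
  rw [add_halves] at h
  rw [h, hτ.mul w _ _ (hκ _) (hκ _)]
  exact hsq _

theorem rotZ_add899 (α β : ℝ) : rotZ (α + β) = rotZ α * rotZ β := by
  have e1 : Complex.I * (((α + β) / 2 : ℝ) : ℂ)
      = Complex.I * ((α / 2 : ℝ) : ℂ) + Complex.I * ((β / 2 : ℝ) : ℂ) := by
    push_cast
    ring
  have e2 : Complex.exp (Complex.I * (((α + β) / 2 : ℝ) : ℂ))
      = Complex.exp (Complex.I * ((α / 2 : ℝ) : ℂ))
        * Complex.exp (Complex.I * ((β / 2 : ℝ) : ℂ)) := by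
    rw [e1, Complex.exp_add]
  have e3 : Complex.exp (-(Complex.I * (((α + β) / 2 : ℝ) : ℂ)))
      = Complex.exp (-(Complex.I * ((α / 2 : ℝ) : ℂ)))
        * Complex.exp (-(Complex.I * ((β / 2 : ℝ) : ℂ))) := by
    rw [e1, neg_add, Complex.exp_add]
  unfold rotZ
  rw [e2, e3]
  ext i j
  fin_cases i <;> fin_cases j <;> simp [Matrix.mul_apply, Fin.sum_univ_two]

theorem rotY_add899 (α β : ℝ) : rotY (α + β) = rotY α * rotY β := by
  have e1 : (α + β) / 2 = α / 2 + β / 2 := by ring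
  have e2 : ((Real.cos ((α + β) / 2) : ℝ) : ℂ)
      = ((Real.cos (α / 2) : ℝ) : ℂ) * ((Real.cos (β / 2) : ℝ) : ℂ)
        - ((Real.sin (α / 2) : ℝ) : ℂ) * ((Real.sin (β / 2) : ℝ) : ℂ) := by
    rw [e1, Real.cos_add]
    push_cast
    ring
  have e3 : ((Real.sin ((α + β) / 2) : ℝ) : ℂ)
      = ((Real.sin (α / 2) : ℝ) : ℂ) * ((Real.cos (β / 2) : ℝ) : ℂ)
        + ((Real.cos (α / 2) : ℝ) : ℂ) * ((Real.sin (β / 2) : ℝ) : ℂ) := by
    rw [e1, Real.sin_add]
    push_cast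
    ring
  unfold rotY
  rw [e2, e3]
  ext i j
  fin_cases i <;> fin_cases j <;> simp [Matrix.mul_apply, Fin.sum_univ_two] <;> ring

theorem rotZ_neg899 (γ : ℝ) :
    rotZ (-γ) = !![Complex.exp (-(Complex.I * ((γ / 2 : ℝ) : ℂ))), 0;
      0, Complex.exp (Complex.I * ((γ / 2 : ℝ) : ℂ))] := by
  have e1 : Complex.I * ((-γ / 2 : ℝ) : ℂ) = -(Complex.I * ((γ / 2 : ℝ) : ℂ)) := by
    push_cast
    ring
  unfold rotZ
  rw [e1, neg_neg]

theorem rotY_pi_rotZ899 (γ : ℝ) : rotY Real.pi * rotZ (-γ) = rotZ γ * rotY Real.pi := by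
  rw [rotY_pi770, rotZ_neg899]
  unfold rotZ
  ext i j
  fin_cases i <;> fin_cases j <;> simp [Matrix.mul_apply, Fin.sum_univ_two]

theorem exp_I_pi_half899 : Complex.exp (Complex.I * ((Real.pi / 2 : ℝ) : ℂ)) = Complex.I := by
  rw [mul_comm, Complex.exp_mul_I, ← Complex.ofReal_cos, ← Complex.ofReal_sin,
    Real.cos_pi_div_two, Real.sin_pi_div_two]
  simp

theorem rotZ_pi899 : rotZ Real.pi = !![Complex.I, 0; 0, -Complex.I] := by
  unfold rotZ
  rw [Complex.exp_neg, exp_I_pi_half899, Complex.inv_I]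

theorem rotY_neg899 (β : ℝ) :
    rotY (-β) = !![((Real.cos (β / 2) : ℝ) : ℂ), ((Real.sin (β / 2) : ℝ) : ℂ);
      -((Real.sin (β / 2) : ℝ) : ℂ), ((Real.cos (β / 2) : ℝ) : ℂ)] := by
  have e1 : -β / 2 = -(β / 2) := by ring
  unfold rotY
  rw [e1, Real.cos_neg, Real.sin_neg]
  push_cast
  rw [neg_neg]

theorem rotZ_pi_rotY899 (β : ℝ) : rotZ Real.pi * rotY (-β) = rotY β * rotZ Real.pi := by
  rw [rotZ_pi899, rotY_neg899]
  unfold rotY
  ext i j
  fin_cases i <;> fin_cases j <;> simp [Matrix.mul_apply, Fin.sum_univ_two, mul_comm]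

/-- **The type is trivial on the elements of the sphere** (complex place): for the
parametrisation `Y` of a sphere, `τ(Y α β · (Y 0 0)⁻¹) = 1`. -/
theorem tau_sphere899 {τ : G K → ℂ} (hτ : IsKType τ) {w : InfinitePlace K} (hw : w.IsComplex)
    {d : ℝ} {Y : ℝ → ℝ → G K} (hY : IsSphereAt w d Y) (α β : ℝ) :
    τ (Y α β * (Y 0 0)⁻¹) = 1 := by
  have hnr : ¬ w.IsReal := InfinitePlace.not_isReal_iff_isComplex.2 hw
  have ha : IsLocalAtInf w (Y 0 0) := (hY 0 0).1
  have hac : infComp w (Y 0 0) = torus d := by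
    rw [(hY 0 0).2, rotZ_zero770, rotY_zero770, one_mul, one_mul]
  have ha' : IsLocalAtInf w (Y 0 0)⁻¹ := isLocalAtInf_inv472 ha
  have hta : torus d * infComp w (Y 0 0)⁻¹ = 1 := by
    rw [← hac]
    exact infComp_mul_inv770 w (Y 0 0)
  have hloc : ∀ α β, IsLocalAtInf w (Y α β * (Y 0 0)⁻¹) := fun α β =>
    isLocalAtInf_mul770 (hY α β).1 ha'
  have hcomp : ∀ α β, infComp w (Y α β * (Y 0 0)⁻¹) = rotZ α * rotY β := by
    intro α β
    rw [infComp_mul770, (hY α β).2, mul_assoc, hta, mul_one]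
  have hK : ∀ α β, IsArchCompact w (Y α β * (Y 0 0)⁻¹) := fun α β =>
    ⟨hloc α β, by
      rw [hcomp]
      exact unitary_mul770 (rotZ_unitary770 α) (rotY_unitary770 β), fun h => absurd h hnr⟩
  have hcZ : ∀ γ, infComp w (Y γ 0 * (Y 0 0)⁻¹) = rotZ γ := fun γ => by
    rw [hcomp, rotY_zero770, mul_one]
  have hcY : ∀ β, infComp w (Y 0 β * (Y 0 0)⁻¹) = rotY β := fun β => by
    rw [hcomp, rotZ_zero770, one_mul]
  -- the two one-parameter groups
  have hZ : ∀ γ, τ (Y γ 0 * (Y 0 0)⁻¹) = 1 := by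
    refine tau_one_of_flip899 hτ (κ := fun γ => Y γ 0 * (Y 0 0)⁻¹) (fun γ => hK γ 0) ?_
      (hK 0 Real.pi) ?_
    · intro α β
      apply eq_of_local770 (hloc _ _) (isLocalAtInf_mul770 (hloc _ _) (hloc _ _))
      rw [infComp_mul770 w (Y α 0 * (Y 0 0)⁻¹) (Y β 0 * (Y 0 0)⁻¹), hcZ, hcZ, hcZ, rotZ_add899]
    · intro γ
      apply eq_of_local770 (isLocalAtInf_mul770 (hloc _ _) (hloc _ _))
        (isLocalAtInf_mul770 (hloc _ _) (hloc _ _))
      rw [infComp_mul770 w (Y 0 Real.pi * (Y 0 0)⁻¹) (Y (-γ) 0 * (Y 0 0)⁻¹),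
        infComp_mul770 w (Y γ 0 * (Y 0 0)⁻¹) (Y 0 Real.pi * (Y 0 0)⁻¹), hcZ, hcZ, hcY,
        rotY_pi_rotZ899]
  have hYY : ∀ β, τ (Y 0 β * (Y 0 0)⁻¹) = 1 := by
    refine tau_one_of_flip899 hτ (κ := fun β => Y 0 β * (Y 0 0)⁻¹) (fun β => hK 0 β) ?_
      (hK Real.pi 0) ?_
    · intro α β
      apply eq_of_local770 (hloc _ _) (isLocalAtInf_mul770 (hloc _ _) (hloc _ _))
      rw [infComp_mul770 w (Y 0 α * (Y 0 0)⁻¹) (Y 0 β * (Y 0 0)⁻¹), hcY, hcY, hcY, rotY_add899]
    · intro β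
      apply eq_of_local770 (isLocalAtInf_mul770 (hloc _ _) (hloc _ _))
        (isLocalAtInf_mul770 (hloc _ _) (hloc _ _))
      rw [infComp_mul770 w (Y Real.pi 0 * (Y 0 0)⁻¹) (Y 0 (-β) * (Y 0 0)⁻¹),
        infComp_mul770 w (Y 0 β * (Y 0 0)⁻¹) (Y Real.pi 0 * (Y 0 0)⁻¹), hcZ, hcY, hcY,
        rotZ_pi_rotY899]
  have hprod : Y α β * (Y 0 0)⁻¹ = (Y α 0 * (Y 0 0)⁻¹) * (Y 0 β * (Y 0 0)⁻¹) := by
    apply eq_of_local770 (hloc _ _) (isLocalAtInf_mul770 (hloc _ _) (hloc _ _))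
    rw [infComp_mul770 w (Y α 0 * (Y 0 0)⁻¹) (Y 0 β * (Y 0 0)⁻¹), hcZ, hcY, hcomp]
  rw [hprod, hτ.mul w _ _ (hK α 0) (hK 0 β), hZ, hYY, one_mul]

/-! ## 5. The means as integrals over a finite measure -/

/-- The twisted circle mean as an integral over `nuC770`. -/
theorem circleMeanT_eq899 (τ : G K → ℂ) (k : ℝ → G K) (a : G K) (χ : G K → ℂ) (g : G K) :
    circleMeanT τ k a χ g = ∫ θ, (τ (k θ))⁻¹ * χ (g * (k θ * a)) ∂nuC770 := by
  have h2 : (0 : ℝ) ≤ 2 * Real.pi := by positivity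
  unfold circleMeanT nuC770
  rw [intervalIntegral.integral_of_le h2]
  simp only [mul_assoc]

/-! ## 6. The sub-leaf -/

/-- **Sphere means are self-adjoint on the cusp functions of the class.** -/
theorem sphere_adjT899 {𝔫 : Ideal (𝓞 K)} {τ : G K → ℂ} (hτ : IsKType τ) (R : FrameR K)
    (hTr : TranslInvT899 R) {w : InfinitePlace K} (hw : w.IsComplex) {d : ℝ}
    {Y : ℝ → ℝ → G K} (hY : IsSphereAt w d Y) :
    H291.IsAdjT291 𝔫 τ R (sphereMean Y) (sphereMean Y) := by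
  intro φ ψ hφ hψ
  have hYc : Continuous fun p : ℝ × ℝ => Y p.1 p.2 := continuous_sphereT899 hY
  obtain ⟨Cφ, hCφ⟩ := hφ.aut.bdd
  obtain ⟨Cψ, hCψ⟩ := hψ.aut.bdd
  have hB : BorelSpace (G K) := ⟨rfl⟩
  have hfin := isFiniteMeasure_nuS770
  have hnr : ¬ w.IsReal := InfinitePlace.not_isReal_iff_isComplex.2 hw
  have ha : infComp w (Y 0 0) = torus d := by
    rw [(hY 0 0).2, rotZ_zero770, rotY_zero770, one_mul, one_mul]
  have hj : infComp w (Y 0 Real.pi) = rotY Real.pi * torus d := by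
    rw [(hY 0 Real.pi).2, rotZ_zero770, one_mul]
  have hpt : ∀ p : ℝ × ℝ, ∫ g in R.F.D, φ (g * Y p.1 p.2) * conj (ψ g) ∂(R.F.μ)
      = ∫ g in R.F.D, φ g * conj (ψ (g * Y p.1 p.2)) ∂(R.F.μ) := fun p => by
    have h := pointwiseT899 R hTr hτ hφ.aut hψ.aut
      (unitary_mul770 (rotZ_unitary770 p.1) (rotY_unitary770 p.2))
      (fun h => absurd h hnr) (hY p.1 p.2).1 (hY p.1 p.2).2 (hY 0 0).1 ha (hY 0 Real.pi).1 hj
    rw [h.1, h.2, tau_sphere899 hτ hw hY p.1 p.2, inv_one]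
  have key := mean_adj_abstract770 R.F.μ R.F.D R.F.fin nuS770 hφ.aut.cont hψ.aut.cont hCφ hCψ
    hYc (s := fun p : ℝ × ℝ => Real.sin p.2) (Real.continuous_sin.comp continuous_snd)
    (Cs := 1) (fun p => Real.abs_sin_le_one _) hpt
  unfold pair
  have e1 : (fun g => sphereMean Y φ g * conj (ψ g))
      = fun g => (∫ p, φ (g * Y p.1 p.2) * ((Real.sin p.2 : ℝ) : ℂ) ∂nuS770) * conj (ψ g) := by
    funext g
    rw [sphereMean_eq770 hYc hφ.aut.cont hCφ g]
  have e2 : (fun g => φ g * conj (sphereMean Y ψ g))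
      = fun g => φ g * conj (∫ p, ψ (g * Y p.1 p.2) * ((Real.sin p.2 : ℝ) : ℂ) ∂nuS770) := by
    funext g
    rw [sphereMean_eq770 hYc hψ.aut.cont hCψ g]
  rw [e1, e2]
  exact key

/-- **Twisted circle means are self-adjoint on the cusp functions of the class.** -/
theorem circle_adjT899 {𝔫 : Ideal (𝓞 K)} {τ : G K → ℂ} (hτ : IsKType τ) (R : FrameR K)
    (hTr : TranslInvT899 R) {w : InfinitePlace K} {t : ℝ} {k : ℝ → G K} {a : G K}
    (hk : IsRotAt w k) (ha : IsTorusAt w t a) :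
    H291.IsAdjT291 𝔫 τ R (circleMeanT τ k a) (circleMeanT τ k a) := by
  intro φ ψ hφ hψ
  have hkc : Continuous k := continuous_rot899 hk
  have hyc : Continuous fun θ : ℝ => k θ * a := hkc.mul continuous_const
  obtain ⟨Cφ, hCφ⟩ := hφ.aut.bdd
  obtain ⟨Cψ, hCψ⟩ := hψ.aut.bdd
  have hB : BorelSpace (G K) := ⟨rfl⟩
  have hfin := isFiniteMeasure_nuC770
  have hloc : ∀ θ, IsLocalAtInf w (k θ * a) := fun θ => isLocalAtInf_mul770 (hk θ).1 ha.1
  have hcomp : ∀ θ, infComp w (k θ * a) = rotY θ * torus t := fun θ => by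
    rw [infComp_mul770, (hk θ).2, ha.2]
  have hpt : ∀ θ : ℝ, (τ (k θ))⁻¹ * ∫ g in R.F.D, φ (g * (k θ * a)) * conj (ψ g) ∂(R.F.μ)
      = conj ((τ (k θ))⁻¹) * ∫ g in R.F.D, φ g * conj (ψ (g * (k θ * a))) ∂(R.F.μ) := by
    intro θ
    have hKθ := isArchCompact_rot899 hk θ
    have h0 := tau_ne_zero899 hτ hKθ
    have h := pointwiseT899 R hTr hτ hφ.aut hψ.aut (rotY_unitary770 θ)
      (fun _ => rotY_det770 θ) (hloc θ) (hcomp θ) ha.1 ha.2 (hloc Real.pi) (hcomp Real.pi)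
    rw [mul_inv_cancel_right] at h
    rw [h.1, h.2, conj_tau_inv899 hτ hKθ, ← mul_assoc, ← mul_assoc, inv_mul_cancel₀ h0,
      mul_inv_cancel₀ h0]
  have key := mean_adj_abstractC899 R.F.μ R.F.D R.F.fin nuC770 hφ.aut.cont hψ.aut.cont hCφ hCψ
    hyc (s := fun θ : ℝ => (τ (k θ))⁻¹) (continuous_tau_rot_inv899 hτ hk) (Cs := 1)
    (fun θ => le_of_eq (norm_tau_inv899 hτ (isArchCompact_rot899 hk θ))) hpt
  unfold pair
  have e1 : (fun g => circleMeanT τ k a φ g * conj (ψ g))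
      = fun g => (∫ θ, (τ (k θ))⁻¹ * φ (g * (k θ * a)) ∂nuC770) * conj (ψ g) := by
    funext g
    rw [circleMeanT_eq899 τ k a φ g]
  have e2 : (fun g => φ g * conj (circleMeanT τ k a ψ g))
      = fun g => φ g * conj (∫ θ, (τ (k θ))⁻¹ * ψ (g * (k θ * a)) ∂nuC770) := by
    funext g
    rw [circleMeanT_eq899 τ k a ψ g]
  rw [e1, e2]
  exact key

/-- **T2.27.16** `SubMeanAdjT291` from the KEY LEMMA T2.27.00 (`SubTranslT291`), VERBATIM.
(T2.07.30 is `locCont472` of helper472; the triviality of the type on the elements of the sphere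
is proved here, `tau_sphere899`; of `CtxT291` only `t1` and `kt` are used.) -/
theorem subMeanAdjT899 (hTr : H291.SubTranslT291 K) : H291.SubMeanAdjT291 K := by
  intro 𝔫 τ c R
  have hTrR : TranslInvT899 R := translInvT_of_sub899 hTr c.t1 R
  exact ⟨fun _ hw _ _ _ hY => sphere_adjT899 c.kt R hTrR hw hY,
    fun _ _ _ _ _ _ hk ha => circle_adjT899 c.kt R hTrR hk ha⟩

example (hTr : H291.SubTranslT291 K) : H291.SubMeanAdjT291 K := subMeanAdjT899 hTr

end Fermat.Agent.LT.T2.H899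

end

end
-- ===== PACK-END LT/T2/H899/MeanAdjT.lean

-- ===== PACK-BEGIN LT/T2/H437/USClosed.lean
section






/-!
# Row LT, tower T2, leaf T2.03a.2 = `H511.LeafUnifSmooth` CLOSED (registry row 1225, helper437)

    leafUnifSmooth437 K : H511.LeafUnifSmooth K        (VERBATIM, FDSpec ad79b18a)

from the top `leafUnifSmooth_of_leaves437` (helper437) and the three inputs, byte-identical copies:
* `H8.fdCalcC437_h8 : FDCalcC437`            (row 1340, helper8@8a9bafacc, sha256 f4979805),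
* `H187.levelNhdsC187 K : LevelNhdsC437 K`   (row 1341, helper187@a84f1e2f5, sha256 0b648050),
* `H793.cptC793 K : H511.CptC K`             (row 1227, helper793@72d2d22b4, sha256 9a43cd55).
-/

set_option autoImplicit false

namespace Fermat.Agent.LT.T2.H437

/-- **T2.03a.2 `UnifSmoothC`**, for every number field and every non-zero level. -/
theorem unifSmoothC437 (K : Type) [Field K] [NumberField K]
    (𝔫 : Ideal (NumberField.RingOfIntegers K)) (h𝔫 : 𝔫 ≠ ⊥) :
    Fermat.Agent.LT.T2.H511.UnifSmoothC K 𝔫 :=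
  unifSmooth_of_leaves437 Fermat.Agent.LT.T2.H8.fdCalcC437_h8
    (Fermat.Agent.LT.T2.H187.levelNhdsC187 K) (Fermat.Agent.LT.T2.H793.cptC793 K) 𝔫 h𝔫

/-- **T2.03a.2 `LeafUnifSmooth`**, VERBATIM. -/
theorem leafUnifSmooth437 (K : Type) [Field K] [NumberField K] :
    Fermat.Agent.LT.T2.H511.LeafUnifSmooth K :=
  leafUnifSmooth_of_leaves437 Fermat.Agent.LT.T2.H8.fdCalcC437_h8
    (Fermat.Agent.LT.T2.H187.levelNhdsC187 K) (Fermat.Agent.LT.T2.H793.cptC793 K)

end Fermat.Agent.LT.T2.H437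

end
-- ===== PACK-END LT/T2/H437/USClosed.lean

-- ===== PACK-BEGIN LT/T2/H511/FDAtPartial.lean
section






/-!
# Row LT, tower T2, leaf T2.03a: PARTIAL CLOSURE, PER FUNCTION

OFF-MAIN, ADDITIVE.  With rows 1224 (helper729), 1226 (helper988), 1227 (helper793) proved:
for EVERY function `f` which is left `U(𝔫)`-invariant (`𝔫 ≠ 0`),
`UnifSmoothAt511 f ⟹ FDBoundAt511 f`.  This is the form for the core classes
(`H465.IsTestCore`): the only input still open is the uniform smoothness bound for `f`.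
-/

set_option autoImplicit false

open IsDedekindDomain NumberField
open Fermat.Agent.LT.H556.A0

namespace Fermat.Agent.LT.T2.H511

open Fermat.Agent.LT.T2 Fermat.Agent.LT.T2.H386

/-- **T2.03a per function, from the uniform smoothness of `f` alone.** -/
theorem fdBoundAt_of_us511 (K : Type) [Field K] [NumberField K] (hT1 : T1.T1Out K)
    (𝔫 : Ideal (𝓞 K)) (h𝔫 : 𝔫 ≠ ⊥) (f : G K → ℂ)
    (hleft : ∀ u : G K, InLevelGroup 𝔫 u → ∀ g : G K, f (u * g) = f g)
    (hB : UnifSmoothAt511 f) : FDBoundAt511 f :=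
  fdBoundAt_of511 hT1 (Fermat.Agent.LT.T2.H729.contrC729 K 𝔫 h𝔫)
    (Fermat.Agent.LT.T2.H988.conjAlgC988 K) (Fermat.Agent.LT.T2.H793.cptC793 K) f hleft hB

end Fermat.Agent.LT.T2.H511

end
-- ===== PACK-END LT/T2/H511/FDAtPartial.lean

-- ===== PACK-BEGIN LT/T2/H878/CommConvMeanClosed.lean
section




/-!
# Row LT, tower T2, sub-leaf T2.07.21 `SubCommConvMean429` (helper878): CLOSED form

`subCommConvMean_closed878 : SubCommConvMean429 K`, unconditional: `subCommConvMean878` applied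
to T2.07.31 `subS2Rot197` (helper197) and T2.07.32 `subCartanInf555` (helper555); byte-identical
copies of their files.
-/

set_option autoImplicit false

open NumberField

namespace Fermat.Agent.LT.T2.H878

/-- **T2.07.21, closed.** -/
theorem subCommConvMean_closed878 (K : Type) [Field K] [NumberField K] :
    H429.SubCommConvMean429 K :=
  subCommConvMean878 H197.subS2Rot197 H555.subCartanInf555

end Fermat.Agent.LT.T2.H878

end
-- ===== PACK-END LT/T2/H878/CommConvMeanClosed.lean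

-- ===== PACK-BEGIN LT/T6/H385/QuatClosed.lean
section














/-!
# Row LT, tower T6, leaf T6.18i `CenQuatC783`: ASSEMBLY of the closed leaves (helper385, OFF-MAIN)

`cenQuat_closed385`: `H783.CenQuatC783` from

* the EXTERNAL leaves of tower T6 (other owners): `H288.CartanInvC`, `H60.OrbEllUnrC`,
  `H847.EllReduceC`, `H847.EllOrbC`, `H288.DiagReduceC`, `H288.OrbSumDiagC`, `H159.NormCritC`;
* the sub-leaves of T6.18i which are still OPEN: `QuatCoreRamC385` (station helper675: the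
  tame leaves are closed, `QcWildC675` is open), `QuatSettingC385` (station helper558).

Everything else is PROVED and cited here: `sphFinSuppC392`, `hypNonNormC122`, `sqrtNearC497`,
`epOrbC844`, `twReduce_of_sqrt388`, `baseOrbExC_of_propBase382`, `conjSmallC886`,
`shiftBackC355`, `propBaseC665`, `normalSmallC621`, `descAbs385` and the tops of `QuatTop.lean`, `DescTop.lean`.
-/

set_option autoImplicit false

noncomputable section

namespace Fermat.Agent.LT.T6.H385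

open Fermat.Agent.LT.T6 Fermat.Agent.LT.T6.H783

/-- `PhiEqC385` from the two open leaves. -/
theorem phiEq_closed385 (hprop : PropBaseC385) (hns : NormalSmallC385) : PhiEqC385 :=
  phiEq_of385 hprop hns H886.conjSmallC886 H355.shiftBackC355

/-- `TwDescOrbC385` from the open leaves. -/
theorem twDescOrb_closed385 (hset : QuatSettingC385) (hprop : PropBaseC385)
    (hns : NormalSmallC385) : TwDescOrbC385 :=
  twDescOrb_of385 descAbs385 hset (phiEq_closed385 hprop hns)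
    (H382.baseOrbExC_of_propBase382 hprop)

/-- `TwDescC385` from the open leaves. -/
theorem twDesc_closed385 (hset : QuatSettingC385) (hprop : PropBaseC385)
    (hns : NormalSmallC385) : TwDescC385 :=
  twDesc_of_leaves385 (H388.twReduce_of_sqrt388 H497.sqrtNearC497)
    (twDescOrb_closed385 hset hprop hns)

/-- `EllNormC385` from the open leaves. -/
theorem ellNorm_closed385 (hNC : H159.NormCritC) (hcore : QuatCoreRamC385) : EllNormC385 :=
  ellNorm_of_cases385 hNC (ellNormRam_of_core385 H497.sqrtNearC497 hcore)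

/-- **T6.18i `CenQuatC783`** from the external leaves of T6 and the TWO open sub-leaves. -/
theorem cenQuat_closed2_385 (hci : H288.CartanInvC) (hU : H60.OrbEllUnrC)
    (hR : H847.EllReduceC) (hO : H847.EllOrbC) (hD : H288.DiagReduceC)
    (hS : H288.OrbSumDiagC) (hNC : H159.NormCritC)
    (hcore : QuatCoreRamC385) (hset : QuatSettingC385) : CenQuatC783 :=
  cenQuat_of_leaves385 hci H392.sphFinSuppC392 (H844.epOrbC844 hU hR hO hD hS)
    H122.hypNonNormC122 (ellNorm_closed385 hNC hcore)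
    (twDesc_closed385 hset H665.propBaseC665 H621.normalSmallC621)

/-- **T6.18i `CenQuatC783`** from the external leaves of T6 and the open sub-leaves. -/
theorem cenQuat_closed385 (hci : H288.CartanInvC) (hU : H60.OrbEllUnrC)
    (hR : H847.EllReduceC) (hO : H847.EllOrbC) (hD : H288.DiagReduceC)
    (hS : H288.OrbSumDiagC) (hNC : H159.NormCritC)
    (hcore : QuatCoreRamC385) (hset : QuatSettingC385) (hprop : PropBaseC385)
    (hns : NormalSmallC385) : CenQuatC783 :=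
  cenQuat_of_leaves385 hci H392.sphFinSuppC392 (H844.epOrbC844 hU hR hO hD hS)
    H122.hypNonNormC122 (ellNorm_closed385 hNC hcore) (twDesc_closed385 hset hprop hns)

end Fermat.Agent.LT.T6.H385

end

end
-- ===== PACK-END LT/T6/H385/QuatClosed.lean

-- ===== PACK-BEGIN LT/T6/H842/EllFinalR.lean
section







/-!
# Row LT, tower T6, leaf T6.20e.2d: `H634.EllRealC634` PROVED (helper842)

OFF-MAIN.  `ellRealC634_842 : H634.EllRealC634`, VERBATIM and UNCONDITIONAL: the elliptic orbital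
integral of `f₀ + f₁` on `GL₂(ℝ)` at any `γ` with `disc γ < 0`, for every Haar measure `μ`,
every Haar measure `μT` of the centraliser and every cut-off `β`,

`∫ (f₀ + f₁)(x⁻¹ γ x) β(x) dμ(x)
  = (4π c_I / λ) (ellDown g₀ θ + √2 cos θ · ellDown G₁ θ)`.

Route: `exists_conj842` (conjugation to `z_u k_θ`), left invariance of `μ`, `torusHaar842`
(`μT = λ · dv dα`), `polarRC842` (polar decomposition with the constant `c_I`), `ellReal842`
(unfolding), `H623.profile_test623` (profiles, helper623).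
-/

set_option autoImplicit false

open scoped Matrix
open MeasureTheory

noncomputable section

namespace Fermat.Agent.LT.T6.H842

open Fermat.Agent.LT.T6.H189 Fermat.Agent.LT.T6.H634 Fermat.Agent.LT.T6.H781

/-! ## 1. Integrals over the torus in coordinates -/

theorem integral_smul_map842 {T : Type*} [TopologicalSpace T] [MeasurableSpace T] [BorelSpace T]
    (ι : ℝ × ℝ → T) (hι : Continuous ι) (m : ℝ) (hm : 0 ≤ m) (G : T → ℝ) (hG : Continuous G) :
    ∫ t, G t ∂(ENNReal.ofReal m • Measure.map ι torMeas) = m * ∫ p, G (ι p) ∂torMeas := by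
  rw [integral_smul_measure, ENNReal.toReal_ofReal hm,
    integral_map hι.measurable.aemeasurable hG.aestronglyMeasurable, smul_eq_mul]

/-! ## 2. The phases -/

theorem det_ellY_pos842 (u θ τ : ℝ) :
    0 < ((ellY u θ τ : GL (Fin 2) ℝ) : Matrix (Fin 2) (Fin 2) ℝ).det := by
  rw [det_ellY842]; positivity

/-- `‖holPart (Y(u,θ,τ))‖ = e^u √((ρ + 1)/2)`, `ρ = 1 + 2 sin²θ sinh²τ`. -/
theorem norm_holPart_ellY842 (u θ τ : ℝ) :
    ‖holPart (ellY u θ τ)‖
      = Real.exp u * Real.sqrt ((1 + 2 * Real.sin θ ^ 2 * Real.sinh τ ^ 2 + 1) / 2) := by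
  rw [holPart_ellY842, norm_mul, Complex.norm_real, Real.norm_of_nonneg (Real.exp_pos u).le]
  congr 1
  rw [mul_comm Complex.I, Complex.norm_add_mul_I]
  congr 1
  have hc := Real.cosh_sq τ
  have hs := Real.sin_sq_add_cos_sq θ
  nlinarith [hc, hs]

theorem holPart_ellY_ne_zero842 (u θ τ : ℝ) : holPart (ellY u θ τ) ≠ 0 := by
  rw [← norm_pos_iff, norm_holPart_ellY842]
  have : 0 < (1 + 2 * Real.sin θ ^ 2 * Real.sinh τ ^ 2 + 1) / 2 := by positivity
  exact mul_pos (Real.exp_pos u) (Real.sqrt_pos.mpr this)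

/-- The sum of the two phases: for `n = ±1`,
`wtPhase (-n) (Y(u,θ,τ)) + wtPhase (-n) (Y(u,-θ,τ)) = 2 cos θ / √((ρ + 1)/2)`. -/
theorem wtPhase_sum842 (n : ℤ) (hn : n = 1 ∨ n = -1) (u θ τ : ℝ) :
    wtPhase (-n) (ellY u θ τ) + wtPhase (-n) (ellY u (-θ) τ)
      = ((2 * Real.cos θ /
          Real.sqrt ((1 + 2 * Real.sin θ ^ 2 * Real.sinh τ ^ 2 + 1) / 2) : ℝ) : ℂ) := by
  set N : ℝ := Real.sqrt ((1 + 2 * Real.sin θ ^ 2 * Real.sinh τ ^ 2 + 1) / 2) with hN
  have hNpos : 0 < N := Real.sqrt_pos.mpr (by positivity)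
  have hNsq : N ^ 2 = (1 + 2 * Real.sin θ ^ 2 * Real.sinh τ ^ 2 + 1) / 2 :=
    Real.sq_sqrt (by positivity)
  have he : (0 : ℝ) < Real.exp u := Real.exp_pos u
  have hn1 : ‖holPart (ellY u θ τ)‖ = Real.exp u * N := norm_holPart_ellY842 u θ τ
  have hn2 : ‖holPart (ellY u (-θ) τ)‖ = Real.exp u * N := by
    rw [norm_holPart_ellY842, Real.sin_neg, neg_sq]
  have hA1 := holPart_ellY842 u θ τ
  have hA2 := holPart_ellY842 u (-θ) τ
  rw [Real.cos_neg, Real.sin_neg] at hA2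
  set c : ℂ := (Real.cos θ : ℂ) with hc
  set s : ℂ := ((Real.cosh τ * Real.sin θ : ℝ) : ℂ) with hs
  have hs' : ((Real.cosh τ * -Real.sin θ : ℝ) : ℂ) = -s := by rw [hs]; push_cast; ring
  rw [hs'] at hA2
  have hcs : c ^ 2 + s ^ 2 = ((N ^ 2 : ℝ) : ℂ) := by
    rw [hNsq, hc, hs]
    have h1 := Real.cosh_sq τ
    have h2 := Real.sin_sq_add_cos_sq θ
    have : Real.cos θ ^ 2 + (Real.cosh τ * Real.sin θ) ^ 2
        = (1 + 2 * Real.sin θ ^ 2 * Real.sinh τ ^ 2 + 1) / 2 := by nlinarith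
    exact_mod_cast this
  have hE : (Real.exp u : ℂ) ≠ 0 := by exact_mod_cast he.ne'
  have hNc : ((N : ℝ) : ℂ) ≠ 0 := by exact_mod_cast hNpos.ne'
  have hp : c + Complex.I * s ≠ 0 := by
    intro h0
    apply holPart_ellY_ne_zero842 u θ τ
    rw [hA1, h0, mul_zero]
  have hq : c + Complex.I * -s ≠ 0 := by
    intro h0
    apply holPart_ellY_ne_zero842 u (-θ) τ
    rw [holPart_ellY842, Real.cos_neg, Real.sin_neg, hs', ← hc, h0, mul_zero]
  have hprod : (c + Complex.I * s) * (c + Complex.I * -s) = ((N ^ 2 : ℝ) : ℂ) := by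
    rw [← hcs]
    linear_combination (-(s ^ 2)) * Complex.I_sq
  have hR : ((2 * Real.cos θ / N : ℝ) : ℂ) = 2 * c / (N : ℂ) := by
    rw [hc]; simp only [Complex.ofReal_mul, Complex.ofReal_div, Complex.ofReal_ofNat]
  have hEN : ((Real.exp u * N : ℝ) : ℂ) = (Real.exp u : ℂ) * (N : ℂ) := by
    simp only [Complex.ofReal_mul]
  have hN2 : ((N ^ 2 : ℝ) : ℂ) = (N : ℂ) ^ 2 := by simp only [Complex.ofReal_pow]
  rw [hN2] at hprod
  have h1 : (Real.exp u : ℂ) * (c + Complex.I * s) / ((Real.exp u : ℂ) * (N : ℂ))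
      = (c + Complex.I * s) / (N : ℂ) := by
    field_simp
  have h2 : (Real.exp u : ℂ) * (c + Complex.I * -s) / ((Real.exp u : ℂ) * (N : ℂ))
      = (c + Complex.I * -s) / (N : ℂ) := by
    field_simp
  unfold wtPhase
  rw [hn1, hn2, hA1, hA2, hR, hEN, h1, h2]
  rcases hn with rfl | rfl
  · -- n = 1
    rw [zpow_neg_one, zpow_neg_one, inv_div, inv_div]
    have e1 : (N : ℂ) / (c + Complex.I * s) = (c + Complex.I * -s) / (N : ℂ) := by
      rw [div_eq_div_iff hp hNc]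
      linear_combination -hprod
    have e2 : (N : ℂ) / (c + Complex.I * -s) = (c + Complex.I * s) / (N : ℂ) := by
      rw [div_eq_div_iff hq hNc]
      linear_combination -hprod
    rw [e1, e2]
    field_simp
    ring
  · -- n = -1
    rw [neg_neg, zpow_one, zpow_one]
    field_simp
    ring

/-! ## 3. The values on the conjugacy class -/

/-- Weight `0`: `f₀ (Y(u,θ,τ)) = g₀(ρ)`. -/
theorem f0_ellY842 (f₀ : GL (Fin 2) ℝ → ℂ) (h₀ : IsArchTestR 0 f₀) (u θ τ : ℝ) :
    f₀ (ellY u θ τ)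
      = prof0_634 f₀ (Real.exp u ^ 2) (1 + 2 * Real.sin θ ^ 2 * Real.sinh τ ^ 2) := by
  have h := Fermat.Agent.LT.T6.H623.profile_test623 cartanRC189 0 f₀ h₀ (ellY u θ τ)
    (det_ellY_pos842 u θ τ)
  rw [h, det_ellY842, rhoR_ellY842]
  unfold wtPhase
  rw [neg_zero, zpow_zero, one_mul]

/-- Weight `±1`: `f₁ (Y(u,θ,τ)) + f₁ (Y(u,-θ,τ)) = 2 √2 cos θ · G₁(ρ)`. -/
theorem f1_ellY842 (n : ℤ) (hn : n = 1 ∨ n = -1) (f₁ : GL (Fin 2) ℝ → ℂ)
    (h₁ : IsArchTestR n f₁) (u θ τ : ℝ) :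
    f₁ (ellY u θ τ) + f₁ (ellY u (-θ) τ)
      = ((2 * (Real.sqrt 2 * Real.cos θ) : ℝ) : ℂ) *
          prof1_634 f₁ (Real.exp u ^ 2) (1 + 2 * Real.sin θ ^ 2 * Real.sinh τ ^ 2) := by
  have ha := Fermat.Agent.LT.T6.H623.profile_test623 cartanRC189 n f₁ h₁ (ellY u θ τ)
    (det_ellY_pos842 u θ τ)
  have hb := Fermat.Agent.LT.T6.H623.profile_test623 cartanRC189 n f₁ h₁ (ellY u (-θ) τ)
    (det_ellY_pos842 u (-θ) τ)
  rw [det_ellY842, rhoR_ellY842] at ha hb
  rw [Real.sin_neg, neg_sq] at hb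
  rw [ha, hb, ← add_mul, wtPhase_sum842 n hn u θ τ]
  set ρ : ℝ := 1 + 2 * Real.sin θ ^ 2 * Real.sinh τ ^ 2 with hρ
  have hρ1 : 0 < ρ + 1 := by positivity
  have hs2 : (0 : ℝ) < Real.sqrt 2 := Real.sqrt_pos.mpr (by norm_num)
  have hsr : 0 < Real.sqrt (ρ + 1) := Real.sqrt_pos.mpr hρ1
  have hsq : Real.sqrt ((ρ + 1) / 2) = Real.sqrt (ρ + 1) / Real.sqrt 2 :=
    Real.sqrt_div hρ1.le 2
  have hreal : 2 * Real.cos θ / Real.sqrt ((ρ + 1) / 2)
      = 2 * (Real.sqrt 2 * Real.cos θ) / Real.sqrt (ρ + 1) := by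
    rw [hsq]
    field_simp
  rw [hreal]
  unfold prof1_634
  have hne : ((Real.sqrt (ρ + 1) : ℝ) : ℂ) ≠ 0 := by exact_mod_cast hsr.ne'
  rw [Complex.ofReal_div]
  field_simp

/-! ## 4. The one-dimensional integral -/

theorem integrable_pair842 (f : GL (Fin 2) ℝ → ℂ) (hf : Continuous f) (hfs : HasCompactSupport f)
    (u θ : ℝ) (hθ : Real.sin θ ≠ 0) :
    Integrable (fun τ : ℝ => (f (ellY u θ τ) + f (ellY u (-θ) τ)) * ((Real.sinh τ : ℝ) : ℂ))
      ((volume : Measure ℝ).restrict (Set.Ioi 0)) := by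
  have hθ' : Real.sin (-θ) ≠ 0 := by rw [Real.sin_neg]; exact neg_ne_zero.mpr hθ
  have h1 : HasCompactSupport fun τ : ℝ => f (ellY u θ τ) + f (ellY u (-θ) τ) :=
    (hasCompactSupport_ellY842 f hfs u θ hθ).add (hasCompactSupport_ellY842 f hfs u (-θ) hθ')
  have hc : Continuous fun τ : ℝ =>
      (f (ellY u θ τ) + f (ellY u (-θ) τ)) * ((Real.sinh τ : ℝ) : ℂ) :=
    ((hf.comp (continuous_ellY842 u θ)).add (hf.comp (continuous_ellY842 u (-θ)))).mul
      (Complex.continuous_ofReal.comp Real.continuous_sinh)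
  exact (hc.integrable_of_hasCompactSupport h1.mul_right).restrict

/-- `∫_{τ>0} ((f₀+f₁)(Y(θ)) + (f₀+f₁)(Y(-θ))) sinh τ dτ
  = 2 (ellDown g₀ θ + √2 cos θ · ellDown G₁ θ)`. -/
theorem ellIntR_sum842 (n : ℤ) (hn : n = 1 ∨ n = -1) (f₀ f₁ : GL (Fin 2) ℝ → ℂ)
    (h₀ : IsArchTestR 0 f₀) (h₁ : IsArchTestR n f₁) (u θ : ℝ) (hθ : Real.sin θ ≠ 0) :
    ellIntR (fun g => f₀ g + f₁ g) u θ
      = 2 * (ellDown (prof0_634 f₀ (Real.exp u ^ 2)) θ
          + ((Real.sqrt 2 * Real.cos θ : ℝ) : ℂ) *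
              ellDown (prof1_634 f₁ (Real.exp u ^ 2)) θ) := by
  have hA : ∀ τ : ℝ, (f₀ (ellY u θ τ) + f₀ (ellY u (-θ) τ)) * ((Real.sinh τ : ℝ) : ℂ)
      = 2 * (prof0_634 f₀ (Real.exp u ^ 2) (1 + 2 * Real.sin θ ^ 2 * Real.sinh τ ^ 2) *
          ((Real.sinh τ : ℝ) : ℂ)) := by
    intro τ
    have e1 := f0_ellY842 f₀ h₀ u θ τ
    have e2 := f0_ellY842 f₀ h₀ u (-θ) τ
    rw [Real.sin_neg, neg_sq] at e2
    rw [e1, e2]; ring
  have hB : ∀ τ : ℝ, (f₁ (ellY u θ τ) + f₁ (ellY u (-θ) τ)) * ((Real.sinh τ : ℝ) : ℂ)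
      = ((2 * (Real.sqrt 2 * Real.cos θ) : ℝ) : ℂ) *
        (prof1_634 f₁ (Real.exp u ^ 2) (1 + 2 * Real.sin θ ^ 2 * Real.sinh τ ^ 2) *
          ((Real.sinh τ : ℝ) : ℂ)) := by
    intro τ
    rw [f1_ellY842 n hn f₁ h₁ u θ τ]; ring
  have hAi := integrable_pair842 f₀ h₀.cont h₀.supp u θ hθ
  have hBi := integrable_pair842 f₁ h₁.cont h₁.supp u θ hθ
  unfold ellIntR ellDown
  have hsplit : (fun τ : ℝ => (f₀ (ellY u θ τ) + f₁ (ellY u θ τ) +
        (f₀ (ellY u (-θ) τ) + f₁ (ellY u (-θ) τ))) * ((Real.sinh τ : ℝ) : ℂ))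
      = fun τ : ℝ => (f₀ (ellY u θ τ) + f₀ (ellY u (-θ) τ)) * ((Real.sinh τ : ℝ) : ℂ)
          + (f₁ (ellY u θ τ) + f₁ (ellY u (-θ) τ)) * ((Real.sinh τ : ℝ) : ℂ) := by
    funext τ; ring
  rw [hsplit, integral_add hAi hBi]
  simp_rw [hA, hB]
  rw [integral_const_mul, integral_const_mul]
  push_cast
  ring

/-! ## 5. The cut-off functions -/

/-- Transport of the cut-off property from the centraliser of `γ = h (z_u k_θ) h⁻¹` to the
centraliser of `z_u k_θ`. -/
theorem cutoff_transport842 (h : GL (Fin 2) ℝ) (u θ : ℝ) (γ : GL (Fin 2) ℝ)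
    (hγ : γ = h * zk u θ * h⁻¹) (lam : ℝ) (hlam : 0 ≤ lam)
    (μT : @Measure (twCentSub (MonoidHom.id (GL (Fin 2) ℝ)) γ) (borel _))
    (hμT : μT = ENNReal.ofReal lam •
      @Measure.map _ _ _ (borel _) (torIotaH h u θ γ hγ) torMeas)
    (β : GL (Fin 2) ℝ → ℝ) (hβ : Continuous β) (x : GL (Fin 2) ℝ) :
    @integral _ _ _ _ (borel _)
        (ENNReal.ofReal lam • @Measure.map _ _ _ (borel _) (torIota u θ) torMeas)
        (fun t : twCentSub (MonoidHom.id (GL (Fin 2) ℝ)) (zk u θ) =>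
          β (h * ((t : GL (Fin 2) ℝ) * x)))
      = @integral _ _ _ _ (borel _) μT
          (fun t : twCentSub (MonoidHom.id (GL (Fin 2) ℝ)) γ => β ((t : GL (Fin 2) ℝ) * (h * x)))
      := by
  subst hμT
  let _ : MeasurableSpace (twCentSub (MonoidHom.id (GL (Fin 2) ℝ)) γ) := borel _
  have : BorelSpace (twCentSub (MonoidHom.id (GL (Fin 2) ℝ)) γ) := ⟨rfl⟩
  let _ : MeasurableSpace (twCentSub (MonoidHom.id (GL (Fin 2) ℝ)) (zk u θ)) := borel _
  have : BorelSpace (twCentSub (MonoidHom.id (GL (Fin 2) ℝ)) (zk u θ)) := ⟨rfl⟩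
  have hι₀ : Continuous (torIota u θ) := by
    unfold torIota
    exact Continuous.subtype_mk continuous_zk842 _
  have e1 := integral_smul_map842 (torIota u θ) hι₀ lam hlam
    (fun t : twCentSub (MonoidHom.id (GL (Fin 2) ℝ)) (zk u θ) =>
      β (h * ((t : GL (Fin 2) ℝ) * x)))
    (hβ.comp (continuous_const.mul (continuous_subtype_val.mul continuous_const)))
  have e2 := integral_smul_map842 (torIotaH h u θ γ hγ) (continuous_torIotaH842 h u θ γ hγ)
    lam hlam
    (fun t : twCentSub (MonoidHom.id (GL (Fin 2) ℝ)) γ => β ((t : GL (Fin 2) ℝ) * (h * x)))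
    (hβ.comp (continuous_subtype_val.mul continuous_const))
  rw [e1, e2]
  congr 1
  refine integral_congr_ae (Filter.Eventually.of_forall fun p => ?_)
  change β (h * (zk p.1 p.2 * x)) = β (h * zk p.1 p.2 * h⁻¹ * (h * x))
  congr 1
  group

/-! ## 6. The theorem -/

/-- A test function of weight `n` is invariant under conjugation by `SO(2)`. -/
theorem conj_inv_test842 (n : ℤ) (f : GL (Fin 2) ℝ → ℂ) (hf : IsArchTestR n f)
    (k g : GL (Fin 2) ℝ) (hk : InSO2 k) : f (k⁻¹ * g * k) = f g := by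
  have h1 := hf.right k (k⁻¹ * g) hk
  have h2 := hf.left k (k⁻¹ * g) hk
  rw [mul_inv_cancel_left] at h2
  rw [h1, h2]

/-- **T6.20e.2d = `H634.EllRealC634`, PROVED (final form of T6.27, real side).** -/
theorem ellRealC634_842 : EllRealC634 := by
  intro μ hμ n hn f₀ f₁ h₀ h₁ γ hdisc μT hμT β hβc hβ0 hβ1
  let _ : MeasurableSpace (GL (Fin 2) ℝ) := borel _
  have : BorelSpace (GL (Fin 2) ℝ) := ⟨rfl⟩
  have : Measure.IsHaarMeasure μ := hμ
  obtain ⟨h, hγ⟩ := exists_conj842 γ hdisc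
  have hθ : Real.sin (thetaOf634 γ) ≠ 0 := sin_thetaOf_ne_zero634 γ hdisc
  obtain ⟨-, -, -, hD⟩ := ell_data842 γ hdisc
  obtain ⟨hlam, hμTeq⟩ := torusHaar842 h _ _ hθ γ hγ μT hμT
  obtain ⟨hc, hpol⟩ := polarRC842 μ hμ
  have hnorm : IsTorNorm (Real.log (γ : Matrix (Fin 2) (Fin 2) ℝ).det / 2) (thetaOf634 γ)
      (ENNReal.ofReal (lamT634 γ μT) • @Measure.map _ _ _ (borel _)
        (torIota (Real.log (γ : Matrix (Fin 2) (Fin 2) ℝ).det / 2) (thetaOf634 γ)) torMeas)
      (lamT634 γ μT) := ⟨hlam, rfl⟩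
  have hcut : IsCutoff (zk (Real.log (γ : Matrix (Fin 2) (Fin 2) ℝ).det / 2) (thetaOf634 γ))
      (ENNReal.ofReal (lamT634 γ μT) • @Measure.map _ _ _ (borel _)
        (torIota (Real.log (γ : Matrix (Fin 2) (Fin 2) ℝ).det / 2) (thetaOf634 γ)) torMeas)
      (MonoidHom.id _) (fun y => β (h * y)) := by
    refine ⟨hβc.comp (continuous_const.mul continuous_id), fun x => hβ0 _, fun x => ?_⟩
    have := cutoff_transport842 h _ _ γ hγ (lamT634 γ μT) hlam.le μT hμTeq β hβc x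
    rw [← hβ1 (h * x), ← this]
    rfl
  obtain ⟨-, hval⟩ := ellReal842 μ (cR634 μ) hpol _ _ hθ _ _ hnorm (fun g => f₀ g + f₁ g)
    (h₀.cont.add h₁.cont) (h₀.supp.add h₁.supp)
    (fun k g hk => by
      rw [conj_inv_test842 0 f₀ h₀ k g hk, conj_inv_test842 n f₁ h₁ k g hk])
    (fun y => β (h * y)) hcut
  have htrans : ∫ x, (f₀ (x⁻¹ * γ * x) + f₁ (x⁻¹ * γ * x)) * (β x : ℂ) ∂μ
      = ∫ y, (fun g => f₀ g + f₁ g)
            (y⁻¹ * zk (Real.log (γ : Matrix (Fin 2) (Fin 2) ℝ).det / 2) (thetaOf634 γ) * y) *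
          ((β (h * y) : ℝ) : ℂ) ∂μ := by
    have e := integral_mul_left_eq_self (μ := μ)
      (fun x : GL (Fin 2) ℝ => (f₀ (x⁻¹ * γ * x) + f₁ (x⁻¹ * γ * x)) * (β x : ℂ)) h
    rw [← e]
    refine integral_congr_ae (Filter.Eventually.of_forall fun y => ?_)
    have hy : (h * y)⁻¹ * γ * (h * y)
        = y⁻¹ * zk (Real.log (γ : Matrix (Fin 2) (Fin 2) ℝ).det / 2) (thetaOf634 γ) * y := by
      conv_lhs => rw [hγ]
      group
    change (f₀ ((h * y)⁻¹ * γ * (h * y)) + f₁ ((h * y)⁻¹ * γ * (h * y))) * (β (h * y) : ℂ) = _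
    rw [hy]
  change ∫ x, (f₀ (x⁻¹ * γ * x) + f₁ (x⁻¹ * γ * x)) * (β x : ℂ) ∂μ = _
  rw [htrans, hval, ellIntR_sum842 n hn f₀ f₁ h₀ h₁ _ _ hθ, hD]
  have hl : ((lamT634 γ μT : ℝ) : ℂ) ≠ 0 := by exact_mod_cast hlam.ne'
  push_cast
  field_simp
  ring

end Fermat.Agent.LT.T6.H842

end

end
-- ===== PACK-END LT/T6/H842/EllFinalR.lean

-- ===== PACK-BEGIN LT/T6/H855/HypCplx.lean
section



/-!
# Row LT, tower T6, T6.25 `ArchHyp` (helper855): THE COMPLEX SIDE

OFF-MAIN.  `cplx_side855`: from the Iwasawa integration formula of `GL₂(ℂ)`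
(`H189.IwasawaCC`, as a hypothesis on `μ'`): for `F` continuous, left invariant under the
positive diagonal matrices and right invariant under `U(2)`, and a cut-off function `B ≥ 0` with
`∫ B(diag(e^{u₁}, e^{u₂}) y) du = r`:  `∫ F B dμ' = c' · r ∫_ℂ F(n(w)) dw`.
-/

set_option autoImplicit false

open scoped Matrix ENNReal
open MeasureTheory

noncomputable section

namespace Fermat.Agent.LT.T6.H855

open Fermat.Agent.LT.T6

section Cplx

local instance borelGLC855 : MeasurableSpace (GL (Fin 2) ℂ) := borel _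
local instance borelSpaceGLC855 : BorelSpace (GL (Fin 2) ℂ) := ⟨rfl⟩
local instance secondCountableGLC855 : SecondCountableTopology (GL (Fin 2) ℂ) := scGL855 ℂ

/-- The Iwasawa parametrisation with the variables grouped as `(u, (w, k))`. -/
def iwaGC855 (z : (ℝ × ℝ) × (ℂ × GL (Fin 2) ℂ)) : GL (Fin 2) ℂ :=
  H189.dgC z.1.1 z.1.2 * H189.unC z.2.1 * z.2.2

theorem continuous_dgC855 : Continuous (fun u : ℝ × ℝ => H189.dgC u.1 u.2) := by
  simp_rw [dgC_eq855]
  exact continuous_iota855.comp continuous_dgR855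

theorem continuous_iwaGC855 : Continuous iwaGC855 := by
  unfold iwaGC855
  refine Continuous.mul (Continuous.mul ?_ ?_) ?_
  · exact continuous_dgC855.comp continuous_fst
  · have : (fun z : (ℝ × ℝ) × (ℂ × GL (Fin 2) ℂ) => H189.unC z.2.1)
        = (nU855 : ℂ → GL (Fin 2) ℂ) ∘ (fun z : (ℝ × ℝ) × (ℂ × GL (Fin 2) ℂ) => z.2.1) := by
      funext z; exact unC_eq855 _
    rw [this]
    exact continuous_nU855.comp (continuous_fst.comp continuous_snd)
  · exact continuous_snd.comp continuous_snd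

theorem isU2Haar_finite855 {κ : Measure (GL (Fin 2) ℂ)} (hκ : H189.IsU2Haar κ) :
    IsFiniteMeasure κ :=
  ⟨by rw [hκ.prob]; exact ENNReal.one_lt_top⟩

theorem isU2Haar_ae855 {κ : Measure (GL (Fin 2) ℂ)} (hκ : H189.IsU2Haar κ) :
    ∀ᵐ k ∂κ, InU2 k := by
  have h := hκ.supp
  rw [← mem_ae_iff] at h
  exact h

theorem map_iwaC_eq855 (κ : Measure (GL (Fin 2) ℂ)) [IsFiniteMeasure κ] :
    Measure.map H189.iwaC (H189.iwaMC κ)
      = Measure.map iwaGC855 ((volume : Measure (ℝ × ℝ)).prod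
          ((volume : Measure ℂ).prod κ)) := by
  have h1 : H189.iwaMC κ = Measure.map (MeasurableEquiv.prodAssoc)
      (((volume : Measure ℝ).prod (volume : Measure ℝ)).prod
        ((volume : Measure ℂ).prod κ)) := by
    rw [Measure.prodAssoc_prod]
    rfl
  rw [h1, Measure.map_map]
  · rfl
  · have : Continuous H189.iwaC := by
      have : H189.iwaC = iwaGC855 ∘
          (MeasurableEquiv.prodAssoc (α := ℝ) (β := ℝ) (γ := ℂ × GL (Fin 2) ℂ)).symm := by
        funext p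
        rfl
      rw [this]
      exact continuous_iwaGC855.comp (by
        change Continuous (fun p : ℝ × ℝ × ℂ × GL (Fin 2) ℂ => ((p.1, p.2.1), p.2.2))
        fun_prop)
    exact this.measurable
  · exact MeasurableEquiv.measurable _

/-- **The complex side.** -/
theorem cplx_side855 (μ' : Measure (GL (Fin 2) ℂ)) (c' : ℝ≥0∞) (hc' : c' ≠ ⊤)
    (κ : Measure (GL (Fin 2) ℂ)) (hκ : H189.IsU2Haar κ)
    (hμ' : μ' = c' • Measure.map H189.iwaC (H189.iwaMC κ))
    (F : GL (Fin 2) ℂ → ℂ) (hF : Continuous F)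
    (hFd : ∀ (u₁ u₂ : ℝ) (x : GL (Fin 2) ℂ), F (H189.dgC u₁ u₂ * x) = F x)
    (hFk : ∀ k x : GL (Fin 2) ℂ, InU2 k → F (x * k) = F x)
    (hFi : Integrable (fun w : ℂ => F (nU855 w)))
    (B : GL (Fin 2) ℂ → ℝ) (hB : Continuous B) (hB0 : ∀ x, 0 ≤ B x)
    (r : ℝ) (hBi : ∀ y : GL (Fin 2) ℂ, Integrable (fun u : ℝ × ℝ => B (H189.dgC u.1 u.2 * y)))
    (hBr : ∀ y : GL (Fin 2) ℂ, ∫ u : ℝ × ℝ, B (H189.dgC u.1 u.2 * y) = r) :
    Integrable (fun x => F x * (B x : ℂ)) μ' ∧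
      ∫ x, F x * (B x : ℂ) ∂μ' = ((c'.toReal * r : ℝ) : ℂ) * ∫ w : ℂ, F (nU855 w) := by
  have hfin := isU2Haar_finite855 hκ
  set H : GL (Fin 2) ℂ → ℂ := fun x => F x * (B x : ℂ) with hH
  have hHc : Continuous H := hF.mul (Complex.continuous_ofReal.comp hB)
  have hHG : ∀ z : (ℝ × ℝ) × (ℂ × GL (Fin 2) ℂ),
      H (iwaGC855 z) = F (nU855 z.2.1 * z.2.2) * (B (iwaGC855 z) : ℂ) := by
    intro z
    simp only [hH]
    congr 1
    unfold iwaGC855
    rw [mul_assoc, hFd, unC_eq855]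
  -- the function `h`
  have hae : ∀ᵐ y ∂((volume : Measure ℂ).prod κ),
      F (nU855 y.1 * y.2) = F (nU855 y.1) * 1 := by
    have h1 : ∀ᵐ y ∂((volume : Measure ℂ).prod κ), InU2 y.2 :=
      Measure.quasiMeasurePreserving_snd.ae (isU2Haar_ae855 hκ)
    filter_upwards [h1] with y hy
    rw [hFk _ _ hy, mul_one]
  have hh0 : Integrable (fun y : ℂ × GL (Fin 2) ℂ => F (nU855 y.1) * 1)
      ((volume : Measure ℂ).prod κ) :=
    hFi.mul_prod (integrable_const (1 : ℂ) (μ := κ))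
  have hh : Integrable (fun y : ℂ × GL (Fin 2) ℂ => F (nU855 y.1 * y.2))
      ((volume : Measure ℂ).prod κ) := by
    refine hh0.congr ?_
    filter_upwards [hae] with y hy
    exact hy.symm
  have hhval : ∫ y : ℂ × GL (Fin 2) ℂ, F (nU855 y.1 * y.2) ∂((volume : Measure ℂ).prod κ)
      = ∫ w : ℂ, F (nU855 w) := by
    rw [integral_congr_ae hae]
    have := integral_prod_mul (μ := (volume : Measure ℂ)) (ν := κ)
      (fun w : ℂ => F (nU855 w)) (fun _ : GL (Fin 2) ℂ => (1 : ℂ))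
    rw [this, integral_const, Measure.real, hκ.prob]
    simp
  obtain ⟨hI, hval⟩ := fiber_cutoff855 (volume : Measure (ℝ × ℝ))
    ((volume : Measure ℂ).prod κ) iwaGC855 continuous_iwaGC855.measurable
    (fun y : ℂ × GL (Fin 2) ℂ => F (nU855 y.1 * y.2)) hh B hB.measurable hB0 r
    (fun y => by
      have := hBi (H189.unC y.1 * y.2)
      simpa [iwaGC855, mul_assoc] using this)
    (fun y => by
      have := hBr (H189.unC y.1 * y.2)
      simpa [iwaGC855, mul_assoc] using this)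
  rw [hμ', map_iwaC_eq855]
  have hmI : Integrable H (Measure.map iwaGC855 ((volume : Measure (ℝ × ℝ)).prod
        ((volume : Measure ℂ).prod κ))) := by
    rw [integrable_map_measure hHc.aestronglyMeasurable
      continuous_iwaGC855.measurable.aemeasurable]
    refine hI.congr (Filter.Eventually.of_forall (fun z => ?_))
    exact (hHG z).symm
  refine ⟨hmI.smul_measure hc', ?_⟩
  rw [integral_smul_measure, integral_map continuous_iwaGC855.measurable.aemeasurable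
    hHc.aestronglyMeasurable]
  simp_rw [hHG]
  rw [hval, hhval]
  simp only [Complex.real_smul]
  push_cast
  ring

end Cplx

end Fermat.Agent.LT.T6.H855

end

end
-- ===== PACK-END LT/T6/H855/HypCplx.lean

-- ===== PACK-BEGIN LT/T7/H16/RegAlgebra.lean
section



/-!
# Row LT, tower T7, asset T7.L2.R (helper16): the algebra of the regular parameters

OFF-MAIN.  Complex numbers only.  From the four relations between the matrix coefficients
`N = ⟨ψ, ψ⟩ > 0`, `β = ⟨ψ, R(ω) ψ⟩`, `c₁ = ⟨R(s') ψ, ψ⟩` of a joint eigenfunction `ψ`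
(`𝒰 ψ = λ ψ`, `Z ψ = b ψ`, `𝒰 = q^{-1/2} [I t I]`):

    q |λ|² N = q N + q (q - 1) c₁      (`𝒰* 𝒰 = 1 + (q - 1) q⁻¹ [I s' I]`)
    √q λ β = q c₁                       (`[I t I] = R(ω) [I s' I]` up to the order)
    β = conj b · conj β                 (`R(ω)² = Z`, `R(ω)` unitary)
    |b| = 1, |β| ≤ N

the parameter `(b, λ)` satisfies `T7.IsRegParam √q b λ`.
-/

set_option autoImplicit false

open scoped ComplexConjugate

noncomputable section

namespace Fermat.Agent.LT.T7.H16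

open Fermat.Agent.LT.T7

theorem regParam_algebra16 {q : ℕ} (hq : 2 ≤ q) {N : ℝ} (hN : 0 < N) {lam β c₁ b : ℂ}
    (h1 : (((Real.sqrt q : ℝ) : ℂ) * lam) * conj (((Real.sqrt q : ℝ) : ℂ) * lam) * (N : ℂ)
      = (q : ℂ) * (N : ℂ) + (q : ℂ) * ((q : ℂ) - 1) * c₁)
    (h2 : (((Real.sqrt q : ℝ) : ℂ) * lam) * β = (q : ℂ) * c₁)
    (h3 : β = conj b * conj β) (h4 : ‖b‖ = 1) (h5 : ‖β‖ ≤ N) :
    IsRegParam (Real.sqrt q) b lam := by
  have hqR : (2 : ℝ) ≤ (q : ℝ) := by exact_mod_cast hq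
  have hq0 : (0 : ℝ) < (q : ℝ) := by linarith
  set s : ℝ := Real.sqrt q with hs
  have hspos : 0 < s := Real.sqrt_pos.2 hq0
  have hss : s * s = (q : ℝ) := Real.mul_self_sqrt hq0.le
  have hssC : (s : ℂ) * (s : ℂ) = (q : ℂ) := by
    rw [← Complex.ofReal_mul, hss]
    simp
  have hsC0 : (s : ℂ) ≠ 0 := Complex.ofReal_ne_zero.2 hspos.ne'
  have hqC0 : (q : ℂ) ≠ 0 := by
    have : (q : ℂ) = ((q : ℝ) : ℂ) := by simp
    rw [this]
    exact Complex.ofReal_ne_zero.2 hq0.ne'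
  set L : ℝ := ‖lam‖ with hL
  have hL0 : 0 ≤ L := norm_nonneg _
  have hlamconj : lam * conj lam = ((L ^ 2 : ℝ) : ℂ) := by
    rw [Complex.mul_conj']
    push_cast
    rfl
  -- reduced relations
  have e1 : ((L ^ 2 : ℝ) : ℂ) * (N : ℂ) = (N : ℂ) + ((q : ℂ) - 1) * c₁ := by
    have : (q : ℂ) * (((L ^ 2 : ℝ) : ℂ) * (N : ℂ)) = (q : ℂ) * ((N : ℂ) + ((q : ℂ) - 1) * c₁) := by
      rw [← hlamconj, ← hssC]
      rw [map_mul, Complex.conj_ofReal] at h1
      rw [← hssC] at h1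
      linear_combination h1
    exact mul_left_cancel₀ hqC0 this
  have e2 : lam * β = (s : ℂ) * c₁ := by
    have : (s : ℂ) * (lam * β) = (s : ℂ) * ((s : ℂ) * c₁) := by
      rw [← mul_assoc, h2, ← mul_assoc, hssC]
    exact mul_left_cancel₀ hsC0 this
  -- the real number `ρ`
  have hq1 : (0 : ℝ) < (q : ℝ) - 1 := by linarith
  set ρ : ℝ := (L ^ 2 - 1) * N * s / ((q : ℝ) - 1) with hρ
  have e3 : lam * β = (ρ : ℂ) := by
    have hq1C : ((q : ℂ) - 1) ≠ 0 := by
      have : ((q : ℂ) - 1) = (((q : ℝ) - 1 : ℝ) : ℂ) := by push_cast; ring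
      rw [this]
      exact Complex.ofReal_ne_zero.2 hq1.ne'
    have hρR : ρ * ((q : ℝ) - 1) = (L ^ 2 - 1) * N * s := by
      rw [hρ]
      exact div_mul_cancel₀ _ hq1.ne'
    have hρC : (ρ : ℂ) * ((q : ℂ) - 1) = (((L ^ 2 : ℝ) : ℂ) - 1) * (N : ℂ) * (s : ℂ) := by
      have := congrArg (fun x : ℝ => (x : ℂ)) hρR
      push_cast at this
      push_cast
      exact this
    have : ((q : ℂ) - 1) * (lam * β) = ((q : ℂ) - 1) * (ρ : ℂ) := by
      rw [e2, mul_comm ((q : ℂ) - 1) (ρ : ℂ), hρC]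
      linear_combination (-(s : ℂ)) * e1
    exact mul_left_cancel₀ hq1C this
  have hnorm : L * ‖β‖ = |ρ| := by
    rw [hL, ← norm_mul, e3, Complex.norm_real, Real.norm_eq_abs]
  refine ⟨h4, ?_, ?_⟩
  · -- `‖lam‖ ≤ √q`
    by_contra hlt
    rw [not_le] at hlt
    have hL1 : 1 < L := by
      have : (1 : ℝ) < s := by
        rw [hs]
        rw [Real.lt_sqrt (by norm_num)]
        linarith
      linarith
    have hpos : 0 < (L ^ 2 - 1) * N * s / ((q : ℝ) - 1) := by
      apply div_pos _ hq1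
      apply mul_pos (mul_pos _ hN) hspos
      nlinarith
    have hρabs : |ρ| = ρ := abs_of_pos hpos
    have hle : ρ ≤ L * N := by
      rw [← hρabs, ← hnorm]
      exact mul_le_mul_of_nonneg_left h5 hL0
    rw [hρ, div_le_iff₀ hq1] at hle
    -- `(L² - 1) s ≤ L (q - 1)`
    have h6 : (L ^ 2 - 1) * s ≤ L * ((q : ℝ) - 1) := by
      have : (L ^ 2 - 1) * N * s ≤ L * N * ((q : ℝ) - 1) := hle
      have h7 : ((L ^ 2 - 1) * s) * N ≤ (L * ((q : ℝ) - 1)) * N := by linarith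
      exact le_of_mul_le_mul_right h7 hN
    -- `(s L + 1) (L - s) ≤ 0`
    have h8 : (s * L + 1) * (L - s) ≤ 0 := by
      have : (s * L + 1) * (L - s) = (L ^ 2 - 1) * s - L * (s * s - 1) := by ring
      rw [this, hss]
      linarith
    have h9 : 0 < (s * L + 1) * (L - s) := by
      apply mul_pos
      · positivity
      · linarith
    linarith
  · -- tempered or complementary
    by_cases hL1 : L = 1
    · exact Or.inl hL1
    · right
      have hρ0 : ρ ≠ 0 := by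
        rw [hρ]
        apply div_ne_zero _ hq1.ne'
        apply mul_ne_zero (mul_ne_zero _ hN.ne') hspos.ne'
        intro h
        have : L ^ 2 = 1 := by linarith
        have : L = 1 := by
          have h' : (L - 1) * (L + 1) = 0 := by ring_nf; linarith
          rcases mul_eq_zero.1 h' with h'' | h''
          · linarith
          · linarith
        exact hL1 this
      have hβ0 : β ≠ 0 := by
        intro h
        rw [h, mul_zero] at e3
        exact hρ0 (Complex.ofReal_eq_zero.1 e3.symm)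
      have hβn : 0 < ‖β‖ := norm_pos_iff.2 hβ0
      have hbb : b * conj b = 1 := by
        rw [Complex.mul_conj', h4]
        simp
      have hβsq : β * β = conj b * ((‖β‖ ^ 2 : ℝ) : ℂ) := by
        have : β * conj β = ((‖β‖ ^ 2 : ℝ) : ℂ) := by
          rw [Complex.mul_conj']
          push_cast
          rfl
        rw [← this]
        calc β * β = β * (conj b * conj β) := by rw [← h3]
          _ = conj b * (β * conj β) := by ring
      refine ⟨ρ ^ 2 / ‖β‖ ^ 2, by positivity, ?_⟩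
      -- `lam² β² = ρ²`
      have h10 : lam ^ 2 * (β * β) = ((ρ ^ 2 : ℝ) : ℂ) := by
        have : lam ^ 2 * (β * β) = (lam * β) * (lam * β) := by ring
        rw [this, e3]
        push_cast
        ring
      rw [hβsq] at h10
      have hn2 : ((‖β‖ ^ 2 : ℝ) : ℂ) ≠ 0 := Complex.ofReal_ne_zero.2 (by positivity)
      have h11 : lam ^ 2 * conj b = ((ρ ^ 2 / ‖β‖ ^ 2 : ℝ) : ℂ) := by
        rw [Complex.ofReal_div]
        rw [eq_div_iff hn2, ← h10]
        ring
      calc lam ^ 2 = lam ^ 2 * (b * conj b) := by rw [hbb, mul_one]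
        _ = (lam ^ 2 * conj b) * b := by ring
        _ = ((ρ ^ 2 / ‖β‖ ^ 2 : ℝ) : ℂ) * b := by rw [h11]

end Fermat.Agent.LT.T7.H16

end

end
-- ===== PACK-END LT/T7/H16/RegAlgebra.lean

-- ===== PACK-BEGIN LT/T7/H719/AtomsReg.lean
section





/-!
# Row LT, tower T7, leaf T7.L2.2.A `AtomsC561` (SPARE, helper719): the parameters, matrix form

OFF-MAIN.  `regParam_matrix719`: `regParam_of_eigen822` (asset helper822) for matrices, through
the algebra isomorphism `matEnd402` (asset helper402).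
-/

set_option autoImplicit false

open scoped Matrix InnerProductSpace ComplexConjugate

noncomputable section

namespace Fermat.Agent.LT.T7.H719

open Fermat.Agent.LT.T7.H402 Fermat.Agent.LT.T7.H822

variable {n : Type} [Fintype n] [DecidableEq n]

theorem inner_matEnd719 (M : Matrix n n ℂ) (x y : EuclideanSpace ℂ n) :
    ⟪matEnd402 M x, y⟫_ℂ = ⟪x, matEnd402 Mᴴ y⟫_ℂ := by
  rw [matEnd_eq402, matEnd_eq402, Matrix.toEuclideanLin_conjTranspose_eq_adjoint,
    LinearMap.adjoint_inner_right]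

theorem matEnd_mulVec719 (M : Matrix n n ℂ) (x : n → ℂ) :
    matEnd402 M (WithLp.toLp 2 x) = WithLp.toLp 2 (M *ᵥ x) := by
  apply WithLp.ofLp_injective
  rw [matEnd_apply402]

/-- **The parameters at the regular place, matrix form.** -/
theorem regParam_matrix719 (S ρ : Matrix n n ℂ) (q : ℝ) (hq : 1 ≤ q) (hS : Sᴴ = S)
    (hSq : S * S = ((q : ℂ) - 1) • S + (q : ℂ) • (1 : Matrix n n ℂ)) (hρ : ρᴴ * ρ = 1)
    (hz : (ρ * ρ) * S = S * (ρ * ρ)) {b μ : ℂ} {x : n → ℂ} (hx : x ≠ 0)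
    (hb : (ρ * ρ) *ᵥ x = b • x) (hμ : (S * ρ) *ᵥ x = μ • x) :
    Fermat.Agent.LT.T7.IsRegParam (Real.sqrt q) b (μ / (Real.sqrt q : ℂ)) := by
  have hx' : (WithLp.toLp 2 x : EuclideanSpace ℂ n) ≠ 0 := by
    intro h
    apply hx
    have := congrArg WithLp.ofLp h
    simpa using this
  refine regParam_of_eigen822 (V := EuclideanSpace ℂ n) (matEnd402 S) (matEnd402 ρ) q hq
    ?_ ?_ ?_ ?_ hx' ?_ ?_
  · intro u v
    rw [inner_matEnd719, hS]
  · rw [← map_mul, hSq, map_add, map_smul, map_smul, map_one]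
  · intro u v
    rw [inner_matEnd719, ← Module.End.mul_apply, ← map_mul, hρ, map_one]
    rfl
  · simp only [← map_mul]
    rw [hz]
  · rw [← map_mul, matEnd_mulVec719, hb]
    rfl
  · rw [← map_mul, matEnd_mulVec719, hμ]
    rfl

end Fermat.Agent.LT.T7.H719

end

end
-- ===== PACK-END LT/T7/H719/AtomsReg.lean

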