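import Mathlib
import Fermat.Agent.Pack.LT3.E17L1
import Fermat.Agent.Pack.LT3.E17L0
import Fermat.Agent.Pack.LT3.E11L3
import Fermat.Agent.Pack.LT3.E17L3
import Fermat.Agent.Pack.LT3.E17L2
import Fermat.Agent.Pack.LT3.E11L0
import Fermat.Agent.Pack.LT3.E14L2
import Fermat.Agent.Pack.LT3.E14L0
import Fermat.Agent.Pack.LT3.E14L1
import Fermat.Agent.Pack.LT3.E14L3
import Fermat.Agent.Pack.LT2.E0L1
import Fermat.Agent.Pack.LT2.E5L3
import Fermat.Agent.Pack.LT2.E12L1
import Fermat.Agent.Pack.LT2.E0L2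
import Fermat.Agent.Pack.LT2.E2L1
import Fermat.Agent.Pack.LT3.E8L2
import Fermat.Agent.Pack.LT3.E18L2
import Fermat.Agent.Pack.LT3.E18L1
import Fermat.Agent.Pack.LT3.E12L2
import Fermat.Agent.Pack.LT3.E12L3
import Fermat.Agent.Pack.LT3.E18L0
import Fermat.Agent.Pack.LT3.E18L3

set_option linter.all false

-- ===== PACK-BEGIN LT/T2/H175/ConvT.lean
section



/-!
# Row LT, tower T2, leaf T2.22b (helper175): `conv F f` preserves `IsAutT` and `IsCuspT`

OFF-MAIN.  `leafT02b_175 : LeafT02b175 K` (cut `LT/T2/H175/TauSpec.lean`).  Proof of helper228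
(`LT/T2/H228/ConvStable.lean`) with `f` continuous of compact support; the type
(`h ↦ k h` produces `τ(k)`), and the ray generator is central.
-/

set_option autoImplicit false

open IsDedekindDomain NumberField MeasureTheory AutomorphicForm
open Fermat.Agent.LT.H556.A0

noncomputable section

namespace Fermat.Agent.LT.T2.H175

open Fermat.Agent.LT.T2

attribute [local instance] Fermat.Agent.LT.T2.borelG

variable {K : Type} [Field K] [NumberField K]

theorem borelSpaceG175 : BorelSpace (G K) := ⟨rfl⟩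

attribute [local instance] borelSpaceG175

/-! ## The ray generator is central -/

/-- A matrix which is the same scalar at every infinite place and trivial at the finite places
is a scalar matrix. -/
theorem rayGen_val175 {r : G K} (hr : IsRayGen r) :
    (r : Matrix (Fin 2) (Fin 2) (Adl K))
      = Matrix.scalar (Fin 2) ((r : Matrix (Fin 2) (Fin 2) (Adl K)) 0 0) := by
  obtain ⟨hfin, t, -, -, hinf⟩ := hr
  have hinj : ∀ w : InfinitePlace K,
      Function.Injective (InfinitePlace.Completion.extensionEmbedding w) :=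
    fun w => (InfinitePlace.Completion.extensionEmbedding w).injective
  have hw : ∀ (w : InfinitePlace K) (i j : Fin 2), InfinitePlace.Completion.extensionEmbedding w
      (((r : Matrix (Fin 2) (Fin 2) (Adl K)) i j).1 w)
        = (Matrix.diagonal (fun _ : Fin 2 => (t : ℂ))) i j :=
    fun w i j => congrFun (congrFun (hinf w) i) j
  have hv : ∀ (v : HeightOneSpectrum (𝓞 K)) (i j : Fin 2),
      ((r : Matrix (Fin 2) (Fin 2) (Adl K)) i j).2 v
        = (1 : Matrix (Fin 2) (Fin 2) (v.adicCompletion K)) i j :=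
    fun v i j => congrFun (congrFun (hfin v) i) j
  have hoff : ∀ i j : Fin 2, i ≠ j → (r : Matrix (Fin 2) (Fin 2) (Adl K)) i j = 0 := by
    intro i j hij
    refine H228.adele_ext228 (fun w => ?_) (fun v => ?_)
    · apply hinj w
      rw [hw w i j, Matrix.diagonal_apply_ne _ hij]
      exact (map_zero _).symm
    · rw [hv v i j, Matrix.one_apply_ne hij]; rfl
  have hdiag : (r : Matrix (Fin 2) (Fin 2) (Adl K)) 1 1
      = (r : Matrix (Fin 2) (Fin 2) (Adl K)) 0 0 := by
    refine H228.adele_ext228 (fun w => ?_) (fun v => ?_)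
    · apply hinj w
      rw [hw w 1 1, hw w 0 0, Matrix.diagonal_apply_eq, Matrix.diagonal_apply_eq]
    · rw [hv v 1 1, hv v 0 0, Matrix.one_apply_eq, Matrix.one_apply_eq]
  ext i j
  fin_cases i <;> fin_cases j
  · simp
  · simpa using hoff 0 1 (by decide)
  · simpa using hoff 1 0 (by decide)
  · simpa using hdiag

/-- The ray generator is central in `G K`. -/
theorem rayGen_central175 {r : G K} (hr : IsRayGen r) (y : G K) : r * y = y * r := by
  have h := rayGen_val175 hr
  apply Units.ext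
  rw [Units.val_mul, Units.val_mul, h]
  exact (Matrix.scalar_commute _ (fun r' => Commute.all _ r') _).eq

/-! ## Integrability, continuity, bound -/

theorem integrable_cc175 (hT : T1.T1Out K) (F : Frame K) {f : G K → ℂ}
    (hfc : Continuous f) (hfs : HasCompactSupport f) : Integrable f F.μ := by
  have := F.haar
  have : T2Space (G K) := hT.locComp.2.2.1
  exact hfc.integrable_of_hasCompactSupport hfs

theorem conv_bdd175 (hT : T1.T1Out K) (F : Frame K) {f φ : G K → ℂ}
    (hfc : Continuous f) (hfs : HasCompactSupport f) (hφb : ∃ C : ℝ, ∀ g : G K, ‖φ g‖ ≤ C) :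
    ∃ C : ℝ, ∀ x : G K, ‖conv F f φ x‖ ≤ C := by
  obtain ⟨C, hC⟩ := hφb
  have hI := (integrable_cc175 hT F hfc hfs).norm
  refine ⟨∫ y, C * ‖f y‖ ∂F.μ, fun x => ?_⟩
  unfold conv
  refine norm_integral_le_of_norm_le (hI.const_mul C) (Filter.Eventually.of_forall fun y => ?_)
  rw [norm_mul]
  exact mul_le_mul_of_nonneg_right (hC _) (norm_nonneg _)

theorem conv_continuous175 (hT : T1.T1Out K) (F : Frame K) {f φ : G K → ℂ}
    (hfc : Continuous f) (hfs : HasCompactSupport f) (hφc : Continuous φ)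
    (hφb : ∃ C : ℝ, ∀ g : G K, ‖φ g‖ ≤ C) : Continuous (conv F f φ) := by
  obtain ⟨C, hC⟩ := hφb
  have : SecondCountableTopology (G K) := hT.locComp.2.2.2
  have hI := (integrable_cc175 hT F hfc hfs).norm
  unfold conv
  refine continuous_of_dominated (bound := fun y => C * ‖f y‖) ?_ ?_ (hI.const_mul C) ?_
  · intro x
    exact ((hφc.comp (continuous_const.mul continuous_id)).mul hfc).aestronglyMeasurable
  · intro x
    refine Filter.Eventually.of_forall fun y => ?_
    rw [norm_mul]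
    exact mul_le_mul_of_nonneg_right (hC _) (norm_nonneg _)
  · refine Filter.Eventually.of_forall fun y => ?_
    exact (hφc.comp (continuous_id.mul continuous_const)).mul continuous_const

/-! ## The type and the ray -/

/-- `conv F f φ (x k) = c · conv F f φ (x)` when `f (k⁻¹ g) = c f(g)`. -/
theorem conv_right_type175 (F : Frame K) {f φ : G K → ℂ} {u : G K} {c : ℂ}
    (hfu : ∀ g : G K, f (u⁻¹ * g) = c * f g) (x : G K) :
    conv F f φ (x * u) = c * conv F f φ x := by
  have := F.haar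
  unfold conv
  have h1 : ∫ h, φ (x * u * h) * f h ∂F.μ
      = ∫ h, (fun h' => φ (x * h') * f (u⁻¹ * h')) (u * h) ∂F.μ := by
    refine integral_congr_ae (Filter.Eventually.of_forall fun y => ?_)
    simp [mul_assoc]
  rw [h1]
  refine (integral_mul_left_eq_self (μ := F.μ) (fun h' => φ (x * h') * f (u⁻¹ * h')) u).trans ?_
  rw [← integral_const_mul]
  refine integral_congr_ae (Filter.Eventually.of_forall fun y => ?_)
  simp only [hfu]
  ring

theorem conv_arch_compactT175 (F : Frame K) {𝔫 : Ideal (𝓞 K)} {τ : G K → ℂ} (hτ : IsKType τ)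
    {f : G K → ℂ} (hf : IsTestT 𝔫 τ f) (φ : G K → ℂ) (w : InfinitePlace K) (k : G K)
    (hk : IsArchCompact w k) (x : G K) : conv F f φ (x * k) = τ k * conv F f φ x := by
  refine conv_right_type175 F (fun g => ?_) x
  rw [hf.arch_left w k⁻¹ (H228.isArchCompact_inv228 hk) g, kType_inv175 hτ hk, inv_inv]

theorem conv_rayT175 (F : Frame K) (f : G K → ℂ) {φ : G K → ℂ} {r : G K} (hr : IsRayGen r)
    (hφ : ∀ g : G K, φ (g * r) = φ g) (x : G K) : conv F f φ (x * r) = conv F f φ x := by
  unfold conv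
  refine integral_congr_ae (Filter.Eventually.of_forall fun y => ?_)
  have : x * r * y = x * y * r := by
    rw [mul_assoc, rayGen_central175 hr y, ← mul_assoc]
  simp only [this, hφ]

/-! ## Cuspidality -/

/-- The Borel `σ`-algebra of the adeles (the one of `A0.IsCuspidalFn`, `T1.AddFundDomC`). -/
local instance borelA175 : MeasurableSpace (Adl K) := borel (Adl K)

theorem borelSpaceA175 : BorelSpace (Adl K) := ⟨rfl⟩

attribute [local instance] borelSpaceA175

theorem conv_cuspidal175 (hT : T1.T1Out K) (F : Frame K) {f φ : G K → ℂ}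
    (hfc : Continuous f) (hfs : HasCompactSupport f) (hφc : Continuous φ)
    (hφb : ∃ C : ℝ, ∀ g : G K, ‖φ g‖ ≤ C) (hφ : IsCuspidalFn φ) :
    IsCuspidalFn (conv F f φ) := by
  intro μA hμA D hD n hn g
  have := F.haar
  have : SecondCountableTopology (Adl K) := hT.locComp.1.2.2
  have : LocallyCompactSpace (G K) := hT.locComp.2.1
  have : SecondCountableTopology (G K) := hT.locComp.2.2.2
  obtain ⟨C, hC⟩ := hφb
  have hDfin : μA D < ⊤ := H228.addFundDom_fin228 hT μA hμA D hD
  have : IsFiniteMeasure (μA.restrict D) := isFiniteMeasure_restrict.2 hDfin.ne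
  have hncont := H228.continuous_unip228 n hn
  have hfI : Integrable (fun y => C * ‖f y‖) F.μ :=
    ((integrable_cc175 hT F hfc hfs).norm).const_mul C
  have hprod : Integrable (Function.uncurry fun (x : Adl K) (y : G K) => φ (n x * g * y) * f y)
      ((μA.restrict D).prod F.μ) := by
    have hb : Integrable (fun z : Adl K × G K => (1 : ℝ) * (C * ‖f z.2‖))
        ((μA.restrict D).prod F.μ) :=
      Integrable.mul_prod (f := fun _ : Adl K => (1 : ℝ)) (integrable_const _) hfI
    refine hb.mono' ?_ (Filter.Eventually.of_forall fun z => ?_)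
    · have hcont : Continuous (Function.uncurry fun (x : Adl K) (y : G K) =>
          φ (n x * g * y) * f y) := by
        unfold Function.uncurry
        exact (hφc.comp (((hncont.comp continuous_fst).mul continuous_const).mul
          continuous_snd)).mul (hfc.comp continuous_snd)
      exact hcont.aestronglyMeasurable
    · simp only [Function.uncurry, one_mul, norm_mul]
      exact mul_le_mul_of_nonneg_right (hC _) (norm_nonneg _)
  have hswap := integral_integral_swap hprod
  have hL : ∫ x in D, conv F f φ (n x * g) ∂μA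
      = ∫ x in D, ∫ y, φ (n x * g * y) * f y ∂F.μ ∂μA := rfl
  rw [hL, hswap]
  have hzero : ∀ y : G K, ∫ x in D, φ (n x * g * y) * f y ∂μA = 0 := by
    intro y
    have h1 : ∫ x in D, φ (n x * g * y) * f y ∂μA = (∫ x in D, φ (n x * (g * y)) ∂μA) * f y := by
      rw [← integral_mul_const]
      refine integral_congr_ae (Filter.Eventually.of_forall fun x => ?_)
      simp only [mul_assoc]
    rw [h1, hφ μA hμA D hD n hn (g * y), zero_mul]
  simp only [hzero, integral_zero]

/-! ## The leaf -/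

theorem conv_isAutT175 (hT : T1.T1Out K) {𝔫 : Ideal (𝓞 K)} {τ : G K → ℂ} (hτ : IsKType τ)
    (R : FrameR K) {f ψ : G K → ℂ} (hf : IsTestT 𝔫 τ f) (hψ : IsAutT 𝔫 τ R.r ψ) :
    IsAutT 𝔫 τ R.r (conv R.F f ψ) :=
  { cont := conv_continuous175 hT R.F hf.cont hf.cpt hψ.cont hψ.bdd
    bdd := conv_bdd175 hT R.F hf.cont hf.cpt hψ.bdd
    left_inv := H228.conv_left_inv228 R.F hψ.left_inv
    level_inv := fun u hu g =>
      H228.conv_right_inv228 R.F
        (fun g' => hf.level_left u⁻¹ (H228.inLevelGroup_inv228 hu) g') g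
    arch_compact := fun w k hk g => conv_arch_compactT175 R.F hτ hf ψ w k hk g
    ray := fun g => conv_rayT175 R.F f R.ray hψ.ray g }

theorem conv_isCuspT175 (hT : T1.T1Out K) {𝔫 : Ideal (𝓞 K)} {τ : G K → ℂ} (hτ : IsKType τ)
    (R : FrameR K) {f φ : G K → ℂ} (hf : IsTestT 𝔫 τ f) (hφ : IsCuspT 𝔫 τ R.r φ) :
    IsCuspT 𝔫 τ R.r (conv R.F f φ) :=
  ⟨conv_isAutT175 hT hτ R hf hφ.aut,
    conv_cuspidal175 hT R.F hf.cont hf.cpt hφ.aut.cont hφ.aut.bdd hφ.cuspidal⟩

/-- **T2.22b**: convolution by a test function of type `τ` preserves `IsCuspT` and `IsAutT`. -/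
theorem leafT02b_175 (K : Type) [Field K] [NumberField K] : LeafT02b175 K :=
  fun hT _ _ _ hτ R =>
    ⟨fun _ _ hf hφ => conv_isCuspT175 hT hτ R hf hφ,
      fun _ _ hf hψ => conv_isAutT175 hT hτ R hf hψ⟩

end Fermat.Agent.LT.T2.H175

end

end
-- ===== PACK-END LT/T2/H175/ConvT.lean

-- ===== PACK-BEGIN LT/T2/H175/LeafT02.lean
section












/-!
# Row LT, tower T2, leaf T2.22 `LeafT02` (`ConvCuspT`, class of T5): CLOSED (helper175)

OFF-MAIN.  `leafT02_175 K : T2.LeafT02 K`, UNCONDITIONAL, in ONE import closure: the cut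
`LT/T2/H175/TauSpec.lean` and the leaves, all vendored byte-identical from their owners:

* T2.22a, T2.22b: helper175 (`AdjT.lean`, `ConvT.lean`);
* T2.22c: helper887 / helper981 (`H887/LeafT02c.lean`, `H981/ConvAdjT.lean`);
* T2.22d: FUBINI helper323 (`convKerC323`), SHAPE helper79 (`shapeTC_79`), MEASURE helper729
  (`thetaMeasC729`), SWAP helper175 (`thetaSwapC_175`), LOCAL infinite helper355
  (`locArchC355`), LOCAL finite helper776 (`locFinTC776`, on helper570), GLUE finite helper793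
  (`finGlueC793`, on helper724), GLUE infinite helper488 (`infGlueC175_488`).
-/

set_option autoImplicit false

namespace Fermat.Agent.LT.T2.H175

open Fermat.Agent.LT.T2

/-- **T2.22d**, unconditional. -/
theorem leafT02d_175 (K : Type) [Field K] [NumberField K] : LeafT02d175 K :=
  convCommT_of_leaves175 (H323.convKerC323 K) (H79.shapeTC_79 K) (H729.thetaMeasC729 K)
    (thetaSwapC_175 K) H355.locArchC355 (H776.locFinTC776 K) (H793.finGlueC793 K)
    (H488.infGlueC175_488 K)

/-- **T2.22** `LeafT02` (`ConvCuspT` for the class of T5), unconditional. -/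
theorem leafT02_175 (K : Type) [Field K] [NumberField K] : T2.LeafT02 K :=
  leafT02_of_parts175 (leafT02a_175 K) (leafT02b_175 K) (H887.leafT02c887 K) (leafT02d_175 K)

end Fermat.Agent.LT.T2.H175

end
-- ===== PACK-END LT/T2/H175/LeafT02.lean

-- ===== PACK-BEGIN LT/T2/H228/ConvAdj.lean
section



/-!
# Row LT, tower T2, leaf T2.02c (helper228): the adjoint of `conv F f` is `conv F (adj f)`

OFF-MAIN.  `leaf02c_228 : Leaf02c K`.  Vocabulary: `T2/Spec.lean` v3 (sha256 b934629a).

With `k(a, b) = φ(a) conj ψ(b) f(b⁻¹ a)`: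

* `pair F (conv F f φ) ψ = ∫_{b ∈ D} ∫_{a ∈ G} k` and `pair F φ (conv F (adj f) ψ) = ∫_{a ∈ D} ∫_{b ∈ G} k`
  (left invariance of the Haar measure, Fubini);
* `k` is invariant under the diagonal action of the countable group `GL₂(K) · z₀^ℤ` on `G × G`, and
  `D × G`, `G × D` are two fundamental domains of this action (`existsUnique_unf228`), so the two
  integrals agree (`IsFundamentalDomain.setIntegral_eq`).

No unimodularity is used.
-/

set_option autoImplicit false
set_option linter.unusedSectionVars false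

open IsDedekindDomain NumberField MeasureTheory AutomorphicForm
open Fermat.Agent.LT.H556.A0

noncomputable section

namespace Fermat.Agent.LT.T2.H228

open Fermat.Agent.LT.T2

attribute [local instance] Fermat.Agent.LT.T2.borelG
attribute [local instance] borelSpaceG228

variable {K : Type} [Field K] [NumberField K]

/-! ## Invariance under the unfolding group -/

theorem rightInv_zpow228 {φ : G K → ℂ} {z : G K} (h : ∀ g : G K, φ (g * z) = φ g) (n : ℤ) :
    ∀ g : G K, φ (g * z ^ n) = φ g := by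
  induction n using Int.induction_on with
  | zero => intro g; rw [zpow_zero, mul_one]
  | succ n ih => intro g; rw [zpow_add_one, ← mul_assoc, h, ih]
  | pred n ih =>
    intro g
    rw [zpow_sub_one, ← mul_assoc]
    have := h (g * z ^ (-(n : ℤ)) * z⁻¹)
    rw [inv_mul_cancel_right] at this
    rw [← this, ih]

theorem cusp_unf_inv228 {𝔫 : Ideal (𝓞 K)} {φ : G K → ℂ} (hφ : IsCuspFn 𝔫 φ)
    {w₀ : InfinitePlace K} {z₀ : G K} (hz₀ : IsArchPosScalar w₀ z₀)
    (hz : ∀ y : G K, z₀ * y = y * z₀) {h : G K} (hh : h ∈ unfGrp228 z₀ hz) (a : G K) :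
    φ (h * a) = φ a := by
  obtain ⟨γ, n, rfl⟩ := mem_unfGrp228.1 hh
  have hzn := rightInv_zpow228 (fun g => hφ.arch_scalar w₀ z₀ hz₀ g) n
  have hc : z₀ ^ n * a = a * z₀ ^ n := (Commute.zpow_left (show Commute z₀ a from hz a) n).eq
  have h1 : φ (T1.ratG K γ * (z₀ ^ n * a)) = φ (z₀ ^ n * a) := hφ.left_inv γ (z₀ ^ n * a)
  rw [mul_assoc, h1, hc, hzn]

/-- The kernel `k(a, b) = φ(a) conj ψ(b) f(b⁻¹ a)`. -/
def adjKer228 (f φ ψ : G K → ℂ) (p : G K × G K) : ℂ :=
  φ p.1 * (starRingEnd ℂ) (ψ p.2) * f (p.2⁻¹ * p.1)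

theorem adjKer228_inv {𝔫 : Ideal (𝓞 K)} (f : G K → ℂ) {φ ψ : G K → ℂ} (hφ : IsCuspFn 𝔫 φ)
    (hψ : IsCuspFn 𝔫 ψ) {w₀ : InfinitePlace K} {z₀ : G K} (hz₀ : IsArchPosScalar w₀ z₀)
    (hz : ∀ y : G K, z₀ * y = y * z₀) (h : unfGrp228 z₀ hz) (p : G K × G K) :
    adjKer228 f φ ψ (h • p) = adjKer228 f φ ψ p := by
  have hp : h • p = ((h : G K) * p.1, (h : G K) * p.2) := rfl
  rw [hp]
  unfold adjKer228
  simp only
  rw [cusp_unf_inv228 hφ hz₀ hz h.2, cusp_unf_inv228 hψ hz₀ hz h.2]
  congr 2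
  group

theorem continuous_adjKer228 {f φ ψ : G K → ℂ} (hf : Continuous f) (hφ : Continuous φ)
    (hψ : Continuous ψ) : Continuous (adjKer228 f φ ψ) := by
  unfold adjKer228
  exact ((hφ.comp continuous_fst).mul (Complex.continuous_conj.comp (hψ.comp continuous_snd))).mul
    (hf.comp ((continuous_inv.comp continuous_snd).mul continuous_fst))

/-! ## The two fundamental domains -/

theorem isFundDom_left228 (hA : T1.AdNormC K) (F : Frame K) {z₀ : G K}
    (hz : ∀ y : G K, z₀ * y = y * z₀) (hz2 : slabFn228 K z₀ = 2) (ν : Measure (G K × G K)) :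
    IsFundamentalDomain (unfGrp228 z₀ hz) (F.D ×ˢ (Set.univ : Set (G K))) ν := by
  refine IsFundamentalDomain.mk' (F.meas.prod MeasurableSet.univ).nullMeasurableSet fun p => ?_
  obtain ⟨h, hh, huniq⟩ := existsUnique_unf228 hA F hz hz2 p.1
  refine ⟨h, ⟨hh, Set.mem_univ _⟩, fun h' hh' => huniq h' hh'.1⟩

theorem isFundDom_right228 (hA : T1.AdNormC K) (F : Frame K) {z₀ : G K}
    (hz : ∀ y : G K, z₀ * y = y * z₀) (hz2 : slabFn228 K z₀ = 2) (ν : Measure (G K × G K)) :
    IsFundamentalDomain (unfGrp228 z₀ hz) ((Set.univ : Set (G K)) ×ˢ F.D) ν := by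
  refine IsFundamentalDomain.mk' (MeasurableSet.univ.prod F.meas).nullMeasurableSet fun p => ?_
  obtain ⟨h, hh, huniq⟩ := existsUnique_unf228 hA F hz hz2 p.2
  refine ⟨h, ⟨Set.mem_univ _, hh⟩, fun h' hh' => huniq h' hh'.2⟩

/-! ## The adjoint formula -/

theorem integrable_inv_testFn228 (hT : T1.T1Out K) (F : Frame K) {𝔫 : Ideal (𝓞 K)}
    {f : G K → ℂ} (hf : IsTestFn 𝔫 f) : Integrable (fun x : G K => f x⁻¹) F.μ := by
  have := F.haar
  have : LocallyCompactSpace (G K) := hT.locComp.2.1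
  have : T2Space (G K) := hT.locComp.2.2.1
  have : SecondCountableTopology (G K) := hT.locComp.2.2.2
  have hc : Continuous (fun x : G K => f x⁻¹) := hf.cont.comp continuous_inv
  have hs : HasCompactSupport (fun x : G K => f x⁻¹) :=
    hf.cpt.comp_homeomorph (Homeomorph.inv (G K))
  exact hc.integrable_of_hasCompactSupport hs

theorem norm_adjKer228_le {f φ ψ : G K → ℂ} {Cφ Cψ : ℝ} (hCφ : ∀ g : G K, ‖φ g‖ ≤ Cφ)
    (hCψ : ∀ g : G K, ‖ψ g‖ ≤ Cψ) (a b : G K) :
    ‖adjKer228 f φ ψ (a, b)‖ ≤ Cφ * Cψ * ‖f (a⁻¹ * b)⁻¹‖ := by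
  unfold adjKer228
  simp only
  rw [norm_mul, norm_mul, RCLike.norm_conj, mul_inv_rev, inv_inv]
  have h0 : 0 ≤ Cφ := le_trans (norm_nonneg _) (hCφ a)
  exact mul_le_mul_of_nonneg_right
    (mul_le_mul (hCφ a) (hCψ b) (norm_nonneg _) h0) (norm_nonneg _)

theorem convAdj228 (hT : T1.T1Out K) (F : Frame K) {𝔫 : Ideal (𝓞 K)} {f φ ψ : G K → ℂ}
    (hf : IsTestFn 𝔫 f) (hφ : IsCuspFn 𝔫 φ) (hψ : IsCuspFn 𝔫 ψ) :
    pair F (conv F f φ) ψ = pair F φ (conv F (adj f) ψ) := by
  have := F.haar
  have : LocallyCompactSpace (G K) := hT.locComp.2.1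
  have : T2Space (G K) := hT.locComp.2.2.1
  have : SecondCountableTopology (G K) := hT.locComp.2.2.2
  have hA := hT.adNorm
  obtain ⟨w₀, z₀, hz₀, hz2⟩ := exists_scalar_two228 K
  have hz : ∀ y : G K, z₀ * y = y * z₀ := archPosScalar_central228 hz₀
  have : Countable (unfGrp228 z₀ hz) := countable_unfGrp228 z₀ hz
  have : IsFiniteMeasure (F.μ.restrict F.D) := isFiniteMeasure_restrict.2 F.fin.ne
  obtain ⟨Cφ, hCφ⟩ := hφ.bdd
  obtain ⟨Cψ, hCψ⟩ := hψ.bdd
  have hkc : Continuous (adjKer228 f φ ψ) := continuous_adjKer228 hf.cont hφ.cont hψ.cont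
  -- the action is measurable and measure preserving
  have : MeasurableConstSMul (unfGrp228 z₀ hz) (G K × G K) := ⟨fun c =>
    ((measurable_const_mul (c : G K)).comp measurable_fst).prodMk
      ((measurable_const_mul (c : G K)).comp measurable_snd)⟩
  have : SMulInvariantMeasure (unfGrp228 z₀ hz) (G K × G K) (F.μ.prod F.μ) := ⟨fun c s hs =>
    ((measurePreserving_mul_left F.μ (c : G K)).prod
      (measurePreserving_mul_left F.μ (c : G K))).measure_preimage hs.nullMeasurableSet⟩
  have hL := isFundDom_left228 hA F hz hz2 (F.μ.prod F.μ)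
  have hR := isFundDom_right228 hA F hz hz2 (F.μ.prod F.μ)
  have hinv := adjKer228_inv f hφ hψ hz₀ hz
  have hkey : ∫ p in F.D ×ˢ (Set.univ : Set (G K)), adjKer228 f φ ψ p ∂(F.μ.prod F.μ)
      = ∫ p in (Set.univ : Set (G K)) ×ˢ F.D, adjKer228 f φ ψ p ∂(F.μ.prod F.μ) :=
    hL.setIntegral_eq hR hinv
  -- integrability on `D × G`
  have hadj := integrable_inv_testFn228 hT F hf
  have hIL : Integrable (adjKer228 f φ ψ) ((F.μ.restrict F.D).prod F.μ) := by
    rw [integrable_prod_iff hkc.aestronglyMeasurable]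
    constructor
    · refine Filter.Eventually.of_forall fun a => ?_
      have h1 : Integrable (fun b : G K => f (a⁻¹ * b)⁻¹) F.μ := hadj.comp_mul_left a⁻¹
      refine (h1.norm.const_mul (Cφ * Cψ)).mono'
        (hkc.comp (Continuous.prodMk_right a)).aestronglyMeasurable
        (Filter.Eventually.of_forall fun b => norm_adjKer228_le hCφ hCψ a b)
    · refine Integrable.mono' (integrable_const (Cφ * Cψ * ∫ x, ‖f x⁻¹‖ ∂F.μ))
        hkc.aestronglyMeasurable.norm.integral_prod_right'
        (Filter.Eventually.of_forall fun a => ?_)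
      have h1 : Integrable (fun b : G K => f (a⁻¹ * b)⁻¹) F.μ := hadj.comp_mul_left a⁻¹
      have h2 : ∫ b, ‖f (a⁻¹ * b)⁻¹‖ ∂F.μ = ∫ x, ‖f x⁻¹‖ ∂F.μ :=
        integral_mul_left_eq_self (fun x => ‖f x⁻¹‖) a⁻¹
      rw [Real.norm_of_nonneg (integral_nonneg fun _ => norm_nonneg _), ← h2,
        ← integral_const_mul]
      exact integral_mono_of_nonneg (Filter.Eventually.of_forall fun _ => norm_nonneg _)
        (h1.norm.const_mul _)
        (Filter.Eventually.of_forall fun b => norm_adjKer228_le hCφ hCψ a b)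
  have hIR : Integrable (adjKer228 f φ ψ) (F.μ.prod (F.μ.restrict F.D)) := by
    have h1 : IntegrableOn (adjKer228 f φ ψ) (F.D ×ˢ (Set.univ : Set (G K))) (F.μ.prod F.μ) := by
      rw [IntegrableOn, ← Measure.prod_restrict, Measure.restrict_univ]; exact hIL
    have h2 := (hL.integrableOn_iff hR hinv).1 h1
    rw [IntegrableOn, ← Measure.prod_restrict, Measure.restrict_univ] at h2
    exact h2
  -- the left side
  have hlhs : pair F (conv F f φ) ψ
      = ∫ p in (Set.univ : Set (G K)) ×ˢ F.D, adjKer228 f φ ψ p ∂(F.μ.prod F.μ) := by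
    rw [← Measure.prod_restrict, Measure.restrict_univ, integral_prod_symm _ hIR]
    unfold pair
    refine integral_congr_ae (Filter.Eventually.of_forall fun b => ?_)
    have h1 : ∫ a, adjKer228 f φ ψ (b * a, b) ∂F.μ = ∫ a, adjKer228 f φ ψ (a, b) ∂F.μ :=
      integral_mul_left_eq_self (fun a => adjKer228 f φ ψ (a, b)) b
    change conv F f φ b * (starRingEnd ℂ) (ψ b) = ∫ a, adjKer228 f φ ψ (a, b) ∂F.μ
    rw [← h1]
    unfold conv
    rw [← integral_mul_const]
    refine integral_congr_ae (Filter.Eventually.of_forall fun h => ?_)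
    change φ (b * h) * f h * (starRingEnd ℂ) (ψ b)
      = φ (b * h) * (starRingEnd ℂ) (ψ b) * f (b⁻¹ * (b * h))
    rw [inv_mul_cancel_left]
    ring
  -- the right side
  have hrhs : pair F φ (conv F (adj f) ψ)
      = ∫ p in F.D ×ˢ (Set.univ : Set (G K)), adjKer228 f φ ψ p ∂(F.μ.prod F.μ) := by
    rw [← Measure.prod_restrict, Measure.restrict_univ, integral_prod _ hIL]
    unfold pair
    refine integral_congr_ae (Filter.Eventually.of_forall fun a => ?_)
    have h1 : ∫ b, adjKer228 f φ ψ (a, a * b) ∂F.μ = ∫ b, adjKer228 f φ ψ (a, b) ∂F.μ :=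
      integral_mul_left_eq_self (fun b => adjKer228 f φ ψ (a, b)) a
    change φ a * (starRingEnd ℂ) (conv F (adj f) ψ a) = ∫ b, adjKer228 f φ ψ (a, b) ∂F.μ
    rw [← h1]
    unfold conv
    rw [← integral_conj, ← integral_const_mul]
    refine integral_congr_ae (Filter.Eventually.of_forall fun h => ?_)
    change φ a * (starRingEnd ℂ) (ψ (a * h) * (starRingEnd ℂ) (f h⁻¹))
      = φ a * (starRingEnd ℂ) (ψ (a * h)) * f ((a * h)⁻¹ * a)
    rw [map_mul, Complex.conj_conj, mul_inv_rev, inv_mul_cancel_right]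
    ring
  rw [hlhs, hrhs, hkey]

/-! ## The leaf -/

/-- **T2.02c**: the adjoint of `conv F f` on the cusp functions is `conv F (adj f)`. -/
theorem leaf02c_228 : Leaf02c K :=
  fun hT _ _ _ _ F _ _ _ hf hφ hψ => convAdj228 hT F hf hφ hψ

end Fermat.Agent.LT.T2.H228

end

end
-- ===== PACK-END LT/T2/H228/ConvAdj.lean

-- ===== PACK-BEGIN LT/T2/H887/HeckeAdjT.lean
section





/-!
# Row LT, tower T2, sub-leaf T2.27.04 `SubHeckeAdjT291` (helper887): `T_v* = S_v⁻¹ T_v`, `T`-form

OFF-MAIN.  Registry row 1389.  Sub-spec: `LT/T2/H291/OpsSpecT.lean` (helper291, sha256 c8359c85).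

Port of the proof of T2.07.04 (helper756, `LT/T2/H756/HeckeAdj.lean`, origin/helper756@4772700e0)
to the class `IsCuspT 𝔫 τ r`: the local algebra `LT/T2/H756/HeckeLocal.lean` is used VERBATIM
(vendored byte-identical); the invariance under the positive scalars is replaced by the invariance
under the ray generator `r`, which is central (`ray_central981`, helper981).

* `pairAt887 F φ ψ a b = ∫_D φ(g a) conj ψ(g b) dμ(g)`; `pairAt_transl887`: it is invariant under
  `(a, b) ↦ (h a, h b)` (the KEY LEMMA `SubTranslT291`, a HYPOTHESIS here);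
* `heckeAdjT_core887`: `⟨T_H φ, ψ⟩ = ⟨φ, S_z⁻¹ T_H ψ⟩` on the class, level prime to `v`;
* `subHeckeAdjT_of_transl887 : SubTranslT291 K → SubHeckeAdjT291 K`.
-/

set_option autoImplicit false

open IsDedekindDomain NumberField MeasureTheory
open Fermat.Agent.LT.H556.A0 Fermat.Agent.LT.H129 Fermat.Agent.LT.T2

noncomputable section

namespace Fermat.Agent.LT.T2.H887

variable {K : Type} [Field K] [NumberField K]

attribute [local instance] Fermat.Agent.LT.T2.borelG

open scoped Classical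

theorem borelSpaceG887 : BorelSpace (G K) := ⟨rfl⟩

/-- `∫_D φ(g a) conj ψ(g b) dμ(g)`. -/
def pairAt887 (F : Frame K) (φ ψ : G K → ℂ) (a b : G K) : ℂ :=
  ∫ g in F.D, φ (g * a) * (starRingEnd ℂ) (ψ (g * b)) ∂F.μ

theorem integrableOn_pairAt887 (F : Frame K) {φ ψ : G K → ℂ} (hφ : Continuous φ)
    (hψ : Continuous ψ) (bφ : ∃ C : ℝ, ∀ g : G K, ‖φ g‖ ≤ C)
    (bψ : ∃ C : ℝ, ∀ g : G K, ‖ψ g‖ ≤ C) (a b : G K) :
    IntegrableOn (fun g => φ (g * a) * (starRingEnd ℂ) (ψ (g * b))) F.D F.μ := by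
  have : BorelSpace (G K) := borelSpaceG887
  obtain ⟨C₁, h₁⟩ := bφ
  obtain ⟨C₂, h₂⟩ := bψ
  have hc : Continuous (fun g => φ (g * a) * (starRingEnd ℂ) (ψ (g * b))) :=
    (hφ.comp (continuous_mul_const a)).mul
      (Complex.continuous_conj.comp (hψ.comp (continuous_mul_const b)))
  refine Measure.integrableOn_of_bounded F.fin.ne hc.aestronglyMeasurable (M := C₁ * C₂)
    (ae_of_all _ fun g => ?_)
  rw [norm_mul, RCLike.norm_conj]
  exact mul_le_mul (h₁ _) (h₂ _) (norm_nonneg _) ((norm_nonneg _).trans (h₁ 1))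

/-- The KEY LEMMA in the form used here: `(a, b) ↦ (h a, h b)` does not change `pairAt887`. -/
theorem pairAt_transl887 (hT : H291.SubTranslT291 K) (hT1 : T1.T1Out K) (R : FrameR K)
    {𝔫 : Ideal (𝓞 K)} {τ : G K → ℂ} {φ ψ : G K → ℂ} (hφ : IsCuspT 𝔫 τ R.r φ)
    (hψ : IsCuspT 𝔫 τ R.r ψ) (h a b : G K) :
    pairAt887 R.F φ ψ (h * a) (h * b) = pairAt887 R.F φ ψ a b := by
  have key := hT hT1 R (fun g => φ (g * a) * (starRingEnd ℂ) (ψ (g * b)))
    (fun γ g => by
      show φ (T1.ratG K γ * g * a) * (starRingEnd ℂ) (ψ (T1.ratG K γ * g * b)) = _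
      rw [mul_assoc, mul_assoc]
      have e1 : φ (T1.ratG K γ * (g * a)) = φ (g * a) := hφ.aut.left_inv γ (g * a)
      have e2 : ψ (T1.ratG K γ * (g * b)) = ψ (g * b) := hψ.aut.left_inv γ (g * b)
      rw [e1, e2])
    (fun g => by
      show φ (g * R.r * a) * (starRingEnd ℂ) (ψ (g * R.r * b)) = _
      have e1 : g * R.r * a = g * a * R.r := by
        rw [mul_assoc, H981.ray_central981 R.ray a, mul_assoc]
      have e2 : g * R.r * b = g * b * R.r := by
        rw [mul_assoc, H981.ray_central981 R.ray b, mul_assoc]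
      rw [e1, e2, hφ.aut.ray, hψ.aut.ray]) h
  unfold pairAt887
  simp only [mul_assoc] at key ⊢
  exact key

theorem isLocalMaxCptAt_inv887 {v : HeightOneSpectrum (𝓞 K)} {u : G K}
    (hu : IsLocalMaxCptAt129 v u) : IsLocalMaxCptAt129 v u⁻¹ :=
  ⟨isLocalAtFin_inv129 hu.1, hu.2.2, by rw [inv_inv]; exact hu.2.1⟩

/-- **`T_v* = S_v⁻¹ T_v`** on the cusp functions of the class `(𝔫, τ, r)`, level prime to `v`,
from the KEY LEMMA. -/
theorem heckeAdjT_core887 (hT : H291.SubTranslT291 K) (hT1 : T1.T1Out K) (R : FrameR K)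
    {𝔫 : Ideal (𝓞 K)} {τ : G K → ℂ} {v : HeightOneSpectrum (𝓞 K)} (hv : ¬ v.asIdeal ∣ 𝔫)
    {H : Finset (G K)} (hH : IsHeckeCosetSystem v H) {z : G K}
    (hz : IsScalarUniformizerAt v z) {φ ψ : G K → ℂ} (hφ : IsCuspT 𝔫 τ R.r φ)
    (hψ : IsCuspT 𝔫 τ R.r ψ) :
    pair R.F (heckeSum H φ) ψ = pair R.F φ (shift z⁻¹ (heckeSum H ψ)) := by
  -- the function `B`
  have hr : ∀ u : G K, IsLocalMaxCptAt129 v u → ∀ g : G K,
      pairAt887 R.F φ ψ (g * u) 1 = pairAt887 R.F φ ψ g 1 := by
    intro u hu g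
    unfold pairAt887
    have e : ∀ x : G K, φ (x * (g * u)) = φ (x * g) := fun x => by
      rw [← mul_assoc]
      exact hφ.aut.level_inv u (inLevelGroup_of_localMaxCpt129 hv hu) (x * g)
    simp only [e]
  have hl : ∀ u : G K, IsLocalMaxCptAt129 v u → ∀ g : G K,
      pairAt887 R.F φ ψ (u * g) 1 = pairAt887 R.F φ ψ g 1 := by
    intro u hu g
    have h1 : pairAt887 R.F φ ψ (u * g) 1 = pairAt887 R.F φ ψ (u * g) (u * u⁻¹) := by
      rw [mul_inv_cancel]
    rw [h1, pairAt_transl887 hT hT1 R hφ hψ]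
    unfold pairAt887
    have e : ∀ x : G K, ψ (x * u⁻¹) = ψ (x * 1) := fun x => by
      rw [mul_one]
      exact hψ.aut.level_inv u⁻¹
        (inLevelGroup_of_localMaxCpt129 hv (isLocalMaxCptAt_inv887 hu)) x
    simp only [e]
  -- the left side
  have hL : pair R.F (heckeSum H φ) ψ = ∑ h ∈ H, pairAt887 R.F φ ψ h 1 := by
    unfold pair heckeSum pairAt887
    simp only [Finset.sum_mul, mul_one]
    exact integral_finsetSum H fun h _ => by
      have : Integrable (fun g => φ (g * h) * (starRingEnd ℂ) (ψ (g * 1)))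
          (R.F.μ.restrict R.F.D) :=
        integrableOn_pairAt887 R.F hφ.aut.cont hψ.aut.cont hφ.aut.bdd hψ.aut.bdd h 1
      simpa only [mul_one] using this
  -- the right side
  have hR : pair R.F φ (shift z⁻¹ (heckeSum H ψ))
      = ∑ h ∈ H, pairAt887 R.F φ ψ 1 (z⁻¹ * h) := by
    unfold pair shift heckeSum pairAt887
    simp only [map_sum, Finset.mul_sum, mul_one, mul_assoc]
    exact integral_finsetSum H fun h _ => by
      have : Integrable (fun g => φ (g * 1) * (starRingEnd ℂ) (ψ (g * (z⁻¹ * h))))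
          (R.F.μ.restrict R.F.D) :=
        integrableOn_pairAt887 R.F hφ.aut.cont hψ.aut.cont hφ.aut.bdd hψ.aut.bdd 1 (z⁻¹ * h)
      simpa only [mul_one] using this
  rw [hL, hR]
  refine Finset.sum_congr rfl fun h hh => ?_
  have h1 : pairAt887 R.F φ ψ 1 (z⁻¹ * h)
      = pairAt887 R.F φ ψ ((z⁻¹ * h) * (h⁻¹ * z)) ((z⁻¹ * h) * 1) := by
    have e : (z⁻¹ * h) * (h⁻¹ * z) = 1 := by group
    rw [e, mul_one]
  rw [h1, pairAt_transl887 hT hT1 R hφ hψ]
  exact (H756.biInv_eq756 (fun g => pairAt887 R.F φ ψ g 1) hl hr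
    (H756.isHeckeAt_of_mem756 hH hh) hz).symm

/-- **T2.27.04** from the KEY LEMMA T2.27.00. -/
theorem subHeckeAdjT_of_transl887 (hT : H291.SubTranslT291 K) : H291.SubHeckeAdjT291 K :=
  fun _ _ c R _ hv _ hH _ hz _ _ hφ hψ => heckeAdjT_core887 hT c.t1 R hv hH hz hφ hψ

end Fermat.Agent.LT.T2.H887

end

end
-- ===== PACK-END LT/T2/H887/HeckeAdjT.lean

-- ===== PACK-BEGIN LT/T2/H291/AssemblyT.lean
section













/-!
# T2.27 `LeafT07` — partial assembly (helper291)

Twelve of the twenty fields of `SubT291 K` are closed (rows 1387–1391, 1393, 1399, 1401, 1402,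
1406–1409 of the registry); this file plugs them in and leaves the remaining eight as hypotheses.
The final file `LeafT07.lean` discharges those eight from the swarm's files.
-/

namespace Fermat.Agent.LT.T2.H291

variable {K : Type} [Field K] [NumberField K]

/-- `LeafT07 K` from the eight sub-leaves that were still open at 14:45Z. -/
theorem leafT07_of_restT291
    (hHH : SubCommHeckeHeckeT291 K)
    (hSP : SubSpherePresT291 K)
    (hCP : SubCirclePresT291 K)
    (hML : SubMeanLinT291 K)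
    (hMB : SubMeanBddT291 K)
    (hMA : SubMeanAdjT291 K)
    (hSS : SubCommSphereSphereT291 K)
    (hCM : SubCommConvMeanT291 K) : LeafT07 K :=
  leafT07_of_subT291
    { central := subCentralT291 K
      heckePres := H833.subHeckePresT833 K
      heckeBdd := H290.subHeckeBddT_of_transl290 (subTranslT291 K)
      heckeAdj := H887.subHeckeAdjT_of_transl887 (subTranslT291 K)
      shiftPres := subShiftPresT291 K
      shiftIso := subShiftIsoT291 K
      convLin := H372.subConvLinT372
      convBdd := H8.subConvBddT_of_h8 (subTranslT291 K)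
      commHeckeHecke := hHH
      commConvHecke := H79.subCommConvHeckeT_79 K
      spherePres := hSP
      circlePres := hCP
      meanLin := hML
      meanBdd := hMB
      meanAdj := hMA
      commMeanHecke := H904.subCommMeanHeckeT904 K
      commSphereSphere := hSS
      commSphereCircle := H776.subCommSphereCircleT776 K
      commCircleCircle := H196.subCommCircleCircleT196 K
      commConvMean := hCM }

end Fermat.Agent.LT.T2.H291

end
-- ===== PACK-END LT/T2/H291/AssemblyT.lean

-- ===== PACK-BEGIN LT/T2/H291/CommConvSphereT.lean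
section





/-!
# Row LT, tower T2, sub-leaf T2.27.21 (helper291), part 2: the complex places

OFF-MAIN.  A convolution by a spherical test function of type `τ` commutes with the sphere means
on the cusp functions of the class `(𝔫, τ, r)`:

`comm_sphereT291 : SubS2RotT291 → SubTypeSU2T291 K → SubCartanInf429 → … →
  CommT291 𝔫 τ R.r (conv R.F f) (sphereMean Y)`.

`T`-form of `comm_sphere878` (helper878, T2.07.21), same abstract engine `comm_abstract878`.
The type `τ` is trivial on `SU(2)` at `w` (`SubTypeSU2T291`), so `f` is bi-invariant and `φ` is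
right invariant under `SU(2)` at `w`; the anti-involution is the TRANSPOSITION at `w`
(`biInv_transposeT291`), and `Z_p` is the element with component
`(Y_p⁻¹)ᵀ = rotZ(-α) rotY(β) torus(-d)` at `w`.  The invariance `RI` of the kernel under `SU(2)`
is `SubS2RotT291` after the reflection `α ↦ -α` (the integrand has period `2π` in `α`).
Nothing is assumed, no opaque constant, no placeholder proof.
-/

set_option autoImplicit false
set_option linter.unusedSectionVars false
set_option linter.style.haveILetI false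

open IsDedekindDomain NumberField MeasureTheory Set
open scoped Matrix Pointwise

noncomputable section

namespace Fermat.Agent.LT.T2.H291

open Fermat.Agent.LT.H556.A0
open Fermat.Agent.LT.T2
open Fermat.Agent.LT.T2.H472
open Fermat.Agent.LT.T2.H878

variable {K : Type} [Field K] [NumberField K]

attribute [local instance] Fermat.Agent.LT.T2.borelG

/-! ## 1. Matrix facts -/

theorem rotZ_transposeT291 (α : ℝ) : (rotZ α)ᵀ = rotZ α := by
  unfold rotZ
  ext i j
  fin_cases i <;> fin_cases j <;> simp [Matrix.transpose_apply]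

theorem torus_transposeT291 (d : ℝ) : (torus d)ᵀ = torus d := by
  unfold torus
  ext i j
  fin_cases i <;> fin_cases j <;> simp [Matrix.transpose_apply]

theorem rotY_negT291 (β : ℝ) : rotY (-β) = (rotY β)ᵀ := by
  have e1 : -β / 2 = -(β / 2) := by ring
  unfold rotY
  rw [e1, Real.cos_neg, Real.sin_neg]
  ext i j
  fin_cases i <;> fin_cases j <;> simp [Matrix.transpose_apply]

theorem rotY_mul_negT291 (β : ℝ) : rotY β * rotY (-β) = 1 := by
  rw [rotY_add878, add_neg_cancel, rotY_zero878]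

theorem rotZ_addT291 (α β : ℝ) : rotZ (α + β) = rotZ α * rotZ β := by
  have e1 : Complex.I * (((α + β) / 2 : ℝ) : ℂ)
      = Complex.I * ((α / 2 : ℝ) : ℂ) + Complex.I * ((β / 2 : ℝ) : ℂ) := by
    push_cast
    ring
  have e2 : Complex.exp (Complex.I * (((α + β) / 2 : ℝ) : ℂ))
      = Complex.exp (Complex.I * ((α / 2 : ℝ) : ℂ))
        * Complex.exp (Complex.I * ((β / 2 : ℝ) : ℂ)) := by
    rw [e1, Complex.exp_add]
  have e3 : Complex.exp (-(Complex.I * (((α + β) / 2 : ℝ) : ℂ)))
      = Complex.exp (-(Complex.I * ((α / 2 : ℝ) : ℂ)))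
        * Complex.exp (-(Complex.I * ((β / 2 : ℝ) : ℂ))) := by
    rw [e1, neg_add, Complex.exp_add]
  unfold rotZ
  rw [e2, e3]
  ext i j
  fin_cases i <;> fin_cases j <;> simp [Matrix.mul_apply, Fin.sum_univ_two]

theorem rotZ_mul_negT291 (α : ℝ) : rotZ α * rotZ (-α) = 1 := by
  rw [← rotZ_addT291, add_neg_cancel, rotZ_zero878]

theorem rotZ_two_piT291 : rotZ (2 * Real.pi) = -1 := by
  have e1 : Complex.I * ((2 * Real.pi / 2 : ℝ) : ℂ) = (Real.pi : ℂ) * Complex.I := by
    push_cast
    ring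
  unfold rotZ
  rw [e1, Complex.exp_neg, Complex.exp_pi_mul_I]
  ext i j
  fin_cases i <;> fin_cases j <;> simp

theorem det_rotZT291 (γ : ℝ) : (rotZ γ).det = 1 := by
  unfold rotZ
  rw [Matrix.det_fin_two_of, mul_zero, sub_zero, ← Complex.exp_add, add_neg_cancel,
    Complex.exp_zero]

theorem rotZ_mul_torusT291 (γ d : ℝ) : rotZ γ * torus d = torus d * rotZ γ := by
  unfold rotZ torus
  ext i j
  fin_cases i <;> fin_cases j <;> simp [Matrix.mul_apply, Fin.sum_univ_two, mul_comm]

/-- The component of `Z_p`. -/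
def zST291 (d : ℝ) (p : ℝ × ℝ) : Matrix (Fin 2) (Fin 2) ℂ :=
  rotZ (-p.1) * rotY p.2 * torus (-d)

theorem sphere_mul_zS_transposeT291 (d : ℝ) (p : ℝ × ℝ) :
    rotZ p.1 * rotY p.2 * torus d * (zST291 d p)ᵀ = 1 := by
  unfold zST291
  rw [Matrix.transpose_mul, Matrix.transpose_mul, torus_transposeT291, rotZ_transposeT291,
    ← rotY_negT291]
  calc rotZ p.1 * rotY p.2 * torus d * (torus (-d) * (rotY (-p.2) * rotZ (-p.1)))
      = rotZ p.1 * (rotY p.2 * (torus d * torus (-d)) * rotY (-p.2)) * rotZ (-p.1) := by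
        simp only [mul_assoc]
    _ = 1 := by rw [torus_mul_neg878, mul_one, rotY_mul_negT291, mul_one, rotZ_mul_negT291]

theorem zS_eqT291 (d : ℝ) (p : ℝ × ℝ) :
    zST291 d p = ((rotZ p.1 * rotY p.2 * torus d)⁻¹)ᵀ := by
  have h := Matrix.inv_eq_right_inv (sphere_mul_zS_transposeT291 d p)
  rw [h, Matrix.transpose_transpose]

theorem det_zST291 (d : ℝ) (p : ℝ × ℝ) : (zST291 d p).det ≠ 0 := by
  unfold zST291
  rw [Matrix.det_mul, Matrix.det_mul, det_rotZT291, rotY_det878, one_mul, one_mul]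
  exact det_torus878 (-d)

theorem continuous_zST291 (d : ℝ) : Continuous (zST291 d) := by
  unfold zST291
  exact (((continuous_rotZ878.comp (continuous_neg.comp continuous_fst)).matrix_mul
    (continuous_rotY878.comp continuous_snd)).matrix_mul continuous_const)

/-! ## 2. The family `Z` -/

/-- The family `Z_p`: the element supported at `w` with component `(Y_p⁻¹)ᵀ`. -/
def ZsT291 (w : InfinitePlace K) (hw : w.IsComplex) (d : ℝ) (p : ℝ × ℝ) : G K :=
  locC878 w hw ⟨zST291 d p, det_zST291 d p⟩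

theorem ZsT291_loc (w : InfinitePlace K) (hw : w.IsComplex) (d : ℝ) (p : ℝ × ℝ) :
    IsLocalAtInf w (ZsT291 w hw d p) := locC_loc878 w hw _

theorem ZsT291_comp (w : InfinitePlace K) (hw : w.IsComplex) (d : ℝ) (p : ℝ × ℝ) :
    infComp w (ZsT291 w hw d p) = zST291 d p := locC_comp878 w hw _

theorem continuous_ZsT291 (w : InfinitePlace K) (hw : w.IsComplex) (d : ℝ) :
    Continuous (ZsT291 (K := K) w hw d) :=
  (continuous_locC878 w hw).comp ((continuous_zST291 d).subtype_mk _)

/-- The component of `Z_p` is the transpose of the component of `Y_p⁻¹`. -/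
theorem ZsT291_transpose {w : InfinitePlace K} (hw : w.IsComplex) {d : ℝ} {Y : ℝ → ℝ → G K}
    (hY : IsSphereAt w d Y) (p : ℝ × ℝ) :
    infComp w (ZsT291 w hw d p) = (infComp w (Y p.1 p.2)⁻¹)ᵀ := by
  rw [ZsT291_comp, infComp_inv472, (hY p.1 p.2).2, zS_eqT291]

/-! ## 3. `SU(2)` at `w` -/

/-- `k_p = Y_p a⁻¹` lies in `SU(2)` at `w`. -/
theorem isSU_sphere_kT291 {w : InfinitePlace K} (hw : w.IsComplex) {d : ℝ} {Y : ℝ → ℝ → G K}
    (hY : IsSphereAt w d Y) (p : ℝ × ℝ) : IsSUT291 w (Y p.1 p.2 * (Y 0 0)⁻¹) := by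
  refine ⟨(sphereFam878 hw hY).k_cpt p, ?_⟩
  rw [comp_sphere_k878 hY, Matrix.det_mul, det_rotZT291, rotY_det878, one_mul]

/-- `k'_p = Z_p a` lies in `SU(2)` at `w`. -/
theorem isSU_sphere_k'T291 {w : InfinitePlace K} (hw : w.IsComplex) {d : ℝ} {Y : ℝ → ℝ → G K}
    (hY : IsSphereAt w d Y) (p : ℝ × ℝ) : IsSUT291 w (ZsT291 w hw d p * Y 0 0) := by
  have hc : infComp w (ZsT291 w hw d p * Y 0 0) = rotZ (-p.1) * rotY p.2 := by
    rw [infComp_mul878, ZsT291_comp, comp_sphere_zero878 hY]
    unfold zST291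
    have := torus_mul_neg878 (-d)
    rw [neg_neg] at this
    rw [mul_assoc, this, mul_one]
  refine ⟨⟨isLocalAtInf_mul878 (ZsT291_loc w hw d p) (hY 0 0).1, ?_,
    fun hr => absurd hr (InfinitePlace.not_isReal_iff_isComplex.2 hw)⟩, ?_⟩
  · rw [hc, Matrix.conjTranspose_mul]
    calc rotZ (-p.1) * rotY p.2 * ((rotY p.2)ᴴ * (rotZ (-p.1))ᴴ)
        = rotZ (-p.1) * (rotY p.2 * (rotY p.2)ᴴ) * (rotZ (-p.1))ᴴ := by simp only [mul_assoc]
      _ = 1 := by rw [rotY_unitary878, mul_one, rotZ_unitary878]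
  · rw [hc, Matrix.det_mul, det_rotZT291, rotY_det878, one_mul]

section analysisT291

variable (F : Frame K)

/-- `E1` at a complex place. -/
theorem sphere_E1T291 [F.μ.IsMulRightInvariant] [MeasurableMul (G K)]
    {w : InfinitePlace K} (hw : w.IsComplex) {d : ℝ} {Y : ℝ → ℝ → G K}
    (hY : IsSphereAt w d Y) {f φ : G K → ℂ}
    (hfR : ∀ k : G K, IsSUT291 w k → ∀ g, f (g * k) = f g)
    (hφR : ∀ k : G K, IsSUT291 w k → ∀ g, φ (g * k) = φ g) (p : ℝ × ℝ) (x : G K) :
    ∫ h, φ (x * h * Y p.1 p.2) * f h ∂F.μ = ∫ h, φ (x * h) * f (h * ZsT291 w hw d p) ∂F.μ := by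
  have hk := (isSU_sphere_kT291 hw hY p).inv
  have hk' := (isSU_sphere_k'T291 hw hY p).inv
  have h1 : ∫ h, φ (x * h * Y p.1 p.2) * f h ∂F.μ = ∫ h, φ (x * h * Y 0 0) * f h ∂F.μ := by
    rw [← integral_mul_right_eq_self (μ := F.μ) (fun h => φ (x * h * Y p.1 p.2) * f h)
      (Y p.1 p.2 * (Y 0 0)⁻¹)⁻¹]
    refine integral_congr_ae (Filter.Eventually.of_forall fun h => ?_)
    show φ (x * (h * (Y p.1 p.2 * (Y 0 0)⁻¹)⁻¹) * Y p.1 p.2) * f (h * (Y p.1 p.2 * (Y 0 0)⁻¹)⁻¹)
      = φ (x * h * Y 0 0) * f h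
    rw [hfR _ hk]
    congr 2
    group
  have h2 : ∫ h, φ (x * h) * f (h * ZsT291 w hw d p) ∂F.μ
      = ∫ h, φ (x * h * Y 0 0) * f h ∂F.μ := by
    rw [← integral_mul_right_eq_self (μ := F.μ) (fun h => φ (x * h) * f (h * ZsT291 w hw d p))
      (Y 0 0 * (ZsT291 w hw d p * Y 0 0)⁻¹)]
    refine integral_congr_ae (Filter.Eventually.of_forall fun h => ?_)
    show φ (x * (h * (Y 0 0 * (ZsT291 w hw d p * Y 0 0)⁻¹)))
        * f (h * (Y 0 0 * (ZsT291 w hw d p * Y 0 0)⁻¹) * ZsT291 w hw d p)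
      = φ (x * h * Y 0 0) * f h
    have e1 : x * (h * (Y 0 0 * (ZsT291 w hw d p * Y 0 0)⁻¹))
        = x * h * Y 0 0 * (ZsT291 w hw d p * Y 0 0)⁻¹ := by group
    have e2 : h * (Y 0 0 * (ZsT291 w hw d p * Y 0 0)⁻¹) * ZsT291 w hw d p = h := by group
    rw [e1, e2, hφR _ hk']
  rw [h1, h2]

/-- The invariance of `psi878` under `SU(2)`. -/
theorem psi_inv_suT291 {w : InfinitePlace K} (hw : w.IsComplex) {f : G K → ℂ}
    (hfR : ∀ k : G K, IsSUT291 w k → ∀ g, f (g * k) = f g) (h : G K)
    (m k : Matrix (Fin 2) (Fin 2) ℂ) (hk : k * kᴴ = 1) (hd : k.det = 1) :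
    psi878 w hw f h (m * k) = psi878 w hw f h m := by
  by_cases hm : m.det ≠ 0
  · obtain ⟨Kk, hKk, hKkc⟩ := exists_suT291 (K := K) hw k hk hd
    have e1 : m = infComp w (locC878 (K := K) w hw ⟨m, hm⟩) :=
      (locC_comp878 w hw ⟨m, hm⟩).symm
    have e2 : m * k = infComp w (locC878 (K := K) w hw ⟨m, hm⟩ * Kk) := by
      rw [infComp_mul878, hKkc, ← e1]
    rw [e2, psi_eq878 hw f h _ (isLocalAtInf_mul878 (locC_loc878 w hw _) hKk.1.1), ← mul_assoc,
      hfR Kk hKk]
    conv_rhs => rw [e1]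
    rw [psi_eq878 hw f h _ (locC_loc878 w hw _)]
  · have hmk : ¬ (m * k).det ≠ 0 := by
      rw [Matrix.det_mul]
      intro h1
      exact hm (left_ne_zero_of_mul h1)
    unfold psi878
    rw [dif_neg hm, dif_neg hmk]

/-- The function fed to `SubS2RotT291`. -/
def psiST291 (w : InfinitePlace K) (hw : w.IsComplex) (d : ℝ) (f : G K → ℂ) (h : G K) :
    Matrix (Fin 2) (Fin 2) ℂ → ℂ :=
  fun m => psi878 w hw f h (m * torus (-d))

theorem continuousOn_psiST291 {w : InfinitePlace K} (hw : w.IsComplex) (d : ℝ) {f : G K → ℂ}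
    (hf : Continuous f) (h : G K) :
    ContinuousOn (psiST291 w hw d f h) {m | m.det ≠ 0} := by
  have h1 : ContinuousOn (fun m : Matrix (Fin 2) (Fin 2) ℂ => m * torus (-d)) {m | m.det ≠ 0} :=
    (continuous_id.matrix_mul continuous_const).continuousOn
  refine (continuousOn_psi878 hw hf h).comp h1 ?_
  intro m hm
  show (m * torus (-d)).det ≠ 0
  rw [Matrix.det_mul]
  exact mul_ne_zero hm (det_torus878 (-d))

theorem psiS_invT291 {w : InfinitePlace K} (hw : w.IsComplex) (d : ℝ) {f : G K → ℂ}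
    (hfR : ∀ k : G K, IsSUT291 w k → ∀ g, f (g * k) = f g) (h : G K)
    (m : Matrix (Fin 2) (Fin 2) ℂ) (γ : ℝ) :
    psiST291 w hw d f h (m * rotZ γ) = psiST291 w hw d f h m := by
  unfold psiST291
  rw [mul_assoc, rotZ_mul_torusT291, ← mul_assoc]
  exact psi_inv_suT291 hw hfR h _ _ (rotZ_unitary878 γ) (det_rotZT291 γ)

/-- The kernel integrand in terms of `psiST291`. -/
theorem kernel_eqT291 {w : InfinitePlace K} (hw : w.IsComplex) (d : ℝ) (f : G K → ℂ)
    (h k' : G K) (hk' : IsLocalAtInf w k') (p : ℝ × ℝ) :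
    f (h * k' * ZsT291 w hw d p)
      = psiST291 w hw d f h (infComp w k' * (rotZ (-p.1) * rotY p.2)) := by
  unfold psiST291
  have e : infComp w k' * (rotZ (-p.1) * rotY p.2) * torus (-d)
      = infComp w (k' * ZsT291 w hw d p) := by
    rw [infComp_mul878, ZsT291_comp]
    unfold zST291
    simp only [mul_assoc]
  rw [e, psi_eq878 hw f h _ (isLocalAtInf_mul878 hk' (ZsT291_loc w hw d p)), mul_assoc]

/-- The reflection `α ↦ -α` on a period. -/
theorem integral_reflectT291 (H : ℝ → ℂ) (hper : Function.Periodic H (2 * Real.pi)) :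
    ∫ α in (0 : ℝ)..(2 * Real.pi), H (-α) = ∫ α in (0 : ℝ)..(2 * Real.pi), H α := by
  rw [intervalIntegral.integral_comp_neg (fun α => H α), neg_zero]
  have h := hper.intervalIntegral_add_eq (-(2 * Real.pi)) 0
  rw [neg_add_cancel, zero_add] at h
  exact h

/-- **The invariance `RI` at a complex place.** -/
theorem sphere_RIT291 (hrot : SubS2RotT291) {w : InfinitePlace K} (hw : w.IsComplex)
    (d : ℝ) {f : G K → ℂ} (hf : Continuous f)
    (hfR : ∀ k : G K, IsSUT291 w k → ∀ g, f (g * k) = f g) (h k' : G K)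
    (hk' : IsSUT291 w k') :
    ∫ p in boxS878, f (h * k' * ZsT291 w hw d p) * wtS878 p
      = ∫ p in boxS878, f (h * ZsT291 w hw d p) * wtS878 p := by
  -- the common value
  have key : ∀ k₁ : G K, IsSUT291 w k₁ →
      ∫ p in boxS878, f (h * k₁ * ZsT291 w hw d p) * wtS878 p
        = ∫ α in (0 : ℝ)..(2 * Real.pi), ∫ β in (0 : ℝ)..Real.pi,
            psiST291 w hw d f h (rotZ α * rotY β) * ((Real.sin β : ℝ) : ℂ) := by
    intro k₁ hk₁
    have hc : Continuous fun p => f (h * k₁ * ZsT291 w hw d p) * wtS878 p :=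
      (hf.comp (continuous_const.mul (continuous_ZsT291 w hw d))).mul continuous_wtS878
    rw [← sphere_conv878 _ ((hc.continuousOn.integrableOn_compact isCompact_boxSc878).mono_set
      boxS_subset878)]
    rw [← hrot (psiST291 w hw d f h) (continuousOn_psiST291 hw d hf h)
      (psiS_invT291 hw d hfR h) (infComp w k₁) hk₁.1.2.1 hk₁.2]
    set H : ℝ → ℂ := fun α => ∫ β in (0 : ℝ)..Real.pi,
      psiST291 w hw d f h (infComp w k₁ * (rotZ α * rotY β)) * ((Real.sin β : ℝ) : ℂ) with hH
    have hper : Function.Periodic H (2 * Real.pi) := by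
      intro α
      show ∫ β in (0 : ℝ)..Real.pi,
          psiST291 w hw d f h (infComp w k₁ * (rotZ (α + 2 * Real.pi) * rotY β))
            * ((Real.sin β : ℝ) : ℂ)
        = ∫ β in (0 : ℝ)..Real.pi,
          psiST291 w hw d f h (infComp w k₁ * (rotZ α * rotY β)) * ((Real.sin β : ℝ) : ℂ)
      refine intervalIntegral.integral_congr fun β _ => ?_
      show psiST291 w hw d f h (infComp w k₁ * (rotZ (α + 2 * Real.pi) * rotY β))
          * ((Real.sin β : ℝ) : ℂ)
        = psiST291 w hw d f h (infComp w k₁ * (rotZ α * rotY β)) * ((Real.sin β : ℝ) : ℂ)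
      have e : infComp w k₁ * (rotZ (α + 2 * Real.pi) * rotY β)
          = infComp w k₁ * (rotZ α * rotY β) * rotZ (2 * Real.pi) := by
        rw [rotZ_addT291, rotZ_two_piT291]
        simp
      rw [e, psiS_invT291 hw d hfR h]
    have e1 : ∫ α in (0 : ℝ)..(2 * Real.pi), ∫ β in (0 : ℝ)..Real.pi,
        f (h * k₁ * ZsT291 w hw d (α, β)) * wtS878 (α, β)
        = ∫ α in (0 : ℝ)..(2 * Real.pi), H (-α) := by
      refine intervalIntegral.integral_congr fun α _ => ?_
      show ∫ β in (0 : ℝ)..Real.pi, f (h * k₁ * ZsT291 w hw d (α, β)) * wtS878 (α, β) = H (-α)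
      rw [hH]
      refine intervalIntegral.integral_congr fun β _ => ?_
      show f (h * k₁ * ZsT291 w hw d (α, β)) * wtS878 (α, β) = _
      rw [kernel_eqT291 hw d f h k₁ hk₁.1.1 (α, β)]
      rfl
    rw [e1, integral_reflectT291 H hper]
  have h1 : IsSUT291 w (1 : G K) := by
    have := (hk'.inv)
    have h2 : IsSUT291 w (k' * k'⁻¹) :=
      ⟨isArchCompact_mul878 hk'.1 this.1, by
        rw [infComp_mul878, Matrix.det_mul, hk'.2, this.2, mul_one]⟩
    rwa [mul_inv_cancel] at h2
  have k1 := key k' hk'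
  have k2 := key 1 h1
  rw [mul_one] at k2
  rw [k1, k2]

/-- `E2` at a complex place: the equality of the kernels (Gelfand's trick, transposition). -/
theorem sphere_E2T291 (hrot : SubS2RotT291) (hC : H429.SubCartanInf429)
    {w : InfinitePlace K} (hw : w.IsComplex) {d : ℝ} {Y : ℝ → ℝ → G K}
    (hY : IsSphereAt w d Y) {f : G K → ℂ} (hf : Continuous f)
    (hfR : ∀ k : G K, IsSUT291 w k → ∀ g, f (g * k) = f g)
    (hfL : ∀ k : G K, IsSUT291 w k → ∀ g, f (k * g) = f g) (h : G K) :
    ∫ p in boxS878, f ((Y p.1 p.2)⁻¹ * h) * wtS878 p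
      = ∫ p in boxS878, f (h * ZsT291 w hw d p) * wtS878 p := by
  obtain ⟨h', hs, hh⟩ := exists_transposeT291 hw h
  have step1 : ∀ p : ℝ × ℝ, f ((Y p.1 p.2)⁻¹ * h) = f (h' * ZsT291 w hw d p) := by
    intro p
    have hsm := transpose_mulT291 (y := (Y p.1 p.2)⁻¹) (z := ZsT291 w hw d p)
      (isLocalAtInf_inv472 (hY p.1 p.2).1) (ZsT291_loc w hw d p) (ZsT291_transpose hw hY p) hs hh
    exact (biInv_transposeT291 hC hw f hfR hfL hsm.1 hsm.2).symm
  have step2 : ∫ p in boxS878, f (h' * ZsT291 w hw d p) * wtS878 p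
      = ∫ p in boxS878, f (h * ZsT291 w hw d p) * wtS878 p := by
    refine biInv_transposeT291 hC hw
      (fun g => ∫ p in boxS878, f (g * ZsT291 w hw d p) * wtS878 p) ?_ ?_ hs hh
    · intro k' hk' g
      exact sphere_RIT291 hrot hw d hf hfR g k' hk'
    · intro k' hk' g
      show ∫ p in boxS878, f (k' * g * ZsT291 w hw d p) * wtS878 p
        = ∫ p in boxS878, f (g * ZsT291 w hw d p) * wtS878 p
      refine integral_congr_ae (Filter.Eventually.of_forall fun p => ?_)
      show f (k' * g * ZsT291 w hw d p) * wtS878 p = f (g * ZsT291 w hw d p) * wtS878 p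
      rw [mul_assoc, hfL k' hk']
  rw [← step2]
  refine integral_congr_ae (Filter.Eventually.of_forall fun p => ?_)
  show f ((Y p.1 p.2)⁻¹ * h) * wtS878 p = f (h' * ZsT291 w hw d p) * wtS878 p
  rw [step1 p]

end analysisT291

/-! ## 4. The commutation -/

/-- **T2.27.21, complex places.** -/
theorem comm_sphereT291 (hrot : SubS2RotT291) (hS : SubTypeSU2T291 K)
    (hC : H429.SubCartanInf429) {𝔫 : Ideal (𝓞 K)} {τ : G K → ℂ} (hctx : CtxT291 K 𝔫 τ)
    (R : FrameR K) {f : G K → ℂ} (hf : IsSphTestT 𝔫 τ f) {w : InfinitePlace K}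
    (hw : w.IsComplex) {d : ℝ} {Y : ℝ → ℝ → G K} (hY : IsSphereAt w d Y) :
    CommT291 𝔫 τ R.r (conv R.F f) (sphereMean Y) := by
  intro φ hφ
  funext x
  have hYc := continuous_sphere878 hY
  -- invariance under `SU(2)` at `w`
  have hτ1 : ∀ k : G K, IsSUT291 w k → τ k = 1 := fun k hk => hS τ hctx.kt w hw k hk.1 hk.2
  have hfR : ∀ k : G K, IsSUT291 w k → ∀ g, f (g * k) = f g := by
    intro k hk g
    rw [hf.test.arch_right w k hk.1 g, hτ1 k hk, inv_one, one_mul]
  have hfL : ∀ k : G K, IsSUT291 w k → ∀ g, f (k * g) = f g := by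
    intro k hk g
    rw [hf.test.arch_left w k hk.1 g, hτ1 k hk, inv_one, one_mul]
  have hφR : ∀ k : G K, IsSUT291 w k → ∀ g, φ (g * k) = φ g := by
    intro k hk g
    rw [hφ.aut.arch_compact w k hk.1 g, hτ1 k hk, one_mul]
  -- the abstract engine
  have main : ∫ h, (∫ p in boxS878, φ (x * h * Y p.1 p.2) * wtS878 p) * f h ∂(R.F.μ)
      = ∫ p in boxS878, (∫ h, φ (x * Y p.1 p.2 * h) * f h ∂(R.F.μ)) * wtS878 p := by
    obtain ⟨-, hlc, ht2, hsc⟩ := hctx.t1.locComp
    have := hlc
    have := ht2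
    have := hsc
    have : BorelSpace (G K) := ⟨rfl⟩
    have := R.F.haar
    have : R.F.μ.IsMulRightInvariant := hctx.t1.unimod R.F.μ R.F.haar
    exact comm_abstract878 R.F.μ (volume : Measure (ℝ × ℝ)) hf.test.cont hf.test.cpt
      hφ.aut.cont hYc (continuous_ZsT291 w hw d) continuous_wtS878 measurableSet_boxS878
      isCompact_boxSc878 boxS_subset878 (sphere_E1T291 R.F hw hY hfR hφR)
      (sphere_E2T291 hrot hC hw hY hf.test.cont hfR hfL) x
  have hL : conv R.F f (sphereMean Y φ) x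
      = ∫ h, (∫ p in boxS878, φ (x * h * Y p.1 p.2) * wtS878 p) * f h ∂(R.F.μ) := by
    show ∫ h, sphereMean Y φ (x * h) * f h ∂(R.F.μ) = _
    refine integral_congr_ae (Filter.Eventually.of_forall fun h => ?_)
    show sphereMean Y φ (x * h) * f h = _
    congr 1
    exact sphere_conv878 (fun p => φ (x * h * Y p.1 p.2) * wtS878 p)
      (fam_mean_integrable878 hctx.t1 volume isCompact_boxSc878 boxS_subset878 hYc
        continuous_wtS878 hφ.aut.cont (x * h))
  have hR : sphereMean Y (conv R.F f φ) x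
      = ∫ p in boxS878, (∫ h, φ (x * Y p.1 p.2 * h) * f h ∂(R.F.μ)) * wtS878 p :=
    sphere_conv878 (fun p => (∫ h, φ (x * Y p.1 p.2 * h) * f h ∂(R.F.μ)) * wtS878 p)
      (fam_mean_conv_integrable878 hctx.t1 R.F volume measurableSet_boxS878 isCompact_boxSc878
        boxS_subset878 hYc continuous_wtS878 hf.test.cont hf.test.cpt hφ.aut.cont x)
  rw [hL, hR]
  exact main

end Fermat.Agent.LT.T2.H291

end

end
-- ===== PACK-END LT/T2/H291/CommConvSphereT.lean

-- ===== PACK-BEGIN LT/T2/H291/CommConvCircleT.lean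
section






/-!
# Row LT, tower T2, sub-leaf T2.27.21 (helper291), part 3: the real places

OFF-MAIN.  A convolution by a spherical test function of type `τ` commutes with the `τ`-twisted
circle means on the cusp functions of the class `(𝔫, τ, r)`:

`comm_circleT291 : SubCartanInf429 → … → CommT291 𝔫 τ R.r (conv R.F f) (circleMeanT τ k a)`.

`T`-form of `comm_circle878` (helper878, T2.07.21), same abstract engine `comm_abstract878` with
`Y_θ = k_θ a`, `Z_θ = k_θ⁻¹ a⁻¹` (the element with component `θ(Y_θ⁻¹)`, `θ(m) = e mᵀ e`) and the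
weight `τ(k_θ)⁻¹`.  The kernel `B(g) = ∫ f(g Z_θ) τ(k_θ)⁻¹ dθ` is of type `(τ⁻¹, τ⁻¹)` under
`SO(2)` at `w` (the rotations translate the angle, the integrand has period `2π`), hence
invariant under `θ` at `w` (`biType_thetaT291`).
Nothing is assumed, no opaque constant, no placeholder proof.
-/

set_option autoImplicit false
set_option linter.unusedSectionVars false
set_option linter.style.haveILetI false

open IsDedekindDomain NumberField MeasureTheory Set
open scoped Matrix Pointwise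

noncomputable section

namespace Fermat.Agent.LT.T2.H291

open Fermat.Agent.LT.H556.A0
open Fermat.Agent.LT.T2
open Fermat.Agent.LT.T2.H472
open Fermat.Agent.LT.T2.H878

variable {K : Type} [Field K] [NumberField K]

attribute [local instance] Fermat.Agent.LT.T2.borelG

/-! ## 1. The type on the compact group -/

theorem isArchCompact_oneT291 (w : InfinitePlace K) : IsArchCompact w (1 : G K) := by
  refine ⟨⟨fun u _ => ?_, fun v => ?_⟩, ?_, fun _ => ?_⟩
  · rw [trivAtInf_iff472]
    simp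
  · show finComp v (1 : G K) = 1
    exact finComp_one878 v
  · rw [infComp_one878]
    simp
  · rw [infComp_one878, Matrix.det_one]

theorem tau_ne_zeroT291 {τ : G K → ℂ} (hτ : IsKType τ) {w : InfinitePlace K} {k : G K}
    (hk : IsArchCompact w k) : τ k ≠ 0 := by
  intro h0
  have h := hτ.norm_one w k hk
  rw [h0, norm_zero] at h
  exact zero_ne_one h

theorem tau_oneT291 {τ : G K → ℂ} (hτ : IsKType τ) (w : InfinitePlace K) : τ (1 : G K) = 1 := by
  have h1 := isArchCompact_oneT291 (K := K) w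
  have h0 := tau_ne_zeroT291 hτ h1
  have h := hτ.mul w 1 1 h1 h1
  rw [mul_one] at h
  have h' : τ (1 : G K) * 1 = τ (1 : G K) * τ (1 : G K) := by rw [mul_one]; exact h
  exact (mul_left_cancel₀ h0 h').symm

theorem tau_invT291 {τ : G K → ℂ} (hτ : IsKType τ) {w : InfinitePlace K} {k : G K}
    (hk : IsArchCompact w k) : τ k⁻¹ = (τ k)⁻¹ := by
  have h := hτ.mul w k⁻¹ k (isArchCompact_inv878 hk) hk
  rw [inv_mul_cancel, tau_oneT291 hτ w] at h
  exact eq_inv_of_mul_eq_one_left h.symm

/-! ## 2. The rotations -/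

theorem rot_addT291 {w : InfinitePlace K} {k : ℝ → G K} (hk : IsRotAt w k) (α β : ℝ) :
    k (α + β) = k α * k β := by
  refine local_unique878 (hk _).1 (isLocalAtInf_mul878 (hk α).1 (hk β).1) ?_
  rw [infComp_mul878, (hk _).2, (hk α).2, (hk β).2, rotY_add878]

theorem rot_zeroT291 {w : InfinitePlace K} {k : ℝ → G K} (hk : IsRotAt w k) : k 0 = 1 := by
  have h := rot_addT291 hk 0 0
  rw [add_zero] at h
  exact mul_eq_left.1 h.symm

theorem rot_invT291 {w : InfinitePlace K} {k : ℝ → G K} (hk : IsRotAt w k) (θ : ℝ) :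
    (k θ)⁻¹ = k (-θ) := by
  have h := rot_addT291 hk θ (-θ)
  rw [add_neg_cancel, rot_zeroT291 hk] at h
  exact inv_eq_of_mul_eq_one_right h.symm

/-- Every element of the compact group at the real place `w` is a rotation. -/
theorem archCompact_eq_rotT291 {w : InfinitePlace K} (hw : w.IsReal) {k : ℝ → G K}
    (hk : IsRotAt w k) {k' : G K} (hk' : IsArchCompact w k') : ∃ θ₀ : ℝ, k' = k θ₀ := by
  obtain ⟨θ₀, hθ₀⟩ := so2_eq_rotY878 (infComp w k') hk'.2.1
    (fun i j => infComp_real878 hw k' i j) (hk'.2.2 hw)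
  exact ⟨θ₀, local_unique878 hk'.1 (hk θ₀).1 (by rw [hθ₀, (hk θ₀).2])⟩

/-- `k_{2π}` (component `-1`) commutes with the elements supported at `w`. -/
theorem rot_two_pi_commT291 {w : InfinitePlace K} {k : ℝ → G K} (hk : IsRotAt w k) {y : G K}
    (hy : IsLocalAtInf w y) : k (2 * Real.pi) * y = y * k (2 * Real.pi) := by
  refine local_unique878 (isLocalAtInf_mul878 (hk _).1 hy) (isLocalAtInf_mul878 hy (hk _).1) ?_
  rw [infComp_mul878, infComp_mul878, (hk _).2, rotY_two_pi878]
  simp

/-! ## 3. The families -/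

/-- `Z_θ = k_θ⁻¹ a⁻¹`. -/
def ZcT291 (k : ℝ → G K) (a : G K) (θ : ℝ) : G K := (k θ)⁻¹ * a⁻¹

theorem ZcT291_loc {w : InfinitePlace K} {t : ℝ} {k : ℝ → G K} {a : G K} (hk : IsRotAt w k)
    (ha : IsTorusAt w t a) (θ : ℝ) : IsLocalAtInf w (ZcT291 k a θ) :=
  isLocalAtInf_mul878 (isLocalAtInf_inv472 (hk θ).1) (isLocalAtInf_inv472 ha.1)

/-- The component of `Z_θ` is the `θ`-transform of the component of `Y_θ⁻¹`. -/
theorem ZcT291_theta {w : InfinitePlace K} {t : ℝ} {k : ℝ → G K} {a : G K} (hk : IsRotAt w k)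
    (ha : IsTorusAt w t a) (θ : ℝ) :
    infComp w (ZcT291 k a θ) = thetaT291 (infComp w (k θ * a)⁻¹) := by
  unfold ZcT291
  rw [mul_inv_rev, infComp_mul878, infComp_mul878, thetaT291_mul, rot_invT291 hk, (hk _).2,
    thetaT291_rotY, infComp_inv472, ha.2, torus_inv878, thetaT291_torus]

section analysisT291

variable (F : Frame K)

/-- `E1` at a real place. -/
theorem circle_E1T291 [F.μ.IsMulRightInvariant] [MeasurableMul (G K)]
    {τ : G K → ℂ} (hτ : IsKType τ) {w : InfinitePlace K} {k : ℝ → G K} (a : G K)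
    (hk : IsRotAt w k) {f φ : G K → ℂ}
    (hfR : ∀ k' : G K, IsArchCompact w k' → ∀ g, f (g * k') = (τ k')⁻¹ * f g)
    (hφR : ∀ k' : G K, IsArchCompact w k' → ∀ g, φ (g * k') = τ k' * φ g) (θ : ℝ) (x : G K) :
    ∫ h, φ (x * h * (k θ * a)) * f h ∂F.μ = ∫ h, φ (x * h) * f (h * ZcT291 k a θ) ∂F.μ := by
  have hkθ := H420.isArchCompact_rot420 hk θ
  have hki := isArchCompact_inv878 hkθ
  have h1 : ∫ h, φ (x * h * (k θ * a)) * f h ∂F.μ
      = ∫ h, τ (k θ) * (φ (x * h * a) * f h) ∂F.μ := by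
    rw [← integral_mul_right_eq_self (μ := F.μ) (fun h => φ (x * h * (k θ * a)) * f h) (k θ)⁻¹]
    refine integral_congr_ae (Filter.Eventually.of_forall fun h => ?_)
    show φ (x * (h * (k θ)⁻¹) * (k θ * a)) * f (h * (k θ)⁻¹) = τ (k θ) * (φ (x * h * a) * f h)
    have e : x * (h * (k θ)⁻¹) * (k θ * a) = x * h * a := by group
    rw [e, hfR _ hki, tau_invT291 hτ hkθ, inv_inv]
    ring
  have h2 : ∫ h, φ (x * h) * f (h * ZcT291 k a θ) ∂F.μ
      = ∫ h, τ (k θ) * (φ (x * h * a) * f h) ∂F.μ := by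
    rw [← integral_mul_right_eq_self (μ := F.μ) (fun h => φ (x * h) * f (h * ZcT291 k a θ))
      (a * k θ)]
    refine integral_congr_ae (Filter.Eventually.of_forall fun h => ?_)
    show φ (x * (h * (a * k θ))) * f (h * (a * k θ) * ZcT291 k a θ)
      = τ (k θ) * (φ (x * h * a) * f h)
    have e1 : x * (h * (a * k θ)) = x * h * a * k θ := by group
    have e2 : h * (a * k θ) * ZcT291 k a θ = h := by
      unfold ZcT291
      group
    rw [e1, e2, hφR _ hkθ]
    ring
  rw [h1, h2]

/-- The integrand of the kernel has period `2π`. -/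
theorem kernel_periodicT291 {τ : G K → ℂ} (hτ : IsKType τ) {w : InfinitePlace K} {t : ℝ}
    {k : ℝ → G K} {a : G K} (hk : IsRotAt w k) (ha : IsTorusAt w t a) {f : G K → ℂ}
    (hfR : ∀ k' : G K, IsArchCompact w k' → ∀ g, f (g * k') = (τ k')⁻¹ * f g) (g : G K) :
    Function.Periodic (fun θ => f (g * ZcT291 k a θ) * (τ (k θ))⁻¹) (2 * Real.pi) := by
  intro θ
  show f (g * ZcT291 k a (θ + 2 * Real.pi)) * (τ (k (θ + 2 * Real.pi)))⁻¹
    = f (g * ZcT291 k a θ) * (τ (k θ))⁻¹
  have hc := H420.isArchCompact_rot420 hk (2 * Real.pi)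
  have hci := isArchCompact_inv878 hc
  have hkθ := H420.isArchCompact_rot420 hk θ
  have e1 : ZcT291 k a (θ + 2 * Real.pi) = ZcT291 k a θ * (k (2 * Real.pi))⁻¹ := by
    unfold ZcT291
    rw [rot_addT291 hk, mul_inv_rev]
    have hcomm := rot_two_pi_commT291 hk
      (isLocalAtInf_mul878 (isLocalAtInf_inv472 (hk θ).1) (isLocalAtInf_inv472 ha.1))
    -- `c⁻¹ y = y c⁻¹` from `c y = y c`
    have : (k (2 * Real.pi))⁻¹ * ((k θ)⁻¹ * a⁻¹) = (k θ)⁻¹ * a⁻¹ * (k (2 * Real.pi))⁻¹ := by
      rw [eq_mul_inv_iff_mul_eq, mul_assoc, ← hcomm, ← mul_assoc, inv_mul_cancel, one_mul]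
    rw [mul_assoc, this]
  rw [e1, ← mul_assoc, hfR _ hci, tau_invT291 hτ hc, inv_inv, rot_addT291 hk,
    hτ.mul w _ _ hkθ hc, mul_inv]
  have h0 := tau_ne_zeroT291 hτ hc
  field_simp

/-- **The twisted invariance `RI` at a real place**: the kernel is of right type `τ⁻¹`. -/
theorem circle_RIT291 {τ : G K → ℂ} (hτ : IsKType τ) {w : InfinitePlace K} (hw : w.IsReal)
    {t : ℝ} {k : ℝ → G K} {a : G K} (hk : IsRotAt w k) (ha : IsTorusAt w t a) {f : G K → ℂ}
    (hfR : ∀ k' : G K, IsArchCompact w k' → ∀ g, f (g * k') = (τ k')⁻¹ * f g) (g k' : G K)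
    (hk' : IsArchCompact w k') :
    ∫ θ in Ioc 0 (2 * Real.pi), f (g * k' * ZcT291 k a θ) * (τ (k θ))⁻¹
      = (τ k')⁻¹ * ∫ θ in Ioc 0 (2 * Real.pi), f (g * ZcT291 k a θ) * (τ (k θ))⁻¹ := by
  have h2 : (0 : ℝ) ≤ 2 * Real.pi := by positivity
  obtain ⟨θ₀, rfl⟩ := archCompact_eq_rotT291 hw hk hk'
  have hper := kernel_periodicT291 hτ hk ha hfR g
  set u : ℝ → ℂ := fun θ => f (g * ZcT291 k a θ) * (τ (k θ))⁻¹ with hu
  have e : ∀ θ : ℝ, f (g * k θ₀ * ZcT291 k a θ) * (τ (k θ))⁻¹ = (τ (k θ₀))⁻¹ * u (θ - θ₀) := by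
    intro θ
    have e1 : g * k θ₀ * ZcT291 k a θ = g * ZcT291 k a (θ - θ₀) := by
      unfold ZcT291
      have : k θ = k (θ - θ₀) * k θ₀ := by rw [← rot_addT291 hk, sub_add_cancel]
      rw [this]
      group
    have e2 : τ (k θ) = τ (k (θ - θ₀)) * τ (k θ₀) := by
      have : k θ = k (θ - θ₀) * k θ₀ := by rw [← rot_addT291 hk, sub_add_cancel]
      rw [this, hτ.mul w _ _ (H420.isArchCompact_rot420 hk _) (H420.isArchCompact_rot420 hk _)]
    rw [e1, e2, hu, mul_inv]
    ring
  rw [← intervalIntegral.integral_of_le h2, ← intervalIntegral.integral_of_le h2]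
  simp_rw [e]
  rw [intervalIntegral.integral_const_mul, intervalIntegral.integral_comp_sub_right u θ₀]
  congr 1
  have := hper.intervalIntegral_add_eq (0 - θ₀) 0
  rw [zero_add] at this
  have e3 : 0 - θ₀ + 2 * Real.pi = 2 * Real.pi - θ₀ := by ring
  rw [e3] at this
  exact this

/-- `E2` at a real place: the equality of the kernels (Gelfand's trick with `θ`). -/
theorem circle_E2T291 (hC : H429.SubCartanInf429) {τ : G K → ℂ} (hτ : IsKType τ)
    {w : InfinitePlace K} (hw : w.IsReal) {t : ℝ} {k : ℝ → G K} {a : G K}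
    (hk : IsRotAt w k) (ha : IsTorusAt w t a) {f : G K → ℂ}
    (hfR : ∀ k' : G K, IsArchCompact w k' → ∀ g, f (g * k') = (τ k')⁻¹ * f g)
    (hfL : ∀ k' : G K, IsArchCompact w k' → ∀ g, f (k' * g) = (τ k')⁻¹ * f g) (h : G K) :
    ∫ θ in Ioc 0 (2 * Real.pi), f ((k θ * a)⁻¹ * h) * (τ (k θ))⁻¹
      = ∫ θ in Ioc 0 (2 * Real.pi), f (h * ZcT291 k a θ) * (τ (k θ))⁻¹ := by
  obtain ⟨h', hs, hh⟩ := exists_thetaT291 hw h
  have step1 : ∀ θ : ℝ, f ((k θ * a)⁻¹ * h) = f (h' * ZcT291 k a θ) := by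
    intro θ
    have hsm := theta_mulT291 (y := (k θ * a)⁻¹) (z := ZcT291 k a θ)
      (isLocalAtInf_inv472 (isLocalAtInf_mul878 (hk θ).1 ha.1)) (ZcT291_loc hk ha θ)
      (ZcT291_theta hk ha θ) hs hh
    exact (biType_thetaT291 hC hw τ f hfR hfL hsm.1 hsm.2).symm
  have step2 : ∫ θ in Ioc 0 (2 * Real.pi), f (h' * ZcT291 k a θ) * (τ (k θ))⁻¹
      = ∫ θ in Ioc 0 (2 * Real.pi), f (h * ZcT291 k a θ) * (τ (k θ))⁻¹ := by
    refine biType_thetaT291 hC hw τ
      (fun g => ∫ θ in Ioc 0 (2 * Real.pi), f (g * ZcT291 k a θ) * (τ (k θ))⁻¹) ?_ ?_ hs hh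
    · intro k' hk' g
      exact circle_RIT291 hτ hw hk ha hfR g k' hk'
    · intro k' hk' g
      show ∫ θ in Ioc 0 (2 * Real.pi), f (k' * g * ZcT291 k a θ) * (τ (k θ))⁻¹
        = (τ k')⁻¹ * ∫ θ in Ioc 0 (2 * Real.pi), f (g * ZcT291 k a θ) * (τ (k θ))⁻¹
      rw [← integral_const_mul]
      refine integral_congr_ae (Filter.Eventually.of_forall fun θ => ?_)
      show f (k' * g * ZcT291 k a θ) * (τ (k θ))⁻¹
        = (τ k')⁻¹ * (f (g * ZcT291 k a θ) * (τ (k θ))⁻¹)
      rw [mul_assoc k' g, hfL k' hk']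
      ring
  rw [← step2]
  refine integral_congr_ae (Filter.Eventually.of_forall fun θ => ?_)
  show f ((k θ * a)⁻¹ * h) * (τ (k θ))⁻¹ = f (h' * ZcT291 k a θ) * (τ (k θ))⁻¹
  rw [step1 θ]

end analysisT291

/-! ## 4. The commutation -/

/-- **T2.27.21, real places.** -/
theorem comm_circleT291 (hC : H429.SubCartanInf429) {𝔫 : Ideal (𝓞 K)} {τ : G K → ℂ}
    (hctx : CtxT291 K 𝔫 τ) (R : FrameR K) {f : G K → ℂ} (hf : IsSphTestT 𝔫 τ f)
    {w : InfinitePlace K} (hw : w.IsReal) {t : ℝ} {k : ℝ → G K} {a : G K}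
    (hk : IsRotAt w k) (ha : IsTorusAt w t a) :
    CommT291 𝔫 τ R.r (conv R.F f) (circleMeanT τ k a) := by
  intro φ hφ
  funext x
  have h2 : (0 : ℝ) ≤ 2 * Real.pi := by positivity
  have hkc : Continuous k := H420.continuous_rot420 hk
  have hwt : Continuous fun θ : ℝ => (τ (k θ))⁻¹ := H420.continuous_type_rot420 hctx.kt hk
  obtain ⟨-, hlc, ht2, hsc⟩ := hctx.t1.locComp
  have := hlc
  have := ht2
  have := hsc
  have : BorelSpace (G K) := ⟨rfl⟩
  have := R.F.haar
  have : R.F.μ.IsMulRightInvariant := hctx.t1.unimod R.F.μ R.F.haar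
  have hYc : Continuous fun θ : ℝ => k θ * a := hkc.mul continuous_const
  have hZc : Continuous (ZcT291 k a) := by
    unfold ZcT291
    exact hkc.inv.mul continuous_const
  have main := comm_abstract878 R.F.μ (volume : Measure ℝ) hf.test.cont hf.test.cpt
    hφ.aut.cont hYc hZc hwt
    (measurableSet_Ioc : MeasurableSet (Ioc (0 : ℝ) (2 * Real.pi)))
    (isCompact_Icc : IsCompact (Icc (0 : ℝ) (2 * Real.pi))) Ioc_subset_Icc_self
    (circle_E1T291 R.F hctx.kt a hk (hf.test.arch_right w) (hφ.aut.arch_compact w))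
    (circle_E2T291 hC hctx.kt hw hk ha (hf.test.arch_right w) (hf.test.arch_left w)) x
  have hL : conv R.F f (circleMeanT τ k a φ) x
      = ∫ h, (∫ θ in Ioc 0 (2 * Real.pi), φ (x * h * (k θ * a)) * (τ (k θ))⁻¹) * f h
          ∂(R.F.μ) := by
    show ∫ h, circleMeanT τ k a φ (x * h) * f h ∂(R.F.μ) = _
    refine integral_congr_ae (Filter.Eventually.of_forall fun h => ?_)
    show circleMeanT τ k a φ (x * h) * f h = _
    congr 1
    show ∫ θ in (0 : ℝ)..(2 * Real.pi), (τ (k θ))⁻¹ * φ (x * h * k θ * a) = _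
    rw [intervalIntegral.integral_of_le h2]
    refine integral_congr_ae (Filter.Eventually.of_forall fun θ => ?_)
    show (τ (k θ))⁻¹ * φ (x * h * k θ * a) = φ (x * h * (k θ * a)) * (τ (k θ))⁻¹
    rw [mul_comm, mul_assoc (x * h)]
  have hR : circleMeanT τ k a (conv R.F f φ) x
      = ∫ θ in Ioc 0 (2 * Real.pi), (∫ h, φ (x * (k θ * a) * h) * f h ∂(R.F.μ))
          * (τ (k θ))⁻¹ := by
    show ∫ θ in (0 : ℝ)..(2 * Real.pi), (τ (k θ))⁻¹ * conv R.F f φ (x * k θ * a) = _
    rw [intervalIntegral.integral_of_le h2]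
    refine integral_congr_ae (Filter.Eventually.of_forall fun θ => ?_)
    show (τ (k θ))⁻¹ * conv R.F f φ (x * k θ * a)
      = (∫ h, φ (x * (k θ * a) * h) * f h ∂(R.F.μ)) * (τ (k θ))⁻¹
    rw [mul_comm, mul_assoc x]
    rfl
  rw [hL, hR]
  exact main

end Fermat.Agent.LT.T2.H291

end

end
-- ===== PACK-END LT/T2/H291/CommConvCircleT.lean

-- ===== PACK-BEGIN LT/T2/H291/CommConvMeanT.lean
section






/-!
# Row LT, tower T2, sub-leaf T2.27.21 `SubCommConvMeanT291` (helper291)

OFF-MAIN.  A convolution by a spherical test function of type `τ` commutes with the sphere means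
(complex places, `CommConvSphereT.lean`) and with the `τ`-twisted circle means (real places,
`CommConvCircleT.lean`) on the cusp functions of the class `(𝔫, τ, r)`.

Inputs, all closed: `SubS2RotT291` (T2.27.31, helper879), `SubTypeSU2T291 K` (T2.27.33,
helper166), `SubCartanInf429` (T2.07.32, helper555), and the abstract engine `comm_abstract878`
of helper878 (T2.07.21).  Nothing is assumed, no opaque constant, no placeholder proof.
-/

namespace Fermat.Agent.LT.T2.H291

open Fermat.Agent.LT.T2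

variable {K : Type} [Field K] [NumberField K]

/-- **T2.27.21** from the auxiliary sub-leaves. -/
theorem subCommConvMeanT_of_toolsT291 (hrot : SubS2RotT291) (hS : SubTypeSU2T291 K)
    (hC : H429.SubCartanInf429) : SubCommConvMeanT291 K := by
  intro 𝔫 τ hctx R f hf
  exact ⟨fun w hw d _ Y hY => comm_sphereT291 hrot hS hC hctx R hf hw hY,
    fun w hw t _ k a hk ha => comm_circleT291 hC hctx R hf hw hk ha⟩

/-- **T2.27.21**, unconditional. -/
theorem subCommConvMeanT291 (K : Type) [Field K] [NumberField K] : SubCommConvMeanT291 K :=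
  subCommConvMeanT_of_toolsT291 H879.subS2RotT879 (H166.subTypeSU2T166 K) H555.subCartanInf555

end Fermat.Agent.LT.T2.H291

end
-- ===== PACK-END LT/T2/H291/CommConvMeanT.lean

-- ===== PACK-BEGIN LT/T2/H907/Compact.lean
section




/-!
# Row LT, tower T2, leaf T2.06 (helper907): compactness

The set `{g : Pfin907 𝔫 g ∧ defect907 g ≤ 1}` is contained in a compact subset of `GL₂(𝔸_K)`:
the entries of `g` and of `g⁻¹` are integral at the finite places and of absolute value `≤ 4` at
the infinite places.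
-/

set_option autoImplicit false
set_option linter.unusedSectionVars false

open IsDedekindDomain NumberField Matrix
open scoped MatrixGroups Classical

noncomputable section

namespace Fermat.Agent.LT.T2.H907

open Fermat.Agent.LT.H556.A0 Fermat.Agent.LT.T8.H864 Fermat.Agent.LT.H51.MS4

variable {K : Type} [Field K] [NumberField K]

/-! ## A compact box in the adeles -/

/-- The box of adeles: absolute value `≤ R` at the infinite places, integral at the finite
places. -/
def boxA907 (K : Type) [Field K] [NumberField K] (R : ℝ) : Set (Adl K) :=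
  {x | (∀ w : InfinitePlace K, ‖x.1 w‖ ≤ R) ∧
    ∀ v : HeightOneSpectrum (𝓞 K), x.2 v ∈ v.adicCompletionIntegers K}

theorem isCompact_closedBall_completion907 (w : InfinitePlace K) (R : ℝ) :
    IsCompact {x : w.Completion | ‖x‖ ≤ R} := by
  have hiso := InfinitePlace.Completion.isometry_extensionEmbedding w
  have hce : Topology.IsClosedEmbedding (InfinitePlace.Completion.extensionEmbedding w) :=
    hiso.isClosedEmbedding
  have hset : {x : w.Completion | ‖x‖ ≤ R}
      = (InfinitePlace.Completion.extensionEmbedding w) ⁻¹' Metric.closedBall (0 : ℂ) R := by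
    ext x
    simp only [Set.mem_ofPred_eq, Set.mem_preimage, Metric.mem_closedBall, dist_zero_right]
    rw [hiso.norm_map_of_map_zero (map_zero _)]
  rw [hset]
  exact hce.isCompact_preimage (isCompact_closedBall 0 R)

theorem isCompact_integralAdeles907 :
    IsCompact {x : FiniteAdeleRing (𝓞 K) K |
      ∀ v : HeightOneSpectrum (𝓞 K), x v ∈ v.adicCompletionIntegers K} := by
  have : ∀ v : HeightOneSpectrum (𝓞 K), CompactSpace (v.adicCompletionIntegers K) :=
    fun v => Fermat.Agent.LT.H11.LC.compactSpace_integers_h11 K v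
  have hrange := RestrictedProduct.range_structureMap
    (R := fun v : HeightOneSpectrum (𝓞 K) => v.adicCompletion K)
    (A := fun v : HeightOneSpectrum (𝓞 K) => (v.adicCompletionIntegers K : Set (v.adicCompletion K)))
    (𝓕 := Filter.cofinite)
  have hcont : Continuous (RestrictedProduct.structureMap
      (fun v : HeightOneSpectrum (𝓞 K) => v.adicCompletion K)
      (fun v : HeightOneSpectrum (𝓞 K) =>
        (v.adicCompletionIntegers K : Set (v.adicCompletion K))) Filter.cofinite) :=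
    RestrictedProduct.isEmbedding_structureMap.continuous
  have := isCompact_range hcont
  rw [hrange] at this
  exact this

theorem isCompact_boxA907 (R : ℝ) : IsCompact (boxA907 K R) := by
  have h1 : IsCompact (X := InfiniteAdeleRing K)
      (Set.pi Set.univ fun w : InfinitePlace K => {x : w.Completion | ‖x‖ ≤ R}) :=
    isCompact_univ_pi (fun w : InfinitePlace K => isCompact_closedBall_completion907 w R)
  have h2 := isCompact_integralAdeles907 (K := K)
  have h3 : IsCompact (X := InfiniteAdeleRing K × FiniteAdeleRing (𝓞 K) K)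
      ((Set.pi Set.univ fun w : InfinitePlace K => {x : w.Completion | ‖x‖ ≤ R}) ×ˢ
        {x : FiniteAdeleRing (𝓞 K) K |
          ∀ v : HeightOneSpectrum (𝓞 K), x v ∈ v.adicCompletionIntegers K}) := h1.prod h2
  have hset : boxA907 K R = ((Set.pi Set.univ fun w : InfinitePlace K =>
      {x : w.Completion | ‖x‖ ≤ R}) ×ˢ {x : FiniteAdeleRing (𝓞 K) K |
          ∀ v : HeightOneSpectrum (𝓞 K), x v ∈ v.adicCompletionIntegers K} :
      Set (InfiniteAdeleRing K × FiniteAdeleRing (𝓞 K) K)) := by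
    refine Set.ext fun x => ?_
    constructor
    · rintro ⟨h1, h2⟩
      exact ⟨fun w _ => h1 w, h2⟩
    · rintro ⟨h1, h2⟩
      exact ⟨fun w => h1 w (Set.mem_univ w), h2⟩
  rw [hset]
  exact h3

/-! ## A compact box in `GL₂(𝔸_K)` -/

/-- The box of `GL₂(𝔸_K)`: all entries of `g` and of `g⁻¹` lie in `boxA907 K R`. -/
def boxG907 (K : Type) [Field K] [NumberField K] (R : ℝ) : Set (G K) :=
  {g | ∀ i j : Fin 2, (g : Matrix (Fin 2) (Fin 2) (Adl K)) i j ∈ boxA907 K R ∧
    ((g⁻¹ : G K) : Matrix (Fin 2) (Fin 2) (Adl K)) i j ∈ boxA907 K R}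

theorem isCompact_boxM907 (R : ℝ) :
    IsCompact {M : Matrix (Fin 2) (Fin 2) (Adl K) | ∀ i j : Fin 2, M i j ∈ boxA907 K R} := by
  have h := isCompact_univ_pi (fun _ : Fin 2 => isCompact_univ_pi
    (fun _ : Fin 2 => isCompact_boxA907 (K := K) R))
  have hset : {M : Matrix (Fin 2) (Fin 2) (Adl K) | ∀ i j : Fin 2, M i j ∈ boxA907 K R}
      = (Set.pi Set.univ fun _ : Fin 2 => Set.pi Set.univ fun _ : Fin 2 => boxA907 K R :
        Set (Fin 2 → Fin 2 → Adl K)) := by
    refine Set.ext fun M => ?_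
    constructor
    · intro hM i _ j _
      exact hM i j
    · intro hM i j
      exact hM i (Set.mem_univ i) j (Set.mem_univ j)
  rw [hset]
  exact h

theorem isCompact_boxG907 (R : ℝ) : IsCompact (boxG907 K R) := by
  have := Fermat.Agent.LT.H11.LC.t2Space_adeleRing_h11 K
  have := Fermat.Agent.LT.H11.LC.t2Space_matrix_h11 (Fin 2) (NumberField.AdeleRing (𝓞 K) K)
  have hce : Topology.IsClosedEmbedding
      (Units.embedProduct (Matrix (Fin 2) (Fin 2) (Adl K))) :=
    Units.isClosedEmbedding_embedProduct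
  set Q : Set (Matrix (Fin 2) (Fin 2) (Adl K)) := {M | ∀ i j : Fin 2, M i j ∈ boxA907 K R}
    with hQ
  have hQc : IsCompact Q := isCompact_boxM907 R
  have hQop : IsCompact (MulOpposite.op '' Q) := hQc.image MulOpposite.continuous_op
  have hprod : IsCompact (Q ×ˢ (MulOpposite.op '' Q)) := hQc.prod hQop
  have hset : boxG907 K R
      = (Units.embedProduct (Matrix (Fin 2) (Fin 2) (Adl K))) ⁻¹' (Q ×ˢ (MulOpposite.op '' Q)) := by
    ext g
    simp only [boxG907, Set.mem_ofPred_eq, Set.mem_preimage, Set.mem_prod, Units.embedProduct_apply,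
      Set.mem_image, MulOpposite.op_inj, exists_eq_right, hQ]
    constructor
    · intro h
      exact ⟨fun i j => (h i j).1, fun i j => (h i j).2⟩
    · rintro ⟨h1, h2⟩ i j
      exact ⟨h1 i j, h2 i j⟩
  rw [hset]
  exact hce.isCompact_preimage hprod

/-! ## The bound -/

theorem norm_fst_eq907 (w : InfinitePlace K) (g : G K) (i j : Fin 2) :
    ‖((g : Matrix (Fin 2) (Fin 2) (Adl K)) i j).1 w‖ = ‖infComp w g i j‖ := by
  have hiso := InfinitePlace.Completion.isometry_extensionEmbedding w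
  exact (hiso.norm_map_of_map_zero (map_zero _) _).symm

theorem normSq_entry_le_frob907 (M : Matrix (Fin 2) (Fin 2) ℂ) (i j : Fin 2) :
    Complex.normSq (M i j) ≤ frob907 M := by
  unfold frob907
  refine le_trans ?_ (Finset.single_le_sum (f := fun i => ∑ j, Complex.normSq (M i j))
    (fun i _ => Finset.sum_nonneg fun j _ => Complex.normSq_nonneg _) (Finset.mem_univ i))
  exact Finset.single_le_sum (f := fun j => Complex.normSq (M i j))
    (fun j _ => Complex.normSq_nonneg _) (Finset.mem_univ j)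

theorem norm_infComp_le907 {g : G K} (hD : defect907 g ≤ 1) (w : InfinitePlace K) (i j : Fin 2) :
    ‖infComp w g i j‖ ≤ 4 := by
  have hd := dW907_pos w g
  have h1 : del907 w g ≤ 1 := (del907_le_defect w g).trans hD
  have h2 : tau907 w g ≤ 1 := (tau907_le_defect w g).trans hD
  have hd3 : dW907 w g ≤ 3 := by
    unfold del907 at h1
    have hinv : 0 < (dW907 w g)⁻¹ := inv_pos.mpr hd
    linarith
  have hf : frob907 (infComp w g) ≤ 12 := by
    unfold tau907 at h2
    have h3 : frob907 (infComp w g) / (2 * dW907 w g) ≤ 2 := by linarith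
    rw [div_le_iff₀ (by positivity)] at h3
    nlinarith
  have hn := normSq_entry_le_frob907 (infComp w g) i j
  rw [Complex.normSq_eq_norm_sq] at hn
  have hnn := norm_nonneg (infComp w g i j)
  nlinarith

/-- The support of the bump functions lies in the compact box. -/
theorem mem_boxG907 {𝔫 : Ideal (𝓞 K)} {g : G K} (hP : Pfin907 𝔫 g) (hD : defect907 g ≤ 1) :
    g ∈ boxG907 K 4 := by
  have hP' : Pfin907 𝔫 g⁻¹ := pfin907_inv hP
  have hD' : defect907 g⁻¹ ≤ 1 := by rw [defect907_inv]; exact hD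
  intro i j
  refine ⟨⟨fun w => ?_, fun v => ?_⟩, ⟨fun w => ?_, fun v => ?_⟩⟩
  · rw [norm_fst_eq907]
    exact norm_infComp_le907 hD w i j
  · exact pfin907_integral hP v i j
  · rw [norm_fst_eq907]
    exact norm_infComp_le907 hD' w i j
  · exact pfin907_integral hP' v i j

end Fermat.Agent.LT.T2.H907

end

end
-- ===== PACK-END LT/T2/H907/Compact.lean

-- ===== PACK-BEGIN LT/T2/H907/TestFn.lean
section




/-!
# Row LT, tower T2, leaf T2.06 (helper907): the spherical bump functions

`bump907 𝔫 η g = 1_{U(𝔫)}(g_fin) · s(1 - defect907 g / η)` (`s` = `Real.smoothTransition`) and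
`testFn907 𝔫 η c = c · bump907 𝔫 η` are spherical test functions of level `U(𝔫)` in the sense of
`T2.IsSphTestFn`, self-adjoint, supported in `{Pfin907 ∧ defect907 < η}`.
-/

set_option autoImplicit false
set_option linter.unusedSectionVars false

open IsDedekindDomain NumberField Matrix
open scoped MatrixGroups Classical ContDiff

noncomputable section

namespace Fermat.Agent.LT.T2.H907

open Fermat.Agent.LT.H556.A0 Fermat.Agent.LT.T8.H864 Fermat.Agent.LT.H51.MS4

variable {K : Type} [Field K] [NumberField K]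

/-- The bump function. -/
def bump907 (𝔫 : Ideal (𝓞 K)) (η : ℝ) (g : G K) : ℝ :=
  Set.indicator {g : G K | Pfin907 𝔫 g} (fun g => Real.smoothTransition (1 - defect907 g / η)) g

theorem bump907_of_pfin {𝔫 : Ideal (𝓞 K)} {η : ℝ} {g : G K} (h : Pfin907 𝔫 g) :
    bump907 𝔫 η g = Real.smoothTransition (1 - defect907 g / η) :=
  Set.indicator_of_mem (s := {g : G K | Pfin907 𝔫 g}) h _

theorem bump907_of_not_pfin {𝔫 : Ideal (𝓞 K)} {η : ℝ} {g : G K} (h : ¬ Pfin907 𝔫 g) :
    bump907 𝔫 η g = 0 :=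
  Set.indicator_of_notMem (s := {g : G K | Pfin907 𝔫 g}) h _

theorem bump907_nonneg (𝔫 : Ideal (𝓞 K)) (η : ℝ) (g : G K) : 0 ≤ bump907 𝔫 η g := by
  by_cases h : Pfin907 𝔫 g
  · rw [bump907_of_pfin h]; exact Real.smoothTransition.nonneg _
  · rw [bump907_of_not_pfin h]

theorem bump907_le_one (𝔫 : Ideal (𝓞 K)) (η : ℝ) (g : G K) : bump907 𝔫 η g ≤ 1 := by
  by_cases h : Pfin907 𝔫 g
  · rw [bump907_of_pfin h]; exact Real.smoothTransition.le_one _
  · rw [bump907_of_not_pfin h]; exact zero_le_one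

/-- The support of the bump function. -/
theorem pfin_of_bump907_ne_zero {𝔫 : Ideal (𝓞 K)} {η : ℝ} (hη : 0 < η) {g : G K}
    (h : bump907 𝔫 η g ≠ 0) : Pfin907 𝔫 g ∧ defect907 g < η := by
  by_cases hP : Pfin907 𝔫 g
  · refine ⟨hP, ?_⟩
    rw [bump907_of_pfin hP] at h
    by_contra hcon
    rw [not_lt] at hcon
    apply h
    apply Real.smoothTransition.zero_of_nonpos
    rw [sub_nonpos, le_div_iff₀ hη, one_mul]
    exact hcon
  · exact absurd (bump907_of_not_pfin hP) h

theorem defect907_one : defect907 (1 : G K) = 0 := by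
  rw [defect907_eq_zero_iff]
  intro w
  have hd : dW907 w (1 : G K) = 1 := dW907_one w
  have hf : frob907 (infComp w (1 : G K)) = 2 := by
    rw [infComp_one, frob907_eq]
    simp
    norm_num
  refine ⟨?_, ?_, ?_⟩
  · unfold tau907
    rw [hd, hf]
    norm_num
  · unfold sig907
    split_ifs
    · rw [hd, infComp_one, Matrix.det_one]
      simp
    · rfl
  · unfold del907
    rw [hd]
    norm_num

theorem bump907_one (𝔫 : Ideal (𝓞 K)) (η : ℝ) : bump907 𝔫 η (1 : G K) = 1 := by
  rw [bump907_of_pfin (pfin907_one 𝔫), defect907_one, zero_div, sub_zero]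
  exact Real.smoothTransition.one

theorem continuous_bump907 {𝔫 : Ideal (𝓞 K)} (h𝔫 : 𝔫 ≠ ⊥) (η : ℝ) :
    Continuous (bump907 𝔫 η) := by
  have hclopen : IsClopen {g : G K | Pfin907 𝔫 g} := ⟨isClosed_pfin907 h𝔫, isOpen_pfin907 h𝔫⟩
  have hcont : Continuous fun g : G K => Real.smoothTransition (1 - defect907 g / η) :=
    Real.smoothTransition.continuous.comp
      (continuous_const.sub (continuous_defect907.div_const η))
  exact hclopen.continuous_indicator hcont

theorem hasCompactSupport_bump907 {𝔫 : Ideal (𝓞 K)} {η : ℝ} (hη : 0 < η) (hη1 : η ≤ 1) :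
    HasCompactSupport (bump907 𝔫 η) := by
  have := Fermat.Agent.LT.H11.LC.t2Space_GL2_adeleRing_h11 K
  refine HasCompactSupport.of_support_subset_isCompact (isCompact_boxG907 (K := K) 4) ?_
  intro g hg
  obtain ⟨hP, hD⟩ := pfin_of_bump907_ne_zero hη hg
  exact mem_boxG907 hP (hD.le.trans hη1)

/-! ## Invariance -/

theorem infComp_eq_one_of_trivAtInf {w : InfinitePlace K} {u : G K} (h : TrivAtInf w u) :
    infComp w u = 1 := by
  rw [infComp_eq_infCompHom, (trivAtInf_iff_hom w u).1 h, Units.val_one,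
    Matrix.map_one _ (map_zero _) (map_one _)]

/-- Elements which are unitary of determinant one (at the real places) at every infinite place
and lie in the level group at the finite places. -/
def IsStab907 (𝔫 : Ideal (𝓞 K)) (k : G K) : Prop :=
  Pfin907 𝔫 k ∧ (∀ w, infComp w k * (infComp w k)ᴴ = 1) ∧
    ∀ w, w.IsReal → (infComp w k).det = 1

theorem isStab907_of_inLevelGroup {𝔫 : Ideal (𝓞 K)} {u : G K} (hu : InLevelGroup 𝔫 u) :
    IsStab907 𝔫 u := by
  refine ⟨pfin907_of_inLevelGroup hu, fun w => ?_, fun w _ => ?_⟩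
  · rw [infComp_eq_one_of_trivAtInf (hu.1 w)]; simp
  · rw [infComp_eq_one_of_trivAtInf (hu.1 w)]; simp

theorem isStab907_of_isArchCompact {𝔫 : Ideal (𝓞 K)} {w₀ : InfinitePlace K} {k : G K}
    (hk : IsArchCompact w₀ k) : IsStab907 𝔫 k := by
  obtain ⟨⟨hloc, hfin⟩, hU, hdet⟩ := hk
  refine ⟨pfin907_of_trivAtFin hfin, fun w => ?_, fun w hw => ?_⟩
  · by_cases h : w = w₀
    · subst h; exact hU
    · rw [infComp_eq_one_of_trivAtInf (hloc w h)]; simp
  · by_cases h : w = w₀
    · subst h; exact hdet hw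
    · rw [infComp_eq_one_of_trivAtInf (hloc w h)]; simp

theorem bump907_mul_right {𝔫 : Ideal (𝓞 K)} (η : ℝ) {k : G K} (hk : IsStab907 𝔫 k) (g : G K) :
    bump907 𝔫 η (g * k) = bump907 𝔫 η g := by
  by_cases h : Pfin907 𝔫 g
  · rw [bump907_of_pfin h, bump907_of_pfin ((pfin907_mul_right_iff hk.1).2 h),
      defect907_mul_right hk.2.1 hk.2.2]
  · rw [bump907_of_not_pfin h, bump907_of_not_pfin (fun H => h ((pfin907_mul_right_iff hk.1).1 H))]

theorem bump907_mul_left {𝔫 : Ideal (𝓞 K)} (η : ℝ) {k : G K} (hk : IsStab907 𝔫 k) (g : G K) :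
    bump907 𝔫 η (k * g) = bump907 𝔫 η g := by
  by_cases h : Pfin907 𝔫 g
  · rw [bump907_of_pfin h, bump907_of_pfin ((pfin907_mul_left_iff hk.1).2 h),
      defect907_mul_left hk.2.1 hk.2.2]
  · rw [bump907_of_not_pfin h, bump907_of_not_pfin (fun H => h ((pfin907_mul_left_iff hk.1).1 H))]

theorem bump907_inv (𝔫 : Ideal (𝓞 K)) (η : ℝ) (g : G K) :
    bump907 𝔫 η g⁻¹ = bump907 𝔫 η g := by
  by_cases h : Pfin907 𝔫 g
  · rw [bump907_of_pfin h, bump907_of_pfin (pfin907_inv h), defect907_inv]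
  · rw [bump907_of_not_pfin h, bump907_of_not_pfin (fun H => h (pfin907_inv_iff.1 H))]

/-! ## Smoothness at infinity -/

theorem contDiff_bump907 (𝔫 : Ideal (𝓞 K)) (η : ℝ) {n : ℕ} {h : (Fin n → ℝ) → G K}
    (hfin : ∀ (t : Fin n → ℝ) (v : HeightOneSpectrum (𝓞 K)), TrivAtFin v (h t))
    (hh : ∀ (w : InfinitePlace K) (i j : Fin 2), ContDiff ℝ ∞ (fun t => infComp w (h t) i j))
    (g : G K) : ContDiff ℝ ∞ (fun t => bump907 𝔫 η (g * h t)) := by
  have hP : ∀ t, Pfin907 𝔫 (g * h t) ↔ Pfin907 𝔫 g := fun t =>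
    pfin907_mul_right_iff (pfin907_of_trivAtFin (hfin t))
  by_cases hg : Pfin907 𝔫 g
  · have : (fun t => bump907 𝔫 η (g * h t))
        = fun t => Real.smoothTransition (1 - defect907 (g * h t) / η) := by
      funext t
      exact bump907_of_pfin ((hP t).2 hg)
    rw [this]
    exact Real.smoothTransition.contDiff.comp
      (contDiff_const.sub ((contDiff_defect907 g hh).div_const η))
  · have : (fun t => bump907 𝔫 η (g * h t)) = fun _ => (0 : ℝ) := by
      funext t
      exact bump907_of_not_pfin (fun H => hg ((hP t).1 H))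
    rw [this]
    exact contDiff_const

/-! ## The test functions -/

/-- The test function `c · bump907 𝔫 η`. -/
def testFn907 (𝔫 : Ideal (𝓞 K)) (η c : ℝ) (g : G K) : ℂ := ((c * bump907 𝔫 η g : ℝ) : ℂ)

theorem isTestFn_testFn907 {𝔫 : Ideal (𝓞 K)} (h𝔫 : 𝔫 ≠ ⊥) {η : ℝ} (hη : 0 < η) (hη1 : η ≤ 1)
    (c : ℝ) : IsTestFn 𝔫 (testFn907 𝔫 η c) where
  cont := Complex.continuous_ofReal.comp (continuous_const.mul (continuous_bump907 h𝔫 η))
  smooth := by
    intro n h hfin hh g
    exact Complex.ofRealCLM.contDiff.comp (contDiff_const.mul (contDiff_bump907 𝔫 η hfin hh g))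
  cpt := by
    have h1 := hasCompactSupport_bump907 (𝔫 := 𝔫) hη hη1
    have h2 : HasCompactSupport fun g : G K => c * bump907 𝔫 η g := h1.mul_left
    exact h2.comp_left (g := fun r : ℝ => (r : ℂ)) Complex.ofReal_zero
  level_right := fun u hu g => by
    unfold testFn907
    rw [bump907_mul_right η (isStab907_of_inLevelGroup hu)]
  level_left := fun u hu g => by
    unfold testFn907
    rw [bump907_mul_left η (isStab907_of_inLevelGroup hu)]
  arch_right := fun w k hk g => by
    unfold testFn907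
    rw [bump907_mul_right η (isStab907_of_isArchCompact hk)]
  arch_left := fun w k hk g => by
    unfold testFn907
    rw [bump907_mul_left η (isStab907_of_isArchCompact hk)]

theorem isSphTestFn_testFn907 {𝔫 : Ideal (𝓞 K)} (h𝔫 : 𝔫 ≠ ⊥) {η : ℝ} (hη : 0 < η) (hη1 : η ≤ 1)
    (c : ℝ) : IsSphTestFn 𝔫 (testFn907 𝔫 η c) where
  test := isTestFn_testFn907 h𝔫 hη hη1 c
  bad_unit := by
    intro g hg v _ i j
    have hb : bump907 𝔫 η g ≠ 0 := by
      intro h0
      apply hg
      unfold testFn907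
      rw [h0, mul_zero, Complex.ofReal_zero]
    have hP := (pfin_of_bump907_ne_zero hη hb).1 v i j
    refine ⟨?_, ?_⟩
    · rw [← coe_finCompHom]
      exact hP.1
    · rw [← coe_finCompHom, map_inv]
      exact hP.2

theorem adj_testFn907 (𝔫 : Ideal (𝓞 K)) (η c : ℝ) : adj (testFn907 𝔫 η c) = testFn907 𝔫 η c := by
  funext g
  unfold adj testFn907
  rw [bump907_inv, Complex.conj_ofReal]

end Fermat.Agent.LT.T2.H907

end

end
-- ===== PACK-END LT/T2/H907/TestFn.lean

-- ===== PACK-BEGIN LT/T2/H465/LeafIntClosed.lean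
section



/-!
# Row LT, tower T2, leaf T2.23c = `LeafIntCore`: CLOSED (helper465), and its consequences

OFF-MAIN.  `leafIntCore465 K : LeafIntCore K` is unconditional.  Consequences:

* `leafInt767_of_leafT14_465 : T2.LeafT14 K → H767.LeafInt K` (T2.03c.2, class of A0);
* `leafT03_of_three465 : LeafFDCore K → LeafSoft1Core K → H767.LeafCount K → T2.LeafT03 K`
  (T2.23 from the three remaining leaves);
* `leaf03_of_three465` (the same for T2.03, with `T2.LeafT14`).
-/

set_option autoImplicit false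

open IsDedekindDomain NumberField MeasureTheory
open Fermat.Agent.LT.H556.A0

noncomputable section

namespace Fermat.Agent.LT.T2.H465

open Fermat.Agent.LT.T2

variable {K : Type} [Field K] [NumberField K]

/-- Type check against the frozen Prop of the cut. -/
example (K : Type) [Field K] [NumberField K] : Fermat.Agent.LT.T2.H465.LeafIntCore K :=
  leafIntCore465 K

/-- T2.03c.2 (`H767.LeafInt`, class of A0) from `T2.LeafT14`. -/
theorem leafInt767_of_leafT14_465 (h14 : LeafT14 K) : H767.LeafInt K :=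
  fun hT1 hC _ _ => localL2_of_core h14 (leafIntCore465 K hT1 hC)

/-- T2.23 from the three remaining leaves. -/
theorem leafT03_of_three465 (hFD : LeafFDCore K) (hS : LeafSoft1Core K)
    (hCount : H767.LeafCount K) : LeafT03 K :=
  leafT03_of_core hFD hS hCount (leafIntCore465 K)

/-- T2.03 from the three remaining leaves and `T2.LeafT14`. -/
theorem leaf03_of_three465 (h14 : LeafT14 K) (hFD : LeafFDCore K) (hS : LeafSoft1Core K)
    (hCount : H767.LeafCount K) : Leaf03 K :=
  leaf03_of_core h14 hFD hS hCount (leafIntCore465 K)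

end Fermat.Agent.LT.T2.H465

end

end
-- ===== PACK-END LT/T2/H465/LeafIntClosed.lean

-- ===== PACK-BEGIN LT/T2/H756/HeckeAdj.lean
section







/-!
# Row LT, tower T2, sub-leaf T2.07.04 `SubHeckeAdj429` (helper756): `T_v* = S_v⁻¹ T_v`

OFF-MAIN.  Sub-spec: `LT/T2/H429/OpsSpec.lean` (helper429).  Local algebra: `HeckeLocal.lean`.

* `cusp_diagPos756` : a cusp function is right invariant under `Z⁺` (`T2.IsDiagPosScalar`): a
  diagonal positive scalar is a product of positive scalars at the single infinite places;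
  `diagPos_central756` : the elements of `Z⁺` are central;
* `pairAt756 F φ ψ a b = ∫_D φ(g a) conj ψ(g b) dμ(g)`; `pairAt_transl756` : it is invariant under
  `(a, b) ↦ (h a, h b)` (this is the KEY LEMMA `SubTransl429` of the sub-spec, a HYPOTHESIS here);
* `heckeAdj_core756` : `⟨T_H φ, ψ⟩ = ⟨φ, S_z⁻¹ T_H ψ⟩` for cusp functions of level prime to `v`;
* `subHeckeAdj_of_transl756 : SubTransl429 K → SubHeckeAdj429 K`.

Proof of the core: `B(h) = ∫_D φ(g h) conj ψ(g)` is left and right invariant under `GL₂(𝒪_v)`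
(KEY LEMMA and the invariance of `φ`, `ψ` under `U(𝔫) ⊇ GL₂(𝒪_v)`), the left side is
`∑_h B(h)`, the right side is `∑_h B(h⁻¹ z)` (KEY LEMMA), and `h`, `h⁻¹ z` lie in the same
double coset `GL₂(𝒪_v) diag(1, ϖ) GL₂(𝒪_v)` (`biInv_eq756`).
-/

set_option autoImplicit false

open IsDedekindDomain NumberField MeasureTheory
open Fermat.Agent.LT.H556.A0 Fermat.Agent.LT.H129 Fermat.Agent.LT.T2

noncomputable section

namespace Fermat.Agent.LT.T2.H756

variable {K : Type} [Field K] [NumberField K]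

attribute [local instance] Fermat.Agent.LT.T2.borelG

open scoped Classical

/-! ## 1. The positive scalars at the infinite places -/

/-- The adele with component `x w` at the infinite places `w ∈ S` and `1` elsewhere. -/
def archAdele756 (x : InfiniteAdeleRing K) (S : Finset (InfinitePlace K)) : Adl K :=
  ((fun w => if w ∈ S then x w else 1 : InfiniteAdeleRing K), 1)

theorem archAdele756_fst (x : InfiniteAdeleRing K) (S : Finset (InfinitePlace K))
    (w : InfinitePlace K) : (archAdele756 x S).1 w = if w ∈ S then x w else 1 := rfl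

theorem archAdele756_snd (x : InfiniteAdeleRing K) (S : Finset (InfinitePlace K)) :
    (archAdele756 x S).2 = 1 := rfl

theorem archAdele756_mul (x y : InfiniteAdeleRing K) (S : Finset (InfinitePlace K)) :
    archAdele756 x S * archAdele756 y S = archAdele756 (fun w => x w * y w) S := by
  refine Prod.ext (funext fun w => ?_) ?_
  · show (archAdele756 x S).1 w * (archAdele756 y S).1 w = _
    rw [archAdele756_fst, archAdele756_fst, archAdele756_fst]
    split_ifs
    · rfl
    · rw [mul_one]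
  · show (archAdele756 x S).2 * (archAdele756 y S).2 = _
    rw [archAdele756_snd, archAdele756_snd, archAdele756_snd, mul_one]

theorem archAdele756_eq_one (x : InfiniteAdeleRing K) (S : Finset (InfinitePlace K))
    (h : ∀ w ∈ S, x w = 1) : archAdele756 x S = 1 := by
  refine Prod.ext (funext fun w => ?_) rfl
  show (archAdele756 x S).1 w = 1
  rw [archAdele756_fst]
  split_ifs with hw
  · exact h w hw
  · rfl

theorem archAdele756_insert (x : InfiniteAdeleRing K) {w : InfinitePlace K}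
    {S : Finset (InfinitePlace K)} (hw : w ∉ S) :
    archAdele756 x (insert w S) = archAdele756 x S * archAdele756 x {w} := by
  refine Prod.ext (funext fun w' => ?_) ?_
  · show (archAdele756 x (insert w S)).1 w'
      = (archAdele756 x S).1 w' * (archAdele756 x {w}).1 w'
    rw [archAdele756_fst, archAdele756_fst, archAdele756_fst]
    by_cases h : w' = w
    · subst h
      rw [if_pos (Finset.mem_insert_self _ _), if_neg hw, if_pos (Finset.mem_singleton_self _),
        one_mul]
    · have h1 : w' ∉ ({w} : Finset (InfinitePlace K)) := by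
        rw [Finset.mem_singleton]; exact h
      rw [if_neg h1, mul_one]
      by_cases h2 : w' ∈ S
      · rw [if_pos h2, if_pos (Finset.mem_insert_of_mem h2)]
      · rw [if_neg h2, if_neg]
        rw [Finset.mem_insert]
        exact fun h3 => h3.elim h h2
  · show (archAdele756 x (insert w S)).2 = (archAdele756 x S).2 * (archAdele756 x {w}).2
    rw [archAdele756_snd, archAdele756_snd, archAdele756_snd, mul_one]

/-- The idele with component `x w` at the infinite places `w ∈ S` and `1` elsewhere. -/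
def archIdele756 (x : InfiniteAdeleRing K) (hx : ∀ w, x w ≠ 0) (S : Finset (InfinitePlace K)) :
    (Adl K)ˣ where
  val := archAdele756 x S
  inv := archAdele756 (fun w => (x w)⁻¹) S
  val_inv := by
    rw [archAdele756_mul]
    exact archAdele756_eq_one _ _ fun w _ => mul_inv_cancel₀ (hx w)
  inv_val := by
    rw [archAdele756_mul]
    exact archAdele756_eq_one _ _ fun w _ => inv_mul_cancel₀ (hx w)

/-- The scalar matrix of `archIdele756`. -/
def archScalar756 (x : InfiniteAdeleRing K) (hx : ∀ w, x w ≠ 0)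
    (S : Finset (InfinitePlace K)) : G K :=
  Units.map ((Matrix.scalar (Fin 2) : Adl K →+* Matrix (Fin 2) (Fin 2) (Adl K)) :
    Adl K →* Matrix (Fin 2) (Fin 2) (Adl K)) (archIdele756 x hx S)

theorem coe_archScalar756 (x : InfiniteAdeleRing K) (hx : ∀ w, x w ≠ 0)
    (S : Finset (InfinitePlace K)) :
    ((archScalar756 x hx S : G K) : Matrix (Fin 2) (Fin 2) (Adl K))
      = Matrix.diagonal (fun _ => archAdele756 x S) := rfl

theorem archScalar756_empty (x : InfiniteAdeleRing K) (hx : ∀ w, x w ≠ 0) :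
    archScalar756 x hx ∅ = 1 := by
  have : archIdele756 x hx ∅ = 1 :=
    Units.ext (archAdele756_eq_one x ∅ fun w hw => absurd hw (Finset.notMem_empty w))
  unfold archScalar756
  rw [this, map_one]

theorem archScalar756_insert (x : InfiniteAdeleRing K) (hx : ∀ w, x w ≠ 0)
    {w : InfinitePlace K} {S : Finset (InfinitePlace K)} (hw : w ∉ S) :
    archScalar756 x hx (insert w S) = archScalar756 x hx S * archScalar756 x hx {w} := by
  have : archIdele756 x hx (insert w S) = archIdele756 x hx S * archIdele756 x hx {w} :=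
    Units.ext (archAdele756_insert x hw)
  unfold archScalar756
  rw [this, map_mul]

theorem archScalar756_apply (x : InfiniteAdeleRing K) (hx : ∀ w, x w ≠ 0)
    (S : Finset (InfinitePlace K)) (i j : Fin 2) :
    ((archScalar756 x hx S : G K) : Matrix (Fin 2) (Fin 2) (Adl K)) i j
      = if i = j then archAdele756 x S else 0 := by
  rw [coe_archScalar756, Matrix.diagonal_apply]

theorem infComp_archScalar756 (x : InfiniteAdeleRing K) (hx : ∀ w, x w ≠ 0)
    (S : Finset (InfinitePlace K)) (w : InfinitePlace K) :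
    infComp w (archScalar756 x hx S) = Matrix.diagonal (fun _ =>
      InfinitePlace.Completion.extensionEmbedding w (if w ∈ S then x w else 1)) := by
  ext i j
  unfold infComp
  rw [archScalar756_apply, Matrix.diagonal_apply]
  by_cases hij : i = j
  · rw [if_pos hij, if_pos hij, archAdele756_fst]
  · rw [if_neg hij, if_neg hij]
    exact map_zero _

theorem trivAtInf_archScalar756 (x : InfiniteAdeleRing K) (hx : ∀ w, x w ≠ 0)
    {S : Finset (InfinitePlace K)} {w : InfinitePlace K} (hw : w ∉ S) :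
    TrivAtInf w (archScalar756 x hx S) := by
  intro i j
  rw [archScalar756_apply, Matrix.one_apply]
  by_cases hij : i = j
  · rw [if_pos hij, if_pos hij, archAdele756_fst, if_neg hw]
  · rw [if_neg hij, if_neg hij]
    rfl

theorem trivAtFin_archScalar756 (x : InfiniteAdeleRing K) (hx : ∀ w, x w ≠ 0)
    (S : Finset (InfinitePlace K)) (v : HeightOneSpectrum (𝓞 K)) :
    TrivAtFin v (archScalar756 x hx S) := by
  unfold TrivAtFin finComp
  ext i j
  rw [archScalar756_apply, Matrix.one_apply]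
  by_cases hij : i = j
  · rw [if_pos hij, if_pos hij, archAdele756_snd]
    rfl
  · rw [if_neg hij, if_neg hij]
    rfl

theorem isArchPosScalar_single756 (x : InfiniteAdeleRing K) (hx : ∀ w, x w ≠ 0)
    (w : InfinitePlace K) {r : ℝ} (hr : 0 < r)
    (hxw : InfinitePlace.Completion.extensionEmbedding w (x w) = (r : ℂ)) :
    IsArchPosScalar w (archScalar756 x hx {w}) := by
  refine ⟨⟨fun w' hw' => trivAtInf_archScalar756 x hx ?_,
    fun v => trivAtFin_archScalar756 x hx _ v⟩, r, hr, ?_⟩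
  · rw [Finset.mem_singleton]; exact hw'
  · rw [infComp_archScalar756, if_pos (Finset.mem_singleton_self _), hxw]

/-- The elements `archScalar756` are central. -/
theorem archScalar756_central (x : InfiniteAdeleRing K) (hx : ∀ w, x w ≠ 0)
    (S : Finset (InfinitePlace K)) (g : G K) :
    g * archScalar756 x hx S = archScalar756 x hx S * g := by
  apply Units.ext
  rw [Units.val_mul, Units.val_mul, coe_archScalar756]
  ext i j
  rw [Matrix.mul_diagonal, Matrix.diagonal_mul, mul_comm]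

/-- An element of `Z⁺` is an `archScalar756` over all infinite places. -/
theorem exists_archScalar756 {z : G K} (hz : IsDiagPosScalar z) :
    ∃ (x : InfiniteAdeleRing K) (hx : ∀ w, x w ≠ 0), z = archScalar756 x hx Finset.univ ∧
      ∃ r : ℝ, 0 < r ∧ ∀ w, InfinitePlace.Completion.extensionEmbedding w (x w) = (r : ℂ) := by
  obtain ⟨hfin, r, hr, hinf⟩ := hz
  have hent : ∀ (w : InfinitePlace K) (i j : Fin 2),
      InfinitePlace.Completion.extensionEmbedding w
        (((z : Matrix (Fin 2) (Fin 2) (Adl K)) i j).1 w)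
        = (Matrix.diagonal (fun _ : Fin 2 => (r : ℂ))) i j :=
    fun w i j => congrFun (congrFun (hinf w) i) j
  have hfinent : ∀ (v : HeightOneSpectrum (𝓞 K)) (i j : Fin 2),
      ((z : Matrix (Fin 2) (Fin 2) (Adl K)) i j).2 v
        = (1 : Matrix (Fin 2) (Fin 2) (v.adicCompletion K)) i j :=
    fun v i j => congrFun (congrFun (hfin v) i) j
  have hr0 : (r : ℂ) ≠ 0 := by exact_mod_cast hr.ne'
  set x : InfiniteAdeleRing K := fun w => ((z : Matrix (Fin 2) (Fin 2) (Adl K)) 0 0).1 w with hxdef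
  have hxr : ∀ w, InfinitePlace.Completion.extensionEmbedding w (x w) = (r : ℂ) := by
    intro w
    have := hent w 0 0
    rwa [Matrix.diagonal_apply_eq] at this
  have hx : ∀ w, x w ≠ 0 := by
    intro w h0
    have := hxr w
    rw [h0, map_zero] at this
    exact hr0 this.symm
  refine ⟨x, hx, ?_, r, hr, hxr⟩
  apply Units.ext
  ext i j : 1
  rw [archScalar756_apply]
  apply adele_ext129
  · intro w
    by_cases hij : i = j
    · rw [if_pos hij, archAdele756_fst, if_pos (Finset.mem_univ _)]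
      apply (InfinitePlace.Completion.extensionEmbedding w).injective
      rw [hxr w, hent w i j, hij, Matrix.diagonal_apply_eq]
    · rw [if_neg hij]
      apply (InfinitePlace.Completion.extensionEmbedding w).injective
      rw [hent w i j, Matrix.diagonal_apply_ne _ hij]
      exact (map_zero _).symm
  · intro v
    rw [hfinent v i j, Matrix.one_apply]
    by_cases hij : i = j
    · rw [if_pos hij, if_pos hij, archAdele756_snd]
      rfl
    · rw [if_neg hij, if_neg hij]
      rfl

/-- The elements of `Z⁺` are central. -/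
theorem diagPos_central756 {z : G K} (hz : IsDiagPosScalar z) (g : G K) : g * z = z * g := by
  obtain ⟨x, hx, rfl, -⟩ := exists_archScalar756 hz
  exact archScalar756_central x hx _ g

/-- A cusp function is right invariant under `Z⁺`. -/
theorem cusp_diagPos756 {𝔫 : Ideal (𝓞 K)} {φ : G K → ℂ} (hφ : IsCuspFn 𝔫 φ) {z : G K}
    (hz : IsDiagPosScalar z) (g : G K) : φ (g * z) = φ g := by
  obtain ⟨x, hx, rfl, r, hr, hxr⟩ := exists_archScalar756 hz
  have key : ∀ (S : Finset (InfinitePlace K)) (g : G K),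
      φ (g * archScalar756 x hx S) = φ g := by
    intro S
    induction S using Finset.induction_on with
    | empty =>
      intro g
      rw [archScalar756_empty, mul_one]
    | insert w S hw ih =>
      intro g
      rw [archScalar756_insert x hx hw, ← mul_assoc,
        hφ.arch_scalar w _ (isArchPosScalar_single756 x hx w hr (hxr w)), ih]
  exact key _ g

/-! ## 2. The Petersson integrals `∫_D φ(g a) conj ψ(g b) dμ(g)` -/

theorem borelSpaceG756 : BorelSpace (G K) := ⟨rfl⟩

/-- `∫_D φ(g a) conj ψ(g b) dμ(g)`. -/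
def pairAt756 (F : Frame K) (φ ψ : G K → ℂ) (a b : G K) : ℂ :=
  ∫ g in F.D, φ (g * a) * (starRingEnd ℂ) (ψ (g * b)) ∂F.μ

theorem integrableOn_pairAt756 (F : Frame K) {φ ψ : G K → ℂ} (hφ : Continuous φ)
    (hψ : Continuous ψ) (bφ : ∃ C : ℝ, ∀ g : G K, ‖φ g‖ ≤ C)
    (bψ : ∃ C : ℝ, ∀ g : G K, ‖ψ g‖ ≤ C) (a b : G K) :
    IntegrableOn (fun g => φ (g * a) * (starRingEnd ℂ) (ψ (g * b))) F.D F.μ := by
  haveI : BorelSpace (G K) := borelSpaceG756
  obtain ⟨C₁, h₁⟩ := bφ
  obtain ⟨C₂, h₂⟩ := bψ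
  have hc : Continuous (fun g => φ (g * a) * (starRingEnd ℂ) (ψ (g * b))) :=
    (hφ.comp (continuous_mul_const a)).mul
      (Complex.continuous_conj.comp (hψ.comp (continuous_mul_const b)))
  refine Measure.integrableOn_of_bounded F.fin.ne hc.aestronglyMeasurable (M := C₁ * C₂)
    (ae_of_all _ fun g => ?_)
  rw [norm_mul, RCLike.norm_conj]
  exact mul_le_mul (h₁ _) (h₂ _) (norm_nonneg _) ((norm_nonneg _).trans (h₁ 1))

/-- The KEY LEMMA in the form used here: `(a, b) ↦ (h a, h b)` does not change `pairAt756`. -/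
theorem pairAt_transl756 (hT : H429.SubTransl429 K) (hT1 : T1.T1Out K) (F : Frame K)
    {𝔫 : Ideal (𝓞 K)} {φ ψ : G K → ℂ} (hφ : IsCuspFn 𝔫 φ) (hψ : IsCuspFn 𝔫 ψ) (h a b : G K) :
    pairAt756 F φ ψ (h * a) (h * b) = pairAt756 F φ ψ a b := by
  have hc : Continuous (fun g => φ (g * a) * (starRingEnd ℂ) (ψ (g * b))) :=
    (hφ.cont.comp (continuous_mul_const a)).mul
      (Complex.continuous_conj.comp (hψ.cont.comp (continuous_mul_const b)))
  obtain ⟨C₁, h₁⟩ := hφ.bdd
  obtain ⟨C₂, h₂⟩ := hψ.bdd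
  have key := hT hT1 F (fun g => φ (g * a) * (starRingEnd ℂ) (ψ (g * b))) hc
    ⟨C₁ * C₂, fun g => by
      rw [norm_mul, RCLike.norm_conj]
      exact mul_le_mul (h₁ _) (h₂ _) (norm_nonneg _) ((norm_nonneg _).trans (h₁ 1))⟩
    (fun γ g => by
      show φ (T1.ratG K γ * g * a) * (starRingEnd ℂ) (ψ (T1.ratG K γ * g * b)) = _
      rw [mul_assoc, mul_assoc]
      have e1 : φ (T1.ratG K γ * (g * a)) = φ (g * a) := hφ.left_inv γ (g * a)
      have e2 : ψ (T1.ratG K γ * (g * b)) = ψ (g * b) := hψ.left_inv γ (g * b)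
      rw [e1, e2])
    (fun z hz g => by
      show φ (g * z * a) * (starRingEnd ℂ) (ψ (g * z * b)) = _
      have e1 : g * z * a = g * a * z := by
        rw [mul_assoc, ← diagPos_central756 hz a, mul_assoc]
      have e2 : g * z * b = g * b * z := by
        rw [mul_assoc, ← diagPos_central756 hz b, mul_assoc]
      rw [e1, e2, cusp_diagPos756 hφ hz, cusp_diagPos756 hψ hz]) h
  unfold pairAt756
  simp only [mul_assoc] at key ⊢
  exact key

/-! ## 3. The core -/

theorem isLocalMaxCptAt_inv756 {v : HeightOneSpectrum (𝓞 K)} {u : G K}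
    (hu : IsLocalMaxCptAt129 v u) : IsLocalMaxCptAt129 v u⁻¹ :=
  ⟨isLocalAtFin_inv129 hu.1, hu.2.2, by rw [inv_inv]; exact hu.2.1⟩

/-- **`T_v* = S_v⁻¹ T_v`** on the cusp functions of level prime to `v`, from the KEY LEMMA. -/
theorem heckeAdj_core756 (hT : H429.SubTransl429 K) (hT1 : T1.T1Out K) (F : Frame K)
    {𝔫 : Ideal (𝓞 K)} {v : HeightOneSpectrum (𝓞 K)} (hv : ¬ v.asIdeal ∣ 𝔫)
    {H : Finset (G K)} (hH : IsHeckeCosetSystem v H) {z : G K}
    (hz : IsScalarUniformizerAt v z) {φ ψ : G K → ℂ} (hφ : IsCuspFn 𝔫 φ)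
    (hψ : IsCuspFn 𝔫 ψ) :
    pair F (heckeSum H φ) ψ = pair F φ (shift z⁻¹ (heckeSum H ψ)) := by
  -- the function `B`
  have hr : ∀ u : G K, IsLocalMaxCptAt129 v u → ∀ g : G K,
      pairAt756 F φ ψ (g * u) 1 = pairAt756 F φ ψ g 1 := by
    intro u hu g
    unfold pairAt756
    have e : ∀ x : G K, φ (x * (g * u)) = φ (x * g) := fun x => by
      rw [← mul_assoc]
      exact hφ.level_inv u (inLevelGroup_of_localMaxCpt129 hv hu) (x * g)
    simp only [e]
  have hl : ∀ u : G K, IsLocalMaxCptAt129 v u → ∀ g : G K,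
      pairAt756 F φ ψ (u * g) 1 = pairAt756 F φ ψ g 1 := by
    intro u hu g
    have h1 : pairAt756 F φ ψ (u * g) 1 = pairAt756 F φ ψ (u * g) (u * u⁻¹) := by
      rw [mul_inv_cancel]
    rw [h1, pairAt_transl756 hT hT1 F hφ hψ]
    unfold pairAt756
    have e : ∀ x : G K, ψ (x * u⁻¹) = ψ (x * 1) := fun x => by
      rw [mul_one]
      exact hψ.level_inv u⁻¹
        (inLevelGroup_of_localMaxCpt129 hv (isLocalMaxCptAt_inv756 hu)) x
    simp only [e]
  -- the left side
  have hL : pair F (heckeSum H φ) ψ = ∑ h ∈ H, pairAt756 F φ ψ h 1 := by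
    unfold pair heckeSum pairAt756
    simp only [Finset.sum_mul, mul_one]
    exact integral_finsetSum H fun h _ => by
      have : Integrable (fun g => φ (g * h) * (starRingEnd ℂ) (ψ (g * 1)))
          (F.μ.restrict F.D) :=
        integrableOn_pairAt756 F hφ.cont hψ.cont hφ.bdd hψ.bdd h 1
      simpa only [mul_one] using this
  -- the right side
  have hR : pair F φ (shift z⁻¹ (heckeSum H ψ)) = ∑ h ∈ H, pairAt756 F φ ψ 1 (z⁻¹ * h) := by
    unfold pair shift heckeSum pairAt756
    simp only [map_sum, Finset.mul_sum, mul_one, mul_assoc]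
    exact integral_finsetSum H fun h _ => by
      have : Integrable (fun g => φ (g * 1) * (starRingEnd ℂ) (ψ (g * (z⁻¹ * h))))
          (F.μ.restrict F.D) :=
        integrableOn_pairAt756 F hφ.cont hψ.cont hφ.bdd hψ.bdd 1 (z⁻¹ * h)
      simpa only [mul_one] using this
  rw [hL, hR]
  refine Finset.sum_congr rfl fun h hh => ?_
  have h1 : pairAt756 F φ ψ 1 (z⁻¹ * h)
      = pairAt756 F φ ψ ((z⁻¹ * h) * (h⁻¹ * z)) ((z⁻¹ * h) * 1) := by
    have e : (z⁻¹ * h) * (h⁻¹ * z) = 1 := by group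
    rw [e, mul_one]
  rw [h1, pairAt_transl756 hT hT1 F hφ hψ]
  exact (biInv_eq756 (fun g => pairAt756 F φ ψ g 1) hl hr (isHeckeAt_of_mem756 hH hh) hz).symm

/-- **T2.07.04** from the KEY LEMMA T2.07.00. -/
theorem subHeckeAdj_of_transl756 (hT : H429.SubTransl429 K) : H429.SubHeckeAdj429 K :=
  fun _ c F _ hv _ hH _ hz _ _ hφ hψ => heckeAdj_core756 hT c.t1 F hv hH hz hφ hψ

end Fermat.Agent.LT.T2.H756

end

end
-- ===== PACK-END LT/T2/H756/HeckeAdj.lean

-- ===== PACK-BEGIN LT/T2/H756/HeckeAdjClosed.lean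
section



/-!
# Row LT, tower T2, sub-leaf T2.07.04 `SubHeckeAdj429` (helper756): CLOSED

OFF-MAIN.  `subHeckeAdj756 : H429.SubHeckeAdj429 K`, unconditional: the conditional form
`subHeckeAdj_of_transl756` (`HeckeAdj.lean`) applied to the KEY LEMMA `H429.subTransl429`
(helper429, `LT/T2/H429/Transl.lean`, byte-identical copy).

Also `heckeAdj756`: the second clause of `T2.OpsAdj` (T2 Spec v3) in the form
`pair F (heckeSum H φ) ψ = pair F φ (shift z⁻¹ (heckeSum H ψ))` for all cusp functions of a level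
prime to `v`, from `T1.T1Out K` alone.
-/

set_option autoImplicit false

open IsDedekindDomain NumberField MeasureTheory
open Fermat.Agent.LT.H556.A0 Fermat.Agent.LT.T2

noncomputable section

namespace Fermat.Agent.LT.T2.H756

variable {K : Type} [Field K] [NumberField K]

attribute [local instance] Fermat.Agent.LT.T2.borelG

/-- **T2.07.04 CLOSED**: `T_v* = S_v⁻¹ T_v` on the cusp functions. -/
theorem subHeckeAdj756 (K : Type) [Field K] [NumberField K] : H429.SubHeckeAdj429 K :=
  subHeckeAdj_of_transl756 (H429.subTransl429 K)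

/-- The explicit adjoint of the Hecke sum, from the output of tower T1 alone (the Hecke clause of
`T2.OpsAdj`). -/
theorem heckeAdj756 (hT1 : T1.T1Out K) (F : Frame K) {𝔫 : Ideal (𝓞 K)}
    {v : HeightOneSpectrum (𝓞 K)} (hv : ¬ v.asIdeal ∣ 𝔫) {H : Finset (G K)}
    (hH : IsHeckeCosetSystem v H) {z : G K} (hz : IsScalarUniformizerAt v z) {φ ψ : G K → ℂ}
    (hφ : IsCuspFn 𝔫 φ) (hψ : IsCuspFn 𝔫 ψ) :
    pair F (heckeSum H φ) ψ = pair F φ (shift z⁻¹ (heckeSum H ψ)) :=
  heckeAdj_core756 (H429.subTransl429 K) hT1 F hv hH hz hφ hψ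

end Fermat.Agent.LT.T2.H756

end

end
-- ===== PACK-END LT/T2/H756/HeckeAdjClosed.lean

-- ===== PACK-BEGIN LT/T6/H75/EllTwClosed.lean
section











/-!
# Row LT, tower T6, leaf T6.20e.2e: `H634.EllTwC634` CLOSED, UNCONDITIONAL (integrator helper75)

OFF-MAIN.  No hole, nothing assumed.  ONE closure (byte-identical copies of the leaves):

* core `twEllOrbital75` and top `ellTwTop75` (helper75, `H75/TwEll*.lean`, `H75/EllTwTop.lean`);
* `cutIndepC75` (helper75, `H75/CutIndep.lean`; spares: helper533, helper228);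
* `torNormC967` (helper967), `twStdC379` (helper379), `torCommC820` (helper820),
  `profC771` (helper771), `boxCC142` (helper142);
* `ellUpC559 : H781.EllUpC` (helper559), `archIntOut189 : H189.ArchIntOut` (helper189).
-/

set_option autoImplicit false

namespace Fermat.Agent.LT.T6.H75

open Fermat.Agent.LT.T6

/-- **T6.20e.2e: the twisted elliptic orbital integral on `GL₂(ℂ)`, final form** (VERBATIM
`H634.EllTwC634`, unconditional). -/
theorem ellTwC634_75 : H634.EllTwC634 :=
  ellTwTop75 cutIndepC75 H967.torNormC967 H379.twStdC379 H820.torCommC820 H771.profC771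
    H142.boxCC142 H559.ellUpC559 H189.archIntOut189

/-- The form used by the top `H634.ellValue_of634` (`hT`). -/
theorem ellTwC634_of_archInt75 : H189.ArchIntOut → H634.EllTwC634 := fun _ => ellTwC634_75

end Fermat.Agent.LT.T6.H75

end
-- ===== PACK-END LT/T6/H75/EllTwClosed.lean

-- ===== PACK-BEGIN LT/T6/H558/QuatSetAsm.lean
section






/-!
# Row LT, tower T6, leaf T6.18i.6b `QuatSettingC385`: ASSEMBLY on the proved T6 leaves

OFF-MAIN.  `quatSetting_of_t6_558 : H159.NewtonC → H305.CptGC305 → H159.QuadUnitNormC → TwCentC →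
H385.QuatSettingC385`: the four sub-leaves of the cut are discharged by byte-identical copies of

* `H276/QuatBdd.lean`   (helper276, sha256 `209f370d…`): `quatBddC276`,
* `H560/QuatSub.lean`   (helper560, sha256 `dfa63bd5…`): `quatSubC560`,
* `H372/QuatUnif.lean`  (helper372, sha256 `67631cb8…`): `leafQuatUnif372`,
* `H197/QuatTorus.lean` (helper197, sha256 `54a81cd7…`): `leafQuatTorus197`.
-/

set_option autoImplicit false

namespace Fermat.Agent.LT.T6.H558

open Fermat.Agent.LT.T6

/-- **T6.18i.6b** on the four T6 leaves `NewtonC`, `CptGC305`, `QuadUnitNormC`, `TwCentC`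
(all PROVED: helper129, helper162, helper313 / helper821 / helper220 / helper159, helper166). -/
theorem quatSetting_of_t6_558 (hN : H159.NewtonC) (hCpt : H305.CptGC305)
    (hQU : H159.QuadUnitNormC) (hTw : TwCentC) : H385.QuatSettingC385 :=
  quatSetting_of558 hN hCpt H276.quatBddC276 H560.quatSubC560 (H372.leafQuatUnif372 hQU)
    (H197.leafQuatTorus197 hTw)

end Fermat.Agent.LT.T6.H558

end
-- ===== PACK-END LT/T6/H558/QuatSetAsm.lean

-- ===== PACK-BEGIN LT/T7/H49/IwQuadLocal.lean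
section


/-!
# Row LT, tower T7, leaf `SD534.RegParamFnC` (helper49, SPARE of row 2184), part 1, OFF-MAIN

Local algebra in `GL₂(F)`, `F` a field with a valuation (on top of the asset IW-KIT of
helper83, `LT/T7/H83/IwLocal.lean`): the elements `n(r) s = [[r, 1], [1, 0]]`, the normaliser
`ω = [[0, 1], [π, 0]]` of the Iwahori subgroup, and the relations behind
`S² = (q - 1) S + q`, `U = S ρ`, `ρ² = z`.  Complete proofs.
-/

set_option autoImplicit false
set_option linter.unusedSectionVars false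
set_option linter.unusedSimpArgs false
set_option linter.unusedVariables false

open Matrix
open Fermat.Agent.LT.H129 Fermat.Agent.LT.T7.H83

noncomputable section

namespace Fermat.Agent.LT.T7.H49

variable {F : Type*} [Field F] {val : Valuation F (WithZero (Multiplicative ℤ))}

/-- `n(r) s = [[r, 1], [1, 0]]`. -/
def sL49 (r : F) : GL (Fin 2) F := mkGL129 r 1 1 0 (by simp)

/-- `ω = [[0, 1], [π, 0]]`. -/
def omL49 (π : F) (hπ : π ≠ 0) : GL (Fin 2) F := mkGL129 0 1 π 0 (by simpa using hπ)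

/-- The scalar matrix `π`. -/
def scL49 (π : F) (hπ : π ≠ 0) : GL (Fin 2) F :=
  mkGL129 π 0 0 π (by simpa using hπ)

@[simp] theorem coe_sL49 (r : F) :
    ((sL49 r : GL (Fin 2) F) : Matrix (Fin 2) (Fin 2) F) = !![r, 1; 1, 0] := rfl

@[simp] theorem coe_omL49 (π : F) (hπ : π ≠ 0) :
    ((omL49 π hπ : GL (Fin 2) F) : Matrix (Fin 2) (Fin 2) F) = !![0, 1; π, 0] := rfl

@[simp] theorem coe_scL49 (π : F) (hπ : π ≠ 0) :
    ((scL49 π hπ : GL (Fin 2) F) : Matrix (Fin 2) (Fin 2) F) = !![π, 0; 0, π] := rfl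

/-- `[[π, r], [0, 1]] = n(r) s · ω`. -/
theorem tL_eq49 (π r : F) (hπ : π ≠ 0) :
    mkGL129 π r 0 1 (by simpa using hπ) = sL49 r * omL49 π hπ := by
  apply ext_mat129
  rw [Matrix.GeneralLinearGroup.coe_mul, coe_mkGL129, coe_sL49, coe_omL49]
  ext i j
  fin_cases i <;> fin_cases j <;> simp [Matrix.mul_apply, Fin.sum_univ_two]

/-- `ω² = π`. -/
theorem om_sq49 (π : F) (hπ : π ≠ 0) : omL49 π hπ * omL49 π hπ = scL49 π hπ := by
  apply ext_mat129
  rw [Matrix.GeneralLinearGroup.coe_mul, coe_scL49, coe_omL49]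
  ext i j
  fin_cases i <;> fin_cases j <;> simp [Matrix.mul_apply, Fin.sum_univ_two]

/-- The inverse of `ω`. -/
theorem om_inv49 (π : F) (hπ : π ≠ 0) :
    (omL49 π hπ)⁻¹ = mkGL129 0 π⁻¹ 1 0 (by simpa using hπ) := by
  rw [inv_eq_iff_mul_eq_one]
  apply ext_mat129
  rw [Matrix.GeneralLinearGroup.coe_mul, coe_mkGL129, coe_omL49]
  ext i j
  fin_cases i <;> fin_cases j <;> simp [Matrix.mul_apply, Fin.sum_univ_two, hπ]

/-- `ω x ω⁻¹ = [[d, c/π], [π b, a]]`. -/
theorem om_conj49 (π : F) (hπ : π ≠ 0) (x : GL (Fin 2) F) :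
    ((omL49 π hπ * x * (omL49 π hπ)⁻¹ : GL (Fin 2) F) : Matrix (Fin 2) (Fin 2) F)
      = !![(x : Matrix (Fin 2) (Fin 2) F) 1 1, (x : Matrix (Fin 2) (Fin 2) F) 1 0 / π;
           π * (x : Matrix (Fin 2) (Fin 2) F) 0 1, (x : Matrix (Fin 2) (Fin 2) F) 0 0] := by
  rw [om_inv49, Matrix.GeneralLinearGroup.coe_mul, Matrix.GeneralLinearGroup.coe_mul,
    coe_mkGL129, coe_omL49]
  ext i j
  fin_cases i <;> fin_cases j <;>
    simp only [Matrix.mul_apply, Fin.sum_univ_two] <;>
    simp [div_eq_mul_inv] <;>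
    field_simp

/-- `ω⁻¹ x ω = ω x ω⁻¹` (as `ω²` is central). -/
theorem om_conj'49 (π : F) (hπ : π ≠ 0) (x : GL (Fin 2) F) :
    (omL49 π hπ)⁻¹ * x * omL49 π hπ = omL49 π hπ * x * (omL49 π hπ)⁻¹ := by
  apply ext_mat129
  rw [om_conj49, om_inv49, Matrix.GeneralLinearGroup.coe_mul, Matrix.GeneralLinearGroup.coe_mul,
    coe_mkGL129, coe_omL49]
  ext i j
  fin_cases i <;> fin_cases j <;>
    simp only [Matrix.mul_apply, Fin.sum_univ_two] <;>
    simp [div_eq_mul_inv, hπ, mul_comm, mul_assoc, mul_left_comm]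

/-- `ω` normalises the Iwahori subgroup. -/
theorem iwL_om_conj49 {π : F} (hπv : val π = WithZero.exp (-1 : ℤ)) (hπ : π ≠ 0)
    {x : GL (Fin 2) F} (hx : IwL val x) : IwL val (omL49 π hπ * x * (omL49 π hπ)⁻¹) := by
  obtain ⟨hint, hdet, hlow⟩ := hx
  have hπ1 : val π < 1 := by
    rw [hπv, ← WithZero.exp_zero, WithZero.exp_lt_exp]
    norm_num
  refine ⟨fun i j => ?_, ?_, ?_⟩
  · rw [om_conj49]
    fin_cases i <;> fin_cases j
    · simpa using hint 1 1
    · simpa using val_div_le_one83 hπv hlow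
    · simpa using val_mul_le_one83 hπ1.le (hint 0 1)
    · simpa using hint 0 0
  · rw [Matrix.GeneralLinearGroup.coe_mul, Matrix.GeneralLinearGroup.coe_mul, Matrix.det_mul,
      Matrix.det_mul, Matrix.coe_units_inv, Matrix.det_nonsing_inv, Ring.inverse_eq_inv',
      map_mul, map_mul, map_inv₀, hdet, mul_one]
    have h0 : val (omL49 π hπ : Matrix (Fin 2) (Fin 2) F).det ≠ 0 := by
      rw [coe_omL49, Matrix.det_fin_two_of]
      simpa using hπ
    exact mul_inv_cancel₀ h0
  · rw [om_conj49]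
    simpa using val_mul_lt_one_left83 hπ1 (hint 0 1)

theorem iwL_om_conj'49 {π : F} (hπv : val π = WithZero.exp (-1 : ℤ)) (hπ : π ≠ 0)
    {x : GL (Fin 2) F} (hx : IwL val x) : IwL val ((omL49 π hπ)⁻¹ * x * omL49 π hπ) := by
  rw [om_conj'49]
  exact iwL_om_conj49 hπv hπ hx

/-- `n(r) s = n(r) · s`. -/
theorem sL_eq49 (r : F) : sL49 r = mkGL129 1 r 0 1 (by simp) * sL49 0 := by
  apply ext_mat129
  rw [Matrix.GeneralLinearGroup.coe_mul, coe_mkGL129, coe_sL49, coe_sL49]
  ext i j
  fin_cases i <;> fin_cases j <;> simp [Matrix.mul_apply, Fin.sum_univ_two]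

/-- `(n(r) s)⁻¹ = s · n(-r)`. -/
theorem sL_inv49 (r : F) : (sL49 r)⁻¹ = sL49 0 * mkGL129 1 (-r) 0 1 (by simp) := by
  rw [inv_eq_iff_mul_eq_one]
  apply ext_mat129
  rw [Matrix.GeneralLinearGroup.coe_mul, Matrix.GeneralLinearGroup.coe_mul, coe_mkGL129,
    coe_sL49, coe_sL49]
  ext i j
  fin_cases i <;> fin_cases j <;> simp [Matrix.mul_apply, Fin.sum_univ_two]

/-- `n(r) s n(r') s ∈ I` if `r' ≡ 0`. -/
theorem iwL_sL_mul49 {r r' : F} (hr : val r ≤ 1) (hr' : val r' < 1) :
    IwL val (sL49 r * sL49 r') := by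
  have hm : ((sL49 r * sL49 r' : GL (Fin 2) F) : Matrix (Fin 2) (Fin 2) F)
      = !![r * r' + 1, r; r', 1] := by
    rw [Matrix.GeneralLinearGroup.coe_mul, coe_sL49, coe_sL49]
    ext i j
    fin_cases i <;> fin_cases j <;> simp [Matrix.mul_apply, Fin.sum_univ_two]
  refine ⟨fun i j => ?_, ?_, ?_⟩
  · rw [hm]
    fin_cases i <;> fin_cases j
    · simpa using val_add_le_one83 (val_mul_le_one83 hr hr'.le) (le_of_eq (map_one val))
    · simpa using hr
    · simpa using hr'.le
    · simp
  · rw [hm, Matrix.det_fin_two_of]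
    have : (r * r' + 1) * 1 - r * r' = 1 := by ring
    rw [this, map_one]
  · rw [hm]
    simpa using hr'

/-- `n(r) s n(r') s ∈ n(r'') s I` if `r'` is a unit and `r'' ≡ r + 1/r'`. -/
theorem iwL_sL_inv_mul49 {r r' r'' : F} (hr' : val r' = 1)
    (hr'' : val (r'' - r - r'⁻¹) < 1) :
    IwL val ((sL49 r'')⁻¹ * (sL49 r * sL49 r')) := by
  have hr'0 : r' ≠ 0 := by
    intro h
    rw [h, map_zero] at hr'
    exact zero_ne_one hr'
  have hm : (((sL49 r'')⁻¹ * (sL49 r * sL49 r') : GL (Fin 2) F) : Matrix (Fin 2) (Fin 2) F)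
      = !![r', 1; 1 + (r - r'') * r', r - r''] := by
    rw [sL_inv49, Matrix.GeneralLinearGroup.coe_mul, Matrix.GeneralLinearGroup.coe_mul,
      Matrix.GeneralLinearGroup.coe_mul, coe_mkGL129, coe_sL49, coe_sL49, coe_sL49]
    ext i j
    fin_cases i <;> fin_cases j <;> simp [Matrix.mul_apply, Fin.sum_univ_two] <;> ring
  -- `ε = r'' - r - 1/r'`
  set ε : F := r'' - r - r'⁻¹ with hε
  have e1 : 1 + (r - r'') * r' = -(ε * r') := by
    rw [hε]
    field_simp
    ring
  have e2 : r - r'' = -(r'⁻¹ + ε) := by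
    rw [hε]
    ring
  have hinv : val r'⁻¹ = 1 := by rw [map_inv₀, hr', inv_one]
  have h10 : val (1 + (r - r'') * r') < 1 := by
    rw [e1, Valuation.map_neg]
    exact val_mul_lt_one_left83 hr'' hr'.le
  have h11 : val (r - r'') = 1 := by
    rw [e2, Valuation.map_neg, add_comm]
    exact val_add_eq_one83 hr'' hinv
  refine ⟨fun i j => ?_, ?_, ?_⟩
  · rw [hm]
    fin_cases i <;> fin_cases j
    · simpa using hr'.le
    · simp
    · simpa using h10.le
    · simpa using h11.le
  · rw [hm, Matrix.det_fin_two_of]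
    have : r' * (r - r'') - 1 * (1 + (r - r'') * r') = -1 := by ring
    rw [this, Valuation.map_neg, map_one]
  · rw [hm]
    simpa using h10

end Fermat.Agent.LT.T7.H49

end

end
-- ===== PACK-END LT/T7/H49/IwQuadLocal.lean

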