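import Mathlib
import Fermat.Agent.Pack.LT2.E0L1
import Fermat.Agent.Pack.LT3.E3L2
import Fermat.Agent.Pack.LT3.E19L0
import Fermat.Agent.Pack.LT3.E0L1
import Fermat.Agent.Pack.LT3.E18L3
import Fermat.Agent.Pack.LT3.E5L0
import Fermat.Agent.Pack.LT3.E7L1
import Fermat.Agent.Pack.LT3.E12L0
import Fermat.Agent.Pack.LT3.E12L1
import Fermat.Agent.Pack.LT3.E8L1
import Fermat.Agent.Pack.LT3.E8L2
import Fermat.Agent.Pack.LT3.E13L1
import Fermat.Agent.Pack.LT3.E10L2
import Fermat.Agent.Pack.LT3.E7L3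

set_option linter.all false

-- ===== PACK-BEGIN LT/T6/H865/TwEllSpec.lean
section








/-!
# Row LT, tower T6, leaf T6.13.3b (`H60.FixTwC`, registry 1133 / 982) -- sub-spec (helper865)

OFF-MAIN.  Definitions + frozen Props of the sub-leaves of `H60.FixTwC`
(helper60 `T6/H60/EllUnrSpec2.lean`, sha256 75a22aba, on `T6/Spec.lean` 89f8f8b8; tree of
helper340 `T6/H340/BTTree.lean`; normal form `IsNF277` and `BallCountC` of helper277
`T6/H277/OrbEllSpec.lean` 7b0956b2).  Nothing is assumed.  Assemblies: `T6/H865/TwEllTop.lean`.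

`k'/k` unramified of prime degree `l`, generator `s`; `δ ∈ GL₂(k')`, `N δ ∼ γ ∈ GL₂(k)` regular,
without eigenvalue in `k`, `k[γ]/k` unramified, `ord det γ = 2 j`, `ord disc γ = 2 j + 2 r`.
`F = btTw340 s _ δ` is the isometry `[x] ↦ [δ s(x)]` of the tree `X'` of `k'`.
CLAIM (`H60.FixTwC`): if `F` fixes a vertex it fixes exactly `ballCard q r` vertices.
The cut is UNIFORM in `l` (no case distinction `l` odd / `l = 2`).

`FixTwC ⇐ TwNFC865 + TwNFCountC865`, `TwNFC865 ⇐ NFExistsC865 + LatSumC865`,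
`TwNFCountC865 ⇐ H90rC865 + FixSigmaC865 + OutsideC865 + CongFixC865 + H277.BallCountC`:
* `NFExistsC865` : `γ` is conjugate to a normal form `ϖ^j (a + ϖ^r w)` with the GIVEN `j`, `r`;
* `LatSumC865` : a finite sum of lattices `h_m 𝒪²` is a lattice `x 𝒪²`;
* `TwNFC865` : TWISTED NORMAL FORM AT THE CENTRE: `x⁻¹ δ s(x) = z u`, `u ∈ GL₂(𝒪')`,
  `N u = a + ϖ^r W`, `a ∈ 𝒪`, `W ∈ GL₂(𝒪')`, `tr W, det W ∈ 𝒪`, `χ_W` without root modulo `ϖ` in
  `𝒪` (the lattice `∑_{m<l} (z⁻¹ δ s)^m Λ₀`, `Λ₀ = G 𝒪'²` stable under `Θ = G w G⁻¹`,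
  `N δ = G γ G⁻¹`: it is stable under `z⁻¹ δ s` and under `Θ`);
* `H90rC865` : `N u ≡ a mod ϖ^r` ⇒ `y⁻¹ u s(y) = c₀ (1 + ϖ^r m)`, `y ∈ GL₂(𝒪')`, `c₀ ∈ 𝒪'ˣ`
  (norm onto the units + Hilbert 90 for `GL₂(𝒪'/ϖ^r)`);
* `CongFixC865` : `g = c₀ (1 + ϖ^r m) ∈ GL₂(𝒪)` fixes the ball of radius `r` around `[1]`
  pointwise (so `F = s` on this ball after `H90rC865`);
* `FixSigmaC865` : a vertex of `X'` fixed by `s` is the image of a vertex of the tree of `k`;
* `OutsideC865` : in twisted normal form no vertex at distance `r + 1` from `[1]` is fixed.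
-/

set_option autoImplicit false

open scoped Matrix

noncomputable section

namespace Fermat.Agent.LT.T6.H865

open Fermat.Agent.LT.T6 Fermat.Agent.LT.T6.H60 Fermat.Agent.LT.H338 Fermat.Agent.LT.T6.H340
  Fermat.Agent.LT.T6.H277

section Defs

variable {k k' : Type} [Field k] [Field k'] [Valued k Γ₀] [Valued k' Γ₀]

/-- `k'/k` is an unramified cyclic extension of local fields of prime degree `l`, generator
`s`, residue fields of `q` and `q ^ l` elements. -/
structure IsUnrExt865 (q l : ℕ) (i : k →+* k') (s : k' ≃+* k') : Prop where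
  hk : IsLocalField k q
  hk' : IsLocalField k' (q ^ l)
  hext : IsLocalExt k k' l 1 i s
  hl : l.Prime

/-- The standing hypotheses of T6.13.3. -/
structure IsEllUnrTw865 (q l : ℕ) (i : k →+* k') (s : k' ≃+* k') (δ : GL (Fin 2) k')
    (γ : GL (Fin 2) k) (j : ℤ) (r : ℕ) : Prop where
  unr : IsUnrExt865 q l i s
  hreg : IsReg γ
  hne : ¬ HasEigen k γ
  hnr : ¬ HasRamUnif k γ
  hconj : IsConj (twNorm s l δ) (Matrix.GeneralLinearGroup.map i γ)
  hj : ordDet γ = 2 * j
  hr : ordDisc γ = 2 * j + 2 * (r : ℤ)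

/-- **The twisted normal form.**  `u, W ∈ GL₂(𝒪')`, `N u = a + ϖ^r W`, `a ∈ 𝒪`,
`tr W = t'`, `det W = n'` in `𝒪`, and `X² - t' X + n'` has no root modulo `ϖ` in `𝒪`. -/
structure IsTwNF865 (l : ℕ) (i : k →+* k') (s : k' ≃+* k') (ϖ a t' n' : k) (r : ℕ)
    (W u : GL (Fin 2) k') : Prop where
  unif : Valued.v ϖ = WithZero.exp (-1 : ℤ)
  a_int : Valued.v a ≤ 1
  t_int : Valued.v t' ≤ 1
  n_unit : Valued.v n' = 1
  irr : ∀ b : k, Valued.v b ≤ 1 → Valued.v (chi277 t' n' b) = 1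
  W_int : InU 0 W
  u_int : InU 0 u
  W_tr : (W : Matrix (Fin 2) (Fin 2) k').trace = i t'
  W_det : (W : Matrix (Fin 2) (Fin 2) k').det = i n'
  norm_eq : (twNorm s l u : Matrix (Fin 2) (Fin 2) k')
    = i a • (1 : Matrix (Fin 2) (Fin 2) k') + i ϖ ^ r • (W : Matrix (Fin 2) (Fin 2) k')

end Defs

/-! ## The leaves -/

/-- **T6.13.3b.1 (NFExists).**  `γ` is conjugate in `GL₂(k)` to a normal form `y = ϖ^j (a + ϖ^r w)`
(from `PolyNFC`, `DiscUnitC`, `CompanionC` of helper277; the exponents are those of the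
hypotheses). -/
def NFExistsC865 : Prop :=
  ∀ (k : Type) [Field k] [Valued k Γ₀] (q : ℕ), IsLocalField k q →
    ∀ (γ : GL (Fin 2) k) (j : ℤ) (r : ℕ), IsReg γ → ¬ HasEigen k γ → ¬ HasRamUnif k γ →
      ordDet γ = 2 * j → ordDisc γ = 2 * j + 2 * (r : ℤ) →
      ∃ (ϖ a : k) (w u y h : GL (Fin 2) k), IsNF277 ϖ j r a w u y ∧ γ = h * y * h⁻¹

/-- **T6.13.3b.2 (LatSum).**  The sum of finitely many lattices `h_m 𝒪²` is a lattice `x 𝒪²`:
`x⁻¹ h_m` is integral for every `m` and `x = ∑ h_m c_m` with integral `c_m`. -/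
def LatSumC865 : Prop :=
  ∀ (k : Type) [Field k] [Valued k Γ₀] (q : ℕ), IsLocalField k q →
    ∀ (n : ℕ) (h : Fin (n + 1) → GL (Fin 2) k),
      ∃ (x : GL (Fin 2) k) (c : Fin (n + 1) → Matrix (Fin 2) (Fin 2) k),
        (∀ m a b, Valued.v (((x⁻¹ * h m : GL (Fin 2) k) : Matrix (Fin 2) (Fin 2) k) a b) ≤ 1) ∧
        (∀ m a b, Valued.v (c m a b) ≤ 1) ∧
        (x : Matrix (Fin 2) (Fin 2) k) = ∑ m, (h m : Matrix (Fin 2) (Fin 2) k) * c m

/-- **T6.13.3b.3 (TwNF).**  The twisted normal form at the centre exists when `l ∣ j`. -/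
def TwNFC865 : Prop :=
  ∀ (k k' : Type) [Field k] [Field k'] [Valued k Γ₀] [Valued k' Γ₀] (q l : ℕ)
    (i : k →+* k') (s : k' ≃+* k') (δ : GL (Fin 2) k') (γ : GL (Fin 2) k) (j : ℤ) (r : ℕ),
    IsEllUnrTw865 q l i s δ γ j r → (l : ℤ) ∣ j →
    ∃ (ϖ a t' n' : k) (W u x : GL (Fin 2) k') (z : k'),
      IsTwNF865 l i s ϖ a t' n' r W u ∧ z ≠ 0 ∧
      ((x⁻¹ * δ * glAut s x : GL (Fin 2) k') : Matrix (Fin 2) (Fin 2) k')
        = z • (u : Matrix (Fin 2) (Fin 2) k')

/-- **T6.13.3b.4 (TwNFCount).**  In twisted normal form the twisted action of `u` has exactly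
`ballCard q r` fixed vertices. -/
def TwNFCountC865 : Prop :=
  ∀ (k k' : Type) [Field k] [Field k'] [Valued k Γ₀] [Valued k' Γ₀] (q l : ℕ)
    (i : k →+* k') (s : k' ≃+* k') (hU : IsUnrExt865 q l i s) (ϖ a t' n' : k) (r : ℕ)
    (W u : GL (Fin 2) k'), IsTwNF865 l i s ϖ a t' n' r W u →
    {p | btTw340 s hU.hext.val_s u p = p}.Finite ∧
      {p | btTw340 s hU.hext.val_s u p = p}.ncard = ballCard q r

/-- **T6.13.3b.5 (H90r).**  `u ∈ GL₂(𝒪')` with `N u ≡ a mod ϖ^r`, `a ∈ k`: then `u` is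
`s`-conjugate under `GL₂(𝒪')` to `c₀ (1 + ϖ^r m)`, `c₀ ∈ 𝒪'ˣ`, `m` integral. -/
def H90rC865 : Prop :=
  ∀ (k k' : Type) [Field k] [Field k'] [Valued k Γ₀] [Valued k' Γ₀] (q l : ℕ)
    (i : k →+* k') (s : k' ≃+* k'), IsUnrExt865 q l i s →
    ∀ (ϖ a : k) (r : ℕ) (u : GL (Fin 2) k') (M : Matrix (Fin 2) (Fin 2) k'),
      Valued.v ϖ = WithZero.exp (-1 : ℤ) → InU 0 u → (∀ b c, Valued.v (M b c) ≤ 1) →
      (twNorm s l u : Matrix (Fin 2) (Fin 2) k')
        = i a • (1 : Matrix (Fin 2) (Fin 2) k') + i ϖ ^ r • M →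
      ∃ (y : GL (Fin 2) k') (c₀ : k') (m : Matrix (Fin 2) (Fin 2) k'),
        InU 0 y ∧ Valued.v c₀ = 1 ∧ (∀ b c, Valued.v (m b c) ≤ 1) ∧
        ((y⁻¹ * u * glAut s y : GL (Fin 2) k') : Matrix (Fin 2) (Fin 2) k')
          = c₀ • ((1 : Matrix (Fin 2) (Fin 2) k') + i ϖ ^ r • m)

/-- **T6.13.3b.6 (FixSigma).**  A vertex of the tree of `k'` fixed by `s` comes from the tree of
`k`. -/
def FixSigmaC865 : Prop :=
  ∀ (k k' : Type) [Field k] [Field k'] [Valued k Γ₀] [Valued k' Γ₀] (q l : ℕ)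
    (i : k →+* k') (s : k' ≃+* k') (hU : IsUnrExt865 q l i s) (x : GL (Fin 2) k'),
    btAut340 s hU.hext.val_s (btMk340 x) = btMk340 x →
    ∃ x₀ : GL (Fin 2) k, btMk340 (Matrix.GeneralLinearGroup.map i x₀) = btMk340 x

/-- **T6.13.3b.7 (Outside).**  In twisted normal form no vertex at distance `r + 1` from `[1]`
is fixed by the twisted action of `u`. -/
def OutsideC865 : Prop :=
  ∀ (k k' : Type) [Field k] [Field k'] [Valued k Γ₀] [Valued k' Γ₀] (q l : ℕ)
    (i : k →+* k') (s : k' ≃+* k') (hU : IsUnrExt865 q l i s) (ϖ a t' n' : k) (r : ℕ)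
    (W u : GL (Fin 2) k'), IsTwNF865 l i s ϖ a t' n' r W u →
    ∀ p : BTVert340 k', btDist340 (btMk340 1) p = r + 1 → btTw340 s hU.hext.val_s u p ≠ p

/-- **T6.13.3b.8 (CongFix).**  `g ∈ GL₂(𝒪)`, `g = c₀ (1 + ϖ^r m)` with `m` integral, fixes every
vertex at distance `≤ r` from `[1]`. -/
def CongFixC865 : Prop :=
  ∀ (k : Type) [Field k] [Valued k Γ₀] (q : ℕ), IsLocalField k q →
    ∀ (ϖ c₀ : k) (r : ℕ) (g : GL (Fin 2) k) (m : Matrix (Fin 2) (Fin 2) k),
      Valued.v ϖ = WithZero.exp (-1 : ℤ) → InU 0 g → (∀ b c, Valued.v (m b c) ≤ 1) →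
      (g : Matrix (Fin 2) (Fin 2) k) = c₀ • ((1 : Matrix (Fin 2) (Fin 2) k) + ϖ ^ r • m) →
      ∀ x : GL (Fin 2) k, cdist340 x ≤ r → cdist340 (x⁻¹ * g * x) = 0

end Fermat.Agent.LT.T6.H865

end
end
-- ===== PACK-END LT/T6/H865/TwEllSpec.lean

-- ===== PACK-BEGIN LT/T6/H60/EllUnrAsm.lean
section






/-!
# Row LT, tower T6, leaf T6.13 -- ASSEMBLY on the tree (helper60), OFF-MAIN

`flEllUnr_of_four60 : VertSumGeoC → VertSumTwC → FixGeoC → FixTwC → FLEllUnrC`:
the fundamental lemma at regular elliptic `γ` with `k[γ]/k` unramified, from the four finer leaves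
of `EllUnrSpec2.lean` (the algebra `BCGeoC` is proved in `BCGeo.lean`).

* `cartan_conj60`, `cartan_twconj60` : the integrand on the vertices (for the owners of the
  vertex-sum leaves): `cartan (x⁻¹ γ x) = invOf60 (ordDet γ) (btDist340 [x] (γ [x]))`.
* `vertSum_regroup60` : a plain vertex sum regrouped by the displacement.
* `weight_even60`, `weight_odd60` : the displacement counts of helper338
  (`ncard_disp_even338`, `ncard_disp_odd338`) are the weights `wFix`, `wTwOdd`.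
* `iterate_btTw_order60` : `(δ σ)^l = N δ` on the vertices; `ordDet_norm60` :
  `l · ord det δ = ord det γ`.
* `orbEllUnr_of60 : VertSumGeoC → FixGeoC → OrbEllUnrC`,
  `twOrbEllUnr_of60 : VertSumTwC → FixGeoC → FixTwC → TwOrbEllUnrC`
  (`fixed_or_inv338`: `δ σ` fixes a vertex, then `l ∣ j`, or inverts an edge, then `l = 2` and
  `j` is odd).
-/

set_option autoImplicit false

open scoped Matrix

noncomputable section

namespace Fermat.Agent.LT.T6.H60

open Fermat.Agent.LT.T6 Fermat.Agent.LT.T6.H340 Fermat.Agent.LT.H338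

/-! ### The Cartan invariant from the determinant and the displacement -/

section Basic

variable {k : Type} [Field k] [Valued k Γ₀]

set_option linter.unusedSectionVars false

theorem cartan_eq_invOf60 (g : GL (Fin 2) k) : cartan g = invOf60 (ordDet g) (cdist340 g) := by
  have h1 := cartan_fst_sub_snd340 g
  have h2 := cartan_fst_add_snd340 g
  unfold invOf60 ordDet
  ext
  · simp only
    omega
  · simp only
    omega

theorem det_conj60 (γ x : GL (Fin 2) k) :
    ((x⁻¹ * γ * x : GL (Fin 2) k) : Matrix (Fin 2) (Fin 2) k).det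
      = (γ : Matrix (Fin 2) (Fin 2) k).det := by
  have h : ((x⁻¹ : GL (Fin 2) k) : Matrix (Fin 2) (Fin 2) k).det
      * (x : Matrix (Fin 2) (Fin 2) k).det = 1 := by
    rw [← Matrix.det_mul, ← Units.val_mul, inv_mul_cancel, Units.val_one, Matrix.det_one]
  rw [Units.val_mul, Units.val_mul, Matrix.det_mul, Matrix.det_mul]
  linear_combination (γ : Matrix (Fin 2) (Fin 2) k).det * h

theorem ordDet_conj60 (γ x : GL (Fin 2) k) : ordDet (x⁻¹ * γ * x) = ordDet γ := by
  unfold ordDet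
  rw [det_conj60]

theorem det_glAut60 (s : k ≃+* k) (g : GL (Fin 2) k) :
    ((glAut s g : GL (Fin 2) k) : Matrix (Fin 2) (Fin 2) k).det
      = s (g : Matrix (Fin 2) (Fin 2) k).det := by
  rw [Matrix.det_fin_two, Matrix.det_fin_two]
  simp only [coe_glAut340, map_sub, map_mul]

theorem vdet_twconj60 (s : k ≃+* k) (hs : ∀ y : k, Valued.v (s y) = Valued.v y)
    (δ x : GL (Fin 2) k) :
    Valued.v ((x⁻¹ * δ * glAut s x : GL (Fin 2) k) : Matrix (Fin 2) (Fin 2) k).det
      = Valued.v (δ : Matrix (Fin 2) (Fin 2) k).det := by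
  have h : ((x⁻¹ : GL (Fin 2) k) : Matrix (Fin 2) (Fin 2) k).det
      * (x : Matrix (Fin 2) (Fin 2) k).det = 1 := by
    rw [← Matrix.det_mul, ← Units.val_mul, inv_mul_cancel, Units.val_one, Matrix.det_one]
  have h' : Valued.v ((x⁻¹ : GL (Fin 2) k) : Matrix (Fin 2) (Fin 2) k).det
      * Valued.v (x : Matrix (Fin 2) (Fin 2) k).det = 1 := by
    rw [← map_mul, h, map_one]
  rw [Units.val_mul, Units.val_mul, Matrix.det_mul, Matrix.det_mul, map_mul, map_mul,
    det_glAut60, hs, mul_right_comm, h', one_mul]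

theorem ordDet_twconj60 (s : k ≃+* k) (hs : ∀ y : k, Valued.v (s y) = Valued.v y)
    (δ x : GL (Fin 2) k) : ordDet (x⁻¹ * δ * glAut s x) = ordDet δ := by
  unfold ordDet
  rw [vdet_twconj60 s hs]

/-- For the owners of `VertSumGeoC`: the integrand on the vertices. -/
theorem cartan_conj60 (γ x : GL (Fin 2) k) :
    cartan (x⁻¹ * γ * x)
      = invOf60 (ordDet γ) (btDist340 (btMk340 x) (btMul340 γ (btMk340 x))) := by
  rw [cartan_eq_invOf60, ordDet_conj60, btDist340_mul_mk]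

/-- For the owners of `VertSumTwC`: the integrand on the vertices. -/
theorem cartan_twconj60 (s : k ≃+* k) (hs : ∀ y : k, Valued.v (s y) = Valued.v y)
    (δ x : GL (Fin 2) k) :
    cartan (x⁻¹ * δ * glAut s x)
      = invOf60 (ordDet δ) (btDist340 (btMk340 x) (btTw340 s hs δ (btMk340 x))) := by
  rw [cartan_eq_invOf60, ordDet_twconj60 s hs, btDist340_tw_mk]

/-- Parity: `ord det` of a (twisted) conjugate and the displacement. -/
theorem ordDet_add_cdist_even60 (g : GL (Fin 2) k) : (2 : ℤ) ∣ ordDet g + (cdist340 g : ℤ) := by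
  have h1 := cartan_fst_sub_snd340 g
  have h2 := cartan_fst_add_snd340 g
  unfold ordDet
  exact ⟨(cartan g).1, by omega⟩

end Basic

/-! ### Regrouping a vertex sum by the displacement -/

section Regroup

variable {V : Type} (disp : V → ℕ) (D : ℤ)

theorem invOf60_inj {D : ℤ} {m : ℕ} (hpar : (2 : ℤ) ∣ D + (m : ℤ)) (lam : ℤ × ℤ) :
    invOf60 D m = lam ↔ (lam.1 + lam.2 = D ∧ lam.2 ≤ lam.1 ∧ (lam.1 - lam.2).toNat = m) := by
  obtain ⟨a, b⟩ := lam
  unfold invOf60
  simp only [Prod.mk.injEq]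
  obtain ⟨t, ht⟩ := hpar
  constructor
  · rintro ⟨h1, h2⟩
    omega
  · rintro ⟨h1, h2, h3⟩
    omega

/-- **Regrouping.**  If all displacements have the parity of `D` and the sets of vertices of a
given displacement are finite, a plain vertex sum of `φ (inv v)` is the sum of `φ (lam)` times
the number of vertices with `inv v = lam`. -/
theorem vertSum_regroup60 (hpar : ∀ v, (2 : ℤ) ∣ D + (disp v : ℤ))
    (hfin : ∀ m : ℕ, {v | disp v = m}.Finite) (φ : (ℤ × ℤ) →₀ ℂ) (c : ℂ)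
    (H : ∀ S : Finset V, (∀ v, φ (invOf60 D (disp v)) ≠ 0 → v ∈ S) →
      c = ∑ v ∈ S, φ (invOf60 D (disp v))) :
    c = φ.sum fun lam x => x *
      (if lam.1 + lam.2 = D ∧ lam.2 ≤ lam.1
        then ({v | disp v = (lam.1 - lam.2).toNat}.ncard : ℂ) else 0) := by
  classical
  -- the fibre of `lam`
  set Fib : ℤ × ℤ → Finset V := fun lam =>
    if lam.1 + lam.2 = D ∧ lam.2 ≤ lam.1 then (hfin (lam.1 - lam.2).toNat).toFinset else ∅
    with hFib
  have hmem : ∀ lam v, v ∈ Fib lam ↔ invOf60 D (disp v) = lam := by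
    intro lam v
    rw [invOf60_inj (hpar v)]
    simp only [hFib]
    split_ifs with h
    · rw [Set.Finite.mem_toFinset]
      simp only [Set.mem_ofPred_eq]
      constructor
      · intro hv; exact ⟨h.1, h.2, hv.symm⟩
      · intro hv; exact hv.2.2.symm
    · simp only [Finset.notMem_empty, false_iff]
      intro hv
      exact h ⟨hv.1, hv.2.1⟩
  have hcard : ∀ lam, ((Fib lam).card : ℂ)
      = (if lam.1 + lam.2 = D ∧ lam.2 ≤ lam.1
        then ({v | disp v = (lam.1 - lam.2).toNat}.ncard : ℂ) else 0) := by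
    intro lam
    simp only [hFib]
    split_ifs with h
    · rw [Set.ncard_eq_toFinset_card _ (hfin _)]
    · simp
  have hS := H (φ.support.biUnion Fib) (by
    intro v hv
    rw [Finset.mem_biUnion]
    exact ⟨invOf60 D (disp v), Finsupp.mem_support_iff.2 hv, (hmem _ v).2 rfl⟩)
  rw [hS, Finset.sum_biUnion]
  · unfold Finsupp.sum
    refine Finset.sum_congr rfl fun lam _ => ?_
    show ∑ i ∈ Fib lam, φ (invOf60 D (disp i)) = φ lam *
      (if lam.1 + lam.2 = D ∧ lam.2 ≤ lam.1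
        then ({v | disp v = (lam.1 - lam.2).toNat}.ncard : ℂ) else 0)
    rw [← hcard lam]
    rw [Finset.sum_congr rfl (fun v hv => by rw [(hmem lam v).1 hv]), Finset.sum_const,
      nsmul_eq_mul, mul_comm]
  · intro lam _ lam' _ hne
    rw [Function.onFun, Finset.disjoint_left]
    intro v hv hv'
    exact hne (((hmem lam v).1 hv).symm.trans ((hmem lam' v).1 hv'))

end Regroup

/-! ### The displacement counts of helper338 as weights -/

section Weights

variable {V : Type} {d : V → V → ℕ} (hd : IsTreeDist338 d)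
  (Q : ℕ) (hQ : 1 ≤ Q) (hreg : ∀ v, {w | d v w = 1}.ncard = Q + 1)
  (g : V → V) (hg : ∀ x y, d (g x) (g y) = d x y)

include hd in
theorem disp_zero_set60 : {v | d v (g v) = 0} = {v | g v = v} := by
  ext v
  simp only [Set.mem_ofPred_eq]
  rw [hd.eq_zero]
  exact eq_comm

include hd hQ hreg hg in
theorem fin_even60 (n₀ : ℕ) (hn₀ : 1 ≤ n₀) (hfix : {x | g x = x}.ncard = n₀) (m : ℕ) :
    {v | d v (g v) = m}.Finite := by
  have hF : {x | g x = x}.Finite := Set.finite_of_ncard_pos (by omega)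
  obtain ⟨o, ho⟩ : ∃ o, g o = o := by
    have : {x | g x = x}.Nonempty := (Set.ncard_pos hF).1 (by omega)
    exact this
  rcases Nat.even_or_odd m with he | ho'
  · obtain ⟨t, ht⟩ := he
    rcases t with _ | e
    · have : m = 0 := by omega
      rw [this, disp_zero_set60 hd g]
      exact hF
    · apply Set.finite_of_ncard_pos
      have hm : m = 2 * (e + 1) := by omega
      rw [hm, ncard_disp_even338 hd Q hreg g hg o ho hF e, hfix]
      have h1 : 0 < Q * n₀ + 2 - n₀ := by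
        have : n₀ ≤ Q * n₀ := Nat.le_mul_of_pos_left n₀ hQ
        omega
      exact Nat.mul_pos h1 (pow_pos hQ e)
  · have : {v | d v (g v) = m} = ∅ := by
      ext v
      simp only [Set.mem_ofPred_eq, Set.mem_empty_iff_false, iff_false]
      intro hv
      have := disp_even338 hd g hg o ho v
      rw [hv] at this
      exact (Nat.not_even_iff_odd.2 ho') this
    rw [this]
    exact Set.finite_empty

include hd hQ hreg hg in
theorem weight_even60 (n₀ : ℕ) (hn₀ : 1 ≤ n₀) (hfix : {x | g x = x}.ncard = n₀) (a : ℤ)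
    (lam : ℤ × ℤ) :
    (if lam.1 + lam.2 = 2 * a ∧ lam.2 ≤ lam.1
        then ({v | d v (g v) = (lam.1 - lam.2).toNat}.ncard : ℂ) else 0)
      = wFix (Q : ℂ) (n₀ : ℂ) a lam := by
  have hF : {x | g x = x}.Finite := Set.finite_of_ncard_pos (by omega)
  obtain ⟨o, ho⟩ : ∃ o, g o = o := by
    have : {x | g x = x}.Nonempty := (Set.ncard_pos hF).1 (by omega)
    exact this
  unfold wFix
  by_cases hs : lam.1 + lam.2 = 2 * a
  · rw [if_pos hs]
    by_cases he : lam.1 = lam.2
    · rw [if_pos ⟨hs, he.ge⟩, if_pos he]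
      have : (lam.1 - lam.2).toNat = 0 := by omega
      rw [this, disp_zero_set60 hd g, hfix]
    · rw [if_neg he]
      by_cases hlt : lam.2 < lam.1
      · rw [if_pos ⟨hs, hlt.le⟩, if_pos hlt]
        obtain ⟨e, he'⟩ : ∃ e : ℕ, (lam.1 - a).toNat = e + 1 := ⟨(lam.1 - a).toNat - 1, by omega⟩
        have hm : (lam.1 - lam.2).toNat = 2 * (e + 1) := by omega
        rw [hm, ncard_disp_even338 hd Q hreg g hg o ho hF e, hfix, he']
        have h1 : n₀ ≤ Q * n₀ + 2 := by
          have : n₀ ≤ Q * n₀ := Nat.le_mul_of_pos_left n₀ hQ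
          omega
        rw [Nat.add_sub_cancel]
        push_cast [Nat.cast_sub h1]
        ring
      · rw [if_neg (fun h => hlt (lt_of_le_of_ne h.2 (Ne.symm he))), if_neg hlt]
  · rw [if_neg hs, if_neg (fun h => hs h.1)]

variable (a b : V) (hab : d a b = 1) (hga : g a = b) (hgb : g b = a)

include hd hQ hreg hg hab hga hgb in
theorem fin_odd60 (m : ℕ) : {v | d v (g v) = m}.Finite := by
  rcases Nat.even_or_odd m with he | ho'
  · have : {v | d v (g v) = m} = ∅ := by
      ext v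
      simp only [Set.mem_ofPred_eq, Set.mem_empty_iff_false, iff_false]
      intro hv
      have := disp_odd338 hd g hg a b hab hga hgb v
      rw [hv] at this
      exact (Nat.not_odd_iff_even.2 he) this
    rw [this]
    exact Set.finite_empty
  · obtain ⟨e, he⟩ := ho'
    apply Set.finite_of_ncard_pos
    rw [he, ncard_disp_odd338 hd Q hreg g hg a b hab hga hgb e]
    exact Nat.mul_pos (by norm_num) (pow_pos hQ e)

include hd hreg hg hab hga hgb in
theorem weight_odd60 (q : ℕ) (hq : Q = q ^ 2) (j : ℤ) (hj : ¬ (2 : ℤ) ∣ j) (lam : ℤ × ℤ) :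
    (if lam.1 + lam.2 = j ∧ lam.2 ≤ lam.1
        then ({v | d v (g v) = (lam.1 - lam.2).toNat}.ncard : ℂ) else 0)
      = wTwOdd q j lam := by
  unfold wTwOdd
  by_cases hs : lam.1 + lam.2 = j ∧ lam.2 ≤ lam.1
  · have hlt : lam.2 < lam.1 := by
      rcases lt_or_eq_of_le hs.2 with h | h
      · exact h
      · exfalso; apply hj; exact ⟨lam.2, by omega⟩
    rw [if_pos hs, if_pos ⟨hs.1, hlt⟩]
    obtain ⟨e, he⟩ : ∃ e : ℕ, ((lam.1 - lam.2 - 1) / 2).toNat = e := ⟨_, rfl⟩
    have hm : (lam.1 - lam.2).toNat = 2 * e + 1 := by omega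
    rw [hm, ncard_disp_odd338 hd Q hreg g hg a b hab hga hgb e, he, hq]
    push_cast
    ring
  · rw [if_neg hs, if_neg (fun h => hs ⟨h.1, h.2.le⟩)]

end Weights

/-! ### The assembly on the tree of `k` -/

theorem ballCard_pos60 (q r : ℕ) : 1 ≤ ballCard q r := by
  unfold ballCard
  omega

/-- **T6.13.2 from the vertex sum and the fixed ball.** -/
theorem orbEllUnr_of60 (hV : VertSumGeoC) (hF : FixGeoC) : OrbEllUnrC := by
  intro k _ _ q hk γ hreg hE hR
  obtain ⟨j, r, hj, hr, hfix⟩ := hF k q hk γ hreg hE hR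
  refine ⟨j, r, hj, hr, ?_⟩
  intro f c' hc'
  have hd := isTreeDist_btDist340 hk
  have hnb := ncard_nb_btDist340 hk
  have hq : 1 ≤ q := (one_lt_of_isLocalField hk).le
  have hg := btDist340_mul γ
  have hpos := ballCard_pos60 q r
  have hfin := fin_even60 hd q hq hnb (btMul340 γ) hg (ballCard q r) hpos hfix
  have hpar : ∀ v, (2 : ℤ) ∣ ordDet γ + (btDist340 v (btMul340 γ v) : ℤ) := by
    intro v
    obtain ⟨x, rfl⟩ := btMk340_surjective v
    rw [btDist340_mul_mk, ← ordDet_conj60 γ x]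
    exact ordDet_add_cdist_even60 _
  have := vertSum_regroup60 (fun v => btDist340 v (btMul340 γ v)) (ordDet γ) hpar hfin f c'
    (hV k q hk γ hreg hE hR f c' hc')
  rw [this]
  refine Finsupp.sum_congr fun lam _ => ?_
  rw [hj, weight_even60 hd q hq hnb (btMul340 γ) hg (ballCard q r) hpos hfix j lam]
  rfl

/-! ### The twisted action and the norm -/

section Twisted

variable {k k' : Type} [Field k] [Field k'] [Valued k Γ₀] [Valued k' Γ₀]

set_option linter.unusedSectionVars false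

theorem coe_map60 (i : k →+* k') (g : GL (Fin 2) k) (a b : Fin 2) :
    ((Matrix.GeneralLinearGroup.map i g : GL (Fin 2) k') : Matrix (Fin 2) (Fin 2) k') a b
      = i ((g : Matrix (Fin 2) (Fin 2) k) a b) := rfl

theorem det_map60 (i : k →+* k') (g : GL (Fin 2) k) :
    ((Matrix.GeneralLinearGroup.map i g : GL (Fin 2) k') : Matrix (Fin 2) (Fin 2) k').det
      = i (g : Matrix (Fin 2) (Fin 2) k).det := by
  rw [Matrix.det_fin_two, Matrix.det_fin_two]
  simp only [coe_map60, map_sub, map_mul]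

theorem cartan_map60 (i : k →+* k') (hi : ∀ x : k, Valued.v (i x) = Valued.v x)
    (g : GL (Fin 2) k) : cartan (Matrix.GeneralLinearGroup.map i g) = cartan g := by
  have h1 : entryMax (Matrix.GeneralLinearGroup.map i g) = entryMax g := by
    unfold entryMax
    congr 1
    funext p
    rw [coe_map60, hi]
  unfold cartan
  rw [h1, det_map60, hi]

theorem cdist340_map60 (i : k →+* k') (hi : ∀ x : k, Valued.v (i x) = Valued.v x)
    (g : GL (Fin 2) k) : cdist340 (Matrix.GeneralLinearGroup.map i g) = cdist340 g := by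
  unfold cdist340
  rw [cartan_map60 i hi]

theorem ordDet_map60 (i : k →+* k') (hi : ∀ x : k, Valued.v (i x) = Valued.v x)
    (g : GL (Fin 2) k) : ordDet (Matrix.GeneralLinearGroup.map i g) = ordDet g := by
  unfold ordDet
  rw [det_map60, hi]

variable (s : k' ≃+* k') (hs : ∀ y : k', Valued.v (s y) = Valued.v y)

theorem coe_iterate_glAut60 (n : ℕ) (x : GL (Fin 2) k') (a b : Fin 2) :
    (((glAut s)^[n] x : GL (Fin 2) k') : Matrix (Fin 2) (Fin 2) k') a b
      = (s ^ n) ((x : Matrix (Fin 2) (Fin 2) k') a b) := by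
  induction n with
  | zero => simp
  | succ n ih =>
    rw [Function.iterate_succ_apply', coe_glAut340, ih, pow_succ', RingAut.mul_apply]

theorem iterate_glAut60 (l : ℕ) (hord : ∀ y : k', (s ^ l) y = y) (x : GL (Fin 2) k') :
    (glAut s)^[l] x = x := by
  apply Units.ext
  ext a b
  rw [coe_iterate_glAut60, hord]

theorem iterate_btTw60 (δ : GL (Fin 2) k') (n : ℕ) (x : GL (Fin 2) k') :
    (btTw340 s hs δ)^[n] (btMk340 x) = btMk340 (twNorm s n δ * (glAut s)^[n] x) := by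
  induction n with
  | zero =>
    simp only [Function.iterate_zero, id_eq]
    unfold twNorm twN
    rw [one_mul]
  | succ n ih =>
    rw [Function.iterate_succ_apply', ih, btTw340_mk, Function.iterate_succ_apply', map_mul]
    unfold twNorm
    rw [show twN (glAut s) (n + 1) δ = δ * glAut s (twN (glAut s) n δ) from rfl, mul_assoc]

theorem iterate_btTw_order60 (δ : GL (Fin 2) k') (l : ℕ) (hord : ∀ y : k', (s ^ l) y = y)
    (v : BTVert340 k') : (btTw340 s hs δ)^[l] v = btMul340 (twNorm s l δ) v := by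
  obtain ⟨x, rfl⟩ := btMk340_surjective v
  rw [iterate_btTw60, iterate_glAut60 s l hord, btMul340_mk]

include hs in
theorem vdet_twNorm60 (δ : GL (Fin 2) k') (n : ℕ) :
    Valued.v ((twNorm s n δ : GL (Fin 2) k') : Matrix (Fin 2) (Fin 2) k').det
      = Valued.v (δ : Matrix (Fin 2) (Fin 2) k').det ^ n := by
  induction n with
  | zero =>
    unfold twNorm twN
    simp
  | succ n ih =>
    unfold twNorm at ih ⊢
    rw [show twN (glAut s) (n + 1) δ = δ * glAut s (twN (glAut s) n δ) from rfl,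
      Units.val_mul, Matrix.det_mul, map_mul, det_glAut60, hs, ih, pow_succ, mul_comm]

theorem det_of_isConj60 {a b : GL (Fin 2) k'} (h : IsConj a b) :
    (a : Matrix (Fin 2) (Fin 2) k').det = (b : Matrix (Fin 2) (Fin 2) k').det := by
  obtain ⟨c, hc⟩ := isConj_iff.1 h
  have : a = c⁻¹ * b * c := by rw [← hc]; group
  rw [this, det_conj60]

include hs in
/-- `l · ord det δ = ord det γ`. -/
theorem ordDet_norm60 (i : k →+* k') (hi : ∀ x : k, Valued.v (i x) = Valued.v x)
    (δ : GL (Fin 2) k') (γ : GL (Fin 2) k) (l : ℕ)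
    (hconj : IsConj (twNorm s l δ) (Matrix.GeneralLinearGroup.map i γ)) :
    (l : ℤ) * ordDet δ = ordDet γ := by
  have h1 := vdet_twNorm60 s hs δ l
  rw [det_of_isConj60 hconj, det_map60, hi] at h1
  unfold ordDet
  rw [h1, WithZero.log_pow]
  simp only [nsmul_eq_mul]
  ring

end Twisted

/-! ### The assembly on the tree of `k'` -/

/-- **T6.13.3 from the vertex sum and the fixed vertices.** -/
theorem twOrbEllUnr_of60 (hV : VertSumTwC) (hFG : FixGeoC) (hFT : FixTwC) : TwOrbEllUnrC := by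
  intro k k' _ _ _ _ q l i s hk hk' hext hl δ γ hreg hE hR hconj j r hj hr
  have hs := hext.val_s
  have hi : ∀ x : k, Valued.v (i x) = Valued.v x := fun x => by rw [hext.val_i, pow_one]
  have hd := isTreeDist_btDist340 hk'
  have hnb := ncard_nb_btDist340 hk'
  have hq := one_lt_of_isLocalField hk
  have hQ : 1 ≤ q ^ l := Nat.one_le_pow _ _ (by omega)
  have hg := btDist340_tw s hs δ
  have hdet := ordDet_norm60 s hs i hi δ γ l hconj
  rw [hj] at hdet
  have hpar : ∀ v, (2 : ℤ) ∣ ordDet δ + (btDist340 v (btTw340 s hs δ v) : ℤ) := by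
    intro v
    obtain ⟨x, rfl⟩ := btMk340_surjective v
    rw [btDist340_tw_mk, ← ordDet_twconj60 s hs δ x]
    exact ordDet_add_cdist_even60 _
  -- a fixed vertex of `F ^ l`
  obtain ⟨y₀, hy₀⟩ : ∃ y₀, (btTw340 s hs δ)^[l] y₀ = y₀ := by
    obtain ⟨j', r', -, -, hfix⟩ := hFG k q hk γ hreg hE hR
    have hne : {v : BTVert340 k | btMul340 γ v = v}.Nonempty := by
      apply Set.nonempty_of_ncard_ne_zero
      rw [hfix]
      have := ballCard_pos60 q r'
      omega
    obtain ⟨v, hv⟩ := hne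
    obtain ⟨x, rfl⟩ := btMk340_surjective v
    have h0 : cdist340 (x⁻¹ * γ * x) = 0 := by
      rw [← btDist340_mul_mk]
      rw [Set.mem_ofPred_eq] at hv
      rw [hv]
      exact (btDist340_eq_zero _ _).2 rfl
    obtain ⟨c, hc⟩ := isConj_iff.1 hconj
    refine ⟨btMk340 (c⁻¹ * Matrix.GeneralLinearGroup.map i x), ?_⟩
    rw [iterate_btTw_order60 s hs δ l hext.cyc.order, btMul340_mk, btMk340_eq_iff]
    have e : (twNorm s l δ * (c⁻¹ * Matrix.GeneralLinearGroup.map i x))⁻¹
        * (c⁻¹ * Matrix.GeneralLinearGroup.map i x)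
        = (Matrix.GeneralLinearGroup.map i (x⁻¹ * γ * x))⁻¹ := by
      have : twNorm s l δ = c⁻¹ * Matrix.GeneralLinearGroup.map i γ * c := by
        rw [← hc]; group
      rw [this, map_mul, map_mul, map_inv]
      group
    rw [e, cdist340_inv, cdist340_map60 i hi, h0]
  rcases fixed_or_inv338 hd (btTw340 s hs δ) hg l hl.pos y₀ hy₀ with
    ⟨v₀, hv₀⟩ | ⟨a, b, hab, hga, hgb⟩
  · -- `F` fixes a vertex
    have hfix := hFT k k' q l i s hk hk' hext hl δ γ hreg hE hR hconj j r hj hr ⟨v₀, hv₀⟩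
    have hev : (2 : ℤ) ∣ ordDet δ := by
      have := hpar v₀
      rw [hv₀, (btDist340_eq_zero _ _).2 rfl] at this
      simpa using this
    obtain ⟨a, ha⟩ := hev
    have hja : j = (l : ℤ) * a := by
      rw [ha] at hdet
      linarith
    have hdvd : (l : ℤ) ∣ j := ⟨a, hja⟩
    refine ⟨Or.inl hdvd, ?_⟩
    intro φ c hc
    have hpos := ballCard_pos60 q r
    have hfin := fin_even60 hd (q ^ l) hQ hnb (btTw340 s hs δ) hg (ballCard q r) hpos hfix
    have := vertSum_regroup60 (fun v => btDist340 v (btTw340 s hs δ v)) (ordDet δ) hpar hfin φ c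
      (hV k k' q l i s hk hk' hext hl δ γ hreg hE hR hconj φ c hc)
    rw [this]
    refine Finsupp.sum_congr fun lam _ => ?_
    rw [ha, weight_even60 hd (q ^ l) hQ hnb (btTw340 s hs δ) hg (ballCard q r) hpos hfix a lam]
    unfold wTw
    rw [if_pos hdvd]
    unfold wTwEven
    have hdiv : j / (l : ℤ) = a := by
      rw [hja]
      exact Int.mul_ediv_cancel_left _ (by exact_mod_cast hl.pos.ne')
    rw [hdiv]
    push_cast
    rfl
  · -- `F` inverts an edge
    have hodd : ¬ (2 : ℤ) ∣ ordDet δ := by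
      have h1 := hpar a
      rw [hga, hab] at h1
      intro h
      obtain ⟨t, ht⟩ := h1
      obtain ⟨u, hu⟩ := h
      push_cast at ht
      omega
    have hl2 : l = 2 := by
      have h2l : (2 : ℤ) ∣ (l : ℤ) := by
        have h : (2 : ℤ) ∣ (l : ℤ) * ordDet δ := ⟨j, hdet⟩
        exact (Int.prime_two.dvd_mul.1 h).resolve_right hodd
      have h2 : 2 ∣ l := by exact_mod_cast h2l
      exact ((Nat.prime_dvd_prime_iff_eq Nat.prime_two hl).1 h2).symm
    subst hl2
    have hjd : ordDet δ = j := by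
      push_cast at hdet
      linarith
    have hjodd : ¬ (2 : ℤ) ∣ j := hjd ▸ hodd
    refine ⟨Or.inr rfl, ?_⟩
    intro φ c hc
    have hfin := fin_odd60 hd (q ^ 2) hQ hnb (btTw340 s hs δ) hg a b hab hga hgb
    have := vertSum_regroup60 (fun v => btDist340 v (btTw340 s hs δ v)) (ordDet δ) hpar hfin φ c
      (hV k k' q 2 i s hk hk' hext hl δ γ hreg hE hR hconj φ c hc)
    rw [this]
    refine Finsupp.sum_congr fun lam _ => ?_
    rw [hjd, weight_odd60 hd (q ^ 2) hnb (btTw340 s hs δ) hg a b hab hga hgb q rfl j hjodd lam]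
    unfold wTw
    rw [if_neg (by exact_mod_cast hjodd)]

/-- **T6.13 from the four finer leaves.** -/
theorem flEllUnr_of_four60 (hVG : VertSumGeoC) (hVT : VertSumTwC) (hFG : FixGeoC)
    (hFT : FixTwC) : FLEllUnrC :=
  flEllUnr_of_leaves bcGeo60 (orbEllUnr_of60 hVG hFG) (twOrbEllUnr_of60 hVT hFG hFT)

end Fermat.Agent.LT.T6.H60

end
end
-- ===== PACK-END LT/T6/H60/EllUnrAsm.lean

-- ===== PACK-BEGIN LT/T6/H865/TwEllTop.lean
section




/-!
# Row LT, tower T6, leaf T6.13.3b (`H60.FixTwC`) -- top assembly (helper865), OFF-MAIN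

`fixTw_of_leaves865 : TwNFC865 → TwNFCountC865 → H60.FixTwC` (PROVED): a fixed vertex forces
`l ∣ j`; the twisted normal form `x⁻¹ δ s(x) = z u` conjugates the twisted action of `δ` into the
twisted action of `u` (`btTw_conj865`), so the fixed vertices correspond.
-/

set_option autoImplicit false
set_option linter.unusedSectionVars false

open scoped Matrix

noncomputable section

namespace Fermat.Agent.LT.T6.H865

open Fermat.Agent.LT.T6 Fermat.Agent.LT.T6.H60 Fermat.Agent.LT.H338 Fermat.Agent.LT.T6.H340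
  Fermat.Agent.LT.T6.H277 Fermat.Agent.LT.H129

section Conj

variable {k' : Type} [Field k'] [Valued k' Γ₀]

/-- A matrix identity `g = z • u` in `GL₂` is `g = scal340 z * u`. -/
theorem eq_scal_mul_of_coe865 {g u : GL (Fin 2) k'} {z : k'} (hz : z ≠ 0)
    (h : (g : Matrix (Fin 2) (Fin 2) k') = z • (u : Matrix (Fin 2) (Fin 2) k')) :
    g = scal340 z hz * u := by
  apply ext_mat129
  ext a b
  rw [scal340_mul_apply, h, Matrix.smul_apply, smul_eq_mul]

theorem btMul340_injective865 (x : GL (Fin 2) k') : Function.Injective (btMul340 x) := by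
  intro p p' h
  have := congrArg (btMul340 x⁻¹) h
  rwa [← btMul340_mul, ← btMul340_mul, inv_mul_cancel, btMul340_one, btMul340_one] at this

/-- If `x⁻¹ δ s(x) = z u` then `δ s ∘ x = x ∘ u s` on the vertices. -/
theorem btTw_conj865 (s : k' ≃+* k') (hs : ∀ y : k', Valued.v (s y) = Valued.v y)
    {δ u x : GL (Fin 2) k'} {z : k'} (hz : z ≠ 0)
    (h : x⁻¹ * δ * glAut s x = scal340 z hz * u) (p : BTVert340 k') :
    btTw340 s hs δ (btMul340 x p) = btMul340 x (btTw340 s hs u p) := by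
  obtain ⟨w, rfl⟩ := btMk340_surjective p
  rw [btMul340_mk, btTw340_mk, btTw340_mk, btMul340_mk, btMk340_eq_iff]
  have e : (δ * glAut s (x * w))⁻¹ * (x * (u * glAut s w))
      = (glAut s w)⁻¹ * ((x⁻¹ * δ * glAut s x)⁻¹ * u) * glAut s w := by
    rw [map_mul]; group
  rw [e, h]
  have e2 : (scal340 z hz * u)⁻¹ * u = scal340 z⁻¹ (inv_ne_zero hz) := by
    have e3 : (scal340 z hz)⁻¹ = scal340 z⁻¹ (inv_ne_zero hz) := by
      rw [inv_eq_iff_mul_eq_one]
      apply ext_mat129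
      ext a b
      rw [scal340_mul_apply, coe_scal340]
      fin_cases a <;> fin_cases b <;> simp [hz]
    rw [scal340_comm, mul_inv_rev, mul_assoc, inv_mul_cancel, mul_one, e3]
  rw [e2, ← scal340_comm, mul_assoc, inv_mul_cancel, mul_one]
  have := cdist340_scal_mul z⁻¹ (inv_ne_zero hz) (1 : GL (Fin 2) k')
  rwa [mul_one, cdist340_one] at this

/-- The fixed vertices of `δ s` are the translates by `x` of the fixed vertices of `u s`. -/
theorem fix_conj865 (s : k' ≃+* k') (hs : ∀ y : k', Valued.v (s y) = Valued.v y)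
    {δ u x : GL (Fin 2) k'} {z : k'} (hz : z ≠ 0)
    (h : x⁻¹ * δ * glAut s x = scal340 z hz * u) :
    {v | btTw340 s hs δ v = v} = btMul340 x '' {p | btTw340 s hs u p = p} := by
  ext v
  constructor
  · intro hv
    refine ⟨btMul340 x⁻¹ v, ?_, ?_⟩
    · have hxv : btMul340 x (btMul340 x⁻¹ v) = v := by
        rw [← btMul340_mul, mul_inv_cancel, btMul340_one]
      have h1 := btTw_conj865 s hs hz h (btMul340 x⁻¹ v)
      rw [hxv] at h1
      apply btMul340_injective865 x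
      rw [← h1, hxv]
      exact hv
    · rw [← btMul340_mul, mul_inv_cancel, btMul340_one]
  · rintro ⟨p, hp, rfl⟩
    show btTw340 s hs δ (btMul340 x p) = btMul340 x p
    rw [btTw_conj865 s hs hz h p]
    exact congrArg _ hp

end Conj

section Top

variable {k k' : Type} [Field k] [Field k'] [Valued k Γ₀] [Valued k' Γ₀]

/-- A fixed vertex of the twisted action of `δ` forces `l ∣ j`. -/
theorem dvd_of_fixed865 {q l : ℕ} {i : k →+* k'} {s : k' ≃+* k'} {δ : GL (Fin 2) k'}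
    {γ : GL (Fin 2) k} {j : ℤ} {r : ℕ} (h : IsEllUnrTw865 q l i s δ γ j r)
    {v : BTVert340 k'} (hv : btTw340 s h.unr.hext.val_s δ v = v) : (l : ℤ) ∣ j := by
  obtain ⟨x, rfl⟩ := btMk340_surjective v
  have h0 : cdist340 (x⁻¹ * δ * glAut s x) = 0 := by
    rw [← btDist340_tw_mk s h.unr.hext.val_s, hv]
    exact (btDist340_eq_zero _ _).2 rfl
  have h1 := ordDet_add_cdist_even60 (x⁻¹ * δ * glAut s x)
  rw [h0, ordDet_twconj60 s h.unr.hext.val_s] at h1
  obtain ⟨m, hm⟩ := h1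
  have h2 := ordDet_norm60 s h.unr.hext.val_s i
    (fun x => by rw [h.unr.hext.val_i, pow_one]) δ γ l h.hconj
  rw [h.hj] at h2
  refine ⟨m, ?_⟩
  have h3 : ordDet δ = 2 * m := by simpa using hm
  rw [h3] at h2
  linarith

/-- **`H60.FixTwC` from the twisted normal form and the count in normal form.** -/
theorem fixTw_of_leaves865 (hN : TwNFC865) (hC : TwNFCountC865) : FixTwC := by
  intro k k' _ _ _ _ q l i s hk hk' hext hl δ γ hreg hne hnr hconj j r hj hr hv
  obtain ⟨v, hv⟩ := hv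
  have h : IsEllUnrTw865 q l i s δ γ j r :=
    ⟨⟨hk, hk', hext, hl⟩, hreg, hne, hnr, hconj, hj, hr⟩
  have hdvd : (l : ℤ) ∣ j := dvd_of_fixed865 h hv
  obtain ⟨ϖ, a, t', n', W, u, x, z, hNF, hz, hx⟩ := hN k k' q l i s δ γ j r h hdvd
  obtain ⟨-, hcard⟩ := hC k k' q l i s h.unr ϖ a t' n' r W u hNF
  have hx' := eq_scal_mul_of_coe865 hz hx
  rw [fix_conj865 s hext.val_s hz hx',
    Set.ncard_image_of_injective _ (btMul340_injective865 x)]
  exact hcard

end Top

end Fermat.Agent.LT.T6.H865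

end
end
-- ===== PACK-END LT/T6/H865/TwEllTop.lean

-- ===== PACK-BEGIN LT/T6/H811/NFExists.lean
section





/-!
# Row LT, tower T6, sub-leaf T6.13.3b.1 `NFExistsC865` (registry 1318) -- helper811, OFF-MAIN

`nfExistsC811 : H865.NFExistsC865`: ADAPTER.  `H277.exists_nf277` (helper277, `T6/H277/NormalForm.lean`)
gives the normal form together with `ordDet γ = 2 j'`, `ordDisc γ = 2 j' + 2 r'`; the exponents are
therefore the GIVEN ones.  Inputs: `polyNFC_h546` (helper546), `companionC277` (helper277),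
`discUnitC_926` (helper926), all vendored byte-identical.
-/

set_option autoImplicit false

open scoped Matrix

noncomputable section

namespace Fermat.Agent.LT.T6.H811

open Fermat.Agent.LT.T6 Fermat.Agent.LT.T6.H60 Fermat.Agent.LT.T6.H277 Fermat.Agent.LT.T6.H865

/-- The normal form with the given exponents, from the three leaves of helper277's cut. -/
theorem nfExists_of811 (hP : PolyNFC) (hC : CompanionC) (hD : DiscUnitC) : NFExistsC865 := by
  intro k _ _ q hk γ j r _ hE hR hj hr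
  obtain ⟨ϖ, j', r', a, w, u, y, x, hnf, hy, hj', hr'⟩ := exists_nf277 hP hC hD hk γ hE hR
  have ej : j' = j := by
    have : 2 * j' = 2 * j := by rw [← hj', hj]
    omega
  have er : r' = r := by
    have : 2 * j' + 2 * (r' : ℤ) = 2 * j + 2 * (r : ℤ) := by rw [← hr', hr]
    omega
  subst ej
  subst er
  refine ⟨ϖ, a, w, u, y, x, hnf, ?_⟩
  rw [hy]
  group

/-- **T6.13.3b.1 (NFExists)**, unconditional. -/
theorem nfExistsC811 : NFExistsC865 :=
  nfExists_of811 H546.polyNFC_h546 companionC277 Fermat.Agent.LT.T6.H926.discUnitC_926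

end Fermat.Agent.LT.T6.H811

end

end
-- ===== PACK-END LT/T6/H811/NFExists.lean

-- ===== PACK-BEGIN LT/T6/H264/LatSum.lean
section




/-!
# Row LT, tower T6, sub-leaf T6.13.3b.2 `LatSumC865` (registry row 1319) -- helper264, OFF-MAIN

`latSumC264 : Fermat.Agent.LT.T6.H865.LatSumC865` VERBATIM (Spec `LT/T6/H865/TwEllSpec.lean`,
helper865@cff3afd09, sha256 ce4fd7ce0a27): the sum of finitely many lattices `h_m 𝒪²` is a lattice
`x 𝒪²`.  Two lattices: Cartan decomposition `h₁⁻¹ h₂ = u diag(a, b) u'` (`cartan129` of helper129),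
`x = h₁ u diag(a', b')` with `a' = 1` if `|a| ≤ 1` and `a' = a` otherwise; then induction on the
number of lattices.  Neither completeness nor the residue field is used.
-/

set_option autoImplicit false

open Matrix

noncomputable section

namespace Fermat.Agent.LT.T6.H264

open Fermat.Agent.LT.T6 Fermat.Agent.LT.H129

variable {k : Type} [Field k] [Valued k Γ₀]

/-- A `2 × 2` matrix with integral entries. -/
def IntM264 (A : Matrix (Fin 2) (Fin 2) k) : Prop := ∀ a b, Valued.v (A a b) ≤ 1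

theorem intM264_mul {A B : Matrix (Fin 2) (Fin 2) k} (hA : IntM264 A) (hB : IntM264 B) :
    IntM264 (A * B) := by
  intro a b
  rw [Matrix.mul_apply, Fin.sum_univ_two]
  refine le_trans (Valuation.map_add _ _ _) (max_le ?_ ?_)
  · rw [map_mul]; exact mul_le_one' (hA a 0) (hB 0 b)
  · rw [map_mul]; exact mul_le_one' (hA a 1) (hB 1 b)

theorem intM264_one : IntM264 (1 : Matrix (Fin 2) (Fin 2) k) := by
  intro a b
  by_cases hab : a = b
  · subst hab; simp
  · simp [hab]

theorem intM264_of_isInt {g : GL (Fin 2) k} (hg : IsInt129 (vO129 k) g) :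
    IntM264 (g : Matrix (Fin 2) (Fin 2) k) := fun a b => (mem_vO129 _).mp (hg a b)

theorem intM264_diag {x y : k} (hx : Valued.v x ≤ 1) (hy : Valued.v y ≤ 1) :
    IntM264 (!![x, 0; 0, y] : Matrix (Fin 2) (Fin 2) k) := by
  intro a b
  fin_cases a <;> fin_cases b <;> simp [hx, hy]

/-- The larger of `1` and `a`. -/
def big264 (a : k) : k := by
  classical
  exact if Valued.v a ≤ 1 then 1 else a

theorem big264_ne_zero {a : k} (ha : a ≠ 0) : big264 a ≠ 0 := by
  unfold big264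
  split_ifs
  · exact one_ne_zero
  · exact ha

theorem big264_inv_le (a : k) : Valued.v (big264 a)⁻¹ ≤ 1 := by
  unfold big264
  split_ifs with h
  · simp
  · rw [map_inv₀]
    exact inv_le_one_of_one_le₀ (le_of_lt (not_le.mp h))

theorem big264_div_le (a : k) : Valued.v ((big264 a)⁻¹ * a) ≤ 1 := by
  unfold big264
  split_ifs with h
  · simpa using h
  · have ha : a ≠ 0 := by
      rintro rfl
      exact h (by simp)
    rw [inv_mul_cancel₀ ha, map_one]

/-- The coefficient of the first lattice. -/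
def e264 (a : k) : k := by
  classical
  exact if Valued.v a ≤ 1 then 1 else 0

/-- The coefficient of the second lattice. -/
def f264 (a : k) : k := by
  classical
  exact if Valued.v a ≤ 1 then 0 else 1

theorem e264_le (a : k) : Valued.v (e264 a) ≤ 1 := by
  unfold e264; split_ifs <;> simp

theorem f264_le (a : k) : Valued.v (f264 a) ≤ 1 := by
  unfold f264; split_ifs <;> simp

theorem big264_eq (a : k) : big264 a = e264 a + a * f264 a := by
  unfold big264 e264 f264; split_ifs <;> simp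

/-- **Two lattices.** -/
theorem latSum_two264 (h₁ h₂ : GL (Fin 2) k) :
    ∃ (x : GL (Fin 2) k) (c₁ c₂ : Matrix (Fin 2) (Fin 2) k),
      IntM264 ((x⁻¹ * h₁ : GL (Fin 2) k) : Matrix (Fin 2) (Fin 2) k) ∧
      IntM264 ((x⁻¹ * h₂ : GL (Fin 2) k) : Matrix (Fin 2) (Fin 2) k) ∧
      IntM264 c₁ ∧ IntM264 c₂ ∧
      (x : Matrix (Fin 2) (Fin 2) k)
        = (h₁ : Matrix (Fin 2) (Fin 2) k) * c₁ + (h₂ : Matrix (Fin 2) (Fin 2) k) * c₂ := by
  obtain ⟨u, u', a, b, ha, hb, hu, hu', -, hg⟩ := cartan129 (vO129 k) (h₁⁻¹ * h₂)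
  have hh₂ : h₂ = h₁ * u * diag129 a b ha hb * u' := by
    have : h₂ = h₁ * (h₁⁻¹ * h₂) := by group
    rw [this, hg]
    group
  set d : GL (Fin 2) k := diag129 (big264 a) (big264 b) (big264_ne_zero ha) (big264_ne_zero hb)
    with hd
  have hdinv : d⁻¹ = diag129 (big264 a)⁻¹ (big264 b)⁻¹ (inv_ne_zero (big264_ne_zero ha))
      (inv_ne_zero (big264_ne_zero hb)) := by
    rw [inv_eq_iff_mul_eq_one, hd, diag129_mul]
    apply ext_mat129
    simp [diag129, Matrix.one_fin_two, big264_ne_zero ha, big264_ne_zero hb]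
  have hdinv_int : IntM264 ((d⁻¹ : GL (Fin 2) k) : Matrix (Fin 2) (Fin 2) k) := by
    rw [hdinv]
    exact intM264_diag (big264_inv_le a) (big264_inv_le b)
  refine ⟨h₁ * u * d, (u : Matrix (Fin 2) (Fin 2) k) * !![e264 a, 0; 0, e264 b],
    ((u'⁻¹ : GL (Fin 2) k) : Matrix (Fin 2) (Fin 2) k) * !![f264 a, 0; 0, f264 b], ?_, ?_, ?_, ?_, ?_⟩
  · have : (h₁ * u * d)⁻¹ * h₁ = d⁻¹ * u⁻¹ := by group
    rw [this, Matrix.GeneralLinearGroup.coe_mul]
    exact intM264_mul hdinv_int (intM264_of_isInt hu.2)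
  · have : (h₁ * u * d)⁻¹ * h₂ = d⁻¹ * diag129 a b ha hb * u' := by
      rw [hh₂]; group
    rw [this, Matrix.GeneralLinearGroup.coe_mul]
    refine intM264_mul ?_ (intM264_of_isInt hu'.1)
    rw [hdinv, diag129_mul]
    exact intM264_diag (big264_div_le a) (big264_div_le b)
  · exact intM264_mul (intM264_of_isInt hu.1) (intM264_diag (e264_le a) (e264_le b))
  · exact intM264_mul (intM264_of_isInt hu'.2) (intM264_diag (f264_le a) (f264_le b))
  · have hu'c : (u' : Matrix (Fin 2) (Fin 2) k) * ((u'⁻¹ : GL (Fin 2) k) : Matrix (Fin 2) (Fin 2) k)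
        = 1 := by
      rw [← Matrix.GeneralLinearGroup.coe_mul, mul_inv_cancel]; rfl
    have hdm : (d : Matrix (Fin 2) (Fin 2) k)
        = !![e264 a, 0; 0, e264 b]
          + (diag129 a b ha hb : Matrix (Fin 2) (Fin 2) k) * !![f264 a, 0; 0, f264 b] := by
      rw [hd]
      simp only [diag129, coe_mkGL129]
      ext i j
      fin_cases i <;> fin_cases j <;> simp [big264_eq]
    rw [hh₂]
    simp only [Matrix.GeneralLinearGroup.coe_mul]
    rw [hdm]
    rw [Matrix.mul_add]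
    congr 1
    · rw [Matrix.mul_assoc]
    · simp only [Matrix.mul_assoc]
      rw [← Matrix.mul_assoc (u' : Matrix (Fin 2) (Fin 2) k), hu'c, Matrix.one_mul]

/-- **T6.13.3b.2 `LatSumC865`.**  A finite sum of lattices is a lattice. -/
theorem latSumC264 : H865.LatSumC865 := by
  intro k _ _ q _ n
  induction n with
  | zero =>
    intro h
    refine ⟨h 0, fun _ => 1, ?_, ?_, ?_⟩
    · intro m a b
      have hm : m = 0 := Fin.ext (by have := m.isLt; omega)
      subst hm
      rw [inv_mul_cancel]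
      exact intM264_one a b
    · intro m a b
      exact intM264_one a b
    · simp
  | succ n ih =>
    intro h
    obtain ⟨x₀, c₀, hx₀, hc₀, hsum⟩ := ih (fun m => h (Fin.castSucc m))
    obtain ⟨x, c₁, c₂, hi₁, hi₂, hc₁, hc₂, hx⟩ := latSum_two264 x₀ (h (Fin.last (n + 1)))
    set c : Fin (n + 1 + 1) → Matrix (Fin 2) (Fin 2) k :=
      Fin.snoc (α := fun _ => Matrix (Fin 2) (Fin 2) k) (fun m => c₀ m * c₁) c₂ with hc
    have hclast : c (Fin.last (n + 1)) = c₂ := by
      rw [hc]; exact Fin.snoc_last _ _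
    have hccast : ∀ m' : Fin (n + 1), c (Fin.castSucc m') = c₀ m' * c₁ := by
      intro m'
      rw [hc]; exact Fin.snoc_castSucc (α := fun _ => Matrix (Fin 2) (Fin 2) k) _ _ _
    refine ⟨x, c, ?_, ?_, ?_⟩
    · intro m
      refine Fin.lastCases ?_ (fun m' => ?_) m
      · exact hi₂
      · have : x⁻¹ * h (Fin.castSucc m') = (x⁻¹ * x₀) * (x₀⁻¹ * h (Fin.castSucc m')) := by group
        rw [this, Matrix.GeneralLinearGroup.coe_mul]
        exact intM264_mul hi₁ (hx₀ m')
    · intro m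
      refine Fin.lastCases ?_ (fun m' => ?_) m
      · rw [hclast]; exact hc₂
      · rw [hccast]; exact intM264_mul (hc₀ m') hc₁
    · rw [Fin.sum_univ_castSucc, hclast]
      simp only [hccast]
      rw [hx, hsum, Finset.sum_mul]
      congr 1
      refine Finset.sum_congr rfl (fun m _ => ?_)
      rw [Matrix.mul_assoc]

end Fermat.Agent.LT.T6.H264

end

end
-- ===== PACK-END LT/T6/H264/LatSum.lean

-- ===== PACK-BEGIN LT/T6/H820/H90r.lean
section






/-!
# Row LT, tower T6, LEAF T6.13.3b.5 `H865.H90rC865` (seat helper820, OFF-MAIN)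

`h90rC820 : H865.H90rC865`, VERBATIM vs `T6/H865/TwEllSpec.lean` (helper865@cff3afd09, sha256
ce4fd7ce0a273736).  Tools: UNR-CORE of helper220 (`norm_units_surj220`,
`exists_resSum_ne_zero220`), byte-identical copies.

## Proof (ONE step, no induction on the level)

`r = 0`: `y = 1`, `c₀ = 1`, `m = u - 1`.  Let `r ≥ 1`.  Then `a` is a unit (`det N u` is a unit
and `N u ≡ a` modulo `ϖ`); choose `c₀ ∈ 𝒪'ˣ` with `N c₀ = a` and put `U₁ = c₀⁻¹ u`, so
`P_l(U₁) = a⁻¹ N u = 1 + ϖ^r a⁻¹ M`.  For `c = diag(θ, θ'')` with integral `θ`, `θ''` the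
Poincaré series `B = ∑_{m<l} P_m(U₁) s^m(c)` is integral and

    U₁ · s(B) = B + ϖ^r (a⁻¹ M) c                 (`H90rAlg.mPoincare820`).

By Dedekind independence (`dedekind_val820`) `θ` can be chosen with `B₀₀` a unit (the
coefficient of `θ` in `B₀₀ = ∑ P_m(U₁)₀₀ s^m θ` is `1`), and then `θ''` with `det B` a unit
(`det B = ∑ (B₀₀ P_m(U₁)₁₁ - B₁₀ P_m(U₁)₀₁) s^m θ''`, the coefficient of `θ''` is `B₀₀`).
So `y = B ∈ GL₂(𝒪')` and `y⁻¹ u s(y) = c₀ (1 + ϖ^r y⁻¹ (a⁻¹ M) c)`.
-/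

set_option autoImplicit false

open scoped Matrix Valued

noncomputable section

namespace Fermat.Agent.LT.T6.H820

open Fermat.Agent.LT.T6 Fermat.Agent.LT.T6.H220 Fermat.Agent.LT.T6.H865

/-! ## Integral matrices -/

section IntM

variable {K : Type} [Field K] [Valued K Γ₀]

/-- The entries of `X` are integral. -/
def IsIntM820 (X : Matrix (Fin 2) (Fin 2) K) : Prop := ∀ a b, Valued.v (X a b) ≤ 1

theorem isIntM_one820 : IsIntM820 (1 : Matrix (Fin 2) (Fin 2) K) := by
  intro a b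
  by_cases h : a = b
  · subst h; simp
  · simp [Matrix.one_apply_ne h]

theorem isIntM_mul820 {X Y : Matrix (Fin 2) (Fin 2) K} (hX : IsIntM820 X) (hY : IsIntM820 Y) :
    IsIntM820 (X * Y) := by
  intro a b
  rw [Matrix.mul_apply]
  refine Valuation.map_sum_le _ fun j _ => ?_
  rw [map_mul]
  exact mul_le_one' (hX a j) (hY j b)

theorem isIntM_add820 {X Y : Matrix (Fin 2) (Fin 2) K} (hX : IsIntM820 X) (hY : IsIntM820 Y) :
    IsIntM820 (X + Y) := by
  intro a b
  rw [Matrix.add_apply]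
  exact (Valued.v.map_add _ _).trans (max_le (hX a b) (hY a b))

theorem isIntM_sub820 {X Y : Matrix (Fin 2) (Fin 2) K} (hX : IsIntM820 X) (hY : IsIntM820 Y) :
    IsIntM820 (X - Y) := by
  intro a b
  rw [Matrix.sub_apply]
  exact (Valued.v.map_sub _ _).trans (max_le (hX a b) (hY a b))

theorem isIntM_smul820 {d : K} {X : Matrix (Fin 2) (Fin 2) K} (hd : Valued.v d ≤ 1)
    (hX : IsIntM820 X) : IsIntM820 (d • X) := by
  intro a b
  rw [Matrix.smul_apply, smul_eq_mul, map_mul]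
  exact mul_le_one' hd (hX a b)

theorem isIntM_sum820 {ι : Type} (t : Finset ι) {f : ι → Matrix (Fin 2) (Fin 2) K}
    (hf : ∀ m ∈ t, IsIntM820 (f m)) : IsIntM820 (∑ m ∈ t, f m) := by
  intro a b
  rw [Matrix.sum_apply]
  exact Valuation.map_sum_le _ fun m hm => hf m hm a b

theorem isIntM_map820 (s : K ≃+* K) (hs : ∀ y : K, Valued.v (s y) = Valued.v y)
    {X : Matrix (Fin 2) (Fin 2) K} (hX : IsIntM820 X) : IsIntM820 (X.map s) := by
  intro a b
  rw [Matrix.map_apply, hs]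
  exact hX a b

theorem isIntM_map_pow820 (s : K ≃+* K) (hs : ∀ y : K, Valued.v (s y) = Valued.v y) (m : ℕ)
    {X : Matrix (Fin 2) (Fin 2) K} (hX : IsIntM820 X) :
    IsIntM820 (X.map (s ^ m : K ≃+* K)) := by
  intro a b
  rw [Matrix.map_apply, val_pow_s220 s hs]
  exact hX a b

theorem val_det_le820 {X : Matrix (Fin 2) (Fin 2) K} (hX : IsIntM820 X) :
    Valued.v X.det ≤ 1 := by
  rw [Matrix.det_fin_two]
  refine (Valued.v.map_sub _ _).trans (max_le ?_ ?_)
  · rw [map_mul]; exact mul_le_one' (hX 0 0) (hX 1 1)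
  · rw [map_mul]; exact mul_le_one' (hX 0 1) (hX 1 0)

/-- `InU 0` in terms of integrality. -/
theorem inU_zero_iff820 (g : GL (Fin 2) K) :
    InU 0 g ↔ IsIntM820 (g : Matrix (Fin 2) (Fin 2) K)
      ∧ IsIntM820 ((g⁻¹ : GL (Fin 2) K) : Matrix (Fin 2) (Fin 2) K) := by
  have h0 : (WithZero.exp (-((0 : ℕ) : ℤ)) : Γ₀) = 1 := by simp
  have key : ∀ X : Matrix (Fin 2) (Fin 2) K,
      (∀ a b, Valued.v (X a b - (1 : Matrix (Fin 2) (Fin 2) K) a b) ≤ (1 : Γ₀)) ↔
        IsIntM820 X := by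
    intro X
    constructor
    · intro h a b
      have e : X a b = (X a b - (1 : Matrix (Fin 2) (Fin 2) K) a b)
          + (1 : Matrix (Fin 2) (Fin 2) K) a b := by ring
      rw [e]
      exact (Valued.v.map_add _ _).trans (max_le (h a b) (isIntM_one820 a b))
    · intro h a b
      exact (Valued.v.map_sub _ _).trans (max_le (h a b) (isIntM_one820 a b))
  unfold InU
  rw [h0]
  constructor
  · intro h
    exact ⟨(key _).1 fun a b => (h a b).1, (key _).1 fun a b => (h a b).2⟩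
  · rintro ⟨h1, h2⟩ a b
    exact ⟨(key _).2 h1 a b, (key _).2 h2 a b⟩

/-- An integral matrix with unit determinant, as an element of `GL₂(𝒪)`. -/
theorem exists_gl_of_det_unit820 {B : Matrix (Fin 2) (Fin 2) K} (hB : IsIntM820 B)
    (hdet : Valued.v B.det = 1) :
    ∃ y : GL (Fin 2) K, (y : Matrix (Fin 2) (Fin 2) K) = B ∧ InU 0 y := by
  have hne : B.det ≠ 0 := by
    intro h0
    rw [h0, map_zero] at hdet
    exact zero_ne_one hdet
  refine ⟨Matrix.GeneralLinearGroup.mkOfDetNeZero B hne, rfl, ?_⟩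
  rw [inU_zero_iff820]
  refine ⟨hB, ?_⟩
  intro a b
  have hinv : ((Matrix.GeneralLinearGroup.mkOfDetNeZero B hne)⁻¹ : GL (Fin 2) K).val
      = B⁻¹ := by
    rw [Matrix.coe_units_inv]
    rfl
  rw [hinv, Matrix.inv_def, Matrix.smul_apply, smul_eq_mul, map_mul, Ring.inverse_eq_inv',
    map_inv₀, hdet, inv_one, one_mul, Matrix.adjugate_fin_two]
  fin_cases a <;> fin_cases b
  · simpa using hB 1 1
  · simpa using hB 0 1
  · simpa using hB 1 0
  · simpa using hB 0 0

end IntM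

/-! ## Dedekind independence in valuation form -/

section Unr

variable {k k' : Type} [Field k] [Field k'] [Valued k Γ₀] [Valued k' Γ₀]
  {q l : ℕ} {i : k →+* k'} {s : k' ≃+* k'}

/-- **Dedekind independence, valuation form.**  If the `a_m` are integral and one of them
(`m < l`) is a unit, some integral `θ` has `∑_{m<l} a_m s^m θ` a unit. -/
theorem dedekind_val820 (hk : IsLocalField k q) (hk' : IsLocalField k' (q ^ l))
    (hext : IsLocalExt k k' l 1 i s) (hl : l.Prime) (a : ℕ → k')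
    (ha : ∀ m, Valued.v (a m) ≤ 1) (j₀ : ℕ) (hj₀ : j₀ < l) (h1 : Valued.v (a j₀) = 1) :
    ∃ θ : k', Valued.v θ ≤ 1 ∧
      Valued.v (∑ m ∈ Finset.range l, a m * (s ^ m) θ) = 1 := by
  have : NeZero l := ⟨hl.ne_zero⟩
  obtain ⟨θb, hθb⟩ := exists_resSum_ne_zero220 hk hk' hext hl
    (fun j : Fin l => IsLocalRing.residue 𝒪[k'] (intMk220 (a (j : ℕ)) (ha j))) ⟨j₀, hj₀⟩
    ((residue_ne_zero_iff220 _).2 h1)
  obtain ⟨θ, rfl⟩ := IsLocalRing.residue_surjective (R := 𝒪[k']) θb
  refine ⟨θ, int_val_le220 θ, ?_⟩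
  have hle : Valued.v (∑ m ∈ Finset.range l, a m * (s ^ m) (θ : k')) ≤ 1 := by
    refine Valuation.map_sum_le _ fun m _ => ?_
    rw [map_mul, val_pow_s220 s hext.val_s]
    exact mul_le_one' (ha m) (int_val_le220 θ)
  rw [Fin.sum_univ_eq_sum_range
    (fun m => IsLocalRing.residue 𝒪[k'] (intMk220 (a m) (ha m)) *
      (sRes220 s hext.val_s ^ m) (IsLocalRing.residue 𝒪[k'] θ)) l] at hθb
  have e1 : intMk220 (∑ m ∈ Finset.range l, a m * (s ^ m) (θ : k')) hle
      = ∑ m ∈ Finset.range l, intMk220 (a m) (ha m) *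
          intMk220 ((s ^ m) (θ : k'))
            (by rw [val_pow_s220 s hext.val_s]; exact int_val_le220 θ) := by
    ext
    simp
  have e2 : IsLocalRing.residue 𝒪[k']
      (intMk220 (∑ m ∈ Finset.range l, a m * (s ^ m) (θ : k')) hle)
      = ∑ m ∈ Finset.range l, IsLocalRing.residue 𝒪[k'] (intMk220 (a m) (ha m)) *
          (sRes220 s hext.val_s ^ m) (IsLocalRing.residue 𝒪[k'] θ) := by
    rw [e1, map_sum]
    refine Finset.sum_congr rfl fun m _ => ?_
    rw [map_mul, sRes_pow_residue220 s hext.val_s m θ]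
  rw [← e2, residue_ne_zero_iff220] at hθb
  exact hθb

theorem isIntM_mPN820 (hext : IsLocalExt k k' l 1 i s) {U : Matrix (Fin 2) (Fin 2) k'}
    (hU : IsIntM820 U) (m : ℕ) : IsIntM820 (mPN820 s U m) := by
  induction m with
  | zero => exact isIntM_one820
  | succ n ih => exact isIntM_mul820 hU (isIntM_map820 s hext.val_s ih)

theorem val_det_mPN820 (hext : IsLocalExt k k' l 1 i s) {U : Matrix (Fin 2) (Fin 2) k'}
    (hU : Valued.v U.det = 1) (m : ℕ) : Valued.v (mPN820 s U m).det = 1 := by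
  induction m with
  | zero => simp
  | succ n ih => rw [det_mPN_succ820, map_mul, hext.val_s, hU, ih, one_mul]

theorem isIntM_mPser820 (hext : IsLocalExt k k' l 1 i s) {U c : Matrix (Fin 2) (Fin 2) k'}
    (hU : IsIntM820 U) (hc : IsIntM820 c) : IsIntM820 (mPser820 s l U c) := by
  unfold mPser820
  exact isIntM_sum820 _ fun m _ =>
    isIntM_mul820 (isIntM_mPN820 hext hU m) (isIntM_map_pow820 s hext.val_s m hc)

/-- **The Poincaré series can be made invertible.**  For an integral `U` there is an integral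
diagonal `c` such that `B = ∑_{m<l} P_m(U) s^m(c)` has unit determinant. -/
theorem exists_pser_unit820 (hk : IsLocalField k q) (hk' : IsLocalField k' (q ^ l))
    (hext : IsLocalExt k k' l 1 i s) (hl : l.Prime) {U : Matrix (Fin 2) (Fin 2) k'}
    (hU : IsIntM820 U) :
    ∃ c : Matrix (Fin 2) (Fin 2) k', IsIntM820 c ∧ (∀ a b, (s ^ l) (c a b) = c a b) ∧
      Valued.v (mPser820 s l U c).det = 1 := by
  have hP := isIntM_mPN820 hext hU
  -- first column
  obtain ⟨θ, hθ, hθ1⟩ := dedekind_val820 hk hk' hext hl (fun m => mPN820 s U m 0 0)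
    (fun m => hP m 0 0) 0 hl.pos (by simp)
  -- the entries of the first column
  set B00 : k' := ∑ m ∈ Finset.range l, mPN820 s U m 0 0 * (s ^ m) θ with hB00
  set B10 : k' := ∑ m ∈ Finset.range l, mPN820 s U m 1 0 * (s ^ m) θ with hB10
  have hB10le : Valued.v B10 ≤ 1 := by
    refine Valuation.map_sum_le _ fun m _ => ?_
    rw [map_mul, val_pow_s220 s hext.val_s]
    exact mul_le_one' (hP m 1 0) hθ
  -- second column
  obtain ⟨θ', hθ', hθ'1⟩ := dedekind_val820 hk hk' hext hl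
    (fun m => B00 * mPN820 s U m 1 1 - B10 * mPN820 s U m 0 1)
    (fun m => by
      refine (Valued.v.map_sub _ _).trans (max_le ?_ ?_)
      · rw [map_mul]; exact mul_le_one' hθ1.le (hP m 1 1)
      · rw [map_mul]; exact mul_le_one' hB10le (hP m 0 1))
    0 hl.pos (by simp [hθ1])
  let t : Fin 2 → k' := ![θ, θ']
  refine ⟨Matrix.diagonal t, ?_, fun a b => hext.cyc.order _, ?_⟩
  · intro a b
    by_cases h : a = b
    · subst h
      rw [Matrix.diagonal_apply_eq]
      fin_cases a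
      · exact hθ
      · exact hθ'
    · rw [Matrix.diagonal_apply_ne _ h, map_zero]
      exact zero_le_one
  · rw [Matrix.det_fin_two, mPser_diag_apply820, mPser_diag_apply820, mPser_diag_apply820,
      mPser_diag_apply820]
    have ht0 : t 0 = θ := rfl
    have ht1 : t 1 = θ' := rfl
    rw [ht0, ht1, ← hB00, ← hB10]
    have e : B00 * ∑ m ∈ Finset.range l, mPN820 s U m 1 1 * (s ^ m) θ'
        - (∑ m ∈ Finset.range l, mPN820 s U m 0 1 * (s ^ m) θ') * B10
        = ∑ m ∈ Finset.range l,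
            (B00 * mPN820 s U m 1 1 - B10 * mPN820 s U m 0 1) * (s ^ m) θ' := by
      rw [Finset.mul_sum, Finset.sum_mul, ← Finset.sum_sub_distrib]
      refine Finset.sum_congr rfl fun m _ => ?_
      ring
    rw [e]
    exact hθ'1

end Unr

/-! ## The leaf -/

/-- **LEAF T6.13.3b.5** `H865.H90rC865`. -/
theorem h90rC820 : H90rC865 := by
  intro k k' _ _ _ _ q l i s hU ϖ a r u M hϖ hu hM hN
  obtain ⟨hk, hk', hext, hl⟩ := hU
  have huI := (inU_zero_iff820 u).1 hu
  rcases Nat.eq_zero_or_pos r with hr | hr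
  · -- `r = 0`
    subst hr
    refine ⟨1, 1, (u : Matrix (Fin 2) (Fin 2) k') - 1, ?_, map_one _, ?_, ?_⟩
    · rw [inU_zero_iff820]
      exact ⟨by simpa using isIntM_one820, by simpa using isIntM_one820⟩
    · exact isIntM_sub820 huI.1 isIntM_one820
    · simp
  -- `r ≥ 1`
  have hiϖ : Valued.v (i ϖ ^ r) < 1 := by
    rw [map_pow, val_i220 hext, hϖ, ← WithZero.exp_nsmul, ← WithZero.exp_zero,
      WithZero.exp_lt_exp]
    have e : r • (-1 : ℤ) = -(r : ℤ) := by simp
    rw [e]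
    omega
  have hdetu : Valued.v (u : Matrix (Fin 2) (Fin 2) k').det = 1 := by
    have h1 := val_det_le820 huI.1
    have h2 := val_det_le820 huI.2
    have hmul : (u : Matrix (Fin 2) (Fin 2) k').det
        * ((u⁻¹ : GL (Fin 2) k') : Matrix (Fin 2) (Fin 2) k').det = 1 := by
      rw [← Matrix.det_mul, ← Matrix.GeneralLinearGroup.coe_mul, mul_inv_cancel]
      simp
    have hv := congrArg (Valued.v : k' → Γ₀) hmul
    rw [map_mul, map_one] at hv
    apply le_antisymm h1
    calc (1 : Γ₀) = Valued.v (u : Matrix (Fin 2) (Fin 2) k').det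
          * Valued.v ((u⁻¹ : GL (Fin 2) k') : Matrix (Fin 2) (Fin 2) k').det := hv.symm
      _ ≤ Valued.v (u : Matrix (Fin 2) (Fin 2) k').det := mul_le_of_le_one_right' h2
  have hNP : mPN820 s (u : Matrix (Fin 2) (Fin 2) k') l
      = i a • (1 : Matrix (Fin 2) (Fin 2) k') + i ϖ ^ r • M := by
    rw [← coe_twNorm820]; exact hN
  -- `a` is a unit
  have ha : Valued.v a = 1 := by
    have hPint := isIntM_mPN820 hext huI.1 l
    have hPdet := val_det_mPN820 hext hdetu l
    have h00 : i a = mPN820 s (u : Matrix (Fin 2) (Fin 2) k') l 0 0 - i ϖ ^ r * M 0 0 := by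
      rw [hNP]; simp
    have hale : Valued.v (i a) ≤ 1 := by
      rw [h00]
      refine (Valued.v.map_sub _ _).trans (max_le (hPint 0 0) ?_)
      rw [map_mul]
      exact mul_le_one' hiϖ.le (hM 0 0)
    rw [← val_i220 hext]
    apply le_antisymm hale
    by_contra hlt
    rw [not_le] at hlt
    -- all entries of `N u` are non-units
    have hent : ∀ b c, Valued.v (mPN820 s (u : Matrix (Fin 2) (Fin 2) k') l b c) < 1 := by
      intro b c
      rw [hNP]
      simp only [Matrix.add_apply, Matrix.smul_apply, smul_eq_mul]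
      refine lt_of_le_of_lt (Valued.v.map_add _ _) (max_lt ?_ ?_)
      · rw [map_mul]
        calc Valued.v (i a) * Valued.v ((1 : Matrix (Fin 2) (Fin 2) k') b c)
            ≤ Valued.v (i a) * 1 := mul_le_mul_right (isIntM_one820 b c) _
          _ < 1 := by rw [mul_one]; exact hlt
      · rw [map_mul]
        calc Valued.v (i ϖ ^ r) * Valued.v (M b c) ≤ Valued.v (i ϖ ^ r) * 1 :=
              mul_le_mul_right (hM b c) _
          _ < 1 := by rw [mul_one]; exact hiϖ
    have hdlt : Valued.v (mPN820 s (u : Matrix (Fin 2) (Fin 2) k') l).det < 1 := by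
      rw [Matrix.det_fin_two]
      refine lt_of_le_of_lt (Valued.v.map_sub _ _) (max_lt ?_ ?_)
      · rw [map_mul]
        calc Valued.v (mPN820 s (u : Matrix (Fin 2) (Fin 2) k') l 0 0)
              * Valued.v (mPN820 s (u : Matrix (Fin 2) (Fin 2) k') l 1 1)
            ≤ Valued.v (mPN820 s (u : Matrix (Fin 2) (Fin 2) k') l 0 0) * 1 :=
              mul_le_mul_right (hent 1 1).le _
          _ < 1 := by rw [mul_one]; exact hent 0 0
      · rw [map_mul]
        calc Valued.v (mPN820 s (u : Matrix (Fin 2) (Fin 2) k') l 0 1)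
              * Valued.v (mPN820 s (u : Matrix (Fin 2) (Fin 2) k') l 1 0)
            ≤ Valued.v (mPN820 s (u : Matrix (Fin 2) (Fin 2) k') l 0 1) * 1 :=
              mul_le_mul_right (hent 1 0).le _
          _ < 1 := by rw [mul_one]; exact hent 0 1
    rw [hPdet] at hdlt
    exact lt_irrefl _ hdlt
  -- the unit `c₀` of norm `a`
  obtain ⟨c₀, hc₀, hNc₀⟩ := norm_units_surj220 hk hk' hext hl a ha
  have hc₀0 : c₀ ≠ 0 := by
    intro h0; rw [h0, map_zero] at hc₀; exact zero_ne_one hc₀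
  have hia : Valued.v (i a) = 1 := by rw [val_i220 hext, ha]
  have hia0 : i a ≠ 0 := by
    intro h0; rw [h0, map_zero] at hia; exact zero_ne_one hia
  have hc₀inv : Valued.v c₀⁻¹ = 1 := by rw [map_inv₀, hc₀, inv_one]
  -- `U₁ = c₀⁻¹ u`
  set U₁ : Matrix (Fin 2) (Fin 2) k' := c₀⁻¹ • (u : Matrix (Fin 2) (Fin 2) k') with hU₁
  have hU₁int : IsIntM820 U₁ := isIntM_smul820 hc₀inv.le huI.1
  have hPl : mPN820 s U₁ l = 1 + i ϖ ^ r • ((i a)⁻¹ • M) := by
    have hpn : pnm220 s l c₀⁻¹ = nm220 s l c₀⁻¹ := rfl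
    rw [hU₁, mPN_smul820, hNP, hpn, nm_inv220, hNc₀, smul_add, smul_smul,
      inv_mul_cancel₀ hia0, one_smul, smul_comm]
  -- the Poincaré series
  obtain ⟨c, hc, hcfix, hdet⟩ := exists_pser_unit820 hk hk' hext hl hU₁int
  have hBint := isIntM_mPser820 (l := l) hext hU₁int hc
  obtain ⟨y, hy, hyU⟩ := exists_gl_of_det_unit820 hBint hdet
  have hpoin := mPoincare820 s l U₁ c hcfix
  rw [hPl, add_sub_cancel_left, ← hy] at hpoin
  refine ⟨y, c₀, ((y⁻¹ : GL (Fin 2) k') : Matrix (Fin 2) (Fin 2) k') * ((i a)⁻¹ • M) * c, hyU,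
    hc₀, ?_, ?_⟩
  · exact isIntM_mul820 (isIntM_mul820 ((inU_zero_iff820 y).1 hyU).2
      (isIntM_smul820 (by rw [map_inv₀, hia, inv_one]) hM)) hc
  · rw [Matrix.GeneralLinearGroup.coe_mul, Matrix.GeneralLinearGroup.coe_mul, coe_glAut820]
    have hu_eq : (u : Matrix (Fin 2) (Fin 2) k') = c₀ • U₁ := by
      rw [hU₁, smul_smul, mul_inv_cancel₀ hc₀0, one_smul]
    have hyinv : ((y⁻¹ : GL (Fin 2) k') : Matrix (Fin 2) (Fin 2) k')
        * (y : Matrix (Fin 2) (Fin 2) k') = 1 := by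
      rw [← Matrix.GeneralLinearGroup.coe_mul, inv_mul_cancel]
      rfl
    rw [hu_eq, mul_assoc, smul_mul_assoc, hpoin, mul_smul_comm, mul_add, hyinv, smul_mul_assoc,
      mul_smul_comm, mul_assoc]

end Fermat.Agent.LT.T6.H820

end

end
-- ===== PACK-END LT/T6/H820/H90r.lean

-- ===== PACK-BEGIN LT/T6/H241/FixSigma.lean
section



/-!
# Row LT, tower T6, leaf T6.13.3b.6 `FixSigmaC865` (helper241), OFF-MAIN

`fixSigmaC241 : Fermat.Agent.LT.T6.H865.FixSigmaC865` (registry 1323; the Prop of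
`T6/H865/TwEllSpec.lean`, sha256 ce4fd7ce, VERBATIM): for `k'/k` unramified cyclic of prime degree
with generator `s`, a vertex of the tree of `k'` fixed by `s` is the image of a vertex of the tree
of `k`.

Route: Iwasawa form `[x] = [(ϖ^n, c; 0, 1)]` with `ϖ = i(ϖ_k)` (helper129 `iwasawa129`); the vertex
is `s`-fixed iff `s c - c ∈ ϖ^n 𝒪'`; with `θ` integral of trace one (helper220
`exists_tr_eq_one220`), `c₀ = tr(θ c)` is `s`-fixed, `c₀ = i c₁`, and `c₀ ≡ c mod ϖ^n 𝒪'`;
`x₀ = (ϖ_k^n, c₁; 0, 1)`.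
-/

set_option autoImplicit false
set_option linter.unusedSectionVars false

open Matrix

noncomputable section

namespace Fermat.Agent.LT.T6.H241

open Fermat.Agent.LT.T6 Fermat.Agent.LT.T6.H340 Fermat.Agent.LT.H129 Fermat.Agent.LT.T6.H220
  Fermat.Agent.LT.T6.H865

section OneField

variable {k : Type} [Field k] [Valued k Γ₀]

/-- The matrix `(a, c; 0, 1)`. -/
def iwa241 (a c : k) (ha : a ≠ 0) : GL (Fin 2) k :=
  mkGL129 a c 0 1 (by simpa using ha)

omit [Valued k Γ₀] in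
theorem coe_iwa241 (a c : k) (ha : a ≠ 0) :
    ((iwa241 a c ha : GL (Fin 2) k) : Matrix (Fin 2) (Fin 2) k) = !![a, c; 0, 1] := rfl

omit [Valued k Γ₀] in
/-- `(a, c; 0, 1) = (a, c'; 0, 1) · (1, (c - c') / a; 0, 1)`. -/
theorem iwa241_eq_mul_upper (a c c' : k) (ha : a ≠ 0) :
    iwa241 a c ha = iwa241 a c' ha * upperU129 ((c - c') * a⁻¹) := by
  apply ext_mat129
  rw [Matrix.GeneralLinearGroup.coe_mul, coe_iwa241, coe_iwa241, upperU129, coe_mkGL129]
  ext p r
  fin_cases p <;> fin_cases r <;> simp [Matrix.mul_apply, Fin.sum_univ_two]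
  field_simp
  ring

/-- A unipotent matrix of Cartan distance `0` is integral. -/
theorem val_le_one_of_cdist_upperU241 (d : k) (h : cdist340 (upperU129 d) = 0) :
    Valued.v d ≤ 1 := by
  have h1 := (cdist340_eq_iff (upperU129 d) 0).1 h
  have hdet : ((upperU129 d : GL (Fin 2) k) : Matrix (Fin 2) (Fin 2) k).det = 1 := by
    rw [upperU129, det_mkGL340]
    simp
  rw [hdet, map_one, Nat.cast_zero, WithZero.exp_zero, mul_one] at h1
  have h2 : entryMax (upperU129 d) = 1 := by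
    rcases pow_eq_one_iff.1 h1 with h | h
    · exact h
    · exact absurd h two_ne_zero
  have h3 := entry_le_entryMax129 (upperU129 d) 0 1
  rw [h2] at h3
  simpa [upperU129] using h3

/-- An integral unipotent matrix has Cartan distance `0`. -/
theorem cdist_upperU_of_val_le_one241 (d : k) (h : Valued.v d ≤ 1) :
    cdist340 (upperU129 d) = 0 :=
  cdist340_of_inU ((inU_zero_iff129 _).2 (isMaxCpt129_upperU ((mem_vO129 d).2 h)))

/-- Two Iwasawa matrices with the same diagonal define the same vertex iff the difference of the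
off-diagonal entries is integral relative to the diagonal. -/
theorem btMk_iwa_eq_iff241 (a c c' : k) (ha : a ≠ 0) :
    btMk340 (iwa241 a c' ha) = btMk340 (iwa241 a c ha) ↔ Valued.v ((c - c') * a⁻¹) ≤ 1 := by
  rw [btMk340_eq_iff, iwa241_eq_mul_upper a c c' ha, inv_mul_cancel_left]
  exact ⟨val_le_one_of_cdist_upperU241 _, cdist_upperU_of_val_le_one241 _⟩

/-- **Iwasawa form of a vertex**: every vertex is `[(ϖ^n, c; 0, 1)]`. -/
theorem exists_btMk_iwa241 {ϖ : k} (hϖ : Valued.v ϖ = WithZero.exp (-1 : ℤ))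
    (x : GL (Fin 2) k) :
    ∃ (n : ℤ) (c : k), btMk340 (iwa241 (ϖ ^ n) c (zpow_ne_zero n (unif_ne_zero340 hϖ)))
      = btMk340 x := by
  have hϖ0 : ϖ ≠ 0 := unif_ne_zero340 hϖ
  obtain ⟨b, u, hx, hb, hu⟩ := iwasawa129 (vO129 k) x
  have hb10 : (b : Matrix (Fin 2) (Fin 2) k) 1 0 = 0 := hb
  have hdet := det_ne_zero129 b
  rw [hb10, mul_zero, sub_zero] at hdet
  set a : k := (b : Matrix (Fin 2) (Fin 2) k) 0 0 with ha
  set β : k := (b : Matrix (Fin 2) (Fin 2) k) 0 1 with hβ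
  set d : k := (b : Matrix (Fin 2) (Fin 2) k) 1 1 with hd
  have ha0 : a ≠ 0 := left_ne_zero_of_mul hdet
  have hd0 : d ≠ 0 := right_ne_zero_of_mul hdet
  have had : Valued.v (a / d) ≠ 0 := by
    rw [ne_eq, map_eq_zero]
    exact div_ne_zero ha0 hd0
  set n : ℤ := - WithZero.log (Valued.v (a / d)) with hn
  have hvn : Valued.v (ϖ ^ n) = Valued.v (a / d) := by
    rw [map_zpow₀, hϖ, ← WithZero.exp_zsmul, hn]
    simp only [smul_eq_mul, mul_neg, mul_one, neg_neg]
    rw [WithZero.exp_log had]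
  have hϖn : ϖ ^ n ≠ 0 := zpow_ne_zero n hϖ0
  set ε : k := (a / d) * (ϖ ^ n)⁻¹ with hε
  have hε0 : ε ≠ 0 := mul_ne_zero (div_ne_zero ha0 hd0) (inv_ne_zero hϖn)
  have hvε : Valued.v ε = 1 := by
    rw [hε, map_mul, map_inv₀, hvn, mul_inv_cancel₀ had]
  have hw : InU 0 (diag129 ε 1 hε0 one_ne_zero * u) :=
    inU_zero_mul129
      ((inU_zero_iff129 _).2 (isMaxCpt129_diag_unit hε0 one_ne_zero hvε (by simp)))
      ((inU_zero_iff129 _).2 hu)
  refine ⟨n, β / d, ?_⟩
  rw [btMk340_eq_iff]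
  have hxx : x = iwa241 (ϖ ^ n) (β / d) hϖn * (scal340 d hd0 * (diag129 ε 1 hε0 one_ne_zero * u)) := by
    rw [hx, ← mul_assoc, ← mul_assoc]
    congr 1
    apply ext_mat129
    rw [Matrix.GeneralLinearGroup.coe_mul, Matrix.GeneralLinearGroup.coe_mul, coe_iwa241,
      coe_scal340, diag129, coe_mkGL129, eta129 b]
    ext p r
    fin_cases p <;> fin_cases r <;>
      simp [Matrix.mul_apply, Fin.sum_univ_two, ← ha, ← hβ, ← hd, hb10, hε]
    · field_simp
    · field_simp
  rw [hxx, inv_mul_cancel_left, cdist340_scal_mul]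
  exact cdist340_of_inU hw

end OneField

section TwoFields

variable {k k' : Type} [Field k] [Field k'] [Valued k Γ₀] [Valued k' Γ₀]

/-- The iterates of `s` move `c` by at most `B` if `s` does. -/
theorem val_pow_sub_le241 (s : k' ≃+* k') (hs : ∀ y : k', Valued.v (s y) = Valued.v y)
    (c : k') (B : Γ₀) (h : Valued.v (c - s c) ≤ B) (j : ℕ) :
    Valued.v (c - (s ^ j) c) ≤ B := by
  induction j with
  | zero => simp
  | succ j ih =>
    have e : c - (s ^ (j + 1)) c = (c - s c) + s (c - (s ^ j) c) := by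
      rw [pow_succ', RingAut.mul_apply, map_sub]
      ring
    rw [e]
    refine (Valuation.map_add _ _ _).trans (max_le h ?_)
    rw [hs]
    exact ih

/-- **T6.13.3b.6 (FixSigma).** -/
theorem fixSigmaC241 : FixSigmaC865 := by
  intro k k' _ _ _ _ q l i s hU x hfix
  classical
  have hext := hU.hext
  obtain ⟨ϖk, hϖk⟩ := hU.hk.unif
  have hϖk0 : ϖk ≠ 0 := unif_ne_zero340 hϖk
  set ϖ : k' := i ϖk with hϖdef
  have hϖ : Valued.v ϖ = WithZero.exp (-1 : ℤ) := by rw [hϖdef, val_i220 hext, hϖk]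
  have hϖ0 : ϖ ≠ 0 := unif_ne_zero340 hϖ
  have hsϖ : s ϖ = ϖ := hext.cyc.fix_i ϖk
  obtain ⟨n, c, h1⟩ := exists_btMk_iwa241 hϖ x
  have hϖn : ϖ ^ n ≠ 0 := zpow_ne_zero n hϖ0
  have hsϖn : s (ϖ ^ n) = ϖ ^ n := by rw [map_zpow₀, hsϖ]
  -- the vertex is `s`-fixed
  have h2 : btAut340 s hext.val_s (btMk340 (iwa241 (ϖ ^ n) c hϖn)) =
      btMk340 (iwa241 (ϖ ^ n) c hϖn) := by
    rw [h1]
    exact hfix
  have hgl : glAut s (iwa241 (ϖ ^ n) c hϖn) = iwa241 (ϖ ^ n) (s c) hϖn := by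
    apply ext_mat129
    ext p r
    rw [coe_glAut340, coe_iwa241, coe_iwa241]
    fin_cases p <;> fin_cases r <;> simp [hsϖn]
  rw [btAut340_mk, hgl, btMk_iwa_eq_iff241] at h2
  -- `s c - c ∈ ϖ^n 𝒪'`
  set B : Γ₀ := Valued.v (ϖ ^ n) with hB
  have hB0 : B ≠ 0 := by rw [hB, ne_eq, map_eq_zero]; exact hϖn
  have hcs : Valued.v (c - s c) ≤ B := by
    rw [map_mul, map_inv₀] at h2
    have := mul_le_mul' h2 (le_refl B)
    rwa [mul_assoc, inv_mul_cancel₀ hB0, mul_one, one_mul] at this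
  -- the trace-one element
  obtain ⟨θ, hθ, htr⟩ := exists_tr_eq_one220 hU.hk hU.hk' hext hU.hl
  set c₀ : k' := tr220 s l (θ * c) with hc₀
  have hfix₀ : s c₀ = c₀ := s_tr220 s l (θ * c) (hext.cyc.order _)
  obtain ⟨c₁, hc₁⟩ := hext.cyc.fixed c₀ hfix₀
  have hdiff : c - c₀ = ∑ j ∈ Finset.range l, (s ^ j) θ * (c - (s ^ j) c) := by
    have e1 : ∑ j ∈ Finset.range l, (s ^ j) θ * (c - (s ^ j) c) =
        (∑ j ∈ Finset.range l, (s ^ j) θ) * c - ∑ j ∈ Finset.range l, (s ^ j) (θ * c) := by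
      rw [Finset.sum_mul, ← Finset.sum_sub_distrib]
      refine Finset.sum_congr rfl fun j _ => ?_
      rw [map_mul]
      ring
    rw [e1]
    have e2 : ∑ j ∈ Finset.range l, (s ^ j) θ = 1 := htr
    rw [e2, one_mul]
    rfl
  have hc₀c : Valued.v (c - c₀) ≤ B := by
    rw [hdiff]
    refine Valuation.map_sum_le _ fun j _ => ?_
    rw [map_mul, val_pow_s220 s hext.val_s]
    calc Valued.v θ * Valued.v (c - (s ^ j) c) ≤ 1 * B :=
          mul_le_mul' hθ (val_pow_sub_le241 s hext.val_s c B hcs j)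
      _ = B := one_mul B
  -- the vertex over `k`
  have hϖkn : ϖk ^ n ≠ 0 := zpow_ne_zero n hϖk0
  refine ⟨iwa241 (ϖk ^ n) c₁ hϖkn, ?_⟩
  have hmap : Matrix.GeneralLinearGroup.map i (iwa241 (ϖk ^ n) c₁ hϖkn) =
      iwa241 (ϖ ^ n) c₀ hϖn := by
    apply ext_mat129
    ext p r
    rw [coe_iwa241]
    show i (((iwa241 (ϖk ^ n) c₁ hϖkn : GL (Fin 2) k) : Matrix (Fin 2) (Fin 2) k) p r) = _
    rw [coe_iwa241]
    fin_cases p <;> fin_cases r <;> simp [hc₁, hϖdef, map_zpow₀]
  rw [hmap, ← h1, btMk_iwa_eq_iff241, map_mul, map_inv₀]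
  calc Valued.v (c - c₀) * (Valued.v (ϖ ^ n))⁻¹ ≤ B * (Valued.v (ϖ ^ n))⁻¹ :=
        mul_le_mul' hc₀c (le_refl _)
    _ = 1 := by rw [hB, mul_inv_cancel₀ hB0]

end TwoFields

end Fermat.Agent.LT.T6.H241

end
end
-- ===== PACK-END LT/T6/H241/FixSigma.lean

-- ===== PACK-BEGIN LT/T6/H426/Outside.lean
section



/-!
# Row LT, tower T6, sub-leaf T6.13.3b.7 (`H865.OutsideC865`, registry 1324) -- helper426

OFF-MAIN.  `outsideC426 : H865.OutsideC865`, unconditional: in twisted normal form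
`N u = a + ϖ^r W` (`χ_W` without root modulo `ϖ` in `𝒪`) the twisted action `[x] ↦ [u s(x)]`
fixes no vertex at distance `r + 1` from `[1]`.

Proof.  `g = K diag(x, y) K'`, `v x = v y · exp (r + 1)`.  If `[g]` is fixed then
`D⁻¹ u₁ s(D)` (`u₁ = K⁻¹ u s(K)`) has Cartan distance `0` and determinant of valuation `1`,
so its entries are integral: `v (u₁ 1 0) ≤ exp (-(r + 1)) =: ε`.  Integral matrices with
lower-left entry of valuation `≤ ε` are stable under products and under `s`, with upper-left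
entry multiplicative modulo `ε`; hence `N u₁ = K⁻¹ (N u) K = a + ϖ^r W₁` has lower-left entry
`≤ ε` and upper-left entry `≡ ∏_{m<l} s^m (u₁ 0 0) = i c₁` modulo `ε`.  So `b = (c₁ - a) / ϖ^r`
is integral with `W₁ 0 0 ≡ i b`, `W₁ 1 0 ≡ 0` modulo `ϖ`, and `χ_W (b) ≡ 0`: contradiction.
-/

set_option autoImplicit false

open scoped Matrix

noncomputable section

namespace Fermat.Agent.LT.T6.H426

open Fermat.Agent.LT.T6 Fermat.Agent.LT.T6.H60 Fermat.Agent.LT.H338 Fermat.Agent.LT.T6.H340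
  Fermat.Agent.LT.T6.H277 Fermat.Agent.LT.T6.H865 Fermat.Agent.LT.H129

section Grp

variable {R : Type} [CommRing R]

theorem pow_succ_apply426 (s : R ≃+* R) (n : ℕ) (y : R) : (s ^ (n + 1)) y = s ((s ^ n) y) := by
  rw [pow_succ']; rfl

theorem glAut_succ426 (s : R ≃+* R) (n : ℕ) (x : GL (Fin 2) R) :
    glAut s (glAut (s ^ n) x) = glAut (s ^ (n + 1)) x := by
  apply Units.ext
  ext a b
  exact (pow_succ_apply426 s n _).symm

theorem glAut_zero426 (s : R ≃+* R) (x : GL (Fin 2) R) : glAut (s ^ 0) x = x := by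
  apply Units.ext
  ext a b
  rw [pow_zero]; rfl

theorem glAut_fix426 (s : R ≃+* R) (h : ∀ y : R, s y = y) (x : GL (Fin 2) R) :
    glAut s x = x := by
  apply Units.ext
  ext a b
  exact h _

/-- The twisted norm of an `s`-conjugate. -/
theorem twN_conj426 (s : R ≃+* R) (δ x : GL (Fin 2) R) (n : ℕ) :
    twN (glAut s) n (x⁻¹ * δ * glAut s x) = x⁻¹ * twN (glAut s) n δ * glAut (s ^ n) x := by
  induction n with
  | zero =>
    rw [glAut_zero426]
    simp [twN]
  | succ n ih =>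
    rw [twN, twN, ih, map_mul, map_mul, map_inv, glAut_succ426]
    group

/-- The product of the conjugates is fixed by `s`. -/
theorem prod_fix426 (s : R ≃+* R) (l : ℕ) (hl : 0 < l) (c : R) (hc : (s ^ l) c = c) :
    s (∏ m ∈ Finset.range l, (s ^ m) c) = ∏ m ∈ Finset.range l, (s ^ m) c := by
  obtain ⟨l', rfl⟩ : ∃ l', l = l' + 1 := ⟨l - 1, by omega⟩
  rw [map_prod]
  have h1 : ∀ m : ℕ, s ((s ^ m) c) = (s ^ (m + 1)) c := fun m => (pow_succ_apply426 s m c).symm
  simp only [h1]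
  rw [Finset.prod_range_succ (fun m => (s ^ (m + 1)) c), hc,
    Finset.prod_range_succ' (fun m => (s ^ m) c)]
  rw [pow_zero]; rfl

end Grp

section Val

variable {k' : Type} [Field k'] [Valued k' Γ₀]

/-- Integral matrices with lower-left entry of valuation `≤ ε`. -/
def LowInt426 (ε : Γ₀) (A : Matrix (Fin 2) (Fin 2) k') : Prop :=
  (∀ i j, Valued.v (A i j) ≤ 1) ∧ Valued.v (A 1 0) ≤ ε

theorem lowInt_mul426 {ε : Γ₀} {A B : Matrix (Fin 2) (Fin 2) k'} (hA : LowInt426 ε A)
    (hB : LowInt426 ε B) :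
    LowInt426 ε (A * B) ∧ Valued.v ((A * B) 0 0 - A 0 0 * B 0 0) ≤ ε := by
  refine ⟨⟨fun i j => ?_, ?_⟩, ?_⟩
  · rw [Matrix.mul_apply, Fin.sum_univ_two]
    refine le_trans (Valuation.map_add _ _ _) (max_le ?_ ?_)
    · rw [map_mul]; exact mul_le_one' (hA.1 _ _) (hB.1 _ _)
    · rw [map_mul]; exact mul_le_one' (hA.1 _ _) (hB.1 _ _)
  · rw [Matrix.mul_apply, Fin.sum_univ_two]
    refine le_trans (Valuation.map_add _ _ _) (max_le ?_ ?_)
    · rw [map_mul]; exact (mul_le_mul' hA.2 (hB.1 0 0)).trans (by rw [mul_one])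
    · rw [map_mul]; exact (mul_le_mul' (hA.1 1 1) hB.2).trans (by rw [one_mul])
  · have : (A * B) 0 0 - A 0 0 * B 0 0 = A 0 1 * B 1 0 := by
      rw [Matrix.mul_apply, Fin.sum_univ_two]; ring
    rw [this, map_mul]
    exact (mul_le_mul' (hA.1 0 1) hB.2).trans (by rw [one_mul])

theorem inU_zero_glAut426 (s : k' ≃+* k') (hs : ∀ y : k', Valued.v (s y) = Valued.v y)
    {g : GL (Fin 2) k'} (hg : InU 0 g) : InU 0 (glAut s g) := by
  rw [inU_zero_iff129] at *
  refine ⟨fun a b => ?_, fun a b => ?_⟩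
  · rw [mem_vO129, coe_glAut340, hs]; exact hg.1 a b
  · rw [← map_inv, mem_vO129, coe_glAut340, hs]; exact hg.2 a b

/-- The twisted norm of an integral matrix with small lower-left entry. -/
theorem lowInt_twN426 (s : k' ≃+* k') (hs : ∀ y : k', Valued.v (s y) = Valued.v y) {ε : Γ₀}
    (u : GL (Fin 2) k') (hu : LowInt426 ε (u : Matrix (Fin 2) (Fin 2) k')) (n : ℕ) :
    LowInt426 ε ((twN (glAut s) n u : GL (Fin 2) k') : Matrix (Fin 2) (Fin 2) k') ∧
      Valued.v (((twN (glAut s) n u : GL (Fin 2) k') : Matrix (Fin 2) (Fin 2) k') 0 0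
        - ∏ m ∈ Finset.range n, (s ^ m) ((u : Matrix (Fin 2) (Fin 2) k') 0 0)) ≤ ε := by
  induction n with
  | zero =>
    refine ⟨⟨fun a b => ?_, ?_⟩, ?_⟩
    · change Valued.v ((1 : Matrix (Fin 2) (Fin 2) k') a b) ≤ 1
      by_cases hab : a = b
      · subst hab; simp
      · simp [hab]
    · change Valued.v ((1 : Matrix (Fin 2) (Fin 2) k') 1 0) ≤ ε
      simp
    · change Valued.v ((1 : Matrix (Fin 2) (Fin 2) k') 0 0 - _) ≤ ε
      simp
  | succ n ih =>
    obtain ⟨ih1, ih2⟩ := ih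
    set T : GL (Fin 2) k' := twN (glAut s) n u with hT
    have hsT : LowInt426 ε ((glAut s T : GL (Fin 2) k') : Matrix (Fin 2) (Fin 2) k') := by
      refine ⟨fun a b => ?_, ?_⟩
      · rw [coe_glAut340, hs]; exact ih1.1 a b
      · rw [coe_glAut340, hs]; exact ih1.2
    have hm := lowInt_mul426 hu hsT
    have e : twN (glAut s) (n + 1) u = u * glAut s T := rfl
    rw [e, Matrix.GeneralLinearGroup.coe_mul]
    refine ⟨hm.1, ?_⟩
    set c : k' := (u : Matrix (Fin 2) (Fin 2) k') 0 0 with hc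
    have hprod : ∏ m ∈ Finset.range (n + 1), (s ^ m) c
        = c * s (∏ m ∈ Finset.range n, (s ^ m) c) := by
      rw [Finset.prod_range_succ' (fun m => (s ^ m) c), map_prod, mul_comm]
      congr 1
      exact Finset.prod_congr rfl (fun m _ => pow_succ_apply426 s m c)
    have e2 : ((u : Matrix (Fin 2) (Fin 2) k') * (glAut s T : GL (Fin 2) k')) 0 0
        - ∏ m ∈ Finset.range (n + 1), (s ^ m) c
        = (((u : Matrix (Fin 2) (Fin 2) k') * (glAut s T : GL (Fin 2) k')) 0 0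
            - c * ((glAut s T : GL (Fin 2) k') : Matrix (Fin 2) (Fin 2) k') 0 0)
          + c * s ((T : Matrix (Fin 2) (Fin 2) k') 0 0 - ∏ m ∈ Finset.range n, (s ^ m) c) := by
      rw [hprod, coe_glAut340, map_sub]; ring
    rw [e2]
    refine le_trans (Valuation.map_add _ _ _) (max_le hm.2 ?_)
    rw [map_mul, hs]
    exact (mul_le_mul' (hu.1 0 0) ih2).trans (by rw [one_mul])

end Val

section Main

theorem exp_le_of_mul426 {a : Γ₀} {n : ℤ} (h : a * WithZero.exp n ≤ 1) :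
    a ≤ WithZero.exp (-n) := by
  rw [WithZero.exp_neg]
  have hpos : (0 : Γ₀) < WithZero.exp n := WithZero.exp_pos
  have h2 : a * WithZero.exp n ≤ (WithZero.exp n)⁻¹ * WithZero.exp n := by
    rw [inv_mul_cancel₀ hpos.ne']; exact h
  exact (mul_le_mul_iff_left₀ hpos).mp h2

theorem le_one_of_sq426 {a : Γ₀} (h : a ^ 2 = 1) : a ≤ 1 := by
  by_contra hlt
  rw [not_le] at hlt
  have := one_lt_pow₀ hlt (n := 2) (by norm_num)
  rw [h] at this
  exact lt_irrefl _ this

variable {k k' : Type} [Field k] [Field k'] [Valued k Γ₀] [Valued k' Γ₀]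

/-- Step 1: a fixed vertex at distance `n` forces the lower-left entry to be `≡ 0 mod ϖⁿ`. -/
theorem low_entry426 (s : k' ≃+* k') (hs : ∀ y : k', Valued.v (s y) = Valued.v y)
    {x y : k'} (hx : x ≠ 0) (hy : y ≠ 0) {n : ℕ}
    (hxy : Valued.v x = Valued.v y * WithZero.exp (n : ℤ))
    {u₁ : GL (Fin 2) k'} (hu₁ : InU 0 u₁)
    (h0 : cdist340 ((diag129 x y hx hy)⁻¹ * u₁ * glAut s (diag129 x y hx hy)) = 0) :
    Valued.v ((u₁ : Matrix (Fin 2) (Fin 2) k') 1 0) ≤ WithZero.exp (-(n : ℤ)) := by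
  set M : GL (Fin 2) k' := (diag129 x y hx hy)⁻¹ * u₁ * glAut s (diag129 x y hx hy) with hM
  have hsD : ((glAut s (diag129 x y hx hy) : GL (Fin 2) k') : Matrix (Fin 2) (Fin 2) k')
      = !![s x, 0; 0, s y] := by
    ext a b
    rw [coe_glAut340]
    fin_cases a <;> fin_cases b <;> simp [diag129]
  have hMc : (M : Matrix (Fin 2) (Fin 2) k')
      = !![x⁻¹, 0; 0, y⁻¹] * (u₁ : Matrix (Fin 2) (Fin 2) k') * !![s x, 0; 0, s y] := by
    rw [hM, diag129_inv340, Matrix.GeneralLinearGroup.coe_mul, Matrix.GeneralLinearGroup.coe_mul,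
      hsD]
    rfl
  have hvx : Valued.v x ≠ 0 := by rwa [ne_eq, map_eq_zero]
  have hvy : Valued.v y ≠ 0 := by rwa [ne_eq, map_eq_zero]
  have hdet : Valued.v (M : Matrix (Fin 2) (Fin 2) k').det = 1 := by
    rw [hMc, Matrix.det_mul, Matrix.det_mul, Matrix.det_fin_two_of, Matrix.det_fin_two_of,
      map_mul, map_mul, valued_det_of_isMaxCpt129 ((inU_zero_iff129 _).mp hu₁)]
    simp only [mul_zero, sub_zero, map_mul, map_inv₀, hs, mul_one]
    rw [mul_comm (Valued.v x)⁻¹, mul_assoc, ← mul_assoc (Valued.v x)⁻¹, inv_mul_cancel₀ hvx,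
      one_mul, inv_mul_cancel₀ hvy]
  have hE : entryMax M ≤ 1 := by
    apply le_one_of_sq426
    rw [(cdist340_eq_iff M 0).mp h0, hdet]
    simp
  have h10 : (M : Matrix (Fin 2) (Fin 2) k') 1 0
      = y⁻¹ * (u₁ : Matrix (Fin 2) (Fin 2) k') 1 0 * s x := by
    rw [hMc, Matrix.mul_apply, Fin.sum_univ_two, Matrix.mul_apply, Matrix.mul_apply,
      Fin.sum_univ_two, Fin.sum_univ_two]
    simp
  have h1 := (entry_le_entryMax129 M 1 0).trans hE
  rw [h10, map_mul, map_mul, map_inv₀, hs, hxy] at h1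
  apply exp_le_of_mul426
  refine le_trans (le_of_eq ?_) h1
  rw [mul_comm (Valued.v y)⁻¹, mul_assoc, ← mul_assoc (Valued.v y)⁻¹, inv_mul_cancel₀ hvy,
    one_mul]

/-- The core: no matrix `g` of Cartan distance `r + 1` gives a fixed vertex. -/
theorem outside_core426 {q l : ℕ} {i : k →+* k'} {s : k' ≃+* k'} (hU : IsUnrExt865 q l i s)
    {ϖ a t' n' : k} {r : ℕ} {W u : GL (Fin 2) k'} (hNF : IsTwNF865 l i s ϖ a t' n' r W u)
    (g : GL (Fin 2) k') (hg : cdist340 g = r + 1)
    (h0 : cdist340 (g⁻¹ * u * glAut s g) = 0) : False := by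
  have hs := hU.hext.val_s
  have hi : ∀ z : k, Valued.v (i z) = Valued.v z := fun z => by rw [hU.hext.val_i, pow_one]
  have hcyc := hU.hext.cyc
  obtain ⟨K, K', x, y, hx, hy, hK, hK', hgeq, hxy⟩ := exists_decomp340 g
  rw [hg] at hxy
  have hKi : InU 0 K⁻¹ := inU_zero_inv129 hK
  have hsK : InU 0 (glAut s K) := inU_zero_glAut426 s hs hK
  set u₁ : GL (Fin 2) k' := K⁻¹ * u * glAut s K with hu₁
  have hu₁U : InU 0 u₁ := inU_zero_mul129 (inU_zero_mul129 hKi hNF.u_int) hsK
  have hM : cdist340 ((diag129 x y hx hy)⁻¹ * u₁ * glAut s (diag129 x y hx hy)) = 0 := by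
    have e : g⁻¹ * u * glAut s g
        = K'⁻¹ * ((diag129 x y hx hy)⁻¹ * u₁ * glAut s (diag129 x y hx hy)) * glAut s K' := by
      rw [hgeq, hu₁, map_mul, map_mul]; group
    rw [e, cdist340_mul_right _ (inU_zero_glAut426 s hs hK'),
      cdist340_mul_left _ (inU_zero_inv129 hK')] at h0
    exact h0
  have hlow := low_entry426 s hs hx hy hxy hu₁U hM
  set ε : Γ₀ := WithZero.exp (-((r + 1 : ℕ) : ℤ)) with hε
  have hu₁L : LowInt426 ε (u₁ : Matrix (Fin 2) (Fin 2) k') :=
    ⟨fun a b => ((inU_zero_iff129 _).mp hu₁U).1 a b, hlow⟩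
  obtain ⟨hN1, hN2⟩ := lowInt_twN426 s hs u₁ hu₁L l
  -- the norm of `u₁`
  set W₁ : GL (Fin 2) k' := K⁻¹ * W * K with hW₁
  have hW₁U : InU 0 W₁ := inU_zero_mul129 (inU_zero_mul129 hKi hNF.W_int) hK
  have hKK : ((K⁻¹ : GL (Fin 2) k') : Matrix (Fin 2) (Fin 2) k')
      * (K : Matrix (Fin 2) (Fin 2) k') = 1 := by
    rw [← Matrix.GeneralLinearGroup.coe_mul, inv_mul_cancel]; rfl
  have hKK' : (K : Matrix (Fin 2) (Fin 2) k')
      * ((K⁻¹ : GL (Fin 2) k') : Matrix (Fin 2) (Fin 2) k') = 1 := by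
    rw [← Matrix.GeneralLinearGroup.coe_mul, mul_inv_cancel]; rfl
  have hNu₁ : ((twN (glAut s) l u₁ : GL (Fin 2) k') : Matrix (Fin 2) (Fin 2) k')
      = i a • (1 : Matrix (Fin 2) (Fin 2) k') + i ϖ ^ r • (W₁ : Matrix (Fin 2) (Fin 2) k') := by
    rw [hu₁, twN_conj426, glAut_fix426 (s ^ l) hcyc.order K]
    have hn := hNF.norm_eq
    unfold twNorm at hn
    rw [Matrix.GeneralLinearGroup.coe_mul, Matrix.GeneralLinearGroup.coe_mul, hn, hW₁,
      Matrix.GeneralLinearGroup.coe_mul, Matrix.GeneralLinearGroup.coe_mul]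
    rw [Matrix.mul_add, Matrix.add_mul, Matrix.mul_smul, Matrix.smul_mul, Matrix.mul_one, hKK,
      Matrix.mul_smul, Matrix.smul_mul]
  have hvϖr : Valued.v (i ϖ ^ r) = WithZero.exp (-(r : ℤ)) := by
    rw [map_pow, hi, hNF.unif, ← WithZero.exp_nsmul]; simp
  have hεeq : ε = WithZero.exp (-(r : ℤ)) * WithZero.exp (-1 : ℤ) := by
    rw [hε, ← WithZero.exp_add]; congr 1; push_cast; ring
  have hεle : ε ≤ WithZero.exp (-(r : ℤ)) := by
    rw [hε, WithZero.exp_le_exp]; push_cast; omega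
  have hpos : (0 : Γ₀) < WithZero.exp (-(r : ℤ)) := WithZero.exp_pos
  have hW00 : Valued.v ((W₁ : Matrix (Fin 2) (Fin 2) k') 0 0) ≤ 1 :=
    ((inU_zero_iff129 _).mp hW₁U).1 0 0
  have hW01 : Valued.v ((W₁ : Matrix (Fin 2) (Fin 2) k') 0 1) ≤ 1 :=
    ((inU_zero_iff129 _).mp hW₁U).1 0 1
  have hW11 : Valued.v ((W₁ : Matrix (Fin 2) (Fin 2) k') 1 1) ≤ 1 :=
    ((inU_zero_iff129 _).mp hW₁U).1 1 1
  -- the lower-left entry of `W₁` is `≡ 0 mod ϖ`
  have hW10 : Valued.v ((W₁ : Matrix (Fin 2) (Fin 2) k') 1 0) ≤ WithZero.exp (-1 : ℤ) := by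
    have h := hN1.2
    rw [hNu₁] at h
    simp only [Matrix.add_apply, Matrix.smul_apply,
      Matrix.one_apply_ne (show (1 : Fin 2) ≠ 0 by decide), smul_eq_mul, mul_zero, zero_add] at h
    rw [map_mul, hvϖr, hεeq] at h
    exact (mul_le_mul_iff_right₀ hpos).mp h
  -- the product of the conjugates of the upper-left entry comes from `k`
  set c : k' := (u₁ : Matrix (Fin 2) (Fin 2) k') 0 0 with hc
  set P : k' := ∏ m ∈ Finset.range l, (s ^ m) c with hP
  have hPfix : s P = P := prod_fix426 s l hcyc.pos c (hcyc.order c)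
  obtain ⟨c₁, hc₁⟩ := hcyc.fixed P hPfix
  rw [hNu₁] at hN2
  simp only [Matrix.add_apply, Matrix.smul_apply, Matrix.one_apply_eq, smul_eq_mul,
    mul_one] at hN2
  rw [← hc₁] at hN2
  have hca : Valued.v (c₁ - a) ≤ WithZero.exp (-(r : ℤ)) := by
    rw [← hi, map_sub]
    have e : i c₁ - i a = i ϖ ^ r * (W₁ : Matrix (Fin 2) (Fin 2) k') 0 0
        - (i a + i ϖ ^ r * (W₁ : Matrix (Fin 2) (Fin 2) k') 0 0 - i c₁) := by ring
    rw [e]
    refine le_trans (Valuation.map_sub _ _ _) (max_le ?_ (hN2.trans hεle))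
    rw [map_mul, hvϖr]
    exact (mul_le_mul' le_rfl hW00).trans (by rw [mul_one])
  have hϖ0 : ϖ ≠ 0 := unif_ne_zero340 hNF.unif
  have hϖr0 : ϖ ^ r ≠ 0 := pow_ne_zero _ hϖ0
  have hvϖr' : Valued.v (ϖ ^ r) = WithZero.exp (-(r : ℤ)) := by
    rw [← hi, map_pow]; exact hvϖr
  set b : k := (c₁ - a) / ϖ ^ r with hb
  have hbeq : c₁ - a = ϖ ^ r * b := by rw [hb]; field_simp
  have hbint : Valued.v b ≤ 1 := by
    have h := hca
    rw [hbeq, map_mul, hvϖr'] at h
    have h' : WithZero.exp (-(r : ℤ)) * Valued.v b ≤ WithZero.exp (-(r : ℤ)) * 1 := by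
      rw [mul_one]; exact h
    exact (mul_le_mul_iff_right₀ hpos).mp h'
  have hdiff : Valued.v ((W₁ : Matrix (Fin 2) (Fin 2) k') 0 0 - i b)
      ≤ WithZero.exp (-1 : ℤ) := by
    have e1 : i c₁ = i a + i ϖ ^ r * i b := by
      rw [← map_pow, ← map_mul, ← map_add, ← hbeq]; congr 1; ring
    have e : i a + i ϖ ^ r * (W₁ : Matrix (Fin 2) (Fin 2) k') 0 0 - i c₁
        = i ϖ ^ r * ((W₁ : Matrix (Fin 2) (Fin 2) k') 0 0 - i b) := by
      rw [e1]; ring
    rw [e, map_mul, hvϖr, hεeq] at hN2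
    exact (mul_le_mul_iff_right₀ hpos).mp hN2
  -- the characteristic polynomial of `W₁` at `b`
  have htr : (W₁ : Matrix (Fin 2) (Fin 2) k').trace = i t' := by
    rw [hW₁, Matrix.GeneralLinearGroup.coe_mul, Matrix.GeneralLinearGroup.coe_mul,
      Matrix.mul_assoc, Matrix.trace_mul_comm, Matrix.mul_assoc, hKK', Matrix.mul_one]
    exact hNF.W_tr
  have hdt : (W₁ : Matrix (Fin 2) (Fin 2) k').det = i n' := by
    rw [hW₁, Matrix.GeneralLinearGroup.coe_mul, Matrix.GeneralLinearGroup.coe_mul,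
      Matrix.det_mul, Matrix.det_mul, mul_comm, ← mul_assoc, ← Matrix.det_mul, hKK',
      Matrix.det_one, one_mul]
    exact hNF.W_det
  rw [Matrix.trace_fin_two] at htr
  rw [Matrix.det_fin_two] at hdt
  have hchi : i (chi277 t' n' b)
      = (i b - (W₁ : Matrix (Fin 2) (Fin 2) k') 0 0) * (i b - (W₁ : Matrix (Fin 2) (Fin 2) k') 1 1)
        - (W₁ : Matrix (Fin 2) (Fin 2) k') 0 1 * (W₁ : Matrix (Fin 2) (Fin 2) k') 1 0 := by
    unfold chi277
    rw [map_add, map_sub, map_pow, map_mul, ← htr, ← hdt]; ring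
  have hlt : Valued.v (i (chi277 t' n' b)) ≤ WithZero.exp (-1 : ℤ) := by
    rw [hchi]
    refine le_trans (Valuation.map_sub _ _ _) (max_le ?_ ?_)
    · rw [map_mul]
      have h1 : Valued.v (i b - (W₁ : Matrix (Fin 2) (Fin 2) k') 0 0) ≤ WithZero.exp (-1 : ℤ) := by
        rw [← Valuation.map_neg, neg_sub]; exact hdiff
      have h2 : Valued.v (i b - (W₁ : Matrix (Fin 2) (Fin 2) k') 1 1) ≤ 1 :=
        le_trans (Valuation.map_sub _ _ _) (max_le (by rw [hi]; exact hbint) hW11)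
      exact (mul_le_mul' h1 h2).trans (by rw [mul_one])
    · rw [map_mul]
      exact (mul_le_mul' hW01 hW10).trans (by rw [one_mul])
  rw [hi, hNF.irr b hbint] at hlt
  have : (WithZero.exp (-1 : ℤ) : Γ₀) < 1 := by
    rw [← WithZero.exp_zero, WithZero.exp_lt_exp]; norm_num
  exact absurd hlt (not_le.mpr this)

/-- **T6.13.3b.7 (Outside)**, unconditional. -/
theorem outsideC426 : OutsideC865 := by
  intro k k' _ _ _ _ q l i s hU ϖ a t' n' r W u hNF p hp hfix
  obtain ⟨g, rfl⟩ := btMk340_surjective p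
  have hs := hU.hext.val_s
  rw [btDist340_mk, inv_one, one_mul] at hp
  have h0 : cdist340 (g⁻¹ * u * glAut s g) = 0 := by
    rw [← btDist340_tw_mk s hs, hfix]
    exact (btDist340_eq_zero _ _).mpr rfl
  exact outside_core426 hU hNF g hp h0

end Main

end Fermat.Agent.LT.T6.H426

end

end
-- ===== PACK-END LT/T6/H426/Outside.lean

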