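import Mathlib
import Fermat.Agent.Pack.LT3.E19L0
import Fermat.Agent.Pack.LT3.E5L0
import Fermat.Agent.Pack.LT3.E19L1
import Fermat.Agent.Pack.LT3.E18L0
import Fermat.Agent.Pack.LT3.E12L1
import Fermat.Agent.Pack.LT3.E8L1
import Fermat.Agent.Pack.LT3.E8L3
import Fermat.Agent.Pack.LT3.E6L3
import Fermat.Agent.Pack.LT3.E9L3
import Fermat.Agent.Pack.LT3.E12L0
import Fermat.Agent.Pack.LT3.E6L2
import Fermat.Agent.Pack.LT3.E6L1
import Fermat.Agent.Pack.LT3.E9L1
import Fermat.Agent.Pack.LT3.E12L3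
import Fermat.Agent.Pack.LT3.E12L2
import Fermat.Agent.Pack.LT3.E3L2
import Fermat.Agent.Pack.LT2.E3L1
import Fermat.Agent.Pack.LT3.E15L2
import Fermat.Agent.Pack.LT3.E15L3
import Fermat.Agent.Pack.LT3.E10L1
import Fermat.Agent.Pack.LT2.E0L2
import Fermat.Agent.Pack.LT2.E0L1
import Fermat.Agent.Pack.LT2.E14L0
import Fermat.Agent.Pack.LT3.E19L3

set_option linter.all false

-- ===== PACK-BEGIN LT/T3/M/NIntTop.lean
section


/-!
# Row LT, tower T3, station T3.18M (architect helper14): THE TOP of the multi-place `N`-integral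

OFF-MAIN.  Complete proof, nothing assumed.

`nIntM_of : N893.IwasawaFormC K → PureUpperMC K → OutsideCosetMC K → N893.AffineC K → SplitMC K →
LocValFinMC K → N893.LocValInfC K → ProdFormMC K → NIntMC K`
(the top `nIntC_of893` of helper893 with the finite set `P` in place of `v₀`).
-/

set_option autoImplicit false
set_option linter.style.haveILetI false

open IsDedekindDomain NumberField MeasureTheory
open Fermat.Agent.LT.H556.A0

noncomputable section

namespace Fermat.Agent.LT.T3.M

open Fermat.Agent.LT.T3.AS Fermat.Agent.LT.T3.AS.N893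

variable (K : Type) [Field K] [NumberField K]

/-- The coordinates of the translate `Δ + j c₀`. -/
theorem pureCoordM_shift (P : Finset (HeightOneSpectrum (𝓞 K)))
    (A : HeightOneSpectrum (𝓞 K) → ℤ × ℤ → ℂ) (β : InfinitePlace K → ℝ × ℝ → ℂ)
    (o₁ o₂ : HeightOneSpectrum (𝓞 K) → ℤ) (l₁ l₂ : InfinitePlace K → ℝ)
    (e : HeightOneSpectrum (𝓞 K) → ℕ) (α : Kˣ) (j : ℤ) :
    pureCoordM K P A β (((fun v : P => (o₁ v, o₂ v)), fun w => (l₁ w, l₂ w))
        + j • coordTorM K P e α)
      = (∏ v ∈ P, A v (o₁ v + j * e v, o₂ v)) * ∏ w : InfinitePlace K,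
          β w (l₁ w + j * Real.log (w (α : K)), l₂ w) := by
  unfold pureCoordM pureCrd coordTorM c0
  simp only [Prod.smul_mk, Prod.mk_add_mk, Pi.add_apply, Pi.smul_apply]
  simp only [smul_eq_mul, mul_zero, add_zero, zsmul_eq_mul]
  rw [Finset.prod_coe_sort P (fun v => A v (o₁ v + j * (e v : ℤ), o₂ v))]

/-- The constant algebra of the top. -/
theorem top_algebraM (ι₁ ι₂ : Type) [Fintype ι₂] (P : Finset ι₁) (ca c₀ : ℂ)
    (V q0 qn A : ι₁ → ℂ) (N y B : ι₂ → ℂ) (j : ℤ)
    (hprod : (∏ v ∈ P, qn v) * ∏ w, y w = 1) :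
    ca * (c₀ * (∏ v ∈ P, V v * q0 v * qn v ^ j * A v) * ∏ w, (N w * y w ^ j) * B w)
      = (ca * c₀ * (∏ v ∈ P, V v * q0 v) * ∏ w, N w) * ((∏ v ∈ P, A v) * ∏ w, B w) := by
  have h1 : ∏ w, (N w * y w ^ j) * B w = (∏ w, N w) * (∏ w, y w) ^ j * ∏ w, B w := by
    rw [Finset.prod_mul_distrib, Finset.prod_mul_distrib, Finset.prod_zpow]
  have h0 : ∏ v ∈ P, V v * q0 v * qn v ^ j * A v
      = (∏ v ∈ P, V v * q0 v) * (∏ v ∈ P, qn v) ^ j * ∏ v ∈ P, A v := by
    rw [Finset.prod_mul_distrib, Finset.prod_mul_distrib, Finset.prod_zpow]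
  have h2 : (∏ v ∈ P, qn v) ^ j * (∏ w, y w) ^ j = 1 := by
    rw [← mul_zpow, hprod, one_zpow]
  rw [h1, h0]
  calc ca * (c₀ * ((∏ v ∈ P, V v * q0 v) * (∏ v ∈ P, qn v) ^ j * ∏ v ∈ P, A v)
        * ((∏ w, N w) * (∏ w, y w) ^ j * ∏ w, B w))
      = (ca * c₀ * (∏ v ∈ P, V v * q0 v) * ∏ w, N w) * ((∏ v ∈ P, A v) * ∏ w, B w)
          * ((∏ v ∈ P, qn v) ^ j * (∏ w, y w) ^ j) := by ring
    _ = (ca * c₀ * (∏ v ∈ P, V v * q0 v) * ∏ w, N w) * ((∏ v ∈ P, A v) * ∏ w, B w) := by
        rw [h2, mul_one]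

/-- **THE TOP of the multi-place `N`-integral.** -/
theorem nIntM_of (h1 : IwasawaFormC K) (h2 : PureUpperMC K) (h3 : OutsideCosetMC K)
    (h4 : AffineC K) (h5 : SplitMC K) (h6 : LocValFinMC K) (h7 : LocValInfC K)
    (h8 : ProdFormMC K) : NIntMC K := by
  intro hcplx ν hν 𝔫 P e a₀ α hfr
  letI : MeasurableSpace (Adl K) := borel (Adl K)
  obtain ⟨ν₀, hν₀, c₀, hsplit⟩ := h5 hcplx ν hν 𝔫 hfr.level P
  choose k₁ k' c₁ c₂ a hk₁ hk' hform using h1 α
  choose ca hca using fun g g' : G K => h4 ν hν (a g g')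
  have hprodform := h8 hcplx 𝔫 P e a₀ α hfr
  classical
  refine ⟨fun g g' =>
      if ∃ (j : ℤ) (X : Adl K), OutsideUM K 𝔫 P
          (k₁ g g' * upperGL (c₁ g g' * T1.ratUnit K α ^ j) (c₂ g g') X * k' g g') then
        ca g g' * c₀
          * (∏ v ∈ P,
              ((ν₀ v (v.adicCompletionIntegers K : Set (v.adicCompletion K))).toReal : ℂ)
              * (((Ideal.absNorm v.asIdeal : ℝ) ^
                (-(((ordA K v (c₁ g g') + ordA K v (c₂ g g') : ℤ) : ℝ)) / 2) : ℝ) : ℂ))
          * ∏ w : InfinitePlace K, ((‖((infU K w (c₁ g g') : ℂˣ) : ℂ)‖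
              * ‖((infU K w (c₂ g g') : ℂˣ) : ℂ)‖ : ℝ) : ℂ)
      else 0,
    fun g g' => ((fun v : P => (ordA K v (c₁ g g'), ordA K v (c₂ g g'))),
      fun w => (Real.log ‖((infU K w (c₁ g g') : ℂˣ) : ℂ)‖,
        Real.log ‖((infU K w (c₂ g g') : ℂˣ) : ℂ)‖)), ?_⟩
  intro A β f₀ F hf₀ hR hSat hF hAb g g' j
  obtain ⟨r, hr⟩ := hform g g' j
  -- the pure tensor in upper triangular form
  have hP : ∀ x : Adl K, pureFnM K 𝔫 P f₀ F (g⁻¹ * unip K x * torK K α ^ j * g')
      = (if OutsideUM K 𝔫 P (k₁ g g' * upperGL (c₁ g g' * T1.ratUnit K α ^ j) (c₂ g g')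
            ((a g g' : Adl K) * x + r) * k' g g') then (1 : ℂ) else 0)
        * (∏ v ∈ P, f₀ v (upperGL (finU K v (c₁ g g' * T1.ratUnit K α ^ j))
            (finU K v (c₂ g g')) (finHom K v ((a g g' : Adl K) * x + r))))
        * ∏ w : InfinitePlace K, F w (upperGL (infU K w (c₁ g g' * T1.ratUnit K α ^ j))
            (infU K w (c₂ g g')) (infHom K w ((a g g' : Adl K) * x + r))) := by
    intro x
    rw [hr x]
    exact h2 𝔫 P f₀ F hf₀ hF (k₁ g g') (k' g g') (hk₁ g g') (hk' g g') _ _ _
  beta_reduce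
  rw [pureCoordM_shift K P A β (fun v => ordA K v (c₁ g g')) (fun v => ordA K v (c₂ g g'))]
  by_cases hex : ∃ (j : ℤ) (X : Adl K), OutsideUM K 𝔫 P
      (k₁ g g' * upperGL (c₁ g g' * T1.ratUnit K α ^ j) (c₂ g g') X * k' g g')
  · rw [if_pos hex]
    obtain ⟨j₀, X₀, hX₀⟩ := hex
    -- the condition outside `S'` is the indicator of a coset
    have hind : ∀ X : Adl K,
        (if OutsideUM K 𝔫 P (k₁ g g' * upperGL (c₁ g g' * T1.ratUnit K α ^ j) (c₂ g g') X
            * k' g g') then (1 : ℂ) else 0)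
          = (outGrpM K 𝔫 P).indicator (fun _ => (1 : ℂ)) (X - X₀) := by
      intro X
      have hiff := h3 𝔫 P e a₀ α hfr (k₁ g g') (k' g g') (hk₁ g g') (hk' g g')
        (c₁ g g') (c₂ g g') j₀ j X₀ X hX₀
      by_cases hO : OutsideUM K 𝔫 P (k₁ g g' * upperGL (c₁ g g' * T1.ratUnit K α ^ j)
          (c₂ g g') X * k' g g')
      · rw [if_pos hO, Set.indicator_of_mem (hiff.1 hO)]
      · rw [if_neg hO, Set.indicator_of_notMem (fun h => hO (hiff.2 h))]
    -- the local functions
    set φ₀ : ∀ v : HeightOneSpectrum (𝓞 K), v.adicCompletion K → ℂ := fun v x =>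
      f₀ v (upperGL (finU K v (c₁ g g' * T1.ratUnit K α ^ j)) (finU K v (c₂ g g'))
        (x + finHom K v X₀)) with hφ₀
    set φ : InfinitePlace K → ℂ → ℂ := fun w z =>
      F w (upperGL (infU K w (c₁ g g' * T1.ratUnit K α ^ j)) (infU K w (c₂ g g'))
        (z + infHom K w X₀)) with hφ
    set Q : Adl K → ℂ := fun Y => (outGrpM K 𝔫 P).indicator (fun _ => (1 : ℂ)) Y
      * (∏ v ∈ P, φ₀ v (finHom K v Y)) * ∏ w : InfinitePlace K, φ w (infHom K w Y) with hQ
    have hPQ : (fun x : Adl K => pureFnM K 𝔫 P f₀ F (g⁻¹ * unip K x * torK K α ^ j * g'))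
        = fun x : Adl K => Q ((a g g' : Adl K) * x + (r - X₀)) := by
      funext x
      rw [hP x, hind]
      have e1 : (a g g' : Adl K) * x + r - X₀ = (a g g' : Adl K) * x + (r - X₀) := by ring
      have e2 : (a g g' : Adl K) * x + (r - X₀) + X₀ = (a g g' : Adl K) * x + r := by ring
      simp only [hQ, hφ₀, hφ]
      rw [e1]
      congr 1
      · congr 1
        refine Finset.prod_congr rfl fun v _ => ?_
        rw [← map_add, e2]
      · refine Finset.prod_congr rfl fun w _ => ?_
        rw [← map_add, e2]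
    have hl := fun (v : HeightOneSpectrum (𝓞 K)) (hv : v ∈ P) =>
      h6 𝔫 P e a₀ α hfr v hv (ν₀ v) (hν₀ v) (f₀ v) (A v) (hf₀ v hv) (hR v hv) (hSat v hv)
        (c₁ g g') (c₂ g g') j (finHom K v X₀)
    have hw := fun w : InfinitePlace K =>
      h7 α w (F w) (β w) (hF w) (hAb w) (c₁ g g') (c₂ g g') j (infHom K w X₀)
    obtain ⟨hQi, hQv⟩ := hsplit φ₀ φ (fun v hv => (hl v hv).1) (fun v hv => (hl v hv).2.1)
      (fun w => (hw w).1) (fun w => (hw w).2.1)
    obtain ⟨hPi, hPv⟩ := hca g g' (r - X₀) Q hQi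
    rw [hPQ]
    refine ⟨hPi, ?_⟩
    rw [hPv, hQv]
    have hwv : ∀ w : InfinitePlace K, ∫ z : ℂ, φ w z
        = ((‖((infU K w (c₁ g g') : ℂˣ) : ℂ)‖ * ‖((infU K w (c₂ g g') : ℂˣ) : ℂ)‖
              * (w (α : K)) ^ j : ℝ) : ℂ)
          * β w (Real.log ‖((infU K w (c₁ g g') : ℂˣ) : ℂ)‖ + j * Real.log (w (α : K)),
              Real.log ‖((infU K w (c₂ g g') : ℂˣ) : ℂ)‖) := fun w => (hw w).2.2
    simp_rw [hwv]
    rw [Finset.prod_congr rfl fun v hv => (hl v hv).2.2]
    have hpf : (∏ v ∈ P, (((Ideal.absNorm v.asIdeal : ℝ) ^ (-(e v : ℝ) / 2) : ℝ) : ℂ))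
        * ∏ w : InfinitePlace K, ((w (α : K) : ℝ) : ℂ) = 1 := by
      rw [← Complex.ofReal_prod, ← Complex.ofReal_prod, ← Complex.ofReal_mul, hprodform,
        Complex.ofReal_one]
    have key := top_algebraM (HeightOneSpectrum (𝓞 K)) (InfinitePlace K) P (ca g g') c₀
      (fun v => ((ν₀ v (v.adicCompletionIntegers K : Set (v.adicCompletion K))).toReal : ℂ))
      (fun v => (((Ideal.absNorm v.asIdeal : ℝ) ^
          (-(((ordA K v (c₁ g g') + ordA K v (c₂ g g') : ℤ) : ℝ)) / 2) : ℝ) : ℂ))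
      (fun v => (((Ideal.absNorm v.asIdeal : ℝ) ^ (-(e v : ℝ) / 2) : ℝ) : ℂ))
      (fun v => A v (ordA K v (c₁ g g') + j * e v, ordA K v (c₂ g g')))
      (fun w => ((‖((infU K w (c₁ g g') : ℂˣ) : ℂ)‖
          * ‖((infU K w (c₂ g g') : ℂˣ) : ℂ)‖ : ℝ) : ℂ))
      (fun w => ((w (α : K) : ℝ) : ℂ))
      (fun w => β w (Real.log ‖((infU K w (c₁ g g') : ℂˣ) : ℂ)‖ + j * Real.log (w (α : K)),
          Real.log ‖((infU K w (c₂ g g') : ℂˣ) : ℂ)‖)) j hpf
    rw [← key]
    congr 2
    · congr 1
      refine Finset.prod_congr rfl fun v _ => ?_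
      push_cast
      ring
    · refine Finset.prod_congr rfl fun w _ => ?_
      push_cast
      ring
  · rw [if_neg hex, zero_mul]
    have hzero : (fun x : Adl K => pureFnM K 𝔫 P f₀ F (g⁻¹ * unip K x * torK K α ^ j * g'))
        = fun _ => (0 : ℂ) := by
      funext x
      rw [hP x, if_neg (fun h => hex ⟨j, _, h⟩)]
      simp
    rw [hzero]
    exact ⟨integrable_zero _ _ _, integral_zero _ _⟩

end Fermat.Agent.LT.T3.M

end

end
-- ===== PACK-END LT/T3/M/NIntTop.lean

-- ===== PACK-BEGIN LT/T6/H293/BTTree.lean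
section




/-!
# Row LT, tower T6, leaf T6.13.2.6 `BTTreeC` (registry 1115) -- helper293, OFF-MAIN

`btTreeC293 : Fermat.Agent.LT.T6.H277.BTTreeC`, VERBATIM the Prop of
`Fermat/Agent/LT/T6/H277/OrbEllSpec.lean` (helper277, sha256 7b0956b2baf7cad6), UNCONDITIONAL.

Adapter from the tree of helper338 (`Fermat/Agent/LT/T6/H338/LatticeTree.lean`,
sha256 7f18d8c88adabc23): `V = BT338`, `π = btMk338`, `d = btDist338`;
`btMk338_surj`, `btMk338_eq_iff`, `btDist338_mk`, `isTreeDist_bt338`, `ncard_nb_bt338`.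
The only new content is the translation of the fibre condition
`y = x * (sc z * u)` (group form, `z ≠ 0`) into `(h : Matrix) = z • (g * u : Matrix)`.
-/

set_option autoImplicit false

open scoped Matrix

noncomputable section

namespace Fermat.Agent.LT.T6.H293

open Fermat.Agent.LT.T6 Fermat.Agent.LT.T6.H277 Fermat.Agent.LT.H338 Fermat.Agent.LT.H129

variable {k : Type} [Field k]

/-- `x * (sc z * u) = z • (x * u)` on the level of matrices. -/
theorem coe_mul_sc_mul293 (z : k) (hz : z ≠ 0) (x u : GL (Fin 2) k) :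
    ((x * (sc338 z hz * u) : GL (Fin 2) k) : Matrix (Fin 2) (Fin 2) k)
      = z • ((x * u : GL (Fin 2) k) : Matrix (Fin 2) (Fin 2) k) := by
  have h1 : ((sc338 z hz * u : GL (Fin 2) k) : Matrix (Fin 2) (Fin 2) k)
      = z • (u : Matrix (Fin 2) (Fin 2) k) := by
    ext i j
    rw [sc338_mul_apply, Matrix.smul_apply, smul_eq_mul]
  rw [Matrix.GeneralLinearGroup.coe_mul, h1, Matrix.mul_smul, Matrix.GeneralLinearGroup.coe_mul]

/-- A scalar multiple of an invertible matrix which is invertible has a non-zero scalar. -/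
theorem ne_zero_of_coe_eq_smul293 {z : k} {h g : GL (Fin 2) k}
    (e : (h : Matrix (Fin 2) (Fin 2) k) = z • (g : Matrix (Fin 2) (Fin 2) k)) : z ≠ 0 := by
  intro hz
  have hdet : (h : Matrix (Fin 2) (Fin 2) k).det ≠ 0 := by
    have hu : IsUnit (h : Matrix (Fin 2) (Fin 2) k).det :=
      (Matrix.isUnit_iff_isUnit_det _).1 (Units.isUnit h)
    exact hu.ne_zero
  apply hdet
  rw [e, hz, zero_smul]
  exact Matrix.det_zero

variable [Valued k Γ₀]

/-- The fibres of `btMk338` in the form of `H277.BTTreeC`. -/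
theorem btMk338_eq_iff_smul293 (hk : ∃ ϖ : k, Valued.v ϖ = WithZero.exp (-1 : ℤ))
    (g h : GL (Fin 2) k) :
    btMk338 hk g = btMk338 hk h ↔
      ∃ (z : k) (u : GL (Fin 2) k), InU 0 u ∧
        (h : Matrix (Fin 2) (Fin 2) k)
          = z • ((g * u : GL (Fin 2) k) : Matrix (Fin 2) (Fin 2) k) := by
  rw [btMk338_eq_iff]
  constructor
  · rintro ⟨z, hz, u, hu, rfl⟩
    exact ⟨z, u, hu, coe_mul_sc_mul293 z hz g u⟩
  · rintro ⟨z, u, hu, e⟩
    have hz : z ≠ 0 := ne_zero_of_coe_eq_smul293 e
    refine ⟨z, hz, u, hu, ?_⟩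
    apply ext_mat129
    rw [e, coe_mul_sc_mul293]

/-- **T6.13.2.6 `BTTreeC`** (helper277 `OrbEllSpec.lean`), from the tree of helper338. -/
theorem btTreeC293 : BTTreeC := by
  intro k _ _ q hk
  refine ⟨BT338 hk.unif, btMk338 hk.unif, btDist338 hk.unif, ?_, ?_, ?_, ?_, ?_⟩
  · intro x
    exact btMk338_surj hk.unif x
  · intro g h
    exact btMk338_eq_iff_smul293 hk.unif g h
  · intro g h
    rw [btDist338_mk]
    rfl
  · exact isTreeDist_bt338 hk.unif
  · intro v
    exact ncard_nb_bt338 hk v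

example : Fermat.Agent.LT.T6.H277.BTTreeC := btTreeC293

end Fermat.Agent.LT.T6.H293

end

end
-- ===== PACK-END LT/T6/H293/BTTree.lean

-- ===== PACK-BEGIN LT/T6/H277/OrbEllClosed.lean
section








/-!
# Row LT, tower T6, leaf T6.13.2 `OrbEllUnrC`: integration of the DONE sub-leaves (helper277)

OFF-MAIN.  `orbEllUnr_of_torus277 : TorusC → H60.OrbEllUnrC`: every sub-leaf of T6.13.2 except
`TorusC` (row 1113) is discharged by the vendored byte-identical files of
helper546 (`PolyNFC`), helper926 (`DiscUnitC`), helper69 (`FixBallC`), helper439 (`BallCountC`),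
helper293 + helper338 (`BTTreeC`), helper277 (`CompanionC`, assembly).
-/

set_option autoImplicit false

namespace Fermat.Agent.LT.T6.H277

open Fermat.Agent.LT.T6

/-- **T6.13.2 `OrbEllUnrC`** from `TorusC` alone. -/
theorem orbEllUnr_of_torus277 (hT : TorusC) : H60.OrbEllUnrC :=
  orbEllUnr_of_leaves' H546.polyNFC_h546 H926.discUnitC_926 H69.fixBallC69 hT H293.btTreeC293
    H439.ballCountC_h439

end Fermat.Agent.LT.T6.H277

end
-- ===== PACK-END LT/T6/H277/OrbEllClosed.lean

-- ===== PACK-BEGIN LT/T6/H783/BadFinal.lean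
section
























/-!
# Row LT, tower T6, leaf T6.18 `BadMatchC`: INTEGRATION of the delivered leaves (helper783)

State 14:50Z: every leaf of T6.18 is closed EXCEPT the quaternion case `CenQuatC783`
(T6.18i, row 1069, sub-architect helper385).

* `locRegC783c : LocRegC783` (T6.18f CLOSED; helper179 tops, 166, 962, 568, 227, 706);
* `descC783c : DescC783` (T6.18g2 CLOSED; 372, 863, 717, 846, 82, 196);
* `powC783c : PowC783` (T6.18g3 CLOSED; helper820 tops, 333, 777);
* `cenNormC783c : CenNormC783` (T6.18g CLOSED; + 388, 848);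
* `badMatch_of_cenQuat783 : CenQuatC783 → BadMatchC`.

All files of the authors are byte-identical copies.
-/

set_option autoImplicit false

noncomputable section

namespace Fermat.Agent.LT.T6.H783

open Fermat.Agent.LT.T6

/-- `ProperC783` (all leaves delivered). -/
theorem properC783 : ProperC783 :=
  H372.properGlueC372 H863.rootBoundC_863 H717.bh90C717

/-- `DecompC783` (all leaves delivered). -/
theorem decompC783c : DecompC783 :=
  H846.decompGlueC846 H82.fibreC82 H196.genLvlC196 H420.orbSumExC420 H944.orbSumUniqC944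
    H811.addC811

/-- **T6.18g2** `DescC783`, CLOSED. -/
theorem descC783c : DescC783 :=
  descC_of_leaves783 properC783 decompC783c

/-- **T6.18g3** `PowC783`, CLOSED. -/
theorem powC783c : PowC783 :=
  H820.powC_of_all820 H420.orbSumExC420 H777.lvlC777 H333.rootFnC333 H777.powRootFromFnC777

/-- **T6.18g** `CenNormC783` (central point, `z` a norm), CLOSED. -/
theorem cenNormC783c : CenNormC783 :=
  cenNorm_of_leaves783 H388.translC388 H848.normInjC848 descC783c powC783c

/-- **T6.18f** `LocRegC783` (regular point), CLOSED. -/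
theorem locRegC783c : LocRegC783 :=
  H227.locRegC227

/-- `CenNormC783` from its leaves (kept for the callers of the former integration). -/
theorem cenNorm_partial783 (hDec : DecompC783) (hPow : PowC783) : CenNormC783 :=
  cenNorm_of_leaves783 H388.translC388 H848.normInjC848
    (descC_of_leaves783 properC783 hDec) hPow

/-- `BadMatchC` from the four leaves of the former integration (kept for its callers). -/
theorem badMatch_partial783 (hReg : LocRegC783) (hDec : DecompC783) (hPow : PowC783)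
    (hQ : CenQuatC783) : BadMatchC :=
  badMatch_of_leaves783 H420.orbSumExC420 H944.orbSumUniqC944 H965.coverC965 H420.cptC420
    H125.cutC125 H125.finSuppLvlC125 H777.lvlC777 H811.addC811 hReg
    (locCen_of_cases783 (cenNorm_partial783 hDec hPow) H962.cenOddC962 hQ)

/-- **T6.18 `BadMatchC` from its ONLY open leaf**, the quaternion case `CenQuatC783`. -/
theorem badMatch_of_cenQuat783 (hQ : CenQuatC783) : BadMatchC :=
  badMatch_partial783 locRegC783c decompC783c powC783c hQ

end Fermat.Agent.LT.T6.H783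

end

end
-- ===== PACK-END LT/T6/H783/BadFinal.lean

-- ===== PACK-BEGIN LT/T6/H288/HypClosed.lean
section



/-!
# Row LT, tower T6, leaf T6.12 `FLHypC` (fundamental lemma, `γ` hyperbolic): CLOSED
(helper288, assembly)

`flHypC_closed : Fermat.Agent.LT.T6.FLHypC`, UNCONDITIONAL.  Inputs (all vendored
byte-identical from the owners' branches): `SatClosedC` (helper569), `CoeffCompareC`
(helper770), `DiagReduceC` (helper888), `IwasawaC` (helper546), `OrbitParamC` (helper227, on
the abstract unfolding of helper227 and the group facts of helper944), `CartanUpperC`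
(helper176), `CartanInvC` (helper687), `LayerCountC` (helper830), and for the Jacobian `IndexC`:
`BallIndexC` (helper459), `ReprCardC` (helper272), `ResFaithfulC` (helper400), `ResFixedC`
(helper131), `FixedModC` (helper82), `Hilbert90ModC` (helper555).
-/

set_option autoImplicit false

namespace Fermat.Agent.LT.T6.H288

theorem orbitParamC_closed : OrbitParamC := H227.orbitParamC227

theorem orbSumDiagC_closed : OrbSumDiagC :=
  orbSumDiag_of cartanInvC_closed orbitParamC_closed layerCountC_closed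

/-- **T6.12 `FLHypC`, closed**: the fundamental lemma for base change for `GL₂`, unramified
`k'/k` of prime degree, at the hyperbolic regular `γ`. -/
theorem flHypC_closed : Fermat.Agent.LT.T6.FLHypC :=
  flHypC_of_orbitParam orbitParamC_closed

end Fermat.Agent.LT.T6.H288

end
-- ===== PACK-END LT/T6/H288/HypClosed.lean

-- ===== PACK-BEGIN LT/T7/H584/NormLocSpec.lean
section






/-!
# Row LT, tower T7, field `matched`, part `nonnorm` (helper584): THE LOCAL NORM BRIDGE -- Spec

OFF-MAIN.  Definitions and frozen Props only (the proved top is `NormLocTop.lean`).  No hole,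
nothing assumed.  ADDITIVE (new names only, suffix `584`).  Vocabulary: `T6/Spec.lean` v3,
`T7/Matching.lean` (helper797, sha256 0549163e), byte-identical copies.

    nonNormLoc_of584 : T6.NormImageTCC → T6.InstSplitC → TensorFieldC584 → TensorSplitC584 →
        SplitOrUniqueC584 K K' → NonNormLocC584 K K'

## Why

`T7.IsGlobMatch.nonnorm` asks that the global orbital integrals of `f` vanish at the elliptic
`γ ∈ GL₂(K)` which are NOT norms.  The local matching (`T6.BadMatchC`, `T6.FLVanishC`; the field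
`inert` of `H305.LocHyp305`) gives the vanishing of the local orbit sum at a place `v` with ONE
place `w` over it when `γ` is not a norm from `GL₂(K'_w)` (`T6.IsNormFrom` for the COMPLETIONS,
local data `(e, i, s_w)` as in `T6.InstExtC`).  The local-global principle of T6
(`T6.NormImageTCC`, from the Hasse norm theorem of tower CFT) is stated with the TENSOR PRODUCT
`K' ⊗_K K_v` (`T6.IsLocNormFin`).  This file is the bridge:

**`NonNormLocC584 K K'`**: if the elliptic `γ` is not a norm (`T7.IsNormOf`), there is a finite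
place `v` of `K` with exactly one place `w` of `K'` over it such that for ALL local data
`(e, i, s_w)` the image of `γ` in `GL₂(K_v)` is not a norm from `GL₂(K'_w)`.

## The leaves (abstract algebra: fields and tensor products; one leaf on places)

* **`TensorFieldC584`** (N1, MATHLIB + T6/Spec, abstract fields): `K'/K` of prime degree `l`
  with a non-trivial `K`-automorphism `s`; `k'/k` cyclic of degree `l` (`T6.IsCyclicData`) with
  compatible embeddings `K → k`, `j : K' → k'`, `s_w ∘ j = j ∘ s`.  Then `K' ⊗_K k → k'` is an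
  isomorphism, and a norm from `GL₂(k')` is a norm from `GL₂(K' ⊗_K k)`.
* **`TensorSplitC584`** (N2, MATHLIB + T6/Spec, abstract fields): `K'/K` Galois with group
  generated by `s`, of degree `l`, and a `K`-embedding `τ : K' → k`.  Then
  `K' ⊗_K k ≅ k^l` (with the cyclic shift) and EVERY `γ ∈ GL₂(k)` is a norm from
  `GL₂(K' ⊗_K k)`.
* **`SplitOrUniqueC584 K K'`** (N3, number fields, Mathlib): for `K'/K` Galois of prime degree a
  finite place `v` of `K` has exactly one place over it, or a place `w` over it with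
  `e = f = 1` (the hypotheses of `T6.InstSplitC`).
-/

set_option autoImplicit false

open IsDedekindDomain NumberField

noncomputable section

namespace Fermat.Agent.LT.T7.H584

open Fermat.Agent.LT.H556.A0

/-! ## 1. The abstract leaves -/

/-- The automorphism `s ⊗ 1` of `K' ⊗_K k` (the shape of `T6.locAutFin`). -/
def tensorAut584 {K K' k : Type} [Field K] [Field K'] [Field k] [Algebra K K'] [Algebra K k]
    (s : K' ≃ₐ[K] K') : TensorProduct K K' k ≃+* TensorProduct K K' k :=
  (Algebra.TensorProduct.congr s (AlgEquiv.refl : k ≃ₐ[K] k)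
    : TensorProduct K K' k ≃ₐ[K] TensorProduct K K' k).toRingEquiv

/-- The inclusion `k → K' ⊗_K k`. -/
def tensorIncl584 (K K' k : Type) [Field K] [Field K'] [Field k] [Algebra K K'] [Algebra K k] :
    k →+* TensorProduct K K' k :=
  ((Algebra.TensorProduct.includeRight : k →ₐ[K] TensorProduct K K' k)
    : k →+* TensorProduct K K' k)

/-- **LEAF N1 = TENSOR-FIELD (abstract fields; MATHLIB + T6/Spec).**
`K'/K` finite of prime degree `l`, `s` a non-trivial `K`-automorphism of `K'`; `i : k → k'`,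
`s_w` with `T6.IsCyclicData k k' l i s_w`; `K → k` (algebra) and `j : K' → k'` with
`i ∘ (K → k) = j ∘ (K → K')` and `s_w ∘ j = j ∘ s`.  Then every `γ ∈ GL₂(k)` which is a norm from
`GL₂(k')` is a norm from `GL₂(K' ⊗_K k)`.
Proof.  `m : K' ⊗_K k → k'`, `x ⊗ a ↦ j(x) i(a)` is a ring homomorphism with
`m ∘ (s ⊗ 1) = s_w ∘ m` (`s_w` fixes `i(k)`) and `m ∘ includeRight = i`.  `[k' : i(k)] = l`
(Artin: `s_w` has order exactly `l` and fixed field `i(k)`), `dim_k (K' ⊗_K k) = l`.  The image of
`m` is a finite-dimensional `k`-subalgebra of the field `k'`, hence an intermediate field `L`,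
stable under `s_w`; `l` is prime, so `L = i(k)` or `L = k'`; `L = i(k)` would give
`j(s x) = s_w(j x) = j x` for all `x`, i.e. `s = 1`.  So `m` is surjective, hence bijective
(equal dimensions).  For `δ_w ∈ GL₂(k')` put `δ = m⁻¹(δ_w)`:
`N_{s ⊗ 1}(δ) = m⁻¹(N_{s_w}(δ_w))` is conjugate to `m⁻¹(i(γ)) = includeRight(γ)`. -/
def TensorFieldC584 : Prop :=
  ∀ (K K' k k' : Type) [Field K] [Field K'] [Field k] [Field k'] [Algebra K K'] [Algebra K k]
    (s : K' ≃ₐ[K] K') (l : ℕ), l.Prime → Module.finrank K K' = l → (∃ x : K', s x ≠ x) →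
    ∀ (i : k →+* k') (j : K' →+* k') (sw : k' ≃+* k'),
      (∀ x : K, i (algebraMap K k x) = j (algebraMap K K' x)) →
      (∀ y : K', sw (j y) = j (s y)) →
      T6.IsCyclicData k k' l i sw →
      ∀ γ : GL (Fin 2) k, T6.IsNormFrom l i sw γ →
        ∃ δ : GL (Fin 2) (TensorProduct K K' k),
          IsConj (T6.twNorm (tensorAut584 s) l δ)
            (Matrix.GeneralLinearGroup.map (tensorIncl584 K K' k) γ)

/-- **LEAF N2 = TENSOR-SPLIT (abstract fields; MATHLIB + T6/Spec).**
`K'/K` finite Galois of degree `l` with group generated by `s`, and a `K`-embedding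
`τ : K' → k`.  Then every `γ ∈ GL₂(k)` is the norm of an element of `GL₂(K' ⊗_K k)`.
Proof.  `Θ : K' ⊗_K k → k^l`, `Θ(x ⊗ a)_j = τ(s^j x) a` is a homomorphism of `k`-algebras with
`Θ ∘ (s ⊗ 1) = shift ∘ Θ` (`shift(y)_j = y_{j+1}`, indices modulo `l`: `s^l = 1`) and
`Θ(includeRight a) = (a, …, a)`.  The `l` characters `pr_j ∘ Θ` of the image are pairwise
distinct (`τ` is injective, `s^j ≠ s^{j'}` on `K'`), hence linearly independent (Dedekind), so the
image has dimension `≥ l` and `Θ` is surjective, hence bijective (`dim_k (K' ⊗_K k) = l`).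
`δ = Θ⁻¹(γ, 1, …, 1)`: `Θ(N δ)_j = δ_j δ_{j+1} ⋯ δ_{j+l-1} = γ`. -/
def TensorSplitC584 : Prop :=
  ∀ (K K' k : Type) [Field K] [Field K'] [Field k] [Algebra K K'] [Algebra K k]
    [FiniteDimensional K K'] [IsGalois K K']
    (s : K' ≃ₐ[K] K') (l : ℕ), Module.finrank K K' = l →
    (∀ t : K' ≃ₐ[K] K', t ∈ Subgroup.zpowers s) →
    ∀ (_τ : K' →ₐ[K] k) (γ : GL (Fin 2) k),
      ∃ δ : GL (Fin 2) (TensorProduct K K' k),
        T6.twNorm (tensorAut584 s) l δ
          = Matrix.GeneralLinearGroup.map (tensorIncl584 K K' k) γ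

/-! ## 2. The leaf on places and the node -/

section NumberFields

variable (K K' : Type) [Field K] [NumberField K] [Field K'] [NumberField K'] [Algebra K K']

/-- **LEAF N3 = SPLIT-OR-UNIQUE (number fields; Mathlib).**  `K'/K` Galois of prime degree `l`:
a finite place `v` of `K` has exactly one place of `K'` over it, or there is a place `w` over it
with residue degree and ramification index `1` (the hypotheses of `T6.InstSplitC`).
Proof.  `g e f = l` for a Galois extension
(`Ideal.ncard_primesOver_mul_ramificationIdxIn_mul_inertiaDegIn`); `l` is prime; if `g ≠ 1` then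
`g = l`, `e = f = 1`; `N w = (N v)^f`; `e = 1` means `v 𝒪_{K'} ⊄ w²`.  Existence of a place over
`v`: lying over. -/
def SplitOrUniqueC584 : Prop :=
  ∀ l : ℕ, IsCycExt K K' l → ∀ v : HeightOneSpectrum (𝓞 K),
    (∃ w : HeightOneSpectrum (𝓞 K'), PlaceOver K K' v w ∧
      ∀ w' : HeightOneSpectrum (𝓞 K'), PlaceOver K K' v w' → w' = w) ∨
    ∃ w : HeightOneSpectrum (𝓞 K'),
      (∀ x : 𝓞 K, x ∈ v.asIdeal ↔ algebraMap (𝓞 K) (𝓞 K') x ∈ w.asIdeal) ∧
      Ideal.absNorm w.asIdeal = Ideal.absNorm v.asIdeal ∧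
      ∃ x : 𝓞 K, x ∈ v.asIdeal ∧ algebraMap (𝓞 K) (𝓞 K') x ∉ w.asIdeal ^ 2

/-- **THE NODE = NON-NORM-LOC.**  An elliptic `γ ∈ GL₂(K)` which is not a norm from `GL₂(K')`
is not a local norm at some finite place `v` with exactly one place `w` over it, for ALL local
data `(e, i, s_w)` (the quantifiers of the field `inert` of `H305.LocHyp305`). -/
def NonNormLocC584 : Prop :=
  ∀ D : CompData K K', IsCompData D → IsCycExt K K' D.l → TotCplx K →
    ∀ γ : GL (Fin 2) K, T6.IsEll γ → (¬ ∃ δ : GL (Fin 2) K', IsNormOf D δ γ) →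
      ∃ (v : HeightOneSpectrum (𝓞 K)) (w : HeightOneSpectrum (𝓞 K')),
        PlaceOver K K' v w ∧
        (∀ w' : HeightOneSpectrum (𝓞 K'), PlaceOver K K' v w' → w' = w) ∧
        ∀ (e : ℕ) (i : v.adicCompletion K →+* w.adicCompletion K')
          (sw : w.adicCompletion K' ≃+* w.adicCompletion K'),
          (∀ x : K, i (algebraMap K (v.adicCompletion K) x)
            = algebraMap K' (w.adicCompletion K') (algebraMap K K' x)) →
          (∀ y : K', sw (algebraMap K' (w.adicCompletion K') y)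
            = algebraMap K' (w.adicCompletion K') (D.s.σ y)) →
          T6.IsLocalExt (v.adicCompletion K) (w.adicCompletion K') D.l e i sw →
          ¬ T6.IsNormFrom D.l i sw
            (Matrix.GeneralLinearGroup.map (algebraMap K (v.adicCompletion K)) γ)

end NumberFields

end Fermat.Agent.LT.T7.H584

end

end
-- ===== PACK-END LT/T7/H584/NormLocSpec.lean

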