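import Mathlib
import Fermat.Agent.Pack.LT3.E19L2
import Fermat.Agent.Pack.LT3.E19L3
import Fermat.Agent.Pack.LT2.E0L2
import Fermat.Agent.Pack.LT2.E2L1
import Fermat.Agent.Pack.LT2.E5L3
import Fermat.Agent.Pack.LT2.E6L1
import Fermat.Agent.Pack.LT2.E8L2
import Fermat.Agent.Pack.LT2.E10L0
import Fermat.Agent.Pack.LT2.E11L0
import Fermat.Agent.Pack.LT2.E13L1
import Fermat.Agent.Pack.LT2.E14L0
import Fermat.Agent.Pack.LT3.E19L0
import Fermat.Agent.Pack.LT2.E6L0
import Fermat.Agent.Pack.LT3.E9L3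
import Fermat.Agent.Pack.LT3.E13L3
import Fermat.Agent.Pack.LT3.E4L1
import Fermat.Agent.Pack.LT3.E19L1
import Fermat.Agent.Pack.LT3.E18L1
import Fermat.Agent.Pack.LT2.E12L2

set_option linter.all false

-- ===== PACK-BEGIN LT/H670/D3/Top.lean
section


/-!
# Row LT, T6inf.08 = D3 (helper670, SZEGO-KERNEL route): THE STATEMENT

OFF-MAIN.  `wtOneHol_of_t1 : T1.T1Out ℚ → WtOneHolC670`, where `WtOneHolC670` is the body of
`Fermat.Agent.LT.T6.Inf.WtOneHolC` (helper19, `LT/T6/Inf/Spec.lean` v2, sha256 3d46cdcb2296)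
VERBATIM, with `MeanValueWtOne670` = body of `T6.Inf.MeanValueWtOne` VERBATIM.
(`D3/Closed.lean` states it against the Spec itself.)

A continuous bounded function on `GL₂(𝔸_ℚ)`, left invariant under `GL₂(ℚ)`, right invariant under
the positive real scalars, of weight one under `SO(2)`, whose weight-one circle means have the
eigenvalue function `2π / cosh (t/2)`, is holomorphic: `z ↦ y^{-1/2} e(g_z g)` is holomorphic on
`ℍ`.  The level hypothesis is not used.  Global input: `T1.T1Out ℚ` (frame, unimodularity).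
-/

set_option autoImplicit false

open IsDedekindDomain NumberField MeasureTheory
open UpperHalfPlane
open scoped MatrixGroups Real Manifold

noncomputable section

namespace Fermat.Agent.LT.H670.D3

open Fermat.Agent.LT.H556 Fermat.Agent.LT.H670 Fermat.Agent.LT.H670.QOut Fermat.Agent.LT

/-- body of `T6.Inf.MeanValueWtOne` (helper19), verbatim -/
def MeanValueWtOne670 (e : A0.G ℚ → ℂ) : Prop :=
  ∀ (w : InfinitePlace ℚ) (t : ℝ), 0 < t → ∀ Y : ℝ → A0.G ℚ,
    (∀ θ : ℝ, A0.IsLocalAtInf w (Y θ) ∧ A0.infComp w (Y θ) = QOut.rotC θ * A0.torus t) →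
    ∀ g : A0.G ℚ,
      (∫ θ in (0 : ℝ)..(2 * Real.pi),
          Complex.exp (-(Complex.I * ((θ : ℝ) : ℂ))) * e (g * Y θ))
        = ((2 * Real.pi / Real.cosh (t / 2) : ℝ) : ℂ) * e g

/-- body of `T6.Inf.WtOneHolC` (helper19), verbatim -/
def WtOneHolC670 : Prop :=
  ∀ (𝔫 : Ideal (𝓞 ℚ)), 𝔫 ≠ ⊥ → ∀ e : A0.G ℚ → ℂ,
    Continuous e → (∃ C : ℝ, ∀ g : A0.G ℚ, ‖e g‖ ≤ C) →
    (∀ (γ : GL (Fin 2) ℚ) (g : A0.G ℚ),
      e (Matrix.GeneralLinearGroup.map (algebraMap ℚ (A0.Adl ℚ)) γ * g) = e g) →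
    (∀ u : A0.G ℚ, A0.InLevelGroup 𝔫 u → ∀ g : A0.G ℚ, e (g * u) = e g) →
    (∀ (w : InfinitePlace ℚ) (z : A0.G ℚ), A0.IsArchPosScalar w z →
      ∀ g : A0.G ℚ, e (g * z) = e g) →
    (∀ (w : InfinitePlace ℚ) (θ : ℝ) (k : A0.G ℚ), A0.IsLocalAtInf w k →
      A0.infComp w k = QOut.rotC θ →
      ∀ g : A0.G ℚ, e (g * k) = Complex.exp (Complex.I * ((θ : ℝ) : ℂ)) * e g) →
    MeanValueWtOne670 e →
    ∀ (w : InfinitePlace ℚ) (Y : ℍ → A0.G ℚ),
      (∀ z : ℍ, A0.IsLocalAtInf w (Y z) ∧ A0.infComp w (Y z) = QOut.gzC z) →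
      ∀ g : A0.G ℚ, (∀ w' : InfinitePlace ℚ, A0.TrivAtInf w' g) →
        MDifferentiable 𝓘(ℂ) 𝓘(ℂ)
          (fun z : ℍ => (((Real.sqrt z.im : ℝ) : ℂ))⁻¹ * e (Y z * g))

/-- **T6inf.08 = D3 from the output of tower T1.** -/
theorem wtOneHol_of_t1 (hT1 : T1.T1Out ℚ) : WtOneHolC670 := by
  intro 𝔫 _ e hcont hbdd hleft _ hscal hweight hmean w Y hY g hg
  obtain ⟨F⟩ := T2.H245.frameExists245 hT1
  have he : IsAut670 e := ⟨hcont, hbdd, hleft, hscal⟩
  have hwt : ∀ (θ : ℝ) (g : A0.G ℚ),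
      e (g * locInf (kTheta θ)) = Complex.exp (Complex.I * ((θ : ℝ) : ℂ)) * e g :=
    fun θ g => hweight w θ _ (isLocalAtInf_locInf w _) (infComp_kTheta w θ) g
  have hmv : ∀ t : ℝ, 0 < t → ∀ g : A0.G ℚ,
      (∫ θ in (0 : ℝ)..(2 * π),
        Complex.exp (-(Complex.I * ((θ : ℝ) : ℂ))) * e (g * locInf (kTheta θ * aT t)))
        = ((2 * π / Real.cosh (t / 2) : ℝ) : ℂ) * e g :=
    fun t ht g => hmean w t ht (fun θ => locInf (kTheta θ * aT t))
      (fun θ => ⟨isLocalAtInf_locInf w _, infComp_kTheta_aT w θ t⟩) g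
  have key := mdifferentiable_vF hT1.adNorm hT1.unimod F he hwt hmv g
  have hfun : (fun z : ℍ => (((Real.sqrt z.im : ℝ) : ℂ))⁻¹ * e (Y z * g))
      = fun z : ℍ => vF e z g := by
    funext z
    have hYz : Y z = locInf (gzMat z) := by
      refine eq_locInf w _ (hY z).1 ?_
      rw [(hY z).2, ← infComp_gzMat w z, infComp_locInf]
    show _ = (((Real.sqrt z.im : ℝ) : ℂ))⁻¹ * e (g * locInf (gzMat z))
    rw [hYz, locInf_comm _ hg]
  rw [hfun]
  exact key

end Fermat.Agent.LT.H670.D3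

end

end
-- ===== PACK-END LT/H670/D3/Top.lean

-- ===== PACK-BEGIN LT/T2/H907/Leaf06.lean
section



/-!
# Row LT, tower T2, leaf T2.06 (helper907): `ApproxId`

`leaf06_h907 : T2.Leaf06 K` (frozen Prop of `Fermat/Agent/LT/T2/Spec.lean`, v3): every cusp
function `φ` is an `L²`-limit of `R(f) φ`, `f` spherical and self-adjoint.

Proof.  `f_k = c_k · bump907 𝔫 (1/(k+1))`, normalised by `∫ f_k = 1`.  Then
`R(f_k) φ (x) - φ (x) = ∫ (φ (x h) - φ (x)) f_k (h) dh`.  The supports of the `f_k` lie in ONE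
compact set and shrink to the zero set of the defect, on which `φ (x h) = φ (x)`; by compactness
the integrand is uniformly small on the support of `f_k` for `k` large (`x` fixed).  So
`R(f_k) φ → φ` pointwise, with the uniform bound `2 sup |φ|`; dominated convergence on the
fundamental domain (finite measure) gives the convergence in `L²`.
-/

set_option autoImplicit false
set_option linter.unusedSectionVars false

open IsDedekindDomain NumberField Matrix MeasureTheory Filter Topology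
open scoped MatrixGroups Classical

noncomputable section

namespace Fermat.Agent.LT.T2.H907

open Fermat.Agent.LT.H556.A0 Fermat.Agent.LT.T8.H864 Fermat.Agent.LT.H51.MS4

attribute [local instance] Fermat.Agent.LT.T2.borelG

variable {K : Type} [Field K] [NumberField K]

/-! ## Step 1: uniform smallness on the supports -/

theorem exists_close907 {𝔫 : Ideal (𝓞 K)} (h𝔫 : 𝔫 ≠ ⊥) {φ : G K → ℂ} (hφc : Continuous φ)
    (hlevel : ∀ u : G K, InLevelGroup 𝔫 u → ∀ g : G K, φ (g * u) = φ g)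
    (harch : ∀ (w : InfinitePlace K) (k : G K), IsArchCompact w k → ∀ g : G K, φ (g * k) = φ g)
    (x : G K) {ε : ℝ} (hε : 0 < ε) :
    ∃ k₀ : ℕ, ∀ h : G K, Pfin907 𝔫 h → defect907 h ≤ 1 / ((k₀ : ℝ) + 1) →
      ‖φ (x * h) - φ x‖ < ε := by
  have := Fermat.Agent.LT.H11.LC.t2Space_GL2_adeleRing_h11 K
  by_contra hcon
  push Not at hcon
  set E : ℕ → Set (G K) := fun k => boxG907 K 4 ∩
    ({h | Pfin907 𝔫 h} ∩ ({h | defect907 h ≤ 1 / ((k : ℝ) + 1)} ∩
      {h | ε ≤ ‖φ (x * h) - φ x‖})) with hE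
  have hbox : IsCompact (boxG907 K 4) := isCompact_boxG907 4
  have hclosed : ∀ k, IsClosed (E k) := fun k => by
    refine hbox.isClosed.inter ((isClosed_pfin907 h𝔫).inter (IsClosed.inter ?_ ?_))
    · exact isClosed_le continuous_defect907 continuous_const
    · exact isClosed_le continuous_const
        (((hφc.comp (continuous_const.mul continuous_id)).sub continuous_const).norm)
  have hk1 : ∀ k : ℕ, (1 : ℝ) / ((k : ℝ) + 1) ≤ 1 := fun k => by
    rw [div_le_one (by positivity)]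
    have : (0 : ℝ) ≤ k := Nat.cast_nonneg k
    linarith
  have hne : ∀ k, (E k).Nonempty := fun k => by
    obtain ⟨h, hP, hD, hε'⟩ := hcon k
    exact ⟨h, mem_boxG907 hP (hD.trans (hk1 k)), hP, hD, hε'⟩
  have hmono : ∀ k, E (k + 1) ⊆ E k := fun k h hh => by
    refine ⟨hh.1, hh.2.1, ?_, hh.2.2.2⟩
    have h1 : defect907 h ≤ 1 / (((k + 1 : ℕ) : ℝ) + 1) := hh.2.2.1
    refine h1.trans ?_
    push_cast
    apply one_div_le_one_div_of_le (by positivity)
    linarith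
  have hcomp0 : IsCompact (E 0) := hbox.of_isClosed_subset (hclosed 0) Set.inter_subset_left
  obtain ⟨h, hh⟩ := IsCompact.nonempty_iInter_of_sequence_nonempty_isCompact_isClosed E hmono hne
    hcomp0 hclosed
  rw [Set.mem_iInter] at hh
  have hP : Pfin907 𝔫 h := (hh 0).2.1
  have hD0 : defect907 h = 0 := by
    refine le_antisymm ?_ (defect907_nonneg h)
    by_contra hpos
    rw [not_le] at hpos
    obtain ⟨k, hk⟩ := exists_nat_one_div_lt hpos
    have := (hh k).2.2.1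
    change defect907 h ≤ 1 / ((k : ℝ) + 1) at this
    linarith
  have hε' : ε ≤ ‖φ (x * h) - φ x‖ := (hh 0).2.2.2
  rw [stab907 hlevel harch hP hD0 x, sub_self, norm_zero] at hε'
  linarith

/-! ## Step 2: normalisation -/

/-- `G K` with its Borel `σ`-algebra is a Borel space. -/
theorem borelSpace_G907 : BorelSpace (G K) := ⟨rfl⟩

theorem integrable_bump907 (F : Frame K) {𝔫 : Ideal (𝓞 K)} (h𝔫 : 𝔫 ≠ ⊥) {η : ℝ} (hη : 0 < η)
    (hη1 : η ≤ 1) : Integrable (bump907 𝔫 η) F.μ := by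
  have := borelSpace_G907 (K := K)
  have := F.haar
  exact (continuous_bump907 h𝔫 η).integrable_of_hasCompactSupport
    (hasCompactSupport_bump907 hη hη1)

theorem integral_bump907_pos (F : Frame K) {𝔫 : Ideal (𝓞 K)} (h𝔫 : 𝔫 ≠ ⊥) {η : ℝ} (hη : 0 < η)
    (hη1 : η ≤ 1) : 0 < ∫ g, bump907 𝔫 η g ∂F.μ := by
  have := borelSpace_G907 (K := K)
  have := F.haar
  exact (continuous_bump907 h𝔫 η).integral_pos_of_hasCompactSupport_nonneg_nonzero
    (hasCompactSupport_bump907 hη hη1) (fun g => bump907_nonneg 𝔫 η g) (x := 1)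
    (by rw [bump907_one]; exact one_ne_zero)

/-- The normalising constant. -/
def cst907 (F : Frame K) (𝔫 : Ideal (𝓞 K)) (η : ℝ) : ℝ := (∫ g, bump907 𝔫 η g ∂F.μ)⁻¹

theorem cst907_pos (F : Frame K) {𝔫 : Ideal (𝓞 K)} (h𝔫 : 𝔫 ≠ ⊥) {η : ℝ} (hη : 0 < η)
    (hη1 : η ≤ 1) : 0 < cst907 F 𝔫 η :=
  inv_pos.mpr (integral_bump907_pos F h𝔫 hη hη1)

theorem integral_cst_mul_bump907 (F : Frame K) {𝔫 : Ideal (𝓞 K)} (h𝔫 : 𝔫 ≠ ⊥) {η : ℝ}
    (hη : 0 < η) (hη1 : η ≤ 1) : ∫ g, cst907 F 𝔫 η * bump907 𝔫 η g ∂F.μ = 1 := by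
  rw [integral_const_mul]
  exact inv_mul_cancel₀ (integral_bump907_pos F h𝔫 hη hη1).ne'

/-- The normalised bump function. -/
def apx907 (F : Frame K) (𝔫 : Ideal (𝓞 K)) (η : ℝ) : G K → ℂ := testFn907 𝔫 η (cst907 F 𝔫 η)

theorem integral_apx907 (F : Frame K) {𝔫 : Ideal (𝓞 K)} (h𝔫 : 𝔫 ≠ ⊥) {η : ℝ}
    (hη : 0 < η) (hη1 : η ≤ 1) : ∫ g, apx907 F 𝔫 η g ∂F.μ = 1 := by
  have h1 : ∫ g, ((cst907 F 𝔫 η * bump907 𝔫 η g : ℝ) : ℂ) ∂F.μ
      = ((∫ g, cst907 F 𝔫 η * bump907 𝔫 η g ∂F.μ : ℝ) : ℂ) :=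
    integral_ofReal (μ := F.μ) (𝕜 := ℂ) (f := fun g => cst907 F 𝔫 η * bump907 𝔫 η g)
  rw [integral_cst_mul_bump907 F h𝔫 hη hη1, Complex.ofReal_one] at h1
  exact h1

/-! ## Step 3: the pointwise estimate -/

theorem norm_conv_sub_le907 (F : Frame K) {𝔫 : Ideal (𝓞 K)} (h𝔫 : 𝔫 ≠ ⊥) {η : ℝ}
    (hη : 0 < η) (hη1 : η ≤ 1) {φ : G K → ℂ} (hφc : Continuous φ) (x : G K) {δ : ℝ}
    (hδ : ∀ h : G K, bump907 𝔫 η h ≠ 0 → ‖φ (x * h) - φ x‖ ≤ δ) :
    ‖conv F (apx907 F 𝔫 η) φ x - φ x‖ ≤ δ := by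
  have := borelSpace_G907 (K := K)
  have := F.haar
  have hfT := isTestFn_testFn907 h𝔫 hη hη1 (cst907 F 𝔫 η)
  have hfc : Continuous (apx907 F 𝔫 η) := hfT.cont
  have hfs : HasCompactSupport (apx907 F 𝔫 η) := hfT.cpt
  have hc := cst907_pos F h𝔫 hη hη1
  have hI1 : Integrable (fun h => φ (x * h) * apx907 F 𝔫 η h) F.μ :=
    ((hφc.comp (continuous_const.mul continuous_id)).mul hfc).integrable_of_hasCompactSupport
      hfs.mul_left
  have hI2 : Integrable (fun h => φ x * apx907 F 𝔫 η h) F.μ :=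
    (continuous_const.mul hfc).integrable_of_hasCompactSupport hfs.mul_left
  have hIb : Integrable (fun h => δ * (cst907 F 𝔫 η * bump907 𝔫 η h)) F.μ :=
    ((integrable_bump907 F h𝔫 hη hη1).const_mul _).const_mul _
  have heq : conv F (apx907 F 𝔫 η) φ x - φ x
      = ∫ h, (φ (x * h) - φ x) * apx907 F 𝔫 η h ∂F.μ := by
    have h1 : φ x = ∫ h, φ x * apx907 F 𝔫 η h ∂F.μ := by
      rw [integral_const_mul, integral_apx907 F h𝔫 hη hη1, mul_one]
    have h2 : conv F (apx907 F 𝔫 η) φ x - φ x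
        = (∫ h, φ (x * h) * apx907 F 𝔫 η h ∂F.μ) - ∫ h, φ x * apx907 F 𝔫 η h ∂F.μ :=
      congrArg (fun z => conv F (apx907 F 𝔫 η) φ x - z) h1
    rw [h2, ← integral_sub hI1 hI2]
    refine integral_congr_ae (Eventually.of_forall fun h => ?_)
    simp only [sub_mul]
  rw [heq]
  have hbound : ∀ h, ‖(φ (x * h) - φ x) * apx907 F 𝔫 η h‖
      ≤ δ * (cst907 F 𝔫 η * bump907 𝔫 η h) := by
    intro h
    have hnf : ‖apx907 F 𝔫 η h‖ = cst907 F 𝔫 η * bump907 𝔫 η h := by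
      unfold apx907 testFn907
      rw [Complex.norm_real, Real.norm_eq_abs,
        abs_of_nonneg (mul_nonneg hc.le (bump907_nonneg 𝔫 η h))]
    rw [norm_mul, hnf]
    by_cases hb : bump907 𝔫 η h = 0
    · rw [hb]; simp
    · exact mul_le_mul_of_nonneg_right (hδ h hb)
        (mul_nonneg hc.le (bump907_nonneg 𝔫 η h))
  have := norm_integral_le_of_norm_le hIb (Eventually.of_forall hbound)
  rw [integral_const_mul, integral_cst_mul_bump907 F h𝔫 hη hη1, mul_one] at this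
  exact this

/-! ## Step 4: the leaf -/

theorem approxId_h907 {𝔫 : Ideal (𝓞 K)} (h𝔫 : 𝔫 ≠ ⊥) (hC : ConvCusp K 𝔫) : ApproxId K 𝔫 := by
  intro F φ hφ ε hε
  have := borelSpace_G907 (K := K)
  have := F.haar
  obtain ⟨B, hB⟩ := hφ.bdd
  have hB0 : 0 ≤ B := (norm_nonneg _).trans (hB 1)
  -- the sequence
  set η : ℕ → ℝ := fun k => 1 / ((k : ℝ) + 1) with hη
  have hηpos : ∀ k, 0 < η k := fun k => by positivity
  have hη1 : ∀ k, η k ≤ 1 := fun k => by
    rw [hη, div_le_one (by positivity)]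
    have : (0 : ℝ) ≤ k := Nat.cast_nonneg k
    linarith
  set ψ : ℕ → G K → ℂ := fun k g => conv F (apx907 F 𝔫 (η k)) φ g - φ g with hψ
  have hψc : ∀ k, Continuous (ψ k) := fun k =>
    ((hC F).2.2.1 _ φ (isTestFn_testFn907 h𝔫 (hηpos k) (hη1 k) _) hφ).cont.sub hφ.cont
  have hψb : ∀ k g, ‖ψ k g‖ ≤ 2 * B := fun k g => by
    refine norm_conv_sub_le907 F h𝔫 (hηpos k) (hη1 k) hφ.cont g fun h _ => ?_
    calc ‖φ (g * h) - φ g‖ ≤ ‖φ (g * h)‖ + ‖φ g‖ := norm_sub_le _ _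
      _ ≤ B + B := add_le_add (hB _) (hB _)
      _ = 2 * B := by ring
  have hψlim : ∀ g, Tendsto (fun k => ψ k g) atTop (𝓝 0) := fun g => by
    rw [Metric.tendsto_atTop]
    intro ε' hε'
    obtain ⟨k₀, hk₀⟩ := exists_close907 h𝔫 hφ.cont hφ.level_inv hφ.arch_compact g
      (half_pos hε')
    refine ⟨k₀, fun k hk => ?_⟩
    rw [dist_zero_right]
    have hle : ‖ψ k g‖ ≤ ε' / 2 := by
      refine norm_conv_sub_le907 F h𝔫 (hηpos k) (hη1 k) hφ.cont g fun h hb => ?_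
      obtain ⟨hP, hD⟩ := pfin_of_bump907_ne_zero (hηpos k) hb
      refine (hk₀ h hP (hD.le.trans ?_)).le
      rw [hη]
      apply one_div_le_one_div_of_le (by positivity)
      have : (k₀ : ℝ) ≤ k := Nat.cast_le.mpr hk
      linarith
    linarith
  -- dominated convergence on the fundamental domain
  have hfin : IsFiniteMeasure (F.μ.restrict F.D) :=
    ⟨by rw [Measure.restrict_apply_univ]; exact F.fin⟩
  have hlim : Tendsto (fun k => ∫ g in F.D, ψ k g * (starRingEnd ℂ) (ψ k g) ∂F.μ) atTop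
      (𝓝 (∫ _ in F.D, (0 : ℂ) ∂F.μ)) := by
    refine tendsto_integral_of_dominated_convergence (fun _ => (2 * B) ^ 2)
      (fun k => ?_) (integrable_const _) (fun k => Eventually.of_forall fun g => ?_)
      (Eventually.of_forall fun g => ?_)
    · exact ((hψc k).mul (Complex.continuous_conj.comp (hψc k))).aestronglyMeasurable
    · rw [norm_mul, RCLike.norm_conj, ← sq]
      exact pow_le_pow_left₀ (norm_nonneg _) (hψb k g) 2
    · have := (hψlim g).mul ((Complex.continuous_conj.tendsto 0).comp (hψlim g))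
      simpa using this
  rw [integral_zero] at hlim
  have hre : Tendsto (fun k => nsq F (ψ k)) atTop (𝓝 0) := by
    have h0 : Tendsto (fun k => (∫ g in F.D, ψ k g * (starRingEnd ℂ) (ψ k g) ∂F.μ).re) atTop
        (𝓝 ((0 : ℂ).re)) := (Complex.continuous_re.tendsto 0).comp hlim
    rw [Complex.zero_re] at h0
    exact h0
  obtain ⟨k, hk⟩ := ((tendsto_order.1 hre).2 ε hε).exists
  exact ⟨apx907 F 𝔫 (η k), isSphTestFn_testFn907 h𝔫 (hηpos k) (hη1 k) _,
    adj_testFn907 𝔫 (η k) _, hk⟩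

/-- **T2.06 `Leaf06`** (frozen Prop of `T2/Spec.lean`). -/
theorem leaf06_h907 (K : Type) [Field K] [NumberField K] : Leaf06 K :=
  fun _ _ h𝔫 _ hC => approxId_h907 h𝔫 hC

end Fermat.Agent.LT.T2.H907

end

end
-- ===== PACK-END LT/T2/H907/Leaf06.lean

-- ===== PACK-BEGIN LT/T2/H386/Soft1F.lean
section











/-!
# Row LT, T2.03b (helper386): `R(f)ψ - R(f)Ψ = R((1 - 𝔄_x)^{j+1} f) ψ` at `x`

OFF-MAIN.
-/

set_option autoImplicit false
set_option linter.unusedSectionVars false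
set_option linter.style.haveILetI false

open IsDedekindDomain NumberField MeasureTheory
open scoped Pointwise
open Fermat.Agent.LT.H556.A0

noncomputable section

namespace Fermat.Agent.LT.T2.H386

open Fermat.Agent.LT.T2

attribute [local instance] Fermat.Agent.LT.T2.borelG

variable {K : Type} [Field K] [NumberField K]

attribute [local instance] borelAdl386 borelSpaceAdl386 borelSpaceG386

section

variable [LocallyCompactSpace (G K)] [SecondCountableTopology (G K)] [T2Space (G K)]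
  [LocallyCompactSpace (Adl K)] [SecondCountableTopology (Adl K)] [T2Space (Adl K)]

/-- The data of the soft part: Haar measures, a fundamental domain, an automorphic function and
its constant term. -/
structure SoftData386 (K : Type) [Field K] [NumberField K] (𝔫 : Ideal (𝓞 K)) where
  μ : Measure (G K)
  hμ : μ.IsHaarMeasure
  ν : Measure (Adl K)
  hν : ν.IsAddHaarMeasure
  D : Set (Adl K)
  hDm : MeasurableSet D
  hD : IsAddFundamentalDomain (T1.princ K) D ν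
  hDc : IsCompact (closure D)
  hD0 : ν D ≠ 0
  hDtop : ν D ≠ ⊤
  ψ : G K → ℂ
  Ψ : G K → ℂ
  hψ : IsAutFn 𝔫 ψ
  hΨ : IsConstTerm ψ Ψ

namespace SoftData386

variable {𝔫 : Ideal (𝓞 K)} (S : SoftData386 K 𝔫)

theorem c_ne_zero : (((S.ν S.D).toReal : ℝ) : ℂ) ≠ 0 := by
  have : (S.ν S.D).toReal ≠ 0 := ENNReal.toReal_ne_zero.mpr ⟨S.hD0, S.hDtop⟩
  exact_mod_cast this

/-- `∫ Ψ(x h) g(h) dμ(h) = ∫ ψ(x h) (𝔄_x g)(h) dμ(h)`. -/
theorem int_Psi_eq_psi_avg (x : G K) {g : G K → ℂ} (hg : Continuous g)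
    (hgc : HasCompactSupport g) :
    ∫ h, S.Ψ (x * h) * g h ∂S.μ = ∫ h, S.ψ (x * h) * avgOp386 S.ν S.D x g h ∂S.μ := by
  haveI := S.hμ
  haveI := S.hν
  obtain ⟨C, hC⟩ := S.hψ.bdd
  have hfub := fubini386 S.μ S.ν S.D S.hDm S.hDtop S.hDc x S.ψ g S.hψ.cont C hC hg hgc
  have e1 : ∀ h, (∫ v in S.D, S.ψ (unip386 v * (x * h)) ∂S.ν) * g h
      = (((S.ν S.D).toReal : ℝ) : ℂ) * (S.Ψ (x * h) * g h) := by
    intro h
    rw [constTerm_eq386 S.hΨ S.ν S.hν S.D S.hD (x * h), mul_assoc]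
  have e2 : ∀ h, S.ψ (x * h) * (∫ v in S.D, g (conjUnip386 x (-v) * h) ∂S.ν)
      = (((S.ν S.D).toReal : ℝ) : ℂ) * (S.ψ (x * h) * avgOp386 S.ν S.D x g h) := by
    intro h
    have hc := S.c_ne_zero
    unfold avgOp386
    field_simp
  simp_rw [e1, e2] at hfub
  rw [integral_const_mul, integral_const_mul] at hfub
  exact mul_left_cancel₀ S.c_ne_zero hfub

/-- The constant term is continuous and bounded. -/
theorem Psi_cont : Continuous S.Ψ :=
  constTerm_continuous386 S.hψ.cont S.hΨ S.ν S.hν S.D S.hD S.hD0 S.hDtop S.hDc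

/-- `∫ Ψ(x h) g(h) dμ(h) = ∫ Ψ(x h) (𝔄_x g)(h) dμ(h)`. -/
theorem int_Psi_eq_Psi_avg (x : G K) {g : G K → ℂ} (hg : Continuous g)
    (hgc : HasCompactSupport g) :
    ∫ h, S.Ψ (x * h) * g h ∂S.μ = ∫ h, S.Ψ (x * h) * avgOp386 S.ν S.D x g h ∂S.μ := by
  haveI := S.hμ
  haveI := S.hν
  obtain ⟨C, hC⟩ := S.hψ.bdd
  have hCΨ : ∀ y, ‖S.Ψ y‖ ≤ C :=
    constTerm_bound386 S.hΨ S.ν S.hν S.D S.hD S.hD0 S.hDtop C hC
  have hfub := fubini386 S.μ S.ν S.D S.hDm S.hDtop S.hDc x S.Ψ g S.Psi_cont C hCΨ hg hgc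
  have e1 : ∀ h, (∫ v in S.D, S.Ψ (unip386 v * (x * h)) ∂S.ν) * g h
      = (((S.ν S.D).toReal : ℝ) : ℂ) * (S.Ψ (x * h) * g h) := by
    intro h
    have : ∀ v : Adl K, S.Ψ (unip386 v * (x * h)) = S.Ψ (x * h) := fun v =>
      constTerm_unip386 S.hΨ S.ν S.hν S.D S.hD S.hD0 S.hDtop v (x * h)
    simp_rw [this]
    rw [setIntegral_const, Complex.real_smul, mul_assoc]
    rfl
  have e2 : ∀ h, S.Ψ (x * h) * (∫ v in S.D, g (conjUnip386 x (-v) * h) ∂S.ν)
      = (((S.ν S.D).toReal : ℝ) : ℂ) * (S.Ψ (x * h) * avgOp386 S.ν S.D x g h) := by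
    intro h
    have hc := S.c_ne_zero
    unfold avgOp386
    field_simp
  simp_rw [e1, e2] at hfub
  rw [integral_const_mul, integral_const_mul] at hfub
  exact mul_left_cancel₀ S.c_ne_zero hfub

/-- Integrability of `h ↦ θ(x h) k(h)`. -/
theorem integrable_mul386 (x : G K) {θ k : G K → ℂ} (hθ : Continuous θ) (hk : Continuous k)
    (hkc : HasCompactSupport k) : Integrable (fun h => θ (x * h) * k h) S.μ := by
  haveI := S.hμ
  exact ((hθ.comp (continuous_const.mul continuous_id)).mul hk).integrable_of_hasCompactSupport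
    hkc.mul_left

/-- **The identity**: `R(f)ψ(x) - R(f)Ψ(x) = ∫ ψ(x h) ((1 - 𝔄_x)^{j+1} f)(h) dμ(h)`, and
`∫ Ψ(x h) ((1 - 𝔄_x)^{j+1} f)(h) dμ(h) = 0`. -/
theorem int_ker (x : G K) {f : G K → ℂ} (hf : Continuous f) (hfc : HasCompactSupport f)
    (j : ℕ) :
    ∫ h, S.ψ (x * h) * ker386 S.ν S.D x (j + 1) f h ∂S.μ
        = ∫ h, S.ψ (x * h) * f h ∂S.μ - ∫ h, S.Ψ (x * h) * f h ∂S.μ ∧
      ∫ h, S.Ψ (x * h) * ker386 S.ν S.D x (j + 1) f h ∂S.μ = 0 := by
  haveI := S.hμ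
  obtain ⟨C, hC⟩ := hfc.exists_bound_of_continuous hf
  -- properties of all kernels
  have hW : ∀ v ∈ S.D, conjUnip386 x v ∈ conjUnip386 x '' closure S.D :=
    fun v hv => ⟨v, subset_closure hv, rfl⟩
  have hWc : IsCompact (conjUnip386 x '' closure S.D) :=
    S.hDc.image (continuous_conjUnip386 x)
  have hT : ∀ y, f y ≠ 0 → y ∈ tsupport f := fun y hy => subset_closure hy
  have hprops := fun i => ker386_props S.ν S.D S.hD0 S.hDtop S.hDc x hf C hC hW hT i
  have hkc : ∀ i, HasCompactSupport (ker386 S.ν S.D x i f) := fun i =>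
    HasCompactSupport.intro (isCompact_suppSeq386 hWc hfc i) (fun y hy => by
      by_contra hne
      exact hy ((hprops i).2.2 y hne))
  have hac : ∀ i, HasCompactSupport (avgOp386 S.ν S.D x (ker386 S.ν S.D x i f)) := fun i =>
    HasCompactSupport.intro (hWc.mul (isCompact_suppSeq386 hWc hfc i)) (fun y hy => by
      by_contra hne
      exact hy (avgOp386_support S.ν S.D x hW (hprops i).2.2 y hne))
  have hacont : ∀ i, Continuous (avgOp386 S.ν S.D x (ker386 S.ν S.D x i f)) := fun i =>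
    continuous_avgOp386 S.ν S.D S.hDtop S.hDc x (hprops i).1
  -- one step, for `θ = ψ` and `θ = Ψ`
  have stepψ : ∀ i, ∫ h, S.ψ (x * h) * ker386 S.ν S.D x (i + 1) f h ∂S.μ
      = ∫ h, S.ψ (x * h) * ker386 S.ν S.D x i f h ∂S.μ
        - ∫ h, S.Ψ (x * h) * ker386 S.ν S.D x i f h ∂S.μ := by
    intro i
    rw [S.int_Psi_eq_psi_avg x (hprops i).1 (hkc i),
      ← integral_sub (S.integrable_mul386 x S.hψ.cont (hprops i).1 (hkc i))
        (S.integrable_mul386 x S.hψ.cont (hacont i) (hac i))]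
    refine integral_congr_ae (Filter.Eventually.of_forall fun h => ?_)
    show S.ψ (x * h) * (ker386 S.ν S.D x i f h - avgOp386 S.ν S.D x (ker386 S.ν S.D x i f) h)
      = _
    rw [mul_sub]
  have stepΨ : ∀ i, ∫ h, S.Ψ (x * h) * ker386 S.ν S.D x (i + 1) f h ∂S.μ = 0 := by
    intro i
    have h1 : ∫ h, S.Ψ (x * h) * ker386 S.ν S.D x (i + 1) f h ∂S.μ
        = ∫ h, S.Ψ (x * h) * ker386 S.ν S.D x i f h ∂S.μ
          - ∫ h, S.Ψ (x * h) * avgOp386 S.ν S.D x (ker386 S.ν S.D x i f) h ∂S.μ := by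
      rw [← integral_sub (S.integrable_mul386 x S.Psi_cont (hprops i).1 (hkc i))
        (S.integrable_mul386 x S.Psi_cont (hacont i) (hac i))]
      refine integral_congr_ae (Filter.Eventually.of_forall fun h => ?_)
      show S.Ψ (x * h) * (ker386 S.ν S.D x i f h - avgOp386 S.ν S.D x (ker386 S.ν S.D x i f) h)
        = _
      rw [mul_sub]
    rw [h1, ← S.int_Psi_eq_Psi_avg x (hprops i).1 (hkc i), sub_self]
  refine ⟨?_, stepΨ j⟩
  induction j with
  | zero => exact stepψ 0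
  | succ j ih => rw [stepψ (j + 1), stepΨ j, sub_zero, ih]

end SoftData386

end

end Fermat.Agent.LT.T2.H386

end

end
-- ===== PACK-END LT/T2/H386/Soft1F.lean

-- ===== PACK-BEGIN LT/T3/M/GenTop.lean
section



/-!
# Row LT, tower T3, station T3.18M (architect helper14): THE PROVED TOPS, general archimedean
# parameter

OFF-MAIN.  Complete proofs, nothing assumed.

* `rOpM_of_mean : ROpMeanMC K → ROpMC K` (the leaf M.4 is the case `m = sphM` of G.2);
* `abelSatakeGenM_of : AS.SatakeLocC K → AS.AbelCplxSmoothC → MeanActsC → FtPureC → PureRegMC K →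
  NIntMC K → ROpMeanMC K → AbelSatakeGenMC K`;
* `ekOpExistGenM_of : AbelSatakeGenMC K → EKCoreC → InScalarUnifC K → EKKillC K → EKStarC K →
  InAddHaarC K → EKOpExistGenMC K`;
* `ekOpExistSmoothM_of_gen : EKOpExistGenMC K → EKOpExistSmoothMC K`.
-/

set_option autoImplicit false
set_option linter.style.haveILetI false

open IsDedekindDomain NumberField MeasureTheory
open Fermat.Agent.LT.H556.A0

noncomputable section

namespace Fermat.Agent.LT.T3.M

open Fermat.Agent.LT.T3.AS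

/-! ## 0. The class of parameter `0` -/

theorem isLocSph0_of_mean {m : ℝ → ℂ} (hm : ∀ d : ℝ, 0 < d → m d = sphM d)
    {Ψ : GL (Fin 2) ℂ → ℂ} (h : IsLocMean m Ψ) : IsLocSph0 Ψ where
  cont := h.cont
  unitary := h.unitary
  scalar := h.scalar
  mean := fun d hd Y hY y => by
    rw [h.mean d hd Y hY y, hm d hd]
    rfl

theorem isLocMean_of_sph0 {Ψ : GL (Fin 2) ℂ → ℂ} (h : IsLocSph0 Ψ) : IsLocMean sphM Ψ where
  cont := h.cont
  unitary := h.unitary
  scalar := h.scalar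
  mean := fun d hd Y hY y => by
    rw [h.mean d hd Y hY y]
    rfl

theorem actsByMean_of_actsBy {_mc : MeasurableSpace (GL (Fin 2) ℂ)}
    {μc : Measure (GL (Fin 2) ℂ)} {F : GL (Fin 2) ℂ → ℂ} {C : ℂ} {m : ℝ → ℂ}
    (hm : ∀ d : ℝ, 0 < d → m d = sphM d) (h : ActsBy μc F C) : ActsByMean μc F m C :=
  fun Ψ hΨ y => h Ψ (isLocSph0_of_mean hm hΨ) y

variable (K : Type) [Field K] [NumberField K]

theorem isMeanLevel_of_sph0 (hK : ∀ w : InfinitePlace K, w.IsComplex) {𝔫 : Ideal (𝓞 K)}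
    {φ : G K → ℂ} (h : IsSph0Level K 𝔫 φ) : IsMeanLevel K 𝔫 (fun _ => sphM) φ where
  cont := h.cont
  level_inv := h.level_inv
  arch_scalar := h.arch_scalar
  arch_compact := h.arch_compact
  mean := fun w d hd Y hY g => by
    rw [h.mean_complex w (hK w) d hd Y hY g]
    rfl

/-- The leaf M.4 is the case `m = sphM` of the leaf G.2. -/
theorem rOpM_of_mean (h : ROpMeanMC K) : ROpMC K := by
  intro hcx μ hμ μc hμc 𝔫 h𝔫 P hP
  obtain ⟨κ₁, hκ₁, H⟩ := h hcx μ hμ μc hμc 𝔫 h𝔫 P hP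
  refine ⟨κ₁, hκ₁, fun A C f₀ F h1 h2 h3 h4 h5 φ hφ a b z₁ z₂ he hz₁ hz₂ hb g => ?_⟩
  exact H A C (fun _ => sphM) f₀ F h1 h2 h3 h4
    (fun w => actsByMean_of_actsBy (fun _ _ => rfl) (h5 w)) φ (isMeanLevel_of_sph0 K hcx hφ)
    a b z₁ z₂ he hz₁ hz₂ hb g

/-! ## 1. The induction predicate -/

/-- The induction predicate with the action on all joint eigenfunctions. -/
structure IsASPairG {mG : MeasurableSpace (G K)} {mA : MeasurableSpace (Adl K)}
    (μ : Measure (G K)) (ν : Measure (Adl K)) (𝔫 : Ideal (𝓞 K))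
    (P : Finset (HeightOneSpectrum (𝓞 K))) (e : HeightOneSpectrum (𝓞 K) → ℕ) (α : Kˣ)
    (κ : G K → G K → ℂ) (Δ : G K → G K → CoordM K P) (κ₀ : ℂ)
    (Φ : CoordM K P → ℂ) (f : G K → ℂ) : Prop where
  base : IsASPairM K μ ν 𝔫 P e α κ Δ κ₀ Φ f
  gen : ∃ c : (HeightOneSpectrum (𝓞 K) → ℂ) → (HeightOneSpectrum (𝓞 K) → ℂ) →
      (InfinitePlace K → ℝ → ℂ) → ℂ,
    (∀ (z₁ z₂ : HeightOneSpectrum (𝓞 K) → ℂ) (m : InfinitePlace K → ℝ → ℂ),
      IsSph0Param K m → c z₁ z₂ m = κ₀ * ftCoordM K P Φ z₁ z₂) ∧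
    ∀ (φ : G K → ℂ) (m : InfinitePlace K → ℝ → ℂ), IsMeanLevel K 𝔫 m φ →
    ∀ a b z₁ z₂ : HeightOneSpectrum (𝓞 K) → ℂ,
      (∀ v ∈ P, IsHeckeEigenAt φ v (a v) (b v)) →
      (∀ v ∈ P, z₁ v + z₂ v = a v) → (∀ v ∈ P, z₁ v * z₂ v = b v) →
      (∀ v ∈ P, b v ≠ 0) →
      ∀ g : G K, Rop K μ f φ g = c z₁ z₂ m * φ g

variable {K}

section Linear

variable {mG : MeasurableSpace (G K)} {mA : MeasurableSpace (Adl K)}
  {μ : Measure (G K)} {ν : Measure (Adl K)} {𝔫 : Ideal (𝓞 K)}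
  {P : Finset (HeightOneSpectrum (𝓞 K))} {e : HeightOneSpectrum (𝓞 K) → ℕ}
  {α : Kˣ} {κ : G K → G K → ℂ} {Δ : G K → G K → CoordM K P} {κ₀ : ℂ}

theorem IsASPairG.zero : IsASPairG K μ ν 𝔫 P e α κ Δ κ₀ 0 0 where
  base := IsASPairM.zero
  gen := ⟨fun _ _ _ => 0, fun z₁ z₂ m _ => by simp [ftCoordM, ftCrd_zero],
    fun φ m _ a b z₁ z₂ _ _ _ _ g => by simp [Rop]⟩

theorem IsASPairG.add [OpensMeasurableSpace (G K)] [IsFiniteMeasureOnCompacts μ]
    {Φ₁ Φ₂ : CoordM K P → ℂ} {f₁ f₂ : G K → ℂ}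
    (h₁ : IsASPairG K μ ν 𝔫 P e α κ Δ κ₀ Φ₁ f₁) (h₂ : IsASPairG K μ ν 𝔫 P e α κ Δ κ₀ Φ₂ f₂) :
    IsASPairG K μ ν 𝔫 P e α κ Δ κ₀ (Φ₁ + Φ₂) (f₁ + f₂) where
  base := h₁.base.add h₂.base
  gen := by
    obtain ⟨c₁, hc₁, ho₁⟩ := h₁.gen
    obtain ⟨c₂, hc₂, ho₂⟩ := h₂.gen
    refine ⟨fun z₁ z₂ m => c₁ z₁ z₂ m + c₂ z₁ z₂ m, fun z₁ z₂ m hm => ?_,
      fun φ m hφ a b z₁ z₂ he hz₁ hz₂ hb g => ?_⟩
    · show c₁ z₁ z₂ m + c₂ z₁ z₂ m = _
      rw [hc₁ z₁ z₂ m hm, hc₂ z₁ z₂ m hm]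
      unfold ftCoordM
      rw [ftCrd_add h₁.base.fin_m h₂.base.fin_m h₁.base.int_x h₂.base.int_x]
      ring
    · have e₁ := ho₁ φ m hφ a b z₁ z₂ he hz₁ hz₂ hb g
      have e₂ := ho₂ φ m hφ a b z₁ z₂ he hz₁ hz₂ hb g
      unfold Rop at e₁ e₂ ⊢
      have : (fun h => φ (g * h) * (f₁ + f₂) h)
          = fun h => φ (g * h) * f₁ h + φ (g * h) * f₂ h := by
        funext h
        simp only [Pi.add_apply]
        ring
      rw [this, integral_add (rop_integrable μ hφ.cont h₁.base.cont h₁.base.supp g)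
        (rop_integrable μ hφ.cont h₂.base.cont h₂.base.supp g), e₁, e₂]
      ring

theorem IsASPairG.smul {Φ : CoordM K P → ℂ} {f : G K → ℂ}
    (h : IsASPairG K μ ν 𝔫 P e α κ Δ κ₀ Φ f) (c : ℂ) :
    IsASPairG K μ ν 𝔫 P e α κ Δ κ₀ (c • Φ) (c • f) where
  base := h.base.smul c
  gen := by
    obtain ⟨c₁, hc₁, ho₁⟩ := h.gen
    refine ⟨fun z₁ z₂ m => c * c₁ z₁ z₂ m, fun z₁ z₂ m hm => ?_,
      fun φ m hφ a b z₁ z₂ he hz₁ hz₂ hb g => ?_⟩
    · show c * c₁ z₁ z₂ m = _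
      rw [hc₁ z₁ z₂ m hm]
      unfold ftCoordM
      rw [ftCrd_smul]
      ring
    · have e₁ := ho₁ φ m hφ a b z₁ z₂ he hz₁ hz₂ hb g
      unfold Rop at e₁ ⊢
      have : (fun y => φ (g * y) * (c • f) y) = fun y => c * (φ (g * y) * f y) := by
        funext y
        simp only [Pi.smul_apply, smul_eq_mul]
        ring
      rw [this, integral_const_mul, e₁]
      ring

end Linear

/-! ## 2. The top of the Abel--Satake pair, general archimedean parameter -/

variable (K)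

/-- **T3.18a, multi-place, smooth, general archimedean parameter: the top.** -/
theorem abelSatakeGenM_of (h1 : SatakeLocC K) (h2 : AbelCplxSmoothC) (hG : MeanActsC)
    (hft : FtPureC) (h3 : PureRegMC K) (h4 : NIntMC K) (h5 : ROpMeanMC K) :
    AbelSatakeGenMC K := by
  let _ : MeasurableSpace (Adl K) := borel (Adl K)
  let _ : MeasurableSpace (G K) := borel (G K)
  let _ : MeasurableSpace (GL (Fin 2) ℂ) := borel (GL (Fin 2) ℂ)
  have _ : BorelSpace (G K) := ⟨rfl⟩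
  intro hcx μ hμ ν hν 𝔫 P e a₀ α hfr
  obtain ⟨μc, hμc, κc, hκc, hAbel⟩ := h2
  obtain ⟨κ, Δ, hN⟩ := h4 hcx ν hν 𝔫 P e a₀ α hfr
  obtain ⟨κ₁, hκ₁, hR⟩ := h5 hcx μ hμ μc hμc 𝔫 hfr.level P hfr.prime
  refine ⟨κ, Δ, κ₁ * κc ^ Fintype.card (InfinitePlace K),
    mul_ne_zero hκ₁ (pow_ne_zero _ hκc), ?_⟩
  intro Φ hΦ
  suffices h : ∃ f : G K → ℂ,
      IsASPairG K μ ν 𝔫 P e α κ Δ (κ₁ * κc ^ Fintype.card (InfinitePlace K)) Φ f by
    obtain ⟨f, hf⟩ := h
    exact ⟨f, hf.base.cont, hf.base.supp, hf.base.bi_inv, hf.base.supp_at, hf.base.smooth,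
      hf.base.n_int, hf.gen⟩
  induction hΦ using Submodule.span_induction with
  | zero => exact ⟨0, IsASPairG.zero⟩
  | add Φ₁ Φ₂ _ _ ih₁ ih₂ =>
    obtain ⟨f₁, hf₁⟩ := ih₁
    obtain ⟨f₂, hf₂⟩ := ih₂
    exact ⟨f₁ + f₂, hf₁.add hf₂⟩
  | smul c Φ _ ih =>
    obtain ⟨f, hf⟩ := ih
    exact ⟨c • f, hf.smul c⟩
  | mem Φ hΦ =>
    classical
    obtain ⟨A', β, hA', hβ, hΦ⟩ := hΦ
    -- the total family of Satake coefficients
    set A : HeightOneSpectrum (𝓞 K) → ℤ × ℤ → ℂ :=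
      fun v => if h : v ∈ P then A' ⟨v, h⟩ else 0 with hAdef
    have hAA' : (fun v : P => A v) = A' := by
      funext v
      simp only [hAdef, dif_pos v.2, Subtype.coe_eta]
    have hAsym : ∀ v, IsSymFin (A v) := by
      intro v
      by_cases hv : v ∈ P
      · simp only [hAdef, dif_pos hv]
        exact hA' ⟨v, hv⟩
      · simp only [hAdef, dif_neg hv]
        exact ⟨by simp, fun _ _ => rfl⟩
    have hΦ' : Φ = pureCoordM K P A β := by
      rw [hΦ]
      unfold pureCoordM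
      rw [hAA']
    subst hΦ'
    choose f₀ hpair using fun v : HeightOneSpectrum (𝓞 K) => h1 v (A v) (hAsym v)
    choose F hF1 hFs hF2 hF3 using fun w : InfinitePlace K => hAbel (β w) (hβ w)
    obtain ⟨r1, r2, r3, r4⟩ := h3 𝔫 hfr.level P hfr.prime f₀ F
      (fun v _ => (hpair v).bi_inv) (fun v _ => (hpair v).fin_supp) hF1
    have hNN := hN A β f₀ F (fun v _ => (hpair v).bi_inv) (fun v _ => (hpair v).fin_supp)
      (fun v _ => (hpair v).n_int) hF1 hF2
    -- the scalars at the infinite places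
    choose Cg hCg using fun (w : InfinitePlace K) (m' : ℝ → ℂ) => hG μc hμc (F w) (hF1 w) m'
    set Cw : InfinitePlace K → (ℝ → ℂ) → ℂ := fun w m' =>
      if ∀ d : ℝ, 0 < d → m' d = sphM d then κc * ∫ x : ℝ × ℝ, β w x else Cg w m' with hCw
    have hCwa : ∀ (w : InfinitePlace K) (m' : ℝ → ℂ), ActsByMean μc (F w) m' (Cw w m') := by
      intro w m'
      by_cases hm : ∀ d : ℝ, 0 < d → m' d = sphM d
      · simp only [hCw, if_pos hm]
        exact actsByMean_of_actsBy hm (hF3 w)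
      · simp only [hCw, if_neg hm]
        exact hCg w m'
    have hft' : ∀ z₁ z₂ : HeightOneSpectrum (𝓞 K) → ℂ,
        ftCoordM K P (pureCoordM K P A β) z₁ z₂
          = (∏ v ∈ P, laurent (A v) (z₁ v) (z₂ v)) * ∏ w : InfinitePlace K, ∫ x : ℝ × ℝ, β w x := by
      intro z₁ z₂
      unfold ftCoordM pureCoordM
      rw [hft P (InfinitePlace K) (fun v : P => A v) β (fun i => (hAsym i).1)
        (fun v : P => z₁ v) (fun v : P => z₂ v),
        Finset.prod_coe_sort P (fun v => laurent (A v) (z₁ v) (z₂ v))]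
    have hopG : ∀ (φ : G K → ℂ) (m : InfinitePlace K → ℝ → ℂ), IsMeanLevel K 𝔫 m φ →
        ∀ a b z₁ z₂ : HeightOneSpectrum (𝓞 K) → ℂ,
          (∀ v ∈ P, IsHeckeEigenAt φ v (a v) (b v)) →
          (∀ v ∈ P, z₁ v + z₂ v = a v) → (∀ v ∈ P, z₁ v * z₂ v = b v) →
          (∀ v ∈ P, b v ≠ 0) →
          ∀ g : G K, Rop K μ (pureFnM K 𝔫 P f₀ F) φ g
            = (κ₁ * (∏ v ∈ P, laurent (A v) (z₁ v) (z₂ v))
                * ∏ w : InfinitePlace K, Cw w (m w)) * φ g :=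
      fun φ m hφ a b z₁ z₂ he hz₁ hz₂ hb g =>
        hR A (fun w => Cw w (m w)) m f₀ F (fun v _ => (hpair v).bi_inv)
          (fun v _ => (hpair v).fin_supp) (fun v _ => (hpair v).eigen) hF1
          (fun w => hCwa w (m w)) φ hφ a b z₁ z₂ he hz₁ hz₂ hb g
    have hcsph : ∀ (z₁ z₂ : HeightOneSpectrum (𝓞 K) → ℂ) (m : InfinitePlace K → ℝ → ℂ),
        IsSph0Param K m →
        κ₁ * (∏ v ∈ P, laurent (A v) (z₁ v) (z₂ v)) * ∏ w : InfinitePlace K, Cw w (m w)
          = κ₁ * κc ^ Fintype.card (InfinitePlace K)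
            * ftCoordM K P (pureCoordM K P A β) z₁ z₂ := by
      intro z₁ z₂ m hm
      have e1 : ∀ w : InfinitePlace K, Cw w (m w) = κc * ∫ x : ℝ × ℝ, β w x := fun w => by
        simp only [hCw, if_pos (hm w)]
      simp only [e1]
      rw [hft' z₁ z₂, Finset.prod_mul_distrib, Finset.prod_const, Finset.card_univ]
      ring
    refine ⟨pureFnM K 𝔫 P f₀ F, ?_, ?_⟩
    · refine
        { fin_m := ⟨Fintype.piFinset fun i : P => (hAsym i).1.toFinset, fun m hm x => ?_⟩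
          int_x := fun m => ?_
          cont := r1
          supp := r2
          bi_inv := r3
          supp_at := r4
          smooth := pureSmoothM 𝔫 P f₀ F hFs
          n_integrable := fun g g' j => (hNN g g' j).1
          n_int := fun g g' j => (hNN g g' j).2
          op := fun φ hφ a b z₁ z₂ he hz₁ hz₂ hb g => ?_ }
      · rw [Fintype.mem_piFinset, not_forall] at hm
        obtain ⟨i, hi⟩ := hm
        rw [Set.Finite.mem_toFinset, Function.mem_support, not_not] at hi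
        have : ∏ v : P, A v (m v) = 0 := Finset.prod_eq_zero (Finset.mem_univ i) hi
        show (∏ v : P, A v (m v)) * ∏ w : InfinitePlace K, β w (x w) = 0
        rw [this, zero_mul]
      · have : (fun x : InfinitePlace K → ℝ × ℝ => pureCoordM K P A β (m, x))
            = fun x => (∏ v : P, A v (m v)) * ∏ w : InfinitePlace K, β w (x w) := rfl
        rw [this]
        refine Integrable.const_mul ?_ _
        exact Integrable.fintype_prod (f := β) (μ := fun _ => volume) fun w =>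
          (hβ w).1.continuous.integrable_of_hasCompactSupport (hβ w).2.1
      · rw [hopG φ (fun _ => sphM) (isMeanLevel_of_sph0 K hcx hφ) a b z₁ z₂ he hz₁ hz₂ hb g,
          hcsph z₁ z₂ (fun _ => sphM) (fun _ _ _ => rfl)]
    · exact ⟨fun z₁ z₂ m => κ₁ * (∏ v ∈ P, laurent (A v) (z₁ v) (z₂ v))
          * ∏ w : InfinitePlace K, Cw w (m w), hcsph, hopG⟩

/-! ## 3. The EK function, general archimedean parameter -/

/-- **THE OUTPUT of station T3.18M, general archimedean parameter.** -/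
theorem ekOpExistGenM_of (hAS : AbelSatakeGenMC K) (hcore : EKCoreC) (hSU : InScalarUnifC K)
    (hk : EKKillC K) (hs : EKStarC K) (hν : InAddHaarC K) : EKOpExistGenMC K := by
  intro hK μ hμ 𝔫 P e a₀ h𝔫 hP hPe hspan hmem
  obtain ⟨ν, hνH⟩ := hν
  have ha₀ : algebraMap (𝓞 K) K a₀ ≠ 0 := by
    intro h0
    have h0' : a₀ = 0 :=
      (map_eq_zero_iff (algebraMap (𝓞 K) K) (FaithfulSMul.algebraMap_injective (𝓞 K) K)).1 h0
    rw [h0'] at hspan
    have hbot : (∏ v ∈ P, v.asIdeal ^ e v) = ⊥ := by rw [← hspan]; simp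
    rw [← Ideal.zero_eq_bot, Finset.prod_eq_zero_iff] at hbot
    obtain ⟨v, hvP, hv⟩ := hbot
    exact v.ne_bot ((pow_eq_zero_iff (Nat.pos_iff_ne_zero.1 (hPe v hvP).2)).1 hv)
  set α : Kˣ := Units.mk0 _ ha₀ with hα
  have hfr : FrameM K 𝔫 P e a₀ α :=
    ⟨h𝔫, hP, fun v hv => (hPe v hv).1, fun v hv => (hPe v hv).2, hspan, hmem, rfl⟩
  obtain ⟨κ, Δ, κ₀, hκ₀, hΦall⟩ := hAS hK μ hμ ν hνH 𝔫 P e a₀ α hfr
  haveI : Nonempty P := hP.to_subtype
  obtain ⟨Φ, hΦmem, hΦsum, hΦft⟩ :=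
    hcore P (InfinitePlace K) (fun v : P => e v) (fun w => Real.log (w (α : K)))
      (fun v => hfr.pos v v.2)
  obtain ⟨f, hf, hfc, hbi, hsupp, hsm, hfi, c₀, hc₀, hop⟩ := hΦall Φ hΦmem
  have hEK : IsEK K ν f α := by
    intro g g'
    have h1 : (fun j : ℤ => ∫ x, f (g⁻¹ * unip K x * torK K α ^ j * g') ∂ν)
        = fun j : ℤ => κ g g' * Φ (Δ g g' + j • coordTorM K P e α) := by
      funext j
      exact hfi g g' j
    rw [h1]
    have h2 := (hΦsum (Δ g g')).mul_left (κ g g')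
    rw [mul_zero] at h2
    exact h2
  have hstar : IsEK K ν (starG K f) α := hs ν hνH _ f hf hfc hEK
  have hsc : Continuous (starG K f) := by
    unfold starG
    exact (Complex.continuous_conj).comp (hf.comp continuous_inv)
  have hscc : HasCompactSupport (starG K f) := by
    unfold starG
    have h1 : HasCompactSupport (fun h : G K => f h⁻¹) := by
      have := hfc.comp_homeomorph (Homeomorph.inv (G K))
      simpa [Function.comp_def] using this
    exact h1.comp_left (g := (starRingEnd ℂ)) (map_zero _)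
  refine ⟨f, hf, hfc, hsm, ekOp_of_int K hk hμ hνH hf hfc hEK,
    ekOp_of_int K hk hμ hνH hsc hscc hstar, hbi, hsupp, ?_⟩
  classical
  refine ⟨fun a b m => if ∃ v ∈ P, b v = 0 then 1 else
    c₀ (fun v => H732.root1_732 (a v) (b v)) (fun v => H732.root2_732 (a v) (b v)) m, ?_, ?_⟩
  · intro a b m hgood hm
    by_cases hb : ∃ v ∈ P, b v = 0
    · simp only [if_pos hb]
      exact one_ne_zero
    · simp only [if_neg hb]
      simp only [not_exists, not_and] at hb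
      rw [hc₀ _ _ m hm]
      have hr₁ : ∀ v : P, H732.root1_732 (a v) (b v) ≠ 0 := fun v h =>
        hb v v.2 (by rw [← (H732.roots_spec732 (a v) (b v)).2, h, zero_mul])
      have hr₂ : ∀ v : P, H732.root2_732 (a v) (b v) ≠ 0 := fun v h =>
        hb v v.2 (by rw [← (H732.roots_spec732 (a v) (b v)).2, h, mul_zero])
      refine mul_ne_zero hκ₀ (hΦft _ _ hr₁ hr₂ ?_)
      intro z hz
      have key := hgood (fun v => if h : v ∈ P then z ⟨v, h⟩ else 0) ?_
      · rw [← Finset.prod_coe_sort P] at key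
        have e1 : ∀ v : P, (if h : (v : HeightOneSpectrum (𝓞 K)) ∈ P then
            z ⟨v, h⟩ else 0) = z v := fun v => by
          simp only [dif_pos v.2, Subtype.coe_eta]
        simpa only [e1] using key
      · intro v hv
        simp only [dif_pos hv]
        obtain ⟨hs', hp'⟩ := H732.roots_spec732 (a v) (b v)
        rcases hz ⟨v, hv⟩ with h | h
        · rw [h]
          linear_combination (H732.root1_732 (a v) (b v)) * hs' - hp'
        · rw [h]
          linear_combination (H732.root2_732 (a v) (b v)) * hs' - hp'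
  · intro φ m hφ a b hecke g
    by_cases hb : ∃ v ∈ P, b v = 0
    · simp only [if_pos hb, one_mul]
      obtain ⟨v, hv, hbv⟩ := hb
      have hecke' := hecke v hv
      rw [hbv] at hecke'
      have hzero : ∀ g : G K, φ g = 0 := H732.eq_zero_of_b_eq_zero732 K hSU hecke'
      rw [hzero g]
      unfold Rop
      simp only [hzero, zero_mul, integral_zero]
    · simp only [if_neg hb]
      simp only [not_exists, not_and] at hb
      exact hop φ m hφ a b _ _ hecke (fun v _ => (H732.roots_spec732 (a v) (b v)).1)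
        (fun v _ => (H732.roots_spec732 (a v) (b v)).2) hb g

/-- The output for the functions of parameter `0` from the general output. -/
theorem ekOpExistSmoothM_of_gen (h : EKOpExistGenMC K) : EKOpExistSmoothMC K := by
  intro hK μ hμ 𝔫 P e a₀ h𝔫 hP hPe hspan hmem
  obtain ⟨f, h1, h2, h3, h4, h5, h6, h7, c, hc, hact⟩ :=
    h hK μ hμ 𝔫 P e a₀ h𝔫 hP hPe hspan hmem
  refine ⟨f, h1, h2, h3, h4, h5, h6, h7, fun a b => c a b (fun _ => sphM),
    fun a b hab => hc a b _ hab (fun _ _ _ => rfl), fun φ hφ a b he g => ?_⟩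
  exact hact φ (fun _ => sphM) (isMeanLevel_of_sph0 K hK hφ) a b he g

end Fermat.Agent.LT.T3.M

end

end
-- ===== PACK-END LT/T3/M/GenTop.lean

-- ===== PACK-BEGIN LT/T6/H558/QuatSetClosed.lean
section






/-!
# Row LT, tower T6, leaf T6.18i.6b `QuatSettingC385` CLOSED (registry 1424, owner helper558)

OFF-MAIN.  `quatSettingC558 : H385.QuatSettingC385`, UNCONDITIONAL, in ONE import closure:
`quatSetting_of_t6_558` + byte-identical copies of `H129/Newton.lean` (helper129,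
`newtonC129`), `T6/H162/{CptGCore, CptG}.lean` (helper162, `cptGC162`),
`T6/H313/*.lean` (helper313, `quadUnitNormC313`), `T6/H166/TwCent.lean` (helper166,
`twCentC166`).
-/

set_option autoImplicit false

namespace Fermat.Agent.LT.T6.H558

open Fermat.Agent.LT.T6

/-- **T6.18i.6b `QuatSettingC385`**, unconditional. -/
theorem quatSettingC558 : H385.QuatSettingC385 :=
  quatSetting_of_t6_558 Fermat.Agent.LT.H129.newtonC129 H162.cptGC162 H313.quadUnitNormC313
    H166.twCentC166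

end Fermat.Agent.LT.T6.H558

end
-- ===== PACK-END LT/T6/H558/QuatSetClosed.lean

-- ===== PACK-BEGIN LT/T6/H855/HypOrbR.lean
section





/-!
# Row LT, tower T6, T6.25 `ArchHyp` (helper855): THE REAL ORBITAL INTEGRAL

OFF-MAIN.  `orbR855`: for `γ = g diag(a, b) g⁻¹`, `a ≠ b`, `f` continuous with compact support and
invariant under the conjugation by `SO(2)`, and a cut-off function `β` for the centraliser:
`∫ f(x⁻¹ γ x) β(x) dμ(x) = c π c_T |1 - b/a|⁻¹ ∫_ℝ f(diag(a, b) n(v)) dv`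
(`c` the Iwasawa constant of `μ`, `c_T` the torus constant of `μT`).
-/

set_option autoImplicit false

open scoped Matrix ENNReal
open MeasureTheory

noncomputable section

namespace Fermat.Agent.LT.T6.H855

open Fermat.Agent.LT.T6

section OrbR

local instance borelGLR3_855 : MeasurableSpace (GL (Fin 2) ℝ) := borel _
local instance borelSpaceGLR3_855 : BorelSpace (GL (Fin 2) ℝ) := ⟨rfl⟩
local instance secondCountableGLR3_855 : SecondCountableTopology (GL (Fin 2) ℝ) := scGL855 ℝ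
local instance borelT3_855 (γ : GL (Fin 2) ℝ) :
    MeasurableSpace (twCentSub (MonoidHom.id (GL (Fin 2) ℝ)) γ) := borel _
local instance borelSpaceT3_855 (γ : GL (Fin 2) ℝ) :
    BorelSpace (twCentSub (MonoidHom.id (GL (Fin 2) ℝ)) γ) := ⟨rfl⟩

/-- `cT` is a torus constant of the Haar measure `μT` of the centraliser of `g diag(a,b) g⁻¹`. -/
def IsTorusConst855 (g : GL (Fin 2) ℝ) (a b : ℝˣ) (μT : Measure (torT855 g a b)) (cT : ℝ) :
    Prop :=
  ∀ B : GL (Fin 2) ℝ → ℝ, Continuous B →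
    Integrable (fun t : torT855 g a b => B t) μT →
    (∀ s : ℤˣ × ℤˣ, Integrable (fun u : ℝ × ℝ => B (torusPar855 g s u))) ∧
      ∑ s : ℤˣ × ℤˣ, ∫ u : ℝ × ℝ, B (torusPar855 g s u)
        = cT * ∫ t : torT855 g a b, B t ∂μT

theorem exists_torusConst855 (g : GL (Fin 2) ℝ) (a b : ℝˣ) (hab : a ≠ b)
    (μT : Measure (torT855 g a b)) [μT.IsHaarMeasure] :
    ∃ cT : ℝ, 0 < cT ∧ IsTorusConst855 g a b μT cT :=
  torus_integral855 g a b hab μT

theorem card_signs855 : Fintype.card (ℤˣ × ℤˣ) = 4 := by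
  rw [Fintype.card_prod, Fintype.card_units_int]

theorem epsR_eq855 : H189.epsR = sgE855 (-1, 1) := by
  apply Units.ext
  ext i j
  fin_cases i <;> fin_cases j <;> simp [epsR_coe855, sgE855]

/-- The symmetrised cut-off function. -/
def symCut855 (g : GL (Fin 2) ℝ) (β : GL (Fin 2) ℝ → ℝ) (y : GL (Fin 2) ℝ) : ℝ :=
  ∑ s : ℤˣ × ℤˣ, β (g * sgE855 s * y)

theorem symCut_continuous855 (g : GL (Fin 2) ℝ) (β : GL (Fin 2) ℝ → ℝ) (hβ : Continuous β) :
    Continuous (symCut855 g β) :=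
  continuous_finsetSum _ (fun _ _ => hβ.comp (continuous_const.mul continuous_id))

theorem symCut_nonneg855 (g : GL (Fin 2) ℝ) (β : GL (Fin 2) ℝ → ℝ) (hβ0 : ∀ x, 0 ≤ β x)
    (y : GL (Fin 2) ℝ) : 0 ≤ symCut855 g β y :=
  Finset.sum_nonneg (fun _ _ => hβ0 _)

theorem symCut_sgE855 (g : GL (Fin 2) ℝ) (β : GL (Fin 2) ℝ → ℝ) (ε : ℤˣ × ℤˣ)
    (y : GL (Fin 2) ℝ) : symCut855 g β (sgE855 ε * y) = symCut855 g β y := by
  unfold symCut855
  have : ∀ s : ℤˣ × ℤˣ, β (g * sgE855 s * (sgE855 ε * y)) = β (g * sgE855 (s * ε) * y) := by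
    intro s
    rw [sgE_mul855]
    congr 1
    group
  simp_rw [this]
  exact Fintype.sum_equiv (Equiv.mulRight ε) _ _ (fun _ => rfl)

theorem integrable_of_integral_eq_one855 {X : Type*} [MeasurableSpace X] {μ : Measure X}
    {h : X → ℝ} (h1 : ∫ x, h x ∂μ = 1) : Integrable h μ := by
  by_contra hn
  rw [integral_undef hn] at h1
  exact zero_ne_one h1

theorem symCut_integral855 (g : GL (Fin 2) ℝ) (a b : ℝˣ) (μT : Measure (torT855 g a b))
    (cT : ℝ) (hcT : IsTorusConst855 g a b μT cT)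
    (β : GL (Fin 2) ℝ → ℝ) (hβ : Continuous β)
    (hβ1 : ∀ x : GL (Fin 2) ℝ, ∫ t : torT855 g a b, β ((t : GL (Fin 2) ℝ) * x) ∂μT = 1)
    (y : GL (Fin 2) ℝ) :
    Integrable (fun u : ℝ × ℝ => symCut855 g β (H189.dgR u.1 u.2 * y)) ∧
      ∫ u : ℝ × ℝ, symCut855 g β (H189.dgR u.1 u.2 * y) = cT := by
  obtain ⟨hI, hS⟩ := hcT (fun t => β (t * (g * y)))
    (hβ.comp (continuous_id.mul continuous_const))
    (integrable_of_integral_eq_one855 (hβ1 (g * y)))
  have hrew : ∀ (s : ℤˣ × ℤˣ) (u : ℝ × ℝ),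
      β (g * sgE855 s * (H189.dgR u.1 u.2 * y)) = β (torusPar855 g s u * (g * y)) := by
    intro s u
    congr 1
    unfold torusPar855
    group
  unfold symCut855
  simp_rw [hrew]
  constructor
  · exact integrable_finsetSum _ (fun s _ => hI s)
  · rw [integral_finsetSum _ (fun s _ => hI s), hS, hβ1, mul_one]

/-- **The real orbital integral at a hyperbolic element.** -/
theorem orbR855 (μ : Measure (GL (Fin 2) ℝ)) [μ.IsHaarMeasure] (c : ℝ≥0∞) (hc : c ≠ ⊤)
    (hμ : μ.restrict H189.posR = c • Measure.map H189.iwaR H189.iwaMR)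
    (g : GL (Fin 2) ℝ) (a b : ℝˣ) (hab : a ≠ b)
    (μT : Measure (torT855 g a b)) (cT : ℝ) (hcT : IsTorusConst855 g a b μT cT)
    (f : GL (Fin 2) ℝ → ℂ) (hf : Continuous f) (hfs : HasCompactSupport f)
    (hfk : ∀ k x : GL (Fin 2) ℝ, InSO2 k → f (k⁻¹ * x * k) = f x)
    (β : GL (Fin 2) ℝ → ℝ) (hβ : Continuous β) (hβ0 : ∀ x, 0 ≤ β x)
    (hβ1 : ∀ x : GL (Fin 2) ℝ, ∫ t : torT855 g a b, β ((t : GL (Fin 2) ℝ) * x) ∂μT = 1) :
    ∫ x, f (x⁻¹ * (g * dgU855 a b * g⁻¹) * x) * (β x : ℂ) ∂μ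
      = ((c.toReal * Real.pi * cT * |1 - ((a⁻¹ : ℝˣ) : ℝ) * (b : ℝ)|⁻¹ : ℝ) : ℂ)
          * ∫ v : ℝ, f (dgU855 a b * nU855 v) := by
  have hab' : (a : ℝ) ≠ (b : ℝ) := fun hh => hab (Units.ext hh)
  have hc0 : 1 - ((a⁻¹ : ℝˣ) : ℝ) * (b : ℝ) ≠ 0 := by
    intro h0
    apply hab'
    have ha : (a : ℝ) ≠ 0 := a.ne_zero
    have h1 : ((a⁻¹ : ℝˣ) : ℝ) * (b : ℝ) = 1 := by linarith
    rw [Units.val_inv_eq_inv_val] at h1
    field_simp at h1
    exact h1.symm
  set γ₀ := dgU855 a b with hγ₀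
  set F : GL (Fin 2) ℝ → ℂ := fun y => f (y⁻¹ * γ₀ * y) with hF
  set B := symCut855 g β with hB
  have hFc : Continuous F :=
    hf.comp ((continuous_inv.mul continuous_const).mul continuous_id)
  -- invariance of `F`
  have hFdiag : ∀ (d x : GL (Fin 2) ℝ), d * γ₀ = γ₀ * d → F (d * x) = F x := by
    intro d x hd
    simp only [hF]
    congr 1
    calc (d * x)⁻¹ * γ₀ * (d * x) = x⁻¹ * (d⁻¹ * (γ₀ * d)) * x := by group
      _ = x⁻¹ * (d⁻¹ * (d * γ₀)) * x := by rw [hd]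
      _ = x⁻¹ * γ₀ * x := by group
  have hFd : ∀ (u₁ u₂ : ℝ) (x : GL (Fin 2) ℝ), F (H189.dgR u₁ u₂ * x) = F x :=
    fun u₁ u₂ x => hFdiag _ x (dgR_comm_dgU855 u₁ u₂ a b)
  have hFs : ∀ (s : ℤˣ × ℤˣ) (x : GL (Fin 2) ℝ), F (sgE855 s * x) = F x :=
    fun s x => hFdiag _ x (sgE_comm_dgU855 s a b)
  have hFe : ∀ x : GL (Fin 2) ℝ, F (H189.epsR * x) = F x := by
    intro x
    rw [epsR_eq855]
    exact hFs _ x
  have hFk : ∀ (θ : ℝ) (x : GL (Fin 2) ℝ), F (x * H189.rotR θ) = F x := by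
    intro θ x
    simp only [hF]
    rw [← hfk (H189.rotR θ) (x⁻¹ * γ₀ * x) (rotR_inSO2_855 θ)]
    congr 1
    group
  have hFn : ∀ x : ℝ, F (nU855 x)
      = f (γ₀ * nU855 ((1 - ((a⁻¹ : ℝˣ) : ℝ) * (b : ℝ)) * x)) := by
    intro x
    simp only [hF]
    rw [nU_conj_dgU855]
    congr 3
    ring
  have hFi : Integrable (fun x : ℝ => F (nU855 x)) := by
    simp_rw [hFn]
    exact integrable_comp_mul855 (fun v => f (γ₀ * nU855 v))
      (integrable_abel855 volume f hf hfs γ₀) _ hc0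
  -- the cut-off function
  have hBe : ∀ x : GL (Fin 2) ℝ, B (H189.epsR * x) = B x := by
    intro x
    rw [epsR_eq855]
    exact symCut_sgE855 g β _ x
  obtain ⟨hInt, hval⟩ := real_side855 μ c hc hμ F hFc hFd hFe hFk hFi B
    (symCut_continuous855 g β hβ) (symCut_nonneg855 g β hβ0) hBe cT
    (fun y => (symCut_integral855 g a b μT cT hcT β hβ hβ1 y).1)
    (fun y => (symCut_integral855 g a b μT cT hcT β hβ hβ1 y).2)
  -- the four translates
  have htr : ∀ s : ℤˣ × ℤˣ,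
      ∫ y, F y * (β (g * sgE855 s * y) : ℂ) ∂μ
        = ∫ x, f (x⁻¹ * (g * γ₀ * g⁻¹) * x) * (β x : ℂ) ∂μ := by
    intro s
    rw [← integral_mul_left_eq_self (fun x => f (x⁻¹ * (g * γ₀ * g⁻¹) * x) * (β x : ℂ))
      (g * sgE855 s)]
    refine integral_congr_ae (Filter.Eventually.of_forall (fun y => ?_))
    have harg : (g * sgE855 s * y)⁻¹ * (g * γ₀ * g⁻¹) * (g * sgE855 s * y)
        = (sgE855 s * y)⁻¹ * γ₀ * (sgE855 s * y) := by group
    have h1 : f ((sgE855 s * y)⁻¹ * γ₀ * (sgE855 s * y)) = F y := hFs s y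
    show F y * (β (g * sgE855 s * y) : ℂ)
      = f ((g * sgE855 s * y)⁻¹ * (g * γ₀ * g⁻¹) * (g * sgE855 s * y))
          * (β (g * sgE855 s * y) : ℂ)
    rw [harg, h1]
  have hterm : ∀ s : ℤˣ × ℤˣ, Integrable (fun y => F y * (β (g * sgE855 s * y) : ℂ)) μ := by
    intro s
    refine hInt.mono ?_ (Filter.Eventually.of_forall (fun y => ?_))
    · exact (hFc.mul (Complex.continuous_ofReal.comp
        (hβ.comp (continuous_const.mul continuous_id)))).aestronglyMeasurable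
    · rw [norm_mul, norm_mul, Complex.norm_real, Complex.norm_real,
        Real.norm_of_nonneg (hβ0 _), Real.norm_of_nonneg (symCut_nonneg855 g β hβ0 y)]
      refine mul_le_mul_of_nonneg_left ?_ (norm_nonneg _)
      exact Finset.single_le_sum (f := fun s => β (g * sgE855 s * y))
        (fun i _ => hβ0 _) (Finset.mem_univ s)
  have hsum : ∫ y, F y * (B y : ℂ) ∂μ
      = ∑ s : ℤˣ × ℤˣ, ∫ y, F y * (β (g * sgE855 s * y) : ℂ) ∂μ := by
    rw [← integral_finsetSum _ (fun s _ => hterm s)]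
    refine integral_congr_ae (Filter.Eventually.of_forall (fun y => ?_))
    simp only [hB, symCut855]
    push_cast
    rw [Finset.mul_sum]
  have h4 : (4 : ℂ) * ∫ x, f (x⁻¹ * (g * γ₀ * g⁻¹) * x) * (β x : ℂ) ∂μ
      = ∫ y, F y * (B y : ℂ) ∂μ := by
    rw [hsum]
    simp_rw [htr]
    rw [Finset.sum_const, Finset.card_univ, card_signs855]
    simp
  have hfin : ∫ x : ℝ, F (nU855 x)
      = ((|1 - ((a⁻¹ : ℝˣ) : ℝ) * (b : ℝ)|⁻¹ : ℝ) : ℂ) * ∫ v : ℝ, f (γ₀ * nU855 v) := by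
    simp_rw [hFn]
    exact integral_comp_mul855 (fun v => f (γ₀ * nU855 v)) _
  have h4' : (4 : ℂ) ≠ 0 := by norm_num
  apply mul_left_cancel₀ h4'
  rw [h4, hval, hfin]
  push_cast
  ring

end OrbR

end Fermat.Agent.LT.T6.H855

end

end
-- ===== PACK-END LT/T6/H855/HypOrbR.lean

-- ===== PACK-BEGIN LT/T6/H855/HypOrbC.lean
section




/-!
# Row LT, tower T6, T6.25 `ArchHyp` (helper855): THE TWISTED ORBITAL INTEGRAL

OFF-MAIN.  `orbC855`: for `δ = g diag(d₁, d₂) g⁻¹`, `|d₁|² = a = s²`, `|d₂|² = b = t²`, `a ≠ b`,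
`φ` continuous with compact support and bi-`U(2)`-invariant, and a cut-off function `β'` for the
centraliser of `γ = g diag(a, b) g⁻¹`:
`∫ φ(x⁻¹ δ x̄) β'(x) dμ'(x) = (c' c_T / 4) |1 - b/a|⁻¹ ∫_ℂ φ(diag(s, t) n(w)) dw`.
-/

set_option autoImplicit false

open scoped Matrix ENNReal
open MeasureTheory

noncomputable section

namespace Fermat.Agent.LT.T6.H855

open Fermat.Agent.LT.T6

section OrbC

local instance borelGLR4_855 : MeasurableSpace (GL (Fin 2) ℝ) := borel _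
local instance borelSpaceGLR4_855 : BorelSpace (GL (Fin 2) ℝ) := ⟨rfl⟩
local instance borelGLC4_855 : MeasurableSpace (GL (Fin 2) ℂ) := borel _
local instance borelSpaceGLC4_855 : BorelSpace (GL (Fin 2) ℂ) := ⟨rfl⟩
local instance secondCountableGLC4_855 : SecondCountableTopology (GL (Fin 2) ℂ) := scGL855 ℂ
local instance borelT4_855 (γ : GL (Fin 2) ℝ) :
    MeasurableSpace (twCentSub (MonoidHom.id (GL (Fin 2) ℝ)) γ) := borel _
local instance borelSpaceT4_855 (γ : GL (Fin 2) ℝ) :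
    BorelSpace (twCentSub (MonoidHom.id (GL (Fin 2) ℝ)) γ) := ⟨rfl⟩

/-- The symmetrised cut-off function upstairs. -/
def symCutC855 (g : GL (Fin 2) ℝ) (β' : GL (Fin 2) ℂ → ℝ) (y : GL (Fin 2) ℂ) : ℝ :=
  ∑ s : ℤˣ × ℤˣ, β' (iotaC855 (g * sgE855 s) * y)

theorem symCutC_continuous855 (g : GL (Fin 2) ℝ) (β' : GL (Fin 2) ℂ → ℝ) (hβ : Continuous β') :
    Continuous (symCutC855 g β') :=
  continuous_finsetSum _ (fun _ _ => hβ.comp (continuous_const.mul continuous_id))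

theorem symCutC_nonneg855 (g : GL (Fin 2) ℝ) (β' : GL (Fin 2) ℂ → ℝ) (hβ0 : ∀ x, 0 ≤ β' x)
    (y : GL (Fin 2) ℂ) : 0 ≤ symCutC855 g β' y :=
  Finset.sum_nonneg (fun _ _ => hβ0 _)

theorem symCutC_integral855 (g : GL (Fin 2) ℝ) (a b : ℝˣ) (μT : Measure (torT855 g a b))
    (cT : ℝ) (hcT : IsTorusConst855 g a b μT cT)
    (β' : GL (Fin 2) ℂ → ℝ) (hβ : Continuous β')
    (hβ1 : ∀ x : GL (Fin 2) ℂ,
      ∫ t : torT855 g a b, β' (iotaC855 (t : GL (Fin 2) ℝ) * x) ∂μT = 1)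
    (y : GL (Fin 2) ℂ) :
    Integrable (fun u : ℝ × ℝ => symCutC855 g β' (H189.dgC u.1 u.2 * y)) ∧
      ∫ u : ℝ × ℝ, symCutC855 g β' (H189.dgC u.1 u.2 * y) = cT := by
  obtain ⟨hI, hS⟩ := hcT (fun t => β' (iotaC855 t * (iotaC855 g * y)))
    (hβ.comp ((continuous_iota855.comp continuous_id).mul continuous_const))
    (integrable_of_integral_eq_one855 (hβ1 (iotaC855 g * y)))
  have hrew : ∀ (s : ℤˣ × ℤˣ) (u : ℝ × ℝ),
      β' (iotaC855 (g * sgE855 s) * (H189.dgC u.1 u.2 * y))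
        = β' (iotaC855 (torusPar855 g s u) * (iotaC855 g * y)) := by
    intro s u
    congr 1
    rw [dgC_eq855, ← mul_assoc, ← mul_assoc, ← map_mul, ← map_mul]
    congr 2
    unfold torusPar855
    group
  unfold symCutC855
  simp_rw [hrew]
  constructor
  · exact integrable_finsetSum _ (fun s _ => hI s)
  · rw [integral_finsetSum _ (fun s _ => hI s), hS, hβ1, mul_one]

/-- **The twisted orbital integral at a hyperbolic element.** -/
theorem orbC855 (μ' : Measure (GL (Fin 2) ℂ)) [μ'.IsHaarMeasure] (c' : ℝ≥0∞) (hc' : c' ≠ ⊤)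
    (κ : Measure (GL (Fin 2) ℂ)) (hκ : H189.IsU2Haar κ)
    (hμ' : μ' = c' • Measure.map H189.iwaC (H189.iwaMC κ))
    (g : GL (Fin 2) ℝ) (a b : ℝˣ) (hab : a ≠ b)
    (μT : Measure (torT855 g a b)) (cT : ℝ) (hcT : IsTorusConst855 g a b μT cT)
    (φ : GL (Fin 2) ℂ → ℂ) (hφ : Continuous φ) (hφs : HasCompactSupport φ)
    (hφl : ∀ k x : GL (Fin 2) ℂ, InU2 k → φ (k * x) = φ x)
    (hφr : ∀ k x : GL (Fin 2) ℂ, InU2 k → φ (x * k) = φ x)
    (d₁ d₂ : ℂˣ) (hd₁ : Complex.normSq (d₁ : ℂ) = (a : ℝ))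
    (hd₂ : Complex.normSq (d₂ : ℂ) = (b : ℝ))
    (s t : ℝˣ) (hsa : (s : ℝ) ^ 2 = (a : ℝ)) (htb : (t : ℝ) ^ 2 = (b : ℝ))
    (β' : GL (Fin 2) ℂ → ℝ) (hβ : Continuous β') (hβ0 : ∀ x, 0 ≤ β' x)
    (hβ1 : ∀ x : GL (Fin 2) ℂ,
      ∫ t : torT855 g a b, β' (iotaC855 (t : GL (Fin 2) ℝ) * x) ∂μT = 1) :
    ∫ x, φ (x⁻¹ * (iotaC855 g * dgU855 d₁ d₂ * (iotaC855 g)⁻¹)
          * glAut (starRingAut : ℂ ≃+* ℂ) x) * (β' x : ℂ) ∂μ'
      = ((c'.toReal * cT / 4 * |1 - ((a⁻¹ : ℝˣ) : ℝ) * (b : ℝ)|⁻¹ : ℝ) : ℂ)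
          * ∫ w : ℂ, φ (iotaC855 (dgU855 s t) * nU855 w) := by
  have ha0 : (a : ℝ) ≠ 0 := a.ne_zero
  have hs0 : (s : ℝ) ≠ 0 := s.ne_zero
  have ht0 : (t : ℝ) ≠ 0 := t.ne_zero
  have hab' : (a : ℝ) ≠ (b : ℝ) := fun hh => hab (Units.ext hh)
  set F : GL (Fin 2) ℂ → ℂ := fun y => φ (y⁻¹ * (dgU855 d₁ d₂) * glAut (starRingAut : ℂ ≃+* ℂ) y) with hF
  set B := symCutC855 g β' with hB
  have hFc : Continuous F :=
    hφ.comp ((continuous_inv.mul continuous_const).mul continuous_glAut855)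
  -- invariance of `F`
  have hFdiag : ∀ (d : GL (Fin 2) ℝ) (x : GL (Fin 2) ℂ), iotaC855 d * (dgU855 d₁ d₂) = (dgU855 d₁ d₂) * iotaC855 d →
      F (iotaC855 d * x) = F x := by
    intro d x hd
    simp only [hF]
    rw [map_mul, glAut_iota855]
    congr 1
    calc (iotaC855 d * x)⁻¹ * (dgU855 d₁ d₂) * (iotaC855 d * glAut (starRingAut : ℂ ≃+* ℂ) x)
        = x⁻¹ * ((iotaC855 d)⁻¹ * ((dgU855 d₁ d₂) * iotaC855 d)) * glAut (starRingAut : ℂ ≃+* ℂ) x := by
          group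
      _ = x⁻¹ * ((iotaC855 d)⁻¹ * (iotaC855 d * (dgU855 d₁ d₂))) * glAut (starRingAut : ℂ ≃+* ℂ) x := by
          rw [hd]
      _ = x⁻¹ * (dgU855 d₁ d₂) * glAut (starRingAut : ℂ ≃+* ℂ) x := by group
  have hcommR : ∀ u₁ u₂ : ℝ, iotaC855 (H189.dgR u₁ u₂) * (dgU855 d₁ d₂) = (dgU855 d₁ d₂) * iotaC855 (H189.dgR u₁ u₂) := by
    intro u₁ u₂
    rw [dgR_eq855, iota_dgU855]
    exact dgU_comm855 _ _ _ _
  have hcommS : ∀ e : ℤˣ × ℤˣ, iotaC855 (sgE855 e) * (dgU855 d₁ d₂) = (dgU855 d₁ d₂) * iotaC855 (sgE855 e) := by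
    intro e
    unfold sgE855
    rw [iota_dgU855]
    exact dgU_comm855 _ _ _ _
  have hFd : ∀ (u₁ u₂ : ℝ) (x : GL (Fin 2) ℂ), F (H189.dgC u₁ u₂ * x) = F x := by
    intro u₁ u₂ x
    rw [dgC_eq855]
    exact hFdiag _ x (hcommR u₁ u₂)
  have hFs : ∀ (e : ℤˣ × ℤˣ) (x : GL (Fin 2) ℂ), F (iotaC855 (sgE855 e) * x) = F x :=
    fun e x => hFdiag _ x (hcommS e)
  have hFk : ∀ k x : GL (Fin 2) ℂ, InU2 k → F (x * k) = F x := by
    intro k x hk
    simp only [hF]
    rw [← twconj_inv_of_biinv855 φ hφl hφr hk (x⁻¹ * (dgU855 d₁ d₂) * glAut (starRingAut : ℂ ≃+* ℂ) x)]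
    congr 1
    rw [map_mul]
    group
  -- the unitary part of `(dgU855 d₁ d₂)`
  set v₁ : ℂˣ := d₁ * (cU855 s)⁻¹ with hv₁
  set v₂ : ℂˣ := d₂ * (cU855 t)⁻¹ with hv₂
  have hnv₁ : Complex.normSq (v₁ : ℂ) = 1 := by
    rw [hv₁, Units.val_mul, Complex.normSq_mul, hd₁, Units.val_inv_eq_inv_val, cU_coe855,
      Complex.normSq_inv, Complex.normSq_ofReal, ← hsa]
    field_simp
  have hnv₂ : Complex.normSq (v₂ : ℂ) = 1 := by
    rw [hv₂, Units.val_mul, Complex.normSq_mul, hd₂, Units.val_inv_eq_inv_val, cU_coe855,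
      Complex.normSq_inv, Complex.normSq_ofReal, ← htb]
    field_simp
  have hδv : dgU855 d₁ d₂ = iotaC855 (dgU855 s t) * dgU855 v₁ v₂ := by
    rw [iota_dgU855, dgU_mul855, hv₁, hv₂]
    congr 1 <;> simp
  set A : ℂ := -((v₁ : ℂ) * ((v₂⁻¹ : ℂˣ) : ℂ) * (((d₁⁻¹ : ℂˣ) : ℂ) * (d₂ : ℂ))) with hA
  set Bc : ℂ := (v₁ : ℂ) * ((v₂⁻¹ : ℂˣ) : ℂ) with hBc
  have hFn : ∀ w : ℂ, F (nU855 w)
      = φ (iotaC855 (dgU855 s t) * nU855 (A * w + Bc * (starRingEnd ℂ) w)) := by
    intro w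
    simp only [hF]
    rw [nU_twconj_dgU855, hδv, mul_assoc, dgU_mul_nU855, ← mul_assoc,
      hφr _ _ (dgU_inU2_855 v₁ v₂ hnv₁ hnv₂)]
    congr 3
    rw [hA, hBc]
    ring
  have hnB : Complex.normSq Bc = 1 := by
    rw [hBc, Complex.normSq_mul, hnv₁, Units.val_inv_eq_inv_val, Complex.normSq_inv, hnv₂]
    simp
  have hnA : Complex.normSq A = ((a⁻¹ : ℝˣ) : ℝ) * (b : ℝ) := by
    rw [hA, Complex.normSq_neg, Complex.normSq_mul, hnB, one_mul, Complex.normSq_mul,
      Units.val_inv_eq_inv_val, Complex.normSq_inv, hd₁, hd₂, Units.val_inv_eq_inv_val]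
  have hdet : Complex.normSq A - Complex.normSq Bc ≠ 0 := by
    rw [hnA, hnB]
    intro h0
    apply hab'
    have h1 : ((a⁻¹ : ℝˣ) : ℝ) * (b : ℝ) = 1 := by linarith
    rw [Units.val_inv_eq_inv_val] at h1
    field_simp at h1
    exact h1.symm
  have habs : |Complex.normSq A - Complex.normSq Bc| = |1 - ((a⁻¹ : ℝˣ) : ℝ) * (b : ℝ)| := by
    rw [hnA, hnB, abs_sub_comm]
  set h : ℂ → ℂ := fun z => φ (iotaC855 (dgU855 s t) * nU855 z) with hh
  have hhc : Continuous h := continuous_abel855 φ hφ _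
  have hhi : Integrable h := integrable_abel855 volume φ hφ hφs _
  have hFi : Integrable (fun w : ℂ => F (nU855 w)) := by
    simp_rw [hFn]
    exact integrable_comp_lAB855 h hhc hhi A Bc hdet
  obtain ⟨hInt, hval⟩ := cplx_side855 μ' c' hc' κ hκ hμ' F hFc hFd hFk hFi B
    (symCutC_continuous855 g β' hβ) (symCutC_nonneg855 g β' hβ0) cT
    (fun y => (symCutC_integral855 g a b μT cT hcT β' hβ hβ1 y).1)
    (fun y => (symCutC_integral855 g a b μT cT hcT β' hβ hβ1 y).2)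
  -- the four translates
  have htr : ∀ e : ℤˣ × ℤˣ,
      ∫ y, F y * (β' (iotaC855 (g * sgE855 e) * y) : ℂ) ∂μ'
        = ∫ x, φ (x⁻¹ * (iotaC855 g * (dgU855 d₁ d₂) * (iotaC855 g)⁻¹)
            * glAut (starRingAut : ℂ ≃+* ℂ) x) * (β' x : ℂ) ∂μ' := by
    intro e
    rw [← integral_mul_left_eq_self (fun x => φ (x⁻¹ * (iotaC855 g * (dgU855 d₁ d₂) * (iotaC855 g)⁻¹)
            * glAut (starRingAut : ℂ ≃+* ℂ) x) * (β' x : ℂ)) (iotaC855 (g * sgE855 e))]
    refine integral_congr_ae (Filter.Eventually.of_forall (fun y => ?_))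
    have harg : (iotaC855 (g * sgE855 e) * y)⁻¹ * (iotaC855 g * (dgU855 d₁ d₂) * (iotaC855 g)⁻¹)
          * glAut (starRingAut : ℂ ≃+* ℂ) (iotaC855 (g * sgE855 e) * y)
        = (iotaC855 (sgE855 e) * y)⁻¹ * (dgU855 d₁ d₂)
          * glAut (starRingAut : ℂ ≃+* ℂ) (iotaC855 (sgE855 e) * y) := by
      simp only [map_mul, glAut_iota855]
      group
    have h1 : φ ((iotaC855 (sgE855 e) * y)⁻¹ * (dgU855 d₁ d₂)
          * glAut (starRingAut : ℂ ≃+* ℂ) (iotaC855 (sgE855 e) * y)) = F y := hFs e y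
    show F y * (β' (iotaC855 (g * sgE855 e) * y) : ℂ)
      = φ ((iotaC855 (g * sgE855 e) * y)⁻¹ * (iotaC855 g * (dgU855 d₁ d₂) * (iotaC855 g)⁻¹)
          * glAut (starRingAut : ℂ ≃+* ℂ) (iotaC855 (g * sgE855 e) * y))
          * (β' (iotaC855 (g * sgE855 e) * y) : ℂ)
    rw [harg, h1]
  have hterm : ∀ e : ℤˣ × ℤˣ,
      Integrable (fun y => F y * (β' (iotaC855 (g * sgE855 e) * y) : ℂ)) μ' := by
    intro e
    refine hInt.mono ?_ (Filter.Eventually.of_forall (fun y => ?_))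
    · exact (hFc.mul (Complex.continuous_ofReal.comp
        (hβ.comp (continuous_const.mul continuous_id)))).aestronglyMeasurable
    · rw [norm_mul, norm_mul, Complex.norm_real, Complex.norm_real,
        Real.norm_of_nonneg (hβ0 _), Real.norm_of_nonneg (symCutC_nonneg855 g β' hβ0 y)]
      refine mul_le_mul_of_nonneg_left ?_ (norm_nonneg _)
      exact Finset.single_le_sum (f := fun e => β' (iotaC855 (g * sgE855 e) * y))
        (fun i _ => hβ0 _) (Finset.mem_univ e)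
  have hsum : ∫ y, F y * (B y : ℂ) ∂μ'
      = ∑ e : ℤˣ × ℤˣ, ∫ y, F y * (β' (iotaC855 (g * sgE855 e) * y) : ℂ) ∂μ' := by
    rw [← integral_finsetSum _ (fun e _ => hterm e)]
    refine integral_congr_ae (Filter.Eventually.of_forall (fun y => ?_))
    simp only [hB, symCutC855]
    push_cast
    rw [Finset.mul_sum]
  have h4 : (4 : ℂ) * ∫ x, φ (x⁻¹ * (iotaC855 g * (dgU855 d₁ d₂) * (iotaC855 g)⁻¹)
            * glAut (starRingAut : ℂ ≃+* ℂ) x) * (β' x : ℂ) ∂μ'
      = ∫ y, F y * (B y : ℂ) ∂μ' := by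
    rw [hsum]
    simp_rw [htr]
    rw [Finset.sum_const, Finset.card_univ, card_signs855]
    simp
  have hfin : ∫ w : ℂ, F (nU855 w)
      = ((|1 - ((a⁻¹ : ℝˣ) : ℝ) * (b : ℝ)|⁻¹ : ℝ) : ℂ) * ∫ z : ℂ, h z := by
    simp_rw [hFn]
    rw [← habs]
    exact integral_comp_lAB855 h hhc A Bc hdet
  have h4' : (4 : ℂ) ≠ 0 := by norm_num
  apply mul_left_cancel₀ h4'
  rw [h4, hval, hfin]
  push_cast
  ring

end OrbC

end Fermat.Agent.LT.T6.H855

end

end
-- ===== PACK-END LT/T6/H855/HypOrbC.lean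

-- ===== PACK-BEGIN LT/T6/H887/VertSum.lean
section






/-!
# Row LT, tower T6, leaves T6.13.2a `VertSumGeoC` and T6.13.3a `VertSumTwC` (helper887), OFF-MAIN

Registry row 1131 (sub-spec of helper60, `LT/T6/H60/EllUnrSpec2.lean`, sha256 75a22aba).

The (twisted) orbit sum at a regular elliptic `γ` with `k[γ]/k` unramified is the plain sum over
the vertices of the tree.  Assets used (vendored byte-identical):

* helper340 `LT/T6/H340/VertexSum.lean`: `orbSum_eq_vertexSum340`, `twOrbSum_eq_vertexSum340`,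
  `hdec_twc340` (orbit sum = vertex sum, given the decomposition `T = ϖ^ℤ × T^c`);
* helper129 `LT/H129/Newton.lean`: `newtonC129` (two slopes give a root);
* helper166 `LT/T6/H166/TwCent.lean`: `twCentC166` (the twisted centraliser).

Proved here: the decomposition of the centraliser (`hdec_geo887`, `hdec_tw887`): every `t` in the
centraliser of `γ` has `ord det t` even (`¬ HasRamUnif`), and after scaling to unit determinant
its trace is integral (`trace_le_one887`: otherwise `newtonC129` gives an eigenvalue of `t` in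
`k`, hence one of `γ`, because `t = a + b γ`).
-/

set_option autoImplicit false
set_option linter.unusedSectionVars false

open scoped Matrix

noncomputable section

namespace Fermat.Agent.LT.T6.H887

open Fermat.Agent.LT.T6 Fermat.Agent.LT.T6.H60 Fermat.Agent.LT.T6.H340 Fermat.Agent.LT.T6.H166
open Fermat.Agent.LT.T6.H159 Fermat.Agent.LT.H129

/-! ### 1. The shape of the invariant -/

theorem invOf60_eq887 {D a b : ℤ} {d : ℕ} (h1 : (d : ℤ) = a - b) (h2 : a + b = D) :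
    invOf60 D d = (a, b) := by
  unfold invOf60
  ext
  · simp only; omega
  · simp only; omega

section Shape

variable {k : Type} [Field k] [Valued k Γ₀]

theorem twInv_eq_invOf887 (s : k ≃+* k) (hs : ∀ y : k, Valued.v (s y) = Valued.v y)
    (δ : GL (Fin 2) k) (p : BTVert340 k) :
    twInv340 s hs δ p = invOf60 (ordDet δ) (btDist340 p (btTw340 s hs δ p)) := by
  obtain ⟨h1, h2⟩ := (twInv340_eq_iff s hs δ p (twInv340 s hs δ p)).mp rfl
  exact (invOf60_eq887 h1 h2).symm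

theorem inv_eq_invOf887 (γ : GL (Fin 2) k) (p : BTVert340 k) :
    inv340 γ p = invOf60 (ordDet γ) (btDist340 p (btMul340 γ p)) := by
  obtain ⟨h1, h2⟩ := (inv340_eq_iff γ p (inv340 γ p)).mp rfl
  exact (invOf60_eq887 h1 h2).symm

end Shape

/-! ### 2. The centraliser of an elliptic element is `k + k γ` -/

section Cent

variable {k : Type} [Field k]

theorem cent_form887 (G T : Matrix (Fin 2) (Fin 2) k) (h : T * G = G * T) (h01 : G 0 1 ≠ 0) :
    T = (T 0 0 - T 0 1 / G 0 1 * G 0 0) • (1 : Matrix (Fin 2) (Fin 2) k)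
      + (T 0 1 / G 0 1) • G := by
  have e00 := congrFun (congrFun h 0) 0
  have e01 := congrFun (congrFun h 0) 1
  simp only [Matrix.mul_apply, Fin.sum_univ_two] at e00 e01
  ext i j
  fin_cases i <;> fin_cases j
  · simp
  · simp [div_mul_cancel₀ _ h01]
  · simp
    field_simp
    linear_combination -e00
  · simp
    field_simp
    linear_combination -e01

theorem trace_form887 (G : Matrix (Fin 2) (Fin 2) k) (a b : k) :
    (a • (1 : Matrix (Fin 2) (Fin 2) k) + b • G).trace = 2 * a + b * G.trace := by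
  simp [Matrix.trace_fin_two]; ring

theorem det_form887 (G : Matrix (Fin 2) (Fin 2) k) (a b : k) :
    (a • (1 : Matrix (Fin 2) (Fin 2) k) + b • G).det = a ^ 2 + a * b * G.trace + b ^ 2 * G.det := by
  simp [Matrix.trace_fin_two, Matrix.det_fin_two]; ring

end Cent

/-! ### 3. The decomposition of the centraliser (untwisted) -/

section Local

variable {k : Type} [Field k] [Valued k Γ₀]

/-- No eigenvalue in `k`: the upper right entry is not zero. -/
theorem entry01_ne_zero887 (γ : GL (Fin 2) k) (hne : ¬ HasEigen k γ) :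
    (γ : Matrix (Fin 2) (Fin 2) k) 0 1 ≠ 0 := by
  intro h0
  apply hne
  refine ⟨(γ : Matrix (Fin 2) (Fin 2) k) 0 0, ?_⟩
  rw [Matrix.trace_fin_two, Matrix.det_fin_two, h0]
  ring

theorem v_two_le_one887 : Valued.v (2 : k) ≤ 1 := by
  have e : (2 : k) = 1 + 1 := by norm_num
  rw [e]
  exact le_trans (Valuation.map_add _ _ _) (by simp)

/-- An element of the centraliser of an elliptic `γ` with unit determinant has integral trace. -/
theorem trace_le_one887 {q : ℕ} (hk : IsLocalField k q) (γ t : GL (Fin 2) k)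
    (h : t * γ = γ * t) (hne : ¬ HasEigen k γ)
    (hdet : Valued.v (t : Matrix (Fin 2) (Fin 2) k).det = 1) :
    Valued.v (t : Matrix (Fin 2) (Fin 2) k).trace ≤ 1 := by
  by_contra hlt
  rw [not_le] at hlt
  obtain ⟨x, hx⟩ := newtonC129 k q hk _ _ hdet hlt
  have h01 := entry01_ne_zero887 γ hne
  have hTG : (t : Matrix (Fin 2) (Fin 2) k) * (γ : Matrix (Fin 2) (Fin 2) k)
      = (γ : Matrix (Fin 2) (Fin 2) k) * (t : Matrix (Fin 2) (Fin 2) k) := by
    rw [← Matrix.GeneralLinearGroup.coe_mul, h, Matrix.GeneralLinearGroup.coe_mul]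
  have hform := cent_form887 _ _ hTG h01
  generalize ha : (t : Matrix (Fin 2) (Fin 2) k) 0 0
      - (t : Matrix (Fin 2) (Fin 2) k) 0 1 / (γ : Matrix (Fin 2) (Fin 2) k) 0 1
        * (γ : Matrix (Fin 2) (Fin 2) k) 0 0 = a at hform
  generalize hb : (t : Matrix (Fin 2) (Fin 2) k) 0 1 / (γ : Matrix (Fin 2) (Fin 2) k) 0 1 = b
    at hform
  have htr : (t : Matrix (Fin 2) (Fin 2) k).trace
      = 2 * a + b * (γ : Matrix (Fin 2) (Fin 2) k).trace :=
    (congrArg Matrix.trace hform).trans (trace_form887 _ a b)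
  have hde : (t : Matrix (Fin 2) (Fin 2) k).det
      = a ^ 2 + a * b * (γ : Matrix (Fin 2) (Fin 2) k).trace
        + b ^ 2 * (γ : Matrix (Fin 2) (Fin 2) k).det :=
    (congrArg Matrix.det hform).trans (det_form887 _ a b)
  by_cases hb0 : b = 0
  · rw [hb0] at htr hde
    simp only [zero_mul, add_zero, mul_zero, ne_eq, OfNat.ofNat_ne_zero, not_false_eq_true,
      zero_pow] at htr hde
    rw [hde, map_pow] at hdet
    rw [htr, map_mul] at hlt
    have hva : Valued.v a ≤ 1 := by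
      by_contra hgt
      rw [not_le] at hgt
      have : (1 : Γ₀) < Valued.v a ^ 2 := one_lt_pow' hgt (by norm_num)
      rw [hdet] at this
      exact lt_irrefl _ this
    have : Valued.v (2 : k) * Valued.v a ≤ 1 := by
      calc Valued.v (2 : k) * Valued.v a ≤ 1 * 1 := mul_le_mul' v_two_le_one887 hva
        _ = 1 := one_mul 1
    exact absurd hlt (not_lt.mpr this)
  · apply hne
    refine ⟨(x - a) / b, ?_⟩
    rw [htr, hde] at hx
    field_simp
    linear_combination hx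

/-- `k[γ]/k` unramified: every element of the centraliser has a scalar multiple of unit
determinant. -/
theorem exists_unit_scal887 {q : ℕ} (hk : IsLocalField k q) (γ t : GL (Fin 2) k)
    (h : t * γ = γ * t) (hnr : ¬ HasRamUnif k γ) :
    ∃ (z : k) (hz : z ≠ 0),
      Valued.v ((scal340 z hz * t : GL (Fin 2) k) : Matrix (Fin 2) (Fin 2) k).det = 1 := by
  obtain ⟨ϖ, hϖ⟩ := hk.unif
  have hϖ0 : ϖ ≠ 0 := unif_ne_zero340 hϖ
  have hd0 : Valued.v (t : Matrix (Fin 2) (Fin 2) k).det ≠ 0 := vdet_ne_zero340 t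
  have hvn : Valued.v (t : Matrix (Fin 2) (Fin 2) k).det
      = WithZero.exp (WithZero.log (Valued.v (t : Matrix (Fin 2) (Fin 2) k).det)) :=
    (WithZero.exp_log hd0).symm
  generalize WithZero.log (Valued.v (t : Matrix (Fin 2) (Fin 2) k).det) = n at hvn
  have key : ∀ m : ℤ,
      Valued.v ((scal340 (ϖ ^ m) (zpow_ne_zero m hϖ0) * t : GL (Fin 2) k)
        : Matrix (Fin 2) (Fin 2) k).det = WithZero.exp (n - 2 * m) := by
    intro m
    rw [Matrix.GeneralLinearGroup.coe_mul, Matrix.det_mul, det_scal340, map_mul, map_mul,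
      map_zpow₀, hϖ, hvn, ← WithZero.exp_zsmul, ← WithZero.exp_add, ← WithZero.exp_add]
    congr 1
    simp only [smul_eq_mul]
    ring
  have hcomm : ∀ m : ℤ, (scal340 (ϖ ^ m) (zpow_ne_zero m hϖ0) * t) * γ
      = γ * (scal340 (ϖ ^ m) (zpow_ne_zero m hϖ0) * t) := by
    intro m
    rw [mul_assoc, h, ← mul_assoc, scal340_comm _ _ γ, mul_assoc]
  rcases Int.even_or_odd' n with ⟨m, hm | hm⟩
  · refine ⟨ϖ ^ m, zpow_ne_zero m hϖ0, ?_⟩
    rw [key m, hm]
    simp
  · exfalso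
    apply hnr
    refine ⟨scal340 (ϖ ^ (m + 1)) (zpow_ne_zero _ hϖ0) * t, hcomm (m + 1), ?_⟩
    rw [key (m + 1), hm]
    congr 1
    ring

/-- **The decomposition `T = ϖ^ℤ × T^c`** of the centraliser of an elliptic `γ` with `k[γ]/k`
unramified. -/
theorem hdec_geo887 {q : ℕ} (hk : IsLocalField k q) (γ : GL (Fin 2) k)
    (hne : ¬ HasEigen k γ) (hnr : ¬ HasRamUnif k γ) :
    ∀ t : GL (Fin 2) k, t * γ = γ * t →
      ∃ (z : k) (hz : z ≠ 0), InTwCentC (RingEquiv.refl k) γ (scal340 z hz * t) := by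
  intro t ht
  obtain ⟨z, hz, hdet⟩ := exists_unit_scal887 hk γ t ht hnr
  have hcomm : (scal340 z hz * t) * γ = γ * (scal340 z hz * t) := by
    rw [mul_assoc, ht, ← mul_assoc, scal340_comm z hz γ, mul_assoc]
  exact ⟨z, hz, (inTwCent_refl_iff340 γ _).mpr hcomm,
    trace_le_one887 hk γ _ hcomm hne hdet, hdet⟩

end Local

/-- **T6.13.2a `VertSumGeoC`**, unconditional. -/
theorem vertSumGeoC887 : VertSumGeoC := by
  intro k _ _ q hk γ _ hne hnr f c' hc S hS
  have h := orbSum_eq_vertexSum340 γ (hdec_geo887 hk γ hne hnr) (fun lam => f lam) c' hc S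
    (fun p hp => hS p (by rwa [inv_eq_invOf887] at hp))
  rw [h]
  exact Finset.sum_congr rfl (fun p _ => by rw [inv_eq_invOf887])

/-! ### 4. The twisted case -/

/-- The twisted norm of a twisted conjugate. -/
theorem twN_twc887 {Γ : Type} [Group Γ] (s : Γ →* Γ) (δ x : Γ) (n : ℕ) :
    twN s n (x⁻¹ * δ * s x) = x⁻¹ * twN s n δ * (s^[n]) x := by
  induction n with
  | zero => simp [twN_zero166]
  | succ n ih =>
    rw [twN_succ166, ih, twN_succ166, Function.iterate_succ_apply']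
    simp only [map_mul, map_inv]
    group

section Twisted

variable {k k' : Type} [Field k] [Field k'] [Valued k Γ₀] [Valued k' Γ₀]

theorem map_scal887 (i : k →+* k') (z : k) (hz : z ≠ 0) :
    Matrix.GeneralLinearGroup.map i (scal340 z hz)
      = scal340 (i z) ((map_ne_zero i).mpr hz) := by
  apply Matrix.GeneralLinearGroup.ext
  intro a b
  rw [Matrix.GeneralLinearGroup.map_apply, coe_scal340, coe_scal340]
  fin_cases a <;> fin_cases b <;> simp

theorem trace_map887 (i : k →+* k') (g : GL (Fin 2) k) :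
    ((Matrix.GeneralLinearGroup.map i g : GL (Fin 2) k') : Matrix (Fin 2) (Fin 2) k').trace
      = i (g : Matrix (Fin 2) (Fin 2) k).trace := by
  rw [Matrix.trace_fin_two, Matrix.trace_fin_two, map_add,
    Matrix.GeneralLinearGroup.map_apply, Matrix.GeneralLinearGroup.map_apply]

theorem det_map887 (i : k →+* k') (g : GL (Fin 2) k) :
    ((Matrix.GeneralLinearGroup.map i g : GL (Fin 2) k') : Matrix (Fin 2) (Fin 2) k').det
      = i (g : Matrix (Fin 2) (Fin 2) k).det := by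
  rw [Matrix.det_fin_two, Matrix.det_fin_two, map_sub, map_mul, map_mul,
    Matrix.GeneralLinearGroup.map_apply, Matrix.GeneralLinearGroup.map_apply,
    Matrix.GeneralLinearGroup.map_apply, Matrix.GeneralLinearGroup.map_apply]

/-- The decomposition of the twisted centraliser of `δ` when `N δ = γ` exactly. -/
theorem hdec_tw_exact887 {q l : ℕ} {i : k →+* k'} {s : k' ≃+* k'} (hk : IsLocalField k q)
    (hext : IsLocalExt k k' l 1 i s) (δ : GL (Fin 2) k') (γ : GL (Fin 2) k) (hreg : IsReg γ)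
    (hne : ¬ HasEigen k γ) (hnr : ¬ HasRamUnif k γ)
    (hN : twNorm s l δ = Matrix.GeneralLinearGroup.map i γ) :
    ∀ t, InTwCent s δ t →
      ∃ (z : k') (hz : z ≠ 0), s z = z ∧ InTwCentC s δ (scal340 z hz * t) := by
  intro t ht
  obtain ⟨t0, ht0, rfl⟩ := (twCentC166 k k' l i s hext.cyc δ γ hreg hN t).mp ht
  obtain ⟨z0, hz0, hC⟩ := hdec_geo887 hk γ hne hnr t0 ht0
  have hz : i z0 ≠ 0 := (map_ne_zero i).mpr hz0
  have hsz : s (i z0) = i z0 := hext.cyc.fix_i z0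
  refine ⟨i z0, hz, hsz, ?_, ?_, ?_⟩
  · rw [inTwCent_iff340, twc340_mul, twc340_scal_fixed s _ hz hsz]
    exact ht
  · rw [← map_scal887 i z0 hz0, ← map_mul, trace_map887, hext.val_i, pow_one]
    exact hC.2.1
  · rw [← map_scal887 i z0 hz0, ← map_mul, det_map887, hext.val_i, pow_one]
    exact hC.2.2

/-- The decomposition of the twisted centraliser of `δ` when `N δ` is conjugate to `γ`. -/
theorem hdec_tw887 {q l : ℕ} {i : k →+* k'} {s : k' ≃+* k'} (hk : IsLocalField k q)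
    (hext : IsLocalExt k k' l 1 i s) (δ : GL (Fin 2) k') (γ : GL (Fin 2) k) (hreg : IsReg γ)
    (hne : ¬ HasEigen k γ) (hnr : ¬ HasRamUnif k γ)
    (hconj : IsConj (twNorm s l δ) (Matrix.GeneralLinearGroup.map i γ)) :
    ∀ t, InTwCent s δ t →
      ∃ (z : k') (hz : z ≠ 0), s z = z ∧ InTwCentC s δ (scal340 z hz * t) := by
  obtain ⟨g, hg⟩ := isConj_iff.mp hconj
  have hN : twNorm s l (twc340 s δ g⁻¹) = Matrix.GeneralLinearGroup.map i γ := by
    unfold twNorm twc340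
    rw [twN_twc887, glAut_iterate_eq166 s l hext.cyc.order, inv_inv]
    exact hg
  have hdec' := hdec_tw_exact887 hk hext (twc340 s δ g⁻¹) γ hreg hne hnr hN
  have hδ : twc340 s (twc340 s δ g⁻¹) g = δ := by
    have := twc340_mul_inv_cancel s δ g⁻¹
    rwa [inv_inv] at this
  intro t ht
  have := hdec_twc340 s (twc340 s δ g⁻¹) hdec' g t (by rw [hδ]; exact ht)
  rwa [hδ] at this

end Twisted

/-- **T6.13.3a `VertSumTwC`**, unconditional. -/
theorem vertSumTwC887 : VertSumTwC := by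
  intro k k' _ _ _ _ q l i s hk _ hext _ δ γ hreg hne hnr hconj φ c hc S hS
  obtain ⟨ϖ, hϖ⟩ := hk.unif
  have hfix := hfix_of_unif340 s (ϖ := i ϖ) (by rw [hext.val_i, pow_one, hϖ])
    (hext.cyc.fix_i ϖ)
  have h := twOrbSum_eq_vertexSum340 s hext.val_s hfix δ
    (hdec_tw887 hk hext δ γ hreg hne hnr hconj) (fun lam => φ lam) c hc S
    (fun p hp => hS p (by rwa [twInv_eq_invOf887] at hp))
  rw [h]
  exact Finset.sum_congr rfl (fun p _ => by rw [twInv_eq_invOf887])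

end Fermat.Agent.LT.T6.H887

end

end
-- ===== PACK-END LT/T6/H887/VertSum.lean

-- ===== PACK-BEGIN LT/T3/M/H709/PureRegM.lean
section



/-!
# Row LT, tower T3, station T3.18M, leaf M.3 `PureRegMC` (helper709)

OFF-MAIN.  `pureRegMC709 (K) : Fermat.Agent.LT.T3.M.PureRegMC K`: the multi-place pure tensor
`⊗_{v ∈ P} f₀_v ⊗ ⊗_w F_w ⊗ 1_{U^{S'}}`, `S' = P ∪ S_∞`, is continuous, of compact support,
bi-invariant under `U(𝔫) K_∞` and supported at `S'`.

Vocabulary: `LT/T3/M/Spec.lean` (sha256 bf15afa4) of helper14, byte-identical copy.  Port of the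
single-place proof of helper245 (`LT/T3/H245/PureReg{A,B,}.lean`, byte-identical copies, imported
as they are): `v₀` is replaced by the finite set `P`, the common denominator at `v₀` by the
product of the common denominators at the places of `P`.  `P = ∅` is allowed.
-/

set_option autoImplicit false
set_option linter.style.haveILetI false

open IsDedekindDomain NumberField MeasureTheory
open Fermat.Agent.LT.H556.A0
open scoped RestrictedProduct

noncomputable section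

namespace Fermat.Agent.LT.T3.M.H709

open Fermat.Agent.LT.T3 Fermat.Agent.LT.T3.H245

variable {K : Type} [Field K] [NumberField K]

/-! ## The subgroup `OutsideUM` -/

theorem outsideUM_iff709 {𝔫 : Ideal (𝓞 K)} {P : Finset (HeightOneSpectrum (𝓞 K))} {h : G K} :
    OutsideUM K 𝔫 P h ↔ ∀ v : HeightOneSpectrum (𝓞 K), v ∉ P →
      AS.finGL K v h ∈ locU245 𝔫 v := by
  constructor
  · intro H v hv i j
    refine ⟨(H v hv i j).1, ?_⟩
    rw [← map_inv]
    exact (H v hv i j).2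
  · intro H v hv i j
    refine ⟨(H v hv i j).1, ?_⟩
    have := (H v hv i j).2
    rw [← map_inv] at this
    exact this

/-- `{h | OutsideUM h}` as a subgroup of `GL₂(𝔸_K)`. -/
def outUM709 (𝔫 : Ideal (𝓞 K)) (P : Finset (HeightOneSpectrum (𝓞 K))) : Subgroup (G K) where
  carrier := {h | OutsideUM K 𝔫 P h}
  mul_mem' := by
    intro a b ha hb
    rw [Set.mem_ofPred_eq, outsideUM_iff709] at ha hb ⊢
    intro v hv
    rw [map_mul]
    exact mul_mem (ha v hv) (hb v hv)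
  one_mem' := by
    rw [Set.mem_ofPred_eq, outsideUM_iff709]
    intro v _
    rw [map_one]
    exact one_mem _
  inv_mem' := by
    intro a ha
    rw [Set.mem_ofPred_eq, outsideUM_iff709] at ha ⊢
    intro v hv
    rw [map_inv]
    exact inv_mem (ha v hv)

theorem mem_outUM709 {𝔫 : Ideal (𝓞 K)} {P : Finset (HeightOneSpectrum (𝓞 K))} {h : G K} :
    h ∈ outUM709 𝔫 P ↔ OutsideUM K 𝔫 P h := Iff.rfl

/-- `OutsideUM` is open. -/
theorem isOpen_outUM709 {𝔫 : Ideal (𝓞 K)} (h𝔫 : 𝔫 ≠ ⊥)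
    (P : Finset (HeightOneSpectrum (𝓞 K))) : IsOpen (outUM709 𝔫 P : Set (G K)) := by
  apply Subgroup.isOpen_of_mem_nhds
  have hT : {v : HeightOneSpectrum (𝓞 K) | v.asIdeal ∣ 𝔫}.Finite := Ideal.finite_factors h𝔫
  set W : Set (FiniteAdeleRing (𝓞 K) K) :=
    {x | ∀ v, x v ∈ v.adicCompletionIntegers K}
      ∩ ⋂ v ∈ {v : HeightOneSpectrum (𝓞 K) | v.asIdeal ∣ 𝔫},
          {x : FiniteAdeleRing (𝓞 K) K | x v ∈ idealClosure 𝔫 v} with hWdef
  have hW : IsOpen W := by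
    refine IsOpen.inter ?_ ?_
    · exact RestrictedProduct.isOpen_forall_mem (fun v => Valued.isOpen_valuationSubring _)
    · refine hT.isOpen_biInter fun v _ => ?_
      exact (isOpen_idealClosure245 𝔫 v h𝔫).preimage (RestrictedProduct.continuous_eval v)
  have hWI : ∀ x ∈ W, ∀ v, x v ∈ idealClosure 𝔫 v := by
    intro x hx v
    by_cases hv : v.asIdeal ∣ 𝔫
    · exact Set.mem_iInter₂.1 hx.2 v hv
    · rw [idealClosure_eq_integers245 𝔫 v hv]
      exact hx.1 v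
  have hW0 : (0 : FiniteAdeleRing (𝓞 K) K) ∈ W := by
    refine ⟨fun v => zero_mem _, Set.mem_iInter₂.2 fun v _ => ?_⟩
    exact zero_mem_idealClosure245 𝔫 v
  set V : Set (G K) := ⋂ i : Fin 2, ⋂ j : Fin 2,
    ((fun h : G K => (((h : Matrix (Fin 2) (Fin 2) (Adl K)) - 1) i j).2) ⁻¹' W
      ∩ (fun h : G K => ((((h⁻¹ : G K) : Matrix (Fin 2) (Fin 2) (Adl K)) - 1) i j).2) ⁻¹' W)
    with hVdef
  have hsnd : Continuous (fun x : Adl K => x.2) := continuous_snd
  have hV : IsOpen V := by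
    refine isOpen_iInter_of_finite fun i => isOpen_iInter_of_finite fun j => ?_
    refine (hW.preimage ?_).inter (hW.preimage ?_)
    · exact hsnd.comp ((Units.continuous_val.sub continuous_const).matrix_elem i j)
    · exact hsnd.comp
        (((Units.continuous_val.comp continuous_inv).sub continuous_const).matrix_elem i j)
  have h1 : (1 : G K) ∈ V := by
    refine Set.mem_iInter.2 fun i => Set.mem_iInter.2 fun j => ⟨?_, ?_⟩
    · show (((((1 : G K) : Matrix (Fin 2) (Fin 2) (Adl K)) - 1) i j).2) ∈ W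
      rw [Units.val_one, sub_self]
      exact hW0
    · show ((((((1 : G K)⁻¹ : G K) : Matrix (Fin 2) (Fin 2) (Adl K)) - 1) i j).2) ∈ W
      rw [inv_one, Units.val_one, sub_self]
      exact hW0
  refine Filter.mem_of_superset (hV.mem_nhds h1) ?_
  intro h hh v _ i j
  have hij := Set.mem_iInter.1 (Set.mem_iInter.1 hh i) j
  refine ⟨?_, ?_⟩
  · rw [finComp_sub_one245]
    exact hWI _ hij.1 v
  · rw [finComp_sub_one245]
    exact hWI _ hij.2 v

/-- `OutsideUM` is open and closed. -/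
theorem isClopen_outsideUM709 {𝔫 : Ideal (𝓞 K)} (h𝔫 : 𝔫 ≠ ⊥)
    (P : Finset (HeightOneSpectrum (𝓞 K))) : IsClopen {h : G K | OutsideUM K 𝔫 P h} :=
  ⟨Subgroup.isClosed_of_isOpen (outUM709 𝔫 P) (isOpen_outUM709 h𝔫 P), isOpen_outUM709 h𝔫 P⟩

/-! ## Continuity of the pure tensor -/

theorem continuous_pureFnM709 {𝔫 : Ideal (𝓞 K)} (h𝔫 : 𝔫 ≠ ⊥)
    (P : Finset (HeightOneSpectrum (𝓞 K)))
    {f₀ : ∀ v : HeightOneSpectrum (𝓞 K), GL (Fin 2) (v.adicCompletion K) → ℂ}
    {F : InfinitePlace K → GL (Fin 2) ℂ → ℂ}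
    (hf₀ : ∀ v ∈ P, AS.IsBiIntInv v (f₀ v)) (hF : ∀ w, Continuous (F w)) :
    Continuous (pureFnM K 𝔫 P f₀ F) := by
  have hφ : Continuous (fun h : G K =>
      (∏ v ∈ P, f₀ v (AS.finGL K v h)) * ∏ w : InfinitePlace K, F w (AS.infGL K w h)) :=
    (continuous_finsetProd _ fun v hv =>
        (continuous_of_biIntInv245 (hf₀ v hv)).comp (continuous_finGL245 v)).mul
      (continuous_finsetProd _ fun w _ => (hF w).comp (continuous_infGL245 w))
  unfold pureFnM
  classical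
  refine Continuous.if ?_ hφ continuous_const
  intro a ha
  rw [(isClopen_outsideUM709 h𝔫 P).frontier_eq] at ha
  exact absurd ha (Set.notMem_empty a)

/-! ## The components of the level group and of the archimedean compact groups -/

theorem level_mem_outUM709 {𝔫 : Ideal (𝓞 K)} {P : Finset (HeightOneSpectrum (𝓞 K))} {u : G K}
    (hu : InLevelGroup 𝔫 u) : u ∈ outUM709 𝔫 P :=
  outsideUM_iff709.2 fun v _ => finGL_mem_locU_of_level245 hu v

theorem arch_mem_outUM709 {𝔫 : Ideal (𝓞 K)} {P : Finset (HeightOneSpectrum (𝓞 K))}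
    {w : InfinitePlace K} {k : G K} (hk : IsLocalAtInf w k) : k ∈ outUM709 𝔫 P :=
  outsideUM_iff709.2 fun v _ => by
    rw [finGL_eq_one245 (hk.2 v)]
    exact one_mem _

theorem pureFnM_congr709 {𝔫 : Ideal (𝓞 K)} {P : Finset (HeightOneSpectrum (𝓞 K))}
    {f₀ : ∀ v : HeightOneSpectrum (𝓞 K), GL (Fin 2) (v.adicCompletion K) → ℂ}
    {F : InfinitePlace K → GL (Fin 2) ℂ → ℂ}
    {h h' : G K} (h1 : OutsideUM K 𝔫 P h ↔ OutsideUM K 𝔫 P h')
    (h2 : ∀ v ∈ P, f₀ v (AS.finGL K v h) = f₀ v (AS.finGL K v h'))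
    (h3 : ∀ w, F w (AS.infGL K w h) = F w (AS.infGL K w h')) :
    pureFnM K 𝔫 P f₀ F h = pureFnM K 𝔫 P f₀ F h' := by
  unfold pureFnM
  by_cases hh : OutsideUM K 𝔫 P h
  · rw [if_pos hh, if_pos (h1.1 hh), Finset.prod_congr rfl h2,
      Finset.prod_congr rfl fun w _ => h3 w]
  · rw [if_neg hh, if_neg (fun H => hh (h1.2 H))]

theorem outsideUM_of_pureFnM_ne_zero709 {𝔫 : Ideal (𝓞 K)}
    {P : Finset (HeightOneSpectrum (𝓞 K))}
    {f₀ : ∀ v : HeightOneSpectrum (𝓞 K), GL (Fin 2) (v.adicCompletion K) → ℂ}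
    {F : InfinitePlace K → GL (Fin 2) ℂ → ℂ}
    {h : G K} (hh : pureFnM K 𝔫 P f₀ F h ≠ 0) : OutsideUM K 𝔫 P h := by
  by_contra hO
  apply hh
  unfold pureFnM
  rw [if_neg hO]

/-! ## Bi-invariance -/

theorem isBiInv_pureFnM709 {𝔫 : Ideal (𝓞 K)} {P : Finset (HeightOneSpectrum (𝓞 K))}
    {f₀ : ∀ v : HeightOneSpectrum (𝓞 K), GL (Fin 2) (v.adicCompletion K) → ℂ}
    {F : InfinitePlace K → GL (Fin 2) ℂ → ℂ}
    (hf₀ : ∀ v ∈ P, AS.IsBiIntInv v (f₀ v)) (hF : ∀ w, AS.IsCplxTest (F w)) :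
    IsBiInv K 𝔫 (pureFnM K 𝔫 P f₀ F) := by
  have hone := fun v : HeightOneSpectrum (𝓞 K) => isIntGL_one245 v
  have hU1 : AS.IsUnitary2 (1 : GL (Fin 2) ℂ) := by
    simp [AS.IsUnitary2]
  refine ⟨?_, ?_⟩
  · intro u hu h
    have huo : u ∈ outUM709 𝔫 P := level_mem_outUM709 hu
    have hk : ∀ v, AS.IsIntGL v (AS.finGL K v u) := fun v =>
      isIntGL_of_mem_locU245 (finGL_mem_locU_of_level245 hu v)
    have hinf : ∀ w, AS.infGL K w u = 1 := fun w => infGL_eq_one245 (hu.1 w)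
    refine ⟨pureFnM_congr709 ?_ ?_ ?_, pureFnM_congr709 ?_ ?_ ?_⟩
    · exact Subgroup.mul_mem_cancel_left _ huo
    · intro v hv
      rw [map_mul]
      have := hf₀ v hv (AS.finGL K v u) 1 (AS.finGL K v h) (hk v) (hone v)
      rwa [mul_one] at this
    · intro w
      rw [map_mul, hinf w, one_mul]
    · exact Subgroup.mul_mem_cancel_right _ huo
    · intro v hv
      rw [map_mul]
      have := hf₀ v hv 1 (AS.finGL K v u) (AS.finGL K v h) (hone v) (hk v)
      rwa [one_mul] at this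
    · intro w
      rw [map_mul, hinf w, mul_one]
  · intro w k hk h
    have hko : k ∈ outUM709 𝔫 P := arch_mem_outUM709 hk.1
    have hfin : ∀ v, AS.finGL K v k = 1 := fun v => finGL_eq_one245 (hk.1.2 v)
    have hinf : ∀ w', w' ≠ w → AS.infGL K w' k = 1 :=
      fun w' hw' => infGL_eq_one245 (hk.1.1 w' hw')
    have hun : AS.IsUnitary2 (AS.infGL K w k) := hk.2.1
    refine ⟨pureFnM_congr709 ?_ ?_ ?_, pureFnM_congr709 ?_ ?_ ?_⟩
    · exact Subgroup.mul_mem_cancel_left _ hko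
    · intro v _
      rw [map_mul, hfin v, one_mul]
    · intro w'
      rw [map_mul]
      by_cases hw' : w' = w
      · subst hw'
        have := (hF w').bi_inv (AS.infGL K w' k) 1 (AS.infGL K w' h) hun hU1
        rwa [mul_one] at this
      · rw [hinf w' hw', one_mul]
    · exact Subgroup.mul_mem_cancel_right _ hko
    · intro v _
      rw [map_mul, hfin v, mul_one]
    · intro w'
      rw [map_mul]
      by_cases hw' : w' = w
      · subst hw'
        have := (hF w').bi_inv 1 (AS.infGL K w' k) (AS.infGL K w' h) hU1 hun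
        rwa [one_mul] at this
      · rw [hinf w' hw', mul_one]

/-! ## Compact support -/

/-- A common denominator on the supports of the `f₀ v`, `v ∈ P`. -/
theorem exists_fin_boundM709 (P : Finset (HeightOneSpectrum (𝓞 K)))
    (f₀ : ∀ v : HeightOneSpectrum (𝓞 K), GL (Fin 2) (v.adicCompletion K) → ℂ)
    (hR : ∀ v ∈ P, ∃ R : Finset (GL (Fin 2) (v.adicCompletion K)), AS.IsRepSys v (f₀ v) R) :
    ∃ a : 𝓞 K, a ≠ 0 ∧ ∀ v ∈ P, ∀ g : GL (Fin 2) (v.adicCompletion K), f₀ v g ≠ 0 →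
      ∀ i j : Fin 2,
        toCompl245 K v a * (g : Matrix (Fin 2) (Fin 2) (v.adicCompletion K)) i j
          ∈ v.adicCompletionIntegers K ∧
        toCompl245 K v a * ((g⁻¹ : GL (Fin 2) (v.adicCompletion K)) :
          Matrix (Fin 2) (Fin 2) (v.adicCompletion K)) i j ∈ v.adicCompletionIntegers K := by
  classical
  induction P using Finset.induction_on with
  | empty => exact ⟨1, one_ne_zero, fun v hv => absurd hv (Finset.notMem_empty v)⟩
  | insert v₀ P _ ih =>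
    obtain ⟨a, ha0, ha⟩ := ih (fun v hv => hR v (Finset.mem_insert_of_mem hv))
    obtain ⟨b, hb0, hb⟩ := exists_fin_bound245 (hR v₀ (Finset.mem_insert_self _ _))
    refine ⟨a * b, mul_ne_zero ha0 hb0, ?_⟩
    intro v hv g hg i j
    rw [toCompl245_mul]
    rcases Finset.mem_insert.1 hv with hv | hv
    · subst hv
      constructor
      · rw [mul_assoc]
        exact mul_mem (toCompl245_mem_integers K v a) (hb g hg i j).1
      · rw [mul_assoc]
        exact mul_mem (toCompl245_mem_integers K v a) (hb g hg i j).2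
    · constructor
      · rw [mul_comm (toCompl245 K v a), mul_assoc]
        exact mul_mem (toCompl245_mem_integers K v b) (ha v hv g hg i j).1
      · rw [mul_comm (toCompl245 K v a), mul_assoc]
        exact mul_mem (toCompl245_mem_integers K v b) (ha v hv g hg i j).2

theorem hasCompactSupport_pureFnM709 {𝔫 : Ideal (𝓞 K)}
    {P : Finset (HeightOneSpectrum (𝓞 K))}
    {f₀ : ∀ v : HeightOneSpectrum (𝓞 K), GL (Fin 2) (v.adicCompletion K) → ℂ}
    {F : InfinitePlace K → GL (Fin 2) ℂ → ℂ}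
    (hR : ∀ v ∈ P, ∃ R : Finset (GL (Fin 2) (v.adicCompletion K)), AS.IsRepSys v (f₀ v) R)
    (hF : ∀ w, HasCompactSupport (F w)) :
    HasCompactSupport (pureFnM K 𝔫 P f₀ F) := by
  have := Fermat.Agent.LT.H11.LC.t2Space_GL2_adeleRing_h11 K
  obtain ⟨a, ha0, ha⟩ := exists_fin_boundM709 P f₀ hR
  have hρ' := fun w => exists_arch_bound245 (hF w)
  choose ρ' hρ' using hρ'
  obtain ⟨ρ, hρ⟩ := Finite.bddAbove_range ρ'
  refine HasCompactSupport.intro (isCompact_boxG245 ρ a) ?_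
  intro h hh
  by_contra hne
  apply hh
  have hO : OutsideUM K 𝔫 P h := outsideUM_of_pureFnM_ne_zero709 hne
  have hval : pureFnM K 𝔫 P f₀ F h
      = (∏ v ∈ P, f₀ v (AS.finGL K v h)) * ∏ w : InfinitePlace K, F w (AS.infGL K w h) := by
    unfold pureFnM
    rw [if_pos hO]
  rw [hval] at hne
  have hf : ∀ v ∈ P, f₀ v (AS.finGL K v h) ≠ 0 := fun v hv =>
    (Finset.prod_ne_zero_iff.1 (left_ne_zero_of_mul hne)) v hv
  have hFw : ∀ w, F w (AS.infGL K w h) ≠ 0 := fun w =>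
    (Finset.prod_ne_zero_iff.1 (right_ne_zero_of_mul hne)) w (Finset.mem_univ w)
  have key : ∀ g : G K,
      (∀ (w : InfinitePlace K) (i j : Fin 2),
        ‖((AS.infGL K w g : GL (Fin 2) ℂ) : Matrix (Fin 2) (Fin 2) ℂ) i j‖ ≤ ρ) →
      (∀ (v : HeightOneSpectrum (𝓞 K)) (i j : Fin 2),
        toCompl245 K v a * ((AS.finGL K v g : GL (Fin 2) (v.adicCompletion K)) :
          Matrix (Fin 2) (Fin 2) (v.adicCompletion K)) i j ∈ v.adicCompletionIntegers K) →
      (g : Matrix (Fin 2) (Fin 2) (Adl K)) ∈ boxMat245 K ρ a := by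
    intro g h1 h2 i j
    exact ⟨fun w => h1 w i j, mem_boxFin245 ha0 fun v => h2 v i j⟩
  have hloc := outsideUM_iff709.1 hO
  refine ⟨key h ?_ ?_, key h⁻¹ ?_ ?_⟩
  · intro w i j
    exact ((hρ' w _ (hFw w) i j).1).trans (hρ ⟨w, rfl⟩)
  · intro v i j
    by_cases hv : v ∈ P
    · exact (ha v hv _ (hf v hv) i j).1
    · exact mul_mem (toCompl245_mem_integers K v a)
        ((isIntGL_of_mem_locU245 (hloc v hv)) i j).1
  · intro w i j
    rw [map_inv]
    exact ((hρ' w _ (hFw w) i j).2).trans (hρ ⟨w, rfl⟩)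
  · intro v i j
    rw [map_inv]
    by_cases hv : v ∈ P
    · exact (ha v hv _ (hf v hv) i j).2
    · exact mul_mem (toCompl245_mem_integers K v a)
        ((isIntGL_of_mem_locU245 (hloc v hv)) i j).2

/-! ## The leaf -/

/-- **T3.18M.3 = M.3 `PureRegMC`.** -/
theorem pureRegMC709 (K : Type) [Field K] [NumberField K] : PureRegMC K := by
  intro 𝔫 h𝔫 P _ f₀ F hf₀ hR hF
  exact ⟨continuous_pureFnM709 h𝔫 P hf₀ (fun w => (hF w).cont),
    hasCompactSupport_pureFnM709 hR (fun w => (hF w).supp),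
    isBiInv_pureFnM709 hf₀ hF,
    fun _ hh => outsideUM_of_pureFnM_ne_zero709 hh⟩

end Fermat.Agent.LT.T3.M.H709

end

end
-- ===== PACK-END LT/T3/M/H709/PureRegM.lean

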