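import Mathlib
import Fermat.Agent.Pack.LT3.E19L3
import Fermat.Agent.Pack.LT3.E14L2
import Fermat.Agent.Pack.LT3.E14L3
import Fermat.Agent.Pack.LT3.E17L1
import Fermat.Agent.Pack.LT3.E14L0
import Fermat.Agent.Pack.LT3.E14L1
import Fermat.Agent.Pack.LT3.E17L2
import Fermat.Agent.Pack.LT3.E19L1
import Fermat.Agent.Pack.LT3.E19L2
import Fermat.Agent.Pack.LT2.E6L2
import Fermat.Agent.Pack.LT3.E11L2
import Fermat.Agent.Pack.LT2.E13L3
import Fermat.Agent.Pack.LT3.E17L3
import Fermat.Agent.Pack.LT2.E10L0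
import Fermat.Agent.Pack.LT3.E19L0
import Fermat.Agent.Pack.LT2.E13L2
import Fermat.Agent.Pack.LT3.E2L0
import Fermat.Agent.Pack.LT3.E3L1
import Fermat.Agent.Pack.LT3.E3L2
import Fermat.Agent.Pack.LT2.E3L1
import Fermat.Agent.Pack.LT2.E11L1
import Fermat.Agent.Pack.LT2.E7L3
import Fermat.Agent.Pack.LT2.E14L0
import Fermat.Agent.Pack.LT3.E8L3

set_option linter.all false

-- ===== PACK-BEGIN LT/T2/H291/AssemblyT19.lean
section











/-!
# T2.27 `LeafT07` — assembly with ONE open input (helper291)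

Nineteen of the twenty fields of `SubT291 K` are closed (registry rows 1387–1402, 1404–1409);
the only open input is `SubCommConvMeanT291 K` (row 1403, T2.27.21).
-/

namespace Fermat.Agent.LT.T2.H291

variable {K : Type} [Field K] [NumberField K]

/-- **T2.27.12**, closed (helper409 from the tools T2.27.31 of helper879 and T2.27.33 of
helper166). -/
theorem subSpherePresT_closed291 (K : Type) [Field K] [NumberField K] : SubSpherePresT291 K :=
  H409.subSpherePresT409 K H879.subS2RotT879 (H166.subTypeSU2T166 K)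

/-- **T2.27.18**, closed (helper378 from T2.27.12 and T2.27.33). -/
theorem subCommSphereSphereT_closed291 (K : Type) [Field K] [NumberField K] :
    SubCommSphereSphereT291 K :=
  H378.subCommSphereSphereT378 (subSpherePresT_closed291 K) (H166.subTypeSU2T166 K)

/-- `LeafT07 K` from the last open sub-leaf T2.27.21. -/
theorem leafT07_of_commConvMeanT291 (hCM : SubCommConvMeanT291 K) : LeafT07 K :=
  leafT07_of_restT291 (H944.subCommHeckeHeckeT944 K) (subSpherePresT_closed291 K)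
    (H271.subCirclePresT271 K) (H420.subMeanLinT420 K)
    (H899.subMeanBddT899 (subTranslT291 K)) (H899.subMeanAdjT899 (subTranslT291 K))
    (subCommSphereSphereT_closed291 K) hCM

end Fermat.Agent.LT.T2.H291

end
-- ===== PACK-END LT/T2/H291/AssemblyT19.lean

-- ===== PACK-BEGIN LT/T2/H354/PhaseG.lean
section





/-!
# Row LT, tower T2, leaf T2.26 (helper354): the global phase

`Q354 n g = ∏_w zp354 (ptW354 w g) (n w)`: a continuous function on `GL₂(𝔸_K)`, smooth at infinity,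
of absolute value `≤ 1`, with `Q (k₁ g k₂) = τ(k₁) τ(k₂) Q(g)` for `k₁, k₂` in the compact groups
at infinity (`n` = the exponents of the `K_∞`-type `τ`), invariant under the level group, and
`Q (g⁻¹) = conj (Q g)` where the determinants at the real places are positive.
-/

set_option autoImplicit false
set_option linter.unusedSectionVars false

open IsDedekindDomain NumberField Matrix
open scoped MatrixGroups Classical ContDiff

noncomputable section

namespace Fermat.Agent.LT.T2.H354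

open Fermat.Agent.LT.H556.A0 Fermat.Agent.LT.T8.H864 Fermat.Agent.LT.H51.MS4
  Fermat.Agent.LT.T2 Fermat.Agent.LT.T2.H907

variable {K : Type} [Field K] [NumberField K]

local notation "conj" => starRingEnd ℂ

/-! ## The local phases on `GL₂(𝔸_K)` -/

/-- The normalised phase at the infinite place `w`. -/
def ptW354 (w : InfinitePlace K) (g : G K) : ℂ :=
  if w.IsReal then ptR354 (infComp w g) else ptC354 (infComp w g)

/-- Unitary at every infinite place, of determinant one at the real places. -/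
def IsUInf354 (k : G K) : Prop :=
  (∀ w : InfinitePlace K, infComp w k * (infComp w k)ᴴ = 1) ∧
    ∀ w : InfinitePlace K, w.IsReal → (infComp w k).det = 1

theorem isUInf354_of_isArchCompact {w₀ : InfinitePlace K} {k : G K} (hk : IsArchCompact w₀ k) :
    IsUInf354 k :=
  (isStab907_of_isArchCompact (𝔫 := ⊥) hk).2

theorem isUInf354_of_inLevelGroup {𝔫 : Ideal (𝓞 K)} {u : G K} (hu : InLevelGroup 𝔫 u) :
    IsUInf354 u :=
  (isStab907_of_inLevelGroup hu).2

theorem Ploc354_one (w : InfinitePlace K) : Ploc354 w 1 = 1 := by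
  unfold Ploc354
  split_ifs
  · exact pA354_one
  · exact Matrix.det_one

theorem norm_Ploc354 {k : G K} (hk : IsUInf354 k) (w : InfinitePlace K) :
    ‖Ploc354 w (infComp w k)‖ = 1 := by
  unfold Ploc354
  split_ifs with hw
  · exact norm_pA354_of_isU (hk.1 w) (hk.2 w hw) (isRe354_infComp hw k)
  · exact norm_det_of_unitary907 (hk.1 w)

theorem ptW354_mul_right (w : InfinitePlace K) (g : G K) {k : G K} (hk : IsUInf354 k) :
    ptW354 w (g * k) = ptW354 w g * Ploc354 w (infComp w k) := by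
  unfold ptW354 Ploc354
  rw [infComp_mul]
  split_ifs with hw
  · exact ptR354_mul_of_isU _ (hk.1 w) (hk.2 w hw) (isRe354_infComp hw k)
  · exact ptC354_mul_of_isU _ (hk.1 w)

theorem ptW354_mul_left (w : InfinitePlace K) (g : G K) {k : G K} (hk : IsUInf354 k) :
    ptW354 w (k * g) = ptW354 w g * Ploc354 w (infComp w k) := by
  unfold ptW354 Ploc354
  rw [infComp_mul]
  split_ifs with hw
  · exact ptR354_of_isU_mul _ (hk.1 w) (hk.2 w hw) (isRe354_infComp hw k)
  · exact ptC354_of_isU_mul _ (hk.1 w)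

theorem ptW354_one (w : InfinitePlace K) : ptW354 w (1 : G K) = 1 := by
  unfold ptW354
  rw [infComp_one]
  split_ifs
  · exact ptR354_one
  · exact ptC354_one

theorem norm_ptW354_le (w : InfinitePlace K) (g : G K) : ‖ptW354 w g‖ ≤ 1 := by
  unfold ptW354
  split_ifs with hw
  · exact norm_ptR354_le (isRe354_infComp hw g)
  · exact norm_ptC354_le _

theorem ptW354_inv (w : InfinitePlace K) (g : G K)
    (hpos : w.IsReal → 0 < (infComp w g).det.re) : ptW354 w g⁻¹ = conj (ptW354 w g) := by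
  unfold ptW354
  split_ifs with hw
  · exact ptR354_inv (isRe354_infComp hw g) (infComp_mul_inv907 w g) (hpos hw)
  · exact ptC354_inv (infComp_mul_inv907 w g)

theorem frob907_infComp_pos (w : InfinitePlace K) (g : G K) : 0 < frob907 (infComp w g) :=
  frob907_pos_of_det (det_infComp_ne_zero907 w g)

theorem sqrt_frob_ne_zero354 (w : InfinitePlace K) (g : G K) :
    ((Real.sqrt (frob907 (infComp w g) / 2) : ℝ) : ℂ) ≠ 0 := by
  rw [Ne, Complex.ofReal_eq_zero]
  have := frob907_infComp_pos w g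
  exact (Real.sqrt_pos.2 (by positivity)).ne'

theorem frob_half_ne_zero354 (w : InfinitePlace K) (g : G K) :
    ((frob907 (infComp w g) / 2 : ℝ) : ℂ) ≠ 0 := by
  rw [Ne, Complex.ofReal_eq_zero]
  have := frob907_infComp_pos w g
  positivity

theorem continuous_ptW354 (w : InfinitePlace K) : Continuous (ptW354 (K := K) w) := by
  unfold ptW354
  split_ifs with hw
  · unfold ptR354
    refine Continuous.div ?_ ?_ fun g => sqrt_frob_ne_zero354 w g
    · unfold pA354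
      exact ((((continuous_infComp907 w 0 0).add (continuous_infComp907 w 1 1)).add
        (continuous_const.mul ((continuous_infComp907 w 1 0).sub
          (continuous_infComp907 w 0 1)))).div_const 2)
    · exact Complex.continuous_ofReal.comp
        (Real.continuous_sqrt.comp ((continuous_frob907 w).div_const 2))
  · unfold ptC354
    refine Continuous.div (continuous_det907 w) ?_ fun g => frob_half_ne_zero354 w g
    exact Complex.continuous_ofReal.comp ((continuous_frob907 w).div_const 2)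

theorem contDiff_div_ofReal354 {m : ℕ} {a : (Fin m → ℝ) → ℂ} {b : (Fin m → ℝ) → ℝ}
    (ha : ContDiff ℝ ∞ a) (hb : ContDiff ℝ ∞ b) (h0 : ∀ t, b t ≠ 0) :
    ContDiff ℝ ∞ (fun t => a t / ((b t : ℝ) : ℂ)) := by
  have e : (fun t => a t / ((b t : ℝ) : ℂ)) = fun t => a t * (((b t)⁻¹ : ℝ) : ℂ) := by
    funext t
    rw [div_eq_mul_inv, Complex.ofReal_inv]
  rw [e]
  exact ha.mul (Complex.ofRealCLM.contDiff.comp (hb.inv h0))

theorem contDiff_ptW354 {m : ℕ} {h : (Fin m → ℝ) → G K} (g : G K)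
    (hh : ∀ (w : InfinitePlace K) (i j : Fin 2), ContDiff ℝ ∞ (fun t => infComp w (h t) i j))
    (w : InfinitePlace K) : ContDiff ℝ ∞ (fun t => ptW354 w (g * h t)) := by
  unfold ptW354
  split_ifs with hw
  · unfold ptR354
    refine contDiff_div_ofReal354 ?_ ?_ fun t => ?_
    · unfold pA354
      exact ((((contDiff_infComp_mul907 g hh w 0 0).add (contDiff_infComp_mul907 g hh w 1 1)).add
        (contDiff_const.mul ((contDiff_infComp_mul907 g hh w 1 0).sub
          (contDiff_infComp_mul907 g hh w 0 1)))).div_const 2)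
    · refine ContDiff.sqrt ((contDiff_frob907 g hh w).div_const 2) fun t => ?_
      have := frob907_infComp_pos w (g * h t)
      positivity
    · have := frob907_infComp_pos w (g * h t)
      exact (Real.sqrt_pos.2 (by positivity)).ne'
  · unfold ptC354
    refine contDiff_div_ofReal354 (contDiff_det907 g hh w) ((contDiff_frob907 g hh w).div_const 2)
      fun t => ?_
    have := frob907_infComp_pos w (g * h t)
    positivity

/-! ## Powers -/

theorem continuous_zp354 (n : ℤ) : Continuous fun z : ℂ => zp354 z n := by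
  unfold zp354
  split_ifs
  · exact continuous_pow _
  · exact (Complex.continuous_conj).pow _

theorem contDiff_zp354 (n : ℤ) : ContDiff ℝ ∞ fun z : ℂ => zp354 z n := by
  unfold zp354
  split_ifs
  · exact contDiff_id.pow _
  · exact (Complex.conjCLE.contDiff).pow _

/-! ## The global phase -/

/-- THE PHASE. -/
def Q354 (n : InfinitePlace K → ℤ) (g : G K) : ℂ := ∏ w, zp354 (ptW354 w g) (n w)

/-- The character of `K_∞` with exponents `n`. -/
def chi354 (n : InfinitePlace K → ℤ) (k : G K) : ℂ := ∏ w, Ploc354 w (infComp w k) ^ n w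

theorem Q354_one (n : InfinitePlace K → ℤ) : Q354 n (1 : G K) = 1 := by
  unfold Q354
  refine Finset.prod_eq_one fun w _ => ?_
  rw [ptW354_one, zp354_one]

theorem norm_Q354_le (n : InfinitePlace K → ℤ) (g : G K) : ‖Q354 n g‖ ≤ 1 := by
  unfold Q354
  rw [norm_prod]
  exact Finset.prod_le_one (fun w _ => norm_nonneg _)
    fun w _ => norm_zp354_le (norm_ptW354_le w g) (n w)

theorem Q354_mul_right (n : InfinitePlace K → ℤ) (g : G K) {k : G K} (hk : IsUInf354 k) :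
    Q354 n (g * k) = Q354 n g * chi354 n k := by
  unfold Q354 chi354
  rw [← Finset.prod_mul_distrib]
  refine Finset.prod_congr rfl fun w _ => ?_
  rw [ptW354_mul_right w g hk, zp354_mul, zp354_of_norm_one (norm_Ploc354 hk w)]

theorem Q354_mul_left (n : InfinitePlace K → ℤ) (g : G K) {k : G K} (hk : IsUInf354 k) :
    Q354 n (k * g) = Q354 n g * chi354 n k := by
  unfold Q354 chi354
  rw [← Finset.prod_mul_distrib]
  refine Finset.prod_congr rfl fun w _ => ?_
  rw [ptW354_mul_left w g hk, zp354_mul, zp354_of_norm_one (norm_Ploc354 hk w)]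

theorem chi354_of_isArchCompact {τ : G K → ℂ} {n : InfinitePlace K → ℤ}
    (hn : ∀ (w : InfinitePlace K) (k : G K), IsArchCompact w k →
      τ k = Ploc354 w (infComp w k) ^ n w)
    {w₀ : InfinitePlace K} {k : G K} (hk : IsArchCompact w₀ k) : chi354 n k = τ k := by
  unfold chi354
  rw [Finset.prod_eq_single w₀, ← hn w₀ k hk]
  · intro w _ hw
    rw [infComp_eq_one_of_trivAtInf (hk.1.1 w hw), Ploc354_one, _root_.one_zpow]
  · intro h
    exact absurd (Finset.mem_univ _) h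

theorem chi354_of_inLevelGroup (n : InfinitePlace K → ℤ) {𝔫 : Ideal (𝓞 K)} {u : G K}
    (hu : InLevelGroup 𝔫 u) : chi354 n u = 1 := by
  unfold chi354
  refine Finset.prod_eq_one fun w _ => ?_
  rw [infComp_eq_one_of_trivAtInf (hu.1 w), Ploc354_one, _root_.one_zpow]

theorem Q354_inv (n : InfinitePlace K → ℤ) (g : G K)
    (hpos : ∀ w : InfinitePlace K, w.IsReal → 0 < (infComp w g).det.re) :
    Q354 n g⁻¹ = conj (Q354 n g) := by
  unfold Q354
  rw [map_prod]
  refine Finset.prod_congr rfl fun w _ => ?_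
  rw [ptW354_inv w g (hpos w), zp354_conj]

theorem continuous_Q354 (n : InfinitePlace K → ℤ) : Continuous (Q354 (K := K) n) := by
  unfold Q354
  exact continuous_finsetProd _ fun w _ => (continuous_zp354 (n w)).comp (continuous_ptW354 w)

theorem contDiff_Q354 (n : InfinitePlace K → ℤ) {m : ℕ} {h : (Fin m → ℝ) → G K} (g : G K)
    (hh : ∀ (w : InfinitePlace K) (i j : Fin 2), ContDiff ℝ ∞ (fun t => infComp w (h t) i j)) :
    ContDiff ℝ ∞ (fun t => Q354 n (g * h t)) := by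
  unfold Q354
  exact contDiff_prod fun w _ => (contDiff_zp354 (n w)).comp (contDiff_ptW354 g hh w)

/-- Positivity of the determinants at the real places where the defect is `< 1`. -/
theorem det_re_pos_of_defect354 {g : G K} (h : defect907 g < 1) {w : InfinitePlace K}
    (hw : w.IsReal) : 0 < (infComp w g).det.re := by
  have h1 := sig907_le_defect w g
  unfold sig907 at h1
  rw [if_pos hw] at h1
  have hd := dW907_pos w g
  have h2 : 0 < (infComp w g).det.re / dW907 w g := by linarith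
  by_contra hcon
  rw [not_lt] at hcon
  have := div_nonpos_of_nonpos_of_nonneg hcon hd.le
  linarith

end Fermat.Agent.LT.T2.H354

end

end
-- ===== PACK-END LT/T2/H354/PhaseG.lean

-- ===== PACK-BEGIN LT/T2/H465/USCore.lean
section







/-!
# Row LT, tower T2, leaf T2.23a = `LeafFDCore` (helper465): CLOSED

OFF-MAIN.  `leafFDCore465 K : LeafFDCore K` (= `H386.FDBound` for the core class `IsTestCore`:
no condition at `K_∞` on the test function), unconditional.

* `unifSmoothAt465`: the proof of `H437.unifSmooth_of_leaves437` (helper437, `USTop.lean`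
  sha256 134791e2) PER FUNCTION: that proof uses of `T2.IsTestFn 𝔫 f` exactly the three fields
  `cpt`, `smooth`, `level_right`; the text of the proof is the text of helper437, with these three
  hypotheses in place of the fields.
* `fdBoundAt_of_us511` (helper511, `FDAtPartial.lean`): `f` left `U(𝔫)`-invariant and
  `UnifSmoothAt511 f` give `FDBoundAt511 f`.
* inputs, byte-identical copies: `H8.fdCalcC437_h8`, `H187.levelNhdsC187`, `H793.cptC793`,
  `H729.contrC729`, `H988.conjAlgC988`.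
-/

set_option autoImplicit false
set_option linter.unusedSectionVars false

open IsDedekindDomain NumberField
open Fermat.Agent.LT.H556.A0 Fermat.Agent.LT.T1.H724 Fermat.Agent.LT.T2.H724
open Fermat.Agent.LT.T2.H386 Fermat.Agent.LT.T2.H511 Fermat.Agent.LT.T2
open Fermat.Agent.LT.T2.H437

noncomputable section

namespace Fermat.Agent.LT.T2.H465

variable {K : Type} [Field K] [NumberField K]

/-- **Uniform smoothness PER FUNCTION** (proof of helper437, `H437.unifSmooth_of_leaves437`):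
for a function with compact support, smooth at infinity and right invariant under `U(𝔫)`. -/
theorem unifSmoothAt_of_leaves465 (hFD : FDCalcC437) (hLN : LevelNhdsC437 K) (hCpt : CptC K)
    (𝔫 : Ideal (𝓞 K)) (h𝔫 : 𝔫 ≠ ⊥) (f : G K → ℂ) (hcpt : HasCompactSupport f)
    (hsmooth : IsSmoothAtInf f)
    (hlr : ∀ u : G K, InLevelGroup 𝔫 u → ∀ g : G K, f (g * u) = f g) :
    UnifSmoothAt511 f := by
  intro Ω hΩ R M
  obtain ⟨hC1, -, hC3, -⟩ := hCpt
  set r : ℝ := max 1 R with hr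
  have hr1 : (1 : ℝ) ≤ r := le_max_left _ _
  have hrR : R ≤ r := le_max_right _ _
  have hr0 : (0 : ℝ) ≤ r := zero_le_one.trans hr1
  -- the box and the compact set `W⁻¹ supp f`
  have hBox : IsCompact (box511 ({0} : Set (Adl K)) (M * r) 1) :=
    hC3 {0} isCompact_singleton (M * r) 1
  have hW : IsCompact (conjSet511 Ω (box511 ({0} : Set (Adl K)) (M * r) 1)) :=
    hC1 Ω hΩ _ hBox
  have hH₀ : IsCompact ((fun p : G K × G K => p.1⁻¹ * p.2) ''
      (conjSet511 Ω (box511 ({0} : Set (Adl K)) (M * r) 1) ×ˢ tsupport f)) :=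
    (hW.prod hcpt).image (continuous_fst.inv.mul continuous_snd)
  -- the coverings
  obtain ⟨TΩ, hTΩ⟩ := exists_cover437 hΩ (isOpen_nbInf437.mem_nhds one_mem_nbInf437)
  obtain ⟨TH, hTH⟩ := exists_cover437 hH₀
    (Filter.inter_mem (isOpen_nbInf437.mem_nhds one_mem_nbInf437) (hLN 𝔫 h𝔫))
  -- the constants of the charts
  have hB : ∀ ω₀ h₀ : G K, ∃ B : ℝ, 0 ≤ B ∧ ∀ x : Fin (nPar437 K) → ℝ, ‖x‖ ≤ r →
      ∀ ε : ℝ, 0 ≤ ε → ε ≤ 1 → ∀ ts : List (Fin (nPar437 K) → ℝ), ts.length = M →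
        (∀ t ∈ ts, ‖t‖ ≤ ε * r) →
        ‖rdiff437 ts (fun q => f (h₀ * famQ437 ω₀ h₀ q)) x‖ ≤ B * ε ^ M :=
    fun ω₀ h₀ => hFD _ _ (contDiff_chartFn437 hsmooth ω₀ h₀) M r
  choose B hB0 hB using hB
  have hsum0 : 0 ≤ ∑ ω₀ ∈ TΩ, ∑ h₀ ∈ TH, B ω₀ h₀ :=
    Finset.sum_nonneg fun _ _ => Finset.sum_nonneg fun _ _ => hB0 _ _
  refine ⟨∑ ω₀ ∈ TΩ, ∑ h₀ ∈ TH, B ω₀ h₀, hsum0, ?_⟩
  intro ω hω h ε hε hε1 τs hlen hτ
  have hτ' : ∀ τ ∈ τs, τ.2 = 0 ∧ ∀ w : InfinitePlace K, ‖τ.1 w‖ ≤ ε * r := fun τ hτm =>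
    ⟨(hτ τ hτm).1, fun w => ((hτ τ hτm).2 w).trans (mul_le_mul_of_nonneg_left hrR hε.le)⟩
  by_cases hh : h ∈ (fun p : G K × G K => p.1⁻¹ * p.2) ''
      (conjSet511 Ω (box511 ({0} : Set (Adl K)) (M * r) 1) ×ˢ tsupport f)
  · obtain ⟨ω₀, hω₀T, hω₀⟩ := hTΩ ω hω
    obtain ⟨h₀, hh₀T, hh₀⟩ := hTH h hh
    obtain ⟨X, hX1, hXe⟩ := exists_chart437 hω₀
    obtain ⟨X', hX'1, hX'e⟩ := exists_chart437 hh₀.1
    have key : ∀ y : Adl K, y.2 = 0 →
        f (ω⁻¹ * unip386 y * ω * h)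
          = f (h₀ * famQ437 ω₀ h₀ (pack437 X (coordInf437 y) X')) := by
      intro y hy
      have e := fam_rel437 ω₀ h₀ ω (h₀⁻¹ * h) X X' y hy hXe hX'e
      rw [mul_inv_cancel_left] at e
      rw [e, hlr _ (inLevelGroup_finPart437 hh₀.2)]
      simp only [famQ437, parX_pack437, parT_pack437, parY_pack437]
    rw [bdiff_transfer437 X X' τs (fun y => f (ω⁻¹ * unip386 y * ω * h))
      (fun q => f (h₀ * famQ437 ω₀ h₀ q)) key (fun τ hτm => (hτ τ hτm).1) 0 rfl]
    have hbase : ‖pack437 X (coordInf437 (0 : Adl K)) X'‖ ≤ r := by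
      refine norm_pack_le437 _ _ _ hr0 (fun w i j b => (hX1 w i j b).trans hr1) ?_
        (fun w i j b => (hX'1 w i j b).trans hr1)
      intro w b
      rw [coordInf_zero437, abs_zero]
      exact hr0
    have hsteps : ∀ t ∈ τs.map stepQ437, ‖t‖ ≤ ε * r := by
      intro t ht
      obtain ⟨τ, hτm, rfl⟩ := List.mem_map.mp ht
      have h0 : (0 : ℝ) ≤ ε * r := mul_nonneg hε.le hr0
      refine norm_pack_le437 _ _ _ h0 (fun _ _ _ _ => by rw [abs_zero]; exact h0) ?_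
        (fun _ _ _ _ => by rw [abs_zero]; exact h0)
      intro w b
      exact (abs_coordInf_le437 τ w b).trans ((hτ' τ hτm).2 w)
    calc ‖rdiff437 (τs.map stepQ437) (fun q => f (h₀ * famQ437 ω₀ h₀ q))
          (pack437 X (coordInf437 (0 : Adl K)) X')‖
        ≤ B ω₀ h₀ * ε ^ M :=
          hB ω₀ h₀ _ hbase ε hε.le hε1 _ (by rw [List.length_map, hlen]) hsteps
      _ ≤ (∑ ω₀ ∈ TΩ, ∑ h₀ ∈ TH, B ω₀ h₀) * ε ^ M := by
        refine mul_le_mul_of_nonneg_right ?_ (pow_nonneg hε.le M)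
        calc B ω₀ h₀ ≤ ∑ h₀ ∈ TH, B ω₀ h₀ :=
              Finset.single_le_sum (f := fun h₀ => B ω₀ h₀) (fun _ _ => hB0 _ _) hh₀T
          _ ≤ ∑ ω₀ ∈ TΩ, ∑ h₀ ∈ TH, B ω₀ h₀ :=
              Finset.single_le_sum (f := fun ω₀ => ∑ h₀ ∈ TH, B ω₀ h₀)
                (fun _ _ => Finset.sum_nonneg fun _ _ => hB0 _ _) hω₀T
  · have hz : bdiff511 τs (fun y => f (ω⁻¹ * unip386 y * ω * h)) 0 = 0 := by
      refine bdiff_vanish437 (ε * r) (mul_nonneg hε.le hr0) τs _ 0 hτ' ?_ 0 rfl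
        (fun w => ?_)
      · intro y hy hyc
        by_contra hne
        apply hh
        refine ⟨(ω⁻¹ * unip386 y * ω, ω⁻¹ * unip386 y * ω * h),
          ⟨?_, subset_tsupport f hne⟩, inv_mul_cancel_left _ _⟩
        refine ⟨ω, hω, y, ⟨fun w => ?_, 0, rfl, ?_⟩, rfl⟩
        · calc ‖y.1 w‖ ≤ 0 + τs.length * (ε * r) := hyc w
            _ ≤ M * r := by
              rw [hlen, zero_add]
              exact mul_le_mul_of_nonneg_left (mul_le_of_le_one_left hr0 hε1)
                (Nat.cast_nonneg M)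
        · rw [hy, mul_zero]
          rfl
      · have e : (0 : Adl K).1 w = 0 := rfl
        rw [e, norm_zero]
    rw [hz, norm_zero]
    exact mul_nonneg hsum0 (pow_nonneg hε.le M)

/-- Uniform smoothness for the core class. -/
theorem unifSmoothAt465 (K : Type) [Field K] [NumberField K] (𝔫 : Ideal (𝓞 K)) (h𝔫 : 𝔫 ≠ ⊥)
    (f : G K → ℂ) (hf : IsTestCore 𝔫 f) : UnifSmoothAt511 f :=
  unifSmoothAt_of_leaves465 Fermat.Agent.LT.T2.H8.fdCalcC437_h8
    (Fermat.Agent.LT.T2.H187.levelNhdsC187 K) (Fermat.Agent.LT.T2.H793.cptC793 K) 𝔫 h𝔫 f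
    hf.cpt hf.smooth hf.level_right

/-- **T2.23a `LeafFDCore`**, unconditional. -/
theorem leafFDCore465 (K : Type) [Field K] [NumberField K] : LeafFDCore K :=
  fun hT1 𝔫 h𝔫 f hf =>
    fdBoundAt_of_us511 K hT1 𝔫 h𝔫 f hf.level_left (unifSmoothAt465 K 𝔫 h𝔫 f hf)

/-- Type check against the frozen Prop of the cut. -/
example (K : Type) [Field K] [NumberField K] : Fermat.Agent.LT.T2.H465.LeafFDCore K :=
  leafFDCore465 K

end Fermat.Agent.LT.T2.H465

end

end
-- ===== PACK-END LT/T2/H465/USCore.lean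

-- ===== PACK-BEGIN LT/T3/M/H162/EKCoreB.lean
section



/-!
# Row LT, tower T3, station T3.18M, leaf M.1 `EKCoreC` (helper162), part B -- OFF-MAIN

The Fourier--Laplace transform of `Φ` (`ft_Phi162`):
`ftCrd Φ z₁ z₂ = J · ∏_{t ∈ S} (1 - ∏_i z_{t_i, i}^{e_i})`, and its non-vanishing.
-/

set_option autoImplicit false
set_option linter.unusedSectionVars false

open MeasureTheory Finset
open scoped Classical

noncomputable section

namespace Fermat.Agent.LT.T3.M.H162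

open Fermat.Agent.LT.T3.H732 Fermat.Agent.LT.T3.M

variable {ι₁ ι₂ : Type} [Fintype ι₁] [Fintype ι₂]

lemma Phi162_apply (e : ι₁ → ℕ) (ℓ : ι₂ → ℝ) (m : ι₁ → ℤ × ℤ) (x : ι₂ → ℝ × ℝ) :
    Phi162 e ℓ (m, x) = ∑ T : Finset (Sw162 ι₁ ι₂),
      ((-1) ^ T.card * (if m = (cT162 e ℓ T).1 then 1 else 0)) *
        ∏ w, B732 ((x - (cT162 e ℓ T).2) w) := by
  unfold Phi162 Phi1_162
  refine Finset.sum_congr rfl fun T _ => ?_
  simp only [Prod.fst_sub, Prod.snd_sub, sub_eq_zero, mul_assoc]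

lemma integral_Phi162 (e : ι₁ → ℕ) (ℓ : ι₂ → ℝ) (m : ι₁ → ℤ × ℤ) :
    ∫ x : ι₂ → ℝ × ℝ, Phi162 e ℓ (m, x) = ∑ T : Finset (Sw162 ι₁ ι₂),
      ((-1) ^ T.card * (if m = (cT162 e ℓ T).1 then 1 else 0)) * J732 ι₂ := by
  simp only [Phi162_apply]
  rw [integral_finsetSum]
  · refine Finset.sum_congr rfl fun T _ => ?_
    rw [integral_const_mul, integral_G732]
  · intro T _
    exact (integrable_G732 _).const_mul _

/-- The character `m ↦ ∏_i z₁ᵢ^{m_{i,1}} z₂ᵢ^{m_{i,2}}`. -/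
def chi162 (z₁ z₂ : ι₁ → ℂ) (m : ι₁ → ℤ × ℤ) : ℂ := ∏ i, (z₁ i ^ (m i).1 * z₂ i ^ (m i).2)

lemma chi162_zero (z₁ z₂ : ι₁ → ℂ) : chi162 z₁ z₂ 0 = 1 := by simp [chi162]

lemma chi162_add {z₁ z₂ : ι₁ → ℂ} (h₁ : ∀ i, z₁ i ≠ 0) (h₂ : ∀ i, z₂ i ≠ 0)
    (m m' : ι₁ → ℤ × ℤ) :
    chi162 z₁ z₂ (m + m') = chi162 z₁ z₂ m * chi162 z₁ z₂ m' := by
  unfold chi162
  rw [← Finset.prod_mul_distrib]
  refine Finset.prod_congr rfl fun i _ => ?_
  simp only [Pi.add_apply, Prod.fst_add, Prod.snd_add, zpow_add₀ (h₁ i), zpow_add₀ (h₂ i)]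
  ring

lemma chi162_sum {z₁ z₂ : ι₁ → ℂ} (h₁ : ∀ i, z₁ i ≠ 0) (h₂ : ∀ i, z₂ i ≠ 0) {α : Type}
    (T : Finset α) (f : α → ι₁ → ℤ × ℤ) :
    chi162 z₁ z₂ (∑ t ∈ T, f t) = ∏ t ∈ T, chi162 z₁ z₂ (f t) := by
  induction T using Finset.induction_on with
  | empty => simp [chi162_zero]
  | insert a T ha ih => rw [Finset.sum_insert ha, Finset.prod_insert ha, chi162_add h₁ h₂, ih]

/-- The Satake parameters selected by `t`. -/
def zsel162 (z₁ z₂ : ι₁ → ℂ) (t : Sw162 ι₁ ι₂) (i : ι₁) : ℂ := bif t.1 i then z₂ i else z₁ i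

lemma chi162_act (e : ι₁ → ℕ) (ℓ : ι₂ → ℝ) (z₁ z₂ : ι₁ → ℂ) (t : Sw162 ι₁ ι₂) :
    chi162 z₁ z₂ (act162 t (c0 e ℓ)).1 = ∏ i, zsel162 z₁ z₂ t i ^ e i := by
  unfold chi162
  refine Finset.prod_congr rfl fun i _ => ?_
  rw [act162_fst]
  unfold zsel162
  cases h : t.1 i <;> simp [c0]

lemma chi162_cT {z₁ z₂ : ι₁ → ℂ} (h₁ : ∀ i, z₁ i ≠ 0) (h₂ : ∀ i, z₂ i ≠ 0) (e : ι₁ → ℕ)
    (ℓ : ι₂ → ℝ) (T : Finset (Sw162 ι₁ ι₂)) :
    chi162 z₁ z₂ (cT162 e ℓ T).1 = ∏ t ∈ T, ∏ i, zsel162 z₁ z₂ t i ^ e i := by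
  unfold cT162
  rw [Prod.fst_sum, chi162_sum h₁ h₂]
  refine Finset.prod_congr rfl fun t _ => ?_
  exact chi162_act e ℓ z₁ z₂ t

/-- **The transform of `Φ`**. -/
theorem ft_Phi162 (e : ι₁ → ℕ) (ℓ : ι₂ → ℝ) {z₁ z₂ : ι₁ → ℂ} (h₁ : ∀ i, z₁ i ≠ 0)
    (h₂ : ∀ i, z₂ i ≠ 0) :
    ftCrd (Phi162 e ℓ) z₁ z₂
      = J732 ι₂ * ∏ t : Sw162 ι₁ ι₂, (1 - ∏ i, zsel162 z₁ z₂ t i ^ e i) := by
  unfold ftCrd
  have hrw : ∀ m : ι₁ → ℤ × ℤ,
      (∫ x : ι₂ → ℝ × ℝ, Phi162 e ℓ (m, x)) * ∏ i, (z₁ i ^ (m i).1 * z₂ i ^ (m i).2)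
      = ∑ T : Finset (Sw162 ι₁ ι₂),
          (if m = (cT162 e ℓ T).1 then ((-1) ^ T.card * J732 ι₂) * chi162 z₁ z₂ m else 0) := by
    intro m
    rw [integral_Phi162, Finset.sum_mul]
    refine Finset.sum_congr rfl fun T _ => ?_
    by_cases hm : m = (cT162 e ℓ T).1
    · simp only [if_pos hm, mul_one, chi162]
    · simp only [if_neg hm, mul_zero, zero_mul]
  simp only [hrw]
  rw [finsum_sum_comm]
  · have hsingle : ∀ T : Finset (Sw162 ι₁ ι₂),
        (∑ᶠ m : ι₁ → ℤ × ℤ, (if m = (cT162 e ℓ T).1 then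
          ((-1) ^ T.card * J732 ι₂) * chi162 z₁ z₂ m else 0))
        = ((-1) ^ T.card * J732 ι₂) * chi162 z₁ z₂ (cT162 e ℓ T).1 := by
      intro T
      rw [finsum_eq_single _ (cT162 e ℓ T).1]
      · simp
      · intro m hm
        simp [hm]
    simp only [hsingle]
    have hprod := Finset.prod_sub (fun _ : Sw162 ι₁ ι₂ => (1 : ℂ))
      (fun t : Sw162 ι₁ ι₂ => ∏ i, zsel162 z₁ z₂ t i ^ e i) Finset.univ
    rw [hprod, Finset.powerset_univ, Finset.mul_sum]
    refine Finset.sum_congr rfl fun T _ => ?_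
    rw [chi162_cT h₁ h₂]
    simp only [Finset.prod_const_one, mul_one]
    ring
  · intro T _
    refine Set.Finite.subset (Set.finite_singleton (cT162 e ℓ T).1) ?_
    intro m hm
    by_contra hne
    exact hm (by simp [show m ≠ (cT162 e ℓ T).1 from hne])

/-- **Non-vanishing of the transform.** -/
theorem ft_Phi162_ne_zero (e : ι₁ → ℕ) (ℓ : ι₂ → ℝ) {z₁ z₂ : ι₁ → ℂ} (h₁ : ∀ i, z₁ i ≠ 0)
    (h₂ : ∀ i, z₂ i ≠ 0)
    (hz : ∀ z : ι₁ → ℂ, (∀ i, z i = z₁ i ∨ z i = z₂ i) → ∏ i, z i ^ e i ≠ 1) :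
    ftCrd (Phi162 e ℓ) z₁ z₂ ≠ 0 := by
  rw [ft_Phi162 e ℓ h₁ h₂]
  refine mul_ne_zero J732_ne_zero (Finset.prod_ne_zero_iff.mpr fun t _ => ?_)
  refine sub_ne_zero.mpr (Ne.symm (hz _ fun i => ?_))
  unfold zsel162
  cases t.1 i
  · exact Or.inl rfl
  · exact Or.inr rfl

end Fermat.Agent.LT.T3.M.H162

end

end
-- ===== PACK-END LT/T3/M/H162/EKCoreB.lean

-- ===== PACK-BEGIN LT/T3/M/H474/ROpMeanM.lean
section





/-!
# Row LT, tower T3, station T3.18M, leaf G.2 `ROpMeanMC` (helper474, SPARE, OFF-MAIN)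

`rOpMeanMC474 (K) : M.ROpMeanMC K` = the frozen Prop of `LT/T3/M/GenSpec.lean`
(helper14@a82eb8eb3, sha256 3b64610c), VERBATIM, unconditional.

Same proof as `rOpMC474` (induction on `P`, `κ₁` = the constant of `pushforward_haar57`), with
the lemmas of helper57 on `IsSph0Level` / `ActsBy` re-run for `IsMeanLevel` / `ActsByMean`:
`mean_eq_of_inU0474`, `isLocMean_of474`, `isLocEigen_ofMean474`, `integral_pureOneMean474`.
-/

set_option autoImplicit false
set_option linter.style.haveILetI false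
set_option linter.unusedSectionVars false

open IsDedekindDomain NumberField Topology MeasureTheory
open Fermat.Agent.LT.H556.A0
open Fermat.Agent.LT.T1 Fermat.Agent.LT.T1.H724 Fermat.Agent.LT.T1.H793
open Fermat.Agent.LT.T3
open Fermat.Agent.LT.T3.H57
open scoped ENNReal

noncomputable section

namespace Fermat.Agent.LT.T3.M.H474

variable {K : Type} [Field K] [NumberField K]

section Inf

variable (hK : ∀ w : InfinitePlace K, w.IsComplex)

/-- `φ(y x) = φ(y ι(π x))` on `U₀`. -/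
theorem mean_eq_of_inU0474 {n : ℕ} (e : InfinitePlace K ≃ Fin n) (𝔫 : Ideal (𝓞 K))
    (m : InfinitePlace K → ℝ → ℂ) (φ : G K → ℂ) (hφ : M.IsMeanLevel K 𝔫 m φ) (y x : G K)
    (hx : InU057 𝔫 x) :
    φ (y * x) = φ (y * embFin57 hK e (piInf57 e x)) := by
  have hu := inLevelGroup_of57 hK 𝔫 x hx
  rw [embFin_piInf57]
  have := hφ.level_inv _ hu (y * infEmb57 hK (fun w => AS.infGL K w x))
  rw [mul_assoc, mul_inv_cancel_left] at this
  exact this

/-- `s ↦ φ(y ι_w(s))` is `IsLocMean (m w)` for `φ` of `IsMeanLevel`. -/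
theorem isLocMean_of474 (𝔫 : Ideal (𝓞 K)) (m : InfinitePlace K → ℝ → ℂ) (φ : G K → ℂ)
    (hφ : M.IsMeanLevel K 𝔫 m φ) (y : G K) (w : InfinitePlace K) :
    M.IsLocMean (m w) (fun s : GL (Fin 2) ℂ => φ (y * infEmbAt57 hK w s)) := by
  refine ⟨?_, ?_, ?_, ?_⟩
  · exact hφ.cont.comp (continuous_const.mul (continuous_infEmbAt57 hK w))
  · intro k y' hk
    rw [map_mul, ← mul_assoc]
    refine hφ.arch_compact w _ ⟨isLocalAtInf_infEmbAt57 hK w k, ?_, ?_⟩ _
    · rw [infComp_infEmbAt57]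
      exact hk
    · intro hr
      exact absurd (hK w) (InfinitePlace.not_isComplex_iff_isReal.2 hr)
  · intro z r hr hz y'
    rw [map_mul, ← mul_assoc]
    refine hφ.arch_scalar w _ ⟨isLocalAtInf_infEmbAt57 hK w z, r, hr, ?_⟩ _
    rw [infComp_infEmbAt57]
    exact hz
  · intro d hd Y hY y'
    have h := hφ.mean w d hd (fun α β => infEmbAt57 hK w (Y α β))
      (fun α β => ⟨isLocalAtInf_infEmbAt57 hK w _, by rw [infComp_infEmbAt57]; exact hY α β⟩)
      (y * infEmbAt57 hK w y')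
    simp only [map_mul, ← mul_assoc]
    exact h

end Inf

/-- `y ↦ φ(g ι₀(y))` is `AS.IsLocEigen` for `φ` of `IsMeanLevel`, Hecke-eigen at `v₀ ∤ 𝔫`. -/
theorem isLocEigen_ofMean474 (𝔫 : Ideal (𝓞 K)) (v₀ : HeightOneSpectrum (𝓞 K))
    (hv₀ : ¬ v₀.asIdeal ∣ 𝔫) (m : InfinitePlace K → ℝ → ℂ) (φ : G K → ℂ)
    (hφ : M.IsMeanLevel K 𝔫 m φ) (a b : ℂ)
    (he : IsHeckeEigenAt φ v₀ a b) (g : G K) :
    AS.IsLocEigen v₀ (fun y : GL (Fin 2) (v₀.adicCompletion K) => φ (g * finEmb57 v₀ y)) a b := by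
  classical
  refine ⟨?_, ?_, ?_⟩
  · intro k y hk
    rw [map_mul, ← mul_assoc]
    exact hφ.level_inv _ (inLevelGroup_finEmb57 𝔫 v₀ hv₀ k hk) _
  · intro H hH y
    have hsys : IsHeckeCosetSystem v₀ (H.image (finEmb57 (K := K) v₀)) := by
      refine ⟨?_, ?_, ?_⟩
      · rw [Finset.card_image_of_injective _ (finEmb_injective57 v₀)]
        exact hH.1
      · intro h' hh'
        obtain ⟨h, hh, rfl⟩ := Finset.mem_image.1 hh'
        refine ⟨isLocalAtFin_finEmb57 v₀ h, ?_, ?_⟩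
        · intro i j
          rw [finComp_finEmb57]
          exact (hH.2.1 h hh).1 i j
        · rw [finComp_finEmb57]
          exact (hH.2.1 h hh).2
      · intro h₁ hh₁ h₂ hh₂ hne hint
        obtain ⟨a₁, ha₁, rfl⟩ := Finset.mem_image.1 hh₁
        obtain ⟨a₂, ha₂, rfl⟩ := Finset.mem_image.1 hh₂
        have hne' : a₁ ≠ a₂ := fun h => hne (by rw [h])
        refine hH.2.2 a₁ ha₁ a₂ ha₂ hne' fun i j => ?_
        have := hint i j
        rwa [← map_inv, ← map_mul, finComp_finEmb57] at this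
    have := he.1 _ hsys (g * finEmb57 v₀ y)
    rw [Finset.sum_image (fun x _ y _ hxy => finEmb_injective57 v₀ hxy)] at this
    rw [← this]
    refine Finset.sum_congr rfl fun h _ => ?_
    rw [map_mul, ← mul_assoc]
  · intro z c hc hz y
    rw [map_mul, ← mul_assoc]
    refine he.2 _ ⟨isLocalAtFin_finEmb57 v₀ z, c, hc, ?_⟩ _
    rw [finComp_finEmb57]
    exact hz

section Int

variable (hK : ∀ w : InfinitePlace K, w.IsComplex)
variable [MeasurableSpace (G K)] [BorelSpace (G K)]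

include hK in
/-- The integral of `φ(y ·) f¹` over `GL₂(𝔸_K)`, general archimedean parameter. -/
theorem integral_pureOneMean474 {n : ℕ} (e : InfinitePlace K ≃ Fin n) (𝔫 : Ideal (𝓞 K))
    (h𝔫 : 𝔫 ≠ ⊥) [MeasurableSpace (GL (Fin 2) ℂ)] [BorelSpace (GL (Fin 2) ℂ)]
    (μ : Measure (G K)) (μc : Measure (GL (Fin 2) ℂ)) [μc.IsHaarMeasure] (c : ℝ)
    (hc : ∀ f : (Fin n → GL (Fin 2) ℂ) → ℂ, Continuous f → HasCompactSupport f →
      IntegrableOn (fun x => f (piInf57 e x)) {x : G K | InU057 𝔫 x} μ ∧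
      ∫ x in {x : G K | InU057 𝔫 x}, f (piInf57 e x) ∂μ
        = c • ∫ t, f t ∂(Measure.pi fun _ : Fin n => μc))
    (F : InfinitePlace K → GL (Fin 2) ℂ → ℂ) (hF : ∀ w, AS.IsCplxTest (F w))
    (C : InfinitePlace K → ℂ) (m : InfinitePlace K → ℝ → ℂ)
    (hC : ∀ w, M.ActsByMean μc (F w) (m w) (C w))
    (φ : G K → ℂ) (hφ : M.IsMeanLevel K 𝔫 m φ) (y : G K) :
    Integrable (fun x => φ (y * x) * pureOne57 𝔫 F x) μ ∧
      ∫ x, φ (y * x) * pureOne57 𝔫 F x ∂μ = (c : ℂ) * (∏ w, C w) * φ y := by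
  classical
  haveI := secondCountable_GL2C57
  haveI := locallyCompact_GL2C57
  have hUm : MeasurableSet {x : G K | InU057 𝔫 x} := (isOpen_inU057 𝔫 h𝔫).measurableSet
  obtain ⟨Φ, hΦ⟩ : ∃ Φ : (Fin n → GL (Fin 2) ℂ) → ℂ, Φ = fun t => φ (y * embFin57 hK e t) :=
    ⟨_, rfl⟩
  have hΦc : Continuous Φ := by
    rw [hΦ]
    exact hφ.cont.comp (continuous_const.mul (continuous_embFin57 hK e))
  obtain ⟨Q, hQ⟩ : ∃ Q : (Fin n → GL (Fin 2) ℂ) → ℂ,
      Q = fun t => Φ t * ∏ i, F (e.symm i) (t i) := ⟨_, rfl⟩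
  have hQc : Continuous Q := by
    rw [hQ]
    exact hΦc.mul (continuous_finsetProd _ fun i _ => (hF _).cont.comp (continuous_apply i))
  have hQs : HasCompactSupport Q := by
    rw [hQ]
    exact hasCompactSupport_mul_prod57 n Φ (fun i => F (e.symm i)) (fun i => (hF _).supp)
  obtain ⟨hint, hval⟩ := hc Q hQc hQs
  have hfun : (fun x => φ (y * x) * pureOne57 𝔫 F x)
      = Set.indicator {x : G K | InU057 𝔫 x} (fun x => Q (piInf57 e x)) := by
    funext x
    by_cases hx : InU057 𝔫 x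
    · rw [Set.indicator_of_mem (show x ∈ {x : G K | InU057 𝔫 x} from hx)]
      unfold pureOne57
      rw [if_pos hx, hQ, hΦ]
      simp only
      rw [← mean_eq_of_inU0474 hK e 𝔫 m φ hφ y x hx]
      congr 1
      exact (Equiv.prod_comp e.symm (fun w => F w (AS.infGL K w x))).symm
    · rw [Set.indicator_of_notMem (show x ∉ {x : G K | InU057 𝔫 x} from hx)]
      unfold pureOne57
      rw [if_neg hx, mul_zero]
  rw [hfun]
  refine ⟨(integrable_indicator_iff hUm).2 hint, ?_⟩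
  rw [integral_indicator hUm, hval]
  have hpi := integral_pi_eigen57 μc n Φ hΦc (fun i => F (e.symm i)) (fun i => (hF _).cont)
    (fun i => (hF _).supp) (fun i => C (e.symm i)) ?_
  · have hQint : ∫ t, Q t ∂(Measure.pi fun _ : Fin n => μc)
        = ∫ t, Φ t * ∏ i, F (e.symm i) (t i) ∂(Measure.pi fun _ : Fin n => μc) := by rw [hQ]
    rw [hQint, hpi, Complex.real_smul, Equiv.prod_comp e.symm C]
    have h1 : Φ 1 = φ y := by rw [hΦ]; simp
    rw [h1]
    ring
  · intro i t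
    have hΨ := isLocMean_of474 hK 𝔫 m φ hφ (y * embFin57 hK e t) (e.symm i)
    have hact := hC (e.symm i) _ hΨ 1
    simp only [one_mul, map_one, mul_one] at hact
    have hupd : ∀ s : GL (Fin 2) ℂ, Function.update t i (t i * s) = t * Pi.mulSingle i s := by
      intro s
      funext j
      by_cases hj : j = i
      · subst hj
        simp
      · simp [Function.update_of_ne hj, Pi.mulSingle_eq_of_ne hj]
    have hΦs : ∀ s : GL (Fin 2) ℂ, Φ (Function.update t i (t i * s))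
        = φ (y * embFin57 hK e t * infEmbAt57 hK (e.symm i) s) := by
      intro s
      rw [hΦ]
      simp only
      rw [hupd, map_mul, embFin_mulSingle57, mul_assoc]
    simp_rw [hΦs]
    rw [hact, hΦ]

end Int

/-- **G.2 `ROpMeanMC`, unconditional.** -/
theorem rOpMeanMC474 (K : Type) [Field K] [NumberField K] : M.ROpMeanMC K := by
  classical
  letI : MeasurableSpace (G K) := borel (G K)
  haveI : BorelSpace (G K) := ⟨rfl⟩
  letI : MeasurableSpace (GL (Fin 2) ℂ) := borel (GL (Fin 2) ℂ)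
  haveI : BorelSpace (GL (Fin 2) ℂ) := ⟨rfl⟩
  haveI := secondCountable_GL2C57
  haveI := locallyCompact_GL2C57
  intro hK μ hμ μc hμc 𝔫 h𝔫 P hP
  haveI := hμ
  haveI := hμc
  obtain ⟨n, ⟨e⟩⟩ : ∃ n, Nonempty (InfinitePlace K ≃ Fin n) := ⟨_, ⟨Fintype.equivFin _⟩⟩
  obtain ⟨c, hc0, hc⟩ := pushforward_haar57 μ (Measure.pi fun _ : Fin n => μc)
    {x : G K | InU057 𝔫 x} (isOpen_inU057 𝔫 h𝔫) (piInf57 e) (continuous_piInf57 e)
    (embFin57 hK e) (piInf_embFin57 hK e) (fun t x hx => inU0_embFin_mul57 hK e 𝔫 t x hx)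
    (inU0_one57 𝔫) (fun C hC => measure_lt_top57 hK e 𝔫 μ C hC)
  refine ⟨(c : ℂ), by exact_mod_cast hc0.ne', ?_⟩
  intro A C m f₀ F hf₀ hRex hA hF hC φ hφ a b z₁ z₂ he hab hb hb0 g
  have hB := fun y => integral_pureOneMean474 hK e 𝔫 h𝔫 μ μc c hc F hF C m hC φ hφ y
  have key : ∀ Q : Finset (HeightOneSpectrum (𝓞 K)), Q ⊆ P → ∀ y : G K,
      Integrable (fun x => φ (y * x) * M.pureFnM K 𝔫 Q f₀ F x) μ ∧
        ∫ x, φ (y * x) * M.pureFnM K 𝔫 Q f₀ F x ∂μ
          = (c : ℂ) * (∏ v ∈ Q, AS.laurent (A v) (z₁ v) (z₂ v)) * (∏ w, C w) * φ y := by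
    intro Q
    induction Q using Finset.induction_on with
    | empty =>
      intro _ y
      have hfun : (fun x => φ (y * x) * M.pureFnM K 𝔫 ∅ f₀ F x)
          = fun x => φ (y * x) * pureOne57 𝔫 F x := by
        funext x
        rw [pureFnM_empty474]
      rw [hfun, Finset.prod_empty, mul_one]
      exact hB y
    | insert v₀ Q hv₀Q ih =>
      intro hsub y
      have hv₀P : v₀ ∈ P := hsub (Finset.mem_insert_self v₀ Q)
      have hQP : Q ⊆ P := fun v hv => hsub (Finset.mem_insert_of_mem hv)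
      have hv₀ : ¬ v₀.asIdeal ∣ 𝔫 := hP v₀ hv₀P
      obtain ⟨R, hR⟩ := hRex v₀ hv₀P
      have ihQ := ih hQP
      have hsum : ∀ x, φ (y * x) * M.pureFnM K 𝔫 (insert v₀ Q) f₀ F x
          = ∑ h ∈ R, f₀ v₀ h
              * (φ (y * x) * M.pureFnM K 𝔫 Q f₀ F ((finEmb57 v₀ h)⁻¹ * x)) := by
        intro x
        rw [pureFnM_insert474 𝔫 Q v₀ hv₀Q hv₀ f₀ F (hf₀ v₀ hv₀P) R hR x, Finset.mul_sum]
        exact Finset.sum_congr rfl fun h _ => by ring
      have hterm_int : ∀ h : GL (Fin 2) (v₀.adicCompletion K),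
          Integrable (fun x => φ (y * x)
            * M.pureFnM K 𝔫 Q f₀ F ((finEmb57 v₀ h)⁻¹ * x)) μ := by
        intro h
        have := ((ihQ (y * finEmb57 v₀ h)).1).comp_mul_left (finEmb57 v₀ h)⁻¹
        refine this.congr (Filter.Eventually.of_forall fun x => ?_)
        simp only [mul_assoc, mul_inv_cancel_left]
      have hterm : ∀ h : GL (Fin 2) (v₀.adicCompletion K),
          ∫ x, φ (y * x) * M.pureFnM K 𝔫 Q f₀ F ((finEmb57 v₀ h)⁻¹ * x) ∂μ
            = (c : ℂ) * (∏ v ∈ Q, AS.laurent (A v) (z₁ v) (z₂ v)) * (∏ w, C w)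
                * φ (y * finEmb57 v₀ h) := by
        intro h
        rw [← (ihQ (y * finEmb57 v₀ h)).2,
          ← integral_mul_left_eq_self
            (fun x => φ (y * finEmb57 v₀ h * x) * M.pureFnM K 𝔫 Q f₀ F x) (finEmb57 v₀ h)⁻¹]
        refine integral_congr_ae (Filter.Eventually.of_forall fun x => ?_)
        simp only [mul_assoc, mul_inv_cancel_left]
      have hfun : (fun x => φ (y * x) * M.pureFnM K 𝔫 (insert v₀ Q) f₀ F x)
          = fun x => ∑ h ∈ R, f₀ v₀ h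
              * (φ (y * x) * M.pureFnM K 𝔫 Q f₀ F ((finEmb57 v₀ h)⁻¹ * x)) := by
        funext x
        exact hsum x
      rw [hfun]
      refine ⟨integrable_finsetSum _ fun h _ => (hterm_int h).const_mul _, ?_⟩
      rw [integral_finsetSum _ (fun h _ => (hterm_int h).const_mul _)]
      simp_rw [integral_const_mul, hterm]
      have hS := hA v₀ hv₀P (fun u => φ (y * finEmb57 v₀ u)) (a v₀) (b v₀) (z₁ v₀) (z₂ v₀)
        (isLocEigen_ofMean474 𝔫 v₀ hv₀ m φ hφ (a v₀) (b v₀) (he v₀ hv₀P) y) (hab v₀ hv₀P)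
        (hb v₀ hv₀P) (hb0 v₀ hv₀P) R hR 1
      simp only [one_mul, map_one, mul_one] at hS
      rw [Finset.prod_insert hv₀Q]
      calc ∑ h ∈ R, f₀ v₀ h * ((c : ℂ) * (∏ v ∈ Q, AS.laurent (A v) (z₁ v) (z₂ v))
              * (∏ w, C w) * φ (y * finEmb57 v₀ h))
          = (c : ℂ) * (∏ v ∈ Q, AS.laurent (A v) (z₁ v) (z₂ v)) * (∏ w, C w)
              * ∑ h ∈ R, f₀ v₀ h * φ (y * finEmb57 v₀ h) := by
            rw [Finset.mul_sum]
            exact Finset.sum_congr rfl fun h _ => by ring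
        _ = (c : ℂ) * (AS.laurent (A v₀) (z₁ v₀) (z₂ v₀)
              * ∏ v ∈ Q, AS.laurent (A v) (z₁ v) (z₂ v)) * (∏ w, C w) * φ y := by
            rw [hS]
            ring
  unfold Rop
  exact (key P (Finset.Subset.refl P) g).2

example (K : Type) [Field K] [NumberField K] : M.ROpMeanMC K := rOpMeanMC474 K

end Fermat.Agent.LT.T3.M.H474

end

end
-- ===== PACK-END LT/T3/M/H474/ROpMeanM.lean

-- ===== PACK-BEGIN LT/T3/R/Spec.lean
section




/-!
# Row LT, tower T3, station T3.18R (architect helper14): Eisenstein-killing test functions at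
# REAL places, with `K_∞`-TYPES (weights `0, ±1`) -- THE CUT

OFF-MAIN.  Definitions and frozen Props only (tops: `R/Top*.lean`).  No hole, no opaque
constant, nothing assumed.  ADDITIVE: the closed tower T3 and the closed station T3.18M
(`origin/helper14@e703b3dd4`) are unchanged and imported as they are.

## Why (request of helper797, note #17441 (2); the quadratic step `F/ℚ`)

The trace identity over `ℚ` is used twice, for the `K_∞`-types `τ = 1` and `τ =` weight `±1`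
(`T5/Spec.lean` v4, `T6/SpecArch.lean`).  It needs Eisenstein-killing test functions over `ℚ`:
`T5.IsTestFn 𝔫 τ f`, `T5.IsEK μ f`, `T5.IsEK μ (T5.adjointFn f)`, for a datum
`(P, e, a₀)`, `(a₀) = ∏_{v ∈ P} 𝔭_v^{e_v}`, `a₀ ≡ 1 mod 𝔫`, `a₀ > 0` (over `ℚ`: `a₀ = pⁿ`).

## Frame

* `K` TOTALLY REAL (`hR : ∀ w, w.IsReal`; `ℚ` is the case of interest).  The component of
  `g ∈ GL₂(𝔸_K)` at `w` is `reGL K w (hR w) g ∈ GL₂(ℝ)`.
* weights `n : InfinitePlace K → ℤ`, `n w ∈ {0, 1, -1}` (`IsWt`); the type is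
  `typeR K hR n k = ∏_w T6.wtChar (n w) (k_w)` (`T6.wtChar n (rotation of angle θ) = e^{inθ}`).
* local test functions at a real place: `T6.IsArchTestR n F` (helper22, `T6/SpecArch.lean`,
  VERBATIM: continuous, compact support, smooth, supported in `det > 0`,
  `F(k g) = F(g k) = (wtChar n k)⁻¹ F(g)` for `k ∈ SO(2)`).  These are the functions which the
  archimedean matching `T6.ArchMatchC` delivers.
* real `N`-integral (Lebesgue measure of `ℝ`), for `c₁, c₂ > 0`: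
  `∫ F [[c₁, x], [0, c₂]] dx = √(c₁ c₂) β(log c₁, log c₂)` (`HasAbelNR`; the module of `ℝ` is
  `|·|`, so `√(c₁ c₂)` replaces `|c₁| |c₂|` of the complex place).  For `c₁, c₂ < 0` the
  integral is `(-1)ⁿ` times the value at `(|c₁|, |c₂|)` (`-1 ∈ SO(2)`), for `c₁ c₂ < 0` it is `0`
  (`det < 0`): `sgnR`.  Since `α > 0` at every real place the sign does not depend on `j`.
* the coordinates, the pure tensors on the coordinate group, `EKCoreC`, `FtPureC`, `FrameM`,
  `OutsideUM`, `IsSuppAtM`, `GoodParamM` are those of `M/Spec.lean` (station T3.18M), used as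
  they are; so are the closed leaves N.1 `IwasawaFormC`, N.4 `AffineC`, M.6 `OutsideCosetMC`,
  M.8 `LocValFinMC`, `AS.SatakeLocC`, `EKKillC`, `EKStarC`, `InScalarUnifC`, `InAddHaarC`
  (none of them mentions the infinite places).
* THE ACTION is stated for an ABSTRACT LOCAL CLASS `𝒞 w ⊆ (GL₂(ℝ) → ℂ)` at each real place on
  which the test functions of weight `n w` act by scalars (`IsScalarClassR`), so that the station
  does not fix the eigen-vocabulary of the consumer; the concrete class of the joint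
  eigenfunctions of the circle means (`locClassR n m`, VERBATIM the hypotheses of
  `T6.ArchClassC`) is such a class: leaf R.2.

## The leaves

| leaf | Prop | model (closed) |
|---|---|---|
| R.1 | `AbelRealC` (MATHLIB + `T6/SpecArch` + `ASSpec`) | `AS.AbelCplxSmoothC` (helper893/736/315/984) |
| R.2 | `MeanActsRC` (MATHLIB + `T6/SpecArch`) | G.1 `M.MeanActsC` (helper96) |
| R.3 | `PureRegRC K` | M.3 `M.PureRegMC` (helper709) + `M.pureSmoothM` |
| R.4 | `ROpRC K` | G.2 `M.ROpMeanMC` (helper474, helper505) |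
| R.5 | `PureUpperRC K` | M.5 `M.PureUpperMC` (helper474, helper194) |
| R.6 | `SplitRC K` | M.7 `M.SplitMC` (helper719, helper749) |
| R.7 | `LocValInfRC K` | N.7 `N893.LocValInfC` (helper800) |
| R.8 | `ProdFormRC K` | M.9 `M.ProdFormMC` (helper793) |
| R.9 | `TypeRC K` | `T5.isKType_triv` |
| R.10 | `LocOfMeanRC K` | `isLocMean_of505` (helper505) |

Nodes (tops in `R/Top*.lean`): `NIntRC`, `AbelSatakeRC`, `EKOpExistRC`, `EKOpExistMeanRC`.
-/

set_option autoImplicit false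
set_option linter.style.haveILetI false

open IsDedekindDomain NumberField MeasureTheory
open Fermat.Agent.LT.H556.A0

noncomputable section

namespace Fermat.Agent.LT.T3.R

open Fermat.Agent.LT.T3.AS Fermat.Agent.LT.T3.AS.N893 Fermat.Agent.LT.T3.M

/-! ## 0. The real place (no number field) -/

/-- The weights of the station. -/
def IsWt (n : ℤ) : Prop := n = 0 ∨ n = 1 ∨ n = -1

/-- The real `N`-integral of `F` is `β` (Lebesgue measure of `ℝ`, positive diagonal). -/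
def HasAbelNR (F : GL (Fin 2) ℝ → ℂ) (β : ℝ × ℝ → ℂ) : Prop :=
  ∀ c₁ c₂ : ℝˣ, 0 < (c₁ : ℝ) → 0 < (c₂ : ℝ) →
    ∫ x : ℝ, F (upperGL c₁ c₂ x)
      = ((Real.sqrt ((c₁ : ℝ) * (c₂ : ℝ)) : ℝ) : ℂ) * β (Real.log (c₁ : ℝ), Real.log (c₂ : ℝ))

open Classical in
/-- The sign factor of the real `N`-integral of a function of weight `n`: `1` on the positive
diagonal, `(-1)ⁿ` on the negative diagonal, `0` if `det < 0`. -/
def sgnR (n : ℤ) (c₁ c₂ : ℝ) : ℂ :=
  if 0 < c₁ ∧ 0 < c₂ then 1 else if c₁ < 0 ∧ c₂ < 0 then (-1 : ℂ) ^ n else 0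

/-- **R.1 (real place; Abel inversion on `ℍ²` in the weights `0, ±1`), MATHLIB + the
definitions.**  Every symmetric `β ∈ C_c^∞(ℝ²)` is the `N`-integral of a test function of weight
`n` on `GL₂(ℝ)`.
Construction.  `D = det g`, `ρ = T6.rhoR g = tr(gᵀ g) / (2 D) ≥ 1`; on `[[c₁, x], [0, c₂]]`:
`D = c₁ c₂`, `ρ = ρ₀ + x² / (2 D)`, `ρ₀ = cosh u`, `u = log (c₁ / c₂)`.  Let
`β((c + u)/2, (c - u)/2) = Q(e^c, cosh u)` (`Q` smooth up to `ρ₀ = 1`: Whitney, as in
`AS.AbelCplxSmoothC`, helper984).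
* `n = 0`: `F(g) = H(D, ρ)` for `D > 0`, `0` for `D < 0`, with
  `∫_ℝ H(D, ρ₀ + y²) dy = Q(D, ρ₀) / √2`, i.e. `H(D, ρ) = -(1 / (π √2)) ∫_ℝ ∂_ρ Q(D, ρ + t²) dt`
  (classical Abel inversion: `∫∫ ∂_ρ Q(D, ρ + y² + t²) dy dt = -π Q(D, ρ)` in polar
  coordinates).
* `n = ±1`: `F(g) = conj(A(g))ⁿ' H₁(D, ρ)` (`A = T6.holPart`, `n' = 1`; for `n = -1` take `A(g)`):
  on the upper triangular matrices `A = ((c₁ + c₂) - i x) / 2`, the odd part integrates to `0`,
  `(c₁ + c₂) / 2 = √D √((1 + ρ₀) / 2)`, so `H₁` is the Abel inverse of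
  `Q(D, ρ₀) / √(D (1 + ρ₀))` (memo of helper517 for `T6.ArchMatchC`). -/
def AbelRealC : Prop :=
  ∀ n : ℤ, IsWt n → ∀ β : ℝ × ℝ → ℂ, IsSymBump β →
    ∃ F : GL (Fin 2) ℝ → ℂ, T6.IsArchTestR n F ∧ HasAbelNR F β

/-- `R(F)` acts on the class `𝒞` by the scalar `C`. -/
def ActsOnR {mr : MeasurableSpace (GL (Fin 2) ℝ)} (μr : Measure (GL (Fin 2) ℝ))
    (F : GL (Fin 2) ℝ → ℂ) (𝒞 : Set (GL (Fin 2) ℝ → ℂ)) (C : ℂ) : Prop :=
  ∀ Ψ ∈ 𝒞, ∀ y : GL (Fin 2) ℝ, ∫ h, Ψ (y * h) * F h ∂μr = C * Ψ y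

/-- The test functions of weight `n` act on the class `𝒞` by scalars. -/
def IsScalarClassR {mr : MeasurableSpace (GL (Fin 2) ℝ)} (μr : Measure (GL (Fin 2) ℝ))
    (n : ℤ) (𝒞 : Set (GL (Fin 2) ℝ → ℂ)) : Prop :=
  ∀ F : GL (Fin 2) ℝ → ℂ, T6.IsArchTestR n F → ∃ C : ℂ, ActsOnR μr F 𝒞 C

/-- On the class `𝒞` the scalar of a test function of weight `n` is `κ_ℝ ∫ β`, `β` its
`N`-integral (the classes of parameter `0`). -/
def HasAbelScalarR {mr : MeasurableSpace (GL (Fin 2) ℝ)} (μr : Measure (GL (Fin 2) ℝ))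
    (n : ℤ) (𝒞 : Set (GL (Fin 2) ℝ → ℂ)) (κr : ℂ) : Prop :=
  ∀ (F : GL (Fin 2) ℝ → ℂ) (β : ℝ × ℝ → ℂ), T6.IsArchTestR n F → HasAbelNR F β →
    ActsOnR μr F 𝒞 (κr * ∫ x : ℝ × ℝ, β x)

/-- THE CONCRETE CLASS: the continuous functions on `GL₂(ℝ)` of weight `n` on the right,
invariant under the positive scalars, which are joint eigenfunctions of the circle means with
eigenvalue function `m` (VERBATIM the hypotheses of `T6.ArchClassC` on `e`, `m`). -/
def locClassR (n : ℤ) (m : ℝ → ℂ) : Set (GL (Fin 2) ℝ → ℂ) :=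
  {e | Continuous e ∧
    (∀ k g : GL (Fin 2) ℝ, T6.InSO2 k → e (g * k) = T6.wtChar n k * e g) ∧
    (∀ (z g : GL (Fin 2) ℝ) (r : ℝ), 0 < r →
      (z : Matrix (Fin 2) (Fin 2) ℝ) = Matrix.diagonal (fun _ => r) → e (g * z) = e g) ∧
    ∀ t : ℝ, 0 < t → ∀ Y : ℝ → GL (Fin 2) ℝ,
      (∀ θ : ℝ, ((Y θ : GL (Fin 2) ℝ) : Matrix (Fin 2) (Fin 2) ℝ)
        = !![Real.cos θ, -Real.sin θ; Real.sin θ, Real.cos θ]
          * !![Real.exp (t / 2), 0; 0, Real.exp (-(t / 2))]
          * !![Real.cos θ, Real.sin θ; -Real.sin θ, Real.cos θ]) →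
      ∀ x : GL (Fin 2) ℝ,
        (∫ θ in (0 : ℝ)..(2 * Real.pi), e (x * Y θ)) = ((2 * Real.pi : ℝ) : ℂ) * m t * e x}

/-- **R.2 (real place; K-average), MATHLIB + the definitions.**  A test function of weight `n`
acts on the joint eigenfunctions of the circle means by a scalar.
Proof (the K-average of helper694 / helper96, `M.MeanActsC`): `∫ Ψ(y h) F(h) dμ
= ∫ A(h) F(h) dμ`, `A(h) = (1/2π) ∫₀^{2π} wtChar n (k_θ)⁻¹ Ψ(y k_θ h) dθ` (left invariance of
`μ`, `F(k h) = (wtChar n k)⁻¹ F(h)`); on `det h > 0` the Cartan decomposition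
`h = z k₁ a_t k₂` gives `A(h) = wtChar n (k₁ k₂) m(t) Ψ(y)` (`t > 0`), `= wtChar n (k₁ k₂) Ψ(y)`
(`t = 0`), a multiple `φ(h) Ψ(y)` with `φ` independent of `Ψ`, `y`.  If every member of the class
vanishes, `C = 0`; otherwise `C = (∫ Ψ₀(y₀ h) F(h) dμ) / Ψ₀(y₀)` (NO measurability of `m`). -/
def MeanActsRC : Prop :=
  letI : MeasurableSpace (GL (Fin 2) ℝ) := borel (GL (Fin 2) ℝ)
  ∀ μr : Measure (GL (Fin 2) ℝ), μr.IsHaarMeasure →
  ∀ n : ℤ, IsWt n → ∀ m : ℝ → ℂ, IsScalarClassR μr n (locClassR n m)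

variable (K : Type) [Field K] [NumberField K]

/-! ## 1. Vocabulary over the number field -/

/-- The component at the real place `w`, in `ℝ`. -/
def reHom (w : InfinitePlace K) (hw : w.IsReal) : Adl K →+* ℝ :=
  (InfinitePlace.Completion.extensionEmbeddingOfIsReal hw).comp
    ((Pi.evalRingHom (fun v : InfinitePlace K => v.Completion) w).comp
      (RingHom.fst (InfiniteAdeleRing K) (FiniteAdeleRing (𝓞 K) K)))

theorem infHom_eq_reHom (w : InfinitePlace K) (hw : w.IsReal) (X : Adl K) :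
    AS.infHom K w X = ((reHom K w hw X : ℝ) : ℂ) :=
  (InfinitePlace.Completion.extensionEmbeddingOfIsReal_apply hw _).symm

/-- The component of `g ∈ GL₂(𝔸_K)` at the real place `w`, in `GL₂(ℝ)`. -/
def reGL (w : InfinitePlace K) (hw : w.IsReal) : G K →* GL (Fin 2) ℝ :=
  Matrix.GeneralLinearGroup.map (reHom K w hw)

/-- The component of an idele at the real place `w`, in `ℝˣ`. -/
def reU (w : InfinitePlace K) (hw : w.IsReal) : (Adl K)ˣ →* ℝˣ :=
  Units.map (reHom K w hw).toMonoidHom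

theorem reU_coe (w : InfinitePlace K) (hw : w.IsReal) (c : (Adl K)ˣ) :
    ((reU K w hw c : ℝˣ) : ℝ) = reHom K w hw (c : Adl K) := rfl

theorem infComp_eq_reGL (w : InfinitePlace K) (hw : w.IsReal) (g : G K) (i j : Fin 2) :
    infComp w g i j = (((reGL K w hw g : GL (Fin 2) ℝ) : Matrix (Fin 2) (Fin 2) ℝ) i j : ℂ) :=
  infHom_eq_reHom K w hw _

/-- THE `K_∞`-TYPE of weights `n`: `k ↦ ∏_w wtChar (n w) (k_w)`. -/
def typeR (hR : ∀ w : InfinitePlace K, w.IsReal) (n : InfinitePlace K → ℤ) : G K → ℂ :=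
  fun k => ∏ w : InfinitePlace K, T6.wtChar (n w) (reGL K w (hR w) k)

/-- `α > 0` at every real place. -/
def IsTotPos (hR : ∀ w : InfinitePlace K, w.IsReal) (α : Kˣ) : Prop :=
  ∀ w : InfinitePlace K, 0 < InfinitePlace.embedding_of_isReal (hR w) (α : K)

open Classical in
/-- THE PURE TENSOR `⊗_{v ∈ P} f₀_v ⊗ ⊗_w F_w ⊗ 1_{U^{S'}}`, `S' = P ∪ S_∞`, real places. -/
def pureFnR (hR : ∀ w : InfinitePlace K, w.IsReal) (𝔫 : Ideal (𝓞 K))
    (P : Finset (HeightOneSpectrum (𝓞 K)))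
    (f₀ : ∀ v : HeightOneSpectrum (𝓞 K), GL (Fin 2) (v.adicCompletion K) → ℂ)
    (F : InfinitePlace K → GL (Fin 2) ℝ → ℂ) (h : G K) : ℂ :=
  if OutsideUM K 𝔫 P h then
    (∏ v ∈ P, f₀ v (finGL K v h)) * ∏ w : InfinitePlace K, F w (reGL K w (hR w) h)
  else 0

/-- The global class of the local classes `𝒞 w`: `φ` is continuous, right invariant under
`U(𝔫)`, and at every real place `w` the local functions `y ↦ φ(g ŷ)` belong to `𝒞 w`
(`ŷ` = the element supported at `w` with component `y`). -/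
structure IsClassLevelR (hR : ∀ w : InfinitePlace K, w.IsReal) (𝔫 : Ideal (𝓞 K))
    (𝒞 : InfinitePlace K → Set (GL (Fin 2) ℝ → ℂ)) (φ : G K → ℂ) : Prop where
  cont : Continuous φ
  level_inv : ∀ u : G K, InLevelGroup 𝔫 u → ∀ g : G K, φ (g * u) = φ g
  loc : ∀ (w : InfinitePlace K) (Y : GL (Fin 2) ℝ → G K),
    (∀ y : GL (Fin 2) ℝ, IsLocalAtInf w (Y y) ∧ reGL K w (hR w) (Y y) = y) →
    ∀ g : G K, (fun y : GL (Fin 2) ℝ => φ (g * Y y)) ∈ 𝒞 w

/-- `φ` is a joint eigenfunction of the circle means at the real place `w` with eigenvalue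
function `m` (the global form of the last clause of `locClassR`). -/
def MeanEigR (hR : ∀ w : InfinitePlace K, w.IsReal) (φ : G K → ℂ) (w : InfinitePlace K)
    (m : ℝ → ℂ) : Prop :=
  ∀ t : ℝ, 0 < t → ∀ Y : ℝ → G K,
    (∀ θ : ℝ, IsLocalAtInf w (Y θ) ∧
      ((reGL K w (hR w) (Y θ) : GL (Fin 2) ℝ) : Matrix (Fin 2) (Fin 2) ℝ)
        = !![Real.cos θ, -Real.sin θ; Real.sin θ, Real.cos θ]
          * !![Real.exp (t / 2), 0; 0, Real.exp (-(t / 2))]
          * !![Real.cos θ, Real.sin θ; -Real.sin θ, Real.cos θ]) →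
    ∀ g : G K,
      (∫ θ in (0 : ℝ)..(2 * Real.pi), φ (g * Y θ)) = ((2 * Real.pi : ℝ) : ℂ) * m t * φ g

/-- `φ` is continuous, right invariant under `U(𝔫)` and under the positive scalars at infinity,
of type `typeR n` under `K_∞` on the right, and a joint eigenfunction of the circle means with
eigenvalue functions `m_w`. -/
structure IsMeanLevelR (hR : ∀ w : InfinitePlace K, w.IsReal) (𝔫 : Ideal (𝓞 K))
    (n : InfinitePlace K → ℤ) (m : InfinitePlace K → ℝ → ℂ) (φ : G K → ℂ) : Prop where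
  cont : Continuous φ
  level_inv : ∀ u : G K, InLevelGroup 𝔫 u → ∀ g : G K, φ (g * u) = φ g
  arch_scalar : ∀ (w : InfinitePlace K) (z : G K), IsArchPosScalar w z →
    ∀ g : G K, φ (g * z) = φ g
  arch_compact : ∀ (w : InfinitePlace K) (k : G K), IsArchCompact w k →
    ∀ g : G K, φ (g * k) = typeR K hR n k * φ g
  mean : ∀ w : InfinitePlace K, MeanEigR K hR φ w (m w)

/-! ## 2. The global leaves -/

/-- **R.9 (the type is a `K_∞`-type).**  `wtChar n` is a unitary character of `SO(2)`,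
continuous; `reGL` is continuous and multiplicative. -/
def TypeRC : Prop :=
  ∀ (hR : ∀ w : InfinitePlace K, w.IsReal) (n : InfinitePlace K → ℤ),
    T5.IsKType (typeR K hR n)

/-- **R.10 (the local functions of a joint eigenfunction).**  Model: `isLocMean_of505`
(helper505), `H57/ROpLoc.lean` (helper57). -/
def LocOfMeanRC : Prop :=
  ∀ (hR : ∀ w : InfinitePlace K, w.IsReal) (𝔫 : Ideal (𝓞 K)) (n : InfinitePlace K → ℤ)
    (m : InfinitePlace K → ℝ → ℂ) (φ : G K → ℂ),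
    IsMeanLevelR K hR 𝔫 n m φ →
      IsClassLevelR K hR 𝔫 (fun w => locClassR (n w) (m w)) φ

/-- **R.3 (regularity of the pure tensor).**  Model: `M.PureRegMC` (helper709) and
`M.pureSmoothM`. -/
def PureRegRC : Prop :=
  ∀ (hR : ∀ w : InfinitePlace K, w.IsReal) (𝔫 : Ideal (𝓞 K)), 𝔫 ≠ ⊥ →
  ∀ P : Finset (HeightOneSpectrum (𝓞 K)), (∀ v ∈ P, ¬ v.asIdeal ∣ 𝔫) →
  ∀ (n : InfinitePlace K → ℤ)
    (f₀ : ∀ v : HeightOneSpectrum (𝓞 K), GL (Fin 2) (v.adicCompletion K) → ℂ)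
    (F : InfinitePlace K → GL (Fin 2) ℝ → ℂ),
    (∀ v ∈ P, IsBiIntInv v (f₀ v)) →
    (∀ v ∈ P, ∃ R : Finset (GL (Fin 2) (v.adicCompletion K)), IsRepSys v (f₀ v) R) →
    (∀ w, T6.IsArchTestR (n w) (F w)) →
    Continuous (pureFnR K hR 𝔫 P f₀ F) ∧ HasCompactSupport (pureFnR K hR 𝔫 P f₀ F) ∧
      IsSmoothInf K (pureFnR K hR 𝔫 P f₀ F) ∧
      T5.IsBiInvariant 𝔫 (typeR K hR n) (pureFnR K hR 𝔫 P f₀ F) ∧
      IsSuppAtM K 𝔫 P (pureFnR K hR 𝔫 P f₀ F)

/-- **R.4 (the operator of a pure tensor on a class).**  Model: `M.ROpMeanMC` (helper474,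
helper505; `AS.ROpC`, helper57): the coset sums at the places of `P`, then the real places one
after the other (`ActsOnR` for the local functions `y ↦ φ(g ŷ)`, which belong to `𝒞 w`). -/
def ROpRC : Prop :=
  letI : MeasurableSpace (G K) := borel (G K)
  letI : MeasurableSpace (GL (Fin 2) ℝ) := borel (GL (Fin 2) ℝ)
  ∀ hR : ∀ w : InfinitePlace K, w.IsReal,
  ∀ μ : Measure (G K), μ.IsHaarMeasure →
  ∀ μr : Measure (GL (Fin 2) ℝ), μr.IsHaarMeasure →
  ∀ 𝔫 : Ideal (𝓞 K), 𝔫 ≠ ⊥ → ∀ P : Finset (HeightOneSpectrum (𝓞 K)),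
    (∀ v ∈ P, ¬ v.asIdeal ∣ 𝔫) →
    ∃ κ₁ : ℂ, κ₁ ≠ 0 ∧
      ∀ (n : InfinitePlace K → ℤ) (A : HeightOneSpectrum (𝓞 K) → ℤ × ℤ → ℂ)
        (C : InfinitePlace K → ℂ) (𝒞 : InfinitePlace K → Set (GL (Fin 2) ℝ → ℂ))
        (f₀ : ∀ v : HeightOneSpectrum (𝓞 K), GL (Fin 2) (v.adicCompletion K) → ℂ)
        (F : InfinitePlace K → GL (Fin 2) ℝ → ℂ),
        (∀ v ∈ P, IsBiIntInv v (f₀ v)) →
        (∀ v ∈ P, ∃ R : Finset (GL (Fin 2) (v.adicCompletion K)), IsRepSys v (f₀ v) R) →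
        (∀ v ∈ P, HasSatakeEigen v (f₀ v) (A v)) →
        (∀ w, T6.IsArchTestR (n w) (F w)) → (∀ w, ActsOnR μr (F w) (𝒞 w) (C w)) →
        ∀ φ : G K → ℂ, IsClassLevelR K hR 𝔫 𝒞 φ →
        ∀ a b z₁ z₂ : HeightOneSpectrum (𝓞 K) → ℂ,
          (∀ v ∈ P, IsHeckeEigenAt φ v (a v) (b v)) →
          (∀ v ∈ P, z₁ v + z₂ v = a v) → (∀ v ∈ P, z₁ v * z₂ v = b v) → (∀ v ∈ P, b v ≠ 0) →
          ∀ g : G K, Rop K μ (pureFnR K hR 𝔫 P f₀ F) φ g
            = κ₁ * (∏ v ∈ P, laurent (A v) (z₁ v) (z₂ v)) * (∏ w : InfinitePlace K, C w) * φ g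

open Classical in
/-- **R.5 = N.2 real (the pure tensor on `K⁰ B K⁰`).**  Model: `M.PureUpperMC` (helper474).
The components of `k₁, k'` at the real places lie in `SO(2)` (`T1.IsStdCompact`): the type
factor `(typeR k₁)⁻¹ (typeR k')⁻¹`. -/
def PureUpperRC : Prop :=
  ∀ (hR : ∀ w : InfinitePlace K, w.IsReal) (𝔫 : Ideal (𝓞 K))
    (P : Finset (HeightOneSpectrum (𝓞 K))) (n : InfinitePlace K → ℤ)
    (f₀ : ∀ v : HeightOneSpectrum (𝓞 K), GL (Fin 2) (v.adicCompletion K) → ℂ)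
    (F : InfinitePlace K → GL (Fin 2) ℝ → ℂ),
    (∀ v ∈ P, IsBiIntInv v (f₀ v)) → (∀ w, T6.IsArchTestR (n w) (F w)) →
    ∀ (k₁ k' : G K), T1.IsStdCompact K k₁ → T1.IsStdCompact K k' →
    ∀ (c₁ c₂ : (Adl K)ˣ) (X : Adl K),
      pureFnR K hR 𝔫 P f₀ F (k₁ * upperGL c₁ c₂ X * k')
        = (if OutsideUM K 𝔫 P (k₁ * upperGL c₁ c₂ X * k') then (1 : ℂ) else 0)
          * ((typeR K hR n k₁)⁻¹ * (typeR K hR n k')⁻¹)
          * (∏ v ∈ P, f₀ v (upperGL (finU K v c₁) (finU K v c₂) (finHom K v X)))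
          * ∏ w : InfinitePlace K,
              F w (upperGL (reU K w (hR w) c₁) (reU K w (hR w) c₂) (reHom K w (hR w) X))

/-- **R.6 = N.5 real (splitting of the Haar measure at `S' = P ∪ S_∞`).**  Model: `M.SplitMC`
(helper719) with `∏_w ℝ` in place of `∏_w ℂ`. -/
def SplitRC : Prop :=
  letI : MeasurableSpace (Adl K) := borel (Adl K)
  ∀ hR : ∀ w : InfinitePlace K, w.IsReal,
  ∀ ν : Measure (Adl K), ν.IsAddHaarMeasure →
  ∀ 𝔫 : Ideal (𝓞 K), 𝔫 ≠ ⊥ → ∀ P : Finset (HeightOneSpectrum (𝓞 K)),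
    ∃ ν₀ : ∀ v : HeightOneSpectrum (𝓞 K),
        @Measure (v.adicCompletion K) (borel (v.adicCompletion K)),
      (∀ v : HeightOneSpectrum (𝓞 K),
        @Measure.IsAddHaarMeasure (v.adicCompletion K) _ _ (borel (v.adicCompletion K))
          (ν₀ v)) ∧
      ∃ c₀ : ℂ,
      ∀ (φ₀ : ∀ v : HeightOneSpectrum (𝓞 K), v.adicCompletion K → ℂ)
        (φ : InfinitePlace K → ℝ → ℂ),
        (∀ v ∈ P, Continuous (φ₀ v)) → (∀ v ∈ P, HasCompactSupport (φ₀ v)) →
        (∀ w, Continuous (φ w)) → (∀ w, HasCompactSupport (φ w)) →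
        Integrable (fun X : Adl K => (outGrpM K 𝔫 P).indicator (fun _ => (1 : ℂ)) X
          * (∏ v ∈ P, φ₀ v (finHom K v X))
          * ∏ w : InfinitePlace K, φ w (reHom K w (hR w) X)) ν ∧
        ∫ X, (outGrpM K 𝔫 P).indicator (fun _ => (1 : ℂ)) X
            * (∏ v ∈ P, φ₀ v (finHom K v X))
            * ∏ w : InfinitePlace K, φ w (reHom K w (hR w) X) ∂ν
          = c₀ * (∏ v ∈ P, ∫ x, φ₀ v x ∂(ν₀ v)) * ∏ w : InfinitePlace K, ∫ z : ℝ, φ w z

/-- **R.7 = N.7 real (the local `N`-integral at a real place).**  Model: `N893.LocValInfC`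
(helper800).  `HasAbelNR` at `(|c₁| αʲ, |c₂|)`; the sign by `F(-g) = (-1)ⁿ F(g)` and
`F = 0` on `det < 0`; `α > 0` at `w`, `|α|_w = w α`; translation by `t`. -/
def LocValInfRC : Prop :=
  ∀ (hR : ∀ w : InfinitePlace K, w.IsReal) (α : Kˣ), IsTotPos K hR α →
  ∀ (w : InfinitePlace K) (n : ℤ) (F : GL (Fin 2) ℝ → ℂ) (β : ℝ × ℝ → ℂ),
    T6.IsArchTestR n F → HasAbelNR F β →
    ∀ (c₁ c₂ : (Adl K)ˣ) (j : ℤ) (t : ℝ),
      Continuous (fun x : ℝ =>
        F (upperGL (reU K w (hR w) (c₁ * T1.ratUnit K α ^ j)) (reU K w (hR w) c₂) (x + t))) ∧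
      HasCompactSupport (fun x : ℝ =>
        F (upperGL (reU K w (hR w) (c₁ * T1.ratUnit K α ^ j)) (reU K w (hR w) c₂) (x + t))) ∧
      ∫ x : ℝ,
          F (upperGL (reU K w (hR w) (c₁ * T1.ratUnit K α ^ j)) (reU K w (hR w) c₂) (x + t))
        = sgnR n ((reU K w (hR w) c₁ : ℝˣ) : ℝ) ((reU K w (hR w) c₂ : ℝˣ) : ℝ)
          * ((Real.sqrt (|((reU K w (hR w) c₁ : ℝˣ) : ℝ)| * |((reU K w (hR w) c₂ : ℝˣ) : ℝ)|)
              * Real.sqrt (w (α : K)) ^ j : ℝ) : ℂ)
          * β (Real.log |((reU K w (hR w) c₁ : ℝˣ) : ℝ)| + j * Real.log (w (α : K)),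
              Real.log |((reU K w (hR w) c₂ : ℝˣ) : ℝ)|)

/-- **R.8 = N.8 real (product formula).**  `∏_w w α = |N_{K/ℚ} α| = ∏_{v ∈ P} N(𝔭_v)^{e_v}` for a
totally real field.  Model: `M.ProdFormMC` (helper793). -/
def ProdFormRC : Prop :=
  (∀ w : InfinitePlace K, w.IsReal) →
  ∀ (𝔫 : Ideal (𝓞 K)) (P : Finset (HeightOneSpectrum (𝓞 K)))
    (e : HeightOneSpectrum (𝓞 K) → ℕ) (a₀ : 𝓞 K) (α : Kˣ), FrameM K 𝔫 P e a₀ α →
    (∏ v ∈ P, (Ideal.absNorm v.asIdeal : ℝ) ^ (-(e v : ℝ) / 2))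
      * ∏ w : InfinitePlace K, Real.sqrt (w (α : K)) = 1

/-! ## 3. The nodes -/

/-- **The `N`-integral of a pure tensor, real places** (NODE; top `nIntR_of`).  As `M.NIntMC`;
`κ` depends on the weights (type factors and signs). -/
def NIntRC : Prop :=
  letI : MeasurableSpace (Adl K) := borel (Adl K)
  ∀ hR : ∀ w : InfinitePlace K, w.IsReal,
  ∀ ν : Measure (Adl K), ν.IsAddHaarMeasure →
  ∀ (𝔫 : Ideal (𝓞 K)) (P : Finset (HeightOneSpectrum (𝓞 K)))
    (e : HeightOneSpectrum (𝓞 K) → ℕ) (a₀ : 𝓞 K) (α : Kˣ), FrameM K 𝔫 P e a₀ α →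
    IsTotPos K hR α → ∀ n : InfinitePlace K → ℤ,
    ∃ (κ : G K → G K → ℂ) (Δ : G K → G K → CoordM K P),
      ∀ (A : HeightOneSpectrum (𝓞 K) → ℤ × ℤ → ℂ) (β : InfinitePlace K → ℝ × ℝ → ℂ)
        (f₀ : ∀ v : HeightOneSpectrum (𝓞 K), GL (Fin 2) (v.adicCompletion K) → ℂ)
        (F : InfinitePlace K → GL (Fin 2) ℝ → ℂ),
        (∀ v ∈ P, IsBiIntInv v (f₀ v)) →
        (∀ v ∈ P, ∃ R : Finset (GL (Fin 2) (v.adicCompletion K)), IsRepSys v (f₀ v) R) →
        (∀ v ∈ P, HasSatakeN v (f₀ v) (A v)) →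
        (∀ w, T6.IsArchTestR (n w) (F w)) → (∀ w, HasAbelNR (F w) (β w)) →
        ∀ (g g' : G K) (j : ℤ),
          Integrable (fun x => pureFnR K hR 𝔫 P f₀ F (g⁻¹ * unip K x * torK K α ^ j * g')) ν ∧
          ∫ x, pureFnR K hR 𝔫 P f₀ F (g⁻¹ * unip K x * torK K α ^ j * g') ∂ν
            = κ g g' * pureCoordM K P A β (Δ g g' + j • coordTorM K P e α)

/-- A PURE PAIR: a symmetric pure tensor on the coordinate group and a pure tensor on
`GL₂(𝔸_K)` with local Satake pairs at `P` and local Abel pairs of weights `n` at infinity. -/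
def IsPurePairR (hR : ∀ w : InfinitePlace K, w.IsReal) (𝔫 : Ideal (𝓞 K))
    (P : Finset (HeightOneSpectrum (𝓞 K))) (n : InfinitePlace K → ℤ)
    (p : (CoordM K P → ℂ) × (G K → ℂ)) : Prop :=
  ∃ (A : HeightOneSpectrum (𝓞 K) → ℤ × ℤ → ℂ) (β : InfinitePlace K → ℝ × ℝ → ℂ)
    (f₀ : ∀ v : HeightOneSpectrum (𝓞 K), GL (Fin 2) (v.adicCompletion K) → ℂ)
    (F : InfinitePlace K → GL (Fin 2) ℝ → ℂ),
    (∀ v, IsSymFin (A v)) ∧ (∀ w, IsSymBump (β w)) ∧
    (∀ v ∈ P, IsSatakePair v (f₀ v) (A v)) ∧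
    (∀ w, T6.IsArchTestR (n w) (F w)) ∧ (∀ w, HasAbelNR (F w) (β w)) ∧
    p = (pureCoordM K P A β, pureFnR K hR 𝔫 P f₀ F)

/-- The span of the pure pairs. -/
def pairSpanR (hR : ∀ w : InfinitePlace K, w.IsReal) (𝔫 : Ideal (𝓞 K))
    (P : Finset (HeightOneSpectrum (𝓞 K))) (n : InfinitePlace K → ℤ) :
    Submodule ℂ ((CoordM K P → ℂ) × (G K → ℂ)) :=
  Submodule.span ℂ {p | IsPurePairR K hR 𝔫 P n p}

/-- **The Abel--Satake pair, real places, weights `n`** (NODE; top `abelSatakeR_of`).  For every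
`Φ` in the span of the symmetric pure tensors there is a test function `f` of type `typeR n`,
with `(Φ, f)` in the span of the pure pairs, with `N`-integral `κ Φ(Δ + j c₀)`, acting by a
scalar `c(z₁, z₂)` on the global class of every family of local classes on which the test
functions act by scalars; `c = κ₀ (∏_w κr w) Φ^(z₁, z₂)` if the local scalars are `κr w ∫ β`. -/
def AbelSatakeRC : Prop :=
  letI : MeasurableSpace (Adl K) := borel (Adl K)
  letI : MeasurableSpace (G K) := borel (G K)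
  letI : MeasurableSpace (GL (Fin 2) ℝ) := borel (GL (Fin 2) ℝ)
  ∀ hR : ∀ w : InfinitePlace K, w.IsReal,
  ∀ μ : Measure (G K), μ.IsHaarMeasure →
  ∀ μr : Measure (GL (Fin 2) ℝ), μr.IsHaarMeasure →
  ∀ ν : Measure (Adl K), ν.IsAddHaarMeasure →
  ∀ (𝔫 : Ideal (𝓞 K)) (P : Finset (HeightOneSpectrum (𝓞 K)))
    (e : HeightOneSpectrum (𝓞 K) → ℕ) (a₀ : 𝓞 K) (α : Kˣ), FrameM K 𝔫 P e a₀ α →
    IsTotPos K hR α → ∀ n : InfinitePlace K → ℤ, (∀ w, IsWt (n w)) →
    ∃ (κ : G K → G K → ℂ) (Δ : G K → G K → CoordM K P) (κ₀ : ℂ), κ₀ ≠ 0 ∧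
      ∀ Φ : CoordM K P → ℂ, Φ ∈ SymSpanM K P →
        ∃ f : G K → ℂ, Continuous f ∧ HasCompactSupport f ∧ IsSmoothInf K f ∧
          T5.IsBiInvariant 𝔫 (typeR K hR n) f ∧ IsSuppAtM K 𝔫 P f ∧
          (Φ, f) ∈ pairSpanR K hR 𝔫 P n ∧
          (∀ (g g' : G K) (j : ℤ),
            ∫ x, f (g⁻¹ * unip K x * torK K α ^ j * g') ∂ν
              = κ g g' * Φ (Δ g g' + j • coordTorM K P e α)) ∧
          ∀ (𝒞 : InfinitePlace K → Set (GL (Fin 2) ℝ → ℂ)) (κr : InfinitePlace K → ℂ),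
            (∀ w, IsScalarClassR μr (n w) (𝒞 w)) →
            ∃ c : (HeightOneSpectrum (𝓞 K) → ℂ) → (HeightOneSpectrum (𝓞 K) → ℂ) → ℂ,
              ((∀ w, HasAbelScalarR μr (n w) (𝒞 w) (κr w)) →
                ∀ z₁ z₂ : HeightOneSpectrum (𝓞 K) → ℂ,
                  c z₁ z₂ = κ₀ * (∏ w, κr w) * ftCoordM K P Φ z₁ z₂) ∧
              ∀ φ : G K → ℂ, IsClassLevelR K hR 𝔫 𝒞 φ →
              ∀ a b z₁ z₂ : HeightOneSpectrum (𝓞 K) → ℂ,
                (∀ v ∈ P, IsHeckeEigenAt φ v (a v) (b v)) →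
                (∀ v ∈ P, z₁ v + z₂ v = a v) → (∀ v ∈ P, z₁ v * z₂ v = b v) →
                (∀ v ∈ P, b v ≠ 0) →
                ∀ g : G K, Rop K μ f φ g = c z₁ z₂ * φ g

/-- **THE OUTPUT of station T3.18R** (in the vocabulary of T5; top `ekOpExistR_of`).
`K` totally real, `(𝔫, P, e, a₀)` as in `T7.GoodEKM`, `a₀ > 0` at every real place, weights
`n w ∈ {0, ±1}`: there is a test function `f` of level `𝔫` and type `typeR n`, supported at
`P ∪ S_∞`, Eisenstein-killing with Eisenstein-killing adjoint, which acts by a scalar `c(a, b)`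
on the global class of every family of local classes on which the test functions act by
scalars; `c(a, b) ≠ 0` under `GoodParamM` if the local scalars are `κr w ∫ β`, `κr w ≠ 0`. -/
def EKOpExistRC : Prop :=
  letI : MeasurableSpace (G K) := borel (G K)
  letI : MeasurableSpace (GL (Fin 2) ℝ) := borel (GL (Fin 2) ℝ)
  ∀ hR : ∀ w : InfinitePlace K, w.IsReal,
  ∀ μ : Measure (G K), μ.IsHaarMeasure →
  ∀ μr : Measure (GL (Fin 2) ℝ), μr.IsHaarMeasure →
  ∀ (𝔫 : Ideal (𝓞 K)) (P : Finset (HeightOneSpectrum (𝓞 K)))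
    (e : HeightOneSpectrum (𝓞 K) → ℕ) (a₀ : 𝓞 K),
    𝔫 ≠ ⊥ → P.Nonempty → (∀ v ∈ P, ¬ v.asIdeal ∣ 𝔫 ∧ 0 < e v) →
    Ideal.span {a₀} = ∏ v ∈ P, v.asIdeal ^ e v → a₀ - 1 ∈ 𝔫 →
    (∀ w : InfinitePlace K,
      0 < InfinitePlace.embedding_of_isReal (hR w) (algebraMap (𝓞 K) K a₀)) →
    ∀ n : InfinitePlace K → ℤ, (∀ w, IsWt (n w)) →
    ∃ f : G K → ℂ, T5.IsTestFn 𝔫 (typeR K hR n) f ∧ T5.IsEK μ f ∧
      T5.IsEK μ (T5.adjointFn f) ∧ IsSuppAtM K 𝔫 P f ∧
      ∀ (𝒞 : InfinitePlace K → Set (GL (Fin 2) ℝ → ℂ)) (κr : InfinitePlace K → ℂ),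
        (∀ w, IsScalarClassR μr (n w) (𝒞 w)) →
        ∃ c : (HeightOneSpectrum (𝓞 K) → ℂ) → (HeightOneSpectrum (𝓞 K) → ℂ) → ℂ,
          ((∀ w, HasAbelScalarR μr (n w) (𝒞 w) (κr w)) → (∀ w, κr w ≠ 0) →
            ∀ a b : HeightOneSpectrum (𝓞 K) → ℂ, GoodParamM K P e a b → c a b ≠ 0) ∧
          ∀ φ : G K → ℂ, IsClassLevelR K hR 𝔫 𝒞 φ →
          ∀ a b : HeightOneSpectrum (𝓞 K) → ℂ,
            (∀ v ∈ P, IsHeckeEigenAt φ v (a v) (b v)) →
            ∀ g : G K, T5.Rconv μ f φ g = c a b * φ g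

/-- **THE OUTPUT for the joint eigenfunctions of the circle means** (top `ekOpExistMeanR_of`):
`R(f) φ = c(a, b, m) φ` for every `φ` with `IsMeanLevelR K hR 𝔫 n m φ`, Hecke-eigen on `P`. -/
def EKOpExistMeanRC : Prop :=
  letI : MeasurableSpace (G K) := borel (G K)
  ∀ hR : ∀ w : InfinitePlace K, w.IsReal,
  ∀ μ : Measure (G K), μ.IsHaarMeasure →
  ∀ (𝔫 : Ideal (𝓞 K)) (P : Finset (HeightOneSpectrum (𝓞 K)))
    (e : HeightOneSpectrum (𝓞 K) → ℕ) (a₀ : 𝓞 K),
    𝔫 ≠ ⊥ → P.Nonempty → (∀ v ∈ P, ¬ v.asIdeal ∣ 𝔫 ∧ 0 < e v) →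
    Ideal.span {a₀} = ∏ v ∈ P, v.asIdeal ^ e v → a₀ - 1 ∈ 𝔫 →
    (∀ w : InfinitePlace K,
      0 < InfinitePlace.embedding_of_isReal (hR w) (algebraMap (𝓞 K) K a₀)) →
    ∀ n : InfinitePlace K → ℤ, (∀ w, IsWt (n w)) →
    ∃ f : G K → ℂ, T5.IsTestFn 𝔫 (typeR K hR n) f ∧ T5.IsEK μ f ∧
      T5.IsEK μ (T5.adjointFn f) ∧ IsSuppAtM K 𝔫 P f ∧
      ∃ c : (HeightOneSpectrum (𝓞 K) → ℂ) → (HeightOneSpectrum (𝓞 K) → ℂ) →
          (InfinitePlace K → ℝ → ℂ) → ℂ,
        ∀ (φ : G K → ℂ) (m : InfinitePlace K → ℝ → ℂ), IsMeanLevelR K hR 𝔫 n m φ →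
        ∀ a b : HeightOneSpectrum (𝓞 K) → ℂ,
          (∀ v ∈ P, IsHeckeEigenAt φ v (a v) (b v)) →
          ∀ g : G K, T5.Rconv μ f φ g = c a b m * φ g

end Fermat.Agent.LT.T3.R

end

end
-- ===== PACK-END LT/T3/R/Spec.lean

-- ===== PACK-BEGIN LT/T6/H60/EllUnrSpec3.lean
section





/-!
# Row LT, tower T6, leaf T6.13.3b (`FixTwC`) -- cut into CENTRE + LINK (helper60), OFF-MAIN

`F = δ σ` on the tree of `k'` (`k'/k` unramified of prime degree `l`, `N δ ∼ γ` regular elliptic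
with `k[γ]/k` unramified, `ord disc γ - ord det γ = 2 r`).  If `F` fixes a vertex then its fixed
points are a "ball of the tree of `k`": `ballCard q r` in number.  By `ncard_subball338`
(helper338) this follows from

* `TwCenterC` (T6.13.3b.1): there is a fixed vertex `c` of `F` such that every fixed vertex of `F`
  has distance `≤ r` from `c`, and `N δ = F^l` fixes the whole ball of radius `r` around `c`
  (`c` = the vertex of the lattices stable under the maximal order of `k'[N δ]`);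
* `TwLinkC` (T6.13.3b.2, DESCENT ON THE LINK, no `γ`): if `F` fixes `v` and `N δ` fixes all the
  neighbours of `v`, then `F` fixes exactly `q + 1` neighbours of `v` (`v = [1]`, `δ ∈ GL₂(𝒪')`:
  `N δ ≡` scalar `ā ∈ 𝔽_q^×` mod `ϖ`, `ā = N c̄`, `Φ = (δ̄ / c̄) σ̄` is a descent datum on
  `𝔽_Q²`, the `Φ`-stable lines are the `q + 1` lines of the `𝔽_q`-form).

`fixTw_of60 : TwCenterC → TwLinkC → FixTwC` is PROVED here.
-/

set_option autoImplicit false

open scoped Matrix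

noncomputable section

namespace Fermat.Agent.LT.T6.H60

open Fermat.Agent.LT.T6 Fermat.Agent.LT.T6.H340 Fermat.Agent.LT.H338

/-- **T6.13.3b.1 (TwCenter).**  The centre of the fixed points of `δ σ`. -/
def TwCenterC : Prop :=
  ∀ (k k' : Type) [Field k] [Field k'] [Valued k Γ₀] [Valued k' Γ₀] (q l : ℕ)
    (i : k →+* k') (s : k' ≃+* k'),
    IsLocalField k q → IsLocalField k' (q ^ l) → ∀ hext : IsLocalExt k k' l 1 i s, l.Prime →
    ∀ (δ : GL (Fin 2) k') (γ : GL (Fin 2) k), IsReg γ → ¬ HasEigen k γ → ¬ HasRamUnif k γ →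
      IsConj (twNorm s l δ) (Matrix.GeneralLinearGroup.map i γ) →
      ∀ (j : ℤ) (r : ℕ), ordDet γ = 2 * j → ordDisc γ = 2 * j + 2 * (r : ℤ) →
        (∃ v : BTVert340 k', btTw340 s hext.val_s δ v = v) →
        ∃ c : BTVert340 k', btTw340 s hext.val_s δ c = c ∧
          (∀ v : BTVert340 k', btTw340 s hext.val_s δ v = v → btDist340 c v ≤ r) ∧
          (∀ w : BTVert340 k', btDist340 c w ≤ r → btMul340 (twNorm s l δ) w = w)

/-- **T6.13.3b.2 (TwLink), descent on the link.**  If `δ σ` fixes the vertex `v` and `N δ` fixes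
all the neighbours of `v`, then `δ σ` fixes exactly `q + 1` neighbours of `v`. -/
def TwLinkC : Prop :=
  ∀ (k k' : Type) [Field k] [Field k'] [Valued k Γ₀] [Valued k' Γ₀] (q l : ℕ)
    (i : k →+* k') (s : k' ≃+* k'),
    IsLocalField k q → IsLocalField k' (q ^ l) → ∀ hext : IsLocalExt k k' l 1 i s, l.Prime →
    ∀ (δ : GL (Fin 2) k') (v : BTVert340 k'), btTw340 s hext.val_s δ v = v →
      (∀ w : BTVert340 k', btDist340 v w = 1 → btMul340 (twNorm s l δ) w = w) →
      {w : BTVert340 k' | btTw340 s hext.val_s δ w = w ∧ btDist340 v w = 1}.ncard = q + 1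

/-- **T6.13.3b from the centre and the descent on the link.** -/
theorem fixTw_of60 (hC : TwCenterC) (hL : TwLinkC) : FixTwC := by
  intro k k' _ _ _ _ q l i s hk hk' hext hl δ γ hreg hE hR hconj j r hj hr hex
  obtain ⟨c, hc, hrad, hball⟩ :=
    hC k k' q l i s hk hk' hext hl δ γ hreg hE hR hconj j r hj hr hex
  have hd := isTreeDist_btDist340 hk'
  have hg := btDist340_tw s hext.val_s δ
  have := ncard_subball338 hd c q r {v : BTVert340 k' | btTw340 s hext.val_s δ v = v} hc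
    (fun v hv _ => fixed_par338 hd _ hg c hc hv)
    (fun v hv hlt => by
      refine hL k k' q l i s hk hk' hext hl δ v hv ?_
      intro w hw
      refine hball w ?_
      have h1 := tri338 hd c v w
      omega)
    hrad
  rw [this]
  rfl

end Fermat.Agent.LT.T6.H60

end
end
-- ===== PACK-END LT/T6/H60/EllUnrSpec3.lean

-- ===== PACK-BEGIN LT/T6/H888/Sph1.lean
section



/-!
# Row LT, tower T6, leaf T6.22.D (helper888): the weight `±1` case

`sph1_volterra888`: `ps(t) = (1/2π) ∫₀^{2π} (1 - cos φ tanh(t/2)) η(t, φ)^e dφ` satisfies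
`ps = 1 + e (e + 2) · gL888 n ps` on `[0, ∞)` (`n ≠ 0`).
-/

set_option autoImplicit false

open MeasureTheory Set

noncomputable section

namespace Fermat.Agent.LT.T6.H888

/-- The algebraic identity behind the weight `±1` case (`E = η^(e-2)`, `w = 1/(1 + C)`);
the coefficients were computed by polynomial division. -/
theorem sph1_alg888 (C S w c sn e E : ℂ) (h1 : S ^ 2 = C ^ 2 - 1) (h2 : sn ^ 2 = 1 - c ^ 2)
    (h3 : C * w = 1 - w) :
    (S * (1 + C)) * ((c * (S * w ^ 2)) * ((C - c * S) ^ 2 * E)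
        + (-(c * w)) * (e * ((C - c * S) * E) * (S - c * C))
        + ((-(c * w)) * (e * ((C - c * S) * E) * (S - c * C))
          + (1 - c * (S * w)) * (e * ((e - 1) * E * (S - c * C) * (S - c * C)
            + ((C - c * S) * E) * (C - c * S)))))
      + (C * (1 + C) + S * S) * ((-(c * w)) * ((C - c * S) ^ 2 * E)
        + (1 - c * (S * w)) * (e * ((C - c * S) * E) * (S - c * C)))
    = (S * (1 + C)) * (e * (e + 2) * ((1 - c * (S * w)) * ((C - c * S) ^ 2 * E)))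
      + (c * (-C * ((C - c * S) ^ 2 * E) - e * (1 + (C - c * S)) * ((C - c * S) * E))
        + sn * (-C * (e * ((C - c * S) * E) * (sn * S))
          - e * ((sn * S) * ((C - c * S) * E)
            + (1 + (C - c * S)) * ((e - 1) * E * (sn * S))))) := by
  linear_combination
    (E * ((-1)*C*S*c^2*e*w + (-1)*C*S*c^2*e^2 + (2)*C*S*c^2*w + (-2)*C*S*c^2*w^2 + (1)*C*S*e^2 +
      (-1)*C*S^2*c*e^2*w + (1)*C*S^2*c^3*e^2*w + (1)*C*S^2*c^3*w^2 + (3)*C*c*e + (-1)*C*c*e*sn^2 +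
      (-2)*C*c*e*w + (1)*C*c*e^2*w + (1)*C*c^3 + (-2)*C*c^3*e*w + (-1)*C*c^3*e^2*w +
      (-1)*C*c^3*w + (-1)*C*c^3*w^2 + (-1)*C^2*S*c^2*e*w + (-2)*C^2*S*c^2*w^2 + (1)*C^2*c*e +
      (-1)*C^2*c*e*w + (-1)*C^2*c*w + (1)*C^2*c*w^2 + (-1)*C^2*c^3*e*w + (-2)*C^2*c^3*w +
      (1)*C^2*c^3*w^2 + (1)*C^3*c*w^2 + (1)*C^3*c^3*w^2 + (-1)*S*c^2*e + (1)*S*c^2*e*w +
      (-1)*S*c^2*e^2 + (-1)*S*e + (1)*S*e^2 + (-1)*S^2*c*e + (1)*S^2*c*e*w + (-1)*S^2*c*e^2*w +
      (1)*S^2*c^3*e*w + (1)*S^2*c^3*e^2*w + (-1)*S^2*c^3*w + (1)*S^2*c^3*w^2 + (1)*S^3*c^2*e*w +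
      (1)*c*e + (-1)*c*e*w + (-1)*c*e^2*sn^2 + (1)*c*e^2*w + (1)*c^3*e + (-1)*c^3*e*w +
      (-1)*c^3*e^2*w + (1)*c^3*w + (-1)*c^3*w^2)) * h1
    + (E * ((1)*C*S*e^2 + (1)*C*c*e + (1)*C^2*S*e + (-1)*C^2*c*e^2 + (-1)*C^3*c*e + (-1)*S*e +
      (1)*S*e^2 + (1)*c*e^2)) * h2
    + (E * ((2)*C*S*c^2*e + (2)*C*S*c^2*w + (1)*C*c*e + (1)*C*c^3 + (1)*C*c^3*e + (2)*C^2*S*c^2 +
      (2)*C^2*S*c^2*e + (-1)*C^2*c*e + (1)*C^2*c*e^2 + (-1)*C^2*c*w + (-1)*C^2*c^3*e +
      (-1)*C^2*c^3*e^2 + (-2)*C^2*c^3*w + (-2)*C^3*S*c^2*w + (-1)*C^3*c + (-1)*C^3*c*e +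
      (-1)*C^3*c^3 + (-1)*C^3*c^3*e + (1)*C^4*c*w + (1)*C^4*c^3*w + (-1)*S*c^2*e + (1)*c*e +
      (-1)*c*e^2 + (1)*c^3*e + (1)*c^3*e^2 + (1)*c^3*w)) * h3

/-- `w(t) = 1 / (1 + cosh t)`. -/
def wInv888 (t : ℝ) : ℝ := (1 + Real.cosh t)⁻¹

theorem one_add_cosh_pos888 (t : ℝ) : 0 < 1 + Real.cosh t := by
  have := Real.cosh_pos t; linarith

theorem wInv_rel888 (t : ℝ) : Real.cosh t * wInv888 t = 1 - wInv888 t := by
  unfold wInv888
  have := (one_add_cosh_pos888 t).ne'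
  field_simp
  ring

theorem wInv_hasDerivAt888 (t : ℝ) :
    HasDerivAt wInv888 (-(Real.sinh t * wInv888 t ^ 2)) t := by
  have h1 : HasDerivAt (fun t => 1 + Real.cosh t) (Real.sinh t) t :=
    (Real.hasDerivAt_cosh t).const_add 1
  have h2 := h1.inv (one_add_cosh_pos888 t).ne'
  refine h2.congr_deriv ?_
  unfold wInv888
  have := (one_add_cosh_pos888 t).ne'
  field_simp

/-- `tanh (t/2) = sinh t / (1 + cosh t)`. -/
def tH888 (t : ℝ) : ℝ := Real.sinh t * wInv888 t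

theorem tH_hasDerivAt888 (t : ℝ) : HasDerivAt tH888 (wInv888 t) t := by
  have h := (Real.hasDerivAt_sinh t).mul (wInv_hasDerivAt888 t)
  refine h.congr_deriv ?_
  have r1 := Real.cosh_sq t
  have r3 := wInv_rel888 t
  have e1 : Real.sinh t ^ 2 = Real.cosh t ^ 2 - 1 := by linarith
  linear_combination (-(wInv888 t ^ 2)) * e1 + (wInv888 t - Real.cosh t * wInv888 t) * r3

theorem wInv_cont888 : Continuous wInv888 := by
  unfold wInv888
  exact Continuous.inv₀ (by fun_prop) (fun t => (one_add_cosh_pos888 t).ne')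

theorem tH_cont888 : Continuous tH888 := by
  unfold tH888
  exact Real.continuous_sinh.mul wInv_cont888

/-- The factor `1 - cos φ tanh(t/2)` and its `t`-derivatives. -/
def s1g888 (t φ : ℝ) : ℝ := 1 - Real.cos φ * tH888 t

/-- First derivative. -/
def s1g1_888 (t φ : ℝ) : ℝ := -(Real.cos φ * wInv888 t)

/-- Second derivative. -/
def s1g2_888 (t φ : ℝ) : ℝ := Real.cos φ * (Real.sinh t * wInv888 t ^ 2)

theorem s1g_hasDerivAt888 (t φ : ℝ) : HasDerivAt (fun t => s1g888 t φ) (s1g1_888 t φ) t := by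
  have := ((tH_hasDerivAt888 t).const_mul (Real.cos φ)).const_sub 1
  exact this

theorem s1g1_hasDerivAt888 (t φ : ℝ) :
    HasDerivAt (fun t => s1g1_888 t φ) (s1g2_888 t φ) t := by
  have := ((wInv_hasDerivAt888 t).const_mul (Real.cos φ)).neg
  refine this.congr_deriv ?_
  unfold s1g2_888
  ring

theorem s1g_cont888 : Continuous (fun p : ℝ × ℝ => s1g888 p.1 p.2) := by
  unfold s1g888
  exact continuous_const.sub ((Real.continuous_cos.comp continuous_snd).mul
    (tH_cont888.comp continuous_fst))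

theorem s1g1_cont888 : Continuous (fun p : ℝ × ℝ => s1g1_888 p.1 p.2) := by
  unfold s1g1_888
  exact ((Real.continuous_cos.comp continuous_snd).mul
    (wInv_cont888.comp continuous_fst)).neg

theorem s1g2_cont888 : Continuous (fun p : ℝ × ℝ => s1g2_888 p.1 p.2) := by
  unfold s1g2_888
  exact (Real.continuous_cos.comp continuous_snd).mul
    ((Real.continuous_sinh.comp continuous_fst).mul
      ((wInv_cont888.comp continuous_fst).pow 2))

/-- The integrand of weight `±1`. -/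
def s1h888 (e : ℂ) (t φ : ℝ) : ℂ := ((s1g888 t φ : ℝ) : ℂ) * s0h888 e t φ

/-- First `t`-derivative. -/
def s1h1_888 (e : ℂ) (t φ : ℝ) : ℂ :=
  ((s1g1_888 t φ : ℝ) : ℂ) * s0h888 e t φ + ((s1g888 t φ : ℝ) : ℂ) * s0h1_888 e t φ

/-- Second `t`-derivative. -/
def s1h2_888 (e : ℂ) (t φ : ℝ) : ℂ :=
  ((s1g2_888 t φ : ℝ) : ℂ) * s0h888 e t φ + ((s1g1_888 t φ : ℝ) : ℂ) * s0h1_888 e t φ
    + (((s1g1_888 t φ : ℝ) : ℂ) * s0h1_888 e t φ + ((s1g888 t φ : ℝ) : ℂ) * s0h2_888 e t φ)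

/-- The `φ`-potential. -/
def s1Psi888 (e : ℂ) (t φ : ℝ) : ℂ :=
  ((Real.sin φ : ℝ) : ℂ) * (-((Real.cosh t : ℝ) : ℂ) * pw888 e (eta888 t φ)
    - e * (1 + ((eta888 t φ : ℝ) : ℂ)) * pw888 (e - 1) (eta888 t φ))

/-- Its `φ`-derivative. -/
def s1Psi'888 (e : ℂ) (t φ : ℝ) : ℂ :=
  ((Real.cos φ : ℝ) : ℂ) * (-((Real.cosh t : ℝ) : ℂ) * pw888 e (eta888 t φ)
      - e * (1 + ((eta888 t φ : ℝ) : ℂ)) * pw888 (e - 1) (eta888 t φ))
    + ((Real.sin φ : ℝ) : ℂ) * (-((Real.cosh t : ℝ) : ℂ)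
        * (e * pw888 (e - 1) (eta888 t φ) * ((Real.sin φ * Real.sinh t : ℝ) : ℂ))
      - e * (((Real.sin φ * Real.sinh t : ℝ) : ℂ) * pw888 (e - 1) (eta888 t φ)
        + (1 + ((eta888 t φ : ℝ) : ℂ))
          * ((e - 1) * pw888 (e - 1 - 1) (eta888 t φ)
            * ((Real.sin φ * Real.sinh t : ℝ) : ℂ))))

theorem s1h_hasDerivAt888 (e : ℂ) (t φ : ℝ) :
    HasDerivAt (fun t => s1h888 e t φ) (s1h1_888 e t φ) t := by
  have hg : HasDerivAt (fun t => ((s1g888 t φ : ℝ) : ℂ)) ((s1g1_888 t φ : ℝ) : ℂ) t :=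
    (s1g_hasDerivAt888 t φ).ofReal_comp
  exact hg.mul (s0h_hasDerivAt888 e t φ)

theorem s1h1_hasDerivAt888 (e : ℂ) (t φ : ℝ) :
    HasDerivAt (fun t => s1h1_888 e t φ) (s1h2_888 e t φ) t := by
  have hg : HasDerivAt (fun t => ((s1g888 t φ : ℝ) : ℂ)) ((s1g1_888 t φ : ℝ) : ℂ) t :=
    (s1g_hasDerivAt888 t φ).ofReal_comp
  have hg1 : HasDerivAt (fun t => ((s1g1_888 t φ : ℝ) : ℂ)) ((s1g2_888 t φ : ℝ) : ℂ) t :=
    (s1g1_hasDerivAt888 t φ).ofReal_comp
  exact (hg1.mul (s0h_hasDerivAt888 e t φ)).add (hg.mul (s0h1_hasDerivAt888 e t φ))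

theorem s1Psi_hasDerivAt888 (e : ℂ) (t φ : ℝ) :
    HasDerivAt (fun φ => s1Psi888 e t φ) (s1Psi'888 e t φ) φ := by
  have hs : HasDerivAt (fun φ => ((Real.sin φ : ℝ) : ℂ)) ((Real.cos φ : ℝ) : ℂ) φ :=
    (Real.hasDerivAt_sin φ).ofReal_comp
  have hp0 := pw_hasDerivAt888 e (eta_hasDerivAt_phi888 t φ) (eta_pos888 t φ)
  have hp1 := pw_hasDerivAt888 (e - 1) (eta_hasDerivAt_phi888 t φ) (eta_pos888 t φ)
  have he : HasDerivAt (fun φ => 1 + ((eta888 t φ : ℝ) : ℂ))
      ((Real.sin φ * Real.sinh t : ℝ) : ℂ) φ :=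
    ((eta_hasDerivAt_phi888 t φ).ofReal_comp).const_add 1
  have hB := (hp0.const_mul (-((Real.cosh t : ℝ) : ℂ))).sub ((he.const_mul e).mul hp1)
  have := hs.mul hB
  refine this.congr_deriv ?_
  unfold s1Psi'888
  simp only [Pi.sub_apply, Pi.mul_apply]
  ring

theorem s1h_cont888 (e : ℂ) : Continuous (Function.uncurry (s1h888 e)) := by
  have : Function.uncurry (s1h888 e) = fun p : ℝ × ℝ =>
      ((s1g888 p.1 p.2 : ℝ) : ℂ) * Function.uncurry (s0h888 e) p := by
    funext ⟨t, φ⟩; rfl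
  rw [this]
  exact (Complex.continuous_ofReal.comp s1g_cont888).mul (s0h_cont888 e)

theorem s1h1_cont888 (e : ℂ) : Continuous (Function.uncurry (s1h1_888 e)) := by
  have : Function.uncurry (s1h1_888 e) = fun p : ℝ × ℝ =>
      ((s1g1_888 p.1 p.2 : ℝ) : ℂ) * Function.uncurry (s0h888 e) p
        + ((s1g888 p.1 p.2 : ℝ) : ℂ) * Function.uncurry (s0h1_888 e) p := by
    funext ⟨t, φ⟩; rfl
  rw [this]
  exact ((Complex.continuous_ofReal.comp s1g1_cont888).mul (s0h_cont888 e)).add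
    ((Complex.continuous_ofReal.comp s1g_cont888).mul (s0h1_cont888 e))

theorem s1h2_cont888 (e : ℂ) : Continuous (Function.uncurry (s1h2_888 e)) := by
  have : Function.uncurry (s1h2_888 e) = fun p : ℝ × ℝ =>
      ((s1g2_888 p.1 p.2 : ℝ) : ℂ) * Function.uncurry (s0h888 e) p
        + ((s1g1_888 p.1 p.2 : ℝ) : ℂ) * Function.uncurry (s0h1_888 e) p
        + (((s1g1_888 p.1 p.2 : ℝ) : ℂ) * Function.uncurry (s0h1_888 e) p
          + ((s1g888 p.1 p.2 : ℝ) : ℂ) * Function.uncurry (s0h2_888 e) p) := by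
    funext ⟨t, φ⟩; rfl
  rw [this]
  have a0 := Complex.continuous_ofReal.comp s1g_cont888
  have a1 := Complex.continuous_ofReal.comp s1g1_cont888
  have a2 := Complex.continuous_ofReal.comp s1g2_cont888
  exact ((a2.mul (s0h_cont888 e)).add (a1.mul (s0h1_cont888 e))).add
    ((a1.mul (s0h1_cont888 e)).add (a0.mul (s0h2_cont888 e)))

theorem s1Psi'_cont888 (e : ℂ) (t : ℝ) : Continuous (s1Psi'888 e t) := by
  have c0 : Continuous (fun φ : ℝ => eta888 t φ) := by unfold eta888; fun_prop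
  have p0 := pw_cont888 e c0 (fun φ => eta_pos888 t φ)
  have p1 := pw_cont888 (e - 1) c0 (fun φ => eta_pos888 t φ)
  have p2 := pw_cont888 (e - 1 - 1) c0 (fun φ => eta_pos888 t φ)
  have c3 : Continuous (fun φ : ℝ => ((Real.sin φ * Real.sinh t : ℝ) : ℂ)) :=
    Complex.continuous_ofReal.comp (by fun_prop)
  have c4 : Continuous (fun φ : ℝ => ((Real.sin φ : ℝ) : ℂ)) :=
    Complex.continuous_ofReal.comp (by fun_prop)
  have c5 : Continuous (fun φ : ℝ => ((Real.cos φ : ℝ) : ℂ)) :=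
    Complex.continuous_ofReal.comp (by fun_prop)
  have c6 : Continuous (fun φ : ℝ => (1 : ℂ) + ((eta888 t φ : ℝ) : ℂ)) :=
    continuous_const.add (Complex.continuous_ofReal.comp c0)
  unfold s1Psi'888
  exact (c5.mul ((continuous_const.mul p0).sub ((continuous_const.mul c6).mul p1))).add
    (c4.mul ((continuous_const.mul ((continuous_const.mul p1).mul c3)).sub
      (continuous_const.mul ((c3.mul p1).add (c6.mul ((continuous_const.mul p2).mul c3))))))

theorem s1_id888 (n : ℤ) (hn : n ≠ 0) (e : ℂ) (t φ : ℝ) :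
    ((wtA888 n t : ℝ) : ℂ) * s1h2_888 e t φ + ((wtA'888 n t : ℝ) : ℂ) * s1h1_888 e t φ
      = ((wtA888 n t : ℝ) : ℂ) * (e * (e + 2) * s1h888 e t φ) + s1Psi'888 e t φ := by
  have hA : wtA888 n t = Real.sinh t * (1 + Real.cosh t) := by simp [wtA888, hn]
  have hA' : wtA'888 n t
      = Real.cosh t * (1 + Real.cosh t) + Real.sinh t * Real.sinh t := by simp [wtA'888, hn]
  have hpos := eta_pos888 t φ
  have e1 : pw888 (e - 1) (eta888 t φ)
      = ((eta888 t φ : ℝ) : ℂ) * pw888 (e - 1 - 1) (eta888 t φ) := by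
    have := pw_succ888 (e - 1 - 1) hpos
    rwa [sub_add_cancel] at this
  have e0 : pw888 e (eta888 t φ)
      = ((eta888 t φ : ℝ) : ℂ) ^ 2 * pw888 (e - 1 - 1) (eta888 t φ) := by
    have := pw_succ888 (e - 1) hpos
    rw [sub_add_cancel] at this
    rw [this, e1]; ring
  have r1 : ((Real.sinh t : ℝ) : ℂ) ^ 2 = ((Real.cosh t : ℝ) : ℂ) ^ 2 - 1 := by
    have := Real.cosh_sq t
    have h : Real.sinh t ^ 2 = Real.cosh t ^ 2 - 1 := by linarith
    exact_mod_cast h
  have r2 : ((Real.sin φ : ℝ) : ℂ) ^ 2 = 1 - ((Real.cos φ : ℝ) : ℂ) ^ 2 := by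
    have := Real.sin_sq_add_cos_sq φ
    have h : Real.sin φ ^ 2 = 1 - Real.cos φ ^ 2 := by linarith
    exact_mod_cast h
  have r3 : ((Real.cosh t : ℝ) : ℂ) * ((wInv888 t : ℝ) : ℂ) = 1 - ((wInv888 t : ℝ) : ℂ) := by
    exact_mod_cast wInv_rel888 t
  have key := sph1_alg888 (Real.cosh t) (Real.sinh t) (wInv888 t) (Real.cos φ) (Real.sin φ) e
    (pw888 (e - 1 - 1) (eta888 t φ)) r1 r2 r3
  unfold s1h2_888 s1h1_888 s1h888 s1Psi'888 s0h2_888 s0h1_888 s0h888
  rw [hA, hA', e0, e1]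
  have c1 : ((eta888 t φ : ℝ) : ℂ)
      = ((Real.cosh t : ℝ) : ℂ) - ((Real.cos φ : ℝ) : ℂ) * ((Real.sinh t : ℝ) : ℂ) := by
    unfold eta888; push_cast; ring
  have c2 : ((etaT888 t φ : ℝ) : ℂ)
      = ((Real.sinh t : ℝ) : ℂ) - ((Real.cos φ : ℝ) : ℂ) * ((Real.cosh t : ℝ) : ℂ) := by
    unfold etaT888; push_cast; ring
  have c3 : ((Real.sin φ * Real.sinh t : ℝ) : ℂ)
      = ((Real.sin φ : ℝ) : ℂ) * ((Real.sinh t : ℝ) : ℂ) := by push_cast; ring
  have c4 : ((s1g888 t φ : ℝ) : ℂ)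
      = 1 - ((Real.cos φ : ℝ) : ℂ) * (((Real.sinh t : ℝ) : ℂ) * ((wInv888 t : ℝ) : ℂ)) := by
    unfold s1g888 tH888; push_cast; ring
  have c5 : ((s1g1_888 t φ : ℝ) : ℂ)
      = -(((Real.cos φ : ℝ) : ℂ) * ((wInv888 t : ℝ) : ℂ)) := by
    unfold s1g1_888; push_cast; ring
  have c6 : ((s1g2_888 t φ : ℝ) : ℂ)
      = ((Real.cos φ : ℝ) : ℂ) * (((Real.sinh t : ℝ) : ℂ) * ((wInv888 t : ℝ) : ℂ) ^ 2) := by
    unfold s1g2_888; push_cast; ring
  have c7 : ((Real.sinh t * (1 + Real.cosh t) : ℝ) : ℂ)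
      = ((Real.sinh t : ℝ) : ℂ) * (1 + ((Real.cosh t : ℝ) : ℂ)) := by push_cast; ring
  have c8 : ((Real.cosh t * (1 + Real.cosh t) + Real.sinh t * Real.sinh t : ℝ) : ℂ)
      = ((Real.cosh t : ℝ) : ℂ) * (1 + ((Real.cosh t : ℝ) : ℂ))
        + ((Real.sinh t : ℝ) : ℂ) * ((Real.sinh t : ℝ) : ℂ) := by push_cast; ring
  rw [c1, c2, c3, c4, c5, c6, c7, c8]
  exact key

/-- The normalised spherical function of weight `±1` (exponent `e = -s - 1`). -/
def ps1_888 (e : ℂ) (t : ℝ) : ℂ :=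
  ((1 / (2 * Real.pi) : ℝ) : ℂ) * ∫ φ in (0:ℝ)..(2 * Real.pi), s1h888 e t φ

theorem ps1_cont888 (e : ℂ) : Continuous (ps1_888 e) :=
  continuous_const.mul (cont_pint888 (s1h_cont888 e) 0 (2 * Real.pi))

theorem sph1_volterra888 (n : ℤ) (hn : n ≠ 0) (e : ℂ) (T : ℝ) (hT : 0 ≤ T) :
    ps1_888 e T = 1 + e * (e + 2) * gL888 n (ps1_888 e) T := by
  have hk : Continuous (Function.uncurry (fun t φ => e * (e + 2) * s1h888 e t φ)) := by
    have := (s1h_cont888 e)
    exact continuous_const.mul this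
  have hper : ∀ t, s1Psi888 e t (2 * Real.pi) = s1Psi888 e t 0 := by
    intro t; simp [s1Psi888]
  have main := avg_volterra888 n (h := s1h888 e) (h1 := s1h1_888 e) (h2 := s1h2_888 e)
    (k := fun t φ => e * (e + 2) * s1h888 e t φ) (Ψ := s1Psi888 e) (Ψ' := s1Psi'888 e)
    (s1h_hasDerivAt888 e) (s1h1_hasDerivAt888 e) (s1h_cont888 e) (s1h1_cont888 e)
    (s1h2_cont888 e) hk (s1Psi_hasDerivAt888 e) (s1Psi'_cont888 e) hper (s1_id888 n hn e) T hT
  have h0 : (∫ φ in (0:ℝ)..(2 * Real.pi), s1h888 e 0 φ) = ((2 * Real.pi : ℝ) : ℂ) := by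
    have : ∀ φ, s1h888 e 0 φ = 1 := fun φ => by
      unfold s1h888 s0h888 s1g888 tH888
      rw [eta_zero888, pw_at_one888]
      simp
    simp only [this]
    simp
  have hg : (fun q => ∫ φ in (0:ℝ)..(2 * Real.pi), e * (e + 2) * s1h888 e q φ)
      = fun q => (e * (e + 2) * ((2 * Real.pi : ℝ) : ℂ)) * ps1_888 e q := by
    funext q
    rw [intervalIntegral.integral_const_mul]
    unfold ps1_888
    have hpi : ((2 * Real.pi : ℝ) : ℂ) ≠ 0 := by
      exact_mod_cast (by positivity : (2 * Real.pi : ℝ) ≠ 0)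
    push_cast
    push_cast at hpi
    field_simp
  rw [hg, gL_const_mul888, h0] at main
  have e2 : ps1_888 e T
      = ((1 / (2 * Real.pi) : ℝ) : ℂ) * ∫ φ in (0:ℝ)..(2 * Real.pi), s1h888 e T φ := rfl
  rw [e2, main]
  have hpi : ((2 * Real.pi : ℝ) : ℂ) ≠ 0 := by
    exact_mod_cast (by positivity : (2 * Real.pi : ℝ) ≠ 0)
  push_cast
  push_cast at hpi
  field_simp

end Fermat.Agent.LT.T6.H888

end

end
-- ===== PACK-END LT/T6/H888/Sph1.lean

-- ===== PACK-BEGIN LT/T7/H872/ConvTest.lean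
section






/-!
# Row LT, tower T7, asset T7.S0 `ConvTestC` (helper872): the convolution of two test functions
# of T5 is a test function

OFF-MAIN.  Complete proofs, nothing assumed.

    isTestFn_conv872 : 𝔫 ≠ ⊥ → μ.IsHaarMeasure → IsTestFn 𝔫 τ φ₁ → IsTestFn 𝔫 τ φ₂ →
      IsTestFn 𝔫 τ (conv μ φ₁ φ₂)

(`T5/Spec.lean` v4, sha256 f2d97e70.)  This is the first component of `T7.IsAdm5` for
`φ = conv μ φ₁ φ₂` (`T7/Matching.lean`), i.e. the hypothesis `IsTestFn` of `T5.GeomUnfold` and of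
`T7.GeomC` for the products of two Eisenstein-killing test functions.

## Proof

* continuity, compact support (`supp ⊆ supp φ₁ · supp φ₂`), bi-invariance (left invariance of
  `μ`): elementary.
* `IsSmoothAtInf (conv μ φ₁ φ₂)`: `t ↦ ∫ φ₁(y) φ₂(y⁻¹ g h(t)) dμ(y)`.  For `y` in the open
  neighbourhood `V(y₀) = {y : y⁻¹ y₀ ∈ interior (nbInf ∩ FinLevel 𝔫)}` of `y₀`
  (`𝔫 ≠ 0`: `T2.H187.levelNhdsC187`) write `y⁻¹ y₀ = u · A(X(y))`, `u ∈ U(𝔫)`, `A` the chart
  `1 + ρ(X)` at infinity of helper437 with the EXPLICIT measurable coordinates `X(y)`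
  (`rhoInv872`).  Left invariance of `φ₂` under `U(𝔫)` gives
  `φ₂(y⁻¹ g h(t)) = φ₂(g' · Y(X(y), t))`, `g' = y₀⁻¹ g`, `Y(X, t) = g'⁻¹ A(X) g' h(t)` a smooth
  family supported at infinity, so `Φ(X, t) = φ₂(g' Y(X,t))` is smooth by `IsSmoothAtInf φ₂`.
  `contDiff_paramIntegral872` (Mathlib only: a parametric integral `∫ Φ(σ(y), t) dν(y)` of a
  smooth `Φ` against a finite measure, `σ` measurable and bounded, is smooth -- from
  `contDiffOn_convolution_right_with_param` for the push-forward measure) makes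
  `t ↦ ∫_{S} φ₁(y) φ₂(y⁻¹ g h(t)) dμ(y)` smooth for every measurable `S ⊆ V(y₀) ∩ supp φ₁`;
  `IsCompact.induction_on` glues finitely many charts.
  (FALSE for `𝔫 = 0`: no local constancy in the finite variables.)
-/

set_option autoImplicit false
set_option linter.unusedSectionVars false
set_option linter.style.haveILetI false

open IsDedekindDomain NumberField MeasureTheory Set Function
open scoped ContDiff Convolution Topology
open Fermat.Agent.LT.H556.A0 Fermat.Agent.LT.T5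
open Fermat.Agent.LT.T1.H724 Fermat.Agent.LT.T2.H724 Fermat.Agent.LT.T2.H437

noncomputable section

namespace Fermat.Agent.LT.T7.H872

attribute [local instance] Fermat.Agent.LT.T5.instMeasurableSpaceG

/-! ## 1. Parametric integrals (Mathlib only) -/

/-- **Parametric integrals of smooth functions.**  If `Φ` is smooth on `E × P`, `ν` is a finite
measure and `σ` is a measurable map with (almost everywhere) bounded values, then
`p ↦ ∫ Φ (σ y, p) dν(y)` is smooth. -/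
theorem contDiff_paramIntegral872 {Y : Type*} [MeasurableSpace Y] (ν : Measure Y)
    [IsFiniteMeasure ν]
    {E P : Type*} [NormedAddCommGroup E] [NormedSpace ℝ E] [FiniteDimensional ℝ E]
    [MeasurableSpace E] [BorelSpace E]
    [NormedAddCommGroup P] [NormedSpace ℝ P]
    (Φ : E × P → ℂ) (hΦ : ContDiff ℝ ∞ Φ) (σ : Y → E) (hσ : Measurable σ) (R : ℝ)
    (hR : ∀ᵐ y ∂ν, ‖σ y‖ ≤ R) :
    ContDiff ℝ ∞ (fun p : P => ∫ y, Φ (σ y, p) ∂ν) := by
  classical
  set R' : ℝ := max R 0 + 1 with hR'def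
  have hR'pos : 0 < R' := by positivity
  have hRR' : R ≤ R' := by
    have := le_max_left R 0
    linarith
  let χ : ContDiffBump (0 : E) := ⟨R', R' + 1, hR'pos, by linarith⟩
  let lam : Measure E := Measure.map σ ν
  have hlam : IsFiniteMeasure lam := Measure.isFiniteMeasure_map ν σ
  let g : P → E → ℂ := fun p x => ((χ (-x) : ℝ) : ℂ) * Φ (-x, p)
  let f : E → ℂ := fun _ => 1
  let L : ℂ →L[ℝ] ℂ →L[ℝ] ℂ := ContinuousLinearMap.mul ℝ ℂ
  have hgs : ∀ p, ∀ x, p ∈ (univ : Set P) → x ∉ Metric.closedBall (0 : E) (R' + 1) →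
      g p x = 0 := by
    intro p x _ hx
    have h1 : χ (-x) = 0 := by
      apply χ.zero_of_le_dist
      rw [Metric.mem_closedBall, not_le, dist_zero_right] at hx
      rw [dist_zero_right, norm_neg]
      exact hx.le
    simp only [g, h1, Complex.ofReal_zero, zero_mul]
  have hf : LocallyIntegrable f lam := (integrable_const (1 : ℂ)).locallyIntegrable
  have hχ : ContDiff ℝ ∞ (fun x : E => χ x) := χ.contDiff
  have hg : ContDiffOn ℝ ∞ (↿g) ((univ : Set P) ×ˢ (univ : Set E)) := by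
    apply ContDiff.contDiffOn
    have h1 : ContDiff ℝ ∞ (fun q : P × E => ((χ (-q.2) : ℝ) : ℂ)) :=
      Complex.ofRealCLM.contDiff.comp (hχ.comp contDiff_snd.neg)
    have h2 : ContDiff ℝ ∞ (fun q : P × E => Φ (-q.2, q.1)) :=
      hΦ.comp ((contDiff_snd.neg).prodMk contDiff_fst)
    exact h1.mul h2
  have key := contDiffOn_convolution_right_with_param (μ := lam) (f := f) (n := ⊤) L
    (g := g) (s := univ) (k := Metric.closedBall (0 : E) (R' + 1)) isOpen_univ
    (isCompact_closedBall _ _) hgs hf hg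
  rw [univ_prod_univ, contDiffOn_univ] at key
  have h2 : ContDiff ℝ ∞ (fun p : P => (p, (0 : E))) := contDiff_id.prodMk contDiff_const
  have h3 := key.comp h2
  have e : (fun p : P => ∫ y, Φ (σ y, p) ∂ν)
      = (fun q : P × E => (f ⋆[L, lam] g q.1) q.2) ∘ fun p : P => (p, (0 : E)) := by
    funext p
    simp only [Function.comp_apply]
    rw [convolution_def]
    have hfun : (fun t : E => L (f t) (g p (0 - t)))
        = fun t : E => ((χ t : ℝ) : ℂ) * Φ (t, p) := by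
      funext t
      simp [L, f, g]
    rw [hfun]
    have hm : AEStronglyMeasurable (fun t : E => ((χ t : ℝ) : ℂ) * Φ (t, p))
        (Measure.map σ ν) := by
      apply Continuous.aestronglyMeasurable
      have c1 : Continuous (fun t : E => ((χ t : ℝ) : ℂ)) :=
        Complex.continuous_ofReal.comp hχ.continuous
      have c2 : Continuous (fun t : E => Φ (t, p)) :=
        hΦ.continuous.comp (by fun_prop)
      exact c1.mul c2
    rw [integral_map hσ.aemeasurable hm]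
    refine integral_congr_ae ?_
    filter_upwards [hR] with y hy
    have h1 : χ (σ y) = 1 := by
      apply χ.one_of_mem_closedBall
      rw [Metric.mem_closedBall, dist_zero_right]
      exact hy.trans hRR'
    simp [h1]
  rw [e]
  exact h3

/-! ## 2. The inverse of the one-dimensional chart of helper437 -/

/-- The inverse of `rho437` on `(-1/8, 1/8)`. -/
def rhoInv872 (y : ℝ) : ℝ := 8 * y / Real.sqrt (1 - 64 * y ^ 2)

theorem measurable_rhoInv872 : Measurable rhoInv872 := by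
  unfold rhoInv872
  exact (measurable_const.mul measurable_id).div
    (Real.continuous_sqrt.measurable.comp
      (measurable_const.sub (measurable_const.mul (measurable_id.pow_const 2))))

theorem rho_rhoInv872 {y : ℝ} (hy : |y| < 1 / 8) : rho437 (rhoInv872 y) = y := by
  have hy' := abs_lt.mp hy
  have hpos : 0 < 1 - 64 * y ^ 2 := by nlinarith
  set s := Real.sqrt (1 - 64 * y ^ 2) with hs
  have hs0 : 0 < s := Real.sqrt_pos.mpr hpos
  have hs2 : s ^ 2 = 1 - 64 * y ^ 2 := Real.sq_sqrt hpos.le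
  have h1 : 1 + (8 * y / s) ^ 2 = (1 / s) ^ 2 := by
    field_simp
    nlinarith
  unfold rho437 rhoInv872
  rw [← hs, h1, Real.sqrt_sq (by positivity)]
  field_simp

theorem abs_rhoInv_le872 {y : ℝ} (hy : |y| ≤ 1 / 16) : |rhoInv872 y| ≤ 1 := by
  have hy' := abs_le.mp hy
  have hpos : (1 / 2 : ℝ) ^ 2 ≤ 1 - 64 * y ^ 2 := by nlinarith
  have hs : (1 / 2 : ℝ) ≤ Real.sqrt (1 - 64 * y ^ 2) := Real.le_sqrt_of_sq_le hpos
  unfold rhoInv872
  rw [abs_div, abs_of_pos (by linarith : 0 < Real.sqrt (1 - 64 * y ^ 2)),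
    div_le_one (by linarith)]
  rw [abs_mul, abs_of_pos (by norm_num : (0 : ℝ) < 8)]
  linarith

/-! ## 3. Explicit measurable chart coordinates at infinity -/

variable {K : Type} [Field K] [NumberField K]

theorem borelSpaceG872 (K : Type) [Field K] [NumberField K] : BorelSpace (G K) := ⟨rfl⟩

/-- The explicit chart coordinates of an element near `1` at infinity. -/
def coordX872 (x : G K) : MatCoord437 K := fun w i j b =>
  rhoInv872 (if b then ((infComp w x - 1) i j).im else ((infComp w x - 1) i j).re)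

theorem abs_coord_le872 {x : G K} (hx : x ∈ nbInf437 K) (w : InfinitePlace K) (i j : Fin 2)
    (b : Bool) :
    |if b then ((infComp w x - 1) i j).im else ((infComp w x - 1) i j).re| ≤ 1 / 16 := by
  have h := (hx w i j).le
  by_cases hb : b = true
  · simp only [hb, if_true]
    exact (Complex.abs_im_le_norm _).trans h
  · simp only [hb, Bool.false_eq_true, if_false]
    exact (Complex.abs_re_le_norm _).trans h

theorem abs_coordX_le872 {x : G K} (hx : x ∈ nbInf437 K) (w : InfinitePlace K) (i j : Fin 2)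
    (b : Bool) : |coordX872 x w i j b| ≤ 1 :=
  abs_rhoInv_le872 (abs_coord_le872 hx w i j b)

/-- An element of the neighbourhood `nbInf437` has its infinite part in the chart, with the
explicit coordinates `coordX872`. -/
theorem pInf_eq_chart872 {x : G K} (hx : x ∈ nbInf437 K) :
    pInf437 x = chartG437 (coordX872 x) := by
  have hXe : ∀ (w : InfinitePlace K) (i j : Fin 2) (b : Bool), rho437 (coordX872 x w i j b)
      = if b then ((infComp w x - 1) i j).im else ((infComp w x - 1) i j).re := by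
    intro w i j b
    apply rho_rhoInv872
    have := abs_coord_le872 hx w i j b
    linarith
  refine gK_ext437 (fun w => ?_) (fun v => ?_)
  · rw [cGL_pInf437]
    apply Units.ext
    rw [cGL_val437, cGL_val437, cInf_chartG437]
    ext i j
    have hz : (infComp w x - 1) i j = InfinitePlace.Completion.extensionEmbedding w
        (cInf724 w x i j - (1 : Matrix (Fin 2) (Fin 2) w.Completion) i j) := by
      rw [Matrix.sub_apply, map_sub, infComp_eq_cInf724, Matrix.map_apply]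
      congr 1
      rw [Matrix.one_apply, Matrix.one_apply]
      split_ifs
      · exact (map_one _).symm
      · exact (map_zero _).symm
    have h1 := hXe w i j false
    have h2 := hXe w i j true
    simp only [Bool.false_eq_true, if_false, if_true] at h1 h2
    simp only [chartMat437, Matrix.add_apply, Matrix.of_apply]
    rw [h1, h2, hz, kap_coord437]
    exact (add_sub_cancel _ _).symm
  · rw [fGL_pInf437, fGL_chartG437]

theorem measurable_coordX872 (y₀ : G K) :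
    Measurable (fun y : G K => coordX872 (y⁻¹ * y₀)) := by
  haveI := borelSpaceG872 K
  refine measurable_pi_iff.mpr fun w => measurable_pi_iff.mpr fun i =>
    measurable_pi_iff.mpr fun j => measurable_pi_iff.mpr fun b => ?_
  have hc : Continuous (fun y : G K => (infComp w (y⁻¹ * y₀) - 1) i j) := by
    simp only [Matrix.sub_apply]
    exact ((continuous_infComp437 w i j).comp (continuous_inv.mul continuous_const)).sub
      continuous_const
  unfold coordX872
  apply measurable_rhoInv872.comp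
  cases b
  · simp only [Bool.false_eq_true, if_false]
    exact Complex.measurable_re.comp hc.measurable
  · simp only [if_true]
    exact Complex.measurable_im.comp hc.measurable

/-- `x = u · P∞ x` with `u = (P∞ x)⁻¹ x` (the two parts commute). -/
theorem pInf_comm872 (x : G K) : (pInf437 x)⁻¹ * x * pInf437 x = x := by
  refine gK_ext437 (fun w => ?_) (fun v => ?_)
  · simp only [map_mul, map_inv, cGL_pInf437]
    group
  · simp only [map_mul, map_inv, fGL_pInf437]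
    group

/-! ## 4. The smooth family of a chart -/

section Family

variable {n : ℕ}

/-- The number of parameters `(X, t)`. -/
def mPar872 (K : Type) [Field K] [NumberField K] (n : ℕ) : ℕ :=
  Fintype.card ((InfinitePlace K × Fin 2 × Fin 2 × Bool) ⊕ Fin n)

/-- The enumeration of the parameters. -/
def ePar872 (K : Type) [Field K] [NumberField K] (n : ℕ) :
    ((InfinitePlace K × Fin 2 × Fin 2 × Bool) ⊕ Fin n) ≃ Fin (mPar872 K n) :=
  Fintype.equivFin _

/-- The matrix coordinates of a parameter. -/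
def parX872 (q : Fin (mPar872 K n) → ℝ) : MatCoord437 K :=
  fun w i j b => q (ePar872 K n (Sum.inl (w, i, j, b)))

/-- The time coordinates of a parameter. -/
def parT872 (q : Fin (mPar872 K n) → ℝ) : Fin n → ℝ :=
  fun k => q (ePar872 K n (Sum.inr k))

/-- The parameter with the coordinates `(X, t)`. -/
def join872 (X : MatCoord437 K) (t : Fin n → ℝ) : Fin (mPar872 K n) → ℝ := fun k =>
  match (ePar872 K n).symm k with
  | Sum.inl (w, i, j, b) => X w i j b
  | Sum.inr k' => t k'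

theorem parX_join872 (X : MatCoord437 K) (t : Fin n → ℝ) : parX872 (join872 X t) = X := by
  funext w i j b
  simp [parX872, join872]

theorem parT_join872 (X : MatCoord437 K) (t : Fin n → ℝ) : parT872 (join872 X t) = t := by
  funext k
  simp [parT872, join872]

theorem contDiff_parT872 :
    ContDiff ℝ ∞ (fun q : Fin (mPar872 K n) → ℝ => (parT872 q : Fin n → ℝ)) :=
  contDiff_pi.mpr fun _ => contDiff_apply ℝ ℝ _

theorem contDiff_join872 :
    ContDiff ℝ ∞ (fun p : MatCoord437 K × (Fin n → ℝ) =>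
      (join872 p.1 p.2 : Fin (mPar872 K n) → ℝ)) := by
  refine contDiff_pi.mpr fun k => ?_
  unfold join872
  rcases h : (ePar872 K n).symm k with ⟨w, i, j, b⟩ | k'
  · exact (contDiff_apply ℝ ℝ b).comp ((contDiff_apply ℝ (Bool → ℝ) j).comp
      ((contDiff_apply ℝ (Fin 2 → Bool → ℝ) i).comp
        ((contDiff_apply ℝ (Fin 2 → Fin 2 → Bool → ℝ) w).comp contDiff_fst)))
  · exact (contDiff_apply ℝ ℝ k').comp contDiff_snd

/-- The family `Y(X, t) = g'⁻¹ A(X) g' h(t)`. -/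
def fam872 (g' : G K) (h : (Fin n → ℝ) → G K) (q : Fin (mPar872 K n) → ℝ) : G K :=
  g'⁻¹ * chartG437 (parX872 q) * g' * h (parT872 q)

theorem smooth_chart872 (w : InfinitePlace K) :
    SmoothMat437 (fun q : Fin (mPar872 K n) → ℝ => infComp w (chartG437 (parX872 q))) := by
  intro i j
  simp only [infComp_chartG437, chartC437, Matrix.add_apply, Matrix.of_apply, parX872]
  exact contDiff_const.add (contDiff_kapC437 w
    (contDiff_rho437.comp (contDiff_apply ℝ ℝ _)) (contDiff_rho437.comp (contDiff_apply ℝ ℝ _)))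

theorem smooth_fam872 (g' : G K) {h : (Fin n → ℝ) → G K}
    (hh : ∀ (w : InfinitePlace K) (i j : Fin 2), ContDiff ℝ ∞ (fun t => infComp w (h t) i j))
    (w : InfinitePlace K) :
    SmoothMat437 (fun q : Fin (mPar872 K n) → ℝ => infComp w (fam872 g' h q)) := by
  have hH : SmoothMat437 (fun q : Fin (mPar872 K n) → ℝ => infComp w (h (parT872 q))) :=
    fun i j => (hh w i j).comp contDiff_parT872
  have e : (fun q : Fin (mPar872 K n) → ℝ => infComp w (fam872 g' h q))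
      = fun q => infComp w g'⁻¹ * infComp w (chartG437 (parX872 q)) * infComp w g' *
          infComp w (h (parT872 q)) := by
    funext q
    simp only [fam872, infComp_mul437]
  rw [e]
  exact (((smoothMat_const437 _).mul (smooth_chart872 w)).mul (smoothMat_const437 _)).mul hH

theorem trivAtFin_fam872 (g' : G K) {h : (Fin n → ℝ) → G K}
    (hfin : ∀ (t : Fin n → ℝ) (v : HeightOneSpectrum (𝓞 K)), TrivAtFin v (h t))
    (q : Fin (mPar872 K n) → ℝ) (v : HeightOneSpectrum (𝓞 K)) :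
    TrivAtFin v (fam872 g' h q) := by
  have h1 : fGL437 v (fam872 g' h q) = 1 := by
    unfold fam872
    simp only [map_mul, map_inv, fGL_chartG437, fGL_eq_one_of437 (hfin _ v), mul_one,
      inv_mul_cancel]
  have := congrArg Units.val h1
  rwa [fGL_val437, Units.val_one] at this

/-- The function of the chart is smooth. -/
theorem contDiff_chartFn872 {φ : G K → ℂ} (hφ : IsSmoothAtInf φ) (g' : G K)
    {h : (Fin n → ℝ) → G K}
    (hfin : ∀ (t : Fin n → ℝ) (v : HeightOneSpectrum (𝓞 K)), TrivAtFin v (h t))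
    (hh : ∀ (w : InfinitePlace K) (i j : Fin 2), ContDiff ℝ ∞ (fun t => infComp w (h t) i j)) :
    ContDiff ℝ ∞ (fun q : Fin (mPar872 K n) → ℝ => φ (g' * fam872 g' h q)) :=
  hφ (mPar872 K n) (fam872 g' h) (fun q v => trivAtFin_fam872 g' hfin q v)
    (fun w i j => smooth_fam872 g' hh w i j) g'

/-- **The chart identity.**  For `y` with `y⁻¹ y₀` in the chart neighbourhood:
`φ(y⁻¹ g h(t)) = φ(g' · Y(X(y), t))`, `g' = y₀⁻¹ g`. -/
theorem chart_identity872 {𝔫 : Ideal (𝓞 K)} {φ : G K → ℂ}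
    (hL : ∀ u : G K, InLevelGroup 𝔫 u → ∀ g : G K, φ (u * g) = φ g) (y₀ g y : G K)
    (h : (Fin n → ℝ) → G K) (t : Fin n → ℝ) (hx1 : y⁻¹ * y₀ ∈ nbInf437 K)
    (hx2 : FinLevel437 𝔫 (y⁻¹ * y₀)) :
    φ (y⁻¹ * (g * h t))
      = φ ((y₀⁻¹ * g) * fam872 (y₀⁻¹ * g) h (join872 (coordX872 (y⁻¹ * y₀)) t)) := by
  set x := y⁻¹ * y₀ with hx
  have hu := inLevelGroup_finPart437 hx2
  have e1 : y⁻¹ * (g * h t) = ((pInf437 x)⁻¹ * x) * (pInf437 x * ((y₀⁻¹ * g) * h t)) := by
    have hc := pInf_comm872 x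
    calc y⁻¹ * (g * h t) = x * ((y₀⁻¹ * g) * h t) := by
          rw [hx]; group
      _ = ((pInf437 x)⁻¹ * x * pInf437 x) * ((y₀⁻¹ * g) * h t) := by rw [hc]
      _ = ((pInf437 x)⁻¹ * x) * (pInf437 x * ((y₀⁻¹ * g) * h t)) := by group
  rw [e1, hL _ hu]
  congr 1
  unfold fam872
  rw [parX_join872, parT_join872, ← pInf_eq_chart872 hx1]
  group

end Family

/-! ## 5. Smoothness of the integral over a measurable subset of a chart -/

section Local

variable {n : ℕ}

/-- The chart neighbourhood of `y₀`. -/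
def chartNb872 (𝔫 : Ideal (𝓞 K)) (y₀ : G K) : Set (G K) :=
  {y | y⁻¹ * y₀ ∈ interior (nbInf437 K ∩ {x : G K | FinLevel437 𝔫 x})}

theorem isOpen_chartNb872 (𝔫 : Ideal (𝓞 K)) (y₀ : G K) : IsOpen (chartNb872 𝔫 y₀) :=
  isOpen_interior.preimage (continuous_inv.mul continuous_const)

theorem mem_chartNb872 {𝔫 : Ideal (𝓞 K)} (h𝔫 : 𝔫 ≠ ⊥) (y₀ : G K) : y₀ ∈ chartNb872 𝔫 y₀ := by
  show y₀⁻¹ * y₀ ∈ interior (nbInf437 K ∩ {x : G K | FinLevel437 𝔫 x})
  rw [inv_mul_cancel]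
  apply mem_interior_iff_mem_nhds.mpr
  exact Filter.inter_mem (isOpen_nbInf437.mem_nhds one_mem_nbInf437)
    (Fermat.Agent.LT.T2.H187.levelNhdsC187 K 𝔫 h𝔫)

theorem chartNb_sub872 {𝔫 : Ideal (𝓞 K)} {y₀ y : G K} (hy : y ∈ chartNb872 𝔫 y₀) :
    y⁻¹ * y₀ ∈ nbInf437 K ∧ FinLevel437 𝔫 (y⁻¹ * y₀) := by
  have hy' : y⁻¹ * y₀ ∈ interior (nbInf437 K ∩ {x : G K | FinLevel437 𝔫 x}) := hy
  have h2 : y⁻¹ * y₀ ∈ nbInf437 K ∩ {x : G K | FinLevel437 𝔫 x} := interior_subset hy'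
  exact ⟨h2.1, h2.2⟩

theorem contDiff_local872 {μ : Measure (G K)} {𝔫 : Ideal (𝓞 K)} {φ₁ φ₂ : G K → ℂ}
    (h₁c : Continuous φ₁) (h₁b : ∃ C : ℝ, ∀ y, ‖φ₁ y‖ ≤ C)
    (h₂s : IsSmoothAtInf φ₂)
    (h₂L : ∀ u : G K, InLevelGroup 𝔫 u → ∀ g : G K, φ₂ (u * g) = φ₂ g)
    (y₀ g : G K) (h : (Fin n → ℝ) → G K)
    (hfin : ∀ (t : Fin n → ℝ) (v : HeightOneSpectrum (𝓞 K)), TrivAtFin v (h t))
    (hh : ∀ (w : InfinitePlace K) (i j : Fin 2), ContDiff ℝ ∞ (fun t => infComp w (h t) i j))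
    (S : Set (G K)) (hS : MeasurableSet S) (hSV : S ⊆ chartNb872 𝔫 y₀) (hSfin : μ S < ⊤) :
    ContDiff ℝ ∞ (fun t : Fin n → ℝ => ∫ y in S, φ₁ y * φ₂ (y⁻¹ * (g * h t)) ∂μ) := by
  haveI := borelSpaceG872 K
  obtain ⟨C, hC⟩ := h₁b
  set g' := y₀⁻¹ * g with hg'
  let Φ : (ℂ × MatCoord437 K) × (Fin n → ℝ) → ℂ :=
    fun p => p.1.1 * φ₂ (g' * fam872 g' h (join872 p.1.2 p.2))
  have hΦ : ContDiff ℝ ∞ Φ := by
    have h1 : ContDiff ℝ ∞ (fun p : (ℂ × MatCoord437 K) × (Fin n → ℝ) => p.1.1) :=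
      contDiff_fst.comp contDiff_fst
    have h2 : ContDiff ℝ ∞ (fun p : (ℂ × MatCoord437 K) × (Fin n → ℝ) =>
        φ₂ (g' * fam872 g' h (join872 p.1.2 p.2))) :=
      (contDiff_chartFn872 h₂s g' hfin hh).comp
        (contDiff_join872.comp ((contDiff_snd.comp contDiff_fst).prodMk contDiff_snd))
    exact h1.mul h2
  let σ : G K → ℂ × MatCoord437 K := fun y => (φ₁ y, coordX872 (y⁻¹ * y₀))
  have hσ : Measurable σ := h₁c.measurable.prodMk (measurable_coordX872 y₀)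
  haveI : IsFiniteMeasure (μ.restrict S) :=
    ⟨by rw [Measure.restrict_apply_univ]; exact hSfin⟩
  have hR : ∀ᵐ y ∂(μ.restrict S), ‖σ y‖ ≤ max C 1 := by
    refine ae_restrict_of_forall_mem hS fun y hy => ?_
    have hy' := (chartNb_sub872 (hSV hy)).1
    rw [Prod.norm_def]
    refine max_le_max (hC y) ?_
    rw [pi_norm_le_iff_of_nonneg zero_le_one]
    intro w
    rw [pi_norm_le_iff_of_nonneg zero_le_one]
    intro i
    rw [pi_norm_le_iff_of_nonneg zero_le_one]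
    intro j
    rw [pi_norm_le_iff_of_nonneg zero_le_one]
    intro b
    rw [Real.norm_eq_abs]
    exact abs_coordX_le872 hy' w i j b
  have key := contDiff_paramIntegral872 (μ.restrict S) Φ hΦ σ hσ (max C 1) hR
  have e : (fun t : Fin n → ℝ => ∫ y in S, φ₁ y * φ₂ (y⁻¹ * (g * h t)) ∂μ)
      = fun t => ∫ y, Φ (σ y, t) ∂(μ.restrict S) := by
    funext t
    refine setIntegral_congr_fun hS fun y hy => ?_
    have hy' := chartNb_sub872 (hSV hy)
    simp only [Φ, σ]
    rw [chart_identity872 h₂L y₀ g y h t hy'.1 hy'.2]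
  rw [e]
  exact key

end Local

/-! ## 6. The convolution is smooth at infinity -/

theorem isSmoothAtInf_conv872 {μ : Measure (G K)} [IsFiniteMeasureOnCompacts μ]
    {𝔫 : Ideal (𝓞 K)} (h𝔫 : 𝔫 ≠ ⊥) {φ₁ φ₂ : G K → ℂ} (h₁c : Continuous φ₁)
    (h₁s : HasCompactSupport φ₁) (h₂c : Continuous φ₂) (h₂s : IsSmoothAtInf φ₂)
    (h₂L : ∀ u : G K, InLevelGroup 𝔫 u → ∀ g : G K, φ₂ (u * g) = φ₂ g) :
    IsSmoothAtInf (conv μ φ₁ φ₂) := by
  intro n h hfin hh g
  haveI := borelSpaceG872 K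
  set C := tsupport φ₁ with hCdef
  have hCc : IsCompact C := h₁s
  have hCm : MeasurableSet C := (isClosed_tsupport φ₁).measurableSet
  have hCfin : μ C < ⊤ := hCc.measure_lt_top
  obtain ⟨B, hB⟩ : ∃ B : ℝ, ∀ y, ‖φ₁ y‖ ≤ B := h₁s.exists_bound_of_continuous h₁c
  have hint : ∀ t : Fin n → ℝ, Integrable (fun y => φ₁ y * φ₂ (y⁻¹ * (g * h t))) μ := by
    intro t
    apply Continuous.integrable_of_hasCompactSupport
    · exact h₁c.mul (h₂c.comp (continuous_inv.mul continuous_const))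
    · exact h₁s.mul_right
  let p : Set (G K) → Prop := fun s => ∃ W : Set (G K), IsOpen W ∧ s ⊆ W ∧
    ∀ S : Set (G K), MeasurableSet S → S ⊆ W ∩ C →
      ContDiff ℝ ∞ (fun t : Fin n → ℝ => ∫ y in S, φ₁ y * φ₂ (y⁻¹ * (g * h t)) ∂μ)
  have hp : p C := by
    refine hCc.induction_on (p := p) ?_ ?_ ?_ ?_
    · refine ⟨∅, isOpen_empty, subset_rfl, fun S _ hS => ?_⟩
      have hS0 : S = ∅ := by
        apply Set.eq_empty_of_forall_notMem
        intro y hy
        exact (hS hy).1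
      subst hS0
      simp only [Measure.restrict_empty, integral_zero_measure]
      exact contDiff_const
    · rintro s t hst ⟨W, hW, htW, hWp⟩
      exact ⟨W, hW, hst.trans htW, hWp⟩
    · rintro s t ⟨Ws, hWs, hsWs, hps⟩ ⟨Wt, hWt, htWt, hpt⟩
      refine ⟨Ws ∪ Wt, hWs.union hWt, union_subset_union hsWs htWt, fun S hS hSW => ?_⟩
      have h1 := hps (S ∩ Ws) (hS.inter hWs.measurableSet) (fun y hy => ⟨hy.2, (hSW hy.1).2⟩)
      have h2 := hpt (S \ Ws) (hS.diff hWs.measurableSet)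
        (fun y hy => ⟨((hSW hy.1).1).resolve_left hy.2, (hSW hy.1).2⟩)
      have e : (fun t : Fin n → ℝ => ∫ y in S, φ₁ y * φ₂ (y⁻¹ * (g * h t)) ∂μ)
          = fun t => (∫ y in S ∩ Ws, φ₁ y * φ₂ (y⁻¹ * (g * h t)) ∂μ)
              + ∫ y in S \ Ws, φ₁ y * φ₂ (y⁻¹ * (g * h t)) ∂μ := by
        funext t
        rw [← setIntegral_union (Set.disjoint_sdiff_inter.symm) (hS.diff hWs.measurableSet)
          (hint t).integrableOn (hint t).integrableOn, Set.inter_union_sdiff]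
      rw [e]
      exact h1.add h2
    · intro x _
      refine ⟨chartNb872 𝔫 x,
        mem_nhdsWithin_of_mem_nhds ((isOpen_chartNb872 𝔫 x).mem_nhds (mem_chartNb872 h𝔫 x)),
        chartNb872 𝔫 x, isOpen_chartNb872 𝔫 x, subset_rfl, fun S hS hSW => ?_⟩
      exact contDiff_local872 h₁c ⟨B, hB⟩ h₂s h₂L x g h hfin hh S hS
        (fun y hy => (hSW hy).1)
        (lt_of_le_of_lt (measure_mono (fun y hy => (hSW hy).2)) hCfin)
  obtain ⟨W, -, hCW, hWp⟩ := hp
  have hfinal := hWp C hCm (fun y hy => ⟨hCW hy, hy⟩)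
  have e : (fun t : Fin n → ℝ => conv μ φ₁ φ₂ (g * h t))
      = fun t => ∫ y in C, φ₁ y * φ₂ (y⁻¹ * (g * h t)) ∂μ := by
    funext t
    unfold conv
    symm
    apply setIntegral_eq_integral_of_forall_compl_eq_zero
    intro y hy
    rw [image_eq_zero_of_notMem_tsupport hy, zero_mul]
  rw [e]
  exact hfinal

/-! ## 7. The convolution of two test functions is a test function -/

theorem continuous_conv872 {μ : Measure (G K)} [IsFiniteMeasureOnCompacts μ]
    {φ₁ φ₂ : G K → ℂ} (h₁c : Continuous φ₁) (h₁s : HasCompactSupport φ₁)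
    (h₂c : Continuous φ₂) : Continuous (conv μ φ₁ φ₂) := by
  haveI := borelSpaceG872 K
  rw [← continuousOn_univ]
  unfold conv
  apply continuousOn_integral_of_compact_support (k := tsupport φ₁) h₁s.isCompact
  · apply Continuous.continuousOn
    have c1 : Continuous fun p : G K × G K => φ₁ p.2 := h₁c.comp continuous_snd
    have c2 : Continuous fun p : G K × G K => φ₂ (p.2⁻¹ * p.1) :=
      h₂c.comp ((continuous_inv.comp continuous_snd).mul continuous_fst)
    exact c1.mul c2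
  · intro p y _ hy
    rw [image_eq_zero_of_notMem_tsupport hy]
    simp

theorem hasCompactSupport_conv872 (μ : Measure (G K)) {φ₁ φ₂ : G K → ℂ}
    (h₁s : HasCompactSupport φ₁) (h₂s : HasCompactSupport φ₂) :
    HasCompactSupport (conv μ φ₁ φ₂) := by
  refine HasCompactSupport.intro (h₁s.isCompact.mul h₂s.isCompact) fun g hg => ?_
  by_contra hne
  exact hg (Fermat.Agent.LT.T5.H599.conv_ne_zero599 μ φ₁ φ₂ g hne)

/-- Left translation of the first factor. -/
theorem conv_left872 {μ : Measure (G K)} [μ.IsMulLeftInvariant] (φ₁ φ₂ : G K → ℂ)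
    (u g : G K) : conv μ φ₁ φ₂ (u * g) = ∫ y, φ₁ (u * y) * φ₂ (y⁻¹ * g) ∂μ := by
  haveI := borelSpaceG872 K
  unfold conv
  rw [← integral_mul_left_eq_self (fun y => φ₁ y * φ₂ (y⁻¹ * (u * g))) u]
  refine integral_congr_ae (Filter.Eventually.of_forall fun y => ?_)
  simp only [mul_inv_rev, mul_assoc, inv_mul_cancel_left]

/-- **The convolution of two test functions of level `𝔫 ≠ 0` and type `τ` is a test function
of level `𝔫` and type `τ`.** -/
theorem isTestFn_conv872 {μ : Measure (G K)} (hμ : μ.IsHaarMeasure) {𝔫 : Ideal (𝓞 K)}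
    (h𝔫 : 𝔫 ≠ ⊥) {τ : G K → ℂ} {φ₁ φ₂ : G K → ℂ} (h₁ : IsTestFn 𝔫 τ φ₁)
    (h₂ : IsTestFn 𝔫 τ φ₂) : IsTestFn 𝔫 τ (conv μ φ₁ φ₂) where
  ktype := h₁.ktype
  cont := continuous_conv872 h₁.cont h₁.supp h₂.cont
  supp := hasCompactSupport_conv872 μ h₁.supp h₂.supp
  smooth := isSmoothAtInf_conv872 h𝔫 h₁.cont h₁.supp h₂.cont h₂.smooth h₂.inv.level_left
  inv :=
    { level_right := fun u hu g => by
        unfold conv
        refine integral_congr_ae (Filter.Eventually.of_forall fun y => ?_)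
        simp only [← mul_assoc, h₂.inv.level_right u hu]
      level_left := fun u hu g => by
        rw [conv_left872]
        unfold conv
        refine integral_congr_ae (Filter.Eventually.of_forall fun y => ?_)
        simp only [h₁.inv.level_left u hu]
      arch_right := fun w k hk g => by
        unfold conv
        rw [← integral_const_mul]
        refine integral_congr_ae (Filter.Eventually.of_forall fun y => ?_)
        simp only [← mul_assoc, h₂.inv.arch_right w k hk]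
        ring
      arch_left := fun w k hk g => by
        rw [conv_left872]
        unfold conv
        rw [← integral_const_mul]
        refine integral_congr_ae (Filter.Eventually.of_forall fun y => ?_)
        simp only [h₁.inv.arch_left w k hk]
        ring }

/-- The same from a frame. -/
theorem isTestFn_conv_of_frame872 {μ : Measure (G K)} {F : Set (G K)} (hF : IsFrame μ F)
    {𝔫 : Ideal (𝓞 K)} (h𝔫 : 𝔫 ≠ ⊥) {τ : G K → ℂ} {φ₁ φ₂ : G K → ℂ}
    (h₁ : IsTestFn 𝔫 τ φ₁) (h₂ : IsTestFn 𝔫 τ φ₂) : IsTestFn 𝔫 τ (conv μ φ₁ φ₂) :=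
  isTestFn_conv872 hF.haar h𝔫 h₁ h₂


end Fermat.Agent.LT.T7.H872

end

end
-- ===== PACK-END LT/T7/H872/ConvTest.lean

-- ===== PACK-BEGIN LT/T7/H277/GeomAlg.lean
section




/-!
# Row LT, tower T7, leaf T7.G1 (helper277, SPARE): the algebra of the class bijection

* `normUpTo_eq_twNorm277`: bridge `T5.AdelicAut.normUpTo` = `T6.twNorm`;
* `normUpTo_conj277`: the norm of `g⁻¹ δ σ(g)` is `g⁻¹ N(δ) g` when `σ^l = 1`;
* `noRoot_of_ellRegOver277`, `isEll_of_noRoot277`: elliptic regular over the fixed field ⇒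
  elliptic in the sense of T6;
* `isConj_of_map277`: two elliptic elements of `GL₂(K)` which are conjugate in `GL₂(K')` are
  conjugate in `GL₂(K)` (companion matrix);
* `isCyclicData277`: `IsCompData` ⇒ `T6.IsCyclicData`.
OFF-MAIN.
-/

set_option autoImplicit false
open IsDedekindDomain NumberField
open scoped MatrixGroups

noncomputable section
namespace Fermat.Agent.LT.T7.H277

open Fermat.Agent.LT.H556.A0 Fermat.Agent.LT

/-! ## Trace and determinant under conjugation and base change -/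

section Field

variable {k : Type} [Field k]

theorem trace_conj277 {a b : GL (Fin 2) k} (h : IsConj a b) :
    (a : Matrix (Fin 2) (Fin 2) k).trace = (b : Matrix (Fin 2) (Fin 2) k).trace := by
  obtain ⟨c, rfl⟩ := isConj_iff.1 h
  exact (Matrix.trace_units_conj c (a : Matrix (Fin 2) (Fin 2) k)).symm

theorem det_conj277 {a b : GL (Fin 2) k} (h : IsConj a b) :
    (a : Matrix (Fin 2) (Fin 2) k).det = (b : Matrix (Fin 2) (Fin 2) k).det := by
  obtain ⟨c, rfl⟩ := isConj_iff.1 h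
  exact (Matrix.det_units_conj c (a : Matrix (Fin 2) (Fin 2) k)).symm

theorem trace_map277 {k' : Type} [Field k'] (i : k →+* k') (γ : GL (Fin 2) k) :
    ((Matrix.GeneralLinearGroup.map i γ : GL (Fin 2) k') : Matrix (Fin 2) (Fin 2) k').trace
      = i (γ : Matrix (Fin 2) (Fin 2) k).trace := by
  show ((γ : Matrix (Fin 2) (Fin 2) k).map i).trace = _
  rw [Matrix.trace_fin_two, Matrix.trace_fin_two]
  simp

theorem det_map277 {k' : Type} [Field k'] (i : k →+* k') (γ : GL (Fin 2) k) :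
    ((Matrix.GeneralLinearGroup.map i γ : GL (Fin 2) k') : Matrix (Fin 2) (Fin 2) k').det
      = i (γ : Matrix (Fin 2) (Fin 2) k).det := by
  show ((γ : Matrix (Fin 2) (Fin 2) k).map i).det = _
  rw [Matrix.det_fin_two, Matrix.det_fin_two]
  simp

/-- `γ` has no eigenvalue in `k`. -/
def NoRoot277 (γ : GL (Fin 2) k) : Prop :=
  ∀ x : k, x ^ 2 - (γ : Matrix (Fin 2) (Fin 2) k).trace * x
    + (γ : Matrix (Fin 2) (Fin 2) k).det ≠ 0

theorem noRoot_conj277 {a b : GL (Fin 2) k} (h : IsConj a b) (ha : NoRoot277 a) :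
    NoRoot277 b := by
  intro x
  rw [← trace_conj277 h, ← det_conj277 h]
  exact ha x

/-- No eigenvalue in `k` (characteristic not `2`) ⇒ elliptic in the sense of T6. -/
theorem isEll_of_noRoot277 [CharZero k] {γ : GL (Fin 2) k} (h : NoRoot277 γ) : T6.IsEll γ := by
  refine ⟨?_, h⟩
  show IsUnit (T6.disc γ)
  rw [isUnit_iff_ne_zero]
  intro h0
  have h0' : (γ : Matrix (Fin 2) (Fin 2) k).trace ^ 2
      - 4 * (γ : Matrix (Fin 2) (Fin 2) k).det = 0 := h0
  apply h ((γ : Matrix (Fin 2) (Fin 2) k).trace / 2)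
  have h2 : (2 : k) ≠ 0 := two_ne_zero
  field_simp
  linear_combination (-1 : k) * h0'

theorem noRoot_of_isEll277 {γ : GL (Fin 2) k} (h : T6.IsEll γ) : NoRoot277 γ := h.2

/-- An element without eigenvalue is not scalar. -/
theorem not_scalar_of_noRoot277 {γ : GL (Fin 2) k} (h : NoRoot277 γ) (c : k) :
    (γ : Matrix (Fin 2) (Fin 2) k) ≠ c • (1 : Matrix (Fin 2) (Fin 2) k) := by
  intro hc
  apply h c
  rw [hc, Matrix.trace_fin_two, Matrix.det_fin_two]
  simp
  ring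

/-- Two elements of `GL₂(k)` without eigenvalue and with the same trace and determinant are
conjugate. -/
theorem isConj_of_trace_det277 {a b : GL (Fin 2) k} (ha : NoRoot277 a)
    (ht : (a : Matrix (Fin 2) (Fin 2) k).trace = (b : Matrix (Fin 2) (Fin 2) k).trace)
    (hd : (a : Matrix (Fin 2) (Fin 2) k).det = (b : Matrix (Fin 2) (Fin 2) k).det) :
    IsConj a b := by
  have hb : NoRoot277 b := by
    intro x
    rw [← ht, ← hd]
    exact ha x
  obtain ⟨x, hx⟩ := T6.H277.companionC277 k (a : Matrix (Fin 2) (Fin 2) k)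
    (not_scalar_of_noRoot277 ha)
  obtain ⟨y, hy⟩ := T6.H277.companionC277 k (b : Matrix (Fin 2) (Fin 2) k)
    (not_scalar_of_noRoot277 hb)
  have hx' : x⁻¹ * a * x = y⁻¹ * b * y := by
    apply Units.ext
    show ((x⁻¹ : GL (Fin 2) k) : Matrix (Fin 2) (Fin 2) k) * (a : Matrix (Fin 2) (Fin 2) k)
        * (x : Matrix (Fin 2) (Fin 2) k)
      = ((y⁻¹ : GL (Fin 2) k) : Matrix (Fin 2) (Fin 2) k) * (b : Matrix (Fin 2) (Fin 2) k)
        * (y : Matrix (Fin 2) (Fin 2) k)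
    rw [hx, hy, ht, hd]
  rw [isConj_iff]
  refine ⟨y * x⁻¹, ?_⟩
  have : a = x * (y⁻¹ * b * y) * x⁻¹ := by
    rw [← hx']; group
  rw [this]; group

/-- Two elements of `GL₂(k)`, one of them without eigenvalue, which are conjugate in `GL₂(k')`
are conjugate in `GL₂(k)`. -/
theorem isConj_of_map277 {k' : Type} [Field k'] (i : k →+* k') {a b : GL (Fin 2) k}
    (ha : NoRoot277 a)
    (h : IsConj (Matrix.GeneralLinearGroup.map i a) (Matrix.GeneralLinearGroup.map i b)) :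
    IsConj a b := by
  apply isConj_of_trace_det277 ha
  · apply i.injective
    rw [← trace_map277, ← trace_map277]
    exact trace_conj277 h
  · apply i.injective
    rw [← det_map277, ← det_map277]
    exact det_conj277 h

theorem isConj_map277 {k' : Type} [Field k'] (i : k →+* k') {a b : GL (Fin 2) k}
    (h : IsConj a b) :
    IsConj (Matrix.GeneralLinearGroup.map i a) (Matrix.GeneralLinearGroup.map i b) := by
  obtain ⟨c, rfl⟩ := isConj_iff.1 h
  rw [isConj_iff]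
  exact ⟨Matrix.GeneralLinearGroup.map i c, by simp⟩

end Field

/-! ## The norm -/

section Norm

variable {K : Type} [Field K] [NumberField K]

theorem normUpTo_eq_twNorm277 (s : T5.AdelicAut K) (n : ℕ) (δ : GL (Fin 2) K) :
    s.normUpTo n δ = T6.twNorm s.σ n δ := by
  induction n with
  | zero => rfl
  | succ n ih =>
    show δ * s.onRat (s.normUpTo n δ) = δ * T6.glAut s.σ (T6.twN (T6.glAut s.σ) n δ)
    rw [ih]
    rfl

theorem normUpTo_one277 (s : T5.AdelicAut K) (δ : GL (Fin 2) K) : s.normUpTo 1 δ = δ := by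
  show δ * s.onRat 1 = δ
  rw [map_one, mul_one]

/-- `N_n(g⁻¹ δ σ(g)) = g⁻¹ N_n(δ) σⁿ(g)`. -/
theorem normUpTo_twConj277 (s : T5.AdelicAut K) (n : ℕ) (δ g : GL (Fin 2) K) :
    s.normUpTo n (g⁻¹ * δ * s.onRat g) = g⁻¹ * s.normUpTo n δ * (s.onRat^[n]) g := by
  induction n with
  | zero =>
    show (1 : GL (Fin 2) K) = g⁻¹ * 1 * g
    simp
  | succ n ih =>
    show g⁻¹ * δ * s.onRat g * s.onRat (s.normUpTo n (g⁻¹ * δ * s.onRat g))
      = g⁻¹ * (δ * s.onRat (s.normUpTo n δ)) * (s.onRat^[n + 1]) g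
    rw [ih, Function.iterate_succ_apply']
    simp only [map_mul, map_inv]
    group

theorem onRat_iterate277 (s : T5.AdelicAut K) (n : ℕ) (g : GL (Fin 2) K) :
    (s.onRat^[n]) g = Matrix.GeneralLinearGroup.map (((s.σ ^ n : K ≃+* K)) : K →+* K) g := by
  induction n with
  | zero =>
    apply Units.ext
    ext i j
    simp [Matrix.GeneralLinearGroup.map]
  | succ n ih =>
    rw [Function.iterate_succ_apply', ih]
    apply Units.ext
    ext i j
    show s.σ (((s.σ ^ n : K ≃+* K)) ((g : Matrix (Fin 2) (Fin 2) K) i j))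
      = ((s.σ ^ (n + 1) : K ≃+* K)) ((g : Matrix (Fin 2) (Fin 2) K) i j)
    rw [pow_succ']
    rfl

theorem onRat_iterate_of_pow277 (s : T5.AdelicAut K) (l : ℕ)
    (h : ∀ x : K, (s.σ ^ l) x = x) (g : GL (Fin 2) K) : (s.onRat^[l]) g = g := by
  rw [onRat_iterate277]
  apply Units.ext
  ext i j
  exact h _

/-- `σ`-conjugate elements have conjugate norms (when `σ^l = 1`). -/
theorem isConj_normUpTo277 (s : T5.AdelicAut K) (l : ℕ) (h : ∀ x : K, (s.σ ^ l) x = x)
    {δ δ' : GL (Fin 2) K} (hc : T5.TwConj s δ δ') :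
    IsConj (s.normUpTo l δ) (s.normUpTo l δ') := by
  obtain ⟨g, rfl⟩ := hc
  rw [normUpTo_twConj277, onRat_iterate_of_pow277 s l h, isConj_iff]
  exact ⟨g⁻¹, by simp⟩

omit [NumberField K] in
/-- Elliptic regular over a subfield ⇒ no eigenvalue in the subfield. -/
theorem noRoot_of_ellRegOver277 (k : Subfield K) {γ : GL (Fin 2) K}
    (h : T5.IsEllRegOver k γ) (x : K) (hx : x ∈ k) :
    x ^ 2 - (γ : Matrix (Fin 2) (Fin 2) K).trace * x
      + (γ : Matrix (Fin 2) (Fin 2) K).det ≠ 0 := by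
  obtain ⟨Q, hQ, hQc⟩ := h
  intro h0
  have hdeg : (Q.map (algebraMap k K)).degree = 2 := by
    rw [hQc, Matrix.charpoly_degree_eq_dim]
    simp
  have hdegQ : Q.degree = 2 := by
    rw [← hdeg, Polynomial.degree_map]
  have hroot : Polynomial.eval (⟨x, hx⟩ : k) Q = 0 := by
    apply (algebraMap k K).injective
    rw [map_zero, ← Polynomial.eval_map_apply, hQc, Matrix.charpoly_fin_two]
    simp only [Polynomial.eval_add, Polynomial.eval_sub, Polynomial.eval_pow,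
      Polynomial.eval_X, Polynomial.eval_mul, Polynomial.eval_C]
    exact h0
  have h1 := Polynomial.degree_eq_one_of_irreducible_of_root hQ hroot
  rw [hdegQ] at h1
  exact absurd h1 (by decide)

end Norm

/-! ## The cyclic data -/

section Data

variable {K K' : Type} [Field K] [NumberField K] [Field K'] [NumberField K'] [Algebra K K']

theorem isCyclicData277 {D : T7.CompData K K'} (hD : T7.IsCompData D) :
    T6.IsCyclicData K K' D.l (algebraMap K K') D.s.σ where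
  pos := hD.cyc.pos
  fix_i := fun x => (hD.cyc.fixed _).1 ((hD.base _).2 ⟨x, rfl⟩)
  fixed := fun y hy => (hD.base y).1 ((hD.cyc.fixed y).2 hy)
  order := hD.cyc.pow_eq
  faithful := hD.cyc.faithful

/-- If the norm of `δ` is elliptic regular over the fixed field and conjugate to (the image of)
`γ ∈ GL₂(K)` then `γ` has no eigenvalue in `K`. -/
theorem noRoot_of_isNormOf277 {D : T7.CompData K K'} (hD : T7.IsCompData D)
    {δ : GL (Fin 2) K'} {γ : GL (Fin 2) K} (hreg : T5.IsEllRegOver D.k (D.s.normUpTo D.l δ))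
    (hn : T7.IsNormOf D δ γ) : NoRoot277 γ := by
  intro x h0
  have hx : algebraMap K K' x ∈ D.k := (hD.base _).2 ⟨x, rfl⟩
  apply noRoot_of_ellRegOver277 D.k hreg (algebraMap K K' x) hx
  rw [trace_conj277 hn, det_conj277 hn, trace_map277, det_map277, ← map_pow, ← map_mul,
    ← map_sub, ← map_add, h0, map_zero]

/-- The norm of `δ` is regular if it is conjugate to an elliptic element of `GL₂(K)`. -/
theorem isReg_of_isNormOf277 {D : T7.CompData K K'}
    {δ : GL (Fin 2) K'} {γ : GL (Fin 2) K} (hγ : T6.IsEll γ)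
    (hn : T7.IsNormOf D δ γ) : T6.IsReg (T6.twNorm D.s.σ D.l δ) := by
  rw [← normUpTo_eq_twNorm277]
  show IsUnit (T6.disc (D.s.normUpTo D.l δ))
  rw [isUnit_iff_ne_zero]
  have h1 : T6.disc (D.s.normUpTo D.l δ) = algebraMap K K' (T6.disc γ) := by
    show (_ : K') ^ 2 - 4 * _ = algebraMap K K' (_ ^ 2 - 4 * _)
    rw [trace_conj277 hn, det_conj277 hn, trace_map277, det_map277, map_sub, map_mul, map_pow,
      map_ofNat]
  rw [h1]
  intro h0
  have : T6.disc γ = 0 := (algebraMap K K').injective (by rw [h0, map_zero])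
  exact (isUnit_iff_ne_zero.1 hγ.1) this

end Data

end Fermat.Agent.LT.T7.H277
end

end
-- ===== PACK-END LT/T7/H277/GeomAlg.lean

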