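import Mathlib
import Fermat.Agent.Pack.LT3.E20L3
import Fermat.Agent.Pack.LT3.E19L3
import Fermat.Agent.Pack.LT2.E0L2
import Fermat.Agent.Pack.LT2.E2L1
import Fermat.Agent.Pack.LT2.E5L3
import Fermat.Agent.Pack.LT2.E6L1
import Fermat.Agent.Pack.LT2.E8L2
import Fermat.Agent.Pack.LT2.E10L0
import Fermat.Agent.Pack.LT2.E11L0
import Fermat.Agent.Pack.LT2.E13L1
import Fermat.Agent.Pack.LT2.E14L0
import Fermat.Agent.Pack.LT3.E20L2
import Fermat.Agent.Pack.LT3.E20L1
import Fermat.Agent.Pack.LT3.E19L0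
import Fermat.Agent.Pack.LT2.E16L2
import Fermat.Agent.Pack.LT2.E3L1
import Fermat.Agent.Pack.LT3.E20L0

set_option linter.all false

-- ===== PACK-BEGIN LT/T2/H291/LeafT07.lean
section



/-!
# Row LT, tower T2, leaf T2.27 `LeafT07` (`OpsGoodT` + `OpsAdjT`, class of T5): CLOSED (helper291)

OFF-MAIN.  `leafT07_291 (K) : T2.LeafT07 K`, unconditional, for every number field `K`.

Assembly (`leafT07_of_subT291`, `OpsSpecT.lean`) of the twenty sub-leaves `T2.27.x`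
(registry rows 1387–1409):

* T2.27.00 key lemma (ray form), .01 central, .05 shiftPres, .06 shiftIso, .21 commConvMean:
  helper291 (`TranslT`, `AutT`, `GelfandT`, `CommConvSphereT`, `CommConvCircleT`,
  `CommConvMeanT`);
* .02 heckePres helper833, .03 heckeBdd helper290, .04 heckeAdj helper887, .08 convLin
  helper372, .09 convBdd helper8, .10 commHeckeHecke helper944, .11 commConvHecke helper79,
  .12 spherePres helper409, .13 circlePres helper271, .14 meanLin helper420, .15 meanBdd and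
  .16 meanAdj helper899, .17 commMeanHecke helper904, .18 commSphereSphere helper378,
  .19 commSphereCircle helper776, .20 commCircleCircle helper196;
* tools .31 S2Rot helper879 (core helper197), .33 TypeSU2 helper166, Cartan helper555,
  LocCont helper472, abstract commutation engine helper878.

All files are byte-identical copies of the owners' files.  Nothing is assumed, no opaque
constant, no placeholder proof.
-/

namespace Fermat.Agent.LT.T2.H291

/-- **T2.27** `LeafT07`: `OpsGoodT` and `OpsAdjT` for the class of T5, every number field. -/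
theorem leafT07_291 (K : Type) [Field K] [NumberField K] : LeafT07 K :=
  leafT07_of_commConvMeanT291 (subCommConvMeanT291 K)

end Fermat.Agent.LT.T2.H291

end
-- ===== PACK-END LT/T2/H291/LeafT07.lean

-- ===== PACK-BEGIN LT/T2/H386/Soft1.lean
section












/-!
# Row LT, T2.03b (helper386): `LeafSoft1` PROVED

OFF-MAIN.  `leafSoft1_386 : H386.LeafSoft1 K`, i.e. `T1Out → 𝔫 ≠ ⊥ → FDBound K 𝔫 → KernelEst K 𝔫`.
-/

set_option autoImplicit false
set_option linter.unusedSectionVars false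
set_option linter.style.haveILetI false

open IsDedekindDomain NumberField MeasureTheory
open scoped Pointwise
open Fermat.Agent.LT.H556.A0

noncomputable section

namespace Fermat.Agent.LT.T2.H386

open Fermat.Agent.LT.T2

attribute [local instance] Fermat.Agent.LT.T2.borelG

variable {K : Type} [Field K] [NumberField K]

attribute [local instance] borelAdl386 borelSpaceAdl386 borelSpaceG386

/-- **T2.03b**: the soft part of the Gelfand--Piatetski-Shapiro estimate. -/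
theorem leafSoft1_386 (K : Type) [Field K] [NumberField K] : LeafSoft1 K := by
  intro hT1 𝔫 _ hFD F f hf N
  obtain ⟨⟨hA1, hA2, hA3⟩, hG1, hG2, hG3⟩ := hT1.locComp
  haveI := hA1
  haveI := hA2
  haveI := hA3
  haveI := hG1
  haveI := hG2
  haveI := hG3
  haveI := F.haar
  obtain ⟨D, hDm, hD, hDc, hD0, hDtop⟩ :=
    hT1.addFundDom (Measure.addHaar : Measure (Adl K)) inferInstance
  set ν : Measure (Adl K) := Measure.addHaar with hν
  obtain ⟨C, c, M, W, hC, hc, hW, H⟩ := hFD f hf (closure D) hDc N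
  refine ⟨2 * C, c, suppSeq386 W (tsupport f) (M + 1), by positivity, hc,
    isCompact_suppSeq386 hW hf.cpt (M + 1), ?_⟩
  intro ψ Ψ hψ hΨ x t hx ht
  obtain ⟨β, x', hβ, hxx', hWx', hfd⟩ := H x t hx ht
  have htpos : 0 < t := lt_of_lt_of_le hc ht
  have htN : 0 < t ^ N := pow_pos htpos N
  let S : SoftData386 K 𝔫 :=
    ⟨F.μ, F.haar, ν, inferInstance, D, hDm, hD, hDc, hD0.ne', hDtop.ne, ψ, Ψ, hψ, hΨ⟩
  -- transfer from `x` to `x'`
  have eψ : ∀ h, ψ (x * h) = ψ (x' * h) := by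
    intro h
    rw [hxx', mul_assoc]
    exact hψ.left_inv β (x' * h)
  have eΨ : ∀ h, Ψ (x * h) = Ψ (x' * h) := by
    intro h
    rw [hxx', mul_assoc]
    exact constTerm_ratG386 hψ hΨ ν inferInstance D hD hD0.ne' hDtop.ne β hβ (x' * h)
  have e1 : conv F f ψ x = ∫ h, ψ (x' * h) * f h ∂F.μ := by
    show ∫ h, ψ (x * h) * f h ∂F.μ = _
    simp_rw [eψ]
  have e2 : conv F f Ψ x = ∫ h, Ψ (x' * h) * f h ∂F.μ := by
    show ∫ h, Ψ (x * h) * f h ∂F.μ = _
    simp_rw [eΨ]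
  have hid := (S.int_ker x' hf.cont hf.cpt M).1
  -- the bound of the kernel
  obtain ⟨Cf, hCf⟩ := hf.cpt.exists_bound_of_continuous hf.cont
  have hB : ∀ vs : List (Adl K), vs.length = M + 0 → (∀ v ∈ vs, v ∈ closure D) →
      ∀ h, ‖fdiff386 x' vs f h‖ ≤ C / t ^ N := by
    intro vs hvs hvsD h
    rw [le_div_iff₀ htN]
    exact hfd vs (by simpa using hvs) hvsD h
  have hkM : ∀ h, ‖ker386 ν D x' M f h‖ ≤ C / t ^ N := fun h =>
    fdiff386_ker_bound ν D (closure D) subset_closure hD0.ne' hDtop.ne hDc x' hf.cont Cf hCf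
      (C / t ^ N) M 0 hB [] rfl (fun _ hv => absurd hv (List.not_mem_nil)) h
  have hk : ∀ h, ‖ker386 ν D x' (M + 1) f h‖ ≤ 2 * (C / t ^ N) := by
    intro h
    calc ‖ker386 ν D x' (M + 1) f h‖
        ≤ ‖ker386 ν D x' M f h‖ + ‖avgOp386 ν D x' (ker386 ν D x' M f) h‖ := norm_sub_le _ _
      _ ≤ C / t ^ N + C / t ^ N :=
        add_le_add (hkM h) (norm_avgOp386_le ν D hD0.ne' hDtop.ne x' _ hkM h)
      _ = 2 * (C / t ^ N) := by ring
  -- the support of the kernel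
  have hprops := ker386_props ν D hD0.ne' hDtop.ne hDc x' hf.cont Cf hCf
    (W := W) (T := tsupport f) (fun v hv => hWx' v (subset_closure hv))
    (fun y hy => subset_closure hy) (M + 1)
  have hks := hprops.2.2
  set Ω := suppSeq386 W (tsupport f) (M + 1) with hΩ
  have hΩc : IsCompact Ω := isCompact_suppSeq386 hW hf.cpt (M + 1)
  -- the estimate
  have hint : Integrable (fun h => ψ (x' * h) * ker386 ν D x' (M + 1) f h) F.μ :=
    S.integrable_mul386 x' hψ.cont hprops.1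
      (HasCompactSupport.intro hΩc (fun y hy => by
        by_contra hne
        exact hy (hks y hne)))
  have hψΩ : IntegrableOn (fun h => ‖ψ (x' * h)‖) Ω F.μ :=
    (hψ.cont.comp (continuous_const.mul continuous_id)).norm.continuousOn.integrableOn_compact hΩc
  have h1 : ‖∫ h, ψ (x' * h) * ker386 ν D x' (M + 1) f h ∂F.μ‖
      ≤ ∫ h in Ω, ‖ψ (x' * h)‖ * (2 * (C / t ^ N)) ∂F.μ := by
    refine le_trans (norm_integral_le_integral_norm _) ?_
    rw [← integral_indicator hΩc.isClosed.measurableSet]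
    refine integral_mono hint.norm
      ((integrable_indicator_iff hΩc.isClosed.measurableSet).mpr (hψΩ.mul_const _))
      (fun h => ?_)
    show ‖ψ (x' * h) * ker386 ν D x' (M + 1) f h‖
      ≤ Ω.indicator (fun h => ‖ψ (x' * h)‖ * (2 * (C / t ^ N))) h
    by_cases hh : ker386 ν D x' (M + 1) f h = 0
    · rw [hh, mul_zero, norm_zero]
      refine Set.indicator_nonneg (fun y _ => ?_) h
      exact mul_nonneg (norm_nonneg _) (by positivity)
    · rw [Set.indicator_of_mem (hks h hh), norm_mul]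
      exact mul_le_mul_of_nonneg_left (hk h) (norm_nonneg _)
  rw [e1, e2, ← hid]
  have h2 : ∫ h in Ω, ‖ψ (x' * h)‖ * (2 * (C / t ^ N)) ∂F.μ
      = (∫ h in Ω, ‖ψ (x * h)‖ ∂F.μ) * (2 * (C / t ^ N)) := by
    rw [integral_mul_const]
    simp_rw [eψ]
  rw [h2] at h1
  calc ‖∫ h, ψ (x' * h) * ker386 ν D x' (M + 1) f h ∂F.μ‖ * t ^ N
      ≤ ((∫ h in Ω, ‖ψ (x * h)‖ ∂F.μ) * (2 * (C / t ^ N))) * t ^ N :=
        mul_le_mul_of_nonneg_right h1 htN.le
    _ = 2 * C * ∫ h in Ω, ‖ψ (x * h)‖ ∂F.μ := by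
        field_simp

end Fermat.Agent.LT.T2.H386

end

end
-- ===== PACK-END LT/T2/H386/Soft1.lean

-- ===== PACK-BEGIN LT/T6/H277/FixGeo.lean
section




/-!
# Row LT, tower T6, sub-leaf T6.13.2b `FixGeoC` of helper60 (helper277, spare of row 1132)

OFF-MAIN.  `fixGeoC277 : H60.FixGeoC`, UNCONDITIONAL: on the tree `BTVert340` of helper340 a
regular elliptic `γ` with `k[γ]/k` unramified fixes exactly the ball of radius `r` around the
vertex `[x]`, where `x⁻¹ γ x` is in normal form (`exists_nf277`, `FixBallC`, `BallCountC`).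
-/

set_option autoImplicit false

open scoped Matrix

noncomputable section

namespace Fermat.Agent.LT.T6.H277

open Fermat.Agent.LT.T6 Fermat.Agent.LT.T6.H60 Fermat.Agent.LT.T6.H340 Fermat.Agent.LT.H338

/-- The fixed vertices of `γ` on the tree of helper340: the ball of radius `r` around `[x]`. -/
theorem fix_eq_ball277 {k : Type} [Field k] [Valued k Γ₀] {ϖ : k} {j : ℤ} {r : ℕ} {a : k}
    {w u y : GL (Fin 2) k} (hNF : IsNF277 ϖ j r a w u y) (γ x : GL (Fin 2) k)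
    (hy : y = x⁻¹ * γ * x) :
    {v : BTVert340 k | btMul340 γ v = v} = {v | btDist340 (btMk340 x) v ≤ r} := by
  ext v
  obtain ⟨g, rfl⟩ := btMk340_surjective v
  rw [Set.mem_ofPred_eq, Set.mem_ofPred_eq, btDist340_mk]
  have h1 : btMul340 γ (btMk340 g) = btMk340 g ↔ cdist340 (g⁻¹ * γ * g) = 0 := by
    rw [← btDist340_mul_mk, btDist340_eq_zero]
    exact eq_comm
  have h2 := H69.fixBallC69 k ϖ j r a w u y hNF (x⁻¹ * g)
  have e : (x⁻¹ * g)⁻¹ * y * (x⁻¹ * g) = g⁻¹ * γ * g := by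
    rw [hy]; group
  rw [e] at h2
  unfold gd277 at h2
  rw [cartan_fst_sub_snd340, cartan_fst_sub_snd340] at h2
  rw [h1]
  constructor
  · intro h
    have := h2.mp (by exact_mod_cast h)
    exact_mod_cast this
  · intro h
    have := h2.mpr (by exact_mod_cast h)
    exact_mod_cast this

/-- **T6.13.2b `FixGeoC`** (helper60 `EllUnrSpec2.lean`), unconditional. -/
theorem fixGeoC277 : FixGeoC := by
  intro k _ _ q hk γ _hreg hE hR
  obtain ⟨ϖ, j, r, a, w, u, y, x, hNF, hy, hdet, hdisc⟩ :=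
    exists_nf277 H546.polyNFC_h546 companionC277 H926.discUnitC_926 hk γ hE hR
  refine ⟨j, r, hdet, hdisc, ?_⟩
  rw [fix_eq_ball277 hNF γ x hy]
  exact H439.ballCountC_h439 (BTVert340 k) btDist340 q (isTreeDist_btDist340 hk)
    (ncard_nb_btDist340 hk) (btMk340 x) r

end Fermat.Agent.LT.T6.H277

end
end
-- ===== PACK-END LT/T6/H277/FixGeo.lean

-- ===== PACK-BEGIN LT/T7/H893/SupplySpec.lean
section



/-!
# Row LT, tower T7, node T7.L2.1 `SupplyC` (sub-architect helper893): FIRST CUT -- Spec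

OFF-MAIN.  Definitions and frozen Props only (the proved top is `SupplyTop.lean`).  No `sorry`,
nothing assumed.  ADDITIVE (new names only).  Vocabulary: `T7/Level2.lean` (helper797,
sha256 1551664660339642) and its imports, byte-identical copies.

    supplyC_of893 : SetupC K K' → ProjC K' → ProjC K → FamC P K K' → SupplyC P K K'

## The cut

`SupplyC P K K'` asks for ONE datum `Dt : L2Data K K'` with the 27 fields of `IsL2Data`.  The
datum has a COMMON part (degree, `σ`, frames, base level `𝔑₀`, `S'`, the split place `u` and its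
orbit) and a part which depends on the bad element `g` (level `𝔫 g`, scalar `c g`, families
`φ' g`, `f g`, depth `m₀ g`), and every field of `IsL2Data` is either about the common part or
about ONE bad `g`.  So:

* **`SetupC K K'`** (leaf C0; algebraic number theory + T1 adapters): the common part exists,
  `L2Base` with `IsL2Base`.  `IsL2Base` carries MORE than the common fields of `IsL2Data`: the
  hypotheses of `IsCompData` which do not depend on the level (`cyc`, `base`, the frames, `aut`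
  for every level coming from `K`), and the facts which the construction of the families needs
  (`base_level`: `𝔑₀ = 𝔫₀ 𝒪_{K'}` with `u` dividing `𝔫₀` exactly once; `orbit_all`: the orbit is
  the set of ALL places over `u`; `fibre`: `S'` is a union of fibres).
* **`ProjC K`** (leaf C3a; ONE field, no extension; averaging): for a frame, a base level `𝔫₀`, a
  level `𝔫 ⊆ 𝔫₀` with the same prime divisors, and places `o j ∣ 𝔫₀`: every cusp function of
  level `𝔫` has an orthogonal projection on the invariant cusp functions `IsWFn 𝔫₀ r l o`.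
  Used twice: over `K'` (levels `𝔑 g ⊆ 𝔑₀`, the orbit) and over `K` (level `𝔫 g = 𝔫 g`, the place
  `u`).
* **`FamC P K K'`** (NODE C1 + C2 + C3b): for a common part and ONE bad `g` the part depending on
  `g` exists, `L2Fam` with `IsL2Fam` = the fields of `IsL2Data` at `g` except the two projections.
  Second cut: `SupplyFam*.lean` (same directory).

The top assembles `Dt` with the axiom of choice over the bad `g` (junk at the other `g`).
-/

set_option autoImplicit false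

open AutomorphicForm IsDedekindDomain NumberField MeasureTheory
open scoped ComplexConjugate

noncomputable section

namespace Fermat.Agent.LT.T7.H893

open Fermat.Agent.LT.H556 Fermat.Agent.LT.H556.A0 Fermat.Agent.LT.T7

attribute [local instance] Fermat.Agent.LT.T5.instMeasurableSpaceG

/-! ## 1. The common part -/

section Base

variable (K K' : Type) [Field K] [NumberField K] [Field K'] [NumberField K'] [Algebra K K']

/-- The COMMON part of an `L2Data`. -/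
structure L2Base where
  /-- the degree -/
  l : ℕ
  /-- the generator of the Galois group with its extension to the adeles -/
  s : T5.AdelicAut K'
  /-- the image of `K` in `K'` -/
  k : Subfield K'
  /-- the frame downstairs -/
  R : Frame5 K
  /-- the frame upstairs -/
  R' : Frame5 K'
  /-- the base level upstairs -/
  𝔑₀ : Ideal (𝓞 K')
  /-- the places of `K'` dividing the base level -/
  S' : Finset (HeightOneSpectrum (𝓞 K'))
  /-- the regular place of `K` -/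
  u : HeightOneSpectrum (𝓞 K)
  /-- the `σ`-orbit over `u` -/
  o : ℕ → HeightOneSpectrum (𝓞 K')

/-- The part of an `L2Data` which depends on the bad element (for ONE bad element). -/
structure L2Fam where
  /-- the level downstairs -/
  𝔫 : Ideal (𝓞 K)
  /-- the scalar of the Eisenstein-killing base on the eigen-classes -/
  c : EigData K' → ℂ
  /-- the family upstairs -/
  φ' : List (Gen K') → ℤ → ℕ → G K' → ℂ
  /-- the family downstairs -/
  f : List (Gen K') → ℤ → ℕ → G K → ℂ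
  /-- the regular depth -/
  m₀ : List (Gen K') → ℕ

variable {K K'}

/-- The extension of an ideal of `K` to `K'`. -/
def upI (𝔫 : Ideal (𝓞 K)) : Ideal (𝓞 K') := Ideal.map (algebraMap (𝓞 K) (𝓞 K')) 𝔫

/-- `g` is supported at the bad places (`L2Data.IsBad` for the common part). -/
def L2Base.IsBad (B : L2Base K K') (g : G K') : Prop :=
  (∀ w : InfinitePlace K', TrivAtInf w g) ∧
    ∀ v : HeightOneSpectrum (𝓞 K'), (v ∉ B.S' ∨ ∃ j < B.l, v = B.o j) → TrivAtFin v g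

/-- The data of the comparison for the level `𝔫` downstairs (`L2Data.comp`). -/
def L2Base.comp (B : L2Base K K') (𝔫 : Ideal (𝓞 K)) : CompData K K' where
  l := B.l
  s := B.s
  k := B.k
  𝔫 := 𝔫
  𝔑 := upI (K' := K') 𝔫
  R := B.R
  R' := B.R'

/-- The `L2Data` with common part `B` and `g`-part `Fm g`. -/
def L2Base.toData (B : L2Base K K') (Fm : G K' → L2Fam K K') : L2Data K K' where
  l := B.l
  s := B.s
  k := B.k
  R := B.R
  R' := B.R'
  𝔑₀ := B.𝔑₀
  S' := B.S'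
  u := B.u
  o := B.o
  𝔫 := fun g => (Fm g).𝔫
  c := fun g => (Fm g).c
  φ' := fun g => (Fm g).φ'
  f := fun g => (Fm g).f
  m₀ := fun g => (Fm g).m₀

/-- **THE PROPERTIES OF THE COMMON PART.** -/
structure IsL2Base (ℓ : ℕ) (Φ : HeckeEigensystem K' ℂ) (B : L2Base K K') : Prop where
  deg : B.l = ℓ
  /-- `σ` generates a cyclic group of order `ℓ` with fixed field `k` -/
  cyc : T5.IsCyclicOfDegree B.s B.l B.k
  /-- `k` is the image of `K` -/
  base : ∀ x : K', x ∈ B.k ↔ ∃ y : K, algebraMap K K' y = x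
  frame : IsFrame5 B.R
  frame' : IsFrame5 B.R'
  /-- `σ` preserves the frame upstairs, for every level which comes from `K` -/
  aut : ∀ 𝔫 : Ideal (𝓞 K), T5.AutPreserves B.s (upI (K' := K') 𝔫) B.R'.μ B.R'.r
  level_le : B.𝔑₀ ≤ Φ.level
  mem_S' : ∀ w : HeightOneSpectrum (𝓞 K'), w ∈ B.S' ↔ w.asIdeal ∣ B.𝔑₀
  const : ∀ w : HeightOneSpectrum (𝓞 K'), w ∉ B.S' →
    ∀ w' : HeightOneSpectrum (𝓞 K'), w' ∉ B.S' → ∀ v : HeightOneSpectrum (𝓞 K),
      PlaceOver K K' v w → PlaceOver K K' v w' → Φ.a w = Φ.a w' ∧ Φ.b w = Φ.b w'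
  orbit_rel : ∀ j : ℕ, T5.PlaceRel B.s (B.o j) (B.o (j + 1))
  orbit_ne : ∀ j : ℕ, 0 < j → j < ℓ → B.o j ≠ B.o 0
  orbit_over : ∀ j : ℕ, PlaceOver K K' B.u (B.o j)
  orbit_level : ∀ j : ℕ, B.o j ∈ B.S'
  orbit_good : ∀ j : ℕ, ¬ (B.o j).asIdeal ∣ Φ.level
  /-- the base level comes from `K`, and `u` divides it exactly once -/
  base_level : ∃ 𝔫₀ : Ideal (𝓞 K), 𝔫₀ ≠ ⊥ ∧ B.𝔑₀ = upI (K' := K') 𝔫₀ ∧
    B.u.asIdeal ∣ 𝔫₀ ∧ ¬ B.u.asIdeal ^ 2 ∣ 𝔫₀
  /-- the orbit is the set of all places over `u` -/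
  orbit_all : ∀ w : HeightOneSpectrum (𝓞 K'), PlaceOver K K' B.u w → ∃ j < ℓ, w = B.o j
  /-- `S'` is a union of fibres -/
  fibre : ∀ (v : HeightOneSpectrum (𝓞 K)) (w w' : HeightOneSpectrum (𝓞 K')),
    PlaceOver K K' v w → PlaceOver K K' v w' → w ∈ B.S' → w' ∈ B.S'

/-! ## 2. The part depending on the bad element -/

/-- **THE PROPERTIES OF THE `g`-PART** (the fields of `IsL2Data` at the bad element `g`, except
the two orthogonal projections; `level_ne` is the field of `IsCompData`). -/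
structure IsL2Fam (ℓ : ℕ) (Φ : HeckeEigensystem K' ℂ) (B : L2Base K K') (g : G K')
    (Fm : L2Fam K K') : Prop where
  level_ne : Fm.𝔫 ≠ ⊥
  level_g : upI (K' := K') Fm.𝔫 ≤ B.𝔑₀
  mem_S'_g : ∀ w : HeightOneSpectrum (𝓞 K'), w ∈ B.S' ↔ w.asIdeal ∣ upI (K' := K') Fm.𝔫
  u_level : B.u.asIdeal ∣ Fm.𝔫
  ekprod_up : ∀ (X : List (Gen K')) (k : ℤ) (m : ℕ), (∀ x ∈ X, x.Out B.S') →
    IsEKProd (upI (K' := K') Fm.𝔫) B.R' (Fm.φ' X k m)
  ekprod_down : ∀ (X : List (Gen K')) (k : ℤ) (m : ℕ), (∀ x ∈ X, x.Out B.S') →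
    IsEKProd Fm.𝔫 B.R (Fm.f X k m)
  reg_up : ∀ (X : List (Gen K')) (k : ℤ) (m : ℕ), (∀ x ∈ X, x.Out B.S') → Fm.m₀ X ≤ m →
    T5.IsTwRegular B.s B.l B.k (Fm.φ' X k m)
  reg_down : ∀ (X : List (Gen K')) (k : ℤ) (m : ℕ), (∀ x ∈ X, x.Out B.S') → Fm.m₀ X ≤ m →
    T5.IsTwRegular (T5.AdelicAut.id K) 1 ⊤ (Fm.f X k m)
  matched : ∀ (X : List (Gen K')) (k : ℤ) (m : ℕ), (∀ x ∈ X, x.Out B.S') → Fm.m₀ X ≤ m →
    IsGlobMatch (B.comp Fm.𝔫) (Fm.φ' X k m) (Fm.f X k m)
  base_ne : ∀ C : EigData K', C.AgreeOut B.S' (eigOf Φ) → Fm.c C ≠ 0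
  op_up : ∀ (X : List (Gen K')) (k : ℤ) (m : ℕ), (∀ x ∈ X, x.Out B.S') →
    ∀ (ψ : G K' → ℂ) (C : EigData K'), IsEigFn B.𝔑₀ B.R'.r ℓ B.o ψ C →
    ∀ (Hg H : Finset (G K')) (z : G K'), IsDblCosetSystem B.𝔑₀ g Hg →
      IsIwCosetSystem (B.o 0) H → IsScalarUniformizerAt (B.o 0) z →
      ∀ x : G K', T5.Rconv B.R'.μ (Fm.φ' X k m) ψ x
        = wordEv X C * Fm.c C * cosetOp Hg (shiftOp z k ((iwOp (B.o 0) H)^[m] ψ)) x
  kill_up : ∀ (X : List (Gen K')) (k : ℤ) (m : ℕ), (∀ x ∈ X, x.Out B.S') →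
    ∀ ψ : G K' → ℂ, T5.IsCuspFn (upI (K' := K') Fm.𝔫) T5.trivType B.R'.r ψ →
      (∀ χ : G K' → ℂ, IsWFn B.𝔑₀ B.R'.r ℓ B.o χ →
        T5.innerD B.R'.μ B.R'.F ψ χ = 0) →
      ∀ x : G K', T5.Rconv B.R'.μ (Fm.φ' X k m) ψ x = 0
  op_down : ∀ (X : List (Gen K')) (k : ℤ) (m : ℕ), (∀ x ∈ X, x.Out B.S') →
    ∀ (ψ : G K → ℂ) (c : EigData K) (C : EigData K'),
      IsEigFn Fm.𝔫 B.R.r 1 (fun _ => B.u) ψ c → IsBCData c C B.S' →
    ∀ (H : Finset (G K)) (z : G K), IsIwCosetSystem B.u H → IsScalarUniformizerAt B.u z →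
      ∀ x : G K, T5.Rconv B.R.μ (Fm.f X k m) ψ x
        = wordEv X C
          * T5.Rconv B.R.μ (Fm.f [] 0 0) (shiftOp z k ((iwOp B.u H)^[m] ψ)) x
  class_down : ∀ (ψ : G K → ℂ) (c : EigData K),
    IsEigFn Fm.𝔫 B.R.r 1 (fun _ => B.u) ψ c →
    IsEigFn Fm.𝔫 B.R.r 1 (fun _ => B.u) (T5.Rconv B.R.μ (Fm.f [] 0 0) ψ) c
  comm_down : ∀ ψ : G K → ℂ, IsWFn Fm.𝔫 B.R.r 1 (fun _ => B.u) ψ →
    ∀ (H : Finset (G K)) (z : G K), IsIwCosetSystem B.u H → IsScalarUniformizerAt B.u z →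
      (∀ x : G K, T5.Rconv B.R.μ (Fm.f [] 0 0) (iwOp B.u H ψ) x
        = iwOp B.u H (T5.Rconv B.R.μ (Fm.f [] 0 0) ψ) x) ∧
      ∀ (k : ℤ) (x : G K), T5.Rconv B.R.μ (Fm.f [] 0 0) (shiftOp z k ψ) x
        = shiftOp z k (T5.Rconv B.R.μ (Fm.f [] 0 0) ψ) x
  kill_down : ∀ (X : List (Gen K')) (k : ℤ) (m : ℕ), (∀ x ∈ X, x.Out B.S') →
    ∀ ψ : G K → ℂ, T5.IsCuspFn Fm.𝔫 T5.trivType B.R.r ψ →
      (∀ χ : G K → ℂ, IsWFn Fm.𝔫 B.R.r 1 (fun _ => B.u) χ →
        T5.innerD B.R.μ B.R.F ψ χ = 0) →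
      ∀ x : G K, T5.Rconv B.R.μ (Fm.f X k m) ψ x = 0

end Base

/-! ## 3. The leaves of the first cut -/

section Leaves

/-- **LEAF T7.L2.1.C3a = PROJ (orthogonal projection on the invariant cusp functions; ONE
field).**  For a frame, a base level `𝔫₀ ≠ 0`, a level `𝔫 ⊆ 𝔫₀`, `𝔫 ≠ 0`, and places
`o 0, …, o (l-1)` dividing `𝔫₀`: every cusp function `ψ` of level `𝔫` (trivial type, invariant
under the ray generator) has an orthogonal projection `ψ₁` on the invariant cusp functions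
`IsWFn 𝔫₀ r l o`.
Proof.  `ψ₁ = ` the average of the right translates of `ψ` over (a) the finite group
`H / U(𝔫)`, `H` = the compact group generated by `U(𝔫₀)` and the Iwahori subgroups at the `o j`
(`U(𝔫)` is normal in `GL₂(𝒪̂)`), (b) the compact torus `A_∞ / ⟨r⟩ Λ`, `A_∞` = the positive
scalars at the infinite places, `Λ` = the image of the units `ε ≡ 1 mod 𝔫` (`ψ` is invariant
under `ε_∞ = ε · ε_f⁻¹`, `ε` central in `GL₂(K)`, `ε_f ∈ U(𝔫)`, and under the compact groups at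
infinity; Dirichlet's unit theorem: `⟨r⟩ Λ` is a lattice in `A_∞`; ruling R1 of
`coord/LT-T7-helper797.md`).  `ψ₁` is a cusp function (averages of cusp functions), invariant;
`ψ - ψ₁ ⊥ χ` for invariant `χ` because the right translation by an element `h` with
`‖det h‖ = 1` is unitary on automorphic functions (`F h` is again a strict fundamental domain in
the slab). -/
def ProjC (K : Type) [Field K] [NumberField K] : Prop :=
  ∀ R : Frame5 K, IsFrame5 R →
    ∀ 𝔫₀ 𝔫 : Ideal (𝓞 K), 𝔫 ≠ ⊥ → 𝔫 ≤ 𝔫₀ →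
    ∀ (l : ℕ) (o : ℕ → HeightOneSpectrum (𝓞 K)), (∀ j : ℕ, (o j).asIdeal ∣ 𝔫₀) →
    ∀ ψ : G K → ℂ, T5.IsCuspFn 𝔫 T5.trivType R.r ψ →
      ∃ ψ₁ : G K → ℂ, IsWFn 𝔫₀ R.r l o ψ₁ ∧
        ∀ χ : G K → ℂ, IsWFn 𝔫₀ R.r l o χ →
          T5.innerD R.μ R.F (fun x => ψ x - ψ₁ x) χ = 0

variable (P : EKCond)
variable (K K' : Type) [Field K] [NumberField K] [Field K'] [NumberField K'] [Algebra K K']

/-- **LEAF T7.L2.1.C0 = SETUP** (algebraic number theory + adapters of T1).  The common part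
exists.
Proof.  `σ` = a generator of `Gal(K'/K)` (cyclic of prime order `ℓ`), extended to the adeles
(T1, adapters helper930); `k` = the image of `K`; frames: `T1.FundDomC`, `T1.UnimodC` for `K` and
`K'` (any frame of `K'`: `σ` preserves every Haar measure because it has finite order, and the
ray generator, the slab, the level groups of levels coming from `K`, the compact groups at
infinity); `u` = a place of `K` which splits completely in `K'`, prime to `Φ.level` and to the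
exceptional set of `ConstOnFibres` (there are infinitely many: Chebotarev for the trivial class,
or the elementary argument with the values of a minimal polynomial); `o j = σ^j (w)` for one
`w ∣ u`; `𝔫₀ = u · (Φ.level ∩ 𝒪_K) · ∏ (the places under the exceptional set)`,
`𝔑₀ = 𝔫₀ 𝒪_{K'}`, `S'` = the prime divisors of `𝔑₀`. -/
def SetupC : Prop :=
  ∀ ℓ : ℕ, IsCycExt K K' ℓ → ℓ ≠ 2 → TotCplx K →
    ∀ Φ : HeckeEigensystem K' ℂ, A0.IsCuspAdelicSph0 K' Φ → ConstOnFibres K Φ →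
      ∃ B : L2Base K K', IsL2Base ℓ Φ B

/-- **NODE T7.L2.1.F = FAMILIES** (C1 + C2 + C3b): for a common part and ONE bad element `g` the
part depending on `g` exists.  See `IsL2Fam`, the header of `T7/Level2.lean` (SUPPLY) and the
second cut. -/
def FamC : Prop :=
  ∀ ℓ : ℕ, IsCycExt K K' ℓ → ℓ ≠ 2 → TotCplx K →
    ∀ Φ : HeckeEigensystem K' ℂ, A0.IsCuspAdelicSph0 K' Φ → ConstOnFibres K Φ → P K' Φ →
      ∀ B : L2Base K K', IsL2Base ℓ Φ B → ∀ g : G K', B.IsBad g →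
        ∃ Fm : L2Fam K K', IsL2Fam ℓ Φ B g Fm

end Leaves

end Fermat.Agent.LT.T7.H893

end

end
-- ===== PACK-END LT/T7/H893/SupplySpec.lean

-- ===== PACK-BEGIN LT/T7/H40/ProjSpec.lean
section





/-!
# Row LT, tower T7, node T7.L2.1 `SupplyC`, part (C3) = PROJ: the fields `proj_up` / `proj_down`
# of `T7.IsL2Data` -- SUB-SPEC (helper40, assist of the sub-architect helper893)

OFF-MAIN.  Definitions, frozen Props, PROVED tops.  No hole, nothing assumed.
ADDITIVE (new names only).  Vocabulary: A0, `T5/Spec.lean` v4, `T7/Level2.lean` (15516646).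

## The statement

`ProjC K`: for a frame `(μ, F)`, a ray generator `r`, levels `𝔑 ≤ 𝔑₀`, `𝔑 ≠ 0`, and places
`o 0, …, o (l-1)`: every cusp function `ψ` of level `𝔑` (trivial `K_∞`-type) has an orthogonal
projection `ψ₁` on the INVARIANT cusp functions `T7.IsWFn 𝔑₀ r l o` (level `𝔑₀`, invariant under
the positive scalars at every infinite place and under the Iwahori subgroups at the `o j`):
`ψ₁` is invariant and `ψ - ψ₁` is orthogonal on `F` to every invariant `χ`.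

The two fields `proj_up`, `proj_down` of `T7.IsL2Data` are instances (`proj_up40`,
`proj_down40`): they do not depend on the families of test functions.

## The cut

    ProjC K  ⇐  ArchProjC K + FinProjC K                         (`projC_of40`, PROVED here)

* `ArchProjC K` (the mean over the compact torus of positive scalars): `ψ` of level `𝔑` has a
  projection `ψ₂` (same level) on the cusp functions invariant under the positive scalars at
  infinity.  Route: `A⁺ = ∏_w ℝ_{>0}` (central); `ψ` is invariant under `r` and under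
  `|ε|_∞ = (|ε|_w)_w` for every unit `ε ≡ 1 mod 𝔑` (`ε` is central in `GL₂(K)`, its finite part
  lies in `U(𝔑)`, its phases at infinity in the groups `K_w`); by Dirichlet's unit theorem
  (`NumberField.Units.dirichletUnitTheorem`) these periods contain a basis `b` of
  `ℝ^{places}`; `ψ₂(g) = vol(D)⁻¹ ∫_D ψ(g z(t)) dt`, `D = ZSpan.fundamentalDomain b`,
  `z(t)` = the scalar `e^{t_w}` at `w`.  Invariance: translation invariance of the integral of a
  periodic function over a fundamental domain; cuspidality and the inner products: Fubini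
  (bounded continuous functions, finite measures) and `TranslInnerC`.
* `FinProjC K` (the mean over the finite group `U(𝔑₀) I_o / U(𝔑)`): `ψ` of level `𝔑` has a
  projection `ψ₁` on the cusp functions of level `𝔑₀` which are invariant under the Iwahori
  subgroups at the `o j`; `ψ₁` is invariant under the positive scalars if `ψ` is.
  Route: `𝒦 = U(𝔑₀) · I_o` is a subgroup of `GL₂(𝒪̂)` (`U(𝔑₀)` is normal in `GL₂(𝒪̂)`), `U(𝔑)` is
  normal of finite index in `𝒦` (compact / open, or `GL₂(𝒪/𝔑)` finite);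
  `ψ₁ = |H|⁻¹ ∑_{h ∈ H} ψ(· h)`, `H` a full system of representatives of `𝒦 / U(𝔑)`.
* `TranslInnerC K` (SHARED TOOL of the two leaves, not used by the top): for `Ψ` continuous,
  bounded, left invariant under `GL₂(K)` and right invariant under `r`, and EVERY `h`:
  `∫_F Ψ(x h) dμ = ∫_F Ψ dμ`  (`F` and `F h` are fundamental domains of `GL₂(K) × r^ℤ`;
  tiles of helper277, `LT/T5/H277/Unfold.lean`).
-/

set_option autoImplicit false

open AutomorphicForm IsDedekindDomain NumberField MeasureTheory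
open scoped ComplexConjugate

noncomputable section

namespace Fermat.Agent.LT.T7.H40

open Fermat.Agent.LT.H556 Fermat.Agent.LT.H556.A0 Fermat.Agent.LT.T7

attribute [local instance] Fermat.Agent.LT.T5.instMeasurableSpaceG

/-! ## 1. Vocabulary -/

section Vocabulary

variable {K : Type} [Field K] [NumberField K]

/-- `ψ` is right invariant under the positive scalars at every infinite place (the field
`arch_scalar` of `T7.IsWFn`). -/
def IsPosInv (ψ : G K → ℂ) : Prop :=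
  ∀ (w : InfinitePlace K) (z : G K), IsArchPosScalar w z → ∀ g : G K, ψ (g * z) = ψ g

end Vocabulary

/-! ## 2. The Props -/

section Props

variable (K : Type) [Field K] [NumberField K]

/-- **THE TARGET: the orthogonal projection on the invariant cusp functions.** -/
def ProjC : Prop :=
  ∀ (μ : Measure (G K)) (F : Set (G K)) (r : G K), T5.IsFrame μ F → T5.IsRayGen r →
  ∀ 𝔑 𝔑₀ : Ideal (𝓞 K), 𝔑 ≠ ⊥ → 𝔑 ≤ 𝔑₀ →
  ∀ (l : ℕ) (o : ℕ → HeightOneSpectrum (𝓞 K)) (ψ : G K → ℂ),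
    T5.IsCuspFn 𝔑 T5.trivType r ψ →
    ∃ ψ₁ : G K → ℂ, IsWFn 𝔑₀ r l o ψ₁ ∧
      ∀ χ : G K → ℂ, IsWFn 𝔑₀ r l o χ → T5.innerD μ F (fun x => ψ x - ψ₁ x) χ = 0

/-- **LEAF ARCH-PROJ** (mean over the compact torus of positive scalars at infinity; Dirichlet's
unit theorem).  See the header. -/
def ArchProjC : Prop :=
  ∀ (μ : Measure (G K)) (F : Set (G K)) (r : G K), T5.IsFrame μ F → T5.IsRayGen r →
  ∀ 𝔑 : Ideal (𝓞 K), 𝔑 ≠ ⊥ →
  ∀ ψ : G K → ℂ, T5.IsCuspFn 𝔑 T5.trivType r ψ →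
    ∃ ψ₂ : G K → ℂ, T5.IsCuspFn 𝔑 T5.trivType r ψ₂ ∧ IsPosInv ψ₂ ∧
      ∀ χ : G K → ℂ, T5.IsCuspFn 𝔑 T5.trivType r χ → IsPosInv χ →
        T5.innerD μ F (fun x => ψ x - ψ₂ x) χ = 0

/-- **LEAF FIN-PROJ** (mean over the finite group `U(𝔑₀) I_o / U(𝔑)`).  See the header. -/
def FinProjC : Prop :=
  ∀ (μ : Measure (G K)) (F : Set (G K)) (r : G K), T5.IsFrame μ F → T5.IsRayGen r →
  ∀ 𝔑 𝔑₀ : Ideal (𝓞 K), 𝔑 ≠ ⊥ → 𝔑 ≤ 𝔑₀ →
  ∀ (l : ℕ) (o : ℕ → HeightOneSpectrum (𝓞 K)) (ψ : G K → ℂ),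
    T5.IsCuspFn 𝔑 T5.trivType r ψ →
    ∃ ψ₁ : G K → ℂ, T5.IsCuspFn 𝔑₀ T5.trivType r ψ₁ ∧ IsIwInv l o ψ₁ ∧
      (IsPosInv ψ → IsPosInv ψ₁) ∧
      ∀ χ : G K → ℂ, T5.IsCuspFn 𝔑₀ T5.trivType r χ → IsIwInv l o χ →
        T5.innerD μ F (fun x => ψ x - ψ₁ x) χ = 0

/-- **SHARED TOOL TRANSL-INNER** (invariance of the integral over the fundamental domain under
right translations).  For `Ψ` continuous, bounded, left invariant under `GL₂(K)` and right
invariant under the ray generator `r`, and every `h ∈ GL₂(𝔸_K)`: `∫_F Ψ(x h) dμ = ∫_F Ψ dμ`. -/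
def TranslInnerC : Prop :=
  ∀ (μ : Measure (G K)) (F : Set (G K)) (r : G K), T5.IsFrame μ F → T5.IsRayGen r →
  ∀ Ψ : G K → ℂ, Continuous Ψ → (∃ C : ℝ, ∀ g : G K, ‖Ψ g‖ ≤ C) →
    (∀ (γ : GL (Fin 2) K) (g : G K), Ψ (T5.ratG γ * g) = Ψ g) →
    (∀ g : G K, Ψ (g * r) = Ψ g) →
    ∀ h : G K, ∫ x in F, Ψ (x * h) ∂μ = ∫ x in F, Ψ x ∂μ

end Props

/-! ## 3. The top -/

section Top

/-- Splitting of an inner product (abstract form: bounded measurable functions on a finite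
measure space). -/
theorem integral_sub_split40 {α : Type*} [MeasurableSpace α] (ν : Measure α) [IsFiniteMeasure ν]
    (a b c d : α → ℂ) (ha : AEStronglyMeasurable a ν) (hb : AEStronglyMeasurable b ν)
    (hc : AEStronglyMeasurable c ν) (hd : AEStronglyMeasurable d ν)
    (Ba : ∃ C : ℝ, ∀ x, ‖a x‖ ≤ C) (Bb : ∃ C : ℝ, ∀ x, ‖b x‖ ≤ C)
    (Bc : ∃ C : ℝ, ∀ x, ‖c x‖ ≤ C) (Bd : ∃ C : ℝ, ∀ x, ‖d x‖ ≤ C) :
    ∫ x, (a x - c x) * conj (d x) ∂ν
      = (∫ x, (a x - b x) * conj (d x) ∂ν) + ∫ x, (b x - c x) * conj (d x) ∂ν := by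
  obtain ⟨Ca, hCa⟩ := Ba
  obtain ⟨Cb, hCb⟩ := Bb
  obtain ⟨Cc, hCc⟩ := Bc
  obtain ⟨Cd, hCd⟩ := Bd
  have hdc : AEStronglyMeasurable (fun x => conj (d x)) ν :=
    Complex.continuous_conj.comp_aestronglyMeasurable hd
  have key : ∀ (p q : α → ℂ) (Cp Cq : ℝ), AEStronglyMeasurable p ν →
      AEStronglyMeasurable q ν → (∀ x, ‖p x‖ ≤ Cp) → (∀ x, ‖q x‖ ≤ Cq) →
      Integrable (fun x => (p x - q x) * conj (d x)) ν := by
    intro p q Cp Cq hp hq hCp hCq
    refine Integrable.of_bound ((hp.sub hq).mul hdc) ((Cp + Cq) * Cd)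
      (Filter.Eventually.of_forall fun x => ?_)
    rw [norm_mul, RCLike.norm_conj]
    have h1 : ‖p x - q x‖ ≤ Cp + Cq := (norm_sub_le _ _).trans (add_le_add (hCp x) (hCq x))
    have h0 : 0 ≤ Cp + Cq := (norm_nonneg _).trans h1
    exact mul_le_mul h1 (hCd x) (norm_nonneg _) h0
  rw [← integral_add (key a b Ca Cb ha hb hCa hCb) (key b c Cb Cc hb hc hCb hCc)]
  refine integral_congr_ae (Filter.Eventually.of_forall fun x => ?_)
  simp only
  ring

variable {K : Type} [Field K] [NumberField K]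

/-- The closure of a smaller ideal is smaller. -/
theorem idealClosure_mono40 {𝔑 𝔑₀ : Ideal (𝓞 K)} (h : 𝔑 ≤ 𝔑₀) (v : HeightOneSpectrum (𝓞 K)) :
    idealClosure 𝔑 v ⊆ idealClosure 𝔑₀ v :=
  closure_mono (Set.image_mono h)

/-- `U(𝔑) ⊆ U(𝔑₀)` for `𝔑 ≤ 𝔑₀`. -/
theorem inLevelGroup_mono40 {𝔑 𝔑₀ : Ideal (𝓞 K)} (h : 𝔑 ≤ 𝔑₀) {u : G K}
    (hu : InLevelGroup 𝔑 u) : InLevelGroup 𝔑₀ u :=
  ⟨hu.1, fun v i j => ⟨idealClosure_mono40 h v (hu.2 v i j).1,
    idealClosure_mono40 h v (hu.2 v i j).2⟩⟩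

/-- A cusp function of level `𝔑₀` is a cusp function of every level `𝔑 ≤ 𝔑₀`. -/
theorem isCuspFn_mono40 {𝔑 𝔑₀ : Ideal (𝓞 K)} (h : 𝔑 ≤ 𝔑₀) {τ : G K → ℂ} {r : G K}
    {e : G K → ℂ} (he : T5.IsCuspFn 𝔑₀ τ r e) : T5.IsCuspFn 𝔑 τ r e where
  cont := he.cont
  bdd := he.bdd
  aut :=
    { left_inv := he.aut.left_inv
      level_inv := fun u hu g => he.aut.level_inv u (inLevelGroup_mono40 h hu) g
      arch_compact := he.aut.arch_compact
      ray := he.aut.ray }
  cuspidal := he.cuspidal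

/-- **THE TOP of PROJ.** -/
theorem projC_of40 (hA : ArchProjC K) (hF : FinProjC K) : ProjC K := by
  intro μ F r hFr hr 𝔑 𝔑₀ h𝔑 hle l o ψ hψ
  obtain ⟨ψ₂, hψ₂, hinv₂, horth₂⟩ := hA μ F r hFr hr 𝔑 h𝔑 ψ hψ
  obtain ⟨ψ₁, hψ₁, hiw₁, hpos₁, horth₁⟩ := hF μ F r hFr hr 𝔑 𝔑₀ h𝔑 hle l o ψ₂ hψ₂
  refine ⟨ψ₁, ⟨hψ₁, hpos₁ hinv₂, hiw₁⟩, fun χ hχ => ?_⟩
  have e1 := horth₂ χ (isCuspFn_mono40 hle hχ.cusp) hχ.arch_scalar
  have e2 := horth₁ χ hχ.cusp hχ.iw
  have : BorelSpace (G K) := ⟨rfl⟩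
  have : IsFiniteMeasure (μ.restrict F) := ⟨by simpa using hFr.finite⟩
  unfold T5.innerD at e1 e2 ⊢
  rw [integral_sub_split40 (μ.restrict F) ψ ψ₂ ψ₁ χ hψ.cont.aestronglyMeasurable
    hψ₂.cont.aestronglyMeasurable hψ₁.cont.aestronglyMeasurable hχ.cusp.cont.aestronglyMeasurable
    hψ.bdd hψ₂.bdd hψ₁.bdd hχ.cusp.bdd, e1, e2, add_zero]

end Top

/-! ## 4. The two fields of `T7.IsL2Data` -/

section Fields

variable {K K' : Type} [Field K] [NumberField K] [Field K'] [NumberField K'] [Algebra K K']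

set_option linter.unusedSectionVars false in

/-- The extension of a non-zero ideal is not zero. -/
theorem map_ne_bot40 {𝔫 : Ideal (𝓞 K)} (h : 𝔫 ≠ ⊥) :
    Ideal.map (algebraMap (𝓞 K) (𝓞 K')) 𝔫 ≠ ⊥ := by
  intro h0
  apply h
  exact (Ideal.map_eq_bot_iff_of_injective
    (FaithfulSMul.algebraMap_injective (𝓞 K) (𝓞 K'))).1 h0

/-- **The field `proj_up` of `T7.IsL2Data`** (for one bad element `g`) from `ProjC K'`. -/
theorem proj_up40 (hP : ProjC K') (Dt : L2Data K K') (ℓ : ℕ) (g : G K')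
    (hcomp : IsCompData (Dt.comp g)) (hlev : Dt.𝔑 g ≤ Dt.𝔑₀) :
    ∀ ψ : G K' → ℂ, T5.IsCuspFn (Dt.𝔑 g) T5.trivType Dt.R'.r ψ →
    ∃ ψ₁ : G K' → ℂ, IsWFn Dt.𝔑₀ Dt.R'.r ℓ Dt.o ψ₁ ∧
      ∀ χ : G K' → ℂ, IsWFn Dt.𝔑₀ Dt.R'.r ℓ Dt.o χ →
        T5.innerD Dt.R'.μ Dt.R'.F (fun x => ψ x - ψ₁ x) χ = 0 :=
  fun ψ hψ => hP Dt.R'.μ Dt.R'.F Dt.R'.r hcomp.frame'.frame hcomp.frame'.ray (Dt.𝔑 g) Dt.𝔑₀
    (map_ne_bot40 hcomp.level_ne) hlev ℓ Dt.o ψ hψ

/-- **The field `proj_down` of `T7.IsL2Data`** (for one bad element `g`) from `ProjC K`. -/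
theorem proj_down40 (hP : ProjC K) (Dt : L2Data K K') (g : G K')
    (hcomp : IsCompData (Dt.comp g)) :
    ∀ ψ : G K → ℂ, T5.IsCuspFn (Dt.𝔫 g) T5.trivType Dt.R.r ψ →
    ∃ ψ₁ : G K → ℂ, IsWFn (Dt.𝔫 g) Dt.R.r 1 (fun _ => Dt.u) ψ₁ ∧
      ∀ χ : G K → ℂ, IsWFn (Dt.𝔫 g) Dt.R.r 1 (fun _ => Dt.u) χ →
        T5.innerD Dt.R.μ Dt.R.F (fun x => ψ x - ψ₁ x) χ = 0 :=
  fun ψ hψ => hP Dt.R.μ Dt.R.F Dt.R.r hcomp.frame.frame hcomp.frame.ray (Dt.𝔫 g) (Dt.𝔫 g)
    hcomp.level_ne le_rfl 1 (fun _ => Dt.u) ψ hψ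

end Fields

end Fermat.Agent.LT.T7.H40

end

end
-- ===== PACK-END LT/T7/H40/ProjSpec.lean

-- ===== PACK-BEGIN LT/T7/H193/ProjSpec.lean
section






/-!
# Row LT, tower T7, node T7.L2.1 `SupplyC`, sub-station PROJ (sub-architect helper193)

OFF-MAIN.  Definitions, frozen leaf Props, PROVED top.  No `sorry`, nothing assumed.
Vocabulary: A0, `T1/Spec.lean`, `T5/Spec.lean` v4, `T7/Level2.lean` (sha256 15516646, helper797),
byte-identical copies.

## What is proved here (modulo the leaves)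

    exists_proj193 : T1.T1Out K → ProjLeaves K →
      ∀ (R : Frame5 K), IsFrame5 R → ∀ 𝔑 𝔑₀, 𝔑 ≠ ⊥ → 𝔑 ≤ 𝔑₀ → ∀ l o ψ,
        T5.IsCuspFn 𝔑 T5.trivType R.r ψ →
        ∃ ψ₁, IsWFn 𝔑₀ R.r l o ψ₁ ∧
          ∀ χ, IsWFn 𝔑₀ R.r l o χ → T5.innerD R.μ R.F (fun x => ψ x - ψ₁ x) χ = 0

= the fields `proj_up` (`𝔑 = 𝔑_g`, `𝔑₀`, `l = ℓ`, `o`) and `proj_down` (`𝔑 = 𝔑₀ = 𝔫 g`, `l = 1`,
`o = fun _ => u`) of `T7.IsL2Data`, for ANY construction of the data (the two fields do not depend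
on the test functions).

## The projection

`ψ₁ = P_∞ P_f ψ`:
* `P_f` = the average of the right translates over a system `Rep` of representatives of
  `H / U(𝔑)`, `H = I_o · U(𝔑₀)` (`I_o` = the elements supported on the orbit which are Iwahori
  there; `U(𝔑₀)` is normal in `GL₂(Ô)`, so `H` is a group; `U(𝔑)` has finite index) -- `finAvg`;
* `P_∞` = the mean of the right translates by the positive scalars `a(t)`,
  `t ∈ ℝ^{places at ∞}`, over a fundamental parallelepiped `D` of the lattice of periods generated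
  by `log r` and the `(log |ε|_w)_w`, `ε ∈ 𝒪_Kˣ`, `ε ≡ 1 mod 𝔑₀` (Dirichlet's unit theorem: full
  rank) -- `torAvg`.
Orthogonality: `∫_F Φ(x h) dx = ∫_F Φ(x) dx` for every `Φ` which is left `GL₂(K)`-invariant and
right `r`-invariant (`F h` is again a fundamental domain for `GL₂(K) × ⟨r⟩`) -- `TranslInvC`.
-/

set_option autoImplicit false

open IsDedekindDomain NumberField MeasureTheory
open scoped ComplexConjugate

noncomputable section

namespace Fermat.Agent.LT.T7.H193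

open Fermat.Agent.LT.H556 Fermat.Agent.LT.H556.A0 Fermat.Agent.LT

attribute [local instance] Fermat.Agent.LT.T5.instMeasurableSpaceG

/-! ## 1. Vocabulary -/

section Vocab

variable {K : Type} [Field K] [NumberField K]

/-- An element supported on the orbit `o 0, …, o (l-1)` which is Iwahori there
(the elements of `T7.IsIwInv`). -/
def IsIwElt (l : ℕ) (o : ℕ → HeightOneSpectrum (𝓞 K)) (h : G K) : Prop :=
  (∀ w : InfinitePlace K, TrivAtInf w h) ∧
    (∀ v : HeightOneSpectrum (𝓞 K), (∀ j < l, v ≠ o j) → TrivAtFin v h) ∧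
    ∀ j < l, T5.InIwahori (o j) h

theorem isIwInv_iff {l : ℕ} {o : ℕ → HeightOneSpectrum (𝓞 K)} {ψ : G K → ℂ} :
    IsIwInv l o ψ ↔ ∀ h : G K, IsIwElt l o h → ∀ x : G K, ψ (x * h) = ψ x :=
  ⟨fun H h hh x => H h hh.1 hh.2.1 hh.2.2 x, fun H h h1 h2 h3 x => H h ⟨h1, h2, h3⟩ x⟩

/-- The average of the right translates over the finite set `Rep`. -/
def finAvg (Rep : Finset (G K)) (ψ : G K → ℂ) : G K → ℂ :=
  fun g => ((Rep.card : ℂ))⁻¹ * ∑ h ∈ Rep, ψ (g * h)

/-- The mean of the right translates by `a t`, `t ∈ D`. -/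
def torAvg (a : (InfinitePlace K → ℝ) → G K) (D : Set (InfinitePlace K → ℝ)) (ψ : G K → ℂ) :
    G K → ℂ :=
  fun g => (((volume D).toReal : ℝ) : ℂ)⁻¹ * ∫ t in D, ψ (g * a t)

/-- `Rep` is a system of representatives of `H / U(𝔑)`, `H = I_o · U(𝔑₀)`, in the form in which
it is used: every member is a product (Iwahori on the orbit) · (element of `U(𝔑₀)`), and left
multiplication by an element of `U(𝔑₀)` or by an Iwahori element of the orbit permutes the
classes (so it does not change the sum of a right `U(𝔑)`-invariant function over `Rep`). -/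
structure IsFinData (𝔑 𝔑₀ : Ideal (𝓞 K)) (l : ℕ) (o : ℕ → HeightOneSpectrum (𝓞 K))
    (Rep : Finset (G K)) : Prop where
  nonempty : Rep.Nonempty
  mem : ∀ h ∈ Rep, ∃ i u : G K, IsIwElt l o i ∧ InLevelGroup 𝔑₀ u ∧ h = i * u
  perm_level : ∀ e : G K → ℂ, (∀ u : G K, InLevelGroup 𝔑 u → ∀ g : G K, e (g * u) = e g) →
    ∀ h₀ : G K, InLevelGroup 𝔑₀ h₀ →
      ∀ g : G K, ∑ h ∈ Rep, e (g * h₀ * h) = ∑ h ∈ Rep, e (g * h)
  perm_iw : ∀ e : G K → ℂ, (∀ u : G K, InLevelGroup 𝔑 u → ∀ g : G K, e (g * u) = e g) →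
    ∀ h₀ : G K, IsIwElt l o h₀ →
      ∀ g : G K, ∑ h ∈ Rep, e (g * h₀ * h) = ∑ h ∈ Rep, e (g * h)

/-- The data of the archimedean mean for the level `𝔑` and the ray generator `r`: the positive
scalars `a t` (`exp (t w)` at the infinite place `w`, `1` at the finite places), a bounded
measurable set `D` of positive volume, and the invariance of the mean over `D` of every continuous
automorphic function of level `𝔑` under all translations of the parameter. -/
structure IsTorusData (𝔑 : Ideal (𝓞 K)) (r : G K) (a : (InfinitePlace K → ℝ) → G K)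
    (D : Set (InfinitePlace K → ℝ)) : Prop where
  cont : Continuous a
  mul : ∀ s t : InfinitePlace K → ℝ, a (s + t) = a s * a t
  inf : ∀ (t : InfinitePlace K → ℝ) (w : InfinitePlace K),
    infComp w (a t) = Matrix.diagonal fun _ => ((Real.exp (t w) : ℝ) : ℂ)
  fin : ∀ (t : InfinitePlace K → ℝ) (v : HeightOneSpectrum (𝓞 K)), TrivAtFin v (a t)
  central : ∀ (t : InfinitePlace K → ℝ) (g : G K), a t * g = g * a t
  meas : MeasurableSet D
  bdd : Bornology.IsBounded D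
  pos : 0 < volume D
  mean : ∀ e : G K → ℂ, T5.IsAutomorphicFn 𝔑 T5.trivType r e → Continuous e →
    ∀ (g : G K) (s : InfinitePlace K → ℝ),
      ∫ t in D, e (g * a (t + s)) = ∫ t in D, e (g * a t)

end Vocab

/-! ## 2. The leaves -/

section Leaves

variable (K : Type) [Field K] [NumberField K]

/-- **LEAF PROJ.1 = TRANSL-INV.**  The integral over the fundamental domain of a function which
is left `GL₂(K)`-invariant and right `r`-invariant does not change under a right translation.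
Proof: `F` is a fundamental domain for the action `(γ, n) • z = γ rⁿ z` of `GL₂(K) × ℤ`
(asset helper599, `LT/T5/H599/Diag.lean`: `isFundamentalDomain599`, needs `T1.AdNormC`); so is
`F h` (right translation commutes with the action and preserves `μ`: `IsFrame.right_inv`);
`IsFundamentalDomain.setIntegral_eq` (no integrability needed) and the change of variables
`x ↦ x h`.  NO hypothesis on `Φ` besides the two invariances. -/
def TranslInvC : Prop :=
  T1.AdNormC K → ∀ R : Frame5 K, IsFrame5 R → ∀ Φ : G K → ℂ,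
    (∀ (γ : GL (Fin 2) K) (x : G K), Φ (T5.ratG γ * x) = Φ x) →
    (∀ x : G K, Φ (x * R.r) = Φ x) →
    ∀ h : G K, ∫ x in R.F, Φ (x * h) ∂(R.μ) = ∫ x in R.F, Φ x ∂(R.μ)

/-- **LEAF PROJ.2a = H-GROUP.**  `H = I_o · U(𝔑₀)` is a group: `U(𝔑₀)` is normalised by the
elements which are integral with integral inverse at every finite place and trivial at infinity
(`h⁻¹ u h - 1 = h⁻¹ (u - 1) h`), and `I_o`, `U(𝔑₀)` are groups. -/
def HGroupC : Prop :=
  ∀ (𝔑₀ : Ideal (𝓞 K)) (l : ℕ) (o : ℕ → HeightOneSpectrum (𝓞 K)),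
    (∀ i i' : G K, IsIwElt l o i → IsIwElt l o i' → IsIwElt l o (i * i')) ∧
    (∀ i : G K, IsIwElt l o i → IsIwElt l o i⁻¹) ∧
    (∀ u u' : G K, InLevelGroup 𝔑₀ u → InLevelGroup 𝔑₀ u' → InLevelGroup 𝔑₀ (u * u')) ∧
    (∀ u : G K, InLevelGroup 𝔑₀ u → InLevelGroup 𝔑₀ u⁻¹) ∧
    InLevelGroup 𝔑₀ (1 : G K) ∧ IsIwElt l o (1 : G K) ∧
    ∀ i u : G K, IsIwElt l o i → InLevelGroup 𝔑₀ u → InLevelGroup 𝔑₀ (i⁻¹ * u * i)

/-- **LEAF PROJ.2b = FIN-INDEX.**  `U(𝔑)` has finite index in `GL₂(Ô)` for `𝔑 ≠ 0`: there is a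
finite set `T` such that every `h` which is trivial at infinity and integral with integral
inverse at every finite place lies in `τ U(𝔑)` for some `τ ∈ T`.
(`GL₂(Ô)` is compact and `U(𝔑)` is open in it; or: `GL₂(Ô) / U(𝔑) ↪ GL₂(𝒪 / 𝔑)`.) -/
def FinIndexC : Prop :=
  ∀ 𝔑 : Ideal (𝓞 K), 𝔑 ≠ ⊥ → ∃ T : Finset (G K), ∀ h : G K,
    (∀ w : InfinitePlace K, TrivAtInf w h) →
    (∀ v : HeightOneSpectrum (𝓞 K), IsIntegralAt v h ∧ IsIntegralAt v h⁻¹) →
    ∃ τ ∈ T, InLevelGroup 𝔑 (τ⁻¹ * h)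

/-- The finite data exist. -/
def FinDataC : Prop :=
  ∀ 𝔑 𝔑₀ : Ideal (𝓞 K), 𝔑 ≠ ⊥ → 𝔑 ≤ 𝔑₀ → ∀ (l : ℕ) (o : ℕ → HeightOneSpectrum (𝓞 K)),
    ∃ Rep : Finset (G K), IsFinData 𝔑 𝔑₀ l o Rep

/-- **LEAF PROJ.2c = FIN-DATA (assembly; group theory).**  From `HGroupC` and `FinIndexC`:
`U(𝔑) ⊆ U(𝔑₀) ⊆ H` (`𝔑 ≤ 𝔑₀`), the classes of `H / U(𝔑)` are finitely many (every element of
`H` is integral), `Rep` = one representative IN `H` of every class; for `h₀ ∈ H` the map
`h ↦ rep (h₀ h)` is a permutation of `Rep` and `e (g h₀ h) = e (g rep(h₀ h))` for a right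
`U(𝔑)`-invariant `e`. -/
def FinDataAsmC : Prop := HGroupC K → FinIndexC K → FinDataC K

/-- **LEAF PROJ.3 = FIN-AVG-CUSP.**  The finite average of a cusp function of level `𝔑` is a
cusp function of level `𝔑₀`, Iwahori-invariant along the orbit.
Continuity, bound, left invariance: clear.  Level and Iwahori: `perm_level`, `perm_iw`.
`K_∞`: the members of `Rep` are trivial at infinity, so they commute with the elements supported
at an infinite place.  Ray: `r` is central.  Cuspidality: finite sum of right translates (the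
fundamental domains of `K` in `𝔸_K` have finite measure: `T1.AddFundDomC` and
`IsAddFundamentalDomain.measure_eq`; the integrands are bounded and continuous). -/
def FinAvgCuspC : Prop :=
  T1.T1Out K → ∀ (𝔑 𝔑₀ : Ideal (𝓞 K)) (l : ℕ) (o : ℕ → HeightOneSpectrum (𝓞 K))
    (Rep : Finset (G K)), IsFinData 𝔑 𝔑₀ l o Rep → ∀ r : G K, T5.IsRayGen r →
    ∀ ψ : G K → ℂ, T5.IsCuspFn 𝔑 T5.trivType r ψ →
      T5.IsCuspFn 𝔑₀ T5.trivType r (finAvg Rep ψ) ∧ IsIwInv l o (finAvg Rep ψ)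

/-- **LEAF PROJ.4 = FIN-AVG-ORTH.**  `ψ - P_f ψ` is orthogonal to the cusp functions of level
`𝔑₀` which are Iwahori-invariant along the orbit: `χ(x h) = χ(x)` for `h ∈ Rep` (`mem`), so
`∫_F ψ(x h) conj χ(x) dx = ∫_F (ψ conj χ)(x h) dx = ∫_F ψ conj χ` (`TranslInvC`); the integrands
are bounded and continuous and `μ F < ∞`. -/
def FinAvgOrthC : Prop :=
  T1.T1Out K → TranslInvC K → ∀ R : Frame5 K, IsFrame5 R →
    ∀ (𝔑 𝔑₀ : Ideal (𝓞 K)) (l : ℕ) (o : ℕ → HeightOneSpectrum (𝓞 K)) (Rep : Finset (G K)),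
    IsFinData 𝔑 𝔑₀ l o Rep →
    ∀ ψ : G K → ℂ, T5.IsCuspFn 𝔑 T5.trivType R.r ψ →
    ∀ χ : G K → ℂ, T5.IsCuspFn 𝔑₀ T5.trivType R.r χ → IsIwInv l o χ →
      T5.innerD R.μ R.F (fun x => ψ x - finAvg Rep ψ x) χ = 0

/-- **LEAF PROJ.5 = POS-SCAL.**  The positive scalars at infinity: a continuous homomorphism
`a : ℝ^{places at ∞} → GL₂(𝔸_K)` into the centre with `a(t)_w = exp (t w)`, `a(t)_v = 1`. -/
def PosScalC : Prop :=
  ∃ a : (InfinitePlace K → ℝ) → G K, Continuous a ∧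
    (∀ s t : InfinitePlace K → ℝ, a (s + t) = a s * a t) ∧
    (∀ (t : InfinitePlace K → ℝ) (w : InfinitePlace K),
      infComp w (a t) = Matrix.diagonal fun _ => ((Real.exp (t w) : ℝ) : ℂ)) ∧
    (∀ (t : InfinitePlace K → ℝ) (v : HeightOneSpectrum (𝓞 K)), TrivAtFin v (a t)) ∧
    ∀ (t : InfinitePlace K → ℝ) (g : G K), a t * g = g * a t

/-- **LEAF PROJ.6 = UNIT-INV.**  An automorphic function of level `𝔑` (trivial `K_∞`-type) is
right invariant under `|ε|_∞` for every unit `ε ≡ 1 mod 𝔑`: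
`e(g) = e(ε g) = e(g ε) = e(g · |ε|_∞ · (ε / |ε|)_∞ · ε_f)`, `ε_f ∈ U(𝔑)`
(`ε⁻¹ - 1 = -ε⁻¹ (ε - 1) ∈ 𝔑`), `(ε / |ε|)_w` a scalar of absolute value `1`: in `U(2)` at a
complex place, `± 1 ∈ SO(2)` at a real place. -/
def UnitInvC : Prop :=
  ∀ (𝔑 : Ideal (𝓞 K)) (r : G K) (e : G K → ℂ), T5.IsAutomorphicFn 𝔑 T5.trivType r e →
    ∀ ε : (𝓞 K)ˣ, ((ε : 𝓞 K) - 1 ∈ 𝔑) → ∀ z : G K,
      (∀ v : HeightOneSpectrum (𝓞 K), TrivAtFin v z) →
      (∀ w : InfinitePlace K,
        infComp w z = Matrix.diagonal fun _ => ((w (((ε : 𝓞 K)) : K) : ℝ) : ℂ)) →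
      ∀ g : G K, e (g * z) = e g

/-- **LEAF PROJ.7 = DIRICHLET.**  For `𝔑 ≠ 0` and `c ≠ 0` the space `ℝ^{places at ∞}` has a
basis consisting of the constant vector `c` and of vectors `(log |ε|_w)_w`, `ε` a unit
`≡ 1 mod 𝔑`.  (Dirichlet's unit theorem, Mathlib `NumberField.Units.unitLattice_span_eq_top`:
the vectors `(mult w · log |ε|_w)_{w ≠ w₀}` span; the units `≡ 1 mod 𝔑` have finite index,
`ε^m ≡ 1` for `m = |(𝒪/𝔑)ˣ|`; the log vectors lie in the hyperplane `∑ mult w · x_w = 0`, the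
constant vector does not.) -/
def DirichletC : Prop :=
  ∀ 𝔑 : Ideal (𝓞 K), 𝔑 ≠ ⊥ → ∀ c : ℝ, c ≠ 0 →
    ∃ b : Module.Basis (InfinitePlace K) ℝ (InfinitePlace K → ℝ),
      ∀ i : InfinitePlace K, (b i = fun _ => c) ∨
        ∃ ε : (𝓞 K)ˣ, ((ε : 𝓞 K) - 1 ∈ 𝔑) ∧
          b i = fun w => Real.log (w (((ε : 𝓞 K)) : K))

/-- **LEAF PROJ.8 = TORUS-MEAN (Mathlib only).**  For a basis `b` of `ℝ^ι` there is a bounded
measurable set `D` of positive volume (`ZSpan.fundamentalDomain b`) such that the integral over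
`D` of every function with the periods `b i` is invariant under translation.
(`ZSpan.isAddFundamentalDomain`, `IsAddFundamentalDomain.setIntegral_eq`; no hypothesis on `f`
besides the periodicity.) -/
def TorusMeanC : Prop :=
  ∀ (ι : Type) [Fintype ι] (b : Module.Basis ι ℝ (ι → ℝ)),
    ∃ D : Set (ι → ℝ), MeasurableSet D ∧ Bornology.IsBounded D ∧ 0 < volume D ∧
      ∀ f : (ι → ℝ) → ℂ, (∀ (i : ι) (t : ι → ℝ), f (t + b i) = f t) →
        ∀ s : ι → ℝ, ∫ t in D, f (t + s) = ∫ t in D, f t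

/-- The archimedean data exist. -/
def TorusDataC : Prop :=
  ∀ 𝔑 : Ideal (𝓞 K), 𝔑 ≠ ⊥ → ∀ r : G K, T5.IsRayGen r →
    ∃ (a : (InfinitePlace K → ℝ) → G K) (D : Set (InfinitePlace K → ℝ)), IsTorusData 𝔑 r a D

/-- **LEAF PROJ.9 = TORUS-DATA (assembly).**  `a` from `PosScalC`; `r = a (fun _ => log t₀)`,
`t₀^{2n} = 2`, so `c = log t₀ ≠ 0`; `b` from `DirichletC 𝔑 c`, `D` from `TorusMeanC b`;
`f(t) = e(g a(t))` has the periods `b i`: `a (b i) = r` (`IsAutomorphicFn.ray`) or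
`a (b i) = |ε|_∞` (`UnitInvC`).  (An element of `GL₂(𝔸_K)` is determined by its components.) -/
def TorusDataAsmC : Prop :=
  PosScalC K → UnitInvC K → DirichletC K → TorusMeanC → TorusDataC K

/-- **LEAF PROJ.10 = TOR-AVG-W.**  The archimedean mean of a cusp function of level `𝔑₀` which is
Iwahori-invariant along the orbit is an invariant cusp function (`T7.IsWFn`).
Continuity: dominated convergence (bounded integrand, `vol D < ∞`; `GL₂(𝔸_K)` is second
countable: `T1.LocCompC`).  Invariances: `a t` is central.  Positive scalars at `w`: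
`z = a (Pi.single w (log ρ))` and `mean`.  Cuspidality: Fubini on `D' × D` (`D'` a fundamental
domain of `K` in `𝔸_K`, of finite measure: `T1.AddFundDomC`). -/
def TorAvgWC : Prop :=
  T1.T1Out K → ∀ (𝔑₀ : Ideal (𝓞 K)) (r : G K) (a : (InfinitePlace K → ℝ) → G K)
    (D : Set (InfinitePlace K → ℝ)), T5.IsRayGen r → IsTorusData 𝔑₀ r a D →
    ∀ (l : ℕ) (o : ℕ → HeightOneSpectrum (𝓞 K)) (ψ : G K → ℂ),
      T5.IsCuspFn 𝔑₀ T5.trivType r ψ → IsIwInv l o ψ → IsWFn 𝔑₀ r l o (torAvg a D ψ)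

/-- **LEAF PROJ.11 = TOR-AVG-ORTH.**  `ψ - P_∞ ψ` is orthogonal to the invariant cusp functions:
Fubini on `F × D` (bounded continuous integrand, finite measures), `χ(x a(t)) = χ(x)`
(`a t` is the product over `w` of the positive scalars `a (Pi.single w (t w))` at `w`), and
`TranslInvC` for `Φ = ψ conj χ`, `h = a t`. -/
def TorAvgOrthC : Prop :=
  T1.T1Out K → TranslInvC K → ∀ R : Frame5 K, IsFrame5 R →
    ∀ (𝔑₀ : Ideal (𝓞 K)) (a : (InfinitePlace K → ℝ) → G K) (D : Set (InfinitePlace K → ℝ)),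
    IsTorusData 𝔑₀ R.r a D →
    ∀ (l : ℕ) (o : ℕ → HeightOneSpectrum (𝓞 K)) (ψ : G K → ℂ),
      T5.IsCuspFn 𝔑₀ T5.trivType R.r ψ →
      ∀ χ : G K → ℂ, IsWFn 𝔑₀ R.r l o χ →
        T5.innerD R.μ R.F (fun x => ψ x - torAvg a D ψ x) χ = 0

/-- The leaves of the sub-station PROJ. -/
structure ProjLeaves : Prop where
  translInv : TranslInvC K
  hGroup : HGroupC K
  finIndex : FinIndexC K
  finDataAsm : FinDataAsmC K
  finAvgCusp : FinAvgCuspC K
  finAvgOrth : FinAvgOrthC K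
  posScal : PosScalC K
  unitInv : UnitInvC K
  dirichlet : DirichletC K
  torusMean : TorusMeanC
  torusDataAsm : TorusDataAsmC K
  torAvgW : TorAvgWC K
  torAvgOrth : TorAvgOrthC K

end Leaves

/-! ## 3. The top (PROVED) -/

section Top

variable {K : Type} [Field K] [NumberField K]

/-- The integrand of the inner product of two bounded continuous functions is integrable on a
set of finite measure. -/
theorem integrableOn_mul_conj193 {μ : Measure (G K)} {F : Set (G K)} (hF : μ F < ⊤)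
    {e χ : G K → ℂ} (he : Continuous e) (hχ : Continuous χ)
    (be : ∃ C : ℝ, ∀ g : G K, ‖e g‖ ≤ C) (bχ : ∃ C : ℝ, ∀ g : G K, ‖χ g‖ ≤ C) :
    IntegrableOn (fun x => e x * conj (χ x)) F μ := by
  obtain ⟨C, hC⟩ := be
  obtain ⟨C', hC'⟩ := bχ
  have : BorelSpace (G K) := ⟨rfl⟩
  have hcont : Continuous fun x => e x * conj (χ x) :=
    he.mul (Complex.continuous_conj.comp hχ)
  refine Measure.integrableOn_of_bounded (M := C * C') hF.ne hcont.aestronglyMeasurable ?_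
  refine Filter.Eventually.of_forall fun x => ?_
  rw [norm_mul, RCLike.norm_conj]
  exact mul_le_mul (hC x) (hC' x) (norm_nonneg _) ((norm_nonneg _).trans (hC x))

/-- Additivity of the inner product in the first variable, for bounded continuous functions. -/
theorem innerD_add193 {μ : Measure (G K)} {F : Set (G K)} (hF : μ F < ⊤)
    {e₁ e₂ χ : G K → ℂ} (h₁ : Continuous e₁) (h₂ : Continuous e₂) (hχ : Continuous χ)
    (b₁ : ∃ C : ℝ, ∀ g : G K, ‖e₁ g‖ ≤ C) (b₂ : ∃ C : ℝ, ∀ g : G K, ‖e₂ g‖ ≤ C)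
    (bχ : ∃ C : ℝ, ∀ g : G K, ‖χ g‖ ≤ C) :
    T5.innerD μ F (fun x => e₁ x + e₂ x) χ = T5.innerD μ F e₁ χ + T5.innerD μ F e₂ χ := by
  unfold T5.innerD
  rw [← integral_add (integrableOn_mul_conj193 hF h₁ hχ b₁ bχ)
    (integrableOn_mul_conj193 hF h₂ hχ b₂ bχ)]
  refine integral_congr_ae (Filter.Eventually.of_forall fun x => ?_)
  simp only [add_mul]

theorem bdd_sub193 {e₁ e₂ : G K → ℂ} (b₁ : ∃ C : ℝ, ∀ g : G K, ‖e₁ g‖ ≤ C)
    (b₂ : ∃ C : ℝ, ∀ g : G K, ‖e₂ g‖ ≤ C) : ∃ C : ℝ, ∀ g : G K, ‖e₁ g - e₂ g‖ ≤ C := by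
  obtain ⟨C, hC⟩ := b₁
  obtain ⟨C', hC'⟩ := b₂
  exact ⟨C + C', fun g => (norm_sub_le _ _).trans (add_le_add (hC g) (hC' g))⟩

/-- The finite data from the leaves. -/
theorem finDataC_of193 (L : ProjLeaves K) : FinDataC K :=
  L.finDataAsm L.hGroup L.finIndex

/-- The archimedean data from the leaves. -/
theorem torusDataC_of193 (L : ProjLeaves K) : TorusDataC K :=
  L.torusDataAsm L.posScal L.unitInv L.dirichlet L.torusMean

/-- **THE TOP OF THE SUB-STATION PROJ**: the orthogonal projection of the cusp functions of level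
`𝔑` on the invariant cusp functions of level `𝔑₀`. -/
theorem exists_proj193 (hT1 : T1.T1Out K) (L : ProjLeaves K) (R : Frame5 K) (hR : IsFrame5 R)
    (𝔑 𝔑₀ : Ideal (𝓞 K)) (h𝔑 : 𝔑 ≠ ⊥) (hle : 𝔑 ≤ 𝔑₀) (l : ℕ)
    (o : ℕ → HeightOneSpectrum (𝓞 K)) (ψ : G K → ℂ)
    (hψ : T5.IsCuspFn 𝔑 T5.trivType R.r ψ) :
    ∃ ψ₁ : G K → ℂ, IsWFn 𝔑₀ R.r l o ψ₁ ∧
      ∀ χ : G K → ℂ, IsWFn 𝔑₀ R.r l o χ →
        T5.innerD R.μ R.F (fun x => ψ x - ψ₁ x) χ = 0 := by
  have h𝔑₀ : 𝔑₀ ≠ ⊥ := fun h => h𝔑 (le_bot_iff.mp (h ▸ hle))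
  obtain ⟨Rep, hRep⟩ := finDataC_of193 L 𝔑 𝔑₀ h𝔑 hle l o
  obtain ⟨a, D, hD⟩ := torusDataC_of193 L 𝔑₀ h𝔑₀ R.r hR.ray
  obtain ⟨hc, hiw⟩ := L.finAvgCusp hT1 𝔑 𝔑₀ l o Rep hRep R.r hR.ray ψ hψ
  have hW := L.torAvgW hT1 𝔑₀ R.r a D hR.ray hD l o (finAvg Rep ψ) hc hiw
  refine ⟨torAvg a D (finAvg Rep ψ), hW, fun χ hχ => ?_⟩
  have e1 := L.finAvgOrth hT1 L.translInv R hR 𝔑 𝔑₀ l o Rep hRep ψ hψ χ hχ.cusp hχ.iw
  have e2 := L.torAvgOrth hT1 L.translInv R hR 𝔑₀ a D hD l o (finAvg Rep ψ) hc χ hχ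
  have hsplit : (fun x => ψ x - torAvg a D (finAvg Rep ψ) x)
      = fun x => (ψ x - finAvg Rep ψ x) + (finAvg Rep ψ x - torAvg a D (finAvg Rep ψ) x) := by
    funext x
    ring
  have c1 : Continuous fun x => ψ x - finAvg Rep ψ x := hψ.cont.sub hc.cont
  have c2 : Continuous fun x => finAvg Rep ψ x - torAvg a D (finAvg Rep ψ) x :=
    hc.cont.sub hW.cusp.cont
  rw [hsplit, innerD_add193 hR.frame.finite c1 c2 hχ.cusp.cont (bdd_sub193 hψ.bdd hc.bdd)
    (bdd_sub193 hc.bdd hW.cusp.bdd) hχ.cusp.bdd, e1, e2, add_zero]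

/-- The field `proj_up` of `T7.IsL2Data`, in the shape of the field (for the frame `R'`, the
levels `𝔑_g ≤ 𝔑₀` and the orbit). -/
theorem proj_field193 (hT1 : T1.T1Out K) (L : ProjLeaves K) (R : Frame5 K) (hR : IsFrame5 R)
    (𝔑 𝔑₀ : Ideal (𝓞 K)) (h𝔑 : 𝔑 ≠ ⊥) (hle : 𝔑 ≤ 𝔑₀) (l : ℕ)
    (o : ℕ → HeightOneSpectrum (𝓞 K)) :
    ∀ ψ : G K → ℂ, T5.IsCuspFn 𝔑 T5.trivType R.r ψ →
      ∃ ψ₁ : G K → ℂ, IsWFn 𝔑₀ R.r l o ψ₁ ∧
        ∀ χ : G K → ℂ, IsWFn 𝔑₀ R.r l o χ →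
          T5.innerD R.μ R.F (fun x => ψ x - ψ₁ x) χ = 0 :=
  fun ψ hψ => exists_proj193 hT1 L R hR 𝔑 𝔑₀ h𝔑 hle l o ψ hψ

end Top

end Fermat.Agent.LT.T7.H193

end

end
-- ===== PACK-END LT/T7/H193/ProjSpec.lean

-- ===== PACK-BEGIN LT/T7/Level2S.lean
section



/-!
# Row LT, tower T7 (architect helper797): LEVEL 2 with a GALOIS-STABLE BASE LEVEL

OFF-MAIN.  ADDITIVE to `Level2.lean` (sha256 1551664660339642, unchanged): new names only.

Remark of the referees helper880 and helper288: `IsL2Data` does not say that the BASE level `𝔑₀`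
is stable under `σ`, so `R(σ)` need not preserve the invariant cusp functions of level `𝔑₀`, and
the proof of `SpecUpC` in the header of `Level2.lean` does not apply to such data.  The geometric
half always chooses `𝔑₀ = 𝔫₀ 𝒪_{K'}` for an ideal `𝔫₀ ≠ 0` of `K`.  This file records it:

* `L2Data.IsStable`  : `𝔑₀ = 𝔫₀ 𝒪_{K'}` for some ideal `𝔫₀ ≠ 0` of `K`;
* `SupplySC`         : `SupplyC` with stable data   (THE node of the geometric half);
* `SpecUpSC`         : `SpecUpC` for stable data    (THE node of the spectral half upstairs);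
* PROVED `traceWordsRegP_ofS : SupplySC P K K' → SpecUpSC K K' → SpecDownC K K' → SpecIdC K K'
  → TraceWordsRegP P K K'`, and the comparisons `supplyC_of_S`, `specUpSC_of`.

`SpecDownC` is unchanged.  The owners of `SupplyC` / `SpecUpC` deliver `SupplySC` / `SpecUpSC`.
-/

set_option autoImplicit false

open AutomorphicForm IsDedekindDomain NumberField MeasureTheory
open scoped ComplexConjugate

noncomputable section

namespace Fermat.Agent.LT.T7

open Fermat.Agent.LT.H556 Fermat.Agent.LT.H556.A0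

attribute [local instance] Fermat.Agent.LT.T5.instMeasurableSpaceG

section

variable {K K' : Type} [Field K] [NumberField K] [Field K'] [NumberField K'] [Algebra K K']

/-- The base level is the extension of a non-zero ideal of `K` (hence stable under the Galois
group). -/
def L2Data.IsStable (Dt : L2Data K K') : Prop :=
  ∃ 𝔫₀ : Ideal (𝓞 K), 𝔫₀ ≠ ⊥ ∧ Dt.𝔑₀ = Ideal.map (algebraMap (𝓞 K) (𝓞 K')) 𝔫₀

end

section Nodes

variable (P : EKCond)
variable (K K' : Type) [Field K] [NumberField K] [Field K'] [NumberField K'] [Algebra K K']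

/-- **NODE T7.L2.1 = SUPPLY, stable form** (geometric half: T3 + T5 + T6). -/
def SupplySC : Prop :=
  ∀ ℓ : ℕ, IsCycExt K K' ℓ → ℓ ≠ 2 → TotCplx K →
    ∀ Φ : HeckeEigensystem K' ℂ, A0.IsCuspAdelicSph0 K' Φ → ConstOnFibres K Φ → P K' Φ →
      ∃ Dt : L2Data K K', IsL2Data ℓ Φ Dt ∧ Dt.IsStable

/-- **NODE T7.L2.2 = SPEC-UP, stable form** (spectral half upstairs + non-vanishing). -/
def SpecUpSC : Prop :=
  ∀ ℓ : ℕ, IsCycExt K K' ℓ → ℓ ≠ 2 → TotCplx K →
    ∀ Φ : HeckeEigensystem K' ℂ, A0.IsCuspAdelicSph0 K' Φ → ConstOnFibres K Φ →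
      ∀ Dt : L2Data K K', IsL2Data ℓ Φ Dt → Dt.IsStable →
      ∃ (g : G K') (e' : ℕ → G K' → ℂ) (ι' : Type) (C : ι' → EigData K') (b' l' : ι' → ℂ)
        (R : ℝ) (y : ι' → ℂ),
        Dt.IsBad g ∧
        T5.IsCuspONB (Dt.𝔑 g) T5.trivType Dt.R'.r Dt.R'.μ Dt.R'.F e' ∧
        Summable (fun j => ‖y j‖) ∧ (∀ j, (C j).IsUnitaryOut Dt.S') ∧
        (∀ j, IsRegParam R (b' j) (l' j)) ∧
        (∀ X : List (Gen K'), (∀ x ∈ X, x.Out Dt.S') → ∀ (k : ℤ) (m : ℕ), Dt.m₀ g X ≤ m →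
          specSide Dt.s Dt.R' e' (Dt.φ' g X k m)
            = ∑' j, wordEv X (C j) * y j * b' j ^ k * l' j ^ m) ∧
        ∃ b₀ l₀ : ℂ,
          (∑' j : {j : {j : ι' // b' j = b₀ ∧ l' j = l₀} //
              (C j.1).AgreeOut Dt.S' (eigOf Φ)}, y j.1.1) ≠ 0

variable {P K K'}

theorem supplyC_of_S (h : SupplySC P K K') : SupplyC P K K' :=
  fun ℓ hcyc hℓ hcplx Φ hΦ hconst hP =>
    let ⟨Dt, hDt, _⟩ := h ℓ hcyc hℓ hcplx Φ hΦ hconst hP
    ⟨Dt, hDt⟩

theorem specUpSC_of (h : SpecUpC K K') : SpecUpSC K K' :=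
  fun ℓ hcyc hℓ hcplx Φ hΦ hconst Dt hDt _ => h ℓ hcyc hℓ hcplx Φ hΦ hconst Dt hDt

/-- **THE ASSEMBLY OF LEVEL 2, stable form.** -/
theorem traceWordsRegP_ofS (hS : SupplySC P K K') (hU : SpecUpSC K K') (hD : SpecDownC K K')
    (hI : SpecIdC K K') : TraceWordsRegP P K K' := by
  intro ℓ hcyc hℓ hcplx Φ hΦ hconst hP
  obtain ⟨Dt, hDt, hst⟩ := hS ℓ hcyc hℓ hcplx Φ hΦ hconst hP
  obtain ⟨g, e', ι', C, b', l', R', y, hg, he', hy, hUB, hp', hexp', hne⟩ :=
    hU ℓ hcyc hℓ hcplx Φ hΦ hconst Dt hDt hst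
  obtain ⟨e, ι, c, Ch, b, l, R, x, he, hx, hUA, hbc, hp, hexp, hreal⟩ :=
    hD ℓ hcyc hℓ hcplx Φ hΦ hconst Dt hDt g hg
  refine ⟨Dt.S', ι, ι', c, Ch, C, b, l, b', l', max R R', x, y, hx, hy, hUA, hUB, hbc,
    fun i => isRegParam_mono (le_max_left _ _) (hp i),
    fun j => isRegParam_mono (le_max_right _ _) (hp' j), ?_, hne, hreal⟩
  intro X hX
  refine ⟨Dt.m₀ g X, fun m hm k => ?_⟩
  have hid := (hI (Dt.comp g) (hDt.comp g hg) (Dt.φ' g X k m) (Dt.f g X k m)
    (isAdm5_of_ekProd (hDt.ekprod_up g X k m hg hX) (hDt.reg_up g X k m hg hX hm))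
    (isAdm5_of_ekProd (hDt.ekprod_down g X k m hg hX) (hDt.reg_down g X k m hg hX hm))
    (hDt.matched g X k m hg hX hm) e' e he' he).2.2
  rw [← hexp X hX k m hm, ← hexp' X hX k m hm]
  exact hid.symm

/-- **THE REGULAR TRACE IDENTITY FOR ALL CYCLIC EXTENSIONS from the nodes of level 2**, for the
multi-place condition (which implies the single-place node `TraceWordsRegAll`). -/
theorem traceWordsRegPAll_ofS (P : EKCond)
    (hS : ∀ (K K' : Type) [Field K] [NumberField K] [Field K'] [NumberField K'] [Algebra K K'],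
      SupplySC P K K')
    (hU : ∀ (K K' : Type) [Field K] [NumberField K] [Field K'] [NumberField K'] [Algebra K K'],
      SpecUpSC K K')
    (hD : ∀ (K K' : Type) [Field K] [NumberField K] [Field K'] [NumberField K'] [Algebra K K'],
      SpecDownC K K')
    (hI : ∀ (K K' : Type) [Field K] [NumberField K] [Field K'] [NumberField K'] [Algebra K K'],
      SpecIdC K K') : TraceWordsRegPAll P :=
  fun K K' _ _ _ _ _ => traceWordsRegP_ofS (hS K K') (hU K K') (hD K K') (hI K K')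

end Nodes

end Fermat.Agent.LT.T7

end

end
-- ===== PACK-END LT/T7/Level2S.lean

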