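import Mathlib
import Fermat.Agent.Pack.LT2.E6L2
import Fermat.Agent.Pack.LT3.E20L2
import Fermat.Agent.Pack.LT3.E20L3
import Fermat.Agent.Pack.LT3.E20L0
import Fermat.Agent.Pack.LT2.E16L3
import Fermat.Agent.Pack.LT3.E18L0
import Fermat.Agent.Pack.LT2.E16L2
import Fermat.Agent.Pack.LT3.E20L1
import Fermat.Agent.Pack.LT3.E17L3
import Fermat.Agent.Pack.LT3.E7L3
import Fermat.Agent.Pack.LT2.E2L0
import Fermat.Agent.Pack.LT2.E14L0
import Fermat.Agent.Pack.LT3.E13L1
import Fermat.Agent.Pack.LT2.E6L1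

set_option linter.all false

-- ===== PACK-BEGIN LT/T2/H354/LeafT06.lean
section





/-!
# Row LT, tower T2, leaf T2.26 (helper354): `ApproxIdT` (class of T5)

`leafT06_h354 : T2.LeafT06 K` (frozen Prop of `Fermat/Agent/LT/T2/SpecTau.lean`, sha256 4d2b0fc2):
for a `K_∞`-type `τ`, every cusp function `φ` of the class `(𝔫, τ, r)` is an `L²`-limit of
`R(f) φ`, `f` spherical of type `τ` and self-adjoint.

Proof.  The `K_∞`-type is `τ = ∏_w P_w ^ {n_w}` (`KType.lean`: continuous characters of `SO(2)`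
and of `U(2)`).  `f_k = conj (Q) · c_k · bump907 𝔫 (1/(k+1))`, with `Q` the global phase of
`PhaseG.lean` and the bump functions of helper907 (leaf T2.06).  For fixed `x` the function
`ψ_x (g) = φ (x g) conj (Q g)` is right invariant under the level group and under the compact groups
at infinity, and `R(f_k) φ (x) - φ (x) = R(c_k bump) ψ_x (1) - ψ_x (1)`: the two analytic lemmas of
helper907 (`exists_close907`, `norm_conv_sub_le907`) apply to `ψ_x` at the point `1`.
-/

set_option autoImplicit false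
set_option linter.unusedSectionVars false

open IsDedekindDomain NumberField Matrix MeasureTheory Filter Topology
open scoped MatrixGroups Classical ContDiff

noncomputable section

namespace Fermat.Agent.LT.T2.H354

open Fermat.Agent.LT.H556.A0 Fermat.Agent.LT.T8.H864 Fermat.Agent.LT.H51.MS4
  Fermat.Agent.LT.T2 Fermat.Agent.LT.T2.H907

attribute [local instance] Fermat.Agent.LT.T2.borelG

variable {K : Type} [Field K] [NumberField K]

local notation "conj" => starRingEnd ℂ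

theorem conj_eq_inv354 {z : ℂ} (hz : ‖z‖ = 1) : conj z = z⁻¹ := by
  have h1 : z * conj z = 1 := by
    rw [Complex.mul_conj, Complex.normSq_eq_norm_sq, hz]; simp
  exact eq_inv_of_mul_eq_one_right h1

/-! ## The twisted test functions -/

/-- The test function `conj (Q) · f₀`. -/
def testT354 (n : InfinitePlace K → ℤ) (f₀ : G K → ℂ) (g : G K) : ℂ := conj (Q354 n g) * f₀ g

section Test

variable {𝔫 : Ideal (𝓞 K)} {τ : G K → ℂ} {n : InfinitePlace K → ℤ}

theorem isTestT_testT354 (h𝔫 : 𝔫 ≠ ⊥) (hτ : IsKType τ)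
    (hn : ∀ (w : InfinitePlace K) (k : G K), IsArchCompact w k →
      τ k = Ploc354 w (infComp w k) ^ n w)
    {η : ℝ} (hη : 0 < η) (hη1 : η ≤ 1) (c : ℝ) :
    IsTestT 𝔫 τ (testT354 n (testFn907 𝔫 η c)) := by
  have h0 := isTestFn_testFn907 h𝔫 hη hη1 c
  refine ⟨?_, ?_, ?_, ?_, ?_, ?_, ?_⟩
  · exact (Complex.continuous_conj.comp (continuous_Q354 n)).mul h0.cont
  · intro m h hfin hh g
    exact (Complex.conjCLE.contDiff.comp (contDiff_Q354 n g hh)).mul (h0.smooth m h hfin hh g)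
  · exact h0.cpt.mul_left
  · intro u hu g
    unfold testT354
    rw [Q354_mul_right n g (isUInf354_of_inLevelGroup hu), chi354_of_inLevelGroup n hu, mul_one,
      h0.level_right u hu g]
  · intro u hu g
    unfold testT354
    rw [Q354_mul_left n g (isUInf354_of_inLevelGroup hu), chi354_of_inLevelGroup n hu, mul_one,
      h0.level_left u hu g]
  · intro w k hk g
    unfold testT354
    rw [Q354_mul_right n g (isUInf354_of_isArchCompact hk), chi354_of_isArchCompact hn hk,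
      h0.arch_right w k hk g, map_mul, conj_eq_inv354 (hτ.norm_one w k hk)]
    ring
  · intro w k hk g
    unfold testT354
    rw [Q354_mul_left n g (isUInf354_of_isArchCompact hk), chi354_of_isArchCompact hn hk,
      h0.arch_left w k hk g, map_mul, conj_eq_inv354 (hτ.norm_one w k hk)]
    ring

theorem isSphTestT_testT354 (h𝔫 : 𝔫 ≠ ⊥) (hτ : IsKType τ)
    (hn : ∀ (w : InfinitePlace K) (k : G K), IsArchCompact w k →
      τ k = Ploc354 w (infComp w k) ^ n w)
    {η : ℝ} (hη : 0 < η) (hη1 : η ≤ 1) (c : ℝ) :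
    IsSphTestT 𝔫 τ (testT354 n (testFn907 𝔫 η c)) where
  test := isTestT_testT354 h𝔫 hτ hn hη hη1 c
  bad_unit := by
    intro g hg v hv i j
    have h1 : testFn907 𝔫 η c g ≠ 0 := by
      intro h
      apply hg
      unfold testT354
      rw [h, mul_zero]
    exact (isSphTestFn_testFn907 h𝔫 hη hη1 c).bad_unit g h1 v hv i j

theorem adj_testT354 (n : InfinitePlace K → ℤ) (𝔫 : Ideal (𝓞 K)) {η : ℝ} (hη : 0 < η)
    (hη1 : η ≤ 1) (c : ℝ) :
    adj (testT354 n (testFn907 𝔫 η c)) = testT354 n (testFn907 𝔫 η c) := by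
  funext g
  have e : (starRingEnd ℂ) (testFn907 𝔫 η c g⁻¹) = testFn907 𝔫 η c g :=
    congrFun (adj_testFn907 𝔫 η c) g
  unfold adj testT354
  rw [map_mul, Complex.conj_conj, e]
  by_cases h0 : testFn907 𝔫 η c g = 0
  · rw [h0, mul_zero, mul_zero]
  · have hb : bump907 𝔫 η g ≠ 0 := by
      intro hb
      apply h0
      unfold testFn907
      rw [hb, mul_zero, Complex.ofReal_zero]
    have hD := (pfin_of_bump907_ne_zero hη hb).2
    rw [Q354_inv n g fun w hw => det_re_pos_of_defect354 (lt_of_lt_of_le hD hη1) hw]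

end Test

/-! ## The auxiliary functions -/

/-- `ψ_x (g) = φ (x g) conj (Q g)`. -/
def psiX354 (n : InfinitePlace K → ℤ) (φ : G K → ℂ) (x : G K) (g : G K) : ℂ :=
  φ (x * g) * conj (Q354 n g)

section Psi

variable {𝔫 : Ideal (𝓞 K)} {τ : G K → ℂ} {n : InfinitePlace K → ℤ} {r : G K} {φ : G K → ℂ}

theorem continuous_psiX354 (n : InfinitePlace K → ℤ) (hφ : Continuous φ) (x : G K) :
    Continuous (psiX354 n φ x) :=
  (hφ.comp (continuous_const.mul continuous_id)).mul
    (Complex.continuous_conj.comp (continuous_Q354 n))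

theorem psiX354_one (n : InfinitePlace K → ℤ) (φ : G K → ℂ) (x : G K) :
    psiX354 n φ x 1 = φ x := by
  unfold psiX354
  rw [mul_one, Q354_one, map_one, mul_one]

theorem psiX354_level (n : InfinitePlace K → ℤ) (hφ : IsAutT 𝔫 τ r φ) (x : G K) (u : G K)
    (hu : InLevelGroup 𝔫 u) (g : G K) : psiX354 n φ x (g * u) = psiX354 n φ x g := by
  unfold psiX354
  rw [← mul_assoc, hφ.level_inv u hu, Q354_mul_right n g (isUInf354_of_inLevelGroup hu),
    chi354_of_inLevelGroup n hu, mul_one]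

theorem psiX354_arch (hτ : IsKType τ)
    (hn : ∀ (w : InfinitePlace K) (k : G K), IsArchCompact w k →
      τ k = Ploc354 w (infComp w k) ^ n w)
    (hφ : IsAutT 𝔫 τ r φ) (x : G K) (w : InfinitePlace K) (k : G K)
    (hk : IsArchCompact w k) (g : G K) : psiX354 n φ x (g * k) = psiX354 n φ x g := by
  unfold psiX354
  rw [← mul_assoc, hφ.arch_compact w k hk, Q354_mul_right n g (isUInf354_of_isArchCompact hk),
    chi354_of_isArchCompact hn hk, map_mul]
  have h1 : τ k * conj (τ k) = 1 := by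
    rw [Complex.mul_conj, Complex.normSq_eq_norm_sq, hτ.norm_one w k hk]; simp
  linear_combination (φ (x * g) * conj (Q354 n g)) * h1

theorem norm_psiX354_le {B : ℝ} (hB : ∀ g, ‖φ g‖ ≤ B) (n : InfinitePlace K → ℤ) (x g : G K) :
    ‖psiX354 n φ x g‖ ≤ B := by
  unfold psiX354
  rw [norm_mul, RCLike.norm_conj]
  have h1 := hB (x * g)
  have h2 := norm_Q354_le n g
  have h3 : 0 ≤ B := (norm_nonneg _).trans h1
  calc ‖φ (x * g)‖ * ‖Q354 n g‖ ≤ B * 1 :=
        mul_le_mul h1 h2 (norm_nonneg _) h3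
    _ = B := mul_one B

/-- The convolution by the twisted test function, in terms of `ψ_x`. -/
theorem conv_testT354 (F : Frame K) (n : InfinitePlace K → ℤ) (f₀ φ : G K → ℂ) (x : G K) :
    conv F (testT354 n f₀) φ x = conv F f₀ (psiX354 n φ x) 1 := by
  unfold conv testT354 psiX354
  refine integral_congr_ae (Eventually.of_forall fun h => ?_)
  simp only [one_mul]
  ring

end Psi

/-! ## The leaf -/

theorem approxIdT_h354 {𝔫 : Ideal (𝓞 K)} (h𝔫 : 𝔫 ≠ ⊥) {τ : G K → ℂ} (hτ : IsKType τ)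
    (hC : ConvCuspT K 𝔫 τ) : ApproxIdT K 𝔫 τ := by
  obtain ⟨n, hn⟩ := ktype_class354 hτ
  intro R φ hφ ε hε
  have := borelSpace_G907 (K := K)
  have := R.F.haar
  obtain ⟨B, hB⟩ := hφ.aut.bdd
  have hB0 : 0 ≤ B := (norm_nonneg _).trans (hB 1)
  -- the sequence
  set η : ℕ → ℝ := fun k => 1 / ((k : ℝ) + 1) with hη
  have hηpos : ∀ k, 0 < η k := fun k => by positivity
  have hη1 : ∀ k, η k ≤ 1 := fun k => by
    rw [hη, div_le_one (by positivity)]
    have : (0 : ℝ) ≤ k := Nat.cast_nonneg k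
    linarith
  set f : ℕ → G K → ℂ := fun k => testT354 n (apx907 R.F 𝔫 (η k)) with hf
  have hfT : ∀ k, IsSphTestT 𝔫 τ (f k) := fun k =>
    isSphTestT_testT354 h𝔫 hτ hn (hηpos k) (hη1 k) _
  set ψ : ℕ → G K → ℂ := fun k g => conv R.F (f k) φ g - φ g with hψ
  have hψeq : ∀ k g, ψ k g
      = conv R.F (apx907 R.F 𝔫 (η k)) (psiX354 n φ g) 1 - psiX354 n φ g 1 := fun k g => by
    rw [hψ, hf]
    simp only
    rw [conv_testT354, psiX354_one]
  have hψc : ∀ k, Continuous (ψ k) := fun k =>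
    ((hC R).2.2.1 _ φ (hfT k).test hφ).aut.cont.sub hφ.aut.cont
  have hψb : ∀ k g, ‖ψ k g‖ ≤ 2 * B := fun k g => by
    rw [hψeq]
    refine norm_conv_sub_le907 R.F h𝔫 (hηpos k) (hη1 k)
      (continuous_psiX354 n hφ.aut.cont g) 1 fun h _ => ?_
    calc ‖psiX354 n φ g (1 * h) - psiX354 n φ g 1‖
        ≤ ‖psiX354 n φ g (1 * h)‖ + ‖psiX354 n φ g 1‖ := norm_sub_le _ _
      _ ≤ B + B := add_le_add (norm_psiX354_le hB n g _) (norm_psiX354_le hB n g _)
      _ = 2 * B := by ring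
  have hψlim : ∀ g, Tendsto (fun k => ψ k g) atTop (𝓝 0) := fun g => by
    rw [Metric.tendsto_atTop]
    intro ε' hε'
    obtain ⟨k₀, hk₀⟩ := exists_close907 h𝔫 (continuous_psiX354 n hφ.aut.cont g)
      (psiX354_level n hφ.aut g) (psiX354_arch hτ hn hφ.aut g) 1 (half_pos hε')
    refine ⟨k₀, fun k hk => ?_⟩
    rw [dist_zero_right]
    have hle : ‖ψ k g‖ ≤ ε' / 2 := by
      rw [hψeq]
      refine norm_conv_sub_le907 R.F h𝔫 (hηpos k) (hη1 k)
        (continuous_psiX354 n hφ.aut.cont g) 1 fun h hb => ?_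
      obtain ⟨hP, hD⟩ := pfin_of_bump907_ne_zero (hηpos k) hb
      refine (hk₀ h hP (hD.le.trans ?_)).le
      rw [hη]
      apply one_div_le_one_div_of_le (by positivity)
      have : (k₀ : ℝ) ≤ k := Nat.cast_le.mpr hk
      linarith
    linarith
  -- dominated convergence on the fundamental domain
  have hfin : IsFiniteMeasure (R.F.μ.restrict R.F.D) :=
    ⟨by rw [Measure.restrict_apply_univ]; exact R.F.fin⟩
  have hlim : Tendsto (fun k => ∫ g in R.F.D, ψ k g * (starRingEnd ℂ) (ψ k g) ∂(R.F.μ)) atTop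
      (𝓝 (∫ _ in R.F.D, (0 : ℂ) ∂(R.F.μ))) := by
    refine tendsto_integral_of_dominated_convergence (fun _ => (2 * B) ^ 2)
      (fun k => ?_) (integrable_const _) (fun k => Eventually.of_forall fun g => ?_)
      (Eventually.of_forall fun g => ?_)
    · exact ((hψc k).mul (Complex.continuous_conj.comp (hψc k))).aestronglyMeasurable
    · rw [norm_mul, RCLike.norm_conj, ← sq]
      exact pow_le_pow_left₀ (norm_nonneg _) (hψb k g) 2
    · have := (hψlim g).mul ((Complex.continuous_conj.tendsto 0).comp (hψlim g))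
      simpa using this
  rw [integral_zero] at hlim
  have hre : Tendsto (fun k => nsq R.F (ψ k)) atTop (𝓝 0) := by
    have h0 : Tendsto (fun k => (∫ g in R.F.D, ψ k g * (starRingEnd ℂ) (ψ k g) ∂(R.F.μ)).re) atTop
        (𝓝 ((0 : ℂ).re)) := (Complex.continuous_re.tendsto 0).comp hlim
    rw [Complex.zero_re] at h0
    exact h0
  obtain ⟨k, hk⟩ := ((tendsto_order.1 hre).2 ε hε).exists
  exact ⟨f k, hfT k, adj_testT354 n 𝔫 (hηpos k) (hη1 k) _, hk⟩

/-- **T2.26 `LeafT06`** (frozen Prop of `T2/SpecTau.lean`). -/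
theorem leafT06_h354 (K : Type) [Field K] [NumberField K] : LeafT06 K :=
  fun _ _ _ h𝔫 hτ _ hC => approxIdT_h354 h𝔫 hτ hC

end Fermat.Agent.LT.T2.H354

end

end
-- ===== PACK-END LT/T2/H354/LeafT06.lean

-- ===== PACK-BEGIN LT/T6/H864/CongFix.lean
section


/-!
# Row LT, tower T6, leaf T6.13.3b.8 `CongFixC865` (registry 1325): PROVED (helper864)

OFF-MAIN.  `congFixC864 : Fermat.Agent.LT.T6.H865.CongFixC865`, VERBATIM against
`LT/T6/H865/TwEllSpec.lean` (helper865, sha256 ce4fd7ce0a273736, byte-identical copy).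

`g = c₀ (1 + ϖ^r m) ∈ GL₂(𝒪)` fixes the ball of radius `r` around `[1]` pointwise:
`x = u d u'` (Cartan, `d = diag(a, b)`, `v a = v b · exp n`, `n = cdist x ≤ r`), `g₁ = u⁻¹ g u`
is again `c₀ (1 + ϖ^r m₁)`, so `v (g₁ 1 0) ≤ exp (-r)` (for `r ≥ 1`: `v c₀ ≤ 1`), and
`d⁻¹ g₁ d ∈ GL₂(𝒪)`.
-/

set_option autoImplicit false
set_option linter.unusedSectionVars false

open scoped Matrix

noncomputable section

namespace Fermat.Agent.LT.T6.H864

open Fermat.Agent.LT.T6 Fermat.Agent.LT.H129 Fermat.Agent.LT.T6.H340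

variable {k : Type} [Field k] [Valued k Γ₀]

theorem exp_neg_mul_exp864 (n : ℕ) :
    (WithZero.exp (-(n : ℤ)) : Γ₀) * WithZero.exp ((n : ℕ) : ℤ) = 1 := by
  rw [← WithZero.exp_add]
  simp

/-- The determinant of an element of `GL₂(𝒪)` is a unit. -/
theorem vdet_eq_one864 {g : GL (Fin 2) k} (hg : InU 0 g) :
    Valued.v (g : Matrix (Fin 2) (Fin 2) k).det = 1 := by
  rw [inU_zero_iff129] at hg
  have h1 : Valued.v (g : Matrix (Fin 2) (Fin 2) k).det ≤ 1 := det_mem_of_isInt129 hg.1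
  have h2 : Valued.v ((g⁻¹ : GL (Fin 2) k) : Matrix (Fin 2) (Fin 2) k).det ≤ 1 :=
    det_mem_of_isInt129 hg.2
  have h3 : (g : Matrix (Fin 2) (Fin 2) k).det *
      ((g⁻¹ : GL (Fin 2) k) : Matrix (Fin 2) (Fin 2) k).det = 1 := by
    rw [← Matrix.det_mul, ← Matrix.GeneralLinearGroup.coe_mul, mul_inv_cancel]
    simp
  have h4 : Valued.v (g : Matrix (Fin 2) (Fin 2) k).det *
      Valued.v ((g⁻¹ : GL (Fin 2) k) : Matrix (Fin 2) (Fin 2) k).det = 1 := by
    rw [← map_mul, h3, map_one]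
  refine le_antisymm h1 ?_
  calc (1 : Γ₀) = Valued.v (g : Matrix (Fin 2) (Fin 2) k).det *
        Valued.v ((g⁻¹ : GL (Fin 2) k) : Matrix (Fin 2) (Fin 2) k).det := h4.symm
    _ ≤ Valued.v (g : Matrix (Fin 2) (Fin 2) k).det * 1 := mul_le_mul' le_rfl h2
    _ = Valued.v (g : Matrix (Fin 2) (Fin 2) k).det := mul_one _

/-- The lower left entry of the inverse of an element of `GL₂(𝒪)`. -/
theorem v_inv_lower864 {g : GL (Fin 2) k} (hg : InU 0 g) :
    Valued.v (((g⁻¹ : GL (Fin 2) k) : Matrix (Fin 2) (Fin 2) k) 1 0) =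
      Valued.v ((g : Matrix (Fin 2) (Fin 2) k) 1 0) := by
  have hd := vdet_eq_one864 hg
  rw [Matrix.coe_units_inv, Matrix.inv_def, Matrix.adjugate_fin_two, Matrix.smul_apply]
  simp only [Matrix.of_apply, Matrix.cons_val', Matrix.cons_val_one, Matrix.cons_val_zero,
    Matrix.cons_val_fin_one, smul_eq_mul]
  rw [map_mul, Valuation.map_neg, Ring.inverse_eq_inv', map_inv₀, hd, inv_one, one_mul]

/-- Conjugation by `diag(a, b)`, entrywise. -/
theorem conj_diag_apply864 {a b : k} (ha : a ≠ 0) (hb : b ≠ 0) (h : GL (Fin 2) k) :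
    (((diag129 a b ha hb)⁻¹ * h * diag129 a b ha hb : GL (Fin 2) k) :
      Matrix (Fin 2) (Fin 2) k) =
      !![(h : Matrix (Fin 2) (Fin 2) k) 0 0, a⁻¹ * (h : Matrix (Fin 2) (Fin 2) k) 0 1 * b;
         b⁻¹ * (h : Matrix (Fin 2) (Fin 2) k) 1 0 * a, (h : Matrix (Fin 2) (Fin 2) k) 1 1] := by
  rw [diag129_inv340, Matrix.GeneralLinearGroup.coe_mul, Matrix.GeneralLinearGroup.coe_mul]
  ext i j
  fin_cases i <;> fin_cases j
  · simp [diag129, Matrix.mul_apply, Fin.sum_univ_two, Matrix.vecMul, dotProduct]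
    field_simp
  · simp [diag129, Matrix.mul_apply, Fin.sum_univ_two, Matrix.vecMul, dotProduct]
  · simp [diag129, Matrix.mul_apply, Fin.sum_univ_two, Matrix.vecMul, dotProduct]
  · simp [diag129, Matrix.mul_apply, Fin.sum_univ_two, Matrix.vecMul, dotProduct]
    field_simp

/-- Conjugation by `diag(a, b)` keeps integrality when the lower left entry is small. -/
theorem isInt_conj_diag864 {a b : k} (ha : a ≠ 0) (hb : b ≠ 0) {n : ℕ}
    (hab : Valued.v a = Valued.v b * WithZero.exp ((n : ℕ) : ℤ)) {h : GL (Fin 2) k}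
    (hint : IsInt129 (vO129 k) h)
    (hlow : Valued.v ((h : Matrix (Fin 2) (Fin 2) k) 1 0) * WithZero.exp ((n : ℕ) : ℤ) ≤ 1) :
    IsInt129 (vO129 k) ((diag129 a b ha hb)⁻¹ * h * diag129 a b ha hb) := by
  have hvb : Valued.v b ≠ 0 := by rwa [ne_eq, map_eq_zero]
  have hva : Valued.v a ≠ 0 := by rwa [ne_eq, map_eq_zero]
  have hen : (1 : Γ₀) ≤ WithZero.exp ((n : ℕ) : ℤ) := by
    rw [← WithZero.exp_zero, WithZero.exp_le_exp]
    exact Int.natCast_nonneg n
  intro i j
  rw [conj_diag_apply864 ha hb h, mem_vO129]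
  fin_cases i <;> fin_cases j
  · exact hint 0 0
  · simp only [Fin.zero_eta, Fin.mk_one, Matrix.of_apply, Matrix.cons_val', Matrix.cons_val_zero,
      Matrix.cons_val_one, Matrix.cons_val_fin_one]
    rw [map_mul, map_mul, map_inv₀, hab]
    have h01 : Valued.v ((h : Matrix (Fin 2) (Fin 2) k) 0 1) ≤ 1 := hint 0 1
    calc (Valued.v b * WithZero.exp ((n : ℕ) : ℤ))⁻¹ * Valued.v ((h : Matrix (Fin 2) (Fin 2) k) 0 1)
          * Valued.v b
        ≤ (Valued.v b * WithZero.exp ((n : ℕ) : ℤ))⁻¹ * 1 * Valued.v b :=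
          mul_le_mul' (mul_le_mul' le_rfl h01) le_rfl
      _ = (WithZero.exp ((n : ℕ) : ℤ))⁻¹ := by
          rw [mul_one, mul_inv, mul_comm (Valued.v b)⁻¹, mul_assoc, inv_mul_cancel₀ hvb, mul_one]
      _ ≤ 1 := by
          rw [← WithZero.exp_neg, ← WithZero.exp_zero, WithZero.exp_le_exp]
          simp
  · simp only [Fin.zero_eta, Fin.mk_one, Matrix.of_apply, Matrix.cons_val', Matrix.cons_val_zero,
      Matrix.cons_val_one, Matrix.cons_val_fin_one]
    rw [map_mul, map_mul, map_inv₀, hab]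
    calc (Valued.v b)⁻¹ * Valued.v ((h : Matrix (Fin 2) (Fin 2) k) 1 0) *
          (Valued.v b * WithZero.exp ((n : ℕ) : ℤ))
        = ((Valued.v b)⁻¹ * Valued.v b) *
            (Valued.v ((h : Matrix (Fin 2) (Fin 2) k) 1 0) * WithZero.exp ((n : ℕ) : ℤ)) := by
          ac_rfl
      _ = Valued.v ((h : Matrix (Fin 2) (Fin 2) k) 1 0) * WithZero.exp ((n : ℕ) : ℤ) := by
          rw [inv_mul_cancel₀ hvb, one_mul]
      _ ≤ 1 := hlow
  · exact hint 1 1

/-- Conjugation by `diag(a, b)` keeps `GL₂(𝒪)` when the lower left entry is small. -/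
theorem inU_conj_diag864 {a b : k} (ha : a ≠ 0) (hb : b ≠ 0) {n : ℕ}
    (hab : Valued.v a = Valued.v b * WithZero.exp ((n : ℕ) : ℤ)) {h : GL (Fin 2) k}
    (hh : InU 0 h)
    (hlow : Valued.v ((h : Matrix (Fin 2) (Fin 2) k) 1 0) * WithZero.exp ((n : ℕ) : ℤ) ≤ 1) :
    InU 0 ((diag129 a b ha hb)⁻¹ * h * diag129 a b ha hb) := by
  have hh' := (inU_zero_iff129 h).1 hh
  rw [inU_zero_iff129]
  refine ⟨isInt_conj_diag864 ha hb hab hh'.1 hlow, ?_⟩
  have e : ((diag129 a b ha hb)⁻¹ * h * diag129 a b ha hb)⁻¹ =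
      (diag129 a b ha hb)⁻¹ * h⁻¹ * diag129 a b ha hb := by group
  rw [e]
  refine isInt_conj_diag864 ha hb hab hh'.2 ?_
  rw [v_inv_lower864 hh]
  exact hlow

/-- Entries of a product of three integral matrices. -/
theorem v_mul3_le864 {A B C : Matrix (Fin 2) (Fin 2) k} (hA : ∀ i j, Valued.v (A i j) ≤ 1)
    (hB : ∀ i j, Valued.v (B i j) ≤ 1) (hC : ∀ i j, Valued.v (C i j) ≤ 1) (i j : Fin 2) :
    Valued.v ((A * B * C) i j) ≤ 1 := by
  rw [Matrix.mul_apply]
  refine Valuation.map_sum_le _ fun l _ => ?_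
  rw [Matrix.mul_apply, Finset.sum_mul]
  refine Valuation.map_sum_le _ fun p _ => ?_
  rw [map_mul, map_mul]
  calc Valued.v (A i p) * Valued.v (B p l) * Valued.v (C l j) ≤ 1 * 1 * 1 :=
        mul_le_mul' (mul_le_mul' (hA i p) (hB p l)) (hC l j)
    _ = 1 := by rw [one_mul, one_mul]

/-- The lower left entry of `u⁻¹ g u` for `g = c₀ (1 + ϖ^r m)`, `r ≥ 1`. -/
theorem v_lower_conj864 {ϖ c₀ : k} {r : ℕ} (hr : 1 ≤ r) {g u : GL (Fin 2) k}
    {m : Matrix (Fin 2) (Fin 2) k} (hϖ : Valued.v ϖ = WithZero.exp (-1 : ℤ)) (hg : InU 0 g)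
    (hu : InU 0 u) (hm : ∀ b c, Valued.v (m b c) ≤ 1)
    (hgm : (g : Matrix (Fin 2) (Fin 2) k) = c₀ • ((1 : Matrix (Fin 2) (Fin 2) k) + ϖ ^ r • m)) :
    Valued.v (((u⁻¹ * g * u : GL (Fin 2) k) : Matrix (Fin 2) (Fin 2) k) 1 0) ≤
      WithZero.exp (-(r : ℤ)) := by
  have hu' := (inU_zero_iff129 u).1 hu
  have hg' := (inU_zero_iff129 g).1 hg
  have hvϖr : Valued.v (ϖ ^ r) = WithZero.exp (-(r : ℤ)) := by
    rw [map_pow, hϖ, ← WithZero.exp_nsmul]
    simp
  have hlt : (WithZero.exp (-(r : ℤ)) : Γ₀) < 1 := by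
    rw [← WithZero.exp_zero, WithZero.exp_lt_exp]
    omega
  -- `v c₀ ≤ 1`
  have hc₀ : Valued.v c₀ ≤ 1 := by
    have h00 : (g : Matrix (Fin 2) (Fin 2) k) 0 0 = c₀ * (1 + ϖ ^ r * m 0 0) := by
      rw [hgm]
      simp
    have h1 : Valued.v (ϖ ^ r * m 0 0) < 1 := by
      rw [map_mul, hvϖr]
      calc WithZero.exp (-(r : ℤ)) * Valued.v (m 0 0) ≤ WithZero.exp (-(r : ℤ)) * 1 :=
            mul_le_mul' le_rfl (hm 0 0)
        _ = WithZero.exp (-(r : ℤ)) := mul_one _
        _ < 1 := hlt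
    have h2 : Valued.v (1 + ϖ ^ r * m 0 0) = 1 := by
      have := Valuation.map_add_eq_of_lt_left (Valued.v : Valuation k Γ₀)
        (x := (1 : k)) (y := ϖ ^ r * m 0 0) (by rw [map_one]; exact h1)
      rw [this, map_one]
    have h3 : Valued.v ((g : Matrix (Fin 2) (Fin 2) k) 0 0) ≤ 1 := hg'.1 0 0
    rw [h00, map_mul, h2, mul_one] at h3
    exact h3
  -- the conjugate
  have e : ((u⁻¹ * g * u : GL (Fin 2) k) : Matrix (Fin 2) (Fin 2) k) =
      c₀ • ((1 : Matrix (Fin 2) (Fin 2) k) + ϖ ^ r •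
        (((u⁻¹ : GL (Fin 2) k) : Matrix (Fin 2) (Fin 2) k) * m *
          (u : Matrix (Fin 2) (Fin 2) k))) := by
    have h1 : ((u⁻¹ : GL (Fin 2) k) : Matrix (Fin 2) (Fin 2) k) *
        (u : Matrix (Fin 2) (Fin 2) k) = 1 := by
      rw [← Matrix.GeneralLinearGroup.coe_mul, inv_mul_cancel]; rfl
    rw [Matrix.GeneralLinearGroup.coe_mul, Matrix.GeneralLinearGroup.coe_mul, hgm,
      Matrix.mul_smul, Matrix.smul_mul, Matrix.mul_add, Matrix.add_mul, Matrix.mul_one, h1,
      Matrix.mul_smul, Matrix.smul_mul]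
  rw [e]
  simp only [Matrix.smul_apply, Matrix.add_apply, smul_eq_mul, ne_eq, one_ne_zero,
    not_false_eq_true, Matrix.one_apply_ne, zero_add]
  rw [map_mul, map_mul, hvϖr]
  have hM := v_mul3_le864 (A := ((u⁻¹ : GL (Fin 2) k) : Matrix (Fin 2) (Fin 2) k)) (B := m)
    (C := (u : Matrix (Fin 2) (Fin 2) k)) (fun i j => hu'.2 i j) hm (fun i j => hu'.1 i j) 1 0
  calc Valued.v c₀ * (WithZero.exp (-(r : ℤ)) *
        Valued.v ((((u⁻¹ : GL (Fin 2) k) : Matrix (Fin 2) (Fin 2) k) * m *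
          (u : Matrix (Fin 2) (Fin 2) k)) 1 0))
      ≤ 1 * (WithZero.exp (-(r : ℤ)) * 1) := mul_le_mul' hc₀ (mul_le_mul' le_rfl hM)
    _ = WithZero.exp (-(r : ℤ)) := by rw [one_mul, mul_one]

/-- **T6.13.3b.8 = `H865.CongFixC865`.** -/
theorem congFixC864 : Fermat.Agent.LT.T6.H865.CongFixC865 := by
  intro k _ _ q _ ϖ c₀ r g m hϖ hg hm hgm x hx
  obtain ⟨u, u', a, b, ha, hb, hu, hu', hxd, hv⟩ := exists_decomp340 x
  have e : x⁻¹ * g * x =
      u'⁻¹ * ((diag129 a b ha hb)⁻¹ * (u⁻¹ * g * u) * diag129 a b ha hb) * u' := by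
    conv_lhs => rw [hxd]
    group
  rw [e, cdist340_mul_right _ hu', cdist340_mul_left _ (inU_zero_inv129 hu')]
  apply cdist340_of_inU
  have hg₁ : InU 0 (u⁻¹ * g * u) := inU_zero_mul129 (inU_zero_mul129 (inU_zero_inv129 hu) hg) hu
  refine inU_conj_diag864 ha hb hv hg₁ ?_
  by_cases hn : cdist340 x = 0
  · rw [hn]
    simp only [CharP.cast_eq_zero, WithZero.exp_zero, mul_one]
    exact ((inU_zero_iff129 _).1 hg₁).1 1 0
  · have hr : 1 ≤ r := by omega
    have h1 := v_lower_conj864 hr hϖ hg hu hm hgm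
    calc Valued.v (((u⁻¹ * g * u : GL (Fin 2) k) : Matrix (Fin 2) (Fin 2) k) 1 0) *
          WithZero.exp ((cdist340 x : ℕ) : ℤ)
        ≤ WithZero.exp (-(r : ℤ)) * WithZero.exp ((r : ℕ) : ℤ) := by
          refine mul_le_mul' h1 ?_
          rw [WithZero.exp_le_exp]
          exact_mod_cast hx
      _ = 1 := exp_neg_mul_exp864 r

end Fermat.Agent.LT.T6.H864

end

end
-- ===== PACK-END LT/T6/H864/CongFix.lean

-- ===== PACK-BEGIN LT/T5/H32/RegConv.lean
section



/-!
# Row LT, tower T5 (helper32): regular support and σ-regularity of convolutions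

OFF-MAIN, ADDITIVE.  Vocabulary of `T5/Spec.lean` v4 + `T5/SpecZ.lean`.  Input for the fields
`reg_up` / `reg_down` of `T7.IsL2Data` (ruling of helper797, 15:22Z): the members of the families
are convolutions `ψ ⋆ ρ_{k,m}` (or `ρ_{k,m} ⋆ ψ`) of a function `ψ` whose support is Iwahori along
the orbit and compact outside it (independent of `k, m`) with a function `ρ_{k,m}` supported in
`K_w^× · I diag(ϖ^m, 1) I` at `w = o 0`.

* `IsIwSupported32 l o C ψ` : every point of the support of `ψ` is Iwahori at `o 0, …, o (l-1)`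
  and agrees outside the orbit with a point of `C`;
* `hasRegularSupportZ_conv_left32`, `hasRegularSupportZ_conv_right32`, `isIwSupported_conv32`;
* `exists_depth_conv32` : ONE depth `m₀` (depending on `C₁, C₂` only) such that `ψ ⋆ ρ` and
  `ρ ⋆ ψ` are `T5.IsTwRegular` for every `m ≥ m₀`, every `ψ` Iwahori-supported in `C₁` and every
  `ρ` of regular support (up to a scalar at `o 0`) of depth `m` in `C₂`;
* `exists_depth_conv_id32` : the same downstairs (`σ = id`, `l = 1`, `k = ⊤`, any place `u`).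
-/

set_option autoImplicit false
open IsDedekindDomain NumberField MeasureTheory
open scoped MatrixGroups ComplexConjugate Pointwise
open Fermat.Agent.LT.H556.A0 Fermat.Agent.LT.T5 Fermat.Agent.LT.H942 Fermat.Agent.LT.T5.H942

noncomputable section
namespace Fermat.Agent.LT.T5.H32

variable {K : Type} [Field K] [NumberField K]

attribute [local instance] Fermat.Agent.LT.T5.instMeasurableSpaceG

variable {μ : Measure (G K)}

/-- Every point of the support of `ψ` is Iwahori at the places `o 0, …, o (l-1)` and agrees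
outside the orbit with a point of `C`. -/
def IsIwSupported32 (l : ℕ) (o : ℕ → HeightOneSpectrum (𝓞 K)) (C : Set (G K))
    (ψ : G K → ℂ) : Prop :=
  ∀ y : G K, ψ y ≠ 0 →
    (∀ j : ℕ, j < l → InIwahori (o j) y) ∧
      ∃ h ∈ C, AgreeOutside {v | ∃ j < l, v = o j} y h

/-- A function whose support is Iwahori along the orbit is Iwahori-supported in its (closed)
support. -/
theorem isIwSupported_of_support32 {l : ℕ} {o : ℕ → HeightOneSpectrum (𝓞 K)} {ψ : G K → ℂ}
    (h : ∀ y : G K, ψ y ≠ 0 → ∀ j : ℕ, j < l → InIwahori (o j) y) :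
    IsIwSupported32 l o (tsupport ψ) ψ := fun y hy =>
  ⟨h y hy, y, subset_tsupport _ hy, agreeOutside_refl942 _ y⟩

theorem IsIwSupported32.mono {l : ℕ} {o : ℕ → HeightOneSpectrum (𝓞 K)} {C C' : Set (G K)}
    {ψ : G K → ℂ} (h : IsIwSupported32 l o C ψ) (hCC : C ⊆ C') : IsIwSupported32 l o C' ψ :=
  fun y hy => ⟨(h y hy).1, by
    obtain ⟨c, hc, hyc⟩ := (h y hy).2
    exact ⟨c, hCC hc, hyc⟩⟩

theorem hasRegularSupportZ_mono32 {l : ℕ} {o : ℕ → HeightOneSpectrum (𝓞 K)} {m : ℕ}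
    {C C' : Set (G K)} {ρ : G K → ℂ} (h : HasRegularSupportZ l o m C ρ) (hCC : C ⊆ C') :
    HasRegularSupportZ l o m C' ρ := fun g hg =>
  ⟨(h g hg).1, (h g hg).2.1, by
    obtain ⟨c, hc, hgc⟩ := (h g hg).2.2
    exact ⟨c, hCC hc, hgc⟩⟩

/-- Iwahori on the left of the double coset (up to a scalar). -/
theorem inIwahoriCosetZ_mul_left32 {w : HeightOneSpectrum (𝓞 K)} {m : ℕ} {y h : G K}
    (hy : InIwahori w y) (hh : InIwahoriCosetZ w m h) : InIwahoriCosetZ w m (y * h) := by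
  obtain ⟨k₁, k₂, c, d, hk₁, hk₂, hd, hcd, hfh⟩ := hh
  refine ⟨y * k₁, k₂, c, d, inIwahori_mul942 w hy hk₁, hk₂, hd, hcd, ?_⟩
  rw [finComp_mulZ, hfh, finComp_mulZ]
  simp only [Matrix.mul_assoc]

/-- Iwahori on the right of the double coset (up to a scalar). -/
theorem inIwahoriCosetZ_mul_right32 {w : HeightOneSpectrum (𝓞 K)} {m : ℕ} {y h : G K}
    (hh : InIwahoriCosetZ w m h) (hy : InIwahori w y) : InIwahoriCosetZ w m (h * y) := by
  obtain ⟨k₁, k₂, c, d, hk₁, hk₂, hd, hcd, hfh⟩ := hh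
  refine ⟨k₁, k₂ * y, c, d, hk₁, inIwahori_mul942 w hk₂ hy, hd, hcd, ?_⟩
  rw [finComp_mulZ, hfh, finComp_mulZ]
  simp only [Matrix.mul_assoc]

/-- `ψ ⋆ ρ` has regular support if `ψ` is Iwahori-supported and `ρ` has regular support. -/
theorem hasRegularSupportZ_conv_left32 {l : ℕ} {o : ℕ → HeightOneSpectrum (𝓞 K)} {m : ℕ}
    {C₁ C₂ : Set (G K)} {ψ ρ : G K → ℂ} (hl : 0 < l) (hψ : IsIwSupported32 l o C₁ ψ)
    (hρ : HasRegularSupportZ l o m C₂ ρ) :
    HasRegularSupportZ l o m (C₁ * C₂) (conv μ ψ ρ) := by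
  intro g hg
  obtain ⟨y, z, hy, hz, rfl⟩ := exists_of_conv_ne_zero32 hg
  obtain ⟨hyI, c₁, hc₁, hyc⟩ := hψ y hy
  obtain ⟨hzZ, hzI, c₂, hc₂, hzc⟩ := hρ z hz
  refine ⟨inIwahoriCosetZ_mul_left32 (hyI 0 hl) hzZ,
    fun j hj hjl => inIwahori_mul942 (o j) (hyI j hjl) (hzI j hj hjl),
    c₁ * c₂, ⟨c₁, hc₁, c₂, hc₂, rfl⟩, agreeOutside_mul942 _ hyc hzc⟩

/-- `ρ ⋆ ψ` has regular support if `ψ` is Iwahori-supported and `ρ` has regular support. -/
theorem hasRegularSupportZ_conv_right32 {l : ℕ} {o : ℕ → HeightOneSpectrum (𝓞 K)} {m : ℕ}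
    {C₁ C₂ : Set (G K)} {ψ ρ : G K → ℂ} (hl : 0 < l) (hψ : IsIwSupported32 l o C₁ ψ)
    (hρ : HasRegularSupportZ l o m C₂ ρ) :
    HasRegularSupportZ l o m (C₂ * C₁) (conv μ ρ ψ) := by
  intro g hg
  obtain ⟨z, y, hz, hy, rfl⟩ := exists_of_conv_ne_zero32 hg
  obtain ⟨hyI, c₁, hc₁, hyc⟩ := hψ y hy
  obtain ⟨hzZ, hzI, c₂, hc₂, hzc⟩ := hρ z hz
  refine ⟨inIwahoriCosetZ_mul_right32 hzZ (hyI 0 hl),
    fun j hj hjl => inIwahori_mul942 (o j) (hzI j hj hjl) (hyI j hjl),
    c₂ * c₁, ⟨c₂, hc₂, c₁, hc₁, rfl⟩, agreeOutside_mul942 _ hzc hyc⟩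

/-- Convolutions of Iwahori-supported functions are Iwahori-supported. -/
theorem isIwSupported_conv32 {l : ℕ} {o : ℕ → HeightOneSpectrum (𝓞 K)}
    {C₁ C₂ : Set (G K)} {ψ₁ ψ₂ : G K → ℂ} (h₁ : IsIwSupported32 l o C₁ ψ₁)
    (h₂ : IsIwSupported32 l o C₂ ψ₂) : IsIwSupported32 l o (C₁ * C₂) (conv μ ψ₁ ψ₂) := by
  intro g hg
  obtain ⟨y, z, hy, hz, rfl⟩ := exists_of_conv_ne_zero32 hg
  obtain ⟨hyI, c₁, hc₁, hyc⟩ := h₁ y hy
  obtain ⟨hzI, c₂, hc₂, hzc⟩ := h₂ z hz
  exact ⟨fun j hjl => inIwahori_mul942 (o j) (hyI j hjl) (hzI j hjl),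
    c₁ * c₂, ⟨c₁, hc₁, c₂, hc₂, rfl⟩, agreeOutside_mul942 _ hyc hzc⟩

/-- Regular support is stable under convolution with Iwahori-supported functions on both
sides. -/
theorem hasRegularSupportZ_conv_both32 {l : ℕ} {o : ℕ → HeightOneSpectrum (𝓞 K)} {m : ℕ}
    {C₁ C₂ C₃ : Set (G K)} {ψ ρ χ : G K → ℂ} (hl : 0 < l) (hψ : IsIwSupported32 l o C₁ ψ)
    (hρ : HasRegularSupportZ l o m C₂ ρ) (hχ : IsIwSupported32 l o C₃ χ) :
    HasRegularSupportZ l o m (C₁ * C₂ * C₃) (conv μ (conv μ ψ ρ) χ) :=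
  hasRegularSupportZ_conv_right32 hl hχ (hasRegularSupportZ_conv_left32 hl hψ hρ)

/-- **σ-regularity of the members of a family `ψ ⋆ ρ_m`, `ρ_m ⋆ ψ`**: one depth for all members.
The depth depends on the orbit and on the compact sets only (NOT on the central shift, which is
inside `HasRegularSupportZ`). -/
theorem exists_depth_conv32 {s : AdelicAut K} {l : ℕ} {k : Subfield K}
    (hc : IsCyclicOfDegree s l k) (o : ℕ → HeightOneSpectrum (𝓞 K))
    (ho : ∀ j : ℕ, PlaceRel s (o j) (o (j + 1)))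
    (hne : ∀ j : ℕ, 0 < j → j < l → o j ≠ o 0)
    {C₁ C₂ : Set (G K)} (hC₁ : IsCompact C₁) (hC₂ : IsCompact C₂) (μ : Measure (G K)) :
    ∃ m₀ : ℕ, ∀ m : ℕ, m₀ ≤ m → ∀ ψ ρ : G K → ℂ,
      IsIwSupported32 l o C₁ ψ → HasRegularSupportZ l o m C₂ ρ →
        IsTwRegular s l k (conv μ ψ ρ) ∧ IsTwRegular s l k (conv μ ρ ψ) := by
  obtain ⟨m₁, h₁⟩ := regularOfIwahoriZ32 s l k hc o (C₁ * C₂) (hC₁.mul hC₂) ho hne
  obtain ⟨m₂, h₂⟩ := regularOfIwahoriZ32 s l k hc o (C₂ * C₁) (hC₂.mul hC₁) ho hne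
  refine ⟨max m₁ m₂, fun m hm ψ ρ hψ hρ => ⟨?_, ?_⟩⟩
  · exact h₁ m (le_trans (le_max_left _ _) hm) _ (hasRegularSupportZ_conv_left32 hc.pos hψ hρ)
  · exact h₂ m (le_trans (le_max_right _ _) hm) _ (hasRegularSupportZ_conv_right32 hc.pos hψ hρ)

/-- The same with Iwahori-supported functions on both sides: `ψ ⋆ ρ_m ⋆ χ`. -/
theorem exists_depth_conv_both32 {s : AdelicAut K} {l : ℕ} {k : Subfield K}
    (hc : IsCyclicOfDegree s l k) (o : ℕ → HeightOneSpectrum (𝓞 K))
    (ho : ∀ j : ℕ, PlaceRel s (o j) (o (j + 1)))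
    (hne : ∀ j : ℕ, 0 < j → j < l → o j ≠ o 0)
    {C₁ C₂ C₃ : Set (G K)} (hC₁ : IsCompact C₁) (hC₂ : IsCompact C₂) (hC₃ : IsCompact C₃)
    (μ : Measure (G K)) :
    ∃ m₀ : ℕ, ∀ m : ℕ, m₀ ≤ m → ∀ ψ ρ χ : G K → ℂ,
      IsIwSupported32 l o C₁ ψ → HasRegularSupportZ l o m C₂ ρ → IsIwSupported32 l o C₃ χ →
        IsTwRegular s l k (conv μ (conv μ ψ ρ) χ) := by
  obtain ⟨m₁, h₁⟩ :=
    regularOfIwahoriZ32 s l k hc o (C₁ * C₂ * C₃) ((hC₁.mul hC₂).mul hC₃) ho hne
  exact ⟨m₁, fun m hm ψ ρ χ hψ hρ hχ =>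
    h₁ m hm _ (hasRegularSupportZ_conv_both32 hc.pos hψ hρ hχ)⟩

/-! ## Downstairs: `σ = id`, `l = 1`, `k = ⊤` -/

theorem placeRel_id32 (u : HeightOneSpectrum (𝓞 K)) : PlaceRel (AdelicAut.id K) u u := by
  unfold PlaceRel
  have h : (NumberField.RingOfIntegers.mapRingEquiv (AdelicAut.id K).σ : 𝓞 K →+* 𝓞 K)
      = RingHom.id (𝓞 K) := by
    ext x
    rfl
  have h2 : Ideal.map (NumberField.RingOfIntegers.mapRingEquiv (AdelicAut.id K).σ) u.asIdeal
      = Ideal.map (RingHom.id (𝓞 K)) u.asIdeal := by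
    apply le_antisymm
    · rw [Ideal.map_le_iff_le_comap]
      intro x hx
      exact Ideal.mem_map_of_mem (RingHom.id (𝓞 K)) hx
    · rw [Ideal.map_le_iff_le_comap]
      intro x hx
      exact Ideal.mem_map_of_mem _ hx
  rw [h2, Ideal.map_id]

/-- **Regularity downstairs** (`T5.IsTwRegular (T5.AdelicAut.id K) 1 ⊤`), one depth for the
family. -/
theorem exists_depth_conv_id32 (u : HeightOneSpectrum (𝓞 K))
    {C₁ C₂ : Set (G K)} (hC₁ : IsCompact C₁) (hC₂ : IsCompact C₂) (μ : Measure (G K)) :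
    ∃ m₀ : ℕ, ∀ m : ℕ, m₀ ≤ m → ∀ ψ ρ : G K → ℂ,
      IsIwSupported32 1 (fun _ => u) C₁ ψ → HasRegularSupportZ 1 (fun _ => u) m C₂ ρ →
        IsTwRegular (AdelicAut.id K) 1 ⊤ (conv μ ψ ρ) ∧
          IsTwRegular (AdelicAut.id K) 1 ⊤ (conv μ ρ ψ) :=
  exists_depth_conv32 isCyclicOfDegree_id (fun _ => u) (fun _ => placeRel_id32 u)
    (fun j hj hj1 => absurd hj1 (by omega)) hC₁ hC₂ μ

end Fermat.Agent.LT.T5.H32

end

end
-- ===== PACK-END LT/T5/H32/RegConv.lean

-- ===== PACK-BEGIN LT/T7/H534/SpecDownSpec.lean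
section



/-!
# Row LT, tower T7, NODE T7.L2.3 `SpecDownC` -- THE CUT, level 1 (sub-architect helper534)

OFF-MAIN.  Definitions, frozen Props and the PROVED top `specDownC_of534`.
No hole, no opaque constant, nothing assumed.  ADDITIVE (new names only).
Vocabulary: `LT/T7/Level2.lean` (helper797@819237e8b, sha256 1551664660339642), byte-identical.

    SpecDownC K K'  ⟸  StfIdC K + IwSysC K + BCDataC K K' + ResDegC K K' + BCUnitC K K'
                          + DownBasisC K K'                          (`specDownC_of534`)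

## The idea: NO generalised eigenspaces, NO trace norm

* The sequence `e` is CHOSEN (the node is existential in `e`): it is adapted to `W ⊕ W^⊥`
  (`W` = the invariant cusp functions `IsWFn`), and inside `W` it is a SCHUR basis of every
  eigen-class for the commuting operators `Z`, `𝒰`, `B = R(f g [] 0 0)`: all three are upper
  triangular in an orthonormal basis, so the diagonal coefficient of `B Z^k 𝒰^m` at `e i` is
  `x_i b_i^k l_i^m` with `x_i, b_i, l_i` the diagonal entries.  The atoms are the members of the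
  basis themselves (`ι` = the indices of the `W`-part).
* Summability of `x_i = ⟨B e_i, e_i⟩` is the first conclusion of `T5.STFsigma` for `σ = id`
  (closed tower T5) applied to `f g [] 0 0 = φ₁ ⋆ φ₂`.
* Outside the `W`-part the diagonal coefficients vanish by `IsL2Data.kill_down`.
* `IsL2Data.op_down` gives `R(f g X k m) e_i = X(Ĉ_i) B Z^k 𝒰^m e_i`, `Ĉ_i` ANY base change datum
  of the eigen-data `c_i` of `e_i` (`BCDataC`: it exists; `BCUnitC`: it is unitary).
* Realisation: `e_i` itself is the cusp form of A0.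

## The leaves

* `StfIdC K`     : `T5.STFsigma (T5.AdelicAut.id K) 𝔫 T5.trivType` for every level (tower T5).
* `IwSysC K`     : an Iwahori coset system and a scalar uniformiser exist at every place.
* `BCDataC K K'` : every eigen-datum over `K` has a base change datum outside `S'`.
* `ResDegC K K'` : every finite place of `K'` lies over a place of `K`, with a residue degree.
* `BCUnitC K K'` : the base change of a unitary datum is unitary.
* `DownBasisC K K'` (NODE, cut in `DownBasisSpec.lean`): the adapted Schur sequence exists.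
-/

set_option autoImplicit false
set_option linter.unusedSectionVars false
set_option linter.unusedVariables false

open AutomorphicForm IsDedekindDomain NumberField MeasureTheory
open scoped ComplexConjugate

noncomputable section

namespace Fermat.Agent.LT.T7.SD534

open Fermat.Agent.LT.H556 Fermat.Agent.LT.H556.A0 Fermat.Agent.LT.T7

attribute [local instance] Fermat.Agent.LT.T5.instMeasurableSpaceG

section Defs

variable {K K' : Type} [Field K] [NumberField K] [Field K'] [NumberField K'] [Algebra K K']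

/-- The eigen-datum `c` is UNITARY outside the level `𝔫` (the relations of `T2.IsCuspBasis`,
`T2.IsCuspBasisPlus`). -/
def IsUnitOut (𝔫 : Ideal (𝓞 K)) (c : EigData K) : Prop :=
  (∀ v : HeightOneSpectrum (𝓞 K), ¬ v.asIdeal ∣ 𝔫 →
      ‖c.b v‖ = 1 ∧ conj (c.a v) = c.a v * conj (c.b v) ∧
      ‖c.a v‖ * Real.sqrt (Ideal.absNorm v.asIdeal : ℝ) ≤ (Ideal.absNorm v.asIdeal : ℝ) + 1) ∧
    ∀ (w : InfinitePlace K) (d : ℝ), 0 < d → (c.m w d).im = 0 ∧ ‖c.m w d‖ ≤ 4 * Real.pi

/-- **THE ADAPTED SCHUR SEQUENCE** for the bad element `g`, the Iwahori coset system `H` and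
the scalar uniformiser `z` at the regular place `u`.

* `e` is a complete orthonormal sequence of cusp functions of level `𝔫 g` (zero vectors allowed);
* `I` = the indices of the `W`-part; for `i ∉ I` the member `e i` is orthogonal to `W`;
* for `i ∈ I` the member `e i` is a nonzero invariant cusp function with joint eigen-data `c i`
  (unitary outside `𝔫 g`), and the diagonal coefficient of `B Z^k 𝒰^m` at `e i` is
  `x i * b i ^ k * l i ^ m`, with `(b i, l i)` as in `IsRegParam R`. -/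
structure IsDownBasis (Dt : L2Data K K') (g : G K') (H : Finset (G K)) (z : G K)
    (e : ℕ → G K → ℂ) (I : Set ℕ) (c : ℕ → EigData K) (b l x : ℕ → ℂ) (R : ℝ) : Prop where
  onb : T5.IsCuspONB (Dt.𝔫 g) T5.trivType Dt.R.r Dt.R.μ Dt.R.F e
  perp : ∀ i, i ∉ I → ∀ χ : G K → ℂ, IsWFn (Dt.𝔫 g) Dt.R.r 1 (fun _ => Dt.u) χ →
    T5.innerD Dt.R.μ Dt.R.F (e i) χ = 0
  eig : ∀ i, i ∈ I → IsEigFn (Dt.𝔫 g) Dt.R.r 1 (fun _ => Dt.u) (e i) (c i)
  ne : ∀ i, i ∈ I → ∃ y : G K, e i y ≠ 0
  unit : ∀ i, i ∈ I → IsUnitOut (Dt.𝔫 g) (c i)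
  tri : ∀ i, i ∈ I → ∀ (k : ℤ) (m : ℕ),
    T5.innerD Dt.R.μ Dt.R.F
        (T5.Rconv Dt.R.μ (Dt.f g [] 0 0) (shiftOp z k ((iwOp Dt.u H)^[m] (e i)))) (e i)
      = x i * b i ^ k * l i ^ m
  reg : ∀ i, i ∈ I → IsRegParam R (b i) (l i)

end Defs

/-! ## The leaves -/

section Leaves

variable (K K' : Type) [Field K] [NumberField K] [Field K'] [NumberField K'] [Algebra K K']

/-- **SD.1 (tower T5, closed).**  The trace identity of T5 for `σ = id`, trivial `K_∞`-type,
every level. -/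
def StfIdC : Prop :=
  ∀ 𝔫 : Ideal (𝓞 K), 𝔫 ≠ ⊥ → T5.STFsigma (T5.AdelicAut.id K) 𝔫 T5.trivType

/-- **SD.2 (local, elementary).**  At every finite place there are an Iwahori coset system
(`q` representatives of `I diag(ϖ,1) I / I`: the matrices `[[ϖ, a], [0, 1]]`, `a` a system of
representatives of `𝒪/ϖ`, at the place and `1` elsewhere) and a scalar uniformiser. -/
def IwSysC : Prop :=
  ∀ u : HeightOneSpectrum (𝓞 K),
    (∃ H : Finset (G K), IsIwCosetSystem u H) ∧ ∃ z : G K, IsScalarUniformizerAt u z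

/-- **SD.3 (algebra).**  Every eigen-datum over `K` has a base change datum over `K'` outside
`S'` (choice of the place below and of the residue degree; they are unique: `PlaceOver`
determines `v`, and `N w = (N v)^f` with `N v ≥ 2` determines `f`). -/
def BCDataC : Prop :=
  ∀ (S' : Finset (HeightOneSpectrum (𝓞 K'))) (c : EigData K), ∃ C : EigData K', IsBCData c C S'

/-- **SD.6 (algebraic number theory, Mathlib).**  Every finite place `w` of `K'` lies over a
finite place `v` of `K` and `N w = (N v)^f` (`v = w ∩ 𝒪_K`, `f` = the inertia degree;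
`K'/K` finite). -/
def ResDegC : Prop :=
  FiniteDimensional K K' →
    ∀ w : HeightOneSpectrum (𝓞 K'), ∃ (v : HeightOneSpectrum (𝓞 K)) (f : ℕ), HasResDeg K K' v w f

/-- **SD.4 (algebra).**  The base change of a datum which is unitary outside `𝔫` is unitary
outside `S'`, if every place outside `S'` lies over places prime to `𝔫` only.
(`|b^f| = 1`; with `a = α + β`, `b = α β`: `conj α = α⁻¹` or `conj α = β⁻¹`... in both cases
`conj (α^f + β^f) = (α^f + β^f) conj (b^f)` and `|α|, |β| ≤ √q`, so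
`|α^f + β^f| √(q^f) ≤ q^f + 1`; archimedean part: the same functions.) -/
def BCUnitC : Prop :=
  ∀ (S' : Finset (HeightOneSpectrum (𝓞 K'))) (𝔫 : Ideal (𝓞 K)) (c : EigData K) (C : EigData K'),
    (∀ w : HeightOneSpectrum (𝓞 K'), w ∉ S' → ∀ v : HeightOneSpectrum (𝓞 K),
      PlaceOver K K' v w → ¬ v.asIdeal ∣ 𝔫) →
    (∀ w : HeightOneSpectrum (𝓞 K'), ∃ (v : HeightOneSpectrum (𝓞 K)) (f : ℕ),
      HasResDeg K K' v w f) →
    IsUnitOut 𝔫 c → IsBCData c C S' → C.IsUnitaryOut S'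

/-- **SD.5 = NODE DOWN-BASIS.**  The adapted Schur sequence exists, for every Iwahori coset
system and every scalar uniformiser at the regular place. -/
def DownBasisC : Prop :=
  ∀ ℓ : ℕ, IsCycExt K K' ℓ → ℓ ≠ 2 → TotCplx K →
    ∀ Φ : HeckeEigensystem K' ℂ, A0.IsCuspAdelicSph0 K' Φ → ConstOnFibres K Φ →
      ∀ Dt : L2Data K K', IsL2Data ℓ Φ Dt → ∀ g : G K', Dt.IsBad g →
      ∀ (H : Finset (G K)) (z : G K), IsIwCosetSystem Dt.u H → IsScalarUniformizerAt Dt.u z →
        ∃ (e : ℕ → G K → ℂ) (I : Set ℕ) (c : ℕ → EigData K) (b l x : ℕ → ℂ) (R : ℝ),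
          IsDownBasis Dt g H z e I c b l x R

end Leaves

/-! ## The top -/

section Top

variable {K K' : Type} [Field K] [NumberField K] [Field K'] [NumberField K'] [Algebra K K']

theorem rsig_id534 (e : G K → ℂ) : T5.Rsig (T5.AdelicAut.id K) e = e := by
  funext x
  unfold T5.Rsig
  rw [T5.onGinv_id]

theorem diagCoeff_id534 (μ : Measure (G K)) (F : Set (G K)) (φ e : G K → ℂ) :
    T5.diagCoeff (T5.AdelicAut.id K) μ F φ e = T5.innerD μ F (T5.Rconv μ φ e) e := by
  unfold T5.diagCoeff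
  rw [rsig_id534]

theorem innerD_zero_left534 (μ : Measure (G K)) (F : Set (G K)) (h e : G K → ℂ)
    (h0 : ∀ x, h x = 0) : T5.innerD μ F h e = 0 := by
  unfold T5.innerD
  have : (fun x => h x * conj (e x)) = fun _ => (0 : ℂ) := by
    funext x
    rw [h0 x, zero_mul]
  rw [this]
  simp

theorem innerD_const_mul534 (μ : Measure (G K)) (F : Set (G K)) (a : ℂ) (h h' e : G K → ℂ)
    (hh : ∀ x, h x = a * h' x) : T5.innerD μ F h e = a * T5.innerD μ F h' e := by
  unfold T5.innerD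
  have : (fun x => h x * conj (e x)) = fun x => a * (h' x * conj (e x)) := by
    funext x
    rw [hh x, mul_assoc]
  rw [this, integral_const_mul]

theorem shiftOp_zero534 (z : G K) (ψ : G K → ℂ) : shiftOp z 0 ψ = ψ := by
  funext x
  unfold shiftOp
  rw [zpow_zero, mul_one]

/-- A place over a divisor of `𝔫` divides `𝔫 𝒪_{K'}`. -/
theorem dvd_map_of_placeOver534 (𝔫 : Ideal (𝓞 K)) (v : HeightOneSpectrum (𝓞 K))
    (w : HeightOneSpectrum (𝓞 K')) (hvw : PlaceOver K K' v w) (hv : v.asIdeal ∣ 𝔫) :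
    w.asIdeal ∣ Ideal.map (algebraMap (𝓞 K) (𝓞 K')) 𝔫 := by
  rw [Ideal.dvd_iff_le, Ideal.map_le_iff_le_comap]
  intro x hx
  have hxv : x ∈ v.asIdeal := (Ideal.dvd_iff_le.1 hv) hx
  rw [Ideal.mem_comap]
  exact (hvw x (algebraMap (𝓞 K) (𝓞 K') x) rfl).1 hxv

/-- **THE TOP of the node T7.L2.3.** -/
theorem specDownC_of534 (hStf : StfIdC K) (hIw : IwSysC K) (hBC : BCDataC K K')
    (hRD : ResDegC K K') (hBU : BCUnitC K K') (hDB : DownBasisC K K') : SpecDownC K K' := by
  classical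
  intro ℓ hcyc hℓ hcplx Φ hΦ hconst Dt hDt g hg
  obtain ⟨⟨H, hH⟩, ⟨z, hz⟩⟩ := hIw Dt.u
  obtain ⟨e, I, c, b, l, x, R, hB⟩ := hDB ℓ hcyc hℓ hcplx Φ hΦ hconst Dt hDt g hg H z hH hz
  have hcomp : IsCompData (Dt.comp g) := hDt.comp g hg
  have hlev : Dt.𝔫 g ≠ ⊥ := hcomp.level_ne
  have hfin : FiniteDimensional K K' := by
    apply Module.finite_of_finrank_pos
    rw [hcyc.degree]
    exact hcyc.prime.pos
  choose Ch hCh using fun i => hBC Dt.S' (c i)
  -- the diagonal coefficient of the base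
  have hx : ∀ i, i ∈ I →
      T5.diagCoeff (T5.AdelicAut.id K) Dt.R.μ Dt.R.F (Dt.f g [] 0 0) (e i) = x i := by
    intro i hi
    rw [diagCoeff_id534]
    have h := hB.tri i hi 0 0
    rw [shiftOp_zero534, Function.iterate_zero, id_eq, zpow_zero, pow_zero, mul_one,
      mul_one] at h
    exact h
  -- summability from T5
  have hsum : Summable fun i => T5.diagCoeff (T5.AdelicAut.id K) Dt.R.μ Dt.R.F
      (Dt.f g [] 0 0) (e i) := by
    obtain ⟨-, φ₁, φ₂, t₁, t₂, k₁, k₁', k₂, k₂', hconv⟩ :=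
      hDt.ekprod_down g [] 0 0 hg (fun x hx => absurd hx (List.not_mem_nil))
    rw [hconv]
    exact (hStf (Dt.𝔫 g) hlev Dt.R.μ Dt.R.F Dt.R.r hcomp.frame.frame hcomp.frame.ray
      (T5.autPreserves_id _ _ _) e hB.onb φ₁ φ₂ t₁ t₂ k₁ k₁' k₂ k₂').1
  refine ⟨e, {i : ℕ // i ∈ I},
    fun i => ⟨Dt.𝔫 g, hlev, (c i.1).a, (c i.1).b⟩, fun i => Ch i.1, fun i => b i.1,
    fun i => l i.1, R, fun i => x i.1, hB.onb, ?_, ?_, ?_, ?_, ?_, ?_⟩
  · -- summability of the coefficients
    have h1 : Summable fun i : {i : ℕ // i ∈ I} =>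
        ‖T5.diagCoeff (T5.AdelicAut.id K) Dt.R.μ Dt.R.F (Dt.f g [] 0 0) (e i.1)‖ :=
      (hsum.norm).subtype I
    refine h1.congr fun i => ?_
    rw [hx i.1 i.2]
  · -- unitarity of the base change data
    intro i
    refine hBU Dt.S' (Dt.𝔫 g) (c i.1) (Ch i.1) ?_ (hRD hfin) (hB.unit i.1 i.2) (hCh i.1)
    intro w hw v hvw hv
    exact hw ((hDt.mem_S'_g g hg w).2 (dvd_map_of_placeOver534 (Dt.𝔫 g) v w hvw hv))
  · -- base change
    intro i
    exact (hCh i.1).1
  · intro i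
    exact hB.reg i.1 i.2
  · -- the expansion
    intro X hX k m hm
    unfold specSide
    have hterm : ∀ i : ℕ, T5.diagCoeff (T5.AdelicAut.id K) Dt.R.μ Dt.R.F (Dt.f g X k m) (e i)
        = if i ∈ I then wordEv X (Ch i) * x i * b i ^ k * l i ^ m else 0 := by
      intro i
      rw [diagCoeff_id534]
      by_cases hi : i ∈ I
      · rw [if_pos hi]
        have hop := hDt.op_down g X k m hg hX (e i) (c i) (Ch i) (hB.eig i hi) (hCh i) H z hH hz
        rw [innerD_const_mul534 Dt.R.μ Dt.R.F (wordEv X (Ch i)) _ _ (e i) hop, hB.tri i hi k m]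
        ring
      · rw [if_neg hi]
        exact innerD_zero_left534 _ _ _ _
          (hDt.kill_down g X k m hg hX (e i) (hB.onb.cusp i) (hB.perp i hi))
    have hsupp : Function.support (fun i : ℕ =>
        T5.diagCoeff (T5.AdelicAut.id K) Dt.R.μ Dt.R.F (Dt.f g X k m) (e i)) ⊆ I := by
      intro i hi
      by_contra hiI
      apply hi
      show T5.diagCoeff (T5.AdelicAut.id K) Dt.R.μ Dt.R.F (Dt.f g X k m) (e i) = 0
      rw [hterm i, if_neg hiI]
    rw [← tsum_subtype_eq_of_support_subset hsupp]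
    refine tsum_congr fun i => ?_
    rw [hterm i.1, if_pos i.2]
  · -- realisation
    intro i hsph
    have hi := i.2
    have hcusp := hB.onb.cusp i.1
    have heig := hB.eig i.1 hi
    have : Algebra.IsAlgebraic K K' := Algebra.IsAlgebraic.of_finite K K'
    refine ⟨e i.1, ⟨hcusp.cont, hcusp.bdd, hB.ne i.1 hi, hcusp.aut.left_inv,
      hcusp.aut.level_inv, heig.inv.arch_scalar, ?_, ?_, ?_, hcusp.cuspidal, heig.hecke⟩⟩
    · intro w k hk y
      have := hcusp.aut.arch_compact w k hk y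
      rw [this]
      simp [T5.trivType]
    · intro w _ d hd Y hY y
      obtain ⟨w', rfl⟩ := NumberField.InfinitePlace.comap_surjective (K := K') w
      have h1 := heig.mean (w'.comap (algebraMap K K')) d hd Y hY y
      rw [h1, ← (hCh i.1).2 w' d, hsph w' d hd]
      rfl
    · intro w hw
      exact absurd (hcplx w) (NumberField.InfinitePlace.not_isComplex_iff_isReal.2 hw)

end Top

end Fermat.Agent.LT.T7.SD534

end

end
-- ===== PACK-END LT/T7/H534/SpecDownSpec.lean

-- ===== PACK-BEGIN LT/T7/H772/SpecDown.lean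
section



/-!
# Row LT, tower T7, NODE T7.L2.3 `SpecDownC` (sub-architect helper772): THE CUT

OFF-MAIN.  Definitions, Props of the leaves, PROVED top.  No `sorry`, nothing assumed.
ADDITIVE (new names only, suffix `772`).  Vocabulary: `T7/Level2.lean` 15516646 (helper797).

    specDownC_of_leaves772 :
      AdaptC772 K → ShapeC772 K → BCDataC772 K K' → IwExistC772 K → RconvLinC772 K →
      (∀ 𝔫 ≠ ⊥, T5.Tower (T5.AdelicAut.id K) 1 ⊤ 𝔫 T5.trivType) → SpecDownC K K'

## Mathematics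

Downstairs there is no automorphism: on the invariant cusp functions `W` (level `𝔫 = 𝔫 g`,
invariant under the positive scalars at infinity and under the Iwahori subgroup at `u`) the
operators `B = R(f g [] 0 0)`, `Z` (scalar uniformiser at `u`) and `𝒰` (Iwahori operator at `u`)
COMMUTE.  We choose the complete orthonormal sequence `e` ADAPTED to them (`AdaptC772`): every
`e n` is either orthogonal to `W` (then every member of the family kills it: `kill_down`), or
an eigenfunction in `W` with eigen-data `c n` which is a vector of a simultaneous SCHUR basis of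
`(B, Z, 𝒰)` on a finite-dimensional invariant subspace: `⟨B Z^k 𝒰^m e n, e n⟩ = α β^k λ^m` (the
diagonal of a product of upper triangular matrices).  By `op_down` the diagonal coefficient of
`R(f g X k m)` at `e n` is `X(Ĉ n) α β^k λ^m`: the atoms are indexed by the `n` of the second
kind, `x = α = ⟨B e n, e n⟩` (summable: `T5.STFsigma` for `f g [] 0 0`), `(b, l) = (β, λ)` is a
joint eigenvalue of `(Z, 𝒰)` on `W` (`ShapeC772`: Iwahori-Hecke relations), `Ĉ n` = the base
change of `c n` (`BCDataC772`), and `e n` itself is the form of A0 when `Ĉ n` is spherical of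
parameter `0`.  No trace, no regrouping of the series, no Lidskii.
-/

set_option autoImplicit false

open AutomorphicForm IsDedekindDomain NumberField MeasureTheory
open scoped ComplexConjugate

noncomputable section

namespace Fermat.Agent.LT.T7.H772

open Fermat.Agent.LT.H556 Fermat.Agent.LT.H556.A0 Fermat.Agent.LT.T7

attribute [local instance] Fermat.Agent.LT.T5.instMeasurableSpaceG

/-! ## 1. Vocabulary -/

section Vocabulary

variable {K : Type} [Field K] [NumberField K]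

/-- The eigen-data `c` are unitary at the finite place `v`. -/
def IsUnitaryAt772 (c : EigData K) (v : HeightOneSpectrum (𝓞 K)) : Prop :=
  ‖c.b v‖ = 1 ∧ conj (c.a v) = c.a v * conj (c.b v) ∧
    ‖c.a v‖ * Real.sqrt (Ideal.absNorm v.asIdeal : ℝ) ≤ (Ideal.absNorm v.asIdeal : ℝ) + 1

/-- The archimedean eigen-data are real and bounded by `4π`. -/
def IsUnitaryArch772 (c : EigData K) : Prop :=
  ∀ (w : InfinitePlace K) (d : ℝ), 0 < d → (c.m w d).im = 0 ∧ ‖c.m w d‖ ≤ 4 * Real.pi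

/-- The invariant cusp functions of level `𝔫` for the frame `R` and the regular place `u`
(`IsWFn` of `Level2.lean` with the orbit `{u}`). -/
abbrev IsW772 (𝔫 : Ideal (𝓞 K)) (R : Frame5 K) (u : HeightOneSpectrum (𝓞 K))
    (ψ : G K → ℂ) : Prop :=
  IsWFn 𝔫 R.r 1 (fun _ => u) ψ

/-- The eigenfunctions among them (`IsEigFn` of `Level2.lean` with the orbit `{u}`). -/
abbrev IsEig772 (𝔫 : Ideal (𝓞 K)) (R : Frame5 K) (u : HeightOneSpectrum (𝓞 K))
    (ψ : G K → ℂ) (c : EigData K) : Prop :=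
  IsEigFn 𝔫 R.r 1 (fun _ => u) ψ c

/-- `(β, λ)` is a JOINT EIGENVALUE of `(Z, 𝒰)` on the invariant cusp functions. -/
def IsJointEig772 (𝔫 : Ideal (𝓞 K)) (R : Frame5 K) (u : HeightOneSpectrum (𝓞 K))
    (H : Finset (G K)) (z : G K) (β l : ℂ) : Prop :=
  ∃ ψ : G K → ℂ, IsW772 𝔫 R u ψ ∧ (∃ x : G K, ψ x ≠ 0) ∧
    (∀ x : G K, shiftOp z 1 ψ x = β * ψ x) ∧ ∀ x : G K, iwOp u H ψ x = l * ψ x

/-- `e` is orthogonal to the invariant cusp functions. -/
def IsPerpW772 (𝔫 : Ideal (𝓞 K)) (R : Frame5 K) (u : HeightOneSpectrum (𝓞 K))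
    (e : G K → ℂ) : Prop :=
  ∀ χ : G K → ℂ, IsW772 𝔫 R u χ → T5.innerD R.μ R.F e χ = 0

/-- `e` is a SCHUR VECTOR of `(B, Z, 𝒰)` with eigen-data `c` and diagonal `(α, β, λ)`. -/
structure IsSchurVec772 (𝔫 : Ideal (𝓞 K)) (R : Frame5 K) (u : HeightOneSpectrum (𝓞 K))
    (H : Finset (G K)) (z : G K) (B : (G K → ℂ) → (G K → ℂ)) (e : G K → ℂ) (c : EigData K)
    (α β l : ℂ) : Prop where
  eig : IsEig772 𝔫 R u e c
  norm : T5.innerD R.μ R.F e e = 1
  unit_fin : ∀ v : HeightOneSpectrum (𝓞 K), ¬ v.asIdeal ∣ 𝔫 → IsUnitaryAt772 c v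
  unit_arch : IsUnitaryArch772 c
  joint : IsJointEig772 𝔫 R u H z β l
  diag : ∀ (k : ℤ) (m : ℕ),
    T5.innerD R.μ R.F (B (shiftOp z k ((iwOp u H)^[m] e))) e = α * β ^ k * l ^ m

end Vocabulary

/-! ## 2. The leaves -/

section Leaves

variable (K : Type) [Field K] [NumberField K]

/-- **NODE T7.L2.3.A = ADAPT** (adapted complete orthonormal sequence; T2 + linear algebra).
For a level `𝔫 ≠ 0`, a frame, a place `u ∣ 𝔫`, an Iwahori coset system `H` and a scalar
uniformiser `z` at `u`, and an operator `B` which is linear on the invariant cusp functions,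
preserves their eigen-classes and commutes there with `𝒰 = iwOp u H` and with the shifts
`Z^k = shiftOp z k`; if the orthogonal projection on the invariant cusp functions exists, there
is a complete orthonormal sequence `e` of cusp functions (zero vectors allowed) such that every
`e n` is orthogonal to the invariant cusp functions or a Schur vector of `(B, Z, 𝒰)`.
(Sub-cut: `AdaptSpec.lean`.) -/
def AdaptC772 : Prop :=
  ∀ (𝔫 : Ideal (𝓞 K)), 𝔫 ≠ ⊥ → ∀ (R : Frame5 K), IsFrame5 R →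
    ∀ u : HeightOneSpectrum (𝓞 K), u.asIdeal ∣ 𝔫 →
    ∀ (H : Finset (G K)) (z : G K), IsIwCosetSystem u H → IsScalarUniformizerAt u z →
    ∀ B : (G K → ℂ) → (G K → ℂ),
      (∀ (ψ χ : G K → ℂ) (a : ℂ), IsW772 𝔫 R u ψ → IsW772 𝔫 R u χ →
        B (fun x => ψ x + a * χ x) = fun x => B ψ x + a * B χ x) →
      (∀ (ψ : G K → ℂ) (c : EigData K), IsEig772 𝔫 R u ψ c → IsEig772 𝔫 R u (B ψ) c) →
      (∀ ψ : G K → ℂ, IsW772 𝔫 R u ψ →
        (∀ x : G K, B (iwOp u H ψ) x = iwOp u H (B ψ) x) ∧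
        ∀ (k : ℤ) (x : G K), B (shiftOp z k ψ) x = shiftOp z k (B ψ) x) →
      (∀ ψ : G K → ℂ, T5.IsCuspFn 𝔫 T5.trivType R.r ψ →
        ∃ ψ₁ : G K → ℂ, IsW772 𝔫 R u ψ₁ ∧ IsPerpW772 𝔫 R u (fun x => ψ x - ψ₁ x)) →
      ∃ e : ℕ → G K → ℂ, T5.IsCuspONB 𝔫 T5.trivType R.r R.μ R.F e ∧
        ∀ n : ℕ, IsPerpW772 𝔫 R u (e n) ∨
          ∃ (c : EigData K) (α β l : ℂ), IsSchurVec772 𝔫 R u H z B (e n) c α β l

/-- **LEAF T7.L2.3.B = SHAPE** (Iwahori-Hecke relations at `u`; asset helper822 `RegParam`):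
a joint eigenvalue `(β, λ)` of `(Z, 𝒰)` on the invariant cusp functions satisfies
`IsRegParam √q_u β λ`.
Proof: `𝒰 = q^{-1/2} ρ_ω T_s` with `ρ_ω` the translation by `ω = [[0,1],[ϖ,0]]` (unitary,
`ρ_ω² = Z`) and `T_s` the sum over `I s I / I` (self-adjoint, `T_s² = (q-1) T_s + q`); on a
joint eigenvector `v`: `T_s v = μ J v`, `J = ρ_ω / √β`, `μ = √q λ / √β`; `⟨T_s v, v⟩` and
`⟨J v, v⟩` are real, so `μ` is real or `⟨T_s v, v⟩ = 0`, and then `|μ|² = q`. -/
def ShapeC772 : Prop :=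
  ∀ (𝔫 : Ideal (𝓞 K)), 𝔫 ≠ ⊥ → ∀ (R : Frame5 K), IsFrame5 R →
    ∀ u : HeightOneSpectrum (𝓞 K), u.asIdeal ∣ 𝔫 →
    ∀ (H : Finset (G K)) (z : G K), IsIwCosetSystem u H → IsScalarUniformizerAt u z →
    ∀ β l : ℂ, IsJointEig772 𝔫 R u H z β l →
      IsRegParam (Real.sqrt (Ideal.absNorm u.asIdeal : ℝ)) β l

/-- **LEAF T7.L2.3.D = IW-EXIST**: Iwahori coset systems and scalar uniformisers exist at every
finite place.  (`H = {[[ϖ, a],[0,1]] : a mod ϖ}`, `z = ϖ · 1`.) -/
def IwExistC772 : Prop :=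
  ∀ u : HeightOneSpectrum (𝓞 K),
    (∃ H : Finset (G K), IsIwCosetSystem u H) ∧ ∃ z : G K, IsScalarUniformizerAt u z

/-- **LEAF T7.L2.3.E = RCONV-LIN**: `R(φ)` is linear on the bounded continuous functions, for a
continuous `φ` with compact support. -/
def RconvLinC772 : Prop :=
  ∀ (μ : Measure (G K)) (F : Set (G K)), T5.IsFrame μ F →
    ∀ φ : G K → ℂ, Continuous φ → HasCompactSupport φ →
    ∀ (ψ χ : G K → ℂ) (a : ℂ), Continuous ψ → (∃ C : ℝ, ∀ x : G K, ‖ψ x‖ ≤ C) →
      Continuous χ → (∃ C : ℝ, ∀ x : G K, ‖χ x‖ ≤ C) →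
      T5.Rconv μ φ (fun x => ψ x + a * χ x) = fun x => T5.Rconv μ φ ψ x + a * T5.Rconv μ φ χ x

variable (K' : Type) [Field K'] [NumberField K'] [Algebra K K']

/-- **LEAF T7.L2.3.C = BC-DATA** (elementary): the base change of unitary eigen-data exists and
is unitary outside `S'`, when `S'` contains the places of `K'` dividing the level `𝔫 𝒪_{K'}`.
(`Ĉ.a w = satakePow f (c.a v) (c.b v)`, `Ĉ.b w = (c.b v)^f` for `w ∣ v` of residue degree `f`,
`Ĉ.m w = c.m (w ∩ K)`; `satakePow f a b = α^f + β^f` with `{conj α, conj β} = {1/α, 1/β}`.) -/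
def BCDataC772 : Prop :=
  ∀ (𝔫 : Ideal (𝓞 K)) (S' : Finset (HeightOneSpectrum (𝓞 K'))),
    (∀ w : HeightOneSpectrum (𝓞 K'),
      w.asIdeal ∣ Ideal.map (algebraMap (𝓞 K) (𝓞 K')) 𝔫 → w ∈ S') →
    ∀ c : EigData K, (∀ v : HeightOneSpectrum (𝓞 K), ¬ v.asIdeal ∣ 𝔫 → IsUnitaryAt772 c v) →
      IsUnitaryArch772 c →
      ∃ C : EigData K', IsBCData c C S' ∧ C.IsUnitaryOut S'

end Leaves

/-! ## 3. The top -/

section Top

variable {K : Type} [Field K] [NumberField K]

theorem shiftOp_zero772 (z : G K) (ψ : G K → ℂ) : shiftOp z 0 ψ = ψ := by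
  funext x
  simp [shiftOp]

theorem innerD_const_mul772 (μ : Measure (G K)) (F : Set (G K)) (a : ℂ) (ψ χ : G K → ℂ) :
    T5.innerD μ F (fun x => a * ψ x) χ = a * T5.innerD μ F ψ χ := by
  unfold T5.innerD
  rw [← MeasureTheory.integral_const_mul]
  congr 1
  funext x
  ring

theorem innerD_zero772 (μ : Measure (G K)) (F : Set (G K)) (ψ χ : G K → ℂ)
    (h : ∀ x, ψ x = 0) : T5.innerD μ F ψ χ = 0 := by
  unfold T5.innerD
  simp [h]

theorem rsig_id772 (e : G K → ℂ) : T5.Rsig (T5.AdelicAut.id K) e = e := by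
  funext x
  unfold T5.Rsig
  rw [T5.onGinv_id]

/-- A function of norm `1` does not vanish identically. -/
theorem exists_ne_zero_of_norm772 (μ : Measure (G K)) (F : Set (G K)) (e : G K → ℂ)
    (h : T5.innerD μ F e e = 1) : ∃ x : G K, e x ≠ 0 := by
  by_contra hc
  have h0 : ∀ x, e x = 0 := fun x => by
    by_contra hx
    exact hc ⟨x, hx⟩
  rw [innerD_zero772 μ F e e h0] at h
  exact zero_ne_one h

variable {K' : Type} [Field K'] [NumberField K'] [Algebra K K']

/-- The realisation: a Schur vector whose base change is spherical of parameter `0` is a cusp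
form as in A0 (`K` totally complex). -/
theorem isSph0CuspFormFor_of_schur772 (hcyc_alg : Algebra.IsAlgebraic K K') (hcplx : TotCplx K)
    {𝔫 : Ideal (𝓞 K)} (h𝔫 : 𝔫 ≠ ⊥) {R : Frame5 K} {u : HeightOneSpectrum (𝓞 K)}
    {H : Finset (G K)} {z : G K} {B : (G K → ℂ) → (G K → ℂ)} {e : G K → ℂ} {c : EigData K}
    {α β l : ℂ} (hs : IsSchurVec772 𝔫 R u H z B e c α β l)
    {C : EigData K'} {S' : Finset (HeightOneSpectrum (𝓞 K'))} (hC : IsBCData c C S')
    (h0 : C.IsSph0) :
    IsSph0CuspFormFor (⟨𝔫, h𝔫, c.a, c.b⟩ : HeckeEigensystem K ℂ) e where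
  cont := hs.eig.inv.cusp.cont
  bdd := hs.eig.inv.cusp.bdd
  ne_zero := exists_ne_zero_of_norm772 R.μ R.F e hs.norm
  left_inv := fun γ g => hs.eig.inv.cusp.aut.left_inv γ g
  level_inv := fun v hv g => hs.eig.inv.cusp.aut.level_inv v hv g
  arch_scalar := hs.eig.inv.arch_scalar
  arch_compact := fun w k hk g => by
    have h := hs.eig.inv.cusp.aut.arch_compact w k hk g
    simpa [T5.trivType] using h
  mean_complex := fun w _ d hd Y hY g => by
    obtain ⟨w', hw'⟩ := InfinitePlace.comap_surjective (k := K) (K := K') w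
    have h1 := hs.eig.mean w d hd Y hY g
    have h2 : c.m w d = sph0 d := by
      rw [← hw', ← hC.2 w' d]
      exact h0 w' d hd
    rw [h1, h2]
    rfl
  mean_real := fun w hw => absurd (hcplx w) (InfinitePlace.not_isComplex_iff_isReal.2 hw)
  cuspidal := hs.eig.inv.cusp.cuspidal
  hecke := fun v hv => hs.eig.hecke v hv

/-- **THE TOP OF THE CUT OF `SpecDownC`.** -/
theorem specDownC_of_leaves772 (hA : AdaptC772 K) (hSh : ShapeC772 K) (hBC : BCDataC772 K K')
    (hIw : IwExistC772 K) (hLin : RconvLinC772 K)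
    (hT : ∀ 𝔫 : Ideal (𝓞 K), 𝔫 ≠ ⊥ → T5.Tower (T5.AdelicAut.id K) 1 ⊤ 𝔫 T5.trivType) :
    SpecDownC K K' := by
  intro ℓ hcyc hℓ hcplx Φ hΦ hconst Dt hDt g hg
  have h𝔫 : Dt.𝔫 g ≠ ⊥ := (hDt.comp g hg).level_ne
  have hR : IsFrame5 Dt.R := (hDt.comp g hg).frame
  have hu : Dt.u.asIdeal ∣ Dt.𝔫 g := hDt.u_level g hg
  obtain ⟨⟨H, hH⟩, ⟨z, hz⟩⟩ := hIw Dt.u
  have h0 : ∀ x ∈ ([] : List (Gen K')), x.Out Dt.S' := fun x hx => absurd hx List.not_mem_nil
  have hek0 := hDt.ekprod_down g [] 0 0 hg h0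
  obtain ⟨e, he, hcase⟩ := hA (Dt.𝔫 g) h𝔫 Dt.R hR Dt.u hu H z hH hz
    (T5.Rconv Dt.R.μ (Dt.f g [] 0 0))
    (fun ψ χ a hψ hχ => hLin Dt.R.μ Dt.R.F hR.frame (Dt.f g [] 0 0) hek0.1.cont hek0.1.supp
      ψ χ a hψ.cusp.cont hψ.cusp.bdd hχ.cusp.cont hχ.cusp.bdd)
    (fun ψ c hψ => hDt.class_down g hg ψ c hψ)
    (fun ψ hψ => hDt.comm_down g hg ψ hψ H z hH hz)
    (fun ψ hψ => hDt.proj_down g hg ψ hψ)
  classical
  let s : Set ℕ := {n | ∃ (c : EigData K) (α β l : ℂ),
    IsSchurVec772 (Dt.𝔫 g) Dt.R Dt.u H z (T5.Rconv Dt.R.μ (Dt.f g [] 0 0)) (e n) c α β l}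
  have hs : ∀ i : s, ∃ (c : EigData K) (α β l : ℂ),
      IsSchurVec772 (Dt.𝔫 g) Dt.R Dt.u H z (T5.Rconv Dt.R.μ (Dt.f g [] 0 0)) (e i.1) c α β l :=
    fun i => i.2
  choose cd α β l hsch using hs
  have hS' : ∀ w : HeightOneSpectrum (𝓞 K'),
      w.asIdeal ∣ Ideal.map (algebraMap (𝓞 K) (𝓞 K')) (Dt.𝔫 g) → w ∈ Dt.S' :=
    fun w hw => (hDt.mem_S'_g g hg w).2 hw
  have hbc : ∀ i : s, ∃ C : EigData K', IsBCData (cd i) C Dt.S' ∧ C.IsUnitaryOut Dt.S' :=
    fun i => hBC (Dt.𝔫 g) Dt.S' hS' (cd i) (hsch i).unit_fin (hsch i).unit_arch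
  choose Ch hCh using hbc
  -- the diagonal coefficients
  have hdiag : ∀ (X : List (Gen K')), (∀ x ∈ X, x.Out Dt.S') → ∀ (k : ℤ) (m : ℕ) (i : s),
      T5.diagCoeff (T5.AdelicAut.id K) Dt.R.μ Dt.R.F (Dt.f g X k m) (e i.1)
        = wordEv X (Ch i) * α i * β i ^ k * l i ^ m := by
    intro X hX k m i
    unfold T5.diagCoeff
    rw [rsig_id772]
    have hop : T5.Rconv Dt.R.μ (Dt.f g X k m) (e i.1) = fun x => wordEv X (Ch i)
        * T5.Rconv Dt.R.μ (Dt.f g [] 0 0) (shiftOp z k ((iwOp Dt.u H)^[m] (e i.1))) x :=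
      funext (hDt.op_down g X k m hg hX (e i.1) (cd i) (Ch i) (hsch i).eig (hCh i).1 H z hH hz)
    rw [hop, innerD_const_mul772, (hsch i).diag k m]
    ring
  have hkill : ∀ (X : List (Gen K')), (∀ x ∈ X, x.Out Dt.S') → ∀ (k : ℤ) (m : ℕ) (n : ℕ),
      n ∉ s → T5.diagCoeff (T5.AdelicAut.id K) Dt.R.μ Dt.R.F (Dt.f g X k m) (e n) = 0 := by
    intro X hX k m n hn
    unfold T5.diagCoeff
    rw [rsig_id772]
    apply innerD_zero772
    rcases hcase n with hp | hp
    · exact hDt.kill_down g X k m hg hX (e n) (he.cusp n) hp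
    · exact absurd hp hn
  have hα : ∀ i : s, α i
      = T5.diagCoeff (T5.AdelicAut.id K) Dt.R.μ Dt.R.F (Dt.f g [] 0 0) (e i.1) := by
    intro i
    rw [hdiag [] h0 0 0 i]
    simp [wordEv]
  have : IsGalois K K' := hcyc.galois
  refine ⟨e, s, fun i => ⟨Dt.𝔫 g, h𝔫, (cd i).a, (cd i).b⟩, Ch, β, l,
    Real.sqrt (Ideal.absNorm Dt.u.asIdeal : ℝ), α, he, ?_, fun i => (hCh i).2,
    fun i => (hCh i).1.1,
    fun i => hSh (Dt.𝔫 g) h𝔫 Dt.R hR Dt.u hu H z hH hz (β i) (l i) (hsch i).joint, ?_,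
    fun i hi => ⟨e i.1, isSph0CuspFormFor_of_schur772 inferInstance hcplx h𝔫 (hsch i)
      (hCh i).1 hi⟩⟩
  · obtain ⟨_, φ₁, φ₂, t₁, t₂, k₁, k₁', k₂, k₂', hconv⟩ := hek0
    have hsum := ((hT (Dt.𝔫 g) h𝔫).stf Dt.R.μ Dt.R.F Dt.R.r hR.frame hR.ray
      (T5.autPreserves_id _ _ _) e he φ₁ φ₂ t₁ t₂ k₁ k₁' k₂ k₂').1
    rw [← hconv] at hsum
    have hsum' := (summable_norm_iff.2 hsum).subtype s
    refine hsum'.congr (fun i => ?_)
    rw [hα i]
    rfl
  · intro X hX k m hm
    unfold specSide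
    have hsupp : Function.support
        (fun n => T5.diagCoeff (T5.AdelicAut.id K) Dt.R.μ Dt.R.F (Dt.f g X k m) (e n)) ⊆ s := by
      intro n hn
      by_contra hns
      exact hn (hkill X hX k m n hns)
    rw [← tsum_subtype_eq_of_support_subset hsupp]
    exact tsum_congr (fun i => hdiag X hX k m i)

end Top

end Fermat.Agent.LT.T7.H772

end

end
-- ===== PACK-END LT/T7/H772/SpecDown.lean

-- ===== PACK-BEGIN LT/T7/H32/EKProd.lean
section



/-!
# Row LT, tower T7, node T7.L2.1 SupplyC (helper32): `T7.IsEKProd` is a two-sided ideal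

OFF-MAIN, ADDITIVE.  Vocabulary: `T7/Level2.lean` 15516646 (helper797), `T5/Spec.lean` v4.
For the fields `ekprod_up` / `ekprod_down` of `T7.IsL2Data`.

The only input which is not proved here is the statement that the convolution of two test
functions is a test function (`ConvTestC32 𝔫 μ`, row 1858 of helper872): it is a HYPOTHESIS of
the lemmas (`fun a b ha hb => isTestFn_conv872 … ha hb` proves it).

* `isEKProd_mk32` : `φ₁, φ₂` Eisenstein-killing test functions with Eisenstein-killing adjoints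
  ⟹ `IsEKProd (φ₁ ⋆ φ₂)`;
* `isEKProd_conv_left32` : `IsEKProd φ` ⟹ `IsEKProd (β ⋆ φ)` for every test function `β`;
* `isEKProd_conv_right32` : `IsEKProd φ` ⟹ `IsEKProd (φ ⋆ β)`;
* `isEKProd_of_parts32` : `IsEKProd ((β₁ ⋆ φ₁) ⋆ (φ₂ ⋆ β₂))`;
* `isEKTest_conv_left32`, `isEKTest_conv_right32` : the four EK clauses for `β ⋆ φ`, `φ ⋆ β`.
-/

set_option autoImplicit false
open IsDedekindDomain NumberField MeasureTheory
open scoped MatrixGroups ComplexConjugate Pointwise
open Fermat.Agent.LT.H556.A0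

noncomputable section
namespace Fermat.Agent.LT.T7.H32

variable {K : Type} [Field K] [NumberField K]

attribute [local instance] Fermat.Agent.LT.T5.instMeasurableSpaceG

/-- The convolution of two test functions (level `𝔫`, trivial type) is a test function
(row 1858, helper872: `isTestFn_conv872`). -/
def ConvTestC32 (𝔫 : Ideal (𝓞 K)) (μ : Measure (G K)) : Prop :=
  ∀ a b : G K → ℂ, T5.IsTestFn 𝔫 T5.trivType a → T5.IsTestFn 𝔫 T5.trivType b →
    T5.IsTestFn 𝔫 T5.trivType (T5.conv μ a b)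

/-- A test function which is Eisenstein-killing with Eisenstein-killing adjoint. -/
def IsEKTest32 (𝔫 : Ideal (𝓞 K)) (μ : Measure (G K)) (φ : G K → ℂ) : Prop :=
  T5.IsTestFn 𝔫 T5.trivType φ ∧ T5.IsEK μ φ ∧ T5.IsEK μ (T5.adjointFn φ)

variable {𝔫 : Ideal (𝓞 K)} {R : Frame5 K}

theorem isEKTest_conv_left32 (hF : IsFrame5 R) (hT : ConvTestC32 𝔫 R.μ) {β φ : G K → ℂ}
    (hβ : T5.IsTestFn 𝔫 T5.trivType β) (hφ : IsEKTest32 𝔫 R.μ φ) :
    IsEKTest32 𝔫 R.μ (T5.conv R.μ β φ) :=
  ⟨hT β φ hβ hφ.1,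
    T5.H32.isEK_conv_right32 hF.frame hβ.cont hβ.supp hφ.1.cont hφ.1.supp hφ.2.1,
    T5.H32.isEK_adjoint_conv_right32 hF.frame hβ.cont hβ.supp hφ.1.cont hφ.1.supp hφ.2.2⟩

theorem isEKTest_conv_right32 (hF : IsFrame5 R) (hT : ConvTestC32 𝔫 R.μ) {β φ : G K → ℂ}
    (hβ : T5.IsTestFn 𝔫 T5.trivType β) (hφ : IsEKTest32 𝔫 R.μ φ) :
    IsEKTest32 𝔫 R.μ (T5.conv R.μ φ β) :=
  ⟨hT φ β hφ.1 hβ,
    T5.H32.isEK_conv_left32 hF.frame hβ.cont hβ.supp hφ.1.cont hφ.1.supp hφ.2.1,
    T5.H32.isEK_adjoint_conv_left32 hF.frame hβ.cont hβ.supp hφ.1.cont hφ.1.supp hφ.2.2⟩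

theorem isEKProd_mk32 (hT : ConvTestC32 𝔫 R.μ) {φ₁ φ₂ : G K → ℂ}
    (h₁ : IsEKTest32 𝔫 R.μ φ₁) (h₂ : IsEKTest32 𝔫 R.μ φ₂) :
    IsEKProd 𝔫 R (T5.conv R.μ φ₁ φ₂) :=
  ⟨hT φ₁ φ₂ h₁.1 h₂.1, φ₁, φ₂, h₁.1, h₂.1, h₁.2.1, h₁.2.2, h₂.2.1, h₂.2.2, rfl⟩

theorem isEKProd_conv_left32 (hF : IsFrame5 R) (hT : ConvTestC32 𝔫 R.μ) {β φ : G K → ℂ}
    (hβ : T5.IsTestFn 𝔫 T5.trivType β) (hφ : IsEKProd 𝔫 R φ) :
    IsEKProd 𝔫 R (T5.conv R.μ β φ) := by
  obtain ⟨_, φ₁, φ₂, h₁, h₂, e₁, e₁', e₂, e₂', rfl⟩ := hφ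
  rw [← T5.H32.conv_assoc32 hF.frame hβ.cont hβ.supp h₁.cont h₁.supp h₂.cont]
  exact isEKProd_mk32 hT (isEKTest_conv_left32 hF hT hβ ⟨h₁, e₁, e₁'⟩) ⟨h₂, e₂, e₂'⟩

theorem isEKProd_conv_right32 (hF : IsFrame5 R) (hT : ConvTestC32 𝔫 R.μ) {β φ : G K → ℂ}
    (hβ : T5.IsTestFn 𝔫 T5.trivType β) (hφ : IsEKProd 𝔫 R φ) :
    IsEKProd 𝔫 R (T5.conv R.μ φ β) := by
  obtain ⟨_, φ₁, φ₂, h₁, h₂, e₁, e₁', e₂, e₂', rfl⟩ := hφ
  rw [T5.H32.conv_assoc32 hF.frame h₁.cont h₁.supp h₂.cont h₂.supp hβ.cont]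
  exact isEKProd_mk32 hT ⟨h₁, e₁, e₁'⟩ (isEKTest_conv_right32 hF hT hβ ⟨h₂, e₂, e₂'⟩)

/-- The shape of the members of the families of `SupplyC`: `(β₁ ⋆ φ₁) ⋆ (φ₂ ⋆ β₂)`. -/
theorem isEKProd_of_parts32 (hF : IsFrame5 R) (hT : ConvTestC32 𝔫 R.μ)
    {β₁ β₂ φ₁ φ₂ : G K → ℂ} (hβ₁ : T5.IsTestFn 𝔫 T5.trivType β₁)
    (hβ₂ : T5.IsTestFn 𝔫 T5.trivType β₂) (h₁ : IsEKTest32 𝔫 R.μ φ₁)
    (h₂ : IsEKTest32 𝔫 R.μ φ₂) :
    IsEKProd 𝔫 R (T5.conv R.μ (T5.conv R.μ β₁ φ₁) (T5.conv R.μ φ₂ β₂)) :=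
  isEKProd_mk32 hT (isEKTest_conv_left32 hF hT hβ₁ h₁) (isEKTest_conv_right32 hF hT hβ₂ h₂)

/-- Admissibility of the members: `IsEKProd` + regularity (assembly `isAdm5_of_ekProd`). -/
theorem isAdm5_of_parts32 (hF : IsFrame5 R) (hT : ConvTestC32 𝔫 R.μ)
    {s : T5.AdelicAut K} {l : ℕ} {k : Subfield K}
    {β₁ β₂ φ₁ φ₂ : G K → ℂ} (hβ₁ : T5.IsTestFn 𝔫 T5.trivType β₁)
    (hβ₂ : T5.IsTestFn 𝔫 T5.trivType β₂) (h₁ : IsEKTest32 𝔫 R.μ φ₁)
    (h₂ : IsEKTest32 𝔫 R.μ φ₂)
    (hr : T5.IsTwRegular s l k (T5.conv R.μ (T5.conv R.μ β₁ φ₁) (T5.conv R.μ φ₂ β₂))) :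
    IsAdm5 s l k 𝔫 R (T5.conv R.μ (T5.conv R.μ β₁ φ₁) (T5.conv R.μ φ₂ β₂)) :=
  isAdm5_of_ekProd (isEKProd_of_parts32 hF hT hβ₁ hβ₂ h₁ h₂) hr

end Fermat.Agent.LT.T7.H32

end

end
-- ===== PACK-END LT/T7/H32/EKProd.lean

-- ===== PACK-BEGIN LT/T7/H584/TensorField.lean
section



/-!
# Row LT, tower T7, local norm bridge (helper584): the leaf N1 `TensorFieldC584` PROVED

OFF-MAIN.  Mathlib + `T6/Spec.lean` + `NormLocSpec.lean`.  `tensorFieldC584 : TensorFieldC584`.

Route (no Artin, no dimension of the tensor product): `b` a `K`-basis of `K'` indexed by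
`ZMod l`; the matrix `N = (j(s^r b_t))_{r,t}` over `k'` is invertible (Dedekind: the characters
`j ∘ s^r` of `K'` are pairwise distinct).  `m : K' ⊗_K k → k'`, `m(∑ b_t ⊗ a_t) = ∑ j(b_t) i(a_t)`:
* injective: `m z = 0` gives `N · (i a) = 0` (apply the powers of `s_w`), so `a = 0`;
* surjective: for `y ∈ k'` solve `N c = (s_w^r y)_r`; `s_w c` solves the same system (the rows are
  permuted), so `c` is fixed by `s_w`, `c = i(a)`, and `m(∑ b_t ⊗ a_t) = (N c)_0 = y`.
-/

set_option autoImplicit false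
set_option linter.style.haveILetI false
set_option linter.unusedSectionVars false

open scoped TensorProduct

noncomputable section

namespace Fermat.Agent.LT.T7.H584

section Map

variable {K K' k k' : Type} [Field K] [Field K'] [Field k] [Field k'] [Algebra K K']
  [Algebra K k]

/-- The homomorphism `m : K' ⊗_K k → k'`, `x ⊗ a ↦ j(x) i(a)`. -/
def tfMap584 (i : k →+* k') (j : K' →+* k')
    (hij : ∀ x : K, i (algebraMap K k x) = j (algebraMap K K' x)) : K' ⊗[K] k →+* k' :=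
  letI : Algebra K k' := (j.comp (algebraMap K K')).toAlgebra
  let f : K' →ₐ[K] k' := { j with commutes' := fun _ => rfl }
  let g : k →ₐ[K] k' := { i with commutes' := fun x => hij x }
  (Algebra.TensorProduct.lift f g (fun _ _ => Commute.all _ _)).toRingHom

theorem tfMap_tmul584 (i : k →+* k') (j : K' →+* k')
    (hij : ∀ x : K, i (algebraMap K k x) = j (algebraMap K K' x)) (x : K') (a : k) :
    tfMap584 i j hij (x ⊗ₜ[K] a) = j x * i a := by
  letI : Algebra K k' := (j.comp (algebraMap K K')).toAlgebra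
  exact Algebra.TensorProduct.lift_tmul _ _ _ x a

/-- Every element of `K' ⊗_K k` is `∑ b_t ⊗ a_t` for a basis `b` of `K'`. -/
theorem exists_repr584 {ι : Type} [Fintype ι] (b : Module.Basis ι K K') (z : K' ⊗[K] k) :
    ∃ a : ι → k, z = ∑ t, b t ⊗ₜ[K] a t := by
  induction z using TensorProduct.induction_on with
  | zero => exact ⟨fun _ => 0, by simp⟩
  | tmul x y =>
    refine ⟨fun t => (b.repr x t) • y, ?_⟩
    conv_lhs => rw [← b.sum_repr x]
    rw [TensorProduct.sum_tmul]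
    refine Finset.sum_congr rfl fun t _ => ?_
    rw [TensorProduct.smul_tmul]
  | add x y hx hy =>
    obtain ⟨a, rfl⟩ := hx
    obtain ⟨a', rfl⟩ := hy
    refine ⟨fun t => a t + a' t, ?_⟩
    rw [← Finset.sum_add_distrib]
    refine Finset.sum_congr rfl fun t _ => ?_
    rw [TensorProduct.tmul_add]

end Map

/-! ## Powers indexed by `ZMod l` -/

section Pow

variable {M : Type*} [Monoid M]

theorem pow_mod_of_pow_eq_one584 {x : M} {l : ℕ} (h : x ^ l = 1) (n : ℕ) :
    x ^ (n % l) = x ^ n := by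
  conv_rhs => rw [← Nat.mod_add_div n l]
  rw [pow_add, pow_mul, h, one_pow, mul_one]

theorem pow_val_add_one584 {x : M} {l : ℕ} [Fact l.Prime] (h : x ^ l = 1) (r : ZMod l) :
    x ^ (r + 1).val = x ^ r.val * x := by
  haveI : Fact (1 < l) := ⟨(Fact.out : l.Prime).one_lt⟩
  rw [ZMod.val_add, ZMod.val_one, pow_mod_of_pow_eq_one584 h, pow_succ]

end Pow

section Main

variable {K K' k k' : Type} [Field K] [Field K'] [Field k] [Field k'] [Algebra K K']
  [Algebra K k]

/-- The hypotheses of `TensorFieldC584`, bundled. -/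
structure TFHyp584 (s : K' ≃ₐ[K] K') (l : ℕ) (i : k →+* k') (j : K' →+* k')
    (sw : k' ≃+* k') : Prop where
  prime : l.Prime
  rank : Module.finrank K K' = l
  ne : ∃ x : K', s x ≠ x
  hij : ∀ x : K, i (algebraMap K k x) = j (algebraMap K K' x)
  hs : ∀ y : K', sw (j y) = j (s y)
  cyc : T6.IsCyclicData k k' l i sw

variable {s : K' ≃ₐ[K] K'} {l : ℕ} {i : k →+* k'} {j : K' →+* k'} {sw : k' ≃+* k'}

theorem TFHyp584.sw_pow_j (h : TFHyp584 s l i j sw) (n : ℕ) (y : K') :
    (sw ^ n) (j y) = j ((s ^ n) y) := by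
  induction n generalizing y with
  | zero => rfl
  | succ n ih =>
    rw [pow_succ, pow_succ]
    change (sw ^ n) (sw (j y)) = j ((s ^ n) (s y))
    rw [h.hs, ih]

theorem TFHyp584.sw_pow_i (h : TFHyp584 s l i j sw) (n : ℕ) (a : k) :
    (sw ^ n) (i a) = i a := by
  induction n with
  | zero => rfl
  | succ n ih =>
    rw [pow_succ]
    change (sw ^ n) (sw (i a)) = i a
    rw [h.cyc.fix_i, ih]

theorem TFHyp584.sw_pow_l (h : TFHyp584 s l i j sw) : sw ^ l = 1 :=
  RingEquiv.ext fun y => h.cyc.order y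

theorem TFHyp584.s_pow_l (h : TFHyp584 s l i j sw) : s ^ l = 1 := by
  apply AlgEquiv.ext
  intro y
  apply j.injective
  rw [← h.sw_pow_j, h.sw_pow_l]
  rfl

theorem TFHyp584.s_ne_one (h : TFHyp584 s l i j sw) : s ≠ 1 := by
  obtain ⟨x, hx⟩ := h.ne
  intro e
  apply hx
  rw [e]
  rfl

theorem TFHyp584.orderOf_s (h : TFHyp584 s l i j sw) : orderOf s = l := by
  haveI : Fact l.Prime := ⟨h.prime⟩
  exact orderOf_eq_prime h.s_pow_l h.s_ne_one

/-- The powers `s^r`, `r ∈ ZMod l`, are pairwise distinct. -/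
theorem TFHyp584.pow_val_injective (h : TFHyp584 s l i j sw) :
    Function.Injective fun r : ZMod l => s ^ r.val := by
  haveI : Fact l.Prime := ⟨h.prime⟩
  intro r r' hrr
  have h1 : r.val < orderOf s := by rw [h.orderOf_s]; exact ZMod.val_lt r
  have h2 : r'.val < orderOf s := by rw [h.orderOf_s]; exact ZMod.val_lt r'
  have := pow_injOn_Iio_orderOf (x := s) h1 h2 hrr
  exact ZMod.val_injective l this

/-- The matrix `N = (j(s^r b_t))_{r,t}`. -/
def tfMat584 (s : K' ≃ₐ[K] K') (l : ℕ) (j : K' →+* k') (b : Module.Basis (ZMod l) K K') :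
    Matrix (ZMod l) (ZMod l) k' :=
  Matrix.of fun r t => j ((s ^ r.val) (b t))

/-- **Dedekind**: the matrix `N` is invertible. -/
theorem TFHyp584.isUnit_mat [Fact l.Prime] (h : TFHyp584 s l i j sw)
    (b : Module.Basis (ZMod l) K K') : IsUnit (tfMat584 s l j b) := by
  rw [← Matrix.linearIndependent_rows_iff_isUnit]
  rw [Fintype.linearIndependent_iff]
  intro g hg r
  -- the characters
  let χ : ZMod l → (K' →* k') := fun r =>
    (j : K' →* k').comp ((s ^ r.val : K' ≃ₐ[K] K') : K' →* K')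
  have hχinj : Function.Injective χ := by
    intro r r' hrr
    apply h.pow_val_injective
    apply AlgEquiv.ext
    intro y
    apply j.injective
    exact DFunLike.congr_fun hrr y
  have hli : LinearIndependent k' (fun r : ZMod l => ((χ r : K' →* k') : K' → k')) :=
    (linearIndependent_monoidHom K' k').comp χ hχinj
  rw [Fintype.linearIndependent_iff] at hli
  refine hli g ?_ r
  funext x
  have hgt : ∀ t : ZMod l, ∑ r : ZMod l, g r * j ((s ^ r.val) (b t)) = 0 := by
    intro t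
    have := congrFun hg t
    simpa [tfMat584, Matrix.row, Finset.sum_apply] using this
  simp only [Finset.sum_apply, Pi.smul_apply, smul_eq_mul, Pi.zero_apply]
  have hx : ∀ r : ZMod l, (χ r) x
      = ∑ t : ZMod l, j (algebraMap K K' (b.repr x t)) * j ((s ^ r.val) (b t)) := by
    intro r
    change j ((s ^ r.val) x) = _
    conv_lhs => rw [← b.sum_repr x]
    rw [map_sum, map_sum]
    refine Finset.sum_congr rfl fun t _ => ?_
    rw [Algebra.smul_def, map_mul, map_mul, AlgEquiv.commutes]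
  calc ∑ r : ZMod l, g r * (χ r) x
      = ∑ r : ZMod l, ∑ t : ZMod l,
          j (algebraMap K K' (b.repr x t)) * (g r * j ((s ^ r.val) (b t))) := by
        refine Finset.sum_congr rfl fun r _ => ?_
        rw [hx r, Finset.mul_sum]
        refine Finset.sum_congr rfl fun t _ => ?_
        ring
    _ = ∑ t : ZMod l, j (algebraMap K K' (b.repr x t))
          * ∑ r : ZMod l, g r * j ((s ^ r.val) (b t)) := by
        rw [Finset.sum_comm]
        refine Finset.sum_congr rfl fun t _ => ?_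
        rw [Finset.mul_sum]
    _ = 0 := by
        refine Finset.sum_eq_zero fun t _ => ?_
        rw [hgt t, mul_zero]


section Bij

variable [Fact l.Prime]

theorem TFHyp584.mulVec_apply (_h : TFHyp584 s l i j sw) (b : Module.Basis (ZMod l) K K')
    (c : ZMod l → k') (r : ZMod l) :
    (tfMat584 s l j b).mulVec c r = ∑ t, j ((s ^ r.val) (b t)) * c t := rfl

/-- `s_w^r (m(∑ b_t ⊗ a_t)) = (N · i(a))_r`. -/
theorem TFHyp584.sw_pow_map (h : TFHyp584 s l i j sw) (b : Module.Basis (ZMod l) K K')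
    (a : ZMod l → k) (r : ZMod l) :
    (sw ^ r.val) (tfMap584 i j h.hij (∑ t, b t ⊗ₜ[K] a t))
      = (tfMat584 s l j b).mulVec (fun t => i (a t)) r := by
  rw [h.mulVec_apply, map_sum, map_sum]
  refine Finset.sum_congr rfl fun t _ => ?_
  rw [tfMap_tmul584, map_mul, h.sw_pow_j, h.sw_pow_i]

/-- `m` is injective. -/
theorem TFHyp584.map_injective (h : TFHyp584 s l i j sw) (b : Module.Basis (ZMod l) K K') :
    Function.Injective (tfMap584 i j h.hij) := by
  rw [injective_iff_map_eq_zero]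
  intro z hz
  obtain ⟨a, rfl⟩ := exists_repr584 (k := k) b z
  have h0 : (tfMat584 s l j b).mulVec (fun t => i (a t)) = (tfMat584 s l j b).mulVec 0 := by
    funext r
    rw [← h.sw_pow_map b a r, hz, map_zero, Matrix.mulVec_zero]
    rfl
  have h1 := (Matrix.mulVec_injective_iff_isUnit.2 (h.isUnit_mat b)) h0
  have h2 : ∀ t, a t = 0 := fun t =>
    i.injective (by rw [map_zero]; exact congrFun h1 t)
  refine Finset.sum_eq_zero fun t _ => ?_
  rw [h2 t, TensorProduct.tmul_zero]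

theorem pow_val_eq_mul584 {M : Type*} [Monoid M] {x : M} (hx : x ^ l = 1) (r : ZMod l) :
    x ^ r.val = x * x ^ (r - 1).val := by
  have hr : r = (r - 1) + 1 := (sub_add_cancel r 1).symm
  conv_lhs => rw [hr]
  rw [pow_val_add_one584 hx, ← pow_succ, pow_succ']

/-- `m` is surjective. -/
theorem TFHyp584.map_surjective (h : TFHyp584 s l i j sw) (b : Module.Basis (ZMod l) K K') :
    Function.Surjective (tfMap584 i j h.hij) := by
  intro y
  have hinj := Matrix.mulVec_injective_iff_isUnit.2 (h.isUnit_mat b)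
  obtain ⟨c, hc⟩ := (Matrix.mulVec_surjective_iff_isUnit.2 (h.isUnit_mat b))
    (fun r : ZMod l => (sw ^ r.val) y)
  have hc' : ∀ r : ZMod l, ∑ t, j ((s ^ r.val) (b t)) * c t = (sw ^ r.val) y := fun r => by
    rw [← h.mulVec_apply b c r, hc]
  have hfix : (fun t => sw (c t)) = c := by
    apply hinj
    rw [hc]
    funext r
    rw [h.mulVec_apply, pow_val_eq_mul584 h.sw_pow_l r, pow_val_eq_mul584 h.s_pow_l r]
    change ∑ t, j (s ((s ^ (r - 1).val) (b t))) * sw (c t) = sw ((sw ^ (r - 1).val) y)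
    rw [← hc' (r - 1), map_sum]
    refine Finset.sum_congr rfl fun t _ => ?_
    rw [map_mul, h.hs]
  choose a ha using fun t => h.cyc.fixed (c t) (congrFun hfix t)
  refine ⟨∑ t, b t ⊗ₜ[K] a t, ?_⟩
  have h0 := h.sw_pow_map b a 0
  rw [show (fun t => i (a t)) = c from funext ha, hc] at h0
  simp only [ZMod.val_zero, pow_zero] at h0
  exact h0

/-- The isomorphism `K' ⊗_K k ≃ k'`. -/
def TFHyp584.equiv (h : TFHyp584 s l i j sw) (b : Module.Basis (ZMod l) K K') :
    K' ⊗[K] k ≃+* k' :=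
  RingEquiv.ofBijective (tfMap584 i j h.hij) ⟨h.map_injective b, h.map_surjective b⟩

theorem TFHyp584.equiv_apply (h : TFHyp584 s l i j sw) (b : Module.Basis (ZMod l) K K')
    (z : K' ⊗[K] k) : h.equiv b z = tfMap584 i j h.hij z := rfl

theorem TFHyp584.equiv_incl (h : TFHyp584 s l i j sw) (b : Module.Basis (ZMod l) K K')
    (a : k) : h.equiv b (tensorIncl584 K K' k a) = i a := by
  rw [h.equiv_apply]
  change tfMap584 i j h.hij ((1 : K') ⊗ₜ[K] a) = i a
  rw [tfMap_tmul584, map_one, one_mul]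

theorem TFHyp584.equiv_aut (h : TFHyp584 s l i j sw) (b : Module.Basis (ZMod l) K K')
    (z : K' ⊗[K] k) : h.equiv b (tensorAut584 s z) = sw (h.equiv b z) := by
  induction z using TensorProduct.induction_on with
  | zero => simp
  | tmul x a =>
    rw [h.equiv_apply, h.equiv_apply]
    change tfMap584 i j h.hij ((s x) ⊗ₜ[K] a) = sw (tfMap584 i j h.hij (x ⊗ₜ[K] a))
    rw [tfMap_tmul584, tfMap_tmul584, map_mul, h.hs, h.cyc.fix_i]
  | add x y hx hy =>
    rw [map_add, map_add, hx, hy, map_add, map_add]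

theorem TFHyp584.symm_incl (h : TFHyp584 s l i j sw) (b : Module.Basis (ZMod l) K K')
    (a : k) : (h.equiv b).symm (i a) = tensorIncl584 K K' k a := by
  rw [RingEquiv.symm_apply_eq, h.equiv_incl]

theorem TFHyp584.symm_aut (h : TFHyp584 s l i j sw) (b : Module.Basis (ZMod l) K K')
    (y : k') : tensorAut584 s ((h.equiv b).symm y) = (h.equiv b).symm (sw y) := by
  rw [RingEquiv.eq_symm_apply, h.equiv_aut, RingEquiv.apply_symm_apply]

end Bij

/-! ## Transport of the twisted norm -/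

section Transport

variable {R S : Type} [CommRing R] [CommRing S]

/-- A ring homomorphism intertwining two automorphisms transports the twisted norm. -/
theorem twNorm_map584 (f : R →+* S) (sR : R ≃+* R) (sS : S ≃+* S)
    (hf : ∀ x : R, f (sR x) = sS (f x)) :
    ∀ (n : ℕ) (δ : GL (Fin 2) R),
      T6.twNorm sS n (Matrix.GeneralLinearGroup.map f δ)
        = Matrix.GeneralLinearGroup.map f (T6.twNorm sR n δ)
  | 0, _ => (map_one _).symm
  | n + 1, δ => by
      have ih := twNorm_map584 f sR sS hf n δ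
      change Matrix.GeneralLinearGroup.map f δ
          * T6.glAut sS (T6.twNorm sS n (Matrix.GeneralLinearGroup.map f δ))
        = Matrix.GeneralLinearGroup.map f (δ * T6.glAut sR (T6.twNorm sR n δ))
      rw [ih, map_mul]
      congr 1
      have hcomp : ((sS : S →+* S).comp f) = f.comp (sR : R →+* R) :=
        RingHom.ext fun x => (hf x).symm
      change (Matrix.GeneralLinearGroup.map (sS : S →+* S))
          (Matrix.GeneralLinearGroup.map f (T6.twNorm sR n δ))
        = Matrix.GeneralLinearGroup.map f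
          (Matrix.GeneralLinearGroup.map (sR : R →+* R) (T6.twNorm sR n δ))
      rw [← MonoidHom.comp_apply, ← Matrix.GeneralLinearGroup.map_comp, hcomp,
        Matrix.GeneralLinearGroup.map_comp, MonoidHom.comp_apply]

end Transport

/-- **The leaf N1 `TensorFieldC584`, PROVED.** -/
theorem tensorFieldC584 : TensorFieldC584 := by
  intro K K' k k' _ _ _ _ _ _ s l hl hrank hne i j sw hij hs hcyc γ hγ
  have h : TFHyp584 s l i j sw := ⟨hl, hrank, hne, hij, hs, hcyc⟩
  haveI : Fact l.Prime := ⟨hl⟩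
  haveI : Module.Finite K K' :=
    Module.finite_of_finrank_pos (by rw [hrank]; exact hl.pos)
  let b : Module.Basis (ZMod l) K K' :=
    (Module.finBasisOfFinrankEq K K' hrank).reindex (ZMod.finEquiv l).toEquiv
  obtain ⟨δw, hδw⟩ := hγ
  let E : k' →+* K' ⊗[K] k := ((h.equiv b).symm : k' →+* K' ⊗[K] k)
  refine ⟨Matrix.GeneralLinearGroup.map E δw, ?_⟩
  have h1 := twNorm_map584 E sw (tensorAut584 s) (fun y => (h.symm_aut b y).symm) l δw
  rw [h1]
  have h2 := (Matrix.GeneralLinearGroup.map E).map_isConj hδw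
  have h3 : Matrix.GeneralLinearGroup.map E (Matrix.GeneralLinearGroup.map i γ)
      = Matrix.GeneralLinearGroup.map (tensorIncl584 K K' k) γ := by
    have hE : E.comp i = tensorIncl584 K K' k := RingHom.ext fun a => h.symm_incl b a
    rw [← MonoidHom.comp_apply, ← Matrix.GeneralLinearGroup.map_comp, hE]
  rw [h3] at h2
  exact h2

end Main

end Fermat.Agent.LT.T7.H584

end

end
-- ===== PACK-END LT/T7/H584/TensorField.lean

-- ===== PACK-BEGIN LT/T7/H340/IwKit.lean
section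



/-!
# Row LT, tower T7, helper340: KIT for the Iwahori operator `𝒰 = iwOp` of `T7/Level2.lean`

OFF-MAIN.  Vocabulary: `T7/Level2.lean` (sha256 15516646, helper797), `T5/Spec.lean` v4, A0;
tools of helper129 (byte-identical copies).  General number field `K`, finite place `w`.

* `inIwahori_iff340` : `T5.InIwahori w g ↔ IsIwG340 Valued.v (finCompHom129 w g)`;
  `inIwahori_one340 / _mul340 / _inv340`.
* `isIwT340_of_inIwahoriCoset` : the shape of the component at `w` of an element of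
  `I diag(ϖ, 1) I`.
* **`exists_iwCosetSystem340 w : ∃ H, IsIwCosetSystem w H`** (the standard system
  `[[ϖ, r], [0, 1]]`, `r` running over representatives of `𝓞 K ⧸ w`).
* **`iwCosetSystem_complete340`** : for a coset system `H` every `g ∈ I diag(ϖ,1) I` (at `w`)
  has exactly one `h ∈ H` with `h⁻¹ g ∈ I`.
* **`iwSum_indep340`**, `iwOp_indep340` : on functions right invariant under the elements
  supported at `w` lying in the Iwahori subgroup, `∑ h ∈ H, φ (g * h)` (hence `iwOp w H φ`)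
  does not depend on the coset system `H`.
-/

set_option autoImplicit false

open IsDedekindDomain NumberField IsDedekindDomain.HeightOneSpectrum
open Fermat.Agent.LT.H556 Fermat.Agent.LT.H556.A0 Fermat.Agent.LT.H129

noncomputable section

namespace Fermat.Agent.LT.T7.H340

variable {K : Type} [Field K] [NumberField K] (w : HeightOneSpectrum (𝓞 K))

/-- The valuation of `K_w`. -/
abbrev vw340 : Valuation (w.adicCompletion K) (WithZero (Multiplicative ℤ)) := Valued.v

theorem inIwahori_iff340 (g : G K) :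
    T5.InIwahori w g ↔ IsIwG340 (vw340 w) (finCompHom129 w g) := by
  unfold T5.InIwahori IsIwG340 IsIntegralAt
  rw [← map_inv, coe_finCompHom129, coe_finCompHom129]
  simp only [mem_adicCompletionIntegers]

theorem inIwahori_one340 : T5.InIwahori w (1 : G K) := by
  rw [inIwahori_iff340, map_one]; exact isIwG340_one

variable {w}

theorem inIwahori_mul340 {g h : G K} (hg : T5.InIwahori w g) (hh : T5.InIwahori w h) :
    T5.InIwahori w (g * h) := by
  rw [inIwahori_iff340] at *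
  rw [map_mul]; exact isIwG340_mul hg hh

theorem inIwahori_inv340 {g : G K} (hg : T5.InIwahori w g) : T5.InIwahori w g⁻¹ := by
  rw [inIwahori_iff340] at *
  rw [map_inv]; exact isIwG340_inv hg

/-- The shape of the component at `w` of an element of `I diag(ϖ, 1) I`. -/
theorem isIwT340_of_inIwahoriCoset {g : G K} (hg : T5.InIwahoriCoset w 1 g) :
    IsIwT340 (vw340 w) (finCompHom129 w g) := by
  obtain ⟨k₁, k₂, t, c, hk₁, hk₂, hc, ht, hgk⟩ := hg
  have e : finCompHom129 w g = finCompHom129 w k₁ * finCompHom129 w t * finCompHom129 w k₂ := by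
    rw [← map_mul, ← map_mul]
    exact Units.ext hgk
  rw [e]
  refine isIwT340_of_mul ((inIwahori_iff340 w k₁).1 hk₁) ((inIwahori_iff340 w k₂).1 hk₂)
    (c := c) ?_ ?_
  · rw [hc]; simp
  · rw [coe_finCompHom129]; exact ht

/-! ## The residue invariant -/

open Classical in
/-- The residue of `M 0 1 / M 1 1`. -/
def iwRes340 (w : HeightOneSpectrum (𝓞 K)) (M : GL (Fin 2) (w.adicCompletion K)) :
    IsLocalRing.ResidueField (w.adicCompletionIntegers K) :=
  if h : (M : Matrix (Fin 2) (Fin 2) (w.adicCompletion K)) 0 1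
      / (M : Matrix (Fin 2) (Fin 2) (w.adicCompletion K)) 1 1 ∈ w.adicCompletionIntegers K then
    IsLocalRing.residue (w.adicCompletionIntegers K)
      ⟨(M : Matrix (Fin 2) (Fin 2) (w.adicCompletion K)) 0 1
        / (M : Matrix (Fin 2) (Fin 2) (w.adicCompletion K)) 1 1, h⟩
  else 0

theorem quot_mem340 {M : GL (Fin 2) (w.adicCompletion K)} (hM : IsIwT340 (vw340 w) M) :
    (M : Matrix (Fin 2) (Fin 2) (w.adicCompletion K)) 0 1
      / (M : Matrix (Fin 2) (Fin 2) (w.adicCompletion K)) 1 1 ∈ w.adicCompletionIntegers K := by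
  rw [mem_adicCompletionIntegers, map_div₀]
  have h11 : Valued.v ((M : Matrix (Fin 2) (Fin 2) (w.adicCompletion K)) 1 1) = 1 := hM.2.2.2.2
  rw [h11, div_one]
  exact hM.1 0 1

theorem val_of_iwRes_eq340 {M M' : GL (Fin 2) (w.adicCompletion K)}
    (hM : IsIwT340 (vw340 w) M) (hM' : IsIwT340 (vw340 w) M')
    (h : iwRes340 w M = iwRes340 w M') :
    vw340 w ((M : Matrix (Fin 2) (Fin 2) (w.adicCompletion K)) 0 1
        * (M' : Matrix (Fin 2) (Fin 2) (w.adicCompletion K)) 1 1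
      - (M' : Matrix (Fin 2) (Fin 2) (w.adicCompletion K)) 0 1
        * (M : Matrix (Fin 2) (Fin 2) (w.adicCompletion K)) 1 1) < 1 := by
  have h11 : Valued.v ((M : Matrix (Fin 2) (Fin 2) (w.adicCompletion K)) 1 1) = 1 := hM.2.2.2.2
  have h11' : Valued.v ((M' : Matrix (Fin 2) (Fin 2) (w.adicCompletion K)) 1 1) = 1 :=
    hM'.2.2.2.2
  have hne : (M : Matrix (Fin 2) (Fin 2) (w.adicCompletion K)) 1 1 ≠ 0 := by
    intro h0; rw [h0, map_zero] at h11; exact zero_ne_one h11
  have hne' : (M' : Matrix (Fin 2) (Fin 2) (w.adicCompletion K)) 1 1 ≠ 0 := by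
    intro h0; rw [h0, map_zero] at h11'; exact zero_ne_one h11'
  unfold iwRes340 at h
  rw [dif_pos (quot_mem340 hM), dif_pos (quot_mem340 hM')] at h
  have h0 : IsLocalRing.residue (w.adicCompletionIntegers K)
      (⟨_, quot_mem340 hM⟩ - ⟨_, quot_mem340 hM'⟩) = 0 := by
    rw [map_sub, h, sub_self]
  rw [residue_eq_zero_iff_valued129] at h0
  have hsub : (((⟨_, quot_mem340 hM⟩ - ⟨_, quot_mem340 hM'⟩ : w.adicCompletionIntegers K) :
      w.adicCompletionIntegers K) : w.adicCompletion K)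
      = ((M : Matrix (Fin 2) (Fin 2) (w.adicCompletion K)) 0 1
          * (M' : Matrix (Fin 2) (Fin 2) (w.adicCompletion K)) 1 1
        - (M' : Matrix (Fin 2) (Fin 2) (w.adicCompletion K)) 0 1
          * (M : Matrix (Fin 2) (Fin 2) (w.adicCompletion K)) 1 1)
        / ((M : Matrix (Fin 2) (Fin 2) (w.adicCompletion K)) 1 1
          * (M' : Matrix (Fin 2) (Fin 2) (w.adicCompletion K)) 1 1) := by
    push_cast
    field_simp
  rw [hsub, map_div₀, map_mul, h11, h11', one_mul, div_one] at h0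
  exact h0

/-- Same residue ⇒ equivalent modulo the Iwahori subgroup. -/
theorem inIwahori_inv_mul_of_res340 {g g' : G K} (hg : T5.InIwahoriCoset w 1 g)
    (hg' : T5.InIwahoriCoset w 1 g')
    (h : iwRes340 w (finCompHom129 w g) = iwRes340 w (finCompHom129 w g')) :
    T5.InIwahori w (g⁻¹ * g') := by
  rw [inIwahori_iff340, map_mul, map_inv]
  exact isIwG340_inv_mul (isIwT340_of_inIwahoriCoset hg) (isIwT340_of_inIwahoriCoset hg')
    (val_of_iwRes_eq340 (isIwT340_of_inIwahoriCoset hg) (isIwT340_of_inIwahoriCoset hg') h)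

/-! ## Completeness and independence -/

/-- **Completeness of the Iwahori coset systems of `T7/Level2.lean`.** -/
theorem iwCosetSystem_complete340 {H : Finset (G K)} (hH : IsIwCosetSystem w H) {g : G K}
    (hg : T5.InIwahoriCoset w 1 g) :
    ∃ h ∈ H, T5.InIwahori w (h⁻¹ * g) ∧ T5.InIwahori w (g⁻¹ * h) ∧
      ∀ h' ∈ H, T5.InIwahori w (h'⁻¹ * g) → h' = h := by
  classical
  obtain ⟨hcard, hmem, hne⟩ := hH
  haveI : Finite (IsLocalRing.ResidueField (w.adicCompletionIntegers K)) :=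
    finite_residueField129 K w
  letI : Fintype (IsLocalRing.ResidueField (w.adicCompletionIntegers K)) := Fintype.ofFinite _
  have hinj : Set.InjOn (fun h : G K => iwRes340 w (finCompHom129 w h)) (H : Set (G K)) := by
    intro a ha b hb hab
    by_contra hne'
    exact hne a ha b hb hne'
      (inIwahori_inv_mul_of_res340 (hmem a ha).2 (hmem b hb).2 hab)
  have himg : H.image (fun h : G K => iwRes340 w (finCompHom129 w h)) = Finset.univ := by
    apply Finset.eq_univ_of_card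
    rw [Finset.card_image_of_injOn hinj, hcard, ← card_residueField129 K w,
      Nat.card_eq_fintype_card]
  have hin : iwRes340 w (finCompHom129 w g)
      ∈ H.image (fun h : G K => iwRes340 w (finCompHom129 w h)) := by
    rw [himg]; exact Finset.mem_univ _
  obtain ⟨h, hh, hres⟩ := Finset.mem_image.mp hin
  have h1 : T5.InIwahori w (h⁻¹ * g) := inIwahori_inv_mul_of_res340 (hmem h hh).2 hg hres
  have h2 : T5.InIwahori w (g⁻¹ * h) := by
    have e : g⁻¹ * h = (h⁻¹ * g)⁻¹ := by group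
    rw [e]; exact inIwahori_inv340 h1
  refine ⟨h, hh, h1, h2, ?_⟩
  intro h' hh' h3
  by_contra hne'
  apply hne h' hh' h hh hne'
  have e : h'⁻¹ * h = (h'⁻¹ * g) * (g⁻¹ * h) := by group
  rw [e]
  exact inIwahori_mul340 h3 h2

/-- **The Iwahori sum does not depend on the coset system.** -/
theorem iwSum_indep340 {H H' : Finset (G K)} (hH : IsIwCosetSystem w H)
    (hH' : IsIwCosetSystem w H') {M : Type*} [AddCommMonoid M] (φ : G K → M)
    (hφ : ∀ u : G K, IsLocalAtFin w u → T5.InIwahori w u → ∀ g : G K, φ (g * u) = φ g)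
    (g : G K) : ∑ h ∈ H, φ (g * h) = ∑ h ∈ H', φ (g * h) := by
  classical
  have key : ∀ {A B : Finset (G K)}, IsIwCosetSystem w A → IsIwCosetSystem w B →
      ∀ h ∈ A, ∃ h' ∈ B, T5.InIwahori w (h'⁻¹ * h) ∧ T5.InIwahori w (h⁻¹ * h') ∧
        ∀ h'' ∈ B, T5.InIwahori w (h''⁻¹ * h) → h'' = h' := by
    intro A B hA hB h hh
    exact iwCosetSystem_complete340 hB (hA.2.1 h hh).2
  choose! σ hσ using key hH hH'
  choose! τ hτ using key hH' hH
  refine Finset.sum_nbij' σ τ (fun h hh => (hσ h hh).1) (fun h hh => (hτ h hh).1) ?_ ?_ ?_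
  · intro h hh
    exact ((hτ (σ h) (hσ h hh).1).2.2.2 h hh (hσ h hh).2.2.1).symm
  · intro h hh
    exact ((hσ (τ h) (hτ h hh).1).2.2.2 h hh (hτ h hh).2.2.1).symm
  · intro h hh
    have hu : IsLocalAtFin w ((σ h)⁻¹ * h) :=
      isLocalAtFin_mul129 (isLocalAtFin_inv129 (hH'.2.1 _ (hσ h hh).1).1) (hH.2.1 h hh).1
    have := hφ _ hu (hσ h hh).2.1 (g * σ h)
    rw [← this]
    congr 1
    group

/-- The operator `iwOp` does not depend on the coset system. -/
theorem iwOp_indep340 {H H' : Finset (G K)} (hH : IsIwCosetSystem w H)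
    (hH' : IsIwCosetSystem w H') (ψ : G K → ℂ)
    (hψ : ∀ u : G K, IsLocalAtFin w u → T5.InIwahori w u → ∀ g : G K, ψ (g * u) = ψ g) :
    iwOp w H ψ = iwOp w H' ψ := by
  funext x
  unfold iwOp
  rw [iwSum_indep340 hH hH' ψ hψ x]

/-! ## Existence -/

section Generic

variable {F : Type*} [Field F] {v : Valuation F (WithZero (Multiplicative ℤ))}

theorem isIwG340_upper {r : F} (hr : v r ≤ 1) : IsIwG340 v (upperU129 r) := by
  have key : ∀ x : F, v x ≤ 1 →
      ∀ i j, v (((upperU129 x : GL (Fin 2) F) : Matrix (Fin 2) (Fin 2) F) i j) ≤ 1 := by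
    intro x hx i j
    fin_cases i <;> fin_cases j <;> simp [upperU129, hx]
  refine ⟨key r hr, ?_, ?_⟩
  · rw [upperU129_inv]
    exact key (-r) (by rw [Valuation.map_neg]; exact hr)
  · simp [upperU129]

theorem upper_mul_diag340 {π : F} (hπ : π ≠ 0) (r : F) :
    upperU129 r * mkGL129 π 0 0 1 (by simpa using hπ) = mkGL129 π r 0 1 (by simpa using hπ) := by
  apply ext_mat129
  rw [Matrix.GeneralLinearGroup.coe_mul]
  simp only [upperU129, coe_mkGL129]
  ext i j
  fin_cases i <;> fin_cases j <;> simp [Matrix.mul_apply, Fin.sum_univ_two]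

end Generic

variable (w)

/-- The standard representatives of `I diag(ϖ, 1) I / I`: `[[ϖ, r], [0, 1]]`. -/
def stdIw340 (π : w.adicCompletion K) (hπ : π ≠ 0) (c : 𝓞 K ⧸ w.asIdeal) : G K :=
  stdHecke129 w π hπ (some c)

theorem stdIw340_props {π : w.adicCompletion K} (hπ : Valued.v π = WithZero.exp (-1 : ℤ))
    (c : 𝓞 K ⧸ w.asIdeal) :
    IsLocalAtFin w (stdIw340 w π (unif_ne_zero129 w hπ) c) ∧
      T5.InIwahoriCoset w 1 (stdIw340 w π (unif_ne_zero129 w hπ) c) := by
  have hπ0 := unif_ne_zero129 w hπ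
  refine ⟨(stdHecke129_props w hπ (some c)).1, ?_⟩
  refine ⟨locFin129 w (upperU129 (rep129 w c)),
    1, locFin129 w (mkGL129 π 0 0 1 (by simpa using hπ0)), π, ?_, inIwahori_one340 w, ?_, ?_, ?_⟩
  · rw [inIwahori_iff340, finCompHom129_locFin129]
    exact isIwG340_upper ((mem_adicCompletionIntegers _ _ _).1 (rep129_mem w c))
  · rw [hπ]; simp
  · rw [finComp_locFin129, coe_mkGL129]
  · rw [mul_one, ← map_mul, upper_mul_diag340 hπ0]
    rfl

/-- **Iwahori coset systems exist.** -/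
theorem exists_iwCosetSystem340 : ∃ H : Finset (G K), IsIwCosetSystem w H := by
  classical
  obtain ⟨π, hπ⟩ := exists_unif129 w
  haveI : Finite (𝓞 K ⧸ w.asIdeal) := by
    apply Nat.finite_of_card_ne_zero
    rw [← Submodule.cardQuot_apply, ← Ideal.absNorm_apply]
    exact ne_of_gt (lt_trans Nat.zero_lt_one (NumberField.HeightOneSpectrum.one_lt_absNorm w))
  letI : Fintype (𝓞 K ⧸ w.asIdeal) := Fintype.ofFinite _
  have hni : ∀ a b : 𝓞 K ⧸ w.asIdeal, a ≠ b →
      ¬ T5.InIwahori w ((stdIw340 w π (unif_ne_zero129 w hπ) a)⁻¹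
        * stdIw340 w π (unif_ne_zero129 w hπ) b) := by
    intro a b hab hI
    exact stdHecke129_not_int w hπ (a := some a) (b := some b)
      (fun e => hab (Option.some.inj e)) hI.1
  have hinj : Function.Injective (stdIw340 w π (unif_ne_zero129 w hπ)) := by
    intro a b hab
    by_contra hne
    apply hni a b hne
    rw [hab, inv_mul_cancel]
    exact inIwahori_one340 w
  refine ⟨Finset.univ.image (stdIw340 w π (unif_ne_zero129 w hπ)), ?_, ?_, ?_⟩
  · rw [Finset.card_image_of_injective _ hinj, Finset.card_univ,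
      Ideal.absNorm_apply, Submodule.cardQuot_apply, Nat.card_eq_fintype_card]
  · intro h hh
    obtain ⟨a, -, rfl⟩ := Finset.mem_image.mp hh
    exact stdIw340_props w hπ a
  · intro h hh h' hh' hne
    obtain ⟨a, -, rfl⟩ := Finset.mem_image.mp hh
    obtain ⟨b, -, rfl⟩ := Finset.mem_image.mp hh'
    exact hni a b (fun e => hne (by rw [e]))

variable {w}

/-! ## Translates of coset systems, invariance of `iwOp ψ` -/

theorem inIwahoriCoset_mul_left340 {k g : G K} (hk : T5.InIwahori w k)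
    (hg : T5.InIwahoriCoset w 1 g) : T5.InIwahoriCoset w 1 (k * g) := by
  obtain ⟨k₁, k₂, t, c, hk₁, hk₂, hc, ht, hgk⟩ := hg
  refine ⟨k * k₁, k₂, t, c, inIwahori_mul340 hk hk₁, hk₂, hc, ht, ?_⟩
  have e1 : finComp w (k * g) = finComp w k * finComp w g := by
    rw [← coe_finCompHom129, map_mul]; rfl
  have e2 : finComp w (k * k₁ * t * k₂) = finComp w k * finComp w (k₁ * t * k₂) := by
    rw [← coe_finCompHom129, ← coe_finCompHom129, ← coe_finCompHom129,
      ← Matrix.GeneralLinearGroup.coe_mul, ← map_mul]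
    congr 2
    group
  rw [e1, e2, hgk]

/-- The left translate of a coset system by a local element of the Iwahori subgroup is a coset
system. -/
theorem isIwCosetSystem_translate340 {H : Finset (G K)} (hH : IsIwCosetSystem w H) {k : G K}
    (hk : IsLocalAtFin w k) (hkI : T5.InIwahori w k) [DecidableEq (G K)] :
    IsIwCosetSystem w (H.image fun h => k * h) := by
  obtain ⟨hcard, hmem, hne⟩ := hH
  refine ⟨?_, ?_, ?_⟩
  · rw [Finset.card_image_of_injective _ (mul_right_injective k), hcard]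
  · intro h hh
    obtain ⟨a, ha, rfl⟩ := Finset.mem_image.mp hh
    exact ⟨isLocalAtFin_mul129 hk (hmem a ha).1, inIwahoriCoset_mul_left340 hkI (hmem a ha).2⟩
  · intro h hh h' hh' hhh
    obtain ⟨a, ha, rfl⟩ := Finset.mem_image.mp hh
    obtain ⟨b, hb, rfl⟩ := Finset.mem_image.mp hh'
    have e : (k * a)⁻¹ * (k * b) = a⁻¹ * b := by group
    rw [e]
    exact hne a ha b hb (fun e' => hhh (by rw [e']))

/-- An `IsIwInv` function is right invariant under the local elements of the Iwahori subgroup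
at each place of the orbit. -/
theorem isIwInv_local340 {l : ℕ} {o : ℕ → HeightOneSpectrum (𝓞 K)} {ψ : G K → ℂ}
    (hψ : IsIwInv l o ψ) {j₀ : ℕ} (hj₀ : j₀ < l) (u : G K) (hu : IsLocalAtFin (o j₀) u)
    (huI : T5.InIwahori (o j₀) u) (g : G K) : ψ (g * u) = ψ g := by
  refine hψ u hu.1 (fun v hv => hu.2 v (hv j₀ hj₀)) (fun j _ => ?_) g
  by_cases hjo : o j = o j₀
  · rw [hjo]; exact huI
  · have : TrivAtFin (o j) u := hu.2 (o j) hjo
    rw [inIwahori_iff340, (trivAtFin_iff129 _ _).1 this]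
    exact isIwG340_one

/-- An element supported at `w` commutes with an element which is trivial at `w`. -/
theorem commute_of_local340 {h k : G K} (hh : IsLocalAtFin w h)
    (hk : finCompHom129 w k = 1) : h * k = k * h := by
  rw [isLocalAtFin_iff129] at hh
  apply G_ext129
  · intro u
    rw [map_mul, map_mul, hh.1 u, one_mul, mul_one]
  · intro v
    by_cases hv : v = w
    · subst hv
      rw [map_mul, map_mul, hk, one_mul, mul_one]
    · rw [map_mul, map_mul, hh.2 v hv, one_mul, mul_one]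

/-- **The operator `𝒰 = iwOp` at `o 0` preserves the Iwahori-invariant functions.** -/
theorem isIwInv_iwOp340 {l : ℕ} {o : ℕ → HeightOneSpectrum (𝓞 K)} {ψ : G K → ℂ}
    {H : Finset (G K)} (hl : 0 < l) (hH : IsIwCosetSystem (o 0) H) (hψ : IsIwInv l o ψ) :
    IsIwInv l o (iwOp (o 0) H ψ) := by
  classical
  intro k hkinf hkout hkI x
  unfold iwOp
  congr 1
  -- split `k = kw * k'`
  set kw : G K := locFin129 (o 0) (finCompHom129 (o 0) k) with hkw
  set k' : G K := kw⁻¹ * k with hk'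
  have hkwloc : IsLocalAtFin (o 0) kw := isLocalAtFin_locFin129 _ _
  have hkwI : T5.InIwahori (o 0) kw := by
    rw [inIwahori_iff340, hkw, finCompHom129_locFin129, ← inIwahori_iff340]
    exact hkI 0 hl
  have hk'w : finCompHom129 (o 0) k' = 1 := by
    rw [hk', map_mul, map_inv, hkw, finCompHom129_locFin129, inv_mul_cancel]
  have hk'v : ∀ v : HeightOneSpectrum (𝓞 K), v ≠ o 0 →
      finCompHom129 v k' = finCompHom129 v k := by
    intro v hv
    rw [hk', map_mul, map_inv, hkw, finCompHom129_locFin129_of_ne _ _ hv, inv_one, one_mul]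
  have hk'inf : ∀ u : InfinitePlace K, TrivAtInf u k' := by
    intro u
    rw [trivAtInf_iff129, hk', map_mul, map_inv, hkw, infCompHom129_locFin129, inv_one,
      one_mul, ← trivAtInf_iff129]
    exact hkinf u
  have hk'out : ∀ v : HeightOneSpectrum (𝓞 K), (∀ j < l, v ≠ o j) → TrivAtFin v k' := by
    intro v hv
    rw [trivAtFin_iff129, hk'v v (hv 0 hl), ← trivAtFin_iff129]
    exact hkout v hv
  have hk'I : ∀ j < l, T5.InIwahori (o j) k' := by
    intro j hj
    by_cases hjo : o j = o 0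
    · rw [hjo, inIwahori_iff340, hk'w]; exact isIwG340_one
    · rw [inIwahori_iff340, hk'v _ hjo, ← inIwahori_iff340]
      exact hkI j hj
  have hkk : k = kw * k' := by rw [hk']; group
  have hterm : ∀ h ∈ H, ψ (x * k * h) = ψ (x * (kw * h)) := by
    intro h hh
    have hcomm : k' * h = h * k' := (commute_of_local340 (hH.2.1 h hh).1 hk'w).symm
    have e : x * k * h = x * (kw * h) * k' := by
      rw [hkk, mul_assoc, mul_assoc kw, hcomm]
      group
    rw [e]
    exact hψ k' hk'inf hk'out hk'I _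
  rw [Finset.sum_congr rfl hterm]
  have himg : ∑ h ∈ H, ψ (x * (kw * h)) = ∑ h ∈ H.image (fun h => kw * h), ψ (x * h) := by
    rw [Finset.sum_image (fun a _ b _ hab => mul_right_injective kw hab)]
  rw [himg]
  exact iwSum_indep340 (isIwCosetSystem_translate340 hH hkwloc hkwI) hH ψ
    (fun u hu huI g => isIwInv_local340 hψ hl u hu huI g) x

/-- A scalar uniformiser at `w` commutes with the elements supported at `w`. -/
theorem commute_scalar340 {z h : G K} (hz : IsScalarUniformizerAt w z)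
    (hh : IsLocalAtFin w h) : z * h = h * z := by
  obtain ⟨hzloc, c, -, hzc⟩ := hz
  rw [isLocalAtFin_iff129] at hh hzloc
  apply G_ext129
  · intro u
    rw [map_mul, map_mul, hh.1 u, hzloc.1 u]
  · intro v
    by_cases hv : v = w
    · subst hv
      apply Units.ext
      rw [map_mul, map_mul, Matrix.GeneralLinearGroup.coe_mul,
        Matrix.GeneralLinearGroup.coe_mul, coe_finCompHom129, coe_finCompHom129, hzc]
      ext i j
      rw [Matrix.diagonal_mul, Matrix.mul_diagonal, mul_comm]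
    · rw [map_mul, map_mul, hh.2 v hv, hzloc.2 v hv]

/-- `Z^k` commutes with `𝒰`. -/
theorem shiftOp_iwOp_comm340 {z : G K} (hz : IsScalarUniformizerAt w z) {H : Finset (G K)}
    (hH : IsIwCosetSystem w H) (k : ℤ) (ψ : G K → ℂ) :
    shiftOp z k (iwOp w H ψ) = iwOp w H (shiftOp z k ψ) := by
  funext x
  unfold shiftOp iwOp
  congr 1
  refine Finset.sum_congr rfl fun h hh => ?_
  have hc : Commute z h := commute_scalar340 hz (hH.2.1 h hh).1
  have hck : z ^ k * h = h * z ^ k := (hc.zpow_left k).eq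
  rw [mul_assoc, hck, ← mul_assoc]

end Fermat.Agent.LT.T7.H340

end

end
-- ===== PACK-END LT/T7/H340/IwKit.lean

-- ===== PACK-BEGIN LT/T7/H49/DblSys.lean
section




/-!
# Row LT, tower T7: systems of representatives of `U(𝔫) g U(𝔫) / U(𝔫)` EXIST (helper49, OFF-MAIN)

    dblSysExists49 (K) : ∀ 𝔫 ≠ ⊥, ∀ g trivial at infinity, ∃ H : Finset (G K), IsDblCosetSystem 𝔫 g H

= the leaf `BadSystemExistsC K` of helper963 (`T7/H963/Compress.lean`) and the existence clause
of `H561.BadOpC561` (helper561), UNCONDITIONAL, every number field.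

Proof.  `d ≠ 0` in `𝓞 K` a common denominator of the entries of `g` and `g⁻¹` at all finite
places (`exists_denominator` of helper767).  Then `g⁻¹ U(d² 𝔫) g ⊆ U(𝔫)` (`conj_mem_level49`),
so the map `u ↦ u g U(𝔫)` on `U(𝔫)` is constant on the cosets of `U(d² 𝔫)`, which are finite in
number (`finite_quot949` of helper949): the set of cosets `u g U(𝔫)` is finite; `H` = one
representative of each.
-/

set_option autoImplicit false
set_option linter.unusedSectionVars false
set_option linter.unusedSimpArgs false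
set_option linter.unusedVariables false

open IsDedekindDomain NumberField IsDedekindDomain.HeightOneSpectrum
open Fermat.Agent.LT.H556 Fermat.Agent.LT.H556.A0
open Fermat.Agent.LT.T7 Fermat.Agent.LT.T7.H949

noncomputable section

namespace Fermat.Agent.LT.T7.H49

variable {K : Type} [Field K] [NumberField K]

/-- A common denominator of a finite family of finite adeles. -/
theorem exists_denominator_fam49 {ι : Type} [Fintype ι]
    (a : ι → FiniteAdeleRing (𝓞 K) K) :
    ∃ d : 𝓞 K, d ≠ 0 ∧ ∀ (i : ι) (v : HeightOneSpectrum (𝓞 K)),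
      Valued.v (loc949 v d * a i v) ≤ 1 := by
  classical
  choose δ hδ0 hδ using fun i => Fermat.Agent.LT.H767.exists_denominator K (a i)
  refine ⟨∏ i, δ i, Finset.prod_ne_zero_iff.2 (fun i _ => hδ0 i), fun i v => ?_⟩
  have e : loc949 v (∏ i, δ i) * a i v
      = (loc949 v (δ i) * a i v) * loc949 v (∏ x ∈ Finset.univ.erase i, δ x) := by
    rw [← Finset.mul_prod_erase Finset.univ δ (Finset.mem_univ i), map_mul]
    ring
  have h1 : Valued.v (loc949 v (δ i) * a i v) ≤ 1 := hδ i v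
  have h2 : Valued.v (loc949 v (∏ x ∈ Finset.univ.erase i, δ x)) ≤ 1 :=
    Fermat.Agent.LT.H767.valued_algebraMap_int_le_one K v _
  rw [e, map_mul]
  calc Valued.v (loc949 v (δ i) * a i v) * Valued.v (loc949 v (∏ x ∈ Finset.univ.erase i, δ x))
      ≤ 1 * 1 := mul_le_mul' h1 h2
    _ = 1 := one_mul 1

/-- A common denominator of the entries of `g` and `g⁻¹`. -/
theorem exists_denominator_G49 (g : G K) :
    ∃ d : 𝓞 K, d ≠ 0 ∧ ∀ (v : HeightOneSpectrum (𝓞 K)) (i j : Fin 2),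
      Valued.v (loc949 v d * finComp v g i j) ≤ 1 ∧
        Valued.v (loc949 v d * finComp v g⁻¹ i j) ≤ 1 := by
  obtain ⟨d, hd0, hd⟩ := exists_denominator_fam49 (K := K) (ι := Bool × Fin 2 × Fin 2)
    (fun p => if p.1 then ((g : Matrix (Fin 2) (Fin 2) (Adl K)) p.2.1 p.2.2).2
      else ((g⁻¹ : G K) : Matrix (Fin 2) (Fin 2) (Adl K)) p.2.1 p.2.2 |>.2)
  refine ⟨d, hd0, fun v i j => ⟨?_, ?_⟩⟩
  · have := hd (true, i, j) v
    simpa [finComp] using this
  · have := hd (false, i, j) v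
    simpa [finComp] using this

/-- `a x b ∈ 𝔫 𝒪_v` for `x ∈ d² 𝔫 𝒪_v`, `d a` and `d b` integral. -/
theorem core_mem49 (𝔫 : Ideal (𝓞 K)) (v : HeightOneSpectrum (𝓞 K)) {d : 𝓞 K}
    {a b x : v.adicCompletion K} (ha : Valued.v (loc949 v d * a) ≤ 1)
    (hb : Valued.v (loc949 v d * b) ≤ 1)
    (hx : x ∈ idealClosure (Ideal.span {d * d} * 𝔫) v) : a * x * b ∈ idealClosure 𝔫 v := by
  have hf : Continuous (fun y : v.adicCompletion K => a * y * b) :=
    (continuous_const.mul continuous_id).mul continuous_const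
  have hmaps : Set.MapsTo (fun y : v.adicCompletion K => a * y * b)
      ((loc949 v) '' ((Ideal.span {d * d} * 𝔫 : Ideal (𝓞 K)) : Set (𝓞 K)))
      (idealClosure 𝔫 v) := by
    rintro _ ⟨r, hr, rfl⟩
    obtain ⟨z, hz, rfl⟩ := Ideal.mem_span_singleton_mul.1 hr
    have e : a * loc949 v (d * d * z) * b
        = (loc949 v d * a) * ((loc949 v d * b) * loc949 v z) := by
      rw [map_mul, map_mul]
      ring
    show a * loc949 v (d * d * z) * b ∈ idealClosure 𝔫 v
    rw [e]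
    exact mul_mem_idealClosure949 𝔫 v ha
      (mul_mem_idealClosure949 𝔫 v hb (loc_mem_idealClosure949 𝔫 v hz))
  have h := map_mem_closure hf hx hmaps
  have e2 : closure (idealClosure 𝔫 v) = idealClosure 𝔫 v := by
    rw [idealClosure_eq949, closure_closure]
  rwa [e2] at h

/-- The matrix form. -/
theorem conj_sub_one49 (𝔫 : Ideal (𝓞 K)) (v : HeightOneSpectrum (𝓞 K)) {d : 𝓞 K}
    {A Ai M : Matrix (Fin 2) (Fin 2) (v.adicCompletion K)} (hAi : Ai * A = 1)
    (hA : ∀ i j, Valued.v (loc949 v d * A i j) ≤ 1)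
    (hAi' : ∀ i j, Valued.v (loc949 v d * Ai i j) ≤ 1)
    (hM : ∀ i j, (M - 1) i j ∈ idealClosure (Ideal.span {d * d} * 𝔫) v) (i j : Fin 2) :
    (Ai * M * A - 1) i j ∈ idealClosure 𝔫 v := by
  have e : Ai * M * A - 1 = Ai * (M - 1) * A := by
    rw [mul_sub, sub_mul, mul_one, hAi]
  rw [e, Matrix.mul_apply, Fin.sum_univ_two, Matrix.mul_apply, Matrix.mul_apply,
    Fin.sum_univ_two, Fin.sum_univ_two, add_mul, add_mul]
  have hc : ∀ k l : Fin 2, Ai i k * (M - 1) k l * A l j ∈ idealClosure 𝔫 v :=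
    fun k l => core_mem49 𝔫 v (hAi' i k) (hA l j) (hM k l)
  exact add_mem_idealClosure949 𝔫 v
    (add_mem_idealClosure949 𝔫 v (hc 0 0) (hc 1 0))
    (add_mem_idealClosure949 𝔫 v (hc 0 1) (hc 1 1))

/-- **`g⁻¹ U(d² 𝔫) g ⊆ U(𝔫)`.** -/
theorem conj_mem_level49 {𝔫 : Ideal (𝓞 K)} {g : G K}
    (hg : ∀ w : InfinitePlace K, TrivAtInf w g) {d : 𝓞 K}
    (hd : ∀ (v : HeightOneSpectrum (𝓞 K)) (i j : Fin 2),
      Valued.v (loc949 v d * finComp v g i j) ≤ 1 ∧
        Valued.v (loc949 v d * finComp v g⁻¹ i j) ≤ 1)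
    {m : G K} (hm : InLevelGroup (Ideal.span {d * d} * 𝔫) m) :
    InLevelGroup 𝔫 (g⁻¹ * m * g) := by
  refine ⟨fun w => ?_, fun v i j => ⟨?_, ?_⟩⟩
  · exact trivAtInf_mul949 (trivAtInf_mul949 (trivAtInf_inv949 (hg w)) (hm.1 w)) (hg w)
  · rw [finComp_mul949, finComp_mul949]
    exact conj_sub_one49 𝔫 v (finComp_inv_mul949 v g) (fun i j => (hd v i j).1)
      (fun i j => (hd v i j).2) (fun i j => (hm.2 v i j).1) i j
  · have e : (g⁻¹ * m * g)⁻¹ = g⁻¹ * m⁻¹ * g := by group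
    rw [e, finComp_mul949, finComp_mul949]
    exact conj_sub_one49 𝔫 v (finComp_inv_mul949 v g) (fun i j => (hd v i j).1)
      (fun i j => (hd v i j).2) (fun i j => (hm.2 v i j).2) i j

/-- **Systems of representatives of `U(𝔫) g U(𝔫) / U(𝔫)` exist.** -/
theorem dblSysExists49 (K : Type) [Field K] [NumberField K] :
    ∀ 𝔫 : Ideal (𝓞 K), 𝔫 ≠ ⊥ → ∀ g : G K, (∀ w : InfinitePlace K, TrivAtInf w g) →
      ∃ H : Finset (G K), IsDblCosetSystem 𝔫 g H := by
  classical
  intro 𝔫 h𝔫 g hg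
  obtain ⟨d, hd0, hd⟩ := exists_denominator_G49 g
  set 𝔪 : Ideal (𝓞 K) := Ideal.span {d * d} * 𝔫 with h𝔪def
  have h𝔪 : 𝔪 ≠ ⊥ := by
    rw [h𝔪def]
    refine mul_ne_zero ?_ h𝔫
    rw [Ne, Ideal.zero_eq_bot, Ideal.span_singleton_eq_bot]
    exact mul_ne_zero hd0 hd0
  -- the finite quotient
  have hfin : Finite (↥(U949 𝔫) ⧸ (U949 𝔪).subgroupOf (U949 𝔫)) :=
    finite_quot949 𝔪 h𝔪 (U949 𝔫) (U_le_K0949 𝔫)
  -- the map `u ↦ u g U`
  let F : ↥(U949 𝔫) → G K ⧸ U949 𝔫 := fun u => QuotientGroup.mk ((u : G K) * g)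
  have hF : ∀ a b : ↥(U949 𝔫), a⁻¹ * b ∈ (U949 𝔪).subgroupOf (U949 𝔫) → F a = F b := by
    intro a b hab
    rw [Subgroup.mem_subgroupOf] at hab
    show (QuotientGroup.mk ((a : G K) * g) : G K ⧸ U949 𝔫) = QuotientGroup.mk ((b : G K) * g)
    rw [QuotientGroup.eq]
    have e : ((a : G K) * g)⁻¹ * ((b : G K) * g) = g⁻¹ * ((a : G K)⁻¹ * (b : G K)) * g := by
      group
    rw [e]
    have hab' : InLevelGroup 𝔪 ((a : G K)⁻¹ * (b : G K)) := by
      have h3 := hab
      simp only [Subgroup.coe_mul, Subgroup.coe_inv] at h3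
      exact h3
    exact conj_mem_level49 hg hd hab'
  have hQ : (Set.range F).Finite := by
    have h1 : (Set.range fun q : ↥(U949 𝔫) ⧸ (U949 𝔪).subgroupOf (U949 𝔫) =>
        F (Quotient.out q)).Finite := Set.finite_range _
    refine h1.subset ?_
    rintro _ ⟨u, rfl⟩
    refine ⟨QuotientGroup.mk u, ?_⟩
    apply hF
    have := QuotientGroup.out_eq' (QuotientGroup.mk u : ↥(U949 𝔫) ⧸ (U949 𝔪).subgroupOf (U949 𝔫))
    exact QuotientGroup.eq.1 this
  refine ⟨hQ.toFinset.image Quotient.out, ?_, ?_, ?_⟩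
  · intro h hh
    obtain ⟨q, hq, rfl⟩ := Finset.mem_image.1 hh
    obtain ⟨u, rfl⟩ := hQ.mem_toFinset.1 hq
    have h1 : (QuotientGroup.mk (Quotient.out (F u)) : G K ⧸ U949 𝔫) = F u :=
      QuotientGroup.out_eq' _
    have h2 : ((u : G K) * g)⁻¹ * Quotient.out (F u) ∈ U949 𝔫 := QuotientGroup.eq.1 h1.symm
    refine ⟨(u : G K), ((u : G K) * g)⁻¹ * Quotient.out (F u), u.2, h2, ?_⟩
    group
  · intro h hh h' hh' hne hU
    obtain ⟨q, hq, rfl⟩ := Finset.mem_image.1 hh
    obtain ⟨q', hq', rfl⟩ := Finset.mem_image.1 hh'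
    apply hne
    have h1 : (QuotientGroup.mk (Quotient.out q) : G K ⧸ U949 𝔫)
        = QuotientGroup.mk (Quotient.out q') := QuotientGroup.eq.2 hU
    rw [QuotientGroup.out_eq', QuotientGroup.out_eq'] at h1
    rw [h1]
  · intro u hu
    refine ⟨Quotient.out (F ⟨u, hu⟩), ?_, ?_⟩
    · exact Finset.mem_image_of_mem _ (hQ.mem_toFinset.2 ⟨⟨u, hu⟩, rfl⟩)
    · have h1 : (QuotientGroup.mk (Quotient.out (F ⟨u, hu⟩)) : G K ⧸ U949 𝔫) = F ⟨u, hu⟩ :=
        QuotientGroup.out_eq' _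
      exact QuotientGroup.eq.1 h1

end Fermat.Agent.LT.T7.H49

end

end
-- ===== PACK-END LT/T7/H49/DblSys.lean

-- ===== PACK-BEGIN LT/T7/H277/Geom.lean
section






/-!
# Row LT, tower T7, LEAF T7.G1 = `GeomC` (class bijection) -- helper277 (SPARE), OFF-MAIN

PROVED: `geomC277 (K K') : T7.GeomC K K'`, VERBATIM vs `T7/Matching.lean` (sha256 0549163e),
UNCONDITIONAL (every pair of number fields, every `CompData`).

Route (the header proof of `GeomC`):
* twisted fundamental domains exist for every class (`exists_isTwDomain277`, product formula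
  `T1.H309.adNormC309`), so `T5.GeomUnfold` can be applied upstairs and downstairs with the
  representatives `Quotient.out`;
* a class upstairs with a non-zero term has elliptic regular norm (`IsTwRegular`), which is
  conjugate to an elliptic `γ ∈ GL₂(K)` (`T6.NormClassC`, `noRoot_of_isNormOf277`);
* two elliptic elements of `GL₂(K)` conjugate in `GL₂(K')` are conjugate in `GL₂(K)`
  (`isConj_of_map277`), the norm is injective on the classes (`T6.NormInjC`);
* the classes downstairs which are not norms contribute `0` (`nonnorm`, regularity), the others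
  the same as upstairs (`norm`); `finsum_mem_eq_of_bijOn`.
-/

set_option autoImplicit false
open IsDedekindDomain NumberField MeasureTheory
open scoped MatrixGroups

noncomputable section
namespace Fermat.Agent.LT.T7.H277

open Fermat.Agent.LT.H556.A0 Fermat.Agent.LT

attribute [local instance] Fermat.Agent.LT.T5.instMeasurableSpaceG

section OneField

variable {K : Type} [Field K] [NumberField K]

/-- The component maps as group homomorphisms. -/
def infGL277 (w : InfinitePlace K) : G K →* GL (Fin 2) ℂ :=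
  Matrix.GeneralLinearGroup.map (T5.infHom w)

/-- The component maps as group homomorphisms. -/
def finGL277 (v : HeightOneSpectrum (𝓞 K)) : G K →* GL (Fin 2) (v.adicCompletion K) :=
  Matrix.GeneralLinearGroup.map (T5.finHom v)

theorem infGL_val277 (w : InfinitePlace K) (g : G K) :
    ((infGL277 w g : GL (Fin 2) ℂ) : Matrix (Fin 2) (Fin 2) ℂ) = infComp w g := rfl

theorem finGL_val277 (v : HeightOneSpectrum (𝓞 K)) (g : G K) :
    ((finGL277 v g : GL (Fin 2) (v.adicCompletion K)) :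
      Matrix (Fin 2) (Fin 2) (v.adicCompletion K)) = finComp v g := rfl

/-- The scalar matrices of `GL₂(ℂ)`. -/
def scalGL277 : ℂˣ →* GL (Fin 2) ℂ :=
  Units.map (Matrix.scalar (Fin 2) : ℂ →+* Matrix (Fin 2) (Fin 2) ℂ).toMonoidHom

theorem scalGL_val277 (u : ℂˣ) :
    ((scalGL277 u : GL (Fin 2) ℂ) : Matrix (Fin 2) (Fin 2) ℂ)
      = Matrix.diagonal (fun _ => (u : ℂ)) := rfl

/-- The powers of the ray generator lie on the central ray. -/
theorem isCentralRay_zpow277 {r : G K} (hr : T5.IsRayGen r) (m : ℤ) :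
    T5.IsCentralRay (r ^ m) := by
  obtain ⟨hfin, t, ht, -, hinf⟩ := hr
  have htC : (t : ℂ) ≠ 0 := Complex.ofReal_ne_zero.2 ht.ne'
  refine ⟨fun v => ?_, t ^ m, zpow_pos ht m, fun w => ?_⟩
  · have h1 : finGL277 v r = 1 := by
      apply Units.ext
      rw [finGL_val277]
      exact hfin v
    show finComp v (r ^ m) = 1
    rw [← finGL_val277, map_zpow, h1, one_zpow]
    rfl
  · have h1 : infGL277 w r = scalGL277 (Units.mk0 (t : ℂ) htC) := by
      apply Units.ext
      rw [infGL_val277, scalGL_val277, hinf w]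
      rfl
    rw [← infGL_val277, map_zpow, h1, ← map_zpow, scalGL_val277]
    congr 1
    funext _
    rw [Units.val_zpow_eq_zpow_val, Units.val_mk0, Complex.ofReal_zpow]

/-- A non-zero term of the twisted kernel on the diagonal forces the norm to be elliptic
regular. -/
theorem ellReg_of_twTerm_ne277 {r : G K} (hr : T5.IsRayGen r) {s : T5.AdelicAut K} {l : ℕ}
    {k : Subfield K} {φ : G K → ℂ} (hφ : T5.IsTwRegular s l k φ) {δ : GL (Fin 2) K} {x : G K}
    (h : T5.twTerm r s φ δ x ≠ 0) : T5.IsEllRegOver k (s.normUpTo l δ) := by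
  by_contra hne
  apply h
  show ∑' m : ℤ, φ (x⁻¹ * T5.ratG δ * s.onG x * r ^ m) = 0
  have h0 : ∀ m : ℤ, φ (x⁻¹ * T5.ratG δ * s.onG x * r ^ m) = 0 := by
    intro m
    by_contra hm
    exact hne (hφ x δ (r ^ m) (isCentralRay_zpow277 hr m) hm)
  simp [h0]

/-- The integral of an identically vanishing term. -/
theorem integral_twTerm_eq_zero277 {r : G K} {s : T5.AdelicAut K} {φ : G K → ℂ}
    {δ : GL (Fin 2) K} (μ : Measure (G K)) (A : Set (G K))
    (h : ∀ x : G K, T5.twTerm r s φ δ x = 0) :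
    ∫ x in A, T5.twTerm r s φ δ x ∂μ = 0 := by
  have : T5.twTerm r s φ δ = fun _ => 0 := funext h
  rw [this]
  simp

/-- Conjugacy in `GL₂(K)` is `σ`-conjugacy for the trivial automorphism. -/
theorem twConj_id_iff277 (a b : GL (Fin 2) K) :
    T5.TwConj (T5.AdelicAut.id K) a b ↔ IsConj a b := by
  rw [isConj_iff]
  constructor
  · rintro ⟨g, hg⟩
    rw [T5.onRat_id] at hg
    exact ⟨g⁻¹, by rw [hg, inv_inv]⟩
  · rintro ⟨c, hc⟩
    refine ⟨c⁻¹, ?_⟩
    rw [T5.onRat_id, inv_inv, hc]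

end OneField

section TwoFields

variable (K K' : Type) [Field K] [NumberField K] [Field K'] [NumberField K'] [Algebra K K']

/-- **LEAF T7.G1 = `GeomC`, VERBATIM, UNCONDITIONAL.** -/
theorem geomC277 : T7.GeomC K K' := by
  intro D hD hU' hU hNC hNI φ' f hφ' hr' hf hr hm
  classical
  have hcd : T6.IsCyclicData K K' D.l (algebraMap K K') D.s.σ := isCyclicData277 hD
  obtain ⟨-, hU'2⟩ := hU' D.R'.μ D.R'.F D.R'.r hD.frame'.frame hD.frame'.ray hD.aut φ' hφ' hr'
  obtain ⟨-, hU2⟩ := hU D.R.μ D.R.F D.R.r hD.frame.frame hD.frame.ray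
    (T5.autPreserves_id D.𝔫 D.R.μ D.R.r) f hf hr
  -- domains
  have hdom' : ∀ δ : GL (Fin 2) K', ∃ Fδ : Set (G K'), T5.IsTwDomain D.s δ Fδ := fun δ =>
    exists_isTwDomain277 (T1.H309.adNormC309 K') hD.frame'.frame D.s δ
  have hdom : ∀ γ : GL (Fin 2) K, ∃ Fγ : Set (G K),
      T5.IsTwDomain (T5.AdelicAut.id K) γ Fγ := fun γ =>
    exists_isTwDomain277 (T1.H309.adNormC309 K) hD.frame.frame (T5.AdelicAut.id K) γ
  choose Fd' hFd' using hdom'
  choose Fd hFd using hdom
  -- representatives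
  let rep' : T5.TwClass D.s → GL (Fin 2) K' := Quotient.out
  let rep : T5.TwClass (T5.AdelicAut.id K) → GL (Fin 2) K := Quotient.out
  have hrep' : ∀ c, Quotient.mk (T5.twSetoid D.s) (rep' c) = c := fun c => Quotient.out_eq c
  have hrep : ∀ c, Quotient.mk (T5.twSetoid (T5.AdelicAut.id K)) (rep c) = c :=
    fun c => Quotient.out_eq c
  obtain ⟨-, e1⟩ := hU'2 rep' (fun c => Fd' (rep' c)) hrep' (fun c => hFd' _)
  obtain ⟨-, e2⟩ := hU2 rep (fun c => Fd (rep c)) hrep (fun c => hFd _)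
  show (∫ x in D.R'.F, T5.twKer D.R'.r D.s φ' x x ∂D.R'.μ)
    = ∫ x in D.R.F, T5.twKer D.R.r (T5.AdelicAut.id K) f x x ∂D.R.μ
  rw [e1, e2]
  -- the relation between the classes
  let rel : T5.TwClass D.s → T5.TwClass (T5.AdelicAut.id K) → Prop := fun c' c =>
    T7.IsNormOf D (rep' c') (rep c) ∧ T6.IsEll (rep c)
  -- (R1) the relation is functional
  have R1 : ∀ c' c₁ c₂, rel c' c₁ → rel c' c₂ → c₁ = c₂ := by
    intro c' c₁ c₂ h₁ h₂
    have hc : IsConj (Matrix.GeneralLinearGroup.map (algebraMap K K') (rep c₁))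
        (Matrix.GeneralLinearGroup.map (algebraMap K K') (rep c₂)) := h₁.1.symm.trans h₂.1
    have hc' : IsConj (rep c₁) (rep c₂) :=
      isConj_of_map277 (algebraMap K K') (noRoot_of_isEll277 h₁.2) hc
    rw [← hrep c₁, ← hrep c₂]
    exact Quotient.sound ((twConj_id_iff277 _ _).2 hc')
  -- (R2) the relation is injective
  have R2 : ∀ c₁' c₂' c, rel c₁' c → rel c₂' c → c₁' = c₂' := by
    intro c₁' c₂' c h₁ h₂
    have hc : IsConj (T6.twNorm D.s.σ D.l (rep' c₁')) (T6.twNorm D.s.σ D.l (rep' c₂')) := by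
      rw [← normUpTo_eq_twNorm277, ← normUpTo_eq_twNorm277]
      exact h₁.1.trans h₂.1.symm
    have hreg : T6.IsReg (T6.twNorm D.s.σ D.l (rep' c₁')) := isReg_of_isNormOf277 h₁.2 h₁.1
    obtain ⟨x, hx⟩ := hNI K K' D.l (algebraMap K K') D.s.σ hcd (rep' c₁') (rep' c₂') hreg hc
    rw [← hrep' c₁', ← hrep' c₂']
    exact Quotient.sound ⟨x, hx⟩
  -- (R3) a class upstairs with a non-zero term is related to a class downstairs
  have R3 : ∀ c', (∃ x, T5.twTerm D.R'.r D.s φ' (rep' c') x ≠ 0) → ∃ c, rel c' c := by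
    rintro c' ⟨x, hx⟩
    have hreg : T5.IsEllRegOver D.k (D.s.normUpTo D.l (rep' c')) :=
      ellReg_of_twTerm_ne277 hD.frame'.ray hr' hx
    obtain ⟨γ, hγ⟩ := hNC K K' D.l (algebraMap K K') D.s.σ hcd (rep' c')
    have hn : T7.IsNormOf D (rep' c') γ := by
      show IsConj (D.s.normUpTo D.l (rep' c')) _
      rw [normUpTo_eq_twNorm277]
      exact hγ
    have hnr : NoRoot277 γ := noRoot_of_isNormOf277 hD hreg hn
    have hq : T5.TwConj (T5.AdelicAut.id K)
        (rep (Quotient.mk (T5.twSetoid (T5.AdelicAut.id K)) γ)) γ :=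
      Quotient.exact (hrep (Quotient.mk (T5.twSetoid (T5.AdelicAut.id K)) γ))
    have hq' : IsConj (rep (Quotient.mk (T5.twSetoid (T5.AdelicAut.id K)) γ)) γ :=
      (twConj_id_iff277 _ _).1 hq
    refine ⟨Quotient.mk (T5.twSetoid (T5.AdelicAut.id K)) γ, ?_, ?_⟩
    · exact hn.trans (isConj_map277 (algebraMap K K') hq'.symm)
    · exact isEll_of_noRoot277 (noRoot_conj277 hq'.symm hnr)
  -- the two families of integrals
  let I' : T5.TwClass D.s → ℂ := fun c' =>
    ∫ x in Fd' (rep' c'), T5.twTerm D.R'.r D.s φ' (rep' c') x ∂D.R'.μ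
  let I : T5.TwClass (T5.AdelicAut.id K) → ℂ := fun c =>
    ∫ x in Fd (rep c), T5.twTerm D.R.r (T5.AdelicAut.id K) f (rep c) x ∂D.R.μ
  show ∑ᶠ c', I' c' = ∑ᶠ c, I c
  let S' : Set (T5.TwClass D.s) := {c' | ∃ c, rel c' c}
  let S : Set (T5.TwClass (T5.AdelicAut.id K)) := {c | ∃ c', rel c' c}
  -- (1) the classes upstairs outside `S'` contribute `0`
  have Z' : ∀ c', c' ∉ S' → I' c' = 0 := by
    intro c' hc'
    apply integral_twTerm_eq_zero277
    intro x
    by_contra hx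
    exact hc' (R3 c' ⟨x, hx⟩)
  -- (2) the classes downstairs outside `S` contribute `0`
  have Z : ∀ c, c ∉ S → I c = 0 := by
    intro c hc
    by_cases hE : T6.IsEll (rep c)
    · apply hm.nonnorm (rep c) hE _ (Fd (rep c)) (hFd _)
      rintro ⟨δ, hδ⟩
      apply hc
      refine ⟨Quotient.mk (T5.twSetoid D.s) δ, ?_, hE⟩
      have hq : T5.TwConj D.s (rep' (Quotient.mk (T5.twSetoid D.s) δ)) δ :=
        Quotient.exact (hrep' (Quotient.mk (T5.twSetoid D.s) δ))
      exact (isConj_normUpTo277 D.s D.l hD.cyc.pow_eq hq).trans hδ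
    · apply integral_twTerm_eq_zero277
      intro x
      by_contra hx
      apply hE
      have hreg : T5.IsEllRegOver ⊤ ((T5.AdelicAut.id K).normUpTo 1 (rep c)) :=
        ellReg_of_twTerm_ne277 hD.frame.ray hr hx
      rw [normUpTo_one277] at hreg
      exact isEll_of_noRoot277 (fun y => noRoot_of_ellRegOver277 ⊤ hreg y (Subfield.mem_top y))
  -- (3) related classes contribute the same
  have E : ∀ c' c, rel c' c → I' c' = I c := by
    intro c' c h
    exact hm.norm (rep' c') (rep c) h.2 h.1 (Fd' (rep' c')) (Fd (rep c)) (hFd' _) (hFd _)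
  -- the bijection
  let e : T5.TwClass D.s → T5.TwClass (T5.AdelicAut.id K) := fun c' =>
    if h : ∃ c, rel c' c then h.choose else Quotient.mk _ 1
  have he : ∀ c' (h : ∃ c, rel c' c), rel c' (e c') := by
    intro c' h
    have : e c' = h.choose := dif_pos h
    rw [this]
    exact h.choose_spec
  have hbij : Set.BijOn e S' S := by
    refine ⟨?_, ?_, ?_⟩
    · intro c' hc'
      exact ⟨c', he c' hc'⟩
    · intro c₁' h₁ c₂' h₂ h12
      have r₁ := he c₁' h₁
      have r₂ := he c₂' h₂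
      rw [h12] at r₁
      exact R2 _ _ _ r₁ r₂
    · rintro c ⟨c', hc'⟩
      exact ⟨c', ⟨c, hc'⟩, R1 c' _ _ (he c' ⟨c, hc'⟩) hc'⟩
  have s1 : ∑ᶠ c', I' c' = ∑ᶠ c' ∈ S', I' c' := by
    rw [← finsum_mem_univ]
    apply finsum_mem_inter_support_eq
    ext c'
    simp only [Set.mem_inter_iff, Set.mem_univ, true_and, Function.mem_support]
    constructor
    · intro h
      refine ⟨?_, h⟩
      by_contra hc'
      exact h (Z' c' hc')
    · exact fun h => h.2
  have s2 : ∑ᶠ c, I c = ∑ᶠ c ∈ S, I c := by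
    rw [← finsum_mem_univ]
    apply finsum_mem_inter_support_eq
    ext c
    simp only [Set.mem_inter_iff, Set.mem_univ, true_and, Function.mem_support]
    constructor
    · intro h
      refine ⟨?_, h⟩
      by_contra hc
      exact h (Z c hc)
    · exact fun h => h.2
  rw [s1, s2]
  exact finsum_mem_eq_of_bijOn e hbij (fun c' hc' => E c' (e c') (he c' hc'))

end TwoFields

end Fermat.Agent.LT.T7.H277
end

end
-- ===== PACK-END LT/T7/H277/Geom.lean

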