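import Mathlib
import Fermat.Agent.Pack.LT3.E20L3
import Fermat.Agent.Pack.LT3.E20L1
import Fermat.Agent.Pack.LT3.E19L0
import Fermat.Agent.Pack.LT3.E10L0
import Fermat.Agent.Pack.LT2.E16L2
import Fermat.Agent.Pack.LT3.E17L2
import Fermat.Agent.Pack.LT2.E3L0
import Fermat.Agent.Pack.LT3.E7L3
import Fermat.Agent.Pack.LT3.E1L1
import Fermat.Agent.Pack.LT3.E20L2
import Fermat.Agent.Pack.LT3.E20L0

set_option linter.all false

-- ===== PACK-BEGIN LT/T3/M/H162/EKCore.lean
section



/-!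
# Row LT, tower T3, station T3.18M, leaf M.1 `EKCoreC` (helper162) -- OFF-MAIN

`ekCoreC162 : Fermat.Agent.LT.T3.M.EKCoreC`, VERBATIM the Prop of `LT/T3/M/Spec.lean`
(helper14, sha256 bf15afa4075803ee).  Mathlib + the definitions of the Spec + the one-variable
material of `LT/T3/H732/EKCore.lean` (helper732, sha256 ad6336de579f5edb, byte-identical).

Part C: `Φ` is in the span of the symmetric pure tensors (average over the swap group), and the
leaf.
-/

set_option autoImplicit false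
set_option linter.unusedSectionVars false

open MeasureTheory Finset
open scoped Classical

noncomputable section

namespace Fermat.Agent.LT.T3.M.H162

open Fermat.Agent.LT.T3.H732 Fermat.Agent.LT.T3.M Fermat.Agent.LT.T3.AS

variable {ι₁ ι₂ : Type} [Fintype ι₁] [Fintype ι₂]

/-- The sum over the swap group of a translate of `Φ₁` is a pure tensor. -/
lemma sum_act_Phi1_162 (c : Crd ι₁ ι₂) (y : Crd ι₁ ι₂) :
    ∑ s : Sw162 ι₁ ι₂, Phi1_162 (act162 s y - c)
      = (∏ i, A732 (c.1 i) (y.1 i)) * ∏ w, beta732 (c.2 w) (y.2 w) := by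
  have hA : (∏ i, A732 (c.1 i) (y.1 i))
      = ∑ s₁ : ι₁ → Bool, ∏ i, (if sw732 (s₁ i) (y.1 i) = c.1 i then (1 : ℂ) else 0) := by
    unfold A732
    rw [Fintype.prod_sum]
  have hB : (∏ w, beta732 (c.2 w) (y.2 w))
      = ∑ s₂ : ι₂ → Bool, ∏ w, B732 (sw732 (s₂ w) (y.2 w) - c.2 w) := by
    unfold beta732
    rw [Fintype.prod_sum]
  rw [hA, hB, Fintype.sum_prod_type, Finset.sum_mul_sum]
  refine Finset.sum_congr rfl fun s₁ _ => ?_
  refine Finset.sum_congr rfl fun s₂ _ => ?_
  unfold Phi1_162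
  congr 1
  have hiff : ((act162 (s₁, s₂) y - c).1 = 0) ↔ ((fun i => sw732 (s₁ i) (y.1 i)) = c.1) := by
    rw [Prod.fst_sub, sub_eq_zero]
    rfl
  by_cases h : (fun i => sw732 (s₁ i) (y.1 i)) = c.1
  · rw [if_pos (hiff.mpr h)]
    symm
    refine Finset.prod_eq_one fun i _ => ?_
    rw [if_pos (congrFun h i)]
  · rw [if_neg (fun h' => h (hiff.mp h'))]
    obtain ⟨i, hi⟩ := Function.ne_iff.mp h
    symm
    exact Finset.prod_eq_zero (Finset.mem_univ i) (by rw [if_neg hi])

/-- The pure tensor obtained by averaging a translate of `Φ₁` is symmetric. -/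
lemma isSymPureCrd_avg162 (c : Crd ι₁ ι₂) :
    IsSymPureCrd ι₁ ι₂
      (fun y => (∏ i, A732 (c.1 i) (y.1 i)) * ∏ w, beta732 (c.2 w) (y.2 w)) :=
  ⟨fun i => A732 (c.1 i), fun w => beta732 (c.2 w),
    fun i => ⟨A732_support (c.1 i), A732_symm (c.1 i)⟩,
    fun _ => ⟨contDiff_beta732 _, hasCompactSupport_beta732 _, beta732_symm _⟩, rfl⟩

lemma Phi162_eq_avg (e : ι₁ → ℕ) (ℓ : ι₂ → ℝ) (y : Crd ι₁ ι₂) :
    Phi162 e ℓ y = ∑ T : Finset (Sw162 ι₁ ι₂),
      ((-1) ^ T.card * ((Fintype.card (Sw162 ι₁ ι₂) : ℂ))⁻¹) *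
        ((∏ i, A732 ((cT162 e ℓ T).1 i) (y.1 i))
          * ∏ w, beta732 ((cT162 e ℓ T).2 w) (y.2 w)) := by
  have hcard : ((Fintype.card (Sw162 ι₁ ι₂) : ℂ)) ≠ 0 := by
    have : 0 < Fintype.card (Sw162 ι₁ ι₂) := Fintype.card_pos_iff.mpr ⟨one162 ι₁ ι₂⟩
    exact_mod_cast this.ne'
  have h1 : (Fintype.card (Sw162 ι₁ ι₂) : ℂ) * Phi162 e ℓ y
      = ∑ s : Sw162 ι₁ ι₂, Phi162 e ℓ (act162 s y) := by
    simp only [Phi162_act, Finset.sum_const, Finset.card_univ, nsmul_eq_mul]
  have h2 : ∑ s : Sw162 ι₁ ι₂, Phi162 e ℓ (act162 s y)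
      = ∑ T : Finset (Sw162 ι₁ ι₂), (-1) ^ T.card *
          ((∏ i, A732 ((cT162 e ℓ T).1 i) (y.1 i))
            * ∏ w, beta732 ((cT162 e ℓ T).2 w) (y.2 w)) := by
    unfold Phi162
    rw [Finset.sum_comm]
    refine Finset.sum_congr rfl fun T _ => ?_
    rw [← Finset.mul_sum, sum_act_Phi1_162]
  have h3 : Phi162 e ℓ y = ((Fintype.card (Sw162 ι₁ ι₂) : ℂ))⁻¹ *
      ((Fintype.card (Sw162 ι₁ ι₂) : ℂ) * Phi162 e ℓ y) := by
    field_simp
  rw [h3, h1, h2, Finset.mul_sum]
  refine Finset.sum_congr rfl fun T _ => ?_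
  ring

/-- **`Φ` is in the span of the symmetric pure tensors.** -/
theorem Phi162_mem (e : ι₁ → ℕ) (ℓ : ι₂ → ℝ) : Phi162 e ℓ ∈ SymSpanCrd ι₁ ι₂ := by
  have h : Phi162 e ℓ = ∑ T : Finset (Sw162 ι₁ ι₂),
      ((-1) ^ T.card * ((Fintype.card (Sw162 ι₁ ι₂) : ℂ))⁻¹) •
        (fun y : Crd ι₁ ι₂ =>
          (∏ i, A732 ((cT162 e ℓ T).1 i) (y.1 i))
            * ∏ w, beta732 ((cT162 e ℓ T).2 w) (y.2 w)) := by
    funext y
    rw [Phi162_eq_avg, Finset.sum_apply]
    rfl
  rw [h]
  exact Submodule.sum_mem _ fun T _ =>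
    Submodule.smul_mem _ _ (Submodule.subset_span (isSymPureCrd_avg162 _))

end Fermat.Agent.LT.T3.M.H162

namespace Fermat.Agent.LT.T3.M.H162

open Fermat.Agent.LT.T3.M

/-- **T3.18M.1 `M.EKCoreC`**, VERBATIM. -/
theorem ekCoreC162 : EKCoreC := by
  intro ι₁ ι₂ _ _ _ e ℓ he
  refine ⟨Phi162 e ℓ, ?_, fun Δ => ?_, fun z₁ z₂ h₁ h₂ hz => ?_⟩
  · convert Phi162_mem e ℓ
  · convert Phi162_hasSum e he ℓ Δ
  · convert ft_Phi162_ne_zero e ℓ h₁ h₂ hz

end Fermat.Agent.LT.T3.M.H162

end

end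
-- ===== PACK-END LT/T3/M/H162/EKCore.lean

-- ===== PACK-BEGIN LT/T3/R/NIntTop.lean
section



/-!
# Row LT, tower T3, station T3.18R (architect helper14): THE TOP of the `N`-integral, real places

OFF-MAIN.  Complete proof, nothing assumed.

`nIntR_of : N893.IwasawaFormC K → PureUpperRC K → M.OutsideCosetMC K → N893.AffineC K →
SplitRC K → M.LocValFinMC K → LocValInfRC K → ProdFormRC K → NIntRC K`
(the top `M.nIntM_of` with the real places, the type factor and the sign factor).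
-/

set_option autoImplicit false
set_option linter.style.haveILetI false

open IsDedekindDomain NumberField MeasureTheory
open Fermat.Agent.LT.H556.A0

noncomputable section

namespace Fermat.Agent.LT.T3.R

open Fermat.Agent.LT.T3.AS Fermat.Agent.LT.T3.AS.N893 Fermat.Agent.LT.T3.M

variable (K : Type) [Field K] [NumberField K]

/-- **THE TOP of the `N`-integral at real places.** -/
theorem nIntR_of (h1 : IwasawaFormC K) (h2 : PureUpperRC K) (h3 : OutsideCosetMC K)
    (h4 : AffineC K) (h5 : SplitRC K) (h6 : LocValFinMC K) (h7 : LocValInfRC K)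
    (h8 : ProdFormRC K) : NIntRC K := by
  intro hR ν hν 𝔫 P e a₀ α hfr hpos n
  letI : MeasurableSpace (Adl K) := borel (Adl K)
  obtain ⟨ν₀, hν₀, c₀, hsplit⟩ := h5 hR ν hν 𝔫 hfr.level P
  choose k₁ k' c₁ c₂ a hk₁ hk' hform using h1 α
  choose ca hca using fun g g' : G K => h4 ν hν (a g g')
  have hprodform := h8 hR 𝔫 P e a₀ α hfr
  classical
  refine ⟨fun g g' =>
      if ∃ (j : ℤ) (X : Adl K), OutsideUM K 𝔫 P
          (k₁ g g' * upperGL (c₁ g g' * T1.ratUnit K α ^ j) (c₂ g g') X * k' g g') then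
        ((typeR K hR n (k₁ g g'))⁻¹ * (typeR K hR n (k' g g'))⁻¹)
          * (ca g g' * c₀
          * (∏ v ∈ P,
              ((ν₀ v (v.adicCompletionIntegers K : Set (v.adicCompletion K))).toReal : ℂ)
              * (((Ideal.absNorm v.asIdeal : ℝ) ^
                (-(((ordA K v (c₁ g g') + ordA K v (c₂ g g') : ℤ) : ℝ)) / 2) : ℝ) : ℂ))
          * ∏ w : InfinitePlace K,
              sgnR (n w) ((reU K w (hR w) (c₁ g g') : ℝˣ) : ℝ)
                  ((reU K w (hR w) (c₂ g g') : ℝˣ) : ℝ)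
                * ((Real.sqrt (|((reU K w (hR w) (c₁ g g') : ℝˣ) : ℝ)|
                    * |((reU K w (hR w) (c₂ g g') : ℝˣ) : ℝ)|) : ℝ) : ℂ))
      else 0,
    fun g g' => ((fun v : P => (ordA K v (c₁ g g'), ordA K v (c₂ g g'))),
      fun w => (Real.log |((reU K w (hR w) (c₁ g g') : ℝˣ) : ℝ)|,
        Real.log |((reU K w (hR w) (c₂ g g') : ℝˣ) : ℝ)|)), ?_⟩
  intro A β f₀ F hf₀ hRs hSat hF hAb g g' j
  obtain ⟨r, hr⟩ := hform g g' j
  -- the pure tensor in upper triangular form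
  have hP : ∀ x : Adl K, pureFnR K hR 𝔫 P f₀ F (g⁻¹ * unip K x * torK K α ^ j * g')
      = (if OutsideUM K 𝔫 P (k₁ g g' * upperGL (c₁ g g' * T1.ratUnit K α ^ j) (c₂ g g')
            ((a g g' : Adl K) * x + r) * k' g g') then (1 : ℂ) else 0)
        * ((typeR K hR n (k₁ g g'))⁻¹ * (typeR K hR n (k' g g'))⁻¹)
        * (∏ v ∈ P, f₀ v (upperGL (finU K v (c₁ g g' * T1.ratUnit K α ^ j))
            (finU K v (c₂ g g')) (finHom K v ((a g g' : Adl K) * x + r))))
        * ∏ w : InfinitePlace K, F w (upperGL (reU K w (hR w) (c₁ g g' * T1.ratUnit K α ^ j))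
            (reU K w (hR w) (c₂ g g')) (reHom K w (hR w) ((a g g' : Adl K) * x + r))) := by
    intro x
    rw [hr x]
    exact h2 hR 𝔫 P n f₀ F hf₀ hF (k₁ g g') (k' g g') (hk₁ g g') (hk' g g') _ _ _
  beta_reduce
  rw [pureCoordM_shift K P A β (fun v => ordA K v (c₁ g g')) (fun v => ordA K v (c₂ g g'))]
  by_cases hex : ∃ (j : ℤ) (X : Adl K), OutsideUM K 𝔫 P
      (k₁ g g' * upperGL (c₁ g g' * T1.ratUnit K α ^ j) (c₂ g g') X * k' g g')
  · rw [if_pos hex]
    obtain ⟨j₀, X₀, hX₀⟩ := hex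
    -- the condition outside `S'` is the indicator of a coset
    have hind : ∀ X : Adl K,
        (if OutsideUM K 𝔫 P (k₁ g g' * upperGL (c₁ g g' * T1.ratUnit K α ^ j) (c₂ g g') X
            * k' g g') then (1 : ℂ) else 0)
          = (outGrpM K 𝔫 P).indicator (fun _ => (1 : ℂ)) (X - X₀) := by
      intro X
      have hiff := h3 𝔫 P e a₀ α hfr (k₁ g g') (k' g g') (hk₁ g g') (hk' g g')
        (c₁ g g') (c₂ g g') j₀ j X₀ X hX₀
      by_cases hO : OutsideUM K 𝔫 P (k₁ g g' * upperGL (c₁ g g' * T1.ratUnit K α ^ j)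
          (c₂ g g') X * k' g g')
      · rw [if_pos hO, Set.indicator_of_mem (hiff.1 hO)]
      · rw [if_neg hO, Set.indicator_of_notMem (fun h => hO (hiff.2 h))]
    -- the local functions
    set φ₀ : ∀ v : HeightOneSpectrum (𝓞 K), v.adicCompletion K → ℂ := fun v x =>
      f₀ v (upperGL (finU K v (c₁ g g' * T1.ratUnit K α ^ j)) (finU K v (c₂ g g'))
        (x + finHom K v X₀)) with hφ₀
    set φ : InfinitePlace K → ℝ → ℂ := fun w z =>
      F w (upperGL (reU K w (hR w) (c₁ g g' * T1.ratUnit K α ^ j)) (reU K w (hR w) (c₂ g g'))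
        (z + reHom K w (hR w) X₀)) with hφ
    set Q : Adl K → ℂ := fun Y => (outGrpM K 𝔫 P).indicator (fun _ => (1 : ℂ)) Y
      * (∏ v ∈ P, φ₀ v (finHom K v Y))
      * ∏ w : InfinitePlace K, φ w (reHom K w (hR w) Y) with hQ
    set ty : ℂ := (typeR K hR n (k₁ g g'))⁻¹ * (typeR K hR n (k' g g'))⁻¹ with hty
    have hPQ : (fun x : Adl K => pureFnR K hR 𝔫 P f₀ F (g⁻¹ * unip K x * torK K α ^ j * g'))
        = fun x : Adl K => ty * Q ((a g g' : Adl K) * x + (r - X₀)) := by
      funext x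
      rw [hP x, hind]
      have e1 : (a g g' : Adl K) * x + r - X₀ = (a g g' : Adl K) * x + (r - X₀) := by ring
      have e2 : (a g g' : Adl K) * x + (r - X₀) + X₀ = (a g g' : Adl K) * x + r := by ring
      simp only [hQ, hφ₀, hφ]
      rw [e1]
      have e3 : ∀ v : HeightOneSpectrum (𝓞 K),
          finHom K v ((a g g' : Adl K) * x + (r - X₀)) + finHom K v X₀
            = finHom K v ((a g g' : Adl K) * x + r) := fun v => by
        rw [← map_add, e2]
      have e4 : ∀ w : InfinitePlace K,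
          reHom K w (hR w) ((a g g' : Adl K) * x + (r - X₀)) + reHom K w (hR w) X₀
            = reHom K w (hR w) ((a g g' : Adl K) * x + r) := fun w => by
        rw [← map_add, e2]
      simp only [e3, e4]
      ring
    have hl := fun (v : HeightOneSpectrum (𝓞 K)) (hv : v ∈ P) =>
      h6 𝔫 P e a₀ α hfr v hv (ν₀ v) (hν₀ v) (f₀ v) (A v) (hf₀ v hv) (hRs v hv) (hSat v hv)
        (c₁ g g') (c₂ g g') j (finHom K v X₀)
    have hw := fun w : InfinitePlace K =>
      h7 hR α hpos w (n w) (F w) (β w) (hF w) (hAb w) (c₁ g g') (c₂ g g') j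
        (reHom K w (hR w) X₀)
    obtain ⟨hQi, hQv⟩ := hsplit φ₀ φ (fun v hv => (hl v hv).1) (fun v hv => (hl v hv).2.1)
      (fun w => (hw w).1) (fun w => (hw w).2.1)
    obtain ⟨hPi, hPv⟩ := hca g g' (r - X₀) Q hQi
    rw [hPQ]
    refine ⟨hPi.const_mul ty, ?_⟩
    rw [integral_const_mul, hPv, hQv, mul_assoc ty]
    congr 1
    have hwv : ∀ w : InfinitePlace K, ∫ z : ℝ, φ w z
        = sgnR (n w) ((reU K w (hR w) (c₁ g g') : ℝˣ) : ℝ)
              ((reU K w (hR w) (c₂ g g') : ℝˣ) : ℝ)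
          * ((Real.sqrt (|((reU K w (hR w) (c₁ g g') : ℝˣ) : ℝ)|
                * |((reU K w (hR w) (c₂ g g') : ℝˣ) : ℝ)|)
              * Real.sqrt (w (α : K)) ^ j : ℝ) : ℂ)
          * β w (Real.log |((reU K w (hR w) (c₁ g g') : ℝˣ) : ℝ)|
                + j * Real.log (w (α : K)),
              Real.log |((reU K w (hR w) (c₂ g g') : ℝˣ) : ℝ)|) := fun w => (hw w).2.2
    simp_rw [hwv]
    rw [Finset.prod_congr rfl fun v hv => (hl v hv).2.2]
    have hpf : (∏ v ∈ P, (((Ideal.absNorm v.asIdeal : ℝ) ^ (-(e v : ℝ) / 2) : ℝ) : ℂ))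
        * ∏ w : InfinitePlace K, ((Real.sqrt (w (α : K)) : ℝ) : ℂ) = 1 := by
      rw [← Complex.ofReal_prod, ← Complex.ofReal_prod, ← Complex.ofReal_mul, hprodform,
        Complex.ofReal_one]
    have key := top_algebraM (HeightOneSpectrum (𝓞 K)) (InfinitePlace K) P (ca g g') c₀
      (fun v => ((ν₀ v (v.adicCompletionIntegers K : Set (v.adicCompletion K))).toReal : ℂ))
      (fun v => (((Ideal.absNorm v.asIdeal : ℝ) ^
          (-(((ordA K v (c₁ g g') + ordA K v (c₂ g g') : ℤ) : ℝ)) / 2) : ℝ) : ℂ))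
      (fun v => (((Ideal.absNorm v.asIdeal : ℝ) ^ (-(e v : ℝ) / 2) : ℝ) : ℂ))
      (fun v => A v (ordA K v (c₁ g g') + j * e v, ordA K v (c₂ g g')))
      (fun w => sgnR (n w) ((reU K w (hR w) (c₁ g g') : ℝˣ) : ℝ)
            ((reU K w (hR w) (c₂ g g') : ℝˣ) : ℝ)
          * ((Real.sqrt (|((reU K w (hR w) (c₁ g g') : ℝˣ) : ℝ)|
                * |((reU K w (hR w) (c₂ g g') : ℝˣ) : ℝ)|) : ℝ) : ℂ))
      (fun w => ((Real.sqrt (w (α : K)) : ℝ) : ℂ))
      (fun w => β w (Real.log |((reU K w (hR w) (c₁ g g') : ℝˣ) : ℝ)|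
            + j * Real.log (w (α : K)),
          Real.log |((reU K w (hR w) (c₂ g g') : ℝˣ) : ℝ)|)) j hpf
    rw [← key]
    congr 2
    · congr 1
      refine Finset.prod_congr rfl fun v _ => ?_
      push_cast
      ring
    · refine Finset.prod_congr rfl fun w _ => ?_
      push_cast
      ring
  · rw [if_neg hex, zero_mul]
    have hzero : (fun x : Adl K => pureFnR K hR 𝔫 P f₀ F (g⁻¹ * unip K x * torK K α ^ j * g'))
        = fun _ => (0 : ℂ) := by
      funext x
      rw [hP x, if_neg (fun h => hex ⟨j, _, h⟩)]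
      simp
    rw [hzero]
    exact ⟨integrable_zero _ _ _, integral_zero _ _⟩

end Fermat.Agent.LT.T3.R

end

end
-- ===== PACK-END LT/T3/R/NIntTop.lean

-- ===== PACK-BEGIN LT/T3/R/Top.lean
section



/-!
# Row LT, tower T3, station T3.18R (architect helper14): THE PROVED TOPS

OFF-MAIN.  Complete proofs, nothing assumed.

* `abelSatakeR_of : AS.SatakeLocC K → AbelRealC → M.FtPureC → PureRegRC K → NIntRC K → ROpRC K →
  AbelSatakeRC K`;
* `ekOpExistR_of : AbelSatakeRC K → M.EKCoreC → InScalarUnifC K → EKKillC K → EKStarC K →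
  InAddHaarC K → TypeRC K → EKOpExistRC K`;
* `ekOpExistMeanR_of : EKOpExistRC K → MeanActsRC → LocOfMeanRC K → InHaarRC → EKOpExistMeanRC K`.
-/

set_option autoImplicit false
set_option linter.style.haveILetI false

open IsDedekindDomain NumberField MeasureTheory
open Fermat.Agent.LT.H556.A0

noncomputable section

namespace Fermat.Agent.LT.T3.R

open Fermat.Agent.LT.T3.AS Fermat.Agent.LT.T3.M

/-- INPUT: a Haar measure of `GL₂(ℝ)` exists (`GL₂(ℝ)` is a locally compact group). -/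
def InHaarRC : Prop :=
  letI : MeasurableSpace (GL (Fin 2) ℝ) := borel (GL (Fin 2) ℝ)
  ∃ μr : Measure (GL (Fin 2) ℝ), μr.IsHaarMeasure

variable (K : Type) [Field K] [NumberField K]

/-! ## 1. The induction predicate -/

/-- The induction predicate: `f` is a test function of type `typeR n` for `Φ`. -/
structure IsASPairR {mG : MeasurableSpace (G K)} {mA : MeasurableSpace (Adl K)}
    {mr : MeasurableSpace (GL (Fin 2) ℝ)}
    (hR : ∀ w : InfinitePlace K, w.IsReal)
    (μ : Measure (G K)) (μr : Measure (GL (Fin 2) ℝ)) (ν : Measure (Adl K))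
    (𝔫 : Ideal (𝓞 K)) (P : Finset (HeightOneSpectrum (𝓞 K)))
    (e : HeightOneSpectrum (𝓞 K) → ℕ) (α : Kˣ) (n : InfinitePlace K → ℤ)
    (κ : G K → G K → ℂ) (Δ : G K → G K → CoordM K P) (κ₀ : ℂ)
    (Φ : CoordM K P → ℂ) (f : G K → ℂ) : Prop where
  fin_m : ∃ M : Finset (P → ℤ × ℤ), ∀ m : P → ℤ × ℤ, m ∉ M →
    ∀ x : InfinitePlace K → ℝ × ℝ, Φ (m, x) = 0
  int_x : ∀ m : P → ℤ × ℤ, Integrable (fun x : InfinitePlace K → ℝ × ℝ => Φ (m, x))
  cont : Continuous f
  supp : HasCompactSupport f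
  smooth : IsSmoothInf K f
  bi : T5.IsBiInvariant 𝔫 (typeR K hR n) f
  supp_at : IsSuppAtM K 𝔫 P f
  pair : (Φ, f) ∈ pairSpanR K hR 𝔫 P n
  n_integrable : ∀ (g g' : G K) (j : ℤ),
    Integrable (fun x => f (g⁻¹ * unip K x * torK K α ^ j * g')) ν
  n_int : ∀ (g g' : G K) (j : ℤ),
    ∫ x, f (g⁻¹ * unip K x * torK K α ^ j * g') ∂ν
      = κ g g' * Φ (Δ g g' + j • coordTorM K P e α)
  gen : ∀ (𝒞 : InfinitePlace K → Set (GL (Fin 2) ℝ → ℂ)) (κr : InfinitePlace K → ℂ),
    (∀ w, IsScalarClassR μr (n w) (𝒞 w)) →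
    ∃ c : (HeightOneSpectrum (𝓞 K) → ℂ) → (HeightOneSpectrum (𝓞 K) → ℂ) → ℂ,
      ((∀ w, HasAbelScalarR μr (n w) (𝒞 w) (κr w)) →
        ∀ z₁ z₂ : HeightOneSpectrum (𝓞 K) → ℂ,
          c z₁ z₂ = κ₀ * (∏ w, κr w) * ftCoordM K P Φ z₁ z₂) ∧
      ∀ φ : G K → ℂ, IsClassLevelR K hR 𝔫 𝒞 φ →
      ∀ a b z₁ z₂ : HeightOneSpectrum (𝓞 K) → ℂ,
        (∀ v ∈ P, IsHeckeEigenAt φ v (a v) (b v)) →
        (∀ v ∈ P, z₁ v + z₂ v = a v) → (∀ v ∈ P, z₁ v * z₂ v = b v) →
        (∀ v ∈ P, b v ≠ 0) →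
        ∀ g : G K, Rop K μ f φ g = c z₁ z₂ * φ g

variable {K}

section Linear

variable {mG : MeasurableSpace (G K)} {mA : MeasurableSpace (Adl K)}
  {mr : MeasurableSpace (GL (Fin 2) ℝ)}
  {hR : ∀ w : InfinitePlace K, w.IsReal}
  {μ : Measure (G K)} {μr : Measure (GL (Fin 2) ℝ)} {ν : Measure (Adl K)} {𝔫 : Ideal (𝓞 K)}
  {P : Finset (HeightOneSpectrum (𝓞 K))} {e : HeightOneSpectrum (𝓞 K) → ℕ}
  {α : Kˣ} {n : InfinitePlace K → ℤ} {κ : G K → G K → ℂ} {Δ : G K → G K → CoordM K P} {κ₀ : ℂ}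

theorem IsASPairR.zero : IsASPairR K hR μ μr ν 𝔫 P e α n κ Δ κ₀ 0 0 where
  fin_m := ⟨∅, fun _ _ _ => rfl⟩
  int_x := fun m => by
    have : (fun x : InfinitePlace K → ℝ × ℝ => (0 : CoordM K P → ℂ) (m, x)) = fun _ => 0 := rfl
    rw [this]
    exact integrable_zero _ _ _
  cont := continuous_const
  supp := HasCompactSupport.zero
  smooth := IsSmoothInf.zero
  bi :=
    { level_right := fun _ _ _ => rfl
      level_left := fun _ _ _ => rfl
      arch_right := fun _ _ _ _ => by simp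
      arch_left := fun _ _ _ _ => by simp }
  supp_at := fun _ hh => absurd rfl hh
  pair := Submodule.zero_mem _
  n_integrable := fun g g' j => by
    have : (fun x => (0 : G K → ℂ) (g⁻¹ * unip K x * torK K α ^ j * g')) = fun _ => 0 := rfl
    rw [this]
    exact integrable_zero _ _ _
  n_int := fun g g' j => by simp
  gen := fun _ _ _ => ⟨fun _ _ => 0, fun _ z₁ z₂ => by simp [ftCoordM, ftCrd_zero],
    fun φ _ a b z₁ z₂ _ _ _ _ g => by simp [Rop]⟩

theorem IsASPairR.add [OpensMeasurableSpace (G K)] [IsFiniteMeasureOnCompacts μ]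
    {Φ₁ Φ₂ : CoordM K P → ℂ} {f₁ f₂ : G K → ℂ}
    (h₁ : IsASPairR K hR μ μr ν 𝔫 P e α n κ Δ κ₀ Φ₁ f₁)
    (h₂ : IsASPairR K hR μ μr ν 𝔫 P e α n κ Δ κ₀ Φ₂ f₂) :
    IsASPairR K hR μ μr ν 𝔫 P e α n κ Δ κ₀ (Φ₁ + Φ₂) (f₁ + f₂) where
  fin_m := by
    classical
    obtain ⟨M₁, hM₁⟩ := h₁.fin_m
    obtain ⟨M₂, hM₂⟩ := h₂.fin_m
    refine ⟨M₁ ∪ M₂, fun m hm x => ?_⟩
    rw [Finset.mem_union, not_or] at hm
    simp [hM₁ m hm.1 x, hM₂ m hm.2 x]
  int_x := fun m => (h₁.int_x m).add (h₂.int_x m)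
  cont := h₁.cont.add h₂.cont
  supp := h₁.supp.add h₂.supp
  smooth := h₁.smooth.add h₂.smooth
  bi :=
    { level_right := fun u hu g => by
        simp only [Pi.add_apply, h₁.bi.level_right u hu g, h₂.bi.level_right u hu g]
      level_left := fun u hu g => by
        simp only [Pi.add_apply, h₁.bi.level_left u hu g, h₂.bi.level_left u hu g]
      arch_right := fun w k hk g => by
        simp only [Pi.add_apply, h₁.bi.arch_right w k hk g, h₂.bi.arch_right w k hk g]
        ring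
      arch_left := fun w k hk g => by
        simp only [Pi.add_apply, h₁.bi.arch_left w k hk g, h₂.bi.arch_left w k hk g]
        ring }
  supp_at := fun h hh => by
    by_cases h1 : f₁ h = 0
    · have h2 : f₂ h ≠ 0 := fun h2 => hh (by simp [h1, h2])
      exact h₂.supp_at h h2
    · exact h₁.supp_at h h1
  pair := by
    have := Submodule.add_mem _ h₁.pair h₂.pair
    exact this
  n_integrable := fun g g' j => (h₁.n_integrable g g' j).add (h₂.n_integrable g g' j)
  n_int := fun g g' j => by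
    simp only [Pi.add_apply]
    rw [integral_add (h₁.n_integrable g g' j) (h₂.n_integrable g g' j), h₁.n_int, h₂.n_int]
    ring
  gen := fun 𝒞 κr h𝒞 => by
    obtain ⟨c₁, hc₁, ho₁⟩ := h₁.gen 𝒞 κr h𝒞
    obtain ⟨c₂, hc₂, ho₂⟩ := h₂.gen 𝒞 κr h𝒞
    refine ⟨fun z₁ z₂ => c₁ z₁ z₂ + c₂ z₁ z₂, fun hκ z₁ z₂ => ?_,
      fun φ hφ a b z₁ z₂ he hz₁ hz₂ hb g => ?_⟩
    · show c₁ z₁ z₂ + c₂ z₁ z₂ = _
      rw [hc₁ hκ z₁ z₂, hc₂ hκ z₁ z₂]
      unfold ftCoordM
      rw [ftCrd_add h₁.fin_m h₂.fin_m h₁.int_x h₂.int_x]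
      ring
    · have e₁ := ho₁ φ hφ a b z₁ z₂ he hz₁ hz₂ hb g
      have e₂ := ho₂ φ hφ a b z₁ z₂ he hz₁ hz₂ hb g
      unfold Rop at e₁ e₂ ⊢
      have : (fun h => φ (g * h) * (f₁ + f₂) h)
          = fun h => φ (g * h) * f₁ h + φ (g * h) * f₂ h := by
        funext h
        simp only [Pi.add_apply]
        ring
      rw [this, integral_add (rop_integrable μ hφ.cont h₁.cont h₁.supp g)
        (rop_integrable μ hφ.cont h₂.cont h₂.supp g), e₁, e₂]
      ring

theorem IsASPairR.smul {Φ : CoordM K P → ℂ} {f : G K → ℂ}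
    (h : IsASPairR K hR μ μr ν 𝔫 P e α n κ Δ κ₀ Φ f) (c : ℂ) :
    IsASPairR K hR μ μr ν 𝔫 P e α n κ Δ κ₀ (c • Φ) (c • f) where
  fin_m := by
    obtain ⟨M, hM⟩ := h.fin_m
    exact ⟨M, fun m hm x => by simp [hM m hm x]⟩
  int_x := fun m => (h.int_x m).const_mul c
  cont := h.cont.const_smul c
  supp := h.supp.mono fun x hx => by
    rw [Function.mem_support] at hx ⊢
    intro h0
    exact hx (by simp [h0])
  smooth := h.smooth.smul c
  bi :=
    { level_right := fun u hu g => by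
        simp only [Pi.smul_apply, h.bi.level_right u hu g]
      level_left := fun u hu g => by
        simp only [Pi.smul_apply, h.bi.level_left u hu g]
      arch_right := fun w k hk g => by
        simp only [Pi.smul_apply, smul_eq_mul, h.bi.arch_right w k hk g]
        ring
      arch_left := fun w k hk g => by
        simp only [Pi.smul_apply, smul_eq_mul, h.bi.arch_left w k hk g]
        ring }
  supp_at := fun y hy => by
    have h1 : f y ≠ 0 := fun h1 => hy (by simp [h1])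
    exact h.supp_at y h1
  pair := by
    have := Submodule.smul_mem _ c h.pair
    exact this
  n_integrable := fun g g' j => (h.n_integrable g g' j).const_mul c
  n_int := fun g g' j => by
    simp only [Pi.smul_apply, smul_eq_mul]
    rw [integral_const_mul, h.n_int]
    ring
  gen := fun 𝒞 κr h𝒞 => by
    obtain ⟨c₁, hc₁, ho₁⟩ := h.gen 𝒞 κr h𝒞
    refine ⟨fun z₁ z₂ => c * c₁ z₁ z₂, fun hκ z₁ z₂ => ?_,
      fun φ hφ a b z₁ z₂ he hz₁ hz₂ hb g => ?_⟩
    · show c * c₁ z₁ z₂ = _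
      rw [hc₁ hκ z₁ z₂]
      unfold ftCoordM
      rw [ftCrd_smul]
      ring
    · have e₁ := ho₁ φ hφ a b z₁ z₂ he hz₁ hz₂ hb g
      unfold Rop at e₁ ⊢
      have : (fun y => φ (g * y) * (c • f) y) = fun y => c * (φ (g * y) * f y) := by
        funext y
        simp only [Pi.smul_apply, smul_eq_mul]
        ring
      rw [this, integral_const_mul, e₁]
      ring

end Linear

/-! ## 2. The top of the Abel--Satake pair -/

variable (K)

/-- **The Abel--Satake pair at real places: the top.** -/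
theorem abelSatakeR_of (h1 : SatakeLocC K) (h2 : AbelRealC) (hft : FtPureC)
    (h3 : PureRegRC K) (h4 : NIntRC K) (h5 : ROpRC K) : AbelSatakeRC K := by
  let _ : MeasurableSpace (Adl K) := borel (Adl K)
  let _ : MeasurableSpace (G K) := borel (G K)
  let _ : MeasurableSpace (GL (Fin 2) ℝ) := borel (GL (Fin 2) ℝ)
  have _ : BorelSpace (G K) := ⟨rfl⟩
  intro hR μ hμ μr hμr ν hν 𝔫 P e a₀ α hfr hpos n hn
  obtain ⟨κ, Δ, hN⟩ := h4 hR ν hν 𝔫 P e a₀ α hfr hpos n
  obtain ⟨κ₁, hκ₁, hRop⟩ := h5 hR μ hμ μr hμr 𝔫 hfr.level P hfr.prime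
  refine ⟨κ, Δ, κ₁, hκ₁, ?_⟩
  intro Φ hΦ
  suffices h : ∃ f : G K → ℂ, IsASPairR K hR μ μr ν 𝔫 P e α n κ Δ κ₁ Φ f by
    obtain ⟨f, hf⟩ := h
    exact ⟨f, hf.cont, hf.supp, hf.smooth, hf.bi, hf.supp_at, hf.pair, hf.n_int, hf.gen⟩
  induction hΦ using Submodule.span_induction with
  | zero => exact ⟨0, IsASPairR.zero⟩
  | add Φ₁ Φ₂ _ _ ih₁ ih₂ =>
    obtain ⟨f₁, hf₁⟩ := ih₁
    obtain ⟨f₂, hf₂⟩ := ih₂
    exact ⟨f₁ + f₂, hf₁.add hf₂⟩
  | smul c Φ _ ih =>
    obtain ⟨f, hf⟩ := ih
    exact ⟨c • f, hf.smul c⟩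
  | mem Φ hΦ =>
    classical
    obtain ⟨A', β, hA', hβ, hΦ⟩ := hΦ
    -- the total family of Satake coefficients
    set A : HeightOneSpectrum (𝓞 K) → ℤ × ℤ → ℂ :=
      fun v => if h : v ∈ P then A' ⟨v, h⟩ else 0 with hAdef
    have hAA' : (fun v : P => A v) = A' := by
      funext v
      simp only [hAdef, dif_pos v.2, Subtype.coe_eta]
    have hAsym : ∀ v, IsSymFin (A v) := by
      intro v
      by_cases hv : v ∈ P
      · simp only [hAdef, dif_pos hv]
        exact hA' ⟨v, hv⟩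
      · simp only [hAdef, dif_neg hv]
        exact ⟨by simp, fun _ _ => rfl⟩
    have hΦ' : Φ = pureCoordM K P A β := by
      rw [hΦ]
      unfold pureCoordM
      rw [hAA']
    subst hΦ'
    choose f₀ hpair using fun v : HeightOneSpectrum (𝓞 K) => h1 v (A v) (hAsym v)
    choose F hF1 hF2 using fun w : InfinitePlace K => h2 (n w) (hn w) (β w) (hβ w)
    obtain ⟨r1, r2, r3, r4, r5⟩ := h3 hR 𝔫 hfr.level P hfr.prime n f₀ F
      (fun v _ => (hpair v).bi_inv) (fun v _ => (hpair v).fin_supp) hF1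
    have hNN := hN A β f₀ F (fun v _ => (hpair v).bi_inv) (fun v _ => (hpair v).fin_supp)
      (fun v _ => (hpair v).n_int) hF1 hF2
    have hft' : ∀ z₁ z₂ : HeightOneSpectrum (𝓞 K) → ℂ,
        ftCoordM K P (pureCoordM K P A β) z₁ z₂
          = (∏ v ∈ P, laurent (A v) (z₁ v) (z₂ v)) * ∏ w : InfinitePlace K, ∫ x : ℝ × ℝ, β w x := by
      intro z₁ z₂
      unfold ftCoordM pureCoordM
      rw [hft P (InfinitePlace K) (fun v : P => A v) β (fun i => (hAsym i).1)
        (fun v : P => z₁ v) (fun v : P => z₂ v),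
        Finset.prod_coe_sort P (fun v => laurent (A v) (z₁ v) (z₂ v))]
    refine ⟨pureFnR K hR 𝔫 P f₀ F,
      { fin_m := ⟨Fintype.piFinset fun i : P => (hAsym i).1.toFinset, fun m hm x => ?_⟩
        int_x := fun m => ?_
        cont := r1
        supp := r2
        smooth := r3
        bi := r4
        supp_at := r5
        pair := Submodule.subset_span
          ⟨A, β, f₀, F, hAsym, hβ, fun v _ => hpair v, hF1, hF2, rfl⟩
        n_integrable := fun g g' j => (hNN g g' j).1
        n_int := fun g g' j => (hNN g g' j).2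
        gen := fun 𝒞 κr h𝒞 => ?_ }⟩
    · rw [Fintype.mem_piFinset, not_forall] at hm
      obtain ⟨i, hi⟩ := hm
      rw [Set.Finite.mem_toFinset, Function.mem_support, not_not] at hi
      have : ∏ v : P, A v (m v) = 0 := Finset.prod_eq_zero (Finset.mem_univ i) hi
      show (∏ v : P, A v (m v)) * ∏ w : InfinitePlace K, β w (x w) = 0
      rw [this, zero_mul]
    · have : (fun x : InfinitePlace K → ℝ × ℝ => pureCoordM K P A β (m, x))
          = fun x => (∏ v : P, A v (m v)) * ∏ w : InfinitePlace K, β w (x w) := rfl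
      rw [this]
      refine Integrable.const_mul ?_ _
      exact Integrable.fintype_prod (f := β) (μ := fun _ => volume) fun w =>
        (hβ w).1.continuous.integrable_of_hasCompactSupport (hβ w).2.1
    · -- the scalars at the real places
      choose Cg hCg using fun w : InfinitePlace K => h𝒞 w (F w) (hF1 w)
      set Cw : InfinitePlace K → ℂ := fun w =>
        if HasAbelScalarR μr (n w) (𝒞 w) (κr w) then κr w * ∫ x : ℝ × ℝ, β w x else Cg w
        with hCw
      have hCwa : ∀ w : InfinitePlace K, ActsOnR μr (F w) (𝒞 w) (Cw w) := by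
        intro w
        by_cases hm : HasAbelScalarR μr (n w) (𝒞 w) (κr w)
        · simp only [hCw, if_pos hm]
          exact hm (F w) (β w) (hF1 w) (hF2 w)
        · simp only [hCw, if_neg hm]
          exact hCg w
      refine ⟨fun z₁ z₂ => κ₁ * (∏ v ∈ P, laurent (A v) (z₁ v) (z₂ v))
          * ∏ w : InfinitePlace K, Cw w, fun hκ z₁ z₂ => ?_,
        fun φ hφ a b z₁ z₂ he hz₁ hz₂ hb g => ?_⟩
      · have e1 : ∀ w : InfinitePlace K, Cw w = κr w * ∫ x : ℝ × ℝ, β w x := fun w => by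
          simp only [hCw, if_pos (hκ w)]
        show κ₁ * (∏ v ∈ P, laurent (A v) (z₁ v) (z₂ v)) * ∏ w : InfinitePlace K, Cw w = _
        simp only [e1]
        rw [hft' z₁ z₂, Finset.prod_mul_distrib]
        ring
      · exact hRop n A Cw 𝒞 f₀ F (fun v _ => (hpair v).bi_inv)
          (fun v _ => (hpair v).fin_supp) (fun v _ => (hpair v).eigen) hF1 hCwa φ hφ
          a b z₁ z₂ he hz₁ hz₂ hb g

/-! ## 3. The Eisenstein-killing test function -/

/-- **THE OUTPUT of station T3.18R: the top.** -/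
theorem ekOpExistR_of (hAS : AbelSatakeRC K) (hcore : EKCoreC) (hSU : InScalarUnifC K)
    (hk : EKKillC K) (hs : EKStarC K) (hν : InAddHaarC K) (hty : TypeRC K) :
    EKOpExistRC K := by
  let _ : MeasurableSpace (Adl K) := borel (Adl K)
  let _ : MeasurableSpace (G K) := borel (G K)
  let _ : MeasurableSpace (GL (Fin 2) ℝ) := borel (GL (Fin 2) ℝ)
  intro hR μ hμ μr hμr 𝔫 P e a₀ h𝔫 hP hPe hspan hmem hpos n hn
  obtain ⟨ν, hνH⟩ := hν
  have ha₀ : algebraMap (𝓞 K) K a₀ ≠ 0 := by
    intro h0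
    have h0' : a₀ = 0 :=
      (map_eq_zero_iff (algebraMap (𝓞 K) K) (FaithfulSMul.algebraMap_injective (𝓞 K) K)).1 h0
    rw [h0'] at hspan
    have hbot : (∏ v ∈ P, v.asIdeal ^ e v) = ⊥ := by rw [← hspan]; simp
    rw [← Ideal.zero_eq_bot, Finset.prod_eq_zero_iff] at hbot
    obtain ⟨v, hvP, hv⟩ := hbot
    exact v.ne_bot ((pow_eq_zero_iff (Nat.pos_iff_ne_zero.1 (hPe v hvP).2)).1 hv)
  set α : Kˣ := Units.mk0 _ ha₀ with hα
  have hfr : FrameM K 𝔫 P e a₀ α :=
    ⟨h𝔫, hP, fun v hv => (hPe v hv).1, fun v hv => (hPe v hv).2, hspan, hmem, rfl⟩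
  have hposα : IsTotPos K hR α := fun w => hpos w
  obtain ⟨κ, Δ, κ₀, hκ₀, hΦall⟩ := hAS hR μ hμ μr hμr ν hνH 𝔫 P e a₀ α hfr hposα n hn
  haveI : Nonempty P := hP.to_subtype
  obtain ⟨Φ, hΦmem, hΦsum, hΦft⟩ :=
    hcore P (InfinitePlace K) (fun v : P => e v) (fun w => Real.log (w (α : K)))
      (fun v => hfr.pos v v.2)
  obtain ⟨f, hf, hfc, hsm, hbi, hsupp, -, hfi, hgen⟩ := hΦall Φ hΦmem
  have hEK : IsEK K ν f α := by
    intro g g'
    have h1 : (fun j : ℤ => ∫ x, f (g⁻¹ * unip K x * torK K α ^ j * g') ∂ν)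
        = fun j : ℤ => κ g g' * Φ (Δ g g' + j • coordTorM K P e α) := by
      funext j
      exact hfi g g' j
    rw [h1]
    have h2 := (hΦsum (Δ g g')).mul_left (κ g g')
    rw [mul_zero] at h2
    exact h2
  have hstar : IsEK K ν (starG K f) α := hs ν hνH _ f hf hfc hEK
  have hsc : Continuous (starG K f) := by
    unfold starG
    exact (Complex.continuous_conj).comp (hf.comp continuous_inv)
  have hscc : HasCompactSupport (starG K f) := by
    unfold starG
    have h1 : HasCompactSupport (fun h : G K => f h⁻¹) := by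
      have := hfc.comp_homeomorph (Homeomorph.inv (G K))
      simpa [Function.comp_def] using this
    exact h1.comp_left (g := (starRingEnd ℂ)) (map_zero _)
  refine ⟨f, ⟨hty hR n, hf, hfc, hsm, hbi⟩,
    isEK_T5 K (ekOp_of_int K hk hμ hνH hf hfc hEK),
    isEK_T5 K (ekOp_of_int K hk hμ hνH hsc hscc hstar), hsupp, ?_⟩
  intro 𝒞 κr h𝒞
  obtain ⟨c₀, hc₀, hop⟩ := hgen 𝒞 κr h𝒞
  classical
  refine ⟨fun a b => if ∃ v ∈ P, b v = 0 then 1 else
    c₀ (fun v => H732.root1_732 (a v) (b v)) (fun v => H732.root2_732 (a v) (b v)), ?_, ?_⟩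
  · intro hκ hκne a b hgood
    by_cases hb : ∃ v ∈ P, b v = 0
    · simp only [if_pos hb]
      exact one_ne_zero
    · simp only [if_neg hb]
      simp only [not_exists, not_and] at hb
      rw [hc₀ hκ _ _]
      have hr₁ : ∀ v : P, H732.root1_732 (a v) (b v) ≠ 0 := fun v h =>
        hb v v.2 (by rw [← (H732.roots_spec732 (a v) (b v)).2, h, zero_mul])
      have hr₂ : ∀ v : P, H732.root2_732 (a v) (b v) ≠ 0 := fun v h =>
        hb v v.2 (by rw [← (H732.roots_spec732 (a v) (b v)).2, h, mul_zero])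
      refine mul_ne_zero (mul_ne_zero hκ₀ (Finset.prod_ne_zero_iff.2 fun w _ => hκne w))
        (hΦft _ _ hr₁ hr₂ ?_)
      intro z hz
      have key := hgood (fun v => if h : v ∈ P then z ⟨v, h⟩ else 0) ?_
      · rw [← Finset.prod_coe_sort P] at key
        have e1 : ∀ v : P, (if h : (v : HeightOneSpectrum (𝓞 K)) ∈ P then
            z ⟨v, h⟩ else 0) = z v := fun v => by
          simp only [dif_pos v.2, Subtype.coe_eta]
        simpa only [e1] using key
      · intro v hv
        simp only [dif_pos hv]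
        obtain ⟨hs', hp'⟩ := H732.roots_spec732 (a v) (b v)
        rcases hz ⟨v, hv⟩ with h | h
        · rw [h]
          linear_combination (H732.root1_732 (a v) (b v)) * hs' - hp'
        · rw [h]
          linear_combination (H732.root2_732 (a v) (b v)) * hs' - hp'
  · intro φ hφ a b hecke g
    have hRT : T5.Rconv μ f φ g = Rop K μ f φ g := by
      unfold Rop T5.Rconv
      refine integral_congr_ae (Filter.Eventually.of_forall fun y => ?_)
      exact mul_comm _ _
    rw [hRT]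
    by_cases hb : ∃ v ∈ P, b v = 0
    · simp only [if_pos hb, one_mul]
      obtain ⟨v, hv, hbv⟩ := hb
      have hecke' := hecke v hv
      rw [hbv] at hecke'
      have hzero : ∀ g : G K, φ g = 0 := H732.eq_zero_of_b_eq_zero732 K hSU hecke'
      rw [hzero g]
      unfold Rop
      simp only [hzero, zero_mul, integral_zero]
    · simp only [if_neg hb]
      simp only [not_exists, not_and] at hb
      exact hop φ hφ a b _ _ hecke (fun v _ => (H732.roots_spec732 (a v) (b v)).1)
        (fun v _ => (H732.roots_spec732 (a v) (b v)).2) hb g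

/-- **The output for the joint eigenfunctions of the circle means: the top.** -/
theorem ekOpExistMeanR_of (h : EKOpExistRC K) (hM : MeanActsRC) (hL : LocOfMeanRC K)
    (hH : InHaarRC) : EKOpExistMeanRC K := by
  let _ : MeasurableSpace (G K) := borel (G K)
  let _ : MeasurableSpace (GL (Fin 2) ℝ) := borel (GL (Fin 2) ℝ)
  intro hR μ hμ 𝔫 P e a₀ h𝔫 hP hPe hspan hmem hpos n hn
  obtain ⟨μr, hμr⟩ := hH
  obtain ⟨f, h1, h2, h3, h4, hact⟩ :=
    h hR μ hμ μr hμr 𝔫 P e a₀ h𝔫 hP hPe hspan hmem hpos n hn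
  choose c _ hc using fun m : InfinitePlace K → ℝ → ℂ =>
    hact (fun w => locClassR (n w) (m w)) (fun _ => 0) (fun w => hM μr hμr (n w) (hn w) (m w))
  exact ⟨f, h1, h2, h3, h4, fun a b m => c m a b,
    fun φ m hφ a b he g => hc m φ (hL hR 𝔫 n m φ hφ) a b he g⟩

end Fermat.Agent.LT.T3.R

end

end
-- ===== PACK-END LT/T3/R/Top.lean

-- ===== PACK-BEGIN LT/T6/H888/SphVolterra.lean
section



/-!
# Row LT, tower T6, leaf T6.22.D (helper888): `sphVolterraC888 : SphVolterraC888`
-/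

set_option autoImplicit false

open MeasureTheory Set

noncomputable section

namespace Fermat.Agent.LT.T6.H888

open Fermat.Agent.LT.T6

theorem sqrt_cosh_sq_sub888 {t : ℝ} (ht : 0 ≤ t) :
    Real.sqrt (Real.cosh t ^ 2 - 1) = Real.sinh t := by
  have h : Real.cosh t ^ 2 - 1 = Real.sinh t ^ 2 := by
    have := Real.cosh_sq t; linarith
  rw [h, Real.sqrt_sq (Real.sinh_nonneg_iff.mpr ht)]

theorem cosh_half888 (t : ℝ) : Real.cosh t = 2 * Real.cosh (t / 2) ^ 2 - 1 := by
  have h1 := Real.cosh_two_mul (t / 2)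
  have h2 := Real.cosh_sq (t / 2)
  have e : 2 * (t / 2) = t := by ring
  rw [e] at h1
  linarith

theorem sinh_half888 (t : ℝ) : Real.sinh t = 2 * Real.sinh (t / 2) * Real.cosh (t / 2) := by
  have h1 := Real.sinh_two_mul (t / 2)
  have e : 2 * (t / 2) = t := by ring
  rw [e] at h1
  exact h1

theorem sqrt_half_add888 (t : ℝ) :
    Real.sqrt ((Real.cosh t + 1) / 2) = Real.cosh (t / 2) := by
  have h : (Real.cosh t + 1) / 2 = Real.cosh (t / 2) ^ 2 := by
    rw [cosh_half888 t]; ring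
  rw [h, Real.sqrt_sq (Real.cosh_pos _).le]

theorem sqrt_half_sub888 {t : ℝ} (ht : 0 ≤ t) :
    Real.sqrt ((Real.cosh t - 1) / 2) = Real.sinh (t / 2) := by
  have h : (Real.cosh t - 1) / 2 = Real.sinh (t / 2) ^ 2 := by
    have := Real.cosh_sq (t / 2)
    rw [cosh_half888 t]; linarith
  rw [h, Real.sqrt_sq (Real.sinh_nonneg_iff.mpr (by linarith))]

theorem cosh_half_mul_tH888 (t : ℝ) : Real.cosh (t / 2) * tH888 t = Real.sinh (t / 2) := by
  unfold tH888 wInv888
  have hc := Real.cosh_pos (t / 2)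
  have e : 1 + Real.cosh t = 2 * Real.cosh (t / 2) ^ 2 := by rw [cosh_half888 t]; ring
  rw [e, sinh_half888 t]
  field_simp

theorem sphR0_eq888 (s : ℂ) {t : ℝ} (ht : 0 ≤ t) :
    sphR0 s (Real.cosh t) = ps0_888 (-s - 1 / 2) t := by
  unfold sphR0 ps0_888
  congr 1
  apply intervalIntegral.integral_congr
  intro u _
  simp only
  rw [sqrt_cosh_sq_sub888 ht]
  exact pw_eq_cpow888 _ (eta_pos888 t u)

theorem sphR1_eq888 (s : ℂ) {t : ℝ} (ht : 0 ≤ t) :
    sphR1 s (Real.cosh t) = ((Real.cosh (t / 2) : ℝ) : ℂ) * ps1_888 (-s - 1) t := by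
  unfold sphR1 ps1_888
  have e0 : ((Real.cosh (t / 2) : ℝ) : ℂ) * (((1 / (2 * Real.pi) : ℝ) : ℂ)
        * ∫ φ in (0:ℝ)..(2 * Real.pi), s1h888 (-s - 1) t φ)
      = ((1 / (2 * Real.pi) : ℝ) : ℂ) * ∫ φ in (0:ℝ)..(2 * Real.pi),
          ((Real.cosh (t / 2) : ℝ) : ℂ) * s1h888 (-s - 1) t φ := by
    rw [intervalIntegral.integral_const_mul]; ring
  rw [e0]
  congr 1
  apply intervalIntegral.integral_congr
  intro u _
  simp only
  rw [sqrt_cosh_sq_sub888 ht, sqrt_half_add888, sqrt_half_sub888 ht]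
  have e1 : ((Real.cosh t - Real.cos u * Real.sinh t : ℝ) : ℂ) ^ (-s - 1)
      = pw888 (-s - 1) (eta888 t u) := pw_eq_cpow888 _ (eta_pos888 t u)
  rw [e1]
  unfold s1h888 s0h888 s1g888
  rw [← mul_assoc]
  congr 1
  rw [← Complex.ofReal_mul]
  congr 1
  rw [mul_sub, mul_one, mul_left_comm, cosh_half_mul_tH888]

/-- **Leaf T6.22.D.** -/
theorem sphVolterraC888 : SphVolterraC888 := by
  intro n _ s
  by_cases h0 : n = 0
  · refine ⟨ps0_888 (-s - 1 / 2), (ps0_cont888 _).continuousOn, ?_, ?_⟩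
    · intro t ht
      have e1 : sphRad n s (Real.cosh t) = sphR0 s (Real.cosh t) := by simp [sphRad, h0]
      have e2 : nrm888 n t = 1 := by simp [nrm888, h0]
      rw [e1, e2, sphR0_eq888 s ht.le]
      simp
    · intro t ht
      have e3 : lam888 n s = (-s - 1 / 2) * ((-s - 1 / 2) + 1) := by
        simp only [lam888, h0, if_true]; ring
      rw [e3, h0]
      exact sph0_volterra888 _ t ht
  · refine ⟨ps1_888 (-s - 1), (ps1_cont888 _).continuousOn, ?_, ?_⟩
    · intro t ht
      have e1 : sphRad n s (Real.cosh t) = sphR1 s (Real.cosh t) := by simp [sphRad, h0]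
      have e2 : nrm888 n t = Real.cosh (t / 2) := by simp [nrm888, h0]
      rw [e1, e2, sphR1_eq888 s ht.le]
    · intro t ht
      have e3 : lam888 n s = (-s - 1) * ((-s - 1) + 2) := by
        simp only [lam888, h0, if_false]; ring
      rw [e3]
      exact sph1_volterra888 n h0 _ t ht

end Fermat.Agent.LT.T6.H888

end

end
-- ===== PACK-END LT/T6/H888/SphVolterra.lean

-- ===== PACK-BEGIN LT/T6/H888/DbCommon.lean
section




/-!
# Row LT, tower T6, leaf T6.22.B.1 `DbSmoothC683` (helper888, spare): common facts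

`rho888 ≥ 1`, derivatives of `rho888`, the jet `(F, F', F'')` composed with `rho888`,
`tanh (u/2) = tH888 u`.
-/

set_option autoImplicit false

open MeasureTheory Set

noncomputable section

namespace Fermat.Agent.LT.T6.H888

open Fermat.Agent.LT.T6.H683

/-- `∂ρ/∂u`. -/
def rhoU888 (t u φ : ℝ) : ℝ :=
  Real.cosh t * Real.sinh u + Real.sinh t * Real.cosh u * Real.cos φ

/-- `∂ρ/∂φ`. -/
def rhoP888 (t u φ : ℝ) : ℝ := -(Real.sinh t * Real.sinh u * Real.sin φ)

theorem rho_ge_one888 (t u φ : ℝ) : 1 ≤ rho888 t u φ := by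
  unfold rho888
  have h1 := Real.one_le_cosh (t + u)
  have h2 := Real.one_le_cosh (t - u)
  rw [Real.cosh_add] at h1
  rw [Real.cosh_sub] at h2
  have h3 := Real.neg_one_le_cos φ
  have h4 := Real.cos_le_one φ
  nlinarith [mul_nonneg (by linarith : (0:ℝ) ≤ 1 + Real.cos φ)
      (by linarith : (0:ℝ) ≤ Real.cosh t * Real.cosh u + Real.sinh t * Real.sinh u - 1),
    mul_nonneg (by linarith : (0:ℝ) ≤ 1 - Real.cos φ)
      (by linarith : (0:ℝ) ≤ Real.cosh t * Real.cosh u - Real.sinh t * Real.sinh u - 1)]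

theorem rho_pos888 (t u φ : ℝ) : 0 < rho888 t u φ :=
  lt_of_lt_of_le one_pos (rho_ge_one888 t u φ)

theorem rho_at_zero888 (t φ : ℝ) : rho888 t 0 φ = Real.cosh t := by simp [rho888]

theorem rho_zero_left888 (u φ : ℝ) : rho888 0 u φ = Real.cosh u := by simp [rho888]

theorem rho_hasDerivAt888 (t u φ : ℝ) :
    HasDerivAt (fun u => rho888 t u φ) (rhoU888 t u φ) u := by
  unfold rho888 rhoU888
  have := ((Real.hasDerivAt_cosh u).const_mul (Real.cosh t)).add
    (((Real.hasDerivAt_sinh u).const_mul (Real.sinh t)).mul_const (Real.cos φ))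
  exact this

theorem rhoU_hasDerivAt888 (t u φ : ℝ) :
    HasDerivAt (fun u => rhoU888 t u φ) (rho888 t u φ) u := by
  unfold rho888 rhoU888
  have := ((Real.hasDerivAt_sinh u).const_mul (Real.cosh t)).add
    (((Real.hasDerivAt_cosh u).const_mul (Real.sinh t)).mul_const (Real.cos φ))
  exact this

theorem rho_hasDerivAt_phi888 (t u φ : ℝ) :
    HasDerivAt (fun φ => rho888 t u φ) (rhoP888 t u φ) φ := by
  unfold rho888 rhoP888
  have := ((Real.hasDerivAt_cos φ).const_mul (Real.sinh t * Real.sinh u)).const_add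
    (Real.cosh t * Real.cosh u)
  refine this.congr_deriv ?_
  ring

theorem rho_cont888 (t : ℝ) : Continuous (fun p : ℝ × ℝ => rho888 t p.1 p.2) := by
  unfold rho888; fun_prop

theorem rhoU_cont888 (t : ℝ) : Continuous (fun p : ℝ × ℝ => rhoU888 t p.1 p.2) := by
  unfold rhoU888; fun_prop

theorem rhoP_cont888 (t : ℝ) : Continuous (fun p : ℝ × ℝ => rhoP888 t p.1 p.2) := by
  unfold rhoP888; fun_prop

/-- A function which is continuous on `(0, ∞)`, composed with `ρ`, is jointly continuous. -/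
theorem comp_rho_cont888 {G : ℝ → ℝ} (hG : ContinuousOn G (Ioi 0)) (t : ℝ) :
    Continuous (fun p : ℝ × ℝ => G (rho888 t p.1 p.2)) :=
  hG.comp_continuous (rho_cont888 t) (fun p => rho_pos888 t p.1 p.2)

theorem comp_rho_cont_phi888 {G : ℝ → ℝ} (hG : ContinuousOn G (Ioi 0)) (t u : ℝ) :
    Continuous (fun φ : ℝ => G (rho888 t u φ)) :=
  (comp_rho_cont888 hG t).comp (continuous_const.prodMk continuous_id)

theorem contOn_of_hasDerivAt888 {G G' : ℝ → ℝ} (h : ∀ x : ℝ, 0 < x → HasDerivAt G (G' x) x) :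
    ContinuousOn G (Ioi 0) :=
  fun x hx => (h x hx).continuousAt.continuousWithinAt

theorem tanh_half888 (u : ℝ) : Real.tanh (u / 2) = tH888 u := by
  rw [Real.tanh_eq_sinh_div_cosh, ← cosh_half_mul_tH888 u]
  have := (Real.cosh_pos (u / 2)).ne'
  field_simp

theorem tH_zero888 : tH888 0 = 0 := by simp [tH888]

theorem tH_rel1_888 (t : ℝ) : Real.cosh t * tH888 t = Real.sinh t - tH888 t := by
  unfold tH888
  have := wInv_rel888 t
  linear_combination (Real.sinh t) * this

theorem tH_rel2_888 (t : ℝ) : Real.sinh t * tH888 t = Real.cosh t - 1 := by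
  unfold tH888 wInv888
  have h := (one_add_cosh_pos888 t).ne'
  have r := Real.cosh_sq t
  field_simp
  linarith

theorem kerW_zero888 (t u φ : ℝ) : kerW888 0 t u φ = 1 := by simp [kerW888]

theorem kerW_ne888 {n : ℤ} (hn : n ≠ 0) (t u φ : ℝ) :
    kerW888 n t u φ = 1 + tH888 t * tH888 u * Real.cos φ := by
  simp [kerW888, hn, tanh_half888]

theorem integral_cos_2pi888 : (∫ φ in (0:ℝ)..(2 * Real.pi), Real.cos φ) = 0 := by
  rw [integral_cos]; simp

end Fermat.Agent.LT.T6.H888

end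

end
-- ===== PACK-END LT/T6/H888/DbCommon.lean

-- ===== PACK-BEGIN LT/T7/H561/SpecUpSpec.lean
section



/-!
# Row LT, tower T7, node T7.L2.2 = `SpecUpC` (sub-architect helper561): THE CUT (v0.1)

OFF-MAIN.  Definitions, frozen Props of the sub-nodes / leaves, PROVED top.  Every proof is complete, nothing
assumed.  ADDITIVE (new names only, all ending in `561`).  Vocabulary: A0, `T5/Spec.lean`,
`T7/Level2.lean` of helper797@819237e8b (sha256 1551664660339642).

    specUpCS_of561 : AsmC561 K K' → StfC561 K K' → BlocksC561 K K' → NonVanC561 K K'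
                       → ChangeC561 K' → AtomsC561 → SpecUpCS561 K K'
    specUpC_of561  : (∀ ℓ Φ Dt, IsL2Data ℓ Φ Dt → BaseStable561 Dt) → SpecUpCS561 K K'
                       → SpecUpC K K'

## RULING NEEDED (architect helper797): `BaseStable561`

`IsL2Data` does not record that the BASE level `𝔑₀` is `σ`-stable (`IsCompData.aut` gives it for
the levels `𝔑_g` only).  Without it `R(σ)` does not preserve the invariant cusp functions of the
base level and (OP-up) cannot be applied to `R(σ) e`.  The supplier constructs a `σ`-stable base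
level (extended from `K`), so the field is free for `SupplyC`: `SpecUpCS561` is `SpecUpC` with
the extra hypothesis `BaseStable561 Dt`.

## The nodes and leaves

* **`StfC561`** (INPUT from tower T5): `T5.STFsigma` for the data of the comparison (a field of
  `T5.Tower`; the hypothesis `hT'` of `T7.specIdC_of`).  Used for the ABSOLUTE summability of the
  diagonal coefficients only.
* **`AtomsC561`** (LEAF, Mathlib only; from the assets `T7/H402/TraceAtomsMatrix.lean`
  (`twistedTraceAtomsMatrix402`) and `T7/H822/RegParam.lean` (`regParam_of_eigen822`)): on a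
  finite-dimensional block with an abstract Iwahori--Hecke structure along the orbit
  (`IsIwBlock561`), `tr (B Z^k 𝒰^m A) = ∑_a t_a b_a^k λ_a^m` for ALL `k ∈ ℤ`, `m ∈ ℕ`, with
  `IsRegParam (√q) b_a λ_a` and `t_a = 0` or `t_a = (Qᴴ (B A) Q)_{aa}` for ONE unitary `Q`.
* **`ChangeC561`** (LEAF, vocabulary of T5 only): a complete orthonormal sequence of cusp
  functions stays one under a unitary change inside finite blocks, and the diagonal coefficients
  of `R(φ) R(σ)` transform as `(Qᴴ M Q)_{aa}`.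
* **`BlocksC561`** (NODE; T2 + Iwahori--Hecke algebra + OP-up / KILL-up / PROJ-up): for every bad
  `g` a complete orthonormal sequence `e₀` of level `𝔑_g` and a family of finite BLOCKS
  (= the `σ`-stable classes of joint eigenfunctions among the invariant cusp functions of the
  base level, one block per class, the block is an orthonormal basis of the WHOLE class) with
  the matrices `A` of `R(σ)`, `B` of `c_g(C) [U g U]`, `S_j`, `ρ_j` of the generators of the
  Iwahori--Hecke algebras along the orbit (`𝒰 = q^{-1/2} S ρ`, `Z = ρ²` at `o 0`), such that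
  `⟨R(φ' g X k m) R(σ) e_a, e_b⟩ = X(C) (B Z^k 𝒰^m A)_{ba}` inside a block and the diagonal
  coefficients outside the blocks vanish; the class of `Φ` is a block.
* **`NonVanC561`** (NODE; multiplicity one in module form + Burnside + regular trace, assets
  helper963 / helper616 / helper822 / helper11): for some bad `g` and some `(k, m)` the twisted
  trace of `R(φ' g [] k m) R(σ)` on the class of `Φ` is not `0` (in every orthonormal basis of
  the class).
* **`AsmC561`** (LEAF: the assembly; pure bookkeeping with `tsum` over `Σ i, Fin (n i)`):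
  the five Props above give `SpecUpCS561`.  Proof sketch in the docstring.
-/

set_option autoImplicit false

open AutomorphicForm IsDedekindDomain NumberField MeasureTheory
open scoped ComplexConjugate Matrix

noncomputable section

namespace Fermat.Agent.LT.T7.H561

open Fermat.Agent.LT.H556 Fermat.Agent.LT.H556.A0 Fermat.Agent.LT.T7

attribute [local instance] Fermat.Agent.LT.T5.instMeasurableSpaceG

/-! ## 1. The abstract block (Mathlib only) -/

/-- **The abstract Iwahori--Hecke structure of a block along the orbit.**  `A` = the matrix of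
`R(σ)`, `B` = the matrix of the operator at the bad places, `S j` = the matrix of the operator
of `I s I` at the place `o j`, `ρ j` = the matrix of the translation by the normaliser of `I` at
`o j` (in an orthonormal basis: `S j` hermitian, `ρ j` unitary), `q` = the norm of the places
of the orbit, `ℓ` = the length of the orbit. -/
structure IsIwBlock561 {n : ℕ} (ℓ : ℕ) (q : ℝ) (A B : Matrix (Fin n) (Fin n) ℂ)
    (S ρ : ℕ → Matrix (Fin n) (Fin n) ℂ) : Prop where
  S_herm : ∀ j, (S j)ᴴ = S j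
  S_quad : ∀ j, S j * S j = ((q : ℂ) - 1) • S j + (q : ℂ) • (1 : Matrix (Fin n) (Fin n) ℂ)
  ρ_unit : ∀ j, (ρ j)ᴴ * ρ j = 1
  ρ_central : ∀ j, (ρ j * ρ j) * S j = S j * (ρ j * ρ j)
  A_S : ∀ j, A * S j = S (j + 1) * A
  A_ρ : ∀ j, A * ρ j = ρ (j + 1) * A
  per_S : ∀ j, S (j + ℓ) = S j
  per_ρ : ∀ j, ρ (j + ℓ) = ρ j
  comm_SS : ∀ j j', j < ℓ → j' < ℓ → j ≠ j' → S j * S j' = S j' * S j
  comm_Sρ : ∀ j j', j < ℓ → j' < ℓ → j ≠ j' → S j * ρ j' = ρ j' * S j
  comm_ρρ : ∀ j j', j < ℓ → j' < ℓ → j ≠ j' → ρ j * ρ j' = ρ j' * ρ j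
  B_S : ∀ j, B * S j = S j * B
  B_ρ : ∀ j, B * ρ j = ρ j * B

/-- **LEAF T7.L2.2.A = ATOMS (abstract, Mathlib only).**  On a block with an abstract
Iwahori--Hecke structure along the orbit the twisted traces at the regular place are finite sums
of atoms, ONE atom for each vector of ONE orthonormal basis (`Q` unitary), valid for ALL
`k ∈ ℤ`, `m ∈ ℕ`:
`tr (B (ρ₀²)^k (q^{-1/2} S₀ ρ₀)^m A) = ∑_a t_a b_a^k λ_a^m`, `IsRegParam (√q) b_a λ_a`,
`t_a = 0` or `t_a = (Qᴴ (B A) Q)_{aa}`.
Proof.  `twistedTraceAtomsMatrix402` (asset helper402, `T7/H402/TraceAtomsMatrix.lean`) for the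
commuting family `𝒰_j = S_j ρ_j`, `Z_j = ρ_j²`, `Z_j⁻¹` (`j ∈ Fin ℓ`), the shift `j ↦ j + 1`
and `T = B A` (`T 𝒰_j = 𝒰_{j+1} T`); `tr (B Z₀^k 𝒰₀^m A) = tr (B A Z_{ℓ-1}^k 𝒰_{ℓ-1}^m)`
(`A Z_{ℓ-1} = Z_ℓ A = Z_0 A`); for `t_a ≠ 0` the character is shift-invariant and is the
character of a joint eigenvector `x`: `regParam_of_eigen822` (asset helper822,
`T7/H822/RegParam.lean`) on `EuclideanSpace ℂ (Fin n)` gives
`IsRegParam (√q) (χ Z₀) (χ 𝒰₀ / √q)`; for `t_a = 0` take `(b, λ) = (1, 1)`. -/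
def AtomsC561 : Prop :=
  ∀ (n ℓ : ℕ) (q : ℝ) (A B : Matrix (Fin n) (Fin n) ℂ) (S ρ : ℕ → Matrix (Fin n) (Fin n) ℂ),
    0 < ℓ → 1 ≤ q → IsIwBlock561 ℓ q A B S ρ →
    ∃ (Q : Matrix (Fin n) (Fin n) ℂ) (t b l : Fin n → ℂ),
      Q ∈ Matrix.unitaryGroup (Fin n) ℂ ∧
      (∀ a, t a = 0 ∨ t a = (Qᴴ * (B * A) * Q) a a) ∧
      (∀ a, IsRegParam (Real.sqrt q) (b a) (l a)) ∧
      ∀ (k : ℤ) (m : ℕ),
        Matrix.trace (B * (ρ 0 * ρ 0) ^ k * (((Real.sqrt q : ℝ) : ℂ)⁻¹ • (S 0 * ρ 0)) ^ m * A)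
          = ∑ a, t a * b a ^ k * l a ^ m

/-! ## 2. The change of basis inside the blocks (vocabulary of T5) -/

section Change

variable (K' : Type) [Field K'] [NumberField K']

/-- **LEAF T7.L2.2.C = CHANGE (unitary change inside finite blocks).**  Let `e₀` be a complete
orthonormal sequence of cusp functions (zero vectors allowed), `idx i a` (`a : Fin (n i)`) the
indices of pairwise disjoint finite blocks of vectors of norm `1`, `Q i` unitary matrices.  Then
the sequence `e'` with `e' (idx i a) = ∑_b (Q i)_{ba} e₀ (idx i b)` and `e' k = e₀ k` outside the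
blocks is a complete orthonormal sequence of cusp functions, and for every test function `φ`
`⟨R(φ) R(σ) e'_a, e'_a⟩ = ∑_{b,c} conj (Q i)_{ca} ⟨R(φ) R(σ) e₀_b, e₀_c⟩ (Q i)_{ba}`.
Proof.  Cusp functions are stable under finite linear combinations (the constant term is an
integral of a bounded continuous function over a fundamental domain of finite measure);
orthonormality: `Qᴴ Q = 1`; completeness: `∑_a |⟨f, e'_a⟩|² = ∑_a |⟨f, e₀_a⟩|²` in each block
and regrouping of a series with non-negative terms; the formula: `R(σ)`, `R(φ)` (`φ` continuous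
with compact support, the functions continuous) and `⟨ , ⟩` (bounded continuous functions on a
set of finite measure) are additive. -/
def ChangeC561 : Prop :=
  ∀ (s : T5.AdelicAut K') (𝔫 : Ideal (𝓞 K')) (μ : Measure (G K')) (F : Set (G K')) (r : G K'),
    T5.IsFrame μ F → T5.IsRayGen r → T5.AutPreserves s 𝔫 μ r →
    ∀ e₀ : ℕ → G K' → ℂ, T5.IsCuspONB 𝔫 T5.trivType r μ F e₀ →
    ∀ (ι : Type) (n : ι → ℕ) (idx : (i : ι) → Fin (n i) → ℕ),
      (∀ (i : ι) (a : Fin (n i)) (i' : ι) (a' : Fin (n i')), idx i a = idx i' a' →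
        (⟨i, a⟩ : Σ i, Fin (n i)) = ⟨i', a'⟩) →
      (∀ (i : ι) (a : Fin (n i)), T5.innerD μ F (e₀ (idx i a)) (e₀ (idx i a)) = 1) →
    ∀ Q : (i : ι) → Matrix (Fin (n i)) (Fin (n i)) ℂ,
      (∀ i, Q i ∈ Matrix.unitaryGroup (Fin (n i)) ℂ) →
    ∃ e' : ℕ → G K' → ℂ, T5.IsCuspONB 𝔫 T5.trivType r μ F e' ∧
      (∀ k : ℕ, (∀ (i : ι) (a : Fin (n i)), idx i a ≠ k) → e' k = e₀ k) ∧
      (∀ (i : ι) (a : Fin (n i)), e' (idx i a) = fun x => ∑ b, Q i b a * e₀ (idx i b) x) ∧
      ∀ φ : G K' → ℂ, T5.IsTestFn 𝔫 T5.trivType φ → ∀ (i : ι) (a : Fin (n i)),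
        T5.diagCoeff s μ F φ (e' (idx i a))
          = ∑ b, ∑ c, conj (Q i c a)
              * T5.innerD μ F (T5.Rconv μ φ (T5.Rsig s (e₀ (idx i b)))) (e₀ (idx i c))
              * Q i b a

end Change

/-! ## 3. The blocks -/

section Blocks

variable (K K' : Type) [Field K] [NumberField K] [Field K'] [NumberField K'] [Algebra K K']

/-- A family of finite blocks with their matrices. -/
structure Blocks561 where
  /-- the index set of the blocks (the `σ`-stable classes) -/
  ι : Type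
  /-- the dimension of the block -/
  n : ι → ℕ
  /-- the indices of the vectors of the block in the orthonormal sequence -/
  idx : (i : ι) → Fin (n i) → ℕ
  /-- the joint eigen-data of the block -/
  C : ι → EigData K'
  /-- the matrix of `R(σ)` -/
  A : (i : ι) → Matrix (Fin (n i)) (Fin (n i)) ℂ
  /-- the matrix of `c_g(C) [U g U]` -/
  B : (i : ι) → Matrix (Fin (n i)) (Fin (n i)) ℂ
  /-- the matrices of the operators of `I s I` along the orbit -/
  S : (i : ι) → ℕ → Matrix (Fin (n i)) (Fin (n i)) ℂ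
  /-- the matrices of the translations by the normalisers of `I` along the orbit -/
  ρ : (i : ι) → ℕ → Matrix (Fin (n i)) (Fin (n i)) ℂ

variable {K K'}

/-- **The base level is `σ`-stable** (see the header: ruling needed). -/
def BaseStable561 (Dt : L2Data K K') : Prop :=
  ∀ u : G K', InLevelGroup Dt.𝔑₀ u ↔ InLevelGroup Dt.𝔑₀ (Dt.s.onG u)

/-- `v` is an orthonormal basis of the class of `C`: the invariant cusp functions of the base
level with joint eigen-data `C` outside `S'`. -/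
structure IsClassBasis561 (Dt : L2Data K K') (ℓ : ℕ) (C : EigData K') (n : ℕ)
    (v : Fin n → G K' → ℂ) : Prop where
  eig : ∀ a, IsEigFn Dt.𝔑₀ Dt.R'.r ℓ Dt.o (v a) C
  orth : ∀ a b, T5.innerD Dt.R'.μ Dt.R'.F (v a) (v b) = if a = b then 1 else 0
  span : ∀ (ψ : G K' → ℂ) (C' : EigData K'), IsEigFn Dt.𝔑₀ Dt.R'.r ℓ Dt.o ψ C' →
    C'.AgreeOut Dt.S' C → ∃ c : Fin n → ℂ, ∀ x : G K', ψ x = ∑ a, c a * v a x

/-- The properties of the blocks for the bad element `g` in the complete orthonormal sequence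
`e₀`. -/
structure IsBlocks561 (ℓ : ℕ) (Φ : HeckeEigensystem K' ℂ) (Dt : L2Data K K') (g : G K')
    (e₀ : ℕ → G K' → ℂ) (𝔅 : Blocks561 K') : Prop where
  onb : T5.IsCuspONB (Dt.𝔑 g) T5.trivType Dt.R'.r Dt.R'.μ Dt.R'.F e₀
  inj : ∀ (i : 𝔅.ι) (a : Fin (𝔅.n i)) (i' : 𝔅.ι) (a' : Fin (𝔅.n i')),
    𝔅.idx i a = 𝔅.idx i' a' → (⟨i, a⟩ : Σ i, Fin (𝔅.n i)) = ⟨i', a'⟩
  unitary : ∀ i, (𝔅.C i).IsUnitaryOut Dt.S'
  distinct : ∀ i i', (𝔅.C i).AgreeOut Dt.S' (𝔅.C i') → i = i'
  basis : ∀ i, IsClassBasis561 Dt ℓ (𝔅.C i) (𝔅.n i) (fun a => e₀ (𝔅.idx i a))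
  phi : ∃ i, (𝔅.C i).AgreeOut Dt.S' (eigOf Φ)
  iw : ∀ i, IsIwBlock561 ℓ ((Ideal.absNorm (Dt.o 0).asIdeal : ℕ) : ℝ)
    (𝔅.A i) (𝔅.B i) (𝔅.S i) (𝔅.ρ i)
  /-- the matrix coefficients inside a block -/
  coeff : ∀ X : List (Gen K'), (∀ x ∈ X, x.Out Dt.S') →
    ∀ (k : ℤ) (m : ℕ) (i : 𝔅.ι) (a b : Fin (𝔅.n i)),
      T5.innerD Dt.R'.μ Dt.R'.F
          (T5.Rconv Dt.R'.μ (Dt.φ' g X k m) (T5.Rsig Dt.s (e₀ (𝔅.idx i a))))
          (e₀ (𝔅.idx i b))
        = wordEv X (𝔅.C i)
          * (𝔅.B i * (𝔅.ρ i 0 * 𝔅.ρ i 0) ^ k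
              * (((Real.sqrt ((Ideal.absNorm (Dt.o 0).asIdeal : ℕ) : ℝ) : ℝ) : ℂ)⁻¹
                  • (𝔅.S i 0 * 𝔅.ρ i 0)) ^ m
              * 𝔅.A i) b a
  /-- the diagonal coefficients outside the blocks vanish -/
  off : ∀ X : List (Gen K'), (∀ x ∈ X, x.Out Dt.S') → ∀ (k : ℤ) (m : ℕ) (j : ℕ),
    (∀ (i : 𝔅.ι) (a : Fin (𝔅.n i)), 𝔅.idx i a ≠ j) →
    T5.diagCoeff Dt.s Dt.R'.μ Dt.R'.F (Dt.φ' g X k m) (e₀ j) = 0

variable (K K')

/-- **INPUT from tower T5**: the twisted trace identity for the data of the comparison (the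
field `stf` of `T5.Tower`, hypothesis `hT'` of `T7.specIdC_of`). -/
def StfC561 : Prop :=
  ∀ D : CompData K K', IsCompData D → T5.STFsigma D.s D.𝔑 T5.trivType

/-- **NODE T7.L2.2.B = BLOCKS.**  See the header.
Proof (sketch; to be cut).  (1) `T2` (`cuspSpecPlus_closed`, `finite_class130`): the cusp
functions of level `𝔑₀` have an orthonormal basis of joint eigenfunctions of the Hecke operators
outside `S'` and of the sphere means, the classes have finite dimension; the projector on the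
functions invariant under the positive scalars at infinity and the Iwahori subgroups along the
orbit commutes with these operators: orthonormal bases of the classes of the INVARIANT cusp
functions, the eigen-data of a class normalised at the places of `S'` and the radii `d ≤ 0`.
(2) Complete by an orthonormal basis of the orthogonal complement in the cusp functions of level
`𝔑_g` (PROJ-up, `T5.CuspONBExistsC`, Gram--Schmidt).  (3) `R(σ)` preserves the invariant cusp
functions of the base level (`BaseStable561`, `IsCompData.aut`, orbit) and moves the eigen-data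
by `σ` (asset helper930 `T7/H930/RsigOps.lean`); the blocks are the classes with
`C ∘ σ ∼ C`; the class of `Φ` is one (`ConstOnFibres`, `orbit_good`, `level_le`).  (4) On a
block: OP-up for `ψ = R(σ) e_a`; the operators `[U g U]`, `Z`, `𝒰` preserve the classes; matrices
in the basis of the block.  (5) Outside the blocks: KILL-up and the range of `R(φ')` (in the
invariant functions) for the complement; `R(σ) e ⊥ ` class of `e` for a class which is not
stable.  (6) Iwahori--Hecke relations at `o j`: `S_j` = the operator of `I s I`, `ρ_j` = the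
translation by `!![0, 1; ϖ, 0]`, `I t I = I s I · ω`, `S² = (q-1) S + q`, `ρ²` = the scalar
uniformiser; adjoints for the inner product on the fundamental domain; `R(σ)` moves the place
`o j` to `o (j+1)`. -/
def BlocksC561 : Prop :=
  ∀ ℓ : ℕ, IsCycExt K K' ℓ → ℓ ≠ 2 → TotCplx K →
    ∀ Φ : HeckeEigensystem K' ℂ, A0.IsCuspAdelicSph0 K' Φ → ConstOnFibres K Φ →
      ∀ Dt : L2Data K K', IsL2Data ℓ Φ Dt → BaseStable561 Dt →
      ∀ g : G K', Dt.IsBad g →
        ∃ (e₀ : ℕ → G K' → ℂ) (𝔅 : Blocks561 K'), IsBlocks561 ℓ Φ Dt g e₀ 𝔅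

/-- **NODE T7.L2.2.N = NON-VANISHING.**  For some bad `g` and some `(k, m)` the twisted trace of
`R(φ' g [] k m) R(σ)` on the class of `Φ` does not vanish.
Proof (sketch).  The class `V` of `Φ` is not `0` (the form of `Φ`), stable under `R(σ)`, and a
simple module under the Hecke algebra of the places of `S'` (multiplicity one in module form:
asset helper963 `H963/Cyclic.lean` from `T2.H941.MatchC`; Burnside); by OP-up the operators
`c_g [U g U] Z^k 𝒰^m` are in the image; orbit formula + regular trace (assets helper616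
`T7/H616/RegTrace.lean`, `RegTrace2.lean`, helper822 `T7/H822/TwNV.lean`, helper11
`T7/H11/TwTrace.lean`); `c_g ≠ 0` on the class of `Φ` (`base_ne`). -/
def NonVanC561 : Prop :=
  ∀ ℓ : ℕ, IsCycExt K K' ℓ → ℓ ≠ 2 → TotCplx K →
    ∀ Φ : HeckeEigensystem K' ℂ, A0.IsCuspAdelicSph0 K' Φ → ConstOnFibres K Φ →
      ∀ Dt : L2Data K K', IsL2Data ℓ Φ Dt → BaseStable561 Dt →
      ∃ (g : G K') (k : ℤ) (m : ℕ), Dt.IsBad g ∧
        ∀ (C : EigData K') (n : ℕ) (v : Fin n → G K' → ℂ),
          C.AgreeOut Dt.S' (eigOf Φ) → IsClassBasis561 Dt ℓ C n v →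
          (∑ a, T5.innerD Dt.R'.μ Dt.R'.F
              (T5.Rconv Dt.R'.μ (Dt.φ' g [] k m) (T5.Rsig Dt.s (v a))) (v a)) ≠ 0

/-- **`SpecUpC` for a `σ`-stable base level.** -/
def SpecUpCS561 : Prop :=
  ∀ ℓ : ℕ, IsCycExt K K' ℓ → ℓ ≠ 2 → TotCplx K →
    ∀ Φ : HeckeEigensystem K' ℂ, A0.IsCuspAdelicSph0 K' Φ → ConstOnFibres K Φ →
      ∀ Dt : L2Data K K', IsL2Data ℓ Φ Dt → BaseStable561 Dt →
      ∃ (g : G K') (e' : ℕ → G K' → ℂ) (ι' : Type) (C : ι' → EigData K') (b' l' : ι' → ℂ)
        (R : ℝ) (y : ι' → ℂ),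
        Dt.IsBad g ∧
        T5.IsCuspONB (Dt.𝔑 g) T5.trivType Dt.R'.r Dt.R'.μ Dt.R'.F e' ∧
        Summable (fun j => ‖y j‖) ∧ (∀ j, (C j).IsUnitaryOut Dt.S') ∧
        (∀ j, IsRegParam R (b' j) (l' j)) ∧
        (∀ X : List (Gen K'), (∀ x ∈ X, x.Out Dt.S') → ∀ (k : ℤ) (m : ℕ), Dt.m₀ g X ≤ m →
          specSide Dt.s Dt.R' e' (Dt.φ' g X k m)
            = ∑' j, wordEv X (C j) * y j * b' j ^ k * l' j ^ m) ∧
        ∃ b₀ l₀ : ℂ,
          (∑' j : {j : {j : ι' // b' j = b₀ ∧ l' j = l₀} //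
              (C j.1).AgreeOut Dt.S' (eigOf Φ)}, y j.1.1) ≠ 0

/-- **LEAF T7.L2.2.Z = ASSEMBLY.**
Proof.  `g, k₀, m₀` from `NonVanC561`; `e₀, 𝔅` from `BlocksC561` for this `g`; `Q i, t i, b i,
l i` from `AtomsC561` for every block (`q = N(o 0) ≥ 1`, `0 < ℓ`); `e'` from `ChangeC561`
(frame, ray, `aut` from `IsL2Data.comp g`; norm `1` from `basis.orth`).  Atoms:
`ι' = Σ i, Fin (n i)`, `C ⟨i, a⟩ = C i`, `y ⟨i, a⟩ = t i a`, `b' = b i a`, `l' = l i a`,
`R = √q`.  Diagonal coefficients of `e'`: `0` outside the blocks (`off`, `e' k = e₀ k`),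
`(Qᴴ M Q)_{aa}` with `M = X(C) B Z^k 𝒰^m A` in a block (`coeff`).  Summability of `y`:
`|t i a| ≤ |(Qᴴ (B A) Q)_{aa}|` = the modulus of the diagonal coefficient of `φ' g [] 0 0`,
summable by `StfC561` (`ekprod_up`) and injectivity of `idx`.  The identity: `tsum` over `ℕ` =
`tsum` over `Σ i, Fin (n i)` (injectivity, zeros) = `∑' i, tr (Qᴴ M Q) = ∑' i, X(C i) tr (⋯)`
(absolute summability: `StfC561`) `= ∑' i, X(C i) ∑_a t b^k l^m` = the `tsum` of the atoms
(absolutely summable: `T7.norm_wordEv_le`, `|b| = 1`, `|l| ≤ √q`).  Non-vanishing: by `distinct`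
the atoms in the class of `Φ` are those of the block `i₀` of `phi`; if all the totals at the
points `(b₀, l₀)` vanished, `tr (B Z^k₀ 𝒰^m₀ A) = ∑_a t b^k₀ l^m₀` would vanish, but it is the
twisted trace of `NonVanC561` in the basis of the block (`coeff` for `X = []`, `basis`). -/
def AsmC561 : Prop :=
  StfC561 K K' → BlocksC561 K K' → NonVanC561 K K' → ChangeC561 K' → AtomsC561 →
    SpecUpCS561 K K'

variable {K K'}

/-- **THE TOP OF THE NODE** (for a `σ`-stable base level). -/
theorem specUpCS_of561 (hZ : AsmC561 K K') (hT : StfC561 K K') (hB : BlocksC561 K K')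
    (hN : NonVanC561 K K') (hC : ChangeC561 K') (hA : AtomsC561) : SpecUpCS561 K K' :=
  hZ hT hB hN hC hA

/-- `SpecUpC` from `SpecUpCS561` when the supplier's base level is `σ`-stable. -/
theorem specUpC_of561
    (hσ : ∀ (ℓ : ℕ) (Φ : HeckeEigensystem K' ℂ) (Dt : L2Data K K'), IsL2Data ℓ Φ Dt →
      BaseStable561 Dt)
    (h : SpecUpCS561 K K') : SpecUpC K K' := by
  intro ℓ hcyc hℓ hcplx Φ hΦ hconst Dt hDt
  exact h ℓ hcyc hℓ hcplx Φ hΦ hconst Dt hDt (hσ ℓ Φ Dt hDt)

end Blocks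

/-! ## Appendix (v0.1, additive): the equation lemmas of the definitions are realised HERE

The equation lemmas (`eq_1`, `eq_def`, `eq_unfold`) of a definition are generated on demand, in
the module which first uses `unfold` / `rw` / `simp` with it; citing them here generates them
once, upstream of every user (same device as the appendix of `T7/Comparison.lean` v0.1).  No
statement of this file is changed. -/

theorem eqns_realised561 : True := by
  have _a1 := @AtomsC561.eq_1
  have _a2 := @AtomsC561.eq_def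
  have _a3 := @AtomsC561.eq_unfold
  have _c1 := @ChangeC561.eq_1
  have _c2 := @ChangeC561.eq_def
  have _c3 := @ChangeC561.eq_unfold
  have _s1 := @BaseStable561.eq_1
  have _s2 := @BaseStable561.eq_def
  have _s3 := @BaseStable561.eq_unfold
  have _t1 := @StfC561.eq_1
  have _t2 := @StfC561.eq_def
  have _t3 := @StfC561.eq_unfold
  have _b1 := @BlocksC561.eq_1
  have _b2 := @BlocksC561.eq_def
  have _b3 := @BlocksC561.eq_unfold
  have _n1 := @NonVanC561.eq_1
  have _n2 := @NonVanC561.eq_def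
  have _n3 := @NonVanC561.eq_unfold
  have _u1 := @SpecUpCS561.eq_1
  have _u2 := @SpecUpCS561.eq_def
  have _u3 := @SpecUpCS561.eq_unfold
  have _z1 := @AsmC561.eq_1
  have _z2 := @AsmC561.eq_def
  have _z3 := @AsmC561.eq_unfold
  trivial

end Fermat.Agent.LT.T7.H561

end

end
-- ===== PACK-END LT/T7/H561/SpecUpSpec.lean

-- ===== PACK-BEGIN LT/T7/H83/IwKit.lean
section



/-!
# Row LT, tower T7, asset IW-KIT (helper83), part 2: Iwahori coset systems on `GL₂(𝔸_K)`

OFF-MAIN.  Vocabulary: A0, `T5/Spec.lean` v4 (`T5.InIwahori`, `T5.InIwahoriCoset`),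
`T7/Level2.lean` (`cosetOp`, `iwOp`, `IsIwCosetSystem`, `IsIwInv`), helper129's local
embedding `locFin129`.  No holes, nothing assumed.  For the nodes of level 2 of T7
(`SupplyC`: OP-up / OP-down; `SpecUpC`, `SpecDownC`: the operator `𝒰` at the regular place).

* `inIwahori_iff83`, `inIwahori_one83`, `inIwahori_mul83`, `inIwahori_inv83`,
  `inIwahori_of_trivAtFin83`: the Iwahori condition at `w` is a group condition on the
  component at `w`;
* `exists_isIwCosetSystem83 w : ∃ H, IsIwCosetSystem w H` (`[[ϖ, r], [0, 1]]`, `r` modulo `w`);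
* `isIwCosetSystem_complete83`: a coset system meets every class of `I t I / I` exactly once;
* `IsIwInvAt w ψ`: right invariance under the Iwahori subgroup at `w` (elements supported at
  `w`); `isIwInvAt_of_isIwInv83` (from `IsIwInv` of level 2);
* `cosetOp_indep83`, `iwOp_indep83`: on such functions the operators do not depend on the
  coset system; `cosetOp_isIwInvAt83`, `iwOp_isIwInvAt83`: they preserve the invariance;
* `cosetOp_mul_right83`, `iwOp_mul_right83`: they commute with the right translations by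
  elements which are trivial at `w`; `mul_comm_of_local83`.
-/

set_option autoImplicit false
set_option linter.unusedSectionVars false
set_option linter.unusedSimpArgs false
set_option linter.unusedVariables false
set_option linter.style.haveILetI false

open IsDedekindDomain NumberField IsDedekindDomain.HeightOneSpectrum
open Fermat.Agent.LT.H556 Fermat.Agent.LT.H556.A0 Fermat.Agent.LT.H129

noncomputable section

namespace Fermat.Agent.LT.T7.H83

variable {K : Type} [Field K] [NumberField K] (w : HeightOneSpectrum (𝓞 K))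

/-! ## 1. The Iwahori condition -/

theorem inIwahori_iff83 (g : G K) :
    T5.InIwahori w g ↔
      IwL (Valued.v : Valuation (w.adicCompletion K) _) (finCompHom129 w g) := by
  rw [iwL_iff83, ← map_inv]
  rfl

theorem inIwahori_one83 : T5.InIwahori w (1 : G K) := by
  rw [inIwahori_iff83, map_one]
  exact iwL_one83

theorem inIwahori_mul83 {g h : G K} (hg : T5.InIwahori w g) (hh : T5.InIwahori w h) :
    T5.InIwahori w (g * h) := by
  rw [inIwahori_iff83] at *
  rw [map_mul]
  exact iwL_mul83 hg hh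

theorem inIwahori_inv83 {g : G K} (hg : T5.InIwahori w g) : T5.InIwahori w g⁻¹ := by
  rw [inIwahori_iff83] at *
  rw [map_inv]
  exact iwL_inv83 hg

theorem inIwahori_of_trivAtFin83 {g : G K} (hg : TrivAtFin w g) : T5.InIwahori w g := by
  rw [inIwahori_iff83, (trivAtFin_iff129 w g).1 hg]
  exact iwL_one83

/-- The Iwahori condition depends only on the component at `w`. -/
theorem inIwahori_congr83 {g h : G K} (e : finComp w g = finComp w h) (hg : T5.InIwahori w g) :
    T5.InIwahori w h := by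
  rw [inIwahori_iff83] at *
  have : finCompHom129 w h = finCompHom129 w g := Units.ext e.symm
  rw [this]
  exact hg

theorem cosL_of_inIwahoriCoset83 {g : G K} (hg : T5.InIwahoriCoset w 1 g) :
    CosL (Valued.v : Valuation (w.adicCompletion K) _) (finCompHom129 w g) := by
  obtain ⟨k₁, k₂, t, c, hk₁, hk₂, hc, ht, hgk⟩ := hg
  have e : finCompHom129 w g = finCompHom129 w k₁ * finCompHom129 w t * finCompHom129 w k₂ := by
    rw [← map_mul, ← map_mul]
    exact Units.ext hgk
  rw [e]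
  refine cosL_of_mul83 ((inIwahori_iff83 w k₁).1 hk₁) ((inIwahori_iff83 w k₂).1 hk₂) ?_ ht
  simpa using hc

/-! ## 2. The standard system -/

/-- The standard representatives `[[ϖ, r], [0, 1]]`, `r` a representative of a class of
`𝓞 K ⧸ w`. -/
def stdIw83 (π : w.adicCompletion K) (hπ : π ≠ 0) (c : 𝓞 K ⧸ w.asIdeal) : G K :=
  locFin129 w (mkGL129 π (rep129 w c) 0 1 (by simpa using hπ))

theorem finCompHom_stdIw83 (π : w.adicCompletion K) (hπ : π ≠ 0) (c : 𝓞 K ⧸ w.asIdeal) :
    finCompHom129 w (stdIw83 w π hπ c) = mkGL129 π (rep129 w c) 0 1 (by simpa using hπ) :=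
  finCompHom129_locFin129 w _

theorem isLocalAtFin_stdIw83 (π : w.adicCompletion K) (hπ : π ≠ 0) (c : 𝓞 K ⧸ w.asIdeal) :
    IsLocalAtFin w (stdIw83 w π hπ c) :=
  isLocalAtFin_locFin129 w _

theorem inIwahoriCoset_stdIw83 {π : w.adicCompletion K}
    (hπ : Valued.v π = WithZero.exp (-1 : ℤ)) (c : 𝓞 K ⧸ w.asIdeal) :
    T5.InIwahoriCoset w 1 (stdIw83 w π (unif_ne_zero129 w hπ) c) := by
  have hπ0 := unif_ne_zero129 w hπ
  refine ⟨locFin129 w (mkGL129 1 (rep129 w c) 0 1 (by simp)),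
    1, locFin129 w (mkGL129 π 0 0 1 (by simpa using hπ0)), π, ?_, inIwahori_one83 w, ?_, ?_, ?_⟩
  · rw [inIwahori_iff83, finCompHom129_locFin129]
    exact iwL_upper83 (rep129_mem w c)
  · simpa using hπ
  · rw [finComp_locFin129, coe_mkGL129]
  · unfold stdIw83
    rw [mkGL_eq_mul83 hπ0, map_mul, map_mul, map_one]

/-- Every integral element is congruent to a standard representative. -/
theorem exists_rep83 {x : w.adicCompletion K} (hx : Valued.v x ≤ 1) :
    ∃ c : 𝓞 K ⧸ w.asIdeal, Valued.v (x - rep129 w c) < 1 := by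
  obtain ⟨r, hr⟩ := resHom129_surjective K w
    (IsLocalRing.residue (w.adicCompletionIntegers K) ⟨x, hx⟩)
  refine ⟨Ideal.Quotient.mk w.asIdeal r, ?_⟩
  have h1 : Valued.v (x - ((algebraMap (𝓞 K) K r : K) : w.adicCompletion K)) < 1 := by
    have h0 : IsLocalRing.residue (w.adicCompletionIntegers K)
        (⟨x, hx⟩ - algebraMap (𝓞 K) (w.adicCompletionIntegers K) r) = 0 := by
      rw [map_sub, sub_eq_zero]
      exact hr.symm
    rw [residue_eq_zero_iff_valued129] at h0
    exact h0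
  have h2 : Valued.v (((algebraMap (𝓞 K) K r : K) : w.adicCompletion K)
      - rep129 w (Ideal.Quotient.mk w.asIdeal r)) < 1 := by
    have e : ((algebraMap (𝓞 K) K r : K) : w.adicCompletion K)
        - rep129 w (Ideal.Quotient.mk w.asIdeal r)
        = ((algebraMap (𝓞 K) K (r - Quotient.out (Ideal.Quotient.mk w.asIdeal r)) : K) :
            w.adicCompletion K) := by
      unfold rep129
      rw [map_sub]
      exact (map_sub (algebraMap K (w.adicCompletion K)) _ _).symm
    rw [e, valuedAdicCompletion_eq_valuation', valuation_lt_one_iff_mem]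
    rw [← Ideal.Quotient.eq]
    exact (Quotient.out_eq (Ideal.Quotient.mk w.asIdeal r)).symm
  have e3 : x - rep129 w (Ideal.Quotient.mk w.asIdeal r)
      = (x - ((algebraMap (𝓞 K) K r : K) : w.adicCompletion K))
        + (((algebraMap (𝓞 K) K r : K) : w.adicCompletion K)
          - rep129 w (Ideal.Quotient.mk w.asIdeal r)) := by ring
  rw [e3]
  exact val_add_lt_one83 h1 h2

/-- Every element of `I t I` lies in the class of a standard representative. -/
theorem exists_class83 {π : w.adicCompletion K} (hπ : Valued.v π = WithZero.exp (-1 : ℤ))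
    {g : G K} (hg : T5.InIwahoriCoset w 1 g) :
    ∃ c : 𝓞 K ⧸ w.asIdeal,
      T5.InIwahori w ((stdIw83 w π (unif_ne_zero129 w hπ) c)⁻¹ * g) := by
  have hcos := cosL_of_inIwahoriCoset83 w hg
  obtain ⟨h00, h01, h10, h11, hdet⟩ := hcos
  set M : Matrix (Fin 2) (Fin 2) (w.adicCompletion K) :=
    ((finCompHom129 w g : GL (Fin 2) (w.adicCompletion K)) :
      Matrix (Fin 2) (Fin 2) (w.adicCompletion K)) with hM
  have h11ne : M 1 1 ≠ 0 := by
    intro h
    rw [h, map_zero] at h11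
    exact zero_ne_one h11
  have hx : Valued.v (M 0 1 / M 1 1) ≤ 1 := by
    rw [map_div₀, h11, div_one]
    exact h01
  obtain ⟨c, hc⟩ := exists_rep83 w hx
  refine ⟨c, ?_⟩
  rw [inIwahori_iff83, map_mul, map_inv, finCompHom_stdIw83]
  refine iwL_inv_mul_of_cosL83 ⟨h00, h01, h10, h11, hdet⟩ hπ _ (rep129_mem w c) ?_
  have e : M 0 1 - rep129 w c * M 1 1 = (M 0 1 / M 1 1 - rep129 w c) * M 1 1 := by
    field_simp
  rw [← hM, e, map_mul, h11, mul_one]
  exact hc

/-- The class of a standard representative is unique. -/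
theorem class_unique83 {π : w.adicCompletion K} (hπ : Valued.v π = WithZero.exp (-1 : ℤ))
    {g : G K} {c c' : 𝓞 K ⧸ w.asIdeal}
    (h : T5.InIwahori w ((stdIw83 w π (unif_ne_zero129 w hπ) c)⁻¹ * g))
    (h' : T5.InIwahori w ((stdIw83 w π (unif_ne_zero129 w hπ) c')⁻¹ * g)) : c = c' := by
  by_contra hne
  have hmul := inIwahori_mul83 w h (inIwahori_inv83 w h')
  have e : (stdIw83 w π (unif_ne_zero129 w hπ) c)⁻¹ * g
      * ((stdIw83 w π (unif_ne_zero129 w hπ) c')⁻¹ * g)⁻¹
      = (stdIw83 w π (unif_ne_zero129 w hπ) c)⁻¹ * stdIw83 w π (unif_ne_zero129 w hπ) c' := by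
    group
  rw [e, inIwahori_iff83, map_mul, map_inv, finCompHom_stdIw83, finCompHom_stdIw83] at hmul
  have hlt := val_sub_lt_of_iwL83 hπ (unif_ne_zero129 w hπ) hmul
  rw [valued_rep129_sub w hne] at hlt
  exact lt_irrefl _ hlt

theorem finite_quot83 : Finite (𝓞 K ⧸ w.asIdeal) := by
  apply Nat.finite_of_card_ne_zero
  rw [← Submodule.cardQuot_apply, ← Ideal.absNorm_apply]
  exact ne_of_gt (lt_trans Nat.zero_lt_one (NumberField.HeightOneSpectrum.one_lt_absNorm w))

/-- **Iwahori coset systems exist.** -/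
theorem exists_isIwCosetSystem83 : ∃ H : Finset (G K), IsIwCosetSystem w H := by
  classical
  obtain ⟨π, hπ⟩ := exists_unif129 w
  haveI : Finite (𝓞 K ⧸ w.asIdeal) := finite_quot83 w
  letI : Fintype (𝓞 K ⧸ w.asIdeal) := Fintype.ofFinite _
  have hne : ∀ c c' : 𝓞 K ⧸ w.asIdeal, c ≠ c' →
      ¬ T5.InIwahori w ((stdIw83 w π (unif_ne_zero129 w hπ) c)⁻¹
        * stdIw83 w π (unif_ne_zero129 w hπ) c') := by
    intro c c' hcc hI
    apply hcc
    refine class_unique83 w hπ (g := stdIw83 w π (unif_ne_zero129 w hπ) c') hI ?_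
    rw [inv_mul_cancel]
    exact inIwahori_one83 w
  have hinj : Function.Injective (stdIw83 w π (unif_ne_zero129 w hπ)) := by
    intro c c' hcc
    by_contra hne'
    apply hne c c' hne'
    rw [hcc, inv_mul_cancel]
    exact inIwahori_one83 w
  refine ⟨Finset.univ.image (stdIw83 w π (unif_ne_zero129 w hπ)), ?_, ?_, ?_⟩
  · rw [Finset.card_image_of_injective _ hinj, Finset.card_univ, Ideal.absNorm_apply,
      Submodule.cardQuot_apply, Nat.card_eq_fintype_card]
  · intro h hh
    obtain ⟨c, -, rfl⟩ := Finset.mem_image.mp hh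
    exact ⟨isLocalAtFin_stdIw83 w π _ c, inIwahoriCoset_stdIw83 w hπ c⟩
  · intro h hh h' hh' hhh
    obtain ⟨c, -, rfl⟩ := Finset.mem_image.mp hh
    obtain ⟨c', -, rfl⟩ := Finset.mem_image.mp hh'
    exact hne c c' (fun e => hhh (by rw [e]))

/-- **Completeness of Iwahori coset systems**: every class of `I t I / I` is met exactly
once. -/
theorem isIwCosetSystem_complete83 {H : Finset (G K)} (hH : IsIwCosetSystem w H) {g : G K}
    (hg : T5.InIwahoriCoset w 1 g) :
    ∃ h ∈ H, T5.InIwahori w (h⁻¹ * g) ∧ ∀ h' ∈ H, T5.InIwahori w (h'⁻¹ * g) → h' = h := by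
  classical
  obtain ⟨π, hπ⟩ := exists_unif129 w
  haveI : Finite (𝓞 K ⧸ w.asIdeal) := finite_quot83 w
  letI : Fintype (𝓞 K ⧸ w.asIdeal) := Fintype.ofFinite _
  obtain ⟨hcard, hprop, hdist⟩ := hH
  let ι : {h // h ∈ H} → 𝓞 K ⧸ w.asIdeal := fun h =>
    (exists_class83 w hπ (hprop h.1 h.2).2).choose
  have hι : ∀ h : {h // h ∈ H},
      T5.InIwahori w ((stdIw83 w π (unif_ne_zero129 w hπ) (ι h))⁻¹ * h.1) := fun h =>
    (exists_class83 w hπ (hprop h.1 h.2).2).choose_spec
  have key : ∀ (c : 𝓞 K ⧸ w.asIdeal) (a b : G K),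
      T5.InIwahori w ((stdIw83 w π (unif_ne_zero129 w hπ) c)⁻¹ * a) →
      T5.InIwahori w ((stdIw83 w π (unif_ne_zero129 w hπ) c)⁻¹ * b) →
      T5.InIwahori w (a⁻¹ * b) := by
    intro c a b ha hb
    have := inIwahori_mul83 w (inIwahori_inv83 w ha) hb
    have e : ((stdIw83 w π (unif_ne_zero129 w hπ) c)⁻¹ * a)⁻¹
        * ((stdIw83 w π (unif_ne_zero129 w hπ) c)⁻¹ * b) = a⁻¹ * b := by group
    rwa [e] at this
  have hinj : Function.Injective ι := by
    intro h h' e
    by_contra hcon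
    have hne' : h.1 ≠ h'.1 := fun hh => hcon (Subtype.ext hh)
    refine hdist h.1 h.2 h'.1 h'.2 hne' (key (ι h) _ _ (hι h) ?_)
    rw [e]
    exact hι h'
  have hcard' : Fintype.card {h // h ∈ H} = Fintype.card (𝓞 K ⧸ w.asIdeal) := by
    rw [Fintype.card_coe, hcard, Ideal.absNorm_apply, Submodule.cardQuot_apply,
      Nat.card_eq_fintype_card]
  have hbij : Function.Bijective ι :=
    (Fintype.bijective_iff_injective_and_card ι).mpr ⟨hinj, hcard'⟩
  obtain ⟨c, hc⟩ := exists_class83 w hπ hg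
  obtain ⟨⟨h, hhH⟩, hh⟩ := hbij.2 c
  have hhg : T5.InIwahori w (h⁻¹ * g) := by
    refine key c _ _ ?_ hc
    rw [← hh]
    exact hι ⟨h, hhH⟩
  refine ⟨h, hhH, hhg, ?_⟩
  intro h' hh'H hh'
  by_contra hcon
  apply hdist h' hh'H h hhH hcon
  have := inIwahori_mul83 w hh' (inIwahori_inv83 w hhg)
  have e : h'⁻¹ * g * (h⁻¹ * g)⁻¹ = h'⁻¹ * h := by group
  rwa [e] at this

/-! ## 3. The operators on Iwahori-invariant functions -/

/-- `ψ` is right invariant under the Iwahori subgroup at `w` (elements supported at `w`). -/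
def IsIwInvAt (ψ : G K → ℂ) : Prop :=
  ∀ u : G K, IsLocalAtFin w u → T5.InIwahori w u → ∀ x : G K, ψ (x * u) = ψ x

/-- From the invariance of level 2 along an orbit. -/
theorem isIwInvAt_of_isIwInv83 {l : ℕ} {o : ℕ → HeightOneSpectrum (𝓞 K)} {ψ : G K → ℂ}
    (hψ : IsIwInv l o ψ) {j : ℕ} (hj : j < l) : IsIwInvAt (o j) ψ := by
  intro u hu hI x
  refine hψ u hu.1 (fun v hv => hu.2 v (hv j hj)) (fun i hi => ?_) x
  by_cases e : o i = o j
  · rw [e]; exact hI
  · exact inIwahori_of_trivAtFin83 (o i) (hu.2 (o i) e)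

open scoped Classical in
/-- A coset system is mapped bijectively onto any other one, modulo `I` on the right. -/
theorem exists_matching83 {H H' : Finset (G K)} (hH : IsIwCosetSystem w H)
    (hH' : IsIwCosetSystem w H') :
    ∃ σ : G K → G K, (∀ h ∈ H, σ h ∈ H' ∧ T5.InIwahori w ((σ h)⁻¹ * h)) ∧
      Set.InjOn σ (H : Set (G K)) ∧ H.image σ = H' := by
  classical
  have hex : ∀ h : G K, ∃ h' : G K, h ∈ H → h' ∈ H' ∧ T5.InIwahori w (h'⁻¹ * h) := by
    intro h
    by_cases hh : h ∈ H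
    · obtain ⟨h', hh', hI, -⟩ := isIwCosetSystem_complete83 w hH' (hH.2.1 h hh).2
      exact ⟨h', fun _ => ⟨hh', hI⟩⟩
    · exact ⟨1, fun h0 => (hh h0).elim⟩
  choose σ hσ using hex
  have hinj : Set.InjOn σ (H : Set (G K)) := by
    intro a ha b hb e
    by_contra hne
    apply hH.2.2 a ha b hb hne
    have h1 := (hσ a ha).2
    have h2 := (hσ b hb).2
    rw [← e] at h2
    have := inIwahori_mul83 w (inIwahori_inv83 w h1) h2
    have e' : ((σ a)⁻¹ * a)⁻¹ * ((σ a)⁻¹ * b) = a⁻¹ * b := by group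
    rwa [e'] at this
  refine ⟨σ, hσ, hinj, ?_⟩
  apply Finset.eq_of_subset_of_card_le
  · intro x hx
    obtain ⟨h, hh, rfl⟩ := Finset.mem_image.mp hx
    exact (hσ h hh).1
  · rw [Finset.card_image_of_injOn hinj, hH.1, hH'.1]

/-- **Independence of the coset system.** -/
theorem cosetOp_indep83 {H H' : Finset (G K)} (hH : IsIwCosetSystem w H)
    (hH' : IsIwCosetSystem w H') {ψ : G K → ℂ} (hψ : IsIwInvAt w ψ) (x : G K) :
    cosetOp H ψ x = cosetOp H' ψ x := by
  classical
  obtain ⟨σ, hσ, hinj, himg⟩ := exists_matching83 w hH hH'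
  unfold cosetOp
  rw [← himg, Finset.sum_image hinj]
  refine Finset.sum_congr rfl fun h hh => ?_
  have hloc : IsLocalAtFin w ((σ h)⁻¹ * h) :=
    isLocalAtFin_mul129 (isLocalAtFin_inv129 (hH'.2.1 _ (hσ h hh).1).1) (hH.2.1 h hh).1
  have := hψ _ hloc (hσ h hh).2 (x * σ h)
  rw [← this]
  congr 1
  group

theorem iwOp_indep83 {H H' : Finset (G K)} (hH : IsIwCosetSystem w H)
    (hH' : IsIwCosetSystem w H') {ψ : G K → ℂ} (hψ : IsIwInvAt w ψ) (x : G K) :
    iwOp w H ψ x = iwOp w H' ψ x := by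
  have := cosetOp_indep83 w hH hH' hψ x
  unfold cosetOp at this
  unfold iwOp
  rw [this]

/-- The left translate of a coset system by an element of the Iwahori subgroup supported at
`w` is a coset system. -/
theorem isIwCosetSystem_image83 {H : Finset (G K)} (hH : IsIwCosetSystem w H) {u : G K}
    (hu : IsLocalAtFin w u) (hI : T5.InIwahori w u) [DecidableEq (G K)] :
    IsIwCosetSystem w (H.image fun h => u * h) := by
  have hinj : Function.Injective fun h : G K => u * h := mul_right_injective u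
  refine ⟨?_, ?_, ?_⟩
  · rw [Finset.card_image_of_injective _ hinj, hH.1]
  · intro h hh
    obtain ⟨h₀, hh₀, rfl⟩ := Finset.mem_image.mp hh
    refine ⟨isLocalAtFin_mul129 hu (hH.2.1 h₀ hh₀).1, ?_⟩
    obtain ⟨k₁, k₂, t, c, hk₁, hk₂, hc, ht, hg⟩ := (hH.2.1 h₀ hh₀).2
    refine ⟨u * k₁, k₂, t, c, inIwahori_mul83 w hI hk₁, hk₂, hc, ht, ?_⟩
    have e1 : finCompHom129 w (u * h₀) = finCompHom129 w (u * k₁ * t * k₂) := by
      have e0 : finCompHom129 w h₀ = finCompHom129 w (k₁ * t * k₂) := Units.ext hg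
      rw [map_mul, e0, ← map_mul]
      congr 1
      group
    exact congrArg (fun y : GL (Fin 2) (w.adicCompletion K) =>
      (y : Matrix (Fin 2) (Fin 2) (w.adicCompletion K))) e1
  · intro h hh h' hh' hne
    obtain ⟨h₀, hh₀, rfl⟩ := Finset.mem_image.mp hh
    obtain ⟨h₁, hh₁, rfl⟩ := Finset.mem_image.mp hh'
    have e : (u * h₀)⁻¹ * (u * h₁) = h₀⁻¹ * h₁ := by group
    rw [e]
    exact hH.2.2 h₀ hh₀ h₁ hh₁ (fun e' => hne (by rw [e']))

/-- **The operators preserve the invariance under the Iwahori subgroup.** -/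
theorem cosetOp_isIwInvAt83 {H : Finset (G K)} (hH : IsIwCosetSystem w H) {ψ : G K → ℂ}
    (hψ : IsIwInvAt w ψ) : IsIwInvAt w (cosetOp H ψ) := by
  classical
  intro u hu hI x
  have h1 : cosetOp H ψ (x * u) = cosetOp (H.image fun h => u * h) ψ x := by
    unfold cosetOp
    rw [Finset.sum_image (fun a _ b _ e => mul_right_injective u e)]
    refine Finset.sum_congr rfl fun h _ => ?_
    rw [mul_assoc]
  rw [h1]
  exact cosetOp_indep83 w (isIwCosetSystem_image83 w hH hu hI) hH hψ x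

theorem iwOp_isIwInvAt83 {H : Finset (G K)} (hH : IsIwCosetSystem w H) {ψ : G K → ℂ}
    (hψ : IsIwInvAt w ψ) : IsIwInvAt w (iwOp w H ψ) := by
  intro u hu hI x
  have := cosetOp_isIwInvAt83 w hH hψ u hu hI x
  unfold cosetOp at this
  unfold iwOp
  rw [this]

theorem iwOp_iterate_isIwInvAt83 {H : Finset (G K)} (hH : IsIwCosetSystem w H) {ψ : G K → ℂ}
    (hψ : IsIwInvAt w ψ) (m : ℕ) : IsIwInvAt w ((iwOp w H)^[m] ψ) := by
  induction m with
  | zero => simpa using hψ
  | succ m ih =>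
    rw [Function.iterate_succ_apply']
    exact iwOp_isIwInvAt83 w hH ih

/-- The iterates do not depend on the coset system. -/
theorem iwOp_iterate_indep83 {H H' : Finset (G K)} (hH : IsIwCosetSystem w H)
    (hH' : IsIwCosetSystem w H') {ψ : G K → ℂ} (hψ : IsIwInvAt w ψ) (m : ℕ) :
    (iwOp w H)^[m] ψ = (iwOp w H')^[m] ψ := by
  induction m with
  | zero => rfl
  | succ m ih =>
    rw [Function.iterate_succ_apply', Function.iterate_succ_apply', ← ih]
    funext x
    exact iwOp_indep83 w hH hH' (iwOp_iterate_isIwInvAt83 w hH hψ m) x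

/-! ## 4. Commutation with the translations away from `w` -/

/-- An element supported at `w` commutes with an element which is trivial at `w`. -/
theorem mul_comm_of_local83 {h u : G K} (hh : IsLocalAtFin w h) (hu : TrivAtFin w u) :
    h * u = u * h := by
  rw [isLocalAtFin_iff129] at hh
  rw [trivAtFin_iff129] at hu
  apply G_ext129
  · intro w'
    rw [map_mul, map_mul, hh.1 w', one_mul, mul_one]
  · intro v
    by_cases e : v = w
    · subst e
      rw [map_mul, map_mul, hu, one_mul, mul_one]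
    · rw [map_mul, map_mul, hh.2 v e, one_mul, mul_one]

theorem cosetOp_mul_right83 {H : Finset (G K)} (hH : ∀ h ∈ H, IsLocalAtFin w h) {u : G K}
    (hu : TrivAtFin w u) (ψ : G K → ℂ) (x : G K) :
    cosetOp H ψ (x * u) = cosetOp H (fun y => ψ (y * u)) x := by
  unfold cosetOp
  refine Finset.sum_congr rfl fun h hh => ?_
  show ψ (x * u * h) = ψ (x * h * u)
  rw [mul_assoc, ← mul_comm_of_local83 w (hH h hh) hu, mul_assoc]

theorem iwOp_mul_right83 {H : Finset (G K)} (hH : ∀ h ∈ H, IsLocalAtFin w h) {u : G K}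
    (hu : TrivAtFin w u) (ψ : G K → ℂ) (x : G K) :
    iwOp w H ψ (x * u) = iwOp w H (fun y => ψ (y * u)) x := by
  have := cosetOp_mul_right83 w hH hu ψ x
  unfold cosetOp at this
  unfold iwOp
  rw [this]

end Fermat.Agent.LT.T7.H83

end

end
-- ===== PACK-END LT/T7/H83/IwKit.lean

-- ===== PACK-BEGIN LT/T7/H29/UpCore.lean
section



/-!
# Row LT, tower T7, level 2: THE UPSTAIRS CORE (helper29, deputy of T7.L2Q)

OFF-MAIN.  Definitions, ONE frozen Prop, PROVED bridge.  No hole, nothing assumed.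
ADDITIVE to `T7/Level2.lean` (helper797@819237e8b, sha256 15516646): new names only, namespace
`Fermat.Agent.LT.T7.H29`.

## Why

The node `T7.SpecUpC K K'` is typed with the hypotheses of the CYCLIC case (`IsCycExt K K' ℓ`,
`ℓ ≠ 2`, `TotCplx K`) and with the whole structure `IsL2Data` (which contains the downstairs
fields over `K`).  Its proof uses only the UPSTAIRS fields.  The quadratic step `F/ℚ` (`ℓ = 2`,
`ℚ` not totally complex, two `K_∞`-types downstairs) needs the SAME statement upstairs.  So the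
upstairs half is isolated here:

* `UpData K'`, `IsUpData ℓ Φ U` : the upstairs fields of `L2Data` / `IsL2Data`, over `K'` ALONE
  (no base field): `σ` of order `ℓ` with fixed field `k`, frame, base level `𝔑₀`, levels `𝔑 g`,
  the orbit, the family `φ' g X k m`, (OP-up), (KILL-up), the projection, `base_ne`, and the
  `σ`-invariance of `Φ` outside `S'` in the form `T5.PlaceRel`;
* `SpecUpCoreC K'` : the conclusion of `SpecUpC` for every `UpData` over a totally complex `K'`
  and every prime `ℓ`;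
* PROVED `specUpC_of_core : SpecUpCoreC K' → T7.SpecUpC K K'`.

The quadratic mirror (`Level2Q.lean`) consumes `SpecUpCoreC F` directly.  So ONE proof of
`SpecUpCoreC` serves both steps.
-/

set_option autoImplicit false

open AutomorphicForm IsDedekindDomain NumberField MeasureTheory
open scoped ComplexConjugate

noncomputable section

namespace Fermat.Agent.LT.T7.H29

open Fermat.Agent.LT.H556 Fermat.Agent.LT.H556.A0 Fermat.Agent.LT.T7

attribute [local instance] Fermat.Agent.LT.T5.instMeasurableSpaceG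

/-! ## 1. The upstairs data -/

section Up

variable (K' : Type) [Field K'] [NumberField K']

/-- The upstairs part of the data of level 2 (`T7.L2Data` without the base field). -/
structure UpData where
  /-- the degree -/
  l : ℕ
  /-- the generator of the Galois group with its extension to the adeles -/
  s : T5.AdelicAut K'
  /-- the fixed field -/
  k : Subfield K'
  /-- the frame -/
  R' : Frame5 K'
  /-- the base level -/
  𝔑₀ : Ideal (𝓞 K')
  /-- the places dividing the base level -/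
  S' : Finset (HeightOneSpectrum (𝓞 K'))
  /-- the `σ`-orbit over the regular place -/
  o : ℕ → HeightOneSpectrum (𝓞 K')
  /-- the level for the bad element `g` -/
  𝔑 : G K' → Ideal (𝓞 K')
  /-- the scalar of the Eisenstein-killing base on the eigen-classes -/
  c : G K' → EigData K' → ℂ
  /-- the family of test functions -/
  φ' : G K' → List (Gen K') → ℤ → ℕ → G K' → ℂ
  /-- the regular depth -/
  m₀ : G K' → List (Gen K') → ℕ

variable {K'}

/-- `g` is supported at the bad places: the places of `S'` outside the orbit. -/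
def UpData.IsBad (U : UpData K') (g : G K') : Prop :=
  (∀ w : InfinitePlace K', TrivAtInf w g) ∧
    ∀ v : HeightOneSpectrum (𝓞 K'), (v ∉ U.S' ∨ ∃ j < U.l, v = U.o j) → TrivAtFin v g

/-- **THE PROPERTIES OF THE UPSTAIRS DATA** = the upstairs fields of `T7.IsL2Data`, over `K'`
alone. -/
structure IsUpData (ℓ : ℕ) (Φ : HeckeEigensystem K' ℂ) (U : UpData K') : Prop where
  deg : U.l = ℓ
  cyc : T5.IsCyclicOfDegree U.s U.l U.k
  frame' : IsFrame5 U.R'
  level_ne : ∀ g : G K', U.IsBad g → U.𝔑 g ≠ ⊥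
  aut : ∀ g : G K', U.IsBad g → T5.AutPreserves U.s (U.𝔑 g) U.R'.μ U.R'.r
  level_le : U.𝔑₀ ≤ Φ.level
  level_g : ∀ g : G K', U.IsBad g → U.𝔑 g ≤ U.𝔑₀
  mem_S' : ∀ w : HeightOneSpectrum (𝓞 K'), w ∈ U.S' ↔ w.asIdeal ∣ U.𝔑₀
  mem_S'_g : ∀ g : G K', U.IsBad g →
    ∀ w : HeightOneSpectrum (𝓞 K'), w ∈ U.S' ↔ w.asIdeal ∣ U.𝔑 g
  /-- `Φ ∘ σ = Φ` outside `S'` -/
  const : ∀ w : HeightOneSpectrum (𝓞 K'), w ∉ U.S' →
    ∀ w' : HeightOneSpectrum (𝓞 K'), w' ∉ U.S' → T5.PlaceRel U.s w w' →
      Φ.a w = Φ.a w' ∧ Φ.b w = Φ.b w'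
  orbit_rel : ∀ j : ℕ, T5.PlaceRel U.s (U.o j) (U.o (j + 1))
  orbit_ne : ∀ j : ℕ, 0 < j → j < ℓ → U.o j ≠ U.o 0
  orbit_level : ∀ j : ℕ, U.o j ∈ U.S'
  orbit_good : ∀ j : ℕ, ¬ (U.o j).asIdeal ∣ Φ.level
  /-- the members are products of Eisenstein-killing test functions -/
  ekprod_up : ∀ (g : G K') (X : List (Gen K')) (k : ℤ) (m : ℕ), U.IsBad g →
    (∀ x ∈ X, x.Out U.S') → IsEKProd (U.𝔑 g) U.R' (U.φ' g X k m)
  /-- regularity from the depth `m₀ g X` on -/
  reg_up : ∀ (g : G K') (X : List (Gen K')) (k : ℤ) (m : ℕ), U.IsBad g →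
    (∀ x ∈ X, x.Out U.S') → U.m₀ g X ≤ m →
    T5.IsTwRegular U.s U.l U.k (U.φ' g X k m)
  /-- the scalar of the base does not vanish on the class of `Φ` -/
  base_ne : ∀ g : G K', U.IsBad g →
    ∀ C : EigData K', C.AgreeOut U.S' (eigOf Φ) → U.c g C ≠ 0
  /-- (OP-up) -/
  op_up : ∀ (g : G K') (X : List (Gen K')) (k : ℤ) (m : ℕ), U.IsBad g →
    (∀ x ∈ X, x.Out U.S') →
    ∀ (ψ : G K' → ℂ) (C : EigData K'), IsEigFn U.𝔑₀ U.R'.r ℓ U.o ψ C →
    ∀ (Hg H : Finset (G K')) (z : G K'), IsDblCosetSystem U.𝔑₀ g Hg →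
      IsIwCosetSystem (U.o 0) H → IsScalarUniformizerAt (U.o 0) z →
      ∀ x : G K', T5.Rconv U.R'.μ (U.φ' g X k m) ψ x
        = wordEv X C * U.c g C * cosetOp Hg (shiftOp z k ((iwOp (U.o 0) H)^[m] ψ)) x
  /-- (KILL-up) -/
  kill_up : ∀ (g : G K') (X : List (Gen K')) (k : ℤ) (m : ℕ), U.IsBad g →
    (∀ x ∈ X, x.Out U.S') →
    ∀ ψ : G K' → ℂ, T5.IsCuspFn (U.𝔑 g) T5.trivType U.R'.r ψ →
      (∀ χ : G K' → ℂ, IsWFn U.𝔑₀ U.R'.r ℓ U.o χ →
        T5.innerD U.R'.μ U.R'.F ψ χ = 0) →
      ∀ x : G K', T5.Rconv U.R'.μ (U.φ' g X k m) ψ x = 0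
  /-- the orthogonal projection on the invariant cusp functions -/
  proj_up : ∀ g : G K', U.IsBad g →
    ∀ ψ : G K' → ℂ, T5.IsCuspFn (U.𝔑 g) T5.trivType U.R'.r ψ →
    ∃ ψ₁ : G K' → ℂ, IsWFn U.𝔑₀ U.R'.r ℓ U.o ψ₁ ∧
      ∀ χ : G K' → ℂ, IsWFn U.𝔑₀ U.R'.r ℓ U.o χ →
        T5.innerD U.R'.μ U.R'.F (fun x => ψ x - ψ₁ x) χ = 0

variable (K')

/-- **NODE T7.L2.2c = SPEC-UP, CORE FORM** (spectral half upstairs + non-vanishing, over `K'`
alone).  The statement of `T7.SpecUpC` for the upstairs data: `K'` totally complex, `σ` of prime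
order `ℓ` (`ℓ = 2` allowed), `Φ` a cusp form of A0 which is `σ`-invariant outside `S'`. -/
def SpecUpCoreC : Prop :=
  ∀ ℓ : ℕ, ℓ.Prime → TotCplx K' →
    ∀ Φ : HeckeEigensystem K' ℂ, A0.IsCuspAdelicSph0 K' Φ →
      ∀ U : UpData K', IsUpData ℓ Φ U →
      ∃ (g : G K') (e' : ℕ → G K' → ℂ) (ι' : Type) (C : ι' → EigData K') (b' l' : ι' → ℂ)
        (R : ℝ) (y : ι' → ℂ),
        U.IsBad g ∧
        T5.IsCuspONB (U.𝔑 g) T5.trivType U.R'.r U.R'.μ U.R'.F e' ∧
        Summable (fun j => ‖y j‖) ∧ (∀ j, (C j).IsUnitaryOut U.S') ∧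
        (∀ j, IsRegParam R (b' j) (l' j)) ∧
        (∀ X : List (Gen K'), (∀ x ∈ X, x.Out U.S') → ∀ (k : ℤ) (m : ℕ), U.m₀ g X ≤ m →
          specSide U.s U.R' e' (U.φ' g X k m)
            = ∑' j, wordEv X (C j) * y j * b' j ^ k * l' j ^ m) ∧
        ∃ b₀ l₀ : ℂ,
          (∑' j : {j : {j : ι' // b' j = b₀ ∧ l' j = l₀} //
              (C j.1).AgreeOut U.S' (eigOf Φ)}, y j.1.1) ≠ 0

end Up

/-! ## 2. The bridge from `T7.L2Data` -/

section Bridge

variable {K K' : Type} [Field K] [NumberField K] [Field K'] [NumberField K'] [Algebra K K']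

/-- The upstairs part of the data of level 2. -/
def upOf (Dt : L2Data K K') : UpData K' where
  l := Dt.l
  s := Dt.s
  k := Dt.k
  R' := Dt.R'
  𝔑₀ := Dt.𝔑₀
  S' := Dt.S'
  o := Dt.o
  𝔑 := Dt.𝔑
  c := Dt.c
  φ' := Dt.φ'
  m₀ := Dt.m₀

theorem isBad_upOf_iff (Dt : L2Data K K') (g : G K') : (upOf Dt).IsBad g ↔ Dt.IsBad g :=
  Iff.rfl

theorem trivAtInf_one29 (w : InfinitePlace K') : TrivAtInf w (1 : G K') := by
  intro i j
  rw [Units.val_one, Matrix.one_apply, Matrix.one_apply]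
  split_ifs <;> rfl

theorem trivAtFin_one29 (v : HeightOneSpectrum (𝓞 K')) : TrivAtFin v (1 : G K') := by
  unfold TrivAtFin finComp
  ext i j
  rw [Units.val_one, Matrix.one_apply, Matrix.one_apply]
  split_ifs <;> rfl

/-- The identity is supported at the bad places. -/
theorem isBad_one (Dt : L2Data K K') : Dt.IsBad (1 : G K') :=
  ⟨fun w => trivAtInf_one29 w, fun v _ => trivAtFin_one29 v⟩

/-- A totally complex base field has totally complex extensions. -/
theorem totCplx_of_base (h : TotCplx K) : TotCplx K' := by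
  intro w
  rw [← InfinitePlace.not_isReal_iff_isComplex]
  intro hw
  exact (InfinitePlace.not_isReal_iff_isComplex.2 (h (w.comap (algebraMap K K'))))
    (InfinitePlace.IsReal.comap (algebraMap K K') hw)

/-- The place of `K` under a place of `K'`. -/
theorem placeOver_under (w : HeightOneSpectrum (𝓞 K')) :
    PlaceOver K K' (w.under (𝓞 K)) w := by
  intro x y hxy
  have hy : y = algebraMap (𝓞 K) (𝓞 K') x := RingOfIntegers.ext hxy
  subst hy
  rfl

/-- Two places related by an automorphism which fixes the image of `K` lie over the same place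
of `K`. -/
theorem placeOver_of_placeRel (s : T5.AdelicAut K')
    (hfix : ∀ x : K, s.σ (algebraMap K K' x) = algebraMap K K' x)
    {w w' : HeightOneSpectrum (𝓞 K')} (hrel : T5.PlaceRel s w w')
    (v : HeightOneSpectrum (𝓞 K)) (hv : PlaceOver K K' v w) : PlaceOver K K' v w' := by
  intro x y hxy
  rw [hv x y hxy]
  have hσy : RingOfIntegers.mapRingEquiv s.σ y = y := by
    apply RingOfIntegers.ext
    rw [RingOfIntegers.mapRingEquiv_apply, hxy, hfix]
  unfold T5.PlaceRel at hrel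
  rw [hrel, Ideal.mem_map_of_equiv]
  constructor
  · intro hy
    exact ⟨y, hy, hσy⟩
  · rintro ⟨x', hx', hx'y⟩
    have : x' = y := by
      apply (RingOfIntegers.mapRingEquiv s.σ).injective
      rw [hx'y, hσy]
    rw [← this]
    exact hx'

/-- **The upstairs fields of `IsL2Data`.** -/
theorem isUpData_upOf {ℓ : ℕ} {Φ : HeckeEigensystem K' ℂ} {Dt : L2Data K K'}
    (h : IsL2Data ℓ Φ Dt) : IsUpData ℓ Φ (upOf Dt) where
  deg := h.deg
  cyc := (h.comp 1 (isBad_one Dt)).cyc
  frame' := (h.comp 1 (isBad_one Dt)).frame'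
  level_ne := fun g hg => by
    show Ideal.map (algebraMap (𝓞 K) (𝓞 K')) (Dt.𝔫 g) ≠ ⊥
    rw [Ne, Ideal.map_eq_bot_iff_of_injective (RingOfIntegers.algebraMap.injective K K')]
    exact (h.comp g hg).level_ne
  aut := fun g hg => (h.comp g hg).aut
  level_le := h.level_le
  level_g := h.level_g
  mem_S' := h.mem_S'
  mem_S'_g := h.mem_S'_g
  const := fun w hw w' hw' hrel => by
    have hD := h.comp 1 (isBad_one Dt)
    have hfix : ∀ x : K, Dt.s.σ (algebraMap K K' x) = algebraMap K K' x := fun x =>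
      (hD.cyc.fixed _).1 ((hD.base _).2 ⟨x, rfl⟩)
    exact h.const w hw w' hw' (w.under (𝓞 K)) (placeOver_under w)
      (placeOver_of_placeRel Dt.s hfix hrel _ (placeOver_under w))
  orbit_rel := h.orbit_rel
  orbit_ne := h.orbit_ne
  orbit_level := h.orbit_level
  orbit_good := h.orbit_good
  ekprod_up := h.ekprod_up
  reg_up := h.reg_up
  base_ne := h.base_ne
  op_up := h.op_up
  kill_up := h.kill_up
  proj_up := h.proj_up

/-- **`T7.SpecUpC` from the core form.** -/
theorem specUpC_of_core (hC : SpecUpCoreC K') : SpecUpC K K' := by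
  intro ℓ hcyc _ hcplx Φ hΦ _ Dt hDt
  exact hC ℓ hcyc.prime (totCplx_of_base hcplx) Φ hΦ (upOf Dt) (isUpData_upOf hDt)

end Bridge

end Fermat.Agent.LT.T7.H29

end

end
-- ===== PACK-END LT/T7/H29/UpCore.lean

-- ===== PACK-BEGIN LT/T7/H228/MulGCore.lean
section






/-!
# Row LT, tower T7, leaf CM.10 MUL-G (helper228): the core, over one number field

OFF-MAIN.  Common core of `CM616.MulGC616` (cyclic form, `MulG.lean`) and `CMU675.MulGUC675`
(core form, `MulGU.lean`): for a level `𝔫`, a finite set `S'` of finite places and an orbit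
`o 0, …, o (l-1)`, the product of two double coset operators of elements supported at the places
of `S'` outside the orbit is, on the right `U(𝔫)`-invariant functions, a linear combination of
double coset operators of such elements (`mulG_core228`).

Proof.  The abstract product formula `hecke_mul228` (`HeckeMul.lean`, Mathlib only) gives
`[U g U][U g' U] = ∑ c_i [U y_i U]` with `y_i = g u_i g'`, `u_i ∈ U = U(𝔫)` (a subgroup:
`H949.U949`).  Let `B` be the set of the bad places (the places of `S'` outside the orbit).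
Split `u = a b` with `a, b ∈ U`, `a` supported on `B` and `b` trivial on `B`
(`exists_split228`, induction on `B` with the local embeddings of helper129).  As `g'` is
supported on `B`, `b` commutes with `g'`, so `g u g' = (g a g') b`, and `g'' = g a g'` is bad
with `U g'' U = U y U`.

No foreign definition is unfolded by `unfold` / `simp` / `rw` (no foreign equation lemma is
realised here).
-/

set_option autoImplicit false

open IsDedekindDomain NumberField

noncomputable section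

namespace Fermat.Agent.LT.T7.H228

open Fermat.Agent.LT.H556 Fermat.Agent.LT.H556.A0 Fermat.Agent.LT Fermat.Agent.LT.T7
  Fermat.Agent.LT.H129 Fermat.Agent.LT.T7.H949

/-- A system of representatives of `U y U / U` is one of `U g'' U / U` when `y = g'' b`,
`b ∈ U`. -/
theorem IsSysA228.of_right {G : Type} [Group G] {U : Subgroup G} {y g'' b : G} {H : Finset G}
    (hH : IsSysA228 U y H) (hb : b ∈ U) (hy : y = g'' * b) : IsSysA228 U g'' H := by
  refine ⟨fun h hh => ?_, hH.2.1, fun u hu => ?_⟩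
  · obtain ⟨u₁, u₂, h₁, h₂, rfl⟩ := hH.1 h hh
    exact ⟨u₁, b * u₂, h₁, U.mul_mem hb h₂, by rw [hy]; group⟩
  · obtain ⟨h, hh, hmem⟩ := hH.rep hu (U.inv_mem hb)
    refine ⟨h, hh, ?_⟩
    have : u * y * b⁻¹ = u * g'' := by rw [hy]; group
    rwa [this] at hmem

variable {K : Type} [Field K] [NumberField K]

/-- The component at `v` of an element of the level group is in the level group. -/
theorem inLevelGroup_locFin228 {𝔫 : Ideal (𝓞 K)} {u : G K} (hu : InLevelGroup 𝔫 u)
    (v : HeightOneSpectrum (𝓞 K)) : InLevelGroup 𝔫 (locFin129 v (finCompHom129 v u)) := by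
  refine ⟨fun w => (trivAtInf_iff129 w _).2 (infCompHom129_locFin129 v _ w), fun v' i j => ?_⟩
  by_cases h : v' = v
  · subst h
    have e1 : finComp v' (locFin129 v' (finCompHom129 v' u)) = finComp v' u := by
      rw [← coe_finCompHom129, finCompHom129_locFin129, coe_finCompHom129]
    have e2 : finComp v' (locFin129 v' (finCompHom129 v' u))⁻¹ = finComp v' u⁻¹ := by
      rw [← map_inv, ← map_inv, ← coe_finCompHom129, finCompHom129_locFin129,
        coe_finCompHom129]
    rw [e1, e2]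
    exact hu.2 v' i j
  · have e1 : finComp v' (locFin129 v (finCompHom129 v u)) = 1 := by
      rw [← coe_finCompHom129, finCompHom129_locFin129_of_ne v _ h]
      rfl
    have e2 : finComp v' (locFin129 v (finCompHom129 v u))⁻¹ = 1 := by
      rw [← map_inv, ← coe_finCompHom129, finCompHom129_locFin129_of_ne v _ h]
      rfl
    have h0 : (0 : v'.adicCompletion K) ∈ idealClosure 𝔫 v' := zero_mem_idealClosure949 𝔫 v'
    rw [e1, e2, sub_self]
    exact ⟨h0, h0⟩

/-- **The splitting.**  An element of the level group is `a b` with `a`, `b` in the level group,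
`a` trivial outside the finite set `B` of finite places and `b` trivial on `B`. -/
theorem exists_split228 {𝔫 : Ideal (𝓞 K)} (B : Finset (HeightOneSpectrum (𝓞 K))) {u : G K}
    (hu : InLevelGroup 𝔫 u) :
    ∃ a b : G K, InLevelGroup 𝔫 a ∧ InLevelGroup 𝔫 b ∧ u = a * b ∧
      (∀ v, v ∉ B → finCompHom129 v a = 1) ∧ ∀ v ∈ B, finCompHom129 v b = 1 := by
  classical
  induction B using Finset.induction_on with
  | empty =>
    exact ⟨1, u, (U949 𝔫).one_mem, hu, (one_mul u).symm, fun v _ => map_one _,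
      fun v hv => absurd hv (Finset.notMem_empty v)⟩
  | insert v0 B hv0 ih =>
    obtain ⟨a, b, ha, hb, hab, ha1, hb1⟩ := ih
    have hc : InLevelGroup 𝔫 (locFin129 v0 (finCompHom129 v0 b)) :=
      inLevelGroup_locFin228 hb v0
    refine ⟨a * locFin129 v0 (finCompHom129 v0 b), (locFin129 v0 (finCompHom129 v0 b))⁻¹ * b,
      (U949 𝔫).mul_mem ha hc, (U949 𝔫).mul_mem ((U949 𝔫).inv_mem hc) hb, ?_, ?_, ?_⟩
    · rw [hab]
      group
    · intro v hv
      rw [Finset.mem_insert, not_or] at hv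
      rw [map_mul, ha1 v hv.2, finCompHom129_locFin129_of_ne v0 _ hv.1, mul_one]
    · intro v hv
      rw [Finset.mem_insert] at hv
      rcases hv with rfl | hv
      · rw [map_mul, map_inv, finCompHom129_locFin129, inv_mul_cancel]
      · have hne : v ≠ v0 := fun h => hv0 (h ▸ hv)
        rw [map_mul, map_inv, finCompHom129_locFin129_of_ne v0 _ hne, inv_one, one_mul,
          hb1 v hv]

/-- `g` is supported at the places of `S'` outside the orbit (the shape of `L2Data.IsBad` and of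
`H29.UpData.IsBad`). -/
def IsBadA228 (S' : Finset (HeightOneSpectrum (𝓞 K))) (l : ℕ)
    (o : ℕ → HeightOneSpectrum (𝓞 K)) (g : G K) : Prop :=
  (∀ w : InfinitePlace K, TrivAtInf w g) ∧
    ∀ v : HeightOneSpectrum (𝓞 K), (v ∉ S' ∨ ∃ j < l, v = o j) → TrivAtFin v g

theorem isBadA_iff228 (S' : Finset (HeightOneSpectrum (𝓞 K))) (l : ℕ)
    (o : ℕ → HeightOneSpectrum (𝓞 K)) (g : G K) :
    IsBadA228 S' l o g ↔ (∀ w : InfinitePlace K, infCompHom129 w g = 1) ∧
      ∀ v : HeightOneSpectrum (𝓞 K), (v ∉ S' ∨ ∃ j < l, v = o j) →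
        finCompHom129 v g = 1 :=
  ⟨fun h => ⟨fun w => (trivAtInf_iff129 w g).1 (h.1 w),
      fun v hv => (trivAtFin_iff129 v g).1 (h.2 v hv)⟩,
    fun h => ⟨fun w => (trivAtInf_iff129 w g).2 (h.1 w),
      fun v hv => (trivAtFin_iff129 v g).2 (h.2 v hv)⟩⟩

/-- **The bad representative.**  For bad `g`, `g'` and `u ∈ U(𝔫)`, `g u g' = g'' b` with `g''`
bad and `b ∈ U(𝔫)`. -/
theorem exists_bad_rep228 (𝔫 : Ideal (𝓞 K)) (S' : Finset (HeightOneSpectrum (𝓞 K))) (l : ℕ)
    (o : ℕ → HeightOneSpectrum (𝓞 K)) {g g' u : G K} (hg : IsBadA228 S' l o g)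
    (hg' : IsBadA228 S' l o g') (hu : InLevelGroup 𝔫 u) :
    ∃ g'' b : G K, IsBadA228 S' l o g'' ∧ InLevelGroup 𝔫 b ∧ g * u * g' = g'' * b := by
  classical
  obtain ⟨a, b, ha, hb, hab, ha1, hb1⟩ :=
    exists_split228 (S'.filter (fun v => ¬ ∃ j < l, v = o j)) hu
  rw [isBadA_iff228] at hg hg'
  have hnotB : ∀ v, (v ∉ S' ∨ ∃ j < l, v = o j) →
      v ∉ S'.filter (fun v => ¬ ∃ j < l, v = o j) := by
    intro v hv hvB
    rw [Finset.mem_filter] at hvB
    rcases hv with h | h
    · exact h hvB.1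
    · exact hvB.2 h
  have hBnot : ∀ v, v ∉ S'.filter (fun v => ¬ ∃ j < l, v = o j) →
      (v ∉ S' ∨ ∃ j < l, v = o j) := by
    intro v hv
    by_contra hcon
    rw [not_or, not_not] at hcon
    exact hv (Finset.mem_filter.2 ⟨hcon.1, hcon.2⟩)
  have hainf : ∀ w, infCompHom129 w a = 1 := fun w => (trivAtInf_iff129 w a).1 (ha.1 w)
  have hbinf : ∀ w, infCompHom129 w b = 1 := fun w => (trivAtInf_iff129 w b).1 (hb.1 w)
  refine ⟨g * a * g', b, ?_, hb, ?_⟩
  · rw [isBadA_iff228]
    refine ⟨fun w => by rw [map_mul, map_mul, hg.1 w, hainf w, hg'.1 w, mul_one, mul_one],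
      fun v hv => ?_⟩
    rw [map_mul, map_mul, hg.2 v hv, ha1 v (hnotB v hv), hg'.2 v hv, mul_one, mul_one]
  · have hcomm : b * g' = g' * b := by
      apply G_ext129
      · intro w
        rw [map_mul, map_mul, hbinf w, hg'.1 w]
      · intro v
        by_cases hv : v ∈ S'.filter (fun v => ¬ ∃ j < l, v = o j)
        · rw [map_mul, map_mul, hb1 v hv, one_mul, mul_one]
        · rw [map_mul, map_mul, hg'.2 v (hBnot v hv), one_mul, mul_one]
    rw [hab]
    calc g * (a * b) * g' = g * a * (b * g') := by group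
      _ = g * a * (g' * b) := by rw [hcomm]
      _ = g * a * g' * b := by group

/-- **MUL-G, the core.** -/
theorem mulG_core228 (𝔫 : Ideal (𝓞 K)) (S' : Finset (HeightOneSpectrum (𝓞 K))) (l : ℕ)
    (o : ℕ → HeightOneSpectrum (𝓞 K)) (g g' : G K) (Hg Hg' : Finset (G K))
    (hg : IsBadA228 S' l o g) (hHg : IsDblCosetSystem 𝔫 g Hg)
    (hg' : IsBadA228 S' l o g') (hHg' : IsDblCosetSystem 𝔫 g' Hg') :
    ∃ (n : ℕ) (c : Fin n → ℂ) (g'' : Fin n → G K) (H'' : Fin n → Finset (G K)),
      (∀ i, IsBadA228 S' l o (g'' i) ∧ IsDblCosetSystem 𝔫 (g'' i) (H'' i)) ∧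
      ∀ ψ : G K → ℂ, (∀ u : G K, InLevelGroup 𝔫 u → ∀ x : G K, ψ (x * u) = ψ x) →
        ∀ x : G K, cosetOp Hg (cosetOp Hg' ψ) x = ∑ i, c i * cosetOp (H'' i) ψ x := by
  have h1 : IsSysA228 (U949 𝔫) g Hg := hHg
  have h2 : IsSysA228 (U949 𝔫) g' Hg' := hHg'
  obtain ⟨n, c, y, H'', hy, hsum⟩ := hecke_mul228 (U949 𝔫) g g' Hg Hg' h1 h2
  have hex : ∀ i, ∃ g'' : G K, IsBadA228 S' l o g'' ∧ IsDblCosetSystem 𝔫 g'' (H'' i) := by
    intro i
    obtain ⟨⟨u, hu, hyu⟩, hsys⟩ := hy i
    obtain ⟨g'', b, hbad, hb, e⟩ := exists_bad_rep228 𝔫 S' l o hg hg' hu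
    exact ⟨g'', hbad, hsys.of_right (U := U949 𝔫) hb (hyu.trans e)⟩
  choose g'' hg'' using hex
  refine ⟨n, c, g'', H'', hg'', fun ψ hψ x => ?_⟩
  exact hsum ψ (fun u hu x => hψ u hu x) x

end Fermat.Agent.LT.T7.H228

end

end
-- ===== PACK-END LT/T7/H228/MulGCore.lean

-- ===== PACK-BEGIN LT/T7/H122/TensorSplit.lean
section



/-!
# OFF-MAIN (Langlands–Tunnell row, tower T7, leaf T7.L2.1.M.N2): `TensorSplitC584`

Closes `H584.TensorSplitC584` verbatim (spec: `LT/T7/H584/NormLocSpec.lean`).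

Route: for a cyclic extension `K'/K` of prime degree `l` with generator `s` and an embedding
`τ : K' → k` over `K`, the `l` projections `x ⊗ a ↦ τ (s^m x) a` of `K' ⊗_K k` are jointly
bijective onto `k^l` (Dedekind independence of characters + dimension count), the tensor
automorphism `s ⊗ 1` shifts the projections, and the idempotent of the `0`-th factor gives the
element whose twisted norm is the prescribed matrix.
-/

set_option autoImplicit false

open TensorProduct

noncomputable section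

namespace Fermat.Agent.LT.T7.H122

section Split

variable {K K' k : Type} [Field K] [Field K'] [Field k] [Algebra K K'] [Algebra K k]

/-- The `m`-th projection `x ⊗ a ↦ τ(s^m x) a` of `K' ⊗_K k`. -/
def proj122 (s : K' ≃ₐ[K] K') (τ : K' →ₐ[K] k) (m : ℕ) : K' ⊗[K] k →ₐ[K] k :=
  Algebra.TensorProduct.lift (τ.comp ((s ^ m : K' ≃ₐ[K] K') : K' →ₐ[K] K')) (AlgHom.id K k)
    (fun _ _ => Commute.all _ _)

theorem proj122_tmul (s : K' ≃ₐ[K] K') (τ : K' →ₐ[K] k) (m : ℕ) (x : K') (a : k) :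
    proj122 s τ m (x ⊗ₜ[K] a) = τ ((s ^ m) x) * a := by
  simp [proj122]

/-- The `k`-linear form of the `m`-th projection, on `k ⊗_K K'`. -/
def projL122 (s : K' ≃ₐ[K] K') (τ : K' →ₐ[K] k) (m : ℕ) : k ⊗[K] K' →ₐ[k] k :=
  Algebra.TensorProduct.lift (AlgHom.id k k) (τ.comp ((s ^ m : K' ≃ₐ[K] K') : K' →ₐ[K] K'))
    (fun _ _ => Commute.all _ _)

theorem projL122_tmul (s : K' ≃ₐ[K] K') (τ : K' →ₐ[K] k) (m : ℕ) (a : k) (x : K') :
    projL122 s τ m (a ⊗ₜ[K] x) = a * τ ((s ^ m) x) := by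
  simp [projL122]

theorem projL122_comm (s : K' ≃ₐ[K] K') (τ : K' →ₐ[K] k) (m : ℕ) (y : K' ⊗[K] k) :
    projL122 s τ m (Algebra.TensorProduct.comm K K' k y) = proj122 s τ m y := by
  induction y using TensorProduct.induction_on with
  | zero => simp
  | tmul x a => simp [projL122_tmul, proj122_tmul, mul_comm]
  | add y z hy hz => simp [hy, hz]

variable [FiniteDimensional K K'] [IsGalois K K']

theorem orderOf_eq122 (s : K' ≃ₐ[K] K') (l : ℕ) (hl : Module.finrank K K' = l)
    (hs : ∀ t : K' ≃ₐ[K] K', t ∈ Subgroup.zpowers s) : orderOf s = l := by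
  rw [orderOf_eq_card_of_forall_mem_zpowers hs, IsGalois.card_aut_eq_finrank, hl]

theorem projL122_injOn (s : K' ≃ₐ[K] K') (l : ℕ) (hl : Module.finrank K K' = l)
    (hs : ∀ t : K' ≃ₐ[K] K', t ∈ Subgroup.zpowers s) (τ : K' →ₐ[K] k) :
    Function.Injective (fun j : Fin l => projL122 s τ (j : ℕ)) := by
  intro i j hij
  have h1 : ∀ x : K', τ ((s ^ (i : ℕ)) x) = τ ((s ^ (j : ℕ)) x) := by
    intro x
    have := congrArg (fun f : k ⊗[K] K' →ₐ[k] k => f (1 ⊗ₜ[K] x)) hij
    simpa [projL122_tmul] using this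
  have h2 : s ^ (i : ℕ) = s ^ (j : ℕ) := by
    ext x
    exact τ.toRingHom.injective (h1 x)
  have h3 := (pow_inj_mod.1 h2)
  rw [orderOf_eq122 s l hl hs] at h3
  apply Fin.ext
  rwa [Nat.mod_eq_of_lt i.2, Nat.mod_eq_of_lt j.2] at h3

theorem finrank_baseChange122 (l : ℕ) (hl : Module.finrank K K' = l) :
    Module.finrank k (k ⊗[K] K') = l := by
  rw [Module.finrank_baseChange, hl]

/-- Joint injectivity of the projections on `k ⊗_K K'`. -/
theorem projL122_joint_inj (s : K' ≃ₐ[K] K') (l : ℕ) (hl : Module.finrank K K' = l)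
    (hs : ∀ t : K' ≃ₐ[K] K', t ∈ Subgroup.zpowers s) (τ : K' →ₐ[K] k) (v : k ⊗[K] K')
    (hv : ∀ j : Fin l, projL122 s τ (j : ℕ) v = 0) : v = 0 := by
  have hli : LinearIndependent k
      (fun j : Fin l => ((projL122 s τ (j : ℕ)).toLinearMap : Module.Dual k (k ⊗[K] K'))) :=
    (linearIndependent_algHom_toLinearMap k (k ⊗[K] K') k).comp _ (projL122_injOn s l hl hs τ)
  have hcard : Fintype.card (Fin l) = Module.finrank k (Module.Dual k (k ⊗[K] K')) := by
    rw [Fintype.card_fin, Subspace.dual_finrank_eq, finrank_baseChange122 l hl]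
  have hspan := hli.span_eq_top_of_card_eq_finrank' hcard
  rw [← Module.forall_dual_apply_eq_zero_iff k v]
  intro φ
  have hφ : φ ∈ Submodule.span k (Set.range
      (fun j : Fin l => ((projL122 s τ (j : ℕ)).toLinearMap : Module.Dual k (k ⊗[K] K')))) := by
    rw [hspan]
    exact Submodule.mem_top
  induction hφ using Submodule.span_induction with
  | mem x hx =>
    obtain ⟨j, rfl⟩ := hx
    exact hv j
  | zero => rfl
  | add x y _ _ hx hy => rw [LinearMap.add_apply, hx, hy, add_zero]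
  | smul a x _ hx => rw [LinearMap.smul_apply, hx, smul_zero]

/-- The joint map of the projections. -/
def jointL122 (s : K' ≃ₐ[K] K') (τ : K' →ₐ[K] k) (l : ℕ) : k ⊗[K] K' →ₗ[k] (Fin l → k) :=
  LinearMap.pi (fun j : Fin l => (projL122 s τ (j : ℕ)).toLinearMap)

theorem jointL122_bijective (s : K' ≃ₐ[K] K') (l : ℕ) (hl : Module.finrank K K' = l)
    (hs : ∀ t : K' ≃ₐ[K] K', t ∈ Subgroup.zpowers s) (τ : K' →ₐ[K] k) :
    Function.Bijective (jointL122 s τ l) := by
  have hinj : Function.Injective (jointL122 s τ l) := by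
    rw [← LinearMap.ker_eq_bot, LinearMap.ker_eq_bot']
    intro v hv
    refine projL122_joint_inj s l hl hs τ v (fun j => ?_)
    have := congrFun hv j
    simpa [jointL122] using this
  have hfr : Module.finrank k (k ⊗[K] K') = Module.finrank k (Fin l → k) := by
    rw [finrank_baseChange122 l hl, Module.finrank_fin_fun]
  exact ⟨hinj, (LinearMap.injective_iff_surjective_of_finrank_eq_finrank hfr).1 hinj⟩

/-- Joint injectivity of the projections on `K' ⊗_K k`. -/
theorem proj122_joint_inj (s : K' ≃ₐ[K] K') (l : ℕ) (hl : Module.finrank K K' = l)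
    (hs : ∀ t : K' ≃ₐ[K] K', t ∈ Subgroup.zpowers s) (τ : K' →ₐ[K] k) (y y' : K' ⊗[K] k)
    (h : ∀ j : ℕ, j < l → proj122 s τ j y = proj122 s τ j y') : y = y' := by
  apply (Algebra.TensorProduct.comm K K' k).injective
  apply (jointL122_bijective s l hl hs τ).1
  funext j
  show projL122 s τ (j : ℕ) _ = projL122 s τ (j : ℕ) _
  rw [projL122_comm, projL122_comm]
  exact h j j.2

/-- Existence of an element with prescribed projections. -/
theorem proj122_surj (s : K' ≃ₐ[K] K') (l : ℕ) (hl : Module.finrank K K' = l)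
    (hs : ∀ t : K' ≃ₐ[K] K', t ∈ Subgroup.zpowers s) (τ : K' →ₐ[K] k) (f : Fin l → k) :
    ∃ y : K' ⊗[K] k, ∀ j : Fin l, proj122 s τ (j : ℕ) y = f j := by
  obtain ⟨v, hv⟩ := (jointL122_bijective s l hl hs τ).2 f
  refine ⟨(Algebra.TensorProduct.comm K K' k).symm v, fun j => ?_⟩
  rw [← projL122_comm, AlgEquiv.apply_symm_apply]
  exact congrFun hv j

end Split

/-! ## The shift and the inclusion -/

section Shift

variable {K K' k : Type} [Field K] [Field K'] [Field k] [Algebra K K'] [Algebra K k]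

/-- The projections as ring homomorphisms. -/
def projR122 (s : K' ≃ₐ[K] K') (τ : K' →ₐ[K] k) (m : ℕ) : K' ⊗[K] k →+* k :=
  (proj122 s τ m).toRingHom

theorem projR122_apply (s : K' ≃ₐ[K] K') (τ : K' →ₐ[K] k) (m : ℕ) (y : K' ⊗[K] k) :
    projR122 s τ m y = proj122 s τ m y := rfl

theorem proj122_aut (s : K' ≃ₐ[K] K') (τ : K' →ₐ[K] k) (m : ℕ) (y : K' ⊗[K] k) :
    proj122 s τ m (H584.tensorAut584 s y) = proj122 s τ (m + 1) y := by
  show proj122 s τ m (Algebra.TensorProduct.congr s (AlgEquiv.refl : k ≃ₐ[K] k) y) = _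
  induction y using TensorProduct.induction_on with
  | zero => simp
  | tmul x a =>
    rw [Algebra.TensorProduct.congr_apply, Algebra.TensorProduct.map_tmul, proj122_tmul,
      proj122_tmul, pow_succ]
    rfl
  | add y z hy hz => rw [map_add, map_add, hy, hz, map_add]

theorem proj122_incl (s : K' ≃ₐ[K] K') (τ : K' →ₐ[K] k) (m : ℕ) (a : k) :
    proj122 s τ m (H584.tensorIncl584 K K' k a) = a := by
  have e : H584.tensorIncl584 K K' k a = (1 : K') ⊗ₜ[K] a := rfl
  rw [e, proj122_tmul, map_one, map_one, one_mul]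

theorem proj122_mod (s : K' ≃ₐ[K] K') (τ : K' →ₐ[K] k) (l : ℕ) (hord : orderOf s = l)
    (m : ℕ) : proj122 s τ m = proj122 s τ (m % l) := by
  have h : s ^ m = s ^ (m % l) := by rw [← hord, pow_mod_orderOf]
  apply Algebra.TensorProduct.ext'
  intro x a
  rw [proj122_tmul, proj122_tmul, h]

end Shift

/-! ## Matrices -/

section GLTwo

variable {R S : Type} [CommRing R] [CommRing S]

/-- `e γ + (1 - e)` for an idempotent `e`. -/
def idemGL122 (e : R) (he : e * e = e) (g : GL (Fin 2) R) : GL (Fin 2) R where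
  val := e • (g : Matrix (Fin 2) (Fin 2) R) + (1 - e) • (1 : Matrix (Fin 2) (Fin 2) R)
  inv := e • ((g⁻¹ : GL (Fin 2) R) : Matrix (Fin 2) (Fin 2) R)
    + (1 - e) • (1 : Matrix (Fin 2) (Fin 2) R)
  val_inv := by
    have h1 : (g : Matrix (Fin 2) (Fin 2) R) * ((g⁻¹ : GL (Fin 2) R) : Matrix (Fin 2) (Fin 2) R)
        = 1 := by rw [← Units.val_mul, mul_inv_cancel, Units.val_one]
    have h2 : e * (1 - e) = 0 := by rw [mul_sub, mul_one, he, sub_self]
    have h3 : (1 - e) * e = 0 := by rw [mul_comm, h2]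
    have h4 : (1 - e) * (1 - e) = 1 - e := by rw [sub_mul, one_mul, h2, sub_zero]
    simp only [add_mul, mul_add, Matrix.smul_mul, Matrix.mul_smul, smul_smul, Matrix.one_mul,
      Matrix.mul_one, h1, he, h2, h3, h4, zero_smul, add_zero, zero_add]
    rw [← add_smul, add_sub_cancel, one_smul]
  inv_val := by
    have h1 : ((g⁻¹ : GL (Fin 2) R) : Matrix (Fin 2) (Fin 2) R) * (g : Matrix (Fin 2) (Fin 2) R)
        = 1 := by rw [← Units.val_mul, inv_mul_cancel, Units.val_one]
    have h2 : e * (1 - e) = 0 := by rw [mul_sub, mul_one, he, sub_self]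
    have h3 : (1 - e) * e = 0 := by rw [mul_comm, h2]
    have h4 : (1 - e) * (1 - e) = 1 - e := by rw [sub_mul, one_mul, h2, sub_zero]
    simp only [add_mul, mul_add, Matrix.smul_mul, Matrix.mul_smul, smul_smul, Matrix.one_mul,
      Matrix.mul_one, h1, he, h2, h3, h4, zero_smul, add_zero, zero_add]
    rw [← add_smul, add_sub_cancel, one_smul]

theorem idemGL122_apply (e : R) (he : e * e = e) (g : GL (Fin 2) R) (a b : Fin 2) :
    (idemGL122 e he g) a b = e * g a b + (1 - e) * (1 : Matrix (Fin 2) (Fin 2) R) a b := rfl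

theorem map_idemGL122_one (f : R →+* S) (e : R) (he : e * e = e) (g : GL (Fin 2) R)
    (hf : f e = 1) :
    Matrix.GeneralLinearGroup.map f (idemGL122 e he g) = Matrix.GeneralLinearGroup.map f g := by
  apply Units.ext
  ext a b
  show f ((idemGL122 e he g) a b) = f (g a b)
  rw [idemGL122_apply, map_add, map_mul, map_mul, map_sub, map_one, hf, sub_self, zero_mul,
    add_zero, one_mul]

theorem map_idemGL122_zero (f : R →+* S) (e : R) (he : e * e = e) (g : GL (Fin 2) R)
    (hf : f e = 0) :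
    Matrix.GeneralLinearGroup.map f (idemGL122 e he g) = 1 := by
  apply Units.ext
  ext a b
  show f ((idemGL122 e he g) a b) = (1 : Matrix (Fin 2) (Fin 2) S) a b
  rw [idemGL122_apply, map_add, map_mul, map_mul, map_sub, map_one, hf, sub_zero, zero_mul,
    zero_add, one_mul]
  by_cases hab : a = b
  · subst hab
    simp
  · simp [Matrix.one_apply_ne hab]

end GLTwo

/-! ## The twisted norm -/

section Final

variable {K K' k : Type} [Field K] [Field K'] [Field k] [Algebra K K'] [Algebra K k]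

theorem map_proj_glAut122 (s : K' ≃ₐ[K] K') (τ : K' →ₐ[K] k) (m : ℕ)
    (g : GL (Fin 2) (K' ⊗[K] k)) :
    Matrix.GeneralLinearGroup.map (projR122 s τ m) (T6.glAut (H584.tensorAut584 s) g)
      = Matrix.GeneralLinearGroup.map (projR122 s τ (m + 1)) g := by
  apply Units.ext
  ext a b
  exact proj122_aut s τ m (g a b)

theorem map_proj_twN_succ122 (s : K' ≃ₐ[K] K') (τ : K' →ₐ[K] k) (m n : ℕ)
    (δ : GL (Fin 2) (K' ⊗[K] k)) :
    Matrix.GeneralLinearGroup.map (projR122 s τ m)
        (T6.twN (T6.glAut (H584.tensorAut584 s)) (n + 1) δ)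
      = Matrix.GeneralLinearGroup.map (projR122 s τ m) δ
        * Matrix.GeneralLinearGroup.map (projR122 s τ (m + 1))
            (T6.twN (T6.glAut (H584.tensorAut584 s)) n δ) := by
  rw [T6.twN, map_mul, map_proj_glAut122]

theorem twN_ones122 (s : K' ≃ₐ[K] K') (τ : K' →ₐ[K] k) (D : ℕ → GL (Fin 2) k)
    (δ : GL (Fin 2) (K' ⊗[K] k))
    (hD : ∀ m, Matrix.GeneralLinearGroup.map (projR122 s τ m) δ = D m) (n : ℕ) :
    ∀ m : ℕ, (∀ i, i < n → D (m + i) = 1) →
      Matrix.GeneralLinearGroup.map (projR122 s τ m)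
        (T6.twN (T6.glAut (H584.tensorAut584 s)) n δ) = 1 := by
  induction n with
  | zero =>
    intro m _
    rw [T6.twN]
    exact map_one _
  | succ n ih =>
    intro m h
    rw [map_proj_twN_succ122, hD, ih (m + 1) (fun i hi => by
      have := h (i + 1) (by omega)
      rwa [show m + (i + 1) = m + 1 + i by ring] at this), mul_one]
    simpa using h 0 (by omega)

theorem twN_hit122 (s : K' ≃ₐ[K] K') (τ : K' →ₐ[K] k) (D : ℕ → GL (Fin 2) k)
    (δ : GL (Fin 2) (K' ⊗[K] k))
    (hD : ∀ m, Matrix.GeneralLinearGroup.map (projR122 s τ m) δ = D m) (γ : GL (Fin 2) k)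
    (n : ℕ) :
    ∀ m : ℕ, (∃ i, i < n ∧ D (m + i) = γ ∧ ∀ i', i' < n → i' ≠ i → D (m + i') = 1) →
      Matrix.GeneralLinearGroup.map (projR122 s τ m)
        (T6.twN (T6.glAut (H584.tensorAut584 s)) n δ) = γ := by
  induction n with
  | zero =>
    rintro m ⟨i, hi, -⟩
    omega
  | succ n ih =>
    rintro m ⟨i, hi, hγ, huniq⟩
    rw [map_proj_twN_succ122, hD]
    cases i with
    | zero =>
      rw [Nat.add_zero] at hγ
      rw [hγ, twN_ones122 s τ D δ hD n (m + 1) (fun i' hi' => by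
        have := huniq (i' + 1) (by omega) (Nat.succ_ne_zero i')
        rwa [show m + (i' + 1) = m + 1 + i' by ring] at this), mul_one]
    | succ i₀ =>
      have h0 : D m = 1 := by
        have := huniq 0 (by omega) (Nat.succ_ne_zero i₀).symm
        rwa [Nat.add_zero] at this
      rw [h0, one_mul]
      refine ih (m + 1) ⟨i₀, by omega, ?_, fun i' hi' hne => ?_⟩
      · rwa [show m + (i₀ + 1) = m + 1 + i₀ by ring] at hγ
      · have := huniq (i' + 1) (by omega) (by omega)
        rwa [show m + (i' + 1) = m + 1 + i' by ring] at this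

theorem eq_zero_or_eq_of_dvd122 {l t : ℕ} (h : l ∣ t) (ht : t < 2 * l) : t = 0 ∨ t = l := by
  obtain ⟨c, rfl⟩ := h
  have hl : 0 < l := by
    rcases Nat.eq_zero_or_pos l with h0 | h0
    · subst h0
      omega
    · exact h0
  have hc : c < 2 := by
    by_contra hc
    have hc' : 2 ≤ c := Nat.le_of_not_lt hc
    have : l * 2 ≤ l * c := Nat.mul_le_mul_left l hc'
    omega
  interval_cases c
  · left
    simp
  · right
    simp

end Final

/-- **T7.L2.1.M.N2 TENSOR-SPLIT**, VERBATIM. -/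
theorem tensorSplitC122 : H584.TensorSplitC584 := by
  intro K K' k _ _ _ _ _ _ _ s l hl hs τ γ
  have hord := orderOf_eq122 s l hl hs
  have hlpos : 0 < l := by
    rw [← hl]
    exact Module.finrank_pos
  obtain ⟨e, he⟩ := proj122_surj s l hl hs τ (fun j => if (j : ℕ) = 0 then 1 else 0)
  have hem : ∀ m, proj122 s τ m e = if l ∣ m then 1 else 0 := by
    intro m
    rw [proj122_mod s τ l hord m]
    have h1 := he ⟨m % l, Nat.mod_lt m hlpos⟩
    simp only at h1
    rw [h1]
    by_cases hm : l ∣ m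
    · rw [if_pos hm, if_pos (Nat.eq_zero_of_dvd_of_lt (by
        exact (Nat.dvd_mod_iff (dvd_refl l)).2 hm) (Nat.mod_lt m hlpos))]
    · rw [if_neg hm, if_neg]
      intro h0
      exact hm (Nat.dvd_of_mod_eq_zero h0)
  have hidem : e * e = e := by
    apply proj122_joint_inj s l hl hs τ
    intro j _
    rw [map_mul, hem]
    split_ifs <;> simp
  refine ⟨idemGL122 e hidem (Matrix.GeneralLinearGroup.map (H584.tensorIncl584 K K' k) γ), ?_⟩
  have hincl : ∀ m, Matrix.GeneralLinearGroup.map (projR122 s τ m)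
      (Matrix.GeneralLinearGroup.map (H584.tensorIncl584 K K' k) γ) = γ := by
    intro m
    apply Units.ext
    ext a b
    exact proj122_incl s τ m (γ a b)
  have hD : ∀ m, Matrix.GeneralLinearGroup.map (projR122 s τ m)
      (idemGL122 e hidem (Matrix.GeneralLinearGroup.map (H584.tensorIncl584 K K' k) γ))
        = if l ∣ m then γ else 1 := by
    intro m
    by_cases hm : l ∣ m
    · rw [if_pos hm, map_idemGL122_one _ _ _ _ (by rw [projR122_apply, hem, if_pos hm]), hincl]
    · rw [if_neg hm, map_idemGL122_zero _ _ _ _ (by rw [projR122_apply, hem, if_neg hm])]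
  apply Units.ext
  ext a b
  apply proj122_joint_inj s l hl hs τ
  intro j hj
  have h1 : Matrix.GeneralLinearGroup.map (projR122 s τ j)
      (T6.twNorm (H584.tensorAut584 s) l
        (idemGL122 e hidem (Matrix.GeneralLinearGroup.map (H584.tensorIncl584 K K' k) γ)))
      = γ := by
    unfold T6.twNorm
    apply twN_hit122 s τ (fun m => if l ∣ m then γ else 1) _ hD γ l j
    by_cases hj0 : j = 0
    · subst hj0
      refine ⟨0, hlpos, by simp, fun i' hi' hne => ?_⟩
      have : ¬ l ∣ 0 + i' := by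
        intro hd
        rcases eq_zero_or_eq_of_dvd122 hd (by omega) with h | h <;> omega
      simp only [if_neg this]
    · refine ⟨l - j, by omega, ?_, fun i' hi' hne => ?_⟩
      · have : l ∣ j + (l - j) := by
          rw [show j + (l - j) = l by omega]
        simp only [if_pos this]
      · have : ¬ l ∣ j + i' := by
          intro hd
          rcases eq_zero_or_eq_of_dvd122 hd (by omega) with h | h <;> omega
        simp only [if_neg this]
  have h2 := hincl j
  have e1 := congrArg (fun g : GL (Fin 2) k => g a b) h1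
  have e2 := congrArg (fun g : GL (Fin 2) k => g a b) h2
  exact e1.trans e2.symm

example : H584.TensorSplitC584 := tensorSplitC122

end Fermat.Agent.LT.T7.H122

end

end
-- ===== PACK-END LT/T7/H122/TensorSplit.lean

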