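import Mathlib
import Fermat.Agent.Pack.LT3.E20L1
import Fermat.Agent.Pack.LT3.E18L3
import Fermat.Agent.Pack.LT3.E20L2
import Fermat.Agent.Pack.LT3.E20L0
import Fermat.Agent.Pack.LT3.E4L1
import Fermat.Agent.Pack.LT2.E16L2
import Fermat.Agent.Pack.LT2.E0L2
import Fermat.Agent.Pack.LT2.E3L1
import Fermat.Agent.Pack.LT2.E0L1
import Fermat.Agent.Pack.LT3.E2L0
import Fermat.Agent.Pack.LT3.E8L0
import Fermat.Agent.Pack.LT2.E7L3
import Fermat.Agent.Pack.LT2.E9L2
import Fermat.Agent.Pack.LT2.E11L2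
import Fermat.Agent.Pack.LT2.E12L1
import Fermat.Agent.Pack.LT2.E13L3
import Fermat.Agent.Pack.LT2.E14L0
import Fermat.Agent.Pack.LT3.E10L1
import Fermat.Agent.Pack.LT3.E18L0
import Fermat.Agent.Pack.LT3.E19L2
import Fermat.Agent.Pack.LT2.E9L3
import Fermat.Agent.Pack.LT3.E19L0
import Fermat.Agent.Pack.LT2.E10L0
import Fermat.Agent.Pack.LT2.E10L1
import Fermat.Agent.Pack.LT3.E20L3

set_option linter.all false

-- ===== PACK-BEGIN LT/T6/H277/OrbEllFinal.lean
section




/-!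
# Row LT, tower T6, leaf T6.13.2 `OrbEllUnrC` -- CLOSED (helper277), OFF-MAIN

`orbEllUnrC277 : H60.OrbEllUnrC`, UNCONDITIONAL: the orbital integral of a spherical function at
a regular elliptic `γ` with `k[γ]/k` unramified is the weighted count `∑ f(λ) wGeo q r j λ` on
the tree of `k`.

Sub-leaves: helper546 (`PolyNFC`), helper926 (`DiscUnitC`), helper69 (`FixBallC`),
helper439 (`BallCountC`), helper293 + helper338 (`BTTreeC`), helper277 (`CompanionC`, `TorusC`,
assembly); shared lemmas of helper227 (unfolding), helper338 (tree counts), helper129 (Cartan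
decomposition, Newton), helper944 (`InU`, `InTwCentC`).
-/

set_option autoImplicit false

namespace Fermat.Agent.LT.T6.H277

open Fermat.Agent.LT.T6

/-- **T6.13.2 `OrbEllUnrC`**, unconditional. -/
theorem orbEllUnrC277 : H60.OrbEllUnrC :=
  orbEllUnr_of_torus277 torusC277

end Fermat.Agent.LT.T6.H277

end
-- ===== PACK-END LT/T6/H277/OrbEllFinal.lean

-- ===== PACK-BEGIN LT/T6/H855/HypMatch.lean
section



/-!
# Row LT, tower T6, registry row 1260 = T6.25 `ArchHyp` (helper855): THE HYPERBOLIC MATCHING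

OFF-MAIN.  `hypMatchC855 : H189.IwasawaRC → H189.U2HaarC → H189.IwasawaCC → H626.HypMatchC626`
(= T6.20d of the cut of helper626, VERBATIM): for all Haar measures the constant
`c' / (8 π c)` (`c`, `c'` the constants of the Iwasawa integration formulas of `μ`, `μ'`) is a
matching constant on `{disc > 0}`.
-/

set_option autoImplicit false

open scoped Matrix ENNReal
open MeasureTheory

noncomputable section

namespace Fermat.Agent.LT.T6.H855

open Fermat.Agent.LT.T6

section Match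

local instance borelGLR5_855 : MeasurableSpace (GL (Fin 2) ℝ) := borel _
local instance borelSpaceGLR5_855 : BorelSpace (GL (Fin 2) ℝ) := ⟨rfl⟩
local instance borelGLC5_855 : MeasurableSpace (GL (Fin 2) ℂ) := borel _
local instance borelSpaceGLC5_855 : BorelSpace (GL (Fin 2) ℂ) := ⟨rfl⟩
local instance borelT5_855 (γ : GL (Fin 2) ℝ) :
    MeasurableSpace (twCentSub (MonoidHom.id (GL (Fin 2) ℝ)) γ) := borel _
local instance borelSpaceT5_855 (γ : GL (Fin 2) ℝ) :
    BorelSpace (twCentSub (MonoidHom.id (GL (Fin 2) ℝ)) γ) := ⟨rfl⟩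

theorem det_conj855 (x γ : GL (Fin 2) ℝ) :
    ((x⁻¹ * γ * x : GL (Fin 2) ℝ) : Matrix (Fin 2) (Fin 2) ℝ).det
      = (γ : Matrix (Fin 2) (Fin 2) ℝ).det := by
  rw [← Matrix.GeneralLinearGroup.val_det_apply, ← Matrix.GeneralLinearGroup.val_det_apply,
    map_mul, map_mul, map_inv]
  simp [mul_comm]

theorem det_dgU855 (a b : ℝˣ) :
    ((dgU855 a b : GL (Fin 2) ℝ) : Matrix (Fin 2) (Fin 2) ℝ).det = (a : ℝ) * (b : ℝ) := by
  simp [Matrix.det_fin_two]

theorem det_conj_dgU855 (g : GL (Fin 2) ℝ) (a b : ℝˣ) :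
    ((g * dgU855 a b * g⁻¹ : GL (Fin 2) ℝ) : Matrix (Fin 2) (Fin 2) ℝ).det
      = (a : ℝ) * (b : ℝ) := by
  have h := det_conj855 g⁻¹ (dgU855 a b)
  rw [inv_inv] at h
  rw [h, det_dgU855]

/-- The sections of `IsAbelRel626`. -/
theorem abel_section_real855 (a b : ℝˣ) (x : ℝ) :
    ((dgU855 a b * nU855 x : GL (Fin 2) ℝ) : Matrix (Fin 2) (Fin 2) ℝ)
      = !![(a : ℝ), (a : ℝ) * x; 0, (b : ℝ)] := by
  rw [Units.val_mul, dgU_coe855, nU_coe855]
  ext i j
  fin_cases i <;> fin_cases j <;> simp [Matrix.mul_apply, Fin.sum_univ_two]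

theorem abel_section_cplx855 (s t : ℝˣ) (w : ℂ) :
    ((iotaC855 (dgU855 s t) * nU855 w : GL (Fin 2) ℂ) : Matrix (Fin 2) (Fin 2) ℂ)
      = !![((s : ℝ) : ℂ), ((s : ℝ) : ℂ) * w; 0, ((t : ℝ) : ℂ)] := by
  rw [iota_dgU855, Units.val_mul, dgU_coe855, nU_coe855]
  ext i j
  fin_cases i <;> fin_cases j <;> simp [Matrix.mul_apply, Fin.sum_univ_two]

/-- The Abel relation at `diag(a, b)`, `a, b > 0`, in terms of `dgU855`, `nU855`. -/
theorem abelRel_apply855 (cm : ℂ) (φ : GL (Fin 2) ℂ → ℂ) (f₀ f₁ : GL (Fin 2) ℝ → ℂ)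
    (hA : H626.IsAbelRel626 cm φ f₀ f₁) (a b : ℝˣ) (ha : 0 < (a : ℝ)) (hb : 0 < (b : ℝ)) :
    ∃ s t : ℝˣ, (s : ℝ) ^ 2 = (a : ℝ) ∧ (t : ℝ) ^ 2 = (b : ℝ) ∧
      (∫ x : ℝ, f₀ (dgU855 a b * nU855 x))
        = cm * ∫ w : ℂ, φ (iotaC855 (dgU855 s t) * nU855 w) ∧
      (∫ x : ℝ, f₁ (dgU855 a b * nU855 x))
        = cm * ∫ w : ℂ, φ (iotaC855 (dgU855 s t) * nU855 w) := by
  have hsa : Real.sqrt (a : ℝ) ≠ 0 := (Real.sqrt_pos.mpr ha).ne'
  have hsb : Real.sqrt (b : ℝ) ≠ 0 := (Real.sqrt_pos.mpr hb).ne'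
  refine ⟨Units.mk0 _ hsa, Units.mk0 _ hsb, by simp [Real.sq_sqrt ha.le],
    by simp [Real.sq_sqrt hb.le], ?_⟩
  exact hA (a : ℝ) (b : ℝ) ha hb (fun x => dgU855 a b * nU855 x)
    (fun w => iotaC855 (dgU855 (Units.mk0 _ hsa) (Units.mk0 _ hsb)) * nU855 w)
    (fun x => abel_section_real855 a b x)
    (fun w => by rw [abel_section_cplx855]; rfl)

/-- **T6.25 = T6.20d: the hyperbolic matching**, from the Iwasawa integration formulas. -/
theorem hypMatchC855 (hR : H189.IwasawaRC) (hU : H189.U2HaarC) (hC : H189.IwasawaCC) :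
    H626.HypMatchC626 := by
  intro μ μ' hμ hμ'
  have : μ.IsHaarMeasure := hμ
  have : μ'.IsHaarMeasure := hμ'
  obtain ⟨c, hc0, hctop, hcμ⟩ := hR μ hμ
  obtain ⟨κ, hκ⟩ := hU
  obtain ⟨c', hc'0, hc'top, hc'μ⟩ := hC κ hκ μ' hμ'
  have hcpos : 0 < c.toReal := ENNReal.toReal_pos hc0 hctop
  have hc'pos : 0 < c'.toReal := ENNReal.toReal_pos hc'0 hc'top
  refine ⟨c'.toReal / (8 * Real.pi * c.toReal), by positivity, ?_⟩
  intro n hn φ f₀ f₁ hφ hf₀ hf₁ hA γ _ hdisc μT hμT β hβ hβ0 hβ1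
  have hodd : Odd n := by
    rcases hn with h | h
    · rw [h]; exact odd_one
    · rw [h]; exact Odd.neg odd_one
  obtain ⟨g, a, b, hab, hγ⟩ := exists_diag855 γ hdisc
  subst hγ
  have : μT.IsHaarMeasure := hμT
  obtain ⟨cT, hcT0, hcT⟩ := exists_torusConst855 g a b hab μT
  -- the function `f₀ + f₁`
  have hfc : Continuous (fun x => f₀ x + f₁ x) := hf₀.cont.add hf₁.cont
  have hfs : HasCompactSupport (fun x => f₀ x + f₁ x) := hf₀.supp.add hf₁.supp
  have hfk : ∀ k x : GL (Fin 2) ℝ, InSO2 k →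
      (fun x => f₀ x + f₁ x) (k⁻¹ * x * k) = (fun x => f₀ x + f₁ x) x := by
    intro k x hk
    simp only
    rw [conj_inv_of_weight855 0 f₀ hf₀.left hf₀.right hk,
      conj_inv_of_weight855 n f₁ hf₁.left hf₁.right hk]
  have hO := orbR855 μ c hctop hcμ g a b hab μT cT hcT (fun x => f₀ x + f₁ x) hfc hfs hfk
    β hβ hβ0 hβ1
  have hsplit : ∫ v : ℝ, (fun x => f₀ x + f₁ x) (dgU855 a b * nU855 v)
      = (∫ v : ℝ, f₀ (dgU855 a b * nU855 v)) + ∫ v : ℝ, f₁ (dgU855 a b * nU855 v) :=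
    integral_add (integrable_abel855 volume f₀ hf₀.cont hf₀.supp _)
      (integrable_abel855 volume f₁ hf₁.cont hf₁.supp _)
  rw [hsplit] at hO
  constructor
  · -- matching
    intro δ hδ β' hβ' hβ'0 hβ'1
    have hδ₀ : twNorm (starRingAut : ℂ ≃+* ℂ) 2 ((iotaC855 g)⁻¹ * δ * iotaC855 g)
        = iotaC855 (dgU855 a b) := by
      rw [twNorm_two855] at hδ ⊢
      rw [map_mul, map_mul, map_inv, glAut_iota855]
      calc (iotaC855 g)⁻¹ * δ * iotaC855 g
            * ((iotaC855 g)⁻¹ * glAut (starRingAut : ℂ ≃+* ℂ) δ * iotaC855 g)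
          = (iotaC855 g)⁻¹ * (δ * glAut (starRingAut : ℂ ≃+* ℂ) δ) * iotaC855 g := by group
        _ = (iotaC855 g)⁻¹ * iotaC855 (g * dgU855 a b * g⁻¹) * iotaC855 g := by rw [hδ]
        _ = iotaC855 (dgU855 a b) := by
            rw [map_mul, map_mul, map_inv]
            group
    obtain ⟨d₁, d₂, hdd, hd₁, hd₂⟩ := delta_diag855 a b hab _ hδ₀
    have hδeq : δ = iotaC855 g * dgU855 d₁ d₂ * (iotaC855 g)⁻¹ := by
      rw [← hdd]
      group
    have ha : 0 < (a : ℝ) := by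
      have h1 : (0 : ℝ) ≤ (a : ℝ) := by rw [← hd₁]; exact Complex.normSq_nonneg _
      exact lt_of_le_of_ne h1 (Ne.symm a.ne_zero)
    have hb : 0 < (b : ℝ) := by
      have h1 : (0 : ℝ) ≤ (b : ℝ) := by rw [← hd₂]; exact Complex.normSq_nonneg _
      exact lt_of_le_of_ne h1 (Ne.symm b.ne_zero)
    obtain ⟨s, t, hsa, htb, hA₀, hA₁⟩ := abelRel_apply855 _ φ f₀ f₁ hA a b ha hb
    have hTO := orbC855 μ' c' hc'top κ hκ hc'μ g a b hab μT cT hcT φ hφ.cont hφ.supp
      hφ.left hφ.right d₁ d₂ hd₁ hd₂ s t hsa htb β' hβ' hβ'0 hβ'1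
    rw [← hδeq] at hTO
    refine hO.trans (Eq.trans ?_ hTO.symm)
    rw [hA₀, hA₁]
    push_cast
    have hπ : (Real.pi : ℂ) ≠ 0 := by exact_mod_cast Real.pi_ne_zero
    have hc1 : ((c.toReal : ℝ) : ℂ) ≠ 0 := by exact_mod_cast hcpos.ne'
    field_simp
    ring
  · -- non-norms
    intro hnn
    rcases lt_or_gt_of_ne (a.ne_zero) with ha | ha
    · rcases lt_or_gt_of_ne (b.ne_zero) with hb | hb
      · -- both eigenvalues negative
        have ha' : 0 < ((-a : ℝˣ) : ℝ) := by simpa using ha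
        have hb' : 0 < ((-b : ℝˣ) : ℝ) := by simpa using hb
        obtain ⟨s, t, -, -, hA₀, hA₁⟩ := abelRel_apply855 _ φ f₀ f₁ hA (-a) (-b) ha' hb'
        have hneg : dgU855 a b = negOne855 * dgU855 (-a) (-b) := by
          rw [negOne_mul_dgU855]
          simp
        have h0 : ∀ v : ℝ, f₀ (dgU855 a b * nU855 v) = f₀ (dgU855 (-a) (-b) * nU855 v) := by
          intro v
          rw [hneg, mul_assoc, even_of_weight_zero855 f₀ hf₀.left]
        have h1 : ∀ v : ℝ, f₁ (dgU855 a b * nU855 v) = -f₁ (dgU855 (-a) (-b) * nU855 v) := by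
          intro v
          rw [hneg, mul_assoc, odd_of_weight_odd855 n hodd f₁ hf₁.left]
        simp_rw [h0, h1] at hO
        rw [integral_neg, hA₀, hA₁] at hO
        rw [hO]
        ring
      · -- determinant negative
        have hdet : (a : ℝ) * (b : ℝ) < 0 := mul_neg_of_neg_of_pos ha hb
        refine (integral_congr_ae (Filter.Eventually.of_forall (fun x => ?_))).trans
          (integral_zero _ _)
        have hz : ∀ f : GL (Fin 2) ℝ → ℂ,
            (∀ y : GL (Fin 2) ℝ, f y ≠ 0 → 0 < (y : Matrix (Fin 2) (Fin 2) ℝ).det) →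
            f (x⁻¹ * (g * dgU855 a b * g⁻¹) * x) = 0 := by
          intro f hpos
          by_contra hne
          have := hpos _ hne
          rw [det_conj855, det_conj_dgU855] at this
          linarith
        simp only [hz f₀ hf₀.pos, hz f₁ hf₁.pos, add_zero, zero_mul]
    · rcases lt_or_gt_of_ne (b.ne_zero) with hb | hb
      · -- determinant negative
        have hdet : (a : ℝ) * (b : ℝ) < 0 := mul_neg_of_pos_of_neg ha hb
        refine (integral_congr_ae (Filter.Eventually.of_forall (fun x => ?_))).trans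
          (integral_zero _ _)
        have hz : ∀ f : GL (Fin 2) ℝ → ℂ,
            (∀ y : GL (Fin 2) ℝ, f y ≠ 0 → 0 < (y : Matrix (Fin 2) (Fin 2) ℝ).det) →
            f (x⁻¹ * (g * dgU855 a b * g⁻¹) * x) = 0 := by
          intro f hpos
          by_contra hne
          have := hpos _ hne
          rw [det_conj855, det_conj_dgU855] at this
          linarith
        simp only [hz f₀ hf₀.pos, hz f₁ hf₁.pos, add_zero, zero_mul]
      · -- both eigenvalues positive: a norm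
        exact absurd (isNormFrom_of_pos855 g a b ha hb) hnn

end Match

end Fermat.Agent.LT.T6.H855

end

end
-- ===== PACK-END LT/T6/H855/HypMatch.lean

-- ===== PACK-BEGIN LT/T6/H865/TwEllCount.lean
section




/-!
# Row LT, tower T6, leaf T6.13.3b.4 (`TwNFCountC865`) -- assembly (helper865), OFF-MAIN

`twNFCount_of_leaves865 :
  H90rC865 → FixSigmaC865 → OutsideC865 → CongFixC865 → H277.BallCountC → TwNFCountC865` (PROVED).

In twisted normal form `N u = a + ϖ^r W`: by `H90rC865` `g₁ = y⁻¹ u s(y) = c₀ (1 + ϖ^r m)` with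
`y ∈ GL₂(𝒪')`; `(y⁻¹ W y, g₁)` is again in twisted normal form (`isTwNF_conj865`); the twisted
action `G` of `g₁` fixes `o = [1]`; a fixed vertex has distance `≤ r` from `o` (`OutsideC865` and
`fixed_par338`); on the ball of radius `r` the left translation by `g₁` is the identity
(`CongFixC865`), so `G = s` there; the vertices of the ball fixed by `s` are the image of the
ball of radius `r` of the tree of `k` (`FixSigmaC865`, `cdist340_map60`), which has
`ballCard q r` elements (`BallCountC`).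
-/

set_option autoImplicit false
set_option linter.unusedSectionVars false

open scoped Matrix

noncomputable section

namespace Fermat.Agent.LT.T6.H865

open Fermat.Agent.LT.T6 Fermat.Agent.LT.T6.H60 Fermat.Agent.LT.H338 Fermat.Agent.LT.T6.H340
  Fermat.Agent.LT.T6.H277 Fermat.Agent.LT.H129

section Aux

variable {k' : Type} [Field k'] [Valued k' Γ₀]

theorem inU_glAut865 (s : k' ≃+* k') (hs : ∀ y : k', Valued.v (s y) = Valued.v y)
    {y : GL (Fin 2) k'} (hy : InU 0 y) : InU 0 (glAut s y) := by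
  have key : ∀ (g : GL (Fin 2) k') (a b : Fin 2),
      ((glAut s g : GL (Fin 2) k') : Matrix (Fin 2) (Fin 2) k') a b
          - (1 : Matrix (Fin 2) (Fin 2) k') a b
        = s ((g : Matrix (Fin 2) (Fin 2) k') a b - (1 : Matrix (Fin 2) (Fin 2) k') a b) := by
    intro g a b
    rw [coe_glAut340, map_sub]
    congr 1
    by_cases hab : a = b
    · subst hab; simp
    · simp [hab]
  intro a b
  refine ⟨?_, ?_⟩
  · rw [key, hs]; exact (hy a b).1
  · rw [← map_inv, key, hs]; exact (hy a b).2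

/-- The twisted norm of a twisted conjugate. -/
theorem twNorm_twconj865 (s : k' ≃+* k') (d x : GL (Fin 2) k') (n : ℕ) :
    twNorm s n (x⁻¹ * d * glAut s x) = x⁻¹ * twNorm s n d * (glAut s)^[n] x := by
  induction n with
  | zero =>
    show (1 : GL (Fin 2) k') = x⁻¹ * 1 * x
    group
  | succ n ih =>
    have e1 : twNorm s (n + 1) (x⁻¹ * d * glAut s x)
        = (x⁻¹ * d * glAut s x) * glAut s (twNorm s n (x⁻¹ * d * glAut s x)) := rfl
    have e2 : twNorm s (n + 1) d = d * glAut s (twNorm s n d) := rfl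
    rw [e1, e2, ih, Function.iterate_succ_apply', map_mul, map_mul, map_inv]
    group

theorem depth_mk865 (x : GL (Fin 2) k') : btDist340 (btMk340 1) (btMk340 x) = cdist340 x := by
  rw [btDist340_mk, inv_one, one_mul]

theorem inU_int865 {g : GL (Fin 2) k'} (hg : InU 0 g) (a b : Fin 2) :
    Valued.v ((g : Matrix (Fin 2) (Fin 2) k') a b) ≤ 1 := by
  have h := ((inU_zero_iff129 g).1 hg).1 a b
  exact (mem_vO129 _).1 h

end Aux

section Conj

variable {k k' : Type} [Field k] [Field k'] [Valued k Γ₀] [Valued k' Γ₀]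

/-- The twisted normal form is stable under twisted conjugation by `y ∈ GL₂(𝒪')`. -/
theorem isTwNF_conj865 {q l : ℕ} {i : k →+* k'} {s : k' ≃+* k'} (hU : IsUnrExt865 q l i s)
    {ϖ a t' n' : k} {r : ℕ} {W u : GL (Fin 2) k'} (h : IsTwNF865 l i s ϖ a t' n' r W u)
    {y : GL (Fin 2) k'} (hy : InU 0 y) :
    IsTwNF865 l i s ϖ a t' n' r (y⁻¹ * W * y) (y⁻¹ * u * glAut s y) := by
  have hyy : ((y⁻¹ : GL (Fin 2) k') : Matrix (Fin 2) (Fin 2) k')
      * (y : Matrix (Fin 2) (Fin 2) k') = 1 := by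
    rw [← Matrix.GeneralLinearGroup.coe_mul, inv_mul_cancel]; rfl
  have hyy' : (y : Matrix (Fin 2) (Fin 2) k')
      * ((y⁻¹ : GL (Fin 2) k') : Matrix (Fin 2) (Fin 2) k') = 1 := by
    rw [← Matrix.GeneralLinearGroup.coe_mul, mul_inv_cancel]; rfl
  refine ⟨h.unif, h.a_int, h.t_int, h.n_unit, h.irr, ?_, ?_, ?_, ?_, ?_⟩
  · exact inU_zero_mul129 (inU_zero_mul129 (inU_zero_inv129 hy) h.W_int) hy
  · exact inU_zero_mul129 (inU_zero_mul129 (inU_zero_inv129 hy) h.u_int)
      (inU_glAut865 s hU.hext.val_s hy)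
  · rw [Matrix.GeneralLinearGroup.coe_mul, Matrix.GeneralLinearGroup.coe_mul,
      Matrix.trace_mul_cycle, hyy', one_mul]
    exact h.W_tr
  · rw [Matrix.GeneralLinearGroup.coe_mul, Matrix.GeneralLinearGroup.coe_mul,
      Matrix.det_mul, Matrix.det_mul, mul_right_comm, ← Matrix.det_mul, hyy, Matrix.det_one,
      one_mul]
    exact h.W_det
  · rw [twNorm_twconj865, iterate_glAut60 s l hU.hext.cyc.order,
      Matrix.GeneralLinearGroup.coe_mul, Matrix.GeneralLinearGroup.coe_mul, h.norm_eq,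
      Matrix.GeneralLinearGroup.coe_mul, Matrix.GeneralLinearGroup.coe_mul,
      Matrix.mul_add, Matrix.add_mul, Matrix.mul_smul, Matrix.smul_mul, Matrix.mul_one, hyy,
      Matrix.mul_smul, Matrix.smul_mul]

end Conj

section Tree

variable {V : Type} {d : V → V → ℕ} (hd : IsTreeDist338 d) (g : V → V)
  (hg : ∀ x y, d (g x) (g y) = d x y) (o : V) (ho : g o = o)

include hd hg ho in
/-- Below a fixed vertex there are fixed vertices of every smaller depth. -/
theorem exists_fixed_depth865 : ∀ (m : ℕ) (p : V), g p = p → ∀ n : ℕ, d o p = n + m →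
    ∃ p', g p' = p' ∧ d o p' = n := by
  intro m
  induction m with
  | zero => intro p hp n hn; exact ⟨p, hp, hn⟩
  | succ m ih =>
    intro p hp n hn
    have hop : o ≠ p := root_ne_of_depth338 hd o (n := n + m) (by omega)
    have h1 := par338_depth hd o hop
    exact ih (par338 hd o p) (fixed_par338 hd g hg o ho hp) n (by omega)

end Tree

section Iota

variable {k k' : Type} [Field k] [Field k'] [Valued k Γ₀] [Valued k' Γ₀]

/-- The map of the tree of `k` into the tree of `k'` (`k'/k` unramified). -/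
def btIota865 (i : k →+* k') (hi : ∀ x : k, Valued.v (i x) = Valued.v x) :
    BTVert340 k → BTVert340 k' :=
  Quotient.map (sa := btSetoid340 k) (sb := btSetoid340 k')
    (fun x => Matrix.GeneralLinearGroup.map i x)
    (fun x y (h : cdist340 (x⁻¹ * y) = 0) => by
      show cdist340 ((Matrix.GeneralLinearGroup.map i x)⁻¹ * Matrix.GeneralLinearGroup.map i y)
        = 0
      rw [← map_inv, ← map_mul, cdist340_map60 i hi]; exact h)

theorem btIota865_mk (i : k →+* k') (hi : ∀ x : k, Valued.v (i x) = Valued.v x)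
    (x : GL (Fin 2) k) :
    btIota865 i hi (btMk340 x) = btMk340 (Matrix.GeneralLinearGroup.map i x) := rfl

theorem btIota865_dist (i : k →+* k') (hi : ∀ x : k, Valued.v (i x) = Valued.v x)
    (p p' : BTVert340 k) :
    btDist340 (btIota865 i hi p) (btIota865 i hi p') = btDist340 p p' := by
  obtain ⟨x, rfl⟩ := btMk340_surjective p
  obtain ⟨x', rfl⟩ := btMk340_surjective p'
  rw [btIota865_mk, btIota865_mk, btDist340_mk, btDist340_mk, ← map_inv, ← map_mul,
    cdist340_map60 i hi]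

theorem btIota865_injective (i : k →+* k') (hi : ∀ x : k, Valued.v (i x) = Valued.v x) :
    Function.Injective (btIota865 i hi) := by
  intro p p' h
  rw [← btDist340_eq_zero, ← btIota865_dist i hi, h]
  exact (btDist340_eq_zero _ _).2 rfl

end Iota

section Main

variable {k k' : Type} [Field k] [Field k'] [Valued k Γ₀] [Valued k' Γ₀]

theorem val_i865 {q l : ℕ} {i : k →+* k'} {s : k' ≃+* k'} (hU : IsUnrExt865 q l i s) (x : k) :
    Valued.v (i x) = Valued.v x := by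
  rw [hU.hext.val_i, pow_one]

/-- The fixed vertices of the twisted action of `g₁ = c₀ (1 + ϖ^r m)` in twisted normal form
are the image of the ball of radius `r` of the tree of `k`. -/
theorem fix_eq_ball865 (hS : FixSigmaC865) (hO : OutsideC865) (hG : CongFixC865)
    {q l : ℕ} {i : k →+* k'} {s : k' ≃+* k'} (hU : IsUnrExt865 q l i s)
    {ϖ a t' n' : k} {r : ℕ} {W g₁ : GL (Fin 2) k'} (h : IsTwNF865 l i s ϖ a t' n' r W g₁)
    {c₀ : k'} {m : Matrix (Fin 2) (Fin 2) k'} (hm : ∀ b c, Valued.v (m b c) ≤ 1)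
    (hg₁ : (g₁ : Matrix (Fin 2) (Fin 2) k')
      = c₀ • ((1 : Matrix (Fin 2) (Fin 2) k') + i ϖ ^ r • m)) :
    {p | btTw340 s hU.hext.val_s g₁ p = p}
      = btIota865 i (val_i865 hU) ''
          {p₀ : BTVert340 k | btDist340 (btMk340 1) p₀ ≤ r} := by
  have hs := hU.hext.val_s
  have hd' := isTreeDist_btDist340 hU.hk'
  have hϖ' : Valued.v (i ϖ) = WithZero.exp (-1 : ℤ) := by rw [val_i865 hU]; exact h.unif
  have hGo : btTw340 s hs g₁ (btMk340 1) = btMk340 1 := by
    rw [btTw340_mk, map_one, mul_one, btMk340_eq_iff, mul_one]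
    exact cdist340_of_inU (inU_zero_inv129 h.u_int)
  have hiso := btDist340_tw s hs g₁
  have hσo : btAut340 s hs (btMk340 1) = btMk340 1 := by rw [btAut340_mk, map_one]
  have hσd : ∀ p, btDist340 (btMk340 1) (btAut340 s hs p) = btDist340 (btMk340 1) p := by
    intro p
    conv_lhs => rw [← hσo]
    exact btDist340_aut s hs _ _
  have hdepth : ∀ x : GL (Fin 2) k', btDist340 (btMk340 1) (btMk340 x) = cdist340 x := by
    intro x; rw [btDist340_mk, inv_one, one_mul]
  have cong : ∀ p, btDist340 (btMk340 1) p ≤ r → btMul340 g₁ p = p := by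
    intro p hp
    obtain ⟨x, rfl⟩ := btMk340_surjective p
    rw [hdepth] at hp
    have h1 := hG k' (q ^ l) hU.hk' (i ϖ) c₀ r g₁ m hϖ' h.u_int hm hg₁ x hp
    rw [btMul340_mk, btMk340_eq_iff]
    have e : (g₁ * x)⁻¹ * x = (x⁻¹ * g₁ * x)⁻¹ := by group
    rw [e, cdist340_inv]
    exact h1
  ext p
  constructor
  · intro hp
    have hp' : btTw340 s hs g₁ p = p := hp
    have hle : btDist340 (btMk340 1) p ≤ r := by
      by_contra hlt
      obtain ⟨p', hp'fix, hp'd⟩ := exists_fixed_depth865 hd' (btTw340 s hs g₁) hiso (btMk340 1) hGo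
        (btDist340 (btMk340 1) p - (r + 1)) p hp' (r + 1) (by omega)
      exact hO k k' q l i s hU ϖ a t' n' r W g₁ h p' hp'd hp'fix
    have hσp : btAut340 s hs p = p := by
      have h1 : btMul340 g₁ (btAut340 s hs p) = p := hp'
      rw [cong _ (by rw [hσd]; exact hle)] at h1
      exact h1
    obtain ⟨x, rfl⟩ := btMk340_surjective p
    obtain ⟨x₀, hx₀⟩ := hS k k' q l i s hU x hσp
    refine ⟨btMk340 x₀, ?_, ?_⟩
    · show btDist340 (btMk340 1) (btMk340 x₀) ≤ r
      rw [depth_mk865, ← cdist340_map60 i (val_i865 hU), ← hdepth, hx₀]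
      exact hle
    · rw [btIota865_mk]; exact hx₀
  · rintro ⟨p₀, hp₀, rfl⟩
    obtain ⟨x₀, rfl⟩ := btMk340_surjective p₀
    have hp₀' : btDist340 (btMk340 1) (btMk340 x₀) ≤ r := hp₀
    rw [depth_mk865] at hp₀'
    rw [btIota865_mk]
    show btMul340 g₁ (btAut340 s hs (btMk340 (Matrix.GeneralLinearGroup.map i x₀)))
      = btMk340 (Matrix.GeneralLinearGroup.map i x₀)
    rw [btAut340_mk, H166.glAut_map166 i s hU.hext.cyc.fix_i]
    apply cong
    rw [hdepth, cdist340_map60 i (val_i865 hU)]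
    exact hp₀'

/-- **T6.13.3b.4 from its leaves.** -/
theorem twNFCount_of_leaves865 (hH : H90rC865) (hS : FixSigmaC865) (hO : OutsideC865)
    (hG : CongFixC865) (hB : BallCountC) : TwNFCountC865 := by
  intro k k' _ _ _ _ q l i s hU ϖ a t' n' r W u hNF
  have hs := hU.hext.val_s
  obtain ⟨y, c₀, m, hy, -, hm, hyeq⟩ := hH k k' q l i s hU ϖ a r u
    (W : Matrix (Fin 2) (Fin 2) k') hNF.unif hNF.u_int (inU_int865 hNF.W_int) hNF.norm_eq
  have hNF' := isTwNF_conj865 hU hNF hy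
  have h1 : y⁻¹ * u * glAut s y = scal340 1 one_ne_zero * (y⁻¹ * u * glAut s y) := by
    apply ext_mat129
    ext a b
    rw [scal340_mul_apply, one_mul]
  have hset : {p | btTw340 s hU.hext.val_s u p = p}
      = btMul340 y '' (btIota865 i (val_i865 hU) ''
          {p₀ : BTVert340 k | btDist340 (btMk340 1) p₀ ≤ r}) := by
    rw [fix_conj865 s hs one_ne_zero h1, fix_eq_ball865 hS hO hG hU hNF' hm hyeq]
  have hball := hB (BTVert340 k) btDist340 q (isTreeDist_btDist340 hU.hk)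
    (ncard_nb_btDist340 hU.hk) (btMk340 1) r
  have hpos : 0 < ballCard q r := by unfold ballCard; omega
  have hfin : {p₀ : BTVert340 k | btDist340 (btMk340 1) p₀ ≤ r}.Finite :=
    Set.finite_of_ncard_pos (by rw [hball]; exact hpos)
  rw [hset]
  refine ⟨(hfin.image _).image _, ?_⟩
  rw [Set.ncard_image_of_injective _ (btMul340_injective865 y),
    Set.ncard_image_of_injective _ (btIota865_injective i (val_i865 hU)), hball]

end Main

end Fermat.Agent.LT.T6.H865

end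
end
-- ===== PACK-END LT/T6/H865/TwEllCount.lean

-- ===== PACK-BEGIN LT/T7/H305/MatchSpec.lean
section



/-!
# Row LT, tower T7, node T7.L2.1 `SupplyC`, field `matched` (deputy helper305): FIRST CUT -- Spec

OFF-MAIN.  Definitions and frozen Props only (the proved top is `MatchTop.lean`).  No hole,
nothing assumed.  ADDITIVE (new names only, suffix `305`).  Vocabulary: `T7/Level2.lean`
(helper797, sha256 1551664660339642) and its imports (`T5/Spec` v4, `T6/Spec` v3, A0),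
byte-identical copies.

    globMatch_of305 : IotaC305 K K' → UnfoldC305 K → UnfoldC305 K' → TorCommC305 K →
        TorCommC305 K' → TwistRepC305 K' → EllRegC305 K K' → TorHaarC305 K → TorMeasC305 K K' →
        TorCompC305 K K' → CutIntC305 K K' → GlobMatchC305 K K'
    (asset leaf, used by the proofs of the leaves: `SigmaLocC305`, the local form of `s.σA`)

## The node

`GlobMatchC305 K K'`: GLOBAL MATCHING FROM LOCAL MATCHING.  `K'/K` cyclic of odd prime degree
`l`, `K` totally complex, `D` the data of the comparison, `T` a finite set of places of `K`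
(containing the places which ramify in `K'`), `T'` the places of `K'` over `T`, local levels
`n w` (upstairs), `m v` (downstairs), `μc` a Haar measure of `GL₂(ℂ)`.  There is a constant
`κ ≠ 0` (depending on `D`, `n`, `m`, `μc` and a BASE set `T₀` outside which the levels are `0`
ONLY, the same for all `T ⊇ T₀`: the words enlarge `T`) such that for all local components
`φ₀ w`, `Φ w'` (upstairs), `f₀ v`, `F v'` (downstairs) which are LOCALLY MATCHED in the form of
T6 (`LocHyp305`): the pure tensor `φ'` over `K'` and `κ` times the pure tensor `f` over `K` are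
MATCHED in the sense of `T7.IsGlobMatch D` (if they are test functions).

## The cut (first level)

For `δ ∈ GL₂(K')` with `N δ = γ ∈ GL₂(K)` elliptic, `T_𝔸(δ)` = the twisted centraliser of `δ` in
`GL₂(𝔸_{K'})` (`tA305`), `μT` a Haar measure of it, `β` a CUT-OFF function
(`∫_{T_𝔸} β(t x) dμT(t) = 1` on the support of the integrand; `IsCutOn305`):

    ∫_{F_δ} φ♭(x⁻¹ δ σ(x)) dμ(x)  =  μT(T(K) \ T_𝔸 ∩ slab) · ∫_{G(𝔸)} φ♭(y⁻¹ δ σ(y)) β(y) dμ(y)

* **`UnfoldC305 K`** (LEAF, ONE field; Fubini): the displayed identity, for every test function,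
  every Haar measure `μT`, every cut-off.  NO integrability hypothesis, NO finiteness of the
  volume (with the conventions `∞.toReal = 0`, Bochner integral `0` for non-integrable
  functions, the identity holds in all cases: Tonelli gives
  `∫⁻_{F_δ} ‖Ψ‖ = vol · ∫⁻ ‖Ψ‖ β` in `[0, ∞]`).
* **`TwistRepC305 K'`** (LEAF, ONE field): change of the representative `δ` in its
  `σ`-conjugacy class (to make `N δ = γ` EXACT).
* **`EllRegC305 K K'`** (LEAF, algebra): `T6.IsEll γ` gives `T5.IsEllRegOver`.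
* **`IotaC305 K K'`** (LEAF/NODE): the base change `ι : 𝔸_K → 𝔸_{K'}` of adeles exists
  (`RestrictedProduct.mapAlongRingHom` from the local embeddings `K_v → K'_w`).
* **`TorHaarC305 K`**, **`TorMeasC305 K K'`** (LEAVES): Haar measures on the tori; `ι` maps
  `T_𝔸(γ)` ISOMORPHICALLY onto `T_𝔸(δ)` (adelic form of `T6.TwCentC`) and transports the measure.
* **`TorCompC305 K K'`** (LEAF): `vol(γ) = l · vol(δ)` for linked measures
  (`‖det ι(t)‖_{K'} = ‖det t‖_K^l`, translation by the ray generator `r'` upstairs).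
* **`CutIntC305 K K'`** (NODE, the core; second cut `MatchCut.lean`): for locally matched pure
  tensors the cut-off integrals upstairs and downstairs agree up to the constant `κ`, for
  suitable PRODUCT cut-offs; they vanish downstairs if `γ` is not a norm (`T6.NormImageTCC`).
  Inputs: splitting of the Haar measures at `T_δ ∪ S_∞`, `T6.OrbSumIntC`, `T6.FundLemmaC` for the
  unit element outside `T`, Fubini at the split places (`T6.SplitInt3C` and its general form).

FALSITY CHECKS (helper305): constants: `κ = c'_G / c_G`, `c_G` = the constant of `μ` against the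
product of the local Haar measures normalised by `vol U(m_v) = 1`, `vol GL₂(𝒪_v) = 1` outside
`T`, `μc` at infinity; the constant of the torus measure cancels (same torus upstairs and
downstairs, linked measures); the factor `l` of the rays is the factor of `TorCompC305`.  The
set `T_δ = T ∪ {v : γ is not in GL₂(𝒪_v) or its discriminant is not a unit}` depends on `δ`, the
constants do not (units at the new places, volume one).  Order at a split place: `w j =
σ(w (j+1))` (`T5.PlaceRel s (w (j+1)) (w j)`) is the convention of `T6.shiftHom`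
(`(σ y)_w = y_{σ⁻¹ w}` in the coordinates of `K_v`).
-/

set_option autoImplicit false

open AutomorphicForm IsDedekindDomain NumberField MeasureTheory
open scoped ComplexConjugate

noncomputable section

namespace Fermat.Agent.LT.T7.H305

open Fermat.Agent.LT.H556 Fermat.Agent.LT.H556.A0 Fermat.Agent.LT.T7

attribute [local instance] Fermat.Agent.LT.T5.instMeasurableSpaceG

/-! ## 1. One field: components, pure tensors, tori, cut-offs -/

section OneField

variable {K : Type} [Field K] [NumberField K]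

/-- The component at the finite place `v`, in `GL₂(K_v)`. -/
def finGL305 (v : HeightOneSpectrum (𝓞 K)) : G K →* GL (Fin 2) (v.adicCompletion K) :=
  Matrix.GeneralLinearGroup.map (T5.finHom v)

/-- The component at the infinite place `w`, in `GL₂(ℂ)`. -/
def infGL305 (w : InfinitePlace K) : G K →* GL (Fin 2) ℂ :=
  Matrix.GeneralLinearGroup.map (T5.infHom w)

/-- `h` lies in `GL₂(𝒪_v)` at every finite place `v ∉ T`. -/
def OutT305 (T : Finset (HeightOneSpectrum (𝓞 K))) (h : G K) : Prop :=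
  ∀ v : HeightOneSpectrum (𝓞 K), v ∉ T → IsIntegralAt v h ∧ IsIntegralAt v h⁻¹

open Classical in
/-- THE PURE TENSOR `⊗_{v ∈ T} f₀_v ⊗ ⊗_w F_w ⊗ ⊗_{v ∉ T} 1_{GL₂(𝒪_v)}`. -/
def pure305 (T : Finset (HeightOneSpectrum (𝓞 K)))
    (f₀ : ∀ v : HeightOneSpectrum (𝓞 K), GL (Fin 2) (v.adicCompletion K) → ℂ)
    (F : InfinitePlace K → GL (Fin 2) ℂ → ℂ) (h : G K) : ℂ :=
  if OutT305 T h then
    (∏ v ∈ T, f₀ v (finGL305 v h)) * ∏ w : InfinitePlace K, F w (infGL305 w h)
  else 0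

/-- The twisted centraliser `T_𝔸(δ) = {x ∈ GL₂(𝔸_K) : x⁻¹ δ σ(x) = δ}`. -/
def tA305 (s : T5.AdelicAut K) (δ : GL (Fin 2) K) : Subgroup (G K) :=
  T6.twCentSub s.onG (T5.ratG δ)

/-- `β` is a CUT-OFF function for the torus `T_𝔸(δ)` with the measure `μT`, on the set `Ω`:
measurable, non-negative, `∫_{T_𝔸} β(t x) dμT(t) = 1` for `x ∈ Ω`. -/
def IsCutOn305 (s : T5.AdelicAut K) (δ : GL (Fin 2) K)
    (μT : @Measure (tA305 s δ) (borel _)) (β : G K → ℝ) (Ω : Set (G K)) : Prop :=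
  Measurable β ∧ (∀ x : G K, 0 ≤ β x) ∧
    ∀ x ∈ Ω, @integral _ _ _ _ (borel _) μT (fun t : tA305 s δ => β ((t : G K) * x)) = 1

/-- The cut-off integral `∫ φ♭(y⁻¹ δ σ(y)) β(y) dμ(y)`. -/
def cutInt305 (r : G K) (s : T5.AdelicAut K) (φ : G K → ℂ) (δ : GL (Fin 2) K)
    (μ : Measure (G K)) (β : G K → ℝ) : ℂ :=
  ∫ y, T5.twTerm r s φ δ y * ((β y : ℝ) : ℂ) ∂μ

/-- The volume of `T(K) \ (T_𝔸(δ) ∩ slab⁻¹)`, computed in the fundamental domain `Fδ`. -/
def torVol305 (s : T5.AdelicAut K) (δ : GL (Fin 2) K)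
    (μT : @Measure (tA305 s δ) (borel _)) (Fδ : Set (G K)) : ENNReal :=
  μT {t : tA305 s δ | ((t : G K))⁻¹ ∈ Fδ}

variable (K)

/-- **LEAF C2.1 = UNFOLD (ONE field; Fubini).**  See the header.
Proof.  `Ψ(x) = φ♭(x⁻¹ δ σ(x))` is left invariant under `T_𝔸(δ)`, measurable (locally finite
sum of continuous functions).  Tonelli/Fubini on `T_𝔸 × G(𝔸)`:
`∫_{F_δ} Ψ = ∫_{F_δ} Ψ(x) ∫_T β(t x) dt dx = ∫_T ∫_G 1_{F_δ}(t⁻¹ y) Ψ(y) β(y) dy dt
 = ∫_G Ψ(y) β(y) μT{t : t⁻¹ y ∈ F_δ} dy` (left invariance of `μ`), and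
`E_y = {t ∈ T_𝔸 : t⁻¹ y ∈ F_δ}` is a strict fundamental domain of `T(K)` (right translations,
`‖det‖ = 1` on `T(K)`: product formula) in `{t : ‖det y‖/2 < ‖det t‖ ≤ ‖det y‖}`; cutting it at
`‖det t‖ = 1 · 2^j` and translating one piece by the ray generator `r ∈ T_𝔸` (central, fixed by
`σ`, `‖det r‖ = 2`) gives a fundamental domain in `{1/2 < ‖det t‖ ≤ 1}`, so `μT(E_y) = μT(E_1)`
(two fundamental domains of a countable group of measure preserving maps have the same
measure; `T_𝔸` is commutative: it lies in the centraliser of the regular element `N δ`).  If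
the volume is `∞` or `∫⁻ ‖Ψ‖ β = ∞` both sides vanish.  Mathlib + `T1.AdNormC` + `T1.LocCompC`
(second countable, locally compact). -/
def UnfoldC305 : Prop :=
  ∀ R : Frame5 K, IsFrame5 R →
    ∀ (s : T5.AdelicAut K) (l : ℕ) (k : Subfield K) (𝔫 : Ideal (𝓞 K)),
      T5.IsCyclicOfDegree s l k → T5.AutPreserves s 𝔫 R.μ R.r →
    ∀ δ : GL (Fin 2) K, T5.IsEllRegOver k (s.normUpTo l δ) →
    ∀ φ : G K → ℂ, T5.IsTestFn 𝔫 T5.trivType φ →
    ∀ Fδ : Set (G K), T5.IsTwDomain s δ Fδ →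
    (∀ x ∈ tA305 s δ, ∀ y ∈ tA305 s δ, x * y = y * x) →
    ∀ μT : @Measure (tA305 s δ) (borel _), @Measure.IsHaarMeasure _ _ _ (borel _) μT →
    ∀ β : G K → ℝ, IsCutOn305 s δ μT β {x | T5.twTerm R.r s φ δ x ≠ 0} →
      ∫ x in Fδ, T5.twTerm R.r s φ δ x ∂(R.μ)
        = (((torVol305 s δ μT Fδ).toReal : ℝ) : ℂ) * cutInt305 R.r s φ δ R.μ β

/-- **LEAF C2.1b = TOR-COMM (ONE field).**  The twisted centraliser of `δ` in `GL₂(𝔸_K)` is
commutative if `N δ` is elliptic regular.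
Proof.  `σ_𝔸^l = 1` (`SigmaLocC305`: `σ_𝔸` is determined by `σ`), so `x⁻¹ δ σ(x) = δ` gives
`x⁻¹ N(δ) x = N(δ)`; the discriminant of `N δ` is a non-zero element of `K`, a unit of `𝔸_K`, and
the centraliser of a `2 × 2` matrix with invertible discriminant over a commutative ring `A`
is `A[γ]` (if `x γ = γ x` then `x = a + b γ`: Cramer). -/
def TorCommC305 : Prop :=
  ∀ R : Frame5 K, IsFrame5 R →
    ∀ (s : T5.AdelicAut K) (l : ℕ) (k : Subfield K) (𝔫 : Ideal (𝓞 K)),
      T5.IsCyclicOfDegree s l k → T5.AutPreserves s 𝔫 R.μ R.r →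
    ∀ δ : GL (Fin 2) K, T5.IsEllRegOver k (s.normUpTo l δ) →
      ∀ x ∈ tA305 s δ, ∀ y ∈ tA305 s δ, x * y = y * x

/-- **ASSET LEAF C2.0 = SIGMA-LOC (ONE field): the local form of the adelic automorphism.**
A continuous ring automorphism `σ_𝔸` of `𝔸_K` which extends the automorphism `σ` of `K` acts
place by place: at the finite places by the continuous extensions
`s_w : K_w ≃ K_{σ w}` of `σ`, at the infinite places by the identity or the complex conjugation
in the coordinates of `T5.infHom`.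
Proof.  `σ_𝔸` permutes the primitive idempotents of `𝔸_K` (the indicator functions of the
places); it maps the factor `K_w` onto a factor `K_{w'}` by a continuous isomorphism which is
`σ` on the dense subfield `K`, so `w' = σ(w)`; `(σ_𝔸 a)_{w'} = (σ_𝔸 (e_w a))_{w'} = s_w(a_w)`. -/
def SigmaLocC305 : Prop :=
  ∀ s : T5.AdelicAut K,
    (∀ w w' : HeightOneSpectrum (𝓞 K), T5.PlaceRel s w w' →
      ∃ sw : w.adicCompletion K ≃+* w'.adicCompletion K,
        (∀ x : K, sw (algebraMap K (w.adicCompletion K) x)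
          = algebraMap K (w'.adicCompletion K) (s.σ x)) ∧
        (∀ x : w.adicCompletion K, Valued.v (sw x) = Valued.v x) ∧
        ∀ a : Adl K, T5.finHom w' (s.σA a) = sw (T5.finHom w a)) ∧
    ∀ w : InfinitePlace K,
      (∀ a : Adl K, T5.infHom w (s.σA a) = T5.infHom (w.comap (s.σ : K →+* K)) a) ∨
        ∀ a : Adl K, T5.infHom w (s.σA a) = conj (T5.infHom (w.comap (s.σ : K →+* K)) a)

/-- **LEAF C2.2 = TWIST-REP (ONE field).**  If `N δ` is conjugate to `γ'` in `GL₂(K)` there is a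
`σ`-conjugate `δ₁ = h⁻¹ δ σ(h)` with `N δ₁ = γ'` EXACTLY (`N (h⁻¹ δ σ(h)) = h⁻¹ N(δ) h`,
`σ^l = 1`), and for every fundamental domain `Fδ` of the twisted centraliser of `δ` the set
`Fδ₁ = h⁻¹ Fδ` is one for `δ₁`, with the same integral (left invariance of `μ`,
`x⁻¹ δ₁ σ(x) = (h x)⁻¹ δ σ(h x)`; `‖det h‖ = 1`: product formula). -/
def TwistRepC305 : Prop :=
  ∀ R : Frame5 K, IsFrame5 R →
    ∀ (s : T5.AdelicAut K) (l : ℕ) (k : Subfield K) (𝔫 : Ideal (𝓞 K)),
      T5.IsCyclicOfDegree s l k → T5.AutPreserves s 𝔫 R.μ R.r →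
    ∀ (δ γ' : GL (Fin 2) K), IsConj (s.normUpTo l δ) γ' →
    ∀ Fδ : Set (G K), T5.IsTwDomain s δ Fδ →
    ∃ (δ₁ : GL (Fin 2) K) (Fδ₁ : Set (G K)), s.normUpTo l δ₁ = γ' ∧ T5.IsTwDomain s δ₁ Fδ₁ ∧
      ∀ φ : G K → ℂ, ∫ x in Fδ₁, T5.twTerm R.r s φ δ₁ x ∂(R.μ)
        = ∫ x in Fδ, T5.twTerm R.r s φ δ x ∂(R.μ)

/-- **LEAF C2.5a = TOR-HAAR (ONE field).**  The twisted centraliser is a closed subgroup of the
locally compact group `GL₂(𝔸_K)`: it has a Haar measure. -/
def TorHaarC305 : Prop :=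
  ∀ (s : T5.AdelicAut K) (δ : GL (Fin 2) K),
    ∃ μT : @Measure (tA305 s δ) (borel _), @Measure.IsHaarMeasure _ _ _ (borel _) μT

end OneField

/-! ## 2. Two fields: the base change of adeles, linked measures -/

section TwoFields

variable {K K' : Type} [Field K] [NumberField K] [Field K'] [NumberField K'] [Algebra K K']

/-- `ι : 𝔸_K → 𝔸_{K'}` is THE BASE CHANGE OF ADELES for the cyclic extension with generator `s`
of degree `l`: a continuous injective ring homomorphism, compatible with `K → K'`, with image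
the fixed ring of `σ`, given at the places by embeddings of the completions, with
`‖ι x‖ = ‖x‖^l` on the ideles, closed. -/
structure IsAdeleBase305 (s : T5.AdelicAut K') (l : ℕ) (ι : Adl K →+* Adl K') : Prop where
  cont : Continuous ι
  closed : Topology.IsClosedEmbedding ι
  rat : ∀ x : K, ι (algebraMap K (Adl K) x) = algebraMap K' (Adl K') (algebraMap K K' x)
  fixed : ∀ x : Adl K, s.σA (ι x) = ι x
  onto : ∀ y : Adl K', s.σA y = y → ∃ x : Adl K, ι x = y
  norm : ∀ x : (Adl K)ˣ, T5.adNorm (ι (x : Adl K)) = T5.adNorm (x : Adl K) ^ l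
  fin : ∀ (v : HeightOneSpectrum (𝓞 K)) (w : HeightOneSpectrum (𝓞 K')), PlaceOver K K' v w →
    ∃ (e : ℕ) (i : v.adicCompletion K →+* w.adicCompletion K'), 0 < e ∧
      (∀ x : K, i (algebraMap K (v.adicCompletion K) x)
        = algebraMap K' (w.adicCompletion K') (algebraMap K K' x)) ∧
      (∀ x : v.adicCompletion K, Valued.v (i x) = Valued.v x ^ e) ∧
      ∀ x : Adl K, T5.finHom w (ι x) = i (T5.finHom v x)
  inf : ∀ w' : InfinitePlace K',
    (∀ x : Adl K, T5.infHom w' (ι x) = T5.infHom (w'.comap (algebraMap K K')) x) ∨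
      ∀ x : Adl K, T5.infHom w' (ι x) = conj (T5.infHom (w'.comap (algebraMap K K')) x)

/-- The Haar measures `μT` of `T_𝔸(γ) ⊆ GL₂(𝔸_K)` and `μT'` of `T_𝔸(δ) ⊆ GL₂(𝔸_{K'})` are LINKED
by `ι`: `μT'` is the image of `μT`. -/
def IsTorLinked305 (ι : Adl K →+* Adl K') (s : T5.AdelicAut K') (δ : GL (Fin 2) K')
    (γ : GL (Fin 2) K)
    (μT : @Measure (tA305 (T5.AdelicAut.id K) γ) (borel _))
    (μT' : @Measure (tA305 s δ) (borel _)) : Prop :=
  ∀ A : Set (G K'), MeasurableSet A →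
    μT' {t : tA305 s δ | (t : G K') ∈ A}
      = μT {t : tA305 (T5.AdelicAut.id K) γ |
          Matrix.GeneralLinearGroup.map ι (t : G K) ∈ A}

variable (K K')

/-- **LEAF C2.4 = IOTA (the base change of adeles exists).**
Proof.  Finite part: `RestrictedProduct.mapAlongRingHom` along `w ↦ w ∩ 𝓞_K` (finite fibres)
with the embeddings `K_v → K'_w` of the completions (extension by continuity of `K → K'`;
`T6.InstExtC`, `T6.InstSplitC` for the shape), continuous by
`RestrictedProduct.mapAlong_continuous`.  Infinite part: `w' ↦ w' ∘ (K → K')`, the completions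
are `ℂ` (`K` totally complex).  Fixed ring: `σ` permutes the places over `v` transitively and
the decomposition groups act on the completions with fixed field `K_v`.  Norm: `∑_{w ∣ v} e_w
f_w = l`.  (`s.σA` is determined by `s.σ`: a continuous ring automorphism of `𝔸_{K'}` permutes
the primitive idempotents, and `K'` is dense in every `K'_w`.) -/
def IotaC305 : Prop :=
  ∀ D : CompData K K', IsCompData D → IsCycExt K K' D.l → TotCplx K →
    ∃ ι : Adl K →+* Adl K', IsAdeleBase305 D.s D.l ι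

/-- **LEAF C2.3 = ELL-REG (algebra).**  An elliptic `γ ∈ GL₂(K)` is elliptic regular over `K`
(`⊤`) and its image in `GL₂(K')` is elliptic regular over the image `k` of `K`; `N_1 γ = γ`. -/
def EllRegC305 : Prop :=
  ∀ D : CompData K K', IsCompData D → ∀ γ : GL (Fin 2) K, T6.IsEll γ →
    T5.IsEllRegOver D.k (Matrix.GeneralLinearGroup.map (algebraMap K K') γ) ∧
      T5.IsEllRegOver (⊤ : Subfield K) ((T5.AdelicAut.id K).normUpTo 1 γ)

/-- **LEAF C2.5b = TOR-MEAS (linked Haar measures).**  For `N δ = γ` elliptic, `t ↦ ι(t)` is an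
isomorphism of topological groups of `T_𝔸(γ)` onto `T_𝔸(δ)` (adelic form of `T6.TwCentC`:
`x⁻¹ δ σ(x) = δ` gives `x⁻¹ γ x = γ`, so `x ∈ 𝔸_{K'}[γ]`, commutative, contains `δ`; then
`σ(x) = x`, `x = ι(t)`); Haar measures correspond. -/
def TorMeasC305 : Prop :=
  ∀ D : CompData K K', IsCompData D → IsCycExt K K' D.l → TotCplx K →
    ∀ ι : Adl K →+* Adl K', IsAdeleBase305 D.s D.l ι →
    ∀ (δ : GL (Fin 2) K') (γ : GL (Fin 2) K), T6.IsEll γ →
      D.s.normUpTo D.l δ = Matrix.GeneralLinearGroup.map (algebraMap K K') γ →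
      ∃ (μT : @Measure (tA305 (T5.AdelicAut.id K) γ) (borel _))
        (μT' : @Measure (tA305 D.s δ) (borel _)),
        @Measure.IsHaarMeasure _ _ _ (borel _) μT ∧ @Measure.IsHaarMeasure _ _ _ (borel _) μT' ∧
          IsTorLinked305 ι D.s δ γ μT μT'

/-- **LEAF C2.6 = TOR-COMP (the volumes).**  For linked measures and fundamental domains `Fγ`
(downstairs), `Fδ` (upstairs): `vol(γ) = l · vol(δ)` in `[0, ∞]`.
Proof.  `E = {t : t⁻¹ ∈ Fγ}` is a fundamental domain of `T(K)` in `{1/2 < ‖det t‖_K ≤ 1}`,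
`E' = {t' : t'⁻¹ ∈ Fδ}` one of `T'(K') = ι(T(K))` (`T6.TwCentC`) in
`{1/2 < ‖det t'‖_{K'} ≤ 1} = ι{2^{-1/l} < ‖det t‖_K ≤ 1}`; the `l` translates of the latter by
the powers of `r'` (`‖det r'‖_{K'} = 2`, `r' ∈ T_𝔸(δ)`) tile the former. -/
def TorCompC305 : Prop :=
  ∀ D : CompData K K', IsCompData D → IsCycExt K K' D.l → TotCplx K →
    ∀ ι : Adl K →+* Adl K', IsAdeleBase305 D.s D.l ι →
    ∀ (δ : GL (Fin 2) K') (γ : GL (Fin 2) K), T6.IsEll γ →
      D.s.normUpTo D.l δ = Matrix.GeneralLinearGroup.map (algebraMap K K') γ →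
    ∀ (Fδ : Set (G K')) (Fγ : Set (G K)), T5.IsTwDomain D.s δ Fδ →
      T5.IsTwDomain (T5.AdelicAut.id K) γ Fγ →
    ∀ (μT : @Measure (tA305 (T5.AdelicAut.id K) γ) (borel _))
      (μT' : @Measure (tA305 D.s δ) (borel _)),
      @Measure.IsHaarMeasure _ _ _ (borel _) μT → @Measure.IsHaarMeasure _ _ _ (borel _) μT' →
      IsTorLinked305 ι D.s δ γ μT μT' →
      torVol305 (T5.AdelicAut.id K) γ μT Fγ = (D.l : ENNReal) * torVol305 D.s δ μT' Fδ

/-! ## 3. Local matching (the form of T6), the core node, the top node -/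

variable {K K'}

/-- Complex conjugation on `GL₂(ℂ)`. -/
def conjGL305 : GL (Fin 2) ℂ →* GL (Fin 2) ℂ :=
  Matrix.GeneralLinearGroup.map (starRingEnd ℂ)

/-- Iterated convolution on `GL₂(ℂ)`: `Φ 0 * Φ 1 * ⋯ * Φ j` (left nested, `T6.convInt`). -/
def convL305 (μc : @Measure (GL (Fin 2) ℂ) (borel _)) (Φ : ℕ → GL (Fin 2) ℂ → ℂ) :
    ℕ → GL (Fin 2) ℂ → ℂ
  | 0 => Φ 0
  | (j + 1) => @T6.convInt _ _ (borel _) μc (convL305 μc Φ j) (Φ (j + 1))

/-- `T'` is the set of the places of `K'` over the places of `T`. -/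
def IsOver305 (T : Finset (HeightOneSpectrum (𝓞 K))) (T' : Finset (HeightOneSpectrum (𝓞 K'))) :
    Prop :=
  ∀ w : HeightOneSpectrum (𝓞 K'), w ∈ T' ↔ ∃ v ∈ T, PlaceOver K K' v w

/-- The levels are `0` outside `T₀` (resp. outside the places over `T₀`). -/
def IsLevelAt305 (T₀ : Finset (HeightOneSpectrum (𝓞 K)))
    (n : HeightOneSpectrum (𝓞 K') → ℕ) (m : HeightOneSpectrum (𝓞 K) → ℕ) : Prop :=
  (∀ v : HeightOneSpectrum (𝓞 K), v ∉ T₀ → m v = 0) ∧
    ∀ (v : HeightOneSpectrum (𝓞 K)) (w : HeightOneSpectrum (𝓞 K')), v ∉ T₀ →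
      PlaceOver K K' v w → n w = 0

/-- Every place outside `T` is unramified in `K'`. -/
def UnramOut305 (T : Finset (HeightOneSpectrum (𝓞 K))) : Prop :=
  ∀ v : HeightOneSpectrum (𝓞 K), v ∉ T → ∀ w : HeightOneSpectrum (𝓞 K'), PlaceOver K K' v w →
    ∃ x : 𝓞 K, x ∈ v.asIdeal ∧ algebraMap (𝓞 K) (𝓞 K') x ∉ w.asIdeal ^ 2

/-- **THE LOCAL HYPOTHESES** (local matching in the form of T6).  Levels `n w` upstairs, `m v`
downstairs; components `φ₀ w` (finite places of `K'`), `Φ w'` (infinite places of `K'`), `f₀ v`,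
`F v'` (places of `K`).
* `inert`: at a place `v ∈ T` with ONE place `w` over it, for every local extension datum
  `(e, i, s_w)` as in `T6.InstExtC`: the twisted orbit sums of `φ₀ w` are the orbit sums of
  `f₀ v` at the regular norms, and the orbit sums of `f₀ v` vanish at the regular elements which
  are not norms (conclusion of `T6.BadMatchC`, of `T6.FundLemmaC` + `T6.BCExistsC`).
* `split`: at a place `v ∈ T` which splits, for every enumeration `w 0, …, w (l-1)` of the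
  places over it with `w j = σ(w (j+1))` and identifications `i j : K_v ≃ K'_{w j}`: the levels
  agree and `f₀ v = φ₀ (w 0) * ⋯ * φ₀ (w (l-1))` (hypothesis of `T6.SplitMatchC`).
* `arch`: at an infinite place `v` (complex; it splits): `F v` is the convolution of the `Φ w'`,
  `w' ∣ v`, in every order; all components are continuous with compact support and invariant
  under complex conjugation (true for bi-`U(2)`-invariant functions: Cartan decomposition). -/
structure LocHyp305 (D : CompData K K') (μc : @Measure (GL (Fin 2) ℂ) (borel _))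
    (T : Finset (HeightOneSpectrum (𝓞 K)))
    (n : HeightOneSpectrum (𝓞 K') → ℕ) (m : HeightOneSpectrum (𝓞 K) → ℕ)
    (φ₀ : ∀ w : HeightOneSpectrum (𝓞 K'), GL (Fin 2) (w.adicCompletion K') → ℂ)
    (Φ : InfinitePlace K' → GL (Fin 2) ℂ → ℂ)
    (f₀ : ∀ v : HeightOneSpectrum (𝓞 K), GL (Fin 2) (v.adicCompletion K) → ℂ)
    (F : InfinitePlace K → GL (Fin 2) ℂ → ℂ) : Prop where
  inv_up : ∀ v ∈ T, ∀ w : HeightOneSpectrum (𝓞 K'), PlaceOver K K' v w →
    T6.IsBiInv (T6.InU (n w)) (φ₀ w) ∧ T6.HasFinSupp (T6.InU (n w)) (φ₀ w)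
  inv_down : ∀ v ∈ T, T6.IsBiInv (T6.InU (m v)) (f₀ v) ∧ T6.HasFinSupp (T6.InU (m v)) (f₀ v)
  arch_up : ∀ w : InfinitePlace K', Continuous (Φ w) ∧ HasCompactSupport (Φ w) ∧
    ∀ g : GL (Fin 2) ℂ, Φ w (conjGL305 g) = Φ w g
  arch_down : ∀ v : InfinitePlace K, Continuous (F v) ∧ HasCompactSupport (F v) ∧
    ∀ g : GL (Fin 2) ℂ, F v (conjGL305 g) = F v g
  inert : ∀ v ∈ T, ∀ w : HeightOneSpectrum (𝓞 K'), PlaceOver K K' v w →
    (∀ w' : HeightOneSpectrum (𝓞 K'), PlaceOver K K' v w' → w' = w) →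
    ∀ (e : ℕ) (i : v.adicCompletion K →+* w.adicCompletion K')
      (sw : w.adicCompletion K' ≃+* w.adicCompletion K'),
      (∀ x : K, i (algebraMap K (v.adicCompletion K) x)
        = algebraMap K' (w.adicCompletion K') (algebraMap K K' x)) →
      (∀ y : K', sw (algebraMap K' (w.adicCompletion K') y)
        = algebraMap K' (w.adicCompletion K') (D.s.σ y)) →
      T6.IsLocalExt (v.adicCompletion K) (w.adicCompletion K') D.l e i sw →
      (∀ (δ : GL (Fin 2) (w.adicCompletion K')) (γ : GL (Fin 2) (v.adicCompletion K))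
          (c c' : ℂ), T6.IsReg γ →
          IsConj (T6.twNorm sw D.l δ) (Matrix.GeneralLinearGroup.map i γ) →
          T6.IsTwOrbSum sw (n w) (φ₀ w) δ c → T6.IsOrbSum (m v) (f₀ v) γ c' → c = c') ∧
        ∀ (γ : GL (Fin 2) (v.adicCompletion K)) (c' : ℂ), T6.IsReg γ →
          ¬ T6.IsNormFrom D.l i sw γ → T6.IsOrbSum (m v) (f₀ v) γ c' → c' = 0
  split : ∀ v ∈ T, ∀ (w : ℕ → HeightOneSpectrum (𝓞 K'))
      (i : ∀ j : ℕ, v.adicCompletion K ≃+* (w j).adicCompletion K'),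
      (∀ j : ℕ, PlaceOver K K' v (w j)) → (∀ j : ℕ, T5.PlaceRel D.s (w (j + 1)) (w j)) →
      (∀ j : ℕ, 0 < j → j < D.l → w j ≠ w 0) →
      (∀ (j : ℕ) (x : K), i j (algebraMap K (v.adicCompletion K) x)
        = algebraMap K' ((w j).adicCompletion K') (algebraMap K K' x)) →
      (∀ (j : ℕ) (x : v.adicCompletion K), Valued.v (i j x) = Valued.v x) →
      (∀ j : ℕ, n (w j) = m v) ∧
        T6.IsConvProd (T6.InU (m v)) D.l
          (fun j g => φ₀ (w j)
            (Matrix.GeneralLinearGroup.map ((i j : v.adicCompletion K ≃+* _) :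
              v.adicCompletion K →+* (w j).adicCompletion K') g))
          (f₀ v)
  arch : ∀ (v : InfinitePlace K) (w : ℕ → InfinitePlace K'),
    (∀ j : ℕ, (w j).comap (algebraMap K K') = v) →
    (∀ j j' : ℕ, j < D.l → j' < D.l → w j = w j' → j = j') →
    F v = convL305 μc (fun j => Φ (w j)) (D.l - 1)

variable (K K')

/-- **NODE C2.7 = CUT-INT (the core; second cut in `MatchCut.lean`).**  For locally matched
pure tensors and linked torus measures there are cut-off functions upstairs and downstairs for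
which the cut-off integrals agree up to the constant `κ`; downstairs the cut-off integral
vanishes (for a suitable cut-off) if `γ` is not a norm.  See the header (FALSITY CHECKS). -/
def CutIntC305 : Prop :=
  ∀ D : CompData K K', IsCompData D → IsCycExt K K' D.l → D.l ≠ 2 → TotCplx K →
    ∀ ι : Adl K →+* Adl K', IsAdeleBase305 D.s D.l ι →
    ∀ μc : @Measure (GL (Fin 2) ℂ) (borel _), @Measure.IsHaarMeasure _ _ _ (borel _) μc →
    ∀ (T₀ : Finset (HeightOneSpectrum (𝓞 K))), UnramOut305 (K' := K') T₀ →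
    ∀ (n : HeightOneSpectrum (𝓞 K') → ℕ) (m : HeightOneSpectrum (𝓞 K) → ℕ),
      IsLevelAt305 T₀ n m →
    ∃ κ : ℂ, κ ≠ 0 ∧
      ∀ (T : Finset (HeightOneSpectrum (𝓞 K))) (T' : Finset (HeightOneSpectrum (𝓞 K'))),
        T₀ ⊆ T → IsOver305 T T' →
      ∀ (φ₀ : ∀ w : HeightOneSpectrum (𝓞 K'), GL (Fin 2) (w.adicCompletion K') → ℂ)
        (Φ : InfinitePlace K' → GL (Fin 2) ℂ → ℂ)
        (f₀ : ∀ v : HeightOneSpectrum (𝓞 K), GL (Fin 2) (v.adicCompletion K) → ℂ)
        (F : InfinitePlace K → GL (Fin 2) ℂ → ℂ),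
        LocHyp305 D μc T n m φ₀ Φ f₀ F →
        (∀ (δ : GL (Fin 2) K') (γ : GL (Fin 2) K), T6.IsEll γ →
          D.s.normUpTo D.l δ = Matrix.GeneralLinearGroup.map (algebraMap K K') γ →
          ∀ (μT : @Measure (tA305 (T5.AdelicAut.id K) γ) (borel _))
            (μT' : @Measure (tA305 D.s δ) (borel _)),
            @Measure.IsHaarMeasure _ _ _ (borel _) μT →
            @Measure.IsHaarMeasure _ _ _ (borel _) μT' →
            IsTorLinked305 ι D.s δ γ μT μT' →
            ∃ β' : G K' → ℝ, ∃ β : G K → ℝ,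
              IsCutOn305 D.s δ μT' β'
                {x | T5.twTerm D.R'.r D.s (pure305 T' φ₀ Φ) δ x ≠ 0} ∧
              IsCutOn305 (T5.AdelicAut.id K) γ μT β
                {x | T5.twTerm D.R.r (T5.AdelicAut.id K) (pure305 T f₀ F) γ x ≠ 0} ∧
              cutInt305 D.R'.r D.s (pure305 T' φ₀ Φ) δ D.R'.μ β'
                = κ * cutInt305 D.R.r (T5.AdelicAut.id K) (pure305 T f₀ F) γ D.R.μ β) ∧
        ∀ γ : GL (Fin 2) K, T6.IsEll γ → (¬ ∃ δ : GL (Fin 2) K', IsNormOf D δ γ) →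
          ∀ μT : @Measure (tA305 (T5.AdelicAut.id K) γ) (borel _),
            @Measure.IsHaarMeasure _ _ _ (borel _) μT →
            ∃ β : G K → ℝ,
              IsCutOn305 (T5.AdelicAut.id K) γ μT β
                {x | T5.twTerm D.R.r (T5.AdelicAut.id K) (pure305 T f₀ F) γ x ≠ 0} ∧
              cutInt305 D.R.r (T5.AdelicAut.id K) (pure305 T f₀ F) γ D.R.μ β = 0

/-- **THE NODE C2 = GLOBAL MATCHING FROM LOCAL MATCHING.**  See the header. -/
def GlobMatchC305 : Prop :=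
  ∀ D : CompData K K', IsCompData D → IsCycExt K K' D.l → D.l ≠ 2 → TotCplx K →
    ∀ μc : @Measure (GL (Fin 2) ℂ) (borel _), @Measure.IsHaarMeasure _ _ _ (borel _) μc →
    ∀ (T₀ : Finset (HeightOneSpectrum (𝓞 K))), UnramOut305 (K' := K') T₀ →
    ∀ (n : HeightOneSpectrum (𝓞 K') → ℕ) (m : HeightOneSpectrum (𝓞 K) → ℕ),
      IsLevelAt305 T₀ n m →
    ∃ κ : ℂ, κ ≠ 0 ∧
      ∀ (T : Finset (HeightOneSpectrum (𝓞 K))) (T' : Finset (HeightOneSpectrum (𝓞 K'))),
        T₀ ⊆ T → IsOver305 T T' →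
      ∀ (φ₀ : ∀ w : HeightOneSpectrum (𝓞 K'), GL (Fin 2) (w.adicCompletion K') → ℂ)
        (Φ : InfinitePlace K' → GL (Fin 2) ℂ → ℂ)
        (f₀ : ∀ v : HeightOneSpectrum (𝓞 K), GL (Fin 2) (v.adicCompletion K) → ℂ)
        (F : InfinitePlace K → GL (Fin 2) ℂ → ℂ),
        LocHyp305 D μc T n m φ₀ Φ f₀ F →
        ∀ (φ' : G K' → ℂ) (f : G K → ℂ),
          (∀ h : G K', φ' h = pure305 T' φ₀ Φ h) →
          (∀ h : G K, f h = κ * pure305 T f₀ F h) →
          T5.IsTestFn D.𝔑 T5.trivType φ' → T5.IsTestFn D.𝔫 T5.trivType f →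
          IsGlobMatch D φ' f

end TwoFields

end Fermat.Agent.LT.T7.H305

end

/-! ## Appendix (v2, ADDITIVE, 16:40Z): equation lemmas of `convL305`, REALISED ONCE

`simp [convL305]`, `rw [convL305]`, `unfold convL305` realise `convL305.eq_def` in the using
module unless an imported module has done so; two such copies differ and the kernel checker of
the grader rejects the closure (fix of helper8 / helper112 / helper255, same form as the appendix
of `T6/Spec.lean` of row-lead helper17).  Realised here, they are declared by no other module.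
NOTHING above this line is changed (v1 = sha256 541c6ac7). -/

namespace Fermat.Agent.LT.T7.H305

theorem convL305_eqns_realised : True := by
  have _h0 := @convL305.eq_def
  have _h1 := @convL305.eq_1
  have _h2 := @convL305.eq_2
  trivial

end Fermat.Agent.LT.T7.H305

end
-- ===== PACK-END LT/T7/H305/MatchSpec.lean

-- ===== PACK-BEGIN LT/T7/H826/Level2Q.lean
section














/-!
# Row LT, tower T7, row 1920 (helper826 for the architect helper797): LEVEL 2 of the node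
# `TraceWordsQRegP` (`F = ℚ(√-3)` over `ℚ`) -- typed mirror of `T7/Level2.lean`

OFF-MAIN.  Definitions, frozen Props, PROVED assemblies.  No hole, nothing assumed.
ADDITIVE (new names only, all in the namespace `Fermat.Agent.LT.T7.L2Q`).
v1.1 = v1 (sha256 3acaa310) + APPENDIX (the equation lemmas of the definitions of this file are
realised HERE, as in `T7/Comparison.lean` v0.1); NO statement changed.  The stable forms
(mirror of `T7/Level2S.lean`) are in `LT/T7/H826/Level2QS.lean`.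
Template: `T7/Level2.lean` (helper797@819237e8b, sha256 15516646).  Vocabulary: A0,
`T5/Spec.lean` v4, `T6/SpecArch.lean` (003240b2), `T6/Inf/Spec.lean` v3 (29b32855),
`T7/Matching.lean`, `T7/EKM.lean` (4b09755e).

    traceWordsQRegP_of : SupplyQC P F → SpecUpQC F → SpecDownQC F → SpecIdQC F
                           → TraceWordsQRegP P F                      (target VERBATIM)
    specIdQC_of : (towers of T5: `(F, σ, 1)`, `(ℚ, id, 1)`, `(ℚ, id, weight one)`)
                    → T6.NormClassC → T6.NormInjC → GeomQC F → SpecIdQC F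

## Setting

`K = ℚ`, `K' = F` imaginary quadratic, `ℓ = 2`, `σ` = the conjugation of `F`.  The upstairs side
is the cyclic one with `ℓ = 2` (`F` is totally complex): same operators, same clauses
(OP-up, KILL-up, projection), same node (`SpecUpQC` = `SpecUpC` with the hypotheses of the
quadratic step).

## The changes downstairs (the real place of `ℚ` does not split)

* TWO `K_∞`-TYPES over `ℚ` (`QWt`): `w0` = the trivial type, `w1` = WEIGHT ONE in the convention of
  QOut (`e (g k_θ) = e^{iθ} e g`, `k_θ = QOut.rotC θ`; this is the weight `-1` of `T6.wtChar`).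
  `wtOne k = k₀₀ + i k₀₁` at the real place (`= e^{iθ}` on `rotC θ`); leaf `WtOneKTypeC`.
* TWO FAMILIES `f w0 g X k m` (trivial type), `f w1 g X k m` (weight one), each a product of two
  Eisenstein-killing test functions OF ITS TYPE, regular for `m ≥ m₀ g X`; THE SUM
  `f w0 + f w1` is matched with `φ' g X k m` (`T6.ArchMatchC`: the function matching a
  bi-`U(2)`-invariant `φ_∞` is `f₀ + f₁`).
* `GeomQC` (leaf, variant of `GeomC`): matched + regular ⇒
  `geomSide(φ') = geomSide(f₀) + geomSide(f₁)`;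
  `SpecIdQC`: `specSide(φ') = specSide_{w0}(f₀) + specSide_{w1}(f₁)`, PROVED from the three towers
  of T5 and `GeomQC` (`specIdQC_of`).
* OP-down PER TYPE, with the archimedean base change `s ↦ 2 s` of `T6.ArchMatchC` (b)
  (`IsBCDataQ`): downstairs the circle means of type `n` have the eigenvalue function
  `2π · T6.sphRad n s (cosh t)`, upstairs `Ĉ.m w d = 4π · T6.sphC (2 s) (cosh d)`; the finite part
  is `IsBCEigQ`.
* REALISATION (inside `SpecDownQC`): an atom whose base change is spherical of parameter `0`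
  has `s = 0` (`Inf.Sph0ParamC`, `Inf.SphValuesC`), so it is realised by a form as in
  `A0.IsSph0CuspFormFor` (type `w0`) or by a weight-one form with `Inf.MeanValueWtOne`, which is
  holomorphic (D3, `H670.D3.realise_wtOne`, closed): `A0.notion556.IsCusp ℚ`.
* The finite set `S` of PRIMES of `ℚ` under `S'` is part of the data (first clause of the
  target).

## The nodes

* `SupplyQC P F` (geometric half): existence of an `L2QData` with `IsL2QData`.  NEEDS the
  Eisenstein-killing test functions over `ℚ` of the two types (T3 over `ℚ`, real place) and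
  `T6.ArchMatchC`, `T6.ArchInjC`.
* `SpecUpQC F` (spectral half upstairs + non-vanishing): the cyclic node with `ℓ = 2`.
* `SpecDownQC F` (spectral half downstairs + realisation): for BOTH types.
-/

set_option autoImplicit false

open AutomorphicForm IsDedekindDomain NumberField MeasureTheory
open scoped ComplexConjugate

noncomputable section

namespace Fermat.Agent.LT.T7.L2Q

open Fermat.Agent.LT.H556 Fermat.Agent.LT.H556.A0 Fermat.Agent.LT.H670

attribute [local instance] Fermat.Agent.LT.T5.instMeasurableSpaceG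

/-! ## 1. The two `K_∞`-types over `ℚ` -/

/-- The two `K_∞`-types of the quadratic step: `w0` = trivial, `w1` = weight one. -/
inductive QWt : Type
  | w0 : QWt
  | w1 : QWt

/-- The `K_∞`-type of WEIGHT ONE over `ℚ`, convention of QOut: on `SO(2)` at the real place
`k ↦ k₀₀ + i k₀₁`, so that `wtOne k = e^{iθ}` when the real component of `k` is
`QOut.rotC θ = !![cos θ, sin θ; -sin θ, cos θ]`. -/
def wtOne : G ℚ → ℂ :=
  fun k => infComp Rat.infinitePlace k 0 0 + Complex.I * infComp Rat.infinitePlace k 0 1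

/-- The `K_∞`-type of `n`. -/
def QWt.type : QWt → G ℚ → ℂ
  | QWt.w0 => T5.trivType
  | QWt.w1 => wtOne

/-- The weight of `n` in the convention of `T6.wtChar` (`T6/SpecArch.lean`): `0` resp. `-1`. -/
def QWt.wt : QWt → ℤ
  | QWt.w0 => 0
  | QWt.w1 => -1

/-- **LEAF (small): `wtOne` is a `K_∞`-type** (`|k₀₀ + i k₀₁| = 1` and multiplicativity on
`SO(2)`: a real orthogonal matrix of determinant `1` is `!![a, b; -b, a]`; continuity of the
components). -/
def WtOneKTypeC : Prop := T5.IsKType wtOne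

theorem wtOne_rotC {k : G ℚ} {θ : ℝ} (h : infComp Rat.infinitePlace k = QOut.rotC θ) :
    wtOne k = Complex.exp (Complex.I * ((θ : ℝ) : ℂ)) := by
  have e00 : QOut.rotC θ 0 0 = ((Real.cos θ : ℝ) : ℂ) := rfl
  have e01 : QOut.rotC θ 0 1 = ((Real.sin θ : ℝ) : ℂ) := rfl
  show infComp Rat.infinitePlace k 0 0 + Complex.I * infComp Rat.infinitePlace k 0 1 = _
  rw [h, e00, e01, mul_comm Complex.I ((θ : ℝ) : ℂ), Complex.exp_mul_I, Complex.ofReal_cos,
    Complex.ofReal_sin]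
  ring

/-! ## 2. Eigenfunctions over `ℚ` -/

/-- `ψ` is an eigenfunction of the circle means of WEIGHT `0` at the real place `w`, with
eigenvalue function `m` (`A0.MeanValueReal` is the case of the parameter `0`). -/
def MeanEigR0 (ψ : G ℚ → ℂ) (w : InfinitePlace ℚ) (m : ℝ → ℂ) : Prop :=
  ∀ t : ℝ, 0 < t → ∀ Y : ℝ → G ℚ,
    (∀ θ : ℝ, IsLocalAtInf w (Y θ) ∧ infComp w (Y θ) = rotY θ * torus t) →
    ∀ g : G ℚ, (∫ θ in (0 : ℝ)..(2 * Real.pi), ψ (g * Y θ)) = m t * ψ g

/-- `ψ` is an eigenfunction of the circle means of WEIGHT ONE at the real place `w`, with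
eigenvalue function `m` (`T6.Inf.MeanValueWtOne` is the case of the parameter `0`). -/
def MeanEigR1 (ψ : G ℚ → ℂ) (w : InfinitePlace ℚ) (m : ℝ → ℂ) : Prop :=
  ∀ t : ℝ, 0 < t → ∀ Y : ℝ → G ℚ,
    (∀ θ : ℝ, IsLocalAtInf w (Y θ) ∧ infComp w (Y θ) = QOut.rotC θ * torus t) →
    ∀ g : G ℚ,
      (∫ θ in (0 : ℝ)..(2 * Real.pi),
          Complex.exp (-(Complex.I * ((θ : ℝ) : ℂ))) * ψ (g * Y θ)) = m t * ψ g

/-- The circle means of type `n`. -/
def QWt.MeanEig : QWt → (G ℚ → ℂ) → InfinitePlace ℚ → (ℝ → ℂ) → Prop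
  | QWt.w0 => MeanEigR0
  | QWt.w1 => MeanEigR1

/-- The INVARIANT cusp functions of type `n` over `ℚ`: cusp functions of level `𝔫` and type `n`,
invariant under the positive scalars at the real place and under the Iwahori subgroup at `u`. -/
structure IsWFnQ (n : QWt) (𝔫 : Ideal (𝓞 ℚ)) (r : G ℚ) (u : HeightOneSpectrum (𝓞 ℚ))
    (ψ : G ℚ → ℂ) : Prop where
  cusp : T5.IsCuspFn 𝔫 n.type r ψ
  arch_scalar : ∀ (w : InfinitePlace ℚ) (z : G ℚ), IsArchPosScalar w z →
    ∀ g : G ℚ, ψ (g * z) = ψ g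
  iw : IsIwInv 1 (fun _ => u) ψ

/-- An invariant cusp function of type `n` with joint eigen-data `c`: eigenfunction of the Hecke
operators at the primes not dividing `𝔫` and of the circle means of type `n`. -/
structure IsEigFnQ (n : QWt) (𝔫 : Ideal (𝓞 ℚ)) (r : G ℚ) (u : HeightOneSpectrum (𝓞 ℚ))
    (ψ : G ℚ → ℂ) (c : EigData ℚ) : Prop where
  inv : IsWFnQ n 𝔫 r u ψ
  hecke : ∀ v : HeightOneSpectrum (𝓞 ℚ), ¬ v.asIdeal ∣ 𝔫 → IsHeckeEigenAt ψ v (c.a v) (c.b v)
  mean : ∀ w : InfinitePlace ℚ, n.MeanEig ψ w (c.m w)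

/-- `φ` is a product of two Eisenstein-killing test functions OF TYPE `τ` with
Eisenstein-killing adjoints (the hypothesis of `T5.STFsigma` for the type `τ`). -/
def IsEKProdT {K : Type} [Field K] [NumberField K] (τ : G K → ℂ) (𝔫 : Ideal (𝓞 K))
    (R : Frame5 K) (φ : G K → ℂ) : Prop :=
  T5.IsTestFn 𝔫 τ φ ∧
    ∃ φ₁ φ₂ : G K → ℂ, T5.IsTestFn 𝔫 τ φ₁ ∧ T5.IsTestFn 𝔫 τ φ₂ ∧
      T5.IsEK R.μ φ₁ ∧ T5.IsEK R.μ (T5.adjointFn φ₁) ∧
      T5.IsEK R.μ φ₂ ∧ T5.IsEK R.μ (T5.adjointFn φ₂) ∧ φ = T5.conv R.μ φ₁ φ₂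

/-- `φ` is ADMISSIBLE OF TYPE `τ` (`IsAdm5` is the case `τ = 1`). -/
def IsAdm5T {K : Type} [Field K] [NumberField K] (τ : G K → ℂ) (s : T5.AdelicAut K) (l : ℕ)
    (k : Subfield K) (𝔫 : Ideal (𝓞 K)) (R : Frame5 K) (φ : G K → ℂ) : Prop :=
  T5.IsTestFn 𝔫 τ φ ∧ T5.IsTwRegular s l k φ ∧
    ∃ φ₁ φ₂ : G K → ℂ, T5.IsTestFn 𝔫 τ φ₁ ∧ T5.IsTestFn 𝔫 τ φ₂ ∧
      T5.IsEK R.μ φ₁ ∧ T5.IsEK R.μ (T5.adjointFn φ₁) ∧
      T5.IsEK R.μ φ₂ ∧ T5.IsEK R.μ (T5.adjointFn φ₂) ∧ φ = T5.conv R.μ φ₁ φ₂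

theorem isEKProdT_triv_iff {K : Type} [Field K] [NumberField K] {𝔫 : Ideal (𝓞 K)}
    {R : Frame5 K} {φ : G K → ℂ} : IsEKProdT T5.trivType 𝔫 R φ ↔ IsEKProd 𝔫 R φ := Iff.rfl

theorem isAdm5T_triv_iff {K : Type} [Field K] [NumberField K] {s : T5.AdelicAut K} {l : ℕ}
    {k : Subfield K} {𝔫 : Ideal (𝓞 K)} {R : Frame5 K} {φ : G K → ℂ} :
    IsAdm5T T5.trivType s l k 𝔫 R φ ↔ IsAdm5 s l k 𝔫 R φ := Iff.rfl

theorem isAdm5T_of_ekProdT {K : Type} [Field K] [NumberField K] {τ : G K → ℂ}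
    {s : T5.AdelicAut K} {l : ℕ} {k : Subfield K} {𝔫 : Ideal (𝓞 K)} {R : Frame5 K}
    {φ : G K → ℂ} (h : IsEKProdT τ 𝔫 R φ) (hr : T5.IsTwRegular s l k φ) :
    IsAdm5T τ s l k 𝔫 R φ :=
  ⟨h.1, hr, h.2⟩

/-! ## 3. The data of level 2 over `ℚ` -/

section Data

variable (F : Type) [Field F] [NumberField F]

/-- The data supplied by the geometric half (quadratic step). -/
structure L2QData where
  /-- the conjugation of `F` with its extension to the adeles -/
  s : T5.AdelicAut F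
  /-- the image of `ℚ` in `F` -/
  k : Subfield F
  /-- the frame downstairs -/
  R : Frame5 ℚ
  /-- the frame upstairs -/
  R' : Frame5 F
  /-- the base level upstairs -/
  𝔑₀ : Ideal (𝓞 F)
  /-- the places of `F` dividing the base level -/
  S' : Finset (HeightOneSpectrum (𝓞 F))
  /-- the primes of `ℚ` under `S'` -/
  S : Finset ℕ
  /-- the regular place of `ℚ` -/
  u : HeightOneSpectrum (𝓞 ℚ)
  /-- the `σ`-orbit over `u` -/
  o : ℕ → HeightOneSpectrum (𝓞 F)
  /-- the level downstairs for the bad element `g` -/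
  𝔫 : G F → Ideal (𝓞 ℚ)
  /-- the scalar of the Eisenstein-killing base on the eigen-classes -/
  c : G F → EigData F → ℂ
  /-- the family upstairs -/
  φ' : G F → List (Gen F) → ℤ → ℕ → G F → ℂ
  /-- the two families downstairs (trivial type, weight one) -/
  f : QWt → G F → List (Gen F) → ℤ → ℕ → G ℚ → ℂ
  /-- the regular depth -/
  m₀ : G F → List (Gen F) → ℕ

variable {F}

/-- The data of the comparison for the bad element `g`: levels `𝔫 g` and `(𝔫 g) 𝒪_F`. -/
def L2QData.comp (Dt : L2QData F) (g : G F) : CompData ℚ F where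
  l := 2
  s := Dt.s
  k := Dt.k
  𝔫 := Dt.𝔫 g
  𝔑 := Ideal.map (algebraMap (𝓞 ℚ) (𝓞 F)) (Dt.𝔫 g)
  R := Dt.R
  R' := Dt.R'

/-- The level upstairs for the bad element `g`. -/
def L2QData.𝔑 (Dt : L2QData F) (g : G F) : Ideal (𝓞 F) :=
  Ideal.map (algebraMap (𝓞 ℚ) (𝓞 F)) (Dt.𝔫 g)

/-- `g` is supported at the bad places: the places of `S'` outside the orbit. -/
def L2QData.IsBad (Dt : L2QData F) (g : G F) : Prop :=
  (∀ w : InfinitePlace F, TrivAtInf w g) ∧
    ∀ v : HeightOneSpectrum (𝓞 F), (v ∉ Dt.S' ∨ ∃ j < 2, v = Dt.o j) → TrivAtFin v g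

/-- The sum of the two members downstairs. -/
def L2QData.fsum (Dt : L2QData F) (g : G F) (X : List (Gen F)) (k : ℤ) (m : ℕ) : G ℚ → ℂ :=
  fun x => Dt.f QWt.w0 g X k m x + Dt.f QWt.w1 g X k m x

/-- `Ĉ` (over `F`) is the BASE CHANGE of the eigen-data `c` of type `n` over `ℚ`: the finite part
outside the primes of `S` as in `IsBCEigQ`; the archimedean part by `s ↦ 2 s`
(`T6.ArchMatchC` (b)): `c.m = 2π · sphRad n s ∘ cosh`, `Ĉ.m = 4π · sphC (2 s) ∘ cosh`. -/
def IsBCDataQ (n : QWt) (c : EigData ℚ) (C : EigData F) (S : Finset ℕ) : Prop :=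
  (∀ p : ℕ, p.Prime → p ∉ S →
      ∀ v : HeightOneSpectrum (𝓞 ℚ), ((p : ℕ) : 𝓞 ℚ) ∈ v.asIdeal →
      ∀ (w : HeightOneSpectrum (𝓞 F)) (f : ℕ), ((p : ℕ) : 𝓞 F) ∈ w.asIdeal →
        Ideal.absNorm w.asIdeal = p ^ f →
        C.a w = satakePow f (c.a v) (c.b v) ∧ C.b w = c.b v ^ f) ∧
    ∃ s : ℂ,
      (∀ (w : InfinitePlace ℚ) (t : ℝ), 0 < t →
        c.m w t = ((2 * Real.pi : ℝ) : ℂ) * T6.sphRad n.wt s (Real.cosh t)) ∧
      ∀ (w : InfinitePlace F) (d : ℝ), 0 < d →
        C.m w d = ((4 * Real.pi : ℝ) : ℂ) * T6.sphC (2 * s) (Real.cosh d)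

/-- **THE PROPERTIES OF THE DATA OF LEVEL 2, QUADRATIC STEP.**  See the header and the header
of `T7/Level2.lean`. -/
structure IsL2QData (Φ : HeckeEigensystem F ℂ) (Dt : L2QData F) : Prop where
  comp : ∀ g : G F, Dt.IsBad g → IsCompData (Dt.comp g)
  level_le : Dt.𝔑₀ ≤ Φ.level
  level_g : ∀ g : G F, Dt.IsBad g → Dt.𝔑 g ≤ Dt.𝔑₀
  mem_S' : ∀ w : HeightOneSpectrum (𝓞 F), w ∈ Dt.S' ↔ w.asIdeal ∣ Dt.𝔑₀
  mem_S'_g : ∀ g : G F, Dt.IsBad g →
    ∀ w : HeightOneSpectrum (𝓞 F), w ∈ Dt.S' ↔ w.asIdeal ∣ Dt.𝔑 g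
  /-- the primes under `S'` lie in `S` -/
  under : ∀ p : ℕ, p.Prime → ∀ w : HeightOneSpectrum (𝓞 F), ((p : ℕ) : 𝓞 F) ∈ w.asIdeal →
    w ∈ Dt.S' → p ∈ Dt.S
  const : ∀ p : ℕ, p.Prime → p ∉ Dt.S →
    ∀ w w' : HeightOneSpectrum (𝓞 F), ((p : ℕ) : 𝓞 F) ∈ w.asIdeal →
      ((p : ℕ) : 𝓞 F) ∈ w'.asIdeal → Φ.a w = Φ.a w' ∧ Φ.b w = Φ.b w'
  orbit_rel : ∀ j : ℕ, T5.PlaceRel Dt.s (Dt.o j) (Dt.o (j + 1))
  orbit_ne : ∀ j : ℕ, 0 < j → j < 2 → Dt.o j ≠ Dt.o 0
  orbit_over : ∀ j : ℕ, PlaceOver ℚ F Dt.u (Dt.o j)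
  orbit_level : ∀ j : ℕ, Dt.o j ∈ Dt.S'
  orbit_good : ∀ j : ℕ, ¬ (Dt.o j).asIdeal ∣ Φ.level
  u_level : ∀ g : G F, Dt.IsBad g → Dt.u.asIdeal ∣ Dt.𝔫 g
  /-- the members upstairs are products of Eisenstein-killing test functions -/
  ekprod_up : ∀ (g : G F) (X : List (Gen F)) (k : ℤ) (m : ℕ), Dt.IsBad g →
    (∀ x ∈ X, x.Out Dt.S') → IsEKProd (Dt.𝔑 g) Dt.R' (Dt.φ' g X k m)
  /-- the members downstairs are products of Eisenstein-killing test functions of their type -/
  ekprod_down : ∀ (n : QWt) (g : G F) (X : List (Gen F)) (k : ℤ) (m : ℕ), Dt.IsBad g →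
    (∀ x ∈ X, x.Out Dt.S') → IsEKProdT n.type (Dt.𝔫 g) Dt.R (Dt.f n g X k m)
  /-- regularity upstairs from the depth `m₀ g X` on -/
  reg_up : ∀ (g : G F) (X : List (Gen F)) (k : ℤ) (m : ℕ), Dt.IsBad g →
    (∀ x ∈ X, x.Out Dt.S') → Dt.m₀ g X ≤ m →
    T5.IsTwRegular Dt.s 2 Dt.k (Dt.φ' g X k m)
  /-- regularity downstairs from the depth `m₀ g X` on -/
  reg_down : ∀ (n : QWt) (g : G F) (X : List (Gen F)) (k : ℤ) (m : ℕ), Dt.IsBad g →
    (∀ x ∈ X, x.Out Dt.S') → Dt.m₀ g X ≤ m →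
    T5.IsTwRegular (T5.AdelicAut.id ℚ) 1 ⊤ (Dt.f n g X k m)
  /-- the member upstairs and THE SUM of the two members downstairs are matched from the depth
  `m₀ g X` on -/
  matched : ∀ (g : G F) (X : List (Gen F)) (k : ℤ) (m : ℕ), Dt.IsBad g →
    (∀ x ∈ X, x.Out Dt.S') → Dt.m₀ g X ≤ m →
    IsGlobMatch (Dt.comp g) (Dt.φ' g X k m) (Dt.fsum g X k m)
  /-- the scalar of the base does not vanish on the class of `Φ` -/
  base_ne : ∀ g : G F, Dt.IsBad g →
    ∀ C : EigData F, C.AgreeOut Dt.S' (eigOf Φ) → Dt.c g C ≠ 0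
  /-- (OP-up) -/
  op_up : ∀ (g : G F) (X : List (Gen F)) (k : ℤ) (m : ℕ), Dt.IsBad g →
    (∀ x ∈ X, x.Out Dt.S') →
    ∀ (ψ : G F → ℂ) (C : EigData F), IsEigFn Dt.𝔑₀ Dt.R'.r 2 Dt.o ψ C →
    ∀ (Hg H : Finset (G F)) (z : G F), IsDblCosetSystem Dt.𝔑₀ g Hg →
      IsIwCosetSystem (Dt.o 0) H → IsScalarUniformizerAt (Dt.o 0) z →
      ∀ x : G F, T5.Rconv Dt.R'.μ (Dt.φ' g X k m) ψ x
        = wordEv X C * Dt.c g C * cosetOp Hg (shiftOp z k ((iwOp (Dt.o 0) H)^[m] ψ)) x
  /-- (KILL-up) -/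
  kill_up : ∀ (g : G F) (X : List (Gen F)) (k : ℤ) (m : ℕ), Dt.IsBad g →
    (∀ x ∈ X, x.Out Dt.S') →
    ∀ ψ : G F → ℂ, T5.IsCuspFn (Dt.𝔑 g) T5.trivType Dt.R'.r ψ →
      (∀ χ : G F → ℂ, IsWFn Dt.𝔑₀ Dt.R'.r 2 Dt.o χ →
        T5.innerD Dt.R'.μ Dt.R'.F ψ χ = 0) →
      ∀ x : G F, T5.Rconv Dt.R'.μ (Dt.φ' g X k m) ψ x = 0
  /-- the orthogonal projection on the invariant cusp functions upstairs -/
  proj_up : ∀ g : G F, Dt.IsBad g →
    ∀ ψ : G F → ℂ, T5.IsCuspFn (Dt.𝔑 g) T5.trivType Dt.R'.r ψ →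
    ∃ ψ₁ : G F → ℂ, IsWFn Dt.𝔑₀ Dt.R'.r 2 Dt.o ψ₁ ∧
      ∀ χ : G F → ℂ, IsWFn Dt.𝔑₀ Dt.R'.r 2 Dt.o χ →
        T5.innerD Dt.R'.μ Dt.R'.F (fun x => ψ x - ψ₁ x) χ = 0
  /-- (OP-down), per type -/
  op_down : ∀ (n : QWt) (g : G F) (X : List (Gen F)) (k : ℤ) (m : ℕ), Dt.IsBad g →
    (∀ x ∈ X, x.Out Dt.S') →
    ∀ (ψ : G ℚ → ℂ) (c : EigData ℚ) (C : EigData F),
      IsEigFnQ n (Dt.𝔫 g) Dt.R.r Dt.u ψ c → IsBCDataQ n c C Dt.S →
    ∀ (H : Finset (G ℚ)) (z : G ℚ), IsIwCosetSystem Dt.u H → IsScalarUniformizerAt Dt.u z →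
      ∀ x : G ℚ, T5.Rconv Dt.R.μ (Dt.f n g X k m) ψ x
        = wordEv X C
          * T5.Rconv Dt.R.μ (Dt.f n g [] 0 0) (shiftOp z k ((iwOp Dt.u H)^[m] ψ)) x
  /-- the base downstairs preserves the eigen-classes, per type -/
  class_down : ∀ (n : QWt) (g : G F), Dt.IsBad g → ∀ (ψ : G ℚ → ℂ) (c : EigData ℚ),
    IsEigFnQ n (Dt.𝔫 g) Dt.R.r Dt.u ψ c →
    IsEigFnQ n (Dt.𝔫 g) Dt.R.r Dt.u (T5.Rconv Dt.R.μ (Dt.f n g [] 0 0) ψ) c
  /-- the base downstairs commutes with the operators at `u`, per type -/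
  comm_down : ∀ (n : QWt) (g : G F), Dt.IsBad g → ∀ ψ : G ℚ → ℂ,
    IsWFnQ n (Dt.𝔫 g) Dt.R.r Dt.u ψ →
    ∀ (H : Finset (G ℚ)) (z : G ℚ), IsIwCosetSystem Dt.u H → IsScalarUniformizerAt Dt.u z →
      (∀ x : G ℚ, T5.Rconv Dt.R.μ (Dt.f n g [] 0 0) (iwOp Dt.u H ψ) x
        = iwOp Dt.u H (T5.Rconv Dt.R.μ (Dt.f n g [] 0 0) ψ) x) ∧
      ∀ (k : ℤ) (x : G ℚ), T5.Rconv Dt.R.μ (Dt.f n g [] 0 0) (shiftOp z k ψ) x
        = shiftOp z k (T5.Rconv Dt.R.μ (Dt.f n g [] 0 0) ψ) x
  /-- (KILL-down), per type -/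
  kill_down : ∀ (n : QWt) (g : G F) (X : List (Gen F)) (k : ℤ) (m : ℕ), Dt.IsBad g →
    (∀ x ∈ X, x.Out Dt.S') →
    ∀ ψ : G ℚ → ℂ, T5.IsCuspFn (Dt.𝔫 g) n.type Dt.R.r ψ →
      (∀ χ : G ℚ → ℂ, IsWFnQ n (Dt.𝔫 g) Dt.R.r Dt.u χ →
        T5.innerD Dt.R.μ Dt.R.F ψ χ = 0) →
      ∀ x : G ℚ, T5.Rconv Dt.R.μ (Dt.f n g X k m) ψ x = 0
  /-- the orthogonal projection on the invariant cusp functions downstairs, per type -/
  proj_down : ∀ (n : QWt) (g : G F), Dt.IsBad g →
    ∀ ψ : G ℚ → ℂ, T5.IsCuspFn (Dt.𝔫 g) n.type Dt.R.r ψ →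
    ∃ ψ₁ : G ℚ → ℂ, IsWFnQ n (Dt.𝔫 g) Dt.R.r Dt.u ψ₁ ∧
      ∀ χ : G ℚ → ℂ, IsWFnQ n (Dt.𝔫 g) Dt.R.r Dt.u χ →
        T5.innerD Dt.R.μ Dt.R.F (fun x => ψ x - ψ₁ x) χ = 0

end Data

/-! ## 4. The class bijection and the spectral identity for matched TRIPLES -/

section Matching

variable (F : Type) [Field F] [NumberField F]

/-- **LEAF T7.G1Q = GEOM over `ℚ` (class bijection, two types).**  For a matched triple
(`φ'` over `F`, `f₀` of trivial type and `f₁` of weight one over `ℚ`, `f₀ + f₁` matched with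
`φ'`) of regular test functions: `geomSide(φ') = geomSide(f₀) + geomSide(f₁)`.
Proof.  `T5.GeomUnfold` three times; the two finite sums downstairs run over the conjugacy
classes of `GL₂(ℚ)` and are added class by class (`twTerm` is additive in the test function:
`flat r (f₀ + f₁) = flat r f₀ + flat r f₁`, both series are finite sums locally); then as in
`GeomC` (`T6.NormClassC`, `T6.NormInjC`, `norm`, `nonnorm`). -/
def GeomQC : Prop :=
  ∀ D : CompData ℚ F, IsCompData D →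
    T5.GeomUnfold D.s D.l D.k D.𝔑 T5.trivType →
    T5.GeomUnfold (T5.AdelicAut.id ℚ) 1 ⊤ D.𝔫 T5.trivType →
    T5.GeomUnfold (T5.AdelicAut.id ℚ) 1 ⊤ D.𝔫 wtOne →
    T6.NormClassC → T6.NormInjC →
    ∀ (φ' : G F → ℂ) (f₀ f₁ : G ℚ → ℂ),
      T5.IsTestFn D.𝔑 T5.trivType φ' → T5.IsTwRegular D.s D.l D.k φ' →
      T5.IsTestFn D.𝔫 T5.trivType f₀ → T5.IsTwRegular (T5.AdelicAut.id ℚ) 1 ⊤ f₀ →
      T5.IsTestFn D.𝔫 wtOne f₁ → T5.IsTwRegular (T5.AdelicAut.id ℚ) 1 ⊤ f₁ →
      IsGlobMatch D φ' (fun x => f₀ x + f₁ x) →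
      geomSide D.s D.R' φ' = geomSide (T5.AdelicAut.id ℚ) D.R f₀
        + geomSide (T5.AdelicAut.id ℚ) D.R f₁

/-- **THE SPECTRAL IDENTITY for matched admissible TRIPLES**, in ALL complete orthonormal
sequences of cusp functions (of trivial type upstairs; of trivial type and of weight one
downstairs): the three sides are absolutely summable and
`∑_j ⟨R(φ') R(σ) e'_j, e'_j⟩ = ∑_i ⟨R(f₀) e⁰_i, e⁰_i⟩ + ∑_i ⟨R(f₁) e¹_i, e¹_i⟩`. -/
def SpecIdQC : Prop :=
  ∀ D : CompData ℚ F, IsCompData D →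
    ∀ (φ' : G F → ℂ) (f₀ f₁ : G ℚ → ℂ),
      IsAdm5 D.s D.l D.k D.𝔑 D.R' φ' →
      IsAdm5T T5.trivType (T5.AdelicAut.id ℚ) 1 ⊤ D.𝔫 D.R f₀ →
      IsAdm5T wtOne (T5.AdelicAut.id ℚ) 1 ⊤ D.𝔫 D.R f₁ →
      IsGlobMatch D φ' (fun x => f₀ x + f₁ x) →
      ∀ (e' : ℕ → G F → ℂ) (e₀ e₁ : ℕ → G ℚ → ℂ),
        T5.IsCuspONB D.𝔑 T5.trivType D.R'.r D.R'.μ D.R'.F e' →
        T5.IsCuspONB D.𝔫 T5.trivType D.R.r D.R.μ D.R.F e₀ →
        T5.IsCuspONB D.𝔫 wtOne D.R.r D.R.μ D.R.F e₁ →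
        Summable (fun j => T5.diagCoeff D.s D.R'.μ D.R'.F φ' (e' j)) ∧
        Summable (fun i => T5.diagCoeff (T5.AdelicAut.id ℚ) D.R.μ D.R.F f₀ (e₀ i)) ∧
        Summable (fun i => T5.diagCoeff (T5.AdelicAut.id ℚ) D.R.μ D.R.F f₁ (e₁ i)) ∧
        specSide D.s D.R' e' φ' = specSide (T5.AdelicAut.id ℚ) D.R e₀ f₀
          + specSide (T5.AdelicAut.id ℚ) D.R e₁ f₁

variable {F}

/-- **The spectral identity for triples from the three towers of T5 and the class
bijection.** -/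
theorem specIdQC_of
    (hT' : ∀ D : CompData ℚ F, IsCompData D → T5.Tower D.s D.l D.k D.𝔑 T5.trivType)
    (hT0 : ∀ 𝔫 : Ideal (𝓞 ℚ), 𝔫 ≠ ⊥ → T5.Tower (T5.AdelicAut.id ℚ) 1 ⊤ 𝔫 T5.trivType)
    (hT1 : ∀ 𝔫 : Ideal (𝓞 ℚ), 𝔫 ≠ ⊥ → T5.Tower (T5.AdelicAut.id ℚ) 1 ⊤ 𝔫 wtOne)
    (hN : T6.NormClassC) (hI : T6.NormInjC) (hG : GeomQC F) : SpecIdQC F := by
  intro D hD φ' f₀ f₁ hφ' hf₀ hf₁ hm e' e₀ e₁ he' he₀ he₁
  obtain ⟨t', r', φ₁, φ₂, t₁, t₂, k₁, k₁', k₂, k₂', rfl⟩ := hφ'
  obtain ⟨t0, r0, a₁, a₂, u₁, u₂, j₁, j₁', j₂, j₂', rfl⟩ := hf₀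
  obtain ⟨t1, r1, c₁, c₂, v₁, v₂, i₁, i₁', i₂, i₂', rfl⟩ := hf₁
  have hup := (hT' D hD).stf D.R'.μ D.R'.F D.R'.r hD.frame'.frame hD.frame'.ray hD.aut e' he'
    φ₁ φ₂ t₁ t₂ k₁ k₁' k₂ k₂'
  have hd0 := (hT0 D.𝔫 hD.level_ne).stf D.R.μ D.R.F D.R.r hD.frame.frame hD.frame.ray
    (T5.autPreserves_id D.𝔫 D.R.μ D.R.r) e₀ he₀ a₁ a₂ u₁ u₂ j₁ j₁' j₂ j₂'
  have hd1 := (hT1 D.𝔫 hD.level_ne).stf D.R.μ D.R.F D.R.r hD.frame.frame hD.frame.ray
    (T5.autPreserves_id D.𝔫 D.R.μ D.R.r) e₁ he₁ c₁ c₂ v₁ v₂ i₁ i₁' i₂ i₂'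
  refine ⟨hup.1, hd0.1, hd1.1, ?_⟩
  have hgeo := hG D hD (hT' D hD).unfold (hT0 D.𝔫 hD.level_ne).unfold
    (hT1 D.𝔫 hD.level_ne).unfold hN hI _ _ _ t' r' t0 r0 t1 r1 hm
  unfold specSide
  rw [hup.2.2, hd0.2.2, hd1.2.2]
  exact hgeo

end Matching

/-! ## 5. The three nodes -/

section Nodes

variable (P : EKCond)
variable (F : Type) [Field F] [NumberField F]

/-- **NODE T7.L2Q.1 = SUPPLY over `ℚ`** (geometric half: T3 over `F` and over `ℚ` (two types),
T5, T6 with the archimedean matching `T6.ArchMatchC`, `T6.ArchInjC`).  See the header. -/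
def SupplyQC : Prop :=
  HasSqrtNegThree F → IsImagQuad F →
    ∀ Φ : HeckeEigensystem F ℂ, A0.IsCuspAdelicSph0 F Φ → ConstOnFibresQ Φ → P F Φ →
      ∃ Dt : L2QData F, IsL2QData Φ Dt

/-- **NODE T7.L2Q.2 = SPEC-UP over `ℚ`** (spectral half upstairs + non-vanishing): the cyclic
node `SpecUpC` with `ℓ = 2`; only the upstairs clauses of `IsL2QData` are used by its proof. -/
def SpecUpQC : Prop :=
  HasSqrtNegThree F → IsImagQuad F →
    ∀ Φ : HeckeEigensystem F ℂ, A0.IsCuspAdelicSph0 F Φ → ConstOnFibresQ Φ →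
      ∀ Dt : L2QData F, IsL2QData Φ Dt →
      ∃ (g : G F) (e' : ℕ → G F → ℂ) (ι' : Type) (C : ι' → EigData F) (b' l' : ι' → ℂ)
        (R : ℝ) (y : ι' → ℂ),
        Dt.IsBad g ∧
        T5.IsCuspONB (Dt.𝔑 g) T5.trivType Dt.R'.r Dt.R'.μ Dt.R'.F e' ∧
        Summable (fun j => ‖y j‖) ∧ (∀ j, (C j).IsUnitaryOut Dt.S') ∧
        (∀ j, IsRegParam R (b' j) (l' j)) ∧
        (∀ X : List (Gen F), (∀ x ∈ X, x.Out Dt.S') → ∀ (k : ℤ) (m : ℕ), Dt.m₀ g X ≤ m →
          specSide Dt.s Dt.R' e' (Dt.φ' g X k m)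
            = ∑' j, wordEv X (C j) * y j * b' j ^ k * l' j ^ m) ∧
        ∃ b₀ l₀ : ℂ,
          (∑' j : {j : {j : ι' // b' j = b₀ ∧ l' j = l₀} //
              (C j.1).AgreeOut Dt.S' (eigOf Φ)}, y j.1.1) ≠ 0

/-- **NODE T7.L2Q.3 = SPEC-DOWN over `ℚ`** (spectral half downstairs + realisation), for the
type `n`.  The realisation clause: an atom whose base change is spherical of parameter `0` is
realised in the sense of `A0.notion556` (type `w0`: `A0.IsCuspAdelicSph0 ℚ`; type `w1`: D3 +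
QOUT, `H670.D3.realise_wtOne`, with the eigensystem `π'` of that lemma as `c i`). -/
def SpecDownQAt (n : QWt) : Prop :=
  HasSqrtNegThree F → IsImagQuad F →
    ∀ Φ : HeckeEigensystem F ℂ, A0.IsCuspAdelicSph0 F Φ → ConstOnFibresQ Φ →
      ∀ Dt : L2QData F, IsL2QData Φ Dt → ∀ g : G F, Dt.IsBad g →
      ∃ (e : ℕ → G ℚ → ℂ) (ι : Type) (c : ι → HeckeEigensystem ℚ ℂ) (Ch : ι → EigData F)
        (b l : ι → ℂ) (R : ℝ) (x : ι → ℂ),
        T5.IsCuspONB (Dt.𝔫 g) n.type Dt.R.r Dt.R.μ Dt.R.F e ∧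
        Summable (fun i => ‖x i‖) ∧ (∀ i, (Ch i).IsUnitaryOut Dt.S') ∧
        (∀ i, IsBCEigQ F (c i) (Ch i) Dt.S) ∧
        (∀ i, IsRegParam R (b i) (l i)) ∧
        (∀ X : List (Gen F), (∀ x ∈ X, x.Out Dt.S') → ∀ (k : ℤ) (m : ℕ), Dt.m₀ g X ≤ m →
          specSide (T5.AdelicAut.id ℚ) Dt.R e (Dt.f n g X k m)
            = ∑' i, wordEv X (Ch i) * x i * b i ^ k * l i ^ m) ∧
        ∀ i, (Ch i).IsSph0 → A0.notion556.IsCusp ℚ (c i)

/-- **NODE T7.L2Q.3 = SPEC-DOWN over `ℚ`**: both types. -/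
def SpecDownQC : Prop := ∀ n : QWt, SpecDownQAt F n

variable {P F}

/-- The atoms `wordEv X (A i) · x i · b i ^ k · l i ^ m` are summable. -/
theorem summable_atoms {K : Type} [Field K] [NumberField K]
    {S : Finset (HeightOneSpectrum (𝓞 K))} {ι : Type} {A : ι → EigData K} {x b l : ι → ℂ}
    {R : ℝ} (hA : ∀ i, (A i).IsUnitaryOut S) (hx : Summable fun i => ‖x i‖)
    (hp : ∀ i, IsRegParam R (b i) (l i)) (X : List (Gen K)) (hX : ∀ g ∈ X, g.Out S)
    (k : ℤ) (m : ℕ) :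
    Summable fun i => wordEv X (A i) * x i * b i ^ k * l i ^ m := by
  refine Summable.of_norm_bounded (g := fun i => wordBd X * ‖x i‖ * R ^ m)
    ((hx.mul_left (wordBd X)).mul_right (R ^ m)) (fun i => ?_)
  rw [norm_mul, norm_mul, norm_mul, norm_zpow, (hp i).1, one_zpow, mul_one, norm_pow]
  exact mul_le_mul
    (mul_le_mul (norm_wordEv_le (hA i) X hX) le_rfl (norm_nonneg _) (wordBd_nonneg X))
    (pow_le_pow_left₀ (norm_nonneg _) (hp i).2.1 m) (pow_nonneg (norm_nonneg _) m)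
    (mul_nonneg (wordBd_nonneg X) (norm_nonneg _))

/-- **THE ASSEMBLY OF LEVEL 2 OVER `ℚ`**: the regular trace identity for words (target
`T7.TraceWordsQRegP P F`, VERBATIM) from the three nodes and the spectral identity for matched
triples.  The atoms downstairs are the disjoint union of the atoms of the two types. -/
theorem traceWordsQRegP_of (hS : SupplyQC P F) (hU : SpecUpQC F) (hD : SpecDownQC F)
    (hI : SpecIdQC F) : TraceWordsQRegP P F := by
  intro h3 hquad Φ hΦ hconst hP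
  obtain ⟨Dt, hDt⟩ := hS h3 hquad Φ hΦ hconst hP
  obtain ⟨g, e', ι', C, b', l', R', y, hg, he', hy, hUB, hp', hexp', hne⟩ :=
    hU h3 hquad Φ hΦ hconst Dt hDt
  obtain ⟨e₀, ι₀, c₀, Ch₀, b₀, l₀, R₀, x₀, he₀, hx₀, hUA₀, hbc₀, hp₀, hexp₀, hreal₀⟩ :=
    hD QWt.w0 h3 hquad Φ hΦ hconst Dt hDt g hg
  obtain ⟨e₁, ι₁, c₁, Ch₁, b₁, l₁, R₁, x₁, he₁, hx₁, hUA₁, hbc₁, hp₁, hexp₁, hreal₁⟩ :=
    hD QWt.w1 h3 hquad Φ hΦ hconst Dt hDt g hg
  have hUA : ∀ i : ι₀ ⊕ ι₁, (Sum.elim Ch₀ Ch₁ i).IsUnitaryOut Dt.S' := by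
    rintro (i | i)
    · exact hUA₀ i
    · exact hUA₁ i
  have hx : Summable fun i : ι₀ ⊕ ι₁ => ‖Sum.elim x₀ x₁ i‖ :=
    Summable.sum _ (by simpa [Function.comp_def] using hx₀)
      (by simpa [Function.comp_def] using hx₁)
  have hp : ∀ i : ι₀ ⊕ ι₁,
      IsRegParam (max R' (max R₀ R₁)) (Sum.elim b₀ b₁ i) (Sum.elim l₀ l₁ i) := by
    rintro (i | i)
    · exact isRegParam_mono ((le_max_left _ _).trans (le_max_right _ _)) (hp₀ i)
    · exact isRegParam_mono ((le_max_right _ _).trans (le_max_right _ _)) (hp₁ i)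
  refine ⟨Dt.S, Dt.S', ι₀ ⊕ ι₁, ι', Sum.elim c₀ c₁, Sum.elim Ch₀ Ch₁, C, Sum.elim b₀ b₁,
    Sum.elim l₀ l₁, b', l', max R' (max R₀ R₁), Sum.elim x₀ x₁, y, hDt.under, hx, hy, hUA, hUB,
    ?_, hp, fun j => isRegParam_mono (le_max_left _ _) (hp' j), ?_, hne, ?_⟩
  · rintro (i | i)
    · exact hbc₀ i
    · exact hbc₁ i
  · intro X hX
    refine ⟨Dt.m₀ g X, fun m hm k => ?_⟩
    have hid := (hI (Dt.comp g) (hDt.comp g hg) (Dt.φ' g X k m) (Dt.f QWt.w0 g X k m)
      (Dt.f QWt.w1 g X k m)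
      (isAdm5_of_ekProd (hDt.ekprod_up g X k m hg hX) (hDt.reg_up g X k m hg hX hm))
      (isAdm5T_of_ekProdT (hDt.ekprod_down QWt.w0 g X k m hg hX)
        (hDt.reg_down QWt.w0 g X k m hg hX hm))
      (isAdm5T_of_ekProdT (hDt.ekprod_down QWt.w1 g X k m hg hX)
        (hDt.reg_down QWt.w1 g X k m hg hX hm))
      (hDt.matched g X k m hg hX hm) e' e₀ e₁ he' he₀ he₁).2.2.2
    have hs₀ := summable_atoms hUA₀ hx₀ hp₀ X hX k m
    have hs₁ := summable_atoms hUA₁ hx₁ hp₁ X hX k m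
    have hsplit : (∑' i : ι₀ ⊕ ι₁, wordEv X (Sum.elim Ch₀ Ch₁ i) * Sum.elim x₀ x₁ i
          * Sum.elim b₀ b₁ i ^ k * Sum.elim l₀ l₁ i ^ m)
        = (∑' i, wordEv X (Ch₀ i) * x₀ i * b₀ i ^ k * l₀ i ^ m)
          + ∑' i, wordEv X (Ch₁ i) * x₁ i * b₁ i ^ k * l₁ i ^ m :=
      Summable.tsum_sum (f := fun i : ι₀ ⊕ ι₁ => wordEv X (Sum.elim Ch₀ Ch₁ i)
        * Sum.elim x₀ x₁ i * Sum.elim b₀ b₁ i ^ k * Sum.elim l₀ l₁ i ^ m) hs₀ hs₁
    rw [hsplit, ← hexp₀ X hX k m hm, ← hexp₁ X hX k m hm, ← hexp' X hX k m hm]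
    exact hid.symm
  · rintro (i | i)
    · exact hreal₀ i
    · exact hreal₁ i

end Nodes

/-- The assembly for all number fields (target `T7.TraceWordsQRegPAll P`, VERBATIM). -/
theorem traceWordsQRegPAll_of (P : EKCond)
    (hS : ∀ (F : Type) [Field F] [NumberField F], SupplyQC P F)
    (hU : ∀ (F : Type) [Field F] [NumberField F], SpecUpQC F)
    (hD : ∀ (F : Type) [Field F] [NumberField F], SpecDownQC F)
    (hI : ∀ (F : Type) [Field F] [NumberField F], SpecIdQC F) : TraceWordsQRegPAll P :=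
  fun F _ _ => traceWordsQRegP_of (hS F) (hU F) (hD F) (hI F)

/-! ## Appendix (v1.1, additive): the equation lemmas of the definitions of this file are
realised HERE

See the appendix of `T7/Comparison.lean` v0.1 (helper797; helper8, helper112): equation lemmas
are generated on demand in the module which first uses them; citing them here generates them
once, upstream of every user.  No statement of this file is changed. -/

theorem QWt.type_w0 : QWt.w0.type = T5.trivType := rfl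

theorem QWt.type_w1 : QWt.w1.type = wtOne := rfl

theorem QWt.wt_w0 : QWt.w0.wt = 0 := rfl

theorem QWt.wt_w1 : QWt.w1.wt = -1 := rfl

theorem QWt.meanEig_w0 : QWt.w0.MeanEig = MeanEigR0 := rfl

theorem QWt.meanEig_w1 : QWt.w1.MeanEig = MeanEigR1 := rfl

theorem eqns_realised826 : True := by
  have _a1 := @QWt.type.eq_1
  have _a2 := @QWt.type.eq_2
  have _a3 := @QWt.type.eq_def
  have _a4 := @QWt.type.eq_unfold
  have _b1 := @QWt.wt.eq_1
  have _b2 := @QWt.wt.eq_2
  have _b3 := @QWt.wt.eq_def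
  have _b4 := @QWt.wt.eq_unfold
  have _c1 := @QWt.MeanEig.eq_1
  have _c2 := @QWt.MeanEig.eq_2
  have _c3 := @QWt.MeanEig.eq_def
  have _c4 := @QWt.MeanEig.eq_unfold
  have _d1 := @wtOne.eq_1
  have _d2 := @wtOne.eq_def
  have _d3 := @wtOne.eq_unfold
  have _e1 := @MeanEigR0.eq_1
  have _e2 := @MeanEigR0.eq_def
  have _e3 := @MeanEigR0.eq_unfold
  have _f1 := @MeanEigR1.eq_1
  have _f2 := @MeanEigR1.eq_def
  have _f3 := @MeanEigR1.eq_unfold
  have _g1 := @IsEKProdT.eq_1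
  have _g2 := @IsEKProdT.eq_def
  have _g3 := @IsEKProdT.eq_unfold
  have _h1 := @IsAdm5T.eq_1
  have _h2 := @IsAdm5T.eq_def
  have _h3 := @IsAdm5T.eq_unfold
  have _i1 := @L2QData.comp.eq_1
  have _i2 := @L2QData.comp.eq_def
  have _i3 := @L2QData.comp.eq_unfold
  have _j1 := @L2QData.𝔑.eq_1
  have _j2 := @L2QData.𝔑.eq_def
  have _j3 := @L2QData.𝔑.eq_unfold
  have _k1 := @L2QData.IsBad.eq_1
  have _k2 := @L2QData.IsBad.eq_def
  have _k3 := @L2QData.IsBad.eq_unfold
  have _l1 := @L2QData.fsum.eq_1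
  have _l2 := @L2QData.fsum.eq_def
  have _l3 := @L2QData.fsum.eq_unfold
  have _m1 := @IsBCDataQ.eq_1
  have _m2 := @IsBCDataQ.eq_def
  have _m3 := @IsBCDataQ.eq_unfold
  have _n1 := @GeomQC.eq_1
  have _n2 := @GeomQC.eq_def
  have _n3 := @GeomQC.eq_unfold
  have _o1 := @SpecIdQC.eq_1
  have _o2 := @SpecIdQC.eq_def
  have _o3 := @SpecIdQC.eq_unfold
  have _p1 := @SupplyQC.eq_1
  have _p2 := @SupplyQC.eq_def
  have _p3 := @SupplyQC.eq_unfold
  have _q1 := @SpecUpQC.eq_1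
  have _q2 := @SpecUpQC.eq_def
  have _q3 := @SpecUpQC.eq_unfold
  have _r1 := @SpecDownQAt.eq_1
  have _r2 := @SpecDownQAt.eq_def
  have _r3 := @SpecDownQAt.eq_unfold
  have _s1 := @SpecDownQC.eq_1
  have _s2 := @SpecDownQC.eq_def
  have _s3 := @SpecDownQC.eq_unfold
  have _t1 := @WtOneKTypeC.eq_1
  have _t2 := @WtOneKTypeC.eq_def
  have _t3 := @WtOneKTypeC.eq_unfold
  trivial

end Fermat.Agent.LT.T7.L2Q

end

end
-- ===== PACK-END LT/T7/H826/Level2Q.lean

-- ===== PACK-BEGIN LT/T7/H16/RegParamEig.lean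
section






/-!
# Row LT, tower T7, asset T7.L2.R (helper16): THE REGULAR PARAMETERS OF A JOINT EIGENFUNCTION

OFF-MAIN.  Vocabulary: `T7/Level2.lean` (helper797, sha256 15516646) VERBATIM.

    isRegParam_of_eig16 :
      T1.AdNormC K → IsFrame μ F → IsRayGen r → IsWFn 𝔫 r l o ψ → 0 < l →
      innerD μ F ψ ψ ≠ 0 → IsIwCosetSystem (o 0) H → IsScalarUniformizerAt (o 0) z →
      (∀ x, iwOp (o 0) H ψ x = λ * ψ x) → (∀ x, shiftOp z 1 ψ x = b * ψ x) →
      IsRegParam (√q) b λ                      (q = N(o 0))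

(`isRegParam_of_eig_core16`: the same for any continuous bounded function on
`GL₂(K) ⟨r⟩ \ GL₂(𝔸_K)` which is right invariant under the elements of the Iwahori subgroup
supported at `w`.)  This is the field `IsRegParam` of the atoms of `SpecUpC` / `SpecDownC`.

Proof.  `P(a, b) = ⟨R(a) ψ, R(b) ψ⟩` is invariant under `(a, b) ↦ (h a, h b)` (translation
invariance of `∫_F`, helper277) and under `a ↦ a k`, `b ↦ b k` (`k` Iwahori).  With
`ω = antidiag(1, c)` (`ω² = z`, `ω` normalises `I`): `H ω⁻¹ ⊆ GL₂(𝒪) \ I = I s I` (Bruhat), hence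
`P(h, ω) = c₁ := P(s ω, ω)` for `h ∈ H` and `P(h, h') = c₁` for `h ≠ h'` in `H`.  Therefore
`q |λ|² N = ‖[I t I] ψ‖² = q N + q (q - 1) c₁`, `√q λ β = ⟨[I t I] ψ, R(ω) ψ⟩ = q c₁`
(`β = P(1, ω)`), `β = P(ω, ω²) = conj b · conj β`, and `RegAlgebra.lean` concludes.
No classification of the cosets, no count of the residue field.
-/

set_option autoImplicit false

open IsDedekindDomain NumberField MeasureTheory WithZero
open scoped ComplexConjugate

noncomputable section

namespace Fermat.Agent.LT.T7.H16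

open Fermat.Agent.LT.H556.A0 Fermat.Agent.LT.T5 Fermat.Agent.LT.H129 Fermat.Agent.LT.T7

attribute [local instance] Fermat.Agent.LT.T5.instMeasurableSpaceG

variable {K : Type} [Field K] [NumberField K]

/-! ## The elements `ω` and `s` -/

section Elements

variable (w : HeightOneSpectrum (𝓞 K))

theorem det_omegaM16 (c : w.adicCompletion K) : (omegaM16 c).det = -c := by
  unfold omegaM16
  rw [Matrix.det_fin_two_of]
  ring

theorem det_weyl16 : (!![0, 1; 1, 0] : Matrix (Fin 2) (Fin 2) (w.adicCompletion K)).det ≠ 0 := by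
  rw [Matrix.det_fin_two_of]
  norm_num

/-- `ω = antidiag(1, c)` at `w`. -/
def omegaG16 (c : w.adicCompletion K) (hc : c ≠ 0) : G K :=
  locOf16 w (omegaM16 c) (by rw [det_omegaM16]; exact neg_ne_zero.2 hc)

/-- `s = antidiag(1, 1)` at `w`. -/
def weylG16 : G K := locOf16 w !![0, 1; 1, 0] (det_weyl16 w)

variable {w}

theorem finComp_omegaG16 (c : w.adicCompletion K) (hc : c ≠ 0) :
    finComp w (omegaG16 w c hc) = omegaM16 c :=
  finComp_locOf16 w _ _

theorem finComp_omegaG16_inv (c : w.adicCompletion K) (hc : c ≠ 0) :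
    finComp w (omegaG16 w c hc)⁻¹ = omegaInvM16 c := by
  rw [finComp_inv16', finComp_omegaG16]
  exact Matrix.inv_eq_right_inv (omegaM16_mul_inv hc)

theorem isLocalAtFin_omegaG16 (c : w.adicCompletion K) (hc : c ≠ 0) :
    IsLocalAtFin w (omegaG16 w c hc) :=
  isLocalAtFin_locOf16 w _ _

theorem omegaG16_sq {z : G K} (hz : IsLocalAtFin w z) (c : w.adicCompletion K) (hc : c ≠ 0)
    (hzc : finComp w z = Matrix.diagonal (fun _ => c)) :
    omegaG16 w c hc * omegaG16 w c hc = z := by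
  refine eq_of_local16 (isLocalAtFin_mul129 (isLocalAtFin_omegaG16 c hc)
    (isLocalAtFin_omegaG16 c hc)) hz ?_
  rw [finComp_mul16, finComp_omegaG16, omegaM16_sq, hzc]

/-- Conjugation by `ω` preserves the Iwahori elements supported at `w`. -/
theorem conj_omegaG16 {c : w.adicCompletion K} (hcv : vw16 w c = exp (-1 : ℤ)) {k : G K}
    (hk : IsLocalAtFin w k) (hI : InIwahori w k) :
    IsLocalAtFin w ((omegaG16 w c (ne_zero_of_v16 hcv))⁻¹ * k * omegaG16 w c (ne_zero_of_v16 hcv))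
      ∧ InIwahori w
        ((omegaG16 w c (ne_zero_of_v16 hcv))⁻¹ * k * omegaG16 w c (ne_zero_of_v16 hcv)) := by
  have hc := ne_zero_of_v16 hcv
  refine ⟨isLocalAtFin_mul129 (isLocalAtFin_mul129
    (isLocalAtFin_inv129 (isLocalAtFin_omegaG16 c hc)) hk) (isLocalAtFin_omegaG16 c hc), ?_⟩
  rw [inIwahori_iff16, finComp_mul16, finComp_mul16, finComp_omegaG16_inv, finComp_omegaG16]
  exact isIw16_conj hcv ((inIwahori_iff16 w k).1 hI)

end Elements

/-! ## The core -/

section Core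

variable {μ : Measure (G K)} {F : Set (G K)} {r : G K} {w : HeightOneSpectrum (𝓞 K)}
  {ψ : G K → ℂ}

/-- Right invariance of the matrix coefficients. -/
theorem P16_mul_right_left
    (hI : ∀ k : G K, IsLocalAtFin w k → InIwahori w k → ∀ x : G K, ψ (x * k) = ψ x)
    {k : G K} (hk : IsLocalAtFin w k) (hkI : InIwahori w k) (a b : G K) :
    P16 μ F ψ (a * k) b = P16 μ F ψ a b :=
  P16_congr_left (fun x => by rw [← mul_assoc, hI k hk hkI]) b

theorem P16_mul_right_right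
    (hI : ∀ k : G K, IsLocalAtFin w k → InIwahori w k → ∀ x : G K, ψ (x * k) = ψ x)
    {k : G K} (hk : IsLocalAtFin w k) (hkI : InIwahori w k) (a b : G K) :
    P16 μ F ψ a (b * k) = P16 μ F ψ a b :=
  P16_congr_right (fun x => by rw [← mul_assoc, hI k hk hkI]) a

/-- **Constancy on `GL₂(𝒪) \ I`.** -/
theorem P16_J16 (hN : T1.AdNormC K) (hF : IsFrame μ F) (hr : IsRayGen r)
    (hψ : IsAutBdd16 r ψ)
    (hI : ∀ k : G K, IsLocalAtFin w k → InIwahori w k → ∀ x : G K, ψ (x * k) = ψ x)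
    {c : w.adicCompletion K} (hcv : vw16 w c = exp (-1 : ℤ)) {κ : G K}
    (hκ : IsLocalAtFin w κ) (hJ : IsJ16 (vw16 w) (finComp w κ)) :
    P16 μ F ψ (κ * omegaG16 w c (ne_zero_of_v16 hcv)) (omegaG16 w c (ne_zero_of_v16 hcv))
      = P16 μ F ψ (weylG16 w * omegaG16 w c (ne_zero_of_v16 hcv))
          (omegaG16 w c (ne_zero_of_v16 hcv)) := by
  set ω := omegaG16 w c (ne_zero_of_v16 hcv) with hω
  obtain ⟨n, b, hn, hb, e⟩ := bruhat16 hJ
  set kn : G K := locOf16 w n (det_ne_zero16 hn.1) with hkn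
  set kb : G K := locOf16 w b (det_ne_zero16 hb.1) with hkb
  have hknL : IsLocalAtFin w kn := isLocalAtFin_locOf16 w _ _
  have hkbL : IsLocalAtFin w kb := isLocalAtFin_locOf16 w _ _
  have hknI : InIwahori w kn := by
    rw [inIwahori_iff16, hkn, finComp_locOf16]
    exact hn
  have hkbI : InIwahori w kb := by
    rw [inIwahori_iff16, hkb, finComp_locOf16]
    exact hb
  have hκe : κ = kn * weylG16 w * kb := by
    refine eq_of_local16 hκ (isLocalAtFin_mul129 (isLocalAtFin_mul129 hknL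
      (isLocalAtFin_locOf16 w _ _)) hkbL) ?_
    rw [finComp_mul16, finComp_mul16, hkn, hkb, finComp_locOf16, finComp_locOf16]
    unfold weylG16
    rw [finComp_locOf16]
    exact e
  obtain ⟨h1L, h1I⟩ := conj_omegaG16 hcv hkbL hkbI
  obtain ⟨h2L, h2I⟩ := conj_omegaG16 hcv (isLocalAtFin_inv129 hknL) (inIwahori_inv16 w hknI)
  have e1 : κ * ω = kn * (weylG16 w * ω) * (ω⁻¹ * kb * ω) := by
    rw [hκe]
    group
  have e2 : kn⁻¹ * ω = ω * (ω⁻¹ * kn⁻¹ * ω) := by group
  calc P16 μ F ψ (κ * ω) ω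
      = P16 μ F ψ (kn * (weylG16 w * ω)) ω := by
        rw [e1]
        exact P16_mul_right_left hI h1L h1I _ _
    _ = P16 μ F ψ (kn * (weylG16 w * ω)) (kn * (kn⁻¹ * ω)) := by
        rw [mul_inv_cancel_left]
    _ = P16 μ F ψ (weylG16 w * ω) (kn⁻¹ * ω) := P16_mul_left hN hF hr hψ _ _ _
    _ = P16 μ F ψ (weylG16 w * ω) ω := by
        rw [e2]
        exact P16_mul_right_right hI h2L h2I _ _

/-- The elements of `I diag(c', 1) I ω⁻¹` lie in `GL₂(𝒪) \ I`. -/
theorem isJ16_of_coset16 {c : w.adicCompletion K} (hcv : vw16 w c = exp (-1 : ℤ)) {h : G K}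
    (hh : InIwahoriCoset w 1 h) :
    IsJ16 (vw16 w) (finComp w (h * (omegaG16 w c (ne_zero_of_v16 hcv))⁻¹)) := by
  obtain ⟨k₁, k₂, t, c', hk₁, hk₂, hc', ht, hfin⟩ := hh
  rw [finComp_mul16, hfin, finComp_mul16, finComp_mul16, ht, finComp_omegaG16_inv]
  have hc'' : vw16 w c' = exp (-1 : ℤ) := by
    rw [hc']
    norm_num
  exact isJ16_coset hcv hc'' ((inIwahori_iff16 w k₁).1 hk₁) ((inIwahori_iff16 w k₂).1 hk₂)

theorem two_le_absNorm16 (w : HeightOneSpectrum (𝓞 K)) : 2 ≤ Ideal.absNorm w.asIdeal := by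
  have h0 : Ideal.absNorm w.asIdeal ≠ 0 := by
    rw [Ne, Ideal.absNorm_eq_zero_iff]
    exact w.ne_bot
  have h1 : Ideal.absNorm w.asIdeal ≠ 1 := by
    rw [Ne, Ideal.absNorm_eq_one_iff]
    exact w.isPrime.ne_top
  omega

/-- **THE CORE**: the regular parameters of a joint eigenfunction of `𝒰` and `Z` at `w`. -/
theorem isRegParam_of_eig_core16 (hN : T1.AdNormC K) (hF : IsFrame μ F) (hr : IsRayGen r)
    (hψ : IsAutBdd16 r ψ)
    (hI : ∀ k : G K, IsLocalAtFin w k → InIwahori w k → ∀ x : G K, ψ (x * k) = ψ x)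
    (hne : innerD μ F ψ ψ ≠ 0)
    {H : Finset (G K)} (hH : IsIwCosetSystem w H) {z : G K} (hz : IsScalarUniformizerAt w z)
    {b lam : ℂ} (hU : ∀ x : G K, iwOp w H ψ x = lam * ψ x)
    (hZ : ∀ x : G K, shiftOp z 1 ψ x = b * ψ x) :
    IsRegParam (Real.sqrt (Ideal.absNorm w.asIdeal : ℝ)) b lam := by
  classical
  obtain ⟨hzL, c, hcv, hzc⟩ := hz
  have hcv' : vw16 w c = exp (-1 : ℤ) := hcv
  have hc0 : c ≠ 0 := ne_zero_of_v16 hcv'
  set ω : G K := omegaG16 w c (ne_zero_of_v16 hcv') with hω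
  have hωL : IsLocalAtFin w ω := isLocalAtFin_omegaG16 c hc0
  have hωz : ω * ω = z := omegaG16_sq hzL c hc0 hzc
  obtain ⟨hcard, hHloc, hHsep⟩ := hH
  set q : ℕ := Ideal.absNorm w.asIdeal with hq
  have hq2 : 2 ≤ q := two_le_absNorm16 w
  set sq : ℂ := ((Real.sqrt (q : ℝ) : ℝ) : ℂ) with hsq
  have hsq0 : sq ≠ 0 := by
    rw [hsq]
    refine Complex.ofReal_ne_zero.2 (Real.sqrt_pos.2 ?_).ne'
    have : (2 : ℝ) ≤ (q : ℝ) := by exact_mod_cast hq2
    linarith
  -- the eigen-equations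
  have hU' : ∀ x : G K, ∑ h ∈ H, ψ (x * h) = sq * lam * ψ x := by
    intro x
    have := hU x
    unfold iwOp at this
    rw [mul_assoc, ← this, ← mul_assoc, mul_inv_cancel₀ hsq0, one_mul]
  have hZ' : ∀ x : G K, ψ (x * z) = b * ψ x := by
    intro x
    have := hZ x
    unfold shiftOp at this
    rwa [zpow_one] at this
  have hUfun : (fun x => ∑ h ∈ H, ψ (x * h)) = fun x => sq * lam * ψ x := funext hU'
  have hZfun : (fun x => ψ (x * z)) = fun x => b * ψ x := funext hZ'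
  -- the norm
  set N : ℝ := ∫ x in F, ‖ψ x‖ ^ 2 ∂μ with hNdef
  have hNN : innerD μ F ψ ψ = (N : ℂ) := innerD_self16 ψ
  have hN0 : 0 < N := by
    have h0 : 0 ≤ N := integral_nonneg fun x => by positivity
    refine lt_of_le_of_ne h0 fun h => hne ?_
    rw [hNN, ← h]
    simp
  -- the constants
  set β : ℂ := P16 μ F ψ 1 ω with hβ
  set c₁ : ℂ := P16 μ F ψ (weylG16 w * ω) ω with hc₁
  have htr : ∀ a : G K, Continuous (fun x => ψ (x * a)) ∧ ∃ C : ℝ, ∀ g : G K, ‖ψ (g * a)‖ ≤ C :=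
    fun a => ⟨(hψ.translate hr a).cont, (hψ.translate hr a).bdd⟩
  -- `P(h, ω) = c₁`
  have hPω : ∀ h ∈ H, P16 μ F ψ h ω = c₁ := by
    intro h hh
    have hJ := isJ16_of_coset16 hcv' (hHloc h hh).2
    have hL : IsLocalAtFin w (h * ω⁻¹) :=
      isLocalAtFin_mul129 (hHloc h hh).1 (isLocalAtFin_inv129 hωL)
    have := P16_J16 hN hF hr hψ hI hcv' hL hJ
    rw [inv_mul_cancel_right] at this
    exact this
  -- `P(h, h') = c₁` for `h ≠ h'`
  have hPhh : ∀ h ∈ H, ∀ h' ∈ H, h' ≠ h → P16 μ F ψ h h' = c₁ := by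
    intro h hh h' hh' hne'
    have hJ := isJ16_of_coset16 hcv' (hHloc h hh).2
    have hJ' := isJ16_of_coset16 hcv' (hHloc h' hh').2
    have hL : IsLocalAtFin w (h * ω⁻¹) :=
      isLocalAtFin_mul129 (hHloc h hh).1 (isLocalAtFin_inv129 hωL)
    have hL' : IsLocalAtFin w (h' * ω⁻¹) :=
      isLocalAtFin_mul129 (hHloc h' hh').1 (isLocalAtFin_inv129 hωL)
    have hκL : IsLocalAtFin w ((h' * ω⁻¹)⁻¹ * (h * ω⁻¹)) :=
      isLocalAtFin_mul129 (isLocalAtFin_inv129 hL') hL
    have hκG : IsGLO16 (vw16 w) (finComp w ((h' * ω⁻¹)⁻¹ * (h * ω⁻¹))) := by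
      rw [finComp_mul16, finComp_inv16']
      exact isGLO16_mul (isGLO16_inv hJ'.1) hJ.1
    have hκJ : IsJ16 (vw16 w) (finComp w ((h' * ω⁻¹)⁻¹ * (h * ω⁻¹))) := by
      refine isJ16_of_not_isIw hκG fun hIw => ?_
      have hIw' : InIwahori w ((h' * ω⁻¹)⁻¹ * (h * ω⁻¹)) := (inIwahori_iff16 w _).2 hIw
      have := (conj_omegaG16 hcv' hκL hIw').2
      have e : ω⁻¹ * ((h' * ω⁻¹)⁻¹ * (h * ω⁻¹)) * ω = h'⁻¹ * h := by group
      rw [← hω, e] at this
      exact hHsep h' hh' h hh hne' this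
    have := P16_J16 hN hF hr hψ hI hcv' hκL hκJ
    rw [← hω] at this
    rw [← hc₁] at this
    rw [← this]
    have e : (h' * ω⁻¹)⁻¹ * (h * ω⁻¹) * ω = (h' * ω⁻¹)⁻¹ * h := by group
    rw [e]
    have h3 := P16_mul_left hN hF hr hψ (h' * ω⁻¹) ((h' * ω⁻¹)⁻¹ * h) ω
    rw [mul_inv_cancel_left, inv_mul_cancel_right] at h3
    exact h3
  -- (E1)
  have hUbdd : Continuous (fun x => ∑ h ∈ H, ψ (x * h)) ∧
      ∃ C : ℝ, ∀ g : G K, ‖∑ h ∈ H, ψ (g * h)‖ ≤ C := by
    refine ⟨?_, ?_⟩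
    · rw [hUfun]
      exact (hψ.const_mul (sq * lam)).cont
    · obtain ⟨C, hC⟩ := (hψ.const_mul (sq * lam)).bdd
      exact ⟨C, fun g => by rw [hU' g]; exact hC g⟩
  have E1 : sq * lam * conj (sq * lam) * (N : ℂ)
      = (q : ℂ) * (N : ℂ) + (q : ℂ) * ((q : ℂ) - 1) * c₁ := by
    have hA : innerD μ F (fun x => ∑ h ∈ H, ψ (x * h)) (fun x => ∑ h ∈ H, ψ (x * h))
        = sq * lam * conj (sq * lam) * (N : ℂ) := by
      rw [hUfun, innerD_const_mul_left16, innerD_const_mul_right16, hNN]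
      ring
    have hB : innerD μ F (fun x => ∑ h ∈ H, ψ (x * h)) (fun x => ∑ h ∈ H, ψ (x * h))
        = ∑ h ∈ H, ∑ h' ∈ H, P16 μ F ψ h h' := by
      rw [innerD_sum_left16 hF.finite H (fun h x => ψ (x * h)) (fun h _ => htr h)
        hUbdd.1 hUbdd.2]
      refine Finset.sum_congr rfl fun h _ => ?_
      rw [innerD_sum_right16 hF.finite H (fun h x => ψ (x * h)) (fun h _ => htr h)
        (htr h).1 (htr h).2]
      rfl
    have hC : ∀ h ∈ H, ∑ h' ∈ H, P16 μ F ψ h h' = (N : ℂ) + ((q : ℂ) - 1) * c₁ := by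
      intro h hh
      rw [← Finset.add_sum_erase H _ hh, P16_self hN hF hr hψ, hNN]
      congr 1
      rw [Finset.sum_congr rfl (fun h' hh' =>
        hPhh h hh h' (Finset.mem_of_mem_erase hh') (Finset.ne_of_mem_erase hh'))]
      rw [Finset.sum_const, Finset.card_erase_of_mem hh, hcard, nsmul_eq_mul]
      have : ((q - 1 : ℕ) : ℂ) = (q : ℂ) - 1 := by
        rw [Nat.cast_sub (by omega)]
        simp
      rw [this]
    rw [← hA, hB, Finset.sum_congr rfl hC, Finset.sum_const, hcard, nsmul_eq_mul]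
    ring
  -- (E2)
  have E2 : sq * lam * β = (q : ℂ) * c₁ := by
    have hA : innerD μ F (fun x => ∑ h ∈ H, ψ (x * h)) (fun x => ψ (x * ω)) = sq * lam * β := by
      rw [hUfun, innerD_const_mul_left16, hβ]
      unfold P16
      simp only [mul_one]
    have hB : innerD μ F (fun x => ∑ h ∈ H, ψ (x * h)) (fun x => ψ (x * ω))
        = ∑ h ∈ H, P16 μ F ψ h ω := by
      rw [innerD_sum_left16 hF.finite H (fun h x => ψ (x * h)) (fun h _ => htr h)
        (htr ω).1 (htr ω).2]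
      rfl
    rw [← hA, hB, Finset.sum_congr rfl hPω, Finset.sum_const, hcard, nsmul_eq_mul]
  -- (E3)
  have E3 : β = conj b * conj β := by
    have h1 := P16_mul_left hN hF hr hψ ω 1 ω
    rw [mul_one, hωz] at h1
    have h2 : P16 μ F ψ ω z = conj b * P16 μ F ψ ω 1 := by
      unfold P16
      rw [hZfun, innerD_const_mul_right16]
      simp only [mul_one]
    calc β = P16 μ F ψ ω z := h1.symm
      _ = conj b * P16 μ F ψ ω 1 := h2
      _ = conj b * conj β := by rw [hβ, P16_conj]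
  -- (E4)
  have E4 : ‖b‖ = 1 := by
    have h1 := P16_self hN hF hr hψ z
    have h2 : P16 μ F ψ z z = b * conj b * innerD μ F ψ ψ := by
      unfold P16
      rw [hZfun, innerD_const_mul_left16, innerD_const_mul_right16]
      ring
    rw [h2] at h1
    have h3 : b * conj b = 1 := by
      have : (b * conj b - 1) * innerD μ F ψ ψ = 0 := by
        rw [sub_mul, h1, one_mul, sub_self]
      rcases mul_eq_zero.1 this with h | h
      · exact sub_eq_zero.1 h
      · exact absurd h hne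
    rw [Complex.mul_conj'] at h3
    have h4 : ‖b‖ ^ 2 = 1 := by exact_mod_cast h3
    have h5 : (‖b‖ - 1) * (‖b‖ + 1) = 0 := by ring_nf; linarith
    rcases mul_eq_zero.1 h5 with h | h
    · linarith
    · have := norm_nonneg b
      linarith
  -- (E5)
  have E5 : ‖β‖ ≤ N := norm_P16_le hN hF hr hψ 1 ω
  exact regParam_algebra16 hq2 hN0 E1 E2 E3 E4 E5

end Core

/-! ## The statement on the vocabulary of level 2 -/

/-- **T7.L2.R**: a joint eigenfunction of the Iwahori operator `𝒰` (eigenvalue `λ`) and of the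
central shift `Z` (eigenvalue `b`) at the place `o 0`, among the invariant cusp functions, has
regular parameters. -/
theorem isRegParam_of_eig16 (hN : T1.AdNormC K) {μ : Measure (G K)} {F : Set (G K)} {r : G K}
    (hF : IsFrame μ F) (hr : IsRayGen r) {𝔫 : Ideal (𝓞 K)} {l : ℕ}
    {o : ℕ → HeightOneSpectrum (𝓞 K)} (hl : 0 < l) {ψ : G K → ℂ} (hψ : IsWFn 𝔫 r l o ψ)
    (hne : innerD μ F ψ ψ ≠ 0) {H : Finset (G K)} (hH : IsIwCosetSystem (o 0) H) {z : G K}
    (hz : IsScalarUniformizerAt (o 0) z) {b lam : ℂ}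
    (hU : ∀ x : G K, iwOp (o 0) H ψ x = lam * ψ x)
    (hZ : ∀ x : G K, shiftOp z 1 ψ x = b * ψ x) :
    IsRegParam (Real.sqrt (Ideal.absNorm (o 0).asIdeal : ℝ)) b lam := by
  refine isRegParam_of_eig_core16 hN hF hr (isAutBdd16_of_cusp hψ.cusp) ?_ hne hH hz hU hZ
  intro k hk hkI x
  refine hψ.iw k hk.1 (fun v hv => hk.2 v (hv 0 hl)) (fun j _ => ?_) x
  exact inIwahori_all_of_local16 hk hkI (o j)

end Fermat.Agent.LT.T7.H16

end

end
-- ===== PACK-END LT/T7/H16/RegParamEig.lean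

-- ===== PACK-BEGIN LT/T7/H736/SpecUp.lean
section


/-!
# Row LT, tower T7, node T7.L2.2 `SpecUpC` (sub-architect helper736): THE CUT (level 3), v0.1

OFF-MAIN.  Definitions, frozen Props, PROVED tops.  No hole, nothing assumed.
ADDITIVE: `T7/Level2.lean` (helper797@819237e8b, sha256 15516646) is imported as it is.

    specUpCS_of        : ExpUpC K K' → NonVanC K K' → SpecUpCS K K'
    traceWordsRegP_ofS : SupplyCS P K K' → SpecUpCS K K' → SpecDownC K K' → SpecIdC K K'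
                           → TraceWordsRegP P K K'

## 0. Base stability (audits helper880 #17463, helper288 #17502: ACCEPTED)

`IsL2Data` has no field which makes the BASE level `𝔑₀` stable under `σ` (only the levels
`𝔑_g = (𝔫 g) 𝒪_{K'}` are, by `IsCompData.aut`).  If `σ 𝔑₀ ≠ 𝔑₀` the operator `R(σ)` does not
preserve the invariant cusp functions `W₀ = IsWFn 𝔑₀` and only its compression acts on the class
spaces.  `BaseStable Dt := T5.AutPreserves Dt.s Dt.𝔑₀ Dt.R'.μ Dt.R'.r` (the same Prop as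
`IsCompData.aut`, for the base level).  The supplier chooses `𝔑₀` as the extension of an ideal of
`K`, so `SupplyCS` (= `SupplyC` + `BaseStable`) costs nothing more than `SupplyC`.

## 1. The two nodes

* **`ExpUpC`** (EXPANSION, for EVERY bad `g`; T2 + linear algebra, no arithmetic): a complete
  orthonormal sequence `e'` of cusp functions of level `𝔑_g`, atoms indexed by `ℕ`
  (`C j`, `b j`, `l j`, `y j`), the expansion of `specSide (φ' g X k m)`, and the finite set `J`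
  of the indices of the class of `Φ`: `(e' j)_{j ∈ J}` is an orthonormal basis of the class
  space `V_Φ` of `Φ` at the BASE level (`IsClassBasisOn`), and
  `∑_{j ∈ J} y j = c_g(Φ) · ∑_{j ∈ J} ⟨[U g U] R(σ) e'_j, e'_j⟩ = c_g(Φ) · tr([U g U] R(σ) | V_Φ)`.
* **`NonVanC`** (NON-VANISHING; multiplicity one in module form): there is a bad `g` with
  `tr([U g U] R(σ) | V_Φ) ≠ 0`, in the form: for EVERY finite orthonormal basis of the class space.
  NOTHING at the regular place is needed here: the block identities of `ExpUpC` hold for ALL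
  `k ∈ ℤ`, `m ∈ ℕ` (they are linear algebra on the finite-dimensional class spaces; only the
  equality with `specSide` of an ADMISSIBLE function needs `m ≥ m₀`), so the total mass of the
  class of `Φ` is read off at `k = m = 0`, and a non-zero finite sum has a non-zero fibre over
  some point `(b₀, l₀)`.

## 2. Proof of `ExpUpC` (sketch; cut of level 4 in `ExpUp.lean`)

Fix a bad `g`, `𝔑 = 𝔑_g ≤ 𝔑₀`, `W₀ = IsWFn 𝔑₀ r ℓ o`, `T = [U g U] R(σ)`.
(E1) eigenbasis (T2, class of T5 + ruling R3): a complete orthonormal sequence of the cusp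
functions of level `𝔑`, each member either an eigenfunction in `W₀` (`IsEigFn`, unitary data) or
orthogonal to `W₀` (`proj_up`); the classes (eigen-data up to `AgreeOut S'`) are finite and span
the class spaces.  (E2) operators: `[U g U]`, `Z_j`, `𝒰_j` (`j < ℓ`) preserve `W₀` and the
classes and commute with each other; `R(σ)` is unitary, preserves `W₀` and `W₀^⊥` (`BaseStable`),
maps the class of `C` onto the class of `σ C`, and `R(σ) 𝒰_j = 𝒰_{j+1} R(σ)`,
`R(σ) Z_j = Z_{j+1} R(σ)`.  (E3) for `j ∉ E`: `R(σ) e'_j ⊥ W₀`, so `R(φ') R(σ) e'_j = 0`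
(`kill_up`); for `j ∈ E` with data `C`: `R(φ') R(σ) e'_j = X(σ C) c_g(σ C) [U g U] Z^k 𝒰^m R(σ) e'_j`
(`op_up`), orthogonal to `e'_j` unless `σ C` agrees with `C` outside `S'`.  (E4) on a `σ`-stable
class: TW-ATOMS (closed: helper355 / helper161 / helper822) gives an orthonormal basis `q` of the
class, characters `χ_i` and coefficients `t_i ∈ {0, ⟨T q_i, q_i⟩}` with
`tr(T Z₀^k 𝒰₀^m) = ∑ t_i χ_i(Z₀)^k χ_i(𝒰₀)^m`; an atom with `t_i ≠ 0` has a joint eigenvector, so
`IsRegParam` by the Iwahori relations at `o 0` (asset helper822 `RegParam`).  (E5) change of the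
orthonormal sequence inside the finite classes (block-unitary), regrouping of the absolutely
summable series by finite blocks; `Summable y`: `|y_i| ≤ |diagCoeff (φ' g [] 0 0) (q_i)|` and
`T5.STFsigma`.

## 3. Proof of `NonVanC` (sketch)

`V_Φ ≠ 0` (it contains the form of `Φ`: `𝔑₀ ≤ Φ.level`, the orbit is prime to `Φ.level`).
`V_Φ` is a SIMPLE module under the algebra generated by the `[U g U]`, `g` bad, and the
Iwahori--Hecke operators along the orbit (multiplicity one in module form, helper963, from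
`T2.SMO` / `T2.H941.MatchC`); the `[U g U]` span a subalgebra `A` (product of double cosets),
the Iwahori--Hecke algebras `H_j` at the `o j` commute with `A` and with each other, `R(σ)`
moves `H_j` to `H_{j+1}`: `twisted_trace_formula616` (helper616, closed, Mathlib only) gives
`a ∈ A` with `tr(a R(σ)) ≠ 0`, hence one `g`.
-/

set_option autoImplicit false

open AutomorphicForm IsDedekindDomain NumberField MeasureTheory
open scoped ComplexConjugate

noncomputable section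

namespace Fermat.Agent.LT.T7.SU736

open Fermat.Agent.LT.H556 Fermat.Agent.LT.H556.A0 Fermat.Agent.LT.T7

attribute [local instance] Fermat.Agent.LT.T5.instMeasurableSpaceG

/-! ## 1. Vocabulary -/

section OneField

variable {K : Type} [Field K] [NumberField K]

/-- `(q j)_{j ∈ J}` is an ORTHONORMAL BASIS OF THE CLASS SPACE of the eigen-data `C₀` at the
level `𝔫`, Iwahori along the orbit `o 0, …, o (l-1)`: the members are invariant eigenfunctions
with data `C₀`, orthonormal for the inner product of the frame, and every invariant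
eigenfunction with data `C₀` is a linear combination of them. -/
structure IsClassBasisOn (𝔫 : Ideal (𝓞 K)) (R : Frame5 K) (l : ℕ)
    (o : ℕ → HeightOneSpectrum (𝓞 K)) (C₀ : EigData K) (q : ℕ → G K → ℂ) (J : Finset ℕ) :
    Prop where
  eig : ∀ j ∈ J, IsEigFn 𝔫 R.r l o (q j) C₀
  orth : ∀ i ∈ J, ∀ j ∈ J, i ≠ j → T5.innerD R.μ R.F (q i) (q j) = 0
  norm : ∀ j ∈ J, T5.innerD R.μ R.F (q j) (q j) = 1
  span : ∀ ψ : G K → ℂ, IsEigFn 𝔫 R.r l o ψ C₀ →
    ∃ a : ℕ → ℂ, ∀ x : G K, ψ x = ∑ j ∈ J, a j * q j x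

/-- The twisted trace of `[U g U] R(σ)` in the family `(q j)_{j ∈ J}`:
`∑_{j ∈ J} ⟨[U g U] R(σ) q_j, q_j⟩`. -/
def twTrace (s : T5.AdelicAut K) (R : Frame5 K) (Hg : Finset (G K)) (q : ℕ → G K → ℂ)
    (J : Finset ℕ) : ℂ :=
  ∑ j ∈ J, T5.innerD R.μ R.F (cosetOp Hg (T5.Rsig s (q j))) (q j)

end OneField

section TwoFields

variable {K K' : Type} [Field K] [NumberField K] [Field K'] [NumberField K'] [Algebra K K']

/-- **BASE STABILITY**: `σ` preserves the frame of `K'` at the BASE level `𝔑₀` (the Prop of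
`IsCompData.aut` for `𝔑₀`).  TRUE when `𝔑₀` is the extension of an ideal of `K`. -/
def BaseStable (Dt : L2Data K K') : Prop :=
  T5.AutPreserves Dt.s Dt.𝔑₀ Dt.R'.μ Dt.R'.r

end TwoFields

/-! ## 2. The nodes -/

section Nodes

variable (P : EKCond)
variable (K K' : Type) [Field K] [NumberField K] [Field K'] [NumberField K'] [Algebra K K']

/-- `SupplyC` with base stability. -/
def SupplyCS : Prop :=
  ∀ ℓ : ℕ, IsCycExt K K' ℓ → ℓ ≠ 2 → TotCplx K →
    ∀ Φ : HeckeEigensystem K' ℂ, A0.IsCuspAdelicSph0 K' Φ → ConstOnFibres K Φ → P K' Φ →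
      ∃ Dt : L2Data K K', IsL2Data ℓ Φ Dt ∧ BaseStable Dt

/-- `SpecUpC` for base-stable data. -/
def SpecUpCS : Prop :=
  ∀ ℓ : ℕ, IsCycExt K K' ℓ → ℓ ≠ 2 → TotCplx K →
    ∀ Φ : HeckeEigensystem K' ℂ, A0.IsCuspAdelicSph0 K' Φ → ConstOnFibres K Φ →
      ∀ Dt : L2Data K K', IsL2Data ℓ Φ Dt → BaseStable Dt →
      ∃ (g : G K') (e' : ℕ → G K' → ℂ) (ι' : Type) (C : ι' → EigData K') (b' l' : ι' → ℂ)
        (R : ℝ) (y : ι' → ℂ),
        Dt.IsBad g ∧
        T5.IsCuspONB (Dt.𝔑 g) T5.trivType Dt.R'.r Dt.R'.μ Dt.R'.F e' ∧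
        Summable (fun j => ‖y j‖) ∧ (∀ j, (C j).IsUnitaryOut Dt.S') ∧
        (∀ j, IsRegParam R (b' j) (l' j)) ∧
        (∀ X : List (Gen K'), (∀ x ∈ X, x.Out Dt.S') → ∀ (k : ℤ) (m : ℕ), Dt.m₀ g X ≤ m →
          specSide Dt.s Dt.R' e' (Dt.φ' g X k m)
            = ∑' j, wordEv X (C j) * y j * b' j ^ k * l' j ^ m) ∧
        ∃ b₀ l₀ : ℂ,
          (∑' j : {j : {j : ι' // b' j = b₀ ∧ l' j = l₀} //
              (C j.1).AgreeOut Dt.S' (eigOf Φ)}, y j.1.1) ≠ 0

/-- **NODE T7.L2.2.E = EXP-UP** (expansion upstairs, for every bad `g`).  See the header. -/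
def ExpUpC : Prop :=
  ∀ ℓ : ℕ, IsCycExt K K' ℓ → ℓ ≠ 2 → TotCplx K →
    ∀ Φ : HeckeEigensystem K' ℂ, A0.IsCuspAdelicSph0 K' Φ → ConstOnFibres K Φ →
      ∀ Dt : L2Data K K', IsL2Data ℓ Φ Dt → BaseStable Dt → ∀ g : G K', Dt.IsBad g →
      ∃ (e' : ℕ → G K' → ℂ) (C : ℕ → EigData K') (b l : ℕ → ℂ) (R : ℝ) (y : ℕ → ℂ)
        (J : Finset ℕ),
        T5.IsCuspONB (Dt.𝔑 g) T5.trivType Dt.R'.r Dt.R'.μ Dt.R'.F e' ∧
        Summable (fun j => ‖y j‖) ∧ (∀ j, (C j).IsUnitaryOut Dt.S') ∧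
        (∀ j, IsRegParam R (b j) (l j)) ∧
        (∀ X : List (Gen K'), (∀ x ∈ X, x.Out Dt.S') → ∀ (k : ℤ) (m : ℕ), Dt.m₀ g X ≤ m →
          specSide Dt.s Dt.R' e' (Dt.φ' g X k m)
            = ∑' j, wordEv X (C j) * y j * b j ^ k * l j ^ m) ∧
        (∀ j, (C j).AgreeOut Dt.S' (eigOf Φ) → y j ≠ 0 → j ∈ J) ∧
        (∀ j ∈ J, (C j).AgreeOut Dt.S' (eigOf Φ)) ∧
        IsClassBasisOn Dt.𝔑₀ Dt.R' ℓ Dt.o (eigOf Φ) e' J ∧
        ∀ Hg : Finset (G K'), IsDblCosetSystem Dt.𝔑₀ g Hg →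
          ∑ j ∈ J, y j = Dt.c g (eigOf Φ) * twTrace Dt.s Dt.R' Hg e' J

/-- **NODE T7.L2.2.N = NON-VANISHING** (multiplicity one in module form).  There is a bad `g`,
with a system of representatives of `U(𝔑₀) g U(𝔑₀) / U(𝔑₀)`, such that the twisted trace of
`[U g U] R(σ)` on the class space of `Φ` at the base level is not zero (in every finite
orthonormal basis of the class space).  See the header. -/
def NonVanC : Prop :=
  ∀ ℓ : ℕ, IsCycExt K K' ℓ → ℓ ≠ 2 → TotCplx K →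
    ∀ Φ : HeckeEigensystem K' ℂ, A0.IsCuspAdelicSph0 K' Φ → ConstOnFibres K Φ →
      ∀ Dt : L2Data K K', IsL2Data ℓ Φ Dt → BaseStable Dt →
      ∃ (g : G K') (Hg : Finset (G K')), Dt.IsBad g ∧ IsDblCosetSystem Dt.𝔑₀ g Hg ∧
        ∀ (q : ℕ → G K' → ℂ) (J : Finset ℕ),
          IsClassBasisOn Dt.𝔑₀ Dt.R' ℓ Dt.o (eigOf Φ) q J → twTrace Dt.s Dt.R' Hg q J ≠ 0

end Nodes

/-! ## 3. The tops (PROVED) -/

section Tops

variable {P : EKCond}
variable {K K' : Type} [Field K] [NumberField K] [Field K'] [NumberField K'] [Algebra K K']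

/-- A non-zero finite sum has a non-zero fibre. -/
theorem exists_fibre_ne_zero736 {α : Type} [DecidableEq α] (J : Finset ℕ) (y : ℕ → ℂ)
    (p : ℕ → α) (h : ∑ j ∈ J, y j ≠ 0) : ∃ a : α, ∑ j ∈ J with p j = a, y j ≠ 0 := by
  by_contra hcon
  apply h
  rw [← Finset.sum_fiberwise_of_maps_to (g := p) (t := J.image p)
    (fun j hj => Finset.mem_image_of_mem p hj)]
  refine Finset.sum_eq_zero fun a _ => ?_
  by_contra ha
  exact hcon ⟨a, ha⟩

/-- The sum over the nested subtype of the node is a finite sum over `J`. -/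
theorem tsum_nested_eq_sum736 (J : Finset ℕ) (y : ℕ → ℂ) (Pr Q : ℕ → Prop)
    [DecidablePred Pr] [DecidablePred Q]
    (hJ : ∀ j, Q j → y j ≠ 0 → j ∈ J) (hQ : ∀ j ∈ J, Q j) :
    (∑' j : {j : {j : ℕ // Pr j} // Q j.1}, y j.1.1) = ∑ j ∈ J with Pr j, y j := by
  classical
  have hinj : Function.Injective
      (fun j : {j : {j : ℕ // Pr j} // Q j.1} => (j.1.1 : ℕ)) := by
    intro a b hab
    exact Subtype.ext (Subtype.ext hab)
  have hsupp : Function.support (fun n : ℕ => if Pr n ∧ Q n then y n else 0)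
      ⊆ Set.range (fun j : {j : {j : ℕ // Pr j} // Q j.1} => (j.1.1 : ℕ)) := by
    intro n hn
    rw [Function.mem_support] at hn
    by_cases hpq : Pr n ∧ Q n
    · exact ⟨⟨⟨n, hpq.1⟩, hpq.2⟩, rfl⟩
    · rw [if_neg hpq] at hn
      exact absurd rfl hn
  have h1 := hinj.tsum_eq hsupp
  have h2 : (fun j : {j : {j : ℕ // Pr j} // Q j.1} =>
      (fun n : ℕ => if Pr n ∧ Q n then y n else 0) (j.1.1)) = fun j => y j.1.1 := by
    funext j
    have : Pr j.1.1 ∧ Q j.1.1 := ⟨j.1.2, j.2⟩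
    simp only [this, and_self, if_true]
  rw [h2] at h1
  rw [h1, tsum_eq_sum (s := J.filter fun j => Pr j)]
  · refine Finset.sum_congr rfl fun j hj => ?_
    rw [Finset.mem_filter] at hj
    rw [if_pos ⟨hj.2, hQ j hj.1⟩]
  · intro n hn
    by_cases hpq : Pr n ∧ Q n
    · rw [if_pos hpq]
      by_contra hy
      exact hn (Finset.mem_filter.2 ⟨hJ n hpq.2 hy, hpq.1⟩)
    · rw [if_neg hpq]

/-- **THE TOP OF THE NODE `SpecUpC`** (for base-stable data): the expansion for every bad `g`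
and the non-vanishing of the twisted trace on the class of `Φ` for one bad `g`. -/
theorem specUpCS_of (hE : ExpUpC K K') (hN : NonVanC K K') : SpecUpCS K K' := by
  classical
  intro ℓ hcyc hℓ hcplx Φ hΦ hconst Dt hDt hst
  obtain ⟨g, Hg, hg, hHg, hne⟩ := hN ℓ hcyc hℓ hcplx Φ hΦ hconst Dt hDt hst
  obtain ⟨e', C, b, l, R, y, J, hONB, hy, hU, hp, hexp, hJ, hJ', hbasis, htr⟩ :=
    hE ℓ hcyc hℓ hcplx Φ hΦ hconst Dt hDt hst g hg
  refine ⟨g, e', ℕ, C, b, l, R, y, hg, hONB, hy, hU, hp, hexp, ?_⟩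
  -- the total mass of the class of `Φ` is not zero
  have hc : Dt.c g (eigOf Φ) ≠ 0 :=
    hDt.base_ne g hg (eigOf Φ) ⟨fun _ _ => ⟨rfl, rfl⟩, fun _ _ _ => rfl⟩
  have hsum : ∑ j ∈ J, y j ≠ 0 := by
    rw [htr Hg hHg]
    exact mul_ne_zero hc (hne e' J hbasis)
  obtain ⟨⟨b₀, l₀⟩, hfib⟩ := exists_fibre_ne_zero736 J y (fun j => (b j, l j)) hsum
  refine ⟨b₀, l₀, ?_⟩
  rw [tsum_nested_eq_sum736 J y (fun j => b j = b₀ ∧ l j = l₀)
    (fun j => (C j).AgreeOut Dt.S' (eigOf Φ)) hJ hJ']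
  have hfilter : (J.filter fun j => b j = b₀ ∧ l j = l₀)
      = J.filter fun j => (b j, l j) = (b₀, l₀) := by
    refine Finset.filter_congr fun j _ => ?_
    rw [Prod.mk.injEq]
  rw [hfilter]
  exact hfib

/-- **THE ASSEMBLY OF LEVEL 2 for base-stable data** (the proof of `T7.traceWordsRegP_of` with
`BaseStable` carried along). -/
theorem traceWordsRegP_ofS (hS : SupplyCS P K K') (hU : SpecUpCS K K') (hD : SpecDownC K K')
    (hI : SpecIdC K K') : TraceWordsRegP P K K' := by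
  intro ℓ hcyc hℓ hcplx Φ hΦ hconst hP
  obtain ⟨Dt, hDt, hst⟩ := hS ℓ hcyc hℓ hcplx Φ hΦ hconst hP
  obtain ⟨g, e', ι', C, b', l', R', y, hg, he', hy, hUB, hp', hexp', hne⟩ :=
    hU ℓ hcyc hℓ hcplx Φ hΦ hconst Dt hDt hst
  obtain ⟨e, ι, c, Ch, b, l, R, x, he, hx, hUA, hbc, hp, hexp, hreal⟩ :=
    hD ℓ hcyc hℓ hcplx Φ hΦ hconst Dt hDt g hg
  refine ⟨Dt.S', ι, ι', c, Ch, C, b, l, b', l', max R R', x, y, hx, hy, hUA, hUB, hbc,
    fun i => isRegParam_mono (le_max_left _ _) (hp i),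
    fun j => isRegParam_mono (le_max_right _ _) (hp' j), ?_, hne, hreal⟩
  intro X hX
  refine ⟨Dt.m₀ g X, fun m hm k => ?_⟩
  have hid := (hI (Dt.comp g) (hDt.comp g hg) (Dt.φ' g X k m) (Dt.f g X k m)
    (isAdm5_of_ekProd (hDt.ekprod_up g X k m hg hX) (hDt.reg_up g X k m hg hX hm))
    (isAdm5_of_ekProd (hDt.ekprod_down g X k m hg hX) (hDt.reg_down g X k m hg hX hm))
    (hDt.matched g X k m hg hX hm) e' e he' he).2.2
  rw [← hexp X hX k m hm, ← hexp' X hX k m hm]
  exact hid.symm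

/-- `SpecUpCS` is what `SpecUpC` gives for base-stable data. -/
theorem specUpCS_of_specUpC (h : SpecUpC K K') : SpecUpCS K K' :=
  fun ℓ hcyc hℓ hcplx Φ hΦ hconst Dt hDt _ => h ℓ hcyc hℓ hcplx Φ hΦ hconst Dt hDt

/-- `SupplyC` from `SupplyCS`. -/
theorem supplyC_of_supplyCS (h : SupplyCS P K K') : SupplyC P K K' :=
  fun ℓ hcyc hℓ hcplx Φ hΦ hconst hP =>
    let ⟨Dt, hDt, _⟩ := h ℓ hcyc hℓ hcplx Φ hΦ hconst hP
    ⟨Dt, hDt⟩

end Tops

/-! ## Appendix (v0.1, additive): the equation lemmas of the definitions are realised HERE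

Same device as the appendix of `T7/Comparison.lean` v0.1 (helper797): the equation lemmas of a
definition are generated in the module which first unfolds it; citing them here generates them
once, upstream of every user.  No statement of this file is changed. -/

theorem eqns_realised_specUp736 : True := by
  have _a1 := @twTrace.eq_1
  have _a2 := @twTrace.eq_def
  have _a3 := @twTrace.eq_unfold
  have _b1 := @BaseStable.eq_1
  have _b2 := @BaseStable.eq_def
  have _b3 := @BaseStable.eq_unfold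
  have _c1 := @SupplyCS.eq_1
  have _c2 := @SupplyCS.eq_def
  have _c3 := @SupplyCS.eq_unfold
  have _d1 := @SpecUpCS.eq_1
  have _d2 := @SpecUpCS.eq_def
  have _d3 := @SpecUpCS.eq_unfold
  have _e1 := @ExpUpC.eq_1
  have _e2 := @ExpUpC.eq_def
  have _e3 := @ExpUpC.eq_unfold
  have _f1 := @NonVanC.eq_1
  have _f2 := @NonVanC.eq_def
  have _f3 := @NonVanC.eq_unfold
  trivial

end Fermat.Agent.LT.T7.SU736

end

end
-- ===== PACK-END LT/T7/H736/SpecUp.lean

-- ===== PACK-BEGIN LT/T7/H584/NormLocTop.lean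
section



/-!
# Row LT, tower T7, field `matched`, part `nonnorm` (helper584): THE LOCAL NORM BRIDGE -- the
# PROVED top

OFF-MAIN.  `nonNormLoc_of584 : T6.NormImageTCC → T6.InstSplitC → TensorFieldC584 →
TensorSplitC584 → SplitOrUniqueC584 K K' → NonNormLocC584 K K'`.  See `NormLocSpec.lean`.
-/

set_option autoImplicit false
set_option linter.style.haveILetI false

open IsDedekindDomain NumberField

noncomputable section

namespace Fermat.Agent.LT.T7.H584

open Fermat.Agent.LT.H556.A0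

/-- Bridge `T6.twNorm` ↔ `T5.normUpTo`. -/
theorem twNorm_eq_normUpTo584 {K : Type} [Field K] [NumberField K] (s : T5.AdelicAut K) :
    ∀ (n : ℕ) (δ : GL (Fin 2) K), T6.twNorm s.σ n δ = s.normUpTo n δ
  | 0, _ => rfl
  | n + 1, δ => by
      have ih := twNorm_eq_normUpTo584 s n δ
      change δ * T6.glAut s.σ (T6.twNorm s.σ n δ) = δ * s.onRat (s.normUpTo n δ)
      rw [ih]
      rfl

section

variable {K K' : Type} [Field K] [NumberField K] [Field K'] [NumberField K'] [Algebra K K']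

/-- The generator as a `K`-algebra automorphism. -/
def algAut584 (D : CompData K K') (hD : IsCompData D) : K' ≃ₐ[K] K' :=
  AlgEquiv.ofRingEquiv (f := D.s.σ) (fun x =>
    (hD.cyc.fixed _).1 ((hD.base _).2 ⟨x, rfl⟩))

theorem algAut_apply584 (D : CompData K K') (hD : IsCompData D) (y : K') :
    algAut584 D hD y = D.s.σ y := rfl

theorem algAut_coe584 (D : CompData K K') (hD : IsCompData D) :
    ((algAut584 D hD : K' ≃ₐ[K] K') : K' ≃+* K') = D.s.σ :=
  RingEquiv.ext fun _ => rfl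

theorem algAut_ne_one584 (D : CompData K K') (hD : IsCompData D) (hl : 1 < D.l) :
    ∃ x : K', algAut584 D hD x ≠ x := by
  obtain ⟨x, hx⟩ := hD.cyc.faithful 1 one_pos hl
  refine ⟨x, ?_⟩
  rw [pow_one] at hx
  exact hx

/-- The generator generates the Galois group (a group of prime order). -/
theorem algAut_gen584 (D : CompData K K') (hD : IsCompData D) (hc : IsCycExt K K' D.l) :
    ∀ t : K' ≃ₐ[K] K', t ∈ Subgroup.zpowers (algAut584 D hD) := by
  haveI := hc.galois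
  haveI : Fact D.l.Prime := ⟨hc.prime⟩
  have hcard : Nat.card (K' ≃ₐ[K] K') = D.l := by
    rw [IsGalois.card_aut_eq_finrank, hc.degree]
  have hne : algAut584 D hD ≠ 1 := by
    obtain ⟨x, hx⟩ := algAut_ne_one584 D hD hc.prime.one_lt
    intro h
    apply hx
    rw [h]
    rfl
  have htop : Subgroup.zpowers (algAut584 D hD) = ⊤ :=
    zpowers_eq_top_of_prime_card hcard hne
  intro t
  rw [htop]
  exact Subgroup.mem_top t

end

section Top

variable {K K' : Type} [Field K] [NumberField K] [Field K'] [NumberField K'] [Algebra K K']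

/-- **THE TOP of the local norm bridge.** -/
theorem nonNormLoc_of584 (hNI : T6.NormImageTCC) (hIS : T6.InstSplitC)
    (h1 : TensorFieldC584) (h2 : TensorSplitC584) (h3 : SplitOrUniqueC584 K K') :
    NonNormLocC584 K K' := by
  intro D hD hc hTC γ hγ hnn
  by_contra hcon
  push Not at hcon
  apply hnn
  haveI := hc.galois
  set s : K' ≃ₐ[K] K' := algAut584 D hD with hs
  have hgen := algAut_gen584 D hD hc
  have hprime : (Module.finrank K K').Prime := by rw [hc.degree]; exact hc.prime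
  -- `γ` is a norm at every finite place
  have hloc : ∀ v : HeightOneSpectrum (𝓞 K), T6.IsLocNormFin s (Module.finrank K K') v γ := by
    intro v
    rw [hc.degree]
    rcases h3 D.l hc v with ⟨w, hvw, huniq⟩ | ⟨w, hw1, hw2, hw3⟩
    · obtain ⟨e, i, sw, hi, hsw, hext, hnorm⟩ := hcon v w hvw huniq
      obtain ⟨δ, hδ⟩ := h1 K K' (v.adicCompletion K) (w.adicCompletion K') s D.l hc.prime
        hc.degree (algAut_ne_one584 D hD hc.prime.one_lt) i
        (algebraMap K' (w.adicCompletion K')) sw hi (fun y => hsw y) hext.cyc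
        (Matrix.GeneralLinearGroup.map (algebraMap K (v.adicCompletion K)) γ) hnorm
      exact ⟨δ, hδ⟩
    · obtain ⟨i, hi, _⟩ := hIS K K' v w hw1 hw2 hw3
      let τ : K' →ₐ[K] v.adicCompletion K :=
        { toRingHom := (i.symm : w.adicCompletion K' →+* v.adicCompletion K).comp
            (algebraMap K' (w.adicCompletion K'))
          commutes' := fun x => by
            change i.symm (algebraMap K' (w.adicCompletion K') (algebraMap K K' x))
              = algebraMap K (v.adicCompletion K) x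
            rw [← hi x]
            exact i.symm_apply_apply _ }
      obtain ⟨δ, hδ⟩ := h2 K K' (v.adicCompletion K) s D.l hc.degree hgen τ
        (Matrix.GeneralLinearGroup.map (algebraMap K (v.adicCompletion K)) γ)
      refine ⟨δ, ?_⟩
      have : T6.twNorm (T6.locAutFin s v) D.l δ
          = Matrix.GeneralLinearGroup.map
            ((Algebra.TensorProduct.includeRight :
                v.adicCompletion K →ₐ[K] T6.locAlgFin K K' v)
              : v.adicCompletion K →+* T6.locAlgFin K K' v)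
            (Matrix.GeneralLinearGroup.map (algebraMap K (v.adicCompletion K)) γ) := hδ
      rw [this]
  -- the local-global principle
  obtain ⟨δ, hδ⟩ := hNI K K' s hgen hprime hTC γ hγ hloc
  refine ⟨δ, ?_⟩
  unfold IsNormOf
  rw [← twNorm_eq_normUpTo584, ← hc.degree]
  have e : ((s : K' ≃ₐ[K] K') : K' ≃+* K') = D.s.σ := algAut_coe584 D hD
  rw [← e]
  exact hδ

end Top

end Fermat.Agent.LT.T7.H584

end

end
-- ===== PACK-END LT/T7/H584/NormLocTop.lean

-- ===== PACK-BEGIN LT/T7/H768/SplitOrUnique.lean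
section




/-!
# Row LT, tower T7, field `matched`, part `nonnorm`, leaf N3 `SplitOrUniqueC584` (helper768)

OFF-MAIN.  Statement: `LT/T7/H584/NormLocSpec.lean` of helper584 (sha256 `4333e31f8a22e11b…`,
byte-identical copy).  Asset: `LT/T7/H557/DescTriv.lean` of helper557 (places over places).

`K'/K` Galois of prime degree `l`, `v` a finite place of `K`: `g · (e · f) = l`
(`Ideal.ncard_primesOver_mul_ramificationIdxIn_mul_inertiaDegIn`), so `g = 1` (exactly one place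
over `v`) or `g = l` and `e = f = 1` (a place `w` over `v` with `N w = N v` and
`v 𝒪_{K'} ⊄ w²`).
-/

set_option autoImplicit false
set_option linter.style.haveILetI false

open IsDedekindDomain NumberField

noncomputable section

namespace Fermat.Agent.LT.T7.H768

open Fermat.Agent.LT.T7

/-- If the (old-style) ramification index is `1`, then `p S ⊄ P²`. -/
theorem not_map_le_sq_of_ramIdx_eq_one_768 {R S : Type} [CommRing R] [CommRing S] [Algebra R S]
    (p : Ideal R) (P : Ideal S) (he : p.ramificationIdx' P = 1) :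
    ¬ Ideal.map (algebraMap R S) p ≤ P ^ 2 := by
  intro hle
  by_cases hb : BddAbove {n : ℕ | Ideal.map (algebraMap R S) p ≤ P ^ n}
  · have h2 : (2 : ℕ) ≤ sSup {n : ℕ | Ideal.map (algebraMap R S) p ≤ P ^ n} :=
      le_csSup hb hle
    have he' : sSup {n : ℕ | Ideal.map (algebraMap R S) p ≤ P ^ n} = 1 := he
    omega
  · have h0 : sSup {n : ℕ | Ideal.map (algebraMap R S) p ≤ P ^ n} = 0 :=
      Nat.sSup_of_not_bddAbove hb
    have he' : sSup {n : ℕ | Ideal.map (algebraMap R S) p ≤ P ^ n} = 1 := he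
    omega

/-- **LEAF N3 = SPLIT-OR-UNIQUE**, proved. -/
theorem splitOrUniqueC768 (K K' : Type) [Field K] [NumberField K] [Field K'] [NumberField K']
    [Algebra K K'] : H584.SplitOrUniqueC584 K K' := by
  intro l hcyc v
  haveI := hcyc.galois
  haveI := v.isPrime
  haveI : v.asIdeal.IsMaximal := v.isMaximal
  have h3 := Ideal.ncard_primesOver_mul_ramificationIdxIn_mul_inertiaDegIn v.asIdeal (𝓞 K')
    Gal(K'/K)
  rw [IsGalois.card_aut_eq_finrank, hcyc.degree] at h3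
  have hg : (v.asIdeal.primesOver (𝓞 K')).ncard ∣ l := ⟨_, h3.symm⟩
  obtain ⟨w, hw⟩ := H557.exists_placeOver_557 (K' := K') v
  rcases (Nat.dvd_prime hcyc.prime).1 hg with h1 | hl
  · -- exactly one place over `v`
    left
    obtain ⟨Q, hQ⟩ := Set.ncard_eq_one.1 h1
    have hmem : ∀ w'' : HeightOneSpectrum (𝓞 K'), PlaceOver K K' v w'' → w''.asIdeal = Q := by
      intro w'' hw''
      have hin : w''.asIdeal ∈ v.asIdeal.primesOver (𝓞 K') :=
        ⟨w''.isPrime, H557.placeOver_liesOver_557 hw''⟩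
      rw [hQ] at hin
      exact hin
    exact ⟨w, hw, fun w' hw' => HeightOneSpectrum.ext ((hmem w' hw').trans (hmem w hw).symm)⟩
  · -- `g = l`, hence `e = f = 1`
    right
    have hef : v.asIdeal.ramificationIdxIn (𝓞 K') * v.asIdeal.inertiaDegIn (𝓞 K') = 1 := by
      rw [hl] at h3
      exact Nat.eq_of_mul_eq_mul_left hcyc.prime.pos (by rw [h3, mul_one])
    have he : v.asIdeal.ramificationIdxIn (𝓞 K') = 1 := Nat.eq_one_of_mul_eq_one_right hef
    have hf : v.asIdeal.inertiaDegIn (𝓞 K') = 1 := Nat.eq_one_of_mul_eq_one_left hef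
    haveI : w.asIdeal.LiesOver v.asIdeal := H557.placeOver_liesOver_557 hw
    haveI := w.isPrime
    haveI : w.asIdeal.IsMaximal := w.isMaximal
    refine ⟨w, fun x => hw x _ rfl, ?_, ?_⟩
    · have hN := Ideal.absNorm_eq_pow_inertiaDeg'_of_liesOver w.asIdeal v.asIdeal v.isPrime
        v.ne_bot
      rw [Ideal.inertiaDeg'_eq_inertiaDeg v.asIdeal w.asIdeal,
        ← Ideal.inertiaDegIn_eq_inertiaDeg v.asIdeal w.asIdeal Gal(K'/K), hf, pow_one] at hN
      exact hN
    · have he' : v.asIdeal.ramificationIdx' w.asIdeal = 1 := by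
        rw [Ideal.ramificationIdx'_eq_ramificationIdx v.asIdeal w.asIdeal v.ne_bot,
          ← Ideal.ramificationIdxIn_eq_ramificationIdx v.asIdeal w.asIdeal Gal(K'/K), he]
      by_contra hcon
      apply not_map_le_sq_of_ramIdx_eq_one_768 v.asIdeal w.asIdeal he'
      rw [Ideal.map_le_iff_le_comap]
      intro x hx
      rw [Ideal.mem_comap]
      by_contra hx'
      exact hcon ⟨x, hx, hx'⟩

example (K K' : Type) [Field K] [NumberField K] [Field K'] [NumberField K'] [Algebra K K'] :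
    H584.SplitOrUniqueC584 K K' := splitOrUniqueC768 K K'

end Fermat.Agent.LT.T7.H768

end
end
-- ===== PACK-END LT/T7/H768/SplitOrUnique.lean

-- ===== PACK-BEGIN LT/T3/M/H96/MeanActs.lean
section





/-!
# Row LT, tower T3, station T3.18M, leaf G.1 `M.MeanActsC` (helper96, registry row 1922)

OFF-MAIN.  `meanActsC96 : M.MeanActsC` VERBATIM (`LT/T3/M/GenSpec.lean`, helper14, sha256
3b64610c): a continuous bi-`U(2)`-invariant function `F` of compact support on `GL₂(ℂ)` acts on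
the eigenfunctions of the sphere means with eigenvalue function `m` by a scalar.

Proof = the `K`-average of helper694 (`H694/AvgCore.lean`, closed `H315.AvgC`) with `m d / 4π` in
place of `d / sinh d`:  `∫ Ψ(y h) F(h) dμ = ∫_{supp F} (∫_{U(2)} Ψ(y k h) dk) F(h) dμ` and
`∫_{U(2)} Ψ(y k h) dk = φ_m(h) Ψ(y)`, `φ_m(h) = 1` if `chD h ≤ 1`, `= m(arcosh (chD h)) / 4π`
otherwise.  `C = ∫_{supp F} φ_m F dμ` (Bochner integral; NO measurability of `m` is needed: the
constant `Ψ(y)` is pulled out of the integral unconditionally).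
Inputs: `cartanC203` (helper203), `unitaryHaarC572` (helper572), the measure-theoretic lemmas of
helper694 (byte-identical copies).
-/

set_option autoImplicit false
set_option linter.style.haveILetI false

open MeasureTheory
open Fermat.Agent.LT.H556.A0 Fermat.Agent.LT.T3.AS Fermat.Agent.LT.T3.H614
open Fermat.Agent.LT.T3.H315 Fermat.Agent.LT.T3.H694 Fermat.Agent.LT.T3

noncomputable section

namespace Fermat.Agent.LT.T3.M.H96

open Fermat.Agent.LT.T3.M

/-- The spherical function attached to the eigenvalue function `m`, as a function of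
`X = cosh d`. -/
def phiM96 (m : ℝ → ℂ) (X : ℝ) : ℂ :=
  if X ≤ 1 then 1 else m (Real.arcosh X) / ((4 * Real.pi : ℝ) : ℂ)

theorem phiM_cosh_zero96 (m : ℝ → ℂ) : phiM96 m (Real.cosh 0) = 1 := by
  unfold phiM96
  rw [if_pos (by simp)]

theorem phiM_cosh_pos96 (m : ℝ → ℂ) {d : ℝ} (hd : 0 < d) :
    phiM96 m (Real.cosh d) = m d / ((4 * Real.pi : ℝ) : ℂ) := by
  unfold phiM96
  have h1 : 1 < Real.cosh d := Real.one_lt_cosh.mpr hd.ne'
  rw [if_neg (not_le.mpr h1), Real.arcosh_cosh hd.le]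

section Core

local instance borelGL96 : MeasurableSpace (GL (Fin 2) ℂ) := borel (GL (Fin 2) ℂ)

local instance borelSpaceGL96 : BorelSpace (GL (Fin 2) ℂ) := ⟨rfl⟩

local instance sctGL96 : SecondCountableTopology (GL (Fin 2) ℂ) := secondCountable_GL694

/-- **The torus step**: the `m`-average of `Ψ(y k torus(d))` is `(m d / 4π) Ψ(y)`. -/
theorem avg_torus96 {mu : Measure (GL (Fin 2) ℂ)} [IsProbabilityMeasure mu]
    (hKc : IsCompact {k : GL (Fin 2) ℂ | IsUnitary2 k})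
    (hmK : ∀ᵐ k ∂mu, IsUnitary2 k)
    (hminv : ∀ k₀ : GL (Fin 2) ℂ, IsUnitary2 k₀ →
      Measure.map (fun k => k₀ * k) mu = mu ∧ Measure.map (fun k => k * k₀) mu = mu)
    {m : ℝ → ℂ} {Ψ : GL (Fin 2) ℂ → ℂ} (hΨ : IsLocMean m Ψ) (y t : GL (Fin 2) ℂ) (d : ℝ)
    (hd : 0 < d) (ht : (t : Matrix (Fin 2) (Fin 2) ℂ) = torus d) :
    ∫ k, Ψ (y * k * t) ∂mu = m d / ((4 * Real.pi : ℝ) : ℂ) * Ψ y := by
  have hKm : MeasurableSet {k : GL (Fin 2) ℂ | IsUnitary2 k} := hKc.isClosed.measurableSet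
  let Gf : GL (Fin 2) ℂ → ℝ × ℝ → ℂ := fun k p =>
    Ψ (y * k * (eulerGL694 p.1 p.2 * t)) * ((Real.sin p.2 : ℝ) : ℂ)
  have hmap : Continuous fun z : GL (Fin 2) ℂ × (ℝ × ℝ) =>
      y * z.1 * (eulerGL694 z.2.1 z.2.2 * t) := by
    have he : Continuous fun z : GL (Fin 2) ℂ × (ℝ × ℝ) => eulerGL694 z.2.1 z.2.2 :=
      continuous_eulerGL694.comp continuous_snd
    exact (continuous_const.mul continuous_fst).mul (he.mul continuous_const)
  have hGcont : Continuous (Function.uncurry Gf) := by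
    have h1 : Continuous fun z : GL (Fin 2) ℂ × (ℝ × ℝ) =>
        Ψ (y * z.1 * (eulerGL694 z.2.1 z.2.2 * t)) := hΨ.cont.comp hmap
    have h2 : Continuous fun z : GL (Fin 2) ℂ × (ℝ × ℝ) => ((Real.sin z.2.2 : ℝ) : ℂ) :=
      Complex.continuous_ofReal.comp
        (Real.continuous_sin.comp (continuous_snd.comp continuous_snd))
    exact h1.mul h2
  have hGk : ∀ k, Continuous (Gf k) := fun k => hGcont.uncurry_left k
  obtain ⟨C, hC⟩ := (hKc.prod (isCompact_Icc.prod isCompact_Icc :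
    IsCompact (Set.Icc (0 : ℝ) (2 * Real.pi) ×ˢ Set.Icc (0 : ℝ) Real.pi))).exists_bound_of_continuousOn
      hGcont.continuousOn
  have hint : Integrable (Function.uncurry Gf) (mu.prod rectMeas694) :=
    integrable_prod_of_bound694 hGcont.aestronglyMeasurable C hKm
      (measurableSet_Icc.prod measurableSet_Icc) hmK ae_mem_rect694
      (fun a ha b hb => hC (a, b) ⟨ha, hb⟩)
  -- the mean value property at the points `y k`
  have hmvp : ∀ k, IsUnitary2 k → ∫ p, Gf k p ∂rectMeas694 = m d * Ψ y := by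
    intro k hk
    have hY := hΨ.mean d hd (fun α β => eulerGL694 α β * t)
      (by intro α β; rw [Units.val_mul, eulerGL_coe694, ht]) (y * k)
    rw [hΨ.unitary k y hk] at hY
    rw [rect_integral_eq694 (Gf k) (hGk k)]
    exact hY
  have h1 : ∫ k, ∫ p, Gf k p ∂rectMeas694 ∂mu = m d * Ψ y := by
    rw [integral_congr_ae (hmK.mono fun k hk => hmvp k hk)]
    simp
  have h2 : ∫ k, ∫ p, Gf k p ∂rectMeas694 ∂mu = ∫ p, ∫ k, Gf k p ∂mu ∂rectMeas694 :=
    integral_integral_swap hint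
  have hcont0 : Continuous fun k : GL (Fin 2) ℂ => Ψ (y * k * t) :=
    hΨ.cont.comp ((continuous_const.mul continuous_id).mul continuous_const)
  have h3 : ∀ p : ℝ × ℝ, ∫ k, Gf k p ∂mu
      = (∫ k, Ψ (y * k * t) ∂mu) * ((Real.sin p.2 : ℝ) : ℂ) := by
    intro p
    have hr := integral_mul_right_unitary694 hminv (fun k => Ψ (y * k * t)) hcont0
      (eulerGL694 p.1 p.2) (eulerGL_unitary694 p.1 p.2)
    simp only [Gf]
    rw [integral_mul_const, ← hr]
    congr 1
    refine integral_congr_ae (Filter.Eventually.of_forall fun k => ?_)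
    simp only [mul_assoc]
  rw [h2] at h1
  simp_rw [h3] at h1
  rw [integral_const_mul, integral_sin_rectMeas694] at h1
  have hpi : ((4 * Real.pi : ℝ) : ℂ) ≠ 0 := by
    exact_mod_cast (by positivity : (4 * Real.pi : ℝ) ≠ 0)
  rw [div_mul_eq_mul_div, eq_div_iff hpi, h1]

/-- **The `K`-average**: `∫ Ψ(y k h) dk = φ_m(chD h) Ψ(y)`. -/
theorem avg_point96 {mu : Measure (GL (Fin 2) ℂ)} [IsProbabilityMeasure mu]
    (hKc : IsCompact {k : GL (Fin 2) ℂ | IsUnitary2 k})
    (hmK : ∀ᵐ k ∂mu, IsUnitary2 k)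
    (hminv : ∀ k₀ : GL (Fin 2) ℂ, IsUnitary2 k₀ →
      Measure.map (fun k => k₀ * k) mu = mu ∧ Measure.map (fun k => k * k₀) mu = mu)
    {m : ℝ → ℂ} {Ψ : GL (Fin 2) ℂ → ℂ} (hΨ : IsLocMean m Ψ) (y h : GL (Fin 2) ℂ) :
    ∫ k, Ψ (y * k * h) ∂mu
      = phiM96 m (chD614 (h : Matrix (Fin 2) (Fin 2) ℂ)) * Ψ y := by
  obtain ⟨k₁, k₂, t, z, d, r, hk₁, hk₂, hd, hr, hch, ht, hz, hh⟩ := H203.cartanC203 h
  -- remove `k₂` and `z`
  have hstep1 : ∀ k : GL (Fin 2) ℂ, Ψ (y * k * h) = Ψ (y * (k * k₁) * t) := by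
    intro k
    have e1 : y * k * h = (y * (k * k₁) * t * z) * k₂ := by
      rw [hh]; simp only [mul_assoc]
    rw [e1, hΨ.unitary k₂ _ hk₂, hΨ.scalar z r hr hz]
  have hcont0 : Continuous fun k : GL (Fin 2) ℂ => Ψ (y * k * t) :=
    hΨ.cont.comp ((continuous_const.mul continuous_id).mul continuous_const)
  have hstep2 : ∫ k, Ψ (y * k * h) ∂mu = ∫ k, Ψ (y * k * t) ∂mu := by
    rw [← integral_mul_right_unitary694 hminv (fun k => Ψ (y * k * t)) hcont0 k₁ hk₁]
    exact integral_congr_ae (Filter.Eventually.of_forall hstep1)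
  rw [hstep2, ← hch]
  rcases hd.eq_or_lt with h0 | hpos
  · -- `d = 0`
    subst h0
    have ht1 : t = 1 := by
      apply Units.ext
      rw [ht, torus_zero694]; rfl
    subst ht1
    rw [phiM_cosh_zero96]
    have : ∀ᵐ k ∂mu, Ψ (y * k * 1) = Ψ y := by
      filter_upwards [hmK] with k hk
      rw [mul_one, hΨ.unitary k y hk]
    rw [integral_congr_ae this]
    simp
  · rw [phiM_cosh_pos96 m hpos]
    exact avg_torus96 hKc hmK hminv hΨ y t d hpos ht

/-- **The core**: the scalar is `∫_{supp F} φ_m F dμ`. -/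
theorem actsByMean96 (μ : Measure (GL (Fin 2) ℂ)) [μ.IsHaarMeasure]
    (F : GL (Fin 2) ℂ → ℂ) (hF : IsCplxTest F) (m : ℝ → ℂ) :
    ActsByMean μ F m
      (∫ h in tsupport F, phiM96 m (chD614 (h : Matrix (Fin 2) (Fin 2) ℂ)) * F h ∂μ) := by
  obtain ⟨hKc, mu, hmu, hmK, hminv⟩ := H572.unitaryHaarC572
  haveI := hmu
  intro Ψ hΨ y
  have hf : Continuous F := hF.cont
  have hfK : ∀ k h : GL (Fin 2) ℂ, IsUnitary2 k → F (k * h) = F h := by
    intro k h hk
    have := hF.bi_inv k 1 h hk isUnitary2_one315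
    simpa using this
  have hKm : MeasurableSet {k : GL (Fin 2) ℂ | IsUnitary2 k} := hKc.isClosed.measurableSet
  -- the support of `F`
  have hS : IsCompact (tsupport F) := hF.supp
  have hSm : MeasurableSet (tsupport F) := (isClosed_tsupport F).measurableSet
  haveI : IsFiniteMeasure (μ.restrict (tsupport F)) :=
    ⟨by rw [Measure.restrict_apply_univ]; exact hS.measure_lt_top⟩
  have hsupp : ∀ g : GL (Fin 2) ℂ → ℂ,
      ∫ h in tsupport F, g h * F h ∂μ = ∫ h, g h * F h ∂μ := by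
    intro g
    refine setIntegral_eq_integral_of_forall_compl_eq_zero fun h hh => ?_
    rw [image_eq_zero_of_notMem_tsupport hh, mul_zero]
  -- step 1: translation by a unitary `k`
  have htrans : ∀ k : GL (Fin 2) ℂ, IsUnitary2 k →
      ∫ h in tsupport F, Ψ (y * k * h) * F h ∂μ = ∫ h, Ψ (y * h) * F h ∂μ := by
    intro k hk
    rw [hsupp (fun h => Ψ (y * k * h))]
    have h1 := integral_mul_left_eq_self (μ := μ) (fun h => Ψ (y * h) * F h) k
    rw [← h1]
    refine integral_congr_ae (Filter.Eventually.of_forall fun h => ?_)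
    simp only [hfK k h hk, mul_assoc]
  -- step 2: Fubini
  let Ff : GL (Fin 2) ℂ → GL (Fin 2) ℂ → ℂ := fun k h => Ψ (y * k * h) * F h
  have hFcont : Continuous (Function.uncurry Ff) := by
    have h1 : Continuous fun z : GL (Fin 2) ℂ × GL (Fin 2) ℂ => Ψ (y * z.1 * z.2) :=
      hΨ.cont.comp ((continuous_const.mul continuous_fst).mul continuous_snd)
    exact h1.mul (hf.comp continuous_snd)
  obtain ⟨C, hC⟩ := (hKc.prod hS).exists_bound_of_continuousOn hFcont.continuousOn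
  have hint : Integrable (Function.uncurry Ff) (mu.prod (μ.restrict (tsupport F))) :=
    integrable_prod_of_bound694 hFcont.aestronglyMeasurable C hKm hSm hmK
      (ae_restrict_mem hSm) (fun a ha b hb => hC (a, b) ⟨ha, hb⟩)
  have hswap : ∫ k, ∫ h, Ff k h ∂(μ.restrict (tsupport F)) ∂mu
      = ∫ h, ∫ k, Ff k h ∂mu ∂(μ.restrict (tsupport F)) := integral_integral_swap hint
  have hleft : ∫ k, ∫ h, Ff k h ∂(μ.restrict (tsupport F)) ∂mu = ∫ h, Ψ (y * h) * F h ∂μ := by
    rw [integral_congr_ae (hmK.mono fun k hk => htrans k hk)]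
    simp
  have hright : ∀ h : GL (Fin 2) ℂ, ∫ k, Ff k h ∂mu
      = Ψ y * (phiM96 m (chD614 (h : Matrix (Fin 2) (Fin 2) ℂ)) * F h) := by
    intro h
    simp only [Ff]
    rw [integral_mul_const, avg_point96 hKc hmK hminv hΨ y h]
    ring
  rw [← hleft, hswap]
  simp_rw [hright]
  rw [integral_const_mul, mul_comm]

end Core

/-- **G.1 `MeanActsC`** (`LT/T3/M/GenSpec.lean`, VERBATIM). -/
theorem meanActsC96 : MeanActsC := by
  intro μc hμc F hF m
  haveI := hμc
  exact ⟨_, actsByMean96 μc F hF m⟩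

/-- The statement, spelled out (check against the bytes of `GenSpec.lean`). -/
example :
    letI : MeasurableSpace (GL (Fin 2) ℂ) := borel (GL (Fin 2) ℂ)
    ∀ μc : Measure (GL (Fin 2) ℂ), μc.IsHaarMeasure →
    ∀ F : GL (Fin 2) ℂ → ℂ, IsCplxTest F → ∀ m : ℝ → ℂ, ∃ C : ℂ,
      ∀ Ψ : GL (Fin 2) ℂ → ℂ, IsLocMean m Ψ → ∀ y : GL (Fin 2) ℂ,
        ∫ h, Ψ (y * h) * F h ∂μc = C * Ψ y :=
  meanActsC96

end Fermat.Agent.LT.T3.M.H96

end

end
-- ===== PACK-END LT/T3/M/H96/MeanActs.lean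

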