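import Mathlib
import Fermat.Agent.Pack.LT3.E21L0
import Fermat.Agent.Pack.LT3.E21L1
import Fermat.Agent.Pack.LT2.E6L1
import Fermat.Agent.Pack.LT2.E7L2
import Fermat.Agent.Pack.LT3.E21L3
import Fermat.Agent.Pack.LT3.E1L1
import Fermat.Agent.Pack.LT2.E4L2
import Fermat.Agent.Pack.LT2.E9L2

set_option linter.all false

-- ===== PACK-BEGIN LT/T7/H893/SupplyFamSpec.lean
section



/-!
# Row LT, tower T7, node T7.L2.1.F `FamC` (sub-architect helper893): SECOND CUT -- Spec

OFF-MAIN.  Definitions and frozen Props only (the proved top is `SupplyFamTop.lean`).  No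
`sorry`, nothing assumed.  ADDITIVE.  Vocabulary: `SupplySpec.lean` (first cut), `T7/Level2.lean`.

    famC_of893 : PreC P K K' → EkProdUpC K K' → EkProdDownC K K' → OpUpC K K' → KillUpC K K'
                   → OpDownC K K' → ClassDownC K K' → CommDownC K K' → KillDownC K K'
                   → FamC P K K'

## The shape of the families (ONE bad element `g`)

Operations on functions on `GL₂(𝔸)` (left translates, so that bi-invariance is preserved):
`ltr b φ = φ(b⁻¹ ·)`, `lsum H φ = ∑_{h ∈ H} φ(h⁻¹ ·)`, `iwL w H φ = q_w^{-1/2} lsum H φ`,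
`regL w z H k m φ = ltr (z^k) ((iwL w H)^[m] φ)`.  For a left invariant measure
`R(ltr b φ) ψ = (R(φ) ψ)(· b)`, hence

    R(lsum H φ) = cosetOp H ∘ R(φ),   R(iwL w H φ) = iwOp w H ∘ R(φ),
    R(regL w z H k m φ) = shiftOp z k ∘ (iwOp w H)^[m] ∘ R(φ).

The PRE-DATA `E : L2Pre K K'` for the bad element `g`: the level `𝔫`, BASE functions
`Φ₁ X` (the word `X` applied to an Eisenstein-killing function), `φ₂` (an Eisenstein-killing
function, `♮`-averaged: bi-invariant under `U(𝔑₀)` and the Iwahori subgroups along the orbit)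
upstairs, `F₁ X`, `f₂` downstairs, coset systems `Hg` (for `U(𝔑₀) g U(𝔑₀) / U(𝔑₀)`), `H'`, `z'`
(Iwahori at `o 0`), `H`, `z` (Iwahori at `u`), scalars `c₁, c₂`, depths `m₀`.  THE FAMILIES:

    φ' X k m = Φ₁ X ⋆ lsum Hg (regL (o 0) z' H' k m φ₂)      (over K')
    f  X k m = F₁ X ⋆ regL u z H k m f₂                       (over K)

so that `R(φ' X k m) = R(Φ₁ X) ∘ [U g U] ∘ Z^k ∘ 𝒰^m ∘ R(φ₂)` and
`R(f X k m) = R(F₁ X) ∘ Z^k ∘ 𝒰^m ∘ R(f₂)`, `f [] 0 0 = F₁ [] ⋆ f₂`.

* **`PreC P K K'`** (NODE = the CONSTRUCTION and the GEOMETRY): pre-data with `IsL2Pre` exist: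
  test functions, Eisenstein-killing with adjoints, invariance, the SCALARS of the base functions
  on the invariant eigenfunctions (T3, general archimedean parameter: `M.EKOpExistGenMC`,
  helper14; Hecke algebra outside `S'`), `♮`-KILL of `φ₂`, `f₂`, classes and commutation
  downstairs, REGULARITY (`T5/H32/RegConv.lean`, helper32) and MATCHED (station of helper584,
  row 2112) for the families above.
* **8 LEAVES (bookkeeping; cosets, translates, Fubini)**: each field of `IsL2Fam` which is an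
  operator identity follows from `IsL2Pre`.
-/

set_option autoImplicit false

open AutomorphicForm IsDedekindDomain NumberField MeasureTheory
open scoped ComplexConjugate

noncomputable section

namespace Fermat.Agent.LT.T7.H893

open Fermat.Agent.LT.H556 Fermat.Agent.LT.H556.A0 Fermat.Agent.LT.T7

attribute [local instance] Fermat.Agent.LT.T5.instMeasurableSpaceG

/-! ## 1. Operations on functions (one field) -/

section Ops

variable {K : Type} [Field K] [NumberField K]

/-- The left translate `φ(b⁻¹ ·)`: `R(ltr b φ) ψ = (R(φ) ψ)(· b)`. -/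
def ltr (b : G K) (φ : G K → ℂ) : G K → ℂ := fun y => φ (b⁻¹ * y)

/-- The sum of the left translates over `H`: `R(lsum H φ) = cosetOp H ∘ R(φ)`. -/
def lsum (H : Finset (G K)) (φ : G K → ℂ) : G K → ℂ := fun y => ∑ h ∈ H, φ (h⁻¹ * y)

/-- The normalised sum of the left translates over an Iwahori coset system at `w`:
`R(iwL w H φ) = iwOp w H ∘ R(φ)`. -/
def iwL (w : HeightOneSpectrum (𝓞 K)) (H : Finset (G K)) (φ : G K → ℂ) : G K → ℂ :=
  fun y => ((Real.sqrt (Ideal.absNorm w.asIdeal : ℝ) : ℝ) : ℂ)⁻¹ * ∑ h ∈ H, φ (h⁻¹ * y)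

/-- The regular member: `R(regL w z H k m φ) = shiftOp z k ∘ (iwOp w H)^[m] ∘ R(φ)`. -/
def regL (w : HeightOneSpectrum (𝓞 K)) (z : G K) (H : Finset (G K)) (k : ℤ) (m : ℕ)
    (φ : G K → ℂ) : G K → ℂ :=
  ltr (z ^ k) ((iwL w H)^[m] φ)

/-- `φ` is bi-invariant under `U(𝔫₀)` and under the Iwahori subgroups at the places
`o 0, …, o (l-1)` (the group of `IsWFn`). -/
def IsUInv (𝔫₀ : Ideal (𝓞 K)) (l : ℕ) (o : ℕ → HeightOneSpectrum (𝓞 K)) (φ : G K → ℂ) : Prop :=
  (∀ u : G K, InLevelGroup 𝔫₀ u → ∀ y : G K, φ (u * y) = φ y ∧ φ (y * u) = φ y) ∧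
    ∀ h : G K, (∀ w : InfinitePlace K, TrivAtInf w h) →
      (∀ v : HeightOneSpectrum (𝓞 K), (∀ j < l, v ≠ o j) → TrivAtFin v h) →
      (∀ j < l, T5.InIwahori (o j) h) → ∀ y : G K, φ (h * y) = φ y ∧ φ (y * h) = φ y

end Ops

/-! ## 2. The pre-data and the families -/

section Pre

variable (K K' : Type) [Field K] [NumberField K] [Field K'] [NumberField K'] [Algebra K K']

/-- The PRE-DATA for one bad element.  See the header. -/
structure L2Pre where
  /-- the level downstairs -/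
  𝔫 : Ideal (𝓞 K)
  /-- the scalar of the first base function upstairs -/
  c₁ : EigData K' → ℂ
  /-- the scalar of the second base function upstairs -/
  c₂ : EigData K' → ℂ
  /-- the first base function upstairs, with the word applied -/
  Φ₁ : List (Gen K') → G K' → ℂ
  /-- the second base function upstairs -/
  φ₂ : G K' → ℂ
  /-- the first base function downstairs, with the base change of the word applied -/
  F₁ : List (Gen K') → G K → ℂ
  /-- the second base function downstairs -/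
  f₂ : G K → ℂ
  /-- representatives of `U(𝔑₀) g U(𝔑₀) / U(𝔑₀)` -/
  Hg : Finset (G K')
  /-- an Iwahori coset system at `o 0` -/
  H' : Finset (G K')
  /-- a scalar uniformiser at `o 0` -/
  z' : G K'
  /-- an Iwahori coset system at `u` -/
  H : Finset (G K)
  /-- a scalar uniformiser at `u` -/
  z : G K
  /-- the regular depth -/
  m₀ : List (Gen K') → ℕ

variable {K K'}

/-- The member of the family upstairs. -/
def L2Pre.up (B : L2Base K K') (E : L2Pre K K') (X : List (Gen K')) (k : ℤ) (m : ℕ) :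
    G K' → ℂ :=
  T5.conv B.R'.μ (E.Φ₁ X) (lsum E.Hg (regL (B.o 0) E.z' E.H' k m E.φ₂))

/-- The member of the family downstairs. -/
def L2Pre.down (B : L2Base K K') (E : L2Pre K K') (X : List (Gen K')) (k : ℤ) (m : ℕ) :
    G K → ℂ :=
  T5.conv B.R.μ (E.F₁ X) (regL B.u E.z E.H k m E.f₂)

/-- THE FAMILIES of the pre-data. -/
def L2Pre.toFam (B : L2Base K K') (E : L2Pre K K') : L2Fam K K' where
  𝔫 := E.𝔫
  c := fun C => E.c₁ C * E.c₂ C
  φ' := E.up B
  f := E.down B
  m₀ := E.m₀

/-- **THE PROPERTIES OF THE PRE-DATA** for the bad element `g`. -/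
structure IsL2Pre (ℓ : ℕ) (Φ : HeckeEigensystem K' ℂ) (B : L2Base K K') (g : G K')
    (E : L2Pre K K') : Prop where
  -- levels
  level_ne : E.𝔫 ≠ ⊥
  level_g : upI (K' := K') E.𝔫 ≤ B.𝔑₀
  mem_S'_g : ∀ w : HeightOneSpectrum (𝓞 K'), w ∈ B.S' ↔ w.asIdeal ∣ upI (K' := K') E.𝔫
  u_level : B.u.asIdeal ∣ E.𝔫
  -- coset systems
  sysg : IsDblCosetSystem B.𝔑₀ g E.Hg
  sys' : IsIwCosetSystem (B.o 0) E.H'
  unif' : IsScalarUniformizerAt (B.o 0) E.z'
  sys : IsIwCosetSystem B.u E.H
  unif : IsScalarUniformizerAt B.u E.z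
  -- the first base function upstairs
  up1_test : ∀ X : List (Gen K'), (∀ x ∈ X, x.Out B.S') →
    T5.IsTestFn (upI (K' := K') E.𝔫) T5.trivType (E.Φ₁ X)
  up1_ek : ∀ X : List (Gen K'), (∀ x ∈ X, x.Out B.S') →
    T5.IsEK B.R'.μ (E.Φ₁ X) ∧ T5.IsEK B.R'.μ (T5.adjointFn (E.Φ₁ X))
  /-- the scalar of `Φ₁ X` on the invariant eigenfunctions of the base level -/
  up1_op : ∀ X : List (Gen K'), (∀ x ∈ X, x.Out B.S') →
    ∀ (χ : G K' → ℂ) (C : EigData K'), IsEigFn B.𝔑₀ B.R'.r ℓ B.o χ C →
      ∀ x : G K', T5.Rconv B.R'.μ (E.Φ₁ X) χ x = wordEv X C * E.c₁ C * χ x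
  -- the second base function upstairs
  up2_test : T5.IsTestFn (upI (K' := K') E.𝔫) T5.trivType E.φ₂
  up2_ek : T5.IsEK B.R'.μ E.φ₂ ∧ T5.IsEK B.R'.μ (T5.adjointFn E.φ₂)
  up2_inv : IsUInv B.𝔑₀ ℓ B.o E.φ₂
  /-- the scalar of `φ₂` on the invariant eigenfunctions of the base level -/
  up2_op : ∀ (ψ : G K' → ℂ) (C : EigData K'), IsEigFn B.𝔑₀ B.R'.r ℓ B.o ψ C →
    ∀ x : G K', T5.Rconv B.R'.μ E.φ₂ ψ x = E.c₂ C * ψ x
  /-- `♮`-KILL upstairs -/
  up2_kill : ∀ ψ : G K' → ℂ, T5.IsCuspFn (upI (K' := K') E.𝔫) T5.trivType B.R'.r ψ →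
    (∀ χ : G K' → ℂ, IsWFn B.𝔑₀ B.R'.r ℓ B.o χ → T5.innerD B.R'.μ B.R'.F ψ χ = 0) →
    ∀ x : G K', T5.Rconv B.R'.μ E.φ₂ ψ x = 0
  /-- the scalars do not vanish on the class of `Φ` -/
  up_ne : ∀ C : EigData K', C.AgreeOut B.S' (eigOf Φ) → E.c₁ C ≠ 0 ∧ E.c₂ C ≠ 0
  -- the first base function downstairs
  dn1_test : ∀ X : List (Gen K'), (∀ x ∈ X, x.Out B.S') →
    T5.IsTestFn E.𝔫 T5.trivType (E.F₁ X)
  dn1_ek : ∀ X : List (Gen K'), (∀ x ∈ X, x.Out B.S') →
    T5.IsEK B.R.μ (E.F₁ X) ∧ T5.IsEK B.R.μ (T5.adjointFn (E.F₁ X))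
  /-- the word acts downstairs through the base change of the eigen-data -/
  dn1_op : ∀ X : List (Gen K'), (∀ x ∈ X, x.Out B.S') →
    ∀ (χ : G K → ℂ) (c : EigData K) (C : EigData K'),
      IsEigFn E.𝔫 B.R.r 1 (fun _ => B.u) χ c → IsBCData c C B.S' →
      ∀ x : G K, T5.Rconv B.R.μ (E.F₁ X) χ x = wordEv X C * T5.Rconv B.R.μ (E.F₁ []) χ x
  /-- `R(F₁ [])` preserves the invariant cusp functions -/
  dn1_wfn : ∀ ψ : G K → ℂ, IsWFn E.𝔫 B.R.r 1 (fun _ => B.u) ψ →
    IsWFn E.𝔫 B.R.r 1 (fun _ => B.u) (T5.Rconv B.R.μ (E.F₁ []) ψ)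
  /-- `R(F₁ [])` preserves the eigen-classes -/
  dn1_class : ∀ (ψ : G K → ℂ) (c : EigData K), IsEigFn E.𝔫 B.R.r 1 (fun _ => B.u) ψ c →
    IsEigFn E.𝔫 B.R.r 1 (fun _ => B.u) (T5.Rconv B.R.μ (E.F₁ []) ψ) c
  /-- `R(F₁ [])` commutes with the operators at `u` -/
  dn1_comm : ∀ ψ : G K → ℂ, IsWFn E.𝔫 B.R.r 1 (fun _ => B.u) ψ →
    ∀ (H : Finset (G K)) (z : G K), IsIwCosetSystem B.u H → IsScalarUniformizerAt B.u z →
      (∀ x : G K, T5.Rconv B.R.μ (E.F₁ []) (iwOp B.u H ψ) x
        = iwOp B.u H (T5.Rconv B.R.μ (E.F₁ []) ψ) x) ∧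
      ∀ (k : ℤ) (x : G K), T5.Rconv B.R.μ (E.F₁ []) (shiftOp z k ψ) x
        = shiftOp z k (T5.Rconv B.R.μ (E.F₁ []) ψ) x
  -- the second base function downstairs
  dn2_test : T5.IsTestFn E.𝔫 T5.trivType E.f₂
  dn2_ek : T5.IsEK B.R.μ E.f₂ ∧ T5.IsEK B.R.μ (T5.adjointFn E.f₂)
  dn2_inv : IsUInv E.𝔫 1 (fun _ => B.u) E.f₂
  dn2_wfn : ∀ ψ : G K → ℂ, IsWFn E.𝔫 B.R.r 1 (fun _ => B.u) ψ →
    IsWFn E.𝔫 B.R.r 1 (fun _ => B.u) (T5.Rconv B.R.μ E.f₂ ψ)
  dn2_class : ∀ (ψ : G K → ℂ) (c : EigData K), IsEigFn E.𝔫 B.R.r 1 (fun _ => B.u) ψ c →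
    IsEigFn E.𝔫 B.R.r 1 (fun _ => B.u) (T5.Rconv B.R.μ E.f₂ ψ) c
  dn2_comm : ∀ ψ : G K → ℂ, IsWFn E.𝔫 B.R.r 1 (fun _ => B.u) ψ →
    ∀ (H : Finset (G K)) (z : G K), IsIwCosetSystem B.u H → IsScalarUniformizerAt B.u z →
      (∀ x : G K, T5.Rconv B.R.μ E.f₂ (iwOp B.u H ψ) x
        = iwOp B.u H (T5.Rconv B.R.μ E.f₂ ψ) x) ∧
      ∀ (k : ℤ) (x : G K), T5.Rconv B.R.μ E.f₂ (shiftOp z k ψ) x
        = shiftOp z k (T5.Rconv B.R.μ E.f₂ ψ) x
  /-- `♮`-KILL downstairs -/
  dn2_kill : ∀ ψ : G K → ℂ, T5.IsCuspFn E.𝔫 T5.trivType B.R.r ψ →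
    (∀ χ : G K → ℂ, IsWFn E.𝔫 B.R.r 1 (fun _ => B.u) χ → T5.innerD B.R.μ B.R.F ψ χ = 0) →
    ∀ x : G K, T5.Rconv B.R.μ E.f₂ ψ x = 0
  -- the geometry of the families
  reg_up : ∀ (X : List (Gen K')) (k : ℤ) (m : ℕ), (∀ x ∈ X, x.Out B.S') → E.m₀ X ≤ m →
    T5.IsTwRegular B.s B.l B.k (E.up B X k m)
  reg_down : ∀ (X : List (Gen K')) (k : ℤ) (m : ℕ), (∀ x ∈ X, x.Out B.S') → E.m₀ X ≤ m →
    T5.IsTwRegular (T5.AdelicAut.id K) 1 ⊤ (E.down B X k m)
  matched : ∀ (X : List (Gen K')) (k : ℤ) (m : ℕ), (∀ x ∈ X, x.Out B.S') → E.m₀ X ≤ m →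
    IsGlobMatch (B.comp E.𝔫) (E.up B X k m) (E.down B X k m)

end Pre

/-! ## 3. The node and the leaves of the second cut -/

section Leaves

variable (P : EKCond)
variable (K K' : Type) [Field K] [NumberField K] [Field K'] [NumberField K'] [Algebra K K']

/-- **NODE T7.L2.1.F0 = PRE (construction + geometry).**  For a common part and one bad element
the pre-data exist.  See the header and `IsL2Pre`. -/
def PreC : Prop :=
  ∀ ℓ : ℕ, IsCycExt K K' ℓ → ℓ ≠ 2 → TotCplx K →
    ∀ Φ : HeckeEigensystem K' ℂ, A0.IsCuspAdelicSph0 K' Φ → ConstOnFibres K Φ → P K' Φ →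
      ∀ B : L2Base K K', IsL2Base ℓ Φ B → ∀ g : G K', B.IsBad g →
        ∃ E : L2Pre K K', IsL2Pre ℓ Φ B g E

/-- **LEAF T7.L2.1.F1 = EKPROD-UP.**  The members upstairs are products of two
Eisenstein-killing test functions: `Φ₁ X` and `lsum Hg (regL (o 0) z' H' k m φ₂)`.
Proof: the second factor is a finite sum of left translates of `φ₂` by elements which are trivial
at infinity: continuous, compact support, smooth at infinity, of trivial type; bi-invariant under
`U(𝔑₀)` and the Iwahori subgroups along the orbit (`up2_inv`; the coset systems are permuted by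
left multiplication; `U(𝔑₀)_{o j}` is contained in the Iwahori subgroup because `o j ∣ 𝔑₀`;
`g` is trivial along the orbit), hence under `U(𝔑)`; Eisenstein-killing with adjoint
(`R(ltr b φ) Ψ = (R(φ) Ψ)(· b)`; the adjoint of a left translate is a right translate of the
adjoint, and right translates of Borel-invariant functions are Borel-invariant); the product is
a test function (`ConvTestC`, helper872). -/
def EkProdUpC : Prop :=
  ∀ (ℓ : ℕ) (Φ : HeckeEigensystem K' ℂ) (B : L2Base K K'), IsL2Base ℓ Φ B →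
    ∀ g : G K', B.IsBad g → ∀ E : L2Pre K K', IsL2Pre ℓ Φ B g E →
    ∀ (X : List (Gen K')) (k : ℤ) (m : ℕ), (∀ x ∈ X, x.Out B.S') →
      IsEKProd (upI (K' := K') E.𝔫) B.R' (E.up B X k m)

/-- **LEAF T7.L2.1.F2 = EKPROD-DOWN.**  The same downstairs (`F₁ X` and `regL u z H k m f₂`). -/
def EkProdDownC : Prop :=
  ∀ (ℓ : ℕ) (Φ : HeckeEigensystem K' ℂ) (B : L2Base K K'), IsL2Base ℓ Φ B →
    ∀ g : G K', B.IsBad g → ∀ E : L2Pre K K', IsL2Pre ℓ Φ B g E →
    ∀ (X : List (Gen K')) (k : ℤ) (m : ℕ), (∀ x ∈ X, x.Out B.S') →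
      IsEKProd E.𝔫 B.R (E.down B X k m)

/-- **LEAF T7.L2.1.F3 = OP-UP.**
`R(φ' X k m) ψ = R(Φ₁ X) ([U g U] Z^k 𝒰^m (R(φ₂) ψ)) = X(C) c₁(C) c₂(C) [U g U] Z^k 𝒰^m ψ` on the
invariant eigenfunctions of the base level, for EVERY choice of the coset systems.
Proof: `R(φ₁ ⋆ φ₂) = R(φ₁) R(φ₂)` (Fubini; test functions, `ψ` continuous and bounded),
`R(lsum H φ) = cosetOp H ∘ R(φ)` etc. (left invariance of the measure), `up2_op`, linearity,
`[U g U] Z^k 𝒰^m ψ` is again an invariant eigenfunction with the same eigen-data (translations at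
the places of `S'` commute with the Hecke operators outside `S'` and with the sphere means),
`up1_op`; the operators `cosetOp`, `iwOp`, `shiftOp` do not depend on the coset systems on
invariant functions. -/
def OpUpC : Prop :=
  ∀ (ℓ : ℕ) (Φ : HeckeEigensystem K' ℂ) (B : L2Base K K'), IsL2Base ℓ Φ B →
    ∀ g : G K', B.IsBad g → ∀ E : L2Pre K K', IsL2Pre ℓ Φ B g E →
    ∀ (X : List (Gen K')) (k : ℤ) (m : ℕ), (∀ x ∈ X, x.Out B.S') →
    ∀ (ψ : G K' → ℂ) (C : EigData K'), IsEigFn B.𝔑₀ B.R'.r ℓ B.o ψ C →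
    ∀ (Hg H : Finset (G K')) (z : G K'), IsDblCosetSystem B.𝔑₀ g Hg →
      IsIwCosetSystem (B.o 0) H → IsScalarUniformizerAt (B.o 0) z →
      ∀ x : G K', T5.Rconv B.R'.μ (E.up B X k m) ψ x
        = wordEv X C * (E.c₁ C * E.c₂ C)
          * cosetOp Hg (shiftOp z k ((iwOp (B.o 0) H)^[m] ψ)) x

/-- **LEAF T7.L2.1.F4 = KILL-UP.**  `R(φ' X k m) ψ = R(Φ₁ X) ([U g U] Z^k 𝒰^m (R(φ₂) ψ)) = 0` for
the cusp functions orthogonal to the invariant ones (`up2_kill`). -/
def KillUpC : Prop :=
  ∀ (ℓ : ℕ) (Φ : HeckeEigensystem K' ℂ) (B : L2Base K K'), IsL2Base ℓ Φ B →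
    ∀ g : G K', B.IsBad g → ∀ E : L2Pre K K', IsL2Pre ℓ Φ B g E →
    ∀ (X : List (Gen K')) (k : ℤ) (m : ℕ), (∀ x ∈ X, x.Out B.S') →
    ∀ ψ : G K' → ℂ, T5.IsCuspFn (upI (K' := K') E.𝔫) T5.trivType B.R'.r ψ →
      (∀ χ : G K' → ℂ, IsWFn B.𝔑₀ B.R'.r ℓ B.o χ → T5.innerD B.R'.μ B.R'.F ψ χ = 0) →
      ∀ x : G K', T5.Rconv B.R'.μ (E.up B X k m) ψ x = 0

/-- **LEAF T7.L2.1.F5 = OP-DOWN.**
`R(f X k m) ψ = R(F₁ X) (Z^k 𝒰^m (R(f₂) ψ)) = X(Ĉ) R(F₁ []) (R(f₂) (Z^k 𝒰^m ψ))
  = X(Ĉ) R(f [] 0 0) (Z^k 𝒰^m ψ)` (`dn1_op`, `dn2_class`, `dn2_comm`, `regL u z H 0 0 f₂ = f₂`). -/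
def OpDownC : Prop :=
  ∀ (ℓ : ℕ) (Φ : HeckeEigensystem K' ℂ) (B : L2Base K K'), IsL2Base ℓ Φ B →
    ∀ g : G K', B.IsBad g → ∀ E : L2Pre K K', IsL2Pre ℓ Φ B g E →
    ∀ (X : List (Gen K')) (k : ℤ) (m : ℕ), (∀ x ∈ X, x.Out B.S') →
    ∀ (ψ : G K → ℂ) (c : EigData K) (C : EigData K'),
      IsEigFn E.𝔫 B.R.r 1 (fun _ => B.u) ψ c → IsBCData c C B.S' →
    ∀ (H : Finset (G K)) (z : G K), IsIwCosetSystem B.u H → IsScalarUniformizerAt B.u z →
      ∀ x : G K, T5.Rconv B.R.μ (E.down B X k m) ψ x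
        = wordEv X C
          * T5.Rconv B.R.μ (E.down B [] 0 0) (shiftOp z k ((iwOp B.u H)^[m] ψ)) x

/-- **LEAF T7.L2.1.F6 = CLASS-DOWN.**  `R(f [] 0 0) = R(F₁ []) R(f₂)` preserves the
eigen-classes (`dn1_class`, `dn2_class`). -/
def ClassDownC : Prop :=
  ∀ (ℓ : ℕ) (Φ : HeckeEigensystem K' ℂ) (B : L2Base K K'), IsL2Base ℓ Φ B →
    ∀ g : G K', B.IsBad g → ∀ E : L2Pre K K', IsL2Pre ℓ Φ B g E →
    ∀ (ψ : G K → ℂ) (c : EigData K), IsEigFn E.𝔫 B.R.r 1 (fun _ => B.u) ψ c →
      IsEigFn E.𝔫 B.R.r 1 (fun _ => B.u) (T5.Rconv B.R.μ (E.down B [] 0 0) ψ) c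

/-- **LEAF T7.L2.1.F7 = COMM-DOWN.**  `R(f [] 0 0) = R(F₁ []) R(f₂)` commutes with the operators
at `u` on the invariant cusp functions (`dn1_comm`, `dn2_comm`, `dn2_wfn`). -/
def CommDownC : Prop :=
  ∀ (ℓ : ℕ) (Φ : HeckeEigensystem K' ℂ) (B : L2Base K K'), IsL2Base ℓ Φ B →
    ∀ g : G K', B.IsBad g → ∀ E : L2Pre K K', IsL2Pre ℓ Φ B g E →
    ∀ ψ : G K → ℂ, IsWFn E.𝔫 B.R.r 1 (fun _ => B.u) ψ →
    ∀ (H : Finset (G K)) (z : G K), IsIwCosetSystem B.u H → IsScalarUniformizerAt B.u z →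
      (∀ x : G K, T5.Rconv B.R.μ (E.down B [] 0 0) (iwOp B.u H ψ) x
        = iwOp B.u H (T5.Rconv B.R.μ (E.down B [] 0 0) ψ) x) ∧
      ∀ (k : ℤ) (x : G K), T5.Rconv B.R.μ (E.down B [] 0 0) (shiftOp z k ψ) x
        = shiftOp z k (T5.Rconv B.R.μ (E.down B [] 0 0) ψ) x

/-- **LEAF T7.L2.1.F8 = KILL-DOWN.**  `R(f X k m) ψ = R(F₁ X) (Z^k 𝒰^m (R(f₂) ψ)) = 0` for the
cusp functions orthogonal to the invariant ones (`dn2_kill`). -/
def KillDownC : Prop :=
  ∀ (ℓ : ℕ) (Φ : HeckeEigensystem K' ℂ) (B : L2Base K K'), IsL2Base ℓ Φ B →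
    ∀ g : G K', B.IsBad g → ∀ E : L2Pre K K', IsL2Pre ℓ Φ B g E →
    ∀ (X : List (Gen K')) (k : ℤ) (m : ℕ), (∀ x ∈ X, x.Out B.S') →
    ∀ ψ : G K → ℂ, T5.IsCuspFn E.𝔫 T5.trivType B.R.r ψ →
      (∀ χ : G K → ℂ, IsWFn E.𝔫 B.R.r 1 (fun _ => B.u) χ → T5.innerD B.R.μ B.R.F ψ χ = 0) →
      ∀ x : G K, T5.Rconv B.R.μ (E.down B X k m) ψ x = 0

end Leaves

end Fermat.Agent.LT.T7.H893

end

end
-- ===== PACK-END LT/T7/H893/SupplyFamSpec.lean

-- ===== PACK-BEGIN LT/T7/H534/DownBasisSpec.lean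
section



/-!
# Row LT, tower T7, NODE T7.L2.3.5 `SD534.DownBasisC` -- THE CUT, level 2 (helper534)

OFF-MAIN.  Definitions and frozen Props; the assembly `downBasisC_of534` is in
`DownBasisTop.lean`.  No hole, nothing assumed.  ADDITIVE.

    DownBasisC K K'  ⟸  CuspFormC K + WSubC K + OpsClassC K + WBasisC K + SchurSeqC
                          + RegParamFnC K + SubSeqC K          (+ the fields of `IsL2Data`)

Notation: `V` = the cusp functions of level `𝔫`, trivial type, invariant under the ray generator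
(`InV`); `W ⊆ V` = the INVARIANT cusp functions (`InW` = `T7.IsWFn` for the one-point orbit `u`:
invariant under the positive scalars at every infinite place and under the Iwahori subgroup at
`u`, `u ∣ 𝔫`); `InCls c` = the members of `W` with joint eigen-data `c` (`T7.IsEigFn`);
`⟨f, f'⟩ = T5.innerD μ F f f'` (linear in `f`).

## The leaves

* `CuspFormC`   : `⟨ , ⟩` is a positive definite hermitian form on `V`; `R(φ)` is linear on `V`.
* `WSubC`       : `V`, `W` and the classes are closed under `+` and scalar multiplication.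
* `OpsClassC`   : `Z^k` and `𝒰` preserve the classes and commute.
* `WBasisC` (NODE, port of the closed tower T2): an orthonormal sequence of joint eigenfunctions
  which is complete in `W`, with FINITE classes which EXHAUST the eigenfunctions.
* `SchurSeqC` (MATHLIB ONLY, abstract): simultaneous Schur form of commuting operators on the
  finite dimensional class spaces; the new orthonormal sequence is still complete.
* `RegParamFnC` (NODE, asset helper822 `regParam_of_eigen822`): the joint eigenvalues of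
  `(Z, 𝒰)` on `W` satisfy `IsRegParam √q`.
* `SubSeqC`     : every subspace of `V` has a complete orthonormal sequence (zeros allowed)
  (separability of `L²(F)` + Gram--Schmidt); used for `V ∩ W^⊥`.
-/

set_option autoImplicit false
set_option linter.unusedSectionVars false
set_option linter.unusedVariables false

open AutomorphicForm IsDedekindDomain NumberField MeasureTheory
open scoped ComplexConjugate

noncomputable section

namespace Fermat.Agent.LT.T7.SD534

open Fermat.Agent.LT.H556 Fermat.Agent.LT.H556.A0 Fermat.Agent.LT.T7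

attribute [local instance] Fermat.Agent.LT.T5.instMeasurableSpaceG

section Defs

variable {K : Type} [Field K] [NumberField K]

/-- `f ∈ V`: a cusp function of level `𝔫`, trivial `K_∞`-type, invariant under `r`. -/
def InV (𝔫 : Ideal (𝓞 K)) (r : G K) (f : G K → ℂ) : Prop := T5.IsCuspFn 𝔫 T5.trivType r f

/-- `χ ∈ W`: an invariant cusp function for the regular place `u`. -/
def InW (𝔫 : Ideal (𝓞 K)) (r : G K) (u : HeightOneSpectrum (𝓞 K)) (χ : G K → ℂ) : Prop :=
  IsWFn 𝔫 r 1 (fun _ => u) χ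

/-- `ψ` is a member of `W` with joint eigen-data `c`. -/
def InCls (𝔫 : Ideal (𝓞 K)) (r : G K) (u : HeightOneSpectrum (𝓞 K)) (c : EigData K)
    (ψ : G K → ℂ) : Prop :=
  IsEigFn 𝔫 r 1 (fun _ => u) ψ c

theorem InCls.inW {𝔫 : Ideal (𝓞 K)} {r : G K} {u : HeightOneSpectrum (𝓞 K)} {c : EigData K}
    {ψ : G K → ℂ} (h : InCls 𝔫 r u c ψ) : InW 𝔫 r u ψ := h.inv

theorem InW.inV {𝔫 : Ideal (𝓞 K)} {r : G K} {u : HeightOneSpectrum (𝓞 K)}
    {χ : G K → ℂ} (h : InW 𝔫 r u χ) : InV 𝔫 r χ := h.cusp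

/-- The hermitian form on `V` and the linearity of the convolutions. -/
structure IsCuspForm (μ : Measure (G K)) (F : Set (G K)) (r : G K) (𝔫 : Ideal (𝓞 K)) :
    Prop where
  add_left : ∀ f f' f'' : G K → ℂ, InV 𝔫 r f → InV 𝔫 r f' → InV 𝔫 r f'' →
    T5.innerD μ F (f + f') f'' = T5.innerD μ F f f'' + T5.innerD μ F f' f''
  smul_left : ∀ (a : ℂ) (f f' : G K → ℂ), InV 𝔫 r f → InV 𝔫 r f' →
    T5.innerD μ F (a • f) f' = a * T5.innerD μ F f f'
  conj_symm : ∀ f f' : G K → ℂ, InV 𝔫 r f → InV 𝔫 r f' →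
    T5.innerD μ F f' f = conj (T5.innerD μ F f f')
  nonneg : ∀ f : G K → ℂ, InV 𝔫 r f → 0 ≤ (T5.innerD μ F f f).re
  definite : ∀ f : G K → ℂ, InV 𝔫 r f → T5.innerD μ F f f = 0 → f = 0
  conv_add : ∀ φ f f' : G K → ℂ, T5.IsTestFn 𝔫 T5.trivType φ → InV 𝔫 r f → InV 𝔫 r f' →
    T5.Rconv μ φ (f + f') = T5.Rconv μ φ f + T5.Rconv μ φ f'
  conv_smul : ∀ (φ : G K → ℂ) (a : ℂ) (f : G K → ℂ), T5.IsTestFn 𝔫 T5.trivType φ →
    InV 𝔫 r f → T5.Rconv μ φ (a • f) = a • T5.Rconv μ φ f

/-- `V`, `W` and the classes are linear subspaces of the functions on `GL₂(𝔸_K)`. -/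
structure IsWSub (𝔫 : Ideal (𝓞 K)) (r : G K) (u : HeightOneSpectrum (𝓞 K)) : Prop where
  zeroW : InW 𝔫 r u (0 : G K → ℂ)
  addV : ∀ f f' : G K → ℂ, InV 𝔫 r f → InV 𝔫 r f' → InV 𝔫 r (f + f')
  smulV : ∀ (a : ℂ) (f : G K → ℂ), InV 𝔫 r f → InV 𝔫 r (a • f)
  addW : ∀ f f' : G K → ℂ, InW 𝔫 r u f → InW 𝔫 r u f' → InW 𝔫 r u (f + f')
  smulW : ∀ (a : ℂ) (f : G K → ℂ), InW 𝔫 r u f → InW 𝔫 r u (a • f)
  addC : ∀ (c : EigData K) (f f' : G K → ℂ), InCls 𝔫 r u c f → InCls 𝔫 r u c f' →
    InCls 𝔫 r u c (f + f')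
  smulC : ∀ (c : EigData K) (a : ℂ) (f : G K → ℂ), InCls 𝔫 r u c f → InCls 𝔫 r u c (a • f)

/-- The operators at the regular place preserve the classes and commute. -/
structure IsOpsClass (𝔫 : Ideal (𝓞 K)) (r : G K) (u : HeightOneSpectrum (𝓞 K))
    (H : Finset (G K)) (z : G K) : Prop where
  shift : ∀ (c : EigData K) (ψ : G K → ℂ) (k : ℤ), InCls 𝔫 r u c ψ →
    InCls 𝔫 r u c (shiftOp z k ψ)
  iw : ∀ (c : EigData K) (ψ : G K → ℂ), InCls 𝔫 r u c ψ → InCls 𝔫 r u c (iwOp u H ψ)
  comm : ∀ (ψ : G K → ℂ) (k : ℤ), iwOp u H (shiftOp z k ψ) = shiftOp z k (iwOp u H ψ)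

/-- The span of the members of the class `a` of a sequence `w` (index set `J`, classes `cl`). -/
def clsSpan {M A : Type} [AddCommGroup M] [Module ℂ M] (w : ℕ → M) (J : Set ℕ) (cl : ℕ → A)
    (a : A) : Submodule ℂ M :=
  Submodule.span ℂ {f : M | ∃ j : ℕ, j ∈ J ∧ cl j = a ∧ f = w j}

/-- An orthonormal sequence of joint eigenfunctions, complete in `W`, with finite classes which
exhaust the eigenfunctions. -/
structure IsWBasis (μ : Measure (G K)) (F : Set (G K)) (r : G K) (𝔫 : Ideal (𝓞 K))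
    (u : HeightOneSpectrum (𝓞 K)) (w : ℕ → G K → ℂ) (J : Set ℕ) (c : ℕ → EigData K) :
    Prop where
  eig : ∀ j, j ∈ J → InCls 𝔫 r u (c j) (w j)
  unit : ∀ j, j ∈ J → IsUnitOut 𝔫 (c j)
  norm_one : ∀ j, j ∈ J → T5.innerD μ F (w j) (w j) = 1
  orth : ∀ i, i ∈ J → ∀ j, j ∈ J → i ≠ j → T5.innerD μ F (w i) (w j) = 0
  parseval : ∀ χ : G K → ℂ, InW 𝔫 r u χ →
    HasSum (fun j : J => ‖T5.innerD μ F χ (w j)‖ ^ 2) (T5.innerD μ F χ χ).re
  finite : ∀ j₀, j₀ ∈ J → {j : ℕ | j ∈ J ∧ c j = c j₀}.Finite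
  exhaust : ∀ j₀, j₀ ∈ J → ∀ ψ : G K → ℂ, InCls 𝔫 r u (c j₀) ψ → ψ ∈ clsSpan w J c (c j₀)

end Defs

/-! ## The leaves -/

section Leaves

variable (K : Type) [Field K] [NumberField K]

/-- **DB.1 FORM.**  `⟨ , ⟩` is a positive definite hermitian form on the cusp functions and the
convolution by a test function is linear on them.  (Cusp functions are continuous and bounded,
`μ F < ∞`; a test function is continuous with compact support; definiteness: `f = 0` a.e. on `F`,
hence a.e. on `GL₂(𝔸_K) = ⋃ γ F rᵐ`, hence everywhere: `T2.PairDefinite` for the frame of T5.) -/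
def CuspFormC : Prop :=
  ∀ (μ : Measure (G K)) (F : Set (G K)) (r : G K) (𝔫 : Ideal (𝓞 K)), 𝔫 ≠ ⊥ →
    T5.IsFrame μ F → T5.IsRayGen r → IsCuspForm μ F r 𝔫

/-- **DB.2 SUBSPACES.**  (Every condition of `T5.IsCuspFn`, `IsWFn`, `IsEigFn` is linear; the
constant term needs the integrability of a bounded continuous function on a fundamental domain
of `K` in `𝔸_K`, which has finite measure: T1.) -/
def WSubC : Prop :=
  ∀ (𝔫 : Ideal (𝓞 K)) (r : G K) (u : HeightOneSpectrum (𝓞 K)), IsWSub 𝔫 r u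

/-- **DB.3 OPS.**  For `u ∣ 𝔫`, an Iwahori coset system `H` and a scalar uniformiser `z` at `u`:
`Z^k` and `𝒰` map a member of `W` with eigen-data `c` to a member of `W` with eigen-data `c`
(`z` is central; the `q` elements of `H` are ALL the classes of `I t I / I`, so left
multiplication by an element of `I` permutes them modulo `I`), and `𝒰 Z^k = Z^k 𝒰`. -/
def OpsClassC : Prop :=
  ∀ (𝔫 : Ideal (𝓞 K)) (r : G K) (u : HeightOneSpectrum (𝓞 K)) (H : Finset (G K)) (z : G K),
    𝔫 ≠ ⊥ → T5.IsRayGen r → u.asIdeal ∣ 𝔫 → IsIwCosetSystem u H → IsScalarUniformizerAt u z →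
      IsOpsClass 𝔫 r u H z

/-- **DB.4 = NODE W-BASIS** (port of the closed tower T2 to the Iwahori level at `u`).
Route: `T2.exists_natBasis130` + `T2.finite_class130` for the level `𝔫` (the members of `W` are
cusp functions of T2 of level `𝔫`), the projector `P` = average over `I_u / U(𝔫)_u` (a finite
group) commutes with the operators of T2, so `W ∩ V_c = P V_c` for every class `V_c`;
Gram--Schmidt in `P V_c`.  The eigen-data are NORMALISED (`0` at the places dividing `𝔫` and at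
the radii `d ≤ 0`), so that two members are in the same class iff their data are EQUAL. -/
def WBasisC : Prop :=
  ∀ (μ : Measure (G K)) (F : Set (G K)) (r : G K) (𝔫 : Ideal (𝓞 K))
    (u : HeightOneSpectrum (𝓞 K)), 𝔫 ≠ ⊥ → T5.IsFrame μ F → T5.IsRayGen r → u.asIdeal ∣ 𝔫 →
    TotCplx K →
      ∃ (w : ℕ → G K → ℂ) (J : Set ℕ) (c : ℕ → EigData K), IsWBasis μ F r 𝔫 u w J c

/-- **DB.6 = NODE REG-PARAM** (asset helper822 `LT/T7/H822/RegParam.lean`
`regParam_of_eigen822`).  A nonzero member of `W` which is a joint eigenfunction of `Z` and `𝒰`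
with eigenvalues `(b, l)` has `IsRegParam √q b l`.
Route: on the Iwahori invariant cusp functions `S = ∑_{h ∈ I s I / I} R(h)` is symmetric with
`S² = (q - 1) S + q`, `ρ = R(ω)`, `ω = [[0, 1], [c, 0]]` at `u`, is unitary, `ρ² = Z` for
`z = c · 1`, and `√q 𝒰 = S ρ` (`s ω = diag(c, 1)`, `ω` normalises `I`). -/
def RegParamFnC : Prop :=
  ∀ (μ : Measure (G K)) (F : Set (G K)) (r : G K) (𝔫 : Ideal (𝓞 K))
    (u : HeightOneSpectrum (𝓞 K)) (H : Finset (G K)) (z : G K),
    𝔫 ≠ ⊥ → T5.IsFrame μ F → T5.IsRayGen r → u.asIdeal ∣ 𝔫 → IsIwCosetSystem u H →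
    IsScalarUniformizerAt u z →
    ∀ (ψ : G K → ℂ) (b l : ℂ), InW 𝔫 r u ψ → (∃ y : G K, ψ y ≠ 0) →
      shiftOp z 1 ψ = b • ψ → iwOp u H ψ = l • ψ →
      IsRegParam (Real.sqrt (Ideal.absNorm u.asIdeal : ℝ)) b l

/-- **DB.7 SUB-SEQ.**  Every linear subspace `S` of the cusp functions has an orthonormal
sequence (zero vectors allowed) of members of `S` which is complete in `S`.
(`L²(F, μ)` is separable: `GL₂(𝔸_K)` is second countable; Gram--Schmidt on a dense sequence of
`S`.) -/
def SubSeqC : Prop :=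
  ∀ (μ : Measure (G K)) (F : Set (G K)) (r : G K) (𝔫 : Ideal (𝓞 K)), 𝔫 ≠ ⊥ →
    T5.IsFrame μ F → T5.IsRayGen r →
    ∀ S : (G K → ℂ) → Prop, (∀ f, S f → InV 𝔫 r f) → S 0 → (∀ f f', S f → S f' → S (f + f')) →
      (∀ (a : ℂ) (f : G K → ℂ), S f → S (a • f)) →
      ∃ p : ℕ → G K → ℂ, (∀ n, S (p n)) ∧
        (∀ n m, n ≠ m → T5.innerD μ F (p n) (p m) = 0) ∧
        (∀ n, T5.innerD μ F (p n) (p n) = 1 ∨ p n = 0) ∧
        ∀ f : G K → ℂ, S f →
          HasSum (fun n => ‖T5.innerD μ F f (p n)‖ ^ 2) (T5.innerD μ F f f).re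

end Leaves

/-- **DB.5 SCHUR (MATHLIB ONLY, abstract).**  `M` a complex vector space, `form` a positive
definite hermitian form on the subspace `Wm` (linear in the FIRST variable), `w` an orthonormal
sequence (index set `J`) which is complete in `Wm`, with finite classes `cl`; `Zk k`, `U`, `B`
maps which are linear on the class spaces `E a = clsSpan w J cl a`, preserve them and commute
there, `Zk` a group action.  Then there is an orthonormal sequence `e` with `e j ∈ E (cl j)`,
complete in `Wm`, in which all the operators are upper triangular on every class space: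
`form (B (Zk k (U^[m] (e j)))) (e j) = x j * b j ^ k * l j ^ m`, and every `(b j, l j)` is a joint
eigenvalue of `(Zk 1, U)` on `E (cl j)`.
Proof: `E a` is finite dimensional with orthonormal basis `w j`, `cl j = a`; commuting operators
on a finite dimensional inner product space have a common eigenvector of the ADJOINTS, whose
orthogonal complement is invariant: induction gives an orthonormal basis with triangular
matrices; the diagonal entries of a product are the products of the diagonal entries; the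
diagonal pairs are joint eigenvalues; Parseval is regrouped class by class (finite classes,
nonnegative terms). -/
def SchurSeqC : Prop :=
  ∀ (M : Type) [AddCommGroup M] [Module ℂ M] (form : M → M → ℂ) (Wm : Submodule ℂ M)
    (A : Type) (w : ℕ → M) (J : Set ℕ) (cl : ℕ → A) (Zk : ℤ → M → M) (U B : M → M),
    (∀ x ∈ Wm, ∀ y ∈ Wm, ∀ z ∈ Wm, form (x + y) z = form x z + form y z) →
    (∀ (a : ℂ), ∀ x ∈ Wm, ∀ y ∈ Wm, form (a • x) y = a * form x y) →
    (∀ x ∈ Wm, ∀ y ∈ Wm, form y x = conj (form x y)) →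
    (∀ x ∈ Wm, 0 ≤ (form x x).re) →
    (∀ x ∈ Wm, form x x = 0 → x = 0) →
    (∀ j ∈ J, w j ∈ Wm) →
    (∀ j ∈ J, form (w j) (w j) = 1) →
    (∀ i ∈ J, ∀ j ∈ J, i ≠ j → form (w i) (w j) = 0) →
    (∀ χ ∈ Wm, HasSum (fun j : J => ‖form χ (w j)‖ ^ 2) (form χ χ).re) →
    (∀ j₀ ∈ J, {j : ℕ | j ∈ J ∧ cl j = cl j₀}.Finite) →
    (∀ a : A, ∀ x ∈ clsSpan w J cl a, ∀ y ∈ clsSpan w J cl a,
      U (x + y) = U x + U y ∧ B (x + y) = B x + B y ∧ ∀ k : ℤ, Zk k (x + y) = Zk k x + Zk k y) →
    (∀ (a : A) (t : ℂ), ∀ x ∈ clsSpan w J cl a,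
      U (t • x) = t • U x ∧ B (t • x) = t • B x ∧ ∀ k : ℤ, Zk k (t • x) = t • Zk k x) →
    (∀ a : A, ∀ x ∈ clsSpan w J cl a,
      U x ∈ clsSpan w J cl a ∧ B x ∈ clsSpan w J cl a ∧ ∀ k : ℤ, Zk k x ∈ clsSpan w J cl a) →
    (∀ a : A, ∀ x ∈ clsSpan w J cl a,
      B (U x) = U (B x) ∧ (∀ k : ℤ, B (Zk k x) = Zk k (B x)) ∧
        ∀ k : ℤ, U (Zk k x) = Zk k (U x)) →
    (∀ a : A, ∀ x ∈ clsSpan w J cl a,
      Zk 0 x = x ∧ ∀ k k' : ℤ, Zk (k + k') x = Zk k (Zk k' x)) →
    ∃ (e : ℕ → M) (b l x : ℕ → ℂ),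
      (∀ j ∈ J, e j ∈ clsSpan w J cl (cl j)) ∧
      (∀ j ∈ J, form (e j) (e j) = 1) ∧
      (∀ i ∈ J, ∀ j ∈ J, i ≠ j → form (e i) (e j) = 0) ∧
      (∀ χ ∈ Wm, HasSum (fun j : J => ‖form χ (e j)‖ ^ 2) (form χ χ).re) ∧
      (∀ j ∈ J, ∀ (k : ℤ) (m : ℕ),
        form (B (Zk k (U^[m] (e j)))) (e j) = x j * b j ^ k * l j ^ m) ∧
      ∀ j ∈ J, ∃ y ∈ clsSpan w J cl (cl j), y ≠ 0 ∧ Zk 1 y = b j • y ∧ U y = l j • y

end Fermat.Agent.LT.T7.SD534

end

end
-- ===== PACK-END LT/T7/H534/DownBasisSpec.lean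

-- ===== PACK-BEGIN LT/T7/H128/TranslInner.lean
section





/-!
# Row LT, tower T7, node T7.L2.1 `SupplyC`, SHARED TOOL T7.L2.1.P3 `H40.TranslInnerC`
(helper128, SPARE of row 2105; owner helper892 keeps the row)

OFF-MAIN.  `translInnerC128 K : Fermat.Agent.LT.T7.H40.TranslInnerC K`, VERBATIM, unconditional,
every number field `K`.

Route: `Γ = GL₂(K) × ℤ` acts on `GL₂(𝔸_K)` by `(γ, m) • g = γ g rᵐ`; the frame `F` and its right
translate `F h` are strict fundamental domains of `Γ` (`r` is central, the product formula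
`T1.AdNormC` = `adNormC309` of helper309, the slab lemmas of helper277 `T5/H277/Ray.lean`); the
action preserves `μ`; Mathlib's `IsFundamentalDomain.setIntegral_eq`.  Continuity and boundedness
of `Ψ` are not used.
-/

set_option autoImplicit false

open IsDedekindDomain NumberField MeasureTheory
open Fermat.Agent.LT.H556.A0 Fermat.Agent.LT.T5 Fermat.Agent.LT.T5.H277

noncomputable section

namespace Fermat.Agent.LT.T7.H128

variable {K : Type} [Field K] [NumberField K]

attribute [local instance] Fermat.Agent.LT.T5.instMeasurableSpaceG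

/-- The action of `GL₂(K) × ℤ` on `GL₂(𝔸_K)`: `(γ, m) • g = γ g rᵐ`. -/
@[reducible] def tileAct128 (r : G K) : MulAction (GL (Fin 2) K × Multiplicative ℤ) (G K) where
  smul i g := ratG i.1 * g * r ^ (Multiplicative.toAdd i.2)
  one_smul g := by
    show ratG (1 : GL (Fin 2) K) * g * r ^ (Multiplicative.toAdd (1 : Multiplicative ℤ)) = g
    rw [map_one, one_mul, toAdd_one, zpow_zero, mul_one]
  mul_smul i j g := by
    show ratG (i.1 * j.1) * g * r ^ (Multiplicative.toAdd (i.2 * j.2))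
      = ratG i.1 * (ratG j.1 * g * r ^ (Multiplicative.toAdd j.2))
          * r ^ (Multiplicative.toAdd i.2)
    rw [map_mul, toAdd_mul, add_comm, zpow_add]
    simp only [mul_assoc]

theorem tileAct_smul128 (r : G K) (i : GL (Fin 2) K × Multiplicative ℤ) (g : G K) :
    (tileAct128 r).toSMul.smul i g = ratG i.1 * g * r ^ (Multiplicative.toAdd i.2) := rfl

/-- Right invariance under the powers of `r`. -/
theorem inv_zpow128 {Ψ : G K → ℂ} {r : G K} (h : ∀ g : G K, Ψ (g * r) = Ψ g) (m : ℤ) (g : G K) :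
    Ψ (g * r ^ m) = Ψ g := by
  have hn : ∀ (n : ℕ) (g : G K), Ψ (g * r ^ n) = Ψ g := by
    intro n
    induction n with
    | zero => intro g; rw [pow_zero, mul_one]
    | succ n ih => intro g; rw [pow_succ, ← mul_assoc, h, ih]
  have hneg : ∀ (n : ℕ) (g : G K), Ψ (g * (r ^ n)⁻¹) = Ψ g := by
    intro n g
    have := hn n (g * (r ^ n)⁻¹)
    rw [inv_mul_cancel_right] at this
    exact this.symm
  cases m with
  | ofNat n => simpa using hn n g
  | negSucc n => rw [zpow_negSucc]; exact hneg (n + 1) g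

/-- Every point has exactly one translate in the frame. -/
theorem existsUnique_tile128 (hN : T1.AdNormC K) {μ : Measure (G K)} {F : Set (G K)} {r : G K}
    (hF : IsFrame μ F) (hr : IsRayGen r) (x : G K) :
    ∃! i : GL (Fin 2) K × Multiplicative ℤ,
      ratG i.1 * x * r ^ (Multiplicative.toAdd i.2) ∈ F := by
  obtain ⟨m, hm⟩ := exists_zpow_mem_slab277 hN hr x
  obtain ⟨γ, hγ, hγu⟩ := hF.strict (x * r ^ m) hm
  refine ⟨(γ, Multiplicative.ofAdd m), ?_, ?_⟩
  · show ratG γ * x * r ^ m ∈ F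
    rw [mul_assoc]
    exact hγ
  · rintro ⟨γ', m'⟩ hi
    have hi' : ratG γ' * (x * r ^ (Multiplicative.toAdd m')) ∈ F := by
      rw [← mul_assoc]
      exact hi
    have hs' : x * r ^ (Multiplicative.toAdd m') ∈ slab K := by
      have h1 := hF.sub hi'
      rw [mem_slab_iff277, nd277_mul hN, nd277_ratG hN, one_mul] at h1
      exact (mem_slab_iff277 _).2 h1
    have hmm : Multiplicative.toAdd m' = m := by
      have e : (x * r ^ (Multiplicative.toAdd m')) * r ^ (-(Multiplicative.toAdd m'))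
          = (x * r ^ m) * r ^ (-m) := by
        rw [mul_assoc, mul_assoc, ← zpow_add, ← zpow_add, add_neg_cancel, add_neg_cancel]
      have := zpow_eq_of_mem_slab277 hN hr _ _ hs' hm e
      exact neg_injective this
    have hm' : m' = Multiplicative.ofAdd m := by
      rw [← hmm]
      rfl
    subst hm'
    have hγ' : γ' = γ := hγu γ' hi'
    subst hγ'
    rfl

variable (K)

/-- **T7.L2.1.P3.**  `H40.TranslInnerC K`. -/
theorem translInnerC128 : Fermat.Agent.LT.T7.H40.TranslInnerC K := by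
  intro μ F r hF hr Ψ _ _ hleft hright h
  have hN : T1.AdNormC K := Fermat.Agent.LT.T1.H309.adNormC309 K
  have hB : BorelSpace (G K) := borelSpaceG277
  have hH := hF.haar
  let act : MulAction (GL (Fin 2) K × Multiplicative ℤ) (G K) := tileAct128 r
  have hsmul : ∀ (i : GL (Fin 2) K × Multiplicative ℤ) (g : G K),
      i • g = ratG i.1 * g * r ^ (Multiplicative.toAdd i.2) := fun _ _ => rfl
  have hcount : Countable (GL (Fin 2) K × Multiplicative ℤ) := by
    have := countable_GL277 K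
    infer_instance
  -- the action is continuous, measurable and measure preserving
  have hcont : ∀ i : GL (Fin 2) K × Multiplicative ℤ, Continuous fun g : G K => i • g := by
    intro i
    simp only [hsmul]
    exact (continuous_const.mul continuous_id).mul continuous_const
  have hmeasSMul : MeasurableConstSMul (GL (Fin 2) K × Multiplicative ℤ) (G K) :=
    ⟨fun i => (hcont i).measurable⟩
  have hinv : SMulInvariantMeasure (GL (Fin 2) K × Multiplicative ℤ) (G K) μ := by
    refine ⟨fun i A hA => ?_⟩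
    have e : (fun g : G K => i • g) ⁻¹' A
        = (fun g : G K => ratG i.1 * g) ⁻¹'
            ((fun g : G K => g * r ^ (Multiplicative.toAdd i.2)) ⁻¹' A) := by
      ext g
      simp only [Set.mem_preimage, hsmul]
    rw [e]
    have hA' : MeasurableSet ((fun g : G K => g * r ^ (Multiplicative.toAdd i.2)) ⁻¹' A) :=
      (continuous_mul_const _).measurable hA
    rw [measure_preimage_mul μ (ratG i.1)]
    exact hF.right_inv _ A hA
  -- `F` is a fundamental domain
  have hFD : IsFundamentalDomain (GL (Fin 2) K × Multiplicative ℤ) F μ :=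
    IsFundamentalDomain.mk' hF.meas.nullMeasurableSet
      (fun x => existsUnique_tile128 hN hF hr x)
  -- the right translate of `F`
  have hmp : MeasurePreserving (fun x : G K => x * h) μ μ := by
    have hm : Measurable (fun x : G K => x * h) := (continuous_mul_const _).measurable
    refine ⟨hm, ?_⟩
    ext A hA
    rw [Measure.map_apply hm hA]
    exact hF.right_inv _ A hA
  have hemb : MeasurableEmbedding (fun x : G K => x * h) :=
    (Homeomorph.mulRight h).measurableEmbedding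
  have hFh : IsFundamentalDomain (GL (Fin 2) K × Multiplicative ℤ)
      ((fun x : G K => x * h) '' F) μ := by
    refine IsFundamentalDomain.mk' (hemb.measurableSet_image.2 hF.meas).nullMeasurableSet ?_
    intro x
    obtain ⟨i, hi, hiu⟩ := existsUnique_tile128 hN hF hr (x * h⁻¹)
    have key : ∀ j : GL (Fin 2) K × Multiplicative ℤ,
        j • x ∈ (fun x : G K => x * h) '' F
          ↔ ratG j.1 * (x * h⁻¹) * r ^ (Multiplicative.toAdd j.2) ∈ F := by
      intro j
      have e : ratG j.1 * (x * h⁻¹) * r ^ (Multiplicative.toAdd j.2)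
          = (j • x) * h⁻¹ := by
        rw [hsmul]
        have hc := ray_zpow_comm277 hr h⁻¹ (Multiplicative.toAdd j.2)
        calc ratG j.1 * (x * h⁻¹) * r ^ (Multiplicative.toAdd j.2)
            = ratG j.1 * x * (h⁻¹ * r ^ (Multiplicative.toAdd j.2)) := by
              simp only [mul_assoc]
          _ = ratG j.1 * x * (r ^ (Multiplicative.toAdd j.2) * h⁻¹) := by rw [hc]
          _ = ratG j.1 * x * r ^ (Multiplicative.toAdd j.2) * h⁻¹ := by
              simp only [mul_assoc]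
      rw [e]
      constructor
      · rintro ⟨y, hy, hyx⟩
        have : y = (j • x) * h⁻¹ := by
          rw [← hyx]
          simp
        rw [← this]
        exact hy
      · intro hy
        exact ⟨(j • x) * h⁻¹, hy, by simp⟩
    exact ⟨i, (key i).2 hi, fun j hj => hiu j ((key j).1 hj)⟩
  -- invariance of `Ψ`
  have hΨ : ∀ (i : GL (Fin 2) K × Multiplicative ℤ) (x : G K), Ψ (i • x) = Ψ x := by
    intro i x
    rw [hsmul, inv_zpow128 hright, hleft]
  calc ∫ x in F, Ψ (x * h) ∂μ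
      = ∫ y in (fun x : G K => x * h) '' F, Ψ y ∂μ :=
        (hmp.setIntegral_image_emb hemb Ψ F).symm
    _ = ∫ x in F, Ψ x ∂μ := hFh.setIntegral_eq hFD hΨ

end Fermat.Agent.LT.T7.H128

end
end
-- ===== PACK-END LT/T7/H128/TranslInner.lean

-- ===== PACK-BEGIN LT/T7/H962/SupplyQSpec.lean
section




/-!
# Row LT, tower T7, node T7.L2Q.1 `SupplyQC` (quadratic step `F = ℚ(√-3)` over `ℚ`):
# FIRST CUT -- Spec (helper962, ASSIST for the owner of the node; mirror of helper893)

OFF-MAIN.  Definitions and frozen Props only (the proved top is `SupplyQTop.lean`).  No hole,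
nothing assumed.  ADDITIVE (new names only, all suffixed `962`).  Vocabulary:
`T7/H826/Level2Q.lean` (helper826@4ba4a298a, sha256 3acaa310), `T7/H893/SupplySpec.lean`
(helper893@6b752a76a.., first cut of the cyclic node), byte-identical copies.

    supplyQC_of962 : SetupQC962 F → H893.ProjC F → ProjQC962 w0 → ProjQC962 w1 → FamQC962 P F
                       → L2Q.SupplyQC P F
    projQC_w0_of962 : H893.ProjC ℚ → ProjQC962 w0          (the trivial type is the cyclic leaf)

## The cut (the same as the first cut of `SupplyC`)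

`L2Q.SupplyQC P F` asks for ONE datum `Dt : L2QData F` with the fields of `IsL2QData`.  The datum
has a COMMON part (`σ`, frames, base level `𝔑₀`, `S'`, `S`, the split prime `u` and its orbit) and
a part which depends on the bad element `g` (level `𝔫 g`, scalar `c g`, family `φ' g` upstairs,
the TWO families `f w0 g`, `f w1 g` downstairs, depth `m₀ g`); every field of `IsL2QData` is
either about the common part or about ONE bad `g`.

* **`SetupQC962 F`** (leaf; mirror of `H893.SetupC`): the common part exists, `L2QBase962` with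
  `IsL2QBase962`.  As in the cyclic case the structure carries the level-independent hypotheses
  of `IsCompData` (`cyc` with `l = 2`, `base`, the frames, `aut` for every level coming from `ℚ`)
  and the facts needed by the construction of the families (`base_level`, `orbit_all`,
  `fibre`).  `u` = a prime of `ℚ` which SPLITS in `F`, prime to the level and to the exceptional
  set of `ConstOnFibresQ`; `o 0`, `o 1` = the two places over `u`.
* **`ProjQC962 n`** (leaf, ONE field, over `ℚ`, per type): the orthogonal projection of a cusp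
  function of type `n` on the invariant ones `L2Q.IsWFnQ n`.  For `n = w0` this IS the cyclic leaf
  `H893.ProjC ℚ` (`projQC_w0_of962`, proved in the top file); for `n = w1` the same averaging
  (finite group `U(𝔫₀) I_u / U(𝔫)`, compact torus of positive scalars) for the type `wtOne`:
  the averages are over elements which commute with `K_∞ = SO(2)` (finite adeles, centre).
  Upstairs (`F`, trivial type) the projection is `H893.ProjC F` itself.
* **`FamQC962 P F`** (NODE): for a common part and ONE bad `g` the part depending on `g` exists,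
  `L2QFam962` with `IsL2QFam962` = the fields of `IsL2QData` at `g` except the projections.
  Its second cut is the mirror of the second cut of `H893.FamC`, with T3 over `ℚ` (station
  T3.18R: Eisenstein-killing test functions of the types `w0`, `w1`) and `T6.ArchMatchC`.

The top assembles `Dt` with the axiom of choice over the bad `g` (junk at the other `g`).
-/

set_option autoImplicit false

open AutomorphicForm IsDedekindDomain NumberField MeasureTheory
open scoped ComplexConjugate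

noncomputable section

namespace Fermat.Agent.LT.T7.H962

open Fermat.Agent.LT.H556 Fermat.Agent.LT.H556.A0 Fermat.Agent.LT.T7 Fermat.Agent.LT.T7.L2Q
  Fermat.Agent.LT.T7.H893

attribute [local instance] Fermat.Agent.LT.T5.instMeasurableSpaceG

/-! ## 1. The common part -/

section Base

variable (F : Type) [Field F] [NumberField F]

/-- The COMMON part of an `L2QData`. -/
structure L2QBase962 where
  /-- the conjugation of `F` with its extension to the adeles -/
  s : T5.AdelicAut F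
  /-- the image of `ℚ` in `F` -/
  k : Subfield F
  /-- the frame downstairs -/
  R : Frame5 ℚ
  /-- the frame upstairs -/
  R' : Frame5 F
  /-- the base level upstairs -/
  𝔑₀ : Ideal (𝓞 F)
  /-- the places of `F` dividing the base level -/
  S' : Finset (HeightOneSpectrum (𝓞 F))
  /-- the primes of `ℚ` under `S'` -/
  S : Finset ℕ
  /-- the regular place of `ℚ` -/
  u : HeightOneSpectrum (𝓞 ℚ)
  /-- the `σ`-orbit over `u` -/
  o : ℕ → HeightOneSpectrum (𝓞 F)

/-- The part of an `L2QData` which depends on the bad element (for ONE bad element). -/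
structure L2QFam962 where
  /-- the level downstairs -/
  𝔫 : Ideal (𝓞 ℚ)
  /-- the scalar of the Eisenstein-killing base on the eigen-classes -/
  c : EigData F → ℂ
  /-- the family upstairs -/
  φ' : List (Gen F) → ℤ → ℕ → G F → ℂ
  /-- the two families downstairs (trivial type, weight one) -/
  f : QWt → List (Gen F) → ℤ → ℕ → G ℚ → ℂ
  /-- the regular depth -/
  m₀ : List (Gen F) → ℕ

variable {F}

/-- `g` is supported at the bad places (`L2QData.IsBad` for the common part). -/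
def L2QBase962.IsBad (B : L2QBase962 F) (g : G F) : Prop :=
  (∀ w : InfinitePlace F, TrivAtInf w g) ∧
    ∀ v : HeightOneSpectrum (𝓞 F), (v ∉ B.S' ∨ ∃ j < 2, v = B.o j) → TrivAtFin v g

/-- The data of the comparison for the level `𝔫` downstairs (`L2QData.comp`). -/
def L2QBase962.comp (B : L2QBase962 F) (𝔫 : Ideal (𝓞 ℚ)) : CompData ℚ F where
  l := 2
  s := B.s
  k := B.k
  𝔫 := 𝔫
  𝔑 := upI (K' := F) 𝔫
  R := B.R
  R' := B.R'

/-- The `L2QData` with common part `B` and `g`-part `Fm g`. -/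
def L2QBase962.toData (B : L2QBase962 F) (Fm : G F → L2QFam962 F) : L2QData F where
  s := B.s
  k := B.k
  R := B.R
  R' := B.R'
  𝔑₀ := B.𝔑₀
  S' := B.S'
  S := B.S
  u := B.u
  o := B.o
  𝔫 := fun g => (Fm g).𝔫
  c := fun g => (Fm g).c
  φ' := fun g => (Fm g).φ'
  f := fun n g => (Fm g).f n
  m₀ := fun g => (Fm g).m₀

/-- The sum of the two members downstairs (`L2QData.fsum` for one `g`-part). -/
def L2QFam962.fsum (Fm : L2QFam962 F) (X : List (Gen F)) (k : ℤ) (m : ℕ) : G ℚ → ℂ :=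
  fun x => Fm.f QWt.w0 X k m x + Fm.f QWt.w1 X k m x

/-- **THE PROPERTIES OF THE COMMON PART** (quadratic step). -/
structure IsL2QBase962 (Φ : HeckeEigensystem F ℂ) (B : L2QBase962 F) : Prop where
  /-- `σ` generates a group of order `2` with fixed field `k` -/
  cyc : T5.IsCyclicOfDegree B.s 2 B.k
  /-- `k` is the image of `ℚ` -/
  base : ∀ x : F, x ∈ B.k ↔ ∃ y : ℚ, algebraMap ℚ F y = x
  frame : IsFrame5 B.R
  frame' : IsFrame5 B.R'
  /-- `σ` preserves the frame upstairs, for every level which comes from `ℚ` -/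
  aut : ∀ 𝔫 : Ideal (𝓞 ℚ), T5.AutPreserves B.s (upI (K' := F) 𝔫) B.R'.μ B.R'.r
  level_le : B.𝔑₀ ≤ Φ.level
  mem_S' : ∀ w : HeightOneSpectrum (𝓞 F), w ∈ B.S' ↔ w.asIdeal ∣ B.𝔑₀
  /-- the primes under `S'` lie in `S` -/
  under : ∀ p : ℕ, p.Prime → ∀ w : HeightOneSpectrum (𝓞 F), ((p : ℕ) : 𝓞 F) ∈ w.asIdeal →
    w ∈ B.S' → p ∈ B.S
  const : ∀ p : ℕ, p.Prime → p ∉ B.S →
    ∀ w w' : HeightOneSpectrum (𝓞 F), ((p : ℕ) : 𝓞 F) ∈ w.asIdeal →
      ((p : ℕ) : 𝓞 F) ∈ w'.asIdeal → Φ.a w = Φ.a w' ∧ Φ.b w = Φ.b w'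
  orbit_rel : ∀ j : ℕ, T5.PlaceRel B.s (B.o j) (B.o (j + 1))
  orbit_ne : ∀ j : ℕ, 0 < j → j < 2 → B.o j ≠ B.o 0
  orbit_over : ∀ j : ℕ, PlaceOver ℚ F B.u (B.o j)
  orbit_level : ∀ j : ℕ, B.o j ∈ B.S'
  orbit_good : ∀ j : ℕ, ¬ (B.o j).asIdeal ∣ Φ.level
  /-- the base level comes from `ℚ`, and `u` divides it exactly once -/
  base_level : ∃ 𝔫₀ : Ideal (𝓞 ℚ), 𝔫₀ ≠ ⊥ ∧ B.𝔑₀ = upI (K' := F) 𝔫₀ ∧
    B.u.asIdeal ∣ 𝔫₀ ∧ ¬ B.u.asIdeal ^ 2 ∣ 𝔫₀
  /-- the orbit is the set of all places over `u` -/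
  orbit_all : ∀ w : HeightOneSpectrum (𝓞 F), PlaceOver ℚ F B.u w → ∃ j < 2, w = B.o j
  /-- `S'` is a union of fibres -/
  fibre : ∀ (v : HeightOneSpectrum (𝓞 ℚ)) (w w' : HeightOneSpectrum (𝓞 F)),
    PlaceOver ℚ F v w → PlaceOver ℚ F v w' → w ∈ B.S' → w' ∈ B.S'

/-! ## 2. The part depending on the bad element -/

/-- **THE PROPERTIES OF THE `g`-PART** (the fields of `IsL2QData` at the bad element `g`, except
the orthogonal projections; `level_ne` is the field of `IsCompData`). -/
structure IsL2QFam962 (Φ : HeckeEigensystem F ℂ) (B : L2QBase962 F) (g : G F)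
    (Fm : L2QFam962 F) : Prop where
  level_ne : Fm.𝔫 ≠ ⊥
  level_g : upI (K' := F) Fm.𝔫 ≤ B.𝔑₀
  mem_S'_g : ∀ w : HeightOneSpectrum (𝓞 F), w ∈ B.S' ↔ w.asIdeal ∣ upI (K' := F) Fm.𝔫
  u_level : B.u.asIdeal ∣ Fm.𝔫
  ekprod_up : ∀ (X : List (Gen F)) (k : ℤ) (m : ℕ), (∀ x ∈ X, x.Out B.S') →
    IsEKProd (upI (K' := F) Fm.𝔫) B.R' (Fm.φ' X k m)
  ekprod_down : ∀ (n : QWt) (X : List (Gen F)) (k : ℤ) (m : ℕ), (∀ x ∈ X, x.Out B.S') →
    IsEKProdT n.type Fm.𝔫 B.R (Fm.f n X k m)
  reg_up : ∀ (X : List (Gen F)) (k : ℤ) (m : ℕ), (∀ x ∈ X, x.Out B.S') → Fm.m₀ X ≤ m →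
    T5.IsTwRegular B.s 2 B.k (Fm.φ' X k m)
  reg_down : ∀ (n : QWt) (X : List (Gen F)) (k : ℤ) (m : ℕ), (∀ x ∈ X, x.Out B.S') →
    Fm.m₀ X ≤ m → T5.IsTwRegular (T5.AdelicAut.id ℚ) 1 ⊤ (Fm.f n X k m)
  matched : ∀ (X : List (Gen F)) (k : ℤ) (m : ℕ), (∀ x ∈ X, x.Out B.S') → Fm.m₀ X ≤ m →
    IsGlobMatch (B.comp Fm.𝔫) (Fm.φ' X k m) (Fm.fsum X k m)
  base_ne : ∀ C : EigData F, C.AgreeOut B.S' (eigOf Φ) → Fm.c C ≠ 0
  op_up : ∀ (X : List (Gen F)) (k : ℤ) (m : ℕ), (∀ x ∈ X, x.Out B.S') →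
    ∀ (ψ : G F → ℂ) (C : EigData F), IsEigFn B.𝔑₀ B.R'.r 2 B.o ψ C →
    ∀ (Hg H : Finset (G F)) (z : G F), IsDblCosetSystem B.𝔑₀ g Hg →
      IsIwCosetSystem (B.o 0) H → IsScalarUniformizerAt (B.o 0) z →
      ∀ x : G F, T5.Rconv B.R'.μ (Fm.φ' X k m) ψ x
        = wordEv X C * Fm.c C * cosetOp Hg (shiftOp z k ((iwOp (B.o 0) H)^[m] ψ)) x
  kill_up : ∀ (X : List (Gen F)) (k : ℤ) (m : ℕ), (∀ x ∈ X, x.Out B.S') →
    ∀ ψ : G F → ℂ, T5.IsCuspFn (upI (K' := F) Fm.𝔫) T5.trivType B.R'.r ψ →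
      (∀ χ : G F → ℂ, IsWFn B.𝔑₀ B.R'.r 2 B.o χ →
        T5.innerD B.R'.μ B.R'.F ψ χ = 0) →
      ∀ x : G F, T5.Rconv B.R'.μ (Fm.φ' X k m) ψ x = 0
  op_down : ∀ (n : QWt) (X : List (Gen F)) (k : ℤ) (m : ℕ), (∀ x ∈ X, x.Out B.S') →
    ∀ (ψ : G ℚ → ℂ) (c : EigData ℚ) (C : EigData F),
      IsEigFnQ n Fm.𝔫 B.R.r B.u ψ c → IsBCDataQ n c C B.S →
    ∀ (H : Finset (G ℚ)) (z : G ℚ), IsIwCosetSystem B.u H → IsScalarUniformizerAt B.u z →
      ∀ x : G ℚ, T5.Rconv B.R.μ (Fm.f n X k m) ψ x
        = wordEv X C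
          * T5.Rconv B.R.μ (Fm.f n [] 0 0) (shiftOp z k ((iwOp B.u H)^[m] ψ)) x
  class_down : ∀ (n : QWt) (ψ : G ℚ → ℂ) (c : EigData ℚ),
    IsEigFnQ n Fm.𝔫 B.R.r B.u ψ c →
    IsEigFnQ n Fm.𝔫 B.R.r B.u (T5.Rconv B.R.μ (Fm.f n [] 0 0) ψ) c
  comm_down : ∀ (n : QWt) (ψ : G ℚ → ℂ), IsWFnQ n Fm.𝔫 B.R.r B.u ψ →
    ∀ (H : Finset (G ℚ)) (z : G ℚ), IsIwCosetSystem B.u H → IsScalarUniformizerAt B.u z →
      (∀ x : G ℚ, T5.Rconv B.R.μ (Fm.f n [] 0 0) (iwOp B.u H ψ) x
        = iwOp B.u H (T5.Rconv B.R.μ (Fm.f n [] 0 0) ψ) x) ∧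
      ∀ (k : ℤ) (x : G ℚ), T5.Rconv B.R.μ (Fm.f n [] 0 0) (shiftOp z k ψ) x
        = shiftOp z k (T5.Rconv B.R.μ (Fm.f n [] 0 0) ψ) x
  kill_down : ∀ (n : QWt) (X : List (Gen F)) (k : ℤ) (m : ℕ), (∀ x ∈ X, x.Out B.S') →
    ∀ ψ : G ℚ → ℂ, T5.IsCuspFn Fm.𝔫 n.type B.R.r ψ →
      (∀ χ : G ℚ → ℂ, IsWFnQ n Fm.𝔫 B.R.r B.u χ →
        T5.innerD B.R.μ B.R.F ψ χ = 0) →
      ∀ x : G ℚ, T5.Rconv B.R.μ (Fm.f n X k m) ψ x = 0

end Base

/-! ## 3. The leaves of the first cut -/

section Leaves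

/-- **LEAF T7.L2Q.1.C3a = PROJ over `ℚ`, type `n`** (orthogonal projection on the invariant cusp
functions of type `n`; ONE field).  For a frame of `ℚ`, a base level `𝔫₀`, a level `𝔫 ⊆ 𝔫₀`,
`𝔫 ≠ 0`, and a place `u` dividing `𝔫₀`: every cusp function `ψ` of level `𝔫` and type `n` has an
orthogonal projection `ψ₁` on the invariant cusp functions `L2Q.IsWFnQ n 𝔫₀ r u`.
Proof.  As `H893.ProjC` (averages over the finite group `U(𝔫₀) I_u / U(𝔫)` and over the compact
torus `A_∞ / ⟨r⟩ Λ`); the elements over which one averages are finite adeles or central, so they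
commute with `K_∞` and the averages preserve the type `n`.  Over `ℚ` the torus is `ℝ_{>0} / ⟨r⟩`
(the units are `± 1`).  For `n = w0` the statement is `H893.ProjC ℚ` (`projQC_w0_of962`). -/
def ProjQC962 (n : QWt) : Prop :=
  ∀ R : Frame5 ℚ, IsFrame5 R →
    ∀ 𝔫₀ 𝔫 : Ideal (𝓞 ℚ), 𝔫 ≠ ⊥ → 𝔫 ≤ 𝔫₀ →
    ∀ u : HeightOneSpectrum (𝓞 ℚ), u.asIdeal ∣ 𝔫₀ →
    ∀ ψ : G ℚ → ℂ, T5.IsCuspFn 𝔫 n.type R.r ψ →
      ∃ ψ₁ : G ℚ → ℂ, IsWFnQ n 𝔫₀ R.r u ψ₁ ∧
        ∀ χ : G ℚ → ℂ, IsWFnQ n 𝔫₀ R.r u χ →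
          T5.innerD R.μ R.F (fun x => ψ x - ψ₁ x) χ = 0

variable (P : EKCond)
variable (F : Type) [Field F] [NumberField F]

/-- **LEAF T7.L2Q.1.C0 = SETUP over `ℚ`** (algebraic number theory + adapters of T1; mirror of
`H893.SetupC`).  The common part exists.
Proof.  `σ` = the conjugation of `F` (`F/ℚ` is Galois of degree `2`), extended to the adeles;
`k` = the image of `ℚ`; frames of `ℚ` and of `F` (T1); `u` = a prime of `ℚ` which splits in `F`
(`u ≡ 1 mod 3`: Dirichlet, or Chebotarev for the trivial class), prime to `Φ.level` and to the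
exceptional set of `ConstOnFibresQ`; `o 0`, `o 1` = the two places over `u`, `o (j + 2) = o j`;
`𝔫₀ = u · (Φ.level ∩ ℤ) · ∏ (the exceptional primes)`, `𝔑₀ = 𝔫₀ 𝒪_F`, `S'` = the prime divisors
of `𝔑₀`, `S` = the primes under `S'`. -/
def SetupQC962 : Prop :=
  HasSqrtNegThree F → IsImagQuad F →
    ∀ Φ : HeckeEigensystem F ℂ, A0.IsCuspAdelicSph0 F Φ → ConstOnFibresQ Φ →
      ∃ B : L2QBase962 F, IsL2QBase962 Φ B

/-- **NODE T7.L2Q.1.F = FAMILIES over `ℚ`**: for a common part and ONE bad element `g` the part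
depending on `g` exists.  See `IsL2QFam962`, the header of `T7/H826/Level2Q.lean` (changes
downstairs) and of `T7/Level2.lean` (SUPPLY).  Second cut = mirror of the second cut of
`H893.FamC`. -/
def FamQC962 : Prop :=
  HasSqrtNegThree F → IsImagQuad F →
    ∀ Φ : HeckeEigensystem F ℂ, A0.IsCuspAdelicSph0 F Φ → ConstOnFibresQ Φ → P F Φ →
      ∀ B : L2QBase962 F, IsL2QBase962 Φ B → ∀ g : G F, B.IsBad g →
        ∃ Fm : L2QFam962 F, IsL2QFam962 Φ B g Fm

end Leaves

end Fermat.Agent.LT.T7.H962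

end

end
-- ===== PACK-END LT/T7/H962/SupplyQSpec.lean

-- ===== PACK-BEGIN LT/T7/H563/TorusMean.lean
section



/-!
# Row LT, tower T7, node T7.L2.1, leaf PROJ.8 = TORUS-MEAN (registry row 2145)

Seat helper563, OFF-MAIN.  `torusMeanC563 : H193.TorusMeanC`, the frozen Prop of
`LT/T7/H193/ProjSpec.lean` (helper193@812840e55, sha256 977a85e322a5d9c9) VERBATIM, unconditional.
Proof: `TorusMeanCore.lean` (Mathlib only).
-/

set_option autoImplicit false

namespace Fermat.Agent.LT.T7.H563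

/-- **LEAF PROJ.8 = TORUS-MEAN**, the frozen Prop `H193.TorusMeanC`. -/
theorem torusMeanC563 : Fermat.Agent.LT.T7.H193.TorusMeanC :=
  fun ι _ b => torusMean_core563 ι b

end Fermat.Agent.LT.T7.H563

end
-- ===== PACK-END LT/T7/H563/TorusMean.lean

-- ===== PACK-BEGIN LT/T7/H865/TorAvgW.lean
section



/-!
# Row LT, tower T7, node T7.L2.1 `SupplyC`, sub-station PROJ (cut of helper193):
# LEAF PROJ.10 = T7.L2.1.P12 `TorAvgWC`, VERBATIM (helper865, registry row 2147)

OFF-MAIN.  Against `LT/T7/H193/ProjSpec.lean` (helper193@812840e55, sha256 977a85e3),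
byte-identical copy.  Imports: Mathlib + the spec closure only.  Nothing assumed, no hole.

    torAvgWC865 K : H193.TorAvgWC K

The archimedean mean `torAvg a D ψ` of a cusp function `ψ` of level `𝔑₀` which is
Iwahori-invariant along the orbit is an invariant cusp function (`T7.IsWFn`):
* continuity: dominated convergence (`GL₂(𝔸_K)` is second countable, `T1.LocCompC`);
* invariances: `a t` is central;
* positive scalars at `w`: `z = a (Pi.single w (log ρ))` (an element of `GL₂(𝔸_K)` is determined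
  by its components) and the field `mean` of `IsTorusData`;
* cuspidality: Fubini on `D' × D`, `D'` of finite measure (`T1.AddFundDomC`).
-/

set_option autoImplicit false
set_option linter.unusedSectionVars false
set_option linter.style.haveILetI false

open IsDedekindDomain NumberField MeasureTheory
open scoped ComplexConjugate

noncomputable section

namespace Fermat.Agent.LT.T7.H865

open Fermat.Agent.LT.H556 Fermat.Agent.LT.H556.A0 Fermat.Agent.LT Fermat.Agent.LT.T7
open Fermat.Agent.LT.T7.H193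

attribute [local instance] Fermat.Agent.LT.T5.instMeasurableSpaceG

variable {K : Type} [Field K] [NumberField K]

/-! ## 1. An element of `GL₂(𝔸_K)` is determined by its components -/

/-- An adele is determined by its components. -/
theorem adele_ext865 {x y : Adl K}
    (hinf : ∀ w : InfinitePlace K, InfinitePlace.Completion.extensionEmbedding w (x.1 w)
      = InfinitePlace.Completion.extensionEmbedding w (y.1 w))
    (hfin : ∀ v : HeightOneSpectrum (𝓞 K), x.2 v = y.2 v) : x = y := by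
  refine Prod.ext ?_ ?_
  · funext w
    exact (InfinitePlace.Completion.extensionEmbedding w).injective (hinf w)
  · exact Subtype.ext (funext hfin)

/-- An element of `GL₂(𝔸_K)` is determined by its components. -/
theorem g_ext865 {g h : G K} (hinf : ∀ w : InfinitePlace K, infComp w g = infComp w h)
    (hfin : ∀ v : HeightOneSpectrum (𝓞 K), finComp v g = finComp v h) : g = h := by
  apply Units.ext
  ext i j
  refine adele_ext865 (fun w => ?_) (fun v => ?_)
  · exact congrFun (congrFun (hinf w) i) j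
  · exact congrFun (congrFun (hfin v) i) j

/-- The components at infinity of an element which is trivial at `w`. -/
theorem infComp_of_triv865 {w : InfinitePlace K} {g : G K} (h : TrivAtInf w g) :
    infComp w g = 1 := by
  ext i j
  show InfinitePlace.Completion.extensionEmbedding w
    (((g : Matrix (Fin 2) (Fin 2) (Adl K)) i j).1 w) = _
  rw [h i j]
  by_cases hij : i = j
  · subst hij
    simp
  · simp [Matrix.one_apply_ne hij]

/-- A positive scalar at `w` is a value of the homomorphism `a`. -/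
theorem posScalar_eq865 {𝔑₀ : Ideal (𝓞 K)} {r : G K} {a : (InfinitePlace K → ℝ) → G K}
    {D : Set (InfinitePlace K → ℝ)} (hD : IsTorusData 𝔑₀ r a D) {w : InfinitePlace K} {z : G K}
    (hz : IsArchPosScalar w z) : ∃ s : InfinitePlace K → ℝ, z = a s := by
  classical
  obtain ⟨hloc, ρ, hρ, hzw⟩ := hz
  refine ⟨Pi.single w (Real.log ρ), g_ext865 (fun w' => ?_) (fun v => ?_)⟩
  · rw [hD.inf]
    by_cases hw : w' = w
    · subst hw
      rw [Pi.single_eq_same, Real.exp_log hρ]
      exact hzw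
    · rw [Pi.single_eq_of_ne hw, Real.exp_zero, infComp_of_triv865 (hloc.1 w' hw)]
      ext i j
      by_cases hij : i = j
      · subst hij
        simp
      · simp [Matrix.one_apply_ne hij, Matrix.diagonal_apply_ne _ hij]
  · have h1 : finComp v z = 1 := hloc.2 v
    have h2 : finComp v (a (Pi.single w (Real.log ρ))) = 1 := hD.fin _ v
    rw [h1, h2]

/-! ## 2. The constant term -/

/-- The matrix of the inverse of `n(x)`. -/
theorem unip_inv_val865 (n : Adl K → G K)
    (hn : ∀ x : Adl K, (n x : Matrix (Fin 2) (Fin 2) (Adl K)) = !![1, x; 0, 1]) (x : Adl K) :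
    (((n x)⁻¹ : G K) : Matrix (Fin 2) (Fin 2) (Adl K)) = !![1, -x; 0, 1] := by
  have h : ((n x : G K) : Matrix (Fin 2) (Fin 2) (Adl K)) * !![1, -x; 0, 1] = 1 := by
    rw [hn x]
    ext i j
    fin_cases i <;> fin_cases j <;> simp [Matrix.mul_apply, Fin.sum_univ_two]
  exact Units.inv_eq_of_mul_eq_one_right h

/-- The unipotent map is continuous. -/
theorem continuous_unip865 (n : Adl K → G K)
    (hn : ∀ x : Adl K, (n x : Matrix (Fin 2) (Fin 2) (Adl K)) = !![1, x; 0, 1]) :
    Continuous n := by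
  rw [Units.continuous_iff]
  constructor
  · have : (fun x => ((n x : G K) : Matrix (Fin 2) (Fin 2) (Adl K)))
        = fun x => !![1, x; 0, 1] := funext hn
    show Continuous (fun x => ((n x : G K) : Matrix (Fin 2) (Fin 2) (Adl K)))
    rw [this]
    refine continuous_matrix (fun i j => ?_)
    fin_cases i <;> fin_cases j <;> simp <;> fun_prop
  · have : (fun x => (((n x)⁻¹ : G K) : Matrix (Fin 2) (Fin 2) (Adl K)))
        = fun x => !![1, -x; 0, 1] := funext (unip_inv_val865 n hn)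
    show Continuous (fun x => (((n x)⁻¹ : G K) : Matrix (Fin 2) (Fin 2) (Adl K)))
    rw [this]
    refine continuous_matrix (fun i j => ?_)
    fin_cases i <;> fin_cases j <;> simp <;> fun_prop

/-- `K` is countable. -/
theorem countable_princ865 : Countable (T1.princ K) := by
  haveI : Countable K :=
    (Module.finBasis ℚ K).equivFun.injective.countable
  unfold T1.princ
  exact (Set.countable_range _).to_subtype

/-- Every fundamental domain of `K` in `𝔸_K` has finite measure. -/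
theorem measure_fundDom_lt_top865 (hFD : T1.AddFundDomC K) :
    letI : MeasurableSpace (Adl K) := borel (Adl K)
    ∀ μ : Measure (Adl K), μ.IsAddHaarMeasure → ∀ D : Set (Adl K),
      IsAddFundamentalDomain ((algebraMap K (Adl K)).toAddMonoidHom.range) D μ → μ D < ⊤ := by
  letI : MeasurableSpace (Adl K) := borel (Adl K)
  haveI : BorelSpace (Adl K) := ⟨rfl⟩
  intro μ hμ D hD
  haveI := hμ
  haveI : Countable (T1.princ K) := countable_princ865
  obtain ⟨D₀, -, hD₀, -, -, hfin⟩ := hFD μ hμ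
  have hD' : IsAddFundamentalDomain (T1.princ K) D μ := hD
  rw [hD'.measure_eq hD₀]
  exact hfin

/-! ## 3. The leaf -/

section Leaf

variable {𝔑₀ : Ideal (𝓞 K)} {r : G K} {a : (InfinitePlace K → ℝ) → G K}
  {D : Set (InfinitePlace K → ℝ)}

theorem volume_lt_top865 (hD : IsTorusData 𝔑₀ r a D) : volume D < ⊤ :=
  hD.bdd.measure_lt_top

theorem torAvg_congr865 {ψ : G K → ℂ} {g g' : G K}
    (h : ∀ t : InfinitePlace K → ℝ, ψ (g * a t) = ψ (g' * a t)) :
    torAvg a D ψ g = torAvg a D ψ g' := by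
  unfold torAvg
  congr 1
  exact integral_congr_ae (Filter.Eventually.of_forall fun t => h t)

/-- Right translation by `h` commutes with `a t`. -/
theorem mul_comm_a865 (hD : IsTorusData 𝔑₀ r a D) (g h : G K) (t : InfinitePlace K → ℝ) :
    g * h * a t = g * a t * h := by
  rw [mul_assoc, ← hD.central t h, ← mul_assoc]

theorem torAvg_bdd865 (hD : IsTorusData 𝔑₀ r a D) {ψ : G K → ℂ}
    (hb : ∃ C : ℝ, ∀ g : G K, ‖ψ g‖ ≤ C) : ∃ C : ℝ, ∀ g : G K, ‖torAvg a D ψ g‖ ≤ C := by
  obtain ⟨C, hC⟩ := hb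
  refine ⟨‖(((volume D).toReal : ℝ) : ℂ)⁻¹‖ * (C * (volume D).toReal), fun g => ?_⟩
  unfold torAvg
  rw [norm_mul]
  refine mul_le_mul_of_nonneg_left ?_ (norm_nonneg _)
  have h := norm_setIntegral_le_of_norm_le_const (μ := volume) (s := D) (C := C)
    (f := fun t => ψ (g * a t)) (volume_lt_top865 hD) (fun t _ => hC _)
  simpa [Measure.real] using h

theorem torAvg_continuous865 (hsc : SecondCountableTopology (G K))
    (hD : IsTorusData 𝔑₀ r a D) {ψ : G K → ℂ} (hc : Continuous ψ)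
    (hb : ∃ C : ℝ, ∀ g : G K, ‖ψ g‖ ≤ C) : Continuous (torAvg a D ψ) := by
  obtain ⟨C, hC⟩ := hb
  haveI : IsFiniteMeasure (volume.restrict D) :=
    isFiniteMeasure_restrict.2 (volume_lt_top865 hD).ne
  unfold torAvg
  refine continuous_const.mul ?_
  refine continuous_of_dominated (bound := fun _ => C) (fun g => ?_) (fun g => ?_)
    (integrable_const C) ?_
  · exact (hc.comp (continuous_const.mul hD.cont)).aestronglyMeasurable
  · exact Filter.Eventually.of_forall fun t => hC _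
  · exact Filter.Eventually.of_forall fun t => hc.comp (continuous_id.mul continuous_const)

theorem torAvg_cuspidal865 (hT1 : T1.T1Out K) (hD : IsTorusData 𝔑₀ r a D) {ψ : G K → ℂ}
    (hc : Continuous ψ) (hb : ∃ C : ℝ, ∀ g : G K, ‖ψ g‖ ≤ C) (hcusp : IsCuspidalFn ψ) :
    IsCuspidalFn (torAvg a D ψ) := by
  letI : MeasurableSpace (Adl K) := borel (Adl K)
  haveI : BorelSpace (Adl K) := ⟨rfl⟩
  intro μ hμ D' hD' n hn g
  obtain ⟨C, hC⟩ := hb
  haveI : IsFiniteMeasure (μ.restrict D') :=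
    isFiniteMeasure_restrict.2 (measure_fundDom_lt_top865 hT1.addFundDom μ hμ D' hD').ne
  haveI : IsFiniteMeasure (volume.restrict D) :=
    isFiniteMeasure_restrict.2 (volume_lt_top865 hD).ne
  have hcn : Continuous n := continuous_unip865 n hn
  have hcont : Continuous (Function.uncurry fun (x : Adl K) (t : InfinitePlace K → ℝ) =>
      ψ (n x * g * a t)) := by
    refine hc.comp ?_
    exact ((hcn.comp continuous_fst).mul continuous_const).mul (hD.cont.comp continuous_snd)
  have hint : Integrable (Function.uncurry fun (x : Adl K) (t : InfinitePlace K → ℝ) =>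
      ψ (n x * g * a t)) ((μ.restrict D').prod (volume.restrict D)) :=
    Integrable.of_bound hcont.aestronglyMeasurable C (Filter.Eventually.of_forall fun p => hC _)
  have hswap := integral_integral_swap hint
  have e1 : ∫ x in D', torAvg a D ψ (n x * g) ∂μ
      = (((volume D).toReal : ℝ) : ℂ)⁻¹ * ∫ x in D', (∫ t in D, ψ (n x * g * a t)) ∂μ := by
    unfold torAvg
    rw [integral_const_mul]
  have e2 : ∫ t in D, (∫ x in D', ψ (n x * g * a t) ∂μ) = 0 := by
    have : ∀ t : InfinitePlace K → ℝ, ∫ x in D', ψ (n x * g * a t) ∂μ = 0 := by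
      intro t
      have := hcusp μ hμ D' hD' n hn (g * a t)
      simpa [mul_assoc] using this
    simp [this]
  rw [e1, hswap, e2, mul_zero]

/-- **LEAF PROJ.10 = T7.L2.1.P12 `TorAvgWC`**, VERBATIM. -/
theorem torAvgWC865 (K : Type) [Field K] [NumberField K] : TorAvgWC K := by
  intro hT1 𝔑₀ r a D hr hD l o ψ hψ hiw
  have hsc : SecondCountableTopology (G K) := hT1.locComp.2.2.2
  refine ⟨⟨torAvg_continuous865 hsc hD hψ.cont hψ.bdd, torAvg_bdd865 hD hψ.bdd, ⟨?_, ?_, ?_, ?_⟩,
    torAvg_cuspidal865 hT1 hD hψ.cont hψ.bdd hψ.cuspidal⟩, ?_, ?_⟩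
  · -- left invariance
    intro γ g
    refine torAvg_congr865 fun t => ?_
    rw [mul_assoc]
    exact hψ.aut.left_inv γ (g * a t)
  · -- level
    intro u hu g
    refine torAvg_congr865 fun t => ?_
    rw [mul_comm_a865 hD]
    exact hψ.aut.level_inv u hu (g * a t)
  · -- compact groups at infinity
    intro w k hk g
    have h1 : torAvg a D ψ (g * k) = torAvg a D ψ g := by
      refine torAvg_congr865 fun t => ?_
      rw [mul_comm_a865 hD, hψ.aut.arch_compact w k hk (g * a t)]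
      simp [T5.trivType]
    rw [h1]
    simp [T5.trivType]
  · -- ray
    intro g
    refine torAvg_congr865 fun t => ?_
    rw [mul_comm_a865 hD]
    exact hψ.aut.ray (g * a t)
  · -- positive scalars at one infinite place
    intro w z hz g
    obtain ⟨s, rfl⟩ := posScalar_eq865 hD hz
    unfold torAvg
    congr 1
    have h := hD.mean ψ hψ.aut hψ.cont g s
    rw [← h]
    refine integral_congr_ae (Filter.Eventually.of_forall fun t => ?_)
    show ψ (g * a s * a t) = ψ (g * a (t + s))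
    rw [add_comm, hD.mul, mul_assoc]
  · -- Iwahori along the orbit
    intro h h1 h2 h3 x
    refine torAvg_congr865 fun t => ?_
    rw [mul_comm_a865 hD]
    exact hiw h h1 h2 h3 (x * a t)

end Leaf

end Fermat.Agent.LT.T7.H865

end

end
-- ===== PACK-END LT/T7/H865/TorAvgW.lean

-- ===== PACK-BEGIN LT/T7/H736/ExpUp.lean
section


/-!
# Row LT, tower T7, node T7.L2.2.E `ExpUpC` (sub-architect helper736): THE CUT (level 4), v0.1

OFF-MAIN.  Definitions, frozen Props, PROVED top.  No hole, nothing assumed.  ADDITIVE.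

    expUpC_of : StfUpC K K' → UpBasisC K K' → ExpUpC K K'

## Why BLOCKS (difference with the cut of `SpecDownC`, helper534)

Downstairs the operators `B, Z, 𝒰` commute, a Schur basis makes all of them triangular and the
diagonal coefficient of `B Z^k 𝒰^m` at EVERY member of the basis is `x b^k l^m`.  Upstairs the
operator is `T Z^k 𝒰^m` with `T = [U g U] R(σ)`, and `R(σ)` does not commute with `Z = Z_{o 0}`,
`𝒰 = 𝒰_{o 0}` (it moves them along the orbit).  Only the TRACE over a class has the form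
`∑ t_i b_i^k l_i^m` (TW-ATOMS: helper355 row 2066, helper161 row 2051, helper822), not the single
diagonal coefficients.  So the adapted sequence carries a partition of its `W₀`-part into FINITE
BLOCKS (the classes) and the identity is stated block by block, for ALL `k ∈ ℤ`, `m ∈ ℕ`
(no regularity: it is linear algebra).  The top regroups the two absolutely summable series.

## The node `UpBasisC` (cut of level 5: `UpBasis.lean`)

`IsUpBasis`: a complete orthonormal sequence `e'` of cusp functions of level `𝔑_g`, a set `I` of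
indices (the `W₀`-part), finite blocks `blk i ⊆ I`, atoms `(C j, y j, b j, l j)`, and the finite
set `J ⊆ I` of the class of `Φ`, with
* `zero_out` : for `i ∉ I` the diagonal coefficient of every member of the family vanishes
  (`R(σ)` preserves `W₀^⊥` by `BaseStable`; `kill_up`);
* `block` : `∑_{j ∈ blk i} ⟨R(φ' g X k m) R(σ) e'_j, e'_j⟩ = ∑_{j ∈ blk i} X(C_j) y_j b_j^k l_j^m`;
* `summ` : `∑ ‖y_j‖ < ∞` (`|y_j| ≤ |⟨R(φ' g [] 0 0) R(σ) q_j, q_j⟩|` in the TW-ATOMS basis;
  `T5.STFsigma`);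
* `cls…` : the class of `Φ` is the block `J`, `(e' j)_{j ∈ J}` is an orthonormal basis of the
  class space at the base level, and `∑_{j ∈ J} y_j = c_g(Φ) tr([U g U] R(σ) | V_Φ)`.
-/

set_option autoImplicit false

open AutomorphicForm IsDedekindDomain NumberField MeasureTheory
open scoped ComplexConjugate

noncomputable section

namespace Fermat.Agent.LT.T7.SU736

open Fermat.Agent.LT.H556 Fermat.Agent.LT.H556.A0 Fermat.Agent.LT.T7

attribute [local instance] Fermat.Agent.LT.T5.instMeasurableSpaceG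

/-! ## 1. The adapted sequence with blocks -/

section Defs

variable {K K' : Type} [Field K] [NumberField K] [Field K'] [NumberField K'] [Algebra K K']

/-- **THE ADAPTED SEQUENCE WITH BLOCKS** for the bad element `g`.  See the header. -/
structure IsUpBasis (Dt : L2Data K K') (ℓ : ℕ) (Φ : HeckeEigensystem K' ℂ) (g : G K')
    (e' : ℕ → G K' → ℂ) (I : Set ℕ) (blk : ℕ → Finset ℕ) (C : ℕ → EigData K')
    (b l y : ℕ → ℂ) (R : ℝ) (J : Finset ℕ) : Prop where
  onb : T5.IsCuspONB (Dt.𝔑 g) T5.trivType Dt.R'.r Dt.R'.μ Dt.R'.F e'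
  zero_out : ∀ i, i ∉ I → ∀ (X : List (Gen K')) (k : ℤ) (m : ℕ), (∀ x ∈ X, x.Out Dt.S') →
    T5.diagCoeff Dt.s Dt.R'.μ Dt.R'.F (Dt.φ' g X k m) (e' i) = 0
  y_out : ∀ i, i ∉ I → y i = 0
  mem_blk : ∀ i, i ∈ I → i ∈ blk i
  blk_sub : ∀ i, i ∈ I → ∀ j ∈ blk i, j ∈ I ∧ blk j = blk i
  block : ∀ i, i ∈ I → ∀ (X : List (Gen K')) (k : ℤ) (m : ℕ), (∀ x ∈ X, x.Out Dt.S') →
    ∑ j ∈ blk i, T5.diagCoeff Dt.s Dt.R'.μ Dt.R'.F (Dt.φ' g X k m) (e' j)
      = ∑ j ∈ blk i, wordEv X (C j) * y j * b j ^ k * l j ^ m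
  summ : Summable fun j => ‖y j‖
  unit : ∀ j, (C j).IsUnitaryOut Dt.S'
  reg : ∀ j, IsRegParam R (b j) (l j)
  cls_mem : ∀ j, (C j).AgreeOut Dt.S' (eigOf Φ) → y j ≠ 0 → j ∈ J
  cls_agree : ∀ j ∈ J, (C j).AgreeOut Dt.S' (eigOf Φ)
  cls_basis : IsClassBasisOn Dt.𝔑₀ Dt.R' ℓ Dt.o (eigOf Φ) e' J
  cls_trace : ∀ Hg : Finset (G K'), IsDblCosetSystem Dt.𝔑₀ g Hg →
    ∑ j ∈ J, y j = Dt.c g (eigOf Φ) * twTrace Dt.s Dt.R' Hg e' J

end Defs

section Leaves

variable (K K' : Type) [Field K] [NumberField K] [Field K'] [NumberField K'] [Algebra K K']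

/-- **E.1 (tower T5, closed).**  The twisted trace identity of T5 for the data of the
comparison: only its first conclusion (summability of the diagonal coefficients) is used. -/
def StfUpC : Prop :=
  ∀ D : CompData K K', IsCompData D → T5.STFsigma D.s D.𝔑 T5.trivType

/-- **E.2 = NODE UP-BASIS.**  The adapted sequence with blocks exists for every bad `g`. -/
def UpBasisC : Prop :=
  ∀ ℓ : ℕ, IsCycExt K K' ℓ → ℓ ≠ 2 → TotCplx K →
    ∀ Φ : HeckeEigensystem K' ℂ, A0.IsCuspAdelicSph0 K' Φ → ConstOnFibres K Φ →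
      ∀ Dt : L2Data K K', IsL2Data ℓ Φ Dt → BaseStable Dt → ∀ g : G K', Dt.IsBad g →
        ∃ (e' : ℕ → G K' → ℂ) (I : Set ℕ) (blk : ℕ → Finset ℕ) (C : ℕ → EigData K')
          (b l y : ℕ → ℂ) (R : ℝ) (J : Finset ℕ), IsUpBasis Dt ℓ Φ g e' I blk C b l y R J

end Leaves

/-! ## 2. Regrouping by finite blocks (Mathlib only) -/

section BlockSum

/-- Two absolutely summable series which vanish outside `I` and have the same sums over the
finite blocks of a partition of `I` have the same sum. -/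
theorem tsum_eq_of_blocks736 (f f' : ℕ → ℂ) (hf : Summable fun i => ‖f i‖)
    (hf' : Summable fun i => ‖f' i‖) (I : Set ℕ) (blk : ℕ → Finset ℕ)
    (hmem : ∀ i, i ∈ I → i ∈ blk i)
    (hsub : ∀ i, i ∈ I → ∀ j ∈ blk i, j ∈ I ∧ blk j = blk i)
    (hout : ∀ i, i ∉ I → f i = 0 ∧ f' i = 0)
    (hblk : ∀ i, i ∈ I → ∑ j ∈ blk i, f j = ∑ j ∈ blk i, f' j) :
    ∑' i, f i = ∑' i, f' i := by
  classical
  -- the difference
  set h : ℕ → ℂ := fun i => f i - f' i with hh
  have hsum : Summable h := (hf.of_norm).sub (hf'.of_norm)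
  suffices h0 : ∑' i, h i = 0 by
    have := (hf.of_norm).tsum_sub (hf'.of_norm)
    rw [show (fun i => f i - f' i) = h from rfl, h0] at this
    exact (sub_eq_zero.1 this.symm)
  -- the blocks, singletons outside `I`
  set B : ℕ → Finset ℕ := fun i => if i ∈ I then blk i else {i} with hB
  have hBmem : ∀ i, i ∈ B i := by
    intro i
    by_cases hi : i ∈ I
    · simp only [hB, if_pos hi]
      exact hmem i hi
    · simp only [hB, if_neg hi]
      exact Finset.mem_singleton_self i
  have hBeq : ∀ i, ∀ x ∈ B i, B x = B i := by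
    intro i x hx
    by_cases hi : i ∈ I
    · simp only [hB, if_pos hi] at hx ⊢
      obtain ⟨hxI, hxb⟩ := hsub i hi x hx
      rw [if_pos hxI, hxb]
    · simp only [hB, if_neg hi] at hx ⊢
      rw [Finset.mem_singleton] at hx
      subst hx
      rw [if_neg hi]
  have hBsum : ∀ i, ∑ x ∈ B i, h x = 0 := by
    intro i
    by_cases hi : i ∈ I
    · simp only [hB, if_pos hi, hh]
      rw [Finset.sum_sub_distrib, hblk i hi, sub_self]
    · simp only [hB, if_neg hi, hh, Finset.sum_singleton]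
      rw [(hout i hi).1, (hout i hi).2, sub_zero]
  -- the exhausting sequence of unions of blocks
  set S : ℕ → Finset ℕ := fun n => ((Finset.range n).image B).biUnion id with hS
  have hSsum : ∀ n, ∑ x ∈ S n, h x = 0 := by
    intro n
    rw [hS, Finset.sum_biUnion]
    · refine Finset.sum_eq_zero fun T hT => ?_
      rw [Finset.mem_image] at hT
      obtain ⟨i, -, rfl⟩ := hT
      exact hBsum i
    · intro T hT T' hT' hne
      rw [Finset.mem_coe, Finset.mem_image] at hT hT'
      obtain ⟨i, -, rfl⟩ := hT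
      obtain ⟨j, -, rfl⟩ := hT'
      show Disjoint (id (B i)) (id (B j))
      rw [id, id, Finset.disjoint_left]
      intro x hxi hxj
      exact hne ((hBeq i x hxi).symm.trans (hBeq j x hxj))
  have hSge : ∀ n, Finset.range n ⊆ S n := by
    intro n i hi
    rw [hS, Finset.mem_biUnion]
    exact ⟨B i, Finset.mem_image_of_mem B hi, hBmem i⟩
  have htend : Filter.Tendsto S Filter.atTop Filter.atTop := by
    rw [Filter.tendsto_atTop]
    intro s
    obtain ⟨n, hn⟩ := s.exists_nat_subset_range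
    rw [Filter.eventually_atTop]
    refine ⟨n, fun m hm => ?_⟩
    exact (hn.trans (Finset.range_mono hm)).trans (hSge m)
  have hlim := (hsum.hasSum.comp htend)
  have hconst : (fun s : Finset ℕ => ∑ b ∈ s, h b) ∘ S = fun _ => (0 : ℂ) := by
    funext n
    exact hSsum n
  rw [hconst] at hlim
  exact (tendsto_nhds_unique hlim tendsto_const_nhds)

end BlockSum

/-! ## 3. The top -/

section Top

variable {K K' : Type} [Field K] [NumberField K] [Field K'] [NumberField K'] [Algebra K K']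

/-- The atoms are absolutely summable. -/
theorem summable_atoms736 {S : Finset (HeightOneSpectrum (𝓞 K'))} (C : ℕ → EigData K')
    (b l y : ℕ → ℂ) (R : ℝ) (hy : Summable fun j => ‖y j‖) (hU : ∀ j, (C j).IsUnitaryOut S)
    (hp : ∀ j, IsRegParam R (b j) (l j)) (X : List (Gen K')) (hX : ∀ x ∈ X, x.Out S) (k : ℤ)
    (m : ℕ) : Summable fun j => ‖wordEv X (C j) * y j * b j ^ k * l j ^ m‖ := by
  refine Summable.of_nonneg_of_le (fun j => norm_nonneg _) (fun j => ?_)
    ((hy.mul_left (wordBd X)).mul_right (R ^ m))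
  have h1 : ‖wordEv X (C j)‖ ≤ wordBd X := norm_wordEv_le (hU j) X hX
  have h2 : ‖b j ^ k‖ = 1 := by rw [norm_zpow, (hp j).1, one_zpow]
  have h3 : ‖l j ^ m‖ ≤ R ^ m := by
    rw [norm_pow]
    exact pow_le_pow_left₀ (norm_nonneg _) (hp j).2.1 m
  have hR : 0 ≤ R ^ m := le_trans (norm_nonneg _) h3
  rw [norm_mul, norm_mul, norm_mul, h2, mul_one]
  exact mul_le_mul (mul_le_mul_of_nonneg_right h1 (norm_nonneg _)) h3 (norm_nonneg _)
    (mul_nonneg (wordBd_nonneg X) (norm_nonneg _))

/-- **THE TOP OF THE NODE `ExpUpC`.** -/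
theorem expUpC_of (hStf : StfUpC K K') (hB : UpBasisC K K') : ExpUpC K K' := by
  classical
  intro ℓ hcyc hℓ hcplx Φ hΦ hconst Dt hDt hst g hg
  obtain ⟨e', I, blk, C, b, l, y, R, J, h⟩ := hB ℓ hcyc hℓ hcplx Φ hΦ hconst Dt hDt hst g hg
  refine ⟨e', C, b, l, R, y, J, h.onb, h.summ, h.unit, h.reg, ?_, h.cls_mem, h.cls_agree,
    h.cls_basis, h.cls_trace⟩
  intro X hX k m _
  have hcomp : IsCompData (Dt.comp g) := hDt.comp g hg
  -- summability of the diagonal coefficients
  have hs1 : Summable fun i =>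
      ‖T5.diagCoeff Dt.s Dt.R'.μ Dt.R'.F (Dt.φ' g X k m) (e' i)‖ := by
    obtain ⟨-, φ₁, φ₂, t₁, t₂, k₁, k₁', k₂, k₂', hconv⟩ := hDt.ekprod_up g X k m hg hX
    rw [hconv]
    exact ((hStf (Dt.comp g) hcomp Dt.R'.μ Dt.R'.F Dt.R'.r hcomp.frame'.frame
      hcomp.frame'.ray hcomp.aut e' h.onb φ₁ φ₂ t₁ t₂ k₁ k₁' k₂ k₂').1).norm
  have hs2 := summable_atoms736 C b l y R h.summ h.unit h.reg X hX k m
  show (∑' i, T5.diagCoeff Dt.s Dt.R'.μ Dt.R'.F (Dt.φ' g X k m) (e' i))
    = ∑' j, wordEv X (C j) * y j * b j ^ k * l j ^ m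
  refine tsum_eq_of_blocks736 _ _ hs1 hs2 I blk h.mem_blk h.blk_sub (fun i hi => ⟨?_, ?_⟩)
    (fun i hi => h.block i hi X k m hX)
  · exact h.zero_out i hi X k m hX
  · rw [h.y_out i hi, mul_zero, zero_mul, zero_mul]

end Top

/-! ## Appendix (v0.1, additive): the equation lemmas of the definitions are realised HERE

Same device as the appendix of `T7/Comparison.lean` v0.1 (helper797): the equation lemmas of a
definition are generated in the module which first unfolds it; citing them here generates them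
once, upstream of every user.  No statement of this file is changed. -/

theorem eqns_realised_expUp736 : True := by
  have _a1 := @StfUpC.eq_1
  have _a2 := @StfUpC.eq_def
  have _a3 := @StfUpC.eq_unfold
  have _b1 := @UpBasisC.eq_1
  have _b2 := @UpBasisC.eq_def
  have _b3 := @UpBasisC.eq_unfold
  trivial

end Fermat.Agent.LT.T7.SU736

end

end
-- ===== PACK-END LT/T7/H736/ExpUp.lean

-- ===== PACK-BEGIN LT/T7/H149/TorHaar.lean
section




/-!
# Row LT, tower T7, leaf T7.L2.1.C2.5a `TorHaarC305` (registry 2364) -- helper149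

OFF-MAIN.  `torHaarC149 K : H305.TorHaarC305 K`, VERBATIM vs `LT/T7/H305/MatchSpec.lean`
(helper305@61757801e, sha256 541c6ac7), UNCONDITIONAL.

The twisted centraliser `T_𝔸(δ) = {x : x⁻¹ δ σ(x) = δ}` is the equaliser of two continuous maps
into the Hausdorff space `GL₂(𝔸_K)`, hence a closed subgroup of the locally compact group
`GL₂(𝔸_K)` (`T1.LocCompC`, closed by helper11: `locCompC_h11`), hence locally compact, and it
carries the Haar measure of Mathlib for its Borel σ-algebra.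
-/

set_option autoImplicit false
set_option linter.style.haveILetI false

open IsDedekindDomain NumberField MeasureTheory

noncomputable section

namespace Fermat.Agent.LT.T7.H149

open Fermat.Agent.LT.H556 Fermat.Agent.LT.H556.A0 Fermat.Agent.LT.T7

/-- The twisted centraliser of `δ` for a continuous endomorphism `s` of a Hausdorff topological
group is closed. -/
theorem isClosed_twCentSub149 {Γ : Type} [Group Γ] [TopologicalSpace Γ] [IsTopologicalGroup Γ]
    [T2Space Γ] (s : Γ →* Γ) (hs : Continuous s) (δ : Γ) :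
    IsClosed (Fermat.Agent.LT.T6.twCentSub s δ : Set Γ) := by
  have h : (Fermat.Agent.LT.T6.twCentSub s δ : Set Γ) = {x | x⁻¹ * δ * s x = δ} := rfl
  rw [h]
  exact isClosed_eq ((continuous_inv.mul continuous_const).mul hs) continuous_const

/-- A closed subgroup of a locally compact group has a Haar measure for its Borel
σ-algebra. -/
theorem exists_haar_of_isClosed149 {Γ : Type} [Group Γ] [TopologicalSpace Γ]
    [IsTopologicalGroup Γ] [LocallyCompactSpace Γ] (H : Subgroup Γ) (hH : IsClosed (H : Set Γ)) :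
    ∃ μ : @Measure H (borel _), @Measure.IsHaarMeasure _ _ _ (borel _) μ := by
  letI : MeasurableSpace H := borel H
  haveI : BorelSpace H := ⟨rfl⟩
  haveI : LocallyCompactSpace H := hH.isClosedEmbedding_subtypeVal.locallyCompactSpace
  exact ⟨Measure.haar, inferInstance⟩

/-- The automorphism of `GL₂(𝔸_K)` induced by an adelic automorphism is continuous. -/
theorem continuous_onG149 {K : Type} [Field K] [NumberField K] (s : T5.AdelicAut K) :
    Continuous (s.onG : G K → G K) := by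
  have h : Continuous ((RingHom.mapMatrix (s.σA : Adl K →+* Adl K)).toMonoidHom :
      Matrix (Fin 2) (Fin 2) (Adl K) →* Matrix (Fin 2) (Fin 2) (Adl K)) := by
    show Continuous fun M : Matrix (Fin 2) (Fin 2) (Adl K) => M.map (s.σA : Adl K →+* Adl K)
    exact Continuous.matrix_map continuous_id s.continuous_σA
  exact Continuous.units_map _ h

/-- **LEAF T7.L2.1.C2.5a = TOR-HAAR**, VERBATIM. -/
theorem torHaarC149 (K : Type) [Field K] [NumberField K] : H305.TorHaarC305 K := by
  intro s δ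
  obtain ⟨-, hlc, ht2, -⟩ := Fermat.Agent.LT.T1.H11.locCompC_h11 K
  haveI : LocallyCompactSpace (G K) := hlc
  haveI : T2Space (G K) := ht2
  exact exists_haar_of_isClosed149 (H305.tA305 s δ)
    (isClosed_twCentSub149 s.onG (continuous_onG149 s) (T5.ratG δ))

end Fermat.Agent.LT.T7.H149

end

end
-- ===== PACK-END LT/T7/H149/TorHaar.lean

-- ===== PACK-BEGIN LT/T7/H558/SigmaLoc.lean
section




/-!
# Row LT, tower T7, asset leaf T7.L2.1.C2.0 `SigmaLocC305` (helper558): PROVED

OFF-MAIN.  No hole, nothing assumed.  ADDITIVE (new names only, suffix `558`).  v2 (16:40Z):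
collision hygiene, the module declares no constant outside `Fermat.Agent.LT.T7.H558`.

    sigmaLocC558 : H305.SigmaLocC305 K

Spec: `T7/H305/MatchSpec.lean` (helper305, sha256 541c6ac7fb6d040e), byte-identical copy.
Input: the asset AUT-UNIQUE of helper415 (`LT/H415/{AutAbs, AutPlaces, AutSep, AutUnique,
AutVal}.lean`, byte-identical copies of origin/helper17 = origin/helper415):
`finLocal415`, `infLocal415` (the local homomorphisms of a continuous injective
`σ`-semilinear ring endomorphism of the adele ring), `fin_transport415`, `inf_transport415`,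
`valued_local415`.

Proof.
* Finite places: `sw` = the local homomorphism of `σ_𝔸` at `(w, w')`, its inverse = the local
  homomorphism of `σ_𝔸⁻¹` at `(w', w)` (the two compositions are the identity by transport,
  applied to the adele `sec z` with `w`-component `z`).
* Infinite places: `w₀ = w.comap σ`, `σ w₀ = w`, `(σ_𝔸 a)_w = ψ (a_{w₀})` with `ψ` continuous,
  `ψ = σ` on `K`; the two continuous maps `ext_w ∘ ψ` and `ext_{w₀}` (resp. its conjugate) agree
  on the dense subfield `K` because `w.embedding ∘ σ` and `w₀.embedding` define the same place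
  (`InfinitePlace.mk_eq_iff`).
-/

set_option autoImplicit false

open IsDedekindDomain NumberField Filter Topology
open scoped ComplexConjugate

noncomputable section

namespace Fermat.Agent.LT.T7.H558

open Fermat.Agent.LT.H556 Fermat.Agent.LT.H556.A0 Fermat.Agent.LT

variable {K : Type} [Field K] [NumberField K]

/-- The ring homomorphism of `σ_𝔸`. -/
abbrev tauOf558 (s : T5.AdelicAut K) : AdeleRing (𝓞 K) K →+* AdeleRing (𝓞 K) K :=
  (s.σA : Adl K →+* Adl K)

/-- The ring homomorphism of `σ_𝔸⁻¹`. -/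
abbrev tauInv558 (s : T5.AdelicAut K) : AdeleRing (𝓞 K) K →+* AdeleRing (𝓞 K) K :=
  (s.σA.symm : Adl K →+* Adl K)

theorem tauOf_compat558 (s : T5.AdelicAut K) (x : K) :
    tauOf558 s (algebraMap K (AdeleRing (𝓞 K) K) x)
      = algebraMap K (AdeleRing (𝓞 K) K) (s.σ x) := s.compat x

theorem tauInv_compat558 (s : T5.AdelicAut K) (x : K) :
    tauInv558 s (algebraMap K (AdeleRing (𝓞 K) K) x)
      = algebraMap K (AdeleRing (𝓞 K) K) (s.σ.symm x) := by
  change s.σA.symm _ = _
  rw [RingEquiv.symm_apply_eq, s.compat, RingEquiv.apply_symm_apply]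

theorem continuous_tauOf558 (s : T5.AdelicAut K) : Continuous (tauOf558 s) := s.continuous_σA

theorem continuous_tauInv558 (s : T5.AdelicAut K) : Continuous (tauInv558 s) :=
  s.continuous_symm

theorem injective_tauOf558 (s : T5.AdelicAut K) : Function.Injective (tauOf558 s) :=
  s.σA.injective

theorem injective_tauInv558 (s : T5.AdelicAut K) : Function.Injective (tauInv558 s) :=
  s.σA.symm.injective

/-! ## Finite places -/

theorem sigmaLoc_fin558 (s : T5.AdelicAut K) (w w' : HeightOneSpectrum (𝓞 K))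
    (h : T5.PlaceRel s w w') :
    ∃ sw : w.adicCompletion K ≃+* w'.adicCompletion K,
      (∀ x : K, sw (algebraMap K (w.adicCompletion K) x)
          = algebraMap K (w'.adicCompletion K) (s.σ x)) ∧
      (∀ x : w.adicCompletion K, Valued.v (sw x) = Valued.v x) ∧
      ∀ a : Adl K, T5.finHom w' (s.σA a) = sw (T5.finHom w a) := by
  have hv : H415.FinRel K s.σ w w' := h
  have hv' : H415.FinRel K s.σ.symm w' w := H415.finRel_symm415 s.σ w w' hv
  have t1 : ∀ a : AdeleRing (𝓞 K) K, (s.σA a).2 w'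
      = H415.finLocal415 s.σ (tauOf558 s) (continuous_tauOf558 s) (tauOf_compat558 s)
          (injective_tauOf558 s) w w' hv (a.2 w) := fun a =>
    H415.fin_transport415 s.σ (tauOf558 s) (continuous_tauOf558 s) (tauOf_compat558 s)
      (injective_tauOf558 s) w w' hv a
  have t2 : ∀ a : AdeleRing (𝓞 K) K, (s.σA.symm a).2 w
      = H415.finLocal415 s.σ.symm (tauInv558 s) (continuous_tauInv558 s) (tauInv_compat558 s)
          (injective_tauInv558 s) w' w hv' (a.2 w') := fun a =>
    H415.fin_transport415 s.σ.symm (tauInv558 s) (continuous_tauInv558 s) (tauInv_compat558 s)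
      (injective_tauInv558 s) w' w hv' a
  have l1 : ∀ z : w.adicCompletion K,
      H415.finLocal415 s.σ.symm (tauInv558 s) (continuous_tauInv558 s) (tauInv_compat558 s)
          (injective_tauInv558 s) w' w hv'
        (H415.finLocal415 s.σ (tauOf558 s) (continuous_tauOf558 s) (tauOf_compat558 s)
          (injective_tauOf558 s) w w' hv z) = z := by
    intro z
    have hz : ((H415.finPlace K w).sec z).2 w = z := (H415.finPlace K w).pr_sec z
    rw [← hz, ← t1, ← t2, RingEquiv.symm_apply_apply]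
  have l2 : ∀ z : w'.adicCompletion K,
      H415.finLocal415 s.σ (tauOf558 s) (continuous_tauOf558 s) (tauOf_compat558 s)
          (injective_tauOf558 s) w w' hv
        (H415.finLocal415 s.σ.symm (tauInv558 s) (continuous_tauInv558 s) (tauInv_compat558 s)
          (injective_tauInv558 s) w' w hv' z) = z := by
    intro z
    have hz : ((H415.finPlace K w').sec z).2 w' = z := (H415.finPlace K w').pr_sec z
    rw [← hz, ← t2, ← t1, RingEquiv.apply_symm_apply]
  refine ⟨RingEquiv.ofRingHom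
    (H415.finLocal415 s.σ (tauOf558 s) (continuous_tauOf558 s) (tauOf_compat558 s)
      (injective_tauOf558 s) w w' hv)
    (H415.finLocal415 s.σ.symm (tauInv558 s) (continuous_tauInv558 s) (tauInv_compat558 s)
      (injective_tauInv558 s) w' w hv') (RingHom.ext l2) (RingHom.ext l1), ?_, ?_, ?_⟩
  · intro x
    exact H415.finLocal415_coe s.σ (tauOf558 s) (continuous_tauOf558 s) (tauOf_compat558 s)
      (injective_tauOf558 s) w w' hv x
  · intro x
    exact H415.valued_local415 s.σ w w' hv _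
      (H415.continuous_finLocal415 s.σ (tauOf558 s) (continuous_tauOf558 s) (tauOf_compat558 s)
        (injective_tauOf558 s) w w' hv)
      (H415.finLocal415_coe s.σ (tauOf558 s) (continuous_tauOf558 s) (tauOf_compat558 s)
        (injective_tauOf558 s) w w' hv) x
  · intro a
    exact t1 a

/-! ## Infinite places -/

theorem infImage_comap558 (σ : K ≃+* K) (w : InfinitePlace K) :
    H415.infImage K σ (w.comap (σ : K →+* K)) = w := by
  refine InfinitePlace.ext _ _ fun x => ?_
  have h1 := H415.infImage_apply σ (w.comap (σ : K →+* K)) (σ.symm x)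
  rw [RingEquiv.apply_symm_apply] at h1
  rw [h1, InfinitePlace.comap_apply]
  simp

theorem ext_coe558 (w : InfinitePlace K) (x : K) :
    InfinitePlace.Completion.extensionEmbedding w
        ((algebraMap K (AdeleRing (𝓞 K) K) x).1 w) = w.embedding x := by
  have := InfinitePlace.Completion.extensionEmbedding_coe (v := w) ((WithAbs.equiv w.1).symm x)
  simpa using this

theorem embedding_comap558 (σ : K ≃+* K) (w₀ : InfinitePlace K) :
    ((H415.infImage K σ w₀).embedding.comp (σ : K →+* K) = w₀.embedding) ∨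
      (ComplexEmbedding.conjugate ((H415.infImage K σ w₀).embedding.comp (σ : K →+* K))
        = w₀.embedding) := by
  have h : InfinitePlace.mk ((H415.infImage K σ w₀).embedding.comp (σ : K →+* K))
      = InfinitePlace.mk w₀.embedding := by
    rw [InfinitePlace.mk_embedding, ← InfinitePlace.comap_mk, InfinitePlace.mk_embedding]
    refine InfinitePlace.ext _ _ fun x => ?_
    rw [InfinitePlace.comap_apply]
    exact H415.infImage_apply σ w₀ x
  exact InfinitePlace.mk_eq_iff.1 h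

/-- Two continuous maps which agree on the dense subfield `K`: direct case. -/
theorem ext_comp_eq558 (σ : K ≃+* K) (w₀ w₁ : InfinitePlace K)
    (ψ : w₀.Completion →+* w₁.Completion) (hψc : Continuous ψ)
    (hcoe : ∀ x : K, ψ ((algebraMap K (AdeleRing (𝓞 K) K) x).1 w₀)
      = (algebraMap K (AdeleRing (𝓞 K) K) (σ x)).1 w₁)
    (he : w₁.embedding.comp (σ : K →+* K) = w₀.embedding) (z : w₀.Completion) :
    InfinitePlace.Completion.extensionEmbedding w₁ (ψ z)
      = InfinitePlace.Completion.extensionEmbedding w₀ z := by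
  have hd : DenseRange (fun x : K => (algebraMap K (AdeleRing (𝓞 K) K) x).1 w₀) :=
    H415.denseRange_inf415 w₀
  have hc1 : Continuous (fun z : w₀.Completion =>
      InfinitePlace.Completion.extensionEmbedding w₁ (ψ z)) :=
    (InfinitePlace.Completion.isometry_extensionEmbedding w₁).continuous.comp hψc
  have hc0 : Continuous (fun z : w₀.Completion =>
      InfinitePlace.Completion.extensionEmbedding w₀ z) :=
    (InfinitePlace.Completion.isometry_extensionEmbedding w₀).continuous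
  have key : (fun z : w₀.Completion => InfinitePlace.Completion.extensionEmbedding w₁ (ψ z))
      = fun z : w₀.Completion => InfinitePlace.Completion.extensionEmbedding w₀ z := by
    refine hd.equalizer hc1 hc0 ?_
    funext x
    change InfinitePlace.Completion.extensionEmbedding w₁
        (ψ ((algebraMap K (AdeleRing (𝓞 K) K) x).1 w₀))
      = InfinitePlace.Completion.extensionEmbedding w₀
        ((algebraMap K (AdeleRing (𝓞 K) K) x).1 w₀)
    rw [hcoe, ext_coe558, ext_coe558, ← he]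
    rfl
  exact congrFun key z

/-- Two continuous maps which agree on the dense subfield `K`: conjugate case. -/
theorem ext_comp_conj558 (σ : K ≃+* K) (w₀ w₁ : InfinitePlace K)
    (ψ : w₀.Completion →+* w₁.Completion) (hψc : Continuous ψ)
    (hcoe : ∀ x : K, ψ ((algebraMap K (AdeleRing (𝓞 K) K) x).1 w₀)
      = (algebraMap K (AdeleRing (𝓞 K) K) (σ x)).1 w₁)
    (he : ComplexEmbedding.conjugate (w₁.embedding.comp (σ : K →+* K)) = w₀.embedding)
    (z : w₀.Completion) :
    InfinitePlace.Completion.extensionEmbedding w₁ (ψ z)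
      = conj (InfinitePlace.Completion.extensionEmbedding w₀ z) := by
  have hd : DenseRange (fun x : K => (algebraMap K (AdeleRing (𝓞 K) K) x).1 w₀) :=
    H415.denseRange_inf415 w₀
  have hc1 : Continuous (fun z : w₀.Completion =>
      InfinitePlace.Completion.extensionEmbedding w₁ (ψ z)) :=
    (InfinitePlace.Completion.isometry_extensionEmbedding w₁).continuous.comp hψc
  have hc0 : Continuous (fun z : w₀.Completion =>
      conj (InfinitePlace.Completion.extensionEmbedding w₀ z)) :=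
    Complex.continuous_conj.comp
      (InfinitePlace.Completion.isometry_extensionEmbedding w₀).continuous
  have key : (fun z : w₀.Completion => InfinitePlace.Completion.extensionEmbedding w₁ (ψ z))
      = fun z : w₀.Completion =>
          conj (InfinitePlace.Completion.extensionEmbedding w₀ z) := by
    refine hd.equalizer hc1 hc0 ?_
    funext x
    change InfinitePlace.Completion.extensionEmbedding w₁
        (ψ ((algebraMap K (AdeleRing (𝓞 K) K) x).1 w₀))
      = conj (InfinitePlace.Completion.extensionEmbedding w₀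
        ((algebraMap K (AdeleRing (𝓞 K) K) x).1 w₀))
    rw [hcoe, ext_coe558, ext_coe558, ← he]
    change w₁.embedding (σ x) = conj (conj (w₁.embedding (σ x)))
    exact (Complex.conj_conj _).symm
  exact congrFun key z

theorem sigmaLoc_inf_core558 (s : T5.AdelicAut K) (w₀ : InfinitePlace K) :
    (∀ a : Adl K, T5.infHom (H415.infImage K s.σ w₀) (s.σA a) = T5.infHom w₀ a) ∨
      ∀ a : Adl K, T5.infHom (H415.infImage K s.σ w₀) (s.σA a) = conj (T5.infHom w₀ a) := by
  have hψc := H415.continuous_infLocal415 s.σ (tauOf558 s) (continuous_tauOf558 s)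
    (tauOf_compat558 s) (injective_tauOf558 s) w₀
  have t : ∀ a : AdeleRing (𝓞 K) K, (s.σA a).1 (H415.infImage K s.σ w₀)
      = H415.infLocal415 s.σ (tauOf558 s) (continuous_tauOf558 s) (tauOf_compat558 s)
          (injective_tauOf558 s) w₀ (a.1 w₀) := fun a =>
    H415.inf_transport415 s.σ (tauOf558 s) (continuous_tauOf558 s) (tauOf_compat558 s)
      (injective_tauOf558 s) w₀ a
  have hcoe : ∀ x : K,
      H415.infLocal415 s.σ (tauOf558 s) (continuous_tauOf558 s) (tauOf_compat558 s)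
          (injective_tauOf558 s) w₀ ((algebraMap K (AdeleRing (𝓞 K) K) x).1 w₀)
        = (algebraMap K (AdeleRing (𝓞 K) K) (s.σ x)).1 (H415.infImage K s.σ w₀) := fun x =>
    H415.infLocal415_coe s.σ (tauOf558 s) (continuous_tauOf558 s) (tauOf_compat558 s)
      (injective_tauOf558 s) w₀ x
  rcases embedding_comap558 s.σ w₀ with he | he
  · left
    intro a
    change InfinitePlace.Completion.extensionEmbedding (H415.infImage K s.σ w₀)
      ((s.σA a).1 (H415.infImage K s.σ w₀))
        = InfinitePlace.Completion.extensionEmbedding w₀ (a.1 w₀)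
    exact (congrArg _ (t a)).trans
      (ext_comp_eq558 s.σ w₀ (H415.infImage K s.σ w₀) _ hψc hcoe he (a.1 w₀))
  · right
    intro a
    change InfinitePlace.Completion.extensionEmbedding (H415.infImage K s.σ w₀)
      ((s.σA a).1 (H415.infImage K s.σ w₀))
        = conj (InfinitePlace.Completion.extensionEmbedding w₀ (a.1 w₀))
    exact (congrArg _ (t a)).trans
      (ext_comp_conj558 s.σ w₀ (H415.infImage K s.σ w₀) _ hψc hcoe he (a.1 w₀))

/-! ## The leaf -/

/-- **LEAF T7.L2.1.C2.0 = SIGMA-LOC, PROVED.** -/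
theorem sigmaLocC558 : H305.SigmaLocC305 K := by
  intro s
  refine ⟨fun w w' h => sigmaLoc_fin558 s w w' h, fun w => ?_⟩
  have h := sigmaLoc_inf_core558 s (w.comap (s.σ : K →+* K))
  rw [infImage_comap558] at h
  exact h

end Fermat.Agent.LT.T7.H558

end
end
-- ===== PACK-END LT/T7/H558/SigmaLoc.lean

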