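import Mathlib
import Fermat.Agent.Pack.LT2.E0L2
import Fermat.Agent.Pack.LT2.E2L1
import Fermat.Agent.Pack.LT2.E3L1
import Fermat.Agent.Pack.LT2.E16L2
import Fermat.Agent.Pack.LT3.E21L0
import Fermat.Agent.Pack.LT3.E21L2
import Fermat.Agent.Pack.LT2.E2L0
import Fermat.Agent.Pack.LT2.E6L2
import Fermat.Agent.Pack.LT3.E21L3
import Fermat.Agent.Pack.LT3.E8L2
import Fermat.Agent.Pack.LT2.E6L0
import Fermat.Agent.Pack.LT3.E7L3
import Fermat.Agent.Pack.LT2.E6L1
import Fermat.Agent.Pack.LT2.E0L3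
import Fermat.Agent.Pack.LT3.E21L1
import Fermat.Agent.Pack.LT3.E2L1

set_option linter.all false

-- ===== PACK-BEGIN LT/T7/H40/ArchProjSpec.lean
section







/-!
# Row LT, tower T7, node T7.L2.1 `SupplyC`, part (C3) = PROJ, leaf `ArchProjC` -- SUB-SPEC
# (helper40): the mean over the compact torus of positive scalars at infinity

OFF-MAIN.  Definitions, frozen Props, PROVED tops.  No hole, nothing assumed.
ADDITIVE (new names only).  Vocabulary: A0, `T1/Spec.lean`, `T5/Spec.lean` v4,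
`T7/H40/ProjSpec.lean` (ac5b80ed).

## The cut

    ArchProjC K  ⇐  T1Out K + TranslInnerC K + PeriodFamilyC K + AvgCuspC K + AvgInvC K + AvgOrthC K
                                                                  (`archProjC_of40`, PROVED here)
    AvgCuspC K  ⇐  AvgContC K + AvgAutC K + AvgCuspidalC K        (`avgCuspC_of40`, PROVED here)
    PeriodFamilyC K  ⇐  PosFamilyC K + PosScalarC K + UnitPeriodsC K + RayLogC K + UnitPeriodC K
                                                                  (`periodFamilyC_of40`, PROVED here)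

`ι = InfinitePlace K`.  A PERIOD FAMILY `Y : (ι → ℝ) → GL₂(𝔸_K)` (`IsPeriodFamily40 𝔑 r Y`) is a
continuous central homomorphism whose image is the group of positive scalars at infinity and
such that every automorphic function of level `𝔑` (trivial type, ray generator `r`) is right
invariant under `Y n`, `n ∈ ℤ^ι`.  The projection is the mean over the unit cube
`cube40 K = [0,1)^ι` (volume `1`):

    archAvg40 Y ψ g = ∫_{cube40 K} ψ (g * Y t) dt.

## The leaves

ADELIC (the period family):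
* `PosFamilyC K`: the family `Z t` = the scalar matrix `(e^{t_w})_w` at infinity, `1` at the
  finite places (continuous central homomorphism).
* `PosScalarC K`: every positive scalar at `w` is a `Z t`; a function invariant under the
  positive scalars at every place is invariant under every `Z t`.
* `UnitPeriodsC K` (Mathlib only; Dirichlet's unit theorem): for `𝔑 ≠ 0`, `c ≠ 0` there is a
  linearly independent family `b : ι → (ι → ℝ)`, each `b i` being the constant vector `c` or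
  `(log |ε|_w)_w` for a unit `ε ≡ 1 mod 𝔑`.
* `RayLogC K`: the ray generator is `Z (c, …, c)`, `c = log t₀ ≠ 0`.
* `UnitPeriodC K`: an automorphic function of level `𝔑` and trivial type is right invariant
  under `Z (log |ε|_w)_w` for every unit `ε ≡ 1 mod 𝔑` (`ε` is central in `GL₂(K)`; its finite
  part lies in `U(𝔑)`, its phases at infinity in the groups `K_w`).

MEASURE THEORY (the mean):
* `AvgContC K`: the mean of a bounded continuous function along a continuous family is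
  continuous.
* `AvgAutC K`: the mean of a cusp function is bounded and automorphic of the same level.
* `AvgCuspidalC K`: the mean of a cusp function is cuspidal (Fubini).
* `AvgInvC K`: the mean is invariant under the positive scalars.
* `AvgOrthC K`: `ψ - mean ψ` is orthogonal to the invariant cusp functions (Fubini +
  `TranslInnerC`; the mean is a cusp function by `AvgCuspC`, given as a hypothesis).
-/

set_option autoImplicit false

open AutomorphicForm IsDedekindDomain NumberField MeasureTheory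
open scoped ComplexConjugate

noncomputable section

namespace Fermat.Agent.LT.T7.H40

open Fermat.Agent.LT.H556 Fermat.Agent.LT.H556.A0 Fermat.Agent.LT.T7

attribute [local instance] Fermat.Agent.LT.T5.instMeasurableSpaceG

/-! ## 1. Vocabulary -/

section Vocabulary

variable {K : Type} [Field K] [NumberField K]

/-- The family of positive scalars at infinity: `Z t` is the scalar matrix `e^{t_w}` at the
infinite place `w` and `1` at the finite places. -/
structure IsPosFamily40 (Z : (InfinitePlace K → ℝ) → G K) : Prop where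
  cont : Continuous Z
  mul : ∀ s t : InfinitePlace K → ℝ, Z (s + t) = Z s * Z t
  central : ∀ (t : InfinitePlace K → ℝ) (g : G K), Z t * g = g * Z t
  fin_triv : ∀ (t : InfinitePlace K → ℝ) (v : HeightOneSpectrum (𝓞 K)), TrivAtFin v (Z t)
  inf_comp : ∀ (t : InfinitePlace K → ℝ) (w : InfinitePlace K),
    infComp w (Z t) = Matrix.diagonal (fun _ => ((Real.exp (t w) : ℝ) : ℂ))

/-- A period family for the level `𝔑` and the ray generator `r`. -/
structure IsPeriodFamily40 (𝔑 : Ideal (𝓞 K)) (r : G K) (Y : (InfinitePlace K → ℝ) → G K) :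
    Prop where
  cont : Continuous Y
  mul : ∀ s t : InfinitePlace K → ℝ, Y (s + t) = Y s * Y t
  central : ∀ (t : InfinitePlace K → ℝ) (g : G K), Y t * g = g * Y t
  /-- a function invariant under the positive scalars is invariant under `Y t` -/
  pos_inv : ∀ χ : G K → ℂ, IsPosInv χ → ∀ (t : InfinitePlace K → ℝ) (g : G K),
    χ (g * Y t) = χ g
  /-- every positive scalar is a `Y t` -/
  surj : ∀ (w : InfinitePlace K) (z : G K), IsArchPosScalar w z →
    ∃ t : InfinitePlace K → ℝ, z = Y t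
  /-- the integral vectors are periods of the automorphic functions of level `𝔑` -/
  period : ∀ ψ : G K → ℂ, T5.IsAutomorphicFn 𝔑 T5.trivType r ψ →
    ∀ (n : InfinitePlace K → ℤ) (g : G K), ψ (g * Y (fun w => (n w : ℝ))) = ψ g

/-- The unit cube `[0,1)^ι` of `ℝ^ι`, `ι` = the set of infinite places (volume `1`; a
fundamental domain of `ℤ^ι`). -/
def cube40 (K : Type) [Field K] [NumberField K] : Set (InfinitePlace K → ℝ) :=
  Set.univ.pi fun _ => Set.Ico (0 : ℝ) 1

/-- The mean of `ψ` over the unit cube along the family `Y`. -/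
def archAvg40 (Y : (InfinitePlace K → ℝ) → G K) (ψ : G K → ℂ) : G K → ℂ :=
  fun g => ∫ t in cube40 K, ψ (g * Y t)

end Vocabulary

/-! ## 2. The Props -/

section Props

variable (K : Type) [Field K] [NumberField K]

/-- **NODE PERIOD-FAMILY**: a period family exists for every level `𝔑 ≠ 0` and every ray
generator.  Cut below (`periodFamilyC_of40`). -/
def PeriodFamilyC : Prop :=
  ∀ 𝔑 : Ideal (𝓞 K), 𝔑 ≠ ⊥ → ∀ r : G K, T5.IsRayGen r →
    ∃ Y : (InfinitePlace K → ℝ) → G K, IsPeriodFamily40 𝔑 r Y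

/-- **NODE AVG-CUSP**: the mean of a cusp function is a cusp function.  Cut below
(`avgCuspC_of40`). -/
def AvgCuspC : Prop :=
  T1.T1Out K →
  ∀ (𝔑 : Ideal (𝓞 K)) (r : G K) (Y : (InfinitePlace K → ℝ) → G K), IsPeriodFamily40 𝔑 r Y →
  ∀ ψ : G K → ℂ, T5.IsCuspFn 𝔑 T5.trivType r ψ →
    T5.IsCuspFn 𝔑 T5.trivType r (archAvg40 Y ψ)

/-- **LEAF AVG-CONT**: the mean of a bounded continuous function along a continuous family is
continuous.  Dominated convergence (`MeasureTheory.continuous_of_dominated`; `T1.LocCompC`: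
`GL₂(𝔸_K)` is second countable, hence first countable), the cube has volume `1`. -/
def AvgContC : Prop :=
  T1.T1Out K →
  ∀ Y : (InfinitePlace K → ℝ) → G K, Continuous Y →
  ∀ ψ : G K → ℂ, Continuous ψ → (∃ C : ℝ, ∀ g : G K, ‖ψ g‖ ≤ C) →
    Continuous (archAvg40 Y ψ)

/-- **LEAF AVG-AUT**: the mean of a cusp function is bounded and automorphic of the same level
(`Y t` is central; the cube has volume `1`). -/
def AvgAutC : Prop :=
  ∀ (𝔑 : Ideal (𝓞 K)) (r : G K) (Y : (InfinitePlace K → ℝ) → G K), IsPeriodFamily40 𝔑 r Y →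
  ∀ ψ : G K → ℂ, T5.IsCuspFn 𝔑 T5.trivType r ψ →
    (∃ C : ℝ, ∀ g : G K, ‖archAvg40 Y ψ g‖ ≤ C) ∧
      T5.IsAutomorphicFn 𝔑 T5.trivType r (archAvg40 Y ψ)

/-- **LEAF AVG-CUSPIDAL**: the mean of a cusp function is cuspidal.  Fubini on `D × cube`
(`MeasureTheory.integral_integral_swap`): the integrand `(x, t) ↦ ψ (n x * g * Y t)` is
continuous and bounded, the cube has volume `1` and every fundamental domain `D` of `K` in
`𝔸_K` has finite measure (`T1.AddFundDomC` + `IsAddFundamentalDomain.measure_eq`, `K` is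
countable); then `∫_D ψ (n x * (g * Y t)) dx = 0` for every `t`. -/
def AvgCuspidalC : Prop :=
  T1.T1Out K →
  ∀ (𝔑 : Ideal (𝓞 K)) (r : G K) (Y : (InfinitePlace K → ℝ) → G K), IsPeriodFamily40 𝔑 r Y →
  ∀ ψ : G K → ℂ, T5.IsCuspFn 𝔑 T5.trivType r ψ → IsCuspidalFn (archAvg40 Y ψ)

/-- **LEAF AVG-INV**: the mean is invariant under the positive scalars.  `z = Y t₀` (`surj`),
`t ↦ ψ (g * Y t)` is `ℤ^ι`-periodic (`period`), the cube and its translate by `t₀` are
fundamental domains of `ℤ^ι` (`ZSpan.isAddFundamentalDomain`,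
`ZSpan.fundamentalDomain_pi_basisFun`, `IsAddFundamentalDomain.setIntegral_eq`). -/
def AvgInvC : Prop :=
  ∀ (𝔑 : Ideal (𝓞 K)) (r : G K) (Y : (InfinitePlace K → ℝ) → G K), IsPeriodFamily40 𝔑 r Y →
  ∀ ψ : G K → ℂ, T5.IsCuspFn 𝔑 T5.trivType r ψ → IsPosInv (archAvg40 Y ψ)

/-- **LEAF AVG-ORTH**: `ψ - mean ψ` is orthogonal on `F` to every cusp function invariant under
the positive scalars.  Fubini on `F × cube` (finite measures, bounded continuous integrand),
`χ (x * Y t) = χ x` (`pos_inv`), `TranslInnerC` for `Ψ = ψ · conj χ` and `h = Y t`,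
`volume (cube40 K) = 1`. -/
def AvgOrthC : Prop :=
  T1.T1Out K → TranslInnerC K → AvgCuspC K →
  ∀ (μ : Measure (G K)) (F : Set (G K)) (r : G K), T5.IsFrame μ F → T5.IsRayGen r →
  ∀ (𝔑 : Ideal (𝓞 K)) (Y : (InfinitePlace K → ℝ) → G K), IsPeriodFamily40 𝔑 r Y →
  ∀ ψ : G K → ℂ, T5.IsCuspFn 𝔑 T5.trivType r ψ →
  ∀ χ : G K → ℂ, T5.IsCuspFn 𝔑 T5.trivType r χ → IsPosInv χ →
    T5.innerD μ F (fun x => ψ x - archAvg40 Y ψ x) χ = 0

/-- **LEAF POS-FAMILY**: the family of positive scalars exists. -/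
def PosFamilyC : Prop :=
  ∃ Z : (InfinitePlace K → ℝ) → G K, IsPosFamily40 Z

/-- **LEAF POS-SCALAR**: the positive scalars at one place are values of `Z`, and invariance
under the positive scalars at every place gives invariance under every `Z t`
(`Z t = ∏_w Z (t_w e_w)`; extensionality of `GL₂(𝔸_K)` in the local components). -/
def PosScalarC : Prop :=
  ∀ Z : (InfinitePlace K → ℝ) → G K, IsPosFamily40 Z →
    (∀ (w : InfinitePlace K) (z : G K), IsArchPosScalar w z →
      ∃ t : InfinitePlace K → ℝ, z = Z t) ∧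
    ∀ χ : G K → ℂ, IsPosInv χ → ∀ (t : InfinitePlace K → ℝ) (g : G K), χ (g * Z t) = χ g

/-- **LEAF UNIT-PERIODS** (Mathlib only).  Dirichlet's unit theorem: the vectors
`(log |ε|_w)_w`, `ε` a unit `≡ 1 mod 𝔑`, span the hyperplane `∑_w [K_w : ℝ] x_w = 0`
(`NumberField.Units.unitLattice_span_eq_top`; the units `≡ 1 mod 𝔑` contain the `N`-th powers,
`N = |(𝒪/𝔑)ˣ|`), and the constant vector `c ≠ 0` does not lie in it. -/
def UnitPeriodsC : Prop :=
  ∀ 𝔑 : Ideal (𝓞 K), 𝔑 ≠ ⊥ → ∀ c : ℝ, c ≠ 0 →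
    ∃ b : InfinitePlace K → (InfinitePlace K → ℝ), LinearIndependent ℝ b ∧
      ∀ i : InfinitePlace K, (b i = fun _ => c) ∨
        ∃ ε : (𝓞 K)ˣ, ((ε : 𝓞 K) - 1 ∈ 𝔑) ∧
          b i = fun w : InfinitePlace K => Real.log (w (((ε : 𝓞 K) : K)))

/-- **LEAF RAY-LOG**: the ray generator is `Z (c, …, c)` with `c = log t₀ ≠ 0`
(`t₀ ^ (2 [K:ℚ]) = 2`). -/
def RayLogC : Prop :=
  ∀ Z : (InfinitePlace K → ℝ) → G K, IsPosFamily40 Z → ∀ r : G K, T5.IsRayGen r →
    ∃ c : ℝ, c ≠ 0 ∧ Z (fun _ => c) = r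

/-- **LEAF UNIT-PERIOD**: invariance of the automorphic functions under the absolute values of
the units `≡ 1 mod 𝔑`. -/
def UnitPeriodC : Prop :=
  ∀ Z : (InfinitePlace K → ℝ) → G K, IsPosFamily40 Z →
  ∀ (𝔑 : Ideal (𝓞 K)) (r : G K) (ψ : G K → ℂ), T5.IsAutomorphicFn 𝔑 T5.trivType r ψ →
  ∀ ε : (𝓞 K)ˣ, ((ε : 𝓞 K) - 1 ∈ 𝔑) →
  ∀ g : G K, ψ (g * Z (fun w : InfinitePlace K => Real.log (w (((ε : 𝓞 K) : K))))) = ψ g

end Props

/-! ## 3. The tops -/

section Tops

variable {K : Type} [Field K] [NumberField K]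

/-- **THE TOP of ARCH-PROJ.** -/
theorem archProjC_of40 (hT1 : T1.T1Out K) (hTI : TranslInnerC K) (hPF : PeriodFamilyC K)
    (hAC : AvgCuspC K) (hAI : AvgInvC K) (hAO : AvgOrthC K) : ArchProjC K := by
  intro μ F r hFr hr 𝔑 h𝔑 ψ hψ
  obtain ⟨Y, hY⟩ := hPF 𝔑 h𝔑 r hr
  exact ⟨archAvg40 Y ψ, hAC hT1 𝔑 r Y hY ψ hψ, hAI 𝔑 r Y hY ψ hψ,
    fun χ hχ hχinv => hAO hT1 hTI hAC μ F r hFr hr 𝔑 Y hY ψ hψ χ hχ hχinv⟩

/-- **THE TOP of AVG-CUSP.** -/
theorem avgCuspC_of40 (hC : AvgContC K) (hA : AvgAutC K) (hV : AvgCuspidalC K) :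
    AvgCuspC K := by
  intro hT1 𝔑 r Y hY ψ hψ
  obtain ⟨hb, ha⟩ := hA 𝔑 r Y hY ψ hψ
  exact ⟨hC hT1 Y hY.cont ψ hψ.cont hψ.bdd, hb, ha, hV hT1 𝔑 r Y hY ψ hψ⟩

/-- The periods of an automorphic function along a positive family form an additive
subgroup. -/
theorem period_subgroup40 {Z : (InfinitePlace K → ℝ) → G K} (hZ : IsPosFamily40 Z)
    (ψ : G K → ℂ) :
    ∃ S : AddSubgroup (InfinitePlace K → ℝ),
      ∀ t : InfinitePlace K → ℝ, t ∈ S ↔ ∀ g : G K, ψ (g * Z t) = ψ g := by
  have h0 : Z 0 = 1 := by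
    have := hZ.mul 0 0
    rw [add_zero] at this
    exact (mul_eq_left (a := Z 0) (b := Z 0)).1 this.symm
  refine ⟨{ carrier := {t | ∀ g : G K, ψ (g * Z t) = ψ g}
            add_mem' := ?_
            zero_mem' := ?_
            neg_mem' := ?_ }, fun t => Iff.rfl⟩
  · intro s t hs ht g
    rw [hZ.mul, ← mul_assoc, ht, hs]
  · intro g
    rw [h0, mul_one]
  · intro t ht g
    have := ht (g * Z (-t))
    rw [mul_assoc, ← hZ.mul, neg_add_cancel, h0, mul_one] at this
    exact this.symm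

/-- **THE TOP of PERIOD-FAMILY.** -/
theorem periodFamilyC_of40 (hPF : PosFamilyC K) (hPS : PosScalarC K) (hUP : UnitPeriodsC K)
    (hRL : RayLogC K) (hU : UnitPeriodC K) : PeriodFamilyC K := by
  intro 𝔑 h𝔑 r hr
  obtain ⟨Z, hZ⟩ := hPF
  obtain ⟨hsurj, hinv⟩ := hPS Z hZ
  obtain ⟨c, hc, hcr⟩ := hRL Z hZ r hr
  obtain ⟨b, hb, hbper⟩ := hUP 𝔑 h𝔑 c hc
  -- the linear map of the family `b`
  set Λ : (InfinitePlace K → ℝ) →ₗ[ℝ] (InfinitePlace K → ℝ) := Fintype.linearCombination ℝ b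
    with hΛ
  have hΛcont : Continuous Λ := LinearMap.continuous_of_finiteDimensional Λ
  have hΛsurj : Function.Surjective Λ := by
    rw [← LinearMap.range_eq_top, hΛ, Fintype.range_linearCombination]
    exact hb.span_eq_top_of_card_eq_finrank' (Module.finrank_fintype_fun_eq_card ℝ).symm
  refine ⟨fun t => Z (Λ t), ⟨hZ.cont.comp hΛcont, fun s t => ?_, fun t g => hZ.central _ g,
    fun χ hχ t g => hinv χ hχ _ g, fun w z hz => ?_, fun ψ hψ n g => ?_⟩⟩
  · show Z (Λ (s + t)) = Z (Λ s) * Z (Λ t)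
    rw [map_add, hZ.mul]
  · obtain ⟨t', ht'⟩ := hsurj w z hz
    obtain ⟨t, ht⟩ := hΛsurj t'
    exact ⟨t, by rw [ht, ht']⟩
  · obtain ⟨S, hS⟩ := period_subgroup40 hZ ψ
    have hbS : ∀ i, b i ∈ S := by
      intro i
      rw [hS]
      rcases hbper i with h | ⟨ε, hε, h⟩
      · intro g'
        rw [h, hcr]
        exact hψ.ray g'
      · intro g'
        rw [h]
        exact hU Z hZ 𝔑 r ψ hψ ε hε g'
    have hmem : Λ (fun w => (n w : ℝ)) ∈ S := by
      rw [hΛ, Fintype.linearCombination_apply]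
      refine S.sum_mem fun i _ => ?_
      rw [Int.cast_smul_eq_zsmul]
      exact S.zsmul_mem (hbS i) _
    exact (hS _).1 hmem g

/-- **ARCH-PROJ from the ten leaves and the shared tool.** -/
theorem archProjC_of_leaves40 (hT1 : T1.T1Out K) (hTI : TranslInnerC K)
    (hPF : PosFamilyC K) (hPS : PosScalarC K) (hUP : UnitPeriodsC K) (hRL : RayLogC K)
    (hU : UnitPeriodC K) (hC : AvgContC K) (hA : AvgAutC K) (hV : AvgCuspidalC K)
    (hAI : AvgInvC K) (hAO : AvgOrthC K) : ArchProjC K :=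
  archProjC_of40 hT1 hTI (periodFamilyC_of40 hPF hPS hUP hRL hU) (avgCuspC_of40 hC hA hV)
    hAI hAO

end Tops

end Fermat.Agent.LT.T7.H40

end

end
-- ===== PACK-END LT/T7/H40/ArchProjSpec.lean

-- ===== PACK-BEGIN LT/T7/H561/BlocksSpec.lean
section



/-!
# Row LT, tower T7, node T7.L2.2.B = `BlocksC561` (sub-architect helper561): THE CUT

OFF-MAIN.  Definitions, frozen Props of the leaves, PROVED top.  Every proof is complete, nothing
assumed.  ADDITIVE (new names only, all ending in `561`).  Vocabulary: A0, `T5/Spec.lean`,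
`T7/Level2.lean`, `T7/H561/SpecUpSpec.lean`.

    blocksC_of561 : BlocksAsmC561 K K' → WSpecC561 K K' → CompleteC561 K K' → SigmaC561 K K'
                      → OpsC561 K K' → PhiC561 K K' → OffWC561 K K' → BlocksC561 K K'

Notation: `W` = the invariant cusp functions of the base level (`IsWFn 𝔑₀ r ℓ o`), a CLASS = the
functions of `W` with given joint eigen-data outside `S'` (`IsEigFn 𝔑₀ r ℓ o · C`).

* **`WSpecC561`** (LEAF; T2: `cuspSpecPlus_closed`, finiteness of the classes, the projector on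
  the Iwahori invariants): `W` has a countable family of classes with finite orthonormal bases,
  pairwise orthogonal, complete in `W`, unitary eigen-data, one index per class.
* **`CompleteC561`** (LEAF; PROJ-up + a complete orthonormal sequence of level `𝔑_g` +
  Gram--Schmidt): the family of `WSpecC561` is part of a complete orthonormal sequence `e₀` of
  cusp functions of level `𝔑_g`, the other members are orthogonal to `W`.
* **`SigmaC561`** (LEAF; `BaseStable561`, asset helper930 `T7/H930/RsigOps.lean`): `R(σ)` maps the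
  class of `C` into the class of `σC C`, compatibly with agreement outside `S'`; the class of `Φ`
  is stable.
* **`OpsC561`** (NODE; the Iwahori--Hecke algebras along the orbit and the Hecke operator of the
  bad element): finite sets `Hs j` (representatives of `I s I / I` at `o j`), elements `ω j` (the
  normaliser `!![0, 1; ϖ, 0]` of `I` at `o j`), `Hg` (representatives of `U g U / U`) with
  `S_j = cosetOp (Hs j)`, `ρ_j = trOp561 (ω j)`, `B = cosetOp Hg` preserving the classes, the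
  relations, the adjoints, the action of `R(σ)`, and `(Hs 0) · ω 0` (`Finset.map` of the right
  multiplication) a system for `I t I / I`,
  `ω 0 ²` a scalar uniformiser (the link with OP-up).
* **`PhiC561`** (LEAF): the class of `Φ` is not zero (the form of `Φ` is in `W`: `level_le`,
  `orbit_good`).
* **`OffWC561`** (LEAF; KILL-up + PROJ-up + adjoints of T2): the diagonal coefficient of a cusp
  function of level `𝔑_g` orthogonal to `W` vanishes.
* **`BlocksAsmC561`** (LEAF: the assembly; matrices of the operators in the bases of the stable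
  classes).
-/

set_option autoImplicit false

open AutomorphicForm IsDedekindDomain NumberField MeasureTheory
open scoped ComplexConjugate Matrix

noncomputable section

namespace Fermat.Agent.LT.T7.H561

open Fermat.Agent.LT.H556 Fermat.Agent.LT.H556.A0 Fermat.Agent.LT.T7

attribute [local instance] Fermat.Agent.LT.T5.instMeasurableSpaceG

/-- The right translation by `h`. -/
def trOp561 {K : Type} [Field K] [NumberField K] (h : G K) (ψ : G K → ℂ) : G K → ℂ :=
  fun x => ψ (x * h)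

section Blocks

variable {K K' : Type} [Field K] [NumberField K] [Field K'] [NumberField K'] [Algebra K K']

/-- **The spectrum of the invariant cusp functions of the base level**: classes `i : ι` with
eigen-data `C i` and orthonormal bases `v i`. -/
structure IsWSpec561 (Dt : L2Data K K') (ℓ : ℕ) (ι : Type) (n : ι → ℕ) (C : ι → EigData K')
    (v : (i : ι) → Fin (n i) → G K' → ℂ) : Prop where
  countable : Countable ι
  unitary : ∀ i, (C i).IsUnitaryOut Dt.S'
  distinct : ∀ i i', (C i).AgreeOut Dt.S' (C i') → i = i'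
  basis : ∀ i, IsClassBasis561 Dt ℓ (C i) (n i) (v i)
  orth : ∀ (i i' : ι) (a : Fin (n i)) (a' : Fin (n i')), i ≠ i' →
    T5.innerD Dt.R'.μ Dt.R'.F (v i a) (v i' a') = 0
  complete : ∀ ψ : G K' → ℂ, IsWFn Dt.𝔑₀ Dt.R'.r ℓ Dt.o ψ →
    HasSum (fun p : Σ i, Fin (n i) => ‖T5.innerD Dt.R'.μ Dt.R'.F ψ (v p.1 p.2)‖ ^ 2)
      (T5.innerD Dt.R'.μ Dt.R'.F ψ ψ).re
  cover : ∀ (ψ : G K' → ℂ) (C' : EigData K'), IsEigFn Dt.𝔑₀ Dt.R'.r ℓ Dt.o ψ C' →
    (∃ x : G K', ψ x ≠ 0) → ∃ i, C'.AgreeOut Dt.S' (C i)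

/-- **The operators on the invariant cusp functions of the base level**: `S_j = cosetOp (Hs j)`,
`ρ_j = trOp561 (ω j)` along the orbit, `B = cosetOp Hg` at the bad places. -/
structure IsWOps561 (Dt : L2Data K K') (ℓ : ℕ) (g : G K') (Hs : ℕ → Finset (G K'))
    (ω : ℕ → G K') (Hg : Finset (G K')) : Prop where
  S_eig : ∀ (j : ℕ) (ψ : G K' → ℂ) (C : EigData K'), IsEigFn Dt.𝔑₀ Dt.R'.r ℓ Dt.o ψ C →
    IsEigFn Dt.𝔑₀ Dt.R'.r ℓ Dt.o (cosetOp (Hs j) ψ) C
  ρ_eig : ∀ (j : ℕ) (ψ : G K' → ℂ) (C : EigData K'), IsEigFn Dt.𝔑₀ Dt.R'.r ℓ Dt.o ψ C →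
    IsEigFn Dt.𝔑₀ Dt.R'.r ℓ Dt.o (trOp561 (ω j) ψ) C
  B_eig : ∀ (ψ : G K' → ℂ) (C : EigData K'), IsEigFn Dt.𝔑₀ Dt.R'.r ℓ Dt.o ψ C →
    IsEigFn Dt.𝔑₀ Dt.R'.r ℓ Dt.o (cosetOp Hg ψ) C
  S_quad : ∀ (j : ℕ) (ψ : G K' → ℂ), IsWFn Dt.𝔑₀ Dt.R'.r ℓ Dt.o ψ → ∀ x : G K',
    cosetOp (Hs j) (cosetOp (Hs j) ψ) x
      = (((Ideal.absNorm (Dt.o 0).asIdeal : ℕ) : ℂ) - 1) * cosetOp (Hs j) ψ x
        + ((Ideal.absNorm (Dt.o 0).asIdeal : ℕ) : ℂ) * ψ x
  ρ_central : ∀ (j : ℕ) (ψ : G K' → ℂ), IsWFn Dt.𝔑₀ Dt.R'.r ℓ Dt.o ψ → ∀ x : G K',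
    trOp561 (ω j) (trOp561 (ω j) (cosetOp (Hs j) ψ)) x
      = cosetOp (Hs j) (trOp561 (ω j) (trOp561 (ω j) ψ)) x
  comm_SS : ∀ j j' : ℕ, j < ℓ → j' < ℓ → j ≠ j' →
    ∀ ψ : G K' → ℂ, IsWFn Dt.𝔑₀ Dt.R'.r ℓ Dt.o ψ → ∀ x : G K',
      cosetOp (Hs j) (cosetOp (Hs j') ψ) x = cosetOp (Hs j') (cosetOp (Hs j) ψ) x
  comm_Sρ : ∀ j j' : ℕ, j < ℓ → j' < ℓ → j ≠ j' →
    ∀ ψ : G K' → ℂ, IsWFn Dt.𝔑₀ Dt.R'.r ℓ Dt.o ψ → ∀ x : G K',
      cosetOp (Hs j) (trOp561 (ω j') ψ) x = trOp561 (ω j') (cosetOp (Hs j) ψ) x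
  comm_ρρ : ∀ j j' : ℕ, j < ℓ → j' < ℓ → j ≠ j' →
    ∀ ψ : G K' → ℂ, IsWFn Dt.𝔑₀ Dt.R'.r ℓ Dt.o ψ → ∀ x : G K',
      trOp561 (ω j) (trOp561 (ω j') ψ) x = trOp561 (ω j') (trOp561 (ω j) ψ) x
  per_S : ∀ (j : ℕ) (ψ : G K' → ℂ), IsWFn Dt.𝔑₀ Dt.R'.r ℓ Dt.o ψ → ∀ x : G K',
    cosetOp (Hs (j + ℓ)) ψ x = cosetOp (Hs j) ψ x
  per_ρ : ∀ (j : ℕ) (ψ : G K' → ℂ), IsWFn Dt.𝔑₀ Dt.R'.r ℓ Dt.o ψ → ∀ x : G K',
    trOp561 (ω (j + ℓ)) ψ x = trOp561 (ω j) ψ x
  B_S : ∀ (j : ℕ) (ψ : G K' → ℂ), IsWFn Dt.𝔑₀ Dt.R'.r ℓ Dt.o ψ → ∀ x : G K',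
    cosetOp Hg (cosetOp (Hs j) ψ) x = cosetOp (Hs j) (cosetOp Hg ψ) x
  B_ρ : ∀ (j : ℕ) (ψ : G K' → ℂ), IsWFn Dt.𝔑₀ Dt.R'.r ℓ Dt.o ψ → ∀ x : G K',
    cosetOp Hg (trOp561 (ω j) ψ) x = trOp561 (ω j) (cosetOp Hg ψ) x
  S_adj : ∀ (j : ℕ) (ψ χ : G K' → ℂ), IsWFn Dt.𝔑₀ Dt.R'.r ℓ Dt.o ψ →
    IsWFn Dt.𝔑₀ Dt.R'.r ℓ Dt.o χ →
    T5.innerD Dt.R'.μ Dt.R'.F (cosetOp (Hs j) ψ) χ
      = T5.innerD Dt.R'.μ Dt.R'.F ψ (cosetOp (Hs j) χ)
  ρ_iso : ∀ (j : ℕ) (ψ χ : G K' → ℂ), IsWFn Dt.𝔑₀ Dt.R'.r ℓ Dt.o ψ →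
    IsWFn Dt.𝔑₀ Dt.R'.r ℓ Dt.o χ →
    T5.innerD Dt.R'.μ Dt.R'.F (trOp561 (ω j) ψ) (trOp561 (ω j) χ)
      = T5.innerD Dt.R'.μ Dt.R'.F ψ χ
  σ_S : ∀ (j : ℕ) (ψ : G K' → ℂ), IsWFn Dt.𝔑₀ Dt.R'.r ℓ Dt.o ψ → ∀ x : G K',
    T5.Rsig Dt.s (cosetOp (Hs j) ψ) x = cosetOp (Hs (j + 1)) (T5.Rsig Dt.s ψ) x
  σ_ρ : ∀ (j : ℕ) (ψ : G K' → ℂ), IsWFn Dt.𝔑₀ Dt.R'.r ℓ Dt.o ψ → ∀ x : G K',
    T5.Rsig Dt.s (trOp561 (ω j) ψ) x = trOp561 (ω (j + 1)) (T5.Rsig Dt.s ψ) x
  dbl : IsDblCosetSystem Dt.𝔑₀ g Hg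
  iwsys : IsIwCosetSystem (Dt.o 0) ((Hs 0).map (mulRightEmbedding (ω 0)))
  unif : IsScalarUniformizerAt (Dt.o 0) (ω 0 * ω 0)

variable (K K')

/-- **LEAF T7.L2.2.B1 = W-SPEC.**
Proof.  `T2.cuspSpecPlus_closed` for the level `𝔑₀` (`𝔑₀ ≠ ⊥`: `level_g` and
`IsCompData.level_ne` for the bad element `1`): an orthonormal complete family of joint
eigenfunctions of EVERY operator of the tower (Hecke operators outside `S'`, sphere means), with
unitary eigen-data; classes of finite dimension (`finite_class130`).  The projector on the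
Iwahori invariants along the orbit (a finite average of right translations, `I / U` is finite)
is self-adjoint, commutes with the operators and maps the class of `C` onto the functions of
`W` in the class; Gram--Schmidt in each class; eigen-data normalised (`0` at the places of `S'`
and the radii `d ≤ 0`) to get `distinct`. -/
def WSpecC561 : Prop :=
  ∀ ℓ : ℕ, IsCycExt K K' ℓ → ℓ ≠ 2 → TotCplx K →
    ∀ Φ : HeckeEigensystem K' ℂ, A0.IsCuspAdelicSph0 K' Φ → ConstOnFibres K Φ →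
      ∀ Dt : L2Data K K', IsL2Data ℓ Φ Dt →
        ∃ (ι : Type) (n : ι → ℕ) (C : ι → EigData K') (v : (i : ι) → Fin (n i) → G K' → ℂ),
          IsWSpec561 Dt ℓ ι n C v

/-- **LEAF T7.L2.2.B2 = COMPLETE.**
Proof.  `W` consists of cusp functions of level `𝔑_g` (`level_g`).  Take a complete orthonormal
sequence `f_k` of level `𝔑_g` (`T5.CuspONBExistsC`, closed in tower T5 / T2), `h_k` =
Gram--Schmidt of `f_k - P f_k` (`P` = PROJ-up); `e₀` = the family `v` (enumerated by
countability) interleaved with `h_k`; Parseval: `‖f‖² = ‖P f‖² + ‖f - P f‖²`. -/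
def CompleteC561 : Prop :=
  ∀ ℓ : ℕ, IsCycExt K K' ℓ → ℓ ≠ 2 → TotCplx K →
    ∀ Φ : HeckeEigensystem K' ℂ, A0.IsCuspAdelicSph0 K' Φ → ConstOnFibres K Φ →
      ∀ Dt : L2Data K K', IsL2Data ℓ Φ Dt → ∀ g : G K', Dt.IsBad g →
      ∀ (ι : Type) (n : ι → ℕ) (C : ι → EigData K') (v : (i : ι) → Fin (n i) → G K' → ℂ),
        IsWSpec561 Dt ℓ ι n C v →
        ∃ (e₀ : ℕ → G K' → ℂ) (idx : (i : ι) → Fin (n i) → ℕ),
          T5.IsCuspONB (Dt.𝔑 g) T5.trivType Dt.R'.r Dt.R'.μ Dt.R'.F e₀ ∧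
          (∀ (i : ι) (a : Fin (n i)) (i' : ι) (a' : Fin (n i')), idx i a = idx i' a' →
            (⟨i, a⟩ : Σ i, Fin (n i)) = ⟨i', a'⟩) ∧
          (∀ (i : ι) (a : Fin (n i)), e₀ (idx i a) = v i a) ∧
          ∀ j : ℕ, (∀ (i : ι) (a : Fin (n i)), idx i a ≠ j) →
            ∀ χ : G K' → ℂ, IsWFn Dt.𝔑₀ Dt.R'.r ℓ Dt.o χ →
              T5.innerD Dt.R'.μ Dt.R'.F (e₀ j) χ = 0

/-- **LEAF T7.L2.2.B3 = SIGMA.**
Proof.  `R(σ)` preserves the cusp functions of the base level (`BaseStable561`,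
`IsCompData.aut` for the bad element `1`), the invariance under the positive scalars at
infinity and under the Iwahori subgroups along the orbit (`orbit_rel`, `σ^ℓ = 1`); it moves the
Hecke operators at `w ∉ S'` to those at `σ w ∉ S'` (`mem_S'_g`: `S'` = the places over the
divisors of `𝔫 g`) and the sphere means at `w` to those at `σ w`: `σC C` = the eigen-data moved
by `σ` (asset helper930 `T7/H930/RsigOps.lean`).  The class of `Φ`: `IsL2Data.const`, and `sph0`
at every infinite place. -/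
def SigmaC561 : Prop :=
  ∀ ℓ : ℕ, IsCycExt K K' ℓ → ℓ ≠ 2 → TotCplx K →
    ∀ Φ : HeckeEigensystem K' ℂ, A0.IsCuspAdelicSph0 K' Φ → ConstOnFibres K Φ →
      ∀ Dt : L2Data K K', IsL2Data ℓ Φ Dt → BaseStable561 Dt →
        ∃ σC : EigData K' → EigData K',
          (∀ C C' : EigData K', C.AgreeOut Dt.S' C' → (σC C).AgreeOut Dt.S' (σC C')) ∧
          (∀ (ψ : G K' → ℂ) (C : EigData K'), IsEigFn Dt.𝔑₀ Dt.R'.r ℓ Dt.o ψ C →
            IsEigFn Dt.𝔑₀ Dt.R'.r ℓ Dt.o (T5.Rsig Dt.s ψ) (σC C)) ∧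
          (σC (eigOf Φ)).AgreeOut Dt.S' (eigOf Φ)

/-- **NODE T7.L2.2.B4 = OPS.**  See the header and `IsWOps561`.
Proof (sketch; to be cut: local group theory at `o j` + operators on functions).  At the place
`w = o j` with uniformiser `ϖ`: `I` = the Iwahori subgroup (`T5.InIwahori`), `s = !![0,1;1,0]`,
`ω = !![0,1;ϖ,0]`, `t = !![ϖ,0;0,1] = s ω`, `ω I ω⁻¹ = I`, `ω² = ϖ`,
`I s I = ⨆_{a mod ϖ} !![1,a;0,1] s I` (`q` cosets), `I t I = (I s I) ω`,
`(I s I)(I s I) = I ⊔ I s I` with `1_{IsI} ⋆ 1_{IsI} = (q-1) 1_{IsI} + q 1_I`.  The operators are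
finite sums of right translations by elements supported at ONE place of `S'`: they preserve the
cusp functions, commute with the Hecke operators outside `S'`, the sphere means and the
operators at the other places; adjoints: `∫_F ψ(x h) conj χ(x) = ∫_F ψ(x) conj χ(x h⁻¹)` for
automorphic functions (fundamental domain, ray; T2 `OpsAdjT`), `(I s I)⁻¹ = I s I`; `R(σ) R(h)
= R(σ h) R(σ)` and `σ` maps the Iwahori subgroup at `o j` onto the one at `o (j+1)`. -/
def OpsC561 : Prop :=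
  ∀ ℓ : ℕ, IsCycExt K K' ℓ → ℓ ≠ 2 → TotCplx K →
    ∀ Φ : HeckeEigensystem K' ℂ, A0.IsCuspAdelicSph0 K' Φ → ConstOnFibres K Φ →
      ∀ Dt : L2Data K K', IsL2Data ℓ Φ Dt → BaseStable561 Dt → ∀ g : G K', Dt.IsBad g →
        ∃ (Hs : ℕ → Finset (G K')) (ω : ℕ → G K') (Hg : Finset (G K')),
          IsWOps561 Dt ℓ g Hs ω Hg

/-- **LEAF T7.L2.2.B5 = PHI.**
Proof.  The form `φ` of `Φ` (`A0.IsSph0CuspFormFor`): of level `Φ.level ⊇ 𝔑₀` (`level_le`),
invariant under `GL₂(𝒪_w)` at the places of the orbit (`orbit_good`), in particular under the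
Iwahori subgroups; invariant under the ray generator (a product of positive scalars at the
infinite places); `MeanValueComplex` = `MeanEig · sph0` (`K'` is totally complex); Hecke
eigenfunction at `v ∤ 𝔑₀` (then `v ∤ Φ.level`). -/
def PhiC561 : Prop :=
  ∀ ℓ : ℕ, IsCycExt K K' ℓ → ℓ ≠ 2 → TotCplx K →
    ∀ Φ : HeckeEigensystem K' ℂ, A0.IsCuspAdelicSph0 K' Φ → ConstOnFibres K Φ →
      ∀ Dt : L2Data K K', IsL2Data ℓ Φ Dt →
        ∃ ψ : G K' → ℂ, IsEigFn Dt.𝔑₀ Dt.R'.r ℓ Dt.o ψ (eigOf Φ) ∧ ∃ x : G K', ψ x ≠ 0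

/-- **LEAF T7.L2.2.B6 = OFF-W.**  If `R(φ' g X k m)` maps the eigenfunctions of `W` into `W`, the
diagonal coefficient of a cusp function of level `𝔑_g` orthogonal to `W` vanishes.
Proof.  `f = R(σ) e` is a cusp function of level `𝔑_g` (`IsCompData.aut`); `f = f₁ + f₂`,
`f₁ ∈ W`, `f₂ ⊥ W` (PROJ-up); `R(φ') f₂ = 0` (KILL-up); `⟨R(φ') f₁, e⟩ = ⟨f₁, R(φ'*) e⟩`
(adjoint of a convolution operator, T2 `OpsAdjT`) `= ∑_p ⟨f₁, v_p⟩ conj ⟨R(φ'*) e, v_p⟩`
(Parseval in `W`, polarised; `R(φ'*) e` is a cusp function, its component orthogonal to `W`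
does not contribute) and `⟨R(φ'*) e, v_p⟩ = ⟨e, R(φ') v_p⟩ = 0`. -/
def OffWC561 : Prop :=
  ∀ ℓ : ℕ, IsCycExt K K' ℓ → ℓ ≠ 2 → TotCplx K →
    ∀ Φ : HeckeEigensystem K' ℂ, A0.IsCuspAdelicSph0 K' Φ → ConstOnFibres K Φ →
      ∀ Dt : L2Data K K', IsL2Data ℓ Φ Dt → ∀ g : G K', Dt.IsBad g →
      ∀ (ι : Type) (n : ι → ℕ) (C : ι → EigData K') (v : (i : ι) → Fin (n i) → G K' → ℂ),
        IsWSpec561 Dt ℓ ι n C v →
        (∀ X : List (Gen K'), (∀ x ∈ X, x.Out Dt.S') → ∀ (k : ℤ) (m : ℕ) (ψ : G K' → ℂ)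
          (C' : EigData K'), IsEigFn Dt.𝔑₀ Dt.R'.r ℓ Dt.o ψ C' →
            IsWFn Dt.𝔑₀ Dt.R'.r ℓ Dt.o (T5.Rconv Dt.R'.μ (Dt.φ' g X k m) ψ)) →
        ∀ e : G K' → ℂ, T5.IsCuspFn (Dt.𝔑 g) T5.trivType Dt.R'.r e →
          (∀ χ : G K' → ℂ, IsWFn Dt.𝔑₀ Dt.R'.r ℓ Dt.o χ →
            T5.innerD Dt.R'.μ Dt.R'.F e χ = 0) →
          ∀ X : List (Gen K'), (∀ x ∈ X, x.Out Dt.S') → ∀ (k : ℤ) (m : ℕ),
            T5.diagCoeff Dt.s Dt.R'.μ Dt.R'.F (Dt.φ' g X k m) e = 0

/-- **LEAF T7.L2.2.B7 = BLOCKS-ASSEMBLY.**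
Proof.  `ι, n, C, v` from `WSpecC561`; `e₀, idx` from `CompleteC561`; `σC` from `SigmaC561`;
`Hs, ω, Hg` from `OpsC561`.  Blocks: `ι' = {i // (σC (C i)).AgreeOut S' (C i)}`.  In a block
every operator `T` among `R(σ)`, `S_j`, `ρ_j`, `B` maps the class into itself (an eigenfunction
for `C'` is one for every `C''` agreeing with `C'` outside `S'`: `mem_S'`, radii `d > 0`), so
`T v_a = ∑_b M_T(b,a) v_b` pointwise with `M_T(b,a) = ⟨T v_a, v_b⟩` (`span`, `orth`, additivity
of the inner product on bounded continuous functions); `M_{T T'} = M_T M_{T'}` (the operators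
are additive: finite sums of translations); `A = M_{R(σ)}`, `B = c_g(C) M_{cosetOp Hg}`,
`S j = M_{S_j}`, `ρ j = M_{ρ_j}`: `IsIwBlock561` from `IsWOps561` (`S_adj` gives `Sᴴ = S`,
`ρ_iso` gives `ρᴴ ρ = 1`).  `coeff`: OP-up for `ψ = R(σ) v_a` with `H = (Hs 0) · ω 0`,
`z = ω 0 ²`: `iwOp = q^{-1/2} S₀ ρ₀`, `shiftOp z k = (ρ₀²)^k` (`k ∈ ℤ`; `ρ₀` is invertible on the
class).  `off`: outside the range of `idx`: `OffWC561` (its hypothesis from OP-up and
`S_eig`, `ρ_eig`, `B_eig`); in a class which is not stable: `R(φ') R(σ) v_a` is an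
eigenfunction for `σC (C i)`, hence `0` or in another class (`cover`, `distinct`), orthogonal
to `v_a` (`orth`).  `phi`: `PhiC561`, `cover`, `SigmaC561`. -/
def BlocksAsmC561 : Prop :=
  WSpecC561 K K' → CompleteC561 K K' → SigmaC561 K K' → OpsC561 K K' → PhiC561 K K' →
    OffWC561 K K' → BlocksC561 K K'

variable {K K'}

/-- **THE TOP OF THE NODE T7.L2.2.B.** -/
theorem blocksC_of561 (hZ : BlocksAsmC561 K K') (hW : WSpecC561 K K') (hC : CompleteC561 K K')
    (hS : SigmaC561 K K') (hO : OpsC561 K K') (hP : PhiC561 K K') (hF : OffWC561 K K') :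
    BlocksC561 K K' :=
  hZ hW hC hS hO hP hF

end Blocks

/-! ## Appendix: the equation lemmas of the definitions are realised HERE -/

theorem eqns_realisedB561 : True := by
  have _r1 := @trOp561.eq_1
  have _r2 := @trOp561.eq_def
  have _r3 := @trOp561.eq_unfold
  have _w1 := @WSpecC561.eq_1
  have _w2 := @WSpecC561.eq_def
  have _w3 := @WSpecC561.eq_unfold
  have _c1 := @CompleteC561.eq_1
  have _c2 := @CompleteC561.eq_def
  have _c3 := @CompleteC561.eq_unfold
  have _s1 := @SigmaC561.eq_1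
  have _s2 := @SigmaC561.eq_def
  have _s3 := @SigmaC561.eq_unfold
  have _o1 := @OpsC561.eq_1
  have _o2 := @OpsC561.eq_def
  have _o3 := @OpsC561.eq_unfold
  have _p1 := @PhiC561.eq_1
  have _p2 := @PhiC561.eq_def
  have _p3 := @PhiC561.eq_unfold
  have _f1 := @OffWC561.eq_1
  have _f2 := @OffWC561.eq_def
  have _f3 := @OffWC561.eq_unfold
  have _z1 := @BlocksAsmC561.eq_1
  have _z2 := @BlocksAsmC561.eq_def
  have _z3 := @BlocksAsmC561.eq_unfold
  trivial

end Fermat.Agent.LT.T7.H561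

end

end
-- ===== PACK-END LT/T7/H561/BlocksSpec.lean

-- ===== PACK-BEGIN LT/T7/H19/MeanEigQ.lean
section





/-!
# Row LT, tower T7, ASSET for the node `V2BasisQC341` (row 2445): the circle means of the tower T2
# (class T, real place of `ℚ`) ARE the circle means of level 2 over `ℚ` (helper19)

OFF-MAIN.  ADDITIVE, PROVED, UNCONDITIONAL.  New names only (suffix `19`, namespace
`Fermat.Agent.LT.T7.H19`).  Vocabulary: `T2/SpecTau.lean` (helper130, blob da599473),
`T7/H826/Level2Q.lean` v1.1 (sha256 d2117efc), `H129/Comp.lean`; byte-identical copies.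

The tower T2 in the class of T5 delivers joint eigenfunctions of the `τ`-twisted circle means

    T2.MeanEigRT τ ψ w m :  ∫₀^{2π} τ(k_θ)⁻¹ ψ(g k_θ a) dθ = m(t) ψ(g),
        `k_θ` of component `rotY θ` (rotation of angle `θ/2`), `a` of component `torus t`,

level 2 over `ℚ` (`L2Q`, helper826) uses

    L2Q.MeanEigR0 ψ w m :  ∫₀^{2π} ψ(g Y_θ) dθ = m(t) ψ(g),           `Y_θ ↦ rotY θ * torus t`,
    L2Q.MeanEigR1 ψ w m :  ∫₀^{2π} e^{-iθ} ψ(g Y_θ) dθ = m(t) ψ(g),   `Y_θ ↦ rotC θ * torus t`.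

* `meanEigR0_iff19 : T2.MeanEigRT T5.trivType ψ w m ↔ L2Q.MeanEigR0 ψ w m` (no hypothesis);
* `meanEigR1_iff19 : T2.MeanEigRT L2Q.wtOne ψ w m ↔ L2Q.MeanEigR1 ψ w m` for `ψ` of type
  `wtOne` at the real place (`ψ (g k) = wtOne k * ψ g` for `k ∈ SO(2)`): `rotY θ = rotC (-θ/2)`,
  `wtOne (k_θ) = e^{-iθ/2}`, and the half circle of T2 is the full circle of `L2Q` because the
  integrand `α ↦ e^{-iα} ψ(g Y_α)` has the period `π` (`rotC (α + π) = -rotC α`, `wtOne (-1) = -1`).
  NO continuity of `θ ↦ Y_θ` is used (the change of variables and the periodicity hold for every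
  function; the splitting of the interval is done by cases on the integrability);
* `meanEigQ_iff19 : T2.MeanEigRT n.type ψ w m ↔ n.MeanEig ψ w m` (both types, SAME eigenvalue
  function `m`), and the form for cusp functions `meanEigQ_iff_of_cusp19`.
-/

set_option autoImplicit false
set_option linter.unusedSectionVars false
set_option linter.unusedVariables false

open IsDedekindDomain NumberField MeasureTheory
open Fermat.Agent.LT.H556 Fermat.Agent.LT.H556.A0 Fermat.Agent.LT.H670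

noncomputable section

namespace Fermat.Agent.LT.T7.H19

open Fermat.Agent.LT.T7.L2Q

/-! ## 1. Components -/

section Comp

variable {K : Type} [Field K] [NumberField K]

/-- The component at `w`, as a ring homomorphism `𝔸_K → ℂ`. -/
def infRH19 (w : InfinitePlace K) : Adl K →+* ℂ :=
  (InfinitePlace.Completion.extensionEmbedding w).comp (H129.evI129 w)

theorem infComp_eq_map19 (w : InfinitePlace K) (g : G K) :
    infComp w g = (g : Matrix (Fin 2) (Fin 2) (Adl K)).map (infRH19 w) := rfl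

theorem infComp_mul19 (w : InfinitePlace K) (g h : G K) :
    infComp w (g * h) = infComp w g * infComp w h := by
  rw [infComp_eq_map19, infComp_eq_map19, infComp_eq_map19, Units.val_mul, Matrix.map_mul]

theorem infComp_one19 (w : InfinitePlace K) : infComp w (1 : G K) = 1 := by
  rw [infComp_eq_map19, Units.val_one, Matrix.map_one _ (map_zero _) (map_one _)]

theorem infComp_mul_inv19 (w : InfinitePlace K) (g : G K) :
    infComp w g * infComp w g⁻¹ = 1 := by
  rw [← infComp_mul19, mul_inv_cancel, infComp_one19]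

theorem infComp_inv_mul19 (w : InfinitePlace K) (g : G K) :
    infComp w g⁻¹ * infComp w g = 1 := by
  rw [← infComp_mul19, inv_mul_cancel, infComp_one19]

theorem isLocalAtInf_mul19 {w : InfinitePlace K} {g h : G K} (hg : IsLocalAtInf w g)
    (hh : IsLocalAtInf w h) : IsLocalAtInf w (g * h) := by
  refine ⟨fun w' hw' => (H129.trivAtInf_iff129 w' _).2 ?_,
    fun v => (H129.trivAtFin_iff129 v _).2 ?_⟩
  · rw [map_mul, (H129.trivAtInf_iff129 w' g).1 (hg.1 w' hw'),
      (H129.trivAtInf_iff129 w' h).1 (hh.1 w' hw'), one_mul]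
  · rw [map_mul, (H129.trivAtFin_iff129 v g).1 (hg.2 v),
      (H129.trivAtFin_iff129 v h).1 (hh.2 v), one_mul]

theorem isLocalAtInf_inv19 {w : InfinitePlace K} {g : G K} (hg : IsLocalAtInf w g) :
    IsLocalAtInf w g⁻¹ := by
  refine ⟨fun w' hw' => (H129.trivAtInf_iff129 w' _).2 ?_,
    fun v => (H129.trivAtFin_iff129 v _).2 ?_⟩
  · rw [map_inv, (H129.trivAtInf_iff129 w' g).1 (hg.1 w' hw'), inv_one]
  · rw [map_inv, (H129.trivAtFin_iff129 v g).1 (hg.2 v), inv_one]

end Comp

/-! ## 2. The matrices -/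

theorem rotY_zero19 : rotY 0 = 1 := by
  ext i j
  fin_cases i <;> fin_cases j <;> simp [rotY]

theorem rotC_zero19 : QOut.rotC 0 = 1 := by
  ext i j
  fin_cases i <;> fin_cases j <;> simp [QOut.rotC]

/-- `rotY θ` (the rotation of angle `θ/2`) is `k_{-θ/2}` in the convention of QOut. -/
theorem rotY_eq_rotC19 (θ : ℝ) : rotY θ = QOut.rotC (-(θ / 2)) := by
  ext i j
  fin_cases i <;> fin_cases j <;> simp [rotY, QOut.rotC, Real.cos_neg, Real.sin_neg]

theorem rotC_eq_rotY19 (θ : ℝ) : QOut.rotC θ = rotY (-(2 * θ)) := by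
  rw [rotY_eq_rotC19]
  congr 1
  ring

theorem rotC_add_pi19 (α : ℝ) : QOut.rotC (α + Real.pi) = -QOut.rotC α := by
  ext i j
  fin_cases i <;> fin_cases j <;>
    simp [QOut.rotC, Real.cos_add_pi, Real.sin_add_pi]

/-! ## 3. The integral over the half circle -/

/-- For a function of period `π`: `∫₀^{2π} h(-θ/2) dθ = ∫₀^{2π} h(α) dα`.  No integrability
hypothesis. -/
theorem integral_half_circle19 (h : ℝ → ℂ) (hper : Function.Periodic h Real.pi) :
    (∫ θ in (0 : ℝ)..(2 * Real.pi), h (-(θ / 2))) = ∫ α in (0 : ℝ)..(2 * Real.pi), h α := by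
  -- the left side is `2 ∫_{-π}^{0} h`
  have e1 : (∫ θ in (0 : ℝ)..(2 * Real.pi), h (-(θ / 2)))
      = (2 : ℝ) • ∫ α in (-Real.pi)..(0 : ℝ), h α := by
    have hc : (-(1 / 2) : ℝ) ≠ 0 := by norm_num
    have h0 := intervalIntegral.integral_comp_mul_left (a := (0 : ℝ)) (b := 2 * Real.pi)
      (fun α : ℝ => h α) hc
    have hfun : (fun θ : ℝ => h (-(θ / 2))) = fun θ : ℝ => h (-(1 / 2) * θ) := by
      funext θ
      congr 1
      ring
    rw [hfun, h0]
    have hb : (-(1 / 2) : ℝ) * (2 * Real.pi) = -Real.pi := by ring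
    rw [mul_zero, hb, intervalIntegral.integral_symm, smul_neg, ← neg_smul]
    congr 1
    norm_num
  -- `∫_{-π}^{0} h = ∫_0^π h`
  have e2 : (∫ α in (-Real.pi)..(0 : ℝ), h α) = ∫ α in (0 : ℝ)..Real.pi, h α := by
    have := hper.intervalIntegral_add_eq (-Real.pi) 0
    simp only [neg_add_cancel, zero_add] at this
    exact this
  -- `∫_π^{2π} h = ∫_0^π h`
  have e3 : (∫ α in Real.pi..(2 * Real.pi), h α) = ∫ α in (0 : ℝ)..Real.pi, h α := by
    have := hper.intervalIntegral_add_eq Real.pi 0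
    simp only [zero_add] at this
    rw [two_mul]
    exact this
  -- the right side is `2 ∫_0^π h`
  have e4 : (∫ α in (0 : ℝ)..(2 * Real.pi), h α) = (2 : ℝ) • ∫ α in (0 : ℝ)..Real.pi, h α := by
    by_cases hI : IntervalIntegrable h volume 0 Real.pi
    · have hI2 : IntervalIntegrable h volume Real.pi (2 * Real.pi) := by
        have h1 := hI.comp_sub_right Real.pi
        have hfun : (fun x : ℝ => h (x - Real.pi)) = h := by
          funext x
          exact hper.sub_eq x
        rw [hfun, zero_add] at h1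
        rw [two_mul]
        exact h1
      rw [← intervalIntegral.integral_add_adjacent_intervals hI hI2, e3, two_smul]
    · have hI2 : ¬ IntervalIntegrable h volume 0 (2 * Real.pi) := by
        intro hc
        apply hI
        refine hc.mono_set ?_
        have hpi := Real.pi_pos
        rw [Set.uIcc_of_le hpi.le, Set.uIcc_of_le (by linarith : (0 : ℝ) ≤ 2 * Real.pi)]
        exact Set.Icc_subset_Icc le_rfl (by linarith)
      rw [intervalIntegral.integral_undef hI, intervalIntegral.integral_undef hI2, smul_zero]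
  rw [e1, e2, e4]

/-! ## 4. Weight zero -/

/-- **The circle means of T2 for the trivial type are the circle means of weight `0` of level 2
over `ℚ`**, with the same eigenvalue function. -/
theorem meanEigR0_iff19 (ψ : G ℚ → ℂ) (w : InfinitePlace ℚ) (m : ℝ → ℂ) :
    T2.MeanEigRT (T5.trivType : G ℚ → ℂ) ψ w m ↔ MeanEigR0 ψ w m := by
  constructor
  · intro hT t ht Y hY g
    have hY0 : infComp w (Y 0) = torus t := by
      rw [(hY 0).2, rotY_zero19, one_mul]
    have hk : T2.IsRotAt w (fun θ => Y θ * (Y 0)⁻¹) := by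
      intro θ
      refine ⟨isLocalAtInf_mul19 (hY θ).1 (isLocalAtInf_inv19 (hY 0).1), ?_⟩
      show infComp w (Y θ * (Y 0)⁻¹) = rotY θ
      rw [infComp_mul19, (hY θ).2, ← hY0, mul_assoc, infComp_mul_inv19, mul_one]
    have ha : T2.IsTorusAt w t (Y 0) := ⟨(hY 0).1, hY0⟩
    have h := hT t ht (fun θ => Y θ * (Y 0)⁻¹) (Y 0) hk ha g
    have hfun : (fun θ : ℝ => ((T5.trivType : G ℚ → ℂ) (Y θ * (Y 0)⁻¹))⁻¹
        * ψ (g * (Y θ * (Y 0)⁻¹) * Y 0)) = fun θ : ℝ => ψ (g * Y θ) := by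
      funext θ
      have e : g * (Y θ * (Y 0)⁻¹) * Y 0 = g * Y θ := by group
      rw [e]
      show (1 : ℂ)⁻¹ * ψ (g * Y θ) = ψ (g * Y θ)
      rw [inv_one, one_mul]
    have h' : (∫ θ in (0 : ℝ)..(2 * Real.pi),
        ((T5.trivType : G ℚ → ℂ) (Y θ * (Y 0)⁻¹))⁻¹ * ψ (g * (Y θ * (Y 0)⁻¹) * Y 0))
        = m t * ψ g := h
    rw [hfun] at h'
    exact h'
  · intro hL t ht k a hk ha g
    have hY : ∀ θ : ℝ, IsLocalAtInf w (k θ * a) ∧ infComp w (k θ * a) = rotY θ * torus t := by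
      intro θ
      refine ⟨isLocalAtInf_mul19 (hk θ).1 ha.1, ?_⟩
      rw [infComp_mul19, (hk θ).2, ha.2]
    have h := hL t ht (fun θ => k θ * a) hY g
    show (∫ θ in (0 : ℝ)..(2 * Real.pi),
        ((T5.trivType : G ℚ → ℂ) (k θ))⁻¹ * ψ (g * k θ * a)) = m t * ψ g
    have hfun : (fun θ : ℝ => ((T5.trivType : G ℚ → ℂ) (k θ))⁻¹ * ψ (g * k θ * a))
        = fun θ : ℝ => ψ (g * (k θ * a)) := by
      funext θ
      rw [mul_assoc]
      show (1 : ℂ)⁻¹ * ψ (g * (k θ * a)) = ψ (g * (k θ * a))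
      rw [inv_one, one_mul]
    rw [hfun]
    exact h

/-! ## 5. Weight one -/

/-- `wtOne` on an element of component `rotY θ` at the real place. -/
theorem wtOne_rotY19 {w : InfinitePlace ℚ} {k : G ℚ} {θ : ℝ} (h : infComp w k = rotY θ) :
    wtOne k = Complex.exp (Complex.I * (((-(θ / 2) : ℝ)) : ℂ)) := by
  refine wtOne_rotC ?_
  rw [Subsingleton.elim Rat.infinitePlace w, h, rotY_eq_rotC19]

/-- An element of component `-1` at the real place is in `SO(2)` and `wtOne` is `-1` on it. -/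
theorem wtOne_neg_one19 {w : InfinitePlace ℚ} {z : G ℚ} (hz : infComp w z = -1) :
    wtOne z = -1 := by
  have hz' : infComp Rat.infinitePlace z = -1 := by
    rw [Subsingleton.elim Rat.infinitePlace w, hz]
  show infComp Rat.infinitePlace z 0 0 + Complex.I * infComp Rat.infinitePlace z 0 1 = -1
  rw [hz']
  simp

theorem isArchCompact_neg_one19 {w : InfinitePlace ℚ} {z : G ℚ} (hl : IsLocalAtInf w z)
    (hz : infComp w z = -1) : IsArchCompact w z := by
  refine ⟨hl, ?_, fun _ => ?_⟩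
  · rw [hz]
    simp
  · rw [hz]
    simp [Matrix.det_neg]

/-- The integrand of the circle mean of weight one has the period `π`. -/
theorem periodic_wtOne19 {ψ : G ℚ → ℂ} {w : InfinitePlace ℚ}
    (hψ : ∀ k : G ℚ, IsArchCompact w k → ∀ g : G ℚ, ψ (g * k) = wtOne k * ψ g)
    {t : ℝ} {Y : ℝ → G ℚ}
    (hY : ∀ θ : ℝ, IsLocalAtInf w (Y θ) ∧ infComp w (Y θ) = QOut.rotC θ * torus t) (g : G ℚ) :
    Function.Periodic
      (fun α : ℝ => Complex.exp (-(Complex.I * ((α : ℝ) : ℂ))) * ψ (g * Y α)) Real.pi := by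
  intro α
  -- `Y (α + π) = Y α * z` with `z` of component `-1`
  have hzl : IsLocalAtInf w ((Y α)⁻¹ * Y (α + Real.pi)) :=
    isLocalAtInf_mul19 (isLocalAtInf_inv19 (hY α).1) (hY (α + Real.pi)).1
  have hzc : infComp w ((Y α)⁻¹ * Y (α + Real.pi)) = -1 := by
    rw [infComp_mul19, (hY (α + Real.pi)).2, rotC_add_pi19, neg_mul, ← (hY α).2, mul_neg,
      infComp_inv_mul19]
  have hYz : g * Y (α + Real.pi) = g * Y α * ((Y α)⁻¹ * Y (α + Real.pi)) := by group
  have hexp : Complex.exp (-(Complex.I * (((α + Real.pi : ℝ)) : ℂ)))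
      = -Complex.exp (-(Complex.I * ((α : ℝ) : ℂ))) := by
    have e : -(Complex.I * (((α + Real.pi : ℝ)) : ℂ))
        = -(Complex.I * ((α : ℝ) : ℂ)) + -((Real.pi : ℂ) * Complex.I) := by
      push_cast
      ring
    rw [e, Complex.exp_add, Complex.exp_neg ((Real.pi : ℂ) * Complex.I), Complex.exp_pi_mul_I]
    norm_num
  show Complex.exp (-(Complex.I * (((α + Real.pi : ℝ)) : ℂ))) * ψ (g * Y (α + Real.pi))
    = Complex.exp (-(Complex.I * ((α : ℝ) : ℂ))) * ψ (g * Y α)
  rw [hYz, hψ _ (isArchCompact_neg_one19 hzl hzc) (g * Y α), wtOne_neg_one19 hzc, hexp]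
  ring

/-- **The circle means of T2 for the type `wtOne` are the circle means of weight one of level 2
over `ℚ`**, with the same eigenvalue function (for a function of type `wtOne`). -/
theorem meanEigR1_iff19 (ψ : G ℚ → ℂ) (w : InfinitePlace ℚ) (m : ℝ → ℂ)
    (hψ : ∀ k : G ℚ, IsArchCompact w k → ∀ g : G ℚ, ψ (g * k) = wtOne k * ψ g) :
    T2.MeanEigRT wtOne ψ w m ↔ MeanEigR1 ψ w m := by
  constructor
  · intro hT t ht Y hY g
    have hY0 : infComp w (Y 0) = torus t := by
      rw [(hY 0).2, rotC_zero19, one_mul]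
    have hk : T2.IsRotAt w (fun θ => Y (-(θ / 2)) * (Y 0)⁻¹) := by
      intro θ
      refine ⟨isLocalAtInf_mul19 (hY _).1 (isLocalAtInf_inv19 (hY 0).1), ?_⟩
      show infComp w (Y (-(θ / 2)) * (Y 0)⁻¹) = rotY θ
      rw [infComp_mul19, (hY _).2, ← hY0, mul_assoc, infComp_mul_inv19, mul_one,
        rotY_eq_rotC19]
    have ha : T2.IsTorusAt w t (Y 0) := ⟨(hY 0).1, hY0⟩
    have h : (∫ θ in (0 : ℝ)..(2 * Real.pi),
        (wtOne (Y (-(θ / 2)) * (Y 0)⁻¹))⁻¹ * ψ (g * (Y (-(θ / 2)) * (Y 0)⁻¹) * Y 0))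
        = m t * ψ g := hT t ht (fun θ => Y (-(θ / 2)) * (Y 0)⁻¹) (Y 0) hk ha g
    have hfun : (fun θ : ℝ => (wtOne (Y (-(θ / 2)) * (Y 0)⁻¹))⁻¹
        * ψ (g * (Y (-(θ / 2)) * (Y 0)⁻¹) * Y 0))
        = fun θ : ℝ => (fun α : ℝ => Complex.exp (-(Complex.I * ((α : ℝ) : ℂ))) * ψ (g * Y α))
            (-(θ / 2)) := by
      funext θ
      have e : g * (Y (-(θ / 2)) * (Y 0)⁻¹) * Y 0 = g * Y (-(θ / 2)) := by group
      rw [e, wtOne_rotY19 (hk θ).2, ← Complex.exp_neg]
    rw [hfun, integral_half_circle19 _ (periodic_wtOne19 hψ hY g)] at h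
    exact h
  · intro hL t ht k a hk ha g
    have hY : ∀ θ : ℝ, IsLocalAtInf w (k (-(2 * θ)) * a)
        ∧ infComp w (k (-(2 * θ)) * a) = QOut.rotC θ * torus t := by
      intro θ
      refine ⟨isLocalAtInf_mul19 (hk _).1 ha.1, ?_⟩
      rw [infComp_mul19, (hk _).2, ha.2, rotC_eq_rotY19]
    have h : (∫ θ in (0 : ℝ)..(2 * Real.pi),
        Complex.exp (-(Complex.I * ((θ : ℝ) : ℂ))) * ψ (g * (k (-(2 * θ)) * a))) = m t * ψ g :=
      hL t ht (fun θ => k (-(2 * θ)) * a) hY g
    show (∫ θ in (0 : ℝ)..(2 * Real.pi), (wtOne (k θ))⁻¹ * ψ (g * k θ * a)) = m t * ψ g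
    have hfun : (fun θ : ℝ => (wtOne (k θ))⁻¹ * ψ (g * k θ * a))
        = fun θ : ℝ => (fun α : ℝ => Complex.exp (-(Complex.I * ((α : ℝ) : ℂ)))
            * ψ (g * (k (-(2 * α)) * a))) (-(θ / 2)) := by
      funext θ
      have e : -(2 * -(θ / 2)) = θ := by ring
      show (wtOne (k θ))⁻¹ * ψ (g * k θ * a)
        = Complex.exp (-(Complex.I * (((-(θ / 2) : ℝ)) : ℂ))) * ψ (g * (k (-(2 * -(θ / 2))) * a))
      rw [e, wtOne_rotY19 (hk θ).2, ← Complex.exp_neg, mul_assoc]
    rw [hfun, integral_half_circle19 _ (periodic_wtOne19 hψ hY g)]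
    exact h

/-! ## 6. Both types -/

/-- **ADAPTER T2 ↔ L2Q at the real place of `ℚ`**: for a function of type `n.type` the
`n.type`-twisted circle means of the tower T2 and the circle means of type `n` of level 2 are
the same operators; the eigenvalue functions are EQUAL. -/
theorem meanEigQ_iff19 (n : QWt) (ψ : G ℚ → ℂ) (w : InfinitePlace ℚ) (m : ℝ → ℂ)
    (hψ : ∀ k : G ℚ, IsArchCompact w k → ∀ g : G ℚ, ψ (g * k) = n.type k * ψ g) :
    T2.MeanEigRT n.type ψ w m ↔ n.MeanEig ψ w m := by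
  cases n with
  | w0 => exact meanEigR0_iff19 ψ w m
  | w1 => exact meanEigR1_iff19 ψ w m hψ

/-- The adapter for the cusp functions of type `n`. -/
theorem meanEigQ_iff_of_cusp19 {n : QWt} {𝔫 : Ideal (𝓞 ℚ)} {r : G ℚ} {ψ : G ℚ → ℂ}
    (h : T5.IsCuspFn 𝔫 n.type r ψ) (w : InfinitePlace ℚ) (m : ℝ → ℂ) :
    T2.MeanEigRT n.type ψ w m ↔ n.MeanEig ψ w m :=
  meanEigQ_iff19 n ψ w m (fun k hk g => h.aut.arch_compact w k hk g)

/-- The adapter for the class `T2.IsCuspT` of the tower T2. -/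
theorem meanEigQ_iff_of_cuspT19 {n : QWt} {𝔫 : Ideal (𝓞 ℚ)} {r : G ℚ} {ψ : G ℚ → ℂ}
    (h : T2.IsCuspT 𝔫 n.type r ψ) (w : InfinitePlace ℚ) (m : ℝ → ℂ) :
    T2.MeanEigRT n.type ψ w m ↔ n.MeanEig ψ w m :=
  meanEigQ_iff19 n ψ w m (fun k hk g => h.aut.arch_compact w k hk g)

end Fermat.Agent.LT.T7.H19

end

end
-- ===== PACK-END LT/T7/H19/MeanEigQ.lean

-- ===== PACK-BEGIN LT/T7/H547/FinAvgCusp.lean
section






/-!
# Row LT, tower T7, sub-station PROJ (helper193), leaf PROJ.3 = FIN-AVG-CUSP (helper547)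

OFF-MAIN.  `finAvgCuspC547 K : H193.FinAvgCuspC K` VERBATIM (Prop of `T7/H193/ProjSpec.lean`).

The finite average `P_f ψ = |Rep|⁻¹ ∑_{h ∈ Rep} ψ(· h)` of a cusp function of level `𝔑` is a cusp
function of level `𝔑₀`, Iwahori-invariant along the orbit.  Assets used (byte-identical copies):
`T2/H566/CuspSub.lean` (integrability of the constant-term integrand), `T2/H429/Loc.lean`
(elements with disjoint supports commute), `T5/H599/Ray.lean` (the ray generator is central).
-/

set_option autoImplicit false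
set_option linter.unusedSectionVars false
set_option linter.style.haveILetI false

open IsDedekindDomain NumberField MeasureTheory

noncomputable section

namespace Fermat.Agent.LT.T7.H547

open Fermat.Agent.LT.H556 Fermat.Agent.LT.H556.A0 Fermat.Agent.LT
open Fermat.Agent.LT.T7.H193 Fermat.Agent.LT.H129

variable {K : Type} [Field K] [NumberField K]

/-- The members of `Rep` are trivial at every infinite place. -/
theorem rep_trivAtInf547 {𝔑 𝔑₀ : Ideal (𝓞 K)} {l : ℕ} {o : ℕ → HeightOneSpectrum (𝓞 K)}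
    {Rep : Finset (G K)} (hRep : IsFinData 𝔑 𝔑₀ l o Rep) {h : G K} (hh : h ∈ Rep)
    (w : InfinitePlace K) : infCompHom129 w h = 1 := by
  obtain ⟨i, u, hi, hu, rfl⟩ := hRep.mem h hh
  rw [map_mul, (trivAtInf_iff129 w i).1 (hi.1 w), (trivAtInf_iff129 w u).1 (hu.1 w), one_mul]

/-- The members of `Rep` commute with the elements supported at an infinite place. -/
theorem rep_commute_inf547 {𝔑 𝔑₀ : Ideal (𝓞 K)} {l : ℕ} {o : ℕ → HeightOneSpectrum (𝓞 K)}
    {Rep : Finset (G K)} (hRep : IsFinData 𝔑 𝔑₀ l o Rep) {h : G K} (hh : h ∈ Rep)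
    {w : InfinitePlace K} {k : G K} (hk : IsLocalAtInf w k) : k * h = h * k := by
  rw [T2.H429.isLocalAtInf_iff429] at hk
  exact T2.H429.commute_of_disjoint429 (fun w' => Or.inr (rep_trivAtInf547 hRep hh w'))
    (fun v => Or.inl (hk.2 v))

theorem finAvg_apply547 (Rep : Finset (G K)) (ψ : G K → ℂ) (g : G K) :
    finAvg Rep ψ g = ((Rep.card : ℂ))⁻¹ * ∑ h ∈ Rep, ψ (g * h) := rfl

/-- Continuity of the finite average. -/
theorem continuous_finAvg547 (Rep : Finset (G K)) {ψ : G K → ℂ} (hψ : Continuous ψ) :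
    Continuous (finAvg Rep ψ) := by
  unfold finAvg
  refine continuous_const.mul (continuous_finset_sum _ fun h _ => ?_)
  exact hψ.comp (continuous_id.mul continuous_const)

/-- The finite average is bounded. -/
theorem bdd_finAvg547 (Rep : Finset (G K)) {ψ : G K → ℂ} (hψ : ∃ C : ℝ, ∀ g : G K, ‖ψ g‖ ≤ C) :
    ∃ C : ℝ, ∀ g : G K, ‖finAvg Rep ψ g‖ ≤ C := by
  obtain ⟨C, hC⟩ := hψ
  refine ⟨‖((Rep.card : ℂ))⁻¹‖ * ∑ _h ∈ Rep, C, fun g => ?_⟩
  rw [finAvg_apply547, norm_mul]
  refine mul_le_mul_of_nonneg_left ?_ (norm_nonneg _)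
  exact (norm_sum_le _ _).trans (Finset.sum_le_sum fun h _ => hC _)

/-- The constant term of the finite average vanishes. -/
theorem cuspidal_finAvg547 (hFD : T1.AddFundDomC K) (Rep : Finset (G K)) {ψ : G K → ℂ}
    (hc : Continuous ψ) (hb : ∃ C : ℝ, ∀ g : G K, ‖ψ g‖ ≤ C) (hψ : IsCuspidalFn ψ) :
    IsCuspidalFn (finAvg Rep ψ) := by
  letI : MeasurableSpace (Adl K) := borel (Adl K)
  intro μ hμ D hD n hn g
  have e : (fun x => finAvg Rep ψ (n x * g))
      = fun x => ((Rep.card : ℂ))⁻¹ * ∑ h ∈ Rep, ψ (n x * (g * h)) := by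
    funext x
    rw [finAvg_apply547]
    simp only [mul_assoc]
  rw [e, integral_const_mul, integral_finset_sum]
  · rw [Finset.sum_eq_zero fun h _ => hψ μ hμ D hD n hn (g * h), mul_zero]
  · intro h _
    exact T2.H566.integrable_unip566 hFD hc hb μ hμ D hD n hn (g * h)

/-- **LEAF PROJ.3 = FIN-AVG-CUSP** (`T7/H193/ProjSpec.lean`), VERBATIM. -/
theorem finAvgCuspC547 (K : Type) [Field K] [NumberField K] : FinAvgCuspC K := by
  intro hT1 𝔑 𝔑₀ l o Rep hRep r hr ψ hψ
  refine ⟨⟨continuous_finAvg547 Rep hψ.cont, bdd_finAvg547 Rep hψ.bdd, ⟨?_, ?_, ?_, ?_⟩,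
    cuspidal_finAvg547 hT1.addFundDom Rep hψ.cont hψ.bdd hψ.cuspidal⟩, ?_⟩
  · -- left invariance under `GL₂(K)`
    intro γ g
    rw [finAvg_apply547, finAvg_apply547]
    congr 1
    refine Finset.sum_congr rfl fun h _ => ?_
    rw [mul_assoc]
    exact hψ.aut.left_inv γ (g * h)
  · -- right invariance under `U(𝔑₀)`
    intro u hu g
    rw [finAvg_apply547, finAvg_apply547]
    congr 1
    exact hRep.perm_level ψ hψ.aut.level_inv u hu g
  · -- trivial `K_∞`-type
    intro w k hk g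
    rw [finAvg_apply547, finAvg_apply547]
    have htriv : T5.trivType k = 1 := rfl
    rw [htriv, one_mul]
    congr 1
    refine Finset.sum_congr rfl fun h hh => ?_
    rw [mul_assoc, rep_commute_inf547 hRep hh hk.1, ← mul_assoc]
    have := hψ.aut.arch_compact w k hk (g * h)
    rw [this, htriv, one_mul]
  · -- the ray
    intro g
    rw [finAvg_apply547, finAvg_apply547]
    congr 1
    refine Finset.sum_congr rfl fun h _ => ?_
    rw [mul_assoc, T5.H599.ray_commute599 hr h, ← mul_assoc]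
    exact hψ.aut.ray (g * h)
  · -- Iwahori invariance along the orbit
    rw [isIwInv_iff]
    intro h₀ hh₀ x
    rw [finAvg_apply547, finAvg_apply547]
    congr 1
    exact hRep.perm_iw ψ hψ.aut.level_inv h₀ hh₀ x

end Fermat.Agent.LT.T7.H547

end

end
-- ===== PACK-END LT/T7/H547/FinAvgCusp.lean

-- ===== PACK-BEGIN LT/T7/H613/UnitInv.lean
section



/-!
# Row LT, tower T7, node T7.L2.1 `SupplyC`, station PROJ, LEAF PROJ.6 = UNIT-INV (helper613)

OFF-MAIN.  Registry row 2143 (`T7.L2.1.P08 UnitInvC`).  Complete proof, nothing assumed.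
Spec: `Fermat/Agent/LT/T7/H193/ProjSpec.lean` (helper193, sha256 977a85e3...), byte-identical
copy; imports = Mathlib + the closure of the spec, nothing else.

    unitInvC613 (K) : H193.UnitInvC K

## Proof

All the elements are scalar matrices.  Let `E` be the scalar matrix `ε` of `GL₂(K)`; it is
central in `GL₂(𝔸_K)`, so `e(g E) = e(E g) = e(g)` (`left_inv`).  Componentwise
(`ext613`: an element of `GL₂(𝔸_K)` is determined by its components, the `extensionEmbedding`s
being injective)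

    E = z · k · u,

* `k` = the scalar matrix of the idele `(ε_w / ζ_w)_w` (`1` at the finite places), `ζ_w` the
  entry of `z` at `w`, which goes to `|ε|_w` under `extensionEmbedding`.  `k` is the product, in
  the commutative group of ideles, of the ideles `kLoc613 c w` supported at one infinite place;
  each of these is in `U(2)` (`|ε_w / |ε|_w| = 1`) and has determinant `(ε_w / |ε|_w)² = 1` at a
  real place, so `IsArchCompact`, and `e` is right invariant under it (`arch_compact` with the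
  trivial type);
* `u` = the scalar matrix of the finite idele `ε_f`; `u ∈ U(𝔑)` because `ε - 1 ∈ 𝔑` and
  `ε⁻¹ - 1 = -ε⁻¹ (ε - 1) ∈ 𝔑`.
-/

set_option autoImplicit false

open IsDedekindDomain NumberField

noncomputable section

namespace Fermat.Agent.LT.T7.H613

open Fermat.Agent.LT.H556 Fermat.Agent.LT.H556.A0 Fermat.Agent.LT

variable {K : Type} [Field K] [NumberField K]

/-! ## 1. Components -/

theorem infHom_algebraMap613 (w : InfinitePlace K) (x : K) :
    T5.infHom w (algebraMap K (Adl K) x) = w.embedding x := by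
  show InfinitePlace.Completion.extensionEmbedding w ((algebraMap K (Adl K) x).1 w) = _
  exact InfinitePlace.Completion.extensionEmbedding_coe w (WithAbs.toAbs _ x)

theorem finHom_algebraMap613 (v : HeightOneSpectrum (𝓞 K)) (x : K) :
    T5.finHom v (algebraMap K (Adl K) x) = algebraMap K (v.adicCompletion K) x := rfl

theorem infComp_mul613 (w : InfinitePlace K) (g h : G K) :
    infComp w (g * h) = infComp w g * infComp w h := by
  rw [T5.infComp_eq_map, T5.infComp_eq_map, T5.infComp_eq_map, Units.val_mul, Matrix.map_mul]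

theorem finComp_mul613 (v : HeightOneSpectrum (𝓞 K)) (g h : G K) :
    finComp v (g * h) = finComp v g * finComp v h := by
  rw [T5.finComp_eq_map, T5.finComp_eq_map, T5.finComp_eq_map, Units.val_mul, Matrix.map_mul]

/-- An element of `GL₂(𝔸_K)` is determined by its components. -/
theorem ext613 {g h : G K} (hi : ∀ w : InfinitePlace K, infComp w g = infComp w h)
    (hf : ∀ v : HeightOneSpectrum (𝓞 K), finComp v g = finComp v h) : g = h := by
  apply Units.ext
  ext i j
  refine Prod.ext (funext fun w => ?_) (RestrictedProduct.ext _ _ fun v => ?_)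
  · exact (InfinitePlace.Completion.extensionEmbedding w).injective
      (congrFun (congrFun (hi w) i) j)
  · exact congrFun (congrFun (hf v) i) j

theorem infComp_scalar613 (w : InfinitePlace K) (a : (Adl K)ˣ) :
    infComp w (Matrix.GeneralLinearGroup.scalar (Fin 2) a)
      = Matrix.diagonal fun _ => T5.infHom w (a : Adl K) := by
  rw [T5.infComp_eq_map, Matrix.GeneralLinearGroup.coe_scalar, Matrix.scalar_apply,
    Matrix.diagonal_map (map_zero _)]

theorem finComp_scalar613 (v : HeightOneSpectrum (𝓞 K)) (a : (Adl K)ˣ) :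
    finComp v (Matrix.GeneralLinearGroup.scalar (Fin 2) a)
      = Matrix.diagonal fun _ => T5.finHom v (a : Adl K) := by
  rw [T5.finComp_eq_map, Matrix.GeneralLinearGroup.coe_scalar, Matrix.scalar_apply,
    Matrix.diagonal_map (map_zero _)]

theorem trivAtInf_scalar613 (w : InfinitePlace K) (a : (Adl K)ˣ)
    (ha : (a : Adl K).1 w = 1) :
    TrivAtInf w (Matrix.GeneralLinearGroup.scalar (Fin 2) a) := by
  intro i j
  rw [Matrix.GeneralLinearGroup.coe_scalar, Matrix.scalar_apply]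
  by_cases hij : i = j
  · subst hij
    rw [Matrix.diagonal_apply_eq, Matrix.one_apply_eq, ha]
  · rw [Matrix.diagonal_apply_ne _ hij, Matrix.one_apply_ne hij]
    rfl

theorem trivAtFin_scalar613 (v : HeightOneSpectrum (𝓞 K)) (a : (Adl K)ˣ)
    (ha : T5.finHom v (a : Adl K) = 1) :
    TrivAtFin v (Matrix.GeneralLinearGroup.scalar (Fin 2) a) := by
  show finComp v _ = 1
  rw [finComp_scalar613, ha, Matrix.diagonal_one]

/-! ## 2. Ideles -/

/-- The idele with the given components. -/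
def idl613 (c : (w : InfinitePlace K) → (w.Completion)ˣ) (d : (FiniteAdeleRing (𝓞 K) K)ˣ) :
    (Adl K)ˣ where
  val := ((fun w => ((c w : (w.Completion)ˣ) : w.Completion)), (d : FiniteAdeleRing (𝓞 K) K))
  inv := ((fun w => (((c w)⁻¹ : (w.Completion)ˣ) : w.Completion)),
    ((d⁻¹ : (FiniteAdeleRing (𝓞 K) K)ˣ) : FiniteAdeleRing (𝓞 K) K))
  val_inv := Prod.ext (funext fun w => (c w).mul_inv) d.mul_inv
  inv_val := Prod.ext (funext fun w => (c w).inv_mul) d.inv_mul


theorem infHom_idl613 (w : InfinitePlace K) (c : (w : InfinitePlace K) → (w.Completion)ˣ)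
    (d : (FiniteAdeleRing (𝓞 K) K)ˣ) :
    T5.infHom w (idl613 c d : Adl K)
      = InfinitePlace.Completion.extensionEmbedding w ((c w : (w.Completion)ˣ) : w.Completion) :=
  rfl

theorem fst_idl613 (w : InfinitePlace K) (c : (w : InfinitePlace K) → (w.Completion)ˣ)
    (d : (FiniteAdeleRing (𝓞 K) K)ˣ) :
    (idl613 c d : Adl K).1 w = ((c w : (w.Completion)ˣ) : w.Completion) := rfl

theorem finHom_idl613 (v : HeightOneSpectrum (𝓞 K)) (c : (w : InfinitePlace K) → (w.Completion)ˣ)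
    (d : (FiniteAdeleRing (𝓞 K) K)ˣ) :
    T5.finHom v (idl613 c d : Adl K) = (d : FiniteAdeleRing (𝓞 K) K) v := rfl

/-- The ideles which are `1` at the finite places. -/
def idlInf613 : ((w : InfinitePlace K) → (w.Completion)ˣ) →* (Adl K)ˣ where
  toFun c := idl613 c 1
  map_one' := Units.ext rfl
  map_mul' _ _ := Units.ext (Prod.ext rfl (mul_one _).symm)

/-- The ideles which are `1` at the infinite places. -/
def idlFin613 : (FiniteAdeleRing (𝓞 K) K)ˣ →* (Adl K)ˣ where
  toFun d := idl613 1 d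
  map_one' := Units.ext rfl
  map_mul' _ _ := Units.ext (Prod.ext (mul_one _).symm rfl)

/-- The finite idele of a unit of `𝒪_K`, as a scalar matrix. -/
def unitFin613 : (𝓞 K)ˣ →* G K :=
  (Matrix.GeneralLinearGroup.scalar (Fin 2)).comp
    (idlFin613.comp (Units.map
      ((algebraMap K (FiniteAdeleRing (𝓞 K) K)).comp (algebraMap (𝓞 K) K)).toMonoidHom))

theorem finComp_unitFin613 (v : HeightOneSpectrum (𝓞 K)) (η : (𝓞 K)ˣ) :
    finComp v (unitFin613 η)
      = Matrix.diagonal fun _ =>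
          algebraMap K (v.adicCompletion K) (algebraMap (𝓞 K) K (η : 𝓞 K)) :=
  finComp_scalar613 v _

theorem infComp_unitFin613 (w : InfinitePlace K) (η : (𝓞 K)ˣ) :
    infComp w (unitFin613 η) = 1 := by
  refine (infComp_scalar613 w _).trans ?_
  have h : ∀ d : (FiniteAdeleRing (𝓞 K) K)ˣ,
      T5.infHom w ((idlFin613 d : (Adl K)ˣ) : Adl K) = 1 :=
    fun d => (infHom_idl613 w _ _).trans (map_one _)
  exact (congrArg Matrix.diagonal (funext fun _ => h _)).trans Matrix.diagonal_one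

theorem trivAtInf_unitFin613 (w : InfinitePlace K) (η : (𝓞 K)ˣ) :
    TrivAtInf w (unitFin613 η) :=
  trivAtInf_scalar613 w _ rfl

theorem unitFin_half613 (𝔑 : Ideal (𝓞 K)) (η : (𝓞 K)ˣ) (hη : (η : 𝓞 K) - 1 ∈ 𝔑)
    (v : HeightOneSpectrum (𝓞 K)) (i j : Fin 2) :
    (finComp v (unitFin613 η) - 1) i j ∈ idealClosure 𝔑 v := by
  rw [finComp_unitFin613]
  apply subset_closure
  by_cases hij : i = j
  · subst hij
    refine ⟨(η : 𝓞 K) - 1, hη, ?_⟩
    show algebraMap K (v.adicCompletion K) (algebraMap (𝓞 K) K ((η : 𝓞 K) - 1)) = _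
    rw [Matrix.sub_apply, Matrix.diagonal_apply_eq, Matrix.one_apply_eq, map_sub, map_sub,
      map_one, map_one]
  · refine ⟨0, 𝔑.zero_mem, ?_⟩
    show algebraMap K (v.adicCompletion K) (algebraMap (𝓞 K) K 0) = _
    rw [Matrix.sub_apply, Matrix.diagonal_apply_ne _ hij, Matrix.one_apply_ne hij, map_zero,
      map_zero, sub_zero]

theorem inLevelGroup_unitFin613 (𝔑 : Ideal (𝓞 K)) (ε : (𝓞 K)ˣ) (hε : (ε : 𝓞 K) - 1 ∈ 𝔑) :
    InLevelGroup 𝔑 (unitFin613 ε) := by
  refine ⟨fun w => trivAtInf_unitFin613 w ε, fun v i j => ⟨unitFin_half613 𝔑 ε hε v i j, ?_⟩⟩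
  rw [← map_inv]
  refine unitFin_half613 𝔑 ε⁻¹ ?_ v i j
  have h : ((ε⁻¹ : (𝓞 K)ˣ) : 𝓞 K) - 1 = -((ε⁻¹ : (𝓞 K)ˣ) : 𝓞 K) * ((ε : 𝓞 K) - 1) := by
    have h1 : ((ε⁻¹ : (𝓞 K)ˣ) : 𝓞 K) * (ε : 𝓞 K) = 1 := ε.inv_mul
    linear_combination h1
  rw [h]
  exact 𝔑.mul_mem_left _ hε

/-! ## 3. The stabiliser -/

/-- The right stabiliser of a function. -/
def stab613 (e : G K → ℂ) : Submonoid (G K) where
  carrier := {h | ∀ x : G K, e (x * h) = e x}
  one_mem' := fun x => by rw [mul_one]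
  mul_mem' := fun {a b} ha hb x => by rw [← mul_assoc, hb, ha]

theorem mem_stab613 {e : G K → ℂ} {h : G K} :
    h ∈ stab613 e ↔ ∀ x : G K, e (x * h) = e x := Iff.rfl


/-! ## 4. The rational scalar -/

theorem ratG_scalar613 (a : Kˣ) :
    T5.ratG (Matrix.GeneralLinearGroup.scalar (Fin 2) a)
      = Matrix.GeneralLinearGroup.scalar (Fin 2)
          (Units.map (algebraMap K (Adl K)).toMonoidHom a) := by
  apply Units.ext
  show ((Matrix.scalar (Fin 2) (a : K)).map (algebraMap K (Adl K)))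
    = Matrix.scalar (Fin 2) (algebraMap K (Adl K) a)
  rw [Matrix.scalar_apply, Matrix.scalar_apply, Matrix.diagonal_map (map_zero _)]

theorem ratG_scalar_comm613 (a : Kˣ) (x : G K) :
    x * T5.ratG (Matrix.GeneralLinearGroup.scalar (Fin 2) a)
      = T5.ratG (Matrix.GeneralLinearGroup.scalar (Fin 2) a) * x := by
  rw [ratG_scalar613]
  exact (Matrix.GeneralLinearGroup.scalar_commute _ x).symm

theorem infComp_ratG_scalar613 (w : InfinitePlace K) (a : Kˣ) :
    infComp w (T5.ratG (Matrix.GeneralLinearGroup.scalar (Fin 2) a))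
      = Matrix.diagonal fun _ => w.embedding (a : K) := by
  rw [ratG_scalar613, infComp_scalar613]
  exact congrArg Matrix.diagonal (funext fun _ => infHom_algebraMap613 w (a : K))

theorem finComp_ratG_scalar613 (v : HeightOneSpectrum (𝓞 K)) (a : Kˣ) :
    finComp v (T5.ratG (Matrix.GeneralLinearGroup.scalar (Fin 2) a))
      = Matrix.diagonal fun _ => algebraMap K (v.adicCompletion K) (a : K) := by
  rw [ratG_scalar613, finComp_scalar613]
  rfl

/-! ## 5. The compact pieces at the infinite places -/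

section Arch

variable [DecidableEq (InfinitePlace K)]

/-- The scalar matrix which is `c w` at `w` and `1` elsewhere. -/
def kLoc613 (c : (w : InfinitePlace K) → (w.Completion)ˣ) (w : InfinitePlace K) : (Adl K)ˣ :=
  idlInf613 (Pi.mulSingle w (c w))

theorem prod_kLoc613 (c : (w : InfinitePlace K) → (w.Completion)ˣ) :
    ∏ w : InfinitePlace K, kLoc613 c w = idlInf613 c := by
  unfold kLoc613
  rw [← map_prod, Finset.univ_prod_mulSingle]

theorem isLocalAtInf_kLoc613 (c : (w : InfinitePlace K) → (w.Completion)ˣ)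
    (w : InfinitePlace K) :
    IsLocalAtInf w (Matrix.GeneralLinearGroup.scalar (Fin 2) (kLoc613 c w)) := by
  refine ⟨fun w' hw' => trivAtInf_scalar613 w' _ ?_, fun v => trivAtFin_scalar613 v _ rfl⟩
  show (((Pi.mulSingle w (c w) : (w : InfinitePlace K) → (w.Completion)ˣ) w' :
    (w'.Completion)ˣ) : w'.Completion) = 1
  rw [Pi.mulSingle_eq_of_ne hw']
  rfl

theorem infComp_kLoc613 (c : (w : InfinitePlace K) → (w.Completion)ˣ) (w : InfinitePlace K) :
    infComp w (Matrix.GeneralLinearGroup.scalar (Fin 2) (kLoc613 c w))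
      = Matrix.diagonal fun _ =>
          InfinitePlace.Completion.extensionEmbedding w ((c w : (w.Completion)ˣ) : w.Completion) := by
  refine (infComp_scalar613 w _).trans (congrArg Matrix.diagonal (funext fun _ => ?_))
  show InfinitePlace.Completion.extensionEmbedding w
    (((Pi.mulSingle w (c w) : (w : InfinitePlace K) → (w.Completion)ˣ) w :
      (w.Completion)ˣ) : w.Completion) = _
  rw [Pi.mulSingle_eq_same]

theorem isArchCompact_kLoc613 (c : (w : InfinitePlace K) → (w.Completion)ˣ)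
    (w : InfinitePlace K)
    (h1 : InfinitePlace.Completion.extensionEmbedding w ((c w : (w.Completion)ˣ) : w.Completion)
      * (starRingEnd ℂ) (InfinitePlace.Completion.extensionEmbedding w
          ((c w : (w.Completion)ˣ) : w.Completion)) = 1)
    (h2 : w.IsReal →
      InfinitePlace.Completion.extensionEmbedding w ((c w : (w.Completion)ˣ) : w.Completion)
        * InfinitePlace.Completion.extensionEmbedding w
            ((c w : (w.Completion)ˣ) : w.Completion) = 1) :
    IsArchCompact w (Matrix.GeneralLinearGroup.scalar (Fin 2) (kLoc613 c w)) := by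
  refine ⟨isLocalAtInf_kLoc613 c w, ?_, fun hw => ?_⟩
  · rw [infComp_kLoc613, Matrix.diagonal_conjTranspose, Matrix.diagonal_mul_diagonal]
    rw [← Matrix.diagonal_one]
    exact congrArg Matrix.diagonal (funext fun _ => h1)
  · rw [infComp_kLoc613, Matrix.det_diagonal, Fin.prod_univ_two]
    exact h2 hw

end Arch


/-! ## 6. The leaf -/

/-- **LEAF PROJ.6 = UNIT-INV** (`H193.UnitInvC`). -/
theorem unitInvC613 (K : Type) [Field K] [NumberField K] : H193.UnitInvC K := by
  classical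
  intro 𝔑 r e he ε hε z hzf hzi g
  -- the unit as an element of `K`
  have hε0 : algebraMap (𝓞 K) K (ε : 𝓞 K) ≠ 0 := by
    intro h
    exact ε.ne_zero ((FaithfulSMul.algebraMap_injective (𝓞 K) K) (h.trans (map_zero _).symm))
  have hpos : ∀ w : InfinitePlace K, 0 < w (algebraMap (𝓞 K) K (ε : 𝓞 K)) :=
    fun w => (InfinitePlace.pos_iff).mpr hε0
  -- the entry of `z`
  have hζ : ∀ w : InfinitePlace K,
      InfinitePlace.Completion.extensionEmbedding w
        (((z : Matrix (Fin 2) (Fin 2) (Adl K)) 0 0).1 w)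
        = ((w (algebraMap (𝓞 K) K (ε : 𝓞 K)) : ℝ) : ℂ) := fun w => by
    have h := congrFun (congrFun (hzi w) 0) 0
    rwa [Matrix.diagonal_apply_eq] at h
  have hζ0 : ∀ w : InfinitePlace K, ((z : Matrix (Fin 2) (Fin 2) (Adl K)) 0 0).1 w ≠ 0 := by
    intro w h
    have h' := hζ w
    rw [h, map_zero] at h'
    exact (hpos w).ne' (by exact_mod_cast h'.symm)
  have hεw0 : ∀ w : InfinitePlace K,
      (algebraMap K (Adl K) (algebraMap (𝓞 K) K (ε : 𝓞 K))).1 w ≠ 0 := by
    intro w h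
    have h' := infHom_algebraMap613 w (algebraMap (𝓞 K) K (ε : 𝓞 K))
    have h'' : T5.infHom w (algebraMap K (Adl K) (algebraMap (𝓞 K) K (ε : 𝓞 K))) = 0 :=
      (congrArg (InfinitePlace.Completion.extensionEmbedding w) h).trans (map_zero _)
    rw [h''] at h'
    exact hε0 ((map_eq_zero _).mp h'.symm)
  -- the quotient `ε / |ε|` at the infinite places
  let c : (w : InfinitePlace K) → (w.Completion)ˣ := fun w =>
    Units.mk0 ((algebraMap K (Adl K) (algebraMap (𝓞 K) K (ε : 𝓞 K))).1 w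
      / ((z : Matrix (Fin 2) (Fin 2) (Adl K)) 0 0).1 w) (div_ne_zero (hεw0 w) (hζ0 w))
  have hc : ∀ w : InfinitePlace K,
      InfinitePlace.Completion.extensionEmbedding w ((c w : (w.Completion)ˣ) : w.Completion)
        = w.embedding (algebraMap (𝓞 K) K (ε : 𝓞 K))
          / ((w (algebraMap (𝓞 K) K (ε : 𝓞 K)) : ℝ) : ℂ) := fun w => by
    show InfinitePlace.Completion.extensionEmbedding w (_ / _) = _
    rw [map_div₀, hζ w]
    exact congrArg (· / _) (infHom_algebraMap613 w _)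
  have hne : ∀ w : InfinitePlace K, ((w (algebraMap (𝓞 K) K (ε : 𝓞 K)) : ℝ) : ℂ) ≠ 0 :=
    fun w => by exact_mod_cast (hpos w).ne'
  have hc1 : ∀ w : InfinitePlace K,
      InfinitePlace.Completion.extensionEmbedding w ((c w : (w.Completion)ˣ) : w.Completion)
        * (starRingEnd ℂ) (InfinitePlace.Completion.extensionEmbedding w
          ((c w : (w.Completion)ˣ) : w.Completion)) = 1 := fun w => by
    rw [hc w, Complex.mul_conj, Complex.normSq_eq_norm_sq, norm_div,
      InfinitePlace.norm_embedding_eq, Complex.norm_real, Real.norm_of_nonneg (hpos w).le,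
      div_self (hpos w).ne', one_pow, Complex.ofReal_one]
  have hc2 : ∀ w : InfinitePlace K, w.IsReal →
      InfinitePlace.Completion.extensionEmbedding w ((c w : (w.Completion)ˣ) : w.Completion)
        * InfinitePlace.Completion.extensionEmbedding w
          ((c w : (w.Completion)ˣ) : w.Completion) = 1 := fun w hw => by
    have hconj : (starRingEnd ℂ) (InfinitePlace.Completion.extensionEmbedding w
          ((c w : (w.Completion)ˣ) : w.Completion))
        = InfinitePlace.Completion.extensionEmbedding w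
          ((c w : (w.Completion)ˣ) : w.Completion) := by
      rw [hc w, map_div₀, Complex.conj_ofReal]
      have h := InfinitePlace.conjugate_embedding_eq_of_isReal hw
      have h' := congrArg (fun φ : K →+* ℂ => φ (algebraMap (𝓞 K) K (ε : 𝓞 K))) h
      simp only [ComplexEmbedding.conjugate_coe_eq] at h'
      rw [h']
    have h := hc1 w
    rwa [hconj] at h
  -- the three factors stabilise `e`
  have hk : ∀ w : InfinitePlace K,
      kLoc613 c w ∈ (stab613 e).comap (Matrix.GeneralLinearGroup.scalar (Fin 2)) := fun w => by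
    rw [Submonoid.mem_comap]
    intro x
    have h := he.arch_compact w _ (isArchCompact_kLoc613 c w (hc1 w) (hc2 w)) x
    rw [h]
    show (1 : ℂ) * e x = e x
    rw [one_mul]
  have hK : Matrix.GeneralLinearGroup.scalar (Fin 2) (idlInf613 c) ∈ stab613 e := by
    rw [← Submonoid.mem_comap, ← prod_kLoc613 c]
    exact Submonoid.prod_mem _ fun w _ => hk w
  have hu : unitFin613 ε ∈ stab613 e :=
    fun x => he.level_inv _ (inLevelGroup_unitFin613 𝔑 ε hε) x
  -- the decomposition of the rational scalar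
  have hE : T5.ratG (Matrix.GeneralLinearGroup.scalar (Fin 2)
        (Units.map (algebraMap (𝓞 K) K).toMonoidHom ε))
      = z * Matrix.GeneralLinearGroup.scalar (Fin 2) (idlInf613 c) * unitFin613 ε := by
    refine ext613 (fun w => ?_) (fun v => ?_)
    · rw [infComp_mul613, infComp_mul613, infComp_unitFin613, mul_one, infComp_ratG_scalar613,
        hzi w, infComp_scalar613, Matrix.diagonal_mul_diagonal]
      refine congrArg Matrix.diagonal (funext fun _ => ?_)
      have h1 : T5.infHom w ((idlInf613 c : (Adl K)ˣ) : Adl K)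
          = w.embedding (algebraMap (𝓞 K) K (ε : 𝓞 K))
            / ((w (algebraMap (𝓞 K) K (ε : 𝓞 K)) : ℝ) : ℂ) := (infHom_idl613 w c 1).trans (hc w)
      rw [h1, mul_div_cancel₀ _ (hne w)]
      rfl
    · have hz1 : finComp v z = 1 := hzf v
      have hk1 : finComp v (Matrix.GeneralLinearGroup.scalar (Fin 2) (idlInf613 c)) = 1 :=
        trivAtFin_scalar613 v _ rfl
      rw [finComp_mul613, finComp_mul613, hz1, hk1, one_mul, one_mul, finComp_ratG_scalar613,
        finComp_unitFin613]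
      rfl
  calc e (g * z)
      = e (g * z * Matrix.GeneralLinearGroup.scalar (Fin 2) (idlInf613 c)) := (hK _).symm
    _ = e (g * z * Matrix.GeneralLinearGroup.scalar (Fin 2) (idlInf613 c) * unitFin613 ε) :=
        (hu _).symm
    _ = e (g * T5.ratG (Matrix.GeneralLinearGroup.scalar (Fin 2)
          (Units.map (algebraMap (𝓞 K) K).toMonoidHom ε))) := by
        rw [hE, mul_assoc, mul_assoc, mul_assoc]
    _ = e (T5.ratG (Matrix.GeneralLinearGroup.scalar (Fin 2)
          (Units.map (algebraMap (𝓞 K) K).toMonoidHom ε)) * g) := by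
        rw [ratG_scalar_comm613]
    _ = e g := he.left_inv _ g

example (K : Type) [Field K] [NumberField K] : H193.UnitInvC K := unitInvC613 K

end Fermat.Agent.LT.T7.H613

end
end
-- ===== PACK-END LT/T7/H613/UnitInv.lean

-- ===== PACK-BEGIN LT/T7/H317/TorusDataAsm.lean
section



/-!
# Row LT, tower T7, node T7.L2.1, leaf P11 `TorusDataAsmC` (registry 2146)

OFF-MAIN (helper317).  Proves `Fermat.Agent.LT.T7.H193.TorusDataAsmC K` VERBATIM:
`PosScalC K → UnitInvC K → DirichletC K → TorusMeanC → TorusDataC K`.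

`a` from `PosScalC`; the ray generator has the components `t₀` at infinity, `t₀^{2n} = 2`, so
`c = log t₀ ≠ 0`; `b` from `DirichletC 𝔑 c`; `D` from `TorusMeanC b`; the function
`t ↦ e (g * a t)` has the periods `b i`: `a (b i) = r` (`IsAutomorphicFn.ray`; an element of
`GL₂(𝔸_K)` is determined by its components) or `a (b i) = |ε|_∞` (`UnitInvC`).
-/

set_option autoImplicit false

open IsDedekindDomain NumberField MeasureTheory

noncomputable section

namespace Fermat.Agent.LT.T7.H317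

open Fermat.Agent.LT.H556 Fermat.Agent.LT.H556.A0 Fermat.Agent.LT Fermat.Agent.LT.T7.H193

variable {K : Type} [Field K] [NumberField K]

/-- An element of `GL₂(𝔸_K)` is determined by its components. -/
theorem g_ext317 (g h : G K) (hinf : ∀ w : InfinitePlace K, infComp w g = infComp w h)
    (hfin : ∀ v : HeightOneSpectrum (𝓞 K), finComp v g = finComp v h) : g = h := by
  apply Units.ext
  ext i j
  apply Prod.ext
  · funext w
    apply (InfinitePlace.Completion.extensionEmbedding w).injective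
    exact congrFun (congrFun (hinf w) i) j
  · apply FiniteAdeleRing.ext
    intro v
    exact congrFun (congrFun (hfin v) i) j

/-- **T7.L2.1.P11 `TorusDataAsmC`** (VERBATIM). -/
theorem torusDataAsmC317 (K : Type) [Field K] [NumberField K] : TorusDataAsmC K := by
  intro hPos hUnit hDir hMean 𝔑 h𝔑 r hr
  obtain ⟨a, ha_cont, ha_mul, ha_inf, ha_fin, ha_central⟩ := hPos
  obtain ⟨hrfin, t₀, ht₀pos, ht₀pow, hrinf⟩ := hr
  have hc : Real.log t₀ ≠ 0 := by
    intro h0
    rcases Real.log_eq_zero.mp h0 with h | h | h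
    · linarith
    · rw [h, one_pow] at ht₀pow
      norm_num at ht₀pow
    · linarith
  obtain ⟨b, hb⟩ := hDir 𝔑 h𝔑 (Real.log t₀) hc
  obtain ⟨D, hDm, hDb, hDp, hDmean⟩ := hMean (InfinitePlace K) b
  refine ⟨a, D, ⟨ha_cont, ha_mul, ha_inf, ha_fin, ha_central, hDm, hDb, hDp, ?_⟩⟩
  intro e he _ g s
  refine hDmean (fun t => e (g * a t)) (fun i t => ?_) s
  show e (g * a (t + b i)) = e (g * a t)
  rw [ha_mul, ← mul_assoc]
  rcases hb i with h | ⟨ε, hε, h⟩
  · have hr' : a (b i) = r := by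
      apply g_ext317
      · intro w
        rw [ha_inf, hrinf, h, Real.exp_log ht₀pos]
      · intro v
        rw [show finComp v (a (b i)) = 1 from ha_fin (b i) v, show finComp v r = 1 from hrfin v]
    rw [hr']
    exact he.ray _
  · refine hUnit 𝔑 r e he ε hε (a (b i)) (ha_fin (b i)) (fun w => ?_) _
    have hpos : 0 < w (((ε : 𝓞 K)) : K) := by
      apply (InfinitePlace.pos_iff).mpr
      have : (ε : 𝓞 K) ≠ 0 := ε.ne_zero
      exact_mod_cast this
    rw [ha_inf, h, Real.exp_log hpos]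

end Fermat.Agent.LT.T7.H317

end

end
-- ===== PACK-END LT/T7/H317/TorusDataAsm.lean

-- ===== PACK-BEGIN LT/T7/H949/FinProj.lean
section





/-!
# Row LT, tower T7, leaf T7.L2.1.P2 `FinProjC` (registry row 2104, helper949)

OFF-MAIN.  `finProjC949 K : TranslInnerC K → T1.T1Out K → FinProjC K`, the Prop of
`LT/T7/H40/ProjSpec.lean` (helper40, sha256 ac5b80ed) VERBATIM, in the hypothesis-parametrised
form of the registry row.

## Proof

`𝒦 = ⟨U(𝔑₀), I_o⟩` is a subgroup of `GL₂(𝒪̂)` (trivial at infinity) which contains `U(𝔑)`;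
`U(𝔑)` has finitely many left cosets in `𝒦` (`finite_quot949`: residues of the entries at the
places dividing `𝔑`).  `ψ₁ = |Q|⁻¹ ∑_{q ∈ 𝒦 / U(𝔑)} ψ(· h_q)`.

* `ψ₁` is right invariant under `𝒦` (left multiplication permutes the cosets);
* the elements of `𝒦` are trivial at infinity, so they commute with the elements supported at
  the infinite places (`K_w`, the positive scalars, the ray generator);
* cuspidality: each translate has vanishing constant term; the terms are integrable because a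
  fundamental domain of `K` in `𝔸_K` has finite measure (`T1Out.addFundDom` and
  `IsAddFundamentalDomain.measure_eq`);
* orthogonality: `∫_F ψ(x h) χ̄(x) = ∫_F (ψ χ̄)(x h) = ∫_F ψ χ̄` for `χ` invariant under `𝒦`
  (`TranslInnerC`).
-/

set_option autoImplicit false
set_option linter.style.haveILetI false

open AutomorphicForm IsDedekindDomain NumberField MeasureTheory
open scoped ComplexConjugate

noncomputable section

namespace Fermat.Agent.LT.T7.H949

open Fermat.Agent.LT.H556 Fermat.Agent.LT.H556.A0 Fermat.Agent.LT.T7 Fermat.Agent.LT.T7.H40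

attribute [local instance] Fermat.Agent.LT.T5.instMeasurableSpaceG

variable {K : Type} [Field K] [NumberField K]

/-! ## 1. Extensionality and commutation -/

theorem G_ext949 {g g' : G K} (h1 : ∀ w : InfinitePlace K, infMat949 w g = infMat949 w g')
    (h2 : ∀ v : HeightOneSpectrum (𝓞 K), finComp v g = finComp v g') : g = g' := by
  apply Units.ext
  ext i j
  refine Prod.ext ?_ ?_
  · funext w
    exact congrFun (congrFun (h1 w) i) j
  · refine RestrictedProduct.ext _ _ fun v => ?_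
    exact congrFun (congrFun (h2 v) i) j

/-- An element which is trivial at infinity commutes with an element which is trivial at the
finite places. -/
theorem commute_of_triv949 {h k : G K} (hh : ∀ w : InfinitePlace K, TrivAtInf w h)
    (hk : ∀ v : HeightOneSpectrum (𝓞 K), TrivAtFin v k) : h * k = k * h := by
  refine G_ext949 (fun w => ?_) (fun v => ?_)
  · rw [infMat_mul949, infMat_mul949, (trivAtInf_iff949 w h).1 (hh w), one_mul, mul_one]
  · rw [finComp_mul949, finComp_mul949, (hk v : finComp v k = 1), one_mul, mul_one]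

/-! ## 2. The right stabiliser of a function -/

/-- The right stabiliser of a function. -/
def stab949 (χ : G K → ℂ) : Subgroup (G K) where
  carrier := {h | ∀ x, χ (x * h) = χ x}
  mul_mem' := by
    intro a b ha hb x
    rw [← mul_assoc, hb, ha]
  one_mem' := fun x => by rw [mul_one]
  inv_mem' := by
    intro a ha x
    have := ha (x * a⁻¹)
    rw [inv_mul_cancel_right] at this
    exact this.symm

theorem mem_stab949 {χ : G K → ℂ} {h : G K} : h ∈ stab949 χ ↔ ∀ x, χ (x * h) = χ x := Iff.rfl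

theorem KK_le_stab949 {𝔑₀ : Ideal (𝓞 K)} {l : ℕ} {o : ℕ → HeightOneSpectrum (𝓞 K)}
    {χ : G K → ℂ} (h1 : ∀ u : G K, InLevelGroup 𝔑₀ u → ∀ g : G K, χ (g * u) = χ g)
    (h2 : IsIwInv l o χ) : KK949 𝔑₀ l o ≤ stab949 χ := by
  refine sup_le (fun u hu => h1 u hu) ((Subgroup.closure_le _).2 ?_)
  rintro h ⟨ha, hb, hc⟩
  exact h2 h ha hb hc

/-! ## 3. The mean over the cosets -/

section Avg

variable (𝔑 : Ideal (𝓞 K)) (𝒦 : Subgroup (G K))

/-- The representatives of the cosets. -/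
def rep949 (q : 𝒦 ⧸ (U949 𝔑).subgroupOf 𝒦) : G K := ((Quotient.out q : 𝒦) : G K)

theorem rep_mem949 (q : 𝒦 ⧸ (U949 𝔑).subgroupOf 𝒦) : rep949 𝔑 𝒦 q ∈ 𝒦 := (Quotient.out q).2

theorem rep_smul949 (k : 𝒦) (q : 𝒦 ⧸ (U949 𝔑).subgroupOf 𝒦) :
    (rep949 𝔑 𝒦 (k • q))⁻¹ * ((k : G K) * rep949 𝔑 𝒦 q) ∈ U949 𝔑 := by
  have h1 : (QuotientGroup.mk (Quotient.out (k • q)) : 𝒦 ⧸ (U949 𝔑).subgroupOf 𝒦)
      = QuotientGroup.mk (k * Quotient.out q) := by
    rw [QuotientGroup.out_eq']
    conv_lhs => rw [← QuotientGroup.out_eq' q]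
    rw [MulAction.Quotient.smul_mk, smul_eq_mul]
  have h2 := QuotientGroup.eq.1 h1
  rw [Subgroup.mem_subgroupOf] at h2
  exact h2

variable [Fintype (𝒦 ⧸ (U949 𝔑).subgroupOf 𝒦)]

/-- The sum of the translates by the representatives. -/
def sumT949 (ψ : G K → ℂ) : G K → ℂ := fun x => ∑ q, ψ (x * rep949 𝔑 𝒦 q)

/-- The mean of the translates by the representatives. -/
def avg949 (ψ : G K → ℂ) : G K → ℂ := fun x =>
  ((Fintype.card (𝒦 ⧸ (U949 𝔑).subgroupOf 𝒦) : ℂ))⁻¹ * sumT949 𝔑 𝒦 ψ x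

theorem card_ne_zero949 : ((Fintype.card (𝒦 ⧸ (U949 𝔑).subgroupOf 𝒦) : ℂ)) ≠ 0 := by
  have : Nonempty (𝒦 ⧸ (U949 𝔑).subgroupOf 𝒦) := ⟨QuotientGroup.mk 1⟩
  exact Nat.cast_ne_zero.2 Fintype.card_ne_zero

/-- Left multiplication by an element of `𝒦` permutes the cosets. -/
theorem sumT_mul949 {ψ : G K → ℂ} (hψ : U949 𝔑 ≤ stab949 ψ) {k : G K} (hk : k ∈ 𝒦) (x : G K) :
    sumT949 𝔑 𝒦 ψ (x * k) = sumT949 𝔑 𝒦 ψ x := by
  unfold sumT949
  have h1 : ∀ q : 𝒦 ⧸ (U949 𝔑).subgroupOf 𝒦,
      ψ (x * k * rep949 𝔑 𝒦 q) = ψ (x * rep949 𝔑 𝒦 ((⟨k, hk⟩ : 𝒦) • q)) := by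
    intro q
    have hu := rep_smul949 𝔑 𝒦 ⟨k, hk⟩ q
    have := hψ hu (x * rep949 𝔑 𝒦 ((⟨k, hk⟩ : 𝒦) • q))
    rw [← this]
    congr 1
    group
  rw [Finset.sum_congr rfl (fun q _ => h1 q)]
  exact Fintype.sum_equiv (MulAction.toPerm (⟨k, hk⟩ : 𝒦)) _ _ (fun q => rfl)

theorem KK_le_stab_avg949 {ψ : G K → ℂ} (hψ : U949 𝔑 ≤ stab949 ψ) :
    𝒦 ≤ stab949 (avg949 𝔑 𝒦 ψ) := by
  intro k hk x
  unfold avg949
  rw [sumT_mul949 𝔑 𝒦 hψ hk]

/-- Elements commuting with `𝒦` which stabilise `ψ` stabilise the mean. -/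
theorem sumT_comm949 {ψ : G K → ℂ} {z : G K} (hz : ∀ h ∈ 𝒦, h * z = z * h)
    (hψ : ∀ g, ψ (g * z) = ψ g) (x : G K) : sumT949 𝔑 𝒦 ψ (x * z) = sumT949 𝔑 𝒦 ψ x := by
  unfold sumT949
  refine Finset.sum_congr rfl fun q _ => ?_
  rw [mul_assoc, ← hz _ (rep_mem949 𝔑 𝒦 q), ← mul_assoc, hψ]

theorem avg_comm949 {ψ : G K → ℂ} {z : G K} (hz : ∀ h ∈ 𝒦, h * z = z * h)
    (hψ : ∀ g, ψ (g * z) = ψ g) (x : G K) : avg949 𝔑 𝒦 ψ (x * z) = avg949 𝔑 𝒦 ψ x := by
  unfold avg949
  rw [sumT_comm949 𝔑 𝒦 hz hψ]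

theorem continuous_sumT949 {ψ : G K → ℂ} (hψ : Continuous ψ) : Continuous (sumT949 𝔑 𝒦 ψ) := by
  unfold sumT949
  exact continuous_finsetSum _ fun q _ => hψ.comp (continuous_mul_const _)

theorem continuous_avg949 {ψ : G K → ℂ} (hψ : Continuous ψ) : Continuous (avg949 𝔑 𝒦 ψ) :=
  continuous_const.mul (continuous_sumT949 𝔑 𝒦 hψ)

theorem bdd_avg949 {ψ : G K → ℂ} (hψ : ∃ C : ℝ, ∀ g : G K, ‖ψ g‖ ≤ C) :
    ∃ C : ℝ, ∀ g : G K, ‖avg949 𝔑 𝒦 ψ g‖ ≤ C := by
  obtain ⟨C, hC⟩ := hψ
  refine ⟨‖((Fintype.card (𝒦 ⧸ (U949 𝔑).subgroupOf 𝒦) : ℂ))⁻¹‖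
    * ∑ _q : 𝒦 ⧸ (U949 𝔑).subgroupOf 𝒦, C, fun g => ?_⟩
  unfold avg949 sumT949
  rw [norm_mul]
  refine mul_le_mul_of_nonneg_left ?_ (norm_nonneg _)
  exact (norm_sum_le _ _).trans (Finset.sum_le_sum fun q _ => hC _)

end Avg

/-! ## 4. Fundamental domains of `K` in `𝔸_K` have finite measure -/

theorem countable_numberField949 (K : Type) [Field K] [NumberField K] : Countable K := by
  have e := (Module.finBasis ℚ K).equivFun.toEquiv
  exact Countable.of_equiv _ e.symm

theorem fundDom_finite949 (hT : Fermat.Agent.LT.T1.T1Out K) :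
    letI : MeasurableSpace (Adl K) := borel (Adl K)
    ∀ μ : Measure (Adl K), μ.IsAddHaarMeasure → ∀ D : Set (Adl K),
      IsAddFundamentalDomain ((algebraMap K (Adl K)).toAddMonoidHom.range) D μ → μ D < ⊤ := by
  letI : MeasurableSpace (Adl K) := borel (Adl K)
  intro μ hμ D hD
  have : BorelSpace (Adl K) := ⟨rfl⟩
  obtain ⟨D₀, -, hD₀, -, -, hfin⟩ := hT.addFundDom μ hμ
  have hc : Countable K := countable_numberField949 K
  have : Countable ((algebraMap K (Adl K)).toAddMonoidHom.range) := by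
    have h1 : (Set.range (algebraMap K (Adl K))).Countable := Set.countable_range _
    exact h1.to_subtype
  have hinv : VAddInvariantMeasure ((algebraMap K (Adl K)).toAddMonoidHom.range) (Adl K) μ :=
    ⟨fun ⟨x, _⟩ _ h => VAddInvariantMeasure.measure_preimage_vadd (M := Adl K) x h⟩
  have := hD.measure_eq hD₀
  rw [this]
  exact hfin

/-- The unipotent map is continuous. -/
theorem continuous_unip949 (n : Adl K → G K)
    (hn : ∀ x : Adl K, (n x : Matrix (Fin 2) (Fin 2) (Adl K)) = !![1, x; 0, 1]) :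
    Continuous n := by
  have hinv : ∀ x : Adl K, (n x)⁻¹ = n (-x) := by
    intro x
    refine inv_eq_of_mul_eq_one_right ?_
    apply Units.ext
    rw [Units.val_mul, hn, hn, Units.val_one]
    ext i j
    fin_cases i <;> fin_cases j <;> simp [Matrix.mul_apply, Fin.sum_univ_two]
  rw [Units.continuous_iff]
  constructor
  · have h : (Units.val ∘ n)
        = fun u : Adl K => (!![1, u; 0, 1] : Matrix (Fin 2) (Fin 2) (Adl K)) := by
      funext x
      exact hn x
    rw [h]
    refine continuous_matrix (fun i j => ?_)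
    fin_cases i <;> fin_cases j
    · exact continuous_const
    · exact continuous_id
    · exact continuous_const
    · exact continuous_const
  · have h : (fun u : Adl K => (((n u)⁻¹ : G K) : Matrix (Fin 2) (Fin 2) (Adl K)))
        = fun u : Adl K => (!![1, -u; 0, 1] : Matrix (Fin 2) (Fin 2) (Adl K)) := by
      funext x
      rw [hinv, hn]
    rw [h]
    refine continuous_matrix (fun i j => ?_)
    fin_cases i <;> fin_cases j
    · exact continuous_const
    · exact continuous_neg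
    · exact continuous_const
    · exact continuous_const

/-- The terms of the constant term are integrable. -/
theorem integrableOn_unip949 (hT : Fermat.Agent.LT.T1.T1Out K) {ψ : G K → ℂ}
    (hc : Continuous ψ) (hb : ∃ C : ℝ, ∀ g : G K, ‖ψ g‖ ≤ C) :
    letI : MeasurableSpace (Adl K) := borel (Adl K)
    ∀ μ : Measure (Adl K), μ.IsAddHaarMeasure → ∀ D : Set (Adl K),
      IsAddFundamentalDomain ((algebraMap K (Adl K)).toAddMonoidHom.range) D μ →
      ∀ n : Adl K → G K,
        (∀ x : Adl K, (n x : Matrix (Fin 2) (Fin 2) (Adl K)) = !![1, x; 0, 1]) →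
        ∀ g : G K, IntegrableOn (fun x => ψ (n x * g)) D μ := by
  letI : MeasurableSpace (Adl K) := borel (Adl K)
  intro μ hμ D hD n hn g
  have : BorelSpace (Adl K) := ⟨rfl⟩
  obtain ⟨C, hC⟩ := hb
  have hfin : μ D < ⊤ := fundDom_finite949 hT μ hμ D hD
  have hcont : Continuous (fun x => ψ (n x * g)) :=
    hc.comp ((continuous_unip949 n hn).mul continuous_const)
  have : IsFiniteMeasure (μ.restrict D) := ⟨by simpa using hfin⟩
  exact Integrable.of_bound hcont.aestronglyMeasurable C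
    (Filter.Eventually.of_forall fun x => hC _)

/-! ## 5. The leaf -/

/-- **LEAF T7.L2.1.P2 = FIN-PROJ**, hypothesis-parametrised form. -/
theorem finProjC949 (K : Type) [Field K] [NumberField K] (hTI : TranslInnerC K)
    (hT : Fermat.Agent.LT.T1.T1Out K) : FinProjC K := by
  intro μ F r hFr hr 𝔑 𝔑₀ h𝔑 hle l o ψ hψ
  -- the groups
  set 𝒦 : Subgroup (G K) := KK949 𝔑₀ l o with h𝒦
  have hK0 : 𝒦 ≤ K0949 K := KK_le_K0949 𝔑₀ l o
  have hfinq : Finite (𝒦 ⧸ (U949 𝔑).subgroupOf 𝒦) := finite_quot949 𝔑 h𝔑 𝒦 hK0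
  letI : Fintype (𝒦 ⧸ (U949 𝔑).subgroupOf 𝒦) := Fintype.ofFinite _
  have hU0 : U949 𝔑₀ ≤ 𝒦 := le_sup_left
  have hIw : iwSet949 l o ⊆ (𝒦 : Set (G K)) := fun h hh =>
    (le_sup_right : Subgroup.closure (iwSet949 l o) ≤ 𝒦) (Subgroup.subset_closure hh)
  have hψU : U949 𝔑 ≤ stab949 ψ := fun u hu => hψ.aut.level_inv u hu
  have htriv : ∀ h ∈ 𝒦, ∀ w : InfinitePlace K, TrivAtInf w h := fun h hh => (hK0 hh).1
  -- the mean
  set ψ₁ : G K → ℂ := avg949 𝔑 𝒦 ψ with hψ₁
  have hstab : 𝒦 ≤ stab949 ψ₁ := KK_le_stab_avg949 𝔑 𝒦 hψU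
  have hcomm : ∀ z : G K, (∀ v : HeightOneSpectrum (𝓞 K), TrivAtFin v z) →
      ∀ h ∈ 𝒦, h * z = z * h := fun z hz h hh => commute_of_triv949 (htriv h hh) hz
  have hcusp₁ : T5.IsCuspFn 𝔑₀ T5.trivType r ψ₁ := by
    refine ⟨continuous_avg949 𝔑 𝒦 hψ.cont, bdd_avg949 𝔑 𝒦 hψ.bdd, ⟨?_, ?_, ?_, ?_⟩, ?_⟩
    · intro γ g
      show avg949 𝔑 𝒦 ψ _ = avg949 𝔑 𝒦 ψ _
      unfold avg949 sumT949
      congr 1
      refine Finset.sum_congr rfl fun q _ => ?_
      rw [mul_assoc, hψ.aut.left_inv]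
    · intro u hu g
      exact hstab (hU0 hu) g
    · intro w k hk g
      have h1 : ∀ g, ψ (g * k) = ψ g := fun g => by
        have := hψ.aut.arch_compact w k hk g
        rwa [T5.trivType, one_mul] at this
      show avg949 𝔑 𝒦 ψ _ = T5.trivType k * avg949 𝔑 𝒦 ψ _
      rw [T5.trivType, one_mul]
      exact avg_comm949 𝔑 𝒦 (hcomm k hk.1.2) h1 g
    · intro g
      exact avg_comm949 𝔑 𝒦 (hcomm r hr.1) hψ.aut.ray g
    · -- cuspidality
      intro μ' hμ' D hD n hn g
      have hint := integrableOn_unip949 hT hψ.cont hψ.bdd μ' hμ' D hD n hn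
      have e : (fun x => ψ₁ (n x * g))
          = fun x => ((Fintype.card (𝒦 ⧸ (U949 𝔑).subgroupOf 𝒦) : ℂ))⁻¹
              * ∑ q, ψ (n x * (g * rep949 𝔑 𝒦 q)) := by
        funext x
        show avg949 𝔑 𝒦 ψ _ = _
        unfold avg949 sumT949
        congr 1
        refine Finset.sum_congr rfl fun q _ => ?_
        rw [mul_assoc]
      rw [e, integral_const_mul, integral_finsetSum _ (fun q _ => hint _)]
      rw [Finset.sum_eq_zero (fun q _ => hψ.cuspidal μ' hμ' D hD n hn _), mul_zero]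
  refine ⟨ψ₁, hcusp₁, ?_, ?_, ?_⟩
  · -- Iwahori invariance
    intro h ha hb hc x
    exact hstab (hIw ⟨ha, hb, hc⟩) x
  · -- positive scalars
    intro hpos w z hz g
    exact avg_comm949 𝔑 𝒦 (hcomm z hz.1.2) (hpos w z hz) g
  · -- orthogonality
    intro χ hχ hχiw
    have hχstab : 𝒦 ≤ stab949 χ := KK_le_stab949 hχ.aut.level_inv hχiw
    have : BorelSpace (G K) := ⟨rfl⟩
    have : IsFiniteMeasure (μ.restrict F) := ⟨by simpa using hFr.finite⟩
    obtain ⟨Cψ, hCψ⟩ := hψ.bdd
    obtain ⟨Cχ, hCχ⟩ := hχ.bdd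
    have hCψ0 : 0 ≤ Cψ := (norm_nonneg _).trans (hCψ 1)
    -- integrability of the translates
    have hint : ∀ h : G K, Integrable (fun x => ψ (x * h) * conj (χ x)) (μ.restrict F) := by
      intro h
      refine Integrable.of_bound (C := Cψ * Cχ) ?_ (Filter.Eventually.of_forall fun x => ?_)
      · exact ((hψ.cont.comp (continuous_mul_const h)).mul
          (Complex.continuous_conj.comp hχ.cont)).aestronglyMeasurable
      · rw [norm_mul, RCLike.norm_conj]
        exact mul_le_mul (hCψ _) (hCχ _) (norm_nonneg _) hCψ0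
    -- the translates have the same inner product
    have htr : ∀ q : 𝒦 ⧸ (U949 𝔑).subgroupOf 𝒦,
        ∫ x in F, ψ (x * rep949 𝔑 𝒦 q) * conj (χ x) ∂μ = ∫ x in F, ψ x * conj (χ x) ∂μ := by
      intro q
      have h1 := hTI μ F r hFr hr (fun x => ψ x * conj (χ x))
        (hψ.cont.mul (Complex.continuous_conj.comp hχ.cont))
        ⟨Cψ * Cχ, fun g => by
          rw [norm_mul, RCLike.norm_conj]
          exact mul_le_mul (hCψ _) (hCχ _) (norm_nonneg _) hCψ0⟩
        (fun γ g => by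
          show ψ _ * conj (χ _) = _
          rw [hψ.aut.left_inv, hχ.aut.left_inv])
        (fun g => by
          show ψ _ * conj (χ _) = _
          rw [hψ.aut.ray, hχ.aut.ray])
        (rep949 𝔑 𝒦 q)
      rw [← h1]
      refine integral_congr_ae (Filter.Eventually.of_forall fun x => ?_)
      show ψ _ * conj (χ x) = ψ _ * conj (χ _)
      rw [hχstab (rep_mem949 𝔑 𝒦 q) x]
    have e1 : ∫ x in F, ψ₁ x * conj (χ x) ∂μ = ∫ x in F, ψ x * conj (χ x) ∂μ := by
      have e : (fun x => ψ₁ x * conj (χ x))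
          = fun x => ((Fintype.card (𝒦 ⧸ (U949 𝔑).subgroupOf 𝒦) : ℂ))⁻¹
              * ∑ q, ψ (x * rep949 𝔑 𝒦 q) * conj (χ x) := by
        funext x
        show avg949 𝔑 𝒦 ψ _ * _ = _
        unfold avg949 sumT949
        rw [mul_assoc, Finset.sum_mul]
      rw [e, integral_const_mul, integral_finsetSum _ (fun q _ => hint _),
        Finset.sum_congr rfl (fun q _ => htr q), Finset.sum_const, Finset.card_univ,
        nsmul_eq_mul, ← mul_assoc, inv_mul_cancel₀ (card_ne_zero949 𝔑 𝒦), one_mul]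
    unfold T5.innerD
    have e2 : (fun x => (ψ x - ψ₁ x) * conj (χ x))
        = fun x => ψ x * conj (χ x) - ψ₁ x * conj (χ x) := by
      funext x
      ring
    have hint1 : Integrable (fun x => ψ x * conj (χ x)) (μ.restrict F) := by
      have := hint 1
      simpa using this
    have hint2 : Integrable (fun x => ψ₁ x * conj (χ x)) (μ.restrict F) := by
      obtain ⟨C₁, hC₁⟩ := hcusp₁.bdd
      have hC₁0 : 0 ≤ C₁ := (norm_nonneg _).trans (hC₁ 1)
      refine Integrable.of_bound (C := C₁ * Cχ) ?_ (Filter.Eventually.of_forall fun x => ?_)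
      · exact (hcusp₁.cont.mul (Complex.continuous_conj.comp hχ.cont)).aestronglyMeasurable
      · rw [norm_mul, RCLike.norm_conj]
        exact mul_le_mul (hC₁ _) (hCχ _) (norm_nonneg _) hC₁0
    rw [e2, integral_sub hint1 hint2, e1, sub_self]

end Fermat.Agent.LT.T7.H949

end

end
-- ===== PACK-END LT/T7/H949/FinProj.lean

-- ===== PACK-BEGIN LT/T7/H60/SupplyQSpec.lean
section




/-!
# Row LT, tower T7, node T7.L2Q.1 `SupplyQC` (sub-architect helper60): FIRST CUT -- Spec

OFF-MAIN.  Definitions and frozen Props only (the proved top is `SupplyQTop.lean`).  No hole,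
nothing assumed.  ADDITIVE (new names only, all in `Fermat.Agent.LT.T7.L2Q.H60`).
Vocabulary: `T7/H826/Level2Q.lean` (helper826, sha256 3acaa310b421ebd6) and its imports;
`T7/H893/SupplySpec.lean` (helper893, the cyclic first cut; only `H893.ProjC` is used), byte-identical
copies.

    supplyQC_of60 : SetupQC F → H893.ProjC F → H893.ProjC ℚ → ProjW1C → FamQC P F
                      → L2Q.SupplyQC P F
    supplyQSC_of60 : (the same hypotheses) → SupplyQSC P F     (STABLE form: `𝔑₀ = 𝔫₀ 𝒪_F`)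

## The cut (mirror of the cyclic first cut of helper893, with `K = ℚ`, `ℓ = 2`)

`L2Q.SupplyQC P F` asks for ONE datum `Dt : L2QData F` with the fields of `IsL2QData`.  The datum
has a COMMON part (`σ`, frames, base level `𝔑₀`, `S'`, `S`, the split prime `u` and its orbit) and
a part which depends on the bad element `g` (level `𝔫 g`, scalar `c g`, the family `φ' g`, the TWO
families `f w0 g`, `f w1 g`, the depth `m₀ g`); every field of `IsL2QData` is either about the
common part or about ONE bad `g`.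

* **`SetupQC F`** (leaf C0; algebraic number theory + adapters of T1): the common part exists,
  `L2QBase` with `IsL2QBase`.  As in the cyclic case `IsL2QBase` carries MORE than the common
  fields of `IsL2QData`: the hypotheses of `IsCompData` which do not depend on the level, and the
  facts needed by the construction of the families (`base_level`, `orbit_all`, `fibre`), and
  `under_exact` (`S` is EXACTLY the set of primes under `S'`: the base change relation
  `IsBCDataQ … S` of OP-down is given outside `S`, the word lives outside `S'`).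
* **`H893.ProjC F`, `H893.ProjC ℚ`** (leaf of helper893/helper3, ONE field, trivial type): the
  orthogonal projection upstairs and downstairs for the type `w0`
  (`IsWFnQ w0 = IsWFn … 1 (fun _ => u)`, lemma `isWFnQ_w0_iff60`).
* **`ProjW1C`** (leaf C3a', ONE field `ℚ`, type weight one): the same averaging for the
  `K_∞`-type `wtOne`.  General typed form: `ProjTC K τ`.
* **`FamQC P F`** (NODE C1 + C2 + C3b): for a common part and ONE bad `g` the part depending on
  `g` exists, `L2QFam` with `IsL2QFam` = the fields of `IsL2QData` at `g` except the projections.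
  Second cut: `SupplyQFam*.lean` (same directory).
-/

set_option autoImplicit false

open AutomorphicForm IsDedekindDomain NumberField MeasureTheory
open scoped ComplexConjugate

noncomputable section

namespace Fermat.Agent.LT.T7.L2Q.H60

open Fermat.Agent.LT.H556 Fermat.Agent.LT.H556.A0 Fermat.Agent.LT.T7 Fermat.Agent.LT.T7.L2Q

attribute [local instance] Fermat.Agent.LT.T5.instMeasurableSpaceG

/-! ## 1. The common part -/

section Base

variable (F : Type) [Field F] [NumberField F]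

/-- The COMMON part of an `L2QData`. -/
structure L2QBase where
  /-- the conjugation of `F` with its extension to the adeles -/
  s : T5.AdelicAut F
  /-- the image of `ℚ` in `F` -/
  k : Subfield F
  /-- the frame downstairs -/
  R : Frame5 ℚ
  /-- the frame upstairs -/
  R' : Frame5 F
  /-- the base level upstairs -/
  𝔑₀ : Ideal (𝓞 F)
  /-- the places of `F` dividing the base level -/
  S' : Finset (HeightOneSpectrum (𝓞 F))
  /-- the primes of `ℚ` under `S'` -/
  S : Finset ℕ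
  /-- the regular place of `ℚ` -/
  u : HeightOneSpectrum (𝓞 ℚ)
  /-- the `σ`-orbit over `u` -/
  o : ℕ → HeightOneSpectrum (𝓞 F)

/-- The part of an `L2QData` which depends on the bad element (for ONE bad element). -/
structure L2QFam where
  /-- the level downstairs -/
  𝔫 : Ideal (𝓞 ℚ)
  /-- the scalar of the Eisenstein-killing base on the eigen-classes -/
  c : EigData F → ℂ
  /-- the family upstairs -/
  φ' : List (Gen F) → ℤ → ℕ → G F → ℂ
  /-- the two families downstairs (trivial type, weight one) -/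
  f : QWt → List (Gen F) → ℤ → ℕ → G ℚ → ℂ
  /-- the regular depth -/
  m₀ : List (Gen F) → ℕ

variable {F}

/-- The extension of an ideal of `ℚ` to `F`. -/
def upQ (𝔫 : Ideal (𝓞 ℚ)) : Ideal (𝓞 F) := Ideal.map (algebraMap (𝓞 ℚ) (𝓞 F)) 𝔫

/-- `g` is supported at the bad places (`L2QData.IsBad` for the common part). -/
def L2QBase.IsBad (B : L2QBase F) (g : G F) : Prop :=
  (∀ w : InfinitePlace F, TrivAtInf w g) ∧
    ∀ v : HeightOneSpectrum (𝓞 F), (v ∉ B.S' ∨ ∃ j < 2, v = B.o j) → TrivAtFin v g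

/-- The data of the comparison for the level `𝔫` downstairs (`L2QData.comp`). -/
def L2QBase.comp (B : L2QBase F) (𝔫 : Ideal (𝓞 ℚ)) : CompData ℚ F where
  l := 2
  s := B.s
  k := B.k
  𝔫 := 𝔫
  𝔑 := upQ (F := F) 𝔫
  R := B.R
  R' := B.R'

/-- The sum of the two members downstairs (`L2QData.fsum`). -/
def L2QFam.fsum (Fm : L2QFam F) (X : List (Gen F)) (k : ℤ) (m : ℕ) : G ℚ → ℂ :=
  fun x => Fm.f QWt.w0 X k m x + Fm.f QWt.w1 X k m x

/-- The `L2QData` with common part `B` and `g`-part `Fm g`. -/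
def L2QBase.toData (B : L2QBase F) (Fm : G F → L2QFam F) : L2QData F where
  s := B.s
  k := B.k
  R := B.R
  R' := B.R'
  𝔑₀ := B.𝔑₀
  S' := B.S'
  S := B.S
  u := B.u
  o := B.o
  𝔫 := fun g => (Fm g).𝔫
  c := fun g => (Fm g).c
  φ' := fun g => (Fm g).φ'
  f := fun n g => (Fm g).f n
  m₀ := fun g => (Fm g).m₀

/-- **THE PROPERTIES OF THE COMMON PART** (quadratic step). -/
structure IsL2QBase (Φ : HeckeEigensystem F ℂ) (B : L2QBase F) : Prop where
  /-- `σ` generates a group of order `2` with fixed field `k` -/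
  cyc : T5.IsCyclicOfDegree B.s 2 B.k
  /-- `k` is the image of `ℚ` -/
  base : ∀ x : F, x ∈ B.k ↔ ∃ y : ℚ, algebraMap ℚ F y = x
  frame : IsFrame5 B.R
  frame' : IsFrame5 B.R'
  /-- `σ` preserves the frame upstairs, for every level which comes from `ℚ` -/
  aut : ∀ 𝔫 : Ideal (𝓞 ℚ), T5.AutPreserves B.s (upQ (F := F) 𝔫) B.R'.μ B.R'.r
  level_le : B.𝔑₀ ≤ Φ.level
  mem_S' : ∀ w : HeightOneSpectrum (𝓞 F), w ∈ B.S' ↔ w.asIdeal ∣ B.𝔑₀
  /-- the primes under `S'` lie in `S` -/
  under : ∀ p : ℕ, p.Prime → ∀ w : HeightOneSpectrum (𝓞 F), ((p : ℕ) : 𝓞 F) ∈ w.asIdeal →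
    w ∈ B.S' → p ∈ B.S
  /-- `S` consists of primes under `S'` -/
  under_exact : ∀ p ∈ B.S, p.Prime ∧
    ∃ w : HeightOneSpectrum (𝓞 F), w ∈ B.S' ∧ ((p : ℕ) : 𝓞 F) ∈ w.asIdeal
  const : ∀ p : ℕ, p.Prime → p ∉ B.S →
    ∀ w w' : HeightOneSpectrum (𝓞 F), ((p : ℕ) : 𝓞 F) ∈ w.asIdeal →
      ((p : ℕ) : 𝓞 F) ∈ w'.asIdeal → Φ.a w = Φ.a w' ∧ Φ.b w = Φ.b w'
  orbit_rel : ∀ j : ℕ, T5.PlaceRel B.s (B.o j) (B.o (j + 1))
  orbit_ne : ∀ j : ℕ, 0 < j → j < 2 → B.o j ≠ B.o 0
  orbit_over : ∀ j : ℕ, PlaceOver ℚ F B.u (B.o j)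
  orbit_level : ∀ j : ℕ, B.o j ∈ B.S'
  orbit_good : ∀ j : ℕ, ¬ (B.o j).asIdeal ∣ Φ.level
  /-- the base level comes from `ℚ`, and `u` divides it exactly once -/
  base_level : ∃ 𝔫₀ : Ideal (𝓞 ℚ), 𝔫₀ ≠ ⊥ ∧ B.𝔑₀ = upQ (F := F) 𝔫₀ ∧
    B.u.asIdeal ∣ 𝔫₀ ∧ ¬ B.u.asIdeal ^ 2 ∣ 𝔫₀
  /-- the orbit is the set of all places over `u` -/
  orbit_all : ∀ w : HeightOneSpectrum (𝓞 F), PlaceOver ℚ F B.u w → ∃ j < 2, w = B.o j
  /-- `S'` is a union of fibres -/
  fibre : ∀ p : ℕ, p.Prime → ∀ w w' : HeightOneSpectrum (𝓞 F),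
    ((p : ℕ) : 𝓞 F) ∈ w.asIdeal → ((p : ℕ) : 𝓞 F) ∈ w'.asIdeal → w ∈ B.S' → w' ∈ B.S'

/-! ## 2. The part depending on the bad element -/

/-- **THE PROPERTIES OF THE `g`-PART** (the fields of `IsL2QData` at the bad element `g`, except
the orthogonal projections; `level_ne` is the field of `IsCompData`). -/
structure IsL2QFam (Φ : HeckeEigensystem F ℂ) (B : L2QBase F) (g : G F) (Fm : L2QFam F) :
    Prop where
  level_ne : Fm.𝔫 ≠ ⊥
  level_g : upQ (F := F) Fm.𝔫 ≤ B.𝔑₀
  mem_S'_g : ∀ w : HeightOneSpectrum (𝓞 F), w ∈ B.S' ↔ w.asIdeal ∣ upQ (F := F) Fm.𝔫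
  u_level : B.u.asIdeal ∣ Fm.𝔫
  ekprod_up : ∀ (X : List (Gen F)) (k : ℤ) (m : ℕ), (∀ x ∈ X, x.Out B.S') →
    IsEKProd (upQ (F := F) Fm.𝔫) B.R' (Fm.φ' X k m)
  ekprod_down : ∀ (n : QWt) (X : List (Gen F)) (k : ℤ) (m : ℕ), (∀ x ∈ X, x.Out B.S') →
    IsEKProdT n.type Fm.𝔫 B.R (Fm.f n X k m)
  reg_up : ∀ (X : List (Gen F)) (k : ℤ) (m : ℕ), (∀ x ∈ X, x.Out B.S') → Fm.m₀ X ≤ m →
    T5.IsTwRegular B.s 2 B.k (Fm.φ' X k m)
  reg_down : ∀ (n : QWt) (X : List (Gen F)) (k : ℤ) (m : ℕ), (∀ x ∈ X, x.Out B.S') →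
    Fm.m₀ X ≤ m → T5.IsTwRegular (T5.AdelicAut.id ℚ) 1 ⊤ (Fm.f n X k m)
  matched : ∀ (X : List (Gen F)) (k : ℤ) (m : ℕ), (∀ x ∈ X, x.Out B.S') → Fm.m₀ X ≤ m →
    IsGlobMatch (B.comp Fm.𝔫) (Fm.φ' X k m) (Fm.fsum X k m)
  base_ne : ∀ C : EigData F, C.AgreeOut B.S' (eigOf Φ) → Fm.c C ≠ 0
  op_up : ∀ (X : List (Gen F)) (k : ℤ) (m : ℕ), (∀ x ∈ X, x.Out B.S') →
    ∀ (ψ : G F → ℂ) (C : EigData F), IsEigFn B.𝔑₀ B.R'.r 2 B.o ψ C →
    ∀ (Hg H : Finset (G F)) (z : G F), IsDblCosetSystem B.𝔑₀ g Hg →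
      IsIwCosetSystem (B.o 0) H → IsScalarUniformizerAt (B.o 0) z →
      ∀ x : G F, T5.Rconv B.R'.μ (Fm.φ' X k m) ψ x
        = wordEv X C * Fm.c C * cosetOp Hg (shiftOp z k ((iwOp (B.o 0) H)^[m] ψ)) x
  kill_up : ∀ (X : List (Gen F)) (k : ℤ) (m : ℕ), (∀ x ∈ X, x.Out B.S') →
    ∀ ψ : G F → ℂ, T5.IsCuspFn (upQ (F := F) Fm.𝔫) T5.trivType B.R'.r ψ →
      (∀ χ : G F → ℂ, IsWFn B.𝔑₀ B.R'.r 2 B.o χ →
        T5.innerD B.R'.μ B.R'.F ψ χ = 0) →
      ∀ x : G F, T5.Rconv B.R'.μ (Fm.φ' X k m) ψ x = 0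
  op_down : ∀ (n : QWt) (X : List (Gen F)) (k : ℤ) (m : ℕ), (∀ x ∈ X, x.Out B.S') →
    ∀ (ψ : G ℚ → ℂ) (c : EigData ℚ) (C : EigData F),
      IsEigFnQ n Fm.𝔫 B.R.r B.u ψ c → IsBCDataQ n c C B.S →
    ∀ (H : Finset (G ℚ)) (z : G ℚ), IsIwCosetSystem B.u H → IsScalarUniformizerAt B.u z →
      ∀ x : G ℚ, T5.Rconv B.R.μ (Fm.f n X k m) ψ x
        = wordEv X C
          * T5.Rconv B.R.μ (Fm.f n [] 0 0) (shiftOp z k ((iwOp B.u H)^[m] ψ)) x
  class_down : ∀ (n : QWt) (ψ : G ℚ → ℂ) (c : EigData ℚ),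
    IsEigFnQ n Fm.𝔫 B.R.r B.u ψ c →
    IsEigFnQ n Fm.𝔫 B.R.r B.u (T5.Rconv B.R.μ (Fm.f n [] 0 0) ψ) c
  comm_down : ∀ (n : QWt) (ψ : G ℚ → ℂ), IsWFnQ n Fm.𝔫 B.R.r B.u ψ →
    ∀ (H : Finset (G ℚ)) (z : G ℚ), IsIwCosetSystem B.u H → IsScalarUniformizerAt B.u z →
      (∀ x : G ℚ, T5.Rconv B.R.μ (Fm.f n [] 0 0) (iwOp B.u H ψ) x
        = iwOp B.u H (T5.Rconv B.R.μ (Fm.f n [] 0 0) ψ) x) ∧
      ∀ (k : ℤ) (x : G ℚ), T5.Rconv B.R.μ (Fm.f n [] 0 0) (shiftOp z k ψ) x
        = shiftOp z k (T5.Rconv B.R.μ (Fm.f n [] 0 0) ψ) x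
  kill_down : ∀ (n : QWt) (X : List (Gen F)) (k : ℤ) (m : ℕ), (∀ x ∈ X, x.Out B.S') →
    ∀ ψ : G ℚ → ℂ, T5.IsCuspFn Fm.𝔫 n.type B.R.r ψ →
      (∀ χ : G ℚ → ℂ, IsWFnQ n Fm.𝔫 B.R.r B.u χ →
        T5.innerD B.R.μ B.R.F ψ χ = 0) →
      ∀ x : G ℚ, T5.Rconv B.R.μ (Fm.f n X k m) ψ x = 0

end Base

/-! ## 3. The leaves of the first cut -/

section Leaves

/-- The INVARIANT cusp functions OF TYPE `τ` (`IsWFn` is the case `τ = 1`; `IsWFnQ n` is the
case `K = ℚ`, `τ = n.type`, `l = 1`). -/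
structure IsWFnT {K : Type} [Field K] [NumberField K] (τ : G K → ℂ) (𝔫 : Ideal (𝓞 K)) (r : G K)
    (l : ℕ) (o : ℕ → HeightOneSpectrum (𝓞 K)) (ψ : G K → ℂ) : Prop where
  cusp : T5.IsCuspFn 𝔫 τ r ψ
  arch_scalar : ∀ (w : InfinitePlace K) (z : G K), IsArchPosScalar w z →
    ∀ g : G K, ψ (g * z) = ψ g
  iw : IsIwInv l o ψ

/-- **LEAF (general typed form of `H893.ProjC`): PROJ for the `K_∞`-type `τ`.**  For a frame, a
base level `𝔫₀`, a level `𝔫 ⊆ 𝔫₀`, `𝔫 ≠ 0`, and places `o j ∣ 𝔫₀`: every cusp function `ψ` of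
level `𝔫` and type `τ` has an orthogonal projection on the invariant cusp functions of type `τ`.
Proof.  As for `H893.ProjC` (average of the right translates over the finite group `H / U(𝔫)` and
over the compact torus `A_∞ / ⟨r⟩ Λ`): the right translations by elements which are trivial at
infinity, and by the central elements, commute with the right translations by `K_∞`, so the
averages preserve the type `τ`. -/
def ProjTC (K : Type) [Field K] [NumberField K] (τ : G K → ℂ) : Prop :=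
  T5.IsKType τ →
  ∀ R : Frame5 K, IsFrame5 R →
    ∀ 𝔫₀ 𝔫 : Ideal (𝓞 K), 𝔫 ≠ ⊥ → 𝔫 ≤ 𝔫₀ →
    ∀ (l : ℕ) (o : ℕ → HeightOneSpectrum (𝓞 K)), (∀ j : ℕ, (o j).asIdeal ∣ 𝔫₀) →
    ∀ ψ : G K → ℂ, T5.IsCuspFn 𝔫 τ R.r ψ →
      ∃ ψ₁ : G K → ℂ, IsWFnT τ 𝔫₀ R.r l o ψ₁ ∧
        ∀ χ : G K → ℂ, IsWFnT τ 𝔫₀ R.r l o χ →
          T5.innerD R.μ R.F (fun x => ψ x - ψ₁ x) χ = 0

/-- **LEAF T7.L2Q.1.C3a' = PROJ for WEIGHT ONE over `ℚ`** (`ProjTC ℚ wtOne` without the
hypothesis `IsKType`, which is the closed leaf `L2Q.WtOneKTypeC` of helper826). -/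
def ProjW1C : Prop :=
  ∀ R : Frame5 ℚ, IsFrame5 R →
    ∀ 𝔫₀ 𝔫 : Ideal (𝓞 ℚ), 𝔫 ≠ ⊥ → 𝔫 ≤ 𝔫₀ →
    ∀ (l : ℕ) (o : ℕ → HeightOneSpectrum (𝓞 ℚ)), (∀ j : ℕ, (o j).asIdeal ∣ 𝔫₀) →
    ∀ ψ : G ℚ → ℂ, T5.IsCuspFn 𝔫 wtOne R.r ψ →
      ∃ ψ₁ : G ℚ → ℂ, IsWFnT wtOne 𝔫₀ R.r l o ψ₁ ∧
        ∀ χ : G ℚ → ℂ, IsWFnT wtOne 𝔫₀ R.r l o χ →
          T5.innerD R.μ R.F (fun x => ψ x - ψ₁ x) χ = 0

variable (P : EKCond)
variable (F : Type) [Field F] [NumberField F]

/-- **LEAF T7.L2Q.1.C0 = SETUP over `ℚ`** (algebraic number theory + adapters of T1).  The common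
part exists.
Proof.  `F = ℚ(√-3)` (imaginary quadratic with a square root of `-3`); `σ` = the conjugation of
`F`, extended to the adeles (T1 adapters); `k` = the image of `ℚ`; frames: `T1.FundDomC`,
`T1.UnimodC` for `ℚ` and `F` (`σ` preserves every Haar measure, the ray generator, the slab, the
level groups of the levels coming from `ℚ`, `U(2)` at the complex place); `u` = a prime number
`p ≡ 1 mod 3` (it splits in `F`), prime to `Φ.level` and outside the exceptional set of
`ConstOnFibresQ`; `o 0`, `o 1 = σ (o 0)` the two places over `u`, `o (j + 2) = o j`;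
`𝔫₀ = u · (Φ.level ∩ ℤ) · ∏ (the exceptional primes)`, `𝔑₀ = 𝔫₀ 𝒪_F`, `S'` = the prime divisors
of `𝔑₀`, `S` = the prime numbers dividing `𝔫₀`. -/
def SetupQC : Prop :=
  HasSqrtNegThree F → IsImagQuad F →
    ∀ Φ : HeckeEigensystem F ℂ, A0.IsCuspAdelicSph0 F Φ → ConstOnFibresQ Φ →
      ∃ B : L2QBase F, IsL2QBase Φ B

/-- **NODE T7.L2Q.1.F = FAMILIES over `ℚ`** (C1 + C2 + C3b): for a common part and ONE bad
element `g` the part depending on `g` exists.  See `IsL2QFam`, the header of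
`T7/H826/Level2Q.lean` and the second cut. -/
def FamQC : Prop :=
  HasSqrtNegThree F → IsImagQuad F →
    ∀ Φ : HeckeEigensystem F ℂ, A0.IsCuspAdelicSph0 F Φ → ConstOnFibresQ Φ → P F Φ →
      ∀ B : L2QBase F, IsL2QBase Φ B → ∀ g : G F, B.IsBad g →
        ∃ Fm : L2QFam F, IsL2QFam Φ B g Fm

/-- `L2QData.IsStable`: the base level is the extension of a non-zero ideal of `ℚ` (mirror of
`T7.L2Data.IsStable`, `T7/Level2S.lean` of helper797). -/
def IsStableQ {F : Type} [Field F] [NumberField F] (Dt : L2QData F) : Prop :=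
  ∃ 𝔫₀ : Ideal (𝓞 ℚ), 𝔫₀ ≠ ⊥ ∧ Dt.𝔑₀ = Ideal.map (algebraMap (𝓞 ℚ) (𝓞 F)) 𝔫₀

/-- **NODE T7.L2Q.1, STABLE form**: `L2Q.SupplyQC` with a Galois-stable base level. -/
def SupplyQSC : Prop :=
  HasSqrtNegThree F → IsImagQuad F →
    ∀ Φ : HeckeEigensystem F ℂ, A0.IsCuspAdelicSph0 F Φ → ConstOnFibresQ Φ → P F Φ →
      ∃ Dt : L2QData F, IsL2QData Φ Dt ∧ IsStableQ Dt

end Leaves

end Fermat.Agent.LT.T7.L2Q.H60

end

end
-- ===== PACK-END LT/T7/H60/SupplyQSpec.lean

-- ===== PACK-BEGIN LT/T7/H655/TwistRep.lean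
section






/-!
# Row LT, tower T7, node `SupplyC`, field `matched` (cut of helper305): leaf C2.2 `TwistRepC305`
# VERBATIM (helper655, registry row 2361)

OFF-MAIN.  `twistRepC655 K : H305.TwistRepC305 K`, unconditional.

If `c N(δ) c⁻¹ = γ'` put `g = c⁻¹`, `δ₁ = g⁻¹ δ σ(g)`: `N δ₁ = g⁻¹ N(δ) g = γ'`
(`normUpTo_twConj32`, helper32), `Fδ₁ = (ratG g)⁻¹ Fδ` is a strict fundamental domain of the
twisted centraliser `g⁻¹ G^σ_δ(K) g` of `δ₁` in the slab (product formula: `adNormC309`,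
`slab_ratG_mul71`), and `twTerm δ₁ x = twTerm δ (ratG g · x)` (`twTerm_tw71`), so the two
integrals agree by the left invariance of the Haar measure.
-/

set_option autoImplicit false

open AutomorphicForm IsDedekindDomain NumberField MeasureTheory

noncomputable section

namespace Fermat.Agent.LT.T7.H655

open Fermat.Agent.LT Fermat.Agent.LT.H556 Fermat.Agent.LT.H556.A0 Fermat.Agent.LT.T7

attribute [local instance] Fermat.Agent.LT.T5.instMeasurableSpaceG

variable {K : Type} [Field K] [NumberField K]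

/-- Conjugation carries the twisted centraliser of `g⁻¹ δ σ(g)` to the one of `δ`. -/
theorem mem_twStab_conj655 (s : T5.AdelicAut K) (δ g γ : GL (Fin 2) K) :
    γ ∈ T5.twStab s (g⁻¹ * δ * s.onRat g) ↔ g * γ * g⁻¹ ∈ T5.twStab s δ := by
  show γ⁻¹ * (g⁻¹ * δ * s.onRat g) * s.onRat γ = g⁻¹ * δ * s.onRat g
    ↔ (g * γ * g⁻¹)⁻¹ * δ * s.onRat (g * γ * g⁻¹) = δ
  rw [map_mul, map_mul, map_inv]
  constructor
  · intro h
    have h2 : γ⁻¹ * g⁻¹ * δ * s.onRat g * s.onRat γ = g⁻¹ * δ * s.onRat g := by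
      rw [← h]
      group
    calc (g * γ * g⁻¹)⁻¹ * δ * (s.onRat g * s.onRat γ * (s.onRat g)⁻¹)
        = g * (γ⁻¹ * g⁻¹ * δ * s.onRat g * s.onRat γ) * (s.onRat g)⁻¹ := by group
      _ = δ := by
        rw [h2]
        group
  · intro h
    calc γ⁻¹ * (g⁻¹ * δ * s.onRat g) * s.onRat γ
        = g⁻¹ * ((g * γ * g⁻¹)⁻¹ * δ * (s.onRat g * s.onRat γ * (s.onRat g)⁻¹)) * s.onRat g := by
          group
      _ = g⁻¹ * δ * s.onRat g := by rw [h]

/-- The translate `(ratG g)⁻¹ Fδ` of a twisted domain of `δ` is a twisted domain of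
`g⁻¹ δ σ(g)`. -/
theorem isTwDomain_translate655 (s : T5.AdelicAut K) (δ g : GL (Fin 2) K) {Fδ : Set (G K)}
    (hF : T5.IsTwDomain s δ Fδ) :
    T5.IsTwDomain s (g⁻¹ * δ * s.onRat g) ((fun x : G K => T5.ratG g * x) ⁻¹' Fδ) := by
  have : BorelSpace (G K) := ⟨rfl⟩
  have hN : T1.AdNormC K := T1.H309.adNormC309 K
  refine ⟨(continuous_const_mul (T5.ratG g)).measurable hF.meas, ?_, ?_⟩
  · intro x hx
    have h1 : T5.ratG g * x ∈ T5.slab K := hF.sub (Set.mem_preimage.1 hx)
    have h2 := T5.H71.slab_ratG_mul71 hN g⁻¹ _ h1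
    rwa [← mul_assoc, ← map_mul, inv_mul_cancel, map_one, one_mul] at h2
  · intro x hx
    have h1 : T5.ratG g * x ∈ T5.slab K := T5.H71.slab_ratG_mul71 hN g x hx
    obtain ⟨γ₀, hγ₀, huniq⟩ := hF.strict _ h1
    have hmem : g⁻¹ * (γ₀ : GL (Fin 2) K) * g ∈ T5.twStab s (g⁻¹ * δ * s.onRat g) := by
      rw [mem_twStab_conj655]
      have : g * (g⁻¹ * (γ₀ : GL (Fin 2) K) * g) * g⁻¹ = (γ₀ : GL (Fin 2) K) := by group
      rw [this]
      exact γ₀.2
    refine ⟨⟨g⁻¹ * (γ₀ : GL (Fin 2) K) * g, hmem⟩, ?_, ?_⟩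
    · refine Set.mem_preimage.2 ?_
      have e : T5.ratG g * (T5.ratG (g⁻¹ * (γ₀ : GL (Fin 2) K) * g) * x)
          = T5.ratG (γ₀ : GL (Fin 2) K) * (T5.ratG g * x) := by
        rw [← mul_assoc, ← mul_assoc, ← map_mul, ← map_mul]
        congr 2
        group
      rw [e]
      exact hγ₀
    · rintro ⟨γ, hγ⟩ hγx
      have hγx' : T5.ratG g * (T5.ratG γ * x) ∈ Fδ := Set.mem_preimage.1 hγx
      have hmem' : g * γ * g⁻¹ ∈ T5.twStab s δ := (mem_twStab_conj655 s δ g γ).1 hγ
      have e : T5.ratG g * (T5.ratG γ * x) = T5.ratG (g * γ * g⁻¹) * (T5.ratG g * x) := by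
        rw [← mul_assoc, ← mul_assoc, ← map_mul, ← map_mul]
        congr 2
        group
      rw [e] at hγx'
      have h3 := huniq ⟨g * γ * g⁻¹, hmem'⟩ hγx'
      apply Subtype.ext
      show γ = g⁻¹ * (γ₀ : GL (Fin 2) K) * g
      have h4 : g * γ * g⁻¹ = (γ₀ : GL (Fin 2) K) := congrArg Subtype.val h3
      rw [← h4]
      group

/-- The integral over the translated domain. -/
theorem setIntegral_translate655 (μ : Measure (G K)) (hμ : μ.IsHaarMeasure) (a : G K)
    (Fδ : Set (G K)) (f : G K → ℂ) :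
    ∫ x in (fun x : G K => a * x) ⁻¹' Fδ, f (a * x) ∂μ = ∫ y in Fδ, f y ∂μ := by
  have : BorelSpace (G K) := ⟨rfl⟩
  have hmp : MeasurePreserving (fun x : G K => a * x) μ μ := measurePreserving_mul_left μ a
  have hemb : MeasurableEmbedding (fun x : G K => a * x) :=
    (Homeomorph.mulLeft a).measurableEmbedding
  exact hmp.setIntegral_preimage_emb hemb f Fδ

/-- **LEAF C2.2 = TWIST-REP**, verbatim. -/
theorem twistRepC655 (K : Type) [Field K] [NumberField K] : H305.TwistRepC305 K := by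
  intro R hR s l k 𝔫 hcyc haut δ γ' hconj Fδ hF
  obtain ⟨c, hc⟩ := isConj_iff.1 hconj
  refine ⟨c * δ * s.onRat c⁻¹, (fun x : G K => T5.ratG c⁻¹ * x) ⁻¹' Fδ, ?_, ?_, fun φ => ?_⟩
  · have h := T7.H32.normUpTo_twConj32 s l hcyc.pow_eq c⁻¹ δ
    rw [inv_inv] at h
    rw [h, hc]
  · have h := isTwDomain_translate655 s δ c⁻¹ hF
    rwa [inv_inv] at h
  · have h1 : ∀ x : G K, T5.twTerm R.r s φ (c * δ * s.onRat c⁻¹) x
        = T5.twTerm R.r s φ δ (T5.ratG c⁻¹ * x) := by
      intro x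
      have h := T5.H71.twTerm_tw71 R.r s φ haut.rat δ c⁻¹ x
      rwa [inv_inv] at h
    simp only [h1]
    exact setIntegral_translate655 R.μ hR.frame.haar (T5.ratG c⁻¹) Fδ
      (fun y => T5.twTerm R.r s φ δ y)

end Fermat.Agent.LT.T7.H655

end

end
-- ===== PACK-END LT/T7/H655/TwistRep.lean

-- ===== PACK-BEGIN LT/T7/H943/IotaSpec.lean
section



/-!
# Row LT, tower T7, leaf T7.L2.1.C2.4 `H305.IotaC305` (base change of adeles): THE CUT
# (helper943, SPARE sub-architect for the XL row 2363 of helper185; OFF-MAIN)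

Definitions, frozen Props, PROVED tops.  No hole, no opaque constant, nothing assumed.
ADDITIVE: `T7/H305/MatchSpec.lean` (helper305, sha256 541c6ac7) and `A2/H743/BaseChange.lean`
(helper743, closed asset of tower A2) are imported as they are.

    iotaC_of943 : IotaFinC943 K K' → IotaInfC943 K K' → IotaNormC943 K K' → IotaFixedC943 K K'
        → IotaOntoC943 K K' → IotaEmbC943 K K' → H305.SigmaLocC305 K' → H305.IotaC305 K K'
    iotaOnto_of943 : DescFinC943 K K' → DescInfC943 K K' → GlueC943 K K' → IotaOntoC943 K K'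

THE MAP IS FIXED: `iota943 K K' = A2.H743.bcAdele743 K K'` (helper743): product of the completion
maps `K_v → K'_w` (`finLoc743`, `infLoc743`), already PROVED there: ring homomorphism,
`continuous_bcAdele743`, `bcAdele_algebraMap743` (the field `rat`), the components
`bcAdele_fst743`, `bcAdele_snd743`, and `valued_finLoc743 : v(i x) = v(x) ^ e(w | v)`.

## The leaves (all TRUE statements; every one is stated for THE map `iota943`)

| leaf | Prop | size | content |
|---|---|---|---|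
| I.1 | `IotaFinC943`   | S-M | field `fin`: transport of `finLoc743` along `finUnder743 w = v` |
| I.2 | `IotaInfC943`   | M   | field `inf`: `extensionEmbedding w' ∘ completionMap` is `extensionEmbedding v` or its conjugate |
| I.3 | `IotaNormC943`  | L   | field `norm`: `‖ι x‖ = ‖x‖ ^ ℓ` (`∑ e f = ℓ`; `ℓ` complex places over a complex place) |
| I.4 | `IotaFixedC943` | M-L | field `fixed`, from `SigmaLocC305` (density of `K` in `K_v`; `K` totally complex) |
| I.5a | `DescFinC943`  | L   | local descent at a finite place `v`: a `σ_𝔸`-fixed adele is, at the places over `v`, the image of an element of `K_v` |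
| I.5b | `DescInfC943`  | M   | the same at an infinite place |
| I.5c | `GlueC943`     | M   | the local solutions glue to an adele (integrality from the valuation relation) |
| I.6 | `IotaEmbC943`   | L   | `ι` is a topological embedding (any extension of number fields) |

Proof sketches are in the docstrings.  `closed` is PROVED here from I.4, I.5, I.6: the range of
`ι` is the equaliser of `σ_𝔸` and the identity, closed in the Hausdorff space `𝔸_{K'}`.
-/

set_option autoImplicit false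

open AutomorphicForm IsDedekindDomain NumberField MeasureTheory
open scoped ComplexConjugate

noncomputable section

namespace Fermat.Agent.LT.T7.H943

open Fermat.Agent.LT.H556 Fermat.Agent.LT.H556.A0 Fermat.Agent.LT.T7 Fermat.Agent.LT.T7.H305

variable (K K' : Type) [Field K] [NumberField K] [Field K'] [NumberField K'] [Algebra K K']

/-- **THE BASE CHANGE OF ADELES** `ι : 𝔸_K → 𝔸_{K'}` (the map of helper743). -/
def iota943 : Adl K →+* Adl K' := Fermat.Agent.LT.A2.H743.bcAdele743 K K'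

theorem iota943_def : iota943 K K' = Fermat.Agent.LT.A2.H743.bcAdele743 K K' := rfl

theorem continuous_iota943 : Continuous (iota943 K K') :=
  Fermat.Agent.LT.A2.H743.continuous_bcAdele743 K K'

theorem iota943_algebraMap (x : K) :
    iota943 K K' (algebraMap K (Adl K) x) = algebraMap K' (Adl K') (algebraMap K K' x) :=
  Fermat.Agent.LT.A2.H743.bcAdele_algebraMap743 K K' x

/-! ## The leaves -/

/-- **LEAF I.1 = IOTA-FIN (the field `fin`).**
Proof.  `PlaceOver K K' v w` gives `finUnder743 K K' w = v` (`HeightOneSpectrum.ext`: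
`x ∈ w.asIdeal.under (𝓞 K) ↔ algebraMap x ∈ w.asIdeal`); `subst`; `e = ramIdx743 K K' w`
(`ramIdx_ne_zero743`), `i = finLoc743 K K' w` (`finLoc_coe743`, `valued_finLoc743`), and
`T5.finHom w (ι x) = (ι x).2 w = finLoc743 w (x.2 (finUnder743 w))` is `bcAdele_snd743`. -/
def IotaFinC943 : Prop :=
  ∀ (v : HeightOneSpectrum (𝓞 K)) (w : HeightOneSpectrum (𝓞 K')), PlaceOver K K' v w →
    ∃ (e : ℕ) (i : v.adicCompletion K →+* w.adicCompletion K'), 0 < e ∧
      (∀ x : K, i (algebraMap K (v.adicCompletion K) x)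
        = algebraMap K' (w.adicCompletion K') (algebraMap K K' x)) ∧
      (∀ x : v.adicCompletion K, Valued.v (i x) = Valued.v x ^ e) ∧
      ∀ x : Adl K, T5.finHom w (iota943 K K' x) = i (T5.finHom v x)

/-- **LEAF I.2 = IOTA-INF (the field `inf`).**
Proof.  `T5.infHom w' (ι x) = extensionEmbedding w' (completionMap (x.1 v))`,
`v = w'.comap (algebraMap K K')` (`bcAdele_fst743`, `infLoc743 = LiesOver.completionMap`).  The
two maps `extensionEmbedding w' ∘ completionMap` and `extensionEmbedding v` (resp. its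
conjugate) are continuous ring homomorphisms `K_v → ℂ`; on the dense subfield `K` the first is
`w'.embedding ∘ algebraMap K K'`, which is `v.embedding` or its conjugate
(`InfinitePlace.comap`, `mk_embedding`, `mk_eq_iff`); Mathlib:
`NumberField.InfinitePlace.LiesOver` (`Completion/InfinitePlace.lean`, section `LiesOver`). -/
def IotaInfC943 : Prop :=
  ∀ w' : InfinitePlace K',
    (∀ x : Adl K, T5.infHom w' (iota943 K K' x)
        = T5.infHom (w'.comap (algebraMap K K')) x) ∨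
      ∀ x : Adl K, T5.infHom w' (iota943 K K' x)
        = conj (T5.infHom (w'.comap (algebraMap K K')) x)

/-- **LEAF I.3 = IOTA-NORM (the field `norm`).**  `‖ι x‖_{K'} = ‖x‖_K ^ ℓ` on the ideles.
Proof.  Infinite part: `K` totally complex, so every place of `K'` is complex (`mult = 2`), the
completion maps are isometries, and every place `v` of `K` has exactly `ℓ = [K' : K]` places
over it (Mathlib `InfinitePlace` ramification: `card_stabilizer` / `isUnramified`, or
`Module.finrank` of the embeddings extending a given one).  Finite part: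
`‖i x‖_w = ‖x‖_v ^ (e_w f_w)` (`valued_finLoc743` for `e_w`, `N w = (N v) ^ f_w`, the norm of
`K_v` is `(N v) ^ (- ord)`) and `∑_{w ∣ v} e_w f_w = ℓ` (`Ideal.sum_ramification_inertia`);
`∏ᶠ_w = ∏ᶠ_v ∏_{w ∣ v}` (finite fibres `finite_fiber_finUnder743`, finite support: `x` is an
idele). -/
def IotaNormC943 : Prop :=
  ∀ ℓ : ℕ, IsCycExt K K' ℓ → TotCplx K →
    ∀ x : (Adl K)ˣ, T5.adNorm (iota943 K K' (x : Adl K)) = T5.adNorm (x : Adl K) ^ ℓ

/-- **LEAF I.4 = IOTA-FIXED (the field `fixed`).**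
Proof.  Components (an adele is determined by `T5.finHom w`, `T5.infHom w'`: the extension
embeddings are injective).  Finite `w'`: `w = σ⁻¹ w'` (`T5.PlaceRel D.s w w'`), `SigmaLocC305`
gives `s_w`; `w`, `w'` lie over the same `v` (`σ` fixes `K`: `IsCompData.base`,
`IsCyclicOfDegree.fixed`); `s_w ∘ i_{v,w}` and `i_{v,w'}` are continuous (valuation relations)
and agree on the dense subfield `K`.  Infinite `w'`: both sides are `x_v` or `conj x_v` in the
coordinates of `T5.infHom` (`SigmaLocC305`, I.2), they agree on `K`, and `conj ∘ φ ≠ φ` for the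
embedding `φ` of a complex place (`K` totally complex). -/
def IotaFixedC943 : Prop :=
  SigmaLocC305 K' → ∀ D : CompData K K', IsCompData D → IsCycExt K K' D.l → TotCplx K →
    ∀ x : Adl K, D.s.σA (iota943 K K' x) = iota943 K K' x

/-- **NODE I.5 = IOTA-ONTO (the field `onto`)**; cut into I.5a, I.5b, I.5c (`iotaOnto_of943`). -/
def IotaOntoC943 : Prop :=
  SigmaLocC305 K' → ∀ D : CompData K K', IsCompData D → IsCycExt K K' D.l → TotCplx K →
    ∀ y : Adl K', D.s.σA y = y → ∃ x : Adl K, iota943 K K' x = y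

/-- **LEAF I.5a = DESC-FIN (local descent at a finite place).**  For a `σ_𝔸`-fixed adele `y` and
a finite place `v` of `K` there is an adele `a` of `K` with `(ι a)_w = y_w` at ALL places `w`
over `v` (only the component of `a` at `v` matters).
Proof (no local Galois theory).  `R_v = ∏_{w ∣ v} K'_w` (finite product), a finite
dimensional normed space over `K_v` through `(i_{v,w})_w`.  (1) `K'` is dense in `R_v` (weak
approximation at the places over `v`: CRT in the Dedekind domain `𝓞 K'`; asset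
`LT/CFT/H861/Approx.lean`).  (2) The `K_v`-span `M` of the image of `K'` has dimension `≤ ℓ`
(spanned by the images of a `K`-basis of `K'`), so it is closed
(`Submodule.closed_of_finiteDimensional`); with (1), `M = R_v`.  (3) So
`(y_w)_w = ∑_j i(c_j) θ_j`, `c_j ∈ K_v`, `θ_j` a `K`-basis of `K'`.  The maps
`T_m : R_v → R_v`, `(T_m z)_{σ^m w} = s^m_w (z_w)` (`SigmaLocC305`, iterated) are `K_v`-linear and
`σ^m` on `K'`; `y` is fixed, so `ℓ y = ∑_m T_m y = ∑_j i(c_j) Tr_{K'/K}(θ_j)`, and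
`(y_w)_w = i(ℓ⁻¹ ∑_j c_j Tr(θ_j))`.  Take `a` with this component at `v`
(e.g. `a = ` the adele supported at `v`). -/
def DescFinC943 : Prop :=
  SigmaLocC305 K' → ∀ D : CompData K K', IsCompData D → IsCycExt K K' D.l → TotCplx K →
    ∀ y : Adl K', D.s.σA y = y → ∀ v : HeightOneSpectrum (𝓞 K),
      ∃ a : Adl K, ∀ w : HeightOneSpectrum (𝓞 K'), PlaceOver K K' v w →
        T5.finHom w (iota943 K K' a) = T5.finHom w y

/-- **LEAF I.5b = DESC-INF (local descent at an infinite place).**  The same at an infinite place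
`v` of `K` (complex): `R_v = ∏_{w' ∣ v} ℂ`, the same argument (or directly: the `ℓ` places over
`v` are permuted transitively by `σ`, `SigmaLocC305` moves the components by the identity or the
conjugation, and the composite around the orbit is the identity on the dense subfield `K`). -/
def DescInfC943 : Prop :=
  SigmaLocC305 K' → ∀ D : CompData K K', IsCompData D → IsCycExt K K' D.l → TotCplx K →
    ∀ y : Adl K', D.s.σA y = y → ∀ v : InfinitePlace K,
      ∃ a : Adl K, ∀ w' : InfinitePlace K', w'.comap (algebraMap K K') = v →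
        T5.infHom w' (iota943 K K' a) = T5.infHom w' y

/-- **LEAF I.5c = GLUE.**  If `y ∈ 𝔸_{K'}` is locally in the image of `ι` at every place of `K`,
it is in the image of `ι`.  No hypothesis on the extension.
Proof.  Choose `a_v` for every `v`; `x_v := (a_v)_v`.  For almost all `w` the component `y_w` is
integral; the set of `v` under the other `w` is finite; for the remaining `v` pick `w ∣ v`
(`Ideal.exists_ideal_over_prime_of_isIntegral` / `primesOver` non-empty): `i(x_v) = y_w` is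
integral, so `x_v` is integral (`valued_finLoc743`, `ramIdx_ne_zero743`).  So `x = (x_v)_v` is an
adele (`RestrictedProduct.mk`), and `ι x = y` component by component (`bcAdele_fst743`,
`bcAdele_snd743`; an adele is determined by its components). -/
def GlueC943 : Prop :=
  ∀ y : Adl K',
    (∀ v : HeightOneSpectrum (𝓞 K), ∃ a : Adl K, ∀ w : HeightOneSpectrum (𝓞 K'),
      PlaceOver K K' v w → T5.finHom w (iota943 K K' a) = T5.finHom w y) →
    (∀ v : InfinitePlace K, ∃ a : Adl K, ∀ w' : InfinitePlace K',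
      w'.comap (algebraMap K K') = v → T5.infHom w' (iota943 K K' a) = T5.infHom w' y) →
    ∃ x : Adl K, iota943 K K' x = y

/-- **LEAF I.6 = IOTA-EMB.**  `ι` is a topological embedding (true for every extension of number
fields).
Proof.  Injective: the components are field homomorphisms and every place of `K` has a place of
`K'` over it.  Inducing: choose a place `w(v)` over every `v`; the composite of `ι` with the
projection to the places `w(v)` is the restricted product of the maps `i_{v,w(v)}`, which are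
homeomorphisms onto their images with `i⁻¹(𝒪_w) = 𝒪_v` (`valued_finLoc743`); a neighbourhood
basis of `0` in `𝔸_K` is `∏_{v ∈ S} {|x_v| ≤ ε_v} × ∏_{v ∉ S} 𝒪_v`
(`RestrictedProduct.nhds_zero_eq_map_structureMap`), the preimage of the corresponding
neighbourhood of `0` in `𝔸_{K'}` with `|y_{w(v)}| ≤ ε_v ^ e`; infinite part: product of
isometries along a surjection of finite index sets. -/
def IotaEmbC943 : Prop := Topology.IsEmbedding (iota943 K K')

/-! ## The tops (PROVED) -/

variable {K K'}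

/-- **The node `IotaOntoC943` from its three leaves.** -/
theorem iotaOnto_of943 (hfin : DescFinC943 K K') (hinf : DescInfC943 K K')
    (hglue : GlueC943 K K') : IotaOntoC943 K K' :=
  fun hs D hD hcyc hcplx y hy =>
    hglue y (fun v => hfin hs D hD hcyc hcplx y hy v) (fun v => hinf hs D hD hcyc hcplx y hy v)

/-- The range of `ι` is closed: it is the set of the fixed points of `σ_𝔸`. -/
theorem isClosed_range_iota943 (hfix : IotaFixedC943 K K') (honto : IotaOntoC943 K K')
    (hs : SigmaLocC305 K') (D : CompData K K') (hD : IsCompData D) (hcyc : IsCycExt K K' D.l)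
    (hcplx : TotCplx K) : IsClosed (Set.range (iota943 K K')) := by
  have hrange : Set.range (iota943 K K') = {y : Adl K' | D.s.σA y = y} := by
    ext y
    constructor
    · rintro ⟨x, rfl⟩
      exact hfix hs D hD hcyc hcplx x
    · intro hy
      exact honto hs D hD hcyc hcplx y hy
  rw [hrange]
  have h1 : T2Space (FiniteAdeleRing (𝓞 K') K') := by
    refine T2Space.of_injective_continuous
      (f := fun (x : FiniteAdeleRing (𝓞 K') K') (v : HeightOneSpectrum (𝓞 K')) => x v) ?_ ?_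
    · intro x y h
      exact RestrictedProduct.ext _ _ fun v => congrFun h v
    · exact RestrictedProduct.continuous_coe
  have h2 : T2Space (InfiniteAdeleRing K') :=
    inferInstanceAs (T2Space ((v : InfinitePlace K') → v.Completion))
  have h3 : T2Space (Adl K') :=
    inferInstanceAs (T2Space (InfiniteAdeleRing K' × FiniteAdeleRing (𝓞 K') K'))
  exact isClosed_eq D.s.continuous_σA continuous_id

/-- **THE TOP: `H305.IotaC305` from the leaves of the cut and the asset `SigmaLocC305`.** -/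
theorem iotaC_of943 (hfin : IotaFinC943 K K') (hinf : IotaInfC943 K K')
    (hnorm : IotaNormC943 K K') (hfix : IotaFixedC943 K K') (honto : IotaOntoC943 K K')
    (hemb : IotaEmbC943 K K') (hs : SigmaLocC305 K') : IotaC305 K K' := by
  intro D hD hcyc hcplx
  refine ⟨iota943 K K', ?_⟩
  exact
    { cont := continuous_iota943 K K'
      closed := ⟨hemb, isClosed_range_iota943 hfix honto hs D hD hcyc hcplx⟩
      rat := iota943_algebraMap K K'
      fixed := hfix hs D hD hcyc hcplx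
      onto := honto hs D hD hcyc hcplx
      norm := hnorm D.l hcyc hcplx
      fin := hfin
      inf := hinf }

/-- The top with the node `IotaOntoC943` cut. -/
theorem iotaC_of_leaves943 (hfin : IotaFinC943 K K') (hinf : IotaInfC943 K K')
    (hnorm : IotaNormC943 K K') (hfix : IotaFixedC943 K K') (hdf : DescFinC943 K K')
    (hdi : DescInfC943 K K') (hglue : GlueC943 K K') (hemb : IotaEmbC943 K K')
    (hs : SigmaLocC305 K') : IotaC305 K K' :=
  iotaC_of943 hfin hinf hnorm hfix (iotaOnto_of943 hdf hdi hglue) hemb hs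

end Fermat.Agent.LT.T7.H943

end

end
-- ===== PACK-END LT/T7/H943/IotaSpec.lean

-- ===== PACK-BEGIN LT/T7/H584/NormLocClosed.lean
section






/-!
# Row LT, tower T7, local norm bridge (helper584): the node `NonNormLocC584` CLOSED on tower T6

OFF-MAIN.  `nonNormLocC584 : T6.NormImageTCC → T6.InstSplitC → NonNormLocC584 K K'`: the three
leaves of the cut `NormLocSpec.lean` are plugged (N1 `tensorFieldC584` helper584, N2
`tensorSplitC122` helper122, N3 `splitOrUniqueC768` helper768; byte-identical copies);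
`T6.NormImageTCC`, `T6.InstSplitC` are closed in tower T6.
-/

set_option autoImplicit false

open IsDedekindDomain NumberField

noncomputable section

namespace Fermat.Agent.LT.T7.H584

variable (K K' : Type) [Field K] [NumberField K] [Field K'] [NumberField K'] [Algebra K K']

/-- The node with N1 and N3 plugged. -/
theorem nonNormLoc_of_split584 (hN : T6.NormImageTCC) (hS : T6.InstSplitC)
    (h2 : TensorSplitC584) : NonNormLocC584 K K' :=
  nonNormLoc_of584 hN hS tensorFieldC584 h2 (H768.splitOrUniqueC768 K K')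

/-- **The node `NonNormLocC584`, closed on tower T6.** -/
theorem nonNormLocC584 (hN : T6.NormImageTCC) (hS : T6.InstSplitC) : NonNormLocC584 K K' :=
  nonNormLoc_of_split584 K K' hN hS H122.tensorSplitC122

end Fermat.Agent.LT.T7.H584

end

end
-- ===== PACK-END LT/T7/H584/NormLocClosed.lean

-- ===== PACK-BEGIN LT/T7/H416/SetupOrbit.lean
section




/-!
# Row LT, tower T7, leaf T7.L2.1.C0 `SetupC` (helper416): the orbit of a place

OFF-MAIN.  No `sorry`, nothing assumed.  The image of a finite place under an automorphism of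
`K'` over `K`, the place of `K` below a place of `K'`, transitivity of the Galois group on the
places over a place of `K` (Mathlib), in the vocabulary of `T7/Spec.lean` (`PlaceOver`).
-/

set_option autoImplicit false
set_option linter.style.haveILetI false

open IsDedekindDomain NumberField
open scoped Pointwise

noncomputable section

namespace Fermat.Agent.LT.T7.H416

open Fermat.Agent.LT.T7

variable {K K' : Type} [Field K] [NumberField K] [Field K'] [NumberField K'] [Algebra K K']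

/-- The ring automorphism of `𝓞 K'` of an automorphism of `K'` over `K`. -/
abbrev oEquiv416 (τ : K' ≃ₐ[K] K') : 𝓞 K' ≃+* 𝓞 K' :=
  RingOfIntegers.mapRingEquiv τ.toRingEquiv

omit [NumberField K] [NumberField K'] in
theorem oEquiv_apply416 (τ : K' ≃ₐ[K] K') (y : 𝓞 K') : ((oEquiv416 τ y : 𝓞 K') : K') = τ y :=
  rfl

omit [NumberField K] [NumberField K'] in
theorem oEquiv_algebraMap416 (τ : K' ≃ₐ[K] K') (x : 𝓞 K) :
    oEquiv416 τ (algebraMap (𝓞 K) (𝓞 K') x) = algebraMap (𝓞 K) (𝓞 K') x := by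
  apply Subtype.ext
  show τ (algebraMap K K' (x : K)) = algebraMap K K' (x : K)
  exact τ.commutes _

omit [NumberField K] [NumberField K'] in
theorem oEquiv_mul416 (τ τ' : K' ≃ₐ[K] K') (y : 𝓞 K') :
    oEquiv416 (τ * τ') y = oEquiv416 τ (oEquiv416 τ' y) := rfl

omit [NumberField K] [NumberField K'] in
theorem oEquiv_one416 (y : 𝓞 K') : oEquiv416 (1 : K' ≃ₐ[K] K') y = y := rfl

/-- The image of a finite place under an automorphism. -/
def mapPlace416 (τ : K' ≃ₐ[K] K') (w : HeightOneSpectrum (𝓞 K')) :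
    HeightOneSpectrum (𝓞 K') where
  asIdeal := Ideal.map (oEquiv416 τ) w.asIdeal
  isPrime := Ideal.map_isPrime_of_equiv _
  ne_bot := by
    rw [Ne, Ideal.map_eq_bot_iff_of_injective (RingEquiv.injective _)]
    exact w.ne_bot

theorem mem_mapPlace416 (τ : K' ≃ₐ[K] K') (w : HeightOneSpectrum (𝓞 K')) (y : 𝓞 K') :
    y ∈ (mapPlace416 τ w).asIdeal ↔ ∃ x ∈ w.asIdeal, oEquiv416 τ x = y :=
  Ideal.mem_map_of_equiv _ _

theorem mapPlace_one416 (w : HeightOneSpectrum (𝓞 K')) :
    mapPlace416 (1 : K' ≃ₐ[K] K') w = w := by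
  apply HeightOneSpectrum.ext
  ext y
  rw [mem_mapPlace416]
  constructor
  · rintro ⟨x, hx, rfl⟩
    exact hx
  · intro hy
    exact ⟨y, hy, rfl⟩

theorem mapPlace_mul416 (τ τ' : K' ≃ₐ[K] K') (w : HeightOneSpectrum (𝓞 K')) :
    mapPlace416 (τ * τ') w = mapPlace416 τ (mapPlace416 τ' w) := by
  apply HeightOneSpectrum.ext
  ext y
  rw [mem_mapPlace416, mem_mapPlace416]
  constructor
  · rintro ⟨x, hx, rfl⟩
    exact ⟨oEquiv416 τ' x, (mem_mapPlace416 _ _ _).mpr ⟨x, hx, rfl⟩, rfl⟩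
  · rintro ⟨x, hx, rfl⟩
    obtain ⟨x', hx', rfl⟩ := (mem_mapPlace416 _ _ _).mp hx
    exact ⟨x', hx', rfl⟩

/-- The action of the Galois group on the finite places. -/
instance mulActionPlace416 : MulAction (K' ≃ₐ[K] K') (HeightOneSpectrum (𝓞 K')) where
  smul := mapPlace416
  one_smul := mapPlace_one416
  mul_smul := mapPlace_mul416

theorem smul_def416 (τ : K' ≃ₐ[K] K') (w : HeightOneSpectrum (𝓞 K')) :
    τ • w = mapPlace416 τ w := rfl

/-- The images of a place over `v` are places over `v`. -/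
theorem placeOver_mapPlace416 (τ : K' ≃ₐ[K] K') {v : HeightOneSpectrum (𝓞 K)}
    {w : HeightOneSpectrum (𝓞 K')} (h : PlaceOver K K' v w) :
    PlaceOver K K' v (mapPlace416 τ w) := by
  intro x y hxy
  have hy : y = algebraMap (𝓞 K) (𝓞 K') x := Subtype.ext hxy
  rw [h x y hxy, mem_mapPlace416]
  constructor
  · intro hyw
    refine ⟨y, hyw, ?_⟩
    rw [hy]
    exact oEquiv_algebraMap416 τ x
  · rintro ⟨z, hz, hzy⟩
    have e1 : oEquiv416 τ y = y := by rw [hy]; exact oEquiv_algebraMap416 τ x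
    have e2 : z = y := (oEquiv416 τ).injective (hzy.trans e1.symm)
    rw [← e2]
    exact hz

/-- The place of `K` below a place of `K'`. -/
def below416 (w : HeightOneSpectrum (𝓞 K')) : HeightOneSpectrum (𝓞 K) where
  asIdeal := Ideal.comap (algebraMap (𝓞 K) (𝓞 K')) w.asIdeal
  isPrime := Ideal.comap_isPrime _ _
  ne_bot := by
    intro h
    -- the absolute norm of `w` is a non-zero integer of `w`
    have h1 : ((Ideal.absNorm w.asIdeal : ℕ) : 𝓞 K') ∈ w.asIdeal := Ideal.absNorm_mem _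
    have h2 : ((Ideal.absNorm w.asIdeal : ℕ) : 𝓞 K) ∈
        Ideal.comap (algebraMap (𝓞 K) (𝓞 K')) w.asIdeal := by
      rw [Ideal.mem_comap, map_natCast]
      exact h1
    rw [h, Ideal.mem_bot] at h2
    have h3 : Ideal.absNorm w.asIdeal = 0 := by exact_mod_cast h2
    rw [Ideal.absNorm_eq_zero_iff] at h3
    exact w.ne_bot h3

theorem placeOver_below416 (w : HeightOneSpectrum (𝓞 K')) : PlaceOver K K' (below416 w) w := by
  intro x y hxy
  have hy : y = algebraMap (𝓞 K) (𝓞 K') x := Subtype.ext hxy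
  rw [hy]
  rfl

/-- A place over `v` lies over `v` in the sense of Mathlib. -/
theorem liesOver_of_placeOver416 {v : HeightOneSpectrum (𝓞 K)} {w : HeightOneSpectrum (𝓞 K')}
    (h : PlaceOver K K' v w) : w.asIdeal.LiesOver v.asIdeal := by
  refine ⟨?_⟩
  ext x
  rw [Ideal.under_def, Ideal.mem_comap]
  exact h x (algebraMap (𝓞 K) (𝓞 K') x) rfl

theorem below_eq_of_placeOver416 {v : HeightOneSpectrum (𝓞 K)} {w : HeightOneSpectrum (𝓞 K')}
    (h : PlaceOver K K' v w) : below416 w = v := by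
  apply HeightOneSpectrum.ext
  ext x
  exact (h x (algebraMap (𝓞 K) (𝓞 K') x) rfl).symm

/-- `w` divides the extension of `𝔫` iff the place below `w` divides `𝔫`. -/
theorem dvd_upI_iff416 (𝔫 : Ideal (𝓞 K)) (w : HeightOneSpectrum (𝓞 K')) :
    w.asIdeal ∣ H893.upI (K' := K') 𝔫 ↔ (below416 w).asIdeal ∣ 𝔫 := by
  rw [Ideal.dvd_iff_le, Ideal.dvd_iff_le]
  exact Ideal.map_le_iff_le_comap

end Fermat.Agent.LT.T7.H416

end

end
-- ===== PACK-END LT/T7/H416/SetupOrbit.lean

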