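import Mathlib
import Fermat.Agent.Pack.LT3.E21L3
import Fermat.Agent.Pack.LT3.E21L1
import Fermat.Agent.Pack.LT2.E7L1
import Fermat.Agent.Pack.LT3.E21L0
import Fermat.Agent.Pack.LT2.E16L2
import Fermat.Agent.Pack.LT3.E21L2
import Fermat.Agent.Pack.LT2.E10L0
import Fermat.Agent.Pack.LT3.E20L3
import Fermat.Agent.Pack.LT2.E2L1
import Fermat.Agent.Pack.LT2.E0L1
import Fermat.Agent.Pack.LT3.E1L3
import Fermat.Agent.Pack.LT2.E6L1
import Fermat.Agent.Pack.LT3.E4L1
import Fermat.Agent.Pack.LT3.E1L2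
import Fermat.Agent.Pack.LT3.E10L3

set_option linter.all false

-- ===== PACK-BEGIN LT/T7/H140/SpecDownQSpec.lean
section




/-!
# Row LT, tower T7, NODE T7.L2Q.3 `L2Q.SpecDownQC` -- THE CUT, level 1 (sub-architect helper140)

OFF-MAIN.  Definitions, frozen Props and the PROVED top `specDownQC_of140`.
No hole, no opaque constant, nothing assumed.  ADDITIVE (new names only).
Vocabulary: `LT/T7/H826/Level2Q.lean` (helper826@4ba4a298a, sha256 3acaa310b421ebd6) and
`LT/T7/H534/SpecDownSpec.lean` (helper534@756e78a11), byte-identical copies.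
Typed MIRROR of the cut of the cyclic node `SpecDownC` by helper534 (registry row 1892).

    SpecDownQC F  ⟸  StfQC n + SD534.IwSysC ℚ + SphFormQC n + BCDataQC F n + BCUnitQC F n
                        + RealQC n + DownBasisQC F n         (n = w0, w1)
                        + T6.Inf.UpUnitaryC + T6.Inf.SphValuesC + T6.Inf.Sph0ParamC
                        + RealWtOneC                         (closed elsewhere: plugs)
                                                             (`specDownQC_of140`)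

## The idea (as in the cyclic case)

* The sequence `e` is CHOSEN: adapted to `W ⊕ W^⊥` (`W` = the invariant cusp functions of type
  `n`, `L2Q.IsWFnQ`), and inside `W` a SCHUR basis of every eigen-class for the commuting
  operators `Z`, `𝒰`, `B = R(f n g [] 0 0)`.  The atoms are the members of the basis.
* Summability of `x_i = ⟨B e_i, e_i⟩`: `T5.STFsigma` for `σ = id` and the type `n` (tower T5).
* Outside the `W`-part the diagonal coefficients vanish by `IsL2QData.kill_down`.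
* `IsL2QData.op_down` needs a base change datum `Ĉ_i` of the eigen-data `c_i` of `e_i` in the
  sense of `L2Q.IsBCDataQ`: the eigenvalue function of the circle means of `e_i` must be a
  SPHERICAL FUNCTION `2π · sphRad n.wt s ∘ cosh` (`SphFormQC`: adapter of the closed leaf
  `T6.ArchClassC`); then `Ĉ_i.m = 4π · sphC (2 s) ∘ cosh` (`BCDataQC`), unitary by
  `T6.Inf.UpUnitaryC` (`BCUnitQC`).
* Realisation: if `Ĉ_i` is spherical of parameter `0` then `s = 0` (`T6.Inf.SphValuesC`,
  `T6.Inf.Sph0ParamC`); type `w0`: `e_i` itself is a form as in `A0.IsSph0CuspFormFor`;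
  type `w1`: `e_i` has the mean-value property `T6.Inf.MeanValueWtOne` and `RealWtOneC`
  (= `H670.D3.realise_wtOne`, closed) gives an eigensystem with the same `a`, `b` which is
  cuspidal in the sense of `A0.notion556`.

## The leaves

* `StfQC n`      : `T5.STFsigma (T5.AdelicAut.id ℚ) 𝔫 n.type` for every level (tower T5, plug).
* `SD534.IwSysC ℚ` : Iwahori coset systems and scalar uniformisers exist (leaf SD.2 of helper534).
* `SphFormQC n`  : the eigenvalue function of the circle means of a nonzero eigenfunction of type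
  `n` is `2π · sphRad n.wt s (cosh t)` for some `s` (adapter of `T6.ArchClassC`).
* `BCDataQC F n` : a datum over `ℚ` of spherical form has a base change datum over `F` at ALL
  primes (`IsBCDataQ n c C ∅`).
* `BCUnitQC F n` : the base change of a unitary datum is unitary (`T6.Inf.UpUnitaryC` inside).
* `RealWtOneC`   : the statement of `H670.D3.realise_wtOne` with the fields written out (plug).
* `RealQC n`     : REALISATION of an eigenfunction of type `n` and parameter `0`
  (`w0`: the function itself is a form as in A0; `w1`: `RealWtOneC`).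
* `DownBasisQC F n` (NODE, cut in `DownBasisQSpec.lean`): the adapted Schur sequence exists.
-/

set_option autoImplicit false
set_option linter.unusedSectionVars false
set_option linter.unusedVariables false

open AutomorphicForm IsDedekindDomain NumberField MeasureTheory
open scoped ComplexConjugate

noncomputable section

namespace Fermat.Agent.LT.T7.SDQ140

open Fermat.Agent.LT.H556 Fermat.Agent.LT.H556.A0 Fermat.Agent.LT.H670 Fermat.Agent.LT.T7
open Fermat.Agent.LT.T7.L2Q

attribute [local instance] Fermat.Agent.LT.T5.instMeasurableSpaceG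

section Defs

variable {F : Type} [Field F] [NumberField F]

/-- The eigen-datum `c` over `ℚ` is UNITARY outside the level `𝔫`: the finite part as in
`SD534.IsUnitOut`; the circle means are self-adjoint of norm `≤ 2π`. -/
def IsUnitOutQ (𝔫 : Ideal (𝓞 ℚ)) (c : EigData ℚ) : Prop :=
  (∀ v : HeightOneSpectrum (𝓞 ℚ), ¬ v.asIdeal ∣ 𝔫 →
      ‖c.b v‖ = 1 ∧ conj (c.a v) = c.a v * conj (c.b v) ∧
      ‖c.a v‖ * Real.sqrt (Ideal.absNorm v.asIdeal : ℝ) ≤ (Ideal.absNorm v.asIdeal : ℝ) + 1) ∧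
    ∀ (w : InfinitePlace ℚ) (t : ℝ), 0 < t → (c.m w t).im = 0 ∧ ‖c.m w t‖ ≤ 2 * Real.pi

/-- The eigenvalue function of the circle means of type `n` is a spherical function:
`c.m w t = 2π · sphRad n.wt s (cosh t)` for some parameter `s`. -/
def IsSphForm (n : QWt) (c : EigData ℚ) : Prop :=
  ∃ s : ℂ, ∀ (w : InfinitePlace ℚ) (t : ℝ), 0 < t →
    c.m w t = ((2 * Real.pi : ℝ) : ℂ) * T6.sphRad n.wt s (Real.cosh t)

/-- **THE ADAPTED SCHUR SEQUENCE of type `n`** for the bad element `g`, the Iwahori coset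
system `H` and the scalar uniformiser `z` at the regular place `u` of `ℚ`
(mirror of `SD534.IsDownBasis`). -/
structure IsDownBasisQ (n : QWt) (Dt : L2QData F) (g : G F) (H : Finset (G ℚ)) (z : G ℚ)
    (e : ℕ → G ℚ → ℂ) (I : Set ℕ) (c : ℕ → EigData ℚ) (b l x : ℕ → ℂ) (R : ℝ) : Prop where
  onb : T5.IsCuspONB (Dt.𝔫 g) n.type Dt.R.r Dt.R.μ Dt.R.F e
  perp : ∀ i, i ∉ I → ∀ χ : G ℚ → ℂ, IsWFnQ n (Dt.𝔫 g) Dt.R.r Dt.u χ →
    T5.innerD Dt.R.μ Dt.R.F (e i) χ = 0
  eig : ∀ i, i ∈ I → IsEigFnQ n (Dt.𝔫 g) Dt.R.r Dt.u (e i) (c i)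
  ne : ∀ i, i ∈ I → ∃ y : G ℚ, e i y ≠ 0
  unit : ∀ i, i ∈ I → IsUnitOutQ (Dt.𝔫 g) (c i)
  tri : ∀ i, i ∈ I → ∀ (k : ℤ) (m : ℕ),
    T5.innerD Dt.R.μ Dt.R.F
        (T5.Rconv Dt.R.μ (Dt.f n g [] 0 0) (shiftOp z k ((iwOp Dt.u H)^[m] (e i)))) (e i)
      = x i * b i ^ k * l i ^ m
  reg : ∀ i, i ∈ I → IsRegParam R (b i) (l i)

end Defs

/-! ## The leaves -/

section Leaves

/-- **SDQ.1 (tower T5, closed: plug).**  The trace identity of T5 over `ℚ` for `σ = id`, the
`K_∞`-type of `n`, every level. -/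
def StfQC (n : QWt) : Prop :=
  ∀ 𝔫 : Ideal (𝓞 ℚ), 𝔫 ≠ ⊥ → T5.STFsigma (T5.AdelicAut.id ℚ) 𝔫 n.type

/-- **SDQ.3 (adapter of the closed leaf `T6.ArchClassC`).**  A nonzero invariant cusp function of
type `n` over `ℚ` with joint eigen-data `c` has circle means of spherical form.
Route: restrict `ψ` to the real place, `e(x) = ψ(g₀ · x_∞)` with `ψ(g₀) ≠ 0`; `e` is continuous,
of weight `n.wt` in the convention of `T6.wtChar` (`wtOne (rotC θ) = e^{iθ}`,
`rotC θ = k_{-θ}`), invariant under the positive scalars; the circle means of `ArchClassC`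
(`∫ e(x k_θ a_t k_θ⁻¹) dθ = 2π m(t) e(x)`) are those of `L2Q.MeanEigR0` / `L2Q.MeanEigR1`
(`rotY θ` = the rotation of angle `θ/2`; the integrand is `π`-periodic). -/
def SphFormQC (n : QWt) : Prop :=
  ∀ (𝔫 : Ideal (𝓞 ℚ)) (r : G ℚ) (u : HeightOneSpectrum (𝓞 ℚ)) (ψ : G ℚ → ℂ) (c : EigData ℚ),
    T5.IsKType n.type → IsEigFnQ n 𝔫 r u ψ c → (∃ y : G ℚ, ψ y ≠ 0) → IsSphForm n c

variable (F : Type) [Field F] [NumberField F]

/-- **SDQ.4 (algebra).**  An eigen-datum over `ℚ` of spherical form has a base change datum over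
`F` at ALL primes.  (`w ∩ ℤ = (p)` determines `p`, `p` determines the place `v` of `ℚ`, and
`N w = p^f` determines `f`: the finite part of `C` is well defined; the archimedean part is
`C.m w d = 4π · sphC (2 s) (cosh d)` for ONE parameter `s` of `c`.) -/
def BCDataQC (n : QWt) : Prop :=
  ∀ c : EigData ℚ, IsSphForm n c → ∃ C : EigData F, IsBCDataQ n c C ∅

/-- **SDQ.5 (algebra + `T6.Inf.UpUnitaryC`).**  The base change of a datum which is unitary
outside `𝔫` is unitary outside `S'`, if every place outside `S'` lies over primes prime to `𝔫`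
only.  (Finite part: as `SD534.BCUnitC`, every finite place `w` of `F` lies over a prime `p` and
`N w = p^f`; archimedean part: `c.m` real and bounded by `2π` gives `sphRad n.wt s ∘ cosh` real
and bounded by `1`, hence `sphC (2 s) ∘ cosh` real and bounded by `1` by `UpUnitaryC`.  If `c.m`
has two parameters `s`, `s'` then `sphRad n.wt s = sphRad n.wt s'` on `(1, ∞)`; only the parameter
of the datum `IsBCDataQ n c C ∅` is used.) -/
def BCUnitQC (n : QWt) : Prop :=
  T6.Inf.UpUnitaryC →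
  ∀ (S' : Finset (HeightOneSpectrum (𝓞 F))) (𝔫 : Ideal (𝓞 ℚ)) (c : EigData ℚ) (C : EigData F),
    (∀ w : HeightOneSpectrum (𝓞 F), w ∉ S' → ∀ (p : ℕ) (v : HeightOneSpectrum (𝓞 ℚ)),
      p.Prime → ((p : ℕ) : 𝓞 F) ∈ w.asIdeal → ((p : ℕ) : 𝓞 ℚ) ∈ v.asIdeal →
      ¬ v.asIdeal ∣ 𝔫) →
    IsUnitOutQ 𝔫 c → IsBCDataQ n c C ∅ → C.IsUnitaryOut S'

end Leaves

/-- **SDQ.6 (plug of `H670.D3.realise_wtOne`, closed).**  The eigensystem of a weight-one
automorphic eigenform with the mean-value property of parameter `0` is, away from the level, the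
eigensystem of a cuspidal one in the sense of `A0.notion556` (the hypotheses are the fields of
`H670.D3.IsWtOneSph0FormFor`, VERBATIM). -/
def RealWtOneC : Prop :=
  ∀ (π : HeckeEigensystem ℚ ℂ) (φ : G ℚ → ℂ),
    Continuous φ → (∃ C : ℝ, ∀ g : G ℚ, ‖φ g‖ ≤ C) → (∃ g : G ℚ, φ g ≠ 0) →
    (∀ (γ : GL (Fin 2) ℚ) (g : G ℚ),
      φ (Matrix.GeneralLinearGroup.map (algebraMap ℚ (Adl ℚ)) γ * g) = φ g) →
    (∀ u : G ℚ, InLevelGroup π.level u → ∀ g : G ℚ, φ (g * u) = φ g) →
    (∀ (w : InfinitePlace ℚ) (z : G ℚ), IsArchPosScalar w z → ∀ g : G ℚ, φ (g * z) = φ g) →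
    (∀ (w : InfinitePlace ℚ) (θ : ℝ) (k : G ℚ), IsLocalAtInf w k →
      infComp w k = QOut.rotC θ →
      ∀ g : G ℚ, φ (g * k) = Complex.exp (Complex.I * ((θ : ℝ) : ℂ)) * φ g) →
    T6.Inf.MeanValueWtOne φ →
    (∀ v : HeightOneSpectrum (𝓞 ℚ), ¬ v.asIdeal ∣ π.level →
      IsHeckeEigenAt φ v (π.a v) (π.b v)) →
    ∃ π' : HeckeEigensystem ℚ ℂ, π'.a = π.a ∧ π'.b = π.b ∧ A0.notion556.IsCusp ℚ π'

section Node

variable (F : Type) [Field F] [NumberField F]

/-- **SDQ.7 = NODE DOWN-BASIS over `ℚ`, type `n`.**  The adapted Schur sequence exists, for every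
Iwahori coset system and every scalar uniformiser at the regular place
(mirror of `SD534.DownBasisC`). -/
def DownBasisQC (n : QWt) : Prop :=
  HasSqrtNegThree F → IsImagQuad F →
    ∀ Φ : HeckeEigensystem F ℂ, A0.IsCuspAdelicSph0 F Φ → ConstOnFibresQ Φ →
      ∀ Dt : L2QData F, IsL2QData Φ Dt → ∀ g : G F, Dt.IsBad g →
      ∀ (H : Finset (G ℚ)) (z : G ℚ), IsIwCosetSystem Dt.u H → IsScalarUniformizerAt Dt.u z →
        ∃ (e : ℕ → G ℚ → ℂ) (I : Set ℕ) (c : ℕ → EigData ℚ) (b l x : ℕ → ℂ) (R : ℝ),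
          IsDownBasisQ n Dt g H z e I c b l x R

end Node

/-- **SDQ.8 = REALISATION of the parameter `0`, type `n`.**  A nonzero invariant cusp function of
type `n` over `ℚ` with joint eigen-data `c` whose circle means have the eigenvalue function of
parameter `0` (`c.m w t = 2π · sphRad n.wt 0 (cosh t)`) has an eigensystem which is cuspidal in
the sense of `A0.notion556`, with the same `a`, `b`.
Route.  `w0`: `2π · sphR0 0 (cosh t)` is the constant of `A0.MeanValueReal`
(`T6.Inf.SphValuesC`), `ψ` is a form as in `A0.IsSph0CuspFormFor ⟨𝔫, _, c.a, c.b⟩` (`ℚ` has no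
complex place).  `w1`: `2π · sphR1 0 (cosh t) = 2π / cosh (t/2)` is the constant of
`T6.Inf.MeanValueWtOne`; `ψ (g k) = wtOne k · ψ g` with `wtOne k = e^{iθ}` for
`infComp k = rotC θ` (`L2Q.wtOne_rotC`; `rotC θ` is in `SO(2)`); then `RealWtOneC`. -/
def RealQC (n : QWt) : Prop :=
  T6.Inf.SphValuesC → RealWtOneC →
  ∀ (𝔫 : Ideal (𝓞 ℚ)) (r : G ℚ) (u : HeightOneSpectrum (𝓞 ℚ)) (ψ : G ℚ → ℂ) (c : EigData ℚ),
    𝔫 ≠ ⊥ → IsEigFnQ n 𝔫 r u ψ c → (∃ y : G ℚ, ψ y ≠ 0) →
    (∀ (w : InfinitePlace ℚ) (t : ℝ), 0 < t →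
      c.m w t = ((2 * Real.pi : ℝ) : ℂ) * T6.sphRad n.wt 0 (Real.cosh t)) →
    ∃ π' : HeckeEigensystem ℚ ℂ, π'.a = c.a ∧ π'.b = c.b ∧ A0.notion556.IsCusp ℚ π'

/-! ## The top -/

section Top

variable {F : Type} [Field F] [NumberField F]

/-- `IsBCDataQ` is monotone in the set of excluded primes. -/
theorem isBCDataQ_mono140 {n : QWt} {c : EigData ℚ} {C : EigData F} {S T : Finset ℕ}
    (hST : S ⊆ T) (h : IsBCDataQ n c C S) : IsBCDataQ n c C T :=
  ⟨fun p hp hpT v hv w f hw hf => h.1 p hp (fun hpS => hpT (hST hpS)) v hv w f hw hf, h.2⟩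

open Classical in
/-- The realised eigensystem of the datum `c` at the level `𝔫`: a cuspidal eigensystem (in the
sense of `A0.notion556`) with the same `a`, `b` if there is one, `⟨𝔫, c.a, c.b⟩` otherwise. -/
def realOf140 (𝔫 : Ideal (𝓞 ℚ)) (h𝔫 : 𝔫 ≠ ⊥) (c : EigData ℚ) : HeckeEigensystem ℚ ℂ :=
  if h : ∃ π' : HeckeEigensystem ℚ ℂ, π'.a = c.a ∧ π'.b = c.b ∧ A0.notion556.IsCusp ℚ π'
  then h.choose else ⟨𝔫, h𝔫, c.a, c.b⟩

theorem realOf_a140 (𝔫 : Ideal (𝓞 ℚ)) (h𝔫 : 𝔫 ≠ ⊥) (c : EigData ℚ) :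
    (realOf140 𝔫 h𝔫 c).a = c.a := by
  unfold realOf140
  split_ifs with h
  · exact h.choose_spec.1
  · rfl

theorem realOf_b140 (𝔫 : Ideal (𝓞 ℚ)) (h𝔫 : 𝔫 ≠ ⊥) (c : EigData ℚ) :
    (realOf140 𝔫 h𝔫 c).b = c.b := by
  unfold realOf140
  split_ifs with h
  · exact h.choose_spec.2.1
  · rfl

theorem realOf_cusp140 (𝔫 : Ideal (𝓞 ℚ)) (h𝔫 : 𝔫 ≠ ⊥) (c : EigData ℚ)
    (h : ∃ π' : HeckeEigensystem ℚ ℂ, π'.a = c.a ∧ π'.b = c.b ∧ A0.notion556.IsCusp ℚ π') :
    A0.notion556.IsCusp ℚ (realOf140 𝔫 h𝔫 c) := by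
  unfold realOf140
  rw [dif_pos h]
  exact h.choose_spec.2.2

/-- If the base change of a datum is spherical of parameter `0`, the parameter downstairs is
`0`. -/
theorem param_zero140 (hVal : T6.Inf.SphValuesC) (hPar : T6.Inf.Sph0ParamC) {n : QWt}
    {c : EigData ℚ} {C : EigData F} {S : Finset ℕ} (hbc : IsBCDataQ n c C S) (hC : C.IsSph0) :
    ∀ (w : InfinitePlace ℚ) (t : ℝ), 0 < t →
      c.m w t = ((2 * Real.pi : ℝ) : ℂ) * T6.sphRad n.wt 0 (Real.cosh t) := by
  obtain ⟨s, hcm, hCm⟩ := hbc.2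
  have w₀ : InfinitePlace F := Classical.arbitrary _
  have hs : s = 0 := by
    refine hPar s (fun d hd => ?_)
    have h1 := hCm w₀ d hd
    have h2 := hC w₀ d hd
    have h3 := hVal.1 d hd
    rw [h3]
    rw [h2] at h1
    unfold sph0 at h1
    have hpi : ((4 * Real.pi : ℝ) : ℂ) ≠ 0 := by
      have : (4 * Real.pi : ℝ) ≠ 0 := by positivity
      exact_mod_cast this
    apply mul_left_cancel₀ hpi
    rw [← h1]
    push_cast
    ring
  intro w t ht
  rw [hcm w t ht, hs]

/-- **THE TOP of the node T7.L2Q.3**, one type. -/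
theorem specDownQAt_of140 (n : QWt) (hStf : StfQC n) (hIw : SD534.IwSysC ℚ)
    (hSph : SphFormQC n) (hBC : BCDataQC F n) (hBU : BCUnitQC F n) (hReal : RealQC n)
    (hUni : T6.Inf.UpUnitaryC) (hVal : T6.Inf.SphValuesC) (hPar : T6.Inf.Sph0ParamC)
    (hW1 : RealWtOneC) (hDB : DownBasisQC F n) : SpecDownQAt F n := by
  classical
  intro h3 hquad Φ hΦ hconst Dt hDt g hg
  obtain ⟨⟨H, hH⟩, ⟨z, hz⟩⟩ := hIw Dt.u
  obtain ⟨e, I, c, b, l, x, R, hB⟩ := hDB h3 hquad Φ hΦ hconst Dt hDt g hg H z hH hz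
  have hcomp : IsCompData (Dt.comp g) := hDt.comp g hg
  have hlev : Dt.𝔫 g ≠ ⊥ := hcomp.level_ne
  have hnil : ∀ x ∈ ([] : List (Gen F)), x.Out Dt.S' := fun x hx => absurd hx (List.not_mem_nil)
  have hkt : T5.IsKType n.type := (hDt.ekprod_down n g [] 0 0 hg hnil).1.ktype
  -- the base change data
  have hex : ∀ i : ℕ, ∃ C : EigData F, i ∈ I → IsBCDataQ n (c i) C ∅ := by
    intro i
    by_cases hi : i ∈ I
    · obtain ⟨C, hC⟩ := hBC (c i) (hSph (Dt.𝔫 g) Dt.R.r Dt.u (e i) (c i) hkt (hB.eig i hi)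
        (hB.ne i hi))
      exact ⟨C, fun _ => hC⟩
    · exact ⟨⟨fun _ => 0, fun _ => 0, fun _ _ => 0⟩, fun h => absurd h hi⟩
  choose Ch hCh0 using hex
  have hCh : ∀ i, i ∈ I → IsBCDataQ n (c i) (Ch i) Dt.S := fun i hi =>
    isBCDataQ_mono140 (Finset.empty_subset _) (hCh0 i hi)
  -- the diagonal coefficient of the base
  have hx : ∀ i, i ∈ I →
      T5.diagCoeff (T5.AdelicAut.id ℚ) Dt.R.μ Dt.R.F (Dt.f n g [] 0 0) (e i) = x i := by
    intro i hi
    rw [SD534.diagCoeff_id534]
    have h := hB.tri i hi 0 0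
    rw [SD534.shiftOp_zero534, Function.iterate_zero, id_eq, zpow_zero, pow_zero, mul_one,
      mul_one] at h
    exact h
  -- summability from T5
  have hsum : Summable fun i => T5.diagCoeff (T5.AdelicAut.id ℚ) Dt.R.μ Dt.R.F
      (Dt.f n g [] 0 0) (e i) := by
    obtain ⟨-, φ₁, φ₂, t₁, t₂, k₁, k₁', k₂, k₂', hconv⟩ := hDt.ekprod_down n g [] 0 0 hg hnil
    rw [hconv]
    exact (hStf (Dt.𝔫 g) hlev Dt.R.μ Dt.R.F Dt.R.r hcomp.frame.frame hcomp.frame.ray
      (T5.autPreserves_id _ _ _) e hB.onb φ₁ φ₂ t₁ t₂ k₁ k₁' k₂ k₂').1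
  refine ⟨e, {i : ℕ // i ∈ I}, fun i => realOf140 (Dt.𝔫 g) hlev (c i.1), fun i => Ch i.1,
    fun i => b i.1, fun i => l i.1, R, fun i => x i.1, hB.onb, ?_, ?_, ?_, ?_, ?_, ?_⟩
  · -- summability of the coefficients
    have h1 : Summable fun i : {i : ℕ // i ∈ I} =>
        ‖T5.diagCoeff (T5.AdelicAut.id ℚ) Dt.R.μ Dt.R.F (Dt.f n g [] 0 0) (e i.1)‖ :=
      (hsum.norm).subtype I
    refine h1.congr fun i => ?_
    rw [hx i.1 i.2]
  · -- unitarity of the base change data
    intro i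
    refine hBU hUni Dt.S' (Dt.𝔫 g) (c i.1) (Ch i.1) ?_ (hB.unit i.1 i.2) (hCh0 i.1 i.2)
    intro w hw p v hp hpw hpv hv
    apply hw
    rw [hDt.mem_S'_g g hg w]
    show w.asIdeal ∣ Ideal.map (algebraMap (𝓞 ℚ) (𝓞 F)) (Dt.𝔫 g)
    rw [Ideal.dvd_iff_le, Ideal.map_le_iff_le_comap]
    intro y hy
    rw [Ideal.mem_comap]
    -- `v` is the ideal `(p)` of `𝓞 ℚ`, and `p ∈ w`
    have hyv : y ∈ v.asIdeal := (Ideal.dvd_iff_le.1 hv) hy
    have hspan : v.asIdeal = Ideal.span {((p : ℕ) : 𝓞 ℚ)} := by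
      have hle : Ideal.span {((p : ℕ) : 𝓞 ℚ)} ≤ v.asIdeal :=
        (Ideal.span_singleton_le_iff_mem _).2 hpv
      have hpne : ((p : ℕ) : 𝓞 ℚ) ≠ 0 := by
        exact_mod_cast hp.ne_zero
      have hmax : (Ideal.span {((p : ℕ) : 𝓞 ℚ)}).IsMaximal := by
        have hprime : (Ideal.span {((p : ℕ) : 𝓞 ℚ)}).IsPrime := by
          rw [Ideal.span_singleton_prime hpne]
          have hpZ : Prime ((p : ℕ) : ℤ) := Nat.prime_iff_prime_int.1 hp
          refine (MulEquiv.prime_iff Rat.ringOfIntegersEquiv).1 ?_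
          rw [map_natCast]
          exact hpZ
        exact hprime.isMaximal (by simpa [Ideal.span_singleton_eq_bot] using hpne)
      exact (hmax.eq_of_le v.isPrime.ne_top hle).symm
    rw [hspan, Ideal.mem_span_singleton] at hyv
    obtain ⟨y', rfl⟩ := hyv
    rw [map_mul]
    exact Ideal.mul_mem_right _ _ (by simpa using hpw)
  · -- base change
    intro i p hp hpS v hv w f hw hf
    rw [realOf_a140, realOf_b140]
    exact (hCh i.1 i.2).1 p hp hpS v hv w f hw hf
  · intro i
    exact hB.reg i.1 i.2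
  · -- the expansion
    intro X hX k m hm
    unfold specSide
    have hterm : ∀ i : ℕ, T5.diagCoeff (T5.AdelicAut.id ℚ) Dt.R.μ Dt.R.F (Dt.f n g X k m) (e i)
        = if i ∈ I then wordEv X (Ch i) * x i * b i ^ k * l i ^ m else 0 := by
      intro i
      rw [SD534.diagCoeff_id534]
      by_cases hi : i ∈ I
      · rw [if_pos hi]
        have hop := hDt.op_down n g X k m hg hX (e i) (c i) (Ch i) (hB.eig i hi) (hCh i hi)
          H z hH hz
        rw [SD534.innerD_const_mul534 Dt.R.μ Dt.R.F (wordEv X (Ch i)) _ _ (e i) hop,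
          hB.tri i hi k m]
        ring
      · rw [if_neg hi]
        exact SD534.innerD_zero_left534 _ _ _ _
          (hDt.kill_down n g X k m hg hX (e i) (hB.onb.cusp i) (hB.perp i hi))
    have hsupp : Function.support (fun i : ℕ =>
        T5.diagCoeff (T5.AdelicAut.id ℚ) Dt.R.μ Dt.R.F (Dt.f n g X k m) (e i)) ⊆ I := by
      intro i hi
      by_contra hiI
      apply hi
      show T5.diagCoeff (T5.AdelicAut.id ℚ) Dt.R.μ Dt.R.F (Dt.f n g X k m) (e i) = 0
      rw [hterm i, if_neg hiI]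
    rw [← tsum_subtype_eq_of_support_subset hsupp]
    refine tsum_congr fun i => ?_
    rw [hterm i.1, if_pos i.2]
  · -- realisation
    intro i hsph
    exact realOf_cusp140 (Dt.𝔫 g) hlev (c i.1)
      (hReal hVal hW1 (Dt.𝔫 g) Dt.R.r Dt.u (e i.1) (c i.1) hlev (hB.eig i.1 i.2)
        (hB.ne i.1 i.2) (param_zero140 hVal hPar (hCh i.1 i.2) hsph))

/-- **THE TOP of the node T7.L2Q.3** (target `L2Q.SpecDownQC F`, VERBATIM). -/
theorem specDownQC_of140 (hStf : ∀ n, StfQC n) (hIw : SD534.IwSysC ℚ)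
    (hSph : ∀ n, SphFormQC n) (hBC : ∀ n, BCDataQC F n) (hBU : ∀ n, BCUnitQC F n)
    (hReal : ∀ n, RealQC n) (hUni : T6.Inf.UpUnitaryC) (hVal : T6.Inf.SphValuesC)
    (hPar : T6.Inf.Sph0ParamC) (hW1 : RealWtOneC) (hDB : ∀ n, DownBasisQC F n) :
    SpecDownQC F :=
  fun n => specDownQAt_of140 n (hStf n) hIw (hSph n) (hBC n) (hBU n) (hReal n) hUni hVal hPar
    hW1 (hDB n)

end Top

end Fermat.Agent.LT.T7.SDQ140

end

end
-- ===== PACK-END LT/T7/H140/SpecDownQSpec.lean

-- ===== PACK-BEGIN LT/T7/H701/IwSys.lean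
section



/-!
# Row LT, tower T7, node T7.L2.3 `SpecDownC` -- the leaf SD.2 `IwSysC` (helper701)

OFF-MAIN.  `iwSysC701 : SD534.IwSysC K` VERBATIM (cut of helper534@756e78a11, `SpecDownSpec.lean`
sha256 3f1c4f48) and UNCONDITIONAL: at every finite place there are an Iwahori coset system
(`T7.IsIwCosetSystem`: the `q` matrices `[[ϖ, r], [0, 1]]`, `r` a system of representatives of
`𝒪 / v`) and a scalar uniformiser.  Local toolkit: `LT/H129/*` (helper129, byte-identical copies
from origin/helper54).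

Reusable: `inIwahori_locFin701`, `exists_iwCosetSystem701`.
-/

set_option autoImplicit false
set_option linter.style.haveILetI false
set_option linter.unusedSectionVars false

open IsDedekindDomain NumberField IsDedekindDomain.HeightOneSpectrum
open Fermat.Agent.LT.H556.A0

noncomputable section

namespace Fermat.Agent.LT.T7.H701

open Fermat.Agent.LT.H129 Fermat.Agent.LT.T7

variable {K : Type} [Field K] [NumberField K] (v : HeightOneSpectrum (𝓞 K))

/-- A local element with integral matrix, integral inverse and lower left entry in the maximal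
ideal lies in the Iwahori subgroup. -/
theorem inIwahori_locFin701 (x : GL (Fin 2) (v.adicCompletion K))
    (hx : IsInt129 (v.adicCompletionIntegers K) x)
    (hx' : IsInt129 (v.adicCompletionIntegers K) x⁻¹)
    (h10 : Valued.v ((x : Matrix (Fin 2) (Fin 2) (v.adicCompletion K)) 1 0) < 1) :
    Fermat.Agent.LT.T5.InIwahori v (locFin129 v x) := by
  refine ⟨?_, ?_, ?_⟩
  · rw [← isInt129_finCompHom_iff, finCompHom129_locFin129]
    exact hx
  · rw [← isInt129_finCompHom_iff, map_inv, finCompHom129_locFin129]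
    exact hx'
  · rw [finComp_locFin129]
    exact h10

/-- The identity lies in the Iwahori subgroup. -/
theorem inIwahori_one701 : Fermat.Agent.LT.T5.InIwahori v (1 : G K) := by
  have h := inIwahori_locFin701 v (1 : GL (Fin 2) (v.adicCompletion K))
    (isInt129_one _) (by rw [inv_one]; exact isInt129_one _) (by simp)
  rwa [map_one] at h

/-- The upper unipotent elements with integral entry lie in the Iwahori subgroup. -/
theorem inIwahori_upper701 {r : v.adicCompletion K} (hr : r ∈ v.adicCompletionIntegers K) :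
    Fermat.Agent.LT.T5.InIwahori v (locFin129 v (upperU129 r)) := by
  have h1 : (1 : v.adicCompletion K) ∈ v.adicCompletionIntegers K :=
    (v.adicCompletionIntegers K).one_mem
  have h0 : (0 : v.adicCompletion K) ∈ v.adicCompletionIntegers K :=
    (v.adicCompletionIntegers K).zero_mem
  refine inIwahori_locFin701 v _ ?_ ?_ ?_
  · exact isInt129_mkGL _ h1 hr h0 h1
  · rw [upperU129_inv]
    exact isInt129_mkGL _ h1 ((v.adicCompletionIntegers K).neg_mem _ hr) h0 h1
  · simp [upperU129]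

/-- The standard representatives of `I diag(ϖ, 1) I / I`. -/
def stdIw701 (π : v.adicCompletion K) (hπ : π ≠ 0) (c : 𝓞 K ⧸ v.asIdeal) : G K :=
  stdHecke129 v π hπ (some c)

theorem stdIw701_coset {π : v.adicCompletion K} (hπ : Valued.v π = WithZero.exp (-1 : ℤ))
    (c : 𝓞 K ⧸ v.asIdeal) :
    Fermat.Agent.LT.T5.InIwahoriCoset v 1 (stdIw701 v π (unif_ne_zero129 v hπ) c) := by
  have hπ0 := unif_ne_zero129 v hπ
  refine ⟨locFin129 v (upperU129 (rep129 v c)),
    1, locFin129 v (mkGL129 π 0 0 1 (by simpa using hπ0)), π,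
    inIwahori_upper701 v (rep129_mem v c), inIwahori_one701 v, ?_, ?_, ?_⟩
  · rw [hπ]
    norm_num
  · rw [finComp_locFin129, coe_mkGL129]
  · rw [mul_one, ← map_mul, stdIw701]
    simp only [stdHecke129]
    rw [finComp_locFin129, finComp_locFin129]
    simp only [upperU129, coe_mkGL129, Matrix.GeneralLinearGroup.coe_mul]
    ext i j
    fin_cases i <;> fin_cases j <;> simp [Matrix.mul_apply, Fin.sum_univ_two]

/-- **Iwahori coset systems exist.** -/
theorem exists_iwCosetSystem701 : ∃ H : Finset (G K), IsIwCosetSystem v H := by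
  classical
  obtain ⟨π, hπ⟩ := exists_unif129 v
  have hπ0 := unif_ne_zero129 v hπ
  haveI : Finite (𝓞 K ⧸ v.asIdeal) := by
    apply Nat.finite_of_card_ne_zero
    rw [← Submodule.cardQuot_apply, ← Ideal.absNorm_apply]
    exact ne_of_gt (lt_trans Nat.zero_lt_one (NumberField.HeightOneSpectrum.one_lt_absNorm v))
  letI : Fintype (𝓞 K ⧸ v.asIdeal) := Fintype.ofFinite _
  have hnot : ∀ c c' : 𝓞 K ⧸ v.asIdeal, c ≠ c' →
      ¬ IsIntegralAt v ((stdIw701 v π hπ0 c)⁻¹ * stdIw701 v π hπ0 c') := by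
    intro c c' hcc
    exact stdHecke129_not_int v hπ (fun e => hcc (Option.some.inj e))
  have hinj : Function.Injective (stdIw701 v π hπ0) := by
    intro a b hab
    by_contra hne
    apply hnot a b hne
    rw [hab, inv_mul_cancel]
    exact (inIwahori_one701 v).1
  refine ⟨Finset.univ.image (stdIw701 v π hπ0), ?_, ?_, ?_⟩
  · rw [Finset.card_image_of_injective _ hinj, Finset.card_univ,
      Ideal.absNorm_apply, Submodule.cardQuot_apply, Nat.card_eq_fintype_card]
  · intro h hh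
    obtain ⟨c, -, rfl⟩ := Finset.mem_image.mp hh
    exact ⟨(stdHecke129_props v hπ (some c)).1, stdIw701_coset v hπ c⟩
  · intro h hh h' hh' hne
    obtain ⟨c, -, rfl⟩ := Finset.mem_image.mp hh
    obtain ⟨c', -, rfl⟩ := Finset.mem_image.mp hh'
    intro hI
    exact hnot c c' (fun e => hne (by rw [e])) hI.1

/-- **SD.2 `IwSysC`.** -/
theorem iwSysC701 (K : Type) [Field K] [NumberField K] : SD534.IwSysC K :=
  fun u => ⟨exists_iwCosetSystem701 u, exists_scalarUniformizer129 u⟩

end Fermat.Agent.LT.T7.H701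

end

end
-- ===== PACK-END LT/T7/H701/IwSys.lean

-- ===== PACK-BEGIN LT/T7/H981/FinIndex.lean
section



/-!
# Row LT, tower T7, node T7.L2.1 `SupplyC`, sub-station PROJ, leaf P03 `FinIndexC` (helper981)

OFF-MAIN.  `finIndexC981 (K) : H193.FinIndexC K`, VERBATIM against `LT/T7/H193/ProjSpec.lean`
(sha256 977a85e3, helper193@812840e55).  Imports: Mathlib + the spec closure only.

Route (reduction modulo `𝔑`, no compactness): an element of `𝒪_v` is congruent modulo `𝔑 𝒪_v`
to an element of `𝓞 K` (density + `𝔑 𝒪_v` open), so its class has a LABEL in the finite ring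
`𝓞 K ⧸ 𝔑`; two integral matrices with the same labels at the primes dividing `𝔑` are congruent
modulo `𝔑 𝒪_v` at every finite place (`𝔑 𝒪_v = 𝒪_v` outside `𝔑`), and
`τ⁻¹ h - 1 = τ⁻¹ (h - τ)`, `(τ⁻¹ h)⁻¹ - 1 = h⁻¹ (τ - h)`.
-/

set_option autoImplicit false

open IsDedekindDomain NumberField

noncomputable section

namespace Fermat.Agent.LT.T7.H981

open Fermat.Agent.LT.H556 Fermat.Agent.LT.H556.A0 Fermat.Agent.LT

variable {K : Type} [Field K] [NumberField K]

/-! ## 1. Local facts on `𝔑 𝒪_v` -/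

/-- The map `𝓞 K → K_v`. -/
abbrev toC981 (v : HeightOneSpectrum (𝓞 K)) (x : 𝓞 K) : v.adicCompletion K :=
  algebraMap K (v.adicCompletion K) (algebraMap (𝓞 K) K x)

theorem valued_algebraMap981 (v : HeightOneSpectrum (𝓞 K)) (y : K) :
    Valued.v (algebraMap K (v.adicCompletion K) y) = v.valuation K y :=
  HeightOneSpectrum.valuedAdicCompletion_eq_valuation' v y

theorem valued_toC981 (v : HeightOneSpectrum (𝓞 K)) (x : 𝓞 K) :
    Valued.v (toC981 v x) = v.intValuation x := by
  rw [toC981, valued_algebraMap981, HeightOneSpectrum.valuation_of_algebraMap]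

theorem toC981_mem_integers (v : HeightOneSpectrum (𝓞 K)) (x : 𝓞 K) :
    toC981 v x ∈ v.adicCompletionIntegers K := by
  rw [HeightOneSpectrum.mem_adicCompletionIntegers, valued_toC981]
  exact v.intValuation_le_one x

/-- `𝓞 K` is dense in `𝒪_v`. -/
theorem integers_subset_closure981 (v : HeightOneSpectrum (𝓞 K)) :
    (v.adicCompletionIntegers K : Set (v.adicCompletion K))
      ⊆ closure (Set.range (toC981 v)) := by
  intro x hx
  rw [mem_closure_iff]
  intro U hU hxU
  have hO : IsOpen (v.adicCompletionIntegers K : Set (v.adicCompletion K)) :=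
    Valued.isOpen_valuationSubring _
  obtain ⟨k, hk⟩ := (HeightOneSpectrum.denseRange_algebraMap K v).exists_mem_open
    (hU.inter hO) ⟨x, hxU, hx⟩
  have hkU : algebraMap K (v.adicCompletion K) k ∈ U := hk.1
  have hk1 : v.valuation K k ≤ 1 := by
    rw [← valued_algebraMap981]
    exact (HeightOneSpectrum.mem_adicCompletionIntegers (𝓞 K) K v).1 hk.2
  obtain ⟨γ, hγ⟩ := (Valued.mem_nhds (R := v.adicCompletion K)).1 (hU.mem_nhds hkU)
  have hγ0 : MonoidWithZeroHom.ValueGroup₀.embedding γ.1 ≠ 0 := by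
    simp
  obtain ⟨a, ha⟩ := HeightOneSpectrum.exists_valuation_sub_lt_of_integer v hk1
    (Units.mk0 _ hγ0)
  refine ⟨toC981 v a, hγ ?_, a, rfl⟩
  show (Valued.v : Valuation (v.adicCompletion K) _).restrict
    (toC981 v a - algebraMap K (v.adicCompletion K) k) < γ.1
  rw [Valuation.restrict_lt_iff_lt_embedding]
  have e : toC981 v a - algebraMap K (v.adicCompletion K) k
      = algebraMap K (v.adicCompletion K) (algebraMap (𝓞 K) K a - k) := by
    rw [map_sub]
  rw [e, valued_algebraMap981]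
  exact ha

variable (𝔫 : Ideal (𝓞 K)) (v : HeightOneSpectrum (𝓞 K))

theorem idealClosure_subset981 :
    idealClosure 𝔫 v ⊆ (v.adicCompletionIntegers K : Set (v.adicCompletion K)) := by
  refine closure_minimal ?_ (Valued.isClosed_valuationSubring _)
  rintro _ ⟨x, -, rfl⟩
  exact toC981_mem_integers v x

theorem toC981_mem_idealClosure {a : 𝓞 K} (ha : a ∈ 𝔫) :
    toC981 v a ∈ idealClosure 𝔫 v :=
  subset_closure ⟨a, ha, rfl⟩

theorem zero_mem_idealClosure981 : (0 : v.adicCompletion K) ∈ idealClosure 𝔫 v := by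
  have := toC981_mem_idealClosure 𝔫 v (zero_mem 𝔫)
  simpa [toC981] using this

theorem add_mem_idealClosure981 {x y : v.adicCompletion K} (hx : x ∈ idealClosure 𝔫 v)
    (hy : y ∈ idealClosure 𝔫 v) : x + y ∈ idealClosure 𝔫 v := by
  refine map_mem_closure₂ continuous_add hx hy ?_
  rintro _ ⟨a, ha, rfl⟩ _ ⟨b, hb, rfl⟩
  exact ⟨a + b, 𝔫.add_mem ha hb, by simp⟩

theorem neg_mem_idealClosure981 {x : v.adicCompletion K} (hx : x ∈ idealClosure 𝔫 v) :
    -x ∈ idealClosure 𝔫 v := by
  refine map_mem_closure continuous_neg hx ?_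
  rintro _ ⟨a, ha, rfl⟩
  exact ⟨-a, 𝔫.neg_mem ha, by simp⟩

theorem mul_mem_idealClosure981 {x y : v.adicCompletion K}
    (hx : x ∈ v.adicCompletionIntegers K) (hy : y ∈ idealClosure 𝔫 v) :
    x * y ∈ idealClosure 𝔫 v := by
  refine map_mem_closure₂ continuous_mul (integers_subset_closure981 v hx) hy ?_
  rintro _ ⟨a, rfl⟩ _ ⟨b, hb, rfl⟩
  exact ⟨a * b, 𝔫.mul_mem_left a hb, by simp [toC981]⟩

/-- The closure of `𝔫` as an additive subgroup of `K_v`. -/
def idealClosureAdd981 : AddSubgroup (v.adicCompletion K) where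
  carrier := idealClosure 𝔫 v
  add_mem' := add_mem_idealClosure981 𝔫 v
  zero_mem' := zero_mem_idealClosure981 𝔫 v
  neg_mem' := neg_mem_idealClosure981 𝔫 v

theorem toC981_ne_zero {a : 𝓞 K} (ha : a ≠ 0) : toC981 v a ≠ 0 := by
  intro h
  apply ha
  have h1 : algebraMap (𝓞 K) K a = 0 :=
    (map_eq_zero_iff _ (algebraMap K (v.adicCompletion K)).injective).1 h
  exact (map_eq_zero_iff _ (IsFractionRing.injective (𝓞 K) K)).1 h1

/-- `𝔫 𝒪_v` is open when `𝔫 ≠ 0`. -/
theorem isOpen_idealClosure981 (h𝔫 : 𝔫 ≠ ⊥) : IsOpen (idealClosure 𝔫 v) := by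
  obtain ⟨a, ha, ha0⟩ := Submodule.exists_mem_ne_zero_of_ne_bot h𝔫
  have h0 := toC981_ne_zero v ha0
  have hopen : IsOpen ((fun x => toC981 v a * x) ''
      (v.adicCompletionIntegers K : Set (v.adicCompletion K))) :=
    (Homeomorph.mulLeft₀ _ h0).isOpenMap _ (Valued.isOpen_valuationSubring _)
  have hsub : ((fun x => toC981 v a * x) ''
      (v.adicCompletionIntegers K : Set (v.adicCompletion K))) ⊆ idealClosure 𝔫 v := by
    rintro _ ⟨x, hx, rfl⟩
    show toC981 v a * x ∈ idealClosure 𝔫 v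
    rw [mul_comm]
    exact mul_mem_idealClosure981 𝔫 v hx (toC981_mem_idealClosure 𝔫 v ha)
  have hmem : idealClosure 𝔫 v ∈ nhds (0 : v.adicCompletion K) :=
    Filter.mem_of_superset (hopen.mem_nhds ⟨0, zero_mem _, by simp⟩) hsub
  exact AddSubgroup.isOpen_of_mem_nhds (idealClosureAdd981 𝔫 v) hmem

/-- `𝔫 𝒪_v = 𝒪_v` when `v ∤ 𝔫`. -/
theorem idealClosure_eq_integers981 (hv : ¬ v.asIdeal ∣ 𝔫) :
    idealClosure 𝔫 v = (v.adicCompletionIntegers K : Set (v.adicCompletion K)) := by
  refine Set.Subset.antisymm (idealClosure_subset981 𝔫 v) ?_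
  have hle : ¬ 𝔫 ≤ v.asIdeal := fun h => hv (Ideal.dvd_iff_le.2 h)
  obtain ⟨a, ha, hav⟩ := Set.not_subset.1 hle
  have h1 : Valued.v (toC981 v a) = 1 := by
    rw [valued_toC981]
    exact HeightOneSpectrum.intValuation_eq_one_iff.2 hav
  have h0 : toC981 v a ≠ 0 := by
    intro h
    rw [h, map_zero] at h1
    exact zero_ne_one h1
  intro x hx
  have hx' : (toC981 v a)⁻¹ * x ∈ v.adicCompletionIntegers K := by
    have hx1 : Valued.v x ≤ 1 := (HeightOneSpectrum.mem_adicCompletionIntegers (𝓞 K) K v).1 hx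
    rw [HeightOneSpectrum.mem_adicCompletionIntegers, map_mul, map_inv₀, h1, inv_one, one_mul]
    exact hx1
  have := mul_mem_idealClosure981 𝔫 v hx' (toC981_mem_idealClosure 𝔫 v ha)
  rwa [mul_comm, ← mul_assoc, mul_inv_cancel₀ h0, one_mul] at this

/-! ## 2. Labels in `𝓞 K ⧸ 𝔫` -/

/-- Every element of `𝒪_v` is congruent modulo `𝔫 𝒪_v` to an element of `𝓞 K`. -/
theorem exists_approx981 (h𝔫 : 𝔫 ≠ ⊥) {x : v.adicCompletion K}
    (hx : x ∈ v.adicCompletionIntegers K) :
    ∃ a : 𝓞 K, x - toC981 v a ∈ idealClosure 𝔫 v := by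
  have hcl := integers_subset_closure981 v hx
  have hU : IsOpen {y : v.adicCompletion K | x - y ∈ idealClosure 𝔫 v} :=
    (isOpen_idealClosure981 𝔫 v h𝔫).preimage (continuous_const.sub continuous_id)
  have hxU : x ∈ {y : v.adicCompletion K | x - y ∈ idealClosure 𝔫 v} := by
    show x - x ∈ idealClosure 𝔫 v
    rw [sub_self]
    exact zero_mem_idealClosure981 𝔫 v
  obtain ⟨y, hyU, a, rfl⟩ := mem_closure_iff.1 hcl _ hU hxU
  exact ⟨a, hyU⟩

open Classical in
/-- The label of an element of `K_v` in `𝓞 K ⧸ 𝔫` (junk outside `𝒪_v`). -/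
def lab981 (x : v.adicCompletion K) : 𝓞 K ⧸ 𝔫 :=
  if h : ∃ a : 𝓞 K, x - toC981 v a ∈ idealClosure 𝔫 v then
    Ideal.Quotient.mk 𝔫 (Classical.choose h) else 0

/-- Integral elements with the same label are congruent modulo `𝔫 𝒪_v`. -/
theorem sub_mem_of_lab_eq981 (h𝔫 : 𝔫 ≠ ⊥) {x y : v.adicCompletion K}
    (hx : x ∈ v.adicCompletionIntegers K) (hy : y ∈ v.adicCompletionIntegers K)
    (h : lab981 𝔫 v x = lab981 𝔫 v y) : x - y ∈ idealClosure 𝔫 v := by
  have hx' := exists_approx981 𝔫 v h𝔫 hx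
  have hy' := exists_approx981 𝔫 v h𝔫 hy
  unfold lab981 at h
  rw [dif_pos hx', dif_pos hy', Ideal.Quotient.eq] at h
  have h1 := Classical.choose_spec hx'
  have h2 := Classical.choose_spec hy'
  have h3 : toC981 v (Classical.choose hx' - Classical.choose hy') ∈ idealClosure 𝔫 v :=
    toC981_mem_idealClosure 𝔫 v h
  have e : x - y = (x - toC981 v (Classical.choose hx'))
      + (toC981 v (Classical.choose hx' - Classical.choose hy')
        + -(y - toC981 v (Classical.choose hy'))) := by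
    simp only [toC981, map_sub]
    ring
  rw [e]
  exact add_mem_idealClosure981 𝔫 v h1
    (add_mem_idealClosure981 𝔫 v h3 (neg_mem_idealClosure981 𝔫 v h2))

/-! ## 3. Components of products and inverses -/

theorem coe_mul981 (g h : G K) :
    ((g * h : G K) : Matrix (Fin 2) (Fin 2) (Adl K))
      = (g : Matrix (Fin 2) (Fin 2) (Adl K)) * (h : Matrix (Fin 2) (Fin 2) (Adl K)) := rfl

theorem finComp_mul981 (g h : G K) : finComp v (g * h) = finComp v g * finComp v h := by
  rw [T5.finComp_eq_map, T5.finComp_eq_map, T5.finComp_eq_map, coe_mul981, Matrix.map_mul]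

theorem finComp_one981 : finComp v (1 : G K) = 1 := by
  rw [T5.finComp_eq_map]
  show (1 : Matrix (Fin 2) (Fin 2) (Adl K)).map (T5.finHom v) = 1
  rw [Matrix.map_one _ (map_zero _) (map_one _)]

theorem finComp_inv_mul981 (g : G K) : finComp v g⁻¹ * finComp v g = 1 := by
  rw [← finComp_mul981, inv_mul_cancel, finComp_one981]

/-- The component at the infinite place `w`, as a ring homomorphism. -/
def infW981 (w : InfinitePlace K) : Adl K →+* w.Completion :=
  (Pi.evalRingHom (fun v : InfinitePlace K => v.Completion) w).comp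
    (RingHom.fst (InfiniteAdeleRing K) (FiniteAdeleRing (𝓞 K) K))

theorem trivAtInf_iff981 (w : InfinitePlace K) (g : G K) :
    TrivAtInf w g ↔ (g : Matrix (Fin 2) (Fin 2) (Adl K)).map (infW981 w) = 1 := by
  constructor
  · intro h
    exact Matrix.ext fun i j => h i j
  · intro h i j
    have := congrFun (congrFun h i) j
    exact this

theorem trivAtInf_inv_mul981 (w : InfinitePlace K) {g h : G K} (hg : TrivAtInf w g)
    (hh : TrivAtInf w h) : TrivAtInf w (g⁻¹ * h) := by
  rw [trivAtInf_iff981] at hg hh ⊢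
  have e1 : ((g⁻¹ : G K) : Matrix (Fin 2) (Fin 2) (Adl K)).map (infW981 w)
      * (g : Matrix (Fin 2) (Fin 2) (Adl K)).map (infW981 w) = 1 := by
    rw [← Matrix.map_mul, ← coe_mul981, inv_mul_cancel]
    show (1 : Matrix (Fin 2) (Fin 2) (Adl K)).map (infW981 w) = 1
    rw [Matrix.map_one _ (map_zero _) (map_one _)]
  rw [hg, mul_one] at e1
  rw [coe_mul981, Matrix.map_mul, e1, hh, mul_one]

/-! ## 4. The congruence -/

/-- `h` is trivial at infinity and integral with integral inverse at every finite place. -/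
def IsHat981 (h : G K) : Prop :=
  (∀ w : InfinitePlace K, TrivAtInf w h) ∧
    ∀ v : HeightOneSpectrum (𝓞 K), IsIntegralAt v h ∧ IsIntegralAt v h⁻¹

/-- A sum of products (integral) · (element of `𝔫 𝒪_v`) lies in `𝔫 𝒪_v`. -/
theorem mul_sub_entry981 (A D : Matrix (Fin 2) (Fin 2) (v.adicCompletion K))
    (hA : ∀ i j, A i j ∈ v.adicCompletionIntegers K)
    (hD : ∀ i j, D i j ∈ idealClosure 𝔫 v) (i j : Fin 2) :
    (A * D) i j ∈ idealClosure 𝔫 v := by
  rw [Matrix.mul_apply, Fin.sum_univ_two]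
  exact add_mem_idealClosure981 𝔫 v (mul_mem_idealClosure981 𝔫 v (hA i 0) (hD 0 j))
    (mul_mem_idealClosure981 𝔫 v (hA i 1) (hD 1 j))

/-- Two elements of `GL₂(Ô)` which are congruent modulo `𝔫` at every finite place differ by an
element of `U(𝔫)`. -/
theorem inLevelGroup_of_congr981 {τ h : G K} (hτ : IsHat981 τ) (hh : IsHat981 h)
    (hc : ∀ (v : HeightOneSpectrum (𝓞 K)) (i j : Fin 2),
      finComp v h i j - finComp v τ i j ∈ idealClosure 𝔫 v) :
    InLevelGroup 𝔫 (τ⁻¹ * h) := by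
  refine ⟨fun w => trivAtInf_inv_mul981 w (hτ.1 w) (hh.1 w), fun v i j => ⟨?_, ?_⟩⟩
  · have e : finComp v (τ⁻¹ * h) - 1 = finComp v τ⁻¹ * (finComp v h - finComp v τ) := by
      rw [finComp_mul981, mul_sub, finComp_inv_mul981]
    rw [e]
    exact mul_sub_entry981 𝔫 v _ _ (fun i j => (hτ.2 v).2 i j) (fun i j => hc v i j) i j
  · have e0 : (τ⁻¹ * h)⁻¹ = h⁻¹ * τ := by
      rw [mul_inv_rev, inv_inv]
    have e : finComp v (τ⁻¹ * h)⁻¹ - 1 = finComp v h⁻¹ * (finComp v τ - finComp v h) := by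
      rw [e0, finComp_mul981, mul_sub, finComp_inv_mul981]
    rw [e]
    refine mul_sub_entry981 𝔫 v _ _ (fun i j => (hh.2 v).2 i j) (fun i j => ?_) i j
    have := neg_mem_idealClosure981 𝔫 v (hc v i j)
    rwa [neg_sub] at this

/-! ## 5. The leaf -/

/-- The label of `h`: the labels of its entries at the places of `S`. -/
def glab981 (S : Finset (HeightOneSpectrum (𝓞 K))) (h : G K) :
    S → Fin 2 → Fin 2 → 𝓞 K ⧸ 𝔫 :=
  fun v i j => lab981 𝔫 v.1 (finComp v.1 h i j)

open Classical in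
/-- A representative of a label. -/
def rep981 (S : Finset (HeightOneSpectrum (𝓞 K))) (ℓ : S → Fin 2 → Fin 2 → 𝓞 K ⧸ 𝔫) : G K :=
  if h : ∃ g : G K, IsHat981 g ∧ glab981 𝔫 S g = ℓ then Classical.choose h else 1

theorem rep981_spec (S : Finset (HeightOneSpectrum (𝓞 K))) {h : G K} (hh : IsHat981 h) :
    IsHat981 (rep981 𝔫 S (glab981 𝔫 S h)) ∧
      glab981 𝔫 S (rep981 𝔫 S (glab981 𝔫 S h)) = glab981 𝔫 S h := by
  have hex : ∃ g : G K, IsHat981 g ∧ glab981 𝔫 S g = glab981 𝔫 S h := ⟨h, hh, rfl⟩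
  unfold rep981
  rw [dif_pos hex]
  exact Classical.choose_spec hex

/-- **LEAF PROJ.2b = FIN-INDEX**, VERBATIM. -/
theorem finIndexC981 (K : Type) [Field K] [NumberField K] : H193.FinIndexC K := by
  intro 𝔑 h𝔑
  classical
  have hfinq : Finite (𝓞 K ⧸ 𝔑) := Ideal.finiteQuotientOfFreeOfNeBot 𝔑 h𝔑
  let S : Finset (HeightOneSpectrum (𝓞 K)) := (Ideal.finite_factors h𝔑).toFinset
  have hS : ∀ v : HeightOneSpectrum (𝓞 K), v ∈ S ↔ v.asIdeal ∣ 𝔑 := fun v => by
    simp [S]
  have hfinL : Finite (S → Fin 2 → Fin 2 → 𝓞 K ⧸ 𝔑) := inferInstance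
  refine ⟨(Set.finite_range (rep981 𝔑 S)).toFinset, fun h h1 h2 => ?_⟩
  have hh : IsHat981 h := ⟨h1, h2⟩
  obtain ⟨hτ, hlab⟩ := rep981_spec 𝔑 S hh
  refine ⟨rep981 𝔑 S (glab981 𝔑 S h), ?_, ?_⟩
  · rw [Set.Finite.mem_toFinset]
    exact ⟨_, rfl⟩
  · refine inLevelGroup_of_congr981 𝔑 hτ hh fun v i j => ?_
    by_cases hv : v.asIdeal ∣ 𝔑
    · have hvS : v ∈ S := (hS v).2 hv
      have hl := congrFun (congrFun (congrFun hlab ⟨v, hvS⟩) i) j
      exact sub_mem_of_lab_eq981 𝔑 v h𝔑 ((hh.2 v).1 i j) ((hτ.2 v).1 i j) hl.symm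
    · rw [idealClosure_eq_integers981 𝔑 v hv]
      exact sub_mem ((hh.2 v).1 i j) ((hτ.2 v).1 i j)

end Fermat.Agent.LT.T7.H981

end

end
-- ===== PACK-END LT/T7/H981/FinIndex.lean

-- ===== PACK-BEGIN LT/T7/H387/FinAvgOrth.lean
section



/-!
# Row LT, tower T7, node T7.L2.1, leaf PROJ.4 `H193.FinAvgOrthC` (registry 2141) -- PROVED (helper387)

OFF-MAIN.  `finAvgOrthC387 K : H193.FinAvgOrthC K` for every number field `K`:
`ψ - P_f ψ` is orthogonal to the cusp functions of level `𝔑₀` which are Iwahori-invariant along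
the orbit.  Proof: `χ (x h) = χ x` for `h ∈ Rep` (`IsFinData.mem`), so
`∫_F ψ(x h) conj χ(x) = ∫_F (ψ conj χ)(x h) = ∫_F ψ conj χ` by `TranslInvC`; bounded continuous
integrands on a set of finite measure.  Complete proof; hypotheses = those of the Prop.
-/

set_option autoImplicit false

open IsDedekindDomain NumberField MeasureTheory
open scoped ComplexConjugate

noncomputable section

namespace Fermat.Agent.LT.T7.H193.H387

open Fermat.Agent.LT.H556 Fermat.Agent.LT.H556.A0 Fermat.Agent.LT Fermat.Agent.LT.T7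
open Fermat.Agent.LT.T7.H193

attribute [local instance] Fermat.Agent.LT.T5.instMeasurableSpaceG

variable {K : Type} [Field K] [NumberField K]

/-- `χ` is invariant under right translation by the members of `Rep`. -/
lemma chi_rep_inv387 {𝔑 𝔑₀ : Ideal (𝓞 K)} {l : ℕ} {o : ℕ → HeightOneSpectrum (𝓞 K)}
    {Rep : Finset (G K)} (hRep : IsFinData 𝔑 𝔑₀ l o Rep) {r : G K} {χ : G K → ℂ}
    (hχ : T5.IsCuspFn 𝔑₀ T5.trivType r χ) (hiw : IsIwInv l o χ) {h : G K} (hh : h ∈ Rep)
    (x : G K) : χ (x * h) = χ x := by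
  obtain ⟨i, u, hi, hu, rfl⟩ := hRep.mem h hh
  rw [← mul_assoc, hχ.aut.level_inv u hu, (isIwInv_iff.mp hiw) i hi]

variable (K)

/-- **LEAF PROJ.4 = FIN-AVG-ORTH, PROVED.** -/
theorem finAvgOrthC387 : FinAvgOrthC K := by
  intro hT1 hTr R hR 𝔑 𝔑₀ l o Rep hRep ψ hψ χ hχ hiw
  have hF : R.μ R.F < ⊤ := hR.frame.finite
  have key : ∀ h ∈ Rep, ∫ x in R.F, ψ (x * h) * conj (χ x) ∂(R.μ)
      = ∫ x in R.F, ψ x * conj (χ x) ∂(R.μ) := by
    intro h hh
    have h1 := hTr hT1.adNorm R hR (fun x => ψ x * conj (χ x))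
      (fun γ x => by
        show ψ (T5.ratG γ * x) * conj (χ (T5.ratG γ * x)) = ψ x * conj (χ x)
        rw [hψ.aut.left_inv, hχ.aut.left_inv])
      (fun x => by
        show ψ (x * R.r) * conj (χ (x * R.r)) = ψ x * conj (χ x)
        rw [hψ.aut.ray, hχ.aut.ray]) h
    rw [← h1]
    refine integral_congr_ae (Filter.Eventually.of_forall fun x => ?_)
    show ψ (x * h) * conj (χ x) = ψ (x * h) * conj (χ (x * h))
    rw [chi_rep_inv387 hRep hχ hiw hh x]
  have hcard : ((Rep.card : ℂ)) ≠ 0 := by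
    exact_mod_cast (Finset.card_pos.mpr hRep.nonempty).ne'
  have hint0 : IntegrableOn (fun x => ψ x * conj (χ x)) R.F R.μ :=
    integrableOn_mul_conj193 hF hψ.cont hχ.cont hψ.bdd hχ.bdd
  have hinth : ∀ h ∈ Rep, IntegrableOn (fun x => ψ (x * h) * conj (χ x)) R.F R.μ := by
    intro h _
    refine integrableOn_mul_conj193 hF (e := fun x => ψ (x * h))
      (hψ.cont.comp (continuous_mul_const h)) hχ.cont ?_ hχ.bdd
    obtain ⟨C, hC⟩ := hψ.bdd
    exact ⟨C, fun g => hC _⟩
  have hsum : IntegrableOn (fun x => (Rep.card : ℂ)⁻¹ * ∑ h ∈ Rep, ψ (x * h) * conj (χ x))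
      R.F R.μ :=
    (integrable_finsetSum Rep hinth).const_mul _
  have e : (fun x => (ψ x - finAvg Rep ψ x) * conj (χ x))
      = fun x => ψ x * conj (χ x)
          - (Rep.card : ℂ)⁻¹ * ∑ h ∈ Rep, ψ (x * h) * conj (χ x) := by
    funext x
    unfold finAvg
    rw [sub_mul, mul_assoc, Finset.sum_mul]
  unfold T5.innerD
  rw [e, integral_sub hint0 hsum, integral_const_mul, integral_finsetSum Rep hinth,
    Finset.sum_congr rfl key, Finset.sum_const, nsmul_eq_mul, ← mul_assoc,
    inv_mul_cancel₀ hcard, one_mul, sub_self]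

/-- The frozen Prop, VERBATIM. -/
example : Fermat.Agent.LT.T7.H193.FinAvgOrthC K := finAvgOrthC387 K

end Fermat.Agent.LT.T7.H193.H387

end

end
-- ===== PACK-END LT/T7/H387/FinAvgOrth.lean

-- ===== PACK-BEGIN LT/T7/H195/PosScal.lean
section



/-!
# Row LT, tower T7, node T7.L2.1 `SupplyC`, sub-station PROJ: leaf PROJ.5 = `PosScalC` (helper195)

OFF-MAIN.  Registry row 2142 (T7.L2.1.P07).  Spec: `LT/T7/H193/ProjSpec.lean` (helper193,
sha256 977a85e3), byte-identical copy.

`posScalC195 K : H193.PosScalC K` -- the positive scalars at infinity: the continuous central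
homomorphism `a : ℝ^{places at ∞} → GL₂(𝔸_K)`, `a(t)_w = exp (t w)`, `a(t)_v = 1`.

Construction: `realTo195 w : ℝ →+* K_w` (inverse of the isometric isomorphism `K_w ≃ ℝ` at a
real place, of `K_w ≃ ℂ` composed with `ℝ → ℂ` at a complex place); the idele
`zU195 t = ((realTo195 w (exp (t w)))_w, 1)`; `a t` = the scalar matrix of `zU195 t`.
-/

set_option autoImplicit false

open IsDedekindDomain NumberField

noncomputable section

namespace Fermat.Agent.LT.T7.H195

open Fermat.Agent.LT.H556 Fermat.Agent.LT.H556.A0 Fermat.Agent.LT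

variable {K : Type} [Field K] [NumberField K]

/-- The real numbers inside the completion at the infinite place `w`. -/
def realTo195 (w : InfinitePlace K) : ℝ →+* w.Completion :=
  haveI : Decidable w.IsReal := Classical.propDecidable _
  if hw : w.IsReal then
    (InfinitePlace.Completion.ringEquivRealOfIsReal hw).symm.toRingHom
  else
    ((InfinitePlace.Completion.ringEquivComplexOfIsComplex
        (InfinitePlace.not_isReal_iff_isComplex.mp hw)).symm.toRingHom).comp Complex.ofRealHom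

omit [NumberField K] in
theorem extensionEmbedding_realTo195 (w : InfinitePlace K) (r : ℝ) :
    InfinitePlace.Completion.extensionEmbedding w (realTo195 w r) = (r : ℂ) := by
  unfold realTo195
  by_cases hw : w.IsReal
  · rw [dif_pos hw]
    rw [← InfinitePlace.Completion.extensionEmbeddingOfIsReal_apply hw]
    congr 1
    exact (InfinitePlace.Completion.ringEquivRealOfIsReal hw).apply_symm_apply r
  · rw [dif_neg hw]
    exact (InfinitePlace.Completion.ringEquivComplexOfIsComplex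
      (InfinitePlace.not_isReal_iff_isComplex.mp hw)).apply_symm_apply (r : ℂ)

omit [NumberField K] in
theorem continuous_realTo195 (w : InfinitePlace K) : Continuous (realTo195 w) := by
  have hind := (InfinitePlace.Completion.isometry_extensionEmbedding w).isEmbedding.toIsInducing
  rw [hind.continuous_iff]
  have : (InfinitePlace.Completion.extensionEmbedding w) ∘ (realTo195 w)
      = fun r : ℝ => (r : ℂ) := by
    funext r
    exact extensionEmbedding_realTo195 w r
  rw [this]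
  exact Complex.continuous_ofReal

/-- The adele `((exp (t w))_w, 1)`. -/
def zAd195 (t : InfinitePlace K → ℝ) : Adl K :=
  (fun w => realTo195 w (Real.exp (t w)), 1)

theorem zAd195_add (s t : InfinitePlace K → ℝ) : zAd195 (s + t) = zAd195 s * zAd195 t := by
  unfold zAd195
  refine Prod.ext ?_ ?_
  · funext w
    show realTo195 w (Real.exp ((s + t) w))
      = realTo195 w (Real.exp (s w)) * realTo195 w (Real.exp (t w))
    rw [Pi.add_apply, Real.exp_add, map_mul]
  · show (1 : FiniteAdeleRing (𝓞 K) K) = 1 * 1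
    rw [mul_one]

theorem zAd195_zero : zAd195 (0 : InfinitePlace K → ℝ) = 1 := by
  unfold zAd195
  refine Prod.ext ?_ ?_
  · funext w
    show realTo195 w (Real.exp ((0 : InfinitePlace K → ℝ) w)) = 1
    rw [Pi.zero_apply, Real.exp_zero, map_one]
  · rfl

theorem continuous_zAd195 : Continuous (zAd195 (K := K)) := by
  unfold zAd195
  refine Continuous.prodMk ?_ continuous_const
  refine continuous_pi fun w => ?_
  exact (continuous_realTo195 w).comp (Real.continuous_exp.comp (continuous_apply w))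

/-- The idele `((exp (t w))_w, 1)`. -/
def zU195 (t : InfinitePlace K → ℝ) : (Adl K)ˣ where
  val := zAd195 t
  inv := zAd195 (-t)
  val_inv := by rw [← zAd195_add, add_neg_cancel, zAd195_zero]
  inv_val := by rw [← zAd195_add, neg_add_cancel, zAd195_zero]

theorem zU195_add (s t : InfinitePlace K → ℝ) : zU195 (s + t) = zU195 s * zU195 t :=
  Units.ext (zAd195_add s t)

theorem continuous_zU195 : Continuous (zU195 (K := K)) := by
  rw [Units.continuous_iff]
  refine ⟨continuous_zAd195, ?_⟩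
  exact continuous_zAd195.comp continuous_neg

/-- The positive scalar `a t` at infinity. -/
def aScal195 (t : InfinitePlace K → ℝ) : G K :=
  Units.map (Matrix.scalar (Fin 2) : Adl K →+* Matrix (Fin 2) (Fin 2) (Adl K)).toMonoidHom
    (zU195 t)

theorem aScal195_val (t : InfinitePlace K → ℝ) :
    ((aScal195 t : G K) : Matrix (Fin 2) (Fin 2) (Adl K)) = Matrix.scalar (Fin 2) (zAd195 t) :=
  rfl

theorem continuous_aScal195 : Continuous (aScal195 (K := K)) := by
  unfold aScal195
  refine (Continuous.units_map _ ?_).comp continuous_zU195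
  exact continuous_id.matrix_diagonal.comp (continuous_pi fun _ => continuous_id)

theorem aScal195_entry (t : InfinitePlace K → ℝ) (i j : Fin 2) :
    ((aScal195 t : G K) : Matrix (Fin 2) (Fin 2) (Adl K)) i j
      = if i = j then zAd195 t else 0 := by
  rw [aScal195_val]
  simp [Matrix.scalar_apply, Matrix.diagonal_apply]

/-- **LEAF PROJ.5 = POS-SCAL** (`H193.PosScalC`, verbatim). -/
theorem posScalC195 (K : Type) [Field K] [NumberField K] : H193.PosScalC K := by
  refine ⟨aScal195, continuous_aScal195, ?_, ?_, ?_, ?_⟩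
  · intro s t
    unfold aScal195
    rw [zU195_add, map_mul]
  · intro t w
    funext i j
    unfold infComp
    rw [aScal195_entry]
    by_cases hij : i = j
    · subst hij
      simp only [if_true, Matrix.diagonal_apply_eq]
      exact extensionEmbedding_realTo195 w (Real.exp (t w))
    · simp only [if_neg hij, Matrix.diagonal_apply_ne _ hij]
      exact map_zero _
  · intro t v
    unfold TrivAtFin finComp
    funext i j
    rw [aScal195_entry]
    by_cases hij : i = j
    · subst hij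
      simp only [if_true, Matrix.one_apply_eq]
      rfl
    · simp only [if_neg hij, Matrix.one_apply_ne hij]
      rfl
  · intro t g
    apply Units.ext
    rw [Units.val_mul, Units.val_mul, aScal195_val]
    exact (Matrix.scalar_commute (zAd195 t) (fun r => Commute.all _ r) _).eq

end Fermat.Agent.LT.T7.H195

end

end
-- ===== PACK-END LT/T7/H195/PosScal.lean

-- ===== PACK-BEGIN LT/T7/H29/UpCore2.lean
section






/-!
# Row LT, tower T7, level 2/3: ONE UPSTAIRS PROOF FOR BOTH STEPS (helper29, deputy of T7.L2Q)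

OFF-MAIN.  Definitions, frozen Props, PROVED bridges.  No hole, nothing assumed.
ADDITIVE (new names only, namespace `Fermat.Agent.LT.T7.H29`) to
`T7/Level2.lean` (helper797, 15516646), `T7/H736/SpecUp.lean` (helper736, the cut of `SpecUpC`),
`T7/H826/Level2Q.lean` (helper826, level 2 of the quadratic step), `T7/H29/UpCore.lean`.

## The point

The nodes `SU736.ExpUpC K K'` and `SU736.NonVanC K K'` of the cut of `SpecUpC` are typed on
`L2Data K K'` with the hypotheses of the CYCLIC step (`IsCycExt K K' ℓ`, `ℓ ≠ 2`, `TotCplx K`).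
The quadratic step needs the SAME two statements for `L2Q.L2QData F` (`ℓ = 2`, base field `ℚ`).
Both are statements about the field UPSTAIRS only.  Here they are typed ONCE, on `H29.UpData K'`:

    ExpUpCoreC K', NonVanCoreC K'                       (the two nodes, over `K'` alone)
    specUpCoreSC_of  : ExpUpCoreC K' → NonVanCoreC K' → SpecUpCoreSC K'
    expUpC_of_core   : ExpUpCoreC K'  → SU736.ExpUpC K K'        (cyclic step)
    nonVanC_of_core  : NonVanCoreC K' → SU736.NonVanC K K'       (cyclic step)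
    specUpCS_of_core : SpecUpCoreSC K' → SU736.SpecUpCS K K'     (cyclic step)
    traceWordsQRegP_ofCore : SupplyQSC P F → SpecUpCoreSC F → L2Q.SpecDownQC F → L2Q.SpecIdQC F
                               → T7.TraceWordsQRegP P F          (quadratic step, VERBATIM)

So the owners of the leaves under `ExpUpC` / `NonVanC` prove the CORE forms (same proofs: only
upstairs fields are used) and the node `L2Q.SpecUpQC` (registry 2152) needs NO second proof.
`SupplyQSC` = `L2Q.SupplyQC` + stability (`IsStableQ`: the base level is `σ`-stable and `S'`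
contains every place over a prime of `S`; both are free for the supplier).
-/

set_option autoImplicit false

open AutomorphicForm IsDedekindDomain NumberField MeasureTheory
open scoped ComplexConjugate

noncomputable section

namespace Fermat.Agent.LT.T7.H29

open Fermat.Agent.LT.H556 Fermat.Agent.LT.H556.A0 Fermat.Agent.LT.T7

attribute [local instance] Fermat.Agent.LT.T5.instMeasurableSpaceG

/-! ## 1. The core nodes -/

section Core

variable {K' : Type} [Field K'] [NumberField K']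

/-- **BASE STABILITY** (core form of `SU736.BaseStable`): `σ` preserves the frame at the base
level `𝔑₀`. -/
def BaseStableU (U : UpData K') : Prop :=
  T5.AutPreserves U.s U.𝔑₀ U.R'.μ U.R'.r

variable (K')

/-- **NODE T7.L2.2c = SPEC-UP, core form, base-stable data.** -/
def SpecUpCoreSC : Prop :=
  ∀ ℓ : ℕ, ℓ.Prime → TotCplx K' →
    ∀ Φ : HeckeEigensystem K' ℂ, A0.IsCuspAdelicSph0 K' Φ →
      ∀ U : UpData K', IsUpData ℓ Φ U → BaseStableU U →
      ∃ (g : G K') (e' : ℕ → G K' → ℂ) (ι' : Type) (C : ι' → EigData K') (b' l' : ι' → ℂ)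
        (R : ℝ) (y : ι' → ℂ),
        U.IsBad g ∧
        T5.IsCuspONB (U.𝔑 g) T5.trivType U.R'.r U.R'.μ U.R'.F e' ∧
        Summable (fun j => ‖y j‖) ∧ (∀ j, (C j).IsUnitaryOut U.S') ∧
        (∀ j, IsRegParam R (b' j) (l' j)) ∧
        (∀ X : List (Gen K'), (∀ x ∈ X, x.Out U.S') → ∀ (k : ℤ) (m : ℕ), U.m₀ g X ≤ m →
          specSide U.s U.R' e' (U.φ' g X k m)
            = ∑' j, wordEv X (C j) * y j * b' j ^ k * l' j ^ m) ∧
        ∃ b₀ l₀ : ℂ,
          (∑' j : {j : {j : ι' // b' j = b₀ ∧ l' j = l₀} //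
              (C j.1).AgreeOut U.S' (eigOf Φ)}, y j.1.1) ≠ 0

/-- **NODE T7.L2.2.Ec = EXP-UP, core form** (`SU736.ExpUpC` over `K'` alone). -/
def ExpUpCoreC : Prop :=
  ∀ ℓ : ℕ, ℓ.Prime → TotCplx K' →
    ∀ Φ : HeckeEigensystem K' ℂ, A0.IsCuspAdelicSph0 K' Φ →
      ∀ U : UpData K', IsUpData ℓ Φ U → BaseStableU U → ∀ g : G K', U.IsBad g →
      ∃ (e' : ℕ → G K' → ℂ) (C : ℕ → EigData K') (b l : ℕ → ℂ) (R : ℝ) (y : ℕ → ℂ)
        (J : Finset ℕ),
        T5.IsCuspONB (U.𝔑 g) T5.trivType U.R'.r U.R'.μ U.R'.F e' ∧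
        Summable (fun j => ‖y j‖) ∧ (∀ j, (C j).IsUnitaryOut U.S') ∧
        (∀ j, IsRegParam R (b j) (l j)) ∧
        (∀ X : List (Gen K'), (∀ x ∈ X, x.Out U.S') → ∀ (k : ℤ) (m : ℕ), U.m₀ g X ≤ m →
          specSide U.s U.R' e' (U.φ' g X k m)
            = ∑' j, wordEv X (C j) * y j * b j ^ k * l j ^ m) ∧
        (∀ j, (C j).AgreeOut U.S' (eigOf Φ) → y j ≠ 0 → j ∈ J) ∧
        (∀ j ∈ J, (C j).AgreeOut U.S' (eigOf Φ)) ∧
        SU736.IsClassBasisOn U.𝔑₀ U.R' ℓ U.o (eigOf Φ) e' J ∧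
        ∀ Hg : Finset (G K'), IsDblCosetSystem U.𝔑₀ g Hg →
          ∑ j ∈ J, y j = U.c g (eigOf Φ) * SU736.twTrace U.s U.R' Hg e' J

/-- **NODE T7.L2.2.Nc = NON-VANISHING, core form** (`SU736.NonVanC` over `K'` alone). -/
def NonVanCoreC : Prop :=
  ∀ ℓ : ℕ, ℓ.Prime → TotCplx K' →
    ∀ Φ : HeckeEigensystem K' ℂ, A0.IsCuspAdelicSph0 K' Φ →
      ∀ U : UpData K', IsUpData ℓ Φ U → BaseStableU U →
      ∃ (g : G K') (Hg : Finset (G K')), U.IsBad g ∧ IsDblCosetSystem U.𝔑₀ g Hg ∧
        ∀ (q : ℕ → G K' → ℂ) (J : Finset ℕ),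
          SU736.IsClassBasisOn U.𝔑₀ U.R' ℓ U.o (eigOf Φ) q J →
            SU736.twTrace U.s U.R' Hg q J ≠ 0

variable {K'}

/-- `SpecUpCoreSC` is what `SpecUpCoreC` gives for base-stable data. -/
theorem specUpCoreSC_of_core (h : SpecUpCoreC K') : SpecUpCoreSC K' :=
  fun ℓ hℓ hcplx Φ hΦ U hU _ => h ℓ hℓ hcplx Φ hΦ U hU

/-- **THE TOP OF THE CORE NODE**: the proof of `SU736.specUpCS_of` on `UpData`. -/
theorem specUpCoreSC_of (hE : ExpUpCoreC K') (hN : NonVanCoreC K') : SpecUpCoreSC K' := by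
  classical
  intro ℓ hℓ hcplx Φ hΦ U hU hst
  obtain ⟨g, Hg, hg, hHg, hne⟩ := hN ℓ hℓ hcplx Φ hΦ U hU hst
  obtain ⟨e', C, b, l, R, y, J, hONB, hy, hUn, hp, hexp, hJ, hJ', hbasis, htr⟩ :=
    hE ℓ hℓ hcplx Φ hΦ U hU hst g hg
  refine ⟨g, e', ℕ, C, b, l, R, y, hg, hONB, hy, hUn, hp, hexp, ?_⟩
  have hc : U.c g (eigOf Φ) ≠ 0 :=
    hU.base_ne g hg (eigOf Φ) ⟨fun _ _ => ⟨rfl, rfl⟩, fun _ _ _ => rfl⟩
  have hsum : ∑ j ∈ J, y j ≠ 0 := by
    rw [htr Hg hHg]
    exact mul_ne_zero hc (hne e' J hbasis)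
  obtain ⟨⟨b₀, l₀⟩, hfib⟩ := SU736.exists_fibre_ne_zero736 J y (fun j => (b j, l j)) hsum
  refine ⟨b₀, l₀, ?_⟩
  rw [SU736.tsum_nested_eq_sum736 J y (fun j => b j = b₀ ∧ l j = l₀)
    (fun j => (C j).AgreeOut U.S' (eigOf Φ)) hJ hJ']
  have hfilter : (J.filter fun j => b j = b₀ ∧ l j = l₀)
      = J.filter fun j => (b j, l j) = (b₀, l₀) := by
    refine Finset.filter_congr fun j _ => ?_
    rw [Prod.mk.injEq]
  rw [hfilter]
  exact hfib

end Core

/-! ## 2. The cyclic step: the nodes of helper736 from the core nodes -/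

section Cyclic

variable {K K' : Type} [Field K] [NumberField K] [Field K'] [NumberField K'] [Algebra K K']

theorem baseStableU_upOf {Dt : L2Data K K'} (h : SU736.BaseStable Dt) :
    BaseStableU (upOf Dt) := h

/-- **`SU736.ExpUpC` from the core form.** -/
theorem expUpC_of_core (hC : ExpUpCoreC K') : SU736.ExpUpC K K' := by
  intro ℓ hcyc _ hcplx Φ hΦ _ Dt hDt hst g hg
  exact hC ℓ hcyc.prime (totCplx_of_base hcplx) Φ hΦ (upOf Dt) (isUpData_upOf hDt)
    (baseStableU_upOf hst) g hg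

/-- **`SU736.NonVanC` from the core form.** -/
theorem nonVanC_of_core (hC : NonVanCoreC K') : SU736.NonVanC K K' := by
  intro ℓ hcyc _ hcplx Φ hΦ _ Dt hDt hst
  exact hC ℓ hcyc.prime (totCplx_of_base hcplx) Φ hΦ (upOf Dt) (isUpData_upOf hDt)
    (baseStableU_upOf hst)

/-- **`SU736.SpecUpCS` from the core form.** -/
theorem specUpCS_of_core (hC : SpecUpCoreSC K') : SU736.SpecUpCS K K' := by
  intro ℓ hcyc _ hcplx Φ hΦ _ Dt hDt hst
  exact hC ℓ hcyc.prime (totCplx_of_base hcplx) Φ hΦ (upOf Dt) (isUpData_upOf hDt)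
    (baseStableU_upOf hst)

end Cyclic

/-! ## 3. The quadratic step: the data of helper826 -/

section Quadratic

variable {F : Type} [Field F] [NumberField F]

/-- The upstairs part of the data of level 2, quadratic step. -/
def upOfQ (Dt : L2Q.L2QData F) : UpData F where
  l := 2
  s := Dt.s
  k := Dt.k
  R' := Dt.R'
  𝔑₀ := Dt.𝔑₀
  S' := Dt.S'
  o := Dt.o
  𝔑 := Dt.𝔑
  c := Dt.c
  φ' := Dt.φ'
  m₀ := Dt.m₀

/-- **STABILITY, quadratic step**: the base level is `σ`-stable, and `S'` contains every place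
over a prime of `S` (with `L2Q.IsL2QData.under`: `S'` = the places over the primes of `S`).
Free for the supplier: `𝔑₀ = 𝔫₀ 𝒪_F`, `S` = the primes dividing `𝔫₀`. -/
def IsStableQ (Dt : L2Q.L2QData F) : Prop :=
  T5.AutPreserves Dt.s Dt.𝔑₀ Dt.R'.μ Dt.R'.r ∧
    ∀ p : ℕ, p.Prime → p ∈ Dt.S → ∀ w : HeightOneSpectrum (𝓞 F),
      ((p : ℕ) : 𝓞 F) ∈ w.asIdeal → w ∈ Dt.S'

/-- Every finite place lies over a prime number. -/
theorem exists_prime_mem29 (w : HeightOneSpectrum (𝓞 F)) :
    ∃ p : ℕ, p.Prime ∧ ((p : ℕ) : 𝓞 F) ∈ w.asIdeal := by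
  have hpr : (w.asIdeal.comap (algebraMap ℤ (𝓞 F))).IsPrime := Ideal.comap_isPrime _ _
  have hne : w.asIdeal.comap (algebraMap ℤ (𝓞 F)) ≠ ⊥ := fun h =>
    w.ne_bot (Ideal.eq_bot_of_comap_eq_bot h)
  obtain ⟨n, hn⟩ : ∃ n : ℤ, w.asIdeal.comap (algebraMap ℤ (𝓞 F)) = Ideal.span {n} :=
    ⟨_, (Submodule.IsPrincipal.span_singleton_generator
      (w.asIdeal.comap (algebraMap ℤ (𝓞 F)))).symm⟩
  have hn0 : n ≠ 0 := by
    rintro rfl
    apply hne
    rw [hn]
    simp
  have hnp : Prime n := by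
    have := hpr
    rw [hn] at this
    exact (Ideal.span_singleton_prime hn0).1 this
  refine ⟨n.natAbs, Int.prime_iff_natAbs_prime.1 hnp, ?_⟩
  have hmem : (n : ℤ) ∈ w.asIdeal.comap (algebraMap ℤ (𝓞 F)) := by
    rw [hn]
    exact Ideal.mem_span_singleton_self n
  have hmem' : ((n : ℤ) : 𝓞 F) ∈ w.asIdeal := by
    simpa using hmem
  rcases Int.natAbs_eq n with h | h
  · have e : ((n.natAbs : ℕ) : 𝓞 F) = ((n : ℤ) : 𝓞 F) := by
      conv_rhs => rw [h]
      simp
    rw [e]
    exact hmem'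
  · have e : ((n.natAbs : ℕ) : 𝓞 F) = -((n : ℤ) : 𝓞 F) := by
      conv_rhs => rw [h]
      simp
    rw [e]
    exact w.asIdeal.neg_mem hmem'

/-- A prime number in `w` lies in the image of `w` under an automorphism. -/
theorem natCast_mem_of_placeRel29 (s : T5.AdelicAut F) {w w' : HeightOneSpectrum (𝓞 F)}
    (hrel : T5.PlaceRel s w w') {p : ℕ} (hp : ((p : ℕ) : 𝓞 F) ∈ w.asIdeal) :
    ((p : ℕ) : 𝓞 F) ∈ w'.asIdeal := by
  unfold T5.PlaceRel at hrel
  rw [hrel, Ideal.mem_map_of_equiv]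
  exact ⟨_, hp, map_natCast _ p⟩

/-- The identity is supported at the bad places. -/
theorem isBad_oneQ (Dt : L2Q.L2QData F) : Dt.IsBad (1 : G F) :=
  ⟨fun w => trivAtInf_one29 w, fun v _ => trivAtFin_one29 v⟩

/-- **The upstairs fields of `L2Q.IsL2QData`** (stable data). -/
theorem isUpData_upOfQ {Φ : HeckeEigensystem F ℂ} {Dt : L2Q.L2QData F}
    (h : L2Q.IsL2QData Φ Dt) (hst : IsStableQ Dt) : IsUpData 2 Φ (upOfQ Dt) where
  deg := rfl
  cyc := (h.comp 1 (isBad_oneQ Dt)).cyc
  frame' := (h.comp 1 (isBad_oneQ Dt)).frame'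
  level_ne := fun g hg => by
    show Ideal.map (algebraMap (𝓞 ℚ) (𝓞 F)) (Dt.𝔫 g) ≠ ⊥
    rw [Ne, Ideal.map_eq_bot_iff_of_injective (RingOfIntegers.algebraMap.injective ℚ F)]
    exact (h.comp g hg).level_ne
  aut := fun g hg => (h.comp g hg).aut
  level_le := h.level_le
  level_g := h.level_g
  mem_S' := h.mem_S'
  mem_S'_g := h.mem_S'_g
  const := fun w hw w' _ hrel => by
    obtain ⟨p, hp, hpw⟩ := exists_prime_mem29 w
    have hpS : p ∉ Dt.S := fun hmem => hw (hst.2 p hp hmem w hpw)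
    exact h.const p hp hpS w w' hpw (natCast_mem_of_placeRel29 Dt.s hrel hpw)
  orbit_rel := h.orbit_rel
  orbit_ne := h.orbit_ne
  orbit_level := h.orbit_level
  orbit_good := h.orbit_good
  ekprod_up := h.ekprod_up
  reg_up := h.reg_up
  base_ne := h.base_ne
  op_up := h.op_up
  kill_up := h.kill_up
  proj_up := h.proj_up

/-- **NODE T7.L2Q.1 = SUPPLY over `ℚ`, stable form** (`L2Q.SupplyQC` + `IsStableQ`). -/
def SupplyQSC (P : EKCond) (F : Type) [Field F] [NumberField F] : Prop :=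
  HasSqrtNegThree F → IsImagQuad F →
    ∀ Φ : HeckeEigensystem F ℂ, A0.IsCuspAdelicSph0 F Φ → ConstOnFibresQ Φ → P F Φ →
      ∃ Dt : L2Q.L2QData F, L2Q.IsL2QData Φ Dt ∧ IsStableQ Dt

/-- **`L2Q.SpecUpQC` for stable data** (what the assembly of the quadratic step uses). -/
def SpecUpQSC (F : Type) [Field F] [NumberField F] : Prop :=
  HasSqrtNegThree F → IsImagQuad F →
    ∀ Φ : HeckeEigensystem F ℂ, A0.IsCuspAdelicSph0 F Φ → ConstOnFibresQ Φ →
      ∀ Dt : L2Q.L2QData F, L2Q.IsL2QData Φ Dt → IsStableQ Dt →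
      ∃ (g : G F) (e' : ℕ → G F → ℂ) (ι' : Type) (C : ι' → EigData F) (b' l' : ι' → ℂ)
        (R : ℝ) (y : ι' → ℂ),
        Dt.IsBad g ∧
        T5.IsCuspONB (Dt.𝔑 g) T5.trivType Dt.R'.r Dt.R'.μ Dt.R'.F e' ∧
        Summable (fun j => ‖y j‖) ∧ (∀ j, (C j).IsUnitaryOut Dt.S') ∧
        (∀ j, IsRegParam R (b' j) (l' j)) ∧
        (∀ X : List (Gen F), (∀ x ∈ X, x.Out Dt.S') → ∀ (k : ℤ) (m : ℕ), Dt.m₀ g X ≤ m →
          specSide Dt.s Dt.R' e' (Dt.φ' g X k m)
            = ∑' j, wordEv X (C j) * y j * b' j ^ k * l' j ^ m) ∧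
        ∃ b₀ l₀ : ℂ,
          (∑' j : {j : {j : ι' // b' j = b₀ ∧ l' j = l₀} //
              (C j.1).AgreeOut Dt.S' (eigOf Φ)}, y j.1.1) ≠ 0

variable {P : EKCond}

/-- **The upstairs node of the quadratic step from the core node.** -/
theorem specUpQSC_of_core (hC : SpecUpCoreSC F) : SpecUpQSC F := by
  intro _ hquad Φ hΦ _ Dt hDt hst
  exact hC 2 Nat.prime_two hquad.2 Φ hΦ (upOfQ Dt) (isUpData_upOfQ hDt hst) hst.1

/-- `L2Q.SpecUpQC` gives the stable form. -/
theorem specUpQSC_of_specUpQC (h : L2Q.SpecUpQC F) : SpecUpQSC F :=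
  fun h3 hquad Φ hΦ hconst Dt hDt _ => h h3 hquad Φ hΦ hconst Dt hDt

/-- **THE ASSEMBLY OF THE QUADRATIC STEP, stable form**: the proof of
`L2Q.traceWordsQRegP_of` (helper826) with the stability of the supplied data carried along. -/
theorem traceWordsQRegP_ofS (hS : SupplyQSC P F) (hU : SpecUpQSC F) (hD : L2Q.SpecDownQC F)
    (hI : L2Q.SpecIdQC F) : TraceWordsQRegP P F := by
  intro h3 hquad Φ hΦ hconst hP
  obtain ⟨Dt, hDt, hst⟩ := hS h3 hquad Φ hΦ hconst hP
  obtain ⟨g, e', ι', C, b', l', R', y, hg, he', hy, hUB, hp', hexp', hne⟩ :=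
    hU h3 hquad Φ hΦ hconst Dt hDt hst
  obtain ⟨e₀, ι₀, c₀, Ch₀, b₀, l₀, R₀, x₀, he₀, hx₀, hUA₀, hbc₀, hp₀, hexp₀, hreal₀⟩ :=
    hD L2Q.QWt.w0 h3 hquad Φ hΦ hconst Dt hDt g hg
  obtain ⟨e₁, ι₁, c₁, Ch₁, b₁, l₁, R₁, x₁, he₁, hx₁, hUA₁, hbc₁, hp₁, hexp₁, hreal₁⟩ :=
    hD L2Q.QWt.w1 h3 hquad Φ hΦ hconst Dt hDt g hg
  have hUA : ∀ i : ι₀ ⊕ ι₁, (Sum.elim Ch₀ Ch₁ i).IsUnitaryOut Dt.S' := by
    rintro (i | i)
    · exact hUA₀ i
    · exact hUA₁ i
  have hx : Summable fun i : ι₀ ⊕ ι₁ => ‖Sum.elim x₀ x₁ i‖ :=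
    Summable.sum _ (by simpa [Function.comp_def] using hx₀)
      (by simpa [Function.comp_def] using hx₁)
  have hp : ∀ i : ι₀ ⊕ ι₁,
      IsRegParam (max R' (max R₀ R₁)) (Sum.elim b₀ b₁ i) (Sum.elim l₀ l₁ i) := by
    rintro (i | i)
    · exact isRegParam_mono ((le_max_left _ _).trans (le_max_right _ _)) (hp₀ i)
    · exact isRegParam_mono ((le_max_right _ _).trans (le_max_right _ _)) (hp₁ i)
  refine ⟨Dt.S, Dt.S', ι₀ ⊕ ι₁, ι', Sum.elim c₀ c₁, Sum.elim Ch₀ Ch₁, C, Sum.elim b₀ b₁,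
    Sum.elim l₀ l₁, b', l', max R' (max R₀ R₁), Sum.elim x₀ x₁, y, hDt.under, hx, hy, hUA, hUB,
    ?_, hp, fun j => isRegParam_mono (le_max_left _ _) (hp' j), ?_, hne, ?_⟩
  · rintro (i | i)
    · exact hbc₀ i
    · exact hbc₁ i
  · intro X hX
    refine ⟨Dt.m₀ g X, fun m hm k => ?_⟩
    have hid := (hI (Dt.comp g) (hDt.comp g hg) (Dt.φ' g X k m) (Dt.f L2Q.QWt.w0 g X k m)
      (Dt.f L2Q.QWt.w1 g X k m)
      (isAdm5_of_ekProd (hDt.ekprod_up g X k m hg hX) (hDt.reg_up g X k m hg hX hm))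
      (L2Q.isAdm5T_of_ekProdT (hDt.ekprod_down L2Q.QWt.w0 g X k m hg hX)
        (hDt.reg_down L2Q.QWt.w0 g X k m hg hX hm))
      (L2Q.isAdm5T_of_ekProdT (hDt.ekprod_down L2Q.QWt.w1 g X k m hg hX)
        (hDt.reg_down L2Q.QWt.w1 g X k m hg hX hm))
      (hDt.matched g X k m hg hX hm) e' e₀ e₁ he' he₀ he₁).2.2.2
    have hs₀ := L2Q.summable_atoms hUA₀ hx₀ hp₀ X hX k m
    have hs₁ := L2Q.summable_atoms hUA₁ hx₁ hp₁ X hX k m
    have hsplit : (∑' i : ι₀ ⊕ ι₁, wordEv X (Sum.elim Ch₀ Ch₁ i) * Sum.elim x₀ x₁ i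
          * Sum.elim b₀ b₁ i ^ k * Sum.elim l₀ l₁ i ^ m)
        = (∑' i, wordEv X (Ch₀ i) * x₀ i * b₀ i ^ k * l₀ i ^ m)
          + ∑' i, wordEv X (Ch₁ i) * x₁ i * b₁ i ^ k * l₁ i ^ m :=
      Summable.tsum_sum (f := fun i : ι₀ ⊕ ι₁ => wordEv X (Sum.elim Ch₀ Ch₁ i)
        * Sum.elim x₀ x₁ i * Sum.elim b₀ b₁ i ^ k * Sum.elim l₀ l₁ i ^ m) hs₀ hs₁
    rw [hsplit, ← hexp₀ X hX k m hm, ← hexp₁ X hX k m hm, ← hexp' X hX k m hm]
    exact hid.symm
  · rintro (i | i)
    · exact hreal₀ i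
    · exact hreal₁ i

/-- **THE QUADRATIC STEP FROM THE CORE NODE** (target `T7.TraceWordsQRegP P F`, VERBATIM):
the upstairs node is the SAME as in the cyclic step. -/
theorem traceWordsQRegP_ofCore (hS : SupplyQSC P F) (hU : SpecUpCoreSC F)
    (hD : L2Q.SpecDownQC F) (hI : L2Q.SpecIdQC F) : TraceWordsQRegP P F :=
  traceWordsQRegP_ofS hS (specUpQSC_of_core hU) hD hI

/-- The same from the two core nodes of the cut of helper736. -/
theorem traceWordsQRegP_ofCore2 (hS : SupplyQSC P F) (hE : ExpUpCoreC F) (hN : NonVanCoreC F)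
    (hD : L2Q.SpecDownQC F) (hI : L2Q.SpecIdQC F) : TraceWordsQRegP P F :=
  traceWordsQRegP_ofCore hS (specUpCoreSC_of hE hN) hD hI

end Quadratic

end Fermat.Agent.LT.T7.H29

end

end
-- ===== PACK-END LT/T7/H29/UpCore2.lean

-- ===== PACK-BEGIN LT/T7/H305/MatchCut.lean
section



/-!
# Row LT, tower T7, node C2.7 `CutIntC305` (helper305): SECOND CUT -- Spec

OFF-MAIN.  Definitions and frozen Props only (the proved top is `MatchCutTop.lean`).  No hole,
nothing assumed.  ADDITIVE (new names only, suffix `305`).  Vocabulary: `MatchSpec.lean` v2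
(= v1 541c6ac7 + appendix) and its imports.

    cutIntC_of305 : GoodSetC305 K K' → UnitMatchC305 K K' → LocMeasC305 → LocCutC305 →
        ArchMeasC305 → TorSplitC305 K → FactDownC305 K → FactUpC305 K K' → LocVanC305 →
        NonNormLocC305 K K' → CutIntC305 K K'

## The cut

`γ ∈ GL₂(K)` elliptic, `N δ = γ`, `T ⊇ T₀` finite, locally matched components (`LocHyp305`).

1. (`GoodSetC305`) enlarge `T` to a finite set `S` such that `γ` (and `δ`) are GOOD outside `S`
   (in `GL₂(𝒪_v)`, discriminant a unit).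
2. (`UnitMatchC305`) the pure tensors do not change if the components at `v ∈ S \ T` are the
   unit elements `1_{GL₂(𝒪_v)}`, and these are locally matched (fundamental lemma for the unit).
3. LOCAL DATA at `v ∈ S` and at the infinite places (`LocMeasC305`, `LocCutC305`,
   `ArchMeasC305`): Haar measures `μ_v` with `μ_v(U(m_v)) = 1`, Haar measures `μt_v` of the local
   tori with `μt_v(T_v^c) = 1`, continuous cut-off functions `β_v`; at the infinite places any
   Haar measures of the tori and cut-off functions.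
4. (`TorSplitC305`) the TORUS CONSTANT `c_T` of `μT` against the local torus measures (the same
   for all good `S`).
5. (`FactDownC305`, NODE) for the PRODUCT cut-off `β = c_T⁻¹ 1_{Out_S} ∏ β_v ∏ β_w`:

       ∫ f♭(y⁻¹ γ y) β(y) dμ(y) = (c_G / c_T) ∑_j ∏_{v ∈ S} I_v ∏_{w ∣ ∞} I_w(j),

   `I_v = ∫ f_v(y⁻¹ γ y) β_v(y) dμ_v(y)`, `I_w(j) = ∫ F_w(y⁻¹ (γ r^j)_w y) β_w(y) dμc(y)`,
   `c_G` the constant of `μ` against the local measures (the same for all `S ⊇ T₀`).
6. (`FactUpC305`, NODE) for a suitable cut-off `β'` upstairs and linked torus measures: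

       ∫ φ'♭(y⁻¹ δ σ(y)) β'(y) dμ'(y) = (c'_G / c_T) ∑_j ∏_{v ∈ S} I_v ∏_{w ∣ ∞} I_w(j)

   with THE SAME local integrals `I_v`, `I_w(j)` downstairs (local matching is used here:
   `T6.OrbSumIntC` + `T6.OrbSumExC` + `LocHyp305.inert` at the inert and ramified places, Fubini
   + the split integral identity + `LocHyp305.split` at the split places, `LocHyp305.arch` at
   the infinite places).
7. `κ = c'_G / c_G`.
8. (`NonNormLocC305`, `LocVanC305`) if `γ` is not a norm it is not a local norm at a finite place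
   `v₀` with one place above it; put `v₀` in `S`; `I_{v₀} = 0`.

ASSET leaves (inputs of the two nodes): `HaarSplitC305 K` (the Haar measure of `GL₂(𝔸_K)`
against the local measures), `SuppDownC305 K` (support of the integrand downstairs),
`LocInertC305`, `LocSplitC305` (local equalities).
-/

set_option autoImplicit false

open AutomorphicForm IsDedekindDomain NumberField MeasureTheory
open scoped ComplexConjugate

noncomputable section

namespace Fermat.Agent.LT.T7.H305

open Fermat.Agent.LT.H556 Fermat.Agent.LT.H556.A0 Fermat.Agent.LT.T7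

attribute [local instance] Fermat.Agent.LT.T5.instMeasurableSpaceG

/-! ## 1. Local vocabulary (abstract local fields, `GL₂(ℂ)`) -/

section Local

variable {k : Type} [Field k] [Valued k T6.Γ₀]

/-- `μ` is the Haar measure of `GL₂(k)` with `μ(U(n)) = 1`. -/
def IsLocHaar305 (n : ℕ) (μ : @Measure (GL (Fin 2) k) (borel _)) : Prop :=
  @Measure.IsHaarMeasure _ _ _ (borel _) μ ∧ μ {g | T6.InU n g} = 1

/-- `μT` is the Haar measure of the `s`-twisted centraliser of `δ` in `GL₂(k)` which gives the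
volume `1` to its maximal compact subgroup (the normalisation of `T6.OrbSumIntC`). -/
def IsLocTor305 (s : k ≃+* k) (δ : GL (Fin 2) k)
    (μT : @Measure (T6.twCentSub (T6.glAut s) δ) (borel _)) : Prop :=
  @Measure.IsHaarMeasure _ _ _ (borel _) μT ∧
    μT {t | Valued.v ((t : GL (Fin 2) k) : Matrix (Fin 2) (Fin 2) k).trace ≤ 1 ∧
      Valued.v ((t : GL (Fin 2) k) : Matrix (Fin 2) (Fin 2) k).det = 1} = 1

/-- `β` is a continuous cut-off function for the `s`-twisted centraliser of `δ` (the hypothesis of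
`T6.OrbSumIntC`). -/
def IsLocCut305 (s : k ≃+* k) (δ : GL (Fin 2) k)
    (μT : @Measure (T6.twCentSub (T6.glAut s) δ) (borel _)) (β : GL (Fin 2) k → ℝ) : Prop :=
  Continuous β ∧ (∀ x, 0 ≤ β x) ∧
    ∀ x : GL (Fin 2) k,
      @integral _ _ _ _ (borel _) μT
        (fun t : T6.twCentSub (T6.glAut s) δ => β ((t : GL (Fin 2) k) * x)) = 1

open Classical in
/-- The unit element `1_{GL₂(𝒪)}` of the Hecke algebra. -/
def unit305 (g : GL (Fin 2) k) : ℂ := if T6.InU 0 g then 1 else 0

end Local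

/-- The local cut-off integral `∫ f(y⁻¹ γ y) β(y) dμ(y)` (any group). -/
def locInt305 {H : Type} [Group H] [TopologicalSpace H] (μ : @Measure H (borel _))
    (β : H → ℝ) (f : H → ℂ) (γ : H) : ℂ :=
  @integral _ _ _ _ (borel _) μ (fun y : H => f (y⁻¹ * γ * y) * ((β y : ℝ) : ℂ))

/-- The centraliser of `γ` in a group (the form of `T6.twCentSub`). -/
abbrev cent305 {H : Type} [Group H] (γ : H) : Subgroup H := T6.twCentSub (MonoidHom.id H) γ

/-- `β` is a continuous cut-off function for the centraliser of `γ` (any topological group). -/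
def IsCut305 {H : Type} [Group H] [TopologicalSpace H] (γ : H)
    (μT : @Measure (cent305 γ) (borel _)) (β : H → ℝ) : Prop :=
  Continuous β ∧ (∀ x, 0 ≤ β x) ∧
    ∀ x : H, @integral _ _ _ _ (borel _) μT (fun t : cent305 γ => β ((t : H) * x)) = 1

/-! ## 2. One field: good sets, local data, the torus constant, the factorisation downstairs -/

section OneFieldCut

variable {K : Type} [Field K] [NumberField K]

/-- The image of `γ ∈ GL₂(K)` in `GL₂(K_v)`. -/
def locG305 (v : HeightOneSpectrum (𝓞 K)) : GL (Fin 2) K →* GL (Fin 2) (v.adicCompletion K) :=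
  Matrix.GeneralLinearGroup.map (algebraMap K (v.adicCompletion K))

/-- The image of `γ ∈ GL₂(K)` in `GL₂(ℂ)` at the infinite place `w` (the component of `ratG γ`). -/
def archG305 (w : InfinitePlace K) (γ : GL (Fin 2) K) : GL (Fin 2) ℂ :=
  infGL305 w (T5.ratG γ)

/-- `γ` is INTEGRAL outside `S`: in `GL₂(𝒪_v)` for `v ∉ S`. -/
def IntOut305 (S : Finset (HeightOneSpectrum (𝓞 K))) (γ : GL (Fin 2) K) : Prop :=
  ∀ v : HeightOneSpectrum (𝓞 K), v ∉ S → T6.InU 0 (locG305 v γ)

/-- `γ` is GOOD outside `S`: in `GL₂(𝒪_v)` with a unit discriminant for `v ∉ S`. -/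
def GoodOut305 (S : Finset (HeightOneSpectrum (𝓞 K))) (γ : GL (Fin 2) K) : Prop :=
  ∀ v : HeightOneSpectrum (𝓞 K), v ∉ S →
    T6.InU 0 (locG305 v γ) ∧ Valued.v (T6.disc (locG305 v γ)) = 1

/-- The components of `y ∈ GL₂(𝔸_K)` at the places of `S` and at the infinite places. -/
def compS305 (S : Finset (HeightOneSpectrum (𝓞 K))) (y : G K) :
    (∀ v : S, GL (Fin 2) ((v : HeightOneSpectrum (𝓞 K)).adicCompletion K)) ×
      (InfinitePlace K → GL (Fin 2) ℂ) :=
  (fun v => finGL305 v.1 y, fun w => infGL305 w y)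

/-- The components of the pure tensor at the places `v ∉ T` replaced by the unit element. -/
def ext305 (T : Finset (HeightOneSpectrum (𝓞 K)))
    (f₀ : ∀ v : HeightOneSpectrum (𝓞 K), GL (Fin 2) (v.adicCompletion K) → ℂ) :
    ∀ v : HeightOneSpectrum (𝓞 K), GL (Fin 2) (v.adicCompletion K) → ℂ :=
  open Classical in fun v => if v ∈ T then f₀ v else unit305

/-- **LOCAL DATA** for the elliptic element `γ` (downstairs): local Haar measures, Haar measures
of the local tori, local cut-off functions, at all finite places; Haar measures of the tori and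
cut-off functions at the infinite places. -/
structure LocData305 (K : Type) [Field K] [NumberField K] (γ : GL (Fin 2) K) where
  /-- the Haar measure of `GL₂(K_v)` -/
  μv : ∀ v : HeightOneSpectrum (𝓞 K), @Measure (GL (Fin 2) (v.adicCompletion K)) (borel _)
  /-- the Haar measure of the centraliser of `γ` in `GL₂(K_v)` -/
  μt : ∀ v : HeightOneSpectrum (𝓞 K),
    @Measure (T6.twCentSub (T6.glAut (RingEquiv.refl (v.adicCompletion K))) (locG305 v γ))
      (borel _)
  /-- the cut-off function at `v` -/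
  βv : ∀ v : HeightOneSpectrum (𝓞 K), GL (Fin 2) (v.adicCompletion K) → ℝ
  /-- the Haar measure of the centraliser of `γ` in `GL₂(ℂ)` at `w` -/
  μtc : ∀ w : InfinitePlace K, @Measure (cent305 (archG305 w γ)) (borel _)
  /-- the cut-off function at `w` -/
  βc : InfinitePlace K → GL (Fin 2) ℂ → ℝ

/-- The properties of the local data (levels `m`). -/
structure IsLocData305 (m : HeightOneSpectrum (𝓞 K) → ℕ) {γ : GL (Fin 2) K}
    (L : LocData305 K γ) : Prop where
  haar : ∀ v : HeightOneSpectrum (𝓞 K), IsLocHaar305 (m v) (L.μv v)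
  tor : ∀ v : HeightOneSpectrum (𝓞 K),
    IsLocTor305 (RingEquiv.refl (v.adicCompletion K)) (locG305 v γ) (L.μt v)
  cut : ∀ v : HeightOneSpectrum (𝓞 K),
    IsLocCut305 (RingEquiv.refl (v.adicCompletion K)) (locG305 v γ) (L.μt v) (L.βv v)
  torc : ∀ w : InfinitePlace K, @Measure.IsHaarMeasure _ _ _ (borel _) (L.μtc w)
  cutc : ∀ w : InfinitePlace K, IsCut305 (archG305 w γ) (L.μtc w) (L.βc w)

/-- `cT` is THE TORUS CONSTANT of the Haar measure `μT` of `T_𝔸(γ)` against the local torus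
measures of `L`: for every `S` outside which `γ` is good, the image of `μT` restricted to
`{t : t_v ∈ GL₂(𝒪_v), v ∉ S}` under `t ↦ (t_v)_{v ∈ S ∪ S_∞}` is `cT` times the product of the
local torus measures (as measures on the local groups). -/
def IsTorConst305 (γ : GL (Fin 2) K)
    (μT : @Measure (tA305 (T5.AdelicAut.id K) γ) (borel _)) (L : LocData305 K γ) (cT : ℝ) :
    Prop :=
  letI : MeasurableSpace (tA305 (T5.AdelicAut.id K) γ) := borel _
  letI : ∀ v : HeightOneSpectrum (𝓞 K), MeasurableSpace (GL (Fin 2) (v.adicCompletion K)) :=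
    fun _ => borel _
  letI : MeasurableSpace (GL (Fin 2) ℂ) := borel _
  letI : ∀ v : HeightOneSpectrum (𝓞 K), MeasurableSpace
      (T6.twCentSub (T6.glAut (RingEquiv.refl (v.adicCompletion K))) (locG305 v γ)) :=
    fun _ => borel _
  letI : ∀ w : InfinitePlace K, MeasurableSpace (cent305 (archG305 w γ)) := fun _ => borel _
  ∀ S : Finset (HeightOneSpectrum (𝓞 K)), GoodOut305 S γ →
    Measure.map (fun t : tA305 (T5.AdelicAut.id K) γ => compS305 S (t : G K))
        (μT.restrict {t | OutT305 S (t : G K)})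
      = ENNReal.ofReal cT •
        ((Measure.pi fun v : S => Measure.map Subtype.val (L.μt v.1)).prod
          (Measure.pi fun w : InfinitePlace K => Measure.map Subtype.val (L.μtc w)))

open Classical in
/-- THE PRODUCT CUT-OFF `β = c_T⁻¹ 1_{Out_S} ∏_{v ∈ S} β_v ∏_w β_w`. -/
def prodCut305 (S : Finset (HeightOneSpectrum (𝓞 K))) (cT : ℝ) {γ : GL (Fin 2) K}
    (L : LocData305 K γ) (y : G K) : ℝ :=
  if OutT305 S y then
    cT⁻¹ * (∏ v ∈ S, L.βv v (finGL305 v y)) * ∏ w : InfinitePlace K, L.βc w (infGL305 w y)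
  else 0

/-- THE FACTORISED VALUE `∑_j ∏_{v ∈ S} I_v ∏_w I_w(j)`. -/
def factVal305 (r : G K) (S : Finset (HeightOneSpectrum (𝓞 K))) {γ : GL (Fin 2) K}
    (L : LocData305 K γ)
    (f₀ : ∀ v : HeightOneSpectrum (𝓞 K), GL (Fin 2) (v.adicCompletion K) → ℂ)
    (μc : @Measure (GL (Fin 2) ℂ) (borel _)) (F : InfinitePlace K → GL (Fin 2) ℂ → ℂ) : ℂ :=
  ∑' j : ℤ, (∏ v ∈ S, locInt305 (L.μv v) (L.βv v) (f₀ v) (locG305 v γ)) *
    ∏ w : InfinitePlace K, locInt305 μc (L.βc w) (F w) (infGL305 w (T5.ratG γ * r ^ j))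

/-! ### Leaves and the node, one field -/

/-- **LEAF C2.7.1 = LOC-MEAS (abstract local field).**  `GL₂(k)` has a Haar measure with
`μ(U(n)) = 1`; the `s`-twisted centraliser of `δ` (`N δ` regular) has a Haar measure which gives
the volume `1` to its maximal compact subgroup.
Proof.  `k` is locally compact (complete, discrete valuation, finite residue field:
`T6.IsLocalField`), so `GL₂(k)` is a locally compact group and `U(n)` is a compact open subgroup:
`0 < μ(U(n)) < ∞`.  The twisted centraliser is a closed subgroup; `{t : tr t integral, det t a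
unit}` is a compact open subgroup of it (`t` is integral over `𝒪`: entries bounded). -/
def LocMeasC305 : Prop :=
  ∀ (k : Type) [Field k] [Valued k T6.Γ₀] (q : ℕ), T6.IsLocalField k q →
    (∀ n : ℕ, ∃ μ : @Measure (GL (Fin 2) k) (borel _), IsLocHaar305 n μ) ∧
    ∀ (l : ℕ) (s : k ≃+* k), (∀ y : k, Valued.v (s y) = Valued.v y) → 0 < l →
      (∀ y : k, (s ^ l) y = y) →
      ∀ δ : GL (Fin 2) k, T6.IsReg (T6.twNorm s l δ) →
        ∃ μT : @Measure (T6.twCentSub (T6.glAut s) δ) (borel _), IsLocTor305 s δ μT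

/-- **LEAF C2.7.2 = LOC-CUT (abstract local field).**  Continuous cut-off functions exist for
the twisted centralisers (`N δ` regular) and every Haar measure of them.
Proof.  `exists_cutoff584` (helper584, `T7/H584/Cutoff.lean`, Mathlib only): `GL₂(k)` is locally
compact, `σ`-compact, the twisted centraliser is closed and commutative (helper159
`comm_of_inTwCent159`), so its Haar measure is right invariant. -/
def LocCutC305 : Prop :=
  ∀ (k : Type) [Field k] [Valued k T6.Γ₀] (q : ℕ), T6.IsLocalField k q →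
    ∀ (l : ℕ) (s : k ≃+* k), (∀ y : k, Valued.v (s y) = Valued.v y) → 0 < l →
      (∀ y : k, (s ^ l) y = y) →
      ∀ δ : GL (Fin 2) k, T6.IsReg (T6.twNorm s l δ) →
      ∀ μT : @Measure (T6.twCentSub (T6.glAut s) δ) (borel _),
        @Measure.IsHaarMeasure _ _ _ (borel _) μT → ∃ β : GL (Fin 2) k → ℝ, IsLocCut305 s δ μT β

/-- **LEAF C2.7.3 = ARCH-MEAS (`GL₂(ℂ)`).**  The centraliser of a regular element of `GL₂(ℂ)`
has a Haar measure, and for every Haar measure of it there is a continuous cut-off function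
(`exists_cutoff584`; the centraliser is closed and commutative). -/
def ArchMeasC305 : Prop :=
  ∀ γ : GL (Fin 2) ℂ, T6.IsReg γ →
    (∃ μT : @Measure (cent305 γ) (borel _), @Measure.IsHaarMeasure _ _ _ (borel _) μT) ∧
    ∀ μT : @Measure (cent305 γ) (borel _), @Measure.IsHaarMeasure _ _ _ (borel _) μT →
      ∃ β : GL (Fin 2) ℂ → ℝ, IsCut305 γ μT β

variable (K)

/-- **ASSET LEAF C2.7.4 = HAAR-SPLIT (ONE field; the Haar measure of `GL₂(𝔸_K)` against the local
measures).**  `K` totally complex, `μ` a Haar measure of `GL₂(𝔸_K)`, `μc` one of `GL₂(ℂ)`, levels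
`m` (`0` outside `T₀`).  There is a constant `0 < c < ∞` such that for EVERY finite `S ⊇ T₀` and
local Haar measures `μ_v` with `μ_v(U(m_v)) = 1`: the image of `μ` restricted to
`{y : y_v ∈ GL₂(𝒪_v), v ∉ S}` under `y ↦ (y_v)_{v ∈ S ∪ S_∞}` is `c` times the product measure.
Proof.  `Out_S = {y : y_v ∈ GL₂(𝒪_v), v ∉ S}` is an open subgroup, the map is a continuous
surjective homomorphism `Out_S → ∏_{v ∈ S} GL₂(K_v) × ∏_w GL₂(ℂ)` with COMPACT kernel
`∏_{v ∉ S} GL₂(𝒪_v)` (proper: the adelic topology on `Out_S` is the product topology), so the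
image of `μ` is a Haar measure: `c_S` times the product measure (uniqueness of the Haar
measure, second countable).  Evaluate on `∏_{v ∈ S} U(m_v) × B`: the preimage is
`∏_{v ∈ T₀} U(m_v) × ∏_{v ∉ T₀} GL₂(𝒪_v) × B` for all `S` (`U(0) = GL₂(𝒪_v)`), so `c_S` does not
depend on `S`. -/
def HaarSplitC305 : Prop :=
  TotCplx K → ∀ μ : Measure (G K), μ.IsHaarMeasure →
    ∀ μc : @Measure (GL (Fin 2) ℂ) (borel _), @Measure.IsHaarMeasure _ _ _ (borel _) μc →
    ∀ (T₀ : Finset (HeightOneSpectrum (𝓞 K))) (m : HeightOneSpectrum (𝓞 K) → ℕ),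
      (∀ v : HeightOneSpectrum (𝓞 K), v ∉ T₀ → m v = 0) →
    ∃ c : ℝ, 0 < c ∧
      ∀ S : Finset (HeightOneSpectrum (𝓞 K)), T₀ ⊆ S →
      ∀ μv : ∀ v : HeightOneSpectrum (𝓞 K), @Measure (GL (Fin 2) (v.adicCompletion K)) (borel _),
        (∀ v : HeightOneSpectrum (𝓞 K), IsLocHaar305 (m v) (μv v)) →
        letI : ∀ v : HeightOneSpectrum (𝓞 K),
            MeasurableSpace (GL (Fin 2) (v.adicCompletion K)) := fun _ => borel _
        letI : MeasurableSpace (GL (Fin 2) ℂ) := borel _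
        Measure.map (compS305 S) (μ.restrict {y | OutT305 S y})
          = ENNReal.ofReal c •
            ((Measure.pi fun v : S => μv v.1).prod
              (Measure.pi fun _ : InfinitePlace K => μc))

/-- **LEAF C2.7.5 = TOR-SPLIT (ONE field; the torus constant exists).**  `K` totally complex,
`γ` elliptic, `μT` a Haar measure of `T_𝔸(γ)`, local torus measures (normalised at the finite
places, arbitrary Haar measures at the infinite places): there is a torus constant `c_T > 0`.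
Proof.  As `HaarSplitC305`, for the restricted product `T_𝔸(γ)` of the local centralisers
`T_v` with respect to `T_v ∩ GL₂(𝒪_v)`; for `γ` good at `v` the latter is the maximal compact
subgroup `{tr, det integral, det a unit}` of `T_v` (helper159 `cent_compact159`), of volume `1`:
the constant does not depend on the good set `S`. -/
def TorSplitC305 : Prop :=
  TotCplx K → ∀ γ : GL (Fin 2) K, T6.IsEll γ →
    ∀ μT : @Measure (tA305 (T5.AdelicAut.id K) γ) (borel _),
      @Measure.IsHaarMeasure _ _ _ (borel _) μT →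
    ∀ L : LocData305 K γ,
      (∀ v : HeightOneSpectrum (𝓞 K),
        IsLocTor305 (RingEquiv.refl (v.adicCompletion K)) (locG305 v γ) (L.μt v)) →
      (∀ w : InfinitePlace K, @Measure.IsHaarMeasure _ _ _ (borel _) (L.μtc w)) →
      ∃ cT : ℝ, 0 < cT ∧ IsTorConst305 γ μT L cT

/-- **ASSET LEAF C2.7.6 = SUPP-DOWN (ONE field; the support of the integrand).**  If `γ` is good
outside `S` and `x⁻¹ γ x` is in `GL₂(𝒪_v)` for `v ∉ S`, then `x = t x'` with `t ∈ T_𝔸(γ)` and
`x'_v ∈ GL₂(𝒪_v)` for `v ∉ S`.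
Proof.  Local statement: helper159 `goodUnit_down159`; `x_v ∈ GL₂(𝒪_v)` for almost all `v`: put
`t_v = 1` there; the `t_v` (finitely many `≠ 1`) define an element of `GL₂(𝔸_K)`. -/
def SuppDownC305 : Prop :=
  ∀ (γ : GL (Fin 2) K) (S : Finset (HeightOneSpectrum (𝓞 K))), GoodOut305 S γ →
    ∀ x : G K, OutT305 S (x⁻¹ * T5.ratG γ * x) →
      ∃ t : G K, t ∈ tA305 (T5.AdelicAut.id K) γ ∧ OutT305 S (t⁻¹ * x)

/-- **NODE C2.7.7 = FACT-DOWN (ONE field; the factorisation downstairs).**  See the header,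
step 5.  The constant `c_G` depends on `μ`, `μc`, `T₀`, `m` only.
Proof.  (cut-off) `SuppDownC305`, right invariance of `μT` (`TorCommC305`, closed by helper233),
`IsTorConst305`, Fubini for the finite product (`MeasureTheory.integral_fintype_prod_eq_prod`).
(integral) the sum over the ray is a finite sum (`‖det (g r^j)‖ = 2^j ‖det g‖`, helper584
`continuous_twTerm584`); for `y ∈ Out_S`: `y⁻¹ γ r^j y ∈ Out_S` (`γ` integral outside `S`), so
the integrand is the product of the local integrands; `HaarSplitC305`, Fubini.  All local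
integrands are integrable: `T6.OrbSumIntC` at the finite places (finite orbit sums), closed
orbits of regular elements at the infinite places. -/
def FactDownC305 : Prop :=
  TotCplx K → ∀ R : Frame5 K, IsFrame5 R →
    ∀ μc : @Measure (GL (Fin 2) ℂ) (borel _), @Measure.IsHaarMeasure _ _ _ (borel _) μc →
    ∀ (T₀ : Finset (HeightOneSpectrum (𝓞 K))) (m : HeightOneSpectrum (𝓞 K) → ℕ),
      (∀ v : HeightOneSpectrum (𝓞 K), v ∉ T₀ → m v = 0) →
    ∃ cG : ℝ, 0 < cG ∧
      ∀ S : Finset (HeightOneSpectrum (𝓞 K)), T₀ ⊆ S →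
      ∀ (f₀ : ∀ v : HeightOneSpectrum (𝓞 K), GL (Fin 2) (v.adicCompletion K) → ℂ)
        (F : InfinitePlace K → GL (Fin 2) ℂ → ℂ),
        (∀ v ∈ S, T6.IsBiInv (T6.InU (m v)) (f₀ v) ∧ T6.HasFinSupp (T6.InU (m v)) (f₀ v)) →
        (∀ w : InfinitePlace K, Continuous (F w) ∧ HasCompactSupport (F w)) →
      ∀ γ : GL (Fin 2) K, T6.IsEll γ → GoodOut305 S γ →
      ∀ μT : @Measure (tA305 (T5.AdelicAut.id K) γ) (borel _),
        @Measure.IsHaarMeasure _ _ _ (borel _) μT →
      ∀ (L : LocData305 K γ) (cT : ℝ), IsLocData305 m L → 0 < cT → IsTorConst305 γ μT L cT →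
        IsCutOn305 (T5.AdelicAut.id K) γ μT (prodCut305 S cT L)
            {x | T5.twTerm R.r (T5.AdelicAut.id K) (pure305 S f₀ F) γ x ≠ 0} ∧
          cutInt305 R.r (T5.AdelicAut.id K) (pure305 S f₀ F) γ R.μ (prodCut305 S cT L)
            = ((cG / cT : ℝ) : ℂ) * factVal305 R.r S L f₀ μc F

/-- **LEAF C2.7.8 = PURE-EXT (ONE field, elementary).**  The pure tensor does not change if `T`
is enlarged and the new components are the unit elements. -/
def PureExtC305 : Prop :=
  ∀ (T S : Finset (HeightOneSpectrum (𝓞 K))), T ⊆ S →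
    ∀ (f₀ : ∀ v : HeightOneSpectrum (𝓞 K), GL (Fin 2) (v.adicCompletion K) → ℂ)
      (F : InfinitePlace K → GL (Fin 2) ℂ → ℂ) (h : G K),
      pure305 S (ext305 T f₀) F h = pure305 T f₀ F h

end OneFieldCut

/-! ## 3. Local vanishing (abstract local field) -/

/-- **LEAF C2.7.9 = LOC-VAN (abstract local field).**  If all orbit sums of `f` at the regular
element `γ` vanish, the local cut-off integral vanishes.
Proof.  `T6.OrbSumExC` (for `k' = k`, `l = e = 1`, `s = 1`) gives an orbit sum `c'`; `c' = 0`;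
`T6.OrbSumIntC` (for `l = 1`): the integral is `c'`. -/
def LocVanC305 : Prop :=
  T6.T6Out →
  ∀ (k : Type) [Field k] [Valued k T6.Γ₀] (q : ℕ), T6.IsLocalField k q →
    ∀ (n : ℕ) (f : GL (Fin 2) k → ℂ), T6.IsBiInv (T6.InU n) f → T6.HasFinSupp (T6.InU n) f →
    ∀ γ : GL (Fin 2) k, T6.IsReg γ → (∀ c' : ℂ, T6.IsOrbSum n f γ c' → c' = 0) →
    ∀ μ : @Measure (GL (Fin 2) k) (borel _), IsLocHaar305 n μ →
    ∀ μT : @Measure (T6.twCentSub (T6.glAut (RingEquiv.refl k)) γ) (borel _),
      IsLocTor305 (RingEquiv.refl k) γ μT →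
    ∀ β : GL (Fin 2) k → ℝ, IsLocCut305 (RingEquiv.refl k) γ μT β →
      locInt305 μ β f γ = 0

/-! ## 4. Two fields -/

section TwoFieldsCut

variable (K K' : Type) [Field K] [NumberField K] [Field K'] [NumberField K'] [Algebra K K']

/-- **LEAF C2.7.10 = GOOD-SET.**  For `γ` elliptic, `δ ∈ GL₂(K')` and a finite set `T` there is a
finite set `S ⊇ T` with the set `S'` of the places over it such that `γ` is good outside `S` and
`δ` is integral outside `S'`.
Proof.  The entries of `γ`, `γ⁻¹`, `δ`, `δ⁻¹` and the inverse of the discriminant of `γ` are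
integral at almost all places (finitely many prime divisors of the denominators); finitely many
places of `K'` lie over a place of `K` (`Ideal.finite_factors` of `v 𝓞_{K'}`). -/
def GoodSetC305 : Prop :=
  ∀ (γ : GL (Fin 2) K) (δ : GL (Fin 2) K'), T6.IsEll γ →
    ∀ T : Finset (HeightOneSpectrum (𝓞 K)),
      ∃ (S : Finset (HeightOneSpectrum (𝓞 K))) (S' : Finset (HeightOneSpectrum (𝓞 K'))),
        T ⊆ S ∧ IsOver305 S S' ∧ GoodOut305 S γ ∧ IntOut305 S' δ

/-- **LEAF C2.7.11 = UNIT-MATCH (the fundamental lemma for the unit element).**  If `T₀ ⊆ T ⊆ S`,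
the places outside `T₀` are unramified and the levels are `0` there: the local hypotheses for
`T` give the local hypotheses for `S` with unit components at the new places.
Proof.  `v ∈ S \ T`.  Invariance, finite support: clear.  `split`: the levels are `0`, the
convolution of unit elements is the unit element (`vol = 1`: one coset), `unit ∘ i_j = unit`
(`i_j` preserves the valuation).  `inert`: `e = 1` (`v` is unramified: evaluate `val_i` at the
element of `UnramOut305`), `T6.FundLemmaC` for the unit element (`T6.IsBC l q unit unit`, helper159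
`isBC_unitFn159`, `unitFn_apply159`) with `T6.InstLocalC` and the norm of `w` from `T6.InstExtC`
(uniqueness of `q`: the residue field). -/
def UnitMatchC305 : Prop :=
  T6.T6Out →
  ∀ D : CompData K K', IsCompData D → IsCycExt K K' D.l → D.l ≠ 2 → TotCplx K →
    ∀ μc : @Measure (GL (Fin 2) ℂ) (borel _), @Measure.IsHaarMeasure _ _ _ (borel _) μc →
    ∀ (T₀ : Finset (HeightOneSpectrum (𝓞 K))), UnramOut305 (K' := K') T₀ →
    ∀ (n : HeightOneSpectrum (𝓞 K') → ℕ) (m : HeightOneSpectrum (𝓞 K) → ℕ),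
      IsLevelAt305 T₀ n m →
    ∀ (T S : Finset (HeightOneSpectrum (𝓞 K))) (T' S' : Finset (HeightOneSpectrum (𝓞 K'))),
      T₀ ⊆ T → T ⊆ S → IsOver305 T T' → IsOver305 S S' →
    ∀ (φ₀ : ∀ w : HeightOneSpectrum (𝓞 K'), GL (Fin 2) (w.adicCompletion K') → ℂ)
      (Φ : InfinitePlace K' → GL (Fin 2) ℂ → ℂ)
      (f₀ : ∀ v : HeightOneSpectrum (𝓞 K), GL (Fin 2) (v.adicCompletion K) → ℂ)
      (F : InfinitePlace K → GL (Fin 2) ℂ → ℂ),
      LocHyp305 D μc T n m φ₀ Φ f₀ F →
      LocHyp305 D μc S n m (ext305 T' φ₀) Φ (ext305 T f₀) F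

/-- **LEAF C2.7.12 = NON-NORM-LOC.**  An elliptic `γ` which is not a norm is not a local norm at
a finite place `v` with ONE place `w` above it, for some local extension datum `(e, i, s_w)`.
Proof.  `T6.NormImageTCC` (contrapositive): there is a finite place `v` at which `γ` is not a
norm in `GL₂(K' ⊗_K K_v)`.  If `v` splits, `K' ⊗ K_v = K_v^l` with the cyclic shift and every
element is a norm (`δ = (γ, 1, …, 1)`); so there is one place `w` over `v` (`l` is prime),
`K' ⊗ K_v = K'_w`, and `T6.InstExtC` gives `(e, i, s_w)`. -/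
def NonNormLocC305 : Prop :=
  T6.T6Out →
  ∀ D : CompData K K', IsCompData D → IsCycExt K K' D.l → D.l ≠ 2 → TotCplx K →
    ∀ γ : GL (Fin 2) K, T6.IsEll γ → (¬ ∃ δ : GL (Fin 2) K', IsNormOf D δ γ) →
      ∃ (v : HeightOneSpectrum (𝓞 K)) (w : HeightOneSpectrum (𝓞 K')) (e : ℕ)
        (i : v.adicCompletion K →+* w.adicCompletion K')
        (sw : w.adicCompletion K' ≃+* w.adicCompletion K'),
        PlaceOver K K' v w ∧
        (∀ w' : HeightOneSpectrum (𝓞 K'), PlaceOver K K' v w' → w' = w) ∧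
        (∀ x : K, i (algebraMap K (v.adicCompletion K) x)
          = algebraMap K' (w.adicCompletion K') (algebraMap K K' x)) ∧
        (∀ y : K', sw (algebraMap K' (w.adicCompletion K') y)
          = algebraMap K' (w.adicCompletion K') (D.s.σ y)) ∧
        T6.IsLocalExt (v.adicCompletion K) (w.adicCompletion K') D.l e i sw ∧
        ¬ T6.IsNormFrom D.l i sw (locG305 v γ)

/-- **NODE C2.7.13 = FACT-UP (the factorisation upstairs, with local matching).**  See the
header, step 6.  The constant `c'_G` depends on `D`, `ι`, `μc`, `T₀`, `n`, `m` only.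
Proof.  `β' = c_T⁻¹ 1_{Out_{S'}} ∏_{v ∈ S} β'_v ∏_{v ∣ ∞} β'_v`: at an inert or ramified `v` a
continuous cut-off function `β'_v` on `GL₂(K'_w)` for the twisted centraliser with the image of
`μt_v` (normalised: `i⁻¹(T'^c) = T^c`); at a split `v` and at the infinite places
`β'_v(y) = β_v(y_{w₀})` in the coordinates of `K_v`.  Cut-off property: `IsTorLinked305`,
`IsTorConst305`, the support upstairs (`helper159`: `goodUnit_split159`, `GoodUnitTw.lean`).
Integral: `HaarSplitC305 K'` (levels `n`), Fubini grouped by the places of `K`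
(`SigmaLocC305`: `(σ y)_w = s(y_{σ⁻¹ w})`), and the LOCAL EQUALITIES `I'_v = I_v`:
* inert/ramified: `T6.OrbSumExC`, `T6.OrbSumIntC` on both sides, `LocHyp305.inert`;
* split: the split integral identity for general `l` (helper159 `iterL_eq159`, helper584
  `iterInt_eq_rconv584`), `LocHyp305.split` (`T6.IsConvProd` is the convolution for the measure
  with `vol U = 1`);
* infinite: the same with `LocHyp305.arch`; `(r'^j)^l`-component `= r^j`-component
  (`t'^l = t`), complex conjugation preserves `μc` and the `Φ_w`. -/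
def FactUpC305 : Prop :=
  T6.T6Out →
  ∀ D : CompData K K', IsCompData D → IsCycExt K K' D.l → D.l ≠ 2 → TotCplx K →
    ∀ ι : Adl K →+* Adl K', IsAdeleBase305 D.s D.l ι →
    ∀ μc : @Measure (GL (Fin 2) ℂ) (borel _), @Measure.IsHaarMeasure _ _ _ (borel _) μc →
    ∀ (T₀ : Finset (HeightOneSpectrum (𝓞 K))), UnramOut305 (K' := K') T₀ →
    ∀ (n : HeightOneSpectrum (𝓞 K') → ℕ) (m : HeightOneSpectrum (𝓞 K) → ℕ),
      IsLevelAt305 T₀ n m →
    ∃ cG' : ℝ, 0 < cG' ∧
      ∀ (S : Finset (HeightOneSpectrum (𝓞 K))) (S' : Finset (HeightOneSpectrum (𝓞 K'))),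
        T₀ ⊆ S → IsOver305 S S' →
      ∀ (φ₀ : ∀ w : HeightOneSpectrum (𝓞 K'), GL (Fin 2) (w.adicCompletion K') → ℂ)
        (Φ : InfinitePlace K' → GL (Fin 2) ℂ → ℂ)
        (f₀ : ∀ v : HeightOneSpectrum (𝓞 K), GL (Fin 2) (v.adicCompletion K) → ℂ)
        (F : InfinitePlace K → GL (Fin 2) ℂ → ℂ),
        LocHyp305 D μc S n m φ₀ Φ f₀ F →
      ∀ (δ : GL (Fin 2) K') (γ : GL (Fin 2) K), T6.IsEll γ →
        D.s.normUpTo D.l δ = Matrix.GeneralLinearGroup.map (algebraMap K K') γ →
        GoodOut305 S γ → IntOut305 S' δ →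
      ∀ (μT : @Measure (tA305 (T5.AdelicAut.id K) γ) (borel _))
        (μT' : @Measure (tA305 D.s δ) (borel _)),
        @Measure.IsHaarMeasure _ _ _ (borel _) μT →
        @Measure.IsHaarMeasure _ _ _ (borel _) μT' →
        IsTorLinked305 ι D.s δ γ μT μT' →
      ∀ (L : LocData305 K γ) (cT : ℝ), IsLocData305 m L → 0 < cT → IsTorConst305 γ μT L cT →
        ∃ β' : G K' → ℝ,
          IsCutOn305 D.s δ μT' β'
              {x | T5.twTerm D.R'.r D.s (pure305 S' φ₀ Φ) δ x ≠ 0} ∧
            cutInt305 D.R'.r D.s (pure305 S' φ₀ Φ) δ D.R'.μ β'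
              = ((cG' / cT : ℝ) : ℂ) * factVal305 D.R.r S L f₀ μc F

end TwoFieldsCut

end Fermat.Agent.LT.T7.H305

end

end
-- ===== PACK-END LT/T7/H305/MatchCut.lean

-- ===== PACK-BEGIN LT/T7/H305/MatchTop.lean
section



/-!
# Row LT, tower T7, field `matched` of `SupplyC` (deputy helper305): FIRST CUT -- the proved top

OFF-MAIN.  Complete proof, nothing assumed.

    globMatch_of305 : IotaC305 K K' → UnfoldC305 K → UnfoldC305 K' → TorCommC305 K →
        TorCommC305 K' → TwistRepC305 K' → EllRegC305 K K' → TorHaarC305 K → TorMeasC305 K K' →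
        TorCompC305 K K' → CutIntC305 K K' → GlobMatchC305 K K'

The constant of the node is `κ = κ₀ / l`, `κ₀` the constant of `CutIntC305`.
-/

set_option autoImplicit false

open AutomorphicForm IsDedekindDomain NumberField MeasureTheory
open scoped ComplexConjugate

noncomputable section

namespace Fermat.Agent.LT.T7.H305

open Fermat.Agent.LT.H556 Fermat.Agent.LT.H556.A0 Fermat.Agent.LT.T7

attribute [local instance] Fermat.Agent.LT.T5.instMeasurableSpaceG

section Lemmas

variable {K : Type} [Field K] [NumberField K]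

theorem twTerm_const_mul305 (r : G K) (s : T5.AdelicAut K) (κ : ℂ) (g : G K → ℂ)
    (δ : GL (Fin 2) K) (x : G K) :
    T5.twTerm r s (fun h => κ * g h) δ x = κ * T5.twTerm r s g δ x := by
  unfold T5.twTerm T5.flat
  exact tsum_mul_left

theorem cutInt_const_mul305 (r : G K) (s : T5.AdelicAut K) (κ : ℂ) (g : G K → ℂ)
    (δ : GL (Fin 2) K) (μ : Measure (G K)) (β : G K → ℝ) :
    cutInt305 r s (fun h => κ * g h) δ μ β = κ * cutInt305 r s g δ μ β := by
  unfold cutInt305
  rw [← integral_const_mul]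
  refine integral_congr_ae (Filter.Eventually.of_forall fun y => ?_)
  simp only [twTerm_const_mul305]
  ring

theorem supp_const_mul305 (r : G K) (s : T5.AdelicAut K) {κ : ℂ} (hκ : κ ≠ 0) (g : G K → ℂ)
    (δ : GL (Fin 2) K) :
    {x | T5.twTerm r s (fun h => κ * g h) δ x ≠ 0} = {x | T5.twTerm r s g δ x ≠ 0} := by
  ext x
  simp only [Set.mem_setOf_eq, twTerm_const_mul305, ne_eq, mul_eq_zero, hκ, false_or]

end Lemmas

variable {K K' : Type} [Field K] [NumberField K] [Field K'] [NumberField K'] [Algebra K K']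

/-- **THE TOP OF THE FIRST CUT**: global matching from local matching. -/
theorem globMatch_of305 (hι : IotaC305 K K') (hU : UnfoldC305 K) (hU' : UnfoldC305 K')
    (hTc : TorCommC305 K) (hTc' : TorCommC305 K')
    (hRep : TwistRepC305 K') (hEll : EllRegC305 K K') (hHaar : TorHaarC305 K)
    (hMeas : TorMeasC305 K K') (hComp : TorCompC305 K K') (hCut : CutIntC305 K K') :
    GlobMatchC305 K K' := by
  intro D hD hcyc hl hcplx μc hμc T₀ hram n m hlev
  obtain ⟨ι, hιD⟩ := hι D hD hcyc hcplx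
  obtain ⟨κ₀, hκ₀, hC⟩ := hCut D hD hcyc hl hcplx ι hιD μc hμc T₀ hram n m hlev
  have hl0 : ((D.l : ℕ) : ℂ) ≠ 0 := by
    exact_mod_cast hcyc.prime.ne_zero
  refine ⟨κ₀ / (D.l : ℂ), div_ne_zero hκ₀ hl0, ?_⟩
  intro T T' hTT hT' φ₀ Φ f₀ F hloc φ' f hφ' hf htφ' htf
  obtain ⟨hnorm, hnon⟩ := hC T T' hTT hT' φ₀ Φ f₀ F hloc
  have eφ' : φ' = pure305 T' φ₀ Φ := funext hφ'
  have ef : f = fun h => κ₀ / (D.l : ℂ) * pure305 T f₀ F h := funext hf
  have hκ : κ₀ / (D.l : ℂ) ≠ 0 := div_ne_zero hκ₀ hl0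
  constructor
  · intro δ γ hγ hN Fδ Fγ hFδ hFγ
    obtain ⟨δ₁, Fδ₁, hN₁, hFδ₁, hint⟩ :=
      hRep D.R' hD.frame' D.s D.l D.k D.𝔑 hD.cyc hD.aut δ
        (Matrix.GeneralLinearGroup.map (algebraMap K K') γ) hN Fδ hFδ
    rw [← hint φ']
    obtain ⟨μT, μT', hμT, hμT', hlink⟩ := hMeas D hD hcyc hcplx ι hιD δ₁ γ hγ hN₁
    obtain ⟨β', β, hβ', hβ, hCI⟩ := hnorm δ₁ γ hγ hN₁ μT μT' hμT hμT' hlink
    have hreg := hEll D hD γ hγ
    have e1 := hU' D.R' hD.frame' D.s D.l D.k D.𝔑 hD.cyc hD.aut δ₁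
      (by rw [hN₁]; exact hreg.1) φ' htφ' Fδ₁ hFδ₁
      (hTc' D.R' hD.frame' D.s D.l D.k D.𝔑 hD.cyc hD.aut δ₁ (by rw [hN₁]; exact hreg.1))
      μT' hμT' β' (by rw [eφ']; exact hβ')
    have e2 := hU D.R hD.frame (T5.AdelicAut.id K) 1 ⊤ D.𝔫 T5.isCyclicOfDegree_id
      (T5.autPreserves_id D.𝔫 D.R.μ D.R.r) γ hreg.2 f htf Fγ hFγ
      (hTc D.R hD.frame (T5.AdelicAut.id K) 1 ⊤ D.𝔫 T5.isCyclicOfDegree_id
        (T5.autPreserves_id D.𝔫 D.R.μ D.R.r) γ hreg.2)
      μT hμT β
      (by rw [ef, supp_const_mul305 _ _ hκ]; exact hβ)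
    have e3 := hComp D hD hcyc hcplx ι hιD δ₁ γ hγ hN₁ Fδ₁ Fγ hFδ₁ hFγ μT μT' hμT hμT' hlink
    rw [e1, e2, e3, eφ', hCI, ef, cutInt_const_mul305, ENNReal.toReal_mul]
    simp only [ENNReal.toReal_natCast]
    push_cast
    field_simp
  · intro γ hγ hno Fγ hFγ
    obtain ⟨μT, hμT⟩ := hHaar (T5.AdelicAut.id K) γ
    obtain ⟨β, hβ, hCI⟩ := hnon γ hγ hno μT hμT
    have hreg := hEll D hD γ hγ
    have e2 := hU D.R hD.frame (T5.AdelicAut.id K) 1 ⊤ D.𝔫 T5.isCyclicOfDegree_id
      (T5.autPreserves_id D.𝔫 D.R.μ D.R.r) γ hreg.2 f htf Fγ hFγ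
      (hTc D.R hD.frame (T5.AdelicAut.id K) 1 ⊤ D.𝔫 T5.isCyclicOfDegree_id
        (T5.autPreserves_id D.𝔫 D.R.μ D.R.r) γ hreg.2)
      μT hμT β
      (by rw [ef, supp_const_mul305 _ _ hκ]; exact hβ)
    rw [e2, ef, cutInt_const_mul305, hCI]
    simp

end Fermat.Agent.LT.T7.H305

end

end
-- ===== PACK-END LT/T7/H305/MatchTop.lean

-- ===== PACK-BEGIN LT/T7/H233/TorComm.lean
section




/-!
# Row LT, tower T7, leaf T7.L2.1.C2.1b `H305.TorCommC305` (helper233, SPARE of row 2360)

OFF-MAIN.  PROVED VERBATIM: `torCommC233 (K) : H305.TorCommC305 K` -- the twisted centraliser of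
`δ` in `GL₂(𝔸_K)` is commutative if `N δ` is elliptic regular.  No hole, nothing assumed.
ADDITIVE (new names only, suffix `233`).

Route: `σ_𝔸^l = 1` (`T5.H415.onG_iterate415`, helper415), so `x⁻¹ δ σ(x) = δ` gives
`x⁻¹ N(δ) x = N(δ)`; the discriminant of `N δ` is not zero (the characteristic polynomial is the
image of an irreducible polynomial, which is not a square), hence a unit of `𝔸_K`; two matrices
which commute with a `2 × 2` matrix with invertible discriminant over a commutative ring commute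
(`comm_of_comm_disc233`, Cramer, MATHLIB ONLY).
-/

set_option autoImplicit false

open AutomorphicForm IsDedekindDomain NumberField MeasureTheory

noncomputable section

namespace Fermat.Agent.LT.T7.H233

open Fermat.Agent.LT.H556 Fermat.Agent.LT.H556.A0 Fermat.Agent.LT.T7

/-! ## 1. Cramer (Mathlib only) -/

theorem eq_zero_of_sq_mul233 {A : Type*} [CommRing A] {D Di X : A} (hDi : D * Di = 1)
    (h : D ^ 2 * X = 0) : X = 0 := by
  linear_combination Di ^ 2 * h - X * (D * Di + 1) * hDi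

/-- The coordinates `(t, q, r)` of a matrix commuting with `g` are proportional to those of
`g`, with the factor `μ / D`. -/
theorem prop_of_comm233 {A : Type*} [CommRing A] (g x : Matrix (Fin 2) (Fin 2) A)
    (hx : x * g = g * x) :
    (x 0 0 - x 1 1) * ((g 0 0 - g 1 1) ^ 2 + 4 * g 0 1 * g 1 0)
        = ((x 0 0 - x 1 1) * (g 0 0 - g 1 1) + 2 * x 0 1 * g 1 0 + 2 * x 1 0 * g 0 1)
          * (g 0 0 - g 1 1) ∧
      x 0 1 * ((g 0 0 - g 1 1) ^ 2 + 4 * g 0 1 * g 1 0)
        = ((x 0 0 - x 1 1) * (g 0 0 - g 1 1) + 2 * x 0 1 * g 1 0 + 2 * x 1 0 * g 0 1)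
          * g 0 1 ∧
      x 1 0 * ((g 0 0 - g 1 1) ^ 2 + 4 * g 0 1 * g 1 0)
        = ((x 0 0 - x 1 1) * (g 0 0 - g 1 1) + 2 * x 0 1 * g 1 0 + 2 * x 1 0 * g 0 1)
          * g 1 0 := by
  have e00 := congrFun (congrFun hx 0) 0
  have e01 := congrFun (congrFun hx 0) 1
  have e10 := congrFun (congrFun hx 1) 0
  simp only [Matrix.mul_apply, Fin.sum_univ_two] at e00 e01 e10
  refine ⟨?_, ?_, ?_⟩
  · linear_combination (2 * g 1 0) * e01 + (-2 * g 0 1) * e10
  · linear_combination (-(g 0 0 - g 1 1)) * e01 + (2 * g 0 1) * e00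
  · linear_combination (g 0 0 - g 1 1) * e10 + (-2 * g 1 0) * e00

/-- **Cramer.**  Two matrices which commute with a `2 × 2` matrix with invertible discriminant
over a commutative ring commute. -/
theorem comm_of_comm_disc233 {A : Type*} [CommRing A] (g x y : Matrix (Fin 2) (Fin 2) A)
    (hD : IsUnit ((g 0 0 - g 1 1) ^ 2 + 4 * g 0 1 * g 1 0))
    (hx : x * g = g * x) (hy : y * g = g * y) : x * y = y * x := by
  obtain ⟨Di, hDi⟩ := hD.exists_right_inv
  obtain ⟨ht, hq, hr⟩ := prop_of_comm233 g x hx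
  obtain ⟨ht', hq', hr'⟩ := prop_of_comm233 g y hy
  set D := (g 0 0 - g 1 1) ^ 2 + 4 * g 0 1 * g 1 0 with hDdef
  set μ := (x 0 0 - x 1 1) * (g 0 0 - g 1 1) + 2 * x 0 1 * g 1 0 + 2 * x 1 0 * g 0 1
  set μ' := (y 0 0 - y 1 1) * (g 0 0 - g 1 1) + 2 * y 0 1 * g 1 0 + 2 * y 1 0 * g 0 1
  have h1 : x 0 1 * y 1 0 - y 0 1 * x 1 0 = 0 := by
    apply eq_zero_of_sq_mul233 hDi
    linear_combination (y 1 0 * D) * hq + (μ * g 0 1) * hr' - (x 1 0 * D) * hq'
      - (μ' * g 0 1) * hr
  have h2 : (x 0 0 - x 1 1) * y 0 1 - (y 0 0 - y 1 1) * x 0 1 = 0 := by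
    apply eq_zero_of_sq_mul233 hDi
    linear_combination (y 0 1 * D) * ht + (μ * (g 0 0 - g 1 1)) * hq' - (x 0 1 * D) * ht'
      - (μ' * (g 0 0 - g 1 1)) * hq
  have h3 : x 1 0 * (y 0 0 - y 1 1) - y 1 0 * (x 0 0 - x 1 1) = 0 := by
    apply eq_zero_of_sq_mul233 hDi
    linear_combination ((y 0 0 - y 1 1) * D) * hr + (μ * g 1 0) * ht'
      - ((x 0 0 - x 1 1) * D) * hr' - (μ' * g 1 0) * ht
  ext i j
  fin_cases i <;> fin_cases j
  · simp only [Fin.zero_eta, Matrix.mul_apply, Fin.sum_univ_two]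
    linear_combination h1
  · simp only [Fin.zero_eta, Fin.mk_one, Matrix.mul_apply, Fin.sum_univ_two]
    linear_combination h2
  · simp only [Fin.zero_eta, Fin.mk_one, Matrix.mul_apply, Fin.sum_univ_two]
    linear_combination h3
  · simp only [Fin.mk_one, Matrix.mul_apply, Fin.sum_univ_two]
    linear_combination (-1 : A) * h1

/-! ## 2. The discriminant of an elliptic regular element -/

/-- The discriminant of a matrix whose characteristic polynomial is the image of an irreducible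
polynomial over a subfield is not zero. -/
theorem disc_ne_zero233 {F : Type*} [Field F] [CharZero F] (k : Subfield F)
    (M : Matrix (Fin 2) (Fin 2) F)
    (h : ∃ Q : Polynomial k, Irreducible Q ∧ Q.map (algebraMap k F) = M.charpoly) :
    (M 0 0 - M 1 1) ^ 2 + 4 * M 0 1 * M 1 0 ≠ 0 := by
  obtain ⟨Q, hQ, hmap⟩ := h
  intro h0
  have hinj : Function.Injective (algebraMap k F) := (algebraMap k F).injective
  have hc := Matrix.charpoly_fin_two M
  have htr : M.trace = M 0 0 + M 1 1 := Matrix.trace_fin_two M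
  have hdet : M.det = M 0 0 * M 1 1 - M 0 1 * M 1 0 := Matrix.det_fin_two M
  -- the coefficient of `X` of `Q`
  have hc1 : algebraMap k F (Q.coeff 1) = -M.trace := by
    have := congrArg (fun p => Polynomial.coeff p 1) hmap
    simp only [Polynomial.coeff_map] at this
    rw [this, hc]
    simp [Polynomial.coeff_C, Polynomial.coeff_X_pow]
  set τ : k := -Q.coeff 1 / 2 with hτ
  have hτF : algebraMap k F τ = M.trace / 2 := by
    rw [hτ, map_div₀, map_neg, hc1, map_ofNat, neg_neg]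
  have hQeq : Q = (Polynomial.X - Polynomial.C τ) ^ 2 := by
    apply Polynomial.map_injective _ hinj
    rw [hmap, hc, Polynomial.map_pow, Polynomial.map_sub, Polynomial.map_X, Polynomial.map_C,
      hτF]
    have hdet2 : M.det = (M.trace / 2) ^ 2 := by
      rw [htr, hdet]
      linear_combination (-1 / 4 : F) * h0
    have htr2 : M.trace = 2 * (M.trace / 2) := by ring
    rw [hdet2]
    conv_lhs => rw [htr2]
    simp only [map_mul, map_pow, map_ofNat]
    ring_nf
  exact hQ.not_isSquare ⟨Polynomial.X - Polynomial.C τ, by rw [hQeq, sq]⟩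

/-! ## 3. The leaf -/

section Leaf

variable {K : Type} [Field K] [NumberField K]

theorem mem_tA_iff233 (s : T5.AdelicAut K) (δ : GL (Fin 2) K) (x : G K) :
    x ∈ H305.tA305 s δ ↔ x⁻¹ * T5.ratG δ * s.onG x = T5.ratG δ := Iff.rfl

theorem onG_of_mem233 (s : T5.AdelicAut K) (δ : GL (Fin 2) K) (x : G K)
    (hx : x ∈ H305.tA305 s δ) : s.onG x = (T5.ratG δ)⁻¹ * x * T5.ratG δ := by
  have h := (mem_tA_iff233 s δ x).1 hx
  calc s.onG x = (T5.ratG δ)⁻¹ * x * (x⁻¹ * T5.ratG δ * s.onG x) := by group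
    _ = (T5.ratG δ)⁻¹ * x * T5.ratG δ := by rw [h]

theorem normUpTo_succ233 (s : T5.AdelicAut K) (n : ℕ) (δ : GL (Fin 2) K) :
    s.normUpTo (n + 1) δ = δ * s.onRat (s.normUpTo n δ) := rfl

theorem normUpTo_zero233 (s : T5.AdelicAut K) (δ : GL (Fin 2) K) :
    s.normUpTo 0 δ = 1 := rfl

/-- `σ^j (x) = N_j(δ)⁻¹ x N_j(δ)` on the twisted centraliser. -/
theorem iterate_onG_of_mem233 (s : T5.AdelicAut K)
    (hrat : ∀ γ : GL (Fin 2) K, s.onG (T5.ratG γ) = T5.ratG (s.onRat γ))
    (δ : GL (Fin 2) K) (x : G K) (hx : x ∈ H305.tA305 s δ) (j : ℕ) :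
    (⇑s.onG)^[j] x = (T5.ratG (s.normUpTo j δ))⁻¹ * x * T5.ratG (s.normUpTo j δ) := by
  induction j with
  | zero => simp [normUpTo_zero233]
  | succ j ih =>
    rw [Function.iterate_succ_apply', ih, map_mul, map_mul, map_inv, hrat,
      onG_of_mem233 s δ x hx, normUpTo_succ233, map_mul]
    group

/-- The members of the twisted centraliser commute with `N δ`. -/
theorem comm_norm_of_mem233 (s : T5.AdelicAut K) (l : ℕ) (k : Subfield K)
    (hc : T5.IsCyclicOfDegree s l k)
    (hrat : ∀ γ : GL (Fin 2) K, s.onG (T5.ratG γ) = T5.ratG (s.onRat γ))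
    (δ : GL (Fin 2) K) (x : G K) (hx : x ∈ H305.tA305 s δ) :
    x * T5.ratG (s.normUpTo l δ) = T5.ratG (s.normUpTo l δ) * x := by
  have h1 := iterate_onG_of_mem233 s hrat δ x hx l
  rw [T5.H415.onG_iterate415 s l k hc] at h1
  calc x * T5.ratG (s.normUpTo l δ)
      = T5.ratG (s.normUpTo l δ)
          * ((T5.ratG (s.normUpTo l δ))⁻¹ * x * T5.ratG (s.normUpTo l δ)) := by group
    _ = T5.ratG (s.normUpTo l δ) * x := by rw [← h1]

theorem ratG_coe233 (γ : GL (Fin 2) K) (i j : Fin 2) :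
    ((T5.ratG γ : G K) : Matrix (Fin 2) (Fin 2) (Adl K)) i j
      = algebraMap K (Adl K) ((γ : Matrix (Fin 2) (Fin 2) K) i j) := rfl

variable (K)

/-- **LEAF T7.L2.1.C2.1b `TorCommC305`, VERBATIM.** -/
theorem torCommC233 : H305.TorCommC305 K := by
  intro R _ s l k 𝔫 hc hA δ hell x hx y hy
  have hxg := comm_norm_of_mem233 s l k hc hA.rat δ x hx
  have hyg := comm_norm_of_mem233 s l k hc hA.rat δ y hy
  set γ := s.normUpTo l δ with hγ
  have hD0 := disc_ne_zero233 k (γ : Matrix (Fin 2) (Fin 2) K) hell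
  have hDu : IsUnit
      ((((T5.ratG γ : G K) : Matrix (Fin 2) (Fin 2) (Adl K)) 0 0
        - ((T5.ratG γ : G K) : Matrix (Fin 2) (Fin 2) (Adl K)) 1 1) ^ 2
        + 4 * ((T5.ratG γ : G K) : Matrix (Fin 2) (Fin 2) (Adl K)) 0 1
          * ((T5.ratG γ : G K) : Matrix (Fin 2) (Fin 2) (Adl K)) 1 0) := by
    have h := (IsUnit.mk0 _ hD0).map (algebraMap K (Adl K))
    simpa only [ratG_coe233, map_add, map_sub, map_mul, map_pow, map_ofNat] using h
  have hxm : (x : Matrix (Fin 2) (Fin 2) (Adl K)) * ((T5.ratG γ : G K) : Matrix _ _ _)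
      = ((T5.ratG γ : G K) : Matrix _ _ _) * (x : Matrix (Fin 2) (Fin 2) (Adl K)) := by
    have := congrArg (fun g : G K => (g : Matrix (Fin 2) (Fin 2) (Adl K))) hxg
    simpa only [Units.val_mul] using this
  have hym : (y : Matrix (Fin 2) (Fin 2) (Adl K)) * ((T5.ratG γ : G K) : Matrix _ _ _)
      = ((T5.ratG γ : G K) : Matrix _ _ _) * (y : Matrix (Fin 2) (Fin 2) (Adl K)) := by
    have := congrArg (fun g : G K => (g : Matrix (Fin 2) (Fin 2) (Adl K))) hyg
    simpa only [Units.val_mul] using this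
  have hcomm := comm_of_comm_disc233 _ _ _ hDu hxm hym
  apply Units.ext
  simpa only [Units.val_mul] using hcomm

end Leaf

end Fermat.Agent.LT.T7.H233

end

end
-- ===== PACK-END LT/T7/H233/TorComm.lean

-- ===== PACK-BEGIN LT/T7/H277/EllReg.lean
section




/-!
# Row LT, tower T7, T7.L2.1.C2.3 LEAF `EllRegC305` (helper277, registry row 2362) -- OFF-MAIN

PROVED: `ellRegC277 K K' : T7.H305.EllRegC305 K K'`, VERBATIM vs `LT/T7/H305/MatchSpec.lean`
(helper305), unconditional.  An elliptic `γ ∈ GL₂(K)` has an irreducible characteristic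
polynomial; its image under a field isomorphism `K ≃ k ⊆ K'` is the polynomial `Q`.
-/

set_option autoImplicit false
open AutomorphicForm IsDedekindDomain NumberField MeasureTheory Polynomial

noncomputable section
namespace Fermat.Agent.LT.T7.H277

open Fermat.Agent.LT Fermat.Agent.LT.H556 Fermat.Agent.LT.H556.A0 Fermat.Agent.LT.T7

/-- The characteristic polynomial of an element of `GL₂` without eigenvalue is irreducible. -/
theorem irreducible_charpoly_of_noRoot277 {k : Type} [Field k] (γ : GL (Fin 2) k)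
    (h : ∀ x : k, x ^ 2 - (γ : Matrix (Fin 2) (Fin 2) k).trace * x
      + (γ : Matrix (Fin 2) (Fin 2) k).det ≠ 0) :
    Irreducible (γ : Matrix (Fin 2) (Fin 2) k).charpoly := by
  have hdeg : (γ : Matrix (Fin 2) (Fin 2) k).charpoly.natDegree = 2 := by
    rw [Matrix.charpoly_natDegree_eq_dim]
    simp
  apply Polynomial.irreducible_of_degree_le_three_of_not_isRoot
  · rw [hdeg]; decide
  · intro x hx
    apply h x
    have := hx
    rw [Polynomial.IsRoot, Matrix.charpoly_fin_two] at this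
    simpa only [Polynomial.eval_add, Polynomial.eval_sub, Polynomial.eval_pow,
      Polynomial.eval_X, Polynomial.eval_mul, Polynomial.eval_C] using this

/-- The general form: `γ ∈ GL₂(K)` without eigenvalue in `K`, `j : K →+* K'` with image the
subfield `k`: the image of `γ` is elliptic regular over `k`. -/
theorem isEllRegOver_map277 {K K' : Type} [Field K] [Field K'] (j : K →+* K')
    (k : Subfield K') (hk : ∀ x : K', x ∈ k ↔ ∃ y : K, j y = x) (γ : GL (Fin 2) K)
    (h : ∀ x : K, x ^ 2 - (γ : Matrix (Fin 2) (Fin 2) K).trace * x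
      + (γ : Matrix (Fin 2) (Fin 2) K).det ≠ 0) :
    T5.IsEllRegOver k (Matrix.GeneralLinearGroup.map j γ) := by
  let e : K →+* k := j.codRestrict k (fun x => (hk (j x)).2 ⟨x, rfl⟩)
  have he : (algebraMap k K').comp e = j := by
    ext x
    rfl
  have hm : ((γ : Matrix (Fin 2) (Fin 2) K).charpoly.map e)
      = (Matrix.GeneralLinearGroup.map e γ : Matrix (Fin 2) (Fin 2) k).charpoly := by
    show _ = ((γ : Matrix (Fin 2) (Fin 2) K).map e).charpoly
    rw [Matrix.charpoly_map]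
  refine ⟨(γ : Matrix (Fin 2) (Fin 2) K).charpoly.map e, ?_, ?_⟩
  · rw [hm]
    apply irreducible_charpoly_of_noRoot277
    intro x
    obtain ⟨y, hy⟩ := (hk (x : K')).1 x.2
    have hx : x = e y := Subtype.ext hy.symm
    have h1 := h y
    rw [trace_map277, det_map277, hx, ← map_pow, ← map_mul, ← map_sub, ← map_add]
    exact fun h0 => h1 (e.injective (by rw [h0, map_zero]))
  · rw [Polynomial.map_map, he]
    show _ = ((γ : Matrix (Fin 2) (Fin 2) K).map j).charpoly
    rw [Matrix.charpoly_map]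

section Leaf

variable (K K' : Type) [Field K] [NumberField K] [Field K'] [NumberField K'] [Algebra K K']

/-- **LEAF ELL-REG, VERBATIM.** -/
theorem ellRegC277 : H305.EllRegC305 K K' := by
  intro D hD γ hγ
  refine ⟨isEllRegOver_map277 (algebraMap K K') D.k hD.base γ hγ.2, ?_⟩
  rw [normUpTo_one277]
  have h := isEllRegOver_map277 (RingHom.id K) (⊤ : Subfield K)
    (fun x => ⟨fun _ => ⟨x, rfl⟩, fun _ => Subfield.mem_top x⟩) γ hγ.2
  have e : Matrix.GeneralLinearGroup.map (RingHom.id K) γ = γ := by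
    ext i j
    rfl
  rwa [e] at h

end Leaf

end Fermat.Agent.LT.T7.H277
end

end
-- ===== PACK-END LT/T7/H277/EllReg.lean

-- ===== PACK-BEGIN LT/T7/H816/IotaSpec.lean
section




/-!
# Row LT, tower T7, node T7.L2.1 `SupplyC`, leaf C2.4 `IotaC305` [XL] (cut of helper305) -- CUT
(helper816, spare sub-architect)

OFF-MAIN.  Definitions, frozen Props of the leaves.  The PROVED top is `IotaTop.lean`:

```
IotaC305 K K'  ⇐  PreFinC816 + PreInfC816            (the construction, place by place)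
                + FixedC816                            (σ_𝔸 ∘ ι = ι)
                + OntoFinC816 + OntoInfC816 + OntoGlueC816   (the fixed ring of σ_𝔸 is ι(𝔸_K))
                + NormInfC816 + NormFinC816            (‖ι x‖ = ‖x‖^l)
                + ClosedC816                           (closed embedding: open mapping theorem)
                + SigmaLocC305 K' (asset leaf of helper305) + T1.LocCompC K, K' (closed)
```

`IsPreBase816 ι`: `ι : 𝔸_K → 𝔸_{K'}` is a continuous ring homomorphism, compatible with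
`K → K'`, given at the places by embeddings of the completions (the fields `cont`, `rat`, `fin`,
`inf` of `H305.IsAdeleBase305`, VERBATIM).  Every leaf after the construction is a statement
about ANY `ι` with `IsPreBase816 ι` (the local embeddings are unique: a ring homomorphism
`i : K_v → K'_w` with `i = (K → K')` on `K` and `|i x| = |x|^e` is continuous, `K` is dense).

## Proofs (sketches; all statements are standard)

* `PreFinC816`: `RestrictedProduct.mapAlongRingHom` along `w ↦ w ∩ 𝓞_K` (finite fibres) with the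
  extensions by continuity `K_v → K'_w` of `K → K'` (Mathlib
  `IsDedekindDomain.HeightOneSpectrum.valuation_liesOver`,
  `uniformContinuous_algebraMap_liesOver`), `e` = ramification index.
* `PreInfC816`: `w' ↦ w'.comap (K → K')`, extension by continuity (isometry on `K`); the
  embedding `extensionEmbedding w'` restricted to `K` is `(w'.comap _).embedding` or its
  conjugate.
* `FixedC816`: componentwise.  Finite places: `s_w ∘ i_w` and `i_{σ w}` are continuous ring
  homomorphisms `K_v → K'_{σ w}` which agree on `K` (`σ` fixes `K`: `IsCompData.base`,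
  `IsCyclicOfDegree.fixed`).  Infinite places: both sides are `c (x_v)` with `c ∈ {id, conj}`,
  they agree for `x ∈ K`, and `v.embedding K ⊄ ℝ` (`v` complex).
* `OntoFinC816`: `(∏_{w ∣ v} K'_w)^σ = K_v`.  E.g.: `M = ∑_j i(K_v) b_j` (`b_j` a basis of
  `K'/K`) is a finite dimensional subspace, hence closed, and contains the dense subset `K'`
  (weak approximation, helper131 `weakApprox_h131`), so `y = ∑_j i(a_j) b_j`; if `y` is fixed
  then `l y = ∑_k σ^k y = ∑_j i(a_j) Tr(b_j) ∈ i(K_v)`.  (Or: split / non-split cases with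
  `T6.InstSplitC`, `T6.InstExtC`.)
* `OntoInfC816`: the places over `v` are permuted transitively; `K_v = ℂ = K'_{w'}`.
* `OntoGlueC816`: adele bookkeeping; integrality of `x_v` from `|y_w| = |x_v|^e ≤ 1`.
* `NormInfC816`: `l` places over every (complex) place.  `NormFinC816`: `∑_{w ∣ v} e_w f_w = l`
  (`Ideal.sum_ramification_inertia`), `N w = N v ^ f_w`.
* `ClosedC816`: `ι` is injective (the local maps are field homomorphisms, every `v` has a `w`
  over it), its range is the closed subgroup of the fixed points of `σ_𝔸`, which is locally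
  compact, hence a Baire space; `𝔸_K` is σ-compact: open mapping theorem
  (`AddMonoidHom.isOpenMap_of_sigmaCompact`).
-/

set_option autoImplicit false

open AutomorphicForm IsDedekindDomain NumberField MeasureTheory
open scoped ComplexConjugate

noncomputable section

namespace Fermat.Agent.LT.T7.H816

open Fermat.Agent.LT.H556 Fermat.Agent.LT.H556.A0 Fermat.Agent.LT.T7
open Fermat.Agent.LT.T7.H305

variable {K K' : Type} [Field K] [NumberField K] [Field K'] [NumberField K'] [Algebra K K']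

/-! ## Vocabulary -/

/-- `ι : 𝔸_K → 𝔸_{K'}` is a continuous ring homomorphism, compatible with `K → K'`, given at the
places by embeddings of the completions (fields `cont`, `rat`, `fin`, `inf` of
`H305.IsAdeleBase305`, verbatim). -/
structure IsPreBase816 (ι : Adl K →+* Adl K') : Prop where
  cont : Continuous ι
  rat : ∀ x : K, ι (algebraMap K (Adl K) x) = algebraMap K' (Adl K') (algebraMap K K' x)
  fin : ∀ (v : HeightOneSpectrum (𝓞 K)) (w : HeightOneSpectrum (𝓞 K')), PlaceOver K K' v w →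
    ∃ (e : ℕ) (i : v.adicCompletion K →+* w.adicCompletion K'), 0 < e ∧
      (∀ x : K, i (algebraMap K (v.adicCompletion K) x)
        = algebraMap K' (w.adicCompletion K') (algebraMap K K' x)) ∧
      (∀ x : v.adicCompletion K, Valued.v (i x) = Valued.v x ^ e) ∧
      ∀ x : Adl K, T5.finHom w (ι x) = i (T5.finHom v x)
  inf : ∀ w' : InfinitePlace K',
    (∀ x : Adl K, T5.infHom w' (ι x) = T5.infHom (w'.comap (algebraMap K K')) x) ∨
      ∀ x : Adl K, T5.infHom w' (ι x) = conj (T5.infHom (w'.comap (algebraMap K K')) x)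

variable (K K')

/-! ## The construction -/

/-- **LEAF I.1 = PRE-FIN.**  The base change of the finite adeles. -/
def PreFinC816 : Prop :=
  ∃ ιf : FiniteAdeleRing (𝓞 K) K →+* FiniteAdeleRing (𝓞 K') K',
    Continuous ιf ∧
    (∀ x : K, ιf (algebraMap K (FiniteAdeleRing (𝓞 K) K) x)
      = algebraMap K' (FiniteAdeleRing (𝓞 K') K') (algebraMap K K' x)) ∧
    ∀ (v : HeightOneSpectrum (𝓞 K)) (w : HeightOneSpectrum (𝓞 K')), PlaceOver K K' v w →
      ∃ (e : ℕ) (i : v.adicCompletion K →+* w.adicCompletion K'), 0 < e ∧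
        (∀ x : K, i (algebraMap K (v.adicCompletion K) x)
          = algebraMap K' (w.adicCompletion K') (algebraMap K K' x)) ∧
        (∀ x : v.adicCompletion K, Valued.v (i x) = Valued.v x ^ e) ∧
        ∀ x : FiniteAdeleRing (𝓞 K) K, (ιf x) w = i (x v)

/-- **LEAF I.2 = PRE-INF.**  The base change of the infinite adeles. -/
def PreInfC816 : Prop :=
  ∃ ιi : InfiniteAdeleRing K →+* InfiniteAdeleRing K',
    Continuous ιi ∧
    (∀ x : K, ιi (algebraMap K (InfiniteAdeleRing K) x)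
      = algebraMap K' (InfiniteAdeleRing K') (algebraMap K K' x)) ∧
    ∀ w' : InfinitePlace K',
      (∀ x : InfiniteAdeleRing K,
        InfinitePlace.Completion.extensionEmbedding w' ((ιi x) w')
          = InfinitePlace.Completion.extensionEmbedding (w'.comap (algebraMap K K'))
              (x (w'.comap (algebraMap K K')))) ∨
      ∀ x : InfiniteAdeleRing K,
        InfinitePlace.Completion.extensionEmbedding w' ((ιi x) w')
          = conj (InfinitePlace.Completion.extensionEmbedding (w'.comap (algebraMap K K'))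
              (x (w'.comap (algebraMap K K'))))

/-! ## The fixed ring -/

/-- **LEAF I.3 = FIXED.**  `σ_𝔸 ∘ ι = ι`. -/
def FixedC816 : Prop :=
  ∀ D : CompData K K', IsCompData D → IsCycExt K K' D.l → TotCplx K → SigmaLocC305 K' →
    ∀ ι : Adl K →+* Adl K', IsPreBase816 ι → ∀ x : Adl K, D.s.σA (ι x) = ι x

/-- **LEAF I.4 = ONTO-FIN.**  A fixed adele comes from `K_v` at the places over `v`. -/
def OntoFinC816 : Prop :=
  ∀ D : CompData K K', IsCompData D → IsCycExt K K' D.l → TotCplx K → SigmaLocC305 K' →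
    ∀ ι : Adl K →+* Adl K', IsPreBase816 ι → ∀ y : Adl K', D.s.σA y = y →
      ∀ v : HeightOneSpectrum (𝓞 K), ∃ x : Adl K,
        ∀ w : HeightOneSpectrum (𝓞 K'), PlaceOver K K' v w →
          T5.finHom w (ι x) = T5.finHom w y

/-- **LEAF I.5 = ONTO-INF.**  A fixed adele comes from `K_v` at the infinite places over `v`. -/
def OntoInfC816 : Prop :=
  ∀ D : CompData K K', IsCompData D → IsCycExt K K' D.l → TotCplx K → SigmaLocC305 K' →
    ∀ ι : Adl K →+* Adl K', IsPreBase816 ι → ∀ y : Adl K', D.s.σA y = y →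
      ∀ v : InfinitePlace K, ∃ x : Adl K,
        ∀ w' : InfinitePlace K', w'.comap (algebraMap K K') = v →
          T5.infHom w' (ι x) = T5.infHom w' y

/-- **LEAF I.6 = ONTO-GLUE.**  An adele of `K'` which comes from `K_v` at the places over `v`,
for every place `v` of `K`, is in the image of `ι`. -/
def OntoGlueC816 : Prop :=
  ∀ ι : Adl K →+* Adl K', IsPreBase816 ι → ∀ y : Adl K',
    (∀ v : HeightOneSpectrum (𝓞 K), ∃ x : Adl K,
      ∀ w : HeightOneSpectrum (𝓞 K'), PlaceOver K K' v w →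
        T5.finHom w (ι x) = T5.finHom w y) →
    (∀ v : InfinitePlace K, ∃ x : Adl K,
      ∀ w' : InfinitePlace K', w'.comap (algebraMap K K') = v →
        T5.infHom w' (ι x) = T5.infHom w' y) →
    ∃ x : Adl K, ι x = y

/-! ## The norm -/

/-- **LEAF I.7 = NORM-INF.**  The infinite part of the module. -/
def NormInfC816 : Prop :=
  ∀ l : ℕ, IsCycExt K K' l → TotCplx K →
    ∀ ι : Adl K →+* Adl K', IsPreBase816 ι → ∀ x : Adl K,
      ∏ w' : InfinitePlace K', ‖(ι x).1 w'‖ ^ w'.mult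
        = (∏ v : InfinitePlace K, ‖x.1 v‖ ^ v.mult) ^ l

/-- **LEAF I.8 = NORM-FIN.**  The finite part of the module. -/
def NormFinC816 : Prop :=
  ∀ l : ℕ, IsCycExt K K' l →
    ∀ ι : Adl K →+* Adl K', IsPreBase816 ι → ∀ x : (Adl K)ˣ,
      ∏ᶠ w : HeightOneSpectrum (𝓞 K'), ‖(ι (x : Adl K)).2 w‖
        = (∏ᶠ v : HeightOneSpectrum (𝓞 K), ‖(x : Adl K).2 v‖) ^ l

/-! ## The topology -/

/-- **LEAF I.9 = CLOSED.**  `ι` is a closed embedding. -/
def ClosedC816 : Prop :=
  ∀ D : CompData K K', IsCompData D →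
    ∀ ι : Adl K →+* Adl K', IsPreBase816 ι →
      (∀ x : Adl K, D.s.σA (ι x) = ι x) →
      (∀ y : Adl K', D.s.σA y = y → ∃ x : Adl K, ι x = y) →
      Fermat.Agent.LT.T1.LocCompC K → Fermat.Agent.LT.T1.LocCompC K' →
        Topology.IsClosedEmbedding ι

/-! ## Appendix: the equation lemmas of the definitions are realised HERE -/

theorem eqns_realised816 : True := by
  have _a1 := @PreFinC816.eq_1
  have _a2 := @PreFinC816.eq_def
  have _a3 := @PreFinC816.eq_unfold
  have _b1 := @PreInfC816.eq_1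
  have _b2 := @PreInfC816.eq_def
  have _b3 := @PreInfC816.eq_unfold
  have _c1 := @FixedC816.eq_1
  have _c2 := @FixedC816.eq_def
  have _c3 := @FixedC816.eq_unfold
  have _d1 := @OntoFinC816.eq_1
  have _d2 := @OntoFinC816.eq_def
  have _d3 := @OntoFinC816.eq_unfold
  have _e1 := @OntoInfC816.eq_1
  have _e2 := @OntoInfC816.eq_def
  have _e3 := @OntoInfC816.eq_unfold
  have _f1 := @OntoGlueC816.eq_1
  have _f2 := @OntoGlueC816.eq_def
  have _f3 := @OntoGlueC816.eq_unfold
  have _g1 := @NormInfC816.eq_1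
  have _g2 := @NormInfC816.eq_def
  have _g3 := @NormInfC816.eq_unfold
  have _h1 := @NormFinC816.eq_1
  have _h2 := @NormFinC816.eq_def
  have _h3 := @NormFinC816.eq_unfold
  have _i1 := @ClosedC816.eq_1
  have _i2 := @ClosedC816.eq_def
  have _i3 := @ClosedC816.eq_unfold
  trivial

end Fermat.Agent.LT.T7.H816

end

end
-- ===== PACK-END LT/T7/H816/IotaSpec.lean

-- ===== PACK-BEGIN LT/T7/H787/TorMeas.lean
section





/-!
# Row LT, tower T7, leaf T7.L2.1.C2.5b `TorMeasC305` (owner helper787) — OFF-MAIN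

`torMeasC787 (K K') : H305.TorMeasC305 K K'`, VERBATIM, unconditional.

For `N δ = γ` elliptic the base change `ι` of adeles maps the centraliser `T_𝔸(γ)` of `γ` in
`GL₂(𝔸_K)` ISOMORPHICALLY (as topological groups) onto the twisted centraliser `T_𝔸(δ)` of `δ` in
`GL₂(𝔸_{K'})`:

* `x⁻¹ δ σ(x) = δ` gives `σ^j(x) = N_j(δ)⁻¹ x N_j(δ)`; `σ_𝔸^l = 1` (asset of helper415), so `x`
  commutes with `γ`; the centraliser of `γ` is commutative (`TorAlg`) and contains `δ`; hence
  `σ(x) = x` and `x = ι(t)`;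
* `ι` is a closed embedding, so `GL₂(ι)` is one (Mathlib), and the restriction to the tori is a
  closed embedding onto `T_𝔸(δ)`: the image of a Haar measure is a Haar measure.
-/

set_option autoImplicit false
set_option linter.unusedSectionVars false
set_option linter.unusedVariables false
set_option linter.style.haveILetI false

open AutomorphicForm IsDedekindDomain NumberField MeasureTheory

noncomputable section

namespace Fermat.Agent.LT.T7.H787

open Fermat.Agent.LT.H556 Fermat.Agent.LT.H556.A0 Fermat.Agent.LT.T7 Fermat.Agent.LT.T7.H305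
open Fermat.Agent.LT

attribute [local instance] Fermat.Agent.LT.T5.instMeasurableSpaceG

/-! ## 1. One field: the twisted centraliser -/

section OneField

variable {K : Type} [Field K] [NumberField K]

theorem mem_tA787 (s : T5.AdelicAut K) (δ : GL (Fin 2) K) (x : G K) :
    x ∈ tA305 s δ ↔ x⁻¹ * T5.ratG δ * s.onG x = T5.ratG δ := Iff.rfl

theorem onG_of_mem787 (s : T5.AdelicAut K) (δ : GL (Fin 2) K) (x : G K) (hx : x ∈ tA305 s δ) :
    s.onG x = (T5.ratG δ)⁻¹ * x * T5.ratG δ := by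
  have h := (mem_tA787 s δ x).1 hx
  calc s.onG x = (T5.ratG δ)⁻¹ * x * (x⁻¹ * T5.ratG δ * s.onG x) := by group
    _ = (T5.ratG δ)⁻¹ * x * T5.ratG δ := by rw [h]

theorem onG_ratG787 (s : T5.AdelicAut K) (g : GL (Fin 2) K) :
    s.onG (T5.ratG g) = T5.ratG (s.onRat g) := by
  apply Units.ext
  ext i j
  exact s.compat _

/-- `σ^n(x) = N_n(δ)⁻¹ x N_n(δ)` on the twisted centraliser. -/
theorem onG_iterate_of_mem787 (s : T5.AdelicAut K) (δ : GL (Fin 2) K) (x : G K)
    (hx : x ∈ tA305 s δ) (n : ℕ) :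
    (⇑s.onG)^[n] x = (T5.ratG (s.normUpTo n δ))⁻¹ * x * T5.ratG (s.normUpTo n δ) := by
  induction n with
  | zero =>
    show x = (T5.ratG 1)⁻¹ * x * T5.ratG 1
    rw [map_one]
    group
  | succ n ih =>
    rw [Function.iterate_succ_apply', ih, map_mul, map_mul, map_inv, onG_ratG787,
      onG_of_mem787 s δ x hx]
    show _ = (T5.ratG (δ * s.onRat (s.normUpTo n δ)))⁻¹ * x
      * T5.ratG (δ * s.onRat (s.normUpTo n δ))
    rw [map_mul]
    group

/-- The twisted centraliser commutes with the norm. -/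
theorem comm_norm_of_mem787 (s : T5.AdelicAut K) (l : ℕ) (k : Subfield K)
    (hc : T5.IsCyclicOfDegree s l k) (δ : GL (Fin 2) K) (x : G K) (hx : x ∈ tA305 s δ) :
    x * T5.ratG (s.normUpTo l δ) = T5.ratG (s.normUpTo l δ) * x := by
  have h := onG_iterate_of_mem787 s δ x hx l
  rw [T5.H415.onG_iterate415 s l k hc] at h
  calc x * T5.ratG (s.normUpTo l δ)
      = T5.ratG (s.normUpTo l δ)
          * ((T5.ratG (s.normUpTo l δ))⁻¹ * x * T5.ratG (s.normUpTo l δ)) := by group
    _ = T5.ratG (s.normUpTo l δ) * x := by rw [← h]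

theorem onRat_iterate_apply787 (s : T5.AdelicAut K) (n : ℕ) (g : GL (Fin 2) K) (i j : Fin 2) :
    ((⇑s.onRat)^[n] g : Matrix (Fin 2) (Fin 2) K) i j
      = (s.σ ^ n) ((g : Matrix (Fin 2) (Fin 2) K) i j) := by
  induction n with
  | zero => simp
  | succ n ih =>
    rw [Function.iterate_succ_apply', pow_succ']
    show s.σ (((⇑s.onRat)^[n] g : Matrix (Fin 2) (Fin 2) K) i j) = _
    rw [ih]
    rfl

theorem onRat_iterate_eq787 (s : T5.AdelicAut K) (l : ℕ) (h : ∀ x : K, (s.σ ^ l) x = x)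
    (g : GL (Fin 2) K) : (⇑s.onRat)^[l] g = g := by
  apply Units.ext
  ext i j
  rw [onRat_iterate_apply787, h]

/-- `N_{n+1}(δ) = N_n(δ) σ^n(δ)`. -/
theorem normUpTo_succ787 (s : T5.AdelicAut K) (δ : GL (Fin 2) K) (n : ℕ) :
    s.normUpTo (n + 1) δ = s.normUpTo n δ * (⇑s.onRat)^[n] δ := by
  induction n with
  | zero =>
    show δ * s.onRat 1 = 1 * δ
    rw [map_one, mul_one, one_mul]
  | succ n ih =>
    show δ * s.onRat (s.normUpTo (n + 1) δ) = δ * s.onRat (s.normUpTo n δ) * (⇑s.onRat)^[n + 1] δ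
    rw [ih, map_mul, Function.iterate_succ_apply', mul_assoc]

/-- `δ` commutes with its norm, if the norm is fixed by `σ`. -/
theorem comm_norm_self787 (s : T5.AdelicAut K) (l : ℕ) (h : ∀ x : K, (s.σ ^ l) x = x)
    (δ : GL (Fin 2) K) (hfix : s.onRat (s.normUpTo l δ) = s.normUpTo l δ) :
    δ * s.normUpTo l δ = s.normUpTo l δ * δ := by
  have h1 : s.normUpTo (l + 1) δ = δ * s.onRat (s.normUpTo l δ) := rfl
  have h2 := normUpTo_succ787 s δ l
  rw [onRat_iterate_eq787 s l h, h1, hfix] at h2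
  exact h2

/-- The centraliser of `γ` (the twisted centraliser for the trivial automorphism). -/
theorem mem_tA_id787 (γ : GL (Fin 2) K) (t : G K) :
    t ∈ tA305 (T5.AdelicAut.id K) γ ↔ T5.ratG γ * t = t * T5.ratG γ := by
  rw [mem_tA787, T5.onG_id]
  constructor
  · intro h
    calc T5.ratG γ * t = t * (t⁻¹ * T5.ratG γ * t) := by group
      _ = t * T5.ratG γ := by rw [h]
  · intro h
    calc t⁻¹ * T5.ratG γ * t = t⁻¹ * (T5.ratG γ * t) := by group
      _ = T5.ratG γ := by rw [h]; group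

theorem isClosed_tA_id787 [T2Space (G K)] (γ : GL (Fin 2) K) :
    IsClosed ((tA305 (T5.AdelicAut.id K) γ : Subgroup (G K)) : Set (G K)) := by
  have h : ((tA305 (T5.AdelicAut.id K) γ : Subgroup (G K)) : Set (G K))
      = {t : G K | T5.ratG γ * t = t * T5.ratG γ} := by
    ext t
    exact mem_tA_id787 γ t
  rw [h]
  exact isClosed_eq (continuous_const.mul continuous_id) (continuous_id.mul continuous_const)

end OneField

/-! ## 2. Two fields: the isomorphism of the tori -/

section TwoFields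

variable {K K' : Type} [Field K] [NumberField K] [Field K'] [NumberField K'] [Algebra K K']

/-- `GL₂(ι)`. -/
abbrev glι787 (ι : Adl K →+* Adl K') : G K →* G K' := Matrix.GeneralLinearGroup.map ι

theorem glι_ratG787 {s : T5.AdelicAut K'} {l : ℕ} {ι : Adl K →+* Adl K'}
    (hι : IsAdeleBase305 s l ι) (γ : GL (Fin 2) K) :
    glι787 ι (T5.ratG γ) = T5.ratG (Matrix.GeneralLinearGroup.map (algebraMap K K') γ) := by
  apply Units.ext
  ext i j
  exact hι.rat _

theorem onG_glι787 {s : T5.AdelicAut K'} {l : ℕ} {ι : Adl K →+* Adl K'}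
    (hι : IsAdeleBase305 s l ι) (t : G K) : s.onG (glι787 ι t) = glι787 ι t := by
  apply Units.ext
  ext i j
  exact hι.fixed _

theorem injective_ι787 {s : T5.AdelicAut K'} {l : ℕ} {ι : Adl K →+* Adl K'}
    (hι : IsAdeleBase305 s l ι) : Function.Injective ι := hι.closed.injective

/-- The data of the leaf. -/
structure TorSetup787 (D : CompData K K') (ι : Adl K →+* Adl K') (δ : GL (Fin 2) K')
    (γ : GL (Fin 2) K) : Prop where
  comp : IsCompData D
  base : IsAdeleBase305 D.s D.l ι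
  ell : T6.IsEll γ
  norm : D.s.normUpTo D.l δ = Matrix.GeneralLinearGroup.map (algebraMap K K') γ

namespace TorSetup787

variable {D : CompData K K'} {ι : Adl K →+* Adl K'} {δ : GL (Fin 2) K'} {γ : GL (Fin 2) K}
variable (H : TorSetup787 D ι δ γ)

include H

theorem sigma_fix : ∀ y : K, D.s.σ (algebraMap K K' y) = algebraMap K K' y := fun y =>
  (H.comp.cyc.fixed _).1 ((H.comp.base _).2 ⟨y, rfl⟩)

theorem onRat_norm : D.s.onRat (D.s.normUpTo D.l δ) = D.s.normUpTo D.l δ := by
  rw [H.norm]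
  apply Units.ext
  ext i j
  exact H.sigma_fix _

/-- `δ` commutes with `γ`. -/
theorem delta_comm : T5.ratG δ * T5.ratG (D.s.normUpTo D.l δ)
    = T5.ratG (D.s.normUpTo D.l δ) * T5.ratG δ := by
  rw [← map_mul, ← map_mul, comm_norm_self787 D.s D.l H.comp.cyc.pow_eq δ H.onRat_norm]

/-- The lower left entry of `γ` is a unit of the adeles. -/
theorem unit_entry :
    IsUnit ((T5.ratG (D.s.normUpTo D.l δ) : Matrix (Fin 2) (Fin 2) (Adl K')) 1 0) := by
  rw [H.norm]
  have h0 : (γ : Matrix (Fin 2) (Fin 2) K) 1 0 ≠ 0 := lower_left_ne_zero787 _ H.ell.2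
  have h1 : IsUnit ((γ : Matrix (Fin 2) (Fin 2) K) 1 0) := isUnit_iff_ne_zero.2 h0
  exact (h1.map (algebraMap K K')).map (algebraMap K' (Adl K'))

/-- The twisted centraliser is fixed by `σ`. -/
theorem onG_eq_of_mem (x : G K') (hx : x ∈ tA305 D.s δ) : D.s.onG x = x := by
  have h1 := comm_norm_of_mem787 D.s D.l D.k H.comp.cyc δ x hx
  have h2 : x * T5.ratG δ = T5.ratG δ * x :=
    gl_comm_of_comm787 _ _ _ H.unit_entry h1 H.delta_comm
  rw [onG_of_mem787 D.s δ x hx, mul_assoc, h2]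
  group

/-- `ι` maps the centraliser of `γ` into the twisted centraliser of `δ`. -/
theorem map_mem (t : G K) (ht : t ∈ tA305 (T5.AdelicAut.id K) γ) :
    glι787 ι t ∈ tA305 D.s δ := by
  rw [mem_tA787, onG_glι787 H.base]
  have h1 : T5.ratG γ * t = t * T5.ratG γ := (mem_tA_id787 γ t).1 ht
  have h2 : glι787 ι t * T5.ratG (D.s.normUpTo D.l δ)
      = T5.ratG (D.s.normUpTo D.l δ) * glι787 ι t := by
    rw [H.norm, ← glι_ratG787 H.base, ← map_mul, ← map_mul, h1]
  have h3 : glι787 ι t * T5.ratG δ = T5.ratG δ * glι787 ι t :=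
    gl_comm_of_comm787 _ _ _ H.unit_entry h2 H.delta_comm
  calc (glι787 ι t)⁻¹ * T5.ratG δ * glι787 ι t
      = (glι787 ι t)⁻¹ * (T5.ratG δ * glι787 ι t) := by group
    _ = T5.ratG δ := by rw [← h3]; group

/-- Every element of the twisted centraliser of `δ` comes from the centraliser of `γ`. -/
theorem exists_of_mem (x : G K') (hx : x ∈ tA305 D.s δ) :
    ∃ t : G K, t ∈ tA305 (T5.AdelicAut.id K) γ ∧ glι787 ι t = x := by
  have hfix := H.onG_eq_of_mem x hx
  have hent : ∀ i j, (D.s.σA : Adl K' →+* Adl K') ((x : Matrix (Fin 2) (Fin 2) (Adl K')) i j)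
      = (x : Matrix (Fin 2) (Fin 2) (Adl K')) i j := by
    intro i j
    exact congrArg (fun g : G K' => (g : Matrix (Fin 2) (Fin 2) (Adl K')) i j) hfix
  obtain ⟨t, ht⟩ := gl_of_fixed787 ι (injective_ι787 H.base) (D.s.σA : Adl K' →+* Adl K')
    H.base.onto x hent
  refine ⟨t, ?_, ht⟩
  rw [mem_tA_id787]
  apply gl_map_injective787 ι (injective_ι787 H.base)
  have h1 := comm_norm_of_mem787 D.s D.l D.k H.comp.cyc δ x hx
  rw [H.norm, ← glι_ratG787 H.base] at h1
  show glι787 ι (T5.ratG γ * t) = glι787 ι (t * T5.ratG γ)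
  rw [map_mul, map_mul, ht, h1]

/-- The isomorphism of the tori, as a homomorphism. -/
def torHom : tA305 (T5.AdelicAut.id K) γ →* tA305 D.s δ :=
  ((glι787 ι).comp (tA305 (T5.AdelicAut.id K) γ).subtype).codRestrict (tA305 D.s δ)
    (fun t => H.map_mem t.1 t.2)

theorem torHom_coe (t : tA305 (T5.AdelicAut.id K) γ) :
    ((H.torHom t : tA305 D.s δ) : G K') = glι787 ι (t : G K) := rfl

theorem torHom_surjective : Function.Surjective H.torHom := by
  intro x
  obtain ⟨t, ht, hx⟩ := H.exists_of_mem x.1 x.2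
  exact ⟨⟨t, ht⟩, Subtype.ext hx⟩

theorem isClosedEmbedding_glι : Topology.IsClosedEmbedding (glι787 ι) := by
  haveI : T2Space (Adl K) := Fermat.Agent.LT.H11.LC.t2Space_adeleRing_h11 K
  exact H.base.closed.generalLinearGroup_map

theorem continuous_torHom : Continuous H.torHom :=
  Continuous.subtype_mk (H.isClosedEmbedding_glι.continuous.comp continuous_subtype_val) _

theorem isClosedEmbedding_torHom : Topology.IsClosedEmbedding H.torHom := by
  refine ⟨?_, ?_⟩
  · refine Topology.IsEmbedding.of_comp H.continuous_torHom continuous_subtype_val ?_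
    exact H.isClosedEmbedding_glι.isEmbedding.comp Topology.IsEmbedding.subtypeVal
  · rw [H.torHom_surjective.range_eq]
    exact isClosed_univ

end TorSetup787

/-! ## 3. The leaf -/

variable (K K')

/-- **Leaf C2.5b = TOR-MEAS** (`H305.TorMeasC305`). -/
theorem torMeasC787 : TorMeasC305 K K' := by
  intro D hD _hcyc _htc ι hι δ γ hγ hN
  have H : TorSetup787 D ι δ γ := ⟨hD, hι, hγ, hN⟩
  haveI : LocallyCompactSpace (G K) :=
    Fermat.Agent.LT.H11.LC.locallyCompactSpace_GL2_adeleRing_h11 K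
  haveI : T2Space (G K) := Fermat.Agent.LT.H11.LC.t2Space_GL2_adeleRing_h11 K
  haveI : T2Space (G K') := Fermat.Agent.LT.H11.LC.t2Space_GL2_adeleRing_h11 K'
  have hclosed := isClosed_tA_id787 γ
  haveI : LocallyCompactSpace (tA305 (T5.AdelicAut.id K) γ) :=
    (Topology.IsClosedEmbedding.mk Topology.IsEmbedding.subtypeVal
      (by rw [Subtype.range_coe]; exact hclosed)).locallyCompactSpace
  letI mH : MeasurableSpace (tA305 (T5.AdelicAut.id K) γ) := borel _
  haveI : BorelSpace (tA305 (T5.AdelicAut.id K) γ) := ⟨rfl⟩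
  letI mH' : MeasurableSpace (tA305 D.s δ) := borel _
  haveI : BorelSpace (tA305 D.s δ) := ⟨rfl⟩
  haveI : BorelSpace (G K') := ⟨rfl⟩
  let μT : Measure (tA305 (T5.AdelicAut.id K) γ) := Measure.haar
  have hmeas : Measurable H.torHom := H.continuous_torHom.measurable
  refine ⟨μT, Measure.map H.torHom μT, inferInstance, ?_, ?_⟩
  · exact Measure.isHaarMeasure_map μT H.torHom H.continuous_torHom H.torHom_surjective
      H.isClosedEmbedding_torHom.tendsto_cocompact
  · intro A hA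
    have hval : Measurable (Subtype.val : tA305 D.s δ → G K') :=
      continuous_subtype_val.measurable
    have hS : MeasurableSet {t : tA305 D.s δ | (t : G K') ∈ A} := hval hA
    rw [Measure.map_apply hmeas hS]
    rfl

end TwoFields

end Fermat.Agent.LT.T7.H787

end

end
-- ===== PACK-END LT/T7/H787/TorMeas.lean

-- ===== PACK-BEGIN LT/T7/H119/TorComp.lean
section






/-!
# Row LT, tower T7, node T7.L2.1 `SupplyC`, leaf C2.6 `TorCompC305` (helper119)

OFF-MAIN.  No hole, nothing assumed.  Statement = `H305.TorCompC305` of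
`LT/T7/H305/MatchSpec.lean` (helper305@61757801e, sha256 541c6ac7fb6d040e), VERBATIM.

    torCompC119 : H305.TorCompC305 K K'

`vol(γ) = l · vol(δ)` for linked Haar measures on the adelic tori.

## Proof
`T = T_𝔸(γ)` is commutative (Cramer, `tA_comm119`), `Γ = T(K)` is countable and acts on `T` by
translations, the module `n(t) = ‖det t‖_𝔸` is `Γ`-invariant (product formula, helper309).
* `E = {t : t⁻¹ ∈ Fγ}` is a strict fundamental domain of `Γ` in `S = {1/2 < n ≤ 1}`;
* `E₁ = {t : ι(t)⁻¹ ∈ Fδ}` is one in `{c₀ < n ≤ 1}`, `c₀ ^ l = 1/2` (`n(ι t) = n(t) ^ l`; the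
  rational points of the twisted centraliser of `δ` are the image of `Γ`: `T6.TwCentC`, helper166);
* `ρ` = the central element with the components `t₀` at the infinite places (all complex) and
  `1` at the finite places, `n(ρ) = c₀`; the translates `ρ ^ j E₁`, `j < l`, are strict
  fundamental domains in `{c₀ ^ (j+1) < n ≤ c₀ ^ j}`, and these sets tile `S`;
* two strict fundamental domains have the same measure (`measure_eq_of_strictFD119`), so
  `μT E = ∑_{j < l} μT (ρ ^ j E₁) = l · μT E₁ = l · μT' E'` (linked measures).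
-/

set_option autoImplicit false
set_option linter.style.haveILetI false
set_option linter.unusedSectionVars false
set_option linter.unusedVariables false

open IsDedekindDomain NumberField MeasureTheory
open Fermat.Agent.LT.H556 Fermat.Agent.LT.H556.A0 Fermat.Agent.LT.T7 Fermat.Agent.LT

noncomputable section

namespace Fermat.Agent.LT.T7.H119

attribute [local instance] Fermat.Agent.LT.T5.instMeasurableSpaceG

/-! ## Countability -/

section Basic

variable {K : Type} [Field K] [NumberField K]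

theorem countable_numberField119 (K : Type) [Field K] [NumberField K] : Countable K := by
  let b := Module.finBasis ℚ K
  exact Function.Injective.countable b.equivFun.injective

theorem countable_gl119 (K : Type) [Field K] [NumberField K] : Countable (GL (Fin 2) K) := by
  haveI := countable_numberField119 K
  haveI : Countable (Matrix (Fin 2) (Fin 2) K) :=
    (inferInstance : Countable (Fin 2 → Fin 2 → K))
  exact Function.Injective.countable (Units.val_injective (α := Matrix (Fin 2) (Fin 2) K))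

/-- The module of the determinant. -/
def nrm119 (g : G K) : ℝ := T5.adNorm (Matrix.det (g : Matrix (Fin 2) (Fin 2) (Adl K)))

theorem nrm_eq119 (g : G K) :
    nrm119 g = T1.adNorm K ((Matrix.GeneralLinearGroup.det g : (Adl K)ˣ) : Adl K) := rfl

theorem nrm_pos119 (g : G K) : 0 < nrm119 g := by
  rw [nrm_eq119]
  exact T1.H309.adNorm_pos309 K _

theorem nrm_mul119 (g h : G K) : nrm119 (g * h) = nrm119 g * nrm119 h := by
  rw [nrm_eq119, nrm_eq119, nrm_eq119, map_mul]
  exact T1.H309.adNorm_mul309 K _ _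

theorem nrm_one119 : nrm119 (1 : G K) = 1 := by
  have h := nrm_mul119 (1 : G K) 1
  rw [mul_one] at h
  have hp := nrm_pos119 (1 : G K)
  nlinarith

theorem nrm_inv119 (g : G K) : nrm119 g⁻¹ = (nrm119 g)⁻¹ := by
  have h := nrm_mul119 g g⁻¹
  rw [mul_inv_cancel, nrm_one119] at h
  exact eq_inv_of_mul_eq_one_right h.symm

theorem nrm_pow119 (g : G K) (n : ℕ) : nrm119 (g ^ n) = nrm119 g ^ n := by
  induction n with
  | zero => rw [pow_zero, pow_zero, nrm_one119]
  | succ n ih => rw [pow_succ, pow_succ, nrm_mul119, ih]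

theorem nrm_ratG119 (γ : GL (Fin 2) K) : nrm119 (T5.ratG γ) = 1 := by
  unfold nrm119
  have h1 : Matrix.det ((T5.ratG γ : G K) : Matrix (Fin 2) (Fin 2) (Adl K))
      = algebraMap K (Adl K) (Matrix.det (γ : Matrix (Fin 2) (Fin 2) K)) := by
    rw [RingHom.map_det]
    rfl
  rw [h1]
  have hne : Matrix.det (γ : Matrix (Fin 2) (Fin 2) K) ≠ 0 := by
    have := (Matrix.GeneralLinearGroup.det γ).ne_zero
    exact this
  exact T1.H309.adNorm_algebraMap309 K _ hne

theorem mem_slab_iff119 (g : G K) : g ∈ T5.slab K ↔ 1 ≤ nrm119 g ∧ nrm119 g < 2 := Iff.rfl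


end Basic

/-! ## The central ray -/

section Ray

variable {K : Type} [Field K] [NumberField K]

/-- The adele with the component `t` at every (complex) infinite place and `1` at the finite
places. -/
def rayAd119 (hK : TotCplx K) (t : ℝ) : Adl K :=
  (fun w => (InfinitePlace.Completion.ringEquivComplexOfIsComplex (hK w)).symm (t : ℂ), 1)

theorem rayAd_mul119 (hK : TotCplx K) (s t : ℝ) :
    rayAd119 hK s * rayAd119 hK t = rayAd119 hK (s * t) := by
  refine Prod.ext ?_ (mul_one 1)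
  funext w
  show (InfinitePlace.Completion.ringEquivComplexOfIsComplex (hK w)).symm (s : ℂ)
      * (InfinitePlace.Completion.ringEquivComplexOfIsComplex (hK w)).symm (t : ℂ)
    = (InfinitePlace.Completion.ringEquivComplexOfIsComplex (hK w)).symm ((s * t : ℝ) : ℂ)
  rw [← map_mul, Complex.ofReal_mul]

theorem rayAd_one119 (hK : TotCplx K) : rayAd119 hK 1 = 1 := by
  refine Prod.ext ?_ rfl
  funext w
  show (InfinitePlace.Completion.ringEquivComplexOfIsComplex (hK w)).symm ((1 : ℝ) : ℂ) = 1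
  rw [Complex.ofReal_one, map_one]

/-- The idele of `rayAd119`. -/
def rayUnit119 (hK : TotCplx K) (t : ℝ) (ht : t ≠ 0) : (Adl K)ˣ where
  val := rayAd119 hK t
  inv := rayAd119 hK t⁻¹
  val_inv := by rw [rayAd_mul119, mul_inv_cancel₀ ht, rayAd_one119]
  inv_val := by rw [rayAd_mul119, inv_mul_cancel₀ ht, rayAd_one119]

theorem norm_symm119 {w : InfinitePlace K} (hw : w.IsComplex) (z : ℂ) :
    ‖(InfinitePlace.Completion.ringEquivComplexOfIsComplex hw).symm z‖ = ‖z‖ := by
  have h1 := (InfinitePlace.Completion.isometry_extensionEmbedding w).norm_map_of_map_zero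
    (map_zero _) ((InfinitePlace.Completion.ringEquivComplexOfIsComplex hw).symm z)
  rw [← h1, ← InfinitePlace.Completion.ringEquivComplexOfIsComplex_apply hw,
    RingEquiv.apply_symm_apply]

theorem adNorm_rayUnit119 (hK : TotCplx K) (t : ℝ) (ht : 0 < t) :
    T1.adNorm K ((rayUnit119 hK t ht.ne' : (Adl K)ˣ) : Adl K)
      = (t ^ 2) ^ Fintype.card (InfinitePlace K) := by
  unfold T1.adNorm
  have h1 : ∀ w : InfinitePlace K,
      ‖((rayUnit119 hK t ht.ne' : (Adl K)ˣ) : Adl K).1 w‖ ^ w.mult = t ^ 2 := by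
    intro w
    have hm : w.mult = 2 := by
      unfold InfinitePlace.mult
      rw [if_neg (InfinitePlace.not_isReal_iff_isComplex.mpr (hK w))]
    show ‖(InfinitePlace.Completion.ringEquivComplexOfIsComplex (hK w)).symm (t : ℂ)‖ ^ w.mult
      = t ^ 2
    rw [norm_symm119, hm, Complex.norm_real, Real.norm_of_nonneg ht.le]
  have h2 : ∀ v : HeightOneSpectrum (𝓞 K),
      ‖((rayUnit119 hK t ht.ne' : (Adl K)ˣ) : Adl K).2 v‖ = 1 := by
    intro v
    show ‖(1 : v.adicCompletion K)‖ = 1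
    exact norm_one
  simp only [h1, h2, finprod_one, mul_one, Finset.prod_const, Finset.card_univ]

/-- The scalar matrix of an idele. -/
def scal119 (u : (Adl K)ˣ) : G K :=
  Units.map (Matrix.scalar (Fin 2) : Adl K →+* Matrix (Fin 2) (Fin 2) (Adl K)).toMonoidHom u

theorem scal_val119 (u : (Adl K)ˣ) :
    ((scal119 u : G K) : Matrix (Fin 2) (Fin 2) (Adl K)) = Matrix.scalar (Fin 2) (u : Adl K) :=
  rfl

theorem scal_comm119 (u : (Adl K)ˣ) (g : G K) : scal119 u * g = g * scal119 u := by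
  apply Units.ext
  show Matrix.scalar (Fin 2) (u : Adl K) * (g : Matrix (Fin 2) (Fin 2) (Adl K))
    = (g : Matrix (Fin 2) (Fin 2) (Adl K)) * Matrix.scalar (Fin 2) (u : Adl K)
  exact (Matrix.scalar_commute (u : Adl K) (fun r => Commute.all _ _) _).eq

theorem det_scal119 (u : (Adl K)ˣ) : Matrix.GeneralLinearGroup.det (scal119 u) = u * u := by
  apply Units.ext
  show Matrix.det (Matrix.scalar (Fin 2) (u : Adl K)) = (u : Adl K) * u
  rw [Matrix.scalar_apply, Matrix.det_diagonal, Fin.prod_univ_two]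

theorem nrm_scal119 (hK : TotCplx K) (t : ℝ) (ht : 0 < t) :
    nrm119 (scal119 (rayUnit119 hK t ht.ne')) = t ^ (4 * Fintype.card (InfinitePlace K)) := by
  rw [nrm_eq119, det_scal119, T1.H309.adNorm_mul309, adNorm_rayUnit119 hK t ht]
  ring


end Ray

/-! ## Real numbers: the tiling of `(1/2, 1]` -/

theorem lt_one_of_pow119 (c : ℝ) (l : ℕ) (hcl : c ^ l = 1 / 2) : c < 1 := by
  by_contra h
  have h1 : 1 ≤ c := not_lt.mp h
  have h2 : 1 ≤ c ^ l := one_le_pow₀ h1
  rw [hcl] at h2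
  norm_num at h2

theorem exists_tile119 (c : ℝ) (l : ℕ) (hl : 0 < l) (hcl : c ^ l = 1 / 2) (x : ℝ)
    (hx1 : 1 / 2 < x) (hx2 : x ≤ 1) : ∃ j < l, c ^ (j + 1) < x ∧ x ≤ c ^ j := by
  classical
  have hex : ∃ j : ℕ, c ^ (j + 1) < x := ⟨l - 1, by rw [Nat.sub_add_cancel hl, hcl]; exact hx1⟩
  have hfind := Nat.find_spec hex
  have hle : Nat.find hex ≤ l - 1 :=
    Nat.find_min' hex (by rw [Nat.sub_add_cancel hl, hcl]; exact hx1)
  refine ⟨Nat.find hex, by omega, hfind, ?_⟩
  rcases Nat.eq_zero_or_pos (Nat.find hex) with h0 | hpos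
  · rw [h0, pow_zero]; exact hx2
  · have hmin := Nat.find_min hex (m := Nat.find hex - 1) (by omega)
    rw [Nat.sub_add_cancel hpos] at hmin
    exact not_lt.mp hmin

theorem tile_unique119 (c : ℝ) (hc0 : 0 < c) (hc1 : c < 1) {j j' : ℕ} {x : ℝ}
    (h1 : c ^ (j + 1) < x) (h2 : x ≤ c ^ j) (h1' : c ^ (j' + 1) < x) (h2' : x ≤ c ^ j') :
    j = j' := by
  have key : ∀ a b : ℕ, c ^ (a + 1) < x → x ≤ c ^ b → ¬ a < b := by
    intro a b ha hb hab
    have h3 : c ^ b ≤ c ^ (a + 1) := pow_le_pow_of_le_one hc0.le hc1.le hab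
    linarith
  have hA := key j j' h1 h2'
  have hB := key j' j h1' h2
  omega

theorem slab_pow_iff119 (c : ℝ) (l : ℕ) (hc : 0 < c) (hl : 0 < l) (hcl : c ^ l = 1 / 2) (s : ℝ)
    (hs : 0 < s) : (1 ≤ (s ^ l)⁻¹ ∧ (s ^ l)⁻¹ < 2) ↔ (c < s ∧ s ≤ 1) := by
  have hsl : 0 < s ^ l := pow_pos hs l
  have hl0 : l ≠ 0 := hl.ne'
  constructor
  · rintro ⟨h1, h2⟩
    have h3 : s ^ l ≤ 1 := by
      rw [one_le_inv₀ hsl] at h1; exact h1
    have h4 : c ^ l < s ^ l := by
      rw [hcl]
      rw [inv_lt_comm₀ hsl (by norm_num)] at h2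
      linarith
    refine ⟨lt_of_pow_lt_pow_left₀ l hs.le h4, ?_⟩
    by_contra hcon
    have : 1 < s ^ l := one_lt_pow₀ (not_le.mp hcon) hl0
    linarith
  · rintro ⟨h1, h2⟩
    have h3 : s ^ l ≤ 1 := pow_le_one₀ hs.le h2
    have h4 : c ^ l < s ^ l := pow_lt_pow_left₀ h1 hc.le hl0
    rw [hcl] at h4
    refine ⟨(one_le_inv₀ hsl).mpr h3, ?_⟩
    rw [inv_lt_comm₀ hsl (by norm_num)]
    linarith


/-! ## The tori -/

section OneField

variable {K : Type} [Field K] [NumberField K]

/-- Membership in the (untwisted) adelic centraliser. -/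
theorem mem_tA_id_iff119 (γ : GL (Fin 2) K) (x : G K) :
    x ∈ H305.tA305 (T5.AdelicAut.id K) γ ↔ x * T5.ratG γ = T5.ratG γ * x := by
  show x⁻¹ * T5.ratG γ * (T5.AdelicAut.id K).onG x = T5.ratG γ ↔ _
  rw [T5.onG_id]
  constructor
  · intro h
    calc x * T5.ratG γ = x * (x⁻¹ * T5.ratG γ * x) := by rw [h]
      _ = T5.ratG γ * x := by group
  · intro h
    calc x⁻¹ * T5.ratG γ * x = x⁻¹ * (T5.ratG γ * x) := by group
      _ = x⁻¹ * (x * T5.ratG γ) := by rw [h]
      _ = T5.ratG γ := by group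

/-- Membership in the (untwisted) rational centraliser. -/
theorem mem_twStab_id_iff119 (γ g : GL (Fin 2) K) :
    g ∈ T5.twStab (T5.AdelicAut.id K) γ ↔ g * γ = γ * g := by
  show g⁻¹ * γ * (T5.AdelicAut.id K).onRat g = γ ↔ _
  rw [T5.onRat_id]
  constructor
  · intro h
    calc g * γ = g * (g⁻¹ * γ * g) := by rw [h]
      _ = γ * g := by group
  · intro h
    calc g⁻¹ * γ * g = g⁻¹ * (γ * g) := by group
      _ = g⁻¹ * (g * γ) := by rw [h]
      _ = γ := by group

theorem ratG_mem_tA119 (γ : GL (Fin 2) K) (g : T5.twStab (T5.AdelicAut.id K) γ) :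
    T5.ratG (g : GL (Fin 2) K) ∈ H305.tA305 (T5.AdelicAut.id K) γ := by
  rw [mem_tA_id_iff119, ← map_mul, ← map_mul, (mem_twStab_id_iff119 γ g).mp g.2]

/-- The discriminant of `ratG γ` is a unit if `γ` is regular. -/
theorem isUnit_disc_ratG119 (γ : GL (Fin 2) K) (hreg : T6.IsReg γ) :
    IsUnit (((T5.ratG γ : G K) : Matrix (Fin 2) (Fin 2) (Adl K)).trace ^ 2
      - 4 * ((T5.ratG γ : G K) : Matrix (Fin 2) (Fin 2) (Adl K)).det) := by
  have h1 : ((T5.ratG γ : G K) : Matrix (Fin 2) (Fin 2) (Adl K))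
      = (algebraMap K (Adl K)).mapMatrix (γ : Matrix (Fin 2) (Fin 2) K) := rfl
  have h2 : ((T5.ratG γ : G K) : Matrix (Fin 2) (Fin 2) (Adl K)).trace ^ 2
      - 4 * ((T5.ratG γ : G K) : Matrix (Fin 2) (Fin 2) (Adl K)).det
      = algebraMap K (Adl K) (T6.disc γ) := by
    rw [h1, ← RingHom.map_det]
    unfold T6.disc
    rw [map_sub, map_mul, map_pow]
    congr 1
    · congr 1
      rw [Matrix.trace_fin_two, Matrix.trace_fin_two, map_add]
      rfl
    · congr 1
      exact (map_ofNat (algebraMap K (Adl K)) 4).symm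
  rw [h2]
  exact hreg.map (algebraMap K (Adl K))

/-- The adelic centraliser of a regular element is commutative. -/
theorem tA_comm119 (γ : GL (Fin 2) K) (hreg : T6.IsReg γ) (x y : G K)
    (hx : x ∈ H305.tA305 (T5.AdelicAut.id K) γ) (hy : y ∈ H305.tA305 (T5.AdelicAut.id K) γ) :
    x * y = y * x :=
  gl_comm_of_comm_reg119 (T5.ratG γ) x y (isUnit_disc_ratG119 γ hreg)
    ((mem_tA_id_iff119 γ x).mp hx) ((mem_tA_id_iff119 γ y).mp hy)

end OneField


section OneField
variable {K : Type} [Field K] [NumberField K]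

/-- **The fundamental domain downstairs** in the form of `measure_eq_of_strictFD119`. -/
theorem exists_unique_down119 (γ : GL (Fin 2) K) (hreg : T6.IsReg γ) (Fγ : Set (G K))
    (hF : T5.IsTwDomain (T5.AdelicAut.id K) γ Fγ) (t : G K)
    (ht : t ∈ H305.tA305 (T5.AdelicAut.id K) γ) (hts : t⁻¹ ∈ T5.slab K) :
    ∃! g : T5.twStab (T5.AdelicAut.id K) γ, (T5.ratG (g : GL (Fin 2) K) * t)⁻¹ ∈ Fγ := by
  have hinv : ∀ g : T5.twStab (T5.AdelicAut.id K) γ,
      (T5.ratG (g : GL (Fin 2) K) * t)⁻¹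
        = T5.ratG ((g⁻¹ : T5.twStab (T5.AdelicAut.id K) γ) : GL (Fin 2) K) * t⁻¹ := by
    intro g
    have hc := tA_comm119 γ hreg _ _ (ratG_mem_tA119 γ g) ht
    rw [hc, mul_inv_rev, Subgroup.coe_inv, map_inv]
  obtain ⟨g₀, hg₀, huniq⟩ := hF.strict t⁻¹ hts
  refine ⟨g₀⁻¹, ?_, ?_⟩
  · show (T5.ratG ((g₀⁻¹ : T5.twStab (T5.AdelicAut.id K) γ) : GL (Fin 2) K) * t)⁻¹ ∈ Fγ
    rw [hinv, inv_inv]
    exact hg₀
  · intro g hg
    have hg' : (T5.ratG (g : GL (Fin 2) K) * t)⁻¹ ∈ Fγ := hg
    rw [hinv] at hg'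
    have := huniq g⁻¹ hg'
    rw [← this, inv_inv]

end OneField

section TwoFields

variable {K K' : Type} [Field K] [NumberField K] [Field K'] [NumberField K'] [Algebra K K']

theorem isCyclicData_of119 (D : CompData K K') (hD : IsCompData D) :
    T6.IsCyclicData K K' D.l (algebraMap K K') D.s.σ where
  pos := hD.cyc.pos
  fix_i x := (hD.cyc.fixed _).1 ((hD.base _).2 ⟨x, rfl⟩)
  fixed y hy := (hD.base y).1 ((hD.cyc.fixed y).2 hy)
  order := hD.cyc.pow_eq
  faithful := hD.cyc.faithful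

theorem normUpTo_eq119 (s : T5.AdelicAut K') (n : ℕ) (δ : GL (Fin 2) K') :
    s.normUpTo n δ = T6.twNorm s.σ n δ := by
  induction n with
  | zero => rfl
  | succ n ih =>
    show δ * s.onRat (s.normUpTo n δ) = δ * T6.glAut s.σ (T6.twN (T6.glAut s.σ) n δ)
    rw [ih]
    rfl

/-- `ι ∘ ratG = ratG ∘ (K → K')`. -/
theorem map_ratG119 {s : T5.AdelicAut K'} {l : ℕ} {ι : Adl K →+* Adl K'}
    (hι : H305.IsAdeleBase305 s l ι) (g : GL (Fin 2) K) :
    Matrix.GeneralLinearGroup.map ι (T5.ratG g)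
      = T5.ratG (Matrix.GeneralLinearGroup.map (algebraMap K K') g) := by
  apply Units.ext
  ext i j
  exact hι.rat _

/-- The module of `ι t`. -/
theorem nrm_map119 {s : T5.AdelicAut K'} {l : ℕ} {ι : Adl K →+* Adl K'}
    (hι : H305.IsAdeleBase305 s l ι) (t : G K) :
    nrm119 (Matrix.GeneralLinearGroup.map ι t) = nrm119 t ^ l := by
  have h1 : Matrix.det ((Matrix.GeneralLinearGroup.map ι t : G K') :
      Matrix (Fin 2) (Fin 2) (Adl K')) = ι (Matrix.det (t : Matrix (Fin 2) (Fin 2) (Adl K))) := by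
    rw [RingHom.map_det]
    rfl
  unfold nrm119
  rw [h1]
  exact hι.norm (Matrix.GeneralLinearGroup.det t)

theorem map_injective119 (g h : GL (Fin 2) K)
    (hgh : Matrix.GeneralLinearGroup.map (algebraMap K K') g
      = Matrix.GeneralLinearGroup.map (algebraMap K K') h) : g = h := by
  apply Units.ext
  ext i j
  have := congrArg (fun z : GL (Fin 2) K' => (z : Matrix (Fin 2) (Fin 2) K') i j) hgh
  exact (algebraMap K K').injective this

/-- **The fundamental domain upstairs**, pulled back by `ι`, in the form of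
`measure_eq_of_strictFD119`. -/
theorem exists_unique_up119 (D : CompData K K') (hD : IsCompData D) (ι : Adl K →+* Adl K')
    (hι : H305.IsAdeleBase305 D.s D.l ι) (δ : GL (Fin 2) K') (γ : GL (Fin 2) K)
    (hreg : T6.IsReg γ)
    (hN : D.s.normUpTo D.l δ = Matrix.GeneralLinearGroup.map (algebraMap K K') γ)
    (Fδ : Set (G K')) (hF : T5.IsTwDomain D.s δ Fδ) (t : G K)
    (ht : t ∈ H305.tA305 (T5.AdelicAut.id K) γ)
    (hts : (Matrix.GeneralLinearGroup.map ι t)⁻¹ ∈ T5.slab K') :
    ∃! g : T5.twStab (T5.AdelicAut.id K) γ,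
      (Matrix.GeneralLinearGroup.map ι (T5.ratG (g : GL (Fin 2) K) * t))⁻¹ ∈ Fδ := by
  have hcyc := isCyclicData_of119 D hD
  have hN' : T6.twNorm D.s.σ D.l δ = Matrix.GeneralLinearGroup.map (algebraMap K K') γ := by
    rw [← normUpTo_eq119]; exact hN
  have hTC := T6.H166.twCentC166 K K' D.l (algebraMap K K') D.s.σ hcyc δ γ hreg hN'
  have hinv : ∀ g : T5.twStab (T5.AdelicAut.id K) γ,
      (Matrix.GeneralLinearGroup.map ι (T5.ratG (g : GL (Fin 2) K) * t))⁻¹
        = T5.ratG (Matrix.GeneralLinearGroup.map (algebraMap K K')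
            ((g⁻¹ : T5.twStab (T5.AdelicAut.id K) γ) : GL (Fin 2) K))
          * (Matrix.GeneralLinearGroup.map ι t)⁻¹ := by
    intro g
    have hc := tA_comm119 γ hreg _ _ (ratG_mem_tA119 γ g) ht
    rw [hc, map_mul, mul_inv_rev, map_ratG119 hι, Subgroup.coe_inv, map_inv, map_inv]
  obtain ⟨x₀, hx₀, huniq⟩ := hF.strict _ hts
  have hx₀mem : T6.InTwCent D.s.σ δ (x₀ : GL (Fin 2) K') := x₀.2
  obtain ⟨t₀, ht₀c, ht₀⟩ := (hTC _).mp hx₀mem
  have ht₀mem : t₀ ∈ T5.twStab (T5.AdelicAut.id K) γ := (mem_twStab_id_iff119 γ t₀).mpr ht₀c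
  refine ⟨(⟨t₀, ht₀mem⟩ : T5.twStab (T5.AdelicAut.id K) γ)⁻¹, ?_, ?_⟩
  · show (Matrix.GeneralLinearGroup.map ι (T5.ratG
      (((⟨t₀, ht₀mem⟩ : T5.twStab (T5.AdelicAut.id K) γ)⁻¹ :
        T5.twStab (T5.AdelicAut.id K) γ) : GL (Fin 2) K) * t))⁻¹ ∈ Fδ
    rw [hinv, inv_inv]
    show T5.ratG (Matrix.GeneralLinearGroup.map (algebraMap K K') t₀)
      * (Matrix.GeneralLinearGroup.map ι t)⁻¹ ∈ Fδ
    rw [← ht₀]
    exact hx₀
  · intro g hg
    have hg' : (Matrix.GeneralLinearGroup.map ι (T5.ratG (g : GL (Fin 2) K) * t))⁻¹ ∈ Fδ := hg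
    rw [hinv] at hg'
    have hmem : Matrix.GeneralLinearGroup.map (algebraMap K K')
        ((g⁻¹ : T5.twStab (T5.AdelicAut.id K) γ) : GL (Fin 2) K) ∈ T5.twStab D.s δ := by
      have : T6.InTwCent D.s.σ δ (Matrix.GeneralLinearGroup.map (algebraMap K K')
          ((g⁻¹ : T5.twStab (T5.AdelicAut.id K) γ) : GL (Fin 2) K)) :=
        (hTC _).mpr ⟨_, (mem_twStab_id_iff119 γ _).mp (g⁻¹).2, rfl⟩
      exact this
    have h1 := huniq ⟨_, hmem⟩ hg'
    have h2 : Matrix.GeneralLinearGroup.map (algebraMap K K')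
        ((g⁻¹ : T5.twStab (T5.AdelicAut.id K) γ) : GL (Fin 2) K)
        = Matrix.GeneralLinearGroup.map (algebraMap K K') t₀ := by
      have := congrArg (fun z : T5.twStab D.s δ => (z : GL (Fin 2) K')) h1
      simp only at this
      rw [this, ht₀]
    have h3 := map_injective119 _ _ h2
    apply Subtype.ext
    show (g : GL (Fin 2) K) = ((⟨t₀, ht₀mem⟩ : T5.twStab (T5.AdelicAut.id K) γ)⁻¹ :
      T5.twStab (T5.AdelicAut.id K) γ)
    rw [Subgroup.coe_inv] at h3 ⊢
    show (g : GL (Fin 2) K) = t₀⁻¹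
    rw [← h3, inv_inv]

end TwoFields


/-! ## The main theorem -/

section Main

variable {K K' : Type} [Field K] [NumberField K] [Field K'] [NumberField K'] [Algebra K K']

theorem continuous_glMap119 {ι : Adl K →+* Adl K'} (hc : Continuous ι) :
    Continuous (fun g : G K => Matrix.GeneralLinearGroup.map ι g) := by
  rw [Units.continuous_iff]
  constructor
  · show Continuous fun g : G K => ((g : Matrix (Fin 2) (Fin 2) (Adl K))).map ι
    exact Continuous.matrix_map Units.continuous_val hc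
  · show Continuous fun g : G K => (((g⁻¹ : G K) : Matrix (Fin 2) (Fin 2) (Adl K))).map ι
    exact Continuous.matrix_map Units.continuous_coe_inv hc

theorem scal_pow_inv_comm119 (u : (Adl K)ˣ) (j : ℕ) (g : G K) :
    (scal119 u ^ j)⁻¹ * g = g * (scal119 u ^ j)⁻¹ := by
  have h1 : Commute (scal119 u) g := scal_comm119 u g
  exact ((h1.pow_left j).inv_left).eq

/-- **Leaf C2.6 `TorCompC305`**, VERBATIM. -/
theorem torCompC119 : H305.TorCompC305 K K' := by
  intro D hD hcycE hTC ι hι δ γ hell hN Fδ Fγ hFδ hFγ μT μT' hμT hμT' hlink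
  classical
  have hreg : T6.IsReg γ := hell.1
  have hl : 0 < D.l := hD.cyc.pos
  letI mT : MeasurableSpace (H305.tA305 (T5.AdelicAut.id K) γ) := borel _
  haveI : BorelSpace (H305.tA305 (T5.AdelicAut.id K) γ) := ⟨rfl⟩
  haveI : BorelSpace (G K) := ⟨rfl⟩
  haveI : BorelSpace (G K') := ⟨rfl⟩
  haveI : μT.IsHaarMeasure := hμT
  haveI : Countable (T5.twStab (T5.AdelicAut.id K) γ) := by
    haveI := countable_gl119 K
    infer_instance
  -- the embedding of the rational points
  let e : T5.twStab (T5.AdelicAut.id K) γ →* H305.tA305 (T5.AdelicAut.id K) γ :=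
    { toFun := fun g => ⟨T5.ratG (g : GL (Fin 2) K), ratG_mem_tA119 γ g⟩
      map_one' := Subtype.ext (map_one T5.ratG)
      map_mul' := fun a b => Subtype.ext (map_mul T5.ratG _ _) }
  have he : ∀ (g : T5.twStab (T5.AdelicAut.id K) γ) (t : H305.tA305 (T5.AdelicAut.id K) γ),
      ((e g * t : H305.tA305 (T5.AdelicAut.id K) γ) : G K)
        = T5.ratG (g : GL (Fin 2) K) * (t : G K) := fun _ _ => rfl
  -- the central element
  have hc : 0 < Fintype.card (InfinitePlace K) := Fintype.card_pos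
  set t₀ : ℝ := (2 : ℝ) ^ (-(1 : ℝ) / ((4 * Fintype.card (InfinitePlace K) * D.l : ℕ) : ℝ))
    with ht₀def
  have ht₀ : 0 < t₀ := Real.rpow_pos_of_pos (by norm_num) _
  set ρ : G K := scal119 (rayUnit119 hTC t₀ ht₀.ne') with hρdef
  set c₀ : ℝ := t₀ ^ (4 * Fintype.card (InfinitePlace K)) with hc₀def
  have hρn : nrm119 ρ = c₀ := nrm_scal119 hTC t₀ ht₀
  have hc₀ : 0 < c₀ := pow_pos ht₀ _
  have hc₀l : c₀ ^ D.l = 1 / 2 := by
    rw [hc₀def, ← pow_mul, ← Real.rpow_natCast, ht₀def, ← Real.rpow_mul (by norm_num)]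
    have hne : ((4 * Fintype.card (InfinitePlace K) * D.l : ℕ) : ℝ) ≠ 0 := by
      have : 4 * Fintype.card (InfinitePlace K) * D.l ≠ 0 := by positivity
      exact_mod_cast this
    rw [div_mul_cancel₀ _ hne, Real.rpow_neg_one]
    norm_num
  have hc₀1 : c₀ < 1 := lt_one_of_pow119 c₀ D.l hc₀l
  have hρT : ρ ∈ H305.tA305 (T5.AdelicAut.id K) γ :=
    (mem_tA_id_iff119 γ ρ).mpr (scal_comm119 _ _)
  let ρT : H305.tA305 (T5.AdelicAut.id K) γ := ⟨ρ, hρT⟩
  have hρj : ∀ (j : ℕ) (t : H305.tA305 (T5.AdelicAut.id K) γ),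
      (((ρT ^ j)⁻¹ * t : H305.tA305 (T5.AdelicAut.id K) γ) : G K) = (ρ ^ j)⁻¹ * (t : G K) :=
    fun _ _ => rfl
  have hnρj : ∀ (j : ℕ) (t : H305.tA305 (T5.AdelicAut.id K) γ),
      nrm119 ((ρ ^ j)⁻¹ * (t : G K)) = (c₀ ^ j)⁻¹ * nrm119 (t : G K) := by
    intro j t
    rw [nrm_mul119, nrm_inv119, nrm_pow119, hρn]
  -- the sets
  let S : Set (H305.tA305 (T5.AdelicAut.id K) γ) := {t | ((t : G K))⁻¹ ∈ T5.slab K}
  let E : Set (H305.tA305 (T5.AdelicAut.id K) γ) := {t | ((t : G K))⁻¹ ∈ Fγ}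
  let E₁ : Set (H305.tA305 (T5.AdelicAut.id K) γ) :=
    {t | (Matrix.GeneralLinearGroup.map ι (t : G K))⁻¹ ∈ Fδ}
  let B : ℕ → Set (H305.tA305 (T5.AdelicAut.id K) γ) :=
    fun j => (fun t : H305.tA305 (T5.AdelicAut.id K) γ => (ρT ^ j)⁻¹ * t) ⁻¹' E₁
  -- measurability
  have hEm : MeasurableSet E := by
    have hcont : Continuous fun t : H305.tA305 (T5.AdelicAut.id K) γ => ((t : G K))⁻¹ :=
      continuous_subtype_val.inv
    exact hcont.measurable hFγ.meas
  have hE₁m : MeasurableSet E₁ := by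
    have hcont : Continuous fun t : H305.tA305 (T5.AdelicAut.id K) γ =>
        (Matrix.GeneralLinearGroup.map ι (t : G K))⁻¹ :=
      ((continuous_glMap119 hι.cont).comp continuous_subtype_val).inv
    exact hcont.measurable hFδ.meas
  have hBm : ∀ j, MeasurableSet (B j) := fun j => measurable_const_mul _ hE₁m
  -- the modules
  have hSiff : ∀ t : H305.tA305 (T5.AdelicAut.id K) γ,
      t ∈ S ↔ 1 / 2 < nrm119 (t : G K) ∧ nrm119 (t : G K) ≤ 1 := by
    intro t
    have h := slab_pow_iff119 (1 / 2) 1 (by norm_num) (by norm_num) (by norm_num)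
      (nrm119 (t : G K)) (nrm_pos119 _)
    rw [pow_one] at h
    rw [← h]
    show ((t : G K))⁻¹ ∈ T5.slab K ↔ _
    rw [mem_slab_iff119, nrm_inv119]
  have hupiff : ∀ t : G K, (Matrix.GeneralLinearGroup.map ι t)⁻¹ ∈ T5.slab K' ↔
      c₀ < nrm119 t ∧ nrm119 t ≤ 1 := by
    intro t
    rw [← slab_pow_iff119 c₀ D.l hc₀ hl hc₀l (nrm119 t) (nrm_pos119 _), mem_slab_iff119,
      nrm_inv119, nrm_map119 hι]
  have hBn : ∀ (j : ℕ) (t : H305.tA305 (T5.AdelicAut.id K) γ), t ∈ B j →
      c₀ ^ (j + 1) < nrm119 (t : G K) ∧ nrm119 (t : G K) ≤ c₀ ^ j := by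
    intro j t ht
    have h1 : (Matrix.GeneralLinearGroup.map ι ((ρ ^ j)⁻¹ * (t : G K)))⁻¹ ∈ Fδ := ht
    have h2 := (hupiff _).mp (hFδ.sub h1)
    rw [hnρj] at h2
    have hcj : 0 < c₀ ^ j := pow_pos hc₀ j
    constructor
    · have := h2.1
      rw [lt_inv_mul_iff₀ hcj] at this
      rw [pow_succ']
      linarith [mul_comm (c₀ ^ j) c₀]
    · have := h2.2
      rw [inv_mul_le_iff₀ hcj] at this
      linarith
  have hES : E ⊆ S := fun t ht => hFγ.sub ht
  have hBS : (⋃ j ∈ Finset.range D.l, B j) ⊆ S := by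
    intro t ht
    simp only [Set.mem_iUnion, Finset.mem_range] at ht
    obtain ⟨j, hj, htj⟩ := ht
    obtain ⟨h1, h2⟩ := hBn j t htj
    rw [hSiff]
    constructor
    · have h3 : c₀ ^ D.l ≤ c₀ ^ (j + 1) := pow_le_pow_of_le_one hc₀.le hc₀1.le (by omega)
      rw [hc₀l] at h3
      linarith
    · have h3 : c₀ ^ j ≤ 1 := pow_le_one₀ hc₀.le hc₀1.le
      linarith
  -- the two fundamental domains
  have hAu : ∀ t ∈ S, ∃! g : T5.twStab (T5.AdelicAut.id K) γ, e g * t ∈ E := by
    intro t ht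
    exact exists_unique_down119 γ hreg Fγ hFγ (t : G K) t.2 ht
  have hBu : ∀ t ∈ S, ∃! g : T5.twStab (T5.AdelicAut.id K) γ,
      e g * t ∈ ⋃ j ∈ Finset.range D.l, B j := by
    intro t ht
    obtain ⟨hn1, hn2⟩ := (hSiff t).mp ht
    obtain ⟨j, hj, hj1, hj2⟩ := exists_tile119 c₀ D.l hl hc₀l _ hn1 hn2
    have hcj : 0 < c₀ ^ j := pow_pos hc₀ j
    have hs : (Matrix.GeneralLinearGroup.map ι ((ρ ^ j)⁻¹ * (t : G K)))⁻¹ ∈ T5.slab K' := by
      rw [hupiff, hnρj]
      constructor
      · rw [lt_inv_mul_iff₀ hcj]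
        rw [pow_succ'] at hj1
        linarith [mul_comm (c₀ ^ j) c₀]
      · rw [inv_mul_le_iff₀ hcj]
        linarith
    have hsT : (ρ ^ j)⁻¹ * (t : G K) ∈ H305.tA305 (T5.AdelicAut.id K) γ :=
      ((ρT ^ j)⁻¹ * t).2
    obtain ⟨g, hg, hu⟩ := exists_unique_up119 D hD ι hι δ γ hreg hN Fδ hFδ _ hsT hs
    have hswap : ∀ g' : T5.twStab (T5.AdelicAut.id K) γ,
        (ρ ^ j)⁻¹ * (T5.ratG (g' : GL (Fin 2) K) * (t : G K))
          = T5.ratG (g' : GL (Fin 2) K) * ((ρ ^ j)⁻¹ * (t : G K)) := by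
      intro g'
      rw [← mul_assoc, scal_pow_inv_comm119, mul_assoc]
    refine ⟨g, ?_, ?_⟩
    · simp only [Set.mem_iUnion, Finset.mem_range]
      refine ⟨j, hj, ?_⟩
      show (Matrix.GeneralLinearGroup.map ι
        ((ρ ^ j)⁻¹ * (T5.ratG (g : GL (Fin 2) K) * (t : G K))))⁻¹ ∈ Fδ
      rw [hswap]
      exact hg
    · intro g' hg'
      simp only [Set.mem_iUnion, Finset.mem_range] at hg'
      obtain ⟨j', hj', hg'j⟩ := hg'
      obtain ⟨h1, h2⟩ := hBn j' _ hg'j
      have hnorm : nrm119 ((e g' * t : H305.tA305 (T5.AdelicAut.id K) γ) : G K)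
          = nrm119 (t : G K) := by
        rw [he, nrm_mul119, nrm_ratG119, one_mul]
      rw [hnorm] at h1 h2
      have hjj : j' = j := tile_unique119 c₀ hc₀ hc₀1 h1 h2 hj1 hj2
      subst hjj
      apply hu
      have h3 : (Matrix.GeneralLinearGroup.map ι
        ((ρ ^ j')⁻¹ * (T5.ratG (g' : GL (Fin 2) K) * (t : G K))))⁻¹ ∈ Fδ := hg'j
      rw [hswap] at h3
      exact h3
  have hmain : μT E = μT (⋃ j ∈ Finset.range D.l, B j) :=
    measure_eq_of_strictFD119 e μT S E _ hEm
      (Finset.measurableSet_biUnion _ fun j _ => hBm j) hES hBS hAu hBu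
  -- the sum over the translates
  have hdisj : ((Finset.range D.l : Finset ℕ) : Set ℕ).PairwiseDisjoint B := by
    intro j _ j' _ hjj'
    show Disjoint (B j) (B j')
    rw [Set.disjoint_left]
    intro t htj htj'
    obtain ⟨h1, h2⟩ := hBn j t htj
    obtain ⟨h1', h2'⟩ := hBn j' t htj'
    exact hjj' (tile_unique119 c₀ hc₀ hc₀1 h1 h2 h1' h2')
  have hsum : μT (⋃ j ∈ Finset.range D.l, B j) = ∑ j ∈ Finset.range D.l, μT (B j) :=
    measure_biUnion_finset hdisj fun j _ => hBm j
  have hBj : ∀ j, μT (B j) = μT E₁ := fun j => measure_preimage_mul μT _ _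
  -- the linked measures
  have hlinkE : μT' {t : H305.tA305 D.s δ | ((t : G K'))⁻¹ ∈ Fδ} = μT E₁ :=
    hlink (Inv.inv ⁻¹' Fδ) (continuous_inv.measurable hFδ.meas)
  show μT E = (D.l : ENNReal) * μT' {t : H305.tA305 D.s δ | ((t : G K'))⁻¹ ∈ Fδ}
  rw [hmain, hsum, Finset.sum_congr rfl (fun j _ => hBj j), Finset.sum_const, Finset.card_range,
    nsmul_eq_mul, hlinkE]

end Main

end Fermat.Agent.LT.T7.H119

end

end
-- ===== PACK-END LT/T7/H119/TorComp.lean

-- ===== PACK-BEGIN LT/T7/H362/Change.lean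
section





/-!
# Row LT, tower T7, leaf T7.L2.2.C `ChangeC561` (registry row 2189, helper362)

OFF-MAIN.  `changeC_of362 K' : T1.AddFundDomC K' → T7.H561.ChangeC561 K'`, the Prop of
`LT/T7/H561/SpecUpSpec.lean` (helper561) VERBATIM, and
`changeC_of_T1Out362 K' : T1.T1Out K' → T7.H561.ChangeC561 K'`.
The hypothesis is closed (tower T1, `T1.t1Out` of helper54): see `ChangeClosed.lean`.

Proof: `ChangeCore.lean` (rebasing along finite blocks, asset `T7/H44/Rebase.lean` of helper44,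
with the analytic inputs of `ChangeLin.lean`).
-/

set_option autoImplicit false

open IsDedekindDomain NumberField MeasureTheory
open scoped ComplexConjugate

noncomputable section

namespace Fermat.Agent.LT.T7.H362

open Fermat.Agent.LT.H556.A0

attribute [local instance] Fermat.Agent.LT.T5.instMeasurableSpaceG

/-- **LEAF T7.L2.2.C = CHANGE**, from the finiteness of the measure of a fundamental domain of
`K'` in the adeles (`T1.AddFundDomC`, closed). -/
theorem changeC_of362 (K' : Type) [Field K'] [NumberField K']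
    (hT : Fermat.Agent.LT.T1.AddFundDomC K') : Fermat.Agent.LT.T7.H561.ChangeC561 K' := by
  intro s 𝔫 μ F r hF _ _ e₀ he ι n idx hinj hnorm Q hQ
  exact changeCore362 hT s 𝔫 μ F r hF e₀ he ι n idx hinj hnorm Q hQ

/-- **LEAF T7.L2.2.C = CHANGE**, from the output of tower T1. -/
theorem changeC_of_T1Out362 (K' : Type) [Field K'] [NumberField K']
    (hT : Fermat.Agent.LT.T1.T1Out K') : Fermat.Agent.LT.T7.H561.ChangeC561 K' :=
  changeC_of362 K' hT.addFundDom

end Fermat.Agent.LT.T7.H362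

end
end
-- ===== PACK-END LT/T7/H362/Change.lean

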