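import Mathlib
import Fermat.Agent.Pack.LT2.E7L3
import Fermat.Agent.Pack.LT3.E21L3
import Fermat.Agent.Pack.LT3.E10L2
import Fermat.Agent.Pack.LT3.E21L0
import Fermat.Agent.Pack.LT2.E10L0
import Fermat.Agent.Pack.LT2.E0L2
import Fermat.Agent.Pack.LT2.E2L1
import Fermat.Agent.Pack.LT2.E3L1
import Fermat.Agent.Pack.LT2.E16L2
import Fermat.Agent.Pack.LT3.E1L1
import Fermat.Agent.Pack.LT3.E21L1
import Fermat.Agent.Pack.LT3.E2L0
import Fermat.Agent.Pack.LT3.E13L2
import Fermat.Agent.Pack.LT2.E4L2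
import Fermat.Agent.Pack.LT2.E6L1
import Fermat.Agent.Pack.LT3.E1L3
import Fermat.Agent.Pack.LT3.E5L2

set_option linter.all false

-- ===== PACK-BEGIN LT/T7/H16/PosDef.lean
section




/-!
# Row LT, tower T7, asset T7.L2.R (helper16): `T5.innerD` is positive definite on continuous
automorphic functions

OFF-MAIN.  `innerD_self_ne_zero16`: a continuous bounded function `ψ ≢ 0` on
`GL₂(K) ⟨r⟩ \ GL₂(𝔸_K)` has `⟨ψ, ψ⟩ ≠ 0` (unfolding `lintegral_unfold599` of helper599: if
`∫_F ‖ψ‖² = 0` then `∫_{GL₂(𝔸_K)} ‖ψ‖² = 0`, and a Haar measure is positive on open sets).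
Consequence `isRegParam_of_eig16'`: the hypothesis `innerD μ F ψ ψ ≠ 0` of
`isRegParam_of_eig16` may be replaced by `∃ x, ψ x ≠ 0`.
-/

set_option autoImplicit false

open IsDedekindDomain NumberField MeasureTheory
open scoped ComplexConjugate ENNReal

noncomputable section

namespace Fermat.Agent.LT.T7.H16

open Fermat.Agent.LT.H556.A0 Fermat.Agent.LT.T5 Fermat.Agent.LT.T7

attribute [local instance] Fermat.Agent.LT.T5.instMeasurableSpaceG

variable {K : Type} [Field K] [NumberField K]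

variable {μ : Measure (G K)} {F : Set (G K)} {r : G K}

theorem innerD_self_ne_zero16 (hN : T1.AdNormC K) (hF : IsFrame μ F) (hr : IsRayGen r)
    {ψ : G K → ℂ} (hψ : IsAutBdd16 r ψ) (hne : ∃ x : G K, ψ x ≠ 0) :
    innerD μ F ψ ψ ≠ 0 := by
  have hB : BorelSpace (G K) := T5.H277.borelSpaceG277
  have hH := hF.haar
  intro h0
  rw [innerD_self16] at h0
  have hN0 : ∫ x in F, ‖ψ x‖ ^ 2 ∂μ = 0 := Complex.ofReal_eq_zero.1 h0
  -- the function `‖ψ‖²` with values in `[0, ∞]`
  set f : G K → ℝ≥0∞ := fun x => ENNReal.ofReal (‖ψ x‖ ^ 2) with hf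
  have hcont : Continuous fun x => ‖ψ x‖ ^ 2 := (continuous_norm.comp hψ.cont).pow 2
  have hint : IntegrableOn (fun x => ‖ψ x‖ ^ 2) F μ := by
    obtain ⟨C, hC⟩ := hψ.bdd
    refine Measure.integrableOn_of_bounded (M := C ^ 2) hF.finite.ne hcont.aestronglyMeasurable
      (Filter.Eventually.of_forall fun g => ?_)
    rw [Real.norm_eq_abs, abs_of_nonneg (by positivity)]
    exact pow_le_pow_left₀ (norm_nonneg _) (hC g) 2
  have hF0 : ∫⁻ x in F, f x ∂μ = 0 := by
    rw [hf, ← ofReal_integral_eq_lintegral_ofReal hint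
      (Filter.Eventually.of_forall fun x => by positivity), hN0, ENNReal.ofReal_zero]
  have hinv : ∀ (p : T5.H599.Gam599 K) (x : G K), f (T5.H599.iota599 hr p * x) = f x := by
    intro p x
    have : ψ (T5.H599.iota599 hr p * x) = ψ x := by
      rw [T5.H599.iota_apply599, mul_assoc, hψ.left_inv,
        T5.H599.zpow_commute599 hr, T7.H277.zpow_inv_of_ray277 hψ.ray]
    simp only [hf, this]
  have hG0 : ∫⁻ x, f x ∂μ = 0 := by
    rw [T5.H599.lintegral_unfold599 hN hF hr f]
    simp only [hinv, hF0, tsum_zero]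
  have hfm : Measurable f := (ENNReal.measurable_ofReal.comp hcont.measurable)
  have hae : f =ᵐ[μ] 0 := (lintegral_eq_zero_iff hfm).1 hG0
  have hopen : IsOpen {x : G K | ψ x ≠ 0} := isOpen_ne_fun hψ.cont continuous_const
  have hzero : μ {x : G K | ψ x ≠ 0} = 0 := by
    rw [measure_eq_zero_iff_ae_notMem]
    refine hae.mono fun x hx hx' => ?_
    have h1 : f x = 0 := hx
    rw [hf] at h1
    have h2 : ‖ψ x‖ ^ 2 ≤ 0 := ENNReal.ofReal_eq_zero.1 h1
    have h4 : ‖ψ x‖ ^ 2 = 0 := le_antisymm h2 (sq_nonneg _)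
    have h3 : ‖ψ x‖ = 0 := (pow_eq_zero_iff two_ne_zero).1 h4
    exact hx' (norm_eq_zero.1 h3)
  obtain ⟨x, hx⟩ := hne
  have hempty := (hopen.measure_eq_zero_iff μ).1 hzero
  have : x ∈ ({x : G K | ψ x ≠ 0} : Set (G K)) := hx
  rw [hempty] at this
  exact this

/-- **T7.L2.R**, second form: the eigenfunction is not identically zero. -/
theorem isRegParam_of_eig16' (hN : T1.AdNormC K) (hF : IsFrame μ F) (hr : IsRayGen r)
    {𝔫 : Ideal (𝓞 K)} {l : ℕ} {o : ℕ → HeightOneSpectrum (𝓞 K)} (hl : 0 < l) {ψ : G K → ℂ}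
    (hψ : IsWFn 𝔫 r l o ψ) (hne : ∃ x : G K, ψ x ≠ 0) {H : Finset (G K)}
    (hH : IsIwCosetSystem (o 0) H) {z : G K} (hz : IsScalarUniformizerAt (o 0) z) {b lam : ℂ}
    (hU : ∀ x : G K, iwOp (o 0) H ψ x = lam * ψ x)
    (hZ : ∀ x : G K, shiftOp z 1 ψ x = b * ψ x) :
    IsRegParam (Real.sqrt (Ideal.absNorm (o 0).asIdeal : ℝ)) b lam :=
  isRegParam_of_eig16 hN hF hr hl hψ
    (innerD_self_ne_zero16 hN hF hr (isAutBdd16_of_cusp hψ.cusp) hne) hH hz hU hZ

end Fermat.Agent.LT.T7.H16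

end

end
-- ===== PACK-END LT/T7/H16/PosDef.lean

-- ===== PACK-BEGIN LT/T7/H736/NonVan.lean
section



/-!
# Row LT, tower T7, node T7.L2.2.N `NonVanC` (sub-architect helper736): THE CUT (level 4), v0.1

OFF-MAIN.  Definitions, frozen Prop, PROVED top.  No hole, nothing assumed.  ADDITIVE.

    nonVanC_of : ClassModelC K K' → NonVanC K K'

The abstract engine is CLOSED: `H616.exists_gen_twisted_trace_ne_zero616` (helper616,
`T7/H616/RegTrace3.lean`, Mathlib + main `S29/H872/Burnside`): for a non-zero finite-dimensional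
space `V`, sets of operators `𝒢`, `ℐ 0, …, ℐ (l-1)` and an invertible `S` with the relations
below, there is ONE `T ∈ 𝒢` with `tr(T S) ≠ 0`.

## The node `ClassModelC` (deputy sub-architect: helper616; simplicity: helper963; Iwahori
## kit: helper83)

For base-stable data there is a MODEL `(V, 𝒢, ℐ, S, Sinv)` of the class space of `Φ` at the base
level:
* `V` ≅ the span of the invariant eigenfunctions with data `eigOf Φ` (`IsEigFn 𝔑₀ r ℓ o ψ
  (eigOf Φ)`): finite-dimensional (T2: Hilbert--Schmidt bound) and NON-ZERO (the form of `Φ`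
  lies in it: `𝔑₀ ≤ Φ.level`, the orbit is prime to `Φ.level`);
* `𝒢` = the operators `cosetOp Hg` on `V`, `g` bad, `IsDblCosetSystem 𝔑₀ g Hg`
  (`1 ∈ 𝒢`: `g = 1`, `Hg = {1}`; `hmul`: a product of two double coset operators is a
  combination of double coset operators of bad elements);
* `ℐ j` = the operators of the Iwahori--Hecke algebra at `o j` on `V` (sums of right translates
  over `I x I / I`, `x` supported at `o j`);
* `S = R(σ)`, `Sinv = R(σ)⁻¹` on `V` (`BaseStable`, `IsL2Data.const`: the class of `Φ` is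
  `σ`-stable), `S ^ ℓ = 1`, `R(σ)⁻¹ R(h) R(σ) = R(σ⁻¹ h)` moves `ℐ (j+1)` to `ℐ j`;
* `hirr` = MULTIPLICITY ONE IN MODULE FORM (helper963, `LT/H963/Cyclic.lean`, from
  `T2.H941.MatchC`): `V` is a simple module under `𝒢` and the `ℐ j`;
* `dict`: every `T ∈ 𝒢` is the model of `cosetOp Hg` for a bad `g`, and for EVERY finite
  orthonormal basis `(q j)_{j ∈ J}` of the class space the sum of the diagonal coefficients
  `∑_{j ∈ J} ⟨[U g U] R(σ) q_j, q_j⟩` is the trace of `T S` on `V`.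
-/

set_option autoImplicit false

open AutomorphicForm IsDedekindDomain NumberField MeasureTheory
open scoped ComplexConjugate

noncomputable section

namespace Fermat.Agent.LT.T7.SU736

open Fermat.Agent.LT.H556 Fermat.Agent.LT.H556.A0 Fermat.Agent.LT.T7

attribute [local instance] Fermat.Agent.LT.T5.instMeasurableSpaceG

section Defs

variable {K K' : Type} [Field K] [NumberField K] [Field K'] [NumberField K'] [Algebra K K']

/-- **THE MODEL OF THE CLASS SPACE OF `Φ`**: the hypotheses of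
`H616.exists_gen_twisted_trace_ne_zero616` and the dictionary with the twisted traces of the
double coset operators of the bad elements.  See the header. -/
structure IsClassModel (Dt : L2Data K K') (ℓ : ℕ) (Φ : HeckeEigensystem K' ℂ)
    (V : Type) [AddCommGroup V] [Module ℂ V]
    (𝒢 : Set (Module.End ℂ V)) (ℐ : ℕ → Set (Module.End ℂ V)) (S Sinv : Module.End ℂ V) :
    Prop where
  hS : S * Sinv = 1
  hS' : Sinv * S = 1
  hGI : ∀ j < ℓ, ∀ g ∈ 𝒢, ∀ h ∈ ℐ j, g * h = h * g
  hII : ∀ i < ℓ, ∀ j < ℓ, i ≠ j → ∀ h ∈ ℐ i, ∀ h' ∈ ℐ j, h * h' = h' * h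
  hdown : ∀ j, j + 1 < ℓ → ∀ h ∈ ℐ (j + 1), Sinv * h * S ∈ Algebra.adjoin ℂ (ℐ j)
  hwrap : ∀ h ∈ ℐ 0, Sinv * h * S ∈ Algebra.adjoin ℂ (ℐ (ℓ - 1))
  hcent : ∀ h ∈ ℐ 0, S ^ ℓ * h = h * S ^ ℓ
  hirr : ∀ W : Submodule ℂ V, (∀ g ∈ 𝒢, W ≤ W.comap g) →
    (∀ j < ℓ, ∀ h ∈ ℐ j, W ≤ W.comap h) → W = ⊥ ∨ W = ⊤
  h1 : (1 : Module.End ℂ V) ∈ Submodule.span ℂ 𝒢
  hmul : ∀ x ∈ 𝒢, ∀ y ∈ 𝒢, x * y ∈ Submodule.span ℂ 𝒢
  dict : ∀ T ∈ 𝒢, ∃ (g : G K') (Hg : Finset (G K')), Dt.IsBad g ∧
    IsDblCosetSystem Dt.𝔑₀ g Hg ∧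
    ∀ (q : ℕ → G K' → ℂ) (J : Finset ℕ),
      IsClassBasisOn Dt.𝔑₀ Dt.R' ℓ Dt.o (eigOf Φ) q J →
        twTrace Dt.s Dt.R' Hg q J = LinearMap.trace ℂ V (T * S)

end Defs

section Node

variable (K K' : Type) [Field K] [NumberField K] [Field K'] [NumberField K'] [Algebra K K']

/-- **NODE T7.L2.2.N.1 = CLASS-MODEL.**  The class space of `Φ` at the base level has a model
as in `IsClassModel`.  See the header. -/
def ClassModelC : Prop :=
  ∀ ℓ : ℕ, IsCycExt K K' ℓ → ℓ ≠ 2 → TotCplx K →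
    ∀ Φ : HeckeEigensystem K' ℂ, A0.IsCuspAdelicSph0 K' Φ → ConstOnFibres K Φ →
      ∀ Dt : L2Data K K', IsL2Data ℓ Φ Dt → BaseStable Dt →
        ∃ (V : Type) (_ : AddCommGroup V) (_ : Module ℂ V) (_ : FiniteDimensional ℂ V)
          (_ : Nontrivial V) (𝒢 : Set (Module.End ℂ V)) (ℐ : ℕ → Set (Module.End ℂ V))
          (S Sinv : Module.End ℂ V), IsClassModel Dt ℓ Φ V 𝒢 ℐ S Sinv

end Node

section Top

variable {K K' : Type} [Field K] [NumberField K] [Field K'] [NumberField K'] [Algebra K K']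

/-- **THE TOP OF THE NODE `NonVanC`.** -/
theorem nonVanC_of (h : ClassModelC K K') : NonVanC K K' := by
  intro ℓ hcyc hℓ hcplx Φ hΦ hconst Dt hDt hst
  obtain ⟨V, i1, i2, i3, i4, 𝒢, ℐ, S, Sinv, hM⟩ := h ℓ hcyc hℓ hcplx Φ hΦ hconst Dt hDt hst
  have hl : 0 < ℓ := hcyc.prime.pos
  obtain ⟨T, hT, hne⟩ := H616.exists_gen_twisted_trace_ne_zero616 ℓ hl 𝒢 ℐ S Sinv hM.hS hM.hS'
    hM.hGI hM.hII hM.hdown hM.hwrap hM.hcent hM.hirr hM.h1 hM.hmul
  obtain ⟨g, Hg, hg, hHg, hd⟩ := hM.dict T hT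
  refine ⟨g, Hg, hg, hHg, fun q J hq => ?_⟩
  rw [hd q J hq]
  exact hne

/-- `SpecUpCS` from the two nodes of level 4 and the closed tower T5. -/
theorem specUpCS_of_nodes (hE : ExpUpC K K') (hM : ClassModelC K K') : SpecUpCS K K' :=
  specUpCS_of hE (nonVanC_of hM)

end Top

/-! ## Appendix (v0.1, additive): the equation lemmas of the definitions are realised HERE -/

theorem eqns_realised_nonVan736 : True := by
  have _a1 := @ClassModelC.eq_1
  have _a2 := @ClassModelC.eq_def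
  have _a3 := @ClassModelC.eq_unfold
  trivial

end Fermat.Agent.LT.T7.SU736

end

end
-- ===== PACK-END LT/T7/H736/NonVan.lean

-- ===== PACK-BEGIN LT/T7/H176/TranslInner.lean
section



/-!
# Row LT, tower T7, node T7.L2.1 `SupplyC`, part PROJ: the shared tool `TranslInnerC` (helper176)

OFF-MAIN.  `translInnerC176 : T1.AdNormC K → H40.TranslInnerC K` (VERBATIM vs
`LT/T7/H40/ProjSpec.lean` of helper40, sha256 ac5b80ed):

for a frame `(μ, F)`, the ray generator `r`, a function `Ψ` which is left invariant under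
`GL₂(K)` and right invariant under `r`, and EVERY `h ∈ GL₂(𝔸_K)`:
`∫_F Ψ(x h) dμ = ∫_F Ψ dμ`.

Proof: the countable group `Γ = GL₂(K) × ℤ` acts on `GL₂(𝔸_K)` by `(γ, m) • g = γ g rᵐ`,
preserving `μ`; `F` is a strict fundamental domain (`hF.strict` + the slab, `T5/H277/Ray.lean`
of helper277), and so is `F h` (`r` is central: the right translation by `h⁻¹` commutes with the
action); an invariant function has the same integral on two fundamental domains
(`IsFundamentalDomain.setIntegral_eq`).  Continuity and boundedness of `Ψ` are not needed.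

Imports: byte-identical copies of `ProjSpec.lean` and of `T5/H277/{Basic,Ray,Unfold,Coeff}.lean`
with their closures.
-/

set_option autoImplicit false

open AutomorphicForm IsDedekindDomain NumberField MeasureTheory
open scoped ComplexConjugate

noncomputable section

namespace Fermat.Agent.LT.T7.H176

open Fermat.Agent.LT.H556 Fermat.Agent.LT.H556.A0 Fermat.Agent.LT.T5 Fermat.Agent.LT.T7

attribute [local instance] Fermat.Agent.LT.T5.instMeasurableSpaceG

variable {K : Type} [Field K] [NumberField K]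

/-- The action of `GL₂(K) × ℤ` on `GL₂(𝔸_K)`: `(γ, m) • g = γ g rᵐ`. -/
@[instance_reducible]
def rayAct176 (r : G K) : MulAction (GL (Fin 2) K × Multiplicative ℤ) (G K) where
  smul i g := ratG i.1 * g * r ^ (Multiplicative.toAdd i.2)
  one_smul g := by
    show ratG (1 : GL (Fin 2) K × Multiplicative ℤ).1 * g
      * r ^ (Multiplicative.toAdd (1 : GL (Fin 2) K × Multiplicative ℤ).2) = g
    simp
  mul_smul i j g := by
    show ratG (i * j).1 * g * r ^ (Multiplicative.toAdd (i * j).2)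
      = ratG i.1 * (ratG j.1 * g * r ^ (Multiplicative.toAdd j.2))
        * r ^ (Multiplicative.toAdd i.2)
    rw [Prod.fst_mul, Prod.snd_mul, map_mul, toAdd_mul, add_comm, zpow_add]
    simp only [mul_assoc]

theorem rayAct_smul176 (r : G K) (i : GL (Fin 2) K × Multiplicative ℤ) (g : G K) :
    (rayAct176 r).smul i g = ratG i.1 * g * r ^ (Multiplicative.toAdd i.2) := rfl

/-- The action is by tiles of helper277 (for the identity automorphism). -/
theorem rayAct_eq_tile176 (r : G K) (i : GL (Fin 2) K × Multiplicative ℤ) :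
    (fun g : G K => (rayAct176 r).smul i g)
      = H277.tile277 (AdelicAut.id K) r (i.1, Multiplicative.toAdd i.2) := by
  funext g
  rw [rayAct_smul176]
  unfold H277.tile277
  rw [onG_id]

/-- For every `x` exactly one translate `γ x rᵐ` lies in `F`. -/
theorem existsUnique_rayAct176 (hN : T1.AdNormC K) {μ : Measure (G K)} {F : Set (G K)}
    {r : G K} (hF : IsFrame μ F) (hr : IsRayGen r) (x : G K) :
    ∃! i : GL (Fin 2) K × Multiplicative ℤ, (rayAct176 r).smul i x ∈ F := by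
  obtain ⟨m, hm⟩ := H277.exists_zpow_mem_slab277 hN hr x
  obtain ⟨γ, hγ, hγu⟩ := hF.strict _ hm
  refine ⟨(γ, Multiplicative.ofAdd m), ?_, ?_⟩
  · show (rayAct176 r).smul (γ, Multiplicative.ofAdd m) x ∈ F
    rw [rayAct_smul176]
    simpa only [mul_assoc, toAdd_ofAdd] using hγ
  · rintro ⟨γ', m'⟩ hi
    have hi' : ratG γ' * (x * r ^ (Multiplicative.toAdd m')) ∈ F := by
      have := hi
      rw [rayAct_smul176] at this
      simpa only [mul_assoc] using this
    have hs : x * r ^ (Multiplicative.toAdd m') ∈ slab K := by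
      have h1 := hF.sub hi'
      rw [H277.mem_slab_iff277] at h1 ⊢
      rwa [H277.nd277_mul hN, H277.nd277_ratG hN, one_mul] at h1
    have hmm : Multiplicative.toAdd m' = m := by
      have e : x * r ^ (Multiplicative.toAdd m') * r ^ (-Multiplicative.toAdd m')
          = x * r ^ m * r ^ (-m) := by
        rw [mul_assoc, mul_assoc, ← zpow_add, ← zpow_add, add_neg_cancel, add_neg_cancel]
      have := H277.zpow_eq_of_mem_slab277 hN hr _ _ hs hm e
      omega
    have hγ' : γ' = γ := by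
      apply hγu
      show ratG γ' * (x * r ^ m) ∈ F
      rw [← hmm]
      exact hi'
    have hm' : m' = Multiplicative.ofAdd m := by
      rw [← hmm, ofAdd_toAdd]
    rw [hγ', hm']

/-- **Shared tool `TranslInnerC`** (cut of helper40), from `T1.AdNormC`. -/
theorem translInnerC176 (hN : T1.AdNormC K) : H40.TranslInnerC K := by
  intro μ F r hF hr Ψ _ _ hΨl hΨr h
  have hB : BorelSpace (G K) := H277.borelSpaceG277
  have hH : μ.IsHaarMeasure := hF.haar
  have hC : Countable (GL (Fin 2) K) := H277.countable_GL277 K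
  let _ : MulAction (GL (Fin 2) K × Multiplicative ℤ) (G K) := rayAct176 r
  have hsmul : ∀ (i : GL (Fin 2) K × Multiplicative ℤ) (g : G K),
      i • g = ratG i.1 * g * r ^ (Multiplicative.toAdd i.2) := fun _ _ => rfl
  have hP : AutPreserves (AdelicAut.id K) (⊤ : Ideal (𝓞 K)) μ r := autPreserves_id ⊤ μ r
  have hmp : ∀ i : GL (Fin 2) K × Multiplicative ℤ,
      MeasurePreserving (fun g : G K => i • g) μ μ := by
    intro i
    have h1 := H277.tile_mp277 hF hP (i.1, Multiplicative.toAdd i.2)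
    rwa [← rayAct_eq_tile176 r i] at h1
  have : MeasurableConstSMul (GL (Fin 2) K × Multiplicative ℤ) (G K) :=
    ⟨fun i => (hmp i).measurable⟩
  have : SMulInvariantMeasure (GL (Fin 2) K × Multiplicative ℤ) (G K) μ :=
    ⟨fun i A hA => (hmp i).measure_preimage hA.nullMeasurableSet⟩
  -- `F` is a fundamental domain
  have hfd : IsFundamentalDomain (GL (Fin 2) K × Multiplicative ℤ) F μ :=
    IsFundamentalDomain.mk' hF.meas.nullMeasurableSet
      (fun x => existsUnique_rayAct176 hN hF hr x)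
  -- the right translation by `h⁻¹`
  have hmeas : Measurable (fun y : G K => y * h⁻¹) := (continuous_mul_const _).measurable
  have hmpT : MeasurePreserving (fun y : G K => y * h⁻¹) μ μ := by
    refine ⟨hmeas, ?_⟩
    ext A hA
    rw [Measure.map_apply hmeas hA]
    exact hF.right_inv _ A hA
  have hemb : MeasurableEmbedding (fun y : G K => y * h⁻¹) :=
    (Homeomorph.mulRight h⁻¹).measurableEmbedding
  -- `F h` is a fundamental domain
  have hfd' : IsFundamentalDomain (GL (Fin 2) K × Multiplicative ℤ)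
      ((fun y : G K => y * h⁻¹) ⁻¹' F) μ := by
    refine hfd.preimage_of_equiv hmpT.quasiMeasurePreserving (e := id)
      Function.bijective_id (fun i y => ?_)
    show (i • y) * h⁻¹ = i • (y * h⁻¹)
    rw [hsmul, hsmul]
    have hc := H277.ray_zpow_comm277 hr h⁻¹ (Multiplicative.toAdd i.2)
    rw [mul_assoc, mul_assoc, mul_assoc, hc]
    simp only [mul_assoc]
  -- invariance of `Ψ`
  have hΨinv : ∀ (i : GL (Fin 2) K × Multiplicative ℤ) (x : G K), Ψ (i • x) = Ψ x := by
    intro i x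
    rw [hsmul, H277.ray_zpow_inv277 hΨr, hΨl]
  have e1 := hfd.setIntegral_eq hfd' hΨinv
  have e2 := hmpT.setIntegral_preimage_emb hemb (fun x => Ψ (x * h)) F
  simp only [inv_mul_cancel_right] at e2
  rw [← e2, ← e1]

end Fermat.Agent.LT.T7.H176

end

end
-- ===== PACK-END LT/T7/H176/TranslInner.lean

-- ===== PACK-BEGIN LT/T7/H193/KillSpec.lean
section







/-!
# Row LT, tower T7, node T7.L2.1 `SupplyC`, sub-stations KILL and NATURAL (sub-architect helper193)

OFF-MAIN.  Definitions, frozen leaf Props, PROVED tops.  No `sorry`, nothing assumed.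
On `ProjSpec.lean` (sha256 977a85e3, frozen) and the same vocabulary.

## KILL (the shape of the fields `kill_up`, `kill_down` of `T7.IsL2Data`)

    kill193 : T1.T1Out K → ProjLeaves K → KillLeaves K → IsFrame5 R → 𝔑 ≠ ⊥ → 𝔑 ≤ 𝔑₀ →
      Continuous φ → HasCompactSupport φ → IsRightHInv 𝔑₀ l o φ → AbsorbsPos R.μ 𝔑₀ R.r φ →
      ∀ ψ, T5.IsCuspFn 𝔑 T5.trivType R.r ψ →
        (∀ χ, IsWFn 𝔑₀ R.r l o χ → T5.innerD R.μ R.F ψ χ = 0) →
        ∀ x, T5.Rconv R.μ φ ψ x = 0

A test function which is right invariant under `H = I_o · U(𝔑₀)` and absorbs the positive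
scalars at infinity kills the cusp functions of level `𝔑` orthogonal to the invariant ones:
`R(φ) ψ = R(φ) P_f ψ = R(φ) P_∞ P_f ψ`, and `P_∞ P_f ψ` is an invariant cusp function orthogonal
to all invariant cusp functions, hence `0` almost everywhere.

## NATURAL (ruling R1 of the chief: `φ ↦ φ♮`)

`nat193 a D φ (g) = vol(D)⁻¹ ∫_D φ(g a(t)⁻¹) dt`.  Leaves: `nat193` preserves test functions,
Eisenstein-killing (also of the adjoint), commutes with the convolution on either side,
`R(φ♮) e = R(φ) (P_∞ e)`, `φ♮` absorbs the positive scalars.  PROVED packaging `natural193`.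
-/

set_option autoImplicit false

open IsDedekindDomain NumberField MeasureTheory
open scoped ComplexConjugate

noncomputable section

namespace Fermat.Agent.LT.T7.H193

open Fermat.Agent.LT.H556 Fermat.Agent.LT.H556.A0 Fermat.Agent.LT

attribute [local instance] Fermat.Agent.LT.T5.instMeasurableSpaceG

/-! ## 1. Vocabulary -/

section Vocab

variable {K : Type} [Field K] [NumberField K]

/-- A positive scalar at infinity: `1` at the finite places, a positive real scalar matrix at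
every infinite place (not necessarily the same at all places). -/
def IsPosInf (z : G K) : Prop :=
  (∀ v : HeightOneSpectrum (𝓞 K), TrivAtFin v z) ∧
    ∀ w : InfinitePlace K, ∃ ρ : ℝ, 0 < ρ ∧ infComp w z = Matrix.diagonal fun _ => (ρ : ℂ)

/-- `φ` is right invariant under `H = I_o · U(𝔑₀)`. -/
def IsRightHInv (𝔑₀ : Ideal (𝓞 K)) (l : ℕ) (o : ℕ → HeightOneSpectrum (𝓞 K))
    (φ : G K → ℂ) : Prop :=
  (∀ u : G K, InLevelGroup 𝔑₀ u → ∀ y : G K, φ (y * u) = φ y) ∧
    ∀ i : G K, IsIwElt l o i → ∀ y : G K, φ (y * i) = φ y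

/-- `R(φ)` absorbs the positive scalars at infinity on the cusp functions of level `𝔑₀`:
`R(φ) (e(· z)) = R(φ) e`. -/
def AbsorbsPos (μ : Measure (G K)) (𝔑₀ : Ideal (𝓞 K)) (r : G K) (φ : G K → ℂ) : Prop :=
  ∀ z : G K, IsPosInf z → ∀ e : G K → ℂ, T5.IsCuspFn 𝔑₀ T5.trivType r e →
    ∀ x : G K, T5.Rconv μ φ (fun y => e (y * z)) x = T5.Rconv μ φ e x

/-- `φ♮ (g) = vol(D)⁻¹ ∫_D φ(g a(t)⁻¹) dt`. -/
def nat193 (a : (InfinitePlace K → ℝ) → G K) (D : Set (InfinitePlace K → ℝ)) (φ : G K → ℂ) :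
    G K → ℂ :=
  fun g => (((volume D).toReal : ℝ) : ℂ)⁻¹ * ∫ t in D, φ (g * (a t)⁻¹)

end Vocab

/-! ## 2. The leaves of KILL -/

section KillLeaves

variable (K : Type) [Field K] [NumberField K]

/-- **LEAF KILL.1 = RCONV-FIN-AVG.**  `R(φ) (P_f e) = R(φ) e` for `φ` right invariant under `H`:
`∫ φ(y) e(x y h) dy = ∫ φ(y h⁻¹) e(x y) dy = ∫ φ(y) e(x y) dy` (`IsFrame.right_inv`,
`h = i u ∈ Rep`), linearity (the integrands are continuous of compact support). -/
def RconvFinAvgC : Prop :=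
  T1.T1Out K → ∀ R : Frame5 K, IsFrame5 R →
    ∀ (𝔑 𝔑₀ : Ideal (𝓞 K)) (l : ℕ) (o : ℕ → HeightOneSpectrum (𝓞 K)) (Rep : Finset (G K)),
    IsFinData 𝔑 𝔑₀ l o Rep →
    ∀ φ : G K → ℂ, Continuous φ → HasCompactSupport φ → IsRightHInv 𝔑₀ l o φ →
    ∀ e : G K → ℂ, Continuous e →
      ∀ x : G K, T5.Rconv R.μ φ (finAvg Rep e) x = T5.Rconv R.μ φ e x

/-- **LEAF KILL.2 = RCONV-TOR-AVG.**  `R(φ) (P_∞ e) = R(φ) e` for `φ` absorbing the positive
scalars: Fubini on `G × D` (`φ` continuous of compact support, `e` bounded continuous, `D` bounded)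
and `AbsorbsPos` for `z = a t`. -/
def RconvTorAvgC : Prop :=
  T1.T1Out K → ∀ R : Frame5 K, IsFrame5 R →
    ∀ (𝔑₀ : Ideal (𝓞 K)) (a : (InfinitePlace K → ℝ) → G K) (D : Set (InfinitePlace K → ℝ)),
    IsTorusData 𝔑₀ R.r a D →
    ∀ φ : G K → ℂ, Continuous φ → HasCompactSupport φ → AbsorbsPos R.μ 𝔑₀ R.r φ →
    ∀ e : G K → ℂ, T5.IsCuspFn 𝔑₀ T5.trivType R.r e →
      ∀ x : G K, T5.Rconv R.μ φ (torAvg a D e) x = T5.Rconv R.μ φ e x

/-- **LEAF KILL.3 = NULL.**  A bounded continuous function, left `GL₂(K)`-invariant and right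
`r`-invariant, of norm `0` on the fundamental domain vanishes almost everywhere on `GL₂(𝔸_K)`
(the translates `γ rⁿ F` cover: asset helper599 `isFundamentalDomain599`), so `R(φ) e = 0` for
every `φ` (left translations preserve the null sets). -/
def NullC : Prop :=
  T1.T1Out K → ∀ R : Frame5 K, IsFrame5 R → ∀ e : G K → ℂ, Continuous e →
    (∃ C : ℝ, ∀ g : G K, ‖e g‖ ≤ C) →
    (∀ (γ : GL (Fin 2) K) (x : G K), e (T5.ratG γ * x) = e x) →
    (∀ x : G K, e (x * R.r) = e x) →
    T5.innerD R.μ R.F e e = 0 →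
    ∀ (φ : G K → ℂ) (x : G K), T5.Rconv R.μ φ e x = 0

/-- The leaves of the sub-station KILL. -/
structure KillLeaves : Prop where
  rconvFinAvg : RconvFinAvgC K
  rconvTorAvg : RconvTorAvgC K
  null : NullC K

end KillLeaves

/-! ## 3. The leaves of NATURAL -/

section NatLeaves

variable (K : Type) [Field K] [NumberField K]

/-- **LEAF NAT.1 = NAT-BASIC.**  `φ♮` is continuous (dominated convergence), of compact support
(`supp φ♮ ⊆ supp φ · a(closure D)`), bi-invariant (`a t` is central). -/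
def NatBasicC : Prop :=
  T1.T1Out K → ∀ (𝔑 : Ideal (𝓞 K)) (r : G K) (a : (InfinitePlace K → ℝ) → G K)
    (D : Set (InfinitePlace K → ℝ)), IsTorusData 𝔑 r a D →
    ∀ (𝔫 : Ideal (𝓞 K)) (φ : G K → ℂ), T5.IsTestFn 𝔫 T5.trivType φ →
      Continuous (nat193 a D φ) ∧ HasCompactSupport (nat193 a D φ) ∧
        T5.IsBiInvariant 𝔫 T5.trivType (nat193 a D φ)

/-- **LEAF NAT.2 = NAT-SMOOTH.**  `φ♮` is smooth at infinity: for a smooth family `h`,
`φ♮(g h(t)) = vol(D)⁻¹ ∫_D φ(g H(t, s)) ds` with the smooth family `H(t, s) = h(t) a(s)⁻¹` in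
`n + #{places at ∞}` parameters; `(t, s) ↦ φ(g H(t, s))` is `C^∞` (`IsSmoothAtInf φ`) and the
integral over the bounded set `D` of a jointly `C^∞` function is `C^∞` in the parameter
(asset: helper984 `LT/T3/H984/ParamInt.lean`). -/
def NatSmoothC : Prop :=
  T1.T1Out K → ∀ (𝔑 : Ideal (𝓞 K)) (r : G K) (a : (InfinitePlace K → ℝ) → G K)
    (D : Set (InfinitePlace K → ℝ)), IsTorusData 𝔑 r a D →
    ∀ φ : G K → ℂ, Continuous φ → HasCompactSupport φ → T5.IsSmoothAtInf φ →
      T5.IsSmoothAtInf (nat193 a D φ)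

/-- **LEAF NAT.3 = NAT-OP.**  `R(φ♮) e = R(φ) (P_∞ e)` for every continuous `e`: Fubini on
`G × D` and the right invariance of `μ` (`y ↦ y a(t)`). -/
def NatOpC : Prop :=
  T1.T1Out K → ∀ R : Frame5 K, IsFrame5 R →
    ∀ (𝔑 : Ideal (𝓞 K)) (r : G K) (a : (InfinitePlace K → ℝ) → G K)
      (D : Set (InfinitePlace K → ℝ)), IsTorusData 𝔑 r a D →
    ∀ φ : G K → ℂ, Continuous φ → HasCompactSupport φ →
    ∀ e : G K → ℂ, Continuous e →
      ∀ x : G K, T5.Rconv R.μ (nat193 a D φ) e x = T5.Rconv R.μ φ (torAvg a D e) x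

/-- **LEAF NAT.4 = NAT-EK.**  `φ♮` is Eisenstein-killing if `φ` is: by `NatOpC`,
`R(φ♮) Ψ = R(φ) (P_∞ Ψ)`, and `P_∞ Ψ` is Borel-invariant (continuous: dominated convergence on
compact sets; left invariances: clear; ray: `a t` is central). -/
def NatEKC : Prop :=
  T1.T1Out K → NatOpC K → ∀ R : Frame5 K, IsFrame5 R →
    ∀ (𝔑 : Ideal (𝓞 K)) (r : G K) (a : (InfinitePlace K → ℝ) → G K)
      (D : Set (InfinitePlace K → ℝ)), IsTorusData 𝔑 r a D →
    ∀ φ : G K → ℂ, Continuous φ → HasCompactSupport φ → T5.IsEK R.μ φ →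
      T5.IsEK R.μ (nat193 a D φ)

/-- **LEAF NAT.5 = NAT-ADJ-EK.**  The adjoint of `φ♮` is Eisenstein-killing if the adjoint of
`φ` is: `(φ♮)* (g) = vol(D)⁻¹ ∫_D φ*(g a(t)) dt`, so
`R((φ♮)*) Ψ (x) = vol(D)⁻¹ ∫_D R(φ*) (Ψ(· a(t)⁻¹)) (x) dt = 0` (Fubini, right invariance of `μ`;
`Ψ(· a(t)⁻¹)` is Borel-invariant). -/
def NatAdjEKC : Prop :=
  T1.T1Out K → ∀ R : Frame5 K, IsFrame5 R →
    ∀ (𝔑 : Ideal (𝓞 K)) (r : G K) (a : (InfinitePlace K → ℝ) → G K)
      (D : Set (InfinitePlace K → ℝ)), IsTorusData 𝔑 r a D →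
    ∀ φ : G K → ℂ, Continuous φ → HasCompactSupport φ → T5.IsEK R.μ (T5.adjointFn φ) →
      T5.IsEK R.μ (T5.adjointFn (nat193 a D φ))

/-- **LEAF NAT.6 = NAT-CONV.**  `♮` commutes with the convolution on either side:
`φ₁♮ ⋆ φ₂ = (φ₁ ⋆ φ₂)♮ = φ₁ ⋆ φ₂♮` (Fubini, `a t` central, right invariance of `μ`). -/
def NatConvC : Prop :=
  T1.T1Out K → ∀ R : Frame5 K, IsFrame5 R →
    ∀ (𝔑 : Ideal (𝓞 K)) (r : G K) (a : (InfinitePlace K → ℝ) → G K)
      (D : Set (InfinitePlace K → ℝ)), IsTorusData 𝔑 r a D →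
    ∀ φ₁ φ₂ : G K → ℂ, Continuous φ₁ → HasCompactSupport φ₁ → Continuous φ₂ →
      HasCompactSupport φ₂ →
      (∀ g : G K, T5.conv R.μ (nat193 a D φ₁) φ₂ g = nat193 a D (T5.conv R.μ φ₁ φ₂) g) ∧
      ∀ g : G K, T5.conv R.μ φ₁ (nat193 a D φ₂) g = nat193 a D (T5.conv R.μ φ₁ φ₂) g

/-- **LEAF NAT.7 = NAT-ABSORB.**  `φ♮` absorbs the positive scalars on the cusp functions of the
level of the torus data: by `NatOpC`, `R(φ♮) (e(· z)) = R(φ) (P_∞ (e(· z)))`, `z = a s`
(an element of `GL₂(𝔸_K)` is determined by its components), and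
`P_∞ (e(· a s)) = P_∞ e` (`IsTorusData.mean`). -/
def NatAbsorbC : Prop :=
  T1.T1Out K → NatOpC K → ∀ R : Frame5 K, IsFrame5 R →
    ∀ (𝔑 : Ideal (𝓞 K)) (a : (InfinitePlace K → ℝ) → G K) (D : Set (InfinitePlace K → ℝ)),
    IsTorusData 𝔑 R.r a D →
    ∀ φ : G K → ℂ, Continuous φ → HasCompactSupport φ →
      AbsorbsPos R.μ 𝔑 R.r (nat193 a D φ)

/-- **LEAF NAT.8 = TOR-AVG-FIX.**  `P_∞ e = e` for a function which is right invariant under the
positive scalars at every infinite place (`a t` is the product over `w` of the positive scalars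
`a (Pi.single w (t w))` at `w`; `0 < vol D < ∞`). -/
def TorAvgFixC : Prop :=
  ∀ (𝔑 : Ideal (𝓞 K)) (r : G K) (a : (InfinitePlace K → ℝ) → G K)
    (D : Set (InfinitePlace K → ℝ)), IsTorusData 𝔑 r a D →
    ∀ e : G K → ℂ, (∀ (w : InfinitePlace K) (z : G K), IsArchPosScalar w z →
      ∀ g : G K, e (g * z) = e g) →
    ∀ g : G K, torAvg a D e g = e g

/-- **LEAF NAT.9 = NAT-H-INV.**  `φ♮` is right invariant under `H` if `φ` is (`a t` central). -/
def NatHInvC : Prop :=
  ∀ (𝔑 : Ideal (𝓞 K)) (r : G K) (a : (InfinitePlace K → ℝ) → G K)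
    (D : Set (InfinitePlace K → ℝ)), IsTorusData 𝔑 r a D →
    ∀ (𝔑₀ : Ideal (𝓞 K)) (l : ℕ) (o : ℕ → HeightOneSpectrum (𝓞 K)) (φ : G K → ℂ),
      IsRightHInv 𝔑₀ l o φ → IsRightHInv 𝔑₀ l o (nat193 a D φ)

/-- The leaves of the sub-station NATURAL. -/
structure NatLeaves : Prop where
  basic : NatBasicC K
  smooth : NatSmoothC K
  op : NatOpC K
  ek : NatEKC K
  adjEK : NatAdjEKC K
  conv : NatConvC K
  absorb : NatAbsorbC K
  fix : TorAvgFixC K
  hInv : NatHInvC K

end NatLeaves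

/-! ## 4. The tops (PROVED) -/

section Tops

variable {K : Type} [Field K] [NumberField K]

theorem isPosInf_of_torusData193 {𝔑 : Ideal (𝓞 K)} {r : G K}
    {a : (InfinitePlace K → ℝ) → G K} {D : Set (InfinitePlace K → ℝ)}
    (hD : IsTorusData 𝔑 r a D) (t : InfinitePlace K → ℝ) : IsPosInf (a t) :=
  ⟨fun v => hD.fin t v, fun w => ⟨Real.exp (t w), Real.exp_pos _, hD.inf t w⟩⟩

/-- Subtractivity of the inner product in the first variable, for bounded continuous
functions. -/
theorem innerD_sub193 {μ : Measure (G K)} {F : Set (G K)} (hF : μ F < ⊤)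
    {e₁ e₂ χ : G K → ℂ} (h₁ : Continuous e₁) (h₂ : Continuous e₂) (hχ : Continuous χ)
    (b₁ : ∃ C : ℝ, ∀ g : G K, ‖e₁ g‖ ≤ C) (b₂ : ∃ C : ℝ, ∀ g : G K, ‖e₂ g‖ ≤ C)
    (bχ : ∃ C : ℝ, ∀ g : G K, ‖χ g‖ ≤ C) :
    T5.innerD μ F (fun x => e₁ x - e₂ x) χ = T5.innerD μ F e₁ χ - T5.innerD μ F e₂ χ := by
  unfold T5.innerD
  rw [← integral_sub (integrableOn_mul_conj193 hF h₁ hχ b₁ bχ)
    (integrableOn_mul_conj193 hF h₂ hχ b₂ bχ)]
  refine integral_congr_ae (Filter.Eventually.of_forall fun x => ?_)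
  simp only [sub_mul]

/-- **THE TOP OF THE SUB-STATION KILL.** -/
theorem kill193 (hT1 : T1.T1Out K) (L : ProjLeaves K) (LK : KillLeaves K) (R : Frame5 K)
    (hR : IsFrame5 R) (𝔑 𝔑₀ : Ideal (𝓞 K)) (h𝔑 : 𝔑 ≠ ⊥) (hle : 𝔑 ≤ 𝔑₀) (l : ℕ)
    (o : ℕ → HeightOneSpectrum (𝓞 K)) (φ : G K → ℂ) (hφc : Continuous φ)
    (hφs : HasCompactSupport φ) (hH : IsRightHInv 𝔑₀ l o φ)
    (hA : AbsorbsPos R.μ 𝔑₀ R.r φ) :
    ∀ ψ : G K → ℂ, T5.IsCuspFn 𝔑 T5.trivType R.r ψ →
      (∀ χ : G K → ℂ, IsWFn 𝔑₀ R.r l o χ → T5.innerD R.μ R.F ψ χ = 0) →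
      ∀ x : G K, T5.Rconv R.μ φ ψ x = 0 := by
  intro ψ hψ horth x
  have h𝔑₀ : 𝔑₀ ≠ ⊥ := fun h => h𝔑 (le_bot_iff.mp (h ▸ hle))
  obtain ⟨Rep, hRep⟩ := finDataC_of193 L 𝔑 𝔑₀ h𝔑 hle l o
  obtain ⟨a, D, hD⟩ := torusDataC_of193 L 𝔑₀ h𝔑₀ R.r hR.ray
  obtain ⟨hc, hiw⟩ := L.finAvgCusp hT1 𝔑 𝔑₀ l o Rep hRep R.r hR.ray ψ hψ
  have hW := L.torAvgW hT1 𝔑₀ R.r a D hR.ray hD l o (finAvg Rep ψ) hc hiw
  -- the projection is orthogonal to the invariant cusp functions
  have hproj : ∀ χ : G K → ℂ, IsWFn 𝔑₀ R.r l o χ →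
      T5.innerD R.μ R.F (fun x => ψ x - torAvg a D (finAvg Rep ψ) x) χ = 0 := by
    intro χ hχ
    have e1 := L.finAvgOrth hT1 L.translInv R hR 𝔑 𝔑₀ l o Rep hRep ψ hψ χ hχ.cusp hχ.iw
    have e2 := L.torAvgOrth hT1 L.translInv R hR 𝔑₀ a D hD l o (finAvg Rep ψ) hc χ hχ
    have hsplit : (fun x => ψ x - torAvg a D (finAvg Rep ψ) x)
        = fun x => (ψ x - finAvg Rep ψ x)
          + (finAvg Rep ψ x - torAvg a D (finAvg Rep ψ) x) := by
      funext x
      ring
    have c1 : Continuous fun x => ψ x - finAvg Rep ψ x := hψ.cont.sub hc.cont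
    have c2 : Continuous fun x => finAvg Rep ψ x - torAvg a D (finAvg Rep ψ) x :=
      hc.cont.sub hW.cusp.cont
    rw [hsplit, innerD_add193 hR.frame.finite c1 c2 hχ.cusp.cont (bdd_sub193 hψ.bdd hc.bdd)
      (bdd_sub193 hc.bdd hW.cusp.bdd) hχ.cusp.bdd, e1, e2, add_zero]
  -- so it has norm zero
  have hnorm : T5.innerD R.μ R.F (torAvg a D (finAvg Rep ψ)) (torAvg a D (finAvg Rep ψ)) = 0 := by
    have h1 := hproj _ hW
    rw [innerD_sub193 hR.frame.finite hψ.cont hW.cusp.cont hW.cusp.cont hψ.bdd hW.cusp.bdd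
      hW.cusp.bdd, horth _ hW, zero_sub, neg_eq_zero] at h1
    exact h1
  rw [← LK.rconvFinAvg hT1 R hR 𝔑 𝔑₀ l o Rep hRep φ hφc hφs hH ψ hψ.cont x,
    ← LK.rconvTorAvg hT1 R hR 𝔑₀ a D hD φ hφc hφs hA (finAvg Rep ψ) hc x]
  exact LK.null hT1 R hR _ hW.cusp.cont hW.cusp.bdd hW.cusp.aut.left_inv hW.cusp.aut.ray hnorm φ x

/-- `φ♮` is a test function. -/
theorem isTestFn_nat193 (hT1 : T1.T1Out K) (N : NatLeaves K) {𝔑 : Ideal (𝓞 K)} {r : G K}
    {a : (InfinitePlace K → ℝ) → G K} {D : Set (InfinitePlace K → ℝ)}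
    (hD : IsTorusData 𝔑 r a D) {𝔫 : Ideal (𝓞 K)} {φ : G K → ℂ}
    (hφ : T5.IsTestFn 𝔫 T5.trivType φ) : T5.IsTestFn 𝔫 T5.trivType (nat193 a D φ) := by
  obtain ⟨h1, h2, h3⟩ := N.basic hT1 𝔑 r a D hD 𝔫 φ hφ
  exact ⟨hφ.ktype, h1, h2, N.smooth hT1 𝔑 r a D hD φ hφ.cont hφ.supp hφ.smooth, h3⟩

/-- **THE TOP OF THE SUB-STATION NATURAL**: for the frame `R` and the level `𝔑₀ ≠ 0` there is an
operation `φ ↦ φ♮` on functions which preserves test functions (of every level), the
Eisenstein-killing property of the function and of its adjoint, the right invariance under `H`,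
commutes with the convolution on either side, absorbs the positive scalars at infinity on the
cusp functions of level `𝔑₀`, and satisfies `R(φ♮) e = R(φ) e` on the continuous functions `e`
which are invariant under the positive scalars at the infinite places. -/
theorem natural193 (hT1 : T1.T1Out K) (L : ProjLeaves K) (N : NatLeaves K) (R : Frame5 K)
    (hR : IsFrame5 R) (𝔑₀ : Ideal (𝓞 K)) (h𝔑₀ : 𝔑₀ ≠ ⊥) :
    ∃ nat : (G K → ℂ) → G K → ℂ,
      (∀ (𝔫 : Ideal (𝓞 K)) (φ : G K → ℂ), T5.IsTestFn 𝔫 T5.trivType φ →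
        T5.IsTestFn 𝔫 T5.trivType (nat φ)) ∧
      (∀ φ : G K → ℂ, Continuous φ → HasCompactSupport φ → T5.IsEK R.μ φ →
        T5.IsEK R.μ (nat φ)) ∧
      (∀ φ : G K → ℂ, Continuous φ → HasCompactSupport φ → T5.IsEK R.μ (T5.adjointFn φ) →
        T5.IsEK R.μ (T5.adjointFn (nat φ))) ∧
      (∀ (𝔑 : Ideal (𝓞 K)) (l : ℕ) (o : ℕ → HeightOneSpectrum (𝓞 K)) (φ : G K → ℂ),
        IsRightHInv 𝔑 l o φ → IsRightHInv 𝔑 l o (nat φ)) ∧
      (∀ φ₁ φ₂ : G K → ℂ, Continuous φ₁ → HasCompactSupport φ₁ → Continuous φ₂ →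
        HasCompactSupport φ₂ →
        (∀ g : G K, T5.conv R.μ (nat φ₁) φ₂ g = nat (T5.conv R.μ φ₁ φ₂) g) ∧
        ∀ g : G K, T5.conv R.μ φ₁ (nat φ₂) g = nat (T5.conv R.μ φ₁ φ₂) g) ∧
      (∀ φ : G K → ℂ, Continuous φ → HasCompactSupport φ →
        AbsorbsPos R.μ 𝔑₀ R.r (nat φ)) ∧
      ∀ φ : G K → ℂ, Continuous φ → HasCompactSupport φ →
        ∀ e : G K → ℂ, Continuous e →
          (∀ (w : InfinitePlace K) (z : G K), IsArchPosScalar w z →
            ∀ g : G K, e (g * z) = e g) →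
          ∀ x : G K, T5.Rconv R.μ (nat φ) e x = T5.Rconv R.μ φ e x := by
  obtain ⟨a, D, hD⟩ := torusDataC_of193 L 𝔑₀ h𝔑₀ R.r hR.ray
  refine ⟨nat193 a D, fun 𝔫 φ hφ => isTestFn_nat193 hT1 N hD hφ,
    fun φ h1 h2 h3 => N.ek hT1 N.op R hR 𝔑₀ R.r a D hD φ h1 h2 h3,
    fun φ h1 h2 h3 => N.adjEK hT1 R hR 𝔑₀ R.r a D hD φ h1 h2 h3,
    fun 𝔑 l o φ h => N.hInv 𝔑₀ R.r a D hD 𝔑 l o φ h,
    fun φ₁ φ₂ h1 h2 h3 h4 => N.conv hT1 R hR 𝔑₀ R.r a D hD φ₁ φ₂ h1 h2 h3 h4,
    fun φ h1 h2 => N.absorb hT1 N.op R hR 𝔑₀ a D hD φ h1 h2, ?_⟩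
  intro φ h1 h2 e he hinv x
  rw [N.op hT1 R hR 𝔑₀ R.r a D hD φ h1 h2 e he x]
  have hfix : torAvg a D e = e := funext fun g => N.fix 𝔑₀ R.r a D hD e hinv g
  rw [hfix]

end Tops

end Fermat.Agent.LT.T7.H193

end

end
-- ===== PACK-END LT/T7/H193/KillSpec.lean

-- ===== PACK-BEGIN LT/T7/H453/TranslInv.lean
section




/-!
# Row LT, tower T7, node T7.L2.1 `SupplyC`, sub-station PROJ, leaf PROJ.1 `TranslInvC` (helper453)

OFF-MAIN.  Registry row 2136 (T7.L2.1.P01).  Spec: `T7/H193/ProjSpec.lean` of helper193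
(sha256 977a85e322a5d9c9), asset `T5/H599/Diag.lean` of helper599 (byte-identical copies).

    translInvC453 : H193.TranslInvC K

i.e. for every frame `R` and every function `Φ` on `GL₂(𝔸_K)` which is left `GL₂(K)`-invariant
and right `r`-invariant (NO measurability or integrability hypothesis),
`∫_F Φ(x h) dx = ∫_F Φ(x) dx` for every `h`.

Proof: `F` is a fundamental domain for the action `(γ, n) • z = γ rⁿ z` of `GL₂(K) × ℤ`
(`isFundamentalDomain599`); so is `F h = {y | y h⁻¹ ∈ F}` (`existsUnique_iota_mul_mem599` at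
`z h⁻¹`); `Φ` is invariant under the action (`r` is central); the integrals of an invariant
function over two fundamental domains agree (`IsFundamentalDomain.setIntegral_eq`); right
translation by `h` preserves `μ` (`IsFrame.right_inv`).
-/

set_option autoImplicit false

open IsDedekindDomain NumberField MeasureTheory

noncomputable section

namespace Fermat.Agent.LT.T7.H453

open Fermat.Agent.LT.H556 Fermat.Agent.LT.H556.A0 Fermat.Agent.LT

attribute [local instance] Fermat.Agent.LT.T5.instMeasurableSpaceG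

variable {K : Type} [Field K] [NumberField K]

/-- A right `r`-invariant function is right invariant under the natural powers of `r`. -/
theorem right_pow453 {Φ : G K → ℂ} {r : G K} (hΦ : ∀ x : G K, Φ (x * r) = Φ x) (n : ℕ)
    (x : G K) : Φ (x * r ^ n) = Φ x := by
  induction n with
  | zero => simp
  | succ n ih => rw [pow_succ, ← mul_assoc, hΦ, ih]

/-- A right `r`-invariant function is right invariant under all the powers of `r`. -/
theorem right_zpow453 {Φ : G K → ℂ} {r : G K} (hΦ : ∀ x : G K, Φ (x * r) = Φ x) (n : ℤ)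
    (x : G K) : Φ (x * r ^ n) = Φ x := by
  obtain ⟨m, rfl | rfl⟩ := Int.eq_nat_or_neg n
  · rw [zpow_natCast]
    exact right_pow453 hΦ m x
  · have h := right_pow453 hΦ m (x * r ^ (-(m : ℤ)))
    rw [mul_assoc, ← zpow_natCast, ← zpow_add, neg_add_cancel, zpow_zero, mul_one] at h
    exact h.symm

/-- A function which is left `GL₂(K)`-invariant and right `r`-invariant is invariant under the
action `(γ, n) • z = γ rⁿ z` of `GL₂(K) × ℤ`. -/
theorem iota_inv453 {Φ : G K → ℂ} {r : G K} (hr : T5.IsRayGen r)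
    (hl : ∀ (γ : GL (Fin 2) K) (x : G K), Φ (T5.ratG γ * x) = Φ x)
    (hΦ : ∀ x : G K, Φ (x * r) = Φ x) (p : T5.H599.Gam599 K) (x : G K) :
    Φ (T5.H599.iota599 hr p * x) = Φ x := by
  rw [T5.H599.iota_apply599, mul_assoc, hl, T5.H599.zpow_commute599 hr]
  exact right_zpow453 hΦ _ x

/-- Right translation by `h` preserves the measure of a frame. -/
theorem measurePreserving_mul_right453 {μ : Measure (G K)} {F : Set (G K)} (hF : T5.IsFrame μ F)
    (h : G K) : MeasurePreserving (fun x : G K => x * h) μ μ := by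
  have hB : BorelSpace (G K) := ⟨rfl⟩
  have hm : Measurable fun x : G K => x * h := (continuous_mul_const h).measurable
  refine ⟨hm, ?_⟩
  ext A hA
  rw [Measure.map_apply hm hA]
  exact hF.right_inv h A hA

/-- The action of `GL₂(K) × ℤ`, unfolded. -/
theorem smul_def453 {r : G K} (hr : T5.IsRayGen r) (p : T5.H599.Gam599 K) (z : G K) :
    @HSMul.hSMul (T5.H599.Gam599 K) (G K) (G K)
      (@instHSMul _ _ (T5.H599.act599 hr).toSMul) p z = T5.H599.iota599 hr p * z :=
  rfl

/-- The right translate of the fundamental domain is a fundamental domain for `GL₂(K) × ℤ`. -/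
theorem isFundamentalDomain_translate453 (hAN : T1.AdNormC K) {μ : Measure (G K)}
    {F : Set (G K)} (hF : T5.IsFrame μ F) {r : G K} (hr : T5.IsRayGen r) (h : G K) :
    @IsFundamentalDomain (T5.H599.Gam599 K) (G K) _ (T5.H599.act599 hr).toSMul _
      ((fun x : G K => x * h⁻¹) ⁻¹' F) μ := by
  have hB : BorelSpace (G K) := ⟨rfl⟩
  let A := T5.H599.act599 hr
  refine IsFundamentalDomain.mk' ?_ fun z => ?_
  · exact ((continuous_mul_const h⁻¹).measurable hF.meas).nullMeasurableSet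
  · have hz := T5.H599.existsUnique_iota_mul_mem599 hAN hF hr (z * h⁻¹)
    simp only [Set.mem_preimage, smul_def453 hr, mul_assoc]
    exact hz

/-- **LEAF PROJ.1 = TRANSL-INV** (`H193.TranslInvC`, verbatim). -/
theorem translInvC453 (K : Type) [Field K] [NumberField K] : H193.TranslInvC K := by
  intro hAN R hR Φ hl hΦ h
  have hF : T5.IsFrame R.μ R.F := hR.frame
  have hr : T5.IsRayGen R.r := hR.ray
  have hB : BorelSpace (G K) := ⟨rfl⟩
  have hH := hF.haar
  have hC := T5.H599.countable_gam599 K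
  let A := T5.H599.act599 hr
  have hM := T5.H599.measurableConstSMul599 hr
  have hS := T5.H599.smulInvariantMeasure599 R.μ hr
  have hfd := T5.H599.isFundamentalDomain599 hAN hF hr
  have hfd' := isFundamentalDomain_translate453 hAN hF hr h
  have hinv : ∀ (p : T5.H599.Gam599 K) (x : G K), Φ (p • x) = Φ x := by
    intro p x
    rw [smul_def453 hr]
    exact iota_inv453 hr hl hΦ p x
  have himg : (fun x : G K => x * h) '' R.F = (fun x : G K => x * h⁻¹) ⁻¹' R.F := by
    ext y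
    rw [Set.mem_preimage]
    constructor
    · rintro ⟨x, hx, rfl⟩
      rwa [mul_inv_cancel_right]
    · intro hy
      exact ⟨y * h⁻¹, hy, inv_mul_cancel_right y h⟩
  have hemb : MeasurableEmbedding fun x : G K => x * h :=
    (Homeomorph.mulRight h).measurableEmbedding
  calc ∫ x in R.F, Φ (x * h) ∂(R.μ)
      = ∫ y in (fun x : G K => x * h) '' R.F, Φ y ∂(R.μ) :=
        ((measurePreserving_mul_right453 hF h).setIntegral_image_emb hemb Φ R.F).symm
    _ = ∫ y in (fun x : G K => x * h⁻¹) ⁻¹' R.F, Φ y ∂(R.μ) := by rw [himg]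
    _ = ∫ x in R.F, Φ x ∂(R.μ) := hfd'.setIntegral_eq hfd hinv

/-- The statement of the leaf, unfolded (type check against the Prop of the spec). -/
example (K : Type) [Field K] [NumberField K] :
    T1.AdNormC K → ∀ R : Frame5 K, IsFrame5 R → ∀ Φ : G K → ℂ,
      (∀ (γ : GL (Fin 2) K) (x : G K), Φ (T5.ratG γ * x) = Φ x) →
      (∀ x : G K, Φ (x * R.r) = Φ x) →
      ∀ h : G K, ∫ x in R.F, Φ (x * h) ∂(R.μ) = ∫ x in R.F, Φ x ∂(R.μ) :=
  translInvC453 K

end Fermat.Agent.LT.T7.H453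

end

end
-- ===== PACK-END LT/T7/H453/TranslInv.lean

-- ===== PACK-BEGIN LT/T7/H543/HGroup.lean
section


/-!
# Row LT, tower T7, node T7.L2.1 `SupplyC`, sub-station PROJ: leaf PROJ.2a `HGroupC` (helper543)

OFF-MAIN.  `hGroupC543 (K) : H193.HGroupC K` VERBATIM (unconditional).

* the components `G K →* GL₂(K_w)`, `G K →* GL₂(K_v)` are group homomorphisms;
* `𝓞 K` is dense in `𝒪_v` (Mathlib `exists_valuation_sub_lt_of_integer`), hence the closure
  `𝔑 𝒪_v` of an ideal `𝔑` is an ideal of `𝒪_v`;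
* `M₂(𝔑 𝒪_v)` is a two-sided ideal of `M₂(𝒪_v)`; the lower left entry of the inverse of an
  Iwahori matrix is in the maximal ideal.
-/

set_option autoImplicit false

open IsDedekindDomain NumberField MeasureTheory

noncomputable section

namespace Fermat.Agent.LT.T7.H543

open Fermat.Agent.LT.H556 Fermat.Agent.LT.H556.A0 Fermat.Agent.LT Fermat.Agent.LT.T7.H193

variable {K : Type} [Field K] [NumberField K]

theorem val_algebraMap543 (v : HeightOneSpectrum (𝓞 K)) (k : K) :
    Valued.v (algebraMap K (v.adicCompletion K) k) = v.valuation K k :=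
  HeightOneSpectrum.valuedAdicCompletion_eq_valuation' v k

theorem exists_small543 (v : HeightOneSpectrum (𝓞 K)) {ε : ℝ} (hε : 0 < ε) :
    ∃ z : v.adicCompletion K, z ≠ 0 ∧ ‖z‖ < ε := by
  obtain ⟨π, hπ⟩ := v.valuation_exists_uniformizer K
  have hv : Valued.v (algebraMap K (v.adicCompletion K) π) = WithZero.exp (-1 : ℤ) := by
    rw [val_algebraMap543, hπ]
  have h0 : algebraMap K (v.adicCompletion K) π ≠ 0 := by
    intro h
    rw [h, map_zero] at hv
    exact WithZero.exp_ne_zero.symm hv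
  have h1 : ‖algebraMap K (v.adicCompletion K) π‖ < 1 := by
    refine Valued.toNormedField.norm_lt_one_iff.mpr ?_
    rw [hv, ← WithZero.exp_zero, WithZero.exp_lt_exp]
    norm_num
  obtain ⟨n, hn⟩ := exists_pow_lt_of_lt_one hε h1
  exact ⟨algebraMap K (v.adicCompletion K) π ^ n, pow_ne_zero n h0, by rw [norm_pow]; exact hn⟩

theorem mem_closure_iff543 {v : HeightOneSpectrum (𝓞 K)} {S : Set (v.adicCompletion K)}
    {x : v.adicCompletion K} :
    x ∈ closure S ↔ ∀ z : v.adicCompletion K, z ≠ 0 → ∃ s ∈ S, Valued.v (s - x) < Valued.v z := by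
  rw [Metric.mem_closure_iff]
  constructor
  · intro h z hz
    obtain ⟨s, hs, hd⟩ := h ‖z‖ (norm_pos_iff.mpr hz)
    refine ⟨s, hs, ?_⟩
    rw [dist_eq_norm, Valued.toNormedField.norm_lt_iff] at hd
    rw [Valuation.map_sub_swap]
    exact hd
  · intro h ε hε
    obtain ⟨z, hz0, hz⟩ := exists_small543 v hε
    obtain ⟨s, hs, hd⟩ := h z hz0
    refine ⟨s, hs, ?_⟩
    rw [dist_eq_norm]
    refine lt_trans ?_ hz
    rw [Valued.toNormedField.norm_lt_iff, Valuation.map_sub_swap]
    exact hd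

/-- The embedding of `𝓞 K` in `K_v`. -/
def emb543 (v : HeightOneSpectrum (𝓞 K)) : 𝓞 K →+* v.adicCompletion K :=
  (algebraMap K (v.adicCompletion K)).comp (algebraMap (𝓞 K) K)

theorem emb_mem543 (v : HeightOneSpectrum (𝓞 K)) (r : 𝓞 K) :
    emb543 v r ∈ v.adicCompletionIntegers K := by
  rw [HeightOneSpectrum.mem_adicCompletionIntegers]
  show Valued.v (algebraMap K (v.adicCompletion K) (algebraMap (𝓞 K) K r)) ≤ 1
  rw [val_algebraMap543]
  exact v.valuation_le_one r

/-- `𝓞 K` is dense in `𝒪_v`. -/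
theorem exists_int_approx543 (v : HeightOneSpectrum (𝓞 K)) {a : v.adicCompletion K}
    (ha : a ∈ v.adicCompletionIntegers K) {z : v.adicCompletion K} (hz : z ≠ 0) :
    ∃ r : 𝓞 K, Valued.v (emb543 v r - a) < Valued.v z := by
  have hz0 : Valued.v z ≠ 0 := (Valuation.ne_zero_iff _).mpr hz
  -- an element of `K` close to `a`
  have hd : a ∈ closure (Set.range (algebraMap K (v.adicCompletion K))) :=
    (HeightOneSpectrum.denseRange_algebraMap K v) a
  have hopen : IsOpen ((v.adicCompletionIntegers K : Set (v.adicCompletion K))) :=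
    Valued.isOpen_valuationSubring _
  have hd' : a ∈ closure ((v.adicCompletionIntegers K : Set (v.adicCompletion K))
      ∩ Set.range (algebraMap K (v.adicCompletion K))) :=
    hopen.inter_closure ⟨ha, hd⟩
  obtain ⟨_, ⟨hxi, x, rfl⟩, hx⟩ := mem_closure_iff543.mp hd' z hz
  have hxv : v.valuation K x ≤ 1 := by
    rw [← val_algebraMap543]
    exact (HeightOneSpectrum.mem_adicCompletionIntegers (𝓞 K) K v).mp hxi
  obtain ⟨r, hr⟩ := v.exists_valuation_sub_lt_of_integer hxv (Units.mk0 _ hz0)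
  refine ⟨r, ?_⟩
  have e : emb543 v r - a = algebraMap K (v.adicCompletion K) (algebraMap (𝓞 K) K r - x)
      + (algebraMap K (v.adicCompletion K) x - a) := by
    rw [map_sub]
    show algebraMap K (v.adicCompletion K) (algebraMap (𝓞 K) K r) - a = _
    ring
  rw [e]
  refine Valuation.map_add_lt _ ?_ hx
  rw [val_algebraMap543]
  exact hr


/-! ## The closure of an ideal -/

theorem mem_idealClosure_iff543 (𝔑 : Ideal (𝓞 K)) (v : HeightOneSpectrum (𝓞 K))
    (x : v.adicCompletion K) :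
    x ∈ idealClosure 𝔑 v ↔
      ∀ z : v.adicCompletion K, z ≠ 0 → ∃ n ∈ 𝔑, Valued.v (emb543 v n - x) < Valued.v z := by
  unfold idealClosure
  rw [mem_closure_iff543]
  constructor
  · intro h z hz
    obtain ⟨_, ⟨n, hn, rfl⟩, hlt⟩ := h z hz
    exact ⟨n, hn, hlt⟩
  · intro h z hz
    obtain ⟨n, hn, hlt⟩ := h z hz
    exact ⟨_, ⟨n, hn, rfl⟩, hlt⟩

theorem ic_zero543 (𝔑 : Ideal (𝓞 K)) (v : HeightOneSpectrum (𝓞 K)) :
    (0 : v.adicCompletion K) ∈ idealClosure 𝔑 v := by
  rw [mem_idealClosure_iff543]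
  intro z hz
  refine ⟨0, 𝔑.zero_mem, ?_⟩
  rw [map_zero, sub_zero, map_zero]
  exact zero_lt_iff.mpr ((Valuation.ne_zero_iff _).mpr hz)

theorem ic_add543 {𝔑 : Ideal (𝓞 K)} {v : HeightOneSpectrum (𝓞 K)} {x y : v.adicCompletion K}
    (hx : x ∈ idealClosure 𝔑 v) (hy : y ∈ idealClosure 𝔑 v) : x + y ∈ idealClosure 𝔑 v := by
  rw [mem_idealClosure_iff543] at hx hy ⊢
  intro z hz
  obtain ⟨n, hn, h1⟩ := hx z hz
  obtain ⟨n', hn', h2⟩ := hy z hz
  refine ⟨n + n', 𝔑.add_mem hn hn', ?_⟩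
  have e : emb543 v (n + n') - (x + y) = (emb543 v n - x) + (emb543 v n' - y) := by
    rw [map_add]
    ring
  rw [e]
  exact Valuation.map_add_lt _ h1 h2

theorem ic_int543 {𝔑 : Ideal (𝓞 K)} {v : HeightOneSpectrum (𝓞 K)} {x : v.adicCompletion K}
    (hx : x ∈ idealClosure 𝔑 v) : x ∈ v.adicCompletionIntegers K := by
  have hcl : IsClosed ((v.adicCompletionIntegers K : Set (v.adicCompletion K))) :=
    Valued.isClosed_valuationSubring _
  refine closure_minimal ?_ hcl hx
  rintro _ ⟨n, -, rfl⟩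
  exact emb_mem543 v n

theorem ic_mul543 {𝔑 : Ideal (𝓞 K)} {v : HeightOneSpectrum (𝓞 K)} {a x : v.adicCompletion K}
    (ha : a ∈ v.adicCompletionIntegers K) (hx : x ∈ idealClosure 𝔑 v) :
    a * x ∈ idealClosure 𝔑 v := by
  have hxi := ic_int543 hx
  rw [mem_idealClosure_iff543] at hx ⊢
  intro z hz
  obtain ⟨n, hn, h1⟩ := hx z hz
  obtain ⟨r, h2⟩ := exists_int_approx543 v ha hz
  refine ⟨r * n, 𝔑.mul_mem_left r hn, ?_⟩
  have e : emb543 v (r * n) - a * x
      = emb543 v r * (emb543 v n - x) + (emb543 v r - a) * x := by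
    rw [map_mul]
    ring
  rw [e]
  refine Valuation.map_add_lt _ ?_ ?_
  · rw [Valuation.map_mul]
    calc Valued.v (emb543 v r) * Valued.v (emb543 v n - x)
        ≤ 1 * Valued.v (emb543 v n - x) :=
          mul_le_mul_left ((HeightOneSpectrum.mem_adicCompletionIntegers (𝓞 K) K v).mp
            (emb_mem543 v r)) _
      _ = Valued.v (emb543 v n - x) := one_mul _
      _ < _ := h1
  · rw [Valuation.map_mul, mul_comm]
    calc Valued.v x * Valued.v (emb543 v r - a)
        ≤ 1 * Valued.v (emb543 v r - a) :=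
          mul_le_mul_left ((HeightOneSpectrum.mem_adicCompletionIntegers (𝓞 K) K v).mp hxi) _
      _ = Valued.v (emb543 v r - a) := one_mul _
      _ < _ := h2

theorem ic_mul_right543 {𝔑 : Ideal (𝓞 K)} {v : HeightOneSpectrum (𝓞 K)}
    {a x : v.adicCompletion K} (hx : x ∈ idealClosure 𝔑 v)
    (ha : a ∈ v.adicCompletionIntegers K) : x * a ∈ idealClosure 𝔑 v := by
  rw [mul_comm]
  exact ic_mul543 ha hx

/-! ## Matrices over `K_v` -/

section Mat

variable {v : HeightOneSpectrum (𝓞 K)}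

/-- Integral entries. -/
def IntM543 (v : HeightOneSpectrum (𝓞 K)) (A : Matrix (Fin 2) (Fin 2) (v.adicCompletion K)) :
    Prop :=
  ∀ i j, A i j ∈ v.adicCompletionIntegers K

/-- Entries in `𝔑 𝒪_v`. -/
def IdM543 (𝔑 : Ideal (𝓞 K)) (v : HeightOneSpectrum (𝓞 K))
    (A : Matrix (Fin 2) (Fin 2) (v.adicCompletion K)) : Prop :=
  ∀ i j, A i j ∈ idealClosure 𝔑 v

theorem intM_one543 : IntM543 v (1 : Matrix (Fin 2) (Fin 2) (v.adicCompletion K)) := by
  intro i j
  by_cases h : i = j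
  · rw [h, Matrix.one_apply_eq]
    exact one_mem _
  · rw [Matrix.one_apply_ne h]
    exact zero_mem _

theorem intM_mul543 {A B : Matrix (Fin 2) (Fin 2) (v.adicCompletion K)} (hA : IntM543 v A)
    (hB : IntM543 v B) : IntM543 v (A * B) := by
  intro i j
  rw [Matrix.mul_apply, Fin.sum_univ_two]
  exact add_mem (mul_mem (hA i 0) (hB 0 j)) (mul_mem (hA i 1) (hB 1 j))

theorem idM_zero543 (𝔑 : Ideal (𝓞 K)) :
    IdM543 𝔑 v (0 : Matrix (Fin 2) (Fin 2) (v.adicCompletion K)) :=
  fun _ _ => ic_zero543 𝔑 v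

theorem idM_add543 {𝔑 : Ideal (𝓞 K)} {A B : Matrix (Fin 2) (Fin 2) (v.adicCompletion K)}
    (hA : IdM543 𝔑 v A) (hB : IdM543 𝔑 v B) : IdM543 𝔑 v (A + B) :=
  fun i j => ic_add543 (hA i j) (hB i j)

theorem idM_mul_int543 {𝔑 : Ideal (𝓞 K)} {A B : Matrix (Fin 2) (Fin 2) (v.adicCompletion K)}
    (hA : IdM543 𝔑 v A) (hB : IntM543 v B) : IdM543 𝔑 v (A * B) := by
  intro i j
  rw [Matrix.mul_apply, Fin.sum_univ_two]
  exact ic_add543 (ic_mul_right543 (hA i 0) (hB 0 j)) (ic_mul_right543 (hA i 1) (hB 1 j))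

theorem int_mul_idM543 {𝔑 : Ideal (𝓞 K)} {A B : Matrix (Fin 2) (Fin 2) (v.adicCompletion K)}
    (hA : IntM543 v A) (hB : IdM543 𝔑 v B) : IdM543 𝔑 v (A * B) := by
  intro i j
  rw [Matrix.mul_apply, Fin.sum_univ_two]
  exact ic_add543 (ic_mul543 (hA i 0) (hB 0 j)) (ic_mul543 (hA i 1) (hB 1 j))

theorem intM_of_idM543 {𝔑 : Ideal (𝓞 K)} {A : Matrix (Fin 2) (Fin 2) (v.adicCompletion K)}
    (hA : IdM543 𝔑 v (A - 1)) : IntM543 v A := by
  have e : A = (A - 1) + 1 := by rw [sub_add_cancel]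
  intro i j
  rw [e, Matrix.add_apply]
  exact add_mem (ic_int543 (hA i j)) (intM_one543 i j)

/-- `A ≡ 1`, `B ≡ 1` ⟹ `A B ≡ 1`. -/
theorem idM_mul_sub_one543 {𝔑 : Ideal (𝓞 K)}
    {A B : Matrix (Fin 2) (Fin 2) (v.adicCompletion K)}
    (hA : IdM543 𝔑 v (A - 1)) (hB : IdM543 𝔑 v (B - 1)) : IdM543 𝔑 v (A * B - 1) := by
  have e : A * B - 1 = (A - 1) * B + (B - 1) := by
    rw [sub_mul, one_mul]
    abel
  rw [e]
  exact idM_add543 (idM_mul_int543 hA (intM_of_idM543 hB)) hB

/-- `A ≡ 1`, `Q P = 1`, `P`, `Q` integral ⟹ `Q A P ≡ 1`. -/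
theorem idM_conj543 {𝔑 : Ideal (𝓞 K)} {A P Q : Matrix (Fin 2) (Fin 2) (v.adicCompletion K)}
    (hA : IdM543 𝔑 v (A - 1)) (hP : IntM543 v P) (hQ : IntM543 v Q) (hQP : Q * P = 1) :
    IdM543 𝔑 v (Q * A * P - 1) := by
  have e : Q * A * P - 1 = Q * (A - 1) * P := by
    rw [mul_sub, sub_mul, mul_one, hQP]
  rw [e]
  exact idM_mul_int543 (int_mul_idM543 hQ hA) hP

/-- The lower left entry of the inverse of an Iwahori matrix. -/
theorem iw_inv543 {A B : Matrix (Fin 2) (Fin 2) (v.adicCompletion K)} (hA : IntM543 v A)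
    (hB : IntM543 v B) (hAB : A * B = 1) (h10 : Valued.v (A 1 0) < 1) :
    Valued.v (B 1 0) < 1 := by
  have hle : ∀ {x : v.adicCompletion K}, x ∈ v.adicCompletionIntegers K → Valued.v x ≤ 1 :=
    fun hx => (HeightOneSpectrum.mem_adicCompletionIntegers (𝓞 K) K v).mp hx
  -- entry (1,1)
  have e11 : A 1 0 * B 0 1 + A 1 1 * B 1 1 = 1 := by
    have := congrFun (congrFun hAB 1) 1
    rw [Matrix.mul_apply, Fin.sum_univ_two, Matrix.one_apply_eq] at this
    exact this
  -- entry (1,0)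
  have e10 : A 1 0 * B 0 0 + A 1 1 * B 1 0 = 0 := by
    have := congrFun (congrFun hAB 1) 0
    rw [Matrix.mul_apply, Fin.sum_univ_two, Matrix.one_apply_ne (by decide)] at this
    exact this
  have hlt1 : Valued.v (A 1 0 * B 0 1) < 1 := by
    rw [Valuation.map_mul, mul_comm]
    calc Valued.v (B 0 1) * Valued.v (A 1 0) ≤ 1 * Valued.v (A 1 0) :=
          mul_le_mul_left (hle (hB 0 1)) _
      _ = Valued.v (A 1 0) := one_mul _
      _ < 1 := h10
  have hlt0 : Valued.v (A 1 0 * B 0 0) < 1 := by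
    rw [Valuation.map_mul, mul_comm]
    calc Valued.v (B 0 0) * Valued.v (A 1 0) ≤ 1 * Valued.v (A 1 0) :=
          mul_le_mul_left (hle (hB 0 0)) _
      _ = Valued.v (A 1 0) := one_mul _
      _ < 1 := h10
  -- `A 1 1 * B 1 1` is a unit
  have hu : Valued.v (A 1 1 * B 1 1) = 1 := by
    have e : A 1 1 * B 1 1 = 1 - A 1 0 * B 0 1 := by rw [← e11]; ring
    rw [e, sub_eq_add_neg]
    have h' : Valued.v (-(A 1 0 * B 0 1)) < Valued.v (1 : v.adicCompletion K) := by
      rw [Valuation.map_neg, Valuation.map_one]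
      exact hlt1
    rw [Valuation.map_add_eq_of_lt_left _ h', Valuation.map_one]
  have hA11 : Valued.v (A 1 1) = 1 := by
    rw [Valuation.map_mul] at hu
    refine le_antisymm (hle (hA 1 1)) ?_
    calc (1 : WithZero (Multiplicative ℤ)) = Valued.v (A 1 1) * Valued.v (B 1 1) := hu.symm
      _ ≤ Valued.v (A 1 1) * 1 := mul_le_mul_right (hle (hB 1 1)) _
      _ = Valued.v (A 1 1) := mul_one _
  have e : A 1 1 * B 1 0 = -(A 1 0 * B 0 0) := by
    rw [eq_neg_iff_add_eq_zero, add_comm]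
    exact e10
  have h2 : Valued.v (A 1 1 * B 1 0) < 1 := by
    rw [e, Valuation.map_neg]
    exact hlt0
  rw [Valuation.map_mul, hA11, one_mul] at h2
  exact h2

end Mat


/-! ## The components of `GL₂(𝔸_K)` -/

/-- The component at the finite place `v`. -/
def evF543 (v : HeightOneSpectrum (𝓞 K)) : Adl K →+* v.adicCompletion K :=
  (RestrictedProduct.evalRingHom (fun v : HeightOneSpectrum (𝓞 K) => v.adicCompletion K) v).comp
    (RingHom.snd _ _)

/-- The component at the infinite place `w`. -/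
def evI543 (w : InfinitePlace K) : Adl K →+* w.Completion :=
  (Pi.evalRingHom (fun w : InfinitePlace K => w.Completion) w).comp (RingHom.fst _ _)

/-- The component of `g ∈ GL₂(𝔸_K)` at the finite place `v`, as a group homomorphism. -/
def finHom543 (v : HeightOneSpectrum (𝓞 K)) : G K →* GL (Fin 2) (v.adicCompletion K) :=
  Matrix.GeneralLinearGroup.map (evF543 v)

/-- The component of `g ∈ GL₂(𝔸_K)` at the infinite place `w`, as a group homomorphism. -/
def infHom543 (w : InfinitePlace K) : G K →* GL (Fin 2) w.Completion :=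
  Matrix.GeneralLinearGroup.map (evI543 w)

theorem coe_finHom543 (v : HeightOneSpectrum (𝓞 K)) (g : G K) :
    ((finHom543 v g : GL (Fin 2) (v.adicCompletion K)) :
      Matrix (Fin 2) (Fin 2) (v.adicCompletion K)) = finComp v g := rfl

theorem finComp_mul543 (v : HeightOneSpectrum (𝓞 K)) (g h : G K) :
    finComp v (g * h) = finComp v g * finComp v h := by
  rw [← coe_finHom543, ← coe_finHom543, ← coe_finHom543, map_mul]
  rfl

theorem finComp_one543 (v : HeightOneSpectrum (𝓞 K)) : finComp v (1 : G K) = 1 := by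
  rw [← coe_finHom543, map_one]
  rfl

theorem finComp_mul_inv543 (v : HeightOneSpectrum (𝓞 K)) (g : G K) :
    finComp v g * finComp v g⁻¹ = 1 := by
  rw [← finComp_mul543, mul_inv_cancel, finComp_one543]

theorem finComp_inv_mul543 (v : HeightOneSpectrum (𝓞 K)) (g : G K) :
    finComp v g⁻¹ * finComp v g = 1 := by
  rw [← finComp_mul543, inv_mul_cancel, finComp_one543]

theorem trivAtInf_iff543 (w : InfinitePlace K) (g : G K) :
    TrivAtInf w g ↔ infHom543 w g = 1 := by
  constructor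
  · intro h
    exact Units.ext (Matrix.ext fun i j => h i j)
  · intro h i j
    have h' := congrArg (fun u : GL (Fin 2) w.Completion =>
      (u : Matrix (Fin 2) (Fin 2) w.Completion) i j) h
    exact h'

theorem trivAtInf_mul543 {w : InfinitePlace K} {g h : G K} (hg : TrivAtInf w g)
    (hh : TrivAtInf w h) : TrivAtInf w (g * h) := by
  rw [trivAtInf_iff543] at hg hh ⊢
  rw [map_mul, hg, hh, one_mul]

theorem trivAtInf_inv543 {w : InfinitePlace K} {g : G K} (hg : TrivAtInf w g) :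
    TrivAtInf w g⁻¹ := by
  rw [trivAtInf_iff543] at hg ⊢
  rw [map_inv, hg, inv_one]

theorem trivAtInf_one543 (w : InfinitePlace K) : TrivAtInf w (1 : G K) := by
  rw [trivAtInf_iff543, map_one]

theorem trivAtFin_mul543 {v : HeightOneSpectrum (𝓞 K)} {g h : G K} (hg : TrivAtFin v g)
    (hh : TrivAtFin v h) : TrivAtFin v (g * h) := by
  unfold TrivAtFin at hg hh ⊢
  rw [finComp_mul543, hg, hh, one_mul]

theorem trivAtFin_inv543 {v : HeightOneSpectrum (𝓞 K)} {g : G K} (hg : TrivAtFin v g) :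
    TrivAtFin v g⁻¹ := by
  unfold TrivAtFin at hg ⊢
  have h := finComp_mul_inv543 v g
  rw [hg, one_mul] at h
  exact h

theorem trivAtFin_one543 (v : HeightOneSpectrum (𝓞 K)) : TrivAtFin v (1 : G K) :=
  finComp_one543 v

/-! ## Integrality and the Iwahori subgroups -/

theorem isIntegralAt_iff543 (v : HeightOneSpectrum (𝓞 K)) (g : G K) :
    IsIntegralAt v g ↔ IntM543 v (finComp v g) := Iff.rfl

theorem isIntegralAt_mul543 {v : HeightOneSpectrum (𝓞 K)} {g h : G K} (hg : IsIntegralAt v g)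
    (hh : IsIntegralAt v h) : IsIntegralAt v (g * h) := by
  rw [isIntegralAt_iff543] at hg hh ⊢
  rw [finComp_mul543]
  exact intM_mul543 hg hh

theorem isIntegralAt_one543 (v : HeightOneSpectrum (𝓞 K)) : IsIntegralAt v (1 : G K) := by
  rw [isIntegralAt_iff543, finComp_one543]
  exact intM_one543

theorem isIntegralAt_of_triv543 {v : HeightOneSpectrum (𝓞 K)} {g : G K} (hg : TrivAtFin v g) :
    IsIntegralAt v g := by
  rw [isIntegralAt_iff543]
  unfold TrivAtFin at hg
  rw [hg]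
  exact intM_one543

theorem inIwahori_mul543 {v : HeightOneSpectrum (𝓞 K)} {g h : G K} (hg : T5.InIwahori v g)
    (hh : T5.InIwahori v h) : T5.InIwahori v (g * h) := by
  obtain ⟨g1, g2, g3⟩ := hg
  obtain ⟨h1, h2, h3⟩ := hh
  have hle : ∀ {x : v.adicCompletion K}, x ∈ v.adicCompletionIntegers K → Valued.v x ≤ 1 :=
    fun hx => (HeightOneSpectrum.mem_adicCompletionIntegers (𝓞 K) K v).mp hx
  refine ⟨isIntegralAt_mul543 g1 h1, ?_, ?_⟩
  · rw [mul_inv_rev]
    exact isIntegralAt_mul543 h2 g2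
  · rw [finComp_mul543, Matrix.mul_apply, Fin.sum_univ_two]
    refine Valuation.map_add_lt _ ?_ ?_
    · rw [Valuation.map_mul, mul_comm]
      calc Valued.v (finComp v h 0 0) * Valued.v (finComp v g 1 0)
          ≤ 1 * Valued.v (finComp v g 1 0) := mul_le_mul_left (hle (h1 0 0)) _
        _ = Valued.v (finComp v g 1 0) := one_mul _
        _ < 1 := g3
    · rw [Valuation.map_mul]
      calc Valued.v (finComp v g 1 1) * Valued.v (finComp v h 1 0)
          ≤ 1 * Valued.v (finComp v h 1 0) := mul_le_mul_left (hle (g1 1 1)) _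
        _ = Valued.v (finComp v h 1 0) := one_mul _
        _ < 1 := h3

theorem inIwahori_inv543 {v : HeightOneSpectrum (𝓞 K)} {g : G K} (hg : T5.InIwahori v g) :
    T5.InIwahori v g⁻¹ := by
  obtain ⟨g1, g2, g3⟩ := hg
  refine ⟨g2, ?_, iw_inv543 g1 g2 (finComp_mul_inv543 v g) g3⟩
  rw [inv_inv]
  exact g1

theorem inIwahori_one543 (v : HeightOneSpectrum (𝓞 K)) : T5.InIwahori v (1 : G K) := by
  refine ⟨isIntegralAt_one543 v, ?_, ?_⟩
  · rw [inv_one]
    exact isIntegralAt_one543 v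
  · rw [finComp_one543, Matrix.one_apply_ne (by decide), map_zero]
    exact zero_lt_one

/-- An Iwahori element of the orbit is integral with integral inverse at every finite place. -/
theorem isIwElt_int543 {l : ℕ} {o : ℕ → HeightOneSpectrum (𝓞 K)} {i : G K}
    (hi : IsIwElt l o i) (v : HeightOneSpectrum (𝓞 K)) :
    IsIntegralAt v i ∧ IsIntegralAt v i⁻¹ := by
  by_cases hv : ∀ j < l, v ≠ o j
  · have h := hi.2.1 v hv
    exact ⟨isIntegralAt_of_triv543 h, isIntegralAt_of_triv543 (trivAtFin_inv543 h)⟩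
  · push Not at hv
    obtain ⟨j, hj, rfl⟩ := hv
    exact ⟨(hi.2.2 j hj).1, (hi.2.2 j hj).2.1⟩

/-! ## The level group -/

theorem inLevelGroup_iff543 (𝔑 : Ideal (𝓞 K)) (u : G K) :
    InLevelGroup 𝔑 u ↔ (∀ w : InfinitePlace K, TrivAtInf w u) ∧
      ∀ v : HeightOneSpectrum (𝓞 K),
        IdM543 𝔑 v (finComp v u - 1) ∧ IdM543 𝔑 v (finComp v u⁻¹ - 1) := by
  constructor
  · intro h
    exact ⟨h.1, fun v => ⟨fun i j => (h.2 v i j).1, fun i j => (h.2 v i j).2⟩⟩
  · intro h
    exact ⟨h.1, fun v i j => ⟨(h.2 v).1 i j, (h.2 v).2 i j⟩⟩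

/-- **Leaf PROJ.2a `HGroupC`.** -/
theorem hGroupC543 (K : Type) [Field K] [NumberField K] : HGroupC K := by
  intro 𝔑₀ l o
  refine ⟨?_, ?_, ?_, ?_, ?_, ?_, ?_⟩
  · intro i i' hi hi'
    exact ⟨fun w => trivAtInf_mul543 (hi.1 w) (hi'.1 w),
      fun v hv => trivAtFin_mul543 (hi.2.1 v hv) (hi'.2.1 v hv),
      fun j hj => inIwahori_mul543 (hi.2.2 j hj) (hi'.2.2 j hj)⟩
  · intro i hi
    exact ⟨fun w => trivAtInf_inv543 (hi.1 w), fun v hv => trivAtFin_inv543 (hi.2.1 v hv),
      fun j hj => inIwahori_inv543 (hi.2.2 j hj)⟩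
  · intro u u' hu hu'
    rw [inLevelGroup_iff543] at hu hu' ⊢
    refine ⟨fun w => trivAtInf_mul543 (hu.1 w) (hu'.1 w), fun v => ⟨?_, ?_⟩⟩
    · rw [finComp_mul543]
      exact idM_mul_sub_one543 (hu.2 v).1 (hu'.2 v).1
    · rw [mul_inv_rev, finComp_mul543]
      exact idM_mul_sub_one543 (hu'.2 v).2 (hu.2 v).2
  · intro u hu
    rw [inLevelGroup_iff543] at hu ⊢
    refine ⟨fun w => trivAtInf_inv543 (hu.1 w), fun v => ⟨(hu.2 v).2, ?_⟩⟩
    rw [inv_inv]
    exact (hu.2 v).1
  · rw [inLevelGroup_iff543]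
    refine ⟨fun w => trivAtInf_one543 w, fun v => ⟨?_, ?_⟩⟩
    · rw [finComp_one543, sub_self]
      exact idM_zero543 𝔑₀
    · rw [inv_one, finComp_one543, sub_self]
      exact idM_zero543 𝔑₀
  · exact ⟨fun w => trivAtInf_one543 w, fun v _ => trivAtFin_one543 v,
      fun j _ => inIwahori_one543 (o j)⟩
  · intro i u hi hu
    rw [inLevelGroup_iff543] at hu ⊢
    refine ⟨fun w => trivAtInf_mul543 (trivAtInf_mul543 (trivAtInf_inv543 (hi.1 w)) (hu.1 w))
      (hi.1 w), fun v => ⟨?_, ?_⟩⟩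
    · obtain ⟨h1, h2⟩ := isIwElt_int543 hi v
      rw [finComp_mul543, finComp_mul543]
      exact idM_conj543 (hu.2 v).1 h1 h2 (finComp_inv_mul543 v i)
    · obtain ⟨h1, h2⟩ := isIwElt_int543 hi v
      have e : (i⁻¹ * u * i)⁻¹ = i⁻¹ * u⁻¹ * i := by
        rw [mul_inv_rev, mul_inv_rev, inv_inv, mul_assoc]
      rw [e, finComp_mul543, finComp_mul543]
      exact idM_conj543 (hu.2 v).2 h1 h2 (finComp_inv_mul543 v i)

end Fermat.Agent.LT.T7.H543

end

end
-- ===== PACK-END LT/T7/H543/HGroup.lean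

-- ===== PACK-BEGIN LT/T7/H454/FinDataAsm.lean
section



/-!
# Row LT, tower T7, node T7.L2.1, sub-station PROJ, leaf P04 `FinDataAsmC` (helper454)

OFF-MAIN.  No `sorry`, nothing assumed.  Spec: `T7/H193/ProjSpec.lean` (sha256 977a85e3, helper193),
byte-identical copy.

    finDataAsmC454 (K) : H193.FinDataAsmC K      -- = HGroupC K → FinIndexC K → FinDataC K

`H = I_o · U(𝔑₀)` is a subgroup (`HGroupC`), `U(𝔑) ≤ H` (monotonicity of the closure of the
ideal), every element of `H` is trivial at infinity and integral with integral inverse at every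
finite place, so `H / U(𝔑)` injects into the finite set `T` of `FinIndexC`; `Rep` = the chosen
representatives (`Quotient.out`) of the classes; left multiplication by `h₀ ∈ H` permutes the
classes.
-/

set_option autoImplicit false

open IsDedekindDomain NumberField

noncomputable section

namespace Fermat.Agent.LT.T7.H454

open Fermat.Agent.LT.H556 Fermat.Agent.LT.H556.A0 Fermat.Agent.LT Fermat.Agent.LT.T7.H193

variable {K : Type} [Field K] [NumberField K]

/-! ## 1. The local components are multiplicative -/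

/-- Evaluation at the finite place `v`, as a ring homomorphism. -/
def evFin454 (v : HeightOneSpectrum (𝓞 K)) : Adl K →+* v.adicCompletion K :=
  (RestrictedProduct.evalRingHom (fun v : HeightOneSpectrum (𝓞 K) => v.adicCompletion K) v).comp
    (RingHom.snd (InfiniteAdeleRing K) (FiniteAdeleRing (𝓞 K) K))

/-- Evaluation at the infinite place `w`, as a ring homomorphism. -/
def evInf454 (w : InfinitePlace K) : Adl K →+* w.Completion :=
  (Pi.evalRingHom (fun w : InfinitePlace K => w.Completion) w).comp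
    (RingHom.fst (InfiniteAdeleRing K) (FiniteAdeleRing (𝓞 K) K))

theorem finComp_eq454 (v : HeightOneSpectrum (𝓞 K)) (g : G K) :
    finComp v g = (evFin454 v).mapMatrix (g : Matrix (Fin 2) (Fin 2) (Adl K)) :=
  Matrix.ext fun _ _ => rfl

theorem finComp_mul454 (v : HeightOneSpectrum (𝓞 K)) (g h : G K) :
    finComp v (g * h) = finComp v g * finComp v h := by
  rw [finComp_eq454, finComp_eq454, finComp_eq454, Units.val_mul, map_mul]

theorem finComp_one454 (v : HeightOneSpectrum (𝓞 K)) : finComp v (1 : G K) = 1 := by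
  rw [finComp_eq454, Units.val_one, map_one]

theorem trivAtInf_iff454 (w : InfinitePlace K) (g : G K) :
    TrivAtInf w g ↔ (evInf454 w).mapMatrix (g : Matrix (Fin 2) (Fin 2) (Adl K)) = 1 := by
  constructor
  · intro h
    exact Matrix.ext fun i j => h i j
  · intro h i j
    have := congrFun (congrFun h i) j
    exact this

theorem trivAtInf_mul454 (w : InfinitePlace K) {g h : G K} (hg : TrivAtInf w g)
    (hh : TrivAtInf w h) : TrivAtInf w (g * h) := by
  rw [trivAtInf_iff454] at hg hh ⊢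
  rw [Units.val_mul, map_mul, hg, hh, one_mul]

/-! ## 2. Integrality -/

theorem isIntegralAt_mul454 (v : HeightOneSpectrum (𝓞 K)) {g h : G K} (hg : IsIntegralAt v g)
    (hh : IsIntegralAt v h) : IsIntegralAt v (g * h) := by
  intro i j
  rw [finComp_mul454, Matrix.mul_apply]
  exact sum_mem fun k _ => mul_mem (hg i k) (hh k j)

theorem isIntegralAt_of_triv454 (v : HeightOneSpectrum (𝓞 K)) {g : G K} (hg : TrivAtFin v g) :
    IsIntegralAt v g := by
  intro i j
  have h1 : finComp v g = 1 := hg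
  rw [h1, Matrix.one_apply]
  split_ifs
  · exact one_mem _
  · exact zero_mem _

theorem idealClosure_subset454 (𝔫 : Ideal (𝓞 K)) (v : HeightOneSpectrum (𝓞 K)) :
    idealClosure 𝔫 v ⊆ (v.adicCompletionIntegers K : Set (v.adicCompletion K)) := by
  refine closure_minimal ?_ (Valued.isClosed_valuationSubring (v.adicCompletion K))
  rintro _ ⟨x, -, rfl⟩
  exact HeightOneSpectrum.coe_mem_adicCompletionIntegers v x

theorem idealClosure_mono454 {𝔫 𝔫₀ : Ideal (𝓞 K)} (h : 𝔫 ≤ 𝔫₀) (v : HeightOneSpectrum (𝓞 K)) :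
    idealClosure 𝔫 v ⊆ idealClosure 𝔫₀ v :=
  closure_mono (Set.image_mono h)

theorem inLevelGroup_mono454 {𝔫 𝔫₀ : Ideal (𝓞 K)} (h : 𝔫 ≤ 𝔫₀) {u : G K}
    (hu : InLevelGroup 𝔫 u) : InLevelGroup 𝔫₀ u :=
  ⟨hu.1, fun v i j => ⟨idealClosure_mono454 h v (hu.2 v i j).1,
    idealClosure_mono454 h v (hu.2 v i j).2⟩⟩

theorem isIntegralAt_of_sub_one454 (v : HeightOneSpectrum (𝓞 K)) (𝔫 : Ideal (𝓞 K)) {g : G K}
    (hg : ∀ i j, (finComp v g - 1) i j ∈ idealClosure 𝔫 v) : IsIntegralAt v g := by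
  intro i j
  have h1 : finComp v g i j = (finComp v g - 1) i j + (1 : Matrix (Fin 2) (Fin 2) _) i j := by
    rw [Matrix.sub_apply, sub_add_cancel]
  rw [h1]
  refine add_mem (idealClosure_subset454 𝔫 v (hg i j)) ?_
  rw [Matrix.one_apply]
  split_ifs
  · exact one_mem _
  · exact zero_mem _

theorem inLevelGroup_integral454 {𝔫 : Ideal (𝓞 K)} {u : G K} (hu : InLevelGroup 𝔫 u)
    (v : HeightOneSpectrum (𝓞 K)) : IsIntegralAt v u ∧ IsIntegralAt v u⁻¹ :=
  ⟨isIntegralAt_of_sub_one454 v 𝔫 fun i j => (hu.2 v i j).1,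
    isIntegralAt_of_sub_one454 v 𝔫 fun i j => (hu.2 v i j).2⟩

/-- An Iwahori element of the orbit is integral at every finite place. -/
theorem isIwElt_integral454 {l : ℕ} {o : ℕ → HeightOneSpectrum (𝓞 K)} {i : G K}
    (hi : IsIwElt l o i) (v : HeightOneSpectrum (𝓞 K)) : IsIntegralAt v i := by
  by_cases hv : ∀ j < l, v ≠ o j
  · exact isIntegralAt_of_triv454 v (hi.2.1 v hv)
  · have hv' : ∃ j, j < l ∧ v = o j := by
      by_contra hcon
      exact hv fun j hj hvj => hcon ⟨j, hj, hvj⟩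
    obtain ⟨j, hj, rfl⟩ := hv'
    exact (hi.2.2 j hj).1

/-! ## 3. The two groups -/

/-- `H = I_o · U(𝔑₀)`, a subgroup by `HGroupC`. -/
def hSub454 (hG : HGroupC K) (𝔑₀ : Ideal (𝓞 K)) (l : ℕ) (o : ℕ → HeightOneSpectrum (𝓞 K)) :
    Subgroup (G K) where
  carrier := {h | ∃ i u : G K, IsIwElt l o i ∧ InLevelGroup 𝔑₀ u ∧ h = i * u}
  mul_mem' := by
    rintro _ _ ⟨i, u, hi, hu, rfl⟩ ⟨i', u', hi', hu', rfl⟩
    obtain ⟨h1, -, h3, -, -, -, h7⟩ := hG 𝔑₀ l o
    refine ⟨i * i', i'⁻¹ * u * i' * u', h1 i i' hi hi', h3 _ _ (h7 i' u hi' hu) hu', ?_⟩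
    group
  one_mem' := by
    obtain ⟨-, -, -, -, h5, h6, -⟩ := hG 𝔑₀ l o
    exact ⟨1, 1, h6, h5, (mul_one 1).symm⟩
  inv_mem' := by
    rintro _ ⟨i, u, hi, hu, rfl⟩
    obtain ⟨-, h2, -, h4, -, -, h7⟩ := hG 𝔑₀ l o
    refine ⟨i⁻¹, (i⁻¹)⁻¹ * u⁻¹ * i⁻¹, h2 i hi, h7 i⁻¹ u⁻¹ (h2 i hi) (h4 u hu), ?_⟩
    group

theorem mem_hSub454 (hG : HGroupC K) (𝔑₀ : Ideal (𝓞 K)) (l : ℕ)
    (o : ℕ → HeightOneSpectrum (𝓞 K)) (h : G K) :
    h ∈ hSub454 hG 𝔑₀ l o ↔ ∃ i u : G K, IsIwElt l o i ∧ InLevelGroup 𝔑₀ u ∧ h = i * u :=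
  Iff.rfl

/-- `U(𝔑)`, a subgroup by `HGroupC`. -/
def uSub454 (hG : HGroupC K) (𝔑 : Ideal (𝓞 K)) (l : ℕ) (o : ℕ → HeightOneSpectrum (𝓞 K)) :
    Subgroup (G K) where
  carrier := {u | InLevelGroup 𝔑 u}
  mul_mem' := fun {a b} ha hb => (hG 𝔑 l o).2.2.1 a b ha hb
  one_mem' := (hG 𝔑 l o).2.2.2.2.1
  inv_mem' := fun {a} ha => (hG 𝔑 l o).2.2.2.1 a ha

theorem mem_uSub454 (hG : HGroupC K) (𝔑 : Ideal (𝓞 K)) (l : ℕ)
    (o : ℕ → HeightOneSpectrum (𝓞 K)) (u : G K) :
    u ∈ uSub454 hG 𝔑 l o ↔ InLevelGroup 𝔑 u :=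
  Iff.rfl

/-- Every element of `H` is trivial at infinity and integral with integral inverse at every
finite place. -/
theorem hSub_integral454 (hG : HGroupC K) (𝔑₀ : Ideal (𝓞 K)) (l : ℕ)
    (o : ℕ → HeightOneSpectrum (𝓞 K)) {h : G K} (hh : h ∈ hSub454 hG 𝔑₀ l o) :
    (∀ w : InfinitePlace K, TrivAtInf w h) ∧
      ∀ v : HeightOneSpectrum (𝓞 K), IsIntegralAt v h ∧ IsIntegralAt v h⁻¹ := by
  obtain ⟨i, u, hi, hu, rfl⟩ := hh
  have hi' : IsIwElt l o i⁻¹ := (hG 𝔑₀ l o).2.1 i hi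
  refine ⟨fun w => trivAtInf_mul454 w (hi.1 w) (hu.1 w), fun v => ⟨?_, ?_⟩⟩
  · exact isIntegralAt_mul454 v (isIwElt_integral454 hi v) (inLevelGroup_integral454 hu v).1
  · rw [mul_inv_rev]
    exact isIntegralAt_mul454 v (inLevelGroup_integral454 hu v).2 (isIwElt_integral454 hi' v)

/-! ## 4. The assembly -/

/-- **LEAF PROJ.2c = FIN-DATA (assembly).** -/
theorem finDataAsmC454 (K : Type) [Field K] [NumberField K] : FinDataAsmC K := by
  intro hG hF 𝔑 𝔑₀ h𝔑 hle l o
  classical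
  obtain ⟨T, hT⟩ := hF 𝔑 h𝔑
  -- the two groups
  let Hs : Subgroup (G K) := hSub454 hG 𝔑₀ l o
  let Us : Subgroup (G K) := uSub454 hG 𝔑 l o
  have hlev : ∀ u : G K, InLevelGroup 𝔑₀ u → u ∈ Hs := fun u hu =>
    ⟨1, u, (hG 𝔑₀ l o).2.2.2.2.2.1, hu, (one_mul u).symm⟩
  have hiw : ∀ i : G K, IsIwElt l o i → i ∈ Hs := fun i hi =>
    ⟨i, 1, hi, (hG 𝔑₀ l o).2.2.2.2.1, (mul_one i).symm⟩
  -- the finite set `T` covers `H`
  have hcov : ∀ h : G K, h ∈ Hs → ∃ τ : G K, τ ∈ T ∧ τ⁻¹ * h ∈ Us := by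
    intro h hh
    obtain ⟨h1, h2⟩ := hSub_integral454 hG 𝔑₀ l o hh
    obtain ⟨τ, hτ, hτu⟩ := hT h h1 h2
    exact ⟨τ, hτ, hτu⟩
  choose! τ hτT hτU using hcov
  -- the quotient
  let N : Subgroup Hs := Us.subgroupOf Hs
  let rep : (Hs ⧸ N) → G K := fun q => ((Quotient.out q : Hs) : G K)
  have hrepH : ∀ q : Hs ⧸ N, rep q ∈ Hs := fun q => (Quotient.out q : Hs).2
  have hmk : ∀ q : Hs ⧸ N, (QuotientGroup.mk (Quotient.out q : Hs) : Hs ⧸ N) = q :=
    fun q => QuotientGroup.out_eq' q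
  have hQeq : ∀ a b : Hs, (QuotientGroup.mk a : Hs ⧸ N) = QuotientGroup.mk b ↔
      (a : G K)⁻¹ * (b : G K) ∈ Us := by
    intro a b
    rw [QuotientGroup.eq, Subgroup.mem_subgroupOf]
    rfl
  have hrep_inj : Function.Injective rep := by
    intro q q' hqq
    have h1 : (Quotient.out q : Hs) = Quotient.out q' := Subtype.ext hqq
    rw [← hmk q, ← hmk q', h1]
  have hτ_inj : Function.Injective (fun q : Hs ⧸ N => (⟨τ (rep q), hτT _ (hrepH q)⟩ : T)) := by
    intro q q' hqq
    have h1 : τ (rep q) = τ (rep q') := congrArg Subtype.val hqq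
    have h2 : (τ (rep q))⁻¹ * rep q ∈ Us := hτU _ (hrepH q)
    have h3 : (τ (rep q))⁻¹ * rep q' ∈ Us := by
      rw [h1]
      exact hτU _ (hrepH q')
    have h4 : (rep q)⁻¹ * rep q' ∈ Us := by
      have h5 : (rep q)⁻¹ * rep q' = ((τ (rep q))⁻¹ * rep q)⁻¹ * ((τ (rep q))⁻¹ * rep q') := by
        group
      rw [h5]
      exact Us.mul_mem (Us.inv_mem h2) h3
    rw [← hmk q, ← hmk q']
    exact (hQeq _ _).2 h4
  have : Finite (Hs ⧸ N) := Finite.of_injective _ hτ_inj
  have : Fintype (Hs ⧸ N) := Fintype.ofFinite _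
  -- the permutation property, for every `h₀ ∈ H`
  have hperm : ∀ e : G K → ℂ, (∀ u : G K, InLevelGroup 𝔑 u → ∀ g : G K, e (g * u) = e g) →
      ∀ h₀ : G K, h₀ ∈ Hs → ∀ g : G K,
        ∑ h ∈ (Finset.univ : Finset (Hs ⧸ N)).image rep, e (g * h₀ * h)
          = ∑ h ∈ (Finset.univ : Finset (Hs ⧸ N)).image rep, e (g * h) := by
    intro e he h₀ hh₀ g
    rw [Finset.sum_image (fun a _ b _ hab => hrep_inj hab),
      Finset.sum_image (fun a _ b _ hab => hrep_inj hab)]
    let h₀' : Hs := ⟨h₀, hh₀⟩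
    let σ : Equiv.Perm (Hs ⧸ N) := MulAction.toPerm h₀'
    have hσ : ∀ q : Hs ⧸ N, e (g * h₀ * rep q) = e (g * rep (σ q)) := by
      intro q
      have h1 : σ q = (QuotientGroup.mk (h₀' * (Quotient.out q : Hs)) : Hs ⧸ N) := by
        show h₀' • q = _
        conv_lhs => rw [← hmk q]
        rfl
      have h2 : (rep (σ q))⁻¹ * (h₀ * rep q) ∈ Us := by
        have h3 := (hQeq (Quotient.out (σ q)) (h₀' * (Quotient.out q : Hs))).1
          ((hmk (σ q)).trans h1)
        exact h3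
      have h4 : g * h₀ * rep q = g * rep (σ q) * ((rep (σ q))⁻¹ * (h₀ * rep q)) := by
        group
      rw [h4]
      exact he _ h2 _
    rw [Finset.sum_congr rfl (fun q _ => hσ q)]
    exact Equiv.sum_comp σ (fun q => e (g * rep q))
  refine ⟨(Finset.univ : Finset (Hs ⧸ N)).image rep, ?_, ?_, ?_, ?_⟩
  · exact ⟨rep (QuotientGroup.mk 1), Finset.mem_image_of_mem rep (Finset.mem_univ _)⟩
  · intro h hh
    obtain ⟨q, -, rfl⟩ := Finset.mem_image.1 hh
    exact hrepH q
  · intro e he h₀ hh₀ g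
    exact hperm e he h₀ (hlev h₀ hh₀) g
  · intro e he h₀ hh₀ g
    exact hperm e he h₀ (hiw h₀ hh₀) g

end Fermat.Agent.LT.T7.H454

end
end
-- ===== PACK-END LT/T7/H454/FinDataAsm.lean

-- ===== PACK-BEGIN LT/T7/H126/Dirichlet.lean
section



/-!
# Row LT, tower T7, node T7.L2.1 `SupplyC`, sub-station PROJ, leaf PROJ.7 = T7.L2.1.P09
# `DirichletC` (helper126, OFF-MAIN)

`dirichletC126 K : H193.DirichletC K`, VERBATIM vs `T7/H193/ProjSpec.lean` (sha256 977a85e3,
helper193@812840e55), UNCONDITIONAL.  The proof is `dirichlet_core126` (Mathlib only).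
-/

set_option autoImplicit false

namespace Fermat.Agent.LT.T7.H126

open NumberField

/-- **LEAF PROJ.7 = DIRICHLET.** -/
theorem dirichletC126 (K : Type) [Field K] [NumberField K] :
    Fermat.Agent.LT.T7.H193.DirichletC K :=
  fun 𝔑 h𝔑 c hc => dirichlet_core126 K 𝔑 h𝔑 c hc

end Fermat.Agent.LT.T7.H126

end
-- ===== PACK-END LT/T7/H126/Dirichlet.lean

-- ===== PACK-BEGIN LT/T7/H587/TorAvgOrth.lean
section



/-!
# Row LT, tower T7, node T7.L2.1 `SupplyC`, sub-station PROJ: leaf PROJ.11 = `TorAvgOrthC`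

OFF-MAIN (helper587, registry row 2148).  Spec: `LT/T7/H193/ProjSpec.lean` of helper193
(sha256 977a85e322a5d9c9), byte-identical copy.

    torAvgOrthC587 (K) : H193.TorAvgOrthC K        (VERBATIM, unconditional)

`ψ - P_∞ ψ` is orthogonal to the invariant cusp functions: Fubini on `F × D` (bounded continuous
integrand, finite measures), `χ (x a(t)) = χ x` (`a t` is the product over `w` of the positive
scalars `a (Pi.single w (t w))` at `w`), and `TranslInvC` for `Φ = ψ conj χ`, `h = a t`.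
-/

set_option autoImplicit false

open IsDedekindDomain NumberField MeasureTheory
open scoped ComplexConjugate

noncomputable section

namespace Fermat.Agent.LT.T7.H587

open Fermat.Agent.LT.H556 Fermat.Agent.LT.H556.A0 Fermat.Agent.LT
open Fermat.Agent.LT.T7 Fermat.Agent.LT.T7.H193

attribute [local instance] Fermat.Agent.LT.T5.instMeasurableSpaceG

variable {K : Type} [Field K] [NumberField K]

/-- A homomorphism `a` from an additive group sends `0` to `1`. -/
theorem a_zero587 {a : (InfinitePlace K → ℝ) → G K}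
    (hmul : ∀ s t : InfinitePlace K → ℝ, a (s + t) = a s * a t) : a 0 = 1 := by
  have h := hmul 0 0
  rw [add_zero] at h
  have h' : a 0 * 1 = a 0 * a 0 := by rw [mul_one]; exact h
  exact (mul_left_cancel h').symm

/-- An element with trivial component (in `ℂ`) at `w'` is trivial at `w'`. -/
theorem trivAtInf_of_infComp587 {w' : InfinitePlace K} {g : G K} (h : infComp w' g = 1) :
    TrivAtInf w' g := by
  intro i j
  have hij := congrFun (congrFun h i) j
  have hinj : Function.Injective (InfinitePlace.Completion.extensionEmbedding w') :=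
    (InfinitePlace.Completion.extensionEmbedding w').injective
  apply hinj
  rw [show InfinitePlace.Completion.extensionEmbedding w'
      (((g : Matrix (Fin 2) (Fin 2) (Adl K)) i j).1 w') = infComp w' g i j from rfl, hij]
  by_cases hc : i = j
  · subst hc
    simp
  · simp [Matrix.one_apply_ne hc]

/-- The one-parameter elements `a (Pi.single w c)` are positive scalars at `w`. -/
theorem isArchPosScalar_single587 [DecidableEq (InfinitePlace K)]
    {a : (InfinitePlace K → ℝ) → G K}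
    (hinf : ∀ (t : InfinitePlace K → ℝ) (w : InfinitePlace K),
      infComp w (a t) = Matrix.diagonal fun _ => ((Real.exp (t w) : ℝ) : ℂ))
    (hfin : ∀ (t : InfinitePlace K → ℝ) (v : HeightOneSpectrum (𝓞 K)), TrivAtFin v (a t))
    (w : InfinitePlace K) (c : ℝ) : IsArchPosScalar w (a (Pi.single w c)) := by
  refine ⟨⟨fun w' hw' => ?_, fun v => hfin _ v⟩, Real.exp c, Real.exp_pos c, ?_⟩
  · apply trivAtInf_of_infComp587
    rw [hinf, Pi.single_eq_of_ne hw', Real.exp_zero]
    ext i j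
    by_cases hc : i = j
    · subst hc
      simp
    · simp [Matrix.diagonal_apply_ne _ hc, Matrix.one_apply_ne hc]
  · rw [hinf, Pi.single_eq_same]

/-- A function which is invariant under the positive scalars at every infinite place is
invariant under `a t`. -/
theorem inv_a587 {a : (InfinitePlace K → ℝ) → G K}
    (hmul : ∀ s t : InfinitePlace K → ℝ, a (s + t) = a s * a t)
    (hinf : ∀ (t : InfinitePlace K → ℝ) (w : InfinitePlace K),
      infComp w (a t) = Matrix.diagonal fun _ => ((Real.exp (t w) : ℝ) : ℂ))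
    (hfin : ∀ (t : InfinitePlace K → ℝ) (v : HeightOneSpectrum (𝓞 K)), TrivAtFin v (a t))
    {χ : G K → ℂ}
    (hχ : ∀ (w : InfinitePlace K) (z : G K), IsArchPosScalar w z → ∀ g : G K, χ (g * z) = χ g)
    (t : InfinitePlace K → ℝ) (x : G K) : χ (x * a t) = χ x := by
  classical
  have key : ∀ S : Finset (InfinitePlace K), ∀ x : G K,
      χ (x * a (∑ w ∈ S, Pi.single w (t w))) = χ x := by
    intro S
    induction S using Finset.induction_on with
    | empty =>
      intro x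
      rw [Finset.sum_empty, a_zero587 hmul, mul_one]
    | insert w S hw ih =>
      intro x
      rw [Finset.sum_insert hw, hmul, ← mul_assoc, ih,
        hχ w _ (isArchPosScalar_single587 hinf hfin w (t w))]
  have h := key Finset.univ x
  rwa [Finset.univ_sum_single] at h

/-- **LEAF PROJ.11 = TOR-AVG-ORTH**, verbatim. -/
theorem torAvgOrthC587 (K : Type) [Field K] [NumberField K] : TorAvgOrthC K := by
  intro hT1 hTI R hR 𝔑₀ a D hD l o ψ hψ χ hχ
  have hTI' := hTI hT1.adNorm R hR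
  have : BorelSpace (G K) := ⟨rfl⟩
  have hFfin : R.μ R.F < ⊤ := hR.frame.finite
  have hDfin : volume D < ⊤ := hD.bdd.measure_lt_top
  have : IsFiniteMeasure (R.μ.restrict R.F) := ⟨by rwa [Measure.restrict_apply_univ]⟩
  have : IsFiniteMeasure ((volume : Measure (InfinitePlace K → ℝ)).restrict D) :=
    ⟨by rwa [Measure.restrict_apply_univ]⟩
  obtain ⟨Cψ, hCψ⟩ := hψ.bdd
  obtain ⟨Cχ, hCχ⟩ := hχ.cusp.bdd
  -- the constant
  set c : ℂ := (((volume D).toReal : ℝ) : ℂ) with hc
  have hcpos : 0 < (volume D).toReal := ENNReal.toReal_pos hD.pos.ne' hDfin.ne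
  have hc0 : c ≠ 0 := by
    rw [hc]
    exact_mod_cast hcpos.ne'
  -- the function `Φ = ψ conj χ`
  set Φ : G K → ℂ := fun x => ψ x * conj (χ x) with hΦ
  have hΦleft : ∀ (γ : GL (Fin 2) K) (x : G K), Φ (T5.ratG γ * x) = Φ x := by
    intro γ x
    simp only [hΦ]
    rw [hψ.aut.left_inv, hχ.cusp.aut.left_inv]
  have hΦray : ∀ x : G K, Φ (x * R.r) = Φ x := by
    intro x
    simp only [hΦ]
    rw [hψ.aut.ray, hχ.cusp.aut.ray]
  have hΦint : IntegrableOn Φ R.F R.μ :=
    integrableOn_mul_conj193 hFfin hψ.cont hχ.cusp.cont ⟨Cψ, hCψ⟩ ⟨Cχ, hCχ⟩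
  -- the integrand on the product
  set f : G K → (InfinitePlace K → ℝ) → ℂ := fun x t => ψ (x * a t) * conj (χ x) with hf
  have hfcont : Continuous (Function.uncurry f) := by
    have h1 : Continuous fun p : G K × (InfinitePlace K → ℝ) => p.1 * a p.2 :=
      continuous_fst.mul (hD.cont.comp continuous_snd)
    exact (hψ.cont.comp h1).mul (Complex.continuous_conj.comp (hχ.cusp.cont.comp continuous_fst))
  have hfint : Integrable (Function.uncurry f)
      ((R.μ.restrict R.F).prod ((volume : Measure (InfinitePlace K → ℝ)).restrict D)) := by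
    refine Integrable.of_bound (C := Cψ * Cχ) hfcont.aestronglyMeasurable ?_
    refine Filter.Eventually.of_forall fun p => ?_
    simp only [Function.uncurry, hf]
    rw [norm_mul, RCLike.norm_conj]
    exact mul_le_mul (hCψ _) (hCχ _) (norm_nonneg _) ((norm_nonneg _).trans (hCψ p.1))
  -- invariance of `χ`
  have hχa : ∀ (t : InfinitePlace K → ℝ) (x : G K), χ (x * a t) = χ x :=
    fun t x => inv_a587 hD.mul hD.inf hD.fin hχ.arch_scalar t x
  -- the inner integral over `F`
  have hinner : ∀ t : InfinitePlace K → ℝ,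
      ∫ x in R.F, f x t ∂(R.μ) = ∫ x in R.F, Φ x ∂(R.μ) := by
    intro t
    rw [← hTI' Φ hΦleft hΦray (a t)]
    refine integral_congr_ae (Filter.Eventually.of_forall fun x => ?_)
    simp only [hf, hΦ]
    rw [hχa t x]
  -- Fubini
  have hswap : ∫ x in R.F, (∫ t in D, f x t) ∂(R.μ) = c * ∫ x in R.F, Φ x ∂(R.μ) := by
    rw [integral_integral_swap hfint]
    simp only [hinner]
    rw [integral_const, hc]
    simp [Measure.real, Complex.real_smul]
  -- integrability of the averaged term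
  have hgint : IntegrableOn (fun x => ∫ t in D, f x t) R.F R.μ := hfint.integral_prod_left
  -- the integrand of the inner product
  have hpt : ∀ x : G K, (ψ x - torAvg a D ψ x) * conj (χ x)
      = Φ x - c⁻¹ * ∫ t in D, f x t := by
    intro x
    simp only [torAvg, hf, hΦ]
    rw [integral_mul_const]
    ring
  unfold T5.innerD
  rw [integral_congr_ae (Filter.Eventually.of_forall hpt),
    integral_sub hΦint (hgint.const_mul c⁻¹), integral_const_mul, hswap, ← mul_assoc,
    inv_mul_cancel₀ hc0, one_mul, sub_self]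

end Fermat.Agent.LT.T7.H587

end

end
-- ===== PACK-END LT/T7/H587/TorAvgOrth.lean

-- ===== PACK-BEGIN LT/T7/H269/ResDeg.lean
section



/-!
# Row LT, tower T7, leaf T7.L2.3.6 `SD534.ResDegC` (helper269)

OFF-MAIN.  ADDITIVE (new names only, all tagged `269`).  No hole, nothing assumed.
Spec: `LT/T7/H534/SpecDownSpec.lean` (helper534@756e78a11), byte-identical.

    resDegC269 : SD534.ResDegC K K'

Every finite place `w` of `K'` lies over the finite place `v = w ∩ 𝓞 K` of `K`, and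
`N w = (N v) ^ f` with `f = [𝓞 K' / w : 𝓞 K / v]` (the finite ring `𝓞 K' / w` is a finite
dimensional vector space over the finite field `𝓞 K / v`).  The hypothesis
`FiniteDimensional K K'` of the leaf is not needed.
-/

set_option autoImplicit false
set_option linter.unusedSectionVars false
set_option linter.unusedVariables false
set_option linter.style.haveILetI false

open IsDedekindDomain NumberField

noncomputable section

namespace Fermat.Agent.LT.T7.H269

open Fermat.Agent.LT.T7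

variable (K K' : Type) [Field K] [NumberField K] [Field K'] [NumberField K'] [Algebra K K']

/-- The place of `K` below the finite place `w` of `K'`. -/
def placeBelow269 (w : HeightOneSpectrum (𝓞 K')) : HeightOneSpectrum (𝓞 K) where
  asIdeal := w.asIdeal.under (𝓞 K)
  isPrime := Ideal.IsPrime.under (𝓞 K) w.asIdeal
  ne_bot := by
    obtain ⟨x, hx, hx0⟩ := Submodule.exists_mem_ne_zero_of_ne_bot w.ne_bot
    exact Ideal.comap_ne_bot_of_integral_mem hx0 hx (Algebra.IsIntegral.isIntegral x)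

theorem placeBelow269_asIdeal (w : HeightOneSpectrum (𝓞 K')) :
    (placeBelow269 K K' w).asIdeal = w.asIdeal.under (𝓞 K) := rfl

/-- `w` lies over `w ∩ 𝓞 K`. -/
theorem placeOver_placeBelow269 (w : HeightOneSpectrum (𝓞 K')) :
    PlaceOver K K' (placeBelow269 K K' w) w := by
  intro x y hxy
  have hy : y = algebraMap (𝓞 K) (𝓞 K') x := by
    apply RingOfIntegers.ext
    rw [hxy]
    rfl
  rw [placeBelow269_asIdeal, Ideal.under_def, Ideal.mem_comap, hy]

/-- `N w` is a power of `N (w ∩ 𝓞 K)`. -/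
theorem absNorm_eq_pow269 (w : HeightOneSpectrum (𝓞 K')) :
    ∃ f : ℕ, Ideal.absNorm w.asIdeal = Ideal.absNorm (placeBelow269 K K' w).asIdeal ^ f := by
  haveI hmax : (w.asIdeal.under (𝓞 K)).IsMaximal :=
    (placeBelow269 K K' w).isMaximal
  letI : Field (𝓞 K ⧸ w.asIdeal.under (𝓞 K)) := Ideal.Quotient.field _
  haveI : Finite (𝓞 K' ⧸ w.asIdeal) := Ideal.finiteQuotientOfFreeOfNeBot _ w.ne_bot
  haveI : Module.Finite (𝓞 K ⧸ w.asIdeal.under (𝓞 K)) (𝓞 K' ⧸ w.asIdeal) :=
    Module.Finite.of_finite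
  refine ⟨Module.finrank (𝓞 K ⧸ w.asIdeal.under (𝓞 K)) (𝓞 K' ⧸ w.asIdeal), ?_⟩
  rw [placeBelow269_asIdeal, Ideal.absNorm_apply, Ideal.absNorm_apply, Submodule.cardQuot_apply,
    Submodule.cardQuot_apply]
  exact Module.natCard_eq_pow_finrank (K := 𝓞 K ⧸ w.asIdeal.under (𝓞 K))
    (V := 𝓞 K' ⧸ w.asIdeal)

/-- Every finite place of `K'` has a place below and a residue degree. -/
theorem hasResDeg269 (w : HeightOneSpectrum (𝓞 K')) :
    ∃ (v : HeightOneSpectrum (𝓞 K)) (f : ℕ), HasResDeg K K' v w f := by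
  obtain ⟨f, hf⟩ := absNorm_eq_pow269 K K' w
  exact ⟨placeBelow269 K K' w, f, placeOver_placeBelow269 K K' w, hf⟩

/-- **LEAF T7.L2.3.6** `SD534.ResDegC K K'`, verbatim. -/
theorem resDegC269 : SD534.ResDegC K K' :=
  fun _ w => hasResDeg269 K K' w

/-- Type check against the frozen Prop of the spec. -/
example (K K' : Type) [Field K] [NumberField K] [Field K'] [NumberField K'] [Algebra K K'] :
    Fermat.Agent.LT.T7.SD534.ResDegC K K' := resDegC269 K K'

end Fermat.Agent.LT.T7.H269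

end
end
-- ===== PACK-END LT/T7/H269/ResDeg.lean

-- ===== PACK-BEGIN LT/T7/H298/MatchQSpec.lean
section




/-!
# Row LT, tower T7, node T7.L2Q.1.H1 `GlobQC732` (registry row 2464, owner helper298):
# THE MATCHING THEOREM OVER `ℚ` -- FIRST CUT, Spec

OFF-MAIN.  Definitions and frozen Props only (the proved top is `MatchQTop.lean`, the glue to
`H732.GlobQC732` is `MatchQGlue.lean`).  No hole, nothing assumed.  ADDITIVE (new names only, all
suffixed `298`, namespace `Fermat.Agent.LT.T7.MQ298`).  MIRROR of the first cut of the cubic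
matching theorem, `T7/H305/MatchSpec.lean` (helper305@61757801e, sha256 541c6ac7), which is
imported AS IT IS: the vocabulary (`pure305`, `tA305`, `IsCutOn305`, `cutInt305`, `torVol305`,
`IsAdeleBase305`, `IsTorLinked305`, `IsOver305`, `IsLevelAt305`, `UnramOut305`) and the
ONE-FIELD leaves `UnfoldC305 F`, `TorCommC305 ℚ`, `TorCommC305 F`, `TwistRepC305 F`,
`TorHaarC305 ℚ` and the leaf `EllRegC305 ℚ F` are REUSED VERBATIM (they carry no hypothesis on
the infinite places and none on the degree).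

    globMatchQ_of298 : IotaQC298 F → UnfoldGC298 ℚ → UnfoldC305 F → TorCommC305 ℚ →
        TorCommC305 F → TwistRepC305 F → EllRegC305 ℚ F → TorHaarC305 ℚ → TorMeasQC298 F →
        TorCompQC298 F → CutIntQC298 F → GlobMatchQC298 F

## Setting (quadratic step)

`K = ℚ`, `K' = F` imaginary quadratic (`F = ℚ(√-3)` in the application), `l = 2`, `σ` = the
conjugation of `F`.  The `ℚ`-algebra structure of `F` is the canonical one.  The real place of
`ℚ` does NOT split: the archimedean component downstairs is a function on `GL₂(ℝ)`, and it is the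
SUM `F0 + F1` of a test function of weight `0` and a test function of weight `-1`
(`T6.IsArchTestR`, `L2Q.QWt.wt w1 = -1`), matched with the bi-`U(2)`-invariant component `Φ w`
upstairs in the sense of `T6.IsArchMatch μr μc` (`T6/SpecArch.lean`, helper22; existence:
`T6.ArchMatchC`, closed sub-tower T6inf).

## What is NEW with respect to the cubic cut

* `reHomQ298`, `reGLQ298` : the component at the real place of `ℚ`, in `ℝ` / `GL₂(ℝ)` (the same
  term as `T3.R.reHom ℚ Rat.infinitePlace Rat.isReal_infinitePlace` of station T3.18R).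
* `pureQ298 T f₀ Fr` : the pure tensor over `ℚ` with real archimedean component `Fr`.
* `LocHypQ298` : `LocHyp305` with the archimedean clause replaced by `T6.IsArchMatch`.
* **`UnfoldGC298 K`** (LEAF, ONE field): `UnfoldC305 K` for every CONTINUOUS function with
  COMPACT SUPPORT (no `K_∞`-type, no level): the sum `f w0 + f w1` downstairs is not a test
  function of one type.  The proofs of `UnfoldC305` on the branches use the continuity of `φ`
  only (helper627 `T7/H627/Unfold305.lean`): the same proof.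
* **`IotaQC298 F`** (LEAF): `IotaC305` for `F/ℚ` (`ℝ → ℂ` at the infinite place;
  `‖ι x‖_ℂ² = (|x|_ℝ)²`).
* **`TorMeasQC298 F`** (LEAF): `TorMeasC305` for `F/ℚ` (the proofs on the branches do not use the
  hypotheses `IsCycExt`, `TotCplx`: helper787, helper233).
* **`TorCompQC298 F`** (LEAF): `TorCompC305` for `F/ℚ`: `vol(γ) = 2 · vol(δ)` (the ray
  generators: `t² = 2` downstairs at the real place, `t'⁴ = 2` upstairs, `ι(r) = r'²`).
* **`CutIntQC298 F`** (NODE, the core): `CutIntC305` for `F/ℚ` with the archimedean matching.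

FALSITY CHECKS (helper298).  (1) Periodisation: the sum over the ray upstairs runs over
`δ r'^j`, `N(δ r'^j) = γ ι(r)^j`, downstairs over `γ r^j`: term by term the archimedean factors
are matched by `T6.IsArchMatch` applied to `(γ r^j)_∞` and `(δ r'^j)_∞`.  (2) A global elliptic
`γ` which is not a norm fails to be a local norm at a FINITE place with one place over it or at
the REAL place (negative eigenvalues); at the real place the second clause of `T6.IsArchMatch`
gives the vanishing.  (3) Constants: `κ = c'_G / c_G` as in the cubic cut (the local Haar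
measures at infinity are `μr`, `μc`; the torus measures are linked); the factor `2` of the rays is
the factor of `TorCompQC298`.  (4) `UnramOut305 T₀` forces the ramified prime (`3`) into `T₀`.
-/

set_option autoImplicit false

open AutomorphicForm IsDedekindDomain NumberField MeasureTheory
open scoped ComplexConjugate

noncomputable section

namespace Fermat.Agent.LT.T7.MQ298

open Fermat.Agent.LT.H556 Fermat.Agent.LT.H556.A0 Fermat.Agent.LT.T7 Fermat.Agent.LT.T7.H305

attribute [local instance] Fermat.Agent.LT.T5.instMeasurableSpaceG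

/-! ## 1. The real place of `ℚ`, pure tensors over `ℚ` -/

/-- The component at the real place of `ℚ`, in `ℝ`. -/
def reHomQ298 : Adl ℚ →+* ℝ :=
  (InfinitePlace.Completion.extensionEmbeddingOfIsReal Rat.isReal_infinitePlace).comp
    ((Pi.evalRingHom (fun v : InfinitePlace ℚ => v.Completion) Rat.infinitePlace).comp
      (RingHom.fst (InfiniteAdeleRing ℚ) (FiniteAdeleRing (𝓞 ℚ) ℚ)))

/-- The component of `g ∈ GL₂(𝔸_ℚ)` at the real place, in `GL₂(ℝ)`. -/
def reGLQ298 : G ℚ →* GL (Fin 2) ℝ :=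
  Matrix.GeneralLinearGroup.map reHomQ298

open Classical in
/-- THE PURE TENSOR over `ℚ`: `⊗_{v ∈ T} f₀_v ⊗ Fr ⊗ ⊗_{v ∉ T} 1_{GL₂(ℤ_v)}`, `Fr` a function on
`GL₂(ℝ)`. -/
def pureQ298 (T : Finset (HeightOneSpectrum (𝓞 ℚ)))
    (f₀ : ∀ v : HeightOneSpectrum (𝓞 ℚ), GL (Fin 2) (v.adicCompletion ℚ) → ℂ)
    (Fr : GL (Fin 2) ℝ → ℂ) (h : G ℚ) : ℂ :=
  if OutT305 T h then (∏ v ∈ T, f₀ v (finGL305 v h)) * Fr (reGLQ298 h) else 0

/-! ## 2. The leaves which are new -/

section OneField

variable (K : Type) [Field K] [NumberField K]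

/-- **LEAF Q2.1 = UNFOLD, general form (ONE field; Fubini).**  The identity of `H305.UnfoldC305`
for every CONTINUOUS function `φ` with COMPACT SUPPORT:
`∫_{F_δ} φ♭(x⁻¹ δ σ(x)) dμ(x) = μT(T(K) \ T_𝔸 ∩ slab) · ∫ φ♭(y⁻¹ δ σ(y)) β(y) dμ(y)`.
Proof: the proof of `UnfoldC305` (Tonelli on `T_𝔸 × G(𝔸)`, two fundamental domains of a
countable group have the same measure); it uses the continuity of `φ` only. -/
def UnfoldGC298 : Prop :=
  ∀ R : Frame5 K, IsFrame5 R →
    ∀ (s : T5.AdelicAut K) (l : ℕ) (k : Subfield K) (𝔫 : Ideal (𝓞 K)),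
      T5.IsCyclicOfDegree s l k → T5.AutPreserves s 𝔫 R.μ R.r →
    ∀ δ : GL (Fin 2) K, T5.IsEllRegOver k (s.normUpTo l δ) →
    ∀ φ : G K → ℂ, Continuous φ → HasCompactSupport φ →
    ∀ Fδ : Set (G K), T5.IsTwDomain s δ Fδ →
    (∀ x ∈ tA305 s δ, ∀ y ∈ tA305 s δ, x * y = y * x) →
    ∀ μT : @Measure (tA305 s δ) (borel _), @Measure.IsHaarMeasure _ _ _ (borel _) μT →
    ∀ β : G K → ℝ, IsCutOn305 s δ μT β {x | T5.twTerm R.r s φ δ x ≠ 0} →
      ∫ x in Fδ, T5.twTerm R.r s φ δ x ∂(R.μ)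
        = (((torVol305 s δ μT Fδ).toReal : ℝ) : ℂ) * cutInt305 R.r s φ δ R.μ β

end OneField

section TwoFields

variable (F : Type) [Field F] [NumberField F]

/-- **LEAF Q2.4 = IOTA over `ℚ`** (the base change of adeles `𝔸_ℚ → 𝔸_F` exists).  Mirror of
`H305.IotaC305` (there: `K` totally complex).  Proof: the map `A2.H743.bcAdele743` of helper743
as in the cuts of `IotaC305` (helper816, helper965, helper872, ...); at the infinite place
`ℝ → ℂ`, `‖ι x‖_ℂ² = (|x|_ℝ)²` (`w.mult = 2` upstairs, `1` downstairs), so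
`‖ι x‖_F = ‖x‖_ℚ²`. -/
def IotaQC298 : Prop :=
  IsImagQuad F →
    ∀ D : CompData ℚ F, IsCompData D → IsCycExt ℚ F D.l → D.l = 2 →
      ∃ ι : Adl ℚ →+* Adl F, IsAdeleBase305 D.s D.l ι

/-- **LEAF Q2.5b = TOR-MEAS over `ℚ`** (linked Haar measures).  Mirror of `H305.TorMeasC305`;
the proofs of helper787 (`T7/H787/TorMeas.lean`) and helper233 (`T7/H233/TorMeas.lean`) do not
use the hypotheses `IsCycExt`, `TotCplx`: the same proof. -/
def TorMeasQC298 : Prop :=
  IsImagQuad F →
    ∀ D : CompData ℚ F, IsCompData D → IsCycExt ℚ F D.l → D.l = 2 →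
    ∀ ι : Adl ℚ →+* Adl F, IsAdeleBase305 D.s D.l ι →
    ∀ (δ : GL (Fin 2) F) (γ : GL (Fin 2) ℚ), T6.IsEll γ →
      D.s.normUpTo D.l δ = Matrix.GeneralLinearGroup.map (algebraMap ℚ F) γ →
      ∃ (μT : @Measure (tA305 (T5.AdelicAut.id ℚ) γ) (borel _))
        (μT' : @Measure (tA305 D.s δ) (borel _)),
        @Measure.IsHaarMeasure _ _ _ (borel _) μT ∧ @Measure.IsHaarMeasure _ _ _ (borel _) μT' ∧
          IsTorLinked305 ι D.s δ γ μT μT'

/-- **LEAF Q2.6 = TOR-COMP over `ℚ`** (the volumes).  Mirror of `H305.TorCompC305`: for linked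
measures and fundamental domains `Fγ` (downstairs), `Fδ` (upstairs), `vol(γ) = 2 · vol(δ)` in
`[0, ∞]`.  Proof as in the cubic case (helper119 `T7/H119/TorComp.lean`); the ray generator
downstairs is the positive scalar `t` at the REAL place with `t² = 2`, upstairs `t'` with
`t'⁴ = 2`; `‖det ι(x)‖_F = ‖det x‖_ℚ²`. -/
def TorCompQC298 : Prop :=
  IsImagQuad F →
    ∀ D : CompData ℚ F, IsCompData D → IsCycExt ℚ F D.l → D.l = 2 →
    ∀ ι : Adl ℚ →+* Adl F, IsAdeleBase305 D.s D.l ι →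
    ∀ (δ : GL (Fin 2) F) (γ : GL (Fin 2) ℚ), T6.IsEll γ →
      D.s.normUpTo D.l δ = Matrix.GeneralLinearGroup.map (algebraMap ℚ F) γ →
    ∀ (Fδ : Set (G F)) (Fγ : Set (G ℚ)), T5.IsTwDomain D.s δ Fδ →
      T5.IsTwDomain (T5.AdelicAut.id ℚ) γ Fγ →
    ∀ (μT : @Measure (tA305 (T5.AdelicAut.id ℚ) γ) (borel _))
      (μT' : @Measure (tA305 D.s δ) (borel _)),
      @Measure.IsHaarMeasure _ _ _ (borel _) μT → @Measure.IsHaarMeasure _ _ _ (borel _) μT' →
      IsTorLinked305 ι D.s δ γ μT μT' →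
      torVol305 (T5.AdelicAut.id ℚ) γ μT Fγ = (D.l : ENNReal) * torVol305 D.s δ μT' Fδ

/-! ## 3. Local matching over `ℚ`, the core node, the top node -/

variable {F}

/-- **THE LOCAL HYPOTHESES over `ℚ`** (local matching in the form of T6).  The finite clauses are
those of `H305.LocHyp305` (for `K = ℚ`, `K' = F`; the ramified place is a place with ONE place
over it).  Archimedean clauses: `Φ w` is a bi-`U(2)`-invariant test function on `GL₂(ℂ)`, `F0` a
test function of weight `0` and `F1` a test function of weight `-1` on `GL₂(ℝ)`, and `F0 + F1`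
is matched with `Φ w` for the Haar measures `μr`, `μc` (`T6.IsArchMatch`). -/
structure LocHypQ298 (D : CompData ℚ F) (μr : @Measure (GL (Fin 2) ℝ) (borel _))
    (μc : @Measure (GL (Fin 2) ℂ) (borel _))
    (T : Finset (HeightOneSpectrum (𝓞 ℚ)))
    (n : HeightOneSpectrum (𝓞 F) → ℕ) (m : HeightOneSpectrum (𝓞 ℚ) → ℕ)
    (φ₀ : ∀ w : HeightOneSpectrum (𝓞 F), GL (Fin 2) (w.adicCompletion F) → ℂ)
    (Φ : InfinitePlace F → GL (Fin 2) ℂ → ℂ)
    (f₀ : ∀ v : HeightOneSpectrum (𝓞 ℚ), GL (Fin 2) (v.adicCompletion ℚ) → ℂ)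
    (F0 F1 : GL (Fin 2) ℝ → ℂ) : Prop where
  inv_up : ∀ v ∈ T, ∀ w : HeightOneSpectrum (𝓞 F), PlaceOver ℚ F v w →
    T6.IsBiInv (T6.InU (n w)) (φ₀ w) ∧ T6.HasFinSupp (T6.InU (n w)) (φ₀ w)
  inv_down : ∀ v ∈ T, T6.IsBiInv (T6.InU (m v)) (f₀ v) ∧ T6.HasFinSupp (T6.InU (m v)) (f₀ v)
  arch_up : ∀ w : InfinitePlace F, T6.IsArchTestC (Φ w)
  arch_down0 : T6.IsArchTestR 0 F0
  arch_down1 : T6.IsArchTestR (-1) F1
  inert : ∀ v ∈ T, ∀ w : HeightOneSpectrum (𝓞 F), PlaceOver ℚ F v w →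
    (∀ w' : HeightOneSpectrum (𝓞 F), PlaceOver ℚ F v w' → w' = w) →
    ∀ (e : ℕ) (i : v.adicCompletion ℚ →+* w.adicCompletion F)
      (sw : w.adicCompletion F ≃+* w.adicCompletion F),
      (∀ x : ℚ, i (algebraMap ℚ (v.adicCompletion ℚ) x)
        = algebraMap F (w.adicCompletion F) (algebraMap ℚ F x)) →
      (∀ y : F, sw (algebraMap F (w.adicCompletion F) y)
        = algebraMap F (w.adicCompletion F) (D.s.σ y)) →
      T6.IsLocalExt (v.adicCompletion ℚ) (w.adicCompletion F) D.l e i sw →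
      (∀ (δ : GL (Fin 2) (w.adicCompletion F)) (γ : GL (Fin 2) (v.adicCompletion ℚ))
          (c c' : ℂ), T6.IsReg γ →
          IsConj (T6.twNorm sw D.l δ) (Matrix.GeneralLinearGroup.map i γ) →
          T6.IsTwOrbSum sw (n w) (φ₀ w) δ c → T6.IsOrbSum (m v) (f₀ v) γ c' → c = c') ∧
        ∀ (γ : GL (Fin 2) (v.adicCompletion ℚ)) (c' : ℂ), T6.IsReg γ →
          ¬ T6.IsNormFrom D.l i sw γ → T6.IsOrbSum (m v) (f₀ v) γ c' → c' = 0
  split : ∀ v ∈ T, ∀ (w : ℕ → HeightOneSpectrum (𝓞 F))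
      (i : ∀ j : ℕ, v.adicCompletion ℚ ≃+* (w j).adicCompletion F),
      (∀ j : ℕ, PlaceOver ℚ F v (w j)) → (∀ j : ℕ, T5.PlaceRel D.s (w (j + 1)) (w j)) →
      (∀ j : ℕ, 0 < j → j < D.l → w j ≠ w 0) →
      (∀ (j : ℕ) (x : ℚ), i j (algebraMap ℚ (v.adicCompletion ℚ) x)
        = algebraMap F ((w j).adicCompletion F) (algebraMap ℚ F x)) →
      (∀ (j : ℕ) (x : v.adicCompletion ℚ), Valued.v (i j x) = Valued.v x) →
      (∀ j : ℕ, n (w j) = m v) ∧
        T6.IsConvProd (T6.InU (m v)) D.l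
          (fun j g => φ₀ (w j)
            (Matrix.GeneralLinearGroup.map ((i j : v.adicCompletion ℚ ≃+* _) :
              v.adicCompletion ℚ →+* (w j).adicCompletion F) g))
          (f₀ v)
  arch : ∀ w : InfinitePlace F, T6.IsArchMatch μr μc (Φ w) (fun g => F0 g + F1 g)

variable (F)

/-- **NODE Q2.7 = CUT-INT over `ℚ` (the core).**  Mirror of `H305.CutIntC305`: for locally
matched pure tensors and linked torus measures there are cut-off functions upstairs and
downstairs for which the cut-off integrals agree up to the constant `κ`; downstairs the cut-off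
integral vanishes (for a suitable cut-off) if `γ` is not a norm.  The member downstairs is the
pure tensor with archimedean component `F0 + F1`. -/
def CutIntQC298 : Prop :=
  IsImagQuad F →
    ∀ D : CompData ℚ F, IsCompData D → IsCycExt ℚ F D.l → D.l = 2 →
    ∀ ι : Adl ℚ →+* Adl F, IsAdeleBase305 D.s D.l ι →
    ∀ μr : @Measure (GL (Fin 2) ℝ) (borel _), @Measure.IsHaarMeasure _ _ _ (borel _) μr →
    ∀ μc : @Measure (GL (Fin 2) ℂ) (borel _), @Measure.IsHaarMeasure _ _ _ (borel _) μc →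
    ∀ (T₀ : Finset (HeightOneSpectrum (𝓞 ℚ))), UnramOut305 (K' := F) T₀ →
    ∀ (n : HeightOneSpectrum (𝓞 F) → ℕ) (m : HeightOneSpectrum (𝓞 ℚ) → ℕ),
      IsLevelAt305 T₀ n m →
    ∃ κ : ℂ, κ ≠ 0 ∧
      ∀ (T : Finset (HeightOneSpectrum (𝓞 ℚ))) (T' : Finset (HeightOneSpectrum (𝓞 F))),
        T₀ ⊆ T → IsOver305 T T' →
      ∀ (φ₀ : ∀ w : HeightOneSpectrum (𝓞 F), GL (Fin 2) (w.adicCompletion F) → ℂ)
        (Φ : InfinitePlace F → GL (Fin 2) ℂ → ℂ)
        (f₀ : ∀ v : HeightOneSpectrum (𝓞 ℚ), GL (Fin 2) (v.adicCompletion ℚ) → ℂ)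
        (F0 F1 : GL (Fin 2) ℝ → ℂ),
        LocHypQ298 D μr μc T n m φ₀ Φ f₀ F0 F1 →
        (∀ (δ : GL (Fin 2) F) (γ : GL (Fin 2) ℚ), T6.IsEll γ →
          D.s.normUpTo D.l δ = Matrix.GeneralLinearGroup.map (algebraMap ℚ F) γ →
          ∀ (μT : @Measure (tA305 (T5.AdelicAut.id ℚ) γ) (borel _))
            (μT' : @Measure (tA305 D.s δ) (borel _)),
            @Measure.IsHaarMeasure _ _ _ (borel _) μT →
            @Measure.IsHaarMeasure _ _ _ (borel _) μT' →
            IsTorLinked305 ι D.s δ γ μT μT' →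
            ∃ β' : G F → ℝ, ∃ β : G ℚ → ℝ,
              IsCutOn305 D.s δ μT' β'
                {x | T5.twTerm D.R'.r D.s (pure305 T' φ₀ Φ) δ x ≠ 0} ∧
              IsCutOn305 (T5.AdelicAut.id ℚ) γ μT β
                {x | T5.twTerm D.R.r (T5.AdelicAut.id ℚ)
                  (pureQ298 T f₀ (fun g => F0 g + F1 g)) γ x ≠ 0} ∧
              cutInt305 D.R'.r D.s (pure305 T' φ₀ Φ) δ D.R'.μ β'
                = κ * cutInt305 D.R.r (T5.AdelicAut.id ℚ)
                    (pureQ298 T f₀ (fun g => F0 g + F1 g)) γ D.R.μ β) ∧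
        ∀ γ : GL (Fin 2) ℚ, T6.IsEll γ → (¬ ∃ δ : GL (Fin 2) F, IsNormOf D δ γ) →
          ∀ μT : @Measure (tA305 (T5.AdelicAut.id ℚ) γ) (borel _),
            @Measure.IsHaarMeasure _ _ _ (borel _) μT →
            ∃ β : G ℚ → ℝ,
              IsCutOn305 (T5.AdelicAut.id ℚ) γ μT β
                {x | T5.twTerm D.R.r (T5.AdelicAut.id ℚ)
                  (pureQ298 T f₀ (fun g => F0 g + F1 g)) γ x ≠ 0} ∧
              cutInt305 D.R.r (T5.AdelicAut.id ℚ)
                (pureQ298 T f₀ (fun g => F0 g + F1 g)) γ D.R.μ β = 0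

/-- **`κ` IS A MATCHING CONSTANT** for the data `(D, μr, μc, T₀, n, m)`: for all `T ⊇ T₀` and all
locally matched components, the pure tensor upstairs is matched (`T7.IsGlobMatch D`) with the SUM
of `κ` times the two pure tensors downstairs (weights `0` and `-1`), as soon as the three
functions are continuous with compact support. -/
def IsMatchConstQ298 (D : CompData ℚ F) (μr : @Measure (GL (Fin 2) ℝ) (borel _))
    (μc : @Measure (GL (Fin 2) ℂ) (borel _)) (T₀ : Finset (HeightOneSpectrum (𝓞 ℚ)))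
    (n : HeightOneSpectrum (𝓞 F) → ℕ) (m : HeightOneSpectrum (𝓞 ℚ) → ℕ) (κ : ℂ) : Prop :=
  ∀ (T : Finset (HeightOneSpectrum (𝓞 ℚ))) (T' : Finset (HeightOneSpectrum (𝓞 F))),
    T₀ ⊆ T → IsOver305 T T' →
  ∀ (φ₀ : ∀ w : HeightOneSpectrum (𝓞 F), GL (Fin 2) (w.adicCompletion F) → ℂ)
    (Φ : InfinitePlace F → GL (Fin 2) ℂ → ℂ)
    (f₀ : ∀ v : HeightOneSpectrum (𝓞 ℚ), GL (Fin 2) (v.adicCompletion ℚ) → ℂ)
    (F0 F1 : GL (Fin 2) ℝ → ℂ),
    LocHypQ298 D μr μc T n m φ₀ Φ f₀ F0 F1 →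
    ∀ (φ' : G F → ℂ) (f0 f1 : G ℚ → ℂ),
      (∀ h : G F, φ' h = pure305 T' φ₀ Φ h) →
      (∀ h : G ℚ, f0 h = κ * pureQ298 T f₀ F0 h) →
      (∀ h : G ℚ, f1 h = κ * pureQ298 T f₀ F1 h) →
      T5.IsTestFn D.𝔑 T5.trivType φ' →
      Continuous f0 → HasCompactSupport f0 → Continuous f1 → HasCompactSupport f1 →
      IsGlobMatch D φ' (fun x => f0 x + f1 x)

/-- **THE NODE Q2 = GLOBAL MATCHING FROM LOCAL MATCHING over `ℚ`.**  For the data of the
comparison `F/ℚ`, Haar measures `μr` of `GL₂(ℝ)` and `μc` of `GL₂(ℂ)`, a base set `T₀` outside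
which `F/ℚ` is unramified and the levels are `0`: there is a matching constant `κ ≠ 0`. -/
def GlobMatchQC298 : Prop :=
  IsImagQuad F →
    ∀ D : CompData ℚ F, IsCompData D → IsCycExt ℚ F D.l → D.l = 2 →
    ∀ μr : @Measure (GL (Fin 2) ℝ) (borel _), @Measure.IsHaarMeasure _ _ _ (borel _) μr →
    ∀ μc : @Measure (GL (Fin 2) ℂ) (borel _), @Measure.IsHaarMeasure _ _ _ (borel _) μc →
    ∀ (T₀ : Finset (HeightOneSpectrum (𝓞 ℚ))), UnramOut305 (K' := F) T₀ →
    ∀ (n : HeightOneSpectrum (𝓞 F) → ℕ) (m : HeightOneSpectrum (𝓞 ℚ) → ℕ),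
      IsLevelAt305 T₀ n m →
    ∃ κ : ℂ, κ ≠ 0 ∧ IsMatchConstQ298 F D μr μc T₀ n m κ

end TwoFields

/-! ## Appendix: the equation lemmas of the definitions of this file are realised HERE -/

theorem eqns_realised_matchQSpec298 : True := by
  have _h0 := @reHomQ298.eq_1
  have _h1 := @reGLQ298.eq_1
  have _h2 := @pureQ298.eq_1
  have _h3 := @UnfoldGC298.eq_1
  have _h4 := @IotaQC298.eq_1
  have _h5 := @TorMeasQC298.eq_1
  have _h6 := @TorCompQC298.eq_1
  have _h7 := @CutIntQC298.eq_1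
  have _h8 := @IsMatchConstQ298.eq_1
  have _h9 := @GlobMatchQC298.eq_1
  have _g0 := @reHomQ298.eq_def
  have _g1 := @reGLQ298.eq_def
  have _g2 := @pureQ298.eq_def
  have _g3 := @UnfoldGC298.eq_def
  have _g4 := @IotaQC298.eq_def
  have _g5 := @TorMeasQC298.eq_def
  have _g6 := @TorCompQC298.eq_def
  have _g7 := @CutIntQC298.eq_def
  have _g8 := @IsMatchConstQ298.eq_def
  have _g9 := @GlobMatchQC298.eq_def
  trivial

end Fermat.Agent.LT.T7.MQ298

end

end
-- ===== PACK-END LT/T7/H298/MatchQSpec.lean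

-- ===== PACK-BEGIN LT/T7/H627/Unfold305.lean
section







/-!
# Row LT, tower T7, leaf C2.1 `UnfoldC305` (unfolding with a cut-off; helper627, spare)

OFF-MAIN.  `unfoldC627 K : H305.UnfoldC305 K` VERBATIM against the byte-identical copy of
`LT/T7/H305/MatchSpec.lean` (helper305@61757801e), UNCONDITIONAL.

Proof.  Tonelli on `G(𝔸) × T_𝔸` for the four non-negative parts of `Ψ = twTerm`
(`lintegral_cut627`); `E_y = {t : t⁻¹ y ∈ Fδ}` is a strict fundamental domain of
`Γ = G^σ_δ(K) ⟨r⟩` in `T_𝔸` for EVERY `y` (`existsUnique_latT584` of helper584 and the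
commutativity of `T_𝔸`), so `μT(E_y) = μT(E_1)` (`measure_eq_of_strict627`); the complex
integrals are recovered from the four lower integrals (`integral_eq_of_parts627`), which also
covers the cases of an infinite volume and of a non-integrable integrand.
Inputs: `locCompC_h11` (helper11), `adNormC309` (helper309), `T5/H277/Ray` (helper277),
`T7/H584/UnfoldT5` (helper584), byte-identical copies.
-/

set_option autoImplicit false
set_option linter.unusedSectionVars false
set_option linter.style.haveILetI false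

open AutomorphicForm IsDedekindDomain NumberField MeasureTheory Set
open scoped ComplexConjugate ENNReal

noncomputable section

namespace Fermat.Agent.LT.T7.H627

open Fermat.Agent.LT.H556 Fermat.Agent.LT.H556.A0 Fermat.Agent.LT.T7
open Fermat.Agent.LT.T7.H305 Fermat.Agent.LT.T7.H584

attribute [local instance] Fermat.Agent.LT.T5.instMeasurableSpaceG

variable {K : Type} [Field K] [NumberField K]

theorem tA305_eq627 (s : T5.AdelicAut K) (δ : GL (Fin 2) K) :
    tA305 s δ = twCentA584 s δ := rfl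

/-- The summand of the twisted kernel is measurable. -/
theorem measurable_twTerm627 (r : G K) (s : T5.AdelicAut K) (hs : Continuous s.onG)
    {φ : G K → ℂ} (hφ : Continuous φ) (δ : GL (Fin 2) K) :
    Measurable (T5.twTerm r s φ δ) := by
  haveI : BorelSpace (G K) := ⟨rfl⟩
  have hterm : ∀ m : ℤ, Measurable (fun x : G K => φ (x⁻¹ * T5.ratG δ * s.onG x * r ^ m)) := by
    intro m
    apply Continuous.measurable
    exact hφ.comp (((continuous_inv.mul continuous_const).mul hs).mul continuous_const)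
  have h : T5.twTerm r s φ δ = fun x => ∑' m : ℤ, φ (x⁻¹ * T5.ratG δ * s.onG x * r ^ m) := rfl
  rw [h]
  exact Measurable.tsum hterm

/-- The adelic twisted centraliser is closed. -/
theorem isClosed_tA627 [T2Space (G K)] (s : T5.AdelicAut K) (hs : Continuous s.onG)
    (δ : GL (Fin 2) K) : IsClosed ((tA305 s δ : Subgroup (G K)) : Set (G K)) := by
  have h : ((tA305 s δ : Subgroup (G K)) : Set (G K))
      = {x : G K | x⁻¹ * T5.ratG δ * s.onG x = T5.ratG δ} := rfl
  rw [h]
  exact isClosed_eq ((continuous_inv.mul continuous_const).mul hs) continuous_const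

/-- `E_y = {t : t⁻¹ y ∈ Fδ}` is a strict fundamental domain of `Γ` in `T_𝔸`. -/
theorem existsUnique_Ey627 (hN : T1.AdNormC K) (s : T5.AdelicAut K) (𝔫 : Ideal (𝓞 K))
    (μ : Measure (G K)) (r : G K) (hr : T5.IsRayGen r) (hP : T5.AutPreserves s 𝔫 μ r)
    (hrc : ∀ g : G K, r * g = g * r)
    (δ : GL (Fin 2) K) (Fδ : Set (G K)) (hFδ : T5.IsTwDomain s δ Fδ)
    (hcomm : ∀ x ∈ tA305 s δ, ∀ y ∈ tA305 s δ, x * y = y * x) (y : G K)
    (t : twCentA584 s δ) :
    ∃! γ : latT584 s δ r hrc,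
      ((γ : twCentA584 s δ) * t) ∈ {t : twCentA584 s δ | (t : G K)⁻¹ * y ∈ Fδ} := by
  obtain ⟨γ', hγ', huniq⟩ := existsUnique_latT584 s δ r hrc hP.ray hP.rat
    (fun g => existsUnique_zpow_slab584 hN hr g)
    (fun γ g hg => ratG_mul_mem_slab584 hN γ g hg) Fδ hFδ ((t : G K)⁻¹ * y)
  have key : ∀ γ : latT584 s δ r hrc,
      ((((γ : twCentA584 s δ) * t : twCentA584 s δ) : G K))⁻¹ * y
        = (((γ⁻¹ : latT584 s δ r hrc) : twCentA584 s δ) : G K) * ((t : G K)⁻¹ * y) := by
    intro γ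
    have h1 : (((γ : twCentA584 s δ) : G K))⁻¹ ∈ tA305 s δ :=
      (twCentA584 s δ).inv_mem (γ : twCentA584 s δ).2
    have h2 : ((t : G K))⁻¹ ∈ tA305 s δ := (twCentA584 s δ).inv_mem t.2
    have hc := hcomm _ h2 _ h1
    simp only [Subgroup.coe_mul, Subgroup.coe_inv, mul_inv_rev]
    rw [hc, mul_assoc]
  refine ⟨γ'⁻¹, ?_, ?_⟩
  · show ((((γ'⁻¹ : latT584 s δ r hrc) : twCentA584 s δ) * t : twCentA584 s δ) : G K)⁻¹ * y ∈ Fδ
    rw [key, inv_inv]
    exact hγ'
  · intro γ hγ
    have hγ2 : ((((γ : twCentA584 s δ) * t : twCentA584 s δ) : G K))⁻¹ * y ∈ Fδ := hγ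
    rw [key] at hγ2
    have := huniq γ⁻¹ hγ2
    rw [← this, inv_inv]

/-- The lattice `Γ = G^σ_δ(K) ⟨r⟩` in `T_𝔸 = tA305 s δ`. -/
def lat627 (s : T5.AdelicAut K) (δ : GL (Fin 2) K) (r : G K) (hrc : ∀ g : G K, r * g = g * r) :
    Subgroup (tA305 s δ) :=
  latT584 s δ r hrc

theorem countable_lat627 (s : T5.AdelicAut K) (δ : GL (Fin 2) K) (r : G K)
    (hrc : ∀ g : G K, r * g = g * r) : Countable (lat627 s δ r hrc) :=
  countable_latT584 s δ r hrc

theorem existsUnique_Ey627' (hN : T1.AdNormC K) (s : T5.AdelicAut K) (𝔫 : Ideal (𝓞 K))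
    (μ : Measure (G K)) (r : G K) (hr : T5.IsRayGen r) (hP : T5.AutPreserves s 𝔫 μ r)
    (hrc : ∀ g : G K, r * g = g * r)
    (δ : GL (Fin 2) K) (Fδ : Set (G K)) (hFδ : T5.IsTwDomain s δ Fδ)
    (hcomm : ∀ x ∈ tA305 s δ, ∀ y ∈ tA305 s δ, x * y = y * x) (y : G K)
    (t : tA305 s δ) :
    ∃! γ : lat627 s δ r hrc,
      ((γ : tA305 s δ) * t) ∈ {t : tA305 s δ | (t : G K)⁻¹ * y ∈ Fδ} :=
  existsUnique_Ey627 hN s 𝔫 μ r hr hP hrc δ Fδ hFδ hcomm y t

theorem twTerm_tA_mul627 (r : G K) (s : T5.AdelicAut K) (φ : G K → ℂ) (δ : GL (Fin 2) K)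
    (t : tA305 s δ) (x : G K) :
    T5.twTerm r s φ δ ((t : G K) * x) = T5.twTerm r s φ δ x :=
  twTerm_twCentA_mul584 r s φ δ t x

/-- **LEAF C2.1 = UNFOLD**, VERBATIM. -/
theorem unfoldC627 (K : Type) [Field K] [NumberField K] : UnfoldC305 K := by
  intro R hR s l k 𝔫 hcyc hP δ hδ φ hφ Fδ hFδ hcomm μT hμT β hβ
  have hLC := Fermat.Agent.LT.T1.H11.locCompC_h11 K
  have hN := Fermat.Agent.LT.T1.H309.adNormC309 K
  haveI : LocallyCompactSpace (G K) := hLC.2.1
  haveI : T2Space (G K) := hLC.2.2.1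
  haveI : SecondCountableTopology (G K) := hLC.2.2.2
  haveI : BorelSpace (G K) := ⟨rfl⟩
  haveI : R.μ.IsHaarMeasure := hR.frame.haar
  letI mT : MeasurableSpace (tA305 s δ) := borel _
  haveI : BorelSpace (tA305 s δ) := ⟨rfl⟩
  haveI hHaarT : μT.IsHaarMeasure := hμT
  have hclosed := isClosed_tA627 s hP.cont δ
  haveI : SigmaCompactSpace (tA305 s δ) :=
    hclosed.isClosedEmbedding_subtypeVal.sigmaCompactSpace
  have hr := hR.ray
  have hrc := T5.H277.ray_comm277 hr
  haveI : Countable (lat627 s δ R.r hrc) := countable_lat627 s δ R.r hrc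
  -- the integrand
  have hΨm : Measurable (T5.twTerm R.r s φ δ) := measurable_twTerm627 R.r s hP.cont hφ.cont δ
  have hj : Measurable (fun t : tA305 s δ => (t : G K)) := continuous_subtype_val.measurable
  obtain ⟨hβm, hβ0, hβ1⟩ := hβ
  have hβ'm : Measurable fun y : G K => ENNReal.ofReal (β y) :=
    ENNReal.measurable_ofReal.comp hβm
  -- the cut-off in the form of a lower integral
  have hcut : ∀ x, T5.twTerm R.r s φ δ x ≠ 0 →
      ∫⁻ t : tA305 s δ, ENNReal.ofReal (β ((t : G K) * x)) ∂μT = 1 := by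
    intro x hx
    have h1 := hβ1 x hx
    have hint : Integrable (fun t : tA305 s δ => β ((t : G K) * x)) μT := by
      by_contra hni
      rw [integral_undef hni] at h1
      exact zero_ne_one h1
    rw [← ofReal_integral_eq_lintegral_ofReal hint (ae_of_all _ fun t => hβ0 _), h1,
      ENNReal.ofReal_one]
  -- the volume
  have hEy : ∀ y : G K, MeasurableSet {t : tA305 s δ | (t : G K)⁻¹ * y ∈ Fδ} := fun y =>
    (hj.inv.mul measurable_const) hFδ.meas
  have hV : ∀ y : G K, μT {t : tA305 s δ | (t : G K)⁻¹ * y ∈ Fδ} = torVol305 s δ μT Fδ := by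
    intro y
    have h := measure_eq_of_strict627 μT (lat627 s δ R.r hrc) (hEy y) (hEy 1)
      (existsUnique_Ey627' hN s 𝔫 R.μ R.r hr hP hrc δ Fδ hFδ hcomm y)
      (existsUnique_Ey627' hN s 𝔫 R.μ R.r hr hP hrc δ Fδ hFδ hcomm 1)
    rw [h]
    unfold torVol305
    simp only [mul_one]
  -- the identity for the four parts
  have hpart : ∀ P : ℂ → ℝ, Measurable P → P 0 = 0 →
      (∀ (z : ℂ) (b : ℝ), P (z * (b : ℂ)) = P z * b) →
      ∫⁻ x, ENNReal.ofReal (P (T5.twTerm R.r s φ δ x)) ∂(R.μ.restrict Fδ)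
        = torVol305 s δ μT Fδ *
          ∫⁻ y, ENNReal.ofReal (P (T5.twTerm R.r s φ δ y * ((β y : ℝ) : ℂ))) ∂(R.μ) := by
    intro P hPm hP0 hPmul
    have hgm : Measurable fun x => ENNReal.ofReal (P (T5.twTerm R.r s φ δ x)) :=
      ENNReal.measurable_ofReal.comp (hPm.comp hΨm)
    have hginv : ∀ (t : tA305 s δ) (x : G K),
        ENNReal.ofReal (P (T5.twTerm R.r s φ δ ((t : G K) * x)))
          = ENNReal.ofReal (P (T5.twTerm R.r s φ δ x)) := fun t x => by
      rw [twTerm_tA_mul627]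
    have h := lintegral_cut627 R.μ μT (fun t : tA305 s δ => (t : G K)) hj hFδ.meas hgm hβ'm
      hginv
    have hL : ∫⁻ x in Fδ, ENNReal.ofReal (P (T5.twTerm R.r s φ δ x)) *
          (∫⁻ t : tA305 s δ, ENNReal.ofReal (β ((t : G K) * x)) ∂μT) ∂(R.μ)
        = ∫⁻ x in Fδ, ENNReal.ofReal (P (T5.twTerm R.r s φ δ x)) ∂(R.μ) := by
      refine lintegral_congr fun x => ?_
      by_cases hx : T5.twTerm R.r s φ δ x = 0
      · rw [hx, hP0]; simp
      · rw [hcut x hx, mul_one]
    rw [hL] at h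
    rw [h]
    simp_rw [hV]
    have hgβ : Measurable fun y : G K =>
        ENNReal.ofReal (P (T5.twTerm R.r s φ δ y)) * ENNReal.ofReal (β y) := hgm.mul hβ'm
    rw [lintegral_mul_const _ hgβ, mul_comm]
    congr 1
    refine lintegral_congr fun y => ?_
    rw [hPmul, ENNReal.ofReal_mul' (hβ0 y)]
  have hm2 : Measurable fun y => T5.twTerm R.r s φ δ y * ((β y : ℝ) : ℂ) :=
    hΨm.mul (Complex.measurable_ofReal.comp hβm)
  exact integral_eq_of_parts627 (R.μ.restrict Fδ) R.μ (torVol305 s δ μT Fδ) hΨm hm2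
    (hpart (fun z => z.re) Complex.measurable_re (by simp) (fun z b => by simp))
    (hpart (fun z => -z.re) Complex.measurable_re.neg (by simp) (fun z b => by simp))
    (hpart (fun z => z.im) Complex.measurable_im (by simp) (fun z b => by simp))
    (hpart (fun z => -z.im) Complex.measurable_im.neg (by simp) (fun z b => by simp))

end Fermat.Agent.LT.T7.H627

end

end
-- ===== PACK-END LT/T7/H627/Unfold305.lean

-- ===== PACK-BEGIN LT/T7/H600/IotaFin.lean
section



/-!
# Row LT, tower T7, leaf T7.L2.1.C2.4 `H305.IotaC305` (spare, helper600): the finite part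

OFF-MAIN.  The base change of the finite adeles `𝔸_{K,f} → 𝔸_{K',f}`:
`RestrictedProduct.mapAlongRingHom` along `w ↦ w ∩ 𝓞_K` with the inclusions of the completions
`T6.H267.locIncl` (helper267).
-/

set_option autoImplicit false
set_option linter.unusedSectionVars false

open IsDedekindDomain NumberField

noncomputable section

namespace Fermat.Agent.LT.T7.H600

open Fermat.Agent.LT.H556 Fermat.Agent.LT.H556.A0 Fermat.Agent.LT.T7 Fermat.Agent.LT.T6.H267

variable (K K' : Type) [Field K] [NumberField K] [Field K'] [NumberField K'] [Algebra K K']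

/-- The place of `K` below the place `w` of `K'`. -/
def below600 (w : HeightOneSpectrum (𝓞 K')) : HeightOneSpectrum (𝓞 K) where
  asIdeal := Ideal.under (𝓞 K) w.asIdeal
  isPrime := Ideal.IsPrime.under (𝓞 K) w.asIdeal
  ne_bot := Ideal.under_ne_bot (𝓞 K) w.ne_bot

instance liesOver_below600 (w : HeightOneSpectrum (𝓞 K')) :
    w.asIdeal.LiesOver (below600 K K' w).asIdeal :=
  ⟨rfl⟩

variable {K K'}

theorem mem_below600 (w : HeightOneSpectrum (𝓞 K')) (x : 𝓞 K) :
    x ∈ (below600 K K' w).asIdeal ↔ algebraMap (𝓞 K) (𝓞 K') x ∈ w.asIdeal :=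
  Iff.rfl

/-- `PlaceOver v w` means `v = below w`. -/
theorem placeOver_iff600 (v : HeightOneSpectrum (𝓞 K)) (w : HeightOneSpectrum (𝓞 K')) :
    PlaceOver K K' v w ↔ v = below600 K K' w := by
  constructor
  · intro h
    ext x
    rw [mem_below600]
    exact h x (algebraMap (𝓞 K) (𝓞 K') x) rfl
  · rintro rfl x y hxy
    rw [mem_below600]
    have : algebraMap (𝓞 K) (𝓞 K') x = y :=
      RingOfIntegers.ext (by rw [hxy]; rfl)
    rw [this]

variable (K K')

/-- The fibres of `w ↦ w ∩ 𝓞_K` are finite. -/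
theorem finite_fibre_below600 (v : HeightOneSpectrum (𝓞 K)) :
    (below600 K K' ⁻¹' {v}).Finite := by
  have hfin : (v.asIdeal.primesOver (𝓞 K')).Finite :=
    IsDedekindDomain.primesOver_finite v.asIdeal (𝓞 K')
  refine Set.Finite.of_finite_image (f := HeightOneSpectrum.asIdeal) (hfin.subset ?_) ?_
  · rintro _ ⟨w, hw, rfl⟩
    have hw' : below600 K K' w = v := hw
    refine ⟨w.isPrime, ⟨?_⟩⟩
    rw [← hw']
    rfl
  · intro w _ w' _ h
    exact HeightOneSpectrum.ext h

theorem tendsto_below600 :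
    Filter.Tendsto (below600 K K') Filter.cofinite Filter.cofinite :=
  Filter.Tendsto.cofinite_of_finite_preimage_singleton (finite_fibre_below600 K K')

/-- The local inclusion at `w` (over the place below). -/
def locB600 (w : HeightOneSpectrum (𝓞 K')) :
    (below600 K K' w).adicCompletion K →+* w.adicCompletion K' :=
  locIncl (below600 K K' w) w

variable {K K'}

theorem locB600_algebraMap (w : HeightOneSpectrum (𝓞 K')) (x : K) :
    locB600 K K' w (algebraMap K ((below600 K K' w).adicCompletion K) x)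
      = algebraMap K' (w.adicCompletion K') (algebraMap K K' x) :=
  locIncl_algebraMap _ _ x

theorem valued_locB600 (w : HeightOneSpectrum (𝓞 K'))
    (x : (below600 K K' w).adicCompletion K) :
    Valued.v (locB600 K K' w x) = Valued.v x ^ ramIdx (below600 K K' w) w :=
  valued_locIncl _ _ x

theorem continuous_locB600 (w : HeightOneSpectrum (𝓞 K')) : Continuous (locB600 K K' w) :=
  continuous_locIncl _ _

/-- `locB600` maps integers to integers, and only integers. -/
theorem locB600_mem_integers_iff (w : HeightOneSpectrum (𝓞 K'))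
    (x : (below600 K K' w).adicCompletion K) :
    locB600 K K' w x ∈ w.adicCompletionIntegers K'
      ↔ x ∈ (below600 K K' w).adicCompletionIntegers K := by
  rw [HeightOneSpectrum.mem_adicCompletionIntegers, HeightOneSpectrum.mem_adicCompletionIntegers,
    valued_locB600]
  exact pow_le_one_iff (ramIdx_ne_zero _ _)

variable (K K')

theorem eventually_mapsTo_locB600 :
    ∀ᶠ w : HeightOneSpectrum (𝓞 K') in Filter.cofinite,
      Set.MapsTo (locB600 K K' w)
        ((below600 K K' w).adicCompletionIntegers K : Set ((below600 K K' w).adicCompletion K))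
        (w.adicCompletionIntegers K' : Set (w.adicCompletion K')) :=
  Filter.Eventually.of_forall fun w x hx => (locB600_mem_integers_iff w x).mpr hx

/-- **The base change of the finite adeles.** -/
def iotaFin600 : FiniteAdeleRing (𝓞 K) K →+* FiniteAdeleRing (𝓞 K') K' :=
  RestrictedProduct.mapAlongRingHom
    (fun v : HeightOneSpectrum (𝓞 K) => v.adicCompletion K)
    (fun w : HeightOneSpectrum (𝓞 K') => w.adicCompletion K')
    (below600 K K') (tendsto_below600 K K')
    (fun w => locB600 K K' w) (eventually_mapsTo_locB600 K K')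

variable {K K'}

theorem iotaFin600_apply (x : FiniteAdeleRing (𝓞 K) K) (w : HeightOneSpectrum (𝓞 K')) :
    iotaFin600 K K' x w = locB600 K K' w (x (below600 K K' w)) :=
  rfl

theorem continuous_iotaFin600 : Continuous (iotaFin600 K K') :=
  RestrictedProduct.mapAlong_continuous
    (fun v : HeightOneSpectrum (𝓞 K) => v.adicCompletion K)
    (fun w : HeightOneSpectrum (𝓞 K') => w.adicCompletion K')
    (below600 K K') (tendsto_below600 K K')
    (fun w => locB600 K K' w) (eventually_mapsTo_locB600 K K')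
    (fun w => continuous_locB600 w)

/-! ## Appendix: the equation lemmas of the definitions are realised HERE -/

theorem eqns_realised_iotaFin600 : True := by
  have _a1 := @below600.eq_1
  have _a2 := @below600.eq_def
  have _a3 := @below600.eq_unfold
  have _a4 := @locB600.eq_1
  have _a5 := @locB600.eq_def
  have _a6 := @locB600.eq_unfold
  have _a7 := @iotaFin600.eq_1
  have _a8 := @iotaFin600.eq_def
  have _a9 := @iotaFin600.eq_unfold
  trivial

end Fermat.Agent.LT.T7.H600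

end

end
-- ===== PACK-END LT/T7/H600/IotaFin.lean

-- ===== PACK-BEGIN LT/T7/H253/IotaCut.lean
section



/-!
# Row LT, tower T7, leaf T7.L2.1.C2.4 `IotaC305` [XL]: A CUT (helper253, spare), OFF-MAIN

Definitions, frozen Props and the PROVED top.  No hole, nothing assumed.  ADDITIVE (new names
only, suffix `253`).  Vocabulary: `LT/T7/H305/MatchSpec.lean` (helper305@61757801e, sha256
541c6ac7fb6d040e, byte-identical copy) and its imports.

    iotaC_of_leaves253 : SigmaLocC305 K' → IotaLocC253 K K' → IotaNormC253 K K' →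
        IotaFixedC253 K K' → IotaOntoC253 K K' → IotaEmbC253 K K' → IotaClosedC253 K K' →
        IotaC305 K K'

## The cut

`IsIotaLoc253 ι` = the four fields `cont`, `rat`, `fin`, `inf` of `IsAdeleBase305` (they do not
mention `σ`): `ι` is continuous, compatible with `K → K'`, and LOCAL: at a finite place `w ∣ v`
it is a ring homomorphism `i : K_v → K'_w` over `K → K'` with `|i x|_w = |x|_v ^ e`, `e > 0`; at
an infinite place `w'` it is the identity or the conjugation of `ℂ` in the coordinates of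
`T5.infHom`.

* **`IotaLocC253`** (the CONSTRUCTION): such a `ι` exists.  `RestrictedProduct.mapAlongRingHom`
  along `w ↦ w ∩ 𝓞_K` with `T6.H267.locIncl` (closed, `LT/T6/H267/InstExt.lean`:
  `locIncl_algebraMap`, `valued_locIncl`, `continuous_locIncl`), `mapAlong_continuous`; at
  infinity Mathlib's `InfinitePlace.Completion` maps (`LiesOverInstances.lean`).
* ALL THE OTHER LEAVES ARE STATEMENTS ABOUT AN ARBITRARY LOCAL `ι` (independent of the
  construction, they can be proved in parallel):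
* **`IotaNormC253`** : `‖ι x‖ = ‖x‖ ^ l` on the ideles.  `e` is the ramification index
  (`i` is the identity on `K`: apply `val_i` to a uniformiser of `v` in `K` and
  `HeightOneSpectrum.valuation_liesOver`), `N w = (N v) ^ f`, `∑_{w ∣ v} e f = l`
  (`Ideal.sum_ramification_inertia`); every infinite place of `K` is complex and has `l` places
  over it (`InfinitePlace` ramification, Mathlib `Completion/Ramification.lean`).
* **`IotaFixedC253`** : `σ_𝔸 (ι x) = ι x`, from `SigmaLocC305 K'`.  Finite places: `s_w ∘ i_w` and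
  `i_{σ w}` are continuous ring homomorphisms `K_v → K'_{σ w}` which agree on the dense subfield
  `K`.  Infinite places: `a ↦ infHom w' (σ_𝔸 (ι a))` and `a ↦ infHom w' (ι a)` are both of the
  form `c ∘ infHom v`, `c ∈ {id, conj}` (uniformly in `a`), and agree on `K`; `v` is COMPLEX, so
  some `x ∈ K` has a non-real image and `c` is determined.
* **`IotaOntoC253`** : a `σ_𝔸`-fixed adele is in the image, from `SigmaLocC305 K'`.  At a place
  `w` with `σ w = w` (then `w` is the only place over `v`): the fixed field of `s_w` is `i (K_v)`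
  (`T6.H267.fixed_mem_range`; `s_w` and `i` are THE continuous extensions).  At a place with
  `σ w ≠ w`: `v` splits completely (`l` prime), `e = f = 1`, `i_w` is bijective
  (`T6.H116.instSplitC_h116`), `y_{σ w} = s_w (y_w)` gives `i_{σ w}⁻¹ y_{σ w} = i_w⁻¹ y_w`, and
  `⟨σ⟩` is transitive on the places over `v`.  Integrality of `x_v` for almost all `v` from
  `val_i`.  Infinite places: all split (complex), as in the split case.
* **`IotaEmbC253`** : a local `ι` is a topological embedding (injective: every place of `K` has a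
  place of `K'` over it and a ring homomorphism of fields is injective; inducing:
  `|x|_v = |i x|_w ^ (1/e)`, neighbourhoods of `0` of the restricted product).
* **`IotaClosedC253`** : the fixed points of `σ_𝔸` are closed (`isClosed_eq`, `𝔸_{K'}` is
  Hausdorff), so the image of `ι` is closed.

FALSITY CHECKS (helper253): every leaf is a true statement for every local `ι`: the exponent `e`
of `fin` is forced (`= e(w ∣ v)`), the homomorphism `i` is forced (continuous, given on the dense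
`K`), the sign at an infinite place is forced by `rat` (all places complex).  `IotaLocC253` keeps
the hypothesis `TotCplx K` (not needed, harmless).
-/

set_option autoImplicit false

open AutomorphicForm IsDedekindDomain NumberField MeasureTheory
open scoped ComplexConjugate

noncomputable section

namespace Fermat.Agent.LT.T7.H253

open Fermat.Agent.LT.H556 Fermat.Agent.LT.H556.A0 Fermat.Agent.LT.T7 Fermat.Agent.LT.T7.H305

variable {K K' : Type} [Field K] [NumberField K] [Field K'] [NumberField K'] [Algebra K K']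

/-- `ι : 𝔸_K → 𝔸_{K'}` is LOCAL: the fields `cont`, `rat`, `fin`, `inf` of `IsAdeleBase305`. -/
structure IsIotaLoc253 (ι : Adl K →+* Adl K') : Prop where
  cont : Continuous ι
  rat : ∀ x : K, ι (algebraMap K (Adl K) x) = algebraMap K' (Adl K') (algebraMap K K' x)
  fin : ∀ (v : HeightOneSpectrum (𝓞 K)) (w : HeightOneSpectrum (𝓞 K')), PlaceOver K K' v w →
    ∃ (e : ℕ) (i : v.adicCompletion K →+* w.adicCompletion K'), 0 < e ∧
      (∀ x : K, i (algebraMap K (v.adicCompletion K) x)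
        = algebraMap K' (w.adicCompletion K') (algebraMap K K' x)) ∧
      (∀ x : v.adicCompletion K, Valued.v (i x) = Valued.v x ^ e) ∧
      ∀ x : Adl K, T5.finHom w (ι x) = i (T5.finHom v x)
  inf : ∀ w' : InfinitePlace K',
    (∀ x : Adl K, T5.infHom w' (ι x) = T5.infHom (w'.comap (algebraMap K K')) x) ∨
      ∀ x : Adl K, T5.infHom w' (ι x) = conj (T5.infHom (w'.comap (algebraMap K K')) x)

variable (K K')

/-- **LEAF I1 = IOTA-LOC (the construction).** -/
def IotaLocC253 : Prop :=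
  TotCplx K → ∃ ι : Adl K →+* Adl K', IsIotaLoc253 ι

/-- **LEAF I2 = IOTA-NORM.** -/
def IotaNormC253 : Prop :=
  ∀ l : ℕ, IsCycExt K K' l → TotCplx K → ∀ ι : Adl K →+* Adl K', IsIotaLoc253 ι →
    ∀ x : (Adl K)ˣ, T5.adNorm (ι (x : Adl K)) = T5.adNorm (x : Adl K) ^ l

/-- **LEAF I3 = IOTA-FIXED.** -/
def IotaFixedC253 : Prop :=
  ∀ D : CompData K K', IsCompData D → IsCycExt K K' D.l → TotCplx K → SigmaLocC305 K' →
    ∀ ι : Adl K →+* Adl K', IsIotaLoc253 ι → ∀ x : Adl K, D.s.σA (ι x) = ι x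

/-- **LEAF I4 = IOTA-ONTO.** -/
def IotaOntoC253 : Prop :=
  ∀ D : CompData K K', IsCompData D → IsCycExt K K' D.l → TotCplx K → SigmaLocC305 K' →
    ∀ ι : Adl K →+* Adl K', IsIotaLoc253 ι →
      ∀ y : Adl K', D.s.σA y = y → ∃ x : Adl K, ι x = y

/-- **LEAF I5 = IOTA-EMB.** -/
def IotaEmbC253 : Prop :=
  TotCplx K → ∀ ι : Adl K →+* Adl K', IsIotaLoc253 ι → Topology.IsEmbedding ι

/-- **LEAF I6 = IOTA-CLOSED.** -/
def IotaClosedC253 : Prop :=
  ∀ s : T5.AdelicAut K', IsClosed {y : Adl K' | s.σA y = y}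

variable {K K'}

/-- **THE TOP: `IotaC305` from the leaves.** -/
theorem iotaC_of_leaves253 (hσ : SigmaLocC305 K') (hloc : IotaLocC253 K K')
    (hnorm : IotaNormC253 K K') (hfix : IotaFixedC253 K K') (honto : IotaOntoC253 K K')
    (hemb : IotaEmbC253 K K') (hcl : IotaClosedC253 K') : IotaC305 K K' := by
  intro D hD hcyc hTC
  obtain ⟨ι, hι⟩ := hloc hTC
  have hfixed : ∀ x : Adl K, D.s.σA (ι x) = ι x := hfix D hD hcyc hTC hσ ι hι
  have hon : ∀ y : Adl K', D.s.σA y = y → ∃ x : Adl K, ι x = y :=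
    honto D hD hcyc hTC hσ ι hι
  have hrange : Set.range ι = {y : Adl K' | D.s.σA y = y} := by
    ext y
    constructor
    · rintro ⟨x, rfl⟩
      exact hfixed x
    · intro hy
      exact hon y hy
  refine ⟨ι, ?_⟩
  exact
    { cont := hι.cont
      closed := ⟨hemb hTC ι hι, by rw [hrange]; exact hcl D.s⟩
      rat := hι.rat
      fixed := hfixed
      onto := hon
      norm := hnorm D.l hcyc hTC ι hι
      fin := hι.fin
      inf := hι.inf }

end Fermat.Agent.LT.T7.H253

end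

end
-- ===== PACK-END LT/T7/H253/IotaCut.lean

-- ===== PACK-BEGIN LT/T7/H40/ProjAdapt.lean
section





/-!
# Row LT, tower T7, node T7.L2.1 `SupplyC`, leaf C3a (row 2110): the adapter

`H893.ProjC K` (the leaf of the cut of helper893, `LT/T7/H893/SupplySpec.lean` c18d8efa) is a
consequence of `H40.ProjC K` (`LT/T7/H40/ProjSpec.lean` ac5b80ed): the frame of `Frame5`, no
use of the divisibility `o j ∣ 𝔫₀`.  OFF-MAIN, additive.
-/

set_option autoImplicit false

open AutomorphicForm IsDedekindDomain NumberField MeasureTheory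

noncomputable section

namespace Fermat.Agent.LT.T7.H40

open Fermat.Agent.LT.H556 Fermat.Agent.LT.H556.A0 Fermat.Agent.LT.T7

/-- **Row 2110 from `H40.ProjC`.** -/
theorem projC893_of40 {K : Type} [Field K] [NumberField K] (h : ProjC K) :
    Fermat.Agent.LT.T7.H893.ProjC K :=
  fun R hR 𝔫₀ 𝔫 h𝔫 hle l o _ ψ hψ => h R.μ R.F R.r hR.frame hR.ray 𝔫 𝔫₀ h𝔫 hle l o ψ hψ

end Fermat.Agent.LT.T7.H40

end

end
-- ===== PACK-END LT/T7/H40/ProjAdapt.lean

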