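import Mathlib
import Fermat.Agent.Pack.LT3.E21L3
import Fermat.Agent.Pack.LT3.E22L2
import Fermat.Agent.Pack.LT3.E22L0
import Fermat.Agent.Pack.LT2.E2L3
import Fermat.Agent.Pack.LT3.E22L1
import Fermat.Agent.Pack.LT3.E22L3
import Fermat.Agent.Pack.LT2.E7L3
import Fermat.Agent.Pack.LT2.E4L2
import Fermat.Agent.Pack.LT3.E13L2
import Fermat.Agent.Pack.LT2.E6L1
import Fermat.Agent.Pack.LT3.E1L3
import Fermat.Agent.Pack.LT2.E16L2
import Fermat.Agent.Pack.LT3.E21L2
import Fermat.Agent.Pack.LT3.E11L3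
import Fermat.Agent.Pack.LT3.E21L1
import Fermat.Agent.Pack.LT3.E13L1
import Fermat.Agent.Pack.LT3.E2L0

set_option linter.all false

-- ===== PACK-BEGIN LT/T6/H865/TwEllNF.lean
section



/-!
# Row LT, tower T6, leaf T6.13.3b.3 (`TwNFC865`) -- assembly (helper865), OFF-MAIN

`twNF_of_leaves865 : NFExistsC865 → LatSumC865 → TwNFC865` (PROVED).

`γ = h₀ y h₀⁻¹`, `y = ϖ^j (a + ϖ^r w)` in normal form, `N δ = G y G⁻¹` in `GL₂(k')`, `j = l j'`,
`z = ϖ^j'`, `δ' = z⁻¹ δ`, `U = N δ' = a + ϖ^r Θ`, `Θ = G w G⁻¹`.  The lattice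
`Λ₁ = ∑_{m<l} h_m 𝒪'²`, `h_m = N_m(δ') s^m(G)`, is stable under `δ' s` (`δ' s(h_m) = h_{m+1}`,
`h_l = h_0 u_y`) and under `Θ` (`Θ h_m = h_m w`); `Λ₁ = x 𝒪'²` (`LatSumC865`), so
`u = x⁻¹ δ' s(x)` and `W = x⁻¹ Θ x` are integral with unit determinant and `N u = a + ϖ^r W`.
-/

set_option autoImplicit false
set_option linter.unusedSectionVars false

open scoped Matrix

noncomputable section

namespace Fermat.Agent.LT.T6.H865

open Fermat.Agent.LT.T6 Fermat.Agent.LT.T6.H60 Fermat.Agent.LT.H338 Fermat.Agent.LT.T6.H340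
  Fermat.Agent.LT.T6.H277 Fermat.Agent.LT.H129

/-! ### Integral matrices -/

section MInt

variable {k' : Type} [Field k'] [Valued k' Γ₀]

/-- A matrix with integral entries. -/
def MInt865 (M : Matrix (Fin 2) (Fin 2) k') : Prop := ∀ a b, Valued.v (M a b) ≤ 1

theorem mint_mul865 {M N : Matrix (Fin 2) (Fin 2) k'} (hM : MInt865 M) (hN : MInt865 N) :
    MInt865 (M * N) := by
  intro a b
  rw [Matrix.mul_apply, Fin.sum_univ_two]
  refine le_trans (Valuation.map_add _ _ _) (max_le ?_ ?_)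
  · rw [map_mul]; exact mul_le_one' (hM a 0) (hN 0 b)
  · rw [map_mul]; exact mul_le_one' (hM a 1) (hN 1 b)

theorem mint_add865 {M N : Matrix (Fin 2) (Fin 2) k'} (hM : MInt865 M) (hN : MInt865 N) :
    MInt865 (M + N) := by
  intro a b
  rw [Matrix.add_apply]
  exact le_trans (Valuation.map_add _ _ _) (max_le (hM a b) (hN a b))

theorem mint_zero865 : MInt865 (0 : Matrix (Fin 2) (Fin 2) k') := by
  intro a b; simp

theorem mint_sum865 {ι : Type} (S : Finset ι) (f : ι → Matrix (Fin 2) (Fin 2) k')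
    (h : ∀ m ∈ S, MInt865 (f m)) : MInt865 (∑ m ∈ S, f m) := by
  classical
  induction S using Finset.induction_on with
  | empty => rw [Finset.sum_empty]; exact mint_zero865
  | insert m S hm ih =>
    rw [Finset.sum_insert hm]
    exact mint_add865 (h m (Finset.mem_insert_self m S))
      (ih (fun m' hm' => h m' (Finset.mem_insert_of_mem hm')))

theorem mint_map865 (s : k' ≃+* k') (hs : ∀ y : k', Valued.v (s y) = Valued.v y)
    {M : Matrix (Fin 2) (Fin 2) k'} (hM : MInt865 M) :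
    MInt865 (M.map s) := by
  intro a b
  rw [Matrix.map_apply, hs]; exact hM a b

theorem mint_of_inU865 {g : GL (Fin 2) k'} (hg : InU 0 g) :
    MInt865 (g : Matrix (Fin 2) (Fin 2) k') := fun a b => inU_int865 hg a b

theorem vdet_of_inU865 {g : GL (Fin 2) k'} (hg : InU 0 g) :
    Valued.v (g : Matrix (Fin 2) (Fin 2) k').det = 1 :=
  valued_det_of_isMaxCpt129 ((inU_zero_iff129 g).1 hg)

theorem coe_glAut_eq_map865 (s : k' ≃+* k') (g : GL (Fin 2) k') :
    ((glAut s g : GL (Fin 2) k') : Matrix (Fin 2) (Fin 2) k')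
      = (g : Matrix (Fin 2) (Fin 2) k').map s := by
  ext a b
  rw [coe_glAut340, Matrix.map_apply]

end MInt

/-! ### Scalars and the twisted norm -/

section Scal

variable {k' : Type} [Field k'] [Valued k' Γ₀]

theorem scal_mul_scal865 {z z' : k'} (hz : z ≠ 0) (hz' : z' ≠ 0) :
    scal340 z hz * scal340 z' hz' = scal340 (z * z') (mul_ne_zero hz hz') := by
  apply ext_mat129
  ext a b
  rw [scal340_mul_apply, coe_scal340, coe_scal340]
  fin_cases a <;> fin_cases b <;> simp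

theorem scal_one865 : scal340 (1 : k') one_ne_zero = 1 := by
  apply ext_mat129
  ext a b
  rw [coe_scal340]
  fin_cases a <;> fin_cases b <;> simp

theorem scal_congr865 {z z' : k'} (hz : z ≠ 0) (hz' : z' ≠ 0) (h : z = z') :
    scal340 z hz = scal340 z' hz' := by
  subst h; rfl

theorem glAut_scal865 (s : k' ≃+* k') {z : k'} (hz : z ≠ 0) (hsz : s z = z) :
    glAut s (scal340 z hz) = scal340 z hz := by
  apply ext_mat129
  ext a b
  rw [coe_glAut340, coe_scal340]
  fin_cases a <;> fin_cases b <;> simp [hsz]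

/-- The twisted norm of a multiple by an `s`-fixed scalar. -/
theorem twNorm_scal865 (s : k' ≃+* k') {z : k'} (hz : z ≠ 0) (hsz : s z = z)
    (d : GL (Fin 2) k') (n : ℕ) :
    twNorm s n (scal340 z hz * d) = scal340 (z ^ n) (pow_ne_zero n hz) * twNorm s n d := by
  induction n with
  | zero =>
    show (1 : GL (Fin 2) k') = scal340 (z ^ 0) _ * 1
    rw [mul_one, scal_congr865 (pow_ne_zero 0 hz) one_ne_zero (pow_zero z), scal_one865]
  | succ n ih =>
    have e1 : twNorm s (n + 1) (scal340 z hz * d)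
        = (scal340 z hz * d) * glAut s (twNorm s n (scal340 z hz * d)) := rfl
    have e2 : twNorm s (n + 1) d = d * glAut s (twNorm s n d) := rfl
    have hsn : s (z ^ n) = z ^ n := by rw [map_pow, hsz]
    rw [e1, e2, ih, map_mul, glAut_scal865 s (pow_ne_zero n hz) hsn]
    have e3 : scal340 (z ^ (n + 1)) (pow_ne_zero (n + 1) hz)
        = scal340 z hz * scal340 (z ^ n) (pow_ne_zero n hz) := by
      rw [scal_mul_scal865]
      exact scal_congr865 _ _ (pow_succ' z n)
    rw [e3]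
    calc scal340 z hz * d * (scal340 (z ^ n) (pow_ne_zero n hz) * glAut s (twNorm s n d))
        = scal340 z hz * (d * scal340 (z ^ n) (pow_ne_zero n hz)) * glAut s (twNorm s n d) := by
          group
      _ = scal340 z hz * (scal340 (z ^ n) (pow_ne_zero n hz) * d) * glAut s (twNorm s n d) := by
          rw [← scal340_comm (z ^ n) (pow_ne_zero n hz) d]
      _ = scal340 z hz * scal340 (z ^ n) (pow_ne_zero n hz) * (d * glAut s (twNorm s n d)) := by
          group

/-- `U = N_l δ'` commutes with `δ' s`: `U δ' = δ' s(U)`. -/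
theorem norm_comm865 (s : k' ≃+* k') (l : ℕ) (hord : ∀ y : k', (s ^ l) y = y)
    (d : GL (Fin 2) k') :
    twNorm s l d * d = d * glAut s (twNorm s l d) := by
  have h1 := H166.twN_succ_right166 (glAut s) l d
  rw [iterate_glAut60 s l hord] at h1
  have h2 := H166.twN_succ166 (glAut s) l d
  unfold twNorm
  rw [← h1, h2]

/-- If `U = α + β Θ` with `s`-fixed scalars `α`, `β ≠ 0` and `U δ' = δ' s(U)` then
`Θ δ' = δ' s(Θ)`. -/
theorem theta_comm865 (s : k' ≃+* k') {α β : k'} (hα : s α = α) (hβ : s β = β) (hβ0 : β ≠ 0)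
    {U Θ d : GL (Fin 2) k'}
    (hU : (U : Matrix (Fin 2) (Fin 2) k')
      = α • (1 : Matrix (Fin 2) (Fin 2) k') + β • (Θ : Matrix (Fin 2) (Fin 2) k'))
    (hc : U * d = d * glAut s U) : Θ * d = d * glAut s Θ := by
  have hsU : ((glAut s U : GL (Fin 2) k') : Matrix (Fin 2) (Fin 2) k')
      = α • (1 : Matrix (Fin 2) (Fin 2) k')
        + β • ((glAut s Θ : GL (Fin 2) k') : Matrix (Fin 2) (Fin 2) k') := by
    ext a b
    rw [coe_glAut340, hU]
    simp only [Matrix.add_apply, Matrix.smul_apply, smul_eq_mul, map_add, map_mul, hα, hβ,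
      coe_glAut340]
    congr 2
    by_cases hab : a = b
    · subst hab; simp
    · simp [hab]
  have h1 := congrArg (fun g : GL (Fin 2) k' => (g : Matrix (Fin 2) (Fin 2) k')) hc
  simp only [Matrix.GeneralLinearGroup.coe_mul] at h1
  rw [hU, hsU, Matrix.add_mul, Matrix.mul_add, Matrix.smul_mul, Matrix.mul_smul,
    Matrix.smul_mul, Matrix.mul_smul, Matrix.one_mul, Matrix.mul_one] at h1
  have h2 := add_left_cancel h1
  apply ext_mat129
  rw [Matrix.GeneralLinearGroup.coe_mul, Matrix.GeneralLinearGroup.coe_mul]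
  have h3 := congrArg (fun M : Matrix (Fin 2) (Fin 2) k' => β⁻¹ • M) h2
  simpa [smul_smul, inv_mul_cancel₀ hβ0] using h3

end Scal

/-! ### The family `h_m = N_m(δ') s^m(G)` -/

section Fam

variable {k' : Type} [Field k'] [Valued k' Γ₀]

/-- `h_m = N_m(d) s^m(G)`. -/
def fam865 (s : k' ≃+* k') (d G : GL (Fin 2) k') (m : ℕ) : GL (Fin 2) k' :=
  twNorm s m d * (glAut s)^[m] G

theorem fam_zero865 (s : k' ≃+* k') (d G : GL (Fin 2) k') : fam865 s d G 0 = G := by
  show (1 : GL (Fin 2) k') * G = G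
  rw [one_mul]

theorem fam_succ865 (s : k' ≃+* k') (d G : GL (Fin 2) k') (m : ℕ) :
    d * glAut s (fam865 s d G m) = fam865 s d G (m + 1) := by
  unfold fam865
  rw [map_mul, ← mul_assoc, Function.iterate_succ_apply']
  rfl

theorem theta_fam865 (s : k' ≃+* k') {Θ d G w' : GL (Fin 2) k'}
    (hΘ : Θ * d = d * glAut s Θ) (hG : Θ * G = G * w') (hw : glAut s w' = w') (m : ℕ) :
    Θ * fam865 s d G m = fam865 s d G m * w' := by
  unfold fam865
  have h1 : Θ * twNorm s m d = twNorm s m d * (glAut s)^[m] Θ :=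
    H166.twN_semiconj166 (glAut s) d Θ hΘ m
  have h2 : (glAut s)^[m] Θ * (glAut s)^[m] G = (glAut s)^[m] G * w' := by
    rw [← iterate_map_mul, hG, iterate_map_mul,
      Function.iterate_fixed hw]
  calc Θ * (twNorm s m d * (glAut s)^[m] G)
      = (Θ * twNorm s m d) * (glAut s)^[m] G := by rw [mul_assoc]
    _ = twNorm s m d * ((glAut s)^[m] Θ * (glAut s)^[m] G) := by rw [h1, mul_assoc]
    _ = twNorm s m d * (glAut s)^[m] G * w' := by rw [h2, mul_assoc]

end Fam

/-! ### The assembly -/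

section Main

variable {k k' : Type} [Field k] [Field k'] [Valued k Γ₀] [Valued k' Γ₀]

theorem mint_map_i865 (i : k →+* k') (hi : ∀ x : k, Valued.v (i x) = Valued.v x)
    {g : GL (Fin 2) k} (hg : InU 0 g) :
    MInt865 ((Matrix.GeneralLinearGroup.map i g : GL (Fin 2) k') :
      Matrix (Fin 2) (Fin 2) k') := by
  intro a b
  rw [coe_map60, hi]
  exact inU_int865 hg a b

theorem trace_map865 (i : k →+* k') (g : GL (Fin 2) k) :
    ((Matrix.GeneralLinearGroup.map i g : GL (Fin 2) k') : Matrix (Fin 2) (Fin 2) k').trace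
      = i (g : Matrix (Fin 2) (Fin 2) k).trace := by
  rw [Matrix.trace_fin_two, Matrix.trace_fin_two, coe_map60, coe_map60, map_add]

theorem coe_conj865 (x A : GL (Fin 2) k') {α β : k'} {B : Matrix (Fin 2) (Fin 2) k'}
    (hA : (A : Matrix (Fin 2) (Fin 2) k') = α • (1 : Matrix (Fin 2) (Fin 2) k') + β • B) :
    ((x⁻¹ * A * x : GL (Fin 2) k') : Matrix (Fin 2) (Fin 2) k')
      = α • (1 : Matrix (Fin 2) (Fin 2) k')
        + β • (((x⁻¹ : GL (Fin 2) k') : Matrix (Fin 2) (Fin 2) k') * B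
          * (x : Matrix (Fin 2) (Fin 2) k')) := by
  have hxx : ((x⁻¹ : GL (Fin 2) k') : Matrix (Fin 2) (Fin 2) k')
      * (x : Matrix (Fin 2) (Fin 2) k') = 1 := by
    rw [← Matrix.GeneralLinearGroup.coe_mul, inv_mul_cancel]; rfl
  rw [Matrix.GeneralLinearGroup.coe_mul, Matrix.GeneralLinearGroup.coe_mul, hA,
    Matrix.mul_add, Matrix.add_mul, Matrix.mul_smul, Matrix.smul_mul, Matrix.mul_one, hxx,
    Matrix.mul_smul, Matrix.smul_mul]

theorem trace_conj865 (x A : GL (Fin 2) k') :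
    ((x⁻¹ * A * x : GL (Fin 2) k') : Matrix (Fin 2) (Fin 2) k').trace
      = (A : Matrix (Fin 2) (Fin 2) k').trace := by
  have hxx : (x : Matrix (Fin 2) (Fin 2) k')
      * ((x⁻¹ : GL (Fin 2) k') : Matrix (Fin 2) (Fin 2) k') = 1 := by
    rw [← Matrix.GeneralLinearGroup.coe_mul, mul_inv_cancel]; rfl
  rw [Matrix.GeneralLinearGroup.coe_mul, Matrix.GeneralLinearGroup.coe_mul,
    Matrix.trace_mul_cycle, hxx, one_mul]

theorem det_conj865' (x A : GL (Fin 2) k') :
    ((x * A * x⁻¹ : GL (Fin 2) k') : Matrix (Fin 2) (Fin 2) k').det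
      = (A : Matrix (Fin 2) (Fin 2) k').det := by
  have := det_conj60 A x⁻¹
  rwa [inv_inv] at this

theorem vpow_eq_one865 {v : Γ₀} {l : ℕ} (hl : 0 < l) (h : v ^ l = 1) : v = 1 := by
  have hv : v ≠ 0 := by
    rintro rfl
    rw [zero_pow (by omega)] at h
    exact zero_ne_one h
  have h1 := congrArg WithZero.log h
  rw [WithZero.log_pow, WithZero.log_one] at h1
  have h2 : WithZero.log v = 0 := by
    rcases smul_eq_zero.1 h1 with h3 | h3
    · omega
    · exact h3
  have h3 : WithZero.log v = WithZero.log (1 : Γ₀) := by rw [h2, WithZero.log_one]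
  exact log_inj129 hv one_ne_zero h3

/-- **T6.13.3b.3 from `NFExistsC865` and `LatSumC865`.** -/
theorem twNF_of_leaves865 (hE : NFExistsC865) (hL : LatSumC865) : TwNFC865 := by
  intro k k' _ _ _ _ q l i s δ γ j r h hdvd
  have hU := h.unr
  have hs := hU.hext.val_s
  have hfix := hU.hext.cyc.fix_i
  have hord := hU.hext.cyc.order
  have hi := val_i865 hU
  have hlpos : 0 < l := hU.hl.pos
  obtain ⟨ϖ, a, w, uy, y, h₀, hNF, hγ⟩ := hE k q hU.hk γ j r h.hreg h.hne h.hnr h.hj h.hr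
  obtain ⟨c, hc⟩ := isConj_iff.1 h.hconj
  obtain ⟨j', hj'⟩ := hdvd
  have hϖ0 : i ϖ ≠ 0 := by
    intro h0
    have := hi ϖ
    rw [h0, map_zero, hNF.unif] at this
    exact WithZero.exp_ne_zero this.symm
  -- the scalar `z = ϖ^j'`
  have hz : (i ϖ) ^ j' ≠ 0 := zpow_ne_zero j' hϖ0
  have hsz : s ((i ϖ) ^ j')⁻¹ = ((i ϖ) ^ j')⁻¹ := by rw [map_inv₀, map_zpow₀, hfix]
  have hzj : (((i ϖ) ^ j')⁻¹) ^ l * (i ϖ) ^ j = 1 := by
    rw [inv_pow, ← zpow_natCast, ← zpow_mul, hj', mul_comm j' (l : ℤ)]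
    exact inv_mul_cancel₀ (zpow_ne_zero _ hϖ0)
  -- the elements
  obtain ⟨iw, hiw⟩ : ∃ iw : GL (Fin 2) k', iw = Matrix.GeneralLinearGroup.map i w := ⟨_, rfl⟩
  obtain ⟨iu, hiudef⟩ : ∃ iu : GL (Fin 2) k', iu = Matrix.GeneralLinearGroup.map i uy :=
    ⟨_, rfl⟩
  obtain ⟨G, hGdef⟩ : ∃ G : GL (Fin 2) k', G = c⁻¹ * Matrix.GeneralLinearGroup.map i h₀ :=
    ⟨_, rfl⟩
  obtain ⟨d, hddef⟩ : ∃ d : GL (Fin 2) k',
      d = scal340 ((i ϖ) ^ j')⁻¹ (inv_ne_zero hz) * δ := ⟨_, rfl⟩
  obtain ⟨Θ, hΘdef⟩ : ∃ Θ : GL (Fin 2) k', Θ = G * iw * G⁻¹ := ⟨_, rfl⟩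
  have hNδ : twNorm s l δ = G * Matrix.GeneralLinearGroup.map i y * G⁻¹ := by
    have e : twNorm s l δ = c⁻¹ * Matrix.GeneralLinearGroup.map i γ * c := by
      rw [← hc]; group
    rw [e, hγ, map_mul, map_mul, map_inv, hGdef]
    group
  have hy : Matrix.GeneralLinearGroup.map i y
      = scal340 ((i ϖ) ^ j) (zpow_ne_zero j hϖ0) * iu := by
    apply ext_mat129
    ext a' b'
    rw [scal340_mul_apply, hiudef, coe_map60, coe_map60, hNF.y_eq, Matrix.smul_apply,
      smul_eq_mul, map_mul, map_zpow₀]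
  have hNd : twNorm s l d = G * iu * G⁻¹ := by
    rw [hddef, twNorm_scal865 s (inv_ne_zero hz) hsz δ l, hNδ, hy]
    have e : G * (scal340 ((i ϖ) ^ j) (zpow_ne_zero j hϖ0) * iu) * G⁻¹
        = scal340 ((i ϖ) ^ j) (zpow_ne_zero j hϖ0) * (G * iu * G⁻¹) := by
      rw [← mul_assoc G, ← scal340_comm]; group
    rw [e, ← mul_assoc, scal_mul_scal865,
      scal_congr865 _ one_ne_zero hzj, scal_one865, one_mul]
  have hiu : (iu : Matrix (Fin 2) (Fin 2) k')
      = i a • (1 : Matrix (Fin 2) (Fin 2) k') + i ϖ ^ r • (iw : Matrix (Fin 2) (Fin 2) k') := by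
    ext a' b'
    rw [hiudef, hiw, coe_map60, hNF.u_eq]
    simp only [Matrix.add_apply, Matrix.smul_apply, smul_eq_mul, map_add, map_mul, map_pow,
      coe_map60]
    congr 2
    by_cases hab : a' = b'
    · subst hab; simp
    · simp [hab]
  have hUval : (twNorm s l d : Matrix (Fin 2) (Fin 2) k')
      = i a • (1 : Matrix (Fin 2) (Fin 2) k') + i ϖ ^ r • (Θ : Matrix (Fin 2) (Fin 2) k') := by
    rw [hNd]
    have := coe_conj865 G⁻¹ iu hiu
    rw [inv_inv] at this
    rw [this, hΘdef, Matrix.GeneralLinearGroup.coe_mul, Matrix.GeneralLinearGroup.coe_mul]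
  have hΘd : Θ * d = d * glAut s Θ :=
    theta_comm865 s (hfix a) (by rw [map_pow, hfix]) (pow_ne_zero r hϖ0) hUval
      (norm_comm865 s l hord d)
  have hΘG : Θ * G = G * iw := by
    rw [hΘdef]; group
  have hsiw : glAut s iw = iw := by rw [hiw]; exact H166.glAut_map166 i s hfix w
  -- the lattice
  obtain ⟨n, hn⟩ : ∃ n, l = n + 1 := ⟨l - 1, by omega⟩
  obtain ⟨x, cc, hint, hcint, hx⟩ := hL k' (q ^ l) hU.hk' n
    (fun m => fam865 s d G (m : ℕ))
  have hxx : ((x⁻¹ : GL (Fin 2) k') : Matrix (Fin 2) (Fin 2) k')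
      * (x : Matrix (Fin 2) (Fin 2) k') = 1 := by
    rw [← Matrix.GeneralLinearGroup.coe_mul, inv_mul_cancel]; rfl
  have hiuint : MInt865 (iu : Matrix (Fin 2) (Fin 2) k') := by
    rw [hiudef]; exact mint_map_i865 i hi hNF.u_int
  have hiwint : MInt865 (iw : Matrix (Fin 2) (Fin 2) k') := by
    rw [hiw]; exact mint_map_i865 i hi hNF.w_int
  -- `x⁻¹ h_{m+1}` is integral for `m < l`
  have hstep : ∀ m : Fin (n + 1),
      MInt865 ((x⁻¹ * fam865 s d G ((m : ℕ) + 1) : GL (Fin 2) k') :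
        Matrix (Fin 2) (Fin 2) k') := by
    intro m
    by_cases hm : (m : ℕ) + 1 < n + 1
    · exact hint ⟨(m : ℕ) + 1, hm⟩
    · have hm' : (m : ℕ) + 1 = l := by have := m.2; omega
      have e : fam865 s d G ((m : ℕ) + 1) = fam865 s d G 0 * iu := by
        rw [hm', fam_zero865]
        show twNorm s l d * (glAut s)^[l] G = G * iu
        rw [iterate_glAut60 s l hord, hNd]; group
      rw [e, ← mul_assoc, Matrix.GeneralLinearGroup.coe_mul]
      exact mint_mul865 (hint ⟨0, by omega⟩) hiuint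
  -- the matrix of `u = x⁻¹ δ' s(x)`
  have hu_val : ((x⁻¹ * d * glAut s x : GL (Fin 2) k') : Matrix (Fin 2) (Fin 2) k')
      = ∑ m : Fin (n + 1),
          ((x⁻¹ * fam865 s d G ((m : ℕ) + 1) : GL (Fin 2) k') : Matrix (Fin 2) (Fin 2) k')
            * (cc m).map s := by
    rw [Matrix.GeneralLinearGroup.coe_mul, coe_glAut_eq_map865, hx]
    have e1 : (∑ m : Fin (n + 1),
        ((fam865 s d G (m : ℕ) : GL (Fin 2) k') : Matrix (Fin 2) (Fin 2) k') * cc m).map s
        = ∑ m : Fin (n + 1),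
          ((glAut s (fam865 s d G (m : ℕ)) : GL (Fin 2) k') : Matrix (Fin 2) (Fin 2) k')
            * (cc m).map s := by
      have := map_sum (s : k' →+* k').mapMatrix
        (fun m : Fin (n + 1) =>
          ((fam865 s d G (m : ℕ) : GL (Fin 2) k') : Matrix (Fin 2) (Fin 2) k') * cc m)
        Finset.univ
      simp only [RingHom.mapMatrix_apply, RingHom.coe_coe] at this
      rw [this]
      refine Finset.sum_congr rfl (fun m _ => ?_)
      rw [Matrix.map_mul, coe_glAut_eq_map865]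
    rw [e1, Finset.mul_sum]
    refine Finset.sum_congr rfl (fun m _ => ?_)
    rw [← fam_succ865, ← Matrix.mul_assoc, Matrix.GeneralLinearGroup.coe_mul,
      Matrix.GeneralLinearGroup.coe_mul, Matrix.GeneralLinearGroup.coe_mul]
    simp only [Matrix.mul_assoc]
  have hu_int : MInt865 ((x⁻¹ * d * glAut s x : GL (Fin 2) k') :
      Matrix (Fin 2) (Fin 2) k') := by
    rw [hu_val]
    exact mint_sum865 _ _ (fun m _ => mint_mul865 (hstep m) (mint_map865 s hs (hcint m)))
  -- the matrix of `W = x⁻¹ Θ x`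
  have hW_val : ((x⁻¹ * Θ * x : GL (Fin 2) k') : Matrix (Fin 2) (Fin 2) k')
      = ∑ m : Fin (n + 1),
          ((x⁻¹ * fam865 s d G (m : ℕ) : GL (Fin 2) k') : Matrix (Fin 2) (Fin 2) k')
            * (iw : Matrix (Fin 2) (Fin 2) k') * cc m := by
    rw [Matrix.GeneralLinearGroup.coe_mul, hx, Finset.mul_sum]
    refine Finset.sum_congr rfl (fun m _ => ?_)
    rw [← Matrix.mul_assoc, ← Matrix.GeneralLinearGroup.coe_mul,
      ← Matrix.GeneralLinearGroup.coe_mul, mul_assoc x⁻¹ Θ,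
      theta_fam865 s hΘd hΘG hsiw (m : ℕ), ← mul_assoc, Matrix.GeneralLinearGroup.coe_mul]
  have hW_int : MInt865 ((x⁻¹ * Θ * x : GL (Fin 2) k') : Matrix (Fin 2) (Fin 2) k') := by
    rw [hW_val]
    exact mint_sum865 _ _ (fun m _ =>
      mint_mul865 (mint_mul865 (hint m) hiwint) (hcint m))
  -- determinants
  have hdet_d : Valued.v (d : Matrix (Fin 2) (Fin 2) k').det = 1 := by
    apply vpow_eq_one865 hlpos
    rw [← vdet_twNorm60 s hs d l, hNd, det_conj865', hiudef, det_map60, hi]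
    exact vdet_of_inU865 hNF.u_int
  have hdet_u : Valued.v ((x⁻¹ * d * glAut s x : GL (Fin 2) k') :
      Matrix (Fin 2) (Fin 2) k').det = 1 := by
    rw [vdet_twconj60 s hs]; exact hdet_d
  have hdet_W : ((x⁻¹ * Θ * x : GL (Fin 2) k') : Matrix (Fin 2) (Fin 2) k').det
      = i (w : Matrix (Fin 2) (Fin 2) k).det := by
    rw [det_conj60, hΘdef, det_conj865', hiw, det_map60]
  have hvdet_w : Valued.v (w : Matrix (Fin 2) (Fin 2) k).det = 1 := vdet_of_inU865 hNF.w_int
  have hδ : δ = scal340 ((i ϖ) ^ j') hz * d := by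
    rw [hddef, ← mul_assoc, scal_mul_scal865,
      scal_congr865 _ one_ne_zero (mul_inv_cancel₀ hz), scal_one865, one_mul]
  refine ⟨ϖ, a, (w : Matrix (Fin 2) (Fin 2) k).trace, (w : Matrix (Fin 2) (Fin 2) k).det,
    x⁻¹ * Θ * x, x⁻¹ * d * glAut s x, x, (i ϖ) ^ j', ?_, hz, ?_⟩
  · refine ⟨hNF.unif, hNF.a_int, ?_, hvdet_w, hNF.w_irr,
      inU_zero_of_int340 hW_int (by rw [hdet_W, hi]; exact hvdet_w),
      inU_zero_of_int340 hu_int hdet_u, ?_, hdet_W, ?_⟩
    · rw [Matrix.trace_fin_two]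
      exact le_trans (Valuation.map_add _ _ _)
        (max_le (inU_int865 hNF.w_int 0 0) (inU_int865 hNF.w_int 1 1))
    · have e := trace_conj865 G⁻¹ iw
      rw [inv_inv] at e
      rw [trace_conj865, hΘdef, e, hiw, trace_map865]
    · rw [twNorm_twconj865, iterate_glAut60 s l hord, coe_conj865 x _ hUval,
        Matrix.GeneralLinearGroup.coe_mul, Matrix.GeneralLinearGroup.coe_mul]
  · have e : x⁻¹ * δ * glAut s x = scal340 ((i ϖ) ^ j') hz * (x⁻¹ * d * glAut s x) := by
      rw [hδ, ← mul_assoc x⁻¹, ← scal340_comm]; group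
    rw [e]
    ext a' b'
    rw [scal340_mul_apply, Matrix.smul_apply, smul_eq_mul]

end Main

end Fermat.Agent.LT.T6.H865

end
end
-- ===== PACK-END LT/T6/H865/TwEllNF.lean

-- ===== PACK-BEGIN LT/T7/H140/DownBasisQSpec.lean
section




/-!
# Row LT, tower T7, NODE T7.L2Q.3.7 `SDQ140.DownBasisQC` -- THE CUT, level 2 (helper140)

OFF-MAIN.  Definitions and frozen Props; the assembly `downBasisQC_of140` is in
`DownBasisQTop.lean`.  No hole, nothing assumed.  ADDITIVE.
Typed MIRROR over `ℚ` of `LT/T7/H534/DownBasisSpec.lean` (helper534@b2ea72787, byte-identical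
copy); `SD534.clsSpan` and the abstract leaf `SD534.SchurSeqC` (Mathlib only) are REUSED verbatim.

    DownBasisQC F n  ⟸  CuspFormQC n + WSubQC n + OpsClassQC n + WBasisQC n + SD534.SchurSeqC
                          + RegParamFnQC n + SubSeqQC n        (+ the fields of `IsL2QData`)

Notation: `V` = the cusp functions over `ℚ` of level `𝔫`, `K_∞`-type `n.type`, invariant under
the ray generator (`InVQ`); `W ⊆ V` = the INVARIANT cusp functions (`InWQ` = `L2Q.IsWFnQ`:
invariant under the positive scalars at the real place and under the Iwahori subgroup at `u`,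
`u ∣ 𝔫`); `InClsQ c` = the members of `W` with joint eigen-data `c` (`L2Q.IsEigFnQ`);
`⟨f, f'⟩ = T5.innerD μ F f f'` (linear in `f`).

## The leaves (every one is the typed form of the leaf of helper534 with the same name)

* `CuspFormQC n`  : `⟨ , ⟩` is a positive definite hermitian form on `V`; `R(φ)` is linear on `V`
  for the test functions of type `n.type`.
* `WSubQC n`      : `V`, `W` and the classes are closed under `+` and scalar multiplication.
* `OpsClassQC n`  : `Z^k` and `𝒰` preserve the classes and commute.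
* `WBasisQC n` (NODE, port of the closed tower T2 in the class of T5, `T2.cuspSpecT_closed`, to
  `ℚ`, the type `n` and the Iwahori level at `u`).
* `SD534.SchurSeqC` (MATHLIB ONLY, abstract; leaf DB.5 of helper534, reused).
* `RegParamFnQC n` (NODE; local at `u`, the type plays no role): the joint eigenvalues of
  `(Z, 𝒰)` on `W` satisfy `IsRegParam √q`.
* `SubSeqQC n`    : every subspace of `V` has a complete orthonormal sequence (zeros allowed).
-/

set_option autoImplicit false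
set_option linter.unusedSectionVars false
set_option linter.unusedVariables false

open AutomorphicForm IsDedekindDomain NumberField MeasureTheory
open scoped ComplexConjugate

noncomputable section

namespace Fermat.Agent.LT.T7.SDQ140

open Fermat.Agent.LT.H556 Fermat.Agent.LT.H556.A0 Fermat.Agent.LT.H670 Fermat.Agent.LT.T7
open Fermat.Agent.LT.T7.L2Q

attribute [local instance] Fermat.Agent.LT.T5.instMeasurableSpaceG

section Defs

/-- `f ∈ V`: a cusp function over `ℚ` of level `𝔫`, `K_∞`-type `n.type`, invariant under `r`. -/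
def InVQ (n : QWt) (𝔫 : Ideal (𝓞 ℚ)) (r : G ℚ) (f : G ℚ → ℂ) : Prop :=
  T5.IsCuspFn 𝔫 n.type r f

/-- `χ ∈ W`: an invariant cusp function of type `n` for the regular place `u`. -/
def InWQ (n : QWt) (𝔫 : Ideal (𝓞 ℚ)) (r : G ℚ) (u : HeightOneSpectrum (𝓞 ℚ))
    (χ : G ℚ → ℂ) : Prop :=
  IsWFnQ n 𝔫 r u χ

/-- `ψ` is a member of `W` with joint eigen-data `c`. -/
def InClsQ (n : QWt) (𝔫 : Ideal (𝓞 ℚ)) (r : G ℚ) (u : HeightOneSpectrum (𝓞 ℚ))
    (c : EigData ℚ) (ψ : G ℚ → ℂ) : Prop :=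
  IsEigFnQ n 𝔫 r u ψ c

theorem InClsQ.inW {n : QWt} {𝔫 : Ideal (𝓞 ℚ)} {r : G ℚ} {u : HeightOneSpectrum (𝓞 ℚ)}
    {c : EigData ℚ} {ψ : G ℚ → ℂ} (h : InClsQ n 𝔫 r u c ψ) : InWQ n 𝔫 r u ψ := h.inv

theorem InWQ.inV {n : QWt} {𝔫 : Ideal (𝓞 ℚ)} {r : G ℚ} {u : HeightOneSpectrum (𝓞 ℚ)}
    {χ : G ℚ → ℂ} (h : InWQ n 𝔫 r u χ) : InVQ n 𝔫 r χ := h.cusp

/-- The hermitian form on `V` and the linearity of the convolutions. -/
structure IsCuspFormQ (n : QWt) (μ : Measure (G ℚ)) (F : Set (G ℚ)) (r : G ℚ)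
    (𝔫 : Ideal (𝓞 ℚ)) : Prop where
  add_left : ∀ f f' f'' : G ℚ → ℂ, InVQ n 𝔫 r f → InVQ n 𝔫 r f' → InVQ n 𝔫 r f'' →
    T5.innerD μ F (f + f') f'' = T5.innerD μ F f f'' + T5.innerD μ F f' f''
  smul_left : ∀ (a : ℂ) (f f' : G ℚ → ℂ), InVQ n 𝔫 r f → InVQ n 𝔫 r f' →
    T5.innerD μ F (a • f) f' = a * T5.innerD μ F f f'
  conj_symm : ∀ f f' : G ℚ → ℂ, InVQ n 𝔫 r f → InVQ n 𝔫 r f' →
    T5.innerD μ F f' f = conj (T5.innerD μ F f f')
  nonneg : ∀ f : G ℚ → ℂ, InVQ n 𝔫 r f → 0 ≤ (T5.innerD μ F f f).re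
  definite : ∀ f : G ℚ → ℂ, InVQ n 𝔫 r f → T5.innerD μ F f f = 0 → f = 0
  conv_add : ∀ φ f f' : G ℚ → ℂ, T5.IsTestFn 𝔫 n.type φ → InVQ n 𝔫 r f → InVQ n 𝔫 r f' →
    T5.Rconv μ φ (f + f') = T5.Rconv μ φ f + T5.Rconv μ φ f'
  conv_smul : ∀ (φ : G ℚ → ℂ) (a : ℂ) (f : G ℚ → ℂ), T5.IsTestFn 𝔫 n.type φ →
    InVQ n 𝔫 r f → T5.Rconv μ φ (a • f) = a • T5.Rconv μ φ f

/-- `V`, `W` and the classes are linear subspaces of the functions on `GL₂(𝔸_ℚ)`. -/
structure IsWSubQ (n : QWt) (𝔫 : Ideal (𝓞 ℚ)) (r : G ℚ) (u : HeightOneSpectrum (𝓞 ℚ)) :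
    Prop where
  zeroW : InWQ n 𝔫 r u (0 : G ℚ → ℂ)
  addV : ∀ f f' : G ℚ → ℂ, InVQ n 𝔫 r f → InVQ n 𝔫 r f' → InVQ n 𝔫 r (f + f')
  smulV : ∀ (a : ℂ) (f : G ℚ → ℂ), InVQ n 𝔫 r f → InVQ n 𝔫 r (a • f)
  addW : ∀ f f' : G ℚ → ℂ, InWQ n 𝔫 r u f → InWQ n 𝔫 r u f' → InWQ n 𝔫 r u (f + f')
  smulW : ∀ (a : ℂ) (f : G ℚ → ℂ), InWQ n 𝔫 r u f → InWQ n 𝔫 r u (a • f)
  addC : ∀ (c : EigData ℚ) (f f' : G ℚ → ℂ), InClsQ n 𝔫 r u c f → InClsQ n 𝔫 r u c f' →
    InClsQ n 𝔫 r u c (f + f')
  smulC : ∀ (c : EigData ℚ) (a : ℂ) (f : G ℚ → ℂ), InClsQ n 𝔫 r u c f →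
    InClsQ n 𝔫 r u c (a • f)

/-- The operators at the regular place preserve the classes and commute. -/
structure IsOpsClassQ (n : QWt) (𝔫 : Ideal (𝓞 ℚ)) (r : G ℚ) (u : HeightOneSpectrum (𝓞 ℚ))
    (H : Finset (G ℚ)) (z : G ℚ) : Prop where
  shift : ∀ (c : EigData ℚ) (ψ : G ℚ → ℂ) (k : ℤ), InClsQ n 𝔫 r u c ψ →
    InClsQ n 𝔫 r u c (shiftOp z k ψ)
  iw : ∀ (c : EigData ℚ) (ψ : G ℚ → ℂ), InClsQ n 𝔫 r u c ψ → InClsQ n 𝔫 r u c (iwOp u H ψ)
  comm : ∀ (ψ : G ℚ → ℂ) (k : ℤ), iwOp u H (shiftOp z k ψ) = shiftOp z k (iwOp u H ψ)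

/-- An orthonormal sequence of joint eigenfunctions of type `n`, complete in `W`, with finite
classes which exhaust the eigenfunctions. -/
structure IsWBasisQ (n : QWt) (μ : Measure (G ℚ)) (F : Set (G ℚ)) (r : G ℚ) (𝔫 : Ideal (𝓞 ℚ))
    (u : HeightOneSpectrum (𝓞 ℚ)) (w : ℕ → G ℚ → ℂ) (J : Set ℕ) (c : ℕ → EigData ℚ) :
    Prop where
  eig : ∀ j, j ∈ J → InClsQ n 𝔫 r u (c j) (w j)
  unit : ∀ j, j ∈ J → IsUnitOutQ 𝔫 (c j)
  norm_one : ∀ j, j ∈ J → T5.innerD μ F (w j) (w j) = 1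
  orth : ∀ i, i ∈ J → ∀ j, j ∈ J → i ≠ j → T5.innerD μ F (w i) (w j) = 0
  parseval : ∀ χ : G ℚ → ℂ, InWQ n 𝔫 r u χ →
    HasSum (fun j : J => ‖T5.innerD μ F χ (w j)‖ ^ 2) (T5.innerD μ F χ χ).re
  finite : ∀ j₀, j₀ ∈ J → {j : ℕ | j ∈ J ∧ c j = c j₀}.Finite
  exhaust : ∀ j₀, j₀ ∈ J → ∀ ψ : G ℚ → ℂ, InClsQ n 𝔫 r u (c j₀) ψ →
    ψ ∈ SD534.clsSpan w J c (c j₀)

end Defs

/-! ## The leaves -/

section Leaves

/-- **DBQ.1 FORM** (typed form of `SD534.CuspFormC`).  `⟨ , ⟩` is a positive definite hermitian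
form on the cusp functions of type `n` and the convolution by a test function of type `n` is
linear on them.  (Cusp functions are continuous and bounded, `μ F < ∞`; a test function is
continuous with compact support; definiteness: `f = 0` a.e. on `F`, hence a.e. on
`GL₂(𝔸_ℚ) = ⋃ γ F rᵐ`, hence everywhere: `T2.PairDefiniteT` for the frame of T5.) -/
def CuspFormQC (n : QWt) : Prop :=
  ∀ (μ : Measure (G ℚ)) (F : Set (G ℚ)) (r : G ℚ) (𝔫 : Ideal (𝓞 ℚ)), 𝔫 ≠ ⊥ →
    T5.IsKType n.type → T5.IsFrame μ F → T5.IsRayGen r → IsCuspFormQ n μ F r 𝔫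

/-- **DBQ.2 SUBSPACES** (typed form of `SD534.WSubC`).  (Every condition of `T5.IsCuspFn`,
`L2Q.IsWFnQ`, `L2Q.IsEigFnQ` is linear; the constant term needs the integrability of a bounded
continuous function on a fundamental domain of `ℚ` in `𝔸_ℚ`, which has finite measure: T1.) -/
def WSubQC (n : QWt) : Prop :=
  ∀ (𝔫 : Ideal (𝓞 ℚ)) (r : G ℚ) (u : HeightOneSpectrum (𝓞 ℚ)), IsWSubQ n 𝔫 r u

/-- **DBQ.3 OPS** (typed form of `SD534.OpsClassC`).  For `u ∣ 𝔫`, an Iwahori coset system `H`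
and a scalar uniformiser `z` at `u`: `Z^k` and `𝒰` map a member of `W` with eigen-data `c` to a
member of `W` with eigen-data `c`, and `𝒰 Z^k = Z^k 𝒰`. -/
def OpsClassQC (n : QWt) : Prop :=
  ∀ (𝔫 : Ideal (𝓞 ℚ)) (r : G ℚ) (u : HeightOneSpectrum (𝓞 ℚ)) (H : Finset (G ℚ)) (z : G ℚ),
    𝔫 ≠ ⊥ → T5.IsKType n.type → T5.IsRayGen r → u.asIdeal ∣ 𝔫 → IsIwCosetSystem u H →
    IsScalarUniformizerAt u z → IsOpsClassQ n 𝔫 r u H z

/-- **DBQ.4 = NODE W-BASIS over `ℚ`, type `n`** (port of the closed tower T2 in the class of T5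
to the Iwahori level at `u`).  Route: `T2.cuspSpecT_closed` for `(ℚ, 𝔫, n.type)` (joint eigenbasis
of the cusp functions of type `n.type`, finite classes), the members of `W` are the cusp
functions of T2 which are invariant under the positive scalars at the real place (central
character `c j = 1`) and under the Iwahori subgroup at `u`; the projector `P` = average over
`I_u / U(𝔫)_u` (a finite group) commutes with the operators of T2, so `W ∩ V_c = P V_c`;
Gram--Schmidt in `P V_c`.  The circle means of T2 (`T2.MeanEigRT`, `rotY θ` = rotation of angle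
`θ/2`) are those of `L2Q.MeanEigR0` / `L2Q.MeanEigR1` (`QOut.rotC θ = k_{-θ}`).  The eigen-data
are NORMALISED (`0` at the places dividing `𝔫` and at the radii `t ≤ 0`), so that two members
are in the same class iff their data are EQUAL.  Unitarity `IsUnitOutQ`: `T2.IsCuspBasisT`
(`unit_b`, `conj_a`, `bound_a`, `real_m`) and `|m| ≤ 2π` (a bounded eigenfunction of the circle
mean, which is an average over a set of mass `2π`). -/
def WBasisQC (n : QWt) : Prop :=
  ∀ (μ : Measure (G ℚ)) (F : Set (G ℚ)) (r : G ℚ) (𝔫 : Ideal (𝓞 ℚ))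
    (u : HeightOneSpectrum (𝓞 ℚ)), 𝔫 ≠ ⊥ → T5.IsKType n.type → T5.IsFrame μ F →
    T5.IsRayGen r → u.asIdeal ∣ 𝔫 →
      ∃ (w : ℕ → G ℚ → ℂ) (J : Set ℕ) (c : ℕ → EigData ℚ), IsWBasisQ n μ F r 𝔫 u w J c

/-- **DBQ.6 = NODE REG-PARAM over `ℚ`, type `n`** (typed form of `SD534.RegParamFnC`; the
`K_∞`-type plays no role).  A nonzero member of `W` which is a joint eigenfunction of `Z` and `𝒰`
with eigenvalues `(b, l)` has `IsRegParam √q b l`. -/
def RegParamFnQC (n : QWt) : Prop :=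
  ∀ (μ : Measure (G ℚ)) (F : Set (G ℚ)) (r : G ℚ) (𝔫 : Ideal (𝓞 ℚ))
    (u : HeightOneSpectrum (𝓞 ℚ)) (H : Finset (G ℚ)) (z : G ℚ),
    𝔫 ≠ ⊥ → T5.IsKType n.type → T5.IsFrame μ F → T5.IsRayGen r → u.asIdeal ∣ 𝔫 →
    IsIwCosetSystem u H → IsScalarUniformizerAt u z →
    ∀ (ψ : G ℚ → ℂ) (b l : ℂ), InWQ n 𝔫 r u ψ → (∃ y : G ℚ, ψ y ≠ 0) →
      shiftOp z 1 ψ = b • ψ → iwOp u H ψ = l • ψ →
      IsRegParam (Real.sqrt (Ideal.absNorm u.asIdeal : ℝ)) b l

/-- **DBQ.7 SUB-SEQ** (typed form of `SD534.SubSeqC`).  Every linear subspace `S` of the cusp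
functions of type `n` has an orthonormal sequence (zero vectors allowed) of members of `S` which
is complete in `S`. -/
def SubSeqQC (n : QWt) : Prop :=
  ∀ (μ : Measure (G ℚ)) (F : Set (G ℚ)) (r : G ℚ) (𝔫 : Ideal (𝓞 ℚ)), 𝔫 ≠ ⊥ →
    T5.IsKType n.type → T5.IsFrame μ F → T5.IsRayGen r →
    ∀ S : (G ℚ → ℂ) → Prop, (∀ f, S f → InVQ n 𝔫 r f) → S 0 →
      (∀ f f', S f → S f' → S (f + f')) → (∀ (a : ℂ) (f : G ℚ → ℂ), S f → S (a • f)) →
      ∃ p : ℕ → G ℚ → ℂ, (∀ k, S (p k)) ∧
        (∀ k m, k ≠ m → T5.innerD μ F (p k) (p m) = 0) ∧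
        (∀ k, T5.innerD μ F (p k) (p k) = 1 ∨ p k = 0) ∧
        ∀ f : G ℚ → ℂ, S f →
          HasSum (fun k => ‖T5.innerD μ F f (p k)‖ ^ 2) (T5.innerD μ F f f).re

end Leaves

end Fermat.Agent.LT.T7.SDQ140

end

end
-- ===== PACK-END LT/T7/H140/DownBasisQSpec.lean

-- ===== PACK-BEGIN LT/T7/H732/SupplyQFamSpec.lean
section




/-!
# Row LT, tower T7, node T7.L2Q.1.F `FamQC962` (quadratic step `F = ℚ(√-3)` over `ℚ`):
# SECOND CUT -- Spec (helper732, registry row 2262; mirror of helper893 `SupplyFamSpec.lean`)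

OFF-MAIN.  Definitions and frozen Props only (the proved top is `SupplyQFamTop.lean`).  No hole,
nothing assumed.  ADDITIVE (new names only, all suffixed `732`).  Vocabulary:
`T7/H962/SupplyQSpec.lean` (helper962@39bd27364, sha256 8375a60b), `T7/H826/Level2Q.lean`
(helper826@4ba4a298a, sha256 3acaa310), `T7/H893/SupplyFamSpec.lean` (helper893@a538b800c,
sha256 32dee4c8: the operations `ltr`, `lsum`, `iwL`, `regL`, `IsUInv` are USED AS THEY ARE),
byte-identical copies.

    famQC_of732 : PreQC732 P F → EkProdUpQC732 F → EkProdDownQC732 F → OpUpQC732 F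
                    → KillUpQC732 F → OpDownQC732 F → ClassDownQC732 F → CommDownQC732 F
                    → KillDownQC732 F → H962.FamQC962 P F

## The shape of the families (ONE bad element `g`)

Upstairs (the field `F`, `ℓ = 2`, trivial type) NOTHING changes with respect to the cyclic case:

    φ' X k m = Φ₁ X ⋆ lsum Hg (regL (o 0) z' H' k m φ₂).

Downstairs (over `ℚ`) there are TWO families, one for each `K_∞`-type `n ∈ {w0, w1}`
(`L2Q.QWt`: trivial type, weight one), with base functions `F₁ n X`, `f₂ n` OF TYPE `n`: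

    f n X k m = F₁ n X ⋆ regL u z H k m (f₂ n),

and THE SUM `f w0 X k m + f w1 X k m` is matched with `φ' X k m` (`T6.ArchMatchC`: the function
matching a bi-`U(2)`-invariant function at the complex place is `f₀ + f₁`; the mixed products
`F₁ w0 ⋆ f₂ w1`, `F₁ w1 ⋆ f₂ w0` vanish, so `(F₁ w0 + F₁ w1) ⋆ (f₂ w0 + f₂ w1)` is the sum of the
two members).  The coset systems `H`, `z` at the regular prime `u` and the level `𝔫` are the SAME
for the two types.

* **`PreQC732 P F`** (NODE = the CONSTRUCTION and the GEOMETRY; mirror of `H893.PreC`): pre-data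
  with `IsL2QPre732` exist.  Inputs: T3 over `ℚ` (station T3.18R: Eisenstein-killing test
  functions of the types `w0`, `w1`, general archimedean parameter), `T6.ArchMatchC`,
  `T6.ArchInjC` (closed sub-tower T6inf), the regularity of helper32 (`T5/H32/RegConv.lean`) and
  the matching station of helper584.
* **8 LEAVES (bookkeeping; cosets, translates, Fubini)**: the mirrors of the 8 leaves of
  helper893.  The three leaves upstairs (`EkProdUpQC732`, `OpUpQC732`, `KillUpQC732`) have THE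
  SAME proofs as `H893.EkProdUpC`, `H893.OpUpC`, `H893.KillUpC` (only the fields upstairs of the
  pre-data and of the common part are used; `ℓ = 2`); the five leaves downstairs are the proofs of
  `H893.EkProdDownC`, …, `H893.KillDownC` with the type `n.type` in the place of the trivial type
  (`T5.IsTestFn 𝔫 n.type`, `T5.IsCuspFn 𝔫 n.type`, `L2Q.IsWFnQ n`, `L2Q.IsEigFnQ n`,
  `L2Q.IsBCDataQ n`, `L2Q.IsEKProdT n.type`).
-/

set_option autoImplicit false

open AutomorphicForm IsDedekindDomain NumberField MeasureTheory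
open scoped ComplexConjugate

noncomputable section

namespace Fermat.Agent.LT.T7.H732

open Fermat.Agent.LT.H556 Fermat.Agent.LT.H556.A0 Fermat.Agent.LT.T7 Fermat.Agent.LT.T7.L2Q
  Fermat.Agent.LT.T7.H893 Fermat.Agent.LT.T7.H962

attribute [local instance] Fermat.Agent.LT.T5.instMeasurableSpaceG

/-! ## 1. The pre-data and the families -/

section Pre

variable (F : Type) [Field F] [NumberField F]

/-- The PRE-DATA for one bad element, quadratic step.  See the header. -/
structure L2QPre732 where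
  /-- the level downstairs -/
  𝔫 : Ideal (𝓞 ℚ)
  /-- the scalar of the first base function upstairs -/
  c₁ : EigData F → ℂ
  /-- the scalar of the second base function upstairs -/
  c₂ : EigData F → ℂ
  /-- the first base function upstairs, with the word applied -/
  Φ₁ : List (Gen F) → G F → ℂ
  /-- the second base function upstairs -/
  φ₂ : G F → ℂ
  /-- the first base functions downstairs (one for each type), with the base change of the word
  applied -/
  F₁ : QWt → List (Gen F) → G ℚ → ℂ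
  /-- the second base functions downstairs (one for each type) -/
  f₂ : QWt → G ℚ → ℂ
  /-- representatives of `U(𝔑₀) g U(𝔑₀) / U(𝔑₀)` -/
  Hg : Finset (G F)
  /-- an Iwahori coset system at `o 0` -/
  H' : Finset (G F)
  /-- a scalar uniformiser at `o 0` -/
  z' : G F
  /-- an Iwahori coset system at `u` -/
  H : Finset (G ℚ)
  /-- a scalar uniformiser at `u` -/
  z : G ℚ
  /-- the regular depth -/
  m₀ : List (Gen F) → ℕ

variable {F}

/-- The member of the family upstairs. -/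
def L2QPre732.up (B : L2QBase962 F) (E : L2QPre732 F) (X : List (Gen F)) (k : ℤ) (m : ℕ) :
    G F → ℂ :=
  T5.conv B.R'.μ (E.Φ₁ X) (lsum E.Hg (regL (B.o 0) E.z' E.H' k m E.φ₂))

/-- The member of type `n` of the families downstairs. -/
def L2QPre732.down (B : L2QBase962 F) (E : L2QPre732 F) (n : QWt) (X : List (Gen F)) (k : ℤ)
    (m : ℕ) : G ℚ → ℂ :=
  T5.conv B.R.μ (E.F₁ n X) (regL B.u E.z E.H k m (E.f₂ n))

/-- THE FAMILIES of the pre-data. -/
def L2QPre732.toFam (B : L2QBase962 F) (E : L2QPre732 F) : L2QFam962 F where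
  𝔫 := E.𝔫
  c := fun C => E.c₁ C * E.c₂ C
  φ' := E.up B
  f := fun n => E.down B n
  m₀ := E.m₀

/-- **THE PROPERTIES OF THE PRE-DATA** for the bad element `g`, quadratic step. -/
structure IsL2QPre732 (Φ : HeckeEigensystem F ℂ) (B : L2QBase962 F) (g : G F)
    (E : L2QPre732 F) : Prop where
  -- levels
  level_ne : E.𝔫 ≠ ⊥
  level_g : upI (K' := F) E.𝔫 ≤ B.𝔑₀
  mem_S'_g : ∀ w : HeightOneSpectrum (𝓞 F), w ∈ B.S' ↔ w.asIdeal ∣ upI (K' := F) E.𝔫
  u_level : B.u.asIdeal ∣ E.𝔫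
  -- coset systems
  sysg : IsDblCosetSystem B.𝔑₀ g E.Hg
  sys' : IsIwCosetSystem (B.o 0) E.H'
  unif' : IsScalarUniformizerAt (B.o 0) E.z'
  sys : IsIwCosetSystem B.u E.H
  unif : IsScalarUniformizerAt B.u E.z
  -- the first base function upstairs
  up1_test : ∀ X : List (Gen F), (∀ x ∈ X, x.Out B.S') →
    T5.IsTestFn (upI (K' := F) E.𝔫) T5.trivType (E.Φ₁ X)
  up1_ek : ∀ X : List (Gen F), (∀ x ∈ X, x.Out B.S') →
    T5.IsEK B.R'.μ (E.Φ₁ X) ∧ T5.IsEK B.R'.μ (T5.adjointFn (E.Φ₁ X))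
  /-- the scalar of `Φ₁ X` on the invariant eigenfunctions of the base level -/
  up1_op : ∀ X : List (Gen F), (∀ x ∈ X, x.Out B.S') →
    ∀ (χ : G F → ℂ) (C : EigData F), IsEigFn B.𝔑₀ B.R'.r 2 B.o χ C →
      ∀ x : G F, T5.Rconv B.R'.μ (E.Φ₁ X) χ x = wordEv X C * E.c₁ C * χ x
  -- the second base function upstairs
  up2_test : T5.IsTestFn (upI (K' := F) E.𝔫) T5.trivType E.φ₂
  up2_ek : T5.IsEK B.R'.μ E.φ₂ ∧ T5.IsEK B.R'.μ (T5.adjointFn E.φ₂)
  up2_inv : IsUInv B.𝔑₀ 2 B.o E.φ₂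
  /-- the scalar of `φ₂` on the invariant eigenfunctions of the base level -/
  up2_op : ∀ (ψ : G F → ℂ) (C : EigData F), IsEigFn B.𝔑₀ B.R'.r 2 B.o ψ C →
    ∀ x : G F, T5.Rconv B.R'.μ E.φ₂ ψ x = E.c₂ C * ψ x
  /-- `♮`-KILL upstairs -/
  up2_kill : ∀ ψ : G F → ℂ, T5.IsCuspFn (upI (K' := F) E.𝔫) T5.trivType B.R'.r ψ →
    (∀ χ : G F → ℂ, IsWFn B.𝔑₀ B.R'.r 2 B.o χ → T5.innerD B.R'.μ B.R'.F ψ χ = 0) →
    ∀ x : G F, T5.Rconv B.R'.μ E.φ₂ ψ x = 0
  /-- the scalars do not vanish on the class of `Φ` -/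
  up_ne : ∀ C : EigData F, C.AgreeOut B.S' (eigOf Φ) → E.c₁ C ≠ 0 ∧ E.c₂ C ≠ 0
  -- the first base functions downstairs
  dn1_test : ∀ (n : QWt) (X : List (Gen F)), (∀ x ∈ X, x.Out B.S') →
    T5.IsTestFn E.𝔫 n.type (E.F₁ n X)
  dn1_ek : ∀ (n : QWt) (X : List (Gen F)), (∀ x ∈ X, x.Out B.S') →
    T5.IsEK B.R.μ (E.F₁ n X) ∧ T5.IsEK B.R.μ (T5.adjointFn (E.F₁ n X))
  /-- the word acts downstairs through the base change of the eigen-data -/
  dn1_op : ∀ (n : QWt) (X : List (Gen F)), (∀ x ∈ X, x.Out B.S') →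
    ∀ (χ : G ℚ → ℂ) (c : EigData ℚ) (C : EigData F),
      IsEigFnQ n E.𝔫 B.R.r B.u χ c → IsBCDataQ n c C B.S →
      ∀ x : G ℚ, T5.Rconv B.R.μ (E.F₁ n X) χ x
        = wordEv X C * T5.Rconv B.R.μ (E.F₁ n []) χ x
  /-- `R(F₁ n [])` preserves the invariant cusp functions of type `n` -/
  dn1_wfn : ∀ (n : QWt) (ψ : G ℚ → ℂ), IsWFnQ n E.𝔫 B.R.r B.u ψ →
    IsWFnQ n E.𝔫 B.R.r B.u (T5.Rconv B.R.μ (E.F₁ n []) ψ)
  /-- `R(F₁ n [])` preserves the eigen-classes of type `n` -/
  dn1_class : ∀ (n : QWt) (ψ : G ℚ → ℂ) (c : EigData ℚ), IsEigFnQ n E.𝔫 B.R.r B.u ψ c →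
    IsEigFnQ n E.𝔫 B.R.r B.u (T5.Rconv B.R.μ (E.F₁ n []) ψ) c
  /-- `R(F₁ n [])` commutes with the operators at `u` -/
  dn1_comm : ∀ (n : QWt) (ψ : G ℚ → ℂ), IsWFnQ n E.𝔫 B.R.r B.u ψ →
    ∀ (H : Finset (G ℚ)) (z : G ℚ), IsIwCosetSystem B.u H → IsScalarUniformizerAt B.u z →
      (∀ x : G ℚ, T5.Rconv B.R.μ (E.F₁ n []) (iwOp B.u H ψ) x
        = iwOp B.u H (T5.Rconv B.R.μ (E.F₁ n []) ψ) x) ∧
      ∀ (k : ℤ) (x : G ℚ), T5.Rconv B.R.μ (E.F₁ n []) (shiftOp z k ψ) x
        = shiftOp z k (T5.Rconv B.R.μ (E.F₁ n []) ψ) x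
  -- the second base functions downstairs
  dn2_test : ∀ n : QWt, T5.IsTestFn E.𝔫 n.type (E.f₂ n)
  dn2_ek : ∀ n : QWt, T5.IsEK B.R.μ (E.f₂ n) ∧ T5.IsEK B.R.μ (T5.adjointFn (E.f₂ n))
  dn2_inv : ∀ n : QWt, IsUInv E.𝔫 1 (fun _ => B.u) (E.f₂ n)
  dn2_wfn : ∀ (n : QWt) (ψ : G ℚ → ℂ), IsWFnQ n E.𝔫 B.R.r B.u ψ →
    IsWFnQ n E.𝔫 B.R.r B.u (T5.Rconv B.R.μ (E.f₂ n) ψ)
  dn2_class : ∀ (n : QWt) (ψ : G ℚ → ℂ) (c : EigData ℚ), IsEigFnQ n E.𝔫 B.R.r B.u ψ c →
    IsEigFnQ n E.𝔫 B.R.r B.u (T5.Rconv B.R.μ (E.f₂ n) ψ) c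
  dn2_comm : ∀ (n : QWt) (ψ : G ℚ → ℂ), IsWFnQ n E.𝔫 B.R.r B.u ψ →
    ∀ (H : Finset (G ℚ)) (z : G ℚ), IsIwCosetSystem B.u H → IsScalarUniformizerAt B.u z →
      (∀ x : G ℚ, T5.Rconv B.R.μ (E.f₂ n) (iwOp B.u H ψ) x
        = iwOp B.u H (T5.Rconv B.R.μ (E.f₂ n) ψ) x) ∧
      ∀ (k : ℤ) (x : G ℚ), T5.Rconv B.R.μ (E.f₂ n) (shiftOp z k ψ) x
        = shiftOp z k (T5.Rconv B.R.μ (E.f₂ n) ψ) x
  /-- `♮`-KILL downstairs, type `n` -/
  dn2_kill : ∀ (n : QWt) (ψ : G ℚ → ℂ), T5.IsCuspFn E.𝔫 n.type B.R.r ψ →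
    (∀ χ : G ℚ → ℂ, IsWFnQ n E.𝔫 B.R.r B.u χ → T5.innerD B.R.μ B.R.F ψ χ = 0) →
    ∀ x : G ℚ, T5.Rconv B.R.μ (E.f₂ n) ψ x = 0
  -- the geometry of the families
  reg_up : ∀ (X : List (Gen F)) (k : ℤ) (m : ℕ), (∀ x ∈ X, x.Out B.S') → E.m₀ X ≤ m →
    T5.IsTwRegular B.s 2 B.k (E.up B X k m)
  reg_down : ∀ (n : QWt) (X : List (Gen F)) (k : ℤ) (m : ℕ), (∀ x ∈ X, x.Out B.S') →
    E.m₀ X ≤ m → T5.IsTwRegular (T5.AdelicAut.id ℚ) 1 ⊤ (E.down B n X k m)
  /-- the member upstairs and THE SUM of the two members downstairs are matched -/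
  matched : ∀ (X : List (Gen F)) (k : ℤ) (m : ℕ), (∀ x ∈ X, x.Out B.S') → E.m₀ X ≤ m →
    IsGlobMatch (B.comp E.𝔫) (E.up B X k m)
      (fun x => E.down B QWt.w0 X k m x + E.down B QWt.w1 X k m x)

end Pre

/-! ## 2. The node and the leaves of the second cut -/

section Leaves

variable (P : EKCond)
variable (F : Type) [Field F] [NumberField F]

/-- **NODE T7.L2Q.1.F0 = PRE over `ℚ` (construction + geometry).**  For a common part and one bad
element the pre-data exist.  See the header and `IsL2QPre732`; mirror of `H893.PreC`. -/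
def PreQC732 : Prop :=
  HasSqrtNegThree F → IsImagQuad F →
    ∀ Φ : HeckeEigensystem F ℂ, A0.IsCuspAdelicSph0 F Φ → ConstOnFibresQ Φ → P F Φ →
      ∀ B : L2QBase962 F, IsL2QBase962 Φ B → ∀ g : G F, B.IsBad g →
        ∃ E : L2QPre732 F, IsL2QPre732 Φ B g E

/-- **LEAF T7.L2Q.1.F1 = EKPROD-UP over `F`.**  The members upstairs are products of two
Eisenstein-killing test functions: `Φ₁ X` and `lsum Hg (regL (o 0) z' H' k m φ₂)`.
Proof: as `H893.EkProdUpC` (only the fields upstairs are used; `ℓ = 2`). -/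
def EkProdUpQC732 : Prop :=
  ∀ (Φ : HeckeEigensystem F ℂ) (B : L2QBase962 F), IsL2QBase962 Φ B →
    ∀ g : G F, B.IsBad g → ∀ E : L2QPre732 F, IsL2QPre732 Φ B g E →
    ∀ (X : List (Gen F)) (k : ℤ) (m : ℕ), (∀ x ∈ X, x.Out B.S') →
      IsEKProd (upI (K' := F) E.𝔫) B.R' (E.up B X k m)

/-- **LEAF T7.L2Q.1.F2 = EKPROD-DOWN over `ℚ`, both types.**  The members downstairs of type `n`
are products of two Eisenstein-killing test functions of type `n`: `F₁ n X` and
`regL u z H k m (f₂ n)`.  Proof: as `H893.EkProdDownC`; the left translates are by elements which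
are trivial at infinity, so the type is preserved. -/
def EkProdDownQC732 : Prop :=
  ∀ (Φ : HeckeEigensystem F ℂ) (B : L2QBase962 F), IsL2QBase962 Φ B →
    ∀ g : G F, B.IsBad g → ∀ E : L2QPre732 F, IsL2QPre732 Φ B g E →
    ∀ (n : QWt) (X : List (Gen F)) (k : ℤ) (m : ℕ), (∀ x ∈ X, x.Out B.S') →
      IsEKProdT n.type E.𝔫 B.R (E.down B n X k m)

/-- **LEAF T7.L2Q.1.F3 = OP-UP over `F`.**
`R(φ' X k m) ψ = X(C) c₁(C) c₂(C) [U g U] Z^k 𝒰^m ψ` on the invariant eigenfunctions of the base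
level, for EVERY choice of the coset systems.  Proof: as `H893.OpUpC`. -/
def OpUpQC732 : Prop :=
  ∀ (Φ : HeckeEigensystem F ℂ) (B : L2QBase962 F), IsL2QBase962 Φ B →
    ∀ g : G F, B.IsBad g → ∀ E : L2QPre732 F, IsL2QPre732 Φ B g E →
    ∀ (X : List (Gen F)) (k : ℤ) (m : ℕ), (∀ x ∈ X, x.Out B.S') →
    ∀ (ψ : G F → ℂ) (C : EigData F), IsEigFn B.𝔑₀ B.R'.r 2 B.o ψ C →
    ∀ (Hg H : Finset (G F)) (z : G F), IsDblCosetSystem B.𝔑₀ g Hg →
      IsIwCosetSystem (B.o 0) H → IsScalarUniformizerAt (B.o 0) z →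
      ∀ x : G F, T5.Rconv B.R'.μ (E.up B X k m) ψ x
        = wordEv X C * (E.c₁ C * E.c₂ C)
          * cosetOp Hg (shiftOp z k ((iwOp (B.o 0) H)^[m] ψ)) x

/-- **LEAF T7.L2Q.1.F4 = KILL-UP over `F`.**  `R(φ' X k m) ψ = 0` for the cusp functions
orthogonal to the invariant ones (`up2_kill`).  Proof: as `H893.KillUpC`. -/
def KillUpQC732 : Prop :=
  ∀ (Φ : HeckeEigensystem F ℂ) (B : L2QBase962 F), IsL2QBase962 Φ B →
    ∀ g : G F, B.IsBad g → ∀ E : L2QPre732 F, IsL2QPre732 Φ B g E →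
    ∀ (X : List (Gen F)) (k : ℤ) (m : ℕ), (∀ x ∈ X, x.Out B.S') →
    ∀ ψ : G F → ℂ, T5.IsCuspFn (upI (K' := F) E.𝔫) T5.trivType B.R'.r ψ →
      (∀ χ : G F → ℂ, IsWFn B.𝔑₀ B.R'.r 2 B.o χ → T5.innerD B.R'.μ B.R'.F ψ χ = 0) →
      ∀ x : G F, T5.Rconv B.R'.μ (E.up B X k m) ψ x = 0

/-- **LEAF T7.L2Q.1.F5 = OP-DOWN over `ℚ`, both types.**
`R(f n X k m) ψ = R(F₁ n X) (Z^k 𝒰^m (R(f₂ n) ψ)) = X(Ĉ) R(f n [] 0 0) (Z^k 𝒰^m ψ)` on the
invariant eigenfunctions of type `n`, `Ĉ` a base change of the eigen-data in the sense of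
`L2Q.IsBCDataQ n` (`dn1_op`, `dn2_class`, `dn2_comm`, `regL u z H 0 0 (f₂ n) = f₂ n`).
Proof: as `H893.OpDownC`. -/
def OpDownQC732 : Prop :=
  ∀ (Φ : HeckeEigensystem F ℂ) (B : L2QBase962 F), IsL2QBase962 Φ B →
    ∀ g : G F, B.IsBad g → ∀ E : L2QPre732 F, IsL2QPre732 Φ B g E →
    ∀ (n : QWt) (X : List (Gen F)) (k : ℤ) (m : ℕ), (∀ x ∈ X, x.Out B.S') →
    ∀ (ψ : G ℚ → ℂ) (c : EigData ℚ) (C : EigData F),
      IsEigFnQ n E.𝔫 B.R.r B.u ψ c → IsBCDataQ n c C B.S →
    ∀ (H : Finset (G ℚ)) (z : G ℚ), IsIwCosetSystem B.u H → IsScalarUniformizerAt B.u z →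
      ∀ x : G ℚ, T5.Rconv B.R.μ (E.down B n X k m) ψ x
        = wordEv X C
          * T5.Rconv B.R.μ (E.down B n [] 0 0) (shiftOp z k ((iwOp B.u H)^[m] ψ)) x

/-- **LEAF T7.L2Q.1.F6 = CLASS-DOWN over `ℚ`, both types.**  `R(f n [] 0 0) = R(F₁ n []) R(f₂ n)`
preserves the eigen-classes of type `n` (`dn1_class`, `dn2_class`).  Proof: as
`H893.ClassDownC`. -/
def ClassDownQC732 : Prop :=
  ∀ (Φ : HeckeEigensystem F ℂ) (B : L2QBase962 F), IsL2QBase962 Φ B →
    ∀ g : G F, B.IsBad g → ∀ E : L2QPre732 F, IsL2QPre732 Φ B g E →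
    ∀ (n : QWt) (ψ : G ℚ → ℂ) (c : EigData ℚ), IsEigFnQ n E.𝔫 B.R.r B.u ψ c →
      IsEigFnQ n E.𝔫 B.R.r B.u (T5.Rconv B.R.μ (E.down B n [] 0 0) ψ) c

/-- **LEAF T7.L2Q.1.F7 = COMM-DOWN over `ℚ`, both types.**  `R(f n [] 0 0)` commutes with the
operators at `u` on the invariant cusp functions of type `n` (`dn1_comm`, `dn2_comm`,
`dn2_wfn`).  Proof: as `H893.CommDownC`. -/
def CommDownQC732 : Prop :=
  ∀ (Φ : HeckeEigensystem F ℂ) (B : L2QBase962 F), IsL2QBase962 Φ B →
    ∀ g : G F, B.IsBad g → ∀ E : L2QPre732 F, IsL2QPre732 Φ B g E →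
    ∀ (n : QWt) (ψ : G ℚ → ℂ), IsWFnQ n E.𝔫 B.R.r B.u ψ →
    ∀ (H : Finset (G ℚ)) (z : G ℚ), IsIwCosetSystem B.u H → IsScalarUniformizerAt B.u z →
      (∀ x : G ℚ, T5.Rconv B.R.μ (E.down B n [] 0 0) (iwOp B.u H ψ) x
        = iwOp B.u H (T5.Rconv B.R.μ (E.down B n [] 0 0) ψ) x) ∧
      ∀ (k : ℤ) (x : G ℚ), T5.Rconv B.R.μ (E.down B n [] 0 0) (shiftOp z k ψ) x
        = shiftOp z k (T5.Rconv B.R.μ (E.down B n [] 0 0) ψ) x

/-- **LEAF T7.L2Q.1.F8 = KILL-DOWN over `ℚ`, both types.**  `R(f n X k m) ψ = 0` for the cusp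
functions of type `n` orthogonal to the invariant ones (`dn2_kill`).  Proof: as
`H893.KillDownC`. -/
def KillDownQC732 : Prop :=
  ∀ (Φ : HeckeEigensystem F ℂ) (B : L2QBase962 F), IsL2QBase962 Φ B →
    ∀ g : G F, B.IsBad g → ∀ E : L2QPre732 F, IsL2QPre732 Φ B g E →
    ∀ (n : QWt) (X : List (Gen F)) (k : ℤ) (m : ℕ), (∀ x ∈ X, x.Out B.S') →
    ∀ ψ : G ℚ → ℂ, T5.IsCuspFn E.𝔫 n.type B.R.r ψ →
      (∀ χ : G ℚ → ℂ, IsWFnQ n E.𝔫 B.R.r B.u χ → T5.innerD B.R.μ B.R.F ψ χ = 0) →
      ∀ x : G ℚ, T5.Rconv B.R.μ (E.down B n X k m) ψ x = 0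

end Leaves

/-! ## Appendix: the equation lemmas of the definitions of this file are realised HERE

The equation lemmas (`eq_1`, `eq_def`, `eq_unfold`) of a definition are generated on demand, in
the module which first uses `unfold` / `rw` / `simp` with it; citing them here generates them
once, upstream of every user (same device as the appendix of `T7/Comparison.lean` v0.1 of
helper797).  No statement is involved. -/

theorem eqns_realised_supplyQFam732 : True := by
  have _h0_0 := @L2QPre732.up.eq_1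
  have _h0_1 := @L2QPre732.up.eq_def
  have _h0_2 := @L2QPre732.up.eq_unfold
  have _h1_0 := @L2QPre732.down.eq_1
  have _h1_1 := @L2QPre732.down.eq_def
  have _h1_2 := @L2QPre732.down.eq_unfold
  have _h2_0 := @L2QPre732.toFam.eq_1
  have _h2_1 := @L2QPre732.toFam.eq_def
  have _h2_2 := @L2QPre732.toFam.eq_unfold
  have _h3_0 := @PreQC732.eq_1
  have _h3_1 := @PreQC732.eq_def
  have _h3_2 := @PreQC732.eq_unfold
  have _h4_0 := @EkProdUpQC732.eq_1
  have _h4_1 := @EkProdUpQC732.eq_def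
  have _h4_2 := @EkProdUpQC732.eq_unfold
  have _h5_0 := @EkProdDownQC732.eq_1
  have _h5_1 := @EkProdDownQC732.eq_def
  have _h5_2 := @EkProdDownQC732.eq_unfold
  have _h6_0 := @OpUpQC732.eq_1
  have _h6_1 := @OpUpQC732.eq_def
  have _h6_2 := @OpUpQC732.eq_unfold
  have _h7_0 := @KillUpQC732.eq_1
  have _h7_1 := @KillUpQC732.eq_def
  have _h7_2 := @KillUpQC732.eq_unfold
  have _h8_0 := @OpDownQC732.eq_1
  have _h8_1 := @OpDownQC732.eq_def
  have _h8_2 := @OpDownQC732.eq_unfold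
  have _h9_0 := @ClassDownQC732.eq_1
  have _h9_1 := @ClassDownQC732.eq_def
  have _h9_2 := @ClassDownQC732.eq_unfold
  have _h10_0 := @CommDownQC732.eq_1
  have _h10_1 := @CommDownQC732.eq_def
  have _h10_2 := @CommDownQC732.eq_unfold
  have _h11_0 := @KillDownQC732.eq_1
  have _h11_1 := @KillDownQC732.eq_def
  have _h11_2 := @KillDownQC732.eq_unfold
  trivial

end Fermat.Agent.LT.T7.H732

end

end
-- ===== PACK-END LT/T7/H732/SupplyQFamSpec.lean

-- ===== PACK-BEGIN LT/T7/H534/WBasisSpec.lean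
section



/-!
# Row LT, tower T7, NODE T7.L2.3.5.4 `SD534.WBasisC` -- THE CUT, level 3 (helper534)

OFF-MAIN.  Definitions and frozen Props; the assembly `wBasisC_of534` is in `WBasisTop.lean`.
No hole, nothing assumed.  ADDITIVE.

    WBasisC K  ⟸  CuspFormC K + V2SubC K + V2BasisC K + IwProjC K + ProjBasisC

Notation: `V₂` = the cusp functions of T2 of level `𝔫` (`InV2` = `T7.IsWFn` for the EMPTY orbit:
invariant under the positive scalars at every infinite place; `T2.isWFn_zero_iff130`),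
`W ⊆ V₂` = the members which are invariant under the Iwahori subgroup at `u` (`InW`).

* `V2SubC`    : `V₂` and its eigen-classes are linear subspaces, `W ⊆ V₂ ⊆ V`.
* `V2BasisC` (tower T2 + the scalar lemma of helper291): an orthonormal sequence of joint
  eigenfunctions, complete in `V₂`, with FINITE classes (per `EigData`, normalised) which
  EXHAUST the eigenfunctions.
* `IwProjC`   : the Iwahori projector `P` = the average over `I_u / U(𝔫)_u`: linear, `V₂ → W`,
  `⟨P ψ, χ⟩ = ⟨ψ, χ⟩` for `χ ∈ W`, and `P` preserves the eigen-data.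
* `ProjBasisC` (MATHLIB ONLY, abstract): an orthonormal sequence with finite classes which is
  complete in `V`, and a projector `P` onto `W` which preserves the class spaces, give an
  orthonormal sequence with finite classes which is complete in `W` and exhausts
  `W ∩ (class space)`.
-/

set_option autoImplicit false
set_option linter.unusedSectionVars false
set_option linter.unusedVariables false

open AutomorphicForm IsDedekindDomain NumberField MeasureTheory
open scoped ComplexConjugate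

noncomputable section

namespace Fermat.Agent.LT.T7.SD534

open Fermat.Agent.LT.H556 Fermat.Agent.LT.H556.A0 Fermat.Agent.LT.T7

attribute [local instance] Fermat.Agent.LT.T5.instMeasurableSpaceG

section Defs

variable {K : Type} [Field K] [NumberField K]

/-- `ψ ∈ V₂`: a cusp function invariant under the positive scalars at every infinite place
(`IsWFn` for the empty orbit; the place `u` is a dummy). -/
def InV2 (𝔫 : Ideal (𝓞 K)) (r : G K) (u : HeightOneSpectrum (𝓞 K)) (ψ : G K → ℂ) : Prop :=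
  IsWFn 𝔫 r 0 (fun _ => u) ψ

/-- `ψ` is a member of `V₂` with joint eigen-data `c`. -/
def InCls2 (𝔫 : Ideal (𝓞 K)) (r : G K) (u : HeightOneSpectrum (𝓞 K)) (c : EigData K)
    (ψ : G K → ℂ) : Prop :=
  IsEigFn 𝔫 r 0 (fun _ => u) ψ c

/-- `V₂` and its classes are linear subspaces; `W ⊆ V₂ ⊆ V`. -/
structure IsV2Sub (𝔫 : Ideal (𝓞 K)) (r : G K) (u : HeightOneSpectrum (𝓞 K)) : Prop where
  zero2 : InV2 𝔫 r u (0 : G K → ℂ)
  add2 : ∀ f f' : G K → ℂ, InV2 𝔫 r u f → InV2 𝔫 r u f' → InV2 𝔫 r u (f + f')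
  smul2 : ∀ (a : ℂ) (f : G K → ℂ), InV2 𝔫 r u f → InV2 𝔫 r u (a • f)
  addC2 : ∀ (c : EigData K) (f f' : G K → ℂ), InCls2 𝔫 r u c f → InCls2 𝔫 r u c f' →
    InCls2 𝔫 r u c (f + f')
  smulC2 : ∀ (c : EigData K) (a : ℂ) (f : G K → ℂ), InCls2 𝔫 r u c f →
    InCls2 𝔫 r u c (a • f)
  w_le : ∀ χ : G K → ℂ, InW 𝔫 r u χ → InV2 𝔫 r u χ

/-- An orthonormal sequence of joint eigenfunctions, complete in `V₂`, with finite classes which
exhaust the eigenfunctions. -/
structure IsV2Basis (μ : Measure (G K)) (F : Set (G K)) (r : G K) (𝔫 : Ideal (𝓞 K))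
    (u : HeightOneSpectrum (𝓞 K)) (v : ℕ → G K → ℂ) (J : Set ℕ) (c : ℕ → EigData K) :
    Prop where
  eig : ∀ j, j ∈ J → InCls2 𝔫 r u (c j) (v j)
  unit : ∀ j, j ∈ J → IsUnitOut 𝔫 (c j)
  norm_one : ∀ j, j ∈ J → T5.innerD μ F (v j) (v j) = 1
  orth : ∀ i, i ∈ J → ∀ j, j ∈ J → i ≠ j → T5.innerD μ F (v i) (v j) = 0
  parseval : ∀ ψ : G K → ℂ, InV2 𝔫 r u ψ →
    HasSum (fun j : J => ‖T5.innerD μ F ψ (v j)‖ ^ 2) (T5.innerD μ F ψ ψ).re
  finite : ∀ j₀, j₀ ∈ J → {j : ℕ | j ∈ J ∧ c j = c j₀}.Finite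
  exhaust : ∀ j₀, j₀ ∈ J → ∀ ψ : G K → ℂ, InCls2 𝔫 r u (c j₀) ψ → ψ ∈ clsSpan v J c (c j₀)

/-- The Iwahori projector. -/
structure IsIwProj (μ : Measure (G K)) (F : Set (G K)) (r : G K) (𝔫 : Ideal (𝓞 K))
    (u : HeightOneSpectrum (𝓞 K)) (P : (G K → ℂ) → (G K → ℂ)) : Prop where
  add : ∀ ψ ψ' : G K → ℂ, P (ψ + ψ') = P ψ + P ψ'
  smul : ∀ (a : ℂ) (ψ : G K → ℂ), P (a • ψ) = a • P ψ
  mem : ∀ ψ : G K → ℂ, InV2 𝔫 r u ψ → InW 𝔫 r u (P ψ)
  inner : ∀ ψ : G K → ℂ, InV2 𝔫 r u ψ → ∀ χ : G K → ℂ, InW 𝔫 r u χ →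
    T5.innerD μ F (P ψ) χ = T5.innerD μ F ψ χ
  cls : ∀ (c : EigData K) (ψ : G K → ℂ), InCls2 𝔫 r u c ψ → InCls 𝔫 r u c (P ψ)

end Defs

/-! ## The leaves -/

section Leaves

variable (K : Type) [Field K] [NumberField K]

/-- **WB.1 SUBSPACES of `V₂`.**  (As `WSubC`, for the empty orbit; `W ⊆ V₂`: an element which is
trivial at every place is in the Iwahori subgroup at `u`.) -/
def V2SubC : Prop :=
  ∀ (𝔫 : Ideal (𝓞 K)) (r : G K) (u : HeightOneSpectrum (𝓞 K)), IsV2Sub 𝔫 r u

/-- **WB.2 = NODE `V₂`-BASIS** (tower T2: `T2.wBasis0_130` of `T2/AdapterW.lean`,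
`exists_natBasis130`, `finite_class130`; and the scalar lemma of helper291: the convolutions by
the approximate identity act on an eigenfunction of the sphere means by a scalar which depends
on the eigen-data only, so the classes PER `EigData` are finite).  The eigen-data are NORMALISED
(`0` at the places dividing `𝔫` and at the radii `d ≤ 0`): same class ⟺ EQUAL data.
Exhaustion: an eigenfunction with the data of a class is orthogonal to the members of the other
classes (`T_v`, `S_v` normal, the means self-adjoint: `T2.OpsAdj`), hence in the span of its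
class (Parseval + definiteness). -/
def V2BasisC : Prop :=
  ∀ (μ : Measure (G K)) (F : Set (G K)) (r : G K) (𝔫 : Ideal (𝓞 K))
    (u : HeightOneSpectrum (𝓞 K)), 𝔫 ≠ ⊥ → T5.IsFrame μ F → T5.IsRayGen r → TotCplx K →
      ∃ (v : ℕ → G K → ℂ) (J : Set ℕ) (c : ℕ → EigData K), IsV2Basis μ F r 𝔫 u v J c

/-- **WB.3 IWAHORI PROJECTOR.**  For `u ∣ 𝔫`: `P ψ = |H₀|⁻¹ ∑_{h ∈ H₀} ψ(· h)`, `H₀` a system of
representatives of `I_u / U(𝔫)_u` (elements at `u`).  `P ψ` is Iwahori invariant; the elements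
at `u` commute with the Hecke operators at `v ∤ 𝔫` and with the means; right translation by
`h ∈ I_u` preserves `⟨ , ⟩` (`transl429`) and fixes `χ ∈ W`. -/
def IwProjC : Prop :=
  ∀ (μ : Measure (G K)) (F : Set (G K)) (r : G K) (𝔫 : Ideal (𝓞 K))
    (u : HeightOneSpectrum (𝓞 K)), 𝔫 ≠ ⊥ → T5.IsFrame μ F → T5.IsRayGen r → u.asIdeal ∣ 𝔫 →
      ∃ P : (G K → ℂ) → (G K → ℂ), IsIwProj μ F r 𝔫 u P

end Leaves

/-- **WB.4 PROJ-BASIS (MATHLIB ONLY, abstract).**  `form` a positive definite hermitian form on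
the subspace `V` of `M` (linear in the FIRST variable), `W ≤ V`, `v` an orthonormal sequence
(index set `J₀`) which is complete in `V`, with finite classes `cl₀`; `P` linear, `P V ⊆ W`,
`form (P x) χ = form x χ` for `x ∈ V`, `χ ∈ W`, and `P` preserves the class spaces
`E a = clsSpan v J₀ cl₀ a`.  Then there is an orthonormal sequence `w` (index set `J`, classes
`cl`) of members of `W ∩ E (cl j)`, complete in `W`, with finite classes, every class of `w` is
a class of `v`, and `W ∩ E a ⊆ clsSpan w J cl a`.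
Proof: `P x = x` on `W` (definiteness); `P` is symmetric on `V`; `E a` is finite dimensional and
`P E a = W ∩ E a`; an orthonormal basis of each `W ∩ E a` (Gram--Schmidt), indexed by a part of
the class `a`; for `χ ∈ W` the component `π_a χ` of `χ` in `E a` lies in `W` (`P π_a χ - π_a χ`
is in `E a` and orthogonal to `E a`); Parseval is regrouped class by class. -/
def ProjBasisC : Prop :=
  ∀ (M : Type) [AddCommGroup M] [Module ℂ M] (form : M → M → ℂ) (V W : Submodule ℂ M)
    (A : Type) (v : ℕ → M) (J₀ : Set ℕ) (cl₀ : ℕ → A) (P : M → M),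
    W ≤ V →
    (∀ x ∈ V, ∀ y ∈ V, ∀ z ∈ V, form (x + y) z = form x z + form y z) →
    (∀ (a : ℂ), ∀ x ∈ V, ∀ y ∈ V, form (a • x) y = a * form x y) →
    (∀ x ∈ V, ∀ y ∈ V, form y x = conj (form x y)) →
    (∀ x ∈ V, 0 ≤ (form x x).re) →
    (∀ x ∈ V, form x x = 0 → x = 0) →
    (∀ j ∈ J₀, v j ∈ V) →
    (∀ j ∈ J₀, form (v j) (v j) = 1) →
    (∀ i ∈ J₀, ∀ j ∈ J₀, i ≠ j → form (v i) (v j) = 0) →
    (∀ ψ ∈ V, HasSum (fun j : J₀ => ‖form ψ (v j)‖ ^ 2) (form ψ ψ).re) →
    (∀ j₀ ∈ J₀, {j : ℕ | j ∈ J₀ ∧ cl₀ j = cl₀ j₀}.Finite) →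
    (∀ x y : M, P (x + y) = P x + P y) →
    (∀ (a : ℂ) (x : M), P (a • x) = a • P x) →
    (∀ x ∈ V, P x ∈ W) →
    (∀ x ∈ V, ∀ χ ∈ W, form (P x) χ = form x χ) →
    (∀ a : A, ∀ x ∈ clsSpan v J₀ cl₀ a, P x ∈ clsSpan v J₀ cl₀ a) →
    ∃ (w : ℕ → M) (J : Set ℕ) (cl : ℕ → A),
      (∀ j ∈ J, w j ∈ W ∧ w j ∈ clsSpan v J₀ cl₀ (cl j)) ∧
      (∀ j ∈ J, ∃ j₀ ∈ J₀, cl₀ j₀ = cl j) ∧
      (∀ j ∈ J, form (w j) (w j) = 1) ∧
      (∀ i ∈ J, ∀ j ∈ J, i ≠ j → form (w i) (w j) = 0) ∧
      (∀ χ ∈ W, HasSum (fun j : J => ‖form χ (w j)‖ ^ 2) (form χ χ).re) ∧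
      (∀ j₁ ∈ J, {j : ℕ | j ∈ J ∧ cl j = cl j₁}.Finite) ∧
      ∀ a : A, ∀ x ∈ W, x ∈ clsSpan v J₀ cl₀ a → x ∈ clsSpan w J cl a

end Fermat.Agent.LT.T7.SD534

end

end
-- ===== PACK-END LT/T7/H534/WBasisSpec.lean

-- ===== PACK-BEGIN LT/T7/H19/MeanBoundQ.lean
section




/-!
# Row LT, tower T7, ASSET for the node `V2BasisQC341` (row 2445): the eigenvalues of the circle
# means of a bounded eigenfunction over `ℚ` have norm `≤ 2π` (helper19)

OFF-MAIN.  ADDITIVE, PROVED, UNCONDITIONAL.  New names only (suffix `19`, namespace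
`Fermat.Agent.LT.T7.H19`).  This is the archimedean half of `SDQ140.IsUnitOutQ`
(`‖c.m w t‖ ≤ 2π`; the other half `(c.m w t).im = 0` is the field `real_m` of
`T2.IsCuspBasisT`).

* `exists_local_real19`: at a real place every real invertible matrix is the component of a local
  element (`T8.H864.locInf` and `ringEquivRealOfIsReal`);
* `exists_circleR0_19`, `exists_circleR1_19`: the families `Y_θ` of `L2Q.MeanEigR0` /
  `L2Q.MeanEigR1` EXIST (so the eigen-equations are not vacuous);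
* `norm_meanEigR0_le19`, `norm_meanEigR1_le19`, **`norm_meanEigQ_le19`**: a bounded function
  `ψ ≠ 0` with `n.MeanEig ψ w m` has `‖m t‖ ≤ 2π` for `t > 0`;
* `norm_meanEigRT_le19`: the same for the `n.type`-twisted circle means of the tower T2.
-/

set_option autoImplicit false
set_option linter.unusedSectionVars false
set_option linter.unusedVariables false

open IsDedekindDomain NumberField MeasureTheory
open Fermat.Agent.LT.H556 Fermat.Agent.LT.H556.A0 Fermat.Agent.LT.H670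

noncomputable section

namespace Fermat.Agent.LT.T7.H19

open Fermat.Agent.LT.T7.L2Q

/-! ## 1. Local elements at a real place -/

section Local

variable {K : Type} [Field K] [NumberField K]

/-- At a real place every invertible real matrix is the component of a local element. -/
theorem exists_local_real19 (w : InfinitePlace K) (hw : w.IsReal) (M : GL (Fin 2) ℝ) :
    ∃ y : G K, IsLocalAtInf w y ∧
      infComp w y = (M : Matrix (Fin 2) (Fin 2) ℝ).map (fun x : ℝ => (x : ℂ)) := by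
  set e := InfinitePlace.Completion.ringEquivRealOfIsReal hw with he
  refine ⟨T8.H864.locInf w (Matrix.GeneralLinearGroup.map e.symm.toRingHom M),
    T8.H864.isLocalAtInf_locInf w _, ?_⟩
  rw [T8.H864.infComp_locInf_self]
  ext i j
  show InfinitePlace.Completion.extensionEmbedding w (e.symm (M i j)) = ((M i j : ℝ) : ℂ)
  rw [← InfinitePlace.Completion.extensionEmbeddingOfIsReal_apply hw]
  congr 1
  exact e.apply_symm_apply (M i j)

end Local

/-! ## 2. The circles exist -/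

/-- The real rotation of angle `α`, convention of QOut. -/
def rotM19 (α : ℝ) : Matrix (Fin 2) (Fin 2) ℝ :=
  !![Real.cos α, Real.sin α; -Real.sin α, Real.cos α]

/-- The real torus element. -/
def torM19 (t : ℝ) : Matrix (Fin 2) (Fin 2) ℝ :=
  !![Real.exp (t / 2), 0; 0, Real.exp (-(t / 2))]

theorem det_rotM19 (α : ℝ) : (rotM19 α).det = 1 := by
  show (!![Real.cos α, Real.sin α; -Real.sin α, Real.cos α] : Matrix (Fin 2) (Fin 2) ℝ).det = 1
  rw [Matrix.det_fin_two_of]
  have := Real.cos_sq_add_sin_sq α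
  nlinarith

theorem det_torM19 (t : ℝ) : (torM19 t).det = 1 := by
  show (!![Real.exp (t / 2), 0; 0, Real.exp (-(t / 2))] : Matrix (Fin 2) (Fin 2) ℝ).det = 1
  rw [Matrix.det_fin_two_of, mul_zero, sub_zero, ← Real.exp_add, add_neg_cancel, Real.exp_zero]

theorem rotM_map19 (α : ℝ) : (rotM19 α).map (fun x : ℝ => (x : ℂ)) = QOut.rotC α := by
  ext i j
  fin_cases i <;> fin_cases j <;> simp [rotM19, QOut.rotC]

theorem torM_map19 (t : ℝ) : (torM19 t).map (fun x : ℝ => (x : ℂ)) = torus t := by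
  ext i j
  fin_cases i <;> fin_cases j <;> simp [torM19, torus]

theorem mul_map19 (A B : Matrix (Fin 2) (Fin 2) ℝ) :
    (A * B).map (fun x : ℝ => (x : ℂ))
      = A.map (fun x : ℝ => (x : ℂ)) * B.map (fun x : ℝ => (x : ℂ)) :=
  Matrix.map_mul (f := Complex.ofRealHom)

/-- The circle of radius `t` in the convention of QOut exists. -/
theorem exists_circleR1_19 (w : InfinitePlace ℚ) (t : ℝ) :
    ∃ Y : ℝ → G ℚ, ∀ θ : ℝ, IsLocalAtInf w (Y θ) ∧ infComp w (Y θ) = QOut.rotC θ * torus t := by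
  have hw : w.IsReal := by
    rw [Subsingleton.elim w Rat.infinitePlace]
    exact Rat.isReal_infinitePlace
  have hdet : ∀ θ : ℝ, (rotM19 θ * torM19 t).det ≠ 0 := by
    intro θ
    rw [Matrix.det_mul, det_rotM19, det_torM19, one_mul]
    exact one_ne_zero
  choose Y hY using fun θ : ℝ =>
    exists_local_real19 w hw (Matrix.GeneralLinearGroup.mkOfDetNeZero _ (hdet θ))
  refine ⟨Y, fun θ => ⟨(hY θ).1, ?_⟩⟩
  rw [(hY θ).2]
  show (rotM19 θ * torM19 t).map (fun x : ℝ => (x : ℂ)) = _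
  rw [mul_map19, rotM_map19, torM_map19]

/-- The circle of radius `t` in the convention of A0 exists. -/
theorem exists_circleR0_19 (w : InfinitePlace ℚ) (t : ℝ) :
    ∃ Y : ℝ → G ℚ, ∀ θ : ℝ, IsLocalAtInf w (Y θ) ∧ infComp w (Y θ) = rotY θ * torus t := by
  obtain ⟨Y, hY⟩ := exists_circleR1_19 w t
  refine ⟨fun θ => Y (-(θ / 2)), fun θ => ⟨(hY _).1, ?_⟩⟩
  rw [(hY _).2, rotY_eq_rotC19]

/-! ## 3. The bound -/

/-- A bounded function `ψ ≠ 0` with `‖c‖ ‖ψ g‖ ≤ 2π C` for every bound `C` of `ψ` has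
`‖c‖ ≤ 2π`. -/
theorem norm_le_of_mean19 {X : Type} (ψ : X → ℂ) (hb : ∃ C : ℝ, ∀ g : X, ‖ψ g‖ ≤ C)
    (hne : ∃ y : X, ψ y ≠ 0) (c : ℂ)
    (h : ∀ C : ℝ, (∀ g : X, ‖ψ g‖ ≤ C) → ∀ g : X, ‖c‖ * ‖ψ g‖ ≤ 2 * Real.pi * C) :
    ‖c‖ ≤ 2 * Real.pi := by
  obtain ⟨C, hC⟩ := hb
  obtain ⟨y, hy⟩ := hne
  have hbdd : BddAbove (Set.range fun g : X => ‖ψ g‖) := ⟨C, by rintro _ ⟨g, rfl⟩; exact hC g⟩
  set S : ℝ := ⨆ g : X, ‖ψ g‖ with hS
  have hle : ∀ g : X, ‖ψ g‖ ≤ S := fun g => le_ciSup hbdd g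
  have hSpos : 0 < S := lt_of_lt_of_le (norm_pos_iff.2 hy) (hle y)
  by_contra hcon
  rw [not_le] at hcon
  have hcpos : 0 < ‖c‖ := lt_trans (by positivity) hcon
  have h1 : ∀ g : X, ‖ψ g‖ ≤ 2 * Real.pi * S / ‖c‖ := by
    intro g
    rw [le_div_iff₀ hcpos, mul_comm]
    exact h S hle g
  have : Nonempty X := ⟨y⟩
  have h2 : S ≤ 2 * Real.pi * S / ‖c‖ := ciSup_le h1
  rw [le_div_iff₀ hcpos] at h2
  have h3 : S * ‖c‖ ≤ S * (2 * Real.pi) := by linarith
  have h4 := le_of_mul_le_mul_left h3 hSpos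
  linarith

/-- **Weight zero**: the eigenvalues of the circle means of a bounded nonzero function have norm
`≤ 2π`. -/
theorem norm_meanEigR0_le19 {ψ : G ℚ → ℂ} (hb : ∃ C : ℝ, ∀ g : G ℚ, ‖ψ g‖ ≤ C)
    (hne : ∃ y : G ℚ, ψ y ≠ 0) {w : InfinitePlace ℚ} {m : ℝ → ℂ} (hm : MeanEigR0 ψ w m)
    {t : ℝ} (ht : 0 < t) : ‖m t‖ ≤ 2 * Real.pi := by
  obtain ⟨Y, hY⟩ := exists_circleR0_19 w t
  refine norm_le_of_mean19 ψ hb hne (m t) (fun C hC g => ?_)
  rw [← norm_mul, ← hm t ht Y hY g]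
  have h := intervalIntegral.norm_integral_le_of_norm_le_const (a := (0 : ℝ))
    (b := 2 * Real.pi) (f := fun θ : ℝ => ψ (g * Y θ)) (C := C) (fun θ _ => hC _)
  have habs : |2 * Real.pi - 0| = 2 * Real.pi := by
    rw [sub_zero, abs_of_pos (by positivity)]
  rw [habs] at h
  linarith

/-- **Weight one**: the eigenvalues of the circle means of a bounded nonzero function have norm
`≤ 2π`. -/
theorem norm_meanEigR1_le19 {ψ : G ℚ → ℂ} (hb : ∃ C : ℝ, ∀ g : G ℚ, ‖ψ g‖ ≤ C)
    (hne : ∃ y : G ℚ, ψ y ≠ 0) {w : InfinitePlace ℚ} {m : ℝ → ℂ} (hm : MeanEigR1 ψ w m)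
    {t : ℝ} (ht : 0 < t) : ‖m t‖ ≤ 2 * Real.pi := by
  obtain ⟨Y, hY⟩ := exists_circleR1_19 w t
  refine norm_le_of_mean19 ψ hb hne (m t) (fun C hC g => ?_)
  rw [← norm_mul, ← hm t ht Y hY g]
  have h := intervalIntegral.norm_integral_le_of_norm_le_const (a := (0 : ℝ))
    (b := 2 * Real.pi)
    (f := fun θ : ℝ => Complex.exp (-(Complex.I * ((θ : ℝ) : ℂ))) * ψ (g * Y θ)) (C := C)
    (fun θ _ => by
      have e : -(Complex.I * ((θ : ℝ) : ℂ)) = ((-θ : ℝ) : ℂ) * Complex.I := by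
        push_cast
        ring
      rw [norm_mul, e, Complex.norm_exp_ofReal_mul_I, one_mul]
      exact hC _)
  have habs : |2 * Real.pi - 0| = 2 * Real.pi := by
    rw [sub_zero, abs_of_pos (by positivity)]
  rw [habs] at h
  linarith

/-- **THE BOUND OF `IsUnitOutQ` AT THE REAL PLACE**, both types. -/
theorem norm_meanEigQ_le19 (n : QWt) {ψ : G ℚ → ℂ} (hb : ∃ C : ℝ, ∀ g : G ℚ, ‖ψ g‖ ≤ C)
    (hne : ∃ y : G ℚ, ψ y ≠ 0) {w : InfinitePlace ℚ} {m : ℝ → ℂ} (hm : n.MeanEig ψ w m)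
    {t : ℝ} (ht : 0 < t) : ‖m t‖ ≤ 2 * Real.pi := by
  cases n with
  | w0 => exact norm_meanEigR0_le19 hb hne hm ht
  | w1 => exact norm_meanEigR1_le19 hb hne hm ht

/-- The bound for the `n.type`-twisted circle means of the tower T2 (cusp functions of the class
`T2.IsCuspT`). -/
theorem norm_meanEigRT_le19 {n : QWt} {𝔫 : Ideal (𝓞 ℚ)} {r : G ℚ} {ψ : G ℚ → ℂ}
    (h : T2.IsCuspT 𝔫 n.type r ψ) (hne : ∃ y : G ℚ, ψ y ≠ 0) {w : InfinitePlace ℚ}
    {m : ℝ → ℂ} (hm : T2.MeanEigRT n.type ψ w m) {t : ℝ} (ht : 0 < t) :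
    ‖m t‖ ≤ 2 * Real.pi :=
  norm_meanEigQ_le19 n h.aut.bdd hne ((meanEigQ_iff_of_cuspT19 h w m).1 hm) ht

end Fermat.Agent.LT.T7.H19

end

end
-- ===== PACK-END LT/T7/H19/MeanBoundQ.lean

-- ===== PACK-BEGIN LT/T7/H622/RconvTorAvg.lean
section


/-!
# Row LT, tower T7, node T7.L2.1, leaf `T7.L2.1.K02` (`RconvTorAvgC`), helper622

OFF-MAIN.  Spec: `LT/T7/H193/KillSpec.lean` (helper193, sha256 2cb0a205), byte-identical copy
with its closure (`ProjSpec.lean` 977a85e3, `T7/Level2.lean`, `T5/Spec.lean`, ...).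

`rconvTorAvgC622 K : H193.RconvTorAvgC K`: `R(φ) (P_∞ e) = R(φ) e` for `φ` absorbing the
positive scalars.

Proof: `R(φ)(P_∞ e)(x) = c ∫_y ∫_{t ∈ D} φ(y) e(x y a(t)) dt dy` with `c = vol(D)⁻¹`; the
integrand is continuous and bounded, and it vanishes for `y` outside the compact support `K₀` of
`φ`; Fubini for the FINITE measures `μ|K₀` and `vol|D`; the inner integral over `y` is
`R(φ) (e(· a(t))) (x) = R(φ) e (x)` (`AbsorbsPos`, `z = a t`); `c · vol(D) = 1`.
(`T1.T1Out` is not used.)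
-/

set_option autoImplicit false

open IsDedekindDomain NumberField MeasureTheory
open scoped ComplexConjugate

noncomputable section

namespace Fermat.Agent.LT.T7.H622

open Fermat.Agent.LT.H556 Fermat.Agent.LT.H556.A0 Fermat.Agent.LT Fermat.Agent.LT.T7.H193

attribute [local instance] Fermat.Agent.LT.T5.instMeasurableSpaceG

/-- **LEAF KILL.2 = RCONV-TOR-AVG.** -/
theorem rconvTorAvgC622 (K : Type) [Field K] [NumberField K] : RconvTorAvgC K := by
  intro _ R hR 𝔑₀ a D hD φ hφc hφs hA e he x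
  have hB : BorelSpace (G K) := ⟨rfl⟩
  have hhaar : R.μ.IsHaarMeasure := hR.frame.haar
  -- the constant
  have hDfin : volume D < ⊤ := hD.bdd.measure_lt_top
  have hDpos : 0 < (volume D).toReal := ENNReal.toReal_pos hD.pos.ne' hDfin.ne
  -- the compact support
  have hK₀c : IsCompact (tsupport φ) := hφs
  have hμK₀ : R.μ (tsupport φ) < ⊤ := hK₀c.measure_lt_top
  have hfin1 : IsFiniteMeasure (R.μ.restrict (tsupport φ)) :=
    ⟨by rw [Measure.restrict_apply_univ]; exact hμK₀⟩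
  have hfin2 : IsFiniteMeasure ((volume : Measure (InfinitePlace K → ℝ)).restrict D) :=
    ⟨by rw [Measure.restrict_apply_univ]; exact hDfin⟩
  -- the integrand
  have hFc : Continuous (Function.uncurry fun (y : G K) (t : InfinitePlace K → ℝ) =>
      φ y * e (x * y * a t)) := by
    have h1 : Continuous fun p : G K × (InfinitePlace K → ℝ) => φ p.1 :=
      hφc.comp continuous_fst
    have h2 : Continuous fun p : G K × (InfinitePlace K → ℝ) => e (x * p.1 * a p.2) :=
      he.cont.comp ((continuous_const.mul continuous_fst).mul (hD.cont.comp continuous_snd))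
    exact h1.mul h2
  obtain ⟨Ce, hCe⟩ := he.bdd
  obtain ⟨Cφ, hCφ⟩ := hφc.bounded_above_of_compact_support hφs
  have hFint : Integrable (Function.uncurry fun (y : G K) (t : InfinitePlace K → ℝ) =>
      φ y * e (x * y * a t))
      ((R.μ.restrict (tsupport φ)).prod ((volume : Measure (InfinitePlace K → ℝ)).restrict D)) := by
    refine Integrable.of_bound hFc.aestronglyMeasurable (Cφ * Ce)
      (Filter.Eventually.of_forall fun p => ?_)
    show ‖φ p.1 * e (x * p.1 * a p.2)‖ ≤ Cφ * Ce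
    rw [norm_mul]
    exact mul_le_mul (hCφ _) (hCe _) (norm_nonneg _) ((norm_nonneg _).trans (hCφ p.1))
  have hswap := integral_integral_swap hFint
  -- vanishing outside the support
  have hvan : ∀ y : G K, y ∉ tsupport φ → φ y = 0 := fun y hy => image_eq_zero_of_notMem_tsupport hy
  -- the inner integral over `y`
  have hinner : ∀ t : InfinitePlace K → ℝ,
      ∫ y in tsupport φ, φ y * e (x * y * a t) ∂(R.μ) = T5.Rconv R.μ φ e x := by
    intro t
    rw [setIntegral_eq_integral_of_forall_compl_eq_zero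
      (fun y hy => by rw [hvan y hy, zero_mul])]
    exact hA (a t) (isPosInf_of_torusData193 hD t) e he x
  -- the chain
  have h1 : T5.Rconv R.μ φ (torAvg a D e) x
      = (((volume D).toReal : ℝ) : ℂ)⁻¹ *
        ∫ y, (∫ t in D, φ y * e (x * y * a t)) ∂(R.μ) := by
    unfold T5.Rconv torAvg
    rw [← integral_const_mul]
    refine integral_congr_ae (Filter.Eventually.of_forall fun y => ?_)
    show φ y * ((((volume D).toReal : ℝ) : ℂ)⁻¹ * ∫ t in D, e (x * y * a t))
      = (((volume D).toReal : ℝ) : ℂ)⁻¹ * ∫ t in D, φ y * e (x * y * a t)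
    rw [integral_const_mul]
    ring
  have h2 : ∫ y, (∫ t in D, φ y * e (x * y * a t)) ∂(R.μ)
      = ∫ y in tsupport φ, (∫ t in D, φ y * e (x * y * a t)) ∂(R.μ) := by
    rw [setIntegral_eq_integral_of_forall_compl_eq_zero]
    intro y hy
    simp only [hvan y hy, zero_mul, integral_zero]
  rw [h1, h2, hswap]
  simp only [hinner]
  rw [setIntegral_const]
  have hreal : (volume : Measure (InfinitePlace K → ℝ)).real D = (volume D).toReal := rfl
  rw [hreal, Complex.real_smul, ← mul_assoc, inv_mul_cancel₀, one_mul]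
  exact_mod_cast hDpos.ne'

end Fermat.Agent.LT.T7.H622

end
end
-- ===== PACK-END LT/T7/H622/RconvTorAvg.lean

-- ===== PACK-BEGIN LT/T7/H440/Null.lean
section




/-!
# Row LT, tower T7, node T7.L2.1 `SupplyC`, leaf KILL.3 = `NullC` (helper440, registry row 2197)

OFF-MAIN.  `nullC440 (K) : H193.NullC K`, unconditional, VERBATIM on `T7/H193/KillSpec.lean` of
helper193 (commit 4a1c7c2bb, sha256 2cb0a205bd364545).  Asset: `T5/H599/Diag.lean` of helper599
(`lintegral_unfold599`, byte-identical copy).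

Proof.  `‖e‖² ` is bounded and continuous, `μ F < ∞`, so `∫_F ‖e‖² = 0` gives `e = 0` almost
everywhere on `F`; `e` is invariant under `γ rⁿ` (`r` is central), so by the unfolding over the
fundamental domain `∫⁻ ‖e‖ dμ = ∑_p ∫⁻_F ‖e‖ dμ = 0`: `e = 0` almost everywhere, hence everywhere
(`e` is continuous and `μ` is a Haar measure).  Then `R(φ) e = 0`.
-/

set_option autoImplicit false

open IsDedekindDomain NumberField MeasureTheory Filter
open scoped ComplexConjugate

noncomputable section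

namespace Fermat.Agent.LT.T7.H440

open Fermat.Agent.LT.H556 Fermat.Agent.LT.H556.A0 Fermat.Agent.LT

attribute [local instance] Fermat.Agent.LT.T5.instMeasurableSpaceG

/-- Right invariance under `r` gives right invariance under the powers of `r`. -/
theorem right_zpow_inv440 {Γ : Type*} [Group Γ] {α : Type*} (e : Γ → α) (r : Γ)
    (h : ∀ x, e (x * r) = e x) (n : ℤ) : ∀ x : Γ, e (x * r ^ n) = e x := by
  refine Int.induction_on n ?_ ?_ ?_
  · intro x
    rw [zpow_zero, mul_one]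
  · intro k ih x
    rw [zpow_add_one, ← mul_assoc, h, ih]
  · intro k ih x
    rw [zpow_sub_one, ← mul_assoc]
    have h1 := h (x * r ^ (-(k : ℤ)) * r⁻¹)
    rw [inv_mul_cancel_right] at h1
    rw [← h1, ih]

theorem nullC440 (K : Type) [Field K] [NumberField K] : H193.NullC K := by
  intro hT1 R hR e hcont hbdd hleft hright hnorm φ x
  have hF := hR.frame
  have := hF.haar
  have : BorelSpace (G K) := ⟨rfl⟩
  -- Step 1: `e = 0` almost everywhere on `F`
  have h1 : ∫ x in R.F, ‖e x‖ ^ 2 ∂(R.μ) = 0 := by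
    have h : T5.innerD R.μ R.F e e = ((∫ x in R.F, ‖e x‖ ^ 2 ∂(R.μ) : ℝ) : ℂ) := by
      unfold T5.innerD
      rw [← integral_complex_ofReal]
      refine integral_congr_ae (Eventually.of_forall fun x => ?_)
      simp only [Complex.mul_conj, Complex.normSq_eq_norm_sq]
    rw [h] at hnorm
    exact_mod_cast hnorm
  obtain ⟨C, hC⟩ := hbdd
  have hint : IntegrableOn (fun x => ‖e x‖ ^ 2) R.F R.μ := by
    refine Measure.integrableOn_of_bounded (M := C ^ 2) hF.finite.ne
      (hcont.norm.pow 2).aestronglyMeasurable ?_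
    refine Eventually.of_forall (fun x => ?_)
    rw [Real.norm_of_nonneg (by positivity)]
    exact pow_le_pow_left₀ (norm_nonneg _) (hC x) 2
  have h2 : (fun x => ‖e x‖ ^ 2) =ᵐ[R.μ.restrict R.F] 0 :=
    (integral_eq_zero_iff_of_nonneg (fun x => by positivity) hint).1 h1
  -- Step 2: unfolding
  have h3 : ∫⁻ z in R.F, ‖e z‖ₑ ∂(R.μ) = 0 := by
    rw [lintegral_eq_zero_iff' hcont.enorm.aemeasurable]
    filter_upwards [h2] with z hz
    have hz' : ‖e z‖ ^ 2 = 0 := hz
    have hz'' : e z = 0 := by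
      have := pow_eq_zero_iff (two_ne_zero) |>.1 hz'
      exact norm_eq_zero.1 this
    simp [hz'']
  have hinv : ∀ (p : T5.H599.Gam599 K) (z : G K), e (T5.H599.iota599 hR.ray p * z) = e z := by
    intro p z
    rw [T5.H599.iota_apply599, mul_assoc, hleft, T5.H599.zpow_commute599 hR.ray]
    exact right_zpow_inv440 e R.r hright _ z
  have h4 : ∫⁻ z, ‖e z‖ₑ ∂(R.μ) = 0 := by
    rw [T5.H599.lintegral_unfold599 hT1.adNorm hF hR.ray]
    have h : ∀ p : T5.H599.Gam599 K,
        ∫⁻ z in R.F, ‖e (T5.H599.iota599 hR.ray p * z)‖ₑ ∂(R.μ) = 0 := by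
      intro p
      simp_rw [hinv p]
      exact h3
    simp only [h, tsum_zero]
  -- Step 3: `e = 0`
  have h5 : e =ᵐ[R.μ] 0 := by
    have h := (lintegral_eq_zero_iff' hcont.enorm.aemeasurable).1 h4
    filter_upwards [h] with z hz
    simpa using hz
  have h6 : e = 0 := (hcont.ae_eq_iff_eq R.μ continuous_zero).1 h5
  -- Step 4
  unfold T5.Rconv
  simp [h6]

end Fermat.Agent.LT.T7.H440

end
end
-- ===== PACK-END LT/T7/H440/Null.lean

-- ===== PACK-BEGIN LT/T7/H646/NatEK.lean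
section



/-!
# Row LT, tower T7, node T7.L2.1 `SupplyC`, sub-station NATURAL, leaf NAT.4 = `NatEKC`
(helper646, registry row 2201) -- OFF-MAIN

`natEKC646 K : H193.NatEKC K`, VERBATIM vs `LT/T7/H193/KillSpec.lean` (sha256 2cb0a205,
helper193@4a1c7c2bb; byte-identical copy of the spec closure).

Proof.  By `NatOpC`, `R(φ♮) Ψ = R(φ) (P_∞ Ψ)`; `P_∞ Ψ = torAvg a D Ψ` is Borel-invariant
(`isBorelInvariantFn_torAvg646`): it is continuous (parametric integral of a jointly continuous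
function over the bounded set `D`, for the finite measure `volume.restrict D` on the compact set
`closure D`; `GL₂(𝔸_K)` is locally compact and second countable by `T1.LocCompC`), the left
invariances pass through the integral, and the ray generator commutes with the central `a t`.
-/

set_option autoImplicit false

open IsDedekindDomain NumberField MeasureTheory

noncomputable section

namespace Fermat.Agent.LT.T7.H646

open Fermat.Agent.LT.H556 Fermat.Agent.LT.H556.A0 Fermat.Agent.LT Fermat.Agent.LT.T7.H193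

attribute [local instance] Fermat.Agent.LT.T5.instMeasurableSpaceG

variable {K : Type} [Field K] [NumberField K]

/-- The mean `P_∞ Ψ` of a continuous function is continuous. -/
theorem continuous_torAvg646 (hLC : T1.LocCompC K) {𝔑 : Ideal (𝓞 K)} {r : G K}
    {a : (InfinitePlace K → ℝ) → G K} {D : Set (InfinitePlace K → ℝ)}
    (hTD : IsTorusData 𝔑 r a D) {Ψ : G K → ℂ} (hΨ : Continuous Ψ) :
    Continuous (torAvg a D Ψ) := by
  obtain ⟨-, hlc, -, hsc⟩ := hLC
  have : LocallyCompactSpace (G K) := hlc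
  have : SecondCountableTopology (G K) := hsc
  have hDfin : volume D < ⊤ := hTD.bdd.measure_lt_top
  have : IsFiniteMeasure (volume.restrict D) := ⟨by
    rw [Measure.restrict_apply_univ]; exact hDfin⟩
  have hcl : IsCompact (closure D) := hTD.bdd.isCompact_closure
  have hunc : Continuous (Function.uncurry fun (g : G K) (t : InfinitePlace K → ℝ) =>
      Ψ (g * a t)) :=
    hΨ.comp (continuous_fst.mul (hTD.cont.comp continuous_snd))
  have h1 : Continuous fun g : G K =>
      ∫ t in closure D, Ψ (g * a t) ∂(volume.restrict D) :=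
    continuous_parametric_integral_of_continuous (μ := volume.restrict D) hunc hcl
  have h2 : (volume.restrict D).restrict (closure D)
      = (volume.restrict D : Measure (InfinitePlace K → ℝ)) := by
    rw [Measure.restrict_restrict isClosed_closure.measurableSet,
      Set.inter_eq_self_of_subset_right subset_closure]
  rw [h2] at h1
  exact continuous_const.mul h1

/-- **`P_∞` preserves the Borel-invariant functions.** -/
theorem isBorelInvariantFn_torAvg646 (hLC : T1.LocCompC K) {𝔑 : Ideal (𝓞 K)} {r : G K}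
    {a : (InfinitePlace K → ℝ) → G K} {D : Set (InfinitePlace K → ℝ)}
    (hTD : IsTorusData 𝔑 r a D) {Ψ : G K → ℂ} (hΨ : T5.IsBorelInvariantFn Ψ) :
    T5.IsBorelInvariantFn (torAvg a D Ψ) := by
  refine ⟨continuous_torAvg646 hLC hTD hΨ.cont, ?_, ?_, ?_⟩
  · intro n x hn g
    unfold torAvg
    congr 1
    refine setIntegral_congr_fun hTD.meas fun t _ => ?_
    show Ψ (n * g * a t) = Ψ (g * a t)
    rw [mul_assoc, hΨ.unip n x hn]
  · intro t a' b ht g
    unfold torAvg
    congr 1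
    refine setIntegral_congr_fun hTD.meas fun s _ => ?_
    show Ψ (T5.ratG t * g * a s) = Ψ (g * a s)
    rw [mul_assoc, hΨ.torus t a' b ht]
  · obtain ⟨ρ, hρ, hρinv⟩ := hΨ.ray
    refine ⟨ρ, hρ, fun g => ?_⟩
    unfold torAvg
    congr 1
    refine setIntegral_congr_fun hTD.meas fun t _ => ?_
    show Ψ (g * ρ * a t) = Ψ (g * a t)
    rw [mul_assoc, ← hTD.central t ρ, ← mul_assoc, hρinv]

/-- **LEAF NAT.4 = NAT-EK** (registry row 2201). -/
theorem natEKC646 (K : Type) [Field K] [NumberField K] : NatEKC K := by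
  intro hT1 hOp R hR 𝔑 r a D hTD φ hφc hφs hEK Ψ hΨ x
  rw [hOp hT1 R hR 𝔑 r a D hTD φ hφc hφs Ψ hΨ.cont x]
  exact hEK (torAvg a D Ψ) (isBorelInvariantFn_torAvg646 hT1.locComp hTD hΨ) x

/-- The leaf has EXACTLY the type of the frozen Prop. -/
example (K : Type) [Field K] [NumberField K] : Fermat.Agent.LT.T7.H193.NatEKC K := natEKC646 K

end Fermat.Agent.LT.T7.H646

end

#print axioms Fermat.Agent.LT.T7.H646.natEKC646

end
-- ===== PACK-END LT/T7/H646/NatEK.lean

-- ===== PACK-BEGIN LT/T7/H117/NatAbsorb.lean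
section


/-!
# Row LT, tower T7, node T7.L2.1 `SupplyC`, sub-station NATURAL, leaf NAT.7 `NatAbsorbC`
# (helper117), OFF-MAIN

    natAbsorbC117 (K) : H193.NatAbsorbC K

`φ♮` absorbs the positive scalars: by `NatOpC`, `R(φ♮) (e(· z)) = R(φ) (P_∞ (e(· z)))`; a
positive scalar at infinity is `z = a s` (an element of `GL₂(𝔸_K)` is determined by its
components, `ext_G117`), and `P_∞ (e(· a s)) = P_∞ e` (`IsTorusData.mean`).
Nothing is assumed beyond the hypotheses of the Prop.
-/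

set_option autoImplicit false
set_option linter.unusedSectionVars false
set_option linter.style.haveILetI false

open IsDedekindDomain NumberField MeasureTheory

noncomputable section

namespace Fermat.Agent.LT.T7.H117

open Fermat.Agent.LT.H556 Fermat.Agent.LT.H556.A0 Fermat.Agent.LT Fermat.Agent.LT.T7.H193

attribute [local instance] Fermat.Agent.LT.T5.instMeasurableSpaceG

variable {K : Type} [Field K] [NumberField K]

/-- An element of `GL₂(𝔸_K)` is determined by its components. -/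
theorem ext_G117 {g h : G K} (hinf : ∀ w : InfinitePlace K, infComp w g = infComp w h)
    (hfin : ∀ v : HeightOneSpectrum (𝓞 K), finComp v g = finComp v h) : g = h := by
  apply Units.ext
  apply Matrix.ext
  intro i j
  refine Prod.ext ?_ ?_
  · funext w
    have := congrFun (congrFun (hinf w) i) j
    exact (InfinitePlace.Completion.extensionEmbedding w).injective this
  · apply IsDedekindDomain.FiniteAdeleRing.ext
    intro v
    exact congrFun (congrFun (hfin v) i) j

/-- A positive scalar at infinity is a member of the torus family. -/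
theorem eq_torus_of_isPosInf117 {𝔑 : Ideal (𝓞 K)} {r : G K}
    {a : (InfinitePlace K → ℝ) → G K} {D : Set (InfinitePlace K → ℝ)}
    (hD : IsTorusData 𝔑 r a D) {z : G K} (hz : IsPosInf z) :
    ∃ s : InfinitePlace K → ℝ, z = a s := by
  choose ρ hρ using hz.2
  refine ⟨fun w => Real.log (ρ w), ext_G117 (fun w => ?_) (fun v => ?_)⟩
  · rw [(hρ w).2, hD.inf, Real.exp_log (hρ w).1]
  · have h1 : finComp v z = 1 := hz.1 v
    have h2 : finComp v (a fun w => Real.log (ρ w)) = 1 := hD.fin _ v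
    rw [h1, h2]

/-- **Leaf NAT.7 `NatAbsorbC`.** -/
theorem natAbsorbC117 (K : Type) [Field K] [NumberField K] : NatAbsorbC K := by
  intro hT1 hOp R hR 𝔑 a D hD φ hφc hφs z hz e he x
  have hez : Continuous (fun y : G K => e (y * z)) :=
    he.cont.comp (continuous_id.mul continuous_const)
  rw [hOp hT1 R hR 𝔑 R.r a D hD φ hφc hφs _ hez x,
    hOp hT1 R hR 𝔑 R.r a D hD φ hφc hφs e he.cont x]
  obtain ⟨s, rfl⟩ := eq_torus_of_isPosInf117 hD hz
  have hfix : torAvg a D (fun y : G K => e (y * a s)) = torAvg a D e := by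
    funext g
    unfold torAvg
    congr 1
    have h := hD.mean e he.aut he.cont g s
    simp_rw [hD.mul, ← mul_assoc] at h
    exact h
  rw [hfix]

end Fermat.Agent.LT.T7.H117

end

end
-- ===== PACK-END LT/T7/H117/NatAbsorb.lean

-- ===== PACK-BEGIN LT/T7/H267/CommDown.lean
section



/-!
# Row LT, tower T7, leaf T7.L2.1.F7 `CommDownC` (helper267)

OFF-MAIN.  `R(f [] 0 0) = R(F₁ []) R(f₂)` commutes with the operators at `u` on the invariant
cusp functions.

* `rconv_conv267` : `R(φ₁ ⋆ φ₂) χ = R(φ₁) (R(φ₂) χ)` for continuous compactly supported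
  `φ₁, φ₂`, a continuous `χ` and a left invariant measure which is finite on compacts (Fubini for
  continuous functions with compact support: no countability is needed).
* `commDownC267 : CommDownC K K'` (frozen Prop of `T7/H893/SupplyFamSpec.lean`).
-/

set_option autoImplicit false

open AutomorphicForm IsDedekindDomain NumberField MeasureTheory
open scoped Pointwise

noncomputable section

namespace Fermat.Agent.LT.T7.H893.H267

open Fermat.Agent.LT.H556 Fermat.Agent.LT.H556.A0 Fermat.Agent.LT.T7 Fermat.Agent.LT.T7.H893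

attribute [local instance] Fermat.Agent.LT.T5.instMeasurableSpaceG

section Fubini

variable {K : Type} [Field K] [NumberField K]

theorem borelSpaceG267 : BorelSpace (G K) := ⟨rfl⟩

attribute [local instance] borelSpaceG267

/-- `R(φ₁ ⋆ φ₂) χ = R(φ₁) (R(φ₂) χ)`. -/
theorem rconv_conv267 (μ : Measure (G K)) [μ.IsMulLeftInvariant] [IsFiniteMeasureOnCompacts μ]
    {φ₁ φ₂ χ : G K → ℂ} (h₁ : Continuous φ₁) (s₁ : HasCompactSupport φ₁)
    (h₂ : Continuous φ₂) (s₂ : HasCompactSupport φ₂) (hχ : Continuous χ) (x : G K) :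
    T5.Rconv μ (T5.conv μ φ₁ φ₂) χ x = T5.Rconv μ φ₁ (T5.Rconv μ φ₂ χ) x := by
  unfold T5.Rconv T5.conv
  have e1 : (fun g : G K => (∫ y, φ₁ y * φ₂ (y⁻¹ * g) ∂μ) * χ (x * g))
      = fun g : G K => ∫ y, φ₁ y * φ₂ (y⁻¹ * g) * χ (x * g) ∂μ := by
    funext g
    rw [integral_mul_const]
  rw [e1]
  have hc : Continuous (Function.uncurry
      (fun (g y : G K) => φ₁ y * φ₂ (y⁻¹ * g) * χ (x * g))) := by
    unfold Function.uncurry
    fun_prop
  have hs : HasCompactSupport (Function.uncurry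
      (fun (g y : G K) => φ₁ y * φ₂ (y⁻¹ * g) * χ (x * g))) := by
    have hK : IsCompact ((tsupport φ₁ * tsupport φ₂) ×ˢ tsupport φ₁) :=
      (s₁.isCompact.mul s₂.isCompact).prod s₁.isCompact
    refine HasCompactSupport.intro hK ?_
    rintro ⟨g, y⟩ hgy
    simp only [Function.uncurry_apply_pair]
    by_cases hy : φ₁ y = 0
    · simp [hy]
    by_cases hg : φ₂ (y⁻¹ * g) = 0
    · simp [hg]
    exfalso
    apply hgy
    refine ⟨?_, subset_tsupport _ hy⟩
    refine ⟨y, subset_tsupport _ hy, y⁻¹ * g, subset_tsupport _ hg, ?_⟩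
    simp
  rw [integral_integral_swap_of_hasCompactSupport hc hs]
  congr 1
  funext y
  have e2 : (fun g : G K => φ₁ y * φ₂ (y⁻¹ * g) * χ (x * g))
      = fun g : G K => φ₁ y * (φ₂ (y⁻¹ * g) * χ (x * g)) := by
    funext g
    ring
  rw [e2, integral_const_mul]
  congr 1
  have e3 := integral_mul_left_eq_self (μ := μ) (fun g : G K => φ₂ (y⁻¹ * g) * χ (x * g)) y
  rw [← e3]
  congr 1
  funext g
  simp [mul_assoc]

end Fubini

section Main

variable (K K' : Type) [Field K] [NumberField K] [Field K'] [NumberField K'] [Algebra K K']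

attribute [local instance] borelSpaceG267

theorem regL_zero267 {K : Type} [Field K] [NumberField K] (w : HeightOneSpectrum (𝓞 K))
    (z : G K) (H : Finset (G K)) (φ : G K → ℂ) : regL w z H 0 0 φ = φ := by
  funext y
  simp [regL, ltr]

theorem continuous_iwOp267 {K : Type} [Field K] [NumberField K] (w : HeightOneSpectrum (𝓞 K))
    (H : Finset (G K)) {ψ : G K → ℂ} (hψ : Continuous ψ) : Continuous (iwOp w H ψ) := by
  unfold iwOp
  refine continuous_const.mul (continuous_finsetSum _ fun h _ => ?_)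
  exact hψ.comp (continuous_id.mul continuous_const)

theorem continuous_shiftOp267 {K : Type} [Field K] [NumberField K] (z : G K) (k : ℤ)
    {ψ : G K → ℂ} (hψ : Continuous ψ) : Continuous (shiftOp z k ψ) := by
  unfold shiftOp
  exact hψ.comp (continuous_id.mul continuous_const)

/-- **LEAF T7.L2.1.F7 = COMM-DOWN.** -/
theorem commDownC267 : CommDownC K K' := by
  intro ℓ Φ B hB g _ E hE ψ hψ H z hH hz
  have hhaar : B.R.μ.IsHaarMeasure := hB.frame.frame.haar
  have t1 := hE.dn1_test [] (by simp)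
  have t2 := hE.dn2_test
  have hdown : E.down B [] 0 0 = T5.conv B.R.μ (E.F₁ []) E.f₂ := by
    unfold L2Pre.down
    rw [regL_zero267]
  -- the factorisation
  have fac : ∀ χ : G K → ℂ, Continuous χ →
      T5.Rconv B.R.μ (E.down B [] 0 0) χ
        = T5.Rconv B.R.μ (E.F₁ []) (T5.Rconv B.R.μ E.f₂ χ) := by
    intro χ hχ
    funext x
    rw [hdown]
    exact rconv_conv267 B.R.μ t1.cont t1.supp t2.cont t2.supp hχ x
  have hψc : Continuous ψ := hψ.cusp.cont
  have hw2 := hE.dn2_wfn ψ hψ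
  have c2 := hE.dn2_comm ψ hψ H z hH hz
  have c1 := hE.dn1_comm _ hw2 H z hH hz
  have fψ := fac ψ hψc
  refine ⟨fun x => ?_, fun k x => ?_⟩
  · rw [fac _ (continuous_iwOp267 B.u H hψc)]
    have e : T5.Rconv B.R.μ E.f₂ (iwOp B.u H ψ) = iwOp B.u H (T5.Rconv B.R.μ E.f₂ ψ) :=
      funext c2.1
    rw [e, c1.1 x, fψ]
  · rw [fac _ (continuous_shiftOp267 z k hψc)]
    have e : T5.Rconv B.R.μ E.f₂ (shiftOp z k ψ) = shiftOp z k (T5.Rconv B.R.μ E.f₂ ψ) :=
      funext (c2.2 k)
    rw [e, c1.2 k x, fψ]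

end Main

end Fermat.Agent.LT.T7.H893.H267

end

end
-- ===== PACK-END LT/T7/H267/CommDown.lean

-- ===== PACK-BEGIN LT/T7/H298/MatchQTop.lean
section




/-!
# Row LT, tower T7, node T7.L2Q.1.H1 `GlobQC732` (registry row 2464, owner helper298):
# THE MATCHING THEOREM OVER `ℚ` -- FIRST CUT, the proved top

OFF-MAIN.  Complete proof, nothing assumed.

    globMatchQ_of298 : IotaQC298 F → UnfoldGC298 ℚ → UnfoldC305 F → TorCommC305 ℚ →
        TorCommC305 F → TwistRepC305 F → EllRegC305 ℚ F → TorHaarC305 ℚ → TorMeasQC298 F →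
        TorCompQC298 F → CutIntQC298 F → GlobMatchQC298 F

The constant of the node is `κ = κ₀ / 2`, `κ₀` the constant of `CutIntQC298`.  Mirror of
`H305.globMatch_of305` (helper305).
-/

set_option autoImplicit false

open AutomorphicForm IsDedekindDomain NumberField MeasureTheory
open scoped ComplexConjugate

noncomputable section

namespace Fermat.Agent.LT.T7.MQ298

open Fermat.Agent.LT.H556 Fermat.Agent.LT.H556.A0 Fermat.Agent.LT.T7 Fermat.Agent.LT.T7.H305

attribute [local instance] Fermat.Agent.LT.T5.instMeasurableSpaceG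

/-- The pure tensor over `ℚ` is additive in the archimedean component. -/
theorem pureQ_add298 (T : Finset (HeightOneSpectrum (𝓞 ℚ)))
    (f₀ : ∀ v : HeightOneSpectrum (𝓞 ℚ), GL (Fin 2) (v.adicCompletion ℚ) → ℂ)
    (F0 F1 : GL (Fin 2) ℝ → ℂ) (h : G ℚ) :
    pureQ298 T f₀ (fun g => F0 g + F1 g) h = pureQ298 T f₀ F0 h + pureQ298 T f₀ F1 h := by
  unfold pureQ298
  by_cases hT : OutT305 T h
  · simp only [if_pos hT]
    ring
  · simp only [if_neg hT, add_zero]

/-- The sum of the two members downstairs is `κ` times the pure tensor with archimedean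
component `F0 + F1`. -/
theorem sum_eq_pureQ298 (T : Finset (HeightOneSpectrum (𝓞 ℚ)))
    (f₀ : ∀ v : HeightOneSpectrum (𝓞 ℚ), GL (Fin 2) (v.adicCompletion ℚ) → ℂ)
    (F0 F1 : GL (Fin 2) ℝ → ℂ) (κ : ℂ) (f0 f1 : G ℚ → ℂ)
    (hf0 : ∀ h : G ℚ, f0 h = κ * pureQ298 T f₀ F0 h)
    (hf1 : ∀ h : G ℚ, f1 h = κ * pureQ298 T f₀ F1 h) :
    (fun x => f0 x + f1 x) = fun h => κ * pureQ298 T f₀ (fun g => F0 g + F1 g) h := by
  funext h
  rw [hf0 h, hf1 h, pureQ_add298]
  ring

variable {F : Type} [Field F] [NumberField F]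

/-- **THE TOP OF THE FIRST CUT over `ℚ`**: global matching from local matching. -/
theorem globMatchQ_of298 (hι : IotaQC298 F) (hU : UnfoldGC298 ℚ) (hU' : UnfoldC305 F)
    (hTc : TorCommC305 ℚ) (hTc' : TorCommC305 F)
    (hRep : TwistRepC305 F) (hEll : EllRegC305 ℚ F) (hHaar : TorHaarC305 ℚ)
    (hMeas : TorMeasQC298 F) (hComp : TorCompQC298 F) (hCut : CutIntQC298 F) :
    GlobMatchQC298 F := by
  intro hF D hD hcyc hl μr hμr μc hμc T₀ hram n m hlev
  obtain ⟨ι, hιD⟩ := hι hF D hD hcyc hl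
  obtain ⟨κ₀, hκ₀, hC⟩ := hCut hF D hD hcyc hl ι hιD μr hμr μc hμc T₀ hram n m hlev
  have hl0 : ((D.l : ℕ) : ℂ) ≠ 0 := by
    exact_mod_cast hcyc.prime.ne_zero
  refine ⟨κ₀ / (D.l : ℂ), div_ne_zero hκ₀ hl0, ?_⟩
  intro T T' hTT hT' φ₀ Φ f₀ F0 F1 hloc φ' f0 f1 hφ' hf0 hf1 htφ' hc0 hs0 hc1 hs1
  obtain ⟨hnorm, hnon⟩ := hC T T' hTT hT' φ₀ Φ f₀ F0 F1 hloc
  have eφ' : φ' = pure305 T' φ₀ Φ := funext hφ'
  have ef : (fun x => f0 x + f1 x)
      = fun h => κ₀ / (D.l : ℂ) * pureQ298 T f₀ (fun g => F0 g + F1 g) h :=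
    sum_eq_pureQ298 T f₀ F0 F1 _ f0 f1 hf0 hf1
  have hκ : κ₀ / (D.l : ℂ) ≠ 0 := div_ne_zero hκ₀ hl0
  have hcont : Continuous (fun x => f0 x + f1 x) := hc0.add hc1
  have hsupp : HasCompactSupport (fun x => f0 x + f1 x) := hs0.add hs1
  constructor
  · intro δ γ hγ hN Fδ Fγ hFδ hFγ
    obtain ⟨δ₁, Fδ₁, hN₁, hFδ₁, hint⟩ :=
      hRep D.R' hD.frame' D.s D.l D.k D.𝔑 hD.cyc hD.aut δ
        (Matrix.GeneralLinearGroup.map (algebraMap ℚ F) γ) hN Fδ hFδ
    rw [← hint φ']
    obtain ⟨μT, μT', hμT, hμT', hlink⟩ := hMeas hF D hD hcyc hl ι hιD δ₁ γ hγ hN₁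
    obtain ⟨β', β, hβ', hβ, hCI⟩ := hnorm δ₁ γ hγ hN₁ μT μT' hμT hμT' hlink
    have hreg := hEll D hD γ hγ
    have e1 := hU' D.R' hD.frame' D.s D.l D.k D.𝔑 hD.cyc hD.aut δ₁
      (by rw [hN₁]; exact hreg.1) φ' htφ' Fδ₁ hFδ₁
      (hTc' D.R' hD.frame' D.s D.l D.k D.𝔑 hD.cyc hD.aut δ₁ (by rw [hN₁]; exact hreg.1))
      μT' hμT' β' (by rw [eφ']; exact hβ')
    have e2 := hU D.R hD.frame (T5.AdelicAut.id ℚ) 1 ⊤ D.𝔫 T5.isCyclicOfDegree_id
      (T5.autPreserves_id D.𝔫 D.R.μ D.R.r) γ hreg.2 (fun x => f0 x + f1 x) hcont hsupp Fγ hFγ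
      (hTc D.R hD.frame (T5.AdelicAut.id ℚ) 1 ⊤ D.𝔫 T5.isCyclicOfDegree_id
        (T5.autPreserves_id D.𝔫 D.R.μ D.R.r) γ hreg.2)
      μT hμT β
      (by rw [ef, supp_const_mul305 _ _ hκ]; exact hβ)
    have e3 := hComp hF D hD hcyc hl ι hιD δ₁ γ hγ hN₁ Fδ₁ Fγ hFδ₁ hFγ μT μT' hμT hμT' hlink
    rw [e1, e2, e3, eφ', hCI, ef, cutInt_const_mul305, ENNReal.toReal_mul]
    simp only [ENNReal.toReal_natCast]
    push_cast
    field_simp
  · intro γ hγ hno Fγ hFγ
    obtain ⟨μT, hμT⟩ := hHaar (T5.AdelicAut.id ℚ) γ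
    obtain ⟨β, hβ, hCI⟩ := hnon γ hγ hno μT hμT
    have hreg := hEll D hD γ hγ
    have e2 := hU D.R hD.frame (T5.AdelicAut.id ℚ) 1 ⊤ D.𝔫 T5.isCyclicOfDegree_id
      (T5.autPreserves_id D.𝔫 D.R.μ D.R.r) γ hreg.2 (fun x => f0 x + f1 x) hcont hsupp Fγ hFγ
      (hTc D.R hD.frame (T5.AdelicAut.id ℚ) 1 ⊤ D.𝔫 T5.isCyclicOfDegree_id
        (T5.autPreserves_id D.𝔫 D.R.μ D.R.r) γ hreg.2)
      μT hμT β
      (by rw [ef, supp_const_mul305 _ _ hκ]; exact hβ)
    rw [e2, ef, cutInt_const_mul305, hCI]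
    simp

end Fermat.Agent.LT.T7.MQ298

end

end
-- ===== PACK-END LT/T7/H298/MatchQTop.lean

-- ===== PACK-BEGIN LT/T7/H139/IotaFixed.lean
section



/-!
# Row LT, tower T7, leaf T7.L2.1.C2.4.4 `IotaFixedC943` (helper139, registry #2523)

OFF-MAIN.  Proves `H943.IotaFixedC943 K K'` VERBATIM: the base change of adeles
`ι = iota943 K K'` has its image in the fixed ring of `σ_𝔸`.

Proof.  Component by component.  Finite `w'`: `w = σ⁻¹ w'`, `SigmaLocC305` gives `s_w`; the
places `w`, `w'` lie over the same place `v` of `K` (`σ` fixes `K`); `s_w ∘ i_{v,w}` and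
`i_{v,w'}` are continuous and agree on the dense subfield `K`.  Infinite `u`: in both cases of
`SigmaLocC305` the two sides are continuous ring homomorphisms `K_v → ℂ` which agree on `K`.
-/

set_option autoImplicit false
set_option linter.unusedSectionVars false

open AutomorphicForm IsDedekindDomain NumberField MeasureTheory
open scoped ComplexConjugate

noncomputable section

namespace Fermat.Agent.LT.T7.H139

open Fermat.Agent.LT.H556 Fermat.Agent.LT.H556.A0 Fermat.Agent.LT.T7 Fermat.Agent.LT.T7.H305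
open Fermat.Agent.LT.T7.H943 Fermat.Agent.LT.A2.H743

variable {K K' : Type} [Field K] [NumberField K] [Field K'] [NumberField K'] [Algebra K K']

/-! ## `σ` fixes `K` -/

theorem sigma_fix139 {D : CompData K K'} (hD : IsCompData D) (k : K) :
    D.s.σ (algebraMap K K' k) = algebraMap K K' k :=
  (hD.cyc.fixed _).mp ((hD.base _).mpr ⟨k, rfl⟩)

/-! ## The place `σ⁻¹ w'` -/

/-- The place `σ⁻¹ w'`. -/
def prePlace139 (s : T5.AdelicAut K') (w' : HeightOneSpectrum (𝓞 K')) :
    HeightOneSpectrum (𝓞 K') where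
  asIdeal := Ideal.comap (NumberField.RingOfIntegers.mapRingEquiv s.σ) w'.asIdeal
  isPrime := Ideal.comap_isPrime _ _
  ne_bot := by
    intro h
    have h2 : Ideal.map (NumberField.RingOfIntegers.mapRingEquiv s.σ)
        (Ideal.comap (NumberField.RingOfIntegers.mapRingEquiv s.σ) w'.asIdeal) = w'.asIdeal :=
      Ideal.map_comap_of_surjective _ (NumberField.RingOfIntegers.mapRingEquiv s.σ).surjective _
    rw [h, Ideal.map_bot] at h2
    exact w'.ne_bot h2.symm

theorem placeRel_prePlace139 (s : T5.AdelicAut K') (w' : HeightOneSpectrum (𝓞 K')) :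
    T5.PlaceRel s (prePlace139 s w') w' :=
  (Ideal.map_comap_of_surjective _
    (NumberField.RingOfIntegers.mapRingEquiv s.σ).surjective _).symm

theorem finUnder_prePlace139 {D : CompData K K'} (hD : IsCompData D)
    (w' : HeightOneSpectrum (𝓞 K')) :
    finUnder743 K K' w' = finUnder743 K K' (prePlace139 D.s w') := by
  apply HeightOneSpectrum.ext
  ext x
  show algebraMap (𝓞 K) (𝓞 K') x ∈ w'.asIdeal ↔
    NumberField.RingOfIntegers.mapRingEquiv D.s.σ (algebraMap (𝓞 K) (𝓞 K') x) ∈ w'.asIdeal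
  have h : NumberField.RingOfIntegers.mapRingEquiv D.s.σ (algebraMap (𝓞 K) (𝓞 K') x)
      = algebraMap (𝓞 K) (𝓞 K') x := by
    apply NumberField.RingOfIntegers.ext
    rw [NumberField.RingOfIntegers.mapRingEquiv_apply]
    exact sigma_fix139 hD (x : K)
  rw [h]

/-! ## Continuity of a valuation preserving isomorphism -/

theorem continuous_of_valued139 {F F' : Type} [Field F] [Field F']
    [Valued F (WithZero (Multiplicative ℤ))] [Valued F' (WithZero (Multiplicative ℤ))]
    (f : F ≃+* F') (hv : ∀ x : F, Valued.v (f x) = Valued.v x) : Continuous f := by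
  rw [continuous_iff_continuousAt]
  intro x t ht
  obtain ⟨c', hc', hsub⟩ := Fermat.Agent.LT.T2.H131.exists_ball_subset_h131 (f x) ht
  have hc : f.symm c' ≠ 0 := by
    intro h0
    apply hc'
    have := congrArg f h0
    rwa [f.apply_symm_apply, map_zero] at this
  have hcv : Valued.v (f.symm c') = Valued.v c' := by
    rw [← hv (f.symm c'), f.apply_symm_apply]
  rw [Filter.mem_map]
  refine Filter.mem_of_superset
    (Fermat.Agent.LT.T2.H131.ball_mem_nhds_h131 x (f.symm c') hc) ?_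
  intro y hy
  apply hsub
  show Valued.v (f y - f x) < Valued.v c'
  rw [← map_sub, hv, ← hcv]
  exact hy

/-! ## The finite places -/

/-- The local map `K_v → K'_w` for a place `w` over `v`. -/
def locAt139 (w : HeightOneSpectrum (𝓞 K')) (v : HeightOneSpectrum (𝓞 K))
    (h : finUnder743 K K' w = v) : v.adicCompletion K →+* w.adicCompletion K' :=
  h ▸ finLoc743 K K' w

theorem locAt139_apply (w : HeightOneSpectrum (𝓞 K')) (a : FiniteAdeleRing (𝓞 K) K)
    (v : HeightOneSpectrum (𝓞 K)) (h : finUnder743 K K' w = v) :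
    locAt139 w v h (a v) = finLoc743 K K' w (a (finUnder743 K K' w)) := by
  subst h
  rfl

theorem continuous_locAt139 (w : HeightOneSpectrum (𝓞 K')) (v : HeightOneSpectrum (𝓞 K))
    (h : finUnder743 K K' w = v) : Continuous (locAt139 w v h) := by
  subst h
  exact continuous_finLoc743 K K' w

theorem locAt139_coe (w : HeightOneSpectrum (𝓞 K')) (v : HeightOneSpectrum (𝓞 K))
    (h : finUnder743 K K' w = v) (k : K) :
    locAt139 w v h (algebraMap K (v.adicCompletion K) k)
      = algebraMap K' (w.adicCompletion K') (algebraMap K K' k) := by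
  subst h
  exact finLoc_coe743 K K' w k

theorem fin_fixed139 (hσ : SigmaLocC305 K') {D : CompData K K'} (hD : IsCompData D)
    (x : Adl K) (w' : HeightOneSpectrum (𝓞 K')) :
    (D.s.σA (iota943 K K' x)).2 w' = (iota943 K K' x).2 w' := by
  obtain ⟨sw, hsw_coe, hsw_val, hsw⟩ :=
    (hσ D.s).1 (prePlace139 D.s w') w' (placeRel_prePlace139 D.s w')
  have h1 : (D.s.σA (iota943 K K' x)).2 w'
      = sw ((iota943 K K' x).2 (prePlace139 D.s w')) := hsw (iota943 K K' x)
  rw [h1]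
  show sw (finLoc743 K K' (prePlace139 D.s w') (x.2 (finUnder743 K K' (prePlace139 D.s w'))))
    = finLoc743 K K' w' (x.2 (finUnder743 K K' w'))
  have hv : finUnder743 K K' w' = finUnder743 K K' (prePlace139 D.s w') :=
    finUnder_prePlace139 hD w'
  rw [← locAt139_apply w' x.2 (finUnder743 K K' (prePlace139 D.s w')) hv]
  have key : (fun c => sw (finLoc743 K K' (prePlace139 D.s w') c))
      = fun c => locAt139 w' (finUnder743 K K' (prePlace139 D.s w')) hv c := by
    refine DenseRange.equalizer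
      ((finUnder743 K K' (prePlace139 D.s w')).denseRange_algebraMap K)
      ((continuous_of_valued139 sw hsw_val).comp (continuous_finLoc743 K K' _))
      (continuous_locAt139 _ _ _) ?_
    funext k
    show sw (finLoc743 K K' (prePlace139 D.s w')
        (algebraMap K ((finUnder743 K K' (prePlace139 D.s w')).adicCompletion K) k))
      = locAt139 w' _ hv (algebraMap K _ k)
    rw [locAt139_coe]
    have h2 := finLoc_coe743 K K' (prePlace139 D.s w') k
    have h3 := hsw_coe (algebraMap K K' k)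
    rw [sigma_fix139 hD] at h3
    exact (congrArg sw h2).trans h3
  exact congrFun key _

/-! ## The infinite places -/

theorem infHom_algebraMap139 (u : InfinitePlace K') (y : K') :
    T5.infHom u (algebraMap K' (Adl K') y) = u.embedding y :=
  InfinitePlace.Completion.extensionEmbedding_coe u ((WithAbs.equiv u.1).symm y)

theorem denseRange_algebraMap_inf139 (v : InfinitePlace K) :
    DenseRange (algebraMap K v.Completion) := by
  have h := InfinitePlace.Completion.denseRange_coe v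
  have h2 : DenseRange ((WithAbs.equiv v.1).symm : K → WithAbs v.1) :=
    (WithAbs.equiv v.1).symm.surjective.denseRange
  exact h.comp h2 (InfinitePlace.Completion.continuous_coe v)

/-- The map `K_v → ℂ` through the place `u` of `K'` over `v`. -/
def infAt139 (u : InfinitePlace K') (v : InfinitePlace K) (h : infUnder743 K K' u = v) :
    v.Completion →+* ℂ :=
  h ▸ ((InfinitePlace.Completion.extensionEmbedding u).comp (infLoc743 K K' u))

theorem infAt139_apply (u : InfinitePlace K') (a : InfiniteAdeleRing K) (v : InfinitePlace K)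
    (h : infUnder743 K K' u = v) :
    infAt139 u v h (a v)
      = InfinitePlace.Completion.extensionEmbedding u
          (infLoc743 K K' u (a (infUnder743 K K' u))) := by
  subst h
  rfl

theorem continuous_infAt139 (u : InfinitePlace K') (v : InfinitePlace K)
    (h : infUnder743 K K' u = v) : Continuous (infAt139 u v h) := by
  subst h
  exact (InfinitePlace.Completion.isometry_extensionEmbedding u).continuous.comp
    (continuous_infLoc743 K K' u)

theorem infAt139_coe (u : InfinitePlace K') (v : InfinitePlace K)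
    (h : infUnder743 K K' u = v) (k : K) :
    infAt139 u v h (algebraMap K v.Completion k) = u.embedding (algebraMap K K' k) := by
  subst h
  show InfinitePlace.Completion.extensionEmbedding u
    (infLoc743 K K' u (algebraMap K (infUnder743 K K' u).Completion k)) = _
  rw [infLoc_coe743]
  exact InfinitePlace.Completion.extensionEmbedding_coe u
    ((WithAbs.equiv u.1).symm (algebraMap K K' k))

theorem infUnder_comap139 {D : CompData K K'} (hD : IsCompData D) (u : InfinitePlace K') :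
    infUnder743 K K' (u.comap (D.s.σ : K' →+* K')) = infUnder743 K K' u := by
  show (u.comap (D.s.σ : K' →+* K')).comap (algebraMap K K') = u.comap (algebraMap K K')
  rw [← InfinitePlace.comap_comp]
  congr 1
  ext k
  exact sigma_fix139 hD k

theorem infHom_iota139 (u : InfinitePlace K') (v : InfinitePlace K)
    (h : infUnder743 K K' u = v) (x : Adl K) :
    T5.infHom u (iota943 K K' x) = infAt139 u v h (x.1 v) := by
  rw [infAt139_apply]
  rfl

theorem inf_fixed139 (hσ : SigmaLocC305 K') {D : CompData K K'} (hD : IsCompData D)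
    (x : Adl K) (u : InfinitePlace K') :
    (D.s.σA (iota943 K K' x)).1 u = (iota943 K K' x).1 u := by
  apply (InfinitePlace.Completion.extensionEmbedding u).injective
  show T5.infHom u (D.s.σA (iota943 K K' x)) = T5.infHom u (iota943 K K' x)
  have hu := infUnder_comap139 hD u
  rw [infHom_iota139 u (infUnder743 K K' u) rfl x]
  rcases (hσ D.s).2 u with h | h
  · rw [h, infHom_iota139 (u.comap (D.s.σ : K' →+* K')) (infUnder743 K K' u) hu x]
    have key : (fun c => infAt139 (u.comap (D.s.σ : K' →+* K')) (infUnder743 K K' u) hu c)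
        = fun c => infAt139 u (infUnder743 K K' u) rfl c := by
      refine DenseRange.equalizer (denseRange_algebraMap_inf139 _)
        (continuous_infAt139 _ _ _) (continuous_infAt139 _ _ _) ?_
      funext k
      show infAt139 _ _ hu (algebraMap K _ k) = infAt139 u _ rfl (algebraMap K _ k)
      rw [infAt139_coe, infAt139_coe]
      have e := h (algebraMap K' (Adl K') (algebraMap K K' k))
      rw [D.s.compat, infHom_algebraMap139, infHom_algebraMap139, sigma_fix139 hD] at e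
      exact e.symm
    exact congrFun key _
  · rw [h, infHom_iota139 (u.comap (D.s.σ : K' →+* K')) (infUnder743 K K' u) hu x]
    have key : (fun c =>
          conj (infAt139 (u.comap (D.s.σ : K' →+* K')) (infUnder743 K K' u) hu c))
        = fun c => infAt139 u (infUnder743 K K' u) rfl c := by
      refine DenseRange.equalizer (denseRange_algebraMap_inf139 _)
        (Complex.continuous_conj.comp (continuous_infAt139 _ _ _))
        (continuous_infAt139 _ _ _) ?_
      funext k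
      show conj (infAt139 _ _ hu (algebraMap K _ k)) = infAt139 u _ rfl (algebraMap K _ k)
      rw [infAt139_coe, infAt139_coe]
      have e := h (algebraMap K' (Adl K') (algebraMap K K' k))
      rw [D.s.compat, infHom_algebraMap139, infHom_algebraMap139, sigma_fix139 hD] at e
      exact e.symm
    exact congrFun key _

/-! ## The leaf -/

variable (K K')

/-- **T7.L2.1.C2.4.4 `IotaFixedC943`**: the image of the base change of adeles is fixed by
`σ_𝔸`. -/
theorem iotaFixedC139 : IotaFixedC943 K K' := by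
  intro hσ D hD _ _ x
  refine Prod.ext ?_ ?_
  · funext u
    exact inf_fixed139 hσ hD x u
  · refine FiniteAdeleRing.ext (R := 𝓞 K') (K := K') fun w' => ?_
    exact fin_fixed139 hσ hD x w'

end Fermat.Agent.LT.T7.H139

end
end
-- ===== PACK-END LT/T7/H139/IotaFixed.lean

-- ===== PACK-BEGIN LT/T7/H115/UnfoldG.lean
section







/-!
# Row LT, tower T7, leaf T7.L2Q.1.H1.1 `UnfoldGC298` (registry row 2601, helper115)

OFF-MAIN.  `unfoldGC115 K : MQ298.UnfoldGC298 K` VERBATIM against the byte-identical copy of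
`LT/T7/H298/MatchQSpec.lean` (helper298@d75774dd1, sha256 53f6570a), UNCONDITIONAL, for every
number field `K` (the application is `K = ℚ`).

`UnfoldGC298 K` is `H305.UnfoldC305 K` for every CONTINUOUS function with COMPACT SUPPORT (no
`K_∞`-type, no level).  The proof is the proof of `unfoldC627` (helper627@90cb8b44e,
`LT/T7/H627/Unfold305.lean`), which uses the test function only through its continuity: Tonelli on
`G(𝔸) × T_𝔸` for the four non-negative parts of `Ψ = twTerm` (`lintegral_cut627`);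
`E_y = {t : t⁻¹ y ∈ Fδ}` is a strict fundamental domain of `Γ = G^σ_δ(K) ⟨r⟩` in `T_𝔸` for every
`y` (`existsUnique_latT584`), so `μT(E_y) = μT(E_1)` (`measure_eq_of_strict627`); the complex
integrals are recovered from the four lower integrals (`integral_eq_of_parts627`).

The module does NOT import `H627/Unfold305.lean` (the auxiliary lemmas are restated with the
suffix `115`), so it can be used with any proof of `UnfoldC305`; conversely
`unfoldC_of_unfoldG115 : UnfoldGC298 K → UnfoldC305 K` and `unfoldC115 K : UnfoldC305 K` are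
recorded.  ADDITIVE: new names only, all suffixed `115`, namespace `Fermat.Agent.LT.T7.H115`.
No equation lemma of an imported definition is realised here (no `unfold` / `simp [def]`).
-/

set_option autoImplicit false
set_option linter.unusedSectionVars false
set_option linter.style.haveILetI false

open AutomorphicForm IsDedekindDomain NumberField MeasureTheory Set
open scoped ComplexConjugate ENNReal

noncomputable section

namespace Fermat.Agent.LT.T7.H115

open Fermat.Agent.LT.H556 Fermat.Agent.LT.H556.A0 Fermat.Agent.LT.T7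
open Fermat.Agent.LT.T7.H305 Fermat.Agent.LT.T7.H584 Fermat.Agent.LT.T7.H627

attribute [local instance] Fermat.Agent.LT.T5.instMeasurableSpaceG

variable {K : Type} [Field K] [NumberField K]

/-- The summand of the twisted kernel is measurable (continuity of `φ` only). -/
theorem measurable_twTerm115 (r : G K) (s : T5.AdelicAut K) (hs : Continuous s.onG)
    {φ : G K → ℂ} (hφ : Continuous φ) (δ : GL (Fin 2) K) :
    Measurable (T5.twTerm r s φ δ) := by
  haveI : BorelSpace (G K) := ⟨rfl⟩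
  have hterm : ∀ m : ℤ, Measurable (fun x : G K => φ (x⁻¹ * T5.ratG δ * s.onG x * r ^ m)) := by
    intro m
    apply Continuous.measurable
    exact hφ.comp (((continuous_inv.mul continuous_const).mul hs).mul continuous_const)
  have h : T5.twTerm r s φ δ = fun x => ∑' m : ℤ, φ (x⁻¹ * T5.ratG δ * s.onG x * r ^ m) := rfl
  rw [h]
  exact Measurable.tsum hterm

/-- The adelic twisted centraliser is closed. -/
theorem isClosed_tA115 [T2Space (G K)] (s : T5.AdelicAut K) (hs : Continuous s.onG)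
    (δ : GL (Fin 2) K) : IsClosed ((tA305 s δ : Subgroup (G K)) : Set (G K)) := by
  have h : ((tA305 s δ : Subgroup (G K)) : Set (G K))
      = {x : G K | x⁻¹ * T5.ratG δ * s.onG x = T5.ratG δ} := rfl
  rw [h]
  exact isClosed_eq ((continuous_inv.mul continuous_const).mul hs) continuous_const

/-- `E_y = {t : t⁻¹ y ∈ Fδ}` is a strict fundamental domain of `Γ` in `T_𝔸`. -/
theorem existsUnique_Ey115 (hN : T1.AdNormC K) (s : T5.AdelicAut K) (𝔫 : Ideal (𝓞 K))
    (μ : Measure (G K)) (r : G K) (hr : T5.IsRayGen r) (hP : T5.AutPreserves s 𝔫 μ r)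
    (hrc : ∀ g : G K, r * g = g * r)
    (δ : GL (Fin 2) K) (Fδ : Set (G K)) (hFδ : T5.IsTwDomain s δ Fδ)
    (hcomm : ∀ x ∈ tA305 s δ, ∀ y ∈ tA305 s δ, x * y = y * x) (y : G K)
    (t : twCentA584 s δ) :
    ∃! γ : latT584 s δ r hrc,
      ((γ : twCentA584 s δ) * t) ∈ {t : twCentA584 s δ | (t : G K)⁻¹ * y ∈ Fδ} := by
  obtain ⟨γ', hγ', huniq⟩ := existsUnique_latT584 s δ r hrc hP.ray hP.rat
    (fun g => existsUnique_zpow_slab584 hN hr g)
    (fun γ g hg => ratG_mul_mem_slab584 hN γ g hg) Fδ hFδ ((t : G K)⁻¹ * y)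
  have key : ∀ γ : latT584 s δ r hrc,
      ((((γ : twCentA584 s δ) * t : twCentA584 s δ) : G K))⁻¹ * y
        = (((γ⁻¹ : latT584 s δ r hrc) : twCentA584 s δ) : G K) * ((t : G K)⁻¹ * y) := by
    intro γ
    have h1 : (((γ : twCentA584 s δ) : G K))⁻¹ ∈ tA305 s δ :=
      (twCentA584 s δ).inv_mem (γ : twCentA584 s δ).2
    have h2 : ((t : G K))⁻¹ ∈ tA305 s δ := (twCentA584 s δ).inv_mem t.2
    have hc := hcomm _ h2 _ h1
    simp only [Subgroup.coe_mul, Subgroup.coe_inv, mul_inv_rev]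
    rw [hc, mul_assoc]
  refine ⟨γ'⁻¹, ?_, ?_⟩
  · show ((((γ'⁻¹ : latT584 s δ r hrc) : twCentA584 s δ) * t : twCentA584 s δ) : G K)⁻¹ * y ∈ Fδ
    rw [key, inv_inv]
    exact hγ'
  · intro γ hγ
    have hγ2 : ((((γ : twCentA584 s δ) * t : twCentA584 s δ) : G K))⁻¹ * y ∈ Fδ := hγ
    rw [key] at hγ2
    have := huniq γ⁻¹ hγ2
    rw [← this, inv_inv]

/-- The lattice `Γ = G^σ_δ(K) ⟨r⟩` in `T_𝔸 = tA305 s δ`. -/
def lat115 (s : T5.AdelicAut K) (δ : GL (Fin 2) K) (r : G K) (hrc : ∀ g : G K, r * g = g * r) :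
    Subgroup (tA305 s δ) :=
  latT584 s δ r hrc

theorem countable_lat115 (s : T5.AdelicAut K) (δ : GL (Fin 2) K) (r : G K)
    (hrc : ∀ g : G K, r * g = g * r) : Countable (lat115 s δ r hrc) :=
  countable_latT584 s δ r hrc

theorem existsUnique_Ey115' (hN : T1.AdNormC K) (s : T5.AdelicAut K) (𝔫 : Ideal (𝓞 K))
    (μ : Measure (G K)) (r : G K) (hr : T5.IsRayGen r) (hP : T5.AutPreserves s 𝔫 μ r)
    (hrc : ∀ g : G K, r * g = g * r)
    (δ : GL (Fin 2) K) (Fδ : Set (G K)) (hFδ : T5.IsTwDomain s δ Fδ)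
    (hcomm : ∀ x ∈ tA305 s δ, ∀ y ∈ tA305 s δ, x * y = y * x) (y : G K)
    (t : tA305 s δ) :
    ∃! γ : lat115 s δ r hrc,
      ((γ : tA305 s δ) * t) ∈ {t : tA305 s δ | (t : G K)⁻¹ * y ∈ Fδ} :=
  existsUnique_Ey115 hN s 𝔫 μ r hr hP hrc δ Fδ hFδ hcomm y t

theorem twTerm_tA_mul115 (r : G K) (s : T5.AdelicAut K) (φ : G K → ℂ) (δ : GL (Fin 2) K)
    (t : tA305 s δ) (x : G K) :
    T5.twTerm r s φ δ ((t : G K) * x) = T5.twTerm r s φ δ x :=
  twTerm_twCentA_mul584 r s φ δ t x

/-- **LEAF Q2.1 = UNFOLD, general form** (continuous `φ`; the compact support is not used),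
VERBATIM. -/
theorem unfoldGC115 (K : Type) [Field K] [NumberField K] : MQ298.UnfoldGC298 K := by
  intro R hR s l k 𝔫 hcyc hP δ hδ φ hφ hφcs Fδ hFδ hcomm μT hμT β hβ
  have hLC := Fermat.Agent.LT.T1.H11.locCompC_h11 K
  have hN := Fermat.Agent.LT.T1.H309.adNormC309 K
  haveI : LocallyCompactSpace (G K) := hLC.2.1
  haveI : T2Space (G K) := hLC.2.2.1
  haveI : SecondCountableTopology (G K) := hLC.2.2.2
  haveI : BorelSpace (G K) := ⟨rfl⟩
  haveI : R.μ.IsHaarMeasure := hR.frame.haar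
  letI mT : MeasurableSpace (tA305 s δ) := borel _
  haveI : BorelSpace (tA305 s δ) := ⟨rfl⟩
  haveI hHaarT : μT.IsHaarMeasure := hμT
  have hclosed := isClosed_tA115 s hP.cont δ
  haveI : SigmaCompactSpace (tA305 s δ) :=
    hclosed.isClosedEmbedding_subtypeVal.sigmaCompactSpace
  have hr := hR.ray
  have hrc := T5.H277.ray_comm277 hr
  haveI : Countable (lat115 s δ R.r hrc) := countable_lat115 s δ R.r hrc
  -- the integrand
  have hΨm : Measurable (T5.twTerm R.r s φ δ) := measurable_twTerm115 R.r s hP.cont hφ δ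
  have hj : Measurable (fun t : tA305 s δ => (t : G K)) := continuous_subtype_val.measurable
  obtain ⟨hβm, hβ0, hβ1⟩ := hβ
  have hβ'm : Measurable fun y : G K => ENNReal.ofReal (β y) :=
    ENNReal.measurable_ofReal.comp hβm
  -- the cut-off in the form of a lower integral
  have hcut : ∀ x, T5.twTerm R.r s φ δ x ≠ 0 →
      ∫⁻ t : tA305 s δ, ENNReal.ofReal (β ((t : G K) * x)) ∂μT = 1 := by
    intro x hx
    have h1 := hβ1 x hx
    have hint : Integrable (fun t : tA305 s δ => β ((t : G K) * x)) μT := by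
      by_contra hni
      rw [integral_undef hni] at h1
      exact zero_ne_one h1
    rw [← ofReal_integral_eq_lintegral_ofReal hint (ae_of_all _ fun t => hβ0 _), h1,
      ENNReal.ofReal_one]
  -- the volume
  have hEy : ∀ y : G K, MeasurableSet {t : tA305 s δ | (t : G K)⁻¹ * y ∈ Fδ} := fun y =>
    (hj.inv.mul measurable_const) hFδ.meas
  have hV : ∀ y : G K, μT {t : tA305 s δ | (t : G K)⁻¹ * y ∈ Fδ} = torVol305 s δ μT Fδ := by
    intro y
    have h := measure_eq_of_strict627 μT (lat115 s δ R.r hrc) (hEy y) (hEy 1)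
      (existsUnique_Ey115' hN s 𝔫 R.μ R.r hr hP hrc δ Fδ hFδ hcomm y)
      (existsUnique_Ey115' hN s 𝔫 R.μ R.r hr hP hrc δ Fδ hFδ hcomm 1)
    rw [h]
    show μT {t : tA305 s δ | (t : G K)⁻¹ * 1 ∈ Fδ} = μT {t : tA305 s δ | ((t : G K))⁻¹ ∈ Fδ}
    simp only [mul_one]
  -- the identity for the four parts
  have hpart : ∀ P : ℂ → ℝ, Measurable P → P 0 = 0 →
      (∀ (z : ℂ) (b : ℝ), P (z * (b : ℂ)) = P z * b) →
      ∫⁻ x, ENNReal.ofReal (P (T5.twTerm R.r s φ δ x)) ∂(R.μ.restrict Fδ)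
        = torVol305 s δ μT Fδ *
          ∫⁻ y, ENNReal.ofReal (P (T5.twTerm R.r s φ δ y * ((β y : ℝ) : ℂ))) ∂(R.μ) := by
    intro P hPm hP0 hPmul
    have hgm : Measurable fun x => ENNReal.ofReal (P (T5.twTerm R.r s φ δ x)) :=
      ENNReal.measurable_ofReal.comp (hPm.comp hΨm)
    have hginv : ∀ (t : tA305 s δ) (x : G K),
        ENNReal.ofReal (P (T5.twTerm R.r s φ δ ((t : G K) * x)))
          = ENNReal.ofReal (P (T5.twTerm R.r s φ δ x)) := fun t x => by
      rw [twTerm_tA_mul115]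
    have h := lintegral_cut627 R.μ μT (fun t : tA305 s δ => (t : G K)) hj hFδ.meas hgm hβ'm
      hginv
    have hL : ∫⁻ x in Fδ, ENNReal.ofReal (P (T5.twTerm R.r s φ δ x)) *
          (∫⁻ t : tA305 s δ, ENNReal.ofReal (β ((t : G K) * x)) ∂μT) ∂(R.μ)
        = ∫⁻ x in Fδ, ENNReal.ofReal (P (T5.twTerm R.r s φ δ x)) ∂(R.μ) := by
      refine lintegral_congr fun x => ?_
      by_cases hx : T5.twTerm R.r s φ δ x = 0
      · rw [hx, hP0]; simp
      · rw [hcut x hx, mul_one]
    rw [hL] at h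
    rw [h]
    simp_rw [hV]
    have hgβ : Measurable fun y : G K =>
        ENNReal.ofReal (P (T5.twTerm R.r s φ δ y)) * ENNReal.ofReal (β y) := hgm.mul hβ'm
    rw [lintegral_mul_const _ hgβ, mul_comm]
    congr 1
    refine lintegral_congr fun y => ?_
    rw [hPmul, ENNReal.ofReal_mul' (hβ0 y)]
  have hm2 : Measurable fun y => T5.twTerm R.r s φ δ y * ((β y : ℝ) : ℂ) :=
    hΨm.mul (Complex.measurable_ofReal.comp hβm)
  exact integral_eq_of_parts627 (R.μ.restrict Fδ) R.μ (torVol305 s δ μT Fδ) hΨm hm2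
    (hpart (fun z => z.re) Complex.measurable_re (by simp) (fun z b => by simp))
    (hpart (fun z => -z.re) Complex.measurable_re.neg (by simp) (fun z b => by simp))
    (hpart (fun z => z.im) Complex.measurable_im (by simp) (fun z b => by simp))
    (hpart (fun z => -z.im) Complex.measurable_im.neg (by simp) (fun z b => by simp))

/-- The cubic leaf `UnfoldC305 K` is a special case of the general form (a test function is
continuous with compact support). -/
theorem unfoldC_of_unfoldG115 (K : Type) [Field K] [NumberField K]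
    (h : MQ298.UnfoldGC298 K) : UnfoldC305 K :=
  fun R hR s l k 𝔫 hcyc hP δ hδ φ hφ Fδ hFδ hcomm μT hμT β hβ =>
    h R hR s l k 𝔫 hcyc hP δ hδ φ hφ.cont hφ.supp Fδ hFδ hcomm μT hμT β hβ

/-- `UnfoldC305 K`, from the general form (spare; the same statement as `unfoldC627`). -/
theorem unfoldC115 (K : Type) [Field K] [NumberField K] : UnfoldC305 K :=
  unfoldC_of_unfoldG115 K (unfoldGC115 K)

end Fermat.Agent.LT.T7.H115

end

end
-- ===== PACK-END LT/T7/H115/UnfoldG.lean

-- ===== PACK-BEGIN LT/T7/H426/TrOp.lean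
section





/-!
# Row LT, tower T7: translation operators on cusp functions (helper426, asset for the leaves
# `OpDown*` of level 2)

OFF-MAIN.  No hole, nothing assumed.  ADDITIVE (new names only, all ending in `426`).

`trOp426 T κ ψ = κ ∑_{t ∈ T} ψ(· t)` for a finite set `T` of elements which are trivial at
infinity: the operators `iwOp w H` and `shiftOp z k` of `T7/Level2.lean` are of this form.  For a
cusp function `ψ` of level `𝔫` and ANY `K_∞`-type `τ` the function `trOp426 T κ ψ` is a cusp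
function of the same level and type as soon as it is right invariant under `U(𝔫)`
(`isCuspFn_trOp426`; cuspidality of finite sums: asset helper886 `T2/H886/CuspAlg.lean`).
The Iwahori operator at a place `u ∣ 𝔫` and the shift by a scalar uniformiser at `u` preserve
the right invariance under `U(𝔫)` and under the Iwahori subgroup at `u`
(`iwOp_levelInv426`, `shiftOp_levelInv426`, `isIwInvAt_shiftOp426`; Iwahori kit of helper83),
and the shift does not depend on the uniformiser on Iwahori-invariant functions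
(`shiftOp_indep426`).
-/

set_option autoImplicit false

open AutomorphicForm IsDedekindDomain NumberField MeasureTheory
open scoped ComplexConjugate

noncomputable section

namespace Fermat.Agent.LT.T7.H426

open Fermat.Agent.LT.H556 Fermat.Agent.LT.H556.A0 Fermat.Agent.LT.T7 Fermat.Agent.LT.H129
  Fermat.Agent.LT.T7.H83

attribute [local instance] Fermat.Agent.LT.T5.instMeasurableSpaceG

variable {K : Type} [Field K] [NumberField K]

/-! ## 1. Commutation -/

/-- An element which is trivial at the finite places commutes with an element which is trivial at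
the infinite places. -/
theorem comm_inf_fin426 {t k : G K} (ht : ∀ w : InfinitePlace K, TrivAtInf w t)
    (hk : ∀ v : HeightOneSpectrum (𝓞 K), TrivAtFin v k) : k * t = t * k := by
  apply G_ext129
  · intro w
    rw [map_mul, map_mul, (trivAtInf_iff129 w t).1 (ht w), mul_one, one_mul]
  · intro v
    rw [map_mul, map_mul, (trivAtFin_iff129 v k).1 (hk v), mul_one, one_mul]

/-! ## 2. The translation operators -/

/-- `ψ ↦ κ ∑_{t ∈ T} ψ(· t)`. -/
def trOp426 (T : Finset (G K)) (κ : ℂ) (ψ : G K → ℂ) : G K → ℂ :=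
  fun x => κ * ∑ t ∈ T, ψ (x * t)

theorem trOp_apply426 (T : Finset (G K)) (κ : ℂ) (ψ : G K → ℂ) (x : G K) :
    trOp426 T κ ψ x = κ * ∑ t ∈ T, ψ (x * t) := rfl

theorem iwOp_eq_trOp426 (w : HeightOneSpectrum (𝓞 K)) (H : Finset (G K)) (ψ : G K → ℂ) :
    iwOp w H ψ = trOp426 H (((Real.sqrt (Ideal.absNorm w.asIdeal : ℝ) : ℝ) : ℂ)⁻¹) ψ := rfl

theorem shiftOp_apply426 (z : G K) (k : ℤ) (ψ : G K → ℂ) (x : G K) :
    shiftOp z k ψ x = ψ (x * z ^ k) := rfl

open scoped Classical in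
theorem shiftOp_eq_trOp426 (z : G K) (k : ℤ) (ψ : G K → ℂ) :
    shiftOp z k ψ = trOp426 {z ^ k} 1 ψ := by
  funext x
  rw [trOp_apply426, Finset.sum_singleton, one_mul]
  rfl

theorem continuous_trOp426 {ψ : G K → ℂ} (hψ : Continuous ψ) (T : Finset (G K)) (κ : ℂ) :
    Continuous (trOp426 T κ ψ) :=
  continuous_const.mul (continuous_finsetSum _ fun t _ => hψ.comp (continuous_mul_const t))

theorem bdd_sum426 {ψ : G K → ℂ} {C : ℝ} (hb : ∀ g, ‖ψ g‖ ≤ C) (T : Finset (G K)) (x : G K) :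
    ‖∑ t ∈ T, ψ (x * t)‖ ≤ T.card * C := by
  refine (norm_sum_le _ _).trans ?_
  calc ∑ t ∈ T, ‖ψ (x * t)‖ ≤ ∑ _t ∈ T, C := Finset.sum_le_sum fun t _ => hb _
    _ = T.card * C := by rw [Finset.sum_const, nsmul_eq_mul]

theorem bdd_trOp426 {ψ : G K → ℂ} (hb : ∃ C : ℝ, ∀ g, ‖ψ g‖ ≤ C) (T : Finset (G K)) (κ : ℂ) :
    ∃ C : ℝ, ∀ g, ‖trOp426 T κ ψ g‖ ≤ C := by
  obtain ⟨C, hC⟩ := hb
  refine ⟨‖κ‖ * (T.card * C), fun g => ?_⟩
  rw [trOp_apply426, norm_mul]
  exact mul_le_mul_of_nonneg_left (bdd_sum426 hC T g) (norm_nonneg _)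

open scoped Classical in
/-- Finite sums of right translates of a continuous bounded cuspidal function are cuspidal. -/
theorem isCuspidalFn_sum426 {ψ : G K → ℂ} (hc : Continuous ψ) {C : ℝ} (hb : ∀ g, ‖ψ g‖ ≤ C)
    (hcusp : IsCuspidalFn ψ) (T : Finset (G K)) :
    IsCuspidalFn (fun x => ∑ t ∈ T, ψ (x * t)) := by
  induction T using Finset.induction_on with
  | empty =>
    have e : (fun x : G K => ∑ t ∈ (∅ : Finset (G K)), ψ (x * t)) = fun _ => (0 : ℂ) := by
      funext x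
      exact Finset.sum_empty
    rw [e]
    exact T2.H886.isCuspidalFn_zero886
  | insert a s ha ih =>
    have e : (fun x : G K => ∑ t ∈ insert a s, ψ (x * t))
        = fun x => ψ (x * a) + ∑ t ∈ s, ψ (x * t) := by
      funext x
      exact Finset.sum_insert ha
    rw [e]
    exact T2.H886.isCuspidalFn_add886 (hc.comp (continuous_mul_const a)) (C := C)
      (fun g => hb _)
      (continuous_finsetSum _ fun t _ => hc.comp (continuous_mul_const t))
      (C' := s.card * C) (fun g => bdd_sum426 hb s g)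
      (T2.H886.isCuspidalFn_shift886 a hcusp) ih

theorem isCuspidalFn_trOp426 {ψ : G K → ℂ} (hc : Continuous ψ) (hb : ∃ C : ℝ, ∀ g, ‖ψ g‖ ≤ C)
    (hcusp : IsCuspidalFn ψ) (T : Finset (G K)) (κ : ℂ) : IsCuspidalFn (trOp426 T κ ψ) := by
  obtain ⟨C, hC⟩ := hb
  exact T2.H886.isCuspidalFn_const_mul886 κ (isCuspidalFn_sum426 hc hC hcusp T)

/-- **Cusp functions are preserved** by the translation operators whose members are trivial at
infinity, as soon as the image is right invariant under the level group. -/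
theorem isCuspFn_trOp426 {𝔫 : Ideal (𝓞 K)} {τ : G K → ℂ} {r : G K} {ψ : G K → ℂ}
    (hr : T5.IsRayGen r) (hψ : T5.IsCuspFn 𝔫 τ r ψ) (T : Finset (G K)) (κ : ℂ)
    (hT : ∀ t ∈ T, ∀ w : InfinitePlace K, TrivAtInf w t)
    (hlev : ∀ u : G K, InLevelGroup 𝔫 u → ∀ g : G K, trOp426 T κ ψ (g * u) = trOp426 T κ ψ g) :
    T5.IsCuspFn 𝔫 τ r (trOp426 T κ ψ) where
  cont := continuous_trOp426 hψ.cont T κ
  bdd := bdd_trOp426 hψ.bdd T κ
  aut :=
    { left_inv := fun γ g => by
        rw [trOp_apply426, trOp_apply426]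
        congr 1
        refine Finset.sum_congr rfl fun t _ => ?_
        rw [mul_assoc]
        exact hψ.aut.left_inv γ (g * t)
      level_inv := hlev
      arch_compact := fun w k hk g => by
        rw [trOp_apply426, trOp_apply426, Finset.mul_sum, Finset.mul_sum, Finset.mul_sum]
        refine Finset.sum_congr rfl fun t ht => ?_
        rw [mul_assoc, comm_inf_fin426 (hT t ht) hk.1.2, ← mul_assoc,
          hψ.aut.arch_compact w k hk (g * t)]
        ring
      ray := fun g => by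
        rw [trOp_apply426, trOp_apply426]
        congr 1
        refine Finset.sum_congr rfl fun t ht => ?_
        rw [mul_assoc, comm_inf_fin426 (hT t ht) hr.1, ← mul_assoc]
        exact hψ.aut.ray (g * t) }
  cuspidal := isCuspidalFn_trOp426 hψ.cont hψ.bdd hψ.cuspidal T κ

/-! ## 3. The level group at a place dividing the level -/

theorem isClosed_lt_one426 (v : HeightOneSpectrum (𝓞 K)) :
    IsClosed {x : v.adicCompletion K | Valued.v x < 1} := by
  have h := AddSubgroup.isClosed_of_isOpen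
    (Valuation.ltAddSubgroup (Valued.v : Valuation (v.adicCompletion K) _) 1) ?_
  · convert h using 1
    ext x
    simp
  · have e : ((Valuation.ltAddSubgroup (Valued.v : Valuation (v.adicCompletion K) _) 1 :
        AddSubgroup (v.adicCompletion K)) : Set (v.adicCompletion K)) = Metric.ball 0 1 := by
      ext x
      simp [Valued.toNormedField.norm_lt_one_iff]
    rw [e]
    exact Metric.isOpen_ball

/-- The closure of an ideal contained in the prime of `u` lies in the maximal ideal at `u`. -/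
theorem val_lt_one_of_mem_idealClosure426 {𝔫 : Ideal (𝓞 K)} {u : HeightOneSpectrum (𝓞 K)}
    (hu : u.asIdeal ∣ 𝔫) {x : u.adicCompletion K} (hx : x ∈ idealClosure 𝔫 u) :
    Valued.v x < 1 := by
  refine closure_minimal ?_ (isClosed_lt_one426 u) hx
  rintro _ ⟨a, ha, rfl⟩
  have key : Valued.v (algebraMap K (u.adicCompletion K) (algebraMap (𝓞 K) K a))
      = u.valuation K (algebraMap (𝓞 K) K a) :=
    HeightOneSpectrum.valuedAdicCompletion_eq_valuation' u _
  show Valued.v (algebraMap K (u.adicCompletion K) (algebraMap (𝓞 K) K a)) < 1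
  rw [key, HeightOneSpectrum.valuation_lt_one_iff_mem]
  exact Ideal.le_of_dvd hu ha

theorem zero_mem_idealClosure426 (𝔫 : Ideal (𝓞 K)) (v : HeightOneSpectrum (𝓞 K)) :
    (0 : v.adicCompletion K) ∈ idealClosure 𝔫 v :=
  subset_closure ⟨0, 𝔫.zero_mem, by simp⟩

/-- `U(𝔫)` lies in the Iwahori subgroup at every place dividing `𝔫`. -/
theorem inIwahori_of_inLevelGroup426 {𝔫 : Ideal (𝓞 K)} {u : HeightOneSpectrum (𝓞 K)}
    (hu : u.asIdeal ∣ 𝔫) {k : G K} (hk : InLevelGroup 𝔫 k) : T5.InIwahori u k := by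
  have key : ∀ M : Matrix (Fin 2) (Fin 2) (u.adicCompletion K),
      (∀ i j, (M - 1) i j ∈ idealClosure 𝔫 u) →
      ∀ i j, M i j ∈ u.adicCompletionIntegers K := by
    intro M hM i j
    have h1 := val_lt_one_of_mem_idealClosure426 hu (hM i j)
    rw [HeightOneSpectrum.mem_adicCompletionIntegers]
    have e : M i j = (M - 1) i j + (1 : Matrix (Fin 2) (Fin 2) (u.adicCompletion K)) i j := by
      simp
    rw [e]
    refine le_trans (Valuation.map_add _ _ _) (max_le h1.le ?_)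
    by_cases hij : i = j
    · subst hij
      simp
    · simp [Matrix.one_apply_ne hij]
  refine ⟨key _ fun i j => (hk.2 u i j).1, key _ fun i j => (hk.2 u i j).2, ?_⟩
  have := val_lt_one_of_mem_idealClosure426 hu (hk.2 u 1 0).1
  simpa using this

theorem finComp_congr426 {v : HeightOneSpectrum (𝓞 K)} {g h : G K}
    (e : finCompHom129 v g = finCompHom129 v h) : finComp v g = finComp v h := by
  rw [← coe_finCompHom129, ← coe_finCompHom129, e]

/-- An element of `U(𝔫)` is the product of its component at `u` and of an element of `U(𝔫)`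
which is trivial at `u`. -/
theorem exists_split426 {𝔫 : Ideal (𝓞 K)} {u : HeightOneSpectrum (𝓞 K)}
    (hu : u.asIdeal ∣ 𝔫) {k : G K} (hk : InLevelGroup 𝔫 k) :
    ∃ a b : G K, k = a * b ∧ IsLocalAtFin u a ∧ T5.InIwahori u a ∧ TrivAtFin u b ∧
      InLevelGroup 𝔫 b := by
  have ha : IsLocalAtFin u (locFin129 u (finCompHom129 u k)) := isLocalAtFin_locFin129 u _
  have ha' := (isLocalAtFin_iff129 u _).1 ha
  refine ⟨locFin129 u (finCompHom129 u k), (locFin129 u (finCompHom129 u k))⁻¹ * k,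
    by group, ha, ?_, ?_, ?_⟩
  · refine inIwahori_congr83 u (g := k) ?_ (inIwahori_of_inLevelGroup426 hu hk)
    rw [finComp_locFin129]
    rfl
  · rw [trivAtFin_iff129, map_mul, map_inv, finCompHom129_locFin129, inv_mul_cancel]
  · refine ⟨fun w => ?_, fun v i j => ?_⟩
    · rw [trivAtInf_iff129, map_mul, map_inv, ha'.1 w, inv_one, one_mul]
      exact (trivAtInf_iff129 w k).1 (hk.1 w)
    · by_cases hv : v = u
      · subst hv
        have e1 : finComp v ((locFin129 v (finCompHom129 v k))⁻¹ * k) = finComp v 1 :=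
          finComp_congr426 (by
            rw [map_mul, map_inv, finCompHom129_locFin129, inv_mul_cancel, map_one])
        have e2 : finComp v ((locFin129 v (finCompHom129 v k))⁻¹ * k)⁻¹ = finComp v 1 :=
          finComp_congr426 (by
            rw [map_inv, map_mul, map_inv, finCompHom129_locFin129, inv_mul_cancel, inv_one,
              map_one])
        have e3 : finComp v (1 : G K) = 1 := (trivAtFin_iff129 v 1).2 (map_one _)
        rw [e1, e2, e3, sub_self]
        exact ⟨zero_mem_idealClosure426 𝔫 v, zero_mem_idealClosure426 𝔫 v⟩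
      · have e1 : finComp v ((locFin129 u (finCompHom129 u k))⁻¹ * k) = finComp v k :=
          finComp_congr426 (by rw [map_mul, map_inv, ha'.2 v hv, inv_one, one_mul])
        have e2 : finComp v ((locFin129 u (finCompHom129 u k))⁻¹ * k)⁻¹ = finComp v k⁻¹ :=
          finComp_congr426 (by
            rw [map_inv, map_mul, map_inv, ha'.2 v hv, inv_one, one_mul, map_inv])
        rw [e1, e2]
        exact hk.2 v i j

/-! ## 4. The Iwahori operator and the shift at a place dividing the level -/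

theorem isIwInvAt_iff426 {u : HeightOneSpectrum (𝓞 K)} {ψ : G K → ℂ} :
    IsIwInv 1 (fun _ => u) ψ ↔ IsIwInvAt u ψ :=
  ⟨fun h => isIwInvAt_of_isIwInv83 (o := fun _ => u) h (j := 0) zero_lt_one,
    fun h a h1 h2 h3 x => h a ⟨h1, fun v' hv' => h2 v' fun _ _ => hv'⟩ (h3 0 zero_lt_one) x⟩

/-- The Iwahori operator at `u ∣ 𝔫` preserves the right invariance under `U(𝔫)` (on
Iwahori-invariant functions). -/
theorem iwOp_levelInv426 {𝔫 : Ideal (𝓞 K)} {u : HeightOneSpectrum (𝓞 K)}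
    (hu : u.asIdeal ∣ 𝔫) {H : Finset (G K)} (hH : IsIwCosetSystem u H) {ψ : G K → ℂ}
    (hlev : ∀ k : G K, InLevelGroup 𝔫 k → ∀ g : G K, ψ (g * k) = ψ g) (hiw : IsIwInvAt u ψ)
    (k : G K) (hk : InLevelGroup 𝔫 k) (g : G K) : iwOp u H ψ (g * k) = iwOp u H ψ g := by
  obtain ⟨a, b, rfl, ha, haI, hb, hbL⟩ := exists_split426 hu hk
  rw [← mul_assoc, iwOp_mul_right83 u (fun h hh => (hH.2.1 h hh).1) hb ψ (g * a)]
  have e : (fun y => ψ (y * b)) = ψ := funext fun y => hlev b hbL y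
  rw [e]
  exact iwOp_isIwInvAt83 u hH hiw a ha haI g

/-- A scalar uniformiser is central. -/
theorem central_of_scalar426 {u : HeightOneSpectrum (𝓞 K)} {z : G K}
    (hz : IsScalarUniformizerAt u z) (g : G K) : Commute z g := by
  obtain ⟨hloc, c, -, hzc⟩ := hz
  rw [isLocalAtFin_iff129] at hloc
  apply G_ext129
  · intro w
    rw [map_mul, map_mul, hloc.1 w, one_mul, mul_one]
  · intro v
    by_cases hv : v = u
    · subst hv
      apply Units.ext
      rw [map_mul, map_mul, Units.val_mul, Units.val_mul, coe_finCompHom129, coe_finCompHom129,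
        hzc]
      ext i j
      rw [Matrix.diagonal_mul, Matrix.mul_diagonal, mul_comm]
    · rw [map_mul, map_mul, hloc.2 v hv, one_mul, mul_one]

theorem shiftOp_mul_right426 {u : HeightOneSpectrum (𝓞 K)} {z : G K}
    (hz : IsScalarUniformizerAt u z) (k : ℤ) (ψ : G K → ℂ) (g h : G K) :
    shiftOp z k ψ (g * h) = ψ (g * z ^ k * h) := by
  show ψ (g * h * z ^ k) = ψ (g * z ^ k * h)
  rw [mul_assoc, ← ((central_of_scalar426 hz h).zpow_left k).eq, ← mul_assoc]

/-- The shift preserves every right invariance. -/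
theorem shiftOp_inv426 {u : HeightOneSpectrum (𝓞 K)} {z : G K}
    (hz : IsScalarUniformizerAt u z) (k : ℤ) {ψ : G K → ℂ} {h : G K}
    (hh : ∀ y : G K, ψ (y * h) = ψ y) (g : G K) :
    shiftOp z k ψ (g * h) = shiftOp z k ψ g := by
  rw [shiftOp_mul_right426 hz, hh]
  rfl

theorem isIwInvAt_shiftOp426 {u : HeightOneSpectrum (𝓞 K)} {z : G K}
    (hz : IsScalarUniformizerAt u z) (k : ℤ) {ψ : G K → ℂ} (hiw : IsIwInvAt u ψ) :
    IsIwInvAt u (shiftOp z k ψ) :=
  fun a ha haI x => shiftOp_inv426 hz k (fun y => hiw a ha haI y) x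

theorem isLocalAtFin_zpow426 {u : HeightOneSpectrum (𝓞 K)} {z : G K} (hz : IsLocalAtFin u z)
    (k : ℤ) : IsLocalAtFin u (z ^ k) := by
  rw [isLocalAtFin_iff129] at *
  exact ⟨fun w => by rw [map_zpow, hz.1 w, one_zpow],
    fun v' hv => by rw [map_zpow, hz.2 v' hv, one_zpow]⟩

theorem inv_zpow_of_inv426 {ψ : G K → ℂ} {e : G K} (he : ∀ y : G K, ψ (y * e) = ψ y) (k : ℤ)
    (y : G K) : ψ (y * e ^ k) = ψ y := by
  induction k using Int.induction_on generalizing y with
  | zero => rw [zpow_zero, mul_one]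
  | succ n ih => rw [zpow_add_one, ← mul_assoc, he, ih]
  | pred n ih =>
    rw [zpow_sub_one, ← mul_assoc, ← he (y * e ^ (-(n : ℤ)) * e⁻¹), inv_mul_cancel_right, ih]

/-- **The shift does not depend on the scalar uniformiser** on Iwahori-invariant functions. -/
theorem shiftOp_indep426 {u : HeightOneSpectrum (𝓞 K)} {z z' : G K}
    (hz : IsScalarUniformizerAt u z) (hz' : IsScalarUniformizerAt u z') {ψ : G K → ℂ}
    (hiw : IsIwInvAt u ψ) (k : ℤ) : shiftOp z k ψ = shiftOp z' k ψ := by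
  have hloc : IsLocalAtFin u (z⁻¹ * z') := isLocalAtFin_mul129 (isLocalAtFin_inv129 hz.1) hz'.1
  obtain ⟨c, hc, hzc⟩ := hz.2
  obtain ⟨c', hc', hzc'⟩ := hz'.2
  have hc0 : c ≠ 0 := by
    intro h
    rw [h, map_zero] at hc
    exact (WithZero.exp_ne_zero).symm hc
  have hmat : ((finCompHom129 u (z⁻¹ * z') : GL (Fin 2) (u.adicCompletion K)) :
      Matrix (Fin 2) (Fin 2) (u.adicCompletion K)) = Matrix.diagonal fun _ => c⁻¹ * c' := by
    have h1 : ((finCompHom129 u z⁻¹ : GL (Fin 2) (u.adicCompletion K)) :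
        Matrix (Fin 2) (Fin 2) (u.adicCompletion K)) = Matrix.diagonal fun _ => c⁻¹ := by
      have h2 : ((finCompHom129 u z⁻¹ : GL (Fin 2) (u.adicCompletion K)) :
          Matrix (Fin 2) (Fin 2) (u.adicCompletion K))
          * (Matrix.diagonal fun _ => c) = 1 := by
        rw [← hzc, ← coe_finCompHom129, ← Units.val_mul, ← map_mul, inv_mul_cancel, map_one]
        rfl
      have h3 : (Matrix.diagonal fun _ : Fin 2 => c) * (Matrix.diagonal fun _ => c⁻¹)
          = (1 : Matrix (Fin 2) (Fin 2) (u.adicCompletion K)) := by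
        rw [Matrix.diagonal_mul_diagonal]
        simp [mul_inv_cancel₀ hc0]
      calc ((finCompHom129 u z⁻¹ : GL (Fin 2) (u.adicCompletion K)) :
            Matrix (Fin 2) (Fin 2) (u.adicCompletion K))
          = ((finCompHom129 u z⁻¹ : GL (Fin 2) (u.adicCompletion K)) :
            Matrix (Fin 2) (Fin 2) (u.adicCompletion K))
              * ((Matrix.diagonal fun _ : Fin 2 => c) * (Matrix.diagonal fun _ => c⁻¹)) := by
            rw [h3, mul_one]
        _ = Matrix.diagonal fun _ => c⁻¹ := by rw [← mul_assoc, h2, one_mul]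
    rw [map_mul, Units.val_mul, h1, coe_finCompHom129, hzc', Matrix.diagonal_mul_diagonal]
  have hval : Valued.v (c⁻¹ * c') = 1 := by
    rw [map_mul, map_inv₀, hc, hc']
    exact inv_mul_cancel₀ WithZero.exp_ne_zero
  have hI : T5.InIwahori u (z⁻¹ * z') := by
    rw [inIwahori_iff83]
    refine ⟨fun i j => ?_, ?_, ?_⟩
    · rw [hmat, Matrix.diagonal_apply]
      split_ifs
      · exact hval.le
      · rw [map_zero]
        exact zero_le_one
    · rw [hmat, Matrix.det_diagonal, Fin.prod_univ_two, map_mul, hval, mul_one]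
    · rw [hmat, Matrix.diagonal_apply_ne _ (by decide), map_zero]
      exact zero_lt_one
  have hcomm : Commute z (z⁻¹ * z') := central_of_scalar426 hz _
  funext x
  show ψ (x * z ^ k) = ψ (x * z' ^ k)
  have e : z' ^ k = z ^ k * (z⁻¹ * z') ^ k := by
    rw [← hcomm.mul_zpow, mul_inv_cancel_left]
  rw [e, ← mul_assoc, inv_zpow_of_inv426 (fun y => hiw _ hloc hI y)]

end Fermat.Agent.LT.T7.H426

end

end
-- ===== PACK-END LT/T7/H426/TrOp.lean

-- ===== PACK-BEGIN LT/T7/H16/OpsAdj.lean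
section




/-!
# Row LT, tower T7, asset (helper16): the operator `[I s I]` is SYMMETRIC on the Iwahori
invariant automorphic functions

OFF-MAIN.  For continuous bounded functions `ψ, χ` on `GL₂(K) ⟨r⟩ \ GL₂(𝔸_K)` which are right
invariant under the Iwahori elements supported at `w`:

* `innerD_J16_left`  : `⟨R(κ) ψ, χ⟩ = ⟨R(s) ψ, χ⟩` for `κ` supported at `w`, `κ ∈ GL₂(𝒪) \ I`;
* `innerD_J16_right` : `⟨ψ, R(κ) χ⟩ = ⟨R(s) ψ, χ⟩` for such `κ`;
* `cosetOp_symm16`   : `⟨cosetOp Hs ψ, χ⟩ = ⟨ψ, cosetOp Hs χ⟩` for a finite set `Hs` of such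
  elements (ANY finite set: no count, no completeness);
* `innerD_translate16` : `⟨R(h) ψ, R(h) χ⟩ = ⟨ψ, χ⟩`.
-/

set_option autoImplicit false

open IsDedekindDomain NumberField MeasureTheory WithZero
open scoped ComplexConjugate

noncomputable section

namespace Fermat.Agent.LT.T7.H16

open Fermat.Agent.LT.H556.A0 Fermat.Agent.LT.T5 Fermat.Agent.LT.H129 Fermat.Agent.LT.T7

attribute [local instance] Fermat.Agent.LT.T5.instMeasurableSpaceG

variable {K : Type} [Field K] [NumberField K]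

variable {μ : Measure (G K)} {F : Set (G K)} {r : G K} {w : HeightOneSpectrum (𝓞 K)}
  {ψ χ : G K → ℂ}

theorem innerD_translate16 (hN : T1.AdNormC K) (hF : IsFrame μ F) (hr : IsRayGen r)
    (hψ : IsAutBdd16 r ψ) (hχ : IsAutBdd16 r χ) (h : G K) :
    innerD μ F (fun x => ψ (x * h)) (fun x => χ (x * h)) = innerD μ F ψ χ :=
  T7.H277.innerD_mul_right277 hN hF hr hψ.cont hχ.cont hψ.bdd hχ.bdd hψ.left_inv hχ.left_inv
    hψ.ray hχ.ray h

theorem weylG16_mul_self (w : HeightOneSpectrum (𝓞 K)) : weylG16 w * weylG16 w = 1 := by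
  refine eq_of_local16 (isLocalAtFin_mul129 (isLocalAtFin_locOf16 w _ _)
    (isLocalAtFin_locOf16 w _ _)) (isLocalAtFin_one129 w) ?_
  rw [finComp_mul16, finComp_one16]
  unfold weylG16
  rw [finComp_locOf16, Matrix.mul_fin_two]
  ext i j
  fin_cases i <;> fin_cases j <;> simp

theorem innerD_J16_left (hN : T1.AdNormC K) (hF : IsFrame μ F) (hr : IsRayGen r)
    (hψ : IsAutBdd16 r ψ) (hχ : IsAutBdd16 r χ)
    (hIψ : ∀ k : G K, IsLocalAtFin w k → InIwahori w k → ∀ x : G K, ψ (x * k) = ψ x)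
    (hIχ : ∀ k : G K, IsLocalAtFin w k → InIwahori w k → ∀ x : G K, χ (x * k) = χ x)
    {κ : G K} (hκ : IsLocalAtFin w κ) (hJ : IsJ16 (vw16 w) (finComp w κ)) :
    innerD μ F (fun x => ψ (x * κ)) χ = innerD μ F (fun x => ψ (x * weylG16 w)) χ := by
  obtain ⟨n, b, hn, hb, e⟩ := bruhat16 hJ
  set kn : G K := locOf16 w n (det_ne_zero16 hn.1) with hkn
  set kb : G K := locOf16 w b (det_ne_zero16 hb.1) with hkb
  have hknL : IsLocalAtFin w kn := isLocalAtFin_locOf16 w _ _
  have hkbL : IsLocalAtFin w kb := isLocalAtFin_locOf16 w _ _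
  have hknI : InIwahori w kn := by
    rw [inIwahori_iff16, hkn, finComp_locOf16]
    exact hn
  have hkbI : InIwahori w kb := by
    rw [inIwahori_iff16, hkb, finComp_locOf16]
    exact hb
  have hκe : κ = kn * weylG16 w * kb := by
    refine eq_of_local16 hκ (isLocalAtFin_mul129 (isLocalAtFin_mul129 hknL
      (isLocalAtFin_locOf16 w _ _)) hkbL) ?_
    rw [finComp_mul16, finComp_mul16, hkn, hkb, finComp_locOf16, finComp_locOf16]
    unfold weylG16
    rw [finComp_locOf16]
    exact e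
  have h1 : (fun x => ψ (x * κ)) = fun x => ψ (x * (kn * weylG16 w)) := by
    funext x
    rw [hκe, ← mul_assoc, hIψ kb hkbL hkbI]
  have h2 := innerD_translate16 hN hF hr (hψ.translate hr (kn * weylG16 w)) hχ kn⁻¹
  have h3 : (fun x => ψ (x * kn⁻¹ * (kn * weylG16 w))) = fun x => ψ (x * weylG16 w) := by
    funext x
    congr 1
    group
  have h4 : (fun x => χ (x * kn⁻¹)) = χ := by
    funext x
    exact hIχ kn⁻¹ (isLocalAtFin_inv129 hknL) (inIwahori_inv16 w hknI) x
  rw [h1, ← h2]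
  simp only [h3, h4]

theorem innerD_J16_right (hN : T1.AdNormC K) (hF : IsFrame μ F) (hr : IsRayGen r)
    (hψ : IsAutBdd16 r ψ) (hχ : IsAutBdd16 r χ)
    (hIψ : ∀ k : G K, IsLocalAtFin w k → InIwahori w k → ∀ x : G K, ψ (x * k) = ψ x)
    (hIχ : ∀ k : G K, IsLocalAtFin w k → InIwahori w k → ∀ x : G K, χ (x * k) = χ x)
    {κ : G K} (hκ : IsLocalAtFin w κ) (hJ : IsJ16 (vw16 w) (finComp w κ)) :
    innerD μ F ψ (fun x => χ (x * κ)) = innerD μ F (fun x => ψ (x * weylG16 w)) χ := by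
  have h1 := innerD_J16_left hN hF hr hχ hψ hIχ hIψ hκ hJ
  have h2 : innerD μ F ψ (fun x => χ (x * κ)) = innerD μ F ψ (fun x => χ (x * weylG16 w)) := by
    rw [← innerD_conj16, h1, innerD_conj16]
  have h3 := innerD_translate16 hN hF hr hψ (hχ.translate hr (weylG16 w)) (weylG16 w)
  have h4 : (fun x => χ (x * weylG16 w * weylG16 w)) = χ := by
    funext x
    rw [mul_assoc, weylG16_mul_self, mul_one]
  rw [h2, ← h3]
  simp only [h4]

/-- **`[I s I]` is symmetric** (any finite set of elements of `GL₂(𝒪) \ I` supported at `w`). -/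
theorem cosetOp_symm16 (hN : T1.AdNormC K) (hF : IsFrame μ F) (hr : IsRayGen r)
    (hψ : IsAutBdd16 r ψ) (hχ : IsAutBdd16 r χ)
    (hIψ : ∀ k : G K, IsLocalAtFin w k → InIwahori w k → ∀ x : G K, ψ (x * k) = ψ x)
    (hIχ : ∀ k : G K, IsLocalAtFin w k → InIwahori w k → ∀ x : G K, χ (x * k) = χ x)
    (Hs : Finset (G K))
    (hHs : ∀ h ∈ Hs, IsLocalAtFin w h ∧ IsJ16 (vw16 w) (finComp w h)) :
    innerD μ F (cosetOp Hs ψ) χ = innerD μ F ψ (cosetOp Hs χ) := by
  have e1 : innerD μ F (cosetOp Hs ψ) χ = ∑ h ∈ Hs, innerD μ F (fun x => ψ (x * h)) χ :=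
    innerD_sum_left16 hF.finite Hs (fun h x => ψ (x * h))
      (fun h _ => ⟨(hψ.translate hr h).cont, (hψ.translate hr h).bdd⟩) hχ.cont hχ.bdd
  have e2 : innerD μ F ψ (cosetOp Hs χ) = ∑ h ∈ Hs, innerD μ F ψ (fun x => χ (x * h)) :=
    innerD_sum_right16 hF.finite Hs (fun h x => χ (x * h))
      (fun h _ => ⟨(hχ.translate hr h).cont, (hχ.translate hr h).bdd⟩) hψ.cont hψ.bdd
  rw [e1, e2]
  refine Finset.sum_congr rfl fun h hh => ?_
  rw [innerD_J16_left hN hF hr hψ hχ hIψ hIχ (hHs h hh).1 (hHs h hh).2,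
    innerD_J16_right hN hF hr hψ hχ hIψ hIχ (hHs h hh).1 (hHs h hh).2]

/-- The elements with component `[[a, 1], [1, 0]]`, `a` integral, lie in `GL₂(𝒪) \ I`. -/
theorem isJ16_weylRep {F' : Type*} [Field F'] {v : Valuation F' ℤᵐ⁰} {a : F'} (ha : v a ≤ 1) :
    IsJ16 v !![a, 1; 1, 0] := by
  refine ⟨⟨fun i j => ?_, ?_⟩, ?_⟩
  · fin_cases i <;> fin_cases j
    · exact ha
    · show v (1 : F') ≤ 1
      rw [map_one]
    · show v (1 : F') ≤ 1
      rw [map_one]
    · show v (0 : F') ≤ 1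
      rw [map_zero]
      exact zero_le_one
  · rw [Matrix.det_fin_two_of]
    simp
  · show v (1 : F') = 1
    exact map_one v

/-- The invariance of a member of `IsIwInv` under the Iwahori elements supported at a place of
the orbit. -/
theorem iwInv_local16 {l : ℕ} {o : ℕ → HeightOneSpectrum (𝓞 K)} (hiw : IsIwInv l o ψ)
    {i : ℕ} (hi : i < l) (hw : w = o i) :
    ∀ k : G K, IsLocalAtFin w k → InIwahori w k → ∀ x : G K, ψ (x * k) = ψ x := by
  intro k hk hkI x
  refine hiw k hk.1 (fun v hv => hk.2 v ?_) (fun j _ => ?_) x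
  · rw [hw]
    exact hv i hi
  · exact inIwahori_all_of_local16 hk hkI (o j)

end Fermat.Agent.LT.T7.H16

end

end
-- ===== PACK-END LT/T7/H16/OpsAdj.lean

-- ===== PACK-BEGIN LT/T7/H826/GeomQ.lean
section





/-!
# Row LT, tower T7, row 2150 (helper826): leaf `L2Q.GeomQC` (class bijection over `ℚ`, two
# types) -- OFF-MAIN

PROVED: `geomQC826 (F) : Fermat.Agent.LT.T7.L2Q.GeomQC F`, VERBATIM the Prop of
`LT/T7/H826/Level2Q.lean`, UNCONDITIONAL.

Route: the proof `geomC277` of helper277 (`LT/T7/H277/Geom.lean`, byte-identical copy) for the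
function `f = f₀ + f₁`, with ONE new step: the two unfolded sums downstairs are added class by
class (`finsum_add_distrib`, the supports are finite by `T5.GeomUnfold`; `twTerm` is additive on
compactly supported functions: `H277.twTerm_add277`, asset of helper277); `f₀ + f₁` is regular
because `f₀` and `f₁` are.
-/

set_option autoImplicit false
open IsDedekindDomain NumberField MeasureTheory
open scoped MatrixGroups

noncomputable section
namespace Fermat.Agent.LT.T7.L2Q

open Fermat.Agent.LT.H556.A0 Fermat.Agent.LT Fermat.Agent.LT.T7.H277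

attribute [local instance] Fermat.Agent.LT.T5.instMeasurableSpaceG

/-- The sum of two regular functions is regular. -/
theorem isTwRegular_add826 {K : Type} [Field K] [NumberField K] {s : T5.AdelicAut K} {l : ℕ}
    {k : Subfield K} {f₀ f₁ : G K → ℂ} (h₀ : T5.IsTwRegular s l k f₀)
    (h₁ : T5.IsTwRegular s l k f₁) : T5.IsTwRegular s l k (fun x => f₀ x + f₁ x) := by
  intro x δ z hz hne
  by_cases h0 : f₀ (x⁻¹ * T5.ratG δ * s.onG x * z) = 0
  · refine h₁ x δ z hz ?_
    intro h1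
    apply hne
    show f₀ _ + f₁ _ = 0
    rw [h0, h1, add_zero]
  · exact h₀ x δ z hz h0

/-- **LEAF T7.G1Q = `GeomQC`, VERBATIM, UNCONDITIONAL.** -/
theorem geomQC826 (F : Type) [Field F] [NumberField F] : GeomQC F := by
  intro D hD hU' hU0 hU1 hNC hNI φ' f₀ f₁ hφ' hr' hf₀ hr₀ hf₁ hr₁ hm
  classical
  have hcd : T6.IsCyclicData ℚ F D.l (algebraMap ℚ F) D.s.σ := isCyclicData277 hD
  obtain ⟨-, hU'2⟩ := hU' D.R'.μ D.R'.F D.R'.r hD.frame'.frame hD.frame'.ray hD.aut φ' hφ' hr'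
  obtain ⟨hfin0, hU02⟩ := hU0 D.R.μ D.R.F D.R.r hD.frame.frame hD.frame.ray
    (T5.autPreserves_id D.𝔫 D.R.μ D.R.r) f₀ hf₀ hr₀
  obtain ⟨hfin1, hU12⟩ := hU1 D.R.μ D.R.F D.R.r hD.frame.frame hD.frame.ray
    (T5.autPreserves_id D.𝔫 D.R.μ D.R.r) f₁ hf₁ hr₁
  -- domains
  have hdom' : ∀ δ : GL (Fin 2) F, ∃ Fδ : Set (G F), T5.IsTwDomain D.s δ Fδ := fun δ =>
    exists_isTwDomain277 (T1.H309.adNormC309 F) hD.frame'.frame D.s δ
  have hdom : ∀ γ : GL (Fin 2) ℚ, ∃ Fγ : Set (G ℚ),
      T5.IsTwDomain (T5.AdelicAut.id ℚ) γ Fγ := fun γ =>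
    exists_isTwDomain277 (T1.H309.adNormC309 ℚ) hD.frame.frame (T5.AdelicAut.id ℚ) γ
  choose Fd' hFd' using hdom'
  choose Fd hFd using hdom
  -- representatives
  let rep' : T5.TwClass D.s → GL (Fin 2) F := Quotient.out
  let rep : T5.TwClass (T5.AdelicAut.id ℚ) → GL (Fin 2) ℚ := Quotient.out
  have hrep' : ∀ c, Quotient.mk (T5.twSetoid D.s) (rep' c) = c := fun c => Quotient.out_eq c
  have hrep : ∀ c, Quotient.mk (T5.twSetoid (T5.AdelicAut.id ℚ)) (rep c) = c :=
    fun c => Quotient.out_eq c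
  obtain ⟨-, e1⟩ := hU'2 rep' (fun c => Fd' (rep' c)) hrep' (fun c => hFd' _)
  obtain ⟨hint0, e20⟩ := hU02 rep (fun c => Fd (rep c)) hrep (fun c => hFd _)
  obtain ⟨hint1, e21⟩ := hU12 rep (fun c => Fd (rep c)) hrep (fun c => hFd _)
  -- the sum
  have hr : T5.IsTwRegular (T5.AdelicAut.id ℚ) 1 ⊤ (fun x => f₀ x + f₁ x) :=
    isTwRegular_add826 hr₀ hr₁
  have hadd : ∀ (δ : GL (Fin 2) ℚ) (x : G ℚ),
      T5.twTerm D.R.r (T5.AdelicAut.id ℚ) (fun y => f₀ y + f₁ y) δ x
        = T5.twTerm D.R.r (T5.AdelicAut.id ℚ) f₀ δ x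
          + T5.twTerm D.R.r (T5.AdelicAut.id ℚ) f₁ δ x :=
    fun δ x => twTerm_add277 (T1.H309.adNormC309 ℚ) hD.frame.ray _ hf₀.supp hf₁.supp δ x
  -- the supports of the two unfolded sums are finite
  have hsupp : ∀ (f : G ℚ → ℂ),
      {c : T5.TwClass (T5.AdelicAut.id ℚ) | ∃ δ : GL (Fin 2) ℚ,
        Quotient.mk (T5.twSetoid (T5.AdelicAut.id ℚ)) δ = c ∧
          ∃ x : G ℚ, T5.twTerm D.R.r (T5.AdelicAut.id ℚ) f δ x ≠ 0}.Finite →
      (Function.support fun c : T5.TwClass (T5.AdelicAut.id ℚ) =>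
        ∫ x in Fd (rep c), T5.twTerm D.R.r (T5.AdelicAut.id ℚ) f (rep c) x ∂D.R.μ).Finite := by
    intro f hfin
    refine hfin.subset ?_
    intro c hc
    rw [Function.mem_support] at hc
    refine ⟨rep c, hrep c, ?_⟩
    by_contra hx
    simp only [not_exists, not_not] at hx
    exact hc (integral_twTerm_eq_zero277 D.R.μ _ hx)
  have e2 : geomSide (T5.AdelicAut.id ℚ) D.R f₀ + geomSide (T5.AdelicAut.id ℚ) D.R f₁
      = ∑ᶠ c : T5.TwClass (T5.AdelicAut.id ℚ),
          ∫ x in Fd (rep c),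
            T5.twTerm D.R.r (T5.AdelicAut.id ℚ) (fun y => f₀ y + f₁ y) (rep c) x ∂D.R.μ := by
    show (∫ x in D.R.F, T5.twKer D.R.r (T5.AdelicAut.id ℚ) f₀ x x ∂D.R.μ)
      + (∫ x in D.R.F, T5.twKer D.R.r (T5.AdelicAut.id ℚ) f₁ x x ∂D.R.μ) = _
    rw [e20, e21, ← finsum_add_distrib (hsupp f₀ hfin0) (hsupp f₁ hfin1)]
    refine finsum_congr fun c => ?_
    rw [← integral_add (hint0 c) (hint1 c)]
    refine integral_congr_ae (Filter.Eventually.of_forall fun x => ?_)
    exact (hadd (rep c) x).symm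
  show (∫ x in D.R'.F, T5.twKer D.R'.r D.s φ' x x ∂D.R'.μ)
    = geomSide (T5.AdelicAut.id ℚ) D.R f₀ + geomSide (T5.AdelicAut.id ℚ) D.R f₁
  rw [e1, e2]
  -- the relation between the classes
  let rel : T5.TwClass D.s → T5.TwClass (T5.AdelicAut.id ℚ) → Prop := fun c' c =>
    T7.IsNormOf D (rep' c') (rep c) ∧ T6.IsEll (rep c)
  -- (R1) the relation is functional
  have R1 : ∀ c' c₁ c₂, rel c' c₁ → rel c' c₂ → c₁ = c₂ := by
    intro c' c₁ c₂ h₁ h₂
    have hc : IsConj (Matrix.GeneralLinearGroup.map (algebraMap ℚ F) (rep c₁))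
        (Matrix.GeneralLinearGroup.map (algebraMap ℚ F) (rep c₂)) := h₁.1.symm.trans h₂.1
    have hc' : IsConj (rep c₁) (rep c₂) :=
      isConj_of_map277 (algebraMap ℚ F) (noRoot_of_isEll277 h₁.2) hc
    rw [← hrep c₁, ← hrep c₂]
    exact Quotient.sound ((twConj_id_iff277 _ _).2 hc')
  -- (R2) the relation is injective
  have R2 : ∀ c₁' c₂' c, rel c₁' c → rel c₂' c → c₁' = c₂' := by
    intro c₁' c₂' c h₁ h₂
    have hc : IsConj (T6.twNorm D.s.σ D.l (rep' c₁')) (T6.twNorm D.s.σ D.l (rep' c₂')) := by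
      rw [← normUpTo_eq_twNorm277, ← normUpTo_eq_twNorm277]
      exact h₁.1.trans h₂.1.symm
    have hreg : T6.IsReg (T6.twNorm D.s.σ D.l (rep' c₁')) := isReg_of_isNormOf277 h₁.2 h₁.1
    obtain ⟨x, hx⟩ := hNI ℚ F D.l (algebraMap ℚ F) D.s.σ hcd (rep' c₁') (rep' c₂') hreg hc
    rw [← hrep' c₁', ← hrep' c₂']
    exact Quotient.sound ⟨x, hx⟩
  -- (R3) a class upstairs with a non-zero term is related to a class downstairs
  have R3 : ∀ c', (∃ x, T5.twTerm D.R'.r D.s φ' (rep' c') x ≠ 0) → ∃ c, rel c' c := by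
    rintro c' ⟨x, hx⟩
    have hreg : T5.IsEllRegOver D.k (D.s.normUpTo D.l (rep' c')) :=
      ellReg_of_twTerm_ne277 hD.frame'.ray hr' hx
    obtain ⟨γ, hγ⟩ := hNC ℚ F D.l (algebraMap ℚ F) D.s.σ hcd (rep' c')
    have hn : T7.IsNormOf D (rep' c') γ := by
      show IsConj (D.s.normUpTo D.l (rep' c')) _
      rw [normUpTo_eq_twNorm277]
      exact hγ
    have hnr : NoRoot277 γ := noRoot_of_isNormOf277 hD hreg hn
    have hq : T5.TwConj (T5.AdelicAut.id ℚ)
        (rep (Quotient.mk (T5.twSetoid (T5.AdelicAut.id ℚ)) γ)) γ :=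
      Quotient.exact (hrep (Quotient.mk (T5.twSetoid (T5.AdelicAut.id ℚ)) γ))
    have hq' : IsConj (rep (Quotient.mk (T5.twSetoid (T5.AdelicAut.id ℚ)) γ)) γ :=
      (twConj_id_iff277 _ _).1 hq
    refine ⟨Quotient.mk (T5.twSetoid (T5.AdelicAut.id ℚ)) γ, ?_, ?_⟩
    · exact hn.trans (isConj_map277 (algebraMap ℚ F) hq'.symm)
    · exact isEll_of_noRoot277 (noRoot_conj277 hq'.symm hnr)
  -- the two families of integrals
  let I' : T5.TwClass D.s → ℂ := fun c' =>
    ∫ x in Fd' (rep' c'), T5.twTerm D.R'.r D.s φ' (rep' c') x ∂D.R'.μ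
  let I : T5.TwClass (T5.AdelicAut.id ℚ) → ℂ := fun c =>
    ∫ x in Fd (rep c),
      T5.twTerm D.R.r (T5.AdelicAut.id ℚ) (fun y => f₀ y + f₁ y) (rep c) x ∂D.R.μ
  show ∑ᶠ c', I' c' = ∑ᶠ c, I c
  let S' : Set (T5.TwClass D.s) := {c' | ∃ c, rel c' c}
  let S : Set (T5.TwClass (T5.AdelicAut.id ℚ)) := {c | ∃ c', rel c' c}
  -- (1) the classes upstairs outside `S'` contribute `0`
  have Z' : ∀ c', c' ∉ S' → I' c' = 0 := by
    intro c' hc'
    apply integral_twTerm_eq_zero277
    intro x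
    by_contra hx
    exact hc' (R3 c' ⟨x, hx⟩)
  -- (2) the classes downstairs outside `S` contribute `0`
  have Z : ∀ c, c ∉ S → I c = 0 := by
    intro c hc
    by_cases hE : T6.IsEll (rep c)
    · apply hm.nonnorm (rep c) hE _ (Fd (rep c)) (hFd _)
      rintro ⟨δ, hδ⟩
      apply hc
      refine ⟨Quotient.mk (T5.twSetoid D.s) δ, ?_, hE⟩
      have hq : T5.TwConj D.s (rep' (Quotient.mk (T5.twSetoid D.s) δ)) δ :=
        Quotient.exact (hrep' (Quotient.mk (T5.twSetoid D.s) δ))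
      exact (isConj_normUpTo277 D.s D.l hD.cyc.pow_eq hq).trans hδ
    · apply integral_twTerm_eq_zero277
      intro x
      by_contra hx
      apply hE
      have hreg : T5.IsEllRegOver ⊤ ((T5.AdelicAut.id ℚ).normUpTo 1 (rep c)) :=
        ellReg_of_twTerm_ne277 hD.frame.ray hr hx
      rw [normUpTo_one277] at hreg
      exact isEll_of_noRoot277 (fun y => noRoot_of_ellRegOver277 ⊤ hreg y (Subfield.mem_top y))
  -- (3) related classes contribute the same
  have E : ∀ c' c, rel c' c → I' c' = I c := by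
    intro c' c h
    exact hm.norm (rep' c') (rep c) h.2 h.1 (Fd' (rep' c')) (Fd (rep c)) (hFd' _) (hFd _)
  -- the bijection
  let e : T5.TwClass D.s → T5.TwClass (T5.AdelicAut.id ℚ) := fun c' =>
    if h : ∃ c, rel c' c then h.choose else Quotient.mk _ 1
  have he : ∀ c' (h : ∃ c, rel c' c), rel c' (e c') := by
    intro c' h
    have : e c' = h.choose := dif_pos h
    rw [this]
    exact h.choose_spec
  have hbij : Set.BijOn e S' S := by
    refine ⟨?_, ?_, ?_⟩
    · intro c' hc'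
      exact ⟨c', he c' hc'⟩
    · intro c₁' h₁ c₂' h₂ h12
      have r₁ := he c₁' h₁
      have r₂ := he c₂' h₂
      rw [h12] at r₁
      exact R2 _ _ _ r₁ r₂
    · rintro c ⟨c', hc'⟩
      exact ⟨c', ⟨c, hc'⟩, R1 c' _ _ (he c' ⟨c, hc'⟩) hc'⟩
  have s1 : ∑ᶠ c', I' c' = ∑ᶠ c' ∈ S', I' c' := by
    rw [← finsum_mem_univ]
    apply finsum_mem_inter_support_eq
    ext c'
    simp only [Set.mem_inter_iff, Set.mem_univ, true_and, Function.mem_support]
    constructor
    · intro h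
      refine ⟨?_, h⟩
      by_contra hc'
      exact h (Z' c' hc')
    · exact fun h => h.2
  have s2 : ∑ᶠ c, I c = ∑ᶠ c ∈ S, I c := by
    rw [← finsum_mem_univ]
    apply finsum_mem_inter_support_eq
    ext c
    simp only [Set.mem_inter_iff, Set.mem_univ, true_and, Function.mem_support]
    constructor
    · intro h
      refine ⟨?_, h⟩
      by_contra hc
      exact h (Z c hc)
    · exact fun h => h.2
  rw [s1, s2]
  exact finsum_mem_eq_of_bijOn e hbij (fun c' hc' => E c' (e c') (he c' hc'))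

/-- **The spectral identity for matched triples** from the three towers of T5 and the two class
leaves of T6 (`GeomQC` is closed). -/
theorem specIdQC_of_towers826 (F : Type) [Field F] [NumberField F]
    (hT' : ∀ D : CompData ℚ F, IsCompData D → T5.Tower D.s D.l D.k D.𝔑 T5.trivType)
    (hT0 : ∀ 𝔫 : Ideal (𝓞 ℚ), 𝔫 ≠ ⊥ → T5.Tower (T5.AdelicAut.id ℚ) 1 ⊤ 𝔫 T5.trivType)
    (hT1 : ∀ 𝔫 : Ideal (𝓞 ℚ), 𝔫 ≠ ⊥ → T5.Tower (T5.AdelicAut.id ℚ) 1 ⊤ 𝔫 wtOne)
    (hN : T6.NormClassC) (hI : T6.NormInjC) : SpecIdQC F :=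
  specIdQC_of hT' hT0 hT1 hN hI (geomQC826 F)

end Fermat.Agent.LT.T7.L2Q
end

end
-- ===== PACK-END LT/T7/H826/GeomQ.lean

-- ===== PACK-BEGIN LT/T7/H936/BCUnit.lean
section




/-!
# Row LT, tower T7, leaf T7.L2.3.4 `SD534.BCUnitC` CLOSED (helper936)

OFF-MAIN.  `bcUnitC936 K K' : SD534.BCUnitC K K'`, VERBATIM against
`LT/T7/H534/SpecDownSpec.lean` (helper534@756e78a11, sha256 `3f1c4f48…`).
The algebra is `conj_satakePow936`, `norm_satakePow_le936` of `BCUnitCore.lean`.
-/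

set_option autoImplicit false

open AutomorphicForm IsDedekindDomain NumberField
open scoped ComplexConjugate

noncomputable section

namespace Fermat.Agent.LT.T7.H936

open Fermat.Agent.LT.T7 Fermat.Agent.LT.T7.SD534

/-- The norm of a prime of a number ring is at least `1`. -/
theorem one_le_absNorm936 {K : Type} [Field K] [NumberField K] (v : HeightOneSpectrum (𝓞 K)) :
    (1 : ℝ) ≤ (Ideal.absNorm v.asIdeal : ℝ) := by
  have h : Ideal.absNorm v.asIdeal ≠ 0 := fun h0 => v.ne_bot (Ideal.absNorm_eq_zero_iff.mp h0)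
  exact_mod_cast Nat.one_le_iff_ne_zero.mpr h

/-- **T7.L2.3.4 (the base change of a unitary datum is unitary).** -/
theorem bcUnitC936 (K K' : Type) [Field K] [NumberField K] [Field K'] [NumberField K']
    [Algebra K K'] : BCUnitC K K' := by
  intro S' 𝔫 c C hover hres hU hBC
  refine ⟨fun w hw => ?_, fun w d hd => ?_⟩
  · obtain ⟨v, f, hvf⟩ := hres w
    have hv : ¬ v.asIdeal ∣ 𝔫 := hover w hw v hvf.1
    obtain ⟨hb, ha, hq⟩ := hU.1 v hv
    obtain ⟨hCa, hCb⟩ := hBC.1 w hw v f hvf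
    have hN : (Ideal.absNorm w.asIdeal : ℝ) = (Ideal.absNorm v.asIdeal : ℝ) ^ f := by
      rw [hvf.2]
      push_cast
      rfl
    refine ⟨?_, ?_, ?_⟩
    · rw [hCb, norm_pow, hb, one_pow]
    · rw [hCa, hCb, map_pow]
      exact conj_satakePow936 hb ha f
    · rw [hCa, hN]
      exact norm_satakePow_le936 (one_le_absNorm936 v) hb ha hq f
  · rw [hBC.2 w d]
    exact hU.2 _ d hd

end Fermat.Agent.LT.T7.H936

end
end
-- ===== PACK-END LT/T7/H936/BCUnit.lean

-- ===== PACK-BEGIN LT/T7/H966/BCData.lean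
section



/-!
# Row LT, tower T7, leaf T7.L2.3.3 `SD534.BCDataC` (helper966) -- OFF-MAIN

`bcDataC966 : Fermat.Agent.LT.T7.SD534.BCDataC K K'`, VERBATIM the Prop of
`LT/T7/H534/SpecDownSpec.lean` (helper534@756e78a11, sha256 3f1c4f486c3ea8a9).

Every eigen-datum `c` over `K` has a base change datum `C` over `K'` (outside any `S'`):
`C.a w`, `C.b w` are defined by a choice of `(v, f)` with `HasResDeg K K' v w f` (and `0` if
there is none), `C.m w d = c.m (w.comap (algebraMap K K')) d`.  The choice does not matter: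
`PlaceOver` determines `v` (an element of `𝓞 K` lies in `v` iff its image lies in `w`), and
`N w = (N v) ^ f` with `N v ≥ 2` determines `f`.
-/

set_option autoImplicit false
set_option linter.unusedSectionVars false

open AutomorphicForm IsDedekindDomain NumberField

noncomputable section

namespace Fermat.Agent.LT.T7.H966

open Fermat.Agent.LT.T7

variable {K K' : Type} [Field K] [NumberField K] [Field K'] [NumberField K'] [Algebra K K']

/-- The image in `𝓞 K'` of an element of `𝓞 K`. -/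
theorem exists_image966 (x : 𝓞 K) : ∃ y : 𝓞 K', (y : K') = algebraMap K K' (x : K) := by
  have hx : IsIntegral ℤ (x : K) := x.2
  have hy : IsIntegral ℤ (algebraMap K K' (x : K)) := hx.map (algebraMap K K').toIntAlgHom
  exact ⟨⟨algebraMap K K' (x : K), hy⟩, rfl⟩

/-- `PlaceOver` determines the place below. -/
theorem placeOver_unique966 {v v' : HeightOneSpectrum (𝓞 K)} {w : HeightOneSpectrum (𝓞 K')}
    (h : PlaceOver K K' v w) (h' : PlaceOver K K' v' w) : v = v' := by
  apply HeightOneSpectrum.ext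
  ext x
  obtain ⟨y, hy⟩ := exists_image966 (K' := K') x
  rw [h x y hy, h' x y hy]

/-- The absolute norm of a finite place is at least `2`. -/
theorem two_le_absNorm966 (v : HeightOneSpectrum (𝓞 K)) : 2 ≤ Ideal.absNorm v.asIdeal := by
  have h0 : Ideal.absNorm v.asIdeal ≠ 0 := by
    rw [Ne, Ideal.absNorm_eq_zero_iff]
    exact v.ne_bot
  have h1 : Ideal.absNorm v.asIdeal ≠ 1 := by
    rw [Ne, Ideal.absNorm_eq_one_iff]
    exact v.isPrime.ne_top
  omega

/-- `HasResDeg` determines the place below and the residue degree. -/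
theorem hasResDeg_unique966 {v v' : HeightOneSpectrum (𝓞 K)} {w : HeightOneSpectrum (𝓞 K')}
    {f f' : ℕ} (h : HasResDeg K K' v w f) (h' : HasResDeg K K' v' w f') : v = v' ∧ f = f' := by
  have hv : v = v' := placeOver_unique966 h.1 h'.1
  subst hv
  refine ⟨rfl, ?_⟩
  have hpow : Ideal.absNorm v.asIdeal ^ f = Ideal.absNorm v.asIdeal ^ f' := by
    rw [← h.2, ← h'.2]
  exact Nat.pow_right_injective (two_le_absNorm966 v) hpow

/-- The places below `w` with their residue degrees, as pairs. -/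
def BelowPair966 (K K' : Type) [Field K] [NumberField K] [Field K'] [NumberField K']
    [Algebra K K'] (w : HeightOneSpectrum (𝓞 K')) : Prop :=
  ∃ p : HeightOneSpectrum (𝓞 K) × ℕ, HasResDeg K K' p.1 w p.2

open Classical in
/-- The chosen pair (place below, residue degree) of `w`, if there is one. -/
def below966 (K : Type) {K' : Type} [Field K] [NumberField K] [Field K'] [NumberField K']
    [Algebra K K'] (w : HeightOneSpectrum (𝓞 K')) :
    Option (HeightOneSpectrum (𝓞 K) × ℕ) :=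
  if h : BelowPair966 K K' w then some h.choose else none

theorem below966_eq {v : HeightOneSpectrum (𝓞 K)} {w : HeightOneSpectrum (𝓞 K')} {f : ℕ}
    (h : HasResDeg K K' v w f) : below966 K w = some (v, f) := by
  have hex : BelowPair966 K K' w := ⟨(v, f), h⟩
  have hsp : HasResDeg K K' hex.choose.1 w hex.choose.2 := hex.choose_spec
  obtain ⟨hv, hf⟩ := hasResDeg_unique966 hsp h
  have hp : hex.choose = (v, f) := Prod.ext hv hf
  simp only [below966, dif_pos hex, hp]

/-- The base change datum of `c`. -/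
def bcData966 (c : EigData K) : EigData K' where
  a := fun w =>
    match below966 K w with
    | some p => satakePow p.2 (c.a p.1) (c.b p.1)
    | none => 0
  b := fun w =>
    match below966 K w with
    | some p => c.b p.1 ^ p.2
    | none => 0
  m := fun w d => c.m (w.comap (algebraMap K K')) d

/-- The base change datum is a base change datum, outside every `S'`. -/
theorem isBCData_bcData966 (c : EigData K) (S' : Finset (HeightOneSpectrum (𝓞 K'))) :
    IsBCData c (bcData966 (K' := K') c) S' := by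
  refine ⟨?_, fun w d => rfl⟩
  intro w _ v f hvf
  have hb := below966_eq hvf
  constructor
  · simp only [bcData966, hb]
  · simp only [bcData966, hb]

/-- **LEAF T7.L2.3.3 `SD534.BCDataC`.** -/
theorem bcDataC966 (K K' : Type) [Field K] [NumberField K] [Field K'] [NumberField K']
    [Algebra K K'] : Fermat.Agent.LT.T7.SD534.BCDataC K K' := by
  intro S' c
  exact ⟨bcData966 c, isBCData_bcData966 c S'⟩

end Fermat.Agent.LT.T7.H966

end
end
-- ===== PACK-END LT/T7/H966/BCData.lean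

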